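import Mathlib
import Mathlib.AlgebraicGeometry.EllipticCurve.Projective.Point
import Mathlib.Tactic
import Mathlib.AlgebraicGeometry.EllipticCurve.Affine.Point
import Mathlib.RingTheory.Valuation.ValuationSubring
import Fermat.Prelude.Def_Algebra_PatchingDatum
import Mathlib.LinearAlgebra.FreeModule.Finite.Basic
import Mathlib.LinearAlgebra.FreeModule.Basic
import Mathlib.RingTheory.Ideal.Operations
import Mathlib.RingTheory.Finiteness.Basic
import Mathlib.LinearAlgebra.Basis.Basic
import Fermat.Prelude.Def_FLTPrelim_ModularRep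
import Fermat.Prelude.Def_WeierstrassCurve_PeuRamifiee
import Fermat.Prelude.Def_ModularCurve_GenusNumerics
import Fermat.Agent.Pack.S43C.E4L0
import Fermat.Agent.Pack.S43MC.G0E29L0

set_option linter.all false

-- ===== PACK-BEGIN S59/H67/NCDefs.lean
section


/-!
# Row S59, piece N1 (Wiles–Lenstra numerical criterion): definitions (helper67)

* `etaIdeal π` : the congruence ideal `η = π (Ann (ker π))` of an augmented `O`-algebra
  `π : T →ₐ[O] O`.
* `SimpleSocleMod J z` : in a local ring `E`, the socle `(J : 𝔪) / J` of `E ⧸ J` is the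
  one-dimensional space spanned by the class of `z` (elementwise formulation).
-/

set_option autoImplicit false

namespace Fermat.Agent.S59.H67

open IsLocalRing

/-- The congruence ideal `η_T = π_T (Ann_T (ker π_T))` of an augmented `O`-algebra. -/
def etaIdeal {O T : Type*} [CommRing O] [CommRing T] [Algebra O T] (π : T →ₐ[O] O) : Ideal O :=
  Ideal.map π (RingHom.ker π).annihilator

/-- `z` spans the socle of `E ⧸ J`: `z ∉ J`, `𝔪 z ⊆ J`, and every `w` with `𝔪 w ⊆ J` is a
multiple of `z` modulo `J`. -/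
def SimpleSocleMod {E : Type*} [CommRing E] [IsLocalRing E] (J : Ideal E) (z : E) : Prop :=
  z ∉ J ∧ (∀ a ∈ maximalIdeal E, a * z ∈ J) ∧
    ∀ w : E, (∀ a ∈ maximalIdeal E, a * w ∈ J) → ∃ c : E, w - c * z ∈ J

end Fermat.Agent.S59.H67

end
-- ===== PACK-END S59/H67/NCDefs.lean

-- ===== PACK-BEGIN S59/H67/TateNonvanish.lean
section


/-!
# Row S59, piece N1-A: Tate's lemma, non-vanishing half (helper67)

Let `k` be a commutative ring, `Q = k⟦X_i : i ∈ σ⟧` (`σ` finite), `ϖ ∈ k` a non-unit.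
If `h = G · X` and `X_i ^ a ∈ (h) + (ϖ)` for all `i`, then `det G ∉ (h) + (ϖ)`.

The proof is elementary (no Koszul complex): one compares with the monomial complete
intersection `(X_i ^ a)` through "box ideals" defined by coefficient conditions.
-/

set_option autoImplicit false
set_option linter.unusedSectionVars false

namespace Fermat.Agent.S59.H67

open MvPowerSeries

section Box

variable {σ : Type*} {k : Type*} [CommRing k]

/-- The ideal of power series `f` such that `coeff e f ∈ 𝔠` for all exponents `e` with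
`e j < a` for all `j ∈ U`. -/
def boxIdeal (𝔠 : Ideal k) (U : Set σ) (a : ℕ) : Ideal (MvPowerSeries σ k) where
  carrier := {f | ∀ e : σ →₀ ℕ, (∀ j ∈ U, e j < a) → coeff e f ∈ 𝔠}
  zero_mem' := by
    intro e _
    simp
  add_mem' := by
    intro f g hf hg e he
    rw [map_add]
    exact 𝔠.add_mem (hf e he) (hg e he)
  smul_mem' := by
    classical
    intro c f hf e he
    rw [smul_eq_mul, coeff_mul]
    refine Ideal.sum_mem _ ?_
    rintro ⟨p, q⟩ hpq
    have hpq' : p + q = e := by simpa using hpq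
    have hq : ∀ j, q j ≤ e j := by
      intro j
      rw [← hpq']
      simp
    exact 𝔠.mul_mem_left _ (hf q (fun j hj => lt_of_le_of_lt (hq j) (he j hj)))

theorem mem_boxIdeal {𝔠 : Ideal k} {U : Set σ} {a : ℕ} {f : MvPowerSeries σ k} :
    f ∈ boxIdeal 𝔠 U a ↔ ∀ e : σ →₀ ℕ, (∀ j ∈ U, e j < a) → coeff e f ∈ 𝔠 := Iff.rfl

theorem boxIdeal_mono (𝔠 : Ideal k) {U U' : Set σ} (h : U ⊆ U') (a : ℕ) :
    boxIdeal 𝔠 U a ≤ boxIdeal 𝔠 U' a := by
  intro f hf e he
  exact hf e (fun j hj => he j (h hj))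

theorem X_pow_mem_boxIdeal (𝔠 : Ideal k) {U : Set σ} {j : σ} (hj : j ∈ U) (a : ℕ) :
    (X j : MvPowerSeries σ k) ^ a ∈ boxIdeal 𝔠 U a := by
  classical
  intro e he
  rw [coeff_X_pow]
  split_ifs with h
  · exfalso
    have := he j hj
    rw [h] at this
    simp at this
  · exact 𝔠.zero_mem

theorem C_mul_mem_boxIdeal (𝔠 : Ideal k) (U : Set σ) (a : ℕ) {c : k} (hc : c ∈ 𝔠)
    (g : MvPowerSeries σ k) : C c * g ∈ boxIdeal 𝔠 U a := by
  classical
  intro e _
  have : C (σ := σ) c * g = c • g := by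
    rw [← MvPowerSeries.smul_eq_C_mul]
  rw [this, MvPowerSeries.coeff_smul]
  exact 𝔠.mul_mem_right _ hc

theorem mem_boxIdeal_of_X_mul_mem (𝔠 : Ideal k) {U : Set σ} {r : σ} (hr : r ∉ U) (a : ℕ)
    {f : MvPowerSeries σ k} (hf : X r * f ∈ boxIdeal 𝔠 U a) : f ∈ boxIdeal 𝔠 U a := by
  classical
  intro e he
  have h1 : coeff (Finsupp.single r 1 + e) (X r * f) = coeff e f := by
    rw [X_def, coeff_add_monomial_mul, one_mul]
  rw [← h1]
  apply hf
  intro j hj
  have hjr : j ≠ r := fun h => hr (h ▸ hj)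
  simpa [Finsupp.single_apply, hjr.symm] using he j hj

end Box

section Det

variable {σ : Type*} [Fintype σ] [DecidableEq σ] {k : Type*} [CommRing k]

/-- The monomial `∏ X_i ^ b` has coefficient `1` at the exponent `(b, …, b)`. -/
theorem coeff_prod_X_pow (b : ℕ) :
    coeff (Finsupp.equivFunOnFinite.symm (fun _ : σ => b))
      (∏ i : σ, (X i : MvPowerSeries σ k) ^ b) = 1 := by
  have h : (∏ i : σ, (X i : MvPowerSeries σ k) ^ b) =
      monomial (Finsupp.equivFunOnFinite.symm (fun _ : σ => b)) 1 := by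
    have h1 : (∏ i : σ, (X i : MvPowerSeries σ k) ^ b) =
        ((∏ i : σ, (MvPolynomial.X i : MvPolynomial σ k) ^ b : MvPolynomial σ k) :
          MvPowerSeries σ k) := by
      rw [← MvPolynomial.coeToMvPowerSeries.ringHom_apply, map_prod]
      refine Finset.prod_congr rfl (fun i _ => ?_)
      rw [map_pow, MvPolynomial.coeToMvPowerSeries.ringHom_apply, MvPolynomial.coe_X]
    rw [h1, ← MvPolynomial.coe_monomial]
    congr 1
    rw [MvPolynomial.monomial_eq, map_one, one_mul, Finsupp.prod_pow]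
    rfl
  rw [h, coeff_monomial_same]

theorem prod_X_pow_notMem_boxIdeal (𝔠 : Ideal k) (h𝔠 : (1 : k) ∉ 𝔠) (b : ℕ) :
    (∏ i : σ, (X i : MvPowerSeries σ k) ^ b) ∉ boxIdeal 𝔠 (Set.univ : Set σ) (b + 1) := by
  intro h
  have := h (Finsupp.equivFunOnFinite.symm (fun _ : σ => b)) (fun j _ => by simp)
  rw [coeff_prod_X_pow] at this
  exact h𝔠 this

/-- Key congruence: if `G' · X ≡ (X_i ^ (b+1))_i` modulo `𝔠`, then
`det G' ≡ ∏ X_i ^ b` modulo the box ideal. -/
theorem det_sub_prod_mem_boxIdeal (𝔠 : Ideal k) (b : ℕ)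
    (G' : Matrix σ σ (MvPowerSeries σ k))
    (hG' : ∀ i, ∑ j, G' i j * X j - (X i : MvPowerSeries σ k) ^ (b + 1) ∈
      boxIdeal 𝔠 (∅ : Set σ) (b + 1)) :
    G'.det - ∏ i : σ, (X i : MvPowerSeries σ k) ^ b ∈
      boxIdeal 𝔠 (Set.univ : Set σ) (b + 1) := by
  set Δ : Matrix σ σ (MvPowerSeries σ k) :=
    Matrix.diagonal (fun i => (X i : MvPowerSeries σ k) ^ b) with hΔ
  have hΔX : ∀ i, ∑ j, Δ i j * X j = (X i : MvPowerSeries σ k) ^ (b + 1) := by
    intro i
    rw [Finset.sum_eq_single i]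
    · rw [hΔ, Matrix.diagonal_apply_eq, pow_succ]
    · intro j _ hji
      rw [hΔ, Matrix.diagonal_apply_ne _ hji.symm, zero_mul]
    · intro h
      exact absurd (Finset.mem_univ i) h
  -- the interpolating matrices
  let M : Finset σ → Matrix σ σ (MvPowerSeries σ k) :=
    fun S => Matrix.of (fun i => if i ∈ S then G' i else Δ i)
  have hMX : ∀ (S : Finset σ) (i : σ), ∑ j, M S i j * X j - (X i : MvPowerSeries σ k) ^ (b + 1) ∈
      boxIdeal 𝔠 (∅ : Set σ) (b + 1) := by
    intro S i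
    by_cases hi : i ∈ S
    · have : ∀ j, M S i j = G' i j := fun j => by simp [M, hi]
      simp only [this]
      exact hG' i
    · have : ∀ j, M S i j = Δ i j := fun j => by simp [M, hi]
      simp only [this]
      rw [hΔX i, sub_self]
      exact Ideal.zero_mem _
  have key : ∀ S : Finset σ, (M S).det - Δ.det ∈ boxIdeal 𝔠 (Set.univ : Set σ) (b + 1) := by
    intro S
    induction S using Finset.induction_on with
    | empty =>
      have : M ∅ = Δ := by
        ext i j
        simp [M]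
      rw [this, sub_self]
      exact Ideal.zero_mem _
    | insert r S hr ih =>
      -- `M (insert r S)` and `M S` differ only in row `r`
      have h1 : M (insert r S) = (M S).updateRow r (G' r) := by
        ext i j
        by_cases hir : i = r
        · subst hir
          simp [M]
        · simp [M, Matrix.updateRow_apply, hir]
      have h2 : M S = (M S).updateRow r (Δ r) := by
        ext i j
        by_cases hir : i = r
        · subst hir
          simp [M, hr]
        · simp [Matrix.updateRow_apply, hir]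
      set A : Matrix σ σ (MvPowerSeries σ k) := (M S).updateRow r (G' r - Δ r) with hA
      have h3 : (M (insert r S)).det - (M S).det = A.det := by
        have := Matrix.det_updateRow_add (M S) r (G' r - Δ r) (Δ r)
        rw [sub_add_cancel, ← h1, ← h2] at this
        rw [this, hA]
        ring
      -- `A · X` lies in the box ideal for `univ \ {r}`
      have hAX : ∀ i, ∑ j, A i j * X j ∈
          boxIdeal 𝔠 ((Set.univ : Set σ) \ {r}) (b + 1) := by
        intro i
        by_cases hir : i = r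
        · subst hir
          have : ∀ j, A i j = G' i j - Δ i j := fun j => by
            simp [hA, Matrix.updateRow_apply]
          simp only [this, sub_mul, Finset.sum_sub_distrib]
          rw [hΔX i]
          exact boxIdeal_mono 𝔠 (Set.empty_subset _) _ (hG' i)
        · have : ∀ j, A i j = M S i j := fun j => by
            simp [hA, Matrix.updateRow_apply, hir]
          simp only [this]
          have h4 := boxIdeal_mono 𝔠 (Set.empty_subset ((Set.univ : Set σ) \ {r})) _ (hMX S i)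
          have h5 : (X i : MvPowerSeries σ k) ^ (b + 1) ∈
              boxIdeal 𝔠 ((Set.univ : Set σ) \ {r}) (b + 1) :=
            X_pow_mem_boxIdeal 𝔠 (show i ∈ (Set.univ : Set σ) \ {r} from ⟨Set.mem_univ i, hir⟩) _
          have := Ideal.add_mem _ h4 h5
          rwa [sub_add_cancel] at this
      -- Cramer
      have hcr : A.det * X r = ∑ j, A.adjugate r j * ∑ l, A j l * X l := by
        have h6 : (A.adjugate * A).mulVec (fun l => (X l : MvPowerSeries σ k)) r =
            A.det * X r := by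
          rw [Matrix.adjugate_mul]
          simp [Matrix.mulVec, dotProduct, Matrix.smul_apply, Matrix.one_apply]
        rw [← h6, ← Matrix.mulVec_mulVec]
        simp [Matrix.mulVec, dotProduct]
      have h7 : X r * A.det ∈ boxIdeal 𝔠 ((Set.univ : Set σ) \ {r}) (b + 1) := by
        rw [mul_comm, hcr]
        exact Ideal.sum_mem _ (fun j _ => Ideal.mul_mem_left _ _ (hAX j))
      have h8 : A.det ∈ boxIdeal 𝔠 ((Set.univ : Set σ) \ {r}) (b + 1) :=
        mem_boxIdeal_of_X_mul_mem 𝔠 (by simp) _ h7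
      have h9 : A.det ∈ boxIdeal 𝔠 (Set.univ : Set σ) (b + 1) :=
        boxIdeal_mono 𝔠 Set.sdiff_subset _ h8
      have : (M (insert r S)).det - Δ.det = A.det + ((M S).det - Δ.det) := by
        rw [← h3]
        ring
      rw [this]
      exact Ideal.add_mem _ h9 ih
  have hMuniv : M Finset.univ = G' := by
    ext i j
    simp [M]
  have := key Finset.univ
  rwa [hMuniv, hΔ, Matrix.det_diagonal] at this

end Det

section Main

variable {σ : Type*} [Fintype σ] [DecidableEq σ] {k : Type*} [CommRing k]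

/-- **Tate's lemma, non-vanishing half** (general finite index type). -/
theorem det_notMem_span_sup' (ϖ : k) (hϖ : ¬ IsUnit ϖ)
    (h : σ → MvPowerSeries σ k) (G : Matrix σ σ (MvPowerSeries σ k))
    (hG : ∀ i, h i = ∑ j, G i j * X j) (a : ℕ)
    (hprim : ∀ i, (X i : MvPowerSeries σ k) ^ a ∈
      Ideal.span (Set.range h) ⊔ Ideal.span {(C ϖ : MvPowerSeries σ k)}) :
    G.det ∉ Ideal.span (Set.range h) ⊔ Ideal.span {(C ϖ : MvPowerSeries σ k)} := by
  set 𝔠 : Ideal k := Ideal.span {ϖ} with h𝔠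
  have h1 : (1 : k) ∉ 𝔠 := by
    intro h1
    rw [h𝔠, Ideal.mem_span_singleton'] at h1
    obtain ⟨c, hc⟩ := h1
    exact hϖ (IsUnit.of_mul_eq_one c (by rw [mul_comm]; exact hc))
  have hϖ𝔠 : ϖ ∈ 𝔠 := Ideal.subset_span rfl
  -- replace `a` by `a + 1`
  have hprim' : ∀ i, (X i : MvPowerSeries σ k) ^ (a + 1) ∈
      Ideal.span (Set.range h) ⊔ Ideal.span {(C ϖ : MvPowerSeries σ k)} := by
    intro i
    rw [pow_succ]
    exact Ideal.mul_mem_right _ _ (hprim i)
  -- choose `H` and `r`
  have hex : ∀ i, ∃ (c : σ → MvPowerSeries σ k) (r : MvPowerSeries σ k),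
      (X i : MvPowerSeries σ k) ^ (a + 1) = ∑ j, c j * h j + r * C ϖ := by
    intro i
    obtain ⟨u, hu, v, hv, huv⟩ := Submodule.mem_sup.mp (hprim' i)
    obtain ⟨c, hc⟩ := Ideal.mem_span_range_iff_exists_fun.mp hu
    obtain ⟨r, hr⟩ := Ideal.mem_span_singleton'.mp hv
    exact ⟨c, r, by rw [hc, hr, huv]⟩
  choose H r hHr using hex
  let Hm : Matrix σ σ (MvPowerSeries σ k) := Matrix.of H
  have hbox : ∀ (U : Set σ) (g : MvPowerSeries σ k), g * C ϖ ∈ boxIdeal 𝔠 U (a + 1) := by
    intro U g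
    rw [mul_comm]
    exact C_mul_mem_boxIdeal 𝔠 U _ hϖ𝔠 g
  have hHG : ∀ i, ∑ j, (Hm * G) i j * X j = ∑ l, H i l * h l := by
    intro i
    simp only [Matrix.mul_apply, Finset.sum_mul]
    rw [Finset.sum_comm]
    refine Finset.sum_congr rfl (fun l _ => ?_)
    rw [hG l, Finset.mul_sum]
    refine Finset.sum_congr rfl (fun j _ => ?_)
    simp [Hm, mul_assoc]
  have hcong := det_sub_prod_mem_boxIdeal 𝔠 a (Hm * G) (by
    intro i
    rw [hHG i, hHr i]
    have : ∑ j, H i j * h j - (∑ j, H i j * h j + r i * C ϖ) = -(r i * C ϖ) := by ring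
    rw [this]
    exact Ideal.neg_mem_iff _ |>.mpr (hbox _ _))
  intro hdet
  -- `det H * h j` lies in the box ideal
  have hHh : ∀ j, Hm.det * h j ∈ boxIdeal 𝔠 (Set.univ : Set σ) (a + 1) := by
    intro j
    have h6 : (Hm.adjugate * Hm).mulVec h j = Hm.det * h j := by
      rw [Matrix.adjugate_mul]
      simp [Matrix.mulVec, dotProduct, Matrix.smul_apply, Matrix.one_apply]
    rw [← h6, ← Matrix.mulVec_mulVec]
    simp only [Matrix.mulVec, dotProduct]
    refine Ideal.sum_mem _ (fun l _ => Ideal.mul_mem_left _ _ ?_)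
    have h7 : ∑ x, Hm l x * h x = (X l : MvPowerSeries σ k) ^ (a + 1) - r l * C ϖ := by
      rw [hHr l]
      simp [Hm]
    rw [h7]
    exact Ideal.sub_mem _ (X_pow_mem_boxIdeal 𝔠 (Set.mem_univ l) _) (hbox _ _)
  have hdetbox : Hm.det * G.det ∈ boxIdeal 𝔠 (Set.univ : Set σ) (a + 1) := by
    obtain ⟨u, hu, v, hv, huv⟩ := Submodule.mem_sup.mp hdet
    obtain ⟨c, hc⟩ := Ideal.mem_span_range_iff_exists_fun.mp hu
    obtain ⟨s, hs⟩ := Ideal.mem_span_singleton'.mp hv
    rw [← huv, ← hc, ← hs, mul_add, Finset.mul_sum]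
    refine Ideal.add_mem _ (Ideal.sum_mem _ (fun j _ => ?_)) ?_
    · have : Hm.det * (c j * h j) = c j * (Hm.det * h j) := by ring
      rw [this]
      exact Ideal.mul_mem_left _ _ (hHh j)
    · rw [← mul_assoc]
      exact hbox _ _
  rw [Matrix.det_mul] at hcong
  have : (∏ i : σ, (X i : MvPowerSeries σ k) ^ a) ∈ boxIdeal 𝔠 (Set.univ : Set σ) (a + 1) := by
    have := Ideal.sub_mem _ hdetbox hcong
    rwa [sub_sub_cancel] at this
  exact prod_X_pow_notMem_boxIdeal 𝔠 h1 a this

/-- **A.  Tate's lemma, non-vanishing half.**  `h = G·X`, `X_i^a ∈ (h) + (ϖ)`, `ϖ` a non-unit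
of the coefficient ring ⟹ `det G ∉ (h) + (ϖ)`. -/
theorem det_notMem_span_sup {n : ℕ} (ϖ : k) (hϖ : ¬ IsUnit ϖ)
    (h : Fin n → MvPowerSeries (Fin n) k) (G : Matrix (Fin n) (Fin n) (MvPowerSeries (Fin n) k))
    (hG : ∀ i, h i = ∑ j, G i j * X j) (a : ℕ)
    (hprim : ∀ i, (X i : MvPowerSeries (Fin n) k) ^ a ∈
      Ideal.span (Set.range h) ⊔ Ideal.span {(C ϖ : MvPowerSeries (Fin n) k)}) :
    G.det ∉ Ideal.span (Set.range h) ⊔ Ideal.span {(C ϖ : MvPowerSeries (Fin n) k)} :=
  det_notMem_span_sup' ϖ hϖ h G hG a hprim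

end Main

end Fermat.Agent.S59.H67

end
-- ===== PACK-END S59/H67/TateNonvanish.lean

-- ===== PACK-BEGIN S59/H382/NRep.lean
section



/-!
# Row S59, piece CR-FLAT (helper382): normalised projective coordinates on a Weierstrass curve

For a point `P` of a Weierstrass curve over a field which is not a nontrivial `2`-torsion point,
`nrep W P` is the projective representative of `P` normalised by `L = 2Y + a₁X + a₃Z = 1`:
`(x/ψ, y/ψ, 1/ψ)` with `ψ = 2y + a₁x + a₃` for an affine point and `(0, 1/2, 0)` for the origin.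

* `rep_eq_smul_nrep` : every nonsingular representative `V` of `P` is `L(V) • nrep P`.
* `addXYZ_rep` : the chord law `addXYZ` of two representatives of distinct points represents
  the sum.
-/

set_option autoImplicit false
set_option linter.unusedSectionVars false

namespace Fermat.Agent.S59.H382

open WeierstrassCurve
open scoped WeierstrassCurve.Projective

/-- The linear form `L = 2Y + a₁X + a₃Z`. -/
def Lf {R : Type*} [CommRing R] (W : WeierstrassCurve R) (P : Fin 3 → R) : R :=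
  2 * P 1 + W.a₁ * P 0 + W.a₃ * P 2

lemma Lf_smul {R : Type*} [CommRing R] (W : WeierstrassCurve R) (u : R) (P : Fin 3 → R) :
    Lf W (u • P) = u * Lf W P := by
  simp only [Lf, Pi.smul_apply, smul_eq_mul]
  ring

lemma Lf_map {R S : Type*} [CommRing R] [CommRing S] (W : WeierstrassCurve R) (f : R →+* S)
    (P : Fin 3 → R) : Lf (W.map f) (f ∘ P) = f (Lf W P) := by
  simp only [Lf, WeierstrassCurve.map_a₁, WeierstrassCurve.map_a₃, Function.comp_apply, map_add,
    map_mul, map_ofNat]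

variable {K : Type*} [Field K] [DecidableEq K] (W : WeierstrassCurve K)

/-- The standard representative of an affine point. -/
def rep0 : W.toAffine.Point → Fin 3 → K
  | .zero => ![0, 1, 0]
  | .some x y _ => ![x, y, 1]

lemma nonsingular_rep0 (P : W.toAffine.Point) : Projective.Nonsingular W (rep0 W P) := by
  rcases P with _ | ⟨x, y, h⟩
  · exact Projective.nonsingular_zero
  · exact (Projective.nonsingular_some x y).mpr h

lemma toAffine_rep0 (P : W.toAffine.Point) : Projective.Point.toAffine W (rep0 W P) = P := by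
  rcases P with _ | ⟨x, y, h⟩
  · exact Projective.Point.toAffine_zero
  · exact Projective.Point.toAffine_some ((Projective.nonsingular_some x y).mpr h)

/-- Every nonsingular representative is a unit multiple of the standard one. -/
lemma exists_smul_rep0 {V : Fin 3 → K} (hV : Projective.Nonsingular W V) :
    ∃ u : K, u ≠ 0 ∧ V = u • rep0 W (Projective.Point.toAffine W V) := by
  by_cases hz : V 2 = 0
  · rw [Projective.Point.toAffine_of_Z_eq_zero hz]
    obtain ⟨u, hu⟩ := Projective.equiv_zero_of_Z_eq_zero hV hz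
    exact ⟨u, u.ne_zero, hu.symm⟩
  · rw [Projective.Point.toAffine_of_Z_ne_zero hV hz]
    obtain ⟨u, hu⟩ := Projective.equiv_some_of_Z_ne_zero hz
    exact ⟨u, u.ne_zero, hu.symm⟩

/-- `P` is not a nontrivial `2`-torsion point (and `2 ≠ 0`). -/
def N2 (P : W.toAffine.Point) : Prop := Lf W (rep0 W P) ≠ 0

/-- The representative normalised by `L = 1`. -/
noncomputable def nrep (P : W.toAffine.Point) : Fin 3 → K := (Lf W (rep0 W P))⁻¹ • rep0 W P

variable {W}

lemma Lf_nrep {P : W.toAffine.Point} (hP : N2 W P) : Lf W (nrep W P) = 1 := by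
  rw [nrep, Lf_smul, inv_mul_cancel₀ hP]

lemma nonsingular_nrep {P : W.toAffine.Point} (hP : N2 W P) :
    Projective.Nonsingular W (nrep W P) :=
  (Projective.nonsingular_smul _ (Ne.isUnit (inv_ne_zero hP))).mpr (nonsingular_rep0 W P)

lemma toAffine_nrep {P : W.toAffine.Point} (hP : N2 W P) :
    Projective.Point.toAffine W (nrep W P) = P := by
  rw [nrep, Projective.Point.toAffine_smul _ (Ne.isUnit (inv_ne_zero hP)), toAffine_rep0]

/-- Every nonsingular representative `V` of a point `P` which is not `2`-torsion is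
`L(V) • nrep P`, and `L(V) ≠ 0`. -/
lemma rep_eq_smul_nrep {V : Fin 3 → K} (hV : Projective.Nonsingular W V) {P : W.toAffine.Point}
    (hVP : Projective.Point.toAffine W V = P) (hP : N2 W P) :
    Lf W V ≠ 0 ∧ V = Lf W V • nrep W P := by
  obtain ⟨u, hu, hVu⟩ := exists_smul_rep0 W hV
  rw [hVP] at hVu
  have hL : Lf W V = u * Lf W (rep0 W P) := by rw [hVu, Lf_smul]
  refine ⟨by rw [hL]; exact mul_ne_zero hu hP, ?_⟩
  rw [nrep, smul_smul, hL, mul_assoc, mul_inv_cancel₀ hP, mul_one]
  exact hVu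

/-- The chord law on representatives of two distinct points gives a representative of the sum. -/
lemma addXYZ_rep {V₁ V₂ : Fin 3 → K} (h₁ : Projective.Nonsingular W V₁)
    (h₂ : Projective.Nonsingular W V₂)
    (hne : Projective.Point.toAffine W V₁ ≠ Projective.Point.toAffine W V₂) :
    Projective.Nonsingular W (Projective.addXYZ W V₁ V₂) ∧
      Projective.Point.toAffine W (Projective.addXYZ W V₁ V₂) =
        Projective.Point.toAffine W V₁ + Projective.Point.toAffine W V₂ := by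
  have hneq : ¬ V₁ ≈ V₂ := fun h => hne (Projective.Point.toAffine_of_equiv h)
  rw [← Projective.add_of_not_equiv hneq]
  exact ⟨Projective.nonsingular_add h₁ h₂, Projective.Point.toAffine_add h₁ h₂⟩

/-- The chord law in normalised coordinates. -/
theorem addXYZ_nrep {P Q : W.toAffine.Point} (hP : N2 W P) (hQ : N2 W Q) (hPQ : N2 W (P + Q))
    (hne : P ≠ Q) :
    Lf W (Projective.addXYZ W (nrep W P) (nrep W Q)) ≠ 0 ∧
      Projective.addXYZ W (nrep W P) (nrep W Q) =
        Lf W (Projective.addXYZ W (nrep W P) (nrep W Q)) • nrep W (P + Q) := by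
  have h := addXYZ_rep (nonsingular_nrep hP) (nonsingular_nrep hQ)
    (by rw [toAffine_nrep hP, toAffine_nrep hQ]; exact hne)
  rw [toAffine_nrep hP, toAffine_nrep hQ] at h
  exact rep_eq_smul_nrep h.1 h.2 hPQ

/-- Points of odd order are not `2`-torsion. -/
lemma n2_of_odd_nsmul (h2 : (2 : K) ≠ 0) {P : W.toAffine.Point} {N : ℕ} (hN : Odd N)
    (hP : N • P = 0) : N2 W P := by
  rcases P with _ | ⟨x, y, h⟩
  · show Lf W ![0, 1, 0] ≠ 0
    simp [Lf, h2]
  · show Lf W ![x, y, 1] ≠ 0
    intro h0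
    have hy : y = W.toAffine.negY x y := by
      simp only [Lf, Matrix.cons_val_zero, Matrix.cons_val_one, Matrix.cons_val_two,
        Matrix.head_cons, Matrix.tail_cons, mul_one] at h0
      simp only [Affine.negY]
      linear_combination h0
    have hneg : Affine.Point.some x y h = -Affine.Point.some x y h := by
      rw [Affine.Point.neg_some]
      congr 1
    have h2P : (2 : ℕ) • Affine.Point.some x y h = 0 := by
      rw [two_nsmul]
      nth_rewrite 2 [hneg]
      exact add_neg_cancel _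
    obtain ⟨k, rfl⟩ := hN
    have : Affine.Point.some x y h = 0 := by
      have h3 : (2 * k + 1) • Affine.Point.some x y h =
          k • ((2 : ℕ) • Affine.Point.some x y h) + Affine.Point.some x y h := by
        rw [add_smul, one_smul, mul_comm, mul_smul]
      rw [hP, h2P, smul_zero, zero_add] at h3
      exact h3.symm
    exact Affine.Point.some_ne_zero h this

end Fermat.Agent.S59.H382

end
-- ===== PACK-END S59/H382/NRep.lean

-- ===== PACK-BEGIN S05/H245Basic.lean
section



/-!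
# Valuation bounds: a small calculus for `v e ≤ ρ ^ k`

Helper file for statement S05 (kernel of reduction has no prime-to-residue-characteristic torsion).
-/

set_option autoImplicit false

namespace Fermat.Agent.S05.H245

variable {K : Type*} [Field K] {Γ₀ : Type*} [LinearOrderedCommGroupWithZero Γ₀]
  (v : Valuation K Γ₀)

/-- `Bd v ρ k e` means `v e ≤ ρ ^ k`. -/
def Bd (ρ : Γ₀) (k : ℕ) (e : K) : Prop := v e ≤ ρ ^ k

variable {v} {ρ : Γ₀} {j k m : ℕ} {a b e : K}

lemma Bd.add (ha : Bd v ρ k a) (hb : Bd v ρ k b) : Bd v ρ k (a + b) :=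
  v.map_add_le ha hb

lemma Bd.sub (ha : Bd v ρ k a) (hb : Bd v ρ k b) : Bd v ρ k (a - b) :=
  v.map_sub_le ha hb

lemma Bd.neg (ha : Bd v ρ k a) : Bd v ρ k (-a) := by
  unfold Bd at *; rwa [v.map_neg]

lemma Bd.mul (ha : Bd v ρ j a) (hb : Bd v ρ k b) : Bd v ρ (j + k) (a * b) := by
  unfold Bd at *
  rw [map_mul, pow_add]
  exact mul_le_mul' ha hb

lemma Bd.mono (hρ : ρ ≤ 1) (hjk : j ≤ k) (ha : Bd v ρ k a) : Bd v ρ j a :=
  le_trans ha (pow_le_pow_right_of_le_one' hρ hjk)

lemma Bd.mul' (hρ : ρ ≤ 1) (ha : Bd v ρ j a) (hb : Bd v ρ k b) (hm : m ≤ j + k) :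
    Bd v ρ m (a * b) :=
  (ha.mul hb).mono hρ hm

lemma Bd.pow (ha : Bd v ρ j a) (n : ℕ) : Bd v ρ (j * n) (a ^ n) := by
  unfold Bd at *
  rw [map_pow, pow_mul]
  exact pow_le_pow_left' ha n

lemma Bd.pow' (hρ : ρ ≤ 1) (ha : Bd v ρ j a) (n : ℕ) (hm : m ≤ j * n) : Bd v ρ m (a ^ n) :=
  (ha.pow n).mono hρ hm

lemma bd_zero_iff : Bd v ρ 0 a ↔ v a ≤ 1 := by
  unfold Bd; rw [pow_zero]

lemma Bd.of_le_one (ha : v a ≤ 1) : Bd v ρ 0 a := bd_zero_iff.mpr ha

lemma bd_one_iff : Bd v ρ 1 a ↔ v a ≤ ρ := by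
  unfold Bd; rw [pow_one]

lemma Bd.zero_mem : Bd v ρ k (0 : K) := by
  unfold Bd; rw [map_zero]; exact zero_le

lemma Bd.one_mem : Bd v ρ 0 (1 : K) := by
  unfold Bd; rw [map_one, pow_zero]

lemma Bd.natCast (n : ℕ) : Bd v ρ 0 (n : K) := by
  induction n with
  | zero => simpa using (Bd.zero_mem : Bd v ρ 0 (0 : K))
  | succ n ih => simpa using ih.add Bd.one_mem

lemma Bd.ofNat (n : ℕ) [n.AtLeastTwo] : Bd v ρ 0 (OfNat.ofNat n : K) := by
  rw [← Nat.cast_ofNat (R := K)]
  exact Bd.natCast _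

/-- multiplication by an integral element -/
lemma Bd.smul (ha : v a ≤ 1) (hb : Bd v ρ k b) : Bd v ρ k (a * b) := by
  have := (Bd.of_le_one (ρ := ρ) ha).mul hb
  simpa using this

lemma Bd.lt_one (hρ : ρ < 1) (hk : 0 < k) (ha : Bd v ρ k a) : v a < 1 :=
  lt_of_le_of_lt ha (pow_lt_one' hρ hk.ne')

/-- `1 - a` is a unit when `a` is small. -/
lemma Bd.one_sub (hρ : ρ < 1) (hk : 0 < k) (ha : Bd v ρ k a) : v (1 - a) = 1 :=
  v.map_one_sub_of_lt (ha.lt_one hρ hk)

lemma Bd.one_add (hρ : ρ < 1) (hk : 0 < k) (ha : Bd v ρ k a) : v (1 + a) = 1 :=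
  v.map_one_add_of_lt (ha.lt_one hρ hk)

lemma Bd.div_unit (ha : Bd v ρ k a) (hb : v b = 1) : Bd v ρ k (a / b) := by
  unfold Bd at *
  rw [map_div₀, hb, div_one]; exact ha

end Fermat.Agent.S05.H245

end
-- ===== PACK-END S05/H245Basic.lean

-- ===== PACK-BEGIN S05/H245Alg.lean
section


/-!
# Algebraic identities in the `(z, w) = (-x/y, -1/y)` chart

Helper file for statement S05: pure field identities (no valuations).
-/

set_option autoImplicit false

namespace Fermat.Agent.S05.H245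

open WeierstrassCurve WeierstrassCurve.Affine

variable {K : Type*} [Field K] (W : WeierstrassCurve.Affine K)

/-- The Weierstrass equation in the chart `z = -x/y`, `w = -1/y`. -/
def ZWEq (z w : K) : Prop :=
  w = z ^ 3 + W.a₁ * z * w + W.a₂ * z ^ 2 * w + W.a₃ * w ^ 2 + W.a₄ * z * w ^ 2 + W.a₆ * w ^ 3

/-- numerator of the slope in the `(z, w)` chart -/
def slN (z₁ z₂ w₁ : K) : K :=
  z₂ ^ 2 + z₁ * z₂ + z₁ ^ 2 + W.a₁ * w₁ + W.a₂ * (z₁ + z₂) * w₁ + W.a₄ * w₁ ^ 2

/-- the small part of the denominator of the slope in the `(z, w)` chart -/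
def slE (z₂ w₁ w₂ : K) : K :=
  W.a₁ * z₂ + W.a₂ * z₂ ^ 2 + W.a₃ * (w₂ + w₁) + W.a₄ * z₂ * (w₂ + w₁) +
    W.a₆ * (w₂ ^ 2 + w₂ * w₁ + w₁ ^ 2)

/-- denominator of the slope in the `(z, w)` chart -/
def slD (z₂ w₁ w₂ : K) : K := 1 - slE W z₂ w₁ w₂

/-- leading coefficient of the cubic in `z` cut out by the line `w = l z + n` -/
def cf3 (l : K) : K := 1 + W.a₂ * l + W.a₄ * l ^ 2 + W.a₆ * l ^ 3

/-- the small part of `cf3` -/
def cf3E (l : K) : K := W.a₂ * l + W.a₄ * l ^ 2 + W.a₆ * l ^ 3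

/-- second coefficient of the cubic in `z` cut out by the line `w = l z + n` -/
def cf2 (l n : K) : K :=
  W.a₁ * l + W.a₂ * n + W.a₃ * l ^ 2 + 2 * W.a₄ * l * n + 3 * W.a₆ * l ^ 2 * n

variable {W}

lemma cf3_eq (l : K) : cf3 W l = 1 + cf3E W l := by
  unfold cf3 cf3E; ring

lemma zwEq_of_equation {x y : K} (h : W.Equation x y) (hy : y ≠ 0) :
    ZWEq W (-x / y) (-1 / y) := by
  rw [equation_iff] at h
  unfold ZWEq
  field_simp
  linear_combination (-1 : K) * h

lemma key_identity {z₁ z₂ w₁ w₂ : K} (h₁ : ZWEq W z₁ w₁) (h₂ : ZWEq W z₂ w₂) :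
    (w₂ - w₁) * slD W z₂ w₁ w₂ = (z₂ - z₁) * slN W z₁ z₂ w₁ := by
  unfold ZWEq at h₁ h₂
  unfold slD slE slN
  linear_combination h₂ - h₁


/-- Vieta in the `z`-coordinate, from Vieta in the `x`-coordinate. -/
lemma vieta_z {x₁ x₂ x₃ l n : K}
    (h₁ : x₁ + x₂ + x₃ = l ^ 2 + W.a₁ * l - W.a₂)
    (h₂ : x₁ * x₂ + x₁ * x₃ + x₂ * x₃ = W.a₄ - 2 * l * n - W.a₁ * n - W.a₃ * l)
    (h₃ : x₁ * x₂ * x₃ = n ^ 2 + W.a₃ * n - W.a₆) :
    (l * x₁ + n) * (l * x₂ + n) * (l * x₃ + n) =
        n ^ 3 - W.a₂ * n ^ 2 * l + W.a₄ * n * l ^ 2 - W.a₆ * l ^ 3 ∧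
      x₁ * (l * x₂ + n) * (l * x₃ + n) + x₂ * (l * x₁ + n) * (l * x₃ + n) +
          x₃ * (l * x₁ + n) * (l * x₂ + n) =
        -W.a₁ * n ^ 2 * l - W.a₂ * n ^ 2 + 2 * W.a₄ * n * l + W.a₃ * n * l ^ 2 -
          3 * W.a₆ * l ^ 2 := by
  constructor
  · linear_combination n ^ 2 * l * h₁ + n * l ^ 2 * h₂ + l ^ 3 * h₃
  · linear_combination n ^ 2 * h₁ + 2 * n * l * h₂ + 3 * l ^ 2 * h₃

variable [DecidableEq K]

/-- Vieta in the `x`-coordinate, extracted from Mathlib's `addPolynomial_slope`. -/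
lemma vieta_x {x₁ x₂ y₁ y₂ : K} (h₁ : W.Equation x₁ y₁) (h₂ : W.Equation x₂ y₂)
    (hxy : ¬(x₁ = x₂ ∧ y₁ = W.negY x₂ y₂)) :
    let l := W.slope x₁ x₂ y₁ y₂
    let n := y₁ - l * x₁
    let x₃ := W.addX x₁ x₂ l
    x₁ + x₂ + x₃ = l ^ 2 + W.a₁ * l - W.a₂ ∧
    x₁ * x₂ + x₁ * x₃ + x₂ * x₃ = W.a₄ - 2 * l * n - W.a₁ * n - W.a₃ * l ∧
    x₁ * x₂ * x₃ = n ^ 2 + W.a₃ * n - W.a₆ := by
  intro l n x₃
  have h := addPolynomial_slope h₁ h₂ hxy
  rw [addPolynomial_eq, neg_inj, Cubic.prod_X_sub_C_eq, Cubic.toPoly_injective] at h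
  have hc := congrArg Cubic.c h
  have hd := congrArg Cubic.d h
  simp only at hc hd
  refine ⟨?_, ?_, ?_⟩
  · simp only [x₃, addX]; ring
  · linear_combination -hc
  · linear_combination hd

/-- chord case: the Mathlib slope in terms of the line `w = l z + n` in the `(z, w)` chart. -/
lemma slope_chord {x₁ x₂ y₁ y₂ l n : K} (hx : x₁ ≠ x₂) (hy₁ : y₁ ≠ 0) (hy₂ : y₂ ≠ 0)
    (hl₁ : -1 / y₁ = l * (-x₁ / y₁) + n) (hl₂ : -1 / y₂ = l * (-x₂ / y₂) + n) :
    n ≠ 0 ∧ W.slope x₁ x₂ y₁ y₂ = l / n ∧ y₁ - W.slope x₁ x₂ y₁ y₂ * x₁ = -1 / n ∧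
      y₂ - W.slope x₁ x₂ y₁ y₂ * x₂ = -1 / n := by
  have e₁ : n * y₁ = l * x₁ - 1 := by
    field_simp at hl₁
    linear_combination -hl₁
  have e₂ : n * y₂ = l * x₂ - 1 := by
    field_simp at hl₂
    linear_combination -hl₂
  have hn : n ≠ 0 := by
    rintro rfl
    have h3 : l * (x₁ - x₂) = 0 := by linear_combination e₂ - e₁
    rcases mul_eq_zero.mp h3 with h | h
    · rw [h] at e₁; simp at e₁
    · exact hx (sub_eq_zero.mp h)
  have hxx : x₁ - x₂ ≠ 0 := sub_ne_zero.mpr hx
  have hs : W.slope x₁ x₂ y₁ y₂ = l / n := by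
    rw [slope_of_X_ne hx, div_eq_div_iff hxx hn]
    linear_combination e₁ - e₂
  refine ⟨hn, hs, ?_, ?_⟩
  · rw [hs]; field_simp; linear_combination e₁
  · rw [hs]; field_simp; linear_combination e₂


/-- tangent case: the Mathlib slope in terms of the line `w = l z + n` in the `(z, w)` chart. -/
lemma slope_tangent {x y l : K} (h : W.Equation x y) (hy : y ≠ 0) (hny : y ≠ W.negY x y)
    (hD : slD W (-x / y) (-1 / y) (-1 / y) ≠ 0)
    (hl : l * slD W (-x / y) (-1 / y) (-1 / y) = slN W (-x / y) (-x / y) (-1 / y)) :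
    (-1 / y - l * (-x / y)) ≠ 0 ∧ W.slope x x y y = l / (-1 / y - l * (-x / y)) ∧
      y - W.slope x x y y * x = -1 / (-1 / y - l * (-x / y)) := by
  have hden : y - W.negY x y ≠ 0 := sub_ne_zero.mpr hny
  have hden' : 2 * y + W.a₁ * x + W.a₃ ≠ 0 := by
    intro h0; apply hden; simp only [negY]; linear_combination h0
  rw [equation_iff] at h
  have hnD : (-1 / y - l * (-x / y)) * slD W (-x / y) (-1 / y) (-1 / y) =
      (2 * y + W.a₁ * x + W.a₃) / y ^ 2 := by
    have : (-1 / y - l * (-x / y)) * slD W (-x / y) (-1 / y) (-1 / y) =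
        (-1 / y) * slD W (-x / y) (-1 / y) (-1 / y) - (-x / y) * slN W (-x / y) (-x / y) (-1 / y) := by
      rw [← hl]; ring
    rw [this]
    unfold slD slE slN
    field_simp
    linear_combination (-3 : K) * h
  have hn : (-1 / y - l * (-x / y)) ≠ 0 := by
    intro h0
    rw [h0, zero_mul] at hnD
    have : (2 * y + W.a₁ * x + W.a₃) / y ^ 2 ≠ 0 := div_ne_zero hden' (pow_ne_zero _ hy)
    exact this hnD.symm
  have hN : slN W (-x / y) (-x / y) (-1 / y) =
      (3 * x ^ 2 + 2 * W.a₂ * x + W.a₄ - W.a₁ * y) / y ^ 2 := by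
    unfold slN
    field_simp
    ring
  have hs : W.slope x x y y = l / (-1 / y - l * (-x / y)) := by
    rw [slope_of_Y_ne rfl hny]
    rw [div_eq_div_iff hden hn]
    have e1 : l = slN W (-x / y) (-x / y) (-1 / y) / slD W (-x / y) (-1 / y) (-1 / y) := by
      rw [eq_div_iff hD]; exact hl
    have e2 : (-1 / y - l * (-x / y)) =
        (2 * y + W.a₁ * x + W.a₃) / y ^ 2 / slD W (-x / y) (-1 / y) (-1 / y) := by
      rw [eq_div_iff hD]; exact hnD
    rw [e2, e1, hN]
    simp only [negY]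
    field_simp
    ring
  refine ⟨hn, hs, ?_⟩
  have e3 : (-1 / y - l * (-x / y)) = (l * x - 1) / y := by field_simp; ring
  have hn' : l * x - 1 ≠ 0 := by
    intro h0; apply hn; rw [e3, h0, zero_div]
  rw [hs, e3]
  field_simp
  ring


/-- The line data in both cases (chord and tangent). -/
lemma slope_line {x₁ x₂ y₁ y₂ l : K} (h₁ : W.Equation x₁ y₁) (h₂ : W.Equation x₂ y₂)
    (hy₁ : y₁ ≠ 0) (hy₂ : y₂ ≠ 0) (hxy : ¬(x₁ = x₂ ∧ y₁ = W.negY x₂ y₂))
    (hD : slD W (-x₂ / y₂) (-1 / y₁) (-1 / y₂) ≠ 0)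
    (hl : l * slD W (-x₂ / y₂) (-1 / y₁) (-1 / y₂) = slN W (-x₁ / y₁) (-x₂ / y₂) (-1 / y₁)) :
    (-1 / y₁ - l * (-x₁ / y₁)) ≠ 0 ∧
      W.slope x₁ x₂ y₁ y₂ = l / (-1 / y₁ - l * (-x₁ / y₁)) ∧
      y₁ - W.slope x₁ x₂ y₁ y₂ * x₁ = -1 / (-1 / y₁ - l * (-x₁ / y₁)) ∧
      y₂ - W.slope x₁ x₂ y₁ y₂ * x₂ = -1 / (-1 / y₁ - l * (-x₁ / y₁)) := by
  by_cases hx : x₁ = x₂
  · have hy : y₁ ≠ W.negY x₂ y₂ := fun h => hxy ⟨hx, h⟩
    have hyy : y₁ = y₂ := Y_eq_of_Y_ne h₁ h₂ hx hy
    subst hx; subst hyy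
    obtain ⟨a, b, c⟩ := slope_tangent h₁ hy₁ hy hD hl
    exact ⟨a, b, c, c⟩
  · have hz₁ := zwEq_of_equation h₁ hy₁
    have hz₂ := zwEq_of_equation h₂ hy₂
    have key := key_identity hz₁ hz₂
    have hl₂ : -1 / y₂ = l * (-x₂ / y₂) + (-1 / y₁ - l * (-x₁ / y₁)) := by
      have : (-1 / y₂ - (-1 / y₁) - l * (-x₂ / y₂ - (-x₁ / y₁))) *
          slD W (-x₂ / y₂) (-1 / y₁) (-1 / y₂) = 0 := by
        linear_combination key - (-x₂ / y₂ - (-x₁ / y₁)) * hl
      rcases mul_eq_zero.mp this with h | h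
      · linear_combination h
      · exact absurd h hD
    have hl₁ : -1 / y₁ = l * (-x₁ / y₁) + (-1 / y₁ - l * (-x₁ / y₁)) := by ring
    exact slope_chord hx hy₁ hy₂ hl₁ hl₂

/-- The third intersection point of the line through two points, in the `(z, w)` chart. -/
theorem third_point {x₁ x₂ y₁ y₂ l : K} (h₁ : W.Equation x₁ y₁) (h₂ : W.Equation x₂ y₂)
    (hy₁ : y₁ ≠ 0) (hy₂ : y₂ ≠ 0) (hxy : ¬(x₁ = x₂ ∧ y₁ = W.negY x₂ y₂))
    (hD : slD W (-x₂ / y₂) (-1 / y₁) (-1 / y₂) ≠ 0)
    (hl : l * slD W (-x₂ / y₂) (-1 / y₁) (-1 / y₂) = slN W (-x₁ / y₁) (-x₂ / y₂) (-1 / y₁))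
    (hc : cf3 W l ≠ 0) :
    W.negAddY x₁ x₂ y₁ (W.slope x₁ x₂ y₁ y₂) ≠ 0 ∧
      -(W.addX x₁ x₂ (W.slope x₁ x₂ y₁ y₂)) / W.negAddY x₁ x₂ y₁ (W.slope x₁ x₂ y₁ y₂) =
        -(cf2 W l (-1 / y₁ - l * (-x₁ / y₁)) / cf3 W l) - (-x₁ / y₁) - (-x₂ / y₂) ∧
      -1 / W.negAddY x₁ x₂ y₁ (W.slope x₁ x₂ y₁ y₂) =
        l * (-(W.addX x₁ x₂ (W.slope x₁ x₂ y₁ y₂)) /
          W.negAddY x₁ x₂ y₁ (W.slope x₁ x₂ y₁ y₂)) + (-1 / y₁ - l * (-x₁ / y₁)) := by
  obtain ⟨hn, hs, hn₁, hn₂⟩ := slope_line h₁ h₂ hy₁ hy₂ hxy hD hl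
  obtain ⟨v1, v2, v3⟩ := vieta_x h₁ h₂ hxy
  obtain ⟨p1, p2⟩ := vieta_z v1 v2 v3
  set s := W.slope x₁ x₂ y₁ y₂ with hsdef
  set n := (-1 / y₁ - l * (-x₁ / y₁)) with hndef
  set x₃ := W.addX x₁ x₂ s with hx₃
  have hy₃ : W.negAddY x₁ x₂ y₁ s = s * x₃ + (y₁ - s * x₁) := by
    simp only [negAddY]; ring
  set y₃ := W.negAddY x₁ x₂ y₁ s with hy₃def
  set n' := y₁ - s * x₁ with hn'def
  have hn'0 : n' ≠ 0 := by rw [hn₁]; exact div_ne_zero (by simp) hn
  have hsn : s = -l * n' := by rw [hs, hn₁]; field_simp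
  have hnn : n = -1 / n' := by rw [hn₁]; field_simp
  have e₁ : s * x₁ + n' = y₁ := by rw [hn'def]; ring
  have e₂ : s * x₂ + n' = y₂ := by rw [hn₁, ← hn₂]; ring
  rw [e₁, e₂, ← hy₃] at p1 p2
  have hprod : y₁ * y₂ * y₃ = n' ^ 3 * cf3 W l := by
    rw [p1, hsn]; unfold cf3; ring
  have hsum : x₁ * y₂ * y₃ + x₂ * y₁ * y₃ + x₃ * y₁ * y₂ = n' ^ 3 * cf2 W l n := by
    rw [p2, hsn, hnn]; unfold cf2; field_simp; ring
  have hy₃0 : y₃ ≠ 0 := by
    intro h0
    rw [h0, mul_zero] at hprod
    exact (mul_ne_zero (pow_ne_zero 3 hn'0) hc) hprod.symm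
  refine ⟨hy₃0, ?_, ?_⟩
  · have : cf2 W l n / cf3 W l = (x₁ * y₂ * y₃ + x₂ * y₁ * y₃ + x₃ * y₁ * y₂) / (y₁ * y₂ * y₃) := by
      rw [hsum, hprod, mul_div_mul_left _ _ (pow_ne_zero 3 hn'0)]
    rw [this]
    field_simp
    ring
  · rw [hy₃, hsn, hnn]
    have h0 : -l * n' * x₃ + n' ≠ 0 := by
      rw [← hsn, ← hy₃]; exact hy₃0
    have h1 : 1 - l * x₃ ≠ 0 := by
      intro h; apply h0; linear_combination n' * h
    have h2 : -(l * x₃) + 1 ≠ 0 := by
      intro h; apply h1; linear_combination h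
    field_simp
    ring

end Fermat.Agent.S05.H245

end
-- ===== PACK-END S05/H245Alg.lean

-- ===== PACK-BEGIN Lib/Red/Statement.lean
section


/-!
# Shared library `Red` — FROZEN INTERFACE (row S52, row-lead helper472)

**General reduction homomorphism for good reduction.**  `V` a valuation subring of a field `K`,
`W₀` a Weierstrass curve with coefficients in `V` and `Δ(W₀) ∈ Vˣ`.  Then reduction
`W₀(K) → W₀(κ_V)` is a group homomorphism: a point with coordinates in `V` goes to the point with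
the residue classes as coordinates, every other point goes to `0`.

Definitions only (no `sorry`).  Deliverable: `theorem Fermat.Agent.Lib.Red.goodReduction :
GoodReduction` in `Fermat/Agent/Lib/Red/Main.lean`.
Toolkit already on main (any valuation, long Weierstrass form): `Fermat/Agent/S05/{SameRed,FG,
GoodRed,XOnlyC1*}.lean`.
-/

set_option autoImplicit false

open WeierstrassCurve WeierstrassCurve.Affine WeierstrassCurve.Affine.Point

namespace Fermat.Agent.Lib.Red

universe u

/-- **GR** (frozen). -/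
def GoodReduction : Prop :=
  ∀ (K : Type u) [Field K] [DecidableEq K] (V : ValuationSubring K)
    [DecidableEq (IsLocalRing.ResidueField V)] (W₀ : WeierstrassCurve V), IsUnit W₀.Δ →
    ∃ red : (W₀⁄K).Point →+ (W₀⁄(IsLocalRing.ResidueField V)).Point,
      (∀ (x y : K) (h : (W₀⁄K).Nonsingular x y) (hx : x ∈ V) (hy : y ∈ V),
        ∃ h' : (W₀⁄(IsLocalRing.ResidueField V)).Nonsingular
            (IsLocalRing.residue V ⟨x, hx⟩) (IsLocalRing.residue V ⟨y, hy⟩),
          red (Point.some x y h) = Point.some _ _ h') ∧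
      (∀ (x y : K) (h : (W₀⁄K).Nonsingular x y), x ∉ V → red (Point.some x y h) = 0)

end Fermat.Agent.Lib.Red

end
-- ===== PACK-END Lib/Red/Statement.lean

-- ===== PACK-BEGIN S57/Endgame.lean
section







set_option autoImplicit false

namespace Fermat.Agent.S57

open MvPowerSeries

section Endgame

variable {𝒪 : Type} [CommRing 𝒪]
    {r : ℕ} {R : Type} [CommRing R] [Algebra 𝒪 R]
    {M : Type} [AddCommGroup M] [Module R M]
    {J : Ideal (MvPowerSeries (Fin r) 𝒪)}
    (L : Algebra.PatchingLevel 𝒪 r R M J)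

/-- The ideal generated by the `φ X_i`. -/
noncomputable def relIdeal : Ideal (MvPowerSeries (Fin r) 𝒪) :=
  Ideal.span (Set.range fun i : Fin r => L.φ (MvPowerSeries.X i))

lemma relIdeal_le_ker : relIdeal L ≤ RingHom.ker L.ψ := by
  unfold relIdeal
  rw [Ideal.span_le]
  rintro _ ⟨i, rfl⟩
  exact L.ψ_φ_X i

include L in
lemma nontrivial_N [Nontrivial M] : Nontrivial L.N := by
  obtain ⟨m, hm⟩ := exists_ne (0 : M)
  obtain ⟨x, rfl⟩ := L.π_surjective m
  exact ⟨x, 0, fun h => hm (by rw [h, map_zero])⟩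

lemma finite_N : Module.Finite (MvPowerSeries (Fin r) 𝒪) L.N := by
  refine Module.Finite.of_surjective (Fintype.linearCombination (MvPowerSeries (Fin r) 𝒪) L.b) ?_
  intro x
  obtain ⟨c, rfl⟩ := L.b_span x
  exact ⟨fun i => L.φ (c i), by simp [Fintype.linearCombination_apply]⟩

/-- In a free module with basis `e`, membership in `I • ⊤` is tested on coordinates. -/
lemma mem_smul_top_iff_repr {A : Type*} [CommRing A] {N : Type*} [AddCommGroup N] [Module A N]
    {ι : Type*} (e : Module.Basis ι A N) (I : Ideal A) (x : N) :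
    x ∈ I • (⊤ : Submodule A N) ↔ ∀ i, e.repr x i ∈ I := by
  rw [← e.span_eq, Submodule.mem_ideal_smul_span_iff_exists_sum]
  constructor
  · rintro ⟨a, ha, rfl⟩ i
    have : (a.sum fun i c => c • e i) = Finsupp.linearCombination A e a := rfl
    rw [this, e.repr_linearCombination]
    exact ha i
  · intro h
    refine ⟨e.repr x, h, ?_⟩
    exact e.linearCombination_repr x

/-- The endgame: once `N` is known to be free over the power series ring (for its own module
structure), everything follows. -/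
theorem endgame [Nontrivial M] [Module.Free (MvPowerSeries (Fin r) 𝒪) L.N] :
    Module.Free R M ∧ Module.annihilator R M = ⊥ ∧
      RingHom.ker L.ψ = Ideal.span (Set.range fun i : Fin r => L.φ (MvPowerSeries.X i)) := by
  classical
  have := finite_N L
  have := nontrivial_N L
  let A := MvPowerSeries (Fin r) 𝒪
  let ι := Module.Free.ChooseBasisIndex A L.N
  let e : Module.Basis ι A L.N := Module.Free.chooseBasis A L.N
  have : Fintype ι := Module.Free.ChooseBasisIndex.fintype A L.N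
  have : Nonempty ι := e.index_nonempty
  have hker : RingHom.ker L.ψ = relIdeal L := by
    refine le_antisymm ?_ (relIdeal_le_ker L)
    intro f hf
    obtain ⟨j⟩ := ‹Nonempty ι›
    have h1 : L.π (f • e j) = 0 := by
      rw [L.π_smul, RingHom.mem_ker.mp hf, zero_smul]
    have h2 := (L.ker_π _).mp h1
    have h3 := (mem_smul_top_iff_repr e _ _).mp h2 j
    simpa [relIdeal] using h3
  -- the images of the basis
  have hli : LinearIndependent R (fun j => L.π (e j)) := by
    rw [Fintype.linearIndependent_iff]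
    intro g hg j
    choose a ha using fun j => L.ψ_surjective (g j)
    have h1 : L.π (∑ j, a j • e j) = 0 := by
      rw [map_sum, ← hg]
      refine Finset.sum_congr rfl fun j _ => ?_
      rw [L.π_smul, ha]
    have h2 := (L.ker_π _).mp h1
    have h3 := (mem_smul_top_iff_repr e _ _).mp h2 j
    have h4 : e.repr (∑ j, a j • e j) j = a j := by
      rw [e.repr_sum_self]
    rw [h4] at h3
    have h5 : a j ∈ RingHom.ker L.ψ := relIdeal_le_ker L h3
    rw [← ha j]
    exact h5
  have hsp : ⊤ ≤ Submodule.span R (Set.range fun j => L.π (e j)) := by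
    rintro m -
    obtain ⟨x, rfl⟩ := L.π_surjective m
    rw [← e.sum_repr x, map_sum]
    refine Submodule.sum_mem _ fun j _ => ?_
    rw [L.π_smul]
    exact Submodule.smul_mem _ _ (Submodule.subset_span ⟨j, rfl⟩)
  let eM : Module.Basis ι R M := Module.Basis.mk hli hsp
  refine ⟨Module.Free.of_basis eM, ?_, hker⟩
  rw [eq_bot_iff]
  intro s hs
  obtain ⟨j⟩ := ‹Nonempty ι›
  have h1 : s • eM j = 0 := Module.mem_annihilator.mp hs _
  have h2 := eM.linearIndependent
  rw [Fintype.linearIndependent_iff] at h2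
  have h3 := h2 (fun i => if i = j then s else 0) (by simpa using h1) j
  simpa using h3

end Endgame

end Fermat.Agent.S57

end
-- ===== PACK-END S57/Endgame.lean

-- ===== PACK-BEGIN S55/E1/H114/Extend.lean
section
/-
S55 engine E1, block ALG — helper114.
Additive extension lemma used by the norm-kill lemma ALG4.

`0 → R → P → N → 0` exact sequence of abelian groups with `p N = 0`; an additive map
`g₀ : R → D` whose values are all divisible by `p` in `D` extends to `P`.
-/


set_option autoImplicit false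

namespace Fermat.Agent.S55.E1.H114

open Finsupp

/-- Auxiliary form of the additive extension lemma, with the `ZMod p`-module structure on `N` as
an instance argument. -/
theorem exists_extension_aux
    {R P N D : Type*} [AddCommGroup R] [AddCommGroup P] [AddCommGroup N] [AddCommGroup D]
    (p : ℕ) [Fact p.Prime] [Module (ZMod p) N] (ι : R →+ P) (ε : P →+ N)
    (hι : Function.Injective ι) (hε : Function.Surjective ε)
    (hex : ∀ x : P, ε x = 0 → ∃ r, ι r = x) (hιε : ∀ r, ε (ι r) = 0)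
    (hN : ∀ n : N, p • n = 0)
    (g₀ : R →+ D) (hdiv : ∀ r : R, ∃ d : D, p • d = g₀ r) :
    ∃ c : P →+ D, ∀ r, c (ι r) = g₀ r := by
  classical
  let I := Module.Basis.ofVectorSpaceIndex (ZMod p) N
  let b : Module.Basis I (ZMod p) N := Module.Basis.ofVectorSpace (ZMod p) N
  choose x hx using fun i : I => hε (b i)
  have hpx : ∀ i, ε (p • x i) = 0 := fun i => by rw [map_nsmul, hN]
  choose ρ hρ using fun i => hex _ (hpx i)
  choose d hd using fun i => hdiv (ρ i)
  -- the three "linear combination" maps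
  let X : (I →₀ ℤ) →+ P := Finsupp.liftAddHom (fun i => zmultiplesHom P (x i))
  let Rm : (I →₀ ℤ) →+ R := Finsupp.liftAddHom (fun i => zmultiplesHom R (ρ i))
  let Dm : (I →₀ ℤ) →+ D := Finsupp.liftAddHom (fun i => zmultiplesHom D (d i))
  have hX : ∀ i (a : ℤ), X (Finsupp.single i a) = a • x i := fun i a => by
    simp [X]
  have hRm : ∀ i (a : ℤ), Rm (Finsupp.single i a) = a • ρ i := fun i a => by
    simp [Rm]
  have hDm : ∀ i (a : ℤ), Dm (Finsupp.single i a) = a • d i := fun i a => by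
    simp [Dm]
  -- `ι ∘ Rm = p • X`
  have h1 : ∀ m, ι (Rm m) = p • X m := by
    intro m
    have : ι.comp Rm = (p • X : (I →₀ ℤ) →+ P) := by
      refine Finsupp.addHom_ext fun i a => ?_
      simp only [AddMonoidHom.comp_apply, hRm, AddMonoidHom.smul_apply, hX, map_zsmul, hρ]
      rw [smul_comm]
    exact DFunLike.congr_fun this m
  -- `g₀ ∘ Rm = p • Dm`
  have h2 : ∀ m, g₀ (Rm m) = p • Dm m := by
    intro m
    have : g₀.comp Rm = (p • Dm : (I →₀ ℤ) →+ D) := by
      refine Finsupp.addHom_ext fun i a => ?_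
      simp only [AddMonoidHom.comp_apply, hRm, AddMonoidHom.smul_apply, hDm, map_zsmul, ← hd]
      rw [smul_comm]
    exact DFunLike.congr_fun this m
  -- `ε ∘ X` in terms of the basis
  let cast : (I →₀ ℤ) →+ (I →₀ ZMod p) := Finsupp.mapRange.addMonoidHom (Int.castAddHom (ZMod p))
  have h3 : ∀ m, ε (X m) = b.repr.symm (cast m) := by
    intro m
    have : ε.comp X = (b.repr.symm : (I →₀ ZMod p) →+ N).comp cast := by
      refine Finsupp.addHom_ext fun i a => ?_
      simp only [AddMonoidHom.comp_apply, hX, map_zsmul, hx, cast]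
      simp [Int.cast_smul_eq_zsmul]
    exact DFunLike.congr_fun this m
  let π : R × (I →₀ ℤ) →+ P := AddMonoidHom.coprod ι X
  let c' : R × (I →₀ ℤ) →+ D := AddMonoidHom.coprod g₀ Dm
  have hπ : Function.Surjective π := by
    intro y
    let m : I →₀ ℤ := (b.repr (ε y)).mapRange (fun c => (c.val : ℤ)) (by simp)
    have hm : cast m = b.repr (ε y) := by
      ext i
      simp [cast, m]
    have hy : ε (y - X m) = 0 := by
      rw [map_sub, h3, hm, b.repr.symm_apply_apply, sub_self]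
    obtain ⟨r, hr⟩ := hex _ hy
    exact ⟨(r, m), by simp [π, hr]⟩
  have hker : π.ker ≤ c'.ker := by
    rintro ⟨r, m⟩ hrm
    rw [AddMonoidHom.mem_ker] at hrm ⊢
    simp only [π, AddMonoidHom.coprod_apply] at hrm
    have hεm : ε (X m) = 0 := by
      have := congrArg ε hrm
      rw [map_add, map_zero] at this
      rwa [hιε, zero_add] at this
    have hcast : cast m = 0 := by
      rw [h3] at hεm
      exact (LinearEquiv.map_eq_zero_iff _).1 hεm
    have hdvd : ∀ i, (p : ℤ) ∣ m i := by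
      intro i
      have := DFunLike.congr_fun hcast i
      simp only [cast, Finsupp.mapRange.addMonoidHom_apply, Finsupp.mapRange_apply,
        Int.coe_castAddHom, Finsupp.coe_zero, Pi.zero_apply] at this
      exact (ZMod.intCast_zmod_eq_zero_iff_dvd _ _).1 this
    let m' : I →₀ ℤ := m.mapRange (fun a => a / (p : ℤ)) (by simp)
    have hm' : m = p • m' := by
      ext i
      simp only [m', Finsupp.smul_apply, Finsupp.mapRange_apply, nsmul_eq_mul]
      exact (Int.mul_ediv_cancel' (hdvd i)).symm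
    have hXm : X m = ι (Rm m') := by
      rw [h1, hm', map_nsmul]
    have hr : r = - Rm m' := by
      apply hι
      rw [map_neg, ← hXm]
      exact eq_neg_of_add_eq_zero_left hrm
    simp only [c', AddMonoidHom.coprod_apply]
    rw [hr, map_neg, h2]
    conv_lhs => rw [hm', map_nsmul]
    exact neg_add_cancel _
  refine ⟨AddMonoidHom.liftOfSurjective π hπ ⟨c', hker⟩, fun r => ?_⟩
  have := AddMonoidHom.liftOfRightInverse_comp_apply π (Function.surjInv hπ)
    (Function.rightInverse_surjInv hπ) ⟨c', hker⟩ (r, 0)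
  simpa [π, c'] using this

/-- **Additive extension lemma.**  Let `0 → R → P → N → 0` be an exact sequence of abelian groups
with `p N = 0`, `p` prime.  If every value of the additive map `g₀ : R → D` is divisible by `p`
in `D`, then `g₀` extends to an additive map `P → D`. -/
theorem exists_extension_of_pTorsion_quotient
    {R P N D : Type*} [AddCommGroup R] [AddCommGroup P] [AddCommGroup N] [AddCommGroup D]
    (p : ℕ) (hp : p.Prime) (ι : R →+ P) (ε : P →+ N)
    (hι : Function.Injective ι) (hε : Function.Surjective ε)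
    (hex : ∀ x : P, ε x = 0 → ∃ r, ι r = x) (hιε : ∀ r, ε (ι r) = 0)
    (hN : ∀ n : N, p • n = 0)
    (g₀ : R →+ D) (hdiv : ∀ r : R, ∃ d : D, p • d = g₀ r) :
    ∃ c : P →+ D, ∀ r, c (ι r) = g₀ r :=
  @exists_extension_aux R P N D _ _ _ _ p ⟨hp⟩ (AddCommGroup.zmodModule hN) ι ε hι hε hex hιε hN
    g₀ hdiv

end Fermat.Agent.S55.E1.H114

end
-- ===== PACK-END S55/E1/H114/Extend.lean

-- ===== PACK-BEGIN S33/Alg.lean
section
/-
Row S33 (ordinary at `p`), TOP GLUE — algebra (helper409).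

Pure linear algebra over a local ring `T` (Mathlib only):

* `exists_basis_range_eq_span`: a nontrivial idempotent endomorphism of a free module of rank 2
  has image spanned by the first vector of a basis.
* `exists_ordinary_line`: let `f₀` be an automorphism of a free module `V` of rank 2 with
  `c₀ := det f₀`, `c₀ - 1` a unit and `(f₀ - c₀)(f₀ - 1) = 0`.  Then `L := range (f₀ - 1)
  = ker (f₀ - c₀)` is spanned by the first vector of a basis of `V`.
-/


set_option autoImplicit false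
set_option linter.style.haveILetI false

noncomputable section

namespace Fermat.Agent.S33

open IsLocalRing

section Algebra

variable {T : Type} [CommRing T] [IsLocalRing T] {V : Type} [AddCommGroup V] [Module T V]
  [Module.Free T V] [Module.Finite T V]

/-- A nontrivial idempotent endomorphism of a free module of rank 2 over a local ring has image
spanned by the first vector of a basis. -/
theorem exists_basis_range_eq_span (hV : Module.finrank T V = 2) (e : Module.End T V)
    (he : IsIdempotentElem e) (he0 : e ≠ 0) (he1 : e ≠ 1) :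
    ∃ b : Module.Basis (Fin 2) T V, LinearMap.range e = T ∙ b 0 := by
  have hc : IsCompl (LinearMap.range e) (LinearMap.ker e) :=
    LinearMap.IsIdempotentElem.isCompl he
  let φ : (LinearMap.range e × LinearMap.ker e) ≃ₗ[T] V := Submodule.prodEquivOfIsCompl _ _ hc
  haveI hP : Module.Projective T (LinearMap.range e × LinearMap.ker e) :=
    Module.Projective.of_equiv φ.symm
  haveI hP1 : Module.Projective T (LinearMap.range e) :=
    Module.Projective.of_split (LinearMap.inl T _ (LinearMap.ker e)) (LinearMap.fst T _ _)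
      (by ext x; simp)
  haveI hP2 : Module.Projective T (LinearMap.ker e) :=
    Module.Projective.of_split (LinearMap.inr T (LinearMap.range e) _) (LinearMap.snd T _ _)
      (by ext x; simp)
  haveI hF1 : Module.Finite T (LinearMap.range e) :=
    Module.Finite.of_surjective (e.rangeRestrict) (LinearMap.surjective_rangeRestrict e)
  haveI hF2 : Module.Finite T (LinearMap.ker e) := by
    have hk : LinearMap.ker e = LinearMap.range (1 - e) :=
      LinearMap.IsIdempotentElem.ker_eq_range_one_sub he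
    rw [hk]
    exact Module.Finite.of_surjective ((1 - e).rangeRestrict)
      (LinearMap.surjective_rangeRestrict _)
  haveI hFr1 : Module.Free T (LinearMap.range e) := Module.free_of_flat_of_isLocalRing
  haveI hFr2 : Module.Free T (LinearMap.ker e) := Module.free_of_flat_of_isLocalRing
  have hsum : Module.finrank T (LinearMap.range e) + Module.finrank T (LinearMap.ker e) = 2 := by
    rw [← Module.finrank_prod, φ.finrank_eq, hV]
  have h1 : Module.finrank T (LinearMap.range e) ≠ 0 := by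
    intro h
    haveI : Subsingleton (LinearMap.range e) :=
      (Module.finrank_eq_zero_iff_of_free (R := T) (M := LinearMap.range e)).mp h
    apply he0
    ext v
    have : (⟨e v, LinearMap.mem_range_self e v⟩ : LinearMap.range e) = 0 :=
      Subsingleton.elim _ _
    simpa using congrArg Subtype.val this
  have h2 : Module.finrank T (LinearMap.ker e) ≠ 0 := by
    intro h
    haveI : Subsingleton (LinearMap.ker e) :=
      (Module.finrank_eq_zero_iff_of_free (R := T) (M := LinearMap.ker e)).mp h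
    apply he1
    ext v
    have hmem : v - e v ∈ LinearMap.ker e := by
      rw [LinearMap.mem_ker, map_sub]
      have : e (e v) = e v := by
        have := congrArg (fun f : Module.End T V => f v) he.eq
        simpa using this
      rw [this, sub_self]
    have : (⟨v - e v, hmem⟩ : LinearMap.ker e) = 0 := Subsingleton.elim _ _
    have h3 : v - e v = 0 := by simpa using congrArg Subtype.val this
    simpa using (sub_eq_zero.mp h3).symm
  have hr1 : Module.finrank T (LinearMap.range e) = 1 := by omega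
  have hr2 : Module.finrank T (LinearMap.ker e) = 1 := by omega
  let b1 : Module.Basis (Fin 1) T (LinearMap.range e) := Module.finBasisOfFinrankEq T _ hr1
  let b2 : Module.Basis (Fin 1) T (LinearMap.ker e) := Module.finBasisOfFinrankEq T _ hr2
  let b : Module.Basis (Fin 2) T V :=
    ((b1.prod b2).map φ).reindex (finSumFinEquiv (m := 1) (n := 1))
  have hb0 : b 0 = (b1 0 : V) := by
    have h0 : (finSumFinEquiv (m := 1) (n := 1)).symm 0 = Sum.inl 0 := by
      rw [Equiv.symm_apply_eq]; rfl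
    simp only [b, Module.Basis.reindex_apply, h0, Module.Basis.map_apply]
    simp [φ, Submodule.coe_prodEquivOfIsCompl']
  refine ⟨b, ?_⟩
  rw [hb0]
  apply le_antisymm
  · intro v hv
    have hrep := b1.sum_repr ⟨v, hv⟩
    rw [Fin.sum_univ_one] at hrep
    rw [Submodule.mem_span_singleton]
    refine ⟨b1.repr ⟨v, hv⟩ 0, ?_⟩
    have := congrArg Subtype.val hrep
    simpa using this
  · rw [Submodule.span_singleton_le_iff_mem]
    exact (b1 0).2


/-- Let `f₀` be an endomorphism of a free module `V` of rank 2 over a local ring with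
`det f₀ = c₀` a unit, `c₀ - 1` a unit and `(f₀ - c₀)(f₀ - 1) = 0`.  Then
`range (f₀ - 1) = ker (f₀ - c₀)` is spanned by the first vector of a basis of `V`. -/
theorem exists_ordinary_line (hV : Module.finrank T V = 2) (f₀ : Module.End T V) (c₀ : T)
    (hdet : LinearMap.det f₀ = c₀) (hc₀ : IsUnit c₀) (hu : IsUnit (c₀ - 1))
    (h : (f₀ - c₀ • 1) * (f₀ - 1) = 0) :
    ∃ b : Module.Basis (Fin 2) T V,
      T ∙ b 0 = LinearMap.range (f₀ - 1) ∧ T ∙ b 0 = LinearMap.ker (f₀ - c₀ • 1) := by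
  obtain ⟨u, hu'⟩ := hu
  have huu : (↑u⁻¹ : T) * (c₀ - 1) = 1 := by rw [← hu', Units.inv_mul]
  have hsq : (f₀ - 1) * (f₀ - 1) = (c₀ - 1) • (f₀ - 1) := by
    have e1 : (f₀ - 1) * (f₀ - 1) = (f₀ - c₀ • 1) * (f₀ - 1) + (c₀ - 1) • (f₀ - 1) := by
      rw [sub_smul, one_smul, sub_mul (f₀) (c₀ • (1 : Module.End T V)), smul_mul_assoc, one_mul,
        sub_mul f₀ 1 (f₀ - 1), one_mul]
      abel
    rw [e1, h, zero_add]
  set e : Module.End T V := (↑u⁻¹ : T) • (f₀ - 1) with he
  have hidem : IsIdempotentElem e := by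
    show e * e = e
    rw [he, smul_mul_smul_comm, hsq, smul_smul, mul_assoc, huu, mul_one]
  have hf₀ : f₀ - 1 = (c₀ - 1) • e := by
    rw [he, smul_smul, mul_comm, huu, one_smul]
  have h1e : 1 - e = (-(↑u⁻¹ : T)) • (f₀ - c₀ • 1) := by
    have e2 : f₀ - c₀ • 1 = (f₀ - 1) - (c₀ - 1) • (1 : Module.End T V) := by
      rw [sub_smul, one_smul]; abel
    rw [e2, smul_sub, smul_smul, neg_mul, huu, neg_smul, neg_smul, one_smul, ← he]
    abel
  have he0 : e ≠ 0 := by
    intro h0
    have h1 : f₀ = 1 := by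
      have := hf₀
      rw [h0, smul_zero, sub_eq_zero] at this
      exact this
    have h2 : c₀ = 1 := by rw [← hdet, h1, map_one]
    have h3 : (u : T) = 0 := by rw [hu', h2, sub_self]
    exact u.ne_zero h3
  have he1 : e ≠ 1 := by
    intro h1
    have h2 : f₀ = c₀ • 1 := by
      have := hf₀
      rw [h1, sub_smul, one_smul] at this
      have h3 : f₀ = c₀ • (1 : Module.End T V) - 1 + 1 := by rw [← this]; abel
      rw [h3]; abel
    have h3 : c₀ = c₀ ^ 2 := by
      have := hdet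
      rw [h2, LinearMap.det_smul, hV, map_one, mul_one] at this
      exact this.symm
    have h4 : c₀ * (c₀ - 1) = 0 := by rw [mul_sub, mul_one, ← sq, ← h3, sub_self]
    have h5 : (u : T) = 0 := by
      rw [hu']
      exact (hc₀.mul_right_eq_zero).mp h4
    exact u.ne_zero h5
  obtain ⟨b, hb⟩ := exists_basis_range_eq_span hV e hidem he0 he1
  have hr : LinearMap.range e = LinearMap.range (f₀ - 1) := by
    apply le_antisymm
    · rintro _ ⟨v, rfl⟩
      refine ⟨(↑u⁻¹ : T) • v, ?_⟩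
      rw [he, LinearMap.smul_apply, map_smul]
    · rintro _ ⟨v, rfl⟩
      refine ⟨(c₀ - 1) • v, ?_⟩
      show e ((c₀ - 1) • v) = (f₀ - 1) v
      rw [he, LinearMap.smul_apply, map_smul, smul_smul, huu, one_smul]
  have hk : LinearMap.range e = LinearMap.ker (f₀ - c₀ • 1) := by
    rw [LinearMap.IsIdempotentElem.range_eq_ker_one_sub hidem, h1e]
    ext v
    rw [LinearMap.mem_ker, LinearMap.mem_ker, LinearMap.smul_apply]
    constructor
    · intro hv
      have h6 := congrArg (fun w => (-(c₀ - 1)) • w) hv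
      simp only [smul_smul, smul_zero] at h6
      rw [neg_mul_neg, mul_comm, huu, one_smul] at h6
      exact h6
    · intro hv
      rw [hv, smul_zero]
  exact ⟨b, by rw [← hb, hr], by rw [← hb, hk]⟩

end Algebra

end Fermat.Agent.S33

end
end
-- ===== PACK-END S33/Alg.lean

-- ===== PACK-BEGIN S33/H270/KeyCore.lean
section


/-!
# S33, piece KEY (abstract core)  — helper270

Abstract dévissage behind `(K)` of `coord/S33-helper409.md`, Mathlib only.

`G` a group, `I ≤ G` a subgroup ("inertia"), `J`, `J'` abelian groups with `G`-action,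
`α β : J →+ J'` equivariant.  For a subgroup `Y ≤ J` put
`iAug I Y := ⟨σ • y - y : σ ∈ I, y ∈ Y⟩` and `sPlus I p J := ⋃ₙ (iAug I J[pⁿ] ∩ J[p])`.

* `le_iAug_of_devissage` : right exactness of coinvariants in subgroup form.
* `key_of` : `(K)` for `J` from `(S1⁺)`, `(S2)`, `(OLD)` for `J'` and one `σ₀ ∈ I` acting on the
  `p`-th roots of unity through an exponent `c₀` with `c₀ - 1` prime to `p`.
-/

set_option autoImplicit false

namespace Fermat.Agent.S33.H270

variable {G : Type*} [Group G] {J J' : Type*} [AddCommGroup J] [AddCommGroup J']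
  [DistribMulAction G J] [DistribMulAction G J']

/-- The augmentation subgroup `⟨σ • y - y : σ ∈ I, y ∈ Y⟩`. -/
def iAug (I : Subgroup G) (Y : AddSubgroup J) : AddSubgroup J :=
  AddSubgroup.closure {z | ∃ σ ∈ I, ∃ y ∈ Y, z = σ • y - y}

/-- The `m`-torsion subgroup. -/
def torsSub (J : Type*) [AddCommGroup J] (m : ℕ) : AddSubgroup J :=
  (nsmulAddMonoidHom (α := J) m).ker

/-- `𝒮⁺ = ⋃ₙ (I_aug J[pⁿ] ∩ J[p])` as a predicate. -/
def InSPlus (I : Subgroup G) (p : ℕ) (x : J) : Prop :=
  p • x = 0 ∧ ∃ n : ℕ, x ∈ _root_.Fermat.Agent.S33.H270.iAug I (_root_.Fermat.Agent.S33.H270.torsSub J (p ^ n))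

theorem mem_torsSub {m : ℕ} {x : J} : x ∈ _root_.Fermat.Agent.S33.H270.torsSub J m ↔ m • x = 0 := by
  unfold _root_.Fermat.Agent.S33.H270.torsSub
  rw [AddMonoidHom.mem_ker]
  rfl

theorem smul_sub_mem_iAug {I : Subgroup G} {Y : AddSubgroup J} {σ : G} (hσ : σ ∈ I) {y : J}
    (hy : y ∈ Y) : σ • y - y ∈ _root_.Fermat.Agent.S33.H270.iAug I Y :=
  AddSubgroup.subset_closure ⟨σ, hσ, y, hy, rfl⟩

theorem iAug_mono {I : Subgroup G} {Y Z : AddSubgroup J} (h : Y ≤ Z) : _root_.Fermat.Agent.S33.H270.iAug I Y ≤ _root_.Fermat.Agent.S33.H270.iAug I Z := by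
  unfold _root_.Fermat.Agent.S33.H270.iAug
  apply AddSubgroup.closure_mono
  rintro z ⟨σ, hσ, y, hy, rfl⟩
  exact ⟨σ, hσ, y, h hy, rfl⟩

/-- `I_aug Y ≤ Y` when `Y` is `I`-stable. -/
theorem iAug_le_self {I : Subgroup G} {Y : AddSubgroup J}
    (hY : ∀ σ ∈ I, ∀ y ∈ Y, σ • y ∈ Y) : _root_.Fermat.Agent.S33.H270.iAug I Y ≤ Y := by
  unfold _root_.Fermat.Agent.S33.H270.iAug
  rw [AddSubgroup.closure_le]
  rintro z ⟨σ, hσ, y, hy, rfl⟩
  exact Y.sub_mem (hY σ hσ y hy) hy

/-- An `I`-equivariant additive map sends `I_aug Y` into `I_aug (f Y)`. -/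
theorem map_mem_iAug {I : Subgroup G} (f : J →+ J')
    (hf : ∀ σ ∈ I, ∀ x : J, f (σ • x) = σ • f x) {Y : AddSubgroup J} {Y' : AddSubgroup J'}
    (hYY' : ∀ y ∈ Y, f y ∈ Y') {x : J} (hx : x ∈ _root_.Fermat.Agent.S33.H270.iAug I Y) : f x ∈ _root_.Fermat.Agent.S33.H270.iAug I Y' := by
  unfold _root_.Fermat.Agent.S33.H270.iAug at hx
  induction hx using AddSubgroup.closure_induction with
  | mem z hz =>
    obtain ⟨σ, hσ, y, hy, rfl⟩ := hz
    rw [map_sub, hf σ hσ]
    exact _root_.Fermat.Agent.S33.H270.smul_sub_mem_iAug hσ (hYY' y hy)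
  | zero => rw [map_zero]; exact AddSubgroup.zero_mem _
  | add a b _ _ ha hb => rw [map_add]; exact AddSubgroup.add_mem _ ha hb
  | neg a _ ha => rw [map_neg]; exact AddSubgroup.neg_mem _ ha

/-- Every element of `I_aug (f Y)` is the image of an element of `I_aug Y`. -/
theorem exists_mem_iAug_of_mem_iAug_map {I : Subgroup G} (f : J →+ J')
    (hf : ∀ σ ∈ I, ∀ x : J, f (σ • x) = σ • f x) {Y : AddSubgroup J} {z : J'}
    (hz : z ∈ _root_.Fermat.Agent.S33.H270.iAug I (Y.map f)) : ∃ x ∈ _root_.Fermat.Agent.S33.H270.iAug I Y, f x = z := by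
  unfold _root_.Fermat.Agent.S33.H270.iAug at hz
  induction hz using AddSubgroup.closure_induction with
  | mem w hw =>
    obtain ⟨σ, hσ, y', hy', rfl⟩ := hw
    obtain ⟨y, hy, rfl⟩ := AddSubgroup.mem_map.mp hy'
    exact ⟨σ • y - y, _root_.Fermat.Agent.S33.H270.smul_sub_mem_iAug hσ hy, by rw [map_sub, hf σ hσ]⟩
  | zero => exact ⟨0, AddSubgroup.zero_mem _, map_zero f⟩
  | add a b _ _ ha hb =>
    obtain ⟨x, hx, rfl⟩ := ha
    obtain ⟨y, hy, rfl⟩ := hb
    exact ⟨x + y, AddSubgroup.add_mem _ hx hy, map_add f x y⟩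
  | neg a _ ha =>
    obtain ⟨x, hx, rfl⟩ := ha
    exact ⟨-x, AddSubgroup.neg_mem _ hx, map_neg f x⟩

/-- **Dévissage** (right exactness of `I`-coinvariants, subgroup form).  `B` an `I`-stable
subgroup, `f` an `I`-equivariant map; if `B ∩ ker f` and `f B` are generated by their
augmentation, so is `B`. -/
theorem le_iAug_of_devissage {I : Subgroup G} (f : J →+ J')
    (hf : ∀ σ ∈ I, ∀ x : J, f (σ • x) = σ • f x) {A B : AddSubgroup J}
    (hB : ∀ σ ∈ I, ∀ y ∈ B, σ • y ∈ B)
    (hAB : ∀ b ∈ B, f b = 0 → b ∈ A) (hAle : A ≤ B) (hA : A ≤ _root_.Fermat.Agent.S33.H270.iAug I A)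
    (hC : B.map f ≤ _root_.Fermat.Agent.S33.H270.iAug I (B.map f)) : B ≤ _root_.Fermat.Agent.S33.H270.iAug I B := by
  intro b hb
  obtain ⟨z, hz, hzb⟩ := _root_.Fermat.Agent.S33.H270.exists_mem_iAug_of_mem_iAug_map f hf (hC (AddSubgroup.mem_map_of_mem f hb))
  have hzB : z ∈ B := _root_.Fermat.Agent.S33.H270.iAug_le_self hB hz
  have hbz : b - z ∈ A := hAB _ (B.sub_mem hb hzB) (by rw [map_sub, hzb, sub_self])
  have h1 : b - z ∈ _root_.Fermat.Agent.S33.H270.iAug I B := _root_.Fermat.Agent.S33.H270.iAug_mono hAle (hA hbz)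
  have h2 := AddSubgroup.add_mem _ h1 hz
  rwa [sub_add_cancel] at h2

/-- A subgroup of `J[p]` on which one `σ₀ ∈ I` acts by a scalar `c₀` with `d (c₀ - 1) ≡ 1 mod p`
is generated by its augmentation. -/
theorem le_iAug_of_scalar {I : Subgroup G} {p : ℕ} {Y : AddSubgroup J}
    (hp : ∀ y ∈ Y, p • y = 0) {σ₀ : G} (hσ₀ : σ₀ ∈ I) {c₀ d : ℕ}
    (hcd : d * c₀ ≡ d + 1 [MOD p]) (hact : ∀ y ∈ Y, σ₀ • y = c₀ • y) : Y ≤ _root_.Fermat.Agent.S33.H270.iAug I Y := by
  intro y hy
  have hdy : d • y ∈ Y := Y.nsmul_mem hy d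
  have h1 : σ₀ • (d • y) - d • y ∈ _root_.Fermat.Agent.S33.H270.iAug I Y := _root_.Fermat.Agent.S33.H270.smul_sub_mem_iAug hσ₀ hdy
  have h2 : σ₀ • (d • y) - d • y = y := by
    rw [hact _ hdy, smul_smul, sub_eq_iff_eq_add]
    -- `(c₀ * d) • y = y + d • y` since `c₀ d ≡ d + 1 mod p` and `p • y = 0`
    have h4 : ∀ a : ℕ, a • y = (a % p) • y := by
      intro a
      conv_lhs => rw [← Nat.div_add_mod a p]
      rw [add_smul, mul_comm, mul_smul, hp y hy, smul_zero, zero_add]
    have h3 : ∀ a b : ℕ, a ≡ b [MOD p] → a • y = b • y := by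
      intro a b hab
      rw [h4 a, h4 b, hab]
    rw [h3 (c₀ * d) (d + 1) (by rwa [mul_comm]), add_smul, one_smul, add_comm]
  rwa [h2] at h1

/-- The image of `𝒮⁺(J)` under an equivariant map lies in `𝒮⁺(J')`. -/
theorem InSPlus.map {I : Subgroup G} {p : ℕ} (f : J →+ J')
    (hf : ∀ σ ∈ I, ∀ x : J, f (σ • x) = σ • f x) {x : J} (hx : _root_.Fermat.Agent.S33.H270.InSPlus I p x) :
    _root_.Fermat.Agent.S33.H270.InSPlus I p (f x) := by
  obtain ⟨hpx, n, hn⟩ := hx
  refine ⟨by rw [← map_nsmul, hpx, map_zero], n, ?_⟩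
  refine _root_.Fermat.Agent.S33.H270.map_mem_iAug f hf (fun y hy => ?_) hn
  rw [_root_.Fermat.Agent.S33.H270.mem_torsSub] at hy ⊢
  rw [← map_nsmul, hy, map_zero]

/-- **(K) from (S1⁺) + (S2) + (OLD)**, abstract form with arbitrary predicates `SP`, `SP'`
in the role of `𝒮⁺(J)`, `𝒮⁺(J')`.

* `hmapα`, `hmapβ` : `α`, `β` send `𝒮⁺(J)` into `𝒮⁺(J')`;
* `h𝒮` : (S1⁺) `𝒮⁺(J) ⊆ 𝒮`;
* `hS2` : (S2) on the new part of `𝒮`, `σ₀` acts by `c₀`;
* `hOLD` : (OLD) every `G`-stable subgroup of `𝒮⁺(J')` is generated by its augmentation.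
-/
theorem key_of_pred {I : Subgroup G} {p : ℕ} (α β : J →+ J')
    (hα : ∀ (σ : G) (x : J), α (σ • x) = σ • α x)
    (hβ : ∀ (σ : G) (x : J), β (σ • x) = σ • β x)
    {σ₀ : G} (hσ₀ : σ₀ ∈ I) {c₀ d : ℕ} (hcd : d * c₀ ≡ d + 1 [MOD p])
    (SP : J → Prop) (SP' : J' → Prop) (hSPp : ∀ x, SP x → p • x = 0)
    (hmapα : ∀ x, SP x → SP' (α x)) (hmapβ : ∀ x, SP x → SP' (β x))
    (𝒮 : Set J) (h𝒮 : ∀ x : J, SP x → x ∈ 𝒮)
    (hS2 : ∀ x ∈ 𝒮, p • x = 0 → α x = 0 → β x = 0 → σ₀ • x = c₀ • x)
    (hOLD : ∀ Y' : AddSubgroup J', (∀ (σ : G), ∀ y ∈ Y', σ • y ∈ Y') →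
      (∀ y ∈ Y', SP' y) → Y' ≤ _root_.Fermat.Agent.S33.H270.iAug I Y')
    (Y : AddSubgroup J) (hYG : ∀ (σ : G), ∀ y ∈ Y, σ • y ∈ Y) (hY : ∀ y ∈ Y, SP y) :
    Y ≤ _root_.Fermat.Agent.S33.H270.iAug I Y := by
  -- the three steps of the filtration `Y ⊇ Y₁ = Y ∩ ker α ⊇ Y₂ = Y₁ ∩ ker β`
  set Y₁ : AddSubgroup J := Y ⊓ α.ker with hY₁
  set Y₂ : AddSubgroup J := Y₁ ⊓ β.ker with hY₂
  have hY₁G : ∀ (σ : G), ∀ y ∈ Y₁, σ • y ∈ Y₁ := by
    intro σ y hy
    rw [hY₁, AddSubgroup.mem_inf, AddMonoidHom.mem_ker] at hy ⊢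
    exact ⟨hYG σ y hy.1, by rw [hα, hy.2, smul_zero]⟩
  have h2 : Y₂ ≤ _root_.Fermat.Agent.S33.H270.iAug I Y₂ := by
    refine le_iAug_of_scalar (p := p) (fun y hy => ?_) hσ₀ hcd (fun y hy => ?_)
    · exact hSPp y (hY y hy.1.1)
    · have hy1 : y ∈ Y := hy.1.1
      exact hS2 y (h𝒮 y (hY y hy1)) (hSPp y (hY y hy1)) (AddMonoidHom.mem_ker.mp hy.1.2)
        (AddMonoidHom.mem_ker.mp hy.2)
  have h1 : Y₁ ≤ _root_.Fermat.Agent.S33.H270.iAug I Y₁ := by
    refine _root_.Fermat.Agent.S33.H270.le_iAug_of_devissage (A := Y₂) (B := Y₁) β (fun σ _ x => hβ σ x)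
      (fun σ _ y hy => hY₁G σ y hy)
      (fun b hb hb0 => AddSubgroup.mem_inf.mpr ⟨hb, AddMonoidHom.mem_ker.mpr hb0⟩)
      inf_le_left h2 ?_
    refine hOLD _ ?_ ?_
    · rintro σ _ ⟨y, hy, rfl⟩
      exact ⟨σ • y, hY₁G σ y hy, hβ σ y⟩
    · rintro _ ⟨y, hy, rfl⟩
      exact hmapβ y (hY y hy.1)
  refine _root_.Fermat.Agent.S33.H270.le_iAug_of_devissage (A := Y₁) (B := Y) α (fun σ _ x => hα σ x)
    (fun σ _ y hy => hYG σ y hy)
    (fun b hb hb0 => AddSubgroup.mem_inf.mpr ⟨hb, AddMonoidHom.mem_ker.mpr hb0⟩)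
    inf_le_left h1 ?_
  refine hOLD _ ?_ ?_
  · rintro σ _ ⟨y, hy, rfl⟩
    exact ⟨σ • y, hYG σ y hy, hα σ y⟩
  · rintro _ ⟨y, hy, rfl⟩
    exact hmapα y (hY y hy)

/-- **(K) from (S1⁺) + (S2) + (OLD)**, abstract form with `𝒮⁺ = InSPlus`. -/
theorem key_of {I : Subgroup G} {p : ℕ} (α β : J →+ J')
    (hα : ∀ (σ : G) (x : J), α (σ • x) = σ • α x)
    (hβ : ∀ (σ : G) (x : J), β (σ • x) = σ • β x)
    {σ₀ : G} (hσ₀ : σ₀ ∈ I) {c₀ d : ℕ} (hcd : d * c₀ ≡ d + 1 [MOD p])
    (𝒮 : Set J) (h𝒮 : ∀ x : J, _root_.Fermat.Agent.S33.H270.InSPlus I p x → x ∈ 𝒮)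
    (hS2 : ∀ x ∈ 𝒮, p • x = 0 → α x = 0 → β x = 0 → σ₀ • x = c₀ • x)
    (hOLD : ∀ Y' : AddSubgroup J', (∀ (σ : G), ∀ y ∈ Y', σ • y ∈ Y') →
      (∀ y ∈ Y', _root_.Fermat.Agent.S33.H270.InSPlus I p y) → Y' ≤ _root_.Fermat.Agent.S33.H270.iAug I Y')
    (Y : AddSubgroup J) (hYG : ∀ (σ : G), ∀ y ∈ Y, σ • y ∈ Y) (hY : ∀ y ∈ Y, _root_.Fermat.Agent.S33.H270.InSPlus I p y) :
    Y ≤ _root_.Fermat.Agent.S33.H270.iAug I Y :=
  key_of_pred α β hα hβ hσ₀ hcd (_root_.Fermat.Agent.S33.H270.InSPlus I p) (_root_.Fermat.Agent.S33.H270.InSPlus I p) (fun _ hx => hx.1)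
    (fun _ hx => hx.map α (fun σ _ x => hα σ x)) (fun _ hx => hx.map β (fun σ _ x => hβ σ x))
    𝒮 h𝒮 hS2 hOLD Y hYG hY

end Fermat.Agent.S33.H270

end
-- ===== PACK-END S33/H270/KeyCore.lean

-- ===== PACK-BEGIN S59/NMP/H587/EigenLin.lean
section


/-!
# S59 / cell NMP, leaf LGC, bridge BETTI (helper587) — linear algebra

`T` an endomorphism of a module `W` over a domain `D`, `Y` a `T`-stable submodule, `x ∈ Y` killed
by `∏_{b ∈ s} (T - b)` for a multiset `s` without repetition.  If every eigenvalue `c` of `T` on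
`Y` satisfies `α c = β` (and `α = 0 → β ≠ 0`), then `α T x = β x`.

* `exists_eigenvector_of_aeval_prod` : a nonzero vector killed by `∏ (T - b)` produces an
  eigenvector of `T` with eigenvalue in `s` (no hypothesis on `s`, no torsion hypothesis).
* `smul_apply_eq_of_aeval_prod` : the statement above.
-/

set_option autoImplicit false

open Polynomial

namespace Fermat.Agent.S59.NMP.H587

section

variable {D W : Type*} [CommRing D] [AddCommGroup W] [Module D W]

/-- The monic polynomial with the roots `s`. -/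
noncomputable def rootPoly (s : Multiset D) : D[X] := (s.map fun b => X - C b).prod

theorem rootPoly_zero : rootPoly (0 : Multiset D) = 1 := by
  simp [rootPoly]

theorem rootPoly_cons (b : D) (s : Multiset D) :
    rootPoly (b ::ₘ s) = (X - C b) * rootPoly s := by
  simp [rootPoly]

theorem rootPoly_add (s t : Multiset D) : rootPoly (s + t) = rootPoly s * rootPoly t := by
  simp [rootPoly]

theorem aeval_X_sub_C_apply (T : Module.End D W) (b : D) (v : W) :
    aeval T (X - C b : D[X]) v = T v - b • v := by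
  simp

theorem aeval_mem (T : Module.End D W) (Y : Submodule D W) (hY : ∀ v ∈ Y, T v ∈ Y)
    (q : D[X]) {v : W} (hv : v ∈ Y) : aeval T q v ∈ Y := by
  induction q using Polynomial.induction_on' with
  | add p q hp hq =>
    rw [map_add, LinearMap.add_apply]
    exact Y.add_mem hp hq
  | monomial n a =>
    rw [aeval_monomial, Module.End.mul_apply, Module.algebraMap_end_apply]
    refine Y.smul_mem _ ?_
    clear a
    induction n with
    | zero => simpa using hv
    | succ n ih =>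
      rw [pow_succ', Module.End.mul_apply]
      exact hY _ ih

/-- **Existence of an eigenvector.**  If `∏_{b ∈ s} (T - b)` kills the nonzero vector `v ∈ Y`,
there is an eigenvector of `T` in `Y` with eigenvalue in `s`. -/
theorem exists_eigenvector_of_aeval_prod (T : Module.End D W) (Y : Submodule D W)
    (hY : ∀ v ∈ Y, T v ∈ Y) (s : Multiset D) :
    ∀ v ∈ Y, v ≠ 0 → aeval T (rootPoly s) v = 0 →
      ∃ b ∈ s, ∃ w ∈ Y, w ≠ 0 ∧ T w = b • w := by
  induction s using Multiset.induction_on with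
  | empty =>
    intro v _ hv0 h
    rw [rootPoly_zero, map_one, Module.End.one_apply] at h
    exact absurd h hv0
  | cons b s ih =>
    intro v hv hv0 h
    rw [rootPoly_cons, map_mul, Module.End.mul_apply, aeval_X_sub_C_apply] at h
    by_cases hw : aeval T (rootPoly s) v = 0
    · obtain ⟨b', hb', w, hw', hw0, hTw⟩ := ih v hv hv0 hw
      exact ⟨b', Multiset.mem_cons_of_mem hb', w, hw', hw0, hTw⟩
    · exact ⟨b, Multiset.mem_cons_self b s, _, aeval_mem T Y hY _ hv, hw, sub_eq_zero.mp h⟩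

variable [IsDomain D]

/-- **The eigenvalue lemma.**  `x ∈ Y` is killed by `∏_{b ∈ s} (T - b)`, `s` without repetition,
and every eigenvalue `c` of `T` on `Y` satisfies `α c = β`.  Then `α T x = β x`. -/
theorem smul_apply_eq_of_aeval_prod (T : Module.End D W) (Y : Submodule D W)
    (hY : ∀ v ∈ Y, T v ∈ Y) (α β : D) (hαβ : α = 0 → β ≠ 0)
    (H : ∀ (c : D) (v : W), v ∈ Y → v ≠ 0 → T v = c • v → α * c = β)
    (s : Multiset D) (hs : s.Nodup) {x : W} (hx : x ∈ Y)
    (hxs : aeval T (rootPoly s) x = 0) : α • T x = β • x := by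
  classical
  by_cases hx0 : x = 0
  · rw [hx0, map_zero, smul_zero, smul_zero]
  -- `α ≠ 0`
  have hα : α ≠ 0 := by
    obtain ⟨b, -, w, hw, hw0, hTw⟩ := exists_eigenvector_of_aeval_prod T Y hY s x hx hx0 hxs
    intro h0
    have := H b w hw hw0 hTw
    rw [h0, zero_mul] at this
    exact hαβ h0 this.symm
  -- the vector `x'' = α T x - β x`
  set x'' : W := α • T x - β • x with hx''
  have hx''Y : x'' ∈ Y := Y.sub_mem (Y.smul_mem _ (hY x hx)) (Y.smul_mem _ hx)
  have hx''eq : x'' = aeval T (C α * X - C β : D[X]) x := by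
    simp [hx'']
  -- the roots `b` with `α b ≠ β`
  set s' := s.filter fun b => α * b ≠ β with hs'
  set s₀ := s.filter fun b => ¬ (α * b ≠ β) with hs₀
  have hsplit : s' + s₀ = s := Multiset.filter_add_not _ s
  have hkill : aeval T (rootPoly s') x'' = 0 := by
    rcases Multiset.empty_or_exists_mem s₀ with h0 | ⟨b₀, hb₀⟩
    · -- no root with `α b = β`
      have : s' = s := by rw [← hsplit, h0, add_zero]
      rw [this, hx''eq, ← Module.End.mul_apply, ← map_mul, mul_comm, map_mul,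
        Module.End.mul_apply, hxs, map_zero]
    · -- exactly one such root
      have hb₀β : α * b₀ = β := by
        have := (Multiset.mem_filter.mp hb₀).2
        exact not_not.mp this
      have hone : s₀ = {b₀} := by
        have hnd : s₀.Nodup := Multiset.Nodup.filter _ hs
        refine Multiset.Nodup.ext hnd (Multiset.nodup_singleton b₀) |>.mpr fun b => ?_
        rw [Multiset.mem_singleton]
        constructor
        · intro hb
          have hbβ : α * b = β := not_not.mp (Multiset.mem_filter.mp hb).2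
          exact mul_left_cancel₀ hα (hbβ.trans hb₀β.symm)
        · rintro rfl
          exact hb₀
      have hpoly : (C α * X - C β : D[X]) = C α * (X - C b₀) := by
        rw [mul_sub, ← C_mul, hb₀β]
      have hfac : rootPoly s = rootPoly s' * (X - C b₀) := by
        rw [← hsplit, rootPoly_add, hone]
        simp [rootPoly]
      rw [hx''eq, hpoly, ← Module.End.mul_apply, ← map_mul,
        show rootPoly s' * (C α * (X - C b₀)) = C α * rootPoly s by rw [hfac]; ring,
        map_mul, Module.End.mul_apply, hxs, map_zero]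
  -- conclusion
  by_contra hne
  have hx''0 : x'' ≠ 0 := fun h => hne (sub_eq_zero.mp h)
  obtain ⟨b, hb, w, hw, hw0, hTw⟩ :=
    exists_eigenvector_of_aeval_prod T Y hY s' x'' hx''Y hx''0 hkill
  exact (Multiset.mem_filter.mp hb).2 (H b w hw hw0 hTw)

end

end Fermat.Agent.S59.NMP.H587

end
-- ===== PACK-END S59/NMP/H587/EigenLin.lean

-- ===== PACK-BEGIN S17/H20/Ext.lean
section


/-!
# S17 / G-DIV (helper20): extension of field isomorphisms to automorphisms (piece EXT)

Mathlib-only field theory used by the "TRANS" ending of the generic-point proof of divisibility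
(`coord/S17-GDIV-helper20.md` on origin/helper20).

* `exists_ringEquiv_of_transcendenceBasis` : two algebraically closed `R`-algebras with
  equipotent transcendence bases over `R` are isomorphic **as `R`-algebras**
  (Mathlib's `IsAlgClosed.equivOfTranscendenceBasis` only records a ring isomorphism).
* `exists_ringEquiv_comp_eq` : if `Ω` is an uncountable algebraically closed field and
  `f g : A →+* Ω` are two embeddings of a countable field, there is an automorphism `τ` of `Ω`
  with `τ ∘ f = g`.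
* `exists_ringEquiv_comp_eq_fixing` : the same, and `τ` fixes pointwise a given set on which
  it is forced to be the identity (the image under `f` of a set on which `f = g`).
-/

set_option autoImplicit false
set_option linter.style.haveILetI false

open Cardinal

namespace Fermat.Agent.S17.H20

universe u v w w'

section Key

variable {R : Type u} {K : Type v} {L : Type w'} [Field R] [Field K] [Field L]

/-- Two algebraically closed fields with equipotent transcendence bases over `R` are isomorphic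
over `R`. -/
theorem exists_ringEquiv_of_transcendenceBasis [Algebra R K] [Algebra R L]
    [IsAlgClosed K] [IsAlgClosed L] {ι κ : Type*} (v : ι → K) (w : κ → L) (e : ι ≃ κ)
    (hv : IsTranscendenceBasis R v) (hw : IsTranscendenceBasis R w) :
    ∃ τ : K ≃+* L, ∀ r : R, τ (algebraMap R K r) = algebraMap R L r := by
  letI := IsAlgClosed.isAlgClosure_of_transcendence_basis v hv
  letI := IsAlgClosed.isAlgClosure_of_transcendence_basis w hw
  let e₁ : MvPolynomial ι R ≃ₐ[R] MvPolynomial κ R :=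
    AlgEquiv.ofAlgHom (MvPolynomial.rename e) (MvPolynomial.rename e.symm)
      (by ext; simp) (by ext; simp)
  let e₀ : Algebra.adjoin R (Set.range v) ≃ₐ[R] Algebra.adjoin R (Set.range w) :=
    (hv.1.aevalEquiv.symm.trans e₁).trans hw.1.aevalEquiv
  refine ⟨IsAlgClosure.equivOfEquiv K L e₀.toRingEquiv, fun r => ?_⟩
  have h1 : algebraMap R K r
      = algebraMap (Algebra.adjoin R (Set.range v)) K
          (algebraMap R (Algebra.adjoin R (Set.range v)) r) := rfl
  rw [h1, IsAlgClosure.equivOfEquiv_algebraMap]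
  have h2 : e₀.toRingEquiv (algebraMap R (Algebra.adjoin R (Set.range v)) r)
      = algebraMap R (Algebra.adjoin R (Set.range w)) r := e₀.commutes r
  rw [h2]
  rfl

end Key

section Uncountable

variable {A : Type u} {Ω : Type v} [Field A] [Field Ω] [IsAlgClosed Ω]

/-- In an uncountable algebraically closed field, any transcendence basis over a countable
field (for any algebra structure) has the cardinality of the field. -/
theorem mk_transcendenceBasis_eq (hA : #A ≤ ℵ₀) (hΩ : ℵ₀ < #Ω) (f : A →+* Ω)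
    (s : Set Ω) (hs : @IsTranscendenceBasis s A Ω _ _ f.toAlgebra (fun x : s => (x : Ω))) :
    #s = #Ω := by
  letI := f.toAlgebra
  have h := IsAlgClosed.cardinal_eq_cardinal_transcendence_basis_of_aleph0_lt
    (R := A) (K := Ω) (fun x : s => (x : Ω)) hs hA hΩ
  exact (Cardinal.lift_injective h).symm

/-- **EXT.** Two embeddings of a countable field into an uncountable algebraically closed field
differ by an automorphism. -/
theorem exists_ringEquiv_comp_eq (hA : #A ≤ ℵ₀) (hΩ : ℵ₀ < #Ω) (f g : A →+* Ω) :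
    ∃ τ : Ω ≃+* Ω, ∀ a : A, τ (f a) = g a := by
  obtain ⟨s, hs⟩ := @exists_isTranscendenceBasis A Ω _ _ f.toAlgebra
    (by
      letI := f.toAlgebra
      exact (faithfulSMul_iff_algebraMap_injective A Ω).mpr f.injective)
  obtain ⟨t, ht⟩ := @exists_isTranscendenceBasis A Ω _ _ g.toAlgebra
    (by
      letI := g.toAlgebra
      exact (faithfulSMul_iff_algebraMap_injective A Ω).mpr g.injective)
  have hst : #s = #t := by
    rw [mk_transcendenceBasis_eq hA hΩ f s hs, mk_transcendenceBasis_eq hA hΩ g t ht]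
  obtain ⟨e⟩ := Cardinal.eq.mp hst
  obtain ⟨τ, hτ⟩ := @exists_ringEquiv_of_transcendenceBasis A Ω Ω _ _ _ f.toAlgebra g.toAlgebra
    _ _ s t (fun x : s => (x : Ω)) (fun x : t => (x : Ω)) e hs ht
  exact ⟨τ, hτ⟩

/-- Variant of **EXT** with the fixed field made explicit: if `f` and `g` agree with a fixed
embedding `i : K₁ →+* Ω` along `j : K₁ →+* A`, then `τ` fixes `i K₁` pointwise. -/
theorem exists_ringEquiv_comp_eq_fixing {K₁ : Type w} [Field K₁] (hA : #A ≤ ℵ₀) (hΩ : ℵ₀ < #Ω)
    (f g : A →+* Ω) (j : K₁ →+* A) (i : K₁ →+* Ω)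
    (hf : ∀ c, f (j c) = i c) (hg : ∀ c, g (j c) = i c) :
    ∃ τ : Ω ≃+* Ω, (∀ a : A, τ (f a) = g a) ∧ ∀ c : K₁, τ (i c) = i c := by
  obtain ⟨τ, hτ⟩ := exists_ringEquiv_comp_eq hA hΩ f g
  refine ⟨τ, hτ, fun c => ?_⟩
  rw [← hf c, hτ, hg, hf]

end Uncountable

end Fermat.Agent.S17.H20

end
-- ===== PACK-END S17/H20/Ext.lean

-- ===== PACK-BEGIN Ribet/H583/S40OfS39.lean
section




/-!
# RIBET row, glue: S40 is a special case of S39 (helper583)

`S39Statement` / `S40Statement` are the frozen statements S39 / S40 verbatim (as `Prop`s).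
Good reduction at `p` makes the semistability hypothesis of S39 vacuous and the "peu ramifiée"
hypothesis `p ∣ v_p(Δ)` trivial (`v_p(Δ) = 0`).
-/

set_option autoImplicit false

namespace Fermat.Agent.Ribet.H583

/-- The frozen statement S39, verbatim. -/
def S39Statement : Prop :=
  ∀ (W : WeierstrassCurve ℤ) (_hΔ : W.Δ ≠ 0)
    {p : ℕ} (_hp : p.Prime) (_hp2 : p ≠ 2)
    (_hsemi : (p : ℤ) ∣ W.Δ → ¬ (p : ℤ) ∣ W.c₄)
    (_hirr : W.ModRepIsIrreducible p)
    (_hfin : (W.map (Int.castRingHom ℚ)).IsPeuRamifieeAt p p)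
    {M : ℕ} (_hM : 0 < M) (_hpM : p ∣ M) (_hp2M : ¬ p ^ 2 ∣ M)
    (_hmod : W.IsResiduallyModularOfLevel p M),
    W.IsResiduallyModularOfLevel p (M / p)

/-- The frozen statement S40, verbatim. -/
def S40Statement : Prop :=
  ∀ (W : WeierstrassCurve ℤ) (_hΔ : W.Δ ≠ 0)
    {p : ℕ} (_hp : p.Prime) (_hp2 : p ≠ 2)
    (_hgood : W.IsGoodPrimeFor p)
    (_hirr : W.ModRepIsIrreducible p)
    {M : ℕ} (_hM : 0 < M) (_hpM : p ∣ M) (_hp2M : ¬ p ^ 2 ∣ M)
    (_hmod : W.IsResiduallyModularOfLevel p M),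
    W.IsResiduallyModularOfLevel p (M / p)

/-- Good reduction at `p` implies "peu ramifiée at `p`" in the Prelude's sense. -/
theorem isPeuRamifieeAt_of_isGoodPrimeFor (W : WeierstrassCurve ℤ) {p : ℕ} (hp : p.Prime)
    (hgood : W.IsGoodPrimeFor p) : (W.map (Int.castRingHom ℚ)).IsPeuRamifieeAt p p := by
  unfold WeierstrassCurve.IsPeuRamifieeAt
  have hΔ : (W.map (Int.castRingHom ℚ)).Δ = ((W.Δ : ℤ) : ℚ) := by
    rw [WeierstrassCurve.map_Δ]
    rfl
  rw [hΔ]
  have : Fact p.Prime := ⟨hp⟩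
  have h0 : padicValRat p ((W.Δ : ℤ) : ℚ) = 0 := by
    rw [padicValRat.of_int]
    have : padicValInt p W.Δ = 0 := by
      apply padicValInt.eq_zero_of_not_dvd
      exact hgood
    rw [this]
    rfl
  rw [h0]
  exact dvd_zero _

/-- S40 follows from S39. -/
theorem s40_of_s39 (h : S39Statement) : S40Statement := by
  intro W hΔ p hp hp2 hgood hirr M hM hpM hp2M hmod
  exact h W hΔ hp hp2 (fun hdvd => absurd hdvd hgood) hirr
    (isPeuRamifieeAt_of_isGoodPrimeFor W hp hgood) hM hpM hp2M hmod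

end Fermat.Agent.Ribet.H583

end
-- ===== PACK-END Ribet/H583/S40OfS39.lean

-- ===== PACK-BEGIN S59/LoSqC/H505/CountAbs.lean
section


/-!
# Row S59, cell (C) LO-SQ, leaf W-COUNT / ABS — the abstract count for ALL exponents (helper505)

Mathlib only.  FINITE argument: no divisible groups, no limits.

Setting (application: `G = J₀(Mq)(ℚ̄)`, `m = p`, `T n = G[m ^ n]`, `I n` = inertia-fixed classes of
`T n`, `F n` = classes of slope `0` ("finite part"), `S n` = split (toric) classes,
`red` = reductions on the two components, values in `Q = Pic⁰(C)[m]²`):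

* `m ^ (c * n) ≤ |T n|`                                  (torsion count, `c = 2 g(Mq)`);
* `|T n| ≤ |I n| * |S n|`                                 (MONO + CYC: `τ - 1 : T n → S n`, kernel `I n`);
* `|I n| ≤ s * |F n|`, `s` INDEPENDENT of `n`             (NODE-REL: boundedly many slopes);
* `m • F (n+1) ⊆ F n`, `F (n+1)[m] ⊆ F 1`, same for `S`   (compatibility of the exponents);
* `red : F 1 → Q`, kernel `⊆ S 1`, `|Q| ≤ m ^ a`           (RED at exponent `m` only, `a = 4 g(M)`);
* `|S 1| ≤ m ^ h`                                         (LABEL-INJ at exponent `m` only, `h = #Σ - 1`);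
* `a + 2 h ≤ c`                                           (GUB / genus relation).

Conclusion: `|S 1| = m ^ h` (so every injective label map `S 1 → H`, `|H| ≤ m ^ h`, is BIJECTIVE:
LAB1-SURJ) and `red : F 1 → Q` is ONTO (R-SURJ1).

Key point: `|A (n)| ≤ |A 1| ^ n` (sub-multiplicativity), hence
`m ^ (c n) ≤ s * (|F 1| * |S 1|) ^ n` for all `n`, which forces `|F 1| * |S 1| ≥ m ^ c`.
-/

set_option autoImplicit false
set_option linter.style.haveILetI false

namespace Fermat.Agent.S59.LoSqC.H505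

/-! ## Arithmetic core -/

/-- Bernoulli, in a division-free form: `(n + P) P ^ n ≤ P (P + 1) ^ n`. -/
theorem bernoulli505 (P : ℕ) : ∀ n : ℕ, (n + P) * P ^ n ≤ P * (P + 1) ^ n := by
  intro n
  induction n with
  | zero => simp
  | succ n ih =>
    have h1 : P * (P + 1) ^ (n + 1) = (P + 1) * (P * (P + 1) ^ n) := by ring
    have h2 : (P + 1) * ((n + P) * P ^ n) ≤ (P + 1) * (P * (P + 1) ^ n) :=
      Nat.mul_le_mul_left _ ih
    have h3 : (n + 1 + P) * P ^ (n + 1) ≤ (P + 1) * ((n + P) * P ^ n) := by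
      have e1 : (n + 1 + P) * P ^ (n + 1) = (n + P) * P ^ n * P + P ^ n * P := by ring
      have e2 : (P + 1) * ((n + P) * P ^ n) = (n + P) * P ^ n * P + (n + P) * P ^ n := by ring
      rw [e1, e2]
      have e3 : P ^ n * P ≤ (n + P) * P ^ n := by
        rw [mul_comm (P ^ n) P]
        exact Nat.mul_le_mul_right _ (Nat.le_add_left P n)
      omega
    rw [h1]
    exact h3.trans h2

/-- No geometric growth gap: `B ^ n ≤ s P ^ n` for all `n` forces `B ≤ P`. -/
theorem le_of_forall_pow_le505 {B P s : ℕ} (h : ∀ n : ℕ, B ^ n ≤ s * P ^ n) : B ≤ P := by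
  by_contra hlt
  rw [not_le] at hlt
  rcases Nat.eq_zero_or_pos P with hP | hP
  · have h1 := h 1
    rw [hP] at h1
    simp at h1
    omega
  · have hn := h (P * s + 1)
    have hB : (P + 1) ^ (P * s + 1) ≤ B ^ (P * s + 1) := Nat.pow_le_pow_left hlt _
    have hb := bernoulli505 P (P * s + 1)
    have hpos : 0 < P ^ (P * s + 1) := pow_pos hP _
    have h4 : (P * s + 1 + P) * P ^ (P * s + 1) ≤ P * s * P ^ (P * s + 1) := by
      calc (P * s + 1 + P) * P ^ (P * s + 1) ≤ P * (P + 1) ^ (P * s + 1) := hb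
        _ ≤ P * B ^ (P * s + 1) := Nat.mul_le_mul_left _ hB
        _ ≤ P * (s * P ^ (P * s + 1)) := Nat.mul_le_mul_left _ hn
        _ = P * s * P ^ (P * s + 1) := by ring
    have h5 : P * s + 1 + P ≤ P * s := Nat.le_of_mul_le_mul_right h4 hpos
    omega

/-- **Arithmetic core of the count.** -/
theorem arith_core505 {m s a h c R : ℕ} (hm : 0 < m) (hc : a + 2 * h ≤ c)
    (J I F S : ℕ → ℕ)
    (hJ : ∀ n, m ^ (c * n) ≤ J n) (hJI : ∀ n, J n ≤ I n * S n) (hIF : ∀ n, I n ≤ s * F n)
    (hFmul : ∀ n, F n ≤ F 1 ^ n) (hSmul : ∀ n, S n ≤ S 1 ^ n)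
    (hF1 : F 1 ≤ R * S 1) (hR : R ≤ m ^ a) (hS1 : S 1 ≤ m ^ h) :
    S 1 = m ^ h ∧ R = m ^ a := by
  have key : m ^ (a + 2 * h) ≤ R * S 1 * S 1 := by
    apply le_of_forall_pow_le505 (s := s)
    intro n
    calc (m ^ (a + 2 * h)) ^ n ≤ (m ^ c) ^ n :=
          Nat.pow_le_pow_left (Nat.pow_le_pow_right hm hc) _
      _ = m ^ (c * n) := (pow_mul m c n).symm
      _ ≤ J n := hJ n
      _ ≤ I n * S n := hJI n
      _ ≤ s * F n * S n := Nat.mul_le_mul_right _ (hIF n)
      _ ≤ s * F 1 ^ n * S 1 ^ n :=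
          Nat.mul_le_mul (Nat.mul_le_mul_left _ (hFmul n)) (hSmul n)
      _ ≤ s * (R * S 1) ^ n * S 1 ^ n :=
          Nat.mul_le_mul_right _ (Nat.mul_le_mul_left _ (Nat.pow_le_pow_left hF1 n))
      _ = s * (R * S 1 * S 1) ^ n := by rw [mul_assoc, ← mul_pow]
  have hma : 0 < m ^ a := pow_pos hm a
  have hmh : 0 < m ^ h := pow_pos hm h
  have e : m ^ (a + 2 * h) = m ^ a * m ^ h * m ^ h := by ring
  rw [e] at key
  constructor
  · by_contra hne
    have hlt : S 1 < m ^ h := lt_of_le_of_ne hS1 hne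
    have : R * S 1 * S 1 < m ^ a * m ^ h * m ^ h := by
      calc R * S 1 * S 1 ≤ m ^ a * m ^ h * S 1 :=
            Nat.mul_le_mul_right _ (Nat.mul_le_mul hR hS1)
        _ < m ^ a * m ^ h * m ^ h := Nat.mul_lt_mul_of_pos_left hlt (Nat.mul_pos hma hmh)
    omega
  · by_contra hne
    have hlt : R < m ^ a := lt_of_le_of_ne hR hne
    have : R * S 1 * S 1 < m ^ a * m ^ h * m ^ h := by
      calc R * S 1 * S 1 ≤ R * m ^ h * m ^ h :=
            Nat.mul_le_mul (Nat.mul_le_mul_left _ hS1) hS1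
        _ < m ^ a * m ^ h * m ^ h :=
            Nat.mul_lt_mul_of_pos_right (Nat.mul_lt_mul_of_pos_right hlt hmh) hmh
    omega

/-! ## Groups -/

section Group

variable {G : Type*} [AddCommGroup G]

/-- The `k`-torsion subgroup of an additive commutative group. -/
def tors505 (G : Type*) [AddCommGroup G] (k : ℕ) : AddSubgroup G :=
  (nsmulAddMonoidHom (α := G) k).ker

theorem mem_tors505 {k : ℕ} {x : G} : x ∈ tors505 G k ↔ k • x = 0 := by
  rw [tors505, AddMonoidHom.mem_ker, nsmulAddMonoidHom_apply]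

theorem finite_of_le505 {A B : AddSubgroup G} (h : A ≤ B) [Finite B] : Finite A :=
  Finite.of_injective (AddSubgroup.inclusion h) (AddSubgroup.inclusion_injective h)

theorem card_le_of_le505 {A B : AddSubgroup G} (h : A ≤ B) [Finite B] :
    Nat.card A ≤ Nat.card B :=
  Nat.card_le_card_of_injective (AddSubgroup.inclusion h) (AddSubgroup.inclusion_injective h)

/-- **Counting along a homomorphism**: if `f` maps `X` into `Y` and the kernel of `f` on `X` lies
in `K`, then `|X| ≤ |K| |Y|`. -/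
theorem card_le_mul_of_hom505 {G' : Type*} [AddCommGroup G'] (X K : AddSubgroup G)
    (Y : AddSubgroup G') [Finite K] [Finite Y] (f : G →+ G')
    (hY : ∀ x ∈ X, f x ∈ Y) (hK : ∀ x ∈ X, f x = 0 → x ∈ K) :
    Nat.card X ≤ Nat.card K * Nat.card Y := by
  set g : X →+ G' := f.comp X.subtype with hg
  have h1 : Nat.card g.ker * g.ker.index = Nat.card X := AddSubgroup.card_mul_index _
  have h2 : g.ker.index = Nat.card g.range := AddSubgroup.index_ker g
  have h3 : Nat.card g.ker ≤ Nat.card K := by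
    refine Nat.card_le_card_of_injective
      (fun x : g.ker => (⟨x.1.1, hK _ x.1.2 (AddMonoidHom.mem_ker.mp x.2)⟩ : K)) ?_
    intro x y hxy
    have : x.1.1 = y.1.1 := congrArg (fun z : K => (z : G)) hxy
    exact Subtype.ext (Subtype.ext this)
  have h4 : Nat.card g.range ≤ Nat.card Y := by
    have hle : g.range ≤ Y := by
      rintro _ ⟨x, rfl⟩
      exact hY _ x.2
    exact card_le_of_le505 hle
  calc Nat.card X = Nat.card g.ker * Nat.card g.range := by rw [← h1, h2]
    _ ≤ Nat.card K * Nat.card Y := Nat.mul_le_mul h3 h4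

/-- **Sub-multiplicativity**: a family `A n ⊆ G[m ^ n]` with `m • A (n+1) ⊆ A n` and
`A (n+1)[m] ⊆ A 1` satisfies `|A n| ≤ |A 1| ^ n`. -/
theorem card_le_pow505 {m : ℕ} (hfin : ∀ n, Finite (tors505 G (m ^ n)))
    (A : ℕ → AddSubgroup G) (hA : ∀ n, A n ≤ tors505 G (m ^ n))
    (hAc : ∀ n x, x ∈ A (n + 1) → m • x ∈ A n)
    (hAk : ∀ n x, x ∈ A (n + 1) → m • x = 0 → x ∈ A 1) :
    ∀ n, Nat.card (A n) ≤ Nat.card (A 1) ^ n := by
  have hAfin : ∀ n, Finite (A n) := fun n => by
    haveI := hfin n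
    exact finite_of_le505 (hA n)
  intro n
  induction n with
  | zero =>
    rw [pow_zero]
    have h0 : A 0 ≤ ⊥ := by
      intro x hx
      have := mem_tors505.mp (hA 0 hx)
      rw [pow_zero, one_nsmul] at this
      exact (AddSubgroup.mem_bot).mpr this
    haveI : Subsingleton (A 0) := by
      constructor
      intro x y
      apply Subtype.ext
      rw [(AddSubgroup.mem_bot).mp (h0 x.2), (AddSubgroup.mem_bot).mp (h0 y.2)]
    exact Finite.card_le_one_iff_subsingleton.mpr inferInstance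
  | succ n ih =>
    haveI := hAfin 1
    haveI := hAfin n
    have h := card_le_mul_of_hom505 (A (n + 1)) (A 1) (A n) (nsmulAddMonoidHom (α := G) m)
      (fun x hx => by rw [nsmulAddMonoidHom_apply]; exact hAc n x hx)
      (fun x hx h0 => by rw [nsmulAddMonoidHom_apply] at h0; exact hAk n x hx h0)
    calc Nat.card (A (n + 1)) ≤ Nat.card (A 1) * Nat.card (A n) := h
      _ ≤ Nat.card (A 1) * Nat.card (A 1) ^ n := Nat.mul_le_mul_left _ ih
      _ = Nat.card (A 1) ^ (n + 1) := by rw [pow_succ, mul_comm]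

/-- **W-COUNT / ABS, family form.**  See the header. -/
theorem count_family505 {Q : Type*} [AddCommGroup Q]
    {m s a h c : ℕ} (hm : 0 < m) (hc : a + 2 * h ≤ c)
    (hfin : ∀ n, Finite (tors505 G (m ^ n)))
    (hJ : ∀ n, m ^ (c * n) ≤ Nat.card (tors505 G (m ^ n)))
    (I F S : ℕ → AddSubgroup G)
    (hF : ∀ n, F n ≤ tors505 G (m ^ n)) (hS : ∀ n, S n ≤ tors505 G (m ^ n))
    (hmono : ∀ n, Nat.card (tors505 G (m ^ n)) ≤ Nat.card (I n) * Nat.card (S n))
    (hslope : ∀ n, Nat.card (I n) ≤ s * Nat.card (F n))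
    (hFc : ∀ n x, x ∈ F (n + 1) → m • x ∈ F n)
    (hFk : ∀ n x, x ∈ F (n + 1) → m • x = 0 → x ∈ F 1)
    (hSc : ∀ n x, x ∈ S (n + 1) → m • x ∈ S n)
    (hSk : ∀ n x, x ∈ S (n + 1) → m • x = 0 → x ∈ S 1)
    (red : G →+ Q) (Q₁ : AddSubgroup Q) [Finite Q₁] (hQ : Nat.card Q₁ ≤ m ^ a)
    (hredQ : ∀ x ∈ F 1, red x ∈ Q₁) (hredS : ∀ x ∈ F 1, red x = 0 → x ∈ S 1)
    (hS1 : Nat.card (S 1) ≤ m ^ h) :
    Nat.card (S 1) = m ^ h ∧ ∀ z ∈ Q₁, ∃ x ∈ F 1, red x = z := by
  haveI hS1fin : Finite (S 1) := by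
    haveI := hfin 1
    exact finite_of_le505 (hS 1)
  have hle : (F 1).map red ≤ Q₁ := by
    rintro _ ⟨x, hx, rfl⟩
    exact hredQ x hx
  haveI hRfin : Finite ((F 1).map red) := finite_of_le505 hle
  have hR : Nat.card ((F 1).map red) ≤ m ^ a := (card_le_of_le505 hle).trans hQ
  have hF1 : Nat.card (F 1) ≤ Nat.card ((F 1).map red) * Nat.card (S 1) := by
    have := card_le_mul_of_hom505 (F 1) (S 1) ((F 1).map red) red
      (fun x hx => ⟨x, hx, rfl⟩) hredS
    rwa [mul_comm] at this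
  obtain ⟨h1, h2⟩ := arith_core505 (s := s) hm hc
    (fun n => Nat.card (tors505 G (m ^ n))) (fun n => Nat.card (I n))
    (fun n => Nat.card (F n)) (fun n => Nat.card (S n))
    hJ hmono hslope (card_le_pow505 hfin F hF hFc hFk) (card_le_pow505 hfin S hS hSc hSk)
    hF1 hR hS1
  refine ⟨h1, ?_⟩
  have hcard : Nat.card Q₁ ≤ Nat.card ((F 1).map red) := by rw [h2]; exact hQ
  have heq : (F 1).map red = Q₁ := by
    have hset : ((F 1).map red : Set Q) = (Q₁ : Set Q) := by
      apply Set.eq_of_subset_of_ncard_le hle _ (Set.toFinite _)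
      rw [← Nat.card_coe_set_eq, ← Nat.card_coe_set_eq]
      exact hcard
    exact SetLike.coe_injective hset
  intro z hz
  rw [← heq] at hz
  obtain ⟨x, hx, rfl⟩ := hz
  exact ⟨x, hx, rfl⟩

/-- (MONO + CYC) in homomorphism form gives the cardinality hypothesis `hmono`. -/
theorem mono_card505 {m : ℕ} (hfin : ∀ n, Finite (tors505 G (m ^ n)))
    (I S : ℕ → AddSubgroup G) (hI : ∀ n, I n ≤ tors505 G (m ^ n))
    (hS : ∀ n, S n ≤ tors505 G (m ^ n))
    (hτ : ∀ n, ∃ τ : G →+ G, (∀ x, (m ^ n) • x = 0 → τ x ∈ S n) ∧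
      (∀ x, (m ^ n) • x = 0 → τ x = 0 → x ∈ I n)) :
    ∀ n, Nat.card (tors505 G (m ^ n)) ≤ Nat.card (I n) * Nat.card (S n) := by
  intro n
  haveI := hfin n
  haveI : Finite (I n) := finite_of_le505 (hI n)
  haveI : Finite (S n) := finite_of_le505 (hS n)
  obtain ⟨τ, h1, h2⟩ := hτ n
  exact card_le_mul_of_hom505 (tors505 G (m ^ n)) (I n) (S n) τ
    (fun x hx => h1 x (mem_tors505.mp hx)) (fun x hx => h2 x (mem_tors505.mp hx))

/-- (NODE-REL) in homomorphism form gives the cardinality hypothesis `hslope`: a slope map on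
`I n` with kernel in `F n` and values in a finite group of order `≤ s`. -/
theorem slope_card505 {Z : Type*} [AddCommGroup Z] {m s : ℕ}
    (hfin : ∀ n, Finite (tors505 G (m ^ n)))
    (I F : ℕ → AddSubgroup G) (hF : ∀ n, F n ≤ tors505 G (m ^ n))
    (hσ : ∀ n, ∃ (slope : G →+ Z) (Z₀ : AddSubgroup Z), Finite Z₀ ∧ Nat.card Z₀ ≤ s ∧
      (∀ x ∈ I n, slope x ∈ Z₀) ∧ (∀ x ∈ I n, slope x = 0 → x ∈ F n)) :
    ∀ n, Nat.card (I n) ≤ s * Nat.card (F n) := by
  intro n
  haveI := hfin n
  haveI : Finite (F n) := finite_of_le505 (hF n)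
  obtain ⟨slope, Z₀, hZfin, hZ, h1, h2⟩ := hσ n
  haveI := hZfin
  calc Nat.card (I n) ≤ Nat.card (F n) * Nat.card Z₀ :=
        card_le_mul_of_hom505 (I n) (F n) Z₀ slope h1 h2
    _ ≤ Nat.card (F n) * s := Nat.mul_le_mul_left _ hZ
    _ = s * Nat.card (F n) := mul_comm _ _

/-- (LAB1-SURJ) an injective label map on `S 1` with values in a set of at most `m ^ h` elements
is bijective as soon as `|S 1| = m ^ h`. -/
theorem label_surjective505 {H : Type*} [Finite H] {m h : ℕ} (S₁ : AddSubgroup G)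
    (hcard : Nat.card S₁ = m ^ h) (hH : Nat.card H ≤ m ^ h) (lab : S₁ → H)
    (hinj : Function.Injective lab) : Function.Surjective lab := by
  haveI : Finite S₁ := Finite.of_injective lab hinj
  have h1 : Nat.card H ≤ Nat.card S₁ := by rw [hcard]; exact hH
  exact ((Nat.bijective_iff_injective_and_card lab).mpr
    ⟨hinj, le_antisymm (Nat.card_le_card_of_injective lab hinj) h1⟩).2

/-- **W-COUNT / ABS, constant form**: `I`, `F`, `S` fixed subgroups of `G`, cut by the torsion
subgroups `G[m ^ n]`; the compatibilities are automatic. -/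
theorem count_const505 {Q : Type*} [AddCommGroup Q]
    {m s a h c : ℕ} (hm : 0 < m) (hc : a + 2 * h ≤ c)
    (hfin : ∀ n, Finite (tors505 G (m ^ n)))
    (hJ : ∀ n, m ^ (c * n) ≤ Nat.card (tors505 G (m ^ n)))
    (I F S : AddSubgroup G)
    (hmono : ∀ n, Nat.card (tors505 G (m ^ n)) ≤
      Nat.card ↥(I ⊓ tors505 G (m ^ n)) * Nat.card ↥(S ⊓ tors505 G (m ^ n)))
    (hslope : ∀ n, Nat.card ↥(I ⊓ tors505 G (m ^ n)) ≤ s * Nat.card ↥(F ⊓ tors505 G (m ^ n)))
    (red : G →+ Q) (Q₁ : AddSubgroup Q) [Finite Q₁] (hQ : Nat.card Q₁ ≤ m ^ a)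
    (hredQ : ∀ x ∈ F, m • x = 0 → red x ∈ Q₁) (hredS : ∀ x ∈ F, m • x = 0 → red x = 0 → x ∈ S)
    (hS1 : Nat.card ↥(S ⊓ tors505 G m) ≤ m ^ h) :
    Nat.card ↥(S ⊓ tors505 G m) = m ^ h ∧ ∀ z ∈ Q₁, ∃ x ∈ F, m • x = 0 ∧ red x = z := by
  have hcompat : ∀ (A : AddSubgroup G) (n : ℕ) (x : G), x ∈ A ⊓ tors505 G (m ^ (n + 1)) →
      m • x ∈ A ⊓ tors505 G (m ^ n) := by
    intro A n x hx
    refine ⟨A.nsmul_mem hx.1 m, mem_tors505.mpr ?_⟩
    have := mem_tors505.mp hx.2
    rw [← mul_nsmul, ← pow_succ']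
    exact this
  have hker : ∀ (A : AddSubgroup G) (n : ℕ) (x : G), x ∈ A ⊓ tors505 G (m ^ (n + 1)) →
      m • x = 0 → x ∈ A ⊓ tors505 G (m ^ 1) := by
    intro A n x hx h0
    exact ⟨hx.1, mem_tors505.mpr (by rw [pow_one]; exact h0)⟩
  have key := count_family505 (G := G) (s := s) hm hc hfin hJ
    (fun n => I ⊓ tors505 G (m ^ n)) (fun n => F ⊓ tors505 G (m ^ n))
    (fun n => S ⊓ tors505 G (m ^ n)) (fun n => inf_le_right) (fun n => inf_le_right)
    hmono hslope (hcompat F) (hker F) (hcompat S) (hker S) red Q₁ hQ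
    (fun x hx => hredQ x hx.1 (by have := mem_tors505.mp hx.2; rwa [pow_one] at this))
    (fun x hx h0 => ⟨hredS x hx.1 (by have := mem_tors505.mp hx.2; rwa [pow_one] at this) h0,
      hx.2⟩)
    (by rw [pow_one]; exact hS1)
  rw [pow_one] at key
  refine ⟨key.1, fun z hz => ?_⟩
  obtain ⟨x, hx, hxz⟩ := key.2 z hz
  exact ⟨x, hx.1, mem_tors505.mp hx.2, hxz⟩

end Group

end Fermat.Agent.S59.LoSqC.H505

end
-- ===== PACK-END S59/LoSqC/H505/CountAbs.lean

-- ===== PACK-BEGIN S20/Comb482Psi.lean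
section



/-!
# Recursion for the Dedekind psi function
-/

set_option autoImplicit false

namespace Fermat.Agent.S20.Comb482

open ModularCurve

theorem dedekindPsi_mul_prime_of_dvd {M p : ℕ} (hM : M ≠ 0) (hp : p.Prime) (hpM : p ∣ M) :
    dedekindPsi (M * p) = p * dedekindPsi M := by
  unfold dedekindPsi
  have hset : (M * p).divisors.filter Squarefree = M.divisors.filter Squarefree := by
    ext d
    simp only [Finset.mem_filter, Nat.mem_divisors]
    constructor
    · rintro ⟨⟨hd, -⟩, hsq⟩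
      refine ⟨⟨?_, hM⟩, hsq⟩
      have h1 : d ∣ M ^ 2 := hd.trans (by rw [pow_two]; exact Nat.mul_dvd_mul_left M hpM)
      exact (hsq.dvd_pow_iff_dvd two_ne_zero).mp h1
    · rintro ⟨⟨hd, -⟩, hsq⟩
      exact ⟨⟨hd.mul_right p, mul_ne_zero hM hp.ne_zero⟩, hsq⟩
  rw [hset, Finset.mul_sum]
  refine Finset.sum_congr rfl fun d hd => ?_
  simp only [Finset.mem_filter, Nat.mem_divisors] at hd
  rw [mul_comm M p, Nat.mul_div_assoc p hd.1.1]

theorem dedekindPsi_mul_prime_of_not_dvd {M p : ℕ} (hM : M ≠ 0) (hp : p.Prime) (hpM : ¬ p ∣ M) :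
    dedekindPsi (M * p) = (p + 1) * dedekindPsi M := by
  unfold dedekindPsi
  have hset : (M * p).divisors.filter Squarefree =
      M.divisors.filter Squarefree ∪ (M.divisors.filter Squarefree).image (· * p) := by
    ext d
    simp only [Finset.mem_filter, Nat.mem_divisors, Finset.mem_union, Finset.mem_image]
    constructor
    · rintro ⟨⟨hd, -⟩, hsq⟩
      by_cases hpd : p ∣ d
      · right
        obtain ⟨d', rfl⟩ := hpd
        refine ⟨d', ⟨⟨?_, hM⟩, ?_⟩, mul_comm _ _⟩
        · rw [mul_comm M p] at hd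
          exact Nat.dvd_of_mul_dvd_mul_left hp.pos hd
        · exact hsq.of_mul_right
      · left
        refine ⟨⟨?_, hM⟩, hsq⟩
        have hcop : Nat.Coprime d p := ((Nat.Prime.coprime_iff_not_dvd hp).mpr hpd).symm
        exact hcop.dvd_of_dvd_mul_right hd
    · rintro (⟨⟨hd, -⟩, hsq⟩ | ⟨d', ⟨⟨hd, -⟩, hsq⟩, rfl⟩)
      · exact ⟨⟨hd.mul_right p, mul_ne_zero hM hp.ne_zero⟩, hsq⟩
      · refine ⟨⟨Nat.mul_dvd_mul_right hd p, mul_ne_zero hM hp.ne_zero⟩, ?_⟩
        have hcop : Nat.Coprime d' p :=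
          ((Nat.Prime.coprime_iff_not_dvd hp).mpr fun h => hpM (h.trans hd)).symm
        exact (Nat.squarefree_mul hcop).mpr ⟨hsq, hp.squarefree⟩
  have hdisj : Disjoint (M.divisors.filter Squarefree)
      ((M.divisors.filter Squarefree).image (· * p)) := by
    rw [Finset.disjoint_left]
    intro d hd hd'
    simp only [Finset.mem_filter, Nat.mem_divisors, Finset.mem_image] at hd hd'
    obtain ⟨d', -, rfl⟩ := hd'
    exact hpM ((dvd_mul_left p d').trans hd.1.1)
  rw [hset, Finset.sum_union hdisj, Finset.sum_image, add_mul, one_mul, Finset.mul_sum]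
  · congr 1
    · refine Finset.sum_congr rfl fun d hd => ?_
      simp only [Finset.mem_filter, Nat.mem_divisors] at hd
      rw [mul_comm M p, Nat.mul_div_assoc p hd.1.1]
    · refine Finset.sum_congr rfl fun d hd => ?_
      rw [Nat.mul_div_mul_right _ _ hp.pos]
  · intro x _ y _ hxy
    exact Nat.eq_of_mul_eq_mul_right hp.pos hxy

end Fermat.Agent.S20.Comb482

end
-- ===== PACK-END S20/Comb482Psi.lean

-- ===== PACK-BEGIN S59/H826/LoSq32Alg.lean
section
/-
Row S59, cell LO, leaf LO-SQ at `(p, q) = (3, 2)` — SOFT route, abstract core (helper826).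

Pure linear algebra (Mathlib only).  `V` a finite-dimensional vector space over a field `k`
(`2 ≠ 0`), with a commuting family `T i` ("Hecke operators") and two operators `σ`, `u`
(`σ³ = 1`, `u² = 1`, `u σ u = σ²`: an action of `S₃`) commuting with the `T i`.
`V'` a second space ("auxiliary level") with `α : V → V'`, `β : V' → V`, `β α = T r₀`,
`β` equivariant for `σ' ↦ σ`.

KEY hypothesis (from `MFree.H761.kerCor` + `H57.resCor` + Eisenstein at the auxiliary level):
for every `σ`-fixed common eigenvector `x` (eigenvalues `a i`), `α x ∈ (σ' - 1) V'`.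

Conclusion: if the eigensystem `a` occurs in `V` and `a r₀ ≠ 0`, it occurs in `V^u`.
-/


set_option autoImplicit false

namespace Fermat.Agent.S59.H826

/-- In a commutative artinian ring some power of any ideal is generated by an idempotent. -/
theorem exists_idem_of_artinian826 {R : Type*} [CommRing R] [IsArtinianRing R] (I : Ideal R) :
    ∃ (e : R) (n : ℕ), e ∈ I ∧ e * e = e ∧ ∀ t ∈ I ^ (n + 1), t * e = t := by
  obtain ⟨n, hn⟩ := IsArtinian.monotone_stabilizes (R := R) (M := R)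
    ⟨fun m => OrderDual.toDual (I ^ m), fun a b hab => Ideal.pow_le_pow_right hab⟩
  have hstab : ∀ m, n ≤ m → I ^ n = I ^ m := fun m hm => by
    have := hn m hm
    exact OrderDual.toDual.injective this
  set J := I ^ (n + 1) with hJ
  have hJJ : IsIdempotentElem J := by
    show J * J = J
    rw [hJ, ← pow_add, ← hstab (n + 1 + (n + 1)) (by omega), ← hstab (n + 1) (by omega)]
  have hfg : J.FG := IsNoetherian.noetherian J
  obtain ⟨e, he, hJe⟩ := (Ideal.isIdempotentElem_iff_of_fg J hfg).mp hJJ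
  have heJ : e ∈ J := by
    rw [hJe]
    exact Ideal.mem_span_singleton_self e
  refine ⟨e, n, ?_, he.eq, ?_⟩
  · exact Ideal.pow_le_self (by omega) heJ
  · intro t ht
    rw [← hJ, hJe] at ht
    obtain ⟨s, rfl⟩ := Ideal.mem_span_singleton'.mp ht
    rw [mul_assoc, he.eq]

/-- **Abstract core of LO-SQ at `(3, 2)`.** -/
theorem exists_fixed_eigen826 {k : Type*} [Field k]
    {V V' : Type*} [AddCommGroup V] [Module k V] [FiniteDimensional k V]
    [AddCommGroup V'] [Module k V']
    {ι : Type*} (T : ι → Module.End k V) (hT : ∀ i j, T i * T j = T j * T i)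
    (σ u : Module.End k V) (hσ : σ * σ * σ = 1) (huσ : u * σ * u = σ * σ)
    (hu : u * u = 1)
    (hTσ : ∀ i, T i * σ = σ * T i) (hTu : ∀ i, T i * u = u * T i)
    (σ' : Module.End k V') (α : V →ₗ[k] V') (β : V' →ₗ[k] V)
    (hβσ : ∀ w, β (σ' w) = σ (β w))
    (r₀ : ι) (hβα : ∀ v, β (α v) = T r₀ v)
    (a : ι → k) (ha : a r₀ ≠ 0)
    (hkey : ∀ x : V, (∀ i, T i x = a i • x) → σ x = x → ∃ w : V', α x = σ' w - w)
    (x : V) (hx : x ≠ 0) (hxT : ∀ i, T i x = a i • x) :
    ∃ z : V, z ≠ 0 ∧ u z = z ∧ ∀ i, T i z = a i • z := by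
  classical
  set s : Set (Module.End k V) := Set.range T with hs
  have hcomm : ∀ a ∈ s, ∀ b ∈ s, a * b = b * a := by
    rintro _ ⟨i, rfl⟩ _ ⟨j, rfl⟩
    exact hT i j
  letI : CommRing (Algebra.adjoin k s) := Algebra.adjoinCommRingOfComm k hcomm
  haveI : IsArtinianRing (Algebra.adjoin k s) := IsArtinianRing.of_finite k _
  -- every element of the Hecke algebra commutes with `σ` and `u`
  have hcent : Algebra.adjoin k s ≤ Subalgebra.centralizer k {σ, u} := by
    refine Algebra.adjoin_le ?_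
    rintro _ ⟨i, rfl⟩
    rw [SetLike.mem_coe, Subalgebra.mem_centralizer_iff]
    intro g hg
    rcases hg with rfl | rfl
    · exact (hTσ i).symm
    · exact (hTu i).symm
  have hcσ : ∀ (t : Algebra.adjoin k s) (v : V),
      (t : Module.End k V) (σ v) = σ ((t : Module.End k V) v) := by
    intro t v
    have h := (Subalgebra.mem_centralizer_iff k).mp (hcent t.2) σ (by simp)
    have := congrArg (fun f : Module.End k V => f v) h
    simpa [Module.End.mul_apply] using this.symm
  have hcu : ∀ (t : Algebra.adjoin k s) (v : V),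
      (t : Module.End k V) (u v) = u ((t : Module.End k V) v) := by
    intro t v
    have h := (Subalgebra.mem_centralizer_iff k).mp (hcent t.2) u (by simp)
    have := congrArg (fun f : Module.End k V => f v) h
    simpa [Module.End.mul_apply] using this.symm
  have hmul : ∀ (t t' : Algebra.adjoin k s) (v : V),
      ((t * t' : Algebra.adjoin k s) : Module.End k V) v =
        (t : Module.End k V) ((t' : Module.End k V) v) := fun t t' v => rfl
  -- the annihilator of `x`
  let 𝔪 : Ideal (Algebra.adjoin k s) :=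
    { carrier := {t | (t : Module.End k V) x = 0}
      add_mem' := by
        intro b c hb hc
        show ((b + c : Algebra.adjoin k s) : Module.End k V) x = 0
        have hb' : (b : Module.End k V) x = 0 := hb
        have hc' : (c : Module.End k V) x = 0 := hc
        rw [Subalgebra.coe_add, LinearMap.add_apply, hb', hc', add_zero]
      zero_mem' := by
        show ((0 : Algebra.adjoin k s) : Module.End k V) x = 0
        rw [Subalgebra.coe_zero, LinearMap.zero_apply]
      smul_mem' := by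
        intro c t ht
        show ((c * t : Algebra.adjoin k s) : Module.End k V) x = 0
        have ht' : (t : Module.End k V) x = 0 := ht
        rw [hmul, ht', map_zero] }
  have hmem : ∀ t : Algebra.adjoin k s, t ∈ 𝔪 ↔ (t : Module.End k V) x = 0 := fun t => Iff.rfl
  obtain ⟨e', n, he'm, hidem, hpow⟩ := exists_idem_of_artinian826 𝔪
  set E' : Module.End k V := (e' : Module.End k V) with hE'
  have hE'x : E' x = 0 := (hmem e').mp he'm
  have hE'E' : ∀ v, E' (E' v) = E' v := by
    intro v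
    have := congrArg (fun t : Algebra.adjoin k s => (t : Module.End k V) v) hidem
    simpa [hmul] using this
  have hcomE' : ∀ (t : Algebra.adjoin k s) (v : V),
      E' ((t : Module.End k V) v) = (t : Module.End k V) (E' v) := by
    intro t v
    have := congrArg (fun r : Algebra.adjoin k s => (r : Module.End k V) v) (mul_comm e' t)
    simpa [hmul] using this
  -- elements of `𝔪 ^ (n + 1)` kill `V₁ = ker E'`
  have hkill : ∀ t ∈ 𝔪 ^ (n + 1), ∀ v : V, E' v = 0 → (t : Module.End k V) v = 0 := by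
    intro t ht v hv
    have := congrArg (fun r : Algebra.adjoin k s => (r : Module.End k V) v) (hpow t ht)
    simp only [hmul] at this
    rw [← this]
    show (t : Module.End k V) (E' v) = 0
    rw [hv, map_zero]
  -- socle step
  have hmin : ∀ m : ℕ, ∀ z : V, z ≠ 0 → E' z = 0 → u z = z →
      (∀ t ∈ 𝔪 ^ m, (t : Module.End k V) z = 0) →
      ∃ z' : V, z' ≠ 0 ∧ E' z' = 0 ∧ u z' = z' ∧ ∀ t ∈ 𝔪, (t : Module.End k V) z' = 0 := by
    intro m
    induction m with
    | zero =>
      intro z hz _ _ hk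
      exfalso
      apply hz
      have h1 : (1 : Algebra.adjoin k s) ∈ 𝔪 ^ 0 := by
        rw [pow_zero, Ideal.one_eq_top]
        exact Submodule.mem_top
      have := hk 1 h1
      simpa using this
    | succ m ih =>
      intro z hz hEz huz hk
      by_cases h : ∀ t ∈ 𝔪 ^ m, (t : Module.End k V) z = 0
      · exact ih z hz hEz huz h
      · push Not at h
        obtain ⟨t, ht, htz⟩ := h
        refine ⟨(t : Module.End k V) z, htz, ?_, ?_, ?_⟩
        · rw [hcomE', hEz, map_zero]
        · rw [← hcu, huz]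
        · intro r hr
          have hrt : r * t ∈ 𝔪 ^ (m + 1) := by
            rw [pow_succ']
            exact Ideal.mul_mem_mul hr ht
          have := hk (r * t) hrt
          rwa [hmul] at this
  by_cases hZ : ∃ z : V, z ≠ 0 ∧ E' z = 0 ∧ u z = z
  · obtain ⟨z, hz, hEz, huz⟩ := hZ
    obtain ⟨z', hz', -, huz', hmz'⟩ := hmin (n + 1) z hz hEz huz (fun t ht => hkill t ht z hEz)
    refine ⟨z', hz', huz', fun i => ?_⟩
    have hTi : T i ∈ Algebra.adjoin k s := Algebra.subset_adjoin ⟨i, rfl⟩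
    set ti : Algebra.adjoin k s := ⟨T i, hTi⟩ - algebraMap k _ (a i) with hti
    have hcoe : ∀ v : V, (ti : Module.End k V) v = T i v - a i • v := by
      intro v
      rw [hti, Subalgebra.coe_sub, Subalgebra.coe_algebraMap, LinearMap.sub_apply]
      simp [Algebra.algebraMap_eq_smul_one]
    have htim : ti ∈ 𝔪 := by
      rw [hmem, hcoe, hxT i, sub_self]
    have := hmz' ti htim
    rw [hcoe] at this
    exact sub_eq_zero.mp this
  · exfalso
    push Not at hZ
    -- `u = -1` on `V₁`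
    have hneg : ∀ v : V, E' v = 0 → u v = -v := by
      intro v hv
      have hEuv : E' (u v) = 0 := by
        have := hcu e' v
        rw [← hE'] at this
        rw [this, hv, map_zero]
      have huu : u (u v) = v := by
        have := congrArg (fun f : Module.End k V => f v) hu
        simpa [Module.End.mul_apply] using this
      by_contra hne
      have hw : v + u v ≠ 0 := by
        intro h0
        exact hne (eq_neg_of_add_eq_zero_right h0)
      exact hZ (v + u v) hw (by rw [map_add, hv, hEuv, add_zero]) (by rw [map_add, huu, add_comm])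
    have hEσ : ∀ v : V, E' v = 0 → E' (σ v) = 0 := by
      intro v hv
      have := hcσ e' v
      rw [← hE'] at this
      rw [this, hv, map_zero]
    -- `σ = 1` on `V₁`
    have hfix : ∀ v : V, E' v = 0 → σ v = v := by
      intro v hv
      have h1 : u (σ (u v)) = σ (σ v) := by
        have := congrArg (fun f : Module.End k V => f v) huσ
        simpa [Module.End.mul_apply] using this
      rw [hneg v hv, map_neg, map_neg, hneg (σ v) (hEσ v hv), neg_neg] at h1
      have h3 : σ (σ (σ v)) = v := by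
        have := congrArg (fun f : Module.End k V => f v) hσ
        simpa [Module.End.mul_apply] using this
      rw [← h1, ← h1] at h3
      exact h3
    obtain ⟨w, hw⟩ := hkey x hxT (hfix x hE'x)
    have h1 : a r₀ • x = σ (β w) - β w := by
      rw [← hxT r₀, ← hβα, hw, map_sub, hβσ]
    set v := β w with hv
    have hv1 : E' (v - E' v) = 0 := by rw [map_sub, hE'E', sub_self]
    have h2 := hfix _ hv1
    have h3 : E' (σ v) = σ (E' v) := by
      have := hcσ e' v
      rwa [← hE'] at this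
    have h4 : a r₀ • x = 0 := by
      have e1 : a r₀ • x - E' (a r₀ • x) = (σ v - v) - E' (σ v - v) := by rw [h1]
      rw [map_smul, hE'x, smul_zero, sub_zero] at e1
      rw [e1, map_sub, h3]
      rw [map_sub] at h2
      have : σ v - v - (σ (E' v) - E' v) = (σ v - σ (E' v)) - (v - E' v) := by abel
      rw [this, h2, sub_self]
    rcases smul_eq_zero.mp h4 with h | h
    · exact ha h
    · exact hx h

end Fermat.Agent.S59.H826

end
-- ===== PACK-END S59/H826/LoSq32Alg.lean

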