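import Mathlib
import Fermat.Agent.Pack.S43C.E4L0
import Fermat.Agent.Pack.S43MC.G0E29L0

set_option linter.all false

-- ===== PACK-BEGIN S59/H427/Koszul.lean
section


/-!
# S59 / N1 (helper427): Koszul syzygies of pure powers

For a commutative ring `A`, the pure powers `X i ^ D` in `MvPolynomial ι A` have only the trivial
(Koszul) syzygies: if `∑ i ∈ s, a i * X i ^ D = 0` then `a i = ∑ j ∈ s, c i j * X j ^ D` for an
alternating family `c`.  Everything is elementary (monomial ideals).
-/

set_option autoImplicit false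

namespace Fermat.Agent.S59.H427

open MvPolynomial

variable {A : Type*} [CommRing A] {ι : Type*}

/-- The monomial ideal generated by the pure powers `X i ^ D`, `i ∈ s`. -/
noncomputable def powIdeal (A : Type*) [CommRing A] {ι : Type*} (D : ℕ) (s : Set ι) :
    Ideal (MvPolynomial ι A) :=
  Ideal.span ((fun i => (X i : MvPolynomial ι A) ^ D) '' s)

theorem mem_powIdeal_iff {D : ℕ} {s : Set ι} {g : MvPolynomial ι A} :
    g ∈ powIdeal A D s ↔ ∀ m ∈ g.support, ∃ i ∈ s, D ≤ m i := by
  classical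
  have h1 : ((fun i => (X i : MvPolynomial ι A) ^ D) '' s) =
      (fun t => monomial t (1 : A)) '' ((fun i => Finsupp.single i D) '' s) := by
    rw [Set.image_image]
    refine Set.image_congr fun i _ => ?_
    exact X_pow_eq_monomial
  rw [powIdeal, h1, mem_ideal_span_monomial_image]
  refine forall₂_congr fun m _ => ?_
  constructor
  · rintro ⟨_, ⟨i, hi, rfl⟩, hle⟩
    exact ⟨i, hi, by simpa using hle i⟩
  · rintro ⟨i, hi, hle⟩
    refine ⟨_, ⟨i, hi, rfl⟩, ?_⟩
    intro j
    by_cases hj : j = i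
    · subst hj; simpa using hle
    · simp [Ne.symm hj]

theorem X_pow_mem_powIdeal {D : ℕ} {s : Set ι} {i : ι} (hi : i ∈ s) :
    (X i : MvPolynomial ι A) ^ D ∈ powIdeal A D s :=
  Ideal.subset_span ⟨i, hi, rfl⟩

/-- `X k ^ D` is a nonzerodivisor modulo the pure powers of the other variables. -/
theorem mem_powIdeal_of_mul_X_pow_mem {D : ℕ} {s : Set ι} {k : ι} (hk : k ∉ s)
    {a : MvPolynomial ι A} (h : a * X k ^ D ∈ powIdeal A D s) : a ∈ powIdeal A D s := by
  classical
  rw [mem_powIdeal_iff] at h ⊢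
  intro m hm
  have hm' : m + Finsupp.single k D ∈ (a * X k ^ D).support := by
    rw [mem_support_iff, X_pow_eq_monomial, coeff_mul_monomial, mul_one]
    exact mem_support_iff.mp hm
  obtain ⟨i, hi, hle⟩ := h _ hm'
  refine ⟨i, hi, ?_⟩
  have hik : k ≠ i := fun e => hk (e ▸ hi)
  simpa [Finsupp.single_apply, hik] using hle

/-- Elements of the monomial ideal are combinations of the generators. -/
theorem exists_eq_sum_of_mem_powIdeal {D : ℕ} (s : Finset ι) {a : MvPolynomial ι A}
    (h : a ∈ powIdeal A D (s : Set ι)) :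
    ∃ c : ι → MvPolynomial ι A, a = ∑ j ∈ s, c j * X j ^ D := by
  classical
  have h1 : ((fun i => (X i : MvPolynomial ι A) ^ D) '' (s : Set ι)) =
      Set.range (fun i : s => (X (i : ι) : MvPolynomial ι A) ^ D) := by
    ext p
    constructor
    · rintro ⟨i, hi, rfl⟩; exact ⟨⟨i, hi⟩, rfl⟩
    · rintro ⟨⟨i, hi⟩, rfl⟩; exact ⟨i, hi, rfl⟩
  rw [powIdeal, h1, Ideal.mem_span_range_iff_exists_fun] at h
  obtain ⟨c, hc⟩ := h
  refine ⟨fun j => if hj : j ∈ s then c ⟨j, hj⟩ else 0, ?_⟩
  rw [← hc, ← Finset.sum_coe_sort s]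
  refine Finset.sum_congr rfl fun j _ => ?_
  simp

/-- **Koszul syzygies of pure powers.** -/
theorem koszul_pow [DecidableEq ι] (D : ℕ) (s : Finset ι) :
    ∀ a : ι → MvPolynomial ι A, ∑ i ∈ s, a i * X i ^ D = 0 →
      ∃ c : ι → ι → MvPolynomial ι A, (∀ i j, c i j = - c j i) ∧ (∀ i, c i i = 0) ∧
        ∀ i ∈ s, a i = ∑ j ∈ s, c i j * X j ^ D := by
  induction s using Finset.induction_on with
  | empty =>
    intro a _
    exact ⟨fun _ _ => 0, by simp, by simp, by simp⟩
  | insert k s hk ih =>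
    intro a ha
    rw [Finset.sum_insert hk] at ha
    -- `a k ∈ powIdeal s`
    have h1 : a k * X k ^ D ∈ powIdeal A D (s : Set ι) := by
      have : a k * X k ^ D = - ∑ i ∈ s, a i * X i ^ D := eq_neg_of_add_eq_zero_left ha
      rw [this]
      refine neg_mem (Ideal.sum_mem _ fun i hi => ?_)
      exact Ideal.mul_mem_left _ _ (X_pow_mem_powIdeal (by simpa using hi))
    have h2 := mem_powIdeal_of_mul_X_pow_mem (by simpa using hk) h1
    obtain ⟨γ, hγ⟩ := exists_eq_sum_of_mem_powIdeal s h2
    -- modified coefficients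
    have h3 : ∑ i ∈ s, (a i + γ i * X k ^ D) * X i ^ D = 0 := by
      have : ∑ i ∈ s, (a i + γ i * X k ^ D) * X i ^ D =
          ∑ i ∈ s, a i * X i ^ D + (∑ i ∈ s, γ i * X i ^ D) * X k ^ D := by
        rw [Finset.sum_mul, ← Finset.sum_add_distrib]
        refine Finset.sum_congr rfl fun i _ => ?_
        ring
      rw [this, ← hγ, add_comm]
      exact ha
    obtain ⟨c', hc1, hc2, hc3⟩ := ih _ h3
    refine ⟨fun i j => if i = k then (if j = k then 0 else γ j)
        else if j = k then - γ i else c' i j, ?_, ?_, ?_⟩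
    · intro i j
      by_cases hi : i = k <;> by_cases hj : j = k <;> simp [hi, hj, hc1 i j]
    · intro i
      by_cases hi : i = k <;> simp [hi, hc2]
    · intro i hi
      rw [Finset.mem_insert] at hi
      rw [Finset.sum_insert hk]
      rcases hi with rfl | hi
      · simp only [if_true, zero_mul, zero_add]
        rw [hγ]
        refine Finset.sum_congr rfl fun j hj => ?_
        have : j ≠ i := fun e => hk (e ▸ hj)
        simp [this]
      · have hik : i ≠ k := fun e => hk (e ▸ hi)
        simp only [hik, if_false, if_true]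
        have h4 := hc3 i hi
        have h5 : ∑ j ∈ s, (if j = k then - γ i else c' i j) * X j ^ D =
            ∑ j ∈ s, c' i j * X j ^ D := by
          refine Finset.sum_congr rfl fun j hj => ?_
          have : j ≠ k := fun e => hk (e ▸ hj)
          simp [this]
        rw [h5, ← h4]
        ring

end Fermat.Agent.S59.H427

end
-- ===== PACK-END S59/H427/Koszul.lean

-- ===== PACK-BEGIN S59/H563/OldLiftCore.lean
section


set_option autoImplicit false

namespace Fermat.Agent.S59.H563

open Module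

/-- Single operator: if `S` is semisimple at `0` on `V` and `K` is `S`-stable, every `x ∈ K`
is `k₀ + S k₁` with `k₀ ∈ K`, `S k₀ = 0`, `k₁ ∈ K`. -/
theorem exists_ker_add_range563 {V : Type*} [AddCommGroup V] [Module ℂ V] [FiniteDimensional ℂ V]
    (S : Module.End ℂ V) (hss : ∀ v, S (S v) = 0 → S v = 0)
    (K : Submodule ℂ V) (hK : ∀ v ∈ K, S v ∈ K) (x : V) (hx : x ∈ K) :
    ∃ k₀ ∈ K, ∃ k₁ ∈ K, S k₀ = 0 ∧ x = k₀ + S k₁ := by
  let Sr : Module.End ℂ K := S.restrict hK
  have hdisj : Disjoint (LinearMap.ker Sr) (LinearMap.range Sr) := by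
    rw [Submodule.disjoint_def]
    rintro y hy ⟨z, rfl⟩
    rw [LinearMap.mem_ker] at hy
    have h1 : S (S (z : V)) = 0 := by
      have := congrArg Subtype.val hy
      simpa [Sr] using this
    have h2 := hss _ h1
    apply Subtype.ext
    simpa [Sr] using h2
  have hdim : finrank ℂ (LinearMap.ker Sr) + finrank ℂ (LinearMap.range Sr) = finrank ℂ K := by
    rw [add_comm]
    exact LinearMap.finrank_range_add_finrank_ker Sr
  have htop : LinearMap.ker Sr ⊔ LinearMap.range Sr = ⊤ :=
    Submodule.eq_top_of_disjoint _ _ hdim.ge hdisj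
  have hmem : (⟨x, hx⟩ : K) ∈ LinearMap.ker Sr ⊔ LinearMap.range Sr := by
    rw [htop]; exact Submodule.mem_top
  obtain ⟨y, hy, z, ⟨w, rfl⟩, hyz⟩ := Submodule.mem_sup.mp hmem
  refine ⟨y, y.2, w, w.2, ?_, ?_⟩
  · have := congrArg Subtype.val (LinearMap.mem_ker.mp hy)
    simpa [Sr] using this
  · have := congrArg Subtype.val hyz
    simpa [Sr] using this.symm

theorem lift_aux563 {V W : Type*} [AddCommGroup V] [Module ℂ V] [FiniteDimensional ℂ V]
    [AddCommGroup W] [Module ℂ W] {J : Type*}
    (S : J → Module.End ℂ V) (Φ : V →ₗ[ℂ] W)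
    (hcomm : ∀ i j, Commute (S i) (S j)) (a : J → ℂ)
    (hker : ∀ j v, Φ v = 0 → Φ (S j v) = 0)
    (hss : ∀ j v, S j (S j v - a j • v) = a j • (S j v - a j • v) → S j v = a j • v) :
    ∀ (d : ℕ) (U : Submodule ℂ V), finrank ℂ U = d → (∀ j, ∀ u ∈ U, S j u ∈ U) →
      (∀ j, ∀ u ∈ U, Φ (S j u - a j • u) = 0) →
      ∀ u ∈ U, ∃ e ∈ U, (∀ j, S j e = a j • e) ∧ Φ e = Φ u := by
  intro d
  induction d using Nat.strong_induction_on with
  | _ d ih =>
    intro U hd hU hΦ u hu
    by_cases hall : ∀ j, ∀ u ∈ U, S j u = a j • u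
    · exact ⟨u, hu, fun j => hall j u hu, rfl⟩
    · push Not at hall
      obtain ⟨j₀, w, hwU, hw⟩ := hall
      set R : Module.End ℂ V := S j₀ - a j₀ • (1 : Module.End ℂ V) with hR
      have hRapp : ∀ v, R v = S j₀ v - a j₀ • v := fun v => by simp [hR]
      have hRcomm : ∀ j v, R (S j v) = S j (R v) := by
        intro j v
        have := congrArg (fun f : Module.End ℂ V => f v) (hcomm j₀ j).eq
        simp only [Module.End.mul_apply] at this
        rw [hRapp, hRapp, this, map_sub, map_smul]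
      have hRss : ∀ v, R (R v) = 0 → R v = 0 := by
        intro v hv
        have h1 : S j₀ (S j₀ v - a j₀ • v) = a j₀ • (S j₀ v - a j₀ • v) := by
          rw [hRapp, hRapp] at hv
          exact sub_eq_zero.mp hv
        rw [hRapp, hss j₀ v h1, sub_self]
      -- the kernel of `Φ` inside `U`
      set K : Submodule ℂ V := U ⊓ LinearMap.ker Φ with hKdef
      have hKS : ∀ v ∈ K, R v ∈ K := by
        intro v hv
        refine ⟨?_, ?_⟩
        · rw [hRapp]
          exact U.sub_mem (hU j₀ v hv.1) (U.smul_mem _ hv.1)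
        · show R v ∈ LinearMap.ker Φ
          rw [LinearMap.mem_ker, hRapp, map_sub, map_smul,
            hker j₀ v (LinearMap.mem_ker.mp hv.2), LinearMap.mem_ker.mp hv.2]
          simp
      have hRuK : R u ∈ K := by
        refine ⟨?_, ?_⟩
        · rw [hRapp]
          exact U.sub_mem (hU j₀ u hu) (U.smul_mem _ hu)
        · show R u ∈ LinearMap.ker Φ
          rw [LinearMap.mem_ker, hRapp]
          exact hΦ j₀ u hu
      obtain ⟨k₀, hk₀, k₁, hk₁, hRk₀, hsum⟩ := exists_ker_add_range563 R hRss K hKS (R u) hRuK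
      -- `u₁ = u - k₁`
      have hu₁U : u - k₁ ∈ U := U.sub_mem hu hk₁.1
      have hRu₁ : R (u - k₁) = 0 := by
        apply hRss
        rw [map_sub, hsum, add_sub_cancel_right, hRk₀]
      have hΦu₁ : Φ (u - k₁) = Φ u := by
        rw [map_sub, LinearMap.mem_ker.mp hk₁.2, sub_zero]
      set U₁ : Submodule ℂ V := U ⊓ LinearMap.ker R with hU₁
      have hlt : finrank ℂ U₁ < finrank ℂ U := by
        apply Submodule.finrank_lt_finrank_of_lt
        refine lt_of_le_of_ne inf_le_left ?_
        intro heq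
        have hw' : w ∈ U₁ := by rw [heq]; exact hwU
        have : R w = 0 := LinearMap.mem_ker.mp hw'.2
        rw [hRapp] at this
        exact hw (sub_eq_zero.mp this)
      have hU₁S : ∀ j, ∀ v ∈ U₁, S j v ∈ U₁ := by
        intro j v hv
        refine ⟨hU j v hv.1, ?_⟩
        show S j v ∈ LinearMap.ker R
        rw [LinearMap.mem_ker, hRcomm, LinearMap.mem_ker.mp hv.2, map_zero]
      obtain ⟨e, he, heig, hΦe⟩ := ih (finrank ℂ U₁) (hd ▸ hlt) U₁ rfl hU₁S
        (fun j v hv => hΦ j v hv.1) (u - k₁) ⟨hu₁U, LinearMap.mem_ker.mpr hRu₁⟩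
      exact ⟨e, he.1, heig, hΦe.trans hΦu₁⟩

/-- **OLD-LIFT**. -/
theorem oldLift_core563 {V W : Type*} [AddCommGroup V] [Module ℂ V] [FiniteDimensional ℂ V]
    [AddCommGroup W] [Module ℂ W] {J : Type*}
    (S : J → Module.End ℂ V) (T : J → Module.End ℂ W) (Φ : V →ₗ[ℂ] W)
    (hcomm : ∀ i j, Commute (S i) (S j)) (hequiv : ∀ j v, Φ (S j v) = T j (Φ v))
    (a : J → ℂ)
    (hss : ∀ j v, S j (S j v - a j • v) = a j • (S j v - a j • v) → S j v = a j • v)
    (v : V) (hv : ∀ j, T j (Φ v) = a j • Φ v) :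
    ∃ e : V, (∀ j, S j e = a j • e) ∧ Φ e = Φ v := by
  -- `U = Φ⁻¹(eigenspace)`
  let U : Submodule ℂ V :=
    { carrier := {u | ∀ j, T j (Φ u) = a j • Φ u}
      add_mem' := by
        intro x y hx hy j
        rw [map_add, map_add, hx j, hy j, smul_add]
      zero_mem' := by
        intro j
        simp
      smul_mem' := by
        intro c x hx j
        rw [map_smul, map_smul, hx j, smul_comm] }
  have hUS : ∀ j, ∀ u ∈ U, S j u ∈ U := by
    intro j u hu i
    rw [hequiv, hu j, map_smul, hu i, smul_comm]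
  have hΦ : ∀ j, ∀ u ∈ U, Φ (S j u - a j • u) = 0 := by
    intro j u hu
    rw [map_sub, map_smul, hequiv, hu j, sub_self]
  have hker : ∀ j v, Φ v = 0 → Φ (S j v) = 0 := by
    intro j v hv0
    rw [hequiv, hv0, map_zero]
  obtain ⟨e, -, heig, hΦe⟩ := lift_aux563 S Φ hcomm a hker hss (finrank ℂ U) U rfl hUS hΦ v hv
  exact ⟨e, heig, hΦe⟩

end Fermat.Agent.S59.H563

end
-- ===== PACK-END S59/H563/OldLiftCore.lean

-- ===== PACK-BEGIN S59/H405/TWLin.lean
section


/-!
# S59 / G-TW (helper405): linear algebra of `2 × 2` matrices — Mathlib only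

Elementary facts used in the proof that the mod `p` representation of a semistable elliptic curve
stays absolutely irreducible on every subgroup of index `2` (`p ∈ {3, 5}`).

* `crs v u`               : the cross product `v 0 * u 1 - v 1 * u 0`;
* `exists_smul_of_crs`    : `crs v u = 0`, `u ≠ 0` implies `v = t • u`;
* `eq_zero_of_mulVec`     : a matrix killing two independent vectors is zero;
* `Invol`                 : the eigenvectors of an involution of determinant `-1`.
-/

set_option autoImplicit false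

namespace Fermat.Agent.S59.H405

open Matrix

section Cross

variable {F : Type*} [Field F]

/-- the cross product of two vectors of `F²` -/
def crs (v u : Fin 2 → F) : F := v 0 * u 1 - v 1 * u 0

theorem crs_self (v : Fin 2 → F) : crs v v = 0 := by
  unfold crs; ring

theorem crs_smul_left (t : F) (v u : Fin 2 → F) : crs (t • v) u = t * crs v u := by
  unfold crs; simp only [Pi.smul_apply, smul_eq_mul]; ring

theorem crs_smul_right (t : F) (v u : Fin 2 → F) : crs v (t • u) = t * crs v u := by
  unfold crs; simp only [Pi.smul_apply, smul_eq_mul]; ring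

theorem crs_swap (v u : Fin 2 → F) : crs u v = - crs v u := by
  unfold crs; ring

theorem ne_zero_of_crs_left {v u : Fin 2 → F} (h : crs v u ≠ 0) : v ≠ 0 := by
  rintro rfl
  apply h
  unfold crs
  simp

theorem ne_zero_of_crs_right {v u : Fin 2 → F} (h : crs v u ≠ 0) : u ≠ 0 := by
  rintro rfl
  apply h
  unfold crs
  simp

theorem exists_smul_of_crs {v u : Fin 2 → F} (hu : u ≠ 0) (h : crs v u = 0) :
    ∃ t : F, v = t • u := by
  unfold crs at h
  by_cases h0 : u 0 = 0
  · have h1 : u 1 ≠ 0 := by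
      intro h1
      apply hu
      funext i
      fin_cases i
      · exact h0
      · exact h1
    refine ⟨v 1 / u 1, ?_⟩
    funext i
    fin_cases i
    · show v 0 = v 1 / u 1 * u 0
      rw [h0, mul_zero]
      rw [h0, mul_zero, sub_zero] at h
      rcases mul_eq_zero.mp h with h | h
      · exact h
      · exact absurd h h1
    · show v 1 = v 1 / u 1 * u 1
      field_simp
  · refine ⟨v 0 / u 0, ?_⟩
    funext i
    fin_cases i
    · show v 0 = v 0 / u 0 * u 0
      field_simp
    · show v 1 = v 0 / u 0 * u 1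
      field_simp
      linear_combination -h

theorem mulVec_apply_two (M : Matrix (Fin 2) (Fin 2) F) (v : Fin 2 → F) (i : Fin 2) :
    (M *ᵥ v) i = M i 0 * v 0 + M i 1 * v 1 := by
  simp [Matrix.mulVec, dotProduct, Fin.sum_univ_two]

theorem eq_zero_of_mulVec {M : Matrix (Fin 2) (Fin 2) F} {v u : Fin 2 → F}
    (hvu : crs v u ≠ 0) (hv : M *ᵥ v = 0) (hu : M *ᵥ u = 0) : M = 0 := by
  have key : ∀ i : Fin 2, M i 0 = 0 ∧ M i 1 = 0 := by
    intro i
    have h1 := congrFun hv i
    have h2 := congrFun hu i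
    rw [mulVec_apply_two] at h1 h2
    simp only [Pi.zero_apply] at h1 h2
    unfold crs at hvu
    constructor
    · have : M i 0 * (v 0 * u 1 - v 1 * u 0) = 0 := by
        linear_combination u 1 * h1 - v 1 * h2
      rcases mul_eq_zero.mp this with h | h
      · exact h
      · exact absurd h hvu
    · have : M i 1 * (v 0 * u 1 - v 1 * u 0) = 0 := by
        linear_combination -u 0 * h1 + v 0 * h2
      rcases mul_eq_zero.mp this with h | h
      · exact h
      · exact absurd h hvu
  ext i j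
  fin_cases j
  · exact (key i).1
  · exact (key i).2

theorem eq_one_of_mulVec {M : Matrix (Fin 2) (Fin 2) F} {v u : Fin 2 → F}
    (hvu : crs v u ≠ 0) (hv : M *ᵥ v = v) (hu : M *ᵥ u = u) : M = 1 := by
  have h : M - 1 = 0 := by
    apply eq_zero_of_mulVec hvu
    · rw [Matrix.sub_mulVec, hv, Matrix.one_mulVec, sub_self]
    · rw [Matrix.sub_mulVec, hu, Matrix.one_mulVec, sub_self]
  exact sub_eq_zero.mp h

/-- `v` is an eigenvector of `M` -/
def IsEig (M : Matrix (Fin 2) (Fin 2) F) (v : Fin 2 → F) : Prop := ∃ a : F, M *ᵥ v = a • v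

theorem isEig_iff_crs {M : Matrix (Fin 2) (Fin 2) F} {v : Fin 2 → F} (hv : v ≠ 0) :
    IsEig M v ↔ crs (M *ᵥ v) v = 0 := by
  constructor
  · rintro ⟨a, ha⟩
    rw [ha, crs_smul_left, crs_self, mul_zero]
  · intro h
    exact exists_smul_of_crs hv h

theorem IsEig.smul {M : Matrix (Fin 2) (Fin 2) F} {v : Fin 2 → F} (h : IsEig M v) (t : F) :
    IsEig M (t • v) := by
  obtain ⟨a, ha⟩ := h
  exact ⟨a, by rw [Matrix.mulVec_smul, ha, smul_comm]⟩

theorem IsEig.mul {M N : Matrix (Fin 2) (Fin 2) F} {v : Fin 2 → F} (hM : IsEig M v)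
    (hN : IsEig N v) : IsEig (M * N) v := by
  obtain ⟨a, ha⟩ := hM
  obtain ⟨b, hb⟩ := hN
  exact ⟨b * a, by rw [← Matrix.mulVec_mulVec, hb, Matrix.mulVec_smul, ha, smul_smul]⟩

end Cross

section Map

variable {F K : Type*} [Field F] [Field K] (φ : F →+* K)

theorem map_mulVec_comp (M : Matrix (Fin 2) (Fin 2) F) (v : Fin 2 → F) :
    (M.map φ) *ᵥ (φ ∘ v) = φ ∘ (M *ᵥ v) := by
  funext i
  rw [mulVec_apply_two]
  simp only [Function.comp_apply, Matrix.map_apply]
  rw [mulVec_apply_two, map_add, map_mul, map_mul]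

theorem crs_comp (v u : Fin 2 → F) : crs (φ ∘ v) (φ ∘ u) = φ (crs v u) := by
  unfold crs
  simp only [Function.comp_apply, map_sub, map_mul]

theorem comp_ne_zero {v : Fin 2 → F} (hv : v ≠ 0) : φ ∘ v ≠ 0 := by
  intro h
  apply hv
  funext i
  have := congrFun h i
  simp only [Function.comp_apply, Pi.zero_apply] at this
  exact (map_eq_zero φ).mp this

/-- An `F`-rational vector which is an eigenvector over `K` is an eigenvector over `F`. -/
theorem isEig_of_map {M : Matrix (Fin 2) (Fin 2) F} {v : Fin 2 → F} (hv : v ≠ 0)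
    (h : IsEig (M.map φ) (φ ∘ v)) : IsEig M v := by
  rw [isEig_iff_crs hv]
  rw [isEig_iff_crs (comp_ne_zero φ hv), map_mulVec_comp, crs_comp] at h
  exact (map_eq_zero φ).mp h

theorem isEig_map {M : Matrix (Fin 2) (Fin 2) F} {v : Fin 2 → F}
    (h : IsEig M v) : IsEig (M.map φ) (φ ∘ v) := by
  obtain ⟨a, ha⟩ := h
  refine ⟨φ a, ?_⟩
  rw [map_mulVec_comp, ha]
  funext i
  simp only [Function.comp_apply, Pi.smul_apply, smul_eq_mul, map_mul]

theorem map_eq_one_iff (M : Matrix (Fin 2) (Fin 2) F) : M.map φ = 1 ↔ M = 1 := by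
  constructor
  · intro h
    have h1 : M.map φ = (1 : Matrix (Fin 2) (Fin 2) F).map φ := by
      rw [h, Matrix.map_one _ (map_zero φ) (map_one φ)]
    exact Matrix.map_injective φ.injective h1
  · rintro rfl
    exact Matrix.map_one _ (map_zero φ) (map_one φ)

end Map

end Fermat.Agent.S59.H405

end
-- ===== PACK-END S59/H405/TWLin.lean

-- ===== PACK-BEGIN S58/H94/Spec.lean
section


/-!
# Row S58 (architect helper94): the one extra leaf of the relation-based glue

`Fermat.Agent.S58.H94.s58_of` (file `S58/H94/Top.lean`) proves the frozen S58 from the Props of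
`Fermat/Agent/S58/Spec.lean` (helper41, on main)

* `S35Statement`, `S36Statement` (frozen statements, as hypotheses),
* `ResidualStatement` (leaf RES),
* `PointCountStatement` (leaf COUNT, proved on main: `S58.H285.pointCount`),

and from the leaf below.  The leaves TATE / COEFF / CHEB of `S58/Spec.lean` are NOT used.

* `CoeffHenselStatement` (Mathlib only): the ring generated by an algebraic integer maps to
  `ℤ_[lam]` for some prime `lam` outside any given finite set (a nonconstant integer polynomial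
  has roots modulo infinitely many primes; Hensel at a simple root of the minimal polynomial).
-/

set_option autoImplicit false

namespace Fermat.Agent.S58.H94

/-- **Leaf COEFF-HENSEL** (Mathlib only). -/
def CoeffHenselStatement : Prop :=
  ∀ (α : ℂ), IsIntegral ℤ α → ∀ B : Finset ℕ,
    ∃ (lam : ℕ) (_ : Fact lam.Prime), lam ∉ B ∧
      Nonempty (Algebra.adjoin ℤ ({α} : Set ℂ) →+* ℤ_[lam])

end Fermat.Agent.S58.H94

end
-- ===== PACK-END S58/H94/Spec.lean

-- ===== PACK-BEGIN S55/E1/LimAbs.lean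
section


/-!
# S55 / engine E1 / block LIM (helper474): the abstract limit argument

This file contains the pure bookkeeping behind steps LIM0 and LIM6 of `coord/S55-E1.md`, with
NO reference to Galois groups.  It avoids Mathlib's `DirectLimit`: a "colimit" is described
elementwise (jointly surjective + separated), exactly the shape in which the bridge layer
describes the Prelude cohomology groups.

Setting: a directed preorder `I` (the levels), four systems of additive groups

* `Sh i`  (think `Ш²_F ⊆ H²(G_F, N')`), with colimit `X` (think `sha₂ S N'`),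
* `K i`   (think `ker (𝔈²_F(E) → 𝔈²_F(J))`),
* `T' i`  (think `A_F(C') / im A_F(J)`),
* `T i`   (think `A_F(C) / (im A_F(J) + res Bc_F(C))`), finite of constant cardinality `s`,

and level-wise maps `e : Sh → K`, `∂ : T' → K` (bijective), `c : T' → T`, compatible with the
transition maps.  If `e` and `c` are *eventually injective* and *eventually surjective* and the
transition maps of `T` are injective, then `X` is finite and `Nat.card X = s`.
-/

set_option autoImplicit false
set_option linter.unusedSectionVars false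
set_option linter.style.haveILetI false

namespace Fermat.Agent.S55.E1

/-- A system of additive groups over a preorder, with functorial transition maps. -/
structure AddSys (I : Type) [Preorder I] where
  /-- the groups -/
  obj : I → Type
  /-- the group structures -/
  grp : ∀ i, AddCommGroup (obj i)
  /-- the transition maps -/
  tr : ∀ {i j : I}, i ≤ j → obj i →+ obj j
  tr_tr : ∀ {i j k : I} (hij : i ≤ j) (hjk : j ≤ k) (x : obj i),
    tr hjk (tr hij x) = tr (hij.trans hjk) x

attribute [instance] AddSys.grp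

namespace AddSys

variable {I : Type} [Preorder I]

/-- A morphism of systems: level-wise additive maps commuting with the transition maps. -/
structure Hom (A B : AddSys I) where
  /-- the level-wise maps -/
  app : ∀ i, A.obj i →+ B.obj i
  comm : ∀ {i j : I} (hij : i ≤ j) (x : A.obj i), app j (A.tr hij x) = B.tr hij (app i x)

/-- `f` is eventually injective: elements of the kernel die at a higher level. -/
def Hom.EvInj {A B : AddSys I} (f : Hom A B) : Prop :=
  ∀ i (x : A.obj i), f.app i x = 0 → ∃ j, ∃ hij : i ≤ j, A.tr hij x = 0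

/-- `f` is eventually surjective: every element is hit after pushing it to a higher level. -/
def Hom.EvSurj {A B : AddSys I} (f : Hom A B) : Prop :=
  ∀ i (y : B.obj i), ∃ j, ∃ hij : i ≤ j, ∃ x : A.obj j, f.app j x = B.tr hij y

/-- `f` is a level-wise bijection. -/
def Hom.LevelBij {A B : AddSys I} (f : Hom A B) : Prop :=
  ∀ i, Function.Bijective (f.app i)

/-- `X`, with the maps `ι i : A.obj i → X`, is a colimit of the system `A`
(elementwise description). -/
structure IsColim (A : AddSys I) (X : Type) [AddCommGroup X] (ι : ∀ i, A.obj i →+ X) : Prop where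
  compat : ∀ {i j : I} (hij : i ≤ j) (x : A.obj i), ι j (A.tr hij x) = ι i x
  surj : ∀ x : X, ∃ i, ∃ a : A.obj i, ι i a = x
  sep : ∀ i (a : A.obj i), ι i a = 0 → ∃ j, ∃ hij : i ≤ j, A.tr hij a = 0

end AddSys

section Main

open AddSys

variable {I : Type} [Preorder I] [IsDirected I (· ≤ ·)]
variable {Sh K T' T : AddSys I} {X : Type} [AddCommGroup X] {ι : ∀ i, Sh.obj i →+ X}

/-- The relation between `X` and `T.obj i₀` underlying the comparison bijection:
`x` and `t` are related if at some level `j ≥ i₀` there are `a ∈ Sh j` representing `x` and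
`b ∈ T' j` with `∂ b = e a` and `c b = tr t`. -/
def LimRel (ι : ∀ i, Sh.obj i →+ X) (e : Hom Sh K) (d : Hom T' K) (c : Hom T' T) (i₀ : I)
    (x : X) (t : T.obj i₀) : Prop :=
  ∃ j, ∃ h : i₀ ≤ j, ∃ a : Sh.obj j, ∃ b : T'.obj j,
    ι j a = x ∧ d.app j b = e.app j a ∧ c.app j b = T.tr h t

variable (hX : IsColim Sh X ι) (e : Hom Sh K) (d : Hom T' K) (c : Hom T' T) (i₀ : I)

include hX in
/-- A witness of `LimRel` can be pushed to any higher level. -/
theorem LimRel.push {x : X} {t : T.obj i₀} {j : I} {h : i₀ ≤ j} {a : Sh.obj j} {b : T'.obj j}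
    (h1 : ι j a = x) (h2 : d.app j b = e.app j a) (h3 : c.app j b = T.tr h t)
    {k : I} (hjk : j ≤ k) :
    ι k (Sh.tr hjk a) = x ∧ d.app k (T'.tr hjk b) = e.app k (Sh.tr hjk a) ∧
      c.app k (T'.tr hjk b) = T.tr (h.trans hjk) t := by
  refine ⟨by rw [hX.compat, h1], by rw [d.comm, e.comm, h2], ?_⟩
  rw [c.comm, h3, T.tr_tr]

include hX in
/-- Two representatives of the same element of the colimit agree at a higher level. -/
theorem exists_tr_eq_of_ι_eq {j k : I} {a : Sh.obj j} {a' : Sh.obj k}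
    (h : ι j a = ι k a') :
    ∃ n, ∃ hjn : j ≤ n, ∃ hkn : k ≤ n, Sh.tr hjn a = Sh.tr hkn a' := by
  obtain ⟨m, hjm, hkm⟩ := exists_ge_ge j k
  have h0 : ι m (Sh.tr hjm a - Sh.tr hkm a') = 0 := by
    rw [map_sub, hX.compat, hX.compat, h, sub_self]
  obtain ⟨n, hmn, hn⟩ := hX.sep m _ h0
  refine ⟨n, hjm.trans hmn, hkm.trans hmn, ?_⟩
  rw [map_sub, sub_eq_zero, Sh.tr_tr, Sh.tr_tr] at hn
  exact hn

variable (hd : d.LevelBij) (hT_inj : ∀ {i j : I} (hij : i ≤ j), Function.Injective (T.tr hij))

include hX hd hT_inj in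
/-- `LimRel` is functional: `t` is determined by `x`. -/
theorem LimRel.unique_right {x : X} {t t' : T.obj i₀}
    (h : LimRel ι e d c i₀ x t) (h' : LimRel ι e d c i₀ x t') : t = t' := by
  obtain ⟨j, hj, a, b, h1, h2, h3⟩ := h
  obtain ⟨k, hk, a', b', h1', h2', h3'⟩ := h'
  obtain ⟨n, hjn, hkn, hn⟩ := exists_tr_eq_of_ι_eq hX (h1.trans h1'.symm)
  obtain ⟨-, p2, p3⟩ := LimRel.push hX e d c i₀ h1 h2 h3 hjn
  obtain ⟨-, q2, q3⟩ := LimRel.push hX e d c i₀ h1' h2' h3' hkn
  have hb : T'.tr hjn b = T'.tr hkn b' := (hd n).1 (by rw [p2, q2, hn])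
  apply hT_inj (hj.trans hjn)
  rw [← p3, ← q3, hb]

variable (he_inj : e.EvInj) (hc_inj : c.EvInj)

include hX hd he_inj hc_inj in
/-- `LimRel` is injective: `x` is determined by `t`. -/
theorem LimRel.unique_left {x x' : X} {t : T.obj i₀}
    (h : LimRel ι e d c i₀ x t) (h' : LimRel ι e d c i₀ x' t) : x = x' := by
  obtain ⟨j, hj, a, b, h1, h2, h3⟩ := h
  obtain ⟨k, hk, a', b', h1', h2', h3'⟩ := h'
  obtain ⟨n, hjn, hkn⟩ := exists_ge_ge j k
  obtain ⟨p1, p2, p3⟩ := LimRel.push hX e d c i₀ h1 h2 h3 hjn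
  obtain ⟨q1, q2, q3⟩ := LimRel.push hX e d c i₀ h1' h2' h3' hkn
  -- `c (b - b') = 0` at level `n`
  have hc0 : c.app n (T'.tr hjn b - T'.tr hkn b') = 0 := by
    rw [map_sub, p3, q3, sub_self]
  obtain ⟨m, hnm, hm⟩ := hc_inj n _ hc0
  -- hence `e (a - a') = 0` at level `m`
  have he0 : e.app m (Sh.tr hnm (Sh.tr hjn a - Sh.tr hkn a')) = 0 := by
    rw [e.comm, map_sub, ← p2, ← q2, ← map_sub, ← d.comm, hm, map_zero]
  obtain ⟨l, hml, hl⟩ := he_inj m _ he0
  have := congrArg (ι l) hl
  rw [map_zero, hX.compat, hX.compat, map_sub, p1, q1, sub_eq_zero] at this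
  exact this

variable (he_surj : e.EvSurj) (hc_surj : c.EvSurj)

include hX hd he_surj hc_surj in
/-- `LimRel` is surjective: every `t` is related to some `x`. -/
theorem LimRel.exists_left (t : T.obj i₀) : ∃ x : X, LimRel ι e d c i₀ x t := by
  obtain ⟨j, hj, b, hb⟩ := hc_surj i₀ t
  obtain ⟨k, hjk, a, ha⟩ := he_surj j (d.app j b)
  refine ⟨ι k a, k, hj.trans hjk, a, T'.tr hjk b, rfl, ?_, ?_⟩
  · rw [d.comm, ha]
  · rw [c.comm, hb, T.tr_tr]

variable (s : ℕ) (hs : 0 < s) (hT_card : ∀ i, Nat.card (T.obj i) = s)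

include hs hT_card hT_inj in
/-- The transition maps of `T` are bijective. -/
theorem tr_bijective_of_card {i j : I} (hij : i ≤ j) : Function.Bijective (T.tr hij) := by
  haveI : Finite (T.obj j) := Nat.finite_of_card_ne_zero (by rw [hT_card j]; exact hs.ne')
  exact (hT_inj hij).bijective_of_nat_card_le (by rw [hT_card i, hT_card j])

include hX hd hs hT_card hT_inj in
/-- `LimRel` is total: every `x` is related to some `t`. -/
theorem LimRel.exists_right (x : X) : ∃ t : T.obj i₀, LimRel ι e d c i₀ x t := by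
  obtain ⟨i, a, ha⟩ := hX.surj x
  obtain ⟨j, hij, hj⟩ := exists_ge_ge i i₀
  obtain ⟨b, hb⟩ := (hd j).2 (e.app j (Sh.tr hij a))
  obtain ⟨t, ht⟩ := (tr_bijective_of_card hT_inj s hs hT_card hj).2 (c.app j b)
  exact ⟨t, j, hj, Sh.tr hij a, b, by rw [hX.compat, ha], hb, ht.symm⟩

include hX hd he_inj he_surj hc_inj hc_surj hs hT_card hT_inj in
/-- **Abstract limit argument (LIM0 + LIM6).**  If `X = colim Sh`, `e : Sh → K` and
`c : T' → T` are eventually injective and eventually surjective, `∂ : T' → K` is a level-wise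
bijection, and `T` has injective transition maps and constant finite cardinality `s`, then
`X` is finite of cardinality `s`. -/
theorem card_colim_eq [Nonempty I] : Finite X ∧ Nat.card X = s := by
  obtain ⟨i₀⟩ := ‹Nonempty I›
  have hex : ∀ x : X, ∃ t : T.obj i₀, LimRel ι e d c i₀ x t :=
    LimRel.exists_right hX e d c i₀ hd hT_inj s hs hT_card
  choose φ hφ using hex
  have hinj : Function.Injective φ := by
    intro x x' hxx
    have h1 := hφ x
    have h2 := hφ x'
    rw [hxx] at h1
    exact LimRel.unique_left hX e d c i₀ hd he_inj hc_inj h1 h2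
  have hsurj : Function.Surjective φ := by
    intro t
    obtain ⟨x, hx⟩ := LimRel.exists_left hX e d c i₀ hd he_surj hc_surj t
    exact ⟨x, LimRel.unique_right hX e d c i₀ hd hT_inj (hφ x) hx⟩
  haveI : Finite (T.obj i₀) :=
    Nat.finite_of_card_ne_zero (by rw [hT_card i₀]; exact hs.ne')
  refine ⟨Finite.of_injective φ hinj, ?_⟩
  rw [← hT_card i₀]
  exact Nat.card_congr (Equiv.ofBijective φ ⟨hinj, hsurj⟩)

end Main

end Fermat.Agent.S55.E1

end
-- ===== PACK-END S55/E1/LimAbs.lean

-- ===== PACK-BEGIN S55/E1/H957/AbsExt.lean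
section
/-
S55 engine E1, block ALG (helper957): abstract linear algebra over `𝔽_p` for ALG7/ALG8.
Mathlib only.
-/


set_option autoImplicit false

namespace Fermat.Agent.S55.E1.H957

/-- A linear map `g` of vector spaces which kills `ker r` factors through `r`. -/
theorem exists_linear_factor {K V V' U : Type} [Field K] [AddCommGroup V] [AddCommGroup V']
    [AddCommGroup U] [Module K V] [Module K V'] [Module K U] (r : V →ₗ[K] V') (g : V →ₗ[K] U)
    (hle : LinearMap.ker r ≤ LinearMap.ker g) : ∃ g' : V' →ₗ[K] U, ∀ x, g' (r x) = g x := by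
  have hrbar : LinearMap.ker ((LinearMap.ker r).liftQ r le_rfl) = ⊥ :=
    Submodule.ker_liftQ_eq_bot _ _ _ le_rfl
  obtain ⟨s, hs⟩ := ((LinearMap.ker r).liftQ r le_rfl).exists_leftInverse_of_injective hrbar
  refine ⟨((LinearMap.ker r).liftQ g hle).comp s, fun x => ?_⟩
  have h1 : s (r x) = (LinearMap.ker r).mkQ x := by
    have := LinearMap.congr_fun hs ((LinearMap.ker r).mkQ x)
    simpa using this
  rw [LinearMap.comp_apply, h1]
  simp

/-- **Factorisation through a map of `𝔽_p`-vector spaces, stated for abelian groups.**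
`V`, `V'` abelian groups killed by a prime `p`, `r : V →+ V'`, `g : V →+ U` killing `ker r`.
Then `g` factors through `r`. -/
theorem exists_factor_of_ker_le (p : ℕ) (hp : p.Prime) {V V' U : Type} [AddCommGroup V]
    [AddCommGroup V'] [AddCommGroup U] (hV : ∀ x : V, p • x = 0) (hV' : ∀ x : V', p • x = 0)
    (r : V →+ V') (g : V →+ U) (h : ∀ x, r x = 0 → g x = 0) :
    ∃ g' : V' →+ U, ∀ x, g' (r x) = g x := by
  have : Fact p.Prime := ⟨hp⟩
  -- the range of `g` is killed by `p`
  have hK : ∀ y : g.range, p • y = 0 := by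
    rintro ⟨y, x, rfl⟩
    apply Subtype.ext
    show p • g x = 0
    rw [← map_nsmul, hV x, map_zero]
  letI i1 : Module (ZMod p) V := AddCommGroup.zmodModule hV
  letI i2 : Module (ZMod p) V' := AddCommGroup.zmodModule hV'
  letI i3 : Module (ZMod p) g.range := AddCommGroup.zmodModule hK
  obtain ⟨g', hg'⟩ := exists_linear_factor (K := ZMod p) (r.toZModLinearMap p)
    (g.rangeRestrict.toZModLinearMap p) (by
      intro x hx
      rw [LinearMap.mem_ker] at hx ⊢
      apply Subtype.ext
      exact h x hx)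
  refine ⟨(g.range.subtype).comp g'.toAddMonoidHom, fun x => ?_⟩
  have := congrArg Subtype.val (hg' x)
  exact this

end Fermat.Agent.S55.E1.H957

end
-- ===== PACK-END S55/E1/H957/AbsExt.lean

-- ===== PACK-BEGIN S55/E1/H353/PTorsion.lean
section


/-!
# S55, engine E1, blocks ALG7/ALG8 (helper353): homomorphisms into a group with cyclic `p`-torsion

Let `W` be an abelian group whose `p`-torsion is generated by one element `w₀ ≠ 0`
(think `W = H²(G, C)` for a class module at `p`), and let `M` be an `𝔽_p`-vector space.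
Then `Hom(M, W) ≃+ Dual 𝔽_p M` (`PGen.homEquivDual`).
-/

set_option autoImplicit false
set_option linter.unusedSectionVars false
set_option linter.style.haveILetI false

namespace Fermat.Agent.S55.E1.H353

/-- The `p`-torsion of `W` is cyclic: any nonzero `p`-torsion element generates it. -/
def CyclicPTorsion (p : ℕ) (W : Type) [AddCommGroup W] : Prop :=
  ∀ w w' : W, p • w = 0 → p • w' = 0 → w ≠ 0 → ∃ k : ℕ, w' = k • w

/-- A generator of the (nonzero) `p`-torsion of `W`. -/
structure PGen (p : ℕ) (W : Type) [AddCommGroup W] where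
  /-- the generator -/
  w₀ : W
  tors : p • w₀ = 0
  ne : w₀ ≠ 0
  gen : ∀ w : W, p • w = 0 → ∃ k : ℕ, w = k • w₀

/-- If the `p`-torsion of `W` is cyclic and nonzero, it has a generator. -/
def CyclicPTorsion.pGen {p : ℕ} {W : Type} [AddCommGroup W] (hcyc : CyclicPTorsion p W)
    (w₀ : W) (hw₀ : p • w₀ = 0) (hne : w₀ ≠ 0) : PGen p W where
  w₀ := w₀
  tors := hw₀
  ne := hne
  gen w hw := hcyc w₀ w hw₀ hw hne

section zmodHom

variable (p : ℕ) {W : Type} [AddCommGroup W]

/-- The homomorphism `ℤ/p → W`, `k ↦ k • w`, for a `p`-torsion element `w`. -/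
noncomputable def zmodHom (w : W) (hw : p • w = 0) : ZMod p →+ W :=
  ZMod.lift p ⟨zmultiplesHom W w, by
    change ((p : ℕ) : ℤ) • w = 0
    rw [natCast_zsmul]
    exact hw⟩

lemma zmodHom_intCast (w : W) (hw : p • w = 0) (m : ℤ) :
    zmodHom p w hw (m : ZMod p) = m • w := by
  unfold zmodHom
  rw [ZMod.lift_coe]
  rfl

lemma zmodHom_natCast (w : W) (hw : p • w = 0) (k : ℕ) :
    zmodHom p w hw (k : ZMod p) = k • w := by
  have := zmodHom_intCast p w hw (k : ℤ)
  rw [natCast_zsmul] at this
  rw [← this]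
  simp

/-- Compatibility of `zmodHom` with homomorphisms. -/
lemma map_zmodHom {W' : Type} [AddCommGroup W'] (κ : W →+ W') (w : W) (hw : p • w = 0)
    (hw' : p • κ w = 0) (k : ZMod p) : κ (zmodHom p w hw k) = zmodHom p (κ w) hw' k := by
  obtain ⟨m, rfl⟩ := ZMod.intCast_surjective k
  rw [zmodHom_intCast, zmodHom_intCast, map_zsmul]

end zmodHom

namespace PGen

variable {p : ℕ} [Fact p.Prime] {W : Type} [AddCommGroup W] (g : PGen p W)

/-- The homomorphism `𝔽_p → W`, `k ↦ k • w₀`. -/
noncomputable def eHom : ZMod p →+ W := zmodHom p g.w₀ g.tors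

lemma eHom_intCast (m : ℤ) : g.eHom (m : ZMod p) = m • g.w₀ := zmodHom_intCast p g.w₀ g.tors m

lemma eHom_natCast (k : ℕ) : g.eHom (k : ZMod p) = k • g.w₀ := zmodHom_natCast p g.w₀ g.tors k

lemma eHom_injective : Function.Injective g.eHom := by
  unfold eHom zmodHom
  rw [ZMod.lift_injective]
  intro m hm
  change m • g.w₀ = 0 at hm
  rw [ZMod.intCast_zmod_eq_zero_iff_dvd]
  have h1 := (addOrderOf_dvd_iff_zsmul_eq_zero).2 hm
  rwa [addOrderOf_eq_prime g.tors g.ne] at h1

lemma nsmul_eHom (k : ZMod p) : p • g.eHom k = 0 := by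
  rw [← map_nsmul]
  have : p • k = 0 := by
    rw [nsmul_eq_mul]
    simp
  rw [this, map_zero]

lemma mem_range_eHom (w : W) (hw : p • w = 0) : w ∈ g.eHom.range := by
  obtain ⟨k, rfl⟩ := g.gen w hw
  exact ⟨(k : ZMod p), g.eHom_natCast k⟩

variable (M : Type) [AddCommGroup M] [Module (ZMod p) M]

omit g in
lemma nsmul_eq_zero_of_zmod (m : M) : p • m = 0 := by
  have h1 : ((p : ℕ) : ZMod p) • m = 0 := by
    rw [ZMod.natCast_self, zero_smul]
  rwa [Nat.cast_smul_eq_nsmul] at h1

lemma apply_mem_range_eHom (χ : M →+ W) (m : M) : χ m ∈ g.eHom.range := by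
  apply g.mem_range_eHom
  rw [← map_nsmul, nsmul_eq_zero_of_zmod M m, map_zero]

/-- The additive map `M → 𝔽_p` attached to `χ : M →+ W`. -/
noncomputable def toFp (χ : M →+ W) : M →+ ZMod p :=
  (AddMonoidHom.ofInjective g.eHom_injective).symm.toAddMonoidHom.comp
    (χ.codRestrict g.eHom.range (g.apply_mem_range_eHom M χ))

lemma eHom_toFp (χ : M →+ W) (m : M) : g.eHom (g.toFp M χ m) = χ m := by
  have h := (AddMonoidHom.ofInjective g.eHom_injective).apply_symm_apply
    (χ.codRestrict g.eHom.range (g.apply_mem_range_eHom M χ) m)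
  have h2 := congrArg Subtype.val h
  exact h2

lemma toFp_comp (φ : M →+ ZMod p) : g.toFp M (g.eHom.comp φ) = φ := by
  ext m
  apply g.eHom_injective
  rw [eHom_toFp]
  rfl

/-- `Hom(M, W) ≃+ Dual 𝔽_p M` when the `p`-torsion of `W` is cyclic generated by `w₀ ≠ 0`. -/
noncomputable def homEquivDual : (M →+ W) ≃+ Module.Dual (ZMod p) M where
  toFun χ := AddMonoidHom.toZModLinearMap p (g.toFp M χ)
  invFun φ := g.eHom.comp φ.toAddMonoidHom
  left_inv χ := by
    ext m
    exact g.eHom_toFp M χ m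
  right_inv φ := by
    ext m
    have := g.toFp_comp M φ.toAddMonoidHom
    exact congrArg (fun f => f m) this
  map_add' χ χ' := by
    ext m
    apply g.eHom_injective
    change g.eHom (g.toFp M (χ + χ') m) = g.eHom (g.toFp M χ m + g.toFp M χ' m)
    rw [map_add, eHom_toFp, eHom_toFp, eHom_toFp]
    rfl

lemma eHom_homEquivDual (χ : M →+ W) (m : M) : g.eHom (g.homEquivDual M χ m) = χ m :=
  g.eHom_toFp M χ m

lemma homEquivDual_apply_eq_zero_iff (χ : M →+ W) (m : M) :
    g.homEquivDual M χ m = 0 ↔ χ m = 0 := by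
  rw [← g.eHom_homEquivDual M χ m]
  constructor
  · intro h
    rw [h, map_zero]
  · intro h
    apply g.eHom_injective
    rw [h, map_zero]

lemma homEquivDual_symm_apply (φ : Module.Dual (ZMod p) M) (m : M) :
    (g.homEquivDual M).symm φ m = g.eHom (φ m) := rfl

end PGen

end Fermat.Agent.S55.E1.H353

end
-- ===== PACK-END S55/E1/H353/PTorsion.lean

-- ===== PACK-BEGIN S55/E1/H603/CoeffInt.lean
section
/-
S55 bridge (helper603): change of coefficient ring `Rep k G → Rep ℤ G`.

The Prelude works with `Rep (ZMod p) G_ℚ`, engine E1 with `Rep ℤ G`.  For `A : Rep k G`: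
* `toInt A : Rep ℤ G` (same underlying additive group, same action);
* `H1IntEquiv A : H1 (toInt A) ≃+ H1 A`, `H2IntEquiv A : H2 (toInt A) ≃+ H2 A`
  (identity on cocycles: `H1IntEquiv_mk`, `H2IntEquiv_mk`);
* `toIntHom f φ : Rep.res f (toInt A) ⟶ toInt B` for `φ : Rep.res f A ⟶ B`, and naturality
  `H1IntEquiv_map`, `H2IntEquiv_map` with respect to `groupCohomology.map f φ n`.
Mathlib only.  No sorry.
-/


set_option autoImplicit false

namespace Fermat.Agent.S55.E1.H603

open groupCohomology CategoryTheory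

noncomputable section

variable {k G : Type} [CommRing k] [Group G] (A : Rep.{0, 0, 0} k G)

/-- The underlying `ℤ`-linear representation. -/
def intRepr : Representation ℤ G A.V where
  toFun g := (A.ρ g).toAddMonoidHom.toIntLinearMap
  map_one' := by
    refine LinearMap.ext fun x => ?_
    simp
  map_mul' g h := by
    refine LinearMap.ext fun x => ?_
    simp

/-- `A` as a representation over `ℤ`. -/
def toInt : Rep.{0, 0, 0} ℤ G := Rep.of (intRepr A)

@[simp] theorem toInt_ρ_apply (g : G) (a : A.V) : (toInt A).ρ g a = A.ρ g a := rfl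

/-! ### Descending additive maps from cocycles -/

theorem H1π_surjective' : Function.Surjective (H1π A).hom :=
  (ModuleCat.epi_iff_surjective (H1π A)).1 inferInstance

theorem H2π_surjective' : Function.Surjective (H2π A).hom :=
  (ModuleCat.epi_iff_surjective (H2π A)).1 inferInstance

/-- `H1π` as an additive map. -/
def H1πAdd : cocycles₁ A →+ H1 A := (H1π A).hom.toAddMonoidHom

/-- `H2π` as an additive map. -/
def H2πAdd : cocycles₂ A →+ H2 A := (H2π A).hom.toAddMonoidHom

@[simp] theorem H1πAdd_apply (c : cocycles₁ A) : H1πAdd A c = (H1π A).hom c := rfl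
@[simp] theorem H2πAdd_apply (c : cocycles₂ A) : H2πAdd A c = (H2π A).hom c := rfl

/-- An additive map on 1-cocycles killing the coboundaries descends to `H¹`. -/
def H1descAdd {X : Type} [AddCommGroup X] (φ : cocycles₁ A →+ X)
    (h : ∀ c : cocycles₁ A, (c : G → A) ∈ coboundaries₁ A → φ c = 0) : H1 A →+ X :=
  (QuotientAddGroup.lift (H1πAdd A).ker φ (fun c hc =>
      h c ((H1π_eq_zero_iff c).1 ((AddMonoidHom.mem_ker).1 hc)))).comp
    (QuotientAddGroup.quotientKerEquivOfSurjective (H1πAdd A)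
      (H1π_surjective' A)).symm.toAddMonoidHom

theorem H1descAdd_mk {X : Type} [AddCommGroup X] (φ : cocycles₁ A →+ X)
    (h : ∀ c : cocycles₁ A, (c : G → A) ∈ coboundaries₁ A → φ c = 0) (c : cocycles₁ A) :
    H1descAdd A φ h ((H1π A).hom c) = φ c := by
  have : (QuotientAddGroup.quotientKerEquivOfSurjective (H1πAdd A)
      (H1π_surjective' A)).symm ((H1π A).hom c) = QuotientAddGroup.mk c := by
    rw [AddEquiv.symm_apply_eq]
    rfl
  simp only [H1descAdd, AddMonoidHom.comp_apply, AddEquiv.coe_toAddMonoidHom, this]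
  rfl

/-- An additive map on 2-cocycles killing the coboundaries descends to `H²`. -/
def H2descAdd {X : Type} [AddCommGroup X] (φ : cocycles₂ A →+ X)
    (h : ∀ c : cocycles₂ A, (c : G × G → A) ∈ coboundaries₂ A → φ c = 0) : H2 A →+ X :=
  (QuotientAddGroup.lift (H2πAdd A).ker φ (fun c hc =>
      h c ((H2π_eq_zero_iff c).1 ((AddMonoidHom.mem_ker).1 hc)))).comp
    (QuotientAddGroup.quotientKerEquivOfSurjective (H2πAdd A)
      (H2π_surjective' A)).symm.toAddMonoidHom

theorem H2descAdd_mk {X : Type} [AddCommGroup X] (φ : cocycles₂ A →+ X)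
    (h : ∀ c : cocycles₂ A, (c : G × G → A) ∈ coboundaries₂ A → φ c = 0) (c : cocycles₂ A) :
    H2descAdd A φ h ((H2π A).hom c) = φ c := by
  have : (QuotientAddGroup.quotientKerEquivOfSurjective (H2πAdd A)
      (H2π_surjective' A)).symm ((H2π A).hom c) = QuotientAddGroup.mk c := by
    rw [AddEquiv.symm_apply_eq]
    rfl
  simp only [H2descAdd, AddMonoidHom.comp_apply, AddEquiv.coe_toAddMonoidHom, this]
  rfl

/-! ### Cocycles and coboundaries do not depend on the coefficient ring -/

theorem mem_cocycles₁_toInt_iff (f : G → A.V) : f ∈ cocycles₁ (toInt A) ↔ f ∈ cocycles₁ A :=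
  (mem_cocycles₁_iff (A := toInt A) f).trans (mem_cocycles₁_iff (A := A) f).symm

theorem mem_cocycles₂_toInt_iff (f : G × G → A.V) :
    f ∈ cocycles₂ (toInt A) ↔ f ∈ cocycles₂ A :=
  (mem_cocycles₂_iff (A := toInt A) f).trans (mem_cocycles₂_iff (A := A) f).symm

theorem mem_coboundaries₁_toInt_iff (f : G → A.V) :
    f ∈ coboundaries₁ (toInt A) ↔ f ∈ coboundaries₁ A := by
  constructor
  · rintro ⟨a, ha⟩
    exact ⟨a, ha⟩
  · rintro ⟨a, ha⟩
    exact ⟨a, ha⟩

theorem mem_coboundaries₂_toInt_iff (f : G × G → A.V) :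
    f ∈ coboundaries₂ (toInt A) ↔ f ∈ coboundaries₂ A := by
  constructor
  · rintro ⟨a, ha⟩
    exact ⟨a, ha⟩
  · rintro ⟨a, ha⟩
    exact ⟨a, ha⟩

/-- 1-cocycles of `A` as 1-cocycles of `toInt A`. -/
def cocToInt₁ : cocycles₁ A →+ cocycles₁ (toInt A) where
  toFun c := ⟨(c : G → A.V), (mem_cocycles₁_toInt_iff A _).2 c.2⟩
  map_zero' := rfl
  map_add' _ _ := rfl

/-- 1-cocycles of `toInt A` as 1-cocycles of `A`. -/
def cocOfInt₁ : cocycles₁ (toInt A) →+ cocycles₁ A where
  toFun c := ⟨(c : G → A.V), (mem_cocycles₁_toInt_iff A _).1 c.2⟩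
  map_zero' := rfl
  map_add' _ _ := rfl

/-- 2-cocycles of `A` as 2-cocycles of `toInt A`. -/
def cocToInt₂ : cocycles₂ A →+ cocycles₂ (toInt A) where
  toFun c := ⟨(c : G × G → A.V), (mem_cocycles₂_toInt_iff A _).2 c.2⟩
  map_zero' := rfl
  map_add' _ _ := rfl

/-- 2-cocycles of `toInt A` as 2-cocycles of `A`. -/
def cocOfInt₂ : cocycles₂ (toInt A) →+ cocycles₂ A where
  toFun c := ⟨(c : G × G → A.V), (mem_cocycles₂_toInt_iff A _).1 c.2⟩
  map_zero' := rfl
  map_add' _ _ := rfl

@[simp] theorem coe_cocToInt₁ (c : cocycles₁ A) : (cocToInt₁ A c : G → A.V) = c := rfl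
@[simp] theorem coe_cocOfInt₁ (c : cocycles₁ (toInt A)) : (cocOfInt₁ A c : G → A.V) = c := rfl
@[simp] theorem coe_cocToInt₂ (c : cocycles₂ A) : (cocToInt₂ A c : G × G → A.V) = c := rfl
@[simp] theorem coe_cocOfInt₂ (c : cocycles₂ (toInt A)) :
    (cocOfInt₂ A c : G × G → A.V) = c := rfl

/-! ### The comparison isomorphisms -/

/-- `H¹(G, A_ℤ) → H¹(G, A)`. -/
def H1OfInt : H1 (toInt A) →+ H1 A :=
  H1descAdd (toInt A) ((H1πAdd A).comp (cocOfInt₁ A)) (fun c hc => by
    rw [AddMonoidHom.comp_apply, H1πAdd_apply, H1π_eq_zero_iff]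
    exact (mem_coboundaries₁_toInt_iff A _).1 hc)

/-- `H¹(G, A) → H¹(G, A_ℤ)`. -/
def H1ToInt : H1 A →+ H1 (toInt A) :=
  H1descAdd A ((H1πAdd (toInt A)).comp (cocToInt₁ A)) (fun c hc => by
    rw [AddMonoidHom.comp_apply, H1πAdd_apply, H1π_eq_zero_iff]
    exact (mem_coboundaries₁_toInt_iff A _).2 hc)

@[simp] theorem H1OfInt_mk (c : cocycles₁ (toInt A)) :
    H1OfInt A ((H1π (toInt A)).hom c) = (H1π A).hom (cocOfInt₁ A c) :=
  H1descAdd_mk (toInt A) _ _ c

@[simp] theorem H1ToInt_mk (c : cocycles₁ A) :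
    H1ToInt A ((H1π A).hom c) = (H1π (toInt A)).hom (cocToInt₁ A c) :=
  H1descAdd_mk A _ _ c

/-- `H¹(G, A_ℤ) ≃+ H¹(G, A)`. -/
def H1IntEquiv : H1 (toInt A) ≃+ H1 A where
  toFun := H1OfInt A
  invFun := H1ToInt A
  left_inv x := by
    induction x using H1_induction_on with | @h c =>
    rw [H1OfInt_mk, H1ToInt_mk]
    rfl
  right_inv x := by
    induction x using H1_induction_on with | @h c =>
    rw [H1ToInt_mk, H1OfInt_mk]
    rfl
  map_add' := map_add _

@[simp] theorem H1IntEquiv_mk (c : cocycles₁ (toInt A)) :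
    H1IntEquiv A ((H1π (toInt A)).hom c) = (H1π A).hom (cocOfInt₁ A c) := H1OfInt_mk A c

/-- `H²(G, A_ℤ) → H²(G, A)`. -/
def H2OfInt : H2 (toInt A) →+ H2 A :=
  H2descAdd (toInt A) ((H2πAdd A).comp (cocOfInt₂ A)) (fun c hc => by
    rw [AddMonoidHom.comp_apply, H2πAdd_apply, H2π_eq_zero_iff]
    exact (mem_coboundaries₂_toInt_iff A _).1 hc)

/-- `H²(G, A) → H²(G, A_ℤ)`. -/
def H2ToInt : H2 A →+ H2 (toInt A) :=
  H2descAdd A ((H2πAdd (toInt A)).comp (cocToInt₂ A)) (fun c hc => by
    rw [AddMonoidHom.comp_apply, H2πAdd_apply, H2π_eq_zero_iff]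
    exact (mem_coboundaries₂_toInt_iff A _).2 hc)

@[simp] theorem H2OfInt_mk (c : cocycles₂ (toInt A)) :
    H2OfInt A ((H2π (toInt A)).hom c) = (H2π A).hom (cocOfInt₂ A c) :=
  H2descAdd_mk (toInt A) _ _ c

@[simp] theorem H2ToInt_mk (c : cocycles₂ A) :
    H2ToInt A ((H2π A).hom c) = (H2π (toInt A)).hom (cocToInt₂ A c) :=
  H2descAdd_mk A _ _ c

/-- `H²(G, A_ℤ) ≃+ H²(G, A)`. -/
def H2IntEquiv : H2 (toInt A) ≃+ H2 A where
  toFun := H2OfInt A
  invFun := H2ToInt A
  left_inv x := by
    induction x using H2_induction_on with | @h c =>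
    rw [H2OfInt_mk, H2ToInt_mk]
    rfl
  right_inv x := by
    induction x using H2_induction_on with | @h c =>
    rw [H2ToInt_mk, H2OfInt_mk]
    rfl
  map_add' := map_add _

@[simp] theorem H2IntEquiv_mk (c : cocycles₂ (toInt A)) :
    H2IntEquiv A ((H2π (toInt A)).hom c) = (H2π A).hom (cocOfInt₂ A c) := H2OfInt_mk A c

/-! ### Naturality -/

section Naturality

variable {A}
variable {G' : Type} [Group G'] {B : Rep.{0, 0, 0} k G'} (f : G' →* G) (φ : Rep.res f A ⟶ B)

/-- The morphism over `ℤ` underlying a morphism over `k`. -/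
def toIntHom : Rep.res f (toInt A) ⟶ toInt B :=
  Rep.ofHom ⟨(φ.hom : A.V →ₗ[k] B.V).toAddMonoidHom.toIntLinearMap, fun g =>
    LinearMap.ext fun x => Rep.hom_comm_apply φ g x⟩

@[simp] theorem toIntHom_apply (a : A.V) : (toIntHom f φ).hom a = φ.hom a := rfl

theorem H1IntEquiv_map (x : H1 (toInt A)) :
    H1IntEquiv B ((groupCohomology.map f (toIntHom f φ) 1).hom x) =
      (groupCohomology.map f φ 1).hom (H1IntEquiv A x) := by
  induction x using H1_induction_on with | @h c =>
  have h1 : (groupCohomology.map f (toIntHom f φ) 1).hom ((H1π (toInt A)).hom c) =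
      (H1π (toInt B)).hom ((mapCocycles₁ f (toIntHom f φ)).hom c) :=
    H1π_comp_map_apply f (toIntHom f φ) c
  have h2 : (groupCohomology.map f φ 1).hom ((H1π A).hom (cocOfInt₁ A c)) =
      (H1π B).hom ((mapCocycles₁ f φ).hom (cocOfInt₁ A c)) :=
    H1π_comp_map_apply f φ (cocOfInt₁ A c)
  rw [h1, H1IntEquiv_mk, H1IntEquiv_mk, h2]
  rfl

theorem H2IntEquiv_map (x : H2 (toInt A)) :
    H2IntEquiv B ((groupCohomology.map f (toIntHom f φ) 2).hom x) =
      (groupCohomology.map f φ 2).hom (H2IntEquiv A x) := by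
  induction x using H2_induction_on with | @h c =>
  have h1 : (groupCohomology.map f (toIntHom f φ) 2).hom ((H2π (toInt A)).hom c) =
      (H2π (toInt B)).hom ((mapCocycles₂ f (toIntHom f φ)).hom c) := by
    have hcomp := congrArg (fun ψ => ψ.hom c)
      (H2π_comp_map (A := toInt A) (B := toInt B) f (toIntHom f φ))
    simp only [ModuleCat.hom_comp, LinearMap.comp_apply] at hcomp
    exact hcomp
  have h2 : (groupCohomology.map f φ 2).hom ((H2π A).hom (cocOfInt₂ A c)) =
      (H2π B).hom ((mapCocycles₂ f φ).hom (cocOfInt₂ A c)) := by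
    have hcomp := congrArg (fun ψ => ψ.hom (cocOfInt₂ A c))
      (H2π_comp_map (A := A) (B := B) f φ)
    simp only [ModuleCat.hom_comp, LinearMap.comp_apply] at hcomp
    exact hcomp
  rw [h1, H2IntEquiv_mk, H2IntEquiv_mk, h2]
  rfl

/-- `toInt` commutes with restriction (definitionally). -/
theorem toInt_res : toInt (Rep.res f A) = Rep.res f (toInt A) := rfl

end Naturality

end

end Fermat.Agent.S55.E1.H603

end
-- ===== PACK-END S55/E1/H603/CoeffInt.lean

-- ===== PACK-BEGIN S55/G/SIndH237/H95/SemiLocal.lean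
section
/-
S55 / layer G / G-SIND:UCT (helper95).  Part 1 (Mathlib only).

Hilbert 90 for the unit group of a commutative ring `A` with finitely many maximal ideals on
which a finite group `H` acts with trivial inertia at every maximal ideal ("Galois action"):
every multiplicative `1`-cocycle `H → Aˣ` is a coboundary, and `A` contains an element of
trace `1`.  Proof: Poincaré series `θ(z) = ∑_h c(h) · h(z)` + Dedekind independence of
characters + Chinese remainder theorem.
-/


set_option autoImplicit false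
set_option linter.unusedSectionVars false
set_option linter.style.haveILetI false

namespace Fermat.Agent.S55.G.SIndH237.H95

open groupCohomology

/-- The action of `H` on the units of a ring on which it acts by ring automorphisms
(a definition, NOT a global instance; use `attribute [local instance]` or `letI`). -/
@[reducible] def unitsAct (H A : Type*) [Group H] [CommRing A] [MulSemiringAction H A] :
    MulDistribMulAction H Aˣ where
  smul g u := Units.map (MulSemiringAction.toRingHom H A g : A →* A) u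
  one_smul u := Units.ext (one_smul H (u : A))
  mul_smul g h u := Units.ext (mul_smul g h (u : A))
  smul_mul g u v := Units.ext (smul_mul' g (u : A) (v : A))
  smul_one g := Units.ext (smul_one g)

attribute [local instance] unitsAct

lemma coe_unitsAct_smul {H A : Type*} [Group H] [CommRing A] [MulSemiringAction H A]
    (g : H) (u : Aˣ) : ((g • u : Aˣ) : A) = g • (u : A) := rfl

section Core

variable {A : Type*} [CommRing A] {H : Type*} [Group H] [Fintype H] [MulSemiringAction H A]

/-- The Poincaré series of a `1`-cochain `c : H → Aˣ`. -/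
def theta (c : H → Aˣ) (z : A) : A := ∑ h : H, (c h : A) * h • z

lemma theta_add (c : H → Aˣ) (z w : A) : theta c (z + w) = theta c z + theta c w := by
  simp only [theta, smul_add, mul_add, Finset.sum_add_distrib]

lemma theta_mul_of_invariant (c : H → Aˣ) (a z : A) (ha : ∀ h : H, h • a = a) :
    theta c (a * z) = a * theta c z := by
  simp only [theta, smul_mul', ha, Finset.mul_sum]
  refine Finset.sum_congr rfl fun h _ => ?_
  ring

/-- The functional equation of the Poincaré series of a `1`-cocycle. -/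
lemma mul_smul_theta (c : H → Aˣ) (hc : IsMulCocycle₁ c) (g : H) (z : A) :
    (c g : A) * g • theta c z = theta c z := by
  have h1 : ∀ h : H, (c g : A) * g • ((c h : A) * h • z) = (c (g * h) : A) * (g * h) • z := by
    intro h
    rw [smul_mul', hc g h, Units.val_mul, mul_smul, coe_unitsAct_smul]
    ring
  rw [theta, Finset.smul_sum, Finset.mul_sum]
  rw [Finset.sum_congr rfl fun h _ => h1 h]
  exact Fintype.sum_equiv (Equiv.mulLeft g) _ _ fun h => rfl

lemma smul_theta_mem_iff (c : H → Aˣ) (hc : IsMulCocycle₁ c) (g : H) (z : A) (m : Ideal A) :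
    g • theta c z ∈ m ↔ theta c z ∈ m := by
  constructor
  · intro h
    rw [← mul_smul_theta c hc g z]
    exact m.mul_mem_left _ h
  · intro h
    have h2 : g • theta c z = ((c g)⁻¹ : Aˣ) * theta c z := by
      conv_rhs => rw [← mul_smul_theta c hc g z, ← mul_assoc, Units.inv_mul, one_mul]
    rw [h2]
    exact m.mul_mem_left _ h

/-- Dedekind independence: at a maximal ideal with trivial inertia the Poincaré series is not
identically zero. -/
lemma exists_theta_notMem (c : H → Aˣ) (m : Ideal A) [hm : m.IsMaximal]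
    (hin : ∀ h : H, (∀ x : A, h • x - x ∈ m) → h = 1) : ∃ z : A, theta c z ∉ m := by
  classical
  by_contra hcon
  push Not at hcon
  letI : Field (A ⧸ m) := Ideal.Quotient.field m
  let φ : H → (A →* (A ⧸ m)) := fun h =>
    ((Ideal.Quotient.mk m).comp (MulSemiringAction.toRingHom H A h)).toMonoidHom
  have hφ : ∀ (h : H) (x : A), φ h x = Ideal.Quotient.mk m (h • x) := fun _ _ => rfl
  have hinj : Function.Injective φ := by
    intro h h' hh
    have h1 : h * h'⁻¹ = 1 := by
      refine hin _ fun x => ?_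
      have h2 : φ h (h'⁻¹ • x) = φ h' (h'⁻¹ • x) := by rw [hh]
      rw [hφ, hφ, smul_inv_smul, Ideal.Quotient.eq, ← mul_smul] at h2
      exact h2
    exact mul_inv_eq_one.1 h1
  have hli := (linearIndependent_monoidHom A (A ⧸ m)).comp φ hinj
  rw [Fintype.linearIndependent_iff] at hli
  have h0 := hli (fun h => Ideal.Quotient.mk m (c h : A)) (by
    funext x
    simp only [Function.comp_apply, Finset.sum_apply, Pi.smul_apply, smul_eq_mul, Pi.zero_apply,
      hφ]
    rw [← Ideal.Quotient.eq_zero_iff_mem.2 (hcon x), theta, map_sum]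
    simp only [map_mul]) 1
  rw [Ideal.Quotient.eq_zero_iff_mem] at h0
  exact hm.ne_top (Ideal.eq_top_of_isUnit_mem _ h0 (c 1).isUnit)

/-- An `H`-invariant element of `A` lying in the maximal ideals of a finite `H`-stable "good" set
and outside those of the complementary "bad" set. -/
lemma exists_invariant_separating (S : Finset (Ideal A)) (hS : ∀ m ∈ S, m.IsMaximal)
    (hst : ∀ m ∈ S, ∀ h : H, m.comap (MulSemiringAction.toRingHom H A h) ∈ S)
    (bad : Ideal A → Prop) (hbad : ∀ m ∈ S, bad m → ∀ h : H,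
      bad (m.comap (MulSemiringAction.toRingHom H A h))) :
    ∃ a : A, (∀ h : H, h • a = a) ∧ (∀ m ∈ S, ¬ bad m → a ∈ m) ∧ (∀ m ∈ S, bad m → a ∉ m) := by
  classical
  have hcop : Pairwise (Function.onFun IsCoprime fun i : S => (i : Ideal A)) := by
    intro i j hij
    haveI := hS i.1 i.2
    haveI := hS j.1 j.2
    exact Ideal.isCoprime_of_isMaximal fun h => hij (Subtype.ext h)
  obtain ⟨a₀, ha₀⟩ := Ideal.exists_forall_sub_mem_ideal hcop
    (fun i : S => if bad i.1 then (1 : A) else 0)
  refine ⟨∏ h : H, h • a₀, fun g => ?_, fun m hm hb => ?_, fun m hm hb hcon => ?_⟩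
  · rw [Finset.smul_prod']
    simp only [← mul_smul]
    exact Fintype.prod_equiv (Equiv.mulLeft g) _ _ fun h => rfl
  · have h1 := ha₀ ⟨m, hm⟩
    simp only [hb, if_false, sub_zero] at h1
    have h2 : (1 : H) • a₀ ∈ m := by rwa [one_smul]
    exact Ideal.prod_mem m (Finset.mem_univ (1 : H)) h2
  · haveI := hS m hm
    obtain ⟨h, -, hh⟩ := Ideal.IsPrime.prod_mem_iff.1 hcon
    have h1 := ha₀ ⟨m.comap (MulSemiringAction.toRingHom H A h), hst m hm h⟩
    simp only [hbad m hm hb h, if_true] at h1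
    have h2 : a₀ ∈ m.comap (MulSemiringAction.toRingHom H A h) := hh
    have h3 := (Ideal.sub_mem _ h2 h1)
    rw [sub_sub_cancel] at h3
    have hmax : (m.comap (MulSemiringAction.toRingHom H A h)).IsMaximal := hS _ (hst m hm h)
    exact hmax.ne_top ((Ideal.eq_top_iff_one _).2 h3)

/-- **Key lemma.**  If `A` has finitely many maximal ideals, all with trivial inertia, then the
Poincaré series of any `1`-cocycle takes a unit value. -/
theorem exists_isUnit_theta (hfin : {m : Ideal A | m.IsMaximal}.Finite)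
    (hin : ∀ m : Ideal A, m.IsMaximal → ∀ h : H, (∀ x : A, h • x - x ∈ m) → h = 1)
    (c : H → Aˣ) (hc : IsMulCocycle₁ c) : ∃ z : A, IsUnit (theta c z) := by
  classical
  set S : Finset (Ideal A) := hfin.toFinset with hSdef
  have hS : ∀ m, m ∈ S ↔ m.IsMaximal := fun m => by rw [hSdef, Set.Finite.mem_toFinset]; rfl
  have hst : ∀ m ∈ S, ∀ h : H, m.comap (MulSemiringAction.toRingHom H A h) ∈ S := by
    intro m hm h
    rw [hS] at hm ⊢
    haveI := hm
    exact Ideal.comap_isMaximal_of_surjective _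
      (MulSemiringAction.toRingEquiv H A h).surjective
  have key : ∀ n : ℕ, ∀ z : A, (S.filter fun m => theta c z ∈ m).card = n →
      ∃ z' : A, IsUnit (theta c z') := by
    intro n
    induction n using Nat.strong_induction_on with
    | _ n ih =>
      intro z hz
      by_cases hempty : (S.filter fun m => theta c z ∈ m) = ∅
      · refine ⟨z, ?_⟩
        by_contra hnu
        obtain ⟨m, hm, hmem⟩ := exists_max_ideal_of_mem_nonunits hnu
        have : m ∈ S.filter fun m => theta c z ∈ m :=
          Finset.mem_filter.2 ⟨(hS m).2 hm, hmem⟩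
        rw [hempty] at this
        exact absurd this (Finset.notMem_empty m)
      · obtain ⟨n₀, hn₀⟩ := Finset.nonempty_iff_ne_empty.2 hempty
        obtain ⟨hn₀S, hn₀b⟩ := Finset.mem_filter.1 hn₀
        haveI hn₀max : n₀.IsMaximal := (hS n₀).1 hn₀S
        obtain ⟨z₀, hz₀⟩ := exists_theta_notMem c n₀ (hin n₀ hn₀max)
        obtain ⟨a, hainv, hagood, habad⟩ := exists_invariant_separating S
          (fun m hm => (hS m).1 hm) hst (fun m => theta c z ∈ m)
          (fun m _ hb h => (smul_theta_mem_iff c hc h z m).2 hb)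
        have hth : theta c (z + a * z₀) = theta c z + a * theta c z₀ := by
          rw [theta_add, theta_mul_of_invariant c a z₀ hainv]
        have hsub : (S.filter fun m => theta c (z + a * z₀) ∈ m) ⊂
            (S.filter fun m => theta c z ∈ m) := by
          refine Finset.ssubset_iff_of_subset ?_ |>.2 ⟨n₀, hn₀, ?_⟩
          · intro m hm
            obtain ⟨hmS, hmb⟩ := Finset.mem_filter.1 hm
            refine Finset.mem_filter.2 ⟨hmS, ?_⟩
            by_contra hgood
            rw [hth] at hmb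
            have := (Ideal.add_mem_iff_left m (m.mul_mem_right _ (hagood m hmS hgood))).1 hmb
            exact hgood this
          · intro hcon
            obtain ⟨-, hb⟩ := Finset.mem_filter.1 hcon
            rw [hth] at hb
            have h1 := (Ideal.add_mem_iff_right n₀ hn₀b).1 hb
            rcases (inferInstance : n₀.IsPrime).mem_or_mem h1 with h2 | h2
            · exact habad n₀ hn₀S hn₀b h2
            · exact hz₀ h2
        exact ih _ (hz ▸ Finset.card_lt_card hsub) (z + a * z₀) rfl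
  exact key _ 0 rfl

/-- **Hilbert 90** for rings with finitely many maximal ideals and trivial inertia. -/
theorem isMulCoboundary₁_of_trivial_inertia (hfin : {m : Ideal A | m.IsMaximal}.Finite)
    (hin : ∀ m : Ideal A, m.IsMaximal → ∀ h : H, (∀ x : A, h • x - x ∈ m) → h = 1)
    (c : H → Aˣ) (hc : IsMulCocycle₁ c) : IsMulCoboundary₁ c := by
  obtain ⟨z, hz⟩ := exists_isUnit_theta hfin hin c hc
  refine ⟨hz.unit⁻¹, fun g => ?_⟩
  have h1 : c g * g • hz.unit = hz.unit := Units.ext (by
    rw [Units.val_mul, coe_unitsAct_smul, IsUnit.unit_spec]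
    exact mul_smul_theta c hc g z)
  have h2 : g • hz.unit = (c g)⁻¹ * hz.unit := by
    rw [eq_inv_mul_iff_mul_eq]
    exact h1
  rw [smul_inv', h2, mul_inv, inv_inv, div_eq_mul_inv, inv_inv, mul_assoc, inv_mul_cancel,
    mul_one]

/-- An element of trace `1`. -/
theorem exists_trace_eq_one (hfin : {m : Ideal A | m.IsMaximal}.Finite)
    (hin : ∀ m : Ideal A, m.IsMaximal → ∀ h : H, (∀ x : A, h • x - x ∈ m) → h = 1) :
    ∃ b : A, ∑ h : H, h • b = 1 := by
  have hc : IsMulCocycle₁ (fun _ : H => (1 : Aˣ)) := fun g h => by simp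
  obtain ⟨z, u, hu⟩ := exists_isUnit_theta hfin hin _ hc
  have hinv : ∀ g : H, g • (u : A) = u := by
    intro g
    have := mul_smul_theta _ hc g z
    rw [← hu] at this
    simpa using this
  have hth : (u : A) = ∑ h : H, h • z := by
    rw [hu]
    simp [theta]
  have hinv' : ∀ g : H, g • ((u⁻¹ : Aˣ) : A) = ((u⁻¹ : Aˣ) : A) := by
    intro g
    have h1 : g • ((u⁻¹ : Aˣ) : A) * u = 1 := by
      conv_lhs => rw [← hinv g, ← smul_mul']
      rw [Units.inv_mul, smul_one]
    calc g • ((u⁻¹ : Aˣ) : A)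
        = g • ((u⁻¹ : Aˣ) : A) * (u * ((u⁻¹ : Aˣ) : A)) := by
          rw [Units.mul_inv, mul_one]
      _ = ((u⁻¹ : Aˣ) : A) := by rw [← mul_assoc, h1, one_mul]
  refine ⟨z * ((u⁻¹ : Aˣ) : A), ?_⟩
  simp only [smul_mul', hinv']
  rw [← Finset.sum_mul, ← hth, Units.mul_inv]

end Core

end Fermat.Agent.S55.G.SIndH237.H95

end
-- ===== PACK-END S55/G/SIndH237/H95/SemiLocal.lean

-- ===== PACK-BEGIN S59/NMP/H587/SqfreeAnn.lean
section


/-!
# S59 / cell NMP, leaf LGC, bridge BETTI (helper587) — a squarefree annihilating polynomial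

In a reduced commutative ring, an element `t` which is integral over `ℤ` is a root of a monic
polynomial `R ∈ ℤ[X]` which is squarefree over `ℚ`; hence `R` is separable over every field of
characteristic zero.
-/

set_option autoImplicit false

open Polynomial UniqueFactorizationMonoid

namespace Fermat.Agent.S59.NMP.H587

/-- **A squarefree annihilating polynomial.** -/
theorem exists_monic_squarefree_aeval_eq_zero {A : Type*} [CommRing A] [IsReduced A] (t : A)
    (ht : IsIntegral ℤ t) :
    ∃ R : ℤ[X], R.Monic ∧ Squarefree (R.map (Int.castRingHom ℚ)) ∧ aeval t R = 0 := by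
  classical
  obtain ⟨m, hm, hmt⟩ := ht
  have hinj : Function.Injective (Int.castRingHom ℚ) := Int.cast_injective
  set mQ : ℚ[X] := m.map (Int.castRingHom ℚ) with hmQ
  have hmQm : mQ.Monic := hm.map _
  have hmQ0 : mQ ≠ 0 := hmQm.ne_zero
  -- the monic radical
  set r : ℚ[X] := normalize (radical mQ) with hr
  have hrad0 : radical mQ ≠ 0 := fun h => by
    have := radical_dvd_self (a := mQ)
    rw [h, zero_dvd_iff] at this
    exact hmQ0 this
  have hrm : r.Monic := monic_normalize hrad0
  have hassoc : Associated r (radical mQ) := normalize_associated _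
  have hrsq : Squarefree r := (squarefree_radical (a := mQ)).squarefree_of_dvd hassoc.dvd
  have hrdvd : r ∣ mQ := hassoc.dvd.trans radical_dvd_self
  obtain ⟨n, hn⟩ := exists_dvd_radical_self_pow hmQ0
  have hn' : mQ ∣ r ^ n := hn.trans (pow_dvd_pow_of_dvd hassoc.symm.dvd n)
  -- descend to `ℤ[X]`
  obtain ⟨R, hR⟩ := IsIntegrallyClosed.eq_map_mul_C_of_dvd ℚ hm hrdvd
  rw [hrm.leadingCoeff, C_1, mul_one] at hR
  have hR' : R.map (Int.castRingHom ℚ) = r := hR
  have hRm : R.Monic := monic_of_injective hinj (by rw [hR']; exact hrm)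
  refine ⟨R, hRm, by rw [hR']; exact hrsq, ?_⟩
  have hdvd : m ∣ R ^ n := by
    rw [← map_dvd_map (Int.castRingHom ℚ) hinj hm, Polynomial.map_pow, hR']
    exact hn'
  obtain ⟨q, hq⟩ := hdvd
  have hpow : aeval t R ^ n = 0 := by
    rw [← map_pow, hq, map_mul]
    have : aeval t m = 0 := by rw [aeval_def]; exact hmt
    rw [this, zero_mul]
  exact IsReduced.eq_zero _ ⟨n, hpow⟩

/-- The polynomial of `exists_monic_squarefree_aeval_eq_zero` is separable over every field of
characteristic zero. -/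
theorem separable_map_of_squarefree_rat {R : ℤ[X]}
    (hR : Squarefree (R.map (Int.castRingHom ℚ))) (L : Type*) [Field L] [CharZero L] :
    (R.map (Int.castRingHom L)).Separable := by
  have h1 : (R.map (Int.castRingHom ℚ)).Separable := PerfectField.separable_iff_squarefree.mpr hR
  have h2 := h1.map (f := algebraMap ℚ L)
  rw [Polynomial.map_map] at h2
  have : (algebraMap ℚ L).comp (Int.castRingHom ℚ) = Int.castRingHom L := RingHom.ext_int _ _
  rwa [this] at h2

end Fermat.Agent.S59.NMP.H587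

end
-- ===== PACK-END S59/NMP/H587/SqfreeAnn.lean

-- ===== PACK-BEGIN S17/H770/DerExt.lean
section


/-!
# S17 / G-DIV piece DER-0 (helper770): existence of derivations (Mathlib only)

* `exists_derivation_ext_of_formallyEtale`: a derivation `S → T` extends along a formally
  étale map `S → T` to a derivation `T → T`.
* `exists_derivation_of_isTranscendenceBasis`: prescribed values on a transcendence basis.
* `exists_derivation_eq_one`: `K ⊆ L` fields of characteristic `0`, `s ∈ L` transcendental over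
  `K`: there is a `K`-derivation `∂` of `L` with `∂ s = 1`.
-/

set_option autoImplicit false

namespace Fermat.Agent.S17.H770

open KaehlerDifferential TensorProduct

section Ext

variable (R S T : Type*) [CommRing R] [CommRing S] [CommRing T]
variable [Algebra R S] [Algebra R T] [Algebra S T] [IsScalarTower R S T]

/-- Extension of a derivation along a formally étale map. -/
theorem exists_derivation_ext_of_formallyEtale [Algebra.FormallyEtale S T]
    (d : Derivation R S T) : ∃ D : Derivation R T T, ∀ s : S, D (algebraMap S T s) = d s := by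
  let l : Ω[S⁄R] →ₗ[S] T := d.liftKaehlerDifferential
  let lT : T ⊗[S] Ω[S⁄R] →ₗ[T] T := LinearMap.liftBaseChange T l
  let e := KaehlerDifferential.tensorKaehlerEquivOfFormallyEtale R S T
  let L : Ω[T⁄R] →ₗ[T] T := lT ∘ₗ e.symm.toLinearMap
  refine ⟨L.compDer (KaehlerDifferential.D R T), fun s => ?_⟩
  simp [L, lT, l, e, KaehlerDifferential.tensorKaehlerEquivOfFormallyEtale_symm_D_algebraMap]

end Ext

section Field

variable {K L : Type*} [Field K] [Field L] [Algebra K L] [CharZero K]

open scoped IntermediateField.algebraAdjoinAdjoin in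
/-- In characteristic `0` a derivation can be prescribed arbitrarily on a transcendence basis. -/
theorem exists_derivation_of_isTranscendenceBasis {ι : Type*} {v : ι → L}
    (hv : IsTranscendenceBasis K v) (f : ι → L) :
    ∃ D : Derivation K L L, ∀ i, D (v i) = f i := by
  classical
  let e : MvPolynomial ι K ≃ₐ[K] Algebra.adjoin K (Set.range v) := hv.1.aevalEquiv
  -- derivation on the polynomial subalgebra
  obtain ⟨d, hd⟩ : ∃ d : Derivation K (Algebra.adjoin K (Set.range v)) L,
      ∀ i, d ⟨v i, Algebra.subset_adjoin ⟨i, rfl⟩⟩ = f i := by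
    let modS : Module (MvPolynomial ι K) L :=
      Module.compHom L (e : MvPolynomial ι K →+* Algebra.adjoin K (Set.range v))
    have hsm : ∀ (p : MvPolynomial ι K) (x : L), p • x = (e p : L) * x := fun p x => rfl
    have : IsScalarTower K (MvPolynomial ι K) L := ⟨fun c p x => by
      rw [hsm, hsm, map_smul, Subalgebra.coe_smul, smul_mul_assoc]⟩
    let d₀ : Derivation K (MvPolynomial ι K) L := MvPolynomial.mkDerivation K f
    refine ⟨Derivation.mk' (d₀.toLinearMap ∘ₗ e.symm.toLinearMap) ?_, ?_⟩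
    · intro a b
      simp only [LinearMap.comp_apply, AlgEquiv.toLinearMap_apply, Derivation.coeFn_coe,
        map_mul, Derivation.leibniz, hsm, AlgEquiv.apply_symm_apply]
      rfl
    · intro i
      have : e.symm ⟨v i, Algebra.subset_adjoin ⟨i, rfl⟩⟩ = MvPolynomial.X i := by
        rw [AlgEquiv.symm_apply_eq]
        ext
        simp [e]
      simp [this, d₀, MvPolynomial.mkDerivation_X]
  have : Algebra.FormallyEtale (Algebra.adjoin K (Set.range v))
      (IntermediateField.adjoin K (Set.range v)) := .of_isLocalization (nonZeroDivisors _)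
  have : Algebra.IsAlgebraic (IntermediateField.adjoin K (Set.range v)) L :=
    hv.isAlgebraic_field
  have : CharZero (IntermediateField.adjoin K (Set.range v)) :=
    charZero_of_injective_algebraMap (algebraMap K _).injective
  have : Algebra.IsSeparable (IntermediateField.adjoin K (Set.range v)) L := inferInstance
  have : Algebra.FormallyEtale (IntermediateField.adjoin K (Set.range v)) L :=
    Algebra.FormallyEtale.of_isSeparable _ L
  have : Algebra.FormallyEtale (Algebra.adjoin K (Set.range v)) L :=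
    .comp _ (IntermediateField.adjoin K (Set.range v)) _
  obtain ⟨D, hD⟩ := exists_derivation_ext_of_formallyEtale K (Algebra.adjoin K (Set.range v)) L d
  exact ⟨D, fun i => by simpa [hd] using hD ⟨v i, Algebra.subset_adjoin ⟨i, rfl⟩⟩⟩

/-- `K ⊆ L` fields of characteristic `0`, `s ∈ L` transcendental over `K`: there is a
`K`-derivation `∂` of `L` with `∂ s = 1`. -/
theorem exists_derivation_eq_one (s : L) (hs : Transcendental K s) :
    ∃ D : Derivation K L L, D s = 1 := by
  classical
  have h1 : AlgebraicIndepOn K id ({s} : Set L) :=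
    (algebraicIndependent_singleton_iff (R := K) (x := fun i : ({s} : Set L) => id (i : L))
      ⟨s, rfl⟩).2 hs
  obtain ⟨t, hst, ht⟩ := exists_isTranscendenceBasis_superset h1
  obtain ⟨D, hD⟩ := exists_derivation_of_isTranscendenceBasis ht
    (fun i => if (i : L) = s then 1 else 0)
  exact ⟨D, by simpa using hD ⟨s, hst rfl⟩⟩

end Field

end Fermat.Agent.S17.H770

end
-- ===== PACK-END S17/H770/DerExt.lean

-- ===== PACK-BEGIN S17/H20/AlgCl.lean
section


/-!
# S17 / G-DIV (helper20): the algebraic closure of `K₀(S)` in `L`, as a subfield (for TRANS)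

Mathlib-only.
-/

set_option autoImplicit false

noncomputable section

open Cardinal

namespace Fermat.Agent.S17.H20

section AlgCl

variable {L : Type*} [Field L]

/-- The algebraic closure in `L` of the subfield generated by `K₀` and `S`. -/
def algClosureAdjoin (K₀ : Subfield L) (S : Set L) : Subfield L :=
  (algebraicClosure (IntermediateField.adjoin K₀ S) L).toSubfield

theorem mem_algClosureAdjoin {K₀ : Subfield L} {S : Set L} {x : L} :
    x ∈ algClosureAdjoin K₀ S ↔ IsAlgebraic (IntermediateField.adjoin K₀ S) x :=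
  mem_algebraicClosure_iff

theorem le_algClosureAdjoin (K₀ : Subfield L) (S : Set L) : K₀ ≤ algClosureAdjoin K₀ S := by
  intro a ha
  rw [mem_algClosureAdjoin]
  exact isAlgebraic_algebraMap
    (⟨a, (IntermediateField.adjoin K₀ S).algebraMap_mem ⟨a, ha⟩⟩ : IntermediateField.adjoin K₀ S)

theorem subset_algClosureAdjoin (K₀ : Subfield L) (S : Set L) :
    S ⊆ (algClosureAdjoin K₀ S : Set L) := by
  intro a ha
  rw [SetLike.mem_coe, mem_algClosureAdjoin]
  exact isAlgebraic_algebraMap
    (⟨a, IntermediateField.subset_adjoin K₀ S ha⟩ : IntermediateField.adjoin K₀ S)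

theorem algClosedIn_algClosureAdjoin (K₀ : Subfield L) (S : Set L) (x : L)
    (hx : IsAlgebraic (algClosureAdjoin K₀ S) x) : x ∈ algClosureAdjoin K₀ S := by
  rw [mem_algClosureAdjoin]
  have hx' : IsAlgebraic (algebraicClosure (IntermediateField.adjoin K₀ S) L) x := hx
  exact hx'.restrictScalars (IntermediateField.adjoin K₀ S)

theorem countable_algClosureAdjoin (K₀ : Subfield L) (S : Set L)
    (hK₀ : (K₀ : Set L).Countable) (hS : S.Countable) :
    ((algClosureAdjoin K₀ S : Subfield L) : Set L).Countable := by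
  rw [← Set.countable_coe_iff, ← Cardinal.mk_le_aleph0_iff]
  have h1 : #(IntermediateField.adjoin K₀ S) ≤ ℵ₀ := by
    refine (IntermediateField.cardinalMk_adjoin_le K₀ S).trans ?_
    have a1 : #K₀ ≤ ℵ₀ := Cardinal.mk_le_aleph0_iff.mpr hK₀.to_subtype
    have a2 : #S ≤ ℵ₀ := Cardinal.mk_le_aleph0_iff.mpr hS.to_subtype
    exact sup_le (sup_le a1 a2) le_rfl
  have _i : Module.IsTorsionFree (IntermediateField.adjoin K₀ S) L :=
    Module.isTorsionFree_iff_algebraMap_injective.mpr
      (algebraMap (IntermediateField.adjoin K₀ S) L).injective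
  have h2 : #{x : L // IsAlgebraic (IntermediateField.adjoin K₀ S) x}
      ≤ max #(IntermediateField.adjoin K₀ S) ℵ₀ :=
    Algebraic.cardinalMk_le_max (IntermediateField.adjoin K₀ S) L
  have h3 : #(algClosureAdjoin K₀ S) ≤ #{x : L // IsAlgebraic (IntermediateField.adjoin K₀ S) x} :=
    Cardinal.mk_le_of_injective
      (f := fun y : algClosureAdjoin K₀ S =>
        (⟨(y : L), mem_algClosureAdjoin.mp y.2⟩ :
          {x : L // IsAlgebraic (IntermediateField.adjoin K₀ S) x}))
      (fun a b h => Subtype.ext (Subtype.mk.inj h))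
  exact h3.trans (h2.trans (max_le h1 le_rfl))

theorem notMem_algClosureAdjoin {ι : Type*} (K₀ : Subfield L) (x : ι → L)
    (hx : AlgebraicIndependent K₀ x) (s : Set ι) (i : ι) (hi : i ∉ s) :
    x i ∉ algClosureAdjoin K₀ (x '' s) := by
  rw [mem_algClosureAdjoin]
  exact IntermediateField.transcendental_adjoin_iff.mpr (hx.transcendental_adjoin hi)

end AlgCl

end Fermat.Agent.S17.H20

end
end
-- ===== PACK-END S17/H20/AlgCl.lean

-- ===== PACK-BEGIN S59/H826/Cheb32Alg.lean
section
/-
Row S59, cell LO, leaf LO-SQ at `(p, q) = (3, 2)` — SOFT route, outer leaf CHEB32, the abstract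
part (Mathlib only; helper826).

If every element outside a subgroup `G` of index `2` acts as an involution on a `2`-dimensional
space over an algebraically closed field, then `G` acts through a commutative group, hence
stabilises a line.
-/


set_option autoImplicit false
set_option linter.style.haveILetI false

namespace Fermat.Agent.S59.H826

/-- In a group: if `a`, `s a`, `t a`, `s t a` are involutions then `s` and `t` commute. -/
theorem commute_of_involutions826 {U : Type*} [Group U] (a s t : U) (ha : a * a = 1)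
    (hs : s * a * (s * a) = 1) (ht : t * a * (t * a) = 1)
    (hst : s * t * a * (s * t * a) = 1) : s * t = t * s := by
  have e0 : a⁻¹ = a := inv_eq_of_mul_eq_one_left ha
  have e1 : s * a = a * s⁻¹ := by
    have h := eq_inv_of_mul_eq_one_left hs
    rw [h, mul_inv_rev, e0]
  have e2 : t * a = a * t⁻¹ := by
    have h := eq_inv_of_mul_eq_one_left ht
    rw [h, mul_inv_rev, e0]
  have e3 : s * t * a = a * (t⁻¹ * s⁻¹) := by
    have h := eq_inv_of_mul_eq_one_left hst
    rw [h, mul_inv_rev, mul_inv_rev, e0]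
  have e4 : s * t * a = a * (s⁻¹ * t⁻¹) := by
    rw [mul_assoc, e2, ← mul_assoc, e1, mul_assoc]
  have e5 : t⁻¹ * s⁻¹ = s⁻¹ * t⁻¹ := mul_left_cancel (e3.symm.trans e4)
  have e6 : (s * t)⁻¹ = (t * s)⁻¹ := by rw [mul_inv_rev, mul_inv_rev, e5]
  exact inv_injective e6

/-- **CHEB32, abstract part.** -/
theorem exists_stable_line_of_sq826 {Γ : Type*} [Group Γ] {K : Type*} [Field K] [IsAlgClosed K]
    {V : Type*} [AddCommGroup V] [Module K V] (hdim : Module.finrank K V = 2)
    (ρ : Γ →* Module.End K V) (G : Subgroup Γ) (hG : G.index = 2)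
    (hsq : ∀ σ, σ ∉ G → ρ σ * ρ σ = 1) :
    ∃ W : Submodule K V, W ≠ ⊥ ∧ W ≠ ⊤ ∧ ∀ σ ∈ G, ∀ x ∈ W, ρ σ x ∈ W := by
  classical
  haveI : Module.Finite K V := Module.finite_of_finrank_pos (by rw [hdim]; norm_num)
  haveI : Nontrivial V := Module.nontrivial_of_finrank_pos (R := K) (by rw [hdim]; norm_num)
  -- an element outside `G`
  obtain ⟨c, hc⟩ : ∃ c, c ∉ G := by
    by_contra h
    push Not at h
    have : G = ⊤ := (Subgroup.eq_top_iff' G).mpr h
    rw [this, Subgroup.index_top] at hG
    omega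
  have hmem : ∀ σ ∈ G, σ * c ∉ G := by
    intro σ hσ h
    apply hc
    have := G.mul_mem (G.inv_mem hσ) h
    rwa [inv_mul_cancel_left] at this
  -- commutativity
  have hcomm : ∀ σ ∈ G, ∀ σ' ∈ G, ρ σ * ρ σ' = ρ σ' * ρ σ := by
    intro σ hσ σ' hσ'
    have h := commute_of_involutions826 (ρ.toHomUnits c) (ρ.toHomUnits σ) (ρ.toHomUnits σ')
      (by
        apply Units.ext
        simpa using hsq c hc)
      (by
        apply Units.ext
        have := hsq (σ * c) (hmem σ hσ)
        simpa using this)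
      (by
        apply Units.ext
        have := hsq (σ' * c) (hmem σ' hσ')
        simpa using this)
      (by
        apply Units.ext
        have := hsq (σ * σ' * c) (hmem (σ * σ') (G.mul_mem hσ hσ'))
        simpa using this)
    have h' := congrArg (fun u : (Module.End K V)ˣ => (u : Module.End K V)) h
    simpa using h'
  by_cases hscal : ∀ σ ∈ G, ∃ μ : K, ρ σ = μ • (1 : Module.End K V)
  · -- all scalars
    obtain ⟨v, hv⟩ := exists_ne (0 : V)
    refine ⟨K ∙ v, ?_, ?_, ?_⟩
    · intro h
      have : v ∈ (K ∙ v) := Submodule.mem_span_singleton_self v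
      rw [h, Submodule.mem_bot] at this
      exact hv this
    · intro h
      have h1 : Module.finrank K (K ∙ v) = 1 := finrank_span_singleton hv
      rw [h, finrank_top, hdim] at h1
      omega
    · intro σ hσ x hx
      obtain ⟨μ, hμ⟩ := hscal σ hσ
      rw [hμ]
      exact Submodule.smul_mem _ μ hx
  · push Not at hscal
    obtain ⟨σ₀, hσ₀, hns⟩ := hscal
    obtain ⟨μ, hμ⟩ := Module.End.exists_eigenvalue (ρ σ₀)
    obtain ⟨v, hv⟩ := hμ.exists_hasEigenvector
    refine ⟨LinearMap.ker (ρ σ₀ - μ • (1 : Module.End K V)), ?_, ?_, ?_⟩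
    · intro h
      have hv' : v ∈ LinearMap.ker (ρ σ₀ - μ • (1 : Module.End K V)) := by
        rw [LinearMap.mem_ker, LinearMap.sub_apply, LinearMap.smul_apply, Module.End.one_apply,
          hv.apply_eq_smul, sub_self]
      rw [h, Submodule.mem_bot] at hv'
      exact hv.2 hv'
    · intro h
      apply hns μ
      apply LinearMap.ext
      intro x
      have hx : x ∈ LinearMap.ker (ρ σ₀ - μ • (1 : Module.End K V)) := by
        rw [h]
        exact Submodule.mem_top
      rw [LinearMap.mem_ker, LinearMap.sub_apply, sub_eq_zero] at hx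
      exact hx
    · intro σ hσ x hx
      rw [LinearMap.mem_ker, LinearMap.sub_apply, sub_eq_zero] at hx ⊢
      have h1 : ρ σ₀ (ρ σ x) = ρ σ (ρ σ₀ x) := by
        have := congrArg (fun f : Module.End K V => f x) (hcomm σ₀ hσ₀ σ hσ)
        simpa using this
      rw [h1, hx]
      simp

end Fermat.Agent.S59.H826

end
-- ===== PACK-END S59/H826/Cheb32Alg.lean

-- ===== PACK-BEGIN S59/LoSqC/H987/CondWCore.lean
section


/-!
# S59 / cell (C) LO-SQ (helper987): `m ∣ div` of a residue, without residue fields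

`CondW R m V b` : "the residue of `b` along `V` has `m`-divisible divisor": for every valuation
subring `W ≤ V` of `F` containing (the image of) `R`, `b ≡ v · h ^ m` modulo `𝔪_V` with `v` a
unit of `W` and `h` a unit of `V`.  (The valuation subrings `W ≤ V` are the places of the residue
field of `V`.)

Mathlib only.  Transfer along an embedding `φ : F' → F` with `V ∩ F' = O`:

* `liftVal` : the valuation subring `{y | ∃ a ∈ W', y ^ k ≡ φ a mod 𝔪_V}` of `F` attached to
  `W' ≤ O` (`k = 1`: residue degree one; `k = q`: purely inseparable residue extension);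
* `condW_down` : `CondW V y₀`, `y₀ ^ k ≡ φ c` ⟹ `CondW O c`;
* `condW_up`   : `CondW O b` ⟹ `CondW V (φ b)`.
-/

set_option autoImplicit false

namespace Fermat.Agent.S59.LoSqC.H987

/-- `m ∣ div` of the residue of `b` along `V` (see the file header). -/
def CondW (R : Type*) [CommSemiring R] {F : Type*} [Field F] [Algebra R F] (m : ℕ)
    (V : ValuationSubring F) (b : F) : Prop :=
  ∀ W : ValuationSubring F, W ≤ V → (∀ r : R, algebraMap R F r ∈ W) →
    ∃ h v : F, V.valuation h = 1 ∧ v ∈ W ∧ v⁻¹ ∈ W ∧ V.valuation (b / (v * h ^ m) - 1) < 1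

section Basic

variable {F : Type*} [Field F]

theorem vs_val_le_one_iff (V : ValuationSubring F) (y : F) : V.valuation y ≤ 1 ↔ y ∈ V :=
  ValuationSubring.valuation_le_one_iff V y

/-- `W ≤ V` ⟹ `𝔪_V ⊆ 𝔪_W`. -/
theorem val_lt_one_of_le {W V : ValuationSubring F} (h : W ≤ V) {y : F}
    (hy : V.valuation y < 1) : W.valuation y < 1 := by
  have h1 : y ∈ V.nonunits := (ValuationSubring.mem_nonunits_iff V).2 hy
  have h2 : V.nonunits ≤ W.nonunits := ValuationSubring.nonunits_le_nonunits.2 h
  exact (ValuationSubring.mem_nonunits_iff W).1 (h2 h1)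

/-- A unit of `W ≤ V` is a unit of `V`. -/
theorem val_eq_one_of_unit_le {W V : ValuationSubring F} (h : W ≤ V) {v : F} (hv0 : v ≠ 0)
    (hv : v ∈ W) (hv' : v⁻¹ ∈ W) : V.valuation v = 1 := by
  have h1 : V.valuation v ≤ 1 := (vs_val_le_one_iff V v).2 (h hv)
  have h2 : V.valuation v⁻¹ ≤ 1 := (vs_val_le_one_iff V _).2 (h hv')
  rw [map_inv₀] at h2
  have h0 : V.valuation v ≠ 0 := (Valuation.ne_zero_iff _).2 hv0
  have h3 : 1 ≤ V.valuation v := (inv_le_one₀ (zero_lt_iff.2 h0)).1 h2
  exact le_antisymm h1 h3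

/-- In a congruence `b / (v * h ^ m) ≡ 1` the element `v` is not zero. -/
theorem ne_zero_of_cong {V : ValuationSubring F} {b v h : F} {m : ℕ}
    (hc : V.valuation (b / (v * h ^ m) - 1) < 1) : v ≠ 0 := by
  rintro rfl
  rw [zero_mul, div_zero, zero_sub, Valuation.map_neg, map_one] at hc
  exact lt_irrefl _ hc

theorem val_pow_eq_one {V : ValuationSubring F} {y : F} {k : ℕ} (hk : 0 < k)
    (h : V.valuation (y ^ k) = 1) : V.valuation y = 1 := by
  rw [map_pow] at h
  exact (pow_eq_one_iff_of_nonneg zero_le hk.ne').1 h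

theorem val_le_one_of_pow {V : ValuationSubring F} {y : F} {k : ℕ} (hk : 0 < k)
    (h : V.valuation (y ^ k) ≤ 1) : V.valuation y ≤ 1 := by
  rw [map_pow] at h
  by_contra hlt
  push Not at hlt
  have : 1 < V.valuation y ^ k := one_lt_pow₀ hlt hk.ne'
  exact absurd h (not_le.2 this)

/-- `x ≡ y` mod `𝔪_V`, `y` a unit ⟹ `x` a unit. -/
theorem val_eq_one_of_sub_lt' {V : ValuationSubring F} {x y : F} (hy : V.valuation y = 1)
    (h : V.valuation (x - y) < 1) : V.valuation x = 1 := by
  have h1 : x = y + (x - y) := by ring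
  rw [h1]
  have h2 : V.valuation (x - y) < V.valuation y := by rw [hy]; exact h
  rw [Valuation.map_add_eq_of_lt_left _ h2, hy]

theorem val_sub_lt_symm {V : ValuationSubring F} {x y : F} (h : V.valuation (x - y) < 1) :
    V.valuation (y - x) < 1 := by
  rw [← Valuation.map_neg, neg_sub]
  exact h

/-- `x / y ≡ 1`, `y` a unit ⟹ `x ≡ y`. -/
theorem sub_lt_of_div_sub_one {V : ValuationSubring F} {x y : F} (hy : V.valuation y = 1)
    (h : V.valuation (x / y - 1) < 1) : V.valuation (x - y) < 1 := by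
  have hy0 : y ≠ 0 := by
    rintro rfl
    rw [map_zero] at hy
    exact zero_ne_one hy
  have h1 : x - y = (x / y - 1) * y := by field_simp
  rw [h1, map_mul, hy, mul_one]
  exact h

/-- `x ≡ y`, `y` a unit ⟹ `x / y ≡ 1`. -/
theorem div_sub_one_lt_of_sub {V : ValuationSubring F} {x y : F} (hy : V.valuation y = 1)
    (h : V.valuation (x - y) < 1) : V.valuation (x / y - 1) < 1 := by
  have hy0 : y ≠ 0 := by
    rintro rfl
    rw [map_zero] at hy
    exact zero_ne_one hy
  have h1 : x / y - 1 = (x - y) * y⁻¹ := by field_simp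
  rw [h1, map_mul, map_inv₀, hy, inv_one, mul_one]
  exact h

theorem pu1_mul {V : ValuationSubring F} {s t : F} (hs : V.valuation (s - 1) < 1)
    (ht : V.valuation (t - 1) < 1) : V.valuation (s * t - 1) < 1 := by
  have e : s * t - 1 = (s - 1) * t + (t - 1) := by ring
  rw [e]
  have ht1 : V.valuation t = 1 := by
    have e2 : t = 1 + (t - 1) := by ring
    rw [e2]
    exact Valuation.map_one_add_of_lt _ ht
  refine Valuation.map_add_lt _ ?_ ht
  rw [map_mul, ht1, mul_one]
  exact hs

theorem pu1_pow {V : ValuationSubring F} {s : F} (hs : V.valuation (s - 1) < 1) (n : ℕ) :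
    V.valuation (s ^ n - 1) < 1 := by
  induction n with
  | zero => rw [pow_zero, sub_self, map_zero]; exact zero_lt_one
  | succ n ih => rw [pow_succ]; exact pu1_mul ih hs

end Basic

section Lift

variable {F' F : Type*} [Field F'] [Field F]

/-- The valuation subring of `F` attached to a valuation subring `W' ≤ O` of `F'`, where
`V` lies over `O` and every unit of `V` has `k`-th power congruent to an element of `φ F'`. -/
def liftVal (φ : F' →+* F) (V : ValuationSubring F) (O W' : ValuationSubring F') (k : ℕ)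
    (hk : 0 < k) (hov : ∀ a : F', φ a ∈ V ↔ a ∈ O) (hW' : W' ≤ O)
    (hres : ∀ y : F, V.valuation y = 1 → ∃ a : F', V.valuation (y ^ k - φ a) < 1)
    (hadd : ∀ y y' : F, y ∈ V → y' ∈ V → V.valuation ((y + y') ^ k - y ^ k - y' ^ k) < 1) :
    ValuationSubring F where
  carrier := {y | ∃ a ∈ W', V.valuation (y ^ k - φ a) < 1}
  mul_mem' := by
    rintro y y' ⟨a, ha, hya⟩ ⟨a', ha', hya'⟩
    refine ⟨a * a', W'.mul_mem _ _ ha ha', ?_⟩
    have hφa : V.valuation (φ a) ≤ 1 := (vs_val_le_one_iff V _).2 ((hov a).2 (hW' ha))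
    have hφa' : V.valuation (φ a') ≤ 1 := (vs_val_le_one_iff V _).2 ((hov a').2 (hW' ha'))
    have hy'k : V.valuation (y' ^ k) ≤ 1 := by
      have e : y' ^ k = (y' ^ k - φ a') + φ a' := by ring
      rw [e]
      exact le_trans (Valuation.map_add _ _ _) (max_le hya'.le hφa')
    have e : (y * y') ^ k - φ (a * a') = (y ^ k - φ a) * y' ^ k + φ a * (y' ^ k - φ a') := by
      rw [map_mul, mul_pow]
      ring
    rw [e]
    refine Valuation.map_add_lt _ ?_ ?_
    · rw [map_mul]
      exact mul_lt_one_of_nonneg_of_lt_one_left zero_le hya hy'k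
    · rw [map_mul]
      exact mul_lt_one_of_nonneg_of_lt_one_right hφa zero_le hya'
  one_mem' := ⟨1, W'.one_mem, by rw [one_pow, map_one, sub_self, map_zero]; exact zero_lt_one⟩
  add_mem' := by
    rintro y y' ⟨a, ha, hya⟩ ⟨a', ha', hya'⟩
    refine ⟨a + a', W'.add_mem _ _ ha ha', ?_⟩
    have hφa : V.valuation (φ a) ≤ 1 := (vs_val_le_one_iff V _).2 ((hov a).2 (hW' ha))
    have hφa' : V.valuation (φ a') ≤ 1 := (vs_val_le_one_iff V _).2 ((hov a').2 (hW' ha'))
    have hyk : V.valuation (y ^ k) ≤ 1 := by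
      have e : y ^ k = (y ^ k - φ a) + φ a := by ring
      rw [e]
      exact le_trans (Valuation.map_add _ _ _) (max_le hya.le hφa)
    have hy'k : V.valuation (y' ^ k) ≤ 1 := by
      have e : y' ^ k = (y' ^ k - φ a') + φ a' := by ring
      rw [e]
      exact le_trans (Valuation.map_add _ _ _) (max_le hya'.le hφa')
    have hyV : y ∈ V := (vs_val_le_one_iff V _).1 (val_le_one_of_pow hk hyk)
    have hy'V : y' ∈ V := (vs_val_le_one_iff V _).1 (val_le_one_of_pow hk hy'k)
    have e : (y + y') ^ k - φ (a + a') =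
        ((y + y') ^ k - y ^ k - y' ^ k) + ((y ^ k - φ a) + (y' ^ k - φ a')) := by
      rw [map_add]
      ring
    rw [e]
    exact Valuation.map_add_lt _ (hadd y y' hyV hy'V) (Valuation.map_add_lt _ hya hya')
  zero_mem' := ⟨0, W'.zero_mem, by
    rw [zero_pow hk.ne', map_zero, sub_self, map_zero]; exact zero_lt_one⟩
  neg_mem' := by
    rintro y ⟨a, ha, hya⟩
    refine ⟨(-1) ^ k * a, W'.mul_mem _ _ (pow_mem (W'.neg_mem _ W'.one_mem) k) ha, ?_⟩
    have e : (-y) ^ k - φ ((-1) ^ k * a) = (-1) ^ k * (y ^ k - φ a) := by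
      rw [map_mul, map_pow, map_neg, map_one, neg_pow]
      ring
    rw [e, map_mul, map_pow, Valuation.map_neg, map_one, one_pow, one_mul]
    exact hya
  mem_or_inv_mem' := by
    intro y
    rcases lt_trichotomy (V.valuation y) 1 with h | h | h
    · left
      refine ⟨0, W'.zero_mem, ?_⟩
      rw [map_zero, sub_zero, map_pow]
      exact pow_lt_one₀ zero_le h hk.ne'
    · obtain ⟨a, ha⟩ := hres y h
      have hyk : V.valuation (y ^ k) = 1 := by rw [map_pow, h, one_pow]
      have hφa : V.valuation (φ a) = 1 := val_eq_one_of_sub_lt' hyk (val_sub_lt_symm ha)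
      rcases W'.mem_or_inv_mem a with h1 | h1
      · exact Or.inl ⟨a, h1, ha⟩
      · right
        refine ⟨a⁻¹, h1, ?_⟩
        have hy0 : y ^ k ≠ 0 := by
          intro h0
          rw [h0, map_zero] at hyk
          exact zero_ne_one hyk
        have hφa0 : φ a ≠ 0 := by
          intro h0
          rw [h0, map_zero] at hφa
          exact zero_ne_one hφa
        have e : y⁻¹ ^ k - φ a⁻¹ = -((y ^ k - φ a) * (y ^ k)⁻¹ * (φ a)⁻¹) := by
          rw [map_inv₀, inv_pow]
          field_simp
          ring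
        rw [e, Valuation.map_neg, map_mul, map_mul, map_inv₀, map_inv₀, hyk, hφa, inv_one,
          mul_one, mul_one]
        exact ha
    · right
      refine ⟨0, W'.zero_mem, ?_⟩
      rw [map_zero, sub_zero, map_pow, map_inv₀]
      have h0 : 0 < V.valuation y := lt_trans zero_lt_one h
      exact pow_lt_one₀ zero_le (inv_lt_one_of_one_lt₀ h) hk.ne'

variable {φ : F' →+* F} {V : ValuationSubring F} {O W' : ValuationSubring F'} {k : ℕ}
  {hk : 0 < k} {hov : ∀ a : F', φ a ∈ V ↔ a ∈ O} {hW' : W' ≤ O}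
  {hres : ∀ y : F, V.valuation y = 1 → ∃ a : F', V.valuation (y ^ k - φ a) < 1}
  {hadd : ∀ y y' : F, y ∈ V → y' ∈ V → V.valuation ((y + y') ^ k - y ^ k - y' ^ k) < 1}

theorem mem_liftVal {y : F} :
    y ∈ liftVal φ V O W' k hk hov hW' hres hadd ↔
      ∃ a ∈ W', V.valuation (y ^ k - φ a) < 1 := Iff.rfl

theorem liftVal_le : liftVal φ V O W' k hk hov hW' hres hadd ≤ V := by
  rintro y ⟨a, ha, hya⟩
  have hφa : V.valuation (φ a) ≤ 1 := (vs_val_le_one_iff V _).2 ((hov a).2 (hW' ha))
  have hyk : V.valuation (y ^ k) ≤ 1 := by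
    have e : y ^ k = (y ^ k - φ a) + φ a := by ring
    rw [e]
    exact le_trans (Valuation.map_add _ _ _) (max_le hya.le hφa)
  exact (vs_val_le_one_iff V _).1 (val_le_one_of_pow hk hyk)

theorem map_mem_liftVal {a : F'} (ha : a ∈ W') :
    φ a ∈ liftVal φ V O W' k hk hov hW' hres hadd :=
  ⟨a ^ k, pow_mem ha k, by rw [map_pow, sub_self, map_zero]; exact zero_lt_one⟩

/-- Units of `liftVal` come from units of `W'`. -/
theorem exists_unit_of_liftVal {v : F} (hv0 : v ≠ 0)
    (hv : v ∈ liftVal φ V O W' k hk hov hW' hres hadd)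
    (hv' : v⁻¹ ∈ liftVal φ V O W' k hk hov hW' hres hadd) :
    ∃ a : F', a ∈ W' ∧ a⁻¹ ∈ W' ∧ V.valuation (v ^ k - φ a) < 1 := by
  obtain ⟨a, ha, hva⟩ := hv
  obtain ⟨a', ha', hva'⟩ := hv'
  have hle : liftVal φ V O W' k hk hov hW' hres hadd ≤ V := liftVal_le
  have hv1 : V.valuation v = 1 :=
    val_eq_one_of_unit_le hle hv0 ⟨a, ha, hva⟩ ⟨a', ha', hva'⟩
  have hvk : V.valuation (v ^ k) = 1 := by rw [map_pow, hv1, one_pow]
  have hφa : V.valuation (φ a) = 1 := val_eq_one_of_sub_lt' hvk (val_sub_lt_symm hva)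
  have hvk' : V.valuation (v⁻¹ ^ k) = 1 := by rw [map_pow, map_inv₀, hv1, inv_one, one_pow]
  have hφa' : V.valuation (φ a') = 1 := val_eq_one_of_sub_lt' hvk' (val_sub_lt_symm hva')
  refine ⟨a, ha, ?_, hva⟩
  -- `φ (a a') ≡ 1`
  have h1 : V.valuation (φ (a * a') - 1) < 1 := by
    have e : φ (a * a') - 1 = -((v ^ k - φ a) * φ a') - v ^ k * (v⁻¹ ^ k - φ a') := by
      rw [map_mul, inv_pow]
      have : v ^ k ≠ 0 := pow_ne_zero _ hv0
      field_simp
      ring
    rw [e]
    refine Valuation.map_sub_lt _ ?_ ?_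
    · rw [Valuation.map_neg, map_mul, hφa', mul_one]
      exact hva
    · rw [map_mul, hvk, one_mul]
      exact hva'
  -- so `a a' - 1 ∈ 𝔪_O ⊆ 𝔪_{W'}`
  have h2 : O.valuation (a * a' - 1) < 1 := by
    have h3 : φ (a * a' - 1) ∈ V.nonunits := by
      rw [map_sub, map_one]
      exact (ValuationSubring.mem_nonunits_iff V).2 h1
    rw [← ValuationSubring.mem_nonunits_iff]
    rw [ValuationSubring.mem_nonunits_iff_or] at h3 ⊢
    rcases h3 with h3 | h3
    · left
      exact (map_eq_zero φ).1 h3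
    · right
      intro h4
      apply h3
      rw [← map_inv₀]
      exact (hov _).2 h4
  have h4 : W'.valuation (a * a' - 1) < 1 := val_lt_one_of_le hW' h2
  have h5 : W'.valuation (a * a') = 1 := by
    have e : a * a' = 1 + (a * a' - 1) := by ring
    rw [e]
    exact Valuation.map_one_add_of_lt _ h4
  have h6 : (a * a')⁻¹ ∈ W' := by
    rw [← vs_val_le_one_iff, map_inv₀, h5, inv_one]
  have ha0 : a ≠ 0 := by
    rintro rfl
    rw [map_zero, map_zero] at hφa
    exact zero_ne_one hφa
  have ha'0 : a' ≠ 0 := by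
    rintro rfl
    rw [map_zero, map_zero] at hφa'
    exact zero_ne_one hφa'
  have e : a⁻¹ = a' * (a * a')⁻¹ := by field_simp
  rw [e]
  exact W'.mul_mem _ _ ha' h6

end Lift

section Transfer

variable {R : Type*} [CommSemiring R] {F' F : Type*} [Field F'] [Field F]
  [Algebra R F'] [Algebra R F]

/-- Over-lying valuation rings: congruences to `1` descend. -/
theorem val_sub_one_lt_down {φ : F' →+* F} {V : ValuationSubring F} {O : ValuationSubring F'}
    (hov : ∀ a : F', φ a ∈ V ↔ a ∈ O) {a : F'} (h : V.valuation (φ a - 1) < 1) :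
    O.valuation (a - 1) < 1 := by
  have h3 : φ (a - 1) ∈ V.nonunits := by
    rw [map_sub, map_one]
    exact (ValuationSubring.mem_nonunits_iff V).2 h
  rw [← ValuationSubring.mem_nonunits_iff]
  rw [ValuationSubring.mem_nonunits_iff_or] at h3 ⊢
  rcases h3 with h3 | h3
  · left
    exact (map_eq_zero φ).1 h3
  · right
    intro h4
    apply h3
    rw [← map_inv₀]
    exact (hov _).2 h4

theorem val_sub_one_lt_up {φ : F' →+* F} {V : ValuationSubring F} {O : ValuationSubring F'}
    (hov : ∀ a : F', φ a ∈ V ↔ a ∈ O) {a : F'} (h : O.valuation (a - 1) < 1) :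
    V.valuation (φ a - 1) < 1 := by
  have h3 : a - 1 ∈ O.nonunits := (ValuationSubring.mem_nonunits_iff O).2 h
  rw [← ValuationSubring.mem_nonunits_iff]
  rw [ValuationSubring.mem_nonunits_iff_or] at h3 ⊢
  rw [← map_one φ, ← map_sub]
  rcases h3 with h3 | h3
  · left
    rw [h3, map_zero]
  · right
    intro h4
    apply h3
    rw [← map_inv₀] at h4
    exact (hov _).1 h4

theorem val_eq_one_down {φ : F' →+* F} {V : ValuationSubring F} {O : ValuationSubring F'}
    (hov : ∀ a : F', φ a ∈ V ↔ a ∈ O) {a : F'} (h : V.valuation (φ a) = 1) :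
    O.valuation a = 1 := by
  have h1 : a ∈ O := (hov a).1 ((vs_val_le_one_iff V _).1 h.le)
  have h2 : a⁻¹ ∈ O := by
    refine (hov _).1 ((vs_val_le_one_iff V _).1 ?_)
    rw [map_inv₀, map_inv₀, h, inv_one]
  have ha0 : a ≠ 0 := by
    rintro rfl
    rw [map_zero, map_zero] at h
    exact zero_ne_one h
  exact val_eq_one_of_unit_le (le_refl O) ha0 h1 h2

theorem val_eq_one_up {φ : F' →+* F} {V : ValuationSubring F} {O : ValuationSubring F'}
    (hov : ∀ a : F', φ a ∈ V ↔ a ∈ O) {a : F'} (h : O.valuation a = 1) :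
    V.valuation (φ a) = 1 := by
  have h1 : φ a ∈ V := (hov a).2 ((vs_val_le_one_iff O _).1 h.le)
  have h2 : (φ a)⁻¹ ∈ V := by
    rw [← map_inv₀]
    refine (hov _).2 ((vs_val_le_one_iff O _).1 ?_)
    rw [map_inv₀, h, inv_one]
  have ha0 : φ a ≠ 0 := by
    intro h0
    rw [(map_eq_zero φ).1 h0, map_zero] at h
    exact zero_ne_one h
  exact val_eq_one_of_unit_le (le_refl V) ha0 h1 h2

/-- **Descent of `CondW`** along `φ` (`V` over `O`): if `y₀ ^ k ≡ φ c` on `V` then `CondW V y₀`
implies `CondW O c`. -/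
theorem condW_down (m : ℕ) (φ : F' →+* F) (hφR : ∀ r : R, φ (algebraMap R F' r) = algebraMap R F r)
    (V : ValuationSubring F) (O : ValuationSubring F') (k : ℕ) (hk : 0 < k)
    (hov : ∀ a : F', φ a ∈ V ↔ a ∈ O)
    (hres : ∀ y : F, V.valuation y = 1 → ∃ a : F', V.valuation (y ^ k - φ a) < 1)
    (hadd : ∀ y y' : F, y ∈ V → y' ∈ V → V.valuation ((y + y') ^ k - y ^ k - y' ^ k) < 1)
    {y₀ : F} {c : F'} (hy₀ : V.valuation y₀ = 1) (hc : V.valuation (y₀ ^ k - φ c) < 1)
    (h : CondW R m V y₀) : CondW R m O c := by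
  intro W' hW' hRW'
  set W := liftVal φ V O W' k hk hov hW' hres hadd with hWdef
  have hWV : W ≤ V := liftVal_le
  have hRW : ∀ r : R, algebraMap R F r ∈ W := by
    intro r
    rw [← hφR r]
    exact map_mem_liftVal (hRW' r)
  obtain ⟨h₀, v, hh₀, hv, hv', hcong⟩ := h W hWV hRW
  have hv00 : v ≠ 0 := ne_zero_of_cong hcong
  obtain ⟨a_v, hav, hav', hva⟩ := exists_unit_of_liftVal hv00 hv hv'
  obtain ⟨a_h, hha⟩ := hres h₀ hh₀
  have hv1 : V.valuation v = 1 := val_eq_one_of_unit_le hWV hv00 hv hv'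
  have hvk : V.valuation (v ^ k) = 1 := by rw [map_pow, hv1, one_pow]
  have hhk : V.valuation (h₀ ^ k) = 1 := by rw [map_pow, hh₀, one_pow]
  have hφav : V.valuation (φ a_v) = 1 := val_eq_one_of_sub_lt' hvk (val_sub_lt_symm hva)
  have hφah : V.valuation (φ a_h) = 1 := val_eq_one_of_sub_lt' hhk (val_sub_lt_symm hha)
  have hah1 : O.valuation a_h = 1 := val_eq_one_down hov hφah
  have hy₀k : V.valuation (y₀ ^ k) = 1 := by rw [map_pow, hy₀, one_pow]
  have hφc : V.valuation (φ c) = 1 := val_eq_one_of_sub_lt' hy₀k (val_sub_lt_symm hc)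
  refine ⟨a_h, a_v, hah1, hav, hav', ?_⟩
  apply val_sub_one_lt_down hov
  -- nonvanishing
  have ne_of_one : ∀ {z : F}, V.valuation z = 1 → z ≠ 0 := by
    intro z hz h0
    rw [h0, map_zero] at hz
    exact zero_ne_one hz
  have hv0 := ne_of_one hv1
  have hh0 := ne_of_one hh₀
  have hy0 := ne_of_one hy₀
  have hφav0 := ne_of_one hφav
  have hφah0 := ne_of_one hφah
  have hφc0 := ne_of_one hφc
  -- the congruences as quotients
  have q1 : V.valuation (φ c / y₀ ^ k - 1) < 1 :=
    div_sub_one_lt_of_sub hy₀k (val_sub_lt_symm hc)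
  have hvhm : V.valuation (v * h₀ ^ m) = 1 := by rw [map_mul, map_pow, hv1, hh₀, one_pow, one_mul]
  have q2 : V.valuation (y₀ / (v * h₀ ^ m) - 1) < 1 := hcong
  have q3 : V.valuation (v ^ k / φ a_v - 1) < 1 := div_sub_one_lt_of_sub hφav hva
  have q4 : V.valuation (h₀ ^ k / φ a_h - 1) < 1 := div_sub_one_lt_of_sub hφah hha
  -- product of principal units
  have pu_mul : ∀ {s t : F}, V.valuation (s - 1) < 1 → V.valuation (t - 1) < 1 →
      V.valuation (s * t - 1) < 1 := by
    intro s t hs ht
    have e : s * t - 1 = (s - 1) * t + (t - 1) := by ring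
    rw [e]
    have ht1 : V.valuation t = 1 := by
      have e2 : t = 1 + (t - 1) := by ring
      rw [e2]
      exact Valuation.map_one_add_of_lt _ ht
    refine Valuation.map_add_lt _ ?_ ht
    rw [map_mul, ht1, mul_one]
    exact hs
  have pu_pow : ∀ {s : F} (n : ℕ), V.valuation (s - 1) < 1 → V.valuation (s ^ n - 1) < 1 := by
    intro s n hs
    induction n with
    | zero => rw [pow_zero, sub_self, map_zero]; exact zero_lt_one
    | succ n ih => rw [pow_succ]; exact pu_mul ih hs
  have e : φ (c / (a_v * a_h ^ m)) =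
      (φ c / y₀ ^ k) * (y₀ / (v * h₀ ^ m)) ^ k * (v ^ k / φ a_v) * (h₀ ^ k / φ a_h) ^ m := by
    rw [map_div₀, map_mul, map_pow, div_pow, div_pow, mul_pow, ← pow_mul, ← pow_mul,
      mul_comm m k]
    field_simp
  rw [e]
  exact pu_mul (pu_mul (pu_mul q1 (pu_pow k q2)) q3) (pu_pow m q4)

/-- **Ascent of `CondW`** along `φ` (`V` over `O`). -/
theorem condW_up (m : ℕ) (φ : F' →+* F) (hφR : ∀ r : R, φ (algebraMap R F' r) = algebraMap R F r)
    (V : ValuationSubring F) (O : ValuationSubring F')
    (hov : ∀ a : F', φ a ∈ V ↔ a ∈ O) {b : F'} (h : CondW R m O b) : CondW R m V (φ b) := by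
  intro W hWV hRW
  have hW'O : W.comap φ ≤ O := by
    intro a ha
    exact (hov a).1 (hWV (ValuationSubring.mem_comap.1 ha))
  have hRW' : ∀ r : R, algebraMap R F' r ∈ W.comap φ := by
    intro r
    rw [ValuationSubring.mem_comap, hφR]
    exact hRW r
  obtain ⟨h₀, v, hh₀, hv, hv', hcong⟩ := h (W.comap φ) hW'O hRW'
  refine ⟨φ h₀, φ v, val_eq_one_up hov hh₀, ValuationSubring.mem_comap.1 hv, ?_, ?_⟩
  · have := ValuationSubring.mem_comap.1 hv'
    rwa [map_inv₀] at this
  · have := val_sub_one_lt_up hov hcong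
    rwa [map_div₀, map_mul, map_pow] at this

/-- `CondW` of an inverse. -/
theorem condW_inv (m : ℕ) {V : ValuationSubring F} {b : F} (hb : V.valuation b = 1)
    (h : CondW R m V b) : CondW R m V b⁻¹ := by
  intro W hWV hRW
  obtain ⟨h₀, v, hh₀, hv, hv', hcong⟩ := h W hWV hRW
  have hv1 : V.valuation v = 1 := val_eq_one_of_unit_le hWV (ne_zero_of_cong hcong) hv hv'
  refine ⟨h₀⁻¹, v⁻¹, by rw [map_inv₀, hh₀, inv_one], hv', by rwa [inv_inv], ?_⟩
  have hb0 : b ≠ 0 := by
    rintro rfl
    rw [map_zero] at hb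
    exact zero_ne_one hb
  have hv0 : v ≠ 0 := by
    rintro rfl
    rw [map_zero] at hv1
    exact zero_ne_one hv1
  have hh0 : h₀ ≠ 0 := by
    rintro rfl
    rw [map_zero] at hh₀
    exact zero_ne_one hh₀
  have hq : V.valuation (b / (v * h₀ ^ m)) = 1 := by
    rw [map_div₀, map_mul, map_pow, hb, hv1, hh₀, one_pow, one_mul, div_one]
  have e : b⁻¹ / (v⁻¹ * h₀⁻¹ ^ m) - 1 = -((b / (v * h₀ ^ m) - 1) * (b / (v * h₀ ^ m))⁻¹) := by
    rw [inv_pow]
    have : h₀ ^ m ≠ 0 := pow_ne_zero _ hh0
    field_simp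
    ring
  rw [e, Valuation.map_neg, map_mul, map_inv₀, hq, inv_one, mul_one]
  exact hcong

/-- `CondW` of a power. -/
theorem condW_pow (m : ℕ) {V : ValuationSubring F} {b : F} (hb : V.valuation b = 1)
    (h : CondW R m V b) (n : ℕ) : CondW R m V (b ^ n) := by
  intro W hWV hRW
  obtain ⟨h₀, v, hh₀, hv, hv', hcong⟩ := h W hWV hRW
  have hv1 : V.valuation v = 1 := val_eq_one_of_unit_le hWV (ne_zero_of_cong hcong) hv hv'
  refine ⟨h₀ ^ n, v ^ n, by rw [map_pow, hh₀, one_pow], pow_mem hv n, ?_, ?_⟩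
  · rw [← inv_pow]
    exact pow_mem hv' n
  · have e : b ^ n / (v ^ n * (h₀ ^ n) ^ m) = (b / (v * h₀ ^ m)) ^ n := by
      rw [div_pow, mul_pow, ← pow_mul, ← pow_mul, mul_comm n m]
    rw [e]
    exact pu1_pow hcong n

/-- `CondW` only depends on the residue. -/
theorem condW_congr (m : ℕ) {V : ValuationSubring F} {b b' : F} (hb : V.valuation b = 1)
    (hbb' : V.valuation (b' / b - 1) < 1) (h : CondW R m V b) : CondW R m V b' := by
  intro W hWV hRW
  obtain ⟨h₀, v, hh₀, hv, hv', hcong⟩ := h W hWV hRW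
  have hv1 : V.valuation v = 1 := val_eq_one_of_unit_le hWV (ne_zero_of_cong hcong) hv hv'
  refine ⟨h₀, v, hh₀, hv, hv', ?_⟩
  have hb0 : b ≠ 0 := by
    rintro rfl
    rw [map_zero] at hb
    exact zero_ne_one hb
  have hq : V.valuation (b / (v * h₀ ^ m)) = 1 := by
    rw [map_div₀, map_mul, map_pow, hb, hv1, hh₀, one_pow, one_mul, div_one]
  have e : b' / (v * h₀ ^ m) - 1 = (b' / b - 1) * (b / (v * h₀ ^ m)) + (b / (v * h₀ ^ m) - 1) := by
    field_simp
    ring
  rw [e]
  refine Valuation.map_add_lt _ ?_ hcong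
  rw [map_mul, hq, mul_one]
  exact hbb'

end Transfer

end Fermat.Agent.S59.LoSqC.H987

end
-- ===== PACK-END S59/LoSqC/H987/CondWCore.lean

-- ===== PACK-BEGIN S59/LoSqC/H216/DivTors.lean
section


/-!
# Row S59, cell (C) LO-SQ — divisibility of the `p`-power torsion from the counts (helper216)

Mathlib only.

* `exists_nsmul_eq_of_card_h216` : if `|A[p ^ j]| = p ^ (b j)` for all `j`, then every
  `y ∈ A[p ^ n]` is `p ^ k • z` with `z ∈ A[p ^ (n + k)]`.
* `dvd_of_pow_dvd_mul_h216` : `s = p ^ k s'`, `p ∤ s'`, `p ^ (n + k) ∣ s c` ⟹ `p ^ n ∣ c`.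
-/

set_option autoImplicit false
set_option linter.style.haveILetI false

namespace Fermat.Agent.S59.LoSqC.H216

section Div

variable {A : Type*} [AddCommGroup A]

/-- The `p ^ j`-torsion, as the kernel of multiplication by `p ^ j`. -/
def torsPow_h216 (A : Type*) [AddCommGroup A] (p j : ℕ) : AddSubgroup A :=
  (nsmulAddMonoidHom (p ^ j) : A →+ A).ker

theorem mem_torsPow_h216 {p j : ℕ} {x : A} : x ∈ torsPow_h216 A p j ↔ p ^ j • x = 0 := by
  unfold torsPow_h216
  rw [AddMonoidHom.mem_ker]
  rfl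

theorem card_torsPow_h216 (p j : ℕ) :
    Nat.card (torsPow_h216 A p j) = Nat.card {x : A // p ^ j • x = 0} :=
  Nat.card_congr (Equiv.subtypeEquivRight fun _ => mem_torsPow_h216)

/-- **Divisibility of the `p`-power torsion from the counts.** -/
theorem exists_nsmul_eq_of_card_h216 {p : ℕ} (hp : 0 < p) (b : ℕ)
    (hA : ∀ j, Nat.card {x : A // p ^ j • x = 0} = p ^ (b * j)) (n k : ℕ) (y : A)
    (hy : p ^ n • y = 0) : ∃ z : A, p ^ (n + k) • z = 0 ∧ p ^ k • z = y := by
  classical
  have hcard : ∀ j, Nat.card (torsPow_h216 A p j) = p ^ (b * j) := fun j => by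
    rw [card_torsPow_h216, hA]
  have hfin : ∀ j, Finite (torsPow_h216 A p j) := fun j =>
    Nat.finite_of_card_ne_zero (by rw [hcard]; exact (pow_pos hp _).ne')
  haveI := hfin n
  haveI := hfin k
  haveI := hfin (n + k)
  let ψ : torsPow_h216 A p (n + k) →+ A :=
    (nsmulAddMonoidHom (p ^ k) : A →+ A).comp (torsPow_h216 A p (n + k)).subtype
  have hψ : ∀ x : torsPow_h216 A p (n + k), ψ x = p ^ k • (x : A) := fun _ => rfl
  -- the range lies in the `p ^ n`-torsion
  have hrange : ψ.range ≤ torsPow_h216 A p n := by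
    rintro _ ⟨x, rfl⟩
    rw [mem_torsPow_h216, hψ, ← mul_nsmul', ← pow_add]
    exact mem_torsPow_h216.1 x.2
  -- the kernel is the `p ^ k`-torsion
  have hker : Nat.card ψ.ker = Nat.card (torsPow_h216 A p k) := by
    refine Nat.card_congr
      { toFun := fun x => ⟨((x : torsPow_h216 A p (n + k)) : A), by
          rw [mem_torsPow_h216, ← hψ]
          exact (AddMonoidHom.mem_ker).1 x.2⟩
        invFun := fun x => ⟨⟨(x : A), by
          rw [mem_torsPow_h216, add_comm n k, pow_add, mul_comm, mul_nsmul',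
            mem_torsPow_h216.1 x.2, smul_zero]⟩, by
          rw [AddMonoidHom.mem_ker, hψ]
          exact mem_torsPow_h216.1 x.2⟩
        left_inv := fun x => rfl
        right_inv := fun x => rfl }
  have h1 : Nat.card ψ.ker * Nat.card ψ.range = Nat.card (torsPow_h216 A p (n + k)) := by
    rw [← AddSubgroup.index_ker]
    exact AddSubgroup.card_mul_index ψ.ker
  rw [hker, hcard, hcard] at h1
  have h2 : Nat.card ψ.range = p ^ (b * n) := by
    have e : p ^ (b * (n + k)) = p ^ (b * k) * p ^ (b * n) := by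
      rw [← pow_add]
      congr 1
      ring
    rw [e] at h1
    exact Nat.eq_of_mul_eq_mul_left (pow_pos hp _) h1
  have h3 : ψ.range = torsPow_h216 A p n :=
    AddSubgroup.eq_of_le_of_card_ge hrange (by rw [h2, hcard])
  have hy' : y ∈ ψ.range := by
    rw [h3]
    exact mem_torsPow_h216.2 hy
  obtain ⟨x, rfl⟩ := hy'
  exact ⟨(x : A), mem_torsPow_h216.1 x.2, (hψ x).symm⟩

end Div

/-- `s = p ^ k s'` with `p ∤ s'` and `p ^ (n + k) ∣ s c` give `p ^ n ∣ c`. -/
theorem dvd_of_pow_dvd_mul_h216 {p : ℕ} (hp : p.Prime) {s' k n : ℕ} (hs' : ¬ p ∣ s') {c : ℤ}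
    (h : ((p ^ (n + k) : ℕ) : ℤ) ∣ ((p ^ k * s' : ℕ) : ℤ) * c) : ((p ^ n : ℕ) : ℤ) ∣ c := by
  have hpk : ((p ^ k : ℕ) : ℤ) ≠ 0 := by
    exact_mod_cast (pow_pos hp.pos k).ne'
  have h1 : ((p ^ k : ℕ) : ℤ) * ((p ^ n : ℕ) : ℤ) ∣ ((p ^ k : ℕ) : ℤ) * ((s' : ℤ) * c) := by
    have e1 : ((p ^ (n + k) : ℕ) : ℤ) = ((p ^ k : ℕ) : ℤ) * ((p ^ n : ℕ) : ℤ) := by
      push_cast
      ring
    have e2 : ((p ^ k * s' : ℕ) : ℤ) * c = ((p ^ k : ℕ) : ℤ) * ((s' : ℤ) * c) := by
      push_cast
      ring
    rw [← e1, ← e2]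
    exact h
  have h2 : ((p ^ n : ℕ) : ℤ) ∣ (s' : ℤ) * c := (mul_dvd_mul_iff_left hpk).1 h1
  have hcop : IsCoprime ((p ^ n : ℕ) : ℤ) (s' : ℤ) := by
    rw [Int.isCoprime_iff_gcd_eq_one, Int.gcd_natCast_natCast]
    exact Nat.Coprime.pow_left n ((Nat.Prime.coprime_iff_not_dvd hp).2 hs')
  exact hcop.dvd_of_dvd_mul_left h2

end Fermat.Agent.S59.LoSqC.H216

end
-- ===== PACK-END S59/LoSqC/H216/DivTors.lean

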