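import Mathlib
import Fermat.Prelude.Def_Algebra_PatchingDatum
import Mathlib.RingTheory.Regular.RegularSequence
import Mathlib.RingTheory.Flat.Basic
import Fermat.Prelude.Def_GaloisRep_Adic
import Fermat.Prelude.Def_ModularCurve_LaurentCoeff
import Fermat.Agent.Pack.S43C.E4L0
import Fermat.Agent.Pack.S43MC.G0E29L0

set_option linter.all false

-- ===== PACK-BEGIN S59/H585/Unimod.lean
section
/-
S59 / non-minimal engine — pure algebra (helper585): a unimodularity criterion.

`bijective_of_radical_mod_primes`: a bilinear form `B` on a finite free `ℤ`-module `L` such that,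
for every prime `p`, every `x` with `p ∣ B y x` for all `y` lies in `p L`, is PERFECT on the left:
`x ↦ B x` is a bijection `L → Dual ℤ L`.
-/


set_option autoImplicit false

namespace Fermat.Agent.S59.H585

open Module

section Unimod

variable {L : Type*} [AddCommGroup L] [Module.Finite ℤ L] [Module.Free ℤ L]

/-- An integer which is not a unit is divisible by a prime. -/
theorem exists_prime_dvd_of_not_isUnit {d : ℤ} (hd : ¬ IsUnit d) : ∃ p : ℕ, p.Prime ∧ (p : ℤ) ∣ d := by
  have h1 : d.natAbs ≠ 1 := fun h => hd (Int.isUnit_iff_natAbs_eq.mpr h)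
  obtain ⟨p, hp, hpd⟩ := Nat.exists_prime_and_dvd h1
  exact ⟨p, hp, Int.natCast_dvd.mpr hpd⟩

omit [Module.Finite ℤ L] [Module.Free ℤ L] in
/-- The Gram matrix of `B` in the basis `b` has unit determinant if the radical of `B` modulo every
prime `p` is `p L`. -/
theorem isUnit_det_gram {ι : Type*} [Fintype ι] [DecidableEq ι] (b : Basis ι ℤ L)
    (B : L →ₗ[ℤ] L →ₗ[ℤ] ℤ)
    (h : ∀ p : ℕ, p.Prime → ∀ x : L, (∀ y : L, (p : ℤ) ∣ B y x) → ∃ x' : L, x = (p : ℤ) • x') :
    IsUnit (Matrix.of fun i j => B (b i) (b j)).det := by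
  classical
  set G : Matrix ι ι ℤ := Matrix.of fun i j => B (b i) (b j) with hG
  by_contra hdet
  obtain ⟨p, hp, hpd⟩ := exists_prime_dvd_of_not_isUnit hdet
  have : Fact p.Prime := ⟨hp⟩
  -- the reduction of `G` is singular
  have hdet0 : (G.map (Int.castRingHom (ZMod p))).det = 0 := by
    rw [← RingHom.mapMatrix_apply, ← RingHom.map_det]
    exact (ZMod.intCast_zmod_eq_zero_iff_dvd _ _).mpr hpd
  obtain ⟨vbar, hv0, hv⟩ := Matrix.exists_mulVec_eq_zero_iff.mpr hdet0
  -- lift the kernel vector
  let v : ι → ℤ := fun i => ((vbar i).val : ℤ)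
  have hvv : ∀ i, ((v i : ℤ) : ZMod p) = vbar i := fun i => by
    show (((vbar i).val : ℤ) : ZMod p) = vbar i
    rw [Int.cast_natCast, ZMod.natCast_zmod_val]
  obtain ⟨x, hxdef⟩ : ∃ x : L, x = ∑ j, v j • b j := ⟨_, rfl⟩
  have hBx : ∀ i, B (b i) x = ∑ j, G i j * v j := by
    intro i
    rw [hxdef, map_sum]
    refine Finset.sum_congr rfl fun j _ => ?_
    rw [map_smul, smul_eq_mul, mul_comm]
    rfl
  have hdiv : ∀ i, (p : ℤ) ∣ B (b i) x := by
    intro i
    rw [← ZMod.intCast_zmod_eq_zero_iff_dvd, hBx]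
    have e : ((∑ j, G i j * v j : ℤ) : ZMod p) =
        ((G.map (Int.castRingHom (ZMod p))).mulVec vbar) i := by
      rw [Int.cast_sum, Matrix.mulVec, dotProduct]
      refine Finset.sum_congr rfl fun j _ => ?_
      rw [Int.cast_mul, hvv]
      rfl
    rw [e, hv]
    rfl
  have hdiv' : ∀ y : L, (p : ℤ) ∣ B y x := by
    intro y
    rw [← b.sum_repr y, map_sum, LinearMap.sum_apply]
    refine Finset.dvd_sum fun i _ => ?_
    rw [map_smul, LinearMap.smul_apply, smul_eq_mul]
    exact Dvd.dvd.mul_left (hdiv i) _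
  obtain ⟨x', hx'⟩ := h p hp x hdiv'
  -- coordinates of `x` are divisible by `p`
  have hrepr : ∀ i, b.repr x i = v i := by
    intro i
    rw [hxdef, map_sum, Finsupp.finsetSum_apply]
    rw [Finset.sum_eq_single i]
    · rw [map_smul, Finsupp.smul_apply, Basis.repr_self, Finsupp.single_eq_same, smul_eq_mul,
        mul_one]
    · intro j _ hj
      rw [map_smul, Finsupp.smul_apply, Basis.repr_self, Finsupp.single_eq_of_ne hj.symm,
        smul_zero]
    · intro hi
      exact absurd (Finset.mem_univ i) hi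
  apply hv0
  funext i
  have h1 : v i = (p : ℤ) * b.repr x' i := by
    rw [← hrepr i, hx', map_smul, Finsupp.smul_apply, smul_eq_mul]
  rw [Pi.zero_apply, ← hvv i, h1, Int.cast_mul, Int.cast_natCast, ZMod.natCast_self, zero_mul]

/-- **Unimodularity criterion.**  If the radical of `B` modulo every prime `p` is `p L`, then
`x ↦ B x` is a bijection `L → Dual ℤ L`. -/
theorem bijective_of_radical_mod_primes (B : L →ₗ[ℤ] L →ₗ[ℤ] ℤ)
    (h : ∀ p : ℕ, p.Prime → ∀ x : L, (∀ y : L, (p : ℤ) ∣ B y x) → ∃ x' : L, x = (p : ℤ) • x') :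
    Function.Bijective B := by
  classical
  let ι := Module.Free.ChooseBasisIndex ℤ L
  let b : Basis ι ℤ L := Module.Free.chooseBasis ℤ L
  set G : Matrix ι ι ℤ := Matrix.of fun i j => B (b i) (b j) with hG
  have hunit : IsUnit G.det := isUnit_det_gram b B h
  have hGu : IsUnit G := (Matrix.isUnit_iff_isUnit_det G).mpr hunit
  have hBv : ∀ (x : L) (j : ι), B x (b j) = (Matrix.vecMul (fun i => b.repr x i) G) j := by
    intro x j
    rw [Matrix.vecMul, dotProduct]
    conv_lhs => rw [← b.sum_repr x]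
    rw [map_sum, LinearMap.sum_apply]
    refine Finset.sum_congr rfl fun i _ => ?_
    rw [map_smul, LinearMap.smul_apply, smul_eq_mul]
    rfl
  constructor
  · -- injective
    rw [← LinearMap.ker_eq_bot, LinearMap.ker_eq_bot']
    intro x hx
    have h0 : Matrix.vecMul (fun i => b.repr x i) G = 0 := by
      funext j
      rw [← hBv x j, hx]
      rfl
    have h1 : (fun i => b.repr x i) = 0 := by
      have hinj := Matrix.vecMul_injective_of_isUnit hGu
      exact hinj (h0.trans (Matrix.zero_vecMul G).symm)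
    apply b.repr.injective
    rw [map_zero]
    ext i
    exact congrFun h1 i
  · -- surjective
    intro f
    obtain ⟨w, hw⟩ := (Matrix.vecMul_surjective_iff_isUnit.mpr hGu) (fun j => f (b j))
    refine ⟨∑ i, w i • b i, ?_⟩
    apply b.ext
    intro j
    rw [hBv]
    have hrepr : (fun i => b.repr (∑ i, w i • b i) i) = w := by
      funext i
      rw [map_sum, Finsupp.finsetSum_apply, Finset.sum_eq_single i]
      · rw [map_smul, Finsupp.smul_apply, Basis.repr_self, Finsupp.single_eq_same, smul_eq_mul,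
          mul_one]
      · intro k _ hk
        rw [map_smul, Finsupp.smul_apply, Basis.repr_self, Finsupp.single_eq_of_ne hk.symm,
          smul_zero]
      · intro hi
        exact absurd (Finset.mem_univ i) hi
    have hw' : Matrix.vecMul w G = fun j => f (b j) := hw
    rw [hrepr, hw']

end Unimod

end Fermat.Agent.S59.H585

end
-- ===== PACK-END S59/H585/Unimod.lean

-- ===== PACK-BEGIN S48/H368/Emb.lean
section


/-!
# Row S48 (Deligne–Serre), piece EMB (helper368)

`nonempty_algHom_complex`: if `O` is a countable domain with a fixed embedding into `ℂ`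
(`[Algebra O ℂ]`, injective) and `E` is a field containing `O`, of cardinality at most the
continuum, then there is an `O`-algebra embedding `E →ₐ[O] ℂ`.

Used to transport a lifted `ℓ`-adic representation (`E = ℚ_[ℓ]`) to `ℂ` compatibly with the
coefficient ring `O` (e.g. the ring of integers of the coefficient number field).
-/

set_option autoImplicit false

open Cardinal

namespace Fermat.Agent.S48.H368

/-- A field `E ⊇ O` with a transcendence basis over `O` that injects into an algebraically
independent family of an algebraically closed field `Ω ⊇ O` embeds into `Ω` over `O`. -/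
theorem nonempty_algHom_of_algebraicIndependent {O E Ω : Type*} [CommRing O] [IsDomain O]
    [Field E] [Field Ω] [Algebra O E] [Algebra O Ω] [IsAlgClosed Ω] {ι κ : Type*} (v : ι → E)
    (hv : IsTranscendenceBasis O v) (w : κ → Ω) (hw : AlgebraicIndependent O w)
    (e : ι → κ) (he : Function.Injective e) : Nonempty (E →ₐ[O] Ω) := by
  classical
  let A := Algebra.adjoin O (Set.range v)
  have hwe : AlgebraicIndependent O (w ∘ e) := hw.comp e he
  let φ : A →ₐ[O] Ω :=
    (MvPolynomial.aeval (w ∘ e)).comp (hv.1.aevalEquiv.symm : A →ₐ[O] MvPolynomial ι O)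
  have hφ : Function.Injective φ := by
    have h1 : Function.Injective (MvPolynomial.aeval (R := O) (w ∘ e)) := hwe
    exact h1.comp hv.1.aevalEquiv.symm.injective
  let _ : Algebra A Ω := φ.toRingHom.toAlgebra
  have : IsScalarTower O A Ω := IsScalarTower.of_algebraMap_eq fun x => (φ.commutes x).symm
  have : Algebra.IsAlgebraic A E := hv.isAlgebraic
  have : Module.IsTorsionFree A Ω := Module.isTorsionFree_iff_algebraMap_injective.mpr hφ
  exact ⟨(IsAlgClosed.lift (R := A) (S := E) (M := Ω)).restrictScalars O⟩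

/-- **EMB.**  A field `E` containing a countable domain `O ⊆ ℂ`, of cardinality at most the
continuum, embeds into `ℂ` over `O`. -/
theorem nonempty_algHom_complex {O E : Type} [CommRing O] [IsDomain O] [Field E] [Algebra O E]
    [Algebra O ℂ] [FaithfulSMul O E] [FaithfulSMul O ℂ] [Countable O] (hE : #E ≤ 𝔠) :
    Nonempty (E →ₐ[O] ℂ) := by
  classical
  obtain ⟨s, hs⟩ := exists_isTranscendenceBasis O E
  obtain ⟨t, ht⟩ := exists_isTranscendenceBasis O ℂ
  have hct : #ℂ = #t :=
    IsAlgClosed.cardinal_eq_cardinal_transcendence_basis_of_aleph0_lt' (R := O) (K' := ℂ)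
      ((↑) : t → ℂ) ht (Cardinal.mk_le_aleph0)
      (by rw [Cardinal.mk_complex]; exact aleph0_lt_continuum)
  have hst : #s ≤ #t := by
    rw [← hct, Cardinal.mk_complex]
    exact (Cardinal.mk_set_le s).trans hE
  obtain ⟨e⟩ := (Cardinal.le_def _ _).1 hst
  exact nonempty_algHom_of_algebraicIndependent ((↑) : s → E) hs ((↑) : t → ℂ) ht.1 e e.injective

/-- The field `ℚ_[p]` has cardinality at most the continuum. -/
theorem mk_padic_le (p : ℕ) [Fact p.Prime] : #ℚ_[p] ≤ 𝔠 := by
  have h1 : #ℚ_[p] ≤ #(CauSeq ℚ (padicNorm p)) := Cardinal.mk_quotient_le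
  have h2 : #(CauSeq ℚ (padicNorm p)) ≤ #(ℕ → ℚ) := Cardinal.mk_subtype_le _
  have h3 : #(ℕ → ℚ) = 𝔠 := by
    rw [← Cardinal.power_def, Cardinal.mkRat, Cardinal.mk_nat, Cardinal.aleph0_power_aleph0]
  exact h1.trans (h2.trans h3.le)

/-- **EMB for `ℚ_[p]`.**  For a countable domain `O` with injective ring homomorphisms
`j : O → ℂ` and `ι : O → ℚ_[p]` there is a field embedding `σ : ℚ_[p] → ℂ` with
`σ ∘ ι = j`. -/
theorem exists_padic_embedding (p : ℕ) [Fact p.Prime] {O : Type} [CommRing O] [IsDomain O]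
    [Countable O] (j : O →+* ℂ) (hj : Function.Injective j) (ι : O →+* ℚ_[p])
    (hι : Function.Injective ι) :
    ∃ σ : ℚ_[p] →+* ℂ, ∀ x : O, σ (ι x) = j x := by
  let _ : Algebra O ℂ := j.toAlgebra
  let _ : Algebra O ℚ_[p] := ι.toAlgebra
  have : FaithfulSMul O ℂ := (faithfulSMul_iff_algebraMap_injective O ℂ).mpr hj
  have : FaithfulSMul O ℚ_[p] := (faithfulSMul_iff_algebraMap_injective O ℚ_[p]).mpr hι
  obtain ⟨σ⟩ := nonempty_algHom_complex (O := O) (E := ℚ_[p]) (mk_padic_le p)
  exact ⟨σ.toRingHom, fun x => σ.commutes x⟩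

end Fermat.Agent.S48.H368

end
-- ===== PACK-END S48/H368/Emb.lean

-- ===== PACK-BEGIN S59/H396/NewtonCount.lean
section


/-!
# CR-O, part B1 (helper396): counting the non-integral roots of a polynomial (Newton polygon)

`V` a valuation subring of a field `K`, `F ∈ V[X]` such that `F` has `natDegree F` roots in `K`
(e.g. `K` algebraically closed) and the reduction `F̄` of `F` modulo the maximal ideal is nonzero.
Then

  `#{roots of F in K not in V} + natDegree F̄ = natDegree F`     (`newton_count`)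

(roots counted with multiplicity), and the integral roots reduce to roots of `F̄`
(`residue_isRoot_of_isRoot`).
-/

set_option autoImplicit false

namespace Fermat.Agent.S59.H396

open Polynomial

variable {K : Type*} [Field K] (V : ValuationSubring K)

lemma reflect_reflect' {R : Type*} [Semiring R] (N : ℕ) (f : R[X]) :
    reflect N (reflect N f) = f := by
  ext i
  rw [coeff_reflect, coeff_reflect, revAt_invol]

lemma reflect_one_X_sub_C {R : Type*} [Ring R] (t : R) :
    reflect 1 (X - C t : R[X]) = 1 - C t * X := by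
  rw [reflect_sub]
  have h1 : reflect 1 (X : R[X]) = 1 := by
    have := reflect_monomial (R := R) 1 1
    rw [pow_one] at this
    rw [this]
    simp [revAt_le]
  have h2 : reflect 1 (C t : R[X]) = C t * X := by
    rw [reflect_C, pow_one]
  rw [h1, h2]

/-- integral roots reduce to roots of the reduction -/
theorem residue_isRoot_of_isRoot (F : V[X]) (r : V)
    (hr : (F.map (algebraMap V K)).IsRoot (r : K)) :
    (F.map (IsLocalRing.residue V)).IsRoot (IsLocalRing.residue V r) := by
  have h0 : F.eval r = 0 := by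
    have h1 : (algebraMap V K) (F.eval r) = 0 := by
      rw [← Polynomial.eval₂_at_apply, Polynomial.eval₂_eq_eval_map]
      exact hr
    exact (map_eq_zero_iff _ (IsFractionRing.injective V K)).mp h1
  rw [Polynomial.IsRoot.def, Polynomial.eval_map, Polynomial.eval₂_at_apply, h0, map_zero]

/-- division by `1 - t X` for a non-integral root `r = t⁻¹` -/
theorem exists_eq_one_sub_mul (F : V[X]) (hF : F ≠ 0) (r : K) (hrV : r ∉ V)
    (hr : (F.map (algebraMap V K)).IsRoot r) :
    ∃ (t : V) (G : V[X]), (t : K) = r⁻¹ ∧ t ∈ IsLocalRing.maximalIdeal V ∧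
      F = (1 - C t * X) * G := by
  have hr0 : r ≠ 0 := fun h => hrV (h ▸ V.zero_mem)
  have hinv : r⁻¹ ∈ V := (V.mem_or_inv_mem r).resolve_left hrV
  set t : V := ⟨r⁻¹, hinv⟩ with ht
  have htm : t ∈ IsLocalRing.maximalIdeal V := by
    rw [IsLocalRing.mem_maximalIdeal, mem_nonunits_iff]
    intro hu
    have : ((t : K))⁻¹ ∈ V := by
      obtain ⟨u, hu⟩ := hu
      have h1 : ((u⁻¹ : Vˣ) : V) * t = 1 := by rw [← hu]; exact Units.inv_mul u
      have h2 : (((u⁻¹ : Vˣ) : V) : K) * (t : K) = 1 := by exact_mod_cast congrArg Subtype.val h1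
      have h3 : (t : K)⁻¹ = (((u⁻¹ : Vˣ) : V) : K) := by
        rw [eq_comm, ← mul_eq_one_iff_eq_inv₀]
        · exact h2
        · intro h0; rw [h0, mul_zero] at h2; exact zero_ne_one h2
      rw [h3]; exact Subtype.property _
    apply hrV
    simpa [ht] using this
  set N := F.natDegree with hN
  -- `t` is a root of the reflected polynomial
  have hroot : (reflect N F).IsRoot t := by
    have hinj := IsFractionRing.injective V K
    rw [Polynomial.IsRoot.def]
    apply hinj
    rw [map_zero, ← Polynomial.eval₂_at_apply]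
    let _ : Invertible r := invertibleOfNonzero hr0
    have e : ((t : V) : K) = ⅟r := by rw [invOf_eq_inv]
    change Polynomial.eval₂ (algebraMap V K) ((t : V) : K) (reflect N F) = 0
    rw [e, eval₂_reflect_eq_zero_iff (algebraMap V K) r N F le_rfl, Polynomial.eval₂_eq_eval_map]
    exact hr
  obtain ⟨H, hH⟩ := (Polynomial.dvd_iff_isRoot).mpr hroot
  have hRne : reflect N F ≠ 0 := by rwa [Ne, reflect_eq_zero_iff]
  have hH0 : H ≠ 0 := by
    intro h; rw [h, mul_zero] at hH; exact hRne hH
  have hN1 : 1 ≤ N := by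
    by_contra hlt
    have hN0 : F.natDegree = 0 := by omega
    obtain ⟨c, hc⟩ := Polynomial.natDegree_eq_zero.mp hN0
    rw [← hc, Polynomial.map_C, Polynomial.IsRoot.def, Polynomial.eval_C] at hr
    have : c = 0 := (map_eq_zero_iff _ (IsFractionRing.injective V K)).mp hr
    rw [this, map_zero] at hc
    exact hF hc.symm
  have hdegH : H.natDegree ≤ N - 1 := by
    have h1 : (reflect N F).natDegree ≤ N := by
      refine natDegree_reflect_le.trans ?_
      simp [hN]
    have h2 : ((X - C t) * H).natDegree = 1 + H.natDegree := by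
      rw [Polynomial.natDegree_mul (Polynomial.X_sub_C_ne_zero t) hH0, Polynomial.natDegree_X_sub_C]
    rw [hH, h2] at h1
    omega
  refine ⟨t, reflect (N - 1) H, rfl, htm, ?_⟩
  have h3 : F = reflect N (reflect N F) := (reflect_reflect' N F).symm
  rw [hH] at h3
  have h4 : N = 1 + (N - 1) := by omega
  rw [h4, reflect_mul (X - C t) H (by rw [Polynomial.natDegree_X_sub_C]) hdegH,
    reflect_one_X_sub_C] at h3
  exact h3

/-- **Newton count.** -/
theorem newton_count [DecidablePred fun r : K => r ∉ V] (F : V[X])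
    (hcard : (F.map (algebraMap V K)).roots.card = F.natDegree)
    (hF : F.map (IsLocalRing.residue V) ≠ 0) :
    ((F.map (algebraMap V K)).roots.filter (fun r => r ∉ V)).card
      + (F.map (IsLocalRing.residue V)).natDegree = F.natDegree := by
  induction hn : F.natDegree using Nat.strong_induction_on generalizing F with
  | _ n ih =>
    have hinj := IsFractionRing.injective V K
    have hF0 : F ≠ 0 := by
      intro h; rw [h, Polynomial.map_zero] at hF; exact hF rfl
    have hf0 : F.map (algebraMap V K) ≠ 0 := by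
      rwa [Ne, Polynomial.map_eq_zero_iff hinj]
    rcases Nat.eq_zero_or_pos n with hn0 | hnpos
    · -- constant polynomial
      subst hn0
      obtain ⟨c, hc⟩ := Polynomial.natDegree_eq_zero.mp hn
      rw [← hc, Polynomial.map_C, Polynomial.map_C, Polynomial.roots_C, Polynomial.natDegree_C]
      simp
    · -- pick a root
      have hcpos : 0 < (F.map (algebraMap V K)).roots.card := by rw [hcard, hn]; exact hnpos
      obtain ⟨r, hr⟩ := Multiset.card_pos_iff_exists_mem.mp hcpos
      have hroot : (F.map (algebraMap V K)).IsRoot r := (Polynomial.mem_roots hf0).mp hr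
      by_cases hrV : r ∈ V
      · -- integral root: divide by `X - r`
        have h0 : F.eval ⟨r, hrV⟩ = 0 := by
          have h1 : (algebraMap V K) (F.eval ⟨r, hrV⟩) = 0 := by
            rw [← Polynomial.eval₂_at_apply, Polynomial.eval₂_eq_eval_map]
            exact hroot
          exact (map_eq_zero_iff _ hinj).mp h1
        obtain ⟨G, hG⟩ := (Polynomial.dvd_iff_isRoot).mpr h0
        have hG0 : G ≠ 0 := by
          intro h; rw [h, mul_zero] at hG; exact hF0 hG
        have hdeg : F.natDegree = 1 + G.natDegree := by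
          rw [hG, Polynomial.natDegree_mul (Polynomial.X_sub_C_ne_zero _) hG0,
            Polynomial.natDegree_X_sub_C]
        have hmapK : F.map (algebraMap V K) = (X - C r) * G.map (algebraMap V K) := by
          rw [hG, Polynomial.map_mul, Polynomial.map_sub, Polynomial.map_X, Polynomial.map_C]
          rfl
        have hmapk : F.map (IsLocalRing.residue V)
            = (X - C (IsLocalRing.residue V ⟨r, hrV⟩)) * G.map (IsLocalRing.residue V) := by
          rw [hG, Polynomial.map_mul, Polynomial.map_sub, Polynomial.map_X, Polynomial.map_C]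
        have hGk : G.map (IsLocalRing.residue V) ≠ 0 := by
          intro h; rw [hmapk, h, mul_zero] at hF; exact hF rfl
        have hroots : (F.map (algebraMap V K)).roots = {r} + (G.map (algebraMap V K)).roots := by
          rw [hmapK, Polynomial.roots_mul (by rw [← hmapK]; exact hf0), Polynomial.roots_X_sub_C]
        have hGcard : (G.map (algebraMap V K)).roots.card = G.natDegree := by
          have := hcard
          rw [hroots, Multiset.card_add, Multiset.card_singleton, hdeg] at this
          omega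
        have IH := ih G.natDegree (by omega) G hGcard hGk rfl
        rw [hroots, Multiset.filter_add, Multiset.card_add, hmapk,
          Polynomial.natDegree_mul (Polynomial.X_sub_C_ne_zero _) hGk,
          Polynomial.natDegree_X_sub_C]
        have hfil : Multiset.filter (fun r => r ∉ V) ({r} : Multiset K) = 0 := by
          rw [Multiset.filter_singleton, if_neg (not_not.mpr hrV)]
          rfl
        rw [hfil, Multiset.card_zero]
        omega
      · -- non-integral root: divide by `1 - r⁻¹ X`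
        obtain ⟨t, G, htr, htm, hG⟩ := exists_eq_one_sub_mul V F hF0 r hrV hroot
        have hr0 : r ≠ 0 := fun h => hrV (h ▸ V.zero_mem)
        have ht0 : t ≠ 0 := by
          intro h
          rw [h] at htr
          have : (r⁻¹ : K) = 0 := by rw [← htr]; rfl
          exact hr0 (inv_eq_zero.mp this)
        have hG0 : G ≠ 0 := by
          intro h; rw [h, mul_zero] at hG; exact hF0 hG
        have hlin : (1 - C t * X : V[X]) = C (-t) * X + C 1 := by
          rw [map_neg, map_one]; ring
        have hlin0 : (1 - C t * X : V[X]) ≠ 0 := by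
          intro h
          have := congrArg (fun q => Polynomial.coeff q 0) h
          simp at this
        have hlindeg : (1 - C t * X : V[X]).natDegree = 1 := by
          rw [hlin]
          exact Polynomial.natDegree_linear (neg_ne_zero.mpr ht0)
        have hdeg : F.natDegree = 1 + G.natDegree := by
          rw [hG, Polynomial.natDegree_mul hlin0 hG0, hlindeg]
        have hmapK : F.map (algebraMap V K)
            = (C (-r⁻¹) * (X - C r)) * G.map (algebraMap V K) := by
          rw [hG, Polynomial.map_mul, Polynomial.map_sub, Polynomial.map_one, Polynomial.map_mul,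
            Polynomial.map_X, Polynomial.map_C]
          have : (algebraMap V K) t = r⁻¹ := htr
          rw [this]
          congr 1
          rw [mul_sub, ← C_mul, neg_mul, inv_mul_cancel₀ hr0, map_neg, map_neg, map_one]
          ring
        have hmapk : F.map (IsLocalRing.residue V) = G.map (IsLocalRing.residue V) := by
          rw [hG, Polynomial.map_mul, Polynomial.map_sub, Polynomial.map_one, Polynomial.map_mul,
            Polynomial.map_X, Polynomial.map_C,
            (IsLocalRing.residue_eq_zero_iff t).mpr htm, map_zero, zero_mul, sub_zero, one_mul]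
        have hGk : G.map (IsLocalRing.residue V) ≠ 0 := by rwa [← hmapk]
        have hroots : (F.map (algebraMap V K)).roots = {r} + (G.map (algebraMap V K)).roots := by
          rw [hmapK, Polynomial.roots_mul (by rw [← hmapK]; exact hf0),
            Polynomial.roots_C_mul _ (neg_ne_zero.mpr (inv_ne_zero hr0)),
            Polynomial.roots_X_sub_C]
        have hGcard : (G.map (algebraMap V K)).roots.card = G.natDegree := by
          have := hcard
          rw [hroots, Multiset.card_add, Multiset.card_singleton, hdeg] at this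
          omega
        have IH := ih G.natDegree (by omega) G hGcard hGk rfl
        rw [hroots, Multiset.filter_add, Multiset.card_add, hmapk]
        have hfil : Multiset.filter (fun r => r ∉ V) ({r} : Multiset K) = {r} := by
          rw [Multiset.filter_singleton, if_pos hrV]
        rw [hfil, Multiset.card_singleton]
        omega

end Fermat.Agent.S59.H396

end
-- ===== PACK-END S59/H396/NewtonCount.lean

-- ===== PACK-BEGIN S59/H360/TateModule.lean
section


/-!
# S59, E-side (helper360): the abstract Tate module `T_p E = lim E[p^n]`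

`E` is any additive commutative group.  `tateSub p E` is the group of compatible sequences
`f : ℕ → E`, `p ^ n • f n = 0`, `p • f (n + 1) = f n`, with its natural `ℤ_[p]`-module structure
(`(z • f) n = z.appr n • f n`).  Everything here is Mathlib-only.
-/

set_option autoImplicit false
set_option linter.unusedSectionVars false

namespace Fermat.Agent.S59.H360

open PadicInt

section Basic

variable (p : ℕ) [hp : Fact p.Prime] (E : Type*) [AddCommGroup E]

/-- The Tate module `T_p E = lim E[p^n]` as the group of compatible sequences. -/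
def tateSub : AddSubgroup (ℕ → E) where
  carrier := {f | ∀ n, p ^ n • f n = 0 ∧ p • f (n + 1) = f n}
  zero_mem' := fun n => by simp
  add_mem' := fun {f g} hf hg n => by
    constructor
    · simp only [Pi.add_apply, smul_add, (hf n).1, (hg n).1, add_zero]
    · simp only [Pi.add_apply, smul_add, (hf n).2, (hg n).2]
  neg_mem' := fun {f} hf n => by
    constructor
    · simp only [Pi.neg_apply, smul_neg, (hf n).1, neg_zero]
    · simp only [Pi.neg_apply, smul_neg, (hf n).2]

variable {p E}

lemma mem_tateSub {f : ℕ → E} :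
    f ∈ tateSub p E ↔ ∀ n, p ^ n • f n = 0 ∧ p • f (n + 1) = f n := Iff.rfl

lemma tateSub_pow_smul (f : tateSub p E) (n : ℕ) : p ^ n • f.1 n = 0 := (f.2 n).1

lemma tateSub_p_smul (f : tateSub p E) (n : ℕ) : p • f.1 (n + 1) = f.1 n := (f.2 n).2

lemma tateSub_pow_smul_add (f : tateSub p E) (n k : ℕ) : p ^ k • f.1 (n + k) = f.1 n := by
  induction k with
  | zero => simp
  | succ k ih =>
    rw [pow_succ, mul_smul, ← add_assoc, tateSub_p_smul, ih]

lemma tateSub_zero_apply (f : tateSub p E) : f.1 0 = 0 := by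
  simpa using tateSub_pow_smul f 0

@[simp] lemma tateSub_coe_add (f g : tateSub p E) (n : ℕ) : (f + g).1 n = f.1 n + g.1 n := rfl

@[simp] lemma tateSub_coe_zero (n : ℕ) : (0 : tateSub p E).1 n = 0 := rfl

@[simp] lemma tateSub_coe_neg (f : tateSub p E) (n : ℕ) : (-f).1 n = -f.1 n := rfl

@[simp] lemma tateSub_coe_sub (f g : tateSub p E) (n : ℕ) : (f - g).1 n = f.1 n - g.1 n := rfl

lemma tateSub_ext {f g : tateSub p E} (h : ∀ n, f.1 n = g.1 n) : f = g :=
  Subtype.ext (funext h)

/-- `a • x` only depends on `a` modulo `m` when `m • x = 0`. -/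
lemma nsmul_eq_of_modEq {x : E} {m a b : ℕ} (hx : m • x = 0) (h : a ≡ b [MOD m]) :
    a • x = b • x := by
  have key : ∀ c : ℕ, c • x = (c % m) • x := fun c => by
    conv_lhs => rw [← Nat.div_add_mod c m, add_smul, mul_comm, mul_smul, hx, smul_zero, zero_add]
  rw [key a, key b, h]

lemma tateSub_nsmul_congr (f : tateSub p E) (n : ℕ) {a b : ℕ} (h : a ≡ b [MOD p ^ n]) :
    a • f.1 n = b • f.1 n :=
  nsmul_eq_of_modEq (tateSub_pow_smul f n) h

/-! ### congruences for `PadicInt.appr` -/

lemma appr_cast (z : ℤ_[p]) (n : ℕ) : ((z.appr n : ℕ) : ZMod (p ^ n)) = toZModPow n z := rfl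

lemma appr_succ_modEq (z : ℤ_[p]) (n : ℕ) : z.appr (n + 1) ≡ z.appr n [MOD p ^ n] :=
  ((Nat.modEq_iff_dvd' (appr_mono z (Nat.le_succ n))).mpr
    (dvd_appr_sub_appr z n (n + 1) (Nat.le_succ n))).symm

lemma appr_add_modEq (z w : ℤ_[p]) (n : ℕ) :
    (z + w).appr n ≡ z.appr n + w.appr n [MOD p ^ n] := by
  rw [← ZMod.natCast_eq_natCast_iff]
  push_cast
  rw [appr_cast, appr_cast, appr_cast, map_add]

lemma appr_mul_modEq (z w : ℤ_[p]) (n : ℕ) :
    (z * w).appr n ≡ z.appr n * w.appr n [MOD p ^ n] := by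
  rw [← ZMod.natCast_eq_natCast_iff]
  push_cast
  rw [appr_cast, appr_cast, appr_cast, map_mul]

lemma appr_one_modEq (n : ℕ) : (1 : ℤ_[p]).appr n ≡ 1 [MOD p ^ n] := by
  rw [← ZMod.natCast_eq_natCast_iff]
  push_cast
  rw [appr_cast, map_one]

lemma appr_zero_modEq (n : ℕ) : (0 : ℤ_[p]).appr n ≡ 0 [MOD p ^ n] := by
  rw [← ZMod.natCast_eq_natCast_iff]
  push_cast
  rw [appr_cast, map_zero]

lemma appr_natCast_modEq (a n : ℕ) : (a : ℤ_[p]).appr n ≡ a [MOD p ^ n] := by
  rw [← ZMod.natCast_eq_natCast_iff]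
  rw [appr_cast, map_natCast]

/-! ### the `ℤ_[p]`-module structure -/

noncomputable instance instSMulTate : SMul ℤ_[p] (tateSub p E) where
  smul z f := ⟨fun n => z.appr n • f.1 n, fun n =>
    ⟨by rw [smul_comm, tateSub_pow_smul, smul_zero],
     by rw [smul_comm, tateSub_p_smul]; exact tateSub_nsmul_congr f n (appr_succ_modEq z n)⟩⟩

lemma tate_smul_apply (z : ℤ_[p]) (f : tateSub p E) (n : ℕ) :
    (z • f).1 n = z.appr n • f.1 n := rfl

noncomputable instance instModuleTate : Module ℤ_[p] (tateSub p E) where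
  one_smul f := tateSub_ext fun n => by
    rw [tate_smul_apply, tateSub_nsmul_congr f n (appr_one_modEq n), one_smul]
  mul_smul z w f := tateSub_ext fun n => by
    rw [tate_smul_apply, tate_smul_apply, tate_smul_apply,
      tateSub_nsmul_congr f n (appr_mul_modEq z w n), mul_smul]
  smul_zero z := tateSub_ext fun n => by
    rw [tate_smul_apply]; simp
  smul_add z f g := tateSub_ext fun n => by
    simp only [tate_smul_apply, tateSub_coe_add, smul_add]
  add_smul z w f := tateSub_ext fun n => by
    rw [tateSub_coe_add, tate_smul_apply, tate_smul_apply, tate_smul_apply,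
      tateSub_nsmul_congr f n (appr_add_modEq z w n), add_smul]
  zero_smul f := tateSub_ext fun n => by
    rw [tate_smul_apply, tateSub_nsmul_congr f n (appr_zero_modEq n), zero_smul]; rfl

lemma tate_natCast_smul_apply (a : ℕ) (f : tateSub p E) (n : ℕ) :
    ((a : ℤ_[p]) • f).1 n = a • f.1 n := by
  rw [tate_smul_apply, tateSub_nsmul_congr f n (appr_natCast_modEq a n)]

/-- The projection `T_p E → E[p^n]`. -/
def tateProj (n : ℕ) : tateSub p E →+ E where
  toFun f := f.1 n
  map_zero' := rfl
  map_add' _ _ := rfl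

@[simp] lemma tateProj_apply (n : ℕ) (f : tateSub p E) : tateProj n f = f.1 n := rfl

/-- The shift `f ↦ (k ↦ f (k + n))`, which divides by `p ^ n` the sequences vanishing at `n`. -/
def tateShift (n : ℕ) (f : tateSub p E) (h : f.1 n = 0) : tateSub p E :=
  ⟨fun k => f.1 (k + n), fun k =>
    ⟨by
      have h1 := tateSub_pow_smul_add f n k
      rw [add_comm n k, h] at h1
      exact h1,
     by
      have := tateSub_p_smul f (k + n)
      rwa [show k + n + 1 = k + 1 + n by ring] at this⟩⟩

lemma pow_smul_tateShift (n : ℕ) (f : tateSub p E) (h : f.1 n = 0) :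
    ((p : ℤ_[p]) ^ n) • tateShift n f h = f := by
  refine tateSub_ext fun k => ?_
  rw [← Nat.cast_pow, tate_natCast_smul_apply]
  show p ^ n • f.1 (k + n) = f.1 k
  exact tateSub_pow_smul_add f k n

/-- The kernel of the projection to level `n` is `p ^ n • T`. -/
theorem tateProj_eq_zero_iff (n : ℕ) (f : tateSub p E) :
    f.1 n = 0 ↔ ∃ g : tateSub p E, ((p : ℤ_[p]) ^ n) • g = f := by
  constructor
  · intro h
    exact ⟨tateShift n f h, pow_smul_tateShift n f h⟩
  · rintro ⟨g, rfl⟩
    rw [← Nat.cast_pow, tate_natCast_smul_apply, tateSub_pow_smul]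

end Basic

end Fermat.Agent.S59.H360

end
-- ===== PACK-END S59/H360/TateModule.lean

-- ===== PACK-BEGIN S59/H405/TWConj.lean
section


/-!
# S59 / G-TW (helper405): complex conjugation on `ℚ̄` — Mathlib only

`exists_involution_Qbar` : there is `c ∈ Gal(ℚ̄/ℚ)` with `c * c = 1`, `c ≠ 1`.
-/

set_option autoImplicit false

namespace Fermat.Agent.S59.H405

/-- **Complex conjugation**: `Gal(ℚ̄/ℚ)` contains an involution `c ≠ 1`. -/
theorem exists_involution_Qbar :
    ∃ c : AlgebraicClosure ℚ ≃ₐ[ℚ] AlgebraicClosure ℚ, c * c = 1 ∧ c ≠ 1 := by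
  haveI : Algebra.IsAlgebraic ℚ (AlgebraicClosure ℚ) := AlgebraicClosure.isAlgebraic ℚ
  haveI : IsAlgClosure ℚ (AlgebraicClosure ℚ) := ⟨inferInstance, inferInstance⟩
  haveI : Normal ℚ (AlgebraicClosure ℚ) := IsAlgClosure.normal ℚ (AlgebraicClosure ℚ)
  let ι : AlgebraicClosure ℚ →ₐ[ℚ] ℂ := IsAlgClosed.lift
  letI : Algebra (AlgebraicClosure ℚ) ℂ := ι.toRingHom.toAlgebra
  haveI : IsScalarTower ℚ (AlgebraicClosure ℚ) ℂ := IsScalarTower.of_algebraMap_eq fun x => by
    show algebraMap ℚ ℂ x = ι (algebraMap ℚ (AlgebraicClosure ℚ) x)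
    rw [AlgHom.commutes]
  have hι : ∀ x : AlgebraicClosure ℚ, algebraMap (AlgebraicClosure ℚ) ℂ x = ι x := fun _ => rfl
  have hinj : Function.Injective ι := ι.toRingHom.injective
  let χ : ℂ ≃ₐ[ℚ] ℂ := Complex.conjAe.restrictScalars ℚ
  have hχ : ∀ z : ℂ, χ z = (starRingEnd ℂ) z := fun z => rfl
  let c : AlgebraicClosure ℚ ≃ₐ[ℚ] AlgebraicClosure ℚ := χ.restrictNormal (AlgebraicClosure ℚ)
  have hc : ∀ x : AlgebraicClosure ℚ, ι (c x) = (starRingEnd ℂ) (ι x) := by
    intro x
    have := AlgEquiv.restrictNormal_commutes χ (AlgebraicClosure ℚ) x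
    rw [hι, hι, hχ] at this
    exact this
  refine ⟨c, ?_, ?_⟩
  · apply AlgEquiv.ext
    intro x
    apply hinj
    show ι (c (c x)) = ι x
    rw [hc, hc, Complex.conj_conj]
  · intro h1
    obtain ⟨i, hi⟩ := IsAlgClosed.exists_pow_nat_eq (-1 : AlgebraicClosure ℚ) (n := 2)
      (by norm_num)
    have h2 : ι i ^ 2 = -1 := by rw [← map_pow, hi, map_neg, map_one]
    have h3 : (starRingEnd ℂ) (ι i) = ι i := by
      rw [← hc, h1]
      rfl
    -- a complex number fixed by conjugation is real, so its square is not `-1`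
    obtain ⟨r, hr⟩ := Complex.conj_eq_iff_real.mp h3
    rw [hr] at h2
    have h4 : ((r ^ 2 : ℝ) : ℂ) = ((-1 : ℝ) : ℂ) := by
      push_cast
      exact h2
    have h5 : r ^ 2 = -1 := by exact_mod_cast h4
    nlinarith [sq_nonneg r]

end Fermat.Agent.S59.H405

end
-- ===== PACK-END S59/H405/TWConj.lean

-- ===== PACK-BEGIN S48/H368/Split.lean
section


/-!
# Row S48 (Deligne–Serre), piece SPLIT (helper368)

For a domain `O` of characteristic zero which is finite over `ℤ` (an order in a number field),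
there are infinitely many primes `ℓ` with a ring homomorphism `O →+* ℤ_[ℓ]`
(`exists_padicInt_hom`).  This is the infinite set `L` of Deligne–Serre §8.

Ingredients: Schur's theorem (infinitely many primes divide the values of a non-constant integer
polynomial), Hensel's lemma, the primitive element theorem and the integral closedness of `ℤ_[ℓ]`.
-/

set_option autoImplicit false

open Polynomial

namespace Fermat.Agent.S48.H368

/-- **Schur.** Infinitely many primes divide some value of a non-constant integer polynomial. -/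
theorem exists_prime_dvd_eval (P : ℤ[X]) (hP : 0 < P.natDegree) (S : Finset ℕ) :
    ∃ ℓ : ℕ, ℓ.Prime ∧ ℓ ∉ S ∧ ∃ m : ℤ, (ℓ : ℤ) ∣ P.eval m := by
  classical
  set c := P.eval 0 with hc
  by_cases hc0 : c = 0
  · obtain ⟨ℓ, hℓ, hprime⟩ := Nat.exists_infinite_primes (S.sup id + 1)
    refine ⟨ℓ, hprime, ?_, 0, by rw [← hc, hc0]; exact dvd_zero _⟩
    intro hmem
    have := Finset.le_sup (f := id) hmem
    simp only [id] at this
    omega
  · obtain ⟨Q, hQ⟩ : X ∣ P - C c := by
      rw [Polynomial.X_dvd_iff]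
      simp [hc, coeff_zero_eq_eval_zero]
    have hPQ : ∀ x : ℤ, P.eval x = c + x * Q.eval x := by
      intro x
      have := congrArg (Polynomial.eval x) hQ
      simp only [eval_sub, eval_C, eval_mul, eval_X] at this
      linarith
    set Pr : ℤ := ∏ p ∈ S.filter Nat.Prime, (p : ℤ) with hPrdef
    have hPr : Pr ≠ 0 := by
      refine Finset.prod_ne_zero_iff.2 fun p hp => ?_
      have := (Finset.mem_filter.1 hp).2
      exact_mod_cast this.ne_zero
    have hcPr : c * Pr ≠ 0 := mul_ne_zero hc0 hPr
    -- the polynomial `G(t) = P(cPr t)`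
    set G : ℤ[X] := P.comp (C (c * Pr) * X) with hG
    have hGdeg : G.natDegree = P.natDegree := by
      rw [hG, natDegree_comp, natDegree_C_mul_X _ hcPr, mul_one]
    have hGeval : ∀ t : ℤ, G.eval t = P.eval (c * Pr * t) := by
      intro t
      simp [hG, eval_comp]
    have hne : ∀ a : ℤ, G - C a ≠ 0 := by
      intro a h0
      have : G = C a := sub_eq_zero.1 h0
      rw [this, natDegree_C] at hGdeg
      omega
    set H : ℤ[X] := (G - C (-c)) * (G - C 0) * (G - C c) with hH
    have hHne : H ≠ 0 := mul_ne_zero (mul_ne_zero (hne _) (hne _)) (hne _)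
    obtain ⟨t, ht⟩ := Infinite.exists_notMem_finset H.roots.toFinset
    have hHt : H.eval t ≠ 0 := by
      intro h0
      exact ht (Multiset.mem_toFinset.2 ((mem_roots hHne).2 h0))
    simp only [hH, eval_mul, eval_sub, eval_C, hGeval, hPQ (c * Pr * t), mul_ne_zero_iff] at hHt
    obtain ⟨⟨h1, h2⟩, h3⟩ := hHt
    set F : ℤ := 1 + Pr * t * Q.eval (c * Pr * t) with hF
    have hcF : c + c * Pr * t * Q.eval (c * Pr * t) = c * F := by rw [hF]; ring
    rw [hcF] at h1 h2 h3
    have hF0 : F ≠ 0 := by
      intro h; apply h2; rw [h]; ring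
    have hF1 : F ≠ 1 := by
      intro h; apply h3; rw [h]; ring
    have hFm1 : F ≠ -1 := by
      intro h; apply h1; rw [h]; ring
    have hnat : F.natAbs ≠ 1 := by
      intro h
      rcases Int.natAbs_eq F with h' | h'
      · exact hF1 (by rw [h', h]; rfl)
      · exact hFm1 (by rw [h', h]; rfl)
    obtain ⟨ℓ, hℓ, hdvd⟩ := Nat.exists_prime_and_dvd hnat
    have hdvdF : (ℓ : ℤ) ∣ F := Int.natCast_dvd.2 hdvd
    refine ⟨ℓ, hℓ, ?_, c * Pr * t, ?_⟩
    · intro hmem
      have h4 : (ℓ : ℤ) ∣ Pr :=
        Finset.dvd_prod_of_mem (fun p : ℕ => (p : ℤ)) (Finset.mem_filter.2 ⟨hmem, hℓ⟩)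
      have h5 : (ℓ : ℤ) ∣ 1 := by
        have h6 : (ℓ : ℤ) ∣ Pr * t * Q.eval (c * Pr * t) := (h4.mul_right _).mul_right _
        have h7 := dvd_sub hdvdF h6
        simpa [hF] using h7
      have h8 := Int.natCast_dvd_natCast.1 (by simpa using h5 : ((ℓ : ℕ) : ℤ) ∣ ((1 : ℕ) : ℤ))
      exact hℓ.one_lt.ne' (Nat.dvd_one.1 h8)
    · rw [hPQ, hcF]
      exact hdvdF.mul_left _

/-- A separable integer polynomial and its derivative generate an ideal containing a non-zero
integer. -/
theorem exists_int_bezout (P : ℤ[X]) (hsep : (P.map (Int.castRingHom ℚ)).Separable) :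
    ∃ (R : ℤ) (U V : ℤ[X]), R ≠ 0 ∧ U * P + V * derivative P = C R := by
  obtain ⟨a, b, hab⟩ := hsep
  obtain ⟨na, hna, hA⟩ := IsLocalization.integerNormalization_spec (nonZeroDivisors ℤ) a
  obtain ⟨nb, hnb, hB⟩ := IsLocalization.integerNormalization_spec (nonZeroDivisors ℤ) b
  set A := IsLocalization.integerNormalization (nonZeroDivisors ℤ) a
  set B := IsLocalization.integerNormalization (nonZeroDivisors ℤ) b
  refine ⟨na * nb, C nb * A, C na * B, mul_ne_zero (nonZeroDivisors.ne_zero hna)
    (nonZeroDivisors.ne_zero hnb), ?_⟩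
  apply Polynomial.map_injective (Int.castRingHom ℚ) Int.cast_injective
  have hA' : A.map (Int.castRingHom ℚ) = C (Int.castRingHom ℚ na) * a := by
    rw [← algebraMap_int_eq, hA]
    ext i
    simp [zsmul_eq_mul]
  have hB' : B.map (Int.castRingHom ℚ) = C (Int.castRingHom ℚ nb) * b := by
    rw [← algebraMap_int_eq, hB]
    ext i
    simp [zsmul_eq_mul]
  rw [Polynomial.map_add, Polynomial.map_mul, Polynomial.map_mul, Polynomial.map_mul,
    Polynomial.map_mul, Polynomial.map_C, Polynomial.map_C, Polynomial.map_C, hA', hB',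
    ← derivative_map, map_mul, C_mul]
  have h2 : C (Int.castRingHom ℚ nb) * (C (Int.castRingHom ℚ na) * a) * P.map (Int.castRingHom ℚ)
      + C (Int.castRingHom ℚ na) * (C (Int.castRingHom ℚ nb) * b)
        * derivative (P.map (Int.castRingHom ℚ))
      = C (Int.castRingHom ℚ na) * C (Int.castRingHom ℚ nb) * (a * P.map (Int.castRingHom ℚ)
        + b * derivative (P.map (Int.castRingHom ℚ))) := by
    ring
  rw [h2, hab, mul_one]

/-- **Hensel.** A simple root modulo `ℓ` of an integer polynomial lifts to `ℤ_[ℓ]`. -/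
theorem exists_padicInt_root (ℓ : ℕ) [Fact ℓ.Prime] (P : ℤ[X]) (m : ℤ)
    (h0 : (ℓ : ℤ) ∣ P.eval m) (h1 : ¬ (ℓ : ℤ) ∣ (derivative P).eval m) :
    ∃ z : ℤ_[ℓ], aeval z P = 0 := by
  have e : ∀ Q : ℤ[X], aeval (m : ℤ_[ℓ]) Q = ((Q.eval m : ℤ) : ℤ_[ℓ]) := by
    intro Q
    have := Polynomial.aeval_algebraMap_apply (A := ℤ) ℤ_[ℓ] m Q
    simpa using this
  have hn0 : ‖aeval (m : ℤ_[ℓ]) P‖ < 1 := by
    rw [e, PadicInt.norm_intCast_lt_one_iff]
    exact h0
  have hn1 : ‖aeval (m : ℤ_[ℓ]) (derivative P)‖ = 1 := by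
    rw [e, PadicInt.norm_intCast_eq_one_iff]
    have hp : Prime (ℓ : ℤ) := Nat.prime_iff_prime_int.1 Fact.out
    exact (hp.coprime_iff_not_dvd.2 h1).symm
  obtain ⟨z, hz, -⟩ := hensels_lemma (F := P) (a := (m : ℤ_[ℓ])) (by rw [hn1]; simpa using hn0)
  exact ⟨z, hz⟩

/-- Infinitely many primes `ℓ` for which a non-constant separable integer polynomial has a root in
`ℤ_[ℓ]`. -/
theorem exists_padicInt_root_of_separable (P : ℤ[X]) (hP : 0 < P.natDegree)
    (hsep : (P.map (Int.castRingHom ℚ)).Separable) (S : Finset ℕ) :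
    ∃ (ℓ : ℕ) (_ : Fact ℓ.Prime), ℓ ∉ S ∧ ∃ z : ℤ_[ℓ], aeval z P = 0 := by
  obtain ⟨R, U, V, hR, hUV⟩ := exists_int_bezout P hsep
  obtain ⟨ℓ, hℓ, hℓS, m, hm⟩ := exists_prime_dvd_eval P hP (S ∪ R.natAbs.primeFactors)
  have hfact : Fact ℓ.Prime := ⟨hℓ⟩
  refine ⟨ℓ, hfact, fun h => hℓS (Finset.mem_union_left _ h), ?_⟩
  apply exists_padicInt_root ℓ P m hm
  intro hd
  have h1 := congrArg (Polynomial.eval m) hUV
  simp only [eval_add, eval_mul, eval_C] at h1
  have hR' : (ℓ : ℤ) ∣ R := by
    rw [← h1]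
    exact dvd_add (hm.mul_left _) (hd.mul_left _)
  apply hℓS
  apply Finset.mem_union_right
  rw [Nat.mem_primeFactors]
  exact ⟨hℓ, Int.natCast_dvd.1 hR', by simpa using hR⟩

/-- **SPLIT.**  For a domain `O` of characteristic zero, finite over `ℤ`, and any finite set `S`
of primes, there are a prime `ℓ ∉ S` and an injective ring homomorphism `O →+* ℤ_[ℓ]`. -/
theorem exists_padicInt_hom (O : Type*) [CommRing O] [IsDomain O] [CharZero O]
    [Module.Finite ℤ O] (S : Finset ℕ) :
    ∃ (ℓ : ℕ) (_ : Fact ℓ.Prime), ℓ ∉ S ∧ ∃ ι : O →+* ℤ_[ℓ], Function.Injective ι := by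
  classical
  have hinj : Function.Injective (algebraMap O (FractionRing O)) := IsFractionRing.injective O (FractionRing O)
  have : CharZero (FractionRing O) := charZero_of_injective_algebraMap hinj
  have htower : @IsScalarTower ℤ ℚ (FractionRing O) _ _ (Algebra.toSMul) := by
    refine IsScalarTower.of_algebraMap_eq ?_
    intro x
    simp
  have : FiniteDimensional ℚ (FractionRing O) :=
    Module.Finite.of_isLocalization ℤ O (Rₚ := ℚ) (Sₚ := FractionRing O) (nonZeroDivisors ℤ)
  let pb : PowerBasis ℚ (FractionRing O) :=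
    Field.powerBasisOfFiniteOfSeparable ℚ (FractionRing O)
  have hgen : IsIntegral ℚ pb.gen := pb.isIntegral_gen
  obtain ⟨n, hn, hP⟩ := IsLocalization.integerNormalization_spec (nonZeroDivisors ℤ)
    (minpoly ℚ pb.gen)
  set P := IsLocalization.integerNormalization (nonZeroDivisors ℤ) (minpoly ℚ pb.gen) with hPdef
  have hn0 : (n : ℚ) ≠ 0 := by exact_mod_cast nonZeroDivisors.ne_zero hn
  have hP' : P.map (Int.castRingHom ℚ) = C (n : ℚ) * minpoly ℚ pb.gen := by
    rw [← algebraMap_int_eq, hP]
    ext i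
    simp [zsmul_eq_mul]
  have hsep : (P.map (Int.castRingHom ℚ)).Separable := by
    rw [hP']
    have h1 : (minpoly ℚ pb.gen).Separable := (minpoly.irreducible hgen).separable
    have h2 : IsUnit (C (n : ℚ)) := Polynomial.isUnit_C.2 (isUnit_iff_ne_zero.2 hn0)
    exact Polynomial.Separable.unit_mul h2 h1
  have hdeg : 0 < P.natDegree := by
    have h1 : (P.map (Int.castRingHom ℚ)).natDegree = (minpoly ℚ pb.gen).natDegree := by
      rw [hP', natDegree_C_mul hn0]
    have h2 : (P.map (Int.castRingHom ℚ)).natDegree = P.natDegree :=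
      natDegree_map_eq_of_injective Int.cast_injective P
    rw [← h2, h1]
    exact minpoly.natDegree_pos hgen
  obtain ⟨ℓ, hfact, hℓS, z, hz⟩ := exists_padicInt_root_of_separable P hdeg hsep S
  refine ⟨ℓ, hfact, hℓS, ?_⟩
  -- the root in `ℚ_[ℓ]`
  have hroot : aeval (z : ℚ_[ℓ]) (minpoly ℚ pb.gen) = 0 := by
    have h1 : aeval (z : ℚ_[ℓ]) P = 0 := by
      have := congrArg (fun y : ℤ_[ℓ] => (y : ℚ_[ℓ])) hz
      simp only [PadicInt.coe_zero] at this
      rw [← this]
      have h3 := Polynomial.aeval_algebraMap_apply (A := ℤ_[ℓ]) ℚ_[ℓ] z P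
      simpa using h3
    have h2 : aeval (z : ℚ_[ℓ]) P = (n : ℚ_[ℓ]) * aeval (z : ℚ_[ℓ]) (minpoly ℚ pb.gen) := by
      have h4 : aeval (z : ℚ_[ℓ]) P = aeval (z : ℚ_[ℓ]) (P.map (Int.castRingHom ℚ)) := by
        rw [← algebraMap_int_eq, Polynomial.aeval_map_algebraMap]
      rw [h4, hP', map_mul, aeval_C]
      simp
    rw [h2] at h1
    have hn' : (n : ℚ_[ℓ]) ≠ 0 := by exact_mod_cast nonZeroDivisors.ne_zero hn
    exact (mul_eq_zero.1 h1).resolve_left hn'
  let ψ : FractionRing O →ₐ[ℚ] ℚ_[ℓ] := pb.lift (z : ℚ_[ℓ]) hroot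
  let f : O →+* ℚ_[ℓ] := ψ.toRingHom.comp (algebraMap O (FractionRing O))
  have hfinj : Function.Injective f := ψ.toRingHom.injective.comp hinj
  have hf : ∀ x, f x ∈ PadicInt.subring ℓ := by
    intro x
    have h1 : IsIntegral ℤ x := Algebra.IsIntegral.isIntegral x
    have h2 : IsIntegral ℤ (f x) := map_isIntegral_int f h1
    have h3 : IsIntegral ℤ_[ℓ] (f x) := h2.tower_top
    obtain ⟨y, hy⟩ := IsIntegrallyClosed.isIntegral_iff.1 h3
    rw [← hy]
    exact y.2
  refine ⟨(f.codRestrict (PadicInt.subring ℓ) hf : O →+* ℤ_[ℓ]), ?_⟩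
  intro x y hxy
  apply hfinj
  exact congrArg Subtype.val hxy

/-- **SPLIT (infinite form).** -/
theorem infinite_setOf_padicInt_hom (O : Type*) [CommRing O] [IsDomain O] [CharZero O]
    [Module.Finite ℤ O] :
    {ℓ : ℕ | ∃ (_ : Fact ℓ.Prime) (ι : O →+* ℤ_[ℓ]), Function.Injective ι}.Infinite := by
  intro hfin
  obtain ⟨ℓ, hfact, hℓ, ι, hι⟩ := exists_padicInt_hom O hfin.toFinset
  exact hℓ (hfin.mem_toFinset.2 ⟨hfact, ι, hι⟩)

/-- A finite `ℤ`-module is countable. -/
theorem countable_of_finite_int (O : Type*) [AddCommGroup O] [Module.Finite ℤ O] :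
    Countable O := by
  obtain ⟨n, f, hf⟩ := Module.Finite.exists_fin' ℤ O
  exact hf.countable

end Fermat.Agent.S48.H368

end
-- ===== PACK-END S48/H368/Split.lean

-- ===== PACK-BEGIN S57/Transport.lean
section




set_option autoImplicit false

namespace Fermat.Agent.S57

open MvPowerSeries RingTheory.Sequence

section Transport

variable {𝒪 : Type} [CommRing 𝒪]
    {r : ℕ} {R : Type} [CommRing R] [Algebra 𝒪 R]
    {M : Type} [AddCommGroup M] [Module R M]
    (L : Algebra.PatchingLevel 𝒪 r R M ⊥)

/-- The additive map `A^d → N`, `c ↦ ∑ φ(c i) • b i`. -/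
noncomputable def coordHom : (Fin L.d → MvPowerSeries (Fin r) 𝒪) →+ L.N where
  toFun c := ∑ i, L.φ (c i) • L.b i
  map_zero' := by simp
  map_add' c c' := by simp [add_smul, Finset.sum_add_distrib]

lemma coordHom_apply (c : Fin L.d → MvPowerSeries (Fin r) 𝒪) :
    coordHom L c = ∑ i, L.φ (c i) • L.b i := rfl

lemma coordHom_smul (a : MvPowerSeries (Fin r) 𝒪) (c : Fin L.d → MvPowerSeries (Fin r) 𝒪) :
    coordHom L (a • c) = L.φ a • coordHom L c := by
  simp [coordHom_apply, Finset.smul_sum, mul_smul]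

lemma coordHom_injective : Function.Injective (coordHom L) := by
  rw [injective_iff_map_eq_zero]
  intro c hc
  have := (L.b_rel c).mp hc
  funext i
  simpa using this i

lemma coordHom_surjective : Function.Surjective (coordHom L) := by
  intro x
  obtain ⟨c, hc⟩ := L.b_span x
  exact ⟨c, hc.symm⟩

/-- The `φ`-semilinear additive bijection `A^d ≃ N`. -/
noncomputable def coordEquiv : (Fin L.d → MvPowerSeries (Fin r) 𝒪) ≃+ L.N :=
  AddEquiv.ofBijective (coordHom L) ⟨coordHom_injective L, coordHom_surjective L⟩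

lemma coordEquiv_smul (a : MvPowerSeries (Fin r) 𝒪) (c : Fin L.d → MvPowerSeries (Fin r) 𝒪) :
    coordEquiv L (a • c) = L.φ a • coordEquiv L c :=
  coordHom_smul L a c

/-- A weakly regular sequence on a ring is weakly regular on a finite power of it. -/
lemma isWeaklyRegular_pi {A : Type*} [CommRing A] (d : ℕ) {xs : List A}
    (h : IsWeaklyRegular A xs) : IsWeaklyRegular (Fin d → A) xs := by
  have h1 : IsWeaklyRegular (TensorProduct A (Fin d → A) A) xs := h.isWeaklyRegular_lTensor
  exact ((TensorProduct.rid A (Fin d → A)).isWeaklyRegular_congr xs).mp h1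

/-- Transport of a (weakly) regular sequence on `A` to `N` through `φ`. -/
theorem isWeaklyRegular_map_phi {xs : List (MvPowerSeries (Fin r) 𝒪)}
    (h : IsWeaklyRegular (MvPowerSeries (Fin r) 𝒪) xs) :
    IsWeaklyRegular L.N (xs.map L.φ) := by
  have h1 := isWeaklyRegular_pi L.d h
  refine ((coordEquiv L).isWeaklyRegular_congr ?_).mp h1
  rw [List.forall₂_map_right_iff, List.forall₂_same]
  intro a _ c
  exact coordEquiv_smul L a c

end Transport

end Fermat.Agent.S57

end
-- ===== PACK-END S57/Transport.lean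

-- ===== PACK-BEGIN S55/E1/H423/Alg4.lean
section


/-!
# S55, engine E1, leaves ALG2 and ALG4 (NORM-KILL) — interface-free form

Setting: `G` a finite group, `P`, `C` abelian groups with `G`-action (`Representation ℤ G _`),
`R ≤ P` a `G`-stable subgroup, `p` a prime with `p P ⊆ R` (so `N := P / R` is an `𝔽_p`-vector
space; in E1: `P = ℤ[G]^{(N)}`, `R = ker (P → N)`).

* `alg2` : for a `G`-homomorphism `f : R → X`, the map `p • f` extends to a `G`-homomorphism
  `P → X` (`x ↦ f (p x)`).
* `alg4` (**NORM-KILL**) : let `H ≤ G` act trivially on `P / R` and assume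
  `N_H(C) ⊆ p · C^H`.  Then for every ADDITIVE `g : R → C` the norm
  `N_G(g) = ∑_σ σ ∘ g ∘ σ⁻¹` extends to a `G`-homomorphism `P → C`.
-/

set_option autoImplicit false
set_option linter.style.haveILetI false

namespace Fermat.Agent.S55.E1.H423

open Finset

section Extend

variable {P C : Type*} [AddCommGroup P] [AddCommGroup C]

/-- Extension of an additive map from a subgroup `R` to `P = R + ∑ ℤ x i`, with prescribed
values `y i` at the `x i`, provided the values are compatible with all relations. -/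
theorem exists_linearMap_extend (R : Submodule ℤ P) (f : R →ₗ[ℤ] C) {I : Type*} (x : I → P)
    (y : I → C) (hgen : R ⊔ Submodule.span ℤ (Set.range x) = ⊤)
    (hrel : ∀ (m : I →₀ ℤ) (hm : Finsupp.linearCombination ℤ x m ∈ R),
      f ⟨_, hm⟩ = Finsupp.linearCombination ℤ y m) :
    ∃ k : P →ₗ[ℤ] C, (∀ r : R, k r = f r) ∧ ∀ i, k (x i) = y i := by
  classical
  let φ : (R × (I →₀ ℤ)) →ₗ[ℤ] P := R.subtype.coprod (Finsupp.linearCombination ℤ x)
  let ψ : (R × (I →₀ ℤ)) →ₗ[ℤ] C := f.coprod (Finsupp.linearCombination ℤ y)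
  have hφ : Function.Surjective φ := by
    rw [← LinearMap.range_eq_top, LinearMap.range_coprod, Submodule.range_subtype,
      Finsupp.range_linearCombination]
    exact hgen
  have hker : LinearMap.ker φ ≤ LinearMap.ker ψ := by
    rintro ⟨r, m⟩ h
    rw [LinearMap.mem_ker] at h ⊢
    simp only [φ, ψ, LinearMap.coprod_apply, Submodule.subtype_apply] at h ⊢
    have hm : Finsupp.linearCombination ℤ x m ∈ R := by
      have : Finsupp.linearCombination ℤ x m = -(r : P) := by
        rw [eq_neg_iff_add_eq_zero, add_comm]; exact h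
      rw [this]
      exact R.neg_mem r.2
    rw [← hrel m hm, ← map_add]
    have : r + ⟨_, hm⟩ = (0 : R) := Subtype.ext h
    rw [this, map_zero]
  let e := φ.quotKerEquivOfSurjective hφ
  let k : P →ₗ[ℤ] C := (LinearMap.ker φ).liftQ ψ hker ∘ₗ e.symm.toLinearMap
  have hk : ∀ z, k (φ z) = ψ z := by
    intro z
    have : e.symm (φ z) = Submodule.Quotient.mk z := by
      rw [LinearEquiv.symm_apply_eq]
      rfl
    simp only [k, LinearMap.comp_apply, LinearEquiv.coe_coe, this]
    rfl
  refine ⟨k, fun r => ?_, fun i => ?_⟩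
  · have := hk (r, 0)
    simpa [φ, ψ] using this
  · have := hk (0, Finsupp.single i 1)
    simpa [φ, ψ] using this

end Extend

section Lift

universe u

variable {P : Type u} [AddCommGroup P]

/-- If `p P ⊆ R` (`p` prime) there is a family `x i` in `P` lifting an `𝔽_p`-basis of `P / R`:
`P = R + ∑ ℤ x i`, and `∑ m i • x i ∈ R` forces `p ∣ m i` for all `i`. -/
theorem exists_lift_family (R : Submodule ℤ P) (p : ℕ) [Fact p.Prime]
    (hp : ∀ x : P, (p : ℤ) • x ∈ R) :
    ∃ (I : Type u) (x : I → P), R ⊔ Submodule.span ℤ (Set.range x) = ⊤ ∧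
      ∀ m : I →₀ ℤ, Finsupp.linearCombination ℤ x m ∈ R → ∀ i, (p : ℤ) ∣ m i := by
  classical
  have hkill : ∀ v : P ⧸ R, p • v = 0 := by
    intro v
    obtain ⟨z, rfl⟩ := Submodule.Quotient.mk_surjective R v
    rw [← Submodule.Quotient.mk_smul, Submodule.Quotient.mk_eq_zero]
    have := hp z
    rwa [Nat.cast_smul_eq_nsmul] at this
  haveI : Module (ZMod p) (P ⧸ R) := AddCommGroup.zmodModule hkill
  let b : Module.Basis (Module.Basis.ofVectorSpaceIndex (ZMod p) (P ⧸ R)) (ZMod p) (P ⧸ R) :=
    Module.Basis.ofVectorSpace (ZMod p) (P ⧸ R)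
  have hsurj : ∀ i, ∃ z : P, Submodule.Quotient.mk (p := R) z = b i :=
    fun i => Submodule.Quotient.mk_surjective R (b i)
  choose x hx using hsurj
  -- the class of an integral combination of the `x i`
  have hmk : ∀ m : Module.Basis.ofVectorSpaceIndex (ZMod p) (P ⧸ R) →₀ ℤ,
      Submodule.Quotient.mk (p := R) (Finsupp.linearCombination ℤ x m) =
        Finsupp.linearCombination (ZMod p) b (m.mapRange (Int.cast : ℤ → ZMod p) Int.cast_zero) := by
    intro m
    rw [Finsupp.linearCombination_apply, Finsupp.linearCombination_apply,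
      Finsupp.sum_mapRange_index (by intro i; exact zero_smul _ _), Finsupp.sum, Finsupp.sum]
    rw [← Submodule.mkQ_apply, map_sum]
    refine Finset.sum_congr rfl fun i _ => ?_
    rw [map_smul, Submodule.mkQ_apply, hx, Int.cast_smul_eq_zsmul]
  refine ⟨_, x, ?_, ?_⟩
  · rw [eq_top_iff]
    rintro z -
    let c := b.repr (Submodule.Quotient.mk z)
    let m : Module.Basis.ofVectorSpaceIndex (ZMod p) (P ⧸ R) →₀ ℤ :=
      c.mapRange (ZMod.cast : ZMod p → ℤ) (by simp)
    have h1 : Submodule.Quotient.mk (p := R) (Finsupp.linearCombination ℤ x m) =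
        Submodule.Quotient.mk z := by
      rw [hmk]
      have : m.mapRange (Int.cast : ℤ → ZMod p) Int.cast_zero = c := by
        ext i
        simp [m]
      rw [this]
      exact b.linearCombination_repr _
    have h2 : z - Finsupp.linearCombination ℤ x m ∈ R := by
      rw [← Submodule.Quotient.mk_eq_zero, Submodule.Quotient.mk_sub, h1, sub_self]
    have h3 : Finsupp.linearCombination ℤ x m ∈ Submodule.span ℤ (Set.range x) := by
      rw [← Finsupp.range_linearCombination]
      exact ⟨m, rfl⟩
    have : z = (z - Finsupp.linearCombination ℤ x m) + Finsupp.linearCombination ℤ x m := by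
      abel
    rw [this]
    exact Submodule.add_mem_sup h2 h3
  · intro m hm i
    have h0 : Finsupp.linearCombination (ZMod p) b
        (m.mapRange (Int.cast : ℤ → ZMod p) Int.cast_zero) = 0 := by
      rw [← hmk, Submodule.Quotient.mk_eq_zero]
      exact hm
    have h1 : m.mapRange (Int.cast : ℤ → ZMod p) Int.cast_zero = 0 := by
      have hli := b.linearIndependent
      rw [linearIndependent_iff] at hli
      exact hli _ h0
    have h2 : ((m i : ℤ) : ZMod p) = 0 := by
      have := DFunLike.congr_fun h1 i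
      simpa using this
    exact (ZMod.intCast_zmod_eq_zero_iff_dvd (m i) p).mp h2

end Lift

section Defs

variable {G : Type*} [Group G]
variable {P C : Type*} [AddCommGroup P] [AddCommGroup C]
variable (ρP : Representation ℤ G P) (ρC : Representation ℤ G C)
variable (R : Submodule ℤ P) (hR : ∀ (σ : G), ∀ r ∈ R, ρP σ r ∈ R)

/-- The conjugate `σ ∘ g ∘ σ⁻¹` of an additive map `g : R → C`. -/
def conjHom (g : R →ₗ[ℤ] C) (σ : G) : R →ₗ[ℤ] C :=
  ρC σ ∘ₗ g ∘ₗ (ρP σ⁻¹).restrict (hR σ⁻¹)

theorem conjHom_apply (g : R →ₗ[ℤ] C) (σ : G) (r : R) :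
    conjHom ρP ρC R hR g σ r = ρC σ (g ⟨ρP σ⁻¹ r, hR σ⁻¹ r r.2⟩) := rfl

/-- `N_G(g) = ∑_σ σ ∘ g ∘ σ⁻¹`, a `G`-homomorphism `R → C`. -/
def normHom [Fintype G] (g : R →ₗ[ℤ] C) : R →ₗ[ℤ] C := ∑ σ : G, conjHom ρP ρC R hR g σ

theorem normHom_apply [Fintype G] (g : R →ₗ[ℤ] C) (r : R) :
    normHom ρP ρC R hR g r = ∑ σ : G, ρC σ (g ⟨ρP σ⁻¹ r, hR σ⁻¹ r r.2⟩) := by
  simp [normHom, LinearMap.sum_apply, conjHom_apply]

/-- Extension by zero of `g : R → C` to a plain function on `P` (bookkeeping device). -/
noncomputable def extZero (g : R →ₗ[ℤ] C) : P → C := by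
  classical
  exact fun z => if h : z ∈ R then g ⟨z, h⟩ else 0

theorem extZero_of_mem (g : R →ₗ[ℤ] C) {z : P} (h : z ∈ R) : extZero R g z = g ⟨z, h⟩ := by
  simp [extZero, h]

theorem extZero_coe (g : R →ₗ[ℤ] C) (r : R) : extZero R g (r : P) = g r := by
  rw [extZero_of_mem R g r.2]

theorem extZero_add (g : R →ₗ[ℤ] C) {z z' : P} (h : z ∈ R) (h' : z' ∈ R) :
    extZero R g (z + z') = extZero R g z + extZero R g z' := by
  rw [extZero_of_mem R g h, extZero_of_mem R g h', extZero_of_mem R g (R.add_mem h h'),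
    ← map_add]
  rfl

theorem extZero_sub (g : R →ₗ[ℤ] C) {z z' : P} (h : z ∈ R) (h' : z' ∈ R) :
    extZero R g (z - z') = extZero R g z - extZero R g z' := by
  rw [extZero_of_mem R g h, extZero_of_mem R g h', extZero_of_mem R g (R.sub_mem h h'),
    ← map_sub]
  rfl

theorem extZero_zsmul (g : R →ₗ[ℤ] C) (n : ℤ) {z : P} (h : z ∈ R) :
    extZero R g (n • z) = n • extZero R g z := by
  rw [extZero_of_mem R g h, extZero_of_mem R g (R.smul_mem n h), ← map_smul]
  rfl

end Defs

section Main

universe u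

variable {G : Type*} [Group G]
variable {P : Type u} {C : Type*} [AddCommGroup P] [AddCommGroup C]
variable (ρP : Representation ℤ G P) (ρC : Representation ℤ G C)
variable (R : Submodule ℤ P) (hR : ∀ (σ : G), ∀ r ∈ R, ρP σ r ∈ R)

omit [AddCommGroup C] in
private theorem rho_mul_apply {V : Type*} [AddCommGroup V] (ρ : Representation ℤ G V) (σ τ : G)
    (v : V) : ρ (σ * τ) v = ρ σ (ρ τ v) := by
  rw [map_mul]; rfl

private theorem rho_inv_apply {V : Type*} [AddCommGroup V] (ρ : Representation ℤ G V) (σ : G)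
    (v : V) : ρ σ⁻¹ (ρ σ v) = v := by
  rw [← rho_mul_apply, inv_mul_cancel, map_one]; rfl

private theorem rho_apply_inv {V : Type*} [AddCommGroup V] (ρ : Representation ℤ G V) (σ : G)
    (v : V) : ρ σ (ρ σ⁻¹ v) = v := by
  rw [← rho_mul_apply, mul_inv_cancel, map_one]; rfl

include hR in
/-- **ALG4, step 1** (`H`-level): under the hypotheses of NORM-KILL, the `H`-norm
`f = ∑_{t ∈ H} t g t⁻¹` of an additive map `g : R → C` extends to an `H`-homomorphism
`k : P → C`. -/
theorem exists_extend_normH (p : ℕ) [Fact p.Prime] (hp : ∀ x : P, (p : ℤ) • x ∈ R)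
    (H : Subgroup G) [Fintype H] (hH : ∀ h ∈ H, ∀ x : P, ρP h x - x ∈ R)
    (hC : ∀ c : C, ∃ c' : C, (∀ h ∈ H, ρC h c' = c') ∧ ∑ h : H, ρC (h : G) c = (p : ℤ) • c')
    (g : R →ₗ[ℤ] C) :
    ∃ k : P →ₗ[ℤ] C, (∀ h ∈ H, ∀ z : P, k (ρP h z) = ρC h (k z)) ∧
      ∀ r : R, k r = ∑ t : H, ρC (t : G) (extZero R g (ρP (t : G)⁻¹ r)) := by
  classical
  obtain ⟨I, x, hgen, hdvd⟩ := exists_lift_family R p hp
  -- the `H`-norm of `g` as a function on `P`
  let F : P → C := fun z => ∑ t : H, ρC (t : G) (extZero R g (ρP (t : G)⁻¹ z))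
  have hF_add : ∀ z z', z ∈ R → z' ∈ R → F (z + z') = F z + F z' := by
    intro z z' hz hz'
    simp only [F]
    rw [← Finset.sum_add_distrib]
    refine Finset.sum_congr rfl fun t _ => ?_
    rw [map_add, extZero_add R g (hR _ z hz) (hR _ z' hz'), map_add]
  have hF_smul : ∀ (n : ℤ) z, z ∈ R → F (n • z) = n • F z := by
    intro n z hz
    simp only [F]
    rw [Finset.smul_sum]
    refine Finset.sum_congr rfl fun t _ => ?_
    rw [map_smul, extZero_zsmul R g n (hR _ z hz), map_smul]
  let f : R →ₗ[ℤ] C :=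
    { toFun := fun r => F r
      map_add' := fun r r' => hF_add r r' r.2 r'.2
      map_smul' := fun n r => hF_smul n r r.2 }
  have hf : ∀ r : R, f r = F r := fun r => rfl
  -- `F` is `H`-equivariant
  have hF_equiv : ∀ h ∈ H, ∀ z : P, F (ρP h z) = ρC h (F z) := by
    intro h hh z
    simp only [F]
    rw [map_sum]
    refine Fintype.sum_equiv (Equiv.mulLeft (⟨h, hh⟩ : H)⁻¹) _ _ fun t => ?_
    simp only [Equiv.coe_mulLeft, Subgroup.coe_mul, Subgroup.coe_inv, mul_inv_rev, inv_inv]
    rw [rho_mul_apply ρP, ← rho_mul_apply ρC, mul_inv_cancel_left]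
  -- the elements `w i t = t⁻¹ x i - x i ∈ R`
  have hw : ∀ (i : I) (t : H), ρP (t : G)⁻¹ (x i) - x i ∈ R := fun i t =>
    hH _ (H.inv_mem t.2) (x i)
  let a : I → C := fun i => ∑ t : H, ρC (t : G) (extZero R g (ρP (t : G)⁻¹ (x i) - x i))
  have hc : ∀ i : I, ∃ c' : C, (∀ h ∈ H, ρC h c' = c') ∧
      ∑ h : H, ρC (h : G) (extZero R g ((p : ℤ) • x i)) = (p : ℤ) • c' := fun i => hC _
  choose c hcinv hcsum using hc
  let y : I → C := fun i => a i + c i
  -- (F1) `F (p x i) = p y i`
  have hF1 : ∀ i, F ((p : ℤ) • x i) = (p : ℤ) • y i := by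
    intro i
    simp only [F, y, a]
    rw [smul_add, Finset.smul_sum, ← hcsum i, ← Finset.sum_add_distrib]
    refine Finset.sum_congr rfl fun t _ => ?_
    have h1 : ρP (t : G)⁻¹ ((p : ℤ) • x i) =
        (p : ℤ) • (ρP (t : G)⁻¹ (x i) - x i) + (p : ℤ) • x i := by
      rw [map_smul, smul_sub, sub_add_cancel]
    rw [h1, extZero_add R g (R.smul_mem _ (hw i t)) (hp (x i)),
      extZero_zsmul R g _ (hw i t), map_add, map_smul]
  -- (F2) `F (h x i - x i) = h a i - a i`
  have hF2 : ∀ i, ∀ h ∈ H, F (ρP h (x i) - x i) = ρC h (a i) - a i := by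
    intro i h hh
    simp only [F, a]
    rw [map_sum, ← Finset.sum_sub_distrib]
    have key : ∀ t : H, ρC (t : G) (extZero R g (ρP (t : G)⁻¹ (ρP h (x i) - x i))) =
        ρC (t : G) (extZero R g (ρP ((⟨h, hh⟩ : H)⁻¹ * t : H).1⁻¹ (x i) - x i)) -
          ρC (t : G) (extZero R g (ρP (t : G)⁻¹ (x i) - x i)) := by
      intro t
      have h1 : ρP (t : G)⁻¹ (ρP h (x i) - x i) =
          (ρP ((⟨h, hh⟩ : H)⁻¹ * t : H).1⁻¹ (x i) - x i) - (ρP (t : G)⁻¹ (x i) - x i) := by
        simp only [Subgroup.coe_mul, Subgroup.coe_inv, mul_inv_rev, inv_inv]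
        rw [map_sub, rho_mul_apply ρP]
        abel
      rw [h1, extZero_sub R g (hw i _) (hw i t), map_sub]
    rw [Finset.sum_congr rfl fun t _ => key t, Finset.sum_sub_distrib, Finset.sum_sub_distrib]
    congr 1
    refine Fintype.sum_equiv (Equiv.mulLeft (⟨h, hh⟩ : H)⁻¹) _ _ fun t => ?_
    simp only [Equiv.coe_mulLeft, Subgroup.coe_mul, Subgroup.coe_inv, mul_inv_rev, inv_inv]
    rw [← rho_mul_apply ρC, mul_inv_cancel_left]
  -- the relations
  have hrel : ∀ (m : I →₀ ℤ) (hm : Finsupp.linearCombination ℤ x m ∈ R),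
      f ⟨_, hm⟩ = Finsupp.linearCombination ℤ y m := by
    intro m hm
    have hd := hdvd m hm
    have hl : ∀ i, (m i / (p : ℤ)) * (p : ℤ) = m i := fun i => Int.ediv_mul_cancel (hd i)
    let l : I →₀ ℤ := m.mapRange (fun n => n / (p : ℤ)) (by simp)
    let xr : I → R := fun i => ⟨(p : ℤ) • x i, hp (x i)⟩
    have h1 : (⟨_, hm⟩ : R) = Finsupp.linearCombination ℤ xr l := by
      apply Subtype.ext
      have e1 : ((Finsupp.linearCombination ℤ xr l : R) : P) =
          Finsupp.linearCombination ℤ (fun i => (p : ℤ) • x i) l := by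
        rw [← Submodule.subtype_apply, LinearMap.map_finsupp_linearCombination]
        rfl
      rw [e1]
      show Finsupp.linearCombination ℤ x m = _
      rw [Finsupp.linearCombination_apply, Finsupp.linearCombination_apply,
        Finsupp.sum_mapRange_index (by intro i; exact zero_smul _ _)]
      refine Finsupp.sum_congr fun i _ => ?_
      rw [smul_smul, hl]
    rw [h1, LinearMap.map_finsupp_linearCombination, Finsupp.linearCombination_apply,
      Finsupp.linearCombination_apply, Finsupp.sum_mapRange_index (by intro i; exact zero_smul _ _)]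
    refine Finsupp.sum_congr fun i _ => ?_
    show (m i / (p : ℤ)) • f (xr i) = m i • y i
    rw [hf]
    show (m i / (p : ℤ)) • F ((p : ℤ) • x i) = m i • y i
    rw [hF1, smul_smul, hl]
  obtain ⟨k, hkR, hkx⟩ := exists_linearMap_extend R f x y hgen hrel
  have hk_equiv : ∀ h ∈ H, ∀ z : P, k (ρP h z) = ρC h (k z) := by
    intro h hh
    have hle : (⊤ : Submodule ℤ P) ≤ LinearMap.eqLocus (k ∘ₗ ρP h) (ρC h ∘ₗ k) := by
      rw [← hgen, sup_le_iff]
      refine ⟨fun r hr => ?_, Submodule.span_le.mpr ?_⟩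
      · show k (ρP h r) = ρC h (k r)
        have e1 : k (ρP h r) = f ⟨ρP h r, hR h r hr⟩ := hkR ⟨_, _⟩
        have e2 : k r = f ⟨r, hr⟩ := hkR ⟨r, hr⟩
        rw [e1, e2, hf, hf]
        exact hF_equiv h hh r
      · rintro _ ⟨i, rfl⟩
        show k (ρP h (x i)) = ρC h (k (x i))
        have e2 : k (ρP h (x i) - x i) = f ⟨_, hH h hh (x i)⟩ := hkR ⟨_, _⟩
        have e3 : k (ρP h (x i)) = k (ρP h (x i) - x i) + k (x i) := by
          rw [← map_add, sub_add_cancel]
        rw [e3, e2, hf, hkx]
        show F (ρP h (x i) - x i) + y i = ρC h (y i)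
        rw [hF2 i h hh]
        simp only [y, map_add, hcinv i h hh]
        abel
    intro z
    exact hle (Submodule.mem_top : z ∈ ⊤)
  exact ⟨k, hk_equiv, fun r => by rw [hkR, hf]⟩

/-- The bijection `(G ⧸ H) × H ≃ G`, `(q, t) ↦ q.out * t`. -/
noncomputable def cosetProdEquiv (H : Subgroup G) : (G ⧸ H) × H ≃ G where
  toFun x := x.1.out * x.2
  invFun σ := (QuotientGroup.mk σ, ⟨(QuotientGroup.mk σ : G ⧸ H).out⁻¹ * σ, by
    rw [← QuotientGroup.eq]; exact QuotientGroup.out_eq' _⟩)
  left_inv x := by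
    have h1 : (QuotientGroup.mk (x.1.out * (x.2 : G)) : G ⧸ H) = x.1 := by
      rw [QuotientGroup.mk_mul_of_mem _ x.2.2, QuotientGroup.out_eq']
    refine Prod.ext h1 (Subtype.ext ?_)
    show (QuotientGroup.mk (x.1.out * (x.2 : G)) : G ⧸ H).out⁻¹ * (x.1.out * (x.2 : G)) = x.2
    rw [h1, inv_mul_cancel_left]
  right_inv σ := by
    show (QuotientGroup.mk σ : G ⧸ H).out * ((QuotientGroup.mk σ : G ⧸ H).out⁻¹ * σ) = σ
    rw [mul_inv_cancel_left]

include hR in
/-- **ALG4 (NORM-KILL).**  `G` finite, `R ≤ P` a `G`-stable subgroup with `p P ⊆ R`, `H ≤ G`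
acting trivially on `P / R`, `C` a `G`-module with `N_H(C) ⊆ p · C^H`.  Then for every ADDITIVE
map `g : R → C` the norm `N_G(g) = ∑_σ σ g σ⁻¹` is the restriction of a `G`-homomorphism
`P → C`. -/
theorem alg4 [Fintype G] (p : ℕ) [Fact p.Prime] (hp : ∀ x : P, (p : ℤ) • x ∈ R)
    (H : Subgroup G) [Fintype H] (hH : ∀ h ∈ H, ∀ x : P, ρP h x - x ∈ R)
    (hC : ∀ c : C, ∃ c' : C, (∀ h ∈ H, ρC h c' = c') ∧ ∑ h : H, ρC (h : G) c = (p : ℤ) • c')
    (g : R →ₗ[ℤ] C) :
    ∃ K : P →ₗ[ℤ] C, (∀ (σ : G) (z : P), K (ρP σ z) = ρC σ (K z)) ∧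
      ∀ r : R, K r = normHom ρP ρC R hR g r := by
  classical
  obtain ⟨k, hk, hkR⟩ := exists_extend_normH ρP ρC R hR p hp H hH hC g
  let cj : G → (P →ₗ[ℤ] C) := fun σ => ρC σ ∘ₗ k ∘ₗ ρP σ⁻¹
  have hcj : ∀ (σ : G) (z : P), cj σ z = ρC σ (k (ρP σ⁻¹ z)) := fun σ z => rfl
  have hcj_mul : ∀ (σ h : G), h ∈ H → cj (σ * h) = cj σ := by
    intro σ h hh
    ext z
    rw [hcj, hcj, mul_inv_rev, rho_mul_apply ρC, rho_mul_apply ρP, ← hk h hh, rho_apply_inv]
  haveI : Fintype (G ⧸ H) := Fintype.ofFinite _
  have hcj_out : ∀ σ : G, cj ((QuotientGroup.mk σ : G ⧸ H).out) = cj σ := by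
    intro σ
    obtain ⟨h, hh⟩ := QuotientGroup.mk_out_eq_mul H σ
    rw [hh, hcj_mul σ h h.2]
  refine ⟨∑ q : G ⧸ H, cj q.out, ?_, ?_⟩
  · intro τ z
    simp only [LinearMap.sum_apply, map_sum]
    have h1 : ∀ q : G ⧸ H, cj q.out (ρP τ z) = ρC τ (cj ((τ⁻¹ • q).out) z) := by
      intro q
      have e : (τ⁻¹ • q) = QuotientGroup.mk (τ⁻¹ * q.out) := by
        conv_lhs => rw [← QuotientGroup.out_eq' q]
        rfl
      rw [e, hcj_out, hcj, hcj, mul_inv_rev, inv_inv, rho_mul_apply ρP, ← rho_mul_apply ρC,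
        mul_inv_cancel_left]
    rw [Finset.sum_congr rfl fun q _ => h1 q]
    exact Fintype.sum_equiv (MulAction.toPerm τ⁻¹) _ _ fun q => rfl
  · intro r
    rw [normHom_apply]
    simp only [LinearMap.sum_apply]
    have h1 : ∀ q : G ⧸ H, cj q.out r =
        ∑ t : H, ρC (q.out * t) (extZero R g (ρP (q.out * (t : G))⁻¹ r)) := by
      intro q
      have e1 := hkR ⟨ρP q.out⁻¹ r, hR _ r r.2⟩
      rw [hcj, e1, map_sum]
      refine Finset.sum_congr rfl fun t _ => ?_
      rw [rho_mul_apply ρC, mul_inv_rev, rho_mul_apply ρP]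
    rw [Finset.sum_congr rfl fun q _ => h1 q, ← Fintype.sum_prod_type'
      (f := fun (q : G ⧸ H) (t : H) => ρC (q.out * t) (extZero R g (ρP (q.out * (t : G))⁻¹ r)))]
    refine Fintype.sum_equiv (cosetProdEquiv H) _ _ fun x => ?_
    show _ = ρC (x.1.out * x.2) (g ⟨ρP (x.1.out * (x.2 : G))⁻¹ r, _⟩)
    rw [extZero_of_mem R g (hR _ r r.2)]

/-- **ALG2.**  If `p P ⊆ R` and `f : R → X` is a `G`-homomorphism then `p • f` is the
restriction of a `G`-homomorphism `P → X`, namely `x ↦ f (p x)`. -/
theorem alg2 {X : Type*} [AddCommGroup X] (ρX : Representation ℤ G X) (p : ℕ)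
    (hp : ∀ x : P, (p : ℤ) • x ∈ R) (f : R →ₗ[ℤ] X)
    (hf : ∀ (σ : G) (r : R), f ⟨ρP σ r, hR σ r r.2⟩ = ρX σ (f r)) :
    ∃ K : P →ₗ[ℤ] X, (∀ (σ : G) (z : P), K (ρP σ z) = ρX σ (K z)) ∧
      ∀ r : R, K r = (p : ℤ) • f r := by
  let K : P →ₗ[ℤ] X :=
    { toFun := fun z => f ⟨(p : ℤ) • z, hp z⟩
      map_add' := fun z z' => by
        rw [← map_add]
        exact congrArg f (Subtype.ext (smul_add _ _ _))
      map_smul' := fun n z => by
        rw [RingHom.id_apply, ← map_smul]
        exact congrArg f (Subtype.ext (smul_comm _ _ _)) }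
  refine ⟨K, fun σ z => ?_, fun r => ?_⟩
  · show f ⟨(p : ℤ) • ρP σ z, _⟩ = ρX σ (f ⟨(p : ℤ) • z, hp z⟩)
    rw [← hf]
    exact congrArg f (Subtype.ext (map_smul _ _ _).symm)
  · show f ⟨(p : ℤ) • (r : P), _⟩ = _
    rw [← map_smul]
    exact congrArg f (Subtype.ext rfl)

end Main

end Fermat.Agent.S55.E1.H423

end
-- ===== PACK-END S55/E1/H423/Alg4.lean

-- ===== PACK-BEGIN S55/E1/H295/Alg11Ker.lean
section
/-
S55 engine E1, leaf ALG11 (local injectivity) -- part 1: the kernel of `ρ : P' → P`.
helper295.  Pure additive algebra on `α →₀ ℤ[G']`; complete proofs.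

`freeBasisLift v : (α →₀ ℤ[G]) →+ M`, `single a (single g m) ↦ m • v a g`;
`free_induction`; `ker_vanish`: an additive map on `M ↪ P'` which kills the
lifts of all `g' e_a - s(π g') e_a` kills every element mapping to `ker ρ`.
-/


set_option autoImplicit false

namespace Fermat.Agent.S55.E1.H295

section FreeLift

variable {α G M : Type} [AddCommGroup M]

/-- The additive map `α →₀ ℤ[G] → M` with `single a (single g m) ↦ m • v a g`. -/
noncomputable def freeBasisLift (v : α → G → M) : (α →₀ MonoidAlgebra ℤ G) →+ M :=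
  Finsupp.liftAddHom (fun a =>
    (Finsupp.liftAddHom (fun g => zmultiplesHom M (v a g))).comp
      MonoidAlgebra.coeffAddEquiv.toAddMonoidHom)

@[simp]
lemma freeBasisLift_single_single (v : α → G → M) (a : α) (g : G) (m : ℤ) :
    freeBasisLift v (Finsupp.single a (MonoidAlgebra.single g m)) = m • v a g := by
  simp [freeBasisLift]

lemma zsmul_single_single (a : α) (g : G) (m : ℤ) :
    m • (Finsupp.single a (MonoidAlgebra.single g 1) : α →₀ MonoidAlgebra ℤ G) =
      Finsupp.single a (MonoidAlgebra.single g m) := by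
  rw [Finsupp.smul_single, MonoidAlgebra.smul_single, smul_eq_mul, mul_one]

/-- Induction principle for `α →₀ ℤ[G]`. -/
lemma free_induction {motive : (α →₀ MonoidAlgebra ℤ G) → Prop} (x : α →₀ MonoidAlgebra ℤ G)
    (zero : motive 0) (add : ∀ x y, motive x → motive y → motive (x + y))
    (single : ∀ (a : α) (g : G) (m : ℤ), motive (Finsupp.single a (MonoidAlgebra.single g m))) :
    motive x := by
  induction x using Finsupp.induction_linear with
  | zero => exact zero
  | add x y hx hy => exact add x y hx hy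
  | single a b =>
    induction b using MonoidAlgebra.induction_linear with
    | zero => simpa using zero
    | add x y hx hy =>
      rw [Finsupp.single_add]
      exact add _ _ hx hy
    | single g m => exact single a g m

/-- Two additive maps on `α →₀ ℤ[G]` which agree on the `single a (single g m)` are equal. -/
lemma free_addHom_ext {f f' : (α →₀ MonoidAlgebra ℤ G) →+ M}
    (h : ∀ (a : α) (g : G) (m : ℤ), f (Finsupp.single a (MonoidAlgebra.single g m)) =
      f' (Finsupp.single a (MonoidAlgebra.single g m))) (x : α →₀ MonoidAlgebra ℤ G) :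
    f x = f' x := by
  induction x using free_induction with
  | zero => rw [map_zero, map_zero]
  | add x y hx hy => rw [map_add, map_add, hx, hy]
  | single a g m => exact h a g m

end FreeLift

section Ker

variable {α β G G' M Y : Type} [AddCommGroup M] [AddCommGroup Y]

/-- **Kernel lemma.**  `ρ : α →₀ ℤ[G'] → β →₀ ℤ[G]`, `g' e_a ↦ π(g') e_{ν a}` with `ν` injective
and `s` a section of `π`.  `ι : M → α →₀ ℤ[G']` injective with `ker ρ ⊆ range ι`.  If the
additive map `θ : M → Y` kills every `u` with `ι u = g' e_a - s(π g') e_a`, then `θ` kills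
every `r` with `ρ (ι r) = 0`. -/
theorem ker_vanish (π : G' → G) (s : G → G') (ν : α → β) (hν : Function.Injective ν)
    (ρ : (α →₀ MonoidAlgebra ℤ G') →+ (β →₀ MonoidAlgebra ℤ G))
    (hρ : ∀ (a : α) (g' : G') (m : ℤ), ρ (Finsupp.single a (MonoidAlgebra.single g' m)) =
      Finsupp.single (ν a) (MonoidAlgebra.single (π g') m))
    (hs : ∀ g, π (s g) = g)
    (ι : M →+ (α →₀ MonoidAlgebra ℤ G')) (hι : Function.Injective ι)
    (hker : ∀ x, ρ x = 0 → ∃ r, ι r = x)
    (θ : M →+ Y)
    (hθ : ∀ (a : α) (g' : G') (u : M),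
      ι u = Finsupp.single a (MonoidAlgebra.single g' 1) -
        Finsupp.single a (MonoidAlgebra.single (s (π g')) 1) → θ u = 0)
    (r : M) (hr : ρ (ι r) = 0) : θ r = 0 := by
  classical
  -- the additive section `σ` of `ρ` (on the image)
  let σ : (β →₀ MonoidAlgebra ℤ G) →+ (α →₀ MonoidAlgebra ℤ G') :=
    freeBasisLift (fun b g =>
      if h : ∃ a, ν a = b then Finsupp.single h.choose (MonoidAlgebra.single (s g) 1) else 0)
  have hσ : ∀ (a : α) (g : G) (m : ℤ), σ (Finsupp.single (ν a) (MonoidAlgebra.single g m)) =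
      Finsupp.single a (MonoidAlgebra.single (s g) m) := by
    intro a g m
    have hex : ∃ a', ν a' = ν a := ⟨a, rfl⟩
    have hch : hex.choose = a := hν hex.choose_spec
    simp only [σ, freeBasisLift_single_single, dif_pos hex, hch]
    exact zsmul_single_single a (s g) m
  -- the differences `g' e_a - s(π g') e_a` lift to `M`
  have hlift : ∀ (a : α) (g' : G'), ∃ u : M,
      ι u = Finsupp.single a (MonoidAlgebra.single g' 1) -
        Finsupp.single a (MonoidAlgebra.single (s (π g')) 1) := by
    intro a g'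
    apply hker
    rw [map_sub, hρ, hρ, hs, sub_self]
  choose v hv using hlift
  let Λ : (α →₀ MonoidAlgebra ℤ G') →+ M := freeBasisLift v
  have hΛ : ∀ x, ι (Λ x) = x - σ (ρ x) := by
    intro x
    have := free_addHom_ext (f := ι.comp Λ)
      (f' := AddMonoidHom.id _ - σ.comp ρ) (fun a g' m => by
        simp only [AddMonoidHom.comp_apply, AddMonoidHom.sub_apply, AddMonoidHom.id_apply, Λ,
          freeBasisLift_single_single, map_zsmul, hv, hρ, hσ]
        rw [smul_sub, zsmul_single_single, zsmul_single_single]) x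
    exact this
  have hθΛ : ∀ x, θ (Λ x) = 0 := by
    intro x
    have := free_addHom_ext (f := θ.comp Λ) (f' := 0) (fun a g' m => by
        simp only [AddMonoidHom.comp_apply, AddMonoidHom.zero_apply, Λ,
          freeBasisLift_single_single, map_zsmul, hθ a g' (v a g') (hv a g'), smul_zero]) x
    exact this
  have h1 : Λ (ι r) = r := by
    apply hι
    rw [hΛ, hr, map_zero, sub_zero]
  rw [← h1]
  exact hθΛ _

end Ker

end Fermat.Agent.S55.E1.H295

end
-- ===== PACK-END S55/E1/H295/Alg11Ker.lean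

-- ===== PACK-BEGIN S41/H585/Defs.lean
section


/-!
# S41, leaf AMALG (helper585): definitions

`r` a prime, `N` a level prime to `r`.  Inside `SL(2, ℚ)`:
* `J1 N : Γ₀(N) →* SL(2, ℚ)` the inclusion (cast of entries),
* `J2 N r : Γ₀(N) →* SL(2, ℚ)`, `γ ↦ δ⁻¹ γ δ = !![a, b / r; r * c, d]`, `δ = diag(r, 1)`,
* `Ga N = range J1`, `Gb N r = range J2`,
* `Delta N r = {g ∈ SL(2, ℚ) | entries in ℤ[1/r], c ∈ N ℤ[1/r]}` (`= Γ₀(N)[1/r]`).
-/

set_option autoImplicit false

namespace Fermat.Agent.S41.H585

open Matrix CongruenceSubgroup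
open scoped MatrixGroups

/-- `x ∈ ℤ[1/r]`. -/
def IsRInt (r : ℕ) (x : ℚ) : Prop := ∃ (k : ℕ) (m : ℤ), x * (r : ℚ) ^ k = m

lemma isRInt_int (r : ℕ) (m : ℤ) : IsRInt r (m : ℚ) := ⟨0, m, by simp⟩

lemma isRInt_zero (r : ℕ) : IsRInt r 0 := ⟨0, 0, by simp⟩

lemma isRInt_one (r : ℕ) : IsRInt r 1 := ⟨0, 1, by simp⟩

lemma IsRInt.add {r : ℕ} {x y : ℚ} (hx : IsRInt r x) (hy : IsRInt r y) : IsRInt r (x + y) := by
  obtain ⟨k, m, hm⟩ := hx
  obtain ⟨l, n, hn⟩ := hy
  refine ⟨k + l, m * (r : ℤ) ^ l + n * (r : ℤ) ^ k, ?_⟩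
  push_cast
  rw [← hm, ← hn, pow_add]; ring

lemma IsRInt.mul {r : ℕ} {x y : ℚ} (hx : IsRInt r x) (hy : IsRInt r y) : IsRInt r (x * y) := by
  obtain ⟨k, m, hm⟩ := hx
  obtain ⟨l, n, hn⟩ := hy
  refine ⟨k + l, m * n, ?_⟩
  push_cast
  rw [← hm, ← hn, pow_add]; ring

lemma IsRInt.neg {r : ℕ} {x : ℚ} (hx : IsRInt r x) : IsRInt r (-x) := by
  obtain ⟨k, m, hm⟩ := hx
  exact ⟨k, -m, by push_cast; rw [← hm]; ring⟩

lemma IsRInt.sub {r : ℕ} {x y : ℚ} (hx : IsRInt r x) (hy : IsRInt r y) : IsRInt r (x - y) := by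
  rw [sub_eq_add_neg]; exact hx.add hy.neg

lemma isRInt_inv_pow (r : ℕ) (hr : r ≠ 0) (k : ℕ) : IsRInt r (((r : ℚ) ^ k)⁻¹) :=
  ⟨k, 1, by
    have : (r : ℚ) ^ k ≠ 0 := pow_ne_zero _ (Nat.cast_ne_zero.mpr hr)
    simp [this]⟩

lemma IsRInt.nsmul {r : ℕ} {x : ℚ} (hx : IsRInt r x) (n : ℤ) : IsRInt r (n * x) :=
  (isRInt_int r n).mul hx

/-- `Γ₀(N)[1/r]`: matrices in `SL(2, ℚ)` with entries in `ℤ[1/r]` and lower left entry in
`N ℤ[1/r]`. -/
def Delta (N r : ℕ) : Subgroup SL(2, ℚ) where
  carrier := {g | (∀ i j, IsRInt r (g i j)) ∧ ∃ t : ℚ, IsRInt r t ∧ g 1 0 = N * t}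
  one_mem' := by
    refine ⟨fun i j => ?_, 0, isRInt_zero r, by simp⟩
    fin_cases i <;> fin_cases j <;> simp [isRInt_one, isRInt_zero]
  mul_mem' := by
    rintro a b ⟨ha, ta, hta, hta'⟩ ⟨hb, tb, htb, htb'⟩
    have hmul : ∀ i j, (a * b) i j = a i 0 * b 0 j + a i 1 * b 1 j := by
      intro i j
      rw [Matrix.SpecialLinearGroup.coe_mul, Matrix.mul_apply, Fin.sum_univ_two]
    refine ⟨fun i j => ?_, ta * b 0 0 + a 1 1 * tb, ?_, ?_⟩
    · rw [hmul]
      exact ((ha i 0).mul (hb 0 j)).add ((ha i 1).mul (hb 1 j))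
    · exact (hta.mul (hb 0 0)).add ((ha 1 1).mul htb)
    · rw [hmul, hta', htb']; ring
  inv_mem' := by
    rintro a ⟨ha, ta, hta, hta'⟩
    have h00 : (a⁻¹ : SL(2, ℚ)) 0 0 = a 1 1 := by
      simp [Matrix.SpecialLinearGroup.SL2_inv_expl]
    have h01 : (a⁻¹ : SL(2, ℚ)) 0 1 = -a 0 1 := by
      simp [Matrix.SpecialLinearGroup.SL2_inv_expl]
    have h10 : (a⁻¹ : SL(2, ℚ)) 1 0 = -a 1 0 := by
      simp [Matrix.SpecialLinearGroup.SL2_inv_expl]
    have h11 : (a⁻¹ : SL(2, ℚ)) 1 1 = a 0 0 := by
      simp [Matrix.SpecialLinearGroup.SL2_inv_expl]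
    refine ⟨fun i j => ?_, -ta, hta.neg, ?_⟩
    · fin_cases i <;> fin_cases j
      · simpa [h00] using ha 1 1
      · simpa [h01] using (ha 0 1).neg
      · simpa [h10] using (ha 1 0).neg
      · simpa [h11] using ha 0 0
    · rw [h10, hta']; ring

lemma mem_Delta {N r : ℕ} {g : SL(2, ℚ)} :
    g ∈ Delta N r ↔ (∀ i j, IsRInt r (g i j)) ∧ ∃ t : ℚ, IsRInt r t ∧ g 1 0 = N * t := Iff.rfl

/-- The inclusion `Γ₀(N) → SL(2, ℚ)`. -/
def J1 (N : ℕ) : Gamma0 N →* SL(2, ℚ) :=
  (Matrix.SpecialLinearGroup.map (Int.castRingHom ℚ)).comp (Gamma0 N).subtype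

lemma J1_apply {N : ℕ} (γ : Gamma0 N) (i j : Fin 2) :
    (J1 N γ) i j = ((γ : SL(2, ℤ)) i j : ℚ) := rfl

/-- `diag(1/r, r) ∈ SL(2, ℚ)`... the matrix `δ⁻¹ γ δ` for `δ = diag(r, 1)`. -/
def conjMat (r : ℕ) (g : SL(2, ℚ)) : Matrix (Fin 2) (Fin 2) ℚ :=
  !![g 0 0, g 0 1 / r; r * g 1 0, g 1 1]

lemma det_conjMat {r : ℕ} (hr : r ≠ 0) (g : SL(2, ℚ)) : (conjMat r g).det = 1 := by
  have hr' : (r : ℚ) ≠ 0 := Nat.cast_ne_zero.mpr hr
  have hdet := g.det_coe
  rw [Matrix.det_fin_two] at hdet
  rw [conjMat, Matrix.det_fin_two_of]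
  field_simp
  linarith

end Fermat.Agent.S41.H585

end
-- ===== PACK-END S41/H585/Defs.lean

-- ===== PACK-BEGIN S59/NMP/H587/SpanBC.lean
section



/-!
# S59 / cell NMP, leaf LGC, bridge BETTI (helper587) — fullness is stable under base change

* `span_baseChange_eq_top` : `V` finite free over `A`, `B` an `A`-algebra, `s ⊆ End_A V` with
  `A`-span `⊤`.  Then the `B`-span of `{f ⊗ B | f ∈ s}` is `End_B (B ⊗ V)`.
* `span_range_baseChangeAlong` : if `A[G_ℚ] → End_A V_ρ` is onto, then
  `B[G_ℚ] → End_B V_{ρ ⊗ B}` is onto.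
-/

set_option autoImplicit false
set_option linter.unusedSectionVars false
set_option linter.style.haveILetI false

noncomputable section

open scoped TensorProduct

namespace Fermat.Agent.S59.NMP.H587

section Abstract

variable {A B : Type*} [CommRing A] [CommRing B] [Algebra A B]
  {V : Type*} [AddCommGroup V] [Module A V] [Module.Free A V] [Module.Finite A V]

theorem baseChange_mem_span {s : Set (Module.End A V)} {f : Module.End A V}
    (hf : f ∈ Submodule.span A s) :
    f.baseChange B ∈ Submodule.span B ((fun g : Module.End A V => g.baseChange B) '' s) := by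
  induction hf using Submodule.span_induction with
  | mem x hx => exact Submodule.subset_span ⟨x, hx, rfl⟩
  | zero =>
    rw [LinearMap.baseChange_zero]
    exact zero_mem _
  | add x y _ _ hx hy =>
    rw [LinearMap.baseChange_add]
    exact add_mem hx hy
  | smul a x _ hx =>
    have h1 : (a • x).baseChange B = (algebraMap A B a) • x.baseChange B := by
      apply TensorProduct.AlgebraTensorModule.curry_injective
      refine LinearMap.ext fun b => LinearMap.ext fun v => ?_
      simp [TensorProduct.tmul_smul, TensorProduct.smul_tmul', Algebra.smul_def, mul_comm]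
    rw [h1]
    exact Submodule.smul_mem _ _ hx

theorem span_baseChange_eq_top {s : Set (Module.End A V)} (hs : Submodule.span A s = ⊤) :
    Submodule.span B ((fun g : Module.End A V => g.baseChange B) '' s) = ⊤ := by
  classical
  rw [eq_top_iff]
  intro g _
  set b := Module.Free.chooseBasis A V with hb
  set b' := Algebra.TensorProduct.basis B b with hb'
  have hall : ∀ f : Module.End A V,
      f.baseChange B ∈ Submodule.span B ((fun g : Module.End A V => g.baseChange B) '' s) :=
    fun f => baseChange_mem_span (by rw [hs]; exact Submodule.mem_top)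
  have hsingle : ∀ i j, Matrix.toLin b' b' (Matrix.single i j (1 : B)) =
      (Matrix.toLin b b (Matrix.single i j (1 : A))).baseChange B := by
    intro i j
    apply (LinearMap.toMatrix b' b').injective
    rw [LinearMap.toMatrix_toLin, hb', LinearMap.toMatrix_baseChange, LinearMap.toMatrix_toLin]
    ext k l
    simp only [Matrix.single_apply, Matrix.map_apply]
    split_ifs <;> simp
  have hg : g = Matrix.toLin b' b' (LinearMap.toMatrix b' b' g) := by
    rw [Matrix.toLin_toMatrix]
  rw [hg, Matrix.matrix_eq_sum_single (LinearMap.toMatrix b' b' g)]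
  simp only [map_sum]
  refine Submodule.sum_mem _ fun i _ => Submodule.sum_mem _ fun j _ => ?_
  have e1 : (Matrix.single i j (LinearMap.toMatrix b' b' g i j) : Matrix _ _ B)
      = LinearMap.toMatrix b' b' g i j • Matrix.single i j (1 : B) := by
    rw [Matrix.smul_single, smul_eq_mul, mul_one]
  rw [e1, map_smul, hsingle]
  exact Submodule.smul_mem _ _ (hall _)

end Abstract

/-- **Fullness is stable under base change.** -/
theorem span_range_baseChangeAlong {A B : Type} [CommRing A] [IsLocalRing A] [CommRing B]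
    [IsLocalRing B] (φ : A →+* B) (hφ : IsLocalHom φ) (ρ : GaloisRepAdic A)
    (h : Submodule.span A (Set.range ρ.ρ) = ⊤) :
    Submodule.span B (Set.range (ρ.baseChangeAlong φ hφ).ρ) = ⊤ := by
  letI : Algebra A B := φ.toAlgebra
  have h1 := span_baseChange_eq_top (B := B) h
  have h2 : Set.range (ρ.baseChangeAlong φ hφ).ρ =
      (fun g : Module.End A ρ.V => g.baseChange B) '' Set.range ρ.ρ := by
    ext f
    constructor
    · rintro ⟨σ, rfl⟩
      exact ⟨ρ.ρ σ, ⟨σ, rfl⟩, rfl⟩
    · rintro ⟨_, ⟨σ, rfl⟩, rfl⟩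
      exact ⟨σ, rfl⟩
  rw [h2]
  exact h1

end Fermat.Agent.S59.NMP.H587

end
end
-- ===== PACK-END S59/NMP/H587/SpanBC.lean

-- ===== PACK-BEGIN S59/NMP/H43/LgcDev.lean
section


/-!
# S59 / NMP-LGC — the dévissage step DEV (helper43), Mathlib only

Abstract setting: a group `G` acting on an abelian group `J` (think `J = J₀(N)(ℚ̄)`), a subgroup
`I ≤ G` (inertia at a place over `p`), a subgroup `K ≤ J` (the kernel of the specialisation map)
such that

* `haug` : `σ • y - y ∈ K` for `σ ∈ I` (inertia acts trivially on the special fibre),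
* `hdiv` : every `p ^ n`-torsion point is `p` times a `p ^ (n + 1)`-torsion point,
* `h1`   : (MAXUNR) a `p`-torsion point of `K` lies in the augmentation subgroup of `J[p]`.

Then `K ∩ J[p ^ n]` is contained in the augmentation subgroup of `J[p ^ n]` for every `n`
(`redKer_le_iAug_h43`), and every relation `c x ∈ K` valid on `J` (Eichler–Shimura at `p`:
`c = φ² - T_p φ + p`) takes values in the augmentation subgroup on `J[p ^ n]`
(`core_of_es_h43`).

The augmentation subgroup is written unfolded:
`AddSubgroup.closure {z | ∃ σ ∈ I, ∃ y, p ^ n • y = 0 ∧ z = σ • y - y}`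
(`= Fermat.Agent.S33.iAug I (Fermat.Agent.S33.torsSub J (p ^ n))`, see `augSet_eq_h43`-style
unfolding in the consumer).
-/

set_option autoImplicit false

namespace Fermat.Agent.S59.NMP.H43

variable {G J : Type*} [Group G] [AddCommGroup J] [DistribMulAction G J]

/-- The generators of the augmentation subgroup of `J[m]`. -/
def augGen_h43 (I : Subgroup G) (J : Type*) [AddCommGroup J] [DistribMulAction G J] (m : ℕ) :
    Set J :=
  {z | ∃ σ ∈ I, ∃ y : J, m • y = 0 ∧ z = σ • y - y}

/-- The augmentation subgroup of `J[m]`:  `⟨σ • y - y : σ ∈ I, m • y = 0⟩`. -/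
def augSub_h43 (I : Subgroup G) (J : Type*) [AddCommGroup J] [DistribMulAction G J] (m : ℕ) :
    AddSubgroup J :=
  AddSubgroup.closure (augGen_h43 I J m)

theorem augSub_h43_mono (I : Subgroup G) {m m' : ℕ} (h : m ∣ m') :
    augSub_h43 I J m ≤ augSub_h43 I J m' := by
  apply AddSubgroup.closure_mono
  rintro z ⟨σ, hσ, y, hy, rfl⟩
  obtain ⟨c, rfl⟩ := h
  refine ⟨σ, hσ, y, ?_, rfl⟩
  rw [mul_nsmul, hy, nsmul_zero]

theorem augSub_h43_le (I : Subgroup G) (K : AddSubgroup J)
    (haug : ∀ σ ∈ I, ∀ y : J, σ • y - y ∈ K) (m : ℕ) : augSub_h43 I J m ≤ K := by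
  rw [augSub_h43, AddSubgroup.closure_le]
  rintro z ⟨σ, hσ, y, -, rfl⟩
  exact haug σ hσ y

/-- Elements of the augmentation subgroup of `J[m]` are `m`-torsion. -/
theorem nsmul_eq_zero_of_mem_augSub_h43 (I : Subgroup G) (m : ℕ) {z : J}
    (hz : z ∈ augSub_h43 I J m) : m • z = 0 := by
  induction hz using AddSubgroup.closure_induction with
  | mem z hz =>
    obtain ⟨σ, -, y, hy, rfl⟩ := hz
    rw [nsmul_sub, ← smul_comm σ m y, hy, smul_zero, sub_zero]
  | zero => exact nsmul_zero _
  | add a b _ _ ha hb => rw [nsmul_add, ha, hb, add_zero]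
  | neg a _ ha => rw [smul_neg, ha, neg_zero]

/-- Lifting along multiplication by `p`: `p • augSub J[p ^ (n+1)] ⊇ augSub J[p ^ n]`. -/
theorem exists_nsmul_eq_of_mem_augSub_h43 (I : Subgroup G) (p : ℕ)
    (hdiv : ∀ (n : ℕ) (z : J), p ^ n • z = 0 → ∃ y : J, p ^ (n + 1) • y = 0 ∧ p • y = z)
    (n : ℕ) {z : J} (hz : z ∈ augSub_h43 I J (p ^ n)) :
    ∃ w ∈ augSub_h43 I J (p ^ (n + 1)), p • w = z := by
  induction hz using AddSubgroup.closure_induction with
  | mem z hz =>
    obtain ⟨σ, hσ, y, hy, rfl⟩ := hz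
    obtain ⟨y', hy', hpy⟩ := hdiv n y hy
    refine ⟨σ • y' - y', AddSubgroup.subset_closure ⟨σ, hσ, y', hy', rfl⟩, ?_⟩
    rw [nsmul_sub, ← smul_comm σ p y', hpy]
  | zero => exact ⟨0, AddSubgroup.zero_mem _, nsmul_zero _⟩
  | add a b _ _ ha hb =>
    obtain ⟨wa, hwa, rfl⟩ := ha
    obtain ⟨wb, hwb, rfl⟩ := hb
    exact ⟨wa + wb, AddSubgroup.add_mem _ hwa hwb, nsmul_add _ _ _⟩
  | neg a _ ha =>
    obtain ⟨wa, hwa, rfl⟩ := ha
    refine ⟨-wa, AddSubgroup.neg_mem _ hwa, ?_⟩
    rw [smul_neg]

/-- **DEV.**  If the `p`-torsion of the kernel of reduction `K` lies in the augmentation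
subgroup of `J[p]` (MAXUNR), inertia acts trivially modulo `K`, and `J[p^∞]` is `p`-divisible,
then `K ∩ J[p ^ n] ≤ I_aug J[p ^ n]` for every `n`. -/
theorem redKer_le_iAug_h43 (I : Subgroup G) (K : AddSubgroup J) (p : ℕ)
    (haug : ∀ σ ∈ I, ∀ y : J, σ • y - y ∈ K)
    (hdiv : ∀ (n : ℕ) (z : J), p ^ n • z = 0 → ∃ y : J, p ^ (n + 1) • y = 0 ∧ p • y = z)
    (h1 : ∀ x ∈ K, p • x = 0 → x ∈ augSub_h43 I J p) :
    ∀ (n : ℕ) (x : J), x ∈ K → p ^ n • x = 0 → x ∈ augSub_h43 I J (p ^ n) := by
  intro n
  induction n with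
  | zero =>
    intro x _ hx
    rw [pow_zero, one_nsmul] at hx
    rw [hx]
    exact AddSubgroup.zero_mem _
  | succ n ih =>
    intro x hxK hx
    have hz : p ^ n • (p • x) = 0 := by
      rw [← mul_nsmul, mul_comm, ← pow_succ]
      exact hx
    have hzK : p • x ∈ K := AddSubgroup.nsmul_mem K hxK p
    obtain ⟨w, hw, hpw⟩ := exists_nsmul_eq_of_mem_augSub_h43 I p hdiv n (ih (p • x) hzK hz)
    have hwK : w ∈ K := augSub_h43_le I K haug _ hw
    have hxw : x - w ∈ augSub_h43 I J p :=
      h1 (x - w) (AddSubgroup.sub_mem K hxK hwK) (by rw [nsmul_sub, hpw, sub_self])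
    have hle : augSub_h43 I J p ≤ augSub_h43 I J (p ^ (n + 1)) :=
      augSub_h43_mono I (dvd_pow_self p (Nat.succ_ne_zero n))
    have := AddSubgroup.add_mem _ (hle hxw) hw
    rwa [sub_add_cancel] at this

/-- **CORE from DEV.**  If `c : J →+ J` takes values in the kernel of reduction `K`
(Eichler–Shimura at `p`: `c = φ² - T_p φ + p`), then on `J[p ^ n]` it takes values in the
augmentation subgroup of `J[p ^ n]`. -/
theorem core_of_es_h43 (I : Subgroup G) (K : AddSubgroup J) (p : ℕ)
    (haug : ∀ σ ∈ I, ∀ y : J, σ • y - y ∈ K)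
    (hdiv : ∀ (n : ℕ) (z : J), p ^ n • z = 0 → ∃ y : J, p ^ (n + 1) • y = 0 ∧ p • y = z)
    (h1 : ∀ x ∈ K, p • x = 0 → x ∈ augSub_h43 I J p)
    (c : J →+ J) (hc : ∀ x : J, c x ∈ K) (n : ℕ) (x : J) (hx : p ^ n • x = 0) :
    c x ∈ augSub_h43 I J (p ^ n) :=
  redKer_le_iAug_h43 I K p haug hdiv h1 n (c x) (hc x) (by rw [← map_nsmul, hx, map_zero])

/-- The Eichler–Shimura shape: `c = φ ∘ φ - t ∘ φ + p`. -/
theorem core_of_frob_h43 (I : Subgroup G) (K : AddSubgroup J) (p : ℕ)
    (haug : ∀ σ ∈ I, ∀ y : J, σ • y - y ∈ K)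
    (hdiv : ∀ (n : ℕ) (z : J), p ^ n • z = 0 → ∃ y : J, p ^ (n + 1) • y = 0 ∧ p • y = z)
    (h1 : ∀ x ∈ K, p • x = 0 → x ∈ augSub_h43 I J p)
    (φ t : J →+ J) (hes : ∀ x : J, φ (φ x) - t (φ x) + p • x ∈ K)
    (n : ℕ) (x : J) (hx : p ^ n • x = 0) :
    φ (φ x) - t (φ x) + p • x ∈ augSub_h43 I J (p ^ n) := by
  have h := core_of_es_h43 I K p haug hdiv h1
    (φ.comp φ - t.comp φ + nsmulAddMonoidHom (α := J) p) (fun x => by simpa using hes x) n x hx
  simpa using h

end Fermat.Agent.S59.NMP.H43

end
-- ===== PACK-END S59/NMP/H43/LgcDev.lean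

-- ===== PACK-BEGIN S17/H770/DerLaurent.lean
section



/-!
# S17 / G-DIV piece DER (helper770): the coefficientwise derivation on Laurent series

For a derivation `d` of a field `L` (over any base ring `R`), `laurentDer d` is the additive map
of `L((q))` acting coefficientwise; it satisfies the Leibniz rule (`laurentDer_mul`), kills
`coeffEmb L x` (series with rational coefficients), extends `d` on constants, does not lower the
`q`-adic order and preserves every `laurentBaseChange L F₀`.  `fieldDer d F₀` is the induced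
derivation of the field `laurentBaseChange L F₀`.
-/

set_option autoImplicit false

namespace Fermat.Agent.S17.H770

open HahnSeries ModularCurve

section Laurent

variable {R L : Type*} [CommRing R] [Field L] [Algebra R L]

/-- The coefficientwise map of `L((q))` attached to a derivation of `L`. -/
noncomputable def laurentDer (d : Derivation R L L) : LaurentSeries L →+ LaurentSeries L where
  toFun x := x.map d
  map_zero' := by
    ext k
    simp
  map_add' x y := by
    ext k
    simp

@[simp]
theorem laurentDer_coeff (d : Derivation R L L) (x : LaurentSeries L) (k : ℤ) :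
    (laurentDer d x).coeff k = d (x.coeff k) :=
  rfl

theorem support_laurentDer_subset (d : Derivation R L L) (x : LaurentSeries L) :
    (laurentDer d x).support ⊆ x.support := by
  intro k hk
  rw [HahnSeries.mem_support] at hk ⊢
  intro h
  exact hk (by rw [laurentDer_coeff, h, map_zero])

/-- Leibniz rule. -/
theorem laurentDer_mul (d : Derivation R L L) (x y : LaurentSeries L) :
    laurentDer d (x * y) = x * laurentDer d y + y * laurentDer d x := by
  ext k
  rw [laurentDer_coeff, HahnSeries.coeff_add, HahnSeries.coeff_mul,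
    HahnSeries.coeff_mul_right' y.isPWO_support (support_laurentDer_subset d y),
    mul_comm y (laurentDer d x),
    HahnSeries.coeff_mul_left' x.isPWO_support (support_laurentDer_subset d x),
    map_sum, ← Finset.sum_add_distrib]
  refine Finset.sum_congr rfl fun ij _ => ?_
  simp only [Derivation.leibniz, laurentDer_coeff, smul_eq_mul]
  ring

theorem laurentDer_eq_zero_iff (d : Derivation R L L) (x : LaurentSeries L) :
    laurentDer d x = 0 ↔ ∀ k, d (x.coeff k) = 0 := by
  constructor
  · intro h k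
    rw [← laurentDer_coeff, h, HahnSeries.coeff_zero]
  · intro h
    ext k
    rw [laurentDer_coeff, h, HahnSeries.coeff_zero]

theorem laurentDer_single (d : Derivation R L L) (k : ℤ) (c : L) :
    laurentDer d (HahnSeries.single k c) = HahnSeries.single k (d c) := by
  ext m
  rcases eq_or_ne m k with rfl | hm
  · simp [HahnSeries.coeff_single_same]
  · simp [HahnSeries.coeff_single_of_ne hm]

theorem laurentDer_algebraMap (d : Derivation R L L) (c : L) :
    laurentDer d (algebraMap L (LaurentSeries L) c) = algebraMap L (LaurentSeries L) (d c) := by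
  rw [algebraMap_laurentSeries_eq_single, algebraMap_laurentSeries_eq_single, laurentDer_single]

@[simp]
theorem laurentDer_one (d : Derivation R L L) : laurentDer d (1 : LaurentSeries L) = 0 := by
  have h := laurentDer_algebraMap d 1
  rwa [map_one, Derivation.map_one_eq_zero, map_zero] at h

theorem laurentDer_inv (d : Derivation R L L) (x : LaurentSeries L) :
    laurentDer d x⁻¹ = -(x⁻¹ ^ 2 * laurentDer d x) := by
  rcases eq_or_ne x 0 with rfl | hx
  · simp
  · have h := laurentDer_mul d x x⁻¹
    rw [mul_inv_cancel₀ hx, laurentDer_one] at h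
    have h2 : x * laurentDer d x⁻¹ = -(x⁻¹ * laurentDer d x) := eq_neg_of_add_eq_zero_left h.symm
    have h3 : laurentDer d x⁻¹ = x⁻¹ * (x * laurentDer d x⁻¹) := by
      rw [← mul_assoc, inv_mul_cancel₀ hx, one_mul]
    rw [h3, h2]
    ring

/-- The coefficientwise derivation does not lower the `q`-adic order. -/
theorem order_le_order_laurentDer (d : Derivation R L L) (x : LaurentSeries L)
    (h : laurentDer d x ≠ 0) : x.order ≤ (laurentDer d x).order := by
  have hc : (laurentDer d x).coeff (laurentDer d x).order ≠ 0 :=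
    fun h0 => h (HahnSeries.coeff_order_eq_zero.1 h0)
  exact HahnSeries.order_le_of_coeff_ne_zero (fun h0 => hc (by
    rw [laurentDer_coeff, h0, map_zero]))

/-- A derivation of a field kills the image of `ℚ`. -/
theorem derivation_algebraMap_rat [Algebra ℚ L] (d : Derivation R L L) (r : ℚ) :
    d (algebraMap ℚ L r) = 0 := by
  have h : algebraMap ℚ L r = (r.num : L) / (r.den : L) := by
    rw [eq_ratCast, Rat.cast_def]
  rw [h, Derivation.leibniz_div, Derivation.map_intCast, Derivation.map_natCast]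
  simp

/-- The coefficientwise derivation kills series with rational coefficients. -/
theorem laurentDer_coeffEmb [Algebra ℚ L] (d : Derivation R L L) (x : LaurentSeries ℚ) :
    laurentDer d (coeffEmb L x) = 0 := by
  ext k
  rw [laurentDer_coeff, coeffEmb_coeff, derivation_algebraMap_rat, HahnSeries.coeff_zero]

/-- The coefficientwise derivation preserves `laurentBaseChange L F₀`. -/
theorem laurentDer_mem_laurentBaseChange [Algebra ℚ L] (d : Derivation R L L)
    (F₀ : IntermediateField ℚ (LaurentSeries ℚ)) {x : LaurentSeries L}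
    (hx : x ∈ laurentBaseChange L F₀) : laurentDer d x ∈ laurentBaseChange L F₀ := by
  rw [mem_laurentBaseChange_iff] at hx
  induction hx using Subfield.closure_induction with
  | mem y hy =>
      rcases hy with ⟨a, rfl⟩ | ⟨z, hz, rfl⟩
      · rw [laurentDer_algebraMap]
        exact (laurentBaseChange L F₀).algebraMap_mem _
      · rw [laurentDer_coeffEmb]
        exact zero_mem _
  | one => simp
  | add x y _ _ hx hy => simpa using add_mem hx hy
  | neg x _ hx => simpa using neg_mem hx
  | inv x hx' hx =>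
      rw [← mem_laurentBaseChange_iff] at hx'
      rw [laurentDer_inv]
      exact neg_mem (mul_mem (pow_mem (inv_mem hx') 2) hx)
  | mul x y hx' hy' hx hy =>
      rw [← mem_laurentBaseChange_iff] at hx' hy'
      rw [laurentDer_mul]
      exact add_mem (mul_mem hx' hy) (mul_mem hy' hx)

end Laurent

section BaseChange

variable {R L : Type*} [CommRing R] [Field L] [Algebra R L] [Algebra ℚ L]

/-- The derivation of the function field `F_L = laurentBaseChange L F₀` induced by a
derivation of the constant field `L` (coefficientwise on `q`-expansions). -/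
noncomputable def fieldDer (d : Derivation R L L) (F₀ : IntermediateField ℚ (LaurentSeries ℚ)) :
    Derivation ℤ (laurentBaseChange L F₀) (laurentBaseChange L F₀) :=
  Derivation.mk'
    (AddMonoidHom.toIntLinearMap
      { toFun := fun x => ⟨laurentDer d x, laurentDer_mem_laurentBaseChange d F₀ x.2⟩
        map_zero' := Subtype.ext (by simp)
        map_add' := fun x y => Subtype.ext (by simp) })
    (fun x y => Subtype.ext (by
      change laurentDer d ((x : LaurentSeries L) * y) = _
      rw [laurentDer_mul]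
      rfl))

@[simp]
theorem fieldDer_coe (d : Derivation R L L) (F₀ : IntermediateField ℚ (LaurentSeries ℚ))
    (x : laurentBaseChange L F₀) :
    ((fieldDer d F₀ x : laurentBaseChange L F₀) : LaurentSeries L) = laurentDer d x :=
  rfl

theorem fieldDer_mul (d : Derivation R L L) (F₀ : IntermediateField ℚ (LaurentSeries ℚ))
    (x y : laurentBaseChange L F₀) :
    fieldDer d F₀ (x * y) = x * fieldDer d F₀ y + y * fieldDer d F₀ x := by
  rw [Derivation.leibniz, smul_eq_mul, smul_eq_mul]

theorem fieldDer_algebraMap (d : Derivation R L L) (F₀ : IntermediateField ℚ (LaurentSeries ℚ))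
    (c : L) :
    fieldDer d F₀ (algebraMap L (laurentBaseChange L F₀) c) =
      algebraMap L (laurentBaseChange L F₀) (d c) :=
  Subtype.ext (laurentDer_algebraMap d c)

theorem fieldDer_coeffEmb (d : Derivation R L L) (F₀ : IntermediateField ℚ (LaurentSeries ℚ))
    {x : LaurentSeries ℚ} (hx : x ∈ F₀) :
    fieldDer d F₀ ⟨coeffEmb L x, coeffEmb_mem_laurentBaseChange L hx⟩ = 0 :=
  Subtype.ext (laurentDer_coeffEmb d x)

theorem fieldDer_inv (d : Derivation R L L) (F₀ : IntermediateField ℚ (LaurentSeries ℚ))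
    (x : laurentBaseChange L F₀) :
    fieldDer d F₀ x⁻¹ = -(x⁻¹ ^ 2 * fieldDer d F₀ x) := by
  rw [Derivation.leibniz_inv, smul_eq_mul, neg_mul]

theorem fieldDer_eq_zero_iff (d : Derivation R L L) (F₀ : IntermediateField ℚ (LaurentSeries ℚ))
    (x : laurentBaseChange L F₀) :
    fieldDer d F₀ x = 0 ↔ ∀ k, d ((x : LaurentSeries L).coeff k) = 0 := by
  rw [← laurentDer_eq_zero_iff, Subtype.ext_iff]
  rfl

end BaseChange

end Fermat.Agent.S17.H770

end
-- ===== PACK-END S17/H770/DerLaurent.lean

-- ===== PACK-BEGIN S17/H800/Der.lean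
section
/-
S17 row, piece G-DIV / DER groundwork (helper800).  Mathlib + Prelude `LaurentCoeff` only.

* `extendDer` / `extendDer_algebraMap` : derivations extend along formally étale ring maps;
* `exists_derivation_eq_one` (**DER-0**, enough derivations): `K ⊆ L` fields of characteristic `0`,
  `c ∈ L` transcendental over `K` ⟹ there is a `K`-derivation `δ` of `L` with `δ c = 1`;
  `isAlgebraic_of_forall_derivation_eq_zero` : if every `K`-derivation of `L` kills `c`, then `c`
  is algebraic over `K`;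
* `coeffDer δ : L((q)) →+ L((q))` (**DER-a**): the coefficientwise derivation attached to a
  derivation `δ` of `L`: Leibniz rule `coeffDer_mul`, `coeffDer_inv`, values on constants
  `coeffDer_algebraMap`, `coeffDer_coeffMap` / `coeffDer_coeffEmb` (kills series with coefficients
  in `ker δ`, e.g. rational coefficients), `coeffDer_eq_zero_iff`, `order_le_order_coeffDer`,
  `coeffDer_mem_laurentBaseChange` (stability of `L · F₀`).
-/



set_option autoImplicit false
set_option linter.unusedSectionVars false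
set_option linter.style.haveILetI false

noncomputable section

open scoped TensorProduct
open KaehlerDifferential HahnSeries ModularCurve

namespace Fermat.Agent.S17.H800

section Extend

variable (R S T : Type*) [CommRing R] [CommRing S] [CommRing T]
  [Algebra R S] [Algebra R T] [Algebra S T] [IsScalarTower R S T] [Algebra.FormallyEtale S T]
variable {N : Type*} [AddCommGroup N] [Module R N] [Module S N] [Module T N]
  [IsScalarTower R S N] [IsScalarTower R T N] [IsScalarTower S T N]

/-- Extension of a derivation along a formally étale ring map. -/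
noncomputable def extendDer (d : Derivation R S N) : Derivation R T N :=
  ((d.liftKaehlerDifferential.liftBaseChange T) ∘ₗ
      (tensorKaehlerEquivOfFormallyEtale R S T).symm.toLinearMap).compDer (D R T)

theorem extendDer_algebraMap (d : Derivation R S N) (s : S) :
    extendDer R S T d (algebraMap S T s) = d s := by
  simp [extendDer, tensorKaehlerEquivOfFormallyEtale_symm_D_algebraMap]

end Extend

section Field

open scoped IntermediateField.algebraAdjoinAdjoin

variable {K L : Type*} [Field K] [Field L] [Algebra K L] [CharZero K]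

/-- In characteristic `0`, a field is formally étale over the polynomial subalgebra generated by
a transcendence basis. -/
theorem formallyEtale_adjoin_of_isTranscendenceBasis {ι : Type*} {v : ι → L}
    (hv : IsTranscendenceBasis K v) :
    Algebra.FormallyEtale (Algebra.adjoin K (Set.range v)) L := by
  haveI : CharZero L := charZero_of_injective_algebraMap (algebraMap K L).injective
  haveI : Algebra.FormallyEtale (Algebra.adjoin K (Set.range v))
      (IntermediateField.adjoin K (Set.range v)) :=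
    Algebra.FormallyEtale.of_isLocalization (nonZeroDivisors _)
  haveI : Algebra.IsAlgebraic (IntermediateField.adjoin K (Set.range v)) L :=
    hv.isAlgebraic_field
  haveI : Algebra.IsSeparable (IntermediateField.adjoin K (Set.range v)) L :=
    Algebra.IsAlgebraic.isSeparable_of_perfectField
  haveI : Algebra.FormallyEtale (IntermediateField.adjoin K (Set.range v)) L :=
    Algebra.FormallyEtale.of_isSeparable _ _
  exact Algebra.FormallyEtale.comp _ (IntermediateField.adjoin K (Set.range v)) _

/-- The partial derivative with respect to one member of an algebraically independent family,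
as an `L`-valued derivation of the polynomial subalgebra. -/
theorem exists_derivation_adjoin {ι : Type*} [DecidableEq ι] {v : ι → L}
    (hv : AlgebraicIndependent K v) (i : ι) :
    ∃ d : Derivation K (Algebra.adjoin K (Set.range v)) L,
      ∀ j, d ⟨v j, Algebra.subset_adjoin (Set.mem_range_self j)⟩ = if j = i then 1 else 0 := by
  letI algSL : Algebra (MvPolynomial ι K) L := (MvPolynomial.aeval v).toAlgebra
  haveI : IsScalarTower K (MvPolynomial ι K) L :=
    IsScalarTower.of_algebraMap_eq' (MvPolynomial.aeval v).comp_algebraMap.symm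
  let d₀ : Derivation K (MvPolynomial ι K) L :=
    MvPolynomial.mkDerivation K (fun j => if j = i then (1 : L) else 0)
  let e := hv.aevalEquiv
  have hsmul : ∀ (p : MvPolynomial ι K) (x : L), p • x = MvPolynomial.aeval v p * x :=
    fun p x => rfl
  have hcoe : ∀ a : Algebra.adjoin K (Set.range v),
      MvPolynomial.aeval v (e.symm a) = (a : L) := by
    intro a
    have := hv.algebraMap_aevalEquiv (e.symm a)
    rw [AlgEquiv.apply_symm_apply] at this
    exact this.symm
  refine ⟨Derivation.mk' ((d₀ : MvPolynomial ι K →ₗ[K] L) ∘ₗ e.symm.toLinearMap) ?_, ?_⟩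
  · intro a b
    simp only [LinearMap.coe_comp, Function.comp_apply, AlgEquiv.toLinearMap_apply, map_mul]
    show d₀ (e.symm a * e.symm b) = a • d₀ (e.symm b) + b • d₀ (e.symm a)
    rw [d₀.leibniz, hsmul, hsmul, hcoe, hcoe]
    rfl
  · intro j
    show d₀ (e.symm _) = _
    have : e.symm ⟨v j, Algebra.subset_adjoin (Set.mem_range_self j)⟩ = MvPolynomial.X j := by
      rw [AlgEquiv.symm_apply_eq]
      apply Subtype.ext
      have := hv.algebraMap_aevalEquiv (MvPolynomial.X j)
      rw [MvPolynomial.aeval_X] at this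
      exact this.symm
    rw [this, MvPolynomial.mkDerivation_X]

/-- **Enough derivations** (characteristic `0`): for `c ∈ L` transcendental over `K` there is
a `K`-derivation `∂` of `L` with `δ c = 1`. -/
theorem exists_derivation_eq_one {c : L} (hc : Transcendental K c) :
    ∃ δ : Derivation K L L, δ c = 1 := by
  classical
  have hind : AlgebraicIndepOn K id ({c} : Set L) := by
    show AlgebraicIndependent K (fun x : ({c} : Set L) => id (x : L))
    rw [algebraicIndependent_singleton_iff (⟨c, rfl⟩ : ({c} : Set L))]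
    exact hc
  obtain ⟨s, hcs, hs⟩ := exists_isTranscendenceBasis_superset hind
  haveI := formallyEtale_adjoin_of_isTranscendenceBasis hs
  let i : s := ⟨c, hcs rfl⟩
  obtain ⟨d, hd⟩ := exists_derivation_adjoin hs.1 i
  refine ⟨extendDer K (Algebra.adjoin K (Set.range ((↑) : s → L))) L d, ?_⟩
  have h1 : c = algebraMap (Algebra.adjoin K (Set.range ((↑) : s → L))) L
      ⟨((↑) : s → L) i, Algebra.subset_adjoin (Set.mem_range_self i)⟩ := rfl
  rw [h1, extendDer_algebraMap, hd i, if_pos rfl]

/-- If every `K`-derivation of `L` kills `c`, then `c` is algebraic over `K` (char. `0`). -/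
theorem isAlgebraic_of_forall_derivation_eq_zero {c : L}
    (h : ∀ δ : Derivation K L L, δ c = 0) : IsAlgebraic K c := by
  by_contra hc
  obtain ⟨δ, h1⟩ := exists_derivation_eq_one (K := K) (c := c) hc
  rw [h δ] at h1
  exact zero_ne_one h1

end Field


section CoeffDer

variable {K L : Type*} [CommRing K] [CommRing L] [Algebra K L]

/-- Coefficientwise application of a derivation to a Laurent series. -/
def coeffDerFun (δ : Derivation K L L) (f : LaurentSeries L) : LaurentSeries L :=
  f.map (δ : L →+ L)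

@[simp]
theorem coeffDerFun_coeff (δ : Derivation K L L) (f : LaurentSeries L) (n : ℤ) :
    (coeffDerFun δ f).coeff n = δ (f.coeff n) := rfl

theorem support_coeffDerFun_subset (δ : Derivation K L L) (f : LaurentSeries L) :
    (coeffDerFun δ f).support ⊆ f.support := by
  intro n hn
  rw [HahnSeries.mem_support] at hn ⊢
  intro h0
  apply hn
  rw [coeffDerFun_coeff, h0, map_zero]

theorem coeffDerFun_add (δ : Derivation K L L) (f g : LaurentSeries L) :
    coeffDerFun δ (f + g) = coeffDerFun δ f + coeffDerFun δ g := by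
  ext n
  simp

theorem coeffDerFun_mul (δ : Derivation K L L) (f g : LaurentSeries L) :
    coeffDerFun δ (f * g) = f * coeffDerFun δ g + g * coeffDerFun δ f := by
  ext n
  rw [coeffDerFun_coeff, HahnSeries.coeff_add, HahnSeries.coeff_mul,
    HahnSeries.coeff_mul_right' g.isPWO_support (support_coeffDerFun_subset δ g),
    mul_comm g, HahnSeries.coeff_mul_left' f.isPWO_support (support_coeffDerFun_subset δ f),
    map_sum, ← Finset.sum_add_distrib]
  refine Finset.sum_congr rfl fun ij _ => ?_
  rw [δ.leibniz, coeffDerFun_coeff, coeffDerFun_coeff, smul_eq_mul, smul_eq_mul]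
  ring

/-- The coefficientwise derivation of `L((q))` attached to a derivation of `L`
(as an additive map; Leibniz rule: `coeffDer_mul`). -/
def coeffDer (δ : Derivation K L L) : LaurentSeries L →+ LaurentSeries L where
  toFun := coeffDerFun δ
  map_zero' := by ext n; simp
  map_add' := coeffDerFun_add δ

theorem coeffDer_apply (δ : Derivation K L L) (f : LaurentSeries L) :
    coeffDer δ f = coeffDerFun δ f := rfl

@[simp]
theorem coeffDer_coeff (δ : Derivation K L L) (f : LaurentSeries L) (n : ℤ) :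
    (coeffDer δ f).coeff n = δ (f.coeff n) := rfl

/-- Leibniz rule. -/
theorem coeffDer_mul (δ : Derivation K L L) (f g : LaurentSeries L) :
    coeffDer δ (f * g) = f * coeffDer δ g + g * coeffDer δ f :=
  coeffDerFun_mul δ f g

theorem coeffDer_one (δ : Derivation K L L) : coeffDer δ (1 : LaurentSeries L) = 0 := by
  have h := coeffDer_mul δ 1 1
  rw [mul_one, one_mul] at h
  have h2 : coeffDer δ (1 : LaurentSeries L) + coeffDer δ 1 = coeffDer δ 1 + 0 := by
    rw [add_zero]; exact h.symm
  exact add_left_cancel h2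

theorem coeffDer_eq_zero_iff (δ : Derivation K L L) (f : LaurentSeries L) :
    coeffDer δ f = 0 ↔ ∀ n, δ (f.coeff n) = 0 := by
  constructor
  · intro h n
    rw [← coeffDer_coeff, h, HahnSeries.coeff_zero]
  · intro h
    ext n
    rw [coeffDer_coeff, h, HahnSeries.coeff_zero]

theorem coeffDer_single (δ : Derivation K L L) (n : ℤ) (c : L) :
    coeffDer δ (HahnSeries.single n c) = HahnSeries.single n (δ c) := by
  ext m
  rcases eq_or_ne m n with rfl | hm
  · simp [HahnSeries.coeff_single_same]
  · simp [HahnSeries.coeff_single_of_ne hm]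

/-- The coefficientwise derivation kills the series with coefficients in the kernel. -/
theorem coeffDer_coeffMap {R : Type*} [CommRing R] (φ : R →+* L) (δ : Derivation K L L)
    (hφ : ∀ r, δ (φ r) = 0) (g : LaurentSeries R) : coeffDer δ (coeffMap φ g) = 0 := by
  rw [coeffDer_eq_zero_iff]
  intro n
  rw [coeffMap_coeff, hφ]

theorem support_coeffDer_subset (δ : Derivation K L L) (f : LaurentSeries L) :
    (coeffDer δ f).support ⊆ f.support := support_coeffDerFun_subset δ f

/-- The coefficientwise derivation does not lower the `q`-order. -/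
theorem order_le_order_coeffDer (δ : Derivation K L L) {f : LaurentSeries L}
    (h : coeffDer δ f ≠ 0) : f.order ≤ (coeffDer δ f).order := by
  have hf : f ≠ 0 := fun h0 => h (by rw [h0, map_zero])
  have h1 : (coeffDer δ f).order ∈ (coeffDer δ f).support :=
    (HahnSeries.mem_support _ _).mpr (HahnSeries.coeff_order_eq_zero.not.mpr h)
  have h2 : (coeffDer δ f).order ∈ f.support := support_coeffDer_subset δ f h1
  exact HahnSeries.order_le_of_coeff_ne_zero h2

end CoeffDer

section Field

variable {K L : Type*} [CommRing K] [Field L] [Algebra K L]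

theorem coeffDer_C (δ : Derivation K L L) (c : L) :
    coeffDer δ (HahnSeries.C c : LaurentSeries L) = HahnSeries.C (δ c) := by
  rw [HahnSeries.C_apply, HahnSeries.C_apply]
  exact coeffDer_single δ 0 c

theorem coeffDer_algebraMap (δ : Derivation K L L) (c : L) :
    coeffDer δ (algebraMap L (LaurentSeries L) c) = algebraMap L (LaurentSeries L) (δ c) := by
  rw [algebraMap_laurentSeries_eq_single, algebraMap_laurentSeries_eq_single]
  exact coeffDer_single δ 0 c

/-- Quotient rule for inverses. -/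
theorem coeffDer_inv (δ : Derivation K L L) (f : LaurentSeries L) :
    coeffDer δ f⁻¹ = -(f⁻¹ ^ 2 * coeffDer δ f) := by
  rcases eq_or_ne f 0 with rfl | hf
  · simp
  · have h := coeffDer_mul δ f f⁻¹
    rw [mul_inv_cancel₀ hf, coeffDer_one] at h
    have h2 : f * coeffDer δ f⁻¹ = -(f⁻¹ * coeffDer δ f) := by
      rw [eq_neg_iff_add_eq_zero]; exact h.symm
    have h3 : coeffDer δ f⁻¹ = f⁻¹ * (f * coeffDer δ f⁻¹) := by
      rw [← mul_assoc, inv_mul_cancel₀ hf, one_mul]
    rw [h3, h2]
    ring

/-- A derivation of a field of characteristic `0` kills the rational numbers. -/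
theorem derivation_algebraMap_rat [Algebra ℚ L] (δ : Derivation K L L) (r : ℚ) :
    δ (algebraMap ℚ L r) = 0 := by
  have h : algebraMap ℚ L r = (r.num : L) / (r.den : L) := by
    conv_lhs => rw [← Rat.num_div_den r]
    rw [map_div₀, map_intCast, map_natCast]
  rw [h, Derivation.leibniz_div, Derivation.map_intCast, Derivation.map_natCast]
  simp

variable [Algebra ℚ L]

/-- The coefficientwise derivation kills the series with rational coefficients. -/
theorem coeffDer_coeffEmb (δ : Derivation K L L) (x : LaurentSeries ℚ) :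
    coeffDer δ (coeffEmb L x) = 0 :=
  coeffDer_coeffMap (algebraMap ℚ L) δ (derivation_algebraMap_rat δ) x

/-- The coefficientwise derivation preserves the base change `L · F₀` of a field of Laurent
series with rational coefficients. -/
theorem coeffDer_mem_laurentBaseChange (δ : Derivation K L L)
    (F₀ : IntermediateField ℚ (LaurentSeries ℚ)) {x : LaurentSeries L}
    (hx : x ∈ laurentBaseChange L F₀) : coeffDer δ x ∈ laurentBaseChange L F₀ := by
  induction hx using IntermediateField.adjoin_induction with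
  | mem y hy =>
    obtain ⟨z, -, rfl⟩ := hy
    rw [coeffDer_coeffEmb]
    exact zero_mem _
  | algebraMap c =>
    rw [coeffDer_algebraMap]
    exact IntermediateField.algebraMap_mem _ _
  | add y z hy hz ihy ihz =>
    rw [map_add]
    exact add_mem ihy ihz
  | inv y hy ih =>
    rw [coeffDer_inv]
    exact neg_mem (mul_mem (pow_mem (inv_mem hy) 2) ih)
  | mul y z hy hz ihy ihz =>
    rw [coeffDer_mul]
    exact add_mem (mul_mem hy ihz) (mul_mem hz ihy)

end Field

end Fermat.Agent.S17.H800

end
end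
-- ===== PACK-END S17/H800/Der.lean

-- ===== PACK-BEGIN S41/Spec/DS.lean
section


/-!
# Row S41, block DS (Deligne–Serre lifting on a lattice) — interface

Sub-architect: helper401.  Proof: `Fermat.Agent.S41.H401.ds : Spec.DSStatement`
(file `Fermat/Agent/S41/H401/DS.lean`).

Setting: `V` a complex vector space (in the application `V = Additive (Gamma0 (N*q)) →+ ℂ`),
`T i` (`i : ι`) linear endomorphisms of `V` (in the application the Hecke transfers),
`K ≤ V` a finitely generated additive subgroup stable under all `T i`, on which the `T i`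
commute (in the application the image of `ker j ⊂ C_{Nq}(ℤ)`).
`S ⊆ ι` is the set of indices at which a congruence is known.

Input: `y ∈ K`, `y ∉ p K`, with `T i y ≡ lam i • y  mod p K` for `i ∈ S`.
Output: a nonzero simultaneous eigenvector `v ∈ span_ℂ K` of ALL `T i`, with eigenvalues
`b i ∈ ℤ̄`, and a maximal ideal `𝔪' ∋ p` of `ℤ̄` with `b i ≡ lam i mod 𝔪'` for `i ∈ S`.
-/

set_option autoImplicit false

namespace Fermat.Agent.S41.Spec

/-- Block DS of row S41: Deligne–Serre lifting of a mod-`p` eigenvector of a lattice to an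
eigenvector in characteristic `0` with congruent algebraic-integer eigenvalues. -/
def DSStatement : Prop :=
  ∀ (ι V : Type) [AddCommGroup V] [Module ℂ V] (T : ι → Module.End ℂ V) (K : AddSubgroup V),
    K.FG → (∀ i, ∀ x ∈ K, T i x ∈ K) → (∀ i j, ∀ x ∈ K, T i (T j x) = T j (T i x)) →
    ∀ (p : ℕ) (S : Set ι) (lam : ι → ℤ) (y : V), y ∈ K → (∀ z ∈ K, y ≠ p • z) →
      (∀ i ∈ S, ∃ z ∈ K, T i y - lam i • y = p • z) →
      ∃ (v : V) (b : ι → integralClosure ℤ ℂ) (𝔪' : Ideal (integralClosure ℤ ℂ)),
        v ≠ 0 ∧ v ∈ Submodule.span ℂ (K : Set V) ∧ (∀ i, T i v = (b i : ℂ) • v) ∧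
        𝔪'.IsMaximal ∧ ((p : ℕ) : integralClosure ℤ ℂ) ∈ 𝔪' ∧
        ∀ i ∈ S, b i - ((lam i : ℤ) : integralClosure ℤ ℂ) ∈ 𝔪'

end Fermat.Agent.S41.Spec

end
-- ===== PACK-END S41/Spec/DS.lean

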