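import Mathlib
import Mathlib.RingTheory.Depth.Rees
import Mathlib.RingTheory.Regular.Free
import Mathlib.RingTheory.Regular.RegularSequence
import Mathlib.RingTheory.Ideal.Quotient.Noetherian
import Fermat.Prelude.Def_FLTPrelim_GaloisRep
import Fermat.Prelude.Def_FLTPrelim_Modularity
import Fermat.Prelude.Def_ModularCurve_LaurentCoeff
import Mathlib.Algebra.Group.Subgroup.Finite
import Mathlib.Algebra.Module.ZMod
import Mathlib.Data.Fintype.Pigeonhole
import Mathlib.Order.WellFounded
import Mathlib.Data.Fintype.Order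
import Mathlib.Logic.Function.Iterate
import Fermat.Agent.Pack.S43C.E4L0
import Fermat.Agent.Pack.S43MC.G0E29L0

set_option linter.all false

-- ===== PACK-BEGIN S41/H161/IK/Avg.lean
section


/-!
# S41 / IK (helper161): the averaging lemma

`G` a finite commutative group, `v ∈ G` of order `p` (odd prime), `A` an abelian group killed by `p`,
`F : G → A` with `F (v e) = F e + κ`.  Then `∑ e, F e = 0`.
-/

set_option autoImplicit false

namespace Fermat.Agent.S41.H161

/-- **AVG**: a function on a finite commutative group which is shifted by a constant under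
multiplication by an element of odd prime order `p` has sum zero in a group killed by `p`. -/
theorem sum_eq_zero_of_shift {G : Type*} [CommGroup G] [Fintype G] {A : Type*} [AddCommGroup A]
    {p : ℕ} (hp : p.Prime) (hp2 : p ≠ 2) (hA : ∀ a : A, p • a = 0) (v : G) (hv : orderOf v = p)
    (F : G → A) (κ : A) (hF : ∀ e, F (v * e) = F e + κ) : ∑ e, F e = 0 := by
  classical
  have hpow : ∀ (i : ℕ) (e : G), F (v ^ i * e) = F e + i • κ := by
    intro i
    induction i with
    | zero => intro e; simp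
    | succ i ih => intro e; rw [pow_succ', mul_assoc, hF, ih, succ_nsmul, add_assoc]
  have hκ : ∑ i ∈ Finset.range p, i • κ = 0 := by
    rw [← Finset.sum_smul, Finset.sum_range_id]
    obtain ⟨m, hm⟩ : 2 ∣ p - 1 := by
      have hodd : Odd p := hp.odd_of_ne_two hp2
      obtain ⟨k, hk⟩ := hodd
      exact ⟨k, by omega⟩
    have : p * (p - 1) / 2 = m * p := by
      rw [hm, ← mul_assoc, mul_comm p 2, mul_assoc, Nat.mul_div_cancel_left _ (by norm_num : 0 < 2),
        mul_comm]
    rw [this, mul_smul, hA, smul_zero]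
  have horbit : ∀ e : G, ∑ i ∈ Finset.range p, F (v ^ i * e) = 0 := by
    intro e
    simp only [hpow, Finset.sum_add_distrib, Finset.sum_const, Finset.card_range, hA, zero_add]
    exact hκ
  have hfin : IsOfFinOrder v := by
    rw [← orderOf_pos_iff, hv]; exact hp.pos
  rw [← Finset.sum_fiberwise (s := Finset.univ)
    (g := (QuotientGroup.mk : G → G ⧸ Subgroup.zpowers v))]
  refine Finset.sum_eq_zero fun L _ => ?_
  obtain ⟨r, rfl⟩ := QuotientGroup.mk_surjective L
  have hset : (Finset.univ.filter fun e : G => (e : G ⧸ Subgroup.zpowers v) = r) =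
      (Finset.range p).image (fun i => v ^ i * r) := by
    ext e
    simp only [Finset.mem_filter, Finset.mem_univ, true_and, Finset.mem_image, Finset.mem_range]
    rw [QuotientGroup.eq, ← Subgroup.inv_mem_iff, mul_inv_rev, inv_inv,
      hfin.mem_zpowers_iff_mem_range_orderOf, hv]
    simp only [Finset.mem_image, Finset.mem_range]
    constructor
    · rintro ⟨i, hi, h⟩
      exact ⟨i, hi, by rw [h]; simp⟩
    · rintro ⟨i, hi, h⟩
      exact ⟨i, hi, by rw [← h]; simp⟩
  rw [hset, Finset.sum_image]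
  · exact horbit r
  · intro i hi j hj hij
    have h1 : v ^ i = v ^ j := mul_right_cancel hij
    have := pow_injOn_Iio_orderOf (x := v)
    rw [hv] at this
    exact this (by simpa using hi) (by simpa using hj) h1

end Fermat.Agent.S41.H161

end
-- ===== PACK-END S41/H161/IK/Avg.lean

-- ===== PACK-BEGIN S19/H255/LocalAbs.lean
section


/-!
# Cell A3 / S19, work package L05 (helper255): the local criterion, abstract form

`K` a field, `Z` a subring of `K`, `X` a finite set, `B` a subring of the ring of functions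
`X → K` which contains the constants of `Z` and consists of `Z`-valued functions.

* `mem_of_forall_valuationSubring` (**L05a**): a function `b : X → K` lies in `B` as soon as for
  every valuation subring `V ⊇ Z` of `K` and every point `x₀` there is a "denominator" `q ∈ B`
  which is a unit of `V` at `x₀` and satisfies `q * b ∈ B`  (the conductor of `b` is the unit ideal).
* `exists_denominator_of_disc`: the relation `q * b = p` is only needed on the residue disc of
  `x₀` (the points which `B` cannot separate from `x₀` modulo the maximal ideal of `V`).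
* `mem_of_forall_disc`: the two combined.
* `inv_mem_of_forall_not_mem_nonunits` (**L05b**): an element of `B` all of whose values are units
  at every `V ⊇ Z` is a unit of `B`.

Mathlib only; all proofs complete.
-/

set_option autoImplicit false

namespace Fermat.Agent.S19.H255

variable {K : Type*} [Field K] {X : Type*}

/-- evaluation at a point, as a ring hom from a subring of `Z`-valued functions to `Z`. -/
def evalHom (Z : Subring K) (B : Subring (X → K)) (hval : ∀ f ∈ B, ∀ x, f x ∈ Z) (x : X) :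
    B →+* Z where
  toFun f := ⟨(f : X → K) x, hval f f.2 x⟩
  map_one' := rfl
  map_mul' _ _ := rfl
  map_zero' := rfl
  map_add' _ _ := rfl

theorem evalHom_surjective (Z : Subring K) (B : Subring (X → K))
    (hconst : ∀ a ∈ Z, (fun _ : X => a) ∈ B) (hval : ∀ f ∈ B, ∀ x, f x ∈ Z) (x : X) :
    Function.Surjective (evalHom Z B hval x) := fun a =>
  ⟨⟨fun _ => (a : K), hconst a a.2⟩, Subtype.ext rfl⟩

/-- the conductor of `b` into `B` -/
def conductor (B : Subring (X → K)) (b : X → K) : Ideal B where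
  carrier := {q | (q : X → K) * b ∈ B}
  add_mem' := by
    intro q q' hq hq'
    show ((q + q' : B) : X → K) * b ∈ B
    have : ((q + q' : B) : X → K) * b = (q : X → K) * b + (q' : X → K) * b := by
      push_cast; ring
    rw [this]
    exact B.add_mem hq hq'
  zero_mem' := by
    show ((0 : B) : X → K) * b ∈ B
    simp only [ZeroMemClass.coe_zero, zero_mul]
    exact B.zero_mem
  smul_mem' := by
    intro c q hq
    show ((c • q : B) : X → K) * b ∈ B
    have : ((c • q : B) : X → K) * b = (c : X → K) * ((q : X → K) * b) := by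
      rw [smul_eq_mul]; push_cast; ring
    rw [this]
    exact B.mul_mem c.2 hq

theorem mem_conductor {B : Subring (X → K)} {b : X → K} {q : B} :
    q ∈ conductor B b ↔ (q : X → K) * b ∈ B := Iff.rfl

/-- If every point evaluation maps an ideal `I` of `B` onto the unit ideal, then `I = ⊤`. -/
theorem ideal_eq_top_of_forall_eval [Finite X] (Z : Subring K) (B : Subring (X → K))
    (hconst : ∀ a ∈ Z, (fun _ : X => a) ∈ B) (hval : ∀ f ∈ B, ∀ x, f x ∈ Z) (I : Ideal B)
    (h : ∀ x, I.map (evalHom Z B hval x) = ⊤) : I = ⊤ := by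
  classical
  cases nonempty_fintype X
  have hq : ∀ x : X, ∃ q ∈ I, (q : X → K) x = 1 := by
    intro x
    have h1 : (1 : Z) ∈ I.map (evalHom Z B hval x) := by rw [h x]; trivial
    obtain ⟨q, hq, hq1⟩ :=
      (Ideal.mem_map_iff_of_surjective _ (evalHom_surjective Z B hconst hval x)).mp h1
    exact ⟨q, hq, congrArg Subtype.val hq1⟩
  choose q hqI hq1 using hq
  have hprod : (∏ x : X, (1 - q x) : B) = 0 := by
    apply Subtype.ext
    funext y
    have : ((∏ x : X, (1 - q x) : B) : X → K) y = ∏ x : X, (1 - (q x : X → K) y) := by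
      rw [← Subring.coe_subtype, map_prod]
      simp [Finset.prod_apply]
    rw [this]
    exact Finset.prod_eq_zero (Finset.mem_univ y) (by rw [hq1 y]; simp)
  rw [Ideal.eq_top_iff_one, ← Ideal.Quotient.eq_zero_iff_mem]
  have h2 : Ideal.Quotient.mk I (∏ x : X, (1 - q x)) = 1 := by
    rw [map_prod]
    apply Finset.prod_eq_one
    intro x _
    rw [map_sub, map_one, Ideal.Quotient.eq_zero_iff_mem.mpr (hqI x), sub_zero]
  rw [map_one, ← h2, hprod, map_zero]

/-- **L05a** (conductor criterion). -/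
theorem mem_of_forall_valuationSubring [Finite X] (Z : Subring K) (B : Subring (X → K))
    (hconst : ∀ a ∈ Z, (fun _ : X => a) ∈ B) (hval : ∀ f ∈ B, ∀ x, f x ∈ Z) (b : X → K)
    (h : ∀ V : ValuationSubring K, Z ≤ V.toSubring → ∀ x₀ : X,
      ∃ q ∈ B, q x₀ ∉ V.nonunits ∧ q * b ∈ B) : b ∈ B := by
  have htop : conductor B b = ⊤ := by
    apply ideal_eq_top_of_forall_eval Z B hconst hval
    intro x₀
    by_contra hne
    obtain ⟨V, hZV, hV⟩ := Ideal.image_subset_nonunits_valuationSubring _ hne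
    obtain ⟨q, hqB, hqV, hqb⟩ := h V hZV x₀
    apply hqV
    apply hV
    refine ⟨evalHom Z B hval x₀ ⟨q, hqB⟩, ?_, rfl⟩
    exact Ideal.mem_map_of_mem _ (mem_conductor.mpr hqb)
  have h1 : (1 : B) ∈ conductor B b := by rw [htop]; trivial
  have := mem_conductor.mp h1
  simpa using this

/-- Elements which are not non-units of a valuation subring are closed under finite products. -/
theorem prod_not_mem_nonunits (V : ValuationSubring K) {ι : Type*} (s : Finset ι) (f : ι → K)
    (h : ∀ i ∈ s, f i ∉ V.nonunits) : (∏ i ∈ s, f i) ∉ V.nonunits := by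
  classical
  induction s using Finset.induction_on with
  | empty =>
    simp only [Finset.prod_empty, ValuationSubring.mem_nonunits_iff, map_one, lt_self_iff_false,
      not_false_eq_true]
  | insert a s ha ih =>
    rw [Finset.prod_insert ha]
    have h1 := h a (Finset.mem_insert_self a s)
    have h2 := ih (fun i hi => h i (Finset.mem_insert_of_mem hi))
    rw [ValuationSubring.mem_nonunits_iff, not_lt] at h1 h2 ⊢
    rw [map_mul]
    calc (1 : _) = 1 * 1 := (one_mul 1).symm
      _ ≤ _ := mul_le_mul' h1 h2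

/-- Globalisation: a relation `q * b = p` on the residue disc of `x₀` yields a denominator on
all of `X`. -/
theorem exists_denominator_of_disc [Finite X] (Z : Subring K) (B : Subring (X → K))
    (hconst : ∀ a ∈ Z, (fun _ : X => a) ∈ B) (hval : ∀ f ∈ B, ∀ x, f x ∈ Z) (b : X → K)
    (V : ValuationSubring K) (x₀ : X) (p q : X → K) (hp : p ∈ B) (hq : q ∈ B)
    (hqx : q x₀ ∉ V.nonunits)
    (hrel : ∀ x, (∀ f ∈ B, f x - f x₀ ∈ V.nonunits) → q x * b x = p x) :
    ∃ q' ∈ B, q' x₀ ∉ V.nonunits ∧ q' * b ∈ B := by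
  classical
  cases nonempty_fintype X
  -- separating functions for the points outside the disc
  have hsep : ∀ x : X, ∃ f ∈ B, (∀ g ∈ B, g x - g x₀ ∈ V.nonunits) ∨ f x₀ - f x ∉ V.nonunits := by
    intro x
    by_cases hx : ∀ g ∈ B, g x - g x₀ ∈ V.nonunits
    · exact ⟨0, B.zero_mem, Or.inl hx⟩
    · push Not at hx
      obtain ⟨f, hf, hfx⟩ := hx
      refine ⟨f, hf, Or.inr ?_⟩
      intro hcon
      apply hfx
      have : f x - f x₀ = -(f x₀ - f x) := by ring
      rw [this]
      rw [ValuationSubring.mem_nonunits_iff] at hcon ⊢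
      rwa [Valuation.map_neg]
  choose f hfB hf using hsep
  let bad : Finset X := Finset.univ.filter (fun x => ¬ ∀ g ∈ B, g x - g x₀ ∈ V.nonunits)
  let e : X → K := ∏ x ∈ bad, (f x - fun _ => f x x)
  have heB : e ∈ B := by
    apply Subring.prod_mem
    intro x _
    exact B.sub_mem (hfB x) (hconst _ (hval _ (hfB x) x))
  have he_apply : ∀ y, e y = ∏ x ∈ bad, (f x y - f x x) := by
    intro y
    simp only [e, Finset.prod_apply, Pi.sub_apply]
  have he0 : ∀ y ∈ bad, e y = 0 := by
    intro y hy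
    rw [he_apply]
    exact Finset.prod_eq_zero hy (sub_self _)
  have hex₀ : e x₀ ∉ V.nonunits := by
    rw [he_apply]
    apply prod_not_mem_nonunits
    intro x hx
    have hx' : ¬ ∀ g ∈ B, g x - g x₀ ∈ V.nonunits := (Finset.mem_filter.mp hx).2
    rcases hf x with h | h
    · exact absurd h hx'
    · exact h
  refine ⟨e * q, B.mul_mem heB hq, ?_, ?_⟩
  · have : (e * q) x₀ = ∏ i ∈ ({0, 1} : Finset (Fin 2)), (![e x₀, q x₀] i) := by
      simp [Pi.mul_apply]
    rw [this]
    apply prod_not_mem_nonunits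
    intro i _
    fin_cases i
    · simpa using hex₀
    · simpa using hqx
  · have : e * q * b = e * p := by
      funext x
      simp only [Pi.mul_apply]
      by_cases hx : x ∈ bad
      · rw [he0 x hx]; simp
      · have hx' : ∀ g ∈ B, g x - g x₀ ∈ V.nonunits := by
          by_contra hcon
          exact hx (Finset.mem_filter.mpr ⟨Finset.mem_univ x, hcon⟩)
        rw [mul_assoc, hrel x hx']
    rw [this]
    exact B.mul_mem heB hp

/-- **L05a, disc form.** -/
theorem mem_of_forall_disc [Finite X] (Z : Subring K) (B : Subring (X → K))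
    (hconst : ∀ a ∈ Z, (fun _ : X => a) ∈ B) (hval : ∀ f ∈ B, ∀ x, f x ∈ Z) (b : X → K)
    (h : ∀ V : ValuationSubring K, Z ≤ V.toSubring → ∀ x₀ : X,
      ∃ p ∈ B, ∃ q ∈ B, q x₀ ∉ V.nonunits ∧
        ∀ x, (∀ f ∈ B, f x - f x₀ ∈ V.nonunits) → q x * b x = p x) : b ∈ B := by
  apply mem_of_forall_valuationSubring Z B hconst hval b
  intro V hZV x₀
  obtain ⟨p, hp, q, hq, hqx, hrel⟩ := h V hZV x₀
  exact exists_denominator_of_disc Z B hconst hval b V x₀ p q hp hq hqx hrel

/-- **L05b.** An element of `B` whose values are units at every valuation subring containing `Z`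
is a unit of `B`: its pointwise inverse lies in `B`. -/
theorem inv_mem_of_forall_not_mem_nonunits [Finite X] (Z : Subring K) (B : Subring (X → K))
    (hconst : ∀ a ∈ Z, (fun _ : X => a) ∈ B) (hval : ∀ f ∈ B, ∀ x, f x ∈ Z) (q : X → K)
    (hq : q ∈ B)
    (hunit : ∀ V : ValuationSubring K, Z ≤ V.toSubring → ∀ x : X, q x ∉ V.nonunits) :
    (fun x => (q x)⁻¹) ∈ B := by
  apply mem_of_forall_valuationSubring Z B hconst hval
  intro V hZV x₀
  refine ⟨q, hq, hunit V hZV x₀, ?_⟩
  have : (q * fun x => (q x)⁻¹) = 1 := by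
    funext x
    have hx : q x ≠ 0 := by
      intro h0
      apply hunit V hZV x
      rw [h0]
      exact V.nonunits.zero_mem
    simp [hx]
  rw [this]
  exact B.one_mem

end Fermat.Agent.S19.H255

end
-- ===== PACK-END S19/H255/LocalAbs.lean

-- ===== PACK-BEGIN S57/ABLite.lean
section





/-!
# A maximal Cohen-Macaulay module over a regular local ring is free (elementary version)

`Fermat.Agent.S57.ABLite.free_of_isRegular`: let `A` be a Noetherian local ring whose maximal
ideal is generated by (at most) `n` elements, and let `N` be a finite `A`-module carrying an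
`N`-regular sequence of length `n` inside the maximal ideal. Then `N` is free.

The proof is by induction on `n`, using prime avoidance to pick `x ∈ 𝔪 \ 𝔪²` that is `N`-regular,
the Rees theorem (to see that `N/xN` still has a regular sequence of length `n - 1`) and
`Module.free_quotSMulTop_iff_free` to lift freeness from `N/xN` over `A/(x)`.
-/

set_option autoImplicit false
set_option linter.style.haveILetI false

universe u

open IsLocalRing RingTheory.Sequence CategoryTheory Abelian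

namespace Fermat.Agent.S57.ABLite

/-- Prime avoidance: a nontrivial finite module over a Noetherian local ring having a regular
element in the maximal ideal has a regular element in `𝔪 \ 𝔪²`. -/
lemma exists_regular_notMem_sq {A : Type u} [CommRing A] [IsLocalRing A] [IsNoetherianRing A]
    {N : Type u} [AddCommGroup N] [Module A N] [Module.Finite A N] [Nontrivial N]
    {y : A} (hy : y ∈ maximalIdeal A) (hyreg : IsSMulRegular N y) :
    ∃ x ∈ maximalIdeal A, x ∉ (maximalIdeal A) ^ 2 ∧ IsSMulRegular N x := by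
  classical
  by_contra h
  push Not at h
  have hfin := associatedPrimes.finite A N
  have hsub : ((maximalIdeal A : Ideal A) : Set A) ⊆
      ((id ((maximalIdeal A) ^ 2) : Ideal A) : Set A) ∪
        ((id ((maximalIdeal A) ^ 2) : Ideal A) : Set A) ∪
        ⋃ i ∈ (↑hfin.toFinset : Set (Ideal A)), ((id i : Ideal A) : Set A) := by
    intro x hx
    by_cases hx2 : x ∈ (maximalIdeal A) ^ 2
    · exact Or.inl (Or.inl hx2)
    · right
      have hnr := h x hx hx2
      have : x ∈ ({ r : A | IsSMulRegular N r }ᶜ : Set A) := hnr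
      rw [← biUnion_associatedPrimes_eq_compl_regular A N] at this
      simpa using this
  have key := (Ideal.subset_union_prime' (R := A) (s := hfin.toFinset) (f := id)
    (a := (maximalIdeal A) ^ 2) (b := (maximalIdeal A) ^ 2)
    (fun i hi => by
      have : i ∈ associatedPrimes A N := by simpa using hi
      exact IsAssociatedPrime.isPrime this) (I := maximalIdeal A)).mp hsub
  have hcase1 : ¬ (maximalIdeal A ≤ (maximalIdeal A) ^ 2) := by
    intro hle
    have hbot : maximalIdeal A = ⊥ := by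
      apply Submodule.eq_bot_of_le_smul_of_le_jacobson_bot (maximalIdeal A) (maximalIdeal A)
        (IsNoetherian.noetherian _)
      · rw [smul_eq_mul, ← pow_two]; exact hle
      · exact IsLocalRing.maximalIdeal_le_jacobson _
    have hy0 : y = 0 := by simpa [hbot] using hy
    rw [hy0] at hyreg
    have := (IsSMulRegular.zero_iff_subsingleton (R := A) (M := N)).mp hyreg
    exact not_subsingleton N this
  rcases key with h1 | h1 | ⟨p, hp, hle⟩
  · exact hcase1 h1
  · exact hcase1 h1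
  · have hpa : p ∈ associatedPrimes A N := by simpa using hp
    have : y ∈ ⋃ p ∈ associatedPrimes A N, (p : Set A) := by
      simp only [Set.mem_iUnion]
      exact ⟨p, hpa, hle hy⟩
    rw [biUnion_associatedPrimes_eq_compl_regular A N] at this
    exact this hyreg

/-- Generator exchange: if `𝔪 = span s` and `x ∈ 𝔪 \ 𝔪²`, one generator can be replaced
by `x`. -/
lemma exists_finset_insert_span {A : Type u} [CommRing A] [IsLocalRing A]
    (s : Finset A) (hs : Ideal.span (s : Set A) = maximalIdeal A)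
    {x : A} (hx : x ∈ maximalIdeal A) (hx2 : x ∉ (maximalIdeal A) ^ 2) :
    ∃ t : Finset A, t.card + 1 ≤ s.card ∧
      Ideal.span (insert x (t : Set A)) = maximalIdeal A := by
  classical
  have hxs : x ∈ Ideal.span (s : Set A) := hs ▸ hx
  obtain ⟨c, -, hc⟩ := Submodule.mem_span_finset.mp hxs
  have hex : ∃ a ∈ s, c a ∉ maximalIdeal A := by
    by_contra hcon
    push Not at hcon
    apply hx2
    rw [← hc, pow_two]
    refine Ideal.sum_mem _ fun a ha => ?_
    rw [smul_eq_mul]
    exact Ideal.mul_mem_mul (hcon a ha) (hs ▸ Ideal.subset_span ha)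
  obtain ⟨a, has, hca⟩ := hex
  have hu : IsUnit (c a) := by
    by_contra hnu
    exact hca ((IsLocalRing.mem_maximalIdeal _).mpr hnu)
  refine ⟨s.erase a, by rw [Finset.card_erase_add_one has], ?_⟩
  apply le_antisymm
  · rw [Ideal.span_le]
    intro z hz
    rcases hz with rfl | hz
    · exact hx
    · have : z ∈ s := Finset.mem_of_mem_erase hz
      exact hs ▸ Ideal.subset_span this
  · rw [← hs, Ideal.span_le]
    intro z hz
    by_cases hza : z = a
    · subst hza
      have hsum : c z * z = x - ∑ b ∈ s.erase z, c b • b := by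
        rw [← hc, ← Finset.add_sum_erase s _ has]
        simp [smul_eq_mul]
      have hmem : c z * z ∈ Ideal.span (insert x ((s.erase z : Finset A) : Set A)) := by
        rw [hsum]
        refine Ideal.sub_mem _ (Ideal.subset_span (Set.mem_insert _ _)) ?_
        refine Ideal.sum_mem _ fun b hb => ?_
        rw [smul_eq_mul]
        exact Ideal.mul_mem_left _ _ (Ideal.subset_span (Set.mem_insert_of_mem _ hb))
      obtain ⟨u, hu'⟩ := hu
      have : z = (↑u⁻¹ : A) * (c z * z) := by
        rw [← mul_assoc, ← hu', Units.inv_mul, one_mul]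
      have h2 := Ideal.mul_mem_left _ (↑u⁻¹ : A) hmem
      rw [← this] at h2
      exact h2
    · exact Ideal.subset_span (Set.mem_insert_of_mem _ (Finset.mem_erase.mpr ⟨hza, hz⟩))

lemma maximalIdeal_smul_top_lt_top {A : Type u} [CommRing A] [IsLocalRing A]
    {N : Type u} [AddCommGroup N] [Module A N] [Module.Finite A N] [Nontrivial N] :
    (maximalIdeal A) • (⊤ : Submodule A N) < ⊤ := by
  refine lt_of_le_of_ne le_top ?_
  exact (Submodule.top_ne_ideal_smul_of_le_jacobson_annihilator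
    (IsLocalRing.maximalIdeal_le_jacobson _)).symm

/-- Depth drops by at most one modulo a regular element (via the Rees theorem). -/
lemma exists_isRegular_quotSMulTop {A : Type u} [CommRing A] [IsLocalRing A] [IsNoetherianRing A]
    {N : Type u} [AddCommGroup N] [Module A N] [Module.Finite A N]
    (rs : List A) (hmem : ∀ r ∈ rs, r ∈ maximalIdeal A) (hreg : IsRegular N rs)
    {x : A} (hx : x ∈ maximalIdeal A) (hxreg : IsSMulRegular N x) (n : ℕ)
    (hn : rs.length = n + 1) :
    ∃ rs' : List A, rs'.length = n ∧ (∀ r ∈ rs', r ∈ maximalIdeal A) ∧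
      IsRegular (QuotSMulTop x N) rs' := by
  have hN : Nontrivial N := hreg.nontrivial
  have hN' : Nontrivial (QuotSMulTop x N) := nontrivial_quotSMulTop_of_mem_maximalIdeal N hx
  let k : ModuleCat.{u} A := ModuleCat.of A (A ⧸ maximalIdeal A)
  have hsupp : Module.support A k = PrimeSpectrum.zeroLocus (maximalIdeal A : Set A) := by
    rw [Module.support_eq_zeroLocus, Ideal.annihilator_quotient]
  have hext : ∀ i < rs.length, Subsingleton (_root_.CategoryTheory.Abelian.Ext k (ModuleCat.of A N) i) :=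
    ModuleCat.subsingleton_ext_of_exists_isRegular (maximalIdeal A) k hsupp.subset
      (ModuleCat.of A N) maximalIdeal_smul_top_lt_top rs hmem hreg
  have hext' : ∀ i < n, Subsingleton (_root_.CategoryTheory.Abelian.Ext k (ModuleCat.of A (QuotSMulTop x N)) i) := by
    intro i hi
    have zero1 := AddCommGrpCat.isZero_of_iff_subsingleton.mpr (hext i (by omega))
    have zero2 := AddCommGrpCat.isZero_of_iff_subsingleton.mpr (hext (i + 1) (by omega))
    have hS : (ModuleCat.smulShortComplex (ModuleCat.of A N) x).ShortExact :=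
      IsSMulRegular.smulShortComplex_shortExact hxreg
    exact AddCommGrpCat.subsingleton_of_isZero <| ShortComplex.Exact.isZero_of_both_zeros
      ((Ext.covariant_sequence_exact₃' k hS) i (i + 1) rfl)
      (zero1.eq_zero_of_src _) (zero2.eq_zero_of_tgt _)
  exact ModuleCat.exists_isRegular_of_exists_subsingleton_ext (maximalIdeal A) n
    (ModuleCat.of A (QuotSMulTop x N)) maximalIdeal_smul_top_lt_top k hsupp hext'

theorem free_of_isRegular_aux (n : ℕ) : ∀ (A : Type u) [CommRing A] [IsLocalRing A]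
    [IsNoetherianRing A] (N : Type u) [AddCommGroup N] [Module A N] [Module.Finite A N]
    (s : Finset A) (_ : Ideal.span (s : Set A) = maximalIdeal A)
    (rs : List A) (_ : rs.length = n) (_ : s.card ≤ n) (_ : ∀ r ∈ rs, r ∈ maximalIdeal A)
    (_ : IsRegular N rs), Module.Free A N := by
  classical
  induction n with
  | zero =>
    intro A _ _ _ N _ _ _ s hs rs hlen hcard hmem hreg
    have hs0 : s = ∅ := Finset.card_eq_zero.mp (Nat.le_zero.mp hcard)
    have hbot : maximalIdeal A = ⊥ := by rw [← hs, hs0]; simp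
    have hf : IsField A := IsLocalRing.isField_iff_maximalIdeal_eq.mpr hbot
    letI := hf.toField
    exact Module.Free.of_divisionRing A N
  | succ n ih =>
    intro A _ _ _ N _ _ _ s hs rs hlen hcard hmem hreg
    have hN : Nontrivial N := hreg.nontrivial
    obtain ⟨y, rs₀, rfl⟩ : ∃ y rs₀, rs = y :: rs₀ := by
      cases rs with
      | nil => simp at hlen
      | cons y rs₀ => exact ⟨y, rs₀, rfl⟩
    have hyreg : IsSMulRegular N y := ((isRegular_cons_iff N y rs₀).mp hreg).1
    have hy : y ∈ maximalIdeal A := hmem y (List.mem_cons_self)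
    obtain ⟨x, hx, hx2, hxreg⟩ := exists_regular_notMem_sq hy hyreg
    obtain ⟨t, htcard, htspan⟩ := exists_finset_insert_span s hs hx hx2
    obtain ⟨rs', hlen', hmem', hreg'⟩ :=
      exists_isRegular_quotSMulTop (y :: rs₀) hmem hreg hx hxreg n hlen
    have hreg2 : IsRegular N (x :: rs') := (isRegular_cons_iff N x rs').mpr ⟨hxreg, hreg'⟩
    have hreg3 := ((isRegular_cons_iff' N x rs').mp hreg2).2
    have hne : Ideal.span {x} ≠ (⊤ : Ideal A) := by
      intro h
      have hle : Ideal.span {x} ≤ maximalIdeal A := by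
        rw [Ideal.span_le]; simpa using hx
      have : (1 : A) ∈ maximalIdeal A := hle (h ▸ Submodule.mem_top)
      exact (Ideal.ne_top_iff_one _).mp (IsLocalRing.maximalIdeal.isMaximal A).ne_top this
    haveI : Nontrivial (A ⧸ Ideal.span {x}) := Ideal.Quotient.nontrivial_iff.mpr hne
    haveI : IsLocalRing (A ⧸ Ideal.span {x}) :=
      IsLocalRing.of_surjective' (Ideal.Quotient.mk _) Ideal.Quotient.mk_surjective
    haveI : IsLocalHom (Ideal.Quotient.mk (Ideal.span {x})) :=
      IsLocalHom.of_surjective (Ideal.Quotient.mk _) Ideal.Quotient.mk_surjective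
    have hmax : (maximalIdeal A).map (Ideal.Quotient.mk (Ideal.span {x})) =
        maximalIdeal (A ⧸ Ideal.span {x}) := by
      ext z
      obtain ⟨z, rfl⟩ := Ideal.Quotient.mk_surjective z
      rw [Ideal.mem_map_iff_of_surjective _ Ideal.Quotient.mk_surjective]
      constructor
      · rintro ⟨w, hw, hwz⟩
        rw [← hwz]
        rw [IsLocalRing.mem_maximalIdeal] at hw ⊢
        intro hu
        exact hw (isUnit_of_map_unit (Ideal.Quotient.mk (Ideal.span {x})) w hu)
      · intro hz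
        refine ⟨z, ?_, rfl⟩
        rw [IsLocalRing.mem_maximalIdeal] at hz ⊢
        intro hu
        exact hz (hu.map _)
    haveI : Module.Finite (A ⧸ Ideal.span {x}) (QuotSMulTop x N) :=
      Module.Finite.of_restrictScalars_finite A _ _
    have hfree : Module.Free (A ⧸ Ideal.span {x}) (QuotSMulTop x N) := by
      refine ih (A ⧸ Ideal.span {x}) (QuotSMulTop x N) (t.image (Ideal.Quotient.mk _)) ?_
        (rs'.map (Ideal.Quotient.mk _)) ?_ ?_ ?_ hreg3
      · rw [← hmax, ← htspan, Ideal.map_span, Finset.coe_image, Set.image_insert_eq]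
        apply le_antisymm
        · rw [Ideal.span_le]
          exact fun z hz => Ideal.subset_span (Set.mem_insert_of_mem _ hz)
        · rw [Ideal.span_le]
          rintro z (rfl | hz)
          · have : (Ideal.Quotient.mk (Ideal.span {x})) x = 0 :=
              Ideal.Quotient.eq_zero_iff_mem.mpr (Ideal.subset_span rfl)
            rw [this]
            exact Ideal.zero_mem _
          · exact Ideal.subset_span hz
      · simpa using hlen'
      · have := Finset.card_image_le (s := t) (f := Ideal.Quotient.mk (Ideal.span {x}))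
        omega
      · intro r hr
        obtain ⟨r', hr', rfl⟩ := List.mem_map.mp hr
        rw [← hmax]
        exact Ideal.mem_map_of_mem _ (hmem' r' hr')
    haveI : Module.FinitePresentation A N := Module.finitePresentation_of_finite A N
    exact (Module.free_quotSMulTop_iff_free A N (x := x)
      (IsLocalRing.maximalIdeal_le_jacobson _ hx) hxreg).mp hfree

/-- **MCM ⇒ free.** Let `A` be a Noetherian local ring whose maximal ideal is generated by a
finite set `s`, and `N` a finite `A`-module with an `N`-regular sequence `rs` in the maximal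
ideal such that `s.card ≤ rs.length`. Then `N` is a free `A`-module. -/
theorem free_of_isRegular {A : Type u} [CommRing A] [IsLocalRing A] [IsNoetherianRing A]
    {N : Type u} [AddCommGroup N] [Module A N] [Module.Finite A N]
    (s : Finset A) (hs : Ideal.span (s : Set A) = maximalIdeal A)
    (rs : List A) (hcard : s.card ≤ rs.length) (hmem : ∀ r ∈ rs, r ∈ maximalIdeal A)
    (hreg : IsRegular N rs) : Module.Free A N :=
  free_of_isRegular_aux rs.length A N s hs rs rfl hcard hmem hreg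

/-- Variant of `free_of_isRegular` with a weakly regular sequence on a nontrivial module. -/
theorem free_of_isWeaklyRegular {A : Type u} [CommRing A] [IsLocalRing A] [IsNoetherianRing A]
    {N : Type u} [AddCommGroup N] [Module A N] [Module.Finite A N] [Nontrivial N]
    (s : Finset A) (hs : Ideal.span (s : Set A) = maximalIdeal A)
    (rs : List A) (hcard : s.card ≤ rs.length) (hmem : ∀ r ∈ rs, r ∈ maximalIdeal A)
    (hreg : IsWeaklyRegular N rs) : Module.Free A N :=
  free_of_isRegular s hs rs hcard hmem (IsRegular.of_isWeaklyRegular_of_mem_maximalIdeal N hmem hreg)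

end Fermat.Agent.S57.ABLite

end
-- ===== PACK-END S57/ABLite.lean

-- ===== PACK-BEGIN S59/H649/OrdMatrix.lean
section


/-!
# Upper triangular `2 × 2` bookkeeping for an ordinary line (helper649)

`b` a basis of `V` indexed by `Fin 2`, `g : V →ₗ[A] V` with `g (b 0) ∈ A ∙ b 0`:
`g (b 0) = X • b 0`, `g (b 1) = C • b 0 + Z • b 1`.  Mathlib only.
-/

set_option autoImplicit false
set_option linter.unusedSectionVars false

namespace Fermat.Agent.S59.H649

variable {A : Type*} [CommRing A] {V : Type*} [AddCommGroup V] [Module A V]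
  (b : Module.Basis (Fin 2) A V)

/-- the entry `(0,0)` -/
noncomputable def cX (g : V →ₗ[A] V) : A := b.repr (g (b 0)) 0

/-- the entry `(0,1)` -/
noncomputable def cC (g : V →ₗ[A] V) : A := b.repr (g (b 1)) 0

/-- the entry `(1,1)` -/
noncomputable def cZ (g : V →ₗ[A] V) : A := b.repr (g (b 1)) 1

theorem repr_comb (x y : A) (i : Fin 2) :
    b.repr (x • b 0 + y • b 1) i = if i = 0 then x else y := by
  rw [map_add, map_smul, map_smul, Module.Basis.repr_self, Module.Basis.repr_self]
  fin_cases i <;> simp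

theorem repr_comb_zero (x y : A) : b.repr (x • b 0 + y • b 1) 0 = x := by
  rw [repr_comb]; simp

theorem repr_comb_one (x y : A) : b.repr (x • b 0 + y • b 1) 1 = y := by
  rw [repr_comb]; simp

theorem apply_b1 (g : V →ₗ[A] V) : g (b 1) = cC b g • b 0 + cZ b g • b 1 := by
  have h := b.sum_repr (g (b 1))
  rw [Fin.sum_univ_two] at h
  exact h.symm

theorem apply_b0 {g : V →ₗ[A] V} (hg : g (b 0) ∈ Submodule.span A {b 0}) :
    g (b 0) = cX b g • b 0 := by
  obtain ⟨y, hy⟩ := Submodule.mem_span_singleton.mp hg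
  have h1 : cX b g = y := by
    unfold cX
    rw [← hy]
    have := repr_comb_zero b y 0
    rwa [zero_smul, add_zero] at this
  rw [h1, hy]

theorem apply_mem_span {g : V →ₗ[A] V} (hg : g (b 0) ∈ Submodule.span A {b 0}) {w : V}
    (hw : w ∈ Submodule.span A {b 0}) : g w = cX b g • w := by
  obtain ⟨y, rfl⟩ := Submodule.mem_span_singleton.mp hw
  rw [map_smul, apply_b0 b hg, smul_comm]

theorem cX_mul {g h : V →ₗ[A] V} (hg : g (b 0) ∈ Submodule.span A {b 0})
    (hh : h (b 0) ∈ Submodule.span A {b 0}) : cX b (g * h) = cX b g * cX b h := by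
  have h1 : (g * h) (b 0) = (cX b g * cX b h) • b 0 := by
    rw [Module.End.mul_apply, apply_b0 b hh, map_smul, apply_b0 b hg, smul_smul, mul_comm]
  have h2 := repr_comb_zero b (cX b g * cX b h) 0
  rw [zero_smul, add_zero, ← h1] at h2
  exact h2

theorem mul_b1 {g : V →ₗ[A] V} (hg : g (b 0) ∈ Submodule.span A {b 0}) (h : V →ₗ[A] V) :
    (g * h) (b 1) = (cX b g * cC b h + cC b g * cZ b h) • b 0 + (cZ b g * cZ b h) • b 1 := by
  rw [Module.End.mul_apply, apply_b1 b h, map_add, map_smul, map_smul, apply_b0 b hg,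
    apply_b1 b g, smul_add, smul_smul, smul_smul, smul_smul, add_smul, ← add_assoc,
    mul_comm (cC b h), mul_comm (cZ b h) (cC b g), mul_comm (cZ b h) (cZ b g)]

theorem cC_mul {g : V →ₗ[A] V} (hg : g (b 0) ∈ Submodule.span A {b 0}) (h : V →ₗ[A] V) :
    cC b (g * h) = cX b g * cC b h + cC b g * cZ b h := by
  show b.repr ((g * h) (b 1)) 0 = _
  rw [mul_b1 b hg, repr_comb_zero]

theorem cZ_mul {g : V →ₗ[A] V} (hg : g (b 0) ∈ Submodule.span A {b 0}) (h : V →ₗ[A] V) :
    cZ b (g * h) = cZ b g * cZ b h := by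
  show b.repr ((g * h) (b 1)) 1 = _
  rw [mul_b1 b hg, repr_comb_one]

theorem repr_one_of_mem_span {w : V} (hw : w ∈ Submodule.span A {b 0}) : b.repr w 1 = 0 := by
  obtain ⟨y, rfl⟩ := Submodule.mem_span_singleton.mp hw
  have := repr_comb_one b y 0
  rwa [zero_smul, add_zero] at this

theorem cZ_eq_one {g : V →ₗ[A] V} (hg : g (b 1) - b 1 ∈ Submodule.span A {b 0}) :
    cZ b g = 1 := by
  have h := repr_one_of_mem_span b hg
  rw [map_sub, Finsupp.sub_apply, Module.Basis.repr_self, Finsupp.single_eq_same,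
    sub_eq_zero] at h
  exact h

theorem det_eq_mul {g : V →ₗ[A] V} (hg : g (b 0) ∈ Submodule.span A {b 0}) :
    LinearMap.det g = cX b g * cZ b g := by
  rw [← LinearMap.det_toMatrix b, Matrix.det_fin_two]
  have h00 : LinearMap.toMatrix b b g 0 0 = cX b g := by
    rw [LinearMap.toMatrix_apply]; rfl
  have h11 : LinearMap.toMatrix b b g 1 1 = cZ b g := by
    rw [LinearMap.toMatrix_apply]; rfl
  have h10 : LinearMap.toMatrix b b g 1 0 = 0 := by
    rw [LinearMap.toMatrix_apply]
    exact repr_one_of_mem_span b hg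
  rw [h00, h11, h10, mul_zero, sub_zero]

theorem apply_sub_smul_mem {g : V →ₗ[A] V} (hg : g (b 0) ∈ Submodule.span A {b 0}) (v : V) :
    g v - cZ b g • v ∈ Submodule.span A {b 0} := by
  have hv := b.sum_repr v
  rw [Fin.sum_univ_two] at hv
  rw [Submodule.mem_span_singleton]
  refine ⟨b.repr v 0 * cX b g + b.repr v 1 * cC b g - cZ b g * b.repr v 0, ?_⟩
  conv_rhs => rw [← hv]
  rw [map_add, map_smul, map_smul, apply_b0 b hg, apply_b1 b g]
  simp only [smul_add, smul_smul, sub_smul, add_smul]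
  rw [mul_comm (cZ b g) (b.repr v 1)]
  abel

/-- coordinates of an element of `I • ⊤` lie in `I` -/
theorem repr_mem_of_mem_smul_top (I : Ideal A) {v : V}
    (hv : v ∈ I • (⊤ : Submodule A V)) (i : Fin 2) : b.repr v i ∈ I := by
  refine Submodule.smul_induction_on (p := fun v => b.repr v i ∈ I) hv ?_ ?_
  · intro r hr w _
    rw [map_smul, Finsupp.smul_apply, smul_eq_mul]
    exact I.mul_mem_right _ hr
  · intro x y hx hy
    rw [map_add, Finsupp.add_apply]
    exact I.add_mem hx hy

end Fermat.Agent.S59.H649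

end
-- ===== PACK-END S59/H649/OrdMatrix.lean

-- ===== PACK-BEGIN S59/H649/H90.lean
section


/-!
# Hilbert 90 at finite level for a subgroup of an infinite Galois group (helper649)

`Ω / K` Galois (possibly infinite), `H` a subgroup of `Gal(Ω/K)` (NOT assumed closed),
`f : Gal(Ω/K) → Ω` nowhere vanishing on `H`, a `1`-cocycle on `H`,
`f (σ τ) = f σ · σ (f τ)`, right-invariant under the elements of `H` fixing a finite subextension
`E`.  Then there is `α ≠ 0` with `σ α = f σ · α` for all `σ ∈ H`.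

Proof: Poincaré series over the image of `H` in `Gal(E'/K)`, `E'` the normal closure of `E`, and
Dedekind's independence of characters (as in `Fermat.Agent.S56.H734.hilbert90_of_level`, which is
the case `H = ⊤`).  Mathlib only.
-/

set_option autoImplicit false
set_option linter.style.haveILetI false

namespace Fermat.Agent.S59.H649

open IntermediateField

/-- **Hilbert 90 at finite level on a subgroup**, form `f σ · σ α = α`. -/
theorem hilbert90_subgroup_aux {K Ω : Type*} [Field K] [Field Ω] [Algebra K Ω] [IsGalois K Ω]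
    (H : Subgroup (Ω ≃ₐ[K] Ω))
    (f : (Ω ≃ₐ[K] Ω) → Ω) (hf0 : ∀ σ ∈ H, f σ ≠ 0)
    (hf : ∀ σ ∈ H, ∀ τ ∈ H, f (σ * τ) = f σ * σ (f τ))
    (E : IntermediateField K Ω) [FiniteDimensional K E]
    (hlev : ∀ σ ∈ H, ∀ τ ∈ H, (∀ x ∈ E, τ x = x) → f (σ * τ) = f σ) :
    ∃ α : Ω, α ≠ 0 ∧ ∀ σ ∈ H, f σ * σ α = α := by
  classical
  -- pass to the normal closure
  let E' : IntermediateField K Ω := IntermediateField.normalClosure K E Ω
  have : Normal K E' := normalClosure.normal K E Ω
  have : FiniteDimensional K E' := normalClosure.is_finiteDimensional K E Ω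
  have hEE' : E ≤ E' := E.le_normalClosure
  let res : (Ω ≃ₐ[K] Ω) →* (E' ≃ₐ[K] E') := AlgEquiv.restrictNormalHom E'
  have hres_apply : ∀ (σ : Ω ≃ₐ[K] Ω) (x : E'), ((res σ x : E') : Ω) = σ (x : Ω) :=
    fun σ x => AlgEquiv.restrictNormal_commutes σ E' x
  -- the image of `H`
  let Hbar : Subgroup (E' ≃ₐ[K] E') := H.map res
  have hsec : ∀ γ : Hbar, ∃ σ : Ω ≃ₐ[K] Ω, σ ∈ H ∧ res σ = (γ : E' ≃ₐ[K] E') := fun γ => γ.2
  let s : Hbar → (Ω ≃ₐ[K] Ω) := fun γ => (hsec γ).choose
  have hsH : ∀ γ, s γ ∈ H := fun γ => (hsec γ).choose_spec.1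
  have hs : ∀ γ : Hbar, res (s γ) = (γ : E' ≃ₐ[K] E') := fun γ => (hsec γ).choose_spec.2
  -- `f` depends only on the restriction to `E'` (on `H`)
  have hdep : ∀ σ ∈ H, ∀ σ' ∈ H, res σ = res σ' → f σ = f σ' := by
    intro σ hσ σ' hσ' h
    have h0 : σ' = σ * (σ⁻¹ * σ') := by group
    rw [h0]
    symm
    apply hlev σ hσ _ (mul_mem (inv_mem hσ) hσ')
    intro x hx
    have h1 : res (σ⁻¹ * σ') = 1 := by rw [map_mul, map_inv, h, inv_mul_cancel]
    have h2 := hres_apply (σ⁻¹ * σ') ⟨x, hEE' hx⟩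
    rw [h1] at h2
    exact h2.symm
  letI : Fintype Hbar := Fintype.ofFinite _
  -- Dedekind independence of the characters `γ : E' → Ω`, `γ ∈ Hbar`
  let χ : Hbar → (E' →* Ω) := fun γ =>
    ((algebraMap E' Ω).comp (((γ : E' ≃ₐ[K] E') : E' →ₐ[K] E') : E' →+* E') : E' →+* Ω)
  have hχ : Function.Injective χ := by
    intro γ γ' h
    apply Subtype.ext
    apply AlgEquiv.ext
    intro x
    have := DFunLike.congr_fun h x
    exact (algebraMap E' Ω).injective this
  have hli : LinearIndependent Ω (fun γ : Hbar => (χ γ : E' → Ω)) :=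
    (linearIndependent_monoidHom E' Ω).comp χ hχ
  have hne : ∑ γ : Hbar, f (s γ) • (χ γ : E' → Ω) ≠ 0 := by
    intro h
    have := Fintype.linearIndependent_iff.1 hli (fun γ => f (s γ)) h 1
    exact hf0 _ (hsH 1) this
  obtain ⟨θ, hθ⟩ : ∃ θ : E', ∑ γ : Hbar, f (s γ) * (((γ : E' ≃ₐ[K] E') θ : E') : Ω) ≠ 0 := by
    by_contra hcon
    push Not at hcon
    apply hne
    funext θ
    simpa [χ] using hcon θ
  refine ⟨_, hθ, fun τ hτ => ?_⟩
  rw [map_sum, Finset.mul_sum]
  -- multiplication by the image of `τ` on `Hbar`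
  let τbar : Hbar := ⟨res τ, Subgroup.mem_map_of_mem res hτ⟩
  have key : ∀ γ : Hbar, f τ * τ (f (s γ) * (((γ : E' ≃ₐ[K] E') θ : E') : Ω)) =
      f (s (τbar * γ)) * ((((τbar * γ : Hbar) : E' ≃ₐ[K] E') θ : E') : Ω) := by
    intro γ
    have h1 : f (s (τbar * γ)) = f (τ * s γ) := by
      apply hdep _ (hsH _) _ (mul_mem hτ (hsH γ))
      rw [hs, map_mul, hs]
      rfl
    rw [h1, hf τ hτ _ (hsH γ), map_mul, ← mul_assoc]
    congr 1
    show τ (((γ : E' ≃ₐ[K] E') θ : E') : Ω) = ((res τ * (γ : E' ≃ₐ[K] E')) θ : E')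
    rw [AlgEquiv.mul_apply, hres_apply]
  simp only [key]
  exact Fintype.sum_bijective (fun γ => τbar * γ) (Group.mulLeft_bijective _) _ _ (fun γ => rfl)

/-- **Hilbert 90 at finite level on a subgroup**, form `σ α = f σ · α`. -/
theorem hilbert90_subgroup {K Ω : Type*} [Field K] [Field Ω] [Algebra K Ω] [IsGalois K Ω]
    (H : Subgroup (Ω ≃ₐ[K] Ω))
    (f : (Ω ≃ₐ[K] Ω) → Ω) (hf0 : ∀ σ ∈ H, f σ ≠ 0)
    (hf : ∀ σ ∈ H, ∀ τ ∈ H, f (σ * τ) = f σ * σ (f τ))
    (E : IntermediateField K Ω) [FiniteDimensional K E]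
    (hlev : ∀ σ ∈ H, ∀ τ ∈ H, (∀ x ∈ E, τ x = x) → f (σ * τ) = f σ) :
    ∃ α : Ω, α ≠ 0 ∧ ∀ σ ∈ H, σ α = f σ * α := by
  obtain ⟨α, hα, h⟩ := hilbert90_subgroup_aux H (fun σ => (f σ)⁻¹)
    (fun σ hσ => inv_ne_zero (hf0 σ hσ))
    (fun σ hσ τ hτ => by
      show (f (σ * τ))⁻¹ = (f σ)⁻¹ * σ ((f τ)⁻¹)
      rw [hf σ hσ τ hτ, mul_inv, map_inv₀])
    E (fun σ hσ τ hτ hx => by
      show (f (σ * τ))⁻¹ = (f σ)⁻¹
      rw [hlev σ hσ τ hτ hx])
  refine ⟨α, hα, fun σ hσ => ?_⟩
  have h1 := h σ hσ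
  have h2 : (f σ)⁻¹ * σ α = α := h1
  rw [← h2, ← mul_assoc, mul_inv_cancel₀ (hf0 σ hσ), one_mul, h2]

end Fermat.Agent.S59.H649

end
-- ===== PACK-END S59/H649/H90.lean

-- ===== PACK-BEGIN S59/H649/CharExt.lean
section


/-!
# Extension of additive characters of a finite ring (helper649)

* `exists_charFun_mul_h649` : for a finite commutative ring `R`, `d : R` and an additive
  character `Λ₀ : R → Ω` killing the annihilator of `d`, there is an additive character `Λ` with
  `Λ (d t) = Λ₀ t`.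
* `zetaChar_h649` facts: `t ↦ ζ ^ (ℓ t).val` is an additive character.
* `mem_of_forall_mem_sup_pow_h649` : Krull's intersection theorem in the form
  `(∀ N, d ∈ J ⊔ 𝔪 ^ N) → d ∈ J`.

Mathlib only.
-/

set_option autoImplicit false
set_option linter.unusedSectionVars false

namespace Fermat.Agent.S59.H649

/-- extension of an additive character from `d R` to `R` -/
theorem exists_charFun_mul_h649 {R : Type*} [CommRing R] [Finite R] {Ω : Type*} [Field Ω]
    [HasEnoughRootsOfUnity Ω (Monoid.exponent (Multiplicative R))]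
    (d : R) (Λ₀ : R → Ω) (h0 : Λ₀ 0 = 1) (hadd : ∀ s t, Λ₀ (s + t) = Λ₀ s * Λ₀ t)
    (hker : ∀ t : R, d * t = 0 → Λ₀ t = 1) :
    ∃ Λ : R → Ω, Λ 0 = 1 ∧ (∀ s t, Λ (s + t) = Λ s * Λ t) ∧ ∀ t, Λ (d * t) = Λ₀ t := by
  classical
  let Λ₀m : Multiplicative R →* Ω :=
    { toFun := fun t => Λ₀ t.toAdd
      map_one' := h0
      map_mul' := fun s t => hadd _ _ }
  let Λ₀u : Multiplicative R →* Ωˣ := Λ₀m.toHomUnits
  have hΛ₀u : ∀ t : Multiplicative R, ((Λ₀u t : Ωˣ) : Ω) = Λ₀ t.toAdd := fun t => rfl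
  let φ : Multiplicative R →* Multiplicative R :=
    AddMonoidHom.toMultiplicative (AddMonoidHom.mulLeft d)
  have hφ : ∀ t : Multiplicative R, φ t = Multiplicative.ofAdd (d * t.toAdd) := fun t => rfl
  let S : Subgroup (Multiplicative R) := φ.range
  let φr : Multiplicative R →* S := φ.rangeRestrict
  have hsurj : Function.Surjective φr := φ.rangeRestrict_surjective
  have hle : φr.ker ≤ Λ₀u.ker := by
    intro t ht
    rw [MonoidHom.mem_ker] at ht ⊢
    have h1 : φ t = 1 := by
      have := congrArg (Subtype.val) ht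
      exact this
    rw [hφ] at h1
    have h2 : d * t.toAdd = 0 := by
      have := congrArg Multiplicative.toAdd h1
      exact this
    apply Units.ext
    rw [hΛ₀u, hker _ h2]
    rfl
  let Λ₁ : S →* Ωˣ := MonoidHom.liftOfSurjective φr hsurj ⟨Λ₀u, hle⟩
  have hΛ₁ : ∀ t : Multiplicative R, Λ₁ (φr t) = Λ₀u t := fun t =>
    MonoidHom.liftOfRightInverse_comp_apply _ _ _ ⟨Λ₀u, hle⟩ t
  obtain ⟨Λu, hΛu⟩ := MonoidHom.domRestrict_surjective (M := Ω) S Λ₁
  have hres : ∀ s : S, Λu (s : Multiplicative R) = Λ₁ s := fun s => by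
    rw [← hΛu]
    rfl
  refine ⟨fun t => ((Λu (Multiplicative.ofAdd t) : Ωˣ) : Ω), ?_, ?_, ?_⟩
  · show ((Λu 1 : Ωˣ) : Ω) = 1
    rw [map_one]
    rfl
  · intro s t
    show ((Λu (Multiplicative.ofAdd s * Multiplicative.ofAdd t) : Ωˣ) : Ω) = _
    rw [map_mul]
    rfl
  · intro t
    show ((Λu (Multiplicative.ofAdd (d * t)) : Ωˣ) : Ω) = Λ₀ t
    have h1 : Multiplicative.ofAdd (d * t) = ((φr (Multiplicative.ofAdd t) : S) :
        Multiplicative R) := rfl
    rw [h1, hres, hΛ₁, hΛ₀u]
    rfl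

/-- `t ↦ ζ ^ (ℓ t).val` is additive when `ζ ^ p = 1` -/
theorem zeta_pow_val_add_h649 {Ω : Type*} [Field Ω] {p : ℕ} [NeZero p] {ζ : Ω} (hζ : ζ ^ p = 1)
    (s t : ZMod p) : ζ ^ (s + t).val = ζ ^ s.val * ζ ^ t.val := by
  rw [ZMod.val_add, ← pow_eq_pow_mod _ hζ, pow_add]

/-- Krull's intersection theorem modulo an ideal -/
theorem mem_of_forall_mem_sup_pow_h649 {A : Type*} [CommRing A] [IsLocalRing A]
    [IsNoetherianRing A] (J : Ideal A) (d : A)
    (h : ∀ N : ℕ, d ∈ J ⊔ IsLocalRing.maximalIdeal A ^ N) : d ∈ J := by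
  have hK := Ideal.iInf_pow_smul_eq_bot_of_isLocalRing (R := A) (M := A ⧸ J)
    (IsLocalRing.maximalIdeal A) (Ideal.IsPrime.ne_top inferInstance)
  have hmem : (Ideal.Quotient.mk J d : A ⧸ J) ∈
      ⨅ i : ℕ, (IsLocalRing.maximalIdeal A ^ i) • (⊤ : Submodule A (A ⧸ J)) := by
    rw [Submodule.mem_iInf]
    intro N
    obtain ⟨j, hj, m, hm, hjm⟩ := Submodule.mem_sup.mp (h N)
    have h1 : (Ideal.Quotient.mk J d : A ⧸ J) = m • (Ideal.Quotient.mk J 1 : A ⧸ J) := by
      rw [← hjm, map_add, Ideal.Quotient.eq_zero_iff_mem.mpr hj, zero_add]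
      show _ = Ideal.Quotient.mk J (m • 1)
      rw [smul_eq_mul, mul_one]
    rw [h1]
    exact Submodule.smul_mem_smul hm Submodule.mem_top
  rw [hK, Submodule.mem_bot] at hmem
  exact Ideal.Quotient.eq_zero_iff_mem.mp hmem

end Fermat.Agent.S59.H649

end
-- ===== PACK-END S59/H649/CharExt.lean

-- ===== PACK-BEGIN S41/H585/PingPong.lean
section


/-!
# S41, leaf AMALG (helper585): the `r`-adic ping-pong inequalities

Pure inequalities for the `r`-adic norm on `ℚ`; `X₁ = {(x, y) | ‖y‖ < ‖x‖}`,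
`X₀ = {(x, y) | ‖x‖ ≤ ‖y‖, y ≠ 0}`.
-/

set_option autoImplicit false

namespace Fermat.Agent.S41.H585

variable (r : ℕ) [hr : Fact r.Prime]

local notation "‖" x "‖ᵣ" => padicNorm r x

lemma norm_int_le_one (a : ℤ) : ‖(a : ℚ)‖ᵣ ≤ 1 := padicNorm.of_int a

lemma norm_int_mul_le (a : ℤ) (x : ℚ) : ‖(a : ℚ) * x‖ᵣ ≤ ‖x‖ᵣ := by
  rw [padicNorm.mul]
  calc ‖(a : ℚ)‖ᵣ * ‖x‖ᵣ ≤ 1 * ‖x‖ᵣ :=
        mul_le_mul_of_nonneg_right (padicNorm.of_int a) (padicNorm.nonneg x)
    _ = ‖x‖ᵣ := one_mul _

lemma norm_int_mul_eq {a : ℤ} (ha : ¬ (r : ℤ) ∣ a) (x : ℚ) : ‖(a : ℚ) * x‖ᵣ = ‖x‖ᵣ := by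
  rw [padicNorm.mul, (padicNorm.int_eq_one_iff a).mpr ha, one_mul]

lemma norm_r : ‖(r : ℚ)‖ᵣ = (r : ℚ)⁻¹ := padicNorm.padicNorm_p hr.out.one_lt

lemma norm_r_mul (x : ℚ) : ‖(r : ℚ) * x‖ᵣ = (r : ℚ)⁻¹ * ‖x‖ᵣ := by
  rw [padicNorm.mul, norm_r]

lemma norm_div_r (x : ℚ) : ‖x / (r : ℚ)‖ᵣ = (r : ℚ) * ‖x‖ᵣ := by
  rw [padicNorm.div, norm_r]
  field_simp

lemma r_one_lt : (1 : ℚ) < r := by exact_mod_cast hr.out.one_lt

lemma r_pos : (0 : ℚ) < r := by exact_mod_cast hr.out.pos

lemma norm_pos_of_ne {x : ℚ} (hx : x ≠ 0) : 0 < ‖x‖ᵣ :=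
  lt_of_le_of_ne (padicNorm.nonneg x) (fun h => hx (padicNorm.zero_of_padicNorm_eq_zero h.symm))

lemma inv_r_mul_lt {t B : ℚ} (_ht0 : 0 ≤ t) (ht : t ≤ B) (hB : 0 < B) : (r : ℚ)⁻¹ * t < B := by
  have h4 : (r : ℚ)⁻¹ < 1 := inv_lt_one_of_one_lt₀ (r_one_lt r)
  have h5 : (0 : ℚ) < (r : ℚ)⁻¹ := inv_pos.mpr (r_pos r)
  calc (r : ℚ)⁻¹ * t ≤ (r : ℚ)⁻¹ * B := mul_le_mul_of_nonneg_left ht h5.le
    _ < 1 * B := mul_lt_mul_of_pos_right h4 hB
    _ = B := one_mul B

lemma norm_add_eq_of_lt {x y : ℚ} (h : ‖y‖ᵣ < ‖x‖ᵣ) : ‖x + y‖ᵣ = ‖x‖ᵣ := by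
  rw [padicNorm.add_eq_max_of_ne (ne_of_gt h), max_eq_left h.le]

lemma norm_add_eq_of_lt' {x y : ℚ} (h : ‖x‖ᵣ < ‖y‖ᵣ) : ‖x + y‖ᵣ = ‖y‖ᵣ := by
  rw [add_comm]; exact norm_add_eq_of_lt r h

lemma norm_add_le {x y : ℚ} {B : ℚ} (hx : ‖x‖ᵣ ≤ B) (hy : ‖y‖ᵣ ≤ B) : ‖x + y‖ᵣ ≤ B :=
  le_trans padicNorm.nonarchimedean (max_le hx hy)

/-- Elements of `G_a \ H` map `X₁` into `X₀`. -/
lemma pp_a (a b c d : ℤ) (hc : ¬ (r : ℤ) ∣ c) (x y : ℚ) (h : ‖y‖ᵣ < ‖x‖ᵣ) :
    ‖(a : ℚ) * x + b * y‖ᵣ ≤ ‖(c : ℚ) * x + d * y‖ᵣ ∧ (c : ℚ) * x + d * y ≠ 0 := by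
  have h1 : ‖(c : ℚ) * x + d * y‖ᵣ = ‖x‖ᵣ := by
    have : ‖(d : ℚ) * y‖ᵣ < ‖(c : ℚ) * x‖ᵣ := by
      rw [norm_int_mul_eq r hc]
      exact lt_of_le_of_lt (norm_int_mul_le r d y) h
    rw [norm_add_eq_of_lt r this, norm_int_mul_eq r hc]
  refine ⟨?_, ?_⟩
  · rw [h1]
    exact norm_add_le r (norm_int_mul_le r a x) (le_trans (norm_int_mul_le r b y) h.le)
  · intro h0
    rw [h0, padicNorm.zero] at h1
    have := padicNorm.nonneg (p := r) y
    linarith

/-- Elements of `G_b \ H` map `X₀` into `X₁`. -/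
lemma pp_b (a b c d : ℤ) (hb : ¬ (r : ℤ) ∣ b) (x y : ℚ) (h : ‖x‖ᵣ ≤ ‖y‖ᵣ) (hy : y ≠ 0) :
    ‖(r : ℚ) * c * x + d * y‖ᵣ < ‖(a : ℚ) * x + (b : ℚ) / r * y‖ᵣ := by
  have hypos := norm_pos_of_ne r hy
  have hr1 := r_one_lt r
  have hr0 := r_pos r
  have hby : ‖(b : ℚ) / r * y‖ᵣ = r * ‖y‖ᵣ := by
    rw [show (b : ℚ) / r * y = ((b : ℚ) * y) / r by ring, norm_div_r, norm_int_mul_eq r hb]
  have hlt : ‖y‖ᵣ < r * ‖y‖ᵣ := by nlinarith
  have h1 : ‖(a : ℚ) * x + (b : ℚ) / r * y‖ᵣ = r * ‖y‖ᵣ := by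
    have : ‖(a : ℚ) * x‖ᵣ < ‖(b : ℚ) / r * y‖ᵣ := by
      rw [hby]
      exact lt_of_le_of_lt (le_trans (norm_int_mul_le r a x) h) hlt
    rw [norm_add_eq_of_lt' r this, hby]
  rw [h1]
  refine lt_of_le_of_lt (norm_add_le r (B := ‖y‖ᵣ) ?_ (norm_int_mul_le r d y)) hlt
  rw [mul_assoc, norm_r_mul]
  have h2 : ‖(c : ℚ) * x‖ᵣ ≤ ‖y‖ᵣ := le_trans (norm_int_mul_le r c x) h
  have h3 : (r : ℚ)⁻¹ ≤ 1 := inv_le_one_of_one_le₀ hr1.le
  calc (r : ℚ)⁻¹ * ‖(c : ℚ) * x‖ᵣ ≤ 1 * ‖(c : ℚ) * x‖ᵣ :=
        mul_le_mul_of_nonneg_right h3 (padicNorm.nonneg _)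
    _ = ‖(c : ℚ) * x‖ᵣ := one_mul _
    _ ≤ ‖y‖ᵣ := h2

lemma not_dvd_of_det {a b c d : ℤ} (hdet : a * d - b * (r * c) = 1) :
    ¬ (r : ℤ) ∣ a ∧ ¬ (r : ℤ) ∣ d := by
  have hprime : Prime (r : ℤ) := Nat.prime_iff_prime_int.mp hr.out
  constructor
  · rintro ⟨k, hk⟩
    have : (r : ℤ) ∣ 1 := ⟨k * d - b * c, by rw [← hdet, hk]; ring⟩
    exact hprime.not_dvd_one this
  · rintro ⟨k, hk⟩
    have : (r : ℤ) ∣ 1 := ⟨a * k - b * c, by rw [← hdet, hk]; ring⟩
    exact hprime.not_dvd_one this

/-- Elements of `H` preserve `X₁`. -/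
lemma pp_h1 (a b c d : ℤ) (hdet : a * d - b * (r * c) = 1) (x y : ℚ) (h : ‖y‖ᵣ < ‖x‖ᵣ) :
    ‖(r : ℚ) * c * x + d * y‖ᵣ < ‖(a : ℚ) * x + b * y‖ᵣ := by
  obtain ⟨ha, -⟩ := not_dvd_of_det r hdet
  have hr1 := r_one_lt r
  have hr0 := r_pos r
  have hxpos : 0 < ‖x‖ᵣ := lt_of_le_of_lt (padicNorm.nonneg y) h
  have h1 : ‖(a : ℚ) * x + b * y‖ᵣ = ‖x‖ᵣ := by
    have : ‖(b : ℚ) * y‖ᵣ < ‖(a : ℚ) * x‖ᵣ := by
      rw [norm_int_mul_eq r ha]
      exact lt_of_le_of_lt (norm_int_mul_le r b y) h
    rw [norm_add_eq_of_lt r this, norm_int_mul_eq r ha]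
  rw [h1]
  have h2 : ‖(r : ℚ) * c * x‖ᵣ < ‖x‖ᵣ := by
    rw [mul_assoc, norm_r_mul]
    exact inv_r_mul_lt r (padicNorm.nonneg _) (norm_int_mul_le r c x) hxpos
  have h6 : ‖(d : ℚ) * y‖ᵣ < ‖x‖ᵣ := lt_of_le_of_lt (norm_int_mul_le r d y) h
  exact lt_of_le_of_lt padicNorm.nonarchimedean (max_lt h2 h6)

/-- Elements of `H` preserve `X₀`. -/
lemma pp_h0 (a b c d : ℤ) (hdet : a * d - b * (r * c) = 1) (x y : ℚ) (h : ‖x‖ᵣ ≤ ‖y‖ᵣ)
    (hy : y ≠ 0) :
    ‖(a : ℚ) * x + b * y‖ᵣ ≤ ‖(r : ℚ) * c * x + d * y‖ᵣ ∧ (r : ℚ) * c * x + d * y ≠ 0 := by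
  obtain ⟨-, hd⟩ := not_dvd_of_det r hdet
  have hr1 := r_one_lt r
  have hr0 := r_pos r
  have hypos := norm_pos_of_ne r hy
  have h2 : ‖(r : ℚ) * c * x‖ᵣ < ‖(d : ℚ) * y‖ᵣ := by
    rw [mul_assoc, norm_r_mul, norm_int_mul_eq r hd]
    exact inv_r_mul_lt r (padicNorm.nonneg _) (le_trans (norm_int_mul_le r c x) h) hypos
  have h1 : ‖(r : ℚ) * c * x + d * y‖ᵣ = ‖y‖ᵣ := by
    rw [norm_add_eq_of_lt' r h2, norm_int_mul_eq r hd]
  refine ⟨?_, ?_⟩
  · rw [h1]
    exact norm_add_le r (le_trans (norm_int_mul_le r a x) h) (norm_int_mul_le r b y)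
  · intro h0
    rw [h0, padicNorm.zero] at h1
    linarith

end Fermat.Agent.S41.H585

end
-- ===== PACK-END S41/H585/PingPong.lean

-- ===== PACK-BEGIN S41/H585/AmalgPP.lean
section


/-!
# S41, leaf AMALG (helper585): a ping-pong criterion for amalgamated products of two subgroups

`A B : Subgroup G`.  If `G` acts on a set with two disjoint nonempty subsets `X₀, X₁` such that
`A \ B` maps `X₁` into `X₀`, `B \ A` maps `X₀` into `X₁`, `A ⊓ B` preserves both, and both indices
`[A : A ⊓ B]`, `[B : A ⊓ B]` are at least `3` (in the form: for `t ∈ A \ B` there is `g ∈ A \ B`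
with `g t ∉ B`, and symmetrically), then the natural map `A *_{A ⊓ B} B → G` is injective.
-/

set_option autoImplicit false

namespace Fermat.Agent.S41.H585

open Monoid Monoid.CoprodI

section Abstract

variable {G : Type*} [Group G] (A B : Subgroup G)

/-- The two factors, indexed by `Bool`: `false ↦ A`, `true ↦ B`. -/
def fac : Bool → Subgroup G := fun i => cond i B A

@[simp] lemma fac_false : fac A B false = A := rfl
@[simp] lemma fac_true : fac A B true = B := rfl

lemma inf_le_fac (i : Bool) : A ⊓ B ≤ fac A B i := by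
  cases i
  · exact inf_le_left
  · exact inf_le_right

/-- The structure maps `A ⊓ B → A`, `A ⊓ B → B`. -/
def baseIncl (i : Bool) : ↥(A ⊓ B) →* ↥(fac A B i) := Subgroup.inclusion (inf_le_fac A B i)

lemma baseIncl_injective (i : Bool) : Function.Injective (baseIncl A B i) :=
  Subgroup.inclusion_injective _

lemma mem_range_baseIncl {i : Bool} (g : ↥(fac A B i)) :
    g ∈ (baseIncl A B i).range ↔ (g : G) ∈ fac A B (!i) := by
  constructor
  · rintro ⟨h, rfl⟩
    have := h.2
    cases i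
    · exact this.2
    · exact this.1
  · intro hg
    refine ⟨⟨(g : G), ?_⟩, rfl⟩
    have := g.2
    cases i
    · exact ⟨this, hg⟩
    · exact ⟨hg, this⟩

/-- The natural map from the amalgam to `G`. -/
def amalgMap : PushoutI (baseIncl A B) →* G :=
  PushoutI.lift (fun i => (fac A B i).subtype) (A ⊓ B).subtype (by intro i; ext x; rfl)

/-- The natural map from the free product to `G`. -/
def freeMap : CoprodI (fun i => ↥(fac A B i)) →* G := CoprodI.lift (fun i => (fac A B i).subtype)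

lemma amalgMap_ofCoprodI (z : CoprodI (fun i => ↥(fac A B i))) :
    amalgMap A B (PushoutI.ofCoprodI z) = freeMap A B z := by
  have : (amalgMap A B).comp PushoutI.ofCoprodI = freeMap A B := by
    apply CoprodI.ext_hom
    intro i
    ext g
    simp [amalgMap, freeMap]
  exact DFunLike.congr_fun this z

variable {Ω : Type*} [MulAction G Ω] (side : Bool → Set Ω)

/-- The hypotheses of the ping-pong criterion. -/
structure PingPongData : Prop where
  disj : Disjoint (side false) (side true)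
  nonempty : ∀ i, (side i).Nonempty
  pp : ∀ i, ∀ g ∈ fac A B i, g ∉ fac A B (!i) → ∀ x ∈ side (!i), g • x ∈ side i
  base : ∀ h ∈ A ⊓ B, ∀ i, ∀ x ∈ side i, h • x ∈ side i
  idx : ∀ i, ∀ t ∈ fac A B i, t ∉ fac A B (!i) →
    ∃ g ∈ fac A B i, g ∉ fac A B (!i) ∧ g * t ∉ fac A B (!i)

variable {A B side}

lemma not_subset_side (hD : PingPongData A B side) (i : Bool) : ¬ side (!i) ⊆ side i := by
  intro h
  obtain ⟨x, hx⟩ := hD.nonempty (!i)
  have hx' := h hx
  cases i
  · exact Set.disjoint_left.mp hD.disj hx' hx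
  · exact Set.disjoint_left.mp hD.disj hx hx'

/-- Key induction: a reduced word, with its head multiplied by `y`, maps `side (!j)` into
`side i`. -/
lemma neWord_pp (hD : PingPongData A B side) {i j : Bool}
    (w : NeWord (fun i => ↥(fac A B i)) i j)
    (hw : ∀ l ∈ w.toList, ((l.2 : ↥(fac A B l.1)) : G) ∉ fac A B (!l.1))
    (y : G) (hy : y ∈ fac A B i) (hyw : y * (w.head : G) ∉ fac A B (!i)) :
    ∀ x ∈ side (!j), (y * freeMap A B w.prod) • x ∈ side i := by
  induction w generalizing y with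
  | singleton g hg =>
    intro x hx
    rw [NeWord.prod_singleton]
    simp only [freeMap, CoprodI.lift_of, Subgroup.coe_subtype]
    exact hD.pp _ _ ((fac A B _).mul_mem hy g.2) hyw x hx
  | @append i j k l w₁ hne w₂ ih₁ ih₂ =>
    intro x hx
    rw [NeWord.append_prod, map_mul, ← mul_assoc, mul_smul]
    have hw₁ : ∀ l ∈ w₁.toList, ((l.2 : ↥(fac A B l.1)) : G) ∉ fac A B (!l.1) := by
      intro l hl
      exact hw l (by simp [hl])
    have hw₂ : ∀ l ∈ w₂.toList, ((l.2 : ↥(fac A B l.1)) : G) ∉ fac A B (!l.1) := by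
      intro l hl
      exact hw l (by simp [hl])
    have h2 : (freeMap A B w₂.prod) • x ∈ side k := by
      have hhead : ((⟨k, w₂.head⟩ : Σ i, ↥(fac A B i))) ∈ w₂.toList := by
        have := w₂.toList_head?
        exact List.mem_of_mem_head? (by rw [this]; rfl)
      have := ih₂ hw₂ 1 (one_mem _) (by simpa using hw₂ _ hhead) x hx
      simpa using this
    have hjk : k = !j := by
      cases j <;> cases k <;> simp_all
    have e : side k = side (!j) := by rw [hjk]
    rw [e] at h2
    exact ih₁ hw₁ y hy (by simpa using hyw) _ h2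

/-- **Ping-pong criterion**: the amalgam `A *_{A ⊓ B} B` embeds in `G`. -/
theorem amalgMap_injective (hD : PingPongData A B side) :
    Function.Injective (amalgMap A B) := by
  classical
  rw [injective_iff_map_eq_one]
  intro x hx
  obtain ⟨d⟩ := PushoutI.NormalWord.transversal_nonempty (baseIncl A B) (baseIncl_injective A B)
  obtain ⟨w, rfl⟩ := (PushoutI.NormalWord.equiv (d := d)).symm.surjective x
  change amalgMap A B w.prod = 1 at hx
  change w.prod = 1
  rw [PushoutI.NormalWord.prod, map_mul, amalgMap_ofCoprodI] at hx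
  have hbase : amalgMap A B (PushoutI.base (baseIncl A B) w.head) = (w.head : G) := by
    simp [amalgMap]
  rw [hbase] at hx
  -- the letters of `w` are not in the base group
  have hred : ∀ l ∈ w.toWord.toList, ((l.2 : ↥(fac A B l.1)) : G) ∉ fac A B (!l.1) := by
    rintro ⟨i, g⟩ hl hmem
    have hg1 : g ≠ 1 := w.toWord.ne_one _ hl
    have hgset : g ∈ d.set i := w.normalized i g hl
    have hgr : g ∈ (baseIncl A B i).range := (mem_range_baseIncl A B g).mpr hmem
    have hinj := (d.compl i).1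
    have := @hinj (⟨g, hgr⟩, ⟨1, d.one_mem i⟩) (⟨1, one_mem _⟩, ⟨g, hgset⟩) (by simp)
    simp only [Prod.mk.injEq, Subtype.mk.injEq] at this
    exact hg1 this.1
  by_cases hemp : w.toWord = Word.empty
  · rw [hemp, Word.prod_empty, map_one, mul_one] at hx
    have hh : w.head = 1 := Subtype.ext hx
    rw [PushoutI.NormalWord.prod, hemp, hh]
    simp
  · exfalso
    obtain ⟨i, j, w', hw'⟩ := NeWord.of_word w.toWord hemp
    have hprod : w'.prod = w.toWord.prod := by rw [NeWord.prod, hw']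
    have hred' : ∀ l ∈ w'.toList, ((l.2 : ↥(fac A B l.1)) : G) ∉ fac A B (!l.1) := by
      intro l hl
      apply hred
      rw [← hw']
      exact hl
    rw [← hprod] at hx
    have hheadmem : ((⟨i, w'.head⟩ : Σ i, ↥(fac A B i))) ∈ w'.toList := by
      have := w'.toList_head?
      exact List.mem_of_mem_head? (by rw [this]; rfl)
    have hhead : ((w'.head : ↥(fac A B i)) : G) ∉ fac A B (!i) := hred' _ hheadmem
    have hHi : (w.head : G) ∈ fac A B i := inf_le_fac A B i w.head.2
    have hHi' : (w.head : G) ∈ fac A B (!i) := inf_le_fac A B (!i) w.head.2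
    have ht : (w.head : G) * (w'.head : G) ∉ fac A B (!i) := by
      intro h
      apply hhead
      have := (fac A B (!i)).mul_mem ((fac A B (!i)).inv_mem hHi') h
      simpa using this
    by_cases hij : i = j
    · subst hij
      apply not_subset_side hD i
      intro x hxs
      have := neWord_pp hD w' hred' (w.head : G) hHi ht x hxs
      rwa [hx, one_smul] at this
    · have htmem : (w.head : G) * (w'.head : G) ∈ fac A B i :=
        (fac A B i).mul_mem hHi w'.head.2
      obtain ⟨g, hg, hgn, hgt⟩ := hD.idx i _ htmem ht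
      apply not_subset_side hD i
      intro x hxs
      have hji : j = !i := by
        cases i <;> cases j <;> simp_all
      have hginv : g⁻¹ ∉ fac A B (!i) := fun h => hgn (by simpa using (fac A B (!i)).inv_mem h)
      have h1 : g⁻¹ • x ∈ side i := hD.pp i _ ((fac A B i).inv_mem hg) hginv x hxs
      have e : side (!j) = side i := by rw [hji]; simp
      have h1' : g⁻¹ • x ∈ side (!j) := by rw [e]; exact h1
      have h2 := neWord_pp hD w' hred' (g * (w.head : G)) ((fac A B i).mul_mem hg hHi)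
        (by rwa [mul_assoc]) _ h1'
      have : (g * (w.head : G) * freeMap A B w'.prod) • g⁻¹ • x = x := by
        rw [mul_assoc, hx, mul_one, smul_smul, mul_inv_cancel, one_smul]
      rwa [this] at h2

end Abstract

end Fermat.Agent.S41.H585

end
-- ===== PACK-END S41/H585/AmalgPP.lean

-- ===== PACK-BEGIN S41/H744/OrbitSum.lean
section


/-!
# S41, block IH' (helper744): the orbit sum lemma (L4)

`U` a finite group, `w ∈ U` with `p ∣ orderOf w` (`p` odd), `f : U → F` a function with values in an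
abelian group killed by `p` such that `f (ε * w) = f ε - τ` for all `ε`.  Then `∑ ε, f ε = 0`.

Proof: decompose `U` into cosets `e * ⟨w⟩`; a coset sum is `m • f e - (m (m - 1) / 2) • τ = 0`.
-/

set_option autoImplicit false

namespace Fermat.Agent.S41.H744

open Finset

/-- `f (e * w ^ i) = f e - i • τ`. -/
lemma shift_pow_h744 {U F : Type*} [Monoid U] [AddCommGroup F] (f : U → F) (w : U) (τ : F)
    (hw : ∀ ε, f (ε * w) = f ε - τ) (e : U) (i : ℕ) : f (e * w ^ i) = f e - i • τ := by
  induction i with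
  | zero => simp
  | succ n ih => rw [pow_succ, ← mul_assoc, hw, ih, succ_nsmul]; abel

lemma nsmul_eq_zero_of_dvd_h744 {F : Type*} [AddCommGroup F] {p : ℕ} (hF : ∀ x : F, p • x = 0)
    {m : ℕ} (h : p ∣ m) (x : F) : m • x = 0 := by
  obtain ⟨k, rfl⟩ := h
  rw [mul_comm, mul_nsmul, hF]

/-- The sum over one coset of `⟨w⟩`. -/
lemma sum_coset_h744 {U F : Type*} [Monoid U] [AddCommGroup F] (p : ℕ) (hp : Odd p)
    (hF : ∀ x : F, p • x = 0) (f : U → F) (w : U) (τ : F)
    (hw : ∀ ε, f (ε * w) = f ε - τ) (hord : p ∣ orderOf w) (e : U) :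
    ∑ i ∈ range (orderOf w), f (e * w ^ i) = 0 := by
  simp only [shift_pow_h744 f w τ hw]
  rw [Finset.sum_sub_distrib, Finset.sum_const, card_range, ← Finset.sum_smul,
    nsmul_eq_zero_of_dvd_h744 hF hord, zero_sub, neg_eq_zero]
  apply nsmul_eq_zero_of_dvd_h744 hF
  have h2 : p ∣ (∑ i ∈ range (orderOf w), i) * 2 := by
    rw [Finset.sum_range_id_mul_two]
    exact Dvd.dvd.mul_right hord _
  exact (Nat.Coprime.dvd_mul_right (Nat.Coprime.symm (Nat.coprime_two_left.mpr hp))).mp h2

/-- **Orbit sum lemma.** -/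
theorem sum_eq_zero_of_shift_h744 {U F : Type*} [Group U] [Fintype U] [AddCommGroup F]
    (p : ℕ) (hp : Odd p) (hF : ∀ x : F, p • x = 0) (f : U → F) (w : U) (τ : F)
    (hw : ∀ ε, f (ε * w) = f ε - τ) (hord : p ∣ orderOf w) :
    ∑ ε, f ε = 0 := by
  classical
  rw [← Finset.sum_fiberwise (s := univ) (g := fun ε : U => (ε : U ⧸ Subgroup.zpowers w))]
  refine Finset.sum_eq_zero fun c _ => ?_
  obtain ⟨e, rfl⟩ := QuotientGroup.mk_surjective c
  have hset : (univ.filter fun ε : U => (ε : U ⧸ Subgroup.zpowers w) = (e : U ⧸ Subgroup.zpowers w))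
      = (range (orderOf w)).image (fun i => e * w ^ i) := by
    ext ε
    simp only [mem_filter, mem_univ, true_and, mem_image, mem_range]
    rw [QuotientGroup.eq]
    constructor
    · intro h
      have h' : e⁻¹ * ε ∈ Subgroup.zpowers w := by
        have := Subgroup.inv_mem _ h
        simpa [mul_inv_rev] using this
      rw [mem_zpowers_iff_mem_range_orderOf] at h'
      obtain ⟨i, hi, hi'⟩ := Finset.mem_image.mp h'
      refine ⟨i, Finset.mem_range.mp hi, ?_⟩
      rw [hi']; group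
    · rintro ⟨i, _, rfl⟩
      have h1 : (e * w ^ i)⁻¹ * e = (w ^ i)⁻¹ := by group
      rw [h1]
      exact Subgroup.inv_mem _ (Subgroup.pow_mem _ (Subgroup.mem_zpowers w) i)
  rw [hset, Finset.sum_image]
  · exact sum_coset_h744 p hp hF f w τ hw hord e
  · intro i hi j hj hij
    exact pow_injOn_Iio_orderOf (by simpa using hi) (by simpa using hj) (mul_left_cancel hij)

end Fermat.Agent.S41.H744

end
-- ===== PACK-END S41/H744/OrbitSum.lean

-- ===== PACK-BEGIN S41/Spec/NEKummer.lean
section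




/-!
# Row S41, block NE' ("non-Eisenstein with Kummer condition") — frozen interface
(sub-architect helper45)

Input of the CSP-free Ihara step IH' (helper744, `coord/S41-IH-without-CSP-helper744.md` §2):

`NEKummerStatement` : if `E[p]` is irreducible (`p` odd) and `q` is a prime, then for every `m ≥ 1`
and every finite set `S` there is a prime `ℓ ∉ S` of good reduction of the integral model `W` with
`ℓ ≡ 1 mod m`, `ℓ ≡ 1 mod p`, `p ∤ a_ℓ(W) − (ℓ + 1)` and `q ^ ((ℓ - 1) / p) ≢ 1 mod ℓ`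
(i.e. `q` is not a `p`-th power modulo `ℓ`).

Proof plan (helper45, `coord/S41-NE.md` §NE'): block NE (`H45/NE.lean`) + Kummer step
(K1) commutator with complex conjugation, (K2) Frobenius on a `p`-th root of `q²`,
(K3) trace trick.  No `sorry` in this file (definitions only).
-/

set_option autoImplicit false

namespace Fermat.Agent.S41.Spec

open WeierstrassCurve WeierstrassCurve.Affine WeierstrassCurve.Affine.Point

/-- **Block NE'.**  `E[p]` irreducible, `p` odd, `q` prime  ⇒  for all `m ≥ 1` and finite `S` there is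
a good prime `ℓ ∉ S`, `ℓ ≡ 1 mod m`, `ℓ ≡ 1 mod p`, with `p ∤ a_ℓ(W) − (ℓ + 1)` and
`q ^ ((ℓ - 1) / p) ≢ 1 mod ℓ`. -/
def NEKummerStatement : Prop :=
  ∀ (E : WeierstrassCurve ℚ) [E.IsElliptic] (W : WeierstrassCurve ℤ), W.IsIntegralModelOf E →
    ∀ p : ℕ, p.Prime → p ≠ 2 →
      GaloisRepIsIrreducible (K := AlgebraicClosure ℚ) ℚ E p →
      ∀ q : ℕ, q.Prime →
      ∀ m : ℕ, 0 < m → ∀ S : Finset ℕ,
        ∃ ℓ : ℕ, ℓ.Prime ∧ ℓ ∉ S ∧ W.IsGoodPrimeFor ℓ ∧ ℓ ≡ 1 [MOD m] ∧ ℓ ≡ 1 [MOD p] ∧
          ¬ (p : ℤ) ∣ W.apOfModel ℓ - ((ℓ : ℤ) + 1) ∧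
          ¬ (q ^ ((ℓ - 1) / p) ≡ 1 [MOD ℓ])

end Fermat.Agent.S41.Spec

end
-- ===== PACK-END S41/Spec/NEKummer.lean

-- ===== PACK-BEGIN S17/H200/EchelonSpan.lean
section



/-!
# Echelon descent for finite-dimensional spaces of Laurent series

Let `W ⊆ C((q))` be a finite-dimensional `C`-subspace.

* `exists_order_le` : the orders of the nonzero elements of `W` are bounded above.
* `le_span_fixed` : if `W` is stable under a set `H` of coefficientwise ring endomorphisms, then
  `W` is spanned by its `H`-fixed vectors.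

Mathlib + Prelude `coeffMap` only.
-/

set_option autoImplicit false

noncomputable section

namespace Fermat.Agent.S17.H200

open ModularCurve

variable {C : Type*} [Field C]

/-- The subspace of `W` of the vectors whose `s`-th coefficient vanishes. -/
def cutAt (W : Submodule C (LaurentSeries C)) (s : ℤ) : Submodule C (LaurentSeries C) :=
  W ⊓ LinearMap.ker (HahnSeries.coeff.linearMap (R := C) s)

theorem mem_cutAt {W : Submodule C (LaurentSeries C)} {s : ℤ} {v : LaurentSeries C} :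
    v ∈ cutAt W s ↔ v ∈ W ∧ v.coeff s = 0 := by
  simp [cutAt, HahnSeries.coeff.linearMap]

theorem cutAt_le (W : Submodule C (LaurentSeries C)) (s : ℤ) : cutAt W s ≤ W := inf_le_left

theorem cutAt_lt {W : Submodule C (LaurentSeries C)} {s : ℤ} {v : LaurentSeries C}
    (hv : v ∈ W) (hs : v.coeff s ≠ 0) : cutAt W s < W := by
  refine lt_of_le_of_ne (cutAt_le W s) fun h => ?_
  have : v ∈ cutAt W s := by rw [h]; exact hv
  exact hs (mem_cutAt.mp this).2

theorem finrank_cutAt_lt {W : Submodule C (LaurentSeries C)} [FiniteDimensional C W] {s : ℤ}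
    {v : LaurentSeries C} (hv : v ∈ W) (hs : v.coeff s ≠ 0) :
    Module.finrank C (cutAt W s) < Module.finrank C W :=
  Submodule.finrank_lt_finrank_of_lt (cutAt_lt hv hs)

instance finiteDimensional_cutAt (W : Submodule C (LaurentSeries C)) [FiniteDimensional C W]
    (s : ℤ) : FiniteDimensional C (cutAt W s) :=
  Submodule.finiteDimensional_of_le (cutAt_le W s)

/-- Decomposition of a vector of `W` along a vector `v` with `v.coeff s ≠ 0`. -/
theorem sub_smul_mem_cutAt {W : Submodule C (LaurentSeries C)} {s : ℤ} {v w : LaurentSeries C}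
    (hv : v ∈ W) (hs : v.coeff s ≠ 0) (hw : w ∈ W) :
    w - (w.coeff s / v.coeff s) • v ∈ cutAt W s := by
  refine mem_cutAt.mpr ⟨W.sub_mem hw (W.smul_mem _ hv), ?_⟩
  rw [HahnSeries.coeff_sub, HahnSeries.coeff_smul, smul_eq_mul, div_mul_cancel₀ _ hs, sub_self]

/-- The orders of the nonzero elements of a finite-dimensional space of Laurent series are
bounded above. -/
theorem exists_order_le (W : Submodule C (LaurentSeries C)) [FiniteDimensional C W] :
    ∃ B : ℤ, ∀ v ∈ W, v ≠ 0 → v.order ≤ B := by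
  induction' hd : Module.finrank C W using Nat.strong_induction_on with d ih generalizing W
  by_cases hW : ∃ v ∈ W, v ≠ 0
  · obtain ⟨v, hvW, hv0⟩ := hW
    have hs : v.coeff v.order ≠ 0 := fun h => hv0 (HahnSeries.coeff_order_eq_zero.mp h)
    obtain ⟨B, hB⟩ := ih _ (hd ▸ finrank_cutAt_lt hvW hs) (cutAt W v.order) rfl
    refine ⟨max B v.order, fun w hw hw0 => ?_⟩
    by_cases hc : w.coeff v.order = 0
    · exact (hB w (mem_cutAt.mpr ⟨hw, hc⟩) hw0).trans (le_max_left _ _)
    · exact (HahnSeries.order_le_of_coeff_ne_zero hc).trans (le_max_right _ _)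
  · exact ⟨0, fun v hv hv0 => (hW ⟨v, hv, hv0⟩).elim⟩

/-- A nonzero space with bounded orders, stable under `H`, contains a nonzero `H`-fixed vector
(the vector of maximal order with leading coefficient `1`). -/
theorem exists_fixed_of_order_le (W : Submodule C (LaurentSeries C))
    (hW : ∃ v ∈ W, v ≠ 0) (B : ℤ) (hB : ∀ v ∈ W, v ≠ 0 → v.order ≤ B)
    (H : Set (C →+* C)) (hH : ∀ σ ∈ H, ∀ v ∈ W, coeffMap σ v ∈ W) :
    ∃ v ∈ W, v ≠ 0 ∧ ∀ σ ∈ H, coeffMap σ v = v := by
  classical
  obtain ⟨s, ⟨v₁, hv₁W, hv₁0, hv₁s⟩, hmax⟩ :=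
    Int.exists_greatest_of_bdd (P := fun n : ℤ => ∃ v ∈ W, v ≠ 0 ∧ v.order = n)
      ⟨B, fun z ⟨v, hvW, hv0, hvz⟩ => hvz ▸ hB v hvW hv0⟩
      (by obtain ⟨v, hvW, hv0⟩ := hW; exact ⟨v.order, v, hvW, hv0, rfl⟩)
  have hc : v₁.coeff s ≠ 0 := by
    rw [← hv₁s]
    exact fun h => hv₁0 (HahnSeries.coeff_order_eq_zero.mp h)
  set v : LaurentSeries C := (v₁.coeff s)⁻¹ • v₁ with hv
  have hvW : v ∈ W := W.smul_mem _ hv₁W
  have hvs : v.coeff s = 1 := by
    rw [hv, HahnSeries.coeff_smul, smul_eq_mul, inv_mul_cancel₀ hc]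
  have hvlt : ∀ k < s, v.coeff k = 0 := by
    intro k hk
    have h0 : v₁.coeff k = 0 := HahnSeries.coeff_eq_zero_of_lt_order (by rw [hv₁s]; exact hk)
    rw [hv, HahnSeries.coeff_smul, h0, smul_zero]
  have hv0 : v ≠ 0 := by
    intro h
    rw [h] at hvs
    simp at hvs
  refine ⟨v, hvW, hv0, fun σ hσ => ?_⟩
  by_contra hne
  have hd0 : coeffMap σ v - v ≠ 0 := sub_ne_zero.mpr hne
  have hdW : coeffMap σ v - v ∈ W := W.sub_mem (hH σ hσ v hvW) hvW
  have hle : (coeffMap σ v - v).order ≤ s := hmax _ ⟨_, hdW, hd0, rfl⟩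
  have hcoeff : ∀ k ≤ s, (coeffMap σ v - v).coeff k = 0 := by
    intro k hk
    rw [HahnSeries.coeff_sub, coeffMap_coeff]
    rcases hk.lt_or_eq with h | h
    · rw [hvlt k h, map_zero, sub_zero]
    · rw [h, hvs, map_one, sub_self]
  exact hd0 (HahnSeries.coeff_order_eq_zero.mp (hcoeff _ hle))

/-- **Echelon descent.**  A finite-dimensional space of Laurent series which is stable under a
set `H` of coefficientwise ring endomorphisms is spanned by its `H`-fixed vectors. -/
theorem le_span_fixed (W : Submodule C (LaurentSeries C)) [FiniteDimensional C W]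
    (H : Set (C →+* C)) (hH : ∀ σ ∈ H, ∀ v ∈ W, coeffMap σ v ∈ W) :
    W ≤ Submodule.span C {v | v ∈ W ∧ ∀ σ ∈ H, coeffMap σ v = v} := by
  induction' hd : Module.finrank C W using Nat.strong_induction_on with d ih generalizing W
  by_cases hW : ∃ v ∈ W, v ≠ 0
  · obtain ⟨B, hB⟩ := exists_order_le W
    obtain ⟨v, hvW, hv0, hvfix⟩ := exists_fixed_of_order_le W hW B hB H hH
    have hs : v.coeff v.order ≠ 0 := fun h => hv0 (HahnSeries.coeff_order_eq_zero.mp h)
    have hcut : ∀ σ ∈ H, ∀ w ∈ cutAt W v.order, coeffMap σ w ∈ cutAt W v.order := by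
      intro σ hσ w hw
      obtain ⟨hwW, hw0⟩ := mem_cutAt.mp hw
      exact mem_cutAt.mpr ⟨hH σ hσ w hwW, by rw [coeffMap_coeff, hw0, map_zero]⟩
    have ih' := ih _ (hd ▸ finrank_cutAt_lt hvW hs) (cutAt W v.order) hcut rfl
    intro w hw
    have h1 : w - (w.coeff v.order / v.coeff v.order) • v ∈
        Submodule.span C {v | v ∈ W ∧ ∀ σ ∈ H, coeffMap σ v = v} := by
      refine Submodule.span_mono ?_ (ih' (sub_smul_mem_cutAt hvW hs hw))
      rintro u ⟨hu, hufix⟩
      exact ⟨cutAt_le W _ hu, hufix⟩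
    have h2 : (w.coeff v.order / v.coeff v.order) • v ∈
        Submodule.span C {v | v ∈ W ∧ ∀ σ ∈ H, coeffMap σ v = v} :=
      Submodule.smul_mem _ _ (Submodule.subset_span ⟨hvW, hvfix⟩)
    have := Submodule.add_mem _ h1 h2
    rwa [sub_add_cancel] at this
  · intro w hw
    have : w = 0 := by
      by_contra h
      exact hW ⟨w, hw, h⟩
    rw [this]
    exact Submodule.zero_mem _

end Fermat.Agent.S17.H200

end
end
-- ===== PACK-END S17/H200/EchelonSpan.lean

-- ===== PACK-BEGIN S17/H830/NSClosure.lean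
section


/-!
# S17 / G-DIV, piece NS (helper830), part 3: relative algebraic closures as subfields

Mathlib only.  For a subfield `K` of a field `L` and a set `T ⊆ L`:

* `aclo K T : Subfield L` : the elements of `L` algebraic over `K(T)` (= over the subalgebra
  `K[T]`);
* `le_aclo`, `subset_aclo`, `aclo_algClosed` (it is algebraically closed in `L`),
  `countable_aclo`;
* `not_mem_aclo_of_algebraicIndependent` : if `x` is algebraically independent over `K` and
  `i ∉ s`, then `x i ∉ aclo K (x '' s)`.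
-/

set_option autoImplicit false

noncomputable section

namespace Fermat.Agent.S17.H830

open Cardinal

universe u

variable {L : Type u} [Field L]

/-- The elements of `L` which are algebraic over `K(T)`. -/
def aclo (K : Subfield L) (T : Set L) : Subfield L where
  carrier := {x | IsAlgebraic (Algebra.adjoin K T) x}
  mul_mem' ha hb := IsAlgebraic.mul ha hb
  one_mem' := isAlgebraic_one
  add_mem' ha hb := IsAlgebraic.add ha hb
  zero_mem' := isAlgebraic_zero
  neg_mem' ha := IsAlgebraic.neg ha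
  inv_mem' _ hx := IsAlgebraic.inv hx

theorem mem_aclo {K : Subfield L} {T : Set L} {x : L} :
    x ∈ aclo K T ↔ IsAlgebraic (Algebra.adjoin K T) x := Iff.rfl

theorem adjoin_le_aclo (K : Subfield L) (T : Set L) (a : Algebra.adjoin K T) :
    (a : L) ∈ aclo K T :=
  isAlgebraic_algebraMap a

theorem le_aclo (K : Subfield L) (T : Set L) : K ≤ aclo K T := fun x hx =>
  adjoin_le_aclo K T ⟨x, Subalgebra.algebraMap_mem _ (⟨x, hx⟩ : K)⟩

theorem subset_aclo (K : Subfield L) (T : Set L) : T ⊆ aclo K T := fun x hx =>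
  adjoin_le_aclo K T ⟨x, Algebra.subset_adjoin hx⟩

/-- `aclo K T` is algebraically closed in `L`. -/
theorem aclo_algClosed (K : Subfield L) (T : Set L) (x : L)
    (hx : IsAlgebraic (aclo K T) x) : x ∈ aclo K T := by
  let A := Algebra.adjoin K T
  let B : Subalgebra A L := Subalgebra.algebraicClosure A L
  let f : aclo K T →+* B :=
    { toFun := fun y => ⟨y.1, y.2⟩
      map_one' := rfl
      map_mul' := fun _ _ => rfl
      map_zero' := rfl
      map_add' := fun _ _ => rfl }
  have hf : Function.Injective f := fun a b h => Subtype.ext (congrArg (fun z : B => (z : L)) h)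
  have h1 : IsAlgebraic B ((RingHom.id L) x) :=
    hx.ringHom_of_comp_eq f (RingHom.id L) hf (by ext; rfl)
  exact IsAlgebraic.restrictScalars A h1

theorem countable_aclo {K : Subfield L} {T : Set L} (hK : (K : Set L).Countable)
    (hT : T.Countable) : (aclo K T : Set L).Countable := by
  let A := Algebra.adjoin K T
  let B : Subalgebra A L := Subalgebra.algebraicClosure A L
  have hA : #A ≤ ℵ₀ := by
    refine (Algebra.cardinalMk_adjoin_le (R := K) T).trans ?_
    have h1 : #K ≤ ℵ₀ := Cardinal.le_aleph0_iff_set_countable.mpr hK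
    have h2 : #T ≤ ℵ₀ := Cardinal.le_aleph0_iff_set_countable.mpr hT
    exact max_le (max_le h1 h2) le_rfl
  have hB : #B ≤ ℵ₀ :=
    (Algebra.IsAlgebraic.cardinalMk_le_max A B).trans (max_le hA le_rfl)
  have hB' : ((B : Set L)).Countable := Cardinal.le_aleph0_iff_set_countable.mp hB
  exact hB'

/-- An element of an algebraically independent family is not algebraic over the others. -/
theorem not_mem_aclo_of_algebraicIndependent {K : Subfield L} {ι : Type*} {x : ι → L}
    (hx : AlgebraicIndependent K x) {s : Set ι} {i : ι} (hi : i ∉ s) :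
    x i ∉ aclo K (x '' s) :=
  hx.transcendental_adjoin hi

end Fermat.Agent.S17.H830

end
end
-- ===== PACK-END S17/H830/NSClosure.lean

-- ===== PACK-BEGIN S59/Unit3/H461/EtaChar.lean
section


/-!
# S59 / leaf UNIT-3 (p = 3 wall), part 1: the multiplier of `η⁸` (helper461)

`η⁸` is a modular form of weight `4` for `SL₂(ℤ)` with a character of order `3`:

  `η⁸(γ τ) = ω ^ χ₀(γ) · (c τ + d)⁴ · η⁸(τ)`,  `ω = e^{2πi/3}`,
  `χ₀(a, b; c, d) = (a + d) c - b d (c² - 1)  (mod 3)`.

Proof: Mathlib's transformation laws of `η` under `S` and `T`, `SL₂(ℤ) = ⟨S, T⟩` and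
`81`-case checks in `ZMod 3`.
-/

set_option autoImplicit false

noncomputable section

open Complex ModularForm
open UpperHalfPlane hiding I
open scoped MatrixGroups Real Manifold

namespace Fermat.Agent.S59.Unit3.H461

/-! ## The character, arithmetic side -/

/-- The polynomial `(a + d) c - b d (c² - 1)` on `ZMod 3`. -/
def chiF (a b c d : ZMod 3) : ZMod 3 := (a + d) * c - b * d * (c ^ 2 - 1)

theorem chiF_mul_T : ∀ a b c d : ZMod 3, a * d - b * c = 1 →
    chiF a (a + b) c (c + d) = chiF a b c d + 1 := by decide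

theorem chiF_mul_T_inv : ∀ a b c d : ZMod 3, a * d - b * c = 1 →
    chiF a (b - a) c (d - c) = chiF a b c d - 1 := by decide

theorem chiF_mul_S : ∀ a b c d : ZMod 3, a * d - b * c = 1 →
    chiF b (-a) d (-c) = chiF a b c d := by decide

theorem chiF_mul_S_inv : ∀ a b c d : ZMod 3, a * d - b * c = 1 →
    chiF (-b) a (-d) c = chiF a b c d := by decide

/-- The exponent of the multiplier of `η⁸`. -/
def chi0 (γ : SL(2, ℤ)) : ZMod 3 :=
  chiF ((γ 0 0 : ℤ) : ZMod 3) ((γ 0 1 : ℤ) : ZMod 3) ((γ 1 0 : ℤ) : ZMod 3)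
    ((γ 1 1 : ℤ) : ZMod 3)

theorem det_zmod (γ : SL(2, ℤ)) :
    ((γ 0 0 : ℤ) : ZMod 3) * ((γ 1 1 : ℤ) : ZMod 3) -
      ((γ 0 1 : ℤ) : ZMod 3) * ((γ 1 0 : ℤ) : ZMod 3) = 1 := by
  have h := γ.det_coe
  rw [Matrix.det_fin_two] at h
  have h2 := congrArg (Int.cast : ℤ → ZMod 3) h
  push_cast at h2
  exact h2

theorem coe_mul_T (γ : SL(2, ℤ)) : (↑(γ * ModularGroup.T) : Matrix (Fin 2) (Fin 2) ℤ) =
    !![γ 0 0, γ 0 0 + γ 0 1; γ 1 0, γ 1 0 + γ 1 1] := by
  rw [Matrix.SpecialLinearGroup.coe_mul, ModularGroup.coe_T]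
  ext i j
  fin_cases i <;> fin_cases j <;> simp [Matrix.mul_apply, Fin.sum_univ_two]

theorem coe_mul_T_inv (γ : SL(2, ℤ)) : (↑(γ * ModularGroup.T⁻¹) : Matrix (Fin 2) (Fin 2) ℤ) =
    !![γ 0 0, γ 0 1 - γ 0 0; γ 1 0, γ 1 1 - γ 1 0] := by
  rw [Matrix.SpecialLinearGroup.coe_mul, ModularGroup.coe_T_inv]
  ext i j
  fin_cases i <;> fin_cases j <;> simp [Matrix.mul_apply, Fin.sum_univ_two] <;> ring

theorem coe_mul_S (γ : SL(2, ℤ)) : (↑(γ * ModularGroup.S) : Matrix (Fin 2) (Fin 2) ℤ) =
    !![γ 0 1, -γ 0 0; γ 1 1, -γ 1 0] := by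
  rw [Matrix.SpecialLinearGroup.coe_mul, ModularGroup.coe_S]
  ext i j
  fin_cases i <;> fin_cases j <;> simp [Matrix.mul_apply, Fin.sum_univ_two]

theorem coe_S_inv : (↑(ModularGroup.S⁻¹) : Matrix (Fin 2) (Fin 2) ℤ) = !![0, 1; -1, 0] := by
  rw [Matrix.SpecialLinearGroup.coe_inv, ModularGroup.coe_S, Matrix.adjugate_fin_two_of]
  simp

theorem coe_mul_S_inv (γ : SL(2, ℤ)) : (↑(γ * ModularGroup.S⁻¹) : Matrix (Fin 2) (Fin 2) ℤ) =
    !![-γ 0 1, γ 0 0; -γ 1 1, γ 1 0] := by
  rw [Matrix.SpecialLinearGroup.coe_mul, coe_S_inv]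
  ext i j
  fin_cases i <;> fin_cases j <;> simp [Matrix.mul_apply, Fin.sum_univ_two]

theorem chi0_one : chi0 1 = 0 := by
  simp [chi0, chiF]

theorem chi0_mul_T (γ : SL(2, ℤ)) : chi0 (γ * ModularGroup.T) = chi0 γ + 1 := by
  have h := chiF_mul_T _ _ _ _ (det_zmod γ)
  rw [chi0, chi0, ← h, coe_mul_T]
  simp

theorem chi0_mul_T_inv (γ : SL(2, ℤ)) : chi0 (γ * ModularGroup.T⁻¹) = chi0 γ - 1 := by
  have h := chiF_mul_T_inv _ _ _ _ (det_zmod γ)
  rw [chi0, chi0, ← h, coe_mul_T_inv]
  simp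

theorem chi0_mul_S (γ : SL(2, ℤ)) : chi0 (γ * ModularGroup.S) = chi0 γ := by
  have h := chiF_mul_S _ _ _ _ (det_zmod γ)
  rw [chi0, chi0, ← h, coe_mul_S]
  simp

theorem chi0_mul_S_inv (γ : SL(2, ℤ)) : chi0 (γ * ModularGroup.S⁻¹) = chi0 γ := by
  have h := chiF_mul_S_inv _ _ _ _ (det_zmod γ)
  rw [chi0, chi0, ← h, coe_mul_S_inv]
  simp

/-! ## The cube root of unity -/

/-- `ω = e^{2πi/3}`. -/
def omega3 : ℂ := cexp (2 * π * I / 3)

theorem omega3_pow_three : omega3 ^ 3 = 1 := by
  rw [omega3, ← Complex.exp_nat_mul]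
  have : ((3 : ℕ) : ℂ) * (2 * π * I / 3) = 2 * π * I := by push_cast; ring
  rw [this, Complex.exp_two_pi_mul_I]

theorem omega3_ne_zero : omega3 ≠ 0 := Complex.exp_ne_zero _

theorem omega3_pow_mod (m : ℕ) : omega3 ^ (m % 3) = omega3 ^ m := by
  conv_rhs => rw [← Nat.mod_add_div m 3]
  rw [pow_add, pow_mul, omega3_pow_three, one_pow, mul_one]

/-- `ω ^ k`, `k ∈ ℤ/3`. -/
def omegaPow (k : ZMod 3) : ℂ := omega3 ^ k.val

theorem omegaPow_zero : omegaPow 0 = 1 := by simp [omegaPow]

theorem omegaPow_one : omegaPow 1 = omega3 := by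
  simp [omegaPow, ZMod.val_one]

theorem omegaPow_add (k l : ZMod 3) : omegaPow (k + l) = omegaPow k * omegaPow l := by
  rw [omegaPow, omegaPow, omegaPow, ZMod.val_add, omega3_pow_mod, pow_add]

theorem omegaPow_ne_zero (k : ZMod 3) : omegaPow k ≠ 0 := pow_ne_zero _ omega3_ne_zero

theorem omegaPow_sub_one (k : ZMod 3) : omegaPow (k - 1) * omega3 = omegaPow k := by
  rw [← omegaPow_one, ← omegaPow_add, sub_add_cancel]

theorem omegaPow_pow_three (k : ZMod 3) : omegaPow k ^ 3 = 1 := by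
  rw [omegaPow, ← pow_mul, mul_comm, pow_mul, omega3_pow_three, one_pow]

/-! ## `η⁸` -/

/-- `η⁸` on the upper half plane. -/
def eta8 (τ : ℍ) : ℂ := η (τ : ℂ) ^ 8

theorem eta8_ne_zero (τ : ℍ) : eta8 τ ≠ 0 := pow_ne_zero _ (eta_ne_zero τ.2)

theorem eta8_pow_three (τ : ℍ) : eta8 τ ^ 3 = ModularForm.discriminant τ := by
  rw [eta8, ← pow_mul]
  rfl

theorem eta_one_add (z : ℂ) : η (1 + z) = cexp (2 * π * I / 24) * η z := by
  have h1 : Function.Periodic.qParam 24 (1 + z) =
      cexp (2 * π * I / 24) * Function.Periodic.qParam 24 z := by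
    simp only [Function.Periodic.qParam]
    rw [← Complex.exp_add]
    congr 1
    push_cast
    ring
  have h2 : ∀ n : ℕ, eta_q n (1 + z) = eta_q n z := by
    intro n
    simp only [eta_q, Function.Periodic.qParam]
    congr 1
    have : 2 * (π : ℂ) * I * (1 + z) / ((1 : ℝ) : ℂ) = 2 * π * I * z / ((1 : ℝ) : ℂ) + 2 * π * I := by
      push_cast
      ring
    rw [this, Complex.exp_add, Complex.exp_two_pi_mul_I, mul_one]
  unfold ModularForm.eta
  rw [h1]
  simp only [h2]
  ring

theorem eta8_T (τ : ℍ) : eta8 (ModularGroup.T • τ) = omega3 * eta8 τ := by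
  have hc : ((ModularGroup.T • τ : ℍ) : ℂ) = 1 + (τ : ℂ) := by
    rw [modular_T_smul]
    simp
  rw [eta8, hc, eta_one_add, mul_pow, eta8, omega3, ← Complex.exp_nat_mul]
  congr 2
  push_cast
  ring

theorem csqrt_pow_eight {z : ℂ} (hz : z ≠ 0) : Complex.sqrt z ^ 8 = z ^ 4 := by
  rw [sqrt_eq_exp hz, ← Complex.exp_nat_mul]
  have : ((8 : ℕ) : ℂ) * (Complex.log z / 2) = ((4 : ℕ) : ℂ) * Complex.log z := by
    push_cast
    ring
  rw [this, Complex.exp_nat_mul, Complex.exp_log hz]

theorem csqrt_I_pow_eight : Complex.sqrt I ^ 8 = 1 := by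
  rw [csqrt_pow_eight I_ne_zero, I_pow_four]

theorem eta8_S (τ : ℍ) : eta8 (ModularGroup.S • τ) = (τ : ℂ) ^ 4 * eta8 τ := by
  have hc : ((ModularGroup.S • τ : ℍ) : ℂ) = -1 / (τ : ℂ) := by
    rw [modular_S_smul]
    simp [neg_div]
  have he : η (-1 / (τ : ℂ)) = (Complex.sqrt I)⁻¹ * (Complex.sqrt τ * η τ) := by
    simpa using eta_comp_eq_csqrt_I_inv τ.2
  rw [eta8, hc, he, mul_pow, mul_pow, inv_pow, csqrt_I_pow_eight, csqrt_pow_eight (ne_zero τ),
    eta8]
  simp

/-! ## The general transformation law -/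

/-- The automorphy factor `c τ + d`. -/
def autJ (γ : SL(2, ℤ)) (τ : ℍ) : ℂ := ((γ 1 0 : ℤ) : ℂ) * (τ : ℂ) + ((γ 1 1 : ℤ) : ℂ)

/-- The transformation law of `η⁸` at `γ`. -/
def Eta8Law (γ : SL(2, ℤ)) : Prop :=
  ∀ τ : ℍ, eta8 (γ • τ) = omegaPow (chi0 γ) * autJ γ τ ^ 4 * eta8 τ

theorem eta8Law_one : Eta8Law 1 := by
  intro τ
  rw [one_smul, chi0_one, omegaPow_zero, autJ]
  simp

theorem coe_T_smul (τ : ℍ) : ((ModularGroup.T • τ : ℍ) : ℂ) = 1 + (τ : ℂ) := by
  rw [modular_T_smul]
  simp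

theorem coe_S_smul (τ : ℍ) : ((ModularGroup.S • τ : ℍ) : ℂ) = -1 / (τ : ℂ) := by
  rw [modular_S_smul]
  simp [neg_div]

theorem autJ_mul_T (γ : SL(2, ℤ)) (τ : ℍ) :
    autJ (γ * ModularGroup.T) τ = autJ γ (ModularGroup.T • τ) := by
  rw [autJ, autJ, coe_T_smul, coe_mul_T]
  simp
  ring

theorem autJ_mul_S (γ : SL(2, ℤ)) (τ : ℍ) :
    autJ (γ * ModularGroup.S) τ = autJ γ (ModularGroup.S • τ) * (τ : ℂ) := by
  have hτ : (τ : ℂ) ≠ 0 := ne_zero τ
  rw [autJ, autJ, coe_S_smul, coe_mul_S]
  simp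
  field_simp
  ring

theorem eta8Law_mul_T {γ : SL(2, ℤ)} (h : Eta8Law γ) : Eta8Law (γ * ModularGroup.T) := by
  intro τ
  rw [mul_smul, h, eta8_T, chi0_mul_T, omegaPow_add, omegaPow_one, autJ_mul_T]
  ring

theorem eta8Law_mul_S {γ : SL(2, ℤ)} (h : Eta8Law γ) : Eta8Law (γ * ModularGroup.S) := by
  intro τ
  rw [mul_smul, h, eta8_S, chi0_mul_S, autJ_mul_S]
  ring

theorem coe_T_inv_smul (τ : ℍ) : ((ModularGroup.T⁻¹ • τ : ℍ) : ℂ) = (τ : ℂ) - 1 := by
  have h := ModularGroup.coe_T_zpow_smul_eq (z := τ) (n := -1)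
  rw [zpow_neg_one] at h
  rw [h]
  push_cast
  ring

theorem T_smul_T_inv_smul (τ : ℍ) : ModularGroup.T • (ModularGroup.T⁻¹ • τ) = τ := by
  rw [← mul_smul, mul_inv_cancel, one_smul]

theorem eta8_T_inv (τ : ℍ) : omega3 * eta8 (ModularGroup.T⁻¹ • τ) = eta8 τ := by
  rw [← eta8_T, T_smul_T_inv_smul]

theorem S_inv_smul (τ : ℍ) : ModularGroup.S⁻¹ • τ = ModularGroup.S • τ := by
  apply UpperHalfPlane.ext
  rw [coe_S_smul, UpperHalfPlane.coe_specialLinearGroup_apply, coe_S_inv]
  have hτ : (τ : ℂ) ≠ 0 := ne_zero τ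
  simp
  field_simp

theorem autJ_mul_T_inv (γ : SL(2, ℤ)) (τ : ℍ) :
    autJ (γ * ModularGroup.T⁻¹) τ = autJ γ (ModularGroup.T⁻¹ • τ) := by
  rw [autJ, autJ, coe_T_inv_smul, coe_mul_T_inv]
  simp
  ring

theorem autJ_mul_S_inv (γ : SL(2, ℤ)) (τ : ℍ) :
    autJ (γ * ModularGroup.S⁻¹) τ = -(autJ γ (ModularGroup.S⁻¹ • τ) * (τ : ℂ)) := by
  have hτ : (τ : ℂ) ≠ 0 := ne_zero τ
  rw [autJ, autJ, S_inv_smul, coe_S_smul, coe_mul_S_inv]
  simp
  field_simp
  ring

theorem eta8Law_mul_T_inv {γ : SL(2, ℤ)} (h : Eta8Law γ) : Eta8Law (γ * ModularGroup.T⁻¹) := by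
  intro τ
  rw [mul_smul, h, chi0_mul_T_inv, autJ_mul_T_inv, ← omegaPow_sub_one (chi0 γ)]
  have h2 := eta8_T_inv τ
  calc omegaPow (chi0 γ - 1) * omega3 * autJ γ (ModularGroup.T⁻¹ • τ) ^ 4 *
        eta8 (ModularGroup.T⁻¹ • τ)
      = omegaPow (chi0 γ - 1) * autJ γ (ModularGroup.T⁻¹ • τ) ^ 4 *
          (omega3 * eta8 (ModularGroup.T⁻¹ • τ)) := by ring
    _ = _ := by rw [h2]

theorem eta8Law_mul_S_inv {γ : SL(2, ℤ)} (h : Eta8Law γ) : Eta8Law (γ * ModularGroup.S⁻¹) := by
  intro τ
  rw [mul_smul, h, chi0_mul_S_inv, autJ_mul_S_inv, S_inv_smul, eta8_S]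
  ring

/-- **The transformation law of `η⁸`** under `SL₂(ℤ)`. -/
theorem eta8_smul (γ : SL(2, ℤ)) (τ : ℍ) :
    eta8 (γ • τ) = omegaPow (chi0 γ) * autJ γ τ ^ 4 * eta8 τ := by
  have hγ : γ ∈ Subgroup.closure ({ModularGroup.S, ModularGroup.T} : Set SL(2, ℤ)) := by
    rw [SpecialLinearGroup.SL2Z_generators]
    trivial
  have key : Eta8Law γ := by
    induction hγ using Subgroup.closure_induction_right with
    | one => exact eta8Law_one
    | mul_right x _ y hy ih =>
      rcases hy with rfl | rfl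
      · exact eta8Law_mul_S ih
      · exact eta8Law_mul_T ih
    | mul_inv_cancel x _ y hy ih =>
      rcases hy with rfl | rfl
      · exact eta8Law_mul_S_inv ih
      · exact eta8Law_mul_T_inv ih
  exact key τ

theorem autJ_ne_zero (γ : SL(2, ℤ)) (τ : ℍ) : autJ γ τ ≠ 0 := by
  have := UpperHalfPlane.denom_ne_zero (γ : GL (Fin 2) ℝ) τ
  simpa [UpperHalfPlane.denom, autJ] using this

/-- `η⁸` is holomorphic on the upper half plane. -/
theorem mdifferentiable_eta8 : MDifferentiable 𝓘(ℂ) 𝓘(ℂ) eta8 := by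
  rw [UpperHalfPlane.mdifferentiable_iff]
  have h : DifferentiableOn ℂ (fun z => η z ^ 8) upperHalfPlaneSet := fun z hz =>
    ((differentiableAt_eta_of_mem_upperHalfPlaneSet hz).pow 8).differentiableWithinAt
  refine h.congr fun z hz => ?_
  have hz' : 0 < z.im := hz
  simp [eta8, ofComplex_apply_of_im_pos hz']

end Fermat.Agent.S59.Unit3.H461

end
end
-- ===== PACK-END S59/Unit3/H461/EtaChar.lean

-- ===== PACK-BEGIN S59/H296/EigenImage.lean
section







/-!
# S59 / LO-SQ, abstract lemma ALG (helper296)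

`exists_eigen_of_image_eigen` : let `H` be a finite abelian group with a commuting family of
endomorphisms `T i`, `φ : H →+ V` a homomorphism which intertwines `T i` with `T' i`, and `x ≠ 0`
an element of the image of `φ` with `T' i x = a i • x` for all `i` (`a i : ℤ`).  Then `H` contains
a nonzero `h` with `T i h = a i • h` for all `i`.

Use (memo `coord/S59-LOSQ-helper296.md`, (S2)): `H = J₀(qM')[p]²`, `φ = α^* + β^*`,
`V = J₀(q²M')`, `x` an inertia-fixed toric eigenclass; the conclusion is `OccursIn (qM')`.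
No commutativity on `V`, no `p`-torsion hypothesis and no finiteness of the index set are needed.
-/

set_option autoImplicit false

namespace Fermat.Agent.S59.H296

variable {ι H V : Type*} [AddCommGroup H] [AddCommGroup V]

/-- The shifted operator `N i = T i - a i`. -/
def shiftOp (T : ι → H →+ H) (a : ι → ℤ) (i : ι) : H →+ H := T i - a i • AddMonoidHom.id H

theorem shiftOp_apply (T : ι → H →+ H) (a : ι → ℤ) (i : ι) (h : H) :
    shiftOp T a i h = T i h - a i • h := by
  simp [shiftOp]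

theorem shiftOp_comm (T : ι → H →+ H) (a : ι → ℤ)
    (hcomm : ∀ i j h, T i (T j h) = T j (T i h)) (i j : ι) (h : H) :
    T j (shiftOp T a i h) = shiftOp T a i (T j h) := by
  simp only [shiftOp_apply, map_sub, map_zsmul, hcomm j i h]

theorem shiftOp_iterate_comm (T : ι → H →+ H) (a : ι → ℤ)
    (hcomm : ∀ i j h, T i (T j h) = T j (T i h)) (i j : ι) (n : ℕ) (h : H) :
    T j ((shiftOp T a i)^[n] h) = (shiftOp T a i)^[n] (T j h) := by
  induction n generalizing h with
  | zero => rfl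
  | succ n ih =>
    rw [Function.iterate_succ_apply, Function.iterate_succ_apply, ih,
      shiftOp_comm T a hcomm i j h]

theorem iterate_map_zero (f : H →+ H) (n : ℕ) : f^[n] 0 = 0 := by
  induction n with
  | zero => rfl
  | succ n ih => rw [Function.iterate_succ_apply, map_zero, ih]

theorem iterate_map_sub (f : H →+ H) (n : ℕ) (x y : H) : f^[n] (x - y) = f^[n] x - f^[n] y := by
  induction n generalizing x y with
  | zero => rfl
  | succ n ih => rw [Function.iterate_succ_apply, Function.iterate_succ_apply,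
      Function.iterate_succ_apply, map_sub, ih]

theorem iterate_map_add (f : H →+ H) (n : ℕ) (x y : H) : f^[n] (x + y) = f^[n] x + f^[n] y := by
  induction n generalizing x y with
  | zero => rfl
  | succ n ih => rw [Function.iterate_succ_apply, Function.iterate_succ_apply,
      Function.iterate_succ_apply, map_add, ih]

theorem iterate_map_neg (f : H →+ H) (n : ℕ) (x : H) : f^[n] (-x) = -f^[n] x := by
  induction n generalizing x with
  | zero => rfl
  | succ n ih => rw [Function.iterate_succ_apply, Function.iterate_succ_apply, map_neg, ih]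

/-- A subgroup is stable under the family `T`. -/
def StableUnder (T : ι → H →+ H) (W : AddSubgroup H) : Prop := ∀ i, ∀ w ∈ W, T i w ∈ W

theorem StableUnder.shiftOp_mem {T : ι → H →+ H} {W : AddSubgroup H} (hW : StableUnder T W)
    (a : ι → ℤ) (i : ι) {w : H} (hw : w ∈ W) : shiftOp T a i w ∈ W := by
  rw [shiftOp_apply]
  exact W.sub_mem (hW i w hw) (W.zsmul_mem hw _)

theorem StableUnder.iterate_mem {T : ι → H →+ H} {W : AddSubgroup H} (hW : StableUnder T W)
    (a : ι → ℤ) (i : ι) (n : ℕ) {w : H} (hw : w ∈ W) : (shiftOp T a i)^[n] w ∈ W := by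
  induction n generalizing w with
  | zero => exact hw
  | succ n ih => rw [Function.iterate_succ_apply]; exact ih (hW.shiftOp_mem a i hw)

/-- The generalized kernel of `N i` inside a subgroup `W`. -/
def genKer (T : ι → H →+ H) (a : ι → ℤ) (i : ι) (W : AddSubgroup H) : AddSubgroup H where
  carrier := {w | w ∈ W ∧ ∃ n : ℕ, (shiftOp T a i)^[n] w = 0}
  zero_mem' := ⟨W.zero_mem, 0, rfl⟩
  add_mem' := by
    rintro x y ⟨hx, n, hn⟩ ⟨hy, m, hm⟩
    refine ⟨W.add_mem hx hy, n + m, ?_⟩
    rw [iterate_map_add]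
    have h1 : (shiftOp T a i)^[n + m] x = 0 := by
      rw [Nat.add_comm, Function.iterate_add_apply, hn, iterate_map_zero]
    have h2 : (shiftOp T a i)^[n + m] y = 0 := by
      rw [Function.iterate_add_apply, hm, iterate_map_zero]
    rw [h1, h2, add_zero]
  neg_mem' := by
    rintro x ⟨hx, n, hn⟩
    exact ⟨W.neg_mem hx, n, by rw [iterate_map_neg, hn, neg_zero]⟩

theorem genKer_le (T : ι → H →+ H) (a : ι → ℤ) (i : ι) (W : AddSubgroup H) :
    genKer T a i W ≤ W := fun _ hw => hw.1

theorem genKer_stable (T : ι → H →+ H) (a : ι → ℤ)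
    (hcomm : ∀ i j h, T i (T j h) = T j (T i h)) (i : ι) {W : AddSubgroup H}
    (hW : StableUnder T W) : StableUnder T (genKer T a i W) := by
  rintro j w ⟨hw, n, hn⟩
  refine ⟨hW j w hw, n, ?_⟩
  rw [← shiftOp_iterate_comm T a hcomm i j n w, hn, map_zero]

/-- Key step: in a finite group, an element `w` with `φ w = x`, `N' x = 0`, can be replaced by an
element of the generalized kernel of `N` with the same image. -/
theorem exists_genKer_preimage [Finite H] (T : ι → H →+ H) (T' : ι → V →+ V)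
    (φ : H →+ V) (hφ : ∀ i h, φ (T i h) = T' i (φ h))
    (a : ι → ℤ) {x : V} (heig : ∀ i, T' i x = a i • x) (i : ι)
    {W : AddSubgroup H} (hW : StableUnder T W) {w : H} (hw : w ∈ W) (hwx : φ w = x) :
    ∃ k ∈ genKer T a i W, φ k = x := by
  classical
  -- pigeonhole on the orbit of `w`
  obtain ⟨n, n', hne, heq⟩ :=
    Finite.exists_ne_map_eq_of_infinite (fun n : ℕ => (shiftOp T a i)^[n] w)
  wlog hlt : n < n' generalizing n n'
  · exact this n' n hne.symm heq.symm (lt_of_le_of_ne (not_lt.mp hlt) hne.symm)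
  obtain ⟨m, rfl⟩ : ∃ m, n' = n + (m + 1) := by
    obtain ⟨m, hm⟩ := Nat.exists_eq_add_of_lt hlt
    exact ⟨m, by omega⟩
  -- `k = w - N^{m+1} w`
  refine ⟨w - (shiftOp T a i)^[m + 1] w, ⟨W.sub_mem hw (hW.iterate_mem a i _ hw), n, ?_⟩, ?_⟩
  · have heq' : (shiftOp T a i)^[n] w = (shiftOp T a i)^[n + (m + 1)] w := heq
    rw [iterate_map_sub, ← Function.iterate_add_apply, ← heq', sub_self]
  · -- `φ (N^{m+1} w) = 0`
    have hN : ∀ (j : ℕ) (h : H), φ h = x → φ ((shiftOp T a i)^[j + 1] h) = 0 := by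
      intro j
      induction j with
      | zero =>
        intro h hh
        rw [Function.iterate_one, shiftOp_apply, map_sub, map_zsmul, hφ, hh, heig, sub_self]
      | succ j ih =>
        intro h hh
        rw [Function.iterate_succ_apply']
        rw [shiftOp_apply, map_sub, map_zsmul, hφ, ih h hh, map_zero, smul_zero, sub_zero]
    rw [map_sub, hN m w hwx, sub_zero, hwx]

/-- **ALG.** An eigenvector in the image of an equivariant homomorphism from a finite abelian
group with a commuting family of operators comes from an eigenvector of the source. -/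
theorem exists_eigen_of_image_eigen [Finite H] (T : ι → H →+ H) (T' : ι → V →+ V)
    (hcomm : ∀ i j h, T i (T j h) = T j (T i h))
    (φ : H →+ V) (hφ : ∀ i h, φ (T i h) = T' i (φ h))
    (a : ι → ℤ) {x : V} (hx : x ≠ 0) (hxim : ∃ h, φ h = x)
    (heig : ∀ i, T' i x = a i • x) :
    ∃ h : H, h ≠ 0 ∧ ∀ i, T i h = a i • h := by
  classical
  -- Step 1: a minimal stable subgroup whose image contains `x`
  let P : Set (AddSubgroup H) := {W | StableUnder T W ∧ ∃ w ∈ W, φ w = x}
  have hPne : P.Nonempty := by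
    obtain ⟨h, hh⟩ := hxim
    exact ⟨⊤, fun _ _ _ => AddSubgroup.mem_top _, h, AddSubgroup.mem_top _, hh⟩
  obtain ⟨W, ⟨hWst, w, hwW, hwx⟩, hWmin⟩ :=
    (wellFounded_lt (α := AddSubgroup H)).has_min P hPne
  -- Step 2: every `N i` is locally nilpotent on `W`
  have hnil : ∀ i, ∀ v ∈ W, ∃ n : ℕ, (shiftOp T a i)^[n] v = 0 := by
    intro i v hv
    obtain ⟨k, hk, hkx⟩ := exists_genKer_preimage T T' φ hφ a heig i hWst hwW hwx
    have hmem : genKer T a i W ∈ P := ⟨genKer_stable T a hcomm i hWst, k, hk, hkx⟩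
    have hle : genKer T a i W ≤ W := genKer_le T a i W
    have heq : genKer T a i W = W := by
      by_contra hne
      exact hWmin _ hmem (lt_of_le_of_ne hle hne)
    have : v ∈ genKer T a i W := by rw [heq]; exact hv
    exact this.2
  have hw0 : w ≠ 0 := by
    rintro rfl
    rw [map_zero] at hwx
    exact hx hwx.symm
  -- Step 3: a minimal nonzero stable subgroup of `W`
  let Q : Set (AddSubgroup H) := {U | StableUnder T U ∧ U ≤ W ∧ U ≠ ⊥}
  have hQne : Q.Nonempty :=
    ⟨W, hWst, le_rfl, fun hbot => hw0 (by simpa [hbot] using hwW)⟩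
  obtain ⟨U, ⟨hUst, hUW, hUne⟩, hUmin⟩ :=
    (wellFounded_lt (α := AddSubgroup H)).has_min Q hQne
  obtain ⟨u, huU, hu0⟩ : ∃ u ∈ U, u ≠ 0 :=
    (AddSubgroup.bot_or_exists_ne_zero U).resolve_left hUne
  -- every `N i` vanishes on `U`
  have hker : ∀ i, ∀ v ∈ U, shiftOp T a i v = 0 := by
    intro i
    -- the kernel of `N i` in `U`
    let K : AddSubgroup H :=
      { carrier := {v | v ∈ U ∧ shiftOp T a i v = 0}
        zero_mem' := ⟨U.zero_mem, map_zero _⟩
        add_mem' := by
          rintro x y ⟨hx, hx0⟩ ⟨hy, hy0⟩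
          exact ⟨U.add_mem hx hy, by rw [map_add, hx0, hy0, add_zero]⟩
        neg_mem' := by
          rintro x ⟨hx, hx0⟩
          exact ⟨U.neg_mem hx, by rw [map_neg, hx0, neg_zero]⟩ }
    have hKU : K ≤ U := fun _ hv => hv.1
    have hKst : StableUnder T K := by
      rintro j v ⟨hv, hv0⟩
      exact ⟨hUst j v hv, by rw [← shiftOp_comm T a hcomm i j v, hv0, map_zero]⟩
    have hKne : K ≠ ⊥ := by
      -- least `n` with `N^n u = 0`
      have hex : ∃ n : ℕ, (shiftOp T a i)^[n] u = 0 := hnil i u (hUW huU)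
      have hpos : Nat.find hex ≠ 0 := by
        intro h0
        have := Nat.find_spec hex
        rw [h0] at this
        exact hu0 this
      obtain ⟨n, hn⟩ := Nat.exists_eq_succ_of_ne_zero hpos
      have hlast : (shiftOp T a i)^[n] u ≠ 0 := by
        intro h0
        have := Nat.find_min' hex h0
        omega
      have hmem : (shiftOp T a i)^[n] u ∈ K := by
        refine ⟨hUst.iterate_mem a i n huU, ?_⟩
        have := Nat.find_spec hex
        rw [hn, Function.iterate_succ_apply'] at this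
        exact this
      intro hbot
      rw [hbot] at hmem
      exact hlast ((AddSubgroup.mem_bot).mp hmem)
    have hKeq : K = U := by
      by_contra hne
      exact hUmin K ⟨hKst, hKU.trans hUW, hKne⟩ (lt_of_le_of_ne hKU hne)
    intro v hv
    have : v ∈ K := by rw [hKeq]; exact hv
    exact this.2
  refine ⟨u, hu0, fun i => ?_⟩
  have := hker i u huU
  rw [shiftOp_apply, sub_eq_zero] at this
  exact this

end Fermat.Agent.S59.H296

namespace Fermat.Agent.S59.H296

variable {ι J V : Type*} [AddCommGroup J] [AddCommGroup V]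

/-- The `p`-torsion subgroup of an abelian group, as the kernel of multiplication by `p`. -/
def torsionSub (J : Type*) [AddCommGroup J] (p : ℕ) : AddSubgroup J :=
  (nsmulAddMonoidHom (α := J) p).ker

theorem mem_torsionSub {p : ℕ} {z : J} : z ∈ torsionSub J p ↔ p • z = 0 := by
  simp [torsionSub, AddMonoidHom.mem_ker]

/-- Restriction of an additive endomorphism to the `p`-torsion subgroup. -/
def torsionRestrict (p : ℕ) (f : J →+ J) : torsionSub J p →+ torsionSub J p where
  toFun z := ⟨f (z : J), by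
    have hz : p • (z : J) = 0 := mem_torsionSub.mp z.2
    rw [mem_torsionSub, ← map_nsmul, hz, map_zero]⟩
  map_zero' := Subtype.ext (map_zero f)
  map_add' x y := Subtype.ext (map_add f (x : J) (y : J))

@[simp] theorem torsionRestrict_coe (p : ℕ) (f : J →+ J) (z : torsionSub J p) :
    ((torsionRestrict p f z : torsionSub J p) : J) = f (z : J) := rfl

/-- **ALG, two-map form** (the form used for `x = α^* z + β^* z'`).  `J` an abelian group with
finitely many `p`-torsion points and a commuting family `T i` of additive endomorphisms;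
`α β : J →+ V` intertwine `T i` with `T' i`.  If `x = α z + β z'` with `p z = p z' = 0` is a
nonzero joint eigenvector of the `T' i` with eigenvalues `a i`, then `J` has a nonzero `p`-torsion
joint eigenvector of the `T i` with the same eigenvalues. -/
theorem exists_eigen_of_add_eigen (p : ℕ) [Finite (torsionSub J p)]
    (T : ι → J →+ J) (T' : ι → V →+ V)
    (hcomm : ∀ i j h, T i (T j h) = T j (T i h))
    (α β : J →+ V) (hα : ∀ i h, α (T i h) = T' i (α h)) (hβ : ∀ i h, β (T i h) = T' i (β h))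
    (a : ι → ℤ) {x : V} (hx : x ≠ 0) {z z' : J} (hz : p • z = 0) (hz' : p • z' = 0)
    (hxz : x = α z + β z') (heig : ∀ i, T' i x = a i • x) :
    ∃ h : J, h ≠ 0 ∧ p • h = 0 ∧ ∀ i, T i h = a i • h := by
  classical
  let Jp := torsionSub J p
  let Tp : ι → (Jp × Jp) →+ (Jp × Jp) := fun i =>
    { toFun := fun q => (torsionRestrict p (T i) q.1, torsionRestrict p (T i) q.2)
      map_zero' := by simp
      map_add' := fun x y => by simp }
  have hTp1 : ∀ i (q : Jp × Jp), (((Tp i q).1 : Jp) : J) = T i (q.1 : J) := fun _ _ => rfl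
  have hTp2 : ∀ i (q : Jp × Jp), (((Tp i q).2 : Jp) : J) = T i (q.2 : J) := fun _ _ => rfl
  let φ : (Jp × Jp) →+ V :=
    (α.comp Jp.subtype).coprod (β.comp Jp.subtype)
  have hφ : ∀ i h, φ (Tp i h) = T' i (φ h) := by
    intro i q
    simp only [φ, AddMonoidHom.coprod_apply, AddMonoidHom.comp_apply,
      AddSubgroup.coe_subtype, hTp1, hTp2, hα, hβ, map_add]
  have hcomm' : ∀ i j h, Tp i (Tp j h) = Tp j (Tp i h) := by
    intro i j q
    apply Prod.ext
    · apply Subtype.ext
      rw [hTp1, hTp1, hTp1, hTp1]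
      exact hcomm i j _
    · apply Subtype.ext
      rw [hTp2, hTp2, hTp2, hTp2]
      exact hcomm i j _
  have hxim : ∃ h, φ h = x :=
    ⟨(⟨z, mem_torsionSub.mpr hz⟩, ⟨z', mem_torsionSub.mpr hz'⟩), by
      simp only [φ, AddMonoidHom.coprod_apply, AddMonoidHom.comp_apply, AddSubgroup.coe_subtype]
      exact hxz.symm⟩
  obtain ⟨⟨h₁, h₂⟩, hne, heig'⟩ := exists_eigen_of_image_eigen Tp T' hcomm' φ hφ a hx hxim heig
  have h1 : ∀ i, T i (h₁ : J) = a i • (h₁ : J) := fun i => by
    have := congrArg (fun q : Jp × Jp => ((q.1 : Jp) : J)) (heig' i)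
    simpa only [hTp1, Prod.smul_fst, AddSubgroup.coe_zsmul] using this
  have h2 : ∀ i, T i (h₂ : J) = a i • (h₂ : J) := fun i => by
    have := congrArg (fun q : Jp × Jp => ((q.2 : Jp) : J)) (heig' i)
    simpa only [hTp2, Prod.smul_snd, AddSubgroup.coe_zsmul] using this
  by_cases h10 : (h₁ : J) = 0
  · have h20 : (h₂ : J) ≠ 0 := by
      intro h20
      apply hne
      apply Prod.ext
      · exact Subtype.ext h10
      · exact Subtype.ext h20
    exact ⟨h₂, h20, mem_torsionSub.mp h₂.2, h2⟩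
  · exact ⟨h₁, h10, mem_torsionSub.mp h₁.2, h1⟩

end Fermat.Agent.S59.H296

end
-- ===== PACK-END S59/H296/EigenImage.lean

-- ===== PACK-BEGIN S59/H207/UnipAlg.lean
section


/-!
# Row S59, cell (C) LO-SQ — EASY half, algebra (helper207)

Pure algebra over a commutative local ring `R` whose maximal ideal contains the prime `p`.

* `natCast_not_mem_maximalIdeal` : `p ∤ n ⟹ (n : R) ∉ 𝔪`.
* `trace_det_of_charpoly_pow_eq` : a `2 × 2` matrix `M` over `R` with
  `charpoly (M ^ q) = charpoly M`, `tr M ≡ 2`, `det M ≡ 1 mod 𝔪` and `p ∤ q ^ 2 - 1`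
  has `tr M = 2` and `det M = 1`.
  (`d = det M`: `d ^ q = d`, `d` a unit, so `(d - 1)(1 + d + … + d^(q-2)) = 0` with second factor
  `≡ q - 1`, a unit.  `t = tr M = 2 + ε`: `tr (M ^ k) = 2 + ε f_k` with `f_k ≡ k ^ 2 mod 𝔪`
  (recursion `M² = t M - 1`), so `ε (f_q - 1) = 0` with `f_q - 1 ≡ q ^ 2 - 1`, a unit.)
* `charpoly_eq_of_pow_of_residue` : the same for an endomorphism of a free module of rank `2`:
  `charpoly T = (X - 1) ^ 2`.
-/

set_option autoImplicit false
set_option linter.unusedSectionVars false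

namespace Fermat.Agent.S59.H207

open Polynomial IsLocalRing

variable {R : Type*} [CommRing R] [IsLocalRing R]

/-- If `p ∈ 𝔪` and `p ∤ n` then `(n : R) ∉ 𝔪`. -/
theorem natCast_not_mem_maximalIdeal {p : ℕ} (hp : p.Prime) (hpR : (p : R) ∈ maximalIdeal R)
    {n : ℕ} (hn : ¬ p ∣ n) : (n : R) ∉ maximalIdeal R := by
  intro hmem
  have hcop : Nat.Coprime p n := (Nat.Prime.coprime_iff_not_dvd hp).2 hn
  have hb : (p : ℤ) * Nat.gcdA p n + (n : ℤ) * Nat.gcdB p n = 1 := by
    have := Nat.gcd_eq_gcd_ab p n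
    rw [hcop.gcd_eq_one] at this
    exact_mod_cast this.symm
  have h1 : ((p : R) * ((Nat.gcdA p n : ℤ) : R) + (n : R) * ((Nat.gcdB p n : ℤ) : R)) = 1 := by
    have := congrArg (Int.cast : ℤ → R) hb
    push_cast at this
    exact this
  have h2 : (1 : R) ∈ maximalIdeal R := by
    rw [← h1]
    exact Ideal.add_mem _ (Ideal.mul_mem_right _ _ hpR) (Ideal.mul_mem_right _ _ hmem)
  exact (Ideal.ne_top_iff_one _).1 (maximalIdeal.isMaximal R).ne_top h2

/-- An element congruent to a non-element of `𝔪` is a unit. -/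
theorem isUnit_of_sub_mem {a b : R} (hab : a - b ∈ maximalIdeal R) (hb : b ∉ maximalIdeal R) :
    IsUnit a := by
  by_contra ha
  have ha' : a ∈ maximalIdeal R := (mem_maximalIdeal a).2 (by simpa [mem_nonunits_iff] using ha)
  apply hb
  have : b = a - (a - b) := by ring
  rw [this]
  exact Ideal.sub_mem _ ha' hab

section Matrix

variable (M : Matrix (Fin 2) (Fin 2) R)

/-- Cayley–Hamilton for `2 × 2` matrices. -/
theorem sq_eq_trace_smul_sub_det :
    M ^ 2 = M.trace • M - M.det • (1 : Matrix (Fin 2) (Fin 2) R) := by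
  have h := Matrix.aeval_self_charpoly M
  rw [Matrix.charpoly_fin_two] at h
  simp only [map_add, map_sub, map_mul, map_pow, aeval_X, aeval_C,
    Algebra.algebraMap_eq_smul_one] at h
  have h' : M ^ 2 = (M.trace • (1 : Matrix (Fin 2) (Fin 2) R)) * M - M.det • 1 := by
    rw [← sub_eq_zero]
    rw [← h]
    abel
  rw [h', smul_mul_assoc, one_mul]

/-- The trace recursion `s_{k+2} = t s_{k+1} - d s_k`. -/
theorem trace_pow_add_two (k : ℕ) :
    (M ^ (k + 2)).trace = M.trace * (M ^ (k + 1)).trace - M.det * (M ^ k).trace := by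
  have h : M ^ (k + 2) = M.trace • M ^ (k + 1) - M.det • M ^ k := by
    rw [pow_add, sq_eq_trace_smul_sub_det, mul_sub, mul_smul_comm, mul_smul_comm, mul_one,
      ← pow_succ]
  rw [h, Matrix.trace_sub, Matrix.trace_smul, Matrix.trace_smul, smul_eq_mul, smul_eq_mul]

theorem trace_one_fin_two : (1 : Matrix (Fin 2) (Fin 2) R).trace = 2 := by
  simp [Matrix.trace_one]

/-- With `det M = 1` and `tr M = 2 + ε`: `tr (M ^ k) = 2 + ε f_k` with `f_k ≡ k ^ 2` modulo any
ideal containing `ε`. -/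
theorem exists_trace_pow_eq (hd : M.det = 1) (I : Ideal R) (hε : M.trace - 2 ∈ I) (k : ℕ) :
    (∃ f : R, (M ^ k).trace = 2 + (M.trace - 2) * f ∧ f - (k : R) ^ 2 ∈ I) ∧
    (∃ f : R, (M ^ (k + 1)).trace = 2 + (M.trace - 2) * f ∧ f - ((k + 1 : ℕ) : R) ^ 2 ∈ I) := by
  induction k with
  | zero =>
    refine ⟨⟨0, ?_, ?_⟩, ⟨1, ?_, ?_⟩⟩
    · rw [pow_zero, trace_one_fin_two]; ring
    · simp
    · rw [zero_add, pow_one]; ring
    · simp
  | succ k ih =>
    obtain ⟨⟨f, hf, hfI⟩, ⟨g, hg, hgI⟩⟩ := ih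
    refine ⟨⟨g, hg, hgI⟩, ⟨M.trace * g - f + 2, ?_, ?_⟩⟩
    · rw [show k + 1 + 1 = k + 2 from rfl, trace_pow_add_two, hd, hg, hf]
      ring
    · have e : M.trace * g - f + 2 - ((k + 1 + 1 : ℕ) : R) ^ 2 =
          (M.trace - 2) * g + 2 * (g - ((k + 1 : ℕ) : R) ^ 2) - (f - (k : R) ^ 2) := by
        push_cast
        ring
      rw [e]
      exact Ideal.sub_mem _ (Ideal.add_mem _ (Ideal.mul_mem_right _ _ hε)
        (Ideal.mul_mem_left _ _ hgI)) hfI

/-- **Algebra of the easy half.** -/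
theorem trace_det_of_charpoly_pow_eq {p q : ℕ} (hp : p.Prime) (hpR : (p : R) ∈ maximalIdeal R)
    (hq : 2 ≤ q) (hcop : ¬ p ∣ q ^ 2 - 1)
    (hpow : (M ^ q).charpoly = M.charpoly)
    (ht : M.trace - 2 ∈ maximalIdeal R) (hd : M.det - 1 ∈ maximalIdeal R) :
    M.trace = 2 ∧ M.det = 1 := by
  have hq1 : ¬ p ∣ q - 1 := by
    intro h
    apply hcop
    have : q ^ 2 - 1 = (q - 1) * (q + 1) := by
      obtain ⟨r, rfl⟩ : ∃ r, q = r + 1 := ⟨q - 1, by omega⟩
      simp only [Nat.add_sub_cancel]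
      have : (r + 1) ^ 2 = r * (r + 1 + 1) + 1 := by ring
      rw [this, Nat.add_sub_cancel]
    rw [this]
    exact Dvd.dvd.mul_right h _
  -- traces and determinants of `M ^ q`
  have hcoef := hpow
  rw [Matrix.charpoly_fin_two, Matrix.charpoly_fin_two] at hcoef
  have htr : (M ^ q).trace = M.trace := by
    have h1 := congrArg (fun P : R[X] => P.coeff 1) hcoef
    simp only [coeff_add, coeff_sub, coeff_X_pow, coeff_C_mul, coeff_X_one, coeff_C] at h1
    simpa using h1
  have hdet : (M ^ q).det = M.det := by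
    have h0 := congrArg (fun P : R[X] => P.coeff 0) hcoef
    simp only [coeff_add, coeff_sub, coeff_X_pow, coeff_C_mul, coeff_X_zero, coeff_C_zero] at h0
    simpa using h0
  -- the determinant
  have hdu : IsUnit M.det := by
    refine isUnit_of_sub_mem (b := 1) hd ?_
    exact fun h => (Ideal.ne_top_iff_one _).1 (maximalIdeal.isMaximal R).ne_top h
  have hd1 : M.det = 1 := by
    rw [Matrix.det_pow] at hdet
    have hq' : q = (q - 1) + 1 := by omega
    have h1 : M.det ^ (q - 1) = 1 := by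
      have : M.det ^ (q - 1) * M.det = 1 * M.det := by
        rw [← pow_succ, ← hq', hdet, one_mul]
      exact hdu.mul_right_cancel this
    have h2 : (∑ i ∈ Finset.range (q - 1), M.det ^ i) * (M.det - 1) = 0 := by
      rw [geom_sum_mul, h1, sub_self]
    have h3 : IsUnit (∑ i ∈ Finset.range (q - 1), M.det ^ i) := by
      refine isUnit_of_sub_mem (b := ((q - 1 : ℕ) : R)) ?_
        (natCast_not_mem_maximalIdeal hp hpR hq1)
      have : (∑ i ∈ Finset.range (q - 1), M.det ^ i) - ((q - 1 : ℕ) : R) =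
          ∑ i ∈ Finset.range (q - 1), (M.det ^ i - 1) := by
        rw [Finset.sum_sub_distrib]
        simp
      rw [this]
      refine Ideal.sum_mem _ fun i _ => ?_
      have : M.det ^ i - 1 = (∑ j ∈ Finset.range i, M.det ^ j) * (M.det - 1) := by
        rw [geom_sum_mul]
      rw [this]
      exact Ideal.mul_mem_left _ _ hd
    have h4 : M.det - 1 = 0 := (IsUnit.mul_right_eq_zero h3).1 h2
    exact sub_eq_zero.1 h4
  refine ⟨?_, hd1⟩
  -- the trace
  obtain ⟨⟨f, hf, hfI⟩, -⟩ := exists_trace_pow_eq M hd1 (maximalIdeal R) ht q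
  rw [htr] at hf
  have h5 : (M.trace - 2) * (f - 1) = 0 := by
    have : (M.trace - 2) * (f - 1) = (2 + (M.trace - 2) * f) - M.trace := by ring
    rw [this, ← hf, sub_self]
  have h6 : IsUnit (f - 1) := by
    refine isUnit_of_sub_mem (b := ((q ^ 2 - 1 : ℕ) : R)) ?_
      (natCast_not_mem_maximalIdeal hp hpR hcop)
    have hq2 : 1 ≤ q ^ 2 := Nat.one_le_pow _ _ (by omega)
    have : f - 1 - ((q ^ 2 - 1 : ℕ) : R) = f - (q : R) ^ 2 := by
      rw [Nat.cast_sub hq2]
      push_cast
      ring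
    rw [this]
    exact hfI
  have h7 : M.trace - 2 = 0 := (IsUnit.mul_left_eq_zero h6).1 h5
  exact sub_eq_zero.1 h7

end Matrix

end Fermat.Agent.S59.H207

end
-- ===== PACK-END S59/H207/UnipAlg.lean

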