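import Mathlib
import Fermat.Prelude.Def_EllipticCurve_FrobeniusTrace
import Fermat.Agent.Pack.S44C.G0E0L3
import Fermat.Agent.Pack.S59C.E0L1
import Fermat.Agent.Pack.S59C.E0L3
import Fermat.Agent.Pack.S43MC.G0E4L1
import Fermat.Agent.Pack.S59C.E0L2
import Fermat.Agent.Pack.S44C.G0E1L3
import Fermat.Agent.Pack.S43MC.G0E4L0
import Fermat.Agent.Pack.S59C.E0L0
import Fermat.Agent.Pack.S43MC.G0E3L0

set_option linter.all false

-- ===== PACK-BEGIN Lib/Cheb/H956/Consumers.lean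
section




/-!
# CHEB consumers' forms (helper956)

Adapters from the Prelude-level interface statements `Spec.FrobeniusDivisionStatement` (Tier 1)
and `Spec.ChebotarevStatement` (Tier 2), which speak about finite extensions `E ⊆ ℚ̄`, to the
forms used by clients: group homomorphisms `ρ : Gal(ℚ̄/ℚ) →* G` with open kernel (for instance
continuous homomorphisms to discrete groups), pairs of such homomorphisms, and statements about
*all* Frobenius elements over the prime found.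

* `frobeniusDivision_hom` : Tier 1 for `ρ` with open kernel.
* `frobeniusDivision_hom_pair` : Tier 1 simultaneously for two homomorphisms (same exponents).
* `chebotarev_hom`, `chebotarev_hom_pair` : Tier 2 analogues.
* `map_eq_of_isFrobeniusAt` : if inertia at `A` lies in the kernel of `ρ`, then `ρ` takes the
  same value on all Frobenius elements at `A`.
-/

set_option autoImplicit false

namespace Fermat.Agent.Lib.Cheb.H956

open Fermat.Agent.Lib.Cheb.Spec

/-- Every open subgroup of `Gal(ℚ̄/ℚ)` contains the fixing subgroup of a finite extension. -/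
theorem exists_fixingSubgroup_le (U : Subgroup GQ) (hU : IsOpen (U : Set GQ)) :
    ∃ E : IntermediateField ℚ Qb, FiniteDimensional ℚ E ∧ E.fixingSubgroup ≤ U := by
  have h1 : (U : Set GQ) ∈ nhds 1 := hU.mem_nhds U.one_mem
  obtain ⟨E, hE, hEU⟩ := (krullTopology_mem_nhds_one_iff ℚ Qb _).mp h1
  exact ⟨E, hE, hEU⟩

/-- If `τ` and `σ` agree on `E` then `σ⁻¹ * τ` fixes `E`. -/
theorem inv_mul_mem_fixingSubgroup (E : IntermediateField ℚ Qb) {τ σ : GQ}
    (h : ∀ x ∈ E, τ x = σ x) : σ⁻¹ * τ ∈ E.fixingSubgroup := by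
  rw [IntermediateField.mem_fixingSubgroup_iff]
  intro x hx
  rw [AlgEquiv.mul_apply, h x hx]
  exact σ.symm_apply_apply x

/-- If `τ` and `σ` agree on `E` and the fixing subgroup of `E` lies in the kernel of `ρ`, then
`ρ τ = ρ σ`. -/
theorem map_eq_of_eqOn {G : Type*} [Group G] (ρ : GQ →* G) (E : IntermediateField ℚ Qb)
    (hE : E.fixingSubgroup ≤ ρ.ker) {τ σ : GQ} (h : ∀ x ∈ E, τ x = σ x) : ρ τ = ρ σ := by
  have hmem := hE (inv_mul_mem_fixingSubgroup E h)
  rw [MonoidHom.mem_ker, map_mul, map_inv, inv_mul_eq_one] at hmem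
  exact hmem.symm

/-- An element fixing `E` pointwise is killed by `ρ`. -/
theorem map_eq_one_of_fixes {G : Type*} [Group G] (ρ : GQ →* G) (E : IntermediateField ℚ Qb)
    (hE : E.fixingSubgroup ≤ ρ.ker) {ι : GQ} (h : ∀ x ∈ E, ι x = x) : ρ ι = 1 := by
  have := map_eq_of_eqOn ρ E hE (τ := ι) (σ := 1) (fun x hx => by simpa using h x hx)
  simpa using this

/-- The kernel of a continuous homomorphism to a discrete group is open. -/
theorem isOpen_ker_of_continuous {G : Type*} [Group G] [TopologicalSpace G]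
    [DiscreteTopology G] (ρ : GQ →* G) (hρ : Continuous ρ) : IsOpen (ρ.ker : Set GQ) := by
  have : (ρ.ker : Set GQ) = ρ ⁻¹' {1} := by
    ext x
    simp [MonoidHom.mem_ker]
  rw [this]
  exact (isOpen_discrete _).preimage hρ

/-- **Tier 1 for homomorphisms with open kernel.**  For every `σ` and every finite set `S` of
primes there is a Frobenius element `τ` at a prime `ℓ ∉ S`, with inertia killed by `ρ`, such
that `ρ τ` and `ρ σ` are powers of each other. -/
theorem frobeniusDivision_hom (H : FrobeniusDivisionStatement) {G : Type*} [Group G]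
    (ρ : GQ →* G) (hρ : IsOpen (ρ.ker : Set GQ)) (σ : GQ) (S : Finset ℕ) :
    ∃ (ℓ : ℕ) (A : ValuationSubring Qb) (τ : GQ) (k j : ℕ),
      ℓ.Prime ∧ ℓ ∉ S ∧ A.LiesOverPrime ℓ ∧ A.IsFrobeniusAt τ ℓ ∧
      (∀ ι ∈ A.inertiaSubgroupIn ℚ, ρ ι = 1) ∧ ρ τ = ρ σ ^ k ∧ ρ τ ^ j = ρ σ := by
  obtain ⟨E, hEfin, hE⟩ := exists_fixingSubgroup_le ρ.ker hρ
  obtain ⟨ℓ, A, τ, k, j, hℓ, hℓS, hA, hτ, hin, hk, hj⟩ := H E hEfin σ S
  refine ⟨ℓ, A, τ, k, j, hℓ, hℓS, hA, hτ, fun ι hι => ?_, ?_, ?_⟩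
  · exact map_eq_one_of_fixes ρ E hE (hin ι hι)
  · rw [← map_pow]
    exact map_eq_of_eqOn ρ E hE hk
  · rw [← map_pow]
    exact map_eq_of_eqOn ρ E hE hj

/-- **Tier 1 for two homomorphisms with open kernels**, with the same Frobenius element and
the same exponents for both. -/
theorem frobeniusDivision_hom_pair (H : FrobeniusDivisionStatement) {G₁ G₂ : Type*} [Group G₁]
    [Group G₂] (ρ₁ : GQ →* G₁) (ρ₂ : GQ →* G₂) (hρ₁ : IsOpen (ρ₁.ker : Set GQ))
    (hρ₂ : IsOpen (ρ₂.ker : Set GQ)) (σ : GQ) (S : Finset ℕ) :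
    ∃ (ℓ : ℕ) (A : ValuationSubring Qb) (τ : GQ) (k j : ℕ),
      ℓ.Prime ∧ ℓ ∉ S ∧ A.LiesOverPrime ℓ ∧ A.IsFrobeniusAt τ ℓ ∧
      (∀ ι ∈ A.inertiaSubgroupIn ℚ, ρ₁ ι = 1 ∧ ρ₂ ι = 1) ∧
      (ρ₁ τ = ρ₁ σ ^ k ∧ ρ₁ τ ^ j = ρ₁ σ) ∧ (ρ₂ τ = ρ₂ σ ^ k ∧ ρ₂ τ ^ j = ρ₂ σ) := by
  have hker : IsOpen ((ρ₁.prod ρ₂).ker : Set GQ) := by
    have : ((ρ₁.prod ρ₂).ker : Set GQ) = (ρ₁.ker : Set GQ) ∩ (ρ₂.ker : Set GQ) := by
      ext x
      simp [MonoidHom.mem_ker, Prod.ext_iff]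
    rw [this]
    exact hρ₁.inter hρ₂
  obtain ⟨ℓ, A, τ, k, j, hℓ, hℓS, hA, hτ, hin, hk, hj⟩ :=
    frobeniusDivision_hom H (ρ₁.prod ρ₂) hker σ S
  refine ⟨ℓ, A, τ, k, j, hℓ, hℓS, hA, hτ, fun ι hι => ?_, ⟨?_, ?_⟩, ⟨?_, ?_⟩⟩
  · have := hin ι hι
    simpa [Prod.ext_iff] using this
  · exact congrArg Prod.fst hk
  · exact congrArg Prod.fst hj
  · exact congrArg Prod.snd hk
  · exact congrArg Prod.snd hj

/-- **Tier 2 for homomorphisms with open kernel.**  Every value `ρ σ` is the value of `ρ` at a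
Frobenius element at a prime `ℓ ∉ S`, with inertia killed by `ρ`. -/
theorem chebotarev_hom (H : ChebotarevStatement) {G : Type*} [Group G]
    (ρ : GQ →* G) (hρ : IsOpen (ρ.ker : Set GQ)) (σ : GQ) (S : Finset ℕ) :
    ∃ (ℓ : ℕ) (A : ValuationSubring Qb) (τ : GQ),
      ℓ.Prime ∧ ℓ ∉ S ∧ A.LiesOverPrime ℓ ∧ A.IsFrobeniusAt τ ℓ ∧
      (∀ ι ∈ A.inertiaSubgroupIn ℚ, ρ ι = 1) ∧ ρ τ = ρ σ := by
  obtain ⟨E, hEfin, hE⟩ := exists_fixingSubgroup_le ρ.ker hρ
  obtain ⟨ℓ, A, τ, hℓ, hℓS, hA, hτ, hin, hσ⟩ := H E hEfin σ S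
  exact ⟨ℓ, A, τ, hℓ, hℓS, hA, hτ, fun ι hι => map_eq_one_of_fixes ρ E hE (hin ι hι),
    map_eq_of_eqOn ρ E hE hσ⟩

/-- **Tier 2 for two homomorphisms with open kernels.** -/
theorem chebotarev_hom_pair (H : ChebotarevStatement) {G₁ G₂ : Type*} [Group G₁]
    [Group G₂] (ρ₁ : GQ →* G₁) (ρ₂ : GQ →* G₂) (hρ₁ : IsOpen (ρ₁.ker : Set GQ))
    (hρ₂ : IsOpen (ρ₂.ker : Set GQ)) (σ : GQ) (S : Finset ℕ) :
    ∃ (ℓ : ℕ) (A : ValuationSubring Qb) (τ : GQ),
      ℓ.Prime ∧ ℓ ∉ S ∧ A.LiesOverPrime ℓ ∧ A.IsFrobeniusAt τ ℓ ∧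
      (∀ ι ∈ A.inertiaSubgroupIn ℚ, ρ₁ ι = 1 ∧ ρ₂ ι = 1) ∧ ρ₁ τ = ρ₁ σ ∧ ρ₂ τ = ρ₂ σ := by
  have hker : IsOpen ((ρ₁.prod ρ₂).ker : Set GQ) := by
    have : ((ρ₁.prod ρ₂).ker : Set GQ) = (ρ₁.ker : Set GQ) ∩ (ρ₂.ker : Set GQ) := by
      ext x
      simp [MonoidHom.mem_ker, Prod.ext_iff]
    rw [this]
    exact hρ₁.inter hρ₂
  obtain ⟨ℓ, A, τ, hℓ, hℓS, hA, hτ, hin, hσ⟩ := chebotarev_hom H (ρ₁.prod ρ₂) hker σ S
  refine ⟨ℓ, A, τ, hℓ, hℓS, hA, hτ, fun ι hι => ?_, congrArg Prod.fst hσ, congrArg Prod.snd hσ⟩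
  have := hin ι hι
  simpa [Prod.ext_iff] using this

/-- Tier 2 implies Tier 1. -/
theorem frobeniusDivision_of_chebotarev (H : ChebotarevStatement) :
    FrobeniusDivisionStatement := by
  intro E hE σ S
  obtain ⟨ℓ, A, τ, hℓ, hℓS, hA, hτ, hin, hσ⟩ := H E hE σ S
  exact ⟨ℓ, A, τ, 1, 1, hℓ, hℓS, hA, hτ, hin, fun x hx => by simpa using hσ x hx,
    fun x hx => by simpa using hσ x hx⟩

/-- Two Frobenius elements at the same valuation subring differ by an element of the inertia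
group. -/
theorem mul_inv_mem_inertiaSubgroupIn {A : ValuationSubring Qb} {τ τ' : GQ} {q : ℕ}
    (h : A.IsFrobeniusAt τ q) (h' : A.IsFrobeniusAt τ' q) :
    τ' * τ⁻¹ ∈ A.inertiaSubgroupIn ℚ := by
  obtain ⟨hτ, hτF⟩ := h
  obtain ⟨hτ', hτ'F⟩ := h'
  have hmem : τ' * τ⁻¹ ∈ A.decompositionSubgroup ℚ :=
    (A.decompositionSubgroup ℚ).mul_mem hτ' ((A.decompositionSubgroup ℚ).inv_mem hτ)
  refine ⟨⟨τ' * τ⁻¹, hmem⟩, MonoidHom.mem_ker.mpr ?_, rfl⟩
  ext x
  show (⟨τ' * τ⁻¹, hmem⟩ : A.decompositionSubgroup ℚ) • x = x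
  have h3 : (⟨τ' * τ⁻¹, hmem⟩ : A.decompositionSubgroup ℚ) =
      (⟨τ', hτ'⟩ : A.decompositionSubgroup ℚ) * (⟨τ, hτ⟩ : A.decompositionSubgroup ℚ)⁻¹ := rfl
  rw [h3, mul_smul, hτ'F, ← hτF, smul_inv_smul]

/-- If `ρ` kills the inertia group at `A`, it takes the same value on all Frobenius elements
at `A`. -/
theorem map_eq_of_isFrobeniusAt {G : Type*} [Group G] (ρ : GQ →* G) {A : ValuationSubring Qb}
    (hin : ∀ ι ∈ A.inertiaSubgroupIn ℚ, ρ ι = 1) {τ τ' : GQ} {q : ℕ}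
    (h : A.IsFrobeniusAt τ q) (h' : A.IsFrobeniusAt τ' q) : ρ τ' = ρ τ := by
  have := hin _ (mul_inv_mem_inertiaSubgroupIn h h')
  rwa [map_mul, map_inv, mul_inv_eq_one] at this

end Fermat.Agent.Lib.Cheb.H956

end
-- ===== PACK-END Lib/Cheb/H956/Consumers.lean

-- ===== PACK-BEGIN S59/H360/TateFree.lean
section


/-!
# S59, E-side (helper360): the abstract Tate module is free of rank 2

Hypothesis: `Nat.card E[p^n] = p^(2n)` for all `n`.  Then multiplication by `p` maps `E[p^(n+1)]`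
onto `E[p^n]`, every `p^n`-torsion point lifts to `T_p E`, and `T_p E` is free of rank 2 over `ℤ_[p]`.
-/

set_option autoImplicit false
set_option linter.unusedSectionVars false

namespace Fermat.Agent.S59.H360

open PadicInt

section Torsion

variable (p : ℕ) (E : Type*) [AddCommGroup E]

/-- `E[p^n]` as a subgroup of `E`. -/
def tors (n : ℕ) : AddSubgroup E := (nsmulAddMonoidHom (p ^ n) : E →+ E).ker

variable {p E}

lemma mem_tors {n : ℕ} {x : E} : x ∈ tors p E n ↔ p ^ n • x = 0 := by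
  rw [tors, AddMonoidHom.mem_ker, nsmulAddMonoidHom_apply]

variable (p E) in
/-- multiplication by `p` from `E[p^(n+1)]` to `E[p^n]`. -/
def torsMulP (n : ℕ) : tors p E (n + 1) →+ tors p E n where
  toFun y := ⟨p • y.1, by
    rw [mem_tors, ← mul_smul, ← pow_succ]; exact mem_tors.mp y.2⟩
  map_zero' := by ext; simp
  map_add' a b := by ext; simp [smul_add]

@[simp] lemma torsMulP_coe (n : ℕ) (y : tors p E (n + 1)) :
    ((torsMulP p E n y : tors p E n) : E) = p • (y : E) := rfl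

variable (p E) in
/-- the kernel of `torsMulP` is `E[p]`. -/
def kerTorsMulPEquiv (n : ℕ) : (torsMulP p E n).ker ≃ tors p E 1 where
  toFun y := ⟨y.1.1, by
    rw [mem_tors, pow_one]
    have h := y.2
    rw [AddMonoidHom.mem_ker] at h
    exact congrArg Subtype.val h⟩
  invFun x := ⟨⟨x.1, by
      rw [mem_tors, pow_succ, mul_smul]
      have h := mem_tors.mp x.2
      rw [pow_one] at h
      rw [h, smul_zero]⟩, by
    rw [AddMonoidHom.mem_ker]
    ext
    have h := mem_tors.mp x.2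
    rw [pow_one] at h
    simpa using h⟩
  left_inv y := by ext; rfl
  right_inv x := by ext; rfl

end Torsion

section Free

variable {p : ℕ} [hp : Fact p.Prime] {E : Type*} [AddCommGroup E]

/-- the cardinality hypothesis. -/
def TorsCard (p : ℕ) (E : Type*) [AddCommGroup E] : Prop :=
  ∀ n : ℕ, Nat.card (tors p E n) = p ^ (2 * n)

lemma TorsCard.finite (h : TorsCard p E) (n : ℕ) : Finite (tors p E n) :=
  Nat.finite_of_card_ne_zero (by rw [h n]; exact pow_ne_zero _ hp.out.ne_zero)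

lemma torsMulP_surjective (h : TorsCard p E) (n : ℕ) :
    Function.Surjective (torsMulP p E n) := by
  have := h.finite n
  have := h.finite (n + 1)
  have h1 : Nat.card (torsMulP p E n).ker * (torsMulP p E n).ker.index
      = Nat.card (tors p E (n + 1)) := AddSubgroup.card_mul_index _
  rw [AddSubgroup.index_ker, Nat.card_congr (kerTorsMulPEquiv p E n), h 1, h (n + 1)] at h1
  have h2 : Nat.card (torsMulP p E n).range = p ^ (2 * n) := by
    have h3 : p ^ (2 * (n + 1)) = p ^ (2 * 1) * p ^ (2 * n) := by rw [← pow_add]; ring_nf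
    rw [h3] at h1
    exact Nat.eq_of_mul_eq_mul_left (pow_pos hp.out.pos _) h1
  have h4 : (torsMulP p E n).range = ⊤ :=
    AddSubgroup.eq_top_of_card_eq _ (by rw [h2, h n])
  exact AddMonoidHom.range_eq_top.mp h4

/-- `p`-power torsion is `p`-divisible. -/
theorem exists_p_smul_eq (h : TorsCard p E) {n : ℕ} {x : E} (hx : p ^ n • x = 0) :
    ∃ y : E, p • y = x := by
  obtain ⟨y, hy⟩ := torsMulP_surjective h n ⟨x, mem_tors.mpr hx⟩
  exact ⟨y.1, congrArg Subtype.val hy⟩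

open Classical in
/-- a section of multiplication by `p`. -/
noncomputable def divP (p : ℕ) {E : Type*} [AddCommGroup E] (x : E) : E :=
  if h : ∃ y : E, p • y = x then h.choose else 0

lemma p_smul_divP (h : TorsCard p E) {n : ℕ} {x : E} (hx : p ^ n • x = 0) :
    p • divP p x = x := by
  have hex := exists_p_smul_eq h hx
  rw [divP, dif_pos hex]
  exact hex.choose_spec

lemma pow_smul_iterate_divP (h : TorsCard p E) {n : ℕ} {x : E} (hx : p ^ n • x = 0) (k : ℕ) :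
    p ^ (n + k) • (divP p)^[k] x = 0 := by
  induction k with
  | zero => simpa using hx
  | succ k ih =>
    rw [Function.iterate_succ_apply', ← add_assoc, pow_succ, mul_smul, p_smul_divP h ih, ih]

lemma p_smul_iterate_divP (h : TorsCard p E) {n : ℕ} {x : E} (hx : p ^ n • x = 0) (k : ℕ) :
    p • (divP p)^[k + 1] x = (divP p)^[k] x := by
  rw [Function.iterate_succ_apply']
  exact p_smul_divP h (pow_smul_iterate_divP h hx k)

/-- Every `p^n`-torsion point is the `n`-th component of an element of the Tate module. -/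
theorem exists_tate_lift (h : TorsCard p E) {n : ℕ} {x : E} (hx : p ^ n • x = 0) :
    ∃ f : tateSub p E, f.1 n = x := by
  refine ⟨⟨fun k => p ^ (n - k) • (divP p)^[k - n] x, fun k => ⟨?_, ?_⟩⟩, ?_⟩
  · beta_reduce
    rcases le_total k n with hk | hk
    · obtain ⟨j, rfl⟩ := Nat.exists_eq_add_of_le hk
      have h1 : k + j - k = j := by omega
      have h2 : k - (k + j) = 0 := by omega
      rw [h1, h2, Function.iterate_zero, id, ← mul_smul, ← pow_add]
      exact hx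
    · obtain ⟨j, rfl⟩ := Nat.exists_eq_add_of_le hk
      have h1 : n - (n + j) = 0 := by omega
      have h2 : n + j - n = j := by omega
      rw [h1, h2, pow_zero, one_smul]
      exact pow_smul_iterate_divP h hx j
  · beta_reduce
    rcases Nat.lt_or_ge k n with hk | hk
    · obtain ⟨j, rfl⟩ := Nat.exists_eq_add_of_lt hk
      have h1 : k + j + 1 - (k + 1) = j := by omega
      have h2 : k + 1 - (k + j + 1) = 0 := by omega
      have h3 : k + j + 1 - k = j + 1 := by omega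
      have h4 : k - (k + j + 1) = 0 := by omega
      rw [h1, h2, h3, h4, ← mul_smul, ← pow_succ']
    · obtain ⟨j, rfl⟩ := Nat.exists_eq_add_of_le hk
      have h1 : n - (n + j + 1) = 0 := by omega
      have h2 : n + j + 1 - n = j + 1 := by omega
      have h3 : n - (n + j) = 0 := by omega
      have h4 : n + j - n = j := by omega
      rw [h1, h2, h3, h4, pow_zero, one_smul, one_smul]
      exact p_smul_iterate_divP h hx j
  · show p ^ (n - n) • (divP p)^[n - n] x = x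
    rw [Nat.sub_self, pow_zero, one_smul, Function.iterate_zero, id]

end Free

section Basis

variable {p : ℕ} [hp : Fact p.Prime] {E : Type*} [AddCommGroup E]

/-- `E[p]` contains two `𝔽_p`-independent points (elementary form). -/
theorem exists_indep_pair (h : TorsCard p E) :
    ∃ e₁ e₂ : E, p • e₁ = 0 ∧ p • e₂ = 0 ∧
      ∀ a b : ℤ, a • e₁ + b • e₂ = 0 → (p : ℤ) ∣ a ∧ (p : ℤ) ∣ b := by
  have hfin := h.finite 1
  have hc1 : Nat.card (tors p E 1) = p ^ 2 := by rw [h 1]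
  have hp2 : 2 ≤ p := hp.out.two_le
  have hnt : Nontrivial (tors p E 1) := by
    rw [← Finite.one_lt_card_iff_nontrivial, hc1]
    nlinarith
  obtain ⟨e, he⟩ := exists_ne (0 : tors p E 1)
  have he0 : (e : E) ≠ 0 := fun h0 => he (Subtype.ext h0)
  have hpe : p • (e : E) = 0 := by
    have := mem_tors.mp e.2
    rwa [pow_one] at this
  have hord : addOrderOf (e : E) = p := addOrderOf_eq_prime hpe he0
  have hZle : AddSubgroup.zmultiples (e : E) ≤ tors p E 1 := by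
    rw [AddSubgroup.zmultiples_le]
    exact e.2
  have hZcard : Nat.card (AddSubgroup.zmultiples (e : E)) = p := by
    rw [Nat.card_zmultiples, hord]
  obtain ⟨e₂, he₂, he₂Z⟩ : ∃ e₂ : E, e₂ ∈ tors p E 1 ∧ e₂ ∉ AddSubgroup.zmultiples (e : E) := by
    by_contra hcon
    push Not at hcon
    have hle : tors p E 1 ≤ AddSubgroup.zmultiples (e : E) := fun x hx => hcon x hx
    have hfinZ : Finite (AddSubgroup.zmultiples (e : E)) :=
      Nat.finite_of_card_ne_zero (by rw [hZcard]; exact hp.out.ne_zero)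
    have := AddSubgroup.card_le_of_le hle
    rw [hc1, hZcard] at this
    nlinarith
  have hpe₂ : p • e₂ = 0 := by
    have := mem_tors.mp he₂
    rwa [pow_one] at this
  refine ⟨e, e₂, hpe, hpe₂, fun a b hab => ?_⟩
  have hb : (p : ℤ) ∣ b := by
    by_contra hnb
    have hcop : IsCoprime b (p : ℤ) :=
      ((Nat.prime_iff_prime_int.mp hp.out).coprime_iff_not_dvd.mpr hnb).symm
    obtain ⟨u, v, huv⟩ := hcop
    apply he₂Z
    rw [AddSubgroup.mem_zmultiples_iff]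
    refine ⟨-(u * a), ?_⟩
    have h1 : b • e₂ = -(a • (e : E)) := by
      rw [eq_neg_iff_add_eq_zero, add_comm]; exact hab
    have h2 : (p : ℤ) • e₂ = 0 := by rw [natCast_zsmul]; exact hpe₂
    calc (-(u * a)) • (e : E) = u • (-(a • (e : E))) := by
          rw [neg_smul, mul_smul, smul_neg]
      _ = u • (b • e₂) := by rw [h1]
      _ = (u * b) • e₂ + (v * (p : ℤ)) • e₂ := by
          rw [mul_smul, mul_smul v, h2, smul_zero, add_zero]
      _ = e₂ := by rw [← add_smul, huv, one_smul]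
  refine ⟨?_, hb⟩
  obtain ⟨b', rfl⟩ := hb
  have h2 : ((p : ℤ) * b') • e₂ = 0 := by
    rw [mul_comm, mul_smul, natCast_zsmul, hpe₂, smul_zero]
  rw [h2, add_zero] at hab
  have := (addOrderOf_dvd_iff_zsmul_eq_zero (x := (e : E)) (i := a)).mpr hab
  rwa [hord] at this

/-- independence at level `1` implies independence at every level. -/
theorem indep_level (X Y : tateSub p E)
    (hind : ∀ a b : ℤ, a • X.1 1 + b • Y.1 1 = 0 → (p : ℤ) ∣ a ∧ (p : ℤ) ∣ b) :
    ∀ (n : ℕ) (a b : ℤ), a • X.1 n + b • Y.1 n = 0 → (p : ℤ) ^ n ∣ a ∧ (p : ℤ) ^ n ∣ b := by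
  intro n
  induction n with
  | zero => intro a b _; simp
  | succ n ih =>
    intro a b hab
    have hX : p ^ n • X.1 (n + 1) = X.1 1 := by
      have := tateSub_pow_smul_add X 1 n
      rwa [add_comm 1 n] at this
    have hY : p ^ n • Y.1 (n + 1) = Y.1 1 := by
      have := tateSub_pow_smul_add Y 1 n
      rwa [add_comm 1 n] at this
    have h1 : a • X.1 1 + b • Y.1 1 = 0 := by
      have := congrArg (fun z => p ^ n • z) hab
      simp only [smul_add, smul_zero] at this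
      rw [smul_comm (p ^ n) a, smul_comm (p ^ n) b, hX, hY] at this
      exact this
    obtain ⟨⟨a', rfl⟩, ⟨b', rfl⟩⟩ := hind a b h1
    have h2 : a' • X.1 n + b' • Y.1 n = 0 := by
      have hX' : ((p : ℤ) * a') • X.1 (n + 1) = a' • X.1 n := by
        rw [mul_comm, mul_smul, natCast_zsmul, tateSub_p_smul]
      have hY' : ((p : ℤ) * b') • Y.1 (n + 1) = b' • Y.1 n := by
        rw [mul_comm, mul_smul, natCast_zsmul, tateSub_p_smul]
      rw [hX', hY'] at hab
      exact hab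
    obtain ⟨ha, hb⟩ := ih a' b' h2
    rw [pow_succ']
    exact ⟨mul_dvd_mul_left _ ha, mul_dvd_mul_left _ hb⟩

/-- generation at every level, by counting. -/
theorem span_level (h : TorsCard p E) (X Y : tateSub p E)
    (hind : ∀ a b : ℤ, a • X.1 1 + b • Y.1 1 = 0 → (p : ℤ) ∣ a ∧ (p : ℤ) ∣ b)
    (n : ℕ) {x : E} (hx : p ^ n • x = 0) : ∃ a b : ℕ, x = a • X.1 n + b • Y.1 n := by
  have hfin := h.finite n
  let φ : Fin (p ^ n) × Fin (p ^ n) → tors p E n := fun ab =>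
    ⟨(ab.1 : ℕ) • X.1 n + (ab.2 : ℕ) • Y.1 n, by
      rw [mem_tors, smul_add, smul_comm, tateSub_pow_smul, smul_zero, smul_comm,
        tateSub_pow_smul, smul_zero, add_zero]⟩
  have hinj : Function.Injective φ := by
    rintro ⟨a, b⟩ ⟨a', b'⟩ hab
    have h0 : (a : ℕ) • X.1 n + (b : ℕ) • Y.1 n = (a' : ℕ) • X.1 n + (b' : ℕ) • Y.1 n :=
      congrArg Subtype.val hab
    have h1 : (((a : ℕ) : ℤ) - ((a' : ℕ) : ℤ)) • X.1 n + (((b : ℕ) : ℤ) - ((b' : ℕ) : ℤ)) • Y.1 n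
        = 0 := by
      rw [sub_smul, sub_smul, natCast_zsmul, natCast_zsmul, natCast_zsmul, natCast_zsmul]
      rw [sub_add_sub_comm, h0, sub_self]
    obtain ⟨ha, hb⟩ := indep_level X Y hind n _ _ h1
    have key : ∀ c c' : Fin (p ^ n), (p : ℤ) ^ n ∣ ((c : ℕ) : ℤ) - ((c' : ℕ) : ℤ) → c = c' := by
      intro c c' hd
      have h3 : ((c : ℕ) : ℤ) ≡ ((c' : ℕ) : ℤ) [ZMOD ((p ^ n : ℕ) : ℤ)] := by
        rw [Int.modEq_iff_dvd]
        have : ((p ^ n : ℕ) : ℤ) ∣ ((c : ℕ) : ℤ) - ((c' : ℕ) : ℤ) := by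
          rw [Nat.cast_pow]; exact hd
        simpa using (dvd_neg.mpr this)
      have h4 : (c : ℕ) ≡ (c' : ℕ) [MOD p ^ n] := Int.natCast_modEq_iff.mp h3
      exact Fin.ext (Nat.ModEq.eq_of_lt_of_lt h4 c.2 c'.2)
    rw [key a a' ha, key b b' hb]
  have hcard : Nat.card (tors p E n) ≤ Nat.card (Fin (p ^ n) × Fin (p ^ n)) := by
    rw [h n, Nat.card_prod, Nat.card_fin, ← pow_add]
    exact le_of_eq (by ring_nf)
  obtain ⟨⟨a, b⟩, hab⟩ := (hinj.bijective_of_nat_card_le hcard).2 ⟨x, mem_tors.mpr hx⟩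
  exact ⟨a, b, (congrArg Subtype.val hab).symm⟩

/-- The linear map `ℤ_[p]² → T_p E` attached to a pair of elements. -/
noncomputable def pairMap (X Y : tateSub p E) : (Fin 2 → ℤ_[p]) →ₗ[ℤ_[p]] tateSub p E :=
  (LinearMap.proj (R := ℤ_[p]) (φ := fun _ : Fin 2 => ℤ_[p]) 0).smulRight X
    + (LinearMap.proj (R := ℤ_[p]) (φ := fun _ : Fin 2 => ℤ_[p]) 1).smulRight Y

lemma pairMap_apply (X Y : tateSub p E) (v : Fin 2 → ℤ_[p]) :
    pairMap X Y v = v 0 • X + v 1 • Y := rfl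

lemma eq_zero_of_appr_eq_zero (z : ℤ_[p]) (hz : ∀ n, z.appr n = 0) : z = 0 := by
  rw [← ext_of_toZModPow]
  intro n
  rw [← appr_cast, hz n, map_zero, Nat.cast_zero]

theorem pairMap_injective (X Y : tateSub p E)
    (hind : ∀ a b : ℤ, a • X.1 1 + b • Y.1 1 = 0 → (p : ℤ) ∣ a ∧ (p : ℤ) ∣ b) :
    Function.Injective (pairMap X Y) := by
  rw [injective_iff_map_eq_zero]
  intro v hv
  have h1 : ∀ n, (v 0).appr n = 0 ∧ (v 1).appr n = 0 := by
    intro n
    have h2 : ((v 0 • X + v 1 • Y : tateSub p E)).1 n = 0 := by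
      rw [← pairMap_apply, hv]; rfl
    rw [tateSub_coe_add, tate_smul_apply, tate_smul_apply] at h2
    have h3 : (((v 0).appr n : ℕ) : ℤ) • X.1 n + (((v 1).appr n : ℕ) : ℤ) • Y.1 n = 0 := by
      rw [natCast_zsmul, natCast_zsmul]; exact h2
    obtain ⟨ha, hb⟩ := indep_level X Y hind n _ _ h3
    have key : ∀ c : ℕ, c < p ^ n → (p : ℤ) ^ n ∣ (c : ℤ) → c = 0 := by
      intro c hc hd
      have : (p ^ n : ℕ) ∣ c := by
        have h5 : ((p ^ n : ℕ) : ℤ) ∣ (c : ℤ) := by rw [Nat.cast_pow]; exact hd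
        exact Int.natCast_dvd_natCast.mp h5
      exact Nat.eq_zero_of_dvd_of_lt this hc
    exact ⟨key _ (appr_lt _ _) ha, key _ (appr_lt _ _) hb⟩
  funext i
  fin_cases i
  · exact eq_zero_of_appr_eq_zero _ fun n => (h1 n).1
  · exact eq_zero_of_appr_eq_zero _ fun n => (h1 n).2

/-- a compatible sequence of natural numbers defines a `p`-adic integer. -/
lemma exists_padic_of_compat (α : ℕ → ℕ) (hα : ∀ n, (p : ℤ) ^ n ∣ (α (n + 1) : ℤ) - (α n : ℤ)) :
    ∃ z : ℤ_[p], ∀ n, z.appr n ≡ α n [MOD p ^ n] := by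
  refine ⟨PadicInt.ofIntSeq _ (isCauSeq_padicNorm_of_pow_dvd_sub (fun n => (α n : ℤ)) p hα),
    fun n => ?_⟩
  have := toZModPow_ofIntSeq_of_pow_dvd_sub (fun n => (α n : ℤ)) p hα n
  rw [← ZMod.natCast_eq_natCast_iff, appr_cast, this]
  simp

theorem pairMap_surjective (h : TorsCard p E) (X Y : tateSub p E)
    (hind : ∀ a b : ℤ, a • X.1 1 + b • Y.1 1 = 0 → (p : ℤ) ∣ a ∧ (p : ℤ) ∣ b) :
    Function.Surjective (pairMap X Y) := by
  intro f
  choose α β hαβ using fun n => span_level h X Y hind n (tateSub_pow_smul f n)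
  have hcompat : ∀ n, (p : ℤ) ^ n ∣ (α (n + 1) : ℤ) - (α n : ℤ) ∧
      (p : ℤ) ^ n ∣ (β (n + 1) : ℤ) - (β n : ℤ) := by
    intro n
    apply indep_level X Y hind n
    rw [sub_smul, sub_smul, natCast_zsmul, natCast_zsmul, natCast_zsmul, natCast_zsmul,
      sub_add_sub_comm, ← hαβ n, sub_eq_zero, ← tateSub_p_smul f n, hαβ (n + 1), smul_add,
      smul_comm p (α (n + 1)), smul_comm p (β (n + 1)), tateSub_p_smul, tateSub_p_smul]
  obtain ⟨a, ha⟩ := exists_padic_of_compat α fun n => (hcompat n).1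
  obtain ⟨b, hb⟩ := exists_padic_of_compat β fun n => (hcompat n).2
  refine ⟨![a, b], tateSub_ext fun n => ?_⟩
  rw [pairMap_apply, tateSub_coe_add, tate_smul_apply, tate_smul_apply]
  simp only [Matrix.cons_val_zero, Matrix.cons_val_one]
  rw [tateSub_nsmul_congr X n (ha n), tateSub_nsmul_congr Y n (hb n), ← hαβ n]

/-- **The Tate module is free of rank 2**: an explicit linear equivalence with `ℤ_[p]²`. -/
theorem exists_tateBasis (h : TorsCard p E) :
    ∃ (X Y : tateSub p E), Function.Bijective (pairMap X Y) ∧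
      ∀ a b : ℤ, a • X.1 1 + b • Y.1 1 = 0 → (p : ℤ) ∣ a ∧ (p : ℤ) ∣ b := by
  obtain ⟨e₁, e₂, he₁, he₂, hind⟩ := exists_indep_pair h
  obtain ⟨X, hX⟩ := exists_tate_lift h (n := 1) (x := e₁) (by rwa [pow_one])
  obtain ⟨Y, hY⟩ := exists_tate_lift h (n := 1) (x := e₂) (by rwa [pow_one])
  have hind' : ∀ a b : ℤ, a • X.1 1 + b • Y.1 1 = 0 → (p : ℤ) ∣ a ∧ (p : ℤ) ∣ b := by
    rw [hX, hY]; exact hind
  exact ⟨X, Y, ⟨pairMap_injective X Y hind', pairMap_surjective h X Y hind'⟩, hind'⟩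

/-- a linear equivalence `ℤ_[p]² ≃ T_p E`. -/
noncomputable def tateEquiv (h : TorsCard p E) : (Fin 2 → ℤ_[p]) ≃ₗ[ℤ_[p]] tateSub p E :=
  LinearEquiv.ofBijective (pairMap (exists_tateBasis h).choose (exists_tateBasis h).choose_spec.choose)
    (exists_tateBasis h).choose_spec.choose_spec.1

theorem tate_free (h : TorsCard p E) : Module.Free ℤ_[p] (tateSub p E) :=
  Module.Free.of_equiv (tateEquiv h)

theorem tate_finite (h : TorsCard p E) : Module.Finite ℤ_[p] (tateSub p E) :=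
  Module.Finite.equiv (tateEquiv h)

theorem tate_finrank (h : TorsCard p E) : Module.finrank ℤ_[p] (tateSub p E) = 2 := by
  rw [← (tateEquiv h).finrank_eq, Module.finrank_fin_fun]

end Basis

end Fermat.Agent.S59.H360

end
-- ===== PACK-END S59/H360/TateFree.lean

-- ===== PACK-BEGIN S05/H245Val.lean
section



/-!
# Valuation estimates in the kernel of reduction

Helper file for statement S05.
-/

set_option autoImplicit false

namespace Fermat.Agent.S05.H245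

open WeierstrassCurve WeierstrassCurve.Affine

variable {K : Type*} [Field K] {Γ₀ : Type*} [LinearOrderedCommGroupWithZero Γ₀]

/-- integrality of the coefficients of a Weierstrass curve with respect to a valuation -/
structure IntCoeffs (v : Valuation K Γ₀) (W : WeierstrassCurve.Affine K) : Prop where
  a₁ : v W.a₁ ≤ 1
  a₂ : v W.a₂ ≤ 1
  a₃ : v W.a₃ ≤ 1
  a₄ : v W.a₄ ≤ 1
  a₆ : v W.a₆ ≤ 1

variable {v : Valuation K Γ₀} {W : WeierstrassCurve.Affine K}

lemma val_lin_le (hW : IntCoeffs v W) {x : K} (hx : 1 ≤ v x) : v (W.a₁ * x + W.a₃) ≤ v x := by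
  apply v.map_add_le
  · rw [map_mul]; exact mul_le_of_le_one_left' hW.a₁
  · exact le_trans hW.a₃ hx

lemma val_lin_le_one (hW : IntCoeffs v W) {x : K} (hx : v x ≤ 1) : v (W.a₁ * x + W.a₃) ≤ 1 := by
  apply v.map_add_le
  · rw [map_mul]; exact mul_le_one' hW.a₁ hx
  · exact hW.a₃

lemma val_rhs_le_one (hW : IntCoeffs v W) {x : K} (hx : v x ≤ 1) :
    v (x ^ 3 + W.a₂ * x ^ 2 + W.a₄ * x + W.a₆) ≤ 1 := by
  refine v.map_add_le (v.map_add_le (v.map_add_le ?_ ?_) ?_) hW.a₆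
  · rw [map_pow]; exact pow_le_one' hx 3
  · rw [map_mul, map_pow]; exact mul_le_one' hW.a₂ (pow_le_one' hx 2)
  · rw [map_mul]; exact mul_le_one' hW.a₄ hx

/-- For a point with non-integral `x`, we have `v x < v y` and `v y ^ 2 = v x ^ 3`. -/
lemma val_xy (hW : IntCoeffs v W) {x y : K} (h : W.Equation x y) (hx : 1 < v x) :
    v x < v y ∧ v y ^ 2 = v x ^ 3 := by
  rw [equation_iff] at h
  have hx1 : (1 : Γ₀) ≤ v x := hx.le
  have hR : v (x ^ 3 + W.a₂ * x ^ 2 + W.a₄ * x + W.a₆) = v x ^ 3 := by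
    have e : x ^ 3 + W.a₂ * x ^ 2 + W.a₄ * x + W.a₆ =
        x ^ 3 + (W.a₂ * x ^ 2 + W.a₄ * x + W.a₆) := by ring
    rw [e]
    have hlt : v (W.a₂ * x ^ 2 + W.a₄ * x + W.a₆) < v (x ^ 3) := by
      have : v (W.a₂ * x ^ 2 + W.a₄ * x + W.a₆) ≤ v x ^ 2 := by
        refine v.map_add_le (v.map_add_le ?_ ?_) ?_
        · rw [map_mul, map_pow]; exact mul_le_of_le_one_left' hW.a₂
        · rw [map_mul]
          exact le_trans (mul_le_of_le_one_left' hW.a₄) (le_self_pow₀ hx1 (by norm_num))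
        · exact le_trans hW.a₆ (one_le_pow₀ hx1)
      rw [map_pow]
      exact lt_of_le_of_lt this (pow_lt_pow_right₀ hx (by norm_num))
    rw [v.map_add_eq_of_lt_left hlt, map_pow]
  have hL : y ^ 2 + W.a₁ * x * y + W.a₃ * y = y * (y + (W.a₁ * x + W.a₃)) := by ring
  rw [hL] at h
  have hb : v (W.a₁ * x + W.a₃) ≤ v x := val_lin_le hW hx1
  rcases le_or_gt (v y) (v x) with hyx | hyx
  · exfalso
    have : v (y * (y + (W.a₁ * x + W.a₃))) ≤ v x ^ 2 := by
      rw [map_mul, pow_two]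
      exact mul_le_mul' hyx (v.map_add_le hyx hb)
    rw [h, hR] at this
    exact absurd this (not_le.mpr (pow_lt_pow_right₀ hx (by norm_num)))
  · refine ⟨hyx, ?_⟩
    have : v (y + (W.a₁ * x + W.a₃)) = v y := v.map_add_eq_of_lt_left (lt_of_le_of_lt hb hyx)
    rw [← hR, ← h, map_mul, this, pow_two]

/-- If `x` is integral then so is `y`. -/
lemma val_y_le_one (hW : IntCoeffs v W) {x y : K} (h : W.Equation x y) (hx : v x ≤ 1) :
    v y ≤ 1 := by
  rw [equation_iff] at h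
  by_contra hy
  replace hy : 1 < v y := not_le.mp hy
  have hL : y ^ 2 + W.a₁ * x * y + W.a₃ * y = y * (y + (W.a₁ * x + W.a₃)) := by ring
  rw [hL] at h
  have hb : v (W.a₁ * x + W.a₃) ≤ 1 := val_lin_le_one hW hx
  have : v (y + (W.a₁ * x + W.a₃)) = v y := v.map_add_eq_of_lt_left (lt_of_le_of_lt hb hy)
  have h2 : v (y * (y + (W.a₁ * x + W.a₃))) = v y * v y := by rw [map_mul, this]
  rw [h] at h2
  have h3 := val_rhs_le_one hW hx
  rw [h2] at h3
  have : (1 : Γ₀) < v y * v y := by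
    calc (1 : Γ₀) = 1 * 1 := (one_mul 1).symm
      _ < v y * v y := mul_lt_mul'' hy hy zero_le zero_le
  exact absurd h3 (not_le.mpr this)

/-- If `y` is non-integral then so is `x`. -/
lemma one_lt_val_x (hW : IntCoeffs v W) {x y : K} (h : W.Equation x y) (hy : 1 < v y) :
    1 < v x := by
  by_contra hx
  replace hx : v x ≤ 1 := not_lt.mp hx
  exact absurd (val_y_le_one hW h hx) (not_le.mpr hy)

/-- Basic facts on the `(z, w)` coordinates of a point in the kernel of reduction. -/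
lemma val_zw (hW : IntCoeffs v W) {x y : K} (h : W.Equation x y) (hx : 1 < v x) :
    y ≠ 0 ∧ v (-x / y) < 1 ∧ v (-x / y) ≠ 0 ∧ v (-1 / y) = v (-x / y) ^ 3 := by
  obtain ⟨hxy, hpow⟩ := val_xy hW h hx
  have hx0 : 0 < v x := lt_trans zero_lt_one hx
  have hy0 : 0 < v y := lt_trans hx0 hxy
  have hyne : y ≠ 0 := by
    intro h0; rw [h0, map_zero] at hy0; exact lt_irrefl _ hy0
  refine ⟨hyne, ?_, ?_, ?_⟩
  · rw [map_div₀, v.map_neg, div_lt_one₀ hy0]; exact hxy
  · rw [map_div₀, v.map_neg]; exact div_ne_zero hx0.ne' hy0.ne'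
  · rw [map_div₀, map_div₀, v.map_neg, v.map_neg, map_one, div_pow, ← hpow]
    rw [eq_div_iff (pow_ne_zero 3 hy0.ne')]
    rw [one_div, pow_succ, ← mul_assoc, mul_comm ((v y)⁻¹) _, mul_assoc,
      inv_mul_cancel₀ hy0.ne', mul_one]


section bounds

variable {ρ : Γ₀}

lemma bd_slN (hW : IntCoeffs v W) (hρ : ρ ≤ 1) {z₁ z₂ w₁ : K} (hz₁ : Bd v ρ 1 z₁)
    (hz₂ : Bd v ρ 1 z₂) (hw₁ : Bd v ρ 3 w₁) : Bd v ρ 2 (slN W z₁ z₂ w₁) := by
  unfold slN
  refine Bd.add (Bd.add (Bd.add (Bd.add (Bd.add ?_ ?_) ?_) ?_) ?_) ?_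
  · exact hz₂.pow' hρ 2 (by norm_num)
  · exact hz₁.mul' hρ hz₂ (by norm_num)
  · exact hz₁.pow' hρ 2 (by norm_num)
  · exact Bd.smul hW.a₁ (hw₁.mono hρ (by norm_num))
  · exact Bd.mul' hρ (Bd.smul hW.a₂ (hz₁.add hz₂)) hw₁ (by norm_num)
  · exact Bd.smul hW.a₄ (hw₁.pow' hρ 2 (by norm_num))

lemma bd_slE (hW : IntCoeffs v W) (hρ : ρ ≤ 1) {z₂ w₁ w₂ : K} (hz₂ : Bd v ρ 1 z₂)
    (hw₁ : Bd v ρ 3 w₁) (hw₂ : Bd v ρ 3 w₂) : Bd v ρ 1 (slE W z₂ w₁ w₂) := by
  unfold slE
  have hw₁' : Bd v ρ 1 w₁ := hw₁.mono hρ (by norm_num)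
  have hw₂' : Bd v ρ 1 w₂ := hw₂.mono hρ (by norm_num)
  refine Bd.add (Bd.add (Bd.add (Bd.add ?_ ?_) ?_) ?_) ?_
  · exact Bd.smul hW.a₁ hz₂
  · exact Bd.smul hW.a₂ (hz₂.pow' hρ 2 (by norm_num))
  · exact Bd.smul hW.a₃ (hw₂'.add hw₁')
  · exact Bd.mul' hρ (Bd.smul hW.a₄ hz₂) (hw₂'.add hw₁') (by norm_num)
  · refine Bd.smul hW.a₆ (Bd.add (Bd.add ?_ ?_) ?_)
    · exact hw₂'.pow' hρ 2 (by norm_num)
    · exact hw₂'.mul' hρ hw₁' (by norm_num)
    · exact hw₁'.pow' hρ 2 (by norm_num)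

lemma bd_cf3E (hW : IntCoeffs v W) (hρ : ρ ≤ 1) {l : K} (hl : Bd v ρ 2 l) :
    Bd v ρ 2 (cf3E W l) := by
  unfold cf3E
  refine Bd.add (Bd.add ?_ ?_) ?_
  · exact Bd.smul hW.a₂ hl
  · exact Bd.smul hW.a₄ (hl.pow' hρ 2 (by norm_num))
  · exact Bd.smul hW.a₆ (hl.pow' hρ 3 (by norm_num))

lemma bd_cf2 (hW : IntCoeffs v W) (hρ : ρ ≤ 1) {l n : K} (hl : Bd v ρ 2 l) (hn : Bd v ρ 3 n) :
    Bd v ρ 2 (cf2 W l n) := by
  unfold cf2
  have hn' : Bd v ρ 2 n := hn.mono hρ (by norm_num)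
  have h2 : v (2 : K) ≤ 1 := bd_zero_iff.mp (Bd.ofNat (ρ := ρ) 2)
  have h3 : v (3 : K) ≤ 1 := bd_zero_iff.mp (Bd.ofNat (ρ := ρ) 3)
  refine Bd.add (Bd.add (Bd.add (Bd.add ?_ ?_) ?_) ?_) ?_
  · exact Bd.smul hW.a₁ hl
  · exact Bd.smul hW.a₂ hn'
  · exact Bd.smul hW.a₃ (hl.pow' hρ 2 (by norm_num))
  · have : 2 * W.a₄ * l * n = 2 * (W.a₄ * (l * n)) := by ring
    rw [this]
    exact Bd.smul h2 (Bd.smul hW.a₄ (hl.mul' hρ hn' (by norm_num)))
  · have : 3 * W.a₆ * l ^ 2 * n = 3 * (W.a₆ * (l ^ 2 * n)) := by ring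
    rw [this]
    exact Bd.smul h3 (Bd.smul hW.a₆ (Bd.mul' hρ (hl.pow 2) hn' (by norm_num)))

/-- negation: `z(-P) + z(P)` is of second order. -/
lemma bd_neg (hW : IntCoeffs v W) {x y : K} (h : W.Equation x y) (hx : 1 < v x)
    (hz : Bd v ρ 1 (-x / y)) :
    v (-x / W.negY x y) = v (-x / y) ∧ Bd v ρ 2 (-x / W.negY x y + -x / y) := by
  obtain ⟨hxy, -⟩ := val_xy hW h hx
  obtain ⟨hy, -, -, -⟩ := val_zw hW h hx
  have hb : v (W.a₁ * x + W.a₃) ≤ v x := val_lin_le hW hx.le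
  have hneg : W.negY x y = -(y + (W.a₁ * x + W.a₃)) := by simp only [negY]; ring
  have hvn : v (W.negY x y) = v y := by
    rw [hneg, v.map_neg]
    exact v.map_add_eq_of_lt_left (lt_of_le_of_lt hb hxy)
  have hx0 : 0 < v x := lt_trans zero_lt_one hx
  have hy0 : 0 < v y := lt_trans hx0 hxy
  have hn0 : W.negY x y ≠ 0 := by
    intro h0; rw [h0, map_zero] at hvn; exact hy0.ne' hvn.symm
  refine ⟨by rw [map_div₀, map_div₀, hvn], ?_⟩
  have e : -x / W.negY x y + -x / y = -((-x / W.negY x y) * ((W.a₁ * x + W.a₃) / y)) := by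
    rw [hneg] at hn0 ⊢
    have hn1 : y + (W.a₁ * x + W.a₃) ≠ 0 := neg_ne_zero.mp hn0
    generalize W.a₁ * x + W.a₃ = L at hn1 ⊢
    field_simp
    ring
  have hz' : Bd v ρ 1 (-x / W.negY x y) := by
    unfold Bd at hz ⊢
    rw [map_div₀, hvn, ← map_div₀]; exact hz
  have hz'' : Bd v ρ 1 ((W.a₁ * x + W.a₃) / y) := by
    unfold Bd at hz ⊢
    refine le_trans ?_ hz
    rw [map_div₀, map_div₀, v.map_neg]
    exact div_le_div_of_nonneg_right hb zero_le
  rw [e]
  exact (hz'.mul hz'').neg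

end bounds

section main

variable [DecidableEq K] {ρ : Γ₀}

/-- Core estimate for the sum of two affine points in the kernel of reduction. -/
theorem add_some_E1 (hW : IntCoeffs v W) (hρ : ρ < 1) {x₁ y₁ x₂ y₂ : K}
    (h₁ : W.Equation x₁ y₁) (h₂ : W.Equation x₂ y₂) (hx₁ : 1 < v x₁) (hx₂ : 1 < v x₂)
    (hz₁ : v (-x₁ / y₁) ≤ ρ) (hz₂ : v (-x₂ / y₂) ≤ ρ)
    (hxy : ¬(x₁ = x₂ ∧ y₁ = W.negY x₂ y₂)) :
    1 < v (W.addX x₁ x₂ (W.slope x₁ x₂ y₁ y₂)) ∧
      v (-(W.addX x₁ x₂ (W.slope x₁ x₂ y₁ y₂)) / W.addY x₁ x₂ y₁ (W.slope x₁ x₂ y₁ y₂)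
        - -x₁ / y₁ - -x₂ / y₂) ≤ ρ ^ 2 := by
  have hρ' : ρ ≤ 1 := hρ.le
  obtain ⟨hy₁, -, -, hw₁⟩ := val_zw hW h₁ hx₁
  obtain ⟨hy₂, -, -, hw₂⟩ := val_zw hW h₂ hx₂
  have bz₁ : Bd v ρ 1 (-x₁ / y₁) := bd_one_iff.mpr hz₁
  have bz₂ : Bd v ρ 1 (-x₂ / y₂) := bd_one_iff.mpr hz₂
  have bw₁ : Bd v ρ 3 (-1 / y₁) := by
    unfold Bd; rw [hw₁]; exact pow_le_pow_left' hz₁ 3
  have bw₂ : Bd v ρ 3 (-1 / y₂) := by
    unfold Bd; rw [hw₂]; exact pow_le_pow_left' hz₂ 3
  have bE := bd_slE hW hρ' bz₂ bw₁ bw₂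
  have vD : v (slD W (-x₂ / y₂) (-1 / y₁) (-1 / y₂)) = 1 := by
    unfold slD; exact bE.one_sub hρ (by norm_num)
  have hD : slD W (-x₂ / y₂) (-1 / y₁) (-1 / y₂) ≠ 0 := by
    intro h0; rw [h0, map_zero] at vD; exact zero_ne_one vD
  have bN := bd_slN hW hρ' bz₁ bz₂ bw₁
  set l := slN W (-x₁ / y₁) (-x₂ / y₂) (-1 / y₁) / slD W (-x₂ / y₂) (-1 / y₁) (-1 / y₂) with hldef
  have hl : l * slD W (-x₂ / y₂) (-1 / y₁) (-1 / y₂) = slN W (-x₁ / y₁) (-x₂ / y₂) (-1 / y₁) :=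
    div_mul_cancel₀ _ hD
  have bl : Bd v ρ 2 l := bN.div_unit vD
  have bn : Bd v ρ 3 (-1 / y₁ - l * (-x₁ / y₁)) := bw₁.sub (bl.mul bz₁)
  have vc : v (cf3 W l) = 1 := by
    rw [cf3_eq]; exact (bd_cf3E hW hρ' bl).one_add hρ (by norm_num)
  have hc : cf3 W l ≠ 0 := by
    intro h0; rw [h0, map_zero] at vc; exact zero_ne_one vc
  obtain ⟨hy₃, hz₃, hw₃⟩ := third_point h₁ h₂ hy₁ hy₂ hxy hD hl hc
  have heq := equation_negAdd h₁ h₂ hxy
  set x₃ := W.addX x₁ x₂ (W.slope x₁ x₂ y₁ y₂) with hx₃def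
  set y₃ := W.negAddY x₁ x₂ y₁ (W.slope x₁ x₂ y₁ y₂) with hy₃def
  have bc : Bd v ρ 2 (cf2 W l (-1 / y₁ - l * (-x₁ / y₁)) / cf3 W l) :=
    (bd_cf2 hW hρ' bl bn).div_unit vc
  have bz₃ : Bd v ρ 1 (-x₃ / y₃) := by
    rw [hz₃]
    exact (((bc.mono hρ' (by norm_num)).neg).sub bz₁).sub bz₂
  have bw₃ : Bd v ρ 3 (-1 / y₃) := by
    rw [hw₃]
    exact (bl.mul bz₃).add bn
  have vy₃ : 1 < v y₃ := by
    have h1 : v (-1 / y₃) < 1 := bw₃.lt_one hρ (by norm_num)
    rw [map_div₀, v.map_neg, map_one] at h1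
    have hy0 : 0 < v y₃ := by
      rw [zero_lt_iff]; exact (v.ne_zero_iff).mpr hy₃
    rwa [div_lt_one₀ hy0] at h1
  have vx₃ : 1 < v x₃ := one_lt_val_x hW heq vy₃
  refine ⟨vx₃, ?_⟩
  obtain ⟨-, bneg⟩ := bd_neg hW heq vx₃ bz₃
  have e : -x₃ / W.addY x₁ x₂ y₁ (W.slope x₁ x₂ y₁ y₂) - -x₁ / y₁ - -x₂ / y₂ =
      (-x₃ / W.negY x₃ y₃ + -x₃ / y₃) +
        (cf2 W l (-1 / y₁ - l * (-x₁ / y₁)) / cf3 W l) := by
    rw [hz₃]; unfold addY; ring
  rw [e]
  have := bneg.add bc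
  unfold Bd at this
  exact this

end main

end Fermat.Agent.S05.H245

end
-- ===== PACK-END S05/H245Val.lean

-- ===== PACK-BEGIN S58/H292/CoeffHensel.lean
section


/-!
# S58 leaf COEFF-Hensel (helper292): coefficient rings embed in `ℤ_[lam]` for some `lam`

For the auxiliary prime of the S58 chain (architect helper94, note #8416): a subring of `ℂ`
which is finite over `ℤ` (e.g. `ℤ[α]` for an algebraic integer `α`, or the range of a character
of a Hecke algebra) admits, for every finite set `B` of primes, a prime `lam ∉ B` and an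
INJECTIVE ring homomorphism to `ℤ_[lam]`.

Everything is a corollary of `Fermat.Agent.S48.H368.exists_padicInt_hom`
(Schur + Hensel + primitive element, helper368, on main, Mathlib-only).

* `exists_prime_ringHom_adjoin`  : `Algebra.adjoin ℤ {α} →+* ℤ_[lam]`, `α : ℂ` integral over `ℤ`;
* `exists_prime_ringHom_subring` : `R →+* ℤ_[lam]`, `R : Subring ℂ` finite over `ℤ`;
* `exists_prime_ringHom_range`   : `chi.range →+* ℤ_[lam]`, `chi : H →+* ℂ`, `H` finite over `ℤ`.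
-/

set_option autoImplicit false

namespace Fermat.Agent.S58.H292

/-- **COEFF-Hensel, as requested in note #8416.**  For an algebraic integer `α ∈ ℂ` and a finite
set `B` of primes there are a prime `lam ∉ B` and an (injective) ring homomorphism
`ℤ[α] →+* ℤ_[lam]`. -/
theorem exists_prime_ringHom_adjoin (α : ℂ) (hα : IsIntegral ℤ α) (B : Finset ℕ) :
    ∃ (lam : ℕ) (_ : Fact lam.Prime), lam ∉ B ∧
      ∃ ι : Algebra.adjoin ℤ ({α} : Set ℂ) →+* ℤ_[lam], Function.Injective ι := by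
  have : Module.Finite ℤ (Algebra.adjoin ℤ ({α} : Set ℂ)) :=
    Algebra.finite_adjoin_simple_of_isIntegral hα
  exact Fermat.Agent.S48.H368.exists_padicInt_hom (Algebra.adjoin ℤ ({α} : Set ℂ)) B

/-- The same for any subring of `ℂ` which is finite over `ℤ`. -/
theorem exists_prime_ringHom_subring (R : Subring ℂ) [Module.Finite ℤ R] (B : Finset ℕ) :
    ∃ (lam : ℕ) (_ : Fact lam.Prime), lam ∉ B ∧
      ∃ ι : R →+* ℤ_[lam], Function.Injective ι :=
  Fermat.Agent.S48.H368.exists_padicInt_hom R B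

/-- The range of a complex character of a commutative ring which is finite over `ℤ` is finite
over `ℤ`. -/
theorem moduleFinite_range {H : Type*} [CommRing H] [Module.Finite ℤ H] (chi : H →+* ℂ) :
    Module.Finite ℤ chi.range :=
  Module.Finite.of_surjective chi.rangeRestrict.toIntAlgHom.toLinearMap
    chi.rangeRestrict_surjective

/-- The same for the range of a complex character of a commutative ring which is finite over
`ℤ` (e.g. a Hecke algebra, by S22). -/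
theorem exists_prime_ringHom_range {H : Type*} [CommRing H] [Module.Finite ℤ H] (chi : H →+* ℂ)
    (B : Finset ℕ) :
    ∃ (lam : ℕ) (_ : Fact lam.Prime), lam ∉ B ∧
      ∃ ι : chi.range →+* ℤ_[lam], Function.Injective ι := by
  have := moduleFinite_range chi
  exact Fermat.Agent.S48.H368.exists_padicInt_hom chi.range B

end Fermat.Agent.S58.H292

end
-- ===== PACK-END S58/H292/CoeffHensel.lean

-- ===== PACK-BEGIN S59/TW/H24/LocAct.lean
section


/-!
# Row S59, cell TW, layer 3 (AUT), generic piece LOC-ACT (helper24)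

**From an action of the global Hecke ring to an action of the local Hecke ring.**

Let `𝕋 = CuspForm.heckeAlgebra N 2 S`, `θ : 𝕋 →+* k` (`k` the residue field of the complete
discrete valuation ring `𝒪`), `T = CuspForm.heckeLocal N S 𝒪 θ` and `M` a finite `𝒪`-module with
a ring homomorphism `f : 𝕋 →+* End_𝒪(M)`.

* `Fermat.Agent.S59.TW.H24.exists_algHom_of_injective`: if every `x ∈ 𝒪 ⊗ 𝕋` outside the maximal
  ideal `heckeCharKernel` acts injectively on `M`, the action factors through `T`: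
  there is `a : T →ₐ[𝒪] End_𝒪(M)` with `a (π t) = f t`.  (No finiteness of `M` needed.)
* `Fermat.Agent.S59.TW.H24.exists_algHom_of_nilp`: the same conclusion if `M` is finite over `𝒪`
  and every GENERATOR `t` of `𝕋` (the `T_ℓ`, `U_q` of `CuspForm.heckeGenerators`) satisfies
  `(f t - c)^m M ⊆ 𝔪_𝒪 M` for some lift `c ∈ 𝒪` of `θ t` and some `m`.
  This is the shape produced by a localisation `V = e X` of a Betti module at the maximal ideal
  `(𝔪_𝒪, T_ℓ - c_ℓ)` (leaves MOD0 / MODQ of `TW/Aut/Spec.lean`).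
* `Fermat.Agent.S59.TW.H24.bijective_tensorAct`: under the same hypothesis every `x ∉ 𝔫` acts
  bijectively on `M`.

Commutative algebra only (Nakayama, `B → T` surjective [helper7]).
-/

set_option autoImplicit false
set_option synthInstance.maxHeartbeats 400000
set_option maxHeartbeats 1000000
set_option linter.unusedSectionVars false

noncomputable section

namespace Fermat.Agent.S59.TW.H24

open CuspForm IsLocalRing
open scoped TensorProduct

variable (N : ℕ) [NeZero N] (S : Set ℕ)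
variable (𝒪 : Type) [CommRing 𝒪] [IsDomain 𝒪] [IsDiscreteValuationRing 𝒪]
  [IsAdicComplete (IsLocalRing.maximalIdeal 𝒪) 𝒪]
variable (θ : heckeAlgebra N 2 S →+* IsLocalRing.ResidueField 𝒪)
variable {M : Type*} [AddCommGroup M] [Module 𝒪 M]

/-- The action of `𝒪 ⊗ 𝕋` on `M` induced by `f : 𝕋 →+* End_𝒪(M)`. -/
def tensorAct (f : heckeAlgebra N 2 S →+* Module.End 𝒪 M) :
    (𝒪 ⊗[ℤ] ↥(heckeAlgebra N 2 S)) →ₐ[𝒪] Module.End 𝒪 M :=
  Algebra.TensorProduct.lift (Algebra.ofId 𝒪 (Module.End 𝒪 M)) f.toIntAlgHom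
    (fun a t => Algebra.commutes a (f t))

theorem tensorAct_tmul (f : heckeAlgebra N 2 S →+* Module.End 𝒪 M) (a : 𝒪)
    (t : ↥(heckeAlgebra N 2 S)) :
    tensorAct N S 𝒪 f (a ⊗ₜ[ℤ] t) = a • f t := by
  rw [tensorAct, Algebra.TensorProduct.lift_tmul]
  change algebraMap 𝒪 (Module.End 𝒪 M) a * f t = a • f t
  rw [Algebra.smul_def]

theorem tensorAct_one_tmul (f : heckeAlgebra N 2 S →+* Module.End 𝒪 M)
    (t : ↥(heckeAlgebra N 2 S)) :
    tensorAct N S 𝒪 f ((1 : 𝒪) ⊗ₜ[ℤ] t) = f t := by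
  rw [tensorAct_tmul, one_smul]

/-! ## The map `𝒪 ⊗ 𝕋 → T` -/

section Factor

variable [Fact (HasIntegralStructure N 2)]

/-- `𝒪 ⊗ 𝕋 → T` as an `𝒪`-algebra map. -/
def toLocal : (𝒪 ⊗[ℤ] ↥(heckeAlgebra N 2 S)) →ₐ[𝒪] heckeLocal N S 𝒪 θ :=
  { (algebraMap (heckeBaseAlgebra N S 𝒪) (heckeLocal N S 𝒪 θ)).comp (latticeBaseChange N S 𝒪) with
    commutes' := fun a => (Fermat.Agent.S59.H7.algebraMap_eq N S 𝒪 θ a).symm }

theorem toLocal_apply (x : 𝒪 ⊗[ℤ] ↥(heckeAlgebra N 2 S)) :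
    toLocal N S 𝒪 θ x =
      algebraMap (heckeBaseAlgebra N S 𝒪) (heckeLocal N S 𝒪 θ) (latticeBaseChange N S 𝒪 x) := rfl

theorem toLocal_one_tmul (t : ↥(heckeAlgebra N 2 S)) :
    toLocal N S 𝒪 θ ((1 : 𝒪) ⊗ₜ[ℤ] t) = heckeLocal.π N S 𝒪 θ t := rfl

theorem toLocal_surjective : Function.Surjective (toLocal N S 𝒪 θ) := fun z => by
  obtain ⟨b, rfl⟩ := Fermat.Agent.S59.H7.algebraMap_base_surjective N S 𝒪 θ z
  obtain ⟨x, rfl⟩ := latticeBaseChange_surjective N S 𝒪 b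
  exact ⟨x, rfl⟩

/-- The kernel of `𝒪 ⊗ 𝕋 → T` is killed by elements outside the maximal ideal. -/
theorem exists_mul_eq_zero_of_toLocal_eq_zero {x : 𝒪 ⊗[ℤ] ↥(heckeAlgebra N 2 S)}
    (hx : toLocal N S 𝒪 θ x = 0) :
    ∃ s : 𝒪 ⊗[ℤ] ↥(heckeAlgebra N 2 S), s ∉ heckeCharKernel N S 𝒪 θ ∧ s * x = 0 := by
  rw [toLocal_apply, IsLocalization.map_eq_zero_iff (heckeLocalSubmonoid N S 𝒪 θ)] at hx
  obtain ⟨⟨m, s, hs, rfl⟩, hm⟩ := hx
  refine ⟨s, Ideal.mem_primeCompl_iff.mp hs, ?_⟩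
  apply latticeBaseChange_injective N S 𝒪 Fact.out
  rw [map_mul, map_zero]
  exact hm

/-- **LOC-ACT, injective form.**  If every element of `𝒪 ⊗ 𝕋` outside the maximal ideal of `θ` acts
injectively on `M`, the action of `𝕋` on `M` extends to the local Hecke ring `T`. -/
theorem exists_algHom_of_injective (f : heckeAlgebra N 2 S →+* Module.End 𝒪 M)
    (hinj : ∀ s : 𝒪 ⊗[ℤ] ↥(heckeAlgebra N 2 S), s ∉ heckeCharKernel N S 𝒪 θ →
      Function.Injective (tensorAct N S 𝒪 f s)) :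
    ∃ a : heckeLocal N S 𝒪 θ →ₐ[𝒪] Module.End 𝒪 M,
      (∀ x, a (toLocal N S 𝒪 θ x) = tensorAct N S 𝒪 f x) ∧
      ∀ t, a (heckeLocal.π N S 𝒪 θ t) = f t := by
  have H : ∀ x ∈ RingHom.ker (toLocal N S 𝒪 θ), tensorAct N S 𝒪 f x = 0 := by
    intro x hx
    obtain ⟨s, hs, hsx⟩ := exists_mul_eq_zero_of_toLocal_eq_zero N S 𝒪 θ (RingHom.mem_ker.mp hx)
    have h1 : tensorAct N S 𝒪 f s * tensorAct N S 𝒪 f x = 0 := by
      rw [← map_mul, hsx, map_zero]
    refine LinearMap.ext fun y => hinj s hs ?_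
    have h2 := congrArg (fun φ : Module.End 𝒪 M => φ y) h1
    rw [LinearMap.zero_apply, map_zero]
    exact h2
  have hmain : ∃ a : heckeLocal N S 𝒪 θ →ₐ[𝒪] Module.End 𝒪 M,
      ∀ x, a (toLocal N S 𝒪 θ x) = tensorAct N S 𝒪 f x := by
    refine ⟨(Ideal.Quotient.liftₐ (RingHom.ker (toLocal N S 𝒪 θ)) (tensorAct N S 𝒪 f) H).comp
      (Ideal.quotientKerAlgEquivOfSurjective (toLocal_surjective N S 𝒪 θ)).symm.toAlgHom,
      fun x => ?_⟩
    rw [AlgHom.comp_apply]
    have h3 : (Ideal.quotientKerAlgEquivOfSurjective (toLocal_surjective N S 𝒪 θ)).symm.toAlgHom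
        (toLocal N S 𝒪 θ x) = Ideal.Quotient.mk _ x :=
      Ideal.quotientKerAlgEquivOfSurjective_symm_apply (toLocal_surjective N S 𝒪 θ) x
    rw [h3]
    rfl
  obtain ⟨a, ha⟩ := hmain
  refine ⟨a, ha, fun t => ?_⟩
  rw [← toLocal_one_tmul, ha, tensorAct_one_tmul]

end Factor

/-! ## Generators of the maximal ideal of `θ` -/

section Span

omit [IsAdicComplete (IsLocalRing.maximalIdeal 𝒪) 𝒪]

/-- The maximal ideal `heckeCharKernel` of `𝒪 ⊗ 𝕋` is generated by `𝔪_𝒪` and by the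
`1 ⊗ t - c ⊗ 1`, `t` a generator of `𝕋`, `c` a lift of `θ t` (one lift for each generator is
enough; `P` is a side condition on the lifts). -/
theorem heckeCharKernel_le_span (P : ↥(heckeAlgebra N 2 S) → 𝒪 → Prop)
    (hP : ∀ t : ↥(heckeAlgebra N 2 S),
      (t : Module.End ℂ (CuspForm (CongruenceSubgroup.Gamma0 N) 2)) ∈ heckeGenerators N 2 S →
      ∃ c : 𝒪, residue 𝒪 c = θ t ∧ P t c) :
    heckeCharKernel N S 𝒪 θ ≤ Ideal.span
      ({x | ∃ a ∈ maximalIdeal 𝒪, x = a ⊗ₜ[ℤ] (1 : ↥(heckeAlgebra N 2 S))} ∪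
       {x | ∃ (t : ↥(heckeAlgebra N 2 S)) (c : 𝒪), residue 𝒪 c = θ t ∧ P t c ∧
          x = (1 : 𝒪) ⊗ₜ[ℤ] t - c ⊗ₜ[ℤ] (1 : ↥(heckeAlgebra N 2 S))}) := by
  set I₀ : Ideal (𝒪 ⊗[ℤ] ↥(heckeAlgebra N 2 S)) := Ideal.span
      ({x | ∃ a ∈ maximalIdeal 𝒪, x = a ⊗ₜ[ℤ] (1 : ↥(heckeAlgebra N 2 S))} ∪
       {x | ∃ (t : ↥(heckeAlgebra N 2 S)) (c : 𝒪), residue 𝒪 c = θ t ∧ P t c ∧
          x = (1 : 𝒪) ⊗ₜ[ℤ] t - c ⊗ₜ[ℤ] (1 : ↥(heckeAlgebra N 2 S))}) with hI₀
  -- Step 0: `I₀ ≤ 𝔫`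
  have h0 : I₀ ≤ heckeCharKernel N S 𝒪 θ := by
    refine Ideal.span_le.mpr ?_
    rintro x (⟨a, ha, rfl⟩ | ⟨t, c, hc, -, rfl⟩)
    · change a ⊗ₜ[ℤ] (1 : ↥(heckeAlgebra N 2 S)) ∈ heckeCharKernel N S 𝒪 θ
      rw [mem_heckeCharKernel_iff, residualCharacter_tmul, map_one, mul_one,
        IsLocalRing.residue_eq_zero_iff]
      exact ha
    · change (1 : 𝒪) ⊗ₜ[ℤ] t - c ⊗ₜ[ℤ] (1 : ↥(heckeAlgebra N 2 S)) ∈ heckeCharKernel N S 𝒪 θ
      rw [mem_heckeCharKernel_iff, map_sub, residualCharacter_tmul, residualCharacter_tmul,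
        map_one, map_one, one_mul, mul_one, hc, sub_self]
  -- Step 1: every `1 ⊗ t` is congruent to a constant modulo `I₀`
  have h1 : ∀ (x : Module.End ℂ (CuspForm (CongruenceSubgroup.Gamma0 N) 2))
      (hx : x ∈ Algebra.adjoin ℤ (heckeGenerators N 2 S)),
      ∃ c : 𝒪, (1 : 𝒪) ⊗ₜ[ℤ] (⟨x, hx⟩ : ↥(heckeAlgebra N 2 S)) -
        c ⊗ₜ[ℤ] (1 : ↥(heckeAlgebra N 2 S)) ∈ I₀ := by
    intro x hx
    induction hx using Algebra.adjoin_induction with
    | mem x hx =>
      obtain ⟨c, hc, hPc⟩ := hP ⟨x, Algebra.subset_adjoin hx⟩ hx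
      exact ⟨c, Ideal.subset_span (Or.inr ⟨_, c, hc, hPc, rfl⟩)⟩
    | algebraMap r =>
      refine ⟨(r : 𝒪), ?_⟩
      have h : (1 : 𝒪) ⊗ₜ[ℤ] (⟨algebraMap ℤ _ r, Subalgebra.algebraMap_mem _ r⟩ :
          ↥(heckeAlgebra N 2 S)) = (r : 𝒪) ⊗ₜ[ℤ] (1 : ↥(heckeAlgebra N 2 S)) := by
        have e1 : (⟨algebraMap ℤ _ r, Subalgebra.algebraMap_mem _ r⟩ : ↥(heckeAlgebra N 2 S)) =
            r • (1 : ↥(heckeAlgebra N 2 S)) := by
          apply Subtype.ext
          change algebraMap ℤ (Module.End ℂ (CuspForm (CongruenceSubgroup.Gamma0 N) 2)) r =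
            r • (1 : Module.End ℂ (CuspForm (CongruenceSubgroup.Gamma0 N) 2))
          exact Algebra.algebraMap_eq_smul_one r
        have e2 : ((r : 𝒪)) = r • (1 : 𝒪) := by simp
        rw [e1, e2, TensorProduct.tmul_smul, TensorProduct.smul_tmul']
      rw [h, sub_self]
      exact Ideal.zero_mem _
    | add x y hx hy ihx ihy =>
      obtain ⟨c, hc⟩ := ihx
      obtain ⟨d, hd⟩ := ihy
      refine ⟨c + d, ?_⟩
      have h : (1 : 𝒪) ⊗ₜ[ℤ] (⟨x + y, Subalgebra.add_mem _ hx hy⟩ : ↥(heckeAlgebra N 2 S)) -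
          (c + d) ⊗ₜ[ℤ] (1 : ↥(heckeAlgebra N 2 S)) =
          ((1 : 𝒪) ⊗ₜ[ℤ] (⟨x, hx⟩ : ↥(heckeAlgebra N 2 S)) -
            c ⊗ₜ[ℤ] (1 : ↥(heckeAlgebra N 2 S))) +
          ((1 : 𝒪) ⊗ₜ[ℤ] (⟨y, hy⟩ : ↥(heckeAlgebra N 2 S)) -
            d ⊗ₜ[ℤ] (1 : ↥(heckeAlgebra N 2 S))) := by
        have e1 : (⟨x + y, Subalgebra.add_mem _ hx hy⟩ : ↥(heckeAlgebra N 2 S)) =
            (⟨x, hx⟩ : ↥(heckeAlgebra N 2 S)) + ⟨y, hy⟩ := rfl
        rw [e1, TensorProduct.tmul_add, TensorProduct.add_tmul]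
        abel
      rw [h]
      exact Ideal.add_mem _ hc hd
    | mul x y hx hy ihx ihy =>
      obtain ⟨c, hc⟩ := ihx
      obtain ⟨d, hd⟩ := ihy
      refine ⟨c * d, ?_⟩
      have h : (1 : 𝒪) ⊗ₜ[ℤ] (⟨x * y, Subalgebra.mul_mem _ hx hy⟩ : ↥(heckeAlgebra N 2 S)) -
          (c * d) ⊗ₜ[ℤ] (1 : ↥(heckeAlgebra N 2 S)) =
          ((1 : 𝒪) ⊗ₜ[ℤ] (⟨x, hx⟩ : ↥(heckeAlgebra N 2 S)) -
            c ⊗ₜ[ℤ] (1 : ↥(heckeAlgebra N 2 S))) *
            ((1 : 𝒪) ⊗ₜ[ℤ] (⟨y, hy⟩ : ↥(heckeAlgebra N 2 S))) +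
          (c ⊗ₜ[ℤ] (1 : ↥(heckeAlgebra N 2 S))) *
          ((1 : 𝒪) ⊗ₜ[ℤ] (⟨y, hy⟩ : ↥(heckeAlgebra N 2 S)) -
            d ⊗ₜ[ℤ] (1 : ↥(heckeAlgebra N 2 S))) := by
        have e1 : (⟨x * y, Subalgebra.mul_mem _ hx hy⟩ : ↥(heckeAlgebra N 2 S)) =
            (⟨x, hx⟩ : ↥(heckeAlgebra N 2 S)) * ⟨y, hy⟩ := rfl
        rw [e1, sub_mul, mul_sub]
        simp only [Algebra.TensorProduct.tmul_mul_tmul, one_mul, mul_one]
        abel
      rw [h]
      exact Ideal.add_mem _ (Ideal.mul_mem_right _ _ hc) (Ideal.mul_mem_left _ _ hd)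
  -- Step 2: every `x` is congruent to a constant modulo `I₀`
  have h2 : ∀ x : 𝒪 ⊗[ℤ] ↥(heckeAlgebra N 2 S),
      ∃ c : 𝒪, x - c ⊗ₜ[ℤ] (1 : ↥(heckeAlgebra N 2 S)) ∈ I₀ := by
    intro x
    induction x using TensorProduct.induction_on with
    | zero => exact ⟨0, by rw [TensorProduct.zero_tmul, sub_zero]; exact Ideal.zero_mem _⟩
    | tmul a t =>
      obtain ⟨c, hc⟩ := h1 t.1 t.2
      refine ⟨a * c, ?_⟩
      have h : a ⊗ₜ[ℤ] t - (a * c) ⊗ₜ[ℤ] (1 : ↥(heckeAlgebra N 2 S)) =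
          (a ⊗ₜ[ℤ] (1 : ↥(heckeAlgebra N 2 S))) *
            ((1 : 𝒪) ⊗ₜ[ℤ] (⟨t.1, t.2⟩ : ↥(heckeAlgebra N 2 S)) -
              c ⊗ₜ[ℤ] (1 : ↥(heckeAlgebra N 2 S))) := by
        rw [mul_sub]
        simp only [Algebra.TensorProduct.tmul_mul_tmul, one_mul, mul_one]
      rw [h]
      exact Ideal.mul_mem_left _ _ hc
    | add x y hx hy =>
      obtain ⟨c, hc⟩ := hx
      obtain ⟨d, hd⟩ := hy
      refine ⟨c + d, ?_⟩
      have h : x + y - (c + d) ⊗ₜ[ℤ] (1 : ↥(heckeAlgebra N 2 S)) =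
          (x - c ⊗ₜ[ℤ] (1 : ↥(heckeAlgebra N 2 S))) +
            (y - d ⊗ₜ[ℤ] (1 : ↥(heckeAlgebra N 2 S))) := by
        rw [TensorProduct.add_tmul]
        abel
      rw [h]
      exact Ideal.add_mem _ hc hd
  -- Step 3
  intro x hx
  obtain ⟨c, hc⟩ := h2 x
  have h3 : c ⊗ₜ[ℤ] (1 : ↥(heckeAlgebra N 2 S)) ∈ heckeCharKernel N S 𝒪 θ := by
    have := Ideal.sub_mem _ hx (h0 hc)
    rwa [sub_sub_cancel] at this
  have h4 : c ∈ maximalIdeal 𝒪 := by
    rw [mem_heckeCharKernel_iff, residualCharacter_tmul, map_one, mul_one,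
      IsLocalRing.residue_eq_zero_iff] at h3
    exact h3
  have h5 : c ⊗ₜ[ℤ] (1 : ↥(heckeAlgebra N 2 S)) ∈ I₀ :=
    Ideal.subset_span (Or.inl ⟨c, h4, rfl⟩)
  have := Ideal.add_mem _ hc h5
  rwa [sub_add_cancel] at this

end Span

/-! ## The nilpotent form -/

section Nilp

/-- The hypothesis of LOC-ACT: every generator `t` of `𝕋` has a lift `c ∈ 𝒪` of `θ t` such that
`(f t - c)^m M ⊆ 𝔪_𝒪 M` for some `m`. -/
def IsNilpAct (f : heckeAlgebra N 2 S →+* Module.End 𝒪 M) : Prop :=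
  ∀ t : ↥(heckeAlgebra N 2 S),
    (t : Module.End ℂ (CuspForm (CongruenceSubgroup.Gamma0 N) 2)) ∈ heckeGenerators N 2 S →
    ∃ c : 𝒪, residue 𝒪 c = θ t ∧ ∃ m : ℕ, ∀ y : M,
      ((f t - algebraMap 𝒪 (Module.End 𝒪 M) c) ^ m) y ∈
        (maximalIdeal 𝒪 • ⊤ : Submodule 𝒪 M)

/-- The ideal of the `x ∈ 𝒪 ⊗ 𝕋` which map `M` into `𝔪_𝒪 M`. -/
def actIdeal (f : heckeAlgebra N 2 S →+* Module.End 𝒪 M) :
    Ideal (𝒪 ⊗[ℤ] ↥(heckeAlgebra N 2 S)) where
  carrier := {x | ∀ y : M, tensorAct N S 𝒪 f x y ∈ (maximalIdeal 𝒪 • ⊤ : Submodule 𝒪 M)}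
  add_mem' := fun {x x'} hx hx' y => by
    rw [map_add, LinearMap.add_apply]
    exact Submodule.add_mem _ (hx y) (hx' y)
  zero_mem' := fun y => by
    rw [map_zero, LinearMap.zero_apply]
    exact Submodule.zero_mem _
  smul_mem' := fun r x hx y => by
    rw [smul_eq_mul, mul_comm, map_mul, Module.End.mul_apply]
    exact hx _

theorem mem_actIdeal (f : heckeAlgebra N 2 S →+* Module.End 𝒪 M)
    (x : 𝒪 ⊗[ℤ] ↥(heckeAlgebra N 2 S)) :
    x ∈ actIdeal N S 𝒪 f ↔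
      ∀ y : M, tensorAct N S 𝒪 f x y ∈ (maximalIdeal 𝒪 • ⊤ : Submodule 𝒪 M) := Iff.rfl

/-- The maximal ideal of `θ` acts nilpotently on `M / 𝔪_𝒪 M`. -/
theorem heckeCharKernel_le_radical (f : heckeAlgebra N 2 S →+* Module.End 𝒪 M)
    (hnil : IsNilpAct N S 𝒪 θ f) :
    heckeCharKernel N S 𝒪 θ ≤ (actIdeal N S 𝒪 f).radical := by
  refine (heckeCharKernel_le_span N S 𝒪 θ
    (fun t c => ∃ m : ℕ, ∀ y : M, ((f t - algebraMap 𝒪 (Module.End 𝒪 M) c) ^ m) y ∈
        (maximalIdeal 𝒪 • ⊤ : Submodule 𝒪 M)) hnil).trans (Ideal.span_le.mpr ?_)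
  rintro x (⟨a, ha, rfl⟩ | ⟨t, c, -, ⟨m, hm⟩, rfl⟩)
  · refine Ideal.le_radical ?_
    intro y
    rw [tensorAct_tmul, LinearMap.smul_apply]
    exact Submodule.smul_mem_smul ha Submodule.mem_top
  · refine ⟨m, ?_⟩
    intro y
    have h : tensorAct N S 𝒪 f (((1 : 𝒪) ⊗ₜ[ℤ] t - c ⊗ₜ[ℤ] (1 : ↥(heckeAlgebra N 2 S))) ^ m) =
        (f t - algebraMap 𝒪 (Module.End 𝒪 M) c) ^ m := by
      rw [map_pow, map_sub, tensorAct_tmul, tensorAct_tmul, one_smul, map_one,
        Algebra.algebraMap_eq_smul_one]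
    rw [h]
    exact hm y

variable [Module.Finite 𝒪 M]

/-- **LOC-UNIT.**  Every element outside the maximal ideal of `θ` acts bijectively on `M`. -/
theorem bijective_tensorAct (f : heckeAlgebra N 2 S →+* Module.End 𝒪 M)
    (hnil : IsNilpAct N S 𝒪 θ f) (s : 𝒪 ⊗[ℤ] ↥(heckeAlgebra N 2 S))
    (hs : s ∉ heckeCharKernel N S 𝒪 θ) :
    Function.Bijective (tensorAct N S 𝒪 f s) := by
  obtain ⟨r, i, hi, hri⟩ := (heckeCharKernel.instIsMaximal N S 𝒪 θ).exists_inv hs
  obtain ⟨m, hm⟩ := heckeCharKernel_le_radical N S 𝒪 θ f hnil hi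
  -- `i ^ m = 1 - s * q`
  obtain ⟨q, hq⟩ : (1 - i) ∣ 1 ^ m - i ^ m := sub_dvd_pow_sub_pow 1 i m
  have h1i : 1 - i = r * s := by rw [← hri]; ring
  have hone : (1 : 𝒪 ⊗[ℤ] ↥(heckeAlgebra N 2 S)) = s * (r * q) + i ^ m := by
    have : (1 : 𝒪 ⊗[ℤ] ↥(heckeAlgebra N 2 S)) = (1 ^ m - i ^ m) + i ^ m := by ring
    rw [this, hq, h1i]
    ring
  have hsurj : Function.Surjective (tensorAct N S 𝒪 f s) := by
    have hle : (⊤ : Submodule 𝒪 M) ≤
        LinearMap.range (tensorAct N S 𝒪 f s) ⊔ maximalIdeal 𝒪 • (⊤ : Submodule 𝒪 M) := by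
      intro y _
      have hy : y = tensorAct N S 𝒪 f s (tensorAct N S 𝒪 f (r * q) y) +
          tensorAct N S 𝒪 f (i ^ m) y := by
        have := congrArg (fun z => tensorAct N S 𝒪 f z y) hone
        simp only [map_one, Module.End.one_apply, map_add, map_mul, LinearMap.add_apply,
          Module.End.mul_apply] at this
        simpa using this
      rw [hy]
      exact Submodule.add_mem_sup (LinearMap.mem_range_self _ _) (hm y)
    have htop : (⊤ : Submodule 𝒪 M) ≤ LinearMap.range (tensorAct N S 𝒪 f s) :=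
      Submodule.le_of_le_smul_of_le_jacobson_bot Module.Finite.fg_top
        (IsLocalRing.maximalIdeal_le_jacobson ⊥) hle
    exact LinearMap.range_eq_top.mp (top_le_iff.mp htop)
  exact OrzechProperty.bijective_of_surjective_endomorphism _ hsurj

variable [Fact (HasIntegralStructure N 2)]

/-- **LOC-ACT, nilpotent form.**  Let `M` be a finite `𝒪`-module with an action `f` of the Hecke
ring `𝕋 = heckeAlgebra N 2 S` such that every generator `t` of `𝕋` satisfies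
`(f t - c)^m M ⊆ 𝔪_𝒪 M` for a lift `c` of `θ t`.  Then the action extends to the local Hecke ring
`T = heckeLocal N S 𝒪 θ`: there is an `𝒪`-algebra map `a : T → End_𝒪(M)` with `a (π t) = f t`. -/
theorem exists_algHom_of_nilp (f : heckeAlgebra N 2 S →+* Module.End 𝒪 M)
    (hnil : IsNilpAct N S 𝒪 θ f) :
    ∃ a : heckeLocal N S 𝒪 θ →ₐ[𝒪] Module.End 𝒪 M,
      (∀ x, a (toLocal N S 𝒪 θ x) = tensorAct N S 𝒪 f x) ∧
      ∀ t, a (heckeLocal.π N S 𝒪 θ t) = f t :=
  exists_algHom_of_injective N S 𝒪 θ f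
    (fun s hs => (bijective_tensorAct N S 𝒪 θ f hnil s hs).1)

/-- `IsNilpAct` when all the primes dividing the level are in `S` (no `U_q` among the
generators): it is enough to treat the `T_ℓ`. -/
theorem isNilpAct_of_T (f : heckeAlgebra N 2 S →+* Module.End 𝒪 M)
    (hNS : ∀ q : ℕ, q.Prime → q ∣ N → q ∈ S)
    (hT : ∀ (ℓ : ℕ) (hℓ : ℓ.Prime) (hℓN : ¬ ℓ ∣ N) (hℓS : ℓ ∉ S),
      ∃ c : 𝒪, residue 𝒪 c = θ (heckeAlgebra.T hℓ hℓN hℓS) ∧ ∃ m : ℕ, ∀ y : M,
        ((f (heckeAlgebra.T hℓ hℓN hℓS) - algebraMap 𝒪 (Module.End 𝒪 M) c) ^ m) y ∈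
          (maximalIdeal 𝒪 • ⊤ : Submodule 𝒪 M)) :
    IsNilpAct N S 𝒪 θ f := by
  rintro t (⟨ℓ, hℓ, hℓN, hℓS, ht⟩ | ⟨q, hqN, hq, hqS, -⟩)
  · have e : t = heckeAlgebra.T hℓ hℓN hℓS := Subtype.ext ht
    rw [e]
    exact hT ℓ hℓ hℓN hℓS
  · exact absurd (hNS q hq hqN) hqS

/-- **LOC-ACT, `T_ℓ` form.** -/
theorem exists_algHom_of_nilp_T (f : heckeAlgebra N 2 S →+* Module.End 𝒪 M)
    (hNS : ∀ q : ℕ, q.Prime → q ∣ N → q ∈ S)
    (hT : ∀ (ℓ : ℕ) (hℓ : ℓ.Prime) (hℓN : ¬ ℓ ∣ N) (hℓS : ℓ ∉ S),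
      ∃ c : 𝒪, residue 𝒪 c = θ (heckeAlgebra.T hℓ hℓN hℓS) ∧ ∃ m : ℕ, ∀ y : M,
        ((f (heckeAlgebra.T hℓ hℓN hℓS) - algebraMap 𝒪 (Module.End 𝒪 M) c) ^ m) y ∈
          (maximalIdeal 𝒪 • ⊤ : Submodule 𝒪 M)) :
    ∃ a : heckeLocal N S 𝒪 θ →ₐ[𝒪] Module.End 𝒪 M,
      ∀ t, a (heckeLocal.π N S 𝒪 θ t) = f t := by
  obtain ⟨a, -, ha⟩ := exists_algHom_of_nilp N S 𝒪 θ f (isNilpAct_of_T N S 𝒪 θ f hNS hT)
  exact ⟨a, ha⟩

end Nilp

/-! ## From a direct summand `V = e X` of an ambient module -/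

section Summand

variable {𝒪' : Type*} [CommRing 𝒪'] {X : Type*} [AddCommGroup X] [Module 𝒪' X]

/-- If `V` is the image of a projector of `X`, then `V ∩ I X = I V`. -/
theorem mem_smul_top_of_coe_mem (I : Ideal 𝒪') (V : Submodule 𝒪' X) (e : X →ₗ[𝒪'] X)
    (he_mem : ∀ x, e x ∈ V) (he_id : ∀ x ∈ V, e x = x) (z : V)
    (hz : (z : X) ∈ (I • ⊤ : Submodule 𝒪' X)) : z ∈ (I • ⊤ : Submodule 𝒪' V) := by
  have h1 : (I • ⊤ : Submodule 𝒪' X).map (e.codRestrict V he_mem) ≤ (I • ⊤ : Submodule 𝒪' V) := by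
    rw [Submodule.map_smul'']
    exact Submodule.smul_mono le_rfl le_top
  have h2 : e.codRestrict V he_mem (z : X) = z := Subtype.ext (he_id _ z.2)
  rw [← h2]
  exact h1 (Submodule.mem_map_of_mem hz)

/-- Translation of the nilpotency condition of a localisation `V = e X ⊆ X` (stated with iterates
of the operator `y ↦ τ y - c y` of the ambient module and with `𝔪 X`) into the hypothesis of
`exists_algHom_of_nilp` (powers in `End(V)` and `𝔪 V`). -/
theorem pow_apply_mem_of_iterate (I : Ideal 𝒪') (V : Submodule 𝒪' X) (e : X →ₗ[𝒪'] X)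
    (he_mem : ∀ x, e x ∈ V) (he_id : ∀ x ∈ V, e x = x)
    (φ : Module.End 𝒪' V) (τ : X → X) (c : 𝒪') (hφ : ∀ v : V, ((φ v : V) : X) = τ v) (m : ℕ)
    (hm : ∀ x ∈ V, (fun y => τ y - c • y)^[m] x ∈ (I • ⊤ : Submodule 𝒪' X)) (v : V) :
    ((φ - algebraMap 𝒪' (Module.End 𝒪' V) c) ^ m) v ∈ (I • ⊤ : Submodule 𝒪' V) := by
  have key : ∀ (k : ℕ) (w : V),
      ((((φ - algebraMap 𝒪' (Module.End 𝒪' V) c) ^ k) w : V) : X) =
        (fun y => τ y - c • y)^[k] w := by
    intro k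
    induction k with
    | zero => intro w; rfl
    | succ k ih =>
      intro w
      rw [pow_succ, Module.End.mul_apply, ih, Function.iterate_succ_apply]
      congr 1
      rw [LinearMap.sub_apply, Submodule.coe_sub, hφ, Module.algebraMap_end_apply,
        Submodule.coe_smul]
  refine mem_smul_top_of_coe_mem I V e he_mem he_id _ ?_
  rw [key]
  exact hm v v.2

end Summand

end Fermat.Agent.S59.TW.H24

end
end
-- ===== PACK-END S59/TW/H24/LocAct.lean

-- ===== PACK-BEGIN S59/H649/KummerCore.lean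
section



/-!
# The Kummer computation behind "très ramifié ⟹ strict" (helper649)

`Ω / K` Galois, `H` a subgroup of `Gal(Ω/K)`, `σ` normalising `H`, `R` a commutative ring killed
by `m`, `c : Gal → R` an upper right matrix entry (a cocycle on `H` twisted by the cyclotomic
exponent `e`), `x, z, cσ` the entries of `σ`.  For additive characters `Λ, Λ₀ : R → Ω` with
`Λ ((x - a z) t) = Λ₀ t` there is `y ≠ 0` such that `W = (σ⁻¹ y / y) ^ a · Λ cσ` is a Kummer
generator of `γ ↦ Λ₀ (c γ)` on `H`.  Mathlib only.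
-/

set_option autoImplicit false
set_option linter.unusedSectionVars false

namespace Fermat.Agent.S59.H649

section AddCharFun

variable {R : Type*} [CommRing R] {Ω : Type*} [Field Ω] (Λ : R → Ω)

theorem charFun_ne_zero (hΛ0 : Λ 0 = 1) (hΛ : ∀ s t, Λ (s + t) = Λ s * Λ t) (t : R) :
    Λ t ≠ 0 := by
  intro h
  have := hΛ t (-t)
  rw [add_neg_cancel, hΛ0, h, zero_mul] at this
  exact one_ne_zero this

theorem charFun_nsmul (hΛ0 : Λ 0 = 1) (hΛ : ∀ s t, Λ (s + t) = Λ s * Λ t) (k : ℕ) (t : R) :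
    Λ ((k : R) * t) = Λ t ^ k := by
  induction k with
  | zero => rw [Nat.cast_zero, zero_mul, hΛ0, pow_zero]
  | succ k ih => rw [Nat.cast_succ, add_mul, one_mul, hΛ, ih, pow_succ]

theorem charFun_pow_eq_one (hΛ0 : Λ 0 = 1) (hΛ : ∀ s t, Λ (s + t) = Λ s * Λ t) {m : ℕ}
    (hm : (m : R) = 0) (t : R) : Λ t ^ m = 1 := by
  rw [← charFun_nsmul Λ hΛ0 hΛ, hm, zero_mul, hΛ0]

theorem charFun_sub (hΛ0 : Λ 0 = 1) (hΛ : ∀ s t, Λ (s + t) = Λ s * Λ t) (s t : R) :
    Λ (s - t) = Λ s / Λ t := by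
  rw [eq_div_iff (charFun_ne_zero Λ hΛ0 hΛ t), ← hΛ, sub_add_cancel]

end AddCharFun

/-- `σ⁻¹` acts on `m`-th roots of unity by the inverse exponent. -/
theorem inv_apply_pow_h649 {K Ω : Type*} [Field K] [Field Ω] [Algebra K Ω]
    (σ : Ω ≃ₐ[K] Ω) {m a : ℕ} (hσ : ∀ μ : Ω, μ ^ m = 1 → σ μ = μ ^ a) {μ : Ω}
    (hμ : μ ^ m = 1) : (σ⁻¹ μ) ^ a = μ := by
  have h1 : (σ⁻¹ μ) ^ m = 1 := by rw [← map_pow, hμ, map_one]
  have h2 := hσ _ h1
  rw [← h2]
  show σ (σ.symm μ) = μ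
  exact σ.apply_symm_apply μ

/-- **The Kummer computation.** -/
theorem kummer_core_h649 {K Ω : Type*} [Field K] [Field Ω] [Algebra K Ω] [IsGalois K Ω]
    (H : Subgroup (Ω ≃ₐ[K] Ω)) (σ : Ω ≃ₐ[K] Ω) (hconj : ∀ γ ∈ H, σ * γ * σ⁻¹ ∈ H)
    {R : Type*} [CommRing R] (m a : ℕ) (hm : (m : R) = 0)
    (hσ : ∀ μ : Ω, μ ^ m = 1 → σ μ = μ ^ a)
    (e : (Ω ≃ₐ[K] Ω) → ℕ) (he : ∀ γ, ∀ μ : Ω, μ ^ m = 1 → γ μ = μ ^ (e γ))
    (c : (Ω ≃ₐ[K] Ω) → R) (x z cσ : R)
    (hc : ∀ γ ∈ H, ∀ γ' ∈ H, c (γ * γ') = (e γ : R) * c γ' + c γ)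
    (E : IntermediateField K Ω) [FiniteDimensional K E]
    (hlev : ∀ τ ∈ H, (∀ x ∈ E, τ x = x) → c τ = 0)
    (hcj : ∀ γ ∈ H, z * c (σ * γ * σ⁻¹) = x * c γ + (1 - (e γ : R)) * cσ)
    (Λ Λ₀ : R → Ω) (hΛ0 : Λ 0 = 1) (hΛ : ∀ s t, Λ (s + t) = Λ s * Λ t)
    (hd : ∀ t, Λ ((x - a * z) * t) = Λ₀ t) :
    ∃ y : Ω, y ≠ 0 ∧ ∀ γ ∈ H,
      γ ((σ⁻¹ y / y) ^ a * Λ cσ) = Λ₀ (c γ) * ((σ⁻¹ y / y) ^ a * Λ cσ) := by
  have hne := charFun_ne_zero Λ hΛ0 hΛ
  have hpow := charFun_pow_eq_one Λ hΛ0 hΛ hm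
  -- the cocycle
  let f : (Ω ≃ₐ[K] Ω) → Ω := fun γ => Λ (z * c γ)
  have hf0 : ∀ γ ∈ H, f γ ≠ 0 := fun γ _ => hne _
  have hfc : ∀ γ ∈ H, ∀ γ' ∈ H, f (γ * γ') = f γ * γ (f γ') := by
    intro γ hγ γ' hγ'
    show Λ (z * c (γ * γ')) = Λ (z * c γ) * γ (Λ (z * c γ'))
    rw [hc γ hγ γ' hγ', he γ _ (hpow _), ← charFun_nsmul Λ hΛ0 hΛ, mul_comm (Λ (z * c γ)),
      ← hΛ]
    congr 1
    ring
  have hflev : ∀ γ ∈ H, ∀ τ ∈ H, (∀ x ∈ E, τ x = x) → f (γ * τ) = f γ := by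
    intro γ hγ τ hτ hfix
    rw [hfc γ hγ τ hτ]
    show f γ * γ (Λ (z * c τ)) = f γ
    rw [hlev τ hτ hfix, mul_zero, hΛ0, map_one, mul_one]
  obtain ⟨y, hy0, hy⟩ := hilbert90_subgroup H f hf0 hfc E hflev
  refine ⟨y, hy0, fun γ hγ => ?_⟩
  set Y : Ω := σ⁻¹ y with hY
  have hY0 : Y ≠ 0 := by
    rw [hY]
    exact (map_ne_zero_iff _ (σ⁻¹).injective).mpr hy0
  set r : Ω := Λ cσ with hr
  have hr0 : r ≠ 0 := hne _
  have hrm : r ^ m = 1 := hpow _
  set F : Ω := f (σ * γ * σ⁻¹) with hF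
  have hFm : F ^ m = 1 := hpow _
  -- the action of `γ` on `Y`
  have hγY : γ Y = σ⁻¹ F * Y := by
    have h1 : γ Y = (σ⁻¹ * (σ * γ * σ⁻¹)) y := by
      rw [hY]
      have : σ⁻¹ * (σ * γ * σ⁻¹) = γ * σ⁻¹ := by group
      rw [this]
      rfl
    rw [h1, AlgEquiv.mul_apply, hy _ (hconj γ hγ), map_mul]
  -- the value of `F`
  have hFval : F * γ r = Λ₀ (c γ) * (f γ) ^ a * r := by
    show Λ (z * c (σ * γ * σ⁻¹)) * γ r = Λ₀ (c γ) * (Λ (z * c γ)) ^ a * r
    rw [hcj γ hγ, hΛ, he γ r hrm, ← hd (c γ), ← charFun_nsmul Λ hΛ0 hΛ a,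
      ← charFun_nsmul Λ hΛ0 hΛ (e γ), ← hΛ, ← hΛ, ← hΛ, ← hΛ]
    congr 1
    ring
  have hγy : γ y = f γ * y := hy γ hγ
  have hfγ0 : f γ ≠ 0 := hne _
  have hγr0 : γ r ≠ 0 := (map_ne_zero_iff _ γ.injective).mpr hr0
  have hinv : (σ⁻¹ F) ^ a = F := inv_apply_pow_h649 σ hσ hFm
  rw [map_mul, map_pow, map_div₀, hγY, hγy, div_pow, mul_pow, mul_pow, hinv, div_pow]
  have hya : y ^ a ≠ 0 := pow_ne_zero _ hy0
  have hfa : f γ ^ a ≠ 0 := pow_ne_zero _ hfγ0
  have hF2 : F = Λ₀ (c γ) * (f γ) ^ a * r / γ r := by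
    rw [eq_div_iff hγr0, hFval]
  rw [hF2]
  field_simp

end Fermat.Agent.S59.H649
end
-- ===== PACK-END S59/H649/KummerCore.lean

-- ===== PACK-BEGIN S33/H692/OrdAlgField.lean
section
/-
Row S33 (ordinary at `p ‖ N`), piece EIG, pure algebra, field level (helper692).

`G` a group, `I` a set of elements of `G` (the inertia group), `F` a field.

* `augSub I π` : the augmentation submodule `I_aug M = ⟨σ x - x : σ ∈ I⟩` of a module with action.
* `augSub_eq_top_of_algHom` : if `Ψ : End W → End V` is an algebra map with `Ψ (ρ g) = π g`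
  (Boston–Lenstra–Ribet) and `I_aug W = W`, then `I_aug V = V`.
* `augSub_ne_top_of_line` : if `dim W = 2`, `V ≠ 0` and `(σ - 1) W ⊆ L ≠ W` for all `σ ∈ I`, then
  `I_aug V ≠ V`.
* `ord_identities_of_augSub_ne_top` : if `dim W = 2` and `I_aug W ≠ W` then, for `σ₀, σ ∈ I` and
  `τ` normalising `I`,  `(σ₀ - det σ₀)(σ - 1) = 0` and `(σ₀ - det σ₀) τ (σ₀ - 1) = 0` on `W`.
-/



set_option autoImplicit false

noncomputable section

namespace Fermat.Agent.S33.H692

open Module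

section Aug

variable {A : Type*} [CommRing A] {M : Type*} [AddCommGroup M] [Module A M]
  {G : Type*} [Group G]

/-- The augmentation submodule `I_aug M`: the span of all `σ x - x`, `σ ∈ I`. -/
def augSub (I : Set G) (π : G →* Module.End A M) : Submodule A M :=
  Submodule.span A {y | ∃ σ ∈ I, ∃ x, y = π σ x - x}

theorem sub_mem_augSub {I : Set G} (π : G →* Module.End A M) {σ : G} (hσ : σ ∈ I) (x : M) :
    π σ x - x ∈ augSub I π :=
  Submodule.subset_span ⟨σ, hσ, x, rfl⟩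

theorem augSub_le_iff {I : Set G} (π : G →* Module.End A M) (N : Submodule A M) :
    augSub I π ≤ N ↔ ∀ σ ∈ I, ∀ x, π σ x - x ∈ N := by
  constructor
  · intro h σ hσ x
    exact h (sub_mem_augSub π hσ x)
  · intro h
    refine Submodule.span_le.mpr ?_
    rintro y ⟨σ, hσ, x, rfl⟩
    exact h σ hσ x

/-- `I_aug M` is stable under every `τ` normalising `I`. -/
theorem map_mem_augSub {I : Set G} (π : G →* Module.End A M) {τ : G}
    (hτ : ∀ σ ∈ I, τ * σ * τ⁻¹ ∈ I) {y : M} (hy : y ∈ augSub I π) : π τ y ∈ augSub I π := by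
  induction hy using Submodule.span_induction with
  | mem y hy =>
    obtain ⟨σ, hσ, x, rfl⟩ := hy
    have e : π τ (π σ x - x) = π (τ * σ * τ⁻¹) (π τ x) - π τ x := by
      rw [map_sub, ← Module.End.mul_apply, ← Module.End.mul_apply, ← map_mul, ← map_mul,
        inv_mul_cancel_right]
    rw [e]
    exact sub_mem_augSub π (hτ σ hσ) _
  | zero =>
    rw [map_zero]
    exact zero_mem _
  | add x y _ _ hx hy =>
    rw [map_add]
    exact add_mem hx hy
  | smul a x _ hx =>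
    rw [map_smul]
    exact Submodule.smul_mem _ _ hx

/-- `I_aug M` is stable under `I`. -/
theorem map_mem_augSub_self {I : Set G} (π : G →* Module.End A M) {σ : G} (hσ : σ ∈ I) {y : M}
    (hy : y ∈ augSub I π) : π σ y ∈ augSub I π := by
  have := add_mem (sub_mem_augSub π hσ y) hy
  rwa [sub_add_cancel] at this

end Aug

section Field

variable {F : Type*} [Field F] {G : Type*} [Group G]
  {W V : Type*} [AddCommGroup W] [Module F W] [AddCommGroup V] [Module F V]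

/-- Rank-one endomorphisms with values in `I_aug W` lie in the right ideal generated by the
`ρ σ - 1`, `σ ∈ I`. -/
theorem smulRight_mem_span (ρ : G →* Module.End F W) (I : Set G) (l : W →ₗ[F] F) {w : W}
    (hw : w ∈ augSub I ρ) :
    l.smulRight w ∈ Submodule.span F {X : Module.End F W | ∃ σ ∈ I, ∃ Y, X = (ρ σ - 1) * Y} := by
  induction hw using Submodule.span_induction with
  | mem y hy =>
    obtain ⟨σ, hσ, x, rfl⟩ := hy
    refine Submodule.subset_span ⟨σ, hσ, l.smulRight x, ?_⟩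
    ext z
    simp only [LinearMap.smulRight_apply, Module.End.mul_apply, LinearMap.sub_apply,
      Module.End.one_apply, map_smul, smul_sub]
  | zero =>
    have : l.smulRight (0 : W) = 0 := by
      ext z
      simp
    rw [this]
    exact zero_mem _
  | add x y _ _ hx hy =>
    have : l.smulRight (x + y) = l.smulRight x + l.smulRight y := by
      ext z
      simp
    rw [this]
    exact add_mem hx hy
  | smul a x _ hx =>
    have : l.smulRight (a • x) = a • l.smulRight x := by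
      ext z
      simp only [LinearMap.smulRight_apply, LinearMap.smul_apply]
      exact smul_comm _ _ _
    rw [this]
    exact Submodule.smul_mem _ _ hx

/-- If `I_aug W = W` then `1` lies in the right ideal generated by the `ρ σ - 1`, `σ ∈ I`. -/
theorem one_mem_span_of_augSub_eq_top [Module.Finite F W] (ρ : G →* Module.End F W) (I : Set G)
    (h : augSub I ρ = ⊤) :
    (1 : Module.End F W) ∈
      Submodule.span F {X : Module.End F W | ∃ σ ∈ I, ∃ Y, X = (ρ σ - 1) * Y} := by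
  classical
  let b := Module.Free.chooseBasis F W
  have h1 : (1 : Module.End F W) = ∑ i, (b.coord i).smulRight (b i) := by
    ext z
    simp only [Module.End.one_apply, LinearMap.coe_sum, Finset.sum_apply,
      LinearMap.smulRight_apply, Module.Basis.coord_apply]
    exact (b.sum_repr z).symm
  have hsum : ∑ i, (b.coord i).smulRight (b i) ∈
      Submodule.span F {X : Module.End F W | ∃ σ ∈ I, ∃ Y, X = (ρ σ - 1) * Y} := by
    refine Submodule.sum_mem _ fun i _ => smulRight_mem_span ρ I _ ?_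
    rw [h]
    exact Submodule.mem_top
  rwa [← h1] at hsum

/-- **Transfer of vanishing coinvariants.** -/
theorem augSub_eq_top_of_algHom [Module.Finite F W] (ρ : G →* Module.End F W)
    (π : G →* Module.End F V) (Ψ : Module.End F W →ₐ[F] Module.End F V)
    (hΨ : ∀ g, Ψ (ρ g) = π g) (I : Set G) (h : augSub I ρ = ⊤) : augSub I π = ⊤ := by
  have key : ∀ X ∈ Submodule.span F {X : Module.End F W | ∃ σ ∈ I, ∃ Y, X = (ρ σ - 1) * Y},
      ∀ v : V, Ψ X v ∈ augSub I π := by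
    intro X hX
    induction hX using Submodule.span_induction with
    | mem X hX =>
      obtain ⟨σ, hσ, Y, rfl⟩ := hX
      intro v
      rw [map_mul, map_sub, map_one, hΨ, Module.End.mul_apply, LinearMap.sub_apply,
        Module.End.one_apply]
      exact sub_mem_augSub π hσ _
    | zero =>
      intro v
      rw [map_zero]
      exact zero_mem _
    | add x y _ _ hx hy =>
      intro v
      rw [map_add]
      exact add_mem (hx v) (hy v)
    | smul a x _ hx =>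
      intro v
      rw [map_smul]
      exact Submodule.smul_mem _ _ (hx v)
  rw [eq_top_iff]
  intro v _
  have := key 1 (one_mem_span_of_augSub_eq_top ρ I h) v
  rwa [map_one] at this

/-- The endomorphism ring of a two-dimensional space is simple. -/
theorem isSimpleRing_end (h2 : Module.finrank F W = 2) : IsSimpleRing (Module.End F W) := by
  have : Module.Finite F W := Module.finite_of_finrank_eq_succ h2
  let b : Module.Basis (Fin 2) F W := Module.finBasisOfFinrankEq F W h2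
  exact IsSimpleRing.of_ringEquiv (LinearMap.toMatrixAlgEquiv b).symm.toRingEquiv inferInstance

/-- **Non-vanishing of coinvariants from a line.** -/
theorem augSub_ne_top_of_line (h2 : Module.finrank F W = 2) (ρ : G →* Module.End F W)
    (π : G →* Module.End F V) (Ψ : Module.End F W →ₐ[F] Module.End F V)
    (hΨ : ∀ g, Ψ (ρ g) = π g) [Nontrivial V] (I : Set G) (L : Submodule F W) (hL : L ≠ ⊤)
    (hI : ∀ σ ∈ I, ∀ x, ρ σ x - x ∈ L) : augSub I π ≠ ⊤ := by
  have hfin : Module.Finite F W := Module.finite_of_finrank_eq_succ h2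
  have hntW : Nontrivial W := Module.nontrivial_of_finrank_pos (R := F) (by omega)
  obtain ⟨l, hl0, hl⟩ := Submodule.exists_le_ker_of_lt_top L (lt_top_iff_ne_top.mpr hL)
  obtain ⟨w₀, hw₀⟩ := exists_ne (0 : W)
  have hf0 : l.smulRight w₀ ≠ 0 := by
    intro h0
    apply hl0
    ext z
    have := congrArg (fun E : Module.End F W => E z) h0
    simp only [LinearMap.smulRight_apply, LinearMap.zero_apply, smul_eq_zero] at this
    rcases this with h | h
    · exact h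
    · exact (hw₀ h).elim
  have hsimple := isSimpleRing_end h2
  have hinj : Function.Injective Ψ := (Ψ : Module.End F W →+* Module.End F V).injective
  have hΨf : Ψ (l.smulRight w₀) ≠ 0 := by
    intro h0
    apply hf0
    apply hinj
    rw [h0, map_zero]
  intro htop
  apply hΨf
  ext v
  have hv : v ∈ augSub I π := by
    rw [htop]
    exact Submodule.mem_top
  rw [LinearMap.zero_apply]
  induction hv using Submodule.span_induction with
  | mem y hy =>
    obtain ⟨σ, hσ, x, rfl⟩ := hy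
    have e : l.smulRight w₀ * (ρ σ - 1) = 0 := by
      ext z
      simp only [Module.End.mul_apply, LinearMap.sub_apply, Module.End.one_apply,
        LinearMap.smulRight_apply, LinearMap.zero_apply]
      have : l (ρ σ z - z) = 0 := LinearMap.mem_ker.mp (hl (hI σ hσ z))
      rw [this, zero_smul]
    have e2 := congrArg Ψ e
    rw [map_mul, map_sub, map_one, hΨ, map_zero] at e2
    have e3 := congrArg (fun E : Module.End F V => E x) e2
    simpa only [Module.End.mul_apply, LinearMap.sub_apply, Module.End.one_apply,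
      LinearMap.zero_apply] using e3
  | zero => rw [map_zero]
  | add x y _ _ hx hy => rw [map_add, hx, hy, add_zero]
  | smul a x _ hx => rw [map_smul, hx, smul_zero]

/-- **The line lemma.**  If `dim W = 2` and `I_aug W ≠ W`, then every `σ₀ ∈ I` acts on `I_aug W`
through the scalar `det σ₀`. -/
theorem apply_eq_det_smul_of_mem_augSub (h2 : Module.finrank F W = 2) (ρ : G →* Module.End F W)
    (I : Set G) (hne : augSub I ρ ≠ ⊤) {σ₀ : G} (hσ₀ : σ₀ ∈ I) {y : W} (hy : y ∈ augSub I ρ) :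
    ρ σ₀ y = LinearMap.det (ρ σ₀) • y := by
  have hfin : Module.Finite F W := Module.finite_of_finrank_eq_succ h2
  have hlt : Module.finrank F (augSub I ρ) < 2 := by
    rw [← h2]
    exact Submodule.finrank_lt hne
  have h01 : Module.finrank F (augSub I ρ) = 0 ∨ Module.finrank F (augSub I ρ) = 1 := by omega
  rcases h01 with h0 | h1
  · have hbot : augSub I ρ = ⊥ := Submodule.finrank_eq_zero.mp h0
    rw [hbot, Submodule.mem_bot] at hy
    rw [hy, map_zero, smul_zero]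
  · obtain ⟨⟨w, hwW⟩, hw0, hsp⟩ := finrank_eq_one_iff'.mp h1
    have hw0' : w ≠ 0 := fun h => hw0 (Subtype.ext h)
    have hspan : ∀ z ∈ augSub I ρ, ∃ c : F, c • w = z := by
      intro z hz
      obtain ⟨c, hc⟩ := hsp ⟨z, hz⟩
      exact ⟨c, congrArg Subtype.val hc⟩
    obtain ⟨u, hu⟩ : ∃ u, u ∉ augSub I ρ := by
      by_contra hcon
      push Not at hcon
      exact hne (eq_top_iff.mpr fun x _ => hcon x)
    obtain ⟨χ, hχ⟩ := hspan _ (map_mem_augSub_self ρ hσ₀ hwW)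
    obtain ⟨a, ha⟩ := hspan _ (sub_mem_augSub ρ hσ₀ u)
    have hli : LinearIndependent F ![w, u] := by
      rw [LinearIndependent.pair_iff]
      intro s t hst
      have ht : t = 0 := by
        by_contra ht
        apply hu
        have : u = (-(t⁻¹ * s)) • w := by
          have h1 : t • u = -(s • w) := by
            rw [eq_neg_iff_add_eq_zero, add_comm]
            exact hst
          calc u = t⁻¹ • (t • u) := by rw [smul_smul, inv_mul_cancel₀ ht, one_smul]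
            _ = (-(t⁻¹ * s)) • w := by rw [h1, smul_neg, smul_smul, neg_smul]
        rw [this]
        exact Submodule.smul_mem _ _ hwW
      refine ⟨?_, ht⟩
      rw [ht, zero_smul, add_zero] at hst
      exact (smul_eq_zero.mp hst).resolve_right hw0'
    let b : Module.Basis (Fin 2) F W :=
      basisOfLinearIndependentOfCardEqFinrank hli (by simp [h2])
    have hb0 : b 0 = w := by simp [b]
    have hb1 : b 1 = u := by simp [b]
    have e0 : ρ σ₀ (b 0) = χ • b 0 := by rw [hb0, hχ]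
    have e1 : ρ σ₀ (b 1) = b 1 + a • b 0 := by
      rw [hb0, hb1, ha]
      abel
    have hdet : LinearMap.det (ρ σ₀) = χ := by
      rw [← LinearMap.det_toMatrix b, Matrix.det_fin_two]
      simp only [LinearMap.toMatrix_apply, e0, e1, map_add, map_smul, Module.Basis.repr_self,
        Finsupp.add_apply, Finsupp.smul_apply, Finsupp.single_apply]
      simp
    obtain ⟨c, rfl⟩ := hspan y hy
    rw [map_smul, ← hχ, hdet, smul_comm]

/-- **Identity (O2).** -/
theorem ord_identity_two (h2 : Module.finrank F W = 2) (ρ : G →* Module.End F W)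
    (I : Set G) (hne : augSub I ρ ≠ ⊤) {σ₀ σ : G} (hσ₀ : σ₀ ∈ I) (hσ : σ ∈ I) :
    (ρ σ₀ - LinearMap.det (ρ σ₀) • (1 : Module.End F W)) * (ρ σ - 1) = 0 := by
  ext x
  have h := apply_eq_det_smul_of_mem_augSub h2 ρ I hne hσ₀ (sub_mem_augSub ρ hσ x)
  simp only [Module.End.mul_apply, LinearMap.sub_apply, Module.End.one_apply,
    LinearMap.smul_apply, LinearMap.zero_apply]
  rw [sub_eq_zero]
  exact h

/-- **Identity (O3).** -/
theorem ord_identity_three (h2 : Module.finrank F W = 2) (ρ : G →* Module.End F W)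
    (I : Set G) (hne : augSub I ρ ≠ ⊤) {σ₀ τ : G} (hσ₀ : σ₀ ∈ I)
    (hτ : ∀ σ ∈ I, τ * σ * τ⁻¹ ∈ I) :
    (ρ σ₀ - LinearMap.det (ρ σ₀) • (1 : Module.End F W)) * ρ τ * (ρ σ₀ - 1) = 0 := by
  ext x
  have h := apply_eq_det_smul_of_mem_augSub h2 ρ I hne hσ₀
    (map_mem_augSub ρ hτ (sub_mem_augSub ρ hσ₀ x))
  simp only [Module.End.mul_apply, LinearMap.sub_apply, Module.End.one_apply,
    LinearMap.smul_apply, LinearMap.zero_apply]
  rw [sub_eq_zero]
  exact h

end Field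

end Fermat.Agent.S33.H692

end
end
-- ===== PACK-END S33/H692/OrdAlgField.lean

-- ===== PACK-BEGIN S59/NMP/H587/DvrExt.lean
section




/-!
# S59 / cell NMP, leaf LGC, bridge BETTI (helper587) — a complete DVR containing the roots

`exists_dvr_rootPoly`: for a complete discrete valuation ring `𝒪` of characteristic zero with
finite residue field and a monic `R ∈ ℤ[X]`, squarefree over `ℚ`, there is a complete discrete
valuation ring `𝒪'`, finite over `𝒪` (the ring of integers of the splitting field of `R` over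
`Frac 𝒪`), over which `R = ∏_{b ∈ s} (X - b)` with `s` without repetition.
-/

set_option autoImplicit false
set_option linter.style.haveILetI false

noncomputable section

open Polynomial IsLocalRing

namespace Fermat.Agent.S59.NMP.H587

open Fermat.Agent.S59.G4.H109

theorem exists_dvr_rootPoly (𝒪 : Type) [CommRing 𝒪] [IsDomain 𝒪] [IsDiscreteValuationRing 𝒪]
    [IsAdicComplete (maximalIdeal 𝒪) 𝒪] [Finite (ResidueField 𝒪)] [CharZero 𝒪]
    (R : ℤ[X]) (hRm : R.Monic) (hRsq : Squarefree (R.map (Int.castRingHom ℚ))) :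
    ∃ (𝒪' : Type) (_ : CommRing 𝒪') (_ : IsDomain 𝒪') (_ : IsDiscreteValuationRing 𝒪')
      (_ : IsAdicComplete (maximalIdeal 𝒪') 𝒪') (_ : Finite (ResidueField 𝒪')) (_ : CharZero 𝒪')
      (_ : Algebra 𝒪 𝒪') (_ : Module.Finite 𝒪 𝒪') (_ : IsLocalHom (algebraMap 𝒪 𝒪')),
      Function.Injective (algebraMap 𝒪 𝒪') ∧
      ∃ s : Multiset 𝒪', s.Nodup ∧ R.map (Int.castRingHom 𝒪') = rootPoly s := by
  classical
  let K := FractionRing 𝒪
  haveI : CharZero K := charZero_K 𝒪 K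
  let f : K[X] := R.map (Int.castRingHom K)
  let L := f.SplittingField
  haveI : CharZero L := charZero_L 𝒪 K L
  let 𝒪' := intRingO 𝒪 L
  haveI hloc : IsLocalRing 𝒪' := intRingO_isLocalRing 𝒪 K L
  haveI hdvr : IsDiscreteValuationRing 𝒪' := intRingO_isDiscreteValuationRing 𝒪 K L
  have hcomp : IsAdicComplete (maximalIdeal 𝒪') 𝒪' := intRingO_isAdicComplete 𝒪 K L
  have hfin : Finite (ResidueField 𝒪') := intRingO_finite_residueField 𝒪 K L
  have hchar : CharZero 𝒪' := intRingO_charZero 𝒪 K L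
  have hmf : Module.Finite 𝒪 𝒪' := intRingO_moduleFinite 𝒪 K L
  have hlh : IsLocalHom (algebraMap 𝒪 𝒪') := intRingO_isLocalHom 𝒪 K L
  refine ⟨𝒪', inferInstance, inferInstance, hdvr, hcomp, hfin, hchar, inferInstance, hmf, hlh,
    algebraMap_intRingO_injective 𝒪 K L, ?_⟩
  -- the roots
  have hfL : f.map (algebraMap K L) = R.map (Int.castRingHom L) := by
    rw [Polynomial.map_map,
      show (algebraMap K L).comp (Int.castRingHom K) = Int.castRingHom L from
        RingHom.ext_int _ _]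
  have hsplit : (R.map (Int.castRingHom L)).Splits := by
    rw [← hfL]
    exact SplittingField.splits f
  have hmonL : (R.map (Int.castRingHom L)).Monic := hRm.map _
  have hprod := hsplit.eq_prod_roots_of_monic hmonL
  set rts : Multiset L := (R.map (Int.castRingHom L)).roots with hrts
  have hnd : rts.Nodup := nodup_roots (separable_map_of_squarefree_rat hRsq L)
  -- the roots are integral
  have hint : ∀ r ∈ rts, r ∈ integralClosure 𝒪 L := by
    intro r hr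
    have hr0 : (R.map (Int.castRingHom L)).IsRoot r := (mem_roots hmonL.ne_zero).mp hr
    refine ⟨R.map (Int.castRingHom 𝒪), hRm.map _, ?_⟩
    rw [IsRoot.def, eval_map] at hr0
    rw [eval₂_map,
      show (algebraMap 𝒪 L).comp (Int.castRingHom 𝒪) = Int.castRingHom L from
        RingHom.ext_int _ _]
    exact hr0
  let s : Multiset 𝒪' := rts.pmap (fun r hr => (⟨r, hr⟩ : 𝒪')) hint
  have hsmap : s.map (fun x : 𝒪' => (x : L)) = rts := by
    rw [Multiset.map_pmap]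
    exact (Multiset.pmap_eq_map _ _ _ hint).trans (Multiset.map_id' rts)
  refine ⟨s, ?_, ?_⟩
  · exact Multiset.Nodup.of_map _ (by rw [hsmap]; exact hnd)
  · have hinj : Function.Injective (algebraMap 𝒪' L) := Subtype.val_injective
    apply Polynomial.map_injective (algebraMap 𝒪' L) hinj
    rw [Polynomial.map_map]
    have h1 : (algebraMap 𝒪' L).comp (Int.castRingHom 𝒪') = Int.castRingHom L :=
      RingHom.ext_int _ _
    rw [h1, hprod, rootPoly, Polynomial.map_multiset_prod, Multiset.map_map]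
    have h2 : (s.map ((Polynomial.map (algebraMap 𝒪' L)) ∘ fun b => X - C b)) =
        (s.map fun x : 𝒪' => (x : L)).map fun a => X - C a := by
      rw [Multiset.map_map]
      refine Multiset.map_congr rfl fun x _ => ?_
      simp
    rw [h2, hsmap]

end Fermat.Agent.S59.NMP.H587

end
end
-- ===== PACK-END S59/NMP/H587/DvrExt.lean

-- ===== PACK-BEGIN S17/H200/AutFix.lean
section



/-!
# The fixed field of `Aut(L/k)` for an algebraically closed field `L` of characteristic zero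

`mem_range_of_forall_algEquiv_eq`: if `L` is algebraically closed, of characteristic zero, and
`x : L` is fixed by every `k`-automorphism of `L`, then `x ∈ k`.  (No hypothesis on `k`.)

Mathlib + `S29/H32/AutOrbit` (translation of a transcendental element) only.
-/

set_option autoImplicit false

noncomputable section

namespace Fermat.Agent.S17.H200

open MvPolynomial

variable {k L : Type*} [Field k] [Field L] [Algebra k L]

/-- An element of a purely transcendental extension `k(s)` which is algebraic over `k` lies in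
`k`. -/
theorem mem_range_of_isAlgebraic_of_mem_adjoin {s : Set L}
    (hs : AlgebraicIndependent k ((↑) : s → L)) {x : L} (hx : IsAlgebraic k x)
    (hxs : x ∈ IntermediateField.adjoin k s) : x ∈ Set.range (algebraMap k L) := by
  classical
  obtain ⟨r, hr, t, ht, hxrt⟩ := IntermediateField.mem_adjoin_iff_div.mp hxs
  rw [Algebra.adjoin_eq_range] at hr ht
  obtain ⟨P, hP⟩ := hr
  obtain ⟨Q, hQ'⟩ := ht
  have hP' : aeval ((↑) : s → L) P = r := hP
  have hQ'' : aeval ((↑) : s → L) Q = t := hQ'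
  subst hP' hQ''
  clear hP hQ'
  by_cases hQ0 : aeval ((↑) : s → L) Q = 0
  · refine ⟨0, ?_⟩
    rw [hxrt, hQ0, div_zero, map_zero]
  have hQ : Q ≠ 0 := fun h => hQ0 (by rw [h, map_zero])
  -- the field `K' = k(x)` is algebraic over `k`
  let K' := IntermediateField.adjoin k ({x} : Set L)
  have : Algebra.IsAlgebraic k K' := IntermediateField.isAlgebraic_adjoin_simple hx.isIntegral
  have hind : AlgebraicIndependent K' ((↑) : s → L) := hs.extendScalars K'
  let g : K' := ⟨x, IntermediateField.mem_adjoin_simple_self k x⟩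
  let R : MvPolynomial s K' := C g * map (algebraMap k K') Q - map (algebraMap k K') P
  have hR : aeval ((↑) : s → L) R = 0 := by
    have h1 : ∀ T : MvPolynomial s k,
        aeval ((↑) : s → L) (map (algebraMap k K') T) = aeval ((↑) : s → L) T := by
      intro T
      rw [aeval_map_algebraMap]
    simp only [R, map_sub, map_mul, h1, aeval_C]
    have : algebraMap K' L g = x := rfl
    rw [this, hxrt, div_mul_cancel₀ _ hQ0, sub_self]
  have hR0 : R = 0 := by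
    have hinj : Function.Injective (aeval ((↑) : s → L) : MvPolynomial s K' →ₐ[K'] L) := hind
    exact hinj (by rw [hR, map_zero])
  obtain ⟨α, hα⟩ : ∃ α, Q.coeff α ≠ 0 := by
    by_contra hcon
    simp only [not_exists, not_not] at hcon
    exact hQ (MvPolynomial.ext _ _ fun α => by rw [hcon α, coeff_zero])
  have hc := congrArg (coeff α) hR0
  simp only [R, coeff_sub, coeff_C_mul, coeff_map, coeff_zero] at hc
  have hc' := congrArg (algebraMap K' L) hc
  simp only [map_sub, map_mul, map_zero] at hc'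
  have e1 : algebraMap K' L (algebraMap k K' (Q.coeff α)) = algebraMap k L (Q.coeff α) :=
    (IsScalarTower.algebraMap_apply k K' L _).symm
  have e2 : algebraMap K' L (algebraMap k K' (P.coeff α)) = algebraMap k L (P.coeff α) :=
    (IsScalarTower.algebraMap_apply k K' L _).symm
  have e3 : algebraMap K' L g = x := rfl
  rw [e1, e2, e3] at hc'
  have hq : algebraMap k L (Q.coeff α) ≠ 0 := by
    rwa [Ne, map_eq_zero]
  refine ⟨P.coeff α / Q.coeff α, ?_⟩
  rw [map_div₀]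
  field_simp
  linear_combination -hc'

variable [CharZero k] [IsAlgClosed L]

/-- **The fixed field of `Aut(L/k)` is `k`** (`L` algebraically closed, characteristic zero). -/
theorem mem_range_of_forall_algEquiv_eq (x : L) (h : ∀ σ : L ≃ₐ[k] L, σ x = x) :
    x ∈ Set.range (algebraMap k L) := by
  by_cases hx : IsAlgebraic k x
  · obtain ⟨s, hs⟩ := exists_isTranscendenceBasis k L
    let E := IntermediateField.adjoin k s
    have hEalg : Algebra.IsAlgebraic E L := by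
      have h0 := hs.isAlgebraic_field
      rwa [Subtype.range_coe] at h0
    have : CharZero L := charZero_of_injective_algebraMap (algebraMap k L).injective
    have : CharZero E := charZero_of_injective_algebraMap (algebraMap k E).injective
    have : Normal E L := normal_iff.mpr fun y =>
      ⟨(Algebra.IsAlgebraic.isAlgebraic y).isIntegral, IsAlgClosed.splits _⟩
    have : IsGalois E L := ⟨⟩
    have hxE : x ∈ (⊥ : IntermediateField E L) := by
      rw [InfiniteGalois.mem_bot_iff_fixed]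
      intro σ
      exact h (σ.restrictScalars k)
    obtain ⟨e, he⟩ := IntermediateField.mem_bot.mp hxE
    have hxs : x ∈ IntermediateField.adjoin k s := by
      rw [← he]
      exact e.2
    exact mem_range_of_isAlgebraic_of_mem_adjoin hs.1 hx hxs
  · exfalso
    obtain ⟨σ, hσ⟩ := Fermat.Agent.S29.H32.exists_algEquiv_apply_eq_add x hx (1 : k)
    rw [h σ, map_one] at hσ
    exact one_ne_zero (left_eq_add.mp hσ)

end Fermat.Agent.S17.H200

end
end
-- ===== PACK-END S17/H200/AutFix.lean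

-- ===== PACK-BEGIN S59/LoSqC/H505/CountSub.lean
section


/-!
# Row S59, cell (C) LO-SQ, leaf W-COUNT / ABS, second form (helper505)

Mathlib only (on top of `CountAbs.lean`).  The same finite count as `count_family505`, with the
hypotheses cut down to what the assembly at level `q M'` can really supply:

* the compatibilities `m • A (n+1) ⊆ A n` are NOT needed: a finite group `A` killed by `m ^ n`
  satisfies `|A| ≤ |A[m]| ^ n` (`card_le_pow_tors505`), so only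
  `F (n+1)[m] ⊆ F 1` and `S (n+1)[m] ⊆ S 1` remain;
* the reduction map `red` is only defined on a subgroup `D ⊇ F 1`
  (application: `D = finPartQ m q M' A`, `red` = `H296.exists_redHom_h296`);
* NODE-REL may be given in the form `K • I n ⊆ F n` with `K` independent of `n`
  (`card_le_of_nsmul_mem505`, `slope_card_of_nsmul505`);
* MONO / TAU in the form of ONE additive map (`mono_card_of_hom505`).

Main statement: `count_family_sub505`.
-/

set_option autoImplicit false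
set_option linter.style.haveILetI false

namespace Fermat.Agent.S59.LoSqC.H505

section Group

variable {G : Type*} [AddCommGroup G]

/-- A finite subgroup killed by `m ^ n` has at most `|A[m]| ^ n` elements. -/
theorem card_le_pow_tors505 {m : ℕ} :
    ∀ (n : ℕ) (A : AddSubgroup G) [Finite A], (∀ x ∈ A, (m ^ n) • x = 0) →
      Nat.card A ≤ Nat.card ↥(A ⊓ tors505 G m) ^ n := by
  intro n
  induction n with
  | zero =>
    intro A _ hA
    rw [pow_zero]
    haveI : Subsingleton A := by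
      constructor
      intro x y
      apply Subtype.ext
      have hx := hA x x.2
      have hy := hA y y.2
      rw [pow_zero, one_nsmul] at hx hy
      rw [hx, hy]
    exact Finite.card_le_one_iff_subsingleton.mpr inferInstance
  | succ n ih =>
    intro A _ hA
    set f : G →+ G := nsmulAddMonoidHom (α := G) m with hf
    set B : AddSubgroup G := A.map f with hB
    have hBA : B ≤ A := by
      rintro _ ⟨x, hx, rfl⟩
      rw [hf, nsmulAddMonoidHom_apply]
      exact A.nsmul_mem hx m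
    haveI : Finite B := finite_of_le505 hBA
    haveI : Finite ↥(A ⊓ tors505 G m) := finite_of_le505 (inf_le_left : A ⊓ tors505 G m ≤ A)
    have hBkill : ∀ y ∈ B, (m ^ n) • y = 0 := by
      rintro _ ⟨x, hx, rfl⟩
      rw [hf, nsmulAddMonoidHom_apply, ← mul_nsmul, ← pow_succ']
      exact hA x hx
    have h1 : Nat.card A ≤ Nat.card ↥(A ⊓ tors505 G m) * Nat.card B :=
      card_le_mul_of_hom505 A (A ⊓ tors505 G m) B f
        (fun x hx => ⟨x, hx, rfl⟩)
        (fun x hx h0 => ⟨hx, by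
          rw [hf, nsmulAddMonoidHom_apply] at h0
          exact mem_tors505.mpr h0⟩)
    have h2 : Nat.card B ≤ Nat.card ↥(B ⊓ tors505 G m) ^ n := ih B hBkill
    have h3 : Nat.card ↥(B ⊓ tors505 G m) ≤ Nat.card ↥(A ⊓ tors505 G m) :=
      card_le_of_le505 (inf_le_inf_right _ hBA)
    calc Nat.card A ≤ Nat.card ↥(A ⊓ tors505 G m) * Nat.card B := h1
      _ ≤ Nat.card ↥(A ⊓ tors505 G m) * Nat.card ↥(B ⊓ tors505 G m) ^ n :=
          Nat.mul_le_mul_left _ h2
      _ ≤ Nat.card ↥(A ⊓ tors505 G m) * Nat.card ↥(A ⊓ tors505 G m) ^ n :=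
          Nat.mul_le_mul_left _ (Nat.pow_le_pow_left h3 n)
      _ = Nat.card ↥(A ⊓ tors505 G m) ^ (n + 1) := by rw [pow_succ, mul_comm]

/-- **Sub-multiplicativity without the transition maps**: a family `A n ⊆ G[m ^ n]` with
`A (n+1)[m] ⊆ A 1` satisfies `|A n| ≤ |A 1| ^ n`. -/
theorem card_le_pow_of_ker505 {m : ℕ} (hfin : ∀ n, Finite (tors505 G (m ^ n)))
    (A : ℕ → AddSubgroup G) (hA : ∀ n, A n ≤ tors505 G (m ^ n))
    (hAk : ∀ n x, x ∈ A (n + 1) → m • x = 0 → x ∈ A 1) :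
    ∀ n, Nat.card (A n) ≤ Nat.card (A 1) ^ n := by
  have hAfin : ∀ n, Finite (A n) := fun n => by
    haveI := hfin n
    exact finite_of_le505 (hA n)
  intro n
  haveI := hAfin n
  haveI := hAfin 1
  have h1 := card_le_pow_tors505 (m := m) n (A n) (fun x hx => mem_tors505.mp (hA n hx))
  rcases n with _ | n
  · simpa using h1
  · have h2 : A (n + 1) ⊓ tors505 G m ≤ A 1 := by
      rintro x ⟨hx, hx0⟩
      exact hAk n x hx (mem_tors505.mp hx0)
    exact h1.trans (Nat.pow_le_pow_left (card_le_of_le505 h2) _)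

/-- NODE-REL in the form `K • I ⊆ F`: then `|I| ≤ |G[K]| |F|`. -/
theorem card_le_of_nsmul_mem505 (I F : AddSubgroup G) (K : ℕ) [Finite (tors505 G K)]
    [Finite F] (h : ∀ x ∈ I, K • x ∈ F) :
    Nat.card I ≤ Nat.card (tors505 G K) * Nat.card F :=
  card_le_mul_of_hom505 I (tors505 G K) F (nsmulAddMonoidHom (α := G) K)
    (fun x hx => by rw [nsmulAddMonoidHom_apply]; exact h x hx)
    (fun x _ h0 => by rw [nsmulAddMonoidHom_apply] at h0; exact mem_tors505.mpr h0)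

/-- NODE-REL in the form `K • I n ⊆ F n`, `K` independent of `n`, gives the cardinality
hypothesis `hslope` with the constant `s = |G[K]|`. -/
theorem slope_card_of_nsmul505 {m : ℕ} (hfin : ∀ n, Finite (tors505 G (m ^ n)))
    (I F : ℕ → AddSubgroup G) (hF : ∀ n, F n ≤ tors505 G (m ^ n))
    (K : ℕ) [Finite (tors505 G K)] (h : ∀ n, ∀ x ∈ I n, K • x ∈ F n) :
    ∀ n, Nat.card (I n) ≤ Nat.card (tors505 G K) * Nat.card (F n) := by
  intro n
  haveI := hfin n
  haveI : Finite (F n) := finite_of_le505 (hF n)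
  exact card_le_of_nsmul_mem505 (I n) (F n) K (h n)

/-- MONO / TAU with ONE additive map `τ` (application: `τ = σ - 1`, `σ` a generator of tame
inertia): `τ (G[m ^ n]) ⊆ S n`, `ker τ ∩ G[m ^ n] ⊆ I n`. -/
theorem mono_card_of_hom505 {m : ℕ} (hfin : ∀ n, Finite (tors505 G (m ^ n)))
    (I S : ℕ → AddSubgroup G) (hI : ∀ n, I n ≤ tors505 G (m ^ n))
    (hS : ∀ n, S n ≤ tors505 G (m ^ n)) (τ : G →+ G)
    (h1 : ∀ n x, (m ^ n) • x = 0 → τ x ∈ S n)
    (h2 : ∀ n x, (m ^ n) • x = 0 → τ x = 0 → x ∈ I n) :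
    ∀ n, Nat.card (tors505 G (m ^ n)) ≤ Nat.card (I n) * Nat.card (S n) :=
  mono_card505 hfin I S hI hS (fun n => ⟨τ, h1 n, h2 n⟩)

/-- **W-COUNT / ABS, second form.**  See the header. -/
theorem count_family_sub505 {Q : Type*} [AddCommGroup Q]
    {m s a h c : ℕ} (hm : 0 < m) (hc : a + 2 * h ≤ c)
    (hfin : ∀ n, Finite (tors505 G (m ^ n)))
    (hJ : ∀ n, m ^ (c * n) ≤ Nat.card (tors505 G (m ^ n)))
    (I F S : ℕ → AddSubgroup G)
    (hF : ∀ n, F n ≤ tors505 G (m ^ n)) (hS : ∀ n, S n ≤ tors505 G (m ^ n))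
    (hmono : ∀ n, Nat.card (tors505 G (m ^ n)) ≤ Nat.card (I n) * Nat.card (S n))
    (hslope : ∀ n, Nat.card (I n) ≤ s * Nat.card (F n))
    (hFk : ∀ n x, x ∈ F (n + 1) → m • x = 0 → x ∈ F 1)
    (hSk : ∀ n x, x ∈ S (n + 1) → m • x = 0 → x ∈ S 1)
    (D : AddSubgroup G) (hFD : F 1 ≤ D)
    (red : ↥D →+ Q) (Q₁ : AddSubgroup Q) [Finite Q₁] (hQ : Nat.card Q₁ ≤ m ^ a)
    (hredQ : ∀ x : ↥D, (x : G) ∈ F 1 → red x ∈ Q₁)
    (hredS : ∀ x : ↥D, (x : G) ∈ F 1 → red x = 0 → (x : G) ∈ S 1)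
    (hS1 : Nat.card (S 1) ≤ m ^ h) :
    Nat.card (S 1) = m ^ h ∧ ∀ z ∈ Q₁, ∃ x : ↥D, (x : G) ∈ F 1 ∧ red x = z := by
  haveI hS1fin : Finite (S 1) := by
    haveI := hfin 1
    exact finite_of_le505 (hS 1)
  haveI hF1fin : Finite (F 1) := by
    haveI := hfin 1
    exact finite_of_le505 (hF 1)
  -- the subgroup `F 1` inside `D`
  set F' : AddSubgroup ↥D := (F 1).comap D.subtype with hF'
  set S' : AddSubgroup ↥D := (S 1).comap D.subtype with hS'
  haveI hF'fin : Finite F' :=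
    Finite.of_injective (fun x : F' => (⟨x.1.1, x.2⟩ : F 1)) (by
      intro x y hxy
      have : x.1.1 = y.1.1 := congrArg (fun z : F 1 => (z : G)) hxy
      exact Subtype.ext (Subtype.ext this))
  have hcardF : Nat.card (F 1) ≤ Nat.card F' := by
    refine Nat.card_le_card_of_injective
      (fun x : F 1 => (⟨⟨x.1, hFD x.2⟩, x.2⟩ : F')) ?_
    intro x y hxy
    have : (⟨x.1, hFD x.2⟩ : ↥D) = ⟨y.1, hFD y.2⟩ := congrArg (fun z : F' => (z : ↥D)) hxy
    exact Subtype.ext (congrArg (fun z : ↥D => (z : G)) this)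
  haveI hS'fin : Finite S' :=
    Finite.of_injective (fun x : S' => (⟨x.1.1, x.2⟩ : S 1)) (by
      intro x y hxy
      have : x.1.1 = y.1.1 := congrArg (fun z : S 1 => (z : G)) hxy
      exact Subtype.ext (Subtype.ext this))
  have hcardS : Nat.card S' ≤ Nat.card (S 1) :=
    Nat.card_le_card_of_injective (fun x : S' => (⟨x.1.1, x.2⟩ : S 1)) (by
      intro x y hxy
      have : x.1.1 = y.1.1 := congrArg (fun z : S 1 => (z : G)) hxy
      exact Subtype.ext (Subtype.ext this))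
  have hle : F'.map red ≤ Q₁ := by
    rintro _ ⟨x, hx, rfl⟩
    exact hredQ x hx
  haveI hRfin : Finite (F'.map red) := finite_of_le505 hle
  have hR : Nat.card (F'.map red) ≤ m ^ a := (card_le_of_le505 hle).trans hQ
  have hF1 : Nat.card (F 1) ≤ Nat.card (F'.map red) * Nat.card (S 1) := by
    have h1 := card_le_mul_of_hom505 F' S' (F'.map red) red
      (fun x hx => ⟨x, hx, rfl⟩) (fun x hx h0 => hredS x hx h0)
    calc Nat.card (F 1) ≤ Nat.card F' := hcardF
      _ ≤ Nat.card S' * Nat.card (F'.map red) := h1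
      _ ≤ Nat.card (S 1) * Nat.card (F'.map red) := Nat.mul_le_mul_right _ hcardS
      _ = Nat.card (F'.map red) * Nat.card (S 1) := mul_comm _ _
  obtain ⟨h1, h2⟩ := arith_core505 (s := s) hm hc
    (fun n => Nat.card (tors505 G (m ^ n))) (fun n => Nat.card (I n))
    (fun n => Nat.card (F n)) (fun n => Nat.card (S n))
    hJ hmono hslope (card_le_pow_of_ker505 hfin F hF hFk) (card_le_pow_of_ker505 hfin S hS hSk)
    hF1 hR hS1
  refine ⟨h1, ?_⟩
  have hcard : Nat.card Q₁ ≤ Nat.card (F'.map red) := by rw [h2]; exact hQ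
  have heq : F'.map red = Q₁ := by
    have hset : ((F'.map red : AddSubgroup Q) : Set Q) = (Q₁ : Set Q) := by
      apply Set.eq_of_subset_of_ncard_le hle _ (Set.toFinite _)
      rw [← Nat.card_coe_set_eq, ← Nat.card_coe_set_eq]
      exact hcard
    exact SetLike.coe_injective hset
  intro z hz
  rw [← heq] at hz
  obtain ⟨x, hx, rfl⟩ := hz
  exact ⟨x, hx, rfl⟩

end Group

end Fermat.Agent.S59.LoSqC.H505

end
-- ===== PACK-END S59/LoSqC/H505/CountSub.lean

-- ===== PACK-BEGIN S59/LoSqC/H987/RedSubCore.lean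
section


/-!
# S59 / cell (C) LO-SQ, leaf W-SUB, reduction half (helper987): abstract core

Abstract setting of `S36/H586/StepAB.lean` (Mathlib only): three vertical valuations
`V_FF`, `V_mid`, `V_VV` of `F` over the two vertical valuations `V1`, `V2` of `F'`, with the norm
tables of the two degeneracy embeddings `α`, `β` (`H586.NormTable`):

* via `α`: `V_FF`, `V_mid` over `V1` (residue degree `1`), `V_VV` over `V2` (purely inseparable);
* via `β`: `V_VV`, `V_mid` over `V2` (residue degree `1`), `V_FF` over `V1` (purely inseparable).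

Let `u` be `≡ 1` on `V_FF` and `V_VV` and a unit at `V_mid` (the output of W-NEW).

* `exists_red_pair` : there are `b c : F'`, units at `V2`, with `u ≡ β b` on `V_mid` and
  `α c · (β b) ^ q ≡ 1` on `V_VV`.
* `redSub_core` : for `g g' : F'`, both `≡ 1` on `V1`, with `g' ≡ b · h ^ m` and
  `g ≡ c ^ q' · h' ^ m` on `V2` (`q q' = 1 + j m`), there is `G` with
  `u / (α g · β g' · G ^ m) ≡ 1` on `V_FF`, `V_mid`, `V_VV`.

So a class with reductions `(0, ρ, 0)` is killed, as far as reductions are concerned, by old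
classes `α^* y + β^* y'` where `y`, `y'` have trivial reduction on `V1`.
-/

set_option autoImplicit false

namespace Fermat.Agent.S59.LoSqC.H987

open Fermat.Agent.S36.H586

section RedSub

variable {F' F : Type*} [Field F'] [Field F]

/-- The residues to be realised at level `M q`. -/
theorem exists_red_pair
    (α β : F' →+* F) (Nα Nβ : F → F') (q : ℕ)
    (w' : F') (π : F)
    (V1 V2 : ValuationSubring F') (VFF Vmid VVV : ValuationSubring F)
    (Tα : NormTable α Nα q w' π V1 V2 VFF Vmid VVV)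
    (Tβ : NormTable β Nβ q w' π V2 V1 VVV Vmid VFF)
    (u : F) (humid : Vmid.valuation u = 1) :
    ∃ b c : F', V2.valuation b = 1 ∧ V2.valuation c = 1 ∧
      PU Vmid (u / β b) ∧ PU VVV (α c * (β b) ^ q) := by
  obtain ⟨b, hb⟩ := Tβ.res_r u humid
  have hβb : Vmid.valuation (β b) = 1 := val_eq_one_of_sub_lt humid hb
  have hb1 : V2.valuation b = 1 := (over_val_eq_one Tβ.over_r b).1 hβb
  have hβbV : VVV.valuation (β b) = 1 := (over_val_eq_one Tβ.over_u b).2 hb1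
  have hβb0 : β b ≠ 0 := ne_of_val hβbV
  have hy : VVV.valuation (β b)⁻¹ = 1 := by rw [map_inv₀, hβbV, inv_one]
  obtain ⟨c, hc⟩ := Tα.res_i (β b)⁻¹ hy
  have hyq : VVV.valuation ((β b)⁻¹ ^ q) = 1 := by rw [map_pow, hy, one_pow]
  have hαc : VVV.valuation (α c) = 1 := val_eq_one_of_sub_lt hyq hc
  have hc1 : V2.valuation c = 1 := (over_val_eq_one Tα.over_i c).1 hαc
  refine ⟨b, c, hb1, hc1, pu_div_of_sub hβb hb, ?_⟩
  -- `α c ≡ (β b)⁻¹ ^ q`
  have h1 : PU VVV ((β b)⁻¹ ^ q / α c) := pu_div_of_sub hαc hc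
  have e : α c * (β b) ^ q = ((β b)⁻¹ ^ q / α c)⁻¹ := by
    have hαc0 : α c ≠ 0 := ne_of_val hαc
    rw [inv_pow]
    field_simp
  rw [e]
  exact h1.inv

/-- **W-SUB, reduction half (abstract core).** -/
theorem redSub_core
    (α β : F' →+* F) (Nα Nβ : F → F') (q m : ℕ)
    (w' : F') (π : F)
    (V1 V2 : ValuationSubring F') (VFF Vmid VVV : ValuationSubring F)
    (Tα : NormTable α Nα q w' π V1 V2 VFF Vmid VVV)
    (Tβ : NormTable β Nβ q w' π V2 V1 VVV Vmid VFF)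
    (hap_res : ∀ g₁ g₂ g₃ : F, VFF.valuation g₁ = 1 → Vmid.valuation g₂ = 1 →
      VVV.valuation g₃ = 1 → ∃ g : F, PU VFF (g / g₁) ∧ PU Vmid (g / g₂) ∧ PU VVV (g / g₃))
    (u : F) (huFF : PU VFF u) (huVV : PU VVV u)
    (b c : F') (hb1 : V2.valuation b = 1)
    (hub : PU Vmid (u / β b)) (hcb : PU VVV (α c * (β b) ^ q))
    (q' j : ℕ) (hqq : q * q' = 1 + j * m)
    (g g' h h' : F') (hg1 : PU V1 g) (hg'1 : PU V1 g')
    (hh : V2.valuation h = 1) (hh' : V2.valuation h' = 1)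
    (hg' : PU V2 (g' / (b * h ^ m))) (hg : PU V2 (g / (c ^ q' * h' ^ m))) :
    ∃ G : F, G ≠ 0 ∧ PU VFF (u / (α g * β g' * G ^ m)) ∧
      PU Vmid (u / (α g * β g' * G ^ m)) ∧ PU VVV (u / (α g * β g' * G ^ m)) := by
  -- units
  have hb0 : b ≠ 0 := ne_of_val hb1
  have hh0 : h ≠ 0 := ne_of_val hh
  have hh'0 : h' ≠ 0 := ne_of_val hh'
  have hB0 : β b ≠ 0 := (map_ne_zero β).2 hb0
  have hH0 : β h ≠ 0 := (map_ne_zero β).2 hh0
  have hH'0 : α h' ≠ 0 := (map_ne_zero α).2 hh'0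
  have hBmid : Vmid.valuation (β b) = 1 := (over_val_eq_one Tβ.over_r b).2 hb1
  have hBVV : VVV.valuation (β b) = 1 := (over_val_eq_one Tβ.over_u b).2 hb1
  have hHmid : Vmid.valuation (β h) = 1 := (over_val_eq_one Tβ.over_r h).2 hh
  have hHVV : VVV.valuation (β h) = 1 := (over_val_eq_one Tβ.over_u h).2 hh
  have hH'VV : VVV.valuation (α h') = 1 := (over_val_eq_one Tα.over_i h').2 hh'
  have hg0 : g ≠ 0 := hg1.ne_zero
  have hg'0 : g' ≠ 0 := hg'1.ne_zero
  have hA0 : α g ≠ 0 := (map_ne_zero α).2 hg0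
  have hA'0 : β g' ≠ 0 := (map_ne_zero β).2 hg'0
  have hC0 : α c ≠ 0 := by
    intro h0
    rw [h0, zero_mul] at hcb
    exact hcb.ne_zero rfl
  -- the pull-backs at the three places
  have aFF : PU VFF (α g) := (over_pu Tα.over_u g).2 hg1
  have amid : PU Vmid (α g) := (over_pu Tα.over_r g).2 hg1
  have a'FF : PU VFF (β g') := (over_pu Tβ.over_i g').2 hg'1
  have a'mid : PU Vmid (β g' / (β b * (β h) ^ m)) := by
    have := (over_pu Tβ.over_r _).2 hg'
    rwa [map_div₀, map_mul, map_pow] at this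
  have a'VV : PU VVV (β g' / (β b * (β h) ^ m)) := by
    have := (over_pu Tβ.over_u _).2 hg'
    rwa [map_div₀, map_mul, map_pow] at this
  have aVV : PU VVV (α g / ((α c) ^ q' * (α h') ^ m)) := by
    have := (over_pu Tα.over_i _).2 hg
    rwa [map_div₀, map_mul, map_pow, map_pow] at this
  -- approximation
  obtain ⟨G, hG1, hG2, hG3⟩ := hap_res 1 (β h)⁻¹ ((β b) ^ j * (α h' * β h)⁻¹) (map_one _)
    (by rw [map_inv₀, hHmid, inv_one])
    (by rw [map_mul, map_inv₀, map_mul, map_pow, hBVV, hH'VV, hHVV, one_pow, one_mul, one_mul,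
      inv_one])
  have hG0 : G ≠ 0 := by
    intro h0
    rw [h0, zero_div] at hG1
    exact hG1.ne_zero rfl
  have hGm0 : G ^ m ≠ 0 := pow_ne_zero _ hG0
  refine ⟨G, hG0, ?_, ?_, ?_⟩
  · have e : u / (α g * β g' * G ^ m) = u * (α g)⁻¹ * (β g')⁻¹ * ((G / 1) ^ m)⁻¹ := by
      rw [div_one]
      field_simp
    rw [e]
    exact ((huFF.mul aFF.inv).mul a'FF.inv).mul (hG1.pow m).inv
  · have e : u / (α g * β g' * G ^ m) =
        (u / β b) * (α g)⁻¹ * (β g' / (β b * (β h) ^ m))⁻¹ * ((G / (β h)⁻¹) ^ m)⁻¹ := by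
      rw [div_pow, inv_pow]
      field_simp
    rw [e]
    exact ((hub.mul amid.inv).mul a'mid.inv).mul (hG2.pow m).inv
  · have e : u / (α g * β g' * G ^ m) =
        u * (α g / ((α c) ^ q' * (α h') ^ m))⁻¹ * (β g' / (β b * (β h) ^ m))⁻¹ *
          ((G / ((β b) ^ j * (α h' * β h)⁻¹)) ^ m)⁻¹ * ((α c * (β b) ^ q) ^ q')⁻¹ := by
      have hpow : (β b) ^ (q * q') = β b * ((β b) ^ j) ^ m := by
        rw [hqq, pow_add, pow_one, pow_mul]
      rw [div_pow, mul_pow (α c), ← pow_mul, hpow, mul_pow ((β b) ^ j), inv_pow, mul_pow]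
      field_simp
    rw [e]
    exact ((((huVV.mul aVV.inv).mul a'VV.inv).mul (hG3.pow m).inv)).mul (hcb.pow q').inv

end RedSub

end Fermat.Agent.S59.LoSqC.H987

end
-- ===== PACK-END S59/LoSqC/H987/RedSubCore.lean

-- ===== PACK-BEGIN S59/LoSqC/H987/RedGenCore.lean
section


/-!
# S59 / cell (C) LO-SQ, REALIZE, reduction half in MIXED form (helper987): abstract core

Setting of `S36/H586/StepAB.lean` (`H586.NormTable` for `α` and `β`).  Let `u` be a unit at
`V_FF`, `V_mid`, `V_VV` (NO newness).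

* `exists_red_triple` : there are `a₁ b₂ c : F'` (units at `V1`, `V2`, `V2`) with
  `u ≡ α a₁` on `V_FF`, `u ≡ α a₁ · β b₂` on `V_mid`, `α c ≡ (u / β b₂) ^ q` on `V_VV`.
* `redGen_core` : for `g ≡ (a₁ h₁ ^ m, c ^ q' h₂ ^ m)` and `g' ≡ (h₁' ^ m, b₂ h₂' ^ m)` on `(V1, V2)`
  (`q q' = 1 + j m`) there is `G ≠ 0` with `u / (α g · β g' · G ^ m) ≡ 1` on the three places.
-/

set_option autoImplicit false

namespace Fermat.Agent.S59.LoSqC.H987

open Fermat.Agent.S36.H586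

section RedGen

variable {F' F : Type*} [Field F'] [Field F]

theorem val_one_ne_zero_987 {V : ValuationSubring F} {z : F} (hz : V.valuation z = 1) :
    z ≠ 0 := by
  intro h0
  rw [h0, map_zero] at hz
  exact zero_ne_one hz

/-- The residues to be realised at level `M q` (mixed form). -/
theorem exists_red_triple
    (α β : F' →+* F) (Nα Nβ : F → F') (q : ℕ)
    (w' : F') (π : F)
    (V1 V2 : ValuationSubring F') (VFF Vmid VVV : ValuationSubring F)
    (Tα : NormTable α Nα q w' π V1 V2 VFF Vmid VVV)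
    (Tβ : NormTable β Nβ q w' π V2 V1 VVV Vmid VFF)
    (u : F) (huFF : VFF.valuation u = 1) (humid : Vmid.valuation u = 1)
    (huVV : VVV.valuation u = 1) :
    ∃ a₁ b₂ c : F', V1.valuation a₁ = 1 ∧ V2.valuation b₂ = 1 ∧ V2.valuation c = 1 ∧
      PU VFF (u / α a₁) ∧ PU Vmid (u / (α a₁ * β b₂)) ∧
      PU VVV ((u / β b₂) ^ q / α c) := by
  obtain ⟨a₁, ha₁⟩ := Tα.res_u u huFF
  have hαa₁FF : VFF.valuation (α a₁) = 1 := val_eq_one_of_sub_lt huFF ha₁
  have ha₁1 : V1.valuation a₁ = 1 := (over_val_eq_one Tα.over_u a₁).1 hαa₁FF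
  have hαa₁mid : Vmid.valuation (α a₁) = 1 := (over_val_eq_one Tα.over_r a₁).2 ha₁1
  have hαa₁0 : α a₁ ≠ 0 := val_one_ne_zero_987 hαa₁FF
  have hy : Vmid.valuation (u / α a₁) = 1 := by rw [map_div₀, humid, hαa₁mid, div_one]
  obtain ⟨b₂, hb₂⟩ := Tβ.res_r (u / α a₁) hy
  have hβb₂mid : Vmid.valuation (β b₂) = 1 := val_eq_one_of_sub_lt hy hb₂
  have hb₂1 : V2.valuation b₂ = 1 := (over_val_eq_one Tβ.over_r b₂).1 hβb₂mid
  have hβb₂VV : VVV.valuation (β b₂) = 1 := (over_val_eq_one Tβ.over_u b₂).2 hb₂1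
  have hβb₂0 : β b₂ ≠ 0 := val_one_ne_zero_987 hβb₂mid
  have hz : VVV.valuation (u / β b₂) = 1 := by rw [map_div₀, huVV, hβb₂VV, div_one]
  obtain ⟨c, hc⟩ := Tα.res_i (u / β b₂) hz
  have hzq : VVV.valuation ((u / β b₂) ^ q) = 1 := by rw [map_pow, hz, one_pow]
  have hαc : VVV.valuation (α c) = 1 := val_eq_one_of_sub_lt hzq hc
  have hc1 : V2.valuation c = 1 := (over_val_eq_one Tα.over_i c).1 hαc
  refine ⟨a₁, b₂, c, ha₁1, hb₂1, hc1, pu_div_of_sub hαa₁FF ha₁, ?_, pu_div_of_sub hαc hc⟩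
  have h1 : PU Vmid (u / α a₁ / β b₂) := pu_div_of_sub hβb₂mid hb₂
  have e : u / (α a₁ * β b₂) = u / α a₁ / β b₂ := by field_simp
  rw [e]
  exact h1

/-- **REALIZE, reduction half in mixed form (abstract core).** -/
theorem redGen_core
    (α β : F' →+* F) (Nα Nβ : F → F') (q m : ℕ)
    (w' : F') (π : F)
    (V1 V2 : ValuationSubring F') (VFF Vmid VVV : ValuationSubring F)
    (Tα : NormTable α Nα q w' π V1 V2 VFF Vmid VVV)
    (Tβ : NormTable β Nβ q w' π V2 V1 VVV Vmid VFF)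
    (hap_res : ∀ g₁ g₂ g₃ : F, VFF.valuation g₁ = 1 → Vmid.valuation g₂ = 1 →
      VVV.valuation g₃ = 1 → ∃ g : F, PU VFF (g / g₁) ∧ PU Vmid (g / g₂) ∧ PU VVV (g / g₃))
    (u : F) (huVV : VVV.valuation u = 1)
    (a₁ b₂ c : F') (ha₁ : V1.valuation a₁ = 1) (hb₂ : V2.valuation b₂ = 1)
    (hc : V2.valuation c = 1)
    (hu1 : PU VFF (u / α a₁)) (hu2 : PU Vmid (u / (α a₁ * β b₂)))
    (hu3 : PU VVV ((u / β b₂) ^ q / α c))
    (q' j : ℕ) (hqq : q * q' = 1 + j * m)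
    (g g' h₁ h₂ h₁' h₂' : F') (hh₁ : V1.valuation h₁ = 1) (hh₂ : V2.valuation h₂ = 1)
    (hh₁' : V1.valuation h₁' = 1) (hh₂' : V2.valuation h₂' = 1)
    (hg1 : PU V1 (g / (a₁ * h₁ ^ m))) (hg2 : PU V2 (g / (c ^ q' * h₂ ^ m)))
    (hg'1 : PU V1 (g' / h₁' ^ m)) (hg'2 : PU V2 (g' / (b₂ * h₂' ^ m))) :
    ∃ G : F, G ≠ 0 ∧ PU VFF (u / (α g * β g' * G ^ m)) ∧
      PU Vmid (u / (α g * β g' * G ^ m)) ∧ PU VVV (u / (α g * β g' * G ^ m)) := by
  -- nonvanishing and units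
  have ha₁0 : a₁ ≠ 0 := val_one_ne_zero_987 ha₁
  have hb₂0 : b₂ ≠ 0 := val_one_ne_zero_987 hb₂
  have hc0 : c ≠ 0 := val_one_ne_zero_987 hc
  have hh₁0 : h₁ ≠ 0 := val_one_ne_zero_987 hh₁
  have hh₂0 : h₂ ≠ 0 := val_one_ne_zero_987 hh₂
  have hh₂'0 : h₂' ≠ 0 := val_one_ne_zero_987 hh₂'
  have hh₁'0 : h₁' ≠ 0 := val_one_ne_zero_987 hh₁'
  have hH₁'0 : β h₁' ≠ 0 := (map_ne_zero β).2 hh₁'0
  have hH₁'FF : VFF.valuation (β h₁') = 1 := (over_val_eq_one Tβ.over_i h₁').2 hh₁'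
  have hA₁0 : α a₁ ≠ 0 := (map_ne_zero α).2 ha₁0
  have hB₂0 : β b₂ ≠ 0 := (map_ne_zero β).2 hb₂0
  have hC0 : α c ≠ 0 := (map_ne_zero α).2 hc0
  have hH₁0 : α h₁ ≠ 0 := (map_ne_zero α).2 hh₁0
  have hH₂0 : α h₂ ≠ 0 := (map_ne_zero α).2 hh₂0
  have hH₂'0 : β h₂' ≠ 0 := (map_ne_zero β).2 hh₂'0
  have hu0 : u ≠ 0 := val_one_ne_zero_987 huVV
  have hg0 : g ≠ 0 := by
    rintro rfl
    rw [zero_div] at hg1
    exact hg1.ne_zero rfl
  have hg'0 : g' ≠ 0 := by
    rintro rfl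
    rw [zero_div] at hg'1
    exact hg'1.ne_zero rfl
  have hG0' : α g ≠ 0 := (map_ne_zero α).2 hg0
  have hG'0' : β g' ≠ 0 := (map_ne_zero β).2 hg'0
  have hH₁FF : VFF.valuation (α h₁) = 1 := (over_val_eq_one Tα.over_u h₁).2 hh₁
  have hH₁mid : Vmid.valuation (α h₁) = 1 := (over_val_eq_one Tα.over_r h₁).2 hh₁
  have hH₂VV : VVV.valuation (α h₂) = 1 := (over_val_eq_one Tα.over_i h₂).2 hh₂
  have hH₂'mid : Vmid.valuation (β h₂') = 1 := (over_val_eq_one Tβ.over_r h₂').2 hh₂'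
  have hH₂'VV : VVV.valuation (β h₂') = 1 := (over_val_eq_one Tβ.over_u h₂').2 hh₂'
  have hBVV : VVV.valuation (β b₂) = 1 := (over_val_eq_one Tβ.over_u b₂).2 hb₂
  -- pull-backs
  have gFF : PU VFF (α g / (α a₁ * (α h₁) ^ m)) := by
    have := (over_pu Tα.over_u _).2 hg1
    rwa [map_div₀, map_mul, map_pow] at this
  have gmid : PU Vmid (α g / (α a₁ * (α h₁) ^ m)) := by
    have := (over_pu Tα.over_r _).2 hg1
    rwa [map_div₀, map_mul, map_pow] at this
  have gVV : PU VVV (α g / ((α c) ^ q' * (α h₂) ^ m)) := by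
    have := (over_pu Tα.over_i _).2 hg2
    rwa [map_div₀, map_mul, map_pow, map_pow] at this
  have g'FF : PU VFF (β g' / (β h₁') ^ m) := by
    have := (over_pu Tβ.over_i _).2 hg'1
    rwa [map_div₀, map_pow] at this
  have g'mid : PU Vmid (β g' / (β b₂ * (β h₂') ^ m)) := by
    have := (over_pu Tβ.over_r _).2 hg'2
    rwa [map_div₀, map_mul, map_pow] at this
  have g'VV : PU VVV (β g' / (β b₂ * (β h₂') ^ m)) := by
    have := (over_pu Tβ.over_u _).2 hg'2
    rwa [map_div₀, map_mul, map_pow] at this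
  -- approximation
  have hyVV : VVV.valuation (u / β b₂) = 1 := by rw [map_div₀, huVV, hBVV, div_one]
  obtain ⟨G, hG1, hG2, hG3⟩ := hap_res (α h₁ * β h₁')⁻¹ (α h₁ * β h₂')⁻¹
    (((u / β b₂) ^ j * (α h₂ * β h₂'))⁻¹)
    (by rw [map_inv₀, map_mul, hH₁FF, hH₁'FF, one_mul, inv_one])
    (by rw [map_inv₀, map_mul, hH₁mid, hH₂'mid, one_mul, inv_one])
    (by rw [map_inv₀, map_mul, map_mul, map_pow, hyVV, hH₂VV, hH₂'VV, one_pow, one_mul, one_mul,
      inv_one])
  have hG0 : G ≠ 0 := by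
    intro h0
    rw [h0, zero_div] at hG1
    exact hG1.ne_zero rfl
  have hGm0 : G ^ m ≠ 0 := pow_ne_zero _ hG0
  refine ⟨G, hG0, ?_, ?_, ?_⟩
  · have e : u / (α g * β g' * G ^ m) =
        (u / α a₁) * (α g / (α a₁ * (α h₁) ^ m))⁻¹ * (β g' / (β h₁') ^ m)⁻¹ *
          ((G / (α h₁ * β h₁')⁻¹) ^ m)⁻¹ := by
      rw [div_pow, inv_pow, mul_pow]
      field_simp
    rw [e]
    exact ((hu1.mul gFF.inv).mul g'FF.inv).mul (hG1.pow m).inv
  · have e : u / (α g * β g' * G ^ m) =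
        (u / (α a₁ * β b₂)) * (α g / (α a₁ * (α h₁) ^ m))⁻¹ *
          (β g' / (β b₂ * (β h₂') ^ m))⁻¹ * ((G / (α h₁ * β h₂')⁻¹) ^ m)⁻¹ := by
      rw [div_pow, inv_pow, mul_pow]
      field_simp
    rw [e]
    exact ((hu2.mul gmid.inv).mul g'mid.inv).mul (hG2.pow m).inv
  · have hpow : (u / β b₂) ^ (q * q') = (u / β b₂) * ((u / β b₂) ^ j) ^ m := by
      rw [hqq, pow_add, pow_one, pow_mul]
    have e : u / (α g * β g' * G ^ m) =
        (α g / ((α c) ^ q' * (α h₂) ^ m))⁻¹ * (β g' / (β b₂ * (β h₂') ^ m))⁻¹ *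
          ((G / ((u / β b₂) ^ j * (α h₂ * β h₂'))⁻¹) ^ m)⁻¹ *
          (((u / β b₂) ^ q / α c) ^ q') := by
      rw [div_pow (_ ^ q), ← pow_mul, hpow, div_pow G, inv_pow, mul_pow ((u / β b₂) ^ j),
        mul_pow (α h₂), div_pow, div_pow]
      field_simp
    rw [e]
    exact ((gVV.inv.mul g'VV.inv).mul (hG3.pow m).inv).mul (hu3.pow q')

end RedGen

end Fermat.Agent.S59.LoSqC.H987

end
-- ===== PACK-END S59/LoSqC/H987/RedGenCore.lean

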