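import Mathlib
import Fermat.Prelude.Def_FLTPrelim_Modularity
import Fermat.Prelude.Def_ModularCurve_PeriodMap
import Fermat.Prelude.Def_GaloisRep_DeformationCondition
import Fermat.Prelude.Def_AlgebraicCurve_DivisorClassGroup
import Fermat.Prelude.Def_AlgebraicCurve_IsCurveOver
import Fermat.Prelude.Def_AlgebraicCurve_Repartitions
import Fermat.Agent.Pack.S43MC.G0E7L2
import Fermat.Agent.Pack.S44C.G0E1L3
import Fermat.Agent.Pack.S43GC.G0E5L0
import Fermat.Agent.Pack.S59C.E0L0
import Fermat.Agent.Pack.S43GC.G0E0L2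
import Fermat.Agent.Pack.S43MC.G0E3L2
import Fermat.Agent.Pack.S44C.G0E1L2
import Fermat.Agent.Pack.S43GC.G0E2L0
import Fermat.Agent.Pack.S43GC.G0E0L0
import Fermat.Agent.Pack.S44C.G0E3L2
import Fermat.Agent.Pack.S59C.E0L1

set_option linter.all false

-- ===== PACK-BEGIN S41/H945/HeisGroup.lean
section



/-!
# S41 / block PD / leaf HEIS — part 1: the Heisenberg group and twisted cocycles on `SL(2, ℤ)`

* `Heis R` : the Heisenberg group `R³`, `(a, b, c) * (a', b', c') = (a + a', b + b', c + c' + a * b')`.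
* `exists_twisted_cocycle` : if `-1` acts trivially on `X`, `H` is any group and `cS cU : X → H` satisfy
  `cS (S x) * cS x = 1`, `cU (U² x) * cU (U x) * cU x = 1` (`U = S * T`), then there is
  `C : SL(2, ℤ) → X → H` with `C (g * h) x = C g (h • x) * C h x`, `C S = cS`, `C U = cU`.
  (Non-abelian version of `Fermat.Agent.S21.H585.exists_cocycle`; same proof.)
-/

set_option autoImplicit false

namespace Fermat.Agent.S41.H945

open Matrix ModularGroup Fermat.Agent.S21.H585
open scoped MatrixGroups

/-- The Heisenberg group over `R`. -/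
@[ext] structure Heis (R : Type*) where
  /-- first coordinate -/
  a : R
  /-- second coordinate -/
  b : R
  /-- central coordinate -/
  c : R

namespace Heis

variable {R : Type*} [CommRing R]

instance : Mul (Heis R) := ⟨fun p q => ⟨p.a + q.a, p.b + q.b, p.c + q.c + p.a * q.b⟩⟩
instance : One (Heis R) := ⟨⟨0, 0, 0⟩⟩
instance : Inv (Heis R) := ⟨fun p => ⟨-p.a, -p.b, -p.c + p.a * p.b⟩⟩

@[simp] lemma mul_a (p q : Heis R) : (p * q).a = p.a + q.a := rfl
@[simp] lemma mul_b (p q : Heis R) : (p * q).b = p.b + q.b := rfl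
@[simp] lemma mul_c (p q : Heis R) : (p * q).c = p.c + q.c + p.a * q.b := rfl
@[simp] lemma one_a : (1 : Heis R).a = 0 := rfl
@[simp] lemma one_b : (1 : Heis R).b = 0 := rfl
@[simp] lemma one_c : (1 : Heis R).c = 0 := rfl
@[simp] lemma inv_a (p : Heis R) : (p⁻¹).a = -p.a := rfl
@[simp] lemma inv_b (p : Heis R) : (p⁻¹).b = -p.b := rfl
@[simp] lemma inv_c (p : Heis R) : (p⁻¹).c = -p.c + p.a * p.b := rfl

instance : Group (Heis R) where
  mul_assoc p q r := by ext <;> simp <;> ring
  one_mul p := by ext <;> simp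
  mul_one p := by ext <;> simp
  inv_mul_cancel p := by ext <;> simp

end Heis

section Twisted

variable {G : Type*} [Group G] {X : Type*} [MulAction G X] {H : Type*} [Group H]

/-- The permutation `(x, t) ↦ (g • x, c x * t)` of `X × H`. -/
def twPerm (g : G) (c : X → H) : Equiv.Perm (X × H) where
  toFun z := (g • z.1, c z.1 * z.2)
  invFun z := (g⁻¹ • z.1, (c (g⁻¹ • z.1))⁻¹ * z.2)
  left_inv z := by
    rcases z with ⟨x, t⟩
    simp
  right_inv z := by
    rcases z with ⟨x, t⟩
    simp

@[simp] lemma twPerm_apply (g : G) (c : X → H) (x : X) (t : H) :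
    twPerm g c (x, t) = (g • x, c x * t) := rfl

/-- Twisted (non-abelian) cocycles. -/
def IsTwCocycle (C : G → X → H) : Prop := ∀ g h x, C (g * h) x = C g (h • x) * C h x

lemma IsTwCocycle.map_one {C : G → X → H} (hC : IsTwCocycle C) (x : X) : C 1 x = 1 := by
  have := hC 1 1 x
  rw [one_mul, one_smul] at this
  exact (mul_eq_left.mp this.symm)

lemma IsTwCocycle.map_inv_mul {C : G → X → H} (hC : IsTwCocycle C) (g : G) (x : X) :
    C g⁻¹ (g • x) * C g x = 1 := by
  have := hC g⁻¹ g x
  rw [inv_mul_cancel, hC.map_one] at this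
  exact this.symm

end Twisted

/-- **Existence of twisted cocycles on `SL(2, ℤ)`** with prescribed values on `S` and `S * T`. -/
theorem exists_twisted_cocycle {X : Type*} [MulAction SL(2, ℤ) X] {H : Type*} [Group H]
    (hneg : ∀ x : X, (-1 : SL(2, ℤ)) • x = x) (cS cU : X → H)
    (hS : ∀ x, cS (S • x) * cS x = 1)
    (hU : ∀ x, cU ((S * T) • (S * T) • x) * cU ((S * T) • x) * cU x = 1) :
    ∃ C : SL(2, ℤ) → X → H, IsTwCocycle C ∧ C S = cS ∧ C (S * T) = cU := by
  have hs : (twPerm S cS : Equiv.Perm (X × H)) ^ 2 = 1 := by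
    ext ⟨x, t⟩ : 1
    rw [pow_two, Equiv.Perm.mul_apply, twPerm_apply, twPerm_apply, Equiv.Perm.one_apply,
      ← mul_smul, S_mul_S_eq_neg_one, hneg, ← mul_assoc, hS, one_mul]
  have hu : (twPerm (S * T) cU : Equiv.Perm (X × H)) ^ 3 = 1 := by
    ext ⟨x, t⟩ : 1
    rw [pow_succ, pow_two, Equiv.Perm.mul_apply, Equiv.Perm.mul_apply, twPerm_apply,
      twPerm_apply, twPerm_apply, Equiv.Perm.one_apply]
    have h1 : (S * T) • (S * T) • (S * T) • x = x := by
      rw [smul_smul, smul_smul, ST_cube_eq_neg_one, hneg]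
    rw [h1, ← mul_assoc, ← mul_assoc, hU, one_mul]
  obtain ⟨Φ, hΦS, hΦU⟩ := exists_hom_of_sq_cube _ _ hs hu
  -- every `Φ g` is twisted-affine over `g`
  have hP : ∀ g : SL(2, ℤ), ∃ m : X → H, ∀ x t, Φ g (x, t) = (g • x, m x * t) := by
    intro g
    have hg : g ∈ Subgroup.closure ({S, S * T} : Set SL(2, ℤ)) := by
      have hle : Subgroup.closure ({S, T} : Set SL(2, ℤ)) ≤
          Subgroup.closure ({S, S * T} : Set SL(2, ℤ)) := by
        rw [Subgroup.closure_le]
        rintro x (rfl | rfl)
        · exact Subgroup.subset_closure (by simp)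
        · have h1 : S ∈ Subgroup.closure ({S, S * T} : Set SL(2, ℤ)) :=
            Subgroup.subset_closure (by simp)
          have h2 : S * T ∈ Subgroup.closure ({S, S * T} : Set SL(2, ℤ)) :=
            Subgroup.subset_closure (by simp)
          have h3 := mul_mem (inv_mem h1) h2
          rwa [inv_mul_cancel_left] at h3
      apply hle
      rw [_root_.SpecialLinearGroup.SL2Z_generators]; trivial
    induction hg using Subgroup.closure_induction with
    | mem x hx =>
      rcases hx with rfl | rfl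
      · exact ⟨cS, fun x t => by rw [hΦS, twPerm_apply]⟩
      · exact ⟨cU, fun x t => by rw [hΦU, twPerm_apply]⟩
    | one => exact ⟨fun _ => 1, fun x t => by simp⟩
    | mul g h _ _ hg hh =>
      obtain ⟨m, hm⟩ := hg
      obtain ⟨n, hn⟩ := hh
      refine ⟨fun x => m (h • x) * n x, fun x t => ?_⟩
      rw [map_mul, Equiv.Perm.mul_apply, hn, hm, mul_smul, mul_assoc]
    | inv g _ hg =>
      obtain ⟨m, hm⟩ := hg
      refine ⟨fun x => (m (g⁻¹ • x))⁻¹, fun x t => ?_⟩
      rw [map_inv, Equiv.Perm.inv_eq_iff_eq, hm, smul_inv_smul]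
      simp
  choose m hm using hP
  refine ⟨m, ?_, ?_, ?_⟩
  · intro g h x
    have h1 := hm (g * h) x 1
    rw [map_mul, Equiv.Perm.mul_apply, hm h, hm g, mul_one, mul_one] at h1
    exact (congrArg Prod.snd h1).symm
  · funext x
    have h1 := hm S x 1
    rw [hΦS, twPerm_apply] at h1
    simpa using (congrArg Prod.snd h1).symm
  · funext x
    have h1 := hm (S * T) x 1
    rw [hΦU, twPerm_apply] at h1
    simpa using (congrArg Prod.snd h1).symm

end Fermat.Agent.S41.H945

end
-- ===== PACK-END S41/H945/HeisGroup.lean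

-- ===== PACK-BEGIN S41/Spec/Occ.lean
section






/-!
# Row S41, block OCC (sub-architect helper341): frozen statement

`OccStatement`: the mod-`p` eigensystem of the level-`N` eigenform `f` of S41 occurs in the cuspidal
classes `C_N(𝔽_p) ⊆ Hom(Γ₀(N), 𝔽_p)`:  there is `x ≠ 0`, cuspidal (`Spec.IsCuspidal` of `Spec/HK.lean`: vanishing on
the elements of trace `±2` and on the elements of finite order), with
* `T_ℓ x = a_ℓ(W) x` for every prime `ℓ ∤ N`, `ℓ ≠ p`, at which `W` is good (this contains `Σ`), and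
* `T_{q'} x = μ x` with `μ² = (q'+1)²` in `𝔽_p` (i.e. `μ = ±(q'+1)`).
`T_ℓ` is the Hecke transfer `Fermat.Agent.S29.H642.heckeTransfer` (on main).

Only `f`, `𝔪`, `hcong`, `hLR` of S41 are used (no `E`, no irreducibility).
-/

set_option autoImplicit false

namespace Fermat.Agent.S41.Spec

open CongruenceSubgroup
open scoped MatrixGroups

/-- **Block OCC.** -/
def OccStatement : Prop :=
  ∀ (W : WeierstrassCurve ℤ) (p N q' : ℕ) [NeZero N] (_hp : p.Prime) (hq' : q'.Prime)
    (hq'N : ¬ q' ∣ N)
    (f : CuspForm (Gamma0 N) 2) (𝔪 : Ideal (integralClosure ℤ ℂ))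
    (_hf : f.IsNormalizedEigenform) (_hmax : 𝔪.IsMaximal) (_hpm : (p : integralClosure ℤ ℂ) ∈ 𝔪)
    (_hcong : ∀ ℓ : ℕ, ℓ.Prime → W.IsGoodPrimeFor ℓ → ¬ ℓ ∣ N → ℓ ≠ p →
      ∃ a : integralClosure ℤ ℂ, (a : ℂ) = ModularFormClass.qCoeff f ℓ ∧
        a - ((W.apOfModel ℓ : ℤ) : integralClosure ℤ ℂ) ∈ 𝔪)
    (_hLR : ∃ a : integralClosure ℤ ℂ, (a : ℂ) = ModularFormClass.qCoeff f q' ∧
      a ^ 2 - ((q' : integralClosure ℤ ℂ) + 1) ^ 2 ∈ 𝔪),
    ∃ (x : Additive (Gamma0 N) →+ ZMod p) (μ : ZMod p),
      x ≠ 0 ∧ IsCuspidal x ∧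
      (∀ (ℓ : ℕ) [Fact ℓ.Prime] (hℓN : ¬ ℓ ∣ N), W.IsGoodPrimeFor ℓ → ℓ ≠ p →
        Fermat.Agent.S29.H642.heckeTransfer hℓN x = ((W.apOfModel ℓ : ℤ) : ZMod p) • x) ∧
      μ ^ 2 = ((q' : ZMod p) + 1) ^ 2 ∧
      (haveI : Fact q'.Prime := ⟨hq'⟩; Fermat.Agent.S29.H642.heckeTransfer hq'N x = μ • x)

end Fermat.Agent.S41.Spec

end
-- ===== PACK-END S41/Spec/Occ.lean

-- ===== PACK-BEGIN S59/H405/TWInvol.lean
section


/-!
# S59 / G-TW (helper405): involutions of determinant `-1` — Mathlib only

* `crs_mulVec`            : `crs (M v) (M u) = det M * crs v u`;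
* `exists_eigen_of_invol` : an involution `C` of determinant `-1` has eigenvectors `e₁, e₂`
  (eigenvalues `1, -1`) with `crs e₁ e₂ ≠ 0`;
* `eig_invol`             : over any extension field, every eigenvector of `C` is a multiple of
  `e₁` or of `e₂`.
-/

set_option autoImplicit false

namespace Fermat.Agent.S59.H405

open Matrix

section Invol

variable {F : Type*} [Field F]

theorem crs_mulVec (M : Matrix (Fin 2) (Fin 2) F) (v u : Fin 2 → F) :
    crs (M *ᵥ v) (M *ᵥ u) = M.det * crs v u := by
  unfold crs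
  rw [mulVec_apply_two, mulVec_apply_two, mulVec_apply_two, mulVec_apply_two, Matrix.det_fin_two]
  ring

/-- the standard basis vectors of `F²` -/
def vec2 (x y : F) : Fin 2 → F := ![x, y]

@[simp] theorem vec2_zero (x y : F) : vec2 x y 0 = x := rfl

@[simp] theorem vec2_one (x y : F) : vec2 x y 1 = y := rfl

theorem mulVec_vec2 (M : Matrix (Fin 2) (Fin 2) F) (x y : F) :
    M *ᵥ vec2 x y = vec2 (M 0 0 * x + M 0 1 * y) (M 1 0 * x + M 1 1 * y) := by
  funext i
  fin_cases i
  · show (M *ᵥ vec2 x y) 0 = _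
    rw [mulVec_apply_two]; rfl
  · show (M *ᵥ vec2 x y) 1 = _
    rw [mulVec_apply_two]; rfl

theorem vec2_ext {x y x' y' : F} (hx : x = x') (hy : y = y') : vec2 x y = vec2 x' y' := by
  rw [hx, hy]

theorem neg_vec2 (x y : F) : - vec2 x y = vec2 (-x) (-y) := by
  funext i
  fin_cases i <;> rfl

/-- An involution of determinant `-1` (characteristic `≠ 2`) has an eigenbasis with eigenvalues
`1` and `-1`. -/
theorem exists_eigen_of_invol (h2 : (2 : F) ≠ 0) (C : Matrix (Fin 2) (Fin 2) F)
    (hC : C * C = 1) (hdet : C.det = -1) :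
    ∃ e₁ e₂ : Fin 2 → F, C *ᵥ e₁ = e₁ ∧ C *ᵥ e₂ = - e₂ ∧ crs e₁ e₂ ≠ 0 := by
  have h00 := congrFun (congrFun hC 0) 0
  have h01 := congrFun (congrFun hC 0) 1
  have h10 := congrFun (congrFun hC 1) 0
  have h11 := congrFun (congrFun hC 1) 1
  simp only [Matrix.mul_apply, Fin.sum_univ_two, Matrix.one_apply_eq, Matrix.one_apply_ne,
    ne_eq, Fin.reduceEq, not_false_eq_true, Fin.isValue] at h00 h01 h10 h11
  rw [Matrix.det_fin_two] at hdet
  set a := C 0 0 with ha
  set b := C 0 1 with hb
  set c := C 1 0 with hc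
  set d := C 1 1 with hd
  -- the trace vanishes
  have htr : a + d = 0 := by
    by_contra hne
    have hb0 : b = 0 := by
      have : (a + d) * b = 0 := by linear_combination h01
      rcases mul_eq_zero.mp this with h | h
      · exact absurd h hne
      · exact h
    have hc0 : c = 0 := by
      have : (a + d) * c = 0 := by linear_combination h10
      rcases mul_eq_zero.mp this with h | h
      · exact absurd h hne
      · exact h
    have had : a = d := by
      have : (a + d) * (a - d) = 0 := by linear_combination h00 - h11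
      rcases mul_eq_zero.mp this with h | h
      · exact absurd h hne
      · exact sub_eq_zero.mp h
    apply h2
    linear_combination hdet - h11 - d * had + 2 * c * hb0
  have hd' : d = -a := by linear_combination htr
  have hq : a * a + b * c = 1 := h00
  by_cases hc0 : c = 0
  · by_cases hb0 : b = 0
    · -- diagonal case
      have ha2 : (a - 1) * (a + 1) = 0 := by
        rw [hb0] at hq
        linear_combination hq
      rcases mul_eq_zero.mp ha2 with h | h
      · have ha1 : a = 1 := sub_eq_zero.mp h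
        refine ⟨vec2 1 0, vec2 0 1, ?_, ?_, ?_⟩
        · rw [mulVec_vec2]
          apply vec2_ext
          · rw [← ha, ha1]; ring
          · rw [← hc, hc0]; ring
        · rw [mulVec_vec2, neg_vec2]
          apply vec2_ext
          · rw [← hb, hb0]; ring
          · rw [← hd, hd', ha1]; ring
        · unfold crs
          simp
      · have ha1 : a = -1 := by linear_combination h
        refine ⟨vec2 0 1, vec2 1 0, ?_, ?_, ?_⟩
        · rw [mulVec_vec2]
          apply vec2_ext
          · rw [← hb, hb0]; ring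
          · rw [← hd, hd', ha1]; ring
        · rw [mulVec_vec2, neg_vec2]
          apply vec2_ext
          · rw [← ha, ha1]; ring
          · rw [← hc, hc0]; ring
        · unfold crs
          simp
    · refine ⟨vec2 b (1 - a), vec2 b (-(1 + a)), ?_, ?_, ?_⟩
      · rw [mulVec_vec2]
        apply vec2_ext
        · rw [← ha, ← hb]; ring
        · rw [← hc, ← hd, hd']
          linear_combination hq
      · rw [mulVec_vec2, neg_vec2]
        apply vec2_ext
        · rw [← ha, ← hb]; ring
        · rw [← hc, ← hd, hd']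
          linear_combination hq
      · unfold crs
        simp only [vec2_zero, vec2_one]
        intro h
        have : (2 : F) * b = 0 := by linear_combination -h
        rcases mul_eq_zero.mp this with h | h
        · exact h2 h
        · exact hb0 h
  · refine ⟨vec2 (1 + a) c, vec2 (a - 1) c, ?_, ?_, ?_⟩
    · rw [mulVec_vec2]
      apply vec2_ext
      · rw [← ha, ← hb]
        linear_combination hq
      · rw [← hc, ← hd, hd']; ring
    · rw [mulVec_vec2, neg_vec2]
      apply vec2_ext
      · rw [← ha, ← hb]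
        linear_combination hq
      · rw [← hc, ← hd, hd']; ring
    · unfold crs
      simp only [vec2_zero, vec2_one]
      intro h
      have : (2 : F) * c = 0 := by linear_combination h
      rcases mul_eq_zero.mp this with h | h
      · exact h2 h
      · exact hc0 h

variable {K : Type*} [Field K] (φ : F →+* K)

/-- Over an extension field, the eigenvectors of an involution of determinant `-1` are the
multiples of the two rational eigenvectors. -/
theorem eig_invol (h2 : (2 : F) ≠ 0) (C : Matrix (Fin 2) (Fin 2) F) (hdet : C.det = -1)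
    {e₁ e₂ : Fin 2 → F} (h₁ : C *ᵥ e₁ = e₁) (h₂ : C *ᵥ e₂ = - e₂)
    (v : Fin 2 → K) (hv : IsEig (C.map φ) v) :
    crs v (φ ∘ e₁) = 0 ∨ crs v (φ ∘ e₂) = 0 := by
  obtain ⟨a, ha⟩ := hv
  have hdetK : (C.map φ).det = -1 := by
    have := RingHom.map_det φ C
    rw [RingHom.mapMatrix_apply] at this
    rw [← this, hdet, map_neg, map_one]
  have hE₁ : (C.map φ) *ᵥ (φ ∘ e₁) = φ ∘ e₁ := by rw [map_mulVec_comp, h₁]
  have hE₂ : (C.map φ) *ᵥ (φ ∘ e₂) = - (φ ∘ e₂) := by
    rw [map_mulVec_comp, h₂]
    funext i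
    simp only [Function.comp_apply, Pi.neg_apply, map_neg]
  have k1 := crs_mulVec (C.map φ) v (φ ∘ e₁)
  have k2 := crs_mulVec (C.map φ) v (φ ∘ e₂)
  rw [ha, hE₁, hdetK, crs_smul_left] at k1
  rw [ha, hE₂, hdetK, crs_smul_left] at k2
  have k2' : crs v (-(φ ∘ e₂)) = - crs v (φ ∘ e₂) := by
    have : -(φ ∘ e₂) = (-1 : K) • (φ ∘ e₂) := by rw [neg_one_smul]
    rw [this, crs_smul_right]; ring
  rw [k2'] at k2
  have h2K : (2 : K) ≠ 0 := by
    intro h
    apply h2
    have : φ 2 = 0 := by rw [map_ofNat]; exact h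
    exact (map_eq_zero φ).mp this
  -- `(a + 1) * crs v E₁ = 0` and `(a - 1) * crs v E₂ = 0`
  have m1 : (a + 1) * crs v (φ ∘ e₁) = 0 := by linear_combination k1
  have m2 : (a - 1) * crs v (φ ∘ e₂) = 0 := by linear_combination -k2
  rcases mul_eq_zero.mp m1 with h | h
  · rcases mul_eq_zero.mp m2 with h' | h'
    · exfalso
      apply h2K
      linear_combination h - h'
    · exact Or.inr h'
  · exact Or.inl h

end Invol

end Fermat.Agent.S59.H405

end
-- ===== PACK-END S59/H405/TWInvol.lean

-- ===== PACK-BEGIN S59/NMP/H437/RedTCore.lean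
section



/-!
# Row S59, cell NMP, leaf RED-T — core (helper437)

`redT_core`: a deformation condition satisfied by a representation `ρ` over a complete Noetherian
local `𝒪`-algebra `T` (with residue field `k = 𝒪/𝔪`) is satisfied by any model `ρ̄` of its residual
representation.  Proof: test `𝒟 ρ` on the Artinian quotient `T → k_T` (`iff_forall_surjective`),
identify `ρ ⊗ k_T` with `ρ̄ ⊗_k k_T` through the matrix dictionary of `S53/Dict`, and descend
along the injection `k → k_T` (`of_baseChangeAlong_injective`).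

Imports only `S53/Dict` + Prelude; the verbatim leaf is in `RedT.lean`.
-/

set_option autoImplicit false

open IsLocalRing

namespace Fermat.Agent.S59.NMP.H437

open Fermat.Agent.S53

section Field

variable {k : Type} [Field k]

/-- An equivalence of residual representations is an equivalence of the associated
adic representations over the field. -/
def ofResidualEquiv437 {ρ₁ ρ₂ : ResidualGaloisRep k} (e : ResidualGaloisRep.Equiv ρ₁ ρ₂) :
    GaloisRepAdic.Equiv (GaloisRepAdic.ofResidualGaloisRep ρ₁)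
      (GaloisRepAdic.ofResidualGaloisRep ρ₂) :=
  { toLinearEquiv := e.toLinearEquiv
    map_apply := e.map_apply }

/-- `ofResidualGaloisRep` commutes with base change along a homomorphism of fields
(definitionally). -/
def ofResidualBaseChange437 {k' : Type} [Field k'] (ψ : k →+* k') (hψ : IsLocalHom ψ)
    (ρb : ResidualGaloisRep k) :
    GaloisRepAdic.Equiv (GaloisRepAdic.ofResidualGaloisRep (ρb.baseChangeAlong ψ))
      ((GaloisRepAdic.ofResidualGaloisRep ρb).baseChangeAlong ψ hψ) :=
  letI : Algebra k k' := ψ.toAlgebra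
  { toLinearEquiv := LinearEquiv.refl k' (TensorProduct k k' ρb.V)
    map_apply := fun _ _ => rfl }

/-- The matrix models: `toAdic` over a field is `ofResidualGaloisRep` of `toRes`. -/
theorem toAdic_isEquiv_ofResidual_toRes437 (r : GQ →* M2 k) (hr : MatCont r)
    (hr' : GaloisFactorsThroughFiniteLevel r) :
    (toAdic r hr).IsEquiv (GaloisRepAdic.ofResidualGaloisRep (toRes r hr')) :=
  ⟨⟨LinearEquiv.refl k (Fin 2 → k), fun _ _ => rfl⟩⟩

end Field

/-- A field with an `𝒪`-algebra structure whose structure map is onto is an Artinian test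
algebra. -/
theorem isArtinianTestAlgebra_of_field437 (𝒪 : Type) [CommRing 𝒪] [IsLocalRing 𝒪]
    (K : Type) [Field K] [Algebra 𝒪 K] (hloc : IsLocalHom (algebraMap 𝒪 K))
    (hsurj : Function.Surjective (algebraMap 𝒪 K)) :
    GaloisRep.IsArtinianTestAlgebra 𝒪 K where
  isLocalHom := hloc
  residue_surjective := (residue_surjective (R := K)).comp hsurj
  isArtinian := inferInstance

/-- **RED-T**, core form. -/
theorem redT_core (𝒪 : Type) [CommRing 𝒪] [IsLocalRing 𝒪]
    (𝒟 : ∀ ⦃A : Type⦄ [CommRing A] [IsLocalRing A] [Algebra 𝒪 A], GaloisRepAdic A → Prop)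
    (h𝒟 : GaloisRep.IsDeformationCondition 𝒪 𝒟)
    (T : Type) [CommRing T] [IsLocalRing T] [IsNoetherianRing T]
    [IsAdicComplete (maximalIdeal T) T] [Algebra 𝒪 T] [IsLocalHom (algebraMap 𝒪 T)]
    (hT : Function.Surjective (residue T ∘ algebraMap 𝒪 T))
    (ρ : GaloisRepAdic T) (ρbar : ResidualGaloisRep (ResidueField 𝒪))
    (hres : ρ.residual.IsEquiv (ρbar.baseChangeAlong (ResidueField.map (algebraMap 𝒪 T))))
    (hD : 𝒟 ρ) : 𝒟 (GaloisRepAdic.ofResidualGaloisRep ρbar) := by
  -- the two test algebras `k = 𝒪/𝔪` and `k_T = T/𝔪_T`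
  have hk : GaloisRep.IsArtinianTestAlgebra 𝒪 (ResidueField 𝒪) :=
    isArtinianTestAlgebra_of_field437 𝒪 (ResidueField 𝒪)
      (inferInstanceAs (IsLocalHom (residue 𝒪))) residue_surjective
  have hlocT : IsLocalHom (algebraMap 𝒪 (ResidueField T)) := by
    have h1 : algebraMap 𝒪 (ResidueField T) = (residue T).comp (algebraMap 𝒪 T) := rfl
    rw [h1]
    exact RingHom.isLocalHom_comp _ _
  have hsurjT : Function.Surjective (algebraMap 𝒪 (ResidueField T)) := hT
  have hkT : GaloisRep.IsArtinianTestAlgebra 𝒪 (ResidueField T) :=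
    isArtinianTestAlgebra_of_field437 𝒪 (ResidueField T) hlocT hsurjT
  -- the quotient map `q : T → k_T` as an `𝒪`-algebra map
  let q : T →ₐ[𝒪] ResidueField T := IsScalarTower.toAlgHom 𝒪 T (ResidueField T)
  have hqcoe : (q : T →+* ResidueField T) = residue T := rfl
  have hq : IsLocalHom (q : T →+* ResidueField T) := by
    rw [hqcoe]; infer_instance
  have hqsurj : Function.Surjective q := residue_surjective
  have h1 : 𝒟 (ρ.baseChangeAlong (q : T →+* ResidueField T) hq) :=
    (h𝒟.iff_forall_surjective inferInstance hT ρ).1 hD hkT q hq hqsurj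
  -- the injection `φ : k → k_T` as an `𝒪`-algebra map
  let φ : ResidueField 𝒪 →ₐ[𝒪] ResidueField T :=
    { (ResidueField.map (algebraMap 𝒪 T)) with
      commutes' := fun a => by
        show ResidueField.map (algebraMap 𝒪 T) (residue 𝒪 a) = residue T (algebraMap 𝒪 T a)
        exact ResidueField.map_residue _ _ }
  have hφcoe : (φ : ResidueField 𝒪 →+* ResidueField T) = ResidueField.map (algebraMap 𝒪 T) := rfl
  have hφ : IsLocalHom (φ : ResidueField 𝒪 →+* ResidueField T) := by
    rw [hφcoe]; infer_instance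
  have hφinj : Function.Injective φ := (φ : ResidueField 𝒪 →+* ResidueField T).injective
  refine h𝒟.of_baseChangeAlong_injective hk hkT φ hφ hφinj ?_
  refine h𝒟.of_isEquiv hkT ?_ h1
  -- the equivalence `ρ ⊗ k_T ≃ ρ̄ ⊗_k k_T`
  obtain ⟨r, hr, ⟨e0⟩⟩ := exists_toAdic ρ
  obtain ⟨e1⟩ := baseChangeAlong_toAdic (q : T →+* ResidueField T) hq r hr
  obtain ⟨e2⟩ := toAdic_isEquiv_ofResidual_toRes437
    (mapRep (q : T →+* ResidueField T) r) (hr.map _ hq) hr.factors_residue
  obtain ⟨e3⟩ := residual_toAdic r hr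
  obtain ⟨e4⟩ := hres
  exact ⟨(((e0.baseChangeAlong _ hq).trans e1).trans
    (e2.trans (ofResidualEquiv437 (e3.symm.trans (e0.residual.symm.trans e4))))).trans
    (ofResidualBaseChange437 (φ : ResidueField 𝒪 →+* ResidueField T) hφ ρbar)⟩

end Fermat.Agent.S59.NMP.H437

end
-- ===== PACK-END S59/NMP/H437/RedTCore.lean

-- ===== PACK-BEGIN S58/H285/PointCount.lean
section


/-!
# S58 leaf COUNT (helper285): `a_q(W) ≠ ±(q + 1)`

`a_q(W) = q + 1 - #W(𝔽_q)` with `1 ≤ #W(𝔽_q) ≤ 2 q + 1`: the point at infinity gives the lower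
bound, and for each `x` the Weierstrass equation is a monic quadratic in `y`, which gives the
upper bound.
-/

set_option autoImplicit false

open Polynomial

namespace Fermat.Agent.S58.H285

/-- The monic quadratic in `y` cut out by the Weierstrass equation at a fixed `x`. -/
noncomputable def fiberPoly_h285 {F : Type} [Field F] (W : WeierstrassCurve F) (x : F) : F[X] :=
  X ^ 2 + C (W.a₁ * x + W.a₃) * X - C (x ^ 3 + W.a₂ * x ^ 2 + W.a₄ * x + W.a₆)

theorem fiberPoly_natDegree_h285 {F : Type} [Field F] (W : WeierstrassCurve F) (x : F) :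
    (fiberPoly_h285 W x).natDegree = 2 := by
  unfold fiberPoly_h285
  have h : (X ^ 2 + C (W.a₁ * x + W.a₃) * X - C (x ^ 3 + W.a₂ * x ^ 2 + W.a₄ * x + W.a₆) : F[X])
      = X ^ 2 + (C (W.a₁ * x + W.a₃) * X + C (-(x ^ 3 + W.a₂ * x ^ 2 + W.a₄ * x + W.a₆))) := by
    rw [C_neg]; ring
  rw [h]
  have hlt : (C (W.a₁ * x + W.a₃) * X + C (-(x ^ 3 + W.a₂ * x ^ 2 + W.a₄ * x + W.a₆)) : F[X]).degree
      < ((X : F[X]) ^ 2).degree := by
    rw [degree_X_pow]
    exact lt_of_le_of_lt (degree_linear_le) (by norm_num)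
  rw [natDegree_add_eq_left_of_degree_lt hlt, natDegree_X_pow]

theorem fiberPoly_ne_zero_h285 {F : Type} [Field F] (W : WeierstrassCurve F) (x : F) :
    fiberPoly_h285 W x ≠ 0 := by
  intro h
  have := fiberPoly_natDegree_h285 W x
  rw [h, natDegree_zero] at this
  exact absurd this (by norm_num)

theorem fiberPoly_isRoot_h285 {F : Type} [Field F] (W : WeierstrassCurve F) (x y : F)
    (h : W.toAffine.Equation x y) : (fiberPoly_h285 W x).IsRoot y := by
  rw [WeierstrassCurve.Affine.equation_iff] at h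
  unfold fiberPoly_h285
  simp only [IsRoot.def, eval_sub, eval_add, eval_pow, eval_X, eval_mul, eval_C]
  linear_combination h

/-- The number of solutions of the Weierstrass equation over a finite field `F` is at most
`2 * #F`. -/
theorem card_equation_le_h285 {F : Type} [Field F] [Fintype F] [DecidableEq F]
    (W : WeierstrassCurve F) (S : Finset (F × F))
    (hS : ∀ p ∈ S, W.toAffine.Equation p.1 p.2) : S.card ≤ 2 * Fintype.card F := by
  classical
  have h1 : S.card ≤ 2 * (S.image Prod.fst).card := by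
    refine Finset.card_le_mul_card_image S 2 ?_
    intro x _
    have hinj : Set.InjOn Prod.snd (↑(S.filter fun p => p.1 = x) : Set (F × F)) := by
      intro p hp p' hp' hpp'
      simp only [Finset.coe_filter, Set.mem_setOf_eq] at hp hp'
      exact Prod.ext (hp.2.trans hp'.2.symm) hpp'
    have hsub : ((S.filter fun p => p.1 = x).image Prod.snd).val ⊆ (fiberPoly_h285 W x).roots := by
      intro y hy
      rw [Finset.mem_val, Finset.mem_image] at hy
      obtain ⟨p, hp, rfl⟩ := hy
      rw [Finset.mem_filter] at hp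
      rw [mem_roots (fiberPoly_ne_zero_h285 W x)]
      have := hS p hp.1
      rw [hp.2] at this
      exact fiberPoly_isRoot_h285 W x p.2 this
    calc (S.filter fun p => p.1 = x).card
        = ((S.filter fun p => p.1 = x).image Prod.snd).card := (Finset.card_image_of_injOn hinj).symm
      _ ≤ (fiberPoly_h285 W x).natDegree := Polynomial.card_le_degree_of_subset_roots hsub
      _ = 2 := fiberPoly_natDegree_h285 W x
  calc S.card ≤ 2 * (S.image Prod.fst).card := h1
    _ ≤ 2 * Fintype.card F := Nat.mul_le_mul_left 2 (Finset.card_le_univ _)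

/-- Coordinates of a point (`none` for the point at infinity). -/
noncomputable def pointCoord_h285 {F : Type} [Field F] (W : WeierstrassCurve F) :
    W.toAffine.Point → Option (F × F)
  | .zero => none
  | .some x y _ => some (x, y)

theorem pointCoord_injective_h285 {F : Type} [Field F] (W : WeierstrassCurve F) :
    Function.Injective (pointCoord_h285 W) := by
  rintro (_ | ⟨x₁, y₁, h₁⟩) (_ | ⟨x₂, y₂, h₂⟩) h <;>
    simp only [pointCoord_h285, Option.some.injEq, Prod.mk.injEq, reduceCtorEq] at h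
  · rfl
  · obtain ⟨rfl, rfl⟩ := h; rfl

/-- `1 ≤ #W(F) ≤ 2 #F + 1` for a Weierstrass curve over a finite field. -/
theorem card_point_bounds_h285 {F : Type} [Field F] [Fintype F] (W : WeierstrassCurve F) :
    1 ≤ Nat.card W.toAffine.Point ∧ Nat.card W.toAffine.Point ≤ 2 * Fintype.card F + 1 := by
  classical
  haveI : Finite W.toAffine.Point := Finite.of_injective _ (pointCoord_injective_h285 W)
  haveI : Fintype W.toAffine.Point := Fintype.ofFinite _
  refine ⟨?_, ?_⟩
  · exact Nat.one_le_iff_ne_zero.mpr (Nat.card_ne_zero.mpr ⟨⟨0⟩, inferInstance⟩)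
  · rw [Nat.card_eq_fintype_card]
    let S : Finset (F × F) := Finset.univ.filter fun p => W.toAffine.Equation p.1 p.2
    have hS : ∀ p ∈ S, W.toAffine.Equation p.1 p.2 := fun p hp => (Finset.mem_filter.mp hp).2
    have hle : Fintype.card W.toAffine.Point ≤ (insert none (S.image some)).card := by
      rw [← Finset.card_univ]
      refine Finset.card_le_card_of_injOn (pointCoord_h285 W) ?_
        ((pointCoord_injective_h285 W).injOn)
      rintro (_ | ⟨x, y, h⟩) _
      · simp [pointCoord_h285]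
      · simp only [pointCoord_h285, Finset.coe_insert, Finset.coe_image, Set.mem_insert_iff,
          reduceCtorEq, Set.mem_image, Finset.mem_coe, Option.some.injEq, exists_eq_right,
          false_or]
        exact Finset.mem_filter.mpr ⟨Finset.mem_univ _, h.1⟩
    calc Fintype.card W.toAffine.Point ≤ (insert none (S.image some)).card := hle
      _ ≤ (S.image some).card + 1 := Finset.card_insert_le _ _
      _ ≤ S.card + 1 := Nat.add_le_add_right Finset.card_image_le 1
      _ ≤ 2 * Fintype.card F + 1 := Nat.add_le_add_right (card_equation_le_h285 W S hS) 1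

/-- **Leaf COUNT.** -/
theorem pointCount : Fermat.Agent.S58.PointCountStatement := by
  intro W q hq
  haveI : Fact q.Prime := ⟨hq⟩
  have hb := card_point_bounds_h285 (W.reductionMod q)
  have hcard : Nat.card (ZMod q) = q := by
    rw [Nat.card_eq_fintype_card, ZMod.card]
  have hap : W.apOfModel q = (q : ℤ) + 1 - (Nat.card (W.reductionMod q).toAffine.Point : ℤ) := by
    unfold WeierstrassCurve.apOfModel WeierstrassCurve.traceOfFrobenius WeierstrassCurve.card
    rw [hcard]
  rw [ZMod.card] at hb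
  have h1 : (1 : ℤ) ≤ (Nat.card (W.reductionMod q).toAffine.Point : ℤ) := by exact_mod_cast hb.1
  have h2 : (Nat.card (W.reductionMod q).toAffine.Point : ℤ) ≤ 2 * (q : ℤ) + 1 := by
    exact_mod_cast hb.2
  constructor
  · rw [hap]; omega
  · rw [hap]; omega

end Fermat.Agent.S58.H285

end
-- ===== PACK-END S58/H285/PointCount.lean

-- ===== PACK-BEGIN Ribet/H420/KerVal.lean
section



/-!
# RIBET / ELOC-Frey (helper420): a two-slope Newton polygon

`f ∈ ℤ[X]` of degree `D` with leading coefficient `p`, `v p < 1`, such that the coefficient of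
`X ^ (D - m)` is a `v`-unit and all higher coefficients have valuation `< 1` (hence `≤ v p`).
Then every root `x` with `1 < v x` satisfies `v p * v x ^ m = 1` (`val_root_of_two_slopes`).

Applied to the `p`-division polynomial of a curve with ordinary or multiplicative reduction
(`D = (p² - 1)/2`, `m = (p - 1)/2`) this is the valuation of the `x`-coordinate of the `p`-torsion
points in the kernel of reduction.
-/

set_option autoImplicit false
set_option linter.unusedSectionVars false
set_option linter.unusedVariables false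

namespace Fermat.Agent.Ribet.H420

open Polynomial Fermat.Agent.Ribet.H187

variable {K : Type*} [Field K] {Γ₀ : Type*} [LinearOrderedCommGroupWithZero Γ₀]
  (v : Valuation K Γ₀)

theorem val_root_of_two_slopes {p : ℕ} (hp : p.Prime) (hpv : v (p : K) < 1) (hpK : (p : K) ≠ 0)
    (f : ℤ[X]) (D m : ℕ) (hm : 0 < m) (hmD : m ≤ D) (hdeg : f.natDegree ≤ D)
    (hlead : f.coeff D = p)
    (hunit : v ((f.coeff (D - m) : ℤ) : K) = 1)
    (hmid : ∀ k, D - m < k → v ((f.coeff k : ℤ) : K) < 1)
    (x : K) (hx : 1 < v x) (hroot : (f.map (Int.castRingHom K)).eval x = 0) :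
    v (p : K) * v x ^ m = 1 := by
  classical
  have hx0 : v x ≠ 0 := (lt_trans zero_lt_one hx).ne'
  have hxpos : 0 < v x := lt_trans zero_lt_one hx
  have hp0 : v (p : K) ≠ 0 := by rwa [Ne, map_eq_zero]
  have hppos : 0 < v (p : K) := zero_lt_iff.mpr hp0
  set T : ℕ → K := fun k => ((f.coeff k : ℤ) : K) * x ^ k with hT
  have hsum : ∑ k ∈ Finset.range (D + 1), T k = 0 := by
    have h1 := Polynomial.eval_eq_sum_range' (p := f.map (Int.castRingHom K)) (n := D + 1)
      (lt_of_le_of_lt (Polynomial.natDegree_map_le) (Nat.lt_succ_of_le hdeg)) x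
    rw [hroot] at h1
    rw [h1]
    apply Finset.sum_congr rfl
    intro k _
    simp [hT, Polynomial.coeff_map]
  have hle1 : ∀ k, v ((f.coeff k : ℤ) : K) ≤ 1 := fun k => val_intCast_le_one v _
  have hlep : ∀ k, D - m < k → v ((f.coeff k : ℤ) : K) ≤ v (p : K) := fun k hk =>
    val_intCast_le_of_lt_one v hp hpv _ (hmid k hk)
  have hTD : v (T D) = v (p : K) * v x ^ D := by
    simp only [hT, hlead, map_mul, map_pow]
    norm_cast
  have hTm : v (T (D - m)) = v x ^ (D - m) := by
    simp only [hT, map_mul, map_pow, hunit, one_mul]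
  have hsplit : v x ^ D = v x ^ m * v x ^ (D - m) := by
    rw [← pow_add]; congr 1; omega
  by_contra hne
  rcases lt_or_gt_of_ne hne with hlt | hgt
  · -- the term `D - m` dominates
    have hdom : v (∑ k ∈ Finset.range (D + 1), T k) = v (T (D - m)) := by
      apply Valuation.map_sum_eq_of_lt v (Finset.mem_range.mpr (by omega))
      intro k hk
      rw [Finset.mem_sdiff, Finset.mem_range, Finset.mem_singleton] at hk
      rw [hTm]
      rcases lt_or_gt_of_ne hk.2 with h1 | h1
      · calc v (T k) = v ((f.coeff k : ℤ) : K) * v x ^ k := by simp only [hT, map_mul, map_pow]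
          _ ≤ 1 * v x ^ k := mul_le_mul_left (hle1 k) _
          _ = v x ^ k := one_mul _
          _ < v x ^ (D - m) := pow_lt_pow_right₀ hx h1
      · have hk' : k - (D - m) ≤ m := by omega
        calc v (T k) = v ((f.coeff k : ℤ) : K) * v x ^ k := by simp only [hT, map_mul, map_pow]
          _ ≤ v (p : K) * v x ^ k := mul_le_mul_left (hlep k h1) _
          _ = v (p : K) * (v x ^ (k - (D - m)) * v x ^ (D - m)) := by
              rw [← pow_add]; congr 2; omega
          _ ≤ v (p : K) * (v x ^ m * v x ^ (D - m)) := by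
              gcongr
              exact hx.le
          _ = (v (p : K) * v x ^ m) * v x ^ (D - m) := by rw [mul_assoc]
          _ < 1 * v x ^ (D - m) := mul_lt_mul_of_pos_right hlt (pow_pos hxpos _)
          _ = v x ^ (D - m) := one_mul _
    rw [hsum, map_zero, hTm] at hdom
    exact pow_ne_zero _ hx0 hdom.symm
  · -- the term `D` dominates
    have hdom : v (∑ k ∈ Finset.range (D + 1), T k) = v (T D) := by
      apply Valuation.map_sum_eq_of_lt v (Finset.mem_range.mpr (by omega))
      intro k hk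
      rw [Finset.mem_sdiff, Finset.mem_range, Finset.mem_singleton] at hk
      rw [hTD]
      have hkD : k < D := by omega
      by_cases h1 : k ≤ D - m
      · calc v (T k) = v ((f.coeff k : ℤ) : K) * v x ^ k := by simp only [hT, map_mul, map_pow]
          _ ≤ 1 * v x ^ k := mul_le_mul_left (hle1 k) _
          _ = v x ^ k := one_mul _
          _ ≤ v x ^ (D - m) := pow_le_pow_right₀ hx.le h1
          _ = 1 * v x ^ (D - m) := (one_mul _).symm
          _ < (v (p : K) * v x ^ m) * v x ^ (D - m) :=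
              mul_lt_mul_of_pos_right hgt (pow_pos hxpos _)
          _ = v (p : K) * v x ^ D := by rw [hsplit, mul_assoc]
      · calc v (T k) = v ((f.coeff k : ℤ) : K) * v x ^ k := by simp only [hT, map_mul, map_pow]
          _ ≤ v (p : K) * v x ^ k := mul_le_mul_left (hlep k (by omega)) _
          _ < v (p : K) * v x ^ D :=
              mul_lt_mul_of_pos_left (pow_lt_pow_right₀ hx hkD) hppos
    rw [hsum, map_zero, hTD] at hdom
    exact (mul_ne_zero hp0 (pow_ne_zero _ hx0)) hdom.symm

end Fermat.Agent.Ribet.H420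

end
-- ===== PACK-END Ribet/H420/KerVal.lean

-- ===== PACK-BEGIN S19/H499/Integral.lean
section


set_option autoImplicit false

noncomputable section

namespace Fermat.Agent.S19.H499

open Fermat.Agent.S19 Polynomial

/-- If all Galois conjugates of `x ∈ Q̄` lie in a subring `A` with `A ∩ ℚ ⊆ Z_(ℓ)`, then `x` is
integral over `Z_(ℓ)`. -/
theorem isIntegral_of_forall_conj_mem {ℓ : ℕ} (A : Subring Qb)
    (hA : ∀ q : ℚ, algebraMap ℚ Qb q ∈ A → q ∈ Rl ℓ)
    (x : Qb) (hx : ∀ σ : GalQ, σ x ∈ A) : IsIntegral (Rl ℓ) x := by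
  have : Algebra.IsAlgebraic ℚ Qb := AlgebraicClosure.isAlgebraic ℚ
  have : IsAlgClosure ℚ Qb := ⟨inferInstance, inferInstance⟩
  have : Normal ℚ Qb := IsAlgClosure.normal ℚ Qb
  have hxalg : IsIntegral ℚ x := Algebra.IsIntegral.isIntegral x
  set p := minpoly ℚ x with hp
  have hmonic : p.Monic := minpoly.monic hxalg
  have hsplit : (p.map (algebraMap ℚ Qb)).Splits := IsAlgClosed.splits _
  have hprod := hsplit.eq_prod_roots_of_monic (hmonic.map _)
  -- every root is a conjugate of x
  have hroot : ∀ r ∈ (p.map (algebraMap ℚ Qb)).roots, r ∈ A := by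
    intro r hr
    have hr0 : aeval r p = 0 := by
      have := (mem_roots'.mp hr).2
      rwa [IsRoot.def, eval_map_algebraMap] at this
    have hconj : IsConjRoot ℚ x r := by
      rw [isConjRoot_def]
      exact minpoly.eq_of_irreducible_of_monic (minpoly.irreducible hxalg) hr0 hmonic
    obtain ⟨σ, hσ⟩ := hconj.exists_algEquiv
    have hr' : r = σ.symm x := by rw [← hσ, AlgEquiv.symm_apply_apply]
    rw [hr']
    exact hx σ.symm
  -- coefficients of p lie in A
  have hlift : p.map (algebraMap ℚ Qb) ∈ lifts A.subtype := by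
    rw [hprod]
    refine Subsemiring.multiset_prod_mem _ _ ?_
    intro q hq
    obtain ⟨r, hr, rfl⟩ := Multiset.mem_map.mp hq
    rw [mem_lifts]
    refine ⟨X - C ⟨r, hroot r hr⟩, ?_⟩
    simp
  have hcoeff : ∀ n, p.coeff n ∈ Rl ℓ := by
    intro n
    apply hA
    have := (lifts_iff_coeff_lifts _).mp hlift n
    obtain ⟨a, ha⟩ := this
    rw [coeff_map] at ha
    rw [← ha]
    exact a.2
  have hlift2 : p ∈ lifts (algebraMap (Rl ℓ) ℚ) := by
    rw [lifts_iff_coeff_lifts]
    intro n
    exact ⟨⟨p.coeff n, hcoeff n⟩, rfl⟩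
  obtain ⟨q, hq, -, hqm⟩ := lifts_and_degree_eq_and_monic hlift2 hmonic
  refine ⟨q, hqm, ?_⟩
  have h0 : aeval x p = 0 := minpoly.aeval ℚ x
  rw [← hq] at h0
  rw [← h0, aeval_def, eval₂_map]
  congr 1

end Fermat.Agent.S19.H499

end
end
-- ===== PACK-END S19/H499/Integral.lean

-- ===== PACK-BEGIN S38/H546/HenselCoord.lean
section


/-!
# Row HARD, cell GAL — traceless coordinates determine a `2 × 2` matrix of given determinant
(helper546)

`R` a complete local `𝒪`-algebra, `2` a unit.  Let `M ∈ M₂(R)` with `det M = d ∈ 𝒪`, congruent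
modulo `𝔪_R` to the scalar `c ∈ 𝒪` (`c² ≡ d`).  If the traceless coordinates
`u₀ = (M₀₀ − M₁₁)/2`, `u₁ = M₀₁`, `u₂ = M₁₀` are among the values `x i` of a point
`x : ι → 𝔪_R`, then ALL entries of `M` are values at `x` of power series over `𝒪`:
`tr M / 2 = √(d + u₀² + u₁ u₂)` (Hensel in `𝒪⟦ι⟧`, uniqueness in `R`).

* `exists_sqrt_mvPowerSeries` — the square root in `𝒪⟦ι⟧`;
* `entries_mem_range_evalCNL` — the entries of `M` lie in the range of
  `S53.H596.evalCNL (maximalIdeal R) x`.

Nothing unproved in this file.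
-/

set_option autoImplicit false
set_option linter.unusedSectionVars false

namespace Fermat.Agent.S38.H546

noncomputable section

open IsLocalRing Polynomial
open Fermat.Agent.S53.H596

section Hensel

variable {𝒪 : Type} [CommRing 𝒪] [IsLocalRing 𝒪] [IsNoetherianRing 𝒪]
  [IsAdicComplete (maximalIdeal 𝒪) 𝒪]

/-- **Square roots in `𝒪⟦ι⟧`** (Hensel): `√(d + y)`, `y ∈ 𝔪`, congruent to `c` (`c² ≡ d`,
`2c` a unit). -/
theorem exists_sqrt_mvPowerSeries {ι : Type} [Finite ι] (c d : 𝒪)
    (h2c : IsUnit (2 * c)) (hcd : c ^ 2 - d ∈ maximalIdeal 𝒪)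
    (y : MvPowerSeries ι 𝒪) (hy : y ∈ maximalIdeal (MvPowerSeries ι 𝒪)) :
    ∃ s : MvPowerSeries ι 𝒪, s ^ 2 = MvPowerSeries.C d + y ∧
      s - MvPowerSeries.C c ∈ maximalIdeal (MvPowerSeries ι 𝒪) := by
  have : IsAdicComplete (maximalIdeal (MvPowerSeries ι 𝒪)) (MvPowerSeries ι 𝒪) :=
    isAdicComplete_mvPowerSeries
  let f : (MvPowerSeries ι 𝒪)[X] := X ^ 2 - Polynomial.C (MvPowerSeries.C d + y)
  have hf : f.Monic := Polynomial.monic_X_pow_sub_C _ (by norm_num)
  have h1 : f.eval (MvPowerSeries.C c) ∈ maximalIdeal (MvPowerSeries ι 𝒪) := by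
    have : f.eval (MvPowerSeries.C c) = MvPowerSeries.C (c ^ 2 - d) - y := by
      simp only [f, eval_sub, eval_pow, eval_X, eval_C, map_sub, map_pow]
      ring
    rw [this]
    exact Ideal.sub_mem _ (C_mem_maximalIdeal_mvPowerSeries hcd) hy
  have h2 : IsUnit (Ideal.Quotient.mk (maximalIdeal (MvPowerSeries ι 𝒪))
      (f.derivative.eval (MvPowerSeries.C c))) := by
    have : f.derivative.eval (MvPowerSeries.C c) = MvPowerSeries.C (2 * c) := by
      have hd : f.derivative = Polynomial.C 2 * X := by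
        simp only [f, derivative_sub, derivative_X_pow, derivative_C, sub_zero]
        norm_num
      rw [hd, eval_mul, eval_X, eval_C, map_mul, map_ofNat]
    rw [this]
    exact (h2c.map MvPowerSeries.C).map _
  obtain ⟨s, hs, hs'⟩ := HenselianRing.is_henselian f hf (MvPowerSeries.C c) h1 h2
  refine ⟨s, ?_, hs'⟩
  have h3 : f.eval s = 0 := hs
  simp only [f, eval_sub, eval_pow, eval_X, eval_C] at h3
  exact sub_eq_zero.mp h3

variable {R : Type} [CommRing R] [IsLocalRing R] [IsAdicComplete (maximalIdeal R) R]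
  [Algebra 𝒪 R]

/-- `evalCNL` maps the maximal ideal of `𝒪⟦ι⟧` into the maximal ideal. -/
theorem evalCNL_mem_maximalIdeal {ι : Type} [Finite ι] (hloc : IsLocalHom (algebraMap 𝒪 R))
    (x : ι → R) (hx : ∀ i, x i ∈ maximalIdeal R) {f : MvPowerSeries ι 𝒪}
    (hf : f ∈ maximalIdeal (MvPowerSeries ι 𝒪)) :
    evalCNL (R := 𝒪) (maximalIdeal R) x hx f ∈ maximalIdeal R := by
  have h1 : evalCNL (R := 𝒪) (maximalIdeal R) x hx f ∈
      Ideal.map (evalCNL (R := 𝒪) (maximalIdeal R) x hx)
        (maximalIdeal (MvPowerSeries ι 𝒪)) := Ideal.mem_map_of_mem _ hf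
  rw [map_maximalIdeal_mvPowerSeries] at h1
  refine (sup_le ?_ ?_ : _ ≤ maximalIdeal R) h1
  · rw [Ideal.map_le_iff_le_comap]
    intro a ha
    rw [Ideal.mem_comap, mem_maximalIdeal, mem_nonunits_iff]
    intro hu
    exact (mem_maximalIdeal a).1 ha (hloc.map_nonunit a hu)
  · rw [Ideal.span_le]
    rintro _ ⟨i, rfl⟩
    show evalCNL (R := 𝒪) (maximalIdeal R) x hx (MvPowerSeries.X i) ∈ maximalIdeal R
    rw [evalCNL_X]
    exact hx i

/-- **The entries of a matrix of given determinant are power series in its traceless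
coordinates.** -/
theorem entries_mem_range_evalCNL {ι : Type} [Finite ι] (hloc : IsLocalHom (algebraMap 𝒪 R))
    (x : ι → R) (hx : ∀ i, x i ∈ maximalIdeal R)
    (M : Matrix (Fin 2) (Fin 2) R) (c d : 𝒪) (h2c : IsUnit (2 * c))
    (hcd : c ^ 2 - d ∈ maximalIdeal 𝒪)
    (hdet : M.det = algebraMap 𝒪 R d)
    (hM0 : M 0 0 - algebraMap 𝒪 R c ∈ maximalIdeal R)
    (hM1 : M 1 1 - algebraMap 𝒪 R c ∈ maximalIdeal R)
    (i0 i1 i2 : ι) (h0 : 2 * x i0 = M 0 0 - M 1 1) (h1 : x i1 = M 0 1) (h2 : x i2 = M 1 0) :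
    ∀ i j, M i j ∈ Set.range (evalCNL (R := 𝒪) (maximalIdeal R) x hx) := by
  set ev := evalCNL (R := 𝒪) (maximalIdeal R) x hx with hev
  have hX : ∀ i, ev (MvPowerSeries.X i) = x i := fun i => evalCNL_X _ _ _ i
  have hC : ∀ a : 𝒪, ev (MvPowerSeries.C a) = algebraMap 𝒪 R a := fun a => by
    rw [MvPowerSeries.c_eq_algebraMap]
    exact ev.commutes a
  -- the square root
  have hy : (MvPowerSeries.X i0 ^ 2 + MvPowerSeries.X i1 * MvPowerSeries.X i2 :
      MvPowerSeries ι 𝒪) ∈ maximalIdeal (MvPowerSeries ι 𝒪) :=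
    Ideal.add_mem _ (Ideal.pow_mem_of_mem _ (X_mem_maximalIdeal_mvPowerSeries i0) 2 (by norm_num))
      (Ideal.mul_mem_right _ _ (X_mem_maximalIdeal_mvPowerSeries i1))
  obtain ⟨s, hs, hsc⟩ := exists_sqrt_mvPowerSeries c d h2c hcd _ hy
  have hs' : ev s ^ 2 = algebraMap 𝒪 R d + (x i0 ^ 2 + x i1 * x i2) := by
    rw [← map_pow, hs, map_add, map_add, map_pow, map_mul, hC, hX, hX, hX]
  have hsc' : ev s - algebraMap 𝒪 R c ∈ maximalIdeal R := by
    have := evalCNL_mem_maximalIdeal hloc x hx hsc
    rwa [map_sub, ← hev, hC] at this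
  -- units
  have h2cR : IsUnit (algebraMap 𝒪 R (2 * c)) := h2c.map _
  have h2R : IsUnit (2 : R) := by
    have : algebraMap 𝒪 R (2 * c) = 2 * algebraMap 𝒪 R c := by
      rw [map_mul, map_ofNat]
    rw [this] at h2cR
    exact isUnit_of_mul_isUnit_left h2cR
  -- `(2 ev s)² = (tr M)²`
  have hdet' : M 0 0 * M 1 1 - M 0 1 * M 1 0 = algebraMap 𝒪 R d := by
    rw [← hdet, Matrix.det_fin_two]
  have hsq : (2 * ev s - (M 0 0 + M 1 1)) * (2 * ev s + (M 0 0 + M 1 1)) = 0 := by
    have e1 : (2 * ev s) ^ 2 = (M 0 0 + M 1 1) ^ 2 := by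
      calc (2 * ev s) ^ 2 = 4 * ev s ^ 2 := by ring
        _ = 4 * (algebraMap 𝒪 R d + (x i0 ^ 2 + x i1 * x i2)) := by rw [hs']
        _ = 4 * algebraMap 𝒪 R d + (2 * x i0) ^ 2 + 4 * (x i1 * x i2) := by ring
        _ = 4 * (M 0 0 * M 1 1 - M 0 1 * M 1 0) + (M 0 0 - M 1 1) ^ 2 +
            4 * (M 0 1 * M 1 0) := by rw [hdet', h0, h1, h2]
        _ = (M 0 0 + M 1 1) ^ 2 := by ring
    calc (2 * ev s - (M 0 0 + M 1 1)) * (2 * ev s + (M 0 0 + M 1 1))
        = (2 * ev s) ^ 2 - (M 0 0 + M 1 1) ^ 2 := by ring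
      _ = 0 := by rw [e1, sub_self]
  have hunit : IsUnit (2 * ev s + (M 0 0 + M 1 1)) := by
    have e : 2 * ev s + (M 0 0 + M 1 1) = 2 * algebraMap 𝒪 R (2 * c) +
        (2 * (ev s - algebraMap 𝒪 R c) + (M 0 0 - algebraMap 𝒪 R c) +
          (M 1 1 - algebraMap 𝒪 R c)) := by
      rw [map_mul, map_ofNat]
      ring
    rw [e]
    have hm : 2 * (ev s - algebraMap 𝒪 R c) + (M 0 0 - algebraMap 𝒪 R c) +
        (M 1 1 - algebraMap 𝒪 R c) ∈ maximalIdeal R :=
      Ideal.add_mem _ (Ideal.add_mem _ (Ideal.mul_mem_left _ _ hsc') hM0) hM1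
    by_contra hnu
    have h3 : 2 * algebraMap 𝒪 R (2 * c) + (2 * (ev s - algebraMap 𝒪 R c) +
        (M 0 0 - algebraMap 𝒪 R c) + (M 1 1 - algebraMap 𝒪 R c)) ∈ maximalIdeal R :=
      (mem_maximalIdeal _).2 hnu
    have h4 : 2 * algebraMap 𝒪 R (2 * c) ∈ maximalIdeal R := by
      have := Ideal.sub_mem _ h3 hm
      rwa [add_sub_cancel_right] at this
    exact (mem_maximalIdeal _).1 h4 (h2R.mul h2cR)
  have htr : 2 * ev s = M 0 0 + M 1 1 := by
    have := (hunit.mul_left_eq_zero).1 hsq
    exact sub_eq_zero.mp this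
  have h00 : M 0 0 = ev (s + MvPowerSeries.X i0) := by
    apply h2R.mul_left_cancel
    rw [map_add, hX, mul_add, htr, h0]
    ring
  have h11 : M 1 1 = ev (s - MvPowerSeries.X i0) := by
    apply h2R.mul_left_cancel
    rw [map_sub, hX, mul_sub, htr, h0]
    ring
  intro i j
  fin_cases i <;> fin_cases j
  · exact ⟨_, h00.symm⟩
  · exact ⟨MvPowerSeries.X i1, by rw [hX]; exact h1⟩
  · exact ⟨MvPowerSeries.X i2, by rw [hX]; exact h2⟩
  · exact ⟨_, h11.symm⟩

end Hensel

end

end Fermat.Agent.S38.H546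

end
-- ===== PACK-END S38/H546/HenselCoord.lean

-- ===== PACK-BEGIN S41/H401/DS.lean
section





/-!
# Row S41, block DS: Deligne–Serre lifting on a lattice

`ds_abstract` : a commutative ring `A` acting on a finite-dimensional complex vector space `W`
preserving a finitely generated spanning subgroup `K`; `y ∈ K ∖ pK`.  Then there are a nonzero
simultaneous eigenvector `g`, an eigencharacter `χ : A →+* ℤ̄` and a maximal ideal `𝔪'` of `ℤ̄`
such that `χ a ∈ 𝔪'` whenever `ρ a y ∈ p K`.

`ds_general` : the same for a family of operators on an arbitrary complex vector space `V`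
commuting on a finitely generated stable subgroup `K` (universe polymorphic).

`ds : Spec.DSStatement`.
-/

set_option autoImplicit false

namespace Fermat.Agent.S41.H401

section Abstract

variable {A : Type*} [CommRing A] {W : Type*} [AddCommGroup W] [Module ℂ W]

/-- A finitely generated spanning subgroup forces finite dimension. -/
theorem finiteDimensional_of_fg_span (K : AddSubgroup W) (hK : K.FG)
    (hspan : Submodule.span ℂ (K : Set W) = ⊤) : FiniteDimensional ℂ W := by
  obtain ⟨s, hs⟩ := hK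
  have h1 : K ≤ (Submodule.span ℂ (s : Set W)).toAddSubgroup := by
    rw [← hs, AddSubgroup.closure_le]
    exact Submodule.subset_span
  have h2 : Submodule.span ℂ (s : Set W) = ⊤ := by
    rw [eq_top_iff, ← hspan, Submodule.span_le]
    exact h1
  exact Module.finite_def.mpr ⟨s, h2⟩

/-- Restriction of the action to the lattice `K`, as a ring homomorphism into `End_ℤ K`. -/
noncomputable def dsRes (ρ : A →+* Module.End ℂ W) (K : AddSubgroup W)
    (hstab : ∀ a, ∀ x ∈ K, ρ a x ∈ K) : A →+* Module.End ℤ (AddSubgroup.toIntSubmodule K) where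
  toFun a := ((ρ a).restrictScalars ℤ).restrict (p := AddSubgroup.toIntSubmodule K)
    (fun x hx => hstab a x hx)
  map_one' := by
    ext x
    simp
  map_mul' a b := by
    ext x
    simp [LinearMap.restrict_apply]
  map_zero' := by
    ext x
    simp [LinearMap.restrict_apply]
  map_add' a b := by
    ext x
    simp [LinearMap.restrict_apply]

theorem dsRes_apply (ρ : A →+* Module.End ℂ W) (K : AddSubgroup W)
    (hstab : ∀ a, ∀ x ∈ K, ρ a x ∈ K) (a : A) (x : AddSubgroup.toIntSubmodule K) :
    ((dsRes ρ K hstab a x : AddSubgroup.toIntSubmodule K) : W) = ρ a (x : W) := rfl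

/-- If the restriction to a spanning lattice vanishes, the operator vanishes. -/
theorem rho_eq_zero_of_dsRes (ρ : A →+* Module.End ℂ W) (K : AddSubgroup W)
    (hspan : Submodule.span ℂ (K : Set W) = ⊤)
    (hstab : ∀ a, ∀ x ∈ K, ρ a x ∈ K) (a : A) (h : dsRes ρ K hstab a = 0) : ρ a = 0 := by
  apply LinearMap.ext_on hspan
  intro x hx
  have := congrArg (fun f => ((f ⟨x, hx⟩ : AddSubgroup.toIntSubmodule K) : W)) h
  simpa [dsRes_apply] using this

/-- Eigenvalues of an integral action are algebraic integers. -/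
theorem isIntegral_eigenvalue (ρ : A →+* Module.End ℂ W) (K : AddSubgroup W) (hK : K.FG)
    (hspan : Submodule.span ℂ (K : Set W) = ⊤)
    (hstab : ∀ a, ∀ x ∈ K, ρ a x ∈ K) (g : W) (hg : g ≠ 0) (χ : A →+* ℂ)
    (hχ : ∀ a, ρ a g = χ a • g) (a : A) : IsIntegral ℤ (χ a) := by
  have : Module.Finite ℤ (AddSubgroup.toIntSubmodule K) := by
    rw [Module.Finite.iff_fg, Submodule.fg_iff_addSubgroup_fg]
    exact hK
  obtain ⟨q, hq, hq0⟩ :=
    (Algebra.IsIntegral.isIntegral (R := ℤ) (dsRes ρ K hstab a))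
  have h1 : dsRes ρ K hstab (Polynomial.eval₂ (algebraMap ℤ A) a q) = 0 := by
    rw [Polynomial.hom_eval₂]
    rw [← hq0]
    congr 1
    exact Subsingleton.elim _ _
  have h2 : ρ (Polynomial.eval₂ (algebraMap ℤ A) a q) = 0 :=
    rho_eq_zero_of_dsRes ρ K hspan hstab _ h1
  have h3 : χ (Polynomial.eval₂ (algebraMap ℤ A) a q) = 0 := by
    have h4 := hχ (Polynomial.eval₂ (algebraMap ℤ A) a q)
    rw [h2, LinearMap.zero_apply] at h4
    rcases smul_eq_zero.mp h4.symm with h5 | h5
    · exact h5
    · exact absurd h5 hg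
  refine ⟨q, hq, ?_⟩
  rw [Polynomial.hom_eval₂] at h3
  rw [← h3]
  congr 1
  exact Subsingleton.elim _ _

/-- The ideal of operators sending `y` into `p K`. -/
def dsIdeal (ρ : A →+* Module.End ℂ W) (K : AddSubgroup W)
    (hstab : ∀ a, ∀ x ∈ K, ρ a x ∈ K) (p : ℕ) (y : W) : Ideal A where
  carrier := {a | ∃ z ∈ K, ρ a y = p • z}
  zero_mem' := ⟨0, K.zero_mem, by simp⟩
  add_mem' := by
    rintro a b ⟨z, hz, hza⟩ ⟨w, hw, hwb⟩
    exact ⟨z + w, K.add_mem hz hw, by simp [hza, hwb]⟩
  smul_mem' := by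
    rintro c a ⟨z, hz, hza⟩
    refine ⟨ρ c z, hstab c z hz, ?_⟩
    simp [hza]

theorem mem_dsIdeal (ρ : A →+* Module.End ℂ W) (K : AddSubgroup W)
    (hstab : ∀ a, ∀ x ∈ K, ρ a x ∈ K) (p : ℕ) (y : W) (a : A) :
    a ∈ dsIdeal ρ K hstab p y ↔ ∃ z ∈ K, ρ a y = p • z := Iff.rfl

/-- **Deligne–Serre lifting lemma, lattice form.** -/
theorem ds_abstract (ρ : A →+* Module.End ℂ W) (K : AddSubgroup W) (hK : K.FG)
    (hspan : Submodule.span ℂ (K : Set W) = ⊤)
    (hstab : ∀ a, ∀ x ∈ K, ρ a x ∈ K) (p : ℕ) (y : W) (hyp : ∀ z ∈ K, y ≠ p • z) :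
    ∃ (g : W) (χ : A →+* integralClosure ℤ ℂ) (𝔪' : Ideal (integralClosure ℤ ℂ)),
      g ≠ 0 ∧ (∀ a, ρ a g = (χ a : ℂ) • g) ∧ 𝔪'.IsMaximal ∧
      ∀ a, (∃ z ∈ K, ρ a y = p • z) → χ a ∈ 𝔪' := by
  have : FiniteDimensional ℂ W := finiteDimensional_of_fg_span K hK hspan
  have hJ : dsIdeal ρ K hstab p y ≠ ⊤ := by
    intro h
    have h1 : (1 : A) ∈ dsIdeal ρ K hstab p y := h ▸ Submodule.mem_top
    obtain ⟨z, hz, hz1⟩ := (mem_dsIdeal ρ K hstab p y 1).mp h1
    apply hyp z hz
    simpa using hz1
  obtain ⟨𝔫, h𝔫, hJ𝔫⟩ := Ideal.exists_le_maximal _ hJ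
  have := h𝔫
  have hker : RingHom.ker ρ ≤ 𝔫 := by
    intro a ha
    apply hJ𝔫
    rw [RingHom.mem_ker] at ha
    exact ⟨0, K.zero_mem, by simp [ha]⟩
  obtain ⟨g, χ, hg, hχ, hχ𝔫⟩ :=
    Fermat.Agent.S49.exists_eigenvector_ker_le' (K := ℂ) (V := W) ρ 𝔫 hker
  have hint : ∀ a, χ a ∈ integralClosure ℤ ℂ := fun a =>
    isIntegral_eigenvalue ρ K hK hspan hstab g hg χ hχ a
  let χ' : A →+* integralClosure ℤ ℂ := χ.codRestrict (integralClosure ℤ ℂ) hint
  have hχ' : ∀ a, ((χ' a : integralClosure ℤ ℂ) : ℂ) = χ a := fun a => rfl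
  have hker' : RingHom.ker χ' ≤ 𝔫 := by
    intro a ha
    apply hχ𝔫
    rw [RingHom.mem_ker] at ha ⊢
    rw [← hχ' a, ha]
    rfl
  obtain ⟨𝔪', h𝔪', h𝔪'𝔫⟩ := Fermat.Agent.S49.exists_maximal_over χ' 𝔫 hker'
  refine ⟨g, χ', 𝔪', hg, fun a => ?_, h𝔪', fun a ha => ?_⟩
  · rw [hχ' a]
    exact hχ a
  · exact h𝔪'𝔫 a (hJ𝔫 ha)

end Abstract

section General

universe u v
variable {ι : Type u} {V : Type v} [AddCommGroup V] [Module ℂ V]

/-- Pulling a finitely generated subgroup back to a subspace containing it. -/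
theorem fg_comap_subtype (W : Submodule ℂ V) (K : AddSubgroup V) (hKW : ∀ x ∈ K, x ∈ W)
    (hK : K.FG) : (K.comap W.subtype.toAddMonoidHom).FG := by
  have h1 : (AddSubgroup.toIntSubmodule (K.comap W.subtype.toAddMonoidHom)).FG := by
    apply Submodule.fg_of_fg_map_injective (W.subtype.restrictScalars ℤ) Subtype.val_injective
    have h2 : (AddSubgroup.toIntSubmodule (K.comap W.subtype.toAddMonoidHom)).map
        (W.subtype.restrictScalars ℤ) = AddSubgroup.toIntSubmodule K := by
      ext x
      constructor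
      · rintro ⟨w, hw, rfl⟩
        exact hw
      · intro hx
        exact ⟨⟨x, hKW x hx⟩, hx, rfl⟩
    rw [h2, Submodule.fg_iff_addSubgroup_fg]
    exact hK
  rw [Submodule.fg_iff_addSubgroup_fg] at h1
  exact h1

/-- **Block DS, general (universe polymorphic) form.**  A family of operators `T i` on a complex
vector space commuting on a finitely generated stable subgroup `K`; `y ∈ K ∖ pK` with
`T i y ≡ lam i • y mod pK` for `i ∈ S`.  Then there is a nonzero simultaneous eigenvector of all
`T i` in `span_ℂ K` whose eigenvalues are algebraic integers, congruent to `lam i` (`i ∈ S`)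
modulo a maximal ideal of `ℤ̄` containing `p`. -/
theorem ds_general (T : ι → Module.End ℂ V) (K : AddSubgroup V)
    (hK : K.FG) (hstab : ∀ i, ∀ x ∈ K, T i x ∈ K)
    (hcomm : ∀ i j, ∀ x ∈ K, T i (T j x) = T j (T i x))
    (p : ℕ) (S : Set ι) (lam : ι → ℤ) (y : V) (hy : y ∈ K) (hyp : ∀ z ∈ K, y ≠ p • z)
    (heig : ∀ i ∈ S, ∃ z ∈ K, T i y - lam i • y = p • z) :
    ∃ (v : V) (b : ι → integralClosure ℤ ℂ) (𝔪' : Ideal (integralClosure ℤ ℂ)),
      v ≠ 0 ∧ v ∈ Submodule.span ℂ (K : Set V) ∧ (∀ i, T i v = (b i : ℂ) • v) ∧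
      𝔪'.IsMaximal ∧ ((p : ℕ) : integralClosure ℤ ℂ) ∈ 𝔪' ∧
      ∀ i ∈ S, b i - ((lam i : ℤ) : integralClosure ℤ ℂ) ∈ 𝔪' := by
  classical
  have hKW : ∀ x ∈ K, x ∈ Submodule.span ℂ (K : Set V) := fun x hx => Submodule.subset_span hx
  have hTW : ∀ i, ∀ x ∈ Submodule.span ℂ (K : Set V), T i x ∈ Submodule.span ℂ (K : Set V) := by
    intro i x hx
    induction hx using Submodule.span_induction with
    | mem x hx => exact hKW _ (hstab i x hx)
    | zero => simp
    | add x y _ _ hx hy => rw [map_add]; exact Submodule.add_mem _ hx hy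
    | smul c x _ hx => rw [map_smul]; exact Submodule.smul_mem _ c hx
  have hcommW : ∀ i j, ∀ x ∈ Submodule.span ℂ (K : Set V), T i (T j x) = T j (T i x) := by
    intro i j x hx
    induction hx using Submodule.span_induction with
    | mem x hx => exact hcomm i j x hx
    | zero => simp
    | add x y _ _ hx hy => simp only [map_add, hx, hy]
    | smul c x _ hx => simp only [map_smul, hx]
  let T' : ι → Module.End ℂ (Submodule.span ℂ (K : Set V)) := fun i => (T i).restrict (hTW i)
  have hT' : ∀ i (w : Submodule.span ℂ (K : Set V)), ((T' i w : Submodule.span ℂ (K : Set V)) : V)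
      = T i (w : V) := fun i w => rfl
  have hBcomm : ∀ a ∈ Set.range T', ∀ b ∈ Set.range T', a * b = b * a := by
    rintro _ ⟨i, rfl⟩ _ ⟨j, rfl⟩
    ext w
    simp only [Module.End.mul_apply, hT']
    exact hcommW i j _ w.2
  have hmc : IsMulCommutative (Algebra.adjoin ℤ (Set.range T')) :=
    Algebra.isMulCommutative_adjoin ℤ hBcomm
  letI : CommRing (Algebra.adjoin ℤ (Set.range T')) :=
    { (inferInstance : Ring (Algebra.adjoin ℤ (Set.range T'))) with
      mul_comm := hmc.is_comm.comm }
  let ρ : Algebra.adjoin ℤ (Set.range T') →+* Module.End ℂ (Submodule.span ℂ (K : Set V)) :=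
    (Algebra.adjoin ℤ (Set.range T')).val.toRingHom
  let K' : AddSubgroup (Submodule.span ℂ (K : Set V)) :=
    K.comap (Submodule.span ℂ (K : Set V)).subtype.toAddMonoidHom
  have hK' : K'.FG := fg_comap_subtype _ K hKW hK
  have hspan : Submodule.span ℂ (K' : Set (Submodule.span ℂ (K : Set V))) = ⊤ :=
    Submodule.span_span_coe_preimage
  have hstab' : ∀ a, ∀ x ∈ K', ρ a x ∈ K' := by
    rintro ⟨a, ha⟩
    induction ha using Algebra.adjoin_induction with
    | mem a ha =>
      obtain ⟨i, rfl⟩ := ha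
      intro x hx
      exact hstab i _ hx
    | algebraMap n =>
      intro x hx
      show ((algebraMap ℤ (Module.End ℂ (Submodule.span ℂ (K : Set V))) n) x) ∈ K'
      rw [Module.algebraMap_end_apply]
      exact K'.zsmul_mem hx n
    | add a b _ _ ha hb =>
      intro x hx
      exact K'.add_mem (ha x hx) (hb x hx)
    | mul a b _ _ ha hb =>
      intro x hx
      exact ha _ (hb x hx)
  obtain ⟨g, χ, 𝔪', hg, hχ, h𝔪', hcong⟩ :=
    ds_abstract ρ K' hK' hspan hstab' p ⟨y, hKW y hy⟩ (by
      intro z hz h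
      exact hyp (z : V) hz (by simpa using congrArg Subtype.val h))
  let t : ι → Algebra.adjoin ℤ (Set.range T') := fun i =>
    ⟨T' i, Algebra.subset_adjoin (Set.mem_range_self i)⟩
  refine ⟨(g : V), fun i => χ (t i), 𝔪', ?_, g.2, fun i => ?_, h𝔪', ?_, fun i hi => ?_⟩
  · intro h
    exact hg (Subtype.ext h)
  · exact congrArg Subtype.val (hχ (t i))
  · have h1 := hcong ((p : ℕ) : Algebra.adjoin ℤ (Set.range T'))
      ⟨⟨y, hKW y hy⟩, hy, by
        apply Subtype.ext
        simp [ρ]⟩
    simpa using h1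
  · obtain ⟨z, hz, hz1⟩ := heig i hi
    have h1 := hcong (t i - ((lam i : ℤ) : Algebra.adjoin ℤ (Set.range T')))
      ⟨⟨z, hKW z hz⟩, hz, by
        apply Subtype.ext
        simp [ρ, t, hT', hz1]⟩
    simpa using h1

/-- Variant of `ds_general` recording that the eigenvector lies in any complex subspace
containing `K`. -/
theorem ds_general_mem (T : ι → Module.End ℂ V) (K : AddSubgroup V)
    (hK : K.FG) (hstab : ∀ i, ∀ x ∈ K, T i x ∈ K)
    (hcomm : ∀ i j, ∀ x ∈ K, T i (T j x) = T j (T i x))
    (p : ℕ) (S : Set ι) (lam : ι → ℤ) (y : V) (hy : y ∈ K) (hyp : ∀ z ∈ K, y ≠ p • z)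
    (heig : ∀ i ∈ S, ∃ z ∈ K, T i y - lam i • y = p • z)
    (U : Submodule ℂ V) (hU : ∀ x ∈ K, x ∈ U) :
    ∃ (v : V) (b : ι → integralClosure ℤ ℂ) (𝔪' : Ideal (integralClosure ℤ ℂ)),
      v ≠ 0 ∧ v ∈ U ∧ (∀ i, T i v = (b i : ℂ) • v) ∧
      𝔪'.IsMaximal ∧ ((p : ℕ) : integralClosure ℤ ℂ) ∈ 𝔪' ∧
      ∀ i ∈ S, b i - ((lam i : ℤ) : integralClosure ℤ ℂ) ∈ 𝔪' := by
  obtain ⟨v, b, 𝔪', hv, hvK, h⟩ := ds_general T K hK hstab hcomm p S lam y hy hyp heig
  exact ⟨v, b, 𝔪', hv, Submodule.span_le.mpr hU hvK, h⟩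

end General

/-- **Block DS of row S41.** -/
theorem ds : Spec.DSStatement := by
  intro ι V _ _ T K hK hstab hcomm p S lam y hy hyp heig
  exact ds_general T K hK hstab hcomm p S lam y hy hyp heig

end Fermat.Agent.S41.H401

end
-- ===== PACK-END S41/H401/DS.lean

-- ===== PACK-BEGIN S36/H803/OrdAt.lean
section


/-!
# S36 / R3 (helper803): the order function of a component at a closed point

`B` a commutative ring, `p` a prime ("component"), `n` a maximal ideal ("closed point") with
`p ≤ n`.  `ordAt p n a : ℕ∞` is the order at `n` of the restriction of `a` to the component `p`: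
the multiplicity of the ideal `n / p` in the ideal `(a mod p)` of `B ⧸ p`.

If `B ⧸ p` is a Dedekind domain and `p ≠ n`, then `ordAt p n` is an *order function at `n`*:
multiplicative, `0` off `n`, `≥ 1` on `n`, `⊤` exactly on `p`; and if `p'` is a second prime with
`p' ≤ n`, `¬ p' ≤ p` and `p' ⊔ p` radical (transversal crossing), some `x ∈ p'` has
`ordAt p n x = 1`.

Mathlib only.
-/

set_option autoImplicit false
set_option linter.unusedSectionVars false
set_option linter.unusedVariables false

namespace Fermat.Agent.S36.H803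

open Ideal

variable {B : Type*} [CommRing B]

/-- The order at the closed point `n` of the restriction of `a` to the component `p`. -/
noncomputable def ordAt (p n : Ideal B) (a : B) : ℕ∞ :=
  emultiplicity (n.map (Ideal.Quotient.mk p)) (Ideal.span {Ideal.Quotient.mk p a})

section Basic

variable (p n : Ideal B)

theorem map_mk_isMaximal [hn : n.IsMaximal] (hpn : p ≤ n) :
    (n.map (Ideal.Quotient.mk p)).IsMaximal := by
  have hsurj : Function.Surjective (Ideal.Quotient.mk p) := Ideal.Quotient.mk_surjective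
  rcases Ideal.map_eq_top_or_isMaximal_of_surjective (Ideal.Quotient.mk p) hsurj hn with h | h
  · exfalso
    have h1 : (n.map (Ideal.Quotient.mk p)).comap (Ideal.Quotient.mk p) = n := by
      rw [Ideal.comap_map_of_surjective _ hsurj, ← RingHom.ker_eq_comap_bot, Ideal.mk_ker]
      exact sup_eq_left.2 hpn
    rw [h, Ideal.comap_top] at h1
    exact hn.ne_top h1.symm
  · exact h

theorem mem_map_mk_iff (hpn : p ≤ n) (a : B) :
    Ideal.Quotient.mk p a ∈ n.map (Ideal.Quotient.mk p) ↔ a ∈ n := by
  have hsurj : Function.Surjective (Ideal.Quotient.mk p) := Ideal.Quotient.mk_surjective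
  have h1 : (n.map (Ideal.Quotient.mk p)).comap (Ideal.Quotient.mk p) = n := by
    rw [Ideal.comap_map_of_surjective _ hsurj, ← RingHom.ker_eq_comap_bot, Ideal.mk_ker]
    exact sup_eq_left.2 hpn
  constructor
  · intro h
    rw [← h1]
    exact h
  · intro h
    exact Ideal.mem_map_of_mem _ h

theorem map_mk_ne_bot (hne : ∃ a ∈ n, a ∉ p) : n.map (Ideal.Quotient.mk p) ≠ ⊥ := by
  obtain ⟨a, han, hap⟩ := hne
  intro h
  have h1 : Ideal.Quotient.mk p a ∈ n.map (Ideal.Quotient.mk p) := Ideal.mem_map_of_mem _ han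
  rw [h, Ideal.mem_bot, Ideal.Quotient.eq_zero_iff_mem] at h1
  exact hap h1

end Basic

section Dedekind

variable (p n : Ideal B) [hp : p.IsPrime] [hn : n.IsMaximal] [IsDedekindDomain (B ⧸ p)]

theorem prime_map_mk (hpn : p ≤ n) (hne : ∃ a ∈ n, a ∉ p) :
    Prime (n.map (Ideal.Quotient.mk p)) :=
  Ideal.prime_of_isPrime (map_mk_ne_bot p n hne) (map_mk_isMaximal p n hpn).isPrime

/-- `ordAt` is multiplicative. -/
theorem ordAt_mul (hpn : p ≤ n) (hne : ∃ a ∈ n, a ∉ p) (a b : B) :
    ordAt p n (a * b) = ordAt p n a + ordAt p n b := by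
  unfold ordAt
  rw [map_mul, ← Ideal.span_singleton_mul_span_singleton]
  exact emultiplicity_mul (prime_map_mk p n hpn hne)

/-- `ordAt` vanishes off `n`. -/
theorem ordAt_eq_zero_of_notMem (hpn : p ≤ n) {a : B} (ha : a ∉ n) : ordAt p n a = 0 := by
  unfold ordAt
  rw [emultiplicity_eq_zero, Ideal.dvd_span_singleton, mem_map_mk_iff p n hpn]
  exact ha

/-- `ordAt` is positive on `n`. -/
theorem one_le_ordAt_of_mem (hpn : p ≤ n) {a : B} (ha : a ∈ n) : 1 ≤ ordAt p n a := by
  unfold ordAt
  have h : (n.map (Ideal.Quotient.mk p)) ^ 1 ∣ Ideal.span {Ideal.Quotient.mk p a} := by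
    rw [pow_one, Ideal.dvd_span_singleton, mem_map_mk_iff p n hpn]
    exact ha
  have := pow_dvd_iff_le_emultiplicity.1 h
  simpa using this

/-- `ordAt p n a ≥ k` iff `a ∈ p + n ^ k`. -/
theorem le_ordAt_iff (hpn : p ≤ n) (a : B) (k : ℕ) :
    (k : ℕ∞) ≤ ordAt p n a ↔ a ∈ p ⊔ n ^ k := by
  unfold ordAt
  rw [← pow_dvd_iff_le_emultiplicity, Ideal.dvd_span_singleton, ← Ideal.map_pow]
  have hsurj : Function.Surjective (Ideal.Quotient.mk p) := Ideal.Quotient.mk_surjective
  constructor
  · intro h
    have h1 : a ∈ ((n ^ k).map (Ideal.Quotient.mk p)).comap (Ideal.Quotient.mk p) := h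
    rw [Ideal.comap_map_of_surjective _ hsurj, ← RingHom.ker_eq_comap_bot, Ideal.mk_ker] at h1
    rwa [sup_comm]
  · intro h
    have h1 : a ∈ ((n ^ k).map (Ideal.Quotient.mk p)).comap (Ideal.Quotient.mk p) := by
      rw [Ideal.comap_map_of_surjective _ hsurj, ← RingHom.ker_eq_comap_bot, Ideal.mk_ker]
      rwa [sup_comm]
    exact h1

/-- `ordAt p n a = ⊤` iff `a ∈ p`. -/
theorem ordAt_eq_top_iff (hpn : p ≤ n) (hne : ∃ a ∈ n, a ∉ p) (a : B) :
    ordAt p n a = ⊤ ↔ a ∈ p := by
  unfold ordAt
  constructor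
  · intro h
    by_contra hap
    have h0 : Ideal.span {Ideal.Quotient.mk p a} ≠ 0 := by
      rw [Ne, Ideal.zero_eq_bot, Ideal.span_singleton_eq_bot, Ideal.Quotient.eq_zero_iff_mem]
      exact hap
    have hfin : FiniteMultiplicity (n.map (Ideal.Quotient.mk p))
        (Ideal.span {Ideal.Quotient.mk p a}) :=
      FiniteMultiplicity.of_prime_left (prime_map_mk p n hpn hne) h0
    exact (finiteMultiplicity_iff_emultiplicity_ne_top.1 hfin) h
  · intro hap
    have h0 : Ideal.Quotient.mk p a = 0 := Ideal.Quotient.eq_zero_iff_mem.2 hap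
    rw [h0, emultiplicity_eq_top]
    intro hfin
    have : Ideal.span {(0 : B ⧸ p)} = 0 := by
      rw [Ideal.zero_eq_bot, Ideal.span_singleton_eq_bot]
    rw [this] at hfin
    exact hfin.ne_zero rfl

/-- **Transversality gives a uniformiser.**  If `p'` is a second component through `n`, not
contained in `p`, and `p' ⊔ p` is radical, then some `x ∈ p'` restricts to a uniformiser of the
component `p` at `n`. -/
theorem exists_mem_ordAt_eq_one (hpn : p ≤ n) (p' : Ideal B) (hp'n : p' ≤ n)
    (hp'p : ¬ p' ≤ p) (hrad : (p' ⊔ p).IsRadical) :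
    ∃ x ∈ p', ordAt p n x = 1 := by
  classical
  have hsurj : Function.Surjective (Ideal.Quotient.mk p) := Ideal.Quotient.mk_surjective
  have hne : ∃ a ∈ n, a ∉ p := by
    by_contra h
    push Not at h
    exact hp'p (fun a ha => h a (hp'n ha))
  by_contra hcon
  push Not at hcon
  -- every element of `p'` has order `≥ 2`
  have h2 : ∀ x ∈ p', x ∈ p ⊔ n ^ 2 := by
    intro x hx
    rw [← le_ordAt_iff p n hpn x 2]
    have h1 := one_le_ordAt_of_mem p n hpn (hp'n hx)
    have hne1 := hcon x hx
    by_contra hlt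
    rw [not_le] at hlt
    have : ordAt p n x < ((1 : ℕ) : ℕ∞) + 1 := by
      have e : ((2 : ℕ) : ℕ∞) = ((1 : ℕ) : ℕ∞) + 1 := by norm_num
      rwa [e] at hlt
    have hle : ordAt p n x ≤ ((1 : ℕ) : ℕ∞) := Order.le_of_lt_add_one this
    exact hne1 (le_antisymm (by simpa using hle) h1)
  set 𝔫 : Ideal (B ⧸ p) := n.map (Ideal.Quotient.mk p) with h𝔫
  set I : Ideal (B ⧸ p) := p'.map (Ideal.Quotient.mk p) with hI
  have h𝔫prime : Prime 𝔫 := prime_map_mk p n hpn hne
  have hI0 : I ≠ ⊥ := by
    intro h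
    apply hp'p
    intro a ha
    have h1 : Ideal.Quotient.mk p a ∈ I := Ideal.mem_map_of_mem _ ha
    rw [h, Ideal.mem_bot, Ideal.Quotient.eq_zero_iff_mem] at h1
    exact h1
  have hIrad : I.IsRadical := by
    intro y hy
    obtain ⟨k, hk⟩ := hy
    obtain ⟨b, rfl⟩ := hsurj y
    have h1 : b ^ k ∈ I.comap (Ideal.Quotient.mk p) := by
      show Ideal.Quotient.mk p (b ^ k) ∈ I
      rw [map_pow]
      exact hk
    rw [hI, Ideal.comap_map_of_surjective _ hsurj, ← RingHom.ker_eq_comap_bot,
      Ideal.mk_ker] at h1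
    have h3 : b ∈ p' ⊔ p := hrad ⟨k, h1⟩
    have h4 : b ∈ (p'.map (Ideal.Quotient.mk p)).comap (Ideal.Quotient.mk p) := by
      rw [Ideal.comap_map_of_surjective _ hsurj, ← RingHom.ker_eq_comap_bot, Ideal.mk_ker]
      exact h3
    exact h4
  have hIle : I ≤ 𝔫 ^ 2 := by
    rw [hI, Ideal.map_le_iff_le_comap]
    intro x hx
    have h3 := h2 x hx
    show Ideal.Quotient.mk p x ∈ 𝔫 ^ 2
    rw [h𝔫, ← Ideal.map_pow]
    have : x ∈ ((n ^ 2).map (Ideal.Quotient.mk p)).comap (Ideal.Quotient.mk p) := by
      rw [Ideal.comap_map_of_surjective _ hsurj, ← RingHom.ker_eq_comap_bot, Ideal.mk_ker]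
      rwa [sup_comm]
    exact this
  -- `𝔫 ^ 2 ∣ I`, so `I = 𝔫 ^ 2 * J`
  obtain ⟨J, hJ⟩ := Ideal.dvd_iff_le.2 hIle
  have hJ0 : J ≠ ⊥ := by
    intro h
    apply hI0
    rw [hJ, h, Ideal.mul_bot]
  -- `𝔫 * J ≤ rad I = I`
  have h5 : 𝔫 * J ≤ I := by
    intro y hy
    apply hIrad
    refine ⟨2, ?_⟩
    have : y ^ 2 ∈ (𝔫 * J) ^ 2 := Ideal.pow_mem_pow hy 2
    have h6 : (𝔫 * J) ^ 2 ≤ I := by
      rw [hJ, mul_pow]
      calc 𝔫 ^ 2 * J ^ 2 = (𝔫 ^ 2 * J) * J := by rw [pow_two J, mul_assoc]
        _ ≤ 𝔫 ^ 2 * J := Ideal.mul_le_left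
    exact h6 this
  -- hence `𝔫 ^ 2 * J ∣ 𝔫 * J`, i.e. `𝔫 ∣ 1`
  have h7 : 𝔫 ^ 2 * J ∣ 𝔫 * J := by
    rw [← hJ]
    exact Ideal.dvd_iff_le.2 h5
  have h𝔫0 : 𝔫 ≠ 0 := h𝔫prime.ne_zero
  have hJ0' : J ≠ 0 := hJ0
  have h8 : 𝔫 * (𝔫 * J) ∣ 1 * (𝔫 * J) := by
    rw [one_mul, ← mul_assoc, ← pow_two]
    exact h7
  have h9 : 𝔫 ∣ 1 := (mul_dvd_mul_iff_right (mul_ne_zero h𝔫0 hJ0')).1 h8
  exact h𝔫prime.not_isUnit (isUnit_of_dvd_one h9)

end Dedekind

end Fermat.Agent.S36.H803

end
-- ===== PACK-END S36/H803/OrdAt.lean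

-- ===== PACK-BEGIN S27/H190/ULiftPlace.lean
section





/-!
# S27 / ULIFT, part U2a: transport of places, divisors and `Pic0` along `e : F ≃ₐ[K] F'`

`F` and `F'` may live in different universes.  Mathlib + Prelude only.
-/

set_option autoImplicit false

noncomputable section

open AlgebraicCurve IsDedekindDomain WithZero IsLocalRing

namespace Fermat.Agent.S27.H190

universe u v w

variable {K : Type u} {F : Type v} {F' : Type w} [Field K] [Field F] [Field F']
  [Algebra K F] [Algebra K F']

/-- Transport of a valuation subring along a field isomorphism. -/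
def vsMap (e : F ≃ₐ[K] F') (A : ValuationSubring F) : ValuationSubring F' :=
  A.comap ((e.symm : F' ≃ₐ[K] F) : F' →+* F)

theorem mem_vsMap (e : F ≃ₐ[K] F') {A : ValuationSubring F} {x : F'} :
    x ∈ vsMap e A ↔ e.symm x ∈ A := Iff.rfl

theorem apply_mem_vsMap (e : F ≃ₐ[K] F') {A : ValuationSubring F} {x : F} :
    e x ∈ vsMap e A ↔ x ∈ A := by
  rw [mem_vsMap, e.symm_apply_apply]

theorem vsMap_symm_vsMap (e : F ≃ₐ[K] F') (A : ValuationSubring F) :
    vsMap e.symm (vsMap e A) = A := by
  ext x
  rw [mem_vsMap, mem_vsMap]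
  simp

/-- The ring isomorphism `A ≃+* vsMap e A`. -/
def vsRingEquiv (e : F ≃ₐ[K] F') (A : ValuationSubring F) : A ≃+* vsMap e A where
  toFun x := ⟨e x, (apply_mem_vsMap e).mpr x.2⟩
  invFun y := ⟨e.symm y, y.2⟩
  left_inv x := by ext; simp
  right_inv y := by ext; simp
  map_mul' x y := by ext; simp
  map_add' x y := by ext; simp

@[simp]
theorem coe_vsRingEquiv_apply (e : F ≃ₐ[K] F') (A : ValuationSubring F) (x : A) :
    ((vsRingEquiv e A x : vsMap e A) : F') = e x := rfl

/-- Transport of a place along a field isomorphism over `K`. -/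
def placeMap (e : F ≃ₐ[K] F') (v : Place K F) : Place K F' where
  toValuationSubring := vsMap e v.toValuationSubring
  algebraMap_mem' := fun a => by
    rw [mem_vsMap, e.symm.commutes]
    exact v.algebraMap_mem' a
  ne_top' := fun h => v.ne_top' <| by
    ext x
    refine ⟨fun _ => ValuationSubring.mem_top x, fun _ => ?_⟩
    have hx : e x ∈ vsMap e v.toValuationSubring := by
      rw [h]; exact ValuationSubring.mem_top _
    exact (apply_mem_vsMap e).mp hx
  isPrincipalIdealRing' :=
    IsPrincipalIdealRing.of_surjective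
      (vsRingEquiv e v.toValuationSubring : _ ≃+* _)
      (vsRingEquiv e v.toValuationSubring).surjective

@[simp]
theorem placeMap_toValuationSubring (e : F ≃ₐ[K] F') (v : Place K F) :
    (placeMap e v).toValuationSubring = vsMap e v.toValuationSubring := rfl

@[simp]
theorem placeMap_symm_placeMap (e : F ≃ₐ[K] F') (v : Place K F) :
    placeMap e.symm (placeMap e v) = v := by
  ext1
  exact vsMap_symm_vsMap e _

@[simp]
theorem placeMap_placeMap_symm (e : F ≃ₐ[K] F') (v : Place K F') :
    placeMap e (placeMap e.symm v) = v := by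
  have h := placeMap_symm_placeMap e.symm v
  rwa [AlgEquiv.symm_symm] at h

/-- The bijection on places induced by `e : F ≃ₐ[K] F'`. -/
def placeEquiv (e : F ≃ₐ[K] F') : Place K F ≃ Place K F' where
  toFun := placeMap e
  invFun := placeMap e.symm
  left_inv := placeMap_symm_placeMap e
  right_inv := placeMap_placeMap_symm e

@[simp]
theorem placeEquiv_apply (e : F ≃ₐ[K] F') (v : Place K F) : placeEquiv e v = placeMap e v := rfl

@[simp]
theorem placeEquiv_symm_apply (e : F ≃ₐ[K] F') (v : Place K F') :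
    (placeEquiv e).symm v = placeMap e.symm v := rfl

theorem ord_placeMap (e : F ≃ₐ[K] F') (v : Place K F) (f : F) :
    (placeMap e v).ord (e f) = v.ord f := by
  rcases eq_or_ne f 0 with rfl | hf
  · simp
  obtain ⟨π, hπ⟩ := IsDiscreteValuationRing.exists_irreducible v.toValuationSubring
  obtain ⟨u, hu⟩ := v.exists_unit_mul_zpow hf hπ
  set n := v.ord f with hn
  let r : v.toValuationSubring ≃+* (placeMap e v).toValuationSubring :=
    vsRingEquiv e v.toValuationSubring
  have hπ' : Irreducible (r π) := (MulEquiv.irreducible_iff r).mpr hπ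
  have hu' : IsUnit (r (u : v.toValuationSubring)) := u.isUnit.map r
  have hcoeu : ((hu'.unit : (placeMap e v).toValuationSubring) : F')
      = e ((u : v.toValuationSubring) : F) := by
    rw [IsUnit.unit_spec]
    rfl
  have hcoeπ : ((r π : (placeMap e v).toValuationSubring) : F') = e (π : F) := rfl
  have key : e f = ((hu'.unit : (placeMap e v).toValuationSubring) : F')
      * (((r π : (placeMap e v).toValuationSubring) : F') ^ n) := by
    rw [hcoeu, hcoeπ, hu, map_mul, map_zpow₀]
  rw [key, (placeMap e v).ord_unit_smul_zpow hu'.unit hπ' n]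

theorem ord_placeMap_symm (e : F ≃ₐ[K] F') (v : Place K F) (f : F') :
    (placeMap e v).ord f = v.ord (e.symm f) := by
  have h := ord_placeMap e v (e.symm f)
  rwa [e.apply_symm_apply] at h

theorem adicValuation_placeMap (e : F ≃ₐ[K] F') (v : Place K F) (f : F) :
    (placeMap e v).adicValuation (e f) = v.adicValuation f := by
  rcases eq_or_ne f 0 with rfl | hf
  · simp
  have hf' : e f ≠ 0 := by simpa using hf
  rw [(placeMap e v).adicValuation_eq_exp_neg_ord hf', v.adicValuation_eq_exp_neg_ord hf,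
    ord_placeMap]

theorem adicValuation_placeMap_symm (e : F ≃ₐ[K] F') (v : Place K F) (f : F') :
    (placeMap e v).adicValuation f = v.adicValuation (e.symm f) := by
  have h := adicValuation_placeMap e v (e.symm f)
  rwa [e.apply_symm_apply] at h

/-- The residue fields of `v` and `placeMap e v` are isomorphic over `K`. -/
def placeResidueAlgEquiv (e : F ≃ₐ[K] F') (v : Place K F) :
    v.ResidueField ≃ₐ[K] (placeMap e v).ResidueField :=
  AlgEquiv.ofRingEquiv (f := IsLocalRing.ResidueField.mapEquiv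
      (vsRingEquiv e v.toValuationSubring)) <| fun a => by
    have h3 : (vsRingEquiv e v.toValuationSubring) (algebraMap K v.toValuationSubring a)
        = algebraMap K (placeMap e v).toValuationSubring a := by
      ext
      rw [coe_vsRingEquiv_apply, Place.coe_algebraMap, e.commutes]
      rfl
    show IsLocalRing.ResidueField.mapEquiv _ (IsLocalRing.residue _ _) = IsLocalRing.residue _ _
    rw [IsLocalRing.ResidueField.mapEquiv_apply, IsLocalRing.ResidueField.map_residue]
    exact congrArg _ h3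

@[simp]
theorem deg_placeMap (e : F ≃ₐ[K] F') (v : Place K F) : (placeMap e v).deg = v.deg :=
  ((placeResidueAlgEquiv e v).toLinearEquiv.finrank_eq).symm

theorem finite_residue_placeMap (e : F ≃ₐ[K] F') (v : Place K F)
    (h : Module.Finite K v.ResidueField) : Module.Finite K (placeMap e v).ResidueField :=
  Module.Finite.equiv (placeResidueAlgEquiv e v).toLinearEquiv

/-! ### Divisors -/

/-- Transport of divisors. -/
def divisorEquiv (e : F ≃ₐ[K] F') : Divisor K F ≃+ Divisor K F' :=
  Finsupp.domCongr (placeEquiv e)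

@[simp]
theorem divisorEquiv_apply (e : F ≃ₐ[K] F') (D : Divisor K F) (w : Place K F') :
    divisorEquiv e D w = D (placeMap e.symm w) := rfl

theorem divisorEquiv_apply_placeMap (e : F ≃ₐ[K] F') (D : Divisor K F) (v : Place K F) :
    divisorEquiv e D (placeMap e v) = D v := by
  rw [divisorEquiv_apply, placeMap_symm_placeMap]

@[simp]
theorem divisorEquiv_single (e : F ≃ₐ[K] F') (v : Place K F) (n : ℤ) :
    divisorEquiv e (Finsupp.single v n) = Finsupp.single (placeMap e v) n := by
  ext w
  rw [divisorEquiv_apply]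
  by_cases h : w = placeMap e v
  · subst h
    simp
  · rw [Finsupp.single_eq_of_ne' (Ne.symm h), Finsupp.single_eq_of_ne']
    intro h'
    apply h
    rw [h', placeMap_placeMap_symm]

@[simp]
theorem divisorEquiv_symm (e : F ≃ₐ[K] F') :
    (divisorEquiv e).symm = divisorEquiv e.symm := by
  ext D v
  rfl

@[simp]
theorem degree_divisorEquiv (e : F ≃ₐ[K] F') (D : Divisor K F) :
    Divisor.degree (divisorEquiv e D) = Divisor.degree D := by
  induction D using Finsupp.induction with
  | zero => simp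
  | single_add v n D _ _ ih =>
      rw [map_add, map_add, map_add, ih, divisorEquiv_single, Divisor.degree_single,
        Divisor.degree_single, deg_placeMap]

theorem divisorEquiv_mem_degZero (e : F ≃ₐ[K] F') {D : Divisor K F}
    (hD : D ∈ Divisor.degZero (K := K) (F := F)) :
    divisorEquiv e D ∈ Divisor.degZero (K := K) (F := F') := by
  rwa [Divisor.mem_degZero, degree_divisorEquiv]

theorem divisorEquiv_mem_principal (e : F ≃ₐ[K] F') {D : Divisor K F}
    (hD : D ∈ Divisor.principal (K := K) (F := F)) :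
    divisorEquiv e D ∈ Divisor.principal (K := K) (F := F') := by
  obtain ⟨f, hf, hD⟩ := hD
  refine ⟨e f, by simpa using hf, fun w => ?_⟩
  rw [divisorEquiv_apply, hD]
  have h := ord_placeMap e (placeMap e.symm w) f
  rw [placeMap_placeMap_symm] at h
  exact h.symm

theorem divisorEquiv_mem_principal_iff (e : F ≃ₐ[K] F') {D : Divisor K F} :
    divisorEquiv e D ∈ Divisor.principal (K := K) (F := F') ↔
      D ∈ Divisor.principal (K := K) (F := F) := by
  refine ⟨fun h => ?_, divisorEquiv_mem_principal e⟩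
  have h' := divisorEquiv_mem_principal e.symm h
  rw [← divisorEquiv_symm, AddEquiv.symm_apply_apply] at h'
  exact h'

/-- `HasPrincipalDivisors` is invariant under `K`-isomorphism. -/
theorem hasPrincipalDivisors_of_algEquiv (e : F ≃ₐ[K] F') [h : HasPrincipalDivisors K F] :
    HasPrincipalDivisors K F' := by
  refine ⟨fun f hf => ?_⟩
  have hf' : e.symm f ≠ 0 := by simpa using hf
  obtain ⟨D, hD, hdeg⟩ := h.exists_divisor (e.symm f) hf'
  refine ⟨divisorEquiv e D, fun w => ?_, by rw [degree_divisorEquiv, hdeg]⟩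
  rw [divisorEquiv_apply, hD]
  have h := ord_placeMap_symm e (placeMap e.symm w) f
  rw [placeMap_placeMap_symm] at h
  exact h.symm

/-! ### `Pic0` -/

/-- Transport of degree-zero divisors. -/
def degZeroEquiv (e : F ≃ₐ[K] F') :
    Divisor.degZero (K := K) (F := F) ≃+ Divisor.degZero (K := K) (F := F') where
  toFun D := ⟨divisorEquiv e D, divisorEquiv_mem_degZero e D.2⟩
  invFun D := ⟨divisorEquiv e.symm D, divisorEquiv_mem_degZero e.symm D.2⟩
  left_inv D := by
    apply Subtype.ext
    show divisorEquiv e.symm (divisorEquiv e (D : Divisor K F)) = D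
    rw [← divisorEquiv_symm, AddEquiv.symm_apply_apply]
  right_inv D := by
    apply Subtype.ext
    show divisorEquiv e (divisorEquiv e.symm (D : Divisor K F')) = D
    rw [← divisorEquiv_symm, AddEquiv.apply_symm_apply]
  map_add' D E := by
    apply Subtype.ext
    show divisorEquiv e ((D : Divisor K F) + E) = divisorEquiv e D + divisorEquiv e E
    exact map_add _ _ _

@[simp]
theorem coe_degZeroEquiv (e : F ≃ₐ[K] F') (D : Divisor.degZero (K := K) (F := F)) :
    (degZeroEquiv e D : Divisor K F') = divisorEquiv e (D : Divisor K F) := rfl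

/-- **Transport of `Pic0`** along `e : F ≃ₐ[K] F'`. -/
def pic0Equiv (e : F ≃ₐ[K] F') : Pic0 K F ≃+ Pic0 K F' :=
  QuotientAddGroup.congr _ _ (degZeroEquiv e) <| by
    ext D
    simp only [AddSubgroup.mem_map, AddSubgroup.mem_addSubgroupOf]
    constructor
    · rintro ⟨D₀, hD₀, rfl⟩
      exact divisorEquiv_mem_principal e hD₀
    · intro hD
      refine ⟨(degZeroEquiv e).symm D, ?_, by simp⟩
      have h := (divisorEquiv_mem_principal_iff e
        (D := (((degZeroEquiv e).symm D : Divisor.degZero (K := K) (F := F)) : Divisor K F))).mp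
      apply h
      have h2 : divisorEquiv e (((degZeroEquiv e).symm D : Divisor.degZero (K := K) (F := F)) :
          Divisor K F) = (D : Divisor K F') := by
        rw [← coe_degZeroEquiv, AddEquiv.apply_symm_apply]
      rw [h2]
      exact hD

theorem pic0Equiv_mem_torsion_iff (e : F ≃ₐ[K] F') (n : ℕ) (x : Pic0 K F) :
    pic0Equiv e x ∈ Pic0.torsion K F' n ↔ x ∈ Pic0.torsion K F n := by
  rw [Pic0.mem_torsion, Pic0.mem_torsion, ← map_zsmul, map_eq_zero_iff _ (pic0Equiv e).injective]

/-- **U2, torsion count**: the number of `n`-torsion classes is invariant under `K`-isomorphism. -/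
theorem natCard_torsion_eq_of_algEquiv (e : F ≃ₐ[K] F') (n : ℕ) :
    Nat.card (Pic0.torsion K F n) = Nat.card (Pic0.torsion K F' n) :=
  Nat.card_congr
    ((pic0Equiv e).toEquiv.subtypeEquiv fun x => (pic0Equiv_mem_torsion_iff e n x).symm)

end Fermat.Agent.S27.H190

end
end
-- ===== PACK-END S27/H190/ULiftPlace.lean

-- ===== PACK-BEGIN S27/H190/ULiftSmall.lean
section


/-!
# S27 / ULIFT, part U1: an essentially finite type field extension is small

`F` essentially of finite type over `K : Type u` (any universe for `F`) is `Small.{u}`, hence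
`F ≃ₐ[K] Shrink.{u} F` with `Shrink.{u} F : Type u` a field and a `K`-algebra (Mathlib instances).
-/

set_option autoImplicit false

namespace Fermat.Agent.S27.H190

universe u v

/-- A field essentially of finite type over `K : Type u` is `u`-small. -/
theorem small_of_essFiniteType (K : Type u) (F : Type v) [Field K] [Field F] [Algebra K F]
    [Algebra.EssFiniteType K F] : Small.{u} F := by
  classical
  let s : Finset F := Algebra.EssFiniteType.finset K F
  let n := s.card
  let f : Fin n → F := fun i => (s.equivFin.symm i : F)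
  have hrange : Set.range f = (s : Set F) := by
    ext x
    constructor
    · rintro ⟨i, rfl⟩
      exact (s.equivFin.symm i).2
    · intro hx
      exact ⟨s.equivFin ⟨x, hx⟩, by simp [f]⟩
  let g : MvPolynomial (Fin n) K × MvPolynomial (Fin n) K → F :=
    fun p => MvPolynomial.aeval f p.1 / MvPolynomial.aeval f p.2
  have hg : Function.Surjective g := by
    intro x
    obtain ⟨⟨a, m⟩, hx⟩ := IsLocalization.surj (Algebra.EssFiniteType.submonoid K F) x
    have ha : (a : F) ∈ (MvPolynomial.aeval f : MvPolynomial (Fin n) K →ₐ[K] F).range := by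
      rw [← Algebra.adjoin_range_eq_range_aeval, hrange]
      exact a.2
    have hm : ((m : Algebra.EssFiniteType.subalgebra K F) : F) ∈
        (MvPolynomial.aeval f : MvPolynomial (Fin n) K →ₐ[K] F).range := by
      rw [← Algebra.adjoin_range_eq_range_aeval, hrange]
      exact (m : Algebra.EssFiniteType.subalgebra K F).2
    obtain ⟨p, hp⟩ := ha
    obtain ⟨q, hq⟩ := hm
    have hmu : IsUnit ((m : Algebra.EssFiniteType.subalgebra K F) : F) := m.2
    refine ⟨(p, q), ?_⟩
    show MvPolynomial.aeval f p / MvPolynomial.aeval f q = x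
    have hp' : MvPolynomial.aeval f p = (a : F) := hp
    have hq' : MvPolynomial.aeval f q = ((m : Algebra.EssFiniteType.subalgebra K F) : F) := hq
    rw [hp', hq', div_eq_iff hmu.ne_zero]
    exact hx.symm
  exact small_of_surjective hg

/-- **U1**: a field `F` (in any universe) essentially of finite type over `K : Type u` has a model
in `Type u`. -/
theorem exists_algEquiv_small (K : Type u) (F : Type v) [Field K] [Field F] [Algebra K F]
    [Algebra.EssFiniteType K F] :
    ∃ (F' : Type u) (_ : Field F') (_ : Algebra K F'), Nonempty (F ≃ₐ[K] F') := by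
  haveI : Small.{u} F := small_of_essFiniteType K F
  exact ⟨Shrink.{u} F, inferInstance, inferInstance, ⟨(Shrink.algEquiv K F).symm⟩⟩

end Fermat.Agent.S27.H190

end
-- ===== PACK-END S27/H190/ULiftSmall.lean

-- ===== PACK-BEGIN S27/H190/ULiftGenus.lean
section



/-!
# S27 / ULIFT, parts U2b + U3: transport of repartitions, `genusFF`, `IsCurveOver`; the glue

* `genusFF_eq_of_algEquiv`, `isCurveOver_of_algEquiv`;
* `s27_of_small`: the statement of S27 for `K F : Type u` in ONE universe implies the frozen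
  statement of S27 (`K F : Type*`, i.e. two independent universes).

Mathlib + Prelude only.
-/

set_option autoImplicit false

noncomputable section

open AlgebraicCurve IsDedekindDomain WithZero IsLocalRing

namespace Fermat.Agent.S27.H190

universe u v w

variable {K : Type u} {F : Type v} {F' : Type w} [Field K] [Field F] [Field F']
  [Algebra K F] [Algebra K F']

/-! ### Repartitions -/

/-- Transport of families `Place K F → F`. -/
def funMap (e : F ≃ₐ[K] F') (α : Place K F → F) : Place K F' → F' :=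
  fun w => e (α (placeMap e.symm w))

@[simp]
theorem funMap_apply (e : F ≃ₐ[K] F') (α : Place K F → F) (w : Place K F') :
    funMap e α w = e (α (placeMap e.symm w)) := rfl

theorem funMap_apply_placeMap (e : F ≃ₐ[K] F') (α : Place K F → F) (v : Place K F) :
    funMap e α (placeMap e v) = e (α v) := by
  rw [funMap_apply, placeMap_symm_placeMap]

@[simp]
theorem funMap_symm_funMap (e : F ≃ₐ[K] F') (α : Place K F → F) :
    funMap e.symm (funMap e α) = α := by
  funext v
  simp only [funMap_apply, AlgEquiv.symm_symm, placeMap_symm_placeMap, AlgEquiv.symm_apply_apply]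

@[simp]
theorem funMap_funMap_symm (e : F ≃ₐ[K] F') (α : Place K F' → F') :
    funMap e (funMap e.symm α) = α := by
  have h := funMap_symm_funMap e.symm α
  rwa [AlgEquiv.symm_symm] at h

theorem funMap_add (e : F ≃ₐ[K] F') (α β : Place K F → F) :
    funMap e (α + β) = funMap e α + funMap e β := by
  funext w; simp

theorem funMap_mul (e : F ≃ₐ[K] F') (α β : Place K F → F) :
    funMap e (α * β) = funMap e α * funMap e β := by
  funext w; simp

theorem funMap_algebraMap (e : F ≃ₐ[K] F') (c : F) :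
    funMap e (algebraMap F (Place K F → F) c) = algebraMap F' (Place K F' → F') (e c) := by
  funext w; simp [Pi.algebraMap_apply]

theorem funMap_smul (e : F ≃ₐ[K] F') (c : K) (α : Place K F → F) :
    funMap e (c • α) = c • funMap e α := by
  funext w; simp

theorem funMap_const (e : F ≃ₐ[K] F') (f : F) :
    funMap e (fun _ => f) = fun _ => e f := rfl

theorem funMap_mem_repartitions (e : F ≃ₐ[K] F') {α : Place K F → F}
    (hα : α ∈ repartitions K F) : funMap e α ∈ repartitions K F' := by
  unfold repartitions at hα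
  induction hα using Algebra.adjoin_induction with
  | mem α hα =>
    apply mem_repartitions_of_finite
    have hα' : {v : Place K F | ¬v.adicValuation (α v) ≤ 1}.Finite := hα
    refine (hα'.image (placeMap e)).subset ?_
    intro w hw
    refine ⟨placeMap e.symm w, ?_, placeMap_placeMap_symm e w⟩
    simp only [Set.mem_setOf_eq] at hw ⊢
    have h := adicValuation_placeMap e (placeMap e.symm w) (α (placeMap e.symm w))
    rw [placeMap_placeMap_symm] at h
    rw [← h]
    exact hw
  | algebraMap c =>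
    rw [funMap_algebraMap]
    exact Subalgebra.algebraMap_mem _ _
  | add α β _ _ hα hβ =>
    rw [funMap_add]
    exact add_mem hα hβ
  | mul α β _ _ hα hβ =>
    rw [funMap_mul]
    exact mul_mem hα hβ

/-- Transport of repartitions, as a `K`-linear equivalence. -/
def repEquiv (e : F ≃ₐ[K] F') : ↥(repartitions K F) ≃ₗ[K] ↥(repartitions K F') where
  toFun α := ⟨funMap e α, funMap_mem_repartitions e α.2⟩
  invFun α := ⟨funMap e.symm α, funMap_mem_repartitions e.symm α.2⟩
  left_inv α := Subtype.ext (funMap_symm_funMap e _)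
  right_inv α := Subtype.ext (funMap_funMap_symm e _)
  map_add' α β := Subtype.ext (funMap_add e _ _)
  map_smul' c α := Subtype.ext (funMap_smul e c _)

@[simp]
theorem coe_repEquiv (e : F ≃ₐ[K] F') (α : ↥(repartitions K F)) :
    ((repEquiv e α : ↥(repartitions K F')) : Place K F' → F') = funMap e α := rfl

@[simp]
theorem coe_repEquiv_symm (e : F ≃ₐ[K] F') (α : ↥(repartitions K F')) :
    (((repEquiv e).symm α : ↥(repartitions K F)) : Place K F → F) = funMap e.symm α := rfl

theorem repEquiv_mem_repartitionsOf_iff (e : F ≃ₐ[K] F') (D : Divisor K F)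
    (α : ↥(repartitions K F)) :
    repEquiv e α ∈ repartitionsOf (divisorEquiv e D) ↔ α ∈ repartitionsOf D := by
  constructor
  · intro h v
    have hv := h (placeMap e v)
    rw [coe_repEquiv, funMap_apply_placeMap, adicValuation_placeMap,
      divisorEquiv_apply_placeMap] at hv
    exact hv
  · intro h w
    have hv := h (placeMap e.symm w)
    rw [coe_repEquiv, funMap_apply, divisorEquiv_apply]
    have h2 := adicValuation_placeMap e (placeMap e.symm w)
      ((α : Place K F → F) (placeMap e.symm w))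
    rw [placeMap_placeMap_symm] at h2
    rw [h2]
    exact hv

theorem repEquiv_mem_principal_iff (e : F ≃ₐ[K] F') (α : ↥(repartitions K F)) :
    repEquiv e α ∈ principalRepartitions K F' ↔ α ∈ principalRepartitions K F := by
  rw [mem_principalRepartitions_iff, mem_principalRepartitions_iff]
  constructor
  · rintro ⟨f, hf⟩
    refine ⟨e.symm f, ?_⟩
    have h := congrArg (funMap e.symm) hf
    rw [coe_repEquiv, funMap_symm_funMap] at h
    rw [h]
    rfl
  · rintro ⟨f, hf⟩
    refine ⟨e f, ?_⟩
    rw [coe_repEquiv, hf]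
    rfl

theorem map_repartitionsOf (e : F ≃ₐ[K] F') (D : Divisor K F) :
    (repartitionsOf D).map ((repEquiv e : ↥(repartitions K F) ≃ₗ[K] ↥(repartitions K F')) :
      ↥(repartitions K F) →ₗ[K] ↥(repartitions K F')) = repartitionsOf (divisorEquiv e D) := by
  ext β
  simp only [Submodule.mem_map, LinearEquiv.coe_coe]
  constructor
  · rintro ⟨α, hα, rfl⟩
    exact (repEquiv_mem_repartitionsOf_iff e D α).mpr hα
  · intro hβ
    refine ⟨(repEquiv e).symm β, ?_, LinearEquiv.apply_symm_apply _ _⟩
    rw [← repEquiv_mem_repartitionsOf_iff e D, LinearEquiv.apply_symm_apply]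
    exact hβ

theorem map_principalRepartitions (e : F ≃ₐ[K] F') :
    (principalRepartitions K F).map ((repEquiv e : ↥(repartitions K F) ≃ₗ[K] ↥(repartitions K F')) :
      ↥(repartitions K F) →ₗ[K] ↥(repartitions K F')) = principalRepartitions K F' := by
  ext β
  simp only [Submodule.mem_map, LinearEquiv.coe_coe]
  constructor
  · rintro ⟨α, hα, rfl⟩
    exact (repEquiv_mem_principal_iff e α).mpr hα
  · intro hβ
    refine ⟨(repEquiv e).symm β, ?_, LinearEquiv.apply_symm_apply _ _⟩
    rw [← repEquiv_mem_principal_iff e, LinearEquiv.apply_symm_apply]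
    exact hβ

/-- Transport of the adelic `H¹(D)`. -/
def h1Equiv (e : F ≃ₐ[K] F') (D : Divisor K F) : H1 D ≃ₗ[K] H1 (divisorEquiv e D) :=
  Submodule.Quotient.equiv _ _ (repEquiv e) <| by
    rw [Submodule.map_sup, map_repartitionsOf, map_principalRepartitions]

/-- **U2, genus**: `genusFF` is invariant under `K`-isomorphism. -/
theorem genusFF_eq_of_algEquiv (e : F ≃ₐ[K] F') : genusFF K F = genusFF K F' := by
  unfold genusFF
  have h := (h1Equiv e (0 : Divisor K F)).finrank_eq
  rw [h]
  rw [map_zero]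

/-! ### Kähler differentials -/

section Kaehler

open KaehlerDifferential

theorem finrank_kaehler_le_of_algEquiv (e : F ≃ₐ[K] F') [Module.Finite F Ω[F⁄K]] :
    Module.Finite F' Ω[F'⁄K] ∧ Module.finrank F' Ω[F'⁄K] ≤ Module.finrank F Ω[F⁄K] := by
  letI : Algebra F F' := e.toAlgHom.toRingHom.toAlgebra
  haveI : IsScalarTower K F F' := IsScalarTower.of_algebraMap_eq fun a => (e.commutes a).symm
  have hsurj : Function.Surjective (algebraMap F F') := e.surjective
  have h1 := KaehlerDifferential.mapBaseChange_surjective K F F' hsurj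
  haveI : Module.Finite F' (TensorProduct F F' Ω[F⁄K]) := inferInstance
  refine ⟨Module.Finite.of_surjective _ h1, ?_⟩
  calc Module.finrank F' Ω[F'⁄K]
      ≤ Module.finrank F' (TensorProduct F F' Ω[F⁄K]) :=
        LinearMap.finrank_le_finrank_of_surjective h1
    _ = Module.finrank F Ω[F⁄K] := Module.finrank_baseChange

theorem finrank_kaehler_eq_one_of_algEquiv (e : F ≃ₐ[K] F')
    (h : Module.finrank F Ω[F⁄K] = 1) : Module.finrank F' Ω[F'⁄K] = 1 := by
  haveI : Module.Finite F Ω[F⁄K] := Module.finite_of_finrank_pos (by rw [h]; exact one_pos)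
  obtain ⟨hfin, hle⟩ := finrank_kaehler_le_of_algEquiv e
  haveI := hfin
  obtain ⟨_, hge⟩ := finrank_kaehler_le_of_algEquiv e.symm
  omega

end Kaehler

/-- **U2, `IsCurveOver`** is invariant under `K`-isomorphism. -/
theorem isCurveOver_of_algEquiv (e : F ≃ₐ[K] F') [h : IsCurveOver K F] : IsCurveOver K F' where
  toHasPrincipalDivisors := hasPrincipalDivisors_of_algEquiv e
  finiteResidue := fun w => by
    have h1 := finite_residue_placeMap e (placeMap e.symm w) (h.finiteResidue _)
    rwa [placeMap_placeMap_symm] at h1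
  kaehler_free_rank_one :=
    ⟨Module.Free.of_divisionRing F' _, finrank_kaehler_eq_one_of_algEquiv e h.kaehler_free_rank_one.2⟩

/-- `Algebra.EssFiniteType` is invariant under `K`-isomorphism. -/
theorem essFiniteType_of_algEquiv (e : F ≃ₐ[K] F') [Algebra.EssFiniteType K F] :
    Algebra.EssFiniteType K F' :=
  (Algebra.EssFiniteType.iff_of_algEquiv e).mp inferInstance

/-! ### U3: the glue -/

/-- The statement of S27 with `K` and `F` in the same universe `u`. -/
def S27Small : Prop :=
  ∀ (K F : Type u) [Field K] [Field F] [Algebra K F] [IsAlgClosed K] [CharZero K]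
    [IsCurveOver K F] [Algebra.EssFiniteType K F] (ℓ : ℕ) [Fact ℓ.Prime] (k : ℕ),
    Nat.card (Pic0.torsion K F (ℓ ^ k)) = ℓ ^ (2 * genusFF K F * k)

/-- **ULIFT**: S27 in one universe implies S27 for `K : Type u`, `F : Type v`. -/
theorem s27_of_small (h : S27Small.{u})
    (K : Type u) (F : Type v) [Field K] [Field F] [Algebra K F] [IsAlgClosed K] [CharZero K]
    [IsCurveOver K F] [Algebra.EssFiniteType K F] (ℓ : ℕ) [Fact ℓ.Prime] (k : ℕ) :
    Nat.card (Pic0.torsion K F (ℓ ^ k)) = ℓ ^ (2 * genusFF K F * k) := by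
  haveI : Small.{u} F := small_of_essFiniteType K F
  let e : F ≃ₐ[K] Shrink.{u} F := (Shrink.algEquiv K F).symm
  haveI : IsCurveOver K (Shrink.{u} F) := isCurveOver_of_algEquiv e
  haveI : Algebra.EssFiniteType K (Shrink.{u} F) := essFiniteType_of_algEquiv e
  rw [natCard_torsion_eq_of_algEquiv e, genusFF_eq_of_algEquiv e]
  exact h K (Shrink.{u} F) ℓ k

end Fermat.Agent.S27.H190

end
end
-- ===== PACK-END S27/H190/ULiftGenus.lean

-- ===== PACK-BEGIN S59/H139/GubCore.lean
section


/-!
# S59 / cell (C) LO-SQ / W-COUNT / GUB — the abstract FIBRE bound (helper139), Mathlib only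

`A` a Dedekind domain which is an algebra over a field `k`, `T ∈ A` transcendental over `k`, any
`d + 1` elements of `A` linearly dependent over `k[T]`, `h ∈ k[X]` nonzero, `s` a finite set of
maximal ideals of `A` with `h(T) ∈ n ^ e` for `n ∈ s`.  Then `#s * e ≤ d * deg h`.

* `indep_step`, `indep_mul_pow`, `indep_prod` : a chain of ideals gives `k`-independent elements
  modulo the last ideal of the chain (lower bound);
* `le_of_indep` : at most `d * deg h` elements of `A` are `k`-independent modulo `h(T)` (upper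
  bound; finitely generated torsion-free modules over the principal ideal domain `k[X]` are free);
* `card_mul_le_core` : the bound.
-/

set_option autoImplicit false
set_option linter.unusedSectionVars false
set_option linter.overlappingInstances false
set_option linter.style.haveILetI false

noncomputable section

namespace Fermat.Agent.S59.H139.GubCore

open Polynomial

/-- There are `N` elements of `A` no nontrivial `k`-combination of which lies in `J`. -/
def IndepModIdeal (k : Type*) {A : Type*} [Field k] [CommRing A] [Algebra k A]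
    (J : Ideal A) (N : ℕ) : Prop :=
  ∃ x : Fin N → A, ∀ c : Fin N → k, (∑ t, algebraMap k A (c t) * x t) ∈ J → c = 0

section Lower

variable {k A : Type*} [Field k] [CommRing A] [Algebra k A]

theorem indep_zero (J : Ideal A) : IndepModIdeal k J 0 :=
  ⟨Fin.elim0, fun _ _ => funext fun t => t.elim0⟩

theorem indep_step_of_lt {I I' : Ideal A} (hle : I' < I) {N : ℕ}
    (h : IndepModIdeal k I N) : IndepModIdeal k I' (N + 1) := by
  obtain ⟨x, hx⟩ := h
  obtain ⟨y, hyI, hyn⟩ := SetLike.exists_of_lt hle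
  refine ⟨Fin.snoc x y, fun c hc => ?_⟩
  rw [Fin.sum_univ_castSucc] at hc
  simp only [Fin.snoc_castSucc, Fin.snoc_last] at hc
  have h1 : (∑ t : Fin N, algebraMap k A (c t.castSucc) * x t) ∈ I :=
    (I.add_mem_iff_left (I.mul_mem_left _ hyI)).mp (hle.le hc)
  have hc0 := hx (fun t => c t.castSucc) h1
  have hc0' : ∀ t : Fin N, c t.castSucc = 0 := fun t => congrFun hc0 t
  have h2 : algebraMap k A (c (Fin.last N)) * y ∈ I' := by
    have hz : (∑ t : Fin N, algebraMap k A (c t.castSucc) * x t) = 0 :=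
      Finset.sum_eq_zero fun t _ => by rw [hc0' t, map_zero, zero_mul]
    rwa [hz, zero_add] at hc
  have hlast : c (Fin.last N) = 0 := by
    by_contra hne
    apply hyn
    have : y = algebraMap k A (c (Fin.last N))⁻¹ * (algebraMap k A (c (Fin.last N)) * y) := by
      rw [← mul_assoc, ← map_mul, inv_mul_cancel₀ hne, map_one, one_mul]
    rw [this]
    exact I'.mul_mem_left _ h2
  funext t
  refine Fin.lastCases ?_ (fun t => ?_) t
  · exact hlast
  · exact hc0' t

end Lower

section Dedekind

variable {k A : Type*} [Field k] [CommRing A] [IsDomain A] [IsDedekindDomain A] [Algebra k A]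

theorem indep_step {I n : Ideal A} (hI : I ≠ ⊥) (hn : n ≠ ⊤) {N : ℕ}
    (h : IndepModIdeal k I N) : IndepModIdeal k (I * n) (N + 1) :=
  indep_step_of_lt (Ideal.dvdNotUnit_iff_lt.mp ⟨hI, n, mt Ideal.isUnit_iff.mp hn, rfl⟩) h

theorem indep_mul_pow {I n : Ideal A} (hI : I ≠ ⊥) (hn0 : n ≠ ⊥) (hn : n ≠ ⊤) {N : ℕ}
    (h : IndepModIdeal k I N) (e : ℕ) : IndepModIdeal k (I * n ^ e) (N + e) := by
  induction e with
  | zero => simpa using h
  | succ e ih =>
    have hne : I * n ^ e ≠ ⊥ := mul_ne_zero hI (pow_ne_zero e hn0)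
    have := indep_step (k := k) hne hn ih
    rwa [mul_assoc, ← pow_succ, add_assoc] at this

theorem indep_prod (e : ℕ) (s : Finset (Ideal A)) (hs : ∀ n ∈ s, n ≠ ⊥ ∧ n ≠ ⊤) :
    IndepModIdeal k (∏ n ∈ s, n ^ e) (s.card * e) := by
  classical
  induction s using Finset.induction_on with
  | empty => simpa using indep_zero (k := k) (⊤ : Ideal A)
  | insert n₀ s hn₀ ih =>
    have hs' : ∀ n ∈ s, n ≠ ⊥ ∧ n ≠ ⊤ := fun n hn => hs n (Finset.mem_insert_of_mem hn)
    have h0 := hs n₀ (Finset.mem_insert_self n₀ s)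
    have hne : (∏ n ∈ s, n ^ e) ≠ ⊥ :=
      Finset.prod_ne_zero_iff.mpr fun n hn => pow_ne_zero e (hs' n hn).1
    have := indep_mul_pow (k := k) hne h0.1 h0.2 (ih hs') e
    rw [Finset.prod_insert hn₀, Finset.card_insert_of_notMem hn₀, add_mul, one_mul, mul_comm]
    exact this

end Dedekind

section Upper

variable {k A : Type*} [Field k] [CommRing A] [IsDomain A] [Algebra k A]

/-- **Upper bound.**  If any `d + 1` elements of `A` are dependent over `k[T]`, then at most
`d * deg h` elements of `A` are `k`-independent modulo an ideal containing `h(T)`. -/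
theorem le_of_indep (T : A) (hT : Function.Injective (aeval T : k[X] → A)) (d : ℕ)
    (hrank : ∀ f : Fin (d + 1) → A, ∃ c : Fin (d + 1) → k[X],
      c ≠ 0 ∧ ∑ i, aeval T (c i) * f i = 0)
    (h : k[X]) (h0 : h ≠ 0) (J : Ideal A) (hJ : aeval T h ∈ J) (N : ℕ)
    (hind : IndepModIdeal k J N) : N ≤ d * h.natDegree := by
  classical
  obtain ⟨x, hx⟩ := hind
  by_contra hlt
  rw [not_le] at hlt
  letI algPA : Algebra k[X] A := (aeval T : k[X] →ₐ[k] A).toRingHom.toAlgebra
  have hsmul : ∀ (p : k[X]) (a : A), p • a = aeval T p * a := fun p a => rfl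
  haveI : Module.IsTorsionFree k[X] A :=
    Module.isTorsionFree_iff_algebraMap_injective.mpr hT
  let A' : Submodule k[X] A := Submodule.span k[X] (Set.range x)
  haveI : Module.Finite k[X] A' := Module.Finite.span_of_finite _ (Set.finite_range x)
  haveI : Module.Free k[X] A' := Module.free_of_finite_type_torsion_free'
  let ι := Module.Free.ChooseBasisIndex k[X] A'
  let b : Module.Basis ι k[X] A' := Module.Free.chooseBasis k[X] A'
  -- the rank is at most `d`
  have hr : Fintype.card ι ≤ d := by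
    by_contra hgt
    rw [not_le] at hgt
    have hcard : Fintype.card (Fin (d + 1)) ≤ Fintype.card ι := by
      rw [Fintype.card_fin]; exact hgt
    obtain ⟨g⟩ := Function.Embedding.nonempty_of_card_le hcard
    obtain ⟨c, hc, hsum⟩ := hrank (fun i => ((b (g i) : A') : A))
    have hli : LinearIndependent k[X] (fun i => b (g i)) :=
      b.linearIndependent.comp g g.injective
    have hzero : ∑ i, c i • b (g i) = 0 := by
      apply Subtype.ext
      rw [Submodule.coe_sum, Submodule.coe_zero, ← hsum]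
      exact Finset.sum_congr rfl fun i _ => by rw [Submodule.coe_smul, hsmul]
    have := Fintype.linearIndependent_iff.mp hli c hzero
    exact hc (funext this)
  -- coordinates of the `x t`
  have hxmem : ∀ t, x t ∈ A' := fun t => Submodule.subset_span ⟨t, rfl⟩
  let p : Fin N → ι → k[X] := fun t i => b.repr ⟨x t, hxmem t⟩ i
  have hxp : ∀ t, x t = ∑ i, aeval T (p t i) * ((b i : A') : A) := by
    intro t
    have h1 := b.sum_repr ⟨x t, hxmem t⟩
    have h2 := congrArg (Subtype.val : A' → A) h1
    rw [Submodule.coe_sum] at h2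
    rw [← show ((⟨x t, hxmem t⟩ : A') : A) = x t from rfl, ← h2]
    exact Finset.sum_congr rfl fun i _ => by rw [Submodule.coe_smul, hsmul]
  -- remainders modulo `h`, encoded by their coefficients
  let m := h.natDegree
  let v : Fin N → (ι × Fin m → k) := fun t il => (p t il.1 % h).coeff il.2
  have hfin : Module.finrank k (ι × Fin m → k) = Fintype.card ι * m := by
    rw [Module.finrank_fintype_fun_eq_card, Fintype.card_prod, Fintype.card_fin]
  have hnli : ¬ LinearIndependent k v := by
    intro hli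
    have := hli.fintype_card_le_finrank
    rw [hfin, Fintype.card_fin] at this
    have h3 : N ≤ d * h.natDegree := this.trans (Nat.mul_le_mul_right m hr)
    exact absurd h3 (not_le.mpr hlt)
  obtain ⟨c, hcsum, i₀, hci₀⟩ := Fintype.not_linearIndependent_iff.mp hnli
  -- the combination of the remainders vanishes
  have hrem : ∀ i, ∑ t, C (c t) * (p t i % h) = 0 := by
    intro i
    ext l
    rw [Polynomial.finsetSum_coeff, Polynomial.coeff_zero]
    by_cases hl : l < m
    · have := congrFun hcsum (i, ⟨l, hl⟩)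
      simp only [Finset.sum_apply, Pi.smul_apply, smul_eq_mul, Pi.zero_apply, v] at this
      rw [← this]
      exact Finset.sum_congr rfl fun t _ => by rw [Polynomial.coeff_C_mul]
    · apply Finset.sum_eq_zero
      intro t _
      rw [Polynomial.coeff_C_mul]
      have hdeg : (p t i % h).degree < h.degree := Polynomial.degree_mod_lt _ h0
      have : (p t i % h).coeff l = 0 := by
        apply Polynomial.coeff_eq_zero_of_degree_lt
        refine lt_of_lt_of_le hdeg ?_
        refine le_trans Polynomial.degree_le_natDegree ?_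
        exact_mod_cast (not_lt.mp hl)
      rw [this, mul_zero]
  have hquot : ∀ i, ∑ t, C (c t) * p t i = h * ∑ t, C (c t) * (p t i / h) := by
    intro i
    have : ∀ t, C (c t) * p t i = h * (C (c t) * (p t i / h)) + C (c t) * (p t i % h) := by
      intro t
      conv_lhs => rw [← EuclideanDomain.div_add_mod (p t i) h]
      ring
    rw [Finset.sum_congr rfl fun t _ => this t, Finset.sum_add_distrib, hrem i, add_zero,
      Finset.mul_sum]
  have hmem : (∑ t, algebraMap k A (c t) * x t) ∈ J := by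
    have hcalc : (∑ t, algebraMap k A (c t) * x t) =
        aeval T h * ∑ i, aeval T (∑ t, C (c t) * (p t i / h)) * ((b i : A') : A) := by
      calc (∑ t, algebraMap k A (c t) * x t)
          = ∑ t, ∑ i, aeval T (C (c t) * p t i) * ((b i : A') : A) := by
            refine Finset.sum_congr rfl fun t _ => ?_
            conv_lhs => rw [hxp t]
            rw [Finset.mul_sum]
            refine Finset.sum_congr rfl fun i _ => ?_
            rw [map_mul, Polynomial.aeval_C, mul_assoc]
        _ = ∑ i, aeval T (∑ t, C (c t) * p t i) * ((b i : A') : A) := by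
            rw [Finset.sum_comm]
            refine Finset.sum_congr rfl fun i _ => ?_
            rw [map_sum, Finset.sum_mul]
        _ = aeval T h * ∑ i, aeval T (∑ t, C (c t) * (p t i / h)) * ((b i : A') : A) := by
            rw [Finset.mul_sum]
            refine Finset.sum_congr rfl fun i _ => ?_
            rw [hquot i, map_mul, mul_assoc]
    rw [hcalc]
    exact J.mul_mem_right _ hJ
  exact hci₀ (congrFun (hx c hmem) i₀)

end Upper

section Main

variable {k A : Type*} [Field k] [CommRing A] [IsDomain A] [IsDedekindDomain A] [Algebra k A]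

/-- **The abstract fibre bound.**  `A` a Dedekind `k`-algebra, `T ∈ A` transcendental over `k`,
any `d + 1` elements of `A` dependent over `k[T]`, `h ≠ 0`, `h(T) ∈ n ^ e` for every `n` in the
finite set `s` of maximal ideals.  Then `#s * e ≤ d * deg h`. -/
theorem card_mul_le_core (T : A) (hT : Function.Injective (aeval T : k[X] → A)) (d : ℕ)
    (hrank : ∀ f : Fin (d + 1) → A, ∃ c : Fin (d + 1) → k[X],
      c ≠ 0 ∧ ∑ i, aeval T (c i) * f i = 0)
    (h : k[X]) (h0 : h ≠ 0) (e : ℕ) (s : Finset (Ideal A))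
    (hs : ∀ n ∈ s, n.IsMaximal ∧ aeval T h ∈ n ^ e) :
    s.card * e ≤ d * h.natDegree := by
  classical
  rcases Nat.eq_zero_or_pos e with he | he
  · subst he; simp
  have hTh : aeval T h ≠ 0 := fun hz => h0 (hT (by rw [hz, map_zero]))
  have hne : ∀ n ∈ s, n ≠ ⊥ ∧ n ≠ ⊤ := by
    intro n hn
    refine ⟨fun hbot => hTh ?_, (hs n hn).1.ne_top⟩
    have := (hs n hn).2
    rw [hbot, Ideal.bot_pow he.ne'] at this
    exact (Ideal.mem_bot).mp this
  have hind := indep_prod (k := k) e s hne
  refine le_of_indep T hT d hrank h h0 _ ?_ _ hind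
  have hprod := IsDedekindDomain.inf_pow_eq_prod_of_prime s (fun n : Ideal A => n)
    (fun _ => e) (fun n hn => Ideal.prime_of_isPrime (hne n hn).1 (hs n hn).1.isPrime)
    (fun i _ j _ hij => hij)
  rw [← hprod, Submodule.mem_finsetInf]
  exact fun n hn => (hs n hn).2

end Main

section Quot

variable {R B : Type*} [CommRing R] [CommRing B] [Algebra R B]

/-- **The fibre bound, elementwise form.**  `𝔪` a maximal ideal of `R`, `p` a prime of the
`R`-algebra `B` over `𝔪` with `B ⧸ p` Dedekind, `T ∈ B` transcendental modulo `p`, any `d + 1`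
elements of `B` dependent over `R[T]` modulo `p` (with coefficients not all in `𝔪`), `h ∈ R[X]`
nonzero modulo `𝔪` and of degree `≤ m` modulo `𝔪`.  If `s` is a finite set of maximal ideals
`n ⊇ p` with `h(T) ∈ p + n ^ e`, then `#s * e ≤ d * m`. -/
theorem card_mul_le_quot (𝔪 : Ideal R) [h𝔪 : 𝔪.IsMaximal] (p : Ideal B) [hp : p.IsPrime]
    (hle : 𝔪 ≤ p.comap (algebraMap R B)) (hded : IsDedekindDomain (B ⧸ p)) (T : B)
    (hT : ∀ a : R[X], aeval T a ∈ p → ∀ l, a.coeff l ∈ 𝔪) (d : ℕ)
    (hrank : ∀ f : Fin (d + 1) → B, ∃ c : Fin (d + 1) → R[X],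
      (∃ i l, (c i).coeff l ∉ 𝔪) ∧ ∑ i, aeval T (c i) * f i ∈ p)
    (h : R[X]) (hh : ∃ l, h.coeff l ∉ 𝔪) (m : ℕ) (hm : ∀ l, m < l → h.coeff l ∈ 𝔪)
    (e : ℕ) (s : Finset (Ideal B))
    (hs : ∀ n ∈ s, n.IsMaximal ∧ p ≤ n ∧ aeval T h ∈ p ⊔ n ^ e) :
    s.card * e ≤ d * m := by
  classical
  letI : Field (R ⧸ 𝔪) := Ideal.Quotient.field 𝔪
  let φ : R ⧸ 𝔪 →+* B ⧸ p := Ideal.quotientMap p (algebraMap R B) hle
  letI : Algebra (R ⧸ 𝔪) (B ⧸ p) := φ.toAlgebra
  haveI : IsDomain (B ⧸ p) := Ideal.Quotient.isDomain p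
  haveI : IsDedekindDomain (B ⧸ p) := hded
  have hφ : (algebraMap (R ⧸ 𝔪) (B ⧸ p)).comp (Ideal.Quotient.mk 𝔪) =
      (Ideal.Quotient.mk p).comp (algebraMap R B) := Ideal.quotientMap_comp_mk hle
  have hmksurj : Function.Surjective (Ideal.Quotient.mk p) := Ideal.Quotient.mk_surjective
  -- evaluation commutes with reduction
  have hev : ∀ a : R[X], aeval (Ideal.Quotient.mk p T) (a.map (Ideal.Quotient.mk 𝔪)) =
      Ideal.Quotient.mk p (aeval T a) := by
    intro a
    rw [Polynomial.aeval_def, Polynomial.eval₂_map, hφ, Polynomial.aeval_def,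
      Polynomial.hom_eval₂]
  have hmap0 : ∀ a : R[X], a.map (Ideal.Quotient.mk 𝔪) = 0 ↔ ∀ l, a.coeff l ∈ 𝔪 := by
    intro a
    constructor
    · intro ha l
      have := congrArg (fun q => Polynomial.coeff q l) ha
      simpa [Polynomial.coeff_map, Ideal.Quotient.eq_zero_iff_mem] using this
    · intro ha
      ext l
      simpa [Polynomial.coeff_map, Ideal.Quotient.eq_zero_iff_mem] using ha l
  have hTinj : Function.Injective
      (aeval (Ideal.Quotient.mk p T) : (R ⧸ 𝔪)[X] → B ⧸ p) := by
    rw [injective_iff_map_eq_zero]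
    intro abar habar
    obtain ⟨a, rfl⟩ := Polynomial.map_surjective _ (Ideal.Quotient.mk_surjective (I := 𝔪)) abar
    rw [hev, Ideal.Quotient.eq_zero_iff_mem] at habar
    exact (hmap0 a).mpr (hT a habar)
  have hrank' : ∀ f : Fin (d + 1) → B ⧸ p, ∃ c : Fin (d + 1) → (R ⧸ 𝔪)[X],
      c ≠ 0 ∧ ∑ i, aeval (Ideal.Quotient.mk p T) (c i) * f i = 0 := by
    intro f
    choose g hg using fun i => hmksurj (f i)
    obtain ⟨c, ⟨i, l, hil⟩, hsum⟩ := hrank g
    refine ⟨fun i => (c i).map (Ideal.Quotient.mk 𝔪), ?_, ?_⟩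
    · intro hzero
      have := congrFun hzero i
      exact hil ((hmap0 (c i)).mp this l)
    · have : (∑ i, aeval (Ideal.Quotient.mk p T) ((c i).map (Ideal.Quotient.mk 𝔪)) * f i) =
          Ideal.Quotient.mk p (∑ i, aeval T (c i) * g i) := by
        rw [map_sum]
        refine Finset.sum_congr rfl fun i _ => ?_
        rw [map_mul, hev, hg]
      rw [this, Ideal.Quotient.eq_zero_iff_mem]
      exact hsum
  have hh0 : h.map (Ideal.Quotient.mk 𝔪) ≠ 0 := by
    obtain ⟨l, hl⟩ := hh
    exact fun hz => hl ((hmap0 h).mp hz l)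
  have hdeg : (h.map (Ideal.Quotient.mk 𝔪)).natDegree ≤ m := by
    rw [Polynomial.natDegree_le_iff_coeff_eq_zero]
    intro l hl
    rw [Polynomial.coeff_map, Ideal.Quotient.eq_zero_iff_mem]
    exact hm l hl
  -- the images of the ideals
  have hcomap : ∀ n ∈ s, Ideal.comap (Ideal.Quotient.mk p) (Ideal.map (Ideal.Quotient.mk p) n)
      = n := by
    intro n hn
    rw [Ideal.comap_map_of_surjective _ hmksurj, ← RingHom.ker_eq_comap_bot, Ideal.mk_ker]
    exact sup_eq_left.mpr (hs n hn).2.1
  have hinj : Set.InjOn (Ideal.map (Ideal.Quotient.mk p)) (s : Set (Ideal B)) := by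
    intro n hn n' hn' heq
    rw [← hcomap n hn, ← hcomap n' hn']
    exact congrArg _ heq
  have hs' : ∀ nbar ∈ s.image (Ideal.map (Ideal.Quotient.mk p)), nbar.IsMaximal ∧
      aeval (Ideal.Quotient.mk p T) (h.map (Ideal.Quotient.mk 𝔪)) ∈ nbar ^ e := by
    intro nbar hnbar
    obtain ⟨n, hn, rfl⟩ := Finset.mem_image.mp hnbar
    obtain ⟨hmax, hpn, hmem⟩ := hs n hn
    refine ⟨?_, ?_⟩
    · rcases Ideal.map_eq_top_or_isMaximal_of_surjective _ hmksurj hmax with htop | hmax'
      · exfalso
        have := hcomap n hn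
        rw [htop, Ideal.comap_top] at this
        exact hmax.ne_top this.symm
      · exact hmax'
    · rw [hev, ← Ideal.map_pow]
      have := Ideal.mem_map_of_mem (Ideal.Quotient.mk p) hmem
      rwa [Ideal.map_sup, Ideal.map_quotient_self, bot_sup_eq] at this
  have hmain := card_mul_le_core (Ideal.Quotient.mk p T) hTinj d hrank'
    (h.map (Ideal.Quotient.mk 𝔪)) hh0 e _ hs'
  rw [Finset.card_image_of_injOn hinj] at hmain
  exact hmain.trans (Nat.mul_le_mul_left d hdeg)

end Quot

end Fermat.Agent.S59.H139.GubCore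

end

end
-- ===== PACK-END S59/H139/GubCore.lean

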