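import Mathlib
import Fermat.Prelude.Def_FLTPrelim_Ramification
import Fermat.Prelude.Def_EllipticCurve_FrobeniusTrace
import Fermat.Prelude.Def_AlgebraicCurve_IsCurveOver
import Fermat.Agent.Pack.S59C.E0L0
import Fermat.Agent.Pack.S43GC.G0E2L2
import Fermat.Agent.Pack.S44C.G0E0L0
import Fermat.Agent.Pack.S43GC.G0E2L1
import Fermat.Agent.Pack.S43GC.G0E2L3
import Fermat.Agent.Pack.S43GC.G0E2L0
import Fermat.Agent.Pack.S59C.E0L1
import Fermat.Agent.Pack.S59C.E0L2
import Fermat.Agent.Pack.S43C.E0L3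
import Fermat.Agent.Pack.S43MC.G0E3L0
import Fermat.Agent.Pack.S44C.G0E0L3
import Fermat.Agent.Pack.S44C.G0E0L1
import Fermat.Agent.Pack.S44C.G0E1L2
import Fermat.Agent.Pack.S44C.G0E4L2

set_option linter.all false

-- ===== PACK-BEGIN S59/H427/Deg.lean
section


/-!
# S59 / N1 (helper427): degree bookkeeping for multivariate polynomials

`DegLT d u` : every monomial of `u` has degree `< d`; plus the behaviour of homogeneous
components under multiplication by a pure power.
-/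

set_option autoImplicit false

namespace Fermat.Agent.S59.H427

open MvPolynomial

variable {A : Type*} [CommRing A] {ι : Type*}

/-- Every monomial of `u` has degree `< d`. -/
def DegLT (d : ℕ) (u : MvPolynomial ι A) : Prop :=
  ∀ s : ι →₀ ℕ, d ≤ s.degree → coeff s u = 0

theorem degLT_zero (d : ℕ) : DegLT d (0 : MvPolynomial ι A) := fun _ _ => by simp

theorem DegLT.eq_zero {u : MvPolynomial ι A} (h : DegLT 0 u) : u = 0 := by
  ext s
  simpa using h s (Nat.zero_le _)

theorem DegLT.mono {d e : ℕ} (hde : d ≤ e) {u : MvPolynomial ι A} (h : DegLT d u) : DegLT e u :=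
  fun s hs => h s (hde.trans hs)

theorem DegLT.add {d : ℕ} {u v : MvPolynomial ι A} (hu : DegLT d u) (hv : DegLT d v) :
    DegLT d (u + v) := fun s hs => by
  rw [coeff_add, hu s hs, hv s hs, add_zero]

theorem DegLT.neg {d : ℕ} {u : MvPolynomial ι A} (hu : DegLT d u) : DegLT d (-u) := fun s hs => by
  rw [coeff_neg, hu s hs, neg_zero]

theorem DegLT.sub {d : ℕ} {u v : MvPolynomial ι A} (hu : DegLT d u) (hv : DegLT d v) :
    DegLT d (u - v) := fun s hs => by
  rw [coeff_sub, hu s hs, hv s hs, sub_zero]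

theorem DegLT.smul {d : ℕ} (a : A) {u : MvPolynomial ι A} (hu : DegLT d u) :
    DegLT d (a • u) := fun s hs => by
  rw [coeff_smul, hu s hs, smul_zero]

theorem DegLT.sum {κ : Type*} {d : ℕ} (t : Finset κ) (u : κ → MvPolynomial ι A)
    (hu : ∀ k ∈ t, DegLT d (u k)) : DegLT d (∑ k ∈ t, u k) := fun s hs => by
  rw [coeff_sum]
  exact Finset.sum_eq_zero fun k hk => hu k hk s hs

theorem degLT_of_totalDegree_lt {d : ℕ} {u : MvPolynomial ι A} (h : u.totalDegree < d) :
    DegLT d u := fun s hs =>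
  coeff_eq_zero_of_totalDegree_lt (by rw [← Finsupp.degree_apply]; omega)

theorem DegLT.totalDegree_le {d : ℕ} {u : MvPolynomial ι A} (h : DegLT (d + 1) u) :
    u.totalDegree ≤ d := by
  refine Finset.sup_le fun s hs => ?_
  by_contra hlt
  have h1 : d + 1 ≤ s.degree := by
    rw [Finsupp.degree_apply]
    have : (s.sum fun _ e => e) = ∑ i ∈ s.support, s i := rfl
    omega
  exact (mem_support_iff.mp hs) (h s h1)

theorem degLT_monomial {d : ℕ} {s : ι →₀ ℕ} (hs : s.degree < d) (a : A) :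
    DegLT d (monomial s a) := fun t ht => by
  classical
  rw [coeff_monomial, if_neg]
  rintro rfl
  omega

theorem DegLT.mul {d e : ℕ} {u v : MvPolynomial ι A} (hu : DegLT (d + 1) u)
    (hv : DegLT (e + 1) v) : DegLT (d + e + 1) (u * v) :=
  degLT_of_totalDegree_lt <| by
    have := totalDegree_mul u v
    have := hu.totalDegree_le
    have := hv.totalDegree_le
    omega

theorem degLT_homogeneousComponent (n : ℕ) (u : MvPolynomial ι A) :
    DegLT (n + 1) (homogeneousComponent n u) := fun s hs => by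
  rw [coeff_homogeneousComponent, if_neg]
  omega

theorem DegLT.sub_homogeneousComponent {d : ℕ} {u : MvPolynomial ι A} (hu : DegLT (d + 1) u) :
    DegLT d (u - homogeneousComponent d u) := fun s hs => by
  rw [coeff_sub, coeff_homogeneousComponent]
  by_cases h : s.degree = d
  · rw [if_pos h, sub_self]
  · rw [if_neg h, sub_zero]
    exact hu s (by omega)

/-- Shifted homogeneous component: the component of degree `d - D` if `D ≤ d`, zero otherwise. -/
noncomputable def shiftComp (d D : ℕ) : MvPolynomial ι A →ₗ[A] MvPolynomial ι A :=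
  if D ≤ d then homogeneousComponent (d - D) else 0

theorem homogeneousComponent_mul_X_pow (d D : ℕ) (a : MvPolynomial ι A) (i : ι) :
    homogeneousComponent d (a * X i ^ D) = shiftComp d D a * X i ^ D := by
  classical
  ext s
  rw [coeff_homogeneousComponent, X_pow_eq_monomial, coeff_mul_monomial', coeff_mul_monomial']
  by_cases hts : Finsupp.single i D ≤ s
  · rw [if_pos hts, if_pos hts, mul_one, mul_one]
    have hdeg : s.degree = (s - Finsupp.single i D).degree + D := by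
      conv_lhs => rw [← tsub_add_cancel_of_le hts]
      rw [map_add, Finsupp.degree_single]
    unfold shiftComp
    by_cases hD : D ≤ d
    · rw [if_pos hD, coeff_homogeneousComponent]
      by_cases h1 : s.degree = d
      · rw [if_pos h1, if_pos (by omega)]
      · rw [if_neg h1, if_neg (by omega)]
    · rw [if_neg hD, if_neg (by omega)]
      simp
  · rw [if_neg hts, if_neg hts]
    simp

theorem shiftComp_degLT (d D : ℕ) (a : MvPolynomial ι A) :
    DegLT (d - D + 1) (shiftComp d D a) := by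
  unfold shiftComp
  split_ifs
  · exact degLT_homogeneousComponent _ _
  · exact degLT_zero _

theorem shiftComp_eq_zero {d D : ℕ} (h : d < D) (a : MvPolynomial ι A) :
    shiftComp d D a = 0 := by
  unfold shiftComp
  rw [if_neg (by omega)]
  rfl

end Fermat.Agent.S59.H427

end
-- ===== PACK-END S59/H427/Deg.lean

-- ===== PACK-BEGIN S59/H427/Box.lean
section


/-!
# S59 / N1 (helper427): the box basis of `A[X] / (X_i^(m+1) + h_i)`

For `f i = X i ^ (m+1) + h i` with `totalDegree (h i) ≤ m`, the monomials with all exponents `≤ m`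
("box monomials") form a basis of `A[X] / (f)`.  This file: independence (a box polynomial in the
ideal `(f)` is zero) and spanning with degree control.
-/

set_option autoImplicit false
set_option linter.unusedSectionVars false

namespace Fermat.Agent.S59.H427

open MvPolynomial

variable {A : Type*} [CommRing A] {ι : Type*}

/-- The generators `f i = X i ^ (m+1) + h i`. -/
noncomputable def boxGen (m : ℕ) (h : ι → MvPolynomial ι A) (i : ι) : MvPolynomial ι A :=
  X i ^ (m + 1) + h i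

/-- The ideal generated by the `boxGen`. -/
noncomputable def boxIdeal (m : ℕ) (h : ι → MvPolynomial ι A) : Ideal (MvPolynomial ι A) :=
  Ideal.span (Set.range (boxGen m h))

theorem boxGen_mem_boxIdeal (m : ℕ) (h : ι → MvPolynomial ι A) (i : ι) :
    boxGen m h i ∈ boxIdeal m h := Ideal.subset_span ⟨i, rfl⟩

/-- A polynomial that is both a box polynomial and in the pure-power ideal is zero. -/
theorem eq_zero_of_mem_restrictDegree_of_mem_powIdeal {m : ℕ} {g : MvPolynomial ι A}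
    (hg : g ∈ restrictDegree ι A m) (hp : g ∈ powIdeal A (m + 1) (Set.univ : Set ι)) : g = 0 := by
  rw [mem_restrictDegree] at hg
  rw [mem_powIdeal_iff] at hp
  by_contra hne
  obtain ⟨s, hs⟩ := (support_nonempty.mpr hne)
  obtain ⟨i, -, hi⟩ := hp s hs
  have := hg s hs i
  omega

theorem homogeneousComponent_mem_restrictDegree {m : ℕ} {g : MvPolynomial ι A}
    (hg : g ∈ restrictDegree ι A m) (n : ℕ) :
    homogeneousComponent n g ∈ restrictDegree ι A m := by
  classical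
  rw [mem_restrictDegree] at hg ⊢
  intro s hs i
  rw [support_homogeneousComponent] at hs
  exact hg s (Finset.mem_filter.mp hs).1 i

section Indep

variable [Fintype ι] [DecidableEq ι] {m : ℕ} {h : ι → MvPolynomial ι A}

/-- One step of the descent: lower the degree of a representation of a box polynomial. -/
theorem rep_descend (hh : ∀ i, (h i).totalDegree ≤ m) {g : MvPolynomial ι A}
    (hg : g ∈ restrictDegree ι A m) (d : ℕ) (u : ι → MvPolynomial ι A)
    (hu : ∀ i, DegLT (d + 1) (u i)) (hgu : g = ∑ i, u i * boxGen m h i) :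
    ∃ u' : ι → MvPolynomial ι A, (∀ i, DegLT d (u' i)) ∧ g = ∑ i, u' i * boxGen m h i := by
  -- top component
  have key1 : ∀ i, homogeneousComponent (d + (m + 1)) (u i * boxGen m h i) =
      homogeneousComponent d (u i) * X i ^ (m + 1) := by
    intro i
    rw [boxGen, mul_add, map_add, homogeneousComponent_mul_X_pow]
    have h1 : homogeneousComponent (d + (m + 1)) (u i * h i) = 0 := by
      apply homogeneousComponent_eq_zero
      have := totalDegree_mul (u i) (h i)
      have := (hu i).totalDegree_le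
      have := hh i
      omega
    rw [h1, add_zero]
    unfold shiftComp
    rw [if_pos (by omega), Nat.add_sub_cancel]
  have key2 : ∑ i, homogeneousComponent d (u i) * X i ^ (m + 1) = 0 := by
    apply eq_zero_of_mem_restrictDegree_of_mem_powIdeal (m := m)
    · have := homogeneousComponent_mem_restrictDegree hg (d + (m + 1))
      rw [hgu, map_sum] at this
      simpa only [key1] using this
    · exact Ideal.sum_mem _ fun i _ => Ideal.mul_mem_left _ _ (X_pow_mem_powIdeal (Set.mem_univ i))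
  obtain ⟨c, hc1, hc2, hc3⟩ := koszul_pow (m + 1) (Finset.univ : Finset ι) _ key2
  -- homogeneous version of `c`
  set c' : ι → ι → MvPolynomial ι A := fun i j => shiftComp d (m + 1) (c i j) with hc'
  have hc'1 : ∀ i j, c' i j = - c' j i := by
    intro i j
    simp only [hc']
    rw [hc1 i j, map_neg]
  have hc'2 : ∀ i, c' i i = 0 := by
    intro i
    simp only [hc']
    rw [hc2 i, map_zero]
  have hc'3 : ∀ i, homogeneousComponent d (u i) = ∑ j, c' i j * X j ^ (m + 1) := by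
    intro i
    have h1 := hc3 i (Finset.mem_univ i)
    have h2 : homogeneousComponent d (homogeneousComponent d (u i)) =
        homogeneousComponent d (u i) :=
      homogeneousComponent_eq_self (homogeneousComponent_isHomogeneous d (u i))
    rw [← h2]
    conv_lhs => rw [h1]
    rw [map_sum]
    exact Finset.sum_congr rfl fun j _ => homogeneousComponent_mul_X_pow d (m + 1) (c i j) j
  have hc'deg : ∀ i j, DegLT d (c' i j * h j) := by
    intro i j
    by_cases hD : m + 1 ≤ d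
    · have h1 : DegLT (d - (m + 1) + 1) (c' i j) := shiftComp_degLT d (m + 1) (c i j)
      have h2 : DegLT (m + 1) (h j) := degLT_of_totalDegree_lt (by have := hh j; omega)
      have h3 := h1.mul h2
      exact h3.mono (by omega)
    · have : c' i j = 0 := shiftComp_eq_zero (by omega) _
      rw [this, zero_mul]
      exact degLT_zero _
  refine ⟨fun i => u i - ∑ j, c' i j * boxGen m h j, ?_, ?_⟩
  · intro i
    have h1 : u i - ∑ j, c' i j * boxGen m h j =
        (u i - homogeneousComponent d (u i)) - ∑ j, c' i j * h j := by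
      rw [hc'3 i]
      simp only [boxGen, mul_add, Finset.sum_add_distrib]
      ring
    show DegLT d (u i - ∑ j, c' i j * boxGen m h j)
    rw [h1]
    exact (hu i).sub_homogeneousComponent.sub (DegLT.sum _ _ fun j _ => hc'deg i j)
  · have h1 : ∑ i, (∑ j, c' i j * boxGen m h j) * boxGen m h i = 0 := by
      simp only [Finset.sum_mul]
      rw [← Finset.sum_product' (Finset.univ : Finset ι) (Finset.univ : Finset ι)
        (fun i j => c' i j * boxGen m h j * boxGen m h i)]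
      refine Finset.sum_involution (fun p _ => (p.2, p.1)) ?_ ?_ ?_ ?_
      · intro p _
        simp only
        rw [hc'1 p.1 p.2]
        ring
      · intro p _ hne heq
        apply hne
        have : p.1 = p.2 := by
          have := congrArg Prod.fst heq
          simpa using this.symm
        rw [this, hc'2, zero_mul, zero_mul]
      · intro p _
        exact Finset.mem_product.mpr ⟨Finset.mem_univ _, Finset.mem_univ _⟩
      · intro p _
        rfl
    simp only [sub_mul, Finset.sum_sub_distrib, h1, sub_zero]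
    exact hgu

/-- **Independence of the box monomials**: a box polynomial in the ideal `(f)` is zero. -/
theorem eq_zero_of_mem_restrictDegree_of_mem_boxIdeal (hh : ∀ i, (h i).totalDegree ≤ m)
    {g : MvPolynomial ι A} (hg : g ∈ restrictDegree ι A m) (hI : g ∈ boxIdeal m h) : g = 0 := by
  rw [boxIdeal, Ideal.mem_span_range_iff_exists_fun] at hI
  obtain ⟨u, hu⟩ := hI
  have main : ∀ d : ℕ, ∀ u : ι → MvPolynomial ι A, (∀ i, DegLT d (u i)) →
      g = ∑ i, u i * boxGen m h i → g = 0 := by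
    intro d
    induction d with
    | zero =>
      intro u hu hgu
      rw [hgu]
      exact Finset.sum_eq_zero fun i _ => by rw [(hu i).eq_zero, zero_mul]
    | succ d ih =>
      intro u hu hgu
      obtain ⟨u', hu', hgu'⟩ := rep_descend hh hg d u hu hgu
      exact ih u' hu' hgu'
  refine main ((Finset.univ.sup fun i => (u i).totalDegree) + 1) u (fun i => ?_) hu.symm
  apply degLT_of_totalDegree_lt
  have : (u i).totalDegree ≤ Finset.univ.sup fun i => (u i).totalDegree :=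
    Finset.le_sup (f := fun i => (u i).totalDegree) (Finset.mem_univ i)
  omega

end Indep

section Span

variable {m : ℕ} {h : ι → MvPolynomial ι A}

theorem monomial_mem_restrictDegree {s : ι →₀ ℕ} (hs : ∀ i, s i ≤ m) (a : A) :
    monomial s a ∈ restrictDegree ι A m := by
  classical
  rw [mem_restrictDegree]
  intro t ht i
  have h1 := support_monomial_subset ht
  rw [Finset.mem_singleton] at h1
  subst h1
  exact hs i

theorem monomial_mul_eq_sum (s : ι →₀ ℕ) (p : MvPolynomial ι A) :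
    monomial s (1 : A) * p = ∑ t ∈ p.support, coeff t p • monomial (s + t) (1 : A) := by
  conv_lhs => rw [as_sum p]
  rw [Finset.mul_sum]
  refine Finset.sum_congr rfl fun t _ => ?_
  rw [monomial_mul, one_mul, smul_monomial, smul_eq_mul, mul_one]

/-- **Spanning with degree control**, for monomials. -/
theorem exists_box_rep_monomial (hh : ∀ i, (h i).totalDegree ≤ m) :
    ∀ (n : ℕ) (s : ι →₀ ℕ), s.degree = n →
      ∃ b ∈ restrictDegree ι A m, monomial s (1 : A) - b ∈ boxIdeal m h ∧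
        ((∀ i, s i ≤ m) → b = monomial s 1) ∧ ((¬ ∀ i, s i ≤ m) → DegLT n b) ∧
        DegLT (n + 1) b := by
  classical
  intro n
  induction n using Nat.strong_induction_on with
  | _ n ih =>
  intro s hs
  by_cases hbox : ∀ i, s i ≤ m
  · exact ⟨monomial s 1, monomial_mem_restrictDegree hbox 1, by simp, fun _ => rfl,
      fun hn => absurd hbox hn, degLT_monomial (by omega) 1⟩
  · have hbox' := hbox
    simp only [not_forall, not_le] at hbox'
    obtain ⟨i, hi⟩ := hbox'
    have hle : Finsupp.single i (m + 1) ≤ s := by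
      intro j
      by_cases hj : j = i
      · subst hj; simpa using hi
      · simp [Ne.symm hj]
    set s' := s - Finsupp.single i (m + 1) with hs'def
    have hs' : s = s' + Finsupp.single i (m + 1) := (tsub_add_cancel_of_le hle).symm
    have hdeg : s.degree = s'.degree + (m + 1) := by
      conv_lhs => rw [hs']
      rw [map_add, Finsupp.degree_single]
    have hmon : monomial s (1 : A) = monomial s' 1 * X i ^ (m + 1) := by
      rw [X_pow_eq_monomial, monomial_mul, one_mul, ← hs']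
    have H : ∀ t ∈ (h i).support, ∃ b ∈ restrictDegree ι A m,
        monomial (s' + t) (1 : A) - b ∈ boxIdeal m h ∧ DegLT n b := by
      intro t ht
      have htdeg : t.degree ≤ m := by
        have h1 := le_totalDegree ht
        have h2 : (t.sum fun _ e => e) = t.degree := rfl
        have := hh i
        omega
      have hlt : (s' + t).degree < n := by
        rw [map_add]; omega
      obtain ⟨b, hb1, hb2, -, -, hb5⟩ := ih _ hlt (s' + t) rfl
      exact ⟨b, hb1, hb2, hb5.mono (by omega)⟩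
    choose! bt hbt1 hbt2 hbt3 using H
    refine ⟨∑ t ∈ (h i).support, (- coeff t (h i)) • bt t, ?_, ?_, ?_, ?_, ?_⟩
    · exact Submodule.sum_mem _ fun t ht => Submodule.smul_mem _ _ (hbt1 t ht)
    · have e1 : monomial s (1 : A) - ∑ t ∈ (h i).support, (- coeff t (h i)) • bt t =
          monomial s' 1 * boxGen m h i -
            ∑ t ∈ (h i).support, coeff t (h i) • (monomial (s' + t) (1 : A) - bt t) := by
        rw [boxGen, mul_add, ← hmon, monomial_mul_eq_sum]
        simp only [smul_sub, Finset.sum_sub_distrib, neg_smul, Finset.sum_neg_distrib]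
        ring
      rw [e1]
      refine Ideal.sub_mem _ (Ideal.mul_mem_left _ _ (boxGen_mem_boxIdeal m h i)) ?_
      refine Ideal.sum_mem _ fun t ht => ?_
      rw [smul_eq_C_mul]
      exact Ideal.mul_mem_left _ _ (hbt2 t ht)
    · intro hb
      exact absurd hb hbox
    · intro _
      exact DegLT.sum _ _ fun t ht => (hbt3 t ht).smul _
    · exact (DegLT.sum _ _ fun t ht => (hbt3 t ht).smul _).mono (by omega)

/-- **Spanning**: every polynomial is congruent to a box polynomial. -/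
theorem exists_box_rep (hh : ∀ i, (h i).totalDegree ≤ m) (g : MvPolynomial ι A) :
    ∃ b ∈ restrictDegree ι A m, g - b ∈ boxIdeal m h := by
  classical
  have H : ∀ s : ι →₀ ℕ, ∃ b ∈ restrictDegree ι A m, monomial s (1 : A) - b ∈ boxIdeal m h := by
    intro s
    obtain ⟨b, hb1, hb2, -⟩ := exists_box_rep_monomial (h := h) hh _ s rfl
    exact ⟨b, hb1, hb2⟩
  choose bs hbs1 hbs2 using H
  refine ⟨∑ s ∈ g.support, coeff s g • bs s,
    Submodule.sum_mem _ fun s _ => Submodule.smul_mem _ _ (hbs1 s), ?_⟩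
  have e0 : g = ∑ s ∈ g.support, coeff s g • monomial s (1 : A) := by
    conv_lhs => rw [as_sum g]
    exact Finset.sum_congr rfl fun s _ => by rw [smul_monomial, smul_eq_mul, mul_one]
  have e1 : g - ∑ s ∈ g.support, coeff s g • bs s =
      ∑ s ∈ g.support, coeff s g • (monomial s (1 : A) - bs s) := by
    simp only [smul_sub, Finset.sum_sub_distrib]
    rw [← e0]
  rw [e1]
  refine Ideal.sum_mem _ fun s _ => ?_
  rw [smul_eq_C_mul]
  exact Ideal.mul_mem_left _ _ (hbs2 s)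

end Span

section Equiv

variable [Fintype ι] [DecidableEq ι] {m : ℕ} {h : ι → MvPolynomial ι A}

/-- The map from box polynomials to the quotient. -/
noncomputable def boxToQuot (m : ℕ) (h : ι → MvPolynomial ι A) :
    restrictDegree ι A m →ₗ[A] (MvPolynomial ι A ⧸ boxIdeal m h) :=
  (Ideal.Quotient.mkₐ A (boxIdeal m h)).toLinearMap ∘ₗ (restrictDegree ι A m).subtype

theorem boxToQuot_apply (b : restrictDegree ι A m) :
    boxToQuot m h b = Ideal.Quotient.mk (boxIdeal m h) (b : MvPolynomial ι A) := rfl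

theorem boxToQuot_bijective (hh : ∀ i, (h i).totalDegree ≤ m) :
    Function.Bijective (boxToQuot m h) := by
  constructor
  · rw [← LinearMap.ker_eq_bot, LinearMap.ker_eq_bot']
    intro b hb
    rw [boxToQuot_apply, Ideal.Quotient.eq_zero_iff_mem] at hb
    exact Subtype.ext (eq_zero_of_mem_restrictDegree_of_mem_boxIdeal hh b.2 hb)
  · intro c
    obtain ⟨g, rfl⟩ := Ideal.Quotient.mk_surjective c
    obtain ⟨b, hb1, hb2⟩ := exists_box_rep (h := h) hh g
    refine ⟨⟨b, hb1⟩, ?_⟩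
    rw [boxToQuot_apply]
    exact (Ideal.Quotient.eq.mpr hb2).symm

/-- The box polynomials are a complement of the ideal `(f)`. -/
noncomputable def boxEquiv (hh : ∀ i, (h i).totalDegree ≤ m) :
    restrictDegree ι A m ≃ₗ[A] (MvPolynomial ι A ⧸ boxIdeal m h) :=
  LinearEquiv.ofBijective (boxToQuot m h) (boxToQuot_bijective hh)

/-- The box normal form of a class. -/
noncomputable def boxNF (hh : ∀ i, (h i).totalDegree ≤ m) :
    (MvPolynomial ι A ⧸ boxIdeal m h) →ₗ[A] MvPolynomial ι A :=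
  (restrictDegree ι A m).subtype ∘ₗ (boxEquiv hh).symm.toLinearMap

theorem boxNF_mem (hh : ∀ i, (h i).totalDegree ≤ m) (c : MvPolynomial ι A ⧸ boxIdeal m h) :
    boxNF hh c ∈ restrictDegree ι A m := ((boxEquiv hh).symm c).2

theorem mk_boxNF (hh : ∀ i, (h i).totalDegree ≤ m) (c : MvPolynomial ι A ⧸ boxIdeal m h) :
    Ideal.Quotient.mk (boxIdeal m h) (boxNF hh c) = c :=
  (boxEquiv hh).apply_symm_apply c

theorem boxNF_mk_eq (hh : ∀ i, (h i).totalDegree ≤ m) {g b : MvPolynomial ι A}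
    (hb : b ∈ restrictDegree ι A m) (hgb : g - b ∈ boxIdeal m h) :
    boxNF hh (Ideal.Quotient.mk (boxIdeal m h) g) = b := by
  have h1 : Ideal.Quotient.mk (boxIdeal m h) g = boxEquiv hh ⟨b, hb⟩ :=
    Ideal.Quotient.eq.mpr hgb
  rw [h1]
  simp [boxNF]

/-- The top exponent `(m, …, m)`. -/
noncomputable def boxTop (ι : Type*) [Fintype ι] (m : ℕ) : ι →₀ ℕ :=
  Finsupp.equivFunOnFinite.symm fun _ => m

@[simp] theorem boxTop_apply (i : ι) : boxTop ι m i = m := rfl

/-- The functional "coefficient of the top box monomial". -/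
noncomputable def boxLam (hh : ∀ i, (h i).totalDegree ≤ m) :
    (MvPolynomial ι A ⧸ boxIdeal m h) →ₗ[A] A :=
  lcoeff A (boxTop ι m) ∘ₗ boxNF hh

theorem boxLam_apply (hh : ∀ i, (h i).totalDegree ≤ m) (c : MvPolynomial ι A ⧸ boxIdeal m h) :
    boxLam hh c = coeff (boxTop ι m) (boxNF hh c) := rfl

/-- Key property: on monomials of degree at most that of the top, `boxLam` is the Kronecker
delta at the top. -/
theorem boxLam_mk_monomial (hh : ∀ i, (h i).totalDegree ≤ m) (s : ι →₀ ℕ)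
    (hs : s.degree ≤ (boxTop ι m).degree) :
    boxLam hh (Ideal.Quotient.mk (boxIdeal m h) (monomial s 1)) =
      if s = boxTop ι m then 1 else 0 := by
  obtain ⟨b, hb1, hb2, hb3, hb4, -⟩ := exists_box_rep_monomial (h := h) hh _ s rfl
  rw [boxLam_apply, boxNF_mk_eq hh hb1 hb2]
  by_cases hbox : ∀ i, s i ≤ m
  · rw [hb3 hbox, coeff_monomial]
  · rw [hb4 hbox _ hs, if_neg]
    rintro rfl
    exact hbox fun i => le_of_eq (boxTop_apply i)

end Equiv

end Fermat.Agent.S59.H427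

end
-- ===== PACK-END S59/H427/Box.lean

-- ===== PACK-BEGIN S59/H202/HK2Abs.lean
section



/-!
# Row S59, cell NM, leaf HK2 — abstract coset-system lemmas (helper202)

Complements to `Fermat.Agent.S41.H761.IsCosetSystem`:

* `cosetSystem_sum` : the disjoint union of two coset systems with pairwise distinct cosets is a
  coset system; `cosetSystem_sum_transfer` : its transfer is the sum of the two transfers;
* `transfer_eq_of_le_of_card` : comparison of two coset systems by CARDINALITY (no transitivity of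
  the action is needed);
* `rel_mul_inv_two` : the two-embedding version of `H761.rel_mul_inv`.
-/

set_option autoImplicit false

namespace Fermat.Agent.S59.H202

open Fermat.Agent.S41.H761

section Abs

variable {𝒢 Γ Γ' : Type*} [Group 𝒢] [Group Γ] [Group Γ']
variable {I J : Type*}
variable {ι : Γ →* 𝒢} {ι' : Γ' →* 𝒢} {ρ₁ : I → 𝒢} {ρ₂ : J → 𝒢}

/-- The disjoint union of two coset systems whose cosets are pairwise distinct. -/
theorem cosetSystem_sum (h₁ : IsCosetSystem ι ι' ρ₁) (h₂ : IsCosetSystem ι ι' ρ₂)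
    (hdis : ∀ (i : I) (j : J) (g : Γ), ρ₁ i ≠ ι g * ρ₂ j) :
    IsCosetSystem ι ι' (Sum.elim ρ₁ ρ₂) where
  inj := h₁.inj
  exists_mul := by
    rintro (i | j) g'
    · exact ⟨Sum.inl (h₁.act i g'), h₁.coc i g', h₁.spec i g'⟩
    · exact ⟨Sum.inr (h₂.act j g'), h₂.coc j g', h₂.spec j g'⟩
  eq_of_mul := by
    rintro (i | j) (i' | j') g e
    · exact congrArg Sum.inl (h₁.eq_of_mul i i' g e)
    · exact absurd e (hdis i j' g)
    · exfalso
      refine hdis i' j g⁻¹ ?_
      have e' : ρ₂ j = ι g * ρ₁ i' := e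
      rw [e', map_inv, inv_mul_cancel_left]
    · exact congrArg Sum.inr (h₂.eq_of_mul j j' g e)

/-- The transfer of a disjoint union is the sum of the transfers. -/
theorem cosetSystem_sum_transfer [Fintype I] [Fintype J] {A : Type*} [AddCommGroup A]
    (h₁ : IsCosetSystem ι ι' ρ₁) (h₂ : IsCosetSystem ι ι' ρ₂)
    (hs : IsCosetSystem ι ι' (Sum.elim ρ₁ ρ₂)) (φ : Additive Γ →+ A) :
    hs.transfer φ = h₁.transfer φ + h₂.transfer φ := by
  refine AddMonoidHom.ext fun g' => ?_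
  obtain ⟨g, rfl⟩ : ∃ g : Γ', Additive.ofMul g = g' := ⟨Additive.toMul g', rfl⟩
  rw [AddMonoidHom.add_apply, IsCosetSystem.transfer_apply, IsCosetSystem.transfer_apply,
    IsCosetSystem.transfer_apply, Fintype.sum_sum_type]
  congr 1
  · refine Finset.sum_congr rfl fun i _ => ?_
    congr 2
    exact hs.coc_eq (i := Sum.inl i) (j := Sum.inl (h₁.act i g)) (h₁.spec i g)
  · refine Finset.sum_congr rfl fun j _ => ?_
    congr 2
    exact hs.coc_eq (i := Sum.inr j) (j := Sum.inr (h₂.act j g)) (h₂.spec j g)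

/-- **Comparison by cardinality.**  Two coset systems such that every coset of the first is a
coset of the second, the second having at most as many cosets as the first, have the same
transfer. -/
theorem transfer_eq_of_le_of_card [Fintype I] [Fintype J] {A : Type*} [AddCommGroup A]
    (h : IsCosetSystem ι ι' ρ₁) (h' : IsCosetSystem ι ι' ρ₂)
    (hle : ∀ i, ∃ (j : J) (g : Γ), ρ₁ i = ι g * ρ₂ j)
    (hcard : Fintype.card J ≤ Fintype.card I) (φ : Additive Γ →+ A) :
    h.transfer φ = h'.transfer φ := by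
  classical
  choose e β hβ using hle
  have key : ∀ (i : I) (g' : Γ'), h'.act (e i) g' = e (h.act i g') ∧
      h'.coc (e i) g' = (β i)⁻¹ * h.coc i g' * β (h.act i g') := by
    intro i g'
    apply h'.unique
    have h1 : ρ₂ (e i) = ι (β i)⁻¹ * ρ₁ i := by
      rw [hβ i, map_inv, inv_mul_cancel_left]
    rw [h1, mul_assoc, h.spec i g', hβ (h.act i g')]
    simp only [map_mul, map_inv, mul_assoc]
  have einj : Function.Injective e := by
    intro i i' hii
    apply h.eq_of_mul i i' (β i * (β i')⁻¹)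
    rw [hβ i, hii, map_mul, map_inv, mul_assoc, hβ i', inv_mul_cancel_left]
  have ebij : Function.Bijective e :=
    (Fintype.bijective_iff_injective_and_card e).mpr
      ⟨einj, le_antisymm (Fintype.card_le_of_injective e einj) hcard⟩
  let E : I ≃ J := Equiv.ofBijective e ebij
  refine AddMonoidHom.ext fun g' => ?_
  obtain ⟨g, rfl⟩ : ∃ g : Γ', Additive.ofMul g = g' := ⟨Additive.toMul g', rfl⟩
  rw [IsCosetSystem.transfer_apply, IsCosetSystem.transfer_apply, ← Equiv.sum_comp E]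
  have hE : ∀ i, E i = e i := fun _ => rfl
  simp only [hE, (key _ g).2, ofMul_mul, ofMul_inv, map_add, map_neg, Finset.sum_add_distrib,
    Finset.sum_neg_distrib]
  have hperm : ∑ i, φ (Additive.ofMul (β (h.act i g))) = ∑ i, φ (Additive.ofMul (β i)) :=
    Equiv.sum_comp (h.actEquiv g) (fun i => φ (Additive.ofMul (β i)))
  rw [hperm]
  abel

/-- From `d ι'(a) = ι(g) (d ι'(b))` to `d ι'(a b⁻¹) = ι(g) d`. -/
theorem rel_mul_inv_two {d : 𝒢} {a b : Γ'} {g : Γ}
    (e : d * ι' a = ι g * (d * ι' b)) : d * ι' (a * b⁻¹) = ι g * d := by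
  rw [map_mul, map_inv, ← mul_assoc, e, mul_assoc, mul_assoc, mul_inv_cancel, mul_one]

end Abs

end Fermat.Agent.S59.H202

end
-- ===== PACK-END S59/H202/HK2Abs.lean

-- ===== PACK-BEGIN S33/H855/TowerGauss.lean
section


/-!
# Row S33, leaf (S1⁺): the class of functions with constant reductions (helper855)

Pure valuation theory on top of helper129's `GaussTwice` (Mathlib only).

`F` a field, `Kc` the subfield of constants, `V` a valuation subring of `F` (a Gauss valuation).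
`ConstOne Kc V f` : `f = c · g` with a nonzero constant `c` and `g ∈ 1 + 𝔪_V`
("the reduction of `f` along `V` is a constant").

* `ConstOne.mul`, `ConstOne.inv`, `constOne_of_mem` : (C1);
* `constOne_tauSubOne` : (C2), from `exists_const_once`;
* `constOne_of_pow` : (C3) root closure: residue characteristic `p` and `Kc` closed under
  `p`-th roots.
-/

set_option autoImplicit false

namespace Fermat.Agent.S33.H855

open Fermat.Agent.A2.H129

variable {F : Type*} [Field F]

/-- `f` is a nonzero constant times an element of `1 + 𝔪_V`. -/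
def ConstOne (Kc : Subfield F) (V : ValuationSubring F) (f : F) : Prop :=
  ∃ c ∈ Kc, c ≠ 0 ∧ OneAddNonunits V (f * c⁻¹)

section basic

variable {Kc : Subfield F} {V : ValuationSubring F}

theorem ConstOne.ne_zero {f : F} (hf : ConstOne Kc V f) : f ≠ 0 := by
  obtain ⟨c, -, -, h⟩ := hf
  rintro rfl
  have := h.isUnitOf.ne_zero
  simp at this

theorem constOne_of_mem {c : F} (hc : c ∈ Kc) (hc0 : c ≠ 0) : ConstOne Kc V c :=
  ⟨c, hc, hc0, by rw [mul_inv_cancel₀ hc0]; exact OneAddNonunits.one⟩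

theorem ConstOne.mul {f g : F} (hf : ConstOne Kc V f) (hg : ConstOne Kc V g) :
    ConstOne Kc V (f * g) := by
  obtain ⟨c, hc, hc0, h1⟩ := hf
  obtain ⟨d, hd, hd0, h2⟩ := hg
  refine ⟨c * d, Kc.mul_mem hc hd, mul_ne_zero hc0 hd0, ?_⟩
  have e : f * g * (c * d)⁻¹ = f * c⁻¹ * (g * d⁻¹) := by
    rw [mul_inv]; ring
  rw [e]
  exact h1.mul h2

theorem ConstOne.inv {f : F} (hf : ConstOne Kc V f) : ConstOne Kc V f⁻¹ := by
  obtain ⟨c, hc, hc0, h1⟩ := hf
  refine ⟨c⁻¹, Kc.inv_mem hc, inv_ne_zero hc0, ?_⟩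
  have e : f⁻¹ * c⁻¹⁻¹ = (f * c⁻¹)⁻¹ := by
    rw [mul_inv]
  rw [e]
  exact h1.inv

/-- (C2) "step I": for every `f ≠ 0`, `τ f / f` has constant reduction. -/
theorem constOne_tauSubOne {τ : F ≃+* F} (hK : ∀ c ∈ Kc, τ c ∈ Kc)
    (hV : HasConstValues Kc V) (hτ : InInertia V τ) {f : F} (hf : f ≠ 0) :
    ConstOne Kc V (tauSubOne τ f) :=
  exists_const_once hK hV hτ hf

end basic

section root

variable {V : ValuationSubring F}

/-- In residue characteristic `p`: `x ^ (p ^ k) ∈ 1 + 𝔪_V` implies `x ∈ 1 + 𝔪_V`. -/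
theorem oneAddNonunits_of_pow {p : ℕ} (hp : p.Prime) (hpV : V.valuation (p : F) < 1) (k : ℕ)
    {x : F} (hx : OneAddNonunits V (x ^ p ^ k)) : OneAddNonunits V x := by
  -- `x` is a unit of `V`
  have hpk : p ^ k ≠ 0 := pow_ne_zero _ hp.ne_zero
  have hx1 : V.valuation x = 1 := by
    have h := hx.isUnitOf
    unfold IsUnitOf at h
    rw [map_pow] at h
    exact (pow_eq_one_iff.mp h).resolve_right hpk
  have hxV : x ∈ V := (V.valuation_le_one_iff x).mp (le_of_eq hx1)
  -- the residue field has characteristic `p`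
  have hpm : ((p : ℕ) : V) ∈ IsLocalRing.maximalIdeal V := by
    rw [ValuationSubring.valuation_lt_one_iff]
    simpa using hpV
  have hp0 : ((p : ℕ) : IsLocalRing.ResidueField V) = 0 := by
    have := (IsLocalRing.residue_eq_zero_iff ((p : ℕ) : V)).mpr hpm
    simpa using this
  have : CharP (IsLocalRing.ResidueField V) p := (CharP.charP_iff_prime_eq_zero hp).mpr hp0
  have : Fact p.Prime := ⟨hp⟩
  -- the residue of `x ^ (p ^ k)` is `1`
  set xV : V := ⟨x, hxV⟩ with hxVdef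
  have h1 : xV ^ p ^ k - 1 ∈ IsLocalRing.maximalIdeal V := by
    rw [ValuationSubring.valuation_lt_one_iff]
    exact hx
  have h2 : IsLocalRing.residue V xV ^ p ^ k = 1 := by
    have := (IsLocalRing.residue_eq_zero_iff (xV ^ p ^ k - 1)).mpr h1
    rw [map_sub, map_pow, map_one, sub_eq_zero] at this
    exact this
  have h3 : (IsLocalRing.residue V xV - 1) ^ p ^ k = 0 := by
    rw [sub_pow_char_pow, h2, one_pow, sub_self]
  have h4 : IsLocalRing.residue V (xV - 1) = 0 := by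
    rw [map_sub, map_one]
    exact pow_eq_zero_iff hpk |>.mp h3
  have h5 := (IsLocalRing.residue_eq_zero_iff (xV - 1)).mp h4
  rw [ValuationSubring.valuation_lt_one_iff] at h5
  exact h5

/-- iterated `p`-th roots in `Kc` -/
theorem exists_pow_pow_eq {Kc : Subfield F} {p : ℕ}
    (hroot : ∀ c ∈ Kc, ∃ d ∈ Kc, d ^ p = c) (k : ℕ) :
    ∀ c ∈ Kc, ∃ d ∈ Kc, d ^ p ^ k = c := by
  induction k with
  | zero => intro c hc; exact ⟨c, hc, by simp⟩
  | succ k ih =>
    intro c hc
    obtain ⟨d, hd, hdc⟩ := hroot c hc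
    obtain ⟨e, he, hed⟩ := ih d hd
    refine ⟨e, he, ?_⟩
    rw [pow_succ, pow_mul, hed, hdc]

/-- (C3) root closure of `ConstOne`. -/
theorem constOne_of_pow {Kc : Subfield F} {p : ℕ} (hp : p.Prime)
    (hpV : V.valuation (p : F) < 1) (hroot : ∀ c ∈ Kc, ∃ d ∈ Kc, d ^ p = c) (k : ℕ)
    {h : F} (hh : ConstOne Kc V (h ^ p ^ k)) : ConstOne Kc V h := by
  obtain ⟨c, hc, hc0, h1⟩ := hh
  obtain ⟨d, hd, hdc⟩ := exists_pow_pow_eq hroot k c hc
  have hd0 : d ≠ 0 := by
    rintro rfl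
    rw [zero_pow (pow_ne_zero _ hp.ne_zero)] at hdc
    exact hc0 hdc.symm
  refine ⟨d, hd, hd0, oneAddNonunits_of_pow hp hpV k ?_⟩
  have e : (h * d⁻¹) ^ p ^ k = h ^ p ^ k * c⁻¹ := by
    rw [mul_pow, inv_pow, hdc]
  rw [e]
  exact h1

end root

end Fermat.Agent.S33.H855

end
-- ===== PACK-END S33/H855/TowerGauss.lean

-- ===== PACK-BEGIN S59/NM/H254/Chevalley.lean
section




/-!
# Chevalley's lemma for complete Noetherian local rings with finite residue field (helper254)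

`chevalley` : `A` complete Noetherian local with finite residue field, `J : ℕ → Ideal A`
antitone with `⨅ J N = ⊥`.  Then for every `k` some `J N` is contained in `𝔪 ^ k`.

`exists_comap_pow_le` : for an injective local homomorphism `ι : A → C` into a Noetherian local
ring, `ι⁻¹ (𝔪_C ^ N) ≤ 𝔪_A ^ k` for some `N`.
-/

set_option autoImplicit false

namespace Fermat.Agent.S59.NM.H254

open IsLocalRing

section Chevalley

variable {A : Type*} [CommRing A] [IsLocalRing A] [IsNoetherianRing A]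

/-- An antitone sequence of ideals is stationary modulo `𝔪 ^ n`. -/
theorem exists_stable_sup_pow [Finite (ResidueField A)] (J : ℕ → Ideal A) (hanti : Antitone J)
    (n : ℕ) :
    ∃ N₀, ∀ N, N₀ ≤ N → J N ⊔ maximalIdeal A ^ n = J N₀ ⊔ maximalIdeal A ^ n := by
  haveI : Finite (A ⧸ maximalIdeal A ^ n) :=
    (IsLocalRing.finite_quotient_iff).mpr ⟨n, le_rfl⟩
  haveI : IsArtinianRing (A ⧸ maximalIdeal A ^ n) := inferInstance
  let f : ℕ →o (Ideal (A ⧸ maximalIdeal A ^ n))ᵒᵈ :=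
    ⟨fun N => OrderDual.toDual ((J N).map (Ideal.Quotient.mk (maximalIdeal A ^ n))),
      fun a b hab => Ideal.map_mono (hanti hab)⟩
  obtain ⟨N₀, hN₀⟩ := IsArtinian.monotone_stabilizes f
  refine ⟨N₀, fun N hN => ?_⟩
  have h1 : (J N₀).map (Ideal.Quotient.mk (maximalIdeal A ^ n)) =
      (J N).map (Ideal.Quotient.mk (maximalIdeal A ^ n)) := hN₀ N hN
  have h2 : ∀ I : Ideal A, I ⊔ maximalIdeal A ^ n =
      (I.map (Ideal.Quotient.mk (maximalIdeal A ^ n))).comap
        (Ideal.Quotient.mk (maximalIdeal A ^ n)) := by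
    intro I
    rw [Ideal.comap_map_of_surjective _ Ideal.Quotient.mk_surjective, ← RingHom.ker_eq_comap_bot,
      Ideal.mk_ker]
  rw [h2, h2, h1]

/-- **Chevalley's lemma.** -/
theorem chevalley [IsAdicComplete (maximalIdeal A) A] [Finite (ResidueField A)]
    (J : ℕ → Ideal A) (hanti : Antitone J) (hJ : ⨅ N, J N = ⊥) (k : ℕ) :
    ∃ N, J N ≤ maximalIdeal A ^ k := by
  classical
  choose N₀ hN₀ using exists_stable_sup_pow J hanti
  -- a monotone choice of indices, `M n ≥ n`, `M n ≥ N₀ n`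
  let M : ℕ → ℕ := fun n => n + ∑ i ∈ Finset.range (n + 1), N₀ i
  have hMmono : Monotone M := by
    intro a b hab
    have : ∑ i ∈ Finset.range (a + 1), N₀ i ≤ ∑ i ∈ Finset.range (b + 1), N₀ i :=
      Finset.sum_le_sum_of_subset (Finset.range_mono (by omega))
    show a + _ ≤ b + _
    omega
  have hMge : ∀ n, n ≤ M n := fun n => Nat.le_add_right _ _
  have hMN : ∀ n, N₀ n ≤ M n := by
    intro n
    have : N₀ n ≤ ∑ i ∈ Finset.range (n + 1), N₀ i :=
      Finset.single_le_sum (f := N₀) (fun _ _ => Nat.zero_le _) (Finset.self_mem_range_succ n)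
    show N₀ n ≤ n + _
    omega
  let I : ℕ → Ideal A := fun n => J (M n) ⊔ maximalIdeal A ^ n
  have hIanti : Antitone I := by
    intro a b hab
    exact sup_le_sup (hanti (hMmono hab)) (Ideal.pow_le_pow_right hab)
  have hIm : ∀ n, maximalIdeal A ^ n ≤ I n := fun n => le_sup_right
  have hIstep : ∀ n, I n ≤ I (n + 1) ⊔ maximalIdeal A ^ n := by
    intro n
    have h1 : J (M n) ⊔ maximalIdeal A ^ n = J (M (n + 1)) ⊔ maximalIdeal A ^ n := by
      rw [hN₀ n (M n) (hMN n), hN₀ n (M (n + 1)) ((hMN n).trans (hMmono (Nat.le_succ n)))]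
    show J (M n) ⊔ maximalIdeal A ^ n ≤ _
    rw [h1]
    exact sup_le (le_sup_of_le_left le_sup_left) le_sup_right
  have htower := Fermat.Agent.S53.H596.tower_le (maximalIdeal A) I hIanti hIm hIstep k
  have hinf : (⨅ j, I j) = ⊥ := by
    rw [eq_bot_iff]
    intro x hx
    rw [Ideal.mem_iInf] at hx
    have hxJ : ∀ N, x ∈ J N := by
      intro N
      apply Fermat.Agent.S59.H540.mem_of_forall_mem_sup_pow
      intro j
      have h1 : I (max j N) ≤ J N ⊔ maximalIdeal A ^ j :=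
        sup_le_sup (hanti ((le_max_right j N).trans (hMge _)))
          (Ideal.pow_le_pow_right (le_max_left j N))
      exact h1 (hx _)
    have : x ∈ ⨅ N, J N := (Ideal.mem_iInf).mpr hxJ
    rwa [hJ] at this
  refine ⟨M k, ?_⟩
  have h2 : J (M k) ≤ I k := le_sup_left
  refine h2.trans (htower.trans ?_)
  rw [hinf, bot_sup_eq]

end Chevalley

section Comap

variable {A : Type*} [CommRing A] [IsLocalRing A] [IsNoetherianRing A]
  [IsAdicComplete (maximalIdeal A) A] [Finite (ResidueField A)]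
  {C : Type*} [CommRing C] [IsLocalRing C] [IsNoetherianRing C]

/-- For an injective homomorphism into a Noetherian local ring, the preimages of the powers of
the maximal ideal are cofinal with the powers of the maximal ideal. -/
theorem exists_comap_pow_le (ι : A →+* C) (hinj : Function.Injective ι) (k : ℕ) :
    ∃ N, (maximalIdeal C ^ N).comap ι ≤ maximalIdeal A ^ k := by
  refine chevalley (fun N => (maximalIdeal C ^ N).comap ι) ?_ ?_ k
  · intro a b hab
    exact Ideal.comap_mono (Ideal.pow_le_pow_right hab)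
  · rw [eq_bot_iff]
    intro x hx
    rw [Ideal.mem_iInf] at hx
    have h1 : ι x ∈ ⨅ i : ℕ, maximalIdeal C ^ i := by
      rw [Ideal.mem_iInf]
      intro i
      exact hx i
    rw [Ideal.iInf_pow_eq_bot_of_isLocalRing _ (IsLocalRing.maximalIdeal.isMaximal C).ne_top,
      Ideal.mem_bot] at h1
    rw [Ideal.mem_bot]
    exact hinj (h1.trans (map_zero ι).symm)

end Comap

end Fermat.Agent.S59.NM.H254

end
-- ===== PACK-END S59/NM/H254/Chevalley.lean

-- ===== PACK-BEGIN S59/NM/H254/CotBound.lean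
section




/-!
# Row S59 / cell NM, leaf NM-SEL (helper254): the cotangent sequence and the Krull step

`ψ : R' ↠ R` a surjection of augmented `𝒪`-algebras (`x' = x ∘ ψ`), `K` an ideal of `R'` with
`ker ψ ≤ K ≤ ker x'`.  If the image of `K` in `R' ⧸ (𝔭'² + 𝔪ⁿ)` has at most `B` elements for
every `n`, then `#Φ_{R'} ≤ #Φ_R · B` (`card_cot_le`).

* `finite_card_le_of_forall_finset` : a type all of whose finite subsets have `≤ B` elements.
* `card_cotImage_le` : the Krull step (`⋂ₙ (𝔭'² + 𝔪ⁿ) = 𝔭'²`).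
* `card_cot_le` : the bound.
-/

set_option autoImplicit false

namespace Fermat.Agent.S59.NM.H254

open IsLocalRing

/-- A type all of whose finite subsets have at most `B` elements is finite with at most `B`
elements. -/
theorem finite_card_le_of_forall_finset {X : Type*} (B : ℕ)
    (h : ∀ s : Finset X, s.card ≤ B) : Finite X ∧ Nat.card X ≤ B := by
  have hfin : Finite X := by
    by_contra hinf
    rw [not_finite_iff_infinite] at hinf
    obtain ⟨s, hs⟩ := Infinite.exists_subset_card_eq X (B + 1)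
    have := h s
    omega
  refine ⟨hfin, ?_⟩
  haveI := Fintype.ofFinite X
  rw [Nat.card_eq_fintype_card, ← Finset.card_univ]
  exact h _

section Krull

variable {R : Type*} [CommRing R] [IsLocalRing R] [IsNoetherianRing R]

/-- The image of `K ∩ P` in the cotangent space `P / P²`. -/
def cotImage (P K : Ideal R) : Set P.Cotangent :=
  {c | ∃ k : P, (k : R) ∈ K ∧ P.toCotangent k = c}

/-- **The Krull step.** -/
theorem card_cotImage_le (P K : Ideal R) (B : ℕ)
    (h : ∀ n : ℕ, Finite ↥(K.map (Ideal.Quotient.mk (P ^ 2 ⊔ maximalIdeal R ^ n))) ∧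
      Nat.card ↥(K.map (Ideal.Quotient.mk (P ^ 2 ⊔ maximalIdeal R ^ n))) ≤ B) :
    Finite (cotImage P K) ∧ Nat.card (cotImage P K) ≤ B := by
  classical
  apply finite_card_le_of_forall_finset
  intro s
  -- lifts
  have hex : ∀ c : cotImage P K, ∃ k : P, (k : R) ∈ K ∧ P.toCotangent k = c.1 := fun c => c.2
  choose g hgK hgc using hex
  have hne : ∀ c c' : cotImage P K, c ≠ c' → ((g c : R) - (g c' : R)) ∉ P ^ 2 := by
    intro c c' hcc hmem
    apply hcc
    apply Subtype.ext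
    rw [← hgc c, ← hgc c']
    exact (Ideal.toCotangent_eq P).mpr hmem
  have hmono : ∀ {n n' : ℕ}, n ≤ n' →
      P ^ 2 ⊔ maximalIdeal R ^ n' ≤ P ^ 2 ⊔ maximalIdeal R ^ n := fun hnn =>
    sup_le_sup_left (Ideal.pow_le_pow_right hnn) _
  have hev : ∀ pr ∈ s ×ˢ s, ∀ᶠ n in Filter.atTop,
      pr.1 ≠ pr.2 → ((g pr.1 : R) - (g pr.2 : R)) ∉ P ^ 2 ⊔ maximalIdeal R ^ n := by
    intro pr _
    by_cases hpr : pr.1 = pr.2
    · exact Filter.Eventually.of_forall fun n hn => absurd hpr hn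
    · have h1 : ∃ n, ((g pr.1 : R) - (g pr.2 : R)) ∉ P ^ 2 ⊔ maximalIdeal R ^ n := by
        by_contra hcon
        push Not at hcon
        exact hne _ _ hpr (Fermat.Agent.S59.H540.mem_of_forall_mem_sup_pow _ _ hcon)
      obtain ⟨n, hn⟩ := h1
      rw [Filter.eventually_atTop]
      exact ⟨n, fun n' hn' _ hmem => hn (hmono hn' hmem)⟩
  obtain ⟨n, hn⟩ := ((Filter.eventually_all_finset (s ×ˢ s)).mpr hev).exists
  obtain ⟨hfin, hcard⟩ := h n
  haveI := hfin
  haveI := Fintype.ofFinite ↥(K.map (Ideal.Quotient.mk (P ^ 2 ⊔ maximalIdeal R ^ n)))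
  let f : cotImage P K → ↥(K.map (Ideal.Quotient.mk (P ^ 2 ⊔ maximalIdeal R ^ n))) :=
    fun c => ⟨Ideal.Quotient.mk _ (g c : R), Ideal.mem_map_of_mem _ (hgK c)⟩
  have hinj : Set.InjOn f s := by
    intro c hc c' hc' hff
    by_contra hcc
    have h1 : Ideal.Quotient.mk (P ^ 2 ⊔ maximalIdeal R ^ n) (g c : R) =
        Ideal.Quotient.mk (P ^ 2 ⊔ maximalIdeal R ^ n) (g c' : R) := congrArg Subtype.val hff
    rw [Ideal.Quotient.eq] at h1
    exact hn (c, c') (Finset.mem_product.mpr ⟨hc, hc'⟩) hcc h1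
  calc s.card ≤ (Finset.univ :
        Finset ↥(K.map (Ideal.Quotient.mk (P ^ 2 ⊔ maximalIdeal R ^ n)))).card :=
        Finset.card_le_card_of_injOn f (fun _ _ => Finset.mem_univ _) hinj
    _ = Nat.card ↥(K.map (Ideal.Quotient.mk (P ^ 2 ⊔ maximalIdeal R ^ n))) := by
        rw [Finset.card_univ, Nat.card_eq_fintype_card]
    _ ≤ B := hcard

end Krull

section Cot

variable {𝒪 : Type*} [CommRing 𝒪] {R' R : Type*} [CommRing R'] [IsLocalRing R']
  [IsNoetherianRing R'] [CommRing R] [Algebra 𝒪 R'] [Algebra 𝒪 R]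

/-- **The cotangent bound.** -/
theorem card_cot_le (ψ : R' →ₐ[𝒪] R) (hψ : Function.Surjective ψ) (x : R →ₐ[𝒪] 𝒪)
    (x' : R' →ₐ[𝒪] 𝒪) (hx : x' = x.comp ψ)
    (K : Ideal R') (hK1 : RingHom.ker ψ ≤ K) (hK2 : K ≤ NC.augIdeal x')
    (B : ℕ)
    (hB : ∀ n : ℕ,
      Finite ↥(K.map (Ideal.Quotient.mk (NC.augIdeal x' ^ 2 ⊔ maximalIdeal R' ^ n))) ∧
      Nat.card ↥(K.map (Ideal.Quotient.mk (NC.augIdeal x' ^ 2 ⊔ maximalIdeal R' ^ n))) ≤ B)
    [hfin : Finite (NC.Cot x)] :
    Finite (NC.Cot x') ∧ Nat.card (NC.Cot x') ≤ Nat.card (NC.Cot x) * B := by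
  classical
  set P' : Ideal R' := NC.augIdeal x' with hP'
  set P : Ideal R := NC.augIdeal x with hP
  have hle : P' ≤ P.comap ψ := by
    intro y hy
    rw [Ideal.mem_comap, hP, NC.mem_augIdeal]
    have : x' y = 0 := NC.mem_augIdeal.mp hy
    rw [hx] at this
    exact this
  have hcomap : ∀ y : R', ψ y ∈ P → y ∈ P' := by
    intro y hy
    rw [hP', NC.mem_augIdeal, hx]
    exact NC.mem_augIdeal.mp hy
  let μ : P'.Cotangent →ₗ[𝒪] P.Cotangent := Ideal.mapCotangent P' P ψ hle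
  have hμ : ∀ y : P', μ (P'.toCotangent y) = P.toCotangent ⟨ψ y, hle y.2⟩ := fun y =>
    Ideal.mapCotangent_toCotangent P' P ψ hle y
  have hsurj : Function.Surjective μ := by
    intro c
    obtain ⟨⟨y, hy⟩, rfl⟩ := Ideal.toCotangent_surjective P c
    obtain ⟨y', rfl⟩ := hψ y
    exact ⟨P'.toCotangent ⟨y', hcomap y' hy⟩, hμ _⟩
  -- the kernel lies in the image of `K`
  have hker : ∀ c : P'.Cotangent, μ c = 0 → c ∈ cotImage P' K := by
    intro c hc
    obtain ⟨⟨y, hy⟩, rfl⟩ := Ideal.toCotangent_surjective P' c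
    rw [hμ, Ideal.toCotangent_eq_zero] at hc
    have hmap : P = P'.map (ψ : R' →+* R) := by
      apply le_antisymm
      · intro z hz
        obtain ⟨z', rfl⟩ := hψ z
        exact Ideal.mem_map_of_mem _ (hcomap z' hz)
      · exact Ideal.map_le_iff_le_comap.mpr hle
    have hc' : ψ y ∈ (P' ^ 2).map (ψ : R' →+* R) := by
      rw [Ideal.map_pow, ← hmap]
      exact hc
    obtain ⟨z, hz, hzy⟩ := (Ideal.mem_map_iff_of_surjective (ψ : R' →+* R) hψ).mp hc'
    have hzP : z ∈ P' := Ideal.pow_le_self two_ne_zero hz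
    have hyz : y - z ∈ K := by
      apply hK1
      rw [RingHom.mem_ker, map_sub, sub_eq_zero]
      exact hzy.symm
    refine ⟨⟨y - z, P'.sub_mem hy hzP⟩, hyz, ?_⟩
    rw [Ideal.toCotangent_eq]
    show y - z - y ∈ P' ^ 2
    have : y - z - y = -z := by ring
    rw [this]
    exact (P' ^ 2).neg_mem hz
  obtain ⟨hKfin, hKcard⟩ := card_cotImage_le P' K B hB
  -- counting
  let f : P'.Cotangent →+ P.Cotangent := μ.toAddMonoidHom
  have hsub : ((f.ker : AddSubgroup P'.Cotangent) : Set P'.Cotangent) ⊆ cotImage P' K := by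
    intro c hc
    exact hker c hc
  have hKfin' : (cotImage P' K).Finite := hKfin
  have hkerfin : ((f.ker : AddSubgroup P'.Cotangent) : Set P'.Cotangent).Finite :=
    hKfin'.subset hsub
  haveI : Finite f.ker := hkerfin
  have hkercard : Nat.card f.ker ≤ B :=
    le_trans (Nat.card_mono hKfin' hsub) hKcard
  have h1 : Nat.card f.ker * f.ker.index = Nat.card P'.Cotangent :=
    AddSubgroup.card_mul_index _
  have hrange : f.range = ⊤ := AddMonoidHom.range_eq_top.mpr hsurj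
  have h3 : Nat.card (⊤ : AddSubgroup P.Cotangent) = Nat.card P.Cotangent :=
    Nat.card_congr AddSubgroup.topEquiv.toEquiv
  rw [AddSubgroup.index_ker, hrange, h3] at h1
  have hpos1 : 0 < Nat.card f.ker := Nat.card_pos
  have hpos2 : 0 < Nat.card P.Cotangent := Nat.card_pos
  have hne : Nat.card P'.Cotangent ≠ 0 := by
    rw [← h1]
    exact (Nat.mul_pos hpos1 hpos2).ne'
  refine ⟨Nat.finite_of_card_ne_zero hne, ?_⟩
  show Nat.card P'.Cotangent ≤ Nat.card P.Cotangent * B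
  rw [← h1, mul_comm]
  exact Nat.mul_le_mul_left _ hkercard

end Cot

end Fermat.Agent.S59.NM.H254

end
-- ===== PACK-END S59/NM/H254/CotBound.lean

-- ===== PACK-BEGIN S41/H585/Groups.lean
section




/-!
# S41, leaf AMALG (helper585): the two copies of `Γ₀(N)` inside `SL(2, ℚ)`
-/

set_option autoImplicit false
set_option linter.unusedSectionVars false

namespace Fermat.Agent.S41.H585

open Matrix CongruenceSubgroup
open scoped MatrixGroups

variable (N r : ℕ) [hr : Fact r.Prime]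

lemma r_ne_zero : r ≠ 0 := hr.out.ne_zero

lemma rq_ne_zero : (r : ℚ) ≠ 0 := Nat.cast_ne_zero.mpr hr.out.ne_zero

lemma conjMat_one : conjMat r (1 : SL(2, ℚ)) = 1 := by
  simp only [conjMat]
  ext i j
  fin_cases i <;> fin_cases j <;> simp

lemma conjMat_mul (g h : SL(2, ℚ)) :
    conjMat r (g * h) = conjMat r g * conjMat r h := by
  have hr' := rq_ne_zero r
  have e : ∀ i j, (g * h : SL(2, ℚ)) i j = g i 0 * h 0 j + g i 1 * h 1 j := by
    intro i j
    rw [Matrix.SpecialLinearGroup.coe_mul, Matrix.mul_apply, Fin.sum_univ_two]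
  ext i j
  fin_cases i <;> fin_cases j
  · simp only [conjMat, Matrix.mul_apply, Fin.sum_univ_two, e]
    simp
    field_simp
  · simp only [conjMat, Matrix.mul_apply, Fin.sum_univ_two, e]
    simp
    field_simp
  · simp only [conjMat, Matrix.mul_apply, Fin.sum_univ_two, e]
    simp
    ring
  · simp only [conjMat, Matrix.mul_apply, Fin.sum_univ_two, e]
    simp
    field_simp

/-- Conjugation by `δ⁻¹ = diag(1/r, 1)` on `SL(2, ℚ)`: `g ↦ !![a, b / r; r * c, d]`. -/
def conjSL (g : SL(2, ℚ)) : SL(2, ℚ) := ⟨conjMat r g, det_conjMat hr.out.ne_zero g⟩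

lemma coe_conjSL (g : SL(2, ℚ)) :
    ((conjSL r g : SL(2, ℚ)) : Matrix (Fin 2) (Fin 2) ℚ) = conjMat r g := rfl

/-- Conjugation by `δ⁻¹ = diag(1/r, 1)` on `SL(2, ℚ)`: `g ↦ !![a, b / r; r * c, d]`. -/
def conjHom : SL(2, ℚ) →* SL(2, ℚ) where
  toFun g := conjSL r g
  map_one' := by
    apply Matrix.SpecialLinearGroup.ext
    intro i j
    rw [coe_conjSL, conjMat_one]
    rfl
  map_mul' g h := by
    apply Matrix.SpecialLinearGroup.ext
    intro i j
    rw [Matrix.SpecialLinearGroup.coe_mul, coe_conjSL, coe_conjSL, coe_conjSL, conjMat_mul]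

lemma conjHom_apply (g : SL(2, ℚ)) :
    ((conjHom r g : SL(2, ℚ)) : Matrix (Fin 2) (Fin 2) ℚ) = !![g 0 0, g 0 1 / r; r * g 1 0, g 1 1] :=
  rfl

lemma conjHom_injective : Function.Injective (conjHom r) := by
  intro g h hgh
  have hr' := rq_ne_zero r
  have := congrArg (fun x : SL(2, ℚ) => (x : Matrix (Fin 2) (Fin 2) ℚ)) hgh
  simp only [conjHom_apply] at this
  apply Subtype.ext
  ext i j
  have h00 := congrFun (congrFun this 0) 0
  have h01 := congrFun (congrFun this 0) 1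
  have h10 := congrFun (congrFun this 1) 0
  have h11 := congrFun (congrFun this 1) 1
  simp at h00 h01 h10 h11
  fin_cases i <;> fin_cases j
  · exact h00
  · simpa using (div_left_inj' hr').mp h01
  · rcases h10 with h | h
    · exact h
    · exact absurd h hr.out.ne_zero
  · exact h11

/-- The second embedding `γ ↦ δ⁻¹ γ δ`. -/
def J2 : Gamma0 N →* SL(2, ℚ) := (conjHom r).comp (J1 N)

lemma J1_injective : Function.Injective (J1 N) := by
  intro γ γ' h
  apply Subtype.ext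
  apply Subtype.ext
  ext i j
  have := congrArg (fun x : SL(2, ℚ) => x i j) h
  simp only [J1_apply] at this
  exact_mod_cast this

lemma J2_injective : Function.Injective (J2 N r) :=
  (conjHom_injective r).comp (J1_injective N)

lemma J2_apply (γ : Gamma0 N) :
    ((J2 N r γ : SL(2, ℚ)) : Matrix (Fin 2) (Fin 2) ℚ) =
      !![((γ : SL(2, ℤ)) 0 0 : ℚ), ((γ : SL(2, ℤ)) 0 1 : ℚ) / r;
         r * ((γ : SL(2, ℤ)) 1 0 : ℚ), ((γ : SL(2, ℤ)) 1 1 : ℚ)] := rfl

/-- Build an element of `Γ₀(N)` from its entries. -/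
def mkSL2Z (a b c d : ℤ) (hdet : a * d - b * c = 1) : SL(2, ℤ) :=
  ⟨!![a, b; c, d], by rw [Matrix.det_fin_two_of]; exact hdet⟩

/-- Build an element of `Γ₀(N)` from its entries. -/
def mkGamma0 (a b c d : ℤ) (hdet : a * d - b * c = 1) (hc : (N : ℤ) ∣ c) : Gamma0 N :=
  ⟨mkSL2Z a b c d hdet, by
    rw [Gamma0_mem]
    exact (ZMod.intCast_zmod_eq_zero_iff_dvd c N).mpr hc⟩

@[simp] lemma mkGamma0_00 (a b c d : ℤ) (hdet : a * d - b * c = 1) (hc : (N : ℤ) ∣ c) :
    ((mkGamma0 N a b c d hdet hc : Gamma0 N) : SL(2, ℤ)) 0 0 = a := rfl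
@[simp] lemma mkGamma0_01 (a b c d : ℤ) (hdet : a * d - b * c = 1) (hc : (N : ℤ) ∣ c) :
    ((mkGamma0 N a b c d hdet hc : Gamma0 N) : SL(2, ℤ)) 0 1 = b := rfl
@[simp] lemma mkGamma0_10 (a b c d : ℤ) (hdet : a * d - b * c = 1) (hc : (N : ℤ) ∣ c) :
    ((mkGamma0 N a b c d hdet hc : Gamma0 N) : SL(2, ℤ)) 1 0 = c := rfl
@[simp] lemma mkGamma0_11 (a b c d : ℤ) (hdet : a * d - b * c = 1) (hc : (N : ℤ) ∣ c) :
    ((mkGamma0 N a b c d hdet hc : Gamma0 N) : SL(2, ℤ)) 1 1 = d := rfl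

lemma Gamma0_dvd (γ : Gamma0 N) : (N : ℤ) ∣ (γ : SL(2, ℤ)) 1 0 :=
  (ZMod.intCast_zmod_eq_zero_iff_dvd _ N).mp (Gamma0_mem.mp γ.2)

lemma Gamma0_det (γ : Gamma0 N) :
    (γ : SL(2, ℤ)) 0 0 * (γ : SL(2, ℤ)) 1 1 - (γ : SL(2, ℤ)) 0 1 * (γ : SL(2, ℤ)) 1 0 = 1 := by
  have := (γ : SL(2, ℤ)).det_coe
  rwa [Matrix.det_fin_two] at this

/-- Equality in `SL(2, ℚ)` from equality of the four entries. -/
lemma sl2_ext {g h : SL(2, ℚ)} (h00 : g 0 0 = h 0 0) (h01 : g 0 1 = h 0 1) (h10 : g 1 0 = h 1 0)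
    (h11 : g 1 1 = h 1 1) : g = h := by
  apply Subtype.ext
  ext i j
  fin_cases i <;> fin_cases j <;> assumption

lemma J2_00 (γ : Gamma0 N) : (J2 N r γ) 0 0 = ((γ : SL(2, ℤ)) 0 0 : ℚ) := rfl
lemma J2_01 (γ : Gamma0 N) : (J2 N r γ) 0 1 = ((γ : SL(2, ℤ)) 0 1 : ℚ) / r := rfl
lemma J2_10 (γ : Gamma0 N) : (J2 N r γ) 1 0 = r * ((γ : SL(2, ℤ)) 1 0 : ℚ) := rfl
lemma J2_11 (γ : Gamma0 N) : (J2 N r γ) 1 1 = ((γ : SL(2, ℤ)) 1 1 : ℚ) := rfl

/-- The first copy `G_a = Γ₀(N)`. -/
def Ga : Subgroup SL(2, ℚ) := (J1 N).range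

/-- The second copy `G_b = δ⁻¹ Γ₀(N) δ`. -/
def Gb : Subgroup SL(2, ℚ) := (J2 N r).range

variable {N r}

/-- `J1 γ ∈ G_b` iff `r ∣ c`. -/
lemma J1_mem_Gb_iff (hN : Nat.Coprime N r) (γ : Gamma0 N) :
    J1 N γ ∈ Gb N r ↔ (r : ℤ) ∣ (γ : SL(2, ℤ)) 1 0 := by
  have hr' := rq_ne_zero r
  constructor
  · rintro ⟨γ', hγ'⟩
    have h10 := congrArg (fun x : SL(2, ℚ) => x 1 0) hγ'
    simp only [J2_10, J1_apply] at h10
    refine ⟨(γ' : SL(2, ℤ)) 1 0, ?_⟩
    exact_mod_cast h10.symm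
  · rintro ⟨c', hc'⟩
    have hdet := Gamma0_det N γ
    have hNc : (N : ℤ) ∣ c' := by
      have h1 : (N : ℤ) ∣ (r : ℤ) * c' := hc' ▸ Gamma0_dvd N γ
      have hcop : IsCoprime (N : ℤ) (r : ℤ) := by
        exact_mod_cast (Nat.isCoprime_iff_coprime.mpr hN)
      exact hcop.dvd_of_dvd_mul_left h1
    refine ⟨mkGamma0 N ((γ : SL(2, ℤ)) 0 0) (r * (γ : SL(2, ℤ)) 0 1) c' ((γ : SL(2, ℤ)) 1 1)
      (by linear_combination hdet + ((γ : SL(2, ℤ)) 0 1) * hc') hNc, ?_⟩
    apply sl2_ext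
    · simp [J2_00, J1_apply]
    · simp [J2_01, J1_apply]
      field_simp
    · simp [J2_10, J1_apply, hc']
    · simp [J2_11, J1_apply]

/-- `J2 γ ∈ G_a` iff `r ∣ b`. -/
lemma J2_mem_Ga_iff (γ : Gamma0 N) :
    J2 N r γ ∈ Ga N ↔ (r : ℤ) ∣ (γ : SL(2, ℤ)) 0 1 := by
  have hr' := rq_ne_zero r
  constructor
  · rintro ⟨γ', hγ'⟩
    have h01 := congrArg (fun x : SL(2, ℚ) => x 0 1) hγ'
    simp only [J2_01, J1_apply] at h01
    refine ⟨(γ' : SL(2, ℤ)) 0 1, ?_⟩
    have : ((γ : SL(2, ℤ)) 0 1 : ℚ) = r * ((γ' : SL(2, ℤ)) 0 1 : ℚ) := by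
      rw [h01]; field_simp
    exact_mod_cast this
  · rintro ⟨b', hb'⟩
    have hdet := Gamma0_det N γ
    refine ⟨mkGamma0 N ((γ : SL(2, ℤ)) 0 0) b' (r * (γ : SL(2, ℤ)) 1 0) ((γ : SL(2, ℤ)) 1 1)
      (by linear_combination hdet + ((γ : SL(2, ℤ)) 1 0) * hb') (Dvd.dvd.mul_left (Gamma0_dvd N γ) _), ?_⟩
    apply sl2_ext
    · simp [J2_00, J1_apply]
    · simp [J2_01, J1_apply, hb']
      field_simp
    · simp [J2_10, J1_apply]
    · simp [J2_11, J1_apply]

end Fermat.Agent.S41.H585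

end
-- ===== PACK-END S41/H585/Groups.lean

-- ===== PACK-BEGIN S38/H419/TypeAlg.lean
section
/-
Row 37 HARD (Ihara avoidance), leaf GAL, item (D) "TYPE clause": the algebra.   (helper419)

`Σ, Φ` 2×2 matrices over a domain `V` of characteristic zero, `det Σ = 1`, `det Φ ≠ 0`,
`Φ Σ = Σ^q Φ`, `Σ ≡ 1` modulo a proper ideal `m ∋ p` (`p` odd), `q = p^K n' + 1`, `p ∤ n'`,
`K ≥ 1`, `ζ` a primitive `p^K`-th root of unity, `tr Σ ≠ 2`.  Then (helper474, `TypePsi`)
the characteristic polynomial of `Σ` is `(X - z)(X - z')` with `z = ζ^j ≠ z' = ζ^(-j)`, hence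

* `Σ ^ (p^K) = 1` (`pow_eq_one_of_charpoly_h419`), so `Φ Σ = Σ Φ` (`commute_of_conj_h419`);
* in traceless coordinates `u` of `Σ`, `w` of `Φ`:
  `4 Q(u) = (z - z')²` and all minors `w_a u_b - w_b u_a` vanish (`type_algebra_h419`).

Mathlib + `S38/IA/H474/TypePsi.lean` only.  All proofs complete.
-/


set_option autoImplicit false
set_option linter.style.haveILetI false
set_option linter.unusedSectionVars false

namespace Fermat.Agent.S38.H419

open Matrix Polynomial

section Pow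

variable {V : Type*} [CommRing V] [IsDomain V]

/-- A 2×2 matrix over a domain with characteristic polynomial `(X - z)(X - z')`, `z ≠ z'`,
`z^N = z'^N = 1`, satisfies `M^N = 1`. -/
theorem pow_eq_one_of_charpoly_h419 (M : Matrix (Fin 2) (Fin 2) V) (z z' : V) (hne : z ≠ z')
    (N : ℕ) (hz : z ^ N = 1) (hz' : z' ^ N = 1)
    (hchar : M.charpoly = (X - C z) * (X - C z')) : M ^ N = 1 := by
  have h1 : (X - C z) ∣ (X ^ N - 1 : V[X]) := by
    rw [Polynomial.dvd_iff_isRoot, Polynomial.IsRoot.def]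
    simp only [eval_sub, eval_pow, eval_X, eval_one, hz, sub_self]
  obtain ⟨h, hh⟩ := h1
  have h2 : h.IsRoot z' := by
    have e := congrArg (Polynomial.eval z') hh
    simp only [eval_sub, eval_pow, eval_X, eval_one, eval_mul, eval_C, hz', sub_self] at e
    rcases mul_eq_zero.mp e.symm with h0 | h0
    · exact absurd (sub_eq_zero.mp h0).symm hne
    · exact h0
  obtain ⟨g, hg⟩ := Polynomial.dvd_iff_isRoot.mpr h2
  have h3 : (X ^ N - 1 : V[X]) = M.charpoly * g := by
    rw [hchar, hh, hg]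
    ring
  have h4 := congrArg (Polynomial.aeval M) h3
  rw [map_mul, Matrix.aeval_self_charpoly, zero_mul, map_sub, map_pow, Polynomial.aeval_X,
    map_one] at h4
  exact sub_eq_zero.mp h4

end Pow

section Comm

variable {B : Type*} [CommRing B]

/-- If `Σ^(N) = 1` and `N ∣ q - 1` (in the form `q = N n' + 1`), the tame relation
`Φ Σ = Σ^q Φ` says that `Φ` and `Σ` commute. -/
theorem commute_of_conj_h419 {q N n' : ℕ} (hq : q = N * n' + 1)
    (Sg Φ : Matrix (Fin 2) (Fin 2) B) (hconj : Φ * Sg = Sg ^ q * Φ) (hpow : Sg ^ N = 1) :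
    Φ * Sg = Sg * Φ := by
  have h1 : Sg ^ q = Sg := by
    rw [hq, pow_succ, pow_mul, hpow, one_pow, one_mul]
  rw [hconj, h1]

/-- `4 Q(u) = tr² - 4 det` in traceless coordinates. -/
theorem four_mul_qform_h419 (M : Matrix (Fin 2) (Fin 2) B) (u : Fin 3 → B)
    (h0 : 2 * u 0 = M 0 0 - M 1 1) (h1 : u 1 = M 0 1) (h2 : u 2 = M 1 0) :
    4 * (u 0 ^ 2 + u 1 * u 2) = M.trace ^ 2 - 4 * M.det := by
  rw [Matrix.trace_fin_two, Matrix.det_fin_two, h1, h2]
  have e : 4 * u 0 ^ 2 = (2 * u 0) ^ 2 := by ring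
  have e' : 4 * (u 0 ^ 2 + M 0 1 * M 1 0) = 4 * u 0 ^ 2 + 4 * (M 0 1 * M 1 0) := by ring
  rw [e', e, h0]
  ring

/-- Commuting matrices have proportional traceless coordinates: twice every minor vanishes. -/
theorem two_mul_minor_h419 (M N : Matrix (Fin 2) (Fin 2) B) (u w : Fin 3 → B)
    (hu0 : 2 * u 0 = M 0 0 - M 1 1) (hu1 : u 1 = M 0 1) (hu2 : u 2 = M 1 0)
    (hw0 : 2 * w 0 = N 0 0 - N 1 1) (hw1 : w 1 = N 0 1) (hw2 : w 2 = N 1 0)
    (hcomm : N * M = M * N) (a b : Fin 3) : 2 * (w a * u b - w b * u a) = 0 := by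
  have c00 : N 0 0 * M 0 0 + N 0 1 * M 1 0 = M 0 0 * N 0 0 + M 0 1 * N 1 0 := by
    have := congrFun (congrFun hcomm 0) 0
    simpa [Matrix.mul_apply, Fin.sum_univ_two] using this
  have c01 : N 0 0 * M 0 1 + N 0 1 * M 1 1 = M 0 0 * N 0 1 + M 0 1 * N 1 1 := by
    have := congrFun (congrFun hcomm 0) 1
    simpa [Matrix.mul_apply, Fin.sum_univ_two] using this
  have c10 : N 1 0 * M 0 0 + N 1 1 * M 1 0 = M 1 0 * N 0 0 + M 1 1 * N 1 0 := by
    have := congrFun (congrFun hcomm 1) 0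
    simpa [Matrix.mul_apply, Fin.sum_univ_two] using this
  -- the three basic minors
  have m12 : w 1 * u 2 - w 2 * u 1 = 0 := by
    rw [hw1, hw2, hu1, hu2]
    linear_combination c00
  have m01 : 2 * (w 0 * u 1 - w 1 * u 0) = 0 := by
    have e : 2 * (w 0 * u 1 - w 1 * u 0) = (2 * w 0) * u 1 - w 1 * (2 * u 0) := by ring
    rw [e, hw0, hu0, hw1, hu1]
    linear_combination c01
  have m02 : 2 * (w 0 * u 2 - w 2 * u 0) = 0 := by
    have e : 2 * (w 0 * u 2 - w 2 * u 0) = (2 * w 0) * u 2 - w 2 * (2 * u 0) := by ring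
    rw [e, hw0, hu0, hw2, hu2]
    linear_combination -c10
  have key : ∀ a b : Fin 3, 2 * (w a * u b - w b * u a) = 0 := by
    intro a b
    fin_cases a <;> fin_cases b
    · show 2 * (w 0 * u 0 - w 0 * u 0) = 0
      ring
    · show 2 * (w 0 * u 1 - w 1 * u 0) = 0
      exact m01
    · show 2 * (w 0 * u 2 - w 2 * u 0) = 0
      exact m02
    · show 2 * (w 1 * u 0 - w 0 * u 1) = 0
      linear_combination -m01
    · show 2 * (w 1 * u 1 - w 1 * u 1) = 0
      ring
    · show 2 * (w 1 * u 2 - w 2 * u 1) = 0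
      linear_combination (2 : B) * m12
    · show 2 * (w 2 * u 0 - w 0 * u 2) = 0
      linear_combination -m02
    · show 2 * (w 2 * u 1 - w 1 * u 2) = 0
      linear_combination (-2 : B) * m12
    · show 2 * (w 2 * u 2 - w 2 * u 2) = 0
      ring
  exact key a b

end Comm

section Main

variable {V : Type*} [CommRing V] [IsDomain V] [CharZero V]

/-- **TYPE, algebra.**  In the situation of helper474's `exists_type_of_conj`
(`tr Σ ≠ 2`), with `u`, `w` the traceless coordinates of `Σ`, `Φ`: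
there is `0 < j < p^K` such that `4 Q(u) = (ζ^j - ζ^(p^K - j))²`, and all minors
`w_a u_b - w_b u_a` vanish. -/
theorem type_algebra_h419 {p q K n' : ℕ} (hp : p.Prime) (hp2 : p ≠ 2) (hK : 0 < K)
    (hq : q = p ^ K * n' + 1) (hn' : ¬ p ∣ n')
    (m : Ideal V) (hm : m ≠ ⊤) (hpm : (p : V) ∈ m)
    (Sg Φ : Matrix (Fin 2) (Fin 2) V) (hdet : Sg.det = 1) (hΦ : Φ.det ≠ 0)
    (hconj : Φ * Sg = Sg ^ q * Φ) (hSg : ∀ i j, (Sg - 1) i j ∈ m)
    (ζ : V) (hζ : IsPrimitiveRoot ζ (p ^ K)) (hNU : Sg.trace ≠ 2)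
    (u w : Fin 3 → V)
    (hu0 : 2 * u 0 = Sg 0 0 - Sg 1 1) (hu1 : u 1 = Sg 0 1) (hu2 : u 2 = Sg 1 0)
    (hw0 : 2 * w 0 = Φ 0 0 - Φ 1 1) (hw1 : w 1 = Φ 0 1) (hw2 : w 2 = Φ 1 0) :
    ∃ j : ℕ, 0 < j ∧ j < p ^ K ∧
      4 * (u 0 ^ 2 + u 1 * u 2) = (ζ ^ j - ζ ^ (p ^ K - j)) ^ 2 ∧
      ∀ a b : Fin 3, w a * u b - w b * u a = 0 := by
  obtain ⟨j, hj0, hj, _, hprod, hne, htr, hchar⟩ :=
    Fermat.Agent.S38.IA.H474.exists_type_of_conj hp hp2 hK hq hn' m hm hpm Sg Φ hdet hΦ hconj
      hSg ζ hζ hNU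
  have hz : (ζ ^ j) ^ (p ^ K) = 1 := by
    rw [← pow_mul, mul_comm, pow_mul, hζ.pow_eq_one, one_pow]
  have hz' : (ζ ^ (p ^ K - j)) ^ (p ^ K) = 1 := by
    rw [← pow_mul, mul_comm, pow_mul, hζ.pow_eq_one, one_pow]
  have hpow : Sg ^ (p ^ K) = 1 :=
    pow_eq_one_of_charpoly_h419 Sg _ _ hne (p ^ K) hz hz' hchar
  have hcomm : Φ * Sg = Sg * Φ := commute_of_conj_h419 hq Sg Φ hconj hpow
  refine ⟨j, hj0, hj, ?_, fun a b => ?_⟩
  · rw [four_mul_qform_h419 Sg u hu0 hu1 hu2, hdet, htr]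
    linear_combination (4 : V) * hprod
  · have h2 := two_mul_minor_h419 Sg Φ u w hu0 hu1 hu2 hw0 hw1 hw2 hcomm a b
    rcases mul_eq_zero.mp h2 with h | h
    · exact absurd h two_ne_zero
    · exact h

end Main

end Fermat.Agent.S38.H419

end
-- ===== PACK-END S38/H419/TypeAlg.lean

-- ===== PACK-BEGIN S59/LoSqC/H117/NewCore.lean
section


/-!
# S59 / cell (C) LO-SQ, leaf W-NEW (helper117), part 1: the abstract core

"STEP-A without the power `q² - 1`", on the norm tables `H586.NormTable` of `α`, `β`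
(three vertical valuations `V_FF`, `V_mid`, `V_VV` of `F` over `V₁`, `V₂` of `F'`).

For `f` with `N_α f, N_β f ∈ w'^ℤ · (F'ˣ)^m`, `gcd(q, m) = 1`:

* `h117_slope`            : the orders of `f` are `t·(1, q-1, 1) + (d, -d, 0)` modulo `m`, with
                            `(q + 1) d ≡ 0 mod m`  (the SLOPE `d`);
* `h117_slopeZero_of_coprime` : if `gcd(q + 1, m) = 1` the slope vanishes:
                            `f = w ^ t * g₀ ^ m * (unit at the three valuations)`;
* `h117_stepNew`          : slope zero ⟹ `f = w ^ t * G ^ m * u`, `u ≡ 1` at `V_FF`, `V_VV`,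
                            `u` a unit at `V_mid` with `u ^ (q - 1) ≡ G₂ ^ m` there, and
                            `N_α u`, `N_β u` are `m`-th powers;
* `h117_stepNew_mid`      : if moreover `gcd(q - 1, m) = 1` then also `u ≡ 1` at `V_mid`;
* `h117_stepNew_minus`    : `gcd(q + 1, m) = 1` ⟹ the conclusion of `h117_stepNew`
                            (no slope hypothesis).

Mathlib + `S36.H586.StepAB` (on main) only.
-/

set_option autoImplicit false
set_option linter.style.haveILetI false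
set_option linter.unusedSectionVars false
set_option linter.unusedVariables false
set_option maxHeartbeats 1600000

namespace Fermat.Agent.S59.LoSqC.H117

open Fermat.Agent.S36.H586

variable {F' F : Type*} [Field F'] [Field F]

/-- **SLOPE.**  The orders of `f` at the three vertical valuations, modulo `m`:
`(a_FF, a_mid, a_VV) = t·(1, q - 1, 1) + (d, -d, 0) + m·(0, e, 0)` with `(q + 1) d = m d₁`. -/
theorem h117_slope
    (α β : F' →+* F) (Nα Nβ : F → F') (q m : ℕ)
    (w' : F') (w π : F) (hαw : α w' = w) (hβw : β w' = w)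
    (V1 V2 : ValuationSubring F') (VFF Vmid VVV : ValuationSubring F)
    (Tα : NormTable α Nα q w' π V1 V2 VFF Vmid VVV)
    (Tβ : NormTable β Nβ q w' π V2 V1 VVV Vmid VFF)
    (hw'0 : w' ≠ 0) (hw1 : V1.valuation w' < 1) (hw2 : V2.valuation w' < 1)
    (hord1 : ∀ y : F', y ≠ 0 → ∃ a : ℤ, IsOrd V1 w' y a)
    (hord2 : ∀ y : F', y ≠ 0 → ∃ a : ℤ, IsOrd V2 w' y a)
    (f : F)
    (hNα : ∃ (s : ℤ) (g : F'), g ≠ 0 ∧ Nα f = w' ^ s * g ^ m)
    (hNβ : ∃ (s : ℤ) (g : F'), g ≠ 0 ∧ Nβ f = w' ^ s * g ^ m)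
    {aFF amid aVV : ℤ} (hFF : IsOrd VFF w f aFF) (hmid : IsOrd Vmid π f amid)
    (hVV : IsOrd VVV w f aVV) :
    ∃ d₁ e : ℤ, ((q : ℤ) + 1) * (aFF - aVV) = m * d₁ ∧
      amid = ((q : ℤ) - 1) * aVV - (aFF - aVV) + m * e := by
  obtain ⟨sα, gα, hgα0, hNα⟩ := hNα
  obtain ⟨sβ, gβ, hgβ0, hNβ⟩ := hNβ
  obtain ⟨cα1, hcα1⟩ := hord1 gα hgα0
  obtain ⟨cα2, hcα2⟩ := hord2 gα hgα0
  obtain ⟨cβ1, hcβ1⟩ := hord1 gβ hgβ0
  obtain ⟨cβ2, hcβ2⟩ := hord2 gβ hgβ0
  have E1 : aFF + amid = sα * 1 + m * cα1 := by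
    have e1a : IsOrd V1 w' (Nα f) (aFF + amid) := Tα.val_s f aFF amid (hαw ▸ hFF) hmid
    have e1b : IsOrd V1 w' (Nα f) (sα * 1 + m * cα1) := by
      rw [hNα]
      exact ((IsOrd.self).zpow sα).mul hw'0 (hcα1.pow m)
    exact IsOrd.unique hw'0 hw1 e1a e1b
  have E2 : (q : ℤ) * aVV = sα * 1 + m * cα2 := by
    have e2a : IsOrd V2 w' (Nα f) (q * aVV) := Tα.val_i f aVV (hαw ▸ hVV)
    have e2b : IsOrd V2 w' (Nα f) (sα * 1 + m * cα2) := by
      rw [hNα]
      exact ((IsOrd.self).zpow sα).mul hw'0 (hcα2.pow m)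
    exact IsOrd.unique hw'0 hw2 e2a e2b
  have E3 : aVV + amid = sβ * 1 + m * cβ2 := by
    have e3a : IsOrd V2 w' (Nβ f) (aVV + amid) := Tβ.val_s f aVV amid (hβw ▸ hVV) hmid
    have e3b : IsOrd V2 w' (Nβ f) (sβ * 1 + m * cβ2) := by
      rw [hNβ]
      exact ((IsOrd.self).zpow sβ).mul hw'0 (hcβ2.pow m)
    exact IsOrd.unique hw'0 hw2 e3a e3b
  have E4 : (q : ℤ) * aFF = sβ * 1 + m * cβ1 := by
    have e4a : IsOrd V1 w' (Nβ f) (q * aFF) := Tβ.val_i f aFF (hβw ▸ hFF)
    have e4b : IsOrd V1 w' (Nβ f) (sβ * 1 + m * cβ1) := by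
      rw [hNβ]
      exact ((IsOrd.self).zpow sβ).mul hw'0 (hcβ1.pow m)
    exact IsOrd.unique hw'0 hw1 e4a e4b
  refine ⟨cα1 - cα2 - cβ2 + cβ1, cα1 - cα2, ?_, ?_⟩
  · linear_combination E1 - E2 - E3 + E4
  · linear_combination E1 - E2

/-- **SLOPE ZERO** when `gcd(q + 1, m) = 1`:  `f = w ^ t * g₀ ^ m * (unit at the three)`. -/
theorem h117_slopeZero_of_coprime
    (α β : F' →+* F) (Nα Nβ : F → F') (q m : ℕ)
    (hq1m : Nat.Coprime (q + 1) m)
    (w' : F') (w π : F) (hαw : α w' = w) (hβw : β w' = w)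
    (V1 V2 : ValuationSubring F') (VFF Vmid VVV : ValuationSubring F)
    (Tα : NormTable α Nα q w' π V1 V2 VFF Vmid VVV)
    (Tβ : NormTable β Nβ q w' π V2 V1 VVV Vmid VFF)
    (hw'0 : w' ≠ 0) (hw1 : V1.valuation w' < 1) (hw2 : V2.valuation w' < 1)
    (hπ0 : π ≠ 0)
    (hram : IsOrd Vmid π w ((q : ℤ) - 1))
    (hordFF : ∀ y : F, y ≠ 0 → ∃ a : ℤ, IsOrd VFF w y a)
    (hordmid : ∀ y : F, y ≠ 0 → ∃ a : ℤ, IsOrd Vmid π y a)
    (hordVV : ∀ y : F, y ≠ 0 → ∃ a : ℤ, IsOrd VVV w y a)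
    (hord1 : ∀ y : F', y ≠ 0 → ∃ a : ℤ, IsOrd V1 w' y a)
    (hord2 : ∀ y : F', y ≠ 0 → ∃ a : ℤ, IsOrd V2 w' y a)
    (hap_ord : ∀ a b c : ℤ, ∃ g : F, IsOrd VFF w g a ∧ IsOrd Vmid π g b ∧ IsOrd VVV w g c)
    (f : F) (hf : f ≠ 0)
    (hNα : ∃ (s : ℤ) (g : F'), g ≠ 0 ∧ Nα f = w' ^ s * g ^ m)
    (hNβ : ∃ (s : ℤ) (g : F'), g ≠ 0 ∧ Nβ f = w' ^ s * g ^ m) :
    ∃ (t : ℤ) (g₀ : F), g₀ ≠ 0 ∧
      VFF.valuation (f * (w ^ t)⁻¹ * (g₀ ^ m)⁻¹) = 1 ∧
      Vmid.valuation (f * (w ^ t)⁻¹ * (g₀ ^ m)⁻¹) = 1 ∧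
      VVV.valuation (f * (w ^ t)⁻¹ * (g₀ ^ m)⁻¹) = 1 := by
  have hw0 : w ≠ 0 := by
    rw [← hαw]
    exact (map_ne_zero α).2 hw'0
  obtain ⟨aFF, hFF⟩ := hordFF f hf
  obtain ⟨amid, hmid⟩ := hordmid f hf
  obtain ⟨aVV, hVV⟩ := hordVV f hf
  obtain ⟨d₁, e, hd, he⟩ := h117_slope α β Nα Nβ q m w' w π hαw hβw V1 V2 VFF Vmid VVV Tα Tβ
    hw'0 hw1 hw2 hord1 hord2 f hNα hNβ hFF hmid hVV
  -- `m ∣ a_FF - a_VV`
  have hdvd : (m : ℤ) ∣ aFF - aVV := by
    have h1 : (m : ℤ) ∣ ((q : ℤ) + 1) * (aFF - aVV) := ⟨d₁, hd⟩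
    have hcop : IsCoprime (m : ℤ) ((q : ℤ) + 1) := by
      have := Nat.isCoprime_iff_coprime.2 hq1m.symm
      simpa using this
    exact hcop.dvd_of_dvd_mul_left h1
  obtain ⟨c, hc⟩ := hdvd
  obtain ⟨g₀, hg₀FF, hg₀mid, hg₀VV⟩ := hap_ord c (e - c) 0
  have hg₀0 : g₀ ≠ 0 := hg₀FF.ne_zero hw0
  refine ⟨aVV, g₀, hg₀0, ?_, ?_, ?_⟩
  · have h1 : IsOrd VFF w (f * (w ^ aVV)⁻¹ * (g₀ ^ m)⁻¹) (aFF + -(aVV * 1) + -(m * c)) :=
      (hFF.mul hw0 ((IsOrd.self).zpow aVV).inv).mul hw0 (hg₀FF.pow m).inv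
    refine (h1.congr ?_).val_eq_one
    linear_combination hc
  · have h1 : IsOrd Vmid π (f * (w ^ aVV)⁻¹ * (g₀ ^ m)⁻¹)
        (amid + -(aVV * ((q : ℤ) - 1)) + -(m * (e - c))) :=
      (hmid.mul hπ0 (hram.zpow aVV).inv).mul hπ0 (hg₀mid.pow m).inv
    refine (h1.congr ?_).val_eq_one
    linear_combination he - hc
  · have h1 : IsOrd VVV w (f * (w ^ aVV)⁻¹ * (g₀ ^ m)⁻¹) (aVV + -(aVV * 1) + -(m * 0)) :=
      (hVV.mul hw0 ((IsOrd.self).zpow aVV).inv).mul hw0 (hg₀VV.pow m).inv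
    refine (h1.congr ?_).val_eq_one
    ring

/-- **STEP-NEW** (STEP-A without the power `q² - 1`).  If the slope of `f` vanishes
(`f = w ^ t * g₀ ^ m * unit`), then `f = w ^ t * G ^ m * u` with `u ≡ 1` at `V_FF` and `V_VV`,
`u` a unit at `V_mid` whose `(q - 1)`-st power is an `m`-th power residually, and the norms of
`u` are `m`-th powers. -/
theorem h117_stepNew
    (α β : F' →+* F) (Nα Nβ : F → F') (q m : ℕ) (hm : 0 < m)
    (hqm : Nat.Coprime q m)
    (w' : F') (w π : F) (hαw : α w' = w) (hβw : β w' = w)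
    (V1 V2 : ValuationSubring F') (VFF Vmid VVV : ValuationSubring F)
    (Tα : NormTable α Nα q w' π V1 V2 VFF Vmid VVV)
    (Tβ : NormTable β Nβ q w' π V2 V1 VVV Vmid VFF)
    (hw'0 : w' ≠ 0) (hw1 : V1.valuation w' < 1) (hw2 : V2.valuation w' < 1)
    (hord1 : ∀ y : F', y ≠ 0 → ∃ a : ℤ, IsOrd V1 w' y a)
    (hord2 : ∀ y : F', y ≠ 0 → ∃ a : ℤ, IsOrd V2 w' y a)
    (hap_res : ∀ g₁ g₂ g₃ : F, VFF.valuation g₁ = 1 → Vmid.valuation g₂ = 1 →
      VVV.valuation g₃ = 1 → ∃ g : F, PU VFF (g / g₁) ∧ PU Vmid (g / g₂) ∧ PU VVV (g / g₃))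
    (f : F)
    (hNα : ∃ (s : ℤ) (g : F'), g ≠ 0 ∧ Nα f = w' ^ s * g ^ m)
    (hNβ : ∃ (s : ℤ) (g : F'), g ≠ 0 ∧ Nβ f = w' ^ s * g ^ m)
    (t : ℤ) (g₀ : F) (hg₀0 : g₀ ≠ 0)
    (hf₁FF : VFF.valuation (f * (w ^ t)⁻¹ * (g₀ ^ m)⁻¹) = 1)
    (hf₁mid : Vmid.valuation (f * (w ^ t)⁻¹ * (g₀ ^ m)⁻¹) = 1)
    (hf₁VV : VVV.valuation (f * (w ^ t)⁻¹ * (g₀ ^ m)⁻¹) = 1) :
    ∃ (G u G₂ : F), G ≠ 0 ∧ f = w ^ t * G ^ m * u ∧
      PU VFF u ∧ Vmid.valuation u = 1 ∧ PU VVV u ∧
      G₂ ≠ 0 ∧ Vmid.valuation G₂ = 1 ∧ PU Vmid (u ^ (q - 1) / G₂ ^ m) ∧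
      (∃ k₁ : F', Nα u = k₁ ^ m) ∧ (∃ k₂ : F', Nβ u = k₂ ^ m) := by
  have hw0 : w ≠ 0 := by
    rw [← hαw]
    exact (map_ne_zero α).2 hw'0
  obtain ⟨sα, gα, hgα0, hNα⟩ := hNα
  obtain ⟨sβ, gβ, hgβ0, hNβ⟩ := hNβ
  set f₁ : F := f * (w ^ t)⁻¹ * (g₀ ^ m)⁻¹ with hf₁
  have hf₁' : f ^ 1 * (w ^ t)⁻¹ * (g₀ ^ m)⁻¹ = f₁ := by rw [pow_one]
  -- norms of `f₁`
  obtain ⟨hα, hα1, hα2, hNα₁⟩ : ∃ h : F', V1.valuation h = 1 ∧ V2.valuation h = 1 ∧
      Nα f₁ = h ^ m := by
    have := Tα.norm_unit_pow hm hw'0 hw1 hord1 hg₀0 hgα0 hNα 1 t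
      (by rw [hαw, hf₁']; exact hf₁FF) (by rw [hαw, hf₁']; exact hf₁mid)
      (by rw [hαw, hf₁']; exact hf₁VV)
    rw [hαw, hf₁'] at this
    simpa using this
  obtain ⟨hβ, hβ2, hβ1, hNβ₁⟩ : ∃ h : F', V2.valuation h = 1 ∧ V1.valuation h = 1 ∧
      Nβ f₁ = h ^ m := by
    have := Tβ.norm_unit_pow hm hw'0 hw2 hord2 hg₀0 hgβ0 hNβ 1 t
      (by rw [hβw, hf₁']; exact hf₁VV) (by rw [hβw, hf₁']; exact hf₁mid)
      (by rw [hβw, hf₁']; exact hf₁FF)
    rw [hβw, hf₁'] at this
    simpa using this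
  -- residues
  obtain ⟨GVV, hGVV0, hGVV⟩ := Tα.pu_insep hqm hf₁VV hα2 hNα₁
  obtain ⟨GFF, hGFF0, hGFF⟩ := Tβ.pu_insep hqm hf₁FF hβ1 hNβ₁
  have hGFF1 : VFF.valuation GFF = 1 := by
    apply val_eq_one_of_pow hm
    have h1 := hGFF.val_eq_one
    rw [map_div₀, hf₁FF] at h1
    have h2 : VFF.valuation (GFF ^ m) ≠ 0 := val_ne_zero_of_ne_zero (pow_ne_zero _ hGFF0)
    field_simp at h1
    exact h1.symm
  have hGVV1 : VVV.valuation GVV = 1 := by
    apply val_eq_one_of_pow hm
    have h1 := hGVV.val_eq_one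
    rw [map_div₀, hf₁VV] at h1
    have h2 : VVV.valuation (GVV ^ m) ≠ 0 := val_ne_zero_of_ne_zero (pow_ne_zero _ hGVV0)
    field_simp at h1
    exact h1.symm
  obtain ⟨Gmid, hGmid0, hGmid1, hGmid⟩ := Tα.pu_split hf₁FF hf₁mid hα1 hNα₁ hGFF1 hGFF
  -- approximation: `G ≡ G_FF`, `G ≡ 1`, `G ≡ G_VV`
  obtain ⟨G, hGa, hGb, hGc⟩ := hap_res GFF 1 GVV hGFF1 (by rw [map_one]) hGVV1
  have hG0 : G ≠ 0 := by
    intro h0
    rw [h0, zero_div] at hGa
    exact hGa.ne_zero rfl
  have hGmidval : Vmid.valuation G = 1 := by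
    have := hGb.val_eq_one
    rwa [div_one] at this
  have hw_t : w ^ t ≠ 0 := zpow_ne_zero _ hw0
  have hg₀m : g₀ ^ m ≠ 0 := pow_ne_zero _ hg₀0
  have hGm : G ^ m ≠ 0 := pow_ne_zero _ hG0
  have hGq : G ^ (q - 1) ≠ 0 := pow_ne_zero _ hG0
  refine ⟨g₀ * G, f₁ / G ^ m, Gmid / G ^ (q - 1), mul_ne_zero hg₀0 hG0, ?_, ?_, ?_, ?_,
    div_ne_zero hGmid0 hGq, ?_, ?_, ?_, ?_⟩
  · rw [hf₁, mul_pow]
    field_simp
  · have e : f₁ / G ^ m = (f₁ / GFF ^ m) * ((G / GFF) ^ m)⁻¹ := by
      rw [div_pow]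
      have h4 : GFF ^ m ≠ 0 := pow_ne_zero _ hGFF0
      field_simp
    rw [e]
    exact hGFF.mul (hGa.pow m).inv
  · rw [map_div₀, map_pow, hGmidval, one_pow, div_one]
    exact hf₁mid
  · have e : f₁ / G ^ m = (f₁ / GVV ^ m) * ((G / GVV) ^ m)⁻¹ := by
      rw [div_pow]
      have h4 : GVV ^ m ≠ 0 := pow_ne_zero _ hGVV0
      field_simp
    rw [e]
    exact hGVV.mul (hGc.pow m).inv
  · rw [map_div₀, map_pow, hGmidval, one_pow, div_one]
    exact hGmid1
  · have e : (f₁ / G ^ m) ^ (q - 1) / (Gmid / G ^ (q - 1)) ^ m = f₁ ^ (q - 1) / Gmid ^ m := by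
      rw [div_pow, div_pow, ← pow_mul, ← pow_mul, mul_comm m (q - 1)]
      have h4 : Gmid ^ m ≠ 0 := pow_ne_zero _ hGmid0
      have h5 : G ^ ((q - 1) * m) ≠ 0 := pow_ne_zero _ hG0
      field_simp
    rw [e]
    exact hGmid
  · refine ⟨hα * (Nα G)⁻¹, ?_⟩
    rw [div_eq_mul_inv, Tα.norm_mul, hNα₁,
      nfn_inv Tα.norm_one Tα.norm_mul (pow_ne_zero _ hG0), nfn_pow Tα.norm_one Tα.norm_mul,
      mul_pow, inv_pow]
  · refine ⟨hβ * (Nβ G)⁻¹, ?_⟩
    rw [div_eq_mul_inv, Tβ.norm_mul, hNβ₁,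
      nfn_inv Tβ.norm_one Tβ.norm_mul (pow_ne_zero _ hG0), nfn_pow Tβ.norm_one Tβ.norm_mul,
      mul_pow, inv_pow]

/-- **STEP-NEW, middle component normalised**: if moreover `gcd(q - 1, m) = 1`, then `u ≡ 1` at the
three valuations. -/
theorem h117_stepNew_mid
    (α β : F' →+* F) (Nα Nβ : F → F') (q m : ℕ) (hm : 0 < m)
    (hqm : Nat.Coprime q m) (hq1m : Nat.Coprime (q - 1) m)
    (w' : F') (w π : F) (hαw : α w' = w) (hβw : β w' = w)
    (V1 V2 : ValuationSubring F') (VFF Vmid VVV : ValuationSubring F)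
    (Tα : NormTable α Nα q w' π V1 V2 VFF Vmid VVV)
    (Tβ : NormTable β Nβ q w' π V2 V1 VVV Vmid VFF)
    (hw'0 : w' ≠ 0) (hw1 : V1.valuation w' < 1) (hw2 : V2.valuation w' < 1)
    (hord1 : ∀ y : F', y ≠ 0 → ∃ a : ℤ, IsOrd V1 w' y a)
    (hord2 : ∀ y : F', y ≠ 0 → ∃ a : ℤ, IsOrd V2 w' y a)
    (hap_res : ∀ g₁ g₂ g₃ : F, VFF.valuation g₁ = 1 → Vmid.valuation g₂ = 1 →
      VVV.valuation g₃ = 1 → ∃ g : F, PU VFF (g / g₁) ∧ PU Vmid (g / g₂) ∧ PU VVV (g / g₃))
    (f : F)
    (hNα : ∃ (s : ℤ) (g : F'), g ≠ 0 ∧ Nα f = w' ^ s * g ^ m)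
    (hNβ : ∃ (s : ℤ) (g : F'), g ≠ 0 ∧ Nβ f = w' ^ s * g ^ m)
    (t : ℤ) (g₀ : F) (hg₀0 : g₀ ≠ 0)
    (hf₁FF : VFF.valuation (f * (w ^ t)⁻¹ * (g₀ ^ m)⁻¹) = 1)
    (hf₁mid : Vmid.valuation (f * (w ^ t)⁻¹ * (g₀ ^ m)⁻¹) = 1)
    (hf₁VV : VVV.valuation (f * (w ^ t)⁻¹ * (g₀ ^ m)⁻¹) = 1) :
    ∃ (G u : F), G ≠ 0 ∧ f = w ^ t * G ^ m * u ∧
      PU VFF u ∧ PU Vmid u ∧ PU VVV u ∧
      (∃ k₁ : F', Nα u = k₁ ^ m) ∧ (∃ k₂ : F', Nβ u = k₂ ^ m) := by
  obtain ⟨G, u, G₂, hG0, hfeq, hu1, hu2, hu3, hG₂0, hG₂1, hG₂, ⟨k₁, hk₁⟩, ⟨k₂, hk₂⟩⟩ :=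
    h117_stepNew α β Nα Nβ q m hm hqm w' w π hαw hβw V1 V2 VFF Vmid VVV Tα Tβ hw'0 hw1 hw2
      hord1 hord2 hap_res f hNα hNβ t g₀ hg₀0 hf₁FF hf₁mid hf₁VV
  have hu0 : u ≠ 0 := ne_of_val hu2
  -- the residue of `u` at `V_mid` is an `m`-th power
  obtain ⟨H, hH0, hH⟩ := exists_pu_div_pow_of_coprime (V := Vmid) hq1m hu0 hG₂0 hG₂
  have hH1 : Vmid.valuation H = 1 := by
    apply val_eq_one_of_pow hm
    have h1 := hH.val_eq_one
    rw [map_div₀, hu2] at h1
    have h2 : Vmid.valuation (H ^ m) ≠ 0 := val_ne_zero_of_ne_zero (pow_ne_zero _ hH0)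
    field_simp at h1
    exact h1.symm
  obtain ⟨K, hKa, hKb, hKc⟩ := hap_res 1 H 1 (by rw [map_one]) hH1 (by rw [map_one])
  have hK0 : K ≠ 0 := by
    intro h0
    rw [h0, zero_div] at hKa
    exact hKa.ne_zero rfl
  rw [div_one] at hKa hKc
  have hKm : K ^ m ≠ 0 := pow_ne_zero _ hK0
  have hGm : G ^ m ≠ 0 := pow_ne_zero _ hG0
  refine ⟨G * K, u / K ^ m, mul_ne_zero hG0 hK0, ?_, ?_, ?_, ?_, ?_, ?_⟩
  · rw [hfeq, mul_pow]
    field_simp
  · rw [div_eq_mul_inv]
    exact hu1.mul (hKa.pow m).inv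
  · have e : u / K ^ m = (u / H ^ m) * ((K / H) ^ m)⁻¹ := by
      rw [div_pow]
      have h4 : H ^ m ≠ 0 := pow_ne_zero _ hH0
      field_simp
    rw [e]
    exact hH.mul (hKb.pow m).inv
  · rw [div_eq_mul_inv]
    exact hu3.mul (hKc.pow m).inv
  · refine ⟨k₁ * (Nα K)⁻¹, ?_⟩
    rw [div_eq_mul_inv, Tα.norm_mul, hk₁,
      nfn_inv Tα.norm_one Tα.norm_mul (pow_ne_zero _ hK0), nfn_pow Tα.norm_one Tα.norm_mul,
      mul_pow, inv_pow]
  · refine ⟨k₂ * (Nβ K)⁻¹, ?_⟩
    rw [div_eq_mul_inv, Tβ.norm_mul, hk₂,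
      nfn_inv Tβ.norm_one Tβ.norm_mul (pow_ne_zero _ hK0), nfn_pow Tβ.norm_one Tβ.norm_mul,
      mul_pow, inv_pow]

/-- **STEP-NEW, case `gcd(q + 1, m) = 1`** (`p ∣ q - 1` allowed): no slope hypothesis. -/
theorem h117_stepNew_minus
    (α β : F' →+* F) (Nα Nβ : F → F') (q m : ℕ) (hm : 0 < m)
    (hqm : Nat.Coprime q m) (hq1m : Nat.Coprime (q + 1) m)
    (w' : F') (w π : F) (hαw : α w' = w) (hβw : β w' = w)
    (V1 V2 : ValuationSubring F') (VFF Vmid VVV : ValuationSubring F)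
    (Tα : NormTable α Nα q w' π V1 V2 VFF Vmid VVV)
    (Tβ : NormTable β Nβ q w' π V2 V1 VVV Vmid VFF)
    (hw'0 : w' ≠ 0) (hw1 : V1.valuation w' < 1) (hw2 : V2.valuation w' < 1)
    (hπ0 : π ≠ 0)
    (hram : IsOrd Vmid π w ((q : ℤ) - 1))
    (hordFF : ∀ y : F, y ≠ 0 → ∃ a : ℤ, IsOrd VFF w y a)
    (hordmid : ∀ y : F, y ≠ 0 → ∃ a : ℤ, IsOrd Vmid π y a)
    (hordVV : ∀ y : F, y ≠ 0 → ∃ a : ℤ, IsOrd VVV w y a)
    (hord1 : ∀ y : F', y ≠ 0 → ∃ a : ℤ, IsOrd V1 w' y a)
    (hord2 : ∀ y : F', y ≠ 0 → ∃ a : ℤ, IsOrd V2 w' y a)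
    (hap_ord : ∀ a b c : ℤ, ∃ g : F, IsOrd VFF w g a ∧ IsOrd Vmid π g b ∧ IsOrd VVV w g c)
    (hap_res : ∀ g₁ g₂ g₃ : F, VFF.valuation g₁ = 1 → Vmid.valuation g₂ = 1 →
      VVV.valuation g₃ = 1 → ∃ g : F, PU VFF (g / g₁) ∧ PU Vmid (g / g₂) ∧ PU VVV (g / g₃))
    (f : F) (hf : f ≠ 0)
    (hNα : ∃ (s : ℤ) (g : F'), g ≠ 0 ∧ Nα f = w' ^ s * g ^ m)
    (hNβ : ∃ (s : ℤ) (g : F'), g ≠ 0 ∧ Nβ f = w' ^ s * g ^ m) :
    ∃ (t : ℤ) (G u G₂ : F), G ≠ 0 ∧ f = w ^ t * G ^ m * u ∧
      PU VFF u ∧ Vmid.valuation u = 1 ∧ PU VVV u ∧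
      G₂ ≠ 0 ∧ Vmid.valuation G₂ = 1 ∧ PU Vmid (u ^ (q - 1) / G₂ ^ m) ∧
      (∃ k₁ : F', Nα u = k₁ ^ m) ∧ (∃ k₂ : F', Nβ u = k₂ ^ m) := by
  obtain ⟨t, g₀, hg₀0, h1, h2, h3⟩ := h117_slopeZero_of_coprime α β Nα Nβ q m hq1m w' w π hαw hβw
    V1 V2 VFF Vmid VVV Tα Tβ hw'0 hw1 hw2 hπ0 hram hordFF hordmid hordVV hord1 hord2 hap_ord
    f hf hNα hNβ
  exact ⟨t, h117_stepNew α β Nα Nβ q m hm hqm w' w π hαw hβw V1 V2 VFF Vmid VVV Tα Tβ hw'0 hw1
    hw2 hord1 hord2 hap_res f hNα hNβ t g₀ hg₀0 h1 h2 h3⟩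

end Fermat.Agent.S59.LoSqC.H117

end
-- ===== PACK-END S59/LoSqC/H117/NewCore.lean

-- ===== PACK-BEGIN Ribet/H43/TameConj.lean
section





/-!
# RIBET / TORIC piece TC (helper43): the tame conjugation relation `σ τ σ⁻¹ ≡ τ ^ q`

`L / K` algebraic, `A` a valuation subring of `L` over the prime `q`, `σ` a Frobenius element at
`A`, `τ` in the inertia group of `A` (Prelude form `inertiaSubgroupIn`).

* `tameHom_conj` : the tame character (helper708) of `σ τ σ⁻¹` is the `q`-th power of that of `τ`.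
* `IsWild` : inertia elements with trivial tame character, i.e. `v (w c - c) < v c` for `c ≠ 0`.
* `isWild_conj_mul_inv_pow` : `σ τ σ⁻¹ (τ ^ q)⁻¹` is wild.
* `IsWild.apply_eq_of_pow_apply_eq` : a wild element whose `n`-th power fixes `x`, `n` prime to
  the residue characteristic, fixes `x` (no discreteness of the valuation is needed).
* `tame_conj_smul` : on every `G`-set whose action factors through a finite level and on which
  inertia acts through exponent `m` prime to `q`:  `(σ τ σ⁻¹) • x = τ ^ q • x`.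
-/

set_option autoImplicit false

namespace Fermat.Agent.Ribet.H43

open Fermat.Agent.A2.H708

variable {K L : Type*} [Field K] [Field L] [Algebra K L] (A : ValuationSubring L)

/-- The inertia subgroup is normal in the decomposition subgroup. -/
theorem inertiaSubgroup_normal : (A.inertiaSubgroup K).Normal := by
  unfold ValuationSubring.inertiaSubgroup
  exact MonoidHom.normal_ker _

/-- Inertia is normal in the decomposition group (Prelude form). -/
theorem conj_mem_inertiaIn {σ τ : L ≃ₐ[K] L} (hσ : σ ∈ A.decompositionSubgroup K)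
    (hτ : τ ∈ A.inertiaSubgroupIn K) : σ * τ * σ⁻¹ ∈ A.inertiaSubgroupIn K := by
  have hn : (A.inertiaSubgroup K).Normal := inertiaSubgroup_normal A
  rw [ValuationSubring.inertiaSubgroupIn, Subgroup.mem_map] at hτ ⊢
  obtain ⟨g, hg, hgτ⟩ := hτ
  have h2 := hn.conj_mem g hg ⟨σ, hσ⟩
  refine ⟨_, h2, ?_⟩
  rw [← hgτ]
  simp only [Subgroup.coe_subtype, Subgroup.coe_mul, Subgroup.coe_inv]

/-- The residue class of `σ u` is `σ` applied to the residue class of `u`. -/
theorem residue_apply {σ : L ≃ₐ[K] L} (hσ : σ ∈ A.decompositionSubgroup K) (u : L) (hu : u ∈ A)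
    (hσu : σ u ∈ A) :
    IsLocalRing.residue A ⟨σ u, hσu⟩ =
      (⟨σ, hσ⟩ : A.decompositionSubgroup K) • IsLocalRing.residue A ⟨u, hu⟩ := by
  rw [← IsLocalRing.ResidueField.residue_smul]
  rfl

section tame

variable [Algebra.IsAlgebraic K L]

/-- `τ c / c ∈ A` for `τ` in the decomposition group. -/
theorem apply_div_self_mem {τ : L ≃ₐ[K] L} (hτ : τ ∈ A.decompositionSubgroup K) (c : Lˣ) :
    τ (c : L) / c ∈ A :=
  (A.valuation_le_one_iff _).mp (valuation_apply_div_self A hτ c.ne_zero).le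

/-- The value of the tame character as a residue class. -/
theorem coe_tameHom {τ : L ≃ₐ[K] L} (hτ : τ ∈ A.inertiaSubgroupIn K) (c : Lˣ) :
    ((tameHom A hτ c : (IsLocalRing.ResidueField A)ˣ) : IsLocalRing.ResidueField A) =
      IsLocalRing.residue A
        ⟨τ (c : L) / c, apply_div_self_mem A (mem_decomposition_of_mem_inertiaIn A hτ) c⟩ := by
  show (A.unitGroupToResidueFieldUnits (ratioHom A _ c) : IsLocalRing.ResidueField A) = _
  rw [ValuationSubring.coe_unitGroupToResidueFieldUnits_apply]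
  show IsLocalRing.residue A _ = _
  congr 1
  apply Subtype.ext
  rw [ValuationSubring.coe_unitGroupMulEquiv_apply, coe_ratioHom]

/-- The tame character only depends on the automorphism, not on the membership proof. -/
theorem tameHom_congr {τ τ' : L ≃ₐ[K] L} (e : τ = τ') (hτ : τ ∈ A.inertiaSubgroupIn K)
    (hτ' : τ' ∈ A.inertiaSubgroupIn K) (c : Lˣ) : tameHom A hτ c = tameHom A hτ' c := by
  subst e
  rfl

/-- The tame character of a power. -/
theorem tameHom_pow {τ : L ≃ₐ[K] L} (hτ : τ ∈ A.inertiaSubgroupIn K) (n : ℕ)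
    (h : τ ^ n ∈ A.inertiaSubgroupIn K) (c : Lˣ) :
    tameHom A h c = tameHom A hτ c ^ n := by
  induction n with
  | zero =>
    refine (tameHom_eq_one_of_fixed A h c ?_).trans (pow_zero _).symm
    rfl
  | succ n ih =>
    have h1 := tameHom_mul A (pow_mem hτ n) hτ c
    rw [ih (pow_mem hτ n)] at h1
    rw [pow_succ (tameHom A hτ c) n, ← h1]
    exact tameHom_congr A (pow_succ τ n) _ _ c

/-- The tame character of a conjugate by a Frobenius element is the `q`-th power. -/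
theorem tameHom_conj {q : ℕ} {σ τ : L ≃ₐ[K] L} (hσ : A.IsFrobeniusAt σ q)
    (hτ : τ ∈ A.inertiaSubgroupIn K) (h : σ * τ * σ⁻¹ ∈ A.inertiaSubgroupIn K) (c : Lˣ) :
    tameHom A h c = tameHom A hτ c ^ q := by
  have hσD : σ ∈ A.decompositionSubgroup K := hσ.mem_decompositionSubgroup
  have hτD : τ ∈ A.decompositionSubgroup K := mem_decomposition_of_mem_inertiaIn A hτ
  -- `c' = σ⁻¹ c`
  set c' : Lˣ := Units.map ((σ⁻¹ : L ≃ₐ[K] L) : L →* L) c with hc'
  have hc'val : ((c' : Lˣ) : L) = σ⁻¹ (c : L) := rfl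
  have hv : A.valuation (c' : L) = A.valuation (c : L) := by
    rw [hc'val]
    exact valuation_apply_of_mem_decomposition A (inv_mem hσD) (c : L)
  have h1 : tameHom A hτ c' = tameHom A hτ c := tameHom_eq_of_valuation_eq A hτ c' c hv
  apply Units.ext
  rw [Units.val_pow_eq_pow_val, ← h1, coe_tameHom, coe_tameHom, ← hσ.smul_residue_eq]
  have hmem : τ (c' : L) / c' ∈ A := apply_div_self_mem A hτD c'
  have hσc' : σ (c' : L) = c := by
    rw [hc'val]
    show (σ * σ⁻¹) (c : L) = c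
    rw [mul_inv_cancel]; rfl
  have hel : (σ * τ * σ⁻¹) (c : L) / c = σ (τ (c' : L) / c') := by
    rw [map_div₀, hσc', hc'val]
    rfl
  have hmem' : σ (τ (c' : L) / c') ∈ A := apply_mem_of_mem_decomposition A hσD hmem
  rw [← residue_apply A hσD _ hmem hmem']
  congr 1
  exact Subtype.ext hel

/-! ### Wild elements -/

/-- `w` is *wild at `A`*: it lies in the inertia group and has trivial tame character. -/
def IsWild (w : L ≃ₐ[K] L) : Prop :=
  ∃ h : w ∈ A.inertiaSubgroupIn K, ∀ c : Lˣ, tameHom A h c = 1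

variable {A}

theorem IsWild.mem {w : L ≃ₐ[K] L} (hw : IsWild A w) : w ∈ A.inertiaSubgroupIn K := hw.1

theorem IsWild.valuation_sub_lt {w : L ≃ₐ[K] L} (hw : IsWild A w) {c : L} (hc : c ≠ 0) :
    A.valuation (w c - c) < A.valuation c :=
  (tameHom_eq_one_iff A hw.1 (Units.mk0 c hc)).mp (hw.2 _)

theorem IsWild.pow {w : L ≃ₐ[K] L} (hw : IsWild A w) (n : ℕ) : IsWild A (w ^ n) :=
  ⟨pow_mem hw.1 n, fun c => by rw [tameHom_pow A hw.1 n _ c, hw.2 c, one_pow]⟩

/-- `σ τ σ⁻¹ (τ ^ q)⁻¹` is wild. -/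
theorem isWild_conj_mul_inv_pow {q : ℕ} {σ τ : L ≃ₐ[K] L} (hσ : A.IsFrobeniusAt σ q)
    (hτ : τ ∈ A.inertiaSubgroupIn K) : IsWild A (σ * τ * σ⁻¹ * (τ ^ q)⁻¹) := by
  have h1 : σ * τ * σ⁻¹ ∈ A.inertiaSubgroupIn K :=
    conj_mem_inertiaIn A hσ.mem_decompositionSubgroup hτ
  have h2 : τ ^ q ∈ A.inertiaSubgroupIn K := pow_mem hτ q
  refine ⟨mul_mem h1 (inv_mem h2), fun c => ?_⟩
  rw [tameHom_mul A h1 (inv_mem h2) c, tameHom_inv A h2 c, tameHom_conj A hσ hτ h1 c,
    tameHom_pow A hτ q h2 c, mul_inv_cancel]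

omit [Algebra.IsAlgebraic K L] in
/-- Telescoping: `wⁿ x - x = ∑_{i < n} wⁱ (w x - x)`. -/
theorem pow_apply_sub_eq_sum (w : L ≃ₐ[K] L) (x : L) (n : ℕ) :
    (w ^ n) x - x = ∑ i ∈ Finset.range n, (w ^ i) (w x - x) := by
  induction n with
  | zero => simp
  | succ n ih =>
    rw [Finset.sum_range_succ, ← ih]
    have h1 : (w ^ (n + 1)) x = (w ^ n) (w x) := by
      rw [pow_succ]; rfl
    rw [h1, map_sub]
    ring

/-- A wild element whose `n`-th power fixes `x`, with `n` a unit of `A`, fixes `x`. -/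
theorem IsWild.apply_eq_of_pow_apply_eq {w : L ≃ₐ[K] L} (hw : IsWild A w) {n : ℕ}
    (hn : A.valuation (n : L) = 1) {x : L} (hx : (w ^ n) x = x) : w x = x := by
  by_contra hne
  set y : L := w x - x with hy
  have hy0 : y ≠ 0 := sub_ne_zero.mpr hne
  have hvy : A.valuation y ≠ 0 := (Valuation.ne_zero_iff _).mpr hy0
  have hsum : ∑ i ∈ Finset.range n, (w ^ i) y = 0 := by
    rw [← pow_apply_sub_eq_sum, hx, sub_self]
  have hsplit : ∑ i ∈ Finset.range n, (w ^ i) y =
      (n : L) * y + ∑ i ∈ Finset.range n, ((w ^ i) y - y) := by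
    rw [Finset.sum_sub_distrib, Finset.sum_const, Finset.card_range, nsmul_eq_mul]
    ring
  have hsmall : A.valuation (∑ i ∈ Finset.range n, ((w ^ i) y - y)) < A.valuation y :=
    Valuation.map_sum_lt _ hvy fun i _ => (hw.pow i).valuation_sub_lt hy0
  have hbig : A.valuation ((n : L) * y) = A.valuation y := by
    rw [map_mul, hn, one_mul]
  have hval : A.valuation ((n : L) * y + ∑ i ∈ Finset.range n, ((w ^ i) y - y)) =
      A.valuation y := by
    rw [← hbig]
    exact Valuation.map_add_eq_of_lt_left _ (by rw [hbig]; exact hsmall)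
  rw [← hsplit, hsum, map_zero] at hval
  exact hvy hval.symm

/-- An integer prime to the residue characteristic `q` is a unit of `A`. -/
theorem valuation_natCast_eq_one {q : ℕ} (hq : q.Prime) (hA : A.LiesOverPrime q) {n : ℕ}
    (hn : ¬ q ∣ n) : A.valuation (n : L) = 1 := by
  have hqv : A.valuation (q : L) < 1 := A.mem_nonunits_iff.mp hA
  have hcop : Nat.Coprime q n := (Nat.Prime.coprime_iff_not_dvd hq).mpr hn
  have hle : ∀ k : ℤ, A.valuation (k : L) ≤ 1 := fun k =>
    (A.valuation_le_one_iff _).mpr (intCast_mem A k)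
  have hnle : A.valuation (n : L) ≤ 1 := by
    have h := hle (n : ℤ)
    rwa [Int.cast_natCast] at h
  rcases hnle.lt_or_eq with hlt | heq
  · exfalso
    have hb : (q : ℤ) * Int.gcdA q n + (n : ℤ) * Int.gcdB q n = 1 := by
      have := Int.gcd_eq_gcd_ab (q : ℤ) (n : ℤ)
      rw [Int.gcd_natCast_natCast, hcop.gcd_eq_one] at this
      exact_mod_cast this.symm
    have hb' : (q : L) * (Int.gcdA q n : L) + (n : L) * (Int.gcdB q n : L) = 1 := by
      exact_mod_cast congrArg (Int.cast : ℤ → L) hb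
    have h1 : A.valuation ((q : L) * (Int.gcdA q n : L)) < 1 := by
      rw [map_mul]
      exact mul_lt_one_of_lt_of_le hqv (hle _)
    have h2 : A.valuation ((n : L) * (Int.gcdB q n : L)) < 1 := by
      rw [map_mul]
      exact mul_lt_one_of_lt_of_le hlt (hle _)
    have h3 := Valuation.map_add_lt _ h1 h2
    rw [hb', map_one] at h3
    exact lt_irrefl _ h3
  · exact heq

/-- Some positive power of an automorphism fixes a finite level pointwise. -/
theorem exists_pow_fixes (E : IntermediateField K L) [FiniteDimensional K E] (w : L ≃ₐ[K] L) :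
    ∃ n : ℕ, 0 < n ∧ ∀ a ∈ E, (w ^ n) a = a := by
  obtain ⟨S, hS⟩ := (Module.Finite.fg_top : (⊤ : Submodule K E).FG)
  choose f hf0 hf using fun a : L => exists_pow_apply_eq w a
  refine ⟨∏ s ∈ S, f (s : L), Finset.prod_pos fun s _ => hf0 _, fun a ha => ?_⟩
  have hfix : ∀ s ∈ S, (w ^ (∏ t ∈ S, f (t : L))) (s : L) = s := by
    intro s hs
    obtain ⟨k, hk⟩ := Finset.dvd_prod_of_mem (fun t : E => f (t : L)) hs
    rw [hk, pow_mul]
    clear hk
    induction k with
    | zero => rw [pow_zero]; rfl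
    | succ k ih =>
      rw [pow_succ]
      show ((w ^ f (s : L)) ^ k) ((w ^ f (s : L)) (s : L)) = s
      rw [hf, ih]
  have hmem : (⟨a, ha⟩ : E) ∈ Submodule.span K (S : Set E) := by rw [hS]; trivial
  have key : ∀ b : E, b ∈ Submodule.span K (S : Set E) →
      (w ^ (∏ t ∈ S, f (t : L))) (b : L) = b := by
    intro b hb
    induction hb using Submodule.span_induction with
    | mem x hx => exact hfix x hx
    | zero => simp
    | add x y _ _ hx hy =>
      rw [IntermediateField.coe_add, map_add, hx, hy]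
    | smul c x _ hx =>
      rw [IntermediateField.coe_smul, Algebra.smul_def, map_mul, AlgEquiv.commutes, hx]
  exact key ⟨a, ha⟩ hmem

end tame

/-- If `g ^ a` and `g ^ b` act trivially and `a`, `b` are coprime, then `g` acts trivially. -/
theorem smul_eq_of_pow_smul_eq {G X : Type*} [Group G] [MulAction G X] (g : G) {a b : ℕ}
    (hab : Nat.Coprime a b) (ha : ∀ x : X, g ^ a • x = x) (hb : ∀ x : X, g ^ b • x = x)
    (x : X) : g • x = x := by
  have h1 : (MulAction.toPermHom G X g) ^ a = 1 := by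
    rw [← map_pow]
    ext y
    exact ha y
  have h2 : (MulAction.toPermHom G X g) ^ b = 1 := by
    rw [← map_pow]
    ext y
    exact hb y
  have h3 : (MulAction.toPermHom G X g) ^ Nat.gcd a b = 1 := pow_gcd_eq_one.mpr ⟨h1, h2⟩
  rw [hab.gcd_eq_one, pow_one] at h3
  have := congrArg (fun e : Equiv.Perm X => e x) h3
  simpa using this

section main

variable [Algebra.IsAlgebraic K L]

/-- **TC.**  Let the action of `G = Aut(L/K)` on `X` factor through a finite level `E`, and let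
the inertia group of `A` act on `X` through exponent `m` prime to the residue characteristic
`q`.  Then for a Frobenius element `σ` and `τ` in the inertia group,
`(σ τ σ⁻¹) • x = τ ^ q • x`. -/
theorem tame_conj_smul {X : Type*} [MulAction (L ≃ₐ[K] L) X] {q : ℕ} (hq : q.Prime)
    (hA : A.LiesOverPrime q) {σ τ : L ≃ₐ[K] L} (hσ : A.IsFrobeniusAt σ q)
    (hτ : τ ∈ A.inertiaSubgroupIn K)
    (E : IntermediateField K L) [FiniteDimensional K E]
    (hE : ∀ g : L ≃ₐ[K] L, (∀ a ∈ E, g a = a) → ∀ x : X, g • x = x)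
    (m : ℕ) (hm : ¬ q ∣ m) (hI : ∀ τ' ∈ A.inertiaSubgroupIn K, ∀ x : X, τ' ^ m • x = x)
    (x : X) : (σ * τ * σ⁻¹) • x = τ ^ q • x := by
  set w : L ≃ₐ[K] L := σ * τ * σ⁻¹ * (τ ^ q)⁻¹ with hw
  have hwild : IsWild A w := isWild_conj_mul_inv_pow hσ hτ
  obtain ⟨n, hn0, hn⟩ := exists_pow_fixes E w
  obtain ⟨e, n', hn', hne⟩ := Nat.exists_eq_pow_mul_and_not_dvd hn0.ne' q hq.ne_one
  -- `u = w ^ (q ^ e)` is wild and `u ^ n'` fixes `E`
  have hu : IsWild A (w ^ (q ^ e)) := hwild.pow _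
  have hufix : ∀ a ∈ E, (w ^ (q ^ e)) a = a := by
    intro a ha
    refine hu.apply_eq_of_pow_apply_eq (valuation_natCast_eq_one hq hA hn') ?_
    rw [← pow_mul, ← hne]
    exact hn a ha
  have h1 : ∀ y : X, w ^ (q ^ e) • y = y := hE _ hufix
  have h2 : ∀ y : X, w ^ m • y = y := hI w hwild.mem
  have hcop : Nat.Coprime (q ^ e) m :=
    Nat.Coprime.pow_left e ((Nat.Prime.coprime_iff_not_dvd hq).mpr hm)
  have hwx : ∀ y : X, w • y = y := smul_eq_of_pow_smul_eq w hcop h1 h2
  have hdecomp : σ * τ * σ⁻¹ = w * τ ^ q := by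
    rw [hw, inv_mul_cancel_right]
  rw [hdecomp, mul_smul, hwx]

end main

end Fermat.Agent.Ribet.H43

end
-- ===== PACK-END Ribet/H43/TameConj.lean

-- ===== PACK-BEGIN S36/Reg/Spec.lean
section


/-!
# S36 engine / cell REG (regularity at the supersingular points) — frozen leaf statements
(helper996; design: `origin/helper996:coord/S36.md` §6–§7)

Only the arithmetic leaf HASSE lives here; the commutative-algebra core is
`Fermat/Agent/S36/H996/PU.lean` (`principal_of_unit`, proved).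

## HASSE
For a prime `q ≥ 5` write `q - 1 = 12 a + 4 δ + 6 ε` with `δ = [q ≡ 2 mod 3]`, `ε = [q ≡ 3 mod 4]`.
Then in `𝔽_q((t))`
  `Δ^{-(q-1)} = j^{4δ} (j - 1728)^{6ε} f(j)^{12}`   for some `f ∈ 𝔽_q[X]`.
Proof: `E_{q-1} ≡ 1 mod q` (von Staudt–Clausen, `Bernoulli.vonStaudt_clausen` in Mathlib) and
`E_{q-1} = E₄^δ E₆^ε Δ^a f(j)` with `f ∈ ℤ_(q)[X]` (induction on the weight with
`ModularForm.discriminantEquiv`; `E₄³ = jΔ`, `E₆² = (j - 1728)Δ`); take 12-th powers.
Analytic ↔ formal bridges: `S28/H25`, `S28/H685`, `S28/H565`, `S28/Theta`.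
-/

set_option autoImplicit false

noncomputable section

open ModularCurve

namespace Fermat.Agent.S36.Reg

/-- `δ = 1` iff `q ≡ 2 mod 3` (then `j = 0` is supersingular). -/
def hasseDelta (q : ℕ) : ℕ := if q % 3 = 2 then 1 else 0

/-- `ε = 1` iff `q ≡ 3 mod 4` (then `j = 1728` is supersingular). -/
def hasseEps (q : ℕ) : ℕ := if q % 4 = 3 then 1 else 0

/-- **Leaf HASSE.** -/
def HasseStatement (q : ℕ) [NeZero q] : Prop :=
  ∃ f : Polynomial (ZMod q),
    (Fermat.Agent.S28.deltaInvL (ZMod q)) ^ (q - 1) =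
      (jqModC (ZMod q)) ^ (4 * hasseDelta q) * (jqModC (ZMod q) - 1728) ^ (6 * hasseEps q)
        * (Polynomial.aeval (jqModC (ZMod q)) f) ^ 12

/-- The form in which HASSE is consumed: the same identity over any field of characteristic `q`. -/
def HasseStatementField (q : ℕ) [NeZero q] (k : Type) [Field k] [CharP k q] : Prop :=
  ∃ f : Polynomial k,
    (Fermat.Agent.S28.deltaInvL k) ^ (q - 1) =
      (jqModC k) ^ (4 * hasseDelta q) * (jqModC k - 1728) ^ (6 * hasseEps q)
        * (Polynomial.aeval (jqModC k) f) ^ 12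

end Fermat.Agent.S36.Reg

end
end
-- ===== PACK-END S36/Reg/Spec.lean

-- ===== PACK-BEGIN S27/H145/Bridge.lean
section




/-!
# From the RR library's `FF1` to the Prelude's `IsCurveOver` (helper145)

The frozen statement S27 (and its characteristic-free form `S27/H145/CharFree.lean`) is stated
for `AlgebraicCurve.IsCurveOver K F` + `Algebra.EssFiniteType K F`; the modular function fields
on main come with the standing hypotheses `Lib.RR.FF1 K F` of the shared Riemann–Roch library.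
This file is the bridge (any characteristic, Mathlib + the two definitions only):

* `essFiniteType_of_finite x`  : `F` finite over `K(x)` ⟹ `Algebra.EssFiniteType K F`;
* `span_D_eq_top_of_sep x`     : `F / K(x)` separable ⟹ `Ω[F⁄K] = F · dx`;
* `D_ne_zero_of_sep x`         : `x` transcendental, `F / K(x)` finite separable ⟹ `dx ≠ 0`;
* `finrank_kaehler_eq_one x`   : then `dim_F Ω[F⁄K] = 1`;
* `isCurveOver_of_ff1`         : `FF1 K F`, `x` transcendental, `F / K(x)` finite separable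
                                 ⟹ `IsCurveOver K F`;
* `isCurveOver_of_ff1_charZero`: in characteristic zero `FF1 K F` alone suffices.
-/

set_option autoImplicit false
set_option linter.style.haveILetI false

open AlgebraicCurve KaehlerDifferential IntermediateField

namespace Fermat.Agent.S27.H145

variable {K F : Type*} [Field K] [Field F] [Algebra K F]

/-- A finite extension of a simple extension of `K` is essentially of finite type over `K`. -/
theorem essFiniteType_of_finite (x : F) [FiniteDimensional K⟮x⟯ F] :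
    Algebra.EssFiniteType K F := by
  haveI h1 : Algebra.EssFiniteType K K⟮x⟯ := by
    rw [IntermediateField.essFiniteType_iff]
    exact ⟨{x}, by simp⟩
  haveI h2 : Algebra.EssFiniteType K⟮x⟯ F := inferInstance
  exact Algebra.EssFiniteType.comp K K⟮x⟯ F

/-- If `F / K(x)` is separable algebraic, then `D x` spans `Ω[F⁄K]` (any characteristic). -/
theorem span_D_eq_top_of_sep (x : F) [Algebra.IsSeparable K⟮x⟯ F] :
    Submodule.span F {D K F x} = ⊤ := by
  have : Algebra.FormallyUnramified K⟮x⟯ F := Algebra.FormallyUnramified.of_isSeparable _ _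
  have : Subsingleton Ω[F⁄K⟮x⟯] := Algebra.FormallyUnramified.subsingleton_kaehlerDifferential
  rw [eq_top_iff]
  intro ω _
  have hex := KaehlerDifferential.exact_mapBaseChange_map K K⟮x⟯ F
  have h0 : KaehlerDifferential.map K K⟮x⟯ F F ω = 0 := Subsingleton.elim _ _
  obtain ⟨t, rfl⟩ := (hex ω).1 h0
  exact Fermat.Agent.S24.H84.mapBaseChange_mem_span_D x t

/-- If `x` is transcendental over `K` and `F / K(x)` is finite separable, then `dx ≠ 0`. -/
theorem D_ne_zero_of_sep (x : F) (hx : Transcendental K x) [FiniteDimensional K⟮x⟯ F]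
    [Algebra.IsSeparable K⟮x⟯ F] : D K F x ≠ 0 := by
  intro h
  have hspan := span_D_eq_top_of_sep (K := K) x
  rw [h] at hspan
  have hsub : Subsingleton Ω[F⁄K] := by
    refine ⟨fun a b => ?_⟩
    have ha : a ∈ Submodule.span F {(0 : Ω[F⁄K])} := by rw [hspan]; trivial
    have hb : b ∈ Submodule.span F {(0 : Ω[F⁄K])} := by rw [hspan]; trivial
    rw [Submodule.span_zero_singleton, Submodule.mem_bot] at ha hb
    rw [ha, hb]
  haveI : Algebra.FormallyUnramified K F := (Algebra.formallyUnramified_iff K F).2 hsub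
  haveI : Algebra.EssFiniteType K F := essFiniteType_of_finite (K := K) x
  haveI : Module.Finite K F := Algebra.FormallyUnramified.finite_of_free K F
  exact hx (Algebra.IsAlgebraic.isAlgebraic x)

/-- `dim_F Ω[F⁄K] = 1` for a separably generated function field of one variable. -/
theorem finrank_kaehler_eq_one (x : F) (hx : Transcendental K x) [FiniteDimensional K⟮x⟯ F]
    [Algebra.IsSeparable K⟮x⟯ F] : Module.finrank F Ω[F⁄K] = 1 := by
  rw [finrank_eq_one_iff_of_nonzero' (D K F x) (D_ne_zero_of_sep x hx)]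
  intro ω
  have hω : ω ∈ Submodule.span F {D K F x} := by
    rw [span_D_eq_top_of_sep (K := K) x]
    trivial
  exact Submodule.mem_span_singleton.1 hω

/-- **The bridge `FF1 ⟹ IsCurveOver`**: a function field of one variable all of whose places
have degree one, with a separating variable. -/
theorem isCurveOver_of_ff1 (h : Fermat.Agent.Lib.RR.FF1 K F) (x : F) (hx : Transcendental K x)
    [FiniteDimensional K⟮x⟯ F] [Algebra.IsSeparable K⟮x⟯ F] : IsCurveOver K F :=
  { toHasPrincipalDivisors := h.hpd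
    finiteResidue := fun v => by
      have h1 : Module.finrank K v.ResidueField = 1 := h.deg_eq_one v
      exact Module.finite_of_finrank_pos (by rw [h1]; exact Nat.one_pos)
    kaehler_free_rank_one := ⟨Module.Free.of_divisionRing F _, finrank_kaehler_eq_one x hx⟩ }

/-- In characteristic zero, `FF1 K F` implies `IsCurveOver K F` and `EssFiniteType`. -/
theorem isCurveOver_of_ff1_charZero [CharZero K] (h : Fermat.Agent.Lib.RR.FF1 K F) :
    IsCurveOver K F ∧ Algebra.EssFiniteType K F := by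
  obtain ⟨x, hx, hfin⟩ := h.exists_finite
  haveI := hfin
  haveI : CharZero K⟮x⟯ := charZero_of_injective_algebraMap (algebraMap K K⟮x⟯).injective
  haveI : Algebra.IsAlgebraic K⟮x⟯ F := Algebra.IsAlgebraic.of_finite _ _
  haveI : Algebra.IsSeparable K⟮x⟯ F := Algebra.IsAlgebraic.isSeparable_of_perfectField
  exact ⟨isCurveOver_of_ff1 h x hx, essFiniteType_of_finite (K := K) x⟩

end Fermat.Agent.S27.H145

end
-- ===== PACK-END S27/H145/Bridge.lean

-- ===== PACK-BEGIN S36/H996/PU.lean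
section


/-!
# Lemma PU (principal-from-unit) — helper996, S36 engine (regularity at triple points)

Mathlib-only (on top of helper849's algebraic Hartogs lemma).

`R` a noetherian integrally closed LOCAL domain with fraction field `K`, `P` a height-one prime
with discrete valuation ring `O = R_P`, `Q'` any other prime, and
* `U ∈ R` with Weil divisor `N · [P]`  (unit at every other height-one prime, `v_P(U) = N`),
* `x ∈ P`, `x ∉ Q'`, with `x^N ∣ U` modulo `Q'`.
Then `P = (x)`.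

Application (see `coord/S36.md` §6): `R = B_n` the local ring of the chart of `X₀(q² M')` at a
supersingular point, `P = p_FF`, `Q' = p_VV`, `U = q¹² Δ(q² z)/Δ(q z)`, `N = 12`,
`x = j_{q²} − j^{q²}`; the divisibility is the Hasse-invariant input.  Also gives thickness `1`
of the nodes of `X₀(q M')`.
-/

set_option autoImplicit false

namespace Fermat.Agent.S36.H996

open IsLocalRing Fermat.Agent.A2.H849

variable {R : Type*} [CommRing R] [IsDomain R]
variable {K : Type*} [Field K] [Algebra R K] [IsFractionRing R K]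

omit [IsDomain R] [IsFractionRing R K] in
/-- Two discrete valuation subrings which are both "the localisation of `R` at `P`" are
comparable (hence equal). -/
theorem isLocDVR_le_of_same {O O' : ValuationSubring K} {P : Ideal R}
    (h : IsLocDVR O P) (h' : IsLocDVR O' P) : O' ≤ O := by
  intro x hx
  obtain ⟨r, s, hs, rfl⟩ := h'.exists_frac x hx
  exact O.mul_mem _ _ (h.le r) (h.inv_mem s hs)

omit [IsDomain R] in
/-- An element of `P` has positive valuation at `O = R_P`: it is `unit * ϖ ^ (c+1)`. -/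
theorem exists_eq_unit_mul_pow_succ {O : ValuationSubring K} {P : Ideal R}
    (hOP : IsLocDVR O P) (ϖ : O) (hϖ : Irreducible ϖ) (y : R) (hyP : y ∈ P) (hy0 : y ≠ 0) :
    ∃ (c : ℕ) (u : Oˣ), algebraMap R K y = (u : O) * (ϖ : K) ^ (c + 1) := by
  have := hOP.dvr
  have hinj : Function.Injective (algebraMap R K) := IsFractionRing.injective R K
  have hyK : algebraMap R K y ≠ 0 := fun h => hy0 (hinj (by rw [h, map_zero]))
  have hyO0 : (⟨algebraMap R K y, hOP.le y⟩ : O) ≠ 0 := by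
    intro h
    exact hyK (congrArg (fun z : O => (z : K)) h)
  obtain ⟨n, u, hu⟩ := IsDiscreteValuationRing.eq_unit_mul_pow_irreducible hyO0 hϖ
  have huK : algebraMap R K y = (u : O) * (ϖ : K) ^ n := by
    have := congrArg (fun z : O => (z : K)) hu
    simpa using this
  rcases n with _ | c
  · exfalso
    apply hOP.inv_not_mem y hyP hy0
    have h1 : algebraMap R K y = ((u : O) : K) := by simpa using huK
    rw [h1]
    have h2 : (((u⁻¹ : Oˣ) : O) : K) = (((u : O) : K))⁻¹ := by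
      have h3 : (((u : O) : K)) * (((u⁻¹ : Oˣ) : O) : K) = 1 := by
        have h4 : (u : O) * ((u⁻¹ : Oˣ) : O) = 1 := Units.mul_inv u
        exact_mod_cast congrArg (fun z : O => (z : K)) h4
      exact eq_inv_of_mul_eq_one_right h3
    rw [← h2]
    exact ((u⁻¹ : Oˣ) : O).2
  · exact ⟨c, u, huK⟩

/-- **Lemma PU (principal-from-unit).** -/
theorem principal_of_unit [IsLocalRing R] [IsNoetherianRing R] [IsIntegrallyClosed R]
    (O : ValuationSubring K) (P : Ideal R) (hOP : IsLocDVR O P)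
    (Q' : Ideal R) [hQ' : Q'.IsPrime]
    (U x : R) (N : ℕ) (hN : 0 < N)
    (hUunit : ∀ (O' : ValuationSubring K) (P' : Ideal R), IsLocDVR O' P' → P' ≠ P → U ∉ P')
    (ϖ : O) (hϖ : Irreducible ϖ) (u : Oˣ)
    (hU : algebraMap R K U = (u : O) * (ϖ : K) ^ N)
    (hxP : x ∈ P) (hxQ : x ∉ Q')
    (hdiv : ∃ r : R, U - r * x ^ N ∈ Q') :
    P = Ideal.span {x} := by
  classical
  have := hOP.dvr
  have := hOP.prime
  have hinj : Function.Injective (algebraMap R K) := IsFractionRing.injective R K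
  have hx0 : x ≠ 0 := fun h => hxQ (h ▸ Q'.zero_mem)
  have hxK : algebraMap R K x ≠ 0 := fun h => hx0 (hinj (by rw [h, map_zero]))
  have hϖK : (ϖ : K) ≠ 0 := by
    intro h
    apply hϖ.ne_zero
    exact Subtype.ext h
  have huK : ((u : O) : K) ≠ 0 := by
    intro h
    have : (u : O) = 0 := Subtype.ext h
    exact u.ne_zero this
  have hUK : algebraMap R K U ≠ 0 := by
    rw [hU]
    exact mul_ne_zero huK (pow_ne_zero _ hϖK)
  have hU0 : U ≠ 0 := fun h => hUK (by rw [h, map_zero])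
  -- units of `O` are invertible in `K` inside `O`
  have hinvO : ∀ v : Oˣ, ((((v : O) : K))⁻¹ ∈ O) := by
    intro v
    have h3 : (((v : O) : K)) * (((v⁻¹ : Oˣ) : O) : K) = 1 := by
      have h4 : (v : O) * ((v⁻¹ : Oˣ) : O) = 1 := Units.mul_inv v
      exact_mod_cast congrArg (fun z : O => (z : K)) h4
    rw [← eq_inv_of_mul_eq_one_right h3]
    exact ((v⁻¹ : Oˣ) : O).2
  -- valuation of `x` at `P`
  obtain ⟨c, ux, hx⟩ := exists_eq_unit_mul_pow_succ hOP ϖ hϖ x hxP hx0
  -- the element `ω = x^N / U^(c+1)`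
  set ω : K := algebraMap R K x ^ N * (algebraMap R K U ^ (c + 1))⁻¹ with hω
  have hωO : ω ∈ O := by
    have h1 : ω = ((ux : O) : K) ^ N * ((((u : O) : K))⁻¹) ^ (c + 1) := by
      have hA : algebraMap R K U ^ (c + 1)
          = ((u : O) : K) ^ (c + 1) * (ϖ : K) ^ (N * (c + 1)) := by
        rw [hU, mul_pow, ← pow_mul]
      have hB : algebraMap R K x ^ N = ((ux : O) : K) ^ N * (ϖ : K) ^ (N * (c + 1)) := by
        rw [hx, mul_pow, ← pow_mul, mul_comm (c + 1) N]
      have hM : (ϖ : K) ^ (N * (c + 1)) ≠ 0 := pow_ne_zero _ hϖK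
      rw [hω, hA, hB, mul_inv, inv_pow]
      calc ((ux : O) : K) ^ N * (ϖ : K) ^ (N * (c + 1))
            * ((((u : O) : K) ^ (c + 1))⁻¹ * ((ϖ : K) ^ (N * (c + 1)))⁻¹)
          = ((ux : O) : K) ^ N * (((u : O) : K) ^ (c + 1))⁻¹
            * ((ϖ : K) ^ (N * (c + 1)) * ((ϖ : K) ^ (N * (c + 1)))⁻¹) := by ring
        _ = ((ux : O) : K) ^ N * (((u : O) : K) ^ (c + 1))⁻¹ := by
            rw [mul_inv_cancel₀ hM, mul_one]
    rw [h1]
    exact O.mul_mem _ _ (O.pow_mem (ux : O).2 _) (O.pow_mem (hinvO u) _)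
  have hωall : ∀ (O' : ValuationSubring K) (P' : Ideal R), IsLocDVR O' P' → ω ∈ O' := by
    intro O' P' h'
    by_cases hPP : P' = P
    · subst hPP
      exact isLocDVR_le_of_same h' hOP hωO
    · have hUinv : (algebraMap R K U)⁻¹ ∈ O' := h'.inv_mem U (hUunit O' P' h' hPP)
      rw [hω, ← inv_pow]
      exact O'.mul_mem _ _ (O'.pow_mem (h'.le x) _) (O'.pow_mem hUinv _)
  obtain ⟨w, hw⟩ := mem_range_of_forall_isLocDVR ω hωall
  have hwU : x ^ N = w * U ^ (c + 1) := by
    apply hinj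
    rw [map_mul, map_pow, map_pow, hw, hω, inv_mul_cancel_right₀ (pow_ne_zero _ hUK)]
  -- the congruence modulo `Q'`
  obtain ⟨r, hr⟩ := hdiv
  have hm : maximalIdeal R ≠ ⊤ := Ideal.IsPrime.ne_top inferInstance
  have hQm : Q' ≤ maximalIdeal R := le_maximalIdeal hQ'.ne_top
  have hPm : P ≤ maximalIdeal R := le_maximalIdeal hOP.prime.ne_top
  have hkey : 1 - w * r ^ (c + 1) * x ^ (N * c) ∈ Q' := by
    have h1 : w * (U ^ (c + 1) - (r * x ^ N) ^ (c + 1)) ∈ Q' := by
      obtain ⟨k, hk⟩ := sub_dvd_pow_sub_pow U (r * x ^ N) (c + 1)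
      rw [hk]
      exact Q'.mul_mem_left _ (Q'.mul_mem_right _ hr)
    have h2 : x ^ N * (1 - w * r ^ (c + 1) * x ^ (N * c))
        = w * (U ^ (c + 1) - (r * x ^ N) ^ (c + 1)) := by
      have h3 : (r * x ^ N) ^ (c + 1) = r ^ (c + 1) * (x ^ N * x ^ (N * c)) := by
        ring
      rw [h3, mul_sub, mul_sub, mul_one, ← hwU]
      ring
    rw [← h2] at h1
    rcases hQ'.mem_or_mem h1 with h | h
    · exact absurd (hQ'.mem_of_pow_mem _ h) hxQ
    · exact h
  have hc : c = 0 := by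
    by_contra hc0
    have hpos : 0 < N * c := Nat.mul_pos hN (Nat.pos_of_ne_zero hc0)
    have hxm : x ^ (N * c) ∈ maximalIdeal R :=
      Ideal.pow_mem_of_mem _ (hPm hxP) _ hpos
    have h1 : (1 : R) ∈ maximalIdeal R := by
      have := (maximalIdeal R).add_mem (hQm hkey)
        ((maximalIdeal R).mul_mem_left (w * r ^ (c + 1)) hxm)
      simp at this
    exact hm ((Ideal.eq_top_iff_one _).2 h1)
  subst hc
  have hwunit : IsUnit w := by
    by_contra hnu
    have hwm : w ∈ maximalIdeal R := (mem_maximalIdeal w).2 hnu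
    have h1 : (1 : R) ∈ maximalIdeal R := by
      have := (maximalIdeal R).add_mem (hQm hkey)
        ((maximalIdeal R).mul_mem_right (r ^ (0 + 1) * x ^ (N * 0)) hwm)
      simp at this
    exact hm ((Ideal.eq_top_iff_one _).2 h1)
  have hwU' : x ^ N = w * U := by simpa using hwU
  -- conclusion
  apply le_antisymm
  · intro y hy
    rw [Ideal.mem_span_singleton]
    by_cases hy0 : y = 0
    · rw [hy0]; exact dvd_zero x
    have hratio : ∀ (O' : ValuationSubring K) (P' : Ideal R), IsLocDVR O' P' →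
        algebraMap R K y * (algebraMap R K x)⁻¹ ∈ O' := by
      intro O' P' h'
      by_cases hPP : P' = P
      · subst hPP
        apply isLocDVR_le_of_same h' hOP
        obtain ⟨d, uy, hyeq⟩ := exists_eq_unit_mul_pow_succ hOP ϖ hϖ y hy hy0
        have h1 : algebraMap R K y * (algebraMap R K x)⁻¹
            = ((uy : O) : K) * ((((ux : O) : K))⁻¹) * (ϖ : K) ^ d := by
          have huxK : ((ux : O) : K) ≠ 0 := by
            intro h
            have : (ux : O) = 0 := Subtype.ext h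
            exact ux.ne_zero this
          rw [hyeq, hx]
          field_simp
          ring
        rw [h1]
        exact O.mul_mem _ _ (O.mul_mem _ _ (uy : O).2 (hinvO ux)) (O.pow_mem ϖ.2 _)
      · have hxP' : x ∉ P' := by
          intro hxin
          have h1 : w * U ∈ P' := by
            rw [← hwU']
            exact Ideal.pow_mem_of_mem _ hxin _ hN
          have := h'.prime
          rcases h'.prime.mem_or_mem h1 with h | h
          · exact h'.prime.ne_top (Ideal.eq_top_of_isUnit_mem _ h hwunit)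
          · exact hUunit O' P' h' hPP h
        exact O'.mul_mem _ _ (h'.le y) (h'.inv_mem x hxP')
    obtain ⟨t, ht⟩ := mem_range_of_forall_isLocDVR _ hratio
    refine ⟨t, hinj ?_⟩
    rw [map_mul, ht, mul_comm, inv_mul_cancel_right₀ hxK]
  · rw [Ideal.span_le, Set.singleton_subset_iff]
    exact hxP

omit [IsDomain R] in
/-- **Regularity from PU.**  If `P = (x)` and the maximal ideal of `R ⧸ P` is generated by the
class of `y`, then the maximal ideal of `R` is `(x, y)`. -/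
theorem maximalIdeal_eq_span_pair [IsLocalRing R] (P : Ideal R) (x y : R)
    (hP : P = Ideal.span {x}) (hPm : P ≤ maximalIdeal R) (hy : y ∈ maximalIdeal R)
    (hgen : ∀ z ∈ maximalIdeal R, ∃ t : R, z - t * y ∈ P) :
    maximalIdeal R = Ideal.span {x, y} := by
  apply le_antisymm
  · intro z hz
    obtain ⟨t, ht⟩ := hgen z hz
    rw [hP, Ideal.mem_span_singleton] at ht
    obtain ⟨s, hs⟩ := ht
    rw [Ideal.mem_span_pair]
    refine ⟨s, t, ?_⟩
    have : z = x * s + t * y := by rw [← hs]; ring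
    rw [this]; ring
  · rw [Ideal.span_le]
    rintro z (rfl | rfl)
    · exact hPm (hP ▸ Ideal.mem_span_singleton_self z)
    · exact hy

end Fermat.Agent.S36.H996


end
-- ===== PACK-END S36/H996/PU.lean

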