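import Mathlib
import Fermat.Statements.S57
import Fermat.Prelude.Def_ModularCurve_GenusNumerics
import Fermat.Agent.Pack.S59C.E0L3
import Fermat.Agent.Pack.S43GC.G0E2L0
import Fermat.Agent.Pack.S44C.G0E1L1
import Fermat.Agent.Pack.S43MC.G0E3L2
import Fermat.Agent.Pack.S43MC.G0E0L1
import Fermat.Agent.Pack.S59C.E0L2
import Fermat.Agent.Pack.S43GC.G4E0L0
import Fermat.Agent.Pack.S59C.E0L1
import Fermat.Agent.Pack.S43MC.G0E3L1
import Fermat.Agent.Pack.S59C.E0L0
import Fermat.Agent.Pack.S43MC.G0E4L0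
import Fermat.Agent.Pack.S43MC.G0E3L0

set_option linter.all false

-- ===== PACK-BEGIN S59/H360/NCFlat.lean
section



/-!
# Row S59, piece N1-C (helper360): the finite flat side of the numerical criterion

Statements verbatim from helper67's skeleton (`Fermat/Agent/S59/H67/NCSkeleton.lean`):
* `eq_of_mem_annihilator_of_map_eq` (C1),
* `exists_adapted_generators` (C2),
* `card_quot_etaIdeal_le` (C3).
-/

set_option autoImplicit false
set_option linter.unusedSectionVars false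
set_option linter.unusedVariables false

namespace Fermat.Agent.S59.H360

open IsLocalRing Fermat.Agent.S59.H67

/-- **C1**. If `η ≠ 0` and `T` is torsion-free, `π` is injective on `Ann (ker π)`. -/
theorem eq_of_mem_annihilator_of_map_eq
    {O : Type*} [CommRing O] [IsDomain O]
    {T : Type*} [CommRing T] [Algebra O T] [Module.IsTorsionFree O T]
    (π : T →ₐ[O] O) (hη : etaIdeal π ≠ ⊥) {x y : T}
    (hx : x ∈ (RingHom.ker π).annihilator) (hy : y ∈ (RingHom.ker π).annihilator)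
    (hxy : π x = π y) : x = y := by
  obtain ⟨w, hw, hπw⟩ : ∃ w ∈ (RingHom.ker π).annihilator, π w ≠ 0 := by
    by_contra hcon
    push Not at hcon
    apply hη
    rw [etaIdeal, Ideal.map_eq_bot_iff_le_ker]
    intro w hw
    exact RingHom.mem_ker.mpr (hcon w hw)
  have hz_ann : x - y ∈ (RingHom.ker π).annihilator := Submodule.sub_mem _ hx hy
  have hz_ker : x - y ∈ RingHom.ker π := by
    rw [RingHom.mem_ker, map_sub, sub_eq_zero]; exact hxy
  have h1 : w * (x - y) = 0 := by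
    have := (Submodule.mem_annihilator.mp hw) (x - y) hz_ker
    simpa using this
  have hmem : w - algebraMap O T (π w) ∈ RingHom.ker π := by
    rw [RingHom.mem_ker, map_sub, sub_eq_zero]
    exact (π.commutes (π w)).symm
  have h2 : (x - y) * (w - algebraMap O T (π w)) = 0 := by
    have := (Submodule.mem_annihilator.mp hz_ann) _ hmem
    simpa using this
  have h3 : (π w) • (x - y) = 0 := by
    rw [Algebra.smul_def]
    linear_combination h1 - h2
  exact sub_eq_zero.mp ((smul_eq_zero_iff_right hπw).mp h3)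

section Card

variable {O : Type*} [CommRing O] [IsDomain O]

/-- `#(O/(ab)) = #(O/(a)) · #(O/(b))` in a domain (`Nat.card`, no finiteness needed). -/
theorem card_quot_span_mul (a b : O) (ha : a ≠ 0) :
    Nat.card (O ⧸ Ideal.span {a * b}) =
      Nat.card (O ⧸ Ideal.span {a}) * Nat.card (O ⧸ Ideal.span {b}) := by
  -- `g : O/(ab) → O/(a)`
  have hle : Ideal.span {a * b} ≤ Ideal.span {a} := by
    rw [Ideal.span_singleton_le_iff_mem]
    exact Ideal.mul_mem_right _ _ (Ideal.mem_span_singleton_self a)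
  let g : (O ⧸ Ideal.span {a * b}) →+ (O ⧸ Ideal.span {a}) :=
    (Ideal.Quotient.factor hle : (O ⧸ Ideal.span {a * b}) →+* (O ⧸ Ideal.span {a})).toAddMonoidHom
  have hg : Function.Surjective g := Ideal.Quotient.factor_surjective hle
  -- `f : O/(b) → O/(ab)`, multiplication by `a`
  let f : (O ⧸ Ideal.span {b}) →ₗ[O] (O ⧸ Ideal.span {a * b}) :=
    Submodule.mapQ (Ideal.span {b}) (Ideal.span {a * b}) (LinearMap.mulLeft O a) (by
      intro x hx
      obtain ⟨c, rfl⟩ := Ideal.mem_span_singleton.mp hx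
      rw [Submodule.mem_comap, LinearMap.mulLeft_apply, Ideal.mem_span_singleton]
      exact ⟨c, by ring⟩)
  have hf : Function.Injective f := by
    rw [injective_iff_map_eq_zero]
    intro x hx
    obtain ⟨x, rfl⟩ := Submodule.Quotient.mk_surjective _ x
    rw [Submodule.mapQ_apply, Submodule.Quotient.mk_eq_zero, LinearMap.mulLeft_apply,
      Ideal.mem_span_singleton] at hx
    obtain ⟨c, hc⟩ := hx
    rw [Submodule.Quotient.mk_eq_zero, Ideal.mem_span_singleton]
    refine ⟨c, mul_left_cancel₀ ha ?_⟩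
    rw [hc]; ring
  have hker : (g.ker : Set (O ⧸ Ideal.span {a * b})) = Set.range f := by
    ext z
    obtain ⟨z, rfl⟩ := Ideal.Quotient.mk_surjective z
    simp only [SetLike.mem_coe, AddMonoidHom.mem_ker, Set.mem_range]
    constructor
    · intro hz
      have hz' : (Ideal.Quotient.mk (Ideal.span {a})) z = 0 := hz
      rw [Ideal.Quotient.eq_zero_iff_mem, Ideal.mem_span_singleton] at hz'
      obtain ⟨c, rfl⟩ := hz'
      exact ⟨Submodule.Quotient.mk c, rfl⟩
    · rintro ⟨w, hw⟩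
      obtain ⟨w, rfl⟩ := Submodule.Quotient.mk_surjective _ w
      rw [← hw]
      show (Ideal.Quotient.mk (Ideal.span {a})) (a * w) = 0
      rw [Ideal.Quotient.eq_zero_iff_mem]
      exact Ideal.mul_mem_right _ _ (Ideal.mem_span_singleton_self a)
  have h1 : Nat.card g.ker * g.ker.index = Nat.card (O ⧸ Ideal.span {a * b}) :=
    AddSubgroup.card_mul_index _
  rw [AddSubgroup.index_ker, AddMonoidHom.range_eq_top.mpr hg] at h1
  have h2 : Nat.card g.ker = Nat.card (O ⧸ Ideal.span {b}) := by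
    have e1 : Nat.card g.ker = Nat.card (Set.range f) := by
      rw [← hker]; rfl
    rw [e1]
    exact (Nat.card_congr (Equiv.ofInjective f hf)).symm
  have h3 : Nat.card (⊤ : AddSubgroup (O ⧸ Ideal.span {a})) = Nat.card (O ⧸ Ideal.span {a}) :=
    Nat.card_congr AddSubgroup.topEquiv.toEquiv
  rw [h2, h3] at h1
  rw [← h1, mul_comm]

/-- `#(O/(∏ c_i)) = ∏ #(O/(c_i))` for nonzero `c_i` in a domain. -/
theorem card_quot_span_prod {ι : Type*} (s : Finset ι) (c : ι → O) (hc : ∀ i ∈ s, c i ≠ 0) :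
    Nat.card (O ⧸ Ideal.span {∏ i ∈ s, c i}) = ∏ i ∈ s, Nat.card (O ⧸ Ideal.span {c i}) := by
  classical
  induction s using Finset.induction_on with
  | empty =>
    rw [Finset.prod_empty, Finset.prod_empty, Ideal.span_singleton_one]
    exact Nat.card_unique
  | insert i s hi ih =>
    rw [Finset.prod_insert hi, Finset.prod_insert hi,
      card_quot_span_mul _ _ (hc i (Finset.mem_insert_self i s)),
      ih fun j hj => hc j (Finset.mem_insert_of_mem hj)]

end Card

section Adapted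

variable {O : Type*} [CommRing O] [IsDomain O] [IsDiscreteValuationRing O]
  [Finite (ResidueField O)]
  {T : Type*} [CommRing T] [IsLocalRing T] [Algebra O T] [Module.Finite O T] [Module.Free O T]

omit [Finite (ResidueField O)] [IsLocalRing T] [Module.Finite O T] [Module.Free O T] in
/-- a finite module over a DVR is torsion. -/
lemma isTorsion_of_finite (M : Type*) [AddCommGroup M] [Module O M] [Finite M] :
    Module.IsTorsion O M := by
  have hOinf : Infinite O := by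
    by_contra hfin
    rw [not_infinite_iff_finite] at hfin
    exact IsDiscreteValuationRing.not_isField O (Finite.isField_of_domain O)
  intro x
  obtain ⟨a, b, hab, heq⟩ := Finite.exists_ne_map_eq_of_infinite (fun a : O => a • x)
  refine ⟨⟨a - b, mem_nonZeroDivisors_of_ne_zero (sub_ne_zero.mpr hab)⟩, ?_⟩
  show (a - b) • x = 0
  rw [sub_smul, sub_eq_zero]
  exact heq

omit [Finite (ResidueField O)] [Module.Free O T] in
/-- **C2**, minimal hypotheses. -/
theorem exists_adapted_generators_aux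
    (π : T →ₐ[O] O) [Finite (RingHom.ker π).Cotangent] :
    ∃ (n : ℕ) (y : Fin n → T) (c : Fin n → O) (p : Matrix (Fin n) (Fin n) T),
      (∀ i, π (y i) = 0) ∧ Ideal.span (Set.range y) = RingHom.ker π ∧
      (∀ i j, π (p i j) = 0) ∧ (∀ i, c i • y i = ∑ j, p i j * y j) ∧
      (∏ i, c i) ≠ 0 ∧
      Nat.card (RingHom.ker π).Cotangent = Nat.card (O ⧸ Ideal.span {∏ i, c i}) := by
  classical
  have htors : Module.IsTorsion O (RingHom.ker π).Cotangent := isTorsion_of_finite _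
  have hfinM : Module.Finite O (RingHom.ker π).Cotangent := Module.Finite.of_finite
  obtain ⟨ι, hι, q, hq, e, ⟨E⟩⟩ := Module.equiv_directSum_of_isTorsion htors
  -- reindex by `Fin n`
  let σ : ι ≃ Fin (Fintype.card ι) := Fintype.equivFin ι
  let c : Fin (Fintype.card ι) → O := fun i => q (σ.symm i) ^ e (σ.symm i)
  let g0 : ι → (RingHom.ker π).Cotangent := fun j =>
    E.symm (DirectSum.lof O ι (fun j => O ⧸ Submodule.span O {q j ^ e j}) j
      (Submodule.Quotient.mk 1))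
  let gΦ : Fin (Fintype.card ι) → (RingHom.ker π).Cotangent := fun i => g0 (σ.symm i)
  have hc : ∀ i, c i ≠ 0 := fun i => pow_ne_zero _ (hq _).ne_zero
  -- `c i` kills `gΦ i`
  have hcg : ∀ i, c i • gΦ i = 0 := by
    intro i
    show c i • E.symm _ = 0
    rw [← map_smul, ← map_smul, ← Submodule.Quotient.mk_smul, smul_eq_mul, mul_one]
    have : (Submodule.Quotient.mk (c i) : O ⧸ Submodule.span O {q (σ.symm i) ^ e (σ.symm i)}) = 0 := by
      rw [Submodule.Quotient.mk_eq_zero]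
      exact Submodule.mem_span_singleton_self _
    rw [this, map_zero, map_zero]
  -- the `gΦ i` span
  have hspan : ∀ z : (RingHom.ker π).Cotangent, z ∈ Submodule.span O (Set.range gΦ) := by
    intro z
    obtain ⟨w, rfl⟩ := E.symm.surjective z
    induction w using DirectSum.induction_on with
    | zero => rw [map_zero]; exact Submodule.zero_mem _
    | of i x =>
      obtain ⟨a, rfl⟩ := Submodule.Quotient.mk_surjective _ x
      have h1 : (Submodule.Quotient.mk a : O ⧸ Submodule.span O {q i ^ e i})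
          = a • Submodule.Quotient.mk 1 := by
        rw [← Submodule.Quotient.mk_smul, smul_eq_mul, mul_one]
      have h2 : E.symm (DirectSum.of (fun j => O ⧸ Submodule.span O {q j ^ e j}) i
          (Submodule.Quotient.mk a)) = a • g0 i := by
        show _ = a • E.symm _
        rw [← map_smul, ← map_smul, ← h1]
        rfl
      have h3 : g0 i = gΦ (σ i) := by
        show g0 i = g0 (σ.symm (σ i))
        rw [Equiv.symm_apply_apply]
      rw [h2, h3]
      exact Submodule.smul_mem _ _ (Submodule.subset_span ⟨σ i, rfl⟩)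
    | add x y hx hy => rw [map_add]; exact Submodule.add_mem _ hx hy
  -- lifts
  choose y' hy' using fun i => (RingHom.ker π).toCotangent_surjective (gΦ i)
  let y : Fin (Fintype.card ι) → T := fun i => (y' i : T)
  have hyker : ∀ i, y i ∈ RingHom.ker π := fun i => (y' i).2
  have hle : Ideal.span (Set.range y) ≤ RingHom.ker π := by
    rw [Ideal.span_le]
    rintro _ ⟨i, rfl⟩
    exact hyker i
  -- Nakayama
  have hNoeth : IsNoetherianRing T := IsNoetherianRing.of_finite O T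
  have hne_top : RingHom.ker π ≠ ⊤ := RingHom.ker_ne_top _
  have hge : RingHom.ker π ≤ Ideal.span (Set.range y) := by
    refine Submodule.le_of_le_smul_of_le_jacobson_bot (IsNoetherian.noetherian _)
      (I := RingHom.ker π) ?_ ?_
    · rw [IsLocalRing.jacobson_eq_maximalIdeal ⊥ bot_ne_top]
      exact IsLocalRing.le_maximalIdeal hne_top
    · intro x hx
      obtain ⟨a, ha⟩ := (Submodule.mem_span_range_iff_exists_fun O).mp
        (hspan ((RingHom.ker π).toCotangent ⟨x, hx⟩))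
      have h1 : (RingHom.ker π).toCotangent ⟨x, hx⟩
          = (RingHom.ker π).toCotangent (∑ i, a i • y' i) := by
        rw [← ha, map_sum]
        refine Finset.sum_congr rfl fun i _ => ?_
        rw [LinearMap.map_smul_of_tower, hy']
      rw [Ideal.toCotangent_eq] at h1
      have h2 : x = (∑ i, a i • y i) + (x - ∑ i, a i • y i) := by ring
      rw [h2]
      refine Submodule.add_mem_sup ?_ ?_
      · refine Submodule.sum_mem _ fun i _ => ?_
        rw [Algebra.smul_def]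
        exact Ideal.mul_mem_left _ _ (Ideal.subset_span ⟨i, rfl⟩)
      · rw [smul_eq_mul, ← pow_two]
        convert h1 using 2
        simp only [y, AddSubmonoidClass.coe_finsetSum, Submodule.coe_smul_of_tower]
  have hspan_eq : Ideal.span (Set.range y) = RingHom.ker π := le_antisymm hle hge
  -- the relations
  have hrel : ∀ i, ∃ a : Fin (Fintype.card ι) → T, (∀ j, a j ∈ RingHom.ker π) ∧
      c i • y i = ∑ j, a j * y j := by
    intro i
    have h1 : (RingHom.ker π).toCotangent (c i • y' i) = 0 := by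
      rw [LinearMap.map_smul_of_tower, hy', hcg]
    rw [Ideal.toCotangent_eq_zero] at h1
    have h2 : (c i • y i : T) ∈ RingHom.ker π • Submodule.span T (Set.range y) := by
      have h3 : (Submodule.span T (Set.range y) : Submodule T T) = RingHom.ker π := hspan_eq
      rw [h3, smul_eq_mul, ← pow_two]
      exact h1
    obtain ⟨a, ha, hsum⟩ := (Submodule.mem_ideal_smul_span_iff_exists_sum _ _ _).mp h2
    refine ⟨a, ha, ?_⟩
    rw [← hsum, Finsupp.sum_fintype a (fun i c => c • y i) (fun i => zero_smul T (y i))]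
    simp only [smul_eq_mul]
  choose pm hpm hpm' using hrel
  refine ⟨Fintype.card ι, y, c, Matrix.of pm, fun i => RingHom.mem_ker.mp (hyker i), hspan_eq,
    fun i j => RingHom.mem_ker.mp (hpm i j), fun i => by simpa using hpm' i,
    Finset.prod_ne_zero_iff.mpr fun i _ => hc i, ?_⟩
  -- cardinality
  rw [card_quot_span_prod _ _ fun i _ => hc i]
  rw [Nat.card_congr (E.toEquiv.trans
    (DirectSum.linearEquivFunOnFintype O ι (fun j => O ⧸ Submodule.span O {q j ^ e j})).toEquiv),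
    Nat.card_pi]
  exact (Fintype.prod_equiv σ.symm _ _ fun i => rfl).symm

omit [Finite (ResidueField O)] [Module.Free O T] in
/-- **C3**, minimal hypotheses. -/
theorem card_quot_etaIdeal_le_aux
    (π : T →ₐ[O] O) [Finite (RingHom.ker π).Cotangent] :
    etaIdeal π ≠ ⊥ ∧ Nat.card (O ⧸ etaIdeal π) ≤ Nat.card (RingHom.ker π).Cotangent := by
  classical
  obtain ⟨n, y, c, p, hy, hspan, hp, hrel, hprod, hcard⟩ := exists_adapted_generators_aux π
  let g : Matrix (Fin n) (Fin n) T := Matrix.diagonal (fun i => algebraMap O T (c i)) - p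
  have hgy : g.mulVec y = 0 := by
    ext i
    have h1 : (Matrix.diagonal (fun i => algebraMap O T (c i))).mulVec y i
        = algebraMap O T (c i) * y i := Matrix.mulVec_diagonal _ _ _
    have h2 : p.mulVec y i = ∑ j, p i j * y j := rfl
    rw [Matrix.sub_mulVec, Pi.sub_apply, h1, h2, ← Algebra.smul_def, hrel i, sub_self]
    rfl
  have hdet : ∀ i, g.det * y i = 0 := by
    intro i
    have h1 : (g.adjugate * g).mulVec y = 0 := by
      rw [← Matrix.mulVec_mulVec, hgy, Matrix.mulVec_zero]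
    rw [Matrix.adjugate_mul, Matrix.smul_mulVec, Matrix.one_mulVec] at h1
    have := congrFun h1 i
    simpa using this
  have hann : g.det ∈ (RingHom.ker π).annihilator := by
    rw [← hspan, Submodule.mem_annihilator_span]
    rintro ⟨_, i, rfl⟩
    exact hdet i
  have hπdet : π g.det = ∏ i, c i := by
    have h1 : π g.det = ((π : T →+* O).mapMatrix g).det := RingHom.map_det (π : T →+* O) g
    have h2 : (π : T →+* O).mapMatrix g = Matrix.diagonal c := by
      ext i j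
      simp only [g, RingHom.mapMatrix_apply, Matrix.map_apply, Matrix.sub_apply,
        Matrix.diagonal_apply]
      split_ifs with hij
      · simp [hp]
      · simp [hp]
    rw [h1, h2, Matrix.det_diagonal]
  have hmem : (∏ i, c i) ∈ etaIdeal π := by
    rw [← hπdet]
    exact Ideal.mem_map_of_mem _ hann
  refine ⟨fun h => hprod ?_, ?_⟩
  · rw [h] at hmem
    exact hmem
  · rw [hcard]
    have hle : Ideal.span {∏ i, c i} ≤ etaIdeal π :=
      (Ideal.span_singleton_le_iff_mem _).mpr hmem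
    have hfin : Finite (O ⧸ Ideal.span {∏ i, c i}) :=
      Nat.finite_of_card_ne_zero (by rw [← hcard]; exact Nat.card_pos.ne')
    exact Nat.card_le_card_of_surjective _ (Ideal.Quotient.factor_surjective hle)

end Adapted

/-! ### the statements of the skeleton, verbatim -/

/-- **C2** (adapted generators + Fitting inequality).  For `T` local, finite free over the DVR
`O`, with finite cotangent space `Φ = 𝔭/𝔭²`: there are `y_i ∈ 𝔭` generating the ideal `𝔭`,
and `c_i ∈ O`, `p_ij ∈ 𝔭` with `c_i y_i = ∑_j p_ij y_j`, such that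
`#Φ = #(O ⧸ (∏ c_i))`; in particular `∏ c_i ∈ η` and `#(O ⧸ η) ≤ #Φ`. -/
theorem exists_adapted_generators
    {O : Type*} [CommRing O] [IsDomain O] [IsDiscreteValuationRing O] [Finite (ResidueField O)]
    {T : Type*} [CommRing T] [IsLocalRing T] [Algebra O T] [Module.Finite O T] [Module.Free O T]
    (π : T →ₐ[O] O) [Finite (RingHom.ker π).Cotangent] :
    ∃ (n : ℕ) (y : Fin n → T) (c : Fin n → O) (p : Matrix (Fin n) (Fin n) T),
      (∀ i, π (y i) = 0) ∧ Ideal.span (Set.range y) = RingHom.ker π ∧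
      (∀ i j, π (p i j) = 0) ∧ (∀ i, c i • y i = ∑ j, p i j * y j) ∧
      (∏ i, c i) ≠ 0 ∧
      Nat.card (RingHom.ker π).Cotangent = Nat.card (O ⧸ Ideal.span {∏ i, c i}) :=
  exists_adapted_generators_aux π

/-- **C3** (Fitting inequality `Fitt Φ_T ⊆ η_T`, cardinality form). -/
theorem card_quot_etaIdeal_le
    {O : Type*} [CommRing O] [IsDomain O] [IsDiscreteValuationRing O] [Finite (ResidueField O)]
    {T : Type*} [CommRing T] [IsLocalRing T] [Algebra O T] [Module.Finite O T] [Module.Free O T]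
    (π : T →ₐ[O] O) [Finite (RingHom.ker π).Cotangent] :
    etaIdeal π ≠ ⊥ ∧ Nat.card (O ⧸ etaIdeal π) ≤ Nat.card (RingHom.ker π).Cotangent :=
  card_quot_etaIdeal_le_aux π

end Fermat.Agent.S59.H360

end
-- ===== PACK-END S59/H360/NCFlat.lean

-- ===== PACK-BEGIN S59/H427/LenDet.lean
section



/-!
# S59 / N1 (helper427): cokernel of a square matrix over a PID

`card_quotient_range_mulVecLin`: for a square matrix `J` over a principal ideal domain `O` with
`det J ≠ 0`, `#(Oⁿ / J Oⁿ) = #(O / det J)` (as `Nat.card`, no finiteness assumption).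
-/

set_option autoImplicit false
set_option linter.unusedSectionVars false

namespace Fermat.Agent.S59.H427

open Module Submodule

section LenDet

variable {O : Type*} [CommRing O] [IsDomain O] [IsPrincipalIdealRing O]

/-- Cramer's rule over any commutative ring: `det G * v j ∈ (G v)`. -/
theorem det_mul_mem_span_mulVec {A : Type*} [CommRing A] {ι : Type*} [Fintype ι] [DecidableEq ι]
    (G : Matrix ι ι A) (v : ι → A) (j : ι) :
    G.det * v j ∈ Ideal.span (Set.range fun i => ∑ k, G i k * v k) := by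
  have h1 : G.adjugate.mulVec (G.mulVec v) = G.det • v := by
    rw [Matrix.mulVec_mulVec, Matrix.adjugate_mul, Matrix.smul_mulVec, Matrix.one_mulVec]
  have h2 := congrFun h1 j
  simp only [Matrix.mulVec, dotProduct, Pi.smul_apply, smul_eq_mul] at h2
  rw [← h2]
  exact Ideal.sum_mem _ fun i _ => Ideal.mul_mem_left _ _ (Ideal.subset_span ⟨i, rfl⟩)

/-- **LENDET**: `#(Oⁿ / J Oⁿ) = #(O / det J)` for `det J ≠ 0` over a PID. -/
theorem card_quotient_range_mulVecLin {n : ℕ} (J : Matrix (Fin n) (Fin n) O) (hdet : J.det ≠ 0) :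
    Nat.card ((Fin n → O) ⧸ LinearMap.range J.mulVecLin) =
      Nat.card (O ⧸ Ideal.span {J.det}) := by
  classical
  set f : (Fin n → O) →ₗ[O] (Fin n → O) := J.mulVecLin with hf
  have hinj : Function.Injective f := by
    rw [← LinearMap.ker_eq_bot, LinearMap.ker_eq_bot']
    intro v hv
    exact Matrix.eq_zero_of_mulVec_eq_zero hdet hv
  set N : Submodule O (Fin n → O) := LinearMap.range f with hN
  let e : (Fin n → O) ≃ₗ[O] N := LinearEquiv.ofInjective f hinj
  have h : Module.finrank O N = Module.finrank O (Fin n → O) := e.symm.finrank_eq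
  let b : Basis (Fin n) O (Fin n → O) := Pi.basisFun O (Fin n)
  let a := smithNormalFormCoeffs b h
  let b' := smithNormalFormTopBasis b h
  let ab := smithNormalFormBotBasis b h
  have ab_eq := smithNormalFormBotBasis_def b h
  let e' : (Fin n → O) ≃ₗ[O] N := b'.equiv ab (Equiv.refl _)
  let g : (Fin n → O) →ₗ[O] (Fin n → O) := N.subtype.comp (e' : (Fin n → O) →ₗ[O] N)
  have hg : ∀ i, g (b' i) = a i • b' i := by
    intro i
    show ((b'.equiv ab (Equiv.refl _) (b' i) : N) : Fin n → O) = _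
    rw [b'.equiv_apply, Equiv.refl_apply]
    exact ab_eq i
  have hdetg : LinearMap.det g = ∏ i, a i := by
    rw [← LinearMap.det_toMatrix b', ← Matrix.det_diagonal]
    congr 1
    ext i j
    rw [LinearMap.toMatrix_apply, hg, map_smul, Basis.repr_self, Finsupp.smul_single,
      smul_eq_mul, mul_one]
    by_cases hij : i = j
    · rw [hij, Matrix.diagonal_apply_eq, Finsupp.single_eq_same]
    · rw [Matrix.diagonal_apply_ne _ hij, Finsupp.single_eq_of_ne hij]
  have hfe : f = N.subtype.comp (e : (Fin n → O) →ₗ[O] N) := by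
    ext v : 1
    rfl
  have hdetf : LinearMap.det f = J.det := by
    rw [hf, ← Matrix.toLin'_apply', LinearMap.det_toLin']
  have hassoc : Associated J.det (∏ i, a i) := by
    rw [← hdetf, ← hdetg, hfe]
    exact LinearMap.associated_det_comp_equiv _ _ _
  have hspan : Ideal.span {J.det} = Ideal.span {∏ i, a i} :=
    Ideal.span_singleton_eq_span_singleton.mpr hassoc
  rw [hspan, Nat.card_congr (quotientEquivPiSpan N b h).toEquiv, Nat.card_pi]
  have := Fermat.Agent.S59.H360.card_quot_span_prod (O := O) Finset.univ a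
    (fun i _ => smithNormalFormCoeffs_ne_zero b h i)
  rw [this]

end LenDet

end Fermat.Agent.S59.H427

end
-- ===== PACK-END S59/H427/LenDet.lean

-- ===== PACK-BEGIN S59/NM/H709/LocLift.lean
section



/-!
# S59 / cell NM, leaf ETAB (helper709): lifting `Ann(ker π)` from a localization

`T` a localization of a Noetherian ring `A` at a submonoid `M`, `π : T → O` an augmentation,
`e ∈ Ann_T(ker π)`.  Then there is `e₁ ∈ A` with `π(e₁) = c · π(e)`, `c` a unit of `O`, and
`k · e₁ = 0` for every `k ∈ A` with `π(k) = 0`.  (No idempotents needed.)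
-/

set_option autoImplicit false

namespace Fermat.Agent.S59.NM.H709

open Fermat.Agent.S59

theorem exists_lift_annAug {O A T : Type*} [CommRing O] [CommRing A] [Algebra O A] [CommRing T]
    [Algebra O T] [Algebra A T] (M : Submonoid A) [IsLocalization M T]
    [IsNoetherianRing A] (π : T →ₐ[O] O) (e : T) (he : e ∈ NC.annAug π) :
    ∃ (e1 : A) (c : O), IsUnit c ∧ π (algebraMap A T e1) = c * π e ∧
      ∀ k : A, π (algebraMap A T k) = 0 → k * e1 = 0 := by
  classical
  obtain ⟨⟨e0, s⟩, hes⟩ := IsLocalization.surj M e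
  simp only at hes
  let πA : A →+* O := (π : T →+* O).comp (algebraMap A T)
  let I : Ideal A := RingHom.ker πA
  have hI : ∀ k : A, k ∈ I ↔ π (algebraMap A T k) = 0 := fun k => RingHom.mem_ker
  obtain ⟨gens, hgens⟩ : I.FG := IsNoetherian.noetherian I
  have h1 : ∀ k : A, k ∈ I → ∃ m : M, (m : A) * (k * e0) = 0 := by
    intro k hk
    apply (IsLocalization.map_eq_zero_iff M T _).mp
    have h0 : e * algebraMap A T k = 0 :=
      NC.mem_annAug.mp he _ (NC.mem_augIdeal.mpr ((hI k).mp hk))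
    rw [map_mul, ← hes, ← mul_assoc, mul_comm (algebraMap A T k) e, h0, zero_mul]
  choose! f hf using h1
  set s' : A := ∏ k ∈ gens, ((f k : M) : A) with hs'
  have hs'M : s' ∈ M := by
    rw [hs']
    exact Submonoid.prod_mem M fun k _ => (f k).2
  have h2 : ∀ k : A, k ∈ I → s' * (k * e0) = 0 := by
    intro k hk
    rw [← hgens] at hk
    induction hk using Submodule.span_induction with
    | mem k hk =>
      have hkI : k ∈ I := by
        rw [← hgens]
        exact Submodule.subset_span hk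
      obtain ⟨c, hc⟩ := Finset.dvd_prod_of_mem (fun k => ((f k : M) : A)) (Finset.mem_coe.mp hk)
      rw [hs', hc, mul_comm ((f k : M) : A) c, mul_assoc, hf k hkI, mul_zero]
    | zero => rw [zero_mul, mul_zero]
    | add x y _ _ hx hy => rw [add_mul, mul_add, hx, hy, add_zero]
    | smul a x _ hx =>
      rw [smul_eq_mul, mul_assoc, mul_left_comm, hx, mul_zero]
  refine ⟨s' * e0, π (algebraMap A T s') * π (algebraMap A T s), ?_, ?_, ?_⟩
  · exact ((IsLocalization.map_units T ⟨s', hs'M⟩).map π).mul ((IsLocalization.map_units T s).map π)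
  · rw [map_mul, map_mul, ← hes, map_mul]
    ring
  · intro k hk
    rw [mul_left_comm]
    exact h2 k ((hI k).mpr hk)

end Fermat.Agent.S59.NM.H709

end
-- ===== PACK-END S59/NM/H709/LocLift.lean

-- ===== PACK-BEGIN S59/H405/TWQuadA.lean
section



/-!
# S59 / G-TW (helper405): an open subgroup of index `2` of `G_ℚ` is the stabiliser of `√d`

* `exists_anti` : an element `α ≠ 0` with `σ α = α` on `G'` and `σ α = -α` off `G'`;
* `exists_sqrt_of_index_two` : a squarefree integer `d ≠ 1` and `β` with `β² = d` with the same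
  property.
-/

set_option autoImplicit false

namespace Fermat.Agent.S59.H405

open Fermat.Agent.S55.Bridge

attribute [local instance] isAlgebraic_Qbar isGalois_Qbar

/-- `ℚ̄` -/
abbrev QbT : Type := AlgebraicClosure ℚ

/-- `Gal(ℚ̄/ℚ)` -/
abbrev GQT : Type := AlgebraicClosure ℚ ≃ₐ[ℚ] AlgebraicClosure ℚ

/-- `β` is fixed by `G'` and negated by the complement of `G'`. -/
def IsAnti (G' : Subgroup GQT) (β : QbT) : Prop :=
  ∀ σ : GQT, (σ ∈ G' → σ β = β) ∧ (σ ∉ G' → σ β = -β)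

theorem IsAnti.smul_rat {G' : Subgroup GQT} {β : QbT} (h : IsAnti G' β) (t : ℚ) :
    IsAnti G' (algebraMap ℚ QbT t * β) := by
  intro σ
  constructor
  · intro hσ
    rw [map_mul, (h σ).1 hσ, AlgEquiv.commutes]
  · intro hσ
    rw [map_mul, (h σ).2 hσ, AlgEquiv.commutes, mul_neg]

/-- the square of an anti-invariant element is rational -/
theorem IsAnti.sq_rat {G' : Subgroup GQT} {β : QbT} (h : IsAnti G' β) :
    ∃ r : ℚ, algebraMap ℚ QbT r = β ^ 2 := by
  have hfix : ∀ f : GQT, f (β ^ 2) = β ^ 2 := by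
    intro f
    by_cases hf : f ∈ G'
    · rw [map_pow, (h f).1 hf]
    · rw [map_pow, (h f).2 hf, neg_sq]
  exact (InfiniteGalois.mem_range_algebraMap_iff_fixed (k := ℚ) (K := QbT) (β ^ 2)).mpr hfix

/-- a quotient of anti-invariant elements is rational -/
theorem IsAnti.div_rat {G' : Subgroup GQT} {β y : QbT} (h : IsAnti G' β) (hy : IsAnti G' y)
    (hβ : β ≠ 0) : ∃ t : ℚ, y = algebraMap ℚ QbT t * β := by
  have hfix : ∀ f : GQT, f (y / β) = y / β := by
    intro f
    by_cases hf : f ∈ G'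
    · rw [map_div₀, (h f).1 hf, (hy f).1 hf]
    · rw [map_div₀, (h f).2 hf, (hy f).2 hf, neg_div_neg_eq]
  obtain ⟨t, ht⟩ :=
    (InfiniteGalois.mem_range_algebraMap_iff_fixed (k := ℚ) (K := QbT) (y / β)).mpr hfix
  exact ⟨t, by rw [ht, div_mul_cancel₀ _ hβ]⟩

section Open

variable (G' : Subgroup GQT)

theorem exists_fixed_not_rat (hG' : G'.index = 2) (hopen : IsOpen (G' : Set GQT)) :
    ∃ x : QbT, (∀ σ ∈ G', σ x = x) ∧ ∃ g : GQT, g x ≠ x := by
  by_contra hcon
  push_neg at hcon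
  have hclosed : IsClosed (G' : Set GQT) := Subgroup.isClosed_of_isOpen G' hopen
  let H : ClosedSubgroup GQT := ⟨G', hclosed⟩
  have h1 : (IntermediateField.fixedField H.toSubgroup).fixingSubgroup = G' :=
    InfiniteGalois.fixingSubgroup_fixedField H
  have h2 : IntermediateField.fixedField H.toSubgroup = ⊥ := by
    rw [eq_bot_iff]
    intro x hx
    rw [IntermediateField.mem_fixedField_iff] at hx
    exact (InfiniteGalois.mem_bot_iff_fixed (k := ℚ) (K := QbT) x).mpr (hcon x hx)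
  rw [h2, IntermediateField.fixingSubgroup_bot] at h1
  rw [← h1, Subgroup.index_top] at hG'
  omega

/-- the fixed field of a normal subgroup is stable under the whole group -/
theorem fixed_apply (hnorm : G'.Normal) {x : QbT} (hx : ∀ σ ∈ G', σ x = x) (g : GQT) :
    ∀ σ ∈ G', σ (g x) = g x := by
  intro σ hσ
  have h1 : g⁻¹ * σ * g ∈ G' := by
    have := hnorm.conj_mem σ hσ g⁻¹
    rwa [inv_inv] at this
  have h2 : σ * g = g * (g⁻¹ * σ * g) := by group
  calc σ (g x) = (σ * g) x := rfl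
    _ = (g * (g⁻¹ * σ * g)) x := by rw [h2]
    _ = g ((g⁻¹ * σ * g) x) := rfl
    _ = g x := by rw [hx _ h1]

/-- two elements outside a subgroup of index `2` act in the same way on its fixed field -/
theorem apply_eq_of_not_mem (hG' : G'.index = 2) {x : QbT} (hx : ∀ σ ∈ G', σ x = x)
    {g σ : GQT} (hg : g ∉ G') (hσ : σ ∉ G') : σ x = g x := by
  have hinv : g⁻¹ ∉ G' := fun h => hg (by simpa using G'.inv_mem h)
  have h1 : g⁻¹ * σ ∈ G' :=
    (Subgroup.mul_mem_iff_of_index_two hG').mpr (iff_of_false hinv hσ)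
  have h2 : σ = g * (g⁻¹ * σ) := by group
  calc σ x = (g * (g⁻¹ * σ)) x := by rw [← h2]
    _ = g ((g⁻¹ * σ) x) := rfl
    _ = g x := by rw [hx _ h1]

/-- an element outside a subgroup of index `2` acts as an involution on its fixed field -/
theorem apply_apply_of_fixed (hG' : G'.index = 2) {x : QbT} (hx : ∀ σ ∈ G', σ x = x)
    (g : GQT) : g (g x) = x :=
  hx _ (Subgroup.mul_self_mem_of_index_two hG' g)

/-- `x - g x` is anti-invariant for `x` in the fixed field and `g ∉ G'` -/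
theorem isAnti_sub (hG' : G'.index = 2) {x : QbT} (hx : ∀ σ ∈ G', σ x = x)
    {g : GQT} (hg : g ∉ G') : IsAnti G' (x - g x) := by
  have hnorm : G'.Normal := Subgroup.normal_of_index_eq_two hG'
  have hfix := fixed_apply G' hnorm hx g
  intro σ
  constructor
  · intro hσ
    rw [map_sub, hx σ hσ, hfix σ hσ]
  · intro hσ
    rw [map_sub, apply_eq_of_not_mem G' hG' hx hg hσ, apply_eq_of_not_mem G' hG' hfix hg hσ,
      apply_apply_of_fixed G' hG' hx g]
    ring

/-- An open subgroup of index `2` is the stabiliser of an element `α ≠ 0` which is negated by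
the complement. -/
theorem exists_anti (hG' : G'.index = 2) (hopen : IsOpen (G' : Set GQT)) :
    ∃ α : QbT, α ≠ 0 ∧ IsAnti G' α := by
  obtain ⟨x, hx, g, hg⟩ := exists_fixed_not_rat G' hG' hopen
  have hgG : g ∉ G' := fun h => hg (hx g h)
  exact ⟨x - g x, fun h => hg (sub_eq_zero.mp h).symm, isAnti_sub G' hG' hx hgG⟩

end Open

end Fermat.Agent.S59.H405

end
-- ===== PACK-END S59/H405/TWQuadA.lean

-- ===== PACK-BEGIN S58/Glue.lean
section



/-!
# S58 — glue (helper41): conductor–level matching from the leaves of `S58/Spec.lean`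

`s58_of_leaves : S35Statement → S36Statement → FrobExistsStatement → TateRepStatement →
  CoeffStatement → ChebCharpolyStatement → ResidualStatement → PointCountStatement →
  Newform.Descent → Newform.Stab → S58Statement`
-/

set_option autoImplicit false

open Polynomial

namespace Fermat.Agent.S58

open Fermat.Agent.Lib.Newform

section Poly

variable {R : Type} [CommRing R]

theorem coeff_one_quad (a b : R) : (X ^ 2 - C a * X + C b : R[X]).coeff 1 = -a := by
  simp [coeff_C]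

theorem quad_left_injective {a a' b b' : R}
    (h : (X ^ 2 - C a * X + C b : R[X]) = X ^ 2 - C a' * X + C b') : a = a' := by
  have := congrArg (fun P : R[X] => P.coeff 1) h
  simp only [coeff_one_quad] at this
  exact neg_injective this

theorem quad_plus_eq (a b : R) : (X ^ 2 + C a * X + C b : R[X]) = X ^ 2 - C (-a) * X + C b := by
  simp [sub_eq_add_neg]

end Poly

section Nat

theorem dvd_of_squarefree_of_prime_dvd {M D : ℕ} (hM : Squarefree M)
    (h : ∀ q : ℕ, q.Prime → q ∣ M → q ∣ D) : M ∣ D := by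
  have hM0 : M ≠ 0 := hM.ne_zero
  rw [← Nat.prod_primeFactors_of_squarefree hM]
  refine Finset.prod_primes_dvd D (fun q hq => (Nat.prime_of_mem_primeFactors hq).prime)
    (fun q hq => h q (Nat.prime_of_mem_primeFactors hq) (Nat.dvd_of_mem_primeFactors hq))

theorem squarefree_of_forall_not_sq_dvd {M : ℕ}
    (h : ∀ q : ℕ, q.Prime → ¬ q ^ 2 ∣ M) : Squarefree M := by
  rw [Nat.squarefree_iff_prime_squarefree]
  intro q hq hqq
  exact h q hq (by rwa [pow_two])

theorem factorization_eq_two_of_sq_dvd {M q : ℕ} (hq : q.Prime) (hM : M ≠ 0)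
    (h2 : q ^ 2 ∣ M) (h3 : ¬ q ^ 3 ∣ M) : M.factorization q = 2 := by
  have h2' := (hq.pow_dvd_iff_le_factorization hM).1 h2
  have h3' : ¬ 3 ≤ M.factorization q := fun h => h3 ((hq.pow_dvd_iff_le_factorization hM).2 h)
  omega

end Nat

section Iota

variable {M : ℕ} [NeZero M] {S : Set ℕ} {O' : Type} [CommRing O']

theorem iota_eq_intCast (chig : CuspForm.heckeAlgebra M 2 S →+* ℂ) (iota : chig.range →+* O')
    (t : CuspForm.heckeAlgebra M 2 S) (a : ℤ) (h : chig t = (a : ℂ)) :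
    (iota.comp chig.rangeRestrict) t = (a : O') := by
  have h1 : chig.rangeRestrict t = ((a : ℤ) : chig.range) := Subtype.ext (by simpa using h)
  rw [RingHom.comp_apply, h1, map_intCast]

theorem eq_intCast_of_iota (chig : CuspForm.heckeAlgebra M 2 S →+* ℂ) (iota : chig.range →+* O')
    (hiota : Function.Injective iota)
    (t : CuspForm.heckeAlgebra M 2 S) (a : ℤ) (h : (iota.comp chig.rangeRestrict) t = (a : O')) :
    chig t = (a : ℂ) := by
  have h1 : chig.rangeRestrict t = ((a : ℤ) : chig.range) :=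
    hiota (by rw [map_intCast]; exact h)
  have h2 := congrArg Subtype.val h1
  simpa using h2

end Iota

/-- **Comparison with the Tate module.**  A `lam`-adic representation `ρ` with the Frobenius
characteristic polynomials of the newform `g` (level `M ∣ N`, same eigenvalues as `W` at the good
primes not dividing `N`) has the characteristic polynomials of the Tate module of `W`:
it is unipotent on every inertia group away from `lam`, and `a_ℓ(g) = a_ℓ(W)` at all good
`ℓ ∤ M`, `ℓ ≠ lam`. -/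
theorem compare_tate (htate : TateRepStatement) (hcheb : ChebCharpolyStatement)
    (W : WeierstrassCurve ℤ) (hΔ : W.Δ ≠ 0) (hss : W.IsSemistableModel)
    {N M : ℕ} (hN0 : N ≠ 0) (hMN : M ∣ N) [NeZero M]
    (g : CuspForm (CongruenceSubgroup.Gamma0 M) 2)
    (hgW : ∀ ℓ : ℕ, ℓ.Prime → W.IsGoodPrimeFor ℓ → ¬ ℓ ∣ N →
      ModularFormClass.qCoeff g ℓ = (W.apOfModel ℓ : ℂ))
    (lam : ℕ) [Fact lam.Prime] (hlam2 : lam ≠ 2)
    (O' : Type) [CommRing O']
    (chig : CuspForm.heckeAlgebra M 2 (↑(insert lam M.primeFactors : Finset ℕ) : Set ℕ) →+* ℂ)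
    (hchig : ∀ (ℓ : ℕ) (hℓ : ℓ.Prime) (hℓM : ¬ ℓ ∣ M)
      (hℓS : ℓ ∉ (↑(insert lam M.primeFactors : Finset ℕ) : Set ℕ)),
      chig (CuspForm.heckeAlgebra.T hℓ hℓM hℓS) = ModularFormClass.qCoeff g ℓ)
    (iota : chig.range →+* O')
    (O'' : Type) [CommRing O''] [IsDomain O''] [IsDiscreteValuationRing O'']
    [IsAdicComplete (IsLocalRing.maximalIdeal O'') O''] [Finite (IsLocalRing.ResidueField O'')]
    [CharZero O''] [Algebra O' O'']
    (hlamO'' : (lam : O'') ∈ IsLocalRing.maximalIdeal O'')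
    (ρ : GaloisRepAdic O'')
    (hρ : ∀ (ℓ : ℕ) (hℓ : ℓ.Prime) (hℓM : ¬ ℓ ∣ M)
      (hℓS : ℓ ∉ (↑(insert lam M.primeFactors : Finset ℕ) : Set ℕ)),
      ∀ A : ValuationSubring (AlgebraicClosure ℚ), A.LiesOverPrime ℓ →
        ∀ σ : AlgebraicClosure ℚ ≃ₐ[ℚ] AlgebraicClosure ℚ, A.IsFrobeniusAt σ ℓ →
          LinearMap.charpoly (ρ.ρ σ) =
            X ^ 2 - C (algebraMap O' O'' ((iota.comp chig.rangeRestrict)
              (CuspForm.heckeAlgebra.T hℓ hℓM hℓS))) * X + C ((ℓ : O''))) :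
    (∀ q : ℕ, q.Prime → q ≠ lam → ρ.IsUnipotentOnInertiaAt q) ∧
    (∀ ℓ : ℕ, ℓ.Prime → W.IsGoodPrimeFor ℓ → ℓ ≠ lam →
      ∀ A : ValuationSubring (AlgebraicClosure ℚ), A.LiesOverPrime ℓ →
        ∀ σ : AlgebraicClosure ℚ ≃ₐ[ℚ] AlgebraicClosure ℚ, A.IsFrobeniusAt σ ℓ →
          LinearMap.charpoly (ρ.ρ σ) =
            X ^ 2 - C ((W.apOfModel ℓ : ℤ) : O'') * X + C ((ℓ : O''))) := by
  classical
  obtain ⟨ρW, hρW, hρWu⟩ := htate lam hlam2 W hΔ hss O'' hlamO''
  -- the finite set of excluded primes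
  let T : Finset ℕ := N.primeFactors ∪ insert lam (W.Δ.natAbs.primeFactors)
  have hT : ∀ ℓ : ℕ, ℓ.Prime → ℓ ∉ T → ¬ ℓ ∣ N ∧ ℓ ≠ lam ∧ W.IsGoodPrimeFor ℓ := by
    intro ℓ hℓ hℓT
    simp only [T, Finset.mem_union, Finset.mem_insert, not_or] at hℓT
    refine ⟨fun h => hℓT.1 (Nat.mem_primeFactors.mpr ⟨hℓ, h, hN0⟩), hℓT.2.1, ?_⟩
    intro h
    apply hℓT.2.2
    rw [Nat.mem_primeFactors]
    refine ⟨hℓ, ?_, Int.natAbs_ne_zero.mpr hΔ⟩
    exact Int.natCast_dvd.mp h
  have hall : ∀ σ : AlgebraicClosure ℚ ≃ₐ[ℚ] AlgebraicClosure ℚ,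
      LinearMap.charpoly (ρ.ρ σ) = LinearMap.charpoly (ρW.ρ σ) := by
    refine hcheb O'' ρ ρW T ?_
    intro ℓ hℓ hℓT A hA σ hσ
    obtain ⟨hℓN, hℓlam, hℓgood⟩ := hT ℓ hℓ hℓT
    have hℓM : ¬ ℓ ∣ M := fun h => hℓN (dvd_trans h hMN)
    have hℓS : ℓ ∉ (↑(insert lam M.primeFactors : Finset ℕ) : Set ℕ) := by
      simp only [Finset.coe_insert, Set.mem_insert_iff, Finset.mem_coe, not_or]
      exact ⟨hℓlam, fun h => hℓM (Nat.dvd_of_mem_primeFactors h)⟩
    rw [hρ ℓ hℓ hℓM hℓS A hA σ hσ, hρW ℓ hℓ hℓgood hℓlam A hA σ hσ,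
      iota_eq_intCast chig iota _ (W.apOfModel ℓ)
        ((hchig ℓ hℓ hℓM hℓS).trans (hgW ℓ hℓ hℓgood hℓN)), map_intCast]
  refine ⟨?_, ?_⟩
  · intro q hq hqlam P hP σ hσ
    rw [hall σ]
    exact hρWu q hq hqlam P hP σ hσ
  · intro ℓ hℓ hgood hℓlam A hA σ hσ
    rw [hall σ]
    exact hρW ℓ hℓ hgood hℓlam A hA σ hσ

/-- The image of a non-unit natural number under a local homomorphism is a non-unit. -/
theorem natCast_mem_maximalIdeal_of_isLocalHom {O' O'' : Type} [CommRing O'] [IsLocalRing O']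
    [CommRing O''] [IsLocalRing O''] [Algebra O' O''] [IsLocalHom (algebraMap O' O'')] {n : ℕ}
    (h : (n : O') ∈ IsLocalRing.maximalIdeal O') : (n : O'') ∈ IsLocalRing.maximalIdeal O'' := by
  rw [IsLocalRing.mem_maximalIdeal, mem_nonunits_iff] at h ⊢
  intro hu
  apply h
  have : algebraMap O' O'' (n : O') = (n : O'') := map_natCast _ _
  rw [← this] at hu
  exact IsUnit.of_map (algebraMap O' O'') _ hu

/-- **S58 from the leaves.** -/
theorem s58_of_leaves (h35 : S35Statement) (h36 : S36Statement) (hfrob : FrobExistsStatement)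
    (htate : TateRepStatement) (hcoeff : CoeffStatement) (hcheb : ChebCharpolyStatement)
    (hres : ResidualStatement) (hcount : PointCountStatement)
    (hdesc : H958.Descent) (hstab : H958.Stab) : S58Statement := by
  intro W hss N p _ hp2 hirr hp2N hN hbad hN3
  classical
  have hpp : p.Prime := Fact.out
  have hN0 : N ≠ 0 := by
    rintro rfl
    exact hN3 2 Nat.prime_two (dvd_zero _)
  haveI : NeZero N := ⟨hN0⟩
  have hΔ : W.Δ ≠ 0 := by
    intro h0
    obtain ⟨ℓ, hℓN, hℓ⟩ := Nat.exists_infinite_primes (N + 1)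
    have h1 := hbad ℓ hℓ (by rw [h0]; exact dvd_zero _)
    have h2 := Nat.le_of_dvd (Nat.pos_of_ne_zero hN0) h1
    omega
  obtain ⟨f, hf, hfa⟩ := hN
  obtain ⟨M, hMN, g, hg, hga⟩ := hdesc N f hf
  have hM0 : M ≠ 0 := fun h => hN0 (by rw [h] at hMN; exact zero_dvd_iff.mp hMN)
  haveI : NeZero M := ⟨hM0⟩
  have hgW : ∀ ℓ : ℕ, ℓ.Prime → W.IsGoodPrimeFor ℓ → ¬ ℓ ∣ N →
      ModularFormClass.qCoeff g ℓ = (W.apOfModel ℓ : ℂ) :=
    fun ℓ hℓ hgood hℓN => (hga ℓ hℓ hℓN).trans (hfa ℓ hℓ hgood hℓN)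
  have hS : ∀ (lam ℓ : ℕ), ℓ.Prime → ℓ ≠ lam → ¬ ℓ ∣ M →
      ℓ ∉ (↑(insert lam M.primeFactors : Finset ℕ) : Set ℕ) := by
    intro lam ℓ _ hℓlam hℓM
    simp only [Finset.coe_insert, Set.mem_insert_iff, Finset.mem_coe, not_or]
    exact ⟨hℓlam, fun h => hℓM (Nat.dvd_of_mem_primeFactors h)⟩
  have hMS : ∀ (lam q : ℕ), q.Prime → q ∣ M → q ∈ insert lam M.primeFactors :=
    fun lam q hq hqM => Finset.mem_insert_of_mem (Nat.mem_primeFactors.mpr ⟨hq, hqM, hM0⟩)
  -- the package at an odd prime `lam`, from S35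
  have key : ∀ (lam : ℕ) [Fact lam.Prime], lam ≠ 2 →
      (∀ ℓ : ℕ, ℓ.Prime → W.IsGoodPrimeFor ℓ → ℓ ≠ lam → ¬ ℓ ∣ M →
        ModularFormClass.qCoeff g ℓ = (W.apOfModel ℓ : ℂ)) ∧
      (∀ q : ℕ, q.Prime → q ≠ lam → q ∣ M → ¬ q ^ 2 ∣ M → ¬ W.IsGoodPrimeFor q) := by
    intro lam _ hlam2
    obtain ⟨chig, hchig, O', i1, i2, i3, i4, i5, i6, hlamO', iota, hiota⟩ :=
      hcoeff M g hg.1 (insert lam M.primeFactors) lam
    obtain ⟨O'', j1, j2, j3, j4, j5, j6, j7, j8, j9, hinj, ρ, hρ, hρst⟩ :=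
      h35 hg lam (insert lam M.primeFactors) O' hlamO' chig hchig iota
        (Finset.mem_insert_self _ _) (hMS lam)
    have hlamO'' : (lam : O'') ∈ IsLocalRing.maximalIdeal O'' :=
      natCast_mem_maximalIdeal_of_isLocalHom hlamO'
    obtain ⟨-, hchar⟩ := compare_tate htate hcheb W hΔ hss hN0 hMN g hgW lam hlam2 O' chig hchig
      iota O'' hlamO'' ρ hρ
    refine ⟨?_, ?_⟩
    · intro ℓ hℓ hgood hℓlam hℓM
      obtain ⟨A, σ, hA, hσ⟩ := hfrob ℓ hℓ
      have h1 := hρ ℓ hℓ hℓM (hS lam ℓ hℓ hℓlam hℓM) A hA σ hσ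
      have h2 := hchar ℓ hℓ hgood hℓlam A hA σ hσ
      have h3 := quad_left_injective (h1.symm.trans h2)
      have h4 : (iota.comp chig.rangeRestrict)
          (CuspForm.heckeAlgebra.T hℓ hℓM (hS lam ℓ hℓ hℓlam hℓM)) = ((W.apOfModel ℓ : ℤ) : O') :=
        hinj (by rw [h3, map_intCast])
      rw [← hchig ℓ hℓ hℓM (hS lam ℓ hℓ hℓlam hℓM)]
      exact eq_intCast_of_iota chig iota hiota _ _ h4
    · intro q hq hqlam hqM hq2 hgood
      obtain ⟨A, σ, hA, hσ⟩ := hfrob q hq
      have h2 := hchar q hq hgood hqlam A hA σ hσ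
      rcases hρst q hq hqlam hqM hq2 A hA σ hσ with h1 | h1
      · have h3 := quad_left_injective (h1.symm.trans h2)
        have h4 : (((q : ℤ) + 1 : ℤ) : O'') = ((W.apOfModel q : ℤ) : O'') := by
          rw [← h3]; push_cast; rfl
        exact (hcount W q hq).1 (Int.cast_injective h4).symm
      · rw [quad_plus_eq] at h1
        have h3 := quad_left_injective (h1.symm.trans h2)
        have h4 : ((-((q : ℤ) + 1) : ℤ) : O'') = ((W.apOfModel q : ℤ) : O'') := by
          rw [← h3]; push_cast; rfl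
        exact (hcount W q hq).2 (Int.cast_injective h4).symm
  -- no prime `q ≠ p` with `q² ∥ M`, from S36
  have hno2 : ∀ q : ℕ, q.Prime → q ≠ p → M.factorization q ≠ 2 := by
    intro q hq hqp hfact
    obtain ⟨chig, hchig, O', i1, i2, i3, i4, i5, i6, hlamO', iota, hiota⟩ :=
      hcoeff M g hg.1 (insert p M.primeFactors) p
    -- the set of primes excluded in the residual statement
    let T : Finset ℕ := N.primeFactors ∪ insert p (W.Δ.natAbs.primeFactors)
    have hT : ∀ ℓ : ℕ, ℓ.Prime → ℓ ∉ T → ¬ ℓ ∣ N ∧ ℓ ≠ p ∧ W.IsGoodPrimeFor ℓ := by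
      intro ℓ hℓ hℓT
      simp only [T, Finset.mem_union, Finset.mem_insert, not_or] at hℓT
      refine ⟨fun h => hℓT.1 (Nat.mem_primeFactors.mpr ⟨hℓ, h, hN0⟩), hℓT.2.1, ?_⟩
      intro h
      apply hℓT.2.2
      rw [Nat.mem_primeFactors]
      exact ⟨hℓ, Int.natCast_dvd.mp h, Int.natAbs_ne_zero.mpr hΔ⟩
    obtain ⟨O'', j1, j2, j3, j4, j5, j6, j7, j8, j9, hinj, ρ, hρ, hρnu⟩ :=
      h36 hg p (insert p M.primeFactors) O' hlamO' hp2 chig hchig iota
        (Finset.mem_insert_self _ _) (hMS p) (by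
          intro O'' _ _ _ _ _ _ _ _ _ _ ρ hρ
          have hpO'' : (p : O'') ∈ IsLocalRing.maximalIdeal O'' :=
            natCast_mem_maximalIdeal_of_isLocalHom hlamO'
          refine hres p hp2 W hΔ hirr O'' hpO'' ρ T ?_
          intro ℓ hℓ hℓT A hA σ hσ
          obtain ⟨hℓN, hℓp, hℓgood⟩ := hT ℓ hℓ hℓT
          have hℓM : ¬ ℓ ∣ M := fun h => hℓN (dvd_trans h hMN)
          rw [hρ ℓ hℓ hℓp hℓM (hS p ℓ hℓ hℓp hℓM) A hA σ hσ,
            iota_eq_intCast chig iota _ (W.apOfModel ℓ)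
              ((hchig ℓ hℓ hℓM (hS p ℓ hℓ hℓp hℓM)).trans (hgW ℓ hℓ hℓgood hℓN)), map_intCast])
    have hpO'' : (p : O'') ∈ IsLocalRing.maximalIdeal O'' :=
      natCast_mem_maximalIdeal_of_isLocalHom hlamO'
    obtain ⟨hunip, -⟩ := compare_tate htate hcheb W hΔ hss hN0 hMN g hgW p hp2 O' chig hchig
      iota O'' hpO'' ρ hρ
    exact hρnu q hq hqp hfact (hunip q hq hqp)
  -- a second odd prime
  obtain ⟨p', hp', hp'2, hp'p⟩ : ∃ p' : ℕ, p'.Prime ∧ p' ≠ 2 ∧ p' ≠ p := by
    by_cases h3 : p = 3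
    · exact ⟨5, by norm_num, by norm_num, by omega⟩
    · exact ⟨3, by norm_num, by norm_num, fun h => h3 h.symm⟩
  haveI : Fact p'.Prime := ⟨hp'⟩
  obtain ⟨hB, hC⟩ := key p hp2
  obtain ⟨hB', hC'⟩ := key p' hp'2
  -- `M` is squarefree
  have hsq : Squarefree M := by
    refine squarefree_of_forall_not_sq_dvd fun q hq hq2 => ?_
    by_cases hqp : q = p
    · subst hqp
      exact hp2N (dvd_trans hq2 hMN)
    · exact hno2 q hq hqp (factorization_eq_two_of_sq_dvd hq hM0 hq2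
        (fun h3 => hN3 q hq (dvd_trans h3 hMN)))
  -- the primes of `M` are bad
  have hMbad : ∀ q : ℕ, q.Prime → q ∣ M → (q : ℤ) ∣ W.Δ := by
    intro q hq hqM
    have hq2 : ¬ q ^ 2 ∣ M := by
      intro h
      have := (Nat.squarefree_iff_prime_squarefree.mp hsq) q hq
      exact this (by rwa [← pow_two])
    by_contra hgood
    by_cases hqp : q = p
    · exact hC' q hq (fun h => hp'p (h.symm.trans hqp)) hqM hq2 hgood
    · exact hC q hq hqp hqM hq2 hgood
  have hMD : M ∣ W.conductorLevel :=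
    dvd_of_squarefree_of_prime_dvd hsq fun q hq hqM =>
      (W.prime_dvd_conductorLevel_iff hΔ hq).mpr (hMbad q hq hqM)
  obtain ⟨g', hg', hg'a⟩ := hstab M W.conductorLevel hMD g hg.1
  refine ⟨g', hg', fun ℓ hℓ hgood hℓD => ?_⟩
  have hℓM : ¬ ℓ ∣ M := fun h => hℓD (dvd_trans h hMD)
  rw [hg'a ℓ hℓ hℓD]
  by_cases hℓp : ℓ = p
  · exact hB' ℓ hℓ hgood (fun h => hp'p (h.symm.trans hℓp)) hℓM
  · exact hB ℓ hℓ hgood hℓp hℓM

end Fermat.Agent.S58

end
-- ===== PACK-END S58/Glue.lean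

-- ===== PACK-BEGIN S57.lean
section






set_option autoImplicit false
open Algebra Algebra.PatchingLevel

namespace Fermat.Agent.S57

open MvPowerSeries RingTheory.Sequence IsLocalRing in
/-- The module `L.N` of a patching level with trivial relation ideal is free over the power
series ring (for its own module structure): it is maximal Cohen-Macaulay over a regular local
ring. -/
theorem free_N
    {𝒪 : Type} [CommRing 𝒪] [IsDomain 𝒪] [IsDiscreteValuationRing 𝒪]
    {r : ℕ} {R : Type} [CommRing R] [Algebra 𝒪 R]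
    {M : Type} [AddCommGroup M] [Module R M] [Nontrivial M]
    (L : Algebra.PatchingLevel 𝒪 r R M ⊥) :
    Module.Free (MvPowerSeries (Fin r) 𝒪) L.N := by
  classical
  obtain ⟨ϖ, hirr, hreg, hmax, hlen⟩ := exists_isRegular_paramList r 𝒪
  have := finite_N L
  have := nontrivial_N L
  have : Nontrivial R := Module.nontrivial R M
  -- the `φ X_i` lie in the maximal ideal
  have hX : ∀ i : Fin r, L.φ (X i) ∈ maximalIdeal (MvPowerSeries (Fin r) 𝒪) := by
    intro i
    rw [IsLocalRing.mem_maximalIdeal, mem_nonunits_iff]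
    intro hu
    have h1 : IsUnit (L.ψ (L.φ (X i))) := hu.map L.ψ
    rw [L.ψ_φ_X i] at h1
    exact not_isUnit_zero h1
  have hC : L.φ (C ϖ) ∈ maximalIdeal (MvPowerSeries (Fin r) 𝒪) := by
    have h1 : (C ϖ : MvPowerSeries (Fin r) 𝒪) = algebraMap 𝒪 (MvPowerSeries (Fin r) 𝒪) ϖ := rfl
    rw [h1, AlgHom.commutes, ← h1, ← hmax]
    exact Ideal.subset_span (by simp [paramList])
  have hmem : ∀ y ∈ (paramList r 𝒪 ϖ).map L.φ, y ∈ maximalIdeal (MvPowerSeries (Fin r) 𝒪) := by
    intro y hy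
    obtain ⟨x, hx, rfl⟩ := List.mem_map.mp hy
    simp only [paramList, varList, List.mem_append, List.mem_ofFn, List.mem_singleton] at hx
    rcases hx with ⟨i, rfl⟩ | rfl
    · exact hX i
    · exact hC
  have hwr : IsWeaklyRegular L.N ((paramList r 𝒪 ϖ).map L.φ) :=
    isWeaklyRegular_map_phi L hreg.toIsWeaklyRegular
  refine ABLite.free_of_isWeaklyRegular (paramList r 𝒪 ϖ).toFinset ?_
    ((paramList r 𝒪 ϖ).map L.φ) ?_ hmem hwr
  · rw [← hmax]
    unfold Ideal.ofList
    congr 1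
    ext x
    simp
  · rw [List.length_map]
    exact List.toFinset_card_le _

theorem result
    {𝒪 : Type} [CommRing 𝒪] [IsDomain 𝒪] [IsDiscreteValuationRing 𝒪]
    {r : ℕ} {R : Type} [CommRing R] [Algebra 𝒪 R]
    {M : Type} [AddCommGroup M] [Module R M] [Nontrivial M]
    (L : Algebra.PatchingLevel 𝒪 r R M ⊥) :
    Module.Free R M ∧ Module.annihilator R M = ⊥ ∧
      RingHom.ker L.ψ = Ideal.span (Set.range fun i : Fin r => L.φ (MvPowerSeries.X i)) := by
  have := free_N L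
  exact endgame L

end Fermat.Agent.S57

end
-- ===== PACK-END S57.lean

-- ===== PACK-BEGIN S59/MFree/H779/EllAux.lean
section


/-!
# S59 / M-FREE, case (B) (helper779): the hypothesis (Ell) at an auxiliary level `r ≡ 2 mod 3`

For `p = 3` the hypothesis (Ell) of `MFree.free` (elements of finite order of `Γ₀(M)` lie in
`ker κ`) can fail: `Γ₀(M)` may contain elements of order `3`.  At an auxiliary level it holds:

* `not_dvd_sq_add_self_add_one_h779`: a prime `r ≡ 2 mod 3` divides no `d² + d + 1`;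
* `tr2_of_finOrder_gamma0_h779`: an element of finite order of `Γ₀(r)`, `r ≡ 2 mod 3` prime, has
  trace `2`, `-2` or `0`, hence `g ^ 4 = 1` (`pow_four_eq_one_of_gamma0_h779`);
* `ellAux_h779`: for a `3`-group `D`, `κ : Γ₀(M) →* D` kills every element of finite order of
  `Γ₀(M) ∩ Γ₀(r)` (this is the hypothesis `hellr` of `H779.FreeAuxStatement`).
-/

set_option autoImplicit false

namespace Fermat.Agent.S59.MFree.H779

open Matrix CongruenceSubgroup
open Fermat.Agent.S41.H952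
open scoped MatrixGroups

/-- A prime `r ≡ 2 mod 3` divides no value of `X² + X + 1`. -/
theorem not_dvd_sq_add_self_add_one_h779 (r : ℕ) [hr : Fact r.Prime] (hr3 : r % 3 = 2) (d : ℤ) :
    ¬ (r : ℤ) ∣ d ^ 2 + d + 1 := by
  intro hdvd
  have h0 : ((d ^ 2 + d + 1 : ℤ) : ZMod r) = 0 := (ZMod.intCast_zmod_eq_zero_iff_dvd _ r).2 hdvd
  push_cast at h0
  set x : ZMod r := (d : ZMod r) with hx
  have hx3 : x ^ 3 = 1 := by
    have : x ^ 3 - 1 = (x - 1) * (x ^ 2 + x + 1) := by ring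
    rw [h0, mul_zero] at this
    exact sub_eq_zero.1 this
  have hx1 : x ≠ 1 := by
    intro h1
    rw [h1] at h0
    have h3 : ((3 : ℕ) : ZMod r) = 0 := by
      rw [← h0]
      norm_num
    have hdvd3 : r ∣ 3 := (ZMod.natCast_eq_zero_iff 3 r).1 h3
    have hle : r ≤ 3 := Nat.le_of_dvd (by norm_num) hdvd3
    have h2 := hr.out.two_le
    interval_cases r
    · omega
    · omega
  have hx0 : x ≠ 0 := by
    intro h
    rw [h] at hx3
    norm_num at hx3
  have hord : orderOf x = 3 := by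
    have : Fact (Nat.Prime 3) := ⟨Nat.prime_three⟩
    exact orderOf_eq_prime hx3 hx1
  have hpow : x ^ (r - 1) = 1 := ZMod.pow_card_sub_one_eq_one hx0
  have hdvd3 : 3 ∣ r - 1 := by
    rw [← hord]
    exact orderOf_dvd_of_pow_eq_one hpow
  have h2 := hr.out.two_le
  omega

/-- An element of finite order of `Γ₀(r)`, `r ≡ 2 mod 3` prime, has trace `2`, `-2` or `0`. -/
theorem tr2_of_finOrder_gamma0_h779 (r : ℕ) [Fact r.Prime] (hr3 : r % 3 = 2) (g : SL(2, ℤ))
    (hgr : g ∈ Gamma0 r) (hg : IsOfFinOrder g) : tr2 g = 2 ∨ tr2 g = -2 ∨ tr2 g = 0 := by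
  have hb := abs_tr2_le_two hg
  rw [abs_le] at hb
  have hc : (r : ℤ) ∣ g.1 1 0 := by
    rw [Gamma0_mem] at hgr
    exact (ZMod.intCast_zmod_eq_zero_iff_dvd _ r).1 hgr
  obtain ⟨k, hk⟩ := hc
  have hcay := cayley g
  have h11 := congrFun (congrFun hcay 1) 1
  rw [Matrix.mul_apply, Fin.sum_univ_two, Matrix.sub_apply, Matrix.smul_apply,
    Matrix.one_apply_eq, smul_eq_mul] at h11
  unfold tr2 at h11
  have hcases : tr2 g = 2 ∨ tr2 g = -2 ∨ tr2 g = 0 ∨ tr2 g = 1 ∨ tr2 g = -1 := by omega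
  rcases hcases with ht | ht | ht | ht | ht
  · exact Or.inl ht
  · exact Or.inr (Or.inl ht)
  · exact Or.inr (Or.inr ht)
  · exfalso
    unfold tr2 at ht
    refine not_dvd_sq_add_self_add_one_h779 r hr3 (-(g.1 1 1)) ⟨-(k * g.1 0 1), ?_⟩
    have ha : g.1 0 0 = 1 - g.1 1 1 := by linarith
    rw [ha, hk] at h11
    linear_combination h11
  · exfalso
    unfold tr2 at ht
    refine not_dvd_sq_add_self_add_one_h779 r hr3 (g.1 1 1) ⟨-(k * g.1 0 1), ?_⟩
    have ha : g.1 0 0 = -1 - g.1 1 1 := by linarith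
    rw [ha, hk] at h11
    linear_combination h11

/-- An element of finite order of `Γ₀(r)`, `r ≡ 2 mod 3` prime, satisfies `g ^ 4 = 1`. -/
theorem pow_four_eq_one_of_gamma0_h779 (r : ℕ) [Fact r.Prime] (hr3 : r % 3 = 2) (g : SL(2, ℤ))
    (hgr : g ∈ Gamma0 r) (hg : IsOfFinOrder g) : g ^ 4 = 1 := by
  have hneg : ((-1 : SL(2, ℤ))) ^ 2 = 1 := by
    rw [pow_two]
    simp
  rcases tr2_of_finOrder_gamma0_h779 r hr3 g hgr hg with ht | ht | ht
  · rw [eq_one_of_tr2_eq_two hg ht, one_pow]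
  · have h1 : -g = 1 := eq_one_of_tr2_eq_two (isOfFinOrder_neg hg) (by rw [tr2_neg, ht]; norm_num)
    have h2 : g = -1 := by rw [← h1, neg_neg]
    rw [h2, show (4 : ℕ) = 2 * 2 from rfl, pow_mul, hneg, one_pow]
  · have h2 : g ^ 2 = -1 := by
      apply Subtype.ext
      have h := cayley g
      rw [ht, zero_smul, zero_sub] at h
      rw [pow_two, Matrix.SpecialLinearGroup.coe_mul, h]
      simp [Matrix.SpecialLinearGroup.coe_neg]
    rw [show (4 : ℕ) = 2 * 2 from rfl, pow_mul, h2, hneg]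

/-- **(Ell) at the auxiliary level.**  If `D` is a `3`-group and `r ≡ 2 mod 3` is prime, every
`κ : Γ₀(M) →* D` kills the elements of finite order of `Γ₀(M) ∩ Γ₀(r)`. -/
theorem ellAux_h779 (M r : ℕ) [Fact r.Prime] (hr3 : r % 3 = 2) (D : Type*) [Group D] [Fintype D]
    (κ : Gamma0 M →* D) (hcard : ∃ a : ℕ, Fintype.card D = 3 ^ a) (g : Gamma0 M)
    (hgr : (g : SL(2, ℤ)) ∈ Gamma0 r) (hg : IsOfFinOrder g) : κ g = 1 := by
  obtain ⟨a, ha⟩ := hcard
  have hg' : IsOfFinOrder (g : SL(2, ℤ)) := Submonoid.isOfFinOrder_coe.2 hg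
  have h4 : g ^ 4 = 1 := by
    apply Subtype.ext
    rw [Subgroup.coe_pow, Subgroup.coe_one]
    exact pow_four_eq_one_of_gamma0_h779 r hr3 _ hgr hg'
  have hk4 : κ g ^ 4 = 1 := by rw [← map_pow, h4, map_one]
  have hk3 : κ g ^ 3 ^ a = 1 := by rw [← ha]; exact pow_card_eq_one
  have hgcd : Nat.gcd 4 (3 ^ a) = 1 := Nat.Coprime.pow_right a (by norm_num)
  have := pow_gcd_eq_one.2 ⟨hk4, hk3⟩
  rwa [hgcd, pow_one] at this

end Fermat.Agent.S59.MFree.H779

end
-- ===== PACK-END S59/MFree/H779/EllAux.lean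

-- ===== PACK-BEGIN S55/E1/H353/Alg8Core.lean
section


/-!
# S55, engine E1, block ALG8 (helper353): the abstract count

Pure algebra (Mathlib only).  Setting: `V` an abelian group killed by `p` (think `H¹(G, N)`), `W`
an abelian group with cyclic `p`-torsion (think `H²(G, C)`), `A` an abelian group with an
additive pairing `α : A → Hom(V, W)` (think `A = Hom_G(R, C)`, `α f = ⟨f, ·⟩`), a subgroup
`B = ker α` (think `res Bc(C)`), subgroups `A_i ≤ A` and `K_i ≤ V` with
`α(A_i) = {χ | χ(K_i) = 0}` (think `A_i = j_i ∘ A(J_i)`, `K_i = ker res_i`: this is ALG7).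

* `mem_sup_iff_core` : `a ∈ B ⊔ ⨆ i, A_i ↔ α a` vanishes on `⨅ i, K_i`;
* `card_quotient_core` : if moreover `α` is surjective and `V` is finite, then
  `A ⧸ (B ⊔ ⨆ i, A_i)` is finite of cardinality `|⨅ i, K_i|`.
-/

set_option autoImplicit false
set_option linter.unusedSectionVars false
set_option linter.style.haveILetI false

namespace Fermat.Agent.S55.E1.H353

section Core

variable {p : ℕ} [Fact p.Prime] {A V W : Type} [AddCommGroup A] [AddCommGroup V] [AddCommGroup W]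

/-- The subgroup of those `a : A` whose pairing `α a` vanishes on `K`. -/
def annSub (α : A →+ (V →+ W)) (K : AddSubgroup V) : AddSubgroup A where
  carrier := {a | ∀ v ∈ K, α a v = 0}
  zero_mem' := fun v _ => by simp
  add_mem' := fun {a b} ha hb v hv => by
    rw [map_add, AddMonoidHom.add_apply, ha v hv, hb v hv, add_zero]
  neg_mem' := fun {a} ha v hv => by
    rw [map_neg, AddMonoidHom.neg_apply, ha v hv, neg_zero]

lemma mem_annSub (α : A →+ (V →+ W)) (K : AddSubgroup V) (a : A) :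
    a ∈ annSub α K ↔ ∀ v ∈ K, α a v = 0 := Iff.rfl

/-- Every homomorphism from a group killed by `p` to a group without `p`-torsion is zero. -/
lemma hom_eq_zero_of_no_torsion (hV : ∀ v : V, p • v = 0)
    (hW : ∀ w : W, p • w = 0 → w = 0) (χ : V →+ W) : χ = 0 := by
  ext v
  apply hW
  rw [← map_nsmul, hV, map_zero]

variable (hV : ∀ v : V, p • v = 0) (hcyc : CyclicPTorsion p W)
  (α : A →+ (V →+ W)) (B : AddSubgroup A) (hB : ∀ a, a ∈ B ↔ α a = 0)
  {ι : Type} [Finite ι] (Ai : ι → AddSubgroup A) (Ki : ι → AddSubgroup V)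
  (hi : ∀ (i : ι) (χ : V →+ W), (∃ a ∈ Ai i, α a = χ) ↔ ∀ v ∈ Ki i, χ v = 0)

include hB hi in
lemma sup_le_annSub : B ⊔ ⨆ i, Ai i ≤ annSub α (⨅ i, Ki i) := by
  refine sup_le ?_ (iSup_le ?_)
  · intro b hb v _
    rw [(hB b).1 hb]
    rfl
  · intro i a ha v hv
    exact (hi i (α a)).1 ⟨a, ha, rfl⟩ v ((iInf_le Ki i) hv)

/-- The subspace of `V` attached to the subgroup `K_i`. -/
abbrev subK [Module (ZMod p) V] (Ki : ι → AddSubgroup V) (i : ι) : Submodule (ZMod p) V :=
  AddSubgroup.toZModSubmodule p (Ki i)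

lemma mem_iInf_subK [Module (ZMod p) V] (Ki : ι → AddSubgroup V) (v : V) :
    v ∈ (⨅ i, subK (p := p) Ki i) ↔ v ∈ ⨅ i, Ki i := by
  rw [Submodule.mem_iInf, AddSubgroup.mem_iInf]
  exact forall_congr' fun i => AddSubgroup.mem_toZModSubmodule p

include hB hi in
/-- The case where `W` has nonzero `p`-torsion generated by `g.w₀`. -/
lemma annSub_le_sup_of_pGen [Module (ZMod p) V] (g : PGen p W) :
    annSub α (⨅ i, Ki i) ≤ B ⊔ ⨆ i, Ai i := by
  intro a ha
  -- the functional attached to `α a`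
  have hφ : g.homEquivDual V (α a) ∈ Submodule.dualAnnihilator (⨅ i, subK (p := p) Ki i) := by
    rw [Submodule.mem_dualAnnihilator]
    intro v hv
    rw [g.homEquivDual_apply_eq_zero_iff]
    apply ha
    exact (mem_iInf_subK Ki v).1 hv
  rw [Subspace.dualAnnihilator_iInf_eq] at hφ
  have key : ∃ a' ∈ ⨆ i, Ai i, g.homEquivDual V (α a') = g.homEquivDual V (α a) := by
    refine Submodule.iSup_induction (fun i => (subK (p := p) Ki i).dualAnnihilator)
      (motive := fun ψ => ∃ a' ∈ ⨆ i, Ai i, g.homEquivDual V (α a') = ψ) hφ ?_ ?_ ?_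
    · intro i ψ hψ
      rw [Submodule.mem_dualAnnihilator] at hψ
      have h1 : ∀ v ∈ Ki i, (g.homEquivDual V).symm ψ v = 0 := by
        intro v hv
        rw [g.homEquivDual_symm_apply, hψ v ((AddSubgroup.mem_toZModSubmodule p).2 hv), map_zero]
      obtain ⟨a', ha', hα⟩ := (hi i _).2 h1
      exact ⟨a', (le_iSup Ai i) ha', by rw [hα, AddEquiv.apply_symm_apply]⟩
    · exact ⟨0, zero_mem _, by rw [map_zero, map_zero]⟩
    · rintro ψ ψ' ⟨a₁, h₁, rfl⟩ ⟨a₂, h₂, rfl⟩
      exact ⟨a₁ + a₂, add_mem h₁ h₂, by rw [map_add, map_add]⟩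
  obtain ⟨a', ha', hα⟩ := key
  have h2 : α a' = α a := (g.homEquivDual V).injective hα
  have h3 : a - a' ∈ B := by
    rw [hB, map_sub, h2, sub_self]
  have h4 : a = (a - a') + a' := by abel
  rw [h4]
  exact AddSubgroup.add_mem_sup h3 ha'

include hV hcyc hB hi in
/-- **ALG8, membership criterion.**  `a ∈ B + ∑ A_i` iff `α a` vanishes on `⋂ K_i`. -/
theorem mem_sup_iff_core (a : A) :
    a ∈ B ⊔ ⨆ i, Ai i ↔ ∀ v ∈ ⨅ i, Ki i, α a v = 0 := by
  constructor
  · intro ha
    exact sup_le_annSub α B hB Ai Ki hi ha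
  · intro ha
    by_cases hW : ∀ w : W, p • w = 0 → w = 0
    · have h0 : α a = 0 := hom_eq_zero_of_no_torsion hV hW _
      exact (le_sup_left : B ≤ B ⊔ ⨆ i, Ai i) ((hB a).2 h0)
    · obtain ⟨w₀, hw⟩ := not_forall.1 hW
      obtain ⟨hw₀, hne⟩ := Classical.not_imp.1 hw
      letI : Module (ZMod p) V := AddCommGroup.zmodModule hV
      exact annSub_le_sup_of_pGen α B hB Ai Ki hi (hcyc.pGen w₀ hw₀ hne) ha

/-- The cardinality of the dual of a finite `𝔽_p`-vector space. -/
lemma card_dual_eq (M : Type) [AddCommGroup M] [Module (ZMod p) M] [Finite M] :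
    Nat.card (Module.Dual (ZMod p) M) = Nat.card M := by
  classical
  haveI : Module.Finite (ZMod p) M := Module.Finite.of_finite
  have b := Module.Free.chooseBasis (ZMod p) M
  exact (Nat.card_congr (b.toDualEquiv).toEquiv).symm

lemma finite_dual (M : Type) [AddCommGroup M] [Module (ZMod p) M] [Finite M] :
    Finite (Module.Dual (ZMod p) M) :=
  DFunLike.finite (Module.Dual (ZMod p) M)

section Count

variable [Module (ZMod p) V]

/-- The composite `A → Hom(V, W) ≃ Dual V → Dual Ш`, `Ш = ⋂ K_i`. -/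
noncomputable def psiHom (g : PGen p W) (α : A →+ (V →+ W)) (K : AddSubgroup V) :
    A →+ Module.Dual (ZMod p) ↥(AddSubgroup.toZModSubmodule p K) :=
  ((AddSubgroup.toZModSubmodule p K).dualRestrict).toAddMonoidHom.comp
    ((g.homEquivDual V).toAddMonoidHom.comp α)

lemma psiHom_apply (g : PGen p W) (α : A →+ (V →+ W)) (K : AddSubgroup V) (a : A)
    (v : ↥(AddSubgroup.toZModSubmodule p K)) :
    psiHom g α K a v = g.homEquivDual V (α a) (v : V) := rfl

lemma psiHom_surjective (g : PGen p W) (α : A →+ (V →+ W)) (hsurj : Function.Surjective α)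
    (K : AddSubgroup V) : Function.Surjective (psiHom g α K) := by
  intro ψ
  obtain ⟨φ, hφ⟩ := Subspace.dualRestrict_surjective (W := AddSubgroup.toZModSubmodule p K) ψ
  obtain ⟨a, ha⟩ := hsurj ((g.homEquivDual V).symm φ)
  refine ⟨a, ?_⟩
  change (AddSubgroup.toZModSubmodule p K).dualRestrict (g.homEquivDual V (α a)) = ψ
  rw [ha, AddEquiv.apply_symm_apply, hφ]

lemma mem_ker_psiHom (g : PGen p W) (α : A →+ (V →+ W)) (K : AddSubgroup V) (a : A) :
    a ∈ (psiHom g α K).ker ↔ ∀ v ∈ K, α a v = 0 := by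
  rw [AddMonoidHom.mem_ker]
  constructor
  · intro h v hv
    have h1 := congrArg
      (fun ψ : Module.Dual (ZMod p) ↥(AddSubgroup.toZModSubmodule p K) =>
        ψ ⟨v, (AddSubgroup.mem_toZModSubmodule p).2 hv⟩) h
    change g.homEquivDual V (α a) v = 0 at h1
    exact (g.homEquivDual_apply_eq_zero_iff V (α a) v).1 h1
  · intro h
    ext ⟨v, hv⟩
    change g.homEquivDual V (α a) v = 0
    exact (g.homEquivDual_apply_eq_zero_iff V (α a) v).2
      (h v ((AddSubgroup.mem_toZModSubmodule p).1 hv))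

lemma card_quotient_ker_psiHom [Finite V] (g : PGen p W) (α : A →+ (V →+ W))
    (hsurj : Function.Surjective α) (K : AddSubgroup V) :
    Finite (A ⧸ (psiHom g α K).ker) ∧ Nat.card (A ⧸ (psiHom g α K).ker) = Nat.card ↥K := by
  have e1 : A ⧸ (psiHom g α K).ker ≃+ Module.Dual (ZMod p) ↥(AddSubgroup.toZModSubmodule p K) :=
    QuotientAddGroup.quotientKerEquivOfSurjective _ (psiHom_surjective g α hsurj K)
  haveI : Finite ↥(AddSubgroup.toZModSubmodule p K) :=
    Finite.of_injective (fun x : ↥(AddSubgroup.toZModSubmodule p K) => (x : V))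
      Subtype.val_injective
  haveI : Finite (Module.Dual (ZMod p) ↥(AddSubgroup.toZModSubmodule p K)) := finite_dual _
  refine ⟨Finite.of_equiv _ e1.symm.toEquiv, ?_⟩
  rw [Nat.card_congr e1.toEquiv, card_dual_eq]
  exact Nat.card_congr (Equiv.setCongr (AddSubgroup.coe_toZModSubmodule p K))

end Count

include hV hcyc hB hi in
/-- **ALG8, the count.**  If `α` is surjective and `V` is finite (and `W` has nonzero
`p`-torsion as soon as `V ≠ 0`), then `A ⧸ (B + ∑ A_i)` is finite of cardinality `|⋂ K_i|`. -/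
theorem card_quotient_core [Finite V] (hsurj : Function.Surjective α)
    (hVW : (∃ v : V, v ≠ 0) → ∃ w : W, w ≠ 0 ∧ p • w = 0) :
    Finite (A ⧸ (B ⊔ ⨆ i, Ai i)) ∧
      Nat.card (A ⧸ (B ⊔ ⨆ i, Ai i)) = Nat.card ↥(⨅ i, Ki i) := by
  by_cases hVtriv : ∀ v : V, v = 0
  · -- `V = 0`: both sides are trivial
    have hB' : ∀ a : A, a ∈ B ⊔ ⨆ i, Ai i := by
      intro a
      apply (le_sup_left : B ≤ B ⊔ ⨆ i, Ai i)
      rw [hB]
      ext v
      rw [hVtriv v, map_zero]
      rfl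
    haveI : Subsingleton (A ⧸ (B ⊔ ⨆ i, Ai i)) := by
      refine ⟨fun x y => ?_⟩
      induction x using QuotientAddGroup.induction_on with
      | H a =>
        induction y using QuotientAddGroup.induction_on with
        | H b =>
          rw [QuotientAddGroup.eq]
          exact hB' _
    haveI : Subsingleton ↥(⨅ i, Ki i) :=
      ⟨fun x y => Subtype.ext ((hVtriv x).trans (hVtriv y).symm)⟩
    refine ⟨inferInstance, ?_⟩
    rw [Nat.card_unique, Nat.card_unique]
  · obtain ⟨v₁, hv₁⟩ := not_forall.1 hVtriv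
    obtain ⟨w₀, hne, hw₀⟩ := hVW ⟨v₁, hv₁⟩
    letI : Module (ZMod p) V := AddCommGroup.zmodModule hV
    have hker : (psiHom (hcyc.pGen w₀ hw₀ hne) α (⨅ i, Ki i)).ker = B ⊔ ⨆ i, Ai i := by
      ext a
      rw [mem_ker_psiHom, mem_sup_iff_core hV hcyc α B hB Ai Ki hi a]
    obtain ⟨h1, h2⟩ := card_quotient_ker_psiHom (hcyc.pGen w₀ hw₀ hne) α hsurj (⨅ i, Ki i)
    rw [hker] at h1 h2
    exact ⟨h1, h2⟩

end Core

end Fermat.Agent.S55.E1.H353

end
-- ===== PACK-END S55/E1/H353/Alg8Core.lean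

-- ===== PACK-BEGIN S55/E1/H114/NormKill.lean
section
/-
S55 engine E1, block ALG — helper114.
Abstract core of the norm-kill lemma ALG4 (pure additive-group form, Mathlib only).

`G` finite group, `H ≤ G`, `0 → R → P → N → 0` an exact sequence of `G`-modules (only the actions
on `R`, `P` are used), `p N = 0`, `H` acts trivially on `N`, `C` a `G`-module with
`N_H(C) ⊆ p • C^H`.  Then for every ADDITIVE `ψ : R → C` the norm `N_G ψ = ∑_g g ψ g⁻¹`
extends to an additive `G`-equivariant map `P → C`.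
-/



set_option autoImplicit false

namespace Fermat.Agent.S55.E1.H114

section actions

/-- An additive endomorphism as an additive homomorphism. -/
def endHom {C : Type*} [AddCommGroup C] (f : AddMonoid.End C) : C →+ C := f

@[simp] lemma endHom_apply {C : Type*} [AddCommGroup C] (f : AddMonoid.End C) (c : C) :
    endHom f c = f c := rfl

variable {G : Type*} [Group G] {C : Type*} [AddCommGroup C] (aC : G →* AddMonoid.End C)

lemma act_mul (g h : G) (c : C) : aC (g * h) c = aC g (aC h c) := by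
  rw [map_mul]; rfl

lemma act_one (c : C) : aC 1 c = c := by
  rw [map_one]; rfl

lemma act_inv_act (g : G) (c : C) : aC g⁻¹ (aC g c) = c := by
  rw [← act_mul, inv_mul_cancel, act_one]

lemma act_act_inv (g : G) (c : C) : aC g (aC g⁻¹ c) = c := by
  rw [← act_mul, mul_inv_cancel, act_one]

end actions

section cosets

variable {G : Type*} [Group G] (H : Subgroup G) {C : Type*} [AddCommMonoid C]

/-- The bijection `(G ⧸ H) × H ≃ G`, `(q, t) ↦ q.out * t`. -/
noncomputable def cosetEquiv : (G ⧸ H) × H ≃ G where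
  toFun x := x.1.out * (x.2 : G)
  invFun g := ((g : G ⧸ H), ⟨(g : G ⧸ H).out⁻¹ * g, by
    rw [← QuotientGroup.eq, QuotientGroup.out_eq']⟩)
  left_inv := by
    rintro ⟨q, t⟩
    have h : ((q.out * (t : G) : G) : G ⧸ H) = q := by
      rw [QuotientGroup.mk_mul_of_mem _ t.2, QuotientGroup.out_eq']
    refine Prod.ext h (Subtype.ext ?_)
    simp only [h, inv_mul_cancel_left]
  right_inv g := by simp

lemma sum_eq_sum_quot_sum [Fintype G] [Fintype H] [Fintype (G ⧸ H)] (Φ : G → C) :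
    ∑ g : G, Φ g = ∑ q : G ⧸ H, ∑ t : H, Φ (q.out * (t : G)) := by
  rw [← Fintype.sum_prod_type' (f := fun (q : G ⧸ H) (t : H) => Φ (q.out * (t : G)))]
  exact (Fintype.sum_equiv (cosetEquiv H) _ _ (fun _ => rfl)).symm

lemma sum_quot_translate [Fintype (G ⧸ H)] (F : G → C)
    (hF : ∀ g : G, ∀ h ∈ H, F (g * h) = F g) (τ : G) :
    ∑ q : G ⧸ H, F (τ * q.out) = ∑ q : G ⧸ H, F q.out := by
  refine Fintype.sum_equiv (MulAction.toPerm τ) _ _ (fun q => ?_)
  have hmem : (τ * q.out)⁻¹ * ((MulAction.toPerm τ q : G ⧸ H)).out ∈ H := by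
    rw [← QuotientGroup.eq, QuotientGroup.out_eq']
    simp only [MulAction.toPerm_apply]
    conv_rhs => rw [← QuotientGroup.out_eq' q]
    rfl
  have := hF (τ * q.out) _ hmem
  rw [mul_inv_cancel_left] at this
  exact this.symm

end cosets

section lift

variable {R P Q : Type*} [AddCommGroup R] [AddCommGroup P] [AddCommGroup Q]

/-- Lift of an additive map with values in `range ι` through the injection `ι`. -/
noncomputable def liftKer (ι : R →+ P) (hι : Function.Injective ι) (φ : Q →+ P)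
    (hφ : ∀ q, φ q ∈ ι.range) : Q →+ R :=
  (AddMonoidHom.ofInjective hι).symm.toAddMonoidHom.comp (φ.codRestrict ι.range hφ)

lemma ι_liftKer (ι : R →+ P) (hι : Function.Injective ι) (φ : Q →+ P)
    (hφ : ∀ q, φ q ∈ ι.range) (q : Q) : ι (liftKer ι hι φ hφ q) = φ q := by
  simp only [liftKer, AddMonoidHom.coe_comp, AddEquiv.coe_toAddMonoidHom, Function.comp_apply]
  exact AddMonoidHom.apply_ofInjective_symm hι _

end lift

section core

variable {G : Type*} [Group G] [Fintype G] (H : Subgroup G) [Fintype H]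
variable {R P C N : Type*} [AddCommGroup R] [AddCommGroup P] [AddCommGroup C] [AddCommGroup N]
variable (aR : G →* AddMonoid.End R) (aP : G →* AddMonoid.End P) (aC : G →* AddMonoid.End C)

omit [Fintype G] in
/-- Step 1 of norm-kill: the `H`-norm `N_H ψ` of an additive map `ψ : R → C` extends to an
additive `H`-equivariant map `P → C`. -/
theorem exists_H_extension (p : ℕ) (hp : p.Prime) (ι : R →+ P) (ε : P →+ N)
    (hι : Function.Injective ι) (hε : Function.Surjective ε)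
    (hex : ∀ x : P, ε x = 0 → ∃ r, ι r = x) (hιε : ∀ r, ε (ι r) = 0)
    (hιeq : ∀ g r, ι (aR g r) = aP g (ι r))
    (hεH : ∀ h ∈ H, ∀ x, ε (aP h x) = ε x)
    (hN : ∀ n : N, p • n = 0)
    (hnorm : ∀ c : C, ∃ c₀ : C, (∀ h ∈ H, aC h c₀ = c₀) ∧ ∑ h : H, aC (h : G) c = p • c₀)
    (ψ : R →+ C) :
    ∃ k : P →+ C, (∀ h ∈ H, ∀ x, k (aP h x) = aC h (k x)) ∧
      ∀ r, k (ι r) = ∑ t : H, aC (t : G) (ψ (aR (t : G)⁻¹ r)) := by
  classical
  have hrange : ∀ x, x ∈ ι.range ↔ ε x = 0 := fun x =>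
    ⟨by rintro ⟨r, rfl⟩; exact hιε r, fun hx => hex x hx⟩
  have hw_mem : ∀ (t : H) (x : P),
      (endHom (aP (t : G)⁻¹) - AddMonoidHom.id P) x ∈ ι.range := by
    intro t x
    rw [hrange, AddMonoidHom.sub_apply, map_sub, AddMonoidHom.id_apply, endHom_apply,
      hεH _ (H.inv_mem t.2), sub_self]
  let w : H → P →+ R := fun t => liftKer ι hι _ (hw_mem t)
  have hw : ∀ (t : H) (x : P), ι (w t x) = aP (t : G)⁻¹ x - x := fun t x =>
    ι_liftKer ι hι _ (hw_mem t) x
  let a : P →+ C := ∑ t : H, (endHom (aC (t : G))).comp (ψ.comp (w t))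
  have ha : ∀ x, a x = ∑ t : H, aC (t : G) (ψ (w t x)) := by
    intro x
    simp only [a, AddMonoidHom.finsetSum_apply, AddMonoidHom.comp_apply, endHom_apply]
  -- the subgroup of `H`-invariants
  let D : AddSubgroup C :=
    { carrier := {c | ∀ h ∈ H, aC h c = c}
      add_mem' := fun {x y} hx hy h hh => by rw [map_add, hx h hh, hy h hh]
      zero_mem' := fun h _ => map_zero _
      neg_mem' := fun {x} hx h hh => by rw [map_neg, hx h hh] }
  have hnormD : ∀ c : C, ∑ t : H, aC (t : G) c ∈ D := by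
    intro c h hh
    rw [map_sum]
    refine Fintype.sum_equiv (Equiv.mulLeft (⟨h, hh⟩ : H)) _ _ (fun t => ?_)
    simp only [Equiv.coe_mulLeft, Subgroup.coe_mul, act_mul]
  let NH : R →+ C := ∑ t : H, (endHom (aC (t : G))).comp ψ
  have hNH : ∀ r, NH r = ∑ t : H, aC (t : G) (ψ r) := by
    intro r
    simp only [NH, AddMonoidHom.finsetSum_apply, AddMonoidHom.comp_apply, endHom_apply]
  let g₀ : R →+ D := NH.codRestrict D (fun r => by rw [hNH]; exact hnormD (ψ r))
  have hg₀ : ∀ r, ((g₀ r : D) : C) = ∑ t : H, aC (t : G) (ψ r) := fun r => hNH r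
  have hdiv : ∀ r, ∃ d : D, p • d = g₀ r := by
    intro r
    obtain ⟨c₀, hc₀, hc⟩ := hnorm (ψ r)
    refine ⟨⟨c₀, hc₀⟩, Subtype.ext ?_⟩
    rw [hg₀, hc]
    rfl
  obtain ⟨c, hc⟩ := exists_extension_of_pTorsion_quotient p hp ι ε hι hε hex hιε hN g₀ hdiv
  refine ⟨a + D.subtype.comp c, ?_, ?_⟩
  · intro h hh x
    let h' : H := ⟨h, hh⟩
    set v : R := w h'⁻¹ x with hv
    have hιv : ι v = aP h x - x := by
      rw [hv, hw]
      simp [h']
    have hx' : aP h x = x + ι v := by rw [hιv]; abel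
    have hwt : ∀ t : H, w t (aP h x) = w (h'⁻¹ * t) x - v := by
      intro t
      apply hι
      rw [map_sub, hw, hw, hιv]
      simp only [Subgroup.coe_mul, Subgroup.coe_inv, mul_inv_rev, inv_inv, act_mul, h']
      abel
    have h1 : a (aP h x) = aC h (a x) - ∑ t : H, aC (t : G) (ψ v) := by
      rw [ha, ha, map_sum, ← Finset.sum_sub_distrib]
      have : ∀ t : H, aC (t : G) (ψ (w t (aP h x))) =
          aC (t : G) (ψ (w (h'⁻¹ * t) x)) - aC (t : G) (ψ v) := by
        intro t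
        rw [hwt, map_sub, map_sub]
      simp only [this, Finset.sum_sub_distrib]
      congr 1
      refine (Fintype.sum_equiv (Equiv.mulLeft h') _ _ (fun s => ?_)).symm
      simp only [Equiv.coe_mulLeft, Subgroup.coe_mul, act_mul, inv_mul_cancel_left, h']
    have h2 : ((c (aP h x) : D) : C) = (c x : C) + ∑ t : H, aC (t : G) (ψ v) := by
      rw [hx', map_add, hc, AddSubgroup.coe_add, hg₀]
    have h3 : aC h ((c x : D) : C) = (c x : C) := (c x).2 h hh
    simp only [AddMonoidHom.add_apply, AddMonoidHom.comp_apply, AddSubgroup.coe_subtype, map_add]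
    rw [h1, h2, h3]
    abel
  · intro r
    have hwr : ∀ t : H, w t (ι r) = aR (t : G)⁻¹ r - r := by
      intro t
      apply hι
      rw [hw, map_sub, hιeq]
    simp only [AddMonoidHom.add_apply, AddMonoidHom.comp_apply, AddSubgroup.coe_subtype]
    rw [ha, hc, hg₀]
    simp only [hwr, map_sub, Finset.sum_sub_distrib]
    abel

/-- Step 2 of norm-kill: an additive `H`-equivariant map `k : P → C` gives the additive
`G`-equivariant map `N_{G/H} k = ∑_{σ ∈ G/H} σ k σ⁻¹`, whose restriction along an equivariant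
`ι : R → P` is the `G/H`-norm of the restriction of `k`. -/
theorem exists_G_of_H (ι : R →+ P) (hιeq : ∀ g r, ι (aR g r) = aP g (ι r))
    (k : P →+ C) (hk : ∀ h ∈ H, ∀ x, k (aP h x) = aC h (k x))
    (ψ : R →+ C) (hkψ : ∀ r, k (ι r) = ∑ t : H, aC (t : G) (ψ (aR (t : G)⁻¹ r))) :
    ∃ K : P →+ C, (∀ g x, K (aP g x) = aC g (K x)) ∧
      ∀ r, K (ι r) = ∑ g : G, aC g (ψ (aR g⁻¹ r)) := by
  classical
  let _ : Fintype (G ⧸ H) := Fintype.ofFinite _
  let K : P →+ C := ∑ q : G ⧸ H, (endHom (aC q.out)).comp (k.comp (endHom (aP q.out⁻¹)))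
  have hK : ∀ x, K x = ∑ q : G ⧸ H, aC q.out (k (aP q.out⁻¹ x)) := by
    intro x
    simp only [K, AddMonoidHom.finsetSum_apply, AddMonoidHom.comp_apply, endHom_apply]
  -- right `H`-invariance of `g ↦ g k g⁻¹`
  have hinv : ∀ (x : P) (g : G), ∀ h ∈ H,
      aC (g * h) (k (aP (g * h)⁻¹ x)) = aC g (k (aP g⁻¹ x)) := by
    intro x g h hh
    rw [mul_inv_rev, act_mul, act_mul, hk _ (H.inv_mem hh), act_act_inv]
  refine ⟨K, ?_, ?_⟩
  · intro g x
    rw [hK, hK, map_sum]
    have h1 : ∀ q : G ⧸ H, aC q.out (k (aP q.out⁻¹ (aP g x))) =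
        aC g (aC (g⁻¹ * q.out) (k (aP (g⁻¹ * q.out)⁻¹ x))) := by
      intro q
      rw [← act_mul, ← act_mul, mul_inv_rev, inv_inv, mul_inv_cancel_left]
    simp only [h1]
    rw [← map_sum, ← map_sum]
    congr 1
    exact sum_quot_translate H (fun g' => aC g' (k (aP g'⁻¹ x))) (hinv x) g⁻¹
  · intro r
    rw [hK, sum_eq_sum_quot_sum H]
    refine Finset.sum_congr rfl (fun q _ => ?_)
    rw [← hιeq, hkψ, map_sum]
    refine Finset.sum_congr rfl (fun t _ => ?_)
    rw [act_mul, mul_inv_rev, act_mul]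

/-- **Norm-kill, abstract form.**  `0 → R → P → N → 0` exact, `p N = 0`, `H ≤ G` acting trivially
on `N` (through `ε`), `N_H(C) ⊆ p • C^H`.  Then for every additive `ψ : R → C` the norm
`N_G ψ = ∑_g g ψ g⁻¹` extends to an additive `G`-equivariant map `P → C`. -/
theorem normKill_core (p : ℕ) (hp : p.Prime) (ι : R →+ P) (ε : P →+ N)
    (hι : Function.Injective ι) (hε : Function.Surjective ε)
    (hex : ∀ x : P, ε x = 0 → ∃ r, ι r = x) (hιε : ∀ r, ε (ι r) = 0)
    (hιeq : ∀ g r, ι (aR g r) = aP g (ι r))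
    (hεH : ∀ h ∈ H, ∀ x, ε (aP h x) = ε x)
    (hN : ∀ n : N, p • n = 0)
    (hnorm : ∀ c : C, ∃ c₀ : C, (∀ h ∈ H, aC h c₀ = c₀) ∧ ∑ h : H, aC (h : G) c = p • c₀)
    (ψ : R →+ C) :
    ∃ K : P →+ C, (∀ g x, K (aP g x) = aC g (K x)) ∧
      ∀ r, K (ι r) = ∑ g : G, aC g (ψ (aR g⁻¹ r)) := by
  obtain ⟨k, hk, hkψ⟩ := exists_H_extension H aR aP aC p hp ι ε hι hε hex hιε hιeq hεH hN hnorm ψ
  exact exists_G_of_H H aR aP aC ι hιeq k hk ψ hkψ

end core

end Fermat.Agent.S55.E1.H114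

end
-- ===== PACK-END S55/E1/H114/NormKill.lean

-- ===== PACK-BEGIN S55/G/SIndH237/H95/UnitFil.lean
section
/-
S55 / layer G / G-SIND:UCT (helper95).  Part 3 (Mathlib only).

The filtration `Fil n = {u ∈ Rˣ : u ≡ 1 mod Iⁿ}` of the unit group of a ring `R` which is
complete for an ideal `I`; the induced action on `R ⧸ I`; lifting of units.
-/


set_option autoImplicit false
set_option linter.unusedSectionVars false
set_option linter.style.haveILetI false

namespace Fermat.Agent.S55.G.SIndH237.H95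

attribute [local instance] unitsAct

section Units

variable {R : Type*} [CommRing R] (I : Ideal R)

lemma isUnit_one_add_of_mem (hJ : I ≤ Ideal.jacobson ⊥) {x : R} (hx : x ∈ I) :
    IsUnit (1 + x) := by
  have := Ideal.mem_jacobson_bot.1 (hJ hx) 1
  rwa [mul_one, add_comm] at this

lemma isUnit_of_sub_mem (hJ : I ≤ Ideal.jacobson ⊥) (u : Rˣ) {x : R} (h : x - u ∈ I) :
    IsUnit x := by
  have h1 : x = u * (1 + ((u⁻¹ : Rˣ) : R) * (x - u)) := by
    rw [mul_add, mul_one, ← mul_assoc, Units.mul_inv, one_mul]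
    ring
  rw [h1]
  exact u.isUnit.mul (isUnit_one_add_of_mem I hJ (I.mul_mem_left _ h))

/-- Units of `R ⧸ I` lift to units of `R` when `I` lies in the Jacobson radical. -/
lemma exists_unit_lift (hJ : I ≤ Ideal.jacobson ⊥) (v : (R ⧸ I)ˣ) :
    ∃ u : Rˣ, Ideal.Quotient.mk I (u : R) = (v : R ⧸ I) := by
  obtain ⟨r, hr⟩ := Ideal.Quotient.mk_surjective (v : R ⧸ I)
  obtain ⟨r', hr'⟩ := Ideal.Quotient.mk_surjective ((v⁻¹ : (R ⧸ I)ˣ) : R ⧸ I)
  have h1 : r * r' - 1 ∈ I := by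
    rw [← Ideal.Quotient.eq, map_mul, hr, hr', Units.mul_inv, map_one]
  have h2 : IsUnit (r * r') := isUnit_of_sub_mem I hJ 1 (by simpa using h1)
  have h3 : IsUnit r := isUnit_of_mul_isUnit_left h2
  exact ⟨h3.unit, by rw [IsUnit.unit_spec, hr]⟩

/-- The subgroup of units congruent to `1` modulo `Iⁿ`. -/
def unitFil (n : ℕ) : Subgroup Rˣ where
  carrier := {u | (u : R) - 1 ∈ I ^ n}
  one_mem' := by simp
  mul_mem' {a b} ha hb := by
    have h : ((a * b : Rˣ) : R) - 1 = (a : R) * ((b : R) - 1) + ((a : R) - 1) := by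
      push_cast; ring
    change ((a * b : Rˣ) : R) - 1 ∈ I ^ n
    rw [h]
    exact (I ^ n).add_mem ((I ^ n).mul_mem_left _ hb) ha
  inv_mem' {a} ha := by
    have h : ((a⁻¹ : Rˣ) : R) - 1 = -(((a⁻¹ : Rˣ) : R) * ((a : R) - 1)) := by
      rw [mul_sub, Units.inv_mul]; ring
    change ((a⁻¹ : Rˣ) : R) - 1 ∈ I ^ n
    rw [h]
    exact (I ^ n).neg_mem ((I ^ n).mul_mem_left _ ha)

lemma mem_unitFil_iff (n : ℕ) (u : Rˣ) : u ∈ unitFil I n ↔ (u : R) - 1 ∈ I ^ n := Iff.rfl

lemma div_mem_unitFil_iff (n : ℕ) (a b : Rˣ) :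
    a / b ∈ unitFil I n ↔ (a : R) - (b : R) ∈ I ^ n := by
  rw [mem_unitFil_iff]
  have h1 : ((a / b : Rˣ) : R) - 1 = ((a : R) - b) * ((b⁻¹ : Rˣ) : R) := by
    rw [div_eq_mul_inv, Units.val_mul, sub_mul, Units.mul_inv]
  have h2 : (a : R) - b = (((a / b : Rˣ) : R) - 1) * b := by
    rw [h1, mul_assoc, Units.inv_mul, mul_one]
  constructor
  · intro h; rw [h2]; exact (I ^ n).mul_mem_right _ h
  · intro h; rw [h1]; exact (I ^ n).mul_mem_right _ h

lemma unitFil_anti (n : ℕ) : unitFil I (n + 1) ≤ unitFil I n :=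
  fun _ hu => Ideal.pow_le_pow_right (Nat.le_succ n) hu

lemma unitFil_antitone {m n : ℕ} (h : m ≤ n) : unitFil I n ≤ unitFil I m :=
  fun _ hu => Ideal.pow_le_pow_right h hu

lemma mem_unitFil_zero (u : Rˣ) : u ∈ unitFil I 0 := by
  rw [mem_unitFil_iff, pow_zero, Ideal.one_eq_top]
  exact Submodule.mem_top

lemma unitFil_separated [IsHausdorff I R] (x : Rˣ) (hx : ∀ j, x ∈ unitFil I j) : x = 1 := by
  have h : (x : R) - 1 = 0 := by
    refine IsHausdorff.haus ‹IsHausdorff I R› _ fun n => ?_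
    rw [SModEq.zero, smul_eq_mul, Ideal.mul_top]
    exact hx n
  exact Units.ext (by rw [Units.val_one]; exact sub_eq_zero.1 h)

lemma unitFil_complete [IsAdicComplete I R] (u : ℕ → Rˣ) (hu : ∀ j, u j ∈ unitFil I j) :
    ∃ s : Rˣ, ∀ n, s / ∏ j ∈ Finset.range n, u j ∈ unitFil I n := by
  have hJ : I ≤ Ideal.jacobson ⊥ := IsAdicComplete.le_jacobson_bot I
  have hcauchy : ∀ {m n : ℕ}, m ≤ n →
      (((∏ j ∈ Finset.range m, u j : Rˣ) : R)) ≡ (((∏ j ∈ Finset.range n, u j : Rˣ) : R))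
        [SMOD (I ^ m • ⊤ : Submodule R R)] := by
    intro m n hmn
    rw [SModEq.sub_mem, smul_eq_mul, Ideal.mul_top, ← div_mem_unitFil_iff]
    have h1 : (∏ j ∈ Finset.range m, u j) / ∏ j ∈ Finset.range n, u j =
        (∏ j ∈ Finset.Ico m n, u j)⁻¹ := by
      rw [Finset.prod_Ico_eq_div u hmn, inv_div]
    rw [h1]
    refine (unitFil I m).inv_mem (Subgroup.prod_mem _ fun j hj => ?_)
    exact unitFil_antitone I (Finset.mem_Ico.1 hj).1 (hu j)
  obtain ⟨L, hL⟩ := IsPrecomplete.prec ‹IsAdicComplete I R›.toIsPrecomplete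
    (f := fun n => ((∏ j ∈ Finset.range n, u j : Rˣ) : R)) hcauchy
  have hL' : ∀ n, L - ((∏ j ∈ Finset.range n, u j : Rˣ) : R) ∈ I ^ n := by
    intro n
    have := (hL n).symm
    rwa [SModEq.sub_mem, smul_eq_mul, Ideal.mul_top] at this
  have hLu : IsUnit L := by
    refine isUnit_of_sub_mem I hJ (∏ j ∈ Finset.range 1, u j) ?_
    have := hL' 1
    rwa [pow_one] at this
  refine ⟨hLu.unit, fun n => ?_⟩
  rw [div_mem_unitFil_iff, IsUnit.unit_spec]
  exact hL' n

end Units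

section Action

variable {R : Type*} [CommRing R] {H : Type*} [Group H] [MulSemiringAction H R] (I : Ideal R)

lemma smul_mem_pow (hI : ∀ (h : H) (x : R), x ∈ I → h • x ∈ I) (n : ℕ) (h : H) {x : R}
    (hx : x ∈ I ^ n) : h • x ∈ I ^ n := by
  have h1 : I.map (MulSemiringAction.toRingHom H R h) ≤ I := by
    rw [Ideal.map_le_iff_le_comap]
    exact fun y hy => hI h y hy
  have h2 : (I ^ n).map (MulSemiringAction.toRingHom H R h) ≤ I ^ n := by
    rw [Ideal.map_pow]
    exact Ideal.pow_right_mono h1 n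
  exact h2 (Ideal.mem_map_of_mem _ hx)

lemma smul_mem_unitFil (hI : ∀ (h : H) (x : R), x ∈ I → h • x ∈ I) (n : ℕ) (h : H) {u : Rˣ}
    (hu : u ∈ unitFil I n) : h • u ∈ unitFil I n := by
  rw [mem_unitFil_iff] at hu ⊢
  have := smul_mem_pow I hI n h hu
  rwa [smul_sub, smul_one] at this

lemma le_comap_of_stable (hI : ∀ (h : H) (x : R), x ∈ I → h • x ∈ I) (h : H) :
    I ≤ I.comap (MulSemiringAction.toRingHom H R h) := fun x hx => hI h x hx

/-- The ring endomorphism of `R ⧸ I` induced by `h ∈ H`. -/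
def quotMap (hI : ∀ (h : H) (x : R), x ∈ I → h • x ∈ I) (h : H) : R ⧸ I →+* R ⧸ I :=
  Ideal.quotientMap I (MulSemiringAction.toRingHom H R h) (le_comap_of_stable I hI h)

lemma quotMap_mk (hI : ∀ (h : H) (x : R), x ∈ I → h • x ∈ I) (h : H) (r : R) :
    quotMap I hI h (Ideal.Quotient.mk I r) = Ideal.Quotient.mk I (h • r) := rfl

/-- The action induced on `R ⧸ I` by an action on `R` stabilising `I`
(a definition, NOT a global instance). -/
@[reducible] def quotAct (hI : ∀ (h : H) (x : R), x ∈ I → h • x ∈ I) :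
    MulSemiringAction H (R ⧸ I) where
  smul h := quotMap I hI h
  one_smul x := by
    obtain ⟨r, rfl⟩ := Ideal.Quotient.mk_surjective x
    change quotMap I hI 1 (Ideal.Quotient.mk I r) = _
    rw [quotMap_mk, one_smul]
  mul_smul g h x := by
    obtain ⟨r, rfl⟩ := Ideal.Quotient.mk_surjective x
    change quotMap I hI (g * h) (Ideal.Quotient.mk I r) =
      quotMap I hI g (quotMap I hI h (Ideal.Quotient.mk I r))
    simp only [quotMap_mk, mul_smul]
  smul_zero h := map_zero (quotMap I hI h)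
  smul_add h x y := map_add (quotMap I hI h) x y
  smul_one h := map_one (quotMap I hI h)
  smul_mul h x y := map_mul (quotMap I hI h) x y

lemma quotAct_smul_mk (hI : ∀ (h : H) (x : R), x ∈ I → h • x ∈ I) (h : H) (r : R) :
    letI := quotAct I hI
    h • (Ideal.Quotient.mk I r) = Ideal.Quotient.mk I (h • r) := rfl

end Action

end Fermat.Agent.S55.G.SIndH237.H95

end
-- ===== PACK-END S55/G/SIndH237/H95/UnitFil.lean

-- ===== PACK-BEGIN S59/H649/StrictGlue.lean
section


/-!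
# Row S59, leaf TW-STRICT — glue (helper649)

`twStrict_of_leaves : PeuFlatStatement → TresStrictStatement → TWStrictStatement`.

The only content: the residual representation of an ordinary representation with cyclotomic
determinant again has an ordinary line and cyclotomic determinant.
-/

set_option autoImplicit false
set_option linter.unusedSectionVars false

open scoped TensorProduct

namespace Fermat.Agent.S59.H649

variable {A : Type} [CommRing A] [IsLocalRing A]

/-- The determinant of the residual representation is cyclotomic. -/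
theorem detIsCyclotomic_residual {ρ : GaloisRepAdic A} {p : ℕ} (h : ρ.DetIsCyclotomic p) :
    (GaloisRepAdic.ofResidualGaloisRep ρ.residual).DetIsCyclotomic p := by
  refine ⟨?_, fun n σ a ha => ?_⟩
  · have h0 : ((p : ℕ) : IsLocalRing.ResidueField A) = 0 := by
      have := (IsLocalRing.residue_eq_zero_iff (p : A)).mpr h.1
      rwa [map_natCast] at this
    rw [h0]
    exact Ideal.zero_mem _
  · have h1 := h.2 n σ a ha
    rw [Ideal.mem_span_singleton] at h1 ⊢
    obtain ⟨c, hc⟩ := h1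
    refine ⟨IsLocalRing.residue A c, ?_⟩
    have hdet : LinearMap.det ((GaloisRepAdic.ofResidualGaloisRep ρ.residual).ρ σ) =
        IsLocalRing.residue A (LinearMap.det (ρ.ρ σ)) := by
      show LinearMap.det ((ρ.ρ σ).baseChange (IsLocalRing.ResidueField A)) = _
      rw [LinearMap.det_baseChange]
      rfl
    rw [hdet]
    have := congrArg (IsLocalRing.residue A) hc
    rw [map_sub, map_mul, map_natCast, map_natCast] at this
    exact this

/-- The line spanned by `1 ⊗ b 0` in `k ⊗ V`. -/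
theorem span_tmul_eq_h649 (k : Type) [Field k] [Algebra A k] {V : Type} [AddCommGroup V]
    [Module A V] (b : Module.Basis (Fin 2) A V) :
    (Submodule.span k {(1 : k) ⊗ₜ[A] b 0} : Submodule k (k ⊗[A] V)) =
      Submodule.span k {(b.baseChange k) 0} := by
  rw [Module.Basis.baseChange_apply]

theorem tmul_mem_span_h649 (k : Type) [Field k] [Algebra A k] {V : Type} [AddCommGroup V]
    [Module A V] (b : Module.Basis (Fin 2) A V) (c : k) {w : V}
    (hw : w ∈ Submodule.span A {b 0}) :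
    c ⊗ₜ[A] w ∈ (Submodule.span k {(1 : k) ⊗ₜ[A] b 0} : Submodule k (k ⊗[A] V)) := by
  rw [Submodule.mem_span_singleton] at hw
  obtain ⟨y, rfl⟩ := hw
  rw [Submodule.mem_span_singleton]
  refine ⟨c * algebraMap A k y, ?_⟩
  rw [TensorProduct.smul_tmul', smul_eq_mul, mul_one, TensorProduct.tmul_smul,
    TensorProduct.smul_tmul', Algebra.smul_def, mul_comm]

theorem baseChange_mem_span_h649 (k : Type) [Field k] [Algebra A k] {V : Type}
    [AddCommGroup V] [Module A V] (b : Module.Basis (Fin 2) A V) (f : V →ₗ[A] V)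
    (hf : ∀ v ∈ Submodule.span A {b 0}, f v ∈ Submodule.span A {b 0})
    (v : k ⊗[A] V)
    (hv : v ∈ (Submodule.span k {(1 : k) ⊗ₜ[A] b 0} : Submodule k (k ⊗[A] V))) :
    f.baseChange k v ∈ (Submodule.span k {(1 : k) ⊗ₜ[A] b 0} : Submodule k (k ⊗[A] V)) := by
  rw [Submodule.mem_span_singleton] at hv
  obtain ⟨c, rfl⟩ := hv
  rw [map_smul]
  refine Submodule.smul_mem _ c ?_
  rw [LinearMap.baseChange_tmul]
  exact tmul_mem_span_h649 k b 1 (hf _ (Submodule.mem_span_singleton_self _))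

theorem baseChange_sub_mem_span_h649 (k : Type) [Field k] [Algebra A k] {V : Type}
    [AddCommGroup V] [Module A V] (b : Module.Basis (Fin 2) A V) (f : V →ₗ[A] V)
    (hf : ∀ v : V, f v - v ∈ Submodule.span A {b 0}) (v : k ⊗[A] V) :
    f.baseChange k v - v ∈
      (Submodule.span k {(1 : k) ⊗ₜ[A] b 0} : Submodule k (k ⊗[A] V)) := by
  induction v using TensorProduct.induction_on with
  | zero => rw [LinearMap.map_zero, sub_zero]; exact Submodule.zero_mem _
  | tmul c v =>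
    rw [LinearMap.baseChange_tmul, ← TensorProduct.tmul_sub]
    exact tmul_mem_span_h649 k b c (hf v)
  | add x y hx hy =>
    rw [map_add, add_sub_add_comm]
    exact Submodule.add_mem _ hx hy

/-- The image of an ordinary line in the residual representation is an ordinary line. -/
theorem exists_isOrdLineAt_residual {ρ : GaloisRepAdic A} {P : ValuationSubring Qb}
    {L : Submodule A ρ.V} (hL : IsOrdLineAt ρ P L) :
    ∃ L' : Submodule (IsLocalRing.ResidueField A) ρ.residual.V,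
      IsOrdLineAt (GaloisRepAdic.ofResidualGaloisRep ρ.residual) P L' := by
  obtain ⟨b, hb⟩ := hL.basis
  subst hb
  exact ⟨(Submodule.span (IsLocalRing.ResidueField A)
      {(1 : IsLocalRing.ResidueField A) ⊗ₜ[A] b 0} :
      Submodule (IsLocalRing.ResidueField A) (IsLocalRing.ResidueField A ⊗[A] ρ.V)),
    ⟨⟨b.baseChange (IsLocalRing.ResidueField A), span_tmul_eq_h649 _ b⟩,
      fun σ hσ v hv => baseChange_mem_span_h649 _ b (ρ.ρ σ) (hL.stable σ hσ) v hv,
      fun σ hσ v => baseChange_sub_mem_span_h649 _ b (ρ.ρ σ) (hL.inertia σ hσ) v⟩⟩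

/-- **Glue.**  TW-STRICT from (a) TRÈS ⟹ STRICT and (b) PEU ⟹ FLAT. -/
theorem twStrict_of_leaves (hb : PeuFlatStatement) (ha : TresStrictStatement) :
    TWStrictStatement := by
  intro p _ hp2 A _ _ _ _ ρ hdet hord hnf
  refine ⟨hdet.1, fun P hP => ?_⟩
  obtain ⟨L, hbas, hD, hI⟩ := hord P hP
  have hL : IsOrdLineAt ρ P L := ⟨hbas, hD, hI⟩
  by_cases hpeu : IsPeuAt p ρ.residual P
  · exfalso
    obtain ⟨L', hL'⟩ := exists_isOrdLineAt_residual hL
    exact hnf (hb p hp2 _ ρ.residual (detIsCyclotomic_residual hdet) P hP L' hL' hpeu)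
  · exact ⟨L, hbas, hD, hI, ha p hp2 A ρ hdet P hP L hL hpeu⟩

end Fermat.Agent.S59.H649

end
-- ===== PACK-END S59/H649/StrictGlue.lean

-- ===== PACK-BEGIN S36/H29/Gen.lean
section




/-!
# S36 leaf GEN (arithmetic part): genus numerics at a rigid level

For a prime `q ∤ M₁` and a level `M₁` divisible by a prime `r ≡ 11 (mod 12)`:

* `cuspCount (M₁ * q) = 2 * cuspCount M₁`,
* `nuTwo N = 0` as soon as a prime `r ≡ 3 (mod 4)` divides `N`,
* `nuThree N = 0` as soon as a prime `r ≡ 2 (mod 3)` divides `N`,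
* `genusFormula (q * M₁) - 2 * genusFormula M₁ + 1 = (q - 1) * dedekindPsi M₁ / 12`.

Everything is elementary; the only inputs are Mathlib and the recursion for `dedekindPsi`.
-/

set_option autoImplicit false

namespace Fermat.Agent.S36.H29

open ModularCurve

/-! ### `cuspCount` doubles at a new prime -/

theorem divisors_mul_prime_of_not_dvd {M q : ℕ} (hM : M ≠ 0) (hq : q.Prime) (_hqM : ¬ q ∣ M) :
    (M * q).divisors = M.divisors ∪ M.divisors.image (· * q) := by
  ext d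
  simp only [Nat.mem_divisors, Finset.mem_union, Finset.mem_image]
  constructor
  · rintro ⟨hd, -⟩
    by_cases hqd : q ∣ d
    · right
      obtain ⟨d', rfl⟩ := hqd
      refine ⟨d', ⟨?_, hM⟩, mul_comm _ _⟩
      rw [mul_comm M q] at hd
      exact Nat.dvd_of_mul_dvd_mul_left hq.pos hd
    · left
      refine ⟨?_, hM⟩
      have hcop : Nat.Coprime d q := ((Nat.Prime.coprime_iff_not_dvd hq).mpr hqd).symm
      exact hcop.dvd_of_dvd_mul_right hd
  · rintro (⟨hd, -⟩ | ⟨d', ⟨hd, -⟩, rfl⟩)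
    · exact ⟨hd.mul_right q, mul_ne_zero hM hq.ne_zero⟩
    · exact ⟨Nat.mul_dvd_mul_right hd q, mul_ne_zero hM hq.ne_zero⟩

theorem cuspCount_mul_prime_of_not_dvd {M q : ℕ} (hM : M ≠ 0) (hq : q.Prime) (hqM : ¬ q ∣ M) :
    cuspCount (M * q) = 2 * cuspCount M := by
  unfold cuspCount
  have hdisj : Disjoint M.divisors (M.divisors.image (· * q)) := by
    rw [Finset.disjoint_left]
    intro d hd hd'
    simp only [Nat.mem_divisors, Finset.mem_image] at hd hd'
    obtain ⟨d', -, rfl⟩ := hd'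
    exact hqM ((dvd_mul_left q d').trans hd.1)
  rw [divisors_mul_prime_of_not_dvd hM hq hqM, Finset.sum_union hdisj, Finset.sum_image, two_mul]
  · congr 1
    · refine Finset.sum_congr rfl fun d hd => ?_
      simp only [Nat.mem_divisors] at hd
      have hcop : Nat.Coprime d q :=
        ((Nat.Prime.coprime_iff_not_dvd hq).mpr fun h => hqM (h.trans hd.1)).symm
      rw [mul_comm M q, Nat.mul_div_assoc q hd.1, mul_comm q (M / d)]
      exact congrArg _ (Nat.Coprime.gcd_mul_right_cancel_right (M / d) hcop.symm)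
    · refine Finset.sum_congr rfl fun d hd => ?_
      simp only [Nat.mem_divisors] at hd
      have hcop : Nat.Coprime q (M / d) :=
        (Nat.Prime.coprime_iff_not_dvd hq).mpr fun h => hqM (h.trans (Nat.div_dvd_of_dvd hd.1))
      rw [Nat.mul_div_mul_right _ _ hq.pos]
      exact congrArg _ (Nat.Coprime.gcd_mul_right_cancel d hcop)
  · intro x _ y _ hxy
    exact Nat.eq_of_mul_eq_mul_right hq.pos hxy

/-! ### No elliptic points at a rigid level -/

theorem no_root_sq_add_one {r : ℕ} (hr : r.Prime) (hr4 : r % 4 = 3) (y : ZMod r) :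
    y ^ 2 + 1 ≠ 0 := by
  haveI : Fact r.Prime := ⟨hr⟩
  intro hy2
  have hsq : IsSquare (-1 : ZMod r) := ⟨y, by linear_combination -hy2⟩
  exact (ZMod.exists_sq_eq_neg_one_iff.mp hsq) hr4

theorem no_root_sq_add_self_add_one {r : ℕ} (hr : r.Prime) (hr3 : r % 3 = 2) (y : ZMod r) :
    y ^ 2 + y + 1 ≠ 0 := by
  haveI : Fact r.Prime := ⟨hr⟩
  intro hy2
  have hy3 : y ^ 3 = 1 := by linear_combination (y - 1) * hy2
  have hy1 : y ≠ 1 := by
    intro h1
    rw [h1] at hy2
    have h3 : ((3 : ℕ) : ZMod r) = 0 := by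
      push_cast
      linear_combination hy2
    have hdvd : r ∣ 3 := (ZMod.natCast_eq_zero_iff 3 r).mp h3
    have : r = 3 := (Nat.prime_dvd_prime_iff_eq hr Nat.prime_three).mp hdvd
    omega
  have hy0 : y ≠ 0 := by
    intro h0
    rw [h0] at hy3
    simp at hy3
  haveI : Fact (Nat.Prime 3) := ⟨Nat.prime_three⟩
  have hord : orderOf y = 3 := orderOf_eq_prime hy3 hy1
  have hpow : y ^ (r - 1) = 1 := ZMod.pow_card_sub_one_eq_one hy0
  have hdvd : 3 ∣ r - 1 := hord ▸ orderOf_dvd_of_pow_eq_one hpow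
  have hrpos := hr.pos
  omega

theorem nuTwo_eq_zero_of_prime_dvd {N r : ℕ} (hr : r.Prime) (hr4 : r % 4 = 3) (hrN : r ∣ N) :
    nuTwo N = 0 := by
  unfold nuTwo
  have hempty : IsEmpty {x : ZMod N // x ^ 2 + 1 = 0} := by
    refine ⟨fun ⟨x, hx⟩ => ?_⟩
    refine no_root_sq_add_one hr hr4 (ZMod.castHom hrN (ZMod r) x) ?_
    have := congrArg (ZMod.castHom hrN (ZMod r)) hx
    simpa only [map_add, map_pow, map_one, map_zero] using this
  exact Nat.card_of_isEmpty

theorem nuThree_eq_zero_of_prime_dvd {N r : ℕ} (hr : r.Prime) (hr3 : r % 3 = 2) (hrN : r ∣ N) :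
    nuThree N = 0 := by
  unfold nuThree
  have hempty : IsEmpty {x : ZMod N // x ^ 2 + x + 1 = 0} := by
    refine ⟨fun ⟨x, hx⟩ => ?_⟩
    refine no_root_sq_add_self_add_one hr hr3 (ZMod.castHom hrN (ZMod r) x) ?_
    have := congrArg (ZMod.castHom hrN (ZMod r)) hx
    simpa only [map_add, map_pow, map_one, map_zero] using this
  exact Nat.card_of_isEmpty

/-! ### The genus identity -/

/-- `ψ(q M₁) = (q + 1) ψ(M₁)` for a prime `q ∤ M₁`. -/
theorem dedekindPsi_prime_mul {M q : ℕ} (hM : M ≠ 0) (hq : q.Prime) (hqM : ¬ q ∣ M) :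
    dedekindPsi (q * M) = (q + 1) * dedekindPsi M := by
  rw [mul_comm q M]
  exact Fermat.Agent.S20.Comb482.dedekindPsi_mul_prime_of_not_dvd hM hq hqM

/-- `ν_∞(q M₁) = 2 ν_∞(M₁)` for a prime `q ∤ M₁`. -/
theorem cuspCount_prime_mul {M q : ℕ} (hM : M ≠ 0) (hq : q.Prime) (hqM : ¬ q ∣ M) :
    cuspCount (q * M) = 2 * cuspCount M := by
  rw [mul_comm q M]
  exact cuspCount_mul_prime_of_not_dvd hM hq hqM

/-- The genus formula at a level without elliptic points. -/
theorem genusFormula_of_prime_dvd {N r : ℕ} (hr : r.Prime) (hr12 : r % 12 = 11) (hrN : r ∣ N) :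
    genusFormula N = 1 + (dedekindPsi N : ℚ) / 12 - (cuspCount N : ℚ) / 2 := by
  have h2 : nuTwo N = 0 := nuTwo_eq_zero_of_prime_dvd hr (by omega) hrN
  have h3 : nuThree N = 0 := nuThree_eq_zero_of_prime_dvd hr (by omega) hrN
  unfold genusFormula
  rw [h2, h3]
  simp

/-- **GEN (arithmetic)**: at a rigid level `M₁` (divisible by a prime `r ≡ 11 mod 12`) and a
prime `q ∤ M₁`,  `g(q M₁) - 2 g(M₁) + 1 = (q - 1) ψ(M₁) / 12`. -/
theorem genusFormula_rigid {M q r : ℕ} (hM : M ≠ 0) (hq : q.Prime) (hqM : ¬ q ∣ M)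
    (hr : r.Prime) (hr12 : r % 12 = 11) (hrM : r ∣ M) :
    genusFormula (q * M) - 2 * genusFormula M + 1 = ((q : ℚ) - 1) * (dedekindPsi M : ℚ) / 12 := by
  rw [genusFormula_of_prime_dvd hr hr12 (hrM.mul_left q), genusFormula_of_prime_dvd hr hr12 hrM,
    dedekindPsi_prime_mul hM hq hqM, cuspCount_prime_mul hM hq hqM]
  push_cast
  ring

/-- Integer form: any natural numbers `g, g₀` with `(g : ℚ) = genusFormula (q M₁)` and
`(g₀ : ℚ) = genusFormula M₁` satisfy `12 * (g + 1) = (q - 1) * ψ(M₁) + 24 * g₀`. -/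
theorem genus_rigid_nat {M q r g g₀ : ℕ} (hM : M ≠ 0) (hq : q.Prime) (hqM : ¬ q ∣ M)
    (hr : r.Prime) (hr12 : r % 12 = 11) (hrM : r ∣ M)
    (hg : (g : ℚ) = genusFormula (q * M)) (hg₀ : (g₀ : ℚ) = genusFormula M) :
    12 * (g + 1) = (q - 1) * dedekindPsi M + 24 * g₀ := by
  have h := genusFormula_rigid hM hq hqM hr hr12 hrM
  rw [← hg, ← hg₀] at h
  have hq1 : 1 ≤ q := hq.pos
  have hQ : ((12 * (g + 1) : ℕ) : ℚ) = (((q - 1) * dedekindPsi M + 24 * g₀ : ℕ) : ℚ) := by
    push_cast [Nat.cast_sub hq1]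
    linarith
  exact_mod_cast hQ

/-- Squeeze form used by THICK1: if the number `s` of nodes satisfies
`(q - 1) ψ(M₁) ≤ 12 s` (mass formula, all thicknesses `≥ 1`) and `s + 2 g₀ ≤ g + 1` (genus upper
bound), then `12 * s = (q - 1) * ψ(M₁)`. -/
theorem nodes_squeeze {M q r g g₀ s : ℕ} (hM : M ≠ 0) (hq : q.Prime) (hqM : ¬ q ∣ M)
    (hr : r.Prime) (hr12 : r % 12 = 11) (hrM : r ∣ M)
    (hg : (g : ℚ) = genusFormula (q * M)) (hg₀ : (g₀ : ℚ) = genusFormula M)
    (hmass : (q - 1) * dedekindPsi M ≤ 12 * s) (hub : s + 2 * g₀ ≤ g + 1) :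
    12 * s = (q - 1) * dedekindPsi M := by
  have h := genus_rigid_nat hM hq hqM hr hr12 hrM hg hg₀
  omega

end Fermat.Agent.S36.H29

end
-- ===== PACK-END S36/H29/Gen.lean

-- ===== PACK-BEGIN S59/LoSqC/H987/StepNew.lean
section


/-!
# S59 / cell (C) LO-SQ, leaf W-NEW (helper987): STEP-A without the power `q² - 1`

Abstract setting of `S36/H586/StepAB.lean` (Mathlib only): three vertical valuations
`V_FF`, `V_mid`, `V_VV` of `F` over the two vertical valuations `V1`, `V2` of `F'`, with the norm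
tables of the two degeneracy embeddings `α`, `β` (`H586.NormTable`).

Let `f ≠ 0` with `N_α f, N_β f ∈ w' ^ ℤ · (F'ˣ) ^ m`, `gcd(q, m) = 1`.

* `stepNew_slope` : `f = w ^ s * G ^ m * u` where `u` has orders `(d, -d, 0)` at
  `(V_FF | w, V_mid | π, V_VV | w)` and `m ∣ (q + 1) d`  (the slope of a new class).
* `stepNew` : if the slope vanishes (`m ∣ a_FF - a_VV`), then `f = w ^ s * G ^ m * u` with
  `u ≡ 1` on `V_FF` and `V_VV`, `u` a unit at `V_mid`, `N_α u = k₁ ^ m`, `N_β u = k₂ ^ m` with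
  `k₁`, `k₂` units at `V1`, `V2`, and the residue of `u ^ (q - 1)` at `V_mid` is the `m`-th
  power of the residue of `α k₁` and of `β k₂`.
* `slope_of_coprime` : the slope hypothesis is automatic when `gcd(q + 1, m) = 1`.

No power of `f` is taken: this is the form needed when `p ∣ q² - 1`.
-/

set_option autoImplicit false

namespace Fermat.Agent.S59.LoSqC.H987

open Fermat.Agent.S36.H586

section Aux

variable {F : Type*} [Field F] {V : ValuationSubring F}

theorem pu_val_one_987 {u : F} (h : PU V u) : V.valuation u = 1 := h.val_eq_one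

/-- A principal unit times a unit-valued element keeps the valuation. -/
theorem val_one_of_pu_div_987 {g g₁ : F} (hg₁ : V.valuation g₁ = 1) (h : PU V (g / g₁)) :
    V.valuation g = 1 := by
  have h1 := h.val_eq_one
  rw [map_div₀, hg₁, div_one] at h1
  exact h1

theorem val_one_of_pu_div_pow_987 {x G : F} {m : ℕ} (hm : 0 < m) (hx : V.valuation x = 1)
    (h : PU V (x / G ^ m)) : V.valuation G = 1 := by
  apply val_eq_one_of_pow hm
  have h1 := h.val_eq_one
  rw [map_div₀, hx] at h1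
  have h2 : V.valuation (G ^ m) ≠ 0 := by
    intro h0
    rw [h0, div_zero] at h1
    exact zero_ne_one h1
  field_simp at h1
  exact h1.symm

end Aux

section Table

variable {F' F : Type*} [Field F'] [Field F]
variable {φ : F' →+* F} {N : F → F'} {q : ℕ} {w' : F'} {π : F}
  {Os Oi : ValuationSubring F'} {Vu Vr Vi : ValuationSubring F}

/-- The norm of an element which is a unit at the three places is a unit at both places
below. -/
theorem norm_val_one_987 (T : NormTable φ N q w' π Os Oi Vu Vr Vi) {y : F}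
    (hu : Vu.valuation y = 1) (hr : Vr.valuation y = 1) (hi : Vi.valuation y = 1) :
    Os.valuation (N y) = 1 ∧ Oi.valuation (N y) = 1 := by
  constructor
  · have := T.val_s y 0 0 (isOrd_zero_of_val hu) (isOrd_zero_of_val hr)
    rw [add_zero] at this
    exact this.val_eq_one
  · have := T.val_i y 0 (isOrd_zero_of_val hi)
    rw [mul_zero] at this
    exact this.val_eq_one

/-- The split place, exact form: if `y ≡ 1` at `Vu`, `y` is a unit at `Vr` and `N y = k ^ m`,
then `y ^ (q - 1) ≡ (φ k) ^ m` at `Vr`. -/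
theorem pu_mid_987 (T : NormTable φ N q w' π Os Oi Vu Vr Vi) {m : ℕ}
    {y : F} (hyu : PU Vu y) (hyr : Vr.valuation y = 1) {k : F'}
    (hk : Os.valuation k = 1) (hN : N y = k ^ m) :
    PU Vr (y ^ (q - 1) / (φ k) ^ m) := by
  obtain ⟨b, hb⟩ := T.res_r y hyr
  have hyu1 : Vu.valuation y = 1 := hyu.val_eq_one
  have ha : Vu.valuation (y - φ 1) < 1 := by
    rw [map_one]
    exact hyu
  have h1 := T.norm_s y 1 b hyu1 hyr ha hb
  rw [hN, one_mul] at h1
  have hφb : Vr.valuation (φ b) = 1 := val_eq_one_of_sub_lt hyr hb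
  have hb1 : Os.valuation b = 1 := (over_val_eq_one T.over_r b).1 hφb
  have hb0 : b ≠ 0 := ne_of_val hb1
  have hk0 : k ≠ 0 := ne_of_val hk
  have hφb0 : φ b ≠ 0 := ne_of_val hφb
  have hφk0 : φ k ≠ 0 := (map_ne_zero φ).2 hk0
  have hbq : Os.valuation (b ^ (q - 1)) = 1 := by rw [map_pow, hb1, one_pow]
  -- `k ^ m ≡ b ^ (q - 1)` at `Os`
  have p1 : PU Os (k ^ m / b ^ (q - 1)) := pu_div_of_sub hbq h1
  have p2 : PU Vr (φ (k ^ m / b ^ (q - 1))) := (over_pu T.over_r _).2 p1
  have p3 : PU Vr (y / φ b) := pu_div_of_sub hφb hb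
  have e : y ^ (q - 1) / (φ k) ^ m = (y / φ b) ^ (q - 1) * (φ (k ^ m / b ^ (q - 1)))⁻¹ := by
    rw [map_div₀, map_pow, map_pow, div_pow]
    field_simp
  rw [e]
  exact (p3.pow _).mul p2.inv

end Table

section Main

variable {F' F : Type*} [Field F'] [Field F]

/-- **W-NEW, slopes.**  If the norms of `f` along `α` and `β` are of the form `w' ^ s * g ^ m`,
then `f = w ^ s * G ^ m * u` where `u` has orders `(d, -d, 0)` at `(V_FF, V_mid, V_VV)` and
`m ∣ (q + 1) d`. -/
theorem stepNew_slope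
    (α β : F' →+* F) (Nα Nβ : F → F') (q m : ℕ)
    (w' : F') (w π : F) (hαw : α w' = w) (hβw : β w' = w)
    (V1 V2 : ValuationSubring F') (VFF Vmid VVV : ValuationSubring F)
    (Tα : NormTable α Nα q w' π V1 V2 VFF Vmid VVV)
    (Tβ : NormTable β Nβ q w' π V2 V1 VVV Vmid VFF)
    (hw'0 : w' ≠ 0) (hw1 : V1.valuation w' < 1) (hw2 : V2.valuation w' < 1)
    (hπ0 : π ≠ 0)
    (hram : IsOrd Vmid π w ((q : ℤ) - 1))
    (hordFF : ∀ y : F, y ≠ 0 → ∃ a : ℤ, IsOrd VFF w y a)
    (hordmid : ∀ y : F, y ≠ 0 → ∃ a : ℤ, IsOrd Vmid π y a)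
    (hordVV : ∀ y : F, y ≠ 0 → ∃ a : ℤ, IsOrd VVV w y a)
    (hord1 : ∀ y : F', y ≠ 0 → ∃ a : ℤ, IsOrd V1 w' y a)
    (hord2 : ∀ y : F', y ≠ 0 → ∃ a : ℤ, IsOrd V2 w' y a)
    (hap_ord : ∀ a b c : ℤ, ∃ g : F, IsOrd VFF w g a ∧ IsOrd Vmid π g b ∧ IsOrd VVV w g c)
    (f : F) (hf : f ≠ 0)
    (hNα : ∃ (s : ℤ) (g : F'), g ≠ 0 ∧ Nα f = w' ^ s * g ^ m)
    (hNβ : ∃ (s : ℤ) (g : F'), g ≠ 0 ∧ Nβ f = w' ^ s * g ^ m) :
    ∃ (s d : ℤ) (G u : F), G ≠ 0 ∧ f = w ^ s * G ^ m * u ∧
      (m : ℤ) ∣ ((q : ℤ) + 1) * d ∧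
      IsOrd VFF w f (s + d) ∧ IsOrd VVV w f s ∧
      IsOrd VFF w u d ∧ IsOrd Vmid π u (-d) ∧ IsOrd VVV w u 0 := by
  have hw0 : w ≠ 0 := by
    rw [← hαw]
    exact (map_ne_zero α).2 hw'0
  obtain ⟨aFF, hFF⟩ := hordFF f hf
  obtain ⟨amid, hmid⟩ := hordmid f hf
  obtain ⟨aVV, hVV⟩ := hordVV f hf
  obtain ⟨sα, gα, hgα0, hNα⟩ := hNα
  obtain ⟨sβ, gβ, hgβ0, hNβ⟩ := hNβ
  obtain ⟨cα1, hcα1⟩ := hord1 gα hgα0
  obtain ⟨cα2, hcα2⟩ := hord2 gα hgα0
  obtain ⟨cβ1, hcβ1⟩ := hord1 gβ hgβ0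
  obtain ⟨cβ2, hcβ2⟩ := hord2 gβ hgβ0
  have E1 : aFF + amid = sα * 1 + m * cα1 := by
    have e1a : IsOrd V1 w' (Nα f) (aFF + amid) := Tα.val_s f aFF amid (hαw ▸ hFF) hmid
    have e1b : IsOrd V1 w' (Nα f) (sα * 1 + m * cα1) := by
      rw [hNα]
      exact ((IsOrd.self).zpow sα).mul hw'0 (hcα1.pow m)
    exact IsOrd.unique hw'0 hw1 e1a e1b
  have E2 : (q : ℤ) * aVV = sα * 1 + m * cα2 := by
    have e2a : IsOrd V2 w' (Nα f) (q * aVV) := Tα.val_i f aVV (hαw ▸ hVV)
    have e2b : IsOrd V2 w' (Nα f) (sα * 1 + m * cα2) := by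
      rw [hNα]
      exact ((IsOrd.self).zpow sα).mul hw'0 (hcα2.pow m)
    exact IsOrd.unique hw'0 hw2 e2a e2b
  have E3 : aVV + amid = sβ * 1 + m * cβ2 := by
    have e3a : IsOrd V2 w' (Nβ f) (aVV + amid) := Tβ.val_s f aVV amid (hβw ▸ hVV) hmid
    have e3b : IsOrd V2 w' (Nβ f) (sβ * 1 + m * cβ2) := by
      rw [hNβ]
      exact ((IsOrd.self).zpow sβ).mul hw'0 (hcβ2.pow m)
    exact IsOrd.unique hw'0 hw2 e3a e3b
  have E4 : (q : ℤ) * aFF = sβ * 1 + m * cβ1 := by
    have e4a : IsOrd V1 w' (Nβ f) (q * aFF) := Tβ.val_i f aFF (hβw ▸ hFF)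
    have e4b : IsOrd V1 w' (Nβ f) (sβ * 1 + m * cβ1) := by
      rw [hNβ]
      exact ((IsOrd.self).zpow sβ).mul hw'0 (hcβ1.pow m)
    exact IsOrd.unique hw'0 hw1 e4a e4b
  obtain ⟨g₀, hg₀FF, hg₀mid, hg₀VV⟩ := hap_ord 0 (cα1 - cα2) 0
  have hg₀0 : g₀ ≠ 0 := hg₀FF.ne_zero hw0
  have hwz : w ^ aVV ≠ 0 := zpow_ne_zero _ hw0
  have hgm : g₀ ^ m ≠ 0 := pow_ne_zero _ hg₀0
  refine ⟨aVV, aFF - aVV, g₀, f * (w ^ aVV)⁻¹ * (g₀ ^ m)⁻¹, hg₀0, ?_, ?_, ?_, hVV, ?_, ?_, ?_⟩
  · field_simp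
  · refine ⟨cα1 - cα2 - cβ2 + cβ1, ?_⟩
    linear_combination E1 - E2 - E3 + E4
  · exact hFF.congr (by ring)
  · have h1 : IsOrd VFF w (f * (w ^ aVV)⁻¹ * (g₀ ^ m)⁻¹) (aFF + -(aVV * 1) + -(m * 0)) :=
      (hFF.mul hw0 ((IsOrd.self).zpow aVV).inv).mul hw0 (hg₀FF.pow m).inv
    exact h1.congr (by ring)
  · have h1 : IsOrd Vmid π (f * (w ^ aVV)⁻¹ * (g₀ ^ m)⁻¹)
        (amid + -(aVV * ((q : ℤ) - 1)) + -(m * (cα1 - cα2))) :=
      (hmid.mul hπ0 (hram.zpow aVV).inv).mul hπ0 (hg₀mid.pow m).inv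
    refine h1.congr ?_
    linear_combination E1 - E2
  · have h1 : IsOrd VVV w (f * (w ^ aVV)⁻¹ * (g₀ ^ m)⁻¹) (aVV + -(aVV * 1) + -(m * 0)) :=
      (hVV.mul hw0 ((IsOrd.self).zpow aVV).inv).mul hw0 (hg₀VV.pow m).inv
    exact h1.congr (by ring)

/-- The slope hypothesis of `stepNew` is automatic when `gcd(q + 1, m) = 1`. -/
theorem slope_of_coprime
    (α β : F' →+* F) (Nα Nβ : F → F') (q m : ℕ) (hqm1 : Nat.Coprime (q + 1) m)
    (w' : F') (w π : F) (hαw : α w' = w) (hβw : β w' = w)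
    (V1 V2 : ValuationSubring F') (VFF Vmid VVV : ValuationSubring F)
    (Tα : NormTable α Nα q w' π V1 V2 VFF Vmid VVV)
    (Tβ : NormTable β Nβ q w' π V2 V1 VVV Vmid VFF)
    (hw'0 : w' ≠ 0) (hw1 : V1.valuation w' < 1) (hw2 : V2.valuation w' < 1)
    (hordmid : ∀ y : F, y ≠ 0 → ∃ a : ℤ, IsOrd Vmid π y a)
    (hord1 : ∀ y : F', y ≠ 0 → ∃ a : ℤ, IsOrd V1 w' y a)
    (hord2 : ∀ y : F', y ≠ 0 → ∃ a : ℤ, IsOrd V2 w' y a)
    (f : F) (hf : f ≠ 0)
    (hNα : ∃ (s : ℤ) (g : F'), g ≠ 0 ∧ Nα f = w' ^ s * g ^ m)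
    (hNβ : ∃ (s : ℤ) (g : F'), g ≠ 0 ∧ Nβ f = w' ^ s * g ^ m) :
    ∀ a₁ a₃ : ℤ, IsOrd VFF w f a₁ → IsOrd VVV w f a₃ → (m : ℤ) ∣ a₁ - a₃ := by
  intro aFF aVV hFF hVV
  obtain ⟨amid, hmid⟩ := hordmid f hf
  obtain ⟨sα, gα, hgα0, hNα⟩ := hNα
  obtain ⟨sβ, gβ, hgβ0, hNβ⟩ := hNβ
  obtain ⟨cα1, hcα1⟩ := hord1 gα hgα0
  obtain ⟨cα2, hcα2⟩ := hord2 gα hgα0
  obtain ⟨cβ1, hcβ1⟩ := hord1 gβ hgβ0
  obtain ⟨cβ2, hcβ2⟩ := hord2 gβ hgβ0
  have E1 : aFF + amid = sα * 1 + m * cα1 := by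
    have e1a : IsOrd V1 w' (Nα f) (aFF + amid) := Tα.val_s f aFF amid (hαw ▸ hFF) hmid
    have e1b : IsOrd V1 w' (Nα f) (sα * 1 + m * cα1) := by
      rw [hNα]
      exact ((IsOrd.self).zpow sα).mul hw'0 (hcα1.pow m)
    exact IsOrd.unique hw'0 hw1 e1a e1b
  have E2 : (q : ℤ) * aVV = sα * 1 + m * cα2 := by
    have e2a : IsOrd V2 w' (Nα f) (q * aVV) := Tα.val_i f aVV (hαw ▸ hVV)
    have e2b : IsOrd V2 w' (Nα f) (sα * 1 + m * cα2) := by
      rw [hNα]
      exact ((IsOrd.self).zpow sα).mul hw'0 (hcα2.pow m)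
    exact IsOrd.unique hw'0 hw2 e2a e2b
  have E3 : aVV + amid = sβ * 1 + m * cβ2 := by
    have e3a : IsOrd V2 w' (Nβ f) (aVV + amid) := Tβ.val_s f aVV amid (hβw ▸ hVV) hmid
    have e3b : IsOrd V2 w' (Nβ f) (sβ * 1 + m * cβ2) := by
      rw [hNβ]
      exact ((IsOrd.self).zpow sβ).mul hw'0 (hcβ2.pow m)
    exact IsOrd.unique hw'0 hw2 e3a e3b
  have E4 : (q : ℤ) * aFF = sβ * 1 + m * cβ1 := by
    have e4a : IsOrd V1 w' (Nβ f) (q * aFF) := Tβ.val_i f aFF (hβw ▸ hFF)
    have e4b : IsOrd V1 w' (Nβ f) (sβ * 1 + m * cβ1) := by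
      rw [hNβ]
      exact ((IsOrd.self).zpow sβ).mul hw'0 (hcβ1.pow m)
    exact IsOrd.unique hw'0 hw1 e4a e4b
  have key : (m : ℤ) ∣ (((q + 1 : ℕ) : ℤ)) * (aFF - aVV) := by
    refine ⟨cα1 - cα2 - cβ2 + cβ1, ?_⟩
    push_cast
    linear_combination E1 - E2 - E3 + E4
  have hcop : IsCoprime (m : ℤ) ((q + 1 : ℕ) : ℤ) :=
    (Nat.isCoprime_iff_coprime.2 hqm1).symm
  exact hcop.dvd_of_dvd_mul_left key

/-- **W-NEW.**  `f ≠ 0` with `N_α f`, `N_β f` of the form `w' ^ s * g ^ m`, `gcd(q, m) = 1`, of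
slope zero.  Then `f = w ^ s * G ^ m * u` with `u ≡ 1` at `V_FF` and `V_VV`, `u` a unit at
`V_mid` whose `(q - 1)`-st power is congruent to `(α k₁) ^ m` and to `(β k₂) ^ m`, where
`N_α u = k₁ ^ m`, `N_β u = k₂ ^ m`.  No power of `f` is taken. -/
theorem stepNew
    (α β : F' →+* F) (Nα Nβ : F → F') (q m : ℕ) (hm : 0 < m)
    (hqm : Nat.Coprime q m)
    (w' : F') (w π : F) (hαw : α w' = w) (hβw : β w' = w)
    (V1 V2 : ValuationSubring F') (VFF Vmid VVV : ValuationSubring F)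
    (Tα : NormTable α Nα q w' π V1 V2 VFF Vmid VVV)
    (Tβ : NormTable β Nβ q w' π V2 V1 VVV Vmid VFF)
    (hw'0 : w' ≠ 0) (hw1 : V1.valuation w' < 1) (hw2 : V2.valuation w' < 1)
    (hπ0 : π ≠ 0)
    (hram : IsOrd Vmid π w ((q : ℤ) - 1))
    (hordFF : ∀ y : F, y ≠ 0 → ∃ a : ℤ, IsOrd VFF w y a)
    (hordmid : ∀ y : F, y ≠ 0 → ∃ a : ℤ, IsOrd Vmid π y a)
    (hordVV : ∀ y : F, y ≠ 0 → ∃ a : ℤ, IsOrd VVV w y a)
    (hord1 : ∀ y : F', y ≠ 0 → ∃ a : ℤ, IsOrd V1 w' y a)
    (hord2 : ∀ y : F', y ≠ 0 → ∃ a : ℤ, IsOrd V2 w' y a)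
    (hap_ord : ∀ a b c : ℤ, ∃ g : F, IsOrd VFF w g a ∧ IsOrd Vmid π g b ∧ IsOrd VVV w g c)
    (hap_res : ∀ g₁ g₂ g₃ : F, VFF.valuation g₁ = 1 → Vmid.valuation g₂ = 1 →
      VVV.valuation g₃ = 1 → ∃ g : F, PU VFF (g / g₁) ∧ PU Vmid (g / g₂) ∧ PU VVV (g / g₃))
    (f : F) (hf : f ≠ 0)
    (hNα : ∃ (s : ℤ) (g : F'), g ≠ 0 ∧ Nα f = w' ^ s * g ^ m)
    (hNβ : ∃ (s : ℤ) (g : F'), g ≠ 0 ∧ Nβ f = w' ^ s * g ^ m)
    (hslope : ∀ a₁ a₃ : ℤ, IsOrd VFF w f a₁ → IsOrd VVV w f a₃ → (m : ℤ) ∣ a₁ - a₃) :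
    ∃ (s : ℤ) (G u : F) (k₁ k₂ : F'), G ≠ 0 ∧ f = w ^ s * G ^ m * u ∧
      PU VFF u ∧ PU VVV u ∧ Vmid.valuation u = 1 ∧
      PU Vmid (u ^ (q - 1) / (α k₁) ^ m) ∧ PU Vmid (u ^ (q - 1) / (β k₂) ^ m) ∧
      V1.valuation k₁ = 1 ∧ V2.valuation k₁ = 1 ∧
      V1.valuation k₂ = 1 ∧ V2.valuation k₂ = 1 ∧
      Nα u = k₁ ^ m ∧ Nβ u = k₂ ^ m := by
  have hw0 : w ≠ 0 := by
    rw [← hαw]
    exact (map_ne_zero α).2 hw'0
  have hwFF : VFF.valuation w < 1 := by
    rw [← hαw]
    exact (over_val_lt_one Tα.over_u w').2 hw1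
  obtain ⟨s, d, G₀, u₀, hG₀, hfu₀, -, hFFf, hVVf, hu₀FF, hu₀mid, hu₀VV⟩ :=
    stepNew_slope α β Nα Nβ q m w' w π hαw hβw V1 V2 VFF Vmid VVV Tα Tβ hw'0 hw1 hw2 hπ0
      hram hordFF hordmid hordVV hord1 hord2 hap_ord f hf hNα hNβ
  -- the slope is divisible by `m`
  obtain ⟨d', hd'⟩ : (m : ℤ) ∣ d := by
    have := hslope (s + d) s hFFf hVVf
    rwa [add_sub_cancel_left] at this
  obtain ⟨g₁, hg₁FF, hg₁mid, hg₁VV⟩ := hap_ord d' (-d') 0
  have hg₁0 : g₁ ≠ 0 := hg₁FF.ne_zero hw0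
  -- `f₁ = u₀ / g₁ ^ m` is a unit at the three places
  set f₁ : F := u₀ * (g₁ ^ m)⁻¹ with hf₁
  have hf₁FF : VFF.valuation f₁ = 1 := by
    have h1 : IsOrd VFF w f₁ (d + -(m * d')) := hu₀FF.mul hw0 (hg₁FF.pow m).inv
    refine (h1.congr ?_).val_eq_one
    rw [hd']
    ring
  have hf₁mid : Vmid.valuation f₁ = 1 := by
    have h1 : IsOrd Vmid π f₁ (-d + -(m * (-d'))) := hu₀mid.mul hπ0 (hg₁mid.pow m).inv
    refine (h1.congr ?_).val_eq_one
    rw [hd']
    ring
  have hf₁VV : VVV.valuation f₁ = 1 := by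
    have h1 : IsOrd VVV w f₁ (0 + -(m * 0)) := hu₀VV.mul hw0 (hg₁VV.pow m).inv
    exact (h1.congr (by ring)).val_eq_one
  -- `f = w ^ s * (G₀ g₁) ^ m * f₁`
  have hff₁ : f = w ^ s * (G₀ * g₁) ^ m * f₁ := by
    rw [hfu₀, hf₁, mul_pow]
    have : g₁ ^ m ≠ 0 := pow_ne_zero _ hg₁0
    field_simp
  have hf₁e : f₁ = f ^ 1 * (w ^ s)⁻¹ * ((G₀ * g₁) ^ m)⁻¹ := by
    have h1 : w ^ s ≠ 0 := zpow_ne_zero _ hw0
    have h2 : (G₀ * g₁) ^ m ≠ 0 := pow_ne_zero _ (mul_ne_zero hG₀ hg₁0)
    rw [pow_one]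
    rw [hff₁]
    field_simp
  have hGg0 : G₀ * g₁ ≠ 0 := mul_ne_zero hG₀ hg₁0
  -- norms of `f₁`
  obtain ⟨sα, gα, hgα0, hNα⟩ := hNα
  obtain ⟨sβ, gβ, hgβ0, hNβ⟩ := hNβ
  obtain ⟨hα, hα1, hα2, hNα₁⟩ : ∃ h : F', V1.valuation h = 1 ∧ V2.valuation h = 1 ∧
      Nα f₁ = h ^ m := by
    have := Tα.norm_unit_pow hm hw'0 hw1 hord1 hGg0 hgα0 hNα 1 s
      (by rw [hαw, ← hf₁e]; exact hf₁FF) (by rw [hαw, ← hf₁e]; exact hf₁mid)
      (by rw [hαw, ← hf₁e]; exact hf₁VV)
    rw [hαw, ← hf₁e] at this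
    exact this
  obtain ⟨hβ, hβ2, hβ1, hNβ₁⟩ : ∃ h : F', V2.valuation h = 1 ∧ V1.valuation h = 1 ∧
      Nβ f₁ = h ^ m := by
    have := Tβ.norm_unit_pow hm hw'0 hw2 hord2 hGg0 hgβ0 hNβ 1 s
      (by rw [hβw, ← hf₁e]; exact hf₁VV) (by rw [hβw, ← hf₁e]; exact hf₁mid)
      (by rw [hβw, ← hf₁e]; exact hf₁FF)
    rw [hβw, ← hf₁e] at this
    exact this
  -- residues at the purely inseparable places
  obtain ⟨GVV, hGVV0, hGVV⟩ := Tα.pu_insep hqm hf₁VV hα2 hNα₁
  obtain ⟨GFF, hGFF0, hGFF⟩ := Tβ.pu_insep hqm hf₁FF hβ1 hNβ₁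
  have hGFF1 : VFF.valuation GFF = 1 := val_one_of_pu_div_pow_987 hm hf₁FF hGFF
  have hGVV1 : VVV.valuation GVV = 1 := val_one_of_pu_div_pow_987 hm hf₁VV hGVV
  -- approximation
  obtain ⟨G, hGa, hGb, hGc⟩ := hap_res GFF 1 GVV hGFF1 (map_one _) hGVV1
  have hG0 : G ≠ 0 := by
    intro h0
    rw [h0, zero_div] at hGa
    exact hGa.ne_zero rfl
  have hGFFv : VFF.valuation G = 1 := val_one_of_pu_div_987 hGFF1 hGa
  have hGmidv : Vmid.valuation G = 1 := val_one_of_pu_div_987 (map_one _) hGb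
  have hGVVv : VVV.valuation G = 1 := val_one_of_pu_div_987 hGVV1 hGc
  have hGm0 : G ^ m ≠ 0 := pow_ne_zero _ hG0
  -- the unit `u`
  set u : F := f₁ / G ^ m with hu
  have huFF : PU VFF u := by
    have e : u = (f₁ / GFF ^ m) * ((G / GFF) ^ m)⁻¹ := by
      rw [hu, div_pow]
      have h4 : GFF ^ m ≠ 0 := pow_ne_zero _ hGFF0
      field_simp
    rw [e]
    exact hGFF.mul (hGa.pow m).inv
  have huVV : PU VVV u := by
    have e : u = (f₁ / GVV ^ m) * ((G / GVV) ^ m)⁻¹ := by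
      rw [hu, div_pow]
      have h4 : GVV ^ m ≠ 0 := pow_ne_zero _ hGVV0
      field_simp
    rw [e]
    exact hGVV.mul (hGc.pow m).inv
  have humid : Vmid.valuation u = 1 := by
    rw [hu, map_div₀, map_pow, hf₁mid, hGmidv, one_pow, div_one]
  -- norms of `G`
  obtain ⟨hNG1, hNG2⟩ := norm_val_one_987 Tα hGFFv hGmidv hGVVv
  obtain ⟨hNG2', hNG1'⟩ := norm_val_one_987 Tβ hGVVv hGmidv hGFFv
  have hNαu : Nα u = (hα * (Nα G)⁻¹) ^ m := by
    rw [hu, div_eq_mul_inv, Tα.norm_mul, hNα₁,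
      nfn_inv Tα.norm_one Tα.norm_mul hGm0, nfn_pow Tα.norm_one Tα.norm_mul,
      mul_pow, inv_pow]
  have hNβu : Nβ u = (hβ * (Nβ G)⁻¹) ^ m := by
    rw [hu, div_eq_mul_inv, Tβ.norm_mul, hNβ₁,
      nfn_inv Tβ.norm_one Tβ.norm_mul hGm0, nfn_pow Tβ.norm_one Tβ.norm_mul,
      mul_pow, inv_pow]
  have hk₁1 : V1.valuation (hα * (Nα G)⁻¹) = 1 := by
    rw [map_mul, map_inv₀, hα1, hNG1, inv_one, mul_one]
  have hk₁2 : V2.valuation (hα * (Nα G)⁻¹) = 1 := by
    rw [map_mul, map_inv₀, hα2, hNG2, inv_one, mul_one]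
  have hk₂1 : V1.valuation (hβ * (Nβ G)⁻¹) = 1 := by
    rw [map_mul, map_inv₀, hβ1, hNG1', inv_one, mul_one]
  have hk₂2 : V2.valuation (hβ * (Nβ G)⁻¹) = 1 := by
    rw [map_mul, map_inv₀, hβ2, hNG2', inv_one, mul_one]
  refine ⟨s, G₀ * g₁ * G, u, hα * (Nα G)⁻¹, hβ * (Nβ G)⁻¹,
    mul_ne_zero hGg0 hG0, ?_, huFF, huVV, humid, ?_, ?_, hk₁1, hk₁2, hk₂1, hk₂2, hNαu, hNβu⟩
  · rw [hff₁, hu, mul_pow (G₀ * g₁) G m]
    field_simp
  · exact pu_mid_987 Tα huFF humid hk₁1 hNαu
  · exact pu_mid_987 Tβ huVV humid hk₂2 hNβu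

end Main

end Fermat.Agent.S59.LoSqC.H987

end
-- ===== PACK-END S59/LoSqC/H987/StepNew.lean

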