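import Mathlib
import Fermat.Prelude.Def_AlgebraicCurve_BaseChangeGalois
import Fermat.Agent.Pack.S43MC.G0E10L2
import Fermat.Agent.Pack.S44C.G0E0L2
import Fermat.Agent.Pack.S44C.G0E6L1
import Fermat.Agent.Pack.S59C.E0L3
import Fermat.Agent.Pack.S59C.E1L0
import Fermat.Agent.Pack.S59C.E1L3
import Fermat.Agent.Pack.S44C.G0E6L2
import Fermat.Agent.Pack.S59C.E1L1
import Fermat.Agent.Pack.S59C.E0L2
import Fermat.Agent.Pack.S59C.E1L2
import Fermat.Agent.Pack.S44C.G0E7L1
import Fermat.Agent.Pack.S43MC.G0E7L0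

set_option linter.all false

-- ===== PACK-BEGIN S41/H221/PDAsm1.lean
section



/-!
# S41, block PD — assembly, part 1 (helper221): the Manin pairing on a general `Γ`

From the leaves of `Spec/PD.lean` (taken as hypotheses):
* `maninPairingEq`       : `Spec.ManinPairingEqStatement`        (A1) from D2, D2'', D4, LA-2;
* `maninPairingPD`       : `Spec.ManinPairingPDStatement`        (A2) from A1, D1, D2', D2'', D3, D3', D4, LA-1, LA-2, LA-3;
* `maninPairingResCores` : `Spec.ManinPairingResCoresStatement`  (A3) from A1, D1, D4, TR-1, TR-2, TR-3.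
-/

set_option autoImplicit false

namespace Fermat.Agent.S41.H221

open CongruenceSubgroup Matrix.SpecialLinearGroup ModularCurve.Period ModularGroup
open Fermat.Agent.S41.Spec
open scoped MatrixGroups

universe u

section Basic

variable {Γ : Subgroup SL(2, ℤ)}

theorem S_smul_S_smul (hneg : (-1 : SL(2, ℤ)) ∈ Γ) (x : SL(2, ℤ) ⧸ Γ) : S • S • x = x := by
  induction x using QuotientGroup.induction_on with
  | H g =>
    rw [smul_smul, MulAction.Quotient.smul_mk, smul_eq_mul, QuotientGroup.eq]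
    have h1 : (S * S : SL(2, ℤ)) = -1 := by
      apply Subtype.ext
      rw [Matrix.SpecialLinearGroup.coe_mul, Matrix.SpecialLinearGroup.coe_neg,
        Matrix.SpecialLinearGroup.coe_one, S_mul_S_eq]
    have h2 : ((S * S : SL(2, ℤ)) * g)⁻¹ * g = -1 := by
      rw [h1]
      have h3 : ((-1 : SL(2, ℤ)) * g) = g * (-1) := by simp
      rw [h3, _root_.mul_inv_rev, mul_assoc, inv_mul_cancel, mul_one]
      rw [inv_eq_iff_eq_inv, eq_inv_iff_mul_eq_one]; simp
    rw [h2]; exact hneg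

theorem S_smul_T_smul (x : SL(2, ℤ) ⧸ Γ) : S • T • x = (S * T) • x := (mul_smul S T x).symm

theorem S_smul_ST_smul (hneg : (-1 : SL(2, ℤ)) ∈ Γ) (x : SL(2, ℤ) ⧸ Γ) :
    S • (S * T) • x = T • x := by
  rw [mul_smul, S_smul_S_smul hneg]

variable {R : Type*} [CommRing R]

theorem maninForm_add_left [Finite (SL(2, ℤ) ⧸ Γ)] (m₁ m₂ e' : SL(2, ℤ) ⧸ Γ → R) :
    maninForm Γ (m₁ + m₂) e' = maninForm Γ m₁ e' + maninForm Γ m₂ e' := by
  have : Fintype (SL(2, ℤ) ⧸ Γ) := Fintype.ofFinite _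
  rw [maninForm_eq_sum, maninForm_eq_sum, maninForm_eq_sum, ← Finset.sum_add_distrib]
  refine Finset.sum_congr rfl fun x _ => ?_
  simp only [Pi.add_apply]; ring

theorem maninForm_sub_left [Finite (SL(2, ℤ) ⧸ Γ)] (m₁ m₂ e' : SL(2, ℤ) ⧸ Γ → R) :
    maninForm Γ (m₁ - m₂) e' = maninForm Γ m₁ e' - maninForm Γ m₂ e' := by
  have : Fintype (SL(2, ℤ) ⧸ Γ) := Fintype.ofFinite _
  rw [maninForm_eq_sum, maninForm_eq_sum, maninForm_eq_sum, ← Finset.sum_sub_distrib]
  refine Finset.sum_congr rfl fun x _ => ?_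
  simp only [Pi.sub_apply]; ring

theorem maninForm_mul_left [Finite (SL(2, ℤ) ⧸ Γ)] (c : R) (m e' : SL(2, ℤ) ⧸ Γ → R) :
    maninForm Γ (fun x => c * m x) e' = c * maninForm Γ m e' := by
  have : Fintype (SL(2, ℤ) ⧸ Γ) := Fintype.ofFinite _
  rw [maninForm_eq_sum, maninForm_eq_sum, Finset.mul_sum]
  refine Finset.sum_congr rfl fun x _ => ?_
  ring

/-- `M^S + M^{ST}` is orthogonal to `e' - e'|S` for parabolic data `(m', e')`. -/
theorem maninForm_invariantSum [Finite (SL(2, ℤ) ⧸ Γ)] (hneg : (-1 : SL(2, ℤ)) ∈ Γ)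
    (n m' e' : SL(2, ℤ) ⧸ Γ → R) (hn : IsInvariantSum Γ n) (hp : IsParData Γ m' e') :
    maninForm Γ n e' = 0 := by
  have : Fintype (SL(2, ℤ) ⧸ Γ) := Fintype.ofFinite _
  obtain ⟨n₁, n₂, h1, h2, rfl⟩ := hn
  rw [maninForm_add_left]
  have e1 : maninForm Γ n₁ e' = 0 := by
    rw [maninForm_eq_sum]
    have : ∑ x : SL(2, ℤ) ⧸ Γ, n₁ x * e' (S • x) = ∑ x : SL(2, ℤ) ⧸ Γ, n₁ x * e' x := by
      rw [← Equiv.sum_comp (MulAction.toPerm (S : SL(2, ℤ))) (fun x => n₁ x * e' x)]
      refine Finset.sum_congr rfl fun x _ => ?_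
      simp only [MulAction.toPerm_apply]
      rw [h1]
    simp only [mul_sub, Finset.sum_sub_distrib, this, sub_self]
  have e2 : maninForm Γ n₂ e' = 0 := by
    rw [maninForm_eq_sum]
    -- `e' x - e' (S x) = k x - k (U x)` with `k x = m' x - e' (S x)`
    have hk : ∀ x : SL(2, ℤ) ⧸ Γ, e' x - e' (S • x) =
        (m' x - e' (S • x)) - (m' ((S * T) • x) - e' (S • (S * T) • x)) := by
      intro x
      have := hp x
      rw [S_smul_ST_smul hneg]
      linear_combination -this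
    have : ∑ x : SL(2, ℤ) ⧸ Γ, n₂ x * (m' ((S * T) • x) - e' (S • (S * T) • x)) =
        ∑ x : SL(2, ℤ) ⧸ Γ, n₂ x * (m' x - e' (S • x)) := by
      rw [← Equiv.sum_comp (MulAction.toPerm (S * T : SL(2, ℤ)))
        (fun x => n₂ x * (m' x - e' (S • x)))]
      refine Finset.sum_congr rfl fun x _ => ?_
      simp only [MulAction.toPerm_apply]
      rw [h2]
    calc ∑ x : SL(2, ℤ) ⧸ Γ, n₂ x * (e' x - e' (S • x))
        = ∑ x : SL(2, ℤ) ⧸ Γ, (n₂ x * (m' x - e' (S • x)) -
            n₂ x * (m' ((S * T) • x) - e' (S • (S * T) • x))) := by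
          refine Finset.sum_congr rfl fun x _ => ?_
          rw [hk x]; ring
      _ = 0 := by rw [Finset.sum_sub_distrib, this, sub_self]
  rw [e1, e2, add_zero]

/-- LA-2 on `X = SL(2,ℤ) ⧸ Γ`. -/
theorem maninForm_skew (hskew : ManinSkewStatement.{u}) [Finite (SL(2, ℤ) ⧸ Γ)]
    (hneg : (-1 : SL(2, ℤ)) ∈ Γ) {R : Type u} [CommRing R]
    (m e m' e' : SL(2, ℤ) ⧸ Γ → R) (hp : IsParData Γ m e) (hp' : IsParData Γ m' e') :
    maninForm Γ m' e = - maninForm Γ m e' := by
  have : Fintype (SL(2, ℤ) ⧸ Γ) := Fintype.ofFinite _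
  rw [maninForm_eq_sum, maninForm_eq_sum]
  exact hskew (SL(2, ℤ) ⧸ Γ) (MulAction.toPerm (S : SL(2, ℤ)))
    (MulAction.toPerm (S * T : SL(2, ℤ))) (MulAction.toPerm (T : SL(2, ℤ)))
    (fun x => S_smul_S_smul hneg x) (fun x => S_smul_T_smul x) R m e m' e' hp hp'

end Basic

/-! ## A1 -/

theorem maninPairingEq (hD2 : ManinRepZeroStatement.{u}) (hLin : ManinRepLinearStatement.{u})
    (hD4 : ManinRepParabolicStatement.{u}) (hskew : ManinSkewStatement.{u}) :
    ManinPairingEqStatement.{u} := by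
  intro Γ _ hneg R _ φ ψ m m' e' hφ hm hm' hp'
  have hex : ∃ m m' e' : SL(2, ℤ) ⧸ Γ → R,
      IsManinRep Γ φ m ∧ IsManinRep Γ ψ m' ∧ IsParData Γ m' e' := ⟨m, m', e', hm, hm', hp'⟩
  rw [maninPairing, dif_pos hex]
  obtain ⟨hm₀, hm'₀, hp'₀⟩ := hex.choose_spec.choose_spec.choose_spec
  set m₀ := hex.choose
  set m'₀ := hex.choose_spec.choose
  set e'₀ := hex.choose_spec.choose_spec.choose
  obtain ⟨e, hp⟩ := (hD4 Γ hneg R φ m hm).1 hφ
  -- differences are invariant sums
  have hd : IsInvariantSum Γ (m₀ - m) := by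
    have h1 := (hLin Γ R R (AddMonoidHom.id R) φ φ m₀ m hm₀ hm).2.1
    rw [sub_self] at h1
    exact hD2 Γ hneg R _ h1
  have hd' : IsInvariantSum Γ (m'₀ - m') := by
    have h1 := (hLin Γ R R (AddMonoidHom.id R) ψ ψ m'₀ m' hm'₀ hm').2.1
    rw [sub_self] at h1
    exact hD2 Γ hneg R _ h1
  have s1 : maninForm Γ m₀ e'₀ = maninForm Γ m e'₀ := by
    have := maninForm_invariantSum hneg (m₀ - m) m'₀ e'₀ hd hp'₀
    rw [maninForm_sub_left] at this
    exact sub_eq_zero.mp this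
  have s2 : maninForm Γ m'₀ e = maninForm Γ m' e := by
    have := maninForm_invariantSum hneg (m'₀ - m') m e hd' hp
    rw [maninForm_sub_left] at this
    exact sub_eq_zero.mp this
  have s3 := maninForm_skew hskew hneg m e m'₀ e'₀ hp hp'₀
  have s4 := maninForm_skew hskew hneg m e m' e' hp hp'
  rw [s1]
  have : maninForm Γ m e'₀ = - maninForm Γ m'₀ e := by rw [s3, neg_neg]
  rw [this, s2, s4, neg_neg]

/-! ## A2 -/

theorem isManinRep_smul (hLin : ManinRepLinearStatement.{u}) {Γ : Subgroup SL(2, ℤ)}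
    {F : Type u} [Field F] (c : F) (φ : Additive Γ →+ F) (m : SL(2, ℤ) ⧸ Γ → F)
    (hm : IsManinRep Γ φ m) : IsManinRep Γ (c • φ) (fun x => c * m x) := by
  have h := (hLin Γ F F (AddMonoidHom.mulLeft c) φ φ m m hm hm).2.2
  have e1 : (AddMonoidHom.mulLeft c).comp φ = c • φ := by
    ext γ
    simp
  rw [e1] at h
  exact h

theorem maninPairingPD (hA1 : ManinPairingEqStatement.{u}) (hD1 : ManinRepExistsStatement.{u})
    (hD2' : ManinRepInvariantStatement.{u}) (hLin : ManinRepLinearStatement.{u})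
    (hD3 : ManinRepRealizeStatement.{u}) (hD3' : ManinRepTorsionStatement.{u})
    (hD4 : ManinRepParabolicStatement.{u}) (hperp : ManinPerpStatement.{u})
    (hskew : ManinSkewStatement.{u}) (hpar : ManinParDataOfStatement.{u}) :
    ManinPairingPDStatement.{u} := by
  intro Γ _ hneg F _
  have : Fintype (SL(2, ℤ) ⧸ Γ) := Fintype.ofFinite _
  -- representatives of cuspidal classes
  have hrep : ∀ x : Additive Γ →+ F, IsCuspidalOn Γ x →
      ∃ m e : SL(2, ℤ) ⧸ Γ → F, IsManinRep Γ x m ∧ IsParData Γ m e := by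
    intro x hx
    obtain ⟨m, hm⟩ := hD1 Γ hneg F x hx.2
    obtain ⟨e, he⟩ := (hD4 Γ hneg F x m hm).1 hx.1
    exact ⟨m, e, hm, he⟩
  refine ⟨?_, ?_, ?_, ?_⟩
  · intro x x' y hx hx' hy
    obtain ⟨m, e, hm, he⟩ := hrep x hx
    obtain ⟨m', e', hm', he'⟩ := hrep x' hx'
    obtain ⟨n, f, hn, hf⟩ := hrep y hy
    have hadd := (hLin Γ F F (AddMonoidHom.id F) x x' m m' hm hm').1
    have hparadd : IsParabolicHom Γ (x + x') := by
      intro γ hγ
      show x (Additive.ofMul γ) + x' (Additive.ofMul γ) = 0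
      rw [hx.1 γ hγ, hx'.1 γ hγ, add_zero]
    rw [hA1 Γ hneg F (x + x') y (m + m') n f hparadd hadd hn hf,
      hA1 Γ hneg F x y m n f hx.1 hm hn hf, hA1 Γ hneg F x' y m' n f hx'.1 hm' hn hf,
      maninForm_add_left]
  · intro c x y hx hy
    obtain ⟨m, e, hm, he⟩ := hrep x hx
    obtain ⟨n, f, hn, hf⟩ := hrep y hy
    have hsm := isManinRep_smul hLin c x m hm
    have hparsm : IsParabolicHom Γ (c • x) := by
      intro γ hγ
      show c • x (Additive.ofMul γ) = 0
      rw [hx.1 γ hγ, smul_zero]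
    rw [hA1 Γ hneg F (c • x) y _ n f hparsm hsm hn hf, hA1 Γ hneg F x y m n f hx.1 hm hn hf,
      maninForm_mul_left]
  · intro x y hx hy
    obtain ⟨m, e, hm, he⟩ := hrep x hx
    obtain ⟨n, f, hn, hf⟩ := hrep y hy
    rw [hA1 Γ hneg F y x n m e hy.1 hn hm he, hA1 Γ hneg F x y m n f hx.1 hm hn hf]
    exact maninForm_skew hskew hneg m e n f he hf
  · intro x hx hxy
    obtain ⟨m, e, hm, he⟩ := hrep x hx
    apply hD2' Γ hneg F x m hm
    apply hperp (SL(2, ℤ) ⧸ Γ) (MulAction.toPerm (S : SL(2, ℤ)))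
      (MulAction.toPerm (S * T : SL(2, ℤ))) F m
    intro s a b hsa hsb
    obtain ⟨m', e', hp', hs'⟩ := hpar (SL(2, ℤ) ⧸ Γ) (MulAction.toPerm (S : SL(2, ℤ)))
      (MulAction.toPerm (S * T : SL(2, ℤ))) (MulAction.toPerm (T : SL(2, ℤ)))
      (fun x => S_smul_S_smul hneg x) (fun x => S_smul_T_smul x) F s a b hsa hsb
    obtain ⟨ψ, hψ⟩ := hD3 Γ hneg F m'
    have hψc : IsCuspidalOn Γ ψ :=
      ⟨(hD4 Γ hneg F ψ m' hψ).2 ⟨e', hp'⟩, hD3' Γ hneg F ψ m' hψ⟩
    have h0 := hxy ψ hψc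
    rw [hA1 Γ hneg F x ψ m m' e' hx.1 hm hψ hp', maninForm_eq_sum] at h0
    have : ∑ x : SL(2, ℤ) ⧸ Γ, m x * s x = - ∑ x : SL(2, ℤ) ⧸ Γ, m x * (e' x - e' (S • x)) := by
      rw [← Finset.sum_neg_distrib]
      refine Finset.sum_congr rfl fun x _ => ?_
      have := hs' x
      simp only [MulAction.toPerm_apply] at this
      rw [← this]; ring
    rw [this, h0, neg_zero]

/-! ## A3 -/

theorem isCuspidalOn_res {Γ' Γ : Subgroup SL(2, ℤ)} (hle : Γ' ≤ Γ) {A : Type*} [AddCommGroup A]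
    (x : Additive Γ →+ A) (hx : IsCuspidalOn Γ x) :
    IsCuspidalOn Γ' (x.comp (MonoidHom.toAdditive (Subgroup.inclusion hle))) := by
  refine ⟨fun γ hγ => ?_, fun γ hγ => ?_⟩
  · exact hx.1 (Subgroup.inclusion hle γ) hγ
  · exact hx.2 (Subgroup.inclusion hle γ) ((Subgroup.inclusion hle).isOfFinOrder hγ)

theorem maninPairingResCores (hA1 : ManinPairingEqStatement.{u})
    (hD1 : ManinRepExistsStatement.{u}) (hD4 : ManinRepParabolicStatement.{u})
    (hRes : ManinRepResStatement.{u}) (hCores : ManinRepCoresStatement.{u})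
    (hAdj : ManinFormAdjointStatement.{u}) :
    ManinPairingResCoresStatement.{u} := by
  intro Γ' Γ _ _ hle hneg' F _ x y hx hy
  have hneg : (-1 : SL(2, ℤ)) ∈ Γ := hle hneg'
  obtain ⟨m, hm⟩ := hD1 Γ hneg F x hx.2
  obtain ⟨m', hm'⟩ := hD1 Γ' hneg' F y hy.2
  obtain ⟨e', he'⟩ := (hD4 Γ' hneg' F y m' hm').1 hy.1
  have hres := hRes Γ' Γ hle F x m hm
  have hcores := hCores Γ' Γ hle F y m' hm'
  obtain ⟨hpd, hadj⟩ := hAdj Γ' Γ hle F m m' e' he'
  rw [hA1 Γ' hneg' F _ y _ m' e' (isCuspidalOn_res hle x hx).1 hres hm' he',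
    hA1 Γ hneg F x _ m _ _ hx.1 hm hcores hpd]
  exact hadj

end Fermat.Agent.S41.H221

end
-- ===== PACK-END S41/H221/PDAsm1.lean

-- ===== PACK-BEGIN Lib/Red/H382/Slope.lean
section




/-!
# Good reduction, part 1 (helper382): integral points and compatibility of slopes

`V` a valuation subring of a field `K`, `κ` its residue field, `W₀` a Weierstrass curve over `V`.
For two `V`-integral points whose reductions are not opposite, the slope of the chord / tangent
is in `V` and reduces to the slope of the reductions.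
-/

set_option autoImplicit false
set_option linter.unusedSectionVars false
set_option linter.unusedVariables false

open WeierstrassCurve WeierstrassCurve.Affine WeierstrassCurve.Affine.Point

namespace Fermat.Agent.Lib.Red.H382

universe u

variable {K : Type u} [Field K] [DecidableEq K] (V : ValuationSubring K)
  [DecidableEq (IsLocalRing.ResidueField V)] (W₀ : WeierstrassCurve V)

/-- the residue map -/
noncomputable abbrev rr : V →+* IsLocalRing.ResidueField V := IsLocalRing.residue V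

lemma rr_eq_algebraMap : (rr V) = algebraMap V (IsLocalRing.ResidueField V) := rfl

lemma coe_eq_algebraMap (x : V) : (x : K) = algebraMap V K x := rfl

lemma baseChangeK_eq : (W₀⁄K) = W₀.map (algebraMap V K) := rfl

lemma baseChangeκ_eq : (W₀⁄(IsLocalRing.ResidueField V)) = W₀.map (rr V) := rfl

lemma algebraMap_injective_VK : Function.Injective (algebraMap V K) :=
  Subtype.val_injective

/-- the equation over `K` of an integral point descends to `V` -/
lemma equation_V {x y : V} (h : (W₀⁄K).Equation (x : K) (y : K)) :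
    W₀.toAffine.Equation x y :=
  (Affine.map_equation W₀.toAffine (algebraMap_injective_VK V) x y).mp h

/-- the reduction of an integral point satisfies the reduced equation -/
lemma equation_κ {x y : V} (h : (W₀⁄K).Equation (x : K) (y : K)) :
    (W₀⁄(IsLocalRing.ResidueField V)).Equation (rr V x) (rr V y) :=
  Affine.Equation.map (rr V) (equation_V V W₀ h)

lemma Δ_κ_ne_zero (hΔ : IsUnit W₀.Δ) : (W₀⁄(IsLocalRing.ResidueField V)).Δ ≠ 0 := by
  have h : (W₀⁄(IsLocalRing.ResidueField V)).Δ = rr V W₀.Δ := by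
    rw [baseChangeκ_eq]
    exact WeierstrassCurve.map_Δ W₀ (rr V)
  rw [h]
  exact (IsLocalRing.residue_ne_zero_iff_isUnit _).mpr hΔ

/-- with good reduction, the reduction of an integral point is nonsingular -/
lemma nonsingular_κ (hΔ : IsUnit W₀.Δ) {x y : V} (h : (W₀⁄K).Equation (x : K) (y : K)) :
    (W₀⁄(IsLocalRing.ResidueField V)).Nonsingular (rr V x) (rr V y) :=
  (Affine.equation_iff_nonsingular_of_Δ_ne_zero (Δ_κ_ne_zero V W₀ hΔ)).mp (equation_κ V W₀ h)

lemma negY_K (x y : V) : (W₀⁄K).negY (x : K) (y : K) = ((W₀.toAffine.negY x y : V) : K) :=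
  Affine.map_negY (W' := W₀.toAffine) (algebraMap V K) x y

lemma negY_κ (x y : V) :
    (W₀⁄(IsLocalRing.ResidueField V)).negY (rr V x) (rr V y) = rr V (W₀.toAffine.negY x y) :=
  Affine.map_negY (W' := W₀.toAffine) (rr V) x y

lemma addX_K (x₁ x₂ ℓ : V) :
    (W₀⁄K).addX (x₁ : K) (x₂ : K) (ℓ : K) = ((W₀.toAffine.addX x₁ x₂ ℓ : V) : K) :=
  Affine.map_addX (W' := W₀.toAffine) (algebraMap V K) x₁ x₂ ℓ

lemma addX_κ (x₁ x₂ ℓ : V) :
    (W₀⁄(IsLocalRing.ResidueField V)).addX (rr V x₁) (rr V x₂) (rr V ℓ) =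
      rr V (W₀.toAffine.addX x₁ x₂ ℓ) :=
  Affine.map_addX (W' := W₀.toAffine) (rr V) x₁ x₂ ℓ

lemma addY_K (x₁ x₂ y₁ ℓ : V) :
    (W₀⁄K).addY (x₁ : K) (x₂ : K) (y₁ : K) (ℓ : K) = ((W₀.toAffine.addY x₁ x₂ y₁ ℓ : V) : K) :=
  Affine.map_addY (W' := W₀.toAffine) (algebraMap V K) x₁ y₁ x₂ ℓ

lemma addY_κ (x₁ x₂ y₁ ℓ : V) :
    (W₀⁄(IsLocalRing.ResidueField V)).addY (rr V x₁) (rr V x₂) (rr V y₁) (rr V ℓ) =
      rr V (W₀.toAffine.addY x₁ x₂ y₁ ℓ) :=
  Affine.map_addY (W' := W₀.toAffine) (rr V) x₁ y₁ x₂ ℓ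

/-- The key identity `(y₁ - y₂) n = (x₁ - x₂) g` for two points on the curve. -/
lemma key_identity {R : Type*} [CommRing R] (W : Affine R) {x₁ y₁ x₂ y₂ : R}
    (h₁ : W.Equation x₁ y₁) (h₂ : W.Equation x₂ y₂) :
    (y₁ - y₂) * (y₁ - W.negY x₂ y₂) =
      (x₁ - x₂) * (x₁ ^ 2 + x₁ * x₂ + x₂ ^ 2 + W.a₂ * (x₁ + x₂) + W.a₄ - W.a₁ * y₁) := by
  rw [Affine.equation_iff] at h₁ h₂
  simp only [Affine.negY]
  linear_combination h₁ - h₂

/-- **Compatibility of slopes.**  If the reductions of two integral points are not opposite,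
the slope over `K` is integral and reduces to the slope over `κ`. -/
theorem exists_slope {x₁ y₁ x₂ y₂ : V}
    (h₁ : (W₀⁄K).Equation (x₁ : K) (y₁ : K)) (h₂ : (W₀⁄K).Equation (x₂ : K) (y₂ : K))
    (hxy : ¬(rr V x₁ = rr V x₂ ∧
      rr V y₁ = (W₀⁄(IsLocalRing.ResidueField V)).negY (rr V x₂) (rr V y₂))) :
    ∃ ℓ : V, (W₀⁄K).slope (x₁ : K) (x₂ : K) (y₁ : K) (y₂ : K) = (ℓ : K) ∧
      (W₀⁄(IsLocalRing.ResidueField V)).slope (rr V x₁) (rr V x₂) (rr V y₁) (rr V y₂) =
        rr V ℓ := by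
  have e₁ := equation_V V W₀ h₁
  have e₂ := equation_V V W₀ h₂
  have k₁ := equation_κ V W₀ h₁
  have k₂ := equation_κ V W₀ h₂
  by_cases hx : rr V x₁ = rr V x₂
  · -- same `x` in the reduction
    have hy : rr V y₁ ≠ (W₀⁄(IsLocalRing.ResidueField V)).negY (rr V x₂) (rr V y₂) :=
      fun h => hxy ⟨hx, h⟩
    have hyy : rr V y₁ = rr V y₂ := Affine.Y_eq_of_Y_ne k₁ k₂ hx hy
    -- `n` is a unit
    set n : V := y₁ - W₀.toAffine.negY x₂ y₂ with hn
    set g : V := x₁ ^ 2 + x₁ * x₂ + x₂ ^ 2 + W₀.a₂ * (x₁ + x₂) + W₀.a₄ - W₀.a₁ * y₁ with hg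
    have hrn : rr V n ≠ 0 := by
      rw [hn, map_sub, ← negY_κ, sub_ne_zero]
      exact hy
    obtain ⟨u, hu⟩ := ((IsLocalRing.residue_ne_zero_iff_isUnit n).mp hrn).exists_left_inv
    have hnK : (n : K) ≠ 0 := by
      intro h0
      have : n = 0 := Subtype.ext h0
      rw [this, _root_.map_zero] at hrn
      exact hrn rfl
    have huK : (u : K) = (n : K)⁻¹ := by
      have : (u : K) * (n : K) = 1 := by
        have := congrArg (fun t : V => (t : K)) hu
        simpa using this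
      exact eq_inv_of_mul_eq_one_left this
    have hur : rr V u = (rr V n)⁻¹ := by
      have : rr V u * rr V n = 1 := by rw [← map_mul, hu, map_one]
      exact eq_inv_of_mul_eq_one_left this
    have key := key_identity W₀.toAffine e₁ e₂
    refine ⟨g * u, ?_, ?_⟩
    · -- over `K`
      have hnKcoe : (n : K) = (y₁ : K) - (W₀⁄K).negY (x₂ : K) (y₂ : K) := by
        rw [hn, negY_K]; rfl
      by_cases hxK : (x₁ : K) = (x₂ : K)
      · have hxV : x₁ = x₂ := Subtype.ext hxK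
        have hyK : (y₁ : K) ≠ (W₀⁄K).negY (x₂ : K) (y₂ : K) := by
          intro h
          apply hnK
          rw [hnKcoe, h, sub_self]
        have hyyK : (y₁ : K) = (y₂ : K) := Affine.Y_eq_of_Y_ne h₁ h₂ hxK hyK
        have hyV : y₁ = y₂ := Subtype.ext hyyK
        rw [Affine.slope_of_Y_ne hxK hyK]
        have hden : (y₁ : K) - (W₀⁄K).negY (x₁ : K) (y₁ : K) = (n : K) := by
          rw [hnKcoe, hxK, hyyK]
        have hnum : 3 * (x₁ : K) ^ 2 + 2 * (W₀⁄K).a₂ * (x₁ : K) + (W₀⁄K).a₄ -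
            (W₀⁄K).a₁ * (y₁ : K) = (g : K) := by
          rw [hg, ← hxV]
          simp only [baseChangeK_eq, WeierstrassCurve.map_a₁, WeierstrassCurve.map_a₂,
            WeierstrassCurve.map_a₄, ← coe_eq_algebraMap]
          push_cast
          ring
        rw [hden, hnum, div_eq_mul_inv, ← huK]
        rfl
      · rw [Affine.slope_of_X_ne hxK]
        have hd : (x₁ : K) - (x₂ : K) ≠ 0 := sub_ne_zero.mpr hxK
        have keyK : ((y₁ : K) - (y₂ : K)) * (n : K) = ((x₁ : K) - (x₂ : K)) * (g : K) := by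
          have := congrArg (fun t : V => (t : K)) key
          simpa [hn, hg] using this
        rw [div_eq_iff hd]
        have : ((g * u : V) : K) = (g : K) * (n : K)⁻¹ := by
          rw [← huK]; rfl
        rw [this]
        field_simp
        linear_combination keyK
    · -- over `κ`
      rw [Affine.slope_of_Y_ne hx hy]
      have hden : rr V y₁ - (W₀⁄(IsLocalRing.ResidueField V)).negY (rr V x₁) (rr V y₁) =
          rr V n := by
        rw [hn, map_sub, ← negY_κ, hx, hyy]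
      have hnum : 3 * (rr V x₁) ^ 2 + 2 * (W₀⁄(IsLocalRing.ResidueField V)).a₂ * (rr V x₁) +
          (W₀⁄(IsLocalRing.ResidueField V)).a₄ -
            (W₀⁄(IsLocalRing.ResidueField V)).a₁ * (rr V y₁) = rr V g := by
        rw [hg]
        simp only [baseChangeκ_eq, WeierstrassCurve.map_a₁, WeierstrassCurve.map_a₂,
          WeierstrassCurve.map_a₄, map_sub, map_add, map_mul, map_pow, ← hx]
        ring
      rw [hden, hnum, div_eq_mul_inv, ← hur, map_mul]
  · -- different `x` in the reduction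
    have hxK : (x₁ : K) ≠ (x₂ : K) := by
      intro h
      exact hx (congrArg (rr V) (Subtype.ext h))
    have hrd : rr V (x₁ - x₂) ≠ 0 := by
      rw [map_sub, sub_ne_zero]; exact hx
    obtain ⟨u, hu⟩ := ((IsLocalRing.residue_ne_zero_iff_isUnit _).mp hrd).exists_left_inv
    have huK : (u : K) = ((x₁ : K) - (x₂ : K))⁻¹ := by
      have : (u : K) * ((x₁ : K) - (x₂ : K)) = 1 := by
        have := congrArg (fun t : V => (t : K)) hu
        simpa using this
      exact eq_inv_of_mul_eq_one_left this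
    have hur : rr V u = (rr V x₁ - rr V x₂)⁻¹ := by
      have : rr V u * (rr V x₁ - rr V x₂) = 1 := by rw [← map_sub, ← map_mul, hu, map_one]
      exact eq_inv_of_mul_eq_one_left this
    refine ⟨(y₁ - y₂) * u, ?_, ?_⟩
    · rw [Affine.slope_of_X_ne hxK, div_eq_mul_inv, ← huK]
      rfl
    · rw [Affine.slope_of_X_ne hx, div_eq_mul_inv, ← hur, map_mul, map_sub]

end Fermat.Agent.Lib.Red.H382

end
-- ===== PACK-END Lib/Red/H382/Slope.lean

-- ===== PACK-BEGIN Lib/Red/H382/Main.lean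
section





/-!
# Good reduction, part 3 (helper382): the reduction homomorphism

`V` a valuation subring of a field `K`, `W₀` a Weierstrass curve over `V` with `Δ(W₀) ∈ Vˣ`.
We define the reduction map `W₀(K) → W₀(κ_V)` and prove that it is additive.

Main result: `Fermat.Agent.Lib.Red.H382.goodReduction : Fermat.Agent.Lib.Red.GoodReduction`.
-/

set_option autoImplicit false
set_option linter.unusedSectionVars false
set_option linter.unusedVariables false

open WeierstrassCurve WeierstrassCurve.Affine WeierstrassCurve.Affine.Point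

namespace Fermat.Agent.Lib.Red.H382

open Fermat.Agent.S05.SameRed

universe u

variable {K : Type u} [Field K] [DecidableEq K] (V : ValuationSubring K)
  [DecidableEq (IsLocalRing.ResidueField V)] (W₀ : WeierstrassCurve V)

lemma integralCoeffs : IntegralCoeffs (W₀⁄K) V.valuation where
  a₁ := V.valuation_le_one W₀.a₁
  a₂ := V.valuation_le_one W₀.a₂
  a₃ := V.valuation_le_one W₀.a₃
  a₄ := V.valuation_le_one W₀.a₄
  a₆ := V.valuation_le_one W₀.a₆

lemma val_Δ_eq_one (hΔ : IsUnit W₀.Δ) : V.valuation (W₀⁄K).Δ = 1 := by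
  have h : (W₀⁄K).Δ = ((W₀.Δ : V) : K) := by
    rw [baseChangeK_eq]
    exact WeierstrassCurve.map_Δ W₀ (algebraMap V K)
  rw [h]
  exact (V.valuation_eq_one_iff _).mp hΔ

/-- an affine point with integral `x` has integral `y` -/
lemma mem_y {x y : K} (h : (W₀⁄K).Equation x y) (hx : x ∈ V) : y ∈ V :=
  (V.valuation_le_one_iff y).mp
    (Fermat.Agent.S05.GoodRed.val_y_le_one (integralCoeffs V W₀) h
      ((V.valuation_le_one_iff x).mpr hx))

lemma rr_eq_iff {a b : V} : rr V a = rr V b ↔ V.valuation ((a : K) - (b : K)) < 1 := by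
  rw [← sub_eq_zero, ← map_sub, IsLocalRing.residue_eq_zero_iff, V.valuation_lt_one_iff]
  rfl

lemma some_congr {F : Type*} [Field F] {W : Affine F} {x y x' y' : F} (hx : x = x')
    (hy : y = y') (h : W.Nonsingular x y) (h' : W.Nonsingular x' y') :
    Point.some x y h = Point.some x' y' h' := by
  subst hx; subst hy; rfl

open Classical in
/-- The reduction map on points. -/
noncomputable def redFun (hΔ : IsUnit W₀.Δ) :
    (W₀⁄K).Point → (W₀⁄(IsLocalRing.ResidueField V)).Point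
  | .zero => 0
  | .some x y h =>
    if hx : x ∈ V then
      Point.some (rr V ⟨x, hx⟩) (rr V ⟨y, mem_y V W₀ h.1 hx⟩)
        (nonsingular_κ V W₀ hΔ (x := ⟨x, hx⟩) (y := ⟨y, mem_y V W₀ h.1 hx⟩) h.1)
    else 0

variable {V W₀}
variable (hΔ : IsUnit W₀.Δ)

lemma redFun_zero : redFun V W₀ hΔ 0 = 0 := rfl

lemma redFun_some_of_mem {x y : K} (h : (W₀⁄K).Nonsingular x y) (hx : x ∈ V) (hy : y ∈ V) :
    redFun V W₀ hΔ (Point.some x y h) =
      Point.some (rr V ⟨x, hx⟩) (rr V ⟨y, hy⟩)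
        (nonsingular_κ V W₀ hΔ (x := ⟨x, hx⟩) (y := ⟨y, hy⟩) h.1) := by
  simp only [redFun, dif_pos hx]

lemma redFun_coe (x y : V) (h : (W₀⁄K).Nonsingular (x : K) (y : K)) :
    redFun V W₀ hΔ (Point.some (x : K) (y : K) h) =
      Point.some (rr V x) (rr V y) (nonsingular_κ V W₀ hΔ h.1) :=
  redFun_some_of_mem hΔ h x.2 y.2

lemma redFun_some_of_not_mem {x y : K} (h : (W₀⁄K).Nonsingular x y) (hx : x ∉ V) :
    redFun V W₀ hΔ (Point.some x y h) = 0 := by
  simp only [redFun, dif_neg hx]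

lemma inKer_some_iff {x y : K} (h : (W₀⁄K).Nonsingular x y) :
    InKer (W₀⁄K) V.valuation (Point.some x y h) ↔ x ∉ V := by
  rw [inKer_some, ← V.valuation_le_one_iff, not_le]

lemma redFun_eq_zero_iff (P : (W₀⁄K).Point) :
    redFun V W₀ hΔ P = 0 ↔ InKer (W₀⁄K) V.valuation P := by
  rcases P with _ | ⟨x, y, h⟩
  · exact ⟨fun _ => inKer_zero, fun _ => rfl⟩
  · rw [inKer_some_iff]
    by_cases hx : x ∈ V
    · rw [redFun_some_of_mem hΔ h hx (mem_y V W₀ h.1 hx)]
      exact ⟨fun h0 => absurd h0 (Point.some_ne_zero _), fun h0 => absurd hx h0⟩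
    · rw [redFun_some_of_not_mem hΔ h hx]
      exact ⟨fun _ => hx, fun _ => rfl⟩

lemma redFun_of_inKer {P : (W₀⁄K).Point} (hP : InKer (W₀⁄K) V.valuation P) :
    redFun V W₀ hΔ P = 0 :=
  (redFun_eq_zero_iff hΔ P).mpr hP

/-- a point not in the kernel of reduction is an integral affine point -/
lemma exists_coe_of_not_inKer {P : (W₀⁄K).Point} (hP : ¬ InKer (W₀⁄K) V.valuation P) :
    ∃ (x y : V) (h : (W₀⁄K).Nonsingular (x : K) (y : K)), P = Point.some (x : K) (y : K) h := by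
  rcases P with _ | ⟨x, y, h⟩
  · exact absurd inKer_zero hP
  · rw [inKer_some_iff, not_not] at hP
    exact ⟨⟨x, hP⟩, ⟨y, mem_y V W₀ h.1 hP⟩, h, rfl⟩

/-- **Lemma A**: sum of two integral points whose reductions are not opposite. -/
theorem add_coe_of_not_opp {x₁ y₁ x₂ y₂ : V}
    (h₁ : (W₀⁄K).Nonsingular (x₁ : K) (y₁ : K)) (h₂ : (W₀⁄K).Nonsingular (x₂ : K) (y₂ : K))
    (hxy : ¬(rr V x₁ = rr V x₂ ∧
      rr V y₁ = (W₀⁄(IsLocalRing.ResidueField V)).negY (rr V x₂) (rr V y₂))) :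
    ∃ (x₃ y₃ : V) (h₃ : (W₀⁄K).Nonsingular (x₃ : K) (y₃ : K)),
      Point.some (x₁ : K) (y₁ : K) h₁ + Point.some (x₂ : K) (y₂ : K) h₂ =
        Point.some (x₃ : K) (y₃ : K) h₃ ∧
      redFun V W₀ hΔ (Point.some (x₁ : K) (y₁ : K) h₁) +
        redFun V W₀ hΔ (Point.some (x₂ : K) (y₂ : K) h₂) =
        redFun V W₀ hΔ (Point.some (x₃ : K) (y₃ : K) h₃) := by
  obtain ⟨ℓ, hℓK, hℓκ⟩ := exists_slope V W₀ h₁.1 h₂.1 hxy
  have hxyK : ¬((x₁ : K) = (x₂ : K) ∧ (y₁ : K) = (W₀⁄K).negY (x₂ : K) (y₂ : K)) := by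
    rintro ⟨hx, hy⟩
    apply hxy
    have hxV : x₁ = x₂ := Subtype.ext hx
    have hyV : y₁ = W₀.toAffine.negY x₂ y₂ := by
      apply Subtype.ext
      rw [hy, negY_K]
    exact ⟨congrArg _ hxV, by rw [hyV, negY_κ]⟩
  set x₃ : V := W₀.toAffine.addX x₁ x₂ ℓ with hx₃
  set y₃ : V := W₀.toAffine.addY x₁ x₂ y₁ ℓ with hy₃
  have hX : (W₀⁄K).addX (x₁ : K) (x₂ : K) ((W₀⁄K).slope (x₁ : K) (x₂ : K) (y₁ : K) (y₂ : K)) =
      (x₃ : K) := by
    rw [hℓK, addX_K]
  have hY : (W₀⁄K).addY (x₁ : K) (x₂ : K) (y₁ : K)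
      ((W₀⁄K).slope (x₁ : K) (x₂ : K) (y₁ : K) (y₂ : K)) = (y₃ : K) := by
    rw [hℓK, addY_K]
  have h₃' := Affine.nonsingular_add h₁ h₂ hxyK
  have h₃ : (W₀⁄K).Nonsingular (x₃ : K) (y₃ : K) := by
    rw [← hX, ← hY]; exact h₃'
  refine ⟨x₃, y₃, h₃, ?_, ?_⟩
  · rw [Point.add_some hxyK]
    exact some_congr hX hY _ _
  · rw [redFun_coe, redFun_coe, redFun_coe, Point.add_some hxy]
    refine some_congr ?_ ?_ _ _
    · rw [hℓκ, addX_κ]
    · rw [hℓκ, addY_κ]

/-- **Lemma B**: sum of two integral points with opposite reductions. -/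
theorem inKer_add_of_opp (hΔ : IsUnit W₀.Δ) {x₁ y₁ x₂ y₂ : V}
    (h₁ : (W₀⁄K).Nonsingular (x₁ : K) (y₁ : K)) (h₂ : (W₀⁄K).Nonsingular (x₂ : K) (y₂ : K))
    (hxy : rr V x₁ = rr V x₂ ∧
      rr V y₁ = (W₀⁄(IsLocalRing.ResidueField V)).negY (rr V x₂) (rr V y₂)) :
    InKer (W₀⁄K) V.valuation
      (Point.some (x₁ : K) (y₁ : K) h₁ + Point.some (x₂ : K) (y₂ : K) h₂) := by
  have hW := integralCoeffs V W₀
  have h₂' : (W₀⁄K).Nonsingular (x₂ : K) ((W₀⁄K).negY (x₂ : K) (y₂ : K)) :=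
    (Affine.nonsingular_neg ..).mpr h₂
  have hneg : Point.some (x₂ : K) (y₂ : K) h₂ =
      -Point.some (x₂ : K) ((W₀⁄K).negY (x₂ : K) (y₂ : K)) h₂' := by
    rw [Point.neg_some]
    exact some_congr rfl (Affine.negY_negY ..).symm _ _
  rw [hneg, ← sub_eq_add_neg]
  have hx : V.valuation ((x₁ : K) - (x₂ : K)) < 1 := (rr_eq_iff V).mp hxy.1
  have hy : V.valuation ((y₁ : K) - (W₀⁄K).negY (x₂ : K) (y₂ : K)) < 1 := by
    rw [negY_K]
    apply (rr_eq_iff V).mp
    rw [hxy.2, negY_κ]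
  have hns := Fermat.Agent.S05.GoodRed.nonsingular_reduction_of_val_Δ hW
    (val_Δ_eq_one V W₀ hΔ) h₁.1 (V.valuation_le_one x₁)
  refine inKer_sub_of_same_reduction hW h₁ h₂' (V.valuation_le_one x₁) (V.valuation_le_one y₁)
    (V.valuation_le_one x₂) ?_ hx hy hns
  rw [negY_K]
  exact V.valuation_le_one _

/-- additivity for two integral points -/
theorem redFun_add_coe {x₁ y₁ x₂ y₂ : V}
    (h₁ : (W₀⁄K).Nonsingular (x₁ : K) (y₁ : K)) (h₂ : (W₀⁄K).Nonsingular (x₂ : K) (y₂ : K)) :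
    redFun V W₀ hΔ (Point.some (x₁ : K) (y₁ : K) h₁ + Point.some (x₂ : K) (y₂ : K) h₂) =
      redFun V W₀ hΔ (Point.some (x₁ : K) (y₁ : K) h₁) +
        redFun V W₀ hΔ (Point.some (x₂ : K) (y₂ : K) h₂) := by
  by_cases hxy : rr V x₁ = rr V x₂ ∧
      rr V y₁ = (W₀⁄(IsLocalRing.ResidueField V)).negY (rr V x₂) (rr V y₂)
  · rw [redFun_of_inKer hΔ (inKer_add_of_opp hΔ h₁ h₂ hxy), redFun_coe, redFun_coe,
      Point.add_of_Y_eq hxy.1 hxy.2]
  · obtain ⟨x₃, y₃, h₃, hadd, hred⟩ := add_coe_of_not_opp hΔ h₁ h₂ hxy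
    rw [hadd, hred]

lemma redFun_neg_coe {x y : V} (h : (W₀⁄K).Nonsingular (x : K) (y : K)) :
    redFun V W₀ hΔ (-Point.some (x : K) (y : K) h) =
      -redFun V W₀ hΔ (Point.some (x : K) (y : K) h) := by
  rw [Point.neg_some, redFun_coe, Point.neg_some]
  have h' : (W₀⁄K).Nonsingular (x : K) ((W₀.toAffine.negY x y : V) : K) := by
    rw [← negY_K]; exact (Affine.nonsingular_neg ..).mpr h
  have e : Point.some (x : K) ((W₀⁄K).negY (x : K) (y : K)) ((Affine.nonsingular_neg ..).mpr h) =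
      Point.some (x : K) ((W₀.toAffine.negY x y : V) : K) h' :=
    some_congr rfl (negY_K V W₀ x y) _ _
  rw [e, redFun_coe]
  exact some_congr rfl (negY_κ V W₀ x y).symm _ _

/-- **Lemma D**: kernel point plus integral point. -/
theorem redFun_add_of_inKer {P Q : (W₀⁄K).Point} (hP : InKer (W₀⁄K) V.valuation P) :
    redFun V W₀ hΔ (P + Q) = redFun V W₀ hΔ Q := by
  have hW := integralCoeffs V W₀
  by_cases hQ : InKer (W₀⁄K) V.valuation Q
  · rw [redFun_of_inKer hΔ (inKer_add hW hP hQ), redFun_of_inKer hΔ hQ]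
  · -- `Q` is integral
    have hR : ¬ InKer (W₀⁄K) V.valuation (P + Q) := by
      intro hR
      apply hQ
      have : Q = (P + Q) - P := by abel
      rw [this]
      exact inKer_sub hW hR hP
    obtain ⟨x₂, y₂, h₂, rfl⟩ := exists_coe_of_not_inKer hQ
    obtain ⟨x₃, y₃, h₃, hR3⟩ := exists_coe_of_not_inKer hR
    rw [hR3]
    -- compare `R` and `Q` through `R + (-Q) = P`
    by_contra hne
    have hnegQ : -Point.some (x₂ : K) (y₂ : K) h₂ =
        Point.some (x₂ : K) ((W₀.toAffine.negY x₂ y₂ : V) : K)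
          (by rw [← negY_K]; exact (Affine.nonsingular_neg ..).mpr h₂) := by
      rw [Point.neg_some]
      exact some_congr rfl (negY_K V W₀ x₂ y₂) _ _
    have hxy : ¬(rr V x₃ = rr V x₂ ∧ rr V y₃ =
        (W₀⁄(IsLocalRing.ResidueField V)).negY (rr V x₂) (rr V (W₀.toAffine.negY x₂ y₂))) := by
      rintro ⟨hx, hy⟩
      apply hne
      rw [redFun_coe, redFun_coe]
      refine some_congr hx ?_ _ _
      rw [hy, ← negY_κ, Affine.negY_negY]
    obtain ⟨x₄, y₄, h₄, hadd, -⟩ := add_coe_of_not_opp hΔ h₃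
      (by rw [← negY_K]; exact (Affine.nonsingular_neg ..).mpr h₂) hxy
    rw [← hnegQ, ← hR3] at hadd
    have hPeq : P = Point.some (x₄ : K) (y₄ : K) h₄ := by
      rw [← hadd]; abel
    rw [hPeq, inKer_some_iff] at hP
    exact hP x₄.2

/-- **The reduction map is additive.** -/
theorem redFun_add (P Q : (W₀⁄K).Point) :
    redFun V W₀ hΔ (P + Q) = redFun V W₀ hΔ P + redFun V W₀ hΔ Q := by
  by_cases hP : InKer (W₀⁄K) V.valuation P
  · rw [redFun_add_of_inKer hΔ hP, redFun_of_inKer hΔ hP, zero_add]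
  · by_cases hQ : InKer (W₀⁄K) V.valuation Q
    · rw [add_comm P Q, redFun_add_of_inKer hΔ hQ, redFun_of_inKer hΔ hQ, add_zero]
    · obtain ⟨x₁, y₁, h₁, rfl⟩ := exists_coe_of_not_inKer hP
      obtain ⟨x₂, y₂, h₂, rfl⟩ := exists_coe_of_not_inKer hQ
      exact redFun_add_coe hΔ h₁ h₂

variable (V W₀)

/-- The reduction homomorphism. -/
noncomputable def red : (W₀⁄K).Point →+ (W₀⁄(IsLocalRing.ResidueField V)).Point :=
  AddMonoidHom.mk' (redFun V W₀ hΔ) (redFun_add hΔ)

end Fermat.Agent.Lib.Red.H382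

namespace Fermat.Agent.Lib.Red

universe u

open Fermat.Agent.Lib.Red.H382 in
/-- **GR**: the reduction homomorphism for good reduction (helper382's proof). -/
theorem H382.goodReduction : GoodReduction.{u} := by
  intro K _ _ V _ W₀ hΔ
  refine ⟨H382.red V W₀ hΔ, ?_, ?_⟩
  · intro x y h hx hy
    exact ⟨nonsingular_κ V W₀ hΔ (x := ⟨x, hx⟩) (y := ⟨y, hy⟩) h.1,
      redFun_some_of_mem hΔ h hx hy⟩
  · intro x y h hx
    exact redFun_some_of_not_mem hΔ h hx

end Fermat.Agent.Lib.Red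

end
-- ===== PACK-END Lib/Red/H382/Main.lean

-- ===== PACK-BEGIN S59/H405/TWCore.lean
section


/-!
# S59 / G-TW (helper405): the abstract argument — Mathlib only

`rb : Gm →* M₂(F)` an odd irreducible representation, `G ≤ Gm` of index `2` with a common
eigenvector `v` over an extension field `K`.

* `no_line_of_odd`      : odd + irreducible implies no common eigenvector over any extension;
* `ker_mem_of_line`     : `ker rb ≤ G`;
* `exists_second_line`  : the second eigenline `v' = g₀ v`, `g₀ ∉ G`;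
* `unip_trivial`        : unipotent elements of the image are trivial;
* `rat_lines_of_mem`    : if the involution `c` lies in `G`, the two eigenlines are rational;
* `pow_eq_one_of_lines` : exponent of the image.
-/

set_option autoImplicit false

namespace Fermat.Agent.S59.H405

open Matrix

section Core

variable {Gm : Type*} [Group Gm] {F K : Type*} [Field F] [Field K]

/-- the representation has a common eigenvector -/
def HasLine (m : Gm →* Matrix (Fin 2) (Fin 2) F) : Prop :=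
  ∃ v : Fin 2 → F, v ≠ 0 ∧ ∀ σ, IsEig (m σ) v

/-- the base change of a matrix representation -/
def mapM (φ : F →+* K) (rb : Gm →* Matrix (Fin 2) (Fin 2) F) :
    Gm →* Matrix (Fin 2) (Fin 2) K :=
  (φ.mapMatrix : Matrix (Fin 2) (Fin 2) F →+* Matrix (Fin 2) (Fin 2) K).toMonoidHom.comp rb

theorem mapM_apply (φ : F →+* K) (rb : Gm →* Matrix (Fin 2) (Fin 2) F) (σ : Gm) :
    mapM φ rb σ = (rb σ).map φ := rfl

theorem isEig_pow {M : Matrix (Fin 2) (Fin 2) F} {v : Fin 2 → F} {a : F}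
    (h : M *ᵥ v = a • v) (n : ℕ) : (M ^ n) *ᵥ v = a ^ n • v := by
  induction n with
  | zero => rw [pow_zero, pow_zero, Matrix.one_mulVec, one_smul]
  | succ n ih =>
    rw [pow_succ, ← Matrix.mulVec_mulVec, h, Matrix.mulVec_smul, ih, smul_smul, pow_succ,
      mul_comm]

/-- a rational vector parallel to an eigenvector over `K` is an eigenvector over `F` -/
theorem isEig_rat_of_parallel (φ : F →+* K) {M : Matrix (Fin 2) (Fin 2) F} {v : Fin 2 → K}
    (hv : v ≠ 0) {e : Fin 2 → F} (he : e ≠ 0) (hcr : crs v (φ ∘ e) = 0)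
    (h : IsEig (M.map φ) v) : IsEig M e := by
  obtain ⟨t, ht⟩ := exists_smul_of_crs (comp_ne_zero φ he) hcr
  have ht0 : t ≠ 0 := by
    rintro rfl
    rw [zero_smul] at ht
    exact hv ht
  have hE : φ ∘ e = t⁻¹ • v := by
    rw [ht, smul_smul, inv_mul_cancel₀ ht0, one_smul]
  apply isEig_of_map φ he
  rw [hE]
  exact h.smul _

/-- **Odd and irreducible implies absolutely irreducible.** -/
theorem no_line_of_odd (φ : F →+* K) (rb : Gm →* Matrix (Fin 2) (Fin 2) F)
    (h2 : (2 : F) ≠ 0) (c : Gm) (hcc : c * c = 1) (hdet : (rb c).det = -1)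
    (hirr : ¬ HasLine rb) : ¬ HasLine (mapM φ rb) := by
  rintro ⟨v, hv, h⟩
  have hC : rb c * rb c = 1 := by rw [← map_mul, hcc, map_one]
  obtain ⟨e₁, e₂, h₁, h₂, hcr⟩ := exists_eigen_of_invol h2 (rb c) hC hdet
  apply hirr
  rcases eig_invol φ h2 (rb c) hdet h₁ h₂ v (h c) with h' | h'
  · exact ⟨e₁, ne_zero_of_crs_left hcr, fun σ =>
      isEig_rat_of_parallel φ hv (ne_zero_of_crs_left hcr) h' (h σ)⟩
  · exact ⟨e₂, ne_zero_of_crs_right hcr, fun σ =>
      isEig_rat_of_parallel φ hv (ne_zero_of_crs_right hcr) h' (h σ)⟩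

variable (m : Gm →* Matrix (Fin 2) (Fin 2) K) (G : Subgroup Gm)

/-- The kernel of the representation is contained in `G`. -/
theorem ker_mem_of_line (hG : G.index = 2) (hno : ¬ HasLine m) {v : Fin 2 → K} (hv : v ≠ 0)
    (hline : ∀ σ ∈ G, IsEig (m σ) v) (τ : Gm) (hτ : m τ = 1) : τ ∈ G := by
  by_contra hτG
  apply hno
  refine ⟨v, hv, fun σ => ?_⟩
  by_cases hσ : σ ∈ G
  · exact hline σ hσ
  · have h1 : σ * τ ∈ G := (Subgroup.mul_mem_iff_of_index_two hG).mpr (iff_of_false hσ hτG)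
    have h2 := hline _ h1
    rwa [map_mul, hτ, mul_one] at h2

/-- The second eigenline. -/
theorem exists_second_line (hG : G.index = 2) (hno : ¬ HasLine m) {v : Fin 2 → K} (hv : v ≠ 0)
    (hline : ∀ σ ∈ G, IsEig (m σ) v) :
    ∃ g₀ : Gm, g₀ ∉ G ∧ crs v (m g₀ *ᵥ v) ≠ 0 ∧ ∀ σ ∈ G, IsEig (m σ) (m g₀ *ᵥ v) := by
  have hne : G ≠ ⊤ := by
    intro h
    rw [h, Subgroup.index_top] at hG
    omega
  obtain ⟨g₀, hg₀⟩ : ∃ g₀ : Gm, g₀ ∉ G := by
    by_contra h
    push_neg at h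
    exact hne ((Subgroup.eq_top_iff' G).mpr h)
  have hnorm : G.Normal := Subgroup.normal_of_index_eq_two hG
  refine ⟨g₀, hg₀, ?_, ?_⟩
  · intro hcr
    have hcr' : crs (m g₀ *ᵥ v) v = 0 := by rw [crs_swap, hcr, neg_zero]
    have hg : IsEig (m g₀) v := exists_smul_of_crs hv hcr'
    apply hno
    refine ⟨v, hv, fun σ => ?_⟩
    by_cases hσ : σ ∈ G
    · exact hline σ hσ
    · have hinv : g₀⁻¹ ∉ G := fun h => hg₀ (by simpa using G.inv_mem h)
      have h1 : g₀⁻¹ * σ ∈ G :=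
        (Subgroup.mul_mem_iff_of_index_two hG).mpr (iff_of_false hinv hσ)
      have h2 : m σ = m g₀ * m (g₀⁻¹ * σ) := by
        rw [← map_mul, mul_inv_cancel_left]
      rw [h2]
      exact hg.mul (hline _ h1)
  · intro σ hσ
    have h1 : g₀⁻¹ * σ * g₀ ∈ G := by
      have := hnorm.conj_mem σ hσ g₀⁻¹
      rwa [inv_inv] at this
    obtain ⟨a, ha⟩ := hline _ h1
    refine ⟨a, ?_⟩
    rw [Matrix.mulVec_mulVec, ← map_mul]
    have h2 : σ * g₀ = g₀ * (g₀⁻¹ * σ * g₀) := by group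
    rw [h2, map_mul, ← Matrix.mulVec_mulVec, ha, Matrix.mulVec_smul]

/-- A unipotent matrix with an eigenvector `v` for its square fixes `v`. -/
theorem mulVec_eq_of_unip (h2 : (2 : K) ≠ 0) {M : Matrix (Fin 2) (Fin 2) K}
    (hM : (M - 1) * (M - 1) = 0) {v : Fin 2 → K} (hv : v ≠ 0) (h : IsEig (M * M) v) :
    M *ᵥ v = v := by
  obtain ⟨a, ha⟩ := h
  have hMM : M * M = M + M - 1 := by
    have : M * M = (M - 1) * (M - 1) + (M + M - 1) := by noncomm_ring
    rw [this, hM, zero_add]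
  rw [hMM, Matrix.sub_mulVec, Matrix.add_mulVec, Matrix.one_mulVec] at ha
  -- `M v = b v` with `b = (a + 1) / 2`
  have hb : M *ᵥ v = ((a + 1) / 2) • v := by
    funext i
    have := congrFun ha i
    simp only [Pi.sub_apply, Pi.add_apply, Pi.smul_apply, smul_eq_mul] at this ⊢
    field_simp
    linear_combination this
  set b := (a + 1) / 2 with hbdef
  have h0 : ((M - 1) * (M - 1)) *ᵥ v = ((b - 1) * (b - 1)) • v := by
    rw [← Matrix.mulVec_mulVec]
    have h1 : (M - 1) *ᵥ v = (b - 1) • v := by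
      rw [Matrix.sub_mulVec, hb, Matrix.one_mulVec, sub_smul, one_smul]
    rw [h1, Matrix.mulVec_smul, h1, smul_smul]
  rw [hM, Matrix.zero_mulVec] at h0
  have hb1 : b = 1 := by
    have h3 : (b - 1) * (b - 1) = 0 := by
      by_contra hne
      apply hv
      have := congrArg (fun w => ((b - 1) * (b - 1))⁻¹ • w) h0
      simp only [smul_zero, smul_smul, inv_mul_cancel₀ hne, one_smul] at this
      exact this.symm
    rcases mul_eq_zero.mp h3 with h | h <;> exact sub_eq_zero.mp h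
  rw [hb, hb1, one_smul]

/-- **Unipotent elements of the image are trivial.** -/
theorem unip_trivial (h2 : (2 : K) ≠ 0) (hG : G.index = 2) {v v' : Fin 2 → K}
    (hvv' : crs v v' ≠ 0) (hline : ∀ σ ∈ G, IsEig (m σ) v)
    (hline' : ∀ σ ∈ G, IsEig (m σ) v') (γ : Gm) (hγ : (m γ - 1) * (m γ - 1) = 0) :
    m γ = 1 := by
  have hsq : γ * γ ∈ G := Subgroup.mul_self_mem_of_index_two hG γ
  have e1 := hline _ hsq
  have e2 := hline' _ hsq
  rw [map_mul] at e1 e2
  exact eq_one_of_mulVec hvv'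
    (mulVec_eq_of_unip h2 hγ (ne_zero_of_crs_left hvv') e1)
    (mulVec_eq_of_unip h2 hγ (ne_zero_of_crs_right hvv') e2)

/-- If every element of `G` has exponent `N` on the two lines, then the squares of all elements
have exponent `N`. -/
theorem pow_eq_one_of_index_two (hG : G.index = 2) (N : ℕ)
    (h : ∀ σ ∈ G, m σ ^ N = 1) (γ : Gm) : m γ ^ (2 * N) = 1 := by
  have hsq : γ * γ ∈ G := Subgroup.mul_self_mem_of_index_two hG γ
  have := h _ hsq
  rw [map_mul, ← pow_two, ← pow_mul] at this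
  exact this

end Core

section Rational

variable {Gm : Type*} [Group Gm] {F K : Type*} [Field F] [Field K]

/-- If the odd involution `c` lies in `G`, the two eigenlines of `G` are rational, and every
element of `G` is killed by the exponent of `Fˣ`. -/
theorem pow_eq_one_of_invol_mem (φ : F →+* K) (rb : Gm →* Matrix (Fin 2) (Fin 2) F)
    (h2 : (2 : F) ≠ 0) (c : Gm) (hcc : c * c = 1) (hdet : (rb c).det = -1)
    (G : Subgroup Gm) (hcG : c ∈ G) {v v' : Fin 2 → K}
    (hvv' : crs v v' ≠ 0) (hline : ∀ σ ∈ G, IsEig (mapM φ rb σ) v)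
    (hline' : ∀ σ ∈ G, IsEig (mapM φ rb σ) v')
    (N : ℕ) (hN : ∀ a : F, a ≠ 0 → a ^ N = 1) (σ : Gm) (hσ : σ ∈ G) : rb σ ^ N = 1 := by
  have hC : rb c * rb c = 1 := by rw [← map_mul, hcc, map_one]
  obtain ⟨e₁, e₂, h₁, h₂, hcr⟩ := exists_eigen_of_invol h2 (rb c) hC hdet
  have he₁ := ne_zero_of_crs_left hcr
  have he₂ := ne_zero_of_crs_right hcr
  have hv := ne_zero_of_crs_left hvv'
  have hv' := ne_zero_of_crs_right hvv'
  -- both rational eigenvectors are eigenvectors of all of `G`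
  have key : (∀ τ ∈ G, IsEig (rb τ) e₁) ∧ (∀ τ ∈ G, IsEig (rb τ) e₂) := by
    have a1 := eig_invol φ h2 (rb c) hdet h₁ h₂ v (hline c hcG)
    have a2 := eig_invol φ h2 (rb c) hdet h₁ h₂ v' (hline' c hcG)
    have hpar : ∀ {e : Fin 2 → F}, e ≠ 0 → crs v (φ ∘ e) = 0 → crs v' (φ ∘ e) = 0 → False := by
      intro e he c1 c2
      obtain ⟨t, ht⟩ := exists_smul_of_crs (comp_ne_zero φ he) c1
      obtain ⟨t', ht'⟩ := exists_smul_of_crs (comp_ne_zero φ he) c2
      apply hvv'
      rw [ht, ht', crs_smul_left, crs_smul_right, crs_self, mul_zero, mul_zero]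
    rcases a1 with a1 | a1
    · rcases a2 with a2 | a2
      · exact absurd (hpar he₁ a1 a2) id
      · exact ⟨fun τ hτ => isEig_rat_of_parallel φ hv he₁ a1 (hline τ hτ),
          fun τ hτ => isEig_rat_of_parallel φ hv' he₂ a2 (hline' τ hτ)⟩
    · rcases a2 with a2 | a2
      · exact ⟨fun τ hτ => isEig_rat_of_parallel φ hv' he₁ a2 (hline' τ hτ),
          fun τ hτ => isEig_rat_of_parallel φ hv he₂ a1 (hline τ hτ)⟩
      · exact absurd (hpar he₂ a1 a2) id
  have hfix : ∀ {e : Fin 2 → F}, e ≠ 0 → IsEig (rb σ) e → (rb σ ^ N) *ᵥ e = e := by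
    intro e he ⟨a, ha⟩
    have ha0 : a ≠ 0 := by
      rintro rfl
      rw [zero_smul] at ha
      apply he
      have h3 : rb σ⁻¹ * rb σ = 1 := by rw [← map_mul, inv_mul_cancel, map_one]
      have h4 : (rb σ⁻¹ * rb σ) *ᵥ e = e := by rw [h3, Matrix.one_mulVec]
      rw [← Matrix.mulVec_mulVec, ha, Matrix.mulVec_zero] at h4
      exact h4.symm
    rw [isEig_pow ha, hN a ha0, one_smul]
  exact eq_one_of_mulVec hcr (hfix he₁ (key.1 σ hσ)) (hfix he₂ (key.2 σ hσ))

end Rational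

end Fermat.Agent.S59.H405

end
-- ===== PACK-END S59/H405/TWCore.lean

-- ===== PACK-BEGIN S59/H405/TWGroup.lean
section


/-!
# S59 / G-TW (helper405): the group-theoretic endgame — Mathlib only

* `pow_48_eq_one`            : `GL₂(𝔽₃)` has exponent dividing `48`;
* `exists_index_two_of_ne_top` : in a finite `2`-group every element which is not a generator
  lies in a subgroup of index `2`;
* `core`                     : the abstract form of G-TW.
-/

set_option autoImplicit false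

namespace Fermat.Agent.S59.H405

open Matrix

/-- `GL₂(𝔽₃)` has exponent dividing `48`. -/
theorem pow_48_eq_one (U : (Matrix (Fin 2) (Fin 2) (ZMod 3))ˣ) : U ^ 48 = 1 := by
  have h : Nat.card (GL (Fin 2) (ZMod 3)) = 48 := by
    rw [Matrix.card_GL_field]
    simp [Fin.prod_univ_two, ZMod.card]
  have := pow_card_eq_one' (G := GL (Fin 2) (ZMod 3)) (x := U)
  rwa [h] at this

/-- In a finite `2`-group, an element which does not generate the group lies in a subgroup of
index `2`. -/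
theorem exists_index_two_of_ne_top {Γ : Type*} [Group Γ] [Finite Γ] (hΓ : IsPGroup 2 Γ)
    (γ₀ : Γ) (hγ₀ : Subgroup.zpowers γ₀ ≠ ⊤) :
    ∃ H' : Subgroup Γ, H'.index = 2 ∧ γ₀ ∈ H' := by
  haveI : Fact (Nat.Prime 2) := ⟨Nat.prime_two⟩
  obtain ⟨N, hN⟩ := IsPGroup.iff_card.mp hΓ
  obtain ⟨n, hn⟩ := IsPGroup.iff_card.mp (hΓ.to_subgroup (Subgroup.zpowers γ₀))
  have hle : Nat.card (Subgroup.zpowers γ₀) ∣ Nat.card Γ := Subgroup.card_subgroup_dvd_card _
  have hne : Nat.card (Subgroup.zpowers γ₀) ≠ Nat.card Γ := fun h =>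
    hγ₀ (Subgroup.eq_top_of_card_eq _ h)
  have hlt : n < N := by
    rw [hn, hN] at hle hne
    have h1 : n ≤ N := (Nat.pow_dvd_pow_iff_le_right (by norm_num)).mp hle
    rcases Nat.lt_or_eq_of_le h1 with h | h
    · exact h
    · exact absurd (by rw [h]) hne
  have hdvd : 2 ^ (N - 1) ∣ Nat.card Γ := by
    rw [hN]
    exact pow_dvd_pow 2 (Nat.sub_le N 1)
  obtain ⟨H', hH', hZ⟩ := Sylow.exists_subgroup_card_pow_prime_le 2 hdvd
    (Subgroup.zpowers γ₀) hn (by omega)
  refine ⟨H', ?_, hZ (Subgroup.mem_zpowers γ₀)⟩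
  have h1 := Subgroup.card_mul_index H'
  rw [hH', hN] at h1
  have h2 : (2 : ℕ) ^ N = 2 ^ (N - 1) * 2 := by
    rw [← pow_succ]
    congr 1
    omega
  rw [h2] at h1
  exact Nat.eq_of_mul_eq_mul_left (by positivity) h1

section Final

variable {Gm : Type*} [Group Gm] {K : Type*} [Field K]

/-- In characteristic `3`, a matrix of exponent `48` with two independent eigenvectors has
exponent `16`. -/
theorem pow_16_of_pow_48 (h3 : (3 : K) = 0) {M : Matrix (Fin 2) (Fin 2) K}
    (hM : M ^ 48 = 1) {v v' : Fin 2 → K} (hvv' : crs v v' ≠ 0) (hv : IsEig M v)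
    (hv' : IsEig M v') : M ^ 16 = 1 := by
  have key : ∀ {w : Fin 2 → K}, w ≠ 0 → IsEig M w → (M ^ 16) *ᵥ w = w := by
    intro w hw ⟨a, ha⟩
    have h48 := isEig_pow ha 48
    rw [hM, Matrix.one_mulVec] at h48
    have ha48 : a ^ 48 = 1 := by
      by_contra hne
      apply hw
      have h1 : (a ^ 48 - 1) • w = 0 := by rw [sub_smul, one_smul, ← h48, sub_self]
      rcases smul_eq_zero.mp h1 with h | h
      · exact absurd (sub_eq_zero.mp h) hne
      · exact h
    have ha16 : a ^ 16 = 1 := by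
      have h1 : (a ^ 16 - 1) ^ 3 = 0 := by
        have : (a ^ 16 - 1) ^ 3 = (a ^ 48 - 1) - 3 * (a ^ 16 * (a ^ 16 - 1)) := by ring
        rw [this, ha48, h3]
        ring
      exact sub_eq_zero.mp (pow_eq_zero_iff (by norm_num) |>.mp h1)
    rw [isEig_pow ha, ha16, one_smul]
  exact eq_one_of_mulVec hvv' (key (ne_zero_of_crs_left hvv') hv)
    (key (ne_zero_of_crs_right hvv') hv')

/-- **G-TW, abstract form.**  Let `rb : Gm → GL₂(𝔽_p)`, `p ∈ {3, 5}`, be odd and irreducible, and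
suppose that (once unipotent elements of the image are known to be trivial) every subgroup of
index `2` containing the kernel equals `Gstar`, where `c ∈ Gstar` if `p = 5`.  Then no subgroup
of index `2` has a common eigenvector over any extension field. -/
theorem core (p : ℕ) [Fact p.Prime] (hp : p = 3 ∨ p = 5)
    (rb : Gm →* Matrix (Fin 2) (Fin 2) (ZMod p)) (c : Gm) (hcc : c * c = 1)
    (hdet : (rb c).det = -1) (hirr : ¬ HasLine rb)
    (φ : ZMod p →+* K) (G : Subgroup Gm) (hG : G.index = 2)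
    (Gstar : Subgroup Gm) (hc5 : p = 5 → c ∈ Gstar)
    (harith : (∀ γ, (rb γ - 1) * (rb γ - 1) = 0 → rb γ = 1) →
      ∀ G' : Subgroup Gm, G'.index = 2 → (∀ τ, rb τ = 1 → τ ∈ G') → G' = Gstar)
    (v : Fin 2 → K) (hv : v ≠ 0) (hline : ∀ σ ∈ G, IsEig ((rb σ).map φ) v) : False := by
  have hp2 : p ≠ 2 := by rcases hp with h | h <;> omega
  have h2 : (2 : ZMod p) ≠ 0 := by
    intro h
    have h' : ((2 : ℕ) : ZMod p) = 0 := by exact_mod_cast h
    rw [ZMod.natCast_eq_zero_iff] at h'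
    have := Nat.le_of_dvd (by norm_num) h'
    have := (Fact.out : p.Prime).two_le
    omega
  have h2K : (2 : K) ≠ 0 := by
    intro h
    apply h2
    have : φ 2 = 0 := by rw [map_ofNat]; exact h
    exact (map_eq_zero φ).mp this
  have hno : ¬ HasLine (mapM φ rb) := no_line_of_odd φ rb h2 c hcc hdet hirr
  obtain ⟨g₀, hg₀, hcr, hline'⟩ := exists_second_line (mapM φ rb) G hG hno hv hline
  have hker : ∀ τ, rb τ = 1 → τ ∈ G := fun τ hτ =>
    ker_mem_of_line (mapM φ rb) G hG hno hv hline τ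
      (by rw [mapM_apply, hτ]; exact (map_eq_one_iff φ 1).mpr rfl)
  have hunip : ∀ γ, (rb γ - 1) * (rb γ - 1) = 0 → rb γ = 1 := by
    intro γ hγ
    have h1 : (mapM φ rb γ - 1) * (mapM φ rb γ - 1) = 0 := by
      have := congrArg (φ.mapMatrix : Matrix (Fin 2) (Fin 2) (ZMod p) →+* _) hγ
      rw [map_mul, map_sub, map_one, map_zero] at this
      exact this
    have h3 := unip_trivial (mapM φ rb) G h2K hG hcr hline hline' γ h1
    rw [mapM_apply] at h3
    exact (map_eq_one_iff φ _).mp h3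
  have hGstar : G = Gstar := harith hunip G hG hker
  -- the exponent of the image
  have hexp : ∀ σ ∈ G, rb σ ^ 16 = 1 := by
    intro σ hσ
    rcases hp with h3 | h5
    · subst h3
      have h48 : rb σ ^ 48 = 1 := by
        have := pow_48_eq_one (MonoidHom.toHomUnits rb σ)
        have := congrArg Units.val this
        simpa using this
      have h3K : (3 : K) = 0 := by
        have : φ 3 = 0 := by
          have h0 : (3 : ZMod 3) = 0 := by exact_mod_cast ZMod.natCast_self 3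
          rw [h0, map_zero]
        rwa [map_ofNat] at this
      have h48K : mapM φ rb σ ^ 48 = 1 := by
        have := congrArg (φ.mapMatrix :
          Matrix (Fin 2) (Fin 2) (ZMod 3) →+* Matrix (Fin 2) (Fin 2) K) h48
        rw [map_pow, map_one] at this
        exact this
      have h16K := pow_16_of_pow_48 h3K h48K hcr (hline σ hσ) (hline' σ hσ)
      have h16 : (rb σ ^ 16).map φ = 1 := by
        have h := map_pow (φ.mapMatrix :
          Matrix (Fin 2) (Fin 2) (ZMod 3) →+* Matrix (Fin 2) (Fin 2) K) (rb σ) 16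
        rw [RingHom.mapMatrix_apply, RingHom.mapMatrix_apply] at h
        rw [h]
        exact h16K
      exact (map_eq_one_iff φ _).mp h16
    · subst h5
      have hcG : c ∈ G := hGstar ▸ hc5 rfl
      have h4 := pow_eq_one_of_invol_mem φ rb h2 c hcc hdet G hcG hcr hline hline' 4
        (fun a ha => by
          have := ZMod.pow_card_sub_one_eq_one ha
          simpa using this) σ hσ
      rw [show 16 = 4 * 4 from rfl, pow_mul, h4, one_pow]
  have hexp' : ∀ γ, rb γ ^ 32 = 1 := fun γ => pow_eq_one_of_index_two rb G hG 16 hexp γ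
  -- the image as a finite `2`-group
  let f : Gm →* (MonoidHom.toHomUnits rb).range := (MonoidHom.toHomUnits rb).rangeRestrict
  have hf : Function.Surjective f := MonoidHom.rangeRestrict_surjective _
  have hfval : ∀ σ, ((f σ : (Matrix (Fin 2) (Fin 2) (ZMod p))ˣ) :
      Matrix (Fin 2) (Fin 2) (ZMod p)) = rb σ := fun σ => rfl
  have hf1 : ∀ σ, f σ = 1 ↔ rb σ = 1 := by
    intro σ
    constructor
    · intro h
      have := congrArg (fun x : (MonoidHom.toHomUnits rb).range =>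
        ((x : (Matrix (Fin 2) (Fin 2) (ZMod p))ˣ) : Matrix (Fin 2) (Fin 2) (ZMod p))) h
      simpa [hfval] using this
    · intro h
      apply Subtype.ext
      apply Units.ext
      rw [hfval, h]
      rfl
  have hΓ : IsPGroup 2 (MonoidHom.toHomUnits rb).range := by
    intro g
    obtain ⟨γ, rfl⟩ := hf g
    refine ⟨5, ?_⟩
    rw [← map_pow, hf1, map_pow]
    exact hexp' γ
  by_cases hgen : Subgroup.zpowers (f g₀) = ⊤
  · -- the image is cyclic, hence commutative
    have hcomm : ∀ σ, rb σ * rb c = rb c * rb σ := by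
      intro σ
      have h1 : f σ ∈ Subgroup.zpowers (f g₀) := by rw [hgen]; exact Subgroup.mem_top _
      have h2' : f c ∈ Subgroup.zpowers (f g₀) := by rw [hgen]; exact Subgroup.mem_top _
      obtain ⟨k, hk⟩ := Subgroup.mem_zpowers_iff.mp h1
      obtain ⟨l, hl⟩ := Subgroup.mem_zpowers_iff.mp h2'
      have h3 : f σ * f c = f c * f σ := by
        rw [← hk, ← hl, ← _root_.zpow_add, ← _root_.zpow_add, add_comm]
      have := congrArg (fun x : (MonoidHom.toHomUnits rb).range =>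
        ((x : (Matrix (Fin 2) (Fin 2) (ZMod p))ˣ) : Matrix (Fin 2) (Fin 2) (ZMod p))) h3
      simpa [hfval] using this
    have hC : rb c * rb c = 1 := by rw [← map_mul, hcc, map_one]
    obtain ⟨e₁, e₂, h₁, h₂, hcr12⟩ := exists_eigen_of_invol h2 (rb c) hC hdet
    have he₁ := ne_zero_of_crs_left hcr12
    apply hirr
    refine ⟨e₁, he₁, fun σ => ?_⟩
    rw [isEig_iff_crs he₁]
    by_contra hne
    have hCw : rb c *ᵥ (rb σ *ᵥ e₁) = rb σ *ᵥ e₁ := by
      rw [Matrix.mulVec_mulVec, ← hcomm σ, ← Matrix.mulVec_mulVec, h₁]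
    have hzero : rb c - 1 = 0 := by
      apply eq_zero_of_mulVec hne
      · rw [Matrix.sub_mulVec, hCw, Matrix.one_mulVec, sub_self]
      · rw [Matrix.sub_mulVec, h₁, Matrix.one_mulVec, sub_self]
    have hc1 : rb c = 1 := sub_eq_zero.mp hzero
    rw [hc1, Matrix.det_one] at hdet
    apply h2
    linear_combination hdet
  · obtain ⟨H', hH', hmem⟩ := exists_index_two_of_ne_top hΓ (f g₀) hgen
    have hidx : (H'.comap f).index = 2 := by
      rw [Subgroup.index_comap_of_surjective H' hf, hH']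
    have hker' : ∀ τ, rb τ = 1 → τ ∈ H'.comap f := by
      intro τ hτ
      rw [Subgroup.mem_comap, (hf1 τ).mpr hτ]
      exact H'.one_mem
    have h1 : H'.comap f = Gstar := harith hunip _ hidx hker'
    apply hg₀
    rw [hGstar, ← h1]
    exact hmem

end Final

end Fermat.Agent.S59.H405

end
-- ===== PACK-END S59/H405/TWGroup.lean

-- ===== PACK-BEGIN S59/H405/TWQuadB.lean
section


/-!
# S59 / G-TW (helper405): normalisation to a squarefree integer

`exists_sqrt_of_index_two` : an open subgroup `G'` of index `2` of `G_ℚ` has an anti-invariant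
`β ≠ 0` with `β² = d`, `d ≠ 1` a squarefree integer.
-/

set_option autoImplicit false

namespace Fermat.Agent.S59.H405

/-- every nonzero rational is a squarefree integer times a nonzero rational square -/
theorem exists_squarefree_mul_sq (r : ℚ) (hr : r ≠ 0) :
    ∃ (d : ℤ) (t : ℚ), Squarefree d ∧ t ≠ 0 ∧ (d : ℚ) = t ^ 2 * r := by
  set N : ℤ := r.num * r.den with hN
  have hnum : r.num ≠ 0 := Rat.num_ne_zero.mpr hr
  have hden : (r.den : ℤ) ≠ 0 := by exact_mod_cast r.den_ne_zero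
  have hN0 : N ≠ 0 := mul_ne_zero hnum hden
  obtain ⟨a, b, hab, ha⟩ := Nat.sq_mul_squarefree N.natAbs
  have hb0 : b ≠ 0 := by
    rintro rfl
    rw [zero_pow (by norm_num), zero_mul] at hab
    exact hN0 (Int.natAbs_eq_zero.mp hab.symm)
  have hNd : N = (N.sign * a) * (b : ℤ) ^ 2 := by
    have h1 : (N.natAbs : ℤ) = (b : ℤ) ^ 2 * a := by
      rw [← hab]; push_cast; ring
    calc N = N.sign * N.natAbs := (Int.sign_mul_natAbs N).symm
      _ = N.sign * ((b : ℤ) ^ 2 * a) := by rw [h1]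
      _ = (N.sign * a) * (b : ℤ) ^ 2 := by ring
  have hsq : Squarefree (N.sign * (a : ℤ)) := by
    rw [← Int.squarefree_natAbs, Int.natAbs_mul, Int.natAbs_sign_of_ne_zero hN0, one_mul,
      Int.natAbs_natCast]
    exact ha
  refine ⟨N.sign * a, (r.den : ℚ) / b, hsq, ?_, ?_⟩
  · have h1 : (r.den : ℚ) ≠ 0 := by exact_mod_cast r.den_ne_zero
    have h2 : (b : ℚ) ≠ 0 := by exact_mod_cast hb0
    exact div_ne_zero h1 h2
  · have h2 : (b : ℚ) ≠ 0 := by exact_mod_cast hb0
    have h3 : (N : ℚ) = r * (r.den : ℚ) ^ 2 := by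
      rw [hN]
      push_cast
      have := Rat.mul_den_eq_num r
      rw [← this]
      ring
    have h4 : (N : ℚ) = ((N.sign * a : ℤ) : ℚ) * (b : ℚ) ^ 2 := by
      conv_lhs => rw [hNd]
      push_cast
      ring
    field_simp
    rw [← h4, h3]
    ring

section Open

variable (G' : Subgroup GQT)

/-- An open subgroup of index `2` of `G_ℚ` is the stabiliser of a square root of a squarefree
integer `d ≠ 1`. -/
theorem exists_sqrt_of_index_two (hG' : G'.index = 2) (hopen : IsOpen (G' : Set GQT)) :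
    ∃ (d : ℤ) (β : QbT), Squarefree d ∧ d ≠ 1 ∧ β ^ 2 = (d : QbT) ∧ β ≠ 0 ∧ IsAnti G' β := by
  obtain ⟨α, hα0, hα⟩ := exists_anti G' hG' hopen
  obtain ⟨r, hr⟩ := hα.sq_rat
  have hr0 : r ≠ 0 := by
    rintro rfl
    rw [map_zero] at hr
    exact hα0 (pow_eq_zero_iff (by norm_num) |>.mp hr.symm)
  obtain ⟨d, t, hd, ht, hdt⟩ := exists_squarefree_mul_sq r hr0
  have hβ0 : algebraMap ℚ QbT t * α ≠ 0 :=
    mul_ne_zero ((map_ne_zero _).mpr ht) hα0
  have hβ2 : (algebraMap ℚ QbT t * α) ^ 2 = (d : QbT) := by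
    rw [mul_pow, ← hr, ← map_pow, ← map_mul, ← hdt]
    simp
  refine ⟨d, algebraMap ℚ QbT t * α, hd, ?_, hβ2, hβ0, hα.smul_rat t⟩
  rintro rfl
  -- `β² = 1` forces `β = ± 1`, which is fixed by every automorphism
  have hne : G' ≠ ⊤ := by
    intro h
    rw [h, Subgroup.index_top] at hG'
    omega
  obtain ⟨g, hg⟩ : ∃ g : GQT, g ∉ G' := by
    by_contra h
    push_neg at h
    exact hne ((Subgroup.eq_top_iff' G').mpr h)
  have h1 := ((hα.smul_rat t) g).2 hg
  have h2 : algebraMap ℚ QbT t * α = 1 ∨ algebraMap ℚ QbT t * α = -1 := by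
    have : (algebraMap ℚ QbT t * α) ^ 2 = 1 ^ 2 := by rw [hβ2]; simp
    exact sq_eq_sq_iff_eq_or_eq_neg.mp this
  have h3 : g (algebraMap ℚ QbT t * α) = algebraMap ℚ QbT t * α := by
    rcases h2 with h | h
    · rw [h, map_one]
    · rw [h, map_neg, map_one]
  rw [h3] at h1
  have h4 : (2 : QbT) * (algebraMap ℚ QbT t * α) = 0 := by linear_combination h1
  rcases mul_eq_zero.mp h4 with h | h
  · exact two_ne_zero h
  · exact hβ0 h

end Open

end Fermat.Agent.S59.H405

end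
-- ===== PACK-END S59/H405/TWQuadB.lean

-- ===== PACK-BEGIN S33/H855/TowerCore.lean
section



/-!
# Row S33, leaf (S1⁺): the tower lemma, abstract core (helper855)

Prelude language, any `K`, `F`.  `I` a subgroup of `SemilinearAut K F` ("inertia"), `p`, `n`
natural numbers, `C ⊆ F` a class of functions ("constant reductions at both Gauss valuations")
such that

* (C1) `C` is stable under products and inverses and contains the nonzero constants;
* (C2) `g f / f ∈ C` for all `g ∈ I`, `f ≠ 0`                     ("step I", any `f`);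
* (C3) `h ^ (p ^ k) ∈ C → h ∈ C`                                   (root closure).

If every function with trivial divisor is a constant, then every class `y` in the subgroup
generated by the `g • x - x`, `g ∈ I`, `p ^ n • x = 0`, which is killed by `p`, has a Kummer
generator `h ∈ C`: `y = [D]`, `div h = p • D`.

`mem_of_mem_closure_of_torsion` is the form consumed by the S33 board
(`𝒮⁺ := ⋃ₙ I_aug(J[pⁿ]) ∩ J[p] ⊆ 𝒮`).
-/

set_option autoImplicit false

namespace Fermat.Agent.S33.H855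

open AlgebraicCurve Fermat.Agent.A2.H129

variable {K F : Type*} [Field K] [Field F] [Algebra K F]

/-- The axioms (C1)-(C3) on the class `C` of functions with "constant reductions". -/
structure TowerClass (I : Subgroup (SemilinearAut K F)) (p : ℕ) (C : Set F) : Prop where
  mul_mem : ∀ f g : F, f ∈ C → g ∈ C → f * g ∈ C
  inv_mem : ∀ f : F, f ∈ C → f⁻¹ ∈ C
  const_mem : ∀ c : K, c ≠ 0 → algebraMap K F c ∈ C
  tau_mem : ∀ g ∈ I, ∀ f : F, f ≠ 0 → tauSubOne (SemilinearAut.toRingAut g) f ∈ C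
  root_mem : ∀ (h : F) (k : ℕ), h ≠ 0 → h ^ (p ^ k) ∈ C → h ∈ C

/-- `y = [D]` has a Kummer generator of level `m` in `C`. -/
def HasGenIn (C : Set F) (m : ℕ) (y : Pic0 K F) : Prop :=
  ∃ (D : Divisor.degZero (K := K) (F := F)) (u : F), u ≠ 0 ∧ u ∈ C ∧ Pic0.mk D = y ∧
    ∀ v : Place K F, v.ord u = (m : ℤ) * (D : Divisor K F) v

theorem TowerClass.one_mem {I : Subgroup (SemilinearAut K F)} {p : ℕ} {C : Set F}
    (hC : TowerClass I p C) : (1 : F) ∈ C := by
  have := hC.const_mem 1 one_ne_zero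
  simpa using this

/-- The order of `g f / f`. -/
theorem ord_tauSubOne (g : SemilinearAut K F) {f : F} (hf : f ≠ 0) (v : Place K F) :
    v.ord (tauSubOne (SemilinearAut.toRingAut g) f) = (g⁻¹ • v).ord f - v.ord f := by
  have hτf : SemilinearAut.toRingAut g f ≠ 0 := by simpa using hf
  show v.ord (SemilinearAut.toRingAut g f * f⁻¹) = _
  rw [ord_div v hτf hf, ord_smul_eq]

/-- A torsion class has a Kummer generator. -/
theorem exists_gen_of_torsion (m : ℕ) (x : Pic0 K F) (hx : m • x = 0) :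
    ∃ (D : Divisor.degZero (K := K) (F := F)) (f : F), f ≠ 0 ∧ Pic0.mk D = x ∧
      ∀ v : Place K F, v.ord f = (m : ℤ) * (D : Divisor K F) v := by
  obtain ⟨D, rfl⟩ := Pic0.mk_surjective x
  have hprin : ((m • D : Divisor.degZero (K := K) (F := F)) : Divisor K F) ∈
      Divisor.principal (K := K) (F := F) := by
    have h0 : Pic0.mk (m • D) = 0 := hx
    have := (QuotientAddGroup.eq_zero_iff (m • D)).1 h0
    simpa [AddSubgroup.mem_addSubgroupOf] using this
  obtain ⟨f, hf, hfD⟩ := hprin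
  refine ⟨D, f, hf, rfl, fun v => ?_⟩
  rw [← hfD v]
  simp [Finsupp.smul_apply]

/-- Step A: every element of the augmentation subgroup of the `m`-torsion has a Kummer
generator of level `m` in `C`. -/
theorem hasGenIn_of_mem_closure {I : Subgroup (SemilinearAut K F)} {p : ℕ} {C : Set F}
    (hC : TowerClass I p C) (m : ℕ) (y : Pic0 K F)
    (hy : y ∈ AddSubgroup.closure
      {z : Pic0 K F | ∃ g ∈ I, ∃ x : Pic0 K F, m • x = 0 ∧ z = g • x - x}) :
    HasGenIn C m y := by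
  induction hy using AddSubgroup.closure_induction with
  | mem z hz =>
    obtain ⟨g, hg, x, hx, rfl⟩ := hz
    obtain ⟨D, f, hf, rfl, hfD⟩ := exists_gen_of_torsion m x hx
    refine ⟨SemilinearAut.degZeroSMulHom g D - D, tauSubOne (SemilinearAut.toRingAut g) f,
      tauSubOne_ne_zero _ hf, hC.tau_mem g hg f hf, ?_, fun v => ?_⟩
    · rw [SemilinearAut.pic0_smul_mk]
      rfl
    · rw [ord_tauSubOne g hf v, hfD, hfD]
      simp only [AddSubgroupClass.coe_sub, SemilinearAut.coe_degZeroSMulHom,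
        Finsupp.sub_apply, SemilinearAut.divisor_smul_apply]
      ring
  | zero =>
    refine ⟨0, 1, one_ne_zero, hC.one_mem, rfl, fun v => ?_⟩
    simp [Place.ord_one]
  | add a b _ _ ha hb =>
    obtain ⟨D, u, hu, huC, rfl, hD⟩ := ha
    obtain ⟨E, w, hw, hwC, rfl, hE⟩ := hb
    refine ⟨D + E, u * w, mul_ne_zero hu hw, hC.mul_mem u w huC hwC, rfl, fun v => ?_⟩
    rw [v.ord_mul hu hw, hD, hE]
    simp only [AddSubgroup.coe_add, Finsupp.add_apply]
    ring
  | neg a _ ha =>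
    obtain ⟨D, u, hu, huC, rfl, hD⟩ := ha
    refine ⟨-D, u⁻¹, inv_ne_zero hu, hC.inv_mem u huC, rfl, fun v => ?_⟩
    rw [v.ord_inv, hD]
    simp only [AddSubgroup.coe_neg, Finsupp.neg_apply]
    ring

/-- Step B: a class killed by `p` with a Kummer generator of level `p ^ n` (`n ≥ 1`) in `C`
has a Kummer generator of level `p` in `C`. -/
theorem hasGenIn_of_hasGenIn_pow {I : Subgroup (SemilinearAut K F)} {p : ℕ} {C : Set F}
    (hC : TowerClass I p C)
    (hconst : ∀ u : F, u ≠ 0 → (∀ v : Place K F, v.ord u = 0) →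
      ∃ c : K, algebraMap K F c = u)
    (n : ℕ) (y : Pic0 K F) (hy : HasGenIn C (p ^ (n + 1)) y) (hpy : p • y = 0) :
    HasGenIn C p y := by
  obtain ⟨D, u, hu, huC, rfl, hD⟩ := hy
  -- a Kummer generator of level `p`
  have hprin : ((p • D : Divisor.degZero (K := K) (F := F)) : Divisor K F) ∈
      Divisor.principal (K := K) (F := F) := by
    have h0 : Pic0.mk (p • D) = 0 := hpy
    have := (QuotientAddGroup.eq_zero_iff (p • D)).1 h0
    simpa [AddSubgroup.mem_addSubgroupOf] using this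
  obtain ⟨h, hh, hhD⟩ := hprin
  have hhD' : ∀ v : Place K F, v.ord h = (p : ℤ) * (D : Divisor K F) v := by
    intro v
    rw [← hhD v]
    simp [Finsupp.smul_apply]
  -- `u / h ^ (p ^ n)` has trivial divisor
  have hpow : h ^ (p ^ n) ≠ 0 := pow_ne_zero _ hh
  have hq : u * (h ^ (p ^ n))⁻¹ ≠ 0 := mul_ne_zero hu (inv_ne_zero hpow)
  have hord : ∀ v : Place K F, v.ord (u * (h ^ (p ^ n))⁻¹) = 0 := by
    intro v
    rw [ord_div v hu hpow, ord_pow, hD, hhD']
    push_cast
    ring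
  obtain ⟨c, hc⟩ := hconst _ hq hord
  have hc0 : c ≠ 0 := by
    rintro rfl
    rw [map_zero] at hc
    exact hq hc.symm
  have hcF : algebraMap K F c ≠ 0 := by simpa using hc0
  -- hence `h ^ (p ^ n) ∈ C`
  have hmem : h ^ (p ^ n) ∈ C := by
    have e : h ^ (p ^ n) = u * (algebraMap K F c)⁻¹ := by
      rw [hc]
      field_simp
    rw [e]
    exact hC.mul_mem _ _ huC (hC.inv_mem _ (hC.const_mem c hc0))
  exact ⟨D, h, hh, hC.root_mem h n hh hmem, rfl, hhD'⟩

/-- **Tower lemma (S1⁺), abstract form.**  A class killed by `p` in the augmentation subgroup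
of the `p ^ (n+1)`-torsion has a Kummer generator of level `p` in `C`. -/
theorem hasGenIn_of_mem_closure_of_torsion {I : Subgroup (SemilinearAut K F)} {p : ℕ}
    {C : Set F} (hC : TowerClass I p C)
    (hconst : ∀ u : F, u ≠ 0 → (∀ v : Place K F, v.ord u = 0) →
      ∃ c : K, algebraMap K F c = u)
    (n : ℕ) (y : Pic0 K F)
    (hy : y ∈ AddSubgroup.closure
      {z : Pic0 K F | ∃ g ∈ I, ∃ x : Pic0 K F, p ^ (n + 1) • x = 0 ∧ z = g • x - x})
    (hpy : p • y = 0) : HasGenIn C p y :=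
  hasGenIn_of_hasGenIn_pow hC hconst n y (hasGenIn_of_mem_closure hC _ y hy) hpy

/-- **Tower lemma (S1⁺), subgroup form.**  If `𝒮` contains every class with a Kummer generator
of level `p` in `C`, then `I_aug(J[p ^ (n+1)]) ∩ J[p] ⊆ 𝒮`. -/
theorem mem_of_mem_closure_of_torsion {I : Subgroup (SemilinearAut K F)} {p : ℕ}
    {C : Set F} (hC : TowerClass I p C)
    (hconst : ∀ u : F, u ≠ 0 → (∀ v : Place K F, v.ord u = 0) →
      ∃ c : K, algebraMap K F c = u)
    (𝒮 : AddSubgroup (Pic0 K F))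
    (h𝒮 : ∀ (D : Divisor.degZero (K := K) (F := F)) (h : F), h ≠ 0 → h ∈ C →
      (∀ v : Place K F, v.ord h = (p : ℤ) * (D : Divisor K F) v) → Pic0.mk D ∈ 𝒮)
    (n : ℕ) (y : Pic0 K F)
    (hy : y ∈ AddSubgroup.closure
      {z : Pic0 K F | ∃ g ∈ I, ∃ x : Pic0 K F, p ^ (n + 1) • x = 0 ∧ z = g • x - x})
    (hpy : p • y = 0) : y ∈ 𝒮 := by
  obtain ⟨D, h, hh, hhC, rfl, hD⟩ := hasGenIn_of_mem_closure_of_torsion hC hconst n y hy hpy
  exact h𝒮 D h hh hhC hD

end Fermat.Agent.S33.H855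

end
-- ===== PACK-END S33/H855/TowerCore.lean

-- ===== PACK-BEGIN S59/NM/H254/Principal.lean
section


/-!
# Rows S59 / cells NM, NMP (helper254): the cotangent bound for a principal kernel

`ψ : R' ↠ R` a surjection of augmented `𝒪`-algebras (`x' = x ∘ ψ`) whose kernel is contained in
a principal ideal `(v)`, `v ∈ ker x'`, and `c ∈ 𝒪` with `c • v ∈ (ker x')²` (for instance
`u * v = 0` with `x' u = c`).  Then `#Φ_{R'} ≤ #Φ_R · #(𝒪/c)` (`card_cot_le_of_principal`).

This is the counting step of the Selmer bound at `p` (flat `→` ordinary, `v` = the Kummer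
valuation component, `c = α² - 1`).
-/

set_option autoImplicit false

namespace Fermat.Agent.S59.NM.H254

open IsLocalRing

section Cyclic

variable {𝒪 : Type*} [CommRing 𝒪] {S : Type*} [CommRing S] [Algebra 𝒪 S]

/-- A principal ideal `(w)` of an `𝒪`-algebra `S = 𝒪 + 𝔭` with `𝔭 w = 0` and `c w = 0` has at
most `#(𝒪/c)` elements. -/
theorem card_span_singleton_le (𝔭 : Ideal S)
    (hS : ∀ s : S, ∃ a : 𝒪, s - algebraMap 𝒪 S a ∈ 𝔭) (w : S) (hw : ∀ a ∈ 𝔭, a * w = 0)
    (c : 𝒪) (hc : algebraMap 𝒪 S c * w = 0) [hfin : Finite (𝒪 ⧸ Ideal.span {c})] :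
    Finite (Ideal.span {w} : Ideal S) ∧
      Nat.card (Ideal.span {w} : Ideal S) ≤ Nat.card (𝒪 ⧸ Ideal.span {c}) := by
  classical
  -- the map `𝒪 → (w)`
  let f₀ : 𝒪 →ₗ[𝒪] S := (LinearMap.toSpanSingleton 𝒪 S w)
  have hf₀ : ∀ a : 𝒪, f₀ a = algebraMap 𝒪 S a * w := fun a => by
    simp [f₀, LinearMap.toSpanSingleton_apply, Algebra.smul_def]
  have hker : Ideal.span {c} ≤ LinearMap.ker f₀ := by
    rw [Ideal.span_le]
    intro a ha
    rw [Set.mem_singleton_iff] at ha
    rw [SetLike.mem_coe, LinearMap.mem_ker, ha, hf₀, hc]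
  let f : (𝒪 ⧸ Ideal.span {c}) →ₗ[𝒪] S := (Ideal.span {c}).liftQ f₀ hker
  have hf : ∀ a : 𝒪, f (Ideal.Quotient.mk _ a) = algebraMap 𝒪 S a * w := fun a => hf₀ a
  have hmem : ∀ y ∈ (Ideal.span {w} : Ideal S), ∃ b : 𝒪 ⧸ Ideal.span {c}, f b = y := by
    intro y hy
    obtain ⟨s, rfl⟩ := Ideal.mem_span_singleton'.mp hy
    obtain ⟨a, ha⟩ := hS s
    refine ⟨Ideal.Quotient.mk _ a, ?_⟩
    rw [hf]
    have h1 := hw _ ha
    rw [sub_mul, sub_eq_zero] at h1
    exact h1.symm
  have hrange : ∀ b : 𝒪 ⧸ Ideal.span {c}, f b ∈ (Ideal.span {w} : Ideal S) := by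
    intro b
    obtain ⟨a, rfl⟩ := Ideal.Quotient.mk_surjective b
    rw [hf]
    exact Ideal.mul_mem_left _ _ (Ideal.subset_span rfl)
  let g : (𝒪 ⧸ Ideal.span {c}) → (Ideal.span {w} : Ideal S) := fun b => ⟨f b, hrange b⟩
  have hg : Function.Surjective g := by
    rintro ⟨y, hy⟩
    obtain ⟨b, hb⟩ := hmem y hy
    exact ⟨b, Subtype.ext hb⟩
  haveI : Finite (Ideal.span {w} : Ideal S) := Finite.of_surjective g hg
  exact ⟨inferInstance, Nat.card_le_card_of_surjective g hg⟩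

end Cyclic

section Principal

variable {𝒪 : Type*} [CommRing 𝒪] {R' R : Type*} [CommRing R'] [IsLocalRing R']
  [IsNoetherianRing R'] [CommRing R] [Algebra 𝒪 R'] [Algebra 𝒪 R]

/-- **The cotangent bound for a principal kernel.** -/
theorem card_cot_le_of_principal (ψ : R' →ₐ[𝒪] R) (hψ : Function.Surjective ψ)
    (x : R →ₐ[𝒪] 𝒪) (x' : R' →ₐ[𝒪] 𝒪) (hx : x' = x.comp ψ)
    (v : R') (hker : RingHom.ker (ψ : R' →+* R) ≤ Ideal.span {v}) (hv : x' v = 0)
    (c : 𝒪) (hcv : algebraMap 𝒪 R' c * v ∈ NC.augIdeal x' ^ 2)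
    [hfinc : Finite (𝒪 ⧸ Ideal.span {c})] [hfin : Finite (NC.Cot x)] :
    Finite (NC.Cot x') ∧
      Nat.card (NC.Cot x') ≤ Nat.card (NC.Cot x) * Nat.card (𝒪 ⧸ Ideal.span {c}) := by
  classical
  have hK2 : Ideal.span {v} ≤ NC.augIdeal x' := by
    rw [Ideal.span_le, Set.singleton_subset_iff, SetLike.mem_coe, NC.mem_augIdeal]
    exact hv
  refine card_cot_le ψ hψ x x' hx (Ideal.span {v}) hker hK2 _ ?_
  intro n
  obtain ⟨J, hJ⟩ : ∃ J : Ideal R', J = NC.augIdeal x' ^ 2 ⊔ maximalIdeal R' ^ n := ⟨_, rfl⟩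
  rw [← hJ]
  have hJ1 : NC.augIdeal x' ^ 2 ≤ J := hJ ▸ le_sup_left
  have hmks : Function.Surjective (Ideal.Quotient.mk J) := Ideal.Quotient.mk_surjective
  have hmk0 : ∀ {y : R'}, y ∈ J → Ideal.Quotient.mk J y = 0 := fun hy =>
    Ideal.Quotient.eq_zero_iff_mem.mpr hy
  rw [Ideal.map_span, Set.image_singleton]
  refine card_span_singleton_le ((NC.augIdeal x').map (Ideal.Quotient.mk J)) ?_ _ ?_ c ?_
  · intro s
    obtain ⟨y, rfl⟩ := hmks s
    refine ⟨x' y, ?_⟩
    have h1 : Ideal.Quotient.mk J y - algebraMap 𝒪 (R' ⧸ J) (x' y) =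
        Ideal.Quotient.mk J (y - algebraMap 𝒪 R' (x' y)) := by
      rw [map_sub]
      rfl
    rw [h1]
    exact Ideal.mem_map_of_mem _ (NC.sub_algebraMap_mem_augIdeal x' y)
  · intro a ha
    obtain ⟨a', ha', rfl⟩ := (Ideal.mem_map_iff_of_surjective _ hmks).mp ha
    rw [← map_mul]
    apply hmk0
    apply hJ1
    rw [pow_two]
    exact Ideal.mul_mem_mul ha' (NC.mem_augIdeal.mpr hv)
  · have h1 : algebraMap 𝒪 (R' ⧸ J) c * Ideal.Quotient.mk J v =
        Ideal.Quotient.mk J (algebraMap 𝒪 R' c * v) := by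
      rw [map_mul]
      rfl
    rw [h1]
    exact hmk0 (hJ1 hcv)

/-- Variant: `u * v = 0` in `R'` and `c = x' u ≠ 0` in the domain `𝒪`. -/
theorem card_cot_le_of_principal_of_mul_eq_zero [IsDomain 𝒪] (ψ : R' →ₐ[𝒪] R)
    (hψ : Function.Surjective ψ) (x : R →ₐ[𝒪] 𝒪) (x' : R' →ₐ[𝒪] 𝒪) (hx : x' = x.comp ψ)
    (v u : R') (hker : RingHom.ker (ψ : R' →+* R) ≤ Ideal.span {v}) (huv : u * v = 0)
    (hu : x' u ≠ 0)
    [hfinc : Finite (𝒪 ⧸ Ideal.span {x' u})] [hfin : Finite (NC.Cot x)] :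
    Finite (NC.Cot x') ∧
      Nat.card (NC.Cot x') ≤ Nat.card (NC.Cot x) * Nat.card (𝒪 ⧸ Ideal.span {x' u}) := by
  have hv : x' v = 0 := by
    have h1 := congrArg x' huv
    rw [map_mul, map_zero] at h1
    exact (mul_eq_zero.mp h1).resolve_left hu
  refine card_cot_le_of_principal ψ hψ x x' hx v hker hv (x' u) ?_
  -- `x'(u) v = (x'(u) - u) v ∈ 𝔭'²`
  have h1 : algebraMap 𝒪 R' (x' u) * v = -((u - algebraMap 𝒪 R' (x' u)) * v) := by
    rw [sub_mul, huv, zero_sub, neg_neg]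
  rw [h1, pow_two]
  exact Ideal.neg_mem_iff _ |>.mpr
    (Ideal.mul_mem_mul (NC.sub_algebraMap_mem_augIdeal x' u) (NC.mem_augIdeal.mpr hv))

end Principal

end Fermat.Agent.S59.NM.H254

end
-- ===== PACK-END S59/NM/H254/Principal.lean

-- ===== PACK-BEGIN S59/NMP/H649/ValFinAux.lean
section




/-!
# Row S59, cell NMP, leaf SEL / VALFIN: auxiliary lemmas (helper649)

* `exists_natCast_pow_mem_h649` : a finite quotient `A ⧸ J` of a local ring with `p ∈ 𝔪` has
  `p ^ n ∈ J` for some `n ≥ 1`;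
* `exists_maximalIdeal_pow_le_h649` : `𝔪 ^ N ≤ J` for some `N`;
* `isUnit_natCast_of_coprime_h649` : integers prime to `p` are units;
* `exists_kummer_gen_h649` : Hilbert 90 for the twisted cocycle `γ ↦ Λ (c γ)`;
* `zmodChar_h649` : the character `x ↦ ζ ^ x.val` of `ℤ/m`.

Mathlib + `S59/H649/{H90, KummerCore}` only.
-/

set_option autoImplicit false
set_option linter.style.haveILetI false
set_option linter.unusedSectionVars false
set_option linter.unusedVariables false

namespace Fermat.Agent.S59.NMP.H649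

open IsLocalRing

section Local

variable {A : Type*} [CommRing A] [IsLocalRing A]

theorem exists_natCast_pow_mem_h649 {p : ℕ} (hpm : (p : A) ∈ maximalIdeal A) (J : Ideal A)
    [Finite (A ⧸ J)] : ∃ n : ℕ, 0 < n ∧ ((p ^ n : ℕ) : A) ∈ J := by
  obtain ⟨x, y, hxy, hf⟩ := Finite.exists_ne_map_eq_of_infinite
    (fun k : ℕ => (Ideal.Quotient.mk J ((p : A) ^ k) : A ⧸ J))
  have key : ∀ x y : ℕ, x < y →
      (Ideal.Quotient.mk J ((p : A) ^ x) : A ⧸ J) = Ideal.Quotient.mk J ((p : A) ^ y) →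
      (p : A) ^ x ∈ J := by
    intro x y hlt h
    have h1 : (p : A) ^ x - (p : A) ^ y ∈ J := by
      rw [← Ideal.Quotient.eq_zero_iff_mem, map_sub, h, sub_self]
    have h2 : (p : A) ^ (y - x) ∈ nonunits A := by
      have : (p : A) ^ (y - x) ∈ maximalIdeal A :=
        Ideal.pow_mem_of_mem _ hpm _ (Nat.sub_pos_of_lt hlt)
      exact (mem_maximalIdeal _).mp this
    obtain ⟨u, hu⟩ := isUnit_one_sub_self_of_mem_nonunits _ h2
    have h3 : (p : A) ^ x - (p : A) ^ y = (p : A) ^ x * (1 - (p : A) ^ (y - x)) := by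
      rw [mul_sub, mul_one, ← pow_add, Nat.add_sub_cancel' hlt.le]
    rw [h3, ← hu] at h1
    have := J.mul_mem_right (↑u⁻¹ : A) h1
    rwa [mul_assoc, Units.mul_inv, mul_one] at this
  have hx : ∃ k : ℕ, (p : A) ^ k ∈ J := by
    rcases lt_or_gt_of_ne hxy with h | h
    · exact ⟨x, key x y h hf⟩
    · exact ⟨y, key y x h hf.symm⟩
  obtain ⟨k, hk⟩ := hx
  refine ⟨k + 1, Nat.succ_pos k, ?_⟩
  rw [Nat.cast_pow, pow_succ]
  exact J.mul_mem_right _ hk

theorem exists_maximalIdeal_pow_le_h649 (J : Ideal A) [Finite (A ⧸ J)] (hJ : J ≠ ⊤) :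
    ∃ N : ℕ, maximalIdeal A ^ N ≤ J := by
  haveI : Nontrivial (A ⧸ J) := Ideal.Quotient.nontrivial_iff.mpr hJ
  haveI : IsLocalRing (A ⧸ J) :=
    IsLocalRing.of_surjective' (Ideal.Quotient.mk J) Ideal.Quotient.mk_surjective
  have hnil : IsNilpotent (maximalIdeal (A ⧸ J)) := by
    have h := IsArtinianRing.isNilpotent_jacobson_bot (R := A ⧸ J)
    rwa [jacobson_eq_maximalIdeal ⊥ bot_ne_top] at h
  obtain ⟨N, hN⟩ := hnil
  refine ⟨N, fun x hx => ?_⟩
  have h1 : Ideal.Quotient.mk J x ∈ (maximalIdeal A ^ N).map (Ideal.Quotient.mk J) :=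
    Ideal.mem_map_of_mem _ hx
  have h2 : (maximalIdeal A).map (Ideal.Quotient.mk J) ≤ maximalIdeal (A ⧸ J) := by
    rw [Ideal.map_le_iff_le_comap]
    intro a ha
    rw [Ideal.mem_comap, mem_maximalIdeal, mem_nonunits_iff]
    intro hu
    have ha' : ¬ IsUnit a := (mem_maximalIdeal a).mp ha
    -- a unit modulo `J` is a unit in the local ring `A`
    apply ha'
    by_contra hna
    have h3 : a ∈ maximalIdeal A := (mem_maximalIdeal a).mpr hna
    obtain ⟨w, hw⟩ := hu.exists_right_inv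
    obtain ⟨w₀, rfl⟩ := Ideal.Quotient.mk_surjective w
    have h4 : a * w₀ - 1 ∈ J := by
      rw [← Ideal.Quotient.eq_zero_iff_mem, map_sub, map_mul, hw, map_one, sub_self]
    have h5 : J ≤ maximalIdeal A := le_maximalIdeal hJ
    have h6 : (1 : A) ∈ maximalIdeal A := by
      have := (maximalIdeal A).sub_mem ((maximalIdeal A).mul_mem_right w₀ h3) (h5 h4)
      rwa [sub_sub_cancel] at this
    exact (Ideal.ne_top_iff_one _).mp (maximalIdeal.isMaximal A).ne_top h6
  rw [Ideal.map_pow] at h1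
  have h7 := Ideal.pow_right_mono h2 N h1
  rw [hN] at h7
  exact Ideal.Quotient.eq_zero_iff_mem.mp h7

theorem isUnit_natCast_of_coprime_h649 {p a : ℕ} (hpm : (p : A) ∈ maximalIdeal A)
    (h : a.Coprime p) : IsUnit (a : A) := by
  by_contra hna
  have h1 : (a : A) ∈ maximalIdeal A := (mem_maximalIdeal _).mpr hna
  have h2 : IsCoprime (a : ℤ) (p : ℤ) := Nat.Coprime.isCoprime h
  obtain ⟨x, y, hxy⟩ := h2
  have h3 := congrArg (Int.cast : ℤ → A) hxy
  rw [Int.cast_add, Int.cast_mul, Int.cast_mul, Int.cast_natCast, Int.cast_natCast,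
    Int.cast_one] at h3
  have h4 : (1 : A) ∈ maximalIdeal A := by
    rw [← h3]
    exact (maximalIdeal A).add_mem ((maximalIdeal A).mul_mem_left _ h1)
      ((maximalIdeal A).mul_mem_left _ hpm)
  exact (Ideal.ne_top_iff_one _).mp (maximalIdeal.isMaximal A).ne_top h4

end Local

/-- **Kummer generators** of the twisted cocycles `γ ↦ Λ (c γ)`. -/
theorem exists_kummer_gen_h649 {K Ω : Type*} [Field K] [Field Ω] [Algebra K Ω] [IsGalois K Ω]
    (H : Subgroup (Ω ≃ₐ[K] Ω)) {R : Type*} [CommRing R] (m : ℕ) (hm : (m : R) = 0)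
    (e : (Ω ≃ₐ[K] Ω) → ℕ) (he : ∀ γ, ∀ μ : Ω, μ ^ m = 1 → γ μ = μ ^ (e γ))
    (c : (Ω ≃ₐ[K] Ω) → R)
    (hc : ∀ γ ∈ H, ∀ γ' ∈ H, c (γ * γ') = (e γ : R) * c γ' + c γ)
    (E : IntermediateField K Ω) [FiniteDimensional K E]
    (hlev : ∀ τ ∈ H, (∀ x ∈ E, τ x = x) → c τ = 0)
    (Λ : R → Ω) (hΛ0 : Λ 0 = 1) (hΛ : ∀ s t, Λ (s + t) = Λ s * Λ t) :
    ∃ y : Ω, y ≠ 0 ∧ ∀ γ ∈ H, γ y = Λ (c γ) * y := by
  have hne := Fermat.Agent.S59.H649.charFun_ne_zero Λ hΛ0 hΛ
  have hpow := Fermat.Agent.S59.H649.charFun_pow_eq_one Λ hΛ0 hΛ hm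
  let f : (Ω ≃ₐ[K] Ω) → Ω := fun γ => Λ (c γ)
  have hf0 : ∀ γ ∈ H, f γ ≠ 0 := fun γ _ => hne _
  have hfc : ∀ γ ∈ H, ∀ γ' ∈ H, f (γ * γ') = f γ * γ (f γ') := by
    intro γ hγ γ' hγ'
    show Λ (c (γ * γ')) = Λ (c γ) * γ (Λ (c γ'))
    rw [hc γ hγ γ' hγ', he γ _ (hpow _), ← Fermat.Agent.S59.H649.charFun_nsmul Λ hΛ0 hΛ,
      mul_comm (Λ (c γ)), ← hΛ]
  have hflev : ∀ γ ∈ H, ∀ τ ∈ H, (∀ x ∈ E, τ x = x) → f (γ * τ) = f γ := by
    intro γ hγ τ hτ hfix
    rw [hfc γ hγ τ hτ]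
    show f γ * γ (Λ (c τ)) = f γ
    rw [hlev τ hτ hfix, hΛ0, map_one, mul_one]
  exact Fermat.Agent.S59.H649.hilbert90_subgroup H f hf0 hfc E hflev

section ZModChar

variable {M : Type*} [CommGroup M] {m : ℕ} [NeZero m]

/-- the character `x ↦ ζ ^ x.val` of `ℤ/m` attached to `ζ` with `ζ ^ m = 1` -/
noncomputable def zmodChar_h649 (ζ : M) (hζ : ζ ^ m = 1) : Multiplicative (ZMod m) →* M where
  toFun x := ζ ^ (Multiplicative.toAdd x).val
  map_one' := by
    show ζ ^ (0 : ZMod m).val = 1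
    rw [ZMod.val_zero, pow_zero]
  map_mul' x y := by
    show ζ ^ (Multiplicative.toAdd x + Multiplicative.toAdd y).val = _
    rw [ZMod.val_add, ← pow_eq_pow_mod _ hζ, pow_add]

theorem zmodChar_apply_h649 (ζ : M) (hζ : ζ ^ m = 1) (x : ZMod m) :
    zmodChar_h649 ζ hζ (Multiplicative.ofAdd x) = ζ ^ x.val := rfl

end ZModChar

end Fermat.Agent.S59.NMP.H649

end
-- ===== PACK-END S59/NMP/H649/ValFinAux.lean

-- ===== PACK-BEGIN S17/H770/DerPlace.lean
section



/-!
# S17 / G-DIV piece DER (helper770): derivations and places (abstract layer)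

`F/K` a field extension, `v : Place K F`, `D` a derivation of `F` (over `ℤ`).

* `DIntegral D v` : `D (O_v) ⊆ O_v`;  `DStable D v` : moreover `D (𝔪_v) ⊆ 𝔪_v`.
* `dIntegral_of_approx`, `dStable_of_approx` : both properties can be checked on a subring `R`
  of which `O_v` is a localisation.
* `ord_le_ord_der` : `D f = 0 ∨ ord_v f - 1 ≤ ord_v (D f)` (logarithmic derivatives have at most
  simple poles);  `ord_le_ord_der_of_dStable` : no pole at all at a `D`-stable place.
* `dStable_of_der_eq_zero` : (characteristic `0`) a zero or pole of a `D`-constant function is a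
  `D`-stable place.
* `der_const_eq_zero_of_dStable` : at a `D`-stable place the value of a `D`-constant function is
  a constant of the derivation induced on `K`.
-/

set_option autoImplicit false

open AlgebraicCurve

namespace Fermat.Agent.S17.H770

open Fermat.Agent.Lib.RR

variable {K F : Type*} [Field K] [Field F] [Algebra K F]

/-- `D` maps the valuation ring of `v` into itself. -/
def DIntegral (D : Derivation ℤ F F) (v : Place K F) : Prop :=
  ∀ f : F, 0 ≤ v.ord f → 0 ≤ v.ord (D f)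

/-- `D` maps the valuation ring and the maximal ideal of `v` into themselves. -/
def DStable (D : Derivation ℤ F F) (v : Place K F) : Prop :=
  DIntegral D v ∧ ∀ f : F, 0 < v.ord f → D f = 0 ∨ 0 < v.ord (D f)

section Approx

variable (D : Derivation ℤ F F) (v : Place K F)

theorem ord_div_eq (v : Place K F) {a b : F} (ha : a ≠ 0) (hb : b ≠ 0) :
    v.ord (a / b) = v.ord a - v.ord b := by
  rw [div_eq_mul_inv, v.ord_mul ha (inv_ne_zero hb), v.ord_inv]
  ring

/-- `D (a / b) ∈ O_v` when `a, b, D a, D b ∈ O_v` and `b` is a unit at `v`. -/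
theorem ord_der_div_nonneg {a b : F} (hb0 : v.ord b = 0)
    (ha : 0 ≤ v.ord a) (hDa : 0 ≤ v.ord (D a)) (hDb : 0 ≤ v.ord (D b)) :
    0 ≤ v.ord (D (a / b)) := by
  have hbi : b⁻¹ ∈ v.toValuationSubring :=
    mem_of_ord_nonneg v (by rw [v.ord_inv, hb0]; simp)
  have hmem : D (a / b) ∈ v.toValuationSubring := by
    rw [Derivation.leibniz_div, smul_eq_mul, smul_eq_mul, smul_eq_mul]
    exact mul_mem (pow_mem hbi 2) (sub_mem
      (mul_mem (mem_of_ord_nonneg v (by rw [hb0])) (mem_of_ord_nonneg v hDa))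
      (mul_mem (mem_of_ord_nonneg v ha) (mem_of_ord_nonneg v hDb)))
  exact ord_nonneg_of_mem v hmem

/-- `D` preserves `O_v` as soon as it does so on a set `R` of which `O_v` is a localisation. -/
theorem dIntegral_of_approx (R : Set F)
    (hR : ∀ a ∈ R, 0 ≤ v.ord a → 0 ≤ v.ord (D a))
    (happ : ∀ f : F, 0 ≤ v.ord f → ∃ a ∈ R, ∃ b ∈ R, b ≠ 0 ∧ v.ord b = 0 ∧ 0 ≤ v.ord a ∧
      f = a / b) :
    DIntegral D v := by
  intro f hf
  obtain ⟨a, haR, b, hbR, hb, hb0, ha, rfl⟩ := happ f hf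
  exact ord_der_div_nonneg D v hb0 ha (hR a haR ha) (hR b hbR hb0.ge)

/-- `D` preserves `𝔪_v` as soon as it does so on a set `R` of which `O_v` is a localisation. -/
theorem dStable_of_approx (R : Set F)
    (hR : ∀ a ∈ R, 0 ≤ v.ord a → 0 ≤ v.ord (D a))
    (hRm : ∀ a ∈ R, 0 < v.ord a → D a = 0 ∨ 0 < v.ord (D a))
    (happ : ∀ f : F, 0 ≤ v.ord f → ∃ a ∈ R, ∃ b ∈ R, b ≠ 0 ∧ v.ord b = 0 ∧ 0 ≤ v.ord a ∧
      f = a / b) :
    DStable D v := by
  refine ⟨dIntegral_of_approx D v R hR happ, fun f hf => ?_⟩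
  obtain ⟨a, haR, b, hbR, hb, hb0, ha, rfl⟩ := happ f hf.le
  have ha0 : a ≠ 0 := by
    rintro rfl
    simp at hf
  have hapos : 0 < v.ord a := by
    rw [ord_div_eq v ha0 hb, hb0, sub_zero] at hf
    exact hf
  by_cases h0 : D (a / b) = 0
  · exact Or.inl h0
  right
  -- D (a/b) = (D a) / b - (a / b) * (D b / b)
  have hbi : v.ord b⁻¹ = 0 := by rw [v.ord_inv, hb0]; simp
  have hDb : 0 ≤ v.ord (D b) := hR b hbR hb0.ge
  have hkey : D (a / b) = D a * b⁻¹ + -(a * (b⁻¹ ^ 2 * D b)) := by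
    rw [Derivation.leibniz_div, smul_eq_mul, smul_eq_mul, smul_eq_mul]
    field_simp
    ring
  have h1 : D a * b⁻¹ = 0 ∨ 1 ≤ v.ord (D a * b⁻¹) := by
    rcases hRm a haR hapos with h | h
    · left; rw [h, zero_mul]
    · right
      have hDa0 : D a ≠ 0 := ne_zero_of_ord_ne_zero v h.ne'
      rw [v.ord_mul hDa0 (inv_ne_zero hb), hbi, add_zero]
      omega
  have h2 : -(a * (b⁻¹ ^ 2 * D b)) = 0 ∨ 1 ≤ v.ord (-(a * (b⁻¹ ^ 2 * D b))) := by
    by_cases hDb0 : D b = 0
    · left; rw [hDb0]; simp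
    · right
      rw [ord_neg, v.ord_mul ha0 (mul_ne_zero (pow_ne_zero 2 (inv_ne_zero hb)) hDb0),
        v.ord_mul (pow_ne_zero 2 (inv_ne_zero hb)) hDb0, ord_pow, hbi]
      push_cast
      omega
  have h3 := ord_add_of_le v h1 h2
  rw [← hkey] at h3
  rcases h3 with h3 | h3
  · exact absurd h3 h0
  · omega

end Approx

section LogDer

variable (D : Derivation ℤ F F) (v : Place K F)

/-- `D (π ^ n) = n π ^ (n-1) D π` for integer exponents. -/
theorem der_zpow (π : F) (hπ : π ≠ 0) (n : ℤ) :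
    D (π ^ n) = (n : F) * π ^ (n - 1) * D π := by
  induction n using Int.induction_on with
  | zero => simp
  | succ k ih =>
      have h1 : π ^ ((k : ℤ) + 1) = π ^ (k : ℤ) * π := zpow_add_one₀ hπ _
      rw [h1, Derivation.leibniz, ih, smul_eq_mul, smul_eq_mul, add_sub_cancel_right]
      have h2 : π ^ (k : ℤ) = π ^ ((k : ℤ) - 1) * π := by
        rw [← zpow_add_one₀ hπ, sub_add_cancel]
      rw [h2]
      push_cast
      ring
  | pred k ih =>
      have h1 : π ^ (-(k : ℤ) - 1) = π ^ (-(k : ℤ)) * π⁻¹ := zpow_sub_one₀ hπ _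
      rw [h1, Derivation.leibniz, ih, Derivation.leibniz_inv, smul_eq_mul, smul_eq_mul,
        smul_eq_mul]
      have h2 : π ^ (-(k : ℤ) - 1 - 1) = π ^ (-(k : ℤ)) * π⁻¹ * π⁻¹ := by
        rw [zpow_sub_one₀ hπ, zpow_sub_one₀ hπ]
      have h3 : π ^ (-(k : ℤ) - 1) = π ^ (-(k : ℤ)) * π⁻¹ := zpow_sub_one₀ hπ _
      rw [h2, h3]
      push_cast
      ring

theorem ord_intCast_mul (v : Place K F) [CharZero F] (n : ℤ) (hn : n ≠ 0) {x : F} (hx : x ≠ 0) :
    v.ord ((n : F) * x) = v.ord x := by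
  have h1 : (n : F) = algebraMap K F (n : K) := (map_intCast _ n).symm
  have h2 : (n : F) ≠ 0 := by exact_mod_cast hn
  rw [v.ord_mul h2 hx, h1, ord_algebraMap, zero_add]

/-- `D (u π ^ n) = π ^ (n-1) (π D u + n u D π)`. -/
theorem der_mul_zpow (u π : F) (hπ : π ≠ 0) (n : ℤ) :
    D (u * π ^ n) = π ^ (n - 1) * (π * D u + (n : F) * u * D π) := by
  rw [Derivation.leibniz, der_zpow D π hπ, smul_eq_mul, smul_eq_mul]
  have h2 : π ^ n = π ^ (n - 1) * π := by
    rw [← zpow_add_one₀ hπ, sub_add_cancel]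
  rw [h2]
  ring

/-- Decomposition `f = u π ^ n` with `u` a unit at `v`. -/
theorem exists_unit_mul_zpow' (v : Place K F) {π : F} (hπ : v.ord π = 1) {f : F} (hf : f ≠ 0) :
    ∃ u : F, u ≠ 0 ∧ v.ord u = 0 ∧ f = u * π ^ (v.ord f) := by
  have hπ0 : π ≠ 0 := ne_zero_of_ord_ne_zero v (by rw [hπ]; norm_num)
  refine ⟨f * π ^ (-(v.ord f)), mul_ne_zero hf (zpow_ne_zero _ hπ0), ?_, ?_⟩
  · rw [v.ord_mul hf (zpow_ne_zero _ hπ0), v.ord_zpow, hπ]
    ring
  · rw [mul_assoc, ← zpow_add₀ hπ0]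
    simp

theorem intCast_mem (v : Place K F) (n : ℤ) : (n : F) ∈ v.toValuationSubring := by
  have h1 : (n : F) = algebraMap K F (n : K) := (map_intCast _ n).symm
  rw [h1]
  exact v.algebraMap_mem' _

/-- Logarithmic derivatives have at most simple poles: `ord_v (D f) ≥ ord_v f - 1`. -/
theorem ord_le_ord_der (hD : DIntegral D v) {f : F} (hf : f ≠ 0) :
    D f = 0 ∨ v.ord f - 1 ≤ v.ord (D f) := by
  by_cases h0 : D f = 0
  · exact Or.inl h0
  right
  obtain ⟨π, hπ⟩ := exists_ord_eq_one v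
  have hπ0 : π ≠ 0 := ne_zero_of_ord_ne_zero v (by rw [hπ]; norm_num)
  obtain ⟨u, hu0, hordu, hfu⟩ := exists_unit_mul_zpow' v hπ hf
  have hDu : 0 ≤ v.ord (D u) := hD u hordu.ge
  have hDπ : 0 ≤ v.ord (D π) := hD π (by rw [hπ]; norm_num)
  have hkey : D f = π ^ (v.ord f - 1) * (π * D u + ((v.ord f : ℤ) : F) * u * D π) := by
    conv_lhs => rw [hfu]
    exact der_mul_zpow D u π hπ0 _
  have hin : π * D u + ((v.ord f : ℤ) : F) * u * D π ∈ v.toValuationSubring :=
    add_mem (mul_mem (mem_of_ord_nonneg v (by rw [hπ]; norm_num))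
      (mem_of_ord_nonneg v hDu)) (mul_mem (mul_mem (intCast_mem v _)
      (mem_of_ord_nonneg v hordu.ge)) (mem_of_ord_nonneg v hDπ))
  have hne : π * D u + ((v.ord f : ℤ) : F) * u * D π ≠ 0 := by
    intro h
    rw [h, mul_zero] at hkey
    exact h0 hkey
  have h5 := congrArg v.ord hkey
  rw [v.ord_mul (zpow_ne_zero _ hπ0) hne, v.ord_zpow, hπ] at h5
  have := ord_nonneg_of_mem v hin
  omega

/-- At a `D`-stable place logarithmic derivatives have no pole: `ord_v (D f) ≥ ord_v f`. -/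
theorem ord_le_ord_der_of_dStable (hD : DStable D v) {f : F} (hf : f ≠ 0) :
    D f = 0 ∨ v.ord f ≤ v.ord (D f) := by
  by_cases h0 : D f = 0
  · exact Or.inl h0
  right
  obtain ⟨π, hπ⟩ := exists_ord_eq_one v
  have hπ0 : π ≠ 0 := ne_zero_of_ord_ne_zero v (by rw [hπ]; norm_num)
  obtain ⟨u, hu0, hordu, hfu⟩ := exists_unit_mul_zpow' v hπ hf
  have hDu : 0 ≤ v.ord (D u) := hD.1 u hordu.ge
  have hDπ : D π = 0 ∨ 0 < v.ord (D π) := hD.2 π (by rw [hπ]; norm_num)
  -- D π = π * w with w integral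
  obtain ⟨w, hw, hDπw⟩ : ∃ w : F, w ∈ v.toValuationSubring ∧ D π = π * w := by
    rcases hDπ with h | h
    · exact ⟨0, zero_mem _, by rw [h, mul_zero]⟩
    · refine ⟨D π * π⁻¹, mem_of_ord_nonneg v ?_, by field_simp⟩
      have hDπ0 : D π ≠ 0 := ne_zero_of_ord_ne_zero v h.ne'
      rw [v.ord_mul hDπ0 (inv_ne_zero hπ0), v.ord_inv, hπ]
      omega
  have hkey : D f = π ^ (v.ord f) * (D u + ((v.ord f : ℤ) : F) * u * w) := by
    conv_lhs => rw [hfu]
    rw [der_mul_zpow D u π hπ0, hDπw]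
    have h2 : π ^ (v.ord f) = π ^ (v.ord f - 1) * π := by
      rw [← zpow_add_one₀ hπ0, sub_add_cancel]
    rw [h2]
    ring
  have hin : D u + ((v.ord f : ℤ) : F) * u * w ∈ v.toValuationSubring :=
    add_mem (mem_of_ord_nonneg v hDu) (mul_mem (mul_mem (intCast_mem v _)
      (mem_of_ord_nonneg v hordu.ge)) hw)
  have hne : D u + ((v.ord f : ℤ) : F) * u * w ≠ 0 := by
    intro h
    rw [h, mul_zero] at hkey
    exact h0 hkey
  have h5 := congrArg v.ord hkey
  rw [v.ord_mul (zpow_ne_zero _ hπ0) hne, v.ord_zpow, hπ] at h5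
  have := ord_nonneg_of_mem v hin
  omega

/-- `D`-stability can be checked on one uniformizer. -/
theorem dStable_of_uniformizer (hD : DIntegral D v) {π : F} (hπ : v.ord π = 1)
    (hDπ : D π = 0 ∨ 0 < v.ord (D π)) : DStable D v := by
  refine ⟨hD, fun f hf => ?_⟩
  by_cases h0 : D f = 0
  · exact Or.inl h0
  right
  have hπ0 : π ≠ 0 := ne_zero_of_ord_ne_zero v (by rw [hπ]; norm_num)
  have hf0 : f ≠ 0 := ne_zero_of_ord_ne_zero v hf.ne'
  set g := f * π⁻¹ with hg
  have hg0 : g ≠ 0 := mul_ne_zero hf0 (inv_ne_zero hπ0)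
  have hgord : 0 ≤ v.ord g := by
    rw [hg, v.ord_mul hf0 (inv_ne_zero hπ0), v.ord_inv, hπ]
    omega
  have hfg : f = π * g := by rw [hg]; field_simp
  have hkey : D f = π * D g + g * D π := by
    conv_lhs => rw [hfg]
    rw [Derivation.leibniz, smul_eq_mul, smul_eq_mul]
  have h1 : π * D g = 0 ∨ 1 ≤ v.ord (π * D g) := by
    by_cases hDg : D g = 0
    · left; rw [hDg, mul_zero]
    · right
      rw [v.ord_mul hπ0 hDg, hπ]
      have := hD g hgord
      omega
  have h2 : g * D π = 0 ∨ 1 ≤ v.ord (g * D π) := by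
    rcases hDπ with h | h
    · left; rw [h, mul_zero]
    · right
      have hDπ0 : D π ≠ 0 := ne_zero_of_ord_ne_zero v h.ne'
      rw [v.ord_mul hg0 hDπ0]
      omega
  have h3 := ord_add_of_le v h1 h2
  rw [← hkey] at h3
  rcases h3 with h3 | h3
  · exact absurd h3 h0
  · omega

/-- Characteristic `0`: a zero or pole of a `D`-constant function is a `D`-stable place. -/
theorem dStable_of_der_eq_zero [CharZero F] (hD : DIntegral D v) {f : F} (hDf : D f = 0)
    (hf : v.ord f ≠ 0) : DStable D v := by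
  obtain ⟨π, hπ⟩ := exists_ord_eq_one v
  have hπ0 : π ≠ 0 := ne_zero_of_ord_ne_zero v (by rw [hπ]; norm_num)
  have hf0 : f ≠ 0 := ne_zero_of_ord_ne_zero v hf
  refine dStable_of_uniformizer D v hD hπ ?_
  by_cases hDπ0 : D π = 0
  · exact Or.inl hDπ0
  right
  obtain ⟨u, hu0, hordu, hfu⟩ := exists_unit_mul_zpow' v hπ hf0
  have hDu : 0 ≤ v.ord (D u) := hD u hordu.ge
  have hkey : π ^ (v.ord f - 1) * (π * D u + ((v.ord f : ℤ) : F) * u * D π) = 0 := by
    rw [← der_mul_zpow D u π hπ0, ← hfu, hDf]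
  have hkey2 : ((v.ord f : ℤ) : F) * (u * D π) = -(π * D u) := by
    rcases mul_eq_zero.1 hkey with h | h
    · exact absurd h (zpow_ne_zero _ hπ0)
    · rw [eq_neg_iff_add_eq_zero, ← h]; ring
  have hDu0 : D u ≠ 0 := by
    intro h
    rw [h, mul_zero, neg_zero] at hkey2
    rcases mul_eq_zero.1 hkey2 with h' | h'
    · exact hf (by exact_mod_cast h')
    · rcases mul_eq_zero.1 h' with h'' | h''
      · exact hu0 h''
      · exact hDπ0 h''
  have h4 := congrArg v.ord hkey2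
  rw [ord_intCast_mul v _ hf (mul_ne_zero hu0 hDπ0), v.ord_mul hu0 hDπ0, hordu, zero_add,
    ord_neg, v.ord_mul hπ0 hDu0, hπ] at h4
  omega

/-- At a `D`-stable place the value of a `D`-constant function is a constant of the derivation
`∂` induced by `D` on `K`: if `D f = 0` and `f ≡ c` at `v`, then `∂ c = 0`. -/
theorem der_const_eq_zero_of_dStable (hD : DStable D v) (d : K → K)
    (hd : ∀ c : K, D (algebraMap K F c) = algebraMap K F (d c))
    {f : F} (hDf : D f = 0) {c : K}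
    (hc : f - algebraMap K F c = 0 ∨ 0 < v.ord (f - algebraMap K F c)) : d c = 0 := by
  by_contra hdc
  have h1 : D (f - algebraMap K F c) = -algebraMap K F (d c) := by
    rw [map_sub, hDf, hd, zero_sub]
  have h2 : v.ord (D (f - algebraMap K F c)) = 0 := by
    rw [h1, ord_neg, ord_algebraMap]
  have h3 : D (f - algebraMap K F c) ≠ 0 := by
    rw [h1, neg_ne_zero]
    exact fun h => hdc ((map_eq_zero _).1 h)
  rcases hc with hc | hc
  · rw [hc, map_zero] at h3
    exact h3 rfl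
  · rcases hD.2 _ hc with h | h
    · exact h3 h
    · omega

end LogDer

end Fermat.Agent.S17.H770

end
-- ===== PACK-END S17/H770/DerPlace.lean

-- ===== PACK-BEGIN S59/LoSqC/H193/LabelDef.lean
section


/-!
# S59 / cell (C) LO-SQ, leaf LAB (helper193), part 1: THE LABEL of a split function at a node

Vocabulary of the S36 LABEL core (`S36/H630/ValAt.lean`, on main): `R` the base ring (a DVR),
`F` the function field, `B ⊆ F` a chart, `n` a closed point of the special fibre of `B`,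
`V`, `V'` two sheets (valuation rings of the generic points of two components) through `n`.

* `IsPureAt B n m u d` : `d` is a **purity datum** of `u` at `n`: `u d ^ m ∈ (B_n)ˣ`
  (`u d ^ m s₀ = a₀`, `a₀, s₀ ∈ B ∖ n`).
* `IsLabelAt B n V V' m ζ u c` : **`c` is a label of `u` at `n` for the ordered pair `(V, V')`**:
  a purity datum `d` of `u` at `n` has the values `η` along `V` and `η'` along `V'`
  (`H630.ValAt`), `η` a unit at `n`, and `η' ≡ η ζ ^ c` modulo `n`.

  (If `u = g ^ m` with `g ≡ ζ ^ a` on `V` and `g ≡ ζ ^ a'` on `V'`, then `c = a - a'`: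
  `IsLabelAt.of_pow`.  In the notation of `H630.LabelAt` / `H193.BasePureValuesAt` with a
  colouring `κ`: `c = κ V - κ V'`.)

Proved here (Mathlib + `H630.ValAt` only):

* `IsLabelAt.congr`   : the label only matters modulo `m`;
* `IsLabelAt.unique`  : the label is unique modulo `m` (for a chart closed under `m`-th roots,
                        rational closed point, `ζ` of exact order `m` modulo `n`);
* `IsLabelAt.mul`, `IsLabelAt.one`, `IsLabelAt.inv` : additivity;
* `IsLabelAt.of_pow`  : `m`-th powers of functions with constant residues have the label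
                        `a - a'` (independent of the point);
* `IsLabelAt.symm`    : exchanging the two sheets changes the sign;
* `IsLabelAt.trans`   : three sheets through `n`: `c(V, V'') = c(V, V') + c(V', V'')`;
* `exists_isLabelAt`  : existence, from a purity datum, for `u ≡ 1` on `V` and on `V'`
                        (`H630.exists_valAt_of_pure`).
-/

set_option autoImplicit false
set_option linter.unusedSectionVars false
set_option linter.unusedVariables false
set_option linter.style.haveILetI false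

namespace Fermat.Agent.S59.LoSqC.H193

open Fermat.Agent.S36.H630

variable {R : Type*} [CommRing R] {F : Type*} [Field F] [Algebra R F]

/-- `d` is a purity datum of `u` at the closed point `n`, exponent `m`:
`u d ^ m s₀ = a₀` with `a₀, s₀ ∈ B ∖ n`. -/
def IsPureAt (B : Subalgebra R F) (n : Ideal B) (m : ℕ) (u d : F) : Prop :=
  d ≠ 0 ∧ ∃ a₀ s₀ : B, a₀ ∉ n ∧ s₀ ∉ n ∧ u * d ^ m * (s₀ : F) = a₀

/-- **`c` is a label of `u` at the closed point `n` for the ordered pair of sheets `(V, V')`.** -/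
def IsLabelAt (B : Subalgebra R F) (n : Ideal B) (V V' : ValuationSubring F) (m : ℕ) (ζ : R)
    (u : F) (c : ℕ) : Prop :=
  ∃ (d : F) (η η' : R), IsPureAt B n m u d ∧ algebraMap R B η ∉ n ∧
    ValAt B n V d η ∧ ValAt B n V' d η' ∧ algebraMap R B (η' - η * ζ ^ c) ∈ n

section Pure

variable {B : Subalgebra R F} {n : Ideal B}

theorem IsPureAt.ne_zero {m : ℕ} {u d : F} [n.IsPrime] (h : IsPureAt B n m u d) : u ≠ 0 := by
  obtain ⟨-, a₀, s₀, ha₀, -, hp⟩ := h
  rintro rfl
  apply ha₀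
  have : (a₀ : F) = 0 := by rw [← hp]; ring
  have h0 : a₀ = 0 := Subtype.ext this
  rw [h0]
  exact n.zero_mem

theorem IsPureAt.one (hn : n ≠ ⊤) (m : ℕ) : IsPureAt B n m (1 : F) (1 : F) := by
  refine ⟨one_ne_zero, 1, 1, ?_, ?_, ?_⟩
  · exact fun h => hn ((Ideal.eq_top_iff_one n).2 h)
  · exact fun h => hn ((Ideal.eq_top_iff_one n).2 h)
  · simp

theorem IsPureAt.mul [hn : n.IsPrime] {m : ℕ} {u u' d d' : F} (h : IsPureAt B n m u d)
    (h' : IsPureAt B n m u' d') : IsPureAt B n m (u * u') (d * d') := by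
  obtain ⟨hd, a₀, s₀, ha₀, hs₀, hp⟩ := h
  obtain ⟨hd', a₁, s₁, ha₁, hs₁, hp'⟩ := h'
  refine ⟨mul_ne_zero hd hd', a₀ * a₁, s₀ * s₁, ?_, ?_, ?_⟩
  · intro hmem
    rcases hn.mem_or_mem hmem with h1 | h1
    · exact ha₀ h1
    · exact ha₁ h1
  · intro hmem
    rcases hn.mem_or_mem hmem with h1 | h1
    · exact hs₀ h1
    · exact hs₁ h1
  · push_cast
    rw [← hp, ← hp']
    ring

theorem IsPureAt.inv [hn : n.IsPrime] {m : ℕ} {u d : F} (h : IsPureAt B n m u d) :
    IsPureAt B n m u⁻¹ d⁻¹ := by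
  have hu0 : u ≠ 0 := h.ne_zero
  obtain ⟨hd, a₀, s₀, ha₀, hs₀, hp⟩ := h
  refine ⟨inv_ne_zero hd, s₀, a₀, hs₀, ha₀, ?_⟩
  rw [← hp, inv_pow]
  have hdm : d ^ m ≠ 0 := pow_ne_zero _ hd
  field_simp

/-- A global `m`-th power `g ^ m` has the purity datum `g⁻¹`. -/
theorem IsPureAt.of_pow (hn : n ≠ ⊤) (m : ℕ) {g : F} (hg : g ≠ 0) :
    IsPureAt B n m (g ^ m) g⁻¹ := by
  refine ⟨inv_ne_zero hg, 1, 1, ?_, ?_, ?_⟩
  · exact fun h => hn ((Ideal.eq_top_iff_one n).2 h)
  · exact fun h => hn ((Ideal.eq_top_iff_one n).2 h)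
  · rw [inv_pow]
    have : g ^ m ≠ 0 := pow_ne_zero _ hg
    simp only [OneMemClass.coe_one, mul_one]
    field_simp

end Pure

section Quot

variable {B : Subalgebra R F} {n : Ideal B}

/-- membership of a difference of constants, in the quotient -/
theorem mk_eq_of_sub_mem {a b : R} (h : algebraMap R B (a - b) ∈ n) :
    Ideal.Quotient.mk n (algebraMap R B a) = Ideal.Quotient.mk n (algebraMap R B b) := by
  rw [Ideal.Quotient.eq, ← map_sub]
  exact h

theorem sub_mem_of_mk_eq {a b : R}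
    (h : Ideal.Quotient.mk n (algebraMap R B a) = Ideal.Quotient.mk n (algebraMap R B b)) :
    algebraMap R B (a - b) ∈ n := by
  rw [map_sub, ← Ideal.Quotient.eq]
  exact h

theorem mk_ne_zero_of_not_mem {a : R} (h : algebraMap R B a ∉ n) :
    Ideal.Quotient.mk n (algebraMap R B a) ≠ 0 := fun h0 =>
  h (Ideal.Quotient.eq_zero_iff_mem.1 h0)

end Quot

section Label

variable {B : Subalgebra R F} {n : Ideal B} {V V' V'' : ValuationSubring F}

/-- The residue of a constant at `n`. -/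
noncomputable abbrev resAt (n : Ideal B) (a : R) : B ⧸ n :=
  Ideal.Quotient.mk n (algebraMap R B a)

theorem resAt_mul (a b : R) : resAt n (a * b) = resAt n a * resAt n b := by
  simp only [resAt, map_mul]

theorem resAt_pow (a : R) (k : ℕ) : resAt n (a ^ k) = resAt n a ^ k := by
  simp only [resAt, map_pow]

theorem resAt_one : resAt n (1 : R) = 1 := by
  simp only [resAt, map_one]

/-- The label only matters modulo `m`. -/
theorem IsLabelAt.congr {m : ℕ} {ζ : R} (hζ : ζ ^ m = 1) {u : F} {c c' : ℕ}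
    (h : IsLabelAt B n V V' m ζ u c) (hcc : c ≡ c' [MOD m]) :
    IsLabelAt B n V V' m ζ u c' := by
  obtain ⟨d, η, η', hp, hη, hv, hv', hl⟩ := h
  refine ⟨d, η, η', hp, hη, hv, hv', ?_⟩
  have : ζ ^ c = ζ ^ c' := by
    rw [← Nat.mod_add_div c m, ← Nat.mod_add_div c' m, pow_add, pow_add, pow_mul, pow_mul, hζ,
      one_pow, one_pow, mul_one, mul_one]
    exact congrArg (ζ ^ ·) hcc
  rw [← this]
  exact hl

/-- **Additivity of the label.** -/
theorem IsLabelAt.mul [hn : n.IsPrime] (hBV : ChartLe B V) (hth : PassThrough B n V)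
    (hBV' : ChartLe B V') (hth' : PassThrough B n V') {m : ℕ} {ζ : R} {u u' : F} {c c' : ℕ}
    (h : IsLabelAt B n V V' m ζ u c) (h' : IsLabelAt B n V V' m ζ u' c') :
    IsLabelAt B n V V' m ζ (u * u') (c + c') := by
  obtain ⟨d, η, η', hp, hη, hv, hv', hl⟩ := h
  obtain ⟨d₁, η₁, η₁', hp₁, hη₁, hv₁, hv₁', hl₁⟩ := h'
  refine ⟨d * d₁, η * η₁, η' * η₁', hp.mul hp₁, ?_, hv.mul hBV hth hv₁, hv'.mul hBV' hth' hv₁', ?_⟩
  · rw [map_mul]
    intro hmem
    rcases hn.mem_or_mem hmem with h1 | h1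
    · exact hη h1
    · exact hη₁ h1
  · have : η' * η₁' - η * η₁ * ζ ^ (c + c')
        = (η' - η * ζ ^ c) * η₁' + η * ζ ^ c * (η₁' - η₁ * ζ ^ c') := by
      rw [pow_add]
      ring
    rw [this, map_add, map_mul, map_mul]
    exact n.add_mem (n.mul_mem_right _ hl) (n.mul_mem_left _ hl₁)

/-- The function `1` has the label `0`. -/
theorem IsLabelAt.one (hn : n ≠ ⊤) (m : ℕ) (ζ : R) : IsLabelAt B n V V' m ζ (1 : F) 0 := by
  refine ⟨1, 1, 1, IsPureAt.one hn m, ?_, ValAt.one hn, ValAt.one hn, ?_⟩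
  · rw [map_one]
    exact fun h => hn ((Ideal.eq_top_iff_one n).2 h)
  · simp

/-- `ζ ^ j` only depends on `j` modulo `m`. -/
theorem zeta_pow_congr {ζ : R} {m : ℕ} (hζ : ζ ^ m = 1) {j k : ℕ} (hjk : j ≡ k [MOD m]) :
    ζ ^ j = ζ ^ k := by
  rw [← Nat.mod_add_div j m, ← Nat.mod_add_div k m, pow_add, pow_add, pow_mul, pow_mul,
    hζ, one_pow, one_pow, mul_one, mul_one]
  exact congrArg (ζ ^ ·) hjk

theorem zeta_pow_mul_inv' {ζ : R} {m : ℕ} (hm : 0 < m) (hζ : ζ ^ m = 1) (k : ℕ) :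
    ζ ^ k * ζ ^ ((m - 1) * k) = 1 := by
  rw [← pow_add]
  have : k + (m - 1) * k = m * k := by
    calc k + (m - 1) * k = (m - 1 + 1) * k := by ring
      _ = m * k := by rw [Nat.sub_add_cancel hm]
  rw [this, pow_mul, hζ, one_pow]

/-- **`m`-th powers**: if `g ≡ ζ ^ a` on `V` and `g ≡ ζ ^ a'` on `V'`, then `g ^ m` has the label
`c` for every `c` with `c + a' ≡ a` modulo `m`. -/
theorem IsLabelAt.of_pow [hn : n.IsPrime] (hBV : ChartLe B V) (hth : PassThrough B n V)
    (hBV' : ChartLe B V') (hth' : PassThrough B n V') {m : ℕ} (hm : 0 < m) {ζ : R}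
    (hζ : ζ ^ m = 1) {g : F} (hg : g ≠ 0) {a a' c : ℕ}
    (ha : g - algebraMap R F (ζ ^ a) ∈ V.nonunits)
    (ha' : g - algebraMap R F (ζ ^ a') ∈ V'.nonunits) (hc : c + a' ≡ a [MOD m]) :
    IsLabelAt B n V V' m ζ (g ^ m) c := by
  have hne : n ≠ ⊤ := hn.ne_top
  have hinv : ∀ k : ℕ, algebraMap R B (ζ ^ k * ζ ^ ((m - 1) * k) - 1) ∈ n := by
    intro k
    rw [zeta_pow_mul_inv' hm hζ k, sub_self, map_zero]
    exact n.zero_mem
  have hv : ValAt B n V g⁻¹ (ζ ^ ((m - 1) * a)) :=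
    (ValAt.const (B := B) (n := n) hne ha).inv hBV hth (hinv a)
  have hv' : ValAt B n V' g⁻¹ (ζ ^ ((m - 1) * a')) :=
    (ValAt.const (B := B) (n := n) hne ha').inv hBV' hth' (hinv a')
  refine ⟨g⁻¹, ζ ^ ((m - 1) * a), ζ ^ ((m - 1) * a'), IsPureAt.of_pow hne m hg, ?_, hv, hv', ?_⟩
  · intro hmem
    apply hne
    rw [Ideal.eq_top_iff_one]
    have h1 : algebraMap R B (ζ ^ a) * algebraMap R B (ζ ^ ((m - 1) * a)) ∈ n :=
      n.mul_mem_left _ hmem
    rw [← map_mul, zeta_pow_mul_inv' hm hζ a, map_one] at h1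
    exact h1
  · -- `ζ ^ ((m-1) a') = ζ ^ ((m-1) a) ζ ^ c`  since  `c + a' ≡ a`
    have hkey : ζ ^ ((m - 1) * a') - ζ ^ ((m - 1) * a) * ζ ^ c = 0 := by
      rw [sub_eq_zero, ← pow_add]
      apply zeta_pow_congr hζ
      have h1 : (m - 1) * a' + (a + a') ≡ (m - 1) * a + c + (a + a') [MOD m] := by
        have e1 : (m - 1) * a' + (a + a') = m * a' + a := by
          calc (m - 1) * a' + (a + a') = (m - 1 + 1) * a' + a := by ring
            _ = m * a' + a := by rw [Nat.sub_add_cancel hm]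
        have e2 : (m - 1) * a + c + (a + a') = m * a + (c + a') := by
          calc (m - 1) * a + c + (a + a') = (m - 1 + 1) * a + (c + a') := by ring
            _ = m * a + (c + a') := by rw [Nat.sub_add_cancel hm]
        rw [e1, e2]
        have h2 : m * a' + a ≡ a [MOD m] := by
          have := (Nat.modEq_zero_iff_dvd.2 (dvd_mul_right m a')).add_right a
          simp only [zero_add] at this
          exact this
        have h3 : m * a + (c + a') ≡ c + a' [MOD m] := by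
          have := (Nat.modEq_zero_iff_dvd.2 (dvd_mul_right m a)).add_right (c + a')
          simp only [zero_add] at this
          exact this
        exact h2.trans (hc.symm.trans h3.symm)
      exact Nat.ModEq.add_right_cancel' (a + a') h1
    rw [hkey, map_zero]
    exact n.zero_mem

/-- **Exchanging the two sheets** changes the sign of the label. -/
theorem IsLabelAt.symm [hn : n.IsMaximal] {m : ℕ} {ζ : R} (hζ : ζ ^ m = 1) {u : F} {c c' : ℕ}
    (h : IsLabelAt B n V V' m ζ u c) (hcc : c + c' ≡ 0 [MOD m]) :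
    IsLabelAt B n V' V m ζ u c' := by
  have hnp : n.IsPrime := hn.isPrime
  obtain ⟨d, η, η', hp, hη, hv, hv', hl⟩ := h
  have hζcc : ζ ^ (c + c') = 1 := by
    obtain ⟨k, hk⟩ := (Nat.modEq_zero_iff_dvd.1 hcc)
    rw [hk, pow_mul, hζ, one_pow]
  have hζu : algebraMap R B (ζ ^ c) ∉ n := by
    intro hmem
    apply hnp.ne_top
    rw [Ideal.eq_top_iff_one]
    have : (1 : B) = algebraMap R B (ζ ^ c) * algebraMap R B (ζ ^ c') := by
      rw [← map_mul, ← pow_add, hζcc, map_one]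
    rw [this]
    exact n.mul_mem_right _ hmem
  refine ⟨d, η', η, hp, ?_, hv', hv, ?_⟩
  · intro hmem
    -- `η ζ^c = η' - (η' - η ζ^c) ∈ n`
    have h1 : algebraMap R B (η * ζ ^ c) ∈ n := by
      have : algebraMap R B (η * ζ ^ c) = algebraMap R B η' - algebraMap R B (η' - η * ζ ^ c) := by
        rw [map_sub]
        ring
      rw [this]
      exact n.sub_mem hmem hl
    rw [map_mul] at h1
    rcases hnp.mem_or_mem h1 with h2 | h2
    · exact hη h2
    · exact hζu h2
  · have : η - η' * ζ ^ c' = -((η' - η * ζ ^ c) * ζ ^ c') - η * (ζ ^ (c + c') - 1) := by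
      rw [pow_add]
      ring
    rw [this, hζcc, sub_self, mul_zero, sub_zero, map_neg, map_mul]
    exact n.neg_mem (n.mul_mem_right _ hl)

end Label

end Fermat.Agent.S59.LoSqC.H193

end
-- ===== PACK-END S59/LoSqC/H193/LabelDef.lean

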