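import Mathlib
import Fermat.Prelude.Def_GaloisRep_Flat
import Fermat.Agent.Pack.S59C.E1L3
import Fermat.Agent.Pack.S59C.E0L3
import Fermat.Agent.Pack.S43GC.G0E0L0
import Fermat.Agent.Pack.S43MC.G0E10L2
import Fermat.Agent.Pack.S43MC.G0E10L3
import Fermat.Agent.Pack.S44C.G0E10L0
import Fermat.Agent.Pack.S59C.E0L2
import Fermat.Agent.Pack.S43GC.G0E6L3
import Fermat.Agent.Pack.S43MC.G0E7L1
import Fermat.Agent.Pack.S44C.G0E1L3
import Fermat.Agent.Pack.S43MC.G0E4L0
import Fermat.Agent.Pack.S59C.E1L2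
import Fermat.Agent.Pack.S44C.G0E7L1
import Fermat.Agent.Pack.S59C.E1L1

set_option linter.all false

-- ===== PACK-BEGIN S59/H427/TatePS.lean
section




/-!
# S59 / N1 (helper427): Tate's formula, preliminaries

* `exists_sum_mul_X_of_constantCoeff_eq_zero`: a power series (finitely many variables) with
  zero constant term is a combination of the variables.
* `aug_eq_constantCoeff`: an augmentation `χ : O⟦X⟧ → O` killing the variables is the constant
  coefficient.
* `exists_pow_mem_span_uniformizer`: in a finite local algebra `T` over a DVR `O` with finite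
  residue field, a power of the maximal ideal lies in `ϖ T`.
-/

set_option autoImplicit false
set_option linter.unusedSectionVars false

namespace Fermat.Agent.S59.H427

open IsLocalRing MvPowerSeries

section PS

variable {A : Type*} [CommRing A] {n : ℕ}

/-- A power series with zero constant term is a combination of the variables. -/
theorem exists_sum_mul_X_of_constantCoeff_eq_zero (g : MvPowerSeries (Fin n) A)
    (hg : constantCoeff g = 0) :
    ∃ h : Fin n → MvPowerSeries (Fin n) A, g = ∑ j, h j * X j := by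
  have h1 := Fermat.Agent.S53.H596.sub_truncTotal_mem_span_X_pow 1 g
  have h2 : ((truncTotal 1 g : MvPolynomial (Fin n) A) : MvPowerSeries (Fin n) A) = 0 := by
    ext e
    rw [MvPolynomial.coeff_coe, coeff_truncTotal_eq_ite, map_zero]
    split_ifs with he
    · have he0 : e = 0 := (Finsupp.degree_eq_zero_iff e).mp (by omega)
      subst he0
      rw [coeff_zero_eq_constantCoeff_apply, hg]
    · rfl
  rw [h2, sub_zero, pow_one] at h1
  obtain ⟨c, hc⟩ := (Ideal.mem_span_range_iff_exists_fun).mp h1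
  exact ⟨c, hc.symm⟩

/-- Every power series is its constant term plus a combination of the variables. -/
theorem exists_eq_C_add_sum_mul_X (g : MvPowerSeries (Fin n) A) :
    ∃ h : Fin n → MvPowerSeries (Fin n) A, g = C (constantCoeff g) + ∑ j, h j * X j := by
  obtain ⟨h, hh⟩ := exists_sum_mul_X_of_constantCoeff_eq_zero (g - C (constantCoeff g))
    (by rw [map_sub, constantCoeff_C, sub_self])
  exact ⟨h, by rw [← hh]; ring⟩

end PS

section Aug

variable {O : Type*} [CommRing O] {T : Type*} [CommRing T] [Algebra O T] {n : ℕ}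

/-- If `π ∘ ψ` kills the variables, it is the constant coefficient. -/
theorem aug_eq_constantCoeff (π : T →ₐ[O] O) (ψ : MvPowerSeries (Fin n) O →ₐ[O] T)
    (hcent : ∀ i, π (ψ (X i)) = 0) (g : MvPowerSeries (Fin n) O) :
    π (ψ g) = constantCoeff g := by
  obtain ⟨h, hh⟩ := exists_eq_C_add_sum_mul_X g
  conv_lhs => rw [hh]
  rw [map_add, map_add, map_sum, map_sum]
  have h1 : ∀ j, π (ψ (h j * X j)) = 0 := fun j => by
    rw [map_mul, map_mul, hcent j, mul_zero]
  rw [Finset.sum_eq_zero (fun j _ => h1 j), add_zero]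
  have h2 : (C (constantCoeff g) : MvPowerSeries (Fin n) O) =
      algebraMap O (MvPowerSeries (Fin n) O) (constantCoeff g) := rfl
  rw [h2, AlgHom.commutes, AlgHom.commutes]
  rfl

/-- The kernel of a centered augmentation is generated by the images of the variables. -/
theorem ker_aug_eq_span (π : T →ₐ[O] O) (ψ : MvPowerSeries (Fin n) O →ₐ[O] T)
    (hψ : Function.Surjective ψ) (hcent : ∀ i, π (ψ (X i)) = 0) :
    RingHom.ker π = Ideal.span (Set.range fun i => ψ (X i)) := by
  apply le_antisymm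
  · intro t ht
    obtain ⟨g, rfl⟩ := hψ t
    have h0 : constantCoeff g = 0 := by
      rw [← aug_eq_constantCoeff π ψ hcent g]; exact ht
    obtain ⟨h, hh⟩ := exists_sum_mul_X_of_constantCoeff_eq_zero g h0
    rw [hh, map_sum]
    refine Ideal.sum_mem _ fun j _ => ?_
    rw [map_mul]
    exact Ideal.mul_mem_left _ _ (Ideal.subset_span ⟨j, rfl⟩)
  · rw [Ideal.span_le]
    rintro _ ⟨i, rfl⟩
    exact hcent i

end Aug

end Fermat.Agent.S59.H427

end
-- ===== PACK-END S59/H427/TatePS.lean

-- ===== PACK-BEGIN S41/H874/PDManinRep.lean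
section



/-!
# Row S41, block PD, leaf DICT-a (D1) (helper874)

`maninRepExists_h874 : Spec.ManinRepExistsStatement`: every torsion-trivial homomorphism
`φ : Γ → A` (`Γ ≤ SL(2,ℤ)`, `-1 ∈ Γ`, `A` ANY abelian group) has a Manin representative.

Proof: the induced cocycle `f₀ = indc Γ φ` (Shapiro) restricts to `φ` at the base point.  A cocycle
`f` with `f (g ^ k) x = 0` whenever `g ^ k • x = x` is a `g`-coboundary `n|g - n`
(`exists_cobd_of_fix_h874`, no finiteness, no division).  Apply this to `g = S` (normalise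
`f₁ = f₀ - ∂n`, `f₁ S = 0`) and then to `g = S T` (`f₁ (S T) = m|ST - m`).
-/

set_option autoImplicit false
set_option linter.style.haveILetI false

namespace Fermat.Agent.S41.H874

open CongruenceSubgroup Matrix.SpecialLinearGroup ModularGroup
open Fermat.Agent.S21.H585
open scoped MatrixGroups

universe u

/-- **General coboundary lemma** (any abelian coefficient group): a cocycle which vanishes at
`(g ^ k, x)` whenever `g ^ k` fixes `x` is a `g`-coboundary. -/
theorem exists_cobd_of_fix_h874 {G : Type*} [Group G] {X : Type*} [MulAction G X] {A : Type*}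
    [AddCommGroup A] {f : G → X → A} (hf : IsCocycle f) (g : G)
    (hfix : ∀ (k : ℤ) (x : X), g ^ k • x = x → f (g ^ k) x = 0) :
    ∃ n : X → A, ∀ x, f g x = n (g • x) - n x := by
  classical
  let r : X → X := fun x => Quotient.out (orbMk g x)
  have hr : ∀ x, ∃ k : ℤ, g ^ k • r x = x := fun x => by
    have h1 : orbMk g (r x) = orbMk g x := Quotient.out_eq' _
    exact (orbMk_eq_iff g x (r x)).mp h1.symm
  choose k hk using hr
  have hrg : ∀ x, r (g • x) = r x := fun x => by
    show Quotient.out (orbMk g (g • x)) = Quotient.out (orbMk g x)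
    rw [orbMk_smul]
  have hwd : ∀ (y : X) (a b : ℤ), g ^ a • y = g ^ b • y → f (g ^ a) y = f (g ^ b) y := by
    intro y a b hab
    have h1 : g ^ a = g ^ (a - b) * g ^ b := by rw [← zpow_add, sub_add_cancel]
    have h2 : g ^ (a - b) • g ^ b • y = g ^ b • y := by
      rw [← mul_smul, ← zpow_add, sub_add_cancel, hab]
    rw [h1, hf, hfix (a - b) (g ^ b • y) h2, add_zero]
  refine ⟨fun x => f (g ^ k x) (r x), fun x => ?_⟩
  show f g x = f (g ^ k (g • x)) (r (g • x)) - f (g ^ k x) (r x)
  rw [hrg]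
  have h2 : f (g ^ k (g • x)) (r x) = f (g ^ (1 + k x)) (r x) := by
    apply hwd
    have h3 := hk (g • x)
    rw [hrg] at h3
    rw [h3, zpow_one_add, mul_smul, hk]
  rw [h2, zpow_one_add, hf, hk]
  abel

section Indc

variable (Γ : Subgroup SL(2, ℤ)) {A : Type*} [AddCommGroup A]

/-- The induced cocycle is a cocycle. -/
theorem indc_isCocycle_h874 (φ : Additive Γ →+ A) : IsCocycle (indc Γ φ) := by
  intro g h x
  unfold indc
  rw [add_comm, ← map_add, ← ofMul_mul]
  refine congrArg φ (congrArg Additive.ofMul (Subtype.ext ?_))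
  rw [Subgroup.coe_mul]
  simp only [mul_smul]
  group

/-- `Quotient.out` of the base point lies in `Γ`. -/
theorem out_basePt_mem_h874 : (Quotient.out (basePt Γ) : SL(2, ℤ)) ∈ Γ := by
  have h : ((1 : SL(2, ℤ)) : SL(2, ℤ) ⧸ Γ)
      = ((Quotient.out (basePt Γ) : SL(2, ℤ)) : SL(2, ℤ) ⧸ Γ) := (QuotientGroup.out_eq' _).symm
  have h2 := QuotientGroup.eq.mp h
  rwa [inv_one, one_mul] at h2

/-- The induced cocycle restricts to `φ` at the base point. -/
theorem indc_basePt_h874 (φ : Additive Γ →+ A) (γ : Γ) :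
    indc Γ φ (γ : SL(2, ℤ)) (basePt Γ) = φ (Additive.ofMul γ) := by
  unfold indc
  have hb := out_basePt_mem_h874 Γ
  have h1 : (⟨(Quotient.out ((γ : SL(2, ℤ)) • basePt Γ) : SL(2, ℤ))⁻¹ * (γ : SL(2, ℤ))
      * Quotient.out (basePt Γ), sec_mem Γ (γ : SL(2, ℤ)) (basePt Γ)⟩ : Γ)
      = (⟨Quotient.out (basePt Γ), hb⟩ : Γ)⁻¹ * γ * ⟨Quotient.out (basePt Γ), hb⟩ := by
    apply Subtype.ext
    simp only [Subgroup.coe_mul, Subgroup.coe_inv, smul_basePt_of_mem Γ γ.2]
  rw [h1, ofMul_mul, ofMul_mul, ofMul_inv, map_add, map_add, map_neg]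
  abel

/-- The induced cocycle of a torsion-trivial class vanishes at `(t, x)` when `t` is of finite order
and fixes `x`. -/
theorem indc_eq_zero_of_fix_h874 (φ : Additive Γ →+ A)
    (hφ : ∀ γ : Γ, IsOfFinOrder γ → φ (Additive.ofMul γ) = 0) (t : SL(2, ℤ))
    (ht : IsOfFinOrder t) (x : SL(2, ℤ) ⧸ Γ) (hx : t • x = x) : indc Γ φ t x = 0 := by
  unfold indc
  apply hφ
  rw [← Submonoid.isOfFinOrder_coe]
  show IsOfFinOrder ((Quotient.out (t • x) : SL(2, ℤ))⁻¹ * t * Quotient.out x)
  rw [hx]
  have h1 : (Quotient.out x : SL(2, ℤ))⁻¹ * t * Quotient.out x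
      = (MulAut.conj (Quotient.out x : SL(2, ℤ))⁻¹).toMonoidHom t := by
    simp
  rw [h1]
  exact MonoidHom.isOfFinOrder _ ht

end Indc

theorem isOfFinOrder_S_h874 : IsOfFinOrder (S : SL(2, ℤ)) := by
  rw [isOfFinOrder_iff_pow_eq_one]
  refine ⟨4, by norm_num, ?_⟩
  have h2 : (S : SL(2, ℤ)) ^ 2 = -1 := by rw [pow_two, S_mul_S_eq_neg_one]
  calc (S : SL(2, ℤ)) ^ 4 = (S ^ 2) ^ 2 := by rw [← pow_mul]
    _ = 1 := by rw [h2]; simp

theorem isOfFinOrder_ST_h874 : IsOfFinOrder (S * T : SL(2, ℤ)) := by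
  rw [isOfFinOrder_iff_pow_eq_one]
  refine ⟨6, by norm_num, ?_⟩
  have h3 : (S * T : SL(2, ℤ)) ^ 3 = -1 := by rw [pow_succ, pow_two, ST_cube_eq_neg_one]
  calc (S * T : SL(2, ℤ)) ^ 6 = ((S * T) ^ 3) ^ 2 := by rw [← pow_mul]
    _ = 1 := by rw [h3]; simp

/-- **(D1)** every torsion-trivial class has a Manin representative. -/
theorem maninRepExists_h874 : Spec.ManinRepExistsStatement.{u} := by
  intro Γ _ _ A _ φ hφ
  have hf₀ : IsCocycle (indc Γ φ) := indc_isCocycle_h874 Γ φ
  -- normalise at `S`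
  obtain ⟨n, hn⟩ := exists_cobd_of_fix_h874 hf₀ S fun k x hx =>
    indc_eq_zero_of_fix_h874 Γ φ hφ _ isOfFinOrder_S_h874.zpow x hx
  let f₁ : SL(2, ℤ) → SL(2, ℤ) ⧸ Γ → A := fun g x => indc Γ φ g x - (n (g • x) - n x)
  have hf₁ : IsCocycle f₁ := by
    intro g h x
    show indc Γ φ (g * h) x - (n ((g * h) • x) - n x) =
      (indc Γ φ h x - (n (h • x) - n x)) + (indc Γ φ g (h • x) - (n (g • h • x) - n (h • x)))
    rw [hf₀, mul_smul]
    abel
  have hf₁fix : ∀ (t : SL(2, ℤ)), IsOfFinOrder t → ∀ x : SL(2, ℤ) ⧸ Γ, t • x = x →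
      f₁ t x = 0 := by
    intro t ht x hx
    show indc Γ φ t x - (n (t • x) - n x) = 0
    rw [indc_eq_zero_of_fix_h874 Γ φ hφ t ht x hx, hx]
    abel
  obtain ⟨m, hm⟩ := exists_cobd_of_fix_h874 hf₁ (S * T) fun k x hx =>
    hf₁fix _ isOfFinOrder_ST_h874.zpow x hx
  refine ⟨m, f₁, ⟨hf₁, fun x => ?_, hm⟩, fun γ => ?_⟩
  · show indc Γ φ S x - (n (S • x) - n x) = 0
    rw [hn]
    abel
  · show φ (Additive.ofMul γ) = indc Γ φ (γ : SL(2, ℤ)) (basePt Γ)
      - (n ((γ : SL(2, ℤ)) • basePt Γ) - n (basePt Γ))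
    rw [indc_basePt_h874, smul_basePt_of_mem Γ γ.2]
    abel

end Fermat.Agent.S41.H874

end
-- ===== PACK-END S41/H874/PDManinRep.lean

-- ===== PACK-BEGIN S59/H127/BridgeGen.lean
section



/-!
# E-side foundation, part 6': the level bridge for a general modulus `m = p^n`

Same as `Bridge.lean`, but for `A[m] = torsionBy ℤ A m` over `ZMod m` where `m = p ^ n` is only
PROPOSITIONALLY a power of `p` (e.g. `m = p`, `n = 1`, as in the Prelude's residual
representation), and with an arbitrary ring homomorphism `π : ℤ_[p] →+* ZMod m`.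

* `cb.levelBasisOf hm` : the basis `(B n i)_i` of `A[m]` over `ZMod m`;
* `toMatrix_levelOf`, `charpoly_levelOf`, `det_levelOf`, `trace_levelOf`.
-/

open PadicInt Polynomial

namespace Fermat.Agent.S59.H127

variable {A : Type*} [AddCommGroup A] {p h : ℕ} [hp : Fact p.Prime]

/-- any ring homomorphism `ℤ_[p] → ZMod (p^n)` is computed by integer approximations -/
lemma ringHom_eq_intCast_of_toZModPow {m n : ℕ} (hm : m = p ^ n) (π : ℤ_[p] →+* ZMod m)
    (z : ℤ_[p]) (c : ℤ) (hc : ((c : ℤ) : ZMod (p ^ n)) = toZModPow n z) :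
    π z = ((c : ℤ) : ZMod m) := by
  rw [intCast_eq_toZModPow_iff] at hc
  obtain ⟨w, hw⟩ := Ideal.mem_span_singleton.mp hc
  have hz : z = (c : ℤ_[p]) + (p : ℤ_[p]) ^ n * w := by rw [← hw]; ring
  have hpm : ((p : ZMod m)) ^ n = 0 := by
    rw [← Nat.cast_pow, ← hm]
    exact ZMod.natCast_self m
  rw [hz, map_add, map_mul, map_pow, map_natCast, map_intCast, hpm, zero_mul, add_zero]

namespace CompatBasis

variable (cb : CompatBasis A p h)

section level

variable {m n : ℕ} (hm : m = p ^ n)

include hm in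
omit hp in
lemma B_memOf (i : Fin h) : cb.B n i ∈ Submodule.torsionBy ℤ A ((m : ℕ) : ℤ) := by
  rw [Submodule.mem_torsionBy_iff, natCast_zsmul, hm]
  exact cb.pow_smul_self n i

/-- the basis vectors, as elements of `A[m]` -/
def levelVecOf (i : Fin h) : Submodule.torsionBy ℤ A ((m : ℕ) : ℤ) :=
  ⟨cb.B n i, cb.B_memOf hm i⟩

omit hp in
lemma coe_sum_zsmul_levelVecOf (c : Fin h → ℤ) :
    ((∑ i, c i • cb.levelVecOf hm i : Submodule.torsionBy ℤ A ((m : ℕ) : ℤ)) : A)
      = ∑ i, c i • cb.B n i := by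
  rw [Submodule.coe_sum]
  refine Finset.sum_congr rfl fun j _ => ?_
  rw [Submodule.coe_smul_of_tower]
  rfl

variable [Module (ZMod m) (Submodule.torsionBy ℤ A ((m : ℕ) : ℤ))]

omit hp in
lemma sum_smul_levelVecOf_eq (g : Fin h → ZMod m) (c : Fin h → ℤ)
    (hc : ∀ i, ((c i : ℤ) : ZMod m) = g i) :
    ∑ i, g i • cb.levelVecOf hm i = ∑ i, c i • cb.levelVecOf hm i := by
  refine Finset.sum_congr rfl fun j _ => ?_
  rw [← hc j, Int.cast_smul_eq_zsmul]

omit hp in
lemma linearIndependent_levelVecOf :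
    LinearIndependent (ZMod m) (cb.levelVecOf hm) := by
  rw [Fintype.linearIndependent_iff]
  intro g hg i
  have hc : ∀ i, (((g i).cast : ℤ) : ZMod m) = g i := fun i => ZMod.intCast_zmod_cast _
  rw [cb.sum_smul_levelVecOf_eq hm g (fun i => ((g i).cast : ℤ)) hc] at hg
  have h1 := congrArg (Subtype.val) hg
  rw [cb.coe_sum_zsmul_levelVecOf, Submodule.coe_zero] at h1
  have h2 := cb.indep n _ h1 i
  have hmz : ((m : ℕ) : ℤ) = (p : ℤ) ^ n := by rw [hm, Nat.cast_pow]
  rw [← hc i, ZMod.intCast_zmod_eq_zero_iff_dvd, hmz]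
  exact h2

omit hp in
lemma span_levelVecOf :
    ⊤ ≤ Submodule.span (ZMod m) (Set.range (cb.levelVecOf hm)) := by
  intro x _
  have hmn : ∀ y : A, p ^ n • y = m • y := fun y => by rw [hm]
  have hx : p ^ n • (x : A) = 0 := by
    have := x.2
    rw [Submodule.mem_torsionBy_iff, natCast_zsmul] at this
    rw [hmn]
    exact this
  obtain ⟨c, hc⟩ := cb.span n x hx
  have hx' : x = ∑ i, ((c i : ℤ) : ZMod m) • cb.levelVecOf hm i := by
    rw [cb.sum_smul_levelVecOf_eq hm _ c (fun _ => rfl)]
    apply Subtype.ext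
    rw [cb.coe_sum_zsmul_levelVecOf, hc]
  rw [hx']
  exact Submodule.sum_mem _ fun i _ =>
    Submodule.smul_mem _ _ (Submodule.subset_span (Set.mem_range_self i))

/-- **the basis `(B n i)_i` of `A[m]` over `ZMod m`, `m = p^n`** -/
noncomputable def levelBasisOf :
    Module.Basis (Fin h) (ZMod m) (Submodule.torsionBy ℤ A ((m : ℕ) : ℤ)) :=
  Module.Basis.mk (cb.linearIndependent_levelVecOf hm) (cb.span_levelVecOf hm)

omit hp in
@[simp] lemma levelBasisOf_apply (i : Fin h) : cb.levelBasisOf hm i = cb.levelVecOf hm i := by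
  rw [levelBasisOf, Module.Basis.mk_apply]

omit hp in
lemma coe_levelBasisOf (i : Fin h) :
    ((cb.levelBasisOf hm i : Submodule.torsionBy ℤ A ((m : ℕ) : ℤ)) : A) = cb.B n i := by
  rw [levelBasisOf_apply]
  rfl

omit hp in
/-- coordinates in the level basis -/
lemma levelBasisOf_repr_eq (x : Submodule.torsionBy ℤ A ((m : ℕ) : ℤ)) (c : Fin h → ℤ)
    (hc : (x : A) = ∑ i, c i • cb.B n i) (i : Fin h) :
    (cb.levelBasisOf hm).repr x i = ((c i : ℤ) : ZMod m) := by
  have hx : x = ∑ i, ((c i : ℤ) : ZMod m) • cb.levelBasisOf hm i := by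
    simp only [levelBasisOf_apply]
    rw [cb.sum_smul_levelVecOf_eq hm _ c (fun _ => rfl)]
    apply Subtype.ext
    rw [cb.coe_sum_zsmul_levelVecOf, hc]
  conv_lhs => rw [hx]
  rw [map_sum, Finset.sum_apply']
  simp only [map_smul, Module.Basis.repr_self, Finsupp.smul_apply, smul_eq_mul]
  rw [Finset.sum_eq_single i]
  · rw [Finsupp.single_eq_same, mul_one]
  · intro j _ hji
    rw [Finsupp.single_eq_of_ne hji.symm, mul_zero]
  · intro hi
    exact absurd (Finset.mem_univ i) hi

/-- the image of a level basis vector, in coordinates -/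
theorem apply_levelBasisOf (π : ℤ_[p] →+* ZMod m) (f : AddMonoid.End A)
    (g : Module.End (ZMod m) (Submodule.torsionBy ℤ A ((m : ℕ) : ℤ)))
    (hg : ∀ x, ((g x : Submodule.torsionBy ℤ A ((m : ℕ) : ℤ)) : A) = f (x : A)) (j : Fin h) :
    g (cb.levelBasisOf hm j)
      = ∑ i, π (cb.tateEnd f (Pi.single j (1 : ℤ_[p])) i) • cb.levelBasisOf hm i := by
  have h1 : ((g (cb.levelBasisOf hm j) : Submodule.torsionBy ℤ A ((m : ℕ) : ℤ)) : A)
      = ∑ i, (((cb.tateEnd f (Pi.single j (1 : ℤ_[p])) i).appr n : ℕ) : ℤ) • cb.B n i := by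
    rw [hg, cb.coe_levelBasisOf]
    exact cb.apply_B_eq n f j _ fun i => appr_cast_eq_toZModPow n _
  have h2 : ∀ i, π (cb.tateEnd f (Pi.single j (1 : ℤ_[p])) i)
      = (((((cb.tateEnd f (Pi.single j (1 : ℤ_[p])) i).appr n : ℕ) : ℤ)) : ZMod m) := fun i =>
    ringHom_eq_intCast_of_toZModPow hm π _ _ (appr_cast_eq_toZModPow n _)
  simp only [levelBasisOf_apply, h2]
  rw [cb.sum_smul_levelVecOf_eq hm _ _ (fun _ => rfl)]
  apply Subtype.ext
  rw [cb.coe_sum_zsmul_levelVecOf, ← h1, levelBasisOf_apply]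

/-- **the matrix of `f` on `A[m]` is the image under `π` of the matrix of `tateEnd f`** -/
theorem toMatrix_levelOf (π : ℤ_[p] →+* ZMod m) (f : AddMonoid.End A)
    (g : Module.End (ZMod m) (Submodule.torsionBy ℤ A ((m : ℕ) : ℤ)))
    (hg : ∀ x, ((g x : Submodule.torsionBy ℤ A ((m : ℕ) : ℤ)) : A) = f (x : A)) :
    LinearMap.toMatrix (cb.levelBasisOf hm) (cb.levelBasisOf hm) g
      = (LinearMap.toMatrix' (cb.tateEnd f)).map π := by
  ext i j
  rw [LinearMap.toMatrix_apply, Matrix.map_apply, LinearMap.toMatrix'_apply]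
  have h1 : ((g (cb.levelBasisOf hm j) : Submodule.torsionBy ℤ A ((m : ℕ) : ℤ)) : A)
      = ∑ i, (((cb.tateEnd f (Pi.single j (1 : ℤ_[p])) i).appr n : ℕ) : ℤ) • cb.B n i := by
    rw [hg, cb.coe_levelBasisOf]
    exact cb.apply_B_eq n f j _ fun i => appr_cast_eq_toZModPow n _
  rw [cb.levelBasisOf_repr_eq hm _ _ h1 i]
  exact (ringHom_eq_intCast_of_toZModPow hm π _ _ (appr_cast_eq_toZModPow n _)).symm

include hm in
/-- determinant at level `m` -/
theorem det_levelOf (π : ℤ_[p] →+* ZMod m) (f : AddMonoid.End A)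
    (g : Module.End (ZMod m) (Submodule.torsionBy ℤ A ((m : ℕ) : ℤ)))
    (hg : ∀ x, ((g x : Submodule.torsionBy ℤ A ((m : ℕ) : ℤ)) : A) = f (x : A)) :
    LinearMap.det g = π (LinearMap.det (cb.tateEnd f)) := by
  rw [← LinearMap.det_toMatrix (cb.levelBasisOf hm), cb.toMatrix_levelOf hm π f g hg,
    ← LinearMap.det_toMatrix (Pi.basisFun ℤ_[p] (Fin h)) (cb.tateEnd f), RingHom.map_det]
  rfl

include hm in
/-- trace at level `m` -/
theorem trace_levelOf (π : ℤ_[p] →+* ZMod m) (f : AddMonoid.End A)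
    (g : Module.End (ZMod m) (Submodule.torsionBy ℤ A ((m : ℕ) : ℤ)))
    (hg : ∀ x, ((g x : Submodule.torsionBy ℤ A ((m : ℕ) : ℤ)) : A) = f (x : A)) :
    LinearMap.trace (ZMod m) _ g = π (LinearMap.trace ℤ_[p] _ (cb.tateEnd f)) := by
  rw [LinearMap.trace_eq_matrix_trace (ZMod m) (cb.levelBasisOf hm),
    cb.toMatrix_levelOf hm π f g hg,
    LinearMap.trace_eq_matrix_trace ℤ_[p] (Pi.basisFun ℤ_[p] (Fin h)), Matrix.trace,
    Matrix.trace, map_sum]
  rfl

include hm in
/-- characteristic polynomial at level `m` -/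
theorem charpoly_levelOf [Module.Free (ZMod m) (Submodule.torsionBy ℤ A ((m : ℕ) : ℤ))]
    [Module.Finite (ZMod m) (Submodule.torsionBy ℤ A ((m : ℕ) : ℤ))]
    (π : ℤ_[p] →+* ZMod m) (f : AddMonoid.End A)
    (g : Module.End (ZMod m) (Submodule.torsionBy ℤ A ((m : ℕ) : ℤ)))
    (hg : ∀ x, ((g x : Submodule.torsionBy ℤ A ((m : ℕ) : ℤ)) : A) = f (x : A)) :
    LinearMap.charpoly g = (LinearMap.charpoly (cb.tateEnd f)).map π := by
  rw [← LinearMap.charpoly_toMatrix g (cb.levelBasisOf hm), cb.toMatrix_levelOf hm π f g hg,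
    ← LinearMap.charpoly_toMatrix (cb.tateEnd f) (Pi.basisFun ℤ_[p] (Fin h)),
    Matrix.charpoly_map]
  rfl

end level

end CompatBasis

end Fermat.Agent.S59.H127

end
-- ===== PACK-END S59/H127/BridgeGen.lean

-- ===== PACK-BEGIN Lib/Frob23/Count.lean
section


/-!
# Manin's count, abstract form (helper472)

`p` prime, `N ∈ 𝔽_p[X]` of degree `2p + 1`, `n : 𝔽_p → {0, 1, 2}` such that for every `c ∈ 𝔽_p`
* `n c = 2 → N(c) ≠ 0`,
* `n c = 1 → N(c) = 0 ∧ N'(c) ≠ 0`,
* `n c = 0 → N(c) = 0 ∧ N'(c) = 0`.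
Then the rational function `N / (X^p - X)²` has degree `1 + ∑_c n c`
(`ratDeg_eq_of_local`).  This is the local analysis behind `#E(𝔽_p) = deg x(Φ P₀ - P₀)`.
-/

set_option autoImplicit false
set_option linter.unusedSectionVars false
set_option linter.unusedVariables false

open Polynomial

namespace Fermat.Agent.Lib.Frob23

open Fermat.Agent.S52

section Count

variable (p : ℕ) [Fact p.Prime] (N : (ZMod p)[X]) (n : ZMod p → ℕ)

/-- the common factor of numerator and denominator -/
noncomputable def cancelPoly : (ZMod p)[X] := ∏ c : ZMod p, (X - C c) ^ (2 - n c)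

/-- the reduced denominator -/
noncomputable def redDen : (ZMod p)[X] := ∏ c : ZMod p, (X - C c) ^ n c

theorem den_eq (hn : ∀ c, n c ≤ 2) :
    ((X : (ZMod p)[X]) ^ p - X) ^ 2 = cancelPoly p n * redDen p n := by
  rw [H621.X_pow_sub_X_eq_prod, ← Finset.prod_pow, cancelPoly, redDen,
    ← Finset.prod_mul_distrib]
  refine Finset.prod_congr rfl fun c _ => ?_
  rw [← pow_add, Nat.sub_add_cancel (hn c)]

theorem cancelPoly_monic : (cancelPoly p n).Monic :=
  monic_prod_of_monic _ _ fun c _ => (monic_X_sub_C c).pow _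

theorem redDen_monic : (redDen p n).Monic :=
  monic_prod_of_monic _ _ fun c _ => (monic_X_sub_C c).pow _

theorem natDegree_cancelPoly : (cancelPoly p n).natDegree = ∑ c : ZMod p, (2 - n c) := by
  rw [cancelPoly, natDegree_prod_of_monic _ _ fun c _ => (monic_X_sub_C c).pow _]
  refine Finset.sum_congr rfl fun c _ => ?_
  rw [natDegree_pow, natDegree_X_sub_C, mul_one]

theorem natDegree_redDen : (redDen p n).natDegree = ∑ c : ZMod p, n c := by
  rw [redDen, natDegree_prod_of_monic _ _ fun c _ => (monic_X_sub_C c).pow _]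
  refine Finset.sum_congr rfl fun c _ => ?_
  rw [natDegree_pow, natDegree_X_sub_C, mul_one]

theorem eval_cancelPoly_eq_zero (c : ZMod p) (hc : 2 - n c ≠ 0) :
    (cancelPoly p n).eval c = 0 := by
  rw [cancelPoly, eval_prod]
  refine Finset.prod_eq_zero (Finset.mem_univ c) ?_
  rw [eval_pow, eval_sub, eval_X, eval_C, sub_self, zero_pow hc]

/-- a double root from the vanishing of the value and of the derivative -/
theorem sq_dvd_of_eval_eq_zero {c : ZMod p} (h : N.eval c = 0)
    (h' : (derivative N).eval c = 0) : (X - C c) ^ 2 ∣ N := by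
  obtain ⟨N₁, rfl⟩ := dvd_iff_isRoot.mpr h
  have h1 : N₁.eval c = 0 := by
    rw [derivative_mul, eval_add, eval_mul, eval_mul, eval_sub, eval_X, eval_C, sub_self,
      zero_mul, add_zero, derivative_sub, derivative_X, derivative_C, sub_zero, eval_one,
      one_mul] at h'
    exact h'
  obtain ⟨N₂, rfl⟩ := dvd_iff_isRoot.mpr h1
  exact ⟨N₂, by ring⟩

variable {p N n}

theorem pow_dvd_of_local
    (h1 : ∀ c, n c = 1 → N.eval c = 0 ∧ (derivative N).eval c ≠ 0)
    (h0 : ∀ c, n c = 0 → N.eval c = 0 ∧ (derivative N).eval c = 0) (c : ZMod p) :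
    (X - C c) ^ (2 - n c) ∣ N := by
  rcases Nat.lt_or_ge (n c) 2 with hlt | hge
  · interval_cases hc : n c
    · exact sq_dvd_of_eval_eq_zero p N (h0 c hc).1 (h0 c hc).2
    · rw [pow_one]
      exact dvd_iff_isRoot.mpr (h1 c hc).1
  · have : 2 - n c = 0 := by omega
    rw [this, pow_zero]
    exact one_dvd _

theorem cancelPoly_dvd
    (h1 : ∀ c, n c = 1 → N.eval c = 0 ∧ (derivative N).eval c ≠ 0)
    (h0 : ∀ c, n c = 0 → N.eval c = 0 ∧ (derivative N).eval c = 0) :
    cancelPoly p n ∣ N := by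
  unfold cancelPoly
  refine Finset.prod_dvd_of_coprime ?_ fun c _ => pow_dvd_of_local h1 h0 c
  intro c _ c' _ hcc'
  exact (pairwise_coprime_X_sub_C (K := ZMod p) (s := id) Function.injective_id hcc').pow

theorem eval_redNum_ne_zero (hn : ∀ c, n c ≤ 2)
    (h2 : ∀ c, n c = 2 → N.eval c ≠ 0)
    (h1 : ∀ c, n c = 1 → N.eval c = 0 ∧ (derivative N).eval c ≠ 0)
    (N' : (ZMod p)[X]) (hN' : N = cancelPoly p n * N') (c : ZMod p) (hc : n c ≠ 0) :
    N'.eval c ≠ 0 := by
  intro h0
  have hle := hn c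
  interval_cases hnc : n c
  · exact hc rfl
  · have he : 2 - n c ≠ 0 := by omega
    have h := (h1 c hnc).2
    rw [hN', derivative_mul, eval_add, eval_mul, eval_mul, h0, mul_zero, zero_add,
      eval_cancelPoly_eq_zero p n c he, zero_mul] at h
    exact h rfl
  · have h := h2 c hnc
    rw [hN', eval_mul, h0, mul_zero] at h
    exact h rfl

theorem isCoprime_redNum_redDen (hn : ∀ c, n c ≤ 2)
    (h2 : ∀ c, n c = 2 → N.eval c ≠ 0)
    (h1 : ∀ c, n c = 1 → N.eval c = 0 ∧ (derivative N).eval c ≠ 0)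
    (N' : (ZMod p)[X]) (hN' : N = cancelPoly p n * N') :
    IsCoprime N' (redDen p n) := by
  unfold redDen
  refine IsCoprime.prod_right fun c _ => ?_
  by_cases hc : n c = 0
  · rw [hc, pow_zero]
    exact isCoprime_one_right
  · refine IsCoprime.pow_right ?_
    refine ((irreducible_X_sub_C c).coprime_iff_not_dvd.mpr ?_).symm
    rw [dvd_iff_isRoot]
    exact eval_redNum_ne_zero hn h2 h1 N' hN' c hc

/-- **Manin's count, abstract form.** -/
theorem ratDeg_eq_of_local (hdeg : N.natDegree = 2 * p + 1) (hn : ∀ c, n c ≤ 2)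
    (h2 : ∀ c, n c = 2 → N.eval c ≠ 0)
    (h1 : ∀ c, n c = 1 → N.eval c = 0 ∧ (derivative N).eval c ≠ 0)
    (h0 : ∀ c, n c = 0 → N.eval c = 0 ∧ (derivative N).eval c = 0) :
    H621.ratDeg (algebraMap (ZMod p)[X] (RatFunc (ZMod p)) N
        / algebraMap (ZMod p)[X] (RatFunc (ZMod p)) ((X ^ p - X) ^ 2))
      = 1 + ∑ c : ZMod p, n c := by
  obtain ⟨N', hN'⟩ := cancelPoly_dvd h1 h0
  have hDen : ((X : (ZMod p)[X]) ^ p - X) ^ 2 ≠ 0 := by
    rw [den_eq p n hn]
    exact mul_ne_zero (cancelPoly_monic p n).ne_zero (redDen_monic p n).ne_zero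
  have hcop := isCoprime_redNum_redDen hn h2 h1 N' hN'
  rw [H621.ratDeg_div_of_eq_mul _ _ (cancelPoly p n) N' (redDen p n) hDen hN'
    (den_eq p n hn) hcop]
  have hN0 : N' ≠ 0 := by
    rintro rfl
    rw [mul_zero] at hN'
    rw [hN', natDegree_zero] at hdeg
    omega
  have hdN : (cancelPoly p n).natDegree + N'.natDegree = 2 * p + 1 := by
    rw [← natDegree_mul (cancelPoly_monic p n).ne_zero hN0, ← hN', hdeg]
  have hdD : (cancelPoly p n).natDegree + (redDen p n).natDegree = 2 * p := by
    rw [← natDegree_mul (cancelPoly_monic p n).ne_zero (redDen_monic p n).ne_zero,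
      ← den_eq p n hn, natDegree_pow,
      FiniteField.X_pow_card_sub_X_natDegree_eq _ (Fact.out : p.Prime).one_lt]
  rw [← natDegree_redDen]
  omega

end Count

section Card

variable (p : ℕ) [Fact p.Prime]

/-- `#E(𝔽_p) = 1 + ∑_c #{y | (c, y) ∈ E}` -/
theorem card_eq_sum (W : WeierstrassCurve (ZMod p)) (hΔ : W.Δ ≠ 0) :
    W.card = 1 + ∑ c : ZMod p, (Finset.univ.filter fun y : ZMod p =>
        y ^ 2 + W.a₁ * c * y + W.a₃ * y = c ^ 3 + W.a₂ * c ^ 2 + W.a₄ * c + W.a₆).card := by
  classical
  rw [WeierstrassCurve.card, H621.card_point_eq _ hΔ, add_comm]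
  congr 1
  rw [Nat.card_congr (Equiv.subtypeEquivRight fun q : ZMod p × ZMod p =>
    WeierstrassCurve.Affine.equation_iff (W := W.toAffine) q.1 q.2),
    Nat.card_eq_fintype_card, Fintype.card_subtype, Finset.card_filter, Fintype.sum_prod_type]
  refine Finset.sum_congr rfl fun c _ => ?_
  rw [← Finset.card_filter]

end Card

end Fermat.Agent.Lib.Frob23

end
-- ===== PACK-END Lib/Frob23/Count.lean

-- ===== PACK-BEGIN S19/H255/Local.lean
section




/-!
# Cell A3 / S19, work package L05 (helper255): the local criterion over `ℤ̄_(ℓ)`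

Notation of `coord/A3.md` (origin/helper15): `R = GaloisRep.ratLocalizedAt ℓ = ℤ_(ℓ)`,
`Qb = ℚ̄`, `Zb = integralClosure R Qb`, `Gal = Qb ≃ₐ[ℚ] Qb`.

Main results (`X` a finite set with a map `act : Gal → X → X`, `S` a set of functions `X → Qb`
with `R`-integral values, Galois-equivariant and separating the points of `X`;
`B = Algebra.adjoin Zb S`):

* `mem_adjoin_of_local` (**L05a + L05c**): an equivariant function `b : X → Qb` lies in `B` as
  soon as, for ONE valuation subring `A₀` of `Qb` over `ℓ` and every point `x₀`, there are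
  `p, q ∈ B` with `q x₀` a unit of `A₀` and `q x * b x = p x` for all `x` in the residue disc
  `{x | ∀ s ∈ S, s x ≡ s x₀ mod 𝔪_{A₀}}` of `x₀`.
* `mem_adjoin_of_forall_place`: the same with the hypothesis at every valuation subring over `ℓ`
  (no equivariance needed).
* `inv_mem_adjoin` (**L05b**): `q ∈ B` with all values units of `Zb` ⇒ `q⁻¹ ∈ B`.
* (file `AddMem.lean`) `add_mem_of_local`, `orderDatum_of_local`: the criterion in the exact
  shape of the field `add_mem` of `OrderDatum` (`S19/Defs.lean`).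

All proofs complete; imports Mathlib, the Prelude and the landed file `S14/H714/Trans.lean`.
-/

set_option autoImplicit false
set_option linter.style.haveILetI false

open scoped Pointwise

namespace Fermat.Agent.S19.H255

open Fermat.Agent.S14.H714

/-- `ℤ_(ℓ)` -/
abbrev Rl (ℓ : ℕ) : Subring ℚ := GaloisRep.ratLocalizedAt ℓ

/-- the integral closure of `ℤ_(ℓ)` in `ℚ̄` -/
noncomputable abbrev Zb (ℓ : ℕ) : Subalgebra (_root_.Fermat.Agent.S19.H255.Rl ℓ) _root_.Fermat.Agent.S14.H714.Qb := integralClosure (_root_.Fermat.Agent.S19.H255.Rl ℓ) _root_.Fermat.Agent.S14.H714.Qb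

section Basic

variable {ℓ : ℕ}

theorem ratCast_mem_of_den (A : ValuationSubring _root_.Fermat.Agent.S14.H714.Qb) (hℓ : ℓ.Prime) (hA : (ℓ : _root_.Fermat.Agent.S14.H714.Qb) ∈ A.nonunits)
    (r : ℚ) (hr : r.den.Coprime ℓ) : algebraMap ℚ _root_.Fermat.Agent.S14.H714.Qb r ∈ A := by
  have hnd : ¬ (ℓ : ℤ) ∣ (r.den : ℤ) := by
    intro h
    have h1 : ℓ ∣ r.den := by exact_mod_cast h
    have h2 : ℓ ∣ Nat.gcd r.den ℓ := Nat.dvd_gcd h1 dvd_rfl
    rw [Nat.Coprime] at hr
    rw [hr] at h2
    exact hℓ.one_lt.ne' (Nat.dvd_one.mp h2)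
  have h3 := intCast_not_mem_nonunits A hℓ hA hnd
  obtain ⟨-, hinv⟩ := inv_mem_of_not_mem_nonunits A h3
  have hr' : algebraMap ℚ _root_.Fermat.Agent.S14.H714.Qb r = (r.num : _root_.Fermat.Agent.S14.H714.Qb) * ((r.den : ℤ) : _root_.Fermat.Agent.S14.H714.Qb)⁻¹ := by
    conv_lhs => rw [← Rat.num_div_den r]
    rw [map_div₀, map_intCast, map_natCast, div_eq_mul_inv]
    simp
  rw [hr']
  exact A.mul_mem _ _ (intCast_mem A _) hinv

theorem algebraMap_Rl_mem (A : ValuationSubring _root_.Fermat.Agent.S14.H714.Qb) (hℓ : ℓ.Prime) (hA : (ℓ : _root_.Fermat.Agent.S14.H714.Qb) ∈ A.nonunits)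
    (r : _root_.Fermat.Agent.S19.H255.Rl ℓ) : algebraMap (_root_.Fermat.Agent.S19.H255.Rl ℓ) _root_.Fermat.Agent.S14.H714.Qb r ∈ A :=
  ratCast_mem_of_den A hℓ hA (r : ℚ) r.2

/-- `ℤ_(ℓ)`-integral elements lie in every valuation subring over `ℓ`. -/
theorem mem_of_isIntegral_Rl (A : ValuationSubring _root_.Fermat.Agent.S14.H714.Qb) (hℓ : ℓ.Prime)
    (hA : (ℓ : _root_.Fermat.Agent.S14.H714.Qb) ∈ A.nonunits) {x : _root_.Fermat.Agent.S14.H714.Qb} (hx : IsIntegral (_root_.Fermat.Agent.S19.H255.Rl ℓ) x) : x ∈ A := by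
  let φ : _root_.Fermat.Agent.S19.H255.Rl ℓ →+* A :=
    { toFun := fun r => ⟨algebraMap (_root_.Fermat.Agent.S19.H255.Rl ℓ) _root_.Fermat.Agent.S14.H714.Qb r, algebraMap_Rl_mem A hℓ hA r⟩
      map_one' := Subtype.ext (map_one _)
      map_mul' := fun a b => Subtype.ext (map_mul _ a b)
      map_zero' := Subtype.ext (map_zero _)
      map_add' := fun a b => Subtype.ext (map_add _ a b) }
  letI : Algebra (_root_.Fermat.Agent.S19.H255.Rl ℓ) A := φ.toAlgebra
  haveI : IsScalarTower (_root_.Fermat.Agent.S19.H255.Rl ℓ) A _root_.Fermat.Agent.S14.H714.Qb := IsScalarTower.of_algebraMap_eq (fun r => rfl)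
  have h : IsIntegral A x := hx.tower_top
  obtain ⟨y, hy⟩ := (IsIntegrallyClosed.isIntegral_iff (R := A) (K := _root_.Fermat.Agent.S14.H714.Qb)).mp h
  rw [← hy]
  exact y.2

/-- A valuation subring of `ℚ̄` containing `Zb` is trivial or lies over `ℓ`. -/
theorem eq_top_or_liesOver_of_le (hℓ : ℓ.Prime) (V : ValuationSubring _root_.Fermat.Agent.S14.H714.Qb)
    (hV : ∀ x : _root_.Fermat.Agent.S14.H714.Qb, IsIntegral (_root_.Fermat.Agent.S19.H255.Rl ℓ) x → x ∈ V) : V = ⊤ ∨ (ℓ : _root_.Fermat.Agent.S14.H714.Qb) ∈ V.nonunits := by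
  rcases eq_top_or_liesOver V with h | ⟨ℓ', hℓ', h⟩
  · exact Or.inl h
  · right
    by_cases hll : ℓ' = ℓ
    · rw [← hll]; exact h
    · exfalso
      -- `1/ℓ'` lies in `ℤ_(ℓ)`
      have hcop : ((ℓ' : ℚ)⁻¹).den.Coprime ℓ := by
        have hden : ((ℓ' : ℚ)⁻¹).den = ℓ' := by
          have := Rat.inv_natCast_den ℓ'
          rw [this, if_neg hℓ'.ne_zero]
        rw [hden]
        exact (Nat.coprime_primes hℓ' hℓ).mpr hll
      have hmem : algebraMap (_root_.Fermat.Agent.S19.H255.Rl ℓ) _root_.Fermat.Agent.S14.H714.Qb ⟨(ℓ' : ℚ)⁻¹, hcop⟩ ∈ V :=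
        hV _ isIntegral_algebraMap
      have heq : algebraMap (_root_.Fermat.Agent.S19.H255.Rl ℓ) _root_.Fermat.Agent.S14.H714.Qb ⟨(ℓ' : ℚ)⁻¹, hcop⟩ = ((ℓ' : _root_.Fermat.Agent.S14.H714.Qb))⁻¹ := by
        show algebraMap ℚ _root_.Fermat.Agent.S14.H714.Qb ((ℓ' : ℚ)⁻¹) = _
        rw [map_inv₀, map_natCast]
      rw [heq] at hmem
      rw [ValuationSubring.mem_nonunits_iff_or] at h
      rcases h with h | h
      · exact hℓ'.ne_zero (by exact_mod_cast h)
      · exact h hmem

/-- Two valuation subrings of `ℚ̄` over `ℓ` are conjugate. -/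
theorem exists_smul_eq (hℓ : ℓ.Prime) (A A' : ValuationSubring _root_.Fermat.Agent.S14.H714.Qb)
    (hA : (ℓ : _root_.Fermat.Agent.S14.H714.Qb) ∈ A.nonunits) (hA' : (ℓ : _root_.Fermat.Agent.S14.H714.Qb) ∈ A'.nonunits) : ∃ ρ : G, ρ • A' = A := by
  have key : ∀ (B : ValuationSubring _root_.Fermat.Agent.S14.H714.Qb), (ℓ : _root_.Fermat.Agent.S14.H714.Qb) ∈ B.nonunits → ∀ r : ℚ,
      algebraMap ℚ _root_.Fermat.Agent.S14.H714.Qb r ∈ B ↔ r.den.Coprime ℓ := by
    intro B hB r
    constructor
    · intro hr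
      by_contra hcop
      have hdvd : ℓ ∣ r.den := by
        by_contra hnd
        exact hcop ((Nat.Coprime.symm ((Nat.Prime.coprime_iff_not_dvd hℓ).mpr hnd)))
      -- `den ∈ 𝔪`, hence `num = r * den ∈ 𝔪`, hence `ℓ ∣ num`
      obtain ⟨c, hc⟩ := hdvd
      have hden : ((r.den : ℤ) : _root_.Fermat.Agent.S14.H714.Qb) ∈ B.nonunits := by
        have : ((r.den : ℤ) : _root_.Fermat.Agent.S14.H714.Qb) = (ℓ : _root_.Fermat.Agent.S14.H714.Qb) * ((c : ℤ) : _root_.Fermat.Agent.S14.H714.Qb) := by
          rw [hc]; push_cast; ring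
        rw [this]
        exact nonunits_mul_mem B hB (intCast_mem B _)
      have hnum : ((r.num : ℤ) : _root_.Fermat.Agent.S14.H714.Qb) ∈ B.nonunits := by
        have : ((r.num : ℤ) : _root_.Fermat.Agent.S14.H714.Qb) = ((r.den : ℤ) : _root_.Fermat.Agent.S14.H714.Qb) * algebraMap ℚ _root_.Fermat.Agent.S14.H714.Qb r := by
          have h1 : (r.num : ℚ) = (r.den : ℚ) * r := by
            rw [mul_comm]; exact (Rat.mul_den_eq_num r).symm
          have h2 := congrArg (algebraMap ℚ _root_.Fermat.Agent.S14.H714.Qb) h1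
          rw [map_mul, map_intCast, map_natCast] at h2
          rw [h2]; push_cast; ring
        rw [this]
        exact nonunits_mul_mem B hden hr
      have hdn : (ℓ : ℤ) ∣ r.num := by
        by_contra hnd
        exact intCast_not_mem_nonunits B hℓ hB hnd hnum
      have h1 : ℓ ∣ r.num.natAbs := by
        exact Int.natCast_dvd.mp hdn
      have h2 : ℓ ∣ Nat.gcd r.num.natAbs r.den := Nat.dvd_gcd h1 ⟨c, hc⟩
      have h3 : Nat.gcd r.num.natAbs r.den = 1 := r.reduced
      rw [h3] at h2
      exact hℓ.one_lt.ne' (Nat.dvd_one.mp h2)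
    · exact ratCast_mem_of_den B hℓ hB r
  obtain ⟨ρ, -, hρ⟩ := exists_smul_eq_of_inter_eq (F := ⊥) hℓ hA hA' (by
    intro x hx
    obtain ⟨r, rfl⟩ := IntermediateField.mem_bot.mp hx
    rw [key A hA, key A' hA'])
  exact ⟨ρ, hρ⟩

theorem apply_mem_nonunits_smul_iff (ρ : G) (A : ValuationSubring _root_.Fermat.Agent.S14.H714.Qb) (x : _root_.Fermat.Agent.S14.H714.Qb) :
    ρ x ∈ (ρ • A).nonunits ↔ x ∈ A.nonunits := by
  have key : ∀ y : _root_.Fermat.Agent.S14.H714.Qb, ρ y ∈ ρ • A ↔ y ∈ A := by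
    intro y
    rw [ValuationSubring.mem_pointwise_smul_iff_inv_smul_mem]
    have : ρ⁻¹ • ρ y = y := by
      show ρ⁻¹ (ρ y) = y
      exact ρ.symm_apply_apply y
    rw [this]
  rw [ValuationSubring.mem_nonunits_iff_or, ValuationSubring.mem_nonunits_iff_or, ← map_inv₀, key]
  simp

theorem isIntegral_Rl_apply (ρ : G) {x : _root_.Fermat.Agent.S14.H714.Qb} (hx : IsIntegral (_root_.Fermat.Agent.S19.H255.Rl ℓ) x) :
    IsIntegral (_root_.Fermat.Agent.S19.H255.Rl ℓ) (ρ x) := by
  obtain ⟨p, hp, hpx⟩ := hx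
  refine ⟨p, hp, ?_⟩
  have h1 : Polynomial.eval₂ (algebraMap (_root_.Fermat.Agent.S19.H255.Rl ℓ) _root_.Fermat.Agent.S14.H714.Qb) (ρ x) p
      = ρ (Polynomial.eval₂ (algebraMap (_root_.Fermat.Agent.S19.H255.Rl ℓ) _root_.Fermat.Agent.S14.H714.Qb) x p) := by
    rw [Polynomial.eval₂_eq_sum, Polynomial.eval₂_eq_sum, Polynomial.sum, Polynomial.sum, map_sum]
    apply Finset.sum_congr rfl
    intro i _
    rw [map_mul, map_pow]
    congr 1
    show algebraMap ℚ _root_.Fermat.Agent.S14.H714.Qb _ = ρ (algebraMap ℚ _root_.Fermat.Agent.S14.H714.Qb _)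
    exact (ρ.commutes _).symm
  rw [h1, hpx, map_zero]

end Basic

section Criterion

variable {ℓ : ℕ} {X : Type*}

/-- The subring underlying `Algebra.adjoin Zb S` consists of `Zb`-valued functions. -/
theorem adjoin_val_mem (S : Set (X → _root_.Fermat.Agent.S14.H714.Qb)) (hS : ∀ s ∈ S, ∀ x, IsIntegral (_root_.Fermat.Agent.S19.H255.Rl ℓ) (s x))
    {f : X → _root_.Fermat.Agent.S14.H714.Qb} (hf : f ∈ Algebra.adjoin (_root_.Fermat.Agent.S19.H255.Zb ℓ) S) (x : X) : IsIntegral (_root_.Fermat.Agent.S19.H255.Rl ℓ) (f x) := by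
  induction hf using Algebra.adjoin_induction with
  | mem s hs => exact hS s hs x
  | algebraMap a => exact a.2
  | add f g _ _ hf hg => exact hf.add hg
  | mul f g _ _ hf hg => exact hf.mul hg

theorem const_mem_adjoin (S : Set (X → _root_.Fermat.Agent.S14.H714.Qb)) {a : _root_.Fermat.Agent.S14.H714.Qb} (ha : IsIntegral (_root_.Fermat.Agent.S19.H255.Rl ℓ) a) :
    (fun _ : X => a) ∈ Algebra.adjoin (_root_.Fermat.Agent.S19.H255.Zb ℓ) S :=
  (Algebra.adjoin (_root_.Fermat.Agent.S19.H255.Zb ℓ) S).algebraMap_mem ⟨a, ha⟩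

/-- There is a valuation subring of `ℚ̄` over every prime number. -/
theorem exists_valuationSubring_over (hℓ : ℓ.Prime) :
    ∃ A : ValuationSubring _root_.Fermat.Agent.S14.H714.Qb, (ℓ : _root_.Fermat.Agent.S14.H714.Qb) ∈ A.nonunits := by
  let A₀ : Subring _root_.Fermat.Agent.S14.H714.Qb := (algebraMap ℤ _root_.Fermat.Agent.S14.H714.Qb).range
  let l₀ : A₀ := ⟨(ℓ : _root_.Fermat.Agent.S14.H714.Qb), ⟨(ℓ : ℤ), by simp⟩⟩
  have hI : Ideal.span {l₀} ≠ ⊤ := by
    intro h
    rw [Ideal.span_singleton_eq_top] at h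
    obtain ⟨⟨m, n, rfl⟩, hm⟩ := h.exists_right_inv
    have h1 : ((ℓ : ℤ) : _root_.Fermat.Agent.S14.H714.Qb) * ((n : ℤ) : _root_.Fermat.Agent.S14.H714.Qb) = 1 := by
      have := congrArg Subtype.val hm
      simpa [l₀] using this
    have h2 : (ℓ : ℤ) * n = 1 := by exact_mod_cast h1
    have h3 : (ℓ : ℤ) ∣ 1 := ⟨n, h2.symm⟩
    have h4 : ℓ ∣ 1 := by exact_mod_cast h3
    exact hℓ.one_lt.ne' (Nat.dvd_one.mp h4)
  obtain ⟨A, -, hA⟩ := Ideal.image_subset_nonunits_valuationSubring _ hI
  refine ⟨A, ?_⟩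
  apply hA
  exact ⟨l₀, Ideal.subset_span rfl, rfl⟩

/-- **L05a** at all places, disc form, no equivariance needed. -/
theorem mem_adjoin_of_forall_place [Finite X] (hℓ : ℓ.Prime) (S : Set (X → _root_.Fermat.Agent.S14.H714.Qb))
    (hS : ∀ s ∈ S, ∀ x, IsIntegral (_root_.Fermat.Agent.S19.H255.Rl ℓ) (s x))
    (hsep : ∀ x y : X, (∀ s ∈ S, s x = s y) → x = y)
    (b : X → _root_.Fermat.Agent.S14.H714.Qb)
    (h : ∀ A : ValuationSubring _root_.Fermat.Agent.S14.H714.Qb, (ℓ : _root_.Fermat.Agent.S14.H714.Qb) ∈ A.nonunits → ∀ x₀ : X,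
      ∃ p ∈ Algebra.adjoin (_root_.Fermat.Agent.S19.H255.Zb ℓ) S, ∃ q ∈ Algebra.adjoin (_root_.Fermat.Agent.S19.H255.Zb ℓ) S, q x₀ ∉ A.nonunits ∧
        ∀ x, (∀ s ∈ S, s x - s x₀ ∈ A.nonunits) → q x * b x = p x) :
    b ∈ Algebra.adjoin (_root_.Fermat.Agent.S19.H255.Zb ℓ) S := by
  have hconst : ∀ a ∈ (_root_.Fermat.Agent.S19.H255.Zb ℓ).toSubring, (fun _ : X => a) ∈ (Algebra.adjoin (_root_.Fermat.Agent.S19.H255.Zb ℓ) S).toSubring :=
    fun a ha => const_mem_adjoin S ha
  have hval : ∀ f ∈ (Algebra.adjoin (_root_.Fermat.Agent.S19.H255.Zb ℓ) S).toSubring, ∀ x, f x ∈ (_root_.Fermat.Agent.S19.H255.Zb ℓ).toSubring :=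
    fun f hf x => adjoin_val_mem S hS hf x
  have := mem_of_forall_disc (_root_.Fermat.Agent.S19.H255.Zb ℓ).toSubring (Algebra.adjoin (_root_.Fermat.Agent.S19.H255.Zb ℓ) S).toSubring hconst hval b
    (by
      intro V hZV x₀
      have hV : ∀ x : _root_.Fermat.Agent.S14.H714.Qb, IsIntegral (_root_.Fermat.Agent.S19.H255.Rl ℓ) x → x ∈ V := fun x hx => hZV hx
      obtain ⟨A₀, hA₀⟩ := exists_valuationSubring_over hℓ
      rcases eq_top_or_liesOver_of_le hℓ V hV with htop | hVl
      · -- trivial valuation: the disc is `{x₀}`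
        obtain ⟨p, hp, q, hq, hqx, hrel⟩ := h A₀ hA₀ x₀
        refine ⟨p, hp, q, hq, ?_, ?_⟩
        · intro hcon
          apply hqx
          rw [htop] at hcon
          have : q x₀ = 0 := by
            rw [ValuationSubring.mem_nonunits_iff_or] at hcon
            rcases hcon with h0 | h0
            · exact h0
            · exact absurd (ValuationSubring.mem_top _) h0
          rw [this]
          exact A₀.nonunits.zero_mem
        · intro x hx
          have hxx : x = x₀ := by
            apply hsep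
            intro s hs
            have := hx s (Algebra.subset_adjoin hs)
            rw [htop, ValuationSubring.mem_nonunits_iff_or] at this
            rcases this with h0 | h0
            · exact sub_eq_zero.mp h0
            · exact absurd (ValuationSubring.mem_top _) h0
          rw [hxx]
          apply hrel
          intro s _
          rw [sub_self]
          exact A₀.nonunits.zero_mem
      · obtain ⟨p, hp, q, hq, hqx, hrel⟩ := h V hVl x₀
        exact ⟨p, hp, q, hq, hqx, fun x hx => hrel x (fun s hs => hx s (Algebra.subset_adjoin hs))⟩)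
  exact this

/-- transport of a function along `ρ` -/
noncomputable def transport (act : G → X → X) (ρ : G) (f : X → _root_.Fermat.Agent.S14.H714.Qb) : X → _root_.Fermat.Agent.S14.H714.Qb := fun x => ρ (f (act ρ⁻¹ x))

theorem transport_mem_adjoin (act : G → X → X) (S : Set (X → _root_.Fermat.Agent.S14.H714.Qb))
    (heq : ∀ s ∈ S, ∀ (σ : G) (x : X), s (act σ x) = σ (s x)) (ρ : G)
    {f : X → _root_.Fermat.Agent.S14.H714.Qb} (hf : f ∈ Algebra.adjoin (_root_.Fermat.Agent.S19.H255.Zb ℓ) S) :
    transport act ρ f ∈ Algebra.adjoin (_root_.Fermat.Agent.S19.H255.Zb ℓ) S := by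
  induction hf using Algebra.adjoin_induction with
  | mem s hs =>
    have : transport act ρ s = s := by
      funext x
      simp only [transport]
      rw [heq s hs ρ⁻¹ x]
      show ρ (ρ⁻¹ (s x)) = s x
      exact ρ.apply_symm_apply (s x)
    rw [this]
    exact Algebra.subset_adjoin hs
  | algebraMap a =>
    have : transport act ρ (algebraMap (_root_.Fermat.Agent.S19.H255.Zb ℓ) (X → _root_.Fermat.Agent.S14.H714.Qb) a) = fun _ => ρ (a : _root_.Fermat.Agent.S14.H714.Qb) := rfl
    rw [this]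
    exact const_mem_adjoin S (isIntegral_Rl_apply ρ a.2)
  | add f g _ _ hf hg =>
    have : transport act ρ (f + g) = transport act ρ f + transport act ρ g := by
      funext x
      simp [transport]
    rw [this]
    exact add_mem hf hg
  | mul f g _ _ hf hg =>
    have : transport act ρ (f * g) = transport act ρ f * transport act ρ g := by
      funext x
      simp [transport]
    rw [this]
    exact mul_mem hf hg

/-- **L05a + L05c**: the local criterion at ONE place over `ℓ`, disc form. -/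
theorem mem_adjoin_of_local [Finite X] (hℓ : ℓ.Prime) (act : G → X → X) (S : Set (X → _root_.Fermat.Agent.S14.H714.Qb))
    (hS : ∀ s ∈ S, ∀ x, IsIntegral (_root_.Fermat.Agent.S19.H255.Rl ℓ) (s x))
    (heq : ∀ s ∈ S, ∀ (σ : G) (x : X), s (act σ x) = σ (s x))
    (hsep : ∀ x y : X, (∀ s ∈ S, s x = s y) → x = y)
    (b : X → _root_.Fermat.Agent.S14.H714.Qb) (hb : ∀ (σ : G) (x : X), b (act σ x) = σ (b x))
    (A₀ : ValuationSubring _root_.Fermat.Agent.S14.H714.Qb) (hA₀ : (ℓ : _root_.Fermat.Agent.S14.H714.Qb) ∈ A₀.nonunits)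
    (h : ∀ x₀ : X, ∃ p ∈ Algebra.adjoin (_root_.Fermat.Agent.S19.H255.Zb ℓ) S, ∃ q ∈ Algebra.adjoin (_root_.Fermat.Agent.S19.H255.Zb ℓ) S,
      q x₀ ∉ A₀.nonunits ∧ ∀ x, (∀ s ∈ S, s x - s x₀ ∈ A₀.nonunits) → q x * b x = p x) :
    b ∈ Algebra.adjoin (_root_.Fermat.Agent.S19.H255.Zb ℓ) S := by
  -- `act` is an action up to the separation property
  have hact : ∀ (ρ : G) (x : X), act ρ (act ρ⁻¹ x) = x := by
    intro ρ x
    apply hsep
    intro s hs
    rw [heq s hs, heq s hs]
    show ρ (ρ⁻¹ (s x)) = s x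
    exact ρ.apply_symm_apply (s x)
  apply mem_adjoin_of_forall_place hℓ S hS hsep b
  intro A hA x₀
  obtain ⟨ρ, hρ⟩ := exists_smul_eq hℓ A A₀ hA hA₀
  obtain ⟨p, hp, q, hq, hqx, hrel⟩ := h (act ρ⁻¹ x₀)
  refine ⟨transport act ρ p, transport_mem_adjoin act S heq ρ hp,
    transport act ρ q, transport_mem_adjoin act S heq ρ hq, ?_, ?_⟩
  · show ρ (q (act ρ⁻¹ x₀)) ∉ A.nonunits
    rw [← hρ, apply_mem_nonunits_smul_iff]
    exact hqx
  · intro x hx
    show ρ (q (act ρ⁻¹ x)) * b x = ρ (p (act ρ⁻¹ x))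
    have hbx : b x = ρ (b (act ρ⁻¹ x)) := by
      rw [hb ρ⁻¹ x]
      show b x = ρ (ρ⁻¹ (b x))
      exact (ρ.apply_symm_apply (b x)).symm
    rw [hbx, ← map_mul]
    congr 1
    apply hrel
    intro s hs
    rw [heq s hs, heq s hs, ← map_sub]
    have := hx s hs
    rw [← hρ] at this
    have h2 : s x - s x₀ = ρ (ρ⁻¹ (s x - s x₀)) := (ρ.apply_symm_apply _).symm
    rw [h2, apply_mem_nonunits_smul_iff] at this
    exact this

/-- **L05b**: a function in `B` whose values are units of `Zb` is a unit of `B`. -/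
theorem inv_mem_adjoin [Finite X] (S : Set (X → _root_.Fermat.Agent.S14.H714.Qb))
    (hS : ∀ s ∈ S, ∀ x, IsIntegral (_root_.Fermat.Agent.S19.H255.Rl ℓ) (s x)) (q : X → _root_.Fermat.Agent.S14.H714.Qb)
    (hq : q ∈ Algebra.adjoin (_root_.Fermat.Agent.S19.H255.Zb ℓ) S)
    (hunit : ∀ x, q x ≠ 0 ∧ IsIntegral (_root_.Fermat.Agent.S19.H255.Rl ℓ) (q x)⁻¹) :
    (fun x => (q x)⁻¹) ∈ Algebra.adjoin (_root_.Fermat.Agent.S19.H255.Zb ℓ) S := by
  have hconst : ∀ a ∈ (_root_.Fermat.Agent.S19.H255.Zb ℓ).toSubring, (fun _ : X => a) ∈ (Algebra.adjoin (_root_.Fermat.Agent.S19.H255.Zb ℓ) S).toSubring :=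
    fun a ha => const_mem_adjoin S ha
  have hval : ∀ f ∈ (Algebra.adjoin (_root_.Fermat.Agent.S19.H255.Zb ℓ) S).toSubring, ∀ x, f x ∈ (_root_.Fermat.Agent.S19.H255.Zb ℓ).toSubring :=
    fun f hf x => adjoin_val_mem S hS hf x
  have := inv_mem_of_forall_not_mem_nonunits (_root_.Fermat.Agent.S19.H255.Zb ℓ).toSubring
    (Algebra.adjoin (_root_.Fermat.Agent.S19.H255.Zb ℓ) S).toSubring hconst hval q hq (by
      intro V hZV x
      have hinv : (q x)⁻¹ ∈ V := hZV (hunit x).2
      intro hcon
      rw [ValuationSubring.mem_nonunits_iff_or] at hcon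
      rcases hcon with h0 | h0
      · exact (hunit x).1 h0
      · exact h0 hinv)
  exact this

end Criterion

end Fermat.Agent.S19.H255

end
-- ===== PACK-END S19/H255/Local.lean

-- ===== PACK-BEGIN S19/Unr/Spec.lean
section


/-!
# Cell A3 (S19) — node UNR: frozen three-node decomposition  (architect: helper992)

    UnrStatement  <==  UA (closure)  +  UB (spanning)  +  UC (coefficients)        [`unrStatement_of_nodes`]

`UnrStatement` (file `Fermat/Agent/S19/Spec.lean`): local coordinates at ONE valuation ring `V | ℓ`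
of `Q̄`, equivariant under the inertia group of `V` only, give global Galois-equivariant integral
coordinates.  Paper proof: origin/helper992:coord/A3-wall.md §2 (no discriminants, no completions;
the arithmetic input is (T1),(T2) of `Fermat/Agent/S14/H714/Trans.lean`, on main).

* `LocalOrder V M act` : a `V`-subalgebra `B ⊆ Map(M, V)`, finite over `V`, stable under the
  decomposition group of `V`, spanned by inertia-equivariant functions, separating, with
  `Δ B ⊆ B ⊗ B`.
* **UA** `ClosureStatement`  : `LocalCoordDatum ⟹ LocalOrder`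
  (close the coordinates under `f ↦ σ ∘ f ∘ act σ⁻¹`, `σ` in the decomposition group; pure algebra).
* **UB** `SpanningStatement` : in a `LocalOrder`, the `G_Q`-equivariant elements of `B` span `B` over
  `V`  (orbit traces + CRT + Dedekind independence + Nakayama; uses (T1),(T2)).
* **UC** `CoeffStatement`    : a `LocalOrder` spanned by equivariant elements gives a `CoordDatum`
  (Nakayama basis; structure constants lie in `V ∩ Q = Z_(ℓ)`).
-/

set_option autoImplicit false

noncomputable section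

namespace Fermat.Agent.S19.Unr

open Fermat.Agent.S19

variable {M : Type}

/-- `σ` lies in the decomposition group of the valuation ring `V`. -/
def IsDecompAt (V : ValuationSubring Qb) (σ : GalQ) : Prop :=
  ∀ a : Qb, σ a ∈ V ↔ a ∈ V

/-- The semilinear action of `Gal(Q̄/Q)` on functions `M → Q̄`: `σ · h = σ ∘ h ∘ act σ⁻¹`. -/
def conjFun (act : GalQ → M → M) (σ : GalQ) (h : M → Qb) : M → Qb :=
  fun m => σ (h (act σ⁻¹ m))

/-- `h` is equivariant under all of `Gal(Q̄/Q)`. -/
def IsEquivariant (act : GalQ → M → M) (h : M → Qb) : Prop :=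
  ∀ (σ : GalQ) (m : M), h (act σ m) = σ (h m)

/-- `h` is equivariant under the inertia group of `V`. -/
def IsInertiaEquivariant (V : ValuationSubring Qb) (act : GalQ → M → M) (h : M → Qb) : Prop :=
  ∀ σ : GalQ, IsInertiaAt V σ → ∀ m : M, h (act σ m) = σ (h m)

/-- The functions `(s,t) ↦ b s * b' t` on `M × M`, `b, b' ∈ B`. -/
def tensorFunctions (B : Set (M → Qb)) : Set (M × M → Qb) :=
  {F | ∃ b ∈ B, ∃ b' ∈ B, F = fun p => b p.1 * b' p.2}

/-- **Local order**: a decomposition-stable `V`-order of functions on `M`, spanned by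
inertia-equivariant functions, closed under comultiplication. -/
structure LocalOrder (V : ValuationSubring Qb) (M : Type) [AddCommGroup M]
    (act : GalQ → M → M) where
  B : Subalgebra V (M → Qb)
  valued : ∀ h ∈ B, ∀ m : M, h m ∈ V
  fg : (Subalgebra.toSubmodule B).FG
  stable : ∀ σ : GalQ, IsDecompAt V σ → ∀ h ∈ B, conjFun act σ h ∈ B
  span_inertia : Subalgebra.toSubmodule B ≤
    Submodule.span V {h | h ∈ B ∧ IsInertiaEquivariant V act h}
  separates : ∀ m m' : M, (∀ h ∈ B, h m = h m') → m = m'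
  comul : ∀ h ∈ B, (fun p : M × M => h (p.1 + p.2)) ∈
    Submodule.span V (tensorFunctions (B : Set (M → Qb)))

variable [AddCommGroup M]

/-- The `G_Q`-equivariant elements of a local order. -/
def LocalOrder.equivariantElements {V : ValuationSubring Qb} {act : GalQ → M → M}
    (O : LocalOrder V M act) : Set (M → Qb) :=
  {h | h ∈ O.B ∧ IsEquivariant act h}

/-- **Node UA** (closure under the decomposition group; pure algebra). -/
def ClosureStatement : Prop :=
  ∀ (ℓ : ℕ) [Fact ℓ.Prime] (M : Type) [AddCommGroup M] [Finite M] (act : GalQ → M → M),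
    IsContAddAction act → ∀ L : LocalCoordDatum ℓ M act, Nonempty (LocalOrder L.V M act)

/-- **Node UB** (the equivariant elements span). -/
def SpanningStatement : Prop :=
  ∀ (ℓ : ℕ) [Fact ℓ.Prime] (M : Type) [AddCommGroup M] [Finite M] (act : GalQ → M → M),
    IsContAddAction act → ∀ V : ValuationSubring Qb, (ℓ : Qb) ∈ V.nonunits →
    ∀ O : LocalOrder V M act,
      Subalgebra.toSubmodule O.B ≤ Submodule.span V O.equivariantElements

/-- **Node UC** (global coordinates from a local order spanned by equivariant elements). -/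
def CoeffStatement : Prop :=
  ∀ (ℓ : ℕ) [Fact ℓ.Prime] (M : Type) [AddCommGroup M] [Finite M] (act : GalQ → M → M),
    IsContAddAction act → ∀ V : ValuationSubring Qb, (ℓ : Qb) ∈ V.nonunits →
    ∀ O : LocalOrder V M act,
      Subalgebra.toSubmodule O.B ≤ Submodule.span V O.equivariantElements →
      Nonempty (CoordDatum ℓ M act)

/-- **Glue**: UNR from its three nodes. -/
theorem unrStatement_of_nodes (hA : ClosureStatement) (hB : SpanningStatement)
    (hC : CoeffStatement) : UnrStatement := by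
  intro ℓ _ M _ _ act hact L
  obtain ⟨O⟩ := hA ℓ M act hact L
  exact hC ℓ M act hact L.V L.ell_mem O (hB ℓ M act hact L.V L.ell_mem O)

end Fermat.Agent.S19.Unr

end

end
-- ===== PACK-END S19/Unr/Spec.lean

-- ===== PACK-BEGIN S33/H692/OrdAlgSpec.lean
section
/-
Row S33 (ordinary at `p ‖ N`), piece EIG, pure algebra: specialisation to a field (helper692).

`ρ : G → End_T V` (`V` free of rank two with basis `b`, `T[G] → End_T V` onto), `ψ : T → O`,
`ρM : G → End_O M` (`M` free with basis `c`) satisfying the quadratic relations of `ρ` along `ψ`.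
For a ring homomorphism `ι : O → F` into a field with `2 ≠ 0` the coordinate specialisations
`specRep (ι ∘ ψ) b ρ` on `F²` and `specRep ι c ρM` on `Fⁿ` are related by a Boston–Lenstra–Ribet
algebra homomorphism `Ψ : End (F²) → End (Fⁿ)`.
-/





set_option autoImplicit false
set_option linter.unusedSectionVars false

noncomputable section

namespace Fermat.Agent.S33.H692

open Module Fermat.Agent.S32.H152 Fermat.Agent.Lib.Ribet.H223

section Coord

variable {R : Type*} [CommRing R] {F : Type*} [Field F] (f : R →+* F) {m : Type*} [Fintype m]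
  [DecidableEq m] {X : Type*} [AddCommGroup X] [Module R X] (e : Module.Basis m R X)
  {G : Type*} [Group G]

/-- The specialisation of an action, in coordinates. -/
def specRep (r : G →* Module.End R X) : G →* Module.End F (m → F) :=
  ((embEnd f e : Module.End R X →+* _) : Module.End R X →* _).comp r

theorem specRep_apply (r : G →* Module.End R X) (g : G) :
    specRep f e r g = embEnd f e (r g) := rfl

theorem embEnd_det (E : Module.End R X) :
    LinearMap.det (embEnd f e E) = f (LinearMap.det E) := by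
  rw [embEnd_eq, LinearMap.det_toLin', ← LinearMap.det_toMatrix e]
  exact (RingHom.map_det f _).symm

theorem embEnd_injective (hf : Function.Injective f) : Function.Injective (embEnd f e) := by
  rw [injective_iff_map_eq_zero]
  intro E hE
  rw [embEnd_eq] at hE
  have h1 : (LinearMap.toMatrix e e E).map f = 0 := by
    apply Matrix.toLin'.injective
    rw [hE, map_zero]
  have h2 : LinearMap.toMatrix e e E = 0 := by
    ext i j
    apply hf
    have := congrFun (congrFun h1 i) j
    rw [Matrix.map_apply] at this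
    rw [this, Matrix.zero_apply, Matrix.zero_apply, map_zero]
  exact (LinearMap.toMatrix e e).injective (by rw [h2, map_zero])

/-- The coordinate map sends `I_aug` into `I_aug`. -/
theorem embCoord_mem_augSub (r : G →* Module.End R X) (I : Set G) {y : X}
    (hy : y ∈ augSub I r) : embCoord f e y ∈ augSub I (specRep f e r) := by
  induction hy using Submodule.span_induction with
  | mem y hy =>
    obtain ⟨σ, hσ, x, rfl⟩ := hy
    rw [map_sub, ← embEnd_coord, ← specRep_apply]
    exact sub_mem_augSub _ hσ _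
  | zero =>
    rw [map_zero]
    exact zero_mem _
  | add x y _ _ hx hy =>
    rw [map_add]
    exact add_mem hx hy
  | smul a x _ hx =>
    rw [embCoord_smul]
    exact Submodule.smul_mem _ _ hx

/-- A vector with coordinates in the image of `f` is a coordinate vector. -/
theorem exists_embCoord_eq (x : m → F) (hx : ∀ j, ∃ a : R, f a = x j) :
    ∃ v : X, embCoord f e v = x := by
  choose a ha using hx
  refine ⟨∑ j, a j • e j, ?_⟩
  funext j
  rw [embCoord_apply]
  simp only [map_sum, map_smul, Module.Basis.repr_self, Finsupp.coe_finsetSum, Finset.sum_apply,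
    Finsupp.smul_apply, Finsupp.single_apply, smul_eq_mul, mul_ite, mul_one, mul_zero,
    Finset.sum_ite_eq', Finset.mem_univ, if_true]
  exact ha j

end Coord

section Spec

variable {T : Type*} [CommRing T] {G : Type*} [Group G]
  {V : Type*} [AddCommGroup V] [Module T V] (b : Module.Basis (Fin 2) T V)
  (ρ : G →* Module.End T V)
  {O : Type*} [CommRing O] (ψ : T →+* O)
  {M : Type*} [AddCommGroup M] [Module O M] {n : Type*} [Fintype n] [DecidableEq n]
  (c : Module.Basis n O M) (ρM : G →* Module.End O M)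
  {F : Type*} [Field F] (ι : O →+* F)

/-- `F[G] → End (F²)` is onto when `T[G] → End_T V` is. -/
theorem spec_surjective (hspan : Submodule.span T (Set.range ρ) = ⊤) (f : T →+* F) :
    Function.Surjective
      (MonoidAlgebra.lift F (Module.End F (Fin 2 → F)) G (specRep f b ρ)) := by
  set A₀ := (MonoidAlgebra.lift F (Module.End F (Fin 2 → F)) G (specRep f b ρ)).range with hA₀
  have hg : ∀ g, specRep f b ρ g ∈ A₀ := fun g =>
    ⟨MonoidAlgebra.of F G g, MonoidAlgebra.lift_of _ _⟩
  have hall : ∀ E : Module.End T V, embEnd f b E ∈ A₀ := by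
    intro E
    have hE : E ∈ Submodule.span T (Set.range ρ) := by
      rw [hspan]
      exact Submodule.mem_top
    induction hE using Submodule.span_induction with
    | mem x hx =>
      obtain ⟨g, rfl⟩ := hx
      exact hg g
    | zero =>
      rw [map_zero]
      exact zero_mem _
    | add x y _ _ hx hy =>
      rw [map_add]
      exact add_mem hx hy
    | smul t x _ hx =>
      rw [embEnd_smul]
      exact Subalgebra.smul_mem _ hx _
  intro y
  have hy : y ∈ A₀ := by
    obtain ⟨Y, rfl⟩ := (Matrix.toLinAlgEquiv' : Matrix (Fin 2) (Fin 2) F ≃ₐ[F] _).surjective y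
    rw [Matrix.matrix_eq_sum_single Y]
    simp only [map_sum]
    refine Subalgebra.sum_mem _ fun i _ => Subalgebra.sum_mem _ fun j _ => ?_
    have e1 : (Matrix.single i j (Y i j) : Matrix (Fin 2) (Fin 2) F)
        = Y i j • Matrix.single i j (1 : F) := by
      rw [Matrix.smul_single, smul_eq_mul, mul_one]
    rw [e1, map_smul]
    refine Subalgebra.smul_mem _ ?_ _
    have e2 := embEnd_single f b i j
    have e3 : (Matrix.toLinAlgEquiv' : Matrix (Fin 2) (Fin 2) F ≃ₐ[F] _)
        (Matrix.single i j (1 : F)) = Matrix.toLin' (Matrix.single i j (1 : F)) := rfl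
    rw [e3, ← e2]
    exact hall _
  exact hy

/-- **Boston–Lenstra–Ribet for the specialisations.** -/
theorem exists_spec_algHom (hspan : Submodule.span T (Set.range ρ) = ⊤)
    (hrel : ∀ g : G, ρM g * ρM g - ψ (LinearMap.trace T V (ρ g)) • ρM g
      + ψ (LinearMap.det (ρ g)) • (1 : Module.End O M) = 0)
    (h2F : (2 : F) ≠ 0) :
    ∃ Ψ : Module.End F (Fin 2 → F) →ₐ[F] Module.End F (n → F),
      ∀ g, Ψ (specRep (ι.comp ψ) b ρ g) = specRep ι c ρM g := by
  set f : T →+* F := ι.comp ψ with hf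
  set d : G →* F := ((f : T →* F).comp (LinearMap.det : Module.End T V →* T)).comp ρ with hd
  have hdg : ∀ g, d g = f (LinearMap.det (ρ g)) := fun g => rfl
  have hfin2 : Module.finrank F (Fin 2 → F) = 2 := by simp
  have hπ : ∀ g, specRep ι c ρM g * specRep ι c ρM g
      - LinearMap.trace F (Fin 2 → F) (specRep f b ρ g) • specRep ι c ρM g + d g • 1 = 0 := by
    intro g
    have h := congrArg (embEnd ι c) (hrel g)
    rw [map_zero, map_add, map_sub, map_mul, embEnd_smul, embEnd_smul, map_one] at h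
    rw [specRep_apply, specRep_apply, embEnd_trace, hdg]
    exact h
  obtain ⟨Ψ, -, hΨ⟩ := blr_exists_algHom h2F (specRep f b ρ) (specRep ι c ρM) d
    (LinearMap.trace F (Fin 2 → F)) hπ (spec_surjective b ρ hspan f)
    (exists_commutator_sq_eq_one hfin2)
  exact ⟨Ψ, hΨ⟩

end Spec

end Fermat.Agent.S33.H692

end
end
-- ===== PACK-END S33/H692/OrdAlgSpec.lean

-- ===== PACK-BEGIN S17/H800/DerLocal.lean
section
/-
S17 row, piece G-DIV / DER-1, abstract local core (helper800).

`D` a derivation (additive + Leibniz) of a field `F`, `v` a place of `F/L`, `R ⊆ O_v` a `D`-stable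
subring with `Frac R = F`, `u ∈ R` with `ord_v u > 0` such that every element of `R` of positive
order is `u · a / b` with `a, b ∈ R`, `ord_v b = 0`.  Then

* `ord_v u = 1` (so `O_v` is the localisation of `R` at `m_v ∩ R`), and
* for every `f ≠ 0`:  `D f / f - ord_v f · (D u / u) ∈ O_v`.

Consequences (`ord_le_ord_der`, `ord_sub_one_le_ord_der`): if `D u = 0` then `ord_v (D f) ≥ ord_v f`;
if `D u ∈ O_v` then `ord_v (D f) ≥ ord_v f - 1`, and `D f ∈ O_v` when `ord_v f = 0`.
Proof sketch and use for RIG/DOM: `origin/helper800:coord/S17-DER-helper800.md`.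

The two instances (all hypotheses are elementary properties of the base change `F = L · F1`):

* `GenericSetup v D F1 x` (place of GENERIC type: `ord_v = 0` on `F1ˣ`, `D F1 = 0`, `D L ⊆ L`,
  `F1` algebraic over `K1(x)`, `F = Frac (L · F1)`):
  `GenericSetup.ord_sub_one_le_ord_der`, `GenericSetup.der_mem_of_ord_eq_zero`,
  `GenericSetup.exists_ord_sub_eq_one` (a generic place is unramified over `x`);
* `ConstSetup v D A1 t` (CONSTANT place: `A1` = image of the valuation ring downstairs, `t` a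
  uniformiser downstairs, `A1 = L-constants + t · A1`): `ConstSetup.ord_le_ord_der`.
-/


set_option autoImplicit false
set_option linter.unusedSectionVars false
set_option linter.style.haveILetI false

noncomputable section

open AlgebraicCurve Fermat.Agent.Lib.RR Polynomial

namespace Fermat.Agent.S17.H800

/-- An additive self-map of a commutative ring satisfying the Leibniz rule. -/
structure IsDer {F : Type*} [CommRing F] (D : F →+ F) : Prop where
  leibniz : ∀ f g : F, D (f * g) = f * D g + g * D f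

namespace IsDer

variable {F : Type*} [Field F] {D : F →+ F} (hD : IsDer D)

include hD

theorem map_one : D 1 = 0 := by
  have h := hD.leibniz 1 1
  rw [mul_one, one_mul] at h
  have h2 : D 1 + D 1 = D 1 + 0 := by rw [add_zero]; exact h.symm
  exact add_left_cancel h2

/-- Logarithmic derivative of a product. -/
theorem ld_mul {f g : F} (hf : f ≠ 0) (hg : g ≠ 0) :
    D (f * g) / (f * g) = D f / f + D g / g := by
  rw [hD.leibniz]
  field_simp
  ring

theorem ld_inv {f : F} (hf : f ≠ 0) : D f⁻¹ / f⁻¹ = -(D f / f) := by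
  have h := hD.ld_mul hf (inv_ne_zero hf)
  rw [mul_inv_cancel₀ hf, hD.map_one, zero_div] at h
  rw [eq_neg_iff_add_eq_zero, add_comm]
  exact h.symm

theorem ld_div {f g : F} (hf : f ≠ 0) (hg : g ≠ 0) :
    D (f / g) / (f / g) = D f / f - D g / g := by
  have h : f / g = f * g⁻¹ := div_eq_mul_inv f g
  rw [h, hD.ld_mul hf (inv_ne_zero hg), hD.ld_inv hg, sub_eq_add_neg]

theorem ld_pow {f : F} (hf : f ≠ 0) (n : ℕ) : D (f ^ n) / f ^ n = n * (D f / f) := by
  induction n with
  | zero => simp [hD.map_one]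
  | succ n ih =>
    rw [pow_succ, hD.ld_mul (pow_ne_zero n hf) hf, ih]
    push_cast
    ring

end IsDer

section Local

variable {L F : Type*} [Field L] [Field F] [Algebra L F]

/-- The hypotheses of the abstract local statement. -/
structure DerLocalData (v : Place L F) (D : F →+ F) (R : Subring F) (u : F) : Prop where
  isDer : IsDer D
  le_val : ∀ g ∈ R, g ∈ v.toValuationSubring
  stable : ∀ g ∈ R, D g ∈ R
  frac : ∀ f : F, ∃ g ∈ R, ∃ h ∈ R, h ≠ 0 ∧ f * h = g
  u_mem : u ∈ R
  u_pos : 0 < v.ord u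
  gen : ∀ g ∈ R, 0 < v.ord g → ∃ a ∈ R, ∃ b ∈ R, b ≠ 0 ∧ v.ord b = 0 ∧ g * b = u * a

namespace DerLocalData

variable {v : Place L F} {D : F →+ F} {R : Subring F} {u : F} (H : DerLocalData v D R u)

include H

theorem u_ne_zero : u ≠ 0 := ne_zero_of_ord_ne_zero v H.u_pos.ne'

theorem ord_nonneg {g : F} (hg : g ∈ R) : 0 ≤ v.ord g := ord_nonneg_of_mem v (H.le_val g hg)

/-- Logarithmic derivatives of units of `R` are integral. -/
theorem ld_mem_of_ord_eq_zero {p : F} (hp : p ∈ R) (_hp0 : p ≠ 0) (hord : v.ord p = 0) :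
    D p / p ∈ v.toValuationSubring := by
  rw [div_eq_mul_inv]
  refine mul_mem (H.le_val _ (H.stable p hp)) (mem_of_ord_nonneg v ?_)
  rw [v.ord_inv, hord]
  simp

/-- Factorisation in `R`: `g · b = u ^ k · a` with `a, b` units at `v`. -/
theorem exists_factor (n : ℕ) : ∀ g ∈ R, g ≠ 0 → v.ord g ≤ n →
    ∃ k : ℕ, ∃ a ∈ R, ∃ b ∈ R, a ≠ 0 ∧ b ≠ 0 ∧ v.ord a = 0 ∧ v.ord b = 0 ∧ g * b = u ^ k * a := by
  induction n with
  | zero =>
    intro g hg hg0 hle
    have h0 : v.ord g = 0 := le_antisymm (by simpa using hle) (H.ord_nonneg hg)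
    exact ⟨0, g, hg, 1, R.one_mem, hg0, one_ne_zero, h0, v.ord_one, by simp⟩
  | succ n ih =>
    intro g hg hg0 hle
    rcases (H.ord_nonneg hg).eq_or_lt with h0 | hpos
    · exact ⟨0, g, hg, 1, R.one_mem, hg0, one_ne_zero, h0.symm, v.ord_one, by simp⟩
    · obtain ⟨a, ha, b, hb, hb0, hbord, hab⟩ := H.gen g hg hpos
      have ha0 : a ≠ 0 := by
        rintro rfl
        rw [mul_zero] at hab
        exact (mul_ne_zero hg0 hb0) hab
      have hu0 := H.u_ne_zero
      have h1 : v.ord g = v.ord u + v.ord a := by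
        have := congrArg v.ord hab
        rw [v.ord_mul hg0 hb0, v.ord_mul hu0 ha0, hbord, add_zero] at this
        exact this
      have h2 : v.ord a ≤ n := by
        have := H.u_pos
        push_cast at hle
        omega
      obtain ⟨k, a', ha', b', hb', ha'0, hb'0, ha'ord, hb'ord, hfac⟩ := ih a ha ha0 h2
      refine ⟨k + 1, a', ha', b * b', R.mul_mem hb hb', ha'0, mul_ne_zero hb0 hb'0, ha'ord, ?_, ?_⟩
      · rw [v.ord_mul hb0 hb'0, hbord, hb'ord, add_zero]
      · calc g * (b * b') = (g * b) * b' := by ring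
          _ = u * (a * b') := by rw [hab]; ring
          _ = u ^ (k + 1) * a' := by rw [hfac]; ring

/-- Elements of `R`: order and logarithmic derivative. -/
theorem exists_ord_ld {g : F} (hg : g ∈ R) (hg0 : g ≠ 0) :
    ∃ k : ℕ, v.ord g = k * v.ord u ∧ D g / g - k * (D u / u) ∈ v.toValuationSubring := by
  obtain ⟨k, a, ha, b, hb, ha0, hb0, haord, hbord, hfac⟩ :=
    H.exists_factor (v.ord g).toNat g hg hg0 (by
      rw [Int.toNat_of_nonneg (H.ord_nonneg hg)])
  have hu0 := H.u_ne_zero
  refine ⟨k, ?_, ?_⟩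
  · have := congrArg v.ord hfac
    rw [v.ord_mul hg0 hb0, v.ord_mul (pow_ne_zero k hu0) ha0, hbord, haord, add_zero, add_zero,
      ord_pow] at this
    exact this
  · have h1 : D (g * b) / (g * b) = D (u ^ k * a) / (u ^ k * a) := by rw [hfac]
    rw [H.isDer.ld_mul hg0 hb0, H.isDer.ld_mul (pow_ne_zero k hu0) ha0,
      H.isDer.ld_pow hu0] at h1
    have h2 : D g / g - k * (D u / u) = D a / a - D b / b := by
      rw [sub_eq_sub_iff_add_eq_add, h1]
      ring
    rw [h2]
    exact sub_mem (H.ld_mem_of_ord_eq_zero ha ha0 haord) (H.ld_mem_of_ord_eq_zero hb hb0 hbord)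

/-- All elements of `F`: order and logarithmic derivative. -/
theorem exists_ord_ld' {f : F} (hf : f ≠ 0) :
    ∃ m : ℤ, v.ord f = m * v.ord u ∧ D f / f - m * (D u / u) ∈ v.toValuationSubring := by
  obtain ⟨g, hg, h, hh, hh0, hfh⟩ := H.frac f
  have hg0 : g ≠ 0 := by
    rw [← hfh]
    exact mul_ne_zero hf hh0
  obtain ⟨k, hk, hkld⟩ := H.exists_ord_ld hg hg0
  obtain ⟨l, hl, hlld⟩ := H.exists_ord_ld hh hh0
  have hfdiv : f = g / h := by
    rw [← hfh, mul_div_cancel_right₀ _ hh0]
  refine ⟨(k : ℤ) - l, ?_, ?_⟩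
  · rw [hfdiv, div_eq_mul_inv, v.ord_mul hg0 (inv_ne_zero hh0), v.ord_inv, hk, hl]
    ring
  · rw [hfdiv, H.isDer.ld_div hg0 hh0]
    have : D g / g - D h / h - ((k : ℤ) - (l : ℤ) : ℤ) * (D u / u)
        = (D g / g - k * (D u / u)) - (D h / h - l * (D u / u)) := by
      push_cast
      ring
    rw [this]
    exact sub_mem hkld hlld

/-- `u` is a uniformiser at `v`. -/
theorem ord_u : v.ord u = 1 := by
  obtain ⟨π, hπ⟩ := IsDiscreteValuationRing.exists_irreducible v.toValuationSubring
  have hπ1 : v.ord (π : F) = 1 := v.ord_coe_irreducible hπ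
  have hπ0 : (π : F) ≠ 0 := ne_zero_of_ord_ne_zero v (by rw [hπ1]; exact one_ne_zero)
  obtain ⟨m, hm, -⟩ := H.exists_ord_ld' hπ0
  rw [hπ1] at hm
  have hpos := H.u_pos
  have h1 : v.ord u ∣ 1 := ⟨m, by rw [mul_comm]; exact hm⟩
  exact Int.eq_one_of_dvd_one hpos.le h1

/-- **Abstract DER-1.**  `D f / f - ord_v f · (D u / u) ∈ O_v`. -/
theorem ld_sub_mem {f : F} (hf : f ≠ 0) :
    D f / f - (v.ord f : ℤ) * (D u / u) ∈ v.toValuationSubring := by
  obtain ⟨m, hm, hmld⟩ := H.exists_ord_ld' hf
  rw [H.ord_u, mul_one] at hm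
  rw [hm]
  exact hmld

/-- If `D u = 0` (constant place): `D` does not lower the order. -/
theorem ord_le_ord_der (hDu : D u = 0) {f : F} (hf : f ≠ 0) (hDf : D f ≠ 0) :
    v.ord f ≤ v.ord (D f) := by
  have h := H.ld_sub_mem hf
  rw [hDu, zero_div, mul_zero, sub_zero] at h
  have h1 := ord_nonneg_of_mem v h
  rw [div_eq_mul_inv, v.ord_mul hDf (inv_ne_zero hf), v.ord_inv] at h1
  omega

/-- If `D u ∈ O_v`: `D` lowers the order by at most one. -/
theorem ord_sub_one_le_ord_der (hDu : D u ∈ v.toValuationSubring) {f : F} (hf : f ≠ 0)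
    (hDf : D f ≠ 0) : v.ord f - 1 ≤ v.ord (D f) := by
  have h := H.ld_sub_mem hf
  have hu0 := H.u_ne_zero
  have h2 : (v.ord f : ℤ) * (D u / u) * u ∈ v.toValuationSubring := by
    have : ((v.ord f : ℤ) : F) * (D u / u) * u = ((v.ord f : ℤ) : F) * D u := by
      field_simp
    rw [this]
    exact mul_mem (intCast_mem _ _) hDu
  have h3 : D f / f * u ∈ v.toValuationSubring := by
    have : D f / f * u = (D f / f - (v.ord f : ℤ) * (D u / u)) * u
        + (v.ord f : ℤ) * (D u / u) * u := by ring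
    rw [this]
    exact add_mem (mul_mem h (H.le_val u H.u_mem)) h2
  have h4 := ord_nonneg_of_mem v h3
  rw [v.ord_mul (div_ne_zero hDf hf) hu0, div_eq_mul_inv, v.ord_mul hDf (inv_ne_zero hf),
    v.ord_inv, H.ord_u] at h4
  omega

/-- If `f` is a unit at `v`, then `D f ∈ O_v`. -/
theorem der_mem_of_ord_eq_zero {f : F} (hf : f ≠ 0)
    (hord : v.ord f = 0) : D f ∈ v.toValuationSubring := by
  have h := H.ld_sub_mem hf
  rw [hord] at h
  simp only [Int.cast_zero, zero_mul, sub_zero] at h
  have hfm : f ∈ v.toValuationSubring := mem_of_ord_nonneg v (by rw [hord])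
  have : D f = D f / f * f := by field_simp
  rw [this]
  exact mul_mem h hfm

end DerLocalData

end Local

/-! ### The value map at a place of degree one -/

section Value

variable {L F : Type*} [Field L] [Field F] [Algebra L F]

theorem bijective_algebraMap_residue (v : Place L F) (hv : v.deg = 1) :
    Function.Bijective (algebraMap L v.ResidueField) := by
  refine ⟨(algebraMap L v.ResidueField).injective, fun y => ?_⟩
  have h1 : (1 : v.ResidueField) ≠ 0 := one_ne_zero
  have hspan := (finrank_eq_one_iff_of_nonzero' (1 : v.ResidueField) h1).mp hv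
  obtain ⟨c, hc⟩ := hspan y
  exact ⟨c, by rw [← hc, Algebra.smul_def, mul_one]⟩

/-- The value of a regular function at a place of degree one. -/
def evO (v : Place L F) (hv : v.deg = 1) : v.toValuationSubring →+* L :=
  ((RingEquiv.ofBijective (algebraMap L v.ResidueField)
    (bijective_algebraMap_residue v hv)).symm : v.ResidueField →+* L).comp
      (IsLocalRing.residue v.toValuationSubring)

theorem evO_algebraMap (v : Place L F) (hv : v.deg = 1) (c : L) :
    evO v hv (algebraMap L v.toValuationSubring c) = c := by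
  show (RingEquiv.ofBijective (algebraMap L v.ResidueField)
    (bijective_algebraMap_residue v hv)).symm
      (IsLocalRing.residue v.toValuationSubring (algebraMap L v.toValuationSubring c)) = c
  rw [RingEquiv.symm_apply_eq]
  rfl

theorem evO_eq_zero_iff (v : Place L F) (hv : v.deg = 1) (a : v.toValuationSubring) :
    evO v hv a = 0 ↔ (a : F) = 0 ∨ 0 < v.ord (a : F) := by
  rw [← mem_maximalIdeal_iff, ← IsLocalRing.residue_eq_zero_iff]
  show (RingEquiv.ofBijective (algebraMap L v.ResidueField)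
    (bijective_algebraMap_residue v hv)).symm
      (IsLocalRing.residue v.toValuationSubring a) = 0 ↔ _
  rw [RingEquiv.symm_apply_eq, map_zero]

end Value

/-! ### Elements of positive order, the localisation of a subring at a place -/

section Loc

variable {L F : Type*} [Field L] [Field F] [Algebra L F]
variable (v : Place L F)

/-- `f` lies in the maximal ideal of `v`. -/
def Pos (f : F) : Prop := f = 0 ∨ 0 < v.ord f

variable {v}

theorem Pos.zero : Pos v (0 : F) := Or.inl rfl

theorem Pos.mem {f : F} (h : Pos v f) : f ∈ v.toValuationSubring := by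
  rcases h with rfl | h
  · exact zero_mem _
  · exact mem_of_ord_nonneg v h.le

theorem Pos.add {f g : F} (hf : Pos v f) (hg : Pos v g) : Pos v (f + g) :=
  ord_add_of_le v (n := 1) hf hg

theorem Pos.neg {f : F} (hf : Pos v f) : Pos v (-f) := by
  rcases hf with rfl | h
  · left; simp
  · right; rwa [ord_neg]

theorem Pos.mul {f g : F} (hf : Pos v f) (hg : g ∈ v.toValuationSubring) : Pos v (f * g) := by
  rcases hf with rfl | h
  · left; simp
  rcases eq_or_ne g 0 with rfl | hg0
  · left; simp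
  right
  have hf0 : f ≠ 0 := ne_zero_of_ord_ne_zero v h.ne'
  rw [v.ord_mul hf0 hg0]
  have := ord_nonneg_of_mem v hg
  omega

theorem Pos.sub {f g : F} (hf : Pos v f) (hg : Pos v g) : Pos v (f - g) := by
  rw [sub_eq_add_neg]
  exact hf.add hg.neg

theorem Pos.eq_zero_of_algebraMap {c : L} (h : Pos v (algebraMap L F c)) : c = 0 := by
  rcases h with h | h
  · exact (_root_.map_eq_zero _).mp h
  · rw [ord_algebraMap] at h
    exact absurd h (lt_irrefl 0)

/-- a nonzero constant plus an element of positive order is a unit at `v` -/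
theorem ord_const_add {c : L} (hc : c ≠ 0) {f : F} (hf : Pos v f) :
    algebraMap L F c + f ≠ 0 ∧ v.ord (algebraMap L F c + f) = 0 := by
  have hc' : algebraMap L F c ≠ 0 := (_root_.map_ne_zero _).mpr hc
  rcases hf with rfl | h
  · rw [add_zero]
    exact ⟨hc', ord_algebraMap v c⟩
  · have hf0 : f ≠ 0 := ne_zero_of_ord_ne_zero v h.ne'
    have h1 : v.ord (algebraMap L F c) < v.ord f := by rw [ord_algebraMap]; exact h
    have h2 := ord_add_eq_of_lt v hc' hf0 h1
    rw [ord_algebraMap] at h2
    refine ⟨fun h0 => ?_, h2⟩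
    have : f = -(algebraMap L F c) := by
      rw [eq_neg_iff_add_eq_zero, add_comm]; exact h0
    rw [this, ord_neg, ord_algebraMap] at h
    exact lt_irrefl 0 h

variable (v) (R0 : Subalgebra L F)

/-- `f` lies in the localisation of `R0` at the elements which are units at `v`. -/
def Loc (f : F) : Prop := ∃ a ∈ R0, ∃ b ∈ R0, b ≠ 0 ∧ v.ord b = 0 ∧ f * b = a

variable {v R0}

theorem Loc.of_mem {f : F} (hf : f ∈ R0) : Loc v R0 f :=
  ⟨f, hf, 1, R0.one_mem, one_ne_zero, v.ord_one, mul_one f⟩

theorem Loc.add {f g : F} (hf : Loc v R0 f) (hg : Loc v R0 g) : Loc v R0 (f + g) := by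
  obtain ⟨a, ha, b, hb, hb0, hbo, hab⟩ := hf
  obtain ⟨a', ha', b', hb', hb0', hbo', hab'⟩ := hg
  refine ⟨a * b' + a' * b, R0.add_mem (R0.mul_mem ha hb') (R0.mul_mem ha' hb), b * b',
    R0.mul_mem hb hb', mul_ne_zero hb0 hb0', ?_, ?_⟩
  · rw [v.ord_mul hb0 hb0', hbo, hbo', add_zero]
  · rw [← hab, ← hab']; ring

theorem Loc.mul {f g : F} (hf : Loc v R0 f) (hg : Loc v R0 g) : Loc v R0 (f * g) := by
  obtain ⟨a, ha, b, hb, hb0, hbo, hab⟩ := hf
  obtain ⟨a', ha', b', hb', hb0', hbo', hab'⟩ := hg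
  refine ⟨a * a', R0.mul_mem ha ha', b * b', R0.mul_mem hb hb', mul_ne_zero hb0 hb0', ?_, ?_⟩
  · rw [v.ord_mul hb0 hb0', hbo, hbo', add_zero]
  · rw [← hab, ← hab']; ring

theorem Loc.neg {f : F} (hf : Loc v R0 f) : Loc v R0 (-f) := by
  obtain ⟨a, ha, b, hb, hb0, hbo, hab⟩ := hf
  exact ⟨-a, R0.neg_mem ha, b, hb, hb0, hbo, by rw [← hab]; ring⟩

theorem Loc.div {f b : F} (hf : Loc v R0 f) (hb : b ∈ R0) (hb0 : b ≠ 0) (hbo : v.ord b = 0) :
    Loc v R0 (f / b) := by
  obtain ⟨a, ha, b', hb', hb0', hbo', hab⟩ := hf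
  refine ⟨a, ha, b' * b, R0.mul_mem hb' hb, mul_ne_zero hb0' hb0, ?_, ?_⟩
  · rw [v.ord_mul hb0' hb0, hbo, hbo', add_zero]
  · rw [← hab]; field_simp

theorem Loc.sum {ι : Type*} (s : Finset ι) {f : ι → F} (hf : ∀ i ∈ s, Loc v R0 (f i)) :
    Loc v R0 (∑ i ∈ s, f i) := by
  classical
  induction s using Finset.induction_on with
  | empty => simpa using Loc.of_mem (v := v) R0.zero_mem
  | insert a s ha ih =>
    rw [Finset.sum_insert ha]
    exact (hf a (Finset.mem_insert_self a s)).add
      (ih fun i hi => hf i (Finset.mem_insert_of_mem hi))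

theorem Loc.mem_val (hR0 : ∀ g ∈ R0, g ∈ v.toValuationSubring) {f : F} (hf : Loc v R0 f) :
    f ∈ v.toValuationSubring := by
  obtain ⟨a, ha, b, hb, hb0, hbo, hab⟩ := hf
  have h1 : f = a * b⁻¹ := by rw [← hab]; field_simp
  rw [h1]
  exact mul_mem (hR0 a ha) (mem_of_ord_nonneg v (by rw [v.ord_inv, hbo]; simp))

theorem ord_unit_add {f g : F} (hf0 : f ≠ 0) (hf : v.ord f = 0) (hg : Pos v g) :
    f + g ≠ 0 ∧ v.ord (f + g) = 0 := by
  rcases hg with rfl | h
  · rw [add_zero]; exact ⟨hf0, hf⟩
  · have hg0 : g ≠ 0 := ne_zero_of_ord_ne_zero v h.ne'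
    have h1 : v.ord f < v.ord g := by rw [hf]; exact h
    have h2 := ord_add_eq_of_lt v hf0 hg0 h1
    rw [hf] at h2
    refine ⟨fun h0 => ?_, h2⟩
    have : g = -f := by rw [eq_neg_iff_add_eq_zero, add_comm]; exact h0
    rw [this, ord_neg, hf] at h
    exact lt_irrefl 0 h

end Loc

/-! ### Congruence to constants modulo `u` -/

section InS

variable {L F : Type*} [Field L] [Field F] [Algebra L F]
variable (v : Place L F) (R0 : Subalgebra L F) (u : F)

/-- `f ≡ c` modulo `u · Loc` for some constant `c ∈ L`. -/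
def InS (f : F) : Prop := ∃ c : L, ∃ r, Loc v R0 r ∧ f - algebraMap L F c = u * r

variable {v R0 u}

theorem InS.const (c : L) : InS v R0 u (algebraMap L F c) :=
  ⟨c, 0, Loc.of_mem R0.zero_mem, by simp⟩

theorem InS.zero : InS v R0 u (0 : F) := by
  simpa using InS.const (v := v) (R0 := R0) (u := u) 0

theorem InS.one : InS v R0 u (1 : F) := by
  simpa using InS.const (v := v) (R0 := R0) (u := u) 1

theorem InS.add {f g : F} (hf : InS v R0 u f) (hg : InS v R0 u g) : InS v R0 u (f + g) := by
  obtain ⟨c, r, hr, h⟩ := hf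
  obtain ⟨c', r', hr', h'⟩ := hg
  refine ⟨c + c', r + r', hr.add hr', ?_⟩
  rw [map_add, mul_add, ← h, ← h']
  ring

theorem InS.neg {f : F} (hf : InS v R0 u f) : InS v R0 u (-f) := by
  obtain ⟨c, r, hr, h⟩ := hf
  refine ⟨-c, -r, hr.neg, ?_⟩
  rw [map_neg, mul_neg, ← h]
  ring

theorem InS.mul (hu : u ∈ R0) {f g : F} (hf : InS v R0 u f) (hg : InS v R0 u g) :
    InS v R0 u (f * g) := by
  obtain ⟨c, r, hr, h⟩ := hf
  obtain ⟨c', r', hr', h'⟩ := hg
  have hc : Loc v R0 (algebraMap L F c) := Loc.of_mem (R0.algebraMap_mem c)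
  have hc' : Loc v R0 (algebraMap L F c') := Loc.of_mem (R0.algebraMap_mem c')
  refine ⟨c * c', algebraMap L F c * r' + algebraMap L F c' * r + u * (r * r'),
    ((hc.mul hr').add (hc'.mul hr)).add ((Loc.of_mem hu).mul (hr.mul hr')), ?_⟩
  have e1 : f = algebraMap L F c + u * r := by rw [← h]; ring
  have e2 : g = algebraMap L F c' + u * r' := by rw [← h']; ring
  rw [e1, e2, map_mul]
  ring

theorem InS.pow (hu : u ∈ R0) {f : F} (hf : InS v R0 u f) (n : ℕ) : InS v R0 u (f ^ n) := by
  induction n with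
  | zero => simpa using InS.one (v := v) (R0 := R0) (u := u)
  | succ n ih => rw [pow_succ]; exact ih.mul hu hf

theorem InS.sum {ι : Type*} (s : Finset ι) {f : ι → F} (hf : ∀ i ∈ s, InS v R0 u (f i)) :
    InS v R0 u (∑ i ∈ s, f i) := by
  classical
  induction s using Finset.induction_on with
  | empty => simpa using InS.zero (v := v) (R0 := R0) (u := u)
  | insert a s ha ih =>
    rw [Finset.sum_insert ha]
    exact (hf a (Finset.mem_insert_self a s)).add
      (ih fun i hi => hf i (Finset.mem_insert_of_mem hi))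

theorem InS.loc (hu : u ∈ R0) {f : F} (hf : InS v R0 u f) : Loc v R0 f := by
  obtain ⟨c, r, hr, h⟩ := hf
  have e1 : f = algebraMap L F c + u * r := by rw [← h]; ring
  rw [e1]
  exact (Loc.of_mem (R0.algebraMap_mem c)).add ((Loc.of_mem hu).mul hr)

/-- The constant of an element of positive order is `0`. -/
theorem InS.exists_mul_of_pos (hR0 : ∀ g ∈ R0, g ∈ v.toValuationSubring) (hupos : Pos v u)
    {f : F} (hf : InS v R0 u f) (hpos : Pos v f) : ∃ r, Loc v R0 r ∧ f = u * r := by
  obtain ⟨c, r, hr, h⟩ := hf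
  have h1 : Pos v (algebraMap L F c) := by
    have e : algebraMap L F c = f - u * r := by rw [← h]; ring
    rw [e]
    exact hpos.sub (hupos.mul (hr.mem_val hR0))
  have hc : c = 0 := h1.eq_zero_of_algebraMap
  refine ⟨r, hr, ?_⟩
  rw [← h, hc, map_zero, sub_zero]

/-- Inverses of units. -/
theorem InS.inv (hR0 : ∀ g ∈ R0, g ∈ v.toValuationSubring) (hupos : Pos v u)
    {f : F} (hf : InS v R0 u f) (hfR : f ∈ R0) (hf0 : f ≠ 0) (hfo : v.ord f = 0) :
    InS v R0 u f⁻¹ := by
  obtain ⟨c, r, hr, h⟩ := hf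
  have hc : c ≠ 0 := by
    rintro rfl
    rw [map_zero, sub_zero] at h
    have hp : Pos v f := by rw [h]; exact hupos.mul (hr.mem_val hR0)
    rcases hp with h0 | h0
    · exact hf0 h0
    · omega
  have hc' : algebraMap L F c ≠ 0 := (_root_.map_ne_zero _).mpr hc
  refine ⟨c⁻¹, -(algebraMap L F c⁻¹ * r) / f,
    (Loc.div ((Loc.of_mem (R0.algebraMap_mem c⁻¹)).mul hr).neg hfR hf0 hfo), ?_⟩
  have e1 : f = algebraMap L F c + u * r := by rw [← h]; ring
  have e2 : u * r = f - algebraMap L F c := h.symm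
  rw [map_inv₀]
  field_simp
  rw [e2]
  ring

/-- **Lifting along separable roots.**  If the coefficients of `q` are congruent to constants
modulo `u`, `q h = 0` and `q' h` is a unit at `v`, then `h` is congruent to a constant. -/
theorem InS.of_root (hR0 : ∀ g ∈ R0, g ∈ v.toValuationSubring) (hv : v.deg = 1)
    (huR : u ∈ R0) (hupos : Pos v u)
    (q : Polynomial R0) (hq : ∀ i, InS v R0 u ((q.coeff i : R0) : F))
    (h : R0) (hroot : q.eval h = 0)
    (hsep0 : ((q.derivative.eval h : R0) : F) ≠ 0)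
    (hsep : v.ord ((q.derivative.eval h : R0) : F) = 0) :
    InS v R0 u (h : F) := by
  obtain ⟨c, hc⟩ := exists_const_sub v hv (ord_nonneg_of_mem v (hR0 h h.2))
  have hpos : Pos v ((h : F) - algebraMap L F c) := hc
  set c₀ : R0 := algebraMap L R0 c with hc₀
  have hc₀F : ((c₀ : R0) : F) = algebraMap L F c := rfl
  set G := q /ₘ (X - C h) with hG
  have hqG : (X - C h) * G = q := by
    have := Polynomial.modByMonic_add_div q (X - C h)
    rwa [Polynomial.modByMonic_X_sub_C_eq_C_eval, hroot, C_0, zero_add] at this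
  have hGh : G.eval h = q.derivative.eval h := by
    rw [← hqG, derivative_mul]
    simp
  have e1 : q.eval c₀ = (c₀ - h) * G.eval c₀ := by
    rw [← hqG]
    simp
  obtain ⟨w, hw⟩ : (c₀ - h) ∣ G.eval c₀ - G.eval h := Polynomial.sub_dvd_eval_sub c₀ h G
  have hposneg : Pos v (((c₀ - h : R0) : R0) : F) := by
    have : (((c₀ - h : R0) : R0) : F) = -((h : F) - algebraMap L F c) := by
      push_cast
      rw [hc₀F]
      ring
    rw [this]
    exact hpos.neg
  have hGc : ((G.eval c₀ : R0) : F) ≠ 0 ∧ v.ord ((G.eval c₀ : R0) : F) = 0 := by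
    have e2 : ((G.eval c₀ : R0) : F)
        = ((q.derivative.eval h : R0) : F) + (((c₀ - h : R0) : R0) : F) * (w : F) := by
      rw [← hGh]
      have := congrArg (fun z : R0 => (z : F)) hw
      push_cast at this ⊢
      rw [← this]
      ring
    rw [e2]
    exact ord_unit_add hsep0 hsep (hposneg.mul (hR0 w w.2))
  have hqc : InS v R0 u ((q.eval c₀ : R0) : F) := by
    rw [Polynomial.eval_eq_sum_range]
    push_cast
    refine InS.sum _ fun i _ => ?_
    exact (hq i).mul huR ((InS.const c).pow huR i)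
  have hqcpos : Pos v ((q.eval c₀ : R0) : F) := by
    rw [e1]
    push_cast
    have := hposneg.mul (hR0 _ (G.eval c₀).2)
    push_cast at this
    exact this
  obtain ⟨r, hr, hqr⟩ := hqc.exists_mul_of_pos hR0 hupos hqcpos
  refine ⟨c, -r / ((G.eval c₀ : R0) : F),
    Loc.div hr.neg (G.eval c₀).2 hGc.1 hGc.2, ?_⟩
  have e3 : ((q.eval c₀ : R0) : F) = (algebraMap L F c - (h : F)) * ((G.eval c₀ : R0) : F) := by
    rw [e1]
    push_cast
    rw [hc₀F]
  rw [e3] at hqr
  have hne := hGc.1
  field_simp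
  linear_combination -hqr

end InS

/-! ### The generic case -/

section GenericCase

variable {K1 L F : Type*} [Field K1] [Field L] [Field F] [Algebra K1 L] [Algebra L F]
  [Algebra K1 F] [IsScalarTower K1 L F] [CharZero K1]

/-- The situation at a place of generic type: `F1 ⊆ F` is the (image of the) function field over
the small constant field `K1 ⊆ L`, the derivation `D` kills `F1` and preserves `L`, the place `v`
of `F / L` is trivial on `F1`, and `F = Frac (L · F1)`. -/
structure GenericSetup (v : Place L F) (D : F →+ F) (F1 : IntermediateField K1 F) (x : F) :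
    Prop where
  deg_one : v.deg = 1
  isDer : IsDer D
  der_F1 : ∀ h ∈ F1, D h = 0
  der_const : ∀ c : L, ∃ c' : L, D (algebraMap L F c) = algebraMap L F c'
  generic : ∀ h ∈ F1, h ≠ 0 → v.ord h = 0
  x_mem : x ∈ F1
  x_nonconst : x ∉ Set.range (algebraMap L F)
  algebraic : ∀ h ∈ F1, IsAlgebraic (IntermediateField.adjoin K1 {x}) h
  frac : ∀ f : F, ∃ g ∈ Algebra.adjoin L (F1 : Set F), ∃ h ∈ Algebra.adjoin L (F1 : Set F),
    h ≠ 0 ∧ f * h = g

namespace GenericSetup

variable {v : Place L F} {D : F →+ F} {F1 : IntermediateField K1 F} {x : F}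
  (H : GenericSetup v D F1 x)

include H

theorem F1_mem_val {h : F} (hh : h ∈ F1) : h ∈ v.toValuationSubring := by
  rcases eq_or_ne h 0 with rfl | h0
  · exact zero_mem _
  · exact mem_of_ord_nonneg v (by rw [H.generic h hh h0])

theorem adjoin_le_val : ∀ g ∈ Algebra.adjoin L (F1 : Set F), g ∈ v.toValuationSubring := by
  intro g hg
  induction hg using Algebra.adjoin_induction with
  | mem h hh => exact H.F1_mem_val hh
  | algebraMap c => exact v.algebraMap_mem' c
  | add f g _ _ hf hg => exact add_mem hf hg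
  | mul f g _ _ hf hg => exact mul_mem hf hg

theorem adjoin_stable : ∀ g ∈ Algebra.adjoin L (F1 : Set F),
    D g ∈ Algebra.adjoin L (F1 : Set F) := by
  intro g hg
  induction hg using Algebra.adjoin_induction with
  | mem h hh =>
    rw [H.der_F1 h hh]
    exact zero_mem _
  | algebraMap c =>
    obtain ⟨c', hc'⟩ := H.der_const c
    rw [hc']
    exact Subalgebra.algebraMap_mem _ c'
  | add f g _ _ hf hg =>
    rw [map_add]
    exact add_mem hf hg
  | mul f g hf' hg' hf hg =>
    rw [H.isDer.leibniz]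
    exact add_mem (mul_mem hf' hg) (mul_mem hg' hf)

theorem F1_le_adjoin {h : F} (hh : h ∈ F1) : h ∈ Algebra.adjoin L (F1 : Set F) :=
  Algebra.subset_adjoin hh

theorem adjoin_simple_le : IntermediateField.adjoin K1 {x} ≤ F1 := by
  rw [IntermediateField.adjoin_le_iff]
  rintro _ rfl
  exact H.x_mem

/-- The value `a = x(P)` and the local parameter `u = x - a`. -/
theorem exists_value : ∃ a : L, Pos v (x - algebraMap L F a) ∧ x - algebraMap L F a ≠ 0 := by
  obtain ⟨a, ha⟩ := exists_const_sub v H.deg_one (ord_nonneg_of_mem v (H.F1_mem_val H.x_mem))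
  refine ⟨a, ha, fun h0 => H.x_nonconst ⟨a, ?_⟩⟩
  rw [sub_eq_zero] at h0
  exact h0.symm

section WithValue

variable {a : L} (ha : Pos v (x - algebraMap L F a))

include ha

theorem u_mem : x - algebraMap L F a ∈ Algebra.adjoin L (F1 : Set F) :=
  sub_mem (H.F1_le_adjoin H.x_mem) (Subalgebra.algebraMap_mem _ a)

theorem inS_x : InS v (Algebra.adjoin L (F1 : Set F)) (x - algebraMap L F a) x :=
  ⟨a, 1, Loc.of_mem (Subalgebra.one_mem _), by ring⟩

/-- Claim A: rational functions of `x` with coefficients in `K1`. -/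
theorem inS_of_mem_adjoin_simple {e : F} (he : e ∈ IntermediateField.adjoin K1 {x}) :
    InS v (Algebra.adjoin L (F1 : Set F)) (x - algebraMap L F a) e := by
  have hu := H.u_mem ha
  induction he using IntermediateField.adjoin_induction with
  | mem y hy =>
    rw [Set.mem_singleton_iff.mp hy]
    exact H.inS_x ha
  | algebraMap k =>
    rw [IsScalarTower.algebraMap_apply K1 L F]
    exact InS.const _
  | add y z _ _ hy hz => exact hy.add hz
  | inv y hy ih =>
    rcases eq_or_ne y 0 with rfl | hy0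
    · simpa using InS.zero (v := v) (R0 := Algebra.adjoin L (F1 : Set F))
        (u := x - algebraMap L F a)
    · have hyF1 : y ∈ F1 := H.adjoin_simple_le hy
      exact ih.inv H.adjoin_le_val ha (H.F1_le_adjoin hyF1) hy0 (H.generic y hyF1 hy0)
  | mul y z _ _ hy hz => exact hy.mul hu hz

/-- (b1): every element of `F1` is congruent to a constant modulo `u`. -/
theorem inS_of_mem_F1 {h : F} (hh : h ∈ F1) :
    InS v (Algebra.adjoin L (F1 : Set F)) (x - algebraMap L F a) h := by
  set E := IntermediateField.adjoin K1 {x} with hE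
  set R0 := Algebra.adjoin L (F1 : Set F) with hR0def
  haveI : CharZero F := charZero_of_injective_algebraMap (algebraMap K1 F).injective
  haveI : CharZero E := charZero_of_injective_algebraMap (algebraMap K1 E).injective
  have hint : IsIntegral E h := (H.algebraic h hh).isIntegral
  set q := minpoly E h with hq
  have hsepq : q.Separable := (minpoly.irreducible hint).separable
  have hER : ∀ e : E, (e : F) ∈ R0 := fun e => H.F1_le_adjoin (H.adjoin_simple_le e.2)
  let ι : E →+* R0 := (algebraMap E F).codRestrict R0 hER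
  have hι : ∀ e : E, ((ι e : R0) : F) = (e : F) := fun e => rfl
  have hcomp : (R0.val : R0 →+* F).comp ι = algebraMap E F := RingHom.ext fun e => rfl
  let h₀ : R0 := ⟨h, H.F1_le_adjoin hh⟩
  have heval : ∀ p : Polynomial E, (((p.map ι).eval h₀ : R0) : F) = aeval h p := by
    intro p
    rw [Polynomial.eval_map]
    have := Polynomial.hom_eval₂ p ι (R0.val : R0 →+* F) h₀
    rw [hcomp] at this
    exact this
  have hroot : (q.map ι).eval h₀ = 0 := by
    apply Subtype.ext
    rw [heval]
    exact minpoly.aeval E h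
  have hderiv : (((q.map ι).derivative.eval h₀ : R0) : F) = aeval h q.derivative := by
    rw [Polynomial.derivative_map, heval]
  have hd0 : aeval h q.derivative ≠ 0 :=
    hsepq.aeval_derivative_ne_zero (minpoly.aeval E h)
  have hdF1 : aeval h q.derivative ∈ F1 := by
    rw [Polynomial.aeval_eq_sum_range]
    refine sum_mem fun i _ => ?_
    rw [Algebra.smul_def]
    exact mul_mem (H.adjoin_simple_le (q.derivative.coeff i).2) (pow_mem hh i)
  refine InS.of_root (v := v) (R0 := R0) H.adjoin_le_val H.deg_one (H.u_mem ha) ha (q.map ι)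
    (fun i => ?_) h₀ hroot (by rw [hderiv]; exact hd0)
    (by rw [hderiv]; exact H.generic _ hdF1 hd0)
  rw [Polynomial.coeff_map, hι]
  exact H.inS_of_mem_adjoin_simple ha (q.coeff i).2

/-- (b2): every element of `L · F1` is congruent to a constant modulo `u`. -/
theorem inS_of_mem_adjoin {g : F} (hg : g ∈ Algebra.adjoin L (F1 : Set F)) :
    InS v (Algebra.adjoin L (F1 : Set F)) (x - algebraMap L F a) g := by
  have hu := H.u_mem ha
  induction hg using Algebra.adjoin_induction with
  | mem h hh => exact H.inS_of_mem_F1 ha hh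
  | algebraMap c => exact InS.const c
  | add f g _ _ hf hg => exact hf.add hg
  | mul f g _ _ hf hg => exact hf.mul hu hg

/-- The hypotheses of the abstract local statement hold at a place of generic type. -/
theorem derLocalData (hu0 : x - algebraMap L F a ≠ 0) :
    DerLocalData v D (Algebra.adjoin L (F1 : Set F)).toSubring (x - algebraMap L F a) where
  isDer := H.isDer
  le_val := H.adjoin_le_val
  stable := H.adjoin_stable
  frac := H.frac
  u_mem := H.u_mem ha
  u_pos := ha.resolve_left hu0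
  gen := by
    intro g hg hpos
    obtain ⟨r, ⟨a', ha', b, hb, hb0, hbo, hab⟩, hgr⟩ :=
      (H.inS_of_mem_adjoin ha hg).exists_mul_of_pos H.adjoin_le_val ha (Or.inr hpos)
    refine ⟨a', ha', b, hb, hb0, hbo, ?_⟩
    rw [hgr, mul_assoc, hab]

end WithValue

/-- **DER-1, generic case.**  At a place of generic type a coefficientwise derivation lowers
the order by at most one, and preserves the units. -/
theorem ord_sub_one_le_ord_der {f : F} (hf : f ≠ 0) (hDf : D f ≠ 0) :
    v.ord f - 1 ≤ v.ord (D f) := by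
  obtain ⟨a, ha, hu0⟩ := H.exists_value
  refine (H.derLocalData ha hu0).ord_sub_one_le_ord_der ?_ hf hDf
  obtain ⟨c', hc'⟩ := H.der_const a
  rw [map_sub, H.der_F1 x H.x_mem, zero_sub, hc']
  exact neg_mem (v.algebraMap_mem' c')

theorem der_mem_of_ord_eq_zero {f : F} (hf : f ≠ 0) (hord : v.ord f = 0) :
    D f ∈ v.toValuationSubring := by
  obtain ⟨a, ha, hu0⟩ := H.exists_value
  exact (H.derLocalData ha hu0).der_mem_of_ord_eq_zero hf hord

/-- By-product: a place of generic type is unramified over every nonconstant `x ∈ F1`. -/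
theorem exists_ord_sub_eq_one : ∃ a : L, v.ord (x - algebraMap L F a) = 1 := by
  obtain ⟨a, ha, hu0⟩ := H.exists_value
  exact ⟨a, (H.derLocalData ha hu0).ord_u⟩

end GenericSetup

end GenericCase

/-! ### The constant case -/

section ConstCase

variable {L F : Type*} [Field L] [Field F] [Algebra L F]

/-- The situation at a constant (`K1`-rational) place `v = bcPl Q`: `A1 ⊆ F` is the image of the
valuation ring of `Q`, `t ∈ A1` the image of a uniformiser at `Q`; every element of `A1` is a
constant plus a multiple of `t`. -/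
structure ConstSetup (v : Place L F) (D : F →+ F) (A1 : Subring F) (t : F) : Prop where
  isDer : IsDer D
  der_A1 : ∀ h ∈ A1, D h = 0
  der_const : ∀ c : L, ∃ c' : L, D (algebraMap L F c) = algebraMap L F c'
  le_val : ∀ h ∈ A1, h ∈ v.toValuationSubring
  t_mem : t ∈ A1
  t_pos : 0 < v.ord t
  decomp : ∀ h ∈ A1, ∃ c : L, ∃ h' ∈ A1, h = algebraMap L F c + t * h'
  frac : ∀ f : F, ∃ g ∈ Algebra.adjoin L (A1 : Set F), ∃ h ∈ Algebra.adjoin L (A1 : Set F),
    h ≠ 0 ∧ f * h = g

namespace ConstSetup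

variable {v : Place L F} {D : F →+ F} {A1 : Subring F} {t : F} (H : ConstSetup v D A1 t)

include H

theorem adjoin_le_val : ∀ g ∈ Algebra.adjoin L (A1 : Set F), g ∈ v.toValuationSubring := by
  intro g hg
  induction hg using Algebra.adjoin_induction with
  | mem h hh => exact H.le_val h hh
  | algebraMap c => exact v.algebraMap_mem' c
  | add f g _ _ hf hg => exact add_mem hf hg
  | mul f g _ _ hf hg => exact mul_mem hf hg

theorem adjoin_stable : ∀ g ∈ Algebra.adjoin L (A1 : Set F),
    D g ∈ Algebra.adjoin L (A1 : Set F) := by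
  intro g hg
  induction hg using Algebra.adjoin_induction with
  | mem h hh =>
    rw [H.der_A1 h hh]
    exact zero_mem _
  | algebraMap c =>
    obtain ⟨c', hc'⟩ := H.der_const c
    rw [hc']
    exact Subalgebra.algebraMap_mem _ c'
  | add f g _ _ hf hg =>
    rw [map_add]
    exact add_mem hf hg
  | mul f g hf' hg' hf hg =>
    rw [H.isDer.leibniz]
    exact add_mem (mul_mem hf' hg) (mul_mem hg' hf)

theorem t_mem_adjoin : t ∈ Algebra.adjoin L (A1 : Set F) := Algebra.subset_adjoin H.t_mem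

/-- (a1): every element of `L · A1` is a constant plus a multiple of `t`. -/
theorem exists_decomp : ∀ g ∈ Algebra.adjoin L (A1 : Set F),
    ∃ c : L, ∃ g' ∈ Algebra.adjoin L (A1 : Set F), g = algebraMap L F c + t * g' := by
  intro g hg
  have ht := H.t_mem_adjoin
  induction hg using Algebra.adjoin_induction with
  | mem h hh =>
    obtain ⟨c, h', hh', e⟩ := H.decomp h hh
    exact ⟨c, h', Algebra.subset_adjoin hh', e⟩
  | algebraMap c => exact ⟨c, 0, zero_mem _, by simp⟩
  | add f g _ _ hf hg =>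
    obtain ⟨c, f', hf', e⟩ := hf
    obtain ⟨c', g', hg', e'⟩ := hg
    exact ⟨c + c', f' + g', add_mem hf' hg', by rw [e, e', map_add]; ring⟩
  | mul f g _ _ hf hg =>
    obtain ⟨c, f', hf', e⟩ := hf
    obtain ⟨c', g', hg', e'⟩ := hg
    refine ⟨c * c', algebraMap L F c * g' + algebraMap L F c' * f' + t * (f' * g'),
      add_mem (add_mem (mul_mem (Subalgebra.algebraMap_mem _ c) hg')
        (mul_mem (Subalgebra.algebraMap_mem _ c') hf')) (mul_mem ht (mul_mem hf' hg')), ?_⟩
    rw [e, e', map_mul]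
    ring

/-- The hypotheses of the abstract local statement hold at a constant place. -/
theorem derLocalData : DerLocalData v D (Algebra.adjoin L (A1 : Set F)).toSubring t where
  isDer := H.isDer
  le_val := H.adjoin_le_val
  stable := H.adjoin_stable
  frac := H.frac
  u_mem := H.t_mem_adjoin
  u_pos := H.t_pos
  gen := by
    intro g hg hpos
    obtain ⟨c, g', hg', e⟩ := H.exists_decomp g hg
    have hc : c = 0 := by
      have h1 : Pos v (algebraMap L F c) := by
        have e' : algebraMap L F c = g - t * g' := by rw [e]; ring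
        rw [e']
        have hg1 : Pos v g := Or.inr hpos
        have ht1 : Pos v t := Or.inr H.t_pos
        exact hg1.sub (ht1.mul (H.adjoin_le_val g' hg'))
      exact h1.eq_zero_of_algebraMap
    refine ⟨g', hg', 1, Subalgebra.one_mem _, one_ne_zero, v.ord_one, ?_⟩
    rw [e, hc, map_zero, zero_add, mul_one]

/-- **DER-1, constant case.**  At a constant place a coefficientwise derivation does not lower
the order. -/
theorem ord_le_ord_der {f : F} (hf : f ≠ 0) (hDf : D f ≠ 0) : v.ord f ≤ v.ord (D f) :=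
  H.derLocalData.ord_le_ord_der (H.der_A1 t H.t_mem) hf hDf

end ConstSetup

end ConstCase

end Fermat.Agent.S17.H800

end
end
-- ===== PACK-END S17/H800/DerLocal.lean

-- ===== PACK-BEGIN S36/H996/PUChart.lean
section


/-!
# Lemma PU in chart form (helper996, S36 cell REG)

`B` a Noetherian integrally closed domain (a chart), `n` a prime (closed point).  The
hypotheses of `principal_of_unit` are stated on `B` (only the height-one primes THROUGH `n`
matter, divisibility modulo `Q'` is allowed a denominator outside `n`), the conclusion is the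
elementwise local principality of `P` at `n`:

  `∀ a ∈ P, ∃ g ∉ n, ∃ c, g * a = x * c`,

which is the hypothesis `hgen` of `pure_regular_abs` (`RegPure.lean`).
-/

set_option autoImplicit false

namespace Fermat.Agent.S36.H996

open IsLocalRing Fermat.Agent.A2.H849

variable {B : Type*} [CommRing B] [IsDomain B]
variable {F : Type*} [Field F] [Algebra B F] [IsFractionRing B F]

section Transfer

variable (n : Ideal B) [hn : n.IsPrime]

theorem coe_algebraMap_locAt (b : B) :
    ((algebraMap B (locAt F n) b : locAt F n) : F) = algebraMap B F b := rfl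

theorem algebraMap_locAt_val (a : locAt F n) : algebraMap (locAt F n) F a = (a : F) := rfl

omit [IsDomain B] in
theorem disjoint_primeCompl_of_le {P : Ideal B} (hPn : P ≤ n) :
    Disjoint (n.primeCompl : Set B) (P : Set B) := by
  rw [Set.disjoint_left]
  intro x hx hxP
  exact hx (hPn hxP)

theorem comap_map_locAt {P : Ideal B} (hP : P.IsPrime) (hPn : P ≤ n) :
    (P.map (algebraMap B (locAt F n))).comap (algebraMap B (locAt F n)) = P :=
  IsLocalization.comap_map_of_isPrime_disjoint n.primeCompl (locAt F n) hP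
    (disjoint_primeCompl_of_le n hPn)

theorem map_comap_locAt (Q : Ideal (locAt F n)) :
    (Q.comap (algebraMap B (locAt F n))).map (algebraMap B (locAt F n)) = Q :=
  IsLocalization.map_comap n.primeCompl (locAt F n) Q

theorem comap_le_of_isPrime (Q : Ideal (locAt F n)) (hQ : Q.IsPrime) :
    Q.comap (algebraMap B (locAt F n)) ≤ n := by
  intro b hb
  by_contra hbn
  have hu : IsUnit (algebraMap B (locAt F n) b) :=
    IsLocalization.map_units (locAt F n) (⟨b, hbn⟩ : n.primeCompl)
  exact hQ.ne_top (Ideal.eq_top_of_isUnit_mem _ hb hu)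

/-- every element of `B_n` is `b / t` with `t ∉ n`, inside `B_n`. -/
theorem exists_mul_eq_algebraMap (a : locAt F n) :
    ∃ b t : B, t ∉ n ∧ a * algebraMap B (locAt F n) t = algebraMap B (locAt F n) b := by
  obtain ⟨b, t, ht, hbt⟩ := (mem_locAt_iff n _).1 a.2
  have hinj : Function.Injective (algebraMap B F) := IsFractionRing.injective B F
  have htF : algebraMap B F t ≠ 0 := by
    intro h0
    apply ht
    rw [hinj (by rw [h0, map_zero] : algebraMap B F t = algebraMap B F 0)]
    exact n.zero_mem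
  refine ⟨b, t, ht, Subtype.ext ?_⟩
  show (a : F) * algebraMap B F t = algebraMap B F b
  rw [hbt, inv_mul_cancel_right₀ htF]

theorem isUnit_algebraMap_locAt {t : B} (ht : t ∉ n) :
    IsUnit (algebraMap B (locAt F n) t) :=
  IsLocalization.map_units (locAt F n) (⟨t, ht⟩ : n.primeCompl)

/-- **(T1)** a localisation DVR of `B` at a prime through `n` is a localisation DVR of `B_n`. -/
theorem isLocDVR_map {O : ValuationSubring F} {P : Ideal B} (h : IsLocDVR O P) (hPn : P ≤ n) :
    IsLocDVR O (P.map (algebraMap B (locAt F n))) := by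
  have hinj : Function.Injective (algebraMap B F) := IsFractionRing.injective B F
  have hinjA : Function.Injective (algebraMap B (locAt F n)) :=
    IsLocalization.injective (locAt F n) n.primeCompl_le_nonZeroDivisors
  have hcm := comap_map_locAt (F := F) n h.prime hPn
  have hmemP : ∀ b : B, algebraMap B (locAt F n) b ∈ P.map (algebraMap B (locAt F n)) ↔ b ∈ P := by
    intro b
    rw [← Ideal.mem_comap, hcm]
  have hprime : (P.map (algebraMap B (locAt F n))).IsPrime :=
    IsLocalization.isPrime_of_isPrime_disjoint n.primeCompl (locAt F n) P h.prime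
      (disjoint_primeCompl_of_le n hPn)
  refine ⟨hprime, ?_, h.dvr, ?_, ?_, ?_, ?_, ?_⟩
  · intro hbot
    obtain ⟨p, hp, hp0⟩ := Submodule.exists_mem_ne_zero_of_ne_bot h.ne_bot
    have h1 : algebraMap B (locAt F n) p ∈ P.map (algebraMap B (locAt F n)) :=
      Ideal.mem_map_of_mem _ hp
    rw [hbot, Ideal.mem_bot] at h1
    exact hp0 (hinjA (by rw [h1, map_zero]))
  · intro a
    obtain ⟨b, t, ht, hbt⟩ := (mem_locAt_iff n _).1 a.2
    show (a : F) ∈ O
    rw [hbt]
    exact O.mul_mem _ _ (h.le b) (h.inv_mem t (fun htP => ht (hPn htP)))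
  · intro x hx
    obtain ⟨r, s, hs, hxrs⟩ := h.exists_frac x hx
    exact ⟨algebraMap B _ r, algebraMap B _ s, fun hmem => hs ((hmemP s).1 hmem), hxrs⟩
  · intro s hs
    obtain ⟨b, t, ht, hbt⟩ := exists_mul_eq_algebraMap n s
    have hbP : b ∉ P := by
      intro hb
      apply hs
      have h1 : s * algebraMap B (locAt F n) t ∈ P.map (algebraMap B (locAt F n)) := by
        rw [hbt]; exact (hmemP b).2 hb
      rcases hprime.mem_or_mem h1 with h2 | h2
      · exact h2
      · exact absurd ((hmemP t).1 h2) (fun htP => ht (hPn htP))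
    have hbt' : (s : F) * algebraMap B F t = algebraMap B F b :=
      congrArg (fun z : locAt F n => (z : F)) hbt
    have hbF : algebraMap B F b ≠ 0 := by
      intro h0
      apply hbP
      rw [hinj (by rw [h0, map_zero] : algebraMap B F b = algebraMap B F 0)]
      exact P.zero_mem
    have hsF : (s : F) ≠ 0 := by
      intro h0
      rw [h0, zero_mul] at hbt'
      exact hbF hbt'.symm
    have htF : algebraMap B F t ≠ 0 := by
      intro h0
      rw [h0, mul_zero] at hbt'
      exact hbF hbt'.symm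
    have e : (algebraMap (locAt F n) F s)⁻¹ = algebraMap B F t * (algebraMap B F b)⁻¹ := by
      show ((s : F))⁻¹ = _
      rw [← hbt']
      field_simp
    rw [e]
    exact O.mul_mem _ _ (h.le t) (h.inv_mem b hbP)
  · intro r hr hr0 hinv
    obtain ⟨b, t, ht, hbt⟩ := exists_mul_eq_algebraMap n r
    have hbP : b ∈ P := by
      rw [← hmemP, ← hbt]
      exact Ideal.mul_mem_right _ _ hr
    have hbt' : (r : F) * algebraMap B F t = algebraMap B F b :=
      congrArg (fun z : locAt F n => (z : F)) hbt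
    have hrF : (r : F) ≠ 0 := by
      intro h0
      exact hr0 (Subtype.ext h0)
    have htP : t ∉ P := fun htP => ht (hPn htP)
    have htF : algebraMap B F t ≠ 0 := by
      intro h0
      apply htP
      rw [hinj (by rw [h0, map_zero] : algebraMap B F t = algebraMap B F 0)]
      exact P.zero_mem
    have hb0 : b ≠ 0 := by
      intro hb
      rw [hb, map_zero] at hbt'
      exact (mul_ne_zero hrF htF) hbt'
    apply h.inv_not_mem b hbP hb0
    have e : (algebraMap B F b)⁻¹ = (algebraMap B F t)⁻¹ * ((r : F))⁻¹ := by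
      rw [← hbt']
      field_simp
    rw [e]
    exact O.mul_mem _ _ (h.inv_mem t htP) hinv
  · intro Q hQ hQ0 hle
    have hc : Q.comap (algebraMap B (locAt F n)) = P := by
      apply h.height_one _ (Ideal.comap_isPrime _ _)
      · intro hbot
        apply hQ0
        rw [← map_comap_locAt n Q, hbot, Ideal.map_bot]
      · rw [← hcm]
        exact Ideal.comap_mono hle
    rw [← map_comap_locAt n Q, hc]

/-- **(T2)** a localisation DVR of `B_n` is a localisation DVR of `B`, at a prime through `n`. -/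
theorem isLocDVR_comap {O : ValuationSubring F} {Q : Ideal (locAt F n)} (h : IsLocDVR O Q) :
    IsLocDVR O (Q.comap (algebraMap B (locAt F n))) ∧ Q.comap (algebraMap B (locAt F n)) ≤ n := by
  have hinj : Function.Injective (algebraMap B F) := IsFractionRing.injective B F
  have hinjA : Function.Injective (algebraMap B (locAt F n)) :=
    IsLocalization.injective (locAt F n) n.primeCompl_le_nonZeroDivisors
  have hQp := h.prime
  have hle := comap_le_of_isPrime n Q h.prime
  have hmc := map_comap_locAt n Q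
  refine ⟨⟨Ideal.comap_isPrime _ _, ?_, h.dvr, ?_, ?_, ?_, ?_, ?_⟩, hle⟩
  · intro hbot
    apply h.ne_bot
    rw [← hmc, hbot, Ideal.map_bot]
  · intro b
    exact h.le (algebraMap B (locAt F n) b)
  · intro x hx
    obtain ⟨r, s, hs, hxrs⟩ := h.exists_frac x hx
    obtain ⟨b₁, t₁, ht₁, hbt₁⟩ := exists_mul_eq_algebraMap n r
    obtain ⟨b₂, t₂, ht₂, hbt₂⟩ := exists_mul_eq_algebraMap n s
    have h1 : (r : F) * algebraMap B F t₁ = algebraMap B F b₁ :=
      congrArg (fun z : locAt F n => (z : F)) hbt₁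
    have h2 : (s : F) * algebraMap B F t₂ = algebraMap B F b₂ :=
      congrArg (fun z : locAt F n => (z : F)) hbt₂
    have hb₂ : algebraMap B (locAt F n) b₂ ∉ Q := by
      intro hb
      rw [← hbt₂] at hb
      rcases hQp.mem_or_mem hb with h3 | h3
      · exact hs h3
      · exact hQp.ne_top (Ideal.eq_top_of_isUnit_mem _ h3 (isUnit_algebraMap_locAt n ht₂))
    have ht₁Q : algebraMap B (locAt F n) t₁ ∉ Q := fun h3 =>
      hQp.ne_top (Ideal.eq_top_of_isUnit_mem _ h3 (isUnit_algebraMap_locAt n ht₁))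
    have ht₁F : algebraMap B F t₁ ≠ 0 := by
      intro h0
      apply ht₁
      rw [hinj (by rw [h0, map_zero] : algebraMap B F t₁ = algebraMap B F 0)]
      exact n.zero_mem
    have ht₂F : algebraMap B F t₂ ≠ 0 := by
      intro h0
      apply ht₂
      rw [hinj (by rw [h0, map_zero] : algebraMap B F t₂ = algebraMap B F 0)]
      exact n.zero_mem
    have hb₂F : algebraMap B F b₂ ≠ 0 := by
      intro h0
      apply hb₂
      have : algebraMap B (locAt F n) b₂ = 0 := Subtype.ext (by
        show algebraMap B F b₂ = 0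
        exact h0)
      rw [this]
      exact Q.zero_mem
    refine ⟨b₁ * t₂, t₁ * b₂, ?_, ?_⟩
    · intro hmem
      rw [Ideal.mem_comap, map_mul] at hmem
      rcases hQp.mem_or_mem hmem with h3 | h3
      · exact ht₁Q h3
      · exact hb₂ h3
    · have hsF : (s : F) ≠ 0 := by
        intro h0
        rw [h0, zero_mul] at h2
        exact hb₂F h2.symm
      have hx' : x = (r : F) * ((s : F))⁻¹ := hxrs
      rw [hx', map_mul, map_mul, ← h1, ← h2]
      field_simp
  · intro s hs
    exact h.inv_mem (algebraMap B (locAt F n) s) hs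
  · intro r hr hr0
    exact h.inv_not_mem (algebraMap B (locAt F n) r) hr
      (fun h0 => hr0 (hinjA (by rw [h0, map_zero])))
  · intro Q' hQ' hQ'0 hQ'le
    have hd : Disjoint (n.primeCompl : Set B) (Q' : Set B) :=
      disjoint_primeCompl_of_le n (hQ'le.trans hle)
    have hQ'map : (Q'.map (algebraMap B (locAt F n))).IsPrime :=
      IsLocalization.isPrime_of_isPrime_disjoint n.primeCompl (locAt F n) Q' hQ' hd
    have h3 : Q'.map (algebraMap B (locAt F n)) = Q := by
      apply h.height_one _ hQ'map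
      · intro hbot
        obtain ⟨p, hp, hp0⟩ := Submodule.exists_mem_ne_zero_of_ne_bot hQ'0
        have h1 : algebraMap B (locAt F n) p ∈ Q'.map (algebraMap B (locAt F n)) :=
          Ideal.mem_map_of_mem _ hp
        rw [hbot, Ideal.mem_bot] at h1
        exact hp0 (hinjA (by rw [h1, map_zero]))
      · rw [← hmc]
        exact Ideal.map_mono hQ'le
    rw [← h3]
    exact (IsLocalization.comap_map_of_isPrime_disjoint n.primeCompl (locAt F n) hQ' hd).symm

end Transfer

/-- **Lemma PU, chart form.** -/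
theorem principal_of_unit_chart [IsNoetherianRing B] [IsIntegrallyClosed B]
    (n : Ideal B) [hn : n.IsPrime]
    (O : ValuationSubring F) (P : Ideal B) (hOP : IsLocDVR O P) (hPn : P ≤ n)
    (Q' : Ideal B) [hQ' : Q'.IsPrime] (hQ'n : Q' ≤ n)
    (U x : B) (N : ℕ) (hN : 0 < N)
    (hUunit : ∀ (O' : ValuationSubring F) (P' : Ideal B), IsLocDVR O' P' → P' ≤ n → P' ≠ P →
      U ∉ P')
    (ϖ : O) (hϖ : Irreducible ϖ) (u : Oˣ)
    (hU : algebraMap B F U = (u : O) * (ϖ : F) ^ N)
    (hxP : x ∈ P) (hxQ : x ∉ Q')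
    (hdiv : ∃ r s : B, s ∉ n ∧ s * U - r * x ^ N ∈ Q') :
    ∀ a ∈ P, ∃ g : B, g ∉ n ∧ ∃ c : B, g * a = x * c := by
  classical
  have hinj : Function.Injective (algebraMap B F) := IsFractionRing.injective B F
  have : IsIntegrallyClosed (locAt F n) :=
    isIntegrallyClosed_of_isLocalization (locAt F n) n.primeCompl n.primeCompl_le_nonZeroDivisors
  have hP := hOP.prime
  have hcmP := comap_map_locAt (F := F) n hP hPn
  have hcmQ := comap_map_locAt (F := F) n hQ' hQ'n
  have hQ'A : (Q'.map (algebraMap B (locAt F n))).IsPrime :=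
    IsLocalization.isPrime_of_isPrime_disjoint n.primeCompl (locAt F n) Q' hQ'
      (disjoint_primeCompl_of_le n hQ'n)
  have key := principal_of_unit (R := locAt F n) (K := F) O (P.map (algebraMap B (locAt F n)))
    (isLocDVR_map n hOP hPn) (Q'.map (algebraMap B (locAt F n)))
    (algebraMap B (locAt F n) U) (algebraMap B (locAt F n) x) N hN ?_ ϖ hϖ u hU
    (Ideal.mem_map_of_mem _ hxP) ?_ ?_
  · intro a ha
    have h1 : algebraMap B (locAt F n) a ∈ P.map (algebraMap B (locAt F n)) :=
      Ideal.mem_map_of_mem _ ha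
    rw [key, Ideal.mem_span_singleton] at h1
    obtain ⟨c, hc⟩ := h1
    obtain ⟨b, t, ht, hbt⟩ := exists_mul_eq_algebraMap n c
    refine ⟨t, ht, b, ?_⟩
    apply IsLocalization.injective (locAt F n) n.primeCompl_le_nonZeroDivisors
    rw [map_mul, map_mul, hc, ← hbt]
    ring
  · intro O' P'A h' hne
    obtain ⟨hB, hle⟩ := isLocDVR_comap n h'
    have hne' : P'A.comap (algebraMap B (locAt F n)) ≠ P := by
      intro heq
      apply hne
      rw [← map_comap_locAt n P'A, heq]
    intro hmem
    exact hUunit O' _ hB hle hne' hmem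
  · intro hmem
    apply hxQ
    rw [← hcmQ]
    exact hmem
  · obtain ⟨r, s, hs, hrs⟩ := hdiv
    obtain ⟨sinv, hsinv⟩ := (isUnit_algebraMap_locAt (F := F) n hs).exists_right_inv
    refine ⟨algebraMap B (locAt F n) r * sinv, ?_⟩
    have h1 : algebraMap B (locAt F n) (s * U - r * x ^ N) ∈
        Q'.map (algebraMap B (locAt F n)) := Ideal.mem_map_of_mem _ hrs
    have h2 : algebraMap B (locAt F n) U
          - algebraMap B (locAt F n) r * sinv * algebraMap B (locAt F n) x ^ N
        = sinv * algebraMap B (locAt F n) (s * U - r * x ^ N) := by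
      rw [map_sub, map_mul, map_mul, map_pow, mul_sub, ← mul_assoc, mul_comm sinv, hsinv]
      ring
    rw [h2]
    exact Ideal.mul_mem_left _ _ h1

end Fermat.Agent.S36.H996

end
-- ===== PACK-END S36/H996/PUChart.lean

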