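import Mathlib
import Fermat.Prelude.Def_FLTPrelim_ModularRep
import Fermat.Prelude.Def_GaloisRep_Adic
import Fermat.Prelude.Def_GaloisRep_LocalConditions
import Fermat.Prelude.Def_FLTPrelim_Ramification
import Fermat.Prelude.Def_EllipticCurve_FrobeniusTrace
import Fermat.Agent.Pack.S59C.E1L1
import Fermat.Agent.Pack.S43MC.G0E10L2
import Fermat.Agent.Pack.S43MC.G0E3L2
import Fermat.Agent.Pack.S43GC.G0E5L0
import Fermat.Agent.Pack.S59C.E1L2
import Fermat.Agent.Pack.S59C.E1L3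
import Fermat.Agent.Pack.S43MC.G0E7L3
import Fermat.Agent.Pack.S44C.G0E7L3
import Fermat.Agent.Pack.S44C.G0E4L1
import Fermat.Agent.Pack.S59C.E0L2

set_option linter.all false

-- ===== PACK-BEGIN S59/H427/Pairing.lean
section


/-!
# S59 / N1 (helper427): the residue pairing on `A[X] / (X_i^(m+1) + h_i)` is perfect

With `C = A[X] / (f)`, `f i = X i ^ (m+1) + h i`, `totalDegree (h i) ≤ m`, and `boxLam` the
"top coefficient" functional, the map `C → Dual C`, `c ↦ boxLam (c * ·)` is bijective.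
-/

set_option autoImplicit false
set_option linter.unusedSectionVars false

namespace Fermat.Agent.S59.H427

open MvPolynomial

variable {A : Type*} [CommRing A] {ι : Type*} [Fintype ι] [DecidableEq ι]
variable {m : ℕ} {h : ι → MvPolynomial ι A}

/-- The pairing map `c ↦ boxLam (c * ·)`. -/
noncomputable def boxPair (hh : ∀ i, (h i).totalDegree ≤ m) :
    (MvPolynomial ι A ⧸ boxIdeal m h) →ₗ[A] Module.Dual A (MvPolynomial ι A ⧸ boxIdeal m h) :=
  (LinearMap.mul A (MvPolynomial ι A ⧸ boxIdeal m h)).compr₂ (boxLam hh)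

theorem boxPair_apply (hh : ∀ i, (h i).totalDegree ≤ m)
    (c c' : MvPolynomial ι A ⧸ boxIdeal m h) : boxPair hh c c' = boxLam hh (c * c') := rfl

/-- A functional is determined by its values on the box monomials. -/
theorem dual_eq_zero_of_box (hh : ∀ i, (h i).totalDegree ≤ m)
    (l : Module.Dual A (MvPolynomial ι A ⧸ boxIdeal m h))
    (hl : ∀ s : ι →₀ ℕ, (∀ i, s i ≤ m) →
      l (Ideal.Quotient.mk (boxIdeal m h) (monomial s 1)) = 0) : l = 0 := by
  refine LinearMap.ext fun c => ?_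
  rw [LinearMap.zero_apply, ← mk_boxNF hh c]
  have hb := boxNF_mem hh c
  rw [mem_restrictDegree] at hb
  set b := boxNF hh c with hbdef
  have e0 : b = ∑ s ∈ b.support, coeff s b • monomial s (1 : A) := by
    conv_lhs => rw [as_sum b]
    exact Finset.sum_congr rfl fun s _ => by rw [smul_monomial, smul_eq_mul, mul_one]
  rw [e0, map_sum, map_sum]
  refine Finset.sum_eq_zero fun s hs => ?_
  have : Ideal.Quotient.mk (boxIdeal m h) (coeff s b • monomial s (1 : A)) =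
      coeff s b • Ideal.Quotient.mk (boxIdeal m h) (monomial s (1 : A)) :=
    map_smul (Ideal.Quotient.mkₐ A (boxIdeal m h)) (coeff s b) (monomial s 1)
  rw [this, map_smul, hl s (hb s hs), smul_zero]

theorem le_boxTop_iff (s : ι →₀ ℕ) : s ≤ boxTop ι m ↔ ∀ i, s i ≤ m := Iff.rfl

theorem degree_le_of_le_boxTop {s : ι →₀ ℕ} (hs : ∀ i, s i ≤ m) :
    s.degree ≤ (boxTop ι m).degree := by
  rw [Finsupp.degree_eq_sum, Finsupp.degree_eq_sum]
  exact Finset.sum_le_sum fun i _ => by simpa using hs i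

theorem degree_boxTop_sub {s : ι →₀ ℕ} (hs : ∀ i, s i ≤ m) :
    (boxTop ι m - s).degree + s.degree = (boxTop ι m).degree := by
  rw [← map_add, tsub_add_cancel_of_le ((le_boxTop_iff s).mpr hs)]

/-- The pairing of complementary box monomials. -/
theorem boxPair_monomial (hh : ∀ i, (h i).totalDegree ≤ m) {β γ : ι →₀ ℕ}
    (hβ : ∀ i, β i ≤ m) (hγ : γ.degree ≤ β.degree) :
    boxPair hh (Ideal.Quotient.mk (boxIdeal m h) (monomial (boxTop ι m - β) 1))
      (Ideal.Quotient.mk (boxIdeal m h) (monomial γ 1)) = if γ = β then 1 else 0 := by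
  rw [boxPair_apply, ← map_mul, monomial_mul, one_mul, boxLam_mk_monomial]
  · congr 1
    apply propext
    constructor
    · intro e
      ext i
      have h1 := DFunLike.congr_fun e i
      have h2 := hβ i
      simp only [Finsupp.coe_add, Finsupp.coe_tsub, Pi.add_apply, Pi.sub_apply,
        boxTop_apply] at h1
      omega
    · rintro rfl
      exact tsub_add_cancel_of_le ((le_boxTop_iff γ).mpr hβ)
  · rw [map_add]
    have := degree_boxTop_sub (m := m) hβ
    omega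

/-- The pairing map is surjective. -/
theorem boxPair_surjective (hh : ∀ i, (h i).totalDegree ≤ m) :
    Function.Surjective (boxPair hh) := by
  -- downward induction on the degree below which the functional vanishes on box monomials
  have claim : ∀ j k : ℕ, k + j = (boxTop ι m).degree + 1 →
      ∀ l : Module.Dual A (MvPolynomial ι A ⧸ boxIdeal m h),
      (∀ s : ι →₀ ℕ, (∀ i, s i ≤ m) → s.degree < k →
        l (Ideal.Quotient.mk (boxIdeal m h) (monomial s 1)) = 0) →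
      l ∈ LinearMap.range (boxPair hh) := by
    intro j
    induction j with
    | zero =>
      intro k hk l hl
      have : l = 0 := dual_eq_zero_of_box hh l fun s hs =>
        hl s hs (by have := degree_le_of_le_boxTop (m := m) hs; omega)
      rw [this]
      exact Submodule.zero_mem _
    | succ j ih =>
      intro k hk l hl
      set F : Finset (ι →₀ ℕ) := (Finset.Iic (boxTop ι m)).filter fun β => β.degree = k
        with hF
      set y : MvPolynomial ι A ⧸ boxIdeal m h :=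
        ∑ β ∈ F, l (Ideal.Quotient.mk (boxIdeal m h) (monomial β 1)) •
          Ideal.Quotient.mk (boxIdeal m h) (monomial (boxTop ι m - β) 1) with hy
      have hmemF : ∀ β, β ∈ F ↔ (∀ i, β i ≤ m) ∧ β.degree = k := by
        intro β
        rw [hF, Finset.mem_filter, Finset.mem_Iic, le_boxTop_iff]
      have key : ∀ γ : ι →₀ ℕ, (∀ i, γ i ≤ m) → γ.degree ≤ k →
          boxPair hh y (Ideal.Quotient.mk (boxIdeal m h) (monomial γ 1)) =
            if γ.degree = k then l (Ideal.Quotient.mk (boxIdeal m h) (monomial γ 1)) else 0 := by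
        intro γ hγ hγk
        rw [hy, map_sum, LinearMap.sum_apply]
        have e1 : ∀ β ∈ F, boxPair hh
            (l (Ideal.Quotient.mk (boxIdeal m h) (monomial β 1)) •
              Ideal.Quotient.mk (boxIdeal m h) (monomial (boxTop ι m - β) 1))
            (Ideal.Quotient.mk (boxIdeal m h) (monomial γ 1)) =
            if γ = β then l (Ideal.Quotient.mk (boxIdeal m h) (monomial γ 1)) else 0 := by
          intro β hβ
          rw [hmemF] at hβ
          rw [map_smul, LinearMap.smul_apply, boxPair_monomial hh hβ.1 (by omega)]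
          by_cases e : γ = β
          · subst e; simp
          · simp [e]
        rw [Finset.sum_congr rfl e1, Finset.sum_ite_eq]
        by_cases hk' : γ.degree = k
        · rw [if_pos ((hmemF γ).mpr ⟨hγ, hk'⟩), if_pos hk']
        · rw [if_neg (fun hmem => hk' ((hmemF γ).mp hmem).2), if_neg hk']
      have h1 : l - boxPair hh y ∈ LinearMap.range (boxPair hh) := by
        apply ih (k + 1) (by omega)
        intro s hs hsk
        rw [LinearMap.sub_apply, key s hs (by omega)]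
        by_cases hk' : s.degree = k
        · rw [if_pos hk', sub_self]
        · rw [if_neg hk', sub_zero]
          exact hl s hs (by omega)
      have h2 : l = (l - boxPair hh y) + boxPair hh y := by abel
      rw [h2]
      exact Submodule.add_mem _ h1 (LinearMap.mem_range_self _ _)
  intro l
  have := claim ((boxTop ι m).degree + 1) 0 (by omega) l (fun s _ hs => absurd hs (by omega))
  exact LinearMap.mem_range.mp this

theorem boxQuot_finite (hh : ∀ i, (h i).totalDegree ≤ m) :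
    Module.Finite A (MvPolynomial ι A ⧸ boxIdeal m h) :=
  Module.Finite.equiv (boxEquiv hh)

theorem boxQuot_free (hh : ∀ i, (h i).totalDegree ≤ m) :
    Module.Free A (MvPolynomial ι A ⧸ boxIdeal m h) :=
  Module.Free.of_equiv' (Module.Free.of_basis (basisRestrictSupport A _)) (boxEquiv hh)

/-- The pairing map is injective: `boxLam (c * ·) = 0` implies `c = 0`. -/
theorem boxPair_injective (hh : ∀ i, (h i).totalDegree ≤ m) :
    Function.Injective (boxPair hh) := by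
  have := boxQuot_finite hh
  have := boxQuot_free hh
  let b := Module.Free.chooseBasis A (MvPolynomial ι A ⧸ boxIdeal m h)
  have : Fintype (Module.Free.ChooseBasisIndex A (MvPolynomial ι A ⧸ boxIdeal m h)) :=
    Module.Free.ChooseBasisIndex.fintype A _
  let e := b.toDualEquiv
  have hs : Function.Surjective (e.symm.toLinearMap ∘ₗ boxPair hh) := by
    rw [LinearMap.coe_comp]
    exact e.symm.surjective.comp (boxPair_surjective hh)
  have hi := OrzechProperty.injective_of_surjective_endomorphism _ hs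
  rw [LinearMap.coe_comp] at hi
  exact Function.Injective.of_comp hi

theorem boxPair_bijective (hh : ∀ i, (h i).totalDegree ≤ m) :
    Function.Bijective (boxPair hh) :=
  ⟨boxPair_injective hh, boxPair_surjective hh⟩

/-- Non-degeneracy in usable form. -/
theorem eq_zero_of_boxLam_mul_eq_zero (hh : ∀ i, (h i).totalDegree ≤ m)
    {c : MvPolynomial ι A ⧸ boxIdeal m h} (hc : ∀ c', boxLam hh (c * c') = 0) : c = 0 := by
  apply boxPair_injective hh
  rw [map_zero]
  exact LinearMap.ext fun c' => hc c'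

/-- Representability of functionals. -/
theorem exists_boxLam_mul_eq (hh : ∀ i, (h i).totalDegree ≤ m)
    (l : Module.Dual A (MvPolynomial ι A ⧸ boxIdeal m h)) :
    ∃ y : MvPolynomial ι A ⧸ boxIdeal m h, ∀ c, boxLam hh (y * c) = l c := by
  obtain ⟨y, hy⟩ := boxPair_surjective hh l
  exact ⟨y, fun c => by rw [← hy]; rfl⟩

end Fermat.Agent.S59.H427

end
-- ===== PACK-END S59/H427/Pairing.lean

-- ===== PACK-BEGIN S41/H874/PDCuspSum.lean
section


/-!
# Row S41, block PD, leaf HEIS-U (helper874)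

`cuspSumZero_of : Spec.ManinRepExistsStatement → Spec.CuspSumZeroStatement`.

If `χ : Γ → A` is represented by the Manin symbol `m` (cocycle `f` with `f S = 0`,
`f (S T) = m|ST - m`), then `f T = m|ST - m` as well, and for `γ = h⁻¹ T ^ w h ∈ Γ`
`χ γ = f (T ^ w) (h Γ) = ∑_{j < w} (m (S T • T ^ j h Γ) - m (T ^ j h Γ))`.
Summing over a `T`-orbit system gives `∑_{x ∈ X} (m (S T • x) - m x) = 0`.
-/

set_option autoImplicit false
set_option linter.style.haveILetI false

namespace Fermat.Agent.S41.H874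

open CongruenceSubgroup Matrix.SpecialLinearGroup ModularGroup
open scoped MatrixGroups

universe u

section Cocycle

variable {Γ : Subgroup SL(2, ℤ)} {A : Type*} [AddCommGroup A]
  {f : SL(2, ℤ) → SL(2, ℤ) ⧸ Γ → A}

theorem cocycle_one_h874
    (hf : ∀ (g h : SL(2, ℤ)) (x : SL(2, ℤ) ⧸ Γ), f (g * h) x = f h x + f g (h • x))
    (x : SL(2, ℤ) ⧸ Γ) : f 1 x = 0 := by
  have := hf 1 1 x
  rw [one_mul, one_smul] at this
  exact left_eq_add.mp this

theorem cocycle_inv_h874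
    (hf : ∀ (g h : SL(2, ℤ)) (x : SL(2, ℤ) ⧸ Γ), f (g * h) x = f h x + f g (h • x))
    (g : SL(2, ℤ)) (x : SL(2, ℤ) ⧸ Γ) : f g⁻¹ (g • x) = - f g x := by
  have := hf g⁻¹ g x
  rw [inv_mul_cancel, cocycle_one_h874 hf] at this
  exact eq_neg_of_add_eq_zero_right this.symm

theorem cocycle_pow_h874
    (hf : ∀ (g h : SL(2, ℤ)) (x : SL(2, ℤ) ⧸ Γ), f (g * h) x = f h x + f g (h • x))
    (g : SL(2, ℤ)) (k : ℕ) (x : SL(2, ℤ) ⧸ Γ) :
    f (g ^ k) x = ∑ j ∈ Finset.range k, f g (g ^ j • x) := by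
  induction k with
  | zero => simp [cocycle_one_h874 hf]
  | succ n ih => rw [pow_succ', hf, ih, Finset.sum_range_succ]

/-- `f T = f (S T)` for a cocycle with `f S = 0`. -/
theorem cocycle_T_h874
    (hf : ∀ (g h : SL(2, ℤ)) (x : SL(2, ℤ) ⧸ Γ), f (g * h) x = f h x + f g (h • x))
    (hS : ∀ x : SL(2, ℤ) ⧸ Γ, f S x = 0) (x : SL(2, ℤ) ⧸ Γ) :
    f T x = f (S * T) x := by
  have h1 : T = S⁻¹ * (S * T) := by rw [inv_mul_cancel_left]
  have h2 : f S⁻¹ ((S * T) • x) = 0 := by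
    have := cocycle_inv_h874 hf S (S⁻¹ • (S * T) • x)
    rw [smul_inv_smul, hS, neg_zero] at this
    exact this
  conv_lhs => rw [h1]
  rw [hf, h2, add_zero]

/-- The value of a cocycle at the base point on `h⁻¹ t h ∈ Γ`. -/
theorem cocycle_conj_h874
    (hf : ∀ (g h : SL(2, ℤ)) (x : SL(2, ℤ) ⧸ Γ), f (g * h) x = f h x + f g (h • x))
    (h t : SL(2, ℤ)) (hmem : h⁻¹ * t * h ∈ Γ) :
    f (h⁻¹ * t * h) ((1 : SL(2, ℤ)) : SL(2, ℤ) ⧸ Γ) = f t ((h : SL(2, ℤ)) : SL(2, ℤ) ⧸ Γ) := by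
  have hb : h • (((1 : SL(2, ℤ)) : SL(2, ℤ) ⧸ Γ)) = ((h : SL(2, ℤ)) : SL(2, ℤ) ⧸ Γ) := by
    rw [MulAction.Quotient.smul_mk, smul_eq_mul, mul_one]
  have ht : t • ((h : SL(2, ℤ)) : SL(2, ℤ) ⧸ Γ) = ((h : SL(2, ℤ)) : SL(2, ℤ) ⧸ Γ) := by
    rw [MulAction.Quotient.smul_mk, smul_eq_mul, QuotientGroup.eq]
    have : (t * h)⁻¹ * h = (h⁻¹ * t * h)⁻¹ := by group
    rw [this]
    exact inv_mem hmem
  have h3 := cocycle_inv_h874 hf h (((1 : SL(2, ℤ)) : SL(2, ℤ) ⧸ Γ))
  rw [hb] at h3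
  rw [mul_assoc, hf, hf, mul_smul, hb, ht, h3]
  abel

end Cocycle

/-- **HEIS-U from D1**: a torsion-trivial homomorphism sums to `0` over a `T`-orbit system. -/
theorem cuspSumZero_of (hD1 : Spec.ManinRepExistsStatement.{u}) :
    Spec.CuspSumZeroStatement.{u} := by
  intro Γ _ hneg A _ χ hχ ι _ γ h w hsys
  obtain ⟨m, f, ⟨hf, hS, hU⟩, hrep⟩ := hD1 Γ hneg A χ hχ
  obtain ⟨_, hγ, hbij⟩ := hsys
  haveI : Finite (SL(2, ℤ) ⧸ Γ) := Subgroup.finite_quotient_of_finiteIndex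
  letI : Fintype (SL(2, ℤ) ⧸ Γ) := Fintype.ofFinite _
  -- the value on each `γ i`
  have key : ∀ i, χ (Additive.ofMul (γ i)) =
      ∑ j : Fin (w i), (m ((S * T) • ((T ^ (j : ℕ) * h i : SL(2, ℤ)) : SL(2, ℤ) ⧸ Γ))
        - m ((T ^ (j : ℕ) * h i : SL(2, ℤ)) : SL(2, ℤ) ⧸ Γ)) := by
    intro i
    have hmem : (h i)⁻¹ * T ^ (w i) * h i ∈ Γ := by
      rw [← hγ i]; exact (γ i).2
    rw [hrep, hγ i, cocycle_conj_h874 hf _ _ hmem, cocycle_pow_h874 hf, Finset.sum_range]
    refine Finset.sum_congr rfl fun j _ => ?_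
    rw [cocycle_T_h874 hf hS, hU, MulAction.Quotient.smul_mk, smul_eq_mul]
  -- reindex by `X`
  have hbij' : Function.Bijective
      (fun p : (Σ i, Fin (w i)) => ((T ^ (p.2 : ℕ) * h p.1 : SL(2, ℤ)) : SL(2, ℤ) ⧸ Γ)) := by
    rw [Function.bijective_iff_existsUnique]
    intro x
    obtain ⟨p, hp, hp'⟩ := hbij x
    exact ⟨p, hp.symm, fun q hq => hp' q hq.symm⟩
  have hsum : ∑ i, χ (Additive.ofMul (γ i)) =
      ∑ x : SL(2, ℤ) ⧸ Γ, (m ((S * T) • x) - m x) := by
    rw [← Function.Bijective.sum_comp hbij' (fun x => m ((S * T) • x) - m x),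
      Fintype.sum_sigma]
    exact Finset.sum_congr rfl fun i _ => key i
  rw [hsum, Finset.sum_sub_distrib, sub_eq_zero]
  exact Fintype.sum_equiv (MulAction.toPerm (S * T)) _ _ fun x => rfl

end Fermat.Agent.S41.H874

end
-- ===== PACK-END S41/H874/PDCuspSum.lean

-- ===== PACK-BEGIN S41/H769/CuspOrbit.lean
section




/-!
# Row S41, block PD, leaf CUSP (helper769): CUSP-1 and CUSP-2

* `tOrbitSystemExists : Spec.TOrbitSystemExistsStatement` — `T`-orbit systems exist;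
* `tOrbitCusp : Spec.TOrbitCuspStatement` — a `T`-orbit system is a cusp system (`-1 ∈ Γ`).

Reusable lemmas: `coe_conj_T_zpow` (entries of `h⁻¹ T^k h`), `isPosParabolic_conj_T_zpow_iff`
(`h⁻¹ T^k h` positive parabolic `↔ 0 < k`), `exists_conj_of_isPosParabolic` (classification),
`eq_of_mul_T_zpow_eq`, `eq_of_conj_T_zpow_eq` (rigidity: the centraliser of `T^a` is `± ⟨T⟩`),
`IsTOrbitSystem_mem_iff_dvd` (`hᵢ⁻¹ T^k hᵢ ∈ Γ ↔ wᵢ ∣ k`), `mk_neg_eq`, `mk_T_zpow_mul_eq_iff`.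
-/

set_option autoImplicit false

namespace Fermat.Agent.S41.H769

open CongruenceSubgroup Matrix.SpecialLinearGroup ModularGroup
open Fermat.Agent.S41.Spec
open scoped MatrixGroups

universe u

/-! ## Matrix lemmas -/

theorem sl2_det_entries (h : SL(2, ℤ)) : h 0 0 * h 1 1 - h 0 1 * h 1 0 = 1 := by
  have := h.det_coe
  rwa [Matrix.det_fin_two] at this

/-- Entries of `h⁻¹ T^k h`. -/
theorem coe_conj_T_zpow (h : SL(2, ℤ)) (k : ℤ) :
    ((h⁻¹ * T ^ k * h : SL(2, ℤ)) : Matrix (Fin 2) (Fin 2) ℤ) =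
      !![1 + k * h 1 0 * h 1 1, k * h 1 1 ^ 2; -(k * h 1 0 ^ 2), 1 - k * h 1 0 * h 1 1] := by
  have hdet := sl2_det_entries h
  rw [Matrix.SpecialLinearGroup.coe_mul, Matrix.SpecialLinearGroup.coe_mul, coe_T_zpow,
    Matrix.SpecialLinearGroup.coe_inv, Matrix.adjugate_fin_two]
  ext i j
  fin_cases i <;> fin_cases j <;>
    simp [Matrix.mul_apply, Fin.sum_univ_two] <;>
    first
      | linear_combination (1 : ℤ) * hdet
      | linear_combination (-1 : ℤ) * hdet
      | ring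

theorem conj_T_zpow_apply_01 (h : SL(2, ℤ)) (k : ℤ) :
    (h⁻¹ * T ^ k * h : SL(2, ℤ)) 0 1 = k * h 1 1 ^ 2 := by
  have := congrFun (congrFun (coe_conj_T_zpow h k) 0) 1
  simpa using this

theorem conj_T_zpow_apply_10 (h : SL(2, ℤ)) (k : ℤ) :
    (h⁻¹ * T ^ k * h : SL(2, ℤ)) 1 0 = -(k * h 1 0 ^ 2) := by
  have := congrFun (congrFun (coe_conj_T_zpow h k) 1) 0
  simpa using this

theorem conj_T_zpow_trace (h : SL(2, ℤ)) (k : ℤ) :
    ((h⁻¹ * T ^ k * h : SL(2, ℤ)) : Matrix (Fin 2) (Fin 2) ℤ).trace = 2 := by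
  rw [coe_conj_T_zpow, Matrix.trace_fin_two_of]
  ring

theorem T_zpow_injective : Function.Injective (fun k : ℤ => (T ^ k : SL(2, ℤ))) := by
  intro a b hab
  have h1 : ((T ^ a : SL(2, ℤ)) : Matrix (Fin 2) (Fin 2) ℤ) 0 1 =
      ((T ^ b : SL(2, ℤ)) : Matrix (Fin 2) (Fin 2) ℤ) 0 1 := by
    simp only at hab
    rw [hab]
  simpa [coe_T_zpow] using h1

theorem conj_T_zpow_eq_one_iff (h : SL(2, ℤ)) (k : ℤ) :
    (h⁻¹ * T ^ k * h : SL(2, ℤ)) = 1 ↔ k = 0 := by
  constructor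
  · intro hk
    have h1 : (T ^ k : SL(2, ℤ)) = T ^ (0 : ℤ) := by
      have : (T ^ k : SL(2, ℤ)) = h * (h⁻¹ * T ^ k * h) * h⁻¹ := by group
      rw [this, hk]; group
    exact T_zpow_injective h1
  · rintro rfl
    group

/-- `h⁻¹ T^k h` is positive parabolic iff `k > 0`. -/
theorem isPosParabolic_conj_T_zpow_iff (h : SL(2, ℤ)) (k : ℤ) :
    IsPosParabolic (h⁻¹ * T ^ k * h) ↔ 0 < k := by
  have hdet := sl2_det_entries h
  unfold IsPosParabolic
  rw [conj_T_zpow_trace, conj_T_zpow_apply_01, conj_T_zpow_apply_10, Ne,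
    conj_T_zpow_eq_one_iff]
  constructor
  · rintro ⟨h0, -, h1, h2⟩
    by_contra hk
    have hk' : k < 0 := lt_of_le_of_ne (not_lt.mp hk) h0
    have hs : h 1 1 ^ 2 = 0 := by nlinarith [sq_nonneg (h 1 1)]
    have hr : h 1 0 ^ 2 = 0 := by nlinarith [sq_nonneg (h 1 0)]
    have hs' : h 1 1 = 0 := pow_eq_zero_iff (two_ne_zero) |>.mp hs
    have hr' : h 1 0 = 0 := pow_eq_zero_iff (two_ne_zero) |>.mp hr
    rw [hs', hr'] at hdet
    simp at hdet
  · intro hk
    refine ⟨hk.ne', rfl, ?_, ?_⟩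
    · positivity
    · have : 0 ≤ k * h 1 0 ^ 2 := by positivity
      linarith

/-- Classification of positive parabolic elements. -/
theorem exists_conj_of_isPosParabolic (g : SL(2, ℤ)) (hg : IsPosParabolic g) :
    ∃ (h : SL(2, ℤ)) (k : ℤ), 0 < k ∧ g = h⁻¹ * T ^ k * h := by
  obtain ⟨a, k, hak⟩ := Fermat.Agent.S21.H585.exists_mul_eq_mul_T_zpow g hg.2.1
  have hg' : g = (a⁻¹)⁻¹ * T ^ k * a⁻¹ := by
    rw [inv_inv, ← hak]; group
  refine ⟨a⁻¹, k, ?_, hg'⟩
  rw [← isPosParabolic_conj_T_zpow_iff a⁻¹ k, ← hg']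
  exact hg

/-- Rigidity: `u T^a = T^b u`, `a ≠ 0` forces `a = b` and `u = ± T^n`. -/
theorem eq_of_mul_T_zpow_eq (u : SL(2, ℤ)) (a b : ℤ) (ha : a ≠ 0)
    (h : u * T ^ a = T ^ b * u) : a = b ∧ ∃ n : ℤ, u = T ^ n ∨ u = -T ^ n := by
  have hdet := sl2_det_entries u
  have hm : ((u * T ^ a : SL(2, ℤ)) : Matrix (Fin 2) (Fin 2) ℤ) =
      ((T ^ b * u : SL(2, ℤ)) : Matrix (Fin 2) (Fin 2) ℤ) := by rw [h]
  rw [Matrix.SpecialLinearGroup.coe_mul, Matrix.SpecialLinearGroup.coe_mul, coe_T_zpow,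
    coe_T_zpow] at hm
  have h01 := congrFun (congrFun hm 0) 1
  have h11 := congrFun (congrFun hm 1) 1
  simp [Matrix.mul_apply, Fin.sum_univ_two] at h01 h11
  have hr : u 1 0 = 0 := by
    rcases h11 with h11 | h11
    · exact h11
    · exact absurd h11 ha
  rw [hr] at hdet
  have hps : u 0 0 * u 1 1 = 1 := by linear_combination hdet
  rcases Int.eq_one_or_neg_one_of_mul_eq_one' hps with ⟨hp, hs⟩ | ⟨hp, hs⟩
  · rw [hp, hs] at h01
    refine ⟨by linarith, u 0 1, Or.inl ?_⟩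
    apply Subtype.ext
    rw [coe_T_zpow]
    ext i j
    fin_cases i <;> fin_cases j <;> simp [hp, hs, hr]
  · rw [hp, hs] at h01
    refine ⟨by linarith, -u 0 1, Or.inr ?_⟩
    apply Subtype.ext
    rw [Matrix.SpecialLinearGroup.coe_neg, coe_T_zpow]
    ext i j
    fin_cases i <;> fin_cases j <;> simp [hp, hs, hr]

/-- Two conjugates `h⁻¹ T^a h = h'⁻¹ T^b h'` (`a ≠ 0`): `a = b` and `h' = ± T^n h`. -/
theorem eq_of_conj_T_zpow_eq (h h' : SL(2, ℤ)) (a b : ℤ) (ha : a ≠ 0)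
    (he : h⁻¹ * T ^ a * h = h'⁻¹ * T ^ b * h') :
    a = b ∧ ∃ n : ℤ, h' = T ^ n * h ∨ h' = -(T ^ n * h) := by
  have hu : (h' * h⁻¹) * T ^ a = T ^ b * (h' * h⁻¹) := by
    have : T ^ a = h * (h⁻¹ * T ^ a * h) * h⁻¹ := by group
    rw [this, he]; group
  obtain ⟨hab, n, hn | hn⟩ := eq_of_mul_T_zpow_eq _ a b ha hu
  · refine ⟨hab, n, Or.inl ?_⟩
    rw [← hn]; group
  · refine ⟨hab, n, Or.inr ?_⟩
    rw [← neg_mul, ← hn]; group

theorem conj_inv_zpow {G : Type*} [Group G] (h b : G) (n : ℤ) :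
    (h⁻¹ * b * h) ^ n = h⁻¹ * b ^ n * h := by
  have := conj_zpow (a := h⁻¹) (b := b) (i := n)
  simpa using this

theorem conj_inv_pow {G : Type*} [Group G] (h b : G) (n : ℕ) :
    (h⁻¹ * b * h) ^ n = h⁻¹ * b ^ n * h := by
  have := conj_pow (a := h⁻¹) (b := b) (i := n)
  simpa using this

/-! ## Quotient lemmas -/

theorem mk_neg_eq (Γ : Subgroup SL(2, ℤ)) (hneg : (-1 : SL(2, ℤ)) ∈ Γ) (g : SL(2, ℤ)) :
    (((-g : SL(2, ℤ)) : SL(2, ℤ)) : SL(2, ℤ) ⧸ Γ) = ((g : SL(2, ℤ)) : SL(2, ℤ) ⧸ Γ) := by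
  rw [QuotientGroup.eq]
  have : (-g)⁻¹ * g = -1 := by
    rw [inv_neg, neg_mul, inv_mul_cancel]
  rw [this]
  exact hneg

theorem mk_T_zpow_mul_eq_iff (Γ : Subgroup SL(2, ℤ)) (h : SL(2, ℤ)) (a b : ℤ) :
    (((T ^ a * h : SL(2, ℤ)) : SL(2, ℤ)) : SL(2, ℤ) ⧸ Γ) = ((T ^ b * h : SL(2, ℤ)) : SL(2, ℤ) ⧸ Γ) ↔
      h⁻¹ * T ^ (b - a) * h ∈ Γ := by
  rw [QuotientGroup.eq]
  have : (T ^ a * h)⁻¹ * (T ^ b * h) = h⁻¹ * T ^ (b - a) * h := by
    rw [zpow_sub]; group
  rw [this]


/-! ## `T`-orbit systems -/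

section OrbitSystem

variable {Γ : Subgroup SL(2, ℤ)} {ι : Type} {γ : ι → Γ} {h : ι → SL(2, ℤ)} {w : ι → ℕ}

/-- (P1) the period set of `hᵢ Γ` is `wᵢ ℤ`. -/
theorem IsTOrbitSystem_mem_iff_dvd (hsys : IsTOrbitSystem Γ γ h w) (i : ι) (k : ℤ) :
    (h i)⁻¹ * T ^ k * h i ∈ Γ ↔ (w i : ℤ) ∣ k := by
  obtain ⟨hw, hγ, hX⟩ := hsys
  have hwi : (0 : ℤ) < w i := by exact_mod_cast hw i
  have hmem : ∀ n : ℤ, (h i)⁻¹ * T ^ ((w i : ℤ) * n) * h i ∈ Γ := by
    intro n
    have h1 : (h i)⁻¹ * T ^ ((w i : ℤ) * n) * h i = ((γ i : Γ) : SL(2, ℤ)) ^ n := by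
      rw [hγ i, conj_inv_zpow, zpow_mul, zpow_natCast]
    rw [h1]
    exact Γ.zpow_mem (γ i).2 n
  constructor
  · intro hk
    obtain ⟨n, j, hkd, hj0, hj1⟩ : ∃ n j : ℤ, k = (w i : ℤ) * n + j ∧ 0 ≤ j ∧ j < w i :=
      ⟨k / (w i : ℤ), k % (w i : ℤ), (Int.mul_ediv_add_emod k (w i)).symm,
        Int.emod_nonneg _ hwi.ne', Int.emod_lt_of_pos _ hwi⟩
    subst hkd
    have hjmem : (h i)⁻¹ * T ^ j * h i ∈ Γ := by
      have h1 : (h i)⁻¹ * T ^ j * h i =
          ((h i)⁻¹ * T ^ ((w i : ℤ) * n) * h i)⁻¹ *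
            ((h i)⁻¹ * T ^ ((w i : ℤ) * n + j) * h i) := by
        rw [zpow_add]
        group
      rw [h1]
      exact Γ.mul_mem (Γ.inv_mem (hmem _)) hk
    -- both `(i, 0)` and `(i, j)` represent `hᵢ Γ`
    obtain ⟨p, -, hp⟩ := hX ((h i : SL(2, ℤ)) : SL(2, ℤ) ⧸ Γ)
    have e0 := hp ⟨i, ⟨0, hw i⟩⟩ (by simp)
    have hlt : j.toNat < w i := by
      have : (j.toNat : ℤ) < w i := by rwa [Int.toNat_of_nonneg hj0]
      exact_mod_cast this
    have e1 := hp ⟨i, ⟨j.toNat, hlt⟩⟩ (by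
      show ((h i : SL(2, ℤ)) : SL(2, ℤ) ⧸ Γ) = ((T ^ j.toNat * h i : SL(2, ℤ)) : _)
      have h2 := (mk_T_zpow_mul_eq_iff Γ (h i) 0 j).2 (by simpa using hjmem)
      rw [zpow_zero, one_mul] at h2
      rw [h2, ← zpow_natCast, Int.toNat_of_nonneg hj0])
    have e2 : (⟨i, ⟨j.toNat, hlt⟩⟩ : Σ i, Fin (w i)) = ⟨i, ⟨0, hw i⟩⟩ := by
      rw [e0, e1]
    have e3 : j.toNat = 0 := by
      have := congrArg (fun p : Σ i, Fin (w i) => (p.2 : ℕ)) e2
      simpa using this
    have e4 : j = 0 := by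
      have := Int.toNat_of_nonneg hj0
      rw [e3] at this
      exact_mod_cast this.symm
    rw [e4, add_zero]
    exact dvd_mul_right _ _
  · rintro ⟨n, rfl⟩
    exact hmem n

/-- (P2) the `γᵢ` are positive parabolic. -/
theorem IsTOrbitSystem_isPosParabolic (hsys : IsTOrbitSystem Γ γ h w) (i : ι) :
    IsPosParabolic ((γ i : Γ) : SL(2, ℤ)) := by
  rw [hsys.2.1 i, ← zpow_natCast, isPosParabolic_conj_T_zpow_iff]
  exact_mod_cast hsys.1 i

/-- (P3) the `γᵢ` are primitive. -/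
theorem IsTOrbitSystem_isPrimPosParabolic (hsys : IsTOrbitSystem Γ γ h w) (i : ι) :
    IsPrimPosParabolic Γ (γ i) := by
  refine ⟨IsTOrbitSystem_isPosParabolic hsys i, fun γ' k hγ' hk => ?_⟩
  have hwi : (0 : ℤ) < w i := by exact_mod_cast hsys.1 i
  obtain ⟨g, k', hk', hg⟩ := exists_conj_of_isPosParabolic _ hγ'
  have h1 : (h i)⁻¹ * T ^ (w i : ℤ) * h i = g⁻¹ * T ^ (k' * (k : ℤ)) * g := by
    have e1 : ((γ i : Γ) : SL(2, ℤ)) = ((γ' : Γ) : SL(2, ℤ)) ^ k := by
      rw [← hk]; rfl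
    rw [zpow_natCast, ← hsys.2.1 i, e1, hg, conj_inv_pow, zpow_mul, zpow_natCast]
  obtain ⟨hab, n, hn⟩ := eq_of_conj_T_zpow_eq (h i) g _ _ hwi.ne' h1
  have h2 : ((γ' : Γ) : SL(2, ℤ)) = (h i)⁻¹ * T ^ k' * h i := by
    rw [hg]
    rcases hn with hn | hn
    · rw [hn]
      have : (T ^ n * h i)⁻¹ * T ^ k' * (T ^ n * h i) =
          (h i)⁻¹ * (T ^ (-n) * T ^ k' * T ^ n) * h i := by group
      rw [this, ← zpow_add, ← zpow_add]
      congr 2
      ring_nf
    · rw [hn, inv_neg, neg_mul, neg_mul, mul_neg, neg_neg]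
      have : (T ^ n * h i)⁻¹ * T ^ k' * (T ^ n * h i) =
          (h i)⁻¹ * (T ^ (-n) * T ^ k' * T ^ n) * h i := by group
      rw [this, ← zpow_add, ← zpow_add]
      congr 2
      ring_nf
  have h3 : (w i : ℤ) ∣ k' := by
    rw [← IsTOrbitSystem_mem_iff_dvd hsys i k', ← h2]
    exact γ'.2
  obtain ⟨m, hm⟩ := h3
  have h4 : m * (k : ℤ) = 1 := by
    have : (w i : ℤ) * (m * (k : ℤ)) = (w i : ℤ) * 1 := by
      rw [mul_one, ← mul_assoc, ← hm, ← hab]
    exact mul_left_cancel₀ hwi.ne' this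
  have hk0 : (0 : ℤ) ≤ k := by positivity
  rcases Int.eq_one_or_neg_one_of_mul_eq_one' h4 with ⟨-, hk1⟩ | ⟨-, hk1⟩
  · exact_mod_cast hk1
  · omega


/-- (P4) every primitive positive parabolic element of `Γ` is conjugate to some `γᵢ`. -/
theorem IsTOrbitSystem_exists_conj (hsys : IsTOrbitSystem Γ γ h w) (γ' : Γ)
    (hγ' : IsPrimPosParabolic Γ γ') : ∃ i, ∃ g : Γ, g * γ i * g⁻¹ = γ' := by
  obtain ⟨g, k, hk, hg⟩ := exists_conj_of_isPosParabolic _ hγ'.1
  obtain ⟨p, hp, -⟩ := hsys.2.2 ((g : SL(2, ℤ)) : SL(2, ℤ) ⧸ Γ)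
  obtain ⟨i, j⟩ := p
  -- `β = (T^j hᵢ)⁻¹ g ∈ Γ`
  have hβ : (T ^ (j : ℕ) * h i)⁻¹ * g ∈ Γ := by
    rw [← QuotientGroup.eq]
    exact hp.symm
  set β : Γ := ⟨(T ^ (j : ℕ) * h i)⁻¹ * g, hβ⟩ with hβdef
  have hgβ : g = T ^ (j : ℕ) * h i * (β : SL(2, ℤ)) := by
    rw [hβdef]; group
  -- `β γ' β⁻¹ = hᵢ⁻¹ T^k hᵢ`
  have h1 : (h i)⁻¹ * T ^ k * h i = ((β * γ' * β⁻¹ : Γ) : SL(2, ℤ)) := by
    have e1 : ((β * γ' * β⁻¹ : Γ) : SL(2, ℤ)) =
        (β : SL(2, ℤ)) * (g⁻¹ * T ^ k * g) * (β : SL(2, ℤ))⁻¹ := by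
      rw [← hg]; rfl
    rw [e1]
    conv_rhs => rw [hgβ]
    have : (β : SL(2, ℤ)) * ((T ^ (j : ℕ) * h i * (β : SL(2, ℤ)))⁻¹ * T ^ k *
        (T ^ (j : ℕ) * h i * (β : SL(2, ℤ)))) * (β : SL(2, ℤ))⁻¹ =
        (h i)⁻¹ * ((T ^ (j : ℕ))⁻¹ * T ^ k * T ^ (j : ℕ)) * h i := by group
    rw [this, ← zpow_natCast, ← zpow_neg, ← zpow_add, ← zpow_add]
    congr 2
    ring_nf
  have h2 : (w i : ℤ) ∣ k := by
    rw [← IsTOrbitSystem_mem_iff_dvd hsys i k, h1]
    exact (β * γ' * β⁻¹).2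
  obtain ⟨n, hn⟩ := h2
  have hwi : (0 : ℤ) < w i := by exact_mod_cast hsys.1 i
  have hn0 : 0 < n := by
    by_contra hcon
    have : (w i : ℤ) * n ≤ 0 := mul_nonpos_of_nonneg_of_nonpos hwi.le (not_lt.mp hcon)
    omega
  -- `β γ' β⁻¹ = γᵢ ^ n`
  have h3 : β * γ' * β⁻¹ = γ i ^ n.toNat := by
    apply Subtype.ext
    rw [← h1, hn]
    show _ = ((γ i : Γ) : SL(2, ℤ)) ^ n.toNat
    rw [hsys.2.1 i, conj_inv_pow, zpow_mul, zpow_natCast, ← zpow_natCast _ n.toNat,
      Int.toNat_of_nonneg hn0.le]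
  -- primitivity of `γ'`
  have h4 : (β⁻¹ * γ i * β) ^ n.toNat = γ' := by
    rw [conj_inv_pow, ← h3]; group
  have hpos : IsPosParabolic ((β⁻¹ * γ i * β : Γ) : SL(2, ℤ)) := by
    have e1 : ((β⁻¹ * γ i * β : Γ) : SL(2, ℤ)) =
        (h i * (β : SL(2, ℤ)))⁻¹ * T ^ (w i : ℤ) * (h i * (β : SL(2, ℤ))) := by
      show (β : SL(2, ℤ))⁻¹ * ((γ i : Γ) : SL(2, ℤ)) * (β : SL(2, ℤ)) = _
      rw [hsys.2.1 i, zpow_natCast]; group
    rw [e1, isPosParabolic_conj_T_zpow_iff]
    exact hwi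
  have h5 : n.toNat = 1 := hγ'.2 _ _ hpos h4
  refine ⟨i, β⁻¹, ?_⟩
  rw [inv_inv, ← h4, h5, pow_one]

/-- (P5) the `γᵢ` are pairwise non-conjugate (`-1 ∈ Γ`). -/
theorem IsTOrbitSystem_conj_unique (hneg : (-1 : SL(2, ℤ)) ∈ Γ) (hsys : IsTOrbitSystem Γ γ h w)
    (i i' : ι) (g : Γ) (hg : g * γ i' * g⁻¹ = γ i) : i' = i := by
  have hwi : (0 : ℤ) < w i := by exact_mod_cast hsys.1 i
  -- `hᵢ⁻¹ T^{wᵢ} hᵢ = (hᵢ' g⁻¹)⁻¹ T^{wᵢ'} (hᵢ' g⁻¹)`
  have h1 : (h i)⁻¹ * T ^ (w i : ℤ) * h i =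
      (h i' * (g : SL(2, ℤ))⁻¹)⁻¹ * T ^ (w i' : ℤ) * (h i' * (g : SL(2, ℤ))⁻¹) := by
    have e1 : ((γ i : Γ) : SL(2, ℤ)) =
        (g : SL(2, ℤ)) * ((γ i' : Γ) : SL(2, ℤ)) * (g : SL(2, ℤ))⁻¹ := by
      rw [← hg]; rfl
    rw [zpow_natCast, zpow_natCast, ← hsys.2.1 i, e1, hsys.2.1 i']
    group
  obtain ⟨-, n, hn⟩ := eq_of_conj_T_zpow_eq (h i) _ _ _ hwi.ne' h1
  -- hence `hᵢ' Γ = T^n hᵢ Γ`
  have h2 : ((h i' : SL(2, ℤ)) : SL(2, ℤ) ⧸ Γ) = ((T ^ n * h i : SL(2, ℤ)) : SL(2, ℤ) ⧸ Γ) := by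
    have e1 : ((h i' : SL(2, ℤ)) : SL(2, ℤ) ⧸ Γ) =
        ((h i' * (g : SL(2, ℤ))⁻¹ : SL(2, ℤ)) : SL(2, ℤ) ⧸ Γ) := by
      rw [QuotientGroup.eq]
      have : (h i')⁻¹ * (h i' * (g : SL(2, ℤ))⁻¹) = ((g⁻¹ : Γ) : SL(2, ℤ)) := by
        rw [inv_mul_cancel_left]; rfl
      rw [this]
      exact (g⁻¹).2
    rw [e1]
    rcases hn with hn | hn
    · rw [hn]
    · rw [hn, mk_neg_eq Γ hneg]
  -- reduce `n` modulo `wᵢ`
  have hj0 : 0 ≤ n % (w i : ℤ) := Int.emod_nonneg _ hwi.ne'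
  have hj1 : n % (w i : ℤ) < w i := Int.emod_lt_of_pos _ hwi
  have h3 : ((T ^ n * h i : SL(2, ℤ)) : SL(2, ℤ) ⧸ Γ) =
      ((T ^ (n % (w i : ℤ)) * h i : SL(2, ℤ)) : SL(2, ℤ) ⧸ Γ) := by
    rw [mk_T_zpow_mul_eq_iff, IsTOrbitSystem_mem_iff_dvd hsys]
    have : n % (w i : ℤ) - n = (w i : ℤ) * (-(n / (w i : ℤ))) := by
      have := Int.mul_ediv_add_emod n (w i)
      linarith
    rw [this]
    exact dvd_mul_right _ _
  have hlt : (n % (w i : ℤ)).toNat < w i := by
    have : ((n % (w i : ℤ)).toNat : ℤ) < w i := by rwa [Int.toNat_of_nonneg hj0]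
    exact_mod_cast this
  obtain ⟨p, -, hp⟩ := hsys.2.2 ((h i' : SL(2, ℤ)) : SL(2, ℤ) ⧸ Γ)
  have e0 := hp ⟨i', ⟨0, hsys.1 i'⟩⟩ (by simp)
  have e1 := hp ⟨i, ⟨(n % (w i : ℤ)).toNat, hlt⟩⟩ (by
    show ((h i' : SL(2, ℤ)) : SL(2, ℤ) ⧸ Γ) =
      ((T ^ (n % (w i : ℤ)).toNat * h i : SL(2, ℤ)) : _)
    rw [h2, h3, ← zpow_natCast, Int.toNat_of_nonneg hj0])
  have e2 : (⟨i', ⟨0, hsys.1 i'⟩⟩ : Σ i, Fin (w i)) = ⟨i, ⟨(n % (w i : ℤ)).toNat, hlt⟩⟩ := by
    rw [e0, e1]
  exact congrArg Sigma.fst e2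

end OrbitSystem

/-- (CUSP-2) a `T`-orbit system is a cusp system. -/
theorem tOrbitCusp : TOrbitCuspStatement := by
  intro Γ _ hneg ι γ h w hsys
  refine ⟨fun i => IsTOrbitSystem_isPrimPosParabolic hsys i, fun γ' hγ' => ?_⟩
  obtain ⟨i, g, hg⟩ := IsTOrbitSystem_exists_conj hsys γ' hγ'
  refine ⟨i, ⟨g, hg⟩, fun i' hi' => ?_⟩
  obtain ⟨g', hg'⟩ := hi'
  -- `γ i = (g⁻¹ g') γ i' (g⁻¹ g')⁻¹`
  refine IsTOrbitSystem_conj_unique hneg hsys i i' (g⁻¹ * g') ?_
  have : g' * γ i' * g'⁻¹ = g * γ i * g⁻¹ := by rw [hg, hg']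
  calc g⁻¹ * g' * γ i' * (g⁻¹ * g')⁻¹ = g⁻¹ * (g' * γ i' * g'⁻¹) * g := by group
    _ = g⁻¹ * (g * γ i * g⁻¹) * g := by rw [this]
    _ = γ i := by group


/-! ## CUSP-1 -/

/-- (CUSP-1) `T`-orbit systems exist. -/
theorem tOrbitSystemExists : TOrbitSystemExistsStatement := by
  intro Γ _
  classical
  have : Finite (SL(2, ℤ) ⧸ Γ) := Subgroup.finite_quotient_of_finiteIndex
  let X := SL(2, ℤ) ⧸ Γ
  let ι := MulAction.orbitRel.Quotient (Subgroup.zpowers (T : SL(2, ℤ))) X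
  have : Finite ι := Quotient.finite _
  let xr : ι → X := fun i => Quotient.out i
  let h : ι → SL(2, ℤ) := fun i => Quotient.out (xr i)
  have hh : ∀ i, ((h i : SL(2, ℤ)) : X) = xr i := fun i => QuotientGroup.out_eq' _
  let w : ι → ℕ := fun i => Function.minimalPeriod ((T : SL(2, ℤ)) • ·) (xr i)
  have hw : ∀ i, 0 < w i := fun i =>
    Function.minimalPeriod_pos_of_mem_periodicPts
      (Function.Injective.mem_periodicPts (MulAction.injective (T : SL(2, ℤ))) (xr i))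
  -- `T^k • xr i = xr i ↔ w i ∣ k`
  have hper : ∀ (i : ι) (k : ℤ), (T : SL(2, ℤ)) ^ k • xr i = xr i ↔ (w i : ℤ) ∣ k := fun i k =>
    MulAction.zpow_smul_eq_iff_minimalPeriod_dvd
  have hsmul : ∀ (i : ι) (k : ℤ), (((T : SL(2, ℤ)) ^ k * h i : SL(2, ℤ)) : X) =
      (T : SL(2, ℤ)) ^ k • xr i := by
    intro i k
    rw [← hh i]
    rfl
  have hmem : ∀ i, (h i)⁻¹ * T ^ (w i) * h i ∈ Γ := by
    intro i
    have h1 : (((T : SL(2, ℤ)) ^ (0 : ℤ) * h i : SL(2, ℤ)) : X) =
        (((T : SL(2, ℤ)) ^ (w i : ℤ) * h i : SL(2, ℤ)) : X) := by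
      rw [hsmul, hsmul, (hper i _).2 (dvd_refl _), zpow_zero, one_smul]
    have h2 := (mk_T_zpow_mul_eq_iff Γ (h i) 0 (w i)).1 h1
    simpa using h2
  refine ⟨ι, Fintype.ofFinite ι, fun i => ⟨_, hmem i⟩, h, w, hw, fun i => rfl, fun x => ?_⟩
  -- the orbit of `x`
  have hx : xr (Quotient.mk'' x) ∈ MulAction.orbit (Subgroup.zpowers (T : SL(2, ℤ))) x := by
    have : (Quotient.mk'' (xr (Quotient.mk'' x)) : ι) = Quotient.mk'' x := Quotient.out_eq' _
    exact MulAction.orbitRel_apply.1 (Quotient.exact' this)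
  obtain ⟨⟨t, ht⟩, htx⟩ := hx
  obtain ⟨k, rfl⟩ := Subgroup.mem_zpowers_iff.1 ht
  -- `T^k • x = xr i`, so `x = T^(-k) • xr i`
  set i : ι := Quotient.mk'' x with hi
  have hx' : x = (T : SL(2, ℤ)) ^ (-k) • xr i := by
    have : (T : SL(2, ℤ)) ^ k • x = xr i := htx
    rw [← this, smul_smul, ← zpow_add, neg_add_cancel, zpow_zero, one_smul]
  have hwi : (0 : ℤ) < w i := by exact_mod_cast hw i
  have hj0 : 0 ≤ (-k) % (w i : ℤ) := Int.emod_nonneg _ hwi.ne'
  have hj1 : (-k) % (w i : ℤ) < w i := Int.emod_lt_of_pos _ hwi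
  have hlt : ((-k) % (w i : ℤ)).toNat < w i := by
    have : (((-k) % (w i : ℤ)).toNat : ℤ) < w i := by rwa [Int.toNat_of_nonneg hj0]
    exact_mod_cast this
  have hred : ∀ (a b : ℤ), (T : SL(2, ℤ)) ^ a • xr i = (T : SL(2, ℤ)) ^ b • xr i ↔
      (w i : ℤ) ∣ a - b := by
    intro a b
    rw [← hper i (a - b)]
    constructor
    · intro hab
      rw [sub_eq_neg_add, zpow_add, ← smul_smul, hab, smul_smul, ← zpow_add, neg_add_cancel,
        zpow_zero, one_smul]
    · intro hab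
      conv_lhs => rw [show a = b + (a - b) by ring, zpow_add, ← smul_smul, hab]
  refine ⟨⟨i, ⟨((-k) % (w i : ℤ)).toNat, hlt⟩⟩, ?_, ?_⟩
  · show x = (((T : SL(2, ℤ)) ^ ((-k) % (w i : ℤ)).toNat * h i : SL(2, ℤ)) : X)
    rw [← zpow_natCast, Int.toNat_of_nonneg hj0, hsmul]
    refine hx'.trans ?_
    rw [hred]
    exact Int.dvd_self_sub_emod
  · rintro ⟨i', ⟨j', hj'⟩⟩ hp
    have hp' : x = (T : SL(2, ℤ)) ^ (j' : ℤ) • xr i' := by
      rw [← hsmul, zpow_natCast]; exact hp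
    have hii : i' = i := by
      have h1 : (Quotient.mk'' (xr i') : ι) = i' := Quotient.out_eq' _
      rw [← h1, hi]
      apply Quotient.sound'
      apply MulAction.orbitRel_apply.2
      refine ⟨⟨(T : SL(2, ℤ)) ^ (-(j' : ℤ)), Subgroup.zpow_mem_zpowers _ _⟩, ?_⟩
      show (T : SL(2, ℤ)) ^ (-(j' : ℤ)) • x = xr i'
      rw [hp', smul_smul, ← zpow_add, neg_add_cancel, zpow_zero, one_smul]
    subst hii
    have hdvd : (w i : ℤ) ∣ (j' : ℤ) - (-k) % (w i : ℤ) := by
      have h1 : (w i : ℤ) ∣ (j' : ℤ) - (-k) := by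
        rw [← hred, ← hp', ← hx']
      have h2 : (w i : ℤ) ∣ (-k) - (-k) % (w i : ℤ) := Int.dvd_self_sub_emod
      have h3 := dvd_add h1 h2
      have h4 : (j' : ℤ) - (-k) + ((-k) - (-k) % (w i : ℤ)) = (j' : ℤ) - (-k) % (w i : ℤ) := by
        ring
      rwa [h4] at h3
    have hj'' : (j' : ℤ) < w i := by exact_mod_cast hj'
    have heq : (j' : ℤ) = (-k) % (w i : ℤ) := by
      obtain ⟨c, hc⟩ := hdvd
      have hc0 : c = 0 := by
        by_contra hne
        rcases lt_or_gt_of_ne hne with hneg | hpos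
        · have : (w i : ℤ) * c ≤ -(w i : ℤ) := by nlinarith
          omega
        · have : (w i : ℤ) ≤ (w i : ℤ) * c := by nlinarith
          omega
      rw [hc0, mul_zero] at hc
      omega
    have heq' : j' = ((-k) % (w i : ℤ)).toNat := by
      have := congrArg Int.toNat heq
      simpa using this
    subst heq'
    rfl

end Fermat.Agent.S41.H769

end
-- ===== PACK-END S41/H769/CuspOrbit.lean

-- ===== PACK-BEGIN S41/Spec/Core.lean
section




/-!
# Row S41 — blocks IH (final form) and CORE (row-lead helper41)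

Built on the definitions of `Spec/HK.lean` (helper761).  (`Spec/Defs.lean` and `Spec/Blocks.lean`
are SUPERSEDED: never import them.)  Top-level blocks of the row and where their statements live:

* HK  : `Spec/HK.lean`  (9 Props)                * OCC : `Spec/Occ.lean`  `OccStatement`
* DS  : `Spec/DS.lean`  `DSStatement`            * NEW : `Spec/New.lean`  `NewStatement`
* PD  : `Spec/PD.lean`  `PDHeckeStatement`, `LiftStatement`, `CuspFreeStatement`
* IH  : `IharaEigenStatement` (here; = AM + IH' + NE', the CSP-free route of helper744)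
* CORE: `RibetCoreStatement` (here; abstract linear algebra)

`Fermat.Agent.S41.Glue` derives S41 from these.
-/

set_option autoImplicit false

open WeierstrassCurve WeierstrassCurve.Affine WeierstrassCurve.Affine.Point
open scoped CongruenceSubgroup MatrixGroups

namespace Fermat.Agent.S41.Spec

open CongruenceSubgroup Fermat.Agent.S29.H642

/-- **IH** (Ihara's lemma for the eigensystem of `E[p]`).  A pair of cuspidal classes mod `p`
of level `N` in the kernel of `r₁ + r₂`, both eigenvectors of all `T_l` (`l ∤ N q p` good) with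
eigenvalues `a_l(W)`, vanishes, provided `E[p]` is irreducible. -/
def IharaEigenStatement : Prop :=
  ∀ (E : WeierstrassCurve ℚ) [E.IsElliptic] (W : WeierstrassCurve ℤ), W.IsIntegralModelOf E →
    ∀ (p N q : ℕ), p.Prime → p ≠ 2 → N ≠ 0 → q.Prime → ¬ q ∣ N → q ≠ p →
      GaloisRepIsIrreducible (K := AlgebraicClosure ℚ) ℚ E p →
      ∀ φ₁ φ₂ : Additive (Gamma0 N) →+ ZMod p, IsCuspidal φ₁ → IsCuspidal φ₂ →
        r₁ N q φ₁ + r₂ N q φ₂ = 0 →
        (∀ (l : ℕ) [Fact l.Prime] (hl : ¬ l ∣ N), ¬ l ∣ N * q → W.IsGoodPrimeFor l → l ≠ p →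
          heckeTransfer hl φ₁ = ((W.apOfModel l : ℤ) : ZMod p) • φ₁ ∧
          heckeTransfer hl φ₂ = ((W.apOfModel l : ℤ) : ZMod p) • φ₂) →
        φ₁ = 0 ∧ φ₂ = 0

/-- **CORE** (Ribet's linear algebra).  `A`, `B` lattices with commuting operators `tA l`, `tB l`
(`l : ι`), equivariant maps `i = i₁ + i₂ : A² → B`, `j = (j₁, j₂) : B → A²` with
`j ∘ i = [[c, T], [T, c]]`, nondegenerate forms mod `p` for which the operators are self-adjoint
and `j` is adjoint to `i`.  If no nonzero eigenvector mod `p` (eigenvalues `a l`) lies in the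
kernel of `i` mod `p` and if some eigenvector `x` mod `p` has `T x = μ x` with `μ² = c²` mod `p`,
then `ker j` contains an eigenvector mod `p` with the eigenvalues `a l`. -/
def RibetCoreStatement : Prop :=
  ∀ (p : ℕ) [Fact p.Prime] (ι : Type) (A B : Type) [AddCommGroup A] [AddCommGroup B]
    [Module.Finite ℤ A] [Module.Free ℤ A] [Module.Finite ℤ B] [Module.Free ℤ B]
    (tA : ι → A →ₗ[ℤ] A) (tB : ι → B →ₗ[ℤ] B) (T : A →ₗ[ℤ] A)
    (i₁ i₂ : A →ₗ[ℤ] B) (j₁ j₂ : B →ₗ[ℤ] A) (c μ : ℤ) (a : ι → ℤ)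
    (βA : A → A → ZMod p) (βB : B → B → ZMod p),
    -- commutation
    (∀ l l' x, tA l (tA l' x) = tA l' (tA l x)) → (∀ l l' y, tB l (tB l' y) = tB l' (tB l y)) →
    (∀ l x, tB l (i₁ x) = i₁ (tA l x)) → (∀ l x, tB l (i₂ x) = i₂ (tA l x)) →
    (∀ l y, tA l (j₁ y) = j₁ (tB l y)) → (∀ l y, tA l (j₂ y) = j₂ (tB l y)) →
    -- `j ∘ i = [[c, T], [T, c]]`
    (∀ x, j₁ (i₁ x) = c • x) → (∀ x, j₂ (i₂ x) = c • x) →
    (∀ x, j₁ (i₂ x) = T x) → (∀ x, j₂ (i₁ x) = T x) →
    -- duality mod `p`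
    (∀ x x' y, βA (x + x') y = βA x y + βA x' y) → (∀ x y y', βA x (y + y') = βA x y + βA x y') →
    (∀ x x' y, βB (x + x') y = βB x y + βB x' y) → (∀ x y y', βB x (y + y') = βB x y + βB x y') →
    (∀ x, (∀ y, βA x y = 0) → ∃ z, x = (p : ℤ) • z) →
    (∀ x, (∀ y, βB x y = 0) → ∃ z, x = (p : ℤ) • z) →
    (∀ l x y, βA (tA l x) y = βA x (tA l y)) → (∀ l x y, βB (tB l x) y = βB x (tB l y)) →
    (∀ x y, βB (i₁ x) y = βA x (j₁ y)) → (∀ x y, βB (i₂ x) y = βA x (j₂ y)) →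
    -- Ihara: no eigenvector mod `p` in the kernel of `i` mod `p`
    (∀ x₁ x₂ : A, (∃ z, i₁ x₁ + i₂ x₂ = (p : ℤ) • z) →
      (∀ l, ∃ z, tA l x₁ - a l • x₁ = (p : ℤ) • z) →
      (∀ l, ∃ z, tA l x₂ - a l • x₂ = (p : ℤ) • z) →
      (∃ z, x₁ = (p : ℤ) • z) ∧ (∃ z, x₂ = (p : ℤ) • z)) →
    -- the level raising congruence
    (∃ x : A, (¬ ∃ z, x = (p : ℤ) • z) ∧ (∃ z, T x - μ • x = (p : ℤ) • z) ∧
      ∀ l, ∃ z, tA l x - a l • x = (p : ℤ) • z) →
    (p : ℤ) ∣ μ ^ 2 - c ^ 2 →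
    ∃ y : B, j₁ y = 0 ∧ j₂ y = 0 ∧ (¬ ∃ z, y = (p : ℤ) • z) ∧
      ∀ l, ∃ z, tB l y - a l • y = (p : ℤ) • z

end Fermat.Agent.S41.Spec

end
-- ===== PACK-END S41/Spec/Core.lean

-- ===== PACK-BEGIN S59/H360/TateRep.lean
section



/-!
# S59, E-side (helper360): the Tate module as a `GaloisRepAdic ℤ_[p]`

`G` acts on the abelian group `E` by additive automorphisms.  Then `G` acts `ℤ_[p]`-linearly on
`T_p E`, componentwise.  For `G = Gal(ℚ̄/ℚ)`, under the cardinality hypothesis `TorsCard p E` and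
the finite-level hypothesis `TorsFiniteLevel p E`, this is a `GaloisRepAdic ℤ_[p]`
(`tateRepOf`), with componentwise transfer lemmas.
-/

set_option autoImplicit false
set_option linter.unusedSectionVars false

namespace Fermat.Agent.S59.H360

open PadicInt

section Action

variable {p : ℕ} [hp : Fact p.Prime] {E : Type*} [AddCommGroup E]
  {G : Type*} [Monoid G] [DistribMulAction G E]

lemma smul_nsmul_comm (σ : G) (a : ℕ) (x : E) : σ • (a • x) = a • (σ • x) :=
  map_nsmul (DistribSMul.toAddMonoidHom E σ) a x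

instance instSMulTateG : SMul G (tateSub p E) where
  smul σ f := ⟨fun n => σ • f.1 n, fun n =>
    ⟨by rw [← smul_nsmul_comm, tateSub_pow_smul, smul_zero],
     by rw [← smul_nsmul_comm, tateSub_p_smul]⟩⟩

lemma tate_gsmul_apply (σ : G) (f : tateSub p E) (n : ℕ) : (σ • f).1 n = σ • f.1 n := rfl

instance instDistribMulActionTateG : DistribMulAction G (tateSub p E) where
  one_smul f := tateSub_ext fun n => one_smul G (f.1 n)
  mul_smul σ τ f := tateSub_ext fun n => mul_smul σ τ (f.1 n)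
  smul_zero σ := tateSub_ext fun _ => smul_zero σ
  smul_add σ f g := tateSub_ext fun n => smul_add σ (f.1 n) (g.1 n)

variable (p E) in
/-- The action of `G` on the Tate module, as a monoid homomorphism into the linear
endomorphisms. -/
noncomputable def tateAction : G →* Module.End ℤ_[p] (tateSub p E) where
  toFun σ :=
    { toFun := fun f => σ • f
      map_add' := fun f g => smul_add σ f g
      map_smul' := fun _ _ => tateSub_ext fun _ => smul_nsmul_comm σ _ _ }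
  map_one' := LinearMap.ext fun f => one_smul G f
  map_mul' σ τ := LinearMap.ext fun f => mul_smul σ τ f

@[simp] lemma tateAction_apply (σ : G) (f : tateSub p E) : tateAction p E σ f = σ • f := rfl

lemma tateAction_apply_coe (σ : G) (f : tateSub p E) (n : ℕ) :
    (tateAction p E σ f).1 n = σ • f.1 n := rfl

/-- If `σ` fixes `E[p^n]` pointwise then `σ - 1` maps `T_p E` into `𝔪^n • T_p E`. -/
theorem tateAction_sub_mem (σ : G) (n : ℕ) (hσ : ∀ x : E, p ^ n • x = 0 → σ • x = x)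
    (f : tateSub p E) :
    tateAction p E σ f - f ∈
      (IsLocalRing.maximalIdeal ℤ_[p] ^ n) • (⊤ : Submodule ℤ_[p] (tateSub p E)) := by
  have h0 : (tateAction p E σ f - f).1 n = 0 := by
    rw [tateSub_coe_sub, tateAction_apply_coe, hσ _ (tateSub_pow_smul f n), sub_self]
  obtain ⟨g, hg⟩ := (tateProj_eq_zero_iff n _).mp h0
  rw [← hg]
  refine Submodule.smul_mem_smul (Ideal.pow_mem_pow ?_ n) Submodule.mem_top
  rw [PadicInt.maximalIdeal_eq_span_p]
  exact Ideal.subset_span rfl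

/-- If `σ` fixes all `p`-power torsion then `σ` acts trivially on `T_p E`. -/
theorem tateAction_eq_one (σ : G) (hσ : ∀ (n : ℕ) (x : E), p ^ n • x = 0 → σ • x = x) :
    tateAction p E σ = 1 :=
  LinearMap.ext fun f => tateSub_ext fun n => hσ n _ (tateSub_pow_smul f n)

/-- Transfer of a quadratic relation from the torsion points to the Tate module. -/
theorem tateAction_quadratic (σ : G) (a b : ℤ)
    (hσ : ∀ (n : ℕ) (x : E), p ^ n • x = 0 → σ • σ • x - a • σ • x + b • x = 0) :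
    tateAction p E σ * tateAction p E σ - (a : ℤ_[p]) • tateAction p E σ + (b : ℤ_[p]) • 1 = 0 := by
  refine LinearMap.ext fun f => tateSub_ext fun n => ?_
  have key : ∀ (c : ℤ) (g : tateSub p E), ((c : ℤ_[p]) • g).1 n = c • g.1 n := by
    intro c g
    rcases Int.eq_nat_or_neg c with ⟨m, rfl | rfl⟩
    · rw [Int.cast_natCast, tate_natCast_smul_apply, natCast_zsmul]
    · rw [Int.cast_neg, Int.cast_natCast, neg_smul, neg_smul, tateSub_coe_neg,
        tate_natCast_smul_apply, natCast_zsmul]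
  simp only [LinearMap.add_apply, LinearMap.sub_apply, LinearMap.smul_apply, Module.End.mul_apply,
    Module.End.one_apply, LinearMap.zero_apply, tateAction_apply, tateSub_coe_add,
    tateSub_coe_sub, tateSub_coe_zero, key, tate_gsmul_apply]
  exact hσ n _ (tateSub_pow_smul f n)

end Action

section Galois

local notation "GQ" => (AlgebraicClosure ℚ ≃ₐ[ℚ] AlgebraicClosure ℚ)

variable (p : ℕ) [hp : Fact p.Prime] (E : Type) [AddCommGroup E] [DistribMulAction GQ E]

/-- Every level `E[p^n]` is fixed pointwise by the Galois group of a finite extension. -/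
def TorsFiniteLevel : Prop :=
  ∀ n : ℕ, ∃ L : IntermediateField ℚ (AlgebraicClosure ℚ), FiniteDimensional ℚ L ∧
    ∀ σ : GQ, (∀ x ∈ L, σ x = x) → ∀ x : E, p ^ n • x = 0 → σ • x = x

variable {p E}

/-- **The Tate module as an adic Galois representation.** -/
noncomputable def tateRepOf (h : TorsCard p E) (hfl : TorsFiniteLevel p E) :
    GaloisRepAdic ℤ_[p] where
  V := tateSub p E
  instFree := tate_free h
  instFinite := tate_finite h
  finrank_eq := tate_finrank h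
  ρ := tateAction p E
  isAdicContinuous := fun n => by
    obtain ⟨L, hL, hfix⟩ := hfl n
    exact ⟨L, hL, fun σ hσ v => tateAction_sub_mem σ n (hfix σ hσ) v⟩

@[simp] lemma tateRepOf_V (h : TorsCard p E) (hfl : TorsFiniteLevel p E) :
    (tateRepOf h hfl).V = tateSub p E := rfl

lemma tateRepOf_ρ (h : TorsCard p E) (hfl : TorsFiniteLevel p E) :
    (tateRepOf h hfl).ρ = tateAction p E := rfl

end Galois

end Fermat.Agent.S59.H360

end
-- ===== PACK-END S59/H360/TateRep.lean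

-- ===== PACK-BEGIN S59/H396/OrdLine.lean
section



/-!
# CR-O, part D1 (helper396): the line in the Tate module cut out by a "height one" subgroup

`E` an abelian group with `#E[p^n] = p^(2n)` (`H360.TorsCard`), `C ≤ E` a subgroup with
`#(C ∩ E[p^n]) = p^n` for all `n` (`LineCard`).  Then

  `tateLine C = {f ∈ T_p E | ∀ n, f n ∈ C}`

is a direct summand of rank one: there are `X, Y ∈ T_p E` with `pairMap X Y` bijective
(`(X, Y)` is a `ℤ_p`-basis) and `tateLine C = ℤ_p ∙ X`  (`exists_basis_tateLine`).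
-/

set_option autoImplicit false
set_option linter.unusedSectionVars false
set_option linter.style.haveILetI false

namespace Fermat.Agent.S59.H396

open Fermat.Agent.S59.H360 PadicInt

variable {p : ℕ} [hp : Fact p.Prime] {E : Type*} [AddCommGroup E]

/-- the "height one" hypothesis on a subgroup `C` of `E` -/
def LineCard (p : ℕ) (C : AddSubgroup E) : Prop :=
  ∀ n : ℕ, Nat.card ↥(C ⊓ tors p E n) = p ^ n

/-- the compatible sequences with values in `C` -/
def tateLine (C : AddSubgroup E) : Submodule ℤ_[p] (tateSub p E) where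
  carrier := {f | ∀ n, f.1 n ∈ C}
  add_mem' := fun {f g} hf hg n => by
    rw [tateSub_coe_add]; exact C.add_mem (hf n) (hg n)
  zero_mem' := fun n => C.zero_mem
  smul_mem' := fun z f hf n => by
    rw [tate_smul_apply]; exact C.nsmul_mem (hf n) _

lemma mem_tateLine {C : AddSubgroup E} {f : tateSub p E} :
    f ∈ tateLine (p := p) C ↔ ∀ n, f.1 n ∈ C := Iff.rfl

/-- the quotient by `tateLine C` is torsion free -/
lemma mem_tateLine_of_p_smul {C : AddSubgroup E} {f : tateSub p E}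
    (h : (p : ℤ_[p]) • f ∈ tateLine (p := p) C) : f ∈ tateLine (p := p) C := by
  intro n
  have h1 := h (n + 1)
  rw [tate_natCast_smul_apply, tateSub_p_smul] at h1
  exact h1

lemma mem_tateLine_of_pow_smul {C : AddSubgroup E} {f : tateSub p E} (k : ℕ)
    (h : ((p : ℤ_[p]) ^ k) • f ∈ tateLine (p := p) C) : f ∈ tateLine (p := p) C := by
  induction k with
  | zero => simpa using h
  | succ k ih =>
    apply ih
    apply mem_tateLine_of_p_smul
    rw [smul_smul, ← pow_succ']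
    exact h

section divisible

variable {C : AddSubgroup E}

lemma LineCard.finite (hC : LineCard p C) (n : ℕ) : Finite ↥(C ⊓ tors p E n) :=
  Nat.finite_of_card_ne_zero (by rw [hC n]; exact pow_ne_zero _ hp.out.ne_zero)

/-- multiplication by `p` from `C ∩ E[p^(n+1)]` to `C ∩ E[p^n]` -/
def lineMulP (C : AddSubgroup E) (n : ℕ) :
    ↥(C ⊓ tors p E (n + 1)) →+ ↥(C ⊓ tors p E n) where
  toFun y := ⟨p • y.1, AddSubgroup.mem_inf.mpr
    ⟨C.nsmul_mem (AddSubgroup.mem_inf.mp y.2).1 _, mem_tors.mpr (by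
      rw [← mul_smul, ← pow_succ]; exact mem_tors.mp (AddSubgroup.mem_inf.mp y.2).2)⟩⟩
  map_zero' := by ext; simp
  map_add' a b := by ext; simp [smul_add]

@[simp] lemma lineMulP_coe (C : AddSubgroup E) (n : ℕ) (y : ↥(C ⊓ tors p E (n + 1))) :
    ((lineMulP (p := p) C n y : ↥(C ⊓ tors p E n)) : E) = p • (y : E) := rfl

/-- the kernel of `lineMulP` is `C ∩ E[p]` -/
def kerLineMulPEquiv (C : AddSubgroup E) (n : ℕ) :
    (lineMulP (p := p) C n).ker ≃ ↥(C ⊓ tors p E 1) where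
  toFun y := ⟨y.1.1, AddSubgroup.mem_inf.mpr ⟨(AddSubgroup.mem_inf.mp y.1.2).1, mem_tors.mpr (by
    rw [pow_one]
    have h := y.2
    rw [AddMonoidHom.mem_ker] at h
    exact congrArg Subtype.val h)⟩⟩
  invFun x := ⟨⟨x.1, AddSubgroup.mem_inf.mpr ⟨(AddSubgroup.mem_inf.mp x.2).1, mem_tors.mpr (by
      rw [pow_succ, mul_smul]
      have h := mem_tors.mp (AddSubgroup.mem_inf.mp x.2).2
      rw [pow_one] at h
      rw [h, smul_zero])⟩⟩, by
    rw [AddMonoidHom.mem_ker]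
    ext
    have h := mem_tors.mp (AddSubgroup.mem_inf.mp x.2).2
    rw [pow_one] at h
    simpa using h⟩
  left_inv y := by ext; rfl
  right_inv x := by ext; rfl

lemma lineMulP_surjective (hC : LineCard p C) (n : ℕ) :
    Function.Surjective (lineMulP (p := p) C n) := by
  have := hC.finite n
  have := hC.finite (n + 1)
  have h1 : Nat.card (lineMulP (p := p) C n).ker * (lineMulP (p := p) C n).ker.index
      = Nat.card ↥(C ⊓ tors p E (n + 1)) := AddSubgroup.card_mul_index _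
  rw [AddSubgroup.index_ker, Nat.card_congr (kerLineMulPEquiv C n), hC 1, hC (n + 1)] at h1
  have h2 : Nat.card (lineMulP (p := p) C n).range = p ^ n := by
    have h3 : p ^ (n + 1) = p ^ 1 * p ^ n := by rw [← pow_add]; ring_nf
    rw [h3] at h1
    exact Nat.eq_of_mul_eq_mul_left (pow_pos hp.out.pos _) h1
  have h4 : (lineMulP (p := p) C n).range = ⊤ :=
    AddSubgroup.eq_top_of_card_eq _ (by rw [h2, hC n])
  exact AddMonoidHom.range_eq_top.mp h4

/-- a compatible sequence in `C` with nonzero first term -/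
theorem exists_line_generator (hC : LineCard p C) :
    ∃ X : tateSub p E, X ∈ tateLine (p := p) C ∧ X.1 1 ≠ 0 := by
  have hfin := hC.finite 1
  have hnt : Nontrivial ↥(C ⊓ tors p E 1) := by
    rw [← Finite.one_lt_card_iff_nontrivial, hC 1, pow_one]
    exact hp.out.one_lt
  obtain ⟨e, he⟩ := exists_ne (0 : ↥(C ⊓ tors p E 1))
  choose g hg using fun n => lineMulP_surjective hC n
  -- the sequence `t n ∈ C ∩ E[p^(n+1)]`
  let t : (n : ℕ) → ↥(C ⊓ tors p E (n + 1)) :=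
    fun n => Nat.rec (motive := fun n => ↥(C ⊓ tors p E (n + 1))) e (fun n x => g (n + 1) x) n
  have ht0 : t 0 = e := rfl
  have htsucc : ∀ n, t (n + 1) = g (n + 1) (t n) := fun n => rfl
  have htp : ∀ n, p • (t (n + 1)).1 = (t n).1 := by
    intro n
    have := congrArg Subtype.val (hg (n + 1) (t n))
    rw [htsucc]
    exact this
  let X : ℕ → E := fun n => match n with
    | 0 => 0
    | k + 1 => (t k).1
  have hX : X ∈ tateSub p E := by
    intro n
    cases n with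
    | zero =>
      refine ⟨by simp [X], ?_⟩
      show p • (t 0).1 = 0
      have := mem_tors.mp (AddSubgroup.mem_inf.mp (t 0).2).2
      simpa using this
    | succ k =>
      refine ⟨mem_tors.mp (AddSubgroup.mem_inf.mp (t k).2).2, ?_⟩
      show p • (t (k + 1)).1 = (t k).1
      exact htp k
  refine ⟨⟨X, hX⟩, ?_, ?_⟩
  · intro n
    cases n with
    | zero => exact C.zero_mem
    | succ k => exact (AddSubgroup.mem_inf.mp (t k).2).1
  · show (t 0).1 ≠ 0
    rw [ht0]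
    exact fun h0 => he (Subtype.ext h0)

end divisible

section basis

/-- a nonzero point of `E[p]` is part of an `𝔽_p`-independent pair -/
theorem exists_indep_of_ne_zero (h : TorsCard p E) {e : E} (hpe : p • e = 0) (he0 : e ≠ 0) :
    ∃ e₂ : E, p • e₂ = 0 ∧
      ∀ a b : ℤ, a • e + b • e₂ = 0 → (p : ℤ) ∣ a ∧ (p : ℤ) ∣ b := by
  have hfin := h.finite 1
  have hc1 : Nat.card (tors p E 1) = p ^ 2 := by rw [h 1]
  have hp2 : 2 ≤ p := hp.out.two_le
  have hord : addOrderOf e = p := addOrderOf_eq_prime hpe he0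
  have hZcard : Nat.card (AddSubgroup.zmultiples e) = p := by
    rw [Nat.card_zmultiples, hord]
  obtain ⟨e₂, he₂, he₂Z⟩ : ∃ e₂ : E, e₂ ∈ tors p E 1 ∧ e₂ ∉ AddSubgroup.zmultiples e := by
    by_contra hcon
    push Not at hcon
    have hle : tors p E 1 ≤ AddSubgroup.zmultiples e := fun x hx => hcon x hx
    have hfinZ : Finite (AddSubgroup.zmultiples e) :=
      Nat.finite_of_card_ne_zero (by rw [hZcard]; exact hp.out.ne_zero)
    have := AddSubgroup.card_le_of_le hle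
    rw [hc1, hZcard] at this
    nlinarith
  have hpe₂ : p • e₂ = 0 := by
    have := mem_tors.mp he₂
    rwa [pow_one] at this
  refine ⟨e₂, hpe₂, fun a b hab => ?_⟩
  have hb : (p : ℤ) ∣ b := by
    by_contra hnb
    have hcop : IsCoprime b (p : ℤ) :=
      ((Nat.prime_iff_prime_int.mp hp.out).coprime_iff_not_dvd.mpr hnb).symm
    obtain ⟨u, v, huv⟩ := hcop
    apply he₂Z
    rw [AddSubgroup.mem_zmultiples_iff]
    refine ⟨-(u * a), ?_⟩
    have h1 : b • e₂ = -(a • e) := by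
      rw [eq_neg_iff_add_eq_zero, add_comm]; exact hab
    have h2 : (p : ℤ) • e₂ = 0 := by rw [natCast_zsmul]; exact hpe₂
    calc (-(u * a)) • e = u • (-(a • e)) := by
          rw [neg_smul, mul_smul, smul_neg]
      _ = u • (b • e₂) := by rw [h1]
      _ = (u * b) • e₂ + (v * (p : ℤ)) • e₂ := by
          rw [mul_smul, mul_smul v, h2, smul_zero, add_zero]
      _ = e₂ := by rw [← add_smul, huv, one_smul]
  refine ⟨?_, hb⟩
  obtain ⟨b', rfl⟩ := hb
  have h2 : ((p : ℤ) * b') • e₂ = 0 := by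
    rw [mul_comm, mul_smul, natCast_zsmul, hpe₂, smul_zero]
  rw [h2, add_zero] at hab
  have := (addOrderOf_dvd_iff_zsmul_eq_zero (x := e) (i := a)).mpr hab
  rwa [hord] at this

variable {C : AddSubgroup E}

/-- **The line `tateLine C` is spanned by the first vector of a basis.** -/
theorem exists_basis_tateLine (h : TorsCard p E) (hC : LineCard p C) :
    ∃ X Y : tateSub p E, Function.Bijective (pairMap X Y) ∧
      tateLine (p := p) C = Submodule.span ℤ_[p] {X} := by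
  obtain ⟨X, hXL, hX1⟩ := exists_line_generator hC
  have hpX : p • X.1 1 = 0 := by
    have := tateSub_pow_smul X 1
    rwa [pow_one] at this
  obtain ⟨e₂, hpe₂, hind⟩ := exists_indep_of_ne_zero h hpX hX1
  obtain ⟨Y, hY⟩ := exists_tate_lift h (n := 1) (x := e₂) (by rwa [pow_one])
  have hind' : ∀ a b : ℤ, a • X.1 1 + b • Y.1 1 = 0 → (p : ℤ) ∣ a ∧ (p : ℤ) ∣ b := by
    rw [hY]; exact hind
  have hbij : Function.Bijective (pairMap X Y) :=
    ⟨pairMap_injective X Y hind', pairMap_surjective h X Y hind'⟩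
  refine ⟨X, Y, hbij, le_antisymm ?_ ?_⟩
  · -- `tateLine C ≤ span {X}`
    intro f hf
    obtain ⟨v, hv⟩ := hbij.2 f
    rw [pairMap_apply] at hv
    have hbY : v 1 • Y ∈ tateLine (p := p) C := by
      have : v 1 • Y = f - v 0 • X := by rw [← hv]; abel
      rw [this]
      exact Submodule.sub_mem _ hf (Submodule.smul_mem _ _ hXL)
    have hv1 : v 1 = 0 := by
      by_contra hne
      -- `v 1 = u * p^k`
      have hval := PadicInt.unitCoeff_spec hne
      set u := PadicInt.unitCoeff hne with hu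
      set k := (v 1).valuation with hk
      have h1 : ((p : ℤ_[p]) ^ k) • ((u : ℤ_[p]) • Y) ∈ tateLine (p := p) C := by
        rw [smul_smul, mul_comm, ← hval]; exact hbY
      have h2 : (u : ℤ_[p]) • Y ∈ tateLine (p := p) C := mem_tateLine_of_pow_smul k h1
      have h3 : Y ∈ tateLine (p := p) C := by
        have := Submodule.smul_mem (tateLine (p := p) C) ((u⁻¹ : ℤ_[p]ˣ) : ℤ_[p]) h2
        rwa [smul_smul, Units.inv_mul, one_smul] at this
      -- `X 1` and `Y 1` both lie in `C ∩ E[p]`, of prime order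
      have hY1 : p • Y.1 1 = 0 := by
        have := tateSub_pow_smul Y 1
        rwa [pow_one] at this
      let x1 : ↥(C ⊓ tors p E 1) := ⟨X.1 1, AddSubgroup.mem_inf.mpr
        ⟨hXL 1, mem_tors.mpr (by rwa [pow_one])⟩⟩
      let y1 : ↥(C ⊓ tors p E 1) := ⟨Y.1 1, AddSubgroup.mem_inf.mpr
        ⟨h3 1, mem_tors.mpr (by rwa [pow_one])⟩⟩
      have hx1 : x1 ≠ 0 := fun h0 => hX1 (congrArg Subtype.val h0)
      have hcard : Nat.card ↥(C ⊓ tors p E 1) = p := by rw [hC 1, pow_one]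
      have hmem : y1 ∈ AddSubgroup.zmultiples x1 := mem_zmultiples_of_prime_card hcard hx1
      obtain ⟨c, hc⟩ := AddSubgroup.mem_zmultiples_iff.mp hmem
      have hc' : c • X.1 1 = Y.1 1 := by
        have := congrArg Subtype.val hc
        simpa [x1, y1] using this
      have h4 : c • X.1 1 + (-1 : ℤ) • Y.1 1 = 0 := by
        rw [hc', neg_smul, one_smul, add_neg_cancel]
      have h5 := (hind' c (-1) h4).2
      have h6 : (p : ℤ) ∣ 1 := by simpa using h5
      have h7 := Int.eq_one_of_dvd_one (by positivity) h6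
      have : p = 1 := by exact_mod_cast h7
      exact hp.out.one_lt.ne' this
    rw [hv1, zero_smul, add_zero] at hv
    rw [← hv]
    exact Submodule.smul_mem _ _ (Submodule.mem_span_singleton_self X)
  · rw [Submodule.span_le, Set.singleton_subset_iff]
    exact hXL

end basis

end Fermat.Agent.S59.H396

end
-- ===== PACK-END S59/H396/OrdLine.lean

-- ===== PACK-BEGIN S59/NM/H254/DetCard.lean
section



/-!
# Row S59 / cell NM, leaf NM-SEL (helper254): cardinality of a cokernel over a PID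

* `card_quotient_range_eq` : for an endomorphism `f` of a finite free module over a PID with
  `det f ≠ 0`, `#(M ⧸ range f) = #(O ⧸ (det f))` (`Nat.card`, no finiteness hypothesis).
* `card_span_le_of_relations` : if `e : ι → N` satisfies the relations `∑ j, T i j • e j = 0`
  for a square matrix `T` with `det T ≠ 0` and `O ⧸ (det T)` is finite, then the span of the `e j`
  is finite of cardinality `≤ #(O ⧸ (det T))`.
-/

set_option autoImplicit false

namespace Fermat.Agent.S59.NM.H254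

open Module Submodule

section PID

variable {O : Type*} [CommRing O] [IsDomain O] [IsPrincipalIdealRing O]
variable {M : Type*} [AddCommGroup M] [Module O M] [Module.Free O M] [Module.Finite O M]

/-- An endomorphism with non-zero determinant is injective (domain). -/
theorem injective_of_det_ne_zero (f : M →ₗ[O] M) (hf : LinearMap.det f ≠ 0) :
    Function.Injective f := by
  classical
  let b := Module.Free.chooseBasis O M
  rw [← LinearMap.ker_eq_bot, LinearMap.ker_eq_bot']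
  intro x hx
  have hdet : (LinearMap.toMatrix b b f).det ≠ 0 := by
    rwa [LinearMap.det_toMatrix]
  have h1 : (LinearMap.toMatrix b b f).mulVec (b.repr x) = 0 := by
    have := LinearMap.toMatrix_mulVec_repr b b f x
    rw [this, hx]
    simp
  have h2 := Matrix.eq_zero_of_mulVec_eq_zero hdet h1
  have h3 : b.repr x = 0 := by
    ext i
    have := congrFun h2 i
    simpa using this
  exact b.repr.map_eq_zero_iff.mp h3

/-- **Cardinality of a cokernel.** -/
theorem card_quotient_range_eq (f : M →ₗ[O] M) (hf : LinearMap.det f ≠ 0) :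
    Nat.card (M ⧸ LinearMap.range f) = Nat.card (O ⧸ Ideal.span {LinearMap.det f}) := by
  classical
  let b := Module.Free.chooseBasis O M
  set N : Submodule O M := LinearMap.range f with hN
  let e : M ≃ₗ[O] N := LinearEquiv.ofInjective f (injective_of_det_ne_zero f hf)
  have h : Module.finrank O N = Module.finrank O M := e.symm.finrank_eq
  let a := smithNormalFormCoeffs b h
  let b' := smithNormalFormTopBasis b h
  let ab := smithNormalFormBotBasis b h
  have ab_eq := smithNormalFormBotBasis_def b h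
  let e' : M ≃ₗ[O] N := b'.equiv ab (Equiv.refl _)
  let f' : M →ₗ[O] M := N.subtype.comp (e' : M →ₗ[O] N)
  have hfe : f = N.subtype.comp (e : M →ₗ[O] N) := by
    ext x; rfl
  have hassoc : Associated (LinearMap.det f) (LinearMap.det f') := by
    rw [hfe]
    exact LinearMap.associated_det_comp_equiv _ _ _
  have ha : ∀ i, f' (b' i) = a i • b' i := by
    intro i
    show (N.subtype.comp (e' : M →ₗ[O] N)) (b' i) = _
    rw [LinearMap.comp_apply, LinearEquiv.coe_coe, b'.equiv_apply, Equiv.refl_apply]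
    exact ab_eq i
  have hdet' : LinearMap.det f' = ∏ i, a i := by
    rw [← LinearMap.det_toMatrix b', ← Matrix.det_diagonal]
    congr 1
    ext i j
    rw [LinearMap.toMatrix_apply, ha, map_smul, Basis.repr_self, Finsupp.smul_single,
      smul_eq_mul, mul_one]
    by_cases hij : i = j
    · rw [hij, Matrix.diagonal_apply_eq, Finsupp.single_eq_same]
    · rw [Matrix.diagonal_apply_ne _ hij]
      exact Finsupp.single_eq_of_ne (fun h => hij h)
  have hprod_ne : (∏ i, a i) ≠ 0 := by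
    rw [← hdet']
    intro h0
    exact hf (hassoc.eq_zero_iff.mpr h0)
  have ha_ne : ∀ i ∈ Finset.univ, a i ≠ 0 := fun i _ h0 =>
    hprod_ne (Finset.prod_eq_zero (Finset.mem_univ i) h0)
  have hspan : Ideal.span {LinearMap.det f} = Ideal.span {∏ i, a i} := by
    rw [← hdet']
    exact Ideal.span_singleton_eq_span_singleton.mpr hassoc
  rw [hspan, Fermat.Agent.S59.H360.card_quot_span_prod Finset.univ a ha_ne,
    Nat.card_congr (quotientEquivPiSpan N b h).toEquiv, Nat.card_pi]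

/-- **Generators and relations.**  If the finitely many elements `e j` satisfy the relations given
by the rows of a square matrix `T` with `det T ≠ 0`, their span has at most `#(O ⧸ (det T))`
elements. -/
theorem card_span_le_of_relations {ι : Type*} [Fintype ι] [DecidableEq ι]
    {N : Type*} [AddCommGroup N] [Module O N]
    (T : Matrix ι ι O) (hT : T.det ≠ 0) (e : ι → N)
    (hrel : ∀ i, ∑ j, T i j • e j = 0)
    [hfin : Finite (O ⧸ Ideal.span {T.det})] :
    Finite (Submodule.span O (Set.range e)) ∧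
      Nat.card (Submodule.span O (Set.range e)) ≤ Nat.card (O ⧸ Ideal.span {T.det}) := by
  classical
  let π : (ι → O) →ₗ[O] N := Fintype.linearCombination O e
  let f : (ι → O) →ₗ[O] (ι → O) := Matrix.toLin' T.transpose
  have hdet : LinearMap.det f = T.det := by
    rw [LinearMap.det_toLin', Matrix.det_transpose]
  have hf : LinearMap.det f ≠ 0 := by rwa [hdet]
  have hle : LinearMap.range f ≤ LinearMap.ker π := by
    rintro _ ⟨v, rfl⟩
    rw [LinearMap.mem_ker]
    show Fintype.linearCombination O e (Matrix.toLin' T.transpose v) = 0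
    rw [Fintype.linearCombination_apply]
    have h1 : ∀ j, (Matrix.toLin' T.transpose v) j = ∑ i, T i j * v i := by
      intro j
      rw [Matrix.toLin'_apply, Matrix.mulVec, dotProduct]
      simp only [Matrix.transpose_apply]
    simp_rw [h1, Finset.sum_smul]
    rw [Finset.sum_comm]
    refine Finset.sum_eq_zero fun i _ => ?_
    have h2 : ∀ j, (T i j * v i) • e j = v i • (T i j • e j) := by
      intro j
      rw [smul_smul, mul_comm]
    simp_rw [h2, ← Finset.smul_sum, hrel i, smul_zero]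
  have hcard := card_quotient_range_eq f hf
  rw [hdet] at hcard
  have hpos : Nat.card (O ⧸ Ideal.span {T.det}) ≠ 0 := Nat.card_pos.ne'
  haveI hQfin : Finite ((ι → O) ⧸ LinearMap.range f) :=
    Nat.finite_of_card_ne_zero (by rw [hcard]; exact hpos)
  let g : ((ι → O) ⧸ LinearMap.range f) →ₗ[O] N := (LinearMap.range f).liftQ π hle
  have hrange : LinearMap.range g = Submodule.span O (Set.range e) := by
    rw [Submodule.range_liftQ]
    exact Fintype.range_linearCombination O e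
  have hsurj : Function.Surjective (fun x : (ι → O) ⧸ LinearMap.range f =>
      (⟨g x, by rw [← hrange]; exact ⟨x, rfl⟩⟩ : Submodule.span O (Set.range e))) := by
    rintro ⟨y, hy⟩
    rw [← hrange] at hy
    obtain ⟨x, rfl⟩ := hy
    exact ⟨x, rfl⟩
  refine ⟨Finite.of_surjective _ hsurj, ?_⟩
  rw [← hcard]
  exact Nat.card_le_card_of_surjective _ hsurj

end PID

end Fermat.Agent.S59.NM.H254

end
-- ===== PACK-END S59/NM/H254/DetCard.lean

-- ===== PACK-BEGIN S41/H585/Inject.lean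
section


/-!
# S41, leaf AMALG (helper585): injectivity of `Γ₀(N) *_{Γ₀(Nr)} Γ₀(N) → SL(2, ℚ)`
-/

set_option autoImplicit false
set_option linter.unusedSectionVars false

namespace Fermat.Agent.S41.H585

open Matrix CongruenceSubgroup
open scoped MatrixGroups

/-- Column vectors `ℚ²` (a private copy, to carry the action of `SL(2, ℚ)`). -/
structure Vec where
  /-- first coordinate -/
  x : ℚ
  /-- second coordinate -/
  y : ℚ

instance instSMulVec : SMul SL(2, ℚ) Vec where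
  smul g v := ⟨g 0 0 * v.x + g 0 1 * v.y, g 1 0 * v.x + g 1 1 * v.y⟩

lemma smul_x (g : SL(2, ℚ)) (v : Vec) : (g • v).x = g 0 0 * v.x + g 0 1 * v.y := rfl
lemma smul_y (g : SL(2, ℚ)) (v : Vec) : (g • v).y = g 1 0 * v.x + g 1 1 * v.y := rfl

instance instMulActionVec : MulAction SL(2, ℚ) Vec where
  one_smul v := by
    cases v
    simp [HSMul.hSMul, SMul.smul]
  mul_smul g h v := by
    have e : ∀ i j, (g * h : SL(2, ℚ)) i j = g i 0 * h 0 j + g i 1 * h 1 j := by
      intro i j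
      rw [Matrix.SpecialLinearGroup.coe_mul, Matrix.mul_apply, Fin.sum_univ_two]
    cases v with
    | mk x y =>
      show (⟨_, _⟩ : Vec) = ⟨_, _⟩
      congr 1
      · simp only [e, smul_x, smul_y]; ring
      · simp only [e, smul_x, smul_y]; ring

variable (N r : ℕ) [hr : Fact r.Prime]

/-- The two ping-pong sets: `side false = X₀ = {‖x‖ ≤ ‖y‖, y ≠ 0}`,
`side true = X₁ = {‖y‖ < ‖x‖}`. -/
def sideSet : Bool → Set Vec := fun i =>
  cond i {v | padicNorm r v.y < padicNorm r v.x} {v | padicNorm r v.x ≤ padicNorm r v.y ∧ v.y ≠ 0}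

variable {N r}

lemma mem_side_false {v : Vec} :
    v ∈ sideSet r false ↔ padicNorm r v.x ≤ padicNorm r v.y ∧ v.y ≠ 0 := Iff.rfl

lemma mem_side_true {v : Vec} :
    v ∈ sideSet r true ↔ padicNorm r v.y < padicNorm r v.x := Iff.rfl

theorem pingPongData (hN : Nat.Coprime N r) :
    PingPongData (Ga N) (Gb N r) (sideSet r) where
  disj := by
    rw [Set.disjoint_left]
    intro v h0 h1
    rw [mem_side_false] at h0
    rw [mem_side_true] at h1
    exact absurd h1 (not_lt.mpr h0.1)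
  nonempty := by
    intro i
    cases i
    · refine ⟨⟨0, 1⟩, ?_⟩
      rw [mem_side_false]
      simp [padicNorm.zero]
    · refine ⟨⟨1, 0⟩, ?_⟩
      rw [mem_side_true]
      simp [padicNorm.zero]
  pp := by
    intro i g hg hgn v hv
    cases i
    · -- `g ∈ G_a \\ G_b`
      obtain ⟨γ, rfl⟩ := hg
      have hc : ¬ (r : ℤ) ∣ (γ : SL(2, ℤ)) 1 0 := fun h => hgn ((J1_mem_Gb_iff hN γ).mpr h)
      have hv' : padicNorm r v.y < padicNorm r v.x := hv
      have := pp_a r ((γ : SL(2, ℤ)) 0 0) ((γ : SL(2, ℤ)) 0 1) ((γ : SL(2, ℤ)) 1 0)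
        ((γ : SL(2, ℤ)) 1 1) hc v.x v.y hv'
      rw [mem_side_false, smul_x, smul_y]
      simpa only [J1_apply] using this
    · -- `g ∈ G_b \\ G_a`
      obtain ⟨γ, rfl⟩ := hg
      have hb : ¬ (r : ℤ) ∣ (γ : SL(2, ℤ)) 0 1 := fun h => hgn ((J2_mem_Ga_iff γ).mpr h)
      have hv' : padicNorm r v.x ≤ padicNorm r v.y ∧ v.y ≠ 0 := hv
      have := pp_b r ((γ : SL(2, ℤ)) 0 0) ((γ : SL(2, ℤ)) 0 1) ((γ : SL(2, ℤ)) 1 0)
        ((γ : SL(2, ℤ)) 1 1) hb v.x v.y hv'.1 hv'.2
      rw [mem_side_true, smul_x, smul_y]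
      simpa only [J2_00, J2_01, J2_10, J2_11] using this
  base := by
    rintro h ⟨⟨γ, rfl⟩, hb⟩ i v hv
    obtain ⟨c', hc'⟩ := (J1_mem_Gb_iff hN γ).mp hb
    have hdet : (γ : SL(2, ℤ)) 0 0 * (γ : SL(2, ℤ)) 1 1 - (γ : SL(2, ℤ)) 0 1 * (r * c') = 1 := by
      rw [← hc']; exact Gamma0_det N γ
    have e10 : (J1 N γ) 1 0 = (r : ℚ) * c' := by
      rw [J1_apply, hc']; push_cast; ring
    cases i
    · have hv' : padicNorm r v.x ≤ padicNorm r v.y ∧ v.y ≠ 0 := hv
      have := pp_h0 r _ _ _ _ hdet v.x v.y hv'.1 hv'.2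
      rw [mem_side_false, smul_x, smul_y, e10]
      simpa only [J1_apply] using this
    · have hv' : padicNorm r v.y < padicNorm r v.x := hv
      have := pp_h1 r _ _ _ _ hdet v.x v.y hv'
      rw [mem_side_true, smul_x, smul_y, e10]
      simpa only [J1_apply] using this
  idx := by
    intro i t ht htn
    have hprime : Prime (r : ℤ) := Nat.prime_iff_prime_int.mp hr.out
    have hrN : ¬ (r : ℤ) ∣ (N : ℤ) := by
      intro h
      have h' : r ∣ N := by exact_mod_cast h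
      have := Nat.Coprime.eq_one_of_dvd hN.symm h'
      exact hr.out.one_lt.ne' this
    cases i
    · obtain ⟨τ, rfl⟩ := ht
      have hc : ¬ (r : ℤ) ∣ (τ : SL(2, ℤ)) 1 0 := fun h => htn ((J1_mem_Gb_iff hN τ).mpr h)
      -- candidates `γ_k = !![1, k; N, 1 + N k]`, `k = 0, 1`
      let γ0 : Gamma0 N := mkGamma0 N 1 0 N 1 (by ring) dvd_rfl
      let γ1 : Gamma0 N := mkGamma0 N 1 1 N (1 + N) (by ring) dvd_rfl
      have e : ∀ (γ : Gamma0 N), ((γ * τ : Gamma0 N) : SL(2, ℤ)) 1 0 =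
          (γ : SL(2, ℤ)) 1 0 * (τ : SL(2, ℤ)) 0 0 + (γ : SL(2, ℤ)) 1 1 * (τ : SL(2, ℤ)) 1 0 := by
        intro γ
        rw [Subgroup.coe_mul, Matrix.SpecialLinearGroup.coe_mul, Matrix.mul_apply,
          Fin.sum_univ_two]
      by_cases h0 : (r : ℤ) ∣ ((γ0 * τ : Gamma0 N) : SL(2, ℤ)) 1 0
      · refine ⟨J1 N γ1, ⟨γ1, rfl⟩, ?_, ?_⟩
        · show _ ∉ Gb N r
          rw [J1_mem_Gb_iff hN]
          exact hrN
        · show _ ∉ Gb N r
          rw [← map_mul, J1_mem_Gb_iff hN]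
          intro h1
          rw [e] at h0 h1
          simp only [γ0, γ1, mkGamma0_10, mkGamma0_11] at h0 h1
          have : (r : ℤ) ∣ (N : ℤ) * (τ : SL(2, ℤ)) 1 0 := by
            have := dvd_sub h1 h0
            have e2 : (N : ℤ) * (τ : SL(2, ℤ)) 0 0 + (1 + N) * (τ : SL(2, ℤ)) 1 0 -
                ((N : ℤ) * (τ : SL(2, ℤ)) 0 0 + 1 * (τ : SL(2, ℤ)) 1 0) =
                (N : ℤ) * (τ : SL(2, ℤ)) 1 0 := by ring
            rwa [e2] at this
          rcases hprime.dvd_or_dvd this with h | h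
          · exact hrN h
          · exact hc h
      · refine ⟨J1 N γ0, ⟨γ0, rfl⟩, ?_, ?_⟩
        · show _ ∉ Gb N r
          rw [J1_mem_Gb_iff hN]
          exact hrN
        · show _ ∉ Gb N r
          rw [← map_mul, J1_mem_Gb_iff hN]
          exact h0
    · obtain ⟨τ, rfl⟩ := ht
      have hb : ¬ (r : ℤ) ∣ (τ : SL(2, ℤ)) 0 1 := fun h => htn ((J2_mem_Ga_iff τ).mpr h)
      -- candidates `γ_k = !![1 + N k, 1; N k, 1]`, `k = 0, 1`
      let γ0 : Gamma0 N := mkGamma0 N 1 1 0 1 (by ring) (dvd_zero _)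
      let γ1 : Gamma0 N := mkGamma0 N (1 + N) 1 N 1 (by ring) dvd_rfl
      have e : ∀ (γ : Gamma0 N), ((γ * τ : Gamma0 N) : SL(2, ℤ)) 0 1 =
          (γ : SL(2, ℤ)) 0 0 * (τ : SL(2, ℤ)) 0 1 + (γ : SL(2, ℤ)) 0 1 * (τ : SL(2, ℤ)) 1 1 := by
        intro γ
        rw [Subgroup.coe_mul, Matrix.SpecialLinearGroup.coe_mul, Matrix.mul_apply,
          Fin.sum_univ_two]
      have h1r : ¬ (r : ℤ) ∣ (1 : ℤ) := hprime.not_dvd_one
      by_cases h0 : (r : ℤ) ∣ ((γ0 * τ : Gamma0 N) : SL(2, ℤ)) 0 1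
      · refine ⟨J2 N r γ1, ⟨γ1, rfl⟩, ?_, ?_⟩
        · show _ ∉ Ga N
          rw [J2_mem_Ga_iff]
          exact h1r
        · show _ ∉ Ga N
          rw [← map_mul, J2_mem_Ga_iff]
          intro h1
          rw [e] at h0 h1
          simp only [γ0, γ1, mkGamma0_00, mkGamma0_01] at h0 h1
          have : (r : ℤ) ∣ (N : ℤ) * (τ : SL(2, ℤ)) 0 1 := by
            have := dvd_sub h1 h0
            have e2 : (1 + (N : ℤ)) * (τ : SL(2, ℤ)) 0 1 + 1 * (τ : SL(2, ℤ)) 1 1 -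
                (1 * (τ : SL(2, ℤ)) 0 1 + 1 * (τ : SL(2, ℤ)) 1 1) =
                (N : ℤ) * (τ : SL(2, ℤ)) 0 1 := by ring
            rwa [e2] at this
          rcases hprime.dvd_or_dvd this with h | h
          · exact hrN h
          · exact hb h
      · refine ⟨J2 N r γ0, ⟨γ0, rfl⟩, ?_, ?_⟩
        · show _ ∉ Ga N
          rw [J2_mem_Ga_iff]
          exact h1r
        · show _ ∉ Ga N
          rw [← map_mul, J2_mem_Ga_iff]
          exact h0

/-- **AMALG, injectivity**: the amalgam `Γ₀(N) *_{Γ₀(Nr)} δ⁻¹Γ₀(N)δ` embeds in `SL(2, ℚ)`. -/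
theorem amalgMap_injective_Gamma0 (hN : Nat.Coprime N r) :
    Function.Injective (amalgMap (Ga N) (Gb N r)) :=
  amalgMap_injective (pingPongData hN)

end Fermat.Agent.S41.H585

end
-- ===== PACK-END S41/H585/Inject.lean

-- ===== PACK-BEGIN S41/H744/HeckeRows.lean
section


/-!
# S41, block IH' (helper744): bottom rows of the Hecke elements (L2)

`α_x γ = γ_x α_{π x}` with `α_j = [[1, j], [0, l]]`, `α_∞ = [[l, 0], [0, 1]]`
(`H281.hElt_spec_int`).  Comparing entries, if `l ∤ c`: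

* `x = ∞`            : `γ_x` has bottom row `(c, e)` with `l e ≡ d mod c`;
* `x = j, l ∣ a + jc` : `γ_x` has bottom row `(c, l d)`;
* `x = j, l ∤ a + jc` : `γ_x` has bottom row `(l c, e)`, `e ≡ d mod c`, `e (a + j c) ≡ 1 mod l`.
-/

set_option autoImplicit false
set_option linter.unusedSectionVars false
set_option linter.unusedSimpArgs false

namespace Fermat.Agent.S41.H744

open Matrix CongruenceSubgroup Fermat.Agent.S29.H642 Fermat.Agent.S41.H281
open scoped MatrixGroups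

variable {N l : ℕ} [hl : Fact l.Prime]

lemma rows_infty_infty {γ g : SL(2, ℤ)}
    (h : repInt l OnePoint.infty * (γ : Matrix (Fin 2) (Fin 2) ℤ) =
      (g : Matrix (Fin 2) (Fin 2) ℤ) * repInt l OnePoint.infty) :
    γ 1 0 = l * g 1 0 := by
  have h10 := congrFun (congrFun h 1) 0
  simp only [repInt_infty, Matrix.mul_apply, Fin.sum_univ_two, Matrix.of_apply,
    Matrix.cons_val', Matrix.cons_val_zero, Matrix.cons_val_one, Matrix.cons_val_fin_one] at h10
  linarith

lemma rows_infty_coe {γ g : SL(2, ℤ)} (k : ZMod l)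
    (h : repInt l OnePoint.infty * (γ : Matrix (Fin 2) (Fin 2) ℤ) =
      (g : Matrix (Fin 2) (Fin 2) ℤ) * repInt l (k : OnePoint (ZMod l))) :
    g 1 0 = γ 1 0 ∧ γ 1 1 = γ 1 0 * (k.val : ℤ) + l * g 1 1 := by
  have h10 := congrFun (congrFun h 1) 0
  have h11 := congrFun (congrFun h 1) 1
  simp only [repInt_infty, repInt_coe, Matrix.mul_apply, Fin.sum_univ_two, Matrix.of_apply,
    Matrix.cons_val', Matrix.cons_val_zero, Matrix.cons_val_one, Matrix.cons_val_fin_one]
    at h10 h11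
  constructor
  · linarith
  · have : g 1 0 = γ 1 0 := by linarith
    rw [← this]; linarith

lemma rows_coe_infty {γ g : SL(2, ℤ)} (j : ZMod l)
    (h : repInt l (j : OnePoint (ZMod l)) * (γ : Matrix (Fin 2) (Fin 2) ℤ) =
      (g : Matrix (Fin 2) (Fin 2) ℤ) * repInt l OnePoint.infty) :
    γ 0 0 + (j.val : ℤ) * γ 1 0 = l * g 0 0 ∧ (l : ℤ) * g 1 0 = l * γ 1 0 ∧ g 1 1 = l * γ 1 1 := by
  have h00 := congrFun (congrFun h 0) 0
  have h10 := congrFun (congrFun h 1) 0
  have h11 := congrFun (congrFun h 1) 1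
  simp only [repInt_infty, repInt_coe, Matrix.mul_apply, Fin.sum_univ_two, Matrix.of_apply,
    Matrix.cons_val', Matrix.cons_val_zero, Matrix.cons_val_one, Matrix.cons_val_fin_one]
    at h00 h10 h11
  refine ⟨by linarith, by linarith, by linarith⟩

lemma rows_coe_coe {γ g : SL(2, ℤ)} (j k : ZMod l)
    (h : repInt l (j : OnePoint (ZMod l)) * (γ : Matrix (Fin 2) (Fin 2) ℤ) =
      (g : Matrix (Fin 2) (Fin 2) ℤ) * repInt l (k : OnePoint (ZMod l))) :
    g 0 0 = γ 0 0 + (j.val : ℤ) * γ 1 0 ∧ g 1 0 = l * γ 1 0 ∧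
      (l : ℤ) * γ 1 1 = l * γ 1 0 * (k.val : ℤ) + l * g 1 1 := by
  have h00 := congrFun (congrFun h 0) 0
  have h10 := congrFun (congrFun h 1) 0
  have h11 := congrFun (congrFun h 1) 1
  simp only [repInt_infty, repInt_coe, Matrix.mul_apply, Fin.sum_univ_two, Matrix.of_apply,
    Matrix.cons_val', Matrix.cons_val_zero, Matrix.cons_val_one, Matrix.cons_val_fin_one]
    at h00 h10 h11
  have e10 : g 1 0 = l * γ 1 0 := by linarith
  refine ⟨by linarith, e10, ?_⟩
  rw [← e10]; linarith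

lemma cast_val_h744 (j : ZMod l) : (((j.val : ℕ) : ℤ) : ZMod l) = j := by
  simp

lemma cast_l_h744 : (((l : ℕ) : ℤ) : ZMod l) = 0 := by
  simp

/-- The Hecke element at `x = ∞`: bottom row `(c, e)` with `l e ≡ d mod c`. -/
lemma hElt_infty_row (hlN : ¬ l ∣ N) (γ : Gamma0 N)
    (hc : ¬ (l : ℤ) ∣ (γ : SL(2, ℤ)) 1 0) :
    ((hElt hlN γ OnePoint.infty : Gamma0 N) : SL(2, ℤ)) 1 0 = (γ : SL(2, ℤ)) 1 0 ∧
    (l : ℤ) * ((hElt hlN γ OnePoint.infty : Gamma0 N) : SL(2, ℤ)) 1 1 ≡ (γ : SL(2, ℤ)) 1 1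
      [ZMOD (γ : SL(2, ℤ)) 1 0] := by
  have h := hElt_spec_int hlN γ OnePoint.infty
  induction hy : hPerm l (γ : SL(2, ℤ)) OnePoint.infty using OnePoint.rec with
  | infty =>
    rw [hy] at h
    exact absurd ⟨_, rows_infty_infty h⟩ hc
  | coe k =>
    rw [hy] at h
    obtain ⟨h1, h2⟩ := rows_infty_coe k h
    refine ⟨h1, ?_⟩
    rw [Int.modEq_iff_dvd]
    exact ⟨(k.val : ℤ), by linear_combination h2⟩

/-- The Hecke element at `x = j` with `l ∣ a + j c`: bottom row `(c, l d)`. -/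
lemma hElt_coe_row_zero (hlN : ¬ l ∣ N) (γ : Gamma0 N) (j : ZMod l)
    (hj : (((γ : SL(2, ℤ)) 0 0 : ℤ) : ZMod l) + j * (((γ : SL(2, ℤ)) 1 0 : ℤ) : ZMod l) = 0) :
    ((hElt hlN γ (j : OnePoint (ZMod l)) : Gamma0 N) : SL(2, ℤ)) 1 0 = (γ : SL(2, ℤ)) 1 0 ∧
    ((hElt hlN γ (j : OnePoint (ZMod l)) : Gamma0 N) : SL(2, ℤ)) 1 1 =
      l * (γ : SL(2, ℤ)) 1 1 := by
  have h := hElt_spec_int hlN γ (j : OnePoint (ZMod l))
  have hl0 : (l : ℤ) ≠ 0 := by exact_mod_cast hl.out.ne_zero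
  induction hy : hPerm l (γ : SL(2, ℤ)) (j : OnePoint (ZMod l)) using OnePoint.rec with
  | infty =>
    rw [hy] at h
    obtain ⟨-, h2, h3⟩ := rows_coe_infty j h
    exact ⟨mul_left_cancel₀ hl0 h2, h3⟩
  | coe k =>
    rw [hy] at h
    obtain ⟨h1, h2, -⟩ := rows_coe_coe j k h
    exfalso
    have hdet := Fermat.Agent.S41.H281.hElt_spec_int hlN γ (j : OnePoint (ZMod l))
    have hd : ((hElt hlN γ (j : OnePoint (ZMod l)) : Gamma0 N) : SL(2, ℤ)) 0 0 *
        ((hElt hlN γ (j : OnePoint (ZMod l)) : Gamma0 N) : SL(2, ℤ)) 1 1 -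
        ((hElt hlN γ (j : OnePoint (ZMod l)) : Gamma0 N) : SL(2, ℤ)) 0 1 *
        ((hElt hlN γ (j : OnePoint (ZMod l)) : Gamma0 N) : SL(2, ℤ)) 1 0 = 1 := by
      have := ((hElt hlN γ (j : OnePoint (ZMod l)) : Gamma0 N) : SL(2, ℤ)).det_coe
      rwa [Matrix.det_fin_two] at this
    rw [h1, h2] at hd
    have hd' := congrArg (Int.cast : ℤ → ZMod l) hd
    push_cast at hd'
    rw [ZMod.natCast_zmod_val] at hd'
    simp only [ZMod.natCast_self, zero_mul, mul_zero, sub_zero] at hd'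
    rw [hj, zero_mul] at hd'
    exact zero_ne_one hd'

/-- The Hecke element at `x = j` with `l ∤ a + j c`: bottom row `(l c, e)`, `e ≡ d mod c`,
`e (a + j c) ≡ 1 mod l`. -/
lemma hElt_coe_row_ne (hlN : ¬ l ∣ N) (γ : Gamma0 N) (j : ZMod l)
    (hj : (((γ : SL(2, ℤ)) 0 0 : ℤ) : ZMod l) + j * (((γ : SL(2, ℤ)) 1 0 : ℤ) : ZMod l) ≠ 0) :
    ((hElt hlN γ (j : OnePoint (ZMod l)) : Gamma0 N) : SL(2, ℤ)) 1 0 = l * (γ : SL(2, ℤ)) 1 0 ∧
    ((hElt hlN γ (j : OnePoint (ZMod l)) : Gamma0 N) : SL(2, ℤ)) 1 1 ≡ (γ : SL(2, ℤ)) 1 1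
      [ZMOD (γ : SL(2, ℤ)) 1 0] ∧
    ((((hElt hlN γ (j : OnePoint (ZMod l)) : Gamma0 N) : SL(2, ℤ)) 1 1 : ℤ) : ZMod l) *
      ((((γ : SL(2, ℤ)) 0 0 : ℤ) : ZMod l) + j * (((γ : SL(2, ℤ)) 1 0 : ℤ) : ZMod l)) = 1 := by
  have h := hElt_spec_int hlN γ (j : OnePoint (ZMod l))
  have hl0 : (l : ℤ) ≠ 0 := by exact_mod_cast hl.out.ne_zero
  induction hy : hPerm l (γ : SL(2, ℤ)) (j : OnePoint (ZMod l)) using OnePoint.rec with
  | infty =>
    rw [hy] at h
    obtain ⟨h1, -, -⟩ := rows_coe_infty j h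
    exfalso
    apply hj
    have h1' := congrArg (Int.cast : ℤ → ZMod l) h1
    push_cast at h1'
    rw [ZMod.natCast_zmod_val] at h1'
    simpa using h1'
  | coe k =>
    rw [hy] at h
    obtain ⟨h1, h2, h3⟩ := rows_coe_coe j k h
    have hd : ((hElt hlN γ (j : OnePoint (ZMod l)) : Gamma0 N) : SL(2, ℤ)) 0 0 *
        ((hElt hlN γ (j : OnePoint (ZMod l)) : Gamma0 N) : SL(2, ℤ)) 1 1 -
        ((hElt hlN γ (j : OnePoint (ZMod l)) : Gamma0 N) : SL(2, ℤ)) 0 1 *
        ((hElt hlN γ (j : OnePoint (ZMod l)) : Gamma0 N) : SL(2, ℤ)) 1 0 = 1 := by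
      have := ((hElt hlN γ (j : OnePoint (ZMod l)) : Gamma0 N) : SL(2, ℤ)).det_coe
      rwa [Matrix.det_fin_two] at this
    refine ⟨h2, ?_, ?_⟩
    · rw [Int.modEq_iff_dvd]
      refine ⟨(k.val : ℤ), ?_⟩
      have := mul_left_cancel₀ hl0 (by linear_combination h3 :
        (l : ℤ) * (γ : SL(2, ℤ)) 1 1 = l * ((γ : SL(2, ℤ)) 1 0 * (k.val : ℤ) +
          ((hElt hlN γ (j : OnePoint (ZMod l)) : Gamma0 N) : SL(2, ℤ)) 1 1))
      linear_combination this
    · rw [h1, h2] at hd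
      have hd' := congrArg (Int.cast : ℤ → ZMod l) hd
      push_cast at hd'
      rw [ZMod.natCast_zmod_val] at hd'
      simp only [ZMod.natCast_self, zero_mul, mul_zero, sub_zero] at hd'
      rw [mul_comm]
      exact hd'

end Fermat.Agent.S41.H744

end
-- ===== PACK-END S41/H744/HeckeRows.lean

-- ===== PACK-BEGIN Ribet/H127/HorDesc.lean
section
/-
# RIBET row 38, CORE-OUT WILD, WildFrame piece HOR-DESC (helper127)

Horizontal `p`-divisibility DESCENDS along a constant-field extension.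

Abstract setting (exactly the fields of `H704.CoreOut.WildFrame` that are involved):
`E₁ ⊆ L₁` (tame level, cover), `E₂ ⊆ K₂` (wild level, function field), `L₂ ⊇ K₂, L₁` with
`L₂ = L₁(constants algebraic over E₁)`, the constants `E₂` algebraic over `E₁`.  If
`f₂ ∈ K₂` is horizontally `p`-divisible over `E₂` and `f₂ = lc · f' · b ^ p` in `L₂`
(`lc ∈ E₂ˣ`, `f' ∈ L₁`, `b ≠ 0`), then `f'` is horizontally `p`-divisible over `E₁`:
this is the field `hf'_div` of the frame.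

Proof.  `V` a discrete valuation ring of `L₁ / E₁`; `B ⊇ V` the discrete valuation ring of `L₂`
with the SAME uniformiser `π` (`S18.H845.exists_dvr_extension`, `e = 1`); `B ∩ K₂` is all of `K₂`
or a discrete valuation ring containing `E₂`, so `p ∣ v_B(f₂)`; hence `p ∣ v_B(f')` and
`f' = unit · (π ^ k) ^ p` in `V`.
-/



set_option autoImplicit false
set_option linter.unusedSectionVars false
set_option linter.style.haveILetI false

namespace Fermat.Agent.Ribet.H127

open Fermat.Agent.A2 Fermat.Agent.S18.H845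

section Comap

variable {K L : Type*} [Field K] [Field L] (φ : K →+* L) (B : ValuationSubring L)

theorem val_comap_le_one_iff_h127 (x : K) :
    (B.comap φ).valuation x ≤ 1 ↔ B.valuation (φ x) ≤ 1 := by
  rw [ValuationSubring.valuation_le_one_iff, ValuationSubring.valuation_le_one_iff,
    ValuationSubring.mem_comap]

theorem one_le_val_comap_iff_h127 {x : K} (hx : x ≠ 0) :
    1 ≤ (B.comap φ).valuation x ↔ 1 ≤ B.valuation (φ x) := by
  have h1 := val_comap_le_one_iff_h127 φ B x⁻¹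
  rw [map_inv₀, map_inv₀, map_inv₀] at h1
  have hx1 : (B.comap φ).valuation x ≠ 0 := (Valuation.ne_zero_iff _).mpr hx
  have hx2 : B.valuation (φ x) ≠ 0 :=
    (Valuation.ne_zero_iff _).mpr ((map_ne_zero φ).mpr hx)
  rw [inv_le_one₀ (zero_lt_iff.mpr hx1), inv_le_one₀ (zero_lt_iff.mpr hx2)] at h1
  exact h1

theorem val_comap_eq_one_iff_h127 {x : K} (hx : x ≠ 0) :
    (B.comap φ).valuation x = 1 ↔ B.valuation (φ x) = 1 := by
  rw [le_antisymm_iff, le_antisymm_iff, val_comap_le_one_iff_h127,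
    one_le_val_comap_iff_h127 φ B hx]

theorem val_comap_lt_one_iff_h127 {x : K} (hx : x ≠ 0) :
    (B.comap φ).valuation x < 1 ↔ B.valuation (φ x) < 1 := by
  rw [← not_le, ← not_le, one_le_val_comap_iff_h127 φ B hx]

/-- The restriction of a valuation subring with value group `γ ^ ℤ` to a subfield is trivial or
a discrete valuation ring. -/
theorem comap_trivial_or_dvr_h127 {γ : B.ValueGroup} (hγ0 : γ ≠ 0) (hγ1 : γ < 1)
    (hval : ∀ f : L, f ≠ 0 → ∃ k : ℤ, B.valuation f = γ ^ k) :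
    (∀ x : K, x ≠ 0 → B.valuation (φ x) = 1) ∨ IsDiscreteValuationRing (B.comap φ) := by
  by_cases htriv : ∀ x : K, x ≠ 0 → B.valuation (φ x) = 1
  · exact Or.inl htriv
  right
  push Not at htriv
  obtain ⟨x, hx0, hx1⟩ := htriv
  have hγpos : 0 < γ := zero_lt_iff.mpr hγ0
  -- a positive exponent occurs
  have hex : ∃ n : ℕ, 0 < n ∧ ∃ y : K, y ≠ 0 ∧ B.valuation (φ y) = γ ^ n := by
    obtain ⟨k, hk⟩ := hval (φ x) ((map_ne_zero φ).mpr hx0)
    rcases lt_trichotomy k 0 with h | h | h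
    · refine ⟨(-k).toNat, by omega, x⁻¹, inv_ne_zero hx0, ?_⟩
      rw [map_inv₀, map_inv₀, hk, ← zpow_neg, ← zpow_natCast]
      congr 1
      omega
    · exfalso
      apply hx1
      rw [hk, h, zpow_zero]
    · refine ⟨k.toNat, by omega, x, hx0, ?_⟩
      rw [hk, ← zpow_natCast]
      congr 1
      omega
  classical
  let d := Nat.find hex
  obtain ⟨hd, ϖ, hϖ0, hϖ⟩ : 0 < d ∧ ∃ y : K, y ≠ 0 ∧ B.valuation (φ y) = γ ^ d := Nat.find_spec hex
  have hmin : ∀ m : ℕ, m < d → ¬ (0 < m ∧ ∃ y : K, y ≠ 0 ∧ B.valuation (φ y) = γ ^ m) :=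
    fun m hm => Nat.find_min hex hm
  have hϖlt : (B.comap φ).valuation ϖ < 1 := by
    rw [val_comap_lt_one_iff_h127 φ B hϖ0, hϖ]
    exact pow_lt_one₀ hγpos.le hγ1 hd.ne'
  refine isDiscreteValuationRing_of_val (B.comap φ) hϖ0 hϖlt ?_
  intro f hf
  obtain ⟨n, hn⟩ := hval (φ f) ((map_ne_zero φ).mpr hf)
  have hd' : (0 : ℤ) < (d : ℤ) := by exact_mod_cast hd
  have hr0 : 0 ≤ n % (d : ℤ) := Int.emod_nonneg n hd'.ne'
  have hr1 : n % (d : ℤ) < (d : ℤ) := Int.emod_lt_of_pos n hd'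
  have hdiv : (d : ℤ) * (n / (d : ℤ)) + n % (d : ℤ) = n := Int.mul_ediv_add_emod n d
  set q : ℤ := n / (d : ℤ) with hq
  set r : ℤ := n % (d : ℤ) with hr
  have hg0 : f * (ϖ ^ q)⁻¹ ≠ 0 := mul_ne_zero hf (inv_ne_zero (zpow_ne_zero q hϖ0))
  have hgval : B.valuation (φ (f * (ϖ ^ q)⁻¹)) = γ ^ r.toNat := by
    rw [map_mul, map_mul, map_inv₀, map_inv₀, map_zpow₀, map_zpow₀, hn, hϖ, ← zpow_natCast γ d,
      ← zpow_mul, ← zpow_neg, ← zpow_add₀ hγ0, ← zpow_natCast]
    congr 1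
    rw [Int.toNat_of_nonneg hr0]
    linarith
  have hrt : r.toNat = 0 := by
    by_contra hne
    exact hmin r.toNat (by omega) ⟨Nat.pos_of_ne_zero hne, _, hg0, hgval⟩
  rw [hrt, pow_zero, ← val_comap_eq_one_iff_h127 φ B hg0, map_mul, map_inv₀, map_zpow₀] at hgval
  refine ⟨q, ?_⟩
  have hne : (B.comap φ).valuation ϖ ^ q ≠ 0 :=
    zpow_ne_zero q ((Valuation.ne_zero_iff _).mpr hϖ0)
  calc (B.comap φ).valuation f
      = (B.comap φ).valuation f * ((B.comap φ).valuation ϖ ^ q)⁻¹ *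
          (B.comap φ).valuation ϖ ^ q := by
        rw [mul_assoc, inv_mul_cancel₀ hne, mul_one]
    _ = (B.comap φ).valuation ϖ ^ q := by rw [hgval, one_mul]

end Comap

section Main

variable {E₁ L₁ E₂ K₂ L₂ : Type*} [Field E₁] [CharZero E₁] [Field L₁] [Algebra E₁ L₁]
  [Field E₂] [Field K₂] [Algebra E₂ K₂] [Field L₂] [Algebra K₂ L₂] [Algebra L₁ L₂]
  [Algebra E₁ L₂] [IsScalarTower E₁ L₁ L₂]

/-- **HOR-DESC, valuation form.**  In the situation of `divisibleDiv_descent_h127`, at the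
extension `B` of a discrete valuation ring of `L₁ / E₁` to `L₂` the valuation of `f₂` is a
`p`-th power of a power of `γ`. -/
theorem val_pow_of_divisibleDiv_h127 (B : ValuationSubring L₂) {γ : B.ValueGroup} (hγ0 : γ ≠ 0)
    (hγ1 : γ < 1) (hval : ∀ f : L₂, f ≠ 0 → ∃ k : ℤ, B.valuation f = γ ^ k)
    (hE₂B : ∀ e : E₂, algebraMap K₂ L₂ (algebraMap E₂ K₂ e) ∈ B)
    {p : ℕ} {f₂ : K₂} (hf₂0 : f₂ ≠ 0) (hdiv : DivisibleDiv E₂ p f₂) :
    ∃ k : ℤ, B.valuation (algebraMap K₂ L₂ f₂) = γ ^ ((p : ℤ) * k) := by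
  rcases comap_trivial_or_dvr_h127 (algebraMap K₂ L₂) B hγ0 hγ1 hval with htriv | hdvr
  · exact ⟨0, by rw [htriv f₂ hf₂0, mul_zero, zpow_zero]⟩
  · obtain ⟨h, u, hh0, hu, hu', hfu⟩ := hdiv (B.comap (algebraMap K₂ L₂)) hdvr
      (fun e => ValuationSubring.mem_comap.mpr (hE₂B e))
    have hu0 : u ≠ 0 := by
      rintro rfl
      rw [zero_mul] at hfu
      exact hf₂0 hfu
    have hu1 : B.valuation (algebraMap K₂ L₂ u) = 1 := by
      apply le_antisymm
      · exact (B.valuation_le_one_iff _).mpr (ValuationSubring.mem_comap.mp hu)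
      · have h1 : B.valuation (algebraMap K₂ L₂ u⁻¹) ≤ 1 :=
          (B.valuation_le_one_iff _).mpr (ValuationSubring.mem_comap.mp hu')
        rw [map_inv₀, map_inv₀] at h1
        have h0 : B.valuation (algebraMap K₂ L₂ u) ≠ 0 :=
          (Valuation.ne_zero_iff _).mpr ((map_ne_zero _).mpr hu0)
        rwa [inv_le_one₀ (zero_lt_iff.mpr h0)] at h1
    obtain ⟨k, hk⟩ := hval (algebraMap K₂ L₂ h) ((map_ne_zero _).mpr hh0)
    refine ⟨k, ?_⟩
    rw [hfu, map_mul, map_mul, map_pow, map_pow, hu1, one_mul, hk, ← zpow_natCast, ← zpow_mul,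
      mul_comm]

/-- **HOR-DESC** (abstract form of the field `hf'_div` of `H704.CoreOut.WildFrame`).
`L₂ = L₁(constants algebraic over E₁)`, the constants `E₂` of `K₂` are algebraic over `E₁`,
`f₂ ∈ K₂` horizontally `p`-divisible over `E₂`, `f₂ = lc · f' · b ^ p` in `L₂` with `lc ∈ E₂ˣ`,
`f' ∈ L₁`, `b ≠ 0`.  Then `f'` is horizontally `p`-divisible over `E₁`. -/
theorem divisibleDiv_descent_h127
    (hgen : IntermediateField.adjoin L₁ {α : L₂ | IsAlgebraic E₁ α} = ⊤)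
    (hE₂ : ∀ e : E₂, IsAlgebraic E₁ (algebraMap K₂ L₂ (algebraMap E₂ K₂ e)))
    {p : ℕ} {f₂ : K₂} (hf₂0 : f₂ ≠ 0) (hdiv : DivisibleDiv E₂ p f₂)
    {f' : L₁} {lc : E₂} {b : L₂} (hlc : lc ≠ 0) (hb : b ≠ 0)
    (hf₂ : algebraMap K₂ L₂ f₂ =
      algebraMap K₂ L₂ (algebraMap E₂ K₂ lc) * algebraMap L₁ L₂ f' * b ^ p) :
    DivisibleDiv E₁ p f' := by
  intro V hV hEV
  obtain ⟨B, hcomap, -, hBalg, hBirr, hBval⟩ :=
    exists_dvr_extension (E := E₁) (K := L₁) (L := L₂) V hEV hgen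
  have hV_of : ∀ z : L₁, B.valuation (algebraMap L₁ L₂ z) ≤ 1 → z ∈ V := by
    intro z hz
    rw [← hcomap, ValuationSubring.mem_comap]
    exact (B.valuation_le_one_iff _).mp hz
  obtain ⟨π, hπ⟩ := IsDiscreteValuationRing.exists_irreducible V
  have hπ0 : (π : L₁) ≠ 0 := fun h => hπ.ne_zero (Subtype.ext h)
  have hπL0 : algebraMap L₁ L₂ (π : L₁) ≠ 0 := (map_ne_zero _).mpr hπ0
  set γ : B.ValueGroup := B.valuation (algebraMap L₁ L₂ (π : L₁)) with hγ
  have hγ0 : γ ≠ 0 := (Valuation.ne_zero_iff _).mpr hπL0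
  have hγ1 : γ < 1 := by
    obtain ⟨hmem, hirr⟩ := hBirr π hπ
    have hnu : ¬ IsUnit (⟨algebraMap L₁ L₂ (π : L₁), hmem⟩ : B) := hirr.not_isUnit
    have hle : B.valuation (algebraMap L₁ L₂ (π : L₁)) ≤ 1 := (B.valuation_le_one_iff _).mpr hmem
    refine lt_of_le_of_ne hle ?_
    intro h1
    exact hnu ((B.valuation_eq_one_iff ⟨_, hmem⟩).mpr h1)
  have hval : ∀ f : L₂, f ≠ 0 → ∃ k : ℤ, B.valuation f = γ ^ k := hBval π hπ
  -- the constants of `E₂` are units of `B`
  have hE₂B : ∀ e : E₂, algebraMap K₂ L₂ (algebraMap E₂ K₂ e) ∈ B := fun e => hBalg _ (hE₂ e)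
  have hlc1 : B.valuation (algebraMap K₂ L₂ (algebraMap E₂ K₂ lc)) = 1 := by
    have hlc0 : algebraMap K₂ L₂ (algebraMap E₂ K₂ lc) ≠ 0 :=
      (map_ne_zero _).mpr ((map_ne_zero _).mpr hlc)
    apply le_antisymm
    · exact (B.valuation_le_one_iff _).mpr (hE₂B lc)
    · have h1 : B.valuation (algebraMap K₂ L₂ (algebraMap E₂ K₂ lc⁻¹)) ≤ 1 :=
        (B.valuation_le_one_iff _).mpr (hE₂B lc⁻¹)
      rw [map_inv₀, map_inv₀, map_inv₀] at h1
      rwa [inv_le_one₀ (zero_lt_iff.mpr ((Valuation.ne_zero_iff _).mpr hlc0))] at h1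
  -- `p ∣ v_B(f₂)`
  obtain ⟨k, hk⟩ := val_pow_of_divisibleDiv_h127 B hγ0 hγ1 hval hE₂B hf₂0 hdiv
  obtain ⟨j, hj⟩ := hval b hb
  -- `f' ≠ 0`
  have hf'0 : f' ≠ 0 := by
    rintro rfl
    rw [map_zero, mul_zero, zero_mul] at hf₂
    exact hf₂0 ((map_eq_zero _).mp hf₂)
  -- `v_B(f') = γ ^ (p (k - j))`
  have hbp : B.valuation b ^ p ≠ 0 := pow_ne_zero _ ((Valuation.ne_zero_iff _).mpr hb)
  have hf'val : B.valuation (algebraMap L₁ L₂ f') = γ ^ ((p : ℤ) * (k - j)) := by
    have h1 := congrArg B.valuation hf₂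
    rw [map_mul, map_mul, map_pow, hlc1, one_mul, hk] at h1
    have h2 : B.valuation (algebraMap L₁ L₂ f') = γ ^ ((p : ℤ) * k) * (B.valuation b ^ p)⁻¹ := by
      rw [h1, mul_assoc, mul_inv_cancel₀ hbp, mul_one]
    rw [h2, hj, ← zpow_natCast (γ ^ j) p, ← zpow_mul, ← zpow_neg, ← zpow_add₀ hγ0]
    congr 1
    ring
  -- conclusion
  refine ⟨(π : L₁) ^ (k - j), f' * (((π : L₁) ^ (k - j)) ^ p)⁻¹, zpow_ne_zero _ hπ0, ?_, ?_, ?_⟩
  · apply hV_of
    rw [map_mul, map_mul,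
      map_inv₀, map_inv₀, map_pow, map_pow, map_zpow₀, map_zpow₀, hf'val, ← hγ,
      ← zpow_natCast (γ ^ (k - j)) p, ← zpow_mul, ← zpow_neg, ← zpow_add₀ hγ0]
    apply le_of_eq
    have : (p : ℤ) * (k - j) + -((k - j) * (p : ℤ)) = 0 := by ring
    rw [this, zpow_zero]
  · apply hV_of
    rw [map_inv₀, map_inv₀,
      map_mul, map_mul, map_inv₀, map_inv₀, map_pow, map_pow, map_zpow₀, map_zpow₀, hf'val, ← hγ,
      ← zpow_natCast (γ ^ (k - j)) p, ← zpow_mul, ← zpow_neg, ← zpow_add₀ hγ0]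
    apply le_of_eq
    have : (p : ℤ) * (k - j) + -((k - j) * (p : ℤ)) = 0 := by ring
    rw [this, zpow_zero, inv_one]
  · have hne : ((π : L₁) ^ (k - j)) ^ p ≠ 0 := pow_ne_zero _ (zpow_ne_zero _ hπ0)
    rw [mul_assoc, inv_mul_cancel₀ hne, mul_one]

/-- **HOR-DESC**, generators form: `L₂` is generated over `L₁` by the constants of `E₂`. -/
theorem divisibleDiv_descent_range_h127
    (hgen : IntermediateField.adjoin L₁
      (Set.range fun e : E₂ => algebraMap K₂ L₂ (algebraMap E₂ K₂ e)) = ⊤)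
    (hE₂ : ∀ e : E₂, IsAlgebraic E₁ (algebraMap K₂ L₂ (algebraMap E₂ K₂ e)))
    {p : ℕ} {f₂ : K₂} (hf₂0 : f₂ ≠ 0) (hdiv : DivisibleDiv E₂ p f₂)
    {f' : L₁} {lc : E₂} {b : L₂} (hlc : lc ≠ 0) (hb : b ≠ 0)
    (hf₂ : algebraMap K₂ L₂ f₂ =
      algebraMap K₂ L₂ (algebraMap E₂ K₂ lc) * algebraMap L₁ L₂ f' * b ^ p) :
    DivisibleDiv E₁ p f' := by
  refine divisibleDiv_descent_h127 ?_ hE₂ hf₂0 hdiv hlc hb hf₂
  rw [eq_top_iff, ← hgen]
  refine IntermediateField.adjoin.mono _ _ _ ?_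
  rintro _ ⟨e, rfl⟩
  exact hE₂ e

end Main

section Frame

variable {E₁ K₁ L₁ E₂ K₂ L₂ : Type*} [Field E₁] [CharZero E₁] [Field K₁] [Field L₁]
  [Algebra E₁ L₁] [Algebra K₁ L₁]
  [Field E₂] [Field K₂] [Algebra E₂ K₂] [Field L₂] [Algebra K₂ L₂] [Algebra L₁ L₂]
  [Algebra K₁ K₂] [Algebra K₁ L₂] [IsScalarTower K₁ K₂ L₂] [IsScalarTower K₁ L₁ L₂]

omit [CharZero E₁] [Algebra E₁ L₁] in
/-- If `K₂ = K₁ · E₂` and `L₂ = K₂(h)` with `h ∈ L₁`, then `L₂ = L₁ · E₂`
(the shape of the covers in `H704.CoreOut.WildFrame`: `hadj₂`). -/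
theorem adjoin_range_eq_top_h127
    (hK₂ : IntermediateField.adjoin K₁ (Set.range (algebraMap E₂ K₂)) = ⊤)
    (h : L₁) (hadj₂ : IntermediateField.adjoin K₂ ({algebraMap L₁ L₂ h} : Set L₂) = ⊤) :
    IntermediateField.adjoin L₁
      (Set.range fun e : E₂ => algebraMap K₂ L₂ (algebraMap E₂ K₂ e)) = ⊤ := by
  set T : IntermediateField L₁ L₂ := IntermediateField.adjoin L₁
      (Set.range fun e : E₂ => algebraMap K₂ L₂ (algebraMap E₂ K₂ e)) with hT
  -- the image of `K₂` lies in `T`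
  have hK : ∀ x : K₂, algebraMap K₂ L₂ x ∈ T := by
    intro x
    have hx : x ∈ IntermediateField.adjoin K₁ (Set.range (algebraMap E₂ K₂)) := by
      rw [hK₂]; exact IntermediateField.mem_top
    induction hx using IntermediateField.adjoin_induction with
    | mem y hy =>
      obtain ⟨e, rfl⟩ := hy
      exact IntermediateField.subset_adjoin _ _ ⟨e, rfl⟩
    | algebraMap k =>
      rw [← IsScalarTower.algebraMap_apply K₁ K₂ L₂, IsScalarTower.algebraMap_apply K₁ L₁ L₂]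
      exact T.algebraMap_mem _
    | add y z _ _ hy hz => rw [map_add]; exact T.add_mem hy hz
    | inv y _ hy => rw [map_inv₀]; exact T.inv_mem hy
    | mul y z _ _ hy hz => rw [map_mul]; exact T.mul_mem hy hz
  rw [eq_top_iff]
  intro y _
  have hy : y ∈ IntermediateField.adjoin K₂ ({algebraMap L₁ L₂ h} : Set L₂) := by
    rw [hadj₂]; exact IntermediateField.mem_top
  induction hy using IntermediateField.adjoin_induction with
  | mem z hz =>
    rw [Set.mem_singleton_iff] at hz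
    rw [hz]
    exact T.algebraMap_mem _
  | algebraMap k => exact hK k
  | add y z _ _ hy hz => exact T.add_mem (hy trivial) (hz trivial)
  | inv y _ hy => exact T.inv_mem (hy trivial)
  | mul y z _ _ hy hz => exact T.mul_mem (hy trivial) (hz trivial)

/-- **HOR-DESC, frame form**: no `Algebra E₁ L₂` needed.  Hypotheses in the shape of the fields
of `H704.CoreOut.WildFrame` (`hadj₂`, `hf₂`), plus `K₂ = K₁ · E₂` and the constants of `E₂`
algebraic over `ℚ`.  Conclusion: the field `hf'_div`. -/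
theorem divisibleDiv_descent_frame_h127 [CharZero E₂]
    (hK₂ : IntermediateField.adjoin K₁ (Set.range (algebraMap E₂ K₂)) = ⊤)
    (h : L₁) (hadj₂ : IntermediateField.adjoin K₂ ({algebraMap L₁ L₂ h} : Set L₂) = ⊤)
    (hE₂ : ∀ e : E₂, IsAlgebraic ℚ e)
    {p : ℕ} {f₂ : K₂} (hf₂0 : f₂ ≠ 0) (hdiv : DivisibleDiv E₂ p f₂)
    {f' : L₁} {lc : E₂} {b : L₂} (hlc : lc ≠ 0) (hb : b ≠ 0)
    (hf₂ : algebraMap K₂ L₂ f₂ =
      algebraMap K₂ L₂ (algebraMap E₂ K₂ lc) * algebraMap L₁ L₂ f' * b ^ p) :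
    DivisibleDiv E₁ p f' := by
  letI : Algebra E₁ L₂ := ((algebraMap L₁ L₂).comp (algebraMap E₁ L₁)).toAlgebra
  haveI : IsScalarTower E₁ L₁ L₂ := IsScalarTower.of_algebraMap_eq (fun _ => rfl)
  refine divisibleDiv_descent_range_h127 (adjoin_range_eq_top_h127 hK₂ h hadj₂) ?_ hf₂0 hdiv
    hlc hb hf₂
  intro e
  exact (hE₂ e).ringHom_of_comp_eq (algebraMap ℚ E₁)
    ((algebraMap K₂ L₂).comp (algebraMap E₂ K₂)) (algebraMap ℚ E₁).injective
    (Subsingleton.elim _ _)

end Frame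

end Fermat.Agent.Ribet.H127

end
-- ===== PACK-END Ribet/H127/HorDesc.lean

-- ===== PACK-BEGIN S59/H207/UnipLift.lean
section








/-!
# Row S59, cell (C) LO-SQ — EASY half, Galois side (helper207)

`ρ : G_ℚ → GL₂(O)` an adic representation over a Noetherian local ring `O` with `p ∈ 𝔪`,
`q ≠ p` a prime with `p ∤ q² - 1`.

**If `ρ` is RESIDUALLY unipotent on the inertia groups at `q`, it is unipotent on them**
(`isUnipotentOnInertiaAt_of_residual`).

Proof.  For `τ ∈ I_P` put `T = ρ(τ)`.  Residual unipotence gives `(T - 1)² ≡ 0 mod 𝔪`, hence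
`T ^ (p ^ n) ≡ 1 mod 𝔪ⁿ`: inertia acts on `V / 𝔪ⁿ V` through exponent `p ^ n`, prime to `q`.
The tame relation (`Ribet.H43.tame_conj_smul`) for a Frobenius element `σ` at `P` gives
`ρ(σ τ σ⁻¹) ≡ ρ(τ) ^ q mod 𝔪ⁿ` for all `n`, hence equality (Krull), hence
`charpoly (T ^ q) = charpoly T`, and `UnipAlg.trace_det_of_charpoly_pow_eq` applies.

Use: a newform `g` of level `M`, `q² ∥ M`, congruent mod `p` to a curve which is semistable at
`q` would have `ρ_g` unipotent on inertia at `q`, contradicting frozen S36 — the engine-free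
proof of LO-SQ for `p ∤ q² - 1`.
-/

set_option autoImplicit false
set_option linter.unusedSectionVars false
set_option linter.style.haveILetI false

namespace Fermat.Agent.S59.H207

open Polynomial IsLocalRing

/-! ## Endomorphisms mapping into `J V` -/

section MapsInto

variable {R : Type*} [CommRing R] {V : Type*} [AddCommGroup V] [Module R V]

/-- `E` maps `V` into `J • V`. -/
def MapsInto (J : Ideal R) (E : Module.End R V) : Prop :=
  ∀ v : V, E v ∈ (J • ⊤ : Submodule R V)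

theorem MapsInto.add {J : Ideal R} {E F : Module.End R V} (hE : MapsInto J E)
    (hF : MapsInto J F) : MapsInto J (E + F) := fun v => by
  rw [LinearMap.add_apply]
  exact Submodule.add_mem _ (hE v) (hF v)

theorem MapsInto.sub {J : Ideal R} {E F : Module.End R V} (hE : MapsInto J E)
    (hF : MapsInto J F) : MapsInto J (E - F) := fun v => by
  rw [LinearMap.sub_apply]
  exact Submodule.sub_mem _ (hE v) (hF v)

theorem MapsInto.mul_right {J : Ideal R} {E : Module.End R V} (hE : MapsInto J E)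
    (G : Module.End R V) : MapsInto J (E * G) := fun v => hE (G v)

theorem MapsInto.mul_left {J : Ideal R} {E : Module.End R V} (hE : MapsInto J E)
    (G : Module.End R V) : MapsInto J (G * E) := fun v =>
  Submodule.smul_top_le_comap_smul_top J G (hE v)

theorem MapsInto.mono {J J' : Ideal R} (h : J ≤ J') {E : Module.End R V} (hE : MapsInto J E) :
    MapsInto J' E := fun v => Submodule.smul_mono_left h (hE v)

theorem mapsInto_smul {J : Ideal R} {a : R} (ha : a ∈ J) (G : Module.End R V) :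
    MapsInto J (a • G) := fun v => by
  rw [LinearMap.smul_apply]
  exact Submodule.smul_mem_smul ha Submodule.mem_top

theorem mapsInto_natCast_mul {J : Ideal R} {n : ℕ} (hn : (n : R) ∈ J) (G : Module.End R V) :
    MapsInto J ((n : Module.End R V) * G) := by
  have : (n : Module.End R V) * G = (n : R) • G := by
    rw [Nat.cast_smul_eq_nsmul R, nsmul_eq_mul]
  rw [this]
  exact mapsInto_smul hn G

/-- Composition multiplies the ideals. -/
theorem MapsInto.mul {J J' : Ideal R} {E F : Module.End R V} (hE : MapsInto J E)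
    (hF : MapsInto J' F) : MapsInto (J * J') (F * E) := fun v => by
  have key : ∀ x ∈ (J • ⊤ : Submodule R V), F x ∈ ((J * J') • ⊤ : Submodule R V) := by
    intro x hx
    induction hx using Submodule.smul_induction_on' with
    | smul a ha w _ =>
      rw [map_smul, Submodule.mul_smul]
      exact Submodule.smul_mem_smul ha (hF w)
    | add x hx y hy ihx ihy =>
      rw [map_add]
      exact Submodule.add_mem _ ihx ihy
  exact key _ (hE v)

/-- `U ≡ 1 mod J ⟹ U ^ i ≡ 1 mod J`. -/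
theorem MapsInto.pow_sub_one {J : Ideal R} {U : Module.End R V} (hU : MapsInto J (U - 1))
    (i : ℕ) : MapsInto J (U ^ i - 1) := by
  rw [← geom_sum_mul]
  exact hU.mul_left _

/-- `U ≡ 1 mod J`, `J ≤ 𝔞`, `p ∈ 𝔞 ⟹ U ^ p ≡ 1 mod J 𝔞`. -/
theorem MapsInto.pow_prime_sub_one {J 𝔞 : Ideal R} {U : Module.End R V}
    (hU : MapsInto J (U - 1)) (hJ : J ≤ 𝔞) {p : ℕ} (hp : (p : R) ∈ 𝔞) :
    MapsInto (J * 𝔞) (U ^ p - 1) := by
  rw [← geom_sum_mul]
  refine hU.mul ?_
  -- `∑_{i<p} U^i = p + ∑ (U^i - 1)`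
  have hsum : (∑ i ∈ Finset.range p, U ^ i) =
      (p : Module.End R V) * 1 + ∑ i ∈ Finset.range p, (U ^ i - 1) := by
    rw [Finset.sum_sub_distrib]
    simp
  rw [hsum]
  refine (mapsInto_natCast_mul hp 1).add ?_
  intro v
  rw [LinearMap.sum_apply]
  exact Submodule.sum_mem _ fun i _ => ((hU.pow_sub_one i).mono hJ) v

/-- `(T - 1)² ≡ 0 mod 𝔞`, `p ∈ 𝔞`, `p` prime `⟹ T ^ p ≡ 1 mod 𝔞`. -/
theorem mapsInto_pow_prime_of_sq {𝔞 : Ideal R} {T : Module.End R V}
    (hT : MapsInto 𝔞 ((T - 1) ^ 2)) {p : ℕ} (hp : p.Prime) (hpa : (p : R) ∈ 𝔞) :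
    MapsInto 𝔞 (T ^ p - 1) := by
  have hc : Commute (T - 1) (1 : Module.End R V) := Commute.one_right _
  obtain ⟨r, hr⟩ := Commute.exists_add_pow_prime_eq hp hc
  rw [sub_add_cancel, one_pow, mul_one] at hr
  have h2 : (T - 1) ^ p = (T - 1) ^ 2 * (T - 1) ^ (p - 2) := by
    rw [← pow_add]
    congr 1
    have := hp.two_le
    omega
  have e : T ^ p - 1 = (T - 1) ^ 2 * (T - 1) ^ (p - 2) + (p : Module.End R V) * ((T - 1) * r) := by
    rw [hr, h2, mul_assoc]
    abel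
  rw [e]
  exact (hT.mul_right _).add (mapsInto_natCast_mul hpa _)

/-- `(T - 1)² ≡ 0 mod 𝔞`, `p ∈ 𝔞 ⟹ T ^ (p ^ n) ≡ 1 mod 𝔞ⁿ`. -/
theorem mapsInto_pow_pow_of_sq {𝔞 : Ideal R} {T : Module.End R V}
    (hT : MapsInto 𝔞 ((T - 1) ^ 2)) {p : ℕ} (hp : p.Prime) (hpa : (p : R) ∈ 𝔞) (n : ℕ) :
    MapsInto (𝔞 ^ n) (T ^ (p ^ n) - 1) := by
  induction n with
  | zero =>
    intro v
    rw [pow_zero, Ideal.one_eq_top, Submodule.top_smul]
    exact Submodule.mem_top
  | succ n ih =>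
    rcases Nat.eq_zero_or_pos n with h0 | hpos
    · subst h0
      rw [zero_add, pow_one, pow_one]
      exact mapsInto_pow_prime_of_sq hT hp hpa
    · have hle : 𝔞 ^ n ≤ 𝔞 := Ideal.pow_le_self hpos.ne'
      have := ih.pow_prime_sub_one hle hpa
      rw [← pow_mul, ← pow_succ, ← pow_succ] at this
      exact this

end MapsInto

/-! ## Rank two -/

section RankTwo

variable {R : Type*} [CommRing R] [IsLocalRing R] {V : Type*} [AddCommGroup V] [Module R V]
  [Module.Free R V] [Module.Finite R V]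

/-- Residual unipotence of a `2 × 2` matrix: `tr ≡ 2`, `det ≡ 1`. -/
theorem trace_det_mem_of_residual (M : Matrix (Fin 2) (Fin 2) R)
    (h : M.charpoly.map (residue R) = (X - 1) ^ 2) :
    M.trace - 2 ∈ maximalIdeal R ∧ M.det - 1 ∈ maximalIdeal R := by
  rw [Matrix.charpoly_fin_two] at h
  have e : ((X : (ResidueField R)[X]) - 1) ^ 2 = X ^ 2 - C 2 * X + C 1 := by
    simp only [map_ofNat, map_one]
    ring
  rw [e] at h
  simp only [Polynomial.map_add, Polynomial.map_sub, Polynomial.map_mul, Polynomial.map_pow,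
    Polynomial.map_X, Polynomial.map_C] at h
  have h1 := congrArg (fun P : (ResidueField R)[X] => P.coeff 1) h
  have h0 := congrArg (fun P : (ResidueField R)[X] => P.coeff 0) h
  simp only [coeff_add, coeff_sub, coeff_X_pow, coeff_C_mul, coeff_X_one, coeff_C,
    coeff_X_zero] at h1 h0
  have ht : residue R M.trace = 2 := by simpa using h1
  have hd : residue R M.det = 1 := by simpa using h0
  constructor
  · rw [← residue_eq_zero_iff, map_sub, ht, map_ofNat, sub_self]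
  · rw [← residue_eq_zero_iff, map_sub, hd, map_one, sub_self]

variable (hV : Module.finrank R V = 2) (T : Module.End R V)

include hV in
/-- Residual unipotence gives `(T - 1)² ≡ 0 mod 𝔪`. -/
theorem mapsInto_sq_of_residual (h : T.charpoly.map (residue R) = (X - 1) ^ 2) :
    MapsInto (maximalIdeal R) ((T - 1) ^ 2) := by
  let b : Module.Basis (Fin 2) R V := Module.finBasisOfFinrankEq R V hV
  set e := LinearMap.toMatrixAlgEquiv b with he
  set M : Matrix (Fin 2) (Fin 2) R := e T with hM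
  have hch : M.charpoly = T.charpoly := LinearMap.charpoly_toMatrix T b
  rw [← hch] at h
  obtain ⟨ht, hd⟩ := trace_det_mem_of_residual M h
  have hsq : T ^ 2 = M.trace • T - M.det • (1 : Module.End R V) := by
    apply e.injective
    rw [map_pow, map_sub, map_smul, map_smul, map_one]
    exact sq_eq_trace_smul_sub_det M
  have e2 : (T - 1) ^ 2 = (M.trace - 2) • T + (1 - M.det) • (1 : Module.End R V) := by
    have h1 : (T - 1) ^ 2 = T ^ 2 - T - T + 1 := by
      noncomm_ring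
    have h2 : (M.trace - 2) • T = M.trace • T - T - T := by
      rw [sub_smul, ofNat_smul_eq_nsmul, two_smul]
      abel
    rw [h1, hsq, h2, sub_smul, one_smul]
    abel
  rw [e2]
  refine (mapsInto_smul ht T).add (mapsInto_smul ?_ 1)
  have : 1 - M.det = -(M.det - 1) := by ring
  rw [this]
  exact Ideal.neg_mem_iff _ |>.2 hd

include hV in
/-- **The algebra of the easy half, for endomorphisms.** -/
theorem charpoly_eq_of_pow_of_residual {p q : ℕ} (hp : p.Prime)
    (hpR : (p : R) ∈ maximalIdeal R) (hq : 2 ≤ q) (hcop : ¬ p ∣ q ^ 2 - 1)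
    (hpow : (T ^ q).charpoly = T.charpoly)
    (h : T.charpoly.map (residue R) = (X - 1) ^ 2) :
    T.charpoly = (X - 1) ^ 2 := by
  let b : Module.Basis (Fin 2) R V := Module.finBasisOfFinrankEq R V hV
  set e := LinearMap.toMatrixAlgEquiv b with he
  set M : Matrix (Fin 2) (Fin 2) R := e T with hM
  have hch : M.charpoly = T.charpoly := LinearMap.charpoly_toMatrix T b
  have hchq : (M ^ q).charpoly = (T ^ q).charpoly := by
    rw [hM, ← map_pow]
    exact LinearMap.charpoly_toMatrix (T ^ q) b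
  have h' := h
  rw [← hch] at h'
  obtain ⟨ht, hd⟩ := trace_det_mem_of_residual M h'
  obtain ⟨ht2, hd1⟩ := trace_det_of_charpoly_pow_eq M hp hpR hq hcop
    (by rw [hchq, hpow, hch]) ht hd
  rw [← hch, Matrix.charpoly_fin_two, ht2, hd1]
  simp only [map_ofNat, map_one]
  ring

end RankTwo

/-! ## The Galois side -/

section Galois

/-- `ℚ̄` -/
abbrev Qbar : Type := AlgebraicClosure ℚ

/-- `Gal(ℚ̄/ℚ)` -/
abbrev GalQ : Type := Qbar ≃ₐ[ℚ] Qbar

variable {O : Type} [CommRing O] [IsLocalRing O] (ρ : GaloisRepAdic O)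

set_option warn.classDefReducibility false in
/-- The action of `G_ℚ` on `V / J V`. -/
noncomputable def quotAction (J : Ideal O) :
    MulAction GalQ (ρ.V ⧸ (J • ⊤ : Submodule O ρ.V)) where
  smul g x := Submodule.mapQ _ _ (ρ.ρ g) (Submodule.smul_top_le_comap_smul_top J (ρ.ρ g)) x
  one_smul x := by
    induction x using Submodule.Quotient.induction_on with
    | _ v =>
      show Submodule.mapQ _ _ (ρ.ρ 1) _ (Submodule.Quotient.mk v) = Submodule.Quotient.mk v
      rw [Submodule.mapQ_apply, map_one]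
      rfl
  mul_smul g h x := by
    induction x using Submodule.Quotient.induction_on with
    | _ v =>
      show Submodule.mapQ _ _ (ρ.ρ (g * h)) _ (Submodule.Quotient.mk v) =
        Submodule.mapQ _ _ (ρ.ρ g) _ (Submodule.mapQ _ _ (ρ.ρ h) _ (Submodule.Quotient.mk v))
      rw [Submodule.mapQ_apply, Submodule.mapQ_apply, Submodule.mapQ_apply, map_mul]
      rfl

theorem quotAction_mk (J : Ideal O) (g : GalQ) (v : ρ.V) :
    letI := quotAction ρ J
    g • (Submodule.Quotient.mk v : ρ.V ⧸ (J • ⊤ : Submodule O ρ.V)) =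
      Submodule.Quotient.mk (ρ.ρ g v) := rfl

variable [IsNoetherianRing O]

/-- **The tame relation for a residually unipotent representation**:
`ρ(σ τ σ⁻¹) = ρ(τ) ^ q` for a Frobenius element `σ` at `P` and `τ ∈ I_P`. -/
theorem rho_conj_eq_pow {p q : ℕ} (hp : p.Prime) (hq : q.Prime) (hpq : p ≠ q)
    (hpO : (p : O) ∈ maximalIdeal O)
    (P : ValuationSubring Qbar) (hP : P.LiesOverPrime q)
    (hres : ∀ τ ∈ P.inertiaSubgroupIn ℚ,
      (LinearMap.charpoly (ρ.ρ τ)).map (residue O) = (X - 1) ^ 2)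
    {σ τ : GalQ} (hσ : P.IsFrobeniusAt σ q) (hτ : τ ∈ P.inertiaSubgroupIn ℚ) :
    ρ.ρ (σ * τ * σ⁻¹) = ρ.ρ τ ^ q := by
  haveI : Algebra.IsAlgebraic ℚ Qbar := AlgebraicClosure.isAlgebraic ℚ
  have hKrull : (⨅ n : ℕ, maximalIdeal O ^ n • ⊤ : Submodule O ρ.V) = ⊥ :=
    Ideal.iInf_pow_smul_eq_bot_of_isLocalRing _ (maximalIdeal.isMaximal O).ne_top
  apply LinearMap.ext
  intro v
  rw [← sub_eq_zero, ← Submodule.mem_bot O, ← hKrull, Submodule.mem_iInf]
  intro n
  -- the action on `V / 𝔪ⁿ V`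
  letI := quotAction ρ (maximalIdeal O ^ n)
  obtain ⟨E, hEfin, hE⟩ := ρ.isAdicContinuous n
  haveI := hEfin
  have hqm : ¬ q ∣ p ^ n := by
    intro h
    exact hpq ((Nat.prime_dvd_prime_iff_eq hq hp).1 (hq.dvd_of_dvd_pow h)).symm
  have key := Fermat.Agent.Ribet.H43.tame_conj_smul (K := ℚ) (L := Qbar) P
    (X := ρ.V ⧸ (maximalIdeal O ^ n • ⊤ : Submodule O ρ.V)) hq hP hσ hτ E
    (fun g hg x => by
      induction x using Submodule.Quotient.induction_on with
      | _ w =>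
        rw [quotAction_mk, Submodule.Quotient.eq]
        exact hE g hg w)
    (p ^ n) hqm
    (fun τ' hτ' x => by
      induction x using Submodule.Quotient.induction_on with
      | _ w =>
        rw [quotAction_mk, Submodule.Quotient.eq, map_pow]
        have h1 := mapsInto_pow_pow_of_sq
          (mapsInto_sq_of_residual ρ.finrank_eq (ρ.ρ τ') (hres τ' hτ')) hp hpO n w
        rwa [LinearMap.sub_apply, Module.End.one_apply] at h1)
    (Submodule.Quotient.mk v)
  rw [quotAction_mk, quotAction_mk, Submodule.Quotient.eq, map_pow] at key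
  exact key

/-- **EASY half, Galois side.**  A representation which is residually unipotent on the inertia
groups at `q`, with `p ∤ q² - 1`, is unipotent on them. -/
theorem isUnipotentOnInertiaAt_of_residual {p q : ℕ} (hp : p.Prime) (hq : q.Prime)
    (hpq : p ≠ q) (hcop : ¬ p ∣ q ^ 2 - 1) (hpO : (p : O) ∈ maximalIdeal O)
    (hfrob : ∀ P : ValuationSubring Qbar, P.LiesOverPrime q → ∃ σ : GalQ, P.IsFrobeniusAt σ q)
    (hres : ∀ P : ValuationSubring Qbar, P.LiesOverPrime q → ∀ τ ∈ P.inertiaSubgroupIn ℚ,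
      (LinearMap.charpoly (ρ.ρ τ)).map (residue O) = (X - 1) ^ 2) :
    ρ.IsUnipotentOnInertiaAt q := by
  intro P hP τ hτ
  obtain ⟨σ, hσ⟩ := hfrob P hP
  have hconj := rho_conj_eq_pow ρ hp hq hpq hpO P hP (hres P hP) hσ hτ
  -- conjugation does not change the characteristic polynomial
  have hpow : (ρ.ρ τ ^ q).charpoly = (ρ.ρ τ).charpoly := by
    rw [← hconj, map_mul, map_mul]
    have hu : ρ.ρ σ * ρ.ρ σ⁻¹ = 1 := by rw [← map_mul, mul_inv_cancel, map_one]
    have hu' : ρ.ρ σ⁻¹ * ρ.ρ σ = 1 := by rw [← map_mul, inv_mul_cancel, map_one]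
    let e : ρ.V ≃ₗ[O] ρ.V := LinearEquiv.ofLinearMap (ρ.ρ σ) (ρ.ρ σ⁻¹) hu hu'
    have : ρ.ρ σ * ρ.ρ τ * ρ.ρ σ⁻¹ = e.conj (ρ.ρ τ) := by
      apply LinearMap.ext
      intro v
      rfl
    rw [this]
    exact LinearEquiv.charpoly_conj e (ρ.ρ τ)
  exact charpoly_eq_of_pow_of_residual ρ.finrank_eq (ρ.ρ τ) hp hpO hq.two_le hcop hpow
    (hres P hP τ hτ)

end Galois

end Fermat.Agent.S59.H207

end
-- ===== PACK-END S59/H207/UnipLift.lean

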