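import Mathlib
import Fermat.Prelude.Def_FLTPrelim_Ramification
import Fermat.Prelude.Def_ModularCurve_HeckeOperator
import Fermat.Agent.Pack.S43MC.G0E10L2
import Fermat.Agent.Pack.S59C.E1L0
import Fermat.Agent.Pack.S43MC.G0E10L3
import Fermat.Agent.Pack.S43GC.G0E5L0
import Fermat.Agent.Pack.S43MC.G0E7L3
import Fermat.Agent.Pack.S44C.G0E6L2
import Fermat.Agent.Pack.S43GC.G0E4L2
import Fermat.Agent.Pack.S59C.E1L3
import Fermat.Agent.Pack.S44C.G0E5L1

set_option linter.all false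

-- ===== PACK-BEGIN S41/H221/PDMisc.lean
section



/-!
# S41, block PD — small facts about `Γ₀(n)` and `Γ' = δ Γ₀(N q) δ⁻¹` (helper221)
-/

set_option autoImplicit false

namespace Fermat.Agent.S41.H221

open CongruenceSubgroup Matrix.SpecialLinearGroup ModularCurve.Period ModularGroup
open Fermat.Agent.S41.Spec Fermat.Agent.S29.H642
open scoped MatrixGroups

theorem neg_one_mem_gamma0 (n : ℕ) : (-1 : SL(2, ℤ)) ∈ Gamma0 n := by
  rw [Gamma0_mem]
  simp

theorem finiteIndex_gamma0 {n : ℕ} (hn : n ≠ 0) : (Gamma0 n).FiniteIndex := by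
  have : NeZero n := ⟨hn⟩
  infer_instance

theorem coe_conjDelta (N q : ℕ) (γ : Gamma0 (N * q)) :
    (((conjDelta N q γ : Gamma0 N) : SL(2, ℤ)) : Matrix (Fin 2) (Fin 2) ℤ) =
      conjDeltaMatrix q (γ : SL(2, ℤ)) := rfl

theorem coe_conjDeltaR (N q : ℕ) (γ : Gamma0 (N * q)) :
    (((conjDeltaR N q γ : gamma0Delta N q) : SL(2, ℤ)) : Matrix (Fin 2) (Fin 2) ℤ) =
      conjDeltaMatrix q (γ : SL(2, ℤ)) := rfl

theorem trace_conjDeltaR (N q : ℕ) (γ : Gamma0 (N * q)) :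
    (((conjDeltaR N q γ : gamma0Delta N q) : SL(2, ℤ)) : Matrix (Fin 2) (Fin 2) ℤ).trace =
      (((γ : Gamma0 (N * q)) : SL(2, ℤ)) : Matrix (Fin 2) (Fin 2) ℤ).trace := by
  rw [coe_conjDeltaR, Matrix.trace_fin_two, Matrix.trace_fin_two]
  simp [conjDeltaMatrix]

theorem conjDeltaR_injective (N q : ℕ) (hq : q ≠ 0) : Function.Injective (conjDeltaR N q) := by
  intro γ γ' h
  have h1 : conjDeltaMatrix q (γ : SL(2, ℤ)) = conjDeltaMatrix q (γ' : SL(2, ℤ)) := by
    rw [← coe_conjDeltaR, ← coe_conjDeltaR, h]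
  have hq' : (q : ℤ) ≠ 0 := by exact_mod_cast hq
  obtain ⟨k, hk⟩ := (dvd_of_mem_gamma0_mul γ).1
  obtain ⟨k', hk'⟩ := (dvd_of_mem_gamma0_mul γ').1
  have e00 := congrFun (congrFun h1 0) 0
  have e01 := congrFun (congrFun h1 0) 1
  have e10 := congrFun (congrFun h1 1) 0
  have e11 := congrFun (congrFun h1 1) 1
  simp only [conjDeltaMatrix, Matrix.of_apply, Matrix.cons_val', Matrix.cons_val_zero,
    Matrix.cons_val_one, Matrix.cons_val_fin_one] at e00 e01 e10 e11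
  rw [hk, hk', Int.mul_ediv_cancel_left _ hq', Int.mul_ediv_cancel_left _ hq'] at e10
  apply Subtype.ext
  apply Subtype.ext
  ext i j
  fin_cases i <;> fin_cases j
  · exact e00
  · exact mul_left_cancel₀ hq' e01
  · show (γ : SL(2, ℤ)) 1 0 = (γ' : SL(2, ℤ)) 1 0
    rw [hk, hk', e10]
  · exact e11

theorem conjDeltaR_surjective (N q : ℕ) : Function.Surjective (conjDeltaR N q) :=
  MonoidHom.rangeRestrict_surjective _

/-- `c_δ : Γ₀(N q) ≃* Γ'`. -/
noncomputable def conjDeltaEquiv (N q : ℕ) (hq : q ≠ 0) : Gamma0 (N * q) ≃* gamma0Delta N q :=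
  MulEquiv.ofBijective (conjDeltaR N q) ⟨conjDeltaR_injective N q hq, conjDeltaR_surjective N q⟩

theorem conjDeltaEquiv_apply (N q : ℕ) (hq : q ≠ 0) (γ : Gamma0 (N * q)) :
    conjDeltaEquiv N q hq γ = conjDeltaR N q γ := rfl

theorem inclusion_comp_conjDeltaR (N q : ℕ) :
    (Subgroup.inclusion (gamma0Delta_le N q)).comp (conjDeltaR N q) = conjDelta N q := by
  ext γ : 1
  apply Subtype.ext
  rfl

theorem neg_one_mem_gamma0Delta (N q : ℕ) : (-1 : SL(2, ℤ)) ∈ gamma0Delta N q := by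
  refine ⟨⟨-1, neg_one_mem_gamma0 (N * q)⟩, ?_⟩
  apply Subtype.ext
  show conjDeltaMatrix q (-1 : SL(2, ℤ)) = ((-1 : SL(2, ℤ)) : Matrix (Fin 2) (Fin 2) ℤ)
  ext i j
  fin_cases i <;> fin_cases j <;> simp [conjDeltaMatrix]

theorem gamma_le_gamma0Delta (N q : ℕ) (hq : q ≠ 0) : Gamma (N * q) ≤ gamma0Delta N q := by
  intro g hg
  rw [Gamma_mem] at hg
  obtain ⟨h00, h01, h10, h11⟩ := hg
  have hq' : (q : ℤ) ≠ 0 := by exact_mod_cast hq
  have d01 : ((N * q : ℕ) : ℤ) ∣ g 0 1 := (ZMod.intCast_zmod_eq_zero_iff_dvd _ _).mp h01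
  have d10 : ((N * q : ℕ) : ℤ) ∣ g 1 0 := (ZMod.intCast_zmod_eq_zero_iff_dvd _ _).mp h10
  obtain ⟨b, hb⟩ : (q : ℤ) ∣ g 0 1 := dvd_trans ⟨N, by push_cast; ring⟩ d01
  have hdet : g 0 0 * g 1 1 - g 0 1 * g 1 0 = 1 := by
    have := g.det_coe
    rwa [Matrix.det_fin_two] at this
  -- the preimage `[[a, b/q], [q c, d]]`
  let M : Matrix (Fin 2) (Fin 2) ℤ := !![g 0 0, b; q * g 1 0, g 1 1]
  have hM : M.det = 1 := by
    rw [Matrix.det_fin_two_of]
    rw [hb] at hdet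
    linear_combination hdet
  have hmem : (⟨M, hM⟩ : SL(2, ℤ)) ∈ Gamma0 (N * q) := by
    apply mem_Gamma0_of_dvd
    show ((N * q : ℕ) : ℤ) ∣ M 1 0
    simp only [M, Matrix.of_apply, Matrix.cons_val', Matrix.cons_val_zero, Matrix.cons_val_one,
      Matrix.cons_val_fin_one]
    exact Dvd.dvd.mul_left d10 _
  refine ⟨⟨⟨M, hM⟩, hmem⟩, ?_⟩
  apply Subtype.ext
  show conjDeltaMatrix q (⟨M, hM⟩ : SL(2, ℤ)) = (g : Matrix (Fin 2) (Fin 2) ℤ)
  ext i j
  fin_cases i <;> fin_cases j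
  · simp [conjDeltaMatrix, M]
  · simp [conjDeltaMatrix, M, hb]
  · simp [conjDeltaMatrix, M, Int.mul_ediv_cancel_left _ hq']
  · simp [conjDeltaMatrix, M]

theorem finiteIndex_gamma0Delta {N q : ℕ} (hN : N ≠ 0) (hq : q ≠ 0) :
    (gamma0Delta N q).FiniteIndex := by
  have : NeZero (N * q) := ⟨Nat.mul_ne_zero hN hq⟩
  exact Subgroup.finiteIndex_of_le (gamma_le_gamma0Delta N q hq)

end Fermat.Agent.S41.H221

end
-- ===== PACK-END S41/H221/PDMisc.lean

-- ===== PACK-BEGIN S41/H945/HeisLift.lean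
section





/-!
# S41 / block PD / leaf HEIS — `Spec.HeisLiftStatement` (helper945, 2nd owner)

For `Γ ≤ SL(2, ℤ)` of finite index with `-1 ∈ Γ`, Manin representatives `m, m'` of `φ, ψ` and
parabolic data `e, e'`, we construct a Heisenberg lift `ζ` of `(φ, ψ)` (trivial on torsion) such that
`∑ ζ (γ i) = - maninForm Γ m e'` over every `T`-orbit system.

Construction: the twisted cocycle `C : SL(2, ℤ) → X → Heis R` with `C S = 1`,
`C U x = (m (U x) - m x, m' (U x) - m' x, m (U x) * (m' (U x) - m' x))`, `U = S * T`;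
`ζ γ` is the central coordinate of `C γ x₀`.

The only input which is not proved here is `Spec.TorsionClassStatement` (leaf TORS), taken as a
hypothesis.
-/

set_option autoImplicit false

namespace Fermat.Agent.S41.H945

open Matrix ModularGroup Fermat.Agent.S41.Spec Fermat.Agent.S21.H585
open scoped MatrixGroups

/-! ## Abelian cocycles are determined by their values on `S` and `S * T` -/

section Uniq

variable {X : Type*} [MulAction SL(2, ℤ) X] {A : Type*} [AddCommGroup A]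

lemma mem_closure_S_ST (g : SL(2, ℤ)) : g ∈ Subgroup.closure ({S, S * T} : Set SL(2, ℤ)) := by
  have hle : Subgroup.closure ({S, T} : Set SL(2, ℤ)) ≤
      Subgroup.closure ({S, S * T} : Set SL(2, ℤ)) := by
    rw [Subgroup.closure_le]
    rintro x (rfl | rfl)
    · exact Subgroup.subset_closure (by simp)
    · have h1 : S ∈ Subgroup.closure ({S, S * T} : Set SL(2, ℤ)) :=
        Subgroup.subset_closure (by simp)
      have h2 : S * T ∈ Subgroup.closure ({S, S * T} : Set SL(2, ℤ)) :=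
        Subgroup.subset_closure (by simp)
      have h3 := mul_mem (inv_mem h1) h2
      rwa [inv_mul_cancel_left] at h3
  apply hle
  rw [_root_.SpecialLinearGroup.SL2Z_generators]; trivial

lemma cocycle_eq_of_S_ST {f f' : SL(2, ℤ) → X → A} (hf : IsCocycle f) (hf' : IsCocycle f')
    (hS : f S = f' S) (hU : f (S * T) = f' (S * T)) (g : SL(2, ℤ)) (x : X) : f g x = f' g x := by
  have hg := mem_closure_S_ST g
  induction hg using Subgroup.closure_induction generalizing x with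
  | mem y hy =>
    rcases hy with rfl | rfl
    · rw [hS]
    · rw [hU]
  | one => rw [hf.map_one, hf'.map_one]
  | mul g h _ _ hg hh => rw [hf, hf', hg, hh]
  | inv g _ hg => rw [hf.map_inv', hf'.map_inv', hg]

end Uniq

/-! ## The Heisenberg cocycle -/

section Construction

variable (Γ : Subgroup SL(2, ℤ)) {R : Type*} [CommRing R]

/-- The value at `U = S * T` of the Heisenberg cocycle. -/
def heisU (m m' : SL(2, ℤ) ⧸ Γ → R) (x : SL(2, ℤ) ⧸ Γ) : Heis R :=
  ⟨m ((S * T) • x) - m x, m' ((S * T) • x) - m' x,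
    m ((S * T) • x) * (m' ((S * T) • x) - m' x)⟩

variable {Γ}

lemma ST_cube_smul (hneg : (-1 : SL(2, ℤ)) ∈ Γ) (x : SL(2, ℤ) ⧸ Γ) :
    (S * T) • (S * T) • (S * T) • x = x := by
  rw [smul_smul, smul_smul, ST_cube_eq_neg_one, neg_one_smul_quot hneg]

lemma S_smul_ST_smul (hneg : (-1 : SL(2, ℤ)) ∈ Γ) (x : SL(2, ℤ) ⧸ Γ) :
    S • (S * T) • x = T • x := by
  rw [smul_smul, ← mul_assoc, S_mul_S_eq_neg_one, mul_smul, neg_one_smul_quot hneg]

lemma heisU_cube (hneg : (-1 : SL(2, ℤ)) ∈ Γ) (m m' : SL(2, ℤ) ⧸ Γ → R) (x : SL(2, ℤ) ⧸ Γ) :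
    heisU Γ m m' ((S * T) • (S * T) • x) * heisU Γ m m' ((S * T) • x) * heisU Γ m m' x = 1 := by
  have h3 := ST_cube_smul hneg x
  ext
  · simp only [heisU, Heis.mul_a, Heis.one_a, h3]; ring
  · simp only [heisU, Heis.mul_b, Heis.one_b, h3]; ring
  · simp only [heisU, Heis.mul_a, Heis.mul_c, Heis.one_c, h3]; ring

/-- Existence of the Heisenberg cocycle. -/
lemma exists_heis_cocycle (hneg : (-1 : SL(2, ℤ)) ∈ Γ) (m m' : SL(2, ℤ) ⧸ Γ → R) :
    ∃ C : SL(2, ℤ) → SL(2, ℤ) ⧸ Γ → Heis R, IsTwCocycle C ∧ (∀ x, C S x = 1) ∧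
      ∀ x, C (S * T) x = heisU Γ m m' x := by
  obtain ⟨C, hC, hS, hU⟩ := exists_twisted_cocycle (X := SL(2, ℤ) ⧸ Γ) (H := Heis R)
    (neg_one_smul_quot hneg) (fun _ => 1) (heisU Γ m m') (fun _ => by simp)
    (heisU_cube hneg m m')
  exact ⟨C, hC, fun x => by rw [hS], fun x => by rw [hU]⟩

end Construction

/-! ## Properties of a Heisenberg cocycle -/

section Props

variable {Γ : Subgroup SL(2, ℤ)} {R : Type*} [CommRing R]
  {C : SL(2, ℤ) → SL(2, ℤ) ⧸ Γ → Heis R}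

lemma IsTwCocycle.isCocycle_a (hC : IsTwCocycle C) : IsCocycle (fun g x => (C g x).a) := by
  intro g h x
  show (C (g * h) x).a = (C h x).a + (C g (h • x)).a
  rw [hC, Heis.mul_a, add_comm]

lemma IsTwCocycle.isCocycle_b (hC : IsTwCocycle C) : IsCocycle (fun g x => (C g x).b) := by
  intro g h x
  show (C (g * h) x).b = (C h x).b + (C g (h • x)).b
  rw [hC, Heis.mul_b, add_comm]

lemma tw_S_inv (hC : IsTwCocycle C) (hS : ∀ x, C S x = 1) (x : SL(2, ℤ) ⧸ Γ) : C S⁻¹ x = 1 := by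
  have h := hC.map_inv_mul S (S⁻¹ • x)
  rwa [hS, mul_one, smul_inv_smul] at h

lemma tw_T (hC : IsTwCocycle C) (hS : ∀ x, C S x = 1) (x : SL(2, ℤ) ⧸ Γ) :
    C T x = C (S * T) x := by
  have h : (T : SL(2, ℤ)) = S⁻¹ * (S * T) := by rw [inv_mul_cancel_left]
  conv_lhs => rw [h]
  rw [hC, tw_S_inv hC hS, one_mul]

lemma tw_neg_one (hC : IsTwCocycle C) (hS : ∀ x, C S x = 1) (x : SL(2, ℤ) ⧸ Γ) :
    C (-1) x = 1 := by
  rw [← S_mul_S_eq_neg_one, hC, hS, hS, one_mul]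

/-- The Heisenberg cocycle along a `T`-orbit. -/
lemma tw_T_pow (hC : IsTwCocycle C) (hS : ∀ x, C S x = 1) (m m' e e' : SL(2, ℤ) ⧸ Γ → R)
    (hU : ∀ x, C (S * T) x = heisU Γ m m' x) (he : IsParData Γ m e) (he' : IsParData Γ m' e')
    (y : SL(2, ℤ) ⧸ Γ) (k : ℕ) :
    (C (T ^ k) y).a = e (T ^ k • y) - e y ∧ (C (T ^ k) y).b = e' (T ^ k • y) - e' y ∧
      (C (T ^ k) y).c = ∑ j ∈ Finset.range k,
          (m ((S * T) • T ^ j • y) * (m' ((S * T) • T ^ j • y) - m' (T ^ j • y))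
            + (m ((S * T) • T ^ j • y) - m (T ^ j • y)) * e' (T ^ j • y))
        - e' y * (e (T ^ k • y) - e y) := by
  induction k with
  | zero => simp [hC.map_one]
  | succ k ih =>
    obtain ⟨iha, ihb, ihc⟩ := ih
    have hT : C (T ^ (k + 1)) y = C T (T ^ k • y) * C (T ^ k) y := by
      rw [pow_succ', hC]
    have hTy : T ^ (k + 1) • y = T • T ^ k • y := by rw [pow_succ', mul_smul]
    have h1 := he (T ^ k • y)
    have h2 := he' (T ^ k • y)
    rw [hT, hTy, tw_T hC hS, hU]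
    refine ⟨?_, ?_, ?_⟩
    · rw [Heis.mul_a, iha]
      simp only [heisU]
      linear_combination -h1
    · rw [Heis.mul_b, ihb]
      simp only [heisU]
      linear_combination -h2
    · rw [Heis.mul_c, ihc, ihb, Finset.sum_range_succ]
      simp only [heisU]
      linear_combination e' y * h1

end Props

/-! ## Heisenberg algebra -/

section HeisAlg

variable {R : Type*} [CommRing R]

lemma Heis.conj_c {P' P Q : Heis R} (h : P' * P = 1) (ha : Q.a = 0) (hb : Q.b = 0) :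
    (P' * Q * P).c = Q.c := by
  have h1 : P'.a + P.a = 0 := by simpa using congrArg Heis.a h
  have h3 : P'.c + P.c + P'.a * P.b = 0 := by simpa using congrArg Heis.c h
  simp only [Heis.mul_c, Heis.mul_a, ha, hb]
  linear_combination h3

lemma Heis.conj_one {P' P Q : Heis R} (h : P' * P = 1) (hQ : Q = 1) : P' * Q * P = 1 := by
  rw [hQ, mul_one, h]

end HeisAlg

/-! ## Conjugates -/

section Conj

variable {Γ : Subgroup SL(2, ℤ)} {R : Type*} [CommRing R]
  {C : SL(2, ℤ) → SL(2, ℤ) ⧸ Γ → Heis R}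

/-- `C (h⁻¹ * t * h) x₀ = C h⁻¹ (h x₀) * C t (h x₀) * C h x₀` when `t` fixes `h x₀`. -/
lemma tw_conj (hC : IsTwCocycle C) (h t : SL(2, ℤ))
    (hfix : t • h • basePt Γ = h • basePt Γ) :
    C (h⁻¹ * t * h) (basePt Γ) =
      C h⁻¹ (h • basePt Γ) * C t (h • basePt Γ) * C h (basePt Γ) := by
  rw [hC, hC, hfix]

lemma fix_of_conj_mem (h t : SL(2, ℤ)) (hmem : h⁻¹ * t * h ∈ Γ) :
    t • h • basePt Γ = h • basePt Γ := by
  have h1 := smul_basePt_of_mem Γ hmem
  rw [mul_smul, mul_smul] at h1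
  have h2 := congrArg (fun z => h • z) h1
  simpa using h2

end Conj

/-! ## Summation over a `T`-orbit system -/

section OrbitSum

variable {Γ : Subgroup SL(2, ℤ)}

lemma sum_orbit_system {ι : Type} [Fintype ι] [Fintype (SL(2, ℤ) ⧸ Γ)] {A : Type*}
    [AddCommMonoid A] (h : ι → SL(2, ℤ)) (w : ι → ℕ)
    (hbij : ∀ x : SL(2, ℤ) ⧸ Γ, ∃! p : (Σ i, Fin (w i)),
      x = ((T ^ (p.2 : ℕ) * h p.1 : SL(2, ℤ)) : SL(2, ℤ) ⧸ Γ))
    (G : SL(2, ℤ) ⧸ Γ → A) :
    ∑ i, ∑ j ∈ Finset.range (w i), G (T ^ j • h i • basePt Γ) = ∑ x, G x := by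
  let F : (Σ i, Fin (w i)) → SL(2, ℤ) ⧸ Γ :=
    fun p => ((T ^ (p.2 : ℕ) * h p.1 : SL(2, ℤ)) : SL(2, ℤ) ⧸ Γ)
  have hF : Function.Bijective F := by
    constructor
    · intro p q hpq
      obtain ⟨r, -, hr⟩ := hbij (F p)
      rw [hr p rfl, hr q hpq]
    · intro x
      obtain ⟨p, hp, -⟩ := hbij x
      exact ⟨p, hp.symm⟩
  rw [← hF.sum_comp G, Fintype.sum_sigma]
  refine Finset.sum_congr rfl fun i _ => ?_
  rw [← Fin.sum_univ_eq_sum_range (fun j => G (T ^ j • h i • basePt Γ)) (w i)]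
  refine Finset.sum_congr rfl fun j _ => ?_
  show G (T ^ (j : ℕ) • h i • basePt Γ) = G ((T ^ (j : ℕ) * h i : SL(2, ℤ)) : SL(2, ℤ) ⧸ Γ)
  rw [← mul_smul, smul_basePt_eq]

end OrbitSum

/-! ## The final identity -/

section Final

variable {Γ : Subgroup SL(2, ℤ)} {R : Type*} [CommRing R]

lemma sum_G_eq [Fintype (SL(2, ℤ) ⧸ Γ)] (hneg : (-1 : SL(2, ℤ)) ∈ Γ)
    (m m' e' : SL(2, ℤ) ⧸ Γ → R) (he' : IsParData Γ m' e') :
    ∑ x : SL(2, ℤ) ⧸ Γ, (m ((S * T) • x) * (m' ((S * T) • x) - m' x)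
        + (m ((S * T) • x) - m x) * e' x)
      = - ∑ x : SL(2, ℤ) ⧸ Γ, m x * (e' x - e' (S • x)) := by
  have h1 : ∀ x : SL(2, ℤ) ⧸ Γ, m ((S * T) • x) * (m' ((S * T) • x) - m' x)
      + (m ((S * T) • x) - m x) * e' x
      = m ((S * T) • x) * e' (S • (S * T) • x) - m x * e' x := by
    intro x
    rw [S_smul_ST_smul hneg]
    linear_combination -(m ((S * T) • x)) * he' x
  have h2 : ∑ x : SL(2, ℤ) ⧸ Γ, m ((S * T) • x) * e' (S • (S * T) • x)
      = ∑ x : SL(2, ℤ) ⧸ Γ, m x * e' (S • x) :=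
    Equiv.sum_comp (MulAction.toPerm (S * T : SL(2, ℤ))) (fun y => m y * e' (S • y))
  rw [Finset.sum_congr rfl fun x _ => h1 x, Finset.sum_sub_distrib, h2, ← Finset.sum_neg_distrib,
    ← Finset.sum_sub_distrib]
  refine Finset.sum_congr rfl fun x _ => ?_
  ring

end Final

/-! ## Torsion -/

section Torsion

variable {Γ : Subgroup SL(2, ℤ)} {R : Type*} [CommRing R]
  {C : SL(2, ℤ) → SL(2, ℤ) ⧸ Γ → Heis R}

lemma heisU_eq_one_of_fix (m m' : SL(2, ℤ) ⧸ Γ → R) (y : SL(2, ℤ) ⧸ Γ)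
    (hy : (S * T) • y = y) : heisU Γ m m' y = 1 := by
  ext <;> simp [heisU, hy]

lemma tw_neg (hC : IsTwCocycle C) (hS : ∀ x, C S x = 1) (g : SL(2, ℤ)) (x : SL(2, ℤ) ⧸ Γ) :
    C (-g) x = C g x := by
  rw [← neg_one_mul, hC, tw_neg_one hC hS, one_mul]

lemma neg_smul_quot (hneg : (-1 : SL(2, ℤ)) ∈ Γ) (g : SL(2, ℤ)) (x : SL(2, ℤ) ⧸ Γ) :
    (-g) • x = g • x := by
  rw [← neg_one_mul, mul_smul, neg_one_smul_quot hneg]

lemma ST_fix_of_sq_fix (hneg : (-1 : SL(2, ℤ)) ∈ Γ) (y : SL(2, ℤ) ⧸ Γ)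
    (hy : (S * T) ^ 2 • y = y) : (S * T) • y = y := by
  have h3 := ST_cube_smul hneg y
  rw [pow_two, mul_smul] at hy
  rw [hy] at h3
  exact h3

/-- The value of the Heisenberg cocycle at a torsion element fixing the point is trivial. -/
lemma tw_torsion_class (hneg : (-1 : SL(2, ℤ)) ∈ Γ) (hC : IsTwCocycle C) (hS : ∀ x, C S x = 1)
    (m m' : SL(2, ℤ) ⧸ Γ → R) (hU : ∀ x, C (S * T) x = heisU Γ m m' x)
    (ε : SL(2, ℤ)) (y : SL(2, ℤ) ⧸ Γ) (hy : ε • y = y)
    (hε : ε = 1 ∨ ε = -1 ∨ ε = S ∨ ε = -S ∨ ε = S * T ∨ ε = -(S * T) ∨ ε = (S * T) ^ 2 ∨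
      ε = -(S * T) ^ 2) : C ε y = 1 := by
  have hUU : ∀ z : SL(2, ℤ) ⧸ Γ, (S * T) • z = z → C ((S * T) ^ 2) z = 1 := by
    intro z hz
    rw [pow_two, hC, hz, hU, heisU_eq_one_of_fix m m' z hz, one_mul]
  rcases hε with rfl | rfl | rfl | rfl | rfl | rfl | rfl | rfl
  · exact hC.map_one y
  · exact tw_neg_one hC hS y
  · exact hS y
  · rw [tw_neg hC hS, hS]
  · rw [hU, heisU_eq_one_of_fix m m' y hy]
  · rw [neg_smul_quot hneg] at hy
    rw [tw_neg hC hS, hU, heisU_eq_one_of_fix m m' y hy]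
  · exact hUU y (ST_fix_of_sq_fix hneg y hy)
  · rw [neg_smul_quot hneg] at hy
    rw [tw_neg hC hS]
    exact hUU y (ST_fix_of_sq_fix hneg y hy)

end Torsion

/-! ## The theorem -/

universe u

/-- **Leaf HEIS** (`Spec.HeisLiftStatement`), from leaf TORS. -/
theorem heisLift_of (tors : TorsionClassStatement) : HeisLiftStatement.{u} := by
  intro Γ _ hneg R _ φ ψ m m' e e' hφ hψ he he'
  classical
  have : Fintype (SL(2, ℤ) ⧸ Γ) := Fintype.ofFinite _
  obtain ⟨f, ⟨hfc, hfS, hfU⟩, hfφ⟩ := hφ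
  obtain ⟨f', ⟨hfc', hfS', hfU'⟩, hfψ⟩ := hψ
  obtain ⟨C, hC, hCS, hCU⟩ := exists_heis_cocycle (R := R) hneg m m'
  have ha : ∀ g x, (C g x).a = f g x := by
    refine cocycle_eq_of_S_ST hC.isCocycle_a hfc ?_ ?_
    · funext x
      show (C S x).a = f S x
      rw [hCS, hfS, Heis.one_a]
    · funext x
      show (C (S * T) x).a = f (S * T) x
      rw [hCU, hfU]
      rfl
  have hb : ∀ g x, (C g x).b = f' g x := by
    refine cocycle_eq_of_S_ST hC.isCocycle_b hfc' ?_ ?_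
    · funext x
      show (C S x).b = f' S x
      rw [hCS, hfS', Heis.one_b]
    · funext x
      show (C (S * T) x).b = f' (S * T) x
      rw [hCU, hfU']
      rfl
  refine ⟨fun γ => (C (γ : SL(2, ℤ)) (basePt Γ)).c, ⟨?_, ?_⟩, ?_⟩
  · -- the Heisenberg relation
    intro γ γ'
    show (C ((γ * γ' : Γ) : SL(2, ℤ)) (basePt Γ)).c = _
    rw [Subgroup.coe_mul, hC, smul_basePt_of_mem Γ γ'.2, Heis.mul_c, ha, hb, hfφ, hfψ]
    rfl
  · -- torsion
    intro γ hγ
    have hγ' : IsOfFinOrder (γ : SL(2, ℤ)) := Γ.subtype.isOfFinOrder hγ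
    obtain ⟨h, hh⟩ := tors (γ : SL(2, ℤ)) hγ'
    set ε : SL(2, ℤ) := h * γ * h⁻¹ with hε
    have hγε : (γ : SL(2, ℤ)) = (h⁻¹)⁻¹⁻¹ * ε * h⁻¹⁻¹ := by
      rw [hε]; group
    have hmem : (h⁻¹)⁻¹⁻¹ * ε * h⁻¹⁻¹ ∈ Γ := by
      rw [← hγε]; exact γ.2
    have hfix := fix_of_conj_mem (Γ := Γ) (h⁻¹⁻¹) ε hmem
    have h1 : C ε (h⁻¹⁻¹ • basePt Γ) = 1 :=
      tw_torsion_class hneg hC hCS m m' hCU ε _ hfix hh
    show (C (γ : SL(2, ℤ)) (basePt Γ)).c = 0
    rw [hγε, tw_conj hC _ _ hfix, Heis.conj_one (hC.map_inv_mul _ _) h1, Heis.one_c]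
  · -- the β-formula
    intro ι _ γ h w hsys
    obtain ⟨hw, hγ, hbij⟩ := hsys
    rw [maninForm_eq_sum, ← sum_G_eq hneg m m' e' he', ← sum_orbit_system h w hbij]
    refine Finset.sum_congr rfl fun i _ => ?_
    have hmem : (h i)⁻¹ * T ^ (w i) * h i ∈ Γ := by
      rw [← hγ i]; exact (γ i).2
    have hfix := fix_of_conj_mem (Γ := Γ) (h i) (T ^ (w i)) hmem
    obtain ⟨hTa, hTb, hTc⟩ := tw_T_pow hC hCS m m' e e' hCU he he' (h i • basePt Γ) (w i)
    show (C ((γ i : Γ) : SL(2, ℤ)) (basePt Γ)).c = _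
    rw [hγ i, tw_conj hC _ _ hfix, Heis.conj_c (hC.map_inv_mul _ _)
      (by rw [hTa, hfix, sub_self]) (by rw [hTb, hfix, sub_self]), hTc, hfix, sub_self, mul_zero,
      sub_zero]

end Fermat.Agent.S41.H945

end
-- ===== PACK-END S41/H945/HeisLift.lean

-- ===== PACK-BEGIN S41/H769/CuspIndep.lean
section



/-!
# Row S41, block PD, leaf CUSP (helper769): CUSP-3 and CUSP-4

* `cuspSumIndep : Spec.CuspSumIndepStatement` — sums of class functions over two cusp systems agree;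
* `cuspSystemConjDelta : Spec.CuspSystemConjDeltaStatement` — `c_δ` maps cusp systems of `Γ₀(N q)` to
  cusp systems of `Γ' = δ Γ₀(N q) δ⁻¹`.

Reusable: `isCuspSystem_map_equiv` (transport of cusp systems along an isomorphism of subgroups
preserving positive parabolic elements), `conjDeltaR_injective`, `isPosParabolic_conjDeltaR_iff`.
-/

set_option autoImplicit false

namespace Fermat.Agent.S41.H769

open CongruenceSubgroup Matrix.SpecialLinearGroup ModularGroup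
open Fermat.Agent.S41.Spec
open scoped MatrixGroups

universe u

/-! ## CUSP-3 -/

/-- (CUSP-3) sums of class functions over two cusp systems agree. -/
theorem cuspSumIndep : CuspSumIndepStatement.{u} := by
  intro Γ A _ ζ hζ ι ι' _ _ γ γ' hγ hγ'
  classical
  have hf : ∀ i : ι, ∃! i' : ι', ∃ g : Γ, g * γ' i' * g⁻¹ = γ i :=
    fun i => hγ'.2 (γ i) (hγ.1 i)
  have hf' : ∀ i' : ι', ∃! i : ι, ∃ g : Γ, g * γ i * g⁻¹ = γ' i' :=
    fun i' => hγ.2 (γ' i') (hγ'.1 i')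
  choose f hf1 hf2 using hf
  choose f' hf'1 hf'2 using hf'
  have hleft : ∀ i, f' (f i) = i := by
    intro i
    obtain ⟨g₁, hg₁⟩ := hf1 i
    obtain ⟨g₂, hg₂⟩ := hf'1 (f i)
    have huniq := (hγ.2 (γ i) (hγ.1 i)).unique (y₁ := f' (f i)) (y₂ := i)
      ⟨g₁ * g₂, by rw [← hg₁, ← hg₂]; group⟩ ⟨1, by group⟩
    exact huniq
  have hright : ∀ i', f (f' i') = i' := by
    intro i'
    obtain ⟨g₁, hg₁⟩ := hf'1 i'
    obtain ⟨g₂, hg₂⟩ := hf1 (f' i')
    have huniq := (hγ'.2 (γ' i') (hγ'.1 i')).unique (y₁ := f (f' i')) (y₂ := i')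
      ⟨g₁ * g₂, by rw [← hg₁, ← hg₂]; group⟩ ⟨1, by group⟩
    exact huniq
  let e : ι ≃ ι' := ⟨f, f', hleft, hright⟩
  refine Fintype.sum_equiv e _ _ (fun i => ?_)
  obtain ⟨g, hg⟩ := hf1 i
  show ζ (γ i) = ζ (γ' (f i))
  rw [← hg]
  exact hζ g (γ' (f i)) (hγ'.1 (f i)).1

/-! ## Transport of cusp systems along isomorphisms -/

/-- Transport of primitivity along an isomorphism preserving positive parabolic elements. -/
theorem isPrimPosParabolic_map_equiv {Γ Γ' : Subgroup SL(2, ℤ)} (e : Γ ≃* Γ')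
    (hpos : ∀ γ : Γ, IsPosParabolic ((e γ : Γ') : SL(2, ℤ)) ↔ IsPosParabolic (γ : SL(2, ℤ)))
    (γ : Γ) : IsPrimPosParabolic Γ' (e γ) ↔ IsPrimPosParabolic Γ γ := by
  constructor
  · rintro ⟨h1, h2⟩
    refine ⟨(hpos γ).1 h1, fun γ' k hγ' hk => ?_⟩
    exact h2 (e γ') k ((hpos γ').2 hγ') (by rw [← map_pow, hk])
  · rintro ⟨h1, h2⟩
    refine ⟨(hpos γ).2 h1, fun γ' k hγ' hk => ?_⟩
    refine h2 (e.symm γ') k ((hpos _).1 (by simpa using hγ')) ?_
    apply e.injective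
    rw [map_pow, e.apply_symm_apply, hk]

/-- Transport of cusp systems along an isomorphism preserving positive parabolic elements. -/
theorem isCuspSystem_map_equiv {Γ Γ' : Subgroup SL(2, ℤ)} (e : Γ ≃* Γ')
    (hpos : ∀ γ : Γ, IsPosParabolic ((e γ : Γ') : SL(2, ℤ)) ↔ IsPosParabolic (γ : SL(2, ℤ)))
    {ι : Type} (γ : ι → Γ) (h : IsCuspSystem Γ γ) : IsCuspSystem Γ' (fun i => e (γ i)) := by
  refine ⟨fun i => (isPrimPosParabolic_map_equiv e hpos (γ i)).2 (h.1 i), fun γ' hγ' => ?_⟩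
  have hγ'' : IsPrimPosParabolic Γ (e.symm γ') := by
    rw [← isPrimPosParabolic_map_equiv e hpos, e.apply_symm_apply]
    exact hγ'
  obtain ⟨i, ⟨g, hg⟩, huniq⟩ := h.2 (e.symm γ') hγ''
  refine ⟨i, ⟨e g, ?_⟩, fun j hj => ?_⟩
  · show e g * e (γ i) * (e g)⁻¹ = γ'
    rw [← map_inv, ← map_mul, ← map_mul, hg, e.apply_symm_apply]
  · obtain ⟨g', hg'⟩ := hj
    refine huniq j ⟨e.symm g', ?_⟩
    apply e.injective
    rw [map_mul, map_mul, map_inv, e.apply_symm_apply, e.apply_symm_apply]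
    exact hg'

/-! ## CUSP-4 -/

theorem coe_conjDeltaR (N q : ℕ) (γ : Gamma0 (N * q)) :
    (((conjDeltaR N q γ : gamma0Delta N q) : SL(2, ℤ)) : Matrix (Fin 2) (Fin 2) ℤ) =
      conjDeltaMatrix q (γ : SL(2, ℤ)) := rfl

theorem conjDeltaR_injective (N q : ℕ) (hq : q ≠ 0) : Function.Injective (conjDeltaR N q) := by
  intro γ γ' h
  have hq' : (q : ℤ) ≠ 0 := by exact_mod_cast hq
  have hm : conjDeltaMatrix q (γ : SL(2, ℤ)) = conjDeltaMatrix q (γ' : SL(2, ℤ)) := by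
    rw [← coe_conjDeltaR, ← coe_conjDeltaR, h]
  obtain ⟨k, hk⟩ := (dvd_of_mem_gamma0_mul γ).1
  obtain ⟨k', hk'⟩ := (dvd_of_mem_gamma0_mul γ').1
  have h00 := congrFun (congrFun hm 0) 0
  have h01 := congrFun (congrFun hm 0) 1
  have h10 := congrFun (congrFun hm 1) 0
  have h11 := congrFun (congrFun hm 1) 1
  simp only [conjDeltaMatrix, Matrix.of_apply, Matrix.cons_val', Matrix.cons_val_zero,
    Matrix.cons_val_one, Matrix.cons_val_fin_one] at h00 h01 h10 h11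
  rw [hk, hk', Int.mul_ediv_cancel_left _ hq', Int.mul_ediv_cancel_left _ hq'] at h10
  apply Subtype.ext
  apply Subtype.ext
  ext i j
  fin_cases i <;> fin_cases j
  · exact h00
  · exact mul_left_cancel₀ hq' h01
  · show (γ : SL(2, ℤ)) 1 0 = (γ' : SL(2, ℤ)) 1 0
    rw [hk, hk', h10]
  · exact h11

theorem isPosParabolic_conjDeltaR_iff (N q : ℕ) (hq : q ≠ 0) (γ : Gamma0 (N * q)) :
    IsPosParabolic ((conjDeltaR N q γ : gamma0Delta N q) : SL(2, ℤ)) ↔
      IsPosParabolic (γ : SL(2, ℤ)) := by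
  have hq' : (0 : ℤ) < q := by exact_mod_cast Nat.pos_of_ne_zero hq
  obtain ⟨k, hk⟩ := (dvd_of_mem_gamma0_mul γ).1
  have hne : ((conjDeltaR N q γ : gamma0Delta N q) : SL(2, ℤ)) ≠ 1 ↔ (γ : SL(2, ℤ)) ≠ 1 := by
    rw [not_iff_not]
    constructor
    · intro h
      have h1 : conjDeltaR N q γ = 1 := Subtype.ext h
      have h2 : γ = 1 := conjDeltaR_injective N q hq (by rw [h1, map_one])
      rw [h2]; rfl
    · intro h
      have h2 : γ = 1 := Subtype.ext h
      rw [h2, map_one]; rfl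
  have e00 : ((conjDeltaR N q γ : gamma0Delta N q) : SL(2, ℤ)) 0 0 = (γ : SL(2, ℤ)) 0 0 := rfl
  have e01 : ((conjDeltaR N q γ : gamma0Delta N q) : SL(2, ℤ)) 0 1 = q * (γ : SL(2, ℤ)) 0 1 := rfl
  have e10 : ((conjDeltaR N q γ : gamma0Delta N q) : SL(2, ℤ)) 1 0 = (γ : SL(2, ℤ)) 1 0 / q := rfl
  have e11 : ((conjDeltaR N q γ : gamma0Delta N q) : SL(2, ℤ)) 1 1 = (γ : SL(2, ℤ)) 1 1 := rfl
  unfold IsPosParabolic
  rw [hne, Matrix.trace_fin_two, Matrix.trace_fin_two, e00, e01, e10, e11, hk,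
    Int.mul_ediv_cancel_left _ hq'.ne']
  constructor
  · rintro ⟨h1, h2, h3, h4⟩
    exact ⟨h1, h2, le_of_mul_le_mul_left (by simpa using h3) hq', by nlinarith⟩
  · rintro ⟨h1, h2, h3, h4⟩
    exact ⟨h1, h2, mul_nonneg hq'.le h3, by nlinarith⟩

/-- (CUSP-4) `c_δ` maps cusp systems of `Γ₀(N q)` to cusp systems of `Γ' = δ Γ₀(N q) δ⁻¹`. -/
theorem cuspSystemConjDelta : CuspSystemConjDeltaStatement := by
  intro N q _ hq ι γ hγ
  let e : Gamma0 (N * q) ≃* gamma0Delta N q :=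
    MulEquiv.ofBijective (conjDeltaR N q)
      ⟨conjDeltaR_injective N q hq, MonoidHom.rangeRestrict_surjective _⟩
  exact isCuspSystem_map_equiv e (fun γ => isPosParabolic_conjDeltaR_iff N q hq γ) γ hγ

end Fermat.Agent.S41.H769

end
-- ===== PACK-END S41/H769/CuspIndep.lean

-- ===== PACK-BEGIN S41/H41/GlueBasic.lean
section




/-!
# S41 GLUE, part 1 (helper41): reduction mod `p`, divisibility, linear structure of the operators
-/

set_option autoImplicit false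

namespace Fermat.Agent.S41.H41

open CongruenceSubgroup Fermat.Agent.S29.H642 Fermat.Agent.S41.Spec
open scoped MatrixGroups

section Red

variable {n : ℕ}

/-- Reduction of coefficients mod `p`. -/
def red (p : ℕ) (φ : Additive (Gamma0 n) →+ ℤ) : Additive (Gamma0 n) →+ ZMod p :=
  (Int.castAddHom (ZMod p)).comp φ

/-- Extension of coefficients to `ℂ`. -/
def toC (φ : Additive (Gamma0 n) →+ ℤ) : Additive (Gamma0 n) →+ ℂ :=
  (Int.castAddHom ℂ).comp φ

@[simp] theorem red_apply (p : ℕ) (φ : Additive (Gamma0 n) →+ ℤ) (γ : Additive (Gamma0 n)) :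
    red p φ γ = ((φ γ : ℤ) : ZMod p) := rfl

@[simp] theorem toC_apply (φ : Additive (Gamma0 n) →+ ℤ) (γ : Additive (Gamma0 n)) :
    toC φ γ = ((φ γ : ℤ) : ℂ) := rfl

theorem red_add (p : ℕ) (φ ψ : Additive (Gamma0 n) →+ ℤ) : red p (φ + ψ) = red p φ + red p ψ := by
  ext γ; simp

theorem red_sub (p : ℕ) (φ ψ : Additive (Gamma0 n) →+ ℤ) : red p (φ - ψ) = red p φ - red p ψ := by
  ext γ; simp

theorem red_zsmul (p : ℕ) (c : ℤ) (φ : Additive (Gamma0 n) →+ ℤ) :
    red p (c • φ) = (c : ZMod p) • red p φ := by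
  ext γ; simp

theorem red_p_smul (p : ℕ) (φ : Additive (Gamma0 n) →+ ℤ) : red p ((p : ℤ) • φ) = 0 := by
  ext γ; simp

theorem toC_add (φ ψ : Additive (Gamma0 n) →+ ℤ) : toC (φ + ψ) = toC φ + toC ψ := by
  ext γ; simp

theorem toC_zsmul (c : ℤ) (φ : Additive (Gamma0 n) →+ ℤ) : toC (c • φ) = c • toC φ := by
  ext γ; simp

theorem toC_injective : Function.Injective (toC : (Additive (Gamma0 n) →+ ℤ) → _) := by
  intro φ ψ h
  refine AddMonoidHom.ext fun γ => ?_
  have := DFunLike.congr_fun h γ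
  rw [toC_apply, toC_apply] at this
  exact_mod_cast this

theorem isCuspidal_comp {A B : Type*} [AddCommGroup A] [AddCommGroup B] (π : A →+ B)
    {φ : Additive (Gamma0 n) →+ A} (h : IsCuspidal φ) : IsCuspidal (π.comp φ) := by
  refine ⟨fun γ hγ => ?_, fun γ hγ => ?_⟩
  · show π (φ (Additive.ofMul γ)) = 0
    rw [h.1 γ hγ, map_zero]
  · show π (φ (Additive.ofMul γ)) = 0
    rw [h.2 γ hγ, map_zero]

theorem isCuspidal_red (p : ℕ) {φ : Additive (Gamma0 n) →+ ℤ} (h : IsCuspidal φ) :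
    IsCuspidal (red p φ) := isCuspidal_comp _ h

theorem isCuspidal_toC {φ : Additive (Gamma0 n) →+ ℤ} (h : IsCuspidal φ) :
    IsCuspidal (toC φ) := isCuspidal_comp _ h

theorem isCuspidal_zero {A : Type*} [AddCommGroup A] :
    IsCuspidal (0 : Additive (Gamma0 n) →+ A) := ⟨fun _ _ => rfl, fun _ _ => rfl⟩

theorem isCuspidal_add {A : Type*} [AddCommGroup A] {φ ψ : Additive (Gamma0 n) →+ A}
    (h : IsCuspidal φ) (h' : IsCuspidal ψ) : IsCuspidal (φ + ψ) := by
  refine ⟨fun γ hγ => ?_, fun γ hγ => ?_⟩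
  · show φ (Additive.ofMul γ) + ψ (Additive.ofMul γ) = 0
    rw [h.1 γ hγ, h'.1 γ hγ, add_zero]
  · show φ (Additive.ofMul γ) + ψ (Additive.ofMul γ) = 0
    rw [h.2 γ hγ, h'.2 γ hγ, add_zero]

/-- A class with values divisible by `p` is `p` times a class. -/
theorem exists_eq_smul_of_dvd {p : ℕ} (hp : p ≠ 0) (φ : Additive (Gamma0 n) →+ ℤ)
    (h : ∀ γ, (p : ℤ) ∣ φ γ) :
    ∃ z : Additive (Gamma0 n) →+ ℤ, φ = (p : ℤ) • z ∧ (IsCuspidal φ → IsCuspidal z) := by
  have hp' : (p : ℤ) ≠ 0 := by exact_mod_cast hp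
  refine ⟨⟨⟨fun γ => φ γ / (p : ℤ), by simp⟩, fun γ δ => ?_⟩, ?_, ?_⟩
  · show φ (γ + δ) / (p : ℤ) = φ γ / (p : ℤ) + φ δ / (p : ℤ)
    rw [map_add, Int.add_ediv_of_dvd_left (h γ)]
  · ext γ
    show φ γ = (p : ℤ) • (φ γ / (p : ℤ))
    rw [smul_eq_mul, Int.mul_ediv_cancel' (h γ)]
  · intro hc
    refine ⟨fun γ hγ => ?_, fun γ hγ => ?_⟩
    · show φ (Additive.ofMul γ) / (p : ℤ) = 0
      rw [hc.1 γ hγ, Int.zero_ediv]
    · show φ (Additive.ofMul γ) / (p : ℤ) = 0
      rw [hc.2 γ hγ, Int.zero_ediv]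

theorem exists_eq_smul_of_red_eq_zero {p : ℕ} (hp : p ≠ 0) (φ : Additive (Gamma0 n) →+ ℤ)
    (h : red p φ = 0) :
    ∃ z : Additive (Gamma0 n) →+ ℤ, φ = (p : ℤ) • z ∧ (IsCuspidal φ → IsCuspidal z) := by
  apply exists_eq_smul_of_dvd hp
  intro γ
  have := DFunLike.congr_fun h γ
  rw [red_apply, AddMonoidHom.zero_apply] at this
  exact (ZMod.intCast_zmod_eq_zero_iff_dvd _ _).mp this

theorem smul_left_injective_int {p : ℕ} (hp : p ≠ 0) {φ ψ : Additive (Gamma0 n) →+ ℤ}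
    (h : (p : ℤ) • φ = (p : ℤ) • ψ) : φ = ψ := by
  refine AddMonoidHom.ext fun γ => ?_
  have := DFunLike.congr_fun h γ
  change (p : ℤ) • φ γ = (p : ℤ) • ψ γ at this
  rw [smul_eq_mul, smul_eq_mul] at this
  exact mul_left_cancel₀ (by exact_mod_cast hp) this

end Red

section Hecke

variable {N l : ℕ} [Fact l.Prime] {A : Type*} [AddCommGroup A]

theorem heckeTransfer_zero (hl : ¬ l ∣ N) :
    heckeTransfer hl (0 : Additive (Gamma0 N) →+ A) = 0 := by
  have h := heckeTransfer_add hl (0 : Additive (Gamma0 N) →+ A) 0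
  rw [add_zero] at h
  exact left_eq_add.mp h

/-- `T_l` as an additive map. -/
noncomputable def heckeAdd (hl : ¬ l ∣ N) (A : Type*) [AddCommGroup A] :
    (Additive (Gamma0 N) →+ A) →+ (Additive (Gamma0 N) →+ A) :=
  AddMonoidHom.mk' (heckeTransfer hl) (heckeTransfer_add hl)

@[simp] theorem heckeAdd_apply (hl : ¬ l ∣ N) (φ : Additive (Gamma0 N) →+ A) :
    heckeAdd hl A φ = heckeTransfer hl φ := rfl

theorem heckeTransfer_zsmul (hl : ¬ l ∣ N) (c : ℤ) (φ : Additive (Gamma0 N) →+ A) :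
    heckeTransfer hl (c • φ) = c • heckeTransfer hl φ :=
  map_zsmul (heckeAdd hl A) c φ

theorem heckeTransfer_sub (hl : ¬ l ∣ N) (φ ψ : Additive (Gamma0 N) →+ A) :
    heckeTransfer hl (φ - ψ) = heckeTransfer hl φ - heckeTransfer hl ψ :=
  map_sub (heckeAdd hl A) φ ψ

theorem heckeTransfer_red (hl : ¬ l ∣ N) (p : ℕ) (φ : Additive (Gamma0 N) →+ ℤ) :
    heckeTransfer hl (red p φ) = red p (heckeTransfer hl φ) :=
  heckeTransfer_comp hl _ φ

theorem heckeTransfer_toC (hl : ¬ l ∣ N) (φ : Additive (Gamma0 N) →+ ℤ) :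
    heckeTransfer hl (toC φ) = toC (heckeTransfer hl φ) :=
  heckeTransfer_comp hl _ φ

theorem heckeTransfer_smul_field {F : Type*} [Field F] (hl : ¬ l ∣ N) (c : F)
    (φ : Additive (Gamma0 N) →+ F) :
    heckeTransfer hl (c • φ) = c • heckeTransfer hl φ := by
  have h := heckeTransfer_comp hl (AddMonoidHom.mulLeft c) φ
  have e1 : (AddMonoidHom.mulLeft c).comp φ = c • φ := by ext γ; simp
  have e2 : (AddMonoidHom.mulLeft c).comp (heckeTransfer hl φ) = c • heckeTransfer hl φ := by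
    ext γ; simp
  rw [e1, e2] at h
  exact h

/-- `T_l` as a `ℂ`-linear endomorphism. -/
noncomputable def heckeLinC (hl : ¬ l ∣ N) :
    Module.End ℂ (Additive (Gamma0 N) →+ ℂ) where
  toFun := heckeTransfer hl
  map_add' := heckeTransfer_add hl
  map_smul' c φ := heckeTransfer_smul_field hl c φ

@[simp] theorem heckeLinC_apply (hl : ¬ l ∣ N) (φ : Additive (Gamma0 N) →+ ℂ) :
    heckeLinC hl φ = heckeTransfer hl φ := rfl

end Hecke

end Fermat.Agent.S41.H41

end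
-- ===== PACK-END S41/H41/GlueBasic.lean

-- ===== PACK-BEGIN S41/H161/IK/Spec.lean
section




/-!
# Row S41, block IK (helper161): Ihara's lemma without amalgam / congruence subgroup property

Frozen statements of the block; mathematics in `coord/S41-IK.md` (origin/helper161).

For a pair `(φ₁, φ₂)` of characters of `Γ₀(N)` with `r₁ φ₁ + r₂ φ₂ = 0` (i.e. in the kernel of
`i : X_N² → X_{Nq}`), with values in an abelian group killed by an odd prime `p`, and `φ₁ ≠ 0`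
vanishing on `U = [[1,1],[0,1]]`, there is `γ₀ ∈ Γ₀(N)` with `φ₁ γ₀ ≠ 0` such that
`(T_l φ₁)(γ₀) = 2 φ₁(γ₀)` for every prime `l ∤ N q` with `l ≡ 1 mod c` (`c = (γ₀)₁₀`) for which some
power `q^{2k} ≡ 1 mod c` has order divisible by `p` in `(ℤ/l)ˣ`.
-/

set_option autoImplicit false

namespace Fermat.Agent.S41.H161

open CongruenceSubgroup Matrix.SpecialLinearGroup
open Fermat.Agent.S29.H642 Fermat.Agent.S41.Spec
open scoped MatrixGroups

universe u

/-- The unipotent `U = [[1, 1], [0, 1]]` as an element of `Γ₀(N)`. -/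
def upU (N : ℕ) : Gamma0 N :=
  ⟨⟨!![1, 1; 0, 1], by simp [Matrix.det_fin_two_of]⟩, by rw [Gamma0_mem]; simp⟩

/-- (IK-1, SWAP) the kernel of `r₁ + r₂` is stable under exchanging the two components. -/
def SwapStatement : Prop :=
  ∀ (N q : ℕ), q.Prime → ¬ q ∣ N → ∀ (A : Type u) [AddCommGroup A]
    (φ₁ φ₂ : Additive (Gamma0 N) →+ A),
    r₁ N q φ₁ + r₂ N q φ₂ = 0 → r₁ N q φ₂ + r₂ N q φ₁ = 0

/-- (IK-8, KUM) a sufficient condition for `p ∣ ord_l(q^M)`. -/
def KumStatement : Prop :=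
  ∀ (l p q M e : ℕ), l.Prime → p.Prime → l ≡ 1 [MOD p ^ (e + 1)] → ¬ p ^ (e + 1) ∣ M →
    (¬ ∃ x : ZMod l, x ^ p = (q : ZMod l)) → p ∣ orderOf ((q : ZMod l) ^ M)

/-- (IK) the main statement of the block. -/
def IKStatement : Prop :=
  ∀ (N q p : ℕ) [Fact q.Prime] [Fact p.Prime], p ≠ 2 → ¬ q ∣ N → 0 < N →
    ∀ (A : Type u) [AddCommGroup A], (∀ a : A, p • a = 0) →
    ∀ (φ₁ φ₂ : Additive (Gamma0 N) →+ A), r₁ N q φ₁ + r₂ N q φ₂ = 0 →
      φ₁ (Additive.ofMul (upU N)) = 0 → φ₁ ≠ 0 →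
    ∃ γ₀ : Gamma0 N, φ₁ (Additive.ofMul γ₀) ≠ 0 ∧ (γ₀ : SL(2, ℤ)) 1 0 ≠ 0 ∧
      ¬ (q : ℤ) ∣ (γ₀ : SL(2, ℤ)) 1 0 ∧
      ∀ (l : ℕ) [Fact l.Prime] (hl : ¬ l ∣ N), l ≠ q →
        (l : ℤ) ≡ 1 [ZMOD (γ₀ : SL(2, ℤ)) 1 0] →
        (∃ k : ℕ, (q : ℤ) ^ (2 * k) ≡ 1 [ZMOD (γ₀ : SL(2, ℤ)) 1 0] ∧
          p ∣ orderOf ((q : ZMod l) ^ (2 * k))) →
        heckeTransfer hl φ₁ (Additive.ofMul γ₀) = (2 : ℕ) • φ₁ (Additive.ofMul γ₀)

end Fermat.Agent.S41.H161

end
-- ===== PACK-END S41/H161/IK/Spec.lean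

-- ===== PACK-BEGIN S41/H161/IK/Basic.lean
section



/-!
# S41 / IK (helper161): elements of `Γ₀(N)` by entries, and the row lemma
-/

set_option autoImplicit false

namespace Fermat.Agent.S41.H161

open CongruenceSubgroup Matrix.SpecialLinearGroup
open Fermat.Agent.S29.H642 Fermat.Agent.S41.Spec
open scoped MatrixGroups

variable {N : ℕ}

/-- The element `[[a, b], [c, d]]` of `Γ₀(N)`. -/
def mk0 (N : ℕ) (a b c d : ℤ) (hdet : a * d - b * c = 1) (hc : (N : ℤ) ∣ c) : Gamma0 N :=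
  ⟨⟨!![a, b; c, d], by rw [Matrix.det_fin_two_of]; exact hdet⟩,
    mem_Gamma0_of_dvd (by simpa using hc)⟩

section entries

variable (a b c d : ℤ) (hdet : a * d - b * c = 1) (hc : (N : ℤ) ∣ c)

@[simp] theorem mk0_00 : ((mk0 N a b c d hdet hc : Gamma0 N) : SL(2, ℤ)) 0 0 = a := rfl
@[simp] theorem mk0_01 : ((mk0 N a b c d hdet hc : Gamma0 N) : SL(2, ℤ)) 0 1 = b := rfl
@[simp] theorem mk0_10 : ((mk0 N a b c d hdet hc : Gamma0 N) : SL(2, ℤ)) 1 0 = c := rfl
@[simp] theorem mk0_11 : ((mk0 N a b c d hdet hc : Gamma0 N) : SL(2, ℤ)) 1 1 = d := rfl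

end entries

theorem gamma0_ext {γ γ' : Gamma0 N}
    (h00 : (γ : SL(2, ℤ)) 0 0 = (γ' : SL(2, ℤ)) 0 0)
    (h01 : (γ : SL(2, ℤ)) 0 1 = (γ' : SL(2, ℤ)) 0 1)
    (h10 : (γ : SL(2, ℤ)) 1 0 = (γ' : SL(2, ℤ)) 1 0)
    (h11 : (γ : SL(2, ℤ)) 1 1 = (γ' : SL(2, ℤ)) 1 1) : γ = γ' := by
  apply Subtype.ext
  apply Subtype.ext
  ext i j
  fin_cases i <;> fin_cases j
  · exact h00
  · exact h01
  · exact h10
  · exact h11

theorem det_eq (γ : Gamma0 N) :
    (γ : SL(2, ℤ)) 0 0 * (γ : SL(2, ℤ)) 1 1 - (γ : SL(2, ℤ)) 0 1 * (γ : SL(2, ℤ)) 1 0 = 1 := by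
  have h := (γ : SL(2, ℤ)).det_coe
  rw [Matrix.det_fin_two] at h
  exact h

theorem dvd_10 (γ : Gamma0 N) : (N : ℤ) ∣ (γ : SL(2, ℤ)) 1 0 := dvd_of_mem_Gamma0 γ.2

theorem eq_mk0 (γ : Gamma0 N) :
    γ = mk0 N ((γ : SL(2, ℤ)) 0 0) ((γ : SL(2, ℤ)) 0 1) ((γ : SL(2, ℤ)) 1 0) ((γ : SL(2, ℤ)) 1 1)
      (det_eq γ) (dvd_10 γ) :=
  gamma0_ext rfl rfl rfl rfl

theorem mul_00 (γ γ' : Gamma0 N) : ((γ * γ' : Gamma0 N) : SL(2, ℤ)) 0 0 =
    (γ : SL(2, ℤ)) 0 0 * (γ' : SL(2, ℤ)) 0 0 + (γ : SL(2, ℤ)) 0 1 * (γ' : SL(2, ℤ)) 1 0 := by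
  simp [Matrix.mul_apply, Fin.sum_univ_two]

theorem mul_01 (γ γ' : Gamma0 N) : ((γ * γ' : Gamma0 N) : SL(2, ℤ)) 0 1 =
    (γ : SL(2, ℤ)) 0 0 * (γ' : SL(2, ℤ)) 0 1 + (γ : SL(2, ℤ)) 0 1 * (γ' : SL(2, ℤ)) 1 1 := by
  simp [Matrix.mul_apply, Fin.sum_univ_two]

theorem mul_10 (γ γ' : Gamma0 N) : ((γ * γ' : Gamma0 N) : SL(2, ℤ)) 1 0 =
    (γ : SL(2, ℤ)) 1 0 * (γ' : SL(2, ℤ)) 0 0 + (γ : SL(2, ℤ)) 1 1 * (γ' : SL(2, ℤ)) 1 0 := by
  simp [Matrix.mul_apply, Fin.sum_univ_two]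

theorem mul_11 (γ γ' : Gamma0 N) : ((γ * γ' : Gamma0 N) : SL(2, ℤ)) 1 1 =
    (γ : SL(2, ℤ)) 1 0 * (γ' : SL(2, ℤ)) 0 1 + (γ : SL(2, ℤ)) 1 1 * (γ' : SL(2, ℤ)) 1 1 := by
  simp [Matrix.mul_apply, Fin.sum_univ_two]

/-- Existence of an element of `Γ₀(N)` with prescribed bottom row. -/
theorem exists_row {c d : ℤ} (hcd : IsCoprime c d) (hc : (N : ℤ) ∣ c) :
    ∃ γ : Gamma0 N, (γ : SL(2, ℤ)) 1 0 = c ∧ (γ : SL(2, ℤ)) 1 1 = d := by
  obtain ⟨a, b, hab⟩ := hcd
  exact ⟨mk0 N b (-a) c d (by linear_combination hab) hc, rfl, rfl⟩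

theorem isCoprime_row (γ : Gamma0 N) : IsCoprime ((γ : SL(2, ℤ)) 1 0) ((γ : SL(2, ℤ)) 1 1) :=
  ⟨-(γ : SL(2, ℤ)) 0 1, (γ : SL(2, ℤ)) 0 0, by linear_combination det_eq γ⟩

theorem exists_mk0 (γ : Gamma0 N) :
    ∃ (a b c d : ℤ) (hdet : a * d - b * c = 1) (hc : (N : ℤ) ∣ c), γ = mk0 N a b c d hdet hc :=
  ⟨_, _, _, _, det_eq γ, dvd_10 γ, eq_mk0 γ⟩

section Row

variable {A : Type*} [AddCommGroup A]

/-- `[[1, x], [0, 1]]`. -/
def upZ (N : ℕ) (x : ℤ) : Gamma0 N := mk0 N 1 x 0 1 (by ring) (dvd_zero _)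

theorem upZ_add (x y : ℤ) : upZ N (x + y) = upZ N x * upZ N y := by
  apply gamma0_ext <;>
    simp only [upZ, mul_00, mul_01, mul_10, mul_11, mk0_00, mk0_01, mk0_10, mk0_11] <;> ring

theorem upZ_one : upZ N 1 = upU N := gamma0_ext rfl rfl rfl rfl

theorem upZ_zero : upZ N 0 = 1 := gamma0_ext rfl rfl rfl rfl

theorem apply_upZ (φ : Additive (Gamma0 N) →+ A) (hU : φ (Additive.ofMul (upU N)) = 0) (x : ℤ) :
    φ (Additive.ofMul (upZ N x)) = 0 := by
  let ψ : ℤ →+ A :=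
    { toFun := fun x => φ (Additive.ofMul (upZ N x))
      map_zero' := by simp [upZ_zero]
      map_add' := fun x y => by simp [upZ_add, ofMul_mul] }
  have h : ψ x = x • ψ 1 := by
    have := map_zsmul ψ x (1 : ℤ)
    simpa using this
  have h1 : ψ 1 = 0 := by
    show φ (Additive.ofMul (upZ N 1)) = 0
    rw [upZ_one]; exact hU
  show ψ x = 0
  rw [h, h1, smul_zero]

/-- **ROW**: a character killing `U` depends only on the bottom row `(c, d mod c)`. -/
theorem apply_eq_of_row (φ : Additive (Gamma0 N) →+ A) (hU : φ (Additive.ofMul (upU N)) = 0)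
    (γ γ' : Gamma0 N) (h10 : (γ' : SL(2, ℤ)) 1 0 = (γ : SL(2, ℤ)) 1 0)
    (h11 : (γ' : SL(2, ℤ)) 1 1 ≡ (γ : SL(2, ℤ)) 1 1 [ZMOD (γ : SL(2, ℤ)) 1 0]) :
    φ (Additive.ofMul γ') = φ (Additive.ofMul γ) := by
  obtain ⟨a, b, c, d, hdet, hc, rfl⟩ := exists_mk0 γ
  obtain ⟨a', b', c', d', hdet', hc', rfl⟩ := exists_mk0 γ'
  simp only [mk0_10, mk0_11] at h10 h11
  subst h10
  obtain ⟨s, hs⟩ : ∃ s : ℤ, d' = d + c' * s := by
    obtain ⟨s, hs⟩ := Int.modEq_iff_dvd.mp h11.symm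
    exact ⟨s, by linarith⟩
  subst hs
  have key : mk0 N a' b' c' (d + c' * s) hdet' hc' =
      upZ N (b' * a - a' * (b + a * s)) * (mk0 N a b c' d hdet hc * upZ N s) := by
    apply gamma0_ext <;>
      simp only [upZ, mul_00, mul_01, mul_10, mul_11, mk0_00, mk0_01, mk0_10, mk0_11]
    · linear_combination a * hdet' - a' * hdet
    · linear_combination (a * s + b) * hdet' - b' * hdet
    · ring
    · ring
  rw [key, ofMul_mul, ofMul_mul, map_add, map_add, apply_upZ φ hU, apply_upZ φ hU]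
  simp

end Row

end Fermat.Agent.S41.H161

end
-- ===== PACK-END S41/H161/IK/Basic.lean

-- ===== PACK-BEGIN S41/H161/IK/Kum.lean
section



/-!
# S41 / IK (helper161): KUM

If `l ≡ 1 mod p^(e+1)`, `p^(e+1) ∤ M` and `q` is not a `p`-th power in `ℤ/l`, then
`p ∣ ord_l(q^M)`.
-/

set_option autoImplicit false

namespace Fermat.Agent.S41.H161

theorem kum : KumStatement := by
  intro l p q M e hl hp hl1 hM hq
  have : Fact l.Prime := ⟨hl⟩
  -- `q ≠ 0` in `ZMod l`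
  have hq0 : ((q : ℕ) : ZMod l) ≠ 0 := by
    intro h
    exact hq ⟨0, by rw [h, zero_pow hp.ne_zero]⟩
  let qu : (ZMod l)ˣ := Units.mk0 (q : ZMod l) hq0
  obtain ⟨g, hg⟩ := IsCyclic.exists_monoid_generator (α := (ZMod l)ˣ)
  have hord : orderOf g = l - 1 := by
    rw [orderOf_eq_card_of_forall_mem_powers hg, Nat.card_eq_fintype_card, ZMod.card_units]
  obtain ⟨s, hs⟩ := (Submonoid.mem_powers_iff _ _).mp (hg qu)
  -- p^(e+1) ∣ l - 1
  have hdiv : p ^ (e + 1) ∣ l - 1 :=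
    (Nat.modEq_iff_dvd' hl.one_lt.le).mp hl1.symm
  by_contra hpn
  set n := orderOf ((q : ZMod l) ^ M) with hn
  have hn' : orderOf (qu ^ M) = n := by
    rw [hn, ← orderOf_units]
    simp [qu]
  have h1 : (qu ^ M) ^ n = 1 := by
    rw [← hn']; exact pow_orderOf_eq_one _
  rw [← hs, ← pow_mul, ← pow_mul] at h1
  have h2 : l - 1 ∣ s * M * n := by
    rw [← hord, mul_assoc]; exact orderOf_dvd_iff_pow_eq_one.mpr h1
  have h3 : p ^ (e + 1) ∣ s * M * n := dvd_trans hdiv h2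
  have hcopn : (p ^ (e + 1)).Coprime n :=
    Nat.Coprime.pow_left _ ((Nat.Prime.coprime_iff_not_dvd hp).mpr hpn)
  have h4 : p ^ (e + 1) ∣ s * M := hcopn.dvd_of_dvd_mul_right h3
  have hps : p ∣ s := by
    by_contra hps
    have hcops : (p ^ (e + 1)).Coprime s :=
      Nat.Coprime.pow_left _ ((Nat.Prime.coprime_iff_not_dvd hp).mpr hps)
    exact hM (hcops.dvd_of_dvd_mul_left h4)
  obtain ⟨s', rfl⟩ := hps
  apply hq
  refine ⟨((g ^ s' : (ZMod l)ˣ) : ZMod l), ?_⟩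
  have : ((g ^ s') ^ p : (ZMod l)ˣ) = qu := by
    rw [← pow_mul, mul_comm, hs]
  have h5 := congrArg (fun u : (ZMod l)ˣ => (u : ZMod l)) this
  simpa [qu] using h5

end Fermat.Agent.S41.H161

end
-- ===== PACK-END S41/H161/IK/Kum.lean

-- ===== PACK-BEGIN S59/H156/CoeffFrob.lean
section



/-!
# Row S59 — the two small inputs of `rt_of_mlt` (helper156)

* `coeffStatement : Arch.CoeffStatement`  (`ℤ_[p]` is a complete DVR of characteristic zero with
  finite residue field and `p ∈ 𝔪`);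
* `frobExistsStatement : Arch.FrobExistsStatement` (from `Fermat.Agent.S54.exists_frobenius`);
* `rt_of_curveRep_mlt : CurveRepStatement → SemistableMLTStatement → RTStatement`.
-/

set_option autoImplicit false

namespace Fermat.Agent.S59.H156

open Fermat.Agent.S59.Arch Fermat.Agent.S59.H239

/-- The residue field of `ℤ_[p]` is finite. -/
theorem finite_residueField_padicInt (p : ℕ) [Fact p.Prime] :
    Finite (IsLocalRing.ResidueField ℤ_[p]) := by
  haveI : Finite (ZMod p) := inferInstance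
  exact Finite.of_equiv (ZMod p) (PadicInt.residueField (p := p)).symm.toEquiv

/-- `p` lies in the maximal ideal of `ℤ_[p]`. -/
theorem natCast_mem_maximalIdeal_padicInt (p : ℕ) [Fact p.Prime] :
    (p : ℤ_[p]) ∈ IsLocalRing.maximalIdeal ℤ_[p] := by
  rw [PadicInt.maximalIdeal_eq_span_p]
  exact Ideal.subset_span rfl

/-- **COEFF.**  A coefficient ring exists for every prime `p`: `ℤ_[p]`. -/
theorem coeffStatement : CoeffStatement := by
  intro p hp
  haveI : Fact p.Prime := ⟨hp⟩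
  exact ⟨ℤ_[p], inferInstance, inferInstance, inferInstance, inferInstance,
    finite_residueField_padicInt p, inferInstance, natCast_mem_maximalIdeal_padicInt p⟩

/-- **FROB.**  Frobenius elements exist over every prime. -/
theorem frobExistsStatement : FrobExistsStatement :=
  fun ℓ hℓ => Fermat.Agent.S54.exists_frobenius ℓ hℓ

/-- (RT) from the curve representation and the modularity lifting theorem in point form. -/
theorem rt_of_curveRep_mlt (hE : CurveRepStatement) (hMLT : SemistableMLTStatement) :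
    RTStatement :=
  rt_of_mlt coeffStatement frobExistsStatement hE hMLT

end Fermat.Agent.S59.H156

end
-- ===== PACK-END S59/H156/CoeffFrob.lean

-- ===== PACK-BEGIN S59/H396/NodalLadder.lean
section



/-!
# CR-O, part A (helper396): the multiplication-by-`n` ladder on a NODAL cubic, in closed form

A Weierstrass cubic with a node at `x = x₀` has `b`-invariants
`b₂ = A - 12 x₀`, `b₄ = 6 x₀² - A x₀`, `b₆ = A x₀² - 4 x₀³`, `b₈ = 3 x₀⁴ - A x₀³`
(`Ψ₂Sq = (x - x₀)² (4 (x - x₀) + A)`, `c₄ = A²`).  Writing `x = x₀ + ξ` and `A = ξ (s - s⁻¹)²`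
the ladder `(N_k : D_k)` of `Fermat.Agent.S13.H891` is

  `D_k ξ (s - s⁻¹)² = ξ^(k²) (s^k - s^(-k))²`,   `N_k = x₀ D_k + ξ^(k²)`

(`lad_nodal`), hence `W_m (s - s⁻¹) = ξ^(2m²+2m) (s^(2m+1) - s^(-(2m+1)))` (`ladW_nodal`).
In characteristic `p`, for `2m+1 = p^j`, this gives the polynomial identity

  `polyW m = A^m (X - x₀)^(2m²+m)`        (`polyW_nodal_char_p`)

i.e. the `p^j`-division polynomial of a nodal cubic in characteristic `p` is a nonzero constant
times a power of `X - x₀`, of degree `(q² - q)/2 < (q² - 1)/2`.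
-/

set_option autoImplicit false

namespace Fermat.Agent.S59.H396

open Polynomial Fermat.Agent.S13.H891

section identities

variable {K : Type*} [Field K]

/-- even step, denominator -/
lemma dblD_nodal (x0 A4 Z D : K) :
    dblD (A4 - 12*x0) (6*x0^2 - A4*x0) (A4*x0^2 - 4*x0^3) (x0*D + Z) D
      = Z^2 * D * (4*Z + A4*D) := by
  simp only [dblD]; ring

/-- even step, numerator -/
lemma dblN_nodal (x0 A4 Z D : K) :
    dblN (6*x0^2 - A4*x0) (A4*x0^2 - 4*x0^3) (3*x0^4 - A4*x0^3) (x0*D + Z) D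
      = x0 * dblD (A4 - 12*x0) (6*x0^2 - A4*x0) (A4*x0^2 - 4*x0^3) (x0*D + Z) D + Z^4 := by
  simp only [dblD, dblN]; ring

/-- odd step, numerator -/
lemma addN_nodal (x0 A4 ξ Z1 Z2 D1 D2 : K) :
    addN (A4 - 12*x0) (6*x0^2 - A4*x0) (A4*x0^2 - 4*x0^3) (x0 + ξ) (x0*D1 + Z1) D1
        (x0*D2 + Z2) D2
      = x0 * addD (x0*D1 + Z1) D1 (x0*D2 + Z2) D2 +
        (2*Z1*Z2*(Z1*D2 + Z2*D1) + A4*Z1*Z2*D1*D2 - ξ*(Z1*D2 - Z2*D1)^2) := by
  simp only [addN, addD, addS, addW]; ring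

lemma addW_nodal (x0 Z1 Z2 D1 D2 : K) :
    addW (x0*D1 + Z1) D1 (x0*D2 + Z2) D2 = Z1*D2 - Z2*D1 := by
  simp only [addW]; ring

end identities

section closedForm

variable {K : Type*} [Field K] (x0 ξ s : K)

/-- **Closed form of the ladder on a nodal cubic.** -/
theorem lad_nodal (hs : s ≠ 0) (hξ : ξ ≠ 0) (hh : s - s⁻¹ ≠ 0) (k : ℕ) (hk : 1 ≤ k) :
    ladD (ξ * (s - s⁻¹)^2 - 12*x0) (6*x0^2 - ξ * (s - s⁻¹)^2*x0)
        (ξ * (s - s⁻¹)^2*x0^2 - 4*x0^3) (3*x0^4 - ξ * (s - s⁻¹)^2*x0^3) (x0 + ξ) k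
        * ξ * (s - s⁻¹)^2 = ξ^(k^2) * (s^k - s⁻¹^k)^2 ∧
    ladN (ξ * (s - s⁻¹)^2 - 12*x0) (6*x0^2 - ξ * (s - s⁻¹)^2*x0)
        (ξ * (s - s⁻¹)^2*x0^2 - 4*x0^3) (3*x0^4 - ξ * (s - s⁻¹)^2*x0^3) (x0 + ξ) k
      = x0 * ladD (ξ * (s - s⁻¹)^2 - 12*x0) (6*x0^2 - ξ * (s - s⁻¹)^2*x0)
        (ξ * (s - s⁻¹)^2*x0^2 - 4*x0^3) (3*x0^4 - ξ * (s - s⁻¹)^2*x0^3) (x0 + ξ) k + ξ^(k^2) := by
  set A4 : K := ξ * (s - s⁻¹)^2 with hA4
  set t : K := s⁻¹ with ht
  have hst : s * t = 1 := mul_inv_cancel₀ hs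
  have hc : ξ * (s - t)^2 ≠ 0 := mul_ne_zero hξ (pow_ne_zero 2 hh)
  clear_value A4 t
  refine ladder_induction (P := fun k =>
    ladD (A4 - 12*x0) (6*x0^2 - A4*x0) (A4*x0^2 - 4*x0^3) (3*x0^4 - A4*x0^3) (x0 + ξ) k
        * ξ * (s - t)^2 = ξ^(k^2) * (s^k - t^k)^2 ∧
    ladN (A4 - 12*x0) (6*x0^2 - A4*x0) (A4*x0^2 - 4*x0^3) (3*x0^4 - A4*x0^3) (x0 + ξ) k
      = x0 * ladD (A4 - 12*x0) (6*x0^2 - A4*x0) (A4*x0^2 - 4*x0^3) (3*x0^4 - A4*x0^3)
          (x0 + ξ) k + ξ^(k^2)) ?_ ?_ ?_ k hk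
  · -- k = 1
    refine ⟨?_, ?_⟩
    · rw [ladD_one]; ring
    · rw [ladN_one, ladD_one]; ring
  · -- doubling
    intro k hk ⟨hD, hN⟩
    have hST : s^k * t^k = 1 := by rw [← mul_pow, hst, one_pow]
    set D := ladD (A4 - 12*x0) (6*x0^2 - A4*x0) (A4*x0^2 - 4*x0^3) (3*x0^4 - A4*x0^3)
      (x0 + ξ) k with hDdef
    set Z := ξ^(k^2) with hZ
    set S := s^k with hS
    set T := t^k with hT
    have e1 : ξ^((2*k)^2) = Z^4 := by rw [hZ, ← pow_mul]; congr 1; ring
    have e2 : s^(2*k) = S^2 := by rw [hS, ← pow_mul]; congr 1; ring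
    have e3 : t^(2*k) = T^2 := by rw [hT, ← pow_mul]; congr 1; ring
    clear_value D Z S T
    have hD2 : ladD (A4 - 12*x0) (6*x0^2 - A4*x0) (A4*x0^2 - 4*x0^3) (3*x0^4 - A4*x0^3)
        (x0 + ξ) (2*k) = Z^2 * D * (4*Z + A4*D) := by
      rw [ladD_even _ _ _ _ _ k hk, hN, ← hDdef, dblD_nodal]
    refine ⟨?_, ?_⟩
    · rw [hD2, e1, e2, e3]
      have : Z^2 * D * (4*Z + A4*D) * ξ * (s - t)^2
          = Z^2 * (D * ξ * (s - t)^2) * (4*Z + D * ξ * (s - t)^2) := by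
        rw [hA4]; ring
      rw [this, hD]
      linear_combination (-4 * Z^4 * (S - T)^2) * hST
    · rw [ladN_even _ _ _ _ _ k hk, ladD_even _ _ _ _ _ k hk, hN, ← hDdef, dblN_nodal, e1]
  · -- addition
    intro k hk ⟨hD1, hN1⟩ ⟨hD2, hN2⟩
    have hST : s^k * t^k = 1 := by rw [← mul_pow, hst, one_pow]
    set D1 := ladD (A4 - 12*x0) (6*x0^2 - A4*x0) (A4*x0^2 - 4*x0^3) (3*x0^4 - A4*x0^3)
      (x0 + ξ) k with hD1def
    set D2 := ladD (A4 - 12*x0) (6*x0^2 - A4*x0) (A4*x0^2 - 4*x0^3) (3*x0^4 - A4*x0^3)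
      (x0 + ξ) (k+1) with hD2def
    set Z := ξ^(k^2) with hZ
    set B := ξ^k with hB
    set S := s^k with hS
    set T := t^k with hT
    have e1 : ξ^((k+1)^2) = Z * B^2 * ξ := by
      rw [hZ, hB, ← pow_mul, ← pow_add, ← pow_succ]; congr 1; ring
    have e2 : ξ^((2*k+1)^2) = Z^4 * B^4 * ξ := by
      rw [hZ, hB, ← pow_mul, ← pow_mul, ← pow_add, ← pow_succ]; congr 1; ring
    have e3 : s^(k+1) = S * s := pow_succ s k
    have e4 : t^(k+1) = T * t := pow_succ t k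
    have e5 : s^(2*k+1) = S^2 * s := by rw [hS, ← pow_mul, ← pow_succ]; congr 1; ring
    have e6 : t^(2*k+1) = T^2 * t := by rw [hT, ← pow_mul, ← pow_succ]; congr 1; ring
    clear_value D1 D2 Z B S T
    rw [e1, e3, e4] at hD2
    rw [e1] at hN2
    have hW : (Z * D2 - Z * B^2 * ξ * D1) * (ξ * (s - t)^2)
        = Z * (Z * B^2 * ξ) * ((S*s - T*t)^2 - (S - T)^2) := by
      linear_combination Z * hD2 - Z * B^2 * ξ * hD1
    have hWW : ((S*s - T*t)^2 - (S - T)^2) = (S^2 * s - T^2 * t) * (s - t) := by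
      linear_combination ((S - T)^2) * hst
    have hDodd : ladD (A4 - 12*x0) (6*x0^2 - A4*x0) (A4*x0^2 - 4*x0^3) (3*x0^4 - A4*x0^3)
        (x0 + ξ) (2*k+1) = (Z * D2 - Z * B^2 * ξ * D1)^2 := by
      rw [ladD_odd _ _ _ _ _ k hk, hN1, hN2, ← hD1def, ← hD2def, addD, addW_nodal]
    have hgoal1 : (Z * D2 - Z * B^2 * ξ * D1)^2 * ξ * (s - t)^2
        = Z^4 * B^4 * ξ * (S^2 * s - T^2 * t)^2 := by
      apply mul_right_cancel₀ hc
      have := congrArg (fun z => z^2) hW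
      simp only [hWW] at this
      linear_combination this
    refine ⟨?_, ?_⟩
    · rw [hDodd, e2, e5, e6]; exact hgoal1
    · rw [ladN_odd _ _ _ _ _ k hk, ladD_odd _ _ _ _ _ k hk, hN1, hN2, ← hD1def, ← hD2def,
        addN_nodal, e2]
      congr 1
      apply mul_right_cancel₀ (pow_ne_zero 2 hc)
      have h1 : D1 * (ξ * (s - t)^2) = Z * (S - T)^2 := by linear_combination hD1
      have h2 : D2 * (ξ * (s - t)^2) = Z * B^2 * ξ * (S*s - T*t)^2 := by linear_combination hD2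
      have key : (2 * (s - t)^2 * ((S*s - T*t)^2 + (S - T)^2)
          + (s - t)^2 * (S - T)^2 * (S*s - T*t)^2 - ((S*s - T*t)^2 - (S - T)^2)^2)
          = (s - t)^4 := by
        have hT' : T = S⁻¹ := eq_inv_of_mul_eq_one_right hST
        have hS0 : S ≠ 0 := left_ne_zero_of_mul_eq_one hST
        rw [hT', ht]
        field_simp
        ring
      have expand : (2*Z*(Z * B^2 * ξ)*(Z*D2 + (Z * B^2 * ξ)*D1) + A4*Z*(Z * B^2 * ξ)*D1*D2
            - ξ*(Z*D2 - (Z * B^2 * ξ)*D1)^2) * (ξ * (s - t)^2)^2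
          = 2*Z*(Z * B^2 * ξ)*(Z*(D2 * (ξ * (s - t)^2)) + (Z * B^2 * ξ)*(D1 * (ξ * (s - t)^2)))
              * (ξ * (s - t)^2)
            + (ξ * (s - t)^2) * Z*(Z * B^2 * ξ)*(D1 * (ξ * (s - t)^2)) * (D2 * (ξ * (s - t)^2))
            - ξ*(Z*(D2 * (ξ * (s - t)^2)) - (Z * B^2 * ξ)*(D1 * (ξ * (s - t)^2)))^2 := by
        rw [hA4]; ring
      rw [expand, h1, h2]
      linear_combination (Z^4 * B^4 * ξ^3) * key

/-- the `(2m+1)`-division polynomial `W_m = N_m D_{m+1} - N_{m+1} D_m` on a nodal cubic -/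
theorem ladW_nodal (hs : s ≠ 0) (hξ : ξ ≠ 0) (hh : s - s⁻¹ ≠ 0) (m : ℕ) (hm : 1 ≤ m) :
    addW
      (ladN (ξ * (s - s⁻¹)^2 - 12*x0) (6*x0^2 - ξ * (s - s⁻¹)^2*x0)
        (ξ * (s - s⁻¹)^2*x0^2 - 4*x0^3) (3*x0^4 - ξ * (s - s⁻¹)^2*x0^3) (x0 + ξ) m)
      (ladD (ξ * (s - s⁻¹)^2 - 12*x0) (6*x0^2 - ξ * (s - s⁻¹)^2*x0)
        (ξ * (s - s⁻¹)^2*x0^2 - 4*x0^3) (3*x0^4 - ξ * (s - s⁻¹)^2*x0^3) (x0 + ξ) m)
      (ladN (ξ * (s - s⁻¹)^2 - 12*x0) (6*x0^2 - ξ * (s - s⁻¹)^2*x0)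
        (ξ * (s - s⁻¹)^2*x0^2 - 4*x0^3) (3*x0^4 - ξ * (s - s⁻¹)^2*x0^3) (x0 + ξ) (m+1))
      (ladD (ξ * (s - s⁻¹)^2 - 12*x0) (6*x0^2 - ξ * (s - s⁻¹)^2*x0)
        (ξ * (s - s⁻¹)^2*x0^2 - 4*x0^3) (3*x0^4 - ξ * (s - s⁻¹)^2*x0^3) (x0 + ξ) (m+1))
      * (s - s⁻¹) = ξ^(2*m^2 + 2*m) * (s^(2*m+1) - s⁻¹^(2*m+1)) := by
  obtain ⟨hD1, hN1⟩ := lad_nodal x0 ξ s hs hξ hh m hm
  obtain ⟨hD2, hN2⟩ := lad_nodal x0 ξ s hs hξ hh (m+1) (by omega)
  rw [hN1, hN2, addW_nodal]
  set D1 := ladD (ξ * (s - s⁻¹)^2 - 12*x0) (6*x0^2 - ξ * (s - s⁻¹)^2*x0)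
        (ξ * (s - s⁻¹)^2*x0^2 - 4*x0^3) (3*x0^4 - ξ * (s - s⁻¹)^2*x0^3) (x0 + ξ) m
  set D2 := ladD (ξ * (s - s⁻¹)^2 - 12*x0) (6*x0^2 - ξ * (s - s⁻¹)^2*x0)
        (ξ * (s - s⁻¹)^2*x0^2 - 4*x0^3) (3*x0^4 - ξ * (s - s⁻¹)^2*x0^3) (x0 + ξ) (m+1)
  set t : K := s⁻¹ with ht
  have hst : s * t = 1 := mul_inv_cancel₀ hs
  have hST : s^m * t^m = 1 := by rw [← mul_pow, hst, one_pow]
  have e1 : ξ^((m+1)^2) = ξ^(m^2) * (ξ^m)^2 * ξ := by
    rw [← pow_mul, ← pow_add, ← pow_succ]; congr 1; ring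
  have e2 : ξ^(2*m^2 + 2*m) = (ξ^(m^2))^2 * (ξ^m)^2 := by
    rw [← pow_mul, ← pow_mul, ← pow_add]; congr 1; ring
  have e3 : s^(m+1) = s^m * s := pow_succ s m
  have e4 : t^(m+1) = t^m * t := pow_succ t m
  have e5 : s^(2*m+1) = (s^m)^2 * s := by rw [← pow_mul, ← pow_succ]; congr 1; ring
  have e6 : t^(2*m+1) = (t^m)^2 * t := by rw [← pow_mul, ← pow_succ]; congr 1; ring
  rw [e1, e3, e4] at hD2
  rw [e1, e2, e5, e6]
  generalize ξ^(m^2) = Z at *
  generalize ξ^m = B at *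
  generalize s^m = S at *
  generalize t^m = T at *
  clear_value D1 D2 t
  have hc : ξ * (s - t) ≠ 0 := mul_ne_zero hξ hh
  apply mul_right_cancel₀ hc
  linear_combination Z * hD2 - Z * B^2 * ξ * hD1 + (Z^2 * B^2 * ξ * (S - T)^2) * hst

end closedForm

section charP

variable {K : Type*} [Field K] (p : ℕ) [Fact p.Prime] [CharP K p]

/-- In characteristic `p`, for `2m+1 = p^j`: `W_m(x₀ + ξ) = A^m ξ^(2m²+m)` on a nodal cubic
(`A = ξ (s - s⁻¹)²`). -/
theorem eval_polyW_nodal_aux (x0 ξ s : K) (hs : s ≠ 0) (hξ : ξ ≠ 0) (hh : s - s⁻¹ ≠ 0)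
    (j m : ℕ) (hm : 1 ≤ m) (hq : 2*m+1 = p^j) :
    (polyW (ξ * (s - s⁻¹)^2 - 12*x0) (6*x0^2 - ξ * (s - s⁻¹)^2*x0)
        (ξ * (s - s⁻¹)^2*x0^2 - 4*x0^3) (3*x0^4 - ξ * (s - s⁻¹)^2*x0^3) m).eval (x0 + ξ)
      = (ξ * (s - s⁻¹)^2)^m * ξ^(2*m^2 + m) := by
  rw [eval_polyW]
  have h := ladW_nodal x0 ξ s hs hξ hh m hm
  have hpow : s^(2*m+1) - s⁻¹^(2*m+1) = (s - s⁻¹)^(2*m+1) := by
    rw [hq, sub_pow_char_pow]
  rw [hpow] at h
  apply mul_right_cancel₀ hh
  rw [h]
  have e1 : ξ^(2*m^2 + 2*m) = ξ^(2*m^2 + m) * ξ^m := by rw [← pow_add]; congr 1; ring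
  have e2 : (s - s⁻¹)^(2*m+1) = ((s - s⁻¹)^2)^m * (s - s⁻¹) := by
    rw [← pow_mul, ← pow_succ]
  rw [e1, e2, mul_pow]
  ring

variable [IsAlgClosed K]

/-- **The `p^j`-division polynomial of a nodal cubic in characteristic `p`.** -/
theorem polyW_nodal_char_p (x0 A4 : K) (hA : A4 ≠ 0) (j m : ℕ) (hm : 1 ≤ m)
    (hq : 2*m+1 = p^j) :
    polyW (A4 - 12*x0) (6*x0^2 - A4*x0) (A4*x0^2 - 4*x0^3) (3*x0^4 - A4*x0^3) m
      = C (A4^m) * (X - C x0)^(2*m^2 + m) := by
  apply Polynomial.eq_of_infinite_eval_eq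
  apply Set.Infinite.mono (s := {x : K | x ≠ x0})
  · intro x (hx : x ≠ x0)
    have hξ : x - x0 ≠ 0 := sub_ne_zero.mpr hx
    -- choose `h` with `h² = A4 / ξ` and `s` with `s - s⁻¹ = h`
    obtain ⟨h, hh2⟩ := IsAlgClosed.exists_pow_nat_eq (A4 / (x - x0)) (n := 2) (by norm_num)
    have hh0 : h ≠ 0 := by
      intro h0
      rw [h0, zero_pow (by norm_num)] at hh2
      exact (div_ne_zero hA hξ) hh2.symm
    obtain ⟨s, hsroot⟩ := IsAlgClosed.exists_root (X^2 - C h * X - 1 : K[X]) (by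
      have : (X^2 - C h * X - 1 : K[X]).natDegree = 2 := by
        compute_degree!
      rw [Polynomial.degree_eq_natDegree (by
        intro h0
        rw [h0] at this
        simp at this), this]
      norm_num)
    have hs2 : s^2 - h * s - 1 = 0 := by
      simpa [Polynomial.IsRoot] using hsroot
    have hs0 : s ≠ 0 := by
      intro h0
      rw [h0] at hs2
      norm_num at hs2
    have hsh : s - s⁻¹ = h := by
      field_simp
      linear_combination hs2
    have hA4 : (x - x0) * (s - s⁻¹)^2 = A4 := by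
      rw [hsh, hh2]
      field_simp
    have key := eval_polyW_nodal_aux p x0 (x - x0) s hs0 hξ (by rw [hsh]; exact hh0) j m hm hq
    rw [hA4] at key
    have hx' : x0 + (x - x0) = x := by ring
    rw [hx'] at key
    change (polyW (A4 - 12*x0) (6*x0^2 - A4*x0) (A4*x0^2 - 4*x0^3) (3*x0^4 - A4*x0^3) m).eval x
      = (C (A4^m) * (X - C x0)^(2*m^2 + m)).eval x
    rw [key]
    simp
  · have : {x : K | x ≠ x0} = ({x0} : Set K)ᶜ := by
      ext x; simp
    rw [this]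
    exact (Set.finite_singleton x0).infinite_compl

end charP

end Fermat.Agent.S59.H396

end
-- ===== PACK-END S59/H396/NodalLadder.lean

-- ===== PACK-BEGIN S59/H396/NodalParams.lean
section



/-!
# CR-O, part A' (helper396): every Weierstrass cubic with `Δ = 0`, `c₄ ≠ 0` is nodal in the
sense of `NodalLadder`, and its `p^j`-division polynomial in characteristic `p`

* `exists_nodal_params` : `Δ = 0`, `c₄ ≠ 0`, `2 ≠ 0` ⟹ `b₂ = A - 12 x₀`, `b₄ = 6 x₀² - A x₀`,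
  `b₆ = A x₀² - 4 x₀³`, `b₈ = 3 x₀⁴ - A x₀³` with `x₀ = (18 b₆ - b₂ b₄)/c₄`, `A = -c₆/c₄`, `A² = c₄`.
* `polyW_of_nodal` : over ANY field of characteristic `p ≠ 2`, for `2m+1 = p^j`, `m ≥ 1`:
  `polyW b₂ b₄ b₆ b₈ m = C (A^m) * (X - C x₀)^(2m²+m)`.
-/

set_option autoImplicit false

namespace Fermat.Agent.S59.H396

open Polynomial Fermat.Agent.S13.H891

variable {k : Type*} [Field k]

/-- the `x`-coordinate of the node -/
noncomputable def nodeX (W : WeierstrassCurve k) : k := (18 * W.b₆ - W.b₂ * W.b₄) / W.c₄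

/-- the slope parameter `A = 4 (x₀ - x₁)` of the node (`A² = c₄`) -/
noncomputable def nodeA (W : WeierstrassCurve k) : k := W.b₂ + 12 * nodeX W

theorem nodal_params (W : WeierstrassCurve k) (h2 : (2 : k) ≠ 0) (hΔ : W.Δ = 0)
    (hc4 : W.c₄ ≠ 0) :
    nodeA W ^ 2 = W.c₄ ∧ W.b₂ = nodeA W - 12 * nodeX W ∧
      W.b₄ = 6 * nodeX W ^ 2 - nodeA W * nodeX W ∧
      W.b₆ = nodeA W * nodeX W ^ 2 - 4 * nodeX W ^ 3 ∧
      W.b₈ = 3 * nodeX W ^ 4 - nodeA W * nodeX W ^ 3 := by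
  have h4 : (4 : k) ≠ 0 := by
    have : (4 : k) = 2 * 2 := by norm_num
    rw [this]; exact mul_ne_zero h2 h2
  have hrel := W.b_relation
  have hΔ' : -W.b₂ ^ 2 * W.b₈ - 8 * W.b₄ ^ 3 - 27 * W.b₆ ^ 2 + 9 * W.b₂ * W.b₄ * W.b₆ = 0 := by
    rw [← hΔ, WeierstrassCurve.Δ]
  have hc4def : W.c₄ = W.b₂ ^ 2 - 24 * W.b₄ := by rw [WeierstrassCurve.c₄]
  -- `4Δ` in terms of `b₂, b₄, b₆`
  have hD4 : -(W.b₂ ^ 2) * (W.b₂ * W.b₆ - W.b₄ ^ 2) - 32 * W.b₄ ^ 3 - 108 * W.b₆ ^ 2
      + 36 * W.b₂ * W.b₄ * W.b₆ = 0 := by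
    linear_combination 4 * hΔ' + W.b₂ ^ 2 * hrel
  set c := W.c₄ with hc
  set N := 18 * W.b₆ - W.b₂ * W.b₄ with hN
  have hx : nodeX W = N / c := rfl
  have hA : nodeA W = W.b₂ + 12 * (N / c) := rfl
  have e1 : 6 * N ^ 2 + W.b₂ * N * c + W.b₄ * c ^ 2 = 0 := by
    rw [hN, hc4def]
    linear_combination (-18 : k) * hD4
  have e2 : W.b₆ * c ^ 3 - W.b₂ * N ^ 2 * c - 8 * N ^ 3 = 0 := by
    rw [hN, hc4def]
    linear_combination (432 * W.b₆ - W.b₂ ^ 3) * hD4
  have e3 : (W.b₂ * c + 12 * N) ^ 2 - c ^ 3 = 0 := by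
    rw [hN, hc4def]
    linear_combination (-432 : k) * hD4
  have hb4 : W.b₄ = 6 * nodeX W ^ 2 - nodeA W * nodeX W := by
    rw [hA, hx]
    field_simp
    linear_combination e1
  have hb6 : W.b₆ = nodeA W * nodeX W ^ 2 - 4 * nodeX W ^ 3 := by
    rw [hA, hx]
    field_simp
    linear_combination e2
  refine ⟨?_, ?_, hb4, hb6, ?_⟩
  · rw [hA]
    field_simp
    linear_combination e3
  · rw [hA, hx]; ring
  · have hb2 : W.b₂ = nodeA W - 12 * nodeX W := by rw [hA, hx]; ring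
    apply mul_left_cancel₀ h4
    rw [hrel]
    conv_lhs => rw [hb2, hb4, hb6]
    ring

/-- **The `p^j`-division polynomial of a nodal cubic over any field of characteristic `p`.** -/
theorem polyW_of_nodal (p : ℕ) [Fact p.Prime] [CharP k p] (W : WeierstrassCurve k)
    (h2 : (2 : k) ≠ 0) (hΔ : W.Δ = 0) (hc4 : W.c₄ ≠ 0) (j m : ℕ) (hm : 1 ≤ m)
    (hq : 2 * m + 1 = p ^ j) :
    polyW W.b₂ W.b₄ W.b₆ W.b₈ m = C (nodeA W ^ m) * (X - C (nodeX W)) ^ (2 * m ^ 2 + m) := by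
  obtain ⟨hA2, hb2, hb4, hb6, hb8⟩ := nodal_params W h2 hΔ hc4
  have hA0 : nodeA W ≠ 0 := by
    intro h0
    rw [h0, zero_pow (by norm_num)] at hA2
    exact hc4 hA2.symm
  -- pass to the algebraic closure
  let φ : k →+* AlgebraicClosure k := algebraMap k (AlgebraicClosure k)
  have hinj : Function.Injective (Polynomial.map φ) :=
    Polynomial.map_injective φ (algebraMap k (AlgebraicClosure k)).injective
  apply hinj
  have : CharP (AlgebraicClosure k) p := charP_of_injective_algebraMap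
    (algebraMap k (AlgebraicClosure k)).injective p
  rw [map_polyW]
  have key := polyW_nodal_char_p (K := AlgebraicClosure k) p (φ (nodeX W)) (φ (nodeA W))
    (by rwa [Ne, map_eq_zero]) j m hm hq
  have e2 : φ W.b₂ = φ (nodeA W) - 12 * φ (nodeX W) := by
    conv_lhs => rw [hb2]
    simp only [map_sub, map_mul, map_pow, map_ofNat]
  have e4 : φ W.b₄ = 6 * φ (nodeX W) ^ 2 - φ (nodeA W) * φ (nodeX W) := by
    conv_lhs => rw [hb4]
    simp only [map_sub, map_mul, map_pow, map_ofNat]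
  have e6 : φ W.b₆ = φ (nodeA W) * φ (nodeX W) ^ 2 - 4 * φ (nodeX W) ^ 3 := by
    conv_lhs => rw [hb6]
    simp only [map_sub, map_mul, map_pow, map_ofNat]
  have e8 : φ W.b₈ = 3 * φ (nodeX W) ^ 4 - φ (nodeA W) * φ (nodeX W) ^ 3 := by
    conv_lhs => rw [hb8]
    simp only [map_sub, map_mul, map_pow, map_ofNat]
  rw [e2, e4, e6, e8, key]
  simp [Polynomial.map_pow]

end Fermat.Agent.S59.H396

end
-- ===== PACK-END S59/H396/NodalParams.lean

-- ===== PACK-BEGIN S14/H366/ValLam.lean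
section




/-!
# S14, block LOCAL-D (helper366): the valuation of `ζ - 1`

`A` is a valuation subring of a field `L` of characteristic zero lying over the prime `p`, and
`ζ` is a primitive `p`-th root of unity: `v (ζ - 1) ^ (p - 1) = v p`.
-/

set_option autoImplicit false
set_option linter.style.haveILetI false

namespace Fermat.Agent.S14.H366

variable {L : Type*} [Field L] {A : ValuationSubring L} {p : ℕ}

theorem val_geom_sum_le_one {x : L} (hx : A.valuation x ≤ 1) (m : ℕ) :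
    A.valuation (∑ i ∈ Finset.range m, x ^ i) ≤ 1 := by
  apply Valuation.map_sum_le
  intro i _
  rw [map_pow]
  exact pow_le_one₀ zero_le hx

theorem val_pow_sub_one_le {x : L} (hx : A.valuation x ≤ 1) (m : ℕ) :
    A.valuation (x ^ m - 1) ≤ A.valuation (x - 1) := by
  rw [← geom_sum_mul, map_mul]
  calc A.valuation (∑ i ∈ Finset.range m, x ^ i) * A.valuation (x - 1)
      ≤ 1 * A.valuation (x - 1) := by
        gcongr
        exact val_geom_sum_le_one hx m
    _ = A.valuation (x - 1) := one_mul _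

theorem val_root_eq_one {ζ : L} (hp : p.Prime) (hζ : IsPrimitiveRoot ζ p) :
    A.valuation ζ = 1 := by
  have h1 : A.valuation ζ ^ p = 1 := by rw [← map_pow, hζ.pow_eq_one, map_one]
  exact (pow_eq_one_iff_of_nonneg zero_le hp.ne_zero).mp h1

theorem val_root_pow_sub_one {ζ : L} (hp : p.Prime) (hζ : IsPrimitiveRoot ζ p) (j : ℕ)
    (hj : ¬ p ∣ j) : A.valuation (ζ ^ j - 1) = A.valuation (ζ - 1) := by
  have hζ1 : A.valuation ζ ≤ 1 := (val_root_eq_one hp hζ).le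
  refine le_antisymm (val_pow_sub_one_le hζ1 j) ?_
  have hcop : Nat.Coprime j p := ((Nat.Prime.coprime_iff_not_dvd hp).mpr hj).symm
  obtain ⟨m, -, hm⟩ := Nat.exists_mul_mod_eq_one_of_coprime hcop hp.one_lt
  have h2 : (ζ ^ j) ^ m = ζ := by
    rw [← pow_mul, ← pow_mod_orderOf, ← hζ.eq_orderOf, hm, pow_one]
  have h3 : A.valuation (ζ ^ j) ≤ 1 := by
    rw [map_pow]
    exact pow_le_one₀ zero_le hζ1
  have := val_pow_sub_one_le h3 m
  rwa [h2] at this

theorem val_lam_pow {ζ : L} (hp : p.Prime) (hζ : IsPrimitiveRoot ζ p) :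
    A.valuation (ζ - 1) ^ (p - 1) = A.valuation (p : L) := by
  obtain ⟨n, rfl⟩ : ∃ n, p = n + 1 := ⟨p - 1, (Nat.succ_pred_eq_of_pos hp.pos).symm⟩
  have h1 := hζ.prod_one_sub_pow_eq_order
  have h2 : ((n + 1 : ℕ) : L) = ∏ k ∈ Finset.range n, (1 - ζ ^ (k + 1)) := by
    rw [h1]
    push_cast
    rfl
  rw [h2, map_prod, Nat.add_sub_cancel]
  have h3 : ∀ k ∈ Finset.range n, A.valuation (1 - ζ ^ (k + 1)) = A.valuation (ζ - 1) := by
    intro k hk
    rw [← Valuation.map_neg, neg_sub]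
    apply val_root_pow_sub_one hp hζ
    intro hdvd
    have := Nat.le_of_dvd (Nat.succ_pos k) hdvd
    have := Finset.mem_range.mp hk
    omega
  rw [Finset.prod_congr rfl h3, Finset.prod_const, Finset.card_range]

theorem val_lam_lt_one {ζ : L} (hp : p.Prime) (hA : A.LiesOverPrime p)
    (hζ : IsPrimitiveRoot ζ p) : A.valuation (ζ - 1) < 1 := by
  by_contra hcon
  push Not at hcon
  have h1 : 1 ≤ A.valuation (ζ - 1) ^ (p - 1) := one_le_pow₀ hcon
  rw [val_lam_pow hp hζ] at h1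
  exact absurd (val_prime_lt_one hA) (not_lt.mpr h1)

theorem val_lam_ne_zero {ζ : L} (hp : p.Prime) (hζ : IsPrimitiveRoot ζ p) :
    A.valuation (ζ - 1) ≠ 0 := by
  rw [Valuation.ne_zero_iff]
  exact sub_ne_zero.mpr (hζ.ne_one hp.one_lt)

theorem val_prime_le_lam_pow {ζ : L} (hp : p.Prime) (hA : A.LiesOverPrime p)
    (hζ : IsPrimitiveRoot ζ p) {k : ℕ} (hk : k ≤ p - 1) :
    A.valuation (p : L) ≤ A.valuation (ζ - 1) ^ k := by
  rw [← val_lam_pow hp hζ]
  exact pow_le_pow_of_le_one zero_le (val_lam_lt_one hp hA hζ).le hk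

end Fermat.Agent.S14.H366

end
-- ===== PACK-END S14/H366/ValLam.lean

-- ===== PACK-BEGIN Ribet/H420/Resolvent.lean
section



/-!
# RIBET / ELOC-Frey (helper420), abstract part: Lagrange resolvents and valuations

`A` a valuation subring of a field `L` of characteristic `0`, `v` its valuation, `p` a prime,
`ζ ∈ L` a primitive `p`-th root of unity, `ψ a = ζ ^ a` the additive character of `ZMod p`.
For a family `X : ZMod p → L` put `γ j = ∑ i, ψ (i * j) * X i` (Lagrange resolvents).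

A value `g` is *tame* (`InTame`) if `g ^ (p - 1)` is an integral power of `v p`
(the value group of `K₀(ζ)` for an unramified `K₀`).

* `exists_resolvent_inTame` : if the valuations of all "fixed" elements are tame
  (in the sense of the hypotheses `hpow`, `hquot`) and `v (X a - X b)` is tame for some `a ≠ b`,
  then some resolvent `γ j`, `j ≠ 0`, is nonzero with tame valuation.
* `exists_unit_of_family` : the Galois form.  `𝓗` a set of field automorphisms fixing `ζ` and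
  permuting the `X i` by translations `i ↦ i + n s`; if all nonzero `𝓗`-fixed elements have tame
  valuation and `v (X a - X b)` is tame for some `a ≠ b`, there is a unit `y` of `A` with
  `y ^ p` fixed by `𝓗` such that `s y = y → n s = 0` for all `s ∈ 𝓗`.
-/

set_option autoImplicit false
set_option linter.unusedSectionVars false
set_option linter.style.haveILetI false

namespace Fermat.Agent.Ribet.H420

open Finset

variable {L : Type*} [Field L] [CharZero L] (A : ValuationSubring L) (p : ℕ)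

/-- `g ^ (p - 1)` is an integral power of `v p`. -/
def InTame (g : A.ValueGroup) : Prop :=
  ∃ k : ℤ, g ^ (p - 1) = A.valuation (p : L) ^ k

variable {A p}

lemma InTame.ne_zero [hp : Fact p.Prime] {g : A.ValueGroup} (h : InTame A p g) : g ≠ 0 := by
  obtain ⟨k, hk⟩ := h
  intro h0
  have hp1 : p - 1 ≠ 0 := by have := hp.out.two_le; omega
  rw [h0, zero_pow hp1] at hk
  have : A.valuation (p : L) ≠ 0 := by
    rw [Ne, map_eq_zero]; exact_mod_cast hp.out.ne_zero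
  exact zpow_ne_zero k this hk.symm

lemma inTame_one : InTame A p (1 : A.ValueGroup) := ⟨0, by simp⟩

lemma InTame.mul {g h : A.ValueGroup} (hg : InTame A p g) (hh : InTame A p h)
    (hp0 : A.valuation (p : L) ≠ 0) : InTame A p (g * h) := by
  obtain ⟨k, hk⟩ := hg
  obtain ⟨l, hl⟩ := hh
  exact ⟨k + l, by rw [mul_pow, hk, hl, zpow_add₀ hp0]⟩

lemma InTame.inv {g : A.ValueGroup} (hg : InTame A p g) : InTame A p g⁻¹ := by
  obtain ⟨k, hk⟩ := hg
  exact ⟨-k, by rw [inv_pow, hk, zpow_neg]⟩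

lemma InTame.zpow {g : A.ValueGroup} (hg : InTame A p g) (n : ℤ) : InTame A p (g ^ n) := by
  obtain ⟨k, hk⟩ := hg
  refine ⟨k * n, ?_⟩
  rw [← zpow_natCast, ← zpow_mul, mul_comm, zpow_mul, zpow_natCast, hk, zpow_mul]

lemma InTame.pow {g : A.ValueGroup} (hg : InTame A p g) (n : ℕ) : InTame A p (g ^ n) := by
  have := hg.zpow (n : ℤ)
  rwa [zpow_natCast] at this

lemma inTame_val_p : InTame A p (A.valuation (p : L)) :=
  ⟨(p - 1 : ℕ), by rw [zpow_natCast]⟩

/-- Bezout: if `g ^ a` and `g ^ p` are tame and `a` is prime to `p`, then `g` is tame. -/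
lemma inTame_of_pow_coprime [hp : Fact p.Prime] {g : A.ValueGroup} (hg0 : g ≠ 0) {a : ℕ}
    (ha : Nat.Coprime a p) (h1 : InTame A p (g ^ a)) (h2 : InTame A p (g ^ p)) :
    InTame A p g := by
  have hp0 : A.valuation (p : L) ≠ 0 := by
    rw [Ne, map_eq_zero]; exact_mod_cast hp.out.ne_zero
  have hb : (a : ℤ) * Nat.gcdA a p + (p : ℤ) * Nat.gcdB a p = 1 := by
    have := Nat.gcd_eq_gcd_ab a p
    rw [ha] at this
    exact_mod_cast this.symm
  have e : g = (g ^ a) ^ (Nat.gcdA a p) * (g ^ p) ^ (Nat.gcdB a p) := by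
    rw [← zpow_natCast g a, ← zpow_natCast g p, ← zpow_mul, ← zpow_mul, ← zpow_add₀ hg0, hb,
      zpow_one]
  rw [e]
  exact (h1.zpow _).mul (h2.zpow _) hp0


/-! ### The character `a ↦ ζ ^ a` -/

section character

variable [hp : Fact p.Prime] {ζ : L} (hζ : IsPrimitiveRoot ζ p)

/-- the additive character `a ↦ ζ ^ a` of `ZMod p` -/
noncomputable def resChar (hζ : IsPrimitiveRoot ζ p) : AddChar (ZMod p) L :=
  haveI : NeZero p := ⟨hp.out.ne_zero⟩
  AddChar.zmodChar p hζ.pow_eq_one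

lemma resChar_apply (a : ZMod p) : resChar hζ a = ζ ^ a.val := by
  haveI : NeZero p := ⟨hp.out.ne_zero⟩
  exact AddChar.zmodChar_apply _ a

lemma resChar_isPrimitive : (resChar hζ).IsPrimitive := by
  haveI : NeZero p := ⟨hp.out.ne_zero⟩
  exact AddChar.zmodChar_primitive_of_primitive_root p hζ

lemma resChar_eq_one_iff (a : ZMod p) : resChar hζ a = 1 ↔ a = 0 := by
  haveI : NeZero p := ⟨hp.out.ne_zero⟩
  exact (resChar_isPrimitive hζ).zmod_char_eq_one_iff p a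

lemma resChar_pow_p (a : ZMod p) : resChar hζ a ^ p = 1 := by
  rw [resChar_apply, ← pow_mul, mul_comm, pow_mul, hζ.pow_eq_one, one_pow]

lemma resChar_ne_zero (a : ZMod p) : resChar hζ a ≠ 0 := by
  intro h
  have := resChar_pow_p hζ a
  rw [h, zero_pow hp.out.ne_zero] at this
  exact zero_ne_one this

lemma val_resChar (a : ZMod p) : A.valuation (resChar hζ a) = 1 := by
  have h1 : A.valuation (resChar hζ a) ^ p = 1 := by
    rw [← map_pow, resChar_pow_p, map_one]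
  exact (pow_eq_one_iff_of_nonneg zero_le hp.out.ne_zero).mp h1

lemma map_resChar (s : L →+* L) (hs : s ζ = ζ) (a : ZMod p) :
    s (resChar hζ a) = resChar hζ a := by
  rw [resChar_apply, map_pow, hs]

/-- `v (ψ a - ψ b) = v (ζ - 1)` for `a ≠ b`. -/
lemma val_resChar_sub {a b : ZMod p} (hab : a ≠ b) :
    A.valuation (resChar hζ a - resChar hζ b) = A.valuation (ζ - 1) := by
  have e : resChar hζ a - resChar hζ b = resChar hζ b * (resChar hζ (a - b) - 1) := by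
    rw [mul_sub, mul_one, ← AddChar.map_add_eq_mul, add_sub_cancel]
  rw [e, map_mul, val_resChar, one_mul, resChar_apply]
  apply Fermat.Agent.S14.H366.val_root_pow_sub_one hp.out hζ
  intro hdvd
  have hlt : (a - b).val < p := ZMod.val_lt _
  have h0 : (a - b).val = 0 := Nat.eq_zero_of_dvd_of_lt hdvd hlt
  haveI : NeZero p := ⟨hp.out.ne_zero⟩
  rw [ZMod.val_eq_zero] at h0
  exact hab (sub_eq_zero.mp h0)

include hζ in
lemma val_zeta_sub_one_ne_zero : A.valuation (ζ - 1) ≠ 0 := by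
  rw [Ne, map_eq_zero, sub_eq_zero]
  exact hζ.ne_one hp.out.one_lt

include hζ in
lemma inTame_val_zeta_sub_one : InTame A p (A.valuation (ζ - 1)) :=
  ⟨1, by rw [Fermat.Agent.S14.H366.val_lam_pow hp.out hζ, zpow_one]⟩

end character

/-! ### Resolvents -/

section resolvent

variable [hp : Fact p.Prime]

/-- the Lagrange resolvent `∑ i, ψ (i * j) * X i` -/
noncomputable def resolvent (ψ : AddChar (ZMod p) L) (X : ZMod p → L) (j : ZMod p) : L :=
  ∑ i : ZMod p, ψ (i * j) * X i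

/-- Fourier inversion. -/
lemma sum_resolvent {ψ : AddChar (ZMod p) L} (hψ : ψ.IsPrimitive) (X : ZMod p → L)
    (a : ZMod p) :
    ∑ j : ZMod p, ψ (-(a * j)) * resolvent ψ X j = (p : L) * X a := by
  classical
  simp only [resolvent, Finset.mul_sum]
  rw [Finset.sum_comm]
  have h1 : ∀ i : ZMod p, ∑ j : ZMod p, ψ (-(a * j)) * (ψ (i * j) * X i)
      = (if i - a = 0 then (p : L) else 0) * X i := by
    intro i
    have h := AddChar.sum_mulShift (i - a) hψ
    rw [ZMod.card] at h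
    have h2 : ∀ j : ZMod p, ψ (-(a * j)) * (ψ (i * j) * X i) = ψ (j * (i - a)) * X i := by
      intro j
      rw [← mul_assoc, ← AddChar.map_add_eq_mul]
      congr 2
      ring
    simp only [h2]
    rw [← Finset.sum_mul, h]
    split_ifs <;> simp
  simp only [h1, sub_eq_zero]
  rw [Finset.sum_eq_single a]
  · simp
  · intro b _ hb
    simp [hb]
  · intro h
    exact absurd (Finset.mem_univ a) h

lemma sum_resolvent_sub {ψ : AddChar (ZMod p) L} (hψ : ψ.IsPrimitive) (X : ZMod p → L)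
    (a b : ZMod p) :
    ∑ j : ZMod p, (ψ (-(a * j)) - ψ (-(b * j))) * resolvent ψ X j = (p : L) * (X a - X b) := by
  simp only [sub_mul]
  rw [Finset.sum_sub_distrib, sum_resolvent hψ, sum_resolvent hψ, mul_sub]

/-- the action of an automorphism translating the family on the resolvents -/
lemma map_resolvent {ψ : AddChar (ZMod p) L} (s : L →+* L) (hs : ∀ a, s (ψ a) = ψ a)
    (X : ZMod p → L) (n : ZMod p) (hX : ∀ i, s (X i) = X (i + n)) (j : ZMod p) :
    s (resolvent ψ X j) = ψ (-(n * j)) * resolvent ψ X j := by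
  simp only [resolvent, map_sum, map_mul, hs, hX, Finset.mul_sum]
  refine Fintype.sum_equiv (Equiv.addRight n) _ _ ?_
  intro i
  simp only [Equiv.coe_addRight]
  rw [← mul_assoc, ← AddChar.map_add_eq_mul]
  congr 2
  ring


/-- **Resolvent lemma.**  If the `p`-th powers of the resolvents and the quotients
`γ j / γ j' ^ k` (`j = k j'`) have tame valuation, and `X a - X b` has tame valuation for some
`a ≠ b`, then some resolvent `γ j`, `j ≠ 0`, is nonzero with tame valuation. -/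
theorem exists_resolvent_inTame {ζ : L} (hζ : IsPrimitiveRoot ζ p) (X : ZMod p → L)
    (hpow : ∀ j : ZMod p, resolvent (resChar hζ) X j ≠ 0 →
      InTame A p (A.valuation (resolvent (resChar hζ) X j) ^ p))
    (hquot : ∀ j j' : ZMod p, j' ≠ 0 → resolvent (resChar hζ) X j ≠ 0 →
      resolvent (resChar hζ) X j' ≠ 0 →
      InTame A p (A.valuation (resolvent (resChar hζ) X j) /
        A.valuation (resolvent (resChar hζ) X j') ^ (j / j').val))
    {a b : ZMod p} (hab : a ≠ b) (hdiff : InTame A p (A.valuation (X a - X b))) :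
    ∃ j : ZMod p, j ≠ 0 ∧ resolvent (resChar hζ) X j ≠ 0 ∧
      InTame A p (A.valuation (resolvent (resChar hζ) X j)) := by
  classical
  haveI : NeZero p := ⟨hp.out.ne_zero⟩
  set ψ := resChar hζ with hψdef
  set γ := resolvent ψ X with hγdef
  set v := A.valuation with hvdef
  have hψ : ψ.IsPrimitive := resChar_isPrimitive hζ
  have hp0 : v (p : L) ≠ 0 := by
    rw [Ne, map_eq_zero]; exact_mod_cast hp.out.ne_zero
  by_contra hcon
  push Not at hcon
  -- the coefficients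
  set c : ZMod p → L := fun j => ψ (-(a * j)) - ψ (-(b * j)) with hc
  have hsum : ∑ j : ZMod p, c j * γ j = (p : L) * (X a - X b) := sum_resolvent_sub hψ X a b
  have hc0 : c 0 = 0 := by simp [hc]
  have hcv : ∀ j : ZMod p, j ≠ 0 → v (c j) = v (ζ - 1) := by
    intro j hj
    apply val_resChar_sub hζ
    intro h
    have h1 : a * j = b * j := neg_injective h
    exact hab (mul_right_cancel₀ hj h1)
  have hε0 : v (ζ - 1) ≠ 0 := val_zeta_sub_one_ne_zero hζ
  have hXab : X a - X b ≠ 0 := by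
    intro h
    have := hdiff.ne_zero
    rw [h, map_zero] at this
    exact this rfl
  -- the set of relevant indices
  set J : Finset (ZMod p) := Finset.univ.filter (fun j => j ≠ 0 ∧ γ j ≠ 0) with hJ
  have hJne : J.Nonempty := by
    by_contra hne
    rw [Finset.not_nonempty_iff_eq_empty] at hne
    have hall : ∀ j : ZMod p, c j * γ j = 0 := by
      intro j
      by_cases hj : j = 0
      · rw [hj, hc0, zero_mul]
      · by_cases hg : γ j = 0
        · rw [hg, mul_zero]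
        · exfalso
          have : j ∈ J := by rw [hJ, Finset.mem_filter]; exact ⟨Finset.mem_univ _, hj, hg⟩
          rw [hne] at this
          exact absurd this (Finset.notMem_empty _)
    rw [Finset.sum_eq_zero (fun j _ => hall j)] at hsum
    have hpL : (p : L) ≠ 0 := by exact_mod_cast hp.out.ne_zero
    exact (mul_ne_zero hpL hXab) hsum.symm
  obtain ⟨j₀, hj₀J, hmax⟩ := Finset.exists_max_image J (fun j => v (γ j)) hJne
  have hj₀ : j₀ ≠ 0 ∧ γ j₀ ≠ 0 := by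
    rw [hJ, Finset.mem_filter] at hj₀J; exact hj₀J.2
  have hnot : ¬ InTame A p (v (γ j₀)) := hcon j₀ hj₀.1 hj₀.2
  have hg0 : v (γ j₀) ≠ 0 := by rw [Ne, map_eq_zero]; exact hj₀.2
  -- strict maximality
  have hstrict : ∀ j ∈ J, j ≠ j₀ → v (γ j) < v (γ j₀) := by
    intro j hjJ hjne
    have hj : j ≠ 0 ∧ γ j ≠ 0 := by
      rw [hJ, Finset.mem_filter] at hjJ; exact hjJ.2
    refine lt_of_le_of_ne (hmax j hjJ) ?_
    intro heq
    apply hnot
    have hq := hquot j j₀ hj₀.1 hj.2 hj₀.2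
    rw [heq] at hq
    set k : ℕ := (j / j₀).val with hk
    have hk1 : k ≠ 1 := by
      intro h1
      have : j / j₀ = 1 := by
        have h2 : ((j / j₀).val : ZMod p) = ((1 : ℕ) : ZMod p) := by rw [← hk, h1]
        rwa [ZMod.natCast_zmod_val, Nat.cast_one] at h2
      rw [div_eq_one_iff_eq hj₀.1] at this
      exact hjne this
    have hklt : k < p := ZMod.val_lt _
    rcases Nat.eq_zero_or_pos k with hk0 | hkpos
    · rw [hk0, pow_zero, div_one] at hq
      exact hq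
    · have hk2 : 2 ≤ k := by omega
      have hq' : InTame A p (v (γ j₀) ^ (k - 1)) := by
        have e : v (γ j₀) ^ (k - 1) = (v (γ j₀) / v (γ j₀) ^ k)⁻¹ := by
          rw [inv_div, eq_div_iff hg0]
          rw [← pow_succ]
          congr 1
          omega
        rw [e]
        exact hq.inv
      have hcop : Nat.Coprime (k - 1) p := by
        rw [Nat.coprime_comm, Nat.Prime.coprime_iff_not_dvd hp.out]
        intro hdvd
        have := Nat.le_of_dvd (by omega) hdvd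
        omega
      exact inTame_of_pow_coprime hg0 hcop hq' (hpow j₀ hj₀.2)
  -- the dominant term
  have hdom : v (∑ j : ZMod p, c j * γ j) = v (c j₀ * γ j₀) := by
    apply Valuation.map_sum_eq_of_lt v (Finset.mem_univ j₀)
    intro j hj
    rw [Finset.mem_sdiff, Finset.mem_singleton] at hj
    have hpos : 0 < v (c j₀ * γ j₀) := by
      rw [map_mul, hcv j₀ hj₀.1]
      exact mul_pos (zero_lt_iff.mpr hε0) (zero_lt_iff.mpr hg0)
    by_cases hj0 : j = 0
    · rw [hj0, hc0, zero_mul, map_zero]; exact hpos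
    by_cases hg : γ j = 0
    · rw [hg, mul_zero, map_zero]; exact hpos
    have hjJ : j ∈ J := by rw [hJ, Finset.mem_filter]; exact ⟨Finset.mem_univ _, hj0, hg⟩
    rw [map_mul, map_mul, hcv j hj0, hcv j₀ hj₀.1]
    exact mul_lt_mul_of_pos_left (hstrict j hjJ hj.2) (zero_lt_iff.mpr hε0)
  rw [hsum, map_mul, map_mul, hcv j₀ hj₀.1] at hdom
  apply hnot
  have e : v (γ j₀) = v (p : L) * v (X a - X b) * (v (ζ - 1))⁻¹ := by
    rw [hdom, mul_comm (v (ζ - 1)), mul_assoc, mul_inv_cancel₀ hε0, mul_one]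
  rw [e]
  exact ((inTame_val_p).mul hdiff hp0).mul (inTame_val_zeta_sub_one hζ).inv hp0

/-- **Galois form.**  `𝓗` a set of automorphisms of `L` fixing `ζ` and translating the family
`X` (`s (X i) = X (i + n s)`).  If every nonzero `𝓗`-fixed element has tame valuation and
`X a - X b` has tame valuation for some `a ≠ b`, then there is a unit `y` of `A` with `y ^ p`
fixed by `𝓗` which detects `n`: `s y = y → n s = 0`. -/
theorem exists_unit_of_family {G : Type*} (act : G → L →+* L) (𝓗 : Set G) (n : G → ZMod p)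
    {ζ : L} (hζ : IsPrimitiveRoot ζ p) (hfixζ : ∀ s ∈ 𝓗, act s ζ = ζ)
    (X : ZMod p → L) (hX : ∀ s ∈ 𝓗, ∀ i, act s (X i) = X (i + n s))
    (hVG : ∀ a : L, a ≠ 0 → (∀ s ∈ 𝓗, act s a = a) → InTame A p (A.valuation a))
    {a b : ZMod p} (hab : a ≠ b) (hdiff : InTame A p (A.valuation (X a - X b))) :
    ∃ y : L, A.valuation y = 1 ∧ (∀ s ∈ 𝓗, act s (y ^ p) = y ^ p) ∧
      ∀ s ∈ 𝓗, act s y = y → n s = 0 := by
  classical
  haveI : NeZero p := ⟨hp.out.ne_zero⟩
  set ψ := resChar hζ with hψdef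
  set γ := resolvent ψ X with hγdef
  have hp0 : A.valuation (p : L) ≠ 0 := by
    rw [Ne, map_eq_zero]; exact_mod_cast hp.out.ne_zero
  have hpL : (p : L) ≠ 0 := by exact_mod_cast hp.out.ne_zero
  have hact : ∀ s ∈ 𝓗, ∀ j, act s (γ j) = ψ (-(n s * j)) * γ j := fun s hs j =>
    map_resolvent (act s) (fun a => map_resChar hζ (act s) (hfixζ s hs) a) X (n s) (hX s hs) j
  have hpow : ∀ j : ZMod p, γ j ≠ 0 → InTame A p (A.valuation (γ j) ^ p) := by
    intro j hj
    rw [← map_pow]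
    apply hVG _ (pow_ne_zero _ hj)
    intro s hs
    rw [map_pow, hact s hs, mul_pow, resChar_pow_p, one_mul]
  have hquot : ∀ j j' : ZMod p, j' ≠ 0 → γ j ≠ 0 → γ j' ≠ 0 →
      InTame A p (A.valuation (γ j) / A.valuation (γ j') ^ (j / j').val) := by
    intro j j' hj' hg hg'
    rw [← map_pow, ← map_div₀]
    apply hVG _ (div_ne_zero hg (pow_ne_zero _ hg'))
    intro s hs
    rw [map_div₀, map_pow, hact s hs, hact s hs, mul_pow, ← AddChar.map_nsmul_eq_pow]
    have e : (j / j').val • (-(n s * j')) = -(n s * j) := by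
      rw [nsmul_eq_mul, ZMod.natCast_zmod_val]
      field_simp
    rw [e, mul_div_mul_left _ _ (resChar_ne_zero hζ _)]
  obtain ⟨j, hj0, hgj, k, hk⟩ := exists_resolvent_inTame hζ X hpow hquot hab hdiff
  refine ⟨γ j ^ (p - 1) / (p : L) ^ k, ?_, ?_, ?_⟩
  · rw [map_div₀, map_pow, map_zpow₀, hk, div_self (zpow_ne_zero k hp0)]
  · intro s hs
    rw [map_pow, map_div₀, map_pow, map_zpow₀, map_natCast, hact s hs, mul_pow, mul_div_assoc,
      mul_pow, ← pow_mul, mul_comm (p - 1) p, pow_mul, resChar_pow_p, one_pow, one_mul]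
  · intro s hs hy
    rw [map_div₀, map_pow, map_zpow₀, map_natCast, hact s hs, mul_pow, mul_div_assoc] at hy
    have hy0 : γ j ^ (p - 1) / (p : L) ^ k ≠ 0 :=
      div_ne_zero (pow_ne_zero _ hgj) (zpow_ne_zero k hpL)
    have h1 : ψ (-(n s * j)) ^ (p - 1) = 1 := by
      have := mul_right_cancel₀ hy0 (hy.trans (one_mul _).symm)
      exact this
    rw [← AddChar.map_nsmul_eq_pow, resChar_eq_one_iff] at h1
    have h2 : ((p - 1 : ℕ) : ZMod p) = -1 := by
      rw [Nat.cast_sub hp.out.one_le, ZMod.natCast_self, Nat.cast_one, zero_sub]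
    rw [nsmul_eq_mul, h2] at h1
    have h3 : n s * j = 0 := by
      have : (-1 : ZMod p) * -(n s * j) = n s * j := by ring
      rw [← this]; exact h1
    rcases mul_eq_zero.mp h3 with h | h
    · exact h
    · exact absurd h hj0

end resolvent

end Fermat.Agent.Ribet.H420

end
-- ===== PACK-END Ribet/H420/Resolvent.lean

-- ===== PACK-BEGIN S55/G/SIndH237/H95/Graded.lean
section
/-
S55 / layer G / G-SIND:UCT (helper95).  Part 4 (Mathlib only).

The graded step of the successive approximation for `2`-cocycles with values in the units of a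
ring `R` containing an element `b` of trace `1`: a `2`-cocycle `≡ 1 mod Iʲ` (`j ≥ 1`) is
cohomologous, through a cochain `≡ 1 mod Iʲ`, to a `2`-cocycle `≡ 1 mod Iʲ⁺¹`.
-/


set_option autoImplicit false
set_option linter.unusedSectionVars false
set_option linter.style.haveILetI false

namespace Fermat.Agent.S55.G.SIndH237.H95

open groupCohomology

attribute [local instance] unitsAct

section Graded

variable {R : Type*} [CommRing R] {H : Type*} [Group H] [Fintype H] [MulSemiringAction H R]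
  (I : Ideal R)

lemma mul_mem_pow_succ {j : ℕ} (hj : 1 ≤ j) {a b : R} (ha : a ∈ I ^ j) (hb : b ∈ I ^ j) :
    a * b ∈ I ^ (j + 1) := by
  have h1 : a * b ∈ I ^ j * I ^ j := Ideal.mul_mem_mul ha hb
  rw [← pow_add] at h1
  exact Ideal.pow_le_pow_right (by omega) h1

/-- The homotopy operator attached to an element `b` (of trace `1`). -/
def homotopy (b : R) (α : H × H → R) (g : H) : R := ∑ k : H, (g * k) • b * α (g, k)

lemma homotopy_mem (b : R) (α : H × H → R) (J : Ideal R) (hα : ∀ p, α p ∈ J) (g : H) :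
    homotopy b α g ∈ J :=
  J.sum_mem fun _ _ => J.mul_mem_left _ (hα _)

/-- The additive homotopy formula, with an error term controlled by the cocycle defect. -/
lemma homotopy_formula (b : R) (hb : ∑ h : H, h • b = 1) (α : H × H → R) (g h : H) :
    g • homotopy b α h - homotopy b α (g * h) + homotopy b α g - α (g, h) =
      ∑ k : H, (g * h * k) • b *
        (g • α (h, k) - α (g * h, k) + α (g, h * k) - α (g, h)) := by
  have h1 : g • homotopy b α h = ∑ k : H, (g * h * k) • b * g • α (h, k) := by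
    rw [homotopy, Finset.smul_sum]
    refine Finset.sum_congr rfl fun k _ => ?_
    rw [smul_mul', ← mul_smul, mul_assoc]
  have h2 : homotopy b α g = ∑ k : H, (g * h * k) • b * α (g, h * k) := by
    rw [homotopy]
    refine (Fintype.sum_equiv (Equiv.mulLeft h) _ _ fun k => ?_).symm
    simp only [Equiv.coe_mulLeft, mul_assoc]
  have h3 : α (g, h) = ∑ k : H, (g * h * k) • b * α (g, h) := by
    rw [← Finset.sum_mul]
    have : ∑ k : H, (g * h * k) • b = 1 := by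
      rw [← hb]
      exact Fintype.sum_equiv (Equiv.mulLeft (g * h)) _ _ fun k => rfl
    rw [this, one_mul]
  rw [h1, h2, homotopy]
  conv_lhs => rw [h3]
  simp only [← Finset.sum_sub_distrib, ← Finset.sum_add_distrib]
  refine Finset.sum_congr rfl fun k _ => ?_
  ring

/-- **Graded step** (`j ≥ 1`). -/
theorem graded_step₂ (hJ : I ≤ Ideal.jacobson ⊥)
    (hI : ∀ (h : H) (x : R), x ∈ I → h • x ∈ I) (b : R) (hb : ∑ h : H, h • b = 1)
    (j : ℕ) (hj : 1 ≤ j) (c : H × H → Rˣ) (hc : IsMulCocycle₂ c)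
    (hcj : ∀ p, c p ∈ unitFil I j) :
    ∃ x : H → Rˣ, (∀ g, x g ∈ unitFil I j) ∧
      ∀ g h, c (g, h) / (g • x h / x (g * h) * x g) ∈ unitFil I (j + 1) := by
  obtain ⟨α, hαc, hαj⟩ : ∃ α : H × H → R, (∀ p, (c p : R) = 1 + α p) ∧ ∀ p, α p ∈ I ^ j :=
    ⟨fun p => (c p : R) - 1, fun p => by ring, fun p => hcj p⟩
  have hβj : ∀ g, homotopy b α g ∈ I ^ j := homotopy_mem b α _ hαj
  have hβI : ∀ g, homotopy b α g ∈ I := fun g =>
    Ideal.pow_le_self (by omega) (hβj g)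
  have hunit : ∀ g, IsUnit (1 + homotopy b α g) := fun g => isUnit_one_add_of_mem I hJ (hβI g)
  have hsα : ∀ (g : H) (p : H × H), g • α p ∈ I ^ j := fun g p => smul_mem_pow I hI j g (hαj p)
  refine ⟨fun g => (hunit g).unit, fun g => ?_, fun g h => ?_⟩
  · rw [mem_unitFil_iff, IsUnit.unit_spec, add_sub_cancel_left]
    exact hβj g
  · have hgrp : c (g, h) / (g • (hunit h).unit / (hunit (g * h)).unit * (hunit g).unit) =
        (c (g, h) * (hunit (g * h)).unit) / (g • (hunit h).unit * (hunit g).unit) := by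
      rw [div_mul_eq_mul_div, div_div_eq_mul_div]
    rw [hgrp, div_mem_unitFil_iff]
    simp only [Units.val_mul, coe_unitsAct_smul, IsUnit.unit_spec, hαc, smul_add, smul_one]
    -- the cocycle defect
    have hE : ∀ k : H, g • α (h, k) - α (g * h, k) + α (g, h * k) - α (g, h) ∈ I ^ (j + 1) := by
      intro k
      have h1 := congrArg (fun u : Rˣ => (u : R)) (hc g h k)
      simp only [Units.val_mul, coe_unitsAct_smul, hαc, smul_add, smul_one] at h1
      have h2 : g • α (h, k) - α (g * h, k) + α (g, h * k) - α (g, h) =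
          α (g * h, k) * α (g, h) - g • α (h, k) * α (g, h * k) := by
        linear_combination -h1
      rw [h2]
      exact (I ^ (j + 1)).sub_mem (mul_mem_pow_succ I hj (hαj _) (hαj _))
        (mul_mem_pow_succ I hj (hsα g _) (hαj _))
    have hF := homotopy_formula b hb α g h
    have hmem : g • homotopy b α h - homotopy b α (g * h) + homotopy b α g - α (g, h) ∈
        I ^ (j + 1) := by
      rw [hF]
      exact (I ^ (j + 1)).sum_mem fun k _ => (I ^ (j + 1)).mul_mem_left _ (hE k)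
    have hsβ : g • homotopy b α h ∈ I ^ j := smul_mem_pow I hI j g (hβj h)
    have hfin : (1 + α (g, h)) * (1 + homotopy b α (g * h)) -
        (1 + g • homotopy b α h) * (1 + homotopy b α g) =
        -(g • homotopy b α h - homotopy b α (g * h) + homotopy b α g - α (g, h)) +
          (α (g, h) * homotopy b α (g * h) - g • homotopy b α h * homotopy b α g) := by
      ring
    rw [hfin]
    exact (I ^ (j + 1)).add_mem ((I ^ (j + 1)).neg_mem hmem)
      ((I ^ (j + 1)).sub_mem (mul_mem_pow_succ I hj (hαj _) (hβj _))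
        (mul_mem_pow_succ I hj hsβ (hβj _)))

end Graded

end Fermat.Agent.S55.G.SIndH237.H95

end
-- ===== PACK-END S55/G/SIndH237/H95/Graded.lean

-- ===== PACK-BEGIN Ribet/H223/HeckeGauss.lean
section



/-!
# Row 38, WALL-p, leaf M6a (helper223): the Gauss valuation at `∞` is compatible with the
degeneracy maps `α_ℓ` (inclusion) and `β_ℓ` (`t ↦ t^ℓ`), for EVERY `ℓ` and EVERY level

Vocabulary of `A2/H708/GaussInf.lean` (the one used by `A2/Mod/Spec.lean`, `IsVinf`):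
`L ⊇ ℚ` a field, `A` ANY valuation subring of `L` (so `R_E ⊆ E` and `A ⊆ ℚ̄` are both covered),
`F₀ ⊆ ℚ((t))`, `IsGaussInt A F₀ f` = "`f = U₁ / U₂`, `U₂` primitive, `U₂ ∈ L·F₀`".

* `isGaussInt_iff_of_le`     : for `F₀ ≤ F₁` and `f ∈ L·F₀`:
                               `IsGaussInt A F₁ f ↔ IsGaussInt A F₀ f`            (`α`);
* `isGaussInt_qExpand_iff`   : if `t ↦ t^n` maps `F₀` into `F₁` and `f ∈ L·F₀`:
                               `IsGaussInt A F₁ (f(t^n)) ↔ IsGaussInt A F₀ f`     (`β`);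
* `IsRedOf A F₀ f r`         : "`r ∈ k((t))` is the reduction of the Gauss-integral `f`"
                               (a relation; `IsRedOf.unique`, `IsRedOf.exists_of_isGaussInt`);
* `IsRedOf.of_le`, `IsRedOf.qExpand` : `red (α f) = red f`, `red (β f) = (red f)(t^n)`;
* modular instances `isGaussInt_heckeAlphaBar_iff`, `isGaussInt_heckeBetaBar_iff`,
  `isRedOf_heckeAlphaBar`, `isRedOf_heckeBetaBar` for `heckeAlphaBar L N ℓ`, `heckeBetaBar L N ℓ`.
-/

set_option autoImplicit false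

noncomputable section

namespace Fermat.Agent.Ribet.H223.M6a

open ModularCurve HahnSeries IntermediateField
open Fermat.Agent.A2.H708

/-! ## Coefficient maps and `t ↦ t^n` -/

section QExpand

theorem coeffMap_qExpand_h223 {R S : Type*} [CommRing R] [CommRing S] (f : R →+* S) (n : ℕ)
    [NeZero n] (x : LaurentSeries R) : coeffMap f (qExpand R n x) = qExpand S n (coeffMap f x) := by
  ext k
  by_cases hk : (n : ℤ) ∣ k
  · obtain ⟨m, rfl⟩ := hk
    rw [coeffMap_coeff, qExpand_coeff_mul, qExpand_coeff_mul, coeffMap_coeff]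
  · rw [coeffMap_coeff, qExpand_coeff_of_not_dvd n _ hk, qExpand_coeff_of_not_dvd n _ hk,
      map_zero]

variable {L : Type*} [Field L] (A : ValuationSubring L)

theorem incl_qExpand (n : ℕ) [NeZero n] (U : LaurentSeries A) :
    incl A (qExpand A n U) = qExpand L n (incl A U) :=
  coeffMap_qExpand_h223 _ n U

theorem red_qExpand (n : ℕ) [NeZero n] (U : LaurentSeries A) :
    red A (qExpand A n U) = qExpand (IsLocalRing.ResidueField A) n (red A U) :=
  coeffMap_qExpand_h223 _ n U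

theorem red_qExpand_ne_zero (n : ℕ) [NeZero n] {U : LaurentSeries A} (hU : red A U ≠ 0) :
    red A (qExpand A n U) ≠ 0 := by
  rw [red_qExpand]
  exact fun h => hU (qExpand_injective n (h.trans (map_zero _).symm))

theorem qExpand_cst (n : ℕ) [NeZero n] (c : L) : qExpand L n (cst c) = cst c := by
  show qExpand L n (algebraMap L (LaurentSeries L) c) = algebraMap L (LaurentSeries L) c
  rw [algebraMap_laurentSeries_eq_single, qExpand_single, mul_zero]

end QExpand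

/-! ## Base change of subfields -/

section BaseChange

variable (L : Type*) [Field L] [Algebra ℚ L]
variable {F₀ F₁ : IntermediateField ℚ (LaurentSeries ℚ)}

theorem laurentBaseChange_mono_h223 (h : F₀ ≤ F₁) :
    laurentBaseChange L F₀ ≤ laurentBaseChange L F₁ := by
  rw [laurentBaseChange, IntermediateField.adjoin_le_iff]
  rintro _ ⟨y, hy, rfl⟩
  exact coeffEmb_mem_laurentBaseChange L (h hy)

variable {L}

theorem qExpand_mem_laurentBaseChange_h223 (n : ℕ) [NeZero n]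
    (hF : ∀ y ∈ F₀, qExpand ℚ n y ∈ F₁) {x : LaurentSeries L}
    (hx : x ∈ laurentBaseChange L F₀) : qExpand L n x ∈ laurentBaseChange L F₁ := by
  rw [mem_laurentBaseChange_iff] at hx
  induction hx using Subfield.closure_induction with
  | mem y hy =>
      rcases hy with ⟨a, rfl⟩ | ⟨z, hz, rfl⟩
      · rw [algebraMap_laurentSeries_eq_single, qExpand_single, mul_zero,
          ← algebraMap_laurentSeries_eq_single]
        exact (laurentBaseChange L F₁).algebraMap_mem _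
      · have : qExpand L n (coeffEmb L z) = coeffEmb L (qExpand ℚ n z) :=
          (coeffMap_qExpand_h223 _ n z).symm
        rw [this]
        exact coeffEmb_mem_laurentBaseChange L (hF z hz)
  | one => simp
  | add x y _ _ hx hy => simpa using add_mem hx hy
  | neg x _ hx => simpa using neg_mem hx
  | inv x _ hx => simpa using inv_mem hx
  | mul x y _ _ hx hy => simpa using mul_mem hx hy

end BaseChange

/-! ## Gauss integrality -/

section Gauss

variable {L : Type*} [Field L] [Algebra ℚ L] {A : ValuationSubring L}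
variable {F₀ F₁ : IntermediateField ℚ (LaurentSeries ℚ)}

/-- Gauss-integral at a lower level implies Gauss-integral at a higher level. -/
theorem isGaussInt_of_le (h : F₀ ≤ F₁) {f : LaurentSeries L} (hf : IsGaussInt A F₀ f) :
    IsGaussInt A F₁ f := by
  obtain ⟨U₁, U₂, hred, hmem, he⟩ := hf
  exact ⟨U₁, U₂, hred, laurentBaseChange_mono_h223 L h hmem, he⟩

/-- **(M6a, `α`)** for `f` of the lower level, Gauss-integrality does not depend on the level. -/
theorem isGaussInt_iff_of_le (hgen : IntGen F₀) (hmax : AttainsMax A F₀) (h : F₀ ≤ F₁)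
    {f : LaurentSeries L} (hf : f ∈ laurentBaseChange L F₀) :
    IsGaussInt A F₁ f ↔ IsGaussInt A F₀ f := by
  by_cases hf0 : f = 0
  · subst hf0
    exact ⟨fun _ => IsGaussInt.zero, fun _ => IsGaussInt.zero⟩
  obtain ⟨c, U₁, U₂, -, h₁, h₂, -, hm₂, he⟩ := exists_normal_form hgen hmax hf hf0
  rw [isGaussInt_iff_of_normal_form h₁ h₂ hm₂ he,
    isGaussInt_iff_of_normal_form h₁ h₂ (laurentBaseChange_mono_h223 L h hm₂) he]

/-- `t ↦ t^n` preserves Gauss-integrality. -/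
theorem isGaussInt_qExpand (n : ℕ) [NeZero n] (hF : ∀ y ∈ F₀, qExpand ℚ n y ∈ F₁)
    {f : LaurentSeries L} (hf : IsGaussInt A F₀ f) : IsGaussInt A F₁ (qExpand L n f) := by
  obtain ⟨U₁, U₂, hred, hmem, he⟩ := hf
  refine ⟨qExpand A n U₁, qExpand A n U₂, red_qExpand_ne_zero A n hred, ?_, ?_⟩
  · rw [incl_qExpand]
    exact qExpand_mem_laurentBaseChange_h223 n hF hmem
  · rw [incl_qExpand, incl_qExpand, ← map_mul, he]

/-- **(M6a, `β`)** for `f` of the lower level: `f(t^n)` is Gauss-integral iff `f` is. -/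
theorem isGaussInt_qExpand_iff (hgen : IntGen F₀) (hmax : AttainsMax A F₀) (n : ℕ) [NeZero n]
    (hF : ∀ y ∈ F₀, qExpand ℚ n y ∈ F₁) {f : LaurentSeries L}
    (hf : f ∈ laurentBaseChange L F₀) :
    IsGaussInt A F₁ (qExpand L n f) ↔ IsGaussInt A F₀ f := by
  by_cases hf0 : f = 0
  · subst hf0
    rw [map_zero]
    exact ⟨fun _ => IsGaussInt.zero, fun _ => IsGaussInt.zero⟩
  obtain ⟨c, U₁, U₂, -, h₁, h₂, -, hm₂, he⟩ := exists_normal_form hgen hmax hf hf0
  have he' : qExpand L n f * incl A (qExpand A n U₂) = cst c * incl A (qExpand A n U₁) := by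
    rw [incl_qExpand, incl_qExpand, ← map_mul, he, map_mul, qExpand_cst]
  have hm₂' : incl A (qExpand A n U₂) ∈ laurentBaseChange L F₁ := by
    rw [incl_qExpand]
    exact qExpand_mem_laurentBaseChange_h223 n hF hm₂
  rw [isGaussInt_iff_of_normal_form h₁ h₂ hm₂ he,
    isGaussInt_iff_of_normal_form (red_qExpand_ne_zero A n h₁) (red_qExpand_ne_zero A n h₂)
      hm₂' he']

/-! ## Reductions, as a relation -/

variable (A F₀) in
/-- `r ∈ k((t))` is the reduction of the Gauss-integral series `f`: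
`f · U₂ = U₁`, `U₂ ∈ L·F₀` primitive, `r · red U₂ = red U₁`. -/
def IsRedOf (f : LaurentSeries L) (r : LaurentSeries (IsLocalRing.ResidueField A)) : Prop :=
  ∃ U₁ U₂ : LaurentSeries A, red A U₂ ≠ 0 ∧ incl A U₂ ∈ laurentBaseChange L F₀ ∧
    f * incl A U₂ = incl A U₁ ∧ r * red A U₂ = red A U₁

theorem IsRedOf.isGaussInt {f : LaurentSeries L}
    {r : LaurentSeries (IsLocalRing.ResidueField A)} (h : IsRedOf A F₀ f r) :
    IsGaussInt A F₀ f := by
  obtain ⟨U₁, U₂, hred, hmem, he, -⟩ := h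
  exact ⟨U₁, U₂, hred, hmem, he⟩

theorem IsRedOf.exists_of_isGaussInt {f : LaurentSeries L} (h : IsGaussInt A F₀ f) :
    ∃ r, IsRedOf A F₀ f r := by
  obtain ⟨U₁, U₂, hred, hmem, he⟩ := h
  exact ⟨red A U₁ / red A U₂, U₁, U₂, hred, hmem, he, div_mul_cancel₀ _ hred⟩

omit [Algebra ℚ L] in
/-- cross-multiplication: two presentations of the same fraction have the same reduction. -/
theorem red_cross_h223 {f : LaurentSeries L} {U₁ U₂ W₁ W₂ : LaurentSeries A}
    (he : f * incl A U₂ = incl A U₁) (he' : f * incl A W₂ = incl A W₁) :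
    red A U₁ * red A W₂ = red A W₁ * red A U₂ := by
  have h : U₁ * W₂ = W₁ * U₂ := by
    apply incl_injective A
    rw [map_mul, map_mul, ← he, ← he']
    ring
  rw [← map_mul, ← map_mul, h]

/-- The reduction is unique (whatever the levels of the two presentations). -/
theorem IsRedOf.unique {f : LaurentSeries L}
    {r r' : LaurentSeries (IsLocalRing.ResidueField A)} (h : IsRedOf A F₀ f r)
    (h' : IsRedOf A F₁ f r') : r = r' := by
  obtain ⟨U₁, U₂, hred, -, he, hr⟩ := h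
  obtain ⟨W₁, W₂, hred', -, he', hr'⟩ := h'
  have hx := red_cross_h223 he he'
  have h1 : r * (red A U₂ * red A W₂) = r' * (red A U₂ * red A W₂) := by
    calc r * (red A U₂ * red A W₂) = (r * red A U₂) * red A W₂ := by ring
      _ = red A U₁ * red A W₂ := by rw [hr]
      _ = red A W₁ * red A U₂ := hx
      _ = (r' * red A W₂) * red A U₂ := by rw [hr']
      _ = r' * (red A U₂ * red A W₂) := by ring
  exact mul_right_cancel₀ (mul_ne_zero hred hred') h1

/-- **(M6a, `α`, reductions)** `red (α f) = red f`. -/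
theorem IsRedOf.of_le (h : F₀ ≤ F₁) {f : LaurentSeries L}
    {r : LaurentSeries (IsLocalRing.ResidueField A)} (hr : IsRedOf A F₀ f r) :
    IsRedOf A F₁ f r := by
  obtain ⟨U₁, U₂, hred, hmem, he, hr⟩ := hr
  exact ⟨U₁, U₂, hred, laurentBaseChange_mono_h223 L h hmem, he, hr⟩

/-- **(M6a, `β`, reductions)** `red (β f) = (red f)(t^n)`. -/
theorem IsRedOf.qExpand (n : ℕ) [NeZero n] (hF : ∀ y ∈ F₀, qExpand ℚ n y ∈ F₁)
    {f : LaurentSeries L} {r : LaurentSeries (IsLocalRing.ResidueField A)}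
    (hr : IsRedOf A F₀ f r) :
    IsRedOf A F₁ (ModularCurve.qExpand L n f)
      (ModularCurve.qExpand (IsLocalRing.ResidueField A) n r) := by
  obtain ⟨U₁, U₂, hred, hmem, he, hr⟩ := hr
  refine ⟨ModularCurve.qExpand A n U₁, ModularCurve.qExpand A n U₂,
    red_qExpand_ne_zero A n hred, ?_, ?_, ?_⟩
  · rw [incl_qExpand]
    exact qExpand_mem_laurentBaseChange_h223 n hF hmem
  · rw [incl_qExpand, incl_qExpand, ← map_mul, he]
  · rw [red_qExpand, red_qExpand, ← map_mul, hr]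

/-- The reduction of a Gauss-integral `f` vanishes iff `f` is in the maximal ideal, in the
elementwise form: `f = c · g` with `v(c) < 1` and `g` Gauss-integral. -/
theorem IsRedOf.eq_zero_iff (hgen : IntGen F₀) (hmax : AttainsMax A F₀) {f : LaurentSeries L}
    (hf : f ∈ laurentBaseChange L F₀) (hf0 : f ≠ 0)
    {r : LaurentSeries (IsLocalRing.ResidueField A)} (hr : IsRedOf A F₀ f r) :
    r = 0 ↔ ¬ IsGaussInt A F₀ f⁻¹ := by
  obtain ⟨c, U₁, U₂, hc, h₁, h₂, hm₁, hm₂, he⟩ := exists_normal_form hgen hmax hf hf0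
  have hcA : c ∈ A := (isGaussInt_iff_of_normal_form h₁ h₂ hm₂ he).mp hr.isGaussInt
  have hinv := isGaussInt_iff_of_normal_form (F₀ := F₀) h₂ h₁ hm₁ (normal_form_inv hf0 hc he)
  have hr' : IsRedOf A F₀ f (red A (cstA A ⟨c, hcA⟩ * U₁) / red A U₂) :=
    ⟨cstA A ⟨c, hcA⟩ * U₁, U₂, h₂, hm₂, by rw [map_mul, incl_cstA, he],
      div_mul_cancel₀ _ h₂⟩
  rw [hr.unique hr', hinv, div_eq_zero_iff, or_iff_left h₂, map_mul, mul_eq_zero,
    or_iff_left h₁, red_cstA]
  rw [show (HahnSeries.single (0 : ℤ) (IsLocalRing.residue A ⟨c, hcA⟩) = 0 ↔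
      IsLocalRing.residue A ⟨c, hcA⟩ = 0) from HahnSeries.single_eq_zero_iff,
    IsLocalRing.residue_eq_zero_iff]
  constructor
  · intro hmem hcinv
    have hu : IsUnit (⟨c, hcA⟩ : A) := by
      refine ⟨⟨⟨c, hcA⟩, ⟨c⁻¹, hcinv⟩, ?_, ?_⟩, rfl⟩
      · exact Subtype.ext (mul_inv_cancel₀ hc)
      · exact Subtype.ext (inv_mul_cancel₀ hc)
    exact (IsLocalRing.mem_maximalIdeal _).mp hmem hu
  · intro hcinv
    rw [IsLocalRing.mem_maximalIdeal, mem_nonunits_iff]
    rintro ⟨u, hu⟩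
    apply hcinv
    have h1 : ((u⁻¹ : Aˣ) : A) * ⟨c, hcA⟩ = 1 := by rw [← hu]; exact u.inv_mul
    have h2 : (((u⁻¹ : Aˣ) : A) : L) * c = 1 := congrArg Subtype.val h1
    have h3 : c⁻¹ = (((u⁻¹ : Aˣ) : A) : L) := by
      rw [eq_comm, ← mul_inv_eq_one₀ (inv_ne_zero hc), inv_inv]
      exact h2
    rw [h3]
    exact ((u⁻¹ : Aˣ) : A).2

end Gauss

/-! ## The modular instances: `heckeAlphaBar`, `heckeBetaBar` -/

section Modular

variable {L : Type*} [Field L] [Algebra ℚ L] (A : ValuationSubring L)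
variable (N ℓ : ℕ) [NeZero N] [NeZero ℓ]

/-- **(M6a)** `α_ℓ f ∈ V∞(Nℓ) ↔ f ∈ V∞(N)`. -/
theorem isGaussInt_heckeAlphaBar_iff (hgen : IntGen (modularFunctionFieldFull N))
    (hmax : AttainsMax A (modularFunctionFieldFull N))
    (f : laurentBaseChange L (modularFunctionFieldFull N)) :
    IsGaussInt A (modularFunctionFieldFull (N * ℓ))
        ((heckeAlphaBar L N ℓ f : laurentBaseChange L (modularFunctionFieldFull (N * ℓ))) :
          LaurentSeries L) ↔
      IsGaussInt A (modularFunctionFieldFull N) (f : LaurentSeries L) := by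
  rw [coe_heckeAlphaBar]
  exact isGaussInt_iff_of_le hgen hmax (full_degeneracy_le (dvd_mul_right N ℓ)) f.2

/-- **(M6a)** `β_ℓ f ∈ V∞(Nℓ) ↔ f ∈ V∞(N)`. -/
theorem isGaussInt_heckeBetaBar_iff (hgen : IntGen (modularFunctionFieldFull N))
    (hmax : AttainsMax A (modularFunctionFieldFull N))
    (f : laurentBaseChange L (modularFunctionFieldFull N)) :
    IsGaussInt A (modularFunctionFieldFull (N * ℓ))
        ((heckeBetaBar L N ℓ f : laurentBaseChange L (modularFunctionFieldFull (N * ℓ))) :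
          LaurentSeries L) ↔
      IsGaussInt A (modularFunctionFieldFull N) (f : LaurentSeries L) := by
  rw [coe_heckeBetaBar]
  exact isGaussInt_qExpand_iff hgen hmax ℓ
    (fun y hy => full_degeneracy_map_le (N := N) ℓ ⟨y, hy, rfl⟩) f.2

/-- **(M6a)** `red (α_ℓ f) = red f`. -/
theorem isRedOf_heckeAlphaBar (f : laurentBaseChange L (modularFunctionFieldFull N))
    {r : LaurentSeries (IsLocalRing.ResidueField A)}
    (hr : IsRedOf A (modularFunctionFieldFull N) (f : LaurentSeries L) r) :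
    IsRedOf A (modularFunctionFieldFull (N * ℓ))
      ((heckeAlphaBar L N ℓ f : laurentBaseChange L (modularFunctionFieldFull (N * ℓ))) :
        LaurentSeries L) r := by
  rw [coe_heckeAlphaBar]
  exact hr.of_le (full_degeneracy_le (dvd_mul_right N ℓ))

/-- **(M6a)** `red (β_ℓ f) = (red f)(t^ℓ)`. -/
theorem isRedOf_heckeBetaBar (f : laurentBaseChange L (modularFunctionFieldFull N))
    {r : LaurentSeries (IsLocalRing.ResidueField A)}
    (hr : IsRedOf A (modularFunctionFieldFull N) (f : LaurentSeries L) r) :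
    IsRedOf A (modularFunctionFieldFull (N * ℓ))
      ((heckeBetaBar L N ℓ f : laurentBaseChange L (modularFunctionFieldFull (N * ℓ))) :
        LaurentSeries L) (qExpand (IsLocalRing.ResidueField A) ℓ r) := by
  rw [coe_heckeBetaBar]
  exact hr.qExpand ℓ (fun y hy => full_degeneracy_map_le (N := N) ℓ ⟨y, hy, rfl⟩)

end Modular

end Fermat.Agent.Ribet.H223.M6a

end
end
-- ===== PACK-END Ribet/H223/HeckeGauss.lean

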