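import Mathlib
import Fermat.Prelude.Def_ModularCurve_PeriodHomPair
import Fermat.Prelude.Def_ModularCurve_ArithmeticGalois
import Fermat.Agent.Pack.S43GC.G0E9L0
import Fermat.Agent.Pack.S43GC.G0E2L0
import Fermat.Agent.Pack.S59C.E2L1
import Fermat.Agent.Pack.S59C.E2L3
import Fermat.Agent.Pack.S59C.E2L2
import Fermat.Agent.Pack.S59C.E2L0
import Fermat.Agent.Pack.S43MC.G0E12L2
import Fermat.Agent.Pack.S44C.G0E6L0
import Fermat.Agent.Pack.S44C.G0E10L2
import Fermat.Agent.Pack.S43GC.G0E8L0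
import Fermat.Agent.Pack.S43GC.G0E6L3
import Fermat.Agent.Pack.S59C.E0L3
import Fermat.Agent.Pack.S44C.G0E11L0

set_option linter.all false

-- ===== PACK-BEGIN S59/Arch/GluePT.lean
section



/-!
# Row S59 — glue PT: from `R_Σ ≅ T_Σ` to the point of the Hecke–Galois datum (helper239)

`point_of_rtIso`: if `RTIso` holds for the type `Σ`, a universal deformation ring of type `Σ`
exists (S53) and S54 holds, then every representation `ρ` over `𝒪` of type `Σ` lifting `ρ̄` is a
point of a Hecke–Galois datum of level `N_Σ`.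
-/

set_option autoImplicit false

open Polynomial IsLocalRing

namespace Fermat.Agent.S59.Arch

/-- The frozen statement S54 (`R ↠ T`), as a hypothesis. -/
def S54Statement : Prop :=
  ∀ {𝒪 : Type} [CommRing 𝒪] [IsDomain 𝒪] [IsDiscreteValuationRing 𝒪]
    [IsAdicComplete (IsLocalRing.maximalIdeal 𝒪) 𝒪]
    {ρbar : ResidualGaloisRep (IsLocalRing.ResidueField 𝒪)}
    {𝒟 : ∀ ⦃A : Type⦄ [CommRing A] [IsLocalRing A] [Algebra 𝒪 A], GaloisRepAdic A → Prop}
    (D : GaloisRep.DeformationRingData 𝒪 ρbar 𝒟) {N : ℕ} [NeZero N] {S : Set ℕ}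
    {θ : CuspForm.heckeAlgebra N 2 S →+* IsLocalRing.ResidueField 𝒪}
    {T : Type} [CommRing T] [IsLocalRing T] [IsNoetherianRing T]
    [IsAdicComplete (IsLocalRing.maximalIdeal T) T] [Algebra 𝒪 T]
    [IsLocalHom (algebraMap 𝒪 T)] [Module.Finite 𝒪 T] [Module.Free 𝒪 T]
    (H : CuspForm.HeckeGaloisRepDatum N S 𝒪 θ T)
    (_hS : ∀ q : ℕ, q.Prime → q ∣ N → q ∈ S) (_h𝒟 : 𝒟 H.ρ)
    (_hres : H.ρ.residual.IsEquiv
      (ρbar.baseChangeAlong (IsLocalRing.ResidueField.map (algebraMap 𝒪 T)))),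
    ∃ φ : D.R →ₐ[𝒪] T, Function.Surjective φ ∧
      ∃ hφ : IsLocalHom (φ : D.R →+* T), (D.ρ.baseChangeAlong (φ : D.R →+* T) hφ).IsEquiv H.ρ

/-- The frozen statement S53 (existence of universal deformation rings), as a hypothesis. -/
def S53Statement : Prop :=
  ∀ (𝒪 : Type) [CommRing 𝒪] [IsDomain 𝒪] [IsDiscreteValuationRing 𝒪]
    [IsAdicComplete (IsLocalRing.maximalIdeal 𝒪) 𝒪] [Finite (IsLocalRing.ResidueField 𝒪)]
    (ρbar : ResidualGaloisRep (IsLocalRing.ResidueField 𝒪))
    (𝒟 : ∀ ⦃A : Type⦄ [CommRing A] [IsLocalRing A] [Algebra 𝒪 A], GaloisRepAdic A → Prop)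
    (_habs : ρbar.IsAbsolutelyIrreducible)
    (_h𝒟 : GaloisRep.IsDeformationCondition 𝒪 𝒟)
    (_hbar : 𝒟 (GaloisRepAdic.ofResidualGaloisRep ρbar))
    (_hfin : GaloisRep.TangentFinite 𝒪 ρbar 𝒟),
    Nonempty (GaloisRep.DeformationRingData 𝒪 ρbar 𝒟)

section PT

variable (p : ℕ) [Fact p.Prime]
  (𝒪 : Type) [CommRing 𝒪] [IsDomain 𝒪] [IsDiscreteValuationRing 𝒪]
  [IsAdicComplete (maximalIdeal 𝒪) 𝒪]
  (ρbar : ResidualGaloisRep (ResidueField 𝒪))

/-- **PT.**  From `R_Σ ≅ T_Σ` to the point. -/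
theorem point_of_rtIso (h54 : S54Statement) (t : PType) (Smin Sig : Finset ℕ)
    (hNS : ∀ q : ℕ, q.Prime → q ∣ wilesLevel p t Smin Sig → q ∈ Sig)
    (hD : Nonempty (GaloisRep.DeformationRingData 𝒪 ρbar (sigmaCond 𝒪 p t Smin Sig)))
    (hRT : RTIso p 𝒪 ρbar t Smin Sig)
    (ρ : GaloisRepAdic 𝒪) (hρ : sigmaCond 𝒪 p t Smin Sig ρ)
    (hres : ρ.residual.IsEquiv
      (ρbar.baseChangeAlong (ResidueField.map (algebraMap 𝒪 𝒪)))) :
    ∃ (_ : NeZero (wilesLevel p t Smin Sig))
      (θ : CuspForm.heckeAlgebra (wilesLevel p t Smin Sig) 2 (↑Sig : Set ℕ) →+* ResidueField 𝒪)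
      (T : Type) (_ : CommRing T) (_ : IsLocalRing T) (_ : IsNoetherianRing T)
      (_ : IsAdicComplete (maximalIdeal T) T) (_ : Algebra 𝒪 T)
      (_ : IsLocalHom (algebraMap 𝒪 T)) (_ : Module.Finite 𝒪 T) (_ : Module.Free 𝒪 T)
      (H : CuspForm.HeckeGaloisRepDatum (wilesLevel p t Smin Sig) (↑Sig : Set ℕ) 𝒪 θ T),
      PointOfDatum H ρ := by
  obtain ⟨D⟩ := hD
  obtain ⟨hN, hint, θ, i1, i2, i3, i4, i5, i6, H, -, hresH, hcondH, hiso⟩ := hRT
  refine ⟨hN, θ, _, inferInstance, i1, i2, i3, inferInstance, i4, i5, i6, H, ?_⟩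
  obtain ⟨φ, hφs, hφ, hφe⟩ := h54 D H (fun q hq hqN => by exact_mod_cast hNS q hq hqN) hcondH hresH
  obtain ⟨hbij, -⟩ := hiso D φ ⟨hφ, hφe⟩
  -- the point of `R` given by `ρ`
  obtain ⟨φW, ⟨hφW, hφWe⟩, -⟩ := D.universal 𝒪
    (fun x => by
      obtain ⟨y, rfl⟩ := IsLocalRing.residue_surjective x
      exact ⟨y, rfl⟩) ρ hρ hres
  let e : D.R ≃ₐ[𝒪] CuspForm.heckeLocal (wilesLevel p t Smin Sig) (↑Sig : Set ℕ) 𝒪 θ := AlgEquiv.ofBijective φ hbij
  let ψ : CuspForm.heckeLocal (wilesLevel p t Smin Sig) (↑Sig : Set ℕ) 𝒪 θ →ₐ[𝒪] 𝒪 :=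
    φW.comp (e.symm : CuspForm.heckeLocal (wilesLevel p t Smin Sig) (↑Sig : Set ℕ) 𝒪 θ →ₐ[𝒪] D.R)
  have hcomp : (ψ : CuspForm.heckeLocal (wilesLevel p t Smin Sig) (↑Sig : Set ℕ) 𝒪 θ →+* 𝒪).comp (φ : D.R →+* CuspForm.heckeLocal (wilesLevel p t Smin Sig) (↑Sig : Set ℕ) 𝒪 θ) = (φW : D.R →+* 𝒪) := by
    ext x
    show φW (e.symm (φ x)) = φW x
    congr 1
    exact e.symm_apply_apply x
  have hψ : IsLocalHom (ψ : CuspForm.heckeLocal (wilesLevel p t Smin Sig) (↑Sig : Set ℕ) 𝒪 θ →+* 𝒪) := by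
    constructor
    intro a ha
    obtain ⟨r, rfl⟩ := hφs a
    have h1 : IsUnit (φW r) := by
      have : (ψ : CuspForm.heckeLocal (wilesLevel p t Smin Sig) (↑Sig : Set ℕ) 𝒪 θ →+* 𝒪) ((φ : D.R →+* CuspForm.heckeLocal (wilesLevel p t Smin Sig) (↑Sig : Set ℕ) 𝒪 θ) r) = (φW : D.R →+* 𝒪) r := by
        rw [← RingHom.comp_apply, hcomp]
      exact this ▸ ha
    have h2 : IsUnit r := hφW.map_nonunit r h1
    exact h2.map φ.toRingHom
  refine ⟨ψ, hψ, ?_⟩
  -- `H.ρ ⊗_ψ 𝒪 ≅ (D.ρ ⊗_φ T) ⊗_ψ 𝒪 ≅ D.ρ ⊗_{φW} 𝒪 ≅ ρ`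
  have h1 := Fermat.Agent.S53.H113.isEquiv_baseChangeAlong (ψ : CuspForm.heckeLocal (wilesLevel p t Smin Sig) (↑Sig : Set ℕ) 𝒪 θ →+* 𝒪) hψ
    (Fermat.Agent.S53.H113.isEquiv_symm hφe)
  have h2 := Fermat.Agent.S53.H113.baseChangeAlong_comp_isEquiv' (φ : D.R →+* CuspForm.heckeLocal (wilesLevel p t Smin Sig) (↑Sig : Set ℕ) 𝒪 θ) hφ (ψ : CuspForm.heckeLocal (wilesLevel p t Smin Sig) (↑Sig : Set ℕ) 𝒪 θ →+* 𝒪) hψ
    (φW : D.R →+* 𝒪) hφW hcomp D.ρ
  exact Fermat.Agent.S53.H113.isEquiv_trans (Fermat.Agent.S53.H113.isEquiv_trans h1 h2) hφWe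

end PT

end Fermat.Agent.S59.Arch

end
-- ===== PACK-END S59/Arch/GluePT.lean

-- ===== PACK-BEGIN S59/H427/Duality.lean
section


/-!
# S59 / N1 (helper427): the unit multiplier

Let `T` be a finite free algebra over a discrete valuation ring `𝒪` with an augmentation
`π : T → 𝒪`, let `x i` be elements of `ker π`, and let `f i = ∑ j, a i j * X j` be polynomials
vanishing at `x` of the shape `X i ^ (m+1) + (degree ≤ m)`.  If `det a(0) ≠ 0` generates the
congruence ideal `π (Ann (x))`, then there is a polynomial `y` with unit constant term such that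
`y * g ∈ (f)` for every polynomial `g` vanishing at `x`.
-/

set_option autoImplicit false
set_option linter.unusedSectionVars false

namespace Fermat.Agent.S59.H427

open MvPolynomial

section Cramer

variable {A : Type*} [CommRing A] {ι : Type*} [Fintype ι] [DecidableEq ι]

/-- Cramer's rule: `det a * X j` lies in the ideal generated by the `∑ j, a i j * X j`. -/
theorem det_mul_X_mem_span (a : Matrix ι ι (MvPolynomial ι A)) (j : ι) :
    a.det * X j ∈ Ideal.span (Set.range fun i => ∑ k, a i k * (X k : MvPolynomial ι A)) := by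
  have h1 : a.adjugate.mulVec (a.mulVec (fun k => (X k : MvPolynomial ι A))) =
      a.det • (fun k => (X k : MvPolynomial ι A)) := by
    rw [Matrix.mulVec_mulVec, Matrix.adjugate_mul, Matrix.smul_mulVec, Matrix.one_mulVec]
  have h2 := congrFun h1 j
  simp only [Matrix.mulVec, dotProduct, Pi.smul_apply, smul_eq_mul] at h2
  rw [← h2]
  exact Ideal.sum_mem _ fun i _ => Ideal.mul_mem_left _ _ (Ideal.subset_span ⟨i, rfl⟩)

/-- `det a * q` lies in `(f)` for every `q` without constant term. -/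
theorem det_mul_mem_span_of_constantCoeff_eq_zero (a : Matrix ι ι (MvPolynomial ι A))
    {q : MvPolynomial ι A} (hq : constantCoeff q = 0) :
    a.det * q ∈ Ideal.span (Set.range fun i => ∑ k, a i k * (X k : MvPolynomial ι A)) := by
  have h1 : q ∈ idealOfVars ι A := by
    have : q ∈ idealOfVars ι A ^ 1 := by
      rw [mem_pow_idealOfVars_iff']
      intro s hs
      have hs0 : s = 0 := by
        have : s.degree = 0 := by omega
        exact (Finsupp.degree_eq_zero_iff s).mp this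
      rw [hs0]
      exact hq
    simpa using this
  refine Submodule.span_induction (p := fun q _ => a.det * q ∈
    Ideal.span (Set.range fun i => ∑ k, a i k * (X k : MvPolynomial ι A))) ?_ ?_ ?_ ?_ h1
  · rintro _ ⟨j, rfl⟩
    exact det_mul_X_mem_span a j
  · simp
  · intro u v _ _ hu hv
    rw [mul_add]
    exact Ideal.add_mem _ hu hv
  · intro r u _ hu
    rw [smul_eq_mul, mul_left_comm]
    exact Ideal.mul_mem_left _ _ hu

end Cramer

section Main

variable {𝒪 : Type*} [CommRing 𝒪] [IsDomain 𝒪] [IsDiscreteValuationRing 𝒪]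
variable {T : Type*} [CommRing T] [Algebra 𝒪 T] [Module.Free 𝒪 T] [Module.Finite 𝒪 T]
variable {ι : Type*} [Fintype ι] [DecidableEq ι]

theorem aug_aeval (π : T →ₐ[𝒪] 𝒪) (x : ι → T) (hx : ∀ i, π (x i) = 0)
    (g : MvPolynomial ι 𝒪) : π (aeval x g) = constantCoeff g := by
  have h1 : π.comp (aeval x) = aeval (fun _ : ι => (0 : 𝒪)) := by
    apply MvPolynomial.algHom_ext
    intro i
    simp [hx i]
  have h2 := DFunLike.congr_fun h1 g
  rw [AlgHom.comp_apply] at h2
  rw [h2]
  have := aeval_zero' (S₁ := 𝒪) g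
  simp

/-- A primitive vector of a finite free module over a DVR has a functional taking value `1`. -/
theorem exists_dual_eq_one_of_primitive (t₀ : T)
    (hprim : ∀ (ϖ : 𝒪) (t' : T), t₀ = ϖ • t' → IsUnit ϖ) :
    ∃ μ : T →ₗ[𝒪] 𝒪, μ t₀ = 1 := by
  classical
  let b := Module.Free.chooseBasis 𝒪 T
  have : Fintype (Module.Free.ChooseBasisIndex 𝒪 T) := Module.Free.ChooseBasisIndex.fintype 𝒪 T
  obtain ⟨ϖ, hϖ⟩ := IsDiscreteValuationRing.exists_irreducible 𝒪
  by_cases hex : ∃ k, IsUnit (b.repr t₀ k)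
  · obtain ⟨k, hk⟩ := hex
    obtain ⟨u, hu⟩ := hk
    refine ⟨(↑u⁻¹ : 𝒪) • b.coord k, ?_⟩
    rw [LinearMap.smul_apply, Module.Basis.coord_apply, ← hu, smul_eq_mul, Units.inv_mul]
  · exfalso
    push Not at hex
    have hmax := (IsDiscreteValuationRing.irreducible_iff_uniformizer ϖ).mp hϖ
    have hdvd : ∀ k, ∃ c, b.repr t₀ k = ϖ * c := by
      intro k
      have h1 : b.repr t₀ k ∈ IsLocalRing.maximalIdeal 𝒪 := (IsLocalRing.mem_maximalIdeal _).mpr (hex k)
      rw [hmax, Ideal.mem_span_singleton] at h1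
      exact h1
    choose c hc using hdvd
    have h2 : t₀ = ϖ • ∑ k, c k • b k := by
      conv_lhs => rw [← b.sum_repr t₀]
      rw [Finset.smul_sum]
      refine Finset.sum_congr rfl fun k _ => ?_
      rw [hc k, mul_smul]
    exact hϖ.not_isUnit (hprim ϖ _ h2)

/-- **The unit multiplier.** -/
theorem exists_unit_multiplier (π : T →ₐ[𝒪] 𝒪) (x : ι → T) (hx : ∀ i, π (x i) = 0)
    (m : ℕ) (a : Matrix ι ι (MvPolynomial ι 𝒪))
    (hdeg : ∀ i, (∑ j, a i j * X j - X i ^ (m + 1)).totalDegree ≤ m)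
    (hker : ∀ i, aeval x (∑ j, a i j * X j) = 0)
    (hdet : constantCoeff a.det ≠ 0)
    (hη : ∀ t : T, (∀ i, t * x i = 0) → ∃ c : 𝒪, π t = c * constantCoeff a.det) :
    ∃ y : MvPolynomial ι 𝒪, IsUnit (constantCoeff y) ∧
      ∀ g, aeval x g = 0 →
        y * g ∈ Ideal.span (Set.range fun i => ∑ j, a i j * (X j : MvPolynomial ι 𝒪)) := by
  classical
  set f : ι → MvPolynomial ι 𝒪 := fun i => ∑ j, a i j * X j with hf
  set h : ι → MvPolynomial ι 𝒪 := fun i => f i - X i ^ (m + 1) with hh'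
  have hh : ∀ i, (h i).totalDegree ≤ m := hdeg
  have hgen : boxGen m h = f := by
    funext i
    simp only [boxGen, hh']
    ring
  have hI : boxIdeal m h = Ideal.span (Set.range f) := by
    rw [boxIdeal, hgen]
  -- evaluation at `x` kills the ideal
  have hψI : ∀ g ∈ boxIdeal m h, aeval x g = 0 := by
    intro g hg
    have : boxIdeal m h ≤ RingHom.ker (aeval x : MvPolynomial ι 𝒪 →ₐ[𝒪] T) := by
      rw [hI, Ideal.span_le]
      rintro _ ⟨i, rfl⟩
      exact hker i
    exact this hg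
  let ψbar : (MvPolynomial ι 𝒪 ⧸ boxIdeal m h) →ₐ[𝒪] T :=
    Ideal.Quotient.liftₐ (boxIdeal m h) (aeval x) hψI
  have hψbar : ∀ g, ψbar (Ideal.Quotient.mk _ g) = aeval x g := fun g => rfl
  -- the Cramer element
  set Δ := a.det with hΔ
  set t₀ : T := aeval x Δ with ht₀
  have ht₀x : ∀ i, t₀ * x i = 0 := by
    intro i
    have h1 := det_mul_X_mem_span a i
    have h2 : aeval x (Δ * X i) = 0 := hψI _ (by rw [hI]; exact h1)
    rw [map_mul, aeval_X] at h2
    exact h2
  have hπt₀ : π t₀ = constantCoeff Δ := aug_aeval π x hx Δ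
  -- primitivity
  have hprim : ∀ (ϖ : 𝒪) (t' : T), t₀ = ϖ • t' → IsUnit ϖ := by
    intro ϖ t' ht'
    have hϖ0 : ϖ ≠ 0 := by
      rintro rfl
      rw [zero_smul] at ht'
      rw [ht', map_zero] at hπt₀
      exact hdet hπt₀.symm
    have h1 : ∀ i, t' * x i = 0 := by
      intro i
      have h2 : ϖ • (t' * x i) = 0 := by
        rw [← smul_mul_assoc, ← ht', ht₀x]
      exact (smul_eq_zero.mp h2).resolve_left hϖ0
    obtain ⟨c, hc⟩ := hη t' h1
    have h3 : π t₀ = ϖ * π t' := by
      rw [ht', map_smul, smul_eq_mul]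
    rw [hc, hπt₀] at h3
    have h4 : (1 - ϖ * c) * constantCoeff Δ = 0 := by
      rw [sub_mul, one_mul, mul_assoc, ← h3, sub_self]
    have h5 : 1 - ϖ * c = 0 := (mul_eq_zero.mp h4).resolve_right hdet
    exact IsUnit.of_mul_eq_one c (sub_eq_zero.mp h5).symm
  obtain ⟨μ, hμ⟩ := exists_dual_eq_one_of_primitive t₀ hprim
  -- the multiplier
  obtain ⟨yC, hyC⟩ := exists_boxLam_mul_eq hh (μ ∘ₗ ψbar.toLinearMap)
  obtain ⟨y, rfl⟩ := Ideal.Quotient.mk_surjective yC
  refine ⟨y, ?_, ?_⟩
  · -- unit constant term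
    have h1 : boxLam hh (Ideal.Quotient.mk _ y * Ideal.Quotient.mk _ Δ) = 1 := by
      rw [hyC]
      show μ (ψbar (Ideal.Quotient.mk _ Δ)) = 1
      rw [hψbar]
      exact hμ
    have h2 : Ideal.Quotient.mk (boxIdeal m h) y * Ideal.Quotient.mk _ Δ =
        constantCoeff y • Ideal.Quotient.mk (boxIdeal m h) Δ := by
      have e1 : y * Δ = C (constantCoeff y) * Δ + Δ * (y - C (constantCoeff y)) := by ring
      have e2 : Δ * (y - C (constantCoeff y)) ∈ boxIdeal m h := by
        rw [hI]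
        apply det_mul_mem_span_of_constantCoeff_eq_zero
        simp
      rw [← map_mul, e1, map_add, Ideal.Quotient.eq_zero_iff_mem.mpr e2, add_zero,
        ← smul_eq_C_mul]
      exact map_smul (Ideal.Quotient.mkₐ 𝒪 (boxIdeal m h)) (constantCoeff y) Δ
    rw [h2, map_smul, smul_eq_mul] at h1
    exact IsUnit.of_mul_eq_one _ h1
  · intro g hg
    rw [← hI, ← Ideal.Quotient.eq_zero_iff_mem]
    apply eq_zero_of_boxLam_mul_eq_zero hh
    intro c'
    have e : Ideal.Quotient.mk (boxIdeal m h) (y * g) * c' =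
        Ideal.Quotient.mk (boxIdeal m h) y * (Ideal.Quotient.mk (boxIdeal m h) g * c') := by
      rw [RingHom.map_mul, mul_assoc]
    rw [e, hyC]
    show μ (ψbar (Ideal.Quotient.mk _ g * c')) = 0
    rw [map_mul, hψbar, hg, zero_mul, map_zero]

end Main

end Fermat.Agent.S59.H427

end
-- ===== PACK-END S59/H427/Duality.lean

-- ===== PACK-BEGIN S41/H221/PDAsm2.lean
section




/-!
# S41, block PD — assembly, part 2 (helper221): β-formula, `c_δ`-isometry, PD and LIFT

From the leaves of `Spec/PD.lean` (taken as hypotheses):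
* `maninPairingBeta`      : `Spec.ManinPairingBetaStatement`      (A4);
* `maninPairingConjDelta` : `Spec.ManinPairingConjDeltaStatement` (A5);
* `pd_of_asm`             : `Spec.PDStatement` from A2, A3, A5, TR-4;
* `lift_of_leaves`        : `Spec.LiftStatement`.
-/

set_option autoImplicit false

namespace Fermat.Agent.S41.H221

open CongruenceSubgroup Matrix.SpecialLinearGroup ModularCurve.Period ModularGroup
open Fermat.Agent.S41.Spec
open scoped MatrixGroups

universe u

/-! ## A4 : the β-formula -/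

section Heis

variable {Γ : Subgroup SL(2, ℤ)} {R : Type*} [CommRing R]

theorem isHeisLift_map_one {φ ψ : Additive Γ →+ R} {ζ : Γ → R} (h : IsHeisLift Γ φ ψ ζ) :
    ζ 1 = 0 := h.2 1 IsOfFinOrder.one

theorem isHeisLift_conj {φ ψ : Additive Γ →+ R} {ζ : Γ → R} (h : IsHeisLift Γ φ ψ ζ)
    (g γ : Γ) (h1 : φ (Additive.ofMul γ) = 0) (h2 : ψ (Additive.ofMul γ) = 0) :
    ζ (g * γ * g⁻¹) = ζ γ := by
  have e1 := h.1 (g * γ) g⁻¹
  have e2 := h.1 g γ
  have e3 := h.1 g g⁻¹
  rw [mul_inv_cancel, isHeisLift_map_one h] at e3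
  have e4 : φ (Additive.ofMul (g * γ)) = φ (Additive.ofMul g) + φ (Additive.ofMul γ) :=
    φ.map_add _ _
  rw [e1, e2, e4, h1, h2]
  linear_combination -e3

/-- The difference of two Heisenberg lifts is a torsion-trivial homomorphism. -/
def heisDiff {φ ψ : Additive Γ →+ R} {ζ ζ₀ : Γ → R} (h : IsHeisLift Γ φ ψ ζ)
    (h₀ : IsHeisLift Γ φ ψ ζ₀) : Additive Γ →+ R where
  toFun g := ζ (Additive.toMul g) - ζ₀ (Additive.toMul g)
  map_zero' := by
    show ζ 1 - ζ₀ 1 = 0
    rw [isHeisLift_map_one h, isHeisLift_map_one h₀, sub_zero]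
  map_add' g g' := by
    show ζ (Additive.toMul g * Additive.toMul g') - ζ₀ (Additive.toMul g * Additive.toMul g') = _
    rw [h.1, h₀.1]
    ring

theorem heisDiff_apply {φ ψ : Additive Γ →+ R} {ζ ζ₀ : Γ → R} (h : IsHeisLift Γ φ ψ ζ)
    (h₀ : IsHeisLift Γ φ ψ ζ₀) (γ : Γ) : heisDiff h h₀ (Additive.ofMul γ) = ζ γ - ζ₀ γ := rfl

end Heis

theorem maninPairingBeta (hA1 : ManinPairingEqStatement.{u}) (hD1 : ManinRepExistsStatement.{u})
    (hD4 : ManinRepParabolicStatement.{u}) (hHeis : HeisLiftStatement.{u})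
    (hZero : CuspSumZeroStatement.{u}) (hEx : TOrbitSystemExistsStatement)
    (hTC : TOrbitCuspStatement) (hInd : CuspSumIndepStatement.{u}) :
    ManinPairingBetaStatement.{u} := by
  intro Γ _ hneg F _ φ ψ ζ hφ hψ hζ ι _ γ hγ
  obtain ⟨m, hm⟩ := hD1 Γ hneg F φ hφ.2
  obtain ⟨e, he⟩ := (hD4 Γ hneg F φ m hm).1 hφ.1
  obtain ⟨m', hm'⟩ := hD1 Γ hneg F ψ hψ.2
  obtain ⟨e', he'⟩ := (hD4 Γ hneg F ψ m' hm').1 hψ.1
  obtain ⟨ζ₀, hζ₀, hβ⟩ := hHeis Γ hneg F φ ψ m m' e e' hm hm' he he'
  obtain ⟨ι₀, inst₀, γ₀, h₀, w₀, hsys⟩ := hEx Γ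
  have hcusp₀ := hTC Γ hneg ι₀ γ₀ h₀ w₀ hsys
  have hclass : ∀ g γ : Γ, IsPosParabolic (γ : SL(2, ℤ)) → ζ (g * γ * g⁻¹) = ζ γ := by
    intro g γ hγ
    have htr : ((γ : SL(2, ℤ)) : Matrix (Fin 2) (Fin 2) ℤ).trace ^ 2 = 4 := by
      rw [hγ.2.1]; norm_num
    exact isHeisLift_conj hζ g γ (hφ.1 γ htr) (hψ.1 γ htr)
  rw [hInd Γ F ζ hclass ι ι₀ γ γ₀ hγ hcusp₀]
  have hχ : ∀ γ : Γ, IsOfFinOrder γ → heisDiff hζ hζ₀ (Additive.ofMul γ) = 0 := by
    intro γ hγ
    rw [heisDiff_apply, hζ.2 γ hγ, hζ₀.2 γ hγ, sub_zero]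
  have h1 := hZero Γ hneg F (heisDiff hζ hζ₀) hχ ι₀ γ₀ h₀ w₀ hsys
  have h2 := hβ ι₀ γ₀ h₀ w₀ hsys
  simp only [heisDiff_apply, Finset.sum_sub_distrib] at h1
  rw [sub_eq_zero.mp h1, h2, hA1 Γ hneg F φ ψ m m' e' hφ.1 hm hm' he']

/-! ## A5 : `c_δ` is an isometry -/

theorem isCuspidalOn_comp_conjDeltaR {N q : ℕ} {A : Type*} [AddCommGroup A]
    (φ : Additive (gamma0Delta N q) →+ A) (hφ : IsCuspidalOn (gamma0Delta N q) φ) :
    IsCuspidalOn (Gamma0 (N * q)) (φ.comp (MonoidHom.toAdditive (conjDeltaR N q))) := by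
  refine ⟨fun γ hγ => ?_, fun γ hγ => ?_⟩
  · refine hφ.1 (conjDeltaR N q γ) ?_
    rw [trace_conjDeltaR]; exact hγ
  · exact hφ.2 (conjDeltaR N q γ) ((conjDeltaR N q).isOfFinOrder hγ)

theorem isHeisLift_comp_conjDeltaR {N q : ℕ} {R : Type*} [CommRing R]
    (φ ψ : Additive (gamma0Delta N q) →+ R) (ζ : gamma0Delta N q → R)
    (hζ : IsHeisLift (gamma0Delta N q) φ ψ ζ) :
    IsHeisLift (Gamma0 (N * q)) (φ.comp (MonoidHom.toAdditive (conjDeltaR N q)))
      (ψ.comp (MonoidHom.toAdditive (conjDeltaR N q))) (fun γ => ζ (conjDeltaR N q γ)) := by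
  refine ⟨fun γ γ' => ?_, fun γ hγ => ?_⟩
  · show ζ (conjDeltaR N q (γ * γ')) = _
    rw [map_mul, hζ.1]
    rfl
  · exact hζ.2 _ ((conjDeltaR N q).isOfFinOrder hγ)

theorem maninPairingConjDelta (hA4 : ManinPairingBetaStatement.{u})
    (hD1 : ManinRepExistsStatement.{u}) (hD4 : ManinRepParabolicStatement.{u})
    (hHeis : HeisLiftStatement.{u}) (hEx : TOrbitSystemExistsStatement)
    (hTC : TOrbitCuspStatement) (hCD : CuspSystemConjDeltaStatement) :
    ManinPairingConjDeltaStatement.{u} := by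
  intro N q hN hq hqN F _ φ ψ hφ hψ
  have hq0 : q ≠ 0 := hq.ne_zero
  have hFI' : (gamma0Delta N q).FiniteIndex := finiteIndex_gamma0Delta hN hq0
  have hFI : (Gamma0 (N * q)).FiniteIndex := finiteIndex_gamma0 (Nat.mul_ne_zero hN hq0)
  have hneg' := neg_one_mem_gamma0Delta N q
  have hneg := neg_one_mem_gamma0 (N * q)
  -- a Heisenberg lift on `Γ'`
  obtain ⟨m, hm⟩ := hD1 _ hneg' F φ hφ.2
  obtain ⟨e, he⟩ := (hD4 _ hneg' F φ m hm).1 hφ.1
  obtain ⟨m', hm'⟩ := hD1 _ hneg' F ψ hψ.2
  obtain ⟨e', he'⟩ := (hD4 _ hneg' F ψ m' hm').1 hψ.1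
  obtain ⟨ζ, hζ, -⟩ := hHeis _ hneg' F φ ψ m m' e e' hm hm' he he'
  -- a cusp system on `Γ₀(N q)` and its image
  obtain ⟨ι, inst, γ, h, w, hsys⟩ := hEx (Gamma0 (N * q))
  have hcusp := hTC _ hneg ι γ h w hsys
  have hcusp' := hCD N q hN hq0 ι γ hcusp
  have h1 := hA4 _ hneg F _ _ _ (isCuspidalOn_comp_conjDeltaR φ hφ)
    (isCuspidalOn_comp_conjDeltaR ψ hψ) (isHeisLift_comp_conjDeltaR φ ψ ζ hζ) ι γ hcusp
  have h2 := hA4 _ hneg' F φ ψ ζ hφ hψ hζ ι (fun i => conjDeltaR N q (γ i)) hcusp'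
  exact neg_injective (h1.symm.trans h2)

/-! ## PD -/

theorem isCuspidalOn_comp_symm {N q : ℕ} (hq : q ≠ 0) {A : Type*} [AddCommGroup A]
    (y : Additive (Gamma0 (N * q)) →+ A) (hy : IsCuspidalOn (Gamma0 (N * q)) y) :
    IsCuspidalOn (gamma0Delta N q)
      (y.comp (MonoidHom.toAdditive (conjDeltaEquiv N q hq).symm.toMonoidHom)) := by
  refine ⟨fun γ hγ => ?_, fun γ hγ => ?_⟩
  · refine hy.1 ((conjDeltaEquiv N q hq).symm γ) ?_
    have := trace_conjDeltaR N q ((conjDeltaEquiv N q hq).symm γ)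
    rw [← conjDeltaEquiv_apply N q hq, MulEquiv.apply_symm_apply] at this
    rw [← this]; exact hγ
  · exact hy.2 _ ((conjDeltaEquiv N q hq).symm.toMonoidHom.isOfFinOrder hγ)

theorem pd_of_asm (hA2 : ManinPairingPDStatement.{u}) (hA3 : ManinPairingResCoresStatement.{u})
    (hA5 : ManinPairingConjDeltaStatement.{u}) (hTE : TransferAlongEquivStatement.{u}) :
    PDStatement.{u} := by
  intro F _
  refine ⟨fun n => maninPairing (Gamma0 n), ?_, ?_, ?_, ?_, ?_⟩
  · intro n hn x x' y hx hx' hy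
    have := finiteIndex_gamma0 hn
    exact (hA2 (Gamma0 n) (neg_one_mem_gamma0 n) F).1 x x' y hx hx' hy
  · intro n hn c x y hx hy
    have := finiteIndex_gamma0 hn
    exact (hA2 (Gamma0 n) (neg_one_mem_gamma0 n) F).2.1 c x y hx hy
  · intro n hn x y hx hy
    have := finiteIndex_gamma0 hn
    exact (hA2 (Gamma0 n) (neg_one_mem_gamma0 n) F).2.2.1 x y hx hy
  · intro n hn x hx hxy
    have := finiteIndex_gamma0 hn
    exact (hA2 (Gamma0 n) (neg_one_mem_gamma0 n) F).2.2.2 x hx hxy
  · intro N q hN hq hqN x y hx hy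
    have hq0 : q ≠ 0 := hq.ne_zero
    have hFI : (Gamma0 N).FiniteIndex := finiteIndex_gamma0 hN
    have hFI' : (Gamma0 (N * q)).FiniteIndex := finiteIndex_gamma0 (Nat.mul_ne_zero hN hq0)
    have hFI'' : (gamma0Delta N q).FiniteIndex := finiteIndex_gamma0Delta hN hq0
    beta_reduce
    constructor
    · exact hA3 (Gamma0 (N * q)) (Gamma0 N) (gamma0_mul_le N q) (neg_one_mem_gamma0 _) F x y hx hy
    · -- `r₂ x = (res x) ∘ c_δ`, `y = (y ∘ c_δ⁻¹) ∘ c_δ`, `t₂ y = cores (y ∘ c_δ⁻¹)`
      set e := conjDeltaEquiv N q hq0 with he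
      have hr₂ : r₂ N q x = (x.comp (MonoidHom.toAdditive
          (Subgroup.inclusion (gamma0Delta_le N q)))).comp
            (MonoidHom.toAdditive (conjDeltaR N q)) := by
        unfold r₂
        rw [← inclusion_comp_conjDeltaR]
        rfl
      have hy' : y = (y.comp (MonoidHom.toAdditive e.symm.toMonoidHom)).comp
          (MonoidHom.toAdditive (conjDeltaR N q)) := by
        ext γ
        show y (Additive.ofMul γ) = y (Additive.ofMul (e.symm (conjDeltaR N q γ)))
        rw [← conjDeltaEquiv_apply N q hq0, ← he, MulEquiv.symm_apply_apply]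
      have ht₂ : t₂ N q y = transferAlong (Subgroup.inclusion (gamma0Delta_le N q))
          (y.comp (MonoidHom.toAdditive e.symm.toMonoidHom)) := by
        unfold t₂
        rw [← hTE (Gamma0 (N * q)) (gamma0Delta N q) (Gamma0 N) e
          (Subgroup.inclusion (gamma0Delta_le N q)) F y]
        rfl
      rw [hr₂, ht₂]
      conv_lhs => rw [hy']
      rw [hA5 N q hN hq hqN F _ _ (isCuspidalOn_res (gamma0Delta_le N q) x hx)
        (isCuspidalOn_comp_symm hq0 y hy)]
      exact hA3 (gamma0Delta N q) (Gamma0 N) (gamma0Delta_le N q) (neg_one_mem_gamma0Delta N q) F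
        x _ hx (isCuspidalOn_comp_symm hq0 y hy)

/-! ## LIFT -/

theorem lift_of_leaves (hD1 : ManinRepExistsStatement.{0}) (hD2' : ManinRepInvariantStatement.{0})
    (hLin : ManinRepLinearStatement.{0}) (hD3 : ManinRepRealizeStatement.{0})
    (hD3' : ManinRepTorsionStatement.{0}) (hD4 : ManinRepParabolicStatement.{0})
    (hLift : ParDataLiftStatement) : LiftStatement := by
  intro n p hn xbar hx
  have hFI : (Gamma0 n).FiniteIndex := finiteIndex_gamma0 hn
  have hneg := neg_one_mem_gamma0 n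
  obtain ⟨mbar, hmbar⟩ := hD1 (Gamma0 n) hneg (ZMod p) xbar hx.2
  obtain ⟨ebar, hebar⟩ := (hD4 (Gamma0 n) hneg (ZMod p) xbar mbar hmbar).1 hx.1
  obtain ⟨m, e, hme, hm, -⟩ := hLift (Gamma0 n) p mbar ebar hebar
  obtain ⟨φ, hφ⟩ := hD3 (Gamma0 n) hneg ℤ m
  refine ⟨φ, ⟨(hD4 (Gamma0 n) hneg ℤ φ m hφ).2 ⟨e, hme⟩, hD3' (Gamma0 n) hneg ℤ φ m hφ⟩, ?_⟩
  have h1 := (hLin (Gamma0 n) ℤ (ZMod p) (Int.castAddHom (ZMod p)) φ φ m m hφ hφ).2.2
  have h2 : (fun x => Int.castAddHom (ZMod p) (m x)) = mbar := by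
    funext x
    exact hm x
  rw [h2] at h1
  have h3 := (hLin (Gamma0 n) (ZMod p) (ZMod p) (AddMonoidHom.id _) _ _ _ _ h1 hmbar).2.1
  rw [sub_self] at h3
  have h4 : IsInvariantSum (Gamma0 n) (0 : SL(2, ℤ) ⧸ Gamma0 n → ZMod p) :=
    ⟨0, 0, fun _ => rfl, fun _ => rfl, (add_zero 0).symm⟩
  exact sub_eq_zero.mp (hD2' (Gamma0 n) hneg (ZMod p) _ 0 h3 h4)

/-! ## Everything from the leaves -/

/-- **Block PD from the leaves of `Spec/PD.lean`.** -/
theorem pd_of_leaves
    (hLA1 : ManinPerpStatement.{u}) (hLA2 : ManinSkewStatement.{u})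
    (hLA3 : ManinParDataOfStatement.{u})
    (hD1 : ManinRepExistsStatement.{u}) (hD2 : ManinRepZeroStatement.{u})
    (hD2' : ManinRepInvariantStatement.{u}) (hLin : ManinRepLinearStatement.{u})
    (hD3 : ManinRepRealizeStatement.{u}) (hD3' : ManinRepTorsionStatement.{u})
    (hD4 : ManinRepParabolicStatement.{u})
    (hTR1 : ManinRepResStatement.{u}) (hTR2 : ManinRepCoresStatement.{u})
    (hTR3 : ManinFormAdjointStatement.{u}) (hTR4 : TransferAlongEquivStatement.{u})
    (hHeis : HeisLiftStatement.{u}) (hZero : CuspSumZeroStatement.{u})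
    (hC1 : TOrbitSystemExistsStatement) (hC2 : TOrbitCuspStatement)
    (hC3 : CuspSumIndepStatement.{u}) (hC4 : CuspSystemConjDeltaStatement) :
    PDStatement.{u} := by
  have hA1 := maninPairingEq hD2 hLin hD4 hLA2
  have hA2 := maninPairingPD hA1 hD1 hD2' hLin hD3 hD3' hD4 hLA1 hLA2 hLA3
  have hA3 := maninPairingResCores hA1 hD1 hD4 hTR1 hTR2 hTR3
  have hA4 := maninPairingBeta hA1 hD1 hD4 hHeis hZero hC1 hC2 hC3
  have hA5 := maninPairingConjDelta hA4 hD1 hD4 hHeis hC1 hC2 hC4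
  exact pd_of_asm hA2 hA3 hA5 hTR4

/-- **Block PD with Hecke operators from the leaves.** -/
theorem pdHecke_of_leaves (hPD : PDStatement.{u}) (hH : PDHeckeOfPDStatement.{u})
    (hRC : RestrictCuspStatement.{u}) (hTRH : TransferRestrictHeckeStatement.{u}) :
    PDHeckeStatement.{u} := by
  intro F _
  obtain ⟨B, hB⟩ := hPD F
  exact ⟨B, hB, hH hRC hTRH F B hB⟩

end Fermat.Agent.S41.H221

end
-- ===== PACK-END S41/H221/PDAsm2.lean

-- ===== PACK-BEGIN S41/H874/PDCuspSumMain.lean
section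



/-!
# Row S41, block PD: leaves HEIS-U and D1, unconditional (helper874)

* `maninRepExists_h874 : Spec.ManinRepExistsStatement`   (D1, in `PDManinRep.lean`)
* `cuspSumZero_h874    : Spec.CuspSumZeroStatement`      (HEIS-U)
-/

set_option autoImplicit false

namespace Fermat.Agent.S41.H874

universe u

/-- **(HEIS-U)** a torsion-trivial homomorphism sums to `0` over a `T`-orbit system. -/
theorem cuspSumZero_h874 : Spec.CuspSumZeroStatement.{u} :=
  cuspSumZero_of maninRepExists_h874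

end Fermat.Agent.S41.H874

end
-- ===== PACK-END S41/H874/PDCuspSumMain.lean

-- ===== PACK-BEGIN Ribet/H883/Involution.lean
section
/-
RIBET row, piece R3 (helper883): the involution `ι` (conjugation by `diag(1,-1)`, Prelude
`charInvolution`) commutes with the Hecke transfer on parabolic characters.
-/



set_option autoImplicit false

noncomputable section

namespace Fermat.Agent.Ribet.H883

open CongruenceSubgroup Matrix.SpecialLinearGroup ModularCurve ModularCurve.Period
open Fermat.Agent.S29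
open scoped MatrixGroups

variable {N : ℕ} {A : Type*} [AddCommGroup A]

/-- The upper unipotent element `[[1, e], [0, 1]]` of `Γ₀(N)`. -/
def uElt (N : ℕ) (e : ℤ) : G0 N :=
  H149.HCoh_mk !![1, e; 0, 1] (by simp [Matrix.det_fin_two_of]) (by simp)

theorem uElt_mat (e : ℤ) : (uElt N e).mat = !![1, e; 0, 1] := rfl

theorem jConj_mat (γ : G0 N) : G0.mat (jConjGamma0 N γ) = jConjMat γ.mat := rfl

section idx

variable (ℓ : ℕ)

/-- The involution `b ↦ -b` on the index set of the Hecke representatives. -/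
def negIdx : Option (Fin ℓ) ≃ Option (Fin ℓ) := Equiv.optionCongr (Equiv.neg (Fin ℓ))

@[simp] theorem negIdx_none : negIdx ℓ none = none := rfl

@[simp] theorem negIdx_some (b : Fin ℓ) : negIdx ℓ (some b) = some (-b) := rfl

/-- The correction exponent: `0` for `∞` and `b = 0`, `1` otherwise. -/
def epsIdx : Option (Fin ℓ) → ℤ
  | none => 0
  | some b => if (b : ℕ) = 0 then 0 else 1

theorem uElt_mul_jConjMat_heckeRep (i : Option (Fin ℓ)) :
    (uElt N (epsIdx ℓ i)).mat * jConjMat (heckeRep ℓ i) = heckeRep ℓ (negIdx ℓ i) := by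
  rcases i with _ | b
  · rw [uElt_mat]
    ext r s
    fin_cases r <;> fin_cases s <;>
      simp [epsIdx, heckeRep, jConjMat, Matrix.mul_apply, Fin.sum_univ_two]
  · have hb : (((-b : Fin ℓ) : ℕ) : ℤ) = epsIdx ℓ (some b) * ℓ - (b : ℕ) := by
      rw [Fin.val_neg']
      by_cases h0 : (b : ℕ) = 0
      · simp [epsIdx, h0]
      · have hlt : (b : ℕ) < ℓ := b.2
        have hpos : 0 < (b : ℕ) := Nat.pos_of_ne_zero h0
        have h1 : (ℓ - (b : ℕ)) % ℓ = ℓ - (b : ℕ) := Nat.mod_eq_of_lt (by omega)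
        rw [h1]
        simp only [epsIdx, h0, if_false, one_mul]
        omega
    rw [uElt_mat]
    ext r s
    fin_cases r <;> fin_cases s
    · simp [heckeRep, jConjMat, Matrix.mul_apply, Fin.sum_univ_two]
    · simp only [heckeRep, jConjMat, Matrix.mul_apply, Fin.sum_univ_two, negIdx_some,
        Fin.zero_eta, Fin.isValue, Fin.mk_one, Matrix.of_apply, Matrix.cons_val', Matrix.cons_val_zero,
        Matrix.cons_val_fin_one, Matrix.cons_val_one]
      rw [hb]
      ring
    · simp [heckeRep, jConjMat, Matrix.mul_apply, Fin.sum_univ_two]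
    · simp [heckeRep, jConjMat, Matrix.mul_apply, Fin.sum_univ_two]

end idx

section main

variable {ℓ : ℕ}

/-- Behaviour of the Hecke factorisation under the involution `jConj`. -/
theorem heckeFac_jConj (hℓ : ℓ.Prime) (hℓN : ¬ ℓ ∣ N) (γ : G0 N) (i : Option (Fin ℓ)) :
    heckeFac N ℓ (jConjGamma0 N γ) (negIdx ℓ i) =
      (negIdx ℓ (heckeFac N ℓ γ i).1,
        uElt N (epsIdx ℓ i) * jConjGamma0 N (heckeFac N ℓ γ i).2 *
          (uElt N (epsIdx ℓ (heckeFac N ℓ γ i).1))⁻¹) := by
  apply H149.HCoh_heckeFac_unique hℓ hℓN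
  have h := H149.HCoh_heckeFac_spec hℓ hℓN γ i
  unfold IsHeckeFactor at h ⊢
  set j := (heckeFac N ℓ γ i).1 with hj
  set γ' := (heckeFac N ℓ γ i).2 with hγ'
  have h2 : jConjMat (heckeRep ℓ i) * jConjMat γ.mat = jConjMat γ'.mat * jConjMat (heckeRep ℓ j) := by
    rw [← jConjMat_mul, ← jConjMat_mul, h]
  have hi := uElt_mul_jConjMat_heckeRep (N := N) ℓ i
  have hjj := uElt_mul_jConjMat_heckeRep (N := N) ℓ j
  have hu : (uElt N (epsIdx ℓ j))⁻¹.mat * (uElt N (epsIdx ℓ j)).mat = 1 := by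
    rw [← H149.HCoh_mat_mul, inv_mul_cancel]
    rfl
  show heckeRep ℓ (negIdx ℓ i) * G0.mat (jConjGamma0 N γ) =
    G0.mat (uElt N (epsIdx ℓ i) * jConjGamma0 N γ' * (uElt N (epsIdx ℓ j))⁻¹) *
      heckeRep ℓ (negIdx ℓ j)
  rw [H149.HCoh_mat_mul, H149.HCoh_mat_mul, jConj_mat, jConj_mat, ← hi, ← hjj]
  calc (uElt N (epsIdx ℓ i)).mat * jConjMat (heckeRep ℓ i) * jConjMat γ.mat
      = (uElt N (epsIdx ℓ i)).mat * (jConjMat (heckeRep ℓ i) * jConjMat γ.mat) := by
        rw [Matrix.mul_assoc]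
    _ = (uElt N (epsIdx ℓ i)).mat * (jConjMat γ'.mat * jConjMat (heckeRep ℓ j)) := by rw [h2]
    _ = (uElt N (epsIdx ℓ i)).mat * jConjMat γ'.mat *
          ((uElt N (epsIdx ℓ j))⁻¹.mat * (uElt N (epsIdx ℓ j)).mat) * jConjMat (heckeRep ℓ j) := by
        rw [hu, Matrix.mul_one, Matrix.mul_assoc]
    _ = _ := by simp only [Matrix.mul_assoc]

/-- **The involution commutes with the cohomological Hecke operator** on additive functions
killing the unipotent elements. -/
theorem heckeCoh_comp_jConj (hℓ : ℓ.Prime) (hℓN : ¬ ℓ ∣ N) {c : G0 N → A}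
    (hadd : ∀ γ γ' : G0 N, c (γ * γ') = c γ + c γ')
    (hpar : ∀ γ : G0 N, γ.mat.trace = 2 → c γ = 0) (γ : G0 N) :
    heckeCoh N ℓ (fun δ => c (jConjGamma0 N δ)) (jConjGamma0 N γ) = heckeCoh N ℓ c γ := by
  have hu : ∀ e : ℤ, c (uElt N e) = 0 := fun e => hpar _ (by
    rw [uElt_mat, Matrix.trace_fin_two_of]; norm_num)
  have hc1 : c 1 = 0 := by
    have h := hadd 1 1
    rw [mul_one] at h
    exact left_eq_add.mp h
  have hinv : ∀ δ : G0 N, c δ⁻¹ = - c δ := fun δ => by
    have h := hadd δ δ⁻¹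
    rw [mul_inv_cancel, hc1] at h
    exact eq_neg_of_add_eq_zero_right h.symm
  unfold heckeCoh
  rw [← Equiv.sum_comp (negIdx ℓ)]
  refine Finset.sum_congr rfl fun i _ => ?_
  rw [heckeFac_jConj hℓ hℓN γ i]
  show c (jConjGamma0 N (uElt N (epsIdx ℓ i) * jConjGamma0 N (heckeFac N ℓ γ i).2 *
    (uElt N (epsIdx ℓ (heckeFac N ℓ γ i).1))⁻¹)) = _
  rw [map_mul, map_mul, jConjGamma0_jConjGamma0, hadd, hadd]
  have h1 : c (jConjGamma0 N (uElt N (epsIdx ℓ i))) = 0 := hpar _ (by
    rw [jConj_mat, jConjMat_trace, uElt_mat, Matrix.trace_fin_two_of]; norm_num)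
  have h2 : c (jConjGamma0 N (uElt N (epsIdx ℓ (heckeFac N ℓ γ i).1))⁻¹) = 0 := by
    rw [map_inv, hinv]
    rw [hpar _ (by rw [jConj_mat, jConjMat_trace, uElt_mat, Matrix.trace_fin_two_of]; norm_num),
      neg_zero]
  rw [h1, h2, zero_add, add_zero]

end main

section transfer

variable {ℓ : ℕ} [Fact ℓ.Prime]

/-- **The involution `ι` commutes with the Hecke transfer** on parabolic characters. -/
theorem heckeTransfer_charInvolution (R : Type*) [Semiring R] [Module R A] (hℓN : ¬ ℓ ∣ N)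
    (φ : Additive (Gamma0 N) →+ A) (hφ : IsParabolicHom (Gamma0 N) φ) :
    H642.heckeTransfer hℓN (charInvolution N R A φ) =
      charInvolution N R A (H642.heckeTransfer hℓN φ) := by
  apply funOf_injective
  rw [funOf_heckeTransfer]
  funext γ
  have key := heckeCoh_comp_jConj (A := A) (Fact.out : ℓ.Prime) hℓN (c := funOf φ)
    (funOf_map_mul φ) (fun δ hδ => hφ δ (by
      have : ((δ : SL(2, ℤ)) : Matrix (Fin 2) (Fin 2) ℤ).trace = 2 := hδ
      rw [this]; norm_num)) (jConjGamma0 N γ)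
  rw [jConjGamma0_jConjGamma0] at key
  have e1 : funOf (charInvolution N R A φ) = fun δ => funOf φ (jConjGamma0 N δ) := rfl
  rw [e1, key]
  show heckeCoh N ℓ (funOf φ) (jConjGamma0 N γ) =
    (H642.heckeTransfer hℓN φ) (Additive.ofMul (jConjGamma0 N γ))
  rw [← funOf_apply, funOf_heckeTransfer]

end transfer

end Fermat.Agent.Ribet.H883

end
end
-- ===== PACK-END Ribet/H883/Involution.lean

-- ===== PACK-BEGIN Lib/Frob/A1/H382/Reduction.lean
section





/-!
# Piece A1 (helper382): reduction of prime-to-`ℓ` torsion, `ReductionData`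

From the reduction homomorphism `Fermat.Agent.Lib.Red.H382.red` at a valuation subring `A` of `ℚ̄`
above a good prime `ℓ`:  `k := κ_A`, `red : W[n](ℚ̄) → (W mod ℓ)(k)` is injective (S05 C1: the
kernel of reduction has no `n`-torsion for `ℓ ∤ n`) and intertwines a Frobenius element `σ` at `A`
with the `ℓ`-power Frobenius of `(W mod ℓ)(k)`.
-/

set_option autoImplicit false
set_option linter.unusedSectionVars false
set_option linter.unusedVariables false

open WeierstrassCurve WeierstrassCurve.Affine WeierstrassCurve.Affine.Point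

namespace Fermat.Agent.Lib.Frob.A1.H382

open Fermat.Agent.Lib.Red.H382 Fermat.Agent.S05.SameRed Fermat.Agent.Lib.Frob

/-! ### transport of points along an equality of curves -/

section cast

variable {F : Type*} [Field F] [DecidableEq F]

/-- transport of points along an equality of curves -/
noncomputable def pointCast {W₁ W₂ : Affine F} (h : W₁ = W₂) : W₁.Point ≃+ W₂.Point := by
  subst h; exact AddEquiv.refl _

lemma pointCast_some {W₁ W₂ : Affine F} (h : W₁ = W₂) {x y : F} (hxy : W₁.Nonsingular x y) :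
    pointCast h (Point.some x y hxy) = Point.some x y (h ▸ hxy) := by
  subst h; rfl

lemma pointCast_symm_some {W₁ W₂ : Affine F} (h : W₁ = W₂) {x y : F}
    (hxy : W₂.Nonsingular x y) :
    (pointCast h).symm (Point.some x y hxy) = Point.some x y (h ▸ hxy) := by
  subst h; rfl

end cast

/-! ### integers in a valuation subring above `ℓ` -/

section ints

variable {L : Type*} [Field L] (A : ValuationSubring L) {ℓ : ℕ}

lemma val_intCast_le_one (m : ℤ) : A.valuation (m : L) ≤ 1 :=
  (A.valuation_le_one_iff _).mpr (intCast_mem A m)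

lemma val_intCast_eq_one (hℓ : ℓ.Prime) (hA : (ℓ : L) ∈ A.nonunits) {m : ℤ}
    (hm : ¬ (ℓ : ℤ) ∣ m) : A.valuation (m : L) = 1 := by
  have hcop : IsCoprime (ℓ : ℤ) m :=
    (Prime.coprime_iff_not_dvd (Nat.prime_iff_prime_int.mp hℓ)).mpr hm
  obtain ⟨a, b, hab⟩ := hcop
  have hℓv : A.valuation (ℓ : L) < 1 := A.mem_nonunits_iff.mp hA
  have h1 : A.valuation ((a : L) * (ℓ : L)) < 1 := by
    rw [map_mul]
    exact lt_of_le_of_lt (mul_le_of_le_one_left' (val_intCast_le_one A a)) hℓv
  have hab' : (a : L) * (ℓ : L) + (b : L) * (m : L) = 1 := by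
    have := congrArg (fun t : ℤ => (t : L)) hab
    simpa using this
  have h2 : A.valuation ((b : L) * (m : L)) = 1 := by
    have e : (b : L) * (m : L) = 1 + -((a : L) * (ℓ : L)) := by
      rw [← hab']; ring
    rw [e, (A.valuation).map_add_eq_of_lt_left (by rwa [Valuation.map_neg, map_one]), map_one]
  refine le_antisymm (val_intCast_le_one A m) ?_
  rw [← h2, map_mul]
  exact mul_le_of_le_one_left' (val_intCast_le_one A b)

lemma val_natCast_eq_one (hℓ : ℓ.Prime) (hA : (ℓ : L) ∈ A.nonunits) {n : ℕ}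
    (hn : ¬ ℓ ∣ n) : A.valuation (n : L) = 1 := by
  have := val_intCast_eq_one A hℓ hA (m := (n : ℤ)) (by exact_mod_cast hn)
  simpa using this

/-- the residue field has characteristic `ℓ` -/
lemma charP_residueField (hℓ : ℓ.Prime) (hA : (ℓ : L) ∈ A.nonunits) :
    CharP (IsLocalRing.ResidueField A) ℓ := by
  rw [CharP.charP_iff_prime_eq_zero hℓ]
  have h : ((ℓ : A) : L) ∈ A.nonunits := by simpa using hA
  have hmem : (ℓ : A) ∈ IsLocalRing.maximalIdeal A := by
    rw [A.valuation_lt_one_iff]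
    exact A.mem_nonunits_iff.mp h
  have := (IsLocalRing.residue_eq_zero_iff (ℓ : A)).mpr hmem
  simpa using this

end ints

end Fermat.Agent.Lib.Frob.A1.H382

end
-- ===== PACK-END Lib/Frob/A1/H382/Reduction.lean

-- ===== PACK-BEGIN S55/E1/H423/UnifDiv.lean
section


/-!
# S55, engine E1, block LIM: uniform `p`-divisibility of `S`-units in the tower (GD9)

`SUnitsDivSpec` makes every single `S`-unit of a level a `p`-th power (of an `S`-unit) at some
higher level.  Here: the same for finitely many `S`-units at once, given directedness of the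
levels (`IsDirected (Level S) (· ≤ ·)`, proved by helper603).

* `trUnits_trUnits`, `isSUnit_trUnits` : bookkeeping;
* `exists_level_div_finset` : uniform divisibility for a finite set of `S`-units;
* `exists_level_div_closure` : the same for all elements of the subgroup generated by a finite
  set of `S`-units.
-/

set_option autoImplicit false

open CategoryTheory

namespace Fermat.Agent.S55.E1.H423

open Fermat.Agent.S55.Tow

variable {S : Finset Nat.Primes}

theorem trUnits_trUnits {L L' L'' : Level S} (h : L ≤ L') (h' : L' ≤ L'') (e : L.units.V) :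
    (Level.trUnits h').hom ((Level.trUnits h).hom e) = (Level.trUnits (h.trans h')).hom e := rfl

theorem isSUnit_trUnits {L L' : Level S} (h : L ≤ L') {e : L.units.V} (he : L.IsSUnit e) :
    L'.IsSUnit ((Level.trUnits h).hom e) := he

theorem isSUnit_zero (L : Level S) : L.IsSUnit (0 : L.units.V) := by
  intro ℓ _ A _
  refine ⟨?_, ?_⟩
  · show ((1 : Qbarˣ) : Qbar) ∈ A
    rw [Units.val_one]; exact A.one_mem
  · show (((1 : Qbarˣ)⁻¹ : Qbarˣ) : Qbar) ∈ A
    rw [inv_one, Units.val_one]; exact A.one_mem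

theorem isSUnit_add (L : Level S) {e e' : L.units.V} (he : L.IsSUnit e) (he' : L.IsSUnit e') :
    L.IsSUnit (e + e') := by
  intro ℓ hℓ A hA
  obtain ⟨h1, h2⟩ := he ℓ hℓ A hA
  obtain ⟨h1', h2'⟩ := he' ℓ hℓ A hA
  refine ⟨?_, ?_⟩
  · show ((L.val e * L.val e' : Qbarˣ) : Qbar) ∈ A
    rw [Units.val_mul]; exact A.mul_mem _ _ h1 h1'
  · show (((L.val e * L.val e')⁻¹ : Qbarˣ) : Qbar) ∈ A
    rw [mul_inv, Units.val_mul]; exact A.mul_mem _ _ h2 h2'

theorem isSUnit_neg (L : Level S) {e : L.units.V} (he : L.IsSUnit e) : L.IsSUnit (-e) := by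
  intro ℓ hℓ A hA
  obtain ⟨h1, h2⟩ := he ℓ hℓ A hA
  refine ⟨?_, ?_⟩
  · show (((L.val e)⁻¹ : Qbarˣ) : Qbar) ∈ A
    exact h2
  · show ((((L.val e)⁻¹)⁻¹ : Qbarˣ) : Qbar) ∈ A
    rw [inv_inv]; exact h1

/-- **GD9, uniform form**: finitely many `S`-units become divisible by `p` (by `S`-units) at a
common higher level. -/
theorem exists_level_div_finset [IsDirected (Level S) (· ≤ ·)] {p : ℕ}
    (h : SUnitsDivSpec S p) (L : Level S) (s : Finset L.units.V)
    (hs : ∀ e ∈ s, L.IsSUnit e) :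
    ∃ (L' : Level S) (hLL' : L ≤ L'), ∀ e ∈ s, ∃ e' : L'.units.V, L'.IsSUnit e' ∧
      p • e' = (Level.trUnits hLL').hom e := by
  classical
  induction s using Finset.induction_on with
  | empty => exact ⟨L, le_rfl, fun e he => absurd he (Finset.notMem_empty e)⟩
  | insert a s _ ih =>
    obtain ⟨L₁, h₁, hL₁⟩ := ih (fun e he => hs e (Finset.mem_insert_of_mem he))
    obtain ⟨L₂, h₂, a', ha', ha⟩ := h.1 L a (hs a (Finset.mem_insert_self a s))
    obtain ⟨L', h₁', h₂'⟩ := exists_ge_ge L₁ L₂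
    refine ⟨L', h₁.trans h₁', fun e he => ?_⟩
    rcases Finset.mem_insert.1 he with rfl | he
    · refine ⟨(Level.trUnits h₂').hom a', isSUnit_trUnits h₂' ha', ?_⟩
      rw [← map_nsmul, ha]
      rfl
    · obtain ⟨e', he', hee'⟩ := hL₁ e he
      refine ⟨(Level.trUnits h₁').hom e', isSUnit_trUnits h₁' he', ?_⟩
      rw [← map_nsmul, hee']
      rfl

/-- **GD9, uniform form for finitely generated subgroups.** -/
theorem exists_level_div_closure [IsDirected (Level S) (· ≤ ·)] {p : ℕ}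
    (h : SUnitsDivSpec S p) (L : Level S) (s : Finset L.units.V)
    (hs : ∀ e ∈ s, L.IsSUnit e) :
    ∃ (L' : Level S) (hLL' : L ≤ L'), ∀ e ∈ AddSubgroup.closure (s : Set L.units.V),
      ∃ e' : L'.units.V, L'.IsSUnit e' ∧ p • e' = (Level.trUnits hLL').hom e := by
  obtain ⟨L', hLL', hL'⟩ := exists_level_div_finset h L s hs
  refine ⟨L', hLL', fun e he => ?_⟩
  induction he using AddSubgroup.closure_induction with
  | mem y hy => exact hL' y hy
  | zero => exact ⟨0, isSUnit_zero L', by rw [map_zero, smul_zero]⟩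
  | add y z _ _ hy hz =>
    obtain ⟨a, ha, hay⟩ := hy
    obtain ⟨b, hb, hbz⟩ := hz
    exact ⟨a + b, isSUnit_add L' ha hb, by rw [map_add, smul_add, hay, hbz]⟩
  | neg y _ hy =>
    obtain ⟨a, ha, hay⟩ := hy
    exact ⟨-a, isSUnit_neg L' ha, by rw [map_neg, smul_neg, hay]⟩

end Fermat.Agent.S55.E1.H423

end
-- ===== PACK-END S55/E1/H423/UnifDiv.lean

-- ===== PACK-BEGIN S19/Unr/H992/Base.lean
section



/-!
# UNR / node UB (helper992) — base lemmas

* §1 `conjFun` API, the stabiliser `stab`, finite level (`exists_finiteLevel`);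
* §2 valuation subrings of `Q̄` above `ℓ` are archimedean (`eventually_pow_mul_mem`);
* §3 the conductor of a local order (`exists_conductor`);
* §4 approximation (`exists_approx`): an algebraic integer of `F`, `≡ 1` at `V` and in the maximal
  ideal at finitely many places outside the `Gal(Q̄/F)`-orbit of `V`.
-/

set_option autoImplicit false
set_option linter.unusedSectionVars false
set_option linter.style.haveILetI false

noncomputable section

namespace Fermat.Agent.S19.Unr.H992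

/-! ## §1 the semilinear action on functions -/

section


open Fermat.Agent.S19 Fermat.Agent.S19.Unr

variable {M : Type} [AddCommGroup M] {act : GalQ → M → M}

theorem act_inv_act (hact : IsContAddAction act) (σ : GalQ) (m : M) :
    act σ⁻¹ (act σ m) = m := by
  rw [← hact.act_mul, inv_mul_cancel, hact.act_one]

theorem act_act_inv (hact : IsContAddAction act) (σ : GalQ) (m : M) :
    act σ (act σ⁻¹ m) = m := by
  rw [← hact.act_mul, mul_inv_cancel, hact.act_one]

@[simp] theorem conjFun_apply (σ : GalQ) (h : M → Qb) (m : M) :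
    conjFun act σ h m = σ (h (act σ⁻¹ m)) := rfl

theorem conjFun_one (hact : IsContAddAction act) (h : M → Qb) : conjFun act 1 h = h := by
  funext m
  simp [conjFun, hact.act_one]

theorem conjFun_mul (hact : IsContAddAction act) (σ τ : GalQ) (h : M → Qb) :
    conjFun act (σ * τ) h = conjFun act σ (conjFun act τ h) := by
  funext m
  simp only [conjFun, mul_inv_rev, hact.act_mul]
  rfl

theorem conjFun_add (σ : GalQ) (f g : M → Qb) :
    conjFun act σ (f + g) = conjFun act σ f + conjFun act σ g := by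
  funext m
  simp [conjFun]

theorem conjFun_zero (σ : GalQ) : conjFun act σ (0 : M → Qb) = 0 := by
  funext m
  simp [conjFun]

theorem conjFun_mul_fun (σ : GalQ) (f g : M → Qb) :
    conjFun act σ (f * g) = conjFun act σ f * conjFun act σ g := by
  funext m
  simp [conjFun]

theorem conjFun_smul (σ : GalQ) (c : Qb) (f : M → Qb) :
    conjFun act σ (c • f) = σ c • conjFun act σ f := by
  funext m
  simp [conjFun]

theorem conjFun_sum {ι : Type*} (σ : GalQ) (s : Finset ι) (f : ι → M → Qb) :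
    conjFun act σ (∑ i ∈ s, f i) = ∑ i ∈ s, conjFun act σ (f i) := by
  classical
  induction s using Finset.induction_on with
  | empty => simp [conjFun_zero]
  | insert a s ha ih => rw [Finset.sum_insert ha, Finset.sum_insert ha, conjFun_add, ih]

theorem isEquivariant_iff (hact : IsContAddAction act) (h : M → Qb) :
    IsEquivariant act h ↔ ∀ σ : GalQ, conjFun act σ h = h := by
  constructor
  · intro he σ
    funext m
    have := he σ (act σ⁻¹ m)
    rw [act_act_inv hact] at this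
    exact this.symm
  · intro hc σ m
    have := congrFun (hc σ) (act σ m)
    simp only [conjFun_apply, act_inv_act hact] at this
    exact this.symm

theorem conjFun_eq_of_inertiaEquivariant (hact : IsContAddAction act) {V : ValuationSubring Qb}
    {h : M → Qb} (hh : IsInertiaEquivariant V act h) {σ : GalQ} (hσ : IsInertiaAt V σ) :
    conjFun act σ h = h := by
  funext m
  have := hh σ hσ (act σ⁻¹ m)
  rw [act_act_inv hact] at this
  exact this.symm

/-- The stabiliser of `x` for the semilinear action. -/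
def stab (hact : IsContAddAction act) (x : M → Qb) : Subgroup GalQ where
  carrier := {σ | conjFun act σ x = x}
  mul_mem' := by
    intro a b ha hb
    show conjFun act (a * b) x = x
    rw [conjFun_mul hact, show conjFun act b x = x from hb]
    exact ha
  one_mem' := conjFun_one hact x
  inv_mem' := by
    intro a ha
    show conjFun act a⁻¹ x = x
    have h1 : conjFun act a⁻¹ (conjFun act a x) = x := by
      rw [← conjFun_mul hact, inv_mul_cancel, conjFun_one hact]
    rw [show conjFun act a x = x from ha] at h1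
    exact h1

theorem mem_stab (hact : IsContAddAction act) (x : M → Qb) (σ : GalQ) :
    σ ∈ stab hact x ↔ conjFun act σ x = x := Iff.rfl

/-- Finite level: a function on a finite `M` is fixed by `Gal(Q̄/E)` for a number field `E`. -/
theorem exists_finiteLevel [Finite M] (hact : IsContAddAction act) (x : M → Qb) :
    ∃ E : IntermediateField ℚ Qb, FiniteDimensional ℚ E ∧ E.fixingSubgroup ≤ stab hact x := by
  classical
  choose L hLfin hL using hact.cont
  let E : IntermediateField ℚ Qb := ⨆ m : M, (L m ⊔ IntermediateField.adjoin ℚ {x m})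
  have hfin : ∀ m : M, FiniteDimensional ℚ ↥(L m ⊔ IntermediateField.adjoin ℚ {x m}) := by
    intro m
    haveI := hLfin m
    haveI : FiniteDimensional ℚ ↥(IntermediateField.adjoin ℚ {x m}) :=
      IntermediateField.adjoin.finiteDimensional (Algebra.IsIntegral.isIntegral (x m))
    exact IntermediateField.finiteDimensional_sup _ _
  haveI : FiniteDimensional ℚ E := IntermediateField.finiteDimensional_iSup_of_finite
  refine ⟨E, inferInstance, ?_⟩
  intro σ hσ
  have hσ' : ∀ a ∈ E, σ a = a := fun a ha => hσ ⟨a, ha⟩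
  have hLE : ∀ m, L m ≤ E := fun m => le_trans le_sup_left (le_iSup (fun m : M =>
    L m ⊔ IntermediateField.adjoin ℚ {x m}) m)
  have hxE : ∀ m, x m ∈ E := fun m =>
    (le_trans le_sup_right (le_iSup (fun m : M => L m ⊔ IntermediateField.adjoin ℚ {x m}) m))
      (IntermediateField.mem_adjoin_simple_self ℚ (x m))
  have hσinv : ∀ a ∈ E, σ⁻¹ a = a := by
    intro a ha
    have := hσ' a ha
    calc σ⁻¹ a = σ⁻¹ (σ a) := by rw [this]
      _ = a := by simp
  rw [mem_stab]
  funext m
  simp only [conjFun_apply]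
  rw [hL m σ⁻¹ (fun a ha => hσinv a (hLE m ha)), hσ' _ (hxE m)]

end

/-! ## §2 valuation subrings above ℓ are archimedean -/

section


open Fermat.Agent.S19 Fermat.Agent.S19.Unr Fermat.Agent.S14.H714 Polynomial

variable (V : ValuationSubring _root_.Fermat.Agent.S19.Qb) {ℓ : ℕ}

theorem natCast_unit_of_not_dvd (hℓ : ℓ.Prime) (hV : (ℓ : _root_.Fermat.Agent.S19.Qb) ∈ V.nonunits) {n : ℕ}
    (hn : ¬ ℓ ∣ n) : ((n : _root_.Fermat.Agent.S19.Qb))⁻¹ ∈ V := by
  have h1 : ¬ ((ℓ : ℤ) ∣ (n : ℤ)) := by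
    intro h
    exact hn (Int.natCast_dvd_natCast.mp h)
  have h2 := intCast_not_mem_nonunits V hℓ hV h1
  have h3 := (inv_mem_of_not_mem_nonunits V h2).2
  simpa using h3

/-- (A2) bounded denominators. -/
theorem exists_pow_mul_mem (hℓ : ℓ.Prime) (hV : (ℓ : _root_.Fermat.Agent.S19.Qb) ∈ V.nonunits) (z : _root_.Fermat.Agent.S19.Qb) :
    ∃ e : ℕ, (ℓ : _root_.Fermat.Agent.S19.Qb) ^ e * z ∈ V := by
  obtain ⟨y, hy, hint⟩ := IsAlgebraic.exists_integral_multiple
    (Algebra.IsAlgebraic.isAlgebraic (R := ℤ) z)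
  have hmem : (y : _root_.Fermat.Agent.S19.Qb) * z ∈ V := by
    have := mem_of_isIntegral V hint
    rwa [zsmul_eq_mul] at this
  have hn : y.natAbs ≠ 0 := Int.natAbs_ne_zero.mpr hy
  obtain ⟨e, n', hn', hne⟩ := Nat.exists_eq_pow_mul_and_not_dvd hn ℓ hℓ.ne_one
  refine ⟨e, ?_⟩
  have hu := natCast_unit_of_not_dvd V hℓ hV hn'
  have hn'0 : (n' : _root_.Fermat.Agent.S19.Qb) ≠ 0 := by
    intro h0
    have : n' = 0 := by exact_mod_cast h0
    exact hn' (this ▸ dvd_zero ℓ)
  -- `|y| * z ∈ V`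
  have habs : ((y.natAbs : ℕ) : _root_.Fermat.Agent.S19.Qb) * z ∈ V := by
    rcases Int.natAbs_eq y with h | h
    · have : (y : _root_.Fermat.Agent.S19.Qb) = ((y.natAbs : ℕ) : _root_.Fermat.Agent.S19.Qb) := by
        have h' : (y : _root_.Fermat.Agent.S19.Qb) = (((y.natAbs : ℕ) : ℤ) : _root_.Fermat.Agent.S19.Qb) := congrArg _ h
        rwa [Int.cast_natCast] at h'
      rwa [this] at hmem
    · have : (y : _root_.Fermat.Agent.S19.Qb) = -((y.natAbs : ℕ) : _root_.Fermat.Agent.S19.Qb) := by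
        have h' : (y : _root_.Fermat.Agent.S19.Qb) = ((-((y.natAbs : ℕ) : ℤ) : ℤ) : _root_.Fermat.Agent.S19.Qb) := congrArg _ h
        rwa [Int.cast_neg, Int.cast_natCast] at h'
      rw [this, neg_mul] at hmem
      have := V.neg_mem _ hmem
      rwa [neg_neg] at this
  have key : (ℓ : _root_.Fermat.Agent.S19.Qb) ^ e * z = (((y.natAbs : ℕ) : _root_.Fermat.Agent.S19.Qb) * z) * ((n' : _root_.Fermat.Agent.S19.Qb))⁻¹ := by
    rw [hne]
    push_cast
    field_simp
  rw [key]
  exact V.mul_mem _ _ habs hu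

/-- (A1) a non-unit has a power divisible by `ℓ`. -/
theorem exists_pow_eq_mul (hℓ : ℓ.Prime) (hV : (ℓ : _root_.Fermat.Agent.S19.Qb) ∈ V.nonunits) {π : _root_.Fermat.Agent.S19.Qb}
    (hπ : π ∈ V.nonunits) : ∃ (j : ℕ) (v : _root_.Fermat.Agent.S19.Qb), v ∈ V ∧ π ^ j = (ℓ : _root_.Fermat.Agent.S19.Qb) * v := by
  classical
  have hπV : π ∈ V := mem_of_mem_nonunits V hπ
  obtain ⟨p, hp0, hp⟩ := Algebra.IsAlgebraic.isAlgebraic (R := ℤ) π
  have hprim := p.isPrimitive_primPart
  have hroot : aeval π p.primPart = 0 := aeval_primPart_eq_zero hp0 hp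
  have hex : ∃ i, ¬ ((ℓ : ℤ) ∣ p.primPart.coeff i) := by
    by_contra hcon
    push Not at hcon
    have := hprim (ℓ : ℤ) ((C_dvd_iff_dvd_coeff _ _).mpr hcon)
    exact (Nat.prime_iff_prime_int.mp hℓ).not_isUnit this
  set q := p.primPart with hq
  let j := Nat.find hex
  have hj : ¬ ((ℓ : ℤ) ∣ q.coeff j) := Nat.find_spec hex
  have hlt : ∀ i < j, (ℓ : ℤ) ∣ q.coeff i := fun i hi => by
    by_contra h
    exact Nat.find_min hex hi h
  have hjn : j ≤ q.natDegree := by
    by_contra h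
    push Not at h
    rw [coeff_eq_zero_of_natDegree_lt h] at hj
    exact hj (dvd_zero _)
  -- expand
  have hsum : ∑ i ∈ Finset.range (q.natDegree + 1), ((q.coeff i : ℤ) : _root_.Fermat.Agent.S19.Qb) * π ^ i = 0 := by
    have := hroot
    rw [aeval_eq_sum_range] at this
    simpa [zsmul_eq_mul] using this
  rw [Finset.range_eq_Ico, ← Finset.sum_Ico_consecutive _ (Nat.zero_le j)
    (Nat.le_succ_of_le hjn), Finset.sum_eq_sum_Ico_succ_bot (Nat.lt_succ_of_le hjn)] at hsum
  -- the lower part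
  have hlow : ∃ a ∈ V, ∑ i ∈ Finset.Ico 0 j, ((q.coeff i : ℤ) : _root_.Fermat.Agent.S19.Qb) * π ^ i = (ℓ : _root_.Fermat.Agent.S19.Qb) * a := by
    choose! c hc using hlt
    refine ⟨∑ i ∈ Finset.Ico 0 j, ((c i : ℤ) : _root_.Fermat.Agent.S19.Qb) * π ^ i, ?_, ?_⟩
    · refine V.toSubring.sum_mem fun i _ => ?_
      exact V.mul_mem _ _ (intCast_mem V _) (V.toSubring.pow_mem hπV i)
    · rw [Finset.mul_sum]
      refine Finset.sum_congr rfl fun i hi => ?_
      have hi' : i < j := (Finset.mem_Ico.mp hi).2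
      rw [hc i hi']
      push_cast
      ring
  -- the upper part
  have hup : ∃ b ∈ V, ∑ i ∈ Finset.Ico (j + 1) (q.natDegree + 1),
      ((q.coeff i : ℤ) : _root_.Fermat.Agent.S19.Qb) * π ^ i = π ^ (j + 1) * b := by
    refine ⟨∑ i ∈ Finset.Ico (j + 1) (q.natDegree + 1),
      ((q.coeff i : ℤ) : _root_.Fermat.Agent.S19.Qb) * π ^ (i - (j + 1)), ?_, ?_⟩
    · refine V.toSubring.sum_mem fun i _ => ?_
      exact V.mul_mem _ _ (intCast_mem V _) (V.toSubring.pow_mem hπV _)
    · rw [Finset.mul_sum]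
      refine Finset.sum_congr rfl fun i hi => ?_
      have hi' : j + 1 ≤ i := (Finset.mem_Ico.mp hi).1
      have : π ^ i = π ^ (j + 1) * π ^ (i - (j + 1)) := by
        rw [← pow_add, Nat.add_sub_cancel' hi']
      rw [this]
      ring
  obtain ⟨a, ha, hlow⟩ := hlow
  obtain ⟨b, hb, hup⟩ := hup
  rw [hlow, hup] at hsum
  -- `c_j + π b` is a unit
  have hunit : ((q.coeff j : ℤ) : _root_.Fermat.Agent.S19.Qb) + π * b ∉ V.nonunits := by
    intro hmem
    have h1 : π * b ∈ V.nonunits := nonunits_mul_mem V hπ hb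
    have h2 := nonunits_sub_mem V hmem h1
    rw [add_sub_cancel_right] at h2
    exact intCast_not_mem_nonunits V hℓ hV hj h2
  obtain ⟨hne, hinv⟩ := inv_mem_of_not_mem_nonunits V hunit
  refine ⟨j, -a * (((q.coeff j : ℤ) : _root_.Fermat.Agent.S19.Qb) + π * b)⁻¹, ?_, ?_⟩
  · exact V.mul_mem _ _ (V.neg_mem _ ha) hinv
  · have h3 : π ^ j * (((q.coeff j : ℤ) : _root_.Fermat.Agent.S19.Qb) + π * b) = -((ℓ : _root_.Fermat.Agent.S19.Qb) * a) := by
      have : π ^ j * (((q.coeff j : ℤ) : _root_.Fermat.Agent.S19.Qb) + π * b)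
          = ((q.coeff j : ℤ) : _root_.Fermat.Agent.S19.Qb) * π ^ j + π ^ (j + 1) * b := by ring
      rw [this]
      linear_combination hsum
    field_simp
    linear_combination h3

/-- (ARCH) powers of a non-unit eventually absorb any denominator. -/
theorem eventually_pow_mul_mem (hℓ : ℓ.Prime) (hV : (ℓ : _root_.Fermat.Agent.S19.Qb) ∈ V.nonunits) {π : _root_.Fermat.Agent.S19.Qb}
    (hπ : π ∈ V.nonunits) (z : _root_.Fermat.Agent.S19.Qb) : ∀ᶠ N in Filter.atTop, π ^ N * z ∈ V := by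
  have hπV : π ∈ V := mem_of_mem_nonunits V hπ
  obtain ⟨j, v, hv, hj⟩ := exists_pow_eq_mul V hℓ hV hπ
  obtain ⟨e, he⟩ := exists_pow_mul_mem V hℓ hV z
  rw [Filter.eventually_atTop]
  refine ⟨j * e, fun N hN => ?_⟩
  have h1 : π ^ N = π ^ (N - j * e) * (π ^ j) ^ e := by
    rw [← pow_mul, ← pow_add, Nat.sub_add_cancel hN]
  have h2 : π ^ N * z = π ^ (N - j * e) * v ^ e * ((ℓ : _root_.Fermat.Agent.S19.Qb) ^ e * z) := by
    rw [h1, hj, mul_pow]
    ring
  rw [h2]
  exact V.mul_mem _ _ (V.mul_mem _ _ (V.toSubring.pow_mem hπV _) (V.toSubring.pow_mem hv _)) he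

end

/-! ## §3 the conductor of a local order -/

section


open Fermat.Agent.S19 Fermat.Agent.S19.Unr

variable {M : Type} [AddCommGroup M] {act : GalQ → M → M} {V : ValuationSubring Qb}

/-- Scalar multiplication by an element of `V` on a function, in terms of `Q̄`. -/
theorem smul_fun_eq (a : V) (f : M → Qb) : a • f = (a : Qb) • f := by
  funext m
  simp [Algebra.smul_def]

theorem smul_mem_of_mem (O : LocalOrder V M act) {a : Qb} (ha : a ∈ V) {f : M → Qb}
    (hf : f ∈ O.B) : a • f ∈ O.B := by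
  have := O.B.smul_mem hf (⟨a, ha⟩ : V)
  rwa [smul_fun_eq] at this

theorem const_mem (O : LocalOrder V M act) {a : Qb} (ha : a ∈ V) :
    (fun _ : M => a) ∈ O.B := by
  have := O.B.algebraMap_mem (⟨a, ha⟩ : V)
  have h2 : (algebraMap V (M → Qb)) (⟨a, ha⟩ : V) = fun _ : M => a := by
    funext m
    rfl
  rwa [h2] at this

theorem exists_conductor [Finite M] (O : LocalOrder V M act) :
    ∃ d : Qb, d ∈ V ∧ d ≠ 0 ∧ ∀ f : M → Qb, (∀ m, f m ∈ V) → d • f ∈ O.B := by
  classical
  haveI : Fintype M := Fintype.ofFinite M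
  -- separating functions
  have hsep : ∀ m m' : M, m ≠ m' → ∃ b ∈ O.B, b m ≠ b m' := by
    intro m m' hne
    by_contra hcon
    push Not at hcon
    exact hne (O.separates m m' hcon)
  -- choose them
  have hsep' : ∀ m m' : M, ∃ b : M → Qb, b ∈ O.B ∧ (m ≠ m' → b m ≠ b m') := by
    intro m m'
    by_cases h : m = m'
    · exact ⟨0, O.B.zero_mem, fun hne => absurd h hne⟩
    · obtain ⟨b, hb, hbb⟩ := hsep m m' h
      exact ⟨b, hb, fun _ => hbb⟩
  choose b hbB hb using hsep'
  -- the functions `e_m`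
  let e : M → (M → Qb) := fun m => ∏ m' ∈ Finset.univ.erase m, (b m m' - fun _ => b m m' m')
  have heB : ∀ m, e m ∈ O.B := by
    intro m
    refine Subalgebra.prod_mem _ fun m' _ => ?_
    exact O.B.sub_mem (hbB m m') (const_mem O (O.valued _ (hbB m m') m'))
  have he_apply : ∀ m m'', e m m'' = ∏ m' ∈ Finset.univ.erase m, (b m m' m'' - b m m' m') := by
    intro m m''
    simp only [e, Finset.prod_apply, Pi.sub_apply]
  have he_ne : ∀ m m'', m'' ≠ m → e m m'' = 0 := by
    intro m m'' hne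
    rw [he_apply]
    refine Finset.prod_eq_zero (i := m'') ?_ (sub_self _)
    exact Finset.mem_erase.mpr ⟨hne, Finset.mem_univ _⟩
  let dm : M → Qb := fun m => e m m
  have hdm_ne : ∀ m, dm m ≠ 0 := by
    intro m
    show e m m ≠ 0
    rw [he_apply]
    refine Finset.prod_ne_zero_iff.mpr fun m' hm' => ?_
    have hne : m ≠ m' := fun h => (Finset.mem_erase.mp hm').1 h.symm
    exact sub_ne_zero.mpr (hb m m' hne)
  have hdm_mem : ∀ m, dm m ∈ V := fun m => O.valued _ (heB m) m
  refine ⟨∏ m, dm m, ?_, ?_, ?_⟩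
  · exact V.toSubring.prod_mem fun m _ => hdm_mem m
  · exact Finset.prod_ne_zero_iff.mpr fun m _ => hdm_ne m
  · intro f hf
    have key : (∏ m, dm m) • f
        = ∑ m, (f m * ∏ m' ∈ Finset.univ.erase m, dm m') • e m := by
      funext m''
      simp only [Pi.smul_apply, smul_eq_mul, Finset.sum_apply]
      rw [Finset.sum_eq_single m'']
      · show _ = f m'' * _ * dm m''
        rw [← Finset.mul_prod_erase Finset.univ dm (Finset.mem_univ m'')]
        ring
      · intro m _ hne
        rw [he_ne m m'' (Ne.symm hne), mul_zero]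
      · intro h
        exact absurd (Finset.mem_univ _) h
    rw [key]
    refine Subalgebra.sum_mem _ fun m _ => ?_
    refine smul_mem_of_mem O ?_ (heB m)
    exact V.mul_mem _ _ (hf m) (V.toSubring.prod_mem fun m' _ => hdm_mem m')

end

/-! ## §4 approximation -/

section


open Fermat.Agent.S19 Fermat.Agent.S19.Unr Fermat.Agent.S14.H714
open scoped Pointwise

variable {V : ValuationSubring _root_.Fermat.Agent.S19.Qb} {ℓ : ℕ}

theorem isDecompAt_iff_smul_eq (σ : GalQ) : IsDecompAt V σ ↔ σ • V = V := by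
  constructor
  · intro h
    ext x
    rw [ValuationSubring.mem_pointwise_smul_iff_inv_smul_mem]
    have := h (σ⁻¹ • x)
    have h2 : σ (σ⁻¹ • x) = x := by
      show σ (σ⁻¹ x) = x
      exact σ.apply_symm_apply x
    rw [h2] at this
    exact this.symm
  · intro h a
    have h1 : σ a ∈ σ • V ↔ a ∈ V := by
      rw [ValuationSubring.mem_pointwise_smul_iff_inv_smul_mem]
      have : σ⁻¹ • σ a = a := by
        show σ⁻¹ (σ a) = a
        exact σ.symm_apply_apply a
      rw [this]
    rw [h] at h1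
    exact h1

theorem IsDecompAt.inv {σ : GalQ} (h : IsDecompAt V σ) : IsDecompAt V σ⁻¹ := by
  intro a
  have := h (σ⁻¹ a)
  have h2 : σ (σ⁻¹ a) = a := σ.apply_symm_apply a
  rw [h2] at this
  exact this.symm

theorem IsDecompAt.mul {σ τ : GalQ} (h : IsDecompAt V σ) (h' : IsDecompAt V τ) :
    IsDecompAt V (σ * τ) := by
  intro a
  show σ (τ a) ∈ V ↔ a ∈ V
  rw [h, h']

theorem isDecompAt_one : IsDecompAt V 1 := fun _ => Iff.rfl

theorem IsDecompAt.map_nonunits {σ : GalQ} (h : IsDecompAt V σ) {a : _root_.Fermat.Agent.S19.Qb} :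
    σ a ∈ V.nonunits ↔ a ∈ V.nonunits := by
  rw [ValuationSubring.mem_nonunits_iff_or, ValuationSubring.mem_nonunits_iff_or, ← map_inv₀,
    h, map_eq_zero]

theorem isInertiaAt_isDecompAt {σ : GalQ} (h : IsInertiaAt V σ) : IsDecompAt V σ := by
  -- `σ V ⊆ V`, and `σ` has finite order on every element
  have h1 : ∀ a ∈ V, σ a ∈ V := by
    intro a ha
    have := mem_of_mem_nonunits V (h a ha)
    have h2 : σ a = (σ a - a) + a := by ring
    rw [h2]
    exact V.add_mem _ _ this ha
  have hpow : ∀ (n : ℕ) (a : _root_.Fermat.Agent.S19.Qb), a ∈ V → (σ ^ n) a ∈ V := by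
    intro n
    induction n with
    | zero => intro a ha; simpa using ha
    | succ n ih =>
      intro a ha
      rw [pow_succ]
      exact ih _ (h1 a ha)
  intro a
  refine ⟨fun ha => ?_, h1 a⟩
  -- `a` has an open stabiliser, so `σ ^ n` fixes `a` for some `n ≥ 1`
  have hopen := stabilizer_isOpen_of_isIntegral (K := ℚ) (L := _root_.Fermat.Agent.S19.Qb) a
  haveI : Finite (GalQ ⧸ MulAction.stabilizer GalQ a) :=
    Subgroup.quotient_finite_of_isOpen _ hopen
  haveI : (MulAction.stabilizer GalQ a).FiniteIndex := Subgroup.finiteIndex_of_finite_quotient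
  obtain ⟨n, hn, -, hmem⟩ := Subgroup.exists_pow_mem_of_index_ne_zero
    (H := MulAction.stabilizer GalQ a) Subgroup.FiniteIndex.index_ne_zero σ
  have hfix' : (σ ^ n) • a = a := MulAction.mem_stabilizer_iff.mp hmem
  have hfix : (σ ^ n) a = a := hfix'
  obtain ⟨k, rfl⟩ : ∃ k, n = k + 1 := ⟨n - 1, by omega⟩
  have h3 := hpow k (σ a) ha
  have h4 : (σ ^ k) (σ a) = (σ ^ (k + 1)) a := by
    rw [pow_succ]
    rfl
  rw [h4, hfix] at h3
  exact h3

theorem mem_inv_smul_iff (σ : GalQ) (x : _root_.Fermat.Agent.S19.Qb) : x ∈ σ⁻¹ • V ↔ σ x ∈ V := by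
  rw [ValuationSubring.mem_pointwise_smul_iff_inv_smul_mem, inv_inv]
  rfl

theorem mem_inv_smul_nonunits_iff (σ : GalQ) (x : _root_.Fermat.Agent.S19.Qb) :
    x ∈ (σ⁻¹ • V).nonunits ↔ σ x ∈ V.nonunits := by
  rw [ValuationSubring.mem_nonunits_iff_or, ValuationSubring.mem_nonunits_iff_or,
    mem_inv_smul_iff, map_inv₀, map_eq_zero]

variable (F : IntermediateField ℚ _root_.Fermat.Agent.S19.Qb)

/-- The ring of integers of `F`, as the invariants of `Gal(Q̄/F)` in `ℤ̄`. -/
abbrev OF : Subalgebra ℤ Zbar := FixedPoints.subalgebra ℤ Zbar F.fixingSubgroup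

instance instIsIntegralOF : Algebra.IsIntegral ℤ (OF F) :=
  ⟨fun x => by
    have h : IsIntegral ℤ ((x : Zbar) : _root_.Fermat.Agent.S19.Qb) := (x : Zbar).2
    have h2 : IsIntegral ℤ (x : Zbar) := by
      rw [← isIntegral_algebraMap_iff (B := _root_.Fermat.Agent.S19.Qb) Subtype.val_injective]
      exact h
    rw [← isIntegral_algebraMap_iff (B := Zbar) Subtype.val_injective]
    exact h2⟩

/-- The prime of `OF F` below a valuation subring. -/
def primeF (V : ValuationSubring _root_.Fermat.Agent.S19.Qb) : Ideal (OF F) := (primeOf V).under (OF F)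

instance primeF_isPrime : (primeF F V).IsPrime := Ideal.comap_isPrime _ _

theorem mem_primeF {x : OF F} : x ∈ primeF F V ↔ ((x : Zbar) : _root_.Fermat.Agent.S19.Qb) ∈ V.nonunits := by
  rw [primeF, Ideal.under, Ideal.mem_comap, ← mem_primeOf]
  rfl

theorem primeF_isMaximal (hℓ : ℓ.Prime) (hV : (ℓ : _root_.Fermat.Agent.S19.Qb) ∈ V.nonunits) :
    (primeF F V).IsMaximal := by
  have hmax : (Ideal.span {(ℓ : ℤ)}).IsMaximal :=
    PrincipalIdealRing.isMaximal_of_irreducible
      (Nat.prime_iff_prime_int.mp hℓ).irreducible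
  have hle : Ideal.span {(ℓ : ℤ)} ≤ (primeF F V).comap (algebraMap ℤ (OF F)) := by
    rw [Ideal.span_le, Set.singleton_subset_iff]
    show algebraMap ℤ (OF F) (ℓ : ℤ) ∈ primeF F V
    rw [mem_primeF]
    simpa using hV
  have hne : (primeF F V).comap (algebraMap ℤ (OF F)) ≠ ⊤ :=
    (Ideal.comap_isPrime (algebraMap ℤ (OF F)) (primeF F V)).ne_top
  have heq := hmax.eq_of_le hne hle
  exact Ideal.isMaximal_of_isIntegral_of_isMaximal_comap _ (heq ▸ hmax)

/-- Continuity of the action of `Gal(Q̄/F)` on the discrete ring `ℤ̄`. -/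
theorem continuousSMul_Zbar :
    letI : TopologicalSpace Zbar := ⊥
    ContinuousSMul F.fixingSubgroup Zbar := by
  letI : TopologicalSpace Zbar := ⊥
  haveI : DiscreteTopology Zbar := ⟨rfl⟩
  rw [continuousSMul_iff_stabilizer_isOpen]
  intro x
  have hopen := stabilizer_isOpen_of_isIntegral (K := ℚ) (L := _root_.Fermat.Agent.S19.Qb) (x : _root_.Fermat.Agent.S19.Qb)
  have : (MulAction.stabilizer F.fixingSubgroup x : Set F.fixingSubgroup) =
      Subtype.val ⁻¹' (MulAction.stabilizer G (x : _root_.Fermat.Agent.S19.Qb) : Set G) := by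
    ext g
    simp only [SetLike.mem_coe, MulAction.mem_stabilizer_iff, Set.mem_preimage, Subtype.ext_iff]
    rfl
  rw [this]
  exact hopen.preimage continuous_subtype_val

/-- A coset not meeting the decomposition group gives a different prime of `OF F`. -/
theorem primeF_ne_of_bad (hℓ : ℓ.Prime) (hV : (ℓ : _root_.Fermat.Agent.S19.Qb) ∈ V.nonunits) (σ : GalQ)
    (hbad : ∀ ρ ∈ F.fixingSubgroup, ¬ IsDecompAt V (σ * ρ)) :
    primeF F (σ⁻¹ • V) ≠ primeF F V := by
  intro heq
  letI : TopologicalSpace Zbar := ⊥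
  haveI : DiscreteTopology Zbar := ⟨rfl⟩
  haveI : ContinuousSMul F.fixingSubgroup Zbar := continuousSMul_Zbar F
  have hV' : (ℓ : _root_.Fermat.Agent.S19.Qb) ∈ (σ⁻¹ • V).nonunits := by
    rw [mem_inv_smul_nonunits_iff, map_natCast]
    exact hV
  obtain ⟨g, hg⟩ := Algebra.IsInvariant.exists_smul_of_under_eq_of_profinite
    (A := OF F) (G := F.fixingSubgroup) (primeOf (σ⁻¹ • V)) (primeOf V) heq
  have h1 : g.1 • (σ⁻¹ • V) = V := by
    refine smul_eq_of_primeOf V (σ⁻¹ • V) hℓ hV hV' g.1 fun s => ?_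
    rw [hg]
    exact (Ideal.smul_mem_pointwise_smul_iff (a := g) (S := primeOf (σ⁻¹ • V)) (x := s)).symm
  rw [← mul_smul] at h1
  have h2 : IsDecompAt V (g.1 * σ⁻¹) := (isDecompAt_iff_smul_eq _).mpr h1
  have h3 := IsDecompAt.inv h2
  rw [mul_inv_rev, inv_inv] at h3
  exact hbad (g.1)⁻¹ (F.fixingSubgroup.inv_mem g.2) h3

/-- **Approximation.** -/
theorem exists_approx (hℓ : ℓ.Prime) (hV : (ℓ : _root_.Fermat.Agent.S19.Qb) ∈ V.nonunits) {ι : Type} [Finite ι]
    (σ : ι → GalQ) (hbad : ∀ i, ∀ ρ ∈ F.fixingSubgroup, ¬ IsDecompAt V (σ i * ρ)) :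
    ∃ u : _root_.Fermat.Agent.S19.Qb, (∀ ρ ∈ F.fixingSubgroup, ρ u = u) ∧ u ∈ V ∧ u - 1 ∈ V.nonunits ∧
      ∀ i, σ i u ∈ V.nonunits := by
  classical
  haveI : Fintype ι := Fintype.ofFinite ι
  have hmax := primeF_isMaximal F (V := V) hℓ hV
  -- for every `i` an element of the prime at `σ i`, outside the prime at `V`
  have hex : ∀ i, ∃ b : OF F, b ∈ primeF F ((σ i)⁻¹ • V) ∧ b ∉ primeF F V := by
    intro i
    by_contra hcon
    push Not at hcon
    have hle : primeF F ((σ i)⁻¹ • V) ≤ primeF F V := hcon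
    have hV' : (ℓ : _root_.Fermat.Agent.S19.Qb) ∈ ((σ i)⁻¹ • V).nonunits := by
      rw [mem_inv_smul_nonunits_iff, map_natCast]
      exact hV
    have hmax' := primeF_isMaximal F (V := (σ i)⁻¹ • V) hℓ hV'
    exact primeF_ne_of_bad F hℓ hV (σ i) (hbad i) (hmax'.eq_of_le hmax.ne_top hle)
  choose b hb hb' using hex
  -- the product
  have hprod : (∏ i, b i) ∉ primeF F V := by
    intro h
    obtain ⟨i, _, hi⟩ := Ideal.IsPrime.prod_mem_iff.mp h
    exact hb' i hi
  obtain ⟨y, i0, hi0, hy⟩ := hmax.exists_inv hprod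
  -- `u = y * ∏ b i = 1 - i0`
  refine ⟨(((y * ∏ i, b i : OF F) : Zbar) : _root_.Fermat.Agent.S19.Qb), ?_, ?_, ?_, ?_⟩
  · intro ρ hρ
    have := (y * ∏ i, b i : OF F).2 ⟨ρ, hρ⟩
    exact congrArg Subtype.val this
  · exact coe_mem V _
  · have h1 : (y * ∏ i, b i : OF F) = 1 - i0 := by
      rw [← hy]
      ring
    rw [h1]
    have h2 : (((1 - i0 : OF F) : Zbar) : _root_.Fermat.Agent.S19.Qb) - 1 = -(((i0 : OF F) : Zbar) : _root_.Fermat.Agent.S19.Qb) := by
      push_cast
      ring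
    rw [h2]
    exact nonunits_neg_mem V ((mem_primeF F).mp hi0)
  · intro i
    have hmem : (y * ∏ j, b j : OF F) ∈ primeF F ((σ i)⁻¹ • V) := by
      refine Ideal.mul_mem_left _ _ ?_
      rw [← Finset.mul_prod_erase Finset.univ b (Finset.mem_univ i)]
      exact Ideal.mul_mem_right _ _ (hb i)
    have h3 := (mem_primeF F).mp hmem
    rwa [mem_inv_smul_nonunits_iff] at h3

end

end Fermat.Agent.S19.Unr.H992

end

end
-- ===== PACK-END S19/Unr/H992/Base.lean

-- ===== PACK-BEGIN S19/Unr/H992/Closure.lean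
section


/-!
# UNR / node UA (helper992) — closure under the decomposition group

`closureStatement : ClosureStatement` (frozen in `Fermat/Agent/S19/Unr/Spec.lean`): the
`V`-algebra generated by the decomposition-conjugates of local coordinates is a `LocalOrder`.
-/

set_option autoImplicit false
set_option linter.unusedSectionVars false
set_option linter.style.haveILetI false
set_option linter.unusedVariables false

noncomputable section

namespace Fermat.Agent.S19.Unr.H992

open Fermat.Agent.S19 Fermat.Agent.S19.Unr Fermat.Agent.S14.H714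

variable {M : Type} [AddCommGroup M] {act : GalQ → M → M} {V : ValuationSubring _root_.Fermat.Agent.S19.Qb}

/-- The decomposition-conjugates of the coordinate functions. -/
def gensD (V : ValuationSubring _root_.Fermat.Agent.S19.Qb) (act : GalQ → M → M) {ι : Type} (Ψ : M → ι → _root_.Fermat.Agent.S19.Qb) :
    Set (M → _root_.Fermat.Agent.S19.Qb) :=
  {f | ∃ σ : GalQ, IsDecompAt V σ ∧ ∃ i : ι, f = conjFun act σ (fun m => Ψ m i)}

/-- The semilinear action on functions of two variables. -/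
def conjFun₂ (act : GalQ → M → M) (σ : GalQ) (H : M × M → _root_.Fermat.Agent.S19.Qb) : M × M → _root_.Fermat.Agent.S19.Qb :=
  fun p => σ (H (act σ⁻¹ p.1, act σ⁻¹ p.2))

theorem isIntegral_of_valued [Finite M] {h : M → _root_.Fermat.Agent.S19.Qb} (hh : ∀ m, h m ∈ V) : IsIntegral V h := by
  classical
  haveI := Fintype.ofFinite M
  refine ⟨∏ m, (Polynomial.X - Polynomial.C (⟨h m, hh m⟩ : V)),
    Polynomial.monic_prod_of_monic _ _ (fun m _ => Polynomial.monic_X_sub_C _), ?_⟩
  rw [Polynomial.eval₂_finset_prod]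
  funext m'
  rw [Finset.prod_apply]
  refine Finset.prod_eq_zero (Finset.mem_univ m') ?_
  simp only [Polynomial.eval₂_sub, Polynomial.eval₂_X, Polynomial.eval₂_C, Pi.sub_apply]
  exact sub_self _

theorem gensD_finite [Finite M] {ι : Type} [Finite ι] (Ψ : M → ι → _root_.Fermat.Agent.S19.Qb) :
    (gensD V act Ψ).Finite := by
  classical
  let C : Set _root_.Fermat.Agent.S19.Qb := ⋃ (m : M) (i : ι), (minpoly ℚ (Ψ m i)).rootSet _root_.Fermat.Agent.S19.Qb
  have hC : C.Finite :=
    Set.finite_iUnion fun m => Set.finite_iUnion fun i => Polynomial.rootSet_finite _ _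
  have hsub : gensD V act Ψ ⊆ {f : M → _root_.Fermat.Agent.S19.Qb | ∀ m, f m ∈ C} := by
    rintro f ⟨σ, hσ, i, rfl⟩ m
    simp only [conjFun_apply, C, Set.mem_iUnion]
    refine ⟨act σ⁻¹ m, i, ?_⟩
    rw [Polynomial.mem_rootSet]
    refine ⟨minpoly.ne_zero (Algebra.IsIntegral.isIntegral _), ?_⟩
    have h1 := Polynomial.aeval_algHom_apply (σ : _root_.Fermat.Agent.S19.Qb →ₐ[ℚ] _root_.Fermat.Agent.S19.Qb) (Ψ (act σ⁻¹ m) i)
      (minpoly ℚ (Ψ (act σ⁻¹ m) i))
    rw [minpoly.aeval, map_zero] at h1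
    exact h1
  exact (Set.Finite.pi' fun _ => hC).subset hsub

theorem isInertiaAt_conj {σ ι : GalQ} (hσ : IsDecompAt V σ) (hι : IsInertiaAt V ι) :
    IsInertiaAt V (σ⁻¹ * ι * σ) := by
  intro a ha
  have h1 : σ a ∈ V := (hσ a).mpr ha
  have h2 := hι (σ a) h1
  have h3 : (σ⁻¹ * ι * σ) a - a = σ⁻¹ (ι (σ a) - σ a) := by
    rw [map_sub]
    congr 1
    exact (σ.symm_apply_apply a).symm
  rw [h3]
  exact (IsDecompAt.map_nonunits (IsDecompAt.inv hσ)).mpr h2

theorem isInertiaEquivariant_conj (hact : IsContAddAction act) {σ : GalQ} (hσ : IsDecompAt V σ)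
    {f : M → _root_.Fermat.Agent.S19.Qb} (hf : IsInertiaEquivariant V act f) :
    IsInertiaEquivariant V act (conjFun act σ f) := by
  intro ι hι m
  have h1 := hf _ (isInertiaAt_conj hσ hι) (act σ⁻¹ m)
  simp only [conjFun_apply]
  have h2 : act σ⁻¹ (act ι m) = act (σ⁻¹ * ι * σ) (act σ⁻¹ m) := by
    rw [← hact.act_mul, ← hact.act_mul]
    congr 1
    group
  rw [h2, h1]
  show σ ((σ⁻¹ * ι * σ) (f (act σ⁻¹ m))) = ι (σ (f (act σ⁻¹ m)))
  show σ (σ⁻¹ (ι (σ (f (act σ⁻¹ m))))) = ι (σ (f (act σ⁻¹ m)))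
  exact σ.apply_symm_apply _

theorem isInertiaEquivariant_one : IsInertiaEquivariant V act (1 : M → _root_.Fermat.Agent.S19.Qb) := by
  intro ι _ m
  simp

theorem isInertiaEquivariant_mul {f g : M → _root_.Fermat.Agent.S19.Qb} (hf : IsInertiaEquivariant V act f)
    (hg : IsInertiaEquivariant V act g) : IsInertiaEquivariant V act (f * g) := by
  intro ι hι m
  simp only [Pi.mul_apply, map_mul]
  rw [hf ι hι m, hg ι hι m]

section Order

variable (hact : IsContAddAction act) {ℓ : ℕ} (L : LocalCoordDatum ℓ M act)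

/-- The local order attached to local coordinates. -/
def orderB : Subalgebra L.V (M → _root_.Fermat.Agent.S19.Qb) := Algebra.adjoin L.V (gensD L.V act L.Ψ)

theorem gens_valued {f : M → _root_.Fermat.Agent.S19.Qb} (hf : f ∈ gensD L.V act L.Ψ) (m : M) : f m ∈ L.V := by
  obtain ⟨σ, hσ, i, rfl⟩ := hf
  exact (hσ _).mpr (L.integral _ i)

theorem orderB_valued {h : M → _root_.Fermat.Agent.S19.Qb} (hh : h ∈ orderB L) (m : M) : h m ∈ L.V := by
  induction hh using Algebra.adjoin_induction with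
  | mem x hx => exact gens_valued L hx m
  | algebraMap r => exact r.2
  | add x y _ _ ihx ihy => exact L.V.add_mem _ _ ihx ihy
  | mul x y _ _ ihx ihy => exact L.V.mul_mem _ _ ihx ihy

theorem orderB_fg [Finite M] : (Subalgebra.toSubmodule (orderB L)).FG := by
  haveI := L.fin
  exact fg_adjoin_of_finite (gensD_finite L.Ψ)
    (fun f hf => isIntegral_of_valued (fun m => gens_valued L hf m))

theorem conjFun_algebraMap {σ : GalQ} (hσ : IsDecompAt L.V σ) (r : L.V) :
    conjFun act σ (algebraMap L.V (M → _root_.Fermat.Agent.S19.Qb) r)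
      = algebraMap L.V (M → _root_.Fermat.Agent.S19.Qb) ⟨σ (r : _root_.Fermat.Agent.S19.Qb), (hσ _).mpr r.2⟩ := by
  funext m
  rfl

include hact in
theorem orderB_stable {σ : GalQ} (hσ : IsDecompAt L.V σ) {h : M → _root_.Fermat.Agent.S19.Qb} (hh : h ∈ orderB L) :
    conjFun act σ h ∈ orderB L := by
  induction hh using Algebra.adjoin_induction with
  | mem x hx =>
    obtain ⟨τ, hτ, i, rfl⟩ := hx
    rw [← conjFun_mul hact]
    exact Algebra.subset_adjoin ⟨σ * τ, IsDecompAt.mul hσ hτ, i, rfl⟩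
  | algebraMap r =>
    rw [conjFun_algebraMap L hσ]
    exact Subalgebra.algebraMap_mem _ _
  | add x y _ _ ihx ihy =>
    rw [conjFun_add]
    exact Subalgebra.add_mem _ ihx ihy
  | mul x y _ _ ihx ihy =>
    rw [conjFun_mul_fun]
    exact Subalgebra.mul_mem _ ihx ihy

include hact in
theorem gens_inertia {f : M → _root_.Fermat.Agent.S19.Qb} (hf : f ∈ gensD L.V act L.Ψ) :
    IsInertiaEquivariant L.V act f := by
  obtain ⟨σ, hσ, i, rfl⟩ := hf
  exact isInertiaEquivariant_conj hact hσ (fun ι hι m => L.equivariant ι hι m i)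

include hact in
theorem orderB_span_inertia : Subalgebra.toSubmodule (orderB L) ≤
    Submodule.span L.V {h | h ∈ orderB L ∧ IsInertiaEquivariant L.V act h} := by
  intro h hh
  have h1 : h ∈ Submodule.span L.V (Submonoid.closure (gensD L.V act L.Ψ) : Set (M → _root_.Fermat.Agent.S19.Qb)) := by
    rw [← Algebra.adjoin_eq_span]
    exact hh
  refine Submodule.span_mono ?_ h1
  intro x hx
  induction hx using Submonoid.closure_induction with
  | mem y hy => exact ⟨Algebra.subset_adjoin hy, gens_inertia hact L hy⟩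
  | one => exact ⟨Subalgebra.one_mem _, isInertiaEquivariant_one⟩
  | mul y z _ _ ihy ihz =>
    exact ⟨Subalgebra.mul_mem _ ihy.1 ihz.1, isInertiaEquivariant_mul ihy.2 ihz.2⟩

include hact in
theorem orderB_separates (m m' : M) (h : ∀ b ∈ orderB L, b m = b m') : m = m' := by
  apply L.inj
  funext i
  have h1 : (fun m => L.Ψ m i) ∈ orderB L := by
    refine Algebra.subset_adjoin ⟨1, isDecompAt_one, i, ?_⟩
    rw [conjFun_one hact]
  exact h _ h1

/-- The `V`-algebra generated by the functions `b(s) b'(t)`. -/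
def tensorAlg : Subalgebra L.V (M × M → _root_.Fermat.Agent.S19.Qb) :=
  Algebra.adjoin L.V (tensorFunctions (orderB L : Set (M → _root_.Fermat.Agent.S19.Qb)))

theorem tensorFunctions_mem {b b' : M → _root_.Fermat.Agent.S19.Qb} (hb : b ∈ orderB L) (hb' : b' ∈ orderB L) :
    (fun p : M × M => b p.1 * b' p.2) ∈ tensorFunctions (orderB L : Set (M → _root_.Fermat.Agent.S19.Qb)) :=
  ⟨b, hb, b', hb', rfl⟩

theorem fst_mem_tensorAlg {b : M → _root_.Fermat.Agent.S19.Qb} (hb : b ∈ orderB L) :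
    (fun p : M × M => b p.1) ∈ tensorAlg L := by
  have := tensorFunctions_mem L hb (Subalgebra.one_mem _)
  refine Algebra.subset_adjoin ?_
  convert this using 2
  simp

theorem snd_mem_tensorAlg {b : M → _root_.Fermat.Agent.S19.Qb} (hb : b ∈ orderB L) :
    (fun p : M × M => b p.2) ∈ tensorAlg L := by
  have := tensorFunctions_mem L (Subalgebra.one_mem _) hb
  refine Algebra.subset_adjoin ?_
  convert this using 2
  simp

theorem tensorAlg_le_span : Subalgebra.toSubmodule (tensorAlg L) ≤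
    Submodule.span L.V (tensorFunctions (orderB L : Set (M → _root_.Fermat.Agent.S19.Qb))) := by
  intro h hh
  have h1 : h ∈ Submodule.span L.V
      (Submonoid.closure (tensorFunctions (orderB L : Set (M → _root_.Fermat.Agent.S19.Qb))) : Set (M × M → _root_.Fermat.Agent.S19.Qb)) := by
    rw [← Algebra.adjoin_eq_span]
    exact hh
  refine Submodule.span_mono ?_ h1
  intro x hx
  induction hx using Submonoid.closure_induction with
  | mem y hy => exact hy
  | one =>
    refine ⟨1, Subalgebra.one_mem _, 1, Subalgebra.one_mem _, ?_⟩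
    funext p
    simp
  | mul y z _ _ ihy ihz =>
    obtain ⟨b1, hb1, b1', hb1', rfl⟩ := ihy
    obtain ⟨b2, hb2, b2', hb2', rfl⟩ := ihz
    refine ⟨b1 * b2, Subalgebra.mul_mem _ hb1 hb2, b1' * b2', Subalgebra.mul_mem _ hb1' hb2', ?_⟩
    funext p
    simp only [Pi.mul_apply]
    ring

include hact in
/-- Conjugation maps the coordinate algebra of `L.add_mem` into the tensor algebra. -/
theorem conjFun₂_mem {σ : GalQ} (hσ : IsDecompAt L.V σ) {H : M × M → _root_.Fermat.Agent.S19.Qb}
    (hH : H ∈ Algebra.adjoin L.V ({f | ∃ j, f = fun p : M × M => L.Ψ p.1 j} ∪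
        {f | ∃ j, f = fun p : M × M => L.Ψ p.2 j})) :
    conjFun₂ act σ H ∈ tensorAlg L := by
  induction hH using Algebra.adjoin_induction with
  | mem x hx =>
    rcases hx with ⟨j, rfl⟩ | ⟨j, rfl⟩
    · exact fst_mem_tensorAlg L (b := conjFun act σ (fun m => L.Ψ m j))
        (Algebra.subset_adjoin ⟨σ, hσ, j, rfl⟩)
    · exact snd_mem_tensorAlg L (b := conjFun act σ (fun m => L.Ψ m j))
        (Algebra.subset_adjoin ⟨σ, hσ, j, rfl⟩)
  | algebraMap r =>
    have : conjFun₂ act σ (algebraMap L.V (M × M → _root_.Fermat.Agent.S19.Qb) r)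
        = algebraMap L.V (M × M → _root_.Fermat.Agent.S19.Qb) ⟨σ (r : _root_.Fermat.Agent.S19.Qb), (hσ _).mpr r.2⟩ := by
      funext p
      rfl
    rw [this]
    exact Subalgebra.algebraMap_mem _ _
  | add x y _ _ ihx ihy =>
    have : conjFun₂ act σ (x + y) = conjFun₂ act σ x + conjFun₂ act σ y := by
      funext p
      simp [conjFun₂]
    rw [this]
    exact Subalgebra.add_mem _ ihx ihy
  | mul x y _ _ ihx ihy =>
    have : conjFun₂ act σ (x * y) = conjFun₂ act σ x * conjFun₂ act σ y := by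
      funext p
      simp [conjFun₂]
    rw [this]
    exact Subalgebra.mul_mem _ ihx ihy

include hact in
theorem orderB_comul_alg {h : M → _root_.Fermat.Agent.S19.Qb} (hh : h ∈ orderB L) :
    (fun p : M × M => h (p.1 + p.2)) ∈ tensorAlg L := by
  induction hh using Algebra.adjoin_induction with
  | mem x hx =>
    obtain ⟨σ, hσ, i, rfl⟩ := hx
    have h1 := conjFun₂_mem hact L hσ (L.add_mem i)
    have h2 : (fun p : M × M => conjFun act σ (fun m => L.Ψ m i) (p.1 + p.2))
        = conjFun₂ act σ (fun p : M × M => L.Ψ (p.1 + p.2) i) := by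
      funext p
      simp only [conjFun_apply, conjFun₂, hact.act_add]
    rw [h2]
    exact h1
  | algebraMap r => exact Subalgebra.algebraMap_mem (tensorAlg L) r
  | add x y _ _ ihx ihy => exact Subalgebra.add_mem _ ihx ihy
  | mul x y _ _ ihx ihy => exact Subalgebra.mul_mem _ ihx ihy

/-- The local order of a local coordinate datum. -/
def localOrder [Finite M] : LocalOrder L.V M act where
  B := orderB L
  valued := fun h hh m => orderB_valued L hh m
  fg := orderB_fg L
  stable := fun σ hσ h hh => orderB_stable hact L hσ hh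
  span_inertia := orderB_span_inertia hact L
  separates := orderB_separates hact L
  comul := fun h hh => tensorAlg_le_span L (orderB_comul_alg hact L hh)

end Order

/-- **Node UA**: local coordinates give a local order. -/
theorem closureStatement : ClosureStatement := by
  intro ℓ _ M _ _ act hact L
  exact ⟨localOrder hact L⟩

end Fermat.Agent.S19.Unr.H992

end

end
-- ===== PACK-END S19/Unr/H992/Closure.lean

-- ===== PACK-BEGIN S19/Unr/H992/Spanning.lean
section


/-!
# UNR / node UB (helper992) — the equivariant elements of a local order span it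

`spanningStatement : SpanningStatement` (frozen in `Fermat/Agent/S19/Unr/Spec.lean`).
-/

set_option autoImplicit false
set_option linter.unusedSectionVars false
set_option linter.style.haveILetI false
set_option linter.unusedVariables false

noncomputable section

namespace Fermat.Agent.S19.Unr.H992

open Fermat.Agent.S19 Fermat.Agent.S19.Unr Fermat.Agent.S14.H714
open scoped Pointwise

section LinearAlgebra

/-- Linearly independent functions `χ_q : X → k` (finitely many) admit a finitely supported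
combination of evaluations equal to a given coordinate vector. -/
theorem exists_finsupp_of_linearIndependent {k X Γ : Type*} [Field k] [Fintype Γ]
    [DecidableEq Γ] (χ : Γ → X → k) (hχ : LinearIndependent k χ) (q0 : Γ) :
    ∃ c : X →₀ k, ∀ q, (c.sum fun θ a => a * χ q θ) = if q = q0 then 1 else 0 := by
  classical
  let v : X → (Γ → k) := fun θ q => χ q θ
  have hmem : (Pi.single q0 1 : Γ → k) ∈ Submodule.span k (Set.range v) := by
    by_contra hnot
    obtain ⟨f, hf, hle⟩ := Submodule.exists_le_ker_of_notMem hnot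
    have hg : ∀ q, f (fun j => if q = j then 1 else 0) = 0 := by
      have hsum : ∑ q, f (fun j => if q = j then (1 : k) else 0) • χ q = 0 := by
        funext θ
        have h0 : f (v θ) = 0 := hle (Submodule.subset_span ⟨θ, rfl⟩)
        rw [LinearMap.pi_apply_eq_sum_univ] at h0
        simp only [Finset.sum_apply, Pi.smul_apply, smul_eq_mul, Pi.zero_apply]
        refine Eq.trans (Finset.sum_congr rfl fun q _ => ?_) h0
        simp only [v, smul_eq_mul]
        ring
      exact Fintype.linearIndependent_iff.mp hχ _ hsum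
    apply hf
    rw [LinearMap.pi_apply_eq_sum_univ]
    simp [hg]
  obtain ⟨c, hc⟩ := (Finsupp.mem_span_range_iff_exists_finsupp).mp hmem
  refine ⟨c, fun q => ?_⟩
  have := congrFun hc q
  simp only [Finsupp.sum, Finset.sum_apply, Pi.smul_apply, smul_eq_mul] at this ⊢
  rw [this, Pi.single_apply]

end LinearAlgebra

variable {M : Type} [AddCommGroup M] {act : GalQ → M → M} {V : ValuationSubring _root_.Fermat.Agent.S19.Qb} {ℓ : ℕ}

theorem conjFun_eq_of_inv_mul_mem (hact : IsContAddAction act) {y : M → _root_.Fermat.Agent.S19.Qb} {S : Subgroup GalQ}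
    (hy : ∀ s ∈ S, conjFun act s y = y) {a b : GalQ} (h : a⁻¹ * b ∈ S) :
    conjFun act b y = conjFun act a y := by
  have hb : b = a * (a⁻¹ * b) := by group
  calc conjFun act b y = conjFun act (a * (a⁻¹ * b)) y := by rw [← hb]
    _ = conjFun act a (conjFun act (a⁻¹ * b) y) := conjFun_mul hact _ _ _
    _ = conjFun act a y := by rw [hy _ h]

/-- The sum over the cosets of `S` of the conjugates of an `S`-invariant function is
equivariant. -/
theorem isEquivariant_orbit_sum (hact : IsContAddAction act) (S : Subgroup GalQ)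
    [Fintype (GalQ ⧸ S)] {y : M → _root_.Fermat.Agent.S19.Qb} (hy : ∀ s ∈ S, conjFun act s y = y)
    (rep : GalQ ⧸ S → GalQ) (hrep : ∀ q, (rep q : GalQ ⧸ S) = q) :
    IsEquivariant act (∑ q : GalQ ⧸ S, conjFun act (rep q) y) := by
  rw [isEquivariant_iff hact]
  intro τ
  rw [conjFun_sum]
  have h1 : ∀ q : GalQ ⧸ S,
      conjFun act τ (conjFun act (rep q) y) = conjFun act (rep (τ • q)) y := by
    intro q
    rw [← conjFun_mul hact]
    apply conjFun_eq_of_inv_mul_mem hact hy
    rw [← QuotientGroup.eq, hrep]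
    conv_lhs => rw [← hrep q]
    rfl
  simp_rw [h1]
  exact Equiv.sum_comp (MulAction.toPerm τ) (fun q => conjFun act (rep q) y)

theorem smul_mem_maximalIdeal_smul (O : LocalOrder V M act) {μ : _root_.Fermat.Agent.S19.Qb} (hμ : μ ∈ V.nonunits)
    {b : M → _root_.Fermat.Agent.S19.Qb} (hb : b ∈ O.B) :
    μ • b ∈ (IsLocalRing.maximalIdeal V) • Subalgebra.toSubmodule O.B := by
  have hμV : μ ∈ V := mem_of_mem_nonunits V hμ
  have h1 : (⟨μ, hμV⟩ : V) ∈ IsLocalRing.maximalIdeal V := by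
    rw [← ValuationSubring.coe_mem_nonunits_iff]
    exact hμ
  have h2 := Submodule.smul_mem_smul h1 (show b ∈ Subalgebra.toSubmodule O.B from hb)
  rwa [smul_fun_eq] at h2

theorem pow_sub_one_mem_nonunits {u : _root_.Fermat.Agent.S19.Qb} (huV : u ∈ V) (hu : u - 1 ∈ V.nonunits) (n : ℕ) :
    u ^ n - 1 ∈ V.nonunits := by
  have h : u ^ n - 1 = (u - 1) * ∑ i ∈ Finset.range n, u ^ i := by
    rw [mul_comm, geom_sum_mul]
  rw [h]
  exact nonunits_mul_mem V hu (V.toSubring.sum_mem fun i _ => V.toSubring.pow_mem huV i)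

/-- (KL1) the "decomposition part" of an orbit trace lies in `span(equivariant) + 𝔪 B`. -/
theorem trace_mem [Finite M] (hℓ : ℓ.Prime) (hV : (ℓ : _root_.Fermat.Agent.S19.Qb) ∈ V.nonunits)
    (hact : IsContAddAction act) (O : LocalOrder V M act) {x : M → _root_.Fermat.Agent.S19.Qb} (hxB : x ∈ O.B)
    (S : Subgroup GalQ) [Fintype (GalQ ⧸ S)] (hSx : ∀ s ∈ S, conjFun act s x = x)
    (F : IntermediateField ℚ _root_.Fermat.Agent.S19.Qb) (hFS : F.fixingSubgroup = S)
    (rep : GalQ ⧸ S → GalQ) (hrep : ∀ q, (rep q : GalQ ⧸ S) = q)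
    (good : GalQ ⧸ S → Prop) [DecidablePred good]
    (hgood : ∀ q, good q ↔ ∃ σ, IsDecompAt V σ ∧ (σ : GalQ ⧸ S) = q)
    (hrepD : ∀ q, good q → IsDecompAt V (rep q))
    {θ : _root_.Fermat.Agent.S19.Qb} (hθV : θ ∈ V) (hθF : θ ∈ F) :
    (∑ q : GalQ ⧸ S, if good q then (rep q θ) • conjFun act (rep q) x else 0) ∈
      Submodule.span V O.equivariantElements ⊔
        (IsLocalRing.maximalIdeal V) • Subalgebra.toSubmodule O.B := by
  classical
  obtain ⟨d, hdV, hd0, hd⟩ := exists_conductor O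
  have hℓ0 : (ℓ : _root_.Fermat.Agent.S19.Qb) ≠ 0 := by
    exact_mod_cast hℓ.ne_zero
  have hfixF : ∀ a ∈ F, ∀ s ∈ S, s a = a := by
    intro a ha s hs
    have hs' : s ∈ F.fixingSubgroup := hFS ▸ hs
    exact hs' ⟨a, ha⟩
  -- bad cosets
  have hbad : ∀ i : {q : GalQ ⧸ S // ¬ good q}, ∀ ρ ∈ F.fixingSubgroup,
      ¬ IsDecompAt V (rep i.1 * ρ) := by
    intro i ρ hρ hdec
    apply i.2
    rw [hgood]
    refine ⟨rep i.1 * ρ, hdec, ?_⟩
    have hρS : ρ ∈ S := hFS ▸ hρ
    have h1 : ((rep i.1 * ρ : GalQ) : GalQ ⧸ S) = ((rep i.1 : GalQ) : GalQ ⧸ S) := by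
      rw [QuotientGroup.eq]
      have : (rep i.1 * ρ)⁻¹ * rep i.1 = ρ⁻¹ := by group
      rw [this]
      exact S.inv_mem hρS
    rw [h1, hrep]
  obtain ⟨u, huF, huV, hu1, hubad⟩ :=
    exists_approx F hℓ hV (fun i : {q : GalQ ⧸ S // ¬ good q} => rep i.1) hbad
  -- the exponent
  have hN : ∀ᶠ n in Filter.atTop, ∀ i : {q : GalQ ⧸ S // ¬ good q}, ∀ m : M,
      (rep i.1 u) ^ n * ((rep i.1) (θ * x (act (rep i.1)⁻¹ m)) / ((ℓ : _root_.Fermat.Agent.S19.Qb) * d)) ∈ V := by
    rw [Filter.eventually_all]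
    intro i
    rw [Filter.eventually_all]
    intro m
    exact eventually_pow_mul_mem V hℓ hV (hubad i) _
  obtain ⟨n, hn⟩ := hN.exists
  -- the multiplier
  have hcS : ∀ s ∈ S, s (θ * u ^ n) = θ * u ^ n := by
    intro s hs
    have hs' : s ∈ F.fixingSubgroup := hFS ▸ hs
    rw [map_mul, map_pow, hfixF θ hθF s hs, huF s hs']
  have hcθ : θ * u ^ n - θ ∈ V.nonunits := by
    have : θ * u ^ n - θ = (u ^ n - 1) * θ := by ring
    rw [this]
    exact nonunits_mul_mem V (pow_sub_one_mem_nonunits huV hu1 n) hθV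
  have hy : ∀ s ∈ S, conjFun act s ((θ * u ^ n) • x) = (θ * u ^ n) • x := by
    intro s hs
    rw [conjFun_smul, hcS s hs, hSx s hs]
  have heq := isEquivariant_orbit_sum hact S hy rep hrep
  -- termwise comparison
  have hterm : ∀ q : GalQ ⧸ S, conjFun act (rep q) ((θ * u ^ n) • x)
      - (if good q then (rep q θ) • conjFun act (rep q) x else 0) ∈
        (IsLocalRing.maximalIdeal V) • Subalgebra.toSubmodule O.B := by
    intro q
    by_cases hq : good q
    · rw [if_pos hq, conjFun_smul, ← sub_smul]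
      refine smul_mem_maximalIdeal_smul O ?_ (O.stable _ (hrepD q hq) x hxB)
      rw [← map_sub]
      exact (IsDecompAt.map_nonunits (hrepD q hq)).mpr hcθ
    · rw [if_neg hq, sub_zero]
      have hform : conjFun act (rep q) ((θ * u ^ n) • x) = (ℓ : _root_.Fermat.Agent.S19.Qb) • (d • fun m =>
          (rep q u) ^ n * ((rep q) (θ * x (act (rep q)⁻¹ m)) / ((ℓ : _root_.Fermat.Agent.S19.Qb) * d))) := by
        funext m
        simp only [conjFun_apply, Pi.smul_apply, smul_eq_mul, map_mul, map_pow]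
        field_simp
      rw [hform]
      exact smul_mem_maximalIdeal_smul O hV (hd _ (fun m => hn ⟨q, hq⟩ m))
  have hdiff : (∑ q : GalQ ⧸ S, conjFun act (rep q) ((θ * u ^ n) • x))
      - (∑ q : GalQ ⧸ S, if good q then (rep q θ) • conjFun act (rep q) x else 0) ∈
        (IsLocalRing.maximalIdeal V) • Subalgebra.toSubmodule O.B := by
    rw [← Finset.sum_sub_distrib]
    exact Submodule.sum_mem _ fun q _ => hterm q
  have htB : (∑ q : GalQ ⧸ S, if good q then (rep q θ) • conjFun act (rep q) x else 0)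
      ∈ O.B := by
    refine Subalgebra.sum_mem _ fun q _ => ?_
    split_ifs with hq
    · exact smul_mem_of_mem O ((hrepD q hq θ).mpr hθV) (O.stable _ (hrepD q hq) x hxB)
    · exact O.B.zero_mem
  have hmB_le : (IsLocalRing.maximalIdeal V) • Subalgebra.toSubmodule O.B
      ≤ Subalgebra.toSubmodule O.B := Submodule.smul_le_right
  have hhB : (∑ q : GalQ ⧸ S, conjFun act (rep q) ((θ * u ^ n) • x)) ∈ O.B := by
    have h := O.B.add_mem (hmB_le hdiff) htB
    rwa [sub_add_cancel] at h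
  have hhN : (∑ q : GalQ ⧸ S, conjFun act (rep q) ((θ * u ^ n) • x)) ∈
      Submodule.span V O.equivariantElements := Submodule.subset_span ⟨hhB, heq⟩
  have hfin := Submodule.sub_mem _ (Submodule.mem_sup_left
    (T := (IsLocalRing.maximalIdeal V) • Subalgebra.toSubmodule O.B) hhN)
    (Submodule.mem_sup_right (S := Submodule.span V O.equivariantElements) hdiff)
  rwa [sub_sub_cancel] at hfin

/-- (KL2) two elements of the decomposition group inducing the same residue character on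
`V ∩ F` lie in the same coset of `S = Gal(Q̄/F)`, provided `S` contains the inertia group. -/
theorem coset_eq_of_residue_eq (hℓ : ℓ.Prime) (hV : (ℓ : _root_.Fermat.Agent.S19.Qb) ∈ V.nonunits)
    (S : Subgroup GalQ) (F : IntermediateField ℚ _root_.Fermat.Agent.S19.Qb) (hFS : F.fixingSubgroup = S)
    (hIS : ∀ ι : GalQ, IsInertiaAt V ι → ι ∈ S)
    {σ σ' : GalQ} (hσ : IsDecompAt V σ) (hσ' : IsDecompAt V σ')
    (h : ∀ θ ∈ F, θ ∈ V → σ θ - σ' θ ∈ V.nonunits) :
    (σ : GalQ ⧸ S) = (σ' : GalQ ⧸ S) := by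
  have hσ'inv : IsDecompAt V σ'⁻¹ := IsDecompAt.inv hσ'
  have hρ0 : IsDecompAt V (σ'⁻¹ * σ) := IsDecompAt.mul hσ'inv hσ
  have hρ0F : ∀ θ ∈ F, θ ∈ V → (σ'⁻¹ * σ) θ - θ ∈ V.nonunits := by
    intro θ hθF hθV
    have h1 := h θ hθF hθV
    have h2 : (σ'⁻¹ * σ) θ - θ = σ'⁻¹ (σ θ - σ' θ) := by
      rw [map_sub]
      congr 1
      exact (σ'.symm_apply_apply θ).symm
    rw [h2]
    exact (IsDecompAt.map_nonunits hσ'inv).mpr h1
  obtain ⟨ρ, hρF, hρV, hρ⟩ := exists_residue_eq (F := F) hℓ hV (σ'⁻¹ * σ)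
    ((isDecompAt_iff_smul_eq _).mp hρ0) hρ0F
  have hρD : IsDecompAt V ρ := (isDecompAt_iff_smul_eq _).mpr hρV
  have hρinv : IsDecompAt V ρ⁻¹ := IsDecompAt.inv hρD
  have hι : IsInertiaAt V (ρ⁻¹ * (σ'⁻¹ * σ)) := by
    intro a ha
    have h1 := hρ a ha
    have h2 : (ρ⁻¹ * (σ'⁻¹ * σ)) a - a = ρ⁻¹ ((σ'⁻¹ * σ) a - ρ a) := by
      rw [map_sub]
      congr 1
      exact (ρ.symm_apply_apply a).symm
    rw [h2]
    refine (IsDecompAt.map_nonunits hρinv).mpr ?_
    have := nonunits_neg_mem V h1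
    rwa [neg_sub] at this
  have hιS := hIS _ hι
  have hρS : ρ ∈ S := hFS ▸ hρF
  have hmem : σ'⁻¹ * σ ∈ S := by
    have := S.mul_mem hρS hιS
    rwa [mul_inv_cancel_left] at this
  symm
  rw [QuotientGroup.eq]
  exact hmem

/-- Auxiliary form of the key lemma with all choices made. -/
theorem key_lemma_aux [Finite M] (hℓ : ℓ.Prime) (hV : (ℓ : _root_.Fermat.Agent.S19.Qb) ∈ V.nonunits)
    (hact : IsContAddAction act) (O : LocalOrder V M act) {x : M → _root_.Fermat.Agent.S19.Qb} (hxB : x ∈ O.B)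
    (S : Subgroup GalQ) [Fintype (GalQ ⧸ S)] (hSx : ∀ s ∈ S, conjFun act s x = x)
    (F : IntermediateField ℚ _root_.Fermat.Agent.S19.Qb) (hFS : F.fixingSubgroup = S)
    (hIS : ∀ ι : GalQ, IsInertiaAt V ι → ι ∈ S)
    (rep : GalQ ⧸ S → GalQ) (hrep : ∀ q, (rep q : GalQ ⧸ S) = q)
    (hrepD : ∀ q, (∃ τ, IsDecompAt V τ ∧ (τ : GalQ ⧸ S) = q) → IsDecompAt V (rep q)) :
    x ∈ Submodule.span V O.equivariantElements ⊔
        (IsLocalRing.maximalIdeal V) • Subalgebra.toSubmodule O.B := by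
  classical
  let good : GalQ ⧸ S → Prop := fun q => ∃ τ, IsDecompAt V τ ∧ (τ : GalQ ⧸ S) = q
  have hgood : ∀ q, good q ↔ ∃ σ, IsDecompAt V σ ∧ (σ : GalQ ⧸ S) = q := fun q => Iff.rfl
  -- the monoid `V ∩ F`
  let Vs : Submonoid _root_.Fermat.Agent.S19.Qb :=
    { carrier := {θ | θ ∈ V ∧ θ ∈ F}
      one_mem' := ⟨V.one_mem, F.one_mem⟩
      mul_mem' := fun ha hb => ⟨V.mul_mem _ _ ha.1 hb.1, F.mul_mem ha.2 hb.2⟩ }
  -- the residue characters
  let χ : {q : GalQ ⧸ S // good q} → (Vs →* IsLocalRing.ResidueField V) := fun q =>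
    { toFun := fun θ => IsLocalRing.residue V ⟨rep q.1 θ.1, (hrepD q.1 q.2 θ.1).mpr θ.2.1⟩
      map_one' := by
        have : (⟨rep q.1 ((1 : Vs) : _root_.Fermat.Agent.S19.Qb), (hrepD q.1 q.2 _).mpr (1 : Vs).2.1⟩ : V) = 1 := by
          apply Subtype.ext
          simp
        rw [this, map_one]
      map_mul' := fun a b => by
        have : (⟨rep q.1 ((a * b : Vs) : _root_.Fermat.Agent.S19.Qb), (hrepD q.1 q.2 _).mpr (a * b : Vs).2.1⟩ : V)
            = ⟨rep q.1 a.1, (hrepD q.1 q.2 _).mpr a.2.1⟩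
              * ⟨rep q.1 b.1, (hrepD q.1 q.2 _).mpr b.2.1⟩ := by
          apply Subtype.ext
          simp
        rw [this, map_mul] }
  have hχapp : ∀ (q : {q : GalQ ⧸ S // good q}) (θ : Vs),
      χ q θ = IsLocalRing.residue V ⟨rep q.1 θ.1, (hrepD q.1 q.2 θ.1).mpr θ.2.1⟩ := fun _ _ => rfl
  have hres : ∀ (a b : V), IsLocalRing.residue V a = IsLocalRing.residue V b →
      (a : _root_.Fermat.Agent.S19.Qb) - (b : _root_.Fermat.Agent.S19.Qb) ∈ V.nonunits := by
    intro a b hab
    have h1 : IsLocalRing.residue V (a - b) = 0 := by rw [map_sub, hab, sub_self]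
    rw [IsLocalRing.residue_eq_zero_iff] at h1
    have h2 := (ValuationSubring.coe_mem_nonunits_iff).mpr h1
    simpa using h2
  have hχinj : Function.Injective χ := by
    intro q q' hqq
    apply Subtype.ext
    rw [← hrep q.1, ← hrep q'.1]
    refine coset_eq_of_residue_eq hℓ hV S F hFS hIS (hrepD q.1 q.2) (hrepD q'.1 q'.2) ?_
    intro θ hθF hθV
    have h1 : χ q ⟨θ, hθV, hθF⟩ = χ q' ⟨θ, hθV, hθF⟩ := by rw [hqq]
    rw [hχapp, hχapp] at h1
    exact hres _ _ h1
  have hind : LinearIndependent (IsLocalRing.ResidueField V)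
      (fun q : {q : GalQ ⧸ S // good q} => (χ q : Vs → IsLocalRing.ResidueField V)) :=
    (linearIndependent_monoidHom Vs (IsLocalRing.ResidueField V)).comp χ hχinj
  let q0 : {q : GalQ ⧸ S // good q} := ⟨((1 : GalQ) : GalQ ⧸ S), ⟨1, isDecompAt_one, rfl⟩⟩
  obtain ⟨cf, hcf⟩ := exists_finsupp_of_linearIndependent
    (fun q θ => χ q θ) hind q0
  -- lift the coefficients
  have hsurj : ∀ θ : Vs, ∃ a : V, IsLocalRing.residue V a = cf θ := fun θ =>
    IsLocalRing.residue_surjective (cf θ)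
  choose a ha using hsurj
  -- the traces
  have htr : ∀ θ : Vs,
      (∑ q : GalQ ⧸ S, if good q then (rep q θ.1) • conjFun act (rep q) x else 0) ∈
        Submodule.span V O.equivariantElements ⊔
          (IsLocalRing.maximalIdeal V) • Subalgebra.toSubmodule O.B := fun θ =>
    trace_mem hℓ hV hact O hxB S hSx F hFS rep hrep good hgood hrepD θ.2.1 θ.2.2
  have hyP : (∑ θ ∈ cf.support, a θ •
      (∑ q : GalQ ⧸ S, if good q then (rep q θ.1) • conjFun act (rep q) x else 0)) ∈
        Submodule.span V O.equivariantElements ⊔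
          (IsLocalRing.maximalIdeal V) • Subalgebra.toSubmodule O.B :=
    Submodule.sum_mem _ fun θ _ => Submodule.smul_mem _ _ (htr θ)
  -- the coefficient of each good coset
  have hcoef : ∀ q : {q : GalQ ⧸ S // good q},
      (∑ θ ∈ cf.support, ((a θ : V) : _root_.Fermat.Agent.S19.Qb) * rep q.1 θ.1) - (if q = q0 then 1 else 0)
        ∈ V.nonunits := by
    intro q
    have hmemV : (∑ θ ∈ cf.support, ((a θ : V) : _root_.Fermat.Agent.S19.Qb) * rep q.1 θ.1) ∈ V :=
      V.toSubring.sum_mem fun θ _ => V.mul_mem _ _ (a θ).2 ((hrepD q.1 q.2 θ.1).mpr θ.2.1)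
    have hone : (if q = q0 then (1 : _root_.Fermat.Agent.S19.Qb) else 0) ∈ V := by
      split_ifs
      · exact V.one_mem
      · exact V.zero_mem
    have h1 : IsLocalRing.residue V ⟨_, hmemV⟩ = IsLocalRing.residue V ⟨_, hone⟩ := by
      have e1 : (⟨_, hmemV⟩ : V) = ∑ θ ∈ cf.support,
          a θ * ⟨rep q.1 θ.1, (hrepD q.1 q.2 θ.1).mpr θ.2.1⟩ := by
        apply Subtype.ext
        push_cast
        rfl
      have e2 : (⟨_, hone⟩ : V) = if q = q0 then 1 else 0 := by
        apply Subtype.ext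
        split_ifs <;> rfl
      rw [e1, e2, map_sum]
      have := hcf q
      simp only [Finsupp.sum] at this
      rw [apply_ite (IsLocalRing.residue V), map_one, map_zero, ← this]
      refine Finset.sum_congr rfl fun θ _ => ?_
      rw [map_mul, ha θ, hχapp]
    exact hres _ _ h1
  -- `rep q0` fixes `x`
  have hx0 : conjFun act (rep q0.1) x = x := by
    apply hSx
    have := hrep q0.1
    have h2 : ((rep q0.1 : GalQ) : GalQ ⧸ S) = ((1 : GalQ) : GalQ ⧸ S) := this
    rw [QuotientGroup.eq] at h2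
    have h3 := S.inv_mem h2
    simpa using h3
  -- compare
  have hyx : (∑ θ ∈ cf.support, a θ •
      (∑ q : GalQ ⧸ S, if good q then (rep q θ.1) • conjFun act (rep q) x else 0)) - x ∈
        (IsLocalRing.maximalIdeal V) • Subalgebra.toSubmodule O.B := by
    have hx' : x = ∑ q : GalQ ⧸ S, if q = q0.1 then conjFun act (rep q) x else 0 := by
      rw [Finset.sum_ite_eq' Finset.univ q0.1, if_pos (Finset.mem_univ _), hx0]
    have hsum : (∑ θ ∈ cf.support, a θ •
        (∑ q : GalQ ⧸ S, if good q then (rep q θ.1) • conjFun act (rep q) x else 0))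
        = ∑ q : GalQ ⧸ S, if good q then
            (∑ θ ∈ cf.support, ((a θ : V) : _root_.Fermat.Agent.S19.Qb) * rep q θ.1) • conjFun act (rep q) x else 0 := by
      simp_rw [Finset.smul_sum]
      rw [Finset.sum_comm]
      refine Finset.sum_congr rfl fun q _ => ?_
      split_ifs with hq
      · rw [Finset.sum_smul]
        refine Finset.sum_congr rfl fun θ _ => ?_
        rw [smul_fun_eq, smul_smul]
      · simp
    rw [hsum]
    suffices key : (∑ q : GalQ ⧸ S, if good q then
        (∑ θ ∈ cf.support, ((a θ : V) : _root_.Fermat.Agent.S19.Qb) * rep q θ.1) • conjFun act (rep q) x else 0)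
        - (∑ q : GalQ ⧸ S, if q = q0.1 then conjFun act (rep q) x else 0) ∈
          (IsLocalRing.maximalIdeal V) • Subalgebra.toSubmodule O.B by
      rwa [← hx'] at key
    rw [← Finset.sum_sub_distrib]
    refine Submodule.sum_mem _ fun q _ => ?_
    by_cases hq : good q
    · rw [if_pos hq]
      have hc := hcoef ⟨q, hq⟩
      have hstab := O.stable _ (hrepD q hq) x hxB
      by_cases hq0 : q = q0.1
      · have hq0' : (⟨q, hq⟩ : {q : GalQ ⧸ S // good q}) = q0 := Subtype.ext hq0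
        rw [if_pos hq0]
        rw [if_pos hq0'] at hc
        have := smul_mem_maximalIdeal_smul O hc hstab
        rwa [sub_smul, one_smul] at this
      · have hq0' : ¬ (⟨q, hq⟩ : {q : GalQ ⧸ S // good q}) = q0 := fun h =>
          hq0 (congrArg Subtype.val h)
        rw [if_neg hq0, sub_zero]
        rw [if_neg hq0', sub_zero] at hc
        exact smul_mem_maximalIdeal_smul O hc hstab
    · have hq0 : ¬ q = q0.1 := fun h => hq (h ▸ q0.2)
      rw [if_neg hq, if_neg hq0, sub_zero]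
      exact Submodule.zero_mem _
  have hfin := Submodule.sub_mem _ hyP (Submodule.mem_sup_right
    (S := Submodule.span V O.equivariantElements) hyx)
  rwa [sub_sub_cancel] at hfin

/-- The key lemma: an inertia-equivariant element of a local order lies in
`span(equivariant elements) + 𝔪 B`. -/
theorem key_lemma [Finite M] (hℓ : ℓ.Prime) (hV : (ℓ : _root_.Fermat.Agent.S19.Qb) ∈ V.nonunits)
    (hact : IsContAddAction act) (O : LocalOrder V M act) {x : M → _root_.Fermat.Agent.S19.Qb} (hxB : x ∈ O.B)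
    (hxI : IsInertiaEquivariant V act x) :
    x ∈ Submodule.span V O.equivariantElements ⊔
        (IsLocalRing.maximalIdeal V) • Subalgebra.toSubmodule O.B := by
  classical
  -- the stabiliser of `x`, an open subgroup containing inertia
  obtain ⟨E, hEfin, hES⟩ := exists_finiteLevel hact x
  have hSopen : IsOpen ((stab hact x : Subgroup GalQ) : Set GalQ) :=
    Subgroup.isOpen_mono hES E.fixingSubgroup_isOpen
  have hSclosed : IsClosed ((stab hact x : Subgroup GalQ) : Set GalQ) :=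
    Subgroup.isClosed_of_isOpen _ hSopen
  haveI : Finite (GalQ ⧸ stab hact x) := Subgroup.quotient_finite_of_isOpen _ hSopen
  haveI : Fintype (GalQ ⧸ stab hact x) := Fintype.ofFinite _
  have hFS : (IntermediateField.fixedField (stab hact x)).fixingSubgroup = stab hact x :=
    InfiniteGalois.fixingSubgroup_fixedField ⟨stab hact x, hSclosed⟩
  have hIS : ∀ ι : GalQ, IsInertiaAt V ι → ι ∈ stab hact x := fun ι hι =>
    conjFun_eq_of_inertiaEquivariant hact hxI hι
  have hSx : ∀ s ∈ stab hact x, conjFun act s x = x := fun s hs => hs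
  -- representatives
  have hrepex : ∀ q : GalQ ⧸ stab hact x, ∃ σ : GalQ, (σ : GalQ ⧸ stab hact x) = q ∧
      ((∃ τ, IsDecompAt V τ ∧ (τ : GalQ ⧸ stab hact x) = q) → IsDecompAt V σ) := by
    intro q
    by_cases hq : ∃ τ, IsDecompAt V τ ∧ (τ : GalQ ⧸ stab hact x) = q
    · obtain ⟨σ, hσ, rfl⟩ := hq
      exact ⟨σ, rfl, fun _ => hσ⟩
    · exact ⟨q.out, QuotientGroup.out_eq' q, fun h => absurd h hq⟩
  choose rep hrep hrepD using hrepex
  exact key_lemma_aux hℓ hV hact O hxB (stab hact x) hSx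
    (IntermediateField.fixedField (stab hact x)) hFS hIS rep hrep hrepD

/-- **Node UB**: in a local order the `Gal(Q̄/Q)`-equivariant elements span. -/
theorem spanningStatement : SpanningStatement := by
  intro ℓ hℓ M _ _ act hact V hV O
  refine Submodule.le_of_le_smul_of_le_jacobson_bot O.fg
    (IsLocalRing.maximalIdeal_le_jacobson ⊥) ?_
  refine le_trans O.span_inertia ?_
  rw [Submodule.span_le]
  rintro x ⟨hxB, hxI⟩
  exact key_lemma hℓ.out hV hact O hxB hxI

end Fermat.Agent.S19.Unr.H992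

end

end
-- ===== PACK-END S19/Unr/H992/Spanning.lean

-- ===== PACK-BEGIN S17/H20/RatField.lean
section




/-!
# S17 / G-DIV (helper20): evaluation at places and functions defined over a subfield (for TRANS)

Setting: `L` an uncountable algebraically closed field of characteristic zero,
`F_L = laurentBaseChange L F₀`, `K₁ ⊆ L` a countable subfield.

* `evAt P hP : O_P →+* L` : evaluation at a place of degree one.
* `ratField F₀ K₁` : the subfield of `F_L` generated by the constants of `K₁` and by the image of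
  `F₀` ("functions defined over `K₁`"); it is fixed pointwise by every `σ ∈ Aut(L/K₁)`.
The transitivity statement itself (`stmtTRANS`) is in `TransStmt.lean`.
-/

set_option autoImplicit false
set_option linter.style.haveILetI false

noncomputable section

open AlgebraicCurve ModularCurve Cardinal
open scoped Pointwise

namespace Fermat.Agent.S17.H20

section Eval

variable {K F : Type*} [Field K] [Field F] [Algebra K F]

theorem bijective_algebraMap_residueField (P : Place K F) (hP : P.deg = 1) :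
    Function.Bijective (algebraMap K P.ResidueField) := by
  refine ⟨(algebraMap K P.ResidueField).injective, fun x => ?_⟩
  have h1 : (1 : P.ResidueField) ≠ 0 := one_ne_zero
  have hspan := (finrank_eq_one_iff_of_nonzero' (1 : P.ResidueField) h1).mp hP
  obtain ⟨c, hc⟩ := hspan x
  refine ⟨c, ?_⟩
  rw [← hc, Algebra.smul_def, mul_one]

/-- Evaluation at a place of degree one. -/
def evAt (P : Place K F) (hP : P.deg = 1) : P.toValuationSubring →+* K :=
  ((RingEquiv.ofBijective (algebraMap K P.ResidueField)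
    (bijective_algebraMap_residueField P hP)).symm : P.ResidueField →+* K).comp
    (IsLocalRing.residue P.toValuationSubring)

theorem algebraMap_evAt (P : Place K F) (hP : P.deg = 1) (x : P.toValuationSubring) :
    algebraMap K P.ResidueField (evAt P hP x) = IsLocalRing.residue P.toValuationSubring x := by
  unfold evAt
  simp only [RingHom.coe_comp, RingHom.coe_coe, Function.comp_apply]
  exact (RingEquiv.ofBijective (algebraMap K P.ResidueField)
    (bijective_algebraMap_residueField P hP)).apply_symm_apply _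

theorem evAt_algebraMap (P : Place K F) (hP : P.deg = 1) (c : K) :
    evAt P hP (algebraMap K P.toValuationSubring c) = c := by
  apply (algebraMap K P.ResidueField).injective
  rw [algebraMap_evAt]
  rfl

theorem evAt_eq_zero_iff (P : Place K F) (hP : P.deg = 1) (x : P.toValuationSubring) :
    evAt P hP x = 0 ↔ x ∈ IsLocalRing.maximalIdeal P.toValuationSubring := by
  rw [← IsLocalRing.residue_eq_zero_iff, ← algebraMap_evAt P hP x]
  constructor
  · intro h; rw [h, map_zero]
  · intro h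
    exact (algebraMap K P.ResidueField).injective (by rw [h, map_zero])

theorem evAt_ne_zero_of_ord_eq_zero (P : Place K F) (hP : P.deg = 1)
    (x : P.toValuationSubring) (hx0 : (x : F) ≠ 0) (hx : P.ord (x : F) = 0) :
    evAt P hP x ≠ 0 := by
  rw [ne_eq, evAt_eq_zero_iff, Fermat.Agent.Lib.RR.mem_maximalIdeal_iff]
  rintro (h | h)
  · exact hx0 h
  · omega

end Eval

end Fermat.Agent.S17.H20

namespace Fermat.Agent.S17.H20

section RatField

variable {L : Type*} [Field L] [Algebra ℚ L]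
variable (F₀ : IntermediateField ℚ (LaurentSeries ℚ))

/-- Generators of the field of functions defined over `K₁`: constants of `K₁` and the image of
`F₀`. -/
def ratGen (K₁ : Subfield L) : Set (laurentBaseChange L F₀) :=
  (algebraMap L (laurentBaseChange L F₀)) '' (K₁ : Set L) ∪
    {x | ∃ y ∈ F₀, (x : LaurentSeries L) = coeffEmb L y}

/-- The subfield of `F_L` of functions defined over `K₁`. -/
def ratField (K₁ : Subfield L) : Subfield (laurentBaseChange L F₀) :=
  Subfield.closure (ratGen F₀ K₁)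

theorem algebraMap_mem_ratField (K₁ : Subfield L) {c : L} (hc : c ∈ K₁) :
    algebraMap L (laurentBaseChange L F₀) c ∈ ratField F₀ K₁ :=
  Subfield.subset_closure (Or.inl ⟨c, hc, rfl⟩)

theorem coeffEmb_mem_ratField (K₁ : Subfield L) {y : LaurentSeries ℚ} (hy : y ∈ F₀) :
    (⟨coeffEmb L y, coeffEmb_mem_laurentBaseChange L hy⟩ : laurentBaseChange L F₀)
      ∈ ratField F₀ K₁ :=
  Subfield.subset_closure (Or.inr ⟨y, hy, rfl⟩)

/-- `ratField` is countable when `K₁` and `F₀` are. -/
theorem countable_ratField (K₁ : Subfield L) (hK₁ : (K₁ : Set L).Countable)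
    (hF₀ : (F₀ : Set (LaurentSeries ℚ)).Countable) :
    #(ratField F₀ K₁) ≤ ℵ₀ := by
  have hgen : (ratGen F₀ K₁).Countable := by
    refine Set.Countable.union (hK₁.image _) ?_
    have hsub : {x : laurentBaseChange L F₀ | ∃ y ∈ F₀, (x : LaurentSeries L) = coeffEmb L y}
        ⊆ Set.range (fun y : F₀ => (⟨coeffEmb L (y : LaurentSeries ℚ),
            coeffEmb_mem_laurentBaseChange L y.2⟩ : laurentBaseChange L F₀)) := by
      rintro x ⟨y, hy, hxy⟩
      exact ⟨⟨y, hy⟩, Subtype.ext hxy.symm⟩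
    haveI : Countable F₀ := hF₀.to_subtype
    exact (Set.countable_range _).mono hsub
  refine (Subfield.cardinalMk_closure_le_max _).trans ?_
  exact max_le (Cardinal.mk_le_aleph0_iff.mpr hgen.to_subtype) le_rfl

/-- Automorphisms of `L` fixing `K₁` pointwise fix `ratField F₀ K₁` pointwise. -/
theorem smul_eq_of_mem_ratField (K₁ : Subfield L) (σ : L ≃ₐ[ℚ] L) (hσ : ∀ c ∈ K₁, σ c = c)
    {a : laurentBaseChange L F₀} (ha : a ∈ ratField F₀ K₁) :
    arithmeticGalois F₀ σ • a = a := by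
  induction ha using Subfield.closure_induction with
  | mem x hx =>
    rcases hx with ⟨c, hc, rfl⟩ | ⟨y, hy, hxy⟩
    · rw [SemilinearAut.smul_algebraMap]
      show algebraMap L _ (σ.toRingEquiv c) = _
      congr 1
      exact hσ c hc
    · apply Subtype.ext
      rw [coe_arithmeticGalois_smul, hxy]
      exact coeffMap_coeffEmb σ y
  | one => exact smul_one _
  | add x y _ _ hx hy => rw [smul_add, hx, hy]
  | neg x _ hx => rw [smul_neg, hx]
  | inv x _ hx => rw [smul_inv'', hx]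
  | mul x y _ _ hx hy => rw [smul_mul', hx, hy]

end RatField

end Fermat.Agent.S17.H20


end
end
-- ===== PACK-END S17/H20/RatField.lean

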