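import Mathlib
import Fermat.Prelude.Def_GaloisRep_StrictOrdinary
import Fermat.Prelude.Def_GaloisRep_DeformationRingData
import Fermat.Agent.Pack.S43MC.G0E10L2
import Fermat.Agent.Pack.S43GC.G0E9L0
import Fermat.Agent.Pack.S59C.E2L0
import Fermat.Agent.Pack.S43GC.G0E5L0
import Fermat.Agent.Pack.S43MC.G0E12L2
import Fermat.Agent.Pack.S59C.E2L2
import Fermat.Agent.Pack.S44C.G0E6L3
import Fermat.Agent.Pack.S44C.G0E13L2
import Fermat.Agent.Pack.S44C.G0E6L0
import Fermat.Agent.Pack.S59C.E2L1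
import Fermat.Agent.Pack.S43GC.G0E8L1
import Fermat.Agent.Pack.S43GC.G0E6L3
import Fermat.Agent.Pack.S43GC.G0E9L1
import Fermat.Agent.Pack.S43GC.G0E2L0
import Fermat.Agent.Pack.S43GC.G0E4L0
import Fermat.Agent.Pack.S43GC.G0E0L0
import Fermat.Agent.Pack.S43GC.G1E0L0
import Fermat.Agent.Pack.S43GC.G0E9L2
import Fermat.Agent.Pack.S44C.G0E14L2
import Fermat.Agent.Pack.S44C.G0E13L0
import Fermat.Agent.Pack.S44C.G0E15L0
import Fermat.Agent.Pack.S44C.G0E12L1

set_option linter.all false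

-- ===== PACK-BEGIN S59/Arch/Glue2.lean
section



/-!
# Row S59 — top glue, v2 (helper239)

`rt_of_mlt2 : FrobExistsStatement → SemistableMLT2Statement → RTStatement`
(the coefficient ring and the `CurveRep` are chosen by the proof of `SemistableMLT2Statement`).
-/

set_option autoImplicit false

open Polynomial IsLocalRing

namespace Fermat.Agent.S59.Arch

open Fermat.Agent.S59.H239

/-- **(RT) from the modularity lifting theorem in point form, v2.** -/
theorem rt_of_mlt2 (hFrob : FrobExistsStatement) (hMLT : SemistableMLT2Statement) :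
    RTStatement := by
  intro p hp W hΔ hW hirr M₀ _ hres hM₀ hM₀3
  have hpp : p.Prime := by
    rcases hp with rfl | rfl
    · exact Nat.prime_three
    · exact Nat.prime_five
  haveI : Fact p.Prime := ⟨hpp⟩
  obtain ⟨𝒪, _, _, _, _, _, _, ρW, N, hNZ, S, hpN, hN3, hbad, hSprime, hSN, hpS, hNS, θ, T,
    _, _, _, _, _, _, _, _, H, hpt⟩ := hMLT p hp W hΔ hW hirr M₀ hres hM₀ hM₀3
  refine ⟨N, hNZ, S, hpN, hN3, hbad, hSprime, hSN, ?_⟩
  refine exists_int_char_of_point hFrob hNS H ρW.ρ (fun ℓ => W.apOfModel ℓ) ?_ hpt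
  intro ℓ hℓ hℓS A hA σ hσ
  refine ρW.charpoly_frob ℓ hℓ ?_ ?_ A hA σ hσ
  · intro hbadℓ
    exact hℓS (hNS ℓ hℓ (hbad ℓ hℓ hbadℓ))
  · rintro rfl
    exact hℓS hpS

end Fermat.Agent.S59.Arch

end
-- ===== PACK-END S59/Arch/Glue2.lean

-- ===== PACK-BEGIN S59/H427/TateCentered.lean
section


/-!
# S59 / N1 (helper427): Tate's formula for complete intersections, centered case

`O` a discrete valuation ring with finite residue field, `T` a finite free local `O`-algebra with
an augmentation `π : T → O`, presented as `T = O⟦X₁,…,Xₙ⟧ / (f₁,…,fₙ)` with the variables mapping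
into `ker π`.  If `Φ = ker π / (ker π)²` is finite, then `η = π (Ann (ker π)) ≠ 0` and
`#Φ = #(O / η)`.
-/

set_option autoImplicit false
set_option linter.unusedSectionVars false
set_option linter.unusedVariables false
set_option linter.style.haveILetI false

namespace Fermat.Agent.S59.H427

open IsLocalRing MvPowerSeries Fermat.Agent.S59.H67

section Nilp

/-- In a finite local algebra over a local ring, a power of the maximal ideal lies in `𝔪_O T`. -/
theorem exists_maximalIdeal_pow_le_map {O T : Type*} [CommRing O] [IsLocalRing O] [CommRing T]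
    [IsLocalRing T] [Algebra O T] [Module.Finite O T] :
    ∃ a : ℕ, maximalIdeal T ^ a ≤ Ideal.map (algebraMap O T) (maximalIdeal O) := by
  letI : Field (O ⧸ maximalIdeal O) := Ideal.Quotient.field _
  have h1 : Module.Finite (O ⧸ maximalIdeal O)
      (T ⧸ Ideal.map (algebraMap O T) (maximalIdeal O)) :=
    Module.Finite.of_restrictScalars_finite O _ _
  have h2 : IsArtinianRing (T ⧸ Ideal.map (algebraMap O T) (maximalIdeal O)) :=
    IsArtinianRing.of_finite (O ⧸ maximalIdeal O) _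
  exact exists_maximalIdeal_pow_le_of_isArtinianRing_quotient _

end Nilp

section Generic

variable {O : Type*} [CommRing O] [IsDomain O] [IsDiscreteValuationRing O]
variable {T : Type*} [CommRing T] [Algebra O T] [Module.Free O T]

/-- If `θ ∈ Ann (ker π)` is not divisible by the uniformizer in `T` and `η ≠ 0`, then
`η = (π θ)` and `π θ ≠ 0`. -/
theorem etaIdeal_eq_span_of_not_dvd (π : T →ₐ[O] O) (hη : etaIdeal π ≠ ⊥) {ϖ : O}
    (hϖ : Irreducible ϖ) {θ : T} (hθ : θ ∈ (RingHom.ker π).annihilator)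
    (hprim : ∀ t : T, θ ≠ ϖ • t) :
    π θ ≠ 0 ∧ etaIdeal π = Ideal.span {π θ} := by
  have hmax : maximalIdeal O = Ideal.span {ϖ} :=
    (IsDiscreteValuationRing.irreducible_iff_uniformizer ϖ).mp hϖ
  -- the key relation
  have key : ∀ t ∈ (RingHom.ker π).annihilator, π θ • t = π t • θ := by
    intro t ht
    refine Fermat.Agent.S59.H360.eq_of_mem_annihilator_of_map_eq π hη
      (Submodule.smul_of_tower_mem _ _ ht) (Submodule.smul_of_tower_mem _ _ hθ) ?_
    rw [map_smul, map_smul, smul_eq_mul, smul_eq_mul, mul_comm]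
  have hθ0 : π θ ≠ 0 := by
    intro h0
    obtain ⟨w, hw, hπw⟩ : ∃ w ∈ (RingHom.ker π).annihilator, π w ≠ 0 := by
      by_contra hcon
      push Not at hcon
      apply hη
      rw [etaIdeal, Ideal.map_eq_bot_iff_le_ker]
      intro w hw
      exact RingHom.mem_ker.mpr (hcon w hw)
    have h1 := key w hw
    rw [h0, zero_smul] at h1
    have h2 : θ = 0 := (smul_eq_zero.mp h1.symm).resolve_left hπw
    exact hprim 0 (by rw [h2, smul_zero])
  refine ⟨hθ0, le_antisymm ?_ ?_⟩
  · rw [etaIdeal, Ideal.map_le_iff_le_comap]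
    intro t ht
    rw [Ideal.mem_comap, Ideal.mem_span_singleton]
    show π θ ∣ π t
    by_cases hπt : π t = 0
    · rw [hπt]; exact dvd_zero _
    obtain ⟨k, u, hk⟩ := IsDiscreteValuationRing.eq_unit_mul_pow_irreducible hπt hϖ
    obtain ⟨m, u', hm⟩ := IsDiscreteValuationRing.eq_unit_mul_pow_irreducible hθ0 hϖ
    rcases le_or_gt m k with hmk | hkm
    · refine ⟨(↑u'⁻¹ : O) * u * ϖ ^ (k - m), ?_⟩
      rw [hk, hm]
      have : ϖ ^ k = ϖ ^ m * ϖ ^ (k - m) := by rw [← pow_add, Nat.add_sub_cancel' hmk]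
      rw [this]
      have hu : (u' : O) * (↑u'⁻¹ : O) = 1 := Units.mul_inv u'
      linear_combination (-(↑u : O) * ϖ ^ m * ϖ ^ (k - m)) * hu
    · exfalso
      -- `π θ = π t * ϖ * c`
      obtain ⟨d, hd⟩ : ∃ d, m = k + 1 + d := ⟨m - k - 1, by omega⟩
      have h1 : π θ = π t * (ϖ * ((↑u⁻¹ : O) * u' * ϖ ^ d)) := by
        rw [hk, hm, hd]
        have hu : (u : O) * (↑u⁻¹ : O) = 1 := Units.mul_inv u
        rw [pow_add, pow_add, pow_one]
        linear_combination (-(↑u' : O) * ϖ ^ k * ϖ * ϖ ^ d) * hu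
      have h2 := key t ht
      rw [h1, mul_smul] at h2
      have h3 : (ϖ * ((↑u⁻¹ : O) * u' * ϖ ^ d)) • t = θ :=
        smul_right_injective T hπt h2
      exact hprim (((↑u⁻¹ : O) * u' * ϖ ^ d) • t) (by rw [← h3, mul_smul])
  · rw [Ideal.span_le, Set.singleton_subset_iff]
    exact Ideal.mem_map_of_mem _ hθ

end Generic

end Fermat.Agent.S59.H427

end
-- ===== PACK-END S59/H427/TateCentered.lean

-- ===== PACK-BEGIN S59/H202/HK2Index.lean
section




/-!
# Row S59, cell NM, leaf HK2 — indices at the second stage (helper202)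

For `q` prime and `q ∣ M`, `M ≠ 0`:

* `index_range_incl_of_dvd` : `[Γ₀(M) : Γ₀(M q)] = q`;
* `index_range_conjDelta_of_dvd` : the range of `c_δ : Γ₀(M q) → Γ₀(M)`
  (`= {h ∈ Γ₀(M) | q ∣ h₀₁}`) has index `q` in `Γ₀(M)`.
-/

set_option autoImplicit false

namespace Fermat.Agent.S59.H202

open CongruenceSubgroup Matrix.SpecialLinearGroup
open Fermat.Agent.S41.Spec
open scoped MatrixGroups

/-- `[Γ₀(M) : Γ₀(M q)] = q` for `q ∣ M`. -/
theorem index_range_incl_of_dvd {M q : ℕ} (hM : M ≠ 0) (hq : q.Prime) (hqM : q ∣ M) :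
    (incl M q).range.index = q := by
  rw [Fermat.Agent.S41.H105.range_incl, Nat.mul_comm M q]
  exact Fermat.Agent.S20.Comb.relIndex_Gamma0_of_dvd q M hM hq hqM

/-- The `(0,1)` entry of `g⁻¹ * g'`. -/
theorem inv_mul_apply_zero_one (g g' : SL(2, ℤ)) :
    (g⁻¹ * g') 0 1 = g 1 1 * g' 0 1 - g 0 1 * g' 1 1 := by
  rw [Matrix.SpecialLinearGroup.coe_mul, Matrix.SpecialLinearGroup.coe_inv,
    Matrix.adjugate_fin_two, Matrix.mul_apply, Fin.sum_univ_two]
  simp
  ring

/-- The matrix `[[1, t], [0, 1]]` in `SL(2, ℤ)`. -/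
def upRep (t : ℤ) : SL(2, ℤ) := ⟨!![1, t; 0, 1], by simp [Matrix.det_fin_two]⟩

theorem upRep_apply_zero_one (t : ℤ) : upRep t 0 1 = t := rfl

theorem upRep_apply_one_one (t : ℤ) : upRep t 1 1 = 1 := rfl

theorem upRep_apply_one_zero (t : ℤ) : upRep t 1 0 = 0 := rfl

theorem upRep_mem (M : ℕ) (t : ℤ) : upRep t ∈ Gamma0 M := by
  rw [Fermat.Agent.S20.Comb.mem_Gamma0_iff_dvd, upRep_apply_one_zero]
  exact dvd_zero _

/-- Coset criterion for `Γ₀(M) ⧸ range c_δ`. -/
theorem mk_conj_eq_iff (M : ℕ) {q : ℕ} (hq : q ≠ 0) (g g' : Gamma0 M) :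
    (QuotientGroup.mk g : Gamma0 M ⧸ (conjDelta M q).range) = QuotientGroup.mk g' ↔
      (q : ℤ) ∣ ((g : SL(2, ℤ)) 1 1 * (g' : SL(2, ℤ)) 0 1
        - (g : SL(2, ℤ)) 0 1 * (g' : SL(2, ℤ)) 1 1) := by
  rw [QuotientGroup.eq, Fermat.Agent.S41.H105.mem_range_conjDelta_iff M hq]
  simp only [Subgroup.coe_mul, Subgroup.coe_inv, inv_mul_apply_zero_one]

/-- For `g ∈ Γ₀(M)` with `q ∣ M`, the entry `g₁₁` is prime to `q`. -/
theorem d_ne_zero_of_dvd {M q : ℕ} (hq : q.Prime) (h : q ∣ M) (g : Gamma0 M) :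
    ¬ (q : ℤ) ∣ (g : SL(2, ℤ)) 1 1 := by
  intro hd
  have hg := (Fermat.Agent.S20.Comb.mem_Gamma0_iff_dvd M _).mp g.2
  have hqc : (q : ℤ) ∣ (g : SL(2, ℤ)) 1 0 := dvd_trans (by exact_mod_cast h) hg
  have hdet := (g : SL(2, ℤ)).det_coe
  rw [Matrix.det_fin_two] at hdet
  have h1 : (q : ℤ) ∣ 1 := by
    rw [← hdet]
    exact dvd_sub (dvd_mul_of_dvd_right hd _) (dvd_mul_of_dvd_right hqc _)
  have := Int.natCast_dvd_natCast.mp (by simpa using h1 : ((q : ℕ) : ℤ) ∣ ((1 : ℕ) : ℤ))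
  exact hq.one_lt.ne' (Nat.dvd_one.mp this)

/-- The coset representative attached to `t : ZMod q`. -/
noncomputable def conjRep (M q : ℕ) (t : ZMod q) : Gamma0 M ⧸ (conjDelta M q).range :=
  QuotientGroup.mk ⟨upRep (ZMod.cast t : ℤ), upRep_mem M _⟩

theorem conjRep_injective (M : ℕ) {q : ℕ} (hq : q.Prime) :
    Function.Injective (conjRep M q) := by
  have : Fact q.Prime := ⟨hq⟩
  intro t t' h
  simp only [conjRep] at h
  rw [mk_conj_eq_iff M hq.ne_zero] at h
  simp only [upRep_apply_zero_one, upRep_apply_one_one, one_mul, mul_one] at h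
  have := (ZMod.intCast_zmod_eq_zero_iff_dvd _ q).mpr h
  push_cast at this
  exact (sub_eq_zero.mp this).symm

theorem mem_range_conjRep {M q : ℕ} (hq : q.Prime) (hqM : q ∣ M) (g : Gamma0 M) :
    (QuotientGroup.mk g : Gamma0 M ⧸ (conjDelta M q).range) ∈ Set.range (conjRep M q) := by
  have : Fact q.Prime := ⟨hq⟩
  have hd : (((g : SL(2, ℤ)) 1 1 : ℤ) : ZMod q) ≠ 0 := by
    rw [Ne, ZMod.intCast_zmod_eq_zero_iff_dvd]
    exact d_ne_zero_of_dvd hq hqM g
  refine ⟨(((g : SL(2, ℤ)) 0 1 : ℤ) : ZMod q) * (((g : SL(2, ℤ)) 1 1 : ℤ) : ZMod q)⁻¹, ?_⟩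
  simp only [conjRep]
  rw [mk_conj_eq_iff M hq.ne_zero]
  simp only [upRep_apply_zero_one, upRep_apply_one_one, one_mul]
  rw [← ZMod.intCast_zmod_eq_zero_iff_dvd]
  push_cast
  rw [mul_assoc, inv_mul_cancel₀ hd, mul_one, sub_self]

/-- The range of `c_δ : Γ₀(M q) → Γ₀(M)` has index `q` if `q ∣ M`. -/
theorem index_range_conjDelta_of_dvd {M q : ℕ} (hq : q.Prime) (hqM : q ∣ M) :
    (conjDelta M q).range.index = q := by
  have hbij : Function.Bijective (conjRep M q) := by
    refine ⟨conjRep_injective M hq, ?_⟩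
    intro x
    obtain ⟨g, rfl⟩ := QuotientGroup.mk_surjective x
    exact mem_range_conjRep hq hqM g
  rw [Subgroup.index, ← Nat.card_eq_of_bijective _ hbij, Nat.card_zmod]

end Fermat.Agent.S59.H202

end
-- ===== PACK-END S59/H202/HK2Index.lean

-- ===== PACK-BEGIN S41/H161/IK/Dist.lean
section



/-!
# S41 / IK (helper161): bottom rows of the Hecke elements `γ_x`

`α_x γ = γ_x α_{πx}` with `α_j = [[1, j], [0, l]]`, `α_∞ = [[l, 0], [0, 1]]`.  For `γ` with bottom
row `(c, d)`: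
* `x = j`, `πx = j'` : `γ_x` has bottom row `(l c, d - c j')`;
* `x = j`, `πx = ∞`  : `(c, l d)`;
* `x = ∞`, `πx = j'` : `(c, d'')` with `d'' l = d - c j'`;
* `x = ∞`, `πx = ∞`  : only if `l ∣ c`.
-/

set_option autoImplicit false

namespace Fermat.Agent.S41.H161

open CongruenceSubgroup Matrix.SpecialLinearGroup
open Fermat.Agent.S29.H642 Fermat.Agent.S41.Spec Fermat.Agent.S41.H281
open scoped MatrixGroups

variable {N l : ℕ} [Fact l.Prime]

theorem l_ne_zero_int : (l : ℤ) ≠ 0 := by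
  exact_mod_cast (Fact.out : l.Prime).ne_zero

theorem hElt_row_coe_coe (hl : ¬ l ∣ N) (γ : Gamma0 N) (j j' : ZMod l)
    (h : hPerm l (γ : SL(2, ℤ)) (j : OnePoint (ZMod l)) = (j' : OnePoint (ZMod l))) :
    ((hElt hl γ (j : OnePoint (ZMod l)) : Gamma0 N) : SL(2, ℤ)) 1 0 = l * (γ : SL(2, ℤ)) 1 0 ∧
    ((hElt hl γ (j : OnePoint (ZMod l)) : Gamma0 N) : SL(2, ℤ)) 1 1 =
      (γ : SL(2, ℤ)) 1 1 - (γ : SL(2, ℤ)) 1 0 * (j'.val : ℤ) := by
  have hs := hElt_spec_int hl γ (j : OnePoint (ZMod l))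
  rw [h] at hs
  have h10 := congrFun (congrFun hs 1) 0
  have h11 := congrFun (congrFun hs 1) 1
  simp only [repInt_coe, Matrix.mul_apply, Fin.sum_univ_two, Matrix.of_apply, Matrix.cons_val',
    Matrix.cons_val_zero, Matrix.cons_val_one, Matrix.empty_val', Matrix.cons_val_fin_one] at h10 h11
  have e10 : ((hElt hl γ (j : OnePoint (ZMod l)) : Gamma0 N) : SL(2, ℤ)) 1 0 =
      l * (γ : SL(2, ℤ)) 1 0 := by
    linear_combination -h10
  refine ⟨e10, ?_⟩
  have hl0 : (l : ℤ) ≠ 0 := l_ne_zero_int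
  apply mul_left_cancel₀ hl0
  rw [e10] at h11
  linear_combination -h11

theorem hElt_row_coe_infty (hl : ¬ l ∣ N) (γ : Gamma0 N) (j : ZMod l)
    (h : hPerm l (γ : SL(2, ℤ)) (j : OnePoint (ZMod l)) = OnePoint.infty) :
    ((hElt hl γ (j : OnePoint (ZMod l)) : Gamma0 N) : SL(2, ℤ)) 1 0 = (γ : SL(2, ℤ)) 1 0 ∧
    ((hElt hl γ (j : OnePoint (ZMod l)) : Gamma0 N) : SL(2, ℤ)) 1 1 =
      l * (γ : SL(2, ℤ)) 1 1 := by
  have hs := hElt_spec_int hl γ (j : OnePoint (ZMod l))
  rw [h] at hs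
  have h10 := congrFun (congrFun hs 1) 0
  have h11 := congrFun (congrFun hs 1) 1
  simp only [repInt_coe, repInt_infty, Matrix.mul_apply, Fin.sum_univ_two, Matrix.of_apply,
    Matrix.cons_val', Matrix.cons_val_zero, Matrix.cons_val_one, Matrix.empty_val',
    Matrix.cons_val_fin_one] at h10 h11
  have hl0 : (l : ℤ) ≠ 0 := l_ne_zero_int
  refine ⟨?_, ?_⟩
  · apply mul_left_cancel₀ hl0
    linear_combination -h10
  · linear_combination -h11

theorem hElt_row_infty_coe (hl : ¬ l ∣ N) (γ : Gamma0 N) (j' : ZMod l)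
    (h : hPerm l (γ : SL(2, ℤ)) OnePoint.infty = (j' : OnePoint (ZMod l))) :
    ((hElt hl γ OnePoint.infty : Gamma0 N) : SL(2, ℤ)) 1 0 = (γ : SL(2, ℤ)) 1 0 ∧
    ((hElt hl γ OnePoint.infty : Gamma0 N) : SL(2, ℤ)) 1 1 * l =
      (γ : SL(2, ℤ)) 1 1 - (γ : SL(2, ℤ)) 1 0 * (j'.val : ℤ) := by
  have hs := hElt_spec_int hl γ OnePoint.infty
  rw [h] at hs
  have h10 := congrFun (congrFun hs 1) 0
  have h11 := congrFun (congrFun hs 1) 1
  simp only [repInt_coe, repInt_infty, Matrix.mul_apply, Fin.sum_univ_two, Matrix.of_apply,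
    Matrix.cons_val', Matrix.cons_val_zero, Matrix.cons_val_one, Matrix.empty_val',
    Matrix.cons_val_fin_one] at h10 h11
  have e10 : ((hElt hl γ OnePoint.infty : Gamma0 N) : SL(2, ℤ)) 1 0 = (γ : SL(2, ℤ)) 1 0 := by
    linear_combination -h10
  refine ⟨e10, ?_⟩
  rw [e10] at h11
  linear_combination -h11

theorem hPerm_infty_ne_infty (hl : ¬ l ∣ N) (γ : Gamma0 N)
    (hlc : ¬ (l : ℤ) ∣ (γ : SL(2, ℤ)) 1 0) :
    hPerm l (γ : SL(2, ℤ)) OnePoint.infty ≠ OnePoint.infty := by
  intro h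
  have hs := hElt_spec_int hl γ OnePoint.infty
  rw [h] at hs
  have h10 := congrFun (congrFun hs 1) 0
  simp only [repInt_infty, Matrix.mul_apply, Fin.sum_univ_two, Matrix.of_apply,
    Matrix.cons_val', Matrix.cons_val_zero, Matrix.cons_val_one, Matrix.empty_val',
    Matrix.cons_val_fin_one] at h10
  apply hlc
  exact ⟨((hElt hl γ OnePoint.infty : Gamma0 N) : SL(2, ℤ)) 1 0, by linear_combination h10⟩

end Fermat.Agent.S41.H161

end
-- ===== PACK-END S41/H161/IK/Dist.lean

-- ===== PACK-BEGIN Lib/Frob23/Invol.lean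
section




/-!
# The hyperelliptic involution of the function field of a Weierstrass curve (helper472)

`F` a field, `W` a Weierstrass curve over `F` with `Δ ≠ 0` (ANY characteristic, long Weierstrass
form), `KK W` its function field, `P₀ = (gx, gy)` the generic point.

* `invol W : KK W →ₐ[F] KK W` : the `F`-algebra endomorphism with `gx ↦ gx`, `gy ↦ negY gx gy`.
* `iR W : RatFunc F →ₐ[F] KK W` : the embedding of `F(X)`, `X ↦ gx`.
* `exists_iR_eq_of_invol_eq` : the fixed field of `invol` is `F(X)`.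
* `antiSub W` : the subgroup of `W(KK W)` of points `P` with `invol P = -P` ("odd morphisms");
  it contains the generic point and all its points have `x`-coordinate in `F(X)`
  (`exists_isXRep_of_mem_antiSub`), so that the exact degree height `H311.hgt` satisfies the
  parallelogram law on it (`hgt_parallelogram`).
-/

set_option autoImplicit false

open WeierstrassCurve Polynomial
open scoped Polynomial.Bivariate WeierstrassCurve.Affine

namespace Fermat.Agent.Lib.Frob23

open Fermat.Agent.Lib.FrobRel Fermat.Agent.S52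

universe u

variable {F : Type u} [Field F] (W : WeierstrassCurve F)

/-- the function field of `W` over `F` -/
abbrev KK : Type u := H230.FF W F

/-- the embedding `F[X] → KK W` -/
noncomputable def jX : F[X] →ₐ[F] KK W :=
  (IsScalarTower.toAlgHom F F[X] (KK W))

lemma jX_apply (a : F[X]) : jX W a = algebraMap F[X] (KK W) a := rfl

lemma jX_injective : Function.Injective (jX W) := H230.algebraMap_poly_FF_injective W F

lemma jX_X : jX W X = H230.gx W F := (H230.gx_eq_algebraMap_X W F).symm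

lemma jX_eq_aeval (a : F[X]) : jX W a = aeval (H230.gx W F) a := by
  have h : jX W = aeval (H230.gx W F) := by
    apply Polynomial.algHom_ext
    rw [jX_X, aeval_X]
  rw [h]

/-- the embedding `F(X) → KK W` -/
noncomputable def iR : RatFunc F →ₐ[F] KK W :=
  IsFractionRing.liftAlgHom (g := jX W) (jX_injective W)

lemma iR_algebraMap (a : F[X]) : iR W (algebraMap F[X] (RatFunc F) a) = jX W a := by
  rw [iR, IsFractionRing.liftAlgHom_apply, IsFractionRing.lift_algebraMap]
  rfl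

lemma iR_injective : Function.Injective (iR W) := (iR W).toRingHom.injective

lemma iR_X : iR W RatFunc.X = H230.gx W F := by
  rw [← RatFunc.algebraMap_X, iR_algebraMap, jX_X]

lemma iR_C (c : F) : iR W (RatFunc.C c) = algebraMap F (KK W) c := by
  rw [← RatFunc.algebraMap_eq_C, (iR W).commutes]

lemma jX_eq_iR (a : F[X]) : jX W a = iR W (H621.toRatFuncAlgHom F a) :=
  (iR_algebraMap W a).symm

/-! ### The involution -/

section Invol

/-- the polynomial `a₁ X + a₃` -/
noncomputable def linP : F[X] := C W.a₁ * X + C W.a₃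

/-- the cubic `X³ + a₂ X² + a₄ X + a₆` -/
noncomputable def cubP : F[X] := X ^ 3 + C W.a₂ * X ^ 2 + C W.a₄ * X + C W.a₆

lemma bc_a₁ (K : Type*) [Field K] [Algebra F K] : (W⁄K).a₁ = algebraMap F K W.a₁ := rfl
lemma bc_a₂ (K : Type*) [Field K] [Algebra F K] : (W⁄K).a₂ = algebraMap F K W.a₂ := rfl
lemma bc_a₃ (K : Type*) [Field K] [Algebra F K] : (W⁄K).a₃ = algebraMap F K W.a₃ := rfl
lemma bc_a₄ (K : Type*) [Field K] [Algebra F K] : (W⁄K).a₄ = algebraMap F K W.a₄ := rfl
lemma bc_a₆ (K : Type*) [Field K] [Algebra F K] : (W⁄K).a₆ = algebraMap F K W.a₆ := rfl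

lemma jX_C (c : F) : jX W (C c) = algebraMap F (KK W) c := by
  rw [Polynomial.C_eq_algebraMap, (jX W).commutes]

lemma jX_linP : jX W (linP W) = (W⁄(KK W)).a₁ * H230.gx W F + (W⁄(KK W)).a₃ := by
  rw [linP, map_add, map_mul, jX_C, jX_C, jX_X, bc_a₁, bc_a₃]

lemma jX_cubP : jX W (cubP W) = H230.gx W F ^ 3 + (W⁄(KK W)).a₂ * H230.gx W F ^ 2
    + (W⁄(KK W)).a₄ * H230.gx W F + (W⁄(KK W)).a₆ := by
  rw [cubP, map_add, map_add, map_add, map_mul, map_mul, map_pow, map_pow, jX_C, jX_C, jX_C,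
    jX_X, bc_a₂, bc_a₄, bc_a₆]

/-- the Weierstrass equation of the generic point, `y² + L y = g` -/
lemma gy_sq : H230.gy W F ^ 2 + jX W (linP W) * H230.gy W F = jX W (cubP W) := by
  have h := (Affine.equation_iff _ _).mp (H230.generic_equation W F)
  rw [jX_linP, jX_cubP]
  linear_combination h

lemma neg_generic_equation :
    (W⁄(KK W)).Equation (H230.gx W F) ((W⁄(KK W)).negY (H230.gx W F) (H230.gy W F)) :=
  (Affine.equation_neg _ _).mpr (H230.generic_equation W F)

/-- **The hyperelliptic involution** of the function field. -/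
noncomputable def invol : KK W →ₐ[F] KK W :=
  H230.sigma F (neg_generic_equation W) (H230.gx_transcendental W F)

lemma invol_gx : invol W (H230.gx W F) = H230.gx W F := H230.sigma_gx F _ _

lemma invol_gy : invol W (H230.gy W F) = -H230.gy W F - jX W (linP W) := by
  rw [invol, H230.sigma_gy, Affine.negY, jX_linP]
  ring

lemma invol_jX (a : F[X]) : invol W (jX W a) = jX W a := by
  rw [jX_eq_aeval, ← Polynomial.aeval_algHom_apply, invol_gx]

lemma invol_iR (u : RatFunc F) : invol W (iR W u) = iR W u := by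
  conv_lhs => rw [← RatFunc.num_div_denom u]
  conv_rhs => rw [← RatFunc.num_div_denom u]
  rw [map_div₀, map_div₀, iR_algebraMap, iR_algebraMap, invol_jX, invol_jX]

lemma iR_div (a b : F[X]) :
    iR W (algebraMap F[X] (RatFunc F) a / algebraMap F[X] (RatFunc F) b) = jX W a / jX W b := by
  rw [map_div₀, iR_algebraMap, iR_algebraMap]

/-- `2 y + a₁ x + a₃ ≠ 0` in the function field -/
lemma two_gy_add_ne_zero (hΔ : W.Δ ≠ 0) : 2 * H230.gy W F + jX W (linP W) ≠ 0 := by
  intro h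
  have h1 : algebraMap (H230.CR W F) (KK W)
      ((linP W) • (1 : H230.CR W F) + (2 : F[X]) • Affine.CoordinateRing.mk (W⁄F) Y) = 0 := by
    rw [map_add, Affine.CoordinateRing.smul, Affine.CoordinateRing.smul, map_mul, map_mul,
      map_one, mul_one]
    have e1 : algebraMap (H230.CR W F) (KK W) (Affine.CoordinateRing.mk (W⁄F) (C (linP W)))
        = jX W (linP W) := by
      rw [jX_apply, IsScalarTower.algebraMap_apply F[X] (H230.CR W F) (KK W)]
      rfl
    have e2 : algebraMap (H230.CR W F) (KK W) (Affine.CoordinateRing.mk (W⁄F) (C (2 : F[X])))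
        = 2 := by
      have : (Affine.CoordinateRing.mk (W⁄F) (C (2 : F[X]))) = 2 := by
        rw [map_ofNat, map_ofNat]
      rw [this, map_ofNat]
    have e3 : algebraMap (H230.CR W F) (KK W) (Affine.CoordinateRing.mk (W⁄F) Y)
        = H230.gy W F := rfl
    rw [e1, e2, e3]
    linear_combination h
  have h2 := (IsFractionRing.injective (H230.CR W F) (KK W)) (h1.trans (map_zero _).symm)
  obtain ⟨hl, h2'⟩ := Affine.CoordinateRing.smul_basis_eq_zero h2
  have ha1 : W.a₁ = 0 := by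
    have := congrArg (fun p : F[X] => p.coeff 1) hl
    simpa [linP] using this
  have ha3 : W.a₃ = 0 := by
    have := congrArg (fun p : F[X] => p.coeff 0) hl
    simpa [linP] using this
  have h2F : (2 : F) = 0 := by
    have := congrArg (fun p : F[X] => p.coeff 0) h2'
    simpa using this
  apply hΔ
  simp only [WeierstrassCurve.Δ, WeierstrassCurve.b₂, WeierstrassCurve.b₄, WeierstrassCurve.b₆,
    WeierstrassCurve.b₈, ha1, ha3]
  linear_combination (-8 * W.a₂ ^ 2 * (4 * W.a₂ * W.a₆ - W.a₄ ^ 2) - 32 * W.a₄ ^ 3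
    - 216 * W.a₆ ^ 2 + 144 * W.a₂ * W.a₄ * W.a₆) * h2F

/-- every element of the function field is `α + β y` with `α, β ∈ F(X)` -/
lemma exists_eq_add_mul_gy (z : KK W) :
    ∃ α β : RatFunc F, z = iR W α + iR W β * H230.gy W F := by
  obtain ⟨p, q, hq, rfl⟩ := IsFractionRing.div_surjective (A := H230.CR W F) z
  obtain ⟨p₁, p₂, rfl⟩ := Affine.CoordinateRing.exists_smul_basis_eq p
  obtain ⟨q₁, q₂, rfl⟩ := Affine.CoordinateRing.exists_smul_basis_eq q
  have hmap : ∀ a b : F[X], algebraMap (H230.CR W F) (KK W)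
      (a • (1 : H230.CR W F) + b • Affine.CoordinateRing.mk (W⁄F) Y)
        = jX W a + jX W b * H230.gy W F := by
    intro a b
    rw [map_add, Affine.CoordinateRing.smul, Affine.CoordinateRing.smul, map_mul, map_mul,
      map_one, mul_one]
    have e : ∀ c : F[X], algebraMap (H230.CR W F) (KK W) (Affine.CoordinateRing.mk (W⁄F) (C c))
        = jX W c := by
      intro c
      rw [jX_apply, IsScalarTower.algebraMap_apply F[X] (H230.CR W F) (KK W)]
      rfl
    rw [e, e]
    rfl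
  rw [hmap, hmap]
  have hQ : jX W q₁ + jX W q₂ * H230.gy W F ≠ 0 := by
    rw [← hmap]
    exact IsFractionRing.to_map_ne_zero_of_mem_nonZeroDivisors hq
  have hQ' : jX W q₁ + jX W q₂ * (-H230.gy W F - jX W (linP W)) ≠ 0 := by
    have := (map_ne_zero_iff (invol W) (invol W).toRingHom.injective).mpr hQ
    rwa [map_add, map_mul, invol_jX, invol_jX, invol_gy] at this
  set n₀ : F[X] := q₁ ^ 2 - q₁ * q₂ * linP W - q₂ ^ 2 * cubP W with hn₀
  have hn : jX W n₀ = (jX W q₁ + jX W q₂ * H230.gy W F)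
      * (jX W q₁ + jX W q₂ * (-H230.gy W F - jX W (linP W))) := by
    rw [hn₀, map_sub, map_sub, map_mul, map_mul, map_mul, map_pow, map_pow, ← gy_sq]
    ring
  have hn0 : jX W n₀ ≠ 0 := by rw [hn]; exact mul_ne_zero hQ hQ'
  refine ⟨algebraMap F[X] (RatFunc F) (p₁ * q₁ - p₁ * q₂ * linP W - p₂ * q₂ * cubP W)
      / algebraMap F[X] (RatFunc F) n₀,
    algebraMap F[X] (RatFunc F) (p₂ * q₁ - p₁ * q₂) / algebraMap F[X] (RatFunc F) n₀, ?_⟩
  have key : (jX W p₁ + jX W p₂ * H230.gy W F)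
      * (jX W q₁ + jX W q₂ * (-H230.gy W F - jX W (linP W)))
      = jX W (p₁ * q₁ - p₁ * q₂ * linP W - p₂ * q₂ * cubP W)
        + jX W (p₂ * q₁ - p₁ * q₂) * H230.gy W F := by
    simp only [map_sub, map_mul, ← gy_sq]
    ring
  rw [iR_div, iR_div, div_mul_eq_mul_div, ← add_div, ← key, hn]
  field_simp

/-- **The fixed field of the hyperelliptic involution is `F(X)`.** -/
theorem exists_iR_eq_of_invol_eq (hΔ : W.Δ ≠ 0) (z : KK W) (hz : invol W z = z) :
    ∃ u : RatFunc F, iR W u = z := by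
  obtain ⟨α, β, rfl⟩ := exists_eq_add_mul_gy W z
  rw [map_add, map_mul, invol_iR, invol_iR, invol_gy] at hz
  have h0 : iR W β * (2 * H230.gy W F + jX W (linP W)) = 0 := by linear_combination -hz
  rcases mul_eq_zero.mp h0 with h | h
  · exact ⟨α, by rw [h, zero_mul, add_zero]⟩
  · exact absurd h (two_gy_add_ne_zero W hΔ)

end Invol

end Fermat.Agent.Lib.Frob23

end
-- ===== PACK-END Lib/Frob23/Invol.lean

-- ===== PACK-BEGIN S59/H396/OrdAbstract.lean
section




/-!
# CR-O, part D2 (helper396): strict ordinarity of the Tate module from torsion-level data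

`E` an abelian group with an action of `Gal(ℚ̄/ℚ)`, `#E[p^n] = p^(2n)`, every `E[p^n]` fixed by
an open subgroup, so that `H360.tateRepOf h hfl : GaloisRepAdic ℤ_[p]` is defined.

`OrdDataAt p E P` packages what the theory of the Tate curve (multiplicative reduction at the
place `P` over `p`) gives on the torsion points: a subgroup `C` ("kernel of reduction") with
`#(C ∩ E[p^n]) = p^n`, stable under the decomposition group, such that inertia acts trivially on
`E[p^∞]/C` and every element of the decomposition group acts on `E[p^∞]/C` by a sign.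

`isStrictOrdinaryAt_of_data` : if the determinant is cyclotomic and `OrdDataAt p E P` holds for
all `P` over `p`, then `tateRepOf h hfl` is strictly ordinary at `p` (prelude
`GaloisRepAdic.IsStrictOrdinaryAt`).
-/

set_option autoImplicit false
set_option linter.unusedSectionVars false
set_option linter.style.haveILetI false

namespace Fermat.Agent.S59.H396

open Fermat.Agent.S59.H360 PadicInt

local notation "GQ" => (AlgebraicClosure ℚ ≃ₐ[ℚ] AlgebraicClosure ℚ)

section General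

variable {p : ℕ} [hp : Fact p.Prime] {E : Type*} [AddCommGroup E]

/-- integer scalars act componentwise on the Tate module -/
lemma tate_intCast_smul_apply (c : ℤ) (g : tateSub p E) (n : ℕ) :
    ((c : ℤ_[p]) • g).1 n = c • g.1 n := by
  rcases Int.eq_nat_or_neg c with ⟨m, rfl | rfl⟩
  · rw [Int.cast_natCast, tate_natCast_smul_apply, natCast_zsmul]
  · rw [Int.cast_neg, Int.cast_natCast, neg_smul, neg_smul, tateSub_coe_neg,
      tate_natCast_smul_apply, natCast_zsmul]

/-- the basis of `T_p E` attached to a bijective `pairMap` -/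
noncomputable def pairBasis (X Y : tateSub p E) (hb : Function.Bijective (pairMap X Y)) :
    Module.Basis (Fin 2) ℤ_[p] (tateSub p E) :=
  Module.Basis.ofEquivFun (LinearEquiv.ofBijective (pairMap X Y) hb).symm

lemma pairBasis_zero (X Y : tateSub p E) (hb : Function.Bijective (pairMap X Y)) :
    pairBasis X Y hb 0 = X := by
  simp [pairBasis, Module.Basis.coe_ofEquivFun, pairMap_apply]

lemma pairBasis_one (X Y : tateSub p E) (hb : Function.Bijective (pairMap X Y)) :
    pairBasis X Y hb 1 = Y := by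
  simp [pairBasis, Module.Basis.coe_ofEquivFun, pairMap_apply]

/-- determinant of an endomorphism which is upper triangular in a basis `(X, Y)` -/
lemma det_of_triangular {A : Type*} [CommRing A] {V : Type*} [AddCommGroup V] [Module A V]
    (b : Module.Basis (Fin 2) A V) (f : V →ₗ[A] V) (x z c : A)
    (h0 : f (b 0) = x • b 0) (h1 : f (b 1) = z • b 1 + c • b 0) :
    LinearMap.det f = x * z := by
  rw [← LinearMap.det_toMatrix b f, Matrix.det_fin_two]
  simp only [LinearMap.toMatrix_apply, h0, h1, map_add, map_smul, Module.Basis.repr_self,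
    Finsupp.smul_single, smul_eq_mul, mul_one, Finsupp.coe_add, Pi.add_apply,
    Finsupp.single_apply]
  simp

end General

section Galois

variable (p : ℕ) [hp : Fact p.Prime] (E : Type) [AddCommGroup E] [DistribMulAction GQ E]

/-- **The torsion-level input for strict ordinarity at a place `P` over `p`.** -/
def OrdDataAt (P : ValuationSubring (AlgebraicClosure ℚ)) : Prop :=
  ∃ C : AddSubgroup E, LineCard p C ∧
    (∀ σ ∈ P.decompositionSubgroup ℚ, ∀ x ∈ C, σ • x ∈ C) ∧
    (∀ σ ∈ P.inertiaSubgroupIn ℚ, ∀ (n : ℕ) (x : E), p ^ n • x = 0 → σ • x - x ∈ C) ∧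
    (∀ σ ∈ P.decompositionSubgroup ℚ, ∃ z : ℤ, (z = 1 ∨ z = -1) ∧
      ∀ (n : ℕ) (x : E), p ^ n • x = 0 → σ • x - z • x ∈ C)

variable {p E}

/-- the local statement, in terms of `tateAction` -/
theorem ordAt_of_data (h : TorsCard p E) (P : ValuationSubring (AlgebraicClosure ℚ))
    (hdet : ∀ (n : ℕ) (σ : GQ) (a : ℕ),
      (∀ μ : AlgebraicClosure ℚ, μ ^ p ^ n = 1 → σ μ = μ ^ a) →
        LinearMap.det (tateAction p E σ) - (a : ℤ_[p]) ∈ Ideal.span {((p ^ n : ℕ) : ℤ_[p])})
    (hdata : OrdDataAt p E P) :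
    ∃ L : Submodule ℤ_[p] (tateSub p E),
      (∃ b : Module.Basis (Fin 2) ℤ_[p] (tateSub p E), L = ℤ_[p] ∙ b 0) ∧
      (∀ σ ∈ P.decompositionSubgroup ℚ, ∀ v ∈ L, tateAction p E σ v ∈ L) ∧
      (∀ σ ∈ P.inertiaSubgroupIn ℚ, ∀ v : tateSub p E, tateAction p E σ v - v ∈ L) ∧
      (∀ σ ∈ P.decompositionSubgroup ℚ, ∃ x z : ℤ_[p],
        (∀ w ∈ L, tateAction p E σ w = x • w) ∧
        (∀ v : tateSub p E, tateAction p E σ v - z • v ∈ L) ∧
        ∀ (n a : ℕ), (∀ μ : AlgebraicClosure ℚ, μ ^ p ^ n = 1 → σ μ = μ ^ a) →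
          x - (a : ℤ_[p]) * z ∈ Ideal.span {((p ^ n : ℕ) : ℤ_[p])}) := by
  obtain ⟨C, hC, hD, hI, hZ⟩ := hdata
  obtain ⟨X, Y, hbij, hL⟩ := exists_basis_tateLine h hC
  have hXL : X ∈ tateLine (p := p) C := by rw [hL]; exact Submodule.mem_span_singleton_self X
  refine ⟨tateLine (p := p) C, ⟨pairBasis X Y hbij, ?_⟩, ?_, ?_, ?_⟩
  · rw [pairBasis_zero]; exact hL
  · intro σ hσ v hv n
    exact hD σ hσ _ (hv n)
  · intro σ hσ v n
    rw [tateSub_coe_sub, tateAction_apply_coe]
    exact hI σ hσ n _ (tateSub_pow_smul v n)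
  · intro σ hσ
    obtain ⟨z, hz, hzC⟩ := hZ σ hσ
    -- the eigenvalue on the line
    have hσX : tateAction p E σ X ∈ tateLine (p := p) C := fun n => hD σ hσ _ (hXL n)
    rw [hL] at hσX
    obtain ⟨x, hx⟩ := Submodule.mem_span_singleton.mp hσX
    -- the action on the quotient
    have hquot : ∀ v : tateSub p E,
        tateAction p E σ v - (z : ℤ_[p]) • v ∈ tateLine (p := p) C := by
      intro v n
      rw [tateSub_coe_sub, tateAction_apply_coe, tate_intCast_smul_apply]
      exact hzC n _ (tateSub_pow_smul v n)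
    have hσY := hquot Y
    rw [hL] at hσY
    obtain ⟨c, hc⟩ := Submodule.mem_span_singleton.mp hσY
    have hdetσ : LinearMap.det (tateAction p E σ) = x * (z : ℤ_[p]) := by
      refine det_of_triangular (pairBasis X Y hbij) _ x z c ?_ ?_
      · rw [pairBasis_zero]; exact hx.symm
      · rw [pairBasis_zero, pairBasis_one, hc]; abel
    refine ⟨x, (z : ℤ_[p]), ?_, hquot, ?_⟩
    · intro w hw
      rw [hL] at hw
      obtain ⟨d, rfl⟩ := Submodule.mem_span_singleton.mp hw
      rw [map_smul, ← hx, smul_comm]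
    · intro n a ha
      have h1 := hdet n σ a ha
      rw [hdetσ] at h1
      have hz2 : (z : ℤ_[p]) * (z : ℤ_[p]) = 1 := by
        rcases hz with rfl | rfl <;> simp
      have : x - (a : ℤ_[p]) * (z : ℤ_[p]) = (z : ℤ_[p]) * (x * (z : ℤ_[p]) - (a : ℤ_[p])) := by
        linear_combination (-x) * hz2
      rw [this]
      exact Ideal.mul_mem_left _ _ h1

/-- **Strict ordinarity of the Tate module from torsion-level data.** -/
theorem isStrictOrdinaryAt_of_data (h : TorsCard p E) (hfl : TorsFiniteLevel p E)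
    (hdet : (tateRepOf h hfl).DetIsCyclotomic p)
    (hdata : ∀ P : ValuationSubring (AlgebraicClosure ℚ), P.LiesOverPrime p → OrdDataAt p E P) :
    (tateRepOf h hfl).IsStrictOrdinaryAt p :=
  ⟨hdet.1, fun P hP => ordAt_of_data h P hdet.2 (hdata P hP)⟩

end Galois

end Fermat.Agent.S59.H396

end
-- ===== PACK-END S59/H396/OrdAbstract.lean

-- ===== PACK-BEGIN S55/G/SIndH237/Spec.lean
section
/-
S55 (Poitou–Tate), layer G, leaf G-SIND (`SIndepSpec`, independence of `S`) — sub-interface.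
Owner / mini-architect: helper237.  Plan: `coord/S55-G-SIND.md` on `origin/helper237`.

Only definitions and `def XxxSpec : Prop` (no `sorry`).  The assembly
`SIndH237/Assembly.lean` proves

    sIndep_of : ApproxSpec → IntSpec → PrescribedOrdSpec → UnitsCohTrivSpec →
      TwinVanishingSpec (layer T) → SIndepSpec.

INTEGRAL MODEL.  For a finite set `T` of primes:
* `ZS T ⊂ ℚ_T = ∏_{q ∈ T} ℚ_q`   : the subring `∏ ℤ_q` (all components of norm `≤ 1`);
* `RS T L ⊂ L ⊗ ℚ_T`             : the subring generated by `𝒪_L ⊗ 1` and `1 ⊗ ℤ_T`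
                                   (`= 𝒪_L ⊗ ℤ_T = ∏_{w | T} 𝒪_w`);
* `UT T L ⊂ J_T(L)`              : its unit group (`= ∏_{w | T} 𝒪_wˣ`), an additive subgroup
                                   of `Additive (L ⊗ ℚ_T)ˣ`;
* `URep T G L : Rep ℤ G`         : `UT` with the Galois action.
-/


set_option autoImplicit false
set_option linter.unusedSectionVars false

open scoped NumberField TensorProduct
open IsDedekindDomain CategoryTheory

noncomputable section

namespace Fermat.Agent.S55.G.SIndH237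

open Fermat.Agent.S55.G

/-! ## 1. The integral model -/

/-- `ℤ_T = ∏_{q ∈ T} ℤ_q` as a subring of `ℚ_T`. -/
def ZS (T : Finset Nat.Primes) : Subring (QS T) where
  carrier := {c | ∀ q : T, ‖QS.toPi T c q‖ ≤ 1}
  mul_mem' {a b} ha hb q := by
    have h1 : QS.toPi T (a * b) q = QS.toPi T a q * QS.toPi T b q := rfl
    rw [h1, norm_mul]
    exact mul_le_one₀ (ha q) (norm_nonneg _) (hb q)
  one_mem' q := by
    have h1 : QS.toPi T 1 q = 1 := rfl
    rw [h1, norm_one]
  add_mem' {a b} ha hb q := by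
    have h1 : QS.toPi T (a + b) q = QS.toPi T a q + QS.toPi T b q := rfl
    rw [h1]
    have : Fact (q.1 : ℕ).Prime := ⟨q.1.2⟩
    exact (Padic.nonarchimedean _ _).trans (max_le (ha q) (hb q))
  zero_mem' q := by
    have h1 : QS.toPi T 0 q = 0 := rfl
    rw [h1, norm_zero]
    exact zero_le_one
  neg_mem' {a} ha q := by
    have h1 : QS.toPi T (-a) q = -QS.toPi T a q := rfl
    rw [h1, norm_neg]
    exact ha q

lemma mem_ZS_iff (T : Finset Nat.Primes) (c : QS T) :
    c ∈ ZS T ↔ ∀ q : T, ‖QS.toPi T c q‖ ≤ 1 := Iff.rfl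

variable (T : Finset Nat.Primes) (G L : Type) [Group G] [Field L] [NumberField L]
  [MulSemiringAction G L]

/-- The generators of the integral model: `a ⊗ 1` (`a ∈ 𝒪_L`) and `1 ⊗ c` (`c ∈ ℤ_T`). -/
def rsGen : Set (AS T L) :=
  {z | ∃ a : 𝓞 L, z = (a : L) ⊗ₜ[ℚ] (1 : QS T)} ∪ {z | ∃ c ∈ ZS T, z = (1 : L) ⊗ₜ[ℚ] c}

/-- The integral model `𝒪_L ⊗ ℤ_T` inside `L ⊗ ℚ_T`. -/
def RS : Subring (AS T L) := Subring.closure (rsGen T L)

/-- The unit group `U_T(L)` of the integral model, as an additive subgroup of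
`J_T(L) = Additive (L ⊗ ℚ_T)ˣ`. -/
def UT : AddSubgroup (Additive (AS T L)ˣ) where
  carrier := {u | ((u.toMul : (AS T L)ˣ) : AS T L) ∈ RS T L ∧
    (((u.toMul)⁻¹ : (AS T L)ˣ) : AS T L) ∈ RS T L}
  add_mem' {a b} ha hb := by
    refine ⟨?_, ?_⟩
    · change ((a.toMul * b.toMul : (AS T L)ˣ) : AS T L) ∈ RS T L
      rw [Units.val_mul]
      exact (RS T L).mul_mem ha.1 hb.1
    · change (((a.toMul * b.toMul)⁻¹ : (AS T L)ˣ) : AS T L) ∈ RS T L
      rw [mul_inv, Units.val_mul]
      exact (RS T L).mul_mem ha.2 hb.2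
  zero_mem' := by
    refine ⟨?_, ?_⟩
    · change ((1 : (AS T L)ˣ) : AS T L) ∈ RS T L
      rw [Units.val_one]
      exact (RS T L).one_mem
    · change (((1 : (AS T L)ˣ)⁻¹ : (AS T L)ˣ) : AS T L) ∈ RS T L
      rw [inv_one, Units.val_one]
      exact (RS T L).one_mem
  neg_mem' {a} ha := by
    refine ⟨?_, ?_⟩
    · change (((a.toMul)⁻¹ : (AS T L)ˣ) : AS T L) ∈ RS T L
      exact ha.2
    · change ((((a.toMul)⁻¹)⁻¹ : (AS T L)ˣ) : AS T L) ∈ RS T L
      rw [inv_inv]
      exact ha.1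

lemma mem_UT_iff (u : Additive (AS T L)ˣ) :
    u ∈ UT T L ↔ ((u.toMul : (AS T L)ˣ) : AS T L) ∈ RS T L ∧
      (((u.toMul)⁻¹ : (AS T L)ˣ) : AS T L) ∈ RS T L := Iff.rfl

/-! ## 2. Galois action on the integral model -/

lemma asAut_mem_rsGen (g : G) {z : AS T L} (hz : z ∈ rsGen T L) :
    asAut T G L g z ∈ rsGen T L := by
  rcases hz with ⟨a, rfl⟩ | ⟨c, hc, rfl⟩
  · left
    refine ⟨g • a, ?_⟩
    rw [asAut_tmul]
    rfl
  · right
    refine ⟨c, hc, ?_⟩
    rw [asAut_tmul, smul_one]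

lemma asAut_mem_RS (g : G) {z : AS T L} (hz : z ∈ RS T L) : asAut T G L g z ∈ RS T L := by
  induction hz using Subring.closure_induction with
  | mem x hx => exact Subring.subset_closure (asAut_mem_rsGen T G L g hx)
  | zero => rw [map_zero]; exact (RS T L).zero_mem
  | one => rw [map_one]; exact (RS T L).one_mem
  | add x y _ _ hx hy => rw [map_add]; exact (RS T L).add_mem hx hy
  | neg x _ hx => rw [map_neg]; exact (RS T L).neg_mem hx
  | mul x y _ _ hx hy => rw [map_mul]; exact (RS T L).mul_mem hx hy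

lemma UT_stable (g : G) : (UT T L).toIntSubmodule ≤ (UT T L).toIntSubmodule.comap (jRepr G T L g) := by
  intro u hu
  have hu' : u ∈ UT T L := hu
  change jRepr G T L g u ∈ UT T L
  refine ⟨?_, ?_⟩
  · rw [coe_jRepr_apply]
    exact asAut_mem_RS T G L g hu'.1
  · have h1 : (jRepr G T L g u).toMul⁻¹ = (jRepr G T L g (-u)).toMul := by
      rw [map_neg]; rfl
    rw [h1, coe_jRepr_apply]
    exact asAut_mem_RS T G L g hu'.2

/-- The representation of `G` on `U_T(L)`. -/
def uRepr : Representation ℤ G (UT T L).toIntSubmodule :=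
  (jRepr G T L).subrepresentation (UT T L).toIntSubmodule (UT_stable T G L)

/-- `U_T(L)` as an object of `Rep ℤ G`. -/
def URep : Rep ℤ G := Rep.of (uRepr T G L)

/-- The inclusion `U_T(L) ⟶ J_T(L)` in `Rep ℤ G`. -/
def uInclRepHom : URep T G L ⟶ JRep G T L :=
  Rep.ofHom ⟨(UT T L).toIntSubmodule.subtype, fun _ => LinearMap.ext fun _ => rfl⟩

/-! ## 3. The sub-leaves -/

/-- **SIND-APPROX** (weak approximation).  `J_T(L) = Lˣ · U_T(L)`: every `T`-idèle is the
product of a principal idèle and an integral unit idèle.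
(Proof: write `j = ∑ xᵢ ⊗ cᵢ`, approximate the `cᵢ ∈ ℚ_T` by rationals modulo a high power of
`n = ∏_{q ∈ T} q` (CRT + `Padic.rat_dense`), get `y ∈ L` with `j⁻¹ (y ⊗ 1) ∈ 1 + n · RS`;
`n` lies in the Jacobson radical of `ℤ_T`, `RS` is integral over `ℤ_T`, so `1 + n · RS ⊆ RSˣ`.) -/
def ApproxSpec : Prop :=
  ∀ (T : Finset Nat.Primes) (L : Type) [Field L] [NumberField L] (j : Additive (AS T L)ˣ),
    ∃ x : Additive Lˣ, ∃ u ∈ UT T L, j = unitsDiag T L x + u

/-- **SIND-INT** (principal integral units).  For `x ∈ Lˣ`: `x ⊗ 1 ∈ U_T(L)` iff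
`ord_w x = 0` for all primes `w` of `L` above `T`.
(Proof: with a `ℤ`-basis `b_k` of `𝒪_L`, `RS = ⊕ b_k ⊗ ℤ_T`, `L ⊗ ℚ_T = ⊕ b_k ⊗ ℚ_T`; so
`x ⊗ 1 ∈ RS` iff the coordinates of `x` lie in `ℤ_(q)` for all `q ∈ T` iff `x ∈ 𝒪_L[1/s]`,
`s` prime to `T`, iff `ord_w x ≥ 0` for all `w | T`.) -/
def IntSpec : Prop :=
  ∀ (T : Finset Nat.Primes) (L : Type) [Field L] [NumberField L] (x : Additive Lˣ),
    unitsDiag T L x ∈ UT T L ↔
      ∀ w : HeightOneSpectrum (𝓞 L), IsAbove T L w → ordAt w x = 0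

/-- **SIND-ORD** (prescribed orders).  Every divisor supported above `T` is the `T`-part of
the divisor of some `x ∈ Lˣ`.  (Dedekind domain: CRT with uniformisers.) -/
def PrescribedOrdSpec : Prop :=
  ∀ (T : Finset Nat.Primes) (L : Type) [Field L] [NumberField L]
    (d : HeightOneSpectrum (𝓞 L) →₀ ℤ), (∀ w, d w ≠ 0 → IsAbove T L w) →
    ∃ x : Additive Lˣ, ∀ w : HeightOneSpectrum (𝓞 L), IsAbove T L w → ordAt w x = d w

/-- `L/L^G` is unramified at the primes above `T`: all inertia groups above `T` are trivial. -/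
def IsUnramAbove (T : Finset Nat.Primes) (G L : Type) [Group G] [Field L] [NumberField L]
    [MulSemiringAction G L] : Prop :=
  ∀ w : HeightOneSpectrum (𝓞 L), IsAbove T L w →
    ∀ g : G, (∀ x : 𝓞 L, g • x - x ∈ w.asIdeal) → ∀ x : L, g • x = x

/-- **SIND-UCT** (unit idèles at unramified primes are cohomologically trivial).
If `L/L^G` is unramified at all primes above `T`, then `H¹(H, U_T(L)) = H²(H, U_T(L)) = 0` for
every subgroup `H ≤ G`.
(Routes: (a) `U_T = ∏_{orbits} Coind_{D_w}^H 𝒪_wˣ` (Shapiro, `T.ShapiroRecognitionSpec`,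
`T.FiniteProdSpec`) + local statements `Local.UnramUnitsH1/H2Statement`; or (b) directly:
filtration `1 + 𝔔^j · RS`, `𝔔 = ∏_{w | T} w`, graded pieces are modules over `RS` which contains
an element of trace `1` (unramified ⇒ trace form nondegenerate), residue step
`(𝒪_L/𝔔)ˣ = ∏ k_wˣ` by Shapiro + Hilbert 90 + `Local.MulH2FiniteFieldStatement`, and the
successive approximation lemmas `Local.FiltH1Statement`, `Local.FiltH2Statement`.) -/
def UnitsCohTrivSpec : Prop :=
  ∀ (T : Finset Nat.Primes) (G L : Type) [Group G] [Finite G] [Field L] [NumberField L]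
    [MulSemiringAction G L] [FaithfulSMul G L],
    IsUnramAbove T G L →
    ∀ H : Subgroup G,
      Limits.IsZero (groupCohomology (Fermat.Agent.S55.T.resSub (URep T G L) H) 1) ∧
      Limits.IsZero (groupCohomology (Fermat.Agent.S55.T.resSub (URep T G L) H) 2)

end Fermat.Agent.S55.G.SIndH237

end
end
-- ===== PACK-END S55/G/SIndH237/Spec.lean

-- ===== PACK-BEGIN S19/H859/UBBasic.lean
section



/-!
# Cell A3 (S19), node UB (helper859): basic valuation-theoretic lemmas

`V` is a valuation subring of `Q̄` above a prime `ℓ`.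

* decomposition / inertia conditions of `S19/Spec.lean`, `S19/Unr/Spec.lean` versus `σ • V = V`;
* `exists_pow_mul_mem`      : every `x ∈ Q̄` has `ℓ ^ n * x ∈ V` for some `n`;
* `exists_pow_eq_mul`       : every `a ∈ 𝔪_V` has `a ^ e ∈ ℓ ^ n V` for some `e` (rank one);
* `exists_conductor`        : a separating `V`-algebra `B` of `V`-valued functions on a finite set
  contains `ℓ ^ n • f` for every `V`-valued `f`.
-/

set_option autoImplicit false
set_option linter.style.haveILetI false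
set_option linter.unusedSectionVars false
set_option linter.unusedVariables false

open scoped Pointwise

namespace Fermat.Agent.S19.H859

open Fermat.Agent.S19 Fermat.Agent.S19.Unr Fermat.Agent.S14.H714

section Decomp

variable {V : ValuationSubring _root_.Fermat.Agent.S19.Qb}

theorem smul_eq_of_isDecompAt {σ : GalQ} (h : IsDecompAt V σ) : σ • V = V := by
  ext x
  rw [ValuationSubring.mem_pointwise_smul_iff_inv_smul_mem]
  have h1 := h (σ⁻¹ • x)
  have h2 : σ (σ⁻¹ • x) = x := by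
    show σ (σ⁻¹ x) = x
    exact σ.apply_symm_apply x
  rw [h2] at h1
  exact h1.symm

theorem isDecompAt_of_smul_eq {σ : GalQ} (h : σ • V = V) : IsDecompAt V σ := by
  intro a
  conv_lhs => rw [← h, ValuationSubring.mem_pointwise_smul_iff_inv_smul_mem]
  have : σ⁻¹ • σ a = a := by
    show σ⁻¹ (σ a) = a
    exact σ.symm_apply_apply a
  rw [this]

theorem isDecompAt_one : IsDecompAt V (1 : GalQ) := fun _ => Iff.rfl

theorem IsDecompAt_mul {σ τ : GalQ} (hσ : IsDecompAt V σ) (hτ : IsDecompAt V τ) :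
    IsDecompAt V (σ * τ) := fun a => (hσ (τ a)).trans (hτ a)

theorem IsDecompAt_inv {σ : GalQ} (hσ : IsDecompAt V σ) : IsDecompAt V σ⁻¹ := by
  intro a
  have := hσ (σ⁻¹ a)
  have h2 : σ (σ⁻¹ a) = a := σ.apply_symm_apply a
  rw [h2] at this
  exact this.symm

theorem IsDecompAt_nonunits {σ : GalQ} (hσ : IsDecompAt V σ) (a : _root_.Fermat.Agent.S19.Qb) :
    σ a ∈ V.nonunits ↔ a ∈ V.nonunits := by
  rw [ValuationSubring.mem_nonunits_iff_or, ValuationSubring.mem_nonunits_iff_or, ← map_inv₀,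
    hσ a⁻¹]
  simp

theorem isDecompAt_of_isInertiaAt {σ : GalQ} (hσ : IsInertiaAt V σ) : IsDecompAt V σ := by
  have hmem : ∀ a : _root_.Fermat.Agent.S19.Qb, a ∈ V → σ a ∈ V := by
    intro a ha
    have h1 := mem_of_mem_nonunits V (hσ a ha)
    have : σ a = (σ a - a) + a := by ring
    rw [this]
    exact V.add_mem _ _ h1 ha
  have hnon : ∀ a : _root_.Fermat.Agent.S19.Qb, a ∈ V.nonunits → σ a ∈ V.nonunits := by
    intro a ha
    have h1 := hσ a (mem_of_mem_nonunits V ha)
    have : σ a = (σ a - a) + a := by ring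
    rw [this]
    exact nonunits_add_mem V h1 ha
  intro a
  constructor
  · intro h
    by_contra hna
    have h1 : a⁻¹ ∈ V.nonunits := by
      rw [ValuationSubring.mem_nonunits_iff_or]
      right
      rwa [inv_inv]
    have h2 := hnon _ h1
    rw [map_inv₀, ValuationSubring.mem_nonunits_iff_or] at h2
    rcases h2 with h2 | h2
    · have h3 : σ a = 0 := by simpa using h2
      have h4 : a = 0 := by
        have := (map_eq_zero_iff σ σ.injective).mp h3
        exact this
      exact hna (h4 ▸ V.zero_mem)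
    · rw [inv_inv] at h2
      exact h2 h
  · exact hmem a

theorem isInertiaAt_one : IsInertiaAt V (1 : GalQ) := by
  intro a _
  show a - a ∈ V.nonunits
  rw [sub_self]
  exact V.nonunits.zero_mem

theorem IsInertiaAt_mul {σ τ : GalQ} (hσ : IsInertiaAt V σ) (hτ : IsInertiaAt V τ) :
    IsInertiaAt V (σ * τ) := by
  intro a ha
  have h1 : (σ * τ) a - a = σ (τ a - a) + (σ a - a) := by
    show σ (τ a) - a = _
    rw [map_sub]
    ring
  rw [h1]
  refine nonunits_add_mem V ?_ (hσ a ha)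
  exact (IsDecompAt_nonunits (isDecompAt_of_isInertiaAt hσ) _).mpr (hτ a ha)

theorem IsInertiaAt_inv {σ : GalQ} (hσ : IsInertiaAt V σ) : IsInertiaAt V σ⁻¹ := by
  intro a ha
  have hD := isDecompAt_of_isInertiaAt hσ
  have h1 : σ⁻¹ a - a = -(σ⁻¹ (σ a - a)) := by
    have : σ⁻¹ (σ a) = a := σ.symm_apply_apply a
    rw [map_sub, this]
    ring
  rw [h1]
  refine nonunits_neg_mem V ?_
  exact (IsDecompAt_nonunits (IsDecompAt_inv hD) _).mpr (hσ a ha)

/-- Inertia is normalised by the decomposition group. -/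
theorem IsInertiaAt_conj {σ τ : GalQ} (hσ : IsDecompAt V σ) (hτ : IsInertiaAt V τ) :
    IsInertiaAt V (σ⁻¹ * τ * σ) := by
  intro a ha
  have h1 : (σ⁻¹ * τ * σ) a - a = σ⁻¹ (τ (σ a) - σ a) := by
    show σ⁻¹ (τ (σ a)) - a = _
    have : σ⁻¹ (σ a) = a := σ.symm_apply_apply a
    rw [map_sub, this]
  rw [h1]
  refine (IsDecompAt_nonunits (IsDecompAt_inv hσ) _).mpr (hτ (σ a) ((hσ a).mpr ha))

/-- The inertia group of `V` as a subgroup of `Gal(Q̄/Q)`. -/
def inertiaSub (V : ValuationSubring _root_.Fermat.Agent.S19.Qb) : Subgroup GalQ where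
  carrier := {σ | IsInertiaAt V σ}
  mul_mem' := fun hσ hτ => IsInertiaAt_mul hσ hτ
  one_mem' := isInertiaAt_one
  inv_mem' := fun hσ => IsInertiaAt_inv hσ

theorem mem_inertiaSub {σ : GalQ} : σ ∈ inertiaSub V ↔ IsInertiaAt V σ := Iff.rfl

end Decomp

section Arch

variable {ℓ : ℕ} {V : ValuationSubring _root_.Fermat.Agent.S19.Qb}

/-- Every algebraic number becomes `V`-integral after multiplication by a power of `ℓ`. -/
theorem exists_pow_mul_mem (hℓ : ℓ.Prime) (hV : (ℓ : _root_.Fermat.Agent.S19.Qb) ∈ V.nonunits) (x : _root_.Fermat.Agent.S19.Qb) :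
    ∃ n : ℕ, (ℓ : _root_.Fermat.Agent.S19.Qb) ^ n * x ∈ V := by
  obtain ⟨d, hd, hint⟩ := (Algebra.IsAlgebraic.isAlgebraic (R := ℤ) x).exists_integral_multiple
  -- `d • x` integral
  have hdn : d.natAbs ≠ 0 := Int.natAbs_ne_zero.mpr hd
  obtain ⟨n, m, hm, hnm⟩ := Nat.exists_eq_pow_mul_and_not_dvd hdn ℓ hℓ.ne_one
  refine ⟨n, ?_⟩
  have hmint : ¬ (ℓ : ℤ) ∣ (m : ℤ) := by
    intro h
    exact hm (by exact_mod_cast h)
  have hmu := intCast_not_mem_nonunits V hℓ hV hmint
  obtain ⟨hm0, hminv⟩ := inv_mem_of_not_mem_nonunits V hmu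
  have hyV : (d : _root_.Fermat.Agent.S19.Qb) * x ∈ V := by
    have := mem_of_isIntegral V hint
    rwa [zsmul_eq_mul] at this
  -- `d = ± ℓ^n * m`
  have hdabs : ((d.natAbs : ℤ) : _root_.Fermat.Agent.S19.Qb) = (ℓ : _root_.Fermat.Agent.S19.Qb) ^ n * ((m : ℤ) : _root_.Fermat.Agent.S19.Qb) := by
    rw [hnm]
    push_cast
    ring
  have hl0 : (ℓ : _root_.Fermat.Agent.S19.Qb) ^ n ≠ 0 := pow_ne_zero _ (by exact_mod_cast hℓ.ne_zero)
  rcases Int.natAbs_eq d with h | h
  · have hdq : (d : _root_.Fermat.Agent.S19.Qb) = (ℓ : _root_.Fermat.Agent.S19.Qb) ^ n * ((m : ℤ) : _root_.Fermat.Agent.S19.Qb) := by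
      rw [← hdabs]
      exact_mod_cast congrArg (fun z : ℤ => (z : _root_.Fermat.Agent.S19.Qb)) h
    have : (ℓ : _root_.Fermat.Agent.S19.Qb) ^ n * x = ((d : _root_.Fermat.Agent.S19.Qb) * x) * ((m : ℤ) : _root_.Fermat.Agent.S19.Qb)⁻¹ := by
      rw [hdq]
      field_simp
    rw [this]
    exact V.mul_mem _ _ hyV hminv
  · have hdq : (d : _root_.Fermat.Agent.S19.Qb) = -((ℓ : _root_.Fermat.Agent.S19.Qb) ^ n * ((m : ℤ) : _root_.Fermat.Agent.S19.Qb)) := by
      rw [← hdabs]
      exact_mod_cast congrArg (fun z : ℤ => (z : _root_.Fermat.Agent.S19.Qb)) h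
    have : (ℓ : _root_.Fermat.Agent.S19.Qb) ^ n * x = -(((d : _root_.Fermat.Agent.S19.Qb) * x) * ((m : ℤ) : _root_.Fermat.Agent.S19.Qb)⁻¹) := by
      rw [hdq]
      field_simp
    rw [this]
    exact V.neg_mem _ (V.mul_mem _ _ hyV hminv)

theorem aeval_int_mem {a : _root_.Fermat.Agent.S19.Qb} (ha : a ∈ V) (q : Polynomial ℤ) : Polynomial.aeval a q ∈ V := by
  induction q using Polynomial.induction_on' with
  | add p q hp hq =>
    rw [map_add]
    exact V.add_mem _ _ hp hq
  | monomial n c =>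
    rw [Polynomial.aeval_monomial]
    refine V.mul_mem _ _ ?_ (pow_mem ha n)
    have : (algebraMap ℤ _root_.Fermat.Agent.S19.Qb) c = ((c : ℤ) : _root_.Fermat.Agent.S19.Qb) := by simp
    rw [this]
    exact intCast_mem V c

theorem exists_pow_eq_mul_aux (hℓ : ℓ.Prime) (hV : (ℓ : _root_.Fermat.Agent.S19.Qb) ∈ V.nonunits) {a : _root_.Fermat.Agent.S19.Qb}
    (ha : a ∈ V.nonunits) :
    ∀ (n : ℕ) (p : Polynomial ℤ), p.natDegree ≤ n → (∃ i, ¬ (ℓ : ℤ) ∣ p.coeff i) →
      ∀ k : ℕ, (∃ b ∈ V, a ^ k * Polynomial.aeval a p = (ℓ : _root_.Fermat.Agent.S19.Qb) * b) →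
        ∃ e : ℕ, ∃ b ∈ V, a ^ e = (ℓ : _root_.Fermat.Agent.S19.Qb) * b := by
  have haV : a ∈ V := mem_of_mem_nonunits V ha
  intro n
  induction n with
  | zero =>
    intro p hp ⟨i, hi⟩ k ⟨b, hb, hk⟩
    have hpC : p = Polynomial.C (p.coeff 0) := Polynomial.eq_C_of_natDegree_le_zero hp
    have hi0 : ¬ (ℓ : ℤ) ∣ p.coeff 0 := by
      intro h
      apply hi
      rw [hpC, Polynomial.coeff_C]
      split_ifs
      · exact h
      · exact dvd_zero _
    have hu := intCast_not_mem_nonunits V hℓ hV hi0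
    obtain ⟨hu0, huinv⟩ := inv_mem_of_not_mem_nonunits V hu
    refine ⟨k, b * ((p.coeff 0 : ℤ) : _root_.Fermat.Agent.S19.Qb)⁻¹, V.mul_mem _ _ hb huinv, ?_⟩
    rw [hpC, Polynomial.aeval_C] at hk
    have hc : (algebraMap ℤ _root_.Fermat.Agent.S19.Qb) (p.coeff 0) = ((p.coeff 0 : ℤ) : _root_.Fermat.Agent.S19.Qb) := by simp
    rw [hc] at hk
    rw [← mul_assoc, ← hk]
    field_simp
  | succ n ih =>
    intro p hp ⟨i, hi⟩ k ⟨b, hb, hk⟩
    have hdecomp : Polynomial.aeval a p =
        Polynomial.aeval a p.divX * a + ((p.coeff 0 : ℤ) : _root_.Fermat.Agent.S19.Qb) := by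
      conv_lhs => rw [← Polynomial.divX_mul_X_add p]
      simp
    by_cases h0 : (ℓ : ℤ) ∣ p.coeff 0
    · -- lower the degree
      obtain ⟨c', hc'⟩ := h0
      have hi0 : i ≠ 0 := by
        rintro rfl
        exact hi ⟨c', hc'⟩
      obtain ⟨j, rfl⟩ := Nat.exists_eq_succ_of_ne_zero hi0
      have hdeg : p.divX.natDegree ≤ n := by
        rw [Polynomial.natDegree_divX_eq_natDegree_tsub_one]
        omega
      have hj : ¬ (ℓ : ℤ) ∣ p.divX.coeff j := by
        rw [Polynomial.coeff_divX]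
        exact hi
      refine ih p.divX hdeg ⟨j, hj⟩ (k + 1) ⟨b - a ^ k * (c' : _root_.Fermat.Agent.S19.Qb), ?_, ?_⟩
      · exact sub_mem hb (V.mul_mem _ _ (pow_mem haV k) (intCast_mem V c'))
      · rw [hdecomp, hc'] at hk
        push_cast at hk
        rw [mul_sub, ← hk]
        ring
    · -- the value is a unit
      have hu := intCast_not_mem_nonunits V hℓ hV h0
      have hval : Polynomial.aeval a p ∉ V.nonunits := by
        intro hmem
        apply hu
        have h1 : ((p.coeff 0 : ℤ) : _root_.Fermat.Agent.S19.Qb) = Polynomial.aeval a p - Polynomial.aeval a p.divX * a := by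
          rw [hdecomp]
          ring
        rw [h1]
        refine nonunits_sub_mem V hmem ?_
        rw [mul_comm]
        exact nonunits_mul_mem V ha (aeval_int_mem haV _)
      obtain ⟨hu0, huinv⟩ := inv_mem_of_not_mem_nonunits V hval
      refine ⟨k, b * (Polynomial.aeval a p)⁻¹, V.mul_mem _ _ hb huinv, ?_⟩
      rw [← mul_assoc, ← hk]
      field_simp

/-- Rank one: a power of every element of the maximal ideal is divisible by `ℓ`. -/
theorem exists_pow_eq_mul (hℓ : ℓ.Prime) (hV : (ℓ : _root_.Fermat.Agent.S19.Qb) ∈ V.nonunits) {a : _root_.Fermat.Agent.S19.Qb}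
    (ha : a ∈ V.nonunits) : ∃ e : ℕ, ∃ b ∈ V, a ^ e = (ℓ : _root_.Fermat.Agent.S19.Qb) * b := by
  obtain ⟨p, hp0, hp⟩ := Algebra.IsAlgebraic.isAlgebraic (R := ℤ) a
  have hprim := p.isPrimitive_primPart
  have hroot : Polynomial.aeval a p.primPart = 0 := Polynomial.aeval_primPart_eq_zero hp0 hp
  have hex : ∃ i, ¬ ((ℓ : ℤ) ∣ p.primPart.coeff i) := by
    by_contra hcon
    push Not at hcon
    have := hprim (ℓ : ℤ) ((Polynomial.C_dvd_iff_dvd_coeff _ _).mpr hcon)
    exact (Nat.prime_iff_prime_int.mp hℓ).not_isUnit this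
  refine exists_pow_eq_mul_aux hℓ hV ha _ p.primPart le_rfl hex 0 ⟨0, V.zero_mem, ?_⟩
  rw [hroot]
  simp

theorem exists_pow_eq_pow_mul (hℓ : ℓ.Prime) (hV : (ℓ : _root_.Fermat.Agent.S19.Qb) ∈ V.nonunits) {a : _root_.Fermat.Agent.S19.Qb}
    (ha : a ∈ V.nonunits) (n : ℕ) : ∃ e : ℕ, ∃ b ∈ V, a ^ e = (ℓ : _root_.Fermat.Agent.S19.Qb) ^ n * b := by
  obtain ⟨e, b, hb, he⟩ := exists_pow_eq_mul hℓ hV ha
  refine ⟨e * n, b ^ n, pow_mem hb n, ?_⟩
  rw [pow_mul, he, mul_pow]

end Arch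

section Conductor

variable {ℓ : ℕ} {V : ValuationSubring _root_.Fermat.Agent.S19.Qb} {M : Type*}

/-- The constant function with value `c ∈ V` lies in every `V`-algebra of functions. -/
theorem const_mem (B : Subalgebra V (M → _root_.Fermat.Agent.S19.Qb)) {c : _root_.Fermat.Agent.S19.Qb} (hc : c ∈ V) :
    (fun _ : M => c) ∈ B := by
  have := B.algebraMap_mem ⟨c, hc⟩
  exact this

theorem smul_fun_mem (B : Subalgebra V (M → _root_.Fermat.Agent.S19.Qb)) {c : _root_.Fermat.Agent.S19.Qb} (hc : c ∈ V) {f : M → _root_.Fermat.Agent.S19.Qb}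
    (hf : f ∈ B) : (fun m => c * f m) ∈ B := by
  have := B.mul_mem (const_mem B hc) hf
  exact this

/-- **Conductor.** A separating `V`-algebra `B` of `V`-valued functions on a finite set contains
`ℓ ^ n • f` for every `V`-valued function `f`. -/
theorem exists_conductor [Finite M] (hℓ : ℓ.Prime) (hV : (ℓ : _root_.Fermat.Agent.S19.Qb) ∈ V.nonunits)
    (B : Subalgebra V (M → _root_.Fermat.Agent.S19.Qb)) (hval : ∀ h ∈ B, ∀ m, h m ∈ V)
    (hsep : ∀ m m' : M, (∀ h ∈ B, h m = h m') → m = m') :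
    ∃ n : ℕ, ∀ f : M → _root_.Fermat.Agent.S19.Qb, (∀ m, f m ∈ V) → (fun m => (ℓ : _root_.Fermat.Agent.S19.Qb) ^ n * f m) ∈ B := by
  classical
  haveI := Fintype.ofFinite M
  -- separating functions
  have hsep' : ∀ m₀ m : M, m ≠ m₀ → ∃ h ∈ B, h m₀ ≠ h m := by
    intro m₀ m hne
    by_contra hcon
    push Not at hcon
    exact hne (hsep m₀ m hcon).symm
  -- scaled indicator functions
  have hind : ∀ m₀ : M, ∃ n : ℕ, (fun m => if m = m₀ then (ℓ : _root_.Fermat.Agent.S19.Qb) ^ n else 0) ∈ B := by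
    intro m₀
    choose! h hB hne using hsep' m₀
    let e : M → _root_.Fermat.Agent.S19.Qb := ∏ m ∈ Finset.univ.erase m₀, (h m - fun _ => h m m)
    have heB : e ∈ B := by
      refine Subalgebra.prod_mem _ ?_
      intro m hm
      have hmne : m ≠ m₀ := (Finset.mem_erase.mp hm).1
      exact sub_mem (hB m hmne) (const_mem B (hval _ (hB m hmne) m))
    have he0 : ∀ m, m ≠ m₀ → e m = 0 := by
      intro m hm
      simp only [e, Finset.prod_apply]
      refine Finset.prod_eq_zero (Finset.mem_erase.mpr ⟨hm, Finset.mem_univ m⟩) ?_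
      simp
    have hed : e m₀ ≠ 0 := by
      simp only [e, Finset.prod_apply]
      rw [Finset.prod_ne_zero_iff]
      intro m hm
      have hmne : m ≠ m₀ := (Finset.mem_erase.mp hm).1
      simpa [sub_eq_zero] using hne m hmne
    obtain ⟨n, hn⟩ := exists_pow_mul_mem hℓ hV (e m₀)⁻¹
    refine ⟨n, ?_⟩
    have := smul_fun_mem B hn heB
    convert this using 1
    funext m
    by_cases hm : m = m₀
    · subst hm
      rw [if_pos rfl]
      field_simp
    · simp only [if_neg hm, he0 m hm, mul_zero]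
  choose N hN using hind
  refine ⟨∑ m₀, N m₀, ?_⟩
  intro f hf
  have hsum : (fun m => (ℓ : _root_.Fermat.Agent.S19.Qb) ^ (∑ m₀, N m₀) * f m) =
      ∑ m₀, (fun m => ((ℓ : _root_.Fermat.Agent.S19.Qb) ^ (∑ m₁ ∈ Finset.univ.erase m₀, N m₁) * f m₀) *
        (if m = m₀ then (ℓ : _root_.Fermat.Agent.S19.Qb) ^ N m₀ else 0)) := by
    funext m
    rw [Finset.sum_apply]
    refine Eq.trans ?_ (Finset.sum_eq_single m ?_ ?_).symm
    · rw [if_pos rfl, ← Finset.add_sum_erase Finset.univ N (Finset.mem_univ m), pow_add]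
      ring
    · intro b _ hb
      rw [if_neg (Ne.symm hb), mul_zero]
    · intro h
      exact absurd (Finset.mem_univ m) h
  rw [hsum]
  refine Subalgebra.sum_mem _ ?_
  intro m₀ _
  refine smul_fun_mem B ?_ (hN m₀)
  refine V.mul_mem _ _ (pow_mem ?_ _) (hf m₀)
  exact mem_of_mem_nonunits V hV

end Conductor

end Fermat.Agent.S19.H859

end
-- ===== PACK-END S19/H859/UBBasic.lean

-- ===== PACK-BEGIN S59/NM/H254/SqZero.lean
section



/-!
# Row S59 / cell NM, leaf NM-SEL (helper254): the local computation at `q` (square-zero core)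

`S` a commutative `O`-algebra, `𝔭` an ideal of square zero with `S = O + 𝔭`;
`r : G →* M₂(S)`, `I ≤ G` ("inertia"), `τ₀ ∈ I` ("tame generator"), `φ ∈ G` ("Frobenius"):

* `r σ ≡ 1 mod 𝔭` and `det r σ = 1` for `σ ∈ I`;
* `r σ ∈ ⟨r τ₀⟩` for `σ ∈ I`, and `r (φ τ₀ φ⁻¹) = r τ₀ ^ q`;
* `r φ ≡ F mod 𝔭`, `F ∈ M₂(O)`, `det F = q`, `tr F = a`.

Then the ideal generated by the entries of all `r σ - 1`, `σ ∈ I`, has at most
`#(O ⧸ (q - 1)(a² - (q + 1)²))` elements (`card_inertiaIdeal_le`).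
-/

set_option autoImplicit false

namespace Fermat.Agent.S59.NM.H254

open Matrix

section AdMat

variable {O : Type*} [CommRing O]

/-- The matrix of `X ↦ F X adj(F) - Q² X` on trace-zero `2 × 2` matrices, in the coordinates
`(X₀₀, X₀₁, X₁₀)`; `F = !![A, B; C, D]`. -/
def adMat (A B C D Q : O) : Matrix (Fin 3) (Fin 3) O :=
  !![A * D + B * C - Q ^ 2, -(A * C), B * D;
     -(2 * A * B), A ^ 2 - Q ^ 2, -(B ^ 2);
     2 * C * D, -(C ^ 2), D ^ 2 - Q ^ 2]

theorem det_adMat (A B C D : O) :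
    (adMat A B C D (A * D - B * C)).det =
      (A * D - B * C) ^ 3 *
        ((A * D - B * C - 1) * ((A + D) ^ 2 - (A * D - B * C + 1) ^ 2)) := by
  rw [adMat, Matrix.det_fin_three]
  simp only [Matrix.of_apply, Matrix.cons_val', Matrix.cons_val_zero, Matrix.cons_val_one,
    Matrix.cons_val_two, Matrix.empty_val', Matrix.cons_val_fin_one, Matrix.head_cons,
    Matrix.tail_cons, Matrix.head_fin_const]
  ring

/-- The three relations `F E adj(F) = Q² E` in coordinates. -/
theorem adMat_relations {S : Type*} [CommRing S] (A B C D Q e1 e2 e3 : S)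
    (hQ : A * D - B * C = Q)
    (h11 : A * e1 + B * e3 = Q * (e1 * A + e2 * C))
    (h12 : A * e2 - B * e1 = Q * (e1 * B + e2 * D))
    (h21 : C * e1 + D * e3 = Q * (e3 * A - e1 * C))
    (h22 : C * e2 - D * e1 = Q * (e3 * B - e1 * D)) :
    (A * D + B * C - Q ^ 2) * e1 + -(A * C) * e2 + B * D * e3 = 0 ∧
    -(2 * A * B) * e1 + (A ^ 2 - Q ^ 2) * e2 + -(B ^ 2) * e3 = 0 ∧
    2 * C * D * e1 + -(C ^ 2) * e2 + (D ^ 2 - Q ^ 2) * e3 = 0 := by
  refine ⟨?_, ?_, ?_⟩
  · linear_combination D * h11 - C * h12 + Q * e1 * hQ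
  · linear_combination -B * h11 + A * h12 + Q * e2 * hQ
  · linear_combination D * h21 - C * h22 + Q * e3 * hQ

end AdMat

section Core

variable {O : Type*} [CommRing O] [IsDomain O] [IsPrincipalIdealRing O]
variable {S : Type*} [CommRing S] [Algebra O S]
variable {G : Type*} [Group G]

/-- The ideal generated by the entries of `r σ - 1`, `σ ∈ I`. -/
def inertiaIdeal (r : G →* Matrix (Fin 2) (Fin 2) S) (I : Set G) : Ideal S :=
  Ideal.span {x | ∃ σ ∈ I, ∃ i j, x = (r σ - 1) i j}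

theorem entry_mem_inertiaIdeal (r : G →* Matrix (Fin 2) (Fin 2) S) (I : Set G) {σ : G}
    (hσ : σ ∈ I) (i j : Fin 2) : (r σ - 1) i j ∈ inertiaIdeal r I :=
  Ideal.subset_span ⟨σ, hσ, i, j, rfl⟩

/-- In a matrix ring, `(1 + E) ^ k = 1 + k • E` if `E * E = 0`. -/
theorem one_add_pow_of_sq_zero {R : Type*} [Ring R] (E : R) (hE : E * E = 0) (k : ℕ) :
    (1 + E) ^ k = 1 + k • E := by
  induction k with
  | zero => simp
  | succ k ih =>
    rw [pow_succ, ih, add_mul, mul_add, mul_add, one_mul, mul_one, smul_mul_assoc, hE,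
      smul_zero, add_zero, succ_nsmul, one_mul, add_assoc, add_comm E (k • E)]

/-- **The local computation at `q`.** -/
theorem card_inertiaIdeal_le
    (𝔭 : Ideal S) (h𝔭 : ∀ a ∈ 𝔭, ∀ b ∈ 𝔭, a * b = 0)
    (hS : ∀ s : S, ∃ a : O, s - algebraMap O S a ∈ 𝔭)
    (r : G →* Matrix (Fin 2) (Fin 2) S) (I : Set G) (τ₀ φ : G) (hτ₀ : τ₀ ∈ I)
    (h1 : ∀ σ ∈ I, ∀ i j, (r σ - 1) i j ∈ 𝔭)
    (h2 : (r τ₀).det = 1)
    (h3 : ∀ σ ∈ I, ∃ k : ℕ, r σ = r τ₀ ^ k)
    (q : ℕ) (h4 : r (φ * τ₀ * φ⁻¹) = r τ₀ ^ q)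
    (F : Matrix (Fin 2) (Fin 2) O) (hF : ∀ i j, r φ i j - algebraMap O S (F i j) ∈ 𝔭)
    (hdet : F.det = (q : O)) (hq : IsUnit (q : O))
    (hc : ((q : O) - 1) * (F.trace ^ 2 - ((q : O) + 1) ^ 2) ≠ 0)
    [hfin : Finite (O ⧸ Ideal.span {((q : O) - 1) * (F.trace ^ 2 - ((q : O) + 1) ^ 2)})] :
    Finite (inertiaIdeal r I) ∧
      Nat.card (inertiaIdeal r I) ≤
        Nat.card (O ⧸ Ideal.span {((q : O) - 1) * (F.trace ^ 2 - ((q : O) + 1) ^ 2)}) := by
  classical
  set E : Matrix (Fin 2) (Fin 2) S := r τ₀ - 1 with hE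
  have hEp : ∀ i j, E i j ∈ 𝔭 := h1 τ₀ hτ₀
  have hrτ : r τ₀ = 1 + E := by rw [hE]; abel
  have hEE : E * E = 0 := by
    ext i j
    rw [Matrix.mul_apply, Fin.sum_univ_two, h𝔭 _ (hEp i 0) _ (hEp 0 j),
      h𝔭 _ (hEp i 1) _ (hEp 1 j), add_zero]
    rfl
  have hpow : ∀ k : ℕ, r τ₀ ^ k = 1 + k • E := fun k => by
    rw [hrτ]; exact one_add_pow_of_sq_zero E hEE k
  -- trace zero
  have htr : E 0 0 + E 1 1 = 0 := by
    have hd := h2
    rw [Matrix.det_fin_two, hrτ] at hd
    simp only [Matrix.add_apply, Matrix.one_apply_eq, Matrix.one_apply_ne, ne_eq,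
      Fin.zero_eq_one_iff, Fin.one_eq_zero_iff, OfNat.ofNat_ne_one, not_false_eq_true,
      zero_add] at hd
    have e1 := h𝔭 _ (hEp 0 0) _ (hEp 1 1)
    have e2 := h𝔭 _ (hEp 0 1) _ (hEp 1 0)
    linear_combination hd - e1 + e2
  -- the Frobenius relation
  have hconj : r φ * r τ₀ = r τ₀ ^ q * r φ := by
    have h5 : r (φ * τ₀ * φ⁻¹) * r φ = r φ * r τ₀ := by
      rw [← map_mul, ← map_mul]
      congr 1
      group
    rw [← h5, h4]
  have hrel : r φ * E = (q : ℕ) • (E * r φ) := by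
    have := hconj
    rw [hpow q, hrτ, mul_add, add_mul, mul_one, one_mul, smul_mul_assoc] at this
    exact add_left_cancel this
  set Ft : Matrix (Fin 2) (Fin 2) S := F.map (algebraMap O S) with hFt
  have hFE : r φ * E = Ft * E := by
    ext i j
    rw [Matrix.mul_apply, Matrix.mul_apply, Fin.sum_univ_two, Fin.sum_univ_two]
    have a0 := h𝔭 _ (hF i 0) _ (hEp 0 j)
    have a1 := h𝔭 _ (hF i 1) _ (hEp 1 j)
    simp only [hFt, Matrix.map_apply]
    linear_combination a0 + a1
  have hEF : E * r φ = E * Ft := by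
    ext i j
    rw [Matrix.mul_apply, Matrix.mul_apply, Fin.sum_univ_two, Fin.sum_univ_two]
    have a0 := h𝔭 _ (hEp i 0) _ (hF 0 j)
    have a1 := h𝔭 _ (hEp i 1) _ (hF 1 j)
    simp only [hFt, Matrix.map_apply]
    linear_combination a0 + a1
  rw [hFE, hEF] at hrel
  -- coordinates
  set A : S := algebraMap O S (F 0 0) with hA
  set B : S := algebraMap O S (F 0 1) with hB
  set C : S := algebraMap O S (F 1 0) with hC
  set D : S := algebraMap O S (F 1 1) with hD
  set Q : S := algebraMap O S (q : O) with hQdef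
  have hQ : A * D - B * C = Q := by
    rw [hA, hB, hC, hD, hQdef, ← hdet, Matrix.det_fin_two]
    simp only [map_sub, map_mul]
  have hQq : ∀ x : S, (q : ℕ) • x = Q * x := fun x => by
    rw [hQdef, map_natCast, nsmul_eq_mul]
  have h4' : E 1 1 = - E 0 0 := by linear_combination htr
  have hent : ∀ i j, (Ft * E) i j = Q * (E * Ft) i j := fun i j => by
    rw [hrel, Matrix.smul_apply, hQq]
  have h11 := hent 0 0
  have h12 := hent 0 1
  have h21 := hent 1 0
  have h22 := hent 1 1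
  simp only [Matrix.mul_apply, Fin.sum_univ_two, hFt, Matrix.map_apply, h4'] at h11 h12 h21 h22
  obtain ⟨R1, R2, R3⟩ := adMat_relations A B C D Q (E 0 0) (E 0 1) (E 1 0) hQ
    (by linear_combination h11) (by linear_combination h12) (by linear_combination h21)
    (by linear_combination h22)
  -- the relation matrix over `O`
  set T : Matrix (Fin 3) (Fin 3) O := adMat (F 0 0) (F 0 1) (F 1 0) (F 1 1) (q : O) with hT
  set c : O := ((q : O) - 1) * (F.trace ^ 2 - ((q : O) + 1) ^ 2) with hcdef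
  have hdetq : (q : O) = F 0 0 * F 1 1 - F 0 1 * F 1 0 := by
    rw [← hdet, Matrix.det_fin_two]
  have hTdet : T.det = (q : O) ^ 3 * c := by
    have htrace : F.trace = F 0 0 + F 1 1 := by
      rw [Matrix.trace, Fin.sum_univ_two]; rfl
    rw [hT, hcdef, htrace, hdetq]
    exact det_adMat _ _ _ _
  have hTne : T.det ≠ 0 := by
    rw [hTdet]
    exact mul_ne_zero (pow_ne_zero _ hq.ne_zero) hc
  have hspan : Ideal.span {T.det} = Ideal.span {c} := by
    rw [hTdet]
    exact Ideal.span_singleton_mul_left_unit (hq.pow 3) c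
  let e : Fin 3 → S := ![E 0 0, E 0 1, E 1 0]
  have hrelT : ∀ i, ∑ j, T i j • e j = 0 := by
    intro i
    rw [Fin.sum_univ_three]
    simp only [Algebra.smul_def]
    fin_cases i
    · simp only [hT, adMat, e, Matrix.of_apply, Matrix.cons_val', Matrix.cons_val_zero,
        Matrix.cons_val_one, Matrix.cons_val_two, Matrix.empty_val', Matrix.cons_val_fin_one,
        Matrix.head_cons, Matrix.tail_cons, Matrix.head_fin_const, Fin.zero_eta, map_sub,
        map_add, map_mul, map_pow, map_neg]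
      linear_combination R1
    · simp only [hT, adMat, e, Matrix.of_apply, Matrix.cons_val', Matrix.cons_val_zero,
        Matrix.cons_val_one, Matrix.cons_val_two, Matrix.empty_val', Matrix.cons_val_fin_one,
        Matrix.head_cons, Matrix.tail_cons, Matrix.head_fin_const, Fin.mk_one, map_sub,
        map_add, map_mul, map_pow, map_neg, map_ofNat]
      linear_combination R2
    · simp only [hT, adMat, e, Matrix.of_apply, Matrix.cons_val', Matrix.cons_val_zero,
        Matrix.cons_val_one, Matrix.cons_val_two, Matrix.empty_val', Matrix.cons_val_fin_one,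
        Matrix.head_cons, Matrix.tail_cons, Matrix.head_fin_const, Fin.reduceFinMk, map_sub,
        map_add, map_mul, map_pow, map_neg, map_ofNat]
      linear_combination R3
  haveI : Finite (O ⧸ Ideal.span {T.det}) := by rw [hspan]; exact hfin
  obtain ⟨hWfin, hWcard⟩ := card_span_le_of_relations T hTne e hrelT
  rw [hspan] at hWcard
  set W : Submodule O S := Submodule.span O (Set.range e) with hW
  -- `W ⊆ 𝔭`
  have hWp : ∀ w ∈ W, w ∈ 𝔭 := by
    intro w hw
    have hle : W ≤ 𝔭.restrictScalars O := by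
      rw [hW, Submodule.span_le]
      rintro _ ⟨i, rfl⟩
      fin_cases i
      · exact hEp 0 0
      · exact hEp 0 1
      · exact hEp 1 0
    exact hle hw
  have hEW : ∀ i j, E i j ∈ W := by
    intro i j
    have m0 : E 0 0 ∈ W := Submodule.subset_span ⟨0, rfl⟩
    have m1 : E 0 1 ∈ W := Submodule.subset_span ⟨1, rfl⟩
    have m2 : E 1 0 ∈ W := Submodule.subset_span ⟨2, rfl⟩
    fin_cases i <;> fin_cases j
    · exact m0
    · exact m1
    · exact m2
    · show E 1 1 ∈ W
      rw [h4']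
      exact W.neg_mem m0
  have hsub : ∀ x ∈ inertiaIdeal r I, x ∈ W := by
    intro x hx
    refine Submodule.span_induction (p := fun x _ => x ∈ W) ?_ ?_ ?_ ?_ hx
    · rintro _ ⟨σ, hσ, i, j, rfl⟩
      obtain ⟨k, hk⟩ := h3 σ hσ
      rw [hk, hpow k, add_sub_cancel_left, Matrix.smul_apply]
      exact W.nsmul_mem (hEW i j) k
    · exact W.zero_mem
    · intro x y _ _ hx hy
      exact W.add_mem hx hy
    · intro s x _ hx
      obtain ⟨a, ha⟩ := hS s
      have h0 := h𝔭 _ ha _ (hWp x hx)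
      have : s • x = a • x := by
        rw [smul_eq_mul, Algebra.smul_def]
        linear_combination h0
      rw [this]
      exact W.smul_mem a hx
  have hsubset : ((inertiaIdeal r I : Ideal S) : Set S) ⊆ (W : Set S) := hsub
  have hWfin' : (W : Set S).Finite := hWfin
  refine ⟨(hWfin'.subset hsubset), ?_⟩
  exact le_trans (Nat.card_mono hWfin' hsubset) hWcard

end Core

end Fermat.Agent.S59.NM.H254

end
-- ===== PACK-END S59/NM/H254/SqZero.lean

-- ===== PACK-BEGIN S59/NM/H254/Univ.lean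
section










/-!
# Row S59 / cell NM, leaf NM-SEL (helper254): the universal property

`D`, `D'` universal deformation rings for conditions `𝒟`, `𝒟'` with
`𝒟 ρ ↔ 𝒟' ρ ∧ ρ unramified at q`.  In a matrix model `r'` of `D'.ρ`:

* `exists_surjective_ker_le` : the canonical map `ψ : D'.R → D.R` is surjective and its kernel
  is contained in the ideal generated by the entries of `r' σ - 1`, `σ` in one inertia group at
  `q`;
* `comp_eq_of_isEquiv` : `x ∘ ψ = x'` for augmentations `x`, `x'` inducing equivalent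
  representations.
-/

set_option autoImplicit false
set_option linter.style.haveILetI false
set_option linter.unusedSectionVars false
set_option linter.unusedVariables false

noncomputable section

namespace Fermat.Agent.S59.NM.H254

open IsLocalRing GaloisRep Fermat.Agent.S53

section Closure

variable {𝒪 : Type} [CommRing 𝒪] [IsLocalRing 𝒪]
  {𝒟 : ∀ ⦃A : Type⦄ [CommRing A] [IsLocalRing A] [Algebra 𝒪 A], GaloisRepAdic A → Prop}

/-- A deformation condition is stable under base change along surjections of complete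
Noetherian local `𝒪`-algebras. -/
theorem cond_baseChange_of_surjective (h𝒟 : IsDeformationCondition 𝒪 𝒟)
    {A C : Type} [CommRing A] [IsLocalRing A] [IsNoetherianRing A]
    [IsAdicComplete (maximalIdeal A) A] [Algebra 𝒪 A]
    [CommRing C] [IsLocalRing C] [IsNoetherianRing C]
    [IsAdicComplete (maximalIdeal C) C] [Algebra 𝒪 C]
    (hlocA : IsLocalHom (algebraMap 𝒪 A))
    (hsurjA : Function.Surjective (residue A ∘ algebraMap 𝒪 A))
    (hlocC : IsLocalHom (algebraMap 𝒪 C))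
    (hsurjC : Function.Surjective (residue C ∘ algebraMap 𝒪 C))
    (π : A →ₐ[𝒪] C) (hπ : IsLocalHom (π : A →+* C)) (hπs : Function.Surjective π)
    {ρ : GaloisRepAdic A} (h : 𝒟 ρ) : 𝒟 (ρ.baseChangeAlong (π : A →+* C) hπ) := by
  rw [h𝒟.iff_forall_surjective hlocC hsurjC]
  intro B _ _ _ hB q hq hqs
  have hcomp : IsLocalHom (((q.comp π : A →ₐ[𝒪] B)) : A →+* B) :=
    H113.isLocalHom_algHom hB.isLocalHom hB.residue_surjective _
  have h1 := (h𝒟.iff_forall_surjective hlocA hsurjA ρ).mp h hB (q.comp π) hcomp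
    (hqs.comp hπs)
  have e := H113.baseChangeAlong_comp_isEquiv' (π : A →+* C) hπ (q : C →+* B) hq
    (((q.comp π : A →ₐ[𝒪] B)) : A →+* B) hcomp rfl ρ
  exact h𝒟.of_isEquiv hB (H113.isEquiv_symm e) h1

end Closure

section Model

variable {𝒪 : Type} [CommRing 𝒪] [IsDomain 𝒪] [IsDiscreteValuationRing 𝒪]
  [IsAdicComplete (maximalIdeal 𝒪) 𝒪]
  {ρbar : ResidualGaloisRep (ResidueField 𝒪)}
  {𝒟 : ∀ ⦃A : Type⦄ [CommRing A] [IsLocalRing A] [Algebra 𝒪 A], GaloisRepAdic A → Prop}

/-- There is a matrix model of the residual representation together with lifts of its entries. -/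
theorem exists_residual_model (ρbar : ResidualGaloisRep (ResidueField 𝒪)) :
    ∃ (rb : GQ →* M2 (ResidueField 𝒪)) (hrb : GaloisFactorsThroughFiniteLevel rb)
      (c : Idx → 𝒪), ρbar.IsEquiv (toRes rb hrb) ∧ ∀ t, residue 𝒪 (c t) = entries rb t := by
  obtain ⟨rb, hrb, he⟩ := exists_toRes ρbar
  choose c hc using fun t : Idx => residue_surjective (entries rb t)
  exact ⟨rb, hrb, c, he, hc⟩

variable {rb : GQ →* M2 (ResidueField 𝒪)} {hrb : GaloisFactorsThroughFiniteLevel rb}
  {c : Idx → 𝒪} (hρb : ρbar.IsEquiv (toRes rb hrb)) (hc : ∀ t, residue 𝒪 (c t) = entries rb t)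

include hρb hc in
/-- A matrix model of a universal deformation lifting `rb` on the nose. -/
theorem exists_matrix_model (D : DeformationRingData 𝒪 ρbar 𝒟) :
    ∃ (r : GQ →* M2 D.R) (hr : MatCont r), IsLiftC c (entries r) ∧
      D.ρ.IsEquiv (toAdic r hr) := by
  obtain ⟨r, hr, hl, he⟩ := exists_lift_of_residual_isEquiv ρbar rb hrb hρb D.ρ
    D.residual_isEquiv
  exact ⟨r, hr, (isLiftC_iff_lift rb c hc r).mpr hl, he⟩

include hρb hc in
/-- Lemma A: the residual representation of a matrix lift. -/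
theorem residual_of_isLiftC {A : Type} [CommRing A] [IsLocalRing A] [Algebra 𝒪 A]
    (hloc : IsLocalHom (algebraMap 𝒪 A)) (s : GQ →* M2 A) (hs : MatCont s)
    (hl : IsLiftC c (entries s)) :
    (toAdic s hs).residual.IsEquiv
      (ρbar.baseChangeAlong (ResidueField.map (algebraMap 𝒪 A))) := by
  haveI := hloc
  exact residual_isEquiv_of_lift ρbar rb hrb hρb s hs ((isLiftC_iff_lift rb c hc s).mp hl)

/-- Lemma B: base change in matrix form. -/
theorem baseChange_matrix {R A : Type} [CommRing R] [IsLocalRing R] [CommRing A]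
    [IsLocalRing A] {ρ : GaloisRepAdic R} {r : GQ →* M2 R} {hr : MatCont r}
    (he : ρ.IsEquiv (toAdic r hr)) (φ : R →+* A) (hφ : IsLocalHom φ) :
    (ρ.baseChangeAlong φ hφ).IsEquiv (toAdic (mapRep φ r) (hr.map φ hφ)) :=
  H113.isEquiv_trans (H113.isEquiv_baseChangeAlong φ hφ he) (baseChangeAlong_toAdic φ hφ r hr)

include hρb hc in
/-- Lemma C: uniqueness of classifying maps, in matrix form. -/
theorem classifying_unique (D : DeformationRingData 𝒪 ρbar 𝒟)
    {r : GQ →* M2 D.R} {hr : MatCont r} (hl : IsLiftC c (entries r))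
    (he : D.ρ.IsEquiv (toAdic r hr))
    {A : Type} [CommRing A] [IsLocalRing A] [IsNoetherianRing A]
    [IsAdicComplete (maximalIdeal A) A] [Algebra 𝒪 A] [hloc : IsLocalHom (algebraMap 𝒪 A)]
    (hsurj : Function.Surjective (residue A ∘ algebraMap 𝒪 A))
    (φ₁ φ₂ : D.R →ₐ[𝒪] A)
    (hφ₁ : IsLocalHom (φ₁ : D.R →+* A)) (hφ₂ : IsLocalHom (φ₂ : D.R →+* A))
    (h𝒟 : 𝒟 (toAdic (mapRep (φ₁ : D.R →+* A) r) (hr.map _ hφ₁)))
    (h12 : (toAdic (mapRep (φ₁ : D.R →+* A) r) (hr.map _ hφ₁)).IsEquiv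
      (toAdic (mapRep (φ₂ : D.R →+* A) r) (hr.map _ hφ₂))) : φ₁ = φ₂ := by
  have hl1 : IsLiftC c (entries (mapRep (φ₁ : D.R →+* A) r)) := hl.map φ₁ hφ₁
  have hres := residual_of_isLiftC hρb hc hloc _ (hr.map _ hφ₁) hl1
  have hu := D.universal A hsurj _ h𝒟 hres
  refine hu.unique ⟨hφ₁, baseChange_matrix he _ hφ₁⟩ ⟨hφ₂, ?_⟩
  exact H113.isEquiv_trans (baseChange_matrix he _ hφ₂) (H113.isEquiv_symm h12)

end Model

section Main

variable {𝒪 : Type} [CommRing 𝒪] [IsDomain 𝒪] [IsDiscreteValuationRing 𝒪]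
  [IsAdicComplete (maximalIdeal 𝒪) 𝒪]
  {ρbar : ResidualGaloisRep (ResidueField 𝒪)}
  {𝒟 𝒟' : ∀ ⦃A : Type⦄ [CommRing A] [IsLocalRing A] [Algebra 𝒪 A], GaloisRepAdic A → Prop}
  {rb : GQ →* M2 (ResidueField 𝒪)} {hrb : GaloisFactorsThroughFiniteLevel rb}
  {c : Idx → 𝒪} (hρb : ρbar.IsEquiv (toRes rb hrb)) (hc : ∀ t, residue 𝒪 (c t) = entries rb t)
  (h𝒟' : IsDeformationCondition 𝒪 𝒟') {q : ℕ}
  (h𝒟iff : ∀ ⦃A : Type⦄ [CommRing A] [IsLocalRing A] [Algebra 𝒪 A] (ρ : GaloisRepAdic A),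
    𝒟 ρ ↔ 𝒟' ρ ∧ ρ.IsUnramifiedAt q)
  (D : DeformationRingData 𝒪 ρbar 𝒟) (D' : DeformationRingData 𝒪 ρbar 𝒟')
  {r : GQ →* M2 D.R} {hr : MatCont r} (hl : IsLiftC c (entries r))
  (he : D.ρ.IsEquiv (toAdic r hr))
  {r' : GQ →* M2 D'.R} {hr' : MatCont r'} (hl' : IsLiftC c (entries r'))
  (he' : D'.ρ.IsEquiv (toAdic r' hr'))

/-- A matrix representation which is trivial on one inertia group at `q` is unramified at `q`. -/
theorem isUnramifiedAt_toAdic_of_inertia {A : Type} [CommRing A] [IsLocalRing A]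
    (s : GQ →* M2 A) (hs : MatCont s) {q : ℕ} (hq : q.Prime)
    {P : ValuationSubring (AlgebraicClosure ℚ)} (hP : P.LiesOverPrime q)
    (h : ∀ σ ∈ P.inertiaSubgroupIn ℚ, s σ = 1) : (toAdic s hs).IsUnramifiedAt q := by
  intro P' hP' σ hσ
  rw [Fermat.Agent.S59.H659.toAdic_rho_eq_one_iff]
  exact Fermat.Agent.Lib.Cheb.H476.map_inertia_eq_one_of_liesOver s hq hP hP' h σ hσ

/-- An unramified matrix representation is trivial on inertia. -/
theorem eq_one_of_isUnramifiedAt_toAdic {A : Type} [CommRing A] [IsLocalRing A]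
    (s : GQ →* M2 A) (hs : MatCont s) {q : ℕ} (h : (toAdic s hs).IsUnramifiedAt q)
    {P : ValuationSubring (AlgebraicClosure ℚ)} (hP : P.LiesOverPrime q) {σ : GQ}
    (hσ : σ ∈ P.inertiaSubgroupIn ℚ) : s σ = 1 :=
  (Fermat.Agent.S59.H659.toAdic_rho_eq_one_iff s hs σ).mp (h P hP σ hσ)

theorem mapRep_sub_one_apply {A B : Type} [CommRing A] [CommRing B] (φ : A →+* B)
    (s : GQ →* M2 A) (σ : GQ) (i j : Fin 2) :
    (mapRep φ s σ - 1) i j = φ ((s σ - 1) i j) := by
  simp only [mapRep_apply, Matrix.sub_apply, Matrix.map_apply, map_sub]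
  congr 1
  by_cases hij : i = j
  · subst hij; simp
  · simp [hij]

include hρb hc h𝒟' h𝒟iff hl he hl' he' in
/-- **The canonical surjection `D'.R ↠ D.R` and its kernel.** -/
theorem exists_surjective_ker_le (hq : q.Prime)
    {P : ValuationSubring (AlgebraicClosure ℚ)} (hP : P.LiesOverPrime q)
    (hK : inertiaIdeal r' (P.inertiaSubgroupIn ℚ : Set GQ) ≠ ⊤) :
    ∃ ψ : D'.R →ₐ[𝒪] D.R, Function.Surjective ψ ∧
      RingHom.ker (ψ : D'.R →+* D.R) ≤ inertiaIdeal r' (P.inertiaSubgroupIn ℚ : Set GQ) ∧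
      ∃ hψ : IsLocalHom (ψ : D'.R →+* D.R),
        (toAdic (mapRep (ψ : D'.R →+* D.R) r') (hr'.map _ hψ)).IsEquiv (toAdic r hr) := by
  classical
  set K : Ideal D'.R := inertiaIdeal r' (P.inertiaSubgroupIn ℚ : Set GQ) with hKdef
  have hD := (h𝒟iff D.ρ).mp D.isOfType
  -- the canonical map
  obtain ⟨ψ, ⟨hψ, hψe⟩, -⟩ := D'.universal D.R D.residue_surjective D.ρ hD.1 D.residual_isEquiv
  have hψm : (toAdic (mapRep (ψ : D'.R →+* D.R) r') (hr'.map _ hψ)).IsEquiv (toAdic r hr) :=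
    H113.isEquiv_trans (H113.isEquiv_symm (baseChange_matrix he' _ hψ))
      (H113.isEquiv_trans hψe he)
  -- `K ≤ ker ψ`
  have hunr : (toAdic (mapRep (ψ : D'.R →+* D.R) r') (hr'.map _ hψ)).IsUnramifiedAt q :=
    Fermat.Agent.S56.H966.isUnramifiedAt_of_isEquiv
      (H113.isEquiv_symm hψm) (Fermat.Agent.S56.H966.isUnramifiedAt_of_isEquiv he hD.2)
  have hKker : K ≤ RingHom.ker (ψ : D'.R →+* D.R) := by
    rw [hKdef, inertiaIdeal, Ideal.span_le]
    rintro _ ⟨σ, hσ, i, j, rfl⟩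
    rw [SetLike.mem_coe, RingHom.mem_ker, ← mapRep_sub_one_apply,
      eq_one_of_isUnramifiedAt_toAdic _ _ hunr hP hσ, sub_self]
    rfl
  -- the quotient test object
  haveI hAloc : IsLocalRing (D'.R ⧸ K) := isLocalRing_quotient K hK
  haveI hAcomp : IsAdicComplete (maximalIdeal (D'.R ⧸ K)) (D'.R ⧸ K) :=
    Fermat.Agent.S53.H596.isAdicComplete_quotient K hK
  haveI hAlh : IsLocalHom (algebraMap 𝒪 (D'.R ⧸ K)) :=
    isLocalHom_algebraMap_quotient D'.instIsLocalHom K
  have hAsurj : Function.Surjective (residue (D'.R ⧸ K) ∘ algebraMap 𝒪 (D'.R ⧸ K)) :=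
    residue_surjective_quotient D'.residue_surjective K
  let mk : D'.R →ₐ[𝒪] D'.R ⧸ K := Ideal.Quotient.mkₐ 𝒪 K
  have hmks : Function.Surjective mk := Ideal.Quotient.mkₐ_surjective 𝒪 K
  have hmk : IsLocalHom (mk : D'.R →+* D'.R ⧸ K) :=
    H113.isLocalHom_algHom hAlh hAsurj mk
  -- the representation over the quotient
  have h1 : 𝒟' (D'.ρ.baseChangeAlong (mk : D'.R →+* D'.R ⧸ K) hmk) :=
    cond_baseChange_of_surjective h𝒟' D'.instIsLocalHom D'.residue_surjective hAlh hAsurj mk hmk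
      hmks D'.isOfType
  have h2 : 𝒟' (toAdic (mapRep (mk : D'.R →+* D'.R ⧸ K) r') (hr'.map _ hmk)) :=
    D_of_isEquiv_cnl h𝒟' hAlh hAsurj (baseChange_matrix he' _ hmk) h1
  have h3 : (toAdic (mapRep (mk : D'.R →+* D'.R ⧸ K) r') (hr'.map _ hmk)).IsUnramifiedAt q := by
    apply isUnramifiedAt_toAdic_of_inertia _ _ hq hP
    intro σ hσ
    ext i j
    have hmem : (r' σ - 1) i j ∈ K := entry_mem_inertiaIdeal r' _ hσ i j
    have h4 := mapRep_sub_one_apply (mk : D'.R →+* D'.R ⧸ K) r' σ i j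
    have h5 : (mk : D'.R →+* D'.R ⧸ K) ((r' σ - 1) i j) = 0 :=
      Ideal.Quotient.eq_zero_iff_mem.mpr hmem
    rw [h5, Matrix.sub_apply, sub_eq_zero] at h4
    exact h4
  have h4 : 𝒟 (toAdic (mapRep (mk : D'.R →+* D'.R ⧸ K) r') (hr'.map _ hmk)) :=
    (h𝒟iff _).mpr ⟨h2, h3⟩
  -- the classifying map of the quotient representation
  have hres := residual_of_isLiftC hρb hc hAlh _ (hr'.map _ hmk) (hl'.map mk hmk)
  obtain ⟨g, ⟨hg, hge⟩, -⟩ := D.universal (D'.R ⧸ K) hAsurj _ h4 hres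
  have hgm : (toAdic (mapRep (g : D.R →+* D'.R ⧸ K) r) (hr.map _ hg)).IsEquiv
      (toAdic (mapRep (mk : D'.R →+* D'.R ⧸ K) r') (hr'.map _ hmk)) :=
    H113.isEquiv_trans (H113.isEquiv_symm (baseChange_matrix he _ hg)) hge
  -- `g ∘ ψ = mk`
  have hgψloc : IsLocalHom ((g.comp ψ : D'.R →ₐ[𝒪] D'.R ⧸ K) : D'.R →+* D'.R ⧸ K) :=
    H113.isLocalHom_algHom hAlh hAsurj _
  have hcomp1 : mapRep ((g.comp ψ : D'.R →ₐ[𝒪] D'.R ⧸ K) : D'.R →+* D'.R ⧸ K) r' =
      mapRep (g : D.R →+* D'.R ⧸ K) (mapRep (ψ : D'.R →+* D.R) r') :=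
    (mapRep_comp (g : D.R →+* D'.R ⧸ K) (ψ : D'.R →+* D.R) r').symm
  have hgψ : mk = g.comp ψ := by
    refine classifying_unique hρb hc D' hl' he' hAsurj mk (g.comp ψ) hmk hgψloc h2 ?_
    -- `toAdic (mk r') ≅ toAdic (g r) ≅ toAdic (g (ψ r'))`
    have e1 : (toAdic (mapRep (g : D.R →+* D'.R ⧸ K) (mapRep (ψ : D'.R →+* D.R) r'))
        ((hr'.map _ hψ).map _ hg)).IsEquiv
        (toAdic (mapRep (g : D.R →+* D'.R ⧸ K) r) (hr.map _ hg)) :=
      H113.isEquiv_trans (H113.isEquiv_symm (baseChangeAlong_toAdic _ hg _ (hr'.map _ hψ)))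
        (H113.isEquiv_trans (H113.isEquiv_baseChangeAlong _ hg hψm)
          (baseChangeAlong_toAdic _ hg r hr))
    have e2 := H113.isEquiv_symm (H113.isEquiv_trans e1 hgm)
    exact H113.isEquiv_trans e2 (toAdic_congr hcomp1.symm _ _)
  refine ⟨ψ, ?_, ?_, hψ, hψm⟩
  · -- surjectivity
    let ψb : D'.R ⧸ K →ₐ[𝒪] D.R := Ideal.Quotient.liftₐ K ψ (fun a ha => hKker ha)
    have hψb : ∀ a, ψb (mk a) = ψ a := fun a => rfl
    have hψbloc : IsLocalHom (ψb : D'.R ⧸ K →+* D.R) :=
      H113.isLocalHom_algHom D.instIsLocalHom D.residue_surjective _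
    have hidloc : IsLocalHom ((AlgHom.id 𝒪 D.R : D.R →ₐ[𝒪] D.R) : D.R →+* D.R) :=
      H113.isLocalHom_algHom D.instIsLocalHom D.residue_surjective _
    have hcloc : IsLocalHom ((ψb.comp g : D.R →ₐ[𝒪] D.R) : D.R →+* D.R) :=
      H113.isLocalHom_algHom D.instIsLocalHom D.residue_surjective _
    have hid𝒟 : 𝒟 (toAdic (mapRep ((AlgHom.id 𝒪 D.R : D.R →ₐ[𝒪] D.R) : D.R →+* D.R) r)
        (hr.map _ hidloc)) := by
      have h6 : 𝒟 (toAdic r hr) := by
        rw [h𝒟iff]
        exact ⟨D_of_isEquiv_cnl h𝒟' D.instIsLocalHom D.residue_surjective he hD.1,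
          Fermat.Agent.S56.H966.isUnramifiedAt_of_isEquiv he hD.2⟩
      have h7 : mapRep ((AlgHom.id 𝒪 D.R : D.R →ₐ[𝒪] D.R) : D.R →+* D.R) r = r := mapRep_id r
      have h8 : (toAdic r hr).IsEquiv (toAdic (mapRep
          ((AlgHom.id 𝒪 D.R : D.R →ₐ[𝒪] D.R) : D.R →+* D.R) r) (hr.map _ hidloc)) :=
        toAdic_congr h7.symm _ _
      rw [h𝒟iff] at h6 ⊢
      exact ⟨D_of_isEquiv_cnl h𝒟' D.instIsLocalHom D.residue_surjective h8 h6.1,
        Fermat.Agent.S56.H966.isUnramifiedAt_of_isEquiv h8 h6.2⟩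
    have hid : AlgHom.id 𝒪 D.R = ψb.comp g := by
      refine classifying_unique hρb hc D hl he D.residue_surjective _ _ hidloc hcloc hid𝒟 ?_
      -- `toAdic (ψb (g r)) ≅ toAdic (ψb (mk r')) = toAdic (ψ r') ≅ toAdic r`
      have e1 : (toAdic (mapRep (ψb : D'.R ⧸ K →+* D.R) (mapRep (g : D.R →+* D'.R ⧸ K) r))
          ((hr.map _ hg).map _ hψbloc)).IsEquiv
          (toAdic (mapRep (ψb : D'.R ⧸ K →+* D.R)
            (mapRep (mk : D'.R →+* D'.R ⧸ K) r')) ((hr'.map _ hmk).map _ hψbloc)) :=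
        H113.isEquiv_trans (H113.isEquiv_symm (baseChangeAlong_toAdic _ hψbloc _ (hr.map _ hg)))
          (H113.isEquiv_trans (H113.isEquiv_baseChangeAlong _ hψbloc hgm)
            (baseChangeAlong_toAdic _ hψbloc _ (hr'.map _ hmk)))
      have hc2 : mapRep (ψb : D'.R ⧸ K →+* D.R) (mapRep (mk : D'.R →+* D'.R ⧸ K) r') =
          mapRep (ψ : D'.R →+* D.R) r' := by
        rw [mapRep_comp]
        rfl
      have hc3 : mapRep ((ψb.comp g : D.R →ₐ[𝒪] D.R) : D.R →+* D.R) r =
          mapRep (ψb : D'.R ⧸ K →+* D.R) (mapRep (g : D.R →+* D'.R ⧸ K) r) := by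
        rw [mapRep_comp]
        rfl
      have e2 : (toAdic (mapRep ((ψb.comp g : D.R →ₐ[𝒪] D.R) : D.R →+* D.R) r)
          (hr.map _ hcloc)).IsEquiv (toAdic r hr) :=
        H113.isEquiv_trans (toAdic_congr hc3 _ _)
          (H113.isEquiv_trans e1 (H113.isEquiv_trans (toAdic_congr hc2 _ _) hψm))
      have e3 : (toAdic (mapRep ((AlgHom.id 𝒪 D.R : D.R →ₐ[𝒪] D.R) : D.R →+* D.R) r)
          (hr.map _ hidloc)).IsEquiv (toAdic r hr) :=
        toAdic_congr (mapRep_id r) _ _
      exact H113.isEquiv_trans e3 (H113.isEquiv_symm e2)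
    intro y
    have hy : ψb (g y) = y := by
      have := congrArg (fun f : D.R →ₐ[𝒪] D.R => f y) hid
      exact this.symm
    obtain ⟨a, ha⟩ := hmks (g y)
    exact ⟨a, by rw [← hψb, ha, hy]⟩
  · -- the kernel
    intro y hy
    rw [RingHom.mem_ker] at hy
    have h6 : mk y = g (ψ y) := by
      have := congrArg (fun f : D'.R →ₐ[𝒪] D'.R ⧸ K => f y) hgψ
      exact this
    have hy' : (ψ : D'.R →+* D.R) y = ψ y := rfl
    rw [hy'] at hy
    rw [hy, map_zero] at h6
    exact Ideal.Quotient.eq_zero_iff_mem.mp h6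

end Main

end Fermat.Agent.S59.NM.H254

end
end
-- ===== PACK-END S59/NM/H254/Univ.lean

-- ===== PACK-BEGIN Lib/RR/H623/Zeros.lean
section



/-!
# Shared library RR (helper623): layer L2 — zeros and poles of `x` versus `[F : K(x)]`

Stichtenoth 1.3.3.  For finitely many zeros `v ∈ S` of `x`, `∑ ord_v x ≤ [F : K(x)]`, and the
same for poles.  No hypothesis on the degrees of the places is needed for this inequality.

* `ord_add_eq_of_big`, `sum_ne_zero_of_unique_min` : a sum with a unique term of minimal order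
* `ord_aeval_of_ord_pos`, `ord_aeval_of_ord_neg` : order of a polynomial in `x` at a zero / pole
* `exists_ord_eq_mul_of_mem_adjoin` : `ord_v φ = n * ord_v x` for `φ ∈ K(x)`
* `sum_le_finrank_of_adic` : abstract inequality
* `sum_ord_le_finrank'`, `sum_neg_ord_le_finrank'`
-/

set_option autoImplicit false

noncomputable section

namespace Fermat.Agent.Lib.RR.H623

open AlgebraicCurve Fermat.Agent.S24.H117 Polynomial

variable {K F : Type*} [Field K] [Field F] [Algebra K F]

/-! ### sums with a unique term of minimal order -/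

theorem ord_add_eq_of_big (v : Place K F) {f g : F} (h0 : f ≠ 0)
    (hg : Big v (v.ord f + 1) g) : f + g ≠ 0 ∧ v.ord (f + g) = v.ord f := by
  rcases eq_or_ne g 0 with rfl | hg0
  · rw [add_zero]; exact ⟨h0, rfl⟩
  have hlt : v.ord f < v.ord g := by have := hg.le_ord hg0; omega
  refine ⟨?_, _root_.Fermat.Agent.S24.H117.ord_add_eq_of_lt v hlt h0⟩
  intro h
  have hgf : g = -f := eq_neg_of_add_eq_zero_right h
  rw [hgf, _root_.Fermat.Agent.S24.H117.ord_neg] at hlt
  exact lt_irrefl _ hlt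

theorem sum_ne_zero_of_unique_min (v : Place K F) {ι : Type*} (t : Finset ι) (φ : ι → F)
    (i₀ : ι) (hi₀ : i₀ ∈ t) (h0 : φ i₀ ≠ 0)
    (h : ∀ i ∈ t, i ≠ i₀ → Big v (v.ord (φ i₀) + 1) (φ i)) :
    ∑ i ∈ t, φ i ≠ 0 ∧ v.ord (∑ i ∈ t, φ i) = v.ord (φ i₀) := by
  classical
  rw [← Finset.add_sum_erase t φ hi₀]
  apply ord_add_eq_of_big v h0
  exact Big.sum _ _ fun i hi => h i (Finset.mem_of_mem_erase hi) (Finset.ne_of_mem_erase hi)

/-! ### polynomials in `x` -/

theorem ord_monomial_term (v : Place K F) (x : F) (hx : x ≠ 0) {c : K} (hc : c ≠ 0) (i : ℕ) :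
    c • x ^ i ≠ 0 ∧ v.ord (c • x ^ i) = i * v.ord x := by
  have hc' : algebraMap K F c ≠ 0 := by
    simpa using hc
  rw [Algebra.smul_def]
  refine ⟨mul_ne_zero hc' (pow_ne_zero _ hx), ?_⟩
  rw [v.ord_mul hc' (pow_ne_zero _ hx), _root_.Fermat.Agent.S24.H117.ord_algebraMap, _root_.Fermat.Agent.S24.H117.ord_pow, zero_add]

/-- At a zero of `x`, `ord_v p(x) = (trailing degree of p) * ord_v x`. -/
theorem ord_aeval_of_ord_pos (v : Place K F) {x : F} (hx : 0 < v.ord x) (p : K[X])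
    (hp : p ≠ 0) :
    aeval x p ≠ 0 ∧ v.ord (aeval x p) = p.natTrailingDegree * v.ord x := by
  have hx0 : x ≠ 0 := _root_.Fermat.Agent.S24.H117.ne_zero_of_ord_ne_zero v hx.ne'
  have hc : p.coeff p.natTrailingDegree ≠ 0 := trailingCoeff_nonzero_iff_nonzero.mpr hp
  obtain ⟨h1, h2⟩ := ord_monomial_term v x hx0 hc p.natTrailingDegree
  rw [aeval_eq_sum_range]
  have key := sum_ne_zero_of_unique_min v (Finset.range (p.natDegree + 1))
    (fun i => p.coeff i • x ^ i) p.natTrailingDegree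
    (Finset.mem_range.mpr (Nat.lt_succ_of_le (natTrailingDegree_le_natDegree p))) h1 ?_
  · rw [h2] at key
    exact key
  intro i _ hi
  rcases eq_or_ne (p.coeff i) 0 with hci | hci
  · simp only [hci, zero_smul]
    exact Big.zero _ _
  · obtain ⟨_, h4⟩ := ord_monomial_term v x hx0 hci i
    apply Big.of_le
    rw [h2, h4]
    have hlt : p.natTrailingDegree < i := by
      rcases lt_or_gt_of_ne hi with h | h
      · exact absurd (coeff_eq_zero_of_lt_natTrailingDegree h) hci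
      · exact h
    have : ((p.natTrailingDegree : ℤ) + 1) ≤ i := by exact_mod_cast hlt
    nlinarith

/-- At a pole of `x`, `ord_v p(x) = (degree of p) * ord_v x`. -/
theorem ord_aeval_of_ord_neg (v : Place K F) {x : F} (hx : v.ord x < 0) (p : K[X])
    (hp : p ≠ 0) :
    aeval x p ≠ 0 ∧ v.ord (aeval x p) = p.natDegree * v.ord x := by
  have hx0 : x ≠ 0 := _root_.Fermat.Agent.S24.H117.ne_zero_of_ord_ne_zero v hx.ne
  have hc : p.coeff p.natDegree ≠ 0 := leadingCoeff_ne_zero.mpr hp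
  obtain ⟨h1, h2⟩ := ord_monomial_term v x hx0 hc p.natDegree
  rw [aeval_eq_sum_range]
  have key := sum_ne_zero_of_unique_min v (Finset.range (p.natDegree + 1))
    (fun i => p.coeff i • x ^ i) p.natDegree
    (Finset.mem_range.mpr (Nat.lt_succ_self _)) h1 ?_
  · rw [h2] at key
    exact key
  intro i hi hne
  rcases eq_or_ne (p.coeff i) 0 with hci | hci
  · simp only [hci, zero_smul]
    exact Big.zero _ _
  · obtain ⟨_, h4⟩ := ord_monomial_term v x hx0 hci i
    apply Big.of_le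
    rw [h2, h4]
    have hlt : i < p.natDegree := by
      have := Finset.mem_range.mp hi
      omega
    have : ((i : ℤ) + 1) ≤ p.natDegree := by exact_mod_cast hlt
    nlinarith

/-- The order of an element of `K(x)` at a zero (pole) of `x` is a multiple of `ord_v x`, with
a multiplier independent of the zero (pole). -/
theorem exists_ord_eq_mul_of_mem_adjoin (x : F) {φ : F}
    (hφ : φ ∈ IntermediateField.adjoin K {x}) (hφ0 : φ ≠ 0) :
    ∃ n m : ℤ, (∀ v : Place K F, 0 < v.ord x → v.ord φ = n * v.ord x) ∧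
      (∀ v : Place K F, v.ord x < 0 → v.ord φ = m * v.ord x) := by
  obtain ⟨r, s, rfl⟩ := (IntermediateField.mem_adjoin_simple_iff K φ).mp hφ
  have hr : aeval x r ≠ 0 := by
    intro h
    rw [h, zero_div] at hφ0
    exact hφ0 rfl
  have hs : aeval x s ≠ 0 := by
    intro h
    rw [h, div_zero] at hφ0
    exact hφ0 rfl
  have hr0 : r ≠ 0 := by
    rintro rfl
    simp at hr
  have hs0 : s ≠ 0 := by
    rintro rfl
    simp at hs
  refine ⟨(r.natTrailingDegree : ℤ) - s.natTrailingDegree, (r.natDegree : ℤ) - s.natDegree,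
    fun v hv => ?_, fun v hv => ?_⟩
  · rw [ord_div v hr hs, (ord_aeval_of_ord_pos v hv r hr0).2, (ord_aeval_of_ord_pos v hv s hs0).2]
    ring
  · rw [ord_div v hr hs, (ord_aeval_of_ord_neg v hv r hr0).2, (ord_aeval_of_ord_neg v hv s hs0).2]
    ring

/-! ### the abstract inequality -/

theorem eq_of_mul_add_eq {e n n' a a' : ℤ} (ha : 0 ≤ a) (ha' : a < e) (hb : 0 ≤ a')
    (hb' : a' < e) (h : n * e + a = n' * e + a') : a = a' := by
  have h1 : (n * e + a) % e = a := by
    rw [add_comm, Int.add_mul_emod_self_right]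
    exact Int.emod_eq_of_lt ha ha'
  have h2 : (n' * e + a') % e = a' := by
    rw [add_comm, Int.add_mul_emod_self_right]
    exact Int.emod_eq_of_lt hb hb'
  rw [← h1, ← h2, h]

/-- **Abstract L2.**  Let `L` be a subfield of `F` over which `F` is finite, `S` a finite set of
places and `e v > 0` integers such that the order at `v ∈ S` of every nonzero element of `L` is
`n * e v` with `n` independent of `v`.  Then `∑_{v ∈ S} e v ≤ [F : L]`. -/
theorem sum_le_finrank_of_adic (L : IntermediateField K F) [FiniteDimensional L F]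
    (S : Finset (Place K F)) (e : Place K F → ℤ) (he : ∀ v ∈ S, 0 < e v)
    (hL : ∀ φ : F, φ ∈ L → φ ≠ 0 → ∃ n : ℤ, ∀ v ∈ S, v.ord φ = n * e v) :
    ∑ v ∈ S, e v ≤ (Module.finrank L F : ℤ) := by
  classical
  set E : ℤ := ∑ v ∈ S, e v with hE
  have hEge : ∀ v ∈ S, e v ≤ E := fun v hv =>
    Finset.single_le_sum (f := e) (fun w hw => (he w hw).le) hv
  -- the index set
  set T : Finset ((_ : Place K F) × ℕ) := S.sigma fun v => Finset.range (e v).toNat with hT
  have hTcard : (T.card : ℤ) = E := by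
    rw [hT, Finset.card_sigma, hE]
    push_cast
    refine Finset.sum_congr rfl fun v hv => ?_
    rw [Finset.card_range]
    exact Int.toNat_of_nonneg (he v hv).le
  -- the elements
  have hex : ∀ i : (_ : Place K F) × ℕ, ∃ z : F, ∀ w ∈ S,
      z ≠ 0 ∧ w.ord z = if w = i.1 then (i.2 : ℤ) else E := by
    intro i
    obtain ⟨z, hz⟩ := weak_approximation S (fun _ => (0 : F))
      (fun w => if w = i.1 then (i.2 : ℤ) else E)
    refine ⟨z, fun w hw => ?_⟩
    have := hz w hw
    simpa using this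
  choose b hb using hex
  have hlin : LinearIndependent L (fun i : T => b i.1) := by
    rw [Fintype.linearIndependent_iff]
    intro g hg
    by_contra hcon
    push Not at hcon
    obtain ⟨j, hj⟩ := hcon
    -- the multipliers
    have hnex : ∀ i : T, ∃ n : ℤ, g i ≠ 0 → ∀ v ∈ S, v.ord ((g i : L) : F) = n * e v := by
      intro i
      by_cases hgi : g i = 0
      · exact ⟨0, fun h => absurd hgi h⟩
      · obtain ⟨n, hn⟩ := hL (g i : F) (g i).2 (by simpa using hgi)
        exact ⟨n, fun _ => hn⟩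
    choose n hn using hnex
    set J : Finset T := Finset.univ.filter fun i => g i ≠ 0 with hJ
    have hJne : J.Nonempty := ⟨j, by simp [hJ, hj]⟩
    obtain ⟨i₁, hi₁J, hi₁min⟩ := Finset.exists_min_image J n hJne
    set v₀ : Place K F := i₁.1.1 with hv₀
    have hv₀S : v₀ ∈ S := (Finset.mem_sigma.mp i₁.2).1
    have he₀ : 0 < e v₀ := he v₀ hv₀S
    have hmemT : ∀ i : T, i.1.1 ∈ S ∧ (i.1.2 : ℤ) < e i.1.1 := by
      intro i
      have h1 := Finset.mem_sigma.mp i.2
      refine ⟨h1.1, ?_⟩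
      have h2 := Finset.mem_range.mp h1.2
      have h3 := he _ h1.1
      omega
    set Jf : Finset T := J.filter fun i => i.1.1 = v₀ with hJf
    have hJfne : Jf.Nonempty := ⟨i₁, by simp [hJf, hi₁J, hv₀]⟩
    obtain ⟨i₀, hi₀Jf, hi₀min⟩ :=
      Finset.exists_min_image Jf (fun i => n i * e v₀ + (i.1.2 : ℤ)) hJfne
    have hi₀J : i₀ ∈ J := (Finset.mem_filter.mp hi₀Jf).1
    have hi₀v : i₀.1.1 = v₀ := (Finset.mem_filter.mp hi₀Jf).2
    have hgJ : ∀ i : T, i ∈ J → g i ≠ 0 := fun i hi => (Finset.mem_filter.mp hi).2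
    -- order of a term at `v₀`
    have hordterm : ∀ i : T, i ∈ J → ((g i : L) : F) * b i.1 ≠ 0 ∧
        v₀.ord (((g i : L) : F) * b i.1) =
          n i * e v₀ + (if v₀ = i.1.1 then (i.1.2 : ℤ) else E) := by
      intro i hi
      have hg0 : ((g i : L) : F) ≠ 0 := by simpa using hgJ i hi
      obtain ⟨hb0, hbord⟩ := hb i.1 v₀ hv₀S
      refine ⟨mul_ne_zero hg0 hb0, ?_⟩
      rw [v₀.ord_mul hg0 hb0, hn i (hgJ i hi) v₀ hv₀S, hbord]
    obtain ⟨hφ0, hφord⟩ := hordterm i₀ hi₀J
    rw [if_pos hi₀v.symm] at hφord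
    have key := sum_ne_zero_of_unique_min v₀ (Finset.univ : Finset T)
      (fun i => ((g i : L) : F) * b i.1) i₀ (Finset.mem_univ _) hφ0 ?_
    · apply key.1
      rw [← hg]
      refine Finset.sum_congr rfl fun i _ => ?_
      rw [IntermediateField.smul_def, smul_eq_mul]
    intro i _ hne
    by_cases hgi : g i = 0
    · simp only [hgi, ZeroMemClass.coe_zero, zero_mul]
      exact Big.zero _ _
    have hiJ : i ∈ J := Finset.mem_filter.mpr ⟨Finset.mem_univ _, hgi⟩
    obtain ⟨_, hiord⟩ := hordterm i hiJ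
    apply Big.of_le
    rw [hφord, hiord]
    by_cases hiv : v₀ = i.1.1
    · rw [if_pos hiv]
      have hiJf : i ∈ Jf := Finset.mem_filter.mpr ⟨hiJ, hiv.symm⟩
      have hle := hi₀min i hiJf
      have hneq : n i₀ * e v₀ + (i₀.1.2 : ℤ) ≠ n i * e v₀ + (i.1.2 : ℤ) := by
        intro heq
        have h1 := hmemT i₀
        have h2 := hmemT i
        rw [hi₀v] at h1
        rw [← hiv] at h2
        have h3 : (i₀.1.2 : ℤ) = (i.1.2 : ℤ) :=
          eq_of_mul_add_eq (Int.natCast_nonneg _) h1.2 (Int.natCast_nonneg _) h2.2 heq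
        apply hne
        apply Subtype.ext
        apply Sigma.ext
        · rw [hi₀v, ← hiv]
        · exact heq_of_eq (by exact_mod_cast h3.symm)
      omega
    · rw [if_neg hiv]
      have h1 : n i₁ ≤ n i := hi₁min i hiJ
      have h2 : n i₁ * e v₀ ≤ n i * e v₀ := mul_le_mul_of_nonneg_right h1 he₀.le
      have h3 := hi₀min i₁ (Finset.mem_filter.mpr ⟨hi₁J, rfl⟩)
      have h4 := (hmemT i₁).2
      rw [← hv₀] at h4
      have h5 := hEge v₀ hv₀S
      omega
  have hcard := hlin.fintype_card_le_finrank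
  rw [Fintype.card_coe] at hcard
  rw [← hTcard]
  exact_mod_cast hcard

/-! ### zeros and poles -/

/-- **L2** (zeros). -/
theorem sum_ord_le_finrank' (x : F) [FiniteDimensional (IntermediateField.adjoin K {x}) F]
    (S : Finset (Place K F)) (hS : ∀ v ∈ S, 0 < v.ord x) :
    ∑ v ∈ S, v.ord x ≤ (Module.finrank (IntermediateField.adjoin K {x}) F : ℤ) := by
  refine sum_le_finrank_of_adic (IntermediateField.adjoin K {x}) S (fun v => v.ord x) hS ?_
  intro φ hφ hφ0
  obtain ⟨n, _, hn, _⟩ := _root_.Fermat.Agent.Lib.RR.H623.exists_ord_eq_mul_of_mem_adjoin x hφ hφ0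
  exact ⟨n, fun v hv => hn v (hS v hv)⟩

/-- **L2** (poles). -/
theorem sum_neg_ord_le_finrank' (x : F) [FiniteDimensional (IntermediateField.adjoin K {x}) F]
    (S : Finset (Place K F)) (hS : ∀ v ∈ S, v.ord x < 0) :
    ∑ v ∈ S, -v.ord x ≤ (Module.finrank (IntermediateField.adjoin K {x}) F : ℤ) := by
  refine sum_le_finrank_of_adic (IntermediateField.adjoin K {x}) S (fun v => -v.ord x)
    (fun v hv => by have := hS v hv; omega) ?_
  intro φ hφ hφ0
  obtain ⟨_, m, _, hm⟩ := _root_.Fermat.Agent.Lib.RR.H623.exists_ord_eq_mul_of_mem_adjoin x hφ hφ0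
  exact ⟨-m, fun v hv => by rw [hm v (hS v hv)]; ring⟩

/-- **L2** (zeros), exact statement of the RR skeleton (`Fermat/Agent/Lib/RR/Zeros.lean`). -/
theorem sum_ord_le_finrank (_hdeg : ∀ v : Place K F, v.deg = 1) (x : F)
    [FiniteDimensional (IntermediateField.adjoin K {x}) F]
    (S : Finset (Place K F)) (hS : ∀ v ∈ S, 0 < v.ord x) :
    ∑ v ∈ S, v.ord x ≤ (Module.finrank (IntermediateField.adjoin K {x}) F : ℤ) :=
  sum_ord_le_finrank' x S hS

/-- **L2** (poles), exact statement of the RR skeleton (`Fermat/Agent/Lib/RR/Zeros.lean`). -/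
theorem sum_neg_ord_le_finrank (_hdeg : ∀ v : Place K F, v.deg = 1) (x : F)
    [FiniteDimensional (IntermediateField.adjoin K {x}) F]
    (S : Finset (Place K F)) (hS : ∀ v ∈ S, v.ord x < 0) :
    ∑ v ∈ S, -v.ord x ≤ (Module.finrank (IntermediateField.adjoin K {x}) F : ℤ) :=
  sum_neg_ord_le_finrank' x S hS

end Fermat.Agent.Lib.RR.H623

end
end
-- ===== PACK-END Lib/RR/H623/Zeros.lean

-- ===== PACK-BEGIN S59/LoSqC/H296/LabJ.lean
section



/-!
# S59 moonshot, cell (C) LO-SQ, W-COUNT: LAB-J = the link between the J-form count and the E-form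
  label group  (helper296)

`E ⊆ ℚ̄` an intermediate field, `F_E = A2.Mod.FE E N`, `ι : F_E → F̄ = ℚ̄(X₀(N))`, ANY modulus
`m ≠ 0`, ANY subgroup `U ≤ F_Eˣ` (application: `U = H193.splitDiv E w x' m V₁' V₂'`, the
normalised `E`-rational Kummer generators of the toric classes).

* `IsKummerGenE296 E N m f x` : `f ∈ F_E` is an `E`-rational Kummer generator of `x ∈ J₀(N)`
  (`x = [D]`, `div (ι f) = m D`); the body is VERBATIM the body of `LoSqC.IsKummerGenE`
  (frozen Spec of helper885), so the two are interchangeable by `Iff.rfl`.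
* `kummerClasses296 E N m U : AddSubgroup (JZero N)` : the classes with a Kummer generator in `U`
  (`= S_1`, the toric part in the count, for `U = splitDiv`).
* **`exists_injective_kummerClasses296`** : an INJECTION
  `kummerClasses296 E N m U → U ⧸ (m-th powers of F_Eˣ)` (choice of a generator; two generators
  which differ by an `m`-th power define the same class).
* `card_kummerClasses296_le`, `finite_kummerClasses296`, `le_card_quot_of_le_card296`.

Use in the count: with `card_splitPure_le` (helper193) `#(splitDiv ⧸ powers) ≤ m ^ (#Σ - 1)` this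
gives the hypothesis `hS1 : #S_1 ≤ m ^ (#Σ - 1)` of the abstract count; the conclusion
`#S_1 = m ^ (#Σ - 1)` of the count then gives the hypothesis
`m ^ (#Σ - 1) ≤ #(splitDiv ⧸ powers)` of `H193.lab1SurjAt_of_card`.
* `IsKummerGenE296.nsmul_of_mul`, `kummerClasses296_nsmul_mem` : compatibility in the modulus.
-/

set_option autoImplicit false
set_option linter.unusedSectionVars false
set_option linter.unusedVariables false
set_option linter.style.haveILetI false
set_option synthInstance.maxHeartbeats 400000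
set_option maxHeartbeats 1000000

noncomputable section

namespace Fermat.Agent.S59.LoSqC.H296

open AlgebraicCurve ModularCurve

section LabJ

variable (E : IntermediateField ℚ (AlgebraicClosure ℚ)) (N : ℕ) [NeZero N]

/-- `f ∈ F_E(N)` is an `E`-rational Kummer generator of `x ∈ J₀(N)` for the modulus `m`. -/
def IsKummerGenE296 (m : ℕ) (f : A2.Mod.FE E N) (x : JZero N) : Prop :=
  f ≠ 0 ∧ ∃ D : Divisor.degZero (K := AlgebraicClosure ℚ) (F := modularFunctionFieldBar N),
    Pic0.mk D = x ∧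
    ∀ v : Place (AlgebraicClosure ℚ) (modularFunctionFieldBar N),
      v.ord (A2.T1.H669.iota E (modularFunctionFieldFull N) f)
        = (m : ℤ) * (D : Divisor (AlgebraicClosure ℚ) (modularFunctionFieldBar N)) v

variable {E N}

theorem isKummerGenE296_one (m : ℕ) : IsKummerGenE296 E N m (1 : A2.Mod.FE E N) 0 := by
  refine ⟨one_ne_zero, 0, rfl, fun v => ?_⟩
  rw [map_one, Place.ord_one]
  simp

theorem IsKummerGenE296.mul {m : ℕ} {f g : A2.Mod.FE E N} {x y : JZero N}
    (hf : IsKummerGenE296 E N m f x) (hg : IsKummerGenE296 E N m g y) :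
    IsKummerGenE296 E N m (f * g) (x + y) := by
  obtain ⟨hf0, D, rfl, hD⟩ := hf
  obtain ⟨hg0, D', rfl, hD'⟩ := hg
  refine ⟨mul_ne_zero hf0 hg0, D + D', rfl, fun v => ?_⟩
  rw [map_mul, v.ord_mul (A2.T1.H669.iota_ne_zero E _ hf0) (A2.T1.H669.iota_ne_zero E _ hg0),
    hD v, hD' v]
  simp [mul_add]

theorem IsKummerGenE296.inv {m : ℕ} {f : A2.Mod.FE E N} {x : JZero N}
    (hf : IsKummerGenE296 E N m f x) : IsKummerGenE296 E N m f⁻¹ (-x) := by
  obtain ⟨hf0, D, rfl, hD⟩ := hf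
  refine ⟨inv_ne_zero hf0, -D, rfl, fun v => ?_⟩
  rw [map_inv₀, v.ord_inv, hD v]
  simp

/-- A Kummer generator determines its class. -/
theorem IsKummerGenE296.unique {m : ℕ} (hm : m ≠ 0) {f : A2.Mod.FE E N} {x y : JZero N}
    (hx : IsKummerGenE296 E N m f x) (hy : IsKummerGenE296 E N m f y) : x = y := by
  obtain ⟨-, D, rfl, hD⟩ := hx
  obtain ⟨-, D', rfl, hD'⟩ := hy
  have hm' : (m : ℤ) ≠ 0 := by exact_mod_cast hm
  have : D = D' := by
    apply Subtype.ext
    ext v
    exact mul_left_cancel₀ hm' ((hD v).symm.trans (hD' v))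
  rw [this]

/-- The class of a Kummer generator is killed by the modulus. -/
theorem IsKummerGenE296.nsmul_eq_zero {m : ℕ} {f : A2.Mod.FE E N} {x : JZero N}
    (hx : IsKummerGenE296 E N m f x) : m • x = 0 := by
  obtain ⟨hf0, D, rfl, hD⟩ := hx
  have e : m • (Pic0.mk D : JZero N) = Pic0.mk (m • D) := rfl
  rw [e]
  show (QuotientAddGroup.mk (m • D) :
    Pic0 (AlgebraicClosure ℚ) (modularFunctionFieldBar N)) = 0
  refine (QuotientAddGroup.eq_zero_iff (m • D)).mpr ?_
  rw [AddSubgroup.mem_addSubgroupOf]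
  refine ⟨A2.T1.H669.iota E (modularFunctionFieldFull N) f,
    A2.T1.H669.iota_ne_zero E _ hf0, fun v => ?_⟩
  rw [hD v]
  simp

/-- Generators which differ by an `m`-th power define the same class. -/
theorem IsKummerGenE296.eq_of_mul_pow {m : ℕ} (hm : m ≠ 0) {f g h : A2.Mod.FE E N}
    {x y : JZero N} (hx : IsKummerGenE296 E N m f x) (hy : IsKummerGenE296 E N m g y)
    (hh : h ≠ 0) (he : g = f * h ^ m) : x = y := by
  obtain ⟨hf0, D, rfl, hD⟩ := hx
  obtain ⟨hg0, D', rfl, hD'⟩ := hy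
  have hm' : (m : ℤ) ≠ 0 := by exact_mod_cast hm
  have hιh : A2.T1.H669.iota E (modularFunctionFieldFull N) h ≠ 0 :=
    A2.T1.H669.iota_ne_zero E _ hh
  have hιf : A2.T1.H669.iota E (modularFunctionFieldFull N) f ≠ 0 :=
    A2.T1.H669.iota_ne_zero E _ hf0
  have key : ∀ v : Place (AlgebraicClosure ℚ) (modularFunctionFieldBar N),
      (D' : Divisor (AlgebraicClosure ℚ) (modularFunctionFieldBar N)) v =
        (D : Divisor (AlgebraicClosure ℚ) (modularFunctionFieldBar N)) v +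
          v.ord (A2.T1.H669.iota E (modularFunctionFieldFull N) h) := fun v => by
    have h1 := hD' v
    rw [he, map_mul, map_pow, v.ord_mul hιf (pow_ne_zero _ hιh), hD v, ← zpow_natCast,
      v.ord_zpow, ← mul_add] at h1
    exact (mul_left_cancel₀ hm' h1).symm
  show (QuotientAddGroup.mk D : Pic0 (AlgebraicClosure ℚ) (modularFunctionFieldBar N)) =
    QuotientAddGroup.mk D'
  refine QuotientAddGroup.eq.mpr ?_
  rw [AddSubgroup.mem_addSubgroupOf]
  refine ⟨A2.T1.H669.iota E (modularFunctionFieldFull N) h, hιh, fun v => ?_⟩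
  have h2 : ((-D + D' : Divisor.degZero (K := AlgebraicClosure ℚ)
      (F := modularFunctionFieldBar N)) :
      Divisor (AlgebraicClosure ℚ) (modularFunctionFieldBar N)) v =
      -(D : Divisor (AlgebraicClosure ℚ) (modularFunctionFieldBar N)) v +
        (D' : Divisor (AlgebraicClosure ℚ) (modularFunctionFieldBar N)) v := by
    simp
  rw [h2, key v]
  ring

/-- Change of modulus: a Kummer generator of `x` for `m · d` is a Kummer generator of `d • x`
for `m`. -/
theorem IsKummerGenE296.nsmul_of_mul {m d : ℕ} {f : A2.Mod.FE E N} {x : JZero N}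
    (hx : IsKummerGenE296 E N (m * d) f x) : IsKummerGenE296 E N m f (d • x) := by
  obtain ⟨hf0, D, rfl, hD⟩ := hx
  refine ⟨hf0, d • D, rfl, fun v => ?_⟩
  rw [hD v, AddSubgroup.coe_nsmul, Finsupp.smul_apply, nsmul_eq_mul]
  push_cast
  ring

/-- Change of modulus: the `d`-th power of a Kummer generator of `x` for `m` is a Kummer
generator of `x` for `m · d`. -/
theorem IsKummerGenE296.pow_modulus {m : ℕ} {f : A2.Mod.FE E N} {x : JZero N}
    (hx : IsKummerGenE296 E N m f x) (d : ℕ) : IsKummerGenE296 E N (m * d) (f ^ d) x := by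
  obtain ⟨hf0, D, rfl, hD⟩ := hx
  refine ⟨pow_ne_zero _ hf0, D, rfl, fun v => ?_⟩
  rw [map_pow, ← zpow_natCast, v.ord_zpow, hD v]
  push_cast
  ring

variable (E N)

/-- **The classes with a Kummer generator in `U`.** -/
def kummerClasses296 (m : ℕ) (U : Subgroup (A2.Mod.FE E N)ˣ) : AddSubgroup (JZero N) where
  carrier := {x | ∃ u ∈ U, IsKummerGenE296 E N m ((u : (A2.Mod.FE E N)ˣ) : A2.Mod.FE E N) x}
  zero_mem' := ⟨1, U.one_mem, by
    rw [Units.val_one]
    exact isKummerGenE296_one m⟩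
  add_mem' := by
    rintro x y ⟨u, hu, hux⟩ ⟨v, hv, hvy⟩
    refine ⟨u * v, U.mul_mem hu hv, ?_⟩
    rw [Units.val_mul]
    exact hux.mul hvy
  neg_mem' := by
    rintro x ⟨u, hu, hux⟩
    refine ⟨u⁻¹, U.inv_mem hu, ?_⟩
    rw [Units.val_inv_eq_inv_val]
    exact hux.inv

variable {E N}

theorem mem_kummerClasses296 {m : ℕ} {U : Subgroup (A2.Mod.FE E N)ˣ} {x : JZero N} :
    x ∈ kummerClasses296 E N m U ↔
      ∃ u ∈ U, IsKummerGenE296 E N m ((u : (A2.Mod.FE E N)ˣ) : A2.Mod.FE E N) x :=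
  Iff.rfl

theorem kummerClasses296_mono {m : ℕ} {U U' : Subgroup (A2.Mod.FE E N)ˣ} (h : U ≤ U') :
    kummerClasses296 E N m U ≤ kummerClasses296 E N m U' := by
  rintro x ⟨u, hu, hux⟩
  exact ⟨u, h hu, hux⟩

theorem nsmul_eq_zero_of_mem_kummerClasses296 {m : ℕ} {U : Subgroup (A2.Mod.FE E N)ˣ}
    {x : JZero N} (hx : x ∈ kummerClasses296 E N m U) : m • x = 0 := by
  obtain ⟨u, -, hux⟩ := hx
  exact hux.nsmul_eq_zero

/-- Compatibility in the modulus (`hSc` of the count): if `U' ≤ U` then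
`d • kummerClasses (m d) U' ⊆ kummerClasses m U`. -/
theorem kummerClasses296_nsmul_mem {m d : ℕ} {U U' : Subgroup (A2.Mod.FE E N)ˣ}
    (h : U' ≤ U) {x : JZero N} (hx : x ∈ kummerClasses296 E N (m * d) U') :
    d • x ∈ kummerClasses296 E N m U := by
  obtain ⟨u, hu, hux⟩ := hx
  exact ⟨u, h hu, hux.nsmul_of_mul⟩

/-- **LAB-J.**  An injection of the classes with a Kummer generator in `U` into
`U ⧸ (m-th powers)`. -/
theorem exists_injective_kummerClasses296 {m : ℕ} (hm : m ≠ 0)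
    (U : Subgroup (A2.Mod.FE E N)ˣ) :
    ∃ g : ↥(kummerClasses296 E N m U) →
        U ⧸ ((powMonoidHom m : (A2.Mod.FE E N)ˣ →* (A2.Mod.FE E N)ˣ).range).subgroupOf U,
      Function.Injective g := by
  classical
  have hex : ∀ x : ↥(kummerClasses296 E N m U), ∃ u : U,
      IsKummerGenE296 E N m (((u : U) : (A2.Mod.FE E N)ˣ) : A2.Mod.FE E N) (x : JZero N) := by
    rintro ⟨x, u, hu, hux⟩
    exact ⟨⟨u, hu⟩, hux⟩
  choose γ hγ using hex
  refine ⟨fun x => QuotientGroup.mk (γ x), fun x y hxy => ?_⟩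
  have h1 : (γ x)⁻¹ * γ y ∈
      ((powMonoidHom m : (A2.Mod.FE E N)ˣ →* (A2.Mod.FE E N)ˣ).range).subgroupOf U :=
    QuotientGroup.eq.mp hxy
  rw [Subgroup.mem_subgroupOf] at h1
  obtain ⟨h, hh⟩ := h1
  have hh' : ((γ y : U) : (A2.Mod.FE E N)ˣ) = ((γ x : U) : (A2.Mod.FE E N)ˣ) * h ^ m := by
    have e1 : h ^ m = (((γ x)⁻¹ * γ y : U) : (A2.Mod.FE E N)ˣ) := hh
    rw [e1]
    simp
  have hh'' : ((((γ y : U) : (A2.Mod.FE E N)ˣ)) : A2.Mod.FE E N) =
      ((((γ x : U) : (A2.Mod.FE E N)ˣ)) : A2.Mod.FE E N) *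
        ((h : (A2.Mod.FE E N)ˣ) : A2.Mod.FE E N) ^ m := by
    rw [hh']
    simp
  apply Subtype.ext
  exact (hγ x).eq_of_mul_pow hm (hγ y) (Units.ne_zero h) hh''

/-- The cardinality form of LAB-J. -/
theorem card_kummerClasses296_le {m : ℕ} (hm : m ≠ 0) (U : Subgroup (A2.Mod.FE E N)ˣ)
    [Finite (U ⧸ ((powMonoidHom m : (A2.Mod.FE E N)ˣ →* (A2.Mod.FE E N)ˣ).range).subgroupOf U)] :
    Nat.card ↥(kummerClasses296 E N m U) ≤
      Nat.card
        (U ⧸ ((powMonoidHom m : (A2.Mod.FE E N)ˣ →* (A2.Mod.FE E N)ˣ).range).subgroupOf U) := by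
  obtain ⟨g, hg⟩ := exists_injective_kummerClasses296 hm U
  exact Nat.card_le_card_of_injective g hg

theorem finite_kummerClasses296 {m : ℕ} (hm : m ≠ 0) (U : Subgroup (A2.Mod.FE E N)ˣ)
    [Finite (U ⧸ ((powMonoidHom m : (A2.Mod.FE E N)ˣ →* (A2.Mod.FE E N)ˣ).range).subgroupOf U)] :
    Finite ↥(kummerClasses296 E N m U) := by
  obtain ⟨g, hg⟩ := exists_injective_kummerClasses296 hm U
  exact Finite.of_injective g hg

/-- **From the count to the E-form**: a lower bound for the number of classes is a lower bound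
for `U ⧸ (m-th powers)` (input `hcard` of `H193.lab1SurjAt_of_card`, for `U = splitDiv`). -/
theorem le_card_quot_of_le_card296 {m : ℕ} (hm : m ≠ 0) (U : Subgroup (A2.Mod.FE E N)ˣ)
    [Finite (U ⧸ ((powMonoidHom m : (A2.Mod.FE E N)ˣ →* (A2.Mod.FE E N)ˣ).range).subgroupOf U)]
    {c : ℕ} (hc : c ≤ Nat.card ↥(kummerClasses296 E N m U)) :
    c ≤ Nat.card
      (U ⧸ ((powMonoidHom m : (A2.Mod.FE E N)ˣ →* (A2.Mod.FE E N)ˣ).range).subgroupOf U) :=
  hc.trans (card_kummerClasses296_le hm U)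

/-- **From the E-form to the count**: an upper bound for `U ⧸ (m-th powers)` (e.g.
`H193.card_splitPure_le`) is an upper bound for the number of classes (hypothesis `hS1` of the
abstract count). -/
theorem card_kummerClasses296_le_of_quot_le {m : ℕ} (hm : m ≠ 0)
    (U : Subgroup (A2.Mod.FE E N)ˣ)
    [Finite (U ⧸ ((powMonoidHom m : (A2.Mod.FE E N)ˣ →* (A2.Mod.FE E N)ˣ).range).subgroupOf U)]
    {c : ℕ}
    (hc : Nat.card
      (U ⧸ ((powMonoidHom m : (A2.Mod.FE E N)ˣ →* (A2.Mod.FE E N)ˣ).range).subgroupOf U) ≤ c) :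
    Nat.card ↥(kummerClasses296 E N m U) ≤ c :=
  (card_kummerClasses296_le hm U).trans hc

end LabJ

end Fermat.Agent.S59.LoSqC.H296

end

end
-- ===== PACK-END S59/LoSqC/H296/LabJ.lean

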