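import Mathlib
import Fermat.Prelude.Def_GaloisRep_LocalConditions
import Fermat.Agent.Pack.S59C.E2L2
import Fermat.Agent.Pack.S43MC.G0E12L3
import Fermat.Agent.Pack.S43GC.G0E5L3
import Fermat.Agent.Pack.S59C.E1L3
import Fermat.Agent.Pack.S43GC.G0E8L0
import Fermat.Agent.Pack.S43GC.G0E8L1
import Fermat.Agent.Pack.S59C.E2L0
import Fermat.Agent.Pack.S43MC.G0E10L3
import Fermat.Agent.Pack.S44C.G0E13L1
import Fermat.Agent.Pack.S44C.G0E10L3
import Fermat.Agent.Pack.S44C.G0E4L3
import Fermat.Agent.Pack.S44C.G0E11L3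
import Fermat.Agent.Pack.S59C.E2L3

set_option linter.all false

-- ===== PACK-BEGIN S41/H945/Heis.lean
section



/-!
# S41 / block PD / leaf HEIS — `heisLift : Spec.HeisLiftStatement` (unconditional)

`heisLift_of` (this directory) applied to leaf TORS (`Fermat.Agent.S41.H768.torsionClass`, on main).
-/

set_option autoImplicit false

namespace Fermat.Agent.S41.H945

universe u

/-- **Leaf HEIS** of `Spec/PD.lean`, unconditional. -/
theorem heisLift : Fermat.Agent.S41.Spec.HeisLiftStatement.{u} :=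
  heisLift_of Fermat.Agent.S41.H768.torsionClass

end Fermat.Agent.S41.H945

end
-- ===== PACK-END S41/H945/Heis.lean

-- ===== PACK-BEGIN S41/H161/IK/Swap.lean
section



/-!
# S41 / IK (helper161): SWAP and (T)

* `swap` : `r₁ φ₁ + r₂ φ₂ = 0 → r₁ φ₂ + r₂ φ₁ = 0` (Atkin–Lehner at `q`);
* `apply_eq_of_sq` : (T) `φ₁ [[a, b], [q² c, d]] = φ₁ [[a, q² b], [c, d]]`.
-/

set_option autoImplicit false

namespace Fermat.Agent.S41.H161

open CongruenceSubgroup Matrix.SpecialLinearGroup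
open Fermat.Agent.S29.H642 Fermat.Agent.S41.Spec
open scoped MatrixGroups

variable {N q : ℕ} {A : Type*} [AddCommGroup A]

theorem ker_apply {φ₁ φ₂ : Additive (Gamma0 N) →+ A} (hker : r₁ N q φ₁ + r₂ N q φ₂ = 0)
    (γ : Gamma0 (N * q)) :
    φ₁ (Additive.ofMul (incl N q γ)) + φ₂ (Additive.ofMul (conjDelta N q γ)) = 0 := by
  have := DFunLike.congr_fun hker (Additive.ofMul γ)
  simpa [r₁, r₂] using this

theorem incl_apply (γ : Gamma0 (N * q)) (i j : Fin 2) :
    ((incl N q γ : Gamma0 N) : SL(2, ℤ)) i j = (γ : SL(2, ℤ)) i j := rfl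

theorem conjDelta_00 (γ : Gamma0 (N * q)) :
    ((conjDelta N q γ : Gamma0 N) : SL(2, ℤ)) 0 0 = (γ : SL(2, ℤ)) 0 0 := rfl

theorem conjDelta_01 (γ : Gamma0 (N * q)) :
    ((conjDelta N q γ : Gamma0 N) : SL(2, ℤ)) 0 1 = q * (γ : SL(2, ℤ)) 0 1 := rfl

theorem conjDelta_10 (γ : Gamma0 (N * q)) :
    ((conjDelta N q γ : Gamma0 N) : SL(2, ℤ)) 1 0 = (γ : SL(2, ℤ)) 1 0 / q := rfl

theorem conjDelta_11 (γ : Gamma0 (N * q)) :
    ((conjDelta N q γ : Gamma0 N) : SL(2, ℤ)) 1 1 = (γ : SL(2, ℤ)) 1 1 := rfl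

/-- Values of a character on a conjugate. -/
theorem apply_conj (φ : Additive (Gamma0 N) →+ A) (g h x : Gamma0 N) (hgh : h * g = 1) :
    φ (Additive.ofMul (h * x * g)) = φ (Additive.ofMul x) := by
  have h1 : φ (Additive.ofMul h) + φ (Additive.ofMul g) = 0 := by
    rw [← map_add, ← ofMul_mul, hgh]; simp
  rw [ofMul_mul, ofMul_mul, map_add, map_add]
  rw [add_comm (φ (Additive.ofMul h)), add_assoc, add_comm (φ (Additive.ofMul h)), ← add_assoc]
  rw [add_assoc, add_comm (φ (Additive.ofMul g)), h1, add_zero]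

/-- The element of `Γ₀(N q)` with entries `a, b, q c, d` (`N ∣ c`). -/
def mkq (N q : ℕ) (a b c d : ℤ) (hdet : a * d - b * (q * c) = 1) (hc : (N : ℤ) ∣ c) :
    Gamma0 (N * q) :=
  mk0 (N * q) a b (q * c) d hdet (by
    obtain ⟨k, rfl⟩ := hc
    exact ⟨k, by push_cast; ring⟩)

theorem incl_mkq (a b c d : ℤ) (hdet : a * d - b * (q * c) = 1) (hc : (N : ℤ) ∣ c) :
    incl N q (mkq N q a b c d hdet hc) =
      mk0 N a b (q * c) d hdet (Dvd.dvd.mul_left hc _) :=
  gamma0_ext rfl rfl rfl rfl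

theorem conjDelta_mkq (hq : q ≠ 0) (a b c d : ℤ) (hdet : a * d - b * (q * c) = 1)
    (hc : (N : ℤ) ∣ c) :
    conjDelta N q (mkq N q a b c d hdet hc) =
      mk0 N a (q * b) c d (by linear_combination hdet) hc := by
  apply gamma0_ext
  · rfl
  · rfl
  · rw [conjDelta_10]
    simp only [mkq, mk0_10]
    exact Int.mul_ediv_cancel_left _ (by exact_mod_cast hq)
  · rfl

theorem exists_mkq (_hq : q ≠ 0) (γ : Gamma0 (N * q)) :
    ∃ (a b c d : ℤ) (hdet : a * d - b * (q * c) = 1) (hc : (N : ℤ) ∣ c),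
      γ = mkq N q a b c d hdet hc := by
  obtain ⟨k, hk⟩ := dvd_10 γ
  have hk' : (γ : SL(2, ℤ)) 1 0 = q * (N * k) := by rw [hk]; push_cast; ring
  have hdet := det_eq γ
  rw [hk'] at hdet
  exact ⟨_, _, N * k, _, hdet, Dvd.intro _ rfl, gamma0_ext rfl rfl hk' rfl⟩

/-- **SWAP**. -/
theorem swap_apply (hq : q.Prime) (hqN : ¬ q ∣ N) {φ₁ φ₂ : Additive (Gamma0 N) →+ A}
    (hker : r₁ N q φ₁ + r₂ N q φ₂ = 0) (η : Gamma0 (N * q)) :
    φ₂ (Additive.ofMul (incl N q η)) + φ₁ (Additive.ofMul (conjDelta N q η)) = 0 := by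
  have hq0 : q ≠ 0 := hq.ne_zero
  obtain ⟨a, b, c, d, hdet, hc, rfl⟩ := exists_mkq hq0 η
  -- Bezout
  have hcop : IsCoprime (q : ℤ) (N : ℤ) := by
    rw [Int.isCoprime_iff_gcd_eq_one, Int.gcd_natCast_natCast]
    exact (Nat.Prime.coprime_iff_not_dvd hq).mpr hqN
  obtain ⟨u, v, huv⟩ := hcop
  -- huv : u * q + v * N = 1
  obtain ⟨c₁, rfl⟩ := hc
  -- the Atkin–Lehner companions
  let g3 : Gamma0 N := mk0 N q (-v) N u (by linear_combination huv) (dvd_refl _)
  let g3i : Gamma0 N := mk0 N u v (-N) q (by linear_combination huv) (Dvd.dvd.neg_right (dvd_refl _))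
  let g2 : Gamma0 N := mk0 N 1 (-v) N (q * u) (by linear_combination huv) (dvd_refl _)
  let g2i : Gamma0 N := mk0 N (q * u) v (-N) 1 (by linear_combination huv)
    (Dvd.dvd.neg_right (dvd_refl _))
  have h3 : g3i * g3 = 1 := by
    apply gamma0_ext <;>
      simp only [g3, g3i, mul_00, mul_01, mul_10, mul_11, mk0_00, mk0_01, mk0_10, mk0_11]
    · show _ = (1 : ℤ); linear_combination huv
    · show _ = (0 : ℤ); ring
    · show _ = (0 : ℤ); ring
    · show _ = (1 : ℤ); linear_combination huv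
  have h2 : g2i * g2 = 1 := by
    apply gamma0_ext <;>
      simp only [g2, g2i, mul_00, mul_01, mul_10, mul_11, mk0_00, mk0_01, mk0_10, mk0_11]
    · show _ = (1 : ℤ); linear_combination huv
    · show _ = (0 : ℤ); ring
    · show _ = (0 : ℤ); ring
    · show _ = (1 : ℤ); linear_combination huv
  set μ : Gamma0 N := conjDelta N q (mkq N q a b (N * c₁) d hdet (Dvd.intro _ rfl)) with hμ
  set ι : Gamma0 N := incl N q (mkq N q a b (N * c₁) d hdet (Dvd.intro _ rfl)) with hι
  have hμe : μ = mk0 N a (q * b) (N * c₁) d (by linear_combination hdet) (Dvd.intro _ rfl) :=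
    conjDelta_mkq hq0 _ _ _ _ _ _
  have hιe : ι = mk0 N a b (q * (N * c₁)) d hdet (Dvd.dvd.mul_left (Dvd.intro _ rfl) _) :=
    incl_mkq _ _ _ _ _ _
  -- γ = g3i μ g3, an element of Γ₀(N q)
  have hdetγ : (u * a * q + v * (N * c₁) * q + (u * (q * b) + v * d) * N) *
      (-(-N * a + q * (N * c₁)) * v + (-N * (q * b) + q * d) * u) -
      (-(u * a + v * (N * c₁)) * v + (u * (q * b) + v * d) * u) *
        (q * (N * (-a + q * c₁ - N * b + d))) = 1 := by
    have h1 := det_eq (g3i * μ * g3)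
    rw [hμe] at h1
    simp only [g3, g3i, mul_00, mul_01, mul_10, mul_11, mk0_00, mk0_01, mk0_10, mk0_11] at h1
    linear_combination h1
  let γ : Gamma0 (N * q) := mkq N q
    (u * a * q + v * (N * c₁) * q + (u * (q * b) + v * d) * N)
    (-(u * a + v * (N * c₁)) * v + (u * (q * b) + v * d) * u)
    (N * (-a + q * c₁ - N * b + d))
    (-(-N * a + q * (N * c₁)) * v + (-N * (q * b) + q * d) * u) hdetγ (Dvd.intro _ rfl)
  have e1 : incl N q γ = g3i * μ * g3 := by
    rw [hμe]
    apply gamma0_ext <;>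
      simp only [γ, incl_mkq, g3, g3i, mul_00, mul_01, mul_10, mul_11, mk0_00, mk0_01, mk0_10,
        mk0_11] <;> ring
  have e2 : conjDelta N q γ = g2i * ι * g2 := by
    rw [hιe]
    apply gamma0_ext <;>
      simp only [γ, conjDelta_mkq hq0, g2, g2i, mul_00, mul_01, mul_10, mul_11, mk0_00, mk0_01,
        mk0_10, mk0_11] <;> ring
  have hR := ker_apply hker γ
  rw [e1, e2, apply_conj φ₁ g3 g3i μ h3, apply_conj φ₂ g2 g2i ι h2] at hR
  rw [add_comm]
  exact hR

theorem swap (hq : q.Prime) (hqN : ¬ q ∣ N) {φ₁ φ₂ : Additive (Gamma0 N) →+ A}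
    (hker : r₁ N q φ₁ + r₂ N q φ₂ = 0) : r₁ N q φ₂ + r₂ N q φ₁ = 0 := by
  refine AddMonoidHom.ext fun γ' => ?_
  obtain ⟨γ, rfl⟩ : ∃ γ : Gamma0 (N * q), Additive.ofMul γ = γ' := ⟨Additive.toMul γ', rfl⟩
  have := swap_apply hq hqN hker γ
  simpa [r₁, r₂] using this

/-- **(T)**: for `(φ₁, φ₂)` in the kernel, `φ₁ [[a, b], [q² c, d]] = φ₁ [[a, q² b], [c, d]]`. -/
theorem apply_eq_of_sq (hq : q.Prime) (hqN : ¬ q ∣ N) {φ₁ φ₂ : Additive (Gamma0 N) →+ A}
    (hker : r₁ N q φ₁ + r₂ N q φ₂ = 0) (a b c d : ℤ) (hc : (N : ℤ) ∣ c)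
    (hdet : a * d - b * (q * (q * c)) = 1) :
    φ₁ (Additive.ofMul (mk0 N a b (q * (q * c)) d hdet
        (Dvd.dvd.mul_left (Dvd.dvd.mul_left hc _) _))) =
      φ₁ (Additive.ofMul (mk0 N a (q * (q * b)) c d (by linear_combination hdet) hc)) := by
  have hq0 : q ≠ 0 := hq.ne_zero
  -- γ ∈ Γ₀(N q) with entries a, b, q (q c), d
  have hR := ker_apply hker (mkq N q a b (q * c) d hdet (Dvd.dvd.mul_left hc _))
  rw [incl_mkq, conjDelta_mkq hq0] at hR
  -- μ ∈ Γ₀(N q) with entries a, q b, q c, d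
  have hR' := swap_apply hq hqN hker (mkq N q a (q * b) c d (by linear_combination hdet) hc)
  rw [incl_mkq, conjDelta_mkq hq0] at hR'
  have e : φ₁ (Additive.ofMul (mk0 N a b (q * (q * c)) d hdet
      (Dvd.dvd.mul_left (Dvd.dvd.mul_left hc _) _))) =
      -φ₂ (Additive.ofMul (mk0 N a (q * b) (q * c) d (by linear_combination hdet)
        (Dvd.dvd.mul_left hc _))) := eq_neg_of_add_eq_zero_left hR
  rw [e]
  exact (eq_neg_of_add_eq_zero_left hR').symm ▸ (neg_neg _)

end Fermat.Agent.S41.H161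

end
-- ===== PACK-END S41/H161/IK/Swap.lean

-- ===== PACK-BEGIN S59/H396/NodeSign.lean
section


/-!
# CR-O, part C1 (helper396): two points at the same distance from the node

Complement to `H240.sub_inE0` (helper240).  `W` an integral Weierstrass curve over an
algebraically closed valued field, multiplicative reduction.  If `P`, `P'` are integral points
with singular reduction and the same distance to the node (`rad P' = rad P`), then

  `P' - P ∈ E₀`   or   `P' + P ∈ E₀`      (`sub_or_add_inE0`).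

(No hypothesis on the directions: `P'` lies on the branch of `P` or on the branch of `-P`, or both
are in the middle class.)  This is what is needed for elements of the DECOMPOSITION group, which
may exchange the two tangent directions at the node.
-/

set_option autoImplicit false
set_option linter.unusedSectionVars false
set_option linter.unusedVariables false

namespace Fermat.Agent.S59.H396

open WeierstrassCurve WeierstrassCurve.Affine
open Fermat.Agent.S05.SameRed (IntegralCoeffs)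
open Fermat.Agent.Lib.VC
open Fermat.Agent.S59.H240

variable {K : Type*} [Field K] {Γ₀ : Type*} [LinearOrderedCommGroupWithZero Γ₀]
  {v : Valuation K Γ₀} [DecidableEq K]

/-- the normal form case -/
lemma node_sub_or_add_inE0 {N : WeierstrassCurve K} {a : K} (hN : N = nodeCurve a)
    (ha0 : a ≠ 0) (ha : v a < 1) {x y x' y' : K}
    (h : N.toAffine.Nonsingular x y) (h' : N.toAffine.Nonsingular x' y')
    (hx : v x ≤ 1) (hx' : v x' ≤ 1) (hrad : rad N v x y < 1)
    (heq : rad N v x' y' = rad N v x y) :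
    InE0 N.toAffine v (Point.some x' y' h' - Point.some x y h) ∨
      InE0 N.toAffine v (Point.some x' y' h' + Point.some x y h) := by
  subst hN
  have hE := nodeCurve_equation_iff.mp h.1
  have hE' := nodeCurve_equation_iff.mp h'.1
  -- both points lie in the annulus
  have hann : ∀ {x y : K} (h : (nodeCurve a).toAffine.Nonsingular x y), v x ≤ 1 →
      rad (nodeCurve a) v x y < 1 → v x < 1 := by
    intro x y h hx hr
    by_contra hge
    rw [not_lt] at hge
    have := node_inE0_of_le ha h hge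
    rw [inE0_some] at this
    rcases this with h1 | h1 | h1
    · exact absurd hx (not_le.mpr h1)
    · have : (1 : Γ₀) ≤ rad (nodeCurve a) v x y := by rw [rad, ← h1]; exact le_max_left _ _
      exact absurd hr (not_lt.mpr this)
    · have : (1 : Γ₀) ≤ rad (nodeCurve a) v x y := by rw [rad, ← h1]; exact le_max_right _ _
      exact absurd hr (not_lt.mpr this)
  have hx1 := hann h hx hrad
  have hx1' := hann h' hx' (by rw [heq]; exact hrad)
  -- the negative of `P`
  have hneg : -Point.some x y h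
      = Point.some x ((nodeCurve a).toAffine.negY x y) ((Affine.nonsingular_neg x y).mpr h) :=
    Point.neg_some h
  have hEn : NodeEq a x ((nodeCurve a).toAffine.negY x y) :=
    nodeCurve_equation_iff.mp ((Affine.nonsingular_neg x y).mpr h).1
  rcases hE.class_cases hx1 with hM | hP | hB
  · rcases hE'.class_cases hx1' with hM' | hP' | hB'
    · exact Or.inl (node_sub_inE0 ha0 ha h h' hx1 hx1' (Or.inl ⟨hM, hM'⟩))
    · exfalso
      rw [hM.rad_eq ha0 ha hE, hP'.rad_eq hx1'] at heq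
      exact absurd hP'.1 (by rw [heq]; exact lt_irrefl _)
    · exfalso
      rw [hM.rad_eq ha0 ha hE, hB'.rad_eq hx1'] at heq
      exact absurd hB'.1 (by rw [heq]; exact lt_irrefl _)
  · rcases hE'.class_cases hx1' with hM' | hP' | hB'
    · exfalso
      rw [hM'.rad_eq ha0 ha hE', hP.rad_eq hx1] at heq
      exact absurd hP.1 (by rw [heq]; exact lt_irrefl _)
    · rw [hP.rad_eq hx1, hP'.rad_eq hx1'] at heq
      exact Or.inl (node_sub_inE0 ha0 ha h h' hx1 hx1' (Or.inr (Or.inl ⟨heq.symm, hP, hP'⟩)))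
    · rw [hP.rad_eq hx1, hB'.rad_eq hx1'] at heq
      right
      have hPn : BrN v a x ((nodeCurve a).toAffine.negY x y) := by
        rw [nodeCurve_negY]; exact hP.neg
      have key := node_sub_inE0 ha0 ha ((Affine.nonsingular_neg x y).mpr h) h' hx1 hx1'
        (Or.inr (Or.inr ⟨heq.symm, hPn, hB'⟩))
      rwa [← hneg, sub_neg_eq_add] at key
  · rcases hE'.class_cases hx1' with hM' | hP' | hB'
    · exfalso
      rw [hM'.rad_eq ha0 ha hE', hB.rad_eq hx1] at heq
      exact absurd hB.1 (by rw [heq]; exact lt_irrefl _)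
    · rw [hB.rad_eq hx1, hP'.rad_eq hx1'] at heq
      right
      have hPn : BrP v a x ((nodeCurve a).toAffine.negY x y) := by
        rw [nodeCurve_negY]; exact hB.neg
      have key := node_sub_inE0 ha0 ha ((Affine.nonsingular_neg x y).mpr h) h' hx1 hx1'
        (Or.inr (Or.inl ⟨heq.symm, hPn, hP'⟩))
      rwa [← hneg, sub_neg_eq_add] at key
    · rw [hB.rad_eq hx1, hB'.rad_eq hx1'] at heq
      exact Or.inl (node_sub_inE0 ha0 ha h h' hx1 hx1' (Or.inr (Or.inr ⟨heq.symm, hB, hB'⟩)))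

/-- **Two integral points with singular reduction at the same distance from the node differ, up
to sign, by a point of `E₀`.** -/
theorem sub_or_add_inE0 [IsAlgClosed K] (h2 : (2 : K) ≠ 0) {W : WeierstrassCurve K}
    (hW : IntegralCoeffs W.toAffine v) (hc₄ : v W.c₄ = 1) (hΔ : W.Δ ≠ 0)
    {x y x' y' : K} (h : W.toAffine.Nonsingular x y) (h' : W.toAffine.Nonsingular x' y')
    (hx : v x ≤ 1) (hy : v y ≤ 1) (hx' : v x' ≤ 1)
    (hrad : rad W v x y < 1) (heq : rad W v x' y' = rad W v x y) :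
    InE0 W.toAffine v (Point.some x' y' h' - Point.some x y h) ∨
      InE0 W.toAffine v (Point.some x' y' h' + Point.some x y h) := by
  have hG : v (gX W x y) < 1 := lt_of_le_of_lt (le_max_left _ _) hrad
  have hH : v (gY W x y) < 1 := lt_of_le_of_lt (le_max_right _ _) hrad
  obtain ⟨C, a, hu, hr, hs, ht, ha0, ha, hCW⟩ := exists_nodeForm h2 hW hc₄ hΔ h.1 hx hy hG hH
  -- the points in the new coordinates
  obtain ⟨Q, hQ⟩ := (vcPoint W C).surjective (Point.some x y h)
  obtain ⟨Q', hQ'⟩ := (vcPoint W C).surjective (Point.some x' y' h')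
  rcases Q with _ | ⟨X, Y, hXY⟩
  · change (vcPoint W C) 0 = _ at hQ
    rw [vcPoint_zero] at hQ; exact absurd hQ.symm (Point.some_ne_zero h)
  rcases Q' with _ | ⟨X', Y', hXY'⟩
  · change (vcPoint W C) 0 = _ at hQ'
    rw [vcPoint_zero] at hQ'; exact absurd hQ'.symm (Point.some_ne_zero h')
  have hQc := hQ
  have hQc' := hQ'
  rw [vcPoint_some, Point.some.injEq] at hQc hQc'
  obtain ⟨eX, eY⟩ := hQc
  obtain ⟨eX', eY'⟩ := hQc'
  have hN : IntegralCoeffs (C • W).toAffine v := by rw [hCW]; exact nodeCurve_integral ha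
  have hXv : v X ≤ 1 := (val_vcX_le hu hr).mp (by rw [eX]; exact hx)
  have hXv' : v X' ≤ 1 := (val_vcX_le hu hr).mp (by rw [eX']; exact hx')
  have hr1 : rad (C • W) v X Y = rad W v x y := by rw [← rad_vc hu hs, eX, eY]
  have hr1' : rad (C • W) v X' Y' = rad W v x' y' := by rw [← rad_vc hu hs, eX', eY']
  have key := node_sub_or_add_inE0 hCW ha0 ha hXY hXY' hXv hXv' (by rw [hr1]; exact hrad)
    (by rw [hr1, hr1', heq])
  rcases key with key | key
  · left
    have := inE0_vcPoint hu hr hs hN _ key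
    rwa [map_sub, hQ, hQ'] at this
  · right
    have := inE0_vcPoint hu hr hs hN _ key
    rwa [map_add, hQ, hQ'] at this

end Fermat.Agent.S59.H396

end
-- ===== PACK-END S59/H396/NodeSign.lean

-- ===== PACK-BEGIN S55/E1/H114/Alg5.lean
section
/-
S55 engine E1, block ALG — helper114.
ALG5 (alpha^1) assembled from ALG1, ALG2, ALG4 in the exact frozen form
`Fermat.Agent.S55.E1.ALG5AssemblySpec`.
-/


set_option autoImplicit false

open CategoryTheory CategoryTheory.Limits groupCohomology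

namespace Fermat.Agent.S55.E1.H114

noncomputable section

variable {G : Type} [Group G]

/-- `H¹(G, N)` is killed by `p` when `N` is. -/
lemma nsmul_H1_eq_zero (p : ℕ) (N : Rep.{0} ℤ G) (hN : ∀ n : N.V, p • n = 0)
    (x : groupCohomology N 1) : p • x = 0 := by
  induction x using groupCohomology.H1_induction_on with
  | h f =>
    rw [← map_nsmul]
    have : p • f = 0 := by
      ext g
      exact hN _
    rw [this, map_zero]

/-- (a) of ALG5: the pairing with a restricted map vanishes. -/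
lemma pair_resBA_eq_zero (N C : Rep.{0} ℤ G) (h : homB N C) (x : groupCohomology N 1) :
    pair (resBA N C h) x = 0 := by
  have h0 : groupCohomology.δ (stdSC_shortExact N) 1 2 rfl ≫ T.coeffMap (stdι N) 2 = 0 :=
    (mapShortComplex₁ (stdSC_shortExact N) (i := 1) (j := 2) rfl).zero
  have h1 : (T.coeffMap (stdι N) 2).hom (stdδ N x) = 0 := by
    have := congrArg (fun φ => φ.hom x) h0
    exact this
  show (T.coeffMap (stdι N ≫ h) 2).hom (stdδ N x) = 0
  rw [T.coeffMap, groupCohomology.map_id_comp]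
  show (T.coeffMap h 2).hom ((T.coeffMap (stdι N) 2).hom (stdδ N x)) = 0
  rw [h1, map_zero]

/-- **ALG5 from ALG1, ALG2, ALG4**, exact frozen form. -/
theorem alg5Assembly : ALG5AssemblySpec := by
  intro h1 h2 h4 p hp G _ _ N C γ hNfin hN hC hT
  obtain ⟨hfree, hfin, hbij⟩ := h1 G N hNfin
  obtain ⟨hsurj, hker⟩ := hT p hp G C γ hC (stdR N) hfree hfin
  refine ⟨fun h x => pair_resBA_eq_zero N C h x, ?_, ?_⟩
  · intro χ
    let e : groupCohomology N 1 ≃+ groupCohomology (stdR N) 2 :=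
      AddEquiv.ofBijective (stdδ N).toAddMonoidHom hbij
    obtain ⟨f, hf⟩ := hsurj (χ.comp e.symm.toAddMonoidHom)
    refine ⟨f, fun x => ?_⟩
    have hx : IsPPrimary p (stdδ N x) :=
      ⟨1, by rw [pow_one, ← map_nsmul, nsmul_H1_eq_zero p N hN, map_zero]⟩
    have h3 := hf (stdδ N x) hx
    have h5 : e.symm (stdδ N x) = x := e.symm_apply_apply x
    show (T.coeffMap f 2).hom (stdδ N x) = χ x
    rw [h3]
    show χ (e.symm (stdδ N x)) = χ x
    rw [h5]
  · intro H _ _ hHN hnorm f hf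
    have hzero : ∀ y : groupCohomology (stdR N) 2, IsPPrimary p y →
        (T.coeffMap f 2).hom y = 0 := by
      intro y _
      obtain ⟨x, rfl⟩ := hbij.2 y
      exact hf x
    obtain ⟨m, ψ, hm, hψ⟩ := hker f hzero
    obtain ⟨k, hk⟩ := h4 p hp G H N C hNfin hN hHN hnorm ψ
    obtain ⟨k', hk'⟩ := h2 p G N C hN f
    have hk2 : stdι N ≫ k = m • f := by
      apply Rep.hom_ext
      apply DFunLike.ext
      intro r
      show k.hom ((stdι N).hom r) = m • f.hom r
      rw [hk, hψ]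
    obtain ⟨a, b, hab⟩ := Nat.isCoprime_iff_coprime.2 hm
    refine ⟨a • k + b • k', ?_⟩
    rw [Preadditive.comp_add, Preadditive.comp_zsmul, Preadditive.comp_zsmul, hk2, hk',
      ← natCast_zsmul f m, ← natCast_zsmul f p, smul_smul, smul_smul, ← add_smul, hab, one_smul]

end

end Fermat.Agent.S55.E1.H114

end
-- ===== PACK-END S55/E1/H114/Alg5.lean

-- ===== PACK-BEGIN S55/E1/H304/Alg2.lean
section


/-!
# S55 engine E1, block ALG, leaf ALG2 (helper304)

If `p N = 0` then `p • f` extends to `P = ℤ[G]^{(N)}` for every `f : R ⟶ X`: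
multiplication by `p` maps `P` into `R = ker ε`, and `x ↦ f (p x)` is the extension.
-/

set_option autoImplicit false

open CategoryTheory CategoryTheory.Limits

namespace Fermat.Agent.S55.E1.H304

open Fermat.Agent.S55.E1

noncomputable section

variable {G : Type} [Group G]

/-- Pointwise extensionality for morphisms of representations. -/
lemma repHom_ext304 {A B : Rep.{0} ℤ G} {f g : A ⟶ B} (h : ∀ x : A.V, f.hom x = g.hom x) :
    f = g := by
  apply Rep.hom_ext
  apply DFunLike.ext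
  exact h

/-- `p • 𝟙 P` composed with `ε` vanishes when `p N = 0`. -/
lemma nsmul_id_comp_stdε (p : ℕ) (N : Rep.{0} ℤ G) (hpN : ∀ n : N.V, p • n = 0) :
    (p • 𝟙 (stdP N)) ≫ stdε N = 0 := by
  rw [Preadditive.nsmul_comp, Category.id_comp]
  apply repHom_ext304
  intro x
  change p • (stdε N).hom x = 0
  exact hpN _

/-- Multiplication by `p` as a morphism `P ⟶ R`. -/
def mulP (p : ℕ) (N : Rep.{0} ℤ G) (hpN : ∀ n : N.V, p • n = 0) : stdP N ⟶ stdR N :=
  kernel.lift (stdε N) (p • 𝟙 (stdP N)) (nsmul_id_comp_stdε p N hpN)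

lemma mulP_comp_stdι (p : ℕ) (N : Rep.{0} ℤ G) (hpN : ∀ n : N.V, p • n = 0) :
    mulP p N hpN ≫ stdι N = p • 𝟙 (stdP N) :=
  kernel.lift_ι _ _ _

lemma stdι_comp_mulP (p : ℕ) (N : Rep.{0} ℤ G) (hpN : ∀ n : N.V, p • n = 0) :
    stdι N ≫ mulP p N hpN = p • 𝟙 (stdR N) := by
  have := stdι_mono N
  rw [← cancel_mono (stdι N), Category.assoc, mulP_comp_stdι, Preadditive.comp_nsmul,
    Preadditive.nsmul_comp, Category.comp_id, Category.id_comp]

/-- **ALG2.** -/
theorem alg2 : ALG2Spec := by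
  intro p G _ N X hpN f
  refine ⟨mulP p N hpN ≫ f, ?_⟩
  rw [← Category.assoc, stdι_comp_mulP, Preadditive.nsmul_comp, Category.id_comp]

end

end Fermat.Agent.S55.E1.H304

end
-- ===== PACK-END S55/E1/H304/Alg2.lean

-- ===== PACK-BEGIN S55/E1/H114/Alg4.lean
section
/-
S55 engine E1, block ALG — helper114.
ALG4 (norm-kill) in the exact frozen form `Fermat.Agent.S55.E1.ALG4Spec`.
-/



set_option autoImplicit false

open CategoryTheory CategoryTheory.Limits

namespace Fermat.Agent.S55.E1.H114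

noncomputable section

section generic

variable {k G : Type} [CommRing k] [Group G]

/-- Concrete exactness in the middle of a short exact sequence of representations (generic
coefficient ring, to avoid the `ℤ`-module diamond). -/
theorem rep_exact_apply {X : ShortComplex (Rep.{0} k G)} (hX : X.ShortExact)
    (x : X.X₂) (hx : X.g.hom x = 0) : ∃ y : X.X₁, X.f.hom y = x := by
  have := hX.exact
  rw [← ShortComplex.exact_map_iff_of_faithful X (forget₂ (Rep.{0} k G) (ModuleCat.{0} k)),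
    ShortComplex.moduleCat_exact_iff] at this
  exact this x hx

/-- The action of `G` on a representation, as a monoid hom into additive endomorphisms. -/
def repAct (A : Rep.{0} k G) : G →* AddMonoid.End A.V where
  toFun g := (A.ρ g).toAddMonoidHom
  map_one' := by
    ext x
    rw [map_one]
    rfl
  map_mul' g h := by
    ext x
    rw [map_mul]
    rfl

@[simp] lemma repAct_apply (A : Rep.{0} k G) (g : G) (x : A.V) : repAct A g x = A.ρ g x := rfl

/-- The underlying additive map of a morphism of representations. -/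
def homAdd {A B : Rep.{0} k G} (f : A ⟶ B) : A.V →+ B.V := f.hom.toLinearMap.toAddMonoidHom

@[simp] lemma homAdd_apply {A B : Rep.{0} k G} (f : A ⟶ B) (x : A.V) : homAdd f x = f.hom x := rfl

/-- A linear `G`-equivariant map between representations is a morphism. -/
def homOfLin {A B : Rep.{0} k G} (f : A.V →ₗ[k] B.V) (hf : ∀ g x, f (A.ρ g x) = B.ρ g (f x)) :
    A ⟶ B :=
  ConcreteCategory.ofHom (C := Rep.{0} k G) (f.intertwiningMap_of_isIntertwiningMap A.ρ B.ρ hf)

lemma homOfLin_hom_apply {A B : Rep.{0} k G} (f : A.V →ₗ[k] B.V)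
    (hf : ∀ g x, f (A.ρ g x) = B.ρ g (f x)) (x : A.V) : (homOfLin f hf).hom x = f x := rfl

end generic

variable {G : Type} [Group G]

/-- The `ℤ`-scalar diamond: the action of a `Module ℤ M` instance is the `zsmul` of `M`. -/
theorem hsmul_eq_zsmul {M : Type*} [AddCommGroup M] (inst : Module ℤ M) (n : ℤ) (x : M) :
    (@HSMul.hSMul ℤ M M (@instHSMul ℤ M inst.toSMul) n x) = n • x :=
  int_smul_eq_zsmul inst n x

/-- An additive map between representations over `ℤ` is `ℤ`-linear. -/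
def linOfAdd {A B : Rep.{0} ℤ G} (K : A.V →+ B.V) :
    @LinearMap ℤ ℤ _ _ (RingHom.id ℤ) A.V B.V _ _ A.hV2 B.hV2 :=
  @LinearMap.mk ℤ ℤ _ _ (RingHom.id ℤ) A.V B.V _ _ A.hV2 B.hV2
    { toFun := K, map_add' := K.map_add }
    (fun z x => by
      simp only [RingHom.id_apply]
      show K (@HSMul.hSMul ℤ A.V A.V (@instHSMul ℤ A.V A.hV2.toSMul) z x) =
        @HSMul.hSMul ℤ B.V B.V (@instHSMul ℤ B.V B.hV2.toSMul) z (K x)
      rw [hsmul_eq_zsmul A.hV2, hsmul_eq_zsmul B.hV2, map_zsmul])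

/-- An additive `G`-equivariant map between representations over `ℤ` is a morphism. -/
def homOfAdd {A B : Rep.{0} ℤ G} (K : A.V →+ B.V) (hK : ∀ g x, K (A.ρ g x) = B.ρ g (K x)) :
    A ⟶ B :=
  homOfLin (linOfAdd K) hK

lemma homOfAdd_hom_apply {A B : Rep.{0} ℤ G} (K : A.V →+ B.V)
    (hK : ∀ g x, K (A.ρ g x) = B.ρ g (K x)) (x : A.V) : (homOfAdd K hK).hom x = K x := rfl

/-- Concrete exactness of the standard presentation at `P`. -/
lemma stdSC_exact_apply (N : Rep.{0} ℤ G) (x : (stdP N).V) (hx : (stdε N).hom x = 0) :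
    ∃ r : (stdR N).V, (stdι N).hom r = x :=
  rep_exact_apply (stdSC_shortExact N) x hx

lemma stdι_injective (N : Rep.{0} ℤ G) : Function.Injective (stdι N).hom :=
  (Rep.mono_iff_injective _).1 (stdι_mono N)

lemma stdε_stdι (N : Rep.{0} ℤ G) (r : (stdR N).V) : (stdε N).hom ((stdι N).hom r) = 0 := by
  have h : (kernel.ι (stdε N) ≫ stdε N).hom r = (0 : kernel (stdε N) ⟶ N).hom r := by
    rw [kernel.condition]
  exact h

/-- **ALG4 (norm-kill)**, exact frozen form. -/
theorem alg4 : ALG4Spec := by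
  intro p hp G _ _ H _ _ N C _ hN hHN hnorm ψ
  obtain ⟨K, hKeq, hKψ⟩ := normKill_core H (repAct (stdR N)) (repAct (stdP N)) (repAct C) p hp
    (homAdd (stdι N)) (homAdd (stdε N)) (stdι_injective N) (stdε_surjective N)
    (stdSC_exact_apply N) (stdε_stdι N)
    (fun g r => Rep.hom_comm_apply (stdι N) g r)
    (fun h hh x => by
      show (stdε N).hom ((stdP N).ρ h x) = (stdε N).hom x
      rw [Rep.hom_comm_apply (stdε N) h x, hHN h hh])
    hN
    (fun c => hnorm c)
    ψ
  exact ⟨homOfAdd K hKeq, fun r => hKψ r⟩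

end

end Fermat.Agent.S55.E1.H114

end
-- ===== PACK-END S55/E1/H114/Alg4.lean

-- ===== PACK-BEGIN S55/E1/H114/Alg5Final.lean
section
/-
S55 engine E1, block ALG — helper114.
ALG5 (alpha^1) in the exact frozen form `Fermat.Agent.S55.E1.ALG5Spec`, from
ALG1, ALG2 (helper304, on main) and ALG4 (helper114).
-/





set_option autoImplicit false

namespace Fermat.Agent.S55.E1.H114

/-- **ALG5 (alpha^1)**, exact frozen form. -/
theorem alg5 : ALG5Spec :=
  alg5Assembly Fermat.Agent.S55.E1.H304.alg1 Fermat.Agent.S55.E1.H304.alg2 alg4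

end Fermat.Agent.S55.E1.H114

end
-- ===== PACK-END S55/E1/H114/Alg5Final.lean

-- ===== PACK-BEGIN S55/E1/H594/TensCore.lean
section
/-
S55 / engine E1 / G-ADAPTER leaf TENS (helper594), part 1: the ring-level comparison.

`q` a prime, `K = ℚ_q`, `Ω = ℚ̄_q`, `F ⊆ ℚ̄` finite Galois over `ℚ`, `Γ = Gal(F/ℚ)`,
`ι : ℚ̄ → Ω` the Prelude embedding, `r = toLevel q F : Gal(Ω/K) → Γ` (B11, helper175).

* `corePhi q F : K ⊗[ℚ] F →ₐ[K] (Γ → Ω)`, `c ⊗ x ↦ (g ↦ c · ι(g x))`;
* `coreR q F`: the `K`-subalgebra `{f | f (r τ * g) = τ (f g)}` of `Γ → Ω`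
  (the ring underlying `Coind_{D_q}^{Γ} F_q`);
* `corePhi_injective` (Vandermonde), `corePhi_range : range = coreR` (dimension count, Artin);
* `coreEquiv q F : K ⊗[ℚ] F ≃ₐ[K] coreR q F`, and the equivariance `corePhi_map`.
No `sorry`.
-/


set_option autoImplicit false
set_option linter.unusedSectionVars false
set_option linter.style.haveILetI false

namespace Fermat.Agent.S55.E1.H594

open Fermat.Agent.S55.Bridge.H175
open scoped TensorProduct

noncomputable section

section core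

variable (q : ℕ) [Fact q.Prime]
variable (F : IntermediateField ℚ (AlgebraicClosure ℚ)) [FiniteDimensional ℚ F] [IsGalois ℚ F]

/-- `ι` restricted to `F`, as a `ℚ`-algebra homomorphism. -/
def coreEmb : F →ₐ[ℚ] PadicAlgCl q :=
  ((padicEmbedding q).toRingHom.comp F.val.toRingHom).toRatAlgHom

theorem coreEmb_apply (x : F) : coreEmb q F x = padicEmbedding q (x : AlgebraicClosure ℚ) := rfl

theorem coreEmb_injective : Function.Injective (coreEmb q F) :=
  (coreEmb q F).toRingHom.injective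

/-- Evaluation at `g ∈ Gal(F/ℚ)`: `c ⊗ x ↦ c · ι(g x)`. -/
def coreEv (g : F ≃ₐ[ℚ] F) : ℚ_[q] ⊗[ℚ] F →ₐ[ℚ_[q]] PadicAlgCl q :=
  Algebra.TensorProduct.lift (Algebra.ofId ℚ_[q] (PadicAlgCl q))
    ((coreEmb q F).comp (g : F →ₐ[ℚ] F)) (fun _ _ => Commute.all _ _)

theorem coreEv_tmul (g : F ≃ₐ[ℚ] F) (c : ℚ_[q]) (x : F) :
    coreEv q F g (c ⊗ₜ[ℚ] x) =
      algebraMap ℚ_[q] (PadicAlgCl q) c * padicEmbedding q ((g x : F) : AlgebraicClosure ℚ) :=
  rfl

/-- `Φ : K ⊗[ℚ] F → (Γ → Ω)`, `c ⊗ x ↦ (g ↦ c · ι(g x))`. -/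
def corePhi : ℚ_[q] ⊗[ℚ] F →ₐ[ℚ_[q]] ((F ≃ₐ[ℚ] F) → PadicAlgCl q) :=
  AlgHom.pi (coreEv q F)

theorem corePhi_apply (a : ℚ_[q] ⊗[ℚ] F) (g : F ≃ₐ[ℚ] F) :
    corePhi q F a g = coreEv q F g a := rfl

theorem corePhi_tmul (g : F ≃ₐ[ℚ] F) (c : ℚ_[q]) (x : F) :
    corePhi q F (c ⊗ₜ[ℚ] x) g =
      algebraMap ℚ_[q] (PadicAlgCl q) c * padicEmbedding q ((g x : F) : AlgebraicClosure ℚ) :=
  rfl

/-- A `K`-basis expansion of the evaluation: for a power basis `θ^i` of `F/ℚ`,
`ev_g a = ∑ c_i · ι(g θ)^i`. -/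
theorem coreEv_eq_sum (pb : PowerBasis ℚ F) (a : ℚ_[q] ⊗[ℚ] F) (g : F ≃ₐ[ℚ] F) :
    coreEv q F g a = ∑ i : Fin pb.dim,
      algebraMap ℚ_[q] (PadicAlgCl q) ((Algebra.TensorProduct.basis ℚ_[q] pb.basis).repr a i) *
        padicEmbedding q ((g pb.gen : F) : AlgebraicClosure ℚ) ^ (i : ℕ) := by
  conv_lhs => rw [← (Algebra.TensorProduct.basis ℚ_[q] pb.basis).sum_repr a]
  rw [map_sum]
  refine Finset.sum_congr rfl (fun i _ => ?_)
  rw [map_smul, Algebra.TensorProduct.basis_apply, coreEv_tmul, map_one, one_mul,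
    Algebra.smul_def, PowerBasis.coe_basis, map_pow]
  have h1 : (((g pb.gen ^ (i : ℕ) : F)) : AlgebraicClosure ℚ) =
      ((g pb.gen : F) : AlgebraicClosure ℚ) ^ (i : ℕ) := rfl
  rw [h1, map_pow]

/-- **Injectivity of `Φ`** (Vandermonde). -/
theorem corePhi_injective : Function.Injective (corePhi q F) := by
  rw [injective_iff_map_eq_zero]
  intro a ha
  let pb : PowerBasis ℚ F := Field.powerBasisOfFiniteOfSeparable ℚ F
  have hcard : Nat.card (F ≃ₐ[ℚ] F) = pb.dim := by
    rw [IsGalois.card_aut_eq_finrank, pb.finrank]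
  let e : (F ≃ₐ[ℚ] F) ≃ Fin pb.dim := Finite.equivFinOfCardEq hcard
  let v : Fin pb.dim → PadicAlgCl q :=
    fun i => padicEmbedding q ((e.symm i pb.gen : F) : AlgebraicClosure ℚ)
  have hv : Function.Injective v := by
    intro i j hij
    have h1 : (e.symm i pb.gen : F) = e.symm j pb.gen :=
      coreEmb_injective q F hij
    have h2 : ((e.symm i : F ≃ₐ[ℚ] F) : F →ₐ[ℚ] F) = ((e.symm j : F ≃ₐ[ℚ] F) : F →ₐ[ℚ] F) :=
      pb.algHom_ext h1
    have h3 : e.symm i = e.symm j :=
      AlgEquiv.ext (fun x => congrArg (fun f : F →ₐ[ℚ] F => f x) h2)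
    exact e.symm.injective h3
  have hdet : (Matrix.vandermonde v).det ≠ 0 := Matrix.det_vandermonde_ne_zero_iff.2 hv
  let c : Fin pb.dim → PadicAlgCl q := fun i =>
    algebraMap ℚ_[q] (PadicAlgCl q) ((Algebra.TensorProduct.basis ℚ_[q] pb.basis).repr a i)
  have hmul : (Matrix.vandermonde v).mulVec c = 0 := by
    funext i
    have h1 : coreEv q F (e.symm i) a = 0 := congrFun ha (e.symm i)
    rw [coreEv_eq_sum q F pb] at h1
    rw [Pi.zero_apply, ← h1]
    simp only [Matrix.mulVec, dotProduct, Matrix.vandermonde_apply]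
    exact Finset.sum_congr rfl (fun j _ => mul_comm _ _)
  have hc : c = 0 := Matrix.eq_zero_of_mulVec_eq_zero hdet hmul
  have hrepr : (Algebra.TensorProduct.basis ℚ_[q] pb.basis).repr a = 0 := by
    ext i
    have := congrFun hc i
    exact (algebraMap ℚ_[q] (PadicAlgCl q)).injective (by simpa [c] using this)
  exact (Algebra.TensorProduct.basis ℚ_[q] pb.basis).repr.map_eq_zero_iff.1 hrepr

/-- The `K`-subalgebra `{f | f (r τ * g) = τ (f g)}` of `Γ → Ω`. -/
def coreR : Subalgebra ℚ_[q] ((F ≃ₐ[ℚ] F) → PadicAlgCl q) where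
  carrier := {f | ∀ (τ : PadicAlgCl q ≃ₐ[ℚ_[q]] PadicAlgCl q) (g : F ≃ₐ[ℚ] F),
    f (toLevel q F τ * g) = τ (f g)}
  mul_mem' := fun {a b} ha hb τ g => by
    rw [Pi.mul_apply, Pi.mul_apply, ha τ g, hb τ g, map_mul]
  add_mem' := fun {a b} ha hb τ g => by
    rw [Pi.add_apply, Pi.add_apply, ha τ g, hb τ g, map_add]
  algebraMap_mem' := fun c τ g => by
    rw [Pi.algebraMap_apply, Pi.algebraMap_apply, AlgEquiv.commutes]

theorem mem_coreR_iff (f : (F ≃ₐ[ℚ] F) → PadicAlgCl q) :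
    f ∈ coreR q F ↔ ∀ (τ : PadicAlgCl q ≃ₐ[ℚ_[q]] PadicAlgCl q) (g : F ≃ₐ[ℚ] F),
      f (toLevel q F τ * g) = τ (f g) := Iff.rfl

theorem corePhi_mem (a : ℚ_[q] ⊗[ℚ] F) : corePhi q F a ∈ coreR q F := by
  induction a using TensorProduct.induction_on with
  | zero => rw [map_zero]; exact (coreR q F).zero_mem
  | add a b ha hb => rw [map_add]; exact (coreR q F).add_mem ha hb
  | tmul c x =>
    intro τ g
    rw [corePhi_tmul, corePhi_tmul, map_mul, AlgEquiv.commutes, AlgEquiv.mul_apply,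
      padicEmbedding_toLevel]

/-- The values of an element of `coreR` lie in the local level `F_q = K · ι(F)`. -/
theorem coreR_apply_mem (f : (F ≃ₐ[ℚ] F) → PadicAlgCl q) (hf : f ∈ coreR q F)
    (g : F ≃ₐ[ℚ] F) : f g ∈ localLevel q F := by
  haveI : IsGalois ℚ_[q] (PadicAlgCl q) := IsAlgClosure.isGalois ℚ_[q] (PadicAlgCl q)
  rw [← InfiniteGalois.fixedField_fixingSubgroup (localLevel q F)]
  rintro ⟨τ, hτ⟩
  have h1 : toLevel q F τ = 1 := by
    rw [← MonoidHom.mem_ker, ker_toLevel]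
    exact hτ
  have h2 := hf τ g
  rw [h1, one_mul] at h2
  exact h2.symm

/-- `coreR` is finite-dimensional over `K`, of dimension `≤ [F : ℚ]`
(evaluate at a transversal of the decomposition group; `[F_q : K] = |D_q|` by B11). -/
theorem finite_and_finrank_coreR_le :
    Module.Finite ℚ_[q] (coreR q F) ∧
      Module.finrank ℚ_[q] (coreR q F) ≤ Module.finrank ℚ F := by
  classical
  haveI := finiteDimensional_localLevel q F
  obtain ⟨T, hT, -⟩ := (decompositionAt q F).exists_isComplement_right 1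
  haveI : Finite T := Finite.of_injective (fun t : T => (t : F ≃ₐ[ℚ] F)) Subtype.val_injective
  haveI : Fintype T := Fintype.ofFinite T
  let L : coreR q F →ₗ[ℚ_[q]] (T → localLevel q F) :=
    { toFun := fun f t => ⟨f.1 (t : F ≃ₐ[ℚ] F), coreR_apply_mem q F f.1 f.2 _⟩
      map_add' := fun f f' => rfl
      map_smul' := fun c f => rfl }
  have hL : Function.Injective L := by
    rw [injective_iff_map_eq_zero]
    intro f hf
    apply Subtype.ext
    funext g
    obtain ⟨⟨d, t⟩, hdt, -⟩ := hT.existsUnique g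
    obtain ⟨τ, hτ⟩ := d.2
    have h1 : f.1 (t : F ≃ₐ[ℚ] F) = 0 := by
      have := congrFun hf t
      exact congrArg (fun y : localLevel q F => (y : PadicAlgCl q)) this
    have h2 : g = toLevel q F τ * t := by
      rw [hτ]
      exact hdt.symm
    have h3 := f.2 τ (t : F ≃ₐ[ℚ] F)
    rw [h2, h3, h1, map_zero]
    rfl
  haveI hfin : Module.Finite ℚ_[q] (coreR q F) := Module.Finite.of_injective L hL
  refine ⟨hfin, ?_⟩
  have h1 := LinearMap.finrank_le_finrank_of_injective hL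
  have h2 : Module.finrank ℚ_[q] (T → localLevel q F) =
      Nat.card T * Module.finrank ℚ_[q] (localLevel q F) := by
    rw [Module.finrank_pi_fintype, Finset.sum_const, Finset.card_univ, smul_eq_mul,
      Nat.card_eq_fintype_card]
  have h3 : Nat.card (decompositionAt q F) * Nat.card T = Nat.card (F ≃ₐ[ℚ] F) :=
    hT.card_mul_card
  rw [h2, ← card_decompositionAt q F, mul_comm, h3, IsGalois.card_aut_eq_finrank] at h1
  exact h1

/-- `Φ` with values in `coreR`. -/
def corePhiR : ℚ_[q] ⊗[ℚ] F →ₐ[ℚ_[q]] coreR q F :=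
  (corePhi q F).codRestrict (coreR q F) (corePhi_mem q F)

theorem corePhiR_apply (a : ℚ_[q] ⊗[ℚ] F) : ((corePhiR q F a : coreR q F) :
    (F ≃ₐ[ℚ] F) → PadicAlgCl q) = corePhi q F a := rfl

theorem corePhiR_injective : Function.Injective (corePhiR q F) := fun _ _ h =>
  corePhi_injective q F (congrArg Subtype.val h)

theorem corePhiR_bijective : Function.Bijective (corePhiR q F) := by
  obtain ⟨hfin, hle⟩ := finite_and_finrank_coreR_le q F
  haveI := hfin
  have h1 := LinearMap.finrank_le_finrank_of_injective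
    (f := (corePhiR q F).toLinearMap) (corePhiR_injective q F)
  have h2 : Module.finrank ℚ_[q] (ℚ_[q] ⊗[ℚ] F) = Module.finrank ℚ F :=
    Module.finrank_baseChange
  have h3 : Module.finrank ℚ_[q] (ℚ_[q] ⊗[ℚ] F) = Module.finrank ℚ_[q] (coreR q F) :=
    le_antisymm h1 (h2 ▸ hle)
  exact ⟨corePhiR_injective q F,
    (LinearMap.injective_iff_surjective_of_finrank_eq_finrank
      (f := (corePhiR q F).toLinearMap) h3).1 (corePhiR_injective q F)⟩

/-- **TENS, ring level**: `K ⊗[ℚ] F ≃ₐ[K] {f : Γ → Ω | f (r τ * g) = τ (f g)}`. -/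
def coreEquiv : ℚ_[q] ⊗[ℚ] F ≃ₐ[ℚ_[q]] coreR q F :=
  AlgEquiv.ofBijective (corePhiR q F) (corePhiR_bijective q F)

theorem coreEquiv_apply (a : ℚ_[q] ⊗[ℚ] F) (g : F ≃ₐ[ℚ] F) :
    (coreEquiv q F a : (F ≃ₐ[ℚ] F) → PadicAlgCl q) g = coreEv q F g a := rfl

theorem coreEquiv_tmul (c : ℚ_[q]) (x : F) (g : F ≃ₐ[ℚ] F) :
    (coreEquiv q F (c ⊗ₜ[ℚ] x) : (F ≃ₐ[ℚ] F) → PadicAlgCl q) g =
      algebraMap ℚ_[q] (PadicAlgCl q) c * padicEmbedding q ((g x : F) : AlgebraicClosure ℚ) :=
  rfl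

/-- Equivariance: `Φ((1 ⊗ h) a)(g) = Φ(a)(g h)`. -/
theorem coreEv_map (h g : F ≃ₐ[ℚ] F) (a : ℚ_[q] ⊗[ℚ] F) :
    coreEv q F g (Algebra.TensorProduct.map (AlgHom.id ℚ_[q] ℚ_[q]) (h : F →ₐ[ℚ] F) a) =
      coreEv q F (g * h) a := by
  induction a using TensorProduct.induction_on with
  | zero => simp
  | add a b ha hb => rw [map_add, map_add, ha, hb, map_add]
  | tmul c x =>
    rw [Algebra.TensorProduct.map_tmul, coreEv_tmul, coreEv_tmul]
    rfl

end core

end

end Fermat.Agent.S55.E1.H594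

end
-- ===== PACK-END S55/E1/H594/TensCore.lean

-- ===== PACK-BEGIN S33/H692/OrdAlg.lean
section
/-
Row S33 (ordinary at `p ‖ N`), piece EIG, pure algebra (helper692).

Setting: `ρ : G → End_T V`, `V` free of rank two with basis `b`, `T[G] → End_T V` onto;
`ψ : T → O` a ring homomorphism into a local domain `O` in which `2` is a unit;
`ρM : G → End_O M`, `M` free with finite nonempty basis `c`, such that every `g` satisfies on `M`
the characteristic polynomial of `ρ g` specialised along `ψ` (shape of `S32.RelStatement`);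
`I` a set of elements of `G` (the inertia subgroup), `I_aug M = augSub I ρM`.

* `augSub_sup_ne_top` (residual part): if some functional `l` on `V`, not zero modulo `ψ⁻¹ 𝔪`,
  kills all `σ v - v` (`σ ∈ I`) modulo `ψ⁻¹ 𝔪` (a residual ordinary line), then
  `I_aug M + 𝔪 M ≠ M`.
* `exists_smul_mem_augSub` : if `I_aug (M ⊗ K) = M ⊗ K` then `a M ⊆ I_aug M` for some `a ≠ 0`.
* `ord_identities_of_not_exists` (generic part): if no `a ≠ 0` has `a M ⊆ I_aug M`, then for
  `σ₀, σ ∈ I` and `τ` normalising `I`, with `d₀ = ψ (det ρ σ₀)`: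
  `(ρM σ₀ - d₀)(ρM σ - 1) = 0` and `(ρM σ₀ - d₀) ρM τ (ρM σ₀ - 1) = 0`.
* `ordEig_of_geo` : the two identities from the residual line and the geometric input
  `GEO : a ≠ 0, a M ⊆ I_aug M ⟹ I_aug M + 𝔪 M = M`.
-/



set_option autoImplicit false
set_option linter.unusedSectionVars false

noncomputable section

namespace Fermat.Agent.S33.H692

open Module IsLocalRing Fermat.Agent.S32.H152 Fermat.Agent.Lib.Ribet.H223

section Residual

variable {T : Type*} [CommRing T] {G : Type*} [Group G]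
  {V : Type*} [AddCommGroup V] [Module T V] (b : Module.Basis (Fin 2) T V)
  (ρ : G →* Module.End T V)
  {O : Type*} [CommRing O] [IsLocalRing O] (ψ : T →+* O)
  {M : Type*} [AddCommGroup M] [Module O M] {n : Type*} [Fintype n] [DecidableEq n]
  (c : Module.Basis n O M) (ρM : G →* Module.End O M)

include b c in
/-- **Residual part.**  A residual ordinary line forces `I_aug M + 𝔪 M ≠ M`. -/
theorem augSub_sup_ne_top [Nonempty n] (hspan : Submodule.span T (Set.range ρ) = ⊤)
    (hrel : ∀ g : G, ρM g * ρM g - ψ (LinearMap.trace T V (ρ g)) • ρM g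
      + ψ (LinearMap.det (ρ g)) • (1 : Module.End O M) = 0)
    (h2 : IsUnit (2 : O)) (I : Set G) (l : V →ₗ[T] T) (hl1 : ∃ v, IsUnit (ψ (l v)))
    (hl2 : ∀ σ ∈ I, ∀ v, ψ (l (ρ σ v - v)) ∈ maximalIdeal O) :
    augSub I ρM ⊔ (maximalIdeal O) • (⊤ : Submodule O M) ≠ ⊤ := by
  classical
  set k := ResidueField O with hk
  set ι : O →+* k := residue O with hι
  set f : T →+* k := ι.comp ψ with hf
  have h2F : (2 : k) ≠ 0 := by
    have h := (residue_ne_zero_iff_isUnit (2 : O)).mpr h2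
    rwa [map_ofNat] at h
  obtain ⟨Ψ, hΨ⟩ := exists_spec_algHom b ρ ψ c ρM ι hspan hrel h2F
  -- the functional
  set Λ : (Fin 2 → k) →ₗ[k] k := ∑ i, f (l (b i)) • LinearMap.proj i with hΛ
  have hΛapp : ∀ x : Fin 2 → k, Λ x = ∑ i, f (l (b i)) * x i := by
    intro x
    simp [hΛ]
  have hΛcoord : ∀ v : V, Λ (embCoord f b v) = f (l v) := by
    intro v
    rw [hΛapp]
    conv_rhs => rw [← b.sum_repr v]
    simp only [map_sum, map_smul, smul_eq_mul, map_mul, embCoord_apply]
    exact Finset.sum_congr rfl fun i _ => mul_comm _ _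
  have hfin2 : Module.finrank k (Fin 2 → k) = 2 := by simp
  have hL : LinearMap.ker Λ ≠ ⊤ := by
    obtain ⟨v, hv⟩ := hl1
    intro htop
    have h0 : Λ (embCoord f b v) = 0 := by
      have : embCoord f b v ∈ LinearMap.ker Λ := by
        rw [htop]
        exact Submodule.mem_top
      exact LinearMap.mem_ker.mp this
    rw [hΛcoord] at h0
    exact (residue_ne_zero_iff_isUnit _).mpr hv h0
  have hI : ∀ σ ∈ I, ∀ x, specRep f b ρ σ x - x ∈ LinearMap.ker Λ := by
    intro σ hσ x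
    have hz : Λ ∘ₗ (specRep f b ρ σ - 1) = 0 := by
      refine (Pi.basisFun k (Fin 2)).ext fun i => ?_
      rw [Pi.basisFun_apply, ← embCoord_basis f b i, LinearMap.comp_apply, LinearMap.sub_apply,
        Module.End.one_apply, specRep_apply, embEnd_coord, ← map_sub, hΛcoord,
        LinearMap.zero_apply]
      exact (residue_eq_zero_iff _).mpr (hl2 σ hσ (b i))
    have := congrArg (fun E : (Fin 2 → k) →ₗ[k] k => E x) hz
    rw [LinearMap.mem_ker]
    simpa only [LinearMap.comp_apply, LinearMap.sub_apply, Module.End.one_apply,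
      LinearMap.zero_apply] using this
  have hne := augSub_ne_top_of_line hfin2 (specRep f b ρ) (specRep ι c ρM) Ψ hΨ I
    (LinearMap.ker Λ) hL hI
  intro htop
  apply hne
  rw [eq_top_iff]
  intro x _
  obtain ⟨m, rfl⟩ := exists_embCoord_eq ι c x fun j => residue_surjective (x j)
  have hm : m ∈ augSub I ρM ⊔ (maximalIdeal O) • (⊤ : Submodule O M) := by
    rw [htop]
    exact Submodule.mem_top
  obtain ⟨y, hy, z, hz, rfl⟩ := Submodule.mem_sup.mp hm
  have hz0 : embCoord ι c z = 0 := by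
    funext j
    rw [embCoord_apply]
    exact (residue_eq_zero_iff _).mpr (embCoord_repr_mem c _ hz j)
  rw [map_add, hz0, add_zero]
  exact embCoord_mem_augSub ι c ρM I hy

end Residual

section Generic

variable {T : Type*} [CommRing T] {G : Type*} [Group G]
  {V : Type*} [AddCommGroup V] [Module T V] (b : Module.Basis (Fin 2) T V)
  (ρ : G →* Module.End T V)
  {O : Type*} [CommRing O] [IsDomain O] (ψ : T →+* O)
  {M : Type*} [AddCommGroup M] [Module O M] {n : Type*} [Fintype n] [DecidableEq n]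
  (c : Module.Basis n O M) (ρM : G →* Module.End O M)
  (K : Type*) [Field K] [Algebra O K] [IsFractionRing O K]

/-- Clearing denominators in `I_aug`. -/
theorem exists_embCoord_eq_smul (I : Set G) {y : n → K}
    (hy : y ∈ augSub I (specRep (algebraMap O K) c ρM)) :
    ∃ a : O, a ≠ 0 ∧ ∃ m ∈ augSub I ρM, embCoord (algebraMap O K) c m = algebraMap O K a • y := by
  classical
  set ι : O →+* K := algebraMap O K with hι
  induction hy using Submodule.span_induction with
  | mem y hy =>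
    obtain ⟨σ, hσ, x, rfl⟩ := hy
    obtain ⟨a, ha⟩ := IsLocalization.exist_integer_multiples_of_finite (nonZeroDivisors O) x
    have hx : ∀ j, ∃ r : O, ι r = (ι a • x) j := by
      intro j
      obtain ⟨r, hr⟩ := ha j
      refine ⟨r, ?_⟩
      rw [hr, Pi.smul_apply, Algebra.smul_def, smul_eq_mul]
    obtain ⟨x', hx'⟩ := exists_embCoord_eq ι c (ι a • x) hx
    refine ⟨a, nonZeroDivisors.ne_zero a.2, ρM σ x' - x', sub_mem_augSub ρM hσ x', ?_⟩
    rw [map_sub, ← embEnd_coord, hx', ← specRep_apply, map_smul, smul_sub]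
  | zero =>
    exact ⟨1, one_ne_zero, 0, zero_mem _, by rw [map_zero, smul_zero]⟩
  | add y₁ y₂ _ _ h₁ h₂ =>
    obtain ⟨a₁, ha₁, m₁, hm₁, e₁⟩ := h₁
    obtain ⟨a₂, ha₂, m₂, hm₂, e₂⟩ := h₂
    refine ⟨a₁ * a₂, mul_ne_zero ha₁ ha₂, a₂ • m₁ + a₁ • m₂,
      add_mem (Submodule.smul_mem _ _ hm₁) (Submodule.smul_mem _ _ hm₂), ?_⟩
    rw [map_add, embCoord_smul, embCoord_smul, e₁, e₂, smul_add, smul_smul, smul_smul, map_mul,
      mul_comm (ι a₂) (ι a₁)]
  | smul r y _ h =>
    obtain ⟨a, ha, m, hm, e⟩ := h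
    obtain ⟨s, t, ht, rfl⟩ := IsFractionRing.div_surjective (A := O) r
    have ht0 : t ≠ 0 := nonZeroDivisors.ne_zero ht
    have hιt : ι t ≠ 0 := by
      intro h0
      apply ht0
      apply IsFractionRing.injective O K
      rw [map_zero]
      exact h0
    refine ⟨t * a, mul_ne_zero ht0 ha, s • m, Submodule.smul_mem _ _ hm, ?_⟩
    have hcalc : ι s * ι a = ι t * ι a * (ι s / ι t) := by
      field_simp
    rw [embCoord_smul, e, smul_smul, smul_smul, map_mul]
    exact congrArg (fun r : K => r • y) hcalc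

/-- If `I_aug (M ⊗ K) = M ⊗ K` then `a M ⊆ I_aug M` for some `a ≠ 0`. -/
theorem exists_smul_mem_augSub (I : Set G)
    (h : augSub I (specRep (algebraMap O K) c ρM) = ⊤) :
    ∃ a : O, a ≠ 0 ∧ ∀ x : M, a • x ∈ augSub I ρM := by
  classical
  set ι : O →+* K := algebraMap O K with hι
  have hιinj : Function.Injective ι := IsFractionRing.injective O K
  have hj : ∀ j : n, ∃ a : O, a ≠ 0 ∧ a • c j ∈ augSub I ρM := by
    intro j
    have hmem : embCoord ι c (c j) ∈ augSub I (specRep ι c ρM) := by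
      rw [h]
      exact Submodule.mem_top
    obtain ⟨a, ha, m, hm, e⟩ := exists_embCoord_eq_smul c ρM K I hmem
    refine ⟨a, ha, ?_⟩
    have : m = a • c j := by
      apply embCoord_injective ι c hιinj
      rw [e, embCoord_smul]
    rw [← this]
    exact hm
  choose a ha0 ha using hj
  refine ⟨∏ j, a j, Finset.prod_ne_zero_iff.mpr fun j _ => ha0 j, fun x => ?_⟩
  rw [← c.sum_repr x, Finset.smul_sum]
  refine Submodule.sum_mem _ fun j _ => ?_
  have e : (∏ i, a i) • c.repr x j • c j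
      = (c.repr x j * ∏ i ∈ Finset.univ.erase j, a i) • (a j • c j) := by
    rw [smul_smul, smul_smul, ← Finset.mul_prod_erase Finset.univ a (Finset.mem_univ j)]
    congr 1
    ring
  rw [e]
  exact Submodule.smul_mem _ _ (ha j)

include b c K in
/-- **Generic part.** -/
theorem ord_identities_of_not_exists (hspan : Submodule.span T (Set.range ρ) = ⊤)
    (hrel : ∀ g : G, ρM g * ρM g - ψ (LinearMap.trace T V (ρ g)) • ρM g
      + ψ (LinearMap.det (ρ g)) • (1 : Module.End O M) = 0)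
    (h2 : (2 : O) ≠ 0) (I : Set G)
    (hno : ¬ ∃ a : O, a ≠ 0 ∧ ∀ x : M, a • x ∈ augSub I ρM)
    {σ₀ σ τ : G} (hσ₀ : σ₀ ∈ I) (hσ : σ ∈ I) (hτ : ∀ s ∈ I, τ * s * τ⁻¹ ∈ I) :
    (ρM σ₀ - ψ (LinearMap.det (ρ σ₀)) • (1 : Module.End O M)) * (ρM σ - 1) = 0 ∧
    (ρM σ₀ - ψ (LinearMap.det (ρ σ₀)) • (1 : Module.End O M)) * ρM τ * (ρM σ₀ - 1) = 0 := by
  classical
  set ι : O →+* K := algebraMap O K with hι
  have hιinj : Function.Injective ι := IsFractionRing.injective O K
  set f : T →+* K := ι.comp ψ with hf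
  have h2K : (2 : K) ≠ 0 := by
    intro h0
    apply h2
    apply hιinj
    rw [map_zero, map_ofNat]
    exact h0
  obtain ⟨Ψ, hΨ⟩ := exists_spec_algHom b ρ ψ c ρM ι hspan hrel h2K
  have hfin2 : Module.finrank K (Fin 2 → K) = 2 := by simp
  have hneM : augSub I (specRep ι c ρM) ≠ ⊤ := fun h => hno (exists_smul_mem_augSub c ρM K I h)
  have hneW : augSub I (specRep f b ρ) ≠ ⊤ := fun h =>
    hneM (augSub_eq_top_of_algHom (specRep f b ρ) (specRep ι c ρM) Ψ hΨ I h)
  have hdet : LinearMap.det (specRep f b ρ σ₀) = ι (ψ (LinearMap.det (ρ σ₀))) := by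
    rw [specRep_apply, embEnd_det]
    rfl
  have hinj := embEnd_injective ι c hιinj
  constructor
  · have h := ord_identity_two hfin2 (specRep f b ρ) I hneW hσ₀ hσ
    have h' := congrArg Ψ h
    rw [map_mul, map_sub, map_sub, map_smul, map_one, hΨ, hΨ, map_zero, hdet] at h'
    apply hinj
    rw [map_zero, map_mul, map_sub, map_sub, embEnd_smul, map_one]
    exact h'
  · have h := ord_identity_three hfin2 (specRep f b ρ) I hneW hσ₀ hτ
    have h' := congrArg Ψ h
    rw [map_mul, map_mul, map_sub, map_sub, map_smul, map_one, hΨ, hΨ, map_zero, hdet] at h'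
    apply hinj
    rw [map_zero, map_mul, map_mul, map_sub, map_sub, embEnd_smul, map_one]
    exact h'

end Generic

section Main

variable {T : Type*} [CommRing T] {G : Type*} [Group G]
  {V : Type*} [AddCommGroup V] [Module T V] (b : Module.Basis (Fin 2) T V)
  (ρ : G →* Module.End T V)
  {O : Type*} [CommRing O] [IsDomain O] [IsLocalRing O] (ψ : T →+* O)
  {M : Type*} [AddCommGroup M] [Module O M] {n : Type*} [Fintype n] [DecidableEq n]
  (c : Module.Basis n O M) (ρM : G →* Module.End O M)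

include b c in
/-- **EIG, pure algebra.**  The identities (O2), (O3) on `M` from a residual ordinary line and the
geometric input `GEO`. -/
theorem ordEig_of_geo [Nonempty n] (hspan : Submodule.span T (Set.range ρ) = ⊤)
    (hrel : ∀ g : G, ρM g * ρM g - ψ (LinearMap.trace T V (ρ g)) • ρM g
      + ψ (LinearMap.det (ρ g)) • (1 : Module.End O M) = 0)
    (h2 : IsUnit (2 : O)) (I : Set G) (l : V →ₗ[T] T) (hl1 : ∃ v, IsUnit (ψ (l v)))
    (hl2 : ∀ σ ∈ I, ∀ v, ψ (l (ρ σ v - v)) ∈ maximalIdeal O)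
    (hgeo : ∀ a : O, a ≠ 0 → (∀ x : M, a • x ∈ augSub I ρM) →
      augSub I ρM ⊔ (maximalIdeal O) • (⊤ : Submodule O M) = ⊤)
    {σ₀ σ τ : G} (hσ₀ : σ₀ ∈ I) (hσ : σ ∈ I) (hτ : ∀ s ∈ I, τ * s * τ⁻¹ ∈ I) :
    (ρM σ₀ - ψ (LinearMap.det (ρ σ₀)) • (1 : Module.End O M)) * (ρM σ - 1) = 0 ∧
    (ρM σ₀ - ψ (LinearMap.det (ρ σ₀)) • (1 : Module.End O M)) * ρM τ * (ρM σ₀ - 1) = 0 := by
  have hres := augSub_sup_ne_top b ρ ψ c ρM hspan hrel h2 I l hl1 hl2
  refine ord_identities_of_not_exists b ρ ψ c ρM (FractionRing O) hspan hrel h2.ne_zero I ?_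
    hσ₀ hσ hτ
  rintro ⟨a, ha, hax⟩
  exact hres (hgeo a ha hax)

end Main

end Fermat.Agent.S33.H692

end
end
-- ===== PACK-END S33/H692/OrdAlg.lean

-- ===== PACK-BEGIN S33/H692/OrdAlgGal.lean
section
/-
Row S33 (ordinary at `p ‖ N`), piece EIG, pure algebra: Galois form (helper692).

`ordEig_galois` : for `ρ : GaloisRepAdic T` with `T[G_ℚ] → End_T V` onto and residually ordinary
at `p`, a local point `ψ : T → O'` (`O'` a local domain, `2` a unit), and a nonzero finite free
`O'`-module `M` with Galois action satisfying the quadratic relations of `ρ` along `ψ`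
(`S32.RelStatement` shape): if for a place `P | p` with inertia group `I`
    GEO :  `a ≠ 0`, `a M ⊆ I_aug M`  ⟹  `I_aug M + 𝔪 M = M`
then for all `σ₀, σ ∈ I`, `τ ∈ D_P`, with `d₀ = ψ (det ρ σ₀)`,
    (O2) `(ρM σ₀ - d₀)(ρM σ - 1) = 0`,   (O3) `(ρM σ₀ - d₀) ρM τ (ρM σ₀ - 1) = 0`.
-/




set_option autoImplicit false

noncomputable section

namespace Fermat.Agent.S33.H692

open Module IsLocalRing TensorProduct

/-- The absolute Galois group of `ℚ`. -/
abbrev GQ : Type := AlgebraicClosure ℚ ≃ₐ[ℚ] AlgebraicClosure ℚ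

/-- The decomposition group normalises the inertia group. -/
theorem conj_mem_inertiaIn {K L : Type*} [Field K] [Field L] [Algebra K L]
    (P : ValuationSubring L) {τ σ : L ≃ₐ[K] L}
    (hτ : τ ∈ P.decompositionSubgroup K) (hσ : σ ∈ P.inertiaSubgroupIn K) :
    τ * σ * τ⁻¹ ∈ P.inertiaSubgroupIn K := by
  obtain ⟨t, ht, rfl⟩ := hσ
  let d : P.decompositionSubgroup K := ⟨τ, hτ⟩
  have hn : (P.inertiaSubgroup K).Normal := MonoidHom.normal_ker _
  exact ⟨d * t * d⁻¹, hn.conj_mem t ht d, rfl⟩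

section Residual

variable {T : Type} [CommRing T] [IsLocalRing T] (ρ : GaloisRepAdic T)

/-- A residual ordinary line gives a functional on `V`, nonzero modulo `𝔪`, which kills
`σ v - v` modulo `𝔪` for all `σ` in the inertia group. -/
theorem exists_functional_of_residual_line (I : Set GQ)
    (L : Submodule (ResidueField T) (ResidueField T ⊗[T] ρ.V))
    (hL : ∃ b : Module.Basis (Fin 2) (ResidueField T) (ResidueField T ⊗[T] ρ.V),
      L = (ResidueField T) ∙ b 0)
    (hI : ∀ σ ∈ I, ∀ v : ResidueField T ⊗[T] ρ.V,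
      (ρ.ρ σ).baseChange (ResidueField T) v - v ∈ L) :
    ∃ l : ρ.V →ₗ[T] T, (∃ v, IsUnit (l v)) ∧
      ∀ σ ∈ I, ∀ v, l (ρ.ρ σ v - v) ∈ maximalIdeal T := by
  obtain ⟨b', rfl⟩ := hL
  -- the functional on the residual space
  let l' : (ResidueField T ⊗[T] ρ.V) →ₗ[ResidueField T] ResidueField T := b'.coord 1
  have hl'L : ∀ x ∈ (ResidueField T) ∙ b' 0, l' x = 0 := by
    intro x hx
    obtain ⟨c, rfl⟩ := Submodule.mem_span_singleton.mp hx
    show b'.coord 1 (c • b' 0) = 0
    rw [map_smul, Module.Basis.coord_apply, Module.Basis.repr_self, Finsupp.single_apply,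
      if_neg (by decide), smul_zero]
  have hl'1 : l' (b' 1) = 1 := by
    show b'.coord 1 (b' 1) = 1
    rw [Module.Basis.coord_apply, Module.Basis.repr_self, Finsupp.single_apply, if_pos rfl]
  let g : ρ.V →ₗ[T] ResidueField T :=
    (l'.restrictScalars T).comp (TensorProduct.mk T (ResidueField T) ρ.V 1)
  have hg : ∀ v, g v = l' ((1 : ResidueField T) ⊗ₜ[T] v) := fun v => rfl
  let f : T →ₗ[T] ResidueField T := Algebra.linearMap T (ResidueField T)
  have hf : ∀ t, f t = residue T t := fun t => rfl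
  have hfsurj : Function.Surjective f := residue_surjective
  obtain ⟨l, hl⟩ := Module.projective_lifting_property f g hfsurj
  have hlv : ∀ v, residue T (l v) = l' ((1 : ResidueField T) ⊗ₜ[T] v) := by
    intro v
    rw [← hg, ← hl]
    rfl
  refine ⟨l, ?_, ?_⟩
  · by_contra hcon
    push Not at hcon
    have h0 : ∀ x : ResidueField T ⊗[T] ρ.V, l' x = 0 := by
      intro x
      induction x using TensorProduct.induction_on with
      | zero => rw [map_zero]
      | tmul c v =>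
        have e : c ⊗ₜ[T] v = c • ((1 : ResidueField T) ⊗ₜ[T] v) := by
          rw [TensorProduct.smul_tmul', smul_eq_mul, mul_one]
        rw [e, map_smul, ← hlv, (residue_eq_zero_iff _).mpr ((mem_maximalIdeal _).mpr (hcon v)),
          smul_zero]
      | add x y hx hy => rw [map_add, hx, hy, add_zero]
    have := h0 (b' 1)
    rw [hl'1] at this
    exact one_ne_zero this
  · intro σ hσ v
    rw [← residue_eq_zero_iff, hlv]
    have h1 := hI σ hσ ((1 : ResidueField T) ⊗ₜ[T] v)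
    rw [LinearMap.baseChange_tmul, ← TensorProduct.tmul_sub] at h1
    exact hl'L _ h1

end Residual

section Main

variable {T : Type} [CommRing T] [IsLocalRing T] (ρ : GaloisRepAdic T)
  {O : Type} [CommRing O] [IsDomain O] [IsLocalRing O] (ψ : T →+* O)
  {M : Type} [AddCommGroup M] [Module O M] [Module.Free O M] [Module.Finite O M] [Nontrivial M]
  (ρM : GQ →* Module.End O M)

/-- **EIG, pure algebra, Galois form.** -/
theorem ordEig_galois (hspan : Submodule.span T (Set.range ρ.ρ) = ⊤) (hψ : IsLocalHom ψ)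
    (h2 : IsUnit (2 : O))
    (hrel : ∀ g : GQ, ρM g * ρM g - ψ (ρ.trace g) • ρM g
      + ψ ((ρ.det g : Tˣ) : T) • (1 : Module.End O M) = 0)
    {p : ℕ} (hres : (GaloisRepAdic.ofResidualGaloisRep ρ.residual).IsOrdinaryAt p)
    (P : ValuationSubring (AlgebraicClosure ℚ)) (hP : P.LiesOverPrime p)
    (hgeo : ∀ a : O, a ≠ 0 →
      (∀ x : M, a • x ∈ augSub (↑(P.inertiaSubgroupIn ℚ) : Set GQ) ρM) →
      augSub (↑(P.inertiaSubgroupIn ℚ) : Set GQ) ρM ⊔
        (maximalIdeal O) • (⊤ : Submodule O M) = ⊤)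
    {σ₀ σ τ : GQ} (hσ₀ : σ₀ ∈ P.inertiaSubgroupIn ℚ) (hσ : σ ∈ P.inertiaSubgroupIn ℚ)
    (hτ : τ ∈ P.decompositionSubgroup ℚ) :
    (ρM σ₀ - ψ ((ρ.det σ₀ : Tˣ) : T) • (1 : Module.End O M)) * (ρM σ - 1) = 0 ∧
    (ρM σ₀ - ψ ((ρ.det σ₀ : Tˣ) : T) • (1 : Module.End O M)) * ρM τ * (ρM σ₀ - 1) = 0 := by
  classical
  obtain ⟨L, hLb, -, hLI⟩ := hres P hP
  obtain ⟨l, ⟨v, hv⟩, hl2⟩ := exists_functional_of_residual_line ρ
    (↑(P.inertiaSubgroupIn ℚ) : Set GQ) L hLb hLI
  let b : Module.Basis (Fin 2) T ρ.V := Module.finBasisOfFinrankEq T ρ.V ρ.finrank_eq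
  let c := Module.Free.chooseBasis O M
  have hne : Nonempty (Module.Free.ChooseBasisIndex O M) := by
    by_contra hne
    rw [not_nonempty_iff] at hne
    obtain ⟨x, y, hxy⟩ := exists_pair_ne M
    apply hxy
    apply c.repr.injective
    ext j
    exact (hne.false j).elim
  exact ordEig_of_geo b ρ.ρ ψ c ρM hspan hrel h2 (↑(P.inertiaSubgroupIn ℚ) : Set GQ) l
    ⟨v, hv.map ψ⟩ (fun s hs w => (mem_maximalIdeal _).mpr (map_nonunit ψ _ (hl2 s hs w)))
    hgeo hσ₀ hσ (fun s hs => conj_mem_inertiaIn P hτ hs)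

end Main

end Fermat.Agent.S33.H692

end
end
-- ===== PACK-END S33/H692/OrdAlgGal.lean

-- ===== PACK-BEGIN S59/TW/Aut/H673/FrontEv.lean
section


/-!
# S59 / cell TW, AUT leaf CMP, part (R), FRONT — the point on `T ⊗ 𝒪[G]`  (helper673)

`front_abs_ev` : same hypotheses as `front_abs`; the conclusion exports the `𝒪`-algebra
homomorphism `ev : T ⊗_𝒪 𝒪[G] → 𝒪'` itself, with `ev b = 0` for EVERY `b` acting by zero on `V`
(so that any polynomial relation between the operators on `V`, in any presentation, holds for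
the values of `ev`).
-/

set_option autoImplicit false
set_option linter.style.haveILetI false
set_option linter.unusedSectionVars false

open IsLocalRing
open scoped TensorProduct

namespace Fermat.Agent.S59.TW.Aut.H673

theorem front_abs_ev
    (𝒪 : Type) [CommRing 𝒪] [IsDomain 𝒪] [IsDiscreteValuationRing 𝒪]
    [IsAdicComplete (maximalIdeal 𝒪) 𝒪] [Finite (ResidueField 𝒪)] [CharZero 𝒪]
    (T : Type) [CommRing T] [IsLocalRing T] [Algebra 𝒪 T] [Module.Finite 𝒪 T]
    (G : Type) [CommGroup G] [Finite G]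
    (V : Type) [AddCommGroup V] [Module 𝒪 V]
    (htf : ∀ (c : 𝒪) (v : V), c • v = 0 → c = 0 ∨ v = 0)
    (a : T →ₐ[𝒪] Module.End 𝒪 V) (d : G →* Module.End 𝒪 V)
    (hcomm : ∀ s g, Commute (a s) (d g))
    (y : V) (hy : y ≠ 0) (hprime : ∀ s t : T, a (s * t) y = 0 → a s y = 0 ∨ a t y = 0)
    (g₀ : G) (n : ℕ) (hΦ : (∑ k ∈ Finset.range n, d g₀ ^ k) y = 0) :
    ∃ (𝒪' : Type) (_ : CommRing 𝒪') (_ : IsDomain 𝒪') (_ : IsDiscreteValuationRing 𝒪')
      (_ : IsAdicComplete (maximalIdeal 𝒪') 𝒪') (_ : Finite (ResidueField 𝒪')) (_ : CharZero 𝒪')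
      (_ : Algebra 𝒪 𝒪') (ev : T ⊗[𝒪] MonoidAlgebra 𝒪 G →ₐ[𝒪] 𝒪'),
      IsLocalHom (algebraMap 𝒪 𝒪') ∧ Function.Injective (algebraMap 𝒪 𝒪') ∧
      IsLocalHom (ev.comp
        (Algebra.TensorProduct.includeLeft : T →ₐ[𝒪] T ⊗[𝒪] MonoidAlgebra 𝒪 G)).toRingHom ∧
      (∀ s : T, ev (s ⊗ₜ[𝒪] (1 : MonoidAlgebra 𝒪 G)) = 0 ↔ a s y = 0) ∧
      (∑ k ∈ Finset.range n, ev ((1 : T) ⊗ₜ[𝒪] MonoidAlgebra.of 𝒪 G g₀) ^ k = 0) ∧
      ∀ b : T ⊗[𝒪] MonoidAlgebra 𝒪 G, thetaH673 a d hcomm b = 0 → ev b = 0 := by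
  classical
  haveI : Fintype G := Fintype.ofFinite G
  haveI : Module.Finite 𝒪 (T ⊗[𝒪] MonoidAlgebra 𝒪 G) := inferInstance
  haveI : IsNoetherianRing (T ⊗[𝒪] MonoidAlgebra 𝒪 G) :=
    IsNoetherianRing.of_finite 𝒪 _
  haveI : Algebra.IsIntegral 𝒪 T := Algebra.IsIntegral.of_finite 𝒪 T
  set Θ := thetaH673 a d hcomm with hΘ
  letI : Module (T ⊗[𝒪] MonoidAlgebra 𝒪 G) V := Module.compHom V Θ.toRingHom
  have hsmul : ∀ (b : T ⊗[𝒪] MonoidAlgebra 𝒪 G) (v : V), b • v = Θ b v := fun _ _ => rfl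
  haveI : IsScalarTower 𝒪 (T ⊗[𝒪] MonoidAlgebra 𝒪 G) V := ⟨fun c b v => by
    rw [hsmul, hsmul, map_smul, LinearMap.smul_apply]⟩
  -- the elements killing `y`
  set z₀ : T ⊗[𝒪] MonoidAlgebra 𝒪 G :=
    ∑ k ∈ Finset.range n, ((1 : T) ⊗ₜ[𝒪] MonoidAlgebra.of 𝒪 G g₀) ^ k with hz₀
  have hΘz₀ : Θ z₀ = ∑ k ∈ Finset.range n, d g₀ ^ k := by
    rw [hz₀, map_sum]
    refine Finset.sum_congr rfl fun k _ => ?_
    rw [map_pow, thetaH673_right]
  obtain ⟨𝔔, h𝔔p, hZ𝔔, h𝔔T, h𝔔𝒪⟩ := exists_prime_over_ann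
    (Algebra.TensorProduct.includeLeft : T →ₐ[𝒪] T ⊗[𝒪] MonoidAlgebra 𝒪 G) htf y hy
    (fun s t hst => by
      rw [hsmul, thetaH673_left] at hst
      rw [hsmul, hsmul, thetaH673_left, thetaH673_left]
      exact hprime s t hst)
    ({b | Θ b = 0} ∪ {z₀})
    (fun z hz => by
      rcases hz with hz | hz
      · rw [hsmul, (hz : Θ z = 0), LinearMap.zero_apply]
      · rw [Set.mem_singleton_iff.mp hz, hsmul, hΘz₀]
        exact hΦ)
  haveI := h𝔔p
  obtain ⟨𝒪', i1, i2, i3, i4, i5, i6, i7, ev, hloc, hinj, hev⟩ :=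
    exists_dvr_point 𝒪 (T ⊗[𝒪] MonoidAlgebra 𝒪 G) 𝔔 h𝔔𝒪
  refine ⟨𝒪', i1, i2, i3, i4, i5, i6, i7, ev, hloc, hinj, ?_, ?_, ?_, ?_⟩
  · haveI := hloc
    exact isLocalHom_of_integral_h673 𝒪 T 𝒪'
      (ev.comp (Algebra.TensorProduct.includeLeft :
        T →ₐ[𝒪] T ⊗[𝒪] MonoidAlgebra 𝒪 G)).toRingHom
      (fun c => (ev.comp (Algebra.TensorProduct.includeLeft :
        T →ₐ[𝒪] T ⊗[𝒪] MonoidAlgebra 𝒪 G)).commutes c)
  · intro s
    rw [hev, ← Algebra.TensorProduct.includeLeft_apply (R := 𝒪) (S := 𝒪), h𝔔T, hsmul,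
      thetaH673_left]
  · have h1 : ev z₀ = 0 := (hev z₀).mpr (hZ𝔔 (Or.inr rfl))
    rw [hz₀, map_sum] at h1
    rw [← h1]
    refine Finset.sum_congr rfl fun k _ => ?_
    rw [map_pow]
  · intro b hb
    exact (hev b).mpr (hZ𝔔 (Or.inl hb))

end Fermat.Agent.S59.TW.Aut.H673

end
-- ===== PACK-END S59/TW/Aut/H673/FrontEv.lean

-- ===== PACK-BEGIN S59/NMP/H590/EigAlg.lean
section
/-
Row S59, cell NMP, leaf LGC (Eichler–Shimura at `p`), piece EIG — pure algebra (helper590).

`M` a module over a local domain `O` with an action `ρM` of a group `G`, `I ⊆ G` (the inertia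
group), `φ ∈ G` (a Frobenius element), `F = ρM φ`, `I_aug M = S33.H692.augSub I ρM`.

* `esEnd F a p = F² - a F + p` (the Eichler–Shimura operator for the eigenvalue `a` of `T_p`).
* `smul_frob_sub_mem_augSub` (FROB): if `F` satisfies `(X - α)(X - β)` and `ρM (φ τ)` satisfies
  `(X - α)(X - β δ)` for some `τ ∈ I`, then `β (δ - 1) (F - α) M ⊆ I_aug M`.
  (No Boston–Lenstra–Ribet: only the quadratic relations of two Frobenius elements.)
* `root_of_geoRel` (ROOT): if
    - `I_aug M + 𝔪 M ≠ M`                                   (residual ordinary line),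
    - GEO-REL: `c ≠ 0`, `c M ⊆ I_aug M + (F² - a F + p) M`  ⟹  `I_aug M + 𝔪 M = M`,
    - `b (F - α) M ⊆ I_aug M` for some `b ≠ 0`,
  then `α² - a α + p = 0`.
-/



set_option autoImplicit false

noncomputable section

namespace Fermat.Agent.S59.NMP.H590

open Module IsLocalRing Fermat.Agent.S33.H692

section Defs

variable {O : Type*} [CommRing O] {M : Type*} [AddCommGroup M] [Module O M]

/-- The Eichler–Shimura operator `F² - a F + p`. -/
def esEnd (F : Module.End O M) (a : O) (p : ℕ) : Module.End O M :=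
  F * F - a • F + (p : O) • (1 : Module.End O M)

theorem esEnd_apply (F : Module.End O M) (a : O) (p : ℕ) (x : M) :
    esEnd F a p x = F (F x) - a • F x + (p : O) • x := rfl

/-- `(α² - a α + p) x = (F² - a F + p) x - (F - α) (F x + α x - a x)`. -/
theorem root_smul_eq (F : Module.End O M) (a α : O) (p : ℕ) (x : M) :
    (α ^ 2 - a * α + (p : O)) • x =
      esEnd F a p x - (F (F x + α • x - a • x) - α • (F x + α • x - a • x)) := by
  rw [esEnd_apply]
  simp only [map_add, map_sub, map_smul, smul_add, smul_sub, add_smul, sub_smul, smul_smul]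
  have e1 : α ^ 2 = α * α := sq α
  rw [e1, mul_comm a α]
  abel

end Defs

section Frob

variable {O : Type*} [CommRing O] {M : Type*} [AddCommGroup M] [Module O M]
  {G : Type*} [Group G] (ρM : G →* Module.End O M)

/-- **FROB.**  Let `I` be a subgroup normalised by `φ`, `τ ∈ I`.  If `ρM φ` satisfies
`X² - (α + β) X + α β` and `ρM (φ τ)` satisfies `X² - (α + β δ) X + α β δ`, then
`β (δ - 1) (ρM φ x - α x) ∈ I_aug M` for all `x`. -/
theorem smul_frob_sub_mem_augSub (I : Subgroup G) {φ τ : G} (hτ : τ ∈ I)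
    (hφ : ∀ s ∈ I, φ * s * φ⁻¹ ∈ I) (α β δ : O)
    (h1 : ρM φ * ρM φ - (α + β) • ρM φ + (α * β) • (1 : Module.End O M) = 0)
    (h2 : ρM (φ * τ) * ρM (φ * τ) - (α + β * δ) • ρM (φ * τ)
      + (α * β * δ) • (1 : Module.End O M) = 0) (x : M) :
    (β * (δ - 1)) • (ρM φ x - α • x) ∈ augSub (I : Set G) ρM := by
  set A := augSub (I : Set G) ρM with hA
  set F := ρM φ with hF
  set t := ρM τ with ht
  have hFA : ∀ y ∈ A, F y ∈ A := fun y hy =>
    map_mem_augSub ρM (τ := φ) (fun s hs => hφ s hs) hy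
  have htA : ∀ y : M, t y - y ∈ A := fun y => sub_mem_augSub ρM hτ y
  have hFt : ρM (φ * τ) = F * t := map_mul ρM φ τ
  -- `F t y ≡ F y`
  have hcong : ∀ y : M, F (t y) - F y ∈ A := by
    intro y
    rw [← map_sub]
    exact hFA _ (htA y)
  have e1 := congrArg (fun E : Module.End O M => E x) h1
  have e2 := congrArg (fun E : Module.End O M => E x) h2
  simp only [LinearMap.add_apply, LinearMap.sub_apply, LinearMap.smul_apply,
    Module.End.mul_apply, Module.End.one_apply, LinearMap.zero_apply] at e1 e2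
  rw [hFt] at e2
  simp only [Module.End.mul_apply] at e2
  -- the difference of the two relations, up to elements of `A`
  have hkey : (β * (δ - 1)) • (F x - α • x) =
      (F (t (F (t x))) - F (F x)) - (α + β * δ) • (F (t x) - F x) := by
    have h3 : F (t (F (t x))) = (α + β * δ) • F (t x) - (α * β * δ) • x := by
      rw [eq_sub_iff_add_eq, ← sub_eq_zero]
      rw [← e2]
      abel
    have h4 : F (F x) = (α + β) • F x - (α * β) • x := by
      rw [eq_sub_iff_add_eq, ← sub_eq_zero]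
      rw [← e1]
      abel
    rw [h3, h4]
    module
  rw [hkey]
  refine Submodule.sub_mem _ ?_ (Submodule.smul_mem _ _ (hcong x))
  -- `F t F t x - F F x = (F t (F t x) - F (F t x)) + F (F t x - F x)`
  have : F (t (F (t x))) - F (F x) = (F (t (F (t x))) - F (F (t x))) + F (F (t x) - F x) := by
    rw [map_sub]
    abel
  rw [this]
  exact Submodule.add_mem _ (hcong _) (hFA _ (hcong x))

end Frob

section Root

variable {O : Type*} [CommRing O] [IsDomain O] [IsLocalRing O]
  {M : Type*} [AddCommGroup M] [Module O M] {G : Type*} [Group G] (ρM : G →* Module.End O M)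

/-- **ROOT.**  The unramified Frobenius eigenvalue `α` is a root of `X² - a X + p`. -/
theorem root_of_geoRel (I : Set G) (φ : G) (a α : O) (p : ℕ)
    (hne : augSub I ρM ⊔ (maximalIdeal O) • (⊤ : Submodule O M) ≠ ⊤)
    (hgeo : ∀ c : O, c ≠ 0 →
      (∀ x : M, c • x ∈ augSub I ρM ⊔ LinearMap.range (esEnd (ρM φ) a p)) →
      augSub I ρM ⊔ (maximalIdeal O) • (⊤ : Submodule O M) = ⊤)
    (hα : ∃ b : O, b ≠ 0 ∧ ∀ x : M, b • (ρM φ x - α • x) ∈ augSub I ρM) :
    α ^ 2 - a * α + (p : O) = 0 := by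
  by_contra hroot
  obtain ⟨b, hb, hbx⟩ := hα
  apply hne
  refine hgeo (b * (α ^ 2 - a * α + (p : O))) (mul_ne_zero hb hroot) fun x => ?_
  rw [mul_smul, root_smul_eq (ρM φ) a α p x, smul_sub]
  refine Submodule.sub_mem _ ?_ ?_
  · refine Submodule.mem_sup_right ⟨b • x, ?_⟩
    rw [map_smul]
  · exact Submodule.mem_sup_left (hbx _)

end Root

end Fermat.Agent.S59.NMP.H590

end

end
-- ===== PACK-END S59/NMP/H590/EigAlg.lean

-- ===== PACK-BEGIN S59/LoSqC/H876/KummerOld.lean
section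




/-!
# S59 moonshot, cell (C) LO-SQ, leaf W-DESC, part 1 (helper876): the Kummer dictionary for OLD classes

Prelude language, any `K`, `F' → F` (two `K`-embeddings `α β : F' →ₐ[K] F` of function fields).

* `exists_degZero_of_dvd_ord876` : if `m ∣ ord_v g` for all places `v`, then `div g = m • D` for a
  divisor `D` of degree `0`  (`D = (div g) / m`).
* `nsmul_mk_eq_zero_of_ord876`   : `div g = m • D`  ⟹  `m • [D] = 0`.
* `mk_eq_pull_add_pull876` (**OLD**) : if `m • D = div f` and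
  `f = c · α g · β g' · h ^ m` with `m ∣ div g`, `m ∣ div g'`, then
  `[D] = α^* y + β^* y'` with `m • y = 0`, `m • y' = 0`
  (`y = [(div g) / m]`, `y' = [(div g') / m]`, `α^* = S37.H818.pullbackPic0Along α`).

This is the converse direction of the dictionary `S36.H36.nsmul_mk_eq_zero_of_pow_eq`; it is the
last step of W-DESC (from the wall over the inertia field back to `J₀(M q²)`).
-/

set_option autoImplicit false
set_option linter.style.haveILetI false

noncomputable section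

namespace Fermat.Agent.S59.LoSqC.H876

open AlgebraicCurve Fermat.Agent.S37.H818

section Abstract

variable {K F F' : Type*} [Field K] [Field F] [Field F'] [Algebra K F] [Algebra K F']

/-- `(div g) / m` as a divisor of degree zero, when `m ∣ div g`. -/
theorem exists_degZero_of_dvd_ord876 [HasPrincipalDivisors K F] {m : ℕ} (hm : m ≠ 0) {g : F}
    (hg : g ≠ 0) (hdiv : ∀ v : Place K F, (m : ℤ) ∣ v.ord g) :
    ∃ D : Divisor.degZero (K := K) (F := F),
      ∀ v : Place K F, v.ord g = (m : ℤ) * (D : Divisor K F) v := by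
  obtain ⟨D₀, hD₀, hdeg⟩ := HasPrincipalDivisors.exists_divisor (K := K) g hg
  have hm' : (m : ℤ) ≠ 0 := by exact_mod_cast hm
  set D : Divisor K F := Finsupp.mapRange (fun n : ℤ => n / (m : ℤ)) (Int.zero_ediv _) D₀
    with hD
  have hDv : ∀ v : Place K F, v.ord g = (m : ℤ) * D v := by
    intro v
    rw [hD, Finsupp.mapRange_apply, hD₀ v]
    exact (Int.mul_ediv_cancel' (hdiv v)).symm
  have hsmul : (m : ℤ) • D = D₀ := by
    ext v
    rw [Finsupp.smul_apply, smul_eq_mul, ← hDv v, hD₀ v]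
  have hdegD : Divisor.degree D = 0 := by
    have h1 : (m : ℤ) • Divisor.degree D = 0 := by
      rw [← map_zsmul, hsmul, hdeg]
    rw [smul_eq_mul] at h1
    exact (mul_eq_zero.1 h1).resolve_left hm'
  exact ⟨⟨D, hdegD⟩, hDv⟩

/-- `div g = m • D`  ⟹  `m • [D] = 0`. -/
theorem nsmul_mk_eq_zero_of_ord876 (m : ℕ) (D : Divisor.degZero (K := K) (F := F)) {g : F}
    (hg : g ≠ 0) (hgD : ∀ v : Place K F, v.ord g = (m : ℤ) * (D : Divisor K F) v) :
    m • Pic0.mk D = 0 := by
  have h0 : m • Pic0.mk D = Pic0.mk (m • D) := rfl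
  rw [h0]
  refine (QuotientAddGroup.eq_zero_iff (m • D)).2 ?_
  rw [AddSubgroup.mem_addSubgroupOf]
  refine ⟨g, hg, fun w => ?_⟩
  rw [hgD w]
  simp only [AddSubgroup.coe_nsmul, Finsupp.smul_apply, nsmul_eq_mul]

variable [HasPrincipalDivisors K F]

/-- `m • D = div g`  ⟹  `m • φ^* D = div (φ g)` (pointwise). -/
theorem pullbackAlong_kummer876 (φ : F' →ₐ[K] F) (hφ : φ.toRingHom.IsIntegral) (m : ℕ)
    {D : Divisor K F'} {g : F'} (hgD : ∀ v : Place K F', v.ord g = (m : ℤ) * D v)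
    (w : Place K F) : (m : ℤ) * Divisor.pullbackAlong φ hφ D w = w.ord (φ g) := by
  have h1 : ∀ v : Place K F', ((m : ℤ) • D) v = v.ord g := fun v => by
    rw [Finsupp.smul_apply, smul_eq_mul, hgD v]
  have h2 := Fermat.Agent.S29.H395.pullbackAlong_apply_eq_ord φ hφ h1 w
  rw [map_zsmul, Finsupp.smul_apply, smul_eq_mul] at h2
  exact h2

variable [HasPrincipalDivisors K F']

/-- **OLD.**  `m • D = div f`, `f = c · α g · β g' · h ^ m`, `m ∣ div g`, `m ∣ div g'`  ⟹
`[D] = α^* y + β^* y'` with `m`-torsion classes `y`, `y'`. -/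
theorem mk_eq_pull_add_pull876 (α β : F' →ₐ[K] F) (hα : α.toRingHom.IsIntegral)
    (hβ : β.toRingHom.IsIntegral) (hFIα : FundamentalIdentityAlong K α hα)
    (hFIβ : FundamentalIdentityAlong K β hβ) {m : ℕ} (hm : m ≠ 0)
    (D : Divisor.degZero (K := K) (F := F)) {f : F}
    (hfD : ∀ v : Place K F, v.ord f = (m : ℤ) * (D : Divisor K F) v)
    {g g' : F'} (hg : g ≠ 0) (hg' : g' ≠ 0)
    (hdg : ∀ v : Place K F', (m : ℤ) ∣ v.ord g) (hdg' : ∀ v : Place K F', (m : ℤ) ∣ v.ord g')
    (c : K) {h : F} (hh : h ≠ 0)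
    (hf : f = algebraMap K F c * α g * β g' * h ^ m) :
    ∃ y y' : Pic0 K F', m • y = 0 ∧ m • y' = 0 ∧
      Pic0.mk D = pullbackPic0Along α hα hFIα y + pullbackPic0Along β hβ hFIβ y' := by
  have hm' : (m : ℤ) ≠ 0 := by exact_mod_cast hm
  -- the degenerate case `c = 0`
  rcases eq_or_ne c 0 with rfl | hc
  · have hf0 : f = 0 := by rw [hf, map_zero, zero_mul, zero_mul, zero_mul]
    have hD0 : D = 0 := by
      apply Subtype.ext
      ext v
      have h1 := hfD v
      rw [hf0, Place.ord_zero] at h1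
      simpa using (mul_eq_zero.1 h1.symm).resolve_left hm'
    refine ⟨0, 0, smul_zero _, smul_zero _, ?_⟩
    rw [hD0, map_zero, map_zero, add_zero]
    rfl
  -- the main case
  obtain ⟨Dg, hDg⟩ := exists_degZero_of_dvd_ord876 (K := K) hm hg hdg
  obtain ⟨Dg', hDg'⟩ := exists_degZero_of_dvd_ord876 (K := K) hm hg' hdg'
  refine ⟨Pic0.mk Dg, Pic0.mk Dg', nsmul_mk_eq_zero_of_ord876 m Dg hg hDg,
    nsmul_mk_eq_zero_of_ord876 m Dg' hg' hDg', ?_⟩
  rw [pullbackPic0Along_mk, pullbackPic0Along_mk, ← Pic0.mk_add]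
  set E : Divisor.degZero (K := K) (F := F) :=
    pullbackDegZeroAlong α hα hFIα Dg + pullbackDegZeroAlong β hβ hFIβ Dg' with hE
  have hEv : ∀ w : Place K F, (E : Divisor K F) w =
      Divisor.pullbackAlong α hα (Dg : Divisor K F') w
        + Divisor.pullbackAlong β hβ (Dg' : Divisor K F') w := by
    intro w
    rw [hE, AddSubgroup.coe_add, Finsupp.add_apply, coe_pullbackDegZeroAlong,
      coe_pullbackDegZeroAlong]
  have hcK : algebraMap K F c ≠ 0 := by simpa using hc
  have hαg : α g ≠ 0 := (map_ne_zero_iff _ α.toRingHom.injective).2 hg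
  have hβg' : β g' ≠ 0 := (map_ne_zero_iff _ β.toRingHom.injective).2 hg'
  have hkey : Pic0.mk (D - E) = 0 := by
    refine (QuotientAddGroup.eq_zero_iff (D - E)).2 ?_
    rw [AddSubgroup.mem_addSubgroupOf]
    refine ⟨h, hh, fun w => ?_⟩
    have h1 : (m : ℤ) * (D : Divisor K F) w
        = (m : ℤ) * Divisor.pullbackAlong α hα (Dg : Divisor K F') w
          + (m : ℤ) * Divisor.pullbackAlong β hβ (Dg' : Divisor K F') w
          + (m : ℤ) * w.ord h := by
      rw [← hfD w, hf, w.ord_mul (mul_ne_zero (mul_ne_zero hcK hαg) hβg') (pow_ne_zero m hh),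
        w.ord_mul (mul_ne_zero hcK hαg) hβg', w.ord_mul hcK hαg,
        Fermat.Agent.S36.H756.ord_const_eq_zero, zero_add, Fermat.Agent.S36.H756.ord_npow,
        pullbackAlong_kummer876 α hα m hDg w, pullbackAlong_kummer876 β hβ m hDg' w]
    rw [AddSubgroup.coe_sub, Finsupp.sub_apply, hEv w]
    apply mul_left_cancel₀ hm'
    rw [mul_sub, mul_add, h1]
    ring
  have hsplit : Pic0.mk D = Pic0.mk E + Pic0.mk (D - E) := by
    rw [← Pic0.mk_add]
    congr 1
    abel
  rw [hsplit, hkey, add_zero]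

end Abstract

end Fermat.Agent.S59.LoSqC.H876

end
end
-- ===== PACK-END S59/LoSqC/H876/KummerOld.lean

-- ===== PACK-BEGIN S59/LoSqC/H862/NodeRelAbs.lean
section


/-!
# S59 / cell (C) LO-SQ / W-COUNT, sub-leaf NODE-REL — abstract form on a function field
(helper862)

`κ / k` a function field of one variable (Prelude `Place`, `HasPrincipalDivisors`; every place of
degree one, e.g. `k` algebraically closed), `ū ∈ κˣ`, `SS` a finite set of places ("nodes"),
`δ ∈ ℤ` ("slope"), `m ∈ ℕ`.  If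

* `ord_v ū ≡ δ mod m` at every node `v ∈ SS`,
* `ord_v ū ≡ 0 mod m` at every other place,

then `m ∣ #SS · δ` (the degree of a principal divisor is zero).

So the slope of a Kummer generator is killed by the number of nodes modulo `m`: the group of
slopes has at most `#SS` elements, for EVERY `m`.
-/

set_option autoImplicit false

noncomputable section

open AlgebraicCurve

namespace Fermat.Agent.S59.LoSqC.H862

open Fermat.Agent.Lib.RR

variable {k κ : Type*} [Field k] [Field κ] [Algebra k κ]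

/-- The sum of the orders of a nonzero function over any finite set of places containing the
support of its divisor is zero. -/
theorem sum_ord_eq_zero_of_support (hpd : HasPrincipalDivisors k κ)
    (hdeg : ∀ v : Place k κ, v.deg = 1) {ub : κ} (hub : ub ≠ 0) :
    ∃ S₀ : Finset (Place k κ), (∀ v : Place k κ, v ∉ S₀ → v.ord ub = 0) ∧
      ∀ S : Finset (Place k κ), S₀ ⊆ S → ∑ v ∈ S, v.ord ub = 0 := by
  classical
  obtain ⟨D, hD, hD0⟩ := hpd.exists_divisor ub hub
  rw [degree_eq_sum] at hD0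
  have hsupp : ∀ v : Place k κ, v ∉ D.support → v.ord ub = 0 := by
    intro v hv
    rw [Finsupp.notMem_support_iff, hD] at hv
    exact hv
  refine ⟨D.support, hsupp, fun S hS => ?_⟩
  have h1 : ∑ v ∈ D.support, D v * (v.deg : ℤ) = ∑ v ∈ D.support, v.ord ub := by
    refine Finset.sum_congr rfl fun v _ => ?_
    rw [hD, hdeg v]
    simp
  rw [h1] at hD0
  rw [← Finset.sum_subset hS (fun v _ hv => hsupp v hv)]
  exact hD0

/-- **NODE-REL, abstract form.**  If `ord_v ū ≡ δ mod m` at the places of `SS` and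
`ord_v ū ≡ 0 mod m` at all other places, then `m ∣ #SS · δ`. -/
theorem node_rel_abs (hpd : HasPrincipalDivisors k κ)
    (hdeg : ∀ v : Place k κ, v.deg = 1) {ub : κ} (hub : ub ≠ 0) (m : ℕ) (δ : ℤ)
    (SS : Finset (Place k κ))
    (hnode : ∀ v ∈ SS, (m : ℤ) ∣ v.ord ub - δ)
    (hother : ∀ v : Place k κ, v ∉ SS → (m : ℤ) ∣ v.ord ub) :
    (m : ℤ) ∣ (SS.card : ℤ) * δ := by
  classical
  obtain ⟨S₀, -, hsum⟩ := sum_ord_eq_zero_of_support hpd hdeg hub
  have h0 := hsum (S₀ ∪ SS) Finset.subset_union_left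
  have h1 : (m : ℤ) ∣ ∑ v ∈ S₀ ∪ SS, (v.ord ub - if v ∈ SS then δ else 0) := by
    refine Finset.dvd_sum fun v _ => ?_
    by_cases hv : v ∈ SS
    · rw [if_pos hv]
      exact hnode v hv
    · rw [if_neg hv, sub_zero]
      exact hother v hv
  rw [Finset.sum_sub_distrib, h0, zero_sub, dvd_neg] at h1
  have h2 : ∑ v ∈ S₀ ∪ SS, (if v ∈ SS then δ else 0) = (SS.card : ℤ) * δ := by
    rw [← Finset.sum_filter]
    have : (S₀ ∪ SS).filter (fun v => v ∈ SS) = SS := by
      ext v
      simp only [Finset.mem_filter, Finset.mem_union]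
      tauto
    rw [this, Finset.sum_const, nsmul_eq_mul]
  rwa [h2] at h1

/-- **NODE-REL, counting form.**  The residues modulo `m` of the slopes form a set of at most
`#SS` elements: every slope `δ` satisfies `m ∣ #SS · δ`, so `δ mod m` lies in the
`#SS`-torsion of `ℤ / m`. -/
theorem node_rel_zmod (hpd : HasPrincipalDivisors k κ)
    (hdeg : ∀ v : Place k κ, v.deg = 1) {ub : κ} (hub : ub ≠ 0) (m : ℕ) (δ : ℤ)
    (SS : Finset (Place k κ))
    (hnode : ∀ v ∈ SS, (m : ℤ) ∣ v.ord ub - δ)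
    (hother : ∀ v : Place k κ, v ∉ SS → (m : ℤ) ∣ v.ord ub) :
    SS.card • (δ : ZMod m) = 0 := by
  have h := node_rel_abs hpd hdeg hub m δ SS hnode hother
  rw [nsmul_eq_mul]
  have h2 : (((SS.card : ℤ) * δ : ℤ) : ZMod m) = 0 :=
    (ZMod.intCast_zmod_eq_zero_iff_dvd _ m).mpr h
  push_cast at h2
  exact h2

end Fermat.Agent.S59.LoSqC.H862

end

end
-- ===== PACK-END S59/LoSqC/H862/NodeRelAbs.lean

-- ===== PACK-BEGIN S59/LoSqC/H193/LabelUniq.lean
section


/-!
# S59 / cell (C) LO-SQ, leaf LAB (helper193), part 2: uniqueness, transitivity, existence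

Setting of `LabelDef.lean`.  Standing hypotheses on the chart `B` and the closed point `n`:

* `hroot : ∀ z, z ^ m ∈ B → z ∈ B`  (`B` is integrally closed in `F`; for charts:
  `H630.chart_root_mem`),
* `hrat : ∀ b : B, ∃ r : R, b - r ∈ n`  (`n` is a rational point; `H630.rat_chart`).

Results:

* `IsPureAt.exists_ratio` : two purity data `d`, `d₁` of `u` at `n` differ by a unit of `B_n`:
  there is a constant `θ`, a unit at `n`, with `val_W d₁ = val_W d · θ` along EVERY sheet `W`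
  through `n`;
* `IsLabelAt.of_values` : the label can be read off from ANY purity datum with values;
* `IsLabelAt.unique_res`, `IsLabelAt.unique` : the label is unique modulo `m`;
* `IsLabelAt.trans` : `c(V, V'') = c(V, V') + c(V', V'')`;
* `exists_isLabelAt` : existence of a label `c < m` for `u ≡ 1` on `V`, `V'` with a purity
  datum at `n` (components normal along `V`, `V'`).
-/

set_option autoImplicit false
set_option linter.unusedSectionVars false
set_option linter.unusedVariables false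
set_option linter.style.haveILetI false

namespace Fermat.Agent.S59.LoSqC.H193

open Fermat.Agent.S36.H630

variable {R : Type*} [CommRing R] {F : Type*} [Field F] [Algebra R F]
variable {B : Subalgebra R F} {n : Ideal B}

/-- The value of an element of the chart along any sheet is its residue at `n`. -/
theorem valAt_coe (V : ValuationSubring F) (hn : n ≠ ⊤) {e : B} {ε : R}
    (hε : e - algebraMap R B ε ∈ n) : ValAt B n V (e : F) ε := by
  refine ValAt.of_frac (a := e) (b := 1) ?_ ?_ ?_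
  · exact fun h => hn ((Ideal.eq_top_iff_one n).2 h)
  · simp
  · simpa using hε

/-- A constant `θ` with `e ≡ θ b` modulo `n`, for `b ∉ n` (rational closed point). -/
theorem exists_const_ratio [hn : n.IsMaximal] (hrat : ∀ b : B, ∃ r : R, b - algebraMap R B r ∈ n)
    (e : B) {b : B} (hb : b ∉ n) : ∃ θ : R, e - algebraMap R B θ * b ∈ n := by
  obtain ⟨b', i, hi, hbi⟩ := hn.exists_inv hb
  obtain ⟨θ, hθ⟩ := hrat (e * b')
  refine ⟨θ, ?_⟩
  have : e - algebraMap R B θ * b = (e * b' - algebraMap R B θ) * b + e * i := by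
    have h6 : b' * b + i - 1 = 0 := by rw [hbi, sub_self]
    linear_combination (-e) * h6
  rw [this]
  exact n.add_mem (n.mul_mem_right _ hθ) (n.mul_mem_left _ hi)

/-- **Two purity data differ by a unit of `B_n`.** -/
theorem IsPureAt.exists_ratio [hn : n.IsMaximal] {m : ℕ} (hm : 0 < m)
    (hroot : ∀ z : F, z ^ m ∈ B → z ∈ B)
    (hrat : ∀ b : B, ∃ r : R, b - algebraMap R B r ∈ n)
    {u d d₁ : F} (h : IsPureAt B n m u d) (h₁ : IsPureAt B n m u d₁) :
    ∃ θ : R, algebraMap R B θ ∉ n ∧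
      ∀ W : ValuationSubring F, ChartLe B W → PassThrough B n W →
        ∀ ξ : R, ValAt B n W d ξ → ValAt B n W d₁ (ξ * θ) := by
  have hnp : n.IsPrime := hn.isPrime
  have hu0 : u ≠ 0 := h.ne_zero
  obtain ⟨hd, a₀, s₀, ha₀, hs₀, hp⟩ := h
  obtain ⟨hd₁, a₁, s₁, ha₁, hs₁, hp₁⟩ := h₁
  obtain ⟨j, hj⟩ : ∃ j, m = j + 1 := ⟨m - 1, (Nat.sub_add_cancel hm).symm⟩
  -- `z = (a₀ s₁) d₁ / d`,  `z ^ m = (a₀ s₁) ^ (m-1) (a₁ s₀)`
  have hs₀0 : (s₀ : F) ≠ 0 := by
    intro h0
    apply hs₀
    have : s₀ = 0 := Subtype.ext h0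
    rw [this]
    exact n.zero_mem
  have hs₁0 : (s₁ : F) ≠ 0 := by
    intro h0
    apply hs₁
    have : s₁ = 0 := Subtype.ext h0
    rw [this]
    exact n.zero_mem
  have hcross : d₁ ^ m * ((a₀ : F) * (s₁ : F)) = d ^ m * ((a₁ : F) * (s₀ : F)) := by
    rw [← hp, ← hp₁]
    ring
  have hzm : (((a₀ * s₁ : B) : F) * d₁ * d⁻¹) ^ m = (((a₀ * s₁) ^ j * (a₁ * s₀) : B) : F) := by
    have hdm : d ^ m ≠ 0 := pow_ne_zero _ hd
    push_cast
    have e1 : ((a₀ : F) * (s₁ : F) * d₁ * d⁻¹) ^ m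
        = ((a₀ : F) * (s₁ : F)) ^ j * (d₁ ^ m * ((a₀ : F) * (s₁ : F))) * (d ^ m)⁻¹ := by
      rw [mul_pow, mul_pow, inv_pow]
      nth_rewrite 1 [hj]
      rw [pow_succ]
      ring
    rw [e1, hcross]
    field_simp
  obtain ⟨b, hb⟩ : ∃ b : B, (b : F) = ((a₀ * s₁ : B) : F) * d₁ * d⁻¹ := by
    have hmem : ((a₀ * s₁ : B) : F) * d₁ * d⁻¹ ∈ B := by
      apply hroot
      rw [hzm]
      exact ((a₀ * s₁) ^ j * (a₁ * s₀)).2
    exact ⟨⟨_, hmem⟩, rfl⟩
  have he : a₀ * s₁ ∉ n := fun hmem => (hnp.mem_or_mem hmem).elim ha₀ hs₁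
  have he' : a₁ * s₀ ∉ n := fun hmem => (hnp.mem_or_mem hmem).elim ha₁ hs₀
  have hbn : b ∉ n := by
    intro hmem
    have h1 : b ^ m ∈ n := n.pow_mem_of_mem hmem m hm
    have h2 : b ^ m = (a₀ * s₁) ^ j * (a₁ * s₀) := by
      apply Subtype.ext
      push_cast
      rw [hb]
      have := hzm
      push_cast at this
      exact this
    rw [h2] at h1
    rcases hnp.mem_or_mem h1 with h3 | h3
    · exact he (hnp.mem_of_pow_mem j h3)
    · exact he' h3
  -- `d₁ = (b / (a₀ s₁)) d`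
  obtain ⟨θ, hθ⟩ := exists_const_ratio hrat b he
  have hθn : algebraMap R B θ ∉ n := by
    intro hmem
    apply hbn
    have : b = (b - algebraMap R B θ * (a₀ * s₁)) + algebraMap R B θ * (a₀ * s₁) := by ring
    rw [this]
    exact n.add_mem hθ (n.mul_mem_right _ hmem)
  refine ⟨θ, hθn, ?_⟩
  intro W hBW hthW ξ hξ
  -- `d₁ = d * (b / e)`
  have hfrac : ValAt B n W ((b : F) * ((a₀ * s₁ : B) : F)⁻¹) θ := by
    refine ValAt.of_frac (a := b) (b := a₀ * s₁) he ?_ hθ
    have he0 : ((a₀ * s₁ : B) : F) ≠ 0 := by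
      intro h0
      apply he
      have : a₀ * s₁ = 0 := Subtype.ext h0
      rw [this]
      exact n.zero_mem
    field_simp
  have hd₁ : d₁ = d * ((b : F) * ((a₀ * s₁ : B) : F)⁻¹) := by
    have he0 : ((a₀ * s₁ : B) : F) ≠ 0 := by
      intro h0
      apply he
      have : a₀ * s₁ = 0 := Subtype.ext h0
      rw [this]
      exact n.zero_mem
    rw [hb]
    field_simp
  rw [hd₁]
  exact hξ.mul hBW hthW hfrac

section Label

variable {V V' V'' : ValuationSubring F}

/-- **The label can be read off from any purity datum with values.** -/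
theorem IsLabelAt.of_values [hn : n.IsMaximal] {m : ℕ} (hm : 0 < m)
    (hroot : ∀ z : F, z ^ m ∈ B → z ∈ B)
    (hrat : ∀ b : B, ∃ r : R, b - algebraMap R B r ∈ n)
    (hBV : ChartLe B V) (hth : PassThrough B n V)
    (hBV' : ChartLe B V') (hth' : PassThrough B n V') {ζ : R} {u : F} {c : ℕ}
    (h : IsLabelAt B n V V' m ζ u c) {d₁ : F} (hp₁ : IsPureAt B n m u d₁) {η₁ η₁' : R}
    (hv₁ : ValAt B n V d₁ η₁) (hv₁' : ValAt B n V' d₁ η₁') :
    algebraMap R B (η₁' - η₁ * ζ ^ c) ∈ n := by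
  have hnp : n.IsPrime := hn.isPrime
  obtain ⟨d, η, η', hp, hη, hv, hv', hl⟩ := h
  obtain ⟨θ, hθ, hθv⟩ := hp.exists_ratio hm hroot hrat hp₁
  have h1 := (hθv V hBV hth η hv).unique hBV hth hv₁
  have h2 := (hθv V' hBV' hth' η' hv').unique hBV' hth' hv₁'
  have : η₁' - η₁ * ζ ^ c
      = -(η' * θ - η₁') + (η * θ - η₁) * ζ ^ c + (η' - η * ζ ^ c) * θ := by ring
  rw [this, map_add, map_add, map_neg, map_mul, map_mul]
  exact n.add_mem (n.add_mem (n.neg_mem h2) (n.mul_mem_right _ h1)) (n.mul_mem_right _ hl)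

/-- The first value of any purity datum with a label is a unit at `n`. -/
theorem IsLabelAt.unit_of_values [hn : n.IsMaximal] {m : ℕ} (hm : 0 < m)
    (hroot : ∀ z : F, z ^ m ∈ B → z ∈ B)
    (hrat : ∀ b : B, ∃ r : R, b - algebraMap R B r ∈ n)
    (hBV : ChartLe B V) (hth : PassThrough B n V) {ζ : R} {u : F} {c : ℕ}
    (h : IsLabelAt B n V V' m ζ u c) {d₁ : F} (hp₁ : IsPureAt B n m u d₁) {η₁ : R}
    (hv₁ : ValAt B n V d₁ η₁) : algebraMap R B η₁ ∉ n := by
  have hnp : n.IsPrime := hn.isPrime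
  obtain ⟨d, η, η', hp, hη, hv, hv', hl⟩ := h
  obtain ⟨θ, hθ, hθv⟩ := hp.exists_ratio hm hroot hrat hp₁
  have h1 := (hθv V hBV hth η hv).unique hBV hth hv₁
  intro hmem
  have h2 : algebraMap R B (η * θ) ∈ n := by
    have : algebraMap R B (η * θ) = algebraMap R B (η * θ - η₁) + algebraMap R B η₁ := by
      rw [map_sub]
      ring
    rw [this]
    exact n.add_mem h1 hmem
  rw [map_mul] at h2
  exact (hnp.mem_or_mem h2).elim hη hθ

/-- **Uniqueness of the label**, residue form: `ζ ^ c ≡ ζ ^ c₁` modulo `n`. -/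
theorem IsLabelAt.unique_res [hn : n.IsMaximal] {m : ℕ} (hm : 0 < m)
    (hroot : ∀ z : F, z ^ m ∈ B → z ∈ B)
    (hrat : ∀ b : B, ∃ r : R, b - algebraMap R B r ∈ n)
    (hBV : ChartLe B V) (hth : PassThrough B n V)
    (hBV' : ChartLe B V') (hth' : PassThrough B n V') {ζ : R} {u : F} {c c₁ : ℕ}
    (h : IsLabelAt B n V V' m ζ u c) (h₁ : IsLabelAt B n V V' m ζ u c₁) :
    algebraMap R B (ζ ^ c - ζ ^ c₁) ∈ n := by
  have hnp : n.IsPrime := hn.isPrime
  obtain ⟨d₁, η₁, η₁', hp₁, hη₁, hv₁, hv₁', hl₁⟩ := h₁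
  have h2 := h.of_values hm hroot hrat hBV hth hBV' hth' hp₁ hv₁ hv₁'
  -- `η₁ (ζ^c - ζ^c₁) ∈ n`
  have h3 : algebraMap R B η₁ * algebraMap R B (ζ ^ c - ζ ^ c₁) ∈ n := by
    have : algebraMap R B η₁ * algebraMap R B (ζ ^ c - ζ ^ c₁)
        = algebraMap R B (η₁' - η₁ * ζ ^ c₁) - algebraMap R B (η₁' - η₁ * ζ ^ c) := by
      simp only [map_sub, map_mul]
      ring
    rw [this]
    exact n.sub_mem hl₁ h2
  exact (hnp.mem_or_mem h3).resolve_left hη₁

/-- **Uniqueness of the label modulo `m`**, if `ζ` has exact order `m` modulo `n`. -/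
theorem IsLabelAt.unique [hn : n.IsMaximal] {m : ℕ} (hm : 0 < m)
    (hroot : ∀ z : F, z ^ m ∈ B → z ∈ B)
    (hrat : ∀ b : B, ∃ r : R, b - algebraMap R B r ∈ n)
    (hBV : ChartLe B V) (hth : PassThrough B n V)
    (hBV' : ChartLe B V') (hth' : PassThrough B n V') {ζ : R}
    (hprim : IsPrimitiveRoot (resAt n ζ) m) {u : F} {c c₁ : ℕ}
    (h : IsLabelAt B n V V' m ζ u c) (h₁ : IsLabelAt B n V V' m ζ u c₁) :
    c ≡ c₁ [MOD m] := by
  have h1 := h.unique_res hm hroot hrat hBV hth hBV' hth' h₁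
  have h2 : resAt n ζ ^ c = resAt n ζ ^ c₁ := by
    rw [← resAt_pow, ← resAt_pow]
    exact mk_eq_of_sub_mem h1
  have hζm : resAt n ζ ^ m = 1 := hprim.pow_eq_one
  have h3 : resAt n ζ ^ (c % m) = resAt n ζ ^ (c₁ % m) := by
    have e : ∀ k : ℕ, resAt n ζ ^ (k % m) = resAt n ζ ^ k := by
      intro k
      conv_rhs => rw [← Nat.mod_add_div k m]
      rw [pow_add, pow_mul, hζm, one_pow, mul_one]
    rw [e, e, h2]
  exact hprim.pow_inj (Nat.mod_lt _ hm) (Nat.mod_lt _ hm) h3

/-- **Transitivity**: three sheets through `n`. -/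
theorem IsLabelAt.trans [hn : n.IsMaximal] {m : ℕ} (hm : 0 < m)
    (hroot : ∀ z : F, z ^ m ∈ B → z ∈ B)
    (hrat : ∀ b : B, ∃ r : R, b - algebraMap R B r ∈ n)
    (hBV : ChartLe B V) (hth : PassThrough B n V)
    (hBV' : ChartLe B V') (hth' : PassThrough B n V')
    (hBV'' : ChartLe B V'') (hth'' : PassThrough B n V'') {ζ : R} {u : F} {c c' : ℕ}
    (h : IsLabelAt B n V V' m ζ u c) (h' : IsLabelAt B n V' V'' m ζ u c') :
    IsLabelAt B n V V'' m ζ u (c + c') := by
  have hnp : n.IsPrime := hn.isPrime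
  obtain ⟨d, η, η', hp, hη, hv, hv', hl⟩ := h
  obtain ⟨d₁, ξ, ξ', hp₁, hξ, hw, hw', hl₁⟩ := h'
  -- transport the value along `V''` from `d₁` to `d`
  obtain ⟨θ, hθ, hθv⟩ := hp₁.exists_ratio hm hroot hrat hp
  have hx' : ValAt B n V' d (ξ * θ) := hθv V' hBV' hth' ξ hw
  have hx'' : ValAt B n V'' d (ξ' * θ) := hθv V'' hBV'' hth'' ξ' hw'
  have h1 := hx'.unique hBV' hth' hv'
  refine ⟨d, η, ξ' * θ, hp, hη, hv, hx'', ?_⟩
  have : ξ' * θ - η * ζ ^ (c + c')
      = (ξ' - ξ * ζ ^ c') * θ + (ξ * θ - η') * ζ ^ c' + (η' - η * ζ ^ c) * ζ ^ c' := by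
    rw [pow_add]
    ring
  rw [this, map_add, map_add, map_mul, map_mul, map_mul]
  exact n.add_mem (n.add_mem (n.mul_mem_right _ hl₁) (n.mul_mem_right _ h1))
    (n.mul_mem_right _ hl)

/-- **Existence of the label.** -/
theorem exists_isLabelAt [hn : n.IsMaximal] {m : ℕ} (hm : 0 < m)
    (hrat : ∀ b : B, ∃ r : R, b - algebraMap R B r ∈ n)
    (hBV : ChartLe B V) (hth : PassThrough B n V)
    (hBV' : ChartLe B V') (hth' : PassThrough B n V')
    (hnormal : NormalAlong B V m) (hnormal' : NormalAlong B V' m) {ζ : R}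
    (hprim : IsPrimitiveRoot (resAt n ζ) m)
    {u d : F} (hu : u - 1 ∈ V.nonunits) (hu' : u - 1 ∈ V'.nonunits)
    (hp : IsPureAt B n m u d) : ∃ c : ℕ, c < m ∧ IsLabelAt B n V V' m ζ u c := by
  have hnp : n.IsPrime := hn.isPrime
  have hne : n ≠ ⊤ := hnp.ne_top
  obtain ⟨hd, a₀, s₀, ha₀, hs₀, hpure⟩ := hp
  obtain ⟨η, hη, hv⟩ := exists_valAt_of_pure hrat hBV hth hm hnormal hu ha₀ hs₀ hpure
  obtain ⟨η', hη', hv'⟩ := exists_valAt_of_pure hrat hBV' hth' hm hnormal' hu' ha₀ hs₀ hpure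
  obtain ⟨σ, hσ⟩ := hrat s₀
  obtain ⟨α, hα⟩ := hrat a₀
  -- `η ^ m σ ≡ α`
  have key : ∀ (W : ValuationSubring F), ChartLe B W → PassThrough B n W →
      u - 1 ∈ W.nonunits → ∀ ξ : R, ValAt B n W d ξ →
      algebraMap R B (1 * ξ ^ m * σ - α) ∈ n := by
    intro W hBW hthW huW ξ hξ
    have h1 : ValAt B n W u 1 := by
      refine ValAt.const hne ?_
      rw [map_one]
      exact huW
    have h2 : ValAt B n W (u * d ^ m * (s₀ : F)) (1 * ξ ^ m * σ) :=
      (h1.mul hBW hthW (hξ.pow hBW hthW m)).mul hBW hthW (valAt_coe W hne hσ)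
    rw [hpure] at h2
    exact h2.unique hBW hthW (valAt_coe W hne hα)
  have k1 := key V hBV hth hu η hv
  have k2 := key V' hBV' hth' hu' η' hv'
  -- in the residue field
  let _ : Field (B ⧸ n) := Ideal.Quotient.field n
  have hσ0 : resAt n σ ≠ 0 := by
    apply mk_ne_zero_of_not_mem
    intro hmem
    apply hs₀
    have : s₀ = (s₀ - algebraMap R B σ) + algebraMap R B σ := by ring
    rw [this]
    exact n.add_mem hσ hmem
  have hη0 : resAt n η ≠ 0 := mk_ne_zero_of_not_mem hη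
  have e1 : resAt n η ^ m * resAt n σ = resAt n α := by
    have := mk_eq_of_sub_mem k1
    simpa only [resAt, map_mul, map_pow, map_one, one_mul] using this
  have e2 : resAt n η' ^ m * resAt n σ = resAt n α := by
    have := mk_eq_of_sub_mem k2
    simpa only [resAt, map_mul, map_pow, map_one, one_mul] using this
  have e3 : (resAt n η' * (resAt n η)⁻¹) ^ m = 1 := by
    have h5 : resAt n η' ^ m = resAt n η ^ m := by
      have := e2.trans e1.symm
      exact mul_right_cancel₀ hσ0 this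
    rw [mul_pow, h5, inv_pow, mul_inv_cancel₀ (pow_ne_zero _ hη0)]
  haveI : NeZero m := ⟨hm.ne'⟩
  obtain ⟨c, hc, hcz⟩ := hprim.eq_pow_of_pow_eq_one e3
  refine ⟨c, hc, d, η, η', ⟨hd, a₀, s₀, ha₀, hs₀, hpure⟩, hη, hv, hv', ?_⟩
  apply sub_mem_of_mk_eq
  show resAt n η' = resAt n (η * ζ ^ c)
  rw [resAt_mul, resAt_pow, hcz]
  field_simp

end Label

end Fermat.Agent.S59.LoSqC.H193

end
-- ===== PACK-END S59/LoSqC/H193/LabelUniq.lean

-- ===== PACK-BEGIN S36/H996/PUIneq.lean
section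


/-!
# Lemma PU, inequality form (helper996, S36 cell REG) — the local input of the THICK1 squeeze

Setting of `principal_of_unit_chart`: `B` a Noetherian integrally closed domain, `n` a prime
(closed point), `P ≤ n` a height-one prime with DVR `O = B_P`, `U ∈ B` with `v_P(U) = N` which is
a unit at every other height-one prime through `n`, `x ∈ P`, `x ≠ 0`.

* `exists_pow_eq_mul_pow_chart` : `s * x ^ N = w * U ^ (c + 1)` with `s ∉ n`  (`c + 1 = v_P(x)`).
* `hgen_of_pow_eq_chart`        : if `s * x ^ N = w * U` with `s, w ∉ n` then `P B_n = x B_n`.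
* `ordLike_le`   : for every order function `ν` at `n` (multiplicative, `0` off `n`, `≥ 1` on `n`;
                   e.g. the order at `n` of the restriction to another component through `n`):
                   `ν U ≤ N * ν x`.                      **[local upper bound]**
* `hgen_of_ordLike_eq` : if `ν U = N * ν x` is finite and positive, then `P B_n = x B_n`.
                                                         **[equality ⇒ regular]**

Use in the squeeze (helper803's THICK1, `U = q¹² Δ(qz)/Δ(z)`, `N = 12`, `x` any element of `p₁`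
restricting to a uniformiser of `C₂` at the node — it exists because `p₁ + p₂` is radical):
`∑_nodes ord_n(Ū|C₂) = (q-1) ψ₁` (degree of a principal divisor on `C₂`), each term `≤ 12`
(`ordLike_le`), `#nodes ≤ (q-1) ψ₁ / 12` (GENUS-UB + S24)  ⟹  every term `= 12`
⟹ (`hgen_of_ordLike_eq`) `p₁` is principal at every node.  No thickness, no node normal form.
-/

set_option autoImplicit false

namespace Fermat.Agent.S36.H996

open IsLocalRing Fermat.Agent.A2.H849

variable {R : Type*} [CommRing R] [IsDomain R]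
variable {K : Type*} [Field K] [Algebra R K] [IsFractionRing R K]

/-- `x ^ N = w * U ^ (c + 1)` with `w ∈ R`, where `c + 1 = v_P(x)`. -/
theorem exists_pow_eq_mul_pow [IsNoetherianRing R] [IsIntegrallyClosed R]
    (O : ValuationSubring K) (P : Ideal R) (hOP : IsLocDVR O P)
    (U x : R) (N : ℕ)
    (hUunit : ∀ (O' : ValuationSubring K) (P' : Ideal R), IsLocDVR O' P' → P' ≠ P → U ∉ P')
    (ϖ : O) (hϖ : Irreducible ϖ) (u : Oˣ)
    (hU : algebraMap R K U = (u : O) * (ϖ : K) ^ N)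
    (hxP : x ∈ P) (hx0 : x ≠ 0) :
    ∃ (c : ℕ) (w : R), x ^ N = w * U ^ (c + 1) := by
  classical
  have := hOP.dvr
  have hinj : Function.Injective (algebraMap R K) := IsFractionRing.injective R K
  have hϖK : (ϖ : K) ≠ 0 := by
    intro h
    apply hϖ.ne_zero
    exact Subtype.ext h
  have huK : ((u : O) : K) ≠ 0 := by
    intro h
    have : (u : O) = 0 := Subtype.ext h
    exact u.ne_zero this
  have hUK : algebraMap R K U ≠ 0 := by
    rw [hU]
    exact mul_ne_zero huK (pow_ne_zero _ hϖK)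
  have hinvO : ∀ v : Oˣ, ((((v : O) : K))⁻¹ ∈ O) := by
    intro v
    have h3 : (((v : O) : K)) * (((v⁻¹ : Oˣ) : O) : K) = 1 := by
      have h4 : (v : O) * ((v⁻¹ : Oˣ) : O) = 1 := Units.mul_inv v
      exact_mod_cast congrArg (fun z : O => (z : K)) h4
    rw [← eq_inv_of_mul_eq_one_right h3]
    exact ((v⁻¹ : Oˣ) : O).2
  obtain ⟨c, ux, hx⟩ := exists_eq_unit_mul_pow_succ hOP ϖ hϖ x hxP hx0
  set ω : K := algebraMap R K x ^ N * (algebraMap R K U ^ (c + 1))⁻¹ with hω
  have hωO : ω ∈ O := by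
    have h1 : ω = ((ux : O) : K) ^ N * ((((u : O) : K))⁻¹) ^ (c + 1) := by
      have hA : algebraMap R K U ^ (c + 1)
          = ((u : O) : K) ^ (c + 1) * (ϖ : K) ^ (N * (c + 1)) := by
        rw [hU, mul_pow, ← pow_mul]
      have hB : algebraMap R K x ^ N = ((ux : O) : K) ^ N * (ϖ : K) ^ (N * (c + 1)) := by
        rw [hx, mul_pow, ← pow_mul, mul_comm (c + 1) N]
      have hM : (ϖ : K) ^ (N * (c + 1)) ≠ 0 := pow_ne_zero _ hϖK
      rw [hω, hA, hB, mul_inv, inv_pow]
      calc ((ux : O) : K) ^ N * (ϖ : K) ^ (N * (c + 1))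
            * ((((u : O) : K) ^ (c + 1))⁻¹ * ((ϖ : K) ^ (N * (c + 1)))⁻¹)
          = ((ux : O) : K) ^ N * (((u : O) : K) ^ (c + 1))⁻¹
            * ((ϖ : K) ^ (N * (c + 1)) * ((ϖ : K) ^ (N * (c + 1)))⁻¹) := by ring
        _ = ((ux : O) : K) ^ N * (((u : O) : K) ^ (c + 1))⁻¹ := by
            rw [mul_inv_cancel₀ hM, mul_one]
    rw [h1]
    exact O.mul_mem _ _ (O.pow_mem (ux : O).2 _) (O.pow_mem (hinvO u) _)
  have hωall : ∀ (O' : ValuationSubring K) (P' : Ideal R), IsLocDVR O' P' → ω ∈ O' := by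
    intro O' P' h'
    by_cases hPP : P' = P
    · subst hPP
      exact isLocDVR_le_of_same h' hOP hωO
    · have hUinv : (algebraMap R K U)⁻¹ ∈ O' := h'.inv_mem U (hUunit O' P' h' hPP)
      rw [hω, ← inv_pow]
      exact O'.mul_mem _ _ (O'.pow_mem (h'.le x) _) (O'.pow_mem hUinv _)
  obtain ⟨w, hw⟩ := mem_range_of_forall_isLocDVR ω hωall
  refine ⟨c, w, hinj ?_⟩
  rw [map_mul, map_pow, map_pow, hw, hω, inv_mul_cancel_right₀ (pow_ne_zero _ hUK)]

/-- If `x ^ N = w * U` with `w` a unit (and `N > 0`), then `P = (x)`. -/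
theorem span_eq_of_pow_eq_unit_mul [IsNoetherianRing R] [IsIntegrallyClosed R]
    (O : ValuationSubring K) (P : Ideal R) (hOP : IsLocDVR O P)
    (U x : R) (N : ℕ) (hN : 0 < N)
    (hUunit : ∀ (O' : ValuationSubring K) (P' : Ideal R), IsLocDVR O' P' → P' ≠ P → U ∉ P')
    (ϖ : O) (hϖ : Irreducible ϖ) (u : Oˣ)
    (hU : algebraMap R K U = (u : O) * (ϖ : K) ^ N)
    (hxP : x ∈ P) (hx0 : x ≠ 0) (w : R) (hw : IsUnit w) (hwU : x ^ N = w * U) :
    P = Ideal.span {x} := by
  classical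
  have := hOP.dvr
  have hinj : Function.Injective (algebraMap R K) := IsFractionRing.injective R K
  have hxK : algebraMap R K x ≠ 0 := fun h => hx0 (hinj (by rw [h, map_zero]))
  have hϖK : (ϖ : K) ≠ 0 := by
    intro h
    apply hϖ.ne_zero
    exact Subtype.ext h
  have hinvO : ∀ v : Oˣ, ((((v : O) : K))⁻¹ ∈ O) := by
    intro v
    have h3 : (((v : O) : K)) * (((v⁻¹ : Oˣ) : O) : K) = 1 := by
      have h4 : (v : O) * ((v⁻¹ : Oˣ) : O) = 1 := Units.mul_inv v
      exact_mod_cast congrArg (fun z : O => (z : K)) h4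
    rw [← eq_inv_of_mul_eq_one_right h3]
    exact ((v⁻¹ : Oˣ) : O).2
  obtain ⟨c, ux, hx⟩ := exists_eq_unit_mul_pow_succ hOP ϖ hϖ x hxP hx0
  -- `c = 0`: compare valuations in `x ^ N = w * U`
  have hc : c = 0 := by
    by_contra hc0
    -- `ϖ ^ (N * c)` would be a unit of `O`
    have hwO : algebraMap R K w ∈ O := hOP.le w
    obtain ⟨w', hw'⟩ := hw.exists_right_inv
    have hw'O : algebraMap R K w' ∈ O := hOP.le w'
    have hww' : algebraMap R K w * algebraMap R K w' = 1 := by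
      rw [← map_mul, hw', map_one]
    have huxK : ((ux : O) : K) ≠ 0 := by
      intro h
      have : (ux : O) = 0 := Subtype.ext h
      exact ux.ne_zero this
    have hwK : algebraMap R K w ≠ 0 := fun h => by rw [h, zero_mul] at hww'; exact zero_ne_one hww'
    have h1 : algebraMap R K x ^ N = algebraMap R K w * algebraMap R K U := by
      rw [← map_pow, hwU, map_mul]
    rw [hx, hU, mul_pow, ← pow_mul] at h1
    -- `ϖ ^ ((c+1) N) * ux^N = w u ϖ^N`  ⟹  `ϖ ^ (c N) = w u ux^{-N}`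
    have h2 : (ϖ : K) ^ (c * N) = algebraMap R K w * ((u : O) : K) * ((((ux : O) : K))⁻¹) ^ N := by
      have hNe : (ϖ : K) ^ N ≠ 0 := pow_ne_zero _ hϖK
      have huxN : ((ux : O) : K) ^ N ≠ 0 := pow_ne_zero _ huxK
      have h3 : ((ux : O) : K) ^ N * ((ϖ : K) ^ (c * N) * (ϖ : K) ^ N)
          = algebraMap R K w * (((u : O) : K) * (ϖ : K) ^ N) := by
        rw [← pow_add, ← h1]
        congr 2
        ring
      have h5 : ((ux : O) : K) ^ N * (ϖ : K) ^ (c * N) = algebraMap R K w * ((u : O) : K) := by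
        apply mul_right_cancel₀ hNe
        rw [mul_assoc, h3, mul_assoc]
      rw [inv_pow, ← h5, mul_comm (((ux : O) : K) ^ N), mul_assoc, mul_inv_cancel₀ huxN, mul_one]
    have h4 : ((ϖ : K) ^ (c * N))⁻¹ ∈ O := by
      have e : ((ϖ : K) ^ (c * N))⁻¹
          = algebraMap R K w' * (((u : O) : K))⁻¹ * ((ux : O) : K) ^ N := by
        rw [h2, inv_pow]
        have huK : ((u : O) : K) ≠ 0 := by
          intro h
          have : (u : O) = 0 := Subtype.ext h
          exact u.ne_zero this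
        field_simp
        linear_combination (-(1 : K)) * hww'
      rw [e]
      exact O.mul_mem _ _ (O.mul_mem _ _ hw'O (hinvO u)) (O.pow_mem (ux : O).2 _)
    -- but `ϖ` is not a unit
    have hpos : 0 < c * N := Nat.mul_pos (Nat.pos_of_ne_zero hc0) hN
    have hunit : IsUnit (ϖ ^ (c * N) : O) := by
      refine IsUnit.of_mul_eq_one ⟨((ϖ : K) ^ (c * N))⁻¹, h4⟩ ?_
      apply Subtype.ext
      show (ϖ : K) ^ (c * N) * ((ϖ : K) ^ (c * N))⁻¹ = 1
      exact mul_inv_cancel₀ (pow_ne_zero _ hϖK)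
    exact hϖ.not_isUnit ((isUnit_pow_iff hpos.ne').1 hunit)
  subst hc
  apply le_antisymm
  · intro y hy
    rw [Ideal.mem_span_singleton]
    by_cases hy0 : y = 0
    · rw [hy0]; exact dvd_zero x
    have hratio : ∀ (O' : ValuationSubring K) (P' : Ideal R), IsLocDVR O' P' →
        algebraMap R K y * (algebraMap R K x)⁻¹ ∈ O' := by
      intro O' P' h'
      by_cases hPP : P' = P
      · subst hPP
        apply isLocDVR_le_of_same h' hOP
        obtain ⟨d, uy, hyeq⟩ := exists_eq_unit_mul_pow_succ hOP ϖ hϖ y hy hy0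
        have h1 : algebraMap R K y * (algebraMap R K x)⁻¹
            = ((uy : O) : K) * ((((ux : O) : K))⁻¹) * (ϖ : K) ^ d := by
          have huxK : ((ux : O) : K) ≠ 0 := by
            intro h
            have : (ux : O) = 0 := Subtype.ext h
            exact ux.ne_zero this
          rw [hyeq, hx]
          field_simp
          ring
        rw [h1]
        exact O.mul_mem _ _ (O.mul_mem _ _ (uy : O).2 (hinvO ux)) (O.pow_mem ϖ.2 _)
      · have hxP' : x ∉ P' := by
          intro hxin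
          have h1 : w * U ∈ P' := by
            rw [← hwU]
            exact Ideal.pow_mem_of_mem _ hxin _ hN
          rcases h'.prime.mem_or_mem h1 with h | h
          · exact h'.prime.ne_top (Ideal.eq_top_of_isUnit_mem _ h hw)
          · exact hUunit O' P' h' hPP h
        exact O'.mul_mem _ _ (h'.le y) (h'.inv_mem x hxP')
    obtain ⟨t, ht⟩ := mem_range_of_forall_isLocDVR _ hratio
    refine ⟨t, hinj ?_⟩
    rw [map_mul, ht, mul_comm, inv_mul_cancel_right₀ hxK]
  · rw [Ideal.span_le, Set.singleton_subset_iff]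
    exact hxP

section Chart

variable {B : Type*} [CommRing B] [IsDomain B]
variable {F : Type*} [Field F] [Algebra B F] [IsFractionRing B F]

/-- Chart form of `exists_pow_eq_mul_pow`. -/
theorem exists_pow_eq_mul_pow_chart [IsNoetherianRing B] [IsIntegrallyClosed B]
    (n : Ideal B) [hn : n.IsPrime]
    (O : ValuationSubring F) (P : Ideal B) (hOP : IsLocDVR O P) (hPn : P ≤ n)
    (U x : B) (N : ℕ)
    (hUunit : ∀ (O' : ValuationSubring F) (P' : Ideal B), IsLocDVR O' P' → P' ≤ n → P' ≠ P →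
      U ∉ P')
    (ϖ : O) (hϖ : Irreducible ϖ) (u : Oˣ)
    (hU : algebraMap B F U = (u : O) * (ϖ : F) ^ N)
    (hxP : x ∈ P) (hx0 : x ≠ 0) :
    ∃ (c : ℕ) (s w : B), s ∉ n ∧ s * x ^ N = w * U ^ (c + 1) := by
  classical
  have hinjA : Function.Injective (algebraMap B (locAt F n)) :=
    IsLocalization.injective (locAt F n) n.primeCompl_le_nonZeroDivisors
  have : IsIntegrallyClosed (locAt F n) :=
    isIntegrallyClosed_of_isLocalization (locAt F n) n.primeCompl n.primeCompl_le_nonZeroDivisors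
  obtain ⟨c, w, hw⟩ := exists_pow_eq_mul_pow (R := locAt F n) (K := F) O
    (P.map (algebraMap B (locAt F n))) (isLocDVR_map n hOP hPn)
    (algebraMap B (locAt F n) U) (algebraMap B (locAt F n) x) N
    (by
      intro O' P'A h' hne
      obtain ⟨hB, hle⟩ := isLocDVR_comap n h'
      have hne' : P'A.comap (algebraMap B (locAt F n)) ≠ P := by
        intro heq
        apply hne
        rw [← map_comap_locAt n P'A, heq]
      intro hmem
      exact hUunit O' _ hB hle hne' hmem)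
    ϖ hϖ u hU (Ideal.mem_map_of_mem _ hxP)
    (fun h => hx0 (hinjA (by rw [h, map_zero])))
  obtain ⟨b, s, hs, hbs⟩ := exists_mul_eq_algebraMap n w
  refine ⟨c, s, b, hs, hinjA ?_⟩
  rw [map_mul, map_mul, map_pow, map_pow, hw, ← hbs]
  ring

/-- Chart form of `span_eq_of_pow_eq_unit_mul`. -/
theorem hgen_of_pow_eq_chart [IsNoetherianRing B] [IsIntegrallyClosed B]
    (n : Ideal B) [hn : n.IsPrime]
    (O : ValuationSubring F) (P : Ideal B) (hOP : IsLocDVR O P) (hPn : P ≤ n)
    (U x : B) (N : ℕ) (hN : 0 < N)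
    (hUunit : ∀ (O' : ValuationSubring F) (P' : Ideal B), IsLocDVR O' P' → P' ≤ n → P' ≠ P →
      U ∉ P')
    (ϖ : O) (hϖ : Irreducible ϖ) (u : Oˣ)
    (hU : algebraMap B F U = (u : O) * (ϖ : F) ^ N)
    (hxP : x ∈ P) (hx0 : x ≠ 0)
    (s w : B) (hs : s ∉ n) (hw : w ∉ n) (hsw : s * x ^ N = w * U) :
    ∀ a ∈ P, ∃ g : B, g ∉ n ∧ ∃ c : B, g * a = x * c := by
  classical
  have hinjA : Function.Injective (algebraMap B (locAt F n)) :=
    IsLocalization.injective (locAt F n) n.primeCompl_le_nonZeroDivisors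
  have : IsIntegrallyClosed (locAt F n) :=
    isIntegrallyClosed_of_isLocalization (locAt F n) n.primeCompl n.primeCompl_le_nonZeroDivisors
  obtain ⟨sinv, hsinv⟩ := (isUnit_algebraMap_locAt (F := F) n hs).exists_right_inv
  have hsinvu : IsUnit sinv := IsUnit.of_mul_eq_one _ (by rw [mul_comm]; exact hsinv)
  have key := span_eq_of_pow_eq_unit_mul (R := locAt F n) (K := F) O
    (P.map (algebraMap B (locAt F n))) (isLocDVR_map n hOP hPn)
    (algebraMap B (locAt F n) U) (algebraMap B (locAt F n) x) N hN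
    (by
      intro O' P'A h' hne
      obtain ⟨hB, hle⟩ := isLocDVR_comap n h'
      have hne' : P'A.comap (algebraMap B (locAt F n)) ≠ P := by
        intro heq
        apply hne
        rw [← map_comap_locAt n P'A, heq]
      intro hmem
      exact hUunit O' _ hB hle hne' hmem)
    ϖ hϖ u hU (Ideal.mem_map_of_mem _ hxP)
    (fun h => hx0 (hinjA (by rw [h, map_zero])))
    (sinv * algebraMap B (locAt F n) w)
    (hsinvu.mul (isUnit_algebraMap_locAt (F := F) n hw))
    (by
      have h1 : algebraMap B (locAt F n) s * algebraMap B (locAt F n) x ^ N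
          = algebraMap B (locAt F n) w * algebraMap B (locAt F n) U := by
        rw [← map_pow, ← map_mul, hsw, map_mul]
      calc algebraMap B (locAt F n) x ^ N
          = (algebraMap B (locAt F n) s * sinv) * algebraMap B (locAt F n) x ^ N := by
            rw [hsinv, one_mul]
        _ = sinv * (algebraMap B (locAt F n) s * algebraMap B (locAt F n) x ^ N) := by ring
        _ = sinv * algebraMap B (locAt F n) w * algebraMap B (locAt F n) U := by
            rw [h1]; ring)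
  intro a ha
  have h1 : algebraMap B (locAt F n) a ∈ P.map (algebraMap B (locAt F n)) :=
    Ideal.mem_map_of_mem _ ha
  rw [key, Ideal.mem_span_singleton] at h1
  obtain ⟨c, hc⟩ := h1
  obtain ⟨b, t, ht, hbt⟩ := exists_mul_eq_algebraMap n c
  refine ⟨t, ht, b, hinjA ?_⟩
  rw [map_mul, map_mul, hc, ← hbt]
  ring

/-- **Local upper bound.**  For every order function `ν` at `n`: `ν U ≤ N * ν x`. -/
theorem ordLike_le [IsNoetherianRing B] [IsIntegrallyClosed B]
    (n : Ideal B) [hn : n.IsPrime]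
    (O : ValuationSubring F) (P : Ideal B) (hOP : IsLocDVR O P) (hPn : P ≤ n)
    (U x : B) (N : ℕ)
    (hUunit : ∀ (O' : ValuationSubring F) (P' : Ideal B), IsLocDVR O' P' → P' ≤ n → P' ≠ P →
      U ∉ P')
    (ϖ : O) (hϖ : Irreducible ϖ) (u : Oˣ)
    (hU : algebraMap B F U = (u : O) * (ϖ : F) ^ N)
    (hxP : x ∈ P) (hx0 : x ≠ 0)
    (ν : B → ℕ∞) (hmul : ∀ a b, ν (a * b) = ν a + ν b) (hunit : ∀ a, a ∉ n → ν a = 0) :
    ν U ≤ N * ν x := by
  obtain ⟨c, s, w, hs, hsw⟩ :=
    exists_pow_eq_mul_pow_chart n O P hOP hPn U x N hUunit ϖ hϖ u hU hxP hx0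
  have hpow : ∀ (a : B) (k : ℕ), ν (a ^ k) = k * ν a := by
    intro a k
    induction k with
    | zero =>
      rw [pow_zero, Nat.cast_zero, zero_mul]
      exact hunit 1 (fun h => hn.ne_top ((Ideal.eq_top_iff_one _).2 h))
    | succ k ih => rw [pow_succ, hmul, ih, Nat.cast_succ, add_mul, one_mul]
  have h1 := congrArg ν hsw
  rw [hmul, hmul, hpow, hpow, hunit s hs, zero_add] at h1
  rw [h1]
  calc ν U = 1 * ν U := (one_mul _).symm
    _ ≤ ((c + 1 : ℕ) : ℕ∞) * ν U := by
        gcongr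
        exact_mod_cast Nat.succ_le_succ (Nat.zero_le c)
    _ ≤ ν w + ((c + 1 : ℕ) : ℕ∞) * ν U := le_add_self

/-- **Equality ⇒ locally principal.**  If `ν U = N * ν x` is finite and positive for an order
function `ν` at `n` which is positive on `n`, then `P` is generated by `x` locally at `n`. -/
theorem hgen_of_ordLike_eq [IsNoetherianRing B] [IsIntegrallyClosed B]
    (n : Ideal B) [hn : n.IsPrime]
    (O : ValuationSubring F) (P : Ideal B) (hOP : IsLocDVR O P) (hPn : P ≤ n)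
    (U x : B) (N : ℕ) (hN : 0 < N)
    (hUunit : ∀ (O' : ValuationSubring F) (P' : Ideal B), IsLocDVR O' P' → P' ≤ n → P' ≠ P →
      U ∉ P')
    (ϖ : O) (hϖ : Irreducible ϖ) (u : Oˣ)
    (hU : algebraMap B F U = (u : O) * (ϖ : F) ^ N)
    (hxP : x ∈ P) (hx0 : x ≠ 0)
    (ν : B → ℕ∞) (hmul : ∀ a b, ν (a * b) = ν a + ν b) (hunit : ∀ a, a ∉ n → ν a = 0)
    (hpos : ∀ a, a ∈ n → 1 ≤ ν a)
    (k : ℕ) (hk : 0 < k) (hνU : ν U = k) (hνx : (N : ℕ∞) * ν x = k) :
    ∀ a ∈ P, ∃ g : B, g ∉ n ∧ ∃ c : B, g * a = x * c := by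
  obtain ⟨c, s, w, hs, hsw⟩ :=
    exists_pow_eq_mul_pow_chart n O P hOP hPn U x N hUunit ϖ hϖ u hU hxP hx0
  have hpow : ∀ (a : B) (j : ℕ), ν (a ^ j) = j * ν a := by
    intro a j
    induction j with
    | zero =>
      rw [pow_zero, Nat.cast_zero, zero_mul]
      exact hunit 1 (fun h => hn.ne_top ((Ideal.eq_top_iff_one _).2 h))
    | succ j ih => rw [pow_succ, hmul, ih, Nat.cast_succ, add_mul, one_mul]
  have h1 := congrArg ν hsw
  rw [hmul, hmul, hpow, hpow, hunit s hs, zero_add, hνx, hνU] at h1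
  -- `k = ν w + (c+1) k` in `ℕ∞`
  have hwfin : ν w ≠ ⊤ := by
    intro htop
    rw [htop, top_add] at h1
    exact ENat.coe_ne_top k h1
  obtain ⟨a, ha⟩ := ENat.ne_top_iff_exists.1 hwfin
  rw [← ha] at h1
  have h2 : k = a + (c + 1) * k := by exact_mod_cast h1
  have hc : c = 0 := by
    by_contra hc0
    have : 1 ≤ c := Nat.pos_of_ne_zero hc0
    nlinarith
  subst hc
  have ha0 : a = 0 := by omega
  have hwn : w ∉ n := by
    intro hw
    have := hpos w hw
    rw [← ha, ha0] at this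
    simp at this
  have hsw' : s * x ^ N = w * U := by simpa using hsw
  exact hgen_of_pow_eq_chart n O P hOP hPn U x N hN hUunit ϖ hϖ u hU hxP hx0 s w hs hwn hsw'

end Chart

end Fermat.Agent.S36.H996

end
-- ===== PACK-END S36/H996/PUIneq.lean

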