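import Mathlib
import Fermat.Prelude.Def_FLTPrelim_ModularRep
import Fermat.Prelude.Def_FreyPackage_LevelRaising
import Fermat.Agent.Pack.S43GC.G0E9L0
import Fermat.Agent.Pack.S43MC.G0E10L2
import Fermat.Agent.Pack.S43GC.G0E5L0
import Fermat.Agent.Pack.S59C.E1L0
import Fermat.Agent.Pack.S59C.E2L1
import Fermat.Agent.Pack.S59C.E2L2
import Fermat.Agent.Pack.S43MC.G0E12L0
import Fermat.Agent.Pack.S43GC.G0E2L0
import Fermat.Agent.Pack.S59C.E2L0
import Fermat.Agent.Pack.S43GC.G0E8L0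
import Fermat.Agent.Pack.S43GC.G0E0L0
import Fermat.Agent.Pack.S43GC.G0E5L3
import Fermat.Agent.Pack.S59C.E0L1
import Fermat.Agent.Pack.S43MC.G0E10L3
import Fermat.Agent.Pack.S43MC.G0E7L3
import Fermat.Agent.Pack.S43GC.G0E7L1
import Fermat.Agent.Pack.S43MC.G0E4L0
import Fermat.Agent.Pack.S59C.E2L3

set_option linter.all false

-- ===== PACK-BEGIN S59/NM/Spec.lean
section



/-!
# Row S59, cell NM (`Σ → Σ ∪ {q}`) — frozen interface (sub-architect helper585)

Board: `coord/S59.md` §2, memo `coord/S59-NM-helper585.md`.  Only definitions here.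

## Why a stronger invariant
`Arch.RTIso` (bijectivity of `R_Σ → T_Σ` and `#Φ_R = #(𝒪/η_T)`) is NOT an induction invariant:
the Hecke inequality `η_{Σ ∪ q} ⊆ c_q · η_Σ` needs the cohomological meaning of `η_Σ`
(Wiles: multiplicity one; Diamond: `M_Σ` free).  We carry it in NUMERICAL form:

    RTIsoPlus a Σ  :=  RTIso Σ, with an `𝒪`-point `π` of `T_Σ` of eigenvalues `a l` (`l ∉ Σ`), and
                       η_{T_Σ}(π) = δ₀(a) · ∏_{q ∈ Σ ∖ Smin} (c_q(a)),

`δ₀(a)` = ideal of the values `B(x, y)` of the Manin pairing on the `a`-eigenclasses of the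
MINIMAL level `N_min`, `c_q(a) = (q - 1)(a_q² - (q + 1)²)`.

## The proof of the step (all on Betti cohomology `X_n(A) = Hom(Γ₀(n), A)`, `S41/Spec/HK.lean`)
* `SelStatement`   (Galois side)  `#Φ_{R'} ≤ #Φ_R · #(𝒪/c_q)`.
* `EtaAbsStatement` (Hecke side)  `η_{T_Σ}(π) ⊆ δ₀ ∏ c_q`, from
  - `BettiBound n S a J` : a PRIMITIVE eigenclass `x` of level `n` with `B(x, y) ∈ J` for every
    eigenclass `y`;
  - `EtaOfBoundStatement` : `BettiBound N_Σ Σ a J ⇒ η_{T_Σ}(π) ⊆ J` (perfect pairing over `𝒪`,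
    the Hecke algebra acts on `C_N(𝒪)` by self-adjoint operators: Eichler–Shimura bridge);
  - `BoundStepStatement` : `BettiBound N S a J ⇒ BettiBound (N q²) (S ∪ q) a (c_q J)`
    (`x' = ξ x`, `ξ = q P₁ - a_q P₂ + P₃`, `P₁ = r₁ r₁`, `P₂ = r₁ r₂ = r₂ r₁`, `P₃ = r₂ r₂`;
    `ξ† P₁ = -c_q`, `ξ† P₂ = ξ† P₃ = 0`; leaves `HK2Statement`, `OldStatement`,
    `Ihara2Statement`).
* numerical criterion `Fermat.Agent.S59.H427.numerical_criterion_eta` closes the step, and the
  equalities propagate the invariant.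
* `BaseStatement` : at the minimal level the invariant follows from `M` free over `T`
  (output of the Taylor–Wiles cell, S57).
-/

set_option autoImplicit false

open Polynomial IsLocalRing CongruenceSubgroup
open scoped MatrixGroups

namespace Fermat.Agent.S59.NM

open Fermat.Agent.S59.Arch Fermat.Agent.S41.Spec Fermat.Agent.S29.H642

/-! ## 1. Definitions -/

/-- The eigenvalue `χ(T_l)` of a character of the Hecke algebra (`0` if `l` is not a prime
outside `S` not dividing `N`). -/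
noncomputable def eig {N : ℕ} [NeZero N] {S : Set ℕ} {A : Type} [Semiring A]
    (χ : CuspForm.heckeAlgebra N 2 S →+* A) (l : ℕ) : A :=
  open Classical in
  if h : l.Prime ∧ ¬ l ∣ N ∧ l ∉ S then χ (CuspForm.heckeAlgebra.T h.1 h.2.1 h.2.2) else 0

theorem eig_eq {N : ℕ} [NeZero N] {S : Set ℕ} {A : Type} [Semiring A]
    (χ : CuspForm.heckeAlgebra N 2 S →+* A) {l : ℕ} (hl : l.Prime) (hlN : ¬ l ∣ N)
    (hlS : l ∉ S) : eig χ l = χ (CuspForm.heckeAlgebra.T hl hlN hlS) := by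
  unfold eig
  rw [dif_pos ⟨hl, hlN, hlS⟩]

section Betti

variable {𝒪 : Type} [CommRing 𝒪]

/-- **Betti eigenclasses** of level `n` away from `S` for the system of eigenvalues `a`:
cuspidal homomorphisms `x : Γ₀(n) → 𝒪` with `T_l x = a_l x` for all primes `l ∤ n`, `l ∉ S`. -/
def IsEigenclass (n : ℕ) (S : Finset ℕ) (a : ℕ → 𝒪) (x : Additive (Gamma0 n) →+ 𝒪) : Prop :=
  IsCuspidal x ∧
    ∀ (l : ℕ) [Fact l.Prime] (hl : ¬ l ∣ n), l ∉ S → heckeTransfer hl x = a l • x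

/-- `x` is primitive: some value of `x` is a unit (`𝒪` local). -/
def IsPrim {n : ℕ} (x : Additive (Gamma0 n) →+ 𝒪) : Prop :=
  ∃ γ : Gamma0 n, IsUnit (x (Additive.ofMul γ))

/-- **The cohomological congruence ideal** `δ(a)` of level `n`: the ideal of the values of the
Manin pairing on pairs of eigenclasses. -/
def cohCong (n : ℕ) (S : Finset ℕ) (a : ℕ → 𝒪) : Ideal 𝒪 :=
  Ideal.span {c | ∃ x y : Additive (Gamma0 n) →+ 𝒪,
    _root_.Fermat.Agent.S59.NM.IsEigenclass n S a x ∧ _root_.Fermat.Agent.S59.NM.IsEigenclass n S a y ∧ maninPairing (Gamma0 n) x y = c}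

/-- `c_q(a) = (q - 1)(a_q² - (q + 1)²)`. -/
def cq (a : ℕ → 𝒪) (q : ℕ) : 𝒪 := ((q : 𝒪) - 1) * (a q ^ 2 - ((q : 𝒪) + 1) ^ 2)

/-- **The Betti bound**: a primitive eigenclass `x` of level `n` all of whose pairings with
eigenclasses lie in `J`. -/
def BettiBound (n : ℕ) (S : Finset ℕ) (a : ℕ → 𝒪) (J : Ideal 𝒪) : Prop :=
  ∃ x : Additive (Gamma0 n) →+ 𝒪, _root_.Fermat.Agent.S59.NM.IsEigenclass n S a x ∧ IsPrim x ∧
    ∀ y : Additive (Gamma0 n) →+ 𝒪, _root_.Fermat.Agent.S59.NM.IsEigenclass n S a y → maninPairing (Gamma0 n) x y ∈ J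

/-- The three degeneracy maps `X_N → X_{N q²}` (pull-backs along `τ ↦ τ, qτ, q²τ`). -/
def P₁ (N q : ℕ) {A : Type*} [AddCommGroup A] (φ : Additive (Gamma0 N) →+ A) :
    Additive (Gamma0 (N * q * q)) →+ A := r₁ (N * q) q (r₁ N q φ)

/-- The middle degeneracy map. -/
def P₂ (N q : ℕ) {A : Type*} [AddCommGroup A] (φ : Additive (Gamma0 N) →+ A) :
    Additive (Gamma0 (N * q * q)) →+ A := r₁ (N * q) q (r₂ N q φ)

/-- The third degeneracy map. -/
def P₃ (N q : ℕ) {A : Type*} [AddCommGroup A] (φ : Additive (Gamma0 N) →+ A) :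
    Additive (Gamma0 (N * q * q)) →+ A := r₂ (N * q) q (r₂ N q φ)

end Betti

/-! ## 2. The invariant -/

section RT

variable (p : ℕ) [Fact p.Prime]
  (𝒪 : Type) [CommRing 𝒪] [IsDomain 𝒪] [IsDiscreteValuationRing 𝒪]
  [IsAdicComplete (maximalIdeal 𝒪) 𝒪]
  (ρbar : ResidualGaloisRep (ResidueField 𝒪))

/-- The ideal `δ₀(a) · ∏_{q ∈ Σ ∖ Smin} (c_q(a))`. -/
noncomputable def targetIdeal (t : PType) (Smin Sig : Finset ℕ) (a : ℕ → 𝒪) : Ideal 𝒪 :=
  cohCong (wilesLevel p t Smin Smin) Smin a * ∏ q ∈ Sig \ Smin, Ideal.span {cq a q}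

/-- **`R_Σ ≅ T_Σ` with the cohomological invariant** (see the header).  Same data as
`Arch.RTIso`; the `𝒪`-point `π` has the eigenvalues `a l` (`l ∉ Σ`) and
`η_T(π) = δ₀(a) ∏ c_q(a)`. -/
def RTIsoPlus (t : PType) (Smin Sig : Finset ℕ) (a : ℕ → 𝒪) : Prop :=
  ∃ (_ : NeZero (wilesLevel p t Smin Sig))
    (_ : Fact (CuspForm.HasIntegralStructure (wilesLevel p t Smin Sig) 2))
    (θ : CuspForm.heckeAlgebra (wilesLevel p t Smin Sig) 2 (↑Sig : Set ℕ) →+* ResidueField 𝒪)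
    (_ : IsLocalRing (CuspForm.heckeLocal (wilesLevel p t Smin Sig) (↑Sig : Set ℕ) 𝒪 θ))
    (_ : IsNoetherianRing (CuspForm.heckeLocal (wilesLevel p t Smin Sig) (↑Sig : Set ℕ) 𝒪 θ))
    (_ : IsAdicComplete
      (maximalIdeal (CuspForm.heckeLocal (wilesLevel p t Smin Sig) (↑Sig : Set ℕ) 𝒪 θ))
      (CuspForm.heckeLocal (wilesLevel p t Smin Sig) (↑Sig : Set ℕ) 𝒪 θ))
    (_ : IsLocalHom
      (algebraMap 𝒪 (CuspForm.heckeLocal (wilesLevel p t Smin Sig) (↑Sig : Set ℕ) 𝒪 θ)))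
    (_ : Module.Finite 𝒪 (CuspForm.heckeLocal (wilesLevel p t Smin Sig) (↑Sig : Set ℕ) 𝒪 θ))
    (_ : Module.Free 𝒪 (CuspForm.heckeLocal (wilesLevel p t Smin Sig) (↑Sig : Set ℕ) 𝒪 θ))
    (H : CuspForm.HeckeGaloisRepDatum (wilesLevel p t Smin Sig) (↑Sig : Set ℕ) 𝒪 θ
      (CuspForm.heckeLocal (wilesLevel p t Smin Sig) (↑Sig : Set ℕ) 𝒪 θ)),
    H.π = CuspForm.heckeLocal.π (wilesLevel p t Smin Sig) (↑Sig : Set ℕ) 𝒪 θ ∧
    H.ρ.residual.IsEquiv (ρbar.baseChangeAlong (ResidueField.map (algebraMap 𝒪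
      (CuspForm.heckeLocal (wilesLevel p t Smin Sig) (↑Sig : Set ℕ) 𝒪 θ)))) ∧
    sigmaCond 𝒪 p t Smin Sig H.ρ ∧
    ∃ π : CuspForm.heckeLocal (wilesLevel p t Smin Sig) (↑Sig : Set ℕ) 𝒪 θ →ₐ[𝒪] 𝒪,
      (∀ (l : ℕ) (hl : l.Prime) (hlN : ¬ l ∣ wilesLevel p t Smin Sig)
        (hlS : l ∉ (↑Sig : Set ℕ)),
        π (CuspForm.heckeLocal.π (wilesLevel p t Smin Sig) (↑Sig : Set ℕ) 𝒪 θ
          (CuspForm.heckeAlgebra.T hl hlN hlS)) = a l) ∧
      NC.congIdeal π = targetIdeal p 𝒪 t Smin Sig a ∧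
      ∀ (D : GaloisRep.DeformationRingData 𝒪 ρbar (sigmaCond 𝒪 p t Smin Sig))
        (φ : D.R →ₐ[𝒪] CuspForm.heckeLocal (wilesLevel p t Smin Sig) (↑Sig : Set ℕ) 𝒪 θ),
        (∃ hφ : IsLocalHom
            (φ : D.R →+* CuspForm.heckeLocal (wilesLevel p t Smin Sig) (↑Sig : Set ℕ) 𝒪 θ),
          (D.ρ.baseChangeAlong
            (φ : D.R →+* CuspForm.heckeLocal (wilesLevel p t Smin Sig) (↑Sig : Set ℕ) 𝒪 θ)
            hφ).IsEquiv H.ρ) →
        Function.Bijective φ ∧ Finite (NC.Cot (π.comp φ)) ∧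
          Nat.card (NC.Cot (π.comp φ)) = Nat.card (𝒪 ⧸ NC.congIdeal π)

omit [Fact p.Prime] in
theorem RTIsoPlus.rtIso {t : PType} {Smin Sig : Finset ℕ} {a : ℕ → 𝒪}
    (h : RTIsoPlus p 𝒪 ρbar t Smin Sig a) : RTIso p 𝒪 ρbar t Smin Sig := by
  obtain ⟨i1, i2, θ, i3, i4, i5, i6, i7, i8, H, h1, h2, h3, π, -, -, h4⟩ := h
  exact ⟨i1, i2, θ, i3, i4, i5, i6, i7, i8, H, h1, h2, h3, fun D φ hφ =>
    ⟨(h4 D φ hφ).1, π, (h4 D φ hφ).2⟩⟩

end RT

/-! ## 3. The cells, `Plus` form -/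

/-- **Cell TW, `Plus` form.**  Hypotheses of `Arch.MinRTStatement`; the conclusion carries the
invariant for `a = eig χ`: `η_{T_min}(π_χ) = δ₀(χ)`.  (From `M_min` free over `T_min`, S57, by
`BaseStatement`.) -/
def MinRTPlusStatement : Prop :=
  ∀ (p : ℕ) [Fact p.Prime]
    (𝒪 : Type) [CommRing 𝒪] [IsDomain 𝒪] [IsDiscreteValuationRing 𝒪]
    [IsAdicComplete (maximalIdeal 𝒪) 𝒪] [Finite (ResidueField 𝒪)] [CharZero 𝒪]
    (ρbar : ResidualGaloisRep (ResidueField 𝒪)) (Smin : Finset ℕ)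
    (_h : ResidualHyp p 𝒪 ρbar Smin) (t : PType)
    (_ht : (t = .flat ∧ (GaloisRepAdic.ofResidualGaloisRep ρbar).IsFlatAt p) ∨
      (t = .sord ∧ (GaloisRepAdic.ofResidualGaloisRep ρbar).IsStrictOrdinaryAt p ∧
        ¬ (GaloisRepAdic.ofResidualGaloisRep ρbar).IsFlatAt p))
    (_hN : NeZero (wilesLevel p t Smin Smin))
    (χ : CuspForm.heckeAlgebra (wilesLevel p t Smin Smin) 2 (↑Smin : Set ℕ) →+* 𝒪)
    (_hχ : G4.ResFrobCond ρbar ((residue 𝒪).comp χ)),
    RTIsoPlus p 𝒪 ρbar t Smin Smin (eig χ)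

/-- **Cell NM, `Plus` form** (`t ≠ .ord`; the glue only uses `.flat` and `.sord`). -/
def NonMinStepPlusStatement : Prop :=
  ∀ (p : ℕ) [Fact p.Prime]
    (𝒪 : Type) [CommRing 𝒪] [IsDomain 𝒪] [IsDiscreteValuationRing 𝒪]
    [IsAdicComplete (maximalIdeal 𝒪) 𝒪] [Finite (ResidueField 𝒪)] [CharZero 𝒪]
    (ρbar : ResidualGaloisRep (ResidueField 𝒪)) (Smin : Finset ℕ)
    (_h : ResidualHyp p 𝒪 ρbar Smin) (t : PType) (_ht : t ≠ .ord)
    (_hN : NeZero (wilesLevel p t Smin Smin))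
    (χ : CuspForm.heckeAlgebra (wilesLevel p t Smin Smin) 2 (↑Smin : Set ℕ) →+* 𝒪)
    (_hχ : G4.ResFrobCond ρbar ((residue 𝒪).comp χ))
    (Sig : Finset ℕ) (_hSig : Smin ⊆ Sig) (_hSigP : ∀ q ∈ Sig, q.Prime)
    (q : ℕ) (_hq : q.Prime) (_hqS : q ∉ Sig),
    RTIsoPlus p 𝒪 ρbar t Smin Sig (eig χ) → RTIsoPlus p 𝒪 ρbar t Smin (insert q Sig) (eig χ)

/-- **Cell NMP, `Plus` form**: the input carries the invariant, the output is `Arch.RTIso`. -/
def NonMinPPlusStatement : Prop :=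
  ∀ (p : ℕ) [Fact p.Prime]
    (𝒪 : Type) [CommRing 𝒪] [IsDomain 𝒪] [IsDiscreteValuationRing 𝒪]
    [IsAdicComplete (maximalIdeal 𝒪) 𝒪] [Finite (ResidueField 𝒪)] [CharZero 𝒪]
    (ρbar : ResidualGaloisRep (ResidueField 𝒪)) (Smin : Finset ℕ)
    (_h : ResidualHyp p 𝒪 ρbar Smin)
    (_hN : NeZero (wilesLevel p .flat Smin Smin))
    (χ : CuspForm.heckeAlgebra (wilesLevel p .flat Smin Smin) 2 (↑Smin : Set ℕ) →+* 𝒪)
    (_hχ : G4.ResFrobCond ρbar ((residue 𝒪).comp χ))
    (Sig : Finset ℕ) (_hSig : Smin ⊆ Sig) (_hSigP : ∀ q ∈ Sig, q.Prime)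
    (_hord : (GaloisRepAdic.ofResidualGaloisRep ρbar).IsOrdinaryAt p),
    RTIsoPlus p 𝒪 ρbar .flat Smin Sig (eig χ) → RTIso p 𝒪 ρbar .ord Smin Sig

/-! ## 4. Leaves of cell NM -/

/-- **NM-SEL** (Galois side).  `x`, `x'` are `𝒪`-points of the universal rings of type `Σ`,
`Σ ∪ {q}` with the same representation `ρ_x`, and `X² - a_q X + q` is the characteristic
polynomial of a Frobenius at `q` on `ρ_x` (unramified at `q`).  Then
`#Φ_{x'} ≤ #Φ_x · #(𝒪/c_q)`, `c_q = (q - 1)(a_q² - (q + 1)²) ≠ 0`. -/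
def SelStatement : Prop :=
  ∀ (p : ℕ) [Fact p.Prime]
    (𝒪 : Type) [CommRing 𝒪] [IsDomain 𝒪] [IsDiscreteValuationRing 𝒪]
    [IsAdicComplete (maximalIdeal 𝒪) 𝒪] [Finite (ResidueField 𝒪)] [CharZero 𝒪]
    (ρbar : ResidualGaloisRep (ResidueField 𝒪)) (Smin : Finset ℕ)
    (_h : ResidualHyp p 𝒪 ρbar Smin) (t : PType) (_ht : t ≠ .ord)
    (Sig : Finset ℕ) (_hSig : Smin ⊆ Sig) (_hSigP : ∀ q ∈ Sig, q.Prime)
    (q : ℕ) (_hq : q.Prime) (_hqS : q ∉ Sig)
    (D : GaloisRep.DeformationRingData 𝒪 ρbar (sigmaCond 𝒪 p t Smin Sig))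
    (D' : GaloisRep.DeformationRingData 𝒪 ρbar (sigmaCond 𝒪 p t Smin (insert q Sig)))
    (x : D.R →ₐ[𝒪] 𝒪) (x' : D'.R →ₐ[𝒪] 𝒪)
    (hx : IsLocalHom (x : D.R →+* 𝒪)) (hx' : IsLocalHom (x' : D'.R →+* 𝒪))
    (_hxx' : (D'.ρ.baseChangeAlong (x' : D'.R →+* 𝒪) hx').IsEquiv
      (D.ρ.baseChangeAlong (x : D.R →+* 𝒪) hx))
    (aq : 𝒪)
    (_haq : ∀ B : ValuationSubring Fermat.Agent.S31.Qb, B.LiesOverPrime q →
      ∀ σ : Fermat.Agent.S31.GQ, B.IsFrobeniusAt σ q →
        LinearMap.charpoly ((D.ρ.baseChangeAlong (x : D.R →+* 𝒪) hx).ρ σ) =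
          X ^ 2 - C aq * X + C ((q : 𝒪)))
    (_hc : ((q : 𝒪) - 1) * (aq ^ 2 - ((q : 𝒪) + 1) ^ 2) ≠ 0),
    Finite (NC.Cot x) →
    Finite (NC.Cot x') ∧
      Nat.card (NC.Cot x') ≤ Nat.card (NC.Cot x) *
        Nat.card (𝒪 ⧸ Ideal.span {((q : 𝒪) - 1) * (aq ^ 2 - ((q : 𝒪) + 1) ^ 2)})

/-- **NM-OLD-CHAR** (part of NM-RES): an eigensystem of level `N` away from `S` is an eigensystem
of level `N' = N q²` away from `S ∪ {q}` (restriction of the Hecke operators to the forms of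
level `N`). -/
def OldCharStatement : Prop :=
  ∀ (N N' q : ℕ) [NeZero N] [NeZero N'] (_hN' : N' = N * q ^ 2) (_hq : q.Prime)
    (S : Finset ℕ) (A : Type) [CommRing A]
    (χ : CuspForm.heckeAlgebra N 2 (↑S : Set ℕ) →+* A),
    ∃ χ' : CuspForm.heckeAlgebra N' 2 (↑(insert q S) : Set ℕ) →+* A,
      ∀ (l : ℕ) (hl : l.Prime) (hlN' : ¬ l ∣ N') (hlS' : l ∉ (↑(insert q S) : Set ℕ))
        (hlN : ¬ l ∣ N) (hlS : l ∉ (↑S : Set ℕ)),
        χ' (CuspForm.heckeAlgebra.T hl hlN' hlS') = χ (CuspForm.heckeAlgebra.T hl hlN hlS)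

/-- **NM-ETA, absolute form** (Hecke side): `η_{T_Σ}(π) ⊆ δ₀(χ) · ∏_{q ∈ Σ ∖ Smin} (c_q)` for
the `𝒪`-point `π` of `T_Σ` with the eigenvalues of `χ`, provided `δ₀(χ) ≠ 0`. -/
def EtaAbsStatement : Prop :=
  ∀ (p : ℕ) [Fact p.Prime]
    (𝒪 : Type) [CommRing 𝒪] [IsDomain 𝒪] [IsDiscreteValuationRing 𝒪]
    [IsAdicComplete (maximalIdeal 𝒪) 𝒪] [Finite (ResidueField 𝒪)] [CharZero 𝒪]
    (ρbar : ResidualGaloisRep (ResidueField 𝒪)) (Smin : Finset ℕ)
    (_h : ResidualHyp p 𝒪 ρbar Smin) (t : PType) (_ht : t ≠ .ord)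
    (_hN : NeZero (wilesLevel p t Smin Smin))
    (χ : CuspForm.heckeAlgebra (wilesLevel p t Smin Smin) 2 (↑Smin : Set ℕ) →+* 𝒪)
    (_hχ : G4.ResFrobCond ρbar ((residue 𝒪).comp χ))
    (_hδ : cohCong (wilesLevel p t Smin Smin) Smin (eig χ) ≠ ⊥)
    (Sig : Finset ℕ) (_hSig : Smin ⊆ Sig) (_hSigP : ∀ q ∈ Sig, q.Prime)
    (_hNS : NeZero (wilesLevel p t Smin Sig))
    (_hint : Fact (CuspForm.HasIntegralStructure (wilesLevel p t Smin Sig) 2))
    (θ : CuspForm.heckeAlgebra (wilesLevel p t Smin Sig) 2 (↑Sig : Set ℕ) →+* ResidueField 𝒪)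
    (π : CuspForm.heckeLocal (wilesLevel p t Smin Sig) (↑Sig : Set ℕ) 𝒪 θ →ₐ[𝒪] 𝒪)
    (_hπ : ∀ (l : ℕ) (hl : l.Prime) (hlN : ¬ l ∣ wilesLevel p t Smin Sig)
      (hlS : l ∉ (↑Sig : Set ℕ)),
      π (CuspForm.heckeLocal.π (wilesLevel p t Smin Sig) (↑Sig : Set ℕ) 𝒪 θ
        (CuspForm.heckeAlgebra.T hl hlN hlS)) = eig χ l),
    NC.congIdeal π ≤ targetIdeal p 𝒪 t Smin Sig (eig χ)

/-! ## 5. Leaves of NM-ETA (Betti cohomology) -/

/-- The eigenvalues `a l` reduce to the Frobenius traces of `ρ̄` (at the primes `l ∉ S`). -/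
def IsFrobSystem {𝒪 : Type} [CommRing 𝒪] [IsLocalRing 𝒪]
    (ρbar : ResidualGaloisRep (ResidueField 𝒪)) (S : Finset ℕ) (a : ℕ → 𝒪) : Prop :=
  ∀ (l : ℕ), l.Prime → l ∉ S →
    ∀ B : ValuationSubring Fermat.Agent.S31.Qb, B.LiesOverPrime l →
      ∀ σ : Fermat.Agent.S31.GQ, B.IsFrobeniusAt σ l →
        LinearMap.charpoly (ρbar.ρ σ) =
          X ^ 2 - C (residue 𝒪 (a l)) * X + C ((l : ResidueField 𝒪))

/-- **ETA-OF-BOUND.**  `BettiBound N S a J ⇒ η_T(π) ⊆ J` for `T = heckeLocal N S 𝒪 θ` and the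
point `π` of eigenvalues `a`.
Proof: `e ∈ Ann(ker π)` lifts to `ẽ ∈ 𝒪 ⊗ 𝕋` (`T` is a direct factor), `𝒪 ⊗ 𝕋` acts on `C_N(𝒪)`
(Eichler–Shimura bridge: a relation between the `T_l` on cusp forms holds on `C_N(ℤ)`) by
operators which are self-adjoint for the Manin pairing; the pairing is perfect over `𝒪`, so
`B(x, m) = 1` for some cuspidal `m`, and `π(e) = B(ẽ x, m) = B(x, ẽ m) ∈ J` since `ẽ m` is an
eigenclass. -/
def EtaOfBoundStatement : Prop :=
  ∀ (p : ℕ) [Fact p.Prime]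
    (𝒪 : Type) [CommRing 𝒪] [IsDomain 𝒪] [IsDiscreteValuationRing 𝒪]
    [IsAdicComplete (maximalIdeal 𝒪) 𝒪] [Finite (ResidueField 𝒪)] [CharZero 𝒪]
    (_hp𝒪 : (p : 𝒪) ∈ maximalIdeal 𝒪)
    (N : ℕ) [NeZero N] [Fact (CuspForm.HasIntegralStructure N 2)] (S : Finset ℕ)
    (_hNS : ∀ r : ℕ, r.Prime → r ∣ N → r ∈ S)
    (θ : CuspForm.heckeAlgebra N 2 (↑S : Set ℕ) →+* ResidueField 𝒪)
    (π : CuspForm.heckeLocal N (↑S : Set ℕ) 𝒪 θ →ₐ[𝒪] 𝒪) (a : ℕ → 𝒪)
    (_hπ : ∀ (l : ℕ) (hl : l.Prime) (hlN : ¬ l ∣ N) (hlS : l ∉ (↑S : Set ℕ)),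
      π (CuspForm.heckeLocal.π N (↑S : Set ℕ) 𝒪 θ (CuspForm.heckeAlgebra.T hl hlN hlS)) = a l)
    (J : Ideal 𝒪), BettiBound N S a J → NC.congIdeal π ≤ J

/-- **BOUND-STEP.**  `BettiBound N S a J ⇒ BettiBound (N q²) (S ∪ {q}) a ((c_q) J)` for a
non-Eisenstein system `a` (`ρ̄` absolutely irreducible), `q ∤ N`, `q ∉ S ∋ p`. -/
def BoundStepStatement : Prop :=
  ∀ (p : ℕ) [Fact p.Prime] (_hp2 : p ≠ 2)
    (𝒪 : Type) [CommRing 𝒪] [IsDomain 𝒪] [IsDiscreteValuationRing 𝒪]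
    [IsAdicComplete (maximalIdeal 𝒪) 𝒪] [Finite (ResidueField 𝒪)] [CharZero 𝒪]
    (_hp𝒪 : (p : 𝒪) ∈ maximalIdeal 𝒪)
    (ρbar : ResidualGaloisRep (ResidueField 𝒪)) (_habs : ρbar.IsAbsolutelyIrreducible)
    (_hsplit : ∀ σ : AlgebraicClosure ℚ ≃ₐ[ℚ] AlgebraicClosure ℚ,
      ∃ α β : ResidueField 𝒪, LinearMap.charpoly (ρbar.ρ σ) = (X - C α) * (X - C β))
    (N N' q : ℕ) (_hN : N ≠ 0) (_hN' : N' = N * q * q) (_hq : q.Prime) (_hqN : ¬ q ∣ N)
    (S : Finset ℕ) (_hpS : p ∈ S) (_hqS : q ∉ S)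
    (_hNS : ∀ r : ℕ, r.Prime → r ∣ N → r ∈ S)
    (a : ℕ → 𝒪) (_ha : IsFrobSystem ρbar S a) (J : Ideal 𝒪),
    BettiBound N S a J → BettiBound N' (insert q S) a (Ideal.span {cq a q} * J)

/-- **HK2**: the Betti relations of the second stage `N q → N q²` (`q ∤ N`), to be combined with
HK-3, HK-4 of `S41/Spec/HK.lean` (first stage):
`r₂' r₁ = r₁' r₂`;  `t₁' r₁' = q = t₂' r₂'`;  `t₁' r₂' r₂ = r₂ T_q - r₁`;
`t₂' r₁' r₁ = r₁ T_q - r₂`  (`r_i' = r_i (N q) q`, `t_i' = t_i (N q) q`). -/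
def HK2Statement : Prop :=
  ∀ (N q : ℕ) [Fact q.Prime] (hq : ¬ q ∣ N), N ≠ 0 → ∀ (A : Type) [AddCommGroup A],
    (∀ φ : Additive (Gamma0 N) →+ A,
      r₂ (N * q) q (r₁ N q φ) = r₁ (N * q) q (r₂ N q φ) ∧
      t₁ (N * q) q (r₂ (N * q) q (r₂ N q φ)) = r₂ N q (heckeTransfer hq φ) - r₁ N q φ ∧
      t₂ (N * q) q (r₁ (N * q) q (r₁ N q φ)) = r₁ N q (heckeTransfer hq φ) - r₂ N q φ) ∧
    (∀ ψ : Additive (Gamma0 (N * q)) →+ A,
      t₁ (N * q) q (r₁ (N * q) q ψ) = q • ψ ∧ t₂ (N * q) q (r₂ (N * q) q ψ) = q • ψ)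

/-- **ADJ2**: adjunction of `r_i` and `t_i` for the Manin pairing over any domain, at BOTH stages
(no hypothesis `q ∤ N`), and self-adjointness of `T_l`. -/
def Adj2Statement : Prop :=
  ∀ (R : Type) [CommRing R] [IsDomain R] (N q : ℕ), N ≠ 0 → q.Prime →
    (∀ (x : Additive (Gamma0 N) →+ R) (y : Additive (Gamma0 (N * q)) →+ R),
      IsCuspidal x → IsCuspidal y →
      maninPairing (Gamma0 (N * q)) (r₁ N q x) y = maninPairing (Gamma0 N) x (t₁ N q y) ∧
      maninPairing (Gamma0 (N * q)) (r₂ N q x) y = maninPairing (Gamma0 N) x (t₂ N q y)) ∧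
    (∀ (l : ℕ) [Fact l.Prime] (hl : ¬ l ∣ N) (x y : Additive (Gamma0 N) →+ R),
      IsCuspidal x → IsCuspidal y →
      maninPairing (Gamma0 N) (heckeTransfer hl x) y =
        maninPairing (Gamma0 N) x (heckeTransfer hl y))

/-- **PERF**: the Manin pairing on the cuspidal classes with coefficients in a DVR is perfect:
a primitive cuspidal class pairs to `1` with some cuspidal class. -/
def PerfStatement : Prop :=
  ∀ (𝒪 : Type) [CommRing 𝒪] [IsDomain 𝒪] [IsDiscreteValuationRing 𝒪] (n : ℕ), n ≠ 0 →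
    ∀ x : Additive (Gamma0 n) →+ 𝒪, IsCuspidal x → IsPrim x →
      ∃ m : Additive (Gamma0 n) →+ 𝒪, IsCuspidal m ∧ maninPairing (Gamma0 n) x m = 1

/-- **OLD** (characteristic `0`): an eigenclass of level `N q²` away from `S ∪ {q}`, for a system
`a` which occurs in level `N`, is old: `y = P₁ z₁ + P₂ z₂ + P₃ z₃` with eigenclasses `z_i` of
level `N` away from `S` (in particular `T_q z_i = a_q z_i`), coefficients in the fraction field.
(Atkin–Lehner–Li: `Lib/Newform`; Eichler–Shimura: S21.) -/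
def OldStatement : Prop :=
  ∀ (K : Type) [Field K] [CharZero K] (N q : ℕ), N ≠ 0 → q.Prime → ¬ q ∣ N →
    ∀ (S : Finset ℕ), q ∉ S → (∀ r : ℕ, r.Prime → r ∣ N → r ∈ S) →
    ∀ (a : ℕ → K),
      (∃ x : Additive (Gamma0 N) →+ K, x ≠ 0 ∧ _root_.Fermat.Agent.S59.NM.IsEigenclass N S a x) →
      ∀ y : Additive (Gamma0 (N * q * q)) →+ K, _root_.Fermat.Agent.S59.NM.IsEigenclass (N * q * q) (insert q S) a y →
        ∃ z₁ z₂ z₃ : Additive (Gamma0 N) →+ K,
          _root_.Fermat.Agent.S59.NM.IsEigenclass N S a z₁ ∧ _root_.Fermat.Agent.S59.NM.IsEigenclass N S a z₂ ∧ _root_.Fermat.Agent.S59.NM.IsEigenclass N S a z₃ ∧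
          y = P₁ N q z₁ + P₂ N q z₂ + P₃ N q z₃

/-- **IHARA2** (Ihara's lemma for `N → N q²`, eigen form, coefficients in a finite field `k` of
characteristic `p ≠ q`): three eigenclasses `z_i` of level `N` for a non-Eisenstein system with
`P₁ z₁ + P₂ z₂ + P₃ z₃ = 0` vanish. -/
def Ihara2Statement : Prop :=
  ∀ (p : ℕ) [Fact p.Prime] (_hp2 : p ≠ 2) (k : Type) [Field k] [Finite k] [CharP k p]
    (ρbar : ResidualGaloisRep k) (_habs : ρbar.IsAbsolutelyIrreducible)
    (_hsplit : ∀ σ : AlgebraicClosure ℚ ≃ₐ[ℚ] AlgebraicClosure ℚ,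
      ∃ α β : k, LinearMap.charpoly (ρbar.ρ σ) = (X - C α) * (X - C β))
    (N q : ℕ) (_hN : N ≠ 0) (_hq : q.Prime) (_hqN : ¬ q ∣ N) (_hqp : q ≠ p)
    (S : Finset ℕ) (_hpS : p ∈ S) (a : ℕ → k)
    (_ha : ∀ (l : ℕ), l.Prime → l ∉ S →
      ∀ B : ValuationSubring Fermat.Agent.S31.Qb, B.LiesOverPrime l →
        ∀ σ : Fermat.Agent.S31.GQ, B.IsFrobeniusAt σ l →
          LinearMap.charpoly (ρbar.ρ σ) = X ^ 2 - C (a l) * X + C ((l : k)))
    (z₁ z₂ z₃ : Additive (Gamma0 N) →+ k),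
    _root_.Fermat.Agent.S59.NM.IsEigenclass N (insert q S) a z₁ → _root_.Fermat.Agent.S59.NM.IsEigenclass N (insert q S) a z₂ →
    _root_.Fermat.Agent.S59.NM.IsEigenclass N (insert q S) a z₃ →
    P₁ N q z₁ + P₂ N q z₂ + P₃ N q z₃ = 0 → z₁ = 0 ∧ z₂ = 0 ∧ z₃ = 0

/-- **BASE** (abstract; consumed by the Taylor–Wiles cell).  `T` a finite free local
`𝒪`-algebra, REDUCED, with an `𝒪`-point `π`; `M` a `T`-module, free of finite rank over `T`
(on a nonempty basis), with an `𝒪`-bilinear form `B` which is perfect and for which `T` is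
self-adjoint.  Then the ideal of the values of `B` on `M[ker π]` is `η_T(π)`. -/
def BaseStatement : Prop :=
  ∀ (𝒪 : Type) [CommRing 𝒪] [IsDomain 𝒪] [IsDiscreteValuationRing 𝒪]
    (T : Type) [CommRing T] [Algebra 𝒪 T] [Module.Finite 𝒪 T] [Module.Free 𝒪 T] [IsReduced T]
    (π : T →ₐ[𝒪] 𝒪)
    (M : Type) [AddCommGroup M] [Module 𝒪 M] [Module T M] [IsScalarTower 𝒪 T M]
    (ι : Type) [Finite ι] [Nonempty ι] (_b : Module.Basis ι T M)
    (B : M →ₗ[𝒪] M →ₗ[𝒪] 𝒪)
    (_hperf : ∀ f : M →ₗ[𝒪] 𝒪, ∃ m : M, ∀ m' : M, B m' m = f m')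
    (_hadj : ∀ (s : T) (m m' : M), B (s • m) m' = B m (s • m')),
    Ideal.span {c : 𝒪 | ∃ m m' : M, (∀ s : T, π s = 0 → s • m = 0) ∧
      (∀ s : T, π s = 0 → s • m' = 0) ∧ B m m' = c} = NC.congIdeal π

end Fermat.Agent.S59.NM

end
-- ===== PACK-END S59/NM/Spec.lean

-- ===== PACK-BEGIN S41/H41/GlueCore.lean
section









/-!
# S41 GLUE, part 2 (helper41): the `q`-new integral class (application of CORE)
-/

set_option autoImplicit false

open WeierstrassCurve WeierstrassCurve.Affine WeierstrassCurve.Affine.Point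
open scoped CongruenceSubgroup MatrixGroups

namespace Fermat.Agent.S41.H41

open CongruenceSubgroup Fermat.Agent.S29.H642 Fermat.Agent.S41.Spec

section Maps

variable (N q : ℕ)

/-- `r₁` as an additive map. -/
def r₁Add (A : Type*) [AddCommGroup A] :
    (Additive (Gamma0 N) →+ A) →+ (Additive (Gamma0 (N * q)) →+ A) :=
  AddMonoidHom.mk' (r₁ N q) (fun _ _ => rfl)

/-- `r₂` as an additive map. -/
def r₂Add (A : Type*) [AddCommGroup A] :
    (Additive (Gamma0 N) →+ A) →+ (Additive (Gamma0 (N * q)) →+ A) :=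
  AddMonoidHom.mk' (r₂ N q) (fun _ _ => rfl)

@[simp] theorem r₁Add_apply {A : Type*} [AddCommGroup A] (φ : Additive (Gamma0 N) →+ A) :
    r₁Add N q A φ = r₁ N q φ := rfl

@[simp] theorem r₂Add_apply {A : Type*} [AddCommGroup A] (φ : Additive (Gamma0 N) →+ A) :
    r₂Add N q A φ = r₂ N q φ := rfl

theorem r₁_comp {A B : Type*} [AddCommGroup A] [AddCommGroup B] (π : A →+ B)
    (φ : Additive (Gamma0 N) →+ A) : r₁ N q (π.comp φ) = π.comp (r₁ N q φ) := rfl

theorem r₂_comp {A B : Type*} [AddCommGroup A] [AddCommGroup B] (π : A →+ B)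
    (φ : Additive (Gamma0 N) →+ A) : r₂ N q (π.comp φ) = π.comp (r₂ N q φ) := rfl

variable {N q}

/-- `t₁` as an additive map (given functoriality). -/
noncomputable def t₁Add (hFun : FunctorialityStatement.{0}) (A : Type) [AddCommGroup A] :
    (Additive (Gamma0 (N * q)) →+ A) →+ (Additive (Gamma0 N) →+ A) :=
  AddMonoidHom.mk' (t₁ N q) (fun ψ ψ' => ((hFun N q A A (AddMonoidHom.id A)).2.1 ψ ψ').1)

/-- `t₂` as an additive map (given functoriality). -/
noncomputable def t₂Add (hFun : FunctorialityStatement.{0}) (A : Type) [AddCommGroup A] :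
    (Additive (Gamma0 (N * q)) →+ A) →+ (Additive (Gamma0 N) →+ A) :=
  AddMonoidHom.mk' (t₂ N q) (fun ψ ψ' => ((hFun N q A A (AddMonoidHom.id A)).2.1 ψ ψ').2)

@[simp] theorem t₁Add_apply (hFun : FunctorialityStatement.{0}) {A : Type} [AddCommGroup A]
    (ψ : Additive (Gamma0 (N * q)) →+ A) : t₁Add hFun A ψ = t₁ N q ψ := rfl

@[simp] theorem t₂Add_apply (hFun : FunctorialityStatement.{0}) {A : Type} [AddCommGroup A]
    (ψ : Additive (Gamma0 (N * q)) →+ A) : t₂Add hFun A ψ = t₂ N q ψ := rfl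

theorem t₁_comp (hFun : FunctorialityStatement.{0}) {A B : Type} [AddCommGroup A] [AddCommGroup B]
    (π : A →+ B) (ψ : Additive (Gamma0 (N * q)) →+ A) :
    t₁ N q (π.comp ψ) = π.comp (t₁ N q ψ) := ((hFun N q A B π).2.2.2 ψ).1

theorem t₂_comp (hFun : FunctorialityStatement.{0}) {A B : Type} [AddCommGroup A] [AddCommGroup B]
    (π : A →+ B) (ψ : Additive (Gamma0 (N * q)) →+ A) :
    t₂ N q (π.comp ψ) = π.comp (t₂ N q ψ) := ((hFun N q A B π).2.2.2 ψ).2

theorem t₁_zero (hFun : FunctorialityStatement.{0}) {A : Type} [AddCommGroup A] :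
    t₁ N q (0 : Additive (Gamma0 (N * q)) →+ A) = 0 := map_zero (t₁Add hFun A)

theorem t₂_zero (hFun : FunctorialityStatement.{0}) {A : Type} [AddCommGroup A] :
    t₂ N q (0 : Additive (Gamma0 (N * q)) →+ A) = 0 := map_zero (t₂Add hFun A)

theorem t₁_zsmul (hFun : FunctorialityStatement.{0}) {A : Type} [AddCommGroup A] (c : ℤ)
    (ψ : Additive (Gamma0 (N * q)) →+ A) : t₁ N q (c • ψ) = c • t₁ N q ψ :=
  map_zsmul (t₁Add hFun A) c ψ

theorem t₂_zsmul (hFun : FunctorialityStatement.{0}) {A : Type} [AddCommGroup A] (c : ℤ)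
    (ψ : Additive (Gamma0 (N * q)) →+ A) : t₂ N q (c • ψ) = c • t₂ N q ψ :=
  map_zsmul (t₂Add hFun A) c ψ

theorem t₁_sub (hFun : FunctorialityStatement.{0}) {A : Type} [AddCommGroup A]
    (ψ ψ' : Additive (Gamma0 (N * q)) →+ A) : t₁ N q (ψ - ψ') = t₁ N q ψ - t₁ N q ψ' :=
  map_sub (t₁Add hFun A) ψ ψ'

theorem t₂_sub (hFun : FunctorialityStatement.{0}) {A : Type} [AddCommGroup A]
    (ψ ψ' : Additive (Gamma0 (N * q)) →+ A) : t₂ N q (ψ - ψ') = t₂ N q ψ - t₂ N q ψ' :=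
  map_sub (t₂Add hFun A) ψ ψ'

end Maps

section CuspMap

/-- Restriction of an additive map to the cuspidal submodules. -/
noncomputable def cuspMap {n m : ℕ}
    (f : (Additive (Gamma0 n) →+ ℤ) →+ (Additive (Gamma0 m) →+ ℤ))
    (hf : ∀ x, IsCuspidal x → IsCuspidal (f x)) :
    cuspidalSubmodule ℤ n ℤ →ₗ[ℤ] cuspidalSubmodule ℤ m ℤ :=
  f.toIntLinearMap.restrict (fun x hx => hf x hx)

@[simp] theorem cuspMap_coe {n m : ℕ}
    (f : (Additive (Gamma0 n) →+ ℤ) →+ (Additive (Gamma0 m) →+ ℤ))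
    (hf : ∀ x, IsCuspidal x → IsCuspidal (f x)) (x : cuspidalSubmodule ℤ n ℤ) :
    ((cuspMap f hf x : cuspidalSubmodule ℤ m ℤ) : Additive (Gamma0 m) →+ ℤ) = f x := rfl

theorem exists_eq_smul_cusp {n p : ℕ} (hp : p ≠ 0) (x : cuspidalSubmodule ℤ n ℤ)
    (h : red p (x : Additive (Gamma0 n) →+ ℤ) = 0) : ∃ z : cuspidalSubmodule ℤ n ℤ, x = (p : ℤ) • z := by
  obtain ⟨z, hz, hzc⟩ := exists_eq_smul_of_red_eq_zero hp (x : Additive (Gamma0 n) →+ ℤ) h
  exact ⟨⟨z, hzc x.2⟩, Subtype.ext hz⟩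

theorem red_eq_zero_of_eq_smul {n p : ℕ} {x z : Additive (Gamma0 n) →+ ℤ}
    (h : x = (p : ℤ) • z) : red p x = 0 := by
  rw [h, red_p_smul]

end CuspMap

section Main

/-- The index type of the Hecke operators used in CORE: good primes `l ∤ N q`, `l ≠ p`. -/
abbrev GoodIdx (W : WeierstrassCurve ℤ) (N q p : ℕ) : Type :=
  {l : ℕ // l.Prime ∧ ¬ l ∣ N * q ∧ W.IsGoodPrimeFor l ∧ l ≠ p}

theorem not_dvd_left_of_not_dvd_mul {l N q : ℕ} (h : ¬ l ∣ N * q) : ¬ l ∣ N :=
  fun h' => h (Dvd.dvd.mul_right h' q)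

theorem exists_new_class
    (hFun : FunctorialityStatement.{0}) (hRC : RestrictCuspStatement.{0})
    (hTC : TransferCuspStatement.{0}) (hHC : HeckeCuspStatement.{0})
    (hHR : HeckeRestrictStatement.{0}) (hHT : HeckeTransferStatement.{0})
    (hTR : TransferRestrictStatement.{0}) (hTRH : TransferRestrictHeckeStatement.{0})
    (hComm : HeckeCommStatement.{0}) (hPD : PDHeckeStatement.{0}) (hLift : LiftStatement)
    (hFree : CuspFreeStatement) (hIH : IharaEigenStatement) (hOcc : OccStatement)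
    (hCore : RibetCoreStatement)
    (E : WeierstrassCurve ℚ) [E.IsElliptic] {W : WeierstrassCurve ℤ} (hW : W.IsIntegralModelOf E)
    {p N q : ℕ} (hp : p.Prime) (hp2 : p ≠ 2) (hN : 0 < N) (hq : q.Prime) (hqN : ¬ q ∣ N)
    (hqp : q ≠ p)
    (hirr : GaloisRepIsIrreducible (K := AlgebraicClosure ℚ) ℚ E p)
    (f : CuspForm (CongruenceSubgroup.Gamma0 N) 2) (𝔪 : Ideal (integralClosure ℤ ℂ))
    (hf : f.IsNormalizedEigenform) (hmax : 𝔪.IsMaximal) (hpm : (p : integralClosure ℤ ℂ) ∈ 𝔪)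
    (hcong : ∀ ℓ : ℕ, ℓ.Prime → W.IsGoodPrimeFor ℓ → ¬ ℓ ∣ N → ℓ ≠ p →
      ∃ a : integralClosure ℤ ℂ, (a : ℂ) = ModularFormClass.qCoeff f ℓ ∧
        a - ((W.apOfModel ℓ : ℤ) : integralClosure ℤ ℂ) ∈ 𝔪)
    (hLR : ∃ a : integralClosure ℤ ℂ, (a : ℂ) = ModularFormClass.qCoeff f q ∧
      a ^ 2 - ((q : integralClosure ℤ ℂ) + 1) ^ 2 ∈ 𝔪) :
    ∃ y : Additive (Gamma0 (N * q)) →+ ℤ, IsCuspidal y ∧ t₁ N q y = 0 ∧ t₂ N q y = 0 ∧
      (¬ ∃ z : Additive (Gamma0 (N * q)) →+ ℤ, y = (p : ℤ) • z) ∧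
      ∀ (l : ℕ) [Fact l.Prime] (hl : ¬ l ∣ N * q), W.IsGoodPrimeFor l → l ≠ p →
        ∃ z : Additive (Gamma0 (N * q)) →+ ℤ, IsCuspidal z ∧
          heckeTransfer hl y - W.apOfModel l • y = (p : ℤ) • z := by
  classical
  have : Fact p.Prime := ⟨hp⟩
  have : Fact q.Prime := ⟨hq⟩
  have hN0 : N ≠ 0 := hN.ne'
  have hNq0 : N * q ≠ 0 := Nat.mul_ne_zero hN0 hq.ne_zero
  have hp0 : p ≠ 0 := hp.ne_zero
  have : NeZero N := ⟨hN0⟩
  -- the lattices
  obtain ⟨hAfin, hAfree⟩ := hFree N hN0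
  obtain ⟨hBfin, hBfree⟩ := hFree (N * q) hNq0
  -- the duality family
  obtain ⟨β, hβ, hβT⟩ := hPD (ZMod p)
  obtain ⟨hβadd, hβsmul, hβskew, hβnd, hβadj⟩ := hβ
  -- the index type
  have hFact : ∀ l : GoodIdx W N q p, Fact l.1.Prime := fun l => ⟨l.2.1⟩
  have hlN : ∀ l : GoodIdx W N q p, ¬ l.1 ∣ N := fun l => not_dvd_left_of_not_dvd_mul l.2.2.1
  have hlNq : ∀ l : GoodIdx W N q p, ¬ l.1 ∣ N * q := fun l => l.2.2.1
  -- the operators
  let tA : GoodIdx W N q p → cuspidalSubmodule ℤ N ℤ →ₗ[ℤ] cuspidalSubmodule ℤ N ℤ :=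
    fun l => cuspMap (heckeAdd (hlN l) ℤ) (fun x hx => hHC N l.1 (hlN l) ℤ x hx)
  let tB : GoodIdx W N q p →
      cuspidalSubmodule ℤ (N * q) ℤ →ₗ[ℤ] cuspidalSubmodule ℤ (N * q) ℤ :=
    fun l => cuspMap (heckeAdd (hlNq l) ℤ) (fun x hx => hHC (N * q) l.1 (hlNq l) ℤ x hx)
  let T : cuspidalSubmodule ℤ N ℤ →ₗ[ℤ] cuspidalSubmodule ℤ N ℤ :=
    cuspMap (heckeAdd hqN ℤ) (fun x hx => hHC N q hqN ℤ x hx)
  let i₁ : cuspidalSubmodule ℤ N ℤ →ₗ[ℤ] cuspidalSubmodule ℤ (N * q) ℤ :=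
    cuspMap (r₁Add N q ℤ) (fun x hx => (hRC N q ℤ x hx).1)
  let i₂ : cuspidalSubmodule ℤ N ℤ →ₗ[ℤ] cuspidalSubmodule ℤ (N * q) ℤ :=
    cuspMap (r₂Add N q ℤ) (fun x hx => (hRC N q ℤ x hx).2)
  let j₁ : cuspidalSubmodule ℤ (N * q) ℤ →ₗ[ℤ] cuspidalSubmodule ℤ N ℤ :=
    cuspMap (t₁Add hFun ℤ) (fun x hx => (hTC N q ℤ x hx).1)
  let j₂ : cuspidalSubmodule ℤ (N * q) ℤ →ₗ[ℤ] cuspidalSubmodule ℤ N ℤ :=
    cuspMap (t₂Add hFun ℤ) (fun x hx => (hTC N q ℤ x hx).2)
  let βA : cuspidalSubmodule ℤ N ℤ → cuspidalSubmodule ℤ N ℤ → ZMod p :=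
    fun x y => β N (red p x.1) (red p y.1)
  let βB : cuspidalSubmodule ℤ (N * q) ℤ → cuspidalSubmodule ℤ (N * q) ℤ → ZMod p :=
    fun x y => β (N * q) (red p x.1) (red p y.1)
  -- OCC
  obtain ⟨xbar, μbar, hx0, hxc, hxeig, hμ, hxq⟩ :=
    hOcc W p N q hp hq hqN f 𝔪 hf hmax hpm hcong hLR
  obtain ⟨x, hxcusp, hxred⟩ := hLift N p hN0 xbar hxc
  have hxred' : red p x = xbar := hxred
  -- general facts
  have cuspA : ∀ x : cuspidalSubmodule ℤ N ℤ, IsCuspidal (red p x.1) :=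
    fun x => isCuspidal_red p x.2
  have cuspB : ∀ y : cuspidalSubmodule ℤ (N * q) ℤ, IsCuspidal (red p y.1) :=
    fun y => isCuspidal_red p y.2
  have hβaddR : ∀ n : ℕ, n ≠ 0 → ∀ x y y' : Additive (Gamma0 n) →+ ZMod p,
      IsCuspidal x → IsCuspidal y → IsCuspidal y' → β n x (y + y') = β n x y + β n x y' := by
    intro n hn x y y' hx hy hy'
    have h1 := hβskew n hn (y + y') x (isCuspidal_add hy hy') hx
    have h2 := hβskew n hn y x hy hx
    have h3 := hβskew n hn y' x hy' hx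
    have h4 := hβadd n hn y y' x hy hy' hx
    rw [h1, h4, h2, h3]; ring
  have hnd : ∀ n : ℕ, n ≠ 0 → ∀ x : cuspidalSubmodule ℤ n ℤ,
      (∀ y : cuspidalSubmodule ℤ n ℤ, β n (red p x.1) (red p y.1) = 0) →
      ∃ z : cuspidalSubmodule ℤ n ℤ, x = (p : ℤ) • z := by
    intro n hn x hx
    apply exists_eq_smul_cusp hp0
    apply hβnd n hn _ (isCuspidal_red p x.2)
    intro ybar hybar
    obtain ⟨y, hyc, hyred⟩ := hLift n p hn ybar hybar
    have := hx ⟨y, hyc⟩
    rw [← hyred]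
    exact this
  set c : ℤ := (q : ℤ) + 1 with hc
  set μ : ℤ := (μbar.cast : ℤ) with hμdef
  have hμcast : ((μ : ℤ) : ZMod p) = μbar := by
    rw [hμdef, ZMod.intCast_cast, ZMod.cast_id', id]
  -- the 23 hypotheses of CORE
  have H1 : ∀ l l' x, tA l (tA l' x) = tA l' (tA l x) := fun l l' x =>
    Subtype.ext (hComm N l.1 l'.1 (hlN l) (hlN l') ℤ x.1)
  have H2 : ∀ l l' y, tB l (tB l' y) = tB l' (tB l y) := fun l l' y =>
    Subtype.ext (hComm (N * q) l.1 l'.1 (hlNq l) (hlNq l') ℤ y.1)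
  have H3 : ∀ l x, tB l (i₁ x) = i₁ (tA l x) := fun l x =>
    Subtype.ext (hHR N q l.1 (hlN l) (hlNq l) ℤ x.1).1
  have H4 : ∀ l x, tB l (i₂ x) = i₂ (tA l x) := fun l x =>
    Subtype.ext (hHR N q l.1 (hlN l) (hlNq l) ℤ x.1).2
  have H5 : ∀ l y, tA l (j₁ y) = j₁ (tB l y) := fun l y =>
    Subtype.ext (hHT N q l.1 (hlN l) (hlNq l) hNq0 ℤ y.1).1
  have H6 : ∀ l y, tA l (j₂ y) = j₂ (tB l y) := fun l y =>
    Subtype.ext (hHT N q l.1 (hlN l) (hlNq l) hNq0 ℤ y.1).2
  have hcsmul : ∀ φ : Additive (Gamma0 N) →+ ℤ, (q + 1) • φ = c • φ := by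
    intro φ
    rw [hc, ← natCast_zsmul]
    push_cast
    rfl
  have H7 : ∀ x, j₁ (i₁ x) = c • x := fun x =>
    Subtype.ext ((hTR N q hN0 hq hqN ℤ x.1).1.trans (hcsmul x.1))
  have H8 : ∀ x, j₂ (i₂ x) = c • x := fun x =>
    Subtype.ext ((hTR N q hN0 hq hqN ℤ x.1).2.trans (hcsmul x.1))
  have H9 : ∀ x, j₁ (i₂ x) = T x := fun x =>
    Subtype.ext (hTRH N q hqN hN0 ℤ x.1).1
  have H10 : ∀ x, j₂ (i₁ x) = T x := fun x =>
    Subtype.ext (hTRH N q hqN hN0 ℤ x.1).2
  have H11 : ∀ x x' y, βA (x + x') y = βA x y + βA x' y := by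
    intro x x' y
    show β N (red p (x + x' : cuspidalSubmodule ℤ N ℤ).1) (red p y.1) = _
    rw [Submodule.coe_add, red_add]
    exact hβadd N hN0 _ _ _ (cuspA x) (cuspA x') (cuspA y)
  have H12 : ∀ x y y', βA x (y + y') = βA x y + βA x y' := by
    intro x y y'
    show β N (red p x.1) (red p (y + y' : cuspidalSubmodule ℤ N ℤ).1) = _
    rw [Submodule.coe_add, red_add]
    exact hβaddR N hN0 _ _ _ (cuspA x) (cuspA y) (cuspA y')
  have H13 : ∀ x x' y, βB (x + x') y = βB x y + βB x' y := by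
    intro x x' y
    show β (N * q) (red p (x + x' : cuspidalSubmodule ℤ (N * q) ℤ).1) (red p y.1) = _
    rw [Submodule.coe_add, red_add]
    exact hβadd (N * q) hNq0 _ _ _ (cuspB x) (cuspB x') (cuspB y)
  have H14 : ∀ x y y', βB x (y + y') = βB x y + βB x y' := by
    intro x y y'
    show β (N * q) (red p x.1) (red p (y + y' : cuspidalSubmodule ℤ (N * q) ℤ).1) = _
    rw [Submodule.coe_add, red_add]
    exact hβaddR (N * q) hNq0 _ _ _ (cuspB x) (cuspB y) (cuspB y')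
  have H15 : ∀ x, (∀ y, βA x y = 0) → ∃ z, x = (p : ℤ) • z := fun x hx => hnd N hN0 x hx
  have H16 : ∀ x, (∀ y, βB x y = 0) → ∃ z, x = (p : ℤ) • z := fun x hx => hnd (N * q) hNq0 x hx
  have H17 : ∀ l x y, βA (tA l x) y = βA x (tA l y) := by
    intro l x y
    show β N (red p (heckeTransfer (hlN l) x.1)) (red p y.1) =
      β N (red p x.1) (red p (heckeTransfer (hlN l) y.1))
    rw [← heckeTransfer_red, ← heckeTransfer_red]
    exact hβT N l.1 (hlN l) hN0 _ _ (cuspA x) (cuspA y)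
  have H18 : ∀ l x y, βB (tB l x) y = βB x (tB l y) := by
    intro l x y
    show β (N * q) (red p (heckeTransfer (hlNq l) x.1)) (red p y.1) =
      β (N * q) (red p x.1) (red p (heckeTransfer (hlNq l) y.1))
    rw [← heckeTransfer_red, ← heckeTransfer_red]
    exact hβT (N * q) l.1 (hlNq l) hNq0 _ _ (cuspB x) (cuspB y)
  have H19 : ∀ x y, βB (i₁ x) y = βA x (j₁ y) := by
    intro x y
    show β (N * q) (red p (r₁ N q x.1)) (red p y.1) = β N (red p x.1) (red p (t₁ N q y.1))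
    have h := (hβadj N q hN0 hq hqN (red p x.1) (red p y.1) (cuspA x) (cuspB y)).1
    rw [show red p (t₁ N q y.1) = t₁ N q (red p y.1) from (t₁_comp hFun _ _).symm]
    exact h
  have H20 : ∀ x y, βB (i₂ x) y = βA x (j₂ y) := by
    intro x y
    show β (N * q) (red p (r₂ N q x.1)) (red p y.1) = β N (red p x.1) (red p (t₂ N q y.1))
    have h := (hβadj N q hN0 hq hqN (red p x.1) (red p y.1) (cuspA x) (cuspB y)).2
    rw [show red p (t₂ N q y.1) = t₂ N q (red p y.1) from (t₂_comp hFun _ _).symm]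
    exact h
  let a : GoodIdx W N q p → ℤ := fun l => W.apOfModel l.1
  -- reduction of an eigen-relation
  have hredeig : ∀ (l : GoodIdx W N q p) (x : cuspidalSubmodule ℤ N ℤ),
      (∃ z, tA l x - a l • x = (p : ℤ) • z) →
      heckeTransfer (hlN l) (red p x.1) = ((W.apOfModel l.1 : ℤ) : ZMod p) • red p x.1 := by
    rintro l x ⟨z, hz⟩
    have h1 : heckeTransfer (hlN l) x.1 - W.apOfModel l.1 • x.1 = (p : ℤ) • z.1 :=
      congrArg Subtype.val hz
    have h2 := congrArg (red p) h1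
    rw [red_p_smul, red_sub, red_zsmul, sub_eq_zero, ← heckeTransfer_red] at h2
    exact h2
  have H21 : ∀ x₁ x₂ : cuspidalSubmodule ℤ N ℤ, (∃ z, i₁ x₁ + i₂ x₂ = (p : ℤ) • z) →
      (∀ l, ∃ z, tA l x₁ - a l • x₁ = (p : ℤ) • z) →
      (∀ l, ∃ z, tA l x₂ - a l • x₂ = (p : ℤ) • z) →
      (∃ z, x₁ = (p : ℤ) • z) ∧ (∃ z, x₂ = (p : ℤ) • z) := by
    rintro x₁ x₂ ⟨z, hz⟩ h₁ h₂
    have hr : r₁ N q (red p x₁.1) + r₂ N q (red p x₂.1) = 0 := by
      have h1 : r₁ N q x₁.1 + r₂ N q x₂.1 = (p : ℤ) • z.1 := congrArg Subtype.val hz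
      have h2 := congrArg (red p) h1
      rw [red_p_smul, red_add] at h2
      exact h2
    have hkey := hIH E W hW p N q hp hp2 hN0 hq hqN hqp hirr (red p x₁.1) (red p x₂.1)
      (cuspA x₁) (cuspA x₂) hr (by
        intro l inst hl hl' hgood hlp
        exact ⟨hredeig ⟨l, inst.out, hl', hgood, hlp⟩ x₁ (h₁ _),
          hredeig ⟨l, inst.out, hl', hgood, hlp⟩ x₂ (h₂ _)⟩)
    exact ⟨exists_eq_smul_cusp hp0 x₁ hkey.1, exists_eq_smul_cusp hp0 x₂ hkey.2⟩
  have H22 : ∃ x : cuspidalSubmodule ℤ N ℤ, (¬ ∃ z, x = (p : ℤ) • z) ∧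
      (∃ z, T x - μ • x = (p : ℤ) • z) ∧ ∀ l, ∃ z, tA l x - a l • x = (p : ℤ) • z := by
    refine ⟨⟨x, hxcusp⟩, ?_, ?_, ?_⟩
    · rintro ⟨z, hz⟩
      apply hx0
      rw [← hxred']
      exact red_eq_zero_of_eq_smul (congrArg Subtype.val hz)
    · apply exists_eq_smul_cusp hp0
      show red p (heckeTransfer hqN x - μ • x) = 0
      rw [red_sub, red_zsmul, ← heckeTransfer_red, hxred', hμcast, sub_eq_zero]
      exact hxq
    · intro l
      apply exists_eq_smul_cusp hp0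
      show red p (heckeTransfer (hlN l) x - W.apOfModel l.1 • x) = 0
      rw [red_sub, red_zsmul, ← heckeTransfer_red, hxred', sub_eq_zero]
      exact hxeig l.1 (hlN l) l.2.2.2.1 l.2.2.2.2
  have H23 : (p : ℤ) ∣ μ ^ 2 - c ^ 2 := by
    rw [← ZMod.intCast_zmod_eq_zero_iff_dvd]
    push_cast
    rw [hμcast, hμ, hc]
    push_cast
    ring
  obtain ⟨y, hy1, hy2, hy3, hy4⟩ := hCore p (GoodIdx W N q p) (cuspidalSubmodule ℤ N ℤ)
    (cuspidalSubmodule ℤ (N * q) ℤ) tA tB T i₁ i₂ j₁ j₂ c μ a βA βB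
    H1 H2 H3 H4 H5 H6 H7 H8 H9 H10 H11 H12 H13 H14 H15 H16 H17 H18 H19 H20 H21 H22 H23
  refine ⟨y.1, y.2, congrArg Subtype.val hy1, congrArg Subtype.val hy2, ?_, ?_⟩
  · rintro ⟨z, hz⟩
    apply hy3
    obtain ⟨z', hz', hzc⟩ := exists_eq_smul_of_dvd hp0 y.1 (fun γ => by
      rw [hz]; exact ⟨z γ, rfl⟩)
    exact ⟨⟨z', hzc y.2⟩, Subtype.ext hz'⟩
  · intro l inst hl hgood hlp
    obtain ⟨z, hz⟩ := hy4 ⟨l, inst.out, hl, hgood, hlp⟩
    exact ⟨z.1, z.2, congrArg Subtype.val hz⟩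

end Main

end Fermat.Agent.S41.H41

end
-- ===== PACK-END S41/H41/GlueCore.lean

-- ===== PACK-BEGIN S59/H161/Ihara2/Abs.lean
section



/-!
# S59 / cell NM / leaf IHARA2 (helper161): two abstract lemmas on groups

* `conj_invariant_of_two` (**two Borels**): `f₁ : H₁ → G`, `f₂ : H₂ → G` with ranges generating `G`,
  characters `ψ₁` of `H₁`, `ψ₂` of `H₂` which agree on `f₁(H₁) ∩ f₂(H₂)`, `K ⊴ G` contained in both
  ranges.  Then `ψ₁` restricted to `K` is invariant under conjugation by `G`.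
* `transferAlong_apply_of_normal` : the transfer of a character `ψ` of `H₁` whose restriction to a
  normal subgroup `K ≤ f(H₁)` of `G` is `G`-invariant is `[G : H₁] ψ` on `K`.
-/

set_option autoImplicit false

namespace Fermat.Agent.S59.H161

open Fermat.Agent.S41.Spec Fermat.Agent.S41.H761

section Abs

variable {G H₁ H₂ : Type*} [Group G] [Group H₁] [Group H₂] {A : Type*} [AddCommGroup A]

/-- **Two Borels.** -/
theorem conj_invariant_of_two (f₁ : H₁ →* G) (f₂ : H₂ →* G) (hf₁ : Function.Injective f₁)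
    (ψ₁ : Additive H₁ →+ A) (ψ₂ : Additive H₂ →+ A)
    (hagree : ∀ (a : H₁) (b : H₂), f₁ a = f₂ b → ψ₁ (Additive.ofMul a) = ψ₂ (Additive.ofMul b))
    (K : Subgroup G) [hKn : K.Normal] (hK₁ : K ≤ f₁.range) (hK₂ : K ≤ f₂.range)
    (hgen : f₁.range ⊔ f₂.range = ⊤)
    (n n' : H₁) (g : G) (hn : f₁ n ∈ K) (hc : f₁ n' = g⁻¹ * f₁ n * g) :
    ψ₁ (Additive.ofMul n') = ψ₁ (Additive.ofMul n) := by
  let I : Subgroup G :=
    { carrier := {g | ∀ n n' : H₁, f₁ n ∈ K → f₁ n' = g⁻¹ * f₁ n * g →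
        ψ₁ (Additive.ofMul n') = ψ₁ (Additive.ofMul n)}
      one_mem' := by
        intro n n' _ hc
        have : n' = n := hf₁ (by simpa using hc)
        rw [this]
      mul_mem' := by
        intro g h hg hh n n' hn hc
        -- the middle element
        have hm : g⁻¹ * f₁ n * g ∈ K := by
          have := hKn.conj_mem (f₁ n) hn g⁻¹
          simpa using this
        obtain ⟨m, hm'⟩ := hK₁ hm
        have e1 := hg n m hn hm'
        have e2 := hh m n' (hm' ▸ hm) (by rw [hc, hm']; group)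
        rw [e2, e1]
      inv_mem' := by
        intro g hg n n' hn hc
        have hn' : f₁ n' ∈ K := by
          rw [hc]
          have := hKn.conj_mem (f₁ n) hn g
          simpa using this
        exact (hg n' n hn' (by rw [hc]; group)).symm }
  have h1 : f₁.range ≤ I := by
    rintro _ ⟨a, rfl⟩ n n' _ hc
    have : n' = a⁻¹ * n * a := hf₁ (by rw [hc]; simp)
    rw [this, ofMul_mul, ofMul_mul, ofMul_inv, map_add, map_add, map_neg]
    abel
  have h2 : f₂.range ≤ I := by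
    rintro _ ⟨b, rfl⟩ n n' hn hc
    obtain ⟨m, hm⟩ := hK₂ hn
    have e1 : ψ₁ (Additive.ofMul n) = ψ₂ (Additive.ofMul m) := hagree n m hm.symm
    have e2 : ψ₁ (Additive.ofMul n') = ψ₂ (Additive.ofMul (b⁻¹ * m * b)) :=
      hagree n' (b⁻¹ * m * b) (by rw [hc, ← hm]; simp)
    rw [e2, e1, ofMul_mul, ofMul_mul, ofMul_inv, map_add, map_add, map_neg]
    abel
  have h3 : g ∈ I := by
    have := sup_le h1 h2
    rw [hgen] at this
    exact this (Subgroup.mem_top g)
  exact h3 n n' hn hc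

/-- The transfer on a normal subgroup on which the character is invariant. -/
theorem transferAlong_apply_of_normal (f : H₁ →* G) (hf : Function.Injective f)
    [hfin : f.range.FiniteIndex] (ψ : Additive H₁ →+ A) (K : Subgroup G) [hKn : K.Normal]
    (hK : K ≤ f.range)
    (hinv : ∀ (n n' : H₁) (g : G), f n ∈ K → f n' = g⁻¹ * f n * g →
      ψ (Additive.ofMul n') = ψ (Additive.ofMul n))
    (n : H₁) (hn : f n ∈ K) :
    transferAlong f ψ (Additive.ofMul (f n)) = f.range.index • ψ (Additive.ofMul n) := by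
  classical
  let _ : Fintype (G ⧸ f.range) := f.range.fintypeQuotientOfFiniteIndex
  rw [transferAlong_eq f hf (MonoidHom.id G) Function.injective_id, IsCosetSystem.transfer_apply]
  have key : ∀ x : G ⧸ f.range,
      ψ (Additive.ofMul ((IsCosetSystem.ofTransfer f hf (MonoidHom.id G)
        Function.injective_id).coc x (f n))) = ψ (Additive.ofMul n) := by
    intro x
    have hact := (IsCosetSystem.ofTransfer_act f hf (MonoidHom.id G) Function.injective_id
      x (f n)).2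
    have hx : (f n)⁻¹ • x = x := by
      have h1 : ((f n)⁻¹ • x) = (((f n)⁻¹ * x.out : G) : G ⧸ f.range) := by
        conv_lhs => rw [← QuotientGroup.out_eq' x]
        rfl
      rw [h1]
      conv_rhs => rw [← QuotientGroup.out_eq' x]
      rw [QuotientGroup.eq]
      apply hK
      have := hKn.conj_mem (f n) hn (x.out)⁻¹
      simpa [mul_assoc] using this
    rw [hx] at hact
    exact hinv n _ x.out hn hact
  rw [Finset.sum_congr rfl (fun x _ => key x), Finset.sum_const, Finset.card_univ,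
    ← Nat.card_eq_fintype_card]
  rfl

end Abs

end Fermat.Agent.S59.H161

end
-- ===== PACK-END S59/H161/Ihara2/Abs.lean

-- ===== PACK-BEGIN S19/H255/AddMem.lean
section



/-!
# Cell A3 / S19, work package L05 (helper255): the local criterion in `OrderDatum` shape

`Fermat/Agent/S19/Defs.lean` (frozen interface, helper15) asks, in the field `add_mem` of
`OrderDatum ℓ M act`, for

    (fun p : M × M => f (p.1 + p.2)) ∈ Algebra.adjoin (Zb ℓ) (coordFunctions gens).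

This file proves that field from LOCAL data at ONE valuation subring `A₀` of `ℚ̄` over `ℓ`:

* `add_mem_of_local`: for every pair `(m₀, m₀')` there are `P, Q` in
  `B = Algebra.adjoin (Zb ℓ) (coordFunctions gens)` with `Q (m₀, m₀')` a unit at `A₀` and
  `Q (m, m') * f (m + m') = P (m, m')` for all `(m, m')` in the residue disc of `(m₀, m₀')`
  (i.e. `g m ≡ g m₀` and `g m' ≡ g m₀'` modulo the maximal ideal of `A₀`, for all `g ∈ gens`).
* `orderDatum_of_local`: the resulting `OrderDatum`.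
* `inv_mem_adjoin_coordFunctions`: a unit-valued element of `B` is a unit of `B`.
* `orderDatum_tors_of_local`: the same for `Tors N ℓ k` with `torsAct N ℓ k`.

All proofs complete.
-/

set_option autoImplicit false

namespace Fermat.Agent.S19.H255

section AddMem

variable {ℓ : ℕ} {M : Type}

/-- componentwise action on pairs -/
def actPair (act : Fermat.Agent.S19.GalQ → M → M) (σ : Fermat.Agent.S19.GalQ) (p : M × M) :
    M × M := (act σ p.1, act σ p.2)

theorem coordFunctions_integral (gens : Set (M → Fermat.Agent.S19.Qb))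
    (integral : ∀ f ∈ gens, ∀ m : M, IsIntegral (Fermat.Agent.S19.Rl ℓ) (f m)) :
    ∀ s ∈ Fermat.Agent.S19.coordFunctions gens, ∀ x,
      IsIntegral (Fermat.Agent.S19.Rl ℓ) (s x) := by
  rintro s (⟨h, hh, rfl⟩ | ⟨h, hh, rfl⟩) x
  · exact integral h hh x.1
  · exact integral h hh x.2

theorem coordFunctions_equivariant (act : Fermat.Agent.S19.GalQ → M → M)
    (gens : Set (M → Fermat.Agent.S19.Qb))
    (equivariant : ∀ f ∈ gens, ∀ (σ : Fermat.Agent.S19.GalQ) (m : M), f (act σ m) = σ (f m)) :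
    ∀ s ∈ Fermat.Agent.S19.coordFunctions gens, ∀ (σ : Fermat.Agent.S19.GalQ) (x : M × M),
      s (actPair act σ x) = σ (s x) := by
  rintro s (⟨h, hh, rfl⟩ | ⟨h, hh, rfl⟩) σ x
  · exact equivariant h hh σ x.1
  · exact equivariant h hh σ x.2

theorem coordFunctions_separates (gens : Set (M → Fermat.Agent.S19.Qb))
    (separates : ∀ m m' : M, (∀ f ∈ gens, f m = f m') → m = m') :
    ∀ x y : M × M, (∀ s ∈ Fermat.Agent.S19.coordFunctions gens, s x = s y) → x = y := by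
  intro x y hxy
  refine Prod.ext ?_ ?_
  · apply separates
    intro f hf
    exact hxy (fun p => f p.1) (Or.inl ⟨f, hf, rfl⟩)
  · apply separates
    intro f hf
    exact hxy (fun p => f p.2) (Or.inr ⟨f, hf, rfl⟩)

/-- **L05b in `OrderDatum` shape**: a unit-valued element of `B` is a unit of `B`. -/
theorem inv_mem_adjoin_coordFunctions [Finite M] (gens : Set (M → Fermat.Agent.S19.Qb))
    (integral : ∀ f ∈ gens, ∀ m : M, IsIntegral (Fermat.Agent.S19.Rl ℓ) (f m))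
    (Q : M × M → Fermat.Agent.S19.Qb)
    (hQ : Q ∈ Algebra.adjoin (Fermat.Agent.S19.Zb ℓ) (Fermat.Agent.S19.coordFunctions gens))
    (hunit : ∀ x, Q x ≠ 0 ∧ IsIntegral (Fermat.Agent.S19.Rl ℓ) (Q x)⁻¹) :
    (fun x => (Q x)⁻¹) ∈
      Algebra.adjoin (Fermat.Agent.S19.Zb ℓ) (Fermat.Agent.S19.coordFunctions gens) :=
  inv_mem_adjoin (Fermat.Agent.S19.coordFunctions gens) (coordFunctions_integral gens integral)
    Q hQ hunit

variable [AddCommGroup M]

/-- **L05 in `OrderDatum` shape**: the field `add_mem` from local data at ONE valuation subring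
of `ℚ̄` over `ℓ`. -/
theorem add_mem_of_local [Finite M] (hℓ : ℓ.Prime) (act : Fermat.Agent.S19.GalQ → M → M)
    (hadd : ∀ (σ : Fermat.Agent.S19.GalQ) (m m' : M), act σ (m + m') = act σ m + act σ m')
    (gens : Set (M → Fermat.Agent.S19.Qb))
    (equivariant : ∀ f ∈ gens, ∀ (σ : Fermat.Agent.S19.GalQ) (m : M), f (act σ m) = σ (f m))
    (integral : ∀ f ∈ gens, ∀ m : M, IsIntegral (Fermat.Agent.S19.Rl ℓ) (f m))
    (separates : ∀ m m' : M, (∀ f ∈ gens, f m = f m') → m = m')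
    (A₀ : ValuationSubring Fermat.Agent.S19.Qb) (hA₀ : (ℓ : Fermat.Agent.S19.Qb) ∈ A₀.nonunits)
    (f : M → Fermat.Agent.S19.Qb)
    (hf : ∀ (σ : Fermat.Agent.S19.GalQ) (m : M), f (act σ m) = σ (f m))
    (h : ∀ m₀ m₀' : M,
      ∃ P ∈ Algebra.adjoin (Fermat.Agent.S19.Zb ℓ) (Fermat.Agent.S19.coordFunctions gens),
      ∃ Q ∈ Algebra.adjoin (Fermat.Agent.S19.Zb ℓ) (Fermat.Agent.S19.coordFunctions gens),
        Q (m₀, m₀') ∉ A₀.nonunits ∧
        ∀ m m' : M, (∀ g ∈ gens, g m - g m₀ ∈ A₀.nonunits) →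
          (∀ g ∈ gens, g m' - g m₀' ∈ A₀.nonunits) → Q (m, m') * f (m + m') = P (m, m')) :
    (fun p : M × M => f (p.1 + p.2)) ∈
      Algebra.adjoin (Fermat.Agent.S19.Zb ℓ) (Fermat.Agent.S19.coordFunctions gens) := by
  refine mem_adjoin_of_local hℓ (actPair act) (Fermat.Agent.S19.coordFunctions gens)
    (coordFunctions_integral gens integral) (coordFunctions_equivariant act gens equivariant)
    (coordFunctions_separates gens separates) _ ?_ A₀ hA₀ ?_
  · intro σ x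
    show f (act σ x.1 + act σ x.2) = σ (f (x.1 + x.2))
    rw [← hadd, hf]
  · intro x₀
    obtain ⟨P, hP, Q, hQ, hQ0, hrel⟩ := h x₀.1 x₀.2
    refine ⟨P, hP, Q, hQ, hQ0, ?_⟩
    intro x hx
    refine hrel x.1 x.2 ?_ ?_
    · intro g hg
      exact hx (fun p => g p.1) (Or.inl ⟨g, hg, rfl⟩)
    · intro g hg
      exact hx (fun p => g p.2) (Or.inr ⟨g, hg, rfl⟩)

/-- The `OrderDatum` obtained from local data at one valuation subring over `ℓ`. -/
noncomputable def orderDatum_of_local [Finite M] (hℓ : ℓ.Prime)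
    (act : Fermat.Agent.S19.GalQ → M → M)
    (hadd : ∀ (σ : Fermat.Agent.S19.GalQ) (m m' : M), act σ (m + m') = act σ m + act σ m')
    (gens : Set (M → Fermat.Agent.S19.Qb))
    (equivariant : ∀ f ∈ gens, ∀ (σ : Fermat.Agent.S19.GalQ) (m : M), f (act σ m) = σ (f m))
    (integral : ∀ f ∈ gens, ∀ m : M, IsIntegral (Fermat.Agent.S19.Rl ℓ) (f m))
    (separates : ∀ m m' : M, (∀ f ∈ gens, f m = f m') → m = m')
    (A₀ : ValuationSubring Fermat.Agent.S19.Qb) (hA₀ : (ℓ : Fermat.Agent.S19.Qb) ∈ A₀.nonunits)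
    (h : ∀ f ∈ gens, ∀ m₀ m₀' : M,
      ∃ P ∈ Algebra.adjoin (Fermat.Agent.S19.Zb ℓ) (Fermat.Agent.S19.coordFunctions gens),
      ∃ Q ∈ Algebra.adjoin (Fermat.Agent.S19.Zb ℓ) (Fermat.Agent.S19.coordFunctions gens),
        Q (m₀, m₀') ∉ A₀.nonunits ∧
        ∀ m m' : M, (∀ g ∈ gens, g m - g m₀ ∈ A₀.nonunits) →
          (∀ g ∈ gens, g m' - g m₀' ∈ A₀.nonunits) → Q (m, m') * f (m + m') = P (m, m')) :
    Fermat.Agent.S19.OrderDatum ℓ M act where
  gens := gens
  act_add := hadd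
  equivariant := equivariant
  integral := integral
  separates := separates
  add_mem := fun f hf => add_mem_of_local hℓ act hadd gens equivariant integral separates A₀ hA₀ f
    (equivariant f hf) (h f hf)

end AddMem

/-- The local criterion for the torsion of `J₀(N)`: an `OrderDatum` from local data at one
valuation subring over `ℓ`. -/
noncomputable def orderDatum_tors_of_local (N ℓ k : ℕ) (hℓ : ℓ.Prime)
    [Finite (Fermat.Agent.S19.Tors N ℓ k)]
    (gens : Set (Fermat.Agent.S19.Tors N ℓ k → Fermat.Agent.S19.Qb))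
    (equivariant : ∀ f ∈ gens, ∀ (σ : Fermat.Agent.S19.GalQ) (m : Fermat.Agent.S19.Tors N ℓ k),
      f (Fermat.Agent.S19.torsAct N ℓ k σ m) = σ (f m))
    (integral : ∀ f ∈ gens, ∀ m, IsIntegral (Fermat.Agent.S19.Rl ℓ) (f m))
    (separates : ∀ m m', (∀ f ∈ gens, f m = f m') → m = m')
    (A₀ : ValuationSubring Fermat.Agent.S19.Qb) (hA₀ : (ℓ : Fermat.Agent.S19.Qb) ∈ A₀.nonunits)
    (h : ∀ f ∈ gens, ∀ m₀ m₀' : Fermat.Agent.S19.Tors N ℓ k,
      ∃ P ∈ Algebra.adjoin (Fermat.Agent.S19.Zb ℓ) (Fermat.Agent.S19.coordFunctions gens),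
      ∃ Q ∈ Algebra.adjoin (Fermat.Agent.S19.Zb ℓ) (Fermat.Agent.S19.coordFunctions gens),
        Q (m₀, m₀') ∉ A₀.nonunits ∧
        ∀ m m', (∀ g ∈ gens, g m - g m₀ ∈ A₀.nonunits) →
          (∀ g ∈ gens, g m' - g m₀' ∈ A₀.nonunits) → Q (m, m') * f (m + m') = P (m, m')) :
    Fermat.Agent.S19.OrderDatum ℓ (Fermat.Agent.S19.Tors N ℓ k)
      (Fermat.Agent.S19.torsAct N ℓ k) :=
  orderDatum_of_local hℓ _ (Fermat.Agent.S19.torsAct_add N ℓ k) gens equivariant integral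
    separates A₀ hA₀ h

end Fermat.Agent.S19.H255

end
-- ===== PACK-END S19/H255/AddMem.lean

-- ===== PACK-BEGIN S59/H461/PeuTres.lean
section


/-!
# S59 / LO leaf FlatPeu (helper461), abstract part: "peu ramifié" excludes "très ramifié"

`A` a valuation subring of a field `L` of characteristic `0` over `p`, `ζ` a primitive `p`-th root
of unity, `𝓗` a set of field automorphisms preserving the valuation and fixing `ζ`, such that all
nonzero `𝓗`-fixed elements have tame valuation (`InTame`, helper420).  Let `X : ZMod p → L` be a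
family permuted by `𝓗` through translations `i ↦ i + n s`, with

* `v (X 0) ^ p = v p ^ m`, `p ∤ m`                          (non-tame valuation),
* `v (X i - X 0) ^ (p - 1) ≤ v p * v (X 0) ^ (p - 1)`        (maximal ramification break).

Then there is NO unit `B` with `s B = ζ ^ (n s) B` for all `s ∈ 𝓗` (`no_unit_of_family`).

Proof.  If `n = 0` on `𝓗`, `X 0` is fixed, hence tame: contradiction.  Otherwise `X` is injective
and `B = ∑_{j < p} κ_j (X 0) ^ j` with `𝓗`-fixed `κ_j` (Lagrange interpolation through the points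
`(X i, ζ ^ i B)`).  The nonzero terms have pairwise distinct valuations, so `v κ₀ = 1` and
`v (κ_j (X 0) ^ j) < 1` for `j ≥ 1`; applying `s - 1` with `n s ≠ 0` gives
`v (ζ - 1) = v (s B - B) < v (X (n s) - X 0) / v (X 0)`, against the second hypothesis.
-/

set_option autoImplicit false
set_option linter.unusedSectionVars false
set_option linter.unusedVariables false
set_option linter.style.haveILetI false

namespace Fermat.Agent.S59.H461

open Finset Polynomial
open Fermat.Agent.Ribet.H420 (InTame)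

variable {L : Type*} [Field L] [CharZero L] {A : ValuationSubring L} {p : ℕ} [hp : Fact p.Prime]

/-- If `v x ^ p = v p ^ m` with `p ∤ m` then no power `v x ^ d`, `0 < d < p`, is tame. -/
lemma not_inTame_pow_of_pow_eq (hpv : A.valuation (p : L) < 1) {x : L} {m : ℤ}
    (hm : ¬ (p : ℤ) ∣ m) (hx : A.valuation x ^ p = A.valuation (p : L) ^ m)
    {d : ℕ} (hd0 : 0 < d) (hdp : d < p) : ¬ InTame A p (A.valuation x ^ d) := by
  rintro ⟨k, hk⟩
  have hp0 : A.valuation (p : L) ≠ 0 := by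
    rw [Ne, map_eq_zero]; exact_mod_cast hp.out.ne_zero
  have hppos : 0 < A.valuation (p : L) := zero_lt_iff.mpr hp0
  have h1 : A.valuation (p : L) ^ (m * (d * (p - 1) : ℕ)) = A.valuation (p : L) ^ (k * p) := by
    rw [zpow_mul, ← hx, zpow_natCast, ← pow_mul, zpow_mul, ← hk, zpow_natCast, ← pow_mul,
      ← pow_mul]
    congr 1
    ring
  have h2 := zpow_right_injective₀ hppos hpv.ne h1
  have h3 : (p : ℤ) ∣ m * ((d * (p - 1) : ℕ) : ℤ) := ⟨k, by rw [h2]; ring⟩
  have hpp : Prime (p : ℤ) := Nat.prime_iff_prime_int.mp hp.out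
  rcases hpp.dvd_or_dvd h3 with h | h
  · exact hm h
  · have h4 : p ∣ d * (p - 1) := by exact_mod_cast h
    rcases (Nat.Prime.dvd_mul hp.out).mp h4 with h5 | h5
    · exact absurd (Nat.le_of_dvd hd0 h5) (not_le.mpr hdp)
    · have := Nat.le_of_dvd (by have := hp.out.two_le; omega) h5
      have := hp.out.two_le
      omega

/-- In `ZMod p`, every element is a multiple of a nonzero element. -/
lemma exists_nsmul_eq_zmod {a : ZMod p} (ha : a ≠ 0) (t : ZMod p) : ∃ k : ℕ, k • a = t := by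
  refine ⟨(t / a).val, ?_⟩
  rw [nsmul_eq_mul, ZMod.natCast_zmod_val, div_mul_cancel₀ t ha]

/-- **"Peu ramifié" excludes "très ramifié".** -/
theorem no_unit_of_family {G : Type*} (act : G → L →+* L) (𝓗 : Set G) (n : G → ZMod p)
    (hpv : A.valuation (p : L) < 1)
    {ζ : L} (hζ : IsPrimitiveRoot ζ p) (hfixζ : ∀ s ∈ 𝓗, act s ζ = ζ)
    (hval : ∀ s ∈ 𝓗, ∀ a : L, A.valuation (act s a) = A.valuation a)
    (X : ZMod p → L) (hX : ∀ s ∈ 𝓗, ∀ i, act s (X i) = X (i + n s))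
    (hVG : ∀ a : L, a ≠ 0 → (∀ s ∈ 𝓗, act s a = a) → InTame A p (A.valuation a))
    {m : ℤ} (hm : ¬ (p : ℤ) ∣ m) (hX0 : A.valuation (X 0) ^ p = A.valuation (p : L) ^ m)
    (hdiff : ∀ i, A.valuation (X i - X 0) ^ (p - 1) ≤
      A.valuation (p : L) * A.valuation (X 0) ^ (p - 1))
    (B : L) (hB1 : A.valuation B = 1) (hB : ∀ s ∈ 𝓗, act s B = ζ ^ (n s).val * B) :
    False := by
  classical
  haveI : NeZero p := ⟨hp.out.ne_zero⟩
  have hp0 : A.valuation (p : L) ≠ 0 := by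
    rw [Ne, map_eq_zero]; exact_mod_cast hp.out.ne_zero
  have hnt : ∀ d : ℕ, 0 < d → d < p → ¬ InTame A p (A.valuation (X 0) ^ d) :=
    fun d h1 h2 => not_inTame_pow_of_pow_eq hpv hm hX0 h1 h2
  have hX0ne : X 0 ≠ 0 := by
    intro h
    rw [h, map_zero, zero_pow hp.out.ne_zero] at hX0
    exact zpow_ne_zero m hp0 hX0.symm
  have hvX0 : A.valuation (X 0) ≠ 0 := (_root_.map_ne_zero _).mpr hX0ne
  have hvX0pos : 0 < A.valuation (X 0) := zero_lt_iff.mpr hvX0
  have hB0 : B ≠ 0 := by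
    intro h
    rw [h, map_zero] at hB1
    exact zero_ne_one hB1
  have hfixed_contra : (∀ s ∈ 𝓗, act s (X 0) = X 0) → False := fun hfix =>
    hnt 1 one_pos hp.out.one_lt (by rw [pow_one]; exact hVG (X 0) hX0ne hfix)
  by_cases hn : ∀ s ∈ 𝓗, n s = 0
  · exact hfixed_contra fun s hs => by rw [hX s hs, hn s hs, add_zero]
  rw [not_forall] at hn
  obtain ⟨s, hn⟩ := hn
  rw [Classical.not_imp] at hn
  obtain ⟨hs, hns⟩ := hn
  -- injectivity of `X`
  have hinj : Function.Injective X := by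
    intro i j hij
    by_contra hne
    have hper : ∀ k : ℕ, X (i + k • n s) = X (j + k • n s) := by
      intro k
      induction k with
      | zero => simpa using hij
      | succ k ih =>
        have h1 := congrArg (act s) ih
        rw [hX s hs, hX s hs] at h1
        rw [succ_nsmul, ← add_assoc, ← add_assoc]
        exact h1
    have hshift : ∀ t, X (i + t) = X (j + t) := fun t => by
      obtain ⟨k, rfl⟩ := exists_nsmul_eq_zmod hns t
      exact hper k
    have hd : ∀ t, X (t + (i - j)) = X t := by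
      intro t
      have h1 := hshift (t - j)
      rw [show i + (t - j) = t + (i - j) by ring, show j + (t - j) = t by ring] at h1
      exact h1
    have hdk : ∀ (k : ℕ) (t : ZMod p), X (t + k • (i - j)) = X t := by
      intro k
      induction k with
      | zero => intro t; simp
      | succ k ih => intro t; rw [succ_nsmul, ← add_assoc, hd, ih]
    have hconst : ∀ t, X t = X 0 := by
      intro t
      obtain ⟨k, rfl⟩ := exists_nsmul_eq_zmod (sub_ne_zero.mpr hne) t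
      have h1 := hdk k 0
      rwa [zero_add] at h1
    exact hfixed_contra fun s' hs' => by rw [hX s' hs', hconst]
  -- Lagrange interpolation
  set r : ZMod p → L := fun i => ζ ^ i.val * B with hr_def
  set Q : L[X] := Lagrange.interpolate (Finset.univ : Finset (ZMod p)) X r with hQ_def
  have hinjOn : Set.InjOn X (↑(Finset.univ : Finset (ZMod p))) := hinj.injOn
  have hcard : (Finset.univ : Finset (ZMod p)).card = p := by
    rw [Finset.card_univ, ZMod.card]
  have hQdeg : Q.degree < ((Finset.univ : Finset (ZMod p)).card : WithBot ℕ) :=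
    Lagrange.degree_interpolate_lt (r := r) hinjOn
  have hQeval : ∀ i, Q.eval (X i) = r i := fun i =>
    Lagrange.eval_interpolate_at_node r hinjOn (Finset.mem_univ i)
  have hr : ∀ s' ∈ 𝓗, ∀ i, act s' (r i) = r (i + n s') := by
    intro s' hs' i
    simp only [hr_def]
    rw [map_mul, map_pow, hfixζ s' hs', hB s' hs', ← mul_assoc, ← pow_add, ZMod.val_add,
      ← pow_eq_pow_mod _ hζ.pow_eq_one]
  have hQfix : ∀ s' ∈ 𝓗, Q.map (act s') = Q := by
    intro s' hs'
    refine Polynomial.eq_of_degrees_lt_of_eval_index_eq (Finset.univ : Finset (ZMod p)) hinjOn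
      (lt_of_le_of_lt Polynomial.degree_map_le hQdeg) hQdeg ?_
    intro i _
    have h1 : (Q.map (act s')).eval (act s' (X (i - n s'))) = act s' (Q.eval (X (i - n s'))) :=
      Polynomial.eval_map_apply _ _
    rw [hX s' hs', sub_add_cancel, hQeval, hr s' hs', sub_add_cancel] at h1
    rw [h1, hQeval]
  have hκfix : ∀ j : ℕ, ∀ s' ∈ 𝓗, act s' (Q.coeff j) = Q.coeff j := by
    intro j s' hs'
    have h1 := congrArg (fun q : L[X] => q.coeff j) (hQfix s' hs')
    simpa [Polynomial.coeff_map] using h1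
  have hQ0 : Q ≠ 0 := by
    intro h
    have h1 := hQeval 0
    rw [h, Polynomial.eval_zero] at h1
    simp only [hr_def, ZMod.val_zero, pow_zero, one_mul] at h1
    exact hB0 h1.symm
  have hQnat : Q.natDegree < p := by
    have h1 := (Polynomial.natDegree_lt_iff_degree_lt hQ0).mpr hQdeg
    rwa [hcard] at h1
  -- the expansion of `B`
  set T : ℕ → L := fun j => Q.coeff j * X 0 ^ j with hT_def
  have hBsum : B = ∑ j ∈ Finset.range p, T j := by
    have h1 := hQeval 0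
    simp only [hr_def, ZMod.val_zero, pow_zero, one_mul] at h1
    rw [← h1, Polynomial.eval_eq_sum_range' hQnat]
  have hκtame : ∀ j : ℕ, Q.coeff j ≠ 0 → InTame A p (A.valuation (Q.coeff j)) :=
    fun j hj => hVG _ hj (hκfix j)
  have hTval : ∀ j, A.valuation (T j) = A.valuation (Q.coeff j) * A.valuation (X 0) ^ j := by
    intro j
    simp only [hT_def, map_mul, map_pow]
  have hdist : ∀ i j : ℕ, i < j → j < p → Q.coeff i ≠ 0 → Q.coeff j ≠ 0 →
      A.valuation (T i) ≠ A.valuation (T j) := by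
    intro i j hij hjp hi hj heq
    rw [hTval, hTval] at heq
    have hvi : A.valuation (Q.coeff i) ≠ 0 := (_root_.map_ne_zero _).mpr hi
    have hvj : A.valuation (Q.coeff j) ≠ 0 := (_root_.map_ne_zero _).mpr hj
    have h1 : A.valuation (X 0) ^ (j - i) =
        A.valuation (Q.coeff i) * (A.valuation (Q.coeff j))⁻¹ := by
      have h2 : A.valuation (X 0) ^ j = A.valuation (X 0) ^ (j - i) * A.valuation (X 0) ^ i := by
        rw [← pow_add]; congr 1; omega
      have h3 : A.valuation (X 0) ^ i ≠ 0 := pow_ne_zero _ hvX0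
      have h4 : A.valuation (Q.coeff i) =
          A.valuation (Q.coeff j) * A.valuation (X 0) ^ (j - i) :=
        mul_right_cancel₀ h3 (by rw [heq, h2, mul_assoc])
      rw [h4, mul_comm, ← mul_assoc, inv_mul_cancel₀ hvj, one_mul]
    apply hnt (j - i) (by omega) (by omega)
    rw [h1]
    exact (hκtame i hi).mul (hκtame j hj).inv hp0
  -- the dominant term
  obtain ⟨i₀, hi₀mem, hi₀max⟩ := Finset.exists_max_image (Finset.range p)
    (fun j => A.valuation (T j)) ⟨0, Finset.mem_range.mpr hp.out.pos⟩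
  have hTi₀ : T i₀ ≠ 0 := by
    intro h
    apply hB0
    rw [hBsum]
    apply Finset.sum_eq_zero
    intro j hj
    have h1 := hi₀max j hj
    simp only [h, map_zero] at h1
    exact (map_eq_zero _).mp (le_antisymm h1 zero_le)
  have hκi₀ : Q.coeff i₀ ≠ 0 := fun h => hTi₀ (by simp only [hT_def, h, zero_mul])
  have hlt : ∀ j ∈ Finset.range p, j ≠ i₀ → A.valuation (T j) < A.valuation (T i₀) := by
    intro j hj hne
    by_cases hκj : Q.coeff j = 0
    · have h1 : T j = 0 := by simp only [hT_def, hκj, zero_mul]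
      rw [h1, map_zero]
      exact zero_lt_iff.mpr ((_root_.map_ne_zero _).mpr hTi₀)
    · refine lt_of_le_of_ne (hi₀max j hj) ?_
      rcases lt_or_gt_of_ne hne with h | h
      · exact hdist j i₀ h (Finset.mem_range.mp hi₀mem) hκj hκi₀
      · exact (hdist i₀ j h (Finset.mem_range.mp hj) hκi₀ hκj).symm
  have hvB : A.valuation B = A.valuation (T i₀) := by
    rw [hBsum]
    apply Valuation.map_sum_eq_of_lt _ hi₀mem
    intro j hj
    rw [Finset.mem_sdiff, Finset.mem_singleton] at hj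
    exact hlt j hj.1 hj.2
  have hi₀ : i₀ = 0 := by
    by_contra hne
    apply hnt i₀ (Nat.pos_of_ne_zero hne) (Finset.mem_range.mp hi₀mem)
    have h1 : A.valuation (X 0) ^ i₀ = (A.valuation (Q.coeff i₀))⁻¹ := by
      have h2 : A.valuation (Q.coeff i₀) * A.valuation (X 0) ^ i₀ = 1 := by
        rw [← hTval, ← hvB, hB1]
      exact eq_inv_of_mul_eq_one_right h2
    rw [h1]
    exact (hκtame i₀ hκi₀).inv
  rw [hi₀] at hvB hlt
  have hT1 : ∀ j ∈ Finset.range p, j ≠ 0 → A.valuation (T j) < 1 := by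
    intro j hj hne
    have := hlt j hj hne
    rwa [← hvB, hB1] at this
  -- apply `s - 1`
  have hsX0 : act s (X 0) = X (n s) := by rw [hX s hs, zero_add]
  have hXne : X (n s) - X 0 ≠ 0 := sub_ne_zero.mpr fun h => hns (hinj h)
  set δ := A.valuation (X (n s) - X 0) with hδ_def
  have hδ0 : δ ≠ 0 := (_root_.map_ne_zero _).mpr hXne
  have hδpos : 0 < δ := zero_lt_iff.mpr hδ0
  have hvXa : A.valuation (X (n s)) = A.valuation (X 0) := by rw [← hsX0, hval s hs]
  have hsB : act s B - B = ∑ j ∈ Finset.range p, Q.coeff j * (X (n s) ^ j - X 0 ^ j) := by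
    conv_lhs => rw [hBsum]
    rw [map_sum, ← Finset.sum_sub_distrib]
    apply Finset.sum_congr rfl
    intro j _
    simp only [hT_def]
    rw [map_mul, map_pow, hκfix j s hs, hsX0]
    ring
  have hterm : ∀ j ∈ Finset.range p,
      A.valuation (Q.coeff j * (X (n s) ^ j - X 0 ^ j)) < δ / A.valuation (X 0) := by
    intro j hj
    have hrpos : 0 < δ / A.valuation (X 0) := div_pos hδpos hvX0pos
    rcases Nat.eq_zero_or_pos j with rfl | hjpos
    · simpa using hrpos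
    have hgeom : X (n s) ^ j - X 0 ^ j =
        (∑ i ∈ Finset.range j, X (n s) ^ i * X 0 ^ (j - 1 - i)) * (X (n s) - X 0) :=
      (geom_sum₂_mul (X (n s)) (X 0) j).symm
    have hS : A.valuation (∑ i ∈ Finset.range j, X (n s) ^ i * X 0 ^ (j - 1 - i)) ≤
        A.valuation (X 0) ^ (j - 1) := by
      apply Valuation.map_sum_le
      intro i hi
      rw [map_mul, map_pow, map_pow, hvXa, ← pow_add]
      have : i + (j - 1 - i) = j - 1 := by have := Finset.mem_range.mp hi; omega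
      rw [this]
    have hTj := hT1 j hj hjpos.ne'
    rw [hTval] at hTj
    have hsplit : A.valuation (X 0) ^ j = A.valuation (X 0) ^ (j - 1) * A.valuation (X 0) := by
      rw [← pow_succ]; congr 1; omega
    rw [hsplit, ← mul_assoc] at hTj
    have h5 : A.valuation (Q.coeff j) * A.valuation (X 0) ^ (j - 1) < (A.valuation (X 0))⁻¹ := by
      have h6 := (lt_inv_mul_iff₀' hvX0pos).mpr hTj
      rwa [mul_one] at h6
    rw [hgeom, map_mul, map_mul, div_eq_mul_inv, mul_comm δ]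
    calc A.valuation (Q.coeff j) *
          (A.valuation (∑ i ∈ Finset.range j, X (n s) ^ i * X 0 ^ (j - 1 - i)) * δ)
        ≤ A.valuation (Q.coeff j) * (A.valuation (X 0) ^ (j - 1) * δ) := by gcongr
      _ = (A.valuation (Q.coeff j) * A.valuation (X 0) ^ (j - 1)) * δ := by rw [mul_assoc]
      _ < (A.valuation (X 0))⁻¹ * δ := mul_lt_mul_of_pos_right h5 hδpos
  have hlam : A.valuation (act s B - B) = A.valuation (ζ - 1) := by
    rw [hB s hs]
    have h1 : ζ ^ (n s).val * B - B = (ζ ^ (n s).val - 1) * B := by ring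
    rw [h1, map_mul, hB1, mul_one]
    apply Fermat.Agent.S14.H366.val_root_pow_sub_one hp.out hζ
    intro hdvd
    have h2 : (n s).val < p := ZMod.val_lt _
    have h3 : (n s).val ≠ 0 := fun h => hns ((ZMod.val_eq_zero _).mp h)
    exact absurd (Nat.le_of_dvd (Nat.pos_of_ne_zero h3) hdvd) (not_le.mpr h2)
  have hfin : A.valuation (ζ - 1) < δ / A.valuation (X 0) := by
    rw [← hlam, hsB]
    exact Valuation.map_sum_lt _ (div_pos hδpos hvX0pos).ne' hterm
  have hfin2 : A.valuation (ζ - 1) * A.valuation (X 0) < δ := (lt_div_iff₀ hvX0pos).mp hfin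
  have hp1 : p - 1 ≠ 0 := by have := hp.out.two_le; omega
  have hfin3 := pow_lt_pow_left₀ hfin2 zero_le hp1
  rw [mul_pow, Fermat.Agent.S14.H366.val_lam_pow hp.out hζ] at hfin3
  exact absurd (hdiff (n s)) (not_le.mpr hfin3)

end Fermat.Agent.S59.H461

end
-- ===== PACK-END S59/H461/PeuTres.lean

-- ===== PACK-BEGIN S55/E1/H304/Alg1Res.lean
section



/-!
# S55 engine E1, block ALG, leaf ALG1 for subgroups (helper304)

Blueprint `coord/S55-E1.md` §7.1: the standard presentation `0 → R → P → N → 0` of a finite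
`G`-module restricted along an injective `φ : D →* G`.

* `isZero_groupCohomology_res_free` : `Hⁿ⁺¹(D, P|_D) = 0`;
* `resFreeIso` : `Res_S (k[G]^{(α)}) ≅ k[S]^{(G ⧸ S × α)}` for a subgroup `S` of a finite group;
* `stdSC_res_shortExact`, `alg1_res` : `δ_D : H¹(D, N|_D) → H²(D, R|_D)` is bijective and
  `R|_D` is a lattice.
-/

set_option autoImplicit false

open CategoryTheory CategoryTheory.Limits

namespace Fermat.Agent.S55.E1.H304

open Fermat.Agent.S55.E1

noncomputable section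

section ResFree

variable (k G α : Type) [CommRing k] [Group G] [Fintype G]

/-- `Hⁿ⁺¹(S, Res_S k[G]^{(α)}) = 0` for a subgroup `S` of a finite group `G`. -/
theorem isZero_groupCohomology_resSub_free (S : Subgroup G) (n : ℕ) :
    IsZero (groupCohomology (Rep.res S.subtype (Rep.free k G α)) (n + 1)) :=
  (Fermat.Agent.S55.H783.isZero_res_funRep (k := k) (G := G) S (α →₀ k) n).of_iso
    ((groupCohomology.functor k S (n + 1)).mapIso
      ((Rep.resFunctor S.subtype).mapIso (freeIsoFunRep k G α)))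

/-- `Hⁿ⁺¹(D, Res_φ k[G]^{(α)}) = 0` for an injective `φ : D →* G` into a finite group. -/
theorem isZero_groupCohomology_res_free {D : Type} [Group D] (φ : D →* G)
    (hφ : Function.Injective φ) (n : ℕ) :
    IsZero (groupCohomology (Rep.res φ (Rep.free k G α)) (n + 1)) :=
  Fermat.Agent.S55.H295.isZero_res_of_range φ hφ _ _
    (isZero_groupCohomology_resSub_free k G α φ.range n)

/-- `funRep` is functorial in linear equivalences of the coefficient module. -/
def funRepCongr {V W : Type} [AddCommGroup V] [Module k V] [AddCommGroup W] [Module k W]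
    (e : V ≃ₗ[k] W) :
    Fermat.Agent.S55.H783.funRep k G V ≅ Fermat.Agent.S55.H783.funRep k G W :=
  Rep.mkIso
    { toLinearEquiv := LinearEquiv.piCongrRight (fun _ : G => e)
      isIntertwining' := fun g => by
        apply LinearMap.ext
        intro f
        funext x
        rfl }

/-- `(Q → (α →₀ k)) ≃ (Q × α →₀ k)` for a finite type `Q`. -/
def funFinsuppLEquiv (Q : Type) [Finite Q] : (Q → (α →₀ k)) ≃ₗ[k] ((Q × α) →₀ k) :=
  (Finsupp.linearEquivFunOnFinite k (α →₀ k) Q).symm ≪≫ₗ (Finsupp.curryLinearEquiv k).symm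

/-- **Restriction of a free representation is free**: for a subgroup `S` of a finite group `G`,
`Res_S (k[G]^{(α)}) ≅ k[S]^{(G ⧸ S × α)}`. -/
def resFreeIso (S : Subgroup G) [Fintype S] :
    Rep.res S.subtype (Rep.free k G α) ≅ Rep.free k S ((G ⧸ S) × α) :=
  (Rep.resFunctor S.subtype).mapIso (freeIsoFunRep k G α) ≪≫
    Fermat.Agent.S55.H783.resFunRepIso S (α →₀ k) ≪≫
    funRepCongr k S (funFinsuppLEquiv k α (G ⧸ S)) ≪≫
    (freeIsoFunRep k S ((G ⧸ S) × α)).symm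

end ResFree

section Alg1Res

variable {G : Type} [Group G]

/-- The standard presentation restricted along `φ` is short exact. -/
theorem stdSC_res_shortExact (N : Rep.{0} ℤ G) {D : Type} [Group D] (φ : D →* G) :
    ((stdSC N).map (Rep.resFunctor φ)).ShortExact :=
  (Rep.shortExact_res φ).2 (stdSC_shortExact N)

/-- **ALG1 for subgroups**: for finite `G`, finite `N` and injective `φ : D →* G`, the
connecting map `δ_D : H¹(D, N|_D) → H²(D, R|_D)` of the restricted standard presentation is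
bijective. -/
theorem alg1_res_bijective [Finite G] (N : Rep.{0} ℤ G) {D : Type} [Group D] (φ : D →* G)
    (hφ : Function.Injective φ) :
    Function.Bijective (groupCohomology.δ (stdSC_res_shortExact N φ) 1 2 rfl).hom := by
  classical
  let _ : Fintype G := Fintype.ofFinite G
  have h := groupCohomology.isIso_δ_of_isZero (stdSC_res_shortExact N φ) 1
    (isZero_groupCohomology_res_free ℤ G N.V φ hφ 0)
    (isZero_groupCohomology_res_free ℤ G N.V φ hφ 1)
  exact (ConcreteCategory.isIso_iff_bijective _).mp h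

/-- **ALG1 for subgroups**, lattice part: `R|_D` is finitely generated free over `ℤ`. -/
theorem alg1_res_lattice [Finite G] (N : Rep.{0} ℤ G) (hN : Finite N.V) {D : Type} [Group D]
    (φ : D →* G) :
    @Module.Free ℤ (Rep.res φ (stdR N)).V _ _ (Rep.res φ (stdR N)).hV2 ∧
      @Module.Finite ℤ (Rep.res φ (stdR N)).V _ _ (Rep.res φ (stdR N)).hV2 :=
  ⟨(alg1 G N hN).1, (alg1 G N hN).2.1⟩

end Alg1Res

end

end Fermat.Agent.S55.E1.H304

end
-- ===== PACK-END S55/E1/H304/Alg1Res.lean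

-- ===== PACK-BEGIN S55/E1/H423/Alg4Spec.lean
section



/-!
# S55, engine E1: `ALG4Spec` (NORM-KILL) — exact frozen Spec form

* `alg4_add` : NORM-KILL in purely additive form (actions `G →* AddMonoid.End _`, no `ℤ`-module
  instances in the statement), derived from `H423.alg4`;
* `alg4Spec : ALG4Spec` : the frozen statement of `E1/SpecAlg.lean` for the standard presentation
  `0 → R → P → N → 0` in `Rep ℤ G`.  (Normality of `H` and finiteness of `N` are not used.)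
-/

set_option autoImplicit false
set_option linter.style.haveILetI false

open CategoryTheory CategoryTheory.Limits

namespace Fermat.Agent.S55.E1.H423

section Additive

variable {G : Type*} [Group G]

/-- The (canonical-instance) `ℤ`-linear representation attached to an additive action. -/
def repOfAdd {P : Type*} [AddCommGroup P] (a : G →* AddMonoid.End P) : Representation ℤ G P :=
  ((addMonoidEndRingEquivInt P : AddMonoid.End P →+* Module.End ℤ P) : AddMonoid.End P →*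
    Module.End ℤ P).comp a

@[simp]
theorem repOfAdd_apply {P : Type*} [AddCommGroup P] (a : G →* AddMonoid.End P) (g : G) (x : P) :
    repOfAdd a g x = a g x := rfl

/-- **ALG4 (NORM-KILL), additive form.** -/
theorem alg4_add [Fintype G] {R' P C : Type*} [AddCommGroup R'] [AddCommGroup P]
    [AddCommGroup C] (aR : G →* AddMonoid.End R') (aP : G →* AddMonoid.End P)
    (aC : G →* AddMonoid.End C) (ι : R' →+ P) (hι : Function.Injective ι)
    (hιeq : ∀ (g : G) (r : R'), ι (aR g r) = aP g (ι r))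
    (p : ℕ) [Fact p.Prime] (hp : ∀ x : P, ∃ r : R', ι r = p • x)
    (H : Subgroup G) [Fintype H] (hH : ∀ h ∈ H, ∀ x : P, ∃ r : R', ι r = aP h x - x)
    (hC : ∀ c : C, ∃ c' : C, (∀ h ∈ H, aC h c' = c') ∧ ∑ h : H, aC (h : G) c = p • c')
    (ψ : R' →+ C) :
    ∃ K : P →+ C, (∀ (σ : G) (x : P), K (aP σ x) = aC σ (K x)) ∧
      ∀ r : R', K (ι r) = ∑ σ : G, aC σ (ψ (aR σ⁻¹ r)) := by
  classical
  let R : Submodule ℤ P := LinearMap.range ι.toIntLinearMap
  have hR : ∀ (σ : G), ∀ r ∈ R, repOfAdd aP σ r ∈ R := by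
    rintro σ _ ⟨r, rfl⟩
    exact ⟨aR σ r, hιeq σ r⟩
  have hpR : ∀ x : P, (p : ℤ) • x ∈ R := by
    intro x
    obtain ⟨r, hr⟩ := hp x
    exact ⟨r, by rw [Nat.cast_smul_eq_nsmul]; exact hr⟩
  have hHR : ∀ h ∈ H, ∀ x : P, repOfAdd aP h x - x ∈ R := by
    intro h hh x
    obtain ⟨r, hr⟩ := hH h hh x
    exact ⟨r, hr⟩
  have hCR : ∀ c : C, ∃ c' : C, (∀ h ∈ H, repOfAdd aC h c' = c') ∧
      ∑ h : H, repOfAdd aC (h : G) c = (p : ℤ) • c' := by
    intro c
    obtain ⟨c', h1, h2⟩ := hC c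
    exact ⟨c', h1, by rw [Nat.cast_smul_eq_nsmul]; exact h2⟩
  let e : R' ≃ₗ[ℤ] R := LinearEquiv.ofInjective ι.toIntLinearMap hι
  have he : ∀ r : R', ((e r : R) : P) = ι r := fun r => rfl
  let g : R →ₗ[ℤ] C := ψ.toIntLinearMap ∘ₗ e.symm.toLinearMap
  obtain ⟨K, hK, hKR⟩ := alg4 (repOfAdd aP) (repOfAdd aC) R hR p hpR H hHR hCR g
  refine ⟨K.toAddMonoidHom, fun σ x => hK σ x, fun r => ?_⟩
  have h1 := hKR (e r)
  rw [normHom_apply] at h1
  have h0 : K (ι r) = K ((e r : R) : P) := by rw [he]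
  show K (ι r) = _
  rw [h0, h1]
  refine Finset.sum_congr rfl fun σ _ => ?_
  have h2 : (⟨repOfAdd aP σ⁻¹ (e r : R), hR σ⁻¹ _ (e r).2⟩ : R) = e (aR σ⁻¹ r) :=
    Subtype.ext (hιeq σ⁻¹ r).symm
  rw [h2]
  show aC σ (ψ (e.symm (e (aR σ⁻¹ r)))) = _
  rw [LinearEquiv.symm_apply_apply]

end Additive

section Std

open Fermat.Agent.S55.E1

variable {G : Type} [Group G] (N : Rep.{0} ℤ G)

/-- `ε ∘ ι = 0` on elements. -/
theorem stdε_stdι_apply (r : (stdR N).V) : (stdε N).hom ((stdι N).hom r) = 0 := by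
  have h : stdι N ≫ stdε N = 0 := kernel.condition (stdε N)
  have h2 := congrArg (fun f => f.hom r) h
  simpa using h2

theorem stdι_injective : Function.Injective (stdι N).hom :=
  (Rep.mono_iff_injective _).1 (stdι_mono N)

/-- Every element of `ker ε` comes from `R`. -/
theorem exists_stdι_eq {x : (stdP N).V} (hx : (stdε N).hom x = 0) :
    ∃ r : (stdR N).V, (stdι N).hom r = x := by
  letI : Module ℤ N.V := N.hV2
  letI : Module ℤ (stdP N).V := (stdP N).hV2
  let W := LinearMap.ker (stdε N).hom.toLinearMap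
  have hW : ∀ g, W ≤ W.comap ((stdP N).ρ g) := by
    intro g y hy
    have hy' : (stdε N).hom y = 0 := hy
    show (stdε N).hom ((stdP N).ρ g y) = 0
    rw [Rep.hom_comm_apply, hy', map_zero]
  let s : Rep.subrepresentation (stdP N) W hW ⟶ stdP N := Rep.subtype (stdP N) W hW
  have hs : s ≫ stdε N = 0 := by
    apply Rep.hom_ext
    apply Representation.IntertwiningMap.ext
    ext y
    exact y.2
  let l := kernel.lift (stdε N) s hs
  have hl : l ≫ kernel.ι (stdε N) = s := kernel.lift_ι _ _ _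
  refine ⟨l.hom ⟨x, hx⟩, ?_⟩
  have h2 := congrArg (fun f => f.hom ⟨x, hx⟩) hl
  exact h2

/-- The additive action underlying a `Rep`. -/
def addAct (A : Rep.{0} ℤ G) : G →* AddMonoid.End A.V where
  toFun g := (A.ρ g).toAddMonoidHom
  map_one' := by ext x; simp; rfl
  map_mul' g h := by ext x; simp; rfl

@[simp]
theorem addAct_apply (A : Rep.{0} ℤ G) (g : G) (x : A.V) : addAct A g x = A.ρ g x := rfl

end Std

section Spec

open Fermat.Agent.S55.E1

variable {G : Type} [Group G]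

/-- An equivariant additive map between `ℤ`-representations is a morphism of `Rep ℤ G`. -/
theorem exists_repHom_of_add {A B : Rep.{0} ℤ G} (K : A.V →+ B.V)
    (hK : ∀ (g : G) (x : A.V), K (A.ρ g x) = B.ρ g (K x)) :
    ∃ k : A ⟶ B, ∀ x : A.V, k.hom x = K x := by
  letI : Module ℤ A.V := A.hV2
  letI : Module ℤ B.V := B.hV2
  let Kl : A.V →ₗ[ℤ] B.V :=
    { toFun := K
      map_add' := K.map_add
      map_smul' := fun n x => by simpa using map_intCast_smul K ℤ ℤ n x }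
  exact ⟨Rep.ofHom ⟨Kl, fun g => by ext x; exact hK g x⟩, fun x => rfl⟩

/-- The additive map underlying a morphism of `Rep ℤ G`. -/
def addHom {A B : Rep.{0} ℤ G} (f : A ⟶ B) : A.V →+ B.V :=
  AddMonoidHom.mk' (fun x => f.hom x) (fun a b => map_add f.hom a b)

@[simp]
theorem addHom_apply {A B : Rep.{0} ℤ G} (f : A ⟶ B) (x : A.V) : addHom f x = f.hom x := rfl

/-- **ALG4 (NORM-KILL)**, exact frozen Spec form. -/
theorem alg4Spec : ALG4Spec := by
  intro p hp G _ _ H _ _ N C _ hpN hH hC ψ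
  haveI : Fact p.Prime := ⟨hp⟩
  have h1 : ∀ x : (stdP N).V, ∃ r : (stdR N).V, addHom (stdι N) r = p • x := by
    intro x
    refine exists_stdι_eq N ?_
    rw [map_nsmul, hpN]
  have h2 : ∀ h ∈ H, ∀ x : (stdP N).V,
      ∃ r : (stdR N).V, addHom (stdι N) r = addAct (stdP N) h x - x := by
    intro h hh x
    refine exists_stdι_eq N ?_
    rw [addAct_apply, map_sub, Rep.hom_comm_apply, hH h hh, sub_self]
  obtain ⟨K, hK, hKR⟩ := alg4_add (addAct (stdR N)) (addAct (stdP N)) (addAct C)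
    (addHom (stdι N)) (stdι_injective N)
    (fun g r => Rep.hom_comm_apply (stdι N) g r) p h1 H h2 hC ψ
  obtain ⟨k, hk⟩ := exists_repHom_of_add K hK
  exact ⟨k, fun r => by rw [hk]; exact hKR r⟩

/-- **ALG2**, exact frozen Spec form: if `p N = 0` then `p • f` extends to `P`. -/
theorem alg2Spec : ALG2Spec := by
  intro p G _ N X hpN f
  classical
  have h1 : ∀ x : (stdP N).V, ∃ r : (stdR N).V, (stdι N).hom r = p • x := by
    intro x
    refine exists_stdι_eq N ?_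
    rw [map_nsmul, hpN]
  choose ρ hρ using h1
  have hinj := stdι_injective N
  let K : (stdP N).V →+ X.V := AddMonoidHom.mk' (fun x => f.hom (ρ x)) (fun a b => by
    have : ρ (a + b) = ρ a + ρ b := by
      apply hinj
      rw [map_add, hρ, hρ, hρ, smul_add]
    show f.hom (ρ (a + b)) = f.hom (ρ a) + f.hom (ρ b)
    rw [this, map_add])
  have hK : ∀ (g : G) (x : (stdP N).V), K ((stdP N).ρ g x) = X.ρ g (K x) := by
    intro g x
    have : ρ ((stdP N).ρ g x) = (stdR N).ρ g (ρ x) := by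
      apply hinj
      rw [hρ, Rep.hom_comm_apply, hρ, map_nsmul]
    show f.hom (ρ ((stdP N).ρ g x)) = X.ρ g (f.hom (ρ x))
    rw [this, Rep.hom_comm_apply]
  obtain ⟨k, hk⟩ := exists_repHom_of_add K hK
  refine ⟨k, ?_⟩
  apply Rep.hom_ext
  refine DFunLike.ext _ _ fun r => ?_
  show k.hom ((stdι N).hom r) = (p • f).hom r
  rw [hk]
  show f.hom (ρ ((stdι N).hom r)) = (p • f).hom r
  have : ρ ((stdι N).hom r) = p • r := by
    apply hinj
    rw [hρ, map_nsmul]
  rw [this, map_nsmul]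
  rfl

end Spec

end Fermat.Agent.S55.E1.H423

end
-- ===== PACK-END S55/E1/H423/Alg4Spec.lean

-- ===== PACK-BEGIN S59/NMP/H935/ResBN.lean
section



/-!
# Row S59, cell NMP, leaf DATUM (helper935): Brauer–Nesbitt for residual representations

Two residual representations over a field `K` (`2 ≠ 0`) with the same traces, one of them
irreducible with trace `0` at an involution, are equivalent.  This is
`Fermat.Agent.S59.H307.isEquiv_of_trace_eq` over the local ring `K`; the only thing to check is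
that the "residual representation" of a representation over a field is irreducible if the
representation is (`residual_ofResidual_isIrreducible`).
-/

set_option autoImplicit false

open IsLocalRing
open scoped TensorProduct

namespace Fermat.Agent.S59.NMP.H935

/-- Irreducibility of `k(K) ⊗[K] X` for a field `K` (explicit form). -/
theorem residual_ofResidual_aux {K : Type} [Field K] (X : ResidualGaloisRep K)
    (h : X.IsIrreducible) (W : Submodule (ResidueField K) (ResidueField K ⊗[K] X.V))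
    (hW : ∀ σ : AlgebraicClosure ℚ ≃ₐ[ℚ] AlgebraicClosure ℚ, ∀ x ∈ W,
      (X.ρ σ).baseChange (ResidueField K) x ∈ W) : W = ⊥ ∨ W = ⊤ := by
  let f : X.V →ₗ[K] (ResidueField K ⊗[K] X.V) := TensorProduct.mk K (ResidueField K) X.V 1
  have hf : ∀ v, f v = (1 : ResidueField K) ⊗ₜ[K] v := fun _ => rfl
  have hsurj : ∀ w : ResidueField K ⊗[K] X.V, ∃ v, f v = w := by
    intro w
    induction w using TensorProduct.induction_on with
    | zero => exact ⟨0, map_zero _⟩
    | tmul c v =>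
      obtain ⟨a, rfl⟩ := IsLocalRing.residue_surjective c
      refine ⟨a • v, ?_⟩
      rw [hf, TensorProduct.tmul_smul, TensorProduct.smul_tmul', Algebra.smul_def, mul_one]
      rfl
    | add x y hx hy =>
      obtain ⟨x', rfl⟩ := hx
      obtain ⟨y', rfl⟩ := hy
      exact ⟨x' + y', map_add _ _ _⟩
  let W' : Submodule K X.V := (W.restrictScalars K).comap f
  have hmem : ∀ v, v ∈ W' ↔ f v ∈ W := fun _ => Iff.rfl
  have hW' : ∀ σ : AlgebraicClosure ℚ ≃ₐ[ℚ] AlgebraicClosure ℚ, ∀ x ∈ W', X.ρ σ x ∈ W' := by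
    intro σ x hx
    rw [hmem] at hx ⊢
    have h1 := hW σ (f x) hx
    rwa [hf, LinearMap.baseChange_tmul, ← hf] at h1
  rcases h W' hW' with h0 | h1
  · left
    rw [eq_bot_iff]
    intro w hw
    obtain ⟨v, rfl⟩ := hsurj w
    have hv : v ∈ W' := (hmem v).mpr hw
    rw [h0] at hv
    rw [(Submodule.mem_bot K).mp hv, map_zero]
    exact Submodule.zero_mem _
  · right
    rw [eq_top_iff]
    intro w _
    obtain ⟨v, rfl⟩ := hsurj w
    have hv : v ∈ W' := by rw [h1]; exact Submodule.mem_top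
    exact (hmem v).mp hv

/-- Over a field, the residual representation of `ofResidualGaloisRep X` is irreducible if `X`
is. -/
theorem residual_ofResidual_isIrreducible {K : Type} [Field K] (X : ResidualGaloisRep K)
    (h : X.IsIrreducible) : (GaloisRepAdic.ofResidualGaloisRep X).residual.IsIrreducible :=
  fun W hW => residual_ofResidual_aux X h W hW

/-- **Brauer–Nesbitt** for two-dimensional residual representations (odd case): same traces,
`X` irreducible, trace `0` at an involution. -/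
theorem residual_isEquiv_of_trace_eq {K : Type} [Field K] (h2 : (2 : K) ≠ 0)
    (X Y : ResidualGaloisRep K)
    (htr : ∀ σ : AlgebraicClosure ℚ ≃ₐ[ℚ] AlgebraicClosure ℚ,
      LinearMap.trace K X.V (X.ρ σ) = LinearMap.trace K Y.V (Y.ρ σ))
    (c : AlgebraicClosure ℚ ≃ₐ[ℚ] AlgebraicClosure ℚ) (hcc : c * c = 1)
    (hc : LinearMap.trace K X.V (X.ρ c) = 0) (hirr : X.IsIrreducible) : X.IsEquiv Y := by
  obtain ⟨e⟩ := Fermat.Agent.S59.H307.isEquiv_of_trace_eq (A := K) (IsUnit.mk0 _ h2)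
    (GaloisRepAdic.ofResidualGaloisRep X) (GaloisRepAdic.ofResidualGaloisRep Y) htr c hcc hc
    (residual_ofResidual_isIrreducible X hirr)
  exact ⟨⟨e.toLinearEquiv, e.map_apply⟩⟩

/-- Brauer–Nesbitt, characteristic polynomial form. -/
theorem residual_isEquiv_of_charpoly_eq {K : Type} [Field K] (h2 : (2 : K) ≠ 0)
    (X Y : ResidualGaloisRep K)
    (hcp : ∀ σ : AlgebraicClosure ℚ ≃ₐ[ℚ] AlgebraicClosure ℚ,
      LinearMap.charpoly (X.ρ σ) = LinearMap.charpoly (Y.ρ σ))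
    (c : AlgebraicClosure ℚ ≃ₐ[ℚ] AlgebraicClosure ℚ) (hcc : c * c = 1)
    (hc : LinearMap.trace K X.V (X.ρ c) = 0) (hirr : X.IsIrreducible) : X.IsEquiv Y := by
  refine residual_isEquiv_of_trace_eq h2 X Y (fun σ => ?_) c hcc hc hirr
  rw [Fermat.Agent.S59.G4.H109.trace_eq_neg_coeff_charpoly
      (Module.finBasisOfFinrankEq K X.V X.finrank_eq),
    Fermat.Agent.S59.G4.H109.trace_eq_neg_coeff_charpoly
      (Module.finBasisOfFinrankEq K Y.V Y.finrank_eq), hcp σ]

end Fermat.Agent.S59.NMP.H935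

end
-- ===== PACK-END S59/NMP/H935/ResBN.lean

-- ===== PACK-BEGIN S59/H601/PeuLevelSpec.lean
section



/-!
# S59 / cell NMP, leaf SEL, step (F): PEU at a finite level ⟹ Hopf model (helper601) — interface

`ρ` a representation over a local ring `A`, `I` an ideal with `A ⧸ I` finite, `P` a valuation
subring of `ℚ̄` over `p`, `ζ` a primitive `p ^ n`-th root of unity with `p ^ n ∈ I`.

* `IsPeuAtLevel p ρ P I n ζ` : **peu ramifié at the level `I`** (Kummer form): for every point `v`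
  of `V ⧸ I V` and every additive character `ξ : V ⧸ I V → ℤ/pⁿ`, the Kummer COCYCLE
  `σ ↦ ζ ^ ξ (σ v - v)` of the WHOLE inertia group of `P` is the coboundary of a `P`-unit.
  (For `n ≥ 2` the condition on `{σ ∈ I_P : σ ζ = ζ}` alone would be too weak: it only says that
  the valuation of the Kummer class vanishes mod `p`.)
* `PeuLevelStatement` : ordinary line at `P` + cyclotomic determinant + peu ramifié at the level
  `I` ⟹ `V ⧸ I V` has a Hopf model over `ℤ_(p)` (`H779.FlatLevel`).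
* `PeuFlatAllStatement` : the same at all finite levels ⟹ `ρ.IsFlatAt p`.

Definitions only.  Proofs: `PeuLevel.lean`.
-/

set_option autoImplicit false

namespace Fermat.Agent.S59.H601

/-- **Peu ramifié at the finite level `I`** (Kummer form on the whole inertia group). -/
def IsPeuAtLevel (p : ℕ) {A : Type} [CommRing A] [IsLocalRing A] (ρ : GaloisRepAdic A)
    (P : ValuationSubring (AlgebraicClosure ℚ)) (I : Ideal A) (n : ℕ)
    (ζ : AlgebraicClosure ℚ) : Prop :=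
  ∀ (ξ : Fermat.Agent.S59.H779.Lev ρ I →+ ZMod (p ^ n)) (v : Fermat.Agent.S59.H779.Lev ρ I),
    ∃ B : AlgebraicClosure ℚ, P.valuation B = 1 ∧
      ∀ σ ∈ P.inertiaSubgroupIn ℚ, σ B = ζ ^ (ξ (ρ.levelAction I σ v - v)).val * B

/-- **(F) at one level.**  Ordinary line at `P`, cyclotomic determinant, peu ramifié at the level
`I` (for ONE `n` with `p ^ n ∈ I` and ONE primitive `p ^ n`-th root of unity) ⟹ Hopf model of
`V ⧸ I V`. -/
def PeuLevelStatement : Prop :=
  ∀ (p : ℕ) [Fact p.Prime] (A : Type) [CommRing A] [IsLocalRing A] (ρ : GaloisRepAdic A),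
    ρ.DetIsCyclotomic p →
    ∀ P : ValuationSubring (AlgebraicClosure ℚ), P.LiesOverPrime p →
    ∀ L : Submodule A ρ.V, Fermat.Agent.S59.H649.IsOrdLineAt ρ P L →
    ∀ I : Ideal A, Finite (A ⧸ I) →
    ∀ (n : ℕ) (ζ : AlgebraicClosure ℚ), IsPrimitiveRoot ζ (p ^ n) → ((p ^ n : ℕ) : A) ∈ I →
      IsPeuAtLevel p ρ P I n ζ → Fermat.Agent.S59.H779.FlatLevel p ρ I

/-- **(F) at all levels.**  Ordinary line at `P`, cyclotomic determinant, peu ramifié at every
finite level ⟹ flat at `p`. -/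
def PeuFlatAllStatement : Prop :=
  ∀ (p : ℕ) [Fact p.Prime] (A : Type) [CommRing A] [IsLocalRing A]
    [Finite (IsLocalRing.ResidueField A)] (ρ : GaloisRepAdic A),
    ρ.DetIsCyclotomic p →
    ∀ P : ValuationSubring (AlgebraicClosure ℚ), P.LiesOverPrime p →
    ∀ L : Submodule A ρ.V, Fermat.Agent.S59.H649.IsOrdLineAt ρ P L →
    (∀ I : Ideal A, Finite (A ⧸ I) →
      ∃ (n : ℕ) (ζ : AlgebraicClosure ℚ), IsPrimitiveRoot ζ (p ^ n) ∧ ((p ^ n : ℕ) : A) ∈ I ∧
        IsPeuAtLevel p ρ P I n ζ) →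
    ρ.IsFlatAt p

/-- (F) at all levels from (F) at one level. -/
theorem peuFlatAll_of_level (h : PeuLevelStatement) : PeuFlatAllStatement := by
  intro p _ A _ _ hres ρ hdet P hP L hL hpeu
  rw [Fermat.Agent.S59.H779.isFlatAt_iff_flatLevel]
  refine ⟨hres, fun I hI => ?_⟩
  obtain ⟨n, ζ, hζ, hn, hp⟩ := hpeu I hI
  exact h p A ρ hdet P hP L hL I hI n ζ hζ hn hp

end Fermat.Agent.S59.H601

end
-- ===== PACK-END S59/H601/PeuLevelSpec.lean

-- ===== PACK-BEGIN S41/H585/Generate.lean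
section


/-!
# S41, leaf AMALG (helper585): `Γ₀(N)[1/r]` is generated by `Γ₀(N)` and `δ⁻¹ Γ₀(N) δ`
-/

set_option autoImplicit false
set_option linter.unusedSectionVars false

namespace Fermat.Agent.S41.H585

open Matrix CongruenceSubgroup Monoid
open scoped MatrixGroups

variable (N r : ℕ) [hr : Fact r.Prime]

/-- Build an element of `SL(2, ℚ)` from its entries. -/
def mkSL2Q (a b c d : ℚ) (hdet : a * d - b * c = 1) : SL(2, ℚ) :=
  ⟨!![a, b; c, d], by rw [Matrix.det_fin_two_of]; exact hdet⟩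

@[simp] lemma mkSL2Q_00 (a b c d : ℚ) (hdet : a * d - b * c = 1) : (mkSL2Q a b c d hdet) 0 0 = a := rfl
@[simp] lemma mkSL2Q_01 (a b c d : ℚ) (hdet : a * d - b * c = 1) : (mkSL2Q a b c d hdet) 0 1 = b := rfl
@[simp] lemma mkSL2Q_10 (a b c d : ℚ) (hdet : a * d - b * c = 1) : (mkSL2Q a b c d hdet) 1 0 = c := rfl
@[simp] lemma mkSL2Q_11 (a b c d : ℚ) (hdet : a * d - b * c = 1) : (mkSL2Q a b c d hdet) 1 1 = d := rfl

lemma sl2_mul_apply (g h : SL(2, ℚ)) (i j : Fin 2) :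
    (g * h : SL(2, ℚ)) i j = g i 0 * h 0 j + g i 1 * h 1 j := by
  rw [Matrix.SpecialLinearGroup.coe_mul, Matrix.mul_apply, Fin.sum_univ_two]

lemma sl2_det (g : SL(2, ℚ)) : g 0 0 * g 1 1 - g 0 1 * g 1 0 = 1 := by
  have := g.det_coe
  rwa [Matrix.det_fin_two] at this

/-- The subgroup generated by the two copies of `Γ₀(N)`. -/
def Sgen : Subgroup SL(2, ℚ) := Ga N ⊔ Gb N r

lemma J1_mem_Sgen (γ : Gamma0 N) : J1 N γ ∈ Sgen N r :=
  (le_sup_left : Ga N ≤ Sgen N r) ⟨γ, rfl⟩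

lemma J2_mem_Sgen (γ : Gamma0 N) : J2 N r γ ∈ Sgen N r :=
  (le_sup_right : Gb N r ≤ Sgen N r) ⟨γ, rfl⟩

/-- `diag(r ^ z, r ^ (-z))`. -/
def hRz (z : ℤ) : SL(2, ℚ) :=
  mkSL2Q ((r : ℚ) ^ z) 0 0 ((r : ℚ) ^ (-z)) (by
    have := rq_ne_zero r
    rw [mul_zero, sub_zero, ← zpow_add₀ this]; simp)

/-- The upper unipotent matrix `!![1, t; 0, 1]`. -/
def eU (t : ℚ) : SL(2, ℚ) := mkSL2Q 1 t 0 1 (by ring)

variable {N r}

lemma hRz_mul (z w : ℤ) : hRz r z * hRz r w = hRz r (z + w) := by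
  have := rq_ne_zero r
  apply sl2_ext
  · rw [sl2_mul_apply]; simp [hRz, zpow_add₀ this]
  · rw [sl2_mul_apply]; simp [hRz]
  · rw [sl2_mul_apply]; simp [hRz]
  · rw [sl2_mul_apply]; simp [hRz, zpow_add₀ this]; ring

lemma hRz_zero : hRz r 0 = 1 := by
  apply sl2_ext <;> simp [hRz]

lemma hRz_one_mem (hN : Nat.Coprime N r) : hRz r 1 ∈ Sgen N r := by
  -- Bezout: `r a' - N b = 1`
  have hcop : IsCoprime (r : ℤ) (N : ℤ) := by
    exact_mod_cast (Nat.isCoprime_iff_coprime.mpr hN.symm)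
  obtain ⟨u, v, huv⟩ := hcop
  -- `u * r + v * N = 1`; `a' = u`, `b = -v`
  let γ : Gamma0 N := mkGamma0 N u (-v) N r (by linear_combination huv) dvd_rfl
  let γβ : Gamma0 N := mkGamma0 N (r * u) (-v) N 1 (by linear_combination huv) dvd_rfl
  have hr' := rq_ne_zero r
  have key : hRz r 1 = (J1 N γ)⁻¹ * J2 N r γβ := by
    rw [eq_inv_mul_iff_mul_eq]
    apply sl2_ext
    · rw [sl2_mul_apply]; simp [hRz, J1_apply, J2_00, γ, γβ]; ring
    · rw [sl2_mul_apply]; simp [hRz, J1_apply, J2_01, γ, γβ]; ring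
    · rw [sl2_mul_apply]; simp [hRz, J1_apply, J2_10, γ, γβ]; ring
    · rw [sl2_mul_apply]; simp [hRz, J1_apply, J2_11, γ, γβ]
  rw [key]
  exact (Sgen N r).mul_mem ((Sgen N r).inv_mem (J1_mem_Sgen N r γ)) (J2_mem_Sgen N r γβ)

lemma hRz_mem (hN : Nat.Coprime N r) (z : ℤ) : hRz r z ∈ Sgen N r := by
  induction z using Int.induction_on with
  | zero => rw [hRz_zero]; exact one_mem _
  | succ n ih =>
    rw [← hRz_mul]
    exact (Sgen N r).mul_mem ih (hRz_one_mem hN)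
  | pred n ih =>
    have h1 : hRz r (-1) = (hRz r 1)⁻¹ := by
      rw [eq_inv_iff_mul_eq_one, hRz_mul]; simpa using hRz_zero (r := r)
    rw [sub_eq_add_neg, ← hRz_mul, h1]
    exact (Sgen N r).mul_mem ih ((Sgen N r).inv_mem (hRz_one_mem hN))

lemma eU_int_mem (m : ℤ) : eU (m : ℚ) ∈ Sgen N r := by
  have : eU (m : ℚ) = J1 N (mkGamma0 N 1 m 0 1 (by ring) (dvd_zero _)) := by
    apply sl2_ext <;> simp [eU, J1_apply]
  rw [this]
  exact J1_mem_Sgen N r _

lemma eU_mem (hN : Nat.Coprime N r) {t : ℚ} (ht : IsRInt r t) : eU t ∈ Sgen N r := by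
  obtain ⟨k, m, hm⟩ := ht
  have hr' := rq_ne_zero r
  have hrk : (r : ℚ) ^ k ≠ 0 := pow_ne_zero _ hr'
  have key : eU t = hRz r (-(k : ℤ)) * eU ((m * (r : ℤ) ^ k : ℤ) : ℚ) * hRz r (k : ℤ) := by
    have ht : t = m / (r : ℚ) ^ k := by
      field_simp; exact hm
    apply sl2_ext
    · rw [sl2_mul_apply, sl2_mul_apply, sl2_mul_apply]
      simp [hRz, eU]
    · rw [sl2_mul_apply, sl2_mul_apply, sl2_mul_apply]
      simp [hRz, eU, ht]
      field_simp
    · rw [sl2_mul_apply, sl2_mul_apply, sl2_mul_apply]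
      simp [hRz, eU]
    · rw [sl2_mul_apply, sl2_mul_apply, sl2_mul_apply]
      simp [hRz, eU]
  rw [key]
  exact (Sgen N r).mul_mem ((Sgen N r).mul_mem (hRz_mem hN _) (eU_int_mem _)) (hRz_mem hN _)

/-- Upper triangular elements with diagonal `(r^z, r^(-z))` and `ℤ[1/r]` off-diagonal entry. -/
lemma upper_mem (hN : Nat.Coprime N r) (g : SL(2, ℚ)) (z : ℤ) (h10 : g 1 0 = 0)
    (h11 : g 1 1 = (r : ℚ) ^ (-z)) (h01 : IsRInt r (g 0 1)) : g ∈ Sgen N r := by
  have hr' := rq_ne_zero r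
  have hz : (r : ℚ) ^ (-z) ≠ 0 := zpow_ne_zero _ hr'
  have h00 : g 0 0 = (r : ℚ) ^ z := by
    have := sl2_det g
    rw [h10, h11, mul_zero, sub_zero] at this
    rw [_root_.zpow_neg] at this
    have hz' : (r : ℚ) ^ z ≠ 0 := zpow_ne_zero _ hr'
    field_simp at this
    exact this
  have hrint : IsRInt r ((r : ℚ) ^ (-z)) := by
    rcases le_or_gt 0 z with h | h
    · obtain ⟨n, rfl⟩ := Int.eq_ofNat_of_zero_le h
      rw [_root_.zpow_neg, zpow_natCast]
      exact isRInt_inv_pow r hr.out.ne_zero n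
    · obtain ⟨n, hn⟩ := Int.eq_ofNat_of_zero_le (by omega : 0 ≤ -z)
      rw [hn, zpow_natCast]
      exact ⟨0, (r : ℤ) ^ n, by simp⟩
  have key : g = hRz r z * eU ((r : ℚ) ^ (-z) * g 0 1) := by
    apply sl2_ext
    · rw [sl2_mul_apply]; simp [hRz, eU, h00]
    · rw [sl2_mul_apply]; simp [hRz, eU]
      have hz' : (r : ℚ) ^ z ≠ 0 := zpow_ne_zero _ hr'
      field_simp
    · rw [sl2_mul_apply]; simp [hRz, eU, h10]
    · rw [sl2_mul_apply]; simp [hRz, eU, h11]
  rw [key]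
  exact (Sgen N r).mul_mem (hRz_mem hN z) (eU_mem hN (hrint.mul h01))

end Fermat.Agent.S41.H585

namespace Fermat.Agent.S41.H585

open Matrix CongruenceSubgroup Monoid
open scoped MatrixGroups

variable {N r : ℕ} [hr : Fact r.Prime]

lemma Ga_le_Delta : Ga N ≤ Delta N r := by
  rintro g ⟨γ, rfl⟩
  refine ⟨fun i j => ?_, ?_⟩
  · rw [J1_apply]; exact isRInt_int r _
  · obtain ⟨t, ht⟩ := Gamma0_dvd N γ
    refine ⟨(t : ℚ), isRInt_int r t, ?_⟩
    rw [J1_apply, ht]; push_cast; ring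

lemma Gb_le_Delta : Gb N r ≤ Delta N r := by
  rintro g ⟨γ, rfl⟩
  have hr' := rq_ne_zero r
  refine ⟨fun i j => ?_, ?_⟩
  · fin_cases i <;> fin_cases j
    · exact isRInt_int r _
    · show IsRInt r ((J2 N r γ) 0 1)
      rw [J2_01]
      exact ⟨1, (γ : SL(2, ℤ)) 0 1, by field_simp⟩
    · show IsRInt r ((J2 N r γ) 1 0)
      rw [J2_10]
      exact (isRInt_int r r).mul (isRInt_int r _)
    · exact isRInt_int r _
  · obtain ⟨t, ht⟩ := Gamma0_dvd N γ
    refine ⟨((r * t : ℤ) : ℚ), isRInt_int r _, ?_⟩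
    rw [J2_10, ht]; push_cast; ring

lemma Sgen_le_Delta : Sgen N r ≤ Delta N r := sup_le Ga_le_Delta Gb_le_Delta

/-- **AMALG, generation**: `Γ₀(N)[1/r]` is generated by `Γ₀(N)` and `δ⁻¹ Γ₀(N) δ`. -/
theorem Delta_le_Sgen (hN : Nat.Coprime N r) : Delta N r ≤ Sgen N r := by
  intro g hg
  have hr' := rq_ne_zero r
  obtain ⟨hent, t, ht, hgt⟩ := hg
  obtain ⟨k1, m1, hm1⟩ := hent 1 1
  obtain ⟨k2, m2, hm2⟩ := ht
  obtain ⟨k3, m3, hm3⟩ := hent 0 0
  obtain ⟨k4, m4, hm4⟩ := hent 0 1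
  obtain ⟨k, hk⟩ : ∃ k : ℕ, k = k1 + k2 := ⟨_, rfl⟩
  obtain ⟨d0, hd0⟩ : ∃ d0 : ℤ, d0 = m1 * (r : ℤ) ^ k2 := ⟨_, rfl⟩
  obtain ⟨t0, ht0⟩ : ∃ t0 : ℤ, t0 = m2 * (r : ℤ) ^ k1 := ⟨_, rfl⟩
  obtain ⟨c0, hc0⟩ : ∃ c0 : ℤ, c0 = N * t0 := ⟨_, rfl⟩
  have hd0' : g 1 1 * (r : ℚ) ^ k = d0 := by
    rw [hd0, hk, pow_add, ← mul_assoc, hm1]; push_cast; ring
  have hc0' : g 1 0 * (r : ℚ) ^ k = c0 := by
    rw [hc0, ht0, hgt, hk, pow_add]; push_cast; rw [← hm2]; ring
  have hrk : (r : ℚ) ^ k ≠ 0 := pow_ne_zero _ hr'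
  have hdet := sl2_det g
  -- a Bezout-type identity: gcd(c0, d0) divides a power of r
  have hlin : m3 * (r : ℤ) ^ k4 * d0 - m4 * (r : ℤ) ^ k3 * c0 = (r : ℤ) ^ (k + k3 + k4) := by
    have : ((m3 * (r : ℤ) ^ k4 * d0 - m4 * (r : ℤ) ^ k3 * c0 : ℤ) : ℚ) =
        (((r : ℤ) ^ (k + k3 + k4) : ℤ) : ℚ) := by
      push_cast
      rw [← hm3, ← hm4, ← hd0', ← hc0']
      have : g 0 0 * (r : ℚ) ^ k3 * (r : ℚ) ^ k4 * (g 1 1 * (r : ℚ) ^ k) -
          g 0 1 * (r : ℚ) ^ k4 * (r : ℚ) ^ k3 * (g 1 0 * (r : ℚ) ^ k) =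
          (g 0 0 * g 1 1 - g 0 1 * g 1 0) * ((r : ℚ) ^ k * (r : ℚ) ^ k3 * (r : ℚ) ^ k4) := by ring
      rw [this, hdet, one_mul, pow_add, pow_add]
    exact_mod_cast this
  have hgcd_dvd : ((Int.gcd c0 d0 : ℕ) : ℤ) ∣ (r : ℤ) ^ (k + k3 + k4) := by
    rw [← hlin]
    exact dvd_sub (Dvd.dvd.mul_left (Int.gcd_dvd_right c0 d0) _)
      (Dvd.dvd.mul_left (Int.gcd_dvd_left c0 d0) _)
  have hgcd_dvd' : Int.gcd c0 d0 ∣ r ^ (k + k3 + k4) := by exact_mod_cast hgcd_dvd
  obtain ⟨s, -, hs⟩ := (Nat.dvd_prime_pow hr.out).mp hgcd_dvd'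
  have hpos : 0 < Int.gcd c0 d0 := by rw [hs]; exact pow_pos hr.out.pos s
  obtain ⟨c1, d1, h1, hc1, hd1⟩ := Int.exists_gcd_one hpos
  rw [hs] at hc1 hd1
  -- `N ∣ c1`
  have hNc1 : (N : ℤ) ∣ c1 := by
    have h1' : (N : ℤ) ∣ c1 * ((r ^ s : ℕ) : ℤ) := ⟨t0, by rw [← hc1, hc0]⟩
    have hcop : IsCoprime (N : ℤ) ((r ^ s : ℕ) : ℤ) := by
      have : Nat.Coprime N (r ^ s) := Nat.Coprime.pow_right s hN
      exact_mod_cast (Nat.isCoprime_iff_coprime.mpr this)
    exact hcop.dvd_of_dvd_mul_right h1'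
  -- Bezout for `(c1, d1)`
  have hcop1 : IsCoprime c1 d1 := Int.isCoprime_iff_gcd_eq_one.mpr h1
  obtain ⟨x, y, hxy⟩ := hcop1
  -- `x * c1 + y * d1 = 1`; the inverse of `!![y, -x; c1, d1]` is `!![d1, x; -c1, y]`
  let γ' : Gamma0 N := mkGamma0 N d1 x (-c1) y (by linear_combination hxy) (Dvd.dvd.neg_right hNc1)
  have hg10 : g 1 0 = c1 * (r : ℚ) ^ s / (r : ℚ) ^ k := by
    rw [eq_div_iff hrk, hc0', hc1]; push_cast; ring
  have hg11 : g 1 1 = d1 * (r : ℚ) ^ s / (r : ℚ) ^ k := by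
    rw [eq_div_iff hrk, hd0', hd1]; push_cast; ring
  have hmem : g * J1 N γ' ∈ Sgen N r := by
    apply upper_mem hN (g * J1 N γ') ((k : ℤ) - s)
    · rw [sl2_mul_apply, hg10, hg11]
      simp only [J1_apply, γ', mkGamma0_00, mkGamma0_10]
      push_cast
      ring
    · rw [sl2_mul_apply, hg10, hg11]
      simp only [J1_apply, γ', mkGamma0_01, mkGamma0_11]
      have hxy' : (x : ℚ) * c1 + y * d1 = 1 := by exact_mod_cast hxy
      rw [neg_sub, zpow_sub₀ hr', zpow_natCast, zpow_natCast]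
      have e : (c1 : ℚ) * (r : ℚ) ^ s / (r : ℚ) ^ k * (x : ℚ) +
          (d1 : ℚ) * (r : ℚ) ^ s / (r : ℚ) ^ k * (y : ℚ) =
          (r : ℚ) ^ s / (r : ℚ) ^ k * ((x : ℚ) * c1 + y * d1) := by ring
      rw [e, hxy', mul_one]
    · rw [sl2_mul_apply]
      exact ((hent 0 0).mul (by rw [J1_apply]; exact isRInt_int r _)).add
        ((hent 0 1).mul (by rw [J1_apply]; exact isRInt_int r _))
  have : g = (g * J1 N γ') * (J1 N γ')⁻¹ := by group
  rw [this]
  exact (Sgen N r).mul_mem hmem ((Sgen N r).inv_mem (J1_mem_Sgen N r γ'))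

theorem Sgen_eq_Delta (hN : Nat.Coprime N r) : Sgen N r = Delta N r :=
  le_antisymm Sgen_le_Delta (Delta_le_Sgen hN)

end Fermat.Agent.S41.H585

end
-- ===== PACK-END S41/H585/Generate.lean

-- ===== PACK-BEGIN S41/H585/Main.lean
section


/-!
# S41, leaf AMALG (helper585): `Γ₀(N)[1/r] = Γ₀(N) *_{Γ₀(Nr)} δ⁻¹ Γ₀(N) δ`  — universal property

Main results (`r` prime, `N` coprime to `r`):

* `amalgEquiv hN : Monoid.PushoutI (baseIncl (Ga N) (Gb N r)) ≃* Delta N r`;
* `amalg_ext hN f1 f2 hcompat : ∃! Φ : Delta N r →* K, Φ ∘ j1 = f1 ∧ Φ ∘ j2 = f2` for every group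
  `K` and every pair of homomorphisms `f1 f2 : Γ₀(N) →* K` which agree on `Γ₀(N r)`, i.e.
  `J1 N γ = J2 N r γ' → f1 γ = f2 γ'` (`J1 γ = J2 γ'` says `γ ∈ Γ₀(N r)` and `γ' = δ γ δ⁻¹`).
-/

set_option autoImplicit false
set_option linter.unusedSectionVars false

namespace Fermat.Agent.S41.H585

open Matrix CongruenceSubgroup Monoid
open scoped MatrixGroups

variable {N r : ℕ} [hr : Fact r.Prime]

lemma amalgMap_of (A B : Subgroup SL(2, ℚ)) (i : Bool) (g : ↥(fac A B i)) :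
    amalgMap A B (PushoutI.of i g) = (g : SL(2, ℚ)) := by
  simp [amalgMap]

lemma amalgMap_base (A B : Subgroup SL(2, ℚ)) (h : ↥(A ⊓ B)) :
    amalgMap A B (PushoutI.base (baseIncl A B) h) = (h : SL(2, ℚ)) := by
  simp [amalgMap]

lemma range_amalgMap (A B : Subgroup SL(2, ℚ)) : (amalgMap A B).range = A ⊔ B := by
  apply le_antisymm
  · rintro _ ⟨x, rfl⟩
    induction x using PushoutI.induction_on with
    | of i g =>
      rw [amalgMap_of]
      cases i
      · exact (le_sup_left : A ≤ A ⊔ B) g.2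
      · exact (le_sup_right : B ≤ A ⊔ B) g.2
    | base h =>
      rw [amalgMap_base]
      exact (le_sup_left : A ≤ A ⊔ B) h.2.1
    | mul x y hx hy =>
      rw [map_mul]
      exact (A ⊔ B).mul_mem hx hy
  · apply sup_le
    · intro g hg
      exact ⟨PushoutI.of false ⟨g, hg⟩, amalgMap_of A B false ⟨g, hg⟩⟩
    · intro g hg
      exact ⟨PushoutI.of true ⟨g, hg⟩, amalgMap_of A B true ⟨g, hg⟩⟩

lemma range_amalgMap_Gamma0 (hN : Nat.Coprime N r) :
    (amalgMap (Ga N) (Gb N r)).range = Delta N r := by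
  rw [range_amalgMap]
  exact Sgen_eq_Delta hN

/-- **AMALG**: the amalgamated product is isomorphic to `Γ₀(N)[1/r]`. -/
noncomputable def amalgEquiv (hN : Nat.Coprime N r) :
    PushoutI (baseIncl (Ga N) (Gb N r)) ≃* Delta N r :=
  (MonoidHom.ofInjective (amalgMap_injective_Gamma0 hN)).trans
    (MulEquiv.subgroupCongr (range_amalgMap_Gamma0 hN))

lemma amalgEquiv_apply (hN : Nat.Coprime N r) (x : PushoutI (baseIncl (Ga N) (Gb N r))) :
    ((amalgEquiv hN x : Delta N r) : SL(2, ℚ)) = amalgMap (Ga N) (Gb N r) x := rfl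

variable (N r) in
/-- The first embedding `Γ₀(N) → Γ₀(N)[1/r]`. -/
def j1 : Gamma0 N →* Delta N r :=
  (J1 N).codRestrict (Delta N r) (fun γ => Ga_le_Delta ⟨γ, rfl⟩)

variable (N r) in
/-- The second embedding `Γ₀(N) → Γ₀(N)[1/r]`, `γ ↦ δ⁻¹ γ δ`. -/
def j2 : Gamma0 N →* Delta N r :=
  (J2 N r).codRestrict (Delta N r) (fun γ => Gb_le_Delta ⟨γ, rfl⟩)

@[simp] lemma coe_j1 (γ : Gamma0 N) : ((j1 N r γ : Delta N r) : SL(2, ℚ)) = J1 N γ := rfl
@[simp] lemma coe_j2 (γ : Gamma0 N) : ((j2 N r γ : Delta N r) : SL(2, ℚ)) = J2 N r γ := rfl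

section Ext

variable {K : Type*} [Group K] (f1 f2 : Gamma0 N →* K)

/-- `f1` transported to `G_a`. -/
noncomputable def onGa : ↥(Ga N) →* K :=
  f1.comp (MonoidHom.ofInjective (J1_injective N)).symm.toMonoidHom

/-- `f2` transported to `G_b`. -/
noncomputable def onGb : ↥(Gb N r) →* K :=
  f2.comp (MonoidHom.ofInjective (J2_injective N r)).symm.toMonoidHom

lemma onGa_eq (g : ↥(Ga N)) (γ : Gamma0 N) (hγ : J1 N γ = (g : SL(2, ℚ))) :
    onGa f1 g = f1 γ := by
  have : (MonoidHom.ofInjective (J1_injective N)).symm g = γ :=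
    (MulEquiv.symm_apply_eq _).mpr (Subtype.ext hγ.symm)
  exact congrArg f1 this

lemma onGb_eq (g : ↥(Gb N r)) (γ : Gamma0 N) (hγ : J2 N r γ = (g : SL(2, ℚ))) :
    onGb f2 g = f2 γ := by
  have : (MonoidHom.ofInjective (J2_injective N r)).symm g = γ :=
    (MulEquiv.symm_apply_eq _).mpr (Subtype.ext hγ.symm)
  exact congrArg f2 this

/-- The family of homomorphisms on the two factors. -/
noncomputable def onFac : (i : Bool) → ↥(fac (Ga N) (Gb N r) i) →* K
  | false => onGa f1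
  | true => onGb f2

variable {f1 f2}

lemma onFac_compat (hcompat : ∀ γ γ' : Gamma0 N, J1 N γ = J2 N r γ' → f1 γ = f2 γ') (i : Bool) :
    (onFac f1 f2 i).comp (baseIncl (Ga N) (Gb N r) i) =
      (onGa f1).comp (baseIncl (Ga N) (Gb N r) false) := by
  cases i
  · rfl
  · ext x
    obtain ⟨γ, hγ⟩ := x.2.1
    obtain ⟨γ', hγ'⟩ := x.2.2
    have e1 : onGb f2 (baseIncl (Ga N) (Gb N r) true x) = f2 γ' := onGb_eq f2 _ γ' hγ'
    have e2 : onGa f1 (baseIncl (Ga N) (Gb N r) false x) = f1 γ := onGa_eq f1 _ γ hγ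
    show onGb f2 (baseIncl (Ga N) (Gb N r) true x) = onGa f1 (baseIncl (Ga N) (Gb N r) false x)
    rw [e1, e2]
    exact (hcompat γ γ' (hγ.trans hγ'.symm)).symm

/-- The glued homomorphism on the amalgamated product. -/
noncomputable def amalgLift
    (hcompat : ∀ γ γ' : Gamma0 N, J1 N γ = J2 N r γ' → f1 γ = f2 γ') :
    PushoutI (baseIncl (Ga N) (Gb N r)) →* K :=
  PushoutI.lift (onFac f1 f2) ((onGa f1).comp (baseIncl (Ga N) (Gb N r) false))
    (onFac_compat hcompat)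

lemma amalgLift_of (hcompat : ∀ γ γ' : Gamma0 N, J1 N γ = J2 N r γ' → f1 γ = f2 γ')
    (i : Bool) (g : ↥(fac (Ga N) (Gb N r) i)) :
    amalgLift hcompat (PushoutI.of (φ := baseIncl (Ga N) (Gb N r)) i g) = onFac f1 f2 i g := by
  unfold amalgLift
  exact PushoutI.lift_of (onFac f1 f2) _ (onFac_compat hcompat) g

lemma amalgLift_of_false (hcompat : ∀ γ γ' : Gamma0 N, J1 N γ = J2 N r γ' → f1 γ = f2 γ')
    (g : ↥(fac (Ga N) (Gb N r) false)) :
    amalgLift hcompat (PushoutI.of (φ := baseIncl (Ga N) (Gb N r)) false g) = onGa f1 g :=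
  amalgLift_of hcompat false g

lemma amalgLift_of_true (hcompat : ∀ γ γ' : Gamma0 N, J1 N γ = J2 N r γ' → f1 γ = f2 γ')
    (g : ↥(fac (Ga N) (Gb N r) true)) :
    amalgLift hcompat (PushoutI.of (φ := baseIncl (Ga N) (Gb N r)) true g) = onGb f2 g :=
  amalgLift_of hcompat true g

lemma amalgEquiv_of_false (hN : Nat.Coprime N r) (γ : Gamma0 N)
    (g : ↥(fac (Ga N) (Gb N r) false)) (hg : J1 N γ = (g : SL(2, ℚ))) :
    amalgEquiv hN (PushoutI.of (φ := baseIncl (Ga N) (Gb N r)) false g) = j1 N r γ := by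
  apply Subtype.ext
  exact (amalgMap_of (Ga N) (Gb N r) false g).trans hg.symm

lemma amalgEquiv_of_true (hN : Nat.Coprime N r) (γ : Gamma0 N)
    (g : ↥(fac (Ga N) (Gb N r) true)) (hg : J2 N r γ = (g : SL(2, ℚ))) :
    amalgEquiv hN (PushoutI.of (φ := baseIncl (Ga N) (Gb N r)) true g) = j2 N r γ := by
  apply Subtype.ext
  exact (amalgMap_of (Ga N) (Gb N r) true g).trans hg.symm

/-- **AMALG, universal property**: two homomorphisms on `Γ₀(N)` which agree on `Γ₀(N r)`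
(through `γ ↦ δ γ δ⁻¹`) glue to a unique homomorphism on `Γ₀(N)[1/r]`. -/
theorem amalg_ext (hN : Nat.Coprime N r) (f1 f2 : Gamma0 N →* K)
    (hcompat : ∀ γ γ' : Gamma0 N, J1 N γ = J2 N r γ' → f1 γ = f2 γ') :
    ∃! Φ : Delta N r →* K, (∀ γ, Φ (j1 N r γ) = f1 γ) ∧ (∀ γ, Φ (j2 N r γ) = f2 γ) := by
  refine ⟨(amalgLift hcompat).comp (amalgEquiv hN).symm.toMonoidHom, ⟨?_, ?_⟩, ?_⟩
  · intro γ
    have h := amalgEquiv_of_false hN γ ⟨J1 N γ, ⟨γ, rfl⟩⟩ rfl
    have h2 : (amalgEquiv hN).symm (j1 N r γ) =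
        PushoutI.of (φ := baseIncl (Ga N) (Gb N r)) false ⟨J1 N γ, ⟨γ, rfl⟩⟩ :=
      (MulEquiv.symm_apply_eq _).mpr h.symm
    show amalgLift hcompat ((amalgEquiv hN).symm (j1 N r γ)) = f1 γ
    rw [h2]
    exact (amalgLift_of_false hcompat _).trans (onGa_eq f1 _ γ rfl)
  · intro γ
    have h := amalgEquiv_of_true hN γ ⟨J2 N r γ, ⟨γ, rfl⟩⟩ rfl
    have h2 : (amalgEquiv hN).symm (j2 N r γ) =
        PushoutI.of (φ := baseIncl (Ga N) (Gb N r)) true ⟨J2 N r γ, ⟨γ, rfl⟩⟩ :=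
      (MulEquiv.symm_apply_eq _).mpr h.symm
    show amalgLift hcompat ((amalgEquiv hN).symm (j2 N r γ)) = f2 γ
    rw [h2]
    exact (amalgLift_of_true hcompat _).trans (onGb_eq f2 _ γ rfl)
  · rintro Φ ⟨h1, h2⟩
    have key : ∀ y, Φ (amalgEquiv hN y) = amalgLift hcompat y := by
      intro y
      induction y using PushoutI.induction_on with
      | of i g =>
        cases i
        · obtain ⟨γ, hγ⟩ := g.2
          exact ((congrArg Φ (amalgEquiv_of_false hN γ g hγ)).trans (h1 γ)).trans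
            (((amalgLift_of_false hcompat g).trans (onGa_eq f1 g γ hγ)).symm)
        · obtain ⟨γ, hγ⟩ := g.2
          exact ((congrArg Φ (amalgEquiv_of_true hN γ g hγ)).trans (h2 γ)).trans
            (((amalgLift_of_true hcompat g).trans (onGb_eq f2 g γ hγ)).symm)
      | base h =>
        obtain ⟨γ, hγ⟩ := h.2.1
        have hb : PushoutI.base (baseIncl (Ga N) (Gb N r)) h =
            PushoutI.of (φ := baseIncl (Ga N) (Gb N r)) false
              (baseIncl (Ga N) (Gb N r) false h) :=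
          (PushoutI.of_apply_eq_base (baseIncl (Ga N) (Gb N r)) false h).symm
        rw [hb]
        exact ((congrArg Φ (amalgEquiv_of_false hN γ _ hγ)).trans (h1 γ)).trans
          (((amalgLift_of_false hcompat _).trans (onGa_eq f1 _ γ hγ)).symm)
      | mul x y hx hy =>
        rw [map_mul, map_mul, map_mul, hx, hy]
    ext x
    obtain ⟨y, rfl⟩ := (amalgEquiv hN).surjective x
    rw [key]
    show amalgLift hcompat y = amalgLift hcompat ((amalgEquiv hN).symm (amalgEquiv hN y))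
    rw [MulEquiv.symm_apply_apply]

end Ext

end Fermat.Agent.S41.H585

end
-- ===== PACK-END S41/H585/Main.lean

-- ===== PACK-BEGIN Ribet/H723/TopRoots.lean
section



/-!
# Row HARD (row 37, hard case), cell TOP, leaf ROOTS  (helper723)

`S38.IA.IACoreStatement` wants a coefficient ring `𝒪` which contains the `p`-power roots of unity
of order dividing `q - 1` for the pivots `q`, while cell DICT of row S59
(`S59.Arch.DictStatement`, proved on main as `S59.H401.dict`) produces SOME coefficient ring.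
This file enlarges the coefficient ring:

* `exists_ext_roots` : a complete DVR `O` of characteristic zero with finite residue field has a
  finite extension `O'` of the same kind (the integral closure of `O` in the `n`-th cyclotomic
  field over `Frac O`, a complete DVR by `S59/G4/H109/PointsDVR.lean`) with a local homomorphism
  `O → O'`, containing a primitive `m`-th root of unity for every `m ∣ n`;
* `resFrobCond_of_charpoly_map` : the Frobenius condition `G4.ResFrobCond` is stable under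
  extension of the residue field;
* `DictRootsStatement`, `dictRoots_of_dict : DictStatement → DictRootsStatement` : cell DICT with
  roots of unity of any prescribed order `n` in the coefficient ring.

Mathlib + the two imported interface files only.
-/

set_option autoImplicit false
set_option linter.style.haveILetI false

open Polynomial IsLocalRing
open scoped WeierstrassCurve.Affine

namespace Fermat.Agent.Ribet.H723.Top

open Fermat.Agent.S59 Fermat.Agent.S59.Arch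

/-- **Enlarging the coefficient ring by roots of unity.** -/
theorem exists_ext_roots (n : ℕ) (hn : 0 < n)
    (O : Type) [CommRing O] [IsDomain O] [IsDiscreteValuationRing O]
    [IsAdicComplete (maximalIdeal O) O] [Finite (ResidueField O)] [CharZero O] :
    ∃ (O' : Type) (_ : CommRing O') (_ : IsDomain O') (_ : IsDiscreteValuationRing O')
      (_ : IsAdicComplete (maximalIdeal O') O') (_ : Finite (ResidueField O'))
      (_ : CharZero O') (e : O →+* O'), IsLocalHom e ∧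
      ∀ m : ℕ, m ∣ n → ∃ ζ : O', IsPrimitiveRoot ζ m := by
  classical
  haveI : NeZero n := ⟨hn.ne'⟩
  haveI : CharZero (FractionRing O) := G4.H109.charZero_K O (FractionRing O)
  have hcyc : IsCyclotomicExtension {n} (FractionRing O)
      (CyclotomicField n (FractionRing O)) := inferInstance
  haveI : FiniteDimensional (FractionRing O) (CyclotomicField n (FractionRing O)) :=
    IsCyclotomicExtension.finiteDimensional {n} (FractionRing O)
      (CyclotomicField n (FractionRing O))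
  have hdvr : IsDiscreteValuationRing
      (G4.H109.intRingO O (CyclotomicField n (FractionRing O))) :=
    G4.H109.intRingO_isDiscreteValuationRing O (FractionRing O) _
  have hloc : IsLocalHom (algebraMap O
      (G4.H109.intRingO O (CyclotomicField n (FractionRing O)))) :=
    G4.H109.intRingO_isLocalHom O (FractionRing O) _
  refine ⟨G4.H109.intRingO O (CyclotomicField n (FractionRing O)),
    inferInstance, inferInstance, hdvr,
    G4.H109.intRingO_isAdicComplete O (FractionRing O) _,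
    G4.H109.intRingO_finite_residueField O (FractionRing O) _,
    G4.H109.intRingO_charZero O (FractionRing O) _,
    algebraMap O _, hloc, ?_⟩
  intro m hm
  obtain ⟨ζ, hζ⟩ := hcyc.exists_isPrimitiveRoot (Set.mem_singleton n) hn.ne'
  have hint : IsIntegral O ζ := by
    refine ⟨X ^ n - C 1, monic_X_pow_sub_C 1 hn.ne', ?_⟩
    rw [eval₂_sub, eval₂_pow, eval₂_X, eval₂_C, map_one, hζ.pow_eq_one, sub_self]
  have hζ' : IsPrimitiveRoot
      (⟨ζ, hint⟩ : G4.H109.intRingO O (CyclotomicField n (FractionRing O))) n :=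
    IsPrimitiveRoot.of_map_of_injective
      (f := (G4.H109.intRingO O (CyclotomicField n (FractionRing O))).val)
      (by simpa using hζ) Subtype.val_injective
  obtain ⟨a, ha⟩ := hm
  exact ⟨_, IsPrimitiveRoot.pow hn hζ' (by rw [ha, mul_comm])⟩

/-- The Frobenius condition is stable under extension of the residue field. -/
theorem resFrobCond_of_charpoly_map {N : ℕ} [NeZero N] {S : Set ℕ} {k k' : Type} [Field k]
    [Field k'] (j : k →+* k') (ρ : ResidualGaloisRep k) (ρ' : ResidualGaloisRep k')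
    (hρ : ∀ σ : AlgebraicClosure ℚ ≃ₐ[ℚ] AlgebraicClosure ℚ,
      LinearMap.charpoly (ρ'.ρ σ) = (LinearMap.charpoly (ρ.ρ σ)).map j)
    (θ : CuspForm.heckeAlgebra N 2 S →+* k) (h : G4.ResFrobCond ρ θ) :
    G4.ResFrobCond ρ' (j.comp θ) := by
  intro ℓ hℓ hℓN hℓS B hB σ hσ
  rw [hρ σ, h ℓ hℓ hℓN hℓS B hB σ hσ]
  simp only [Polynomial.map_add, Polynomial.map_sub, Polynomial.map_mul, Polynomial.map_pow,
    Polynomial.map_X, Polynomial.map_C, map_natCast, RingHom.comp_apply, Polynomial.map_natCast]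

/-- Characteristic polynomials of a base change of a residual representation. -/
theorem charpoly_baseChangeAlong_h723 {k k' : Type} [Field k] [Field k'] (ι : k →+* k')
    (ρ : ResidualGaloisRep k) (σ : AlgebraicClosure ℚ ≃ₐ[ℚ] AlgebraicClosure ℚ) :
    LinearMap.charpoly ((ρ.baseChangeAlong ι).ρ σ) = (LinearMap.charpoly (ρ.ρ σ)).map ι := by
  letI : Algebra k k' := ι.toAlgebra
  exact LinearMap.charpoly_baseChange (ρ.ρ σ) k'

/-- The residual representation of `W` over `k'` and over a subfield `k`: characteristic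
polynomials. -/
theorem charpoly_curveResidual_comp (p : ℕ) [Fact p.Prime] (W : WeierstrassCurve ℤ)
    (hcard : Nat.card (Submodule.torsionBy ℤ
      ((W.map (Int.castRingHom ℚ))⁄(AlgebraicClosure ℚ)).Point p) = p ^ 2)
    (hker : GaloisFactorsThroughFiniteLevel
      (WeierstrassCurve.Affine.Point.galoisRepModuleEnd (K := AlgebraicClosure ℚ) ℚ
        (W.map (Int.castRingHom ℚ)) p))
    {k k' : Type} [Field k] [Field k'] (ι : ZMod p →+* k) (ι' : ZMod p →+* k') (j : k →+* k')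
    (σ : AlgebraicClosure ℚ ≃ₐ[ℚ] AlgebraicClosure ℚ) :
    LinearMap.charpoly ((curveResidual p W hcard hker ι').ρ σ)
      = (LinearMap.charpoly ((curveResidual p W hcard hker ι).ρ σ)).map j := by
  have hι : ι' = j.comp ι := Subsingleton.elim _ _
  rw [show curveResidual p W hcard hker ι'
      = ((W.map (Int.castRingHom ℚ)).residualGaloisRepOf p hcard hker).baseChangeAlong ι' from rfl,
    show curveResidual p W hcard hker ι
      = ((W.map (Int.castRingHom ℚ)).residualGaloisRepOf p hcard hker).baseChangeAlong ι from rfl,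
    charpoly_baseChangeAlong_h723, charpoly_baseChangeAlong_h723, Polynomial.map_map, hι]

/-- **Cell DICT with roots of unity**: `S59.Arch.DictStatement` with the extra output that the
coefficient ring contains a primitive `m`-th root of unity for every `m ∣ n`. -/
def DictRootsStatement : Prop :=
  ∀ (p : ℕ) [Fact p.Prime] (_hp2 : p ≠ 2)
    (W : WeierstrassCurve ℤ) (_hΔ : W.Δ ≠ 0) (_hW : W.IsSemistableModel)
    (_hirr : W.ModRepIsIrreducible p)
    (hcard : Nat.card (Submodule.torsionBy ℤ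
      ((W.map (Int.castRingHom ℚ))⁄(AlgebraicClosure ℚ)).Point p) = p ^ 2)
    (hker : GaloisFactorsThroughFiniteLevel
      (WeierstrassCurve.Affine.Point.galoisRepModuleEnd (K := AlgebraicClosure ℚ) ℚ
        (W.map (Int.castRingHom ℚ)) p))
    (N : ℕ) [NeZero N] (S : Finset ℕ) (_hpS : p ∈ S) (_hS : ∀ q ∈ S, q.Prime)
    (_hNS : ∀ q : ℕ, q.Prime → q ∣ N → q ∈ S)
    (_hmod : W.IsResiduallyModularOfLevel p N) (n : ℕ) (_hn : 0 < n),
    ∃ (𝒪 : Type) (_ : CommRing 𝒪) (_ : IsDomain 𝒪) (_ : IsDiscreteValuationRing 𝒪)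
      (_ : IsAdicComplete (maximalIdeal 𝒪) 𝒪) (_ : Finite (ResidueField 𝒪))
      (_ : CharZero 𝒪) (ι : ZMod p →+* ResidueField 𝒪)
      (χ : CuspForm.heckeAlgebra N 2 (↑S : Set ℕ) →+* 𝒪),
      (p : 𝒪) ∈ maximalIdeal 𝒪 ∧
      (∀ f : (ZMod p)[X], f.Monic → f.natDegree = 2 →
        ∃ α β : ResidueField 𝒪, f.map ι = (X - C α) * (X - C β)) ∧
      G4.ResFrobCond (curveResidual p W hcard hker ι) ((residue 𝒪).comp χ) ∧
      ∀ m : ℕ, m ∣ n → ∃ ζ : 𝒪, IsPrimitiveRoot ζ m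

/-- **ROOTS.**  Cell DICT implies cell DICT with roots of unity. -/
theorem dictRoots_of_dict (h : DictStatement) : DictRootsStatement := by
  intro p _ hp2 W hΔ hW hirr hcard hker N _ S hpS hS hNS hmod n hn
  obtain ⟨O, i1, i2, i3, i4, i5, i6, ι, χ, hpO, hsplit, hfrob⟩ :=
    h p hp2 W hΔ hW hirr hcard hker N S hpS hS hNS hmod
  obtain ⟨O', j1, j2, j3, j4, j5, j6, e, he, hroots⟩ := exists_ext_roots n hn O
  have hpO' : (p : O') ∈ maximalIdeal O' := by
    rw [mem_maximalIdeal, mem_nonunits_iff] at hpO ⊢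
    intro hu
    apply hpO
    have hu' : IsUnit (e (p : O)) := by rwa [map_natCast]
    exact he.map_nonunit _ hu'
  refine ⟨O', j1, j2, j3, j4, j5, j6, (ResidueField.map e).comp ι, e.comp χ, hpO', ?_, ?_,
    hroots⟩
  · intro f hf hdeg
    obtain ⟨α, β, hαβ⟩ := hsplit f hf hdeg
    refine ⟨ResidueField.map e α, ResidueField.map e β, ?_⟩
    rw [← Polynomial.map_map, hαβ]
    simp only [Polynomial.map_mul, Polynomial.map_sub, Polynomial.map_X, Polynomial.map_C]
  · have hcomp : (residue O').comp (e.comp χ) = (ResidueField.map e).comp ((residue O).comp χ) := by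
      ext t
      simp only [RingHom.comp_apply]
      rfl
    rw [hcomp]
    exact resFrobCond_of_charpoly_map (ResidueField.map e) _ _
      (fun σ => charpoly_curveResidual_comp p W hcard hker ι _ (ResidueField.map e) σ) _ hfrob

/-! ### The shape of the hypothesis `_hroots` of `S38.IA.IACoreStatement` -/

/-- The order of the roots of unity needed for a pivot set: `∏_{q ∈ Piv} (q - 1)`. -/
def pivotOrder (Piv : Finset ℕ) : ℕ := ∏ q ∈ Piv, (q - 1)

theorem pivotOrder_pos (Piv : Finset ℕ) (hPiv : ∀ q ∈ Piv, q.Prime) : 0 < pivotOrder Piv :=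
  Finset.prod_pos fun q hq => Nat.sub_pos_of_lt (hPiv q hq).one_lt

/-- Roots of unity of all orders dividing `pivotOrder Piv` give the hypothesis `_hroots` of
`S38.IA.IACoreStatement` (for any `p`). -/
theorem hroots_of_pivotOrder {𝒪 : Type} [CommRing 𝒪] (p : ℕ) (Piv : Finset ℕ)
    (h : ∀ m : ℕ, m ∣ pivotOrder Piv → ∃ ζ : 𝒪, IsPrimitiveRoot ζ m) :
    ∀ q ∈ Piv, ∀ m : ℕ, p ^ m ∣ q - 1 → ∃ ζ : 𝒪, IsPrimitiveRoot ζ (p ^ m) :=
  fun _ hq _ hm => h _ (hm.trans (Finset.dvd_prod_of_mem (fun r => r - 1) hq))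

/-- The output of cell DICT is residual modularity in the sense of row S59. -/
theorem resModular_of_char {𝒪 : Type} [CommRing 𝒪] [IsDomain 𝒪] [IsDiscreteValuationRing 𝒪]
    [IsAdicComplete (maximalIdeal 𝒪) 𝒪] (ρbar : ResidualGaloisRep (ResidueField 𝒪))
    (N : ℕ) [hN : NeZero N] (S : Finset ℕ)
    (χ : CuspForm.heckeAlgebra N 2 (↑S : Set ℕ) →+* 𝒪)
    (h : G4.ResFrobCond ρbar ((residue 𝒪).comp χ)) : ResModular 𝒪 ρbar N S :=
  ⟨hN, (residue 𝒪).comp χ, h⟩

end Fermat.Agent.Ribet.H723.Top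

end
-- ===== PACK-END Ribet/H723/TopRoots.lean

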