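import Mathlib
import Fermat.Agent.Pack.S59C.E3L1
import Fermat.Agent.Pack.S59C.E3L0
import Fermat.Agent.Pack.S43GC.G0E11L1
import Fermat.Agent.Pack.S43MC.G0E14L0
import Fermat.Agent.Pack.S59C.E3L3
import Fermat.Agent.Pack.S43GC.G0E12L3
import Fermat.Agent.Pack.S59C.E0L3
import Fermat.Agent.Pack.S44C.G0E16L2
import Fermat.Agent.Pack.S43MC.G0E14L2
import Fermat.Agent.Pack.S43MC.G0E14L1
import Fermat.Agent.Pack.S59C.E3L2
import Fermat.Agent.Pack.S43GC.G0E3L2
import Fermat.Agent.Pack.S59C.E1L0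
import Fermat.Agent.Pack.S44C.G0E13L2
import Fermat.Agent.Pack.S44C.G0E16L3
import Fermat.Agent.Pack.S43MC.G0E13L3

set_option linter.all false

-- ===== PACK-BEGIN S59/Arch/Glue3.lean
section




/-!
# Row S59 — the main glue of the `R = T` layer (helper239)

`mlt2_of` : `SemistableMLT2Statement` from the cells of `coord/S59.md`:
LO, DICT, GTW, BC, COND, CR, MIN, NM, NMP (+ S53, S54 and two small dictionary lemmas RED, ID).
-/

set_option autoImplicit false

open Polynomial IsLocalRing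
open scoped WeierstrassCurve.Affine

namespace Fermat.Agent.S59.Arch

/-- **RED.**  A deformation condition satisfied by `ρ` over `𝒪` is satisfied by (any model of)
its residual representation. -/
def ResidualOfAdicStatement : Prop :=
  ∀ (𝒪 : Type) [CommRing 𝒪] [IsDomain 𝒪] [IsDiscreteValuationRing 𝒪]
    [IsAdicComplete (maximalIdeal 𝒪) 𝒪]
    (𝒟 : ∀ ⦃A : Type⦄ [CommRing A] [IsLocalRing A] [Algebra 𝒪 A], GaloisRepAdic A → Prop)
    (_h𝒟 : GaloisRep.IsDeformationCondition 𝒪 𝒟)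
    (ρ : GaloisRepAdic 𝒪) (ρbar : ResidualGaloisRep (ResidueField 𝒪)),
    ρ.residual.IsEquiv ρbar → 𝒟 ρ → 𝒟 (GaloisRepAdic.ofResidualGaloisRep ρbar)

/-- **ID.**  Base change of a residual representation along the identity of the residue field. -/
def ResidualIdStatement : Prop :=
  ∀ (𝒪 : Type) [CommRing 𝒪] [IsLocalRing 𝒪] (ρbar : ResidualGaloisRep (ResidueField 𝒪)),
    ρbar.IsEquiv (ρbar.baseChangeAlong (ResidueField.map (algebraMap 𝒪 𝒪)))

section Induction

variable (p : ℕ) [Fact p.Prime]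
  (𝒪 : Type) [CommRing 𝒪] [IsDomain 𝒪] [IsDiscreteValuationRing 𝒪]
  [IsAdicComplete (maximalIdeal 𝒪) 𝒪] [Finite (ResidueField 𝒪)] [CharZero 𝒪]
  (ρbar : ResidualGaloisRep (ResidueField 𝒪))

/-- The induction over the non-minimal primes. -/
theorem rtIso_union (hNM : NonMinStepStatement) (Smin : Finset ℕ)
    (h : ResidualHyp p 𝒪 ρbar Smin) (t : PType) (hmin : RTIso p 𝒪 ρbar t Smin Smin)
    (E : Finset ℕ) (hE : ∀ q ∈ E, q.Prime) :
    RTIso p 𝒪 ρbar t Smin (Smin ∪ E) := by
  classical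
  induction E using Finset.induction_on with
  | empty => simpa using hmin
  | insert q E hqE ih =>
    have hE' : ∀ q ∈ E, q.Prime := fun r hr => hE r (Finset.mem_insert_of_mem hr)
    have ih' := ih hE'
    by_cases hq : q ∈ Smin ∪ E
    · have : Smin ∪ insert q E = Smin ∪ E := by
        ext r
        simp only [Finset.mem_union, Finset.mem_insert]
        constructor
        · rintro (h1 | rfl | h1)
          · exact Or.inl h1
          · exact Finset.mem_union.mp hq
          · exact Or.inr h1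
        · rintro (h1 | h1)
          · exact Or.inl h1
          · exact Or.inr (Or.inr h1)
      rw [this]
      exact ih'
    · have : Smin ∪ insert q E = insert q (Smin ∪ E) := by
        ext r
        simp only [Finset.mem_union, Finset.mem_insert]
        tauto
      rw [this]
      refine hNM p 𝒪 ρbar Smin h t (Smin ∪ E) Finset.subset_union_left ?_ q
        (hE q (Finset.mem_insert_self q E)) hq ih'
      intro r hr
      rcases Finset.mem_union.mp hr with h1 | h1
      · exact h.hSmin r h1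
      · exact hE' r h1

end Induction

end Fermat.Agent.S59.Arch

namespace Fermat.Agent.S59.Arch

section Small

variable {A : Type} [CommRing A] [IsLocalRing A]

theorem residual_isUnramifiedAt {ρ : GaloisRepAdic A} {q : ℕ} (h : ρ.IsUnramifiedAt q) :
    ρ.residual.IsUnramifiedAt q := by
  intro P hP σ hσ
  show (ρ.ρ σ).baseChange (ResidueField A) = 1
  rw [h P hP σ hσ, LinearMap.baseChange_one]

theorem isUnramifiedAt_of_residual_isEquiv {k : Type} [Field k] {ρ₁ ρ₂ : ResidualGaloisRep k}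
    (h : ρ₁.IsEquiv ρ₂) {q : ℕ} (h1 : ρ₁.IsUnramifiedAt q) : ρ₂.IsUnramifiedAt q := by
  obtain ⟨e⟩ := h
  intro P hP σ hσ
  apply LinearMap.ext
  intro y
  have h2 := e.map_apply σ (e.toLinearEquiv.symm y)
  rw [h1 P hP σ hσ, Module.End.one_apply, LinearEquiv.apply_symm_apply] at h2
  rw [Module.End.one_apply]
  exact h2.symm

end Small

/-- **GLUE.**  The modularity lifting theorem in point form from the cells of the board. -/
theorem mlt2_of (hC : CoeffStatement) (hCR : CurveRepStatement)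
    (h53 : S53Statement) (h54 : S54Statement)
    (hRED : ResidualOfAdicStatement) (hID : ResidualIdStatement)
    (hLO : LevelOptStatement) (hDICT : DictStatement) (hGTW : CurveResidualHypStatement)
    (hBC : ResidualBCStatement) (hCOND : SigmaCondStatement)
    (hMin : MinRTStatement) (hNM : NonMinStepStatement) (hNMP : NonMinPStatement) :
    SemistableMLT2Statement := by
  classical
  intro p _ hp W hΔ hW hirr M₀ _ hres₀ hM₀ hM₀3
  have hpp : p.Prime := Fact.out
  have hp2 : p ≠ 2 := by rcases hp with rfl | rfl <;> decide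
  -- `hcard`, `hker` from a `CurveRep` over `ℤ_p`
  obtain ⟨𝒪₀, i1, i2, i3, i4, i5, i6, hp𝒪₀⟩ := hC p hpp
  obtain ⟨ρ₀⟩ := hCR p hp2 W hΔ hW hirr 𝒪₀ hp𝒪₀
  have hcard := ρ₀.hcard
  have hker := ρ₀.hker
  set ρFp : ResidualGaloisRep (ZMod p) :=
    (W.map (Int.castRingHom ℚ)).residualGaloisRepOf p hcard hker with hρFp
  -- unramified at the good primes
  have hunrFp : ∀ q : ℕ, q.Prime → q ≠ p → ¬ (q : ℤ) ∣ W.Δ → ρFp.IsUnramifiedAt q := by
    intro q hq hqp hgood
    have h1 := residual_isUnramifiedAt (ρ₀.unram q hq hgood hqp)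
    have h2 := isUnramifiedAt_of_residual_isEquiv ρ₀.residual h1
    exact ((hBC p ρFp (ResidueField 𝒪₀) ρ₀.ι).1 q hq).mp h2
  -- the minimal set
  set bad : Finset ℕ := W.Δ.natAbs.primeFactors with hbad
  have hbadmem : ∀ q : ℕ, q.Prime → ((q : ℤ) ∣ W.Δ ↔ q ∈ bad) := by
    intro q hq
    rw [hbad, Nat.mem_primeFactors, Int.natCast_dvd]
    constructor
    · intro h
      exact ⟨hq, h, Int.natAbs_ne_zero.mpr hΔ⟩
    · intro h
      exact h.2.1
  set Smin : Finset ℕ := insert p (bad.filter (fun q => ¬ ρFp.IsUnramifiedAt q)) with hSmindef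
  have hpS : p ∈ Smin := Finset.mem_insert_self _ _
  have hSminP : ∀ q ∈ Smin, q.Prime := by
    intro q hq
    rcases Finset.mem_insert.mp hq with rfl | h
    · exact hpp
    · exact Nat.prime_of_mem_primeFactors (Finset.mem_filter.mp h).1
  have hSminBad : ∀ q ∈ Smin, q ≠ p → (q : ℤ) ∣ W.Δ := by
    intro q hq hqp
    rcases Finset.mem_insert.mp hq with rfl | h
    · exact absurd rfl hqp
    · exact (hbadmem q (Nat.prime_of_mem_primeFactors (Finset.mem_filter.mp h).1)).mpr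
        (Finset.mem_filter.mp h).1
  have hminFp : IsMinSet p ρFp Smin := by
    refine ⟨hpS, hSminP, fun q hq hqp => ⟨fun h => ?_, fun h => ?_⟩⟩
    · rcases Finset.mem_insert.mp h with rfl | h
      · exact absurd rfl hqp
      · exact (Finset.mem_filter.mp h).2
    · refine Finset.mem_insert_of_mem (Finset.mem_filter.mpr ⟨?_, h⟩)
      by_contra hnot
      exact h (hunrFp q hq hqp fun hd => hnot ((hbadmem q hq).mp hd))
  -- the type at `p` of the minimal problem
  obtain ⟨t₀, ht₀⟩ : ∃ t₀ : PType,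
      (t₀ = .flat ∧ (GaloisRepAdic.ofResidualGaloisRep ρFp).IsFlatAt p) ∨
      (t₀ = .sord ∧ ¬ (GaloisRepAdic.ofResidualGaloisRep ρFp).IsFlatAt p) := by
    by_cases hflat : (GaloisRepAdic.ofResidualGaloisRep ρFp).IsFlatAt p
    · exact ⟨.flat, Or.inl ⟨rfl, hflat⟩⟩
    · exact ⟨.sord, Or.inr ⟨rfl, hflat⟩⟩
  -- level optimisation and coefficients
  have hmodmin := hLO p hp W hΔ hW hirr M₀ hres₀ hM₀ hM₀3 hcard hker Smin hminFp t₀ ht₀
  haveI hNmin : NeZero (wilesLevel p t₀ Smin Smin) := ⟨wilesLevel_ne_zero hpp hSminP hSminP⟩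
  obtain ⟨𝒪, j1, j2, j3, j4, j5, j6, ι, χ, hp𝒪, hquad, hχ⟩ :=
    hDICT p hp2 W hΔ hW hirr hcard hker (wilesLevel p t₀ Smin Smin) Smin hpS hSminP
      (fun q hq hqN => mem_of_prime_dvd_wilesLevel hpp hSminP hSminP hpS (Finset.Subset.refl _)
        q hq hqN) hmodmin
  obtain ⟨ρW⟩ := hCR p hp2 W hΔ hW hirr 𝒪 hp𝒪
  set ρbar : ResidualGaloisRep (ResidueField 𝒪) := curveResidual p W hcard hker ι with hρbar
  have hresW : ρW.ρ.residual.IsEquiv ρbar := by
    have h := ρW.residual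
    have hι : ρW.ι = ι := Subsingleton.elim _ _
    rw [hι] at h
    exact h
  have hmin : IsMinSet p ρbar Smin := by
    refine ⟨hpS, hSminP, fun q hq hqp => ?_⟩
    rw [hminFp.2.2 q hq hqp]
    exact not_congr ((hBC p ρFp (ResidueField 𝒪) ι).1 q hq).symm
  have hRH : ResidualHyp p 𝒪 ρbar Smin :=
    hGTW p hp W hΔ hW hirr hcard hker 𝒪 hp𝒪 ι hquad Smin hmin
  -- the set `Σ_W` and the conditions satisfied by `ρ_W`
  set SigW : Finset ℕ := Smin ∪ bad with hSigW
  have hSigP : ∀ q ∈ SigW, q.Prime := by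
    intro q hq
    rcases Finset.mem_union.mp hq with h | h
    · exact hSminP q h
    · exact Nat.prime_of_mem_primeFactors h
  have hsub : Smin ⊆ SigW := Finset.subset_union_left
  have hunrW : ∀ q : ℕ, q.Prime → q ∉ SigW → ρW.ρ.IsUnramifiedAt q := by
    intro q hq hqS
    have hqp : q ≠ p := by
      rintro rfl
      exact hqS (hsub hpS)
    refine ρW.unram q hq (fun hd => hqS ?_) hqp
    exact Finset.mem_union_right _ ((hbadmem q hq).mp hd)
  have hunipW : ∀ q ∈ Smin, q.Prime → q ≠ p → ρW.ρ.IsUnipotentOnInertiaAt q := by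
    intro q hqS hq hqp
    exact ρW.unip q hq (fun hgood => hgood (hSminBad q hqS hqp)) hqp
  -- reduction of a condition of type `Σ_W`
  have hred : ∀ t : PType, sigmaCond 𝒪 p t Smin SigW ρW.ρ →
      sigmaCond 𝒪 p t Smin SigW (GaloisRepAdic.ofResidualGaloisRep ρbar) := fun t h =>
    hRED 𝒪 (sigmaCond 𝒪 p t Smin SigW) (hCOND p hp2 𝒪 hp𝒪 t Smin SigW).1 ρW.ρ ρbar hresW h
  have hflatBC := (hBC p ρFp (ResidueField 𝒪) ι).2
  -- the final type and `R = T`
  obtain ⟨t, htp, hcondW, hRT⟩ : ∃ t : PType, ((p : ℤ) ∣ W.Δ → t ≠ .flat) ∧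
      sigmaCond 𝒪 p t Smin SigW ρW.ρ ∧ RTIso p 𝒪 ρbar t Smin SigW := by
    have hbadP : ∀ q ∈ bad, q.Prime := fun q hq => Nat.prime_of_mem_primeFactors hq
    by_cases hgood : (p : ℤ) ∣ W.Δ
    · -- multiplicative reduction at `p`
      have hso : ρW.ρ.IsStrictOrdinaryAt p := ρW.ord (fun h => h hgood)
      have hcs : sigmaCond 𝒪 p .sord Smin SigW ρW.ρ := ⟨⟨ρW.det, hso, hunrW⟩, hunipW⟩
      have hco : sigmaCond 𝒪 p .ord Smin SigW ρW.ρ :=
        ⟨⟨ρW.det, hso.isOrdinaryAt, hunrW⟩, hunipW⟩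
      rcases ht₀ with ⟨rfl, hflat⟩ | ⟨rfl, hnflat⟩
      · -- `E[p]` flat: minimal problem flat, then the step at `p`
        have hmin0 := hMin p 𝒪 ρbar Smin hRH .flat (Or.inl ⟨rfl, hflatBC.mpr hflat⟩) hNmin χ hχ
        have h1 := rtIso_union p 𝒪 ρbar hNM Smin hRH .flat hmin0 bad hbadP
        have hord : (GaloisRepAdic.ofResidualGaloisRep ρbar).IsOrdinaryAt p :=
          (hred .ord hco).1.2.1
        exact ⟨.ord, fun _ => by simp, hco,
          hNMP p 𝒪 ρbar Smin hRH SigW hsub hSigP hord h1⟩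
      · -- `E[p]` not flat: strictly ordinary minimal problem
        have hsobar : (GaloisRepAdic.ofResidualGaloisRep ρbar).IsStrictOrdinaryAt p :=
          (hred .sord hcs).1.2.1
        have hmin0 := hMin p 𝒪 ρbar Smin hRH .sord
          (Or.inr ⟨rfl, hsobar, fun h => hnflat (hflatBC.mp h)⟩) hNmin χ hχ
        exact ⟨.sord, fun _ => by simp, hcs, rtIso_union p 𝒪 ρbar hNM Smin hRH .sord hmin0 bad hbadP⟩
    · -- good reduction at `p`
      have hfl : ρW.ρ.IsFlatAt p := ρW.flat hgood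
      have hcf : sigmaCond 𝒪 p .flat Smin SigW ρW.ρ := ⟨⟨ρW.det, hfl, hunrW⟩, hunipW⟩
      have hflbar : (GaloisRepAdic.ofResidualGaloisRep ρbar).IsFlatAt p := (hred .flat hcf).1.2.1
      rcases ht₀ with ⟨rfl, -⟩ | ⟨rfl, hnflat⟩
      · have hmin0 := hMin p 𝒪 ρbar Smin hRH .flat (Or.inl ⟨rfl, hflbar⟩) hNmin χ hχ
        exact ⟨.flat, fun h => absurd h hgood, hcf,
          rtIso_union p 𝒪 ρbar hNM Smin hRH .flat hmin0 bad hbadP⟩
      · exact absurd (hflatBC.mp hflbar) hnflat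
  -- the point
  have hD : Nonempty (GaloisRep.DeformationRingData 𝒪 ρbar (sigmaCond 𝒪 p t Smin SigW)) :=
    h53 𝒪 ρbar _ hRH.habs (hCOND p hp2 𝒪 hp𝒪 t Smin SigW).1 (hred t hcondW)
      ((hCOND p hp2 𝒪 hp𝒪 t Smin SigW).2 ρbar)
  have hres' : ρW.ρ.residual.IsEquiv
      (ρbar.baseChangeAlong (ResidueField.map (algebraMap 𝒪 𝒪))) := by
    obtain ⟨e1⟩ := hresW
    obtain ⟨e2⟩ := hID 𝒪 ρbar
    exact ⟨e1.trans e2⟩
  have hNS : ∀ q : ℕ, q.Prime → q ∣ wilesLevel p t Smin SigW → q ∈ SigW := fun q hq h =>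
    mem_of_prime_dvd_wilesLevel hpp hSminP hSigP hpS hsub q hq h
  obtain ⟨hN, θ, T, k1, k2, k3, k4, k5, k6, k7, k8, H, hpt⟩ :=
    point_of_rtIso p 𝒪 ρbar h54 t Smin SigW hNS hD hRT ρW.ρ hcondW hres'
  refine ⟨𝒪, j1, j2, j3, j4, j5, j6, ρW, wilesLevel p t Smin SigW, hN, SigW,
    not_sq_dvd_wilesLevel hpp hSminP hSigP hpS,
    not_cube_dvd_wilesLevel hpp hSminP hSigP hpS, ?_, hSigP, ?_, hsub hpS, hNS,
    θ, T, k1, k2, k3, k4, k5, k6, k7, k8, H, hpt⟩
  · intro ℓ hℓ hd
    by_cases hℓp : ℓ = p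
    · subst hℓp
      exact dvd_wilesLevel_of_ne_flat hpp (htp hd)
    · exact dvd_wilesLevel_of_mem hpp hSminP hSigP ℓ
        (Finset.mem_union_right _ ((hbadmem ℓ hℓ).mp hd)) hℓp
  · intro ℓ hℓ
    by_cases hℓp : ℓ = p
    · exact Or.inl hℓp
    · exact Or.inr (dvd_wilesLevel_of_mem hpp hSminP hSigP ℓ hℓ hℓp)

end Fermat.Agent.S59.Arch

end
-- ===== PACK-END S59/Arch/Glue3.lean

-- ===== PACK-BEGIN S59/Arch/Glue4.lean
section



/-!
# Row S59 — main glue, v3: module form of the induction (helper239)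

* `rtIsoM_union`  : the induction over the non-minimal primes, in module form.
* `rtAll_of_M`    : `MinRTMStatement → NonMinStepMStatement → NonMinPMStatement → RTAllStatement`.
* `rtAll_of`      : the same from the ring-form statements of `SpecRT.lean`.
* `mlt2_of_rtAll` : `SemistableMLT2Statement` from the cells of `coord/S59.md` and `RTAllStatement`.
* `mlt2_of_M`     : the composite (THE glue of the `R = T` layer).
-/

set_option autoImplicit false

open Polynomial IsLocalRing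
open scoped WeierstrassCurve.Affine

namespace Fermat.Agent.S59.Arch

section Induction

variable (p : ℕ) [Fact p.Prime]
  (𝒪 : Type) [CommRing 𝒪] [IsDomain 𝒪] [IsDiscreteValuationRing 𝒪]
  [IsAdicComplete (maximalIdeal 𝒪) 𝒪] [Finite (ResidueField 𝒪)] [CharZero 𝒪]
  (ρbar : ResidualGaloisRep (ResidueField 𝒪))

/-- The induction over the non-minimal primes, module form. -/
theorem rtIsoM_union (hNM : NonMinStepMStatement) (Smin : Finset ℕ)
    (h : ResidualHyp p 𝒪 ρbar Smin) (hc : CurveCase p ρbar) (t : PType)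
    (ht : (t = .flat ∧ (GaloisRepAdic.ofResidualGaloisRep ρbar).IsFlatAt p) ∨
      (t = .sord ∧ (GaloisRepAdic.ofResidualGaloisRep ρbar).IsStrictOrdinaryAt p ∧
        ¬ (GaloisRepAdic.ofResidualGaloisRep ρbar).IsFlatAt p))
    (hmin : RTIsoM p 𝒪 ρbar t Smin Smin)
    (E : Finset ℕ) (hE : ∀ q ∈ E, q.Prime) :
    RTIsoM p 𝒪 ρbar t Smin (Smin ∪ E) := by
  classical
  induction E using Finset.induction_on with
  | empty => simpa using hmin
  | insert q E hqE ih =>
    have hE' : ∀ q ∈ E, q.Prime := fun r hr => hE r (Finset.mem_insert_of_mem hr)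
    have ih' := ih hE'
    by_cases hq : q ∈ Smin ∪ E
    · have : Smin ∪ insert q E = Smin ∪ E := by
        ext r
        simp only [Finset.mem_union, Finset.mem_insert]
        constructor
        · rintro (h1 | rfl | h1)
          · exact Or.inl h1
          · exact Finset.mem_union.mp hq
          · exact Or.inr h1
        · rintro (h1 | h1)
          · exact Or.inl h1
          · exact Or.inr (Or.inr h1)
      rw [this]
      exact ih'
    · have : Smin ∪ insert q E = insert q (Smin ∪ E) := by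
        ext r
        simp only [Finset.mem_union, Finset.mem_insert]
        tauto
      rw [this]
      refine hNM p 𝒪 ρbar Smin h hc t ht (Smin ∪ E) Finset.subset_union_left ?_ q
        (hE q (Finset.mem_insert_self q E)) hq ih'
      intro r hr
      rcases Finset.mem_union.mp hr with h1 | h1
      · exact h.hSmin r h1
      · exact hE' r h1

end Induction

/-- The three cells TW, NM, NMP in module form give all the `R_Σ ≅ T_Σ`. -/
theorem rtAll_of_M (hMin : MinRTMStatement) (hNM : NonMinStepMStatement)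
    (hNMP : NonMinPMStatement) : RTAllStatement := by
  intro p _ 𝒪 _ _ _ _ _ _ ρbar Smin h hc t ht hN χ hχ E hE
  have hmin := hMin p 𝒪 ρbar Smin h hc t ht hN χ hχ
  have hU := rtIsoM_union p 𝒪 ρbar hNM Smin h hc t ht hmin E hE
  refine ⟨hU.rtIso, ?_⟩
  rintro rfl hord
  have hflat : (GaloisRepAdic.ofResidualGaloisRep ρbar).IsFlatAt p := by
    rcases ht with ⟨-, hf⟩ | ⟨h1, -⟩
    · exact hf
    · exact absurd h1 (by simp)
  refine hNMP p 𝒪 ρbar Smin h hc (Smin ∪ E) Finset.subset_union_left ?_ hflat hord hU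
  intro r hr
  rcases Finset.mem_union.mp hr with h1 | h1
  · exact h.hSmin r h1
  · exact hE r h1

/-- The same from the ring-form statements. -/
theorem rtAll_of (hMin : MinRTStatement) (hNM : NonMinStepStatement)
    (hNMP : NonMinPStatement) : RTAllStatement := by
  intro p _ 𝒪 _ _ _ _ _ _ ρbar Smin h _ t ht hN χ hχ E hE
  have hmin := hMin p 𝒪 ρbar Smin h t ht hN χ hχ
  have hU := rtIso_union p 𝒪 ρbar hNM Smin h t hmin E hE
  refine ⟨hU, ?_⟩
  rintro rfl hord
  refine hNMP p 𝒪 ρbar Smin h (Smin ∪ E) Finset.subset_union_left ?_ hord hU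
  intro r hr
  rcases Finset.mem_union.mp hr with h1 | h1
  · exact h.hSmin r h1
  · exact hE r h1

/-- **GLUE, v3.**  The modularity lifting theorem in point form from the cells of the board,
with the three `R = T` cells bundled as `RTAllStatement`. -/
theorem mlt2_of_rtAll (hC : CoeffStatement) (hCR : CurveRepStatement)
    (h53 : S53Statement) (h54 : S54Statement)
    (hRED : ResidualOfAdicStatement) (hID : ResidualIdStatement)
    (hLO : LevelOptStatement) (hDICT : DictStatement) (hGTW : CurveResidualHypStatement)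
    (hBC : ResidualBCStatement) (hCOND : SigmaCondStatement)
    (hAll : RTAllStatement) :
    SemistableMLT2Statement := by
  classical
  intro p _ hp W hΔ hW hirr M₀ _ hres₀ hM₀ hM₀3
  have hpp : p.Prime := Fact.out
  have hp2 : p ≠ 2 := by rcases hp with rfl | rfl <;> decide
  -- `hcard`, `hker` from a `CurveRep` over `ℤ_p`
  obtain ⟨𝒪₀, i1, i2, i3, i4, i5, i6, hp𝒪₀⟩ := hC p hpp
  obtain ⟨ρ₀⟩ := hCR p hp2 W hΔ hW hirr 𝒪₀ hp𝒪₀
  have hcard := ρ₀.hcard
  have hker := ρ₀.hker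
  set ρFp : ResidualGaloisRep (ZMod p) :=
    (W.map (Int.castRingHom ℚ)).residualGaloisRepOf p hcard hker with hρFp
  -- unramified at the good primes
  have hunrFp : ∀ q : ℕ, q.Prime → q ≠ p → ¬ (q : ℤ) ∣ W.Δ → ρFp.IsUnramifiedAt q := by
    intro q hq hqp hgood
    have h1 := residual_isUnramifiedAt (ρ₀.unram q hq hgood hqp)
    have h2 := isUnramifiedAt_of_residual_isEquiv ρ₀.residual h1
    exact ((hBC p ρFp (ResidueField 𝒪₀) ρ₀.ι).1 q hq).mp h2
  -- the minimal set
  set bad : Finset ℕ := W.Δ.natAbs.primeFactors with hbad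
  have hbadmem : ∀ q : ℕ, q.Prime → ((q : ℤ) ∣ W.Δ ↔ q ∈ bad) := by
    intro q hq
    rw [hbad, Nat.mem_primeFactors, Int.natCast_dvd]
    constructor
    · intro h
      exact ⟨hq, h, Int.natAbs_ne_zero.mpr hΔ⟩
    · intro h
      exact h.2.1
  set Smin : Finset ℕ := insert p (bad.filter (fun q => ¬ ρFp.IsUnramifiedAt q)) with hSmindef
  have hpS : p ∈ Smin := Finset.mem_insert_self _ _
  have hSminP : ∀ q ∈ Smin, q.Prime := by
    intro q hq
    rcases Finset.mem_insert.mp hq with rfl | h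
    · exact hpp
    · exact Nat.prime_of_mem_primeFactors (Finset.mem_filter.mp h).1
  have hSminBad : ∀ q ∈ Smin, q ≠ p → (q : ℤ) ∣ W.Δ := by
    intro q hq hqp
    rcases Finset.mem_insert.mp hq with rfl | h
    · exact absurd rfl hqp
    · exact (hbadmem q (Nat.prime_of_mem_primeFactors (Finset.mem_filter.mp h).1)).mpr
        (Finset.mem_filter.mp h).1
  have hminFp : IsMinSet p ρFp Smin := by
    refine ⟨hpS, hSminP, fun q hq hqp => ⟨fun h => ?_, fun h => ?_⟩⟩
    · rcases Finset.mem_insert.mp h with rfl | h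
      · exact absurd rfl hqp
      · exact (Finset.mem_filter.mp h).2
    · refine Finset.mem_insert_of_mem (Finset.mem_filter.mpr ⟨?_, h⟩)
      by_contra hnot
      exact h (hunrFp q hq hqp fun hd => hnot ((hbadmem q hq).mp hd))
  -- the type at `p` of the minimal problem
  obtain ⟨t₀, ht₀⟩ : ∃ t₀ : PType,
      (t₀ = .flat ∧ (GaloisRepAdic.ofResidualGaloisRep ρFp).IsFlatAt p) ∨
      (t₀ = .sord ∧ ¬ (GaloisRepAdic.ofResidualGaloisRep ρFp).IsFlatAt p) := by
    by_cases hflat : (GaloisRepAdic.ofResidualGaloisRep ρFp).IsFlatAt p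
    · exact ⟨.flat, Or.inl ⟨rfl, hflat⟩⟩
    · exact ⟨.sord, Or.inr ⟨rfl, hflat⟩⟩
  -- level optimisation and coefficients
  have hmodmin := hLO p hp W hΔ hW hirr M₀ hres₀ hM₀ hM₀3 hcard hker Smin hminFp t₀ ht₀
  haveI hNmin : NeZero (wilesLevel p t₀ Smin Smin) := ⟨wilesLevel_ne_zero hpp hSminP hSminP⟩
  obtain ⟨𝒪, j1, j2, j3, j4, j5, j6, ι, χ, hp𝒪, hquad, hχ⟩ :=
    hDICT p hp2 W hΔ hW hirr hcard hker (wilesLevel p t₀ Smin Smin) Smin hpS hSminP
      (fun q hq hqN => mem_of_prime_dvd_wilesLevel hpp hSminP hSminP hpS (Finset.Subset.refl _)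
        q hq hqN) hmodmin
  obtain ⟨ρW⟩ := hCR p hp2 W hΔ hW hirr 𝒪 hp𝒪
  set ρbar : ResidualGaloisRep (ResidueField 𝒪) := curveResidual p W hcard hker ι with hρbar
  have hresW : ρW.ρ.residual.IsEquiv ρbar := by
    have h := ρW.residual
    have hι : ρW.ι = ι := Subsingleton.elim _ _
    rw [hι] at h
    exact h
  have hmin : IsMinSet p ρbar Smin := by
    refine ⟨hpS, hSminP, fun q hq hqp => ?_⟩
    rw [hminFp.2.2 q hq hqp]
    exact not_congr ((hBC p ρFp (ResidueField 𝒪) ι).1 q hq).symm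
  have hRH : ResidualHyp p 𝒪 ρbar Smin :=
    hGTW p hp W hΔ hW hirr hcard hker 𝒪 hp𝒪 ι hquad Smin hmin
  have hCC : CurveCase p ρbar := ⟨hp, W, hΔ, hW, hirr, hcard, hker, ι, rfl⟩
  -- the set `Σ_W` and the conditions satisfied by `ρ_W`
  set SigW : Finset ℕ := Smin ∪ bad with hSigW
  have hSigP : ∀ q ∈ SigW, q.Prime := by
    intro q hq
    rcases Finset.mem_union.mp hq with h | h
    · exact hSminP q h
    · exact Nat.prime_of_mem_primeFactors h
  have hsub : Smin ⊆ SigW := Finset.subset_union_left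
  have hunrW : ∀ q : ℕ, q.Prime → q ∉ SigW → ρW.ρ.IsUnramifiedAt q := by
    intro q hq hqS
    have hqp : q ≠ p := by
      rintro rfl
      exact hqS (hsub hpS)
    refine ρW.unram q hq (fun hd => hqS ?_) hqp
    exact Finset.mem_union_right _ ((hbadmem q hq).mp hd)
  have hunipW : ∀ q ∈ Smin, q.Prime → q ≠ p → ρW.ρ.IsUnipotentOnInertiaAt q := by
    intro q hqS hq hqp
    exact ρW.unip q hq (fun hgood => hgood (hSminBad q hqS hqp)) hqp
  -- reduction of a condition of type `Σ_W`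
  have hred : ∀ t : PType, sigmaCond 𝒪 p t Smin SigW ρW.ρ →
      sigmaCond 𝒪 p t Smin SigW (GaloisRepAdic.ofResidualGaloisRep ρbar) := fun t h =>
    hRED 𝒪 (sigmaCond 𝒪 p t Smin SigW) (hCOND p hp2 𝒪 hp𝒪 t Smin SigW).1 ρW.ρ ρbar hresW h
  have hflatBC := (hBC p ρFp (ResidueField 𝒪) ι).2
  -- the final type and `R = T`
  obtain ⟨t, htp, hcondW, hRT⟩ : ∃ t : PType, ((p : ℤ) ∣ W.Δ → t ≠ .flat) ∧
      sigmaCond 𝒪 p t Smin SigW ρW.ρ ∧ RTIso p 𝒪 ρbar t Smin SigW := by
    have hbadP : ∀ q ∈ bad, q.Prime := fun q hq => Nat.prime_of_mem_primeFactors hq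
    by_cases hgood : (p : ℤ) ∣ W.Δ
    · -- multiplicative reduction at `p`
      have hso : ρW.ρ.IsStrictOrdinaryAt p := ρW.ord (fun h => h hgood)
      have hcs : sigmaCond 𝒪 p .sord Smin SigW ρW.ρ := ⟨⟨ρW.det, hso, hunrW⟩, hunipW⟩
      have hco : sigmaCond 𝒪 p .ord Smin SigW ρW.ρ :=
        ⟨⟨ρW.det, hso.isOrdinaryAt, hunrW⟩, hunipW⟩
      rcases ht₀ with ⟨rfl, hflat⟩ | ⟨rfl, hnflat⟩
      · -- `E[p]` flat: minimal problem flat, then the step at `p`
        have h1 := hAll p 𝒪 ρbar Smin hRH hCC .flat (Or.inl ⟨rfl, hflatBC.mpr hflat⟩) hNmin χ hχ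
          bad hbadP
        have hord : (GaloisRepAdic.ofResidualGaloisRep ρbar).IsOrdinaryAt p :=
          (hred .ord hco).1.2.1
        exact ⟨.ord, fun _ => by simp, hco, h1.2 rfl hord⟩
      · -- `E[p]` not flat: strictly ordinary minimal problem
        have hsobar : (GaloisRepAdic.ofResidualGaloisRep ρbar).IsStrictOrdinaryAt p :=
          (hred .sord hcs).1.2.1
        have h1 := hAll p 𝒪 ρbar Smin hRH hCC .sord
          (Or.inr ⟨rfl, hsobar, fun h => hnflat (hflatBC.mp h)⟩) hNmin χ hχ bad hbadP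
        exact ⟨.sord, fun _ => by simp, hcs, h1.1⟩
    · -- good reduction at `p`
      have hfl : ρW.ρ.IsFlatAt p := ρW.flat hgood
      have hcf : sigmaCond 𝒪 p .flat Smin SigW ρW.ρ := ⟨⟨ρW.det, hfl, hunrW⟩, hunipW⟩
      have hflbar : (GaloisRepAdic.ofResidualGaloisRep ρbar).IsFlatAt p := (hred .flat hcf).1.2.1
      rcases ht₀ with ⟨rfl, -⟩ | ⟨rfl, hnflat⟩
      · have h1 := hAll p 𝒪 ρbar Smin hRH hCC .flat (Or.inl ⟨rfl, hflbar⟩) hNmin χ hχ bad hbadP
        exact ⟨.flat, fun h => absurd h hgood, hcf, h1.1⟩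
      · exact absurd (hflatBC.mp hflbar) hnflat
  -- the point
  have hD : Nonempty (GaloisRep.DeformationRingData 𝒪 ρbar (sigmaCond 𝒪 p t Smin SigW)) :=
    h53 𝒪 ρbar _ hRH.habs (hCOND p hp2 𝒪 hp𝒪 t Smin SigW).1 (hred t hcondW)
      ((hCOND p hp2 𝒪 hp𝒪 t Smin SigW).2 ρbar)
  have hres' : ρW.ρ.residual.IsEquiv
      (ρbar.baseChangeAlong (ResidueField.map (algebraMap 𝒪 𝒪))) := by
    obtain ⟨e1⟩ := hresW
    obtain ⟨e2⟩ := hID 𝒪 ρbar
    exact ⟨e1.trans e2⟩
  have hNS : ∀ q : ℕ, q.Prime → q ∣ wilesLevel p t Smin SigW → q ∈ SigW := fun q hq h =>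
    mem_of_prime_dvd_wilesLevel hpp hSminP hSigP hpS hsub q hq h
  obtain ⟨hN, θ, T, k1, k2, k3, k4, k5, k6, k7, k8, H, hpt⟩ :=
    point_of_rtIso p 𝒪 ρbar h54 t Smin SigW hNS hD hRT ρW.ρ hcondW hres'
  refine ⟨𝒪, j1, j2, j3, j4, j5, j6, ρW, wilesLevel p t Smin SigW, hN, SigW,
    not_sq_dvd_wilesLevel hpp hSminP hSigP hpS,
    not_cube_dvd_wilesLevel hpp hSminP hSigP hpS, ?_, hSigP, ?_, hsub hpS, hNS,
    θ, T, k1, k2, k3, k4, k5, k6, k7, k8, H, hpt⟩
  · intro ℓ hℓ hd
    by_cases hℓp : ℓ = p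
    · subst hℓp
      exact dvd_wilesLevel_of_ne_flat hpp (htp hd)
    · exact dvd_wilesLevel_of_mem hpp hSminP hSigP ℓ
        (Finset.mem_union_right _ ((hbadmem ℓ hℓ).mp hd)) hℓp
  · intro ℓ hℓ
    by_cases hℓp : ℓ = p
    · exact Or.inl hℓp
    · exact Or.inr (dvd_wilesLevel_of_mem hpp hSminP hSigP ℓ hℓ hℓp)


/-- **THE GLUE of the `R = T` layer** (module form). -/
theorem mlt2_of_M (hC : CoeffStatement) (hCR : CurveRepStatement)
    (h53 : S53Statement) (h54 : S54Statement)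
    (hRED : ResidualOfAdicStatement) (hID : ResidualIdStatement)
    (hLO : LevelOptStatement) (hDICT : DictStatement) (hGTW : CurveResidualHypStatement)
    (hBC : ResidualBCStatement) (hCOND : SigmaCondStatement)
    (hMin : MinRTMStatement) (hNM : NonMinStepMStatement) (hNMP : NonMinPMStatement) :
    SemistableMLT2Statement :=
  mlt2_of_rtAll hC hCR h53 h54 hRED hID hLO hDICT hGTW hBC hCOND (rtAll_of_M hMin hNM hNMP)

end Fermat.Agent.S59.Arch

end
-- ===== PACK-END S59/Arch/Glue4.lean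

-- ===== PACK-BEGIN S59/Arch/SpecPlus.lean
section



/-!
# Row S59 — the `R = T` layer, FINAL targets of the cells TW, NM, NMP (architect helper239, v5)

RULING (board `coord/S59.md` v5): the induction invariant of the `R = T` layer is helper585's
`NM.RTIsoPlus` (`Fermat/Agent/S59/NM/Spec.lean`): `RTIso Σ` with ONE point `π` of `T_Σ` of
eigenvalues `a = eig χ` (`χ` the given eigensystem of the minimal level), such that

    η_{T_Σ}(π) = δ₀(a) · ∏_{q ∈ Σ ∖ Smin} (c_q(a)),      c_q = (q - 1)(a_q² - (q + 1)²),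

`δ₀(a) = NM.cohCong N_min Smin a` the ideal of the values of the Manin pairing on the
`a`-eigenclasses of the minimal level.  (The family `RTIsoM`/`PairInv` of `SpecRT2.lean` is
RETIRED as a target: it stays true and its glue `Glue4.mlt2_of_M` stays valid.)

The targets are the `Plus` statements of `NM/Spec.lean` with the hypotheses which the glue has
for free ADDED (so they are WEAKER than the frozen ones of `NM/Spec.lean`, which imply them:
`minRTPlusH_of`, `nonMinStepPlusH_of`, `nonMinPPlusH_of`):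

* `MinRTPlusHStatement`      (cell TW)  = `NM.MinRTPlusStatement` + `CurveCase`;
* `NonMinStepPlusHStatement` (cell NM)  = `NM.NonMinStepPlusStatement` + `CurveCase` + the type
  hypothesis `_ht` (`.flat` and `ρ̄` flat, or `.sord` and `ρ̄` strictly ordinary and NOT flat:
  then every form of level `N_Σ` giving `ρ̄` is `p`-new and the datum is strictly ordinary);
* `NonMinPPlusHStatement`    (cell NMP) = `NM.NonMinPPlusStatement` + `CurveCase` + `ρ̄` flat.

Glue: `Arch/Glue5.lean` (`rtAll_of_plus`, `mlt2_of_plus`, PROVED).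
-/

set_option autoImplicit false

open Polynomial IsLocalRing

namespace Fermat.Agent.S59.Arch

open Fermat.Agent.S59.NM

/-- **Cell TW, target.**  `NM.MinRTPlusStatement` under the extra hypothesis `CurveCase`. -/
def MinRTPlusHStatement : Prop :=
  ∀ (p : ℕ) [Fact p.Prime]
    (𝒪 : Type) [CommRing 𝒪] [IsDomain 𝒪] [IsDiscreteValuationRing 𝒪]
    [IsAdicComplete (maximalIdeal 𝒪) 𝒪] [Finite (ResidueField 𝒪)] [CharZero 𝒪]
    (ρbar : ResidualGaloisRep (ResidueField 𝒪)) (Smin : Finset ℕ)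
    (_h : ResidualHyp p 𝒪 ρbar Smin)
    (_hc : CurveCase p ρbar) (t : PType)
    (_ht : (t = .flat ∧ (GaloisRepAdic.ofResidualGaloisRep ρbar).IsFlatAt p) ∨
      (t = .sord ∧ (GaloisRepAdic.ofResidualGaloisRep ρbar).IsStrictOrdinaryAt p ∧
        ¬ (GaloisRepAdic.ofResidualGaloisRep ρbar).IsFlatAt p))
    (_hN : NeZero (wilesLevel p t Smin Smin))
    (χ : CuspForm.heckeAlgebra (wilesLevel p t Smin Smin) 2 (↑Smin : Set ℕ) →+* 𝒪)
    (_hχ : G4.ResFrobCond ρbar ((residue 𝒪).comp χ)),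
    RTIsoPlus p 𝒪 ρbar t Smin Smin (eig χ)

/-- **Cell NM, target.**  `NM.NonMinStepPlusStatement` under the extra hypotheses `CurveCase`
and `_ht` (the type is the type of the minimal problem). -/
def NonMinStepPlusHStatement : Prop :=
  ∀ (p : ℕ) [Fact p.Prime]
    (𝒪 : Type) [CommRing 𝒪] [IsDomain 𝒪] [IsDiscreteValuationRing 𝒪]
    [IsAdicComplete (maximalIdeal 𝒪) 𝒪] [Finite (ResidueField 𝒪)] [CharZero 𝒪]
    (ρbar : ResidualGaloisRep (ResidueField 𝒪)) (Smin : Finset ℕ)
    (_h : ResidualHyp p 𝒪 ρbar Smin)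
    (_hc : CurveCase p ρbar) (t : PType)
    (_ht : (t = .flat ∧ (GaloisRepAdic.ofResidualGaloisRep ρbar).IsFlatAt p) ∨
      (t = .sord ∧ (GaloisRepAdic.ofResidualGaloisRep ρbar).IsStrictOrdinaryAt p ∧
        ¬ (GaloisRepAdic.ofResidualGaloisRep ρbar).IsFlatAt p))
    (_hN : NeZero (wilesLevel p t Smin Smin))
    (χ : CuspForm.heckeAlgebra (wilesLevel p t Smin Smin) 2 (↑Smin : Set ℕ) →+* 𝒪)
    (_hχ : G4.ResFrobCond ρbar ((residue 𝒪).comp χ))
    (Sig : Finset ℕ) (_hSig : Smin ⊆ Sig) (_hSigP : ∀ q ∈ Sig, q.Prime)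
    (q : ℕ) (_hq : q.Prime) (_hqS : q ∉ Sig),
    RTIsoPlus p 𝒪 ρbar t Smin Sig (eig χ) → RTIsoPlus p 𝒪 ρbar t Smin (insert q Sig) (eig χ)

/-- **Cell NMP, target.**  `NM.NonMinPPlusStatement` under the extra hypotheses `CurveCase` and
`ρ̄` flat at `p`. -/
def NonMinPPlusHStatement : Prop :=
  ∀ (p : ℕ) [Fact p.Prime]
    (𝒪 : Type) [CommRing 𝒪] [IsDomain 𝒪] [IsDiscreteValuationRing 𝒪]
    [IsAdicComplete (maximalIdeal 𝒪) 𝒪] [Finite (ResidueField 𝒪)] [CharZero 𝒪]
    (ρbar : ResidualGaloisRep (ResidueField 𝒪)) (Smin : Finset ℕ)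
    (_h : ResidualHyp p 𝒪 ρbar Smin)
    (_hc : CurveCase p ρbar)
    (_hN : NeZero (wilesLevel p .flat Smin Smin))
    (χ : CuspForm.heckeAlgebra (wilesLevel p .flat Smin Smin) 2 (↑Smin : Set ℕ) →+* 𝒪)
    (_hχ : G4.ResFrobCond ρbar ((residue 𝒪).comp χ))
    (Sig : Finset ℕ) (_hSig : Smin ⊆ Sig) (_hSigP : ∀ q ∈ Sig, q.Prime)
    (_hflat : (GaloisRepAdic.ofResidualGaloisRep ρbar).IsFlatAt p)
    (_hord : (GaloisRepAdic.ofResidualGaloisRep ρbar).IsOrdinaryAt p),
    RTIsoPlus p 𝒪 ρbar .flat Smin Sig (eig χ) → RTIso p 𝒪 ρbar .ord Smin Sig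

/-- The frozen statement of `NM/Spec.lean` implies the target of cell TW. -/
theorem minRTPlusH_of (h : MinRTPlusStatement) : MinRTPlusHStatement :=
  fun p _ 𝒪 _ _ _ _ _ _ ρbar Smin hR _ t ht hN χ hχ => h p 𝒪 ρbar Smin hR t ht hN χ hχ

/-- The frozen statement of `NM/Spec.lean` implies the target of cell NM. -/
theorem nonMinStepPlusH_of (h : NonMinStepPlusStatement) : NonMinStepPlusHStatement := by
  intro p _ 𝒪 _ _ _ _ _ _ ρbar Smin hR _ t ht hN χ hχ Sig hSig hSigP q hq hqS hplus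
  refine h p 𝒪 ρbar Smin hR t ?_ hN χ hχ Sig hSig hSigP q hq hqS hplus
  rcases ht with ⟨rfl, -⟩ | ⟨rfl, -⟩ <;> simp

/-- The frozen statement of `NM/Spec.lean` implies the target of cell NMP. -/
theorem nonMinPPlusH_of (h : NonMinPPlusStatement) : NonMinPPlusHStatement :=
  fun p _ 𝒪 _ _ _ _ _ _ ρbar Smin hR _ hN χ hχ Sig hSig hSigP _ hord hplus =>
    h p 𝒪 ρbar Smin hR hN χ hχ Sig hSig hSigP hord hplus

end Fermat.Agent.S59.Arch

end
-- ===== PACK-END S59/Arch/SpecPlus.lean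

-- ===== PACK-BEGIN S59/Arch/PlusPkg.lean
section



/-!
# Row S59 — tools for the `Plus` invariant (architect helper239, board v5)

* `targetIdeal_min`, `targetIdeal_insert` : the target ideal at `Σ = Smin` and at `Σ ∪ {q}`;
* `rtIsoPlus_of_pkg` : `NM.RTIsoPlus` from a Hecke package `P` (`TW.H959.HeckePkg`), ONE point
  `π` of eigenvalues `a`, the equality `η(π) = targetIdeal`, and the clause `∀ D φ`;
* `exists_pkg_of_rtIsoPlus` : the converse (destructuring);
* `HeckeSidePlusStatement` : the Hecke side of cell TW with the BRIDGE clause of the `Plus`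
  invariant (replaces `HeckeSideMStatement` of board v4):

      pt has the eigenvalues of χ,   and   M₀ free over T₀  ⇒  η_{T₀}(pt) = δ₀(χ).

  (For `M₀ = e · H¹_par(Γ₀(N_min), 𝒪)`: `NM.BaseStatement` + the Eichler–Shimura bridge.)
-/

set_option autoImplicit false

open Polynomial IsLocalRing

namespace Fermat.Agent.S59.Arch

open Fermat.Agent.S59.NM Fermat.Agent.S59.TW.H959

section

variable (p : ℕ)
  (𝒪 : Type) [CommRing 𝒪] [IsDomain 𝒪] [IsDiscreteValuationRing 𝒪]
  [IsAdicComplete (maximalIdeal 𝒪) 𝒪]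

/-- At `Σ = Smin` the target ideal is `δ₀`. -/
theorem targetIdeal_min (t : PType) (Smin : Finset ℕ) (a : ℕ → 𝒪) :
    targetIdeal p 𝒪 t Smin Smin a = cohCong (wilesLevel p t Smin Smin) Smin a := by
  unfold targetIdeal
  rw [Finset.sdiff_self, Finset.prod_empty, Ideal.one_eq_top, Ideal.mul_top]

/-- The target ideal at `Σ ∪ {q}`, `q ∉ Σ ⊇ Smin`. -/
theorem targetIdeal_insert (t : PType) {Smin Sig : Finset ℕ} (hSig : Smin ⊆ Sig) {q : ℕ}
    (hq : q ∉ Sig) (a : ℕ → 𝒪) :
    targetIdeal p 𝒪 t Smin (insert q Sig) a =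
      Ideal.span {cq a q} * targetIdeal p 𝒪 t Smin Sig a := by
  classical
  unfold targetIdeal
  have hqm : q ∉ Smin := fun h => hq (hSig h)
  rw [Finset.insert_sdiff_of_notMem _ hqm,
    Finset.prod_insert (fun h => hq (Finset.mem_sdiff.mp h).1)]
  ring

variable {p 𝒪}
variable {ρbar : ResidualGaloisRep (ResidueField 𝒪)} {t : PType} {Smin : Finset ℕ}

/-- **`RTIsoPlus` from a package.** -/
theorem rtIsoPlus_of_pkg {Sig : Finset ℕ} [hN : NeZero (wilesLevel p t Smin Sig)]
    (P : HeckePkg p 𝒪 ρbar t Smin Sig) (a : ℕ → 𝒪) (π : P.T →ₐ[𝒪] 𝒪)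
    (hπ : ∀ (l : ℕ) (hl : l.Prime) (hlN : ¬ l ∣ wilesLevel p t Smin Sig)
      (hlS : l ∉ (↑Sig : Set ℕ)),
      π (CuspForm.heckeLocal.π (wilesLevel p t Smin Sig) (↑Sig : Set ℕ) 𝒪 P.θ
        (CuspForm.heckeAlgebra.T hl hlN hlS)) = a l)
    (hη : NC.congIdeal π = targetIdeal p 𝒪 t Smin Sig a)
    (h : ∀ (D : GaloisRep.DeformationRingData 𝒪 ρbar (sigmaCond 𝒪 p t Smin Sig))
      (φ : D.R →ₐ[𝒪] P.T),
      (∃ hφ : IsLocalHom (φ : D.R →+* P.T),
        (D.ρ.baseChangeAlong (φ : D.R →+* P.T) hφ).IsEquiv P.H.ρ) →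
      Function.Bijective φ ∧ Finite (NC.Cot (π.comp φ)) ∧
        Nat.card (NC.Cot (π.comp φ)) = Nat.card (𝒪 ⧸ NC.congIdeal π)) :
    RTIsoPlus p 𝒪 ρbar t Smin Sig a :=
  ⟨hN, P.integral, P.θ, P.isLocalRing, P.isNoetherianRing, P.isAdicComplete,
    P.isLocalHom, P.finite, P.free, P.H, P.hπ, P.hres, P.hcond, π, hπ, hη, h⟩

/-- **Destructuring `RTIsoPlus`**: a package, the point, the invariant and the clause. -/
theorem exists_pkg_of_rtIsoPlus {Sig : Finset ℕ} {a : ℕ → 𝒪}
    (h : RTIsoPlus p 𝒪 ρbar t Smin Sig a) :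
    ∃ (_ : NeZero (wilesLevel p t Smin Sig)) (P : HeckePkg p 𝒪 ρbar t Smin Sig)
      (π : P.T →ₐ[𝒪] 𝒪),
      (∀ (l : ℕ) (hl : l.Prime) (hlN : ¬ l ∣ wilesLevel p t Smin Sig)
        (hlS : l ∉ (↑Sig : Set ℕ)),
        π (CuspForm.heckeLocal.π (wilesLevel p t Smin Sig) (↑Sig : Set ℕ) 𝒪 P.θ
          (CuspForm.heckeAlgebra.T hl hlN hlS)) = a l) ∧
      NC.congIdeal π = targetIdeal p 𝒪 t Smin Sig a ∧
      ∀ (D : GaloisRep.DeformationRingData 𝒪 ρbar (sigmaCond 𝒪 p t Smin Sig))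
        (φ : D.R →ₐ[𝒪] P.T),
        (∃ hφ : IsLocalHom (φ : D.R →+* P.T),
          (D.ρ.baseChangeAlong (φ : D.R →+* P.T) hφ).IsEquiv P.H.ρ) →
        Function.Bijective φ ∧ Finite (NC.Cot (π.comp φ)) ∧
          Nat.card (NC.Cot (π.comp φ)) = Nat.card (𝒪 ⧸ NC.congIdeal π) := by
  obtain ⟨hN, i2, θ, i3, i4, i5, i6, i7, i8, H, h1, h2, h3, π, hπ, hη, h4⟩ := h
  exact ⟨hN, ⟨i2, θ, i3, i4, i5, i6, i7, i8, H, h1, h2, h3⟩, π, hπ, hη, h4⟩

end

/-- **LEAF HECKE of cell TW, `Plus` form** (board v5 §1).  As `TW.H959.HeckeSideStatement`, under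
the extra hypothesis `CurveCase`, with the two bridge clauses: the point `pt` has the eigenvalues
of `χ`, and if `M₀` has a finite basis over `T₀` then `η_{T₀}(pt) = δ₀(χ)`, the ideal of the
values of the Manin pairing on the `χ`-eigenclasses of level `N_min`. -/
def HeckeSidePlusStatement : Prop :=
  ∀ (p : ℕ) [Fact p.Prime]
    (𝒪 : Type) [CommRing 𝒪] [IsDomain 𝒪] [IsDiscreteValuationRing 𝒪]
    [IsAdicComplete (maximalIdeal 𝒪) 𝒪] [Finite (ResidueField 𝒪)] [CharZero 𝒪]
    (ρbar : ResidualGaloisRep (ResidueField 𝒪)) (Smin : Finset ℕ)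
    (_h : ResidualHyp p 𝒪 ρbar Smin)
    (_hc : CurveCase p ρbar) (t : PType)
    (_ht : (t = .flat ∧ (GaloisRepAdic.ofResidualGaloisRep ρbar).IsFlatAt p) ∨
      (t = .sord ∧ (GaloisRepAdic.ofResidualGaloisRep ρbar).IsStrictOrdinaryAt p ∧
        ¬ (GaloisRepAdic.ofResidualGaloisRep ρbar).IsFlatAt p))
    (_hN : NeZero (wilesLevel p t Smin Smin))
    (χ : CuspForm.heckeAlgebra (wilesLevel p t Smin Smin) 2 (↑Smin : Set ℕ) →+* 𝒪)
    (_hχ : G4.ResFrobCond ρbar ((residue 𝒪).comp χ)),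
    ∃ (P₀ : HeckePkg p 𝒪 ρbar t Smin Smin) (pt : P₀.T →ₐ[𝒪] 𝒪)
      (M₀ : Type) (_ : AddCommGroup M₀) (_ : Module P₀.T M₀) (_ : Nontrivial M₀),
      (∀ (l : ℕ) (hl : l.Prime) (hlN : ¬ l ∣ wilesLevel p t Smin Smin)
        (hlS : l ∉ (↑Smin : Set ℕ)),
        pt (CuspForm.heckeLocal.π (wilesLevel p t Smin Smin) (↑Smin : Set ℕ) 𝒪 P₀.θ
          (CuspForm.heckeAlgebra.T hl hlN hlS)) = eig χ l) ∧
      ((∃ (d : ℕ) (b : Fin d → M₀), Function.Bijective (Fintype.linearCombination P₀.T b)) →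
        NC.congIdeal pt = cohCong (wilesLevel p t Smin Smin) Smin (eig χ)) ∧
      ∀ (n r : ℕ) (qv : Fin r → ℕ), IsTWSet p ρbar Smin n qv → HasTWModule P₀ M₀ n qv

end Fermat.Agent.S59.Arch

end
-- ===== PACK-END S59/Arch/PlusPkg.lean

-- ===== PACK-BEGIN Lib/Red/H290/Main.lean
section



/-!
# Piece GR of row S52: `GoodReduction` (helper290)

`Fermat.Agent.Lib.Red.H290.goodReduction : GoodReduction` — the reduction homomorphism
`W₀(K) → W₀(κ_V)` for a Weierstrass curve over a valuation subring `V` with unit discriminant —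
as an instance of the general `redHom` of `RedHom.lean`.
-/

set_option autoImplicit false

open WeierstrassCurve WeierstrassCurve.Affine WeierstrassCurve.Affine.Point

namespace Fermat.Agent.Lib.Red.H290

universe u

variable {K : Type u} [Field K] (V : ValuationSubring K)

/-- The structure map `V → κ_V` has kernel the maximal ideal. -/
lemma kerMax_algebraMap : KerMax V (algebraMap V (IsLocalRing.ResidueField V)) :=
  kerMax_residue V

/-- `W₀⁄κ_V` is the reduction of `W₀⁄K`. -/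
lemma isRedOf_baseChange (W₀ : WeierstrassCurve V) :
    IsRedOf V (algebraMap V (IsLocalRing.ResidueField V)) (W₀⁄K)
      (W₀⁄(IsLocalRing.ResidueField V)) :=
  isRedOf_map W₀

lemma Δ_baseChange_ne_zero (W₀ : WeierstrassCurve V) (hΔ : IsUnit W₀.Δ) :
    (W₀⁄(IsLocalRing.ResidueField V)).Δ ≠ 0 := by
  have : (W₀⁄(IsLocalRing.ResidueField V)).Δ =
      algebraMap V (IsLocalRing.ResidueField V) W₀.Δ := WeierstrassCurve.map_Δ ..
  rw [this]
  exact (hΔ.map (algebraMap V (IsLocalRing.ResidueField V))).ne_zero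

/-- **GR.** -/
theorem goodReduction : GoodReduction.{u} := by
  intro K _ _ V _ W₀ hΔ
  have h := isRedOf_baseChange V W₀
  have hφ := kerMax_algebraMap V
  have hΔ' := Δ_baseChange_ne_zero V W₀ hΔ
  refine ⟨redHom h hφ hΔ', ?_, ?_⟩
  · intro x y hxy hx hy
    refine ⟨?_, ?_⟩
    · have := rd_nonsingular h hΔ' hx hxy.1
      rwa [rd_of_mem hx, rd_of_mem hy] at this
    · rw [redHom_apply, red_some_of_mem h hΔ' hxy hx]
      congr 1
      · exact rd_of_mem hx
      · exact rd_of_mem hy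
  · intro x y hxy hx
    rw [redHom_apply, red_some_of_not_mem h hΔ' hxy hx]

end Fermat.Agent.Lib.Red.H290

end
-- ===== PACK-END Lib/Red/H290/Main.lean

-- ===== PACK-BEGIN S59/MFree/H779/AuxSystem.lean
section




/-!
# Row S59, block M-FREE without (Ell): the abstract transfer argument (helper779)

Setting of `MFree/H587/KappaSystem.lean`: a coset system `h : IsCosetSystem ι ι ρ` from `G` to `G`
(a Hecke correspondence `T`) whose cocycle preserves a character `κ : G →* D`, and `f : K →* G`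
injective with range `ker κ`.  Let `i₀` be an index such that `K` acts transitively on the index
set, `S' → G` the stabiliser of `i₀` and `K' → S'` the kernel of `κ` on `S'`.

`T` on `Hom(K, A)` factors as `cor^K_{K'} ∘ c^*`, where `c : K' → K` is the conjugation by `ρ i₀`
(`restrict_transfer_eq`), and `cor^{S'}_{K'} ∘ c^* = c^* ∘ cor^G_K` (`transferAlong_comp_cK`).
Hence, if the kernel of `cor^{S'}_{K'}` is the augmentation subgroup `I_D · Hom(K', A)`
(KerCor for the stabiliser), then **`T` maps the kernel of `cor^G_K` into `I_D · Hom(K, A)`**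
(`transfer_mem_aug_of_transferAlong_eq_zero`).  No hypothesis on the kernel of `cor^G_K` itself.
-/

set_option autoImplicit false

namespace Fermat.Agent.S59.MFree.H779

open Fermat.Agent.S41.H761 Fermat.Agent.S41.Spec Fermat.Agent.S59.MFree.H587
open Fermat.Agent.S41.H863 Fermat.Agent.S41.H581

/-! ## Lifting homomorphisms through an injective homomorphism -/

section Lift

variable {K G X : Type*} [Group K] [Group G] [Group X]

/-- The lift of `φ : X →* G` with values in the range of the injective `f : K →* G`. -/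
noncomputable def liftHom (f : K →* G) (hf : Function.Injective f) (φ : X →* G)
    (hφ : ∀ x, φ x ∈ f.range) : X →* K :=
  (MonoidHom.ofInjective hf).symm.toMonoidHom.comp (φ.codRestrict f.range hφ)

theorem f_liftHom (f : K →* G) (hf : Function.Injective f) (φ : X →* G)
    (hφ : ∀ x, φ x ∈ f.range) (x : X) : f (liftHom f hf φ hφ x) = φ x := by
  have h1 := (MonoidHom.ofInjective hf).apply_symm_apply (φ.codRestrict f.range hφ x)
  exact congrArg Subtype.val h1

theorem liftHom_injective (f : K →* G) (hf : Function.Injective f) (φ : X →* G)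
    (hφ : ∀ x, φ x ∈ f.range) (hinj : Function.Injective φ) :
    Function.Injective (liftHom f hf φ hφ) := by
  intro a b hab
  apply hinj
  rw [← f_liftHom f hf φ hφ a, ← f_liftHom f hf φ hφ b, hab]

end Lift

/-! ## Conjugation on the kernel -/

section Conj

variable {K G D : Type*} [Group K] [Group G] [Group D]
variable {κ : G →* D} (f : K →* G) (hf : Function.Injective f)
  (hr : ∀ g : G, g ∈ f.range ↔ κ g = 1)

include hr in
theorem conj_mem_range (g : G) (k : K) : g⁻¹ * f k * g ∈ f.range := by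
  rw [hr, map_mul, map_mul, (hr _).1 ⟨k, rfl⟩, mul_one, map_inv, inv_mul_cancel]

/-- The conjugation `k ↦ g⁻¹ k g` on `K = ker κ`, for `g ∈ G`. -/
noncomputable def conjHom (g : G) : K →* K :=
  liftHom f hf ((MulAut.conj g⁻¹).toMonoidHom.comp f) (fun k => by
    have := conj_mem_range f hr g k
    simpa [MulAut.conj_apply] using this)

theorem f_conjHom (g : G) (k : K) : f (conjHom f hf hr g k) = g⁻¹ * f k * g := by
  unfold conjHom
  rw [f_liftHom]
  simp

/-- The conjugation on `K` as an automorphism. -/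
noncomputable def conjEquiv (g : G) : K ≃* K where
  toFun := conjHom f hf hr g
  invFun := conjHom f hf hr g⁻¹
  left_inv k := by
    apply hf
    rw [f_conjHom, f_conjHom]
    group
  right_inv k := by
    apply hf
    rw [f_conjHom, f_conjHom]
    group
  map_mul' := map_mul _

theorem f_conjEquiv (g : G) (k : K) : f (conjEquiv f hf hr g k) = g⁻¹ * f k * g :=
  f_conjHom f hf hr g k

end Conj

/-! ## The augmentation subgroup -/

section Aug

variable {K G : Type*} [Group K] [Group G] (f : K →* G) (A : Type*) [AddCommGroup A]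

/-- `I · Hom(K, A)`: the subgroup generated by the `y ∘ c_g - y`, where `c_g` is the conjugation
`k ↦ g⁻¹ k g` by an element `g` of `G`. -/
def augOf : AddSubgroup (Additive K →+ A) :=
  AddSubgroup.closure {w | ∃ (g : G) (c : K →* K) (y : Additive K →+ A),
    (∀ k, f (c k) = g⁻¹ * f k * g) ∧ w = y.comp (MonoidHom.toAdditive c) - y}

end Aug

/-! ## The transfer as an additive map -/

section TransferHom

variable {H G : Type*} [Group H] [Group G] {A : Type*} [AddCommGroup A]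

theorem transferAlong_zero (f : H →* G) : transferAlong f (0 : Additive H →+ A) = 0 := by
  have h := transferAlong_add f (0 : Additive H →+ A) 0
  rw [add_zero] at h
  exact left_eq_add.mp h

theorem transferAlong_neg (f : H →* G) (ψ : Additive H →+ A) :
    transferAlong f (-ψ) = - transferAlong f ψ := by
  have h := transferAlong_add f ψ (-ψ)
  rw [add_neg_cancel, transferAlong_zero] at h
  exact eq_neg_of_add_eq_zero_right h.symm

theorem transferAlong_sub (f : H →* G) (ψ ψ' : Additive H →+ A) :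
    transferAlong f (ψ - ψ') = transferAlong f ψ - transferAlong f ψ' := by
  rw [sub_eq_add_neg, transferAlong_add, transferAlong_neg, ← sub_eq_add_neg]

end TransferHom

/-! ## The stabiliser of an index -/

section Main

variable {𝒢 G K D : Type*} [Group 𝒢] [Group G] [Group K] [Group D] {I : Type*}
variable {ι : G →* 𝒢} {ρ : I → 𝒢}
variable (h : IsCosetSystem ι ι ρ) {κ : G →* D} (hκ : PreservesKappa h κ)
variable (f : K →* G) (hf : Function.Injective f) (hr : ∀ g : G, g ∈ f.range ↔ κ g = 1)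
variable (i₀ : I)
variable {S' K' : Type*} [Group S'] [Group K']
variable (jS : S' →* G) (hS : ∀ g : G, g ∈ jS.range ↔ h.act i₀ g = i₀)
variable (f' : K' →* S') (hK' : ∀ s : S', s ∈ f'.range ↔ κ (jS s) = 1)

include hS in
theorem act_jS (s : S') : h.act i₀ (jS s) = i₀ := (hS _).1 ⟨s, rfl⟩

/-- The conjugation by `ρ i₀`, as a homomorphism from the stabiliser to `G`. -/
noncomputable def cS : S' →* G where
  toFun s := h.coc i₀ (jS s)
  map_one' := by rw [map_one, h.coc_one]
  map_mul' s t := by rw [map_mul, h.coc_mul, act_jS h i₀ jS hS s]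

theorem cS_apply (s : S') : cS h i₀ jS hS s = h.coc i₀ (jS s) := rfl

include hκ in
theorem kappa_cS (s : S') : κ (cS h i₀ jS hS s) = κ (jS s) := hκ i₀ (jS s)

include hr hK' in
theorem jS_f'_mem_range (k' : K') : (jS.comp f') k' ∈ f.range :=
  (hr _).2 ((hK' _).1 ⟨k', rfl⟩)

include hκ hr hK' in
theorem cS_f'_mem_range (k' : K') : ((cS h i₀ jS hS).comp f') k' ∈ f.range := by
  rw [hr, MonoidHom.comp_apply, kappa_cS h hκ i₀ jS hS]
  exact (hK' _).1 ⟨k', rfl⟩

/-- The inclusion `K' → K`. -/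
noncomputable def uK : K' →* K :=
  liftHom f hf (jS.comp f') (jS_f'_mem_range f hr jS f' hK')

theorem f_uK (k' : K') : f (uK f hf hr jS f' hK' k') = jS (f' k') :=
  f_liftHom f hf _ _ k'

/-- The conjugation by `ρ i₀`, as a homomorphism `K' → K`. -/
noncomputable def cK : K' →* K :=
  liftHom f hf ((cS h i₀ jS hS).comp f') (cS_f'_mem_range h hκ f hr i₀ jS hS f' hK')

theorem f_cK (k' : K') : f (cK h hκ f hf hr i₀ jS hS f' hK' k') = h.coc i₀ (jS (f' k')) :=
  f_liftHom f hf _ _ k'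

variable (hjS : Function.Injective jS) (hf' : Function.Injective f')

include hjS hf' in
theorem uK_injective : Function.Injective (uK f hf hr jS f' hK') :=
  liftHom_injective f hf _ _ (hjS.comp hf')

include hS in
theorem mem_range_uK (k : K) : k ∈ (uK f hf hr jS f' hK').range ↔ h.act i₀ (f k) = i₀ := by
  constructor
  · rintro ⟨k', rfl⟩
    rw [f_uK]
    exact act_jS h i₀ jS hS _
  · intro hk
    obtain ⟨s, hs⟩ := (hS _).2 hk
    have h1 : κ (jS s) = 1 := by
      rw [hs]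
      exact (hr _).1 ⟨k, rfl⟩
    obtain ⟨k', hk'⟩ := (hK' _).2 h1
    refine ⟨k', hf ?_⟩
    rw [f_uK, hk', hs]

/-- `act i g⁻¹ = i₀` if `act i₀ g = i`. -/
theorem act_inv_of_act {i : I} {g : G} (hg : h.act i₀ g = i) : h.act i g⁻¹ = i₀ := by
  rw [← hg, ← h.act_mul, mul_inv_cancel, h.act_one]

/-- `coc i g⁻¹ = (coc i₀ g)⁻¹` if `act i₀ g = i`. -/
theorem coc_inv_of_act {i : I} {g : G} (hg : h.act i₀ g = i) :
    h.coc i g⁻¹ = (h.coc i₀ g)⁻¹ := by
  have h1 := h.coc_mul i₀ g g⁻¹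
  rw [mul_inv_cancel, h.coc_one, hg] at h1
  exact eq_inv_of_mul_eq_one_right h1.symm

variable {A : Type*} [AddCommGroup A]

/-! ### `T = cor^K_{K'} ∘ c^*` -/

include hjS hf' hS in
/-- **Factorisation of the Hecke operator**: `T x = cor^K_{K'} (x ∘ c)`. -/
theorem restrict_transfer_eq [Fintype I] (htr : ∀ i : I, ∃ k : K, h.act i₀ (f k) = i)
    (x : Additive K →+ A) :
    (restrictSystem h hκ f hf hr).transfer x =
      transferAlong (uK f hf hr jS f' hK')
        (x.comp (MonoidHom.toAdditive (cK h hκ f hf hr i₀ jS hS f' hK'))) := by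
  classical
  set hK := restrictSystem h hκ f hf hr with hhK
  set u := uK f hf hr jS f' hK' with hu
  set c := cK h hκ f hf hr i₀ jS hS f' hK' with hc
  choose s hs using htr
  -- the twist
  have hb : ∀ i : I, ∃ b : K, f b = h.coc i₀ (f (s i)) := by
    intro i
    have h1 : h.coc i₀ (f (s i)) ∈ f.range := (hr _).2 (by rw [hκ]; exact (hr _).1 ⟨s i, rfl⟩)
    exact h1
  choose b hb using hb
  rw [← twistSystem_transfer hK b x]
  refine AddMonoidHom.ext fun k' => ?_
  obtain ⟨k, rfl⟩ : ∃ k : K, Additive.ofMul k = k' := ⟨Additive.toMul k', rfl⟩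
  -- the data of `k`
  have hmem : ∀ i : I, s i * k * (s (h.act i (f k)))⁻¹ ∈ u.range := by
    intro i
    rw [hu, mem_range_uK h f hf hr i₀ jS hS f' hK']
    rw [map_mul, map_mul, map_inv, h.act_mul, h.act_mul, hs i]
    exact act_inv_of_act h i₀ (hs _)
  choose kk hkk using hmem
  have hkk' : ∀ i : I, s i * k = u (kk i) * s (h.act i (f k)) := by
    intro i
    rw [hkk i, inv_mul_cancel_right]
  have hinj : ∀ a a' : I, s a * (s a')⁻¹ ∈ u.range → a = a' := by
    intro a a' haa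
    rw [hu, mem_range_uK h f hf hr i₀ jS hS f' hK', map_mul, map_inv, h.act_mul, hs a] at haa
    have h2 : h.act (h.act a (f (s a'))⁻¹) (f (s a')) = h.act i₀ (f (s a')) := by rw [haa]
    rw [← h.act_mul, inv_mul_cancel, h.act_one, hs a'] at h2
    exact h2
  have hsurj : ∀ g : K, ∃ a : I, g * (s a)⁻¹ ∈ u.range := by
    intro g
    refine ⟨h.act i₀ (f g), ?_⟩
    rw [hu, mem_range_uK h f hf hr i₀ jS hS f' hK', map_mul, map_inv, h.act_mul]
    exact act_inv_of_act h i₀ (hs _)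
  rw [transferAlong_eq_sum_reps u (uK_injective f hf hr jS f' hK' hjS hf') s hinj hsurj _ k
    (fun i => h.act i (f k)) kk hkk', IsCosetSystem.transfer_apply]
  refine Finset.sum_congr rfl fun i _ => ?_
  show x (Additive.ofMul ((twistSystem hK b).coc i k)) = x (Additive.ofMul (c (kk i)))
  congr 2
  apply hf
  rw [twistSystem_coc hK b, map_mul, map_mul, map_inv, restrictSystem_coc h hκ f hf hr,
    restrictSystem_act h hκ f hf hr, hb, hb, hc, f_cK, ← f_uK f hf hr jS f' hK', ← hu, hkk i,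
    map_mul, map_mul, map_inv, h.coc_mul, h.coc_mul, h.act_mul, hs i,
    coc_inv_of_act h i₀ (hs (h.act i (f k)))]

/-! ### `cor^{S'}_{K'} ∘ c^* = c^* ∘ cor^G_K` -/

include hf' in
/-- The transfer from `K'` to the stabiliser is the restriction of the transfer from `K` to `G`,
through the conjugation by `ρ i₀`. -/
theorem transferAlong_comp_cK [Finite D] (htr : ∀ i : I, ∃ k : K, h.act i₀ (f k) = i)
    (x : Additive K →+ A) :
    transferAlong f' (x.comp (MonoidHom.toAdditive (cK h hκ f hf hr i₀ jS hS f' hK'))) =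
      (transferAlong f x).comp (MonoidHom.toAdditive (cS h i₀ jS hS)) := by
  classical
  set c := cK h hκ f hf hr i₀ jS hS f' hK' with hc
  -- `f'.range` has finite index
  have hker : f'.range = (κ.comp jS).ker := by
    ext s
    rw [hK', MonoidHom.mem_ker, MonoidHom.comp_apply]
  have : f'.range.FiniteIndex := by
    rw [hker]
    infer_instance
  have hft : Fintype (S' ⧸ f'.range) := f'.range.fintypeQuotientOfFiniteIndex
  obtain ⟨t, hinj, hsurj⟩ := exists_reps f'.range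
  refine AddMonoidHom.ext fun s' => ?_
  obtain ⟨s, rfl⟩ : ∃ s : S', Additive.ofMul s = s' := ⟨Additive.toMul s', rfl⟩
  choose σ hσ using fun j : S' ⧸ f'.range => hsurj (t j * s)
  choose kk hkk using hσ
  have hkk' : ∀ j, t j * s = f' (kk j) * t (σ j) := by
    intro j
    rw [hkk j, inv_mul_cancel_right]
  rw [transferAlong_eq_sum_reps f' hf' t hinj hsurj _ s σ kk hkk']
  show _ = transferAlong f x (Additive.ofMul (cS h i₀ jS hS s))
  have hκc : ∀ s : S', κ (cS h i₀ jS hS s) = κ (jS s) := kappa_cS h hκ i₀ jS hS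
  have hinjG : ∀ a a' : S' ⧸ f'.range,
      cS h i₀ jS hS (t a) * (cS h i₀ jS hS (t a'))⁻¹ ∈ f.range → a = a' := by
    intro a a' haa
    apply hinj
    rw [hK', map_mul, map_inv, map_mul, map_inv, ← hκc, ← hκc, ← map_inv, ← map_mul]
    exact (hr _).1 haa
  have hsurjG : ∀ g : G, ∃ a : S' ⧸ f'.range, g * (cS h i₀ jS hS (t a))⁻¹ ∈ f.range := by
    intro g
    obtain ⟨k, hk⟩ := htr (h.act i₀ g)
    have h1 : h.act i₀ (g * (f k)⁻¹) = i₀ := by
      rw [h.act_mul]
      exact act_inv_of_act h i₀ hk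
    obtain ⟨s₀, hs₀⟩ := (hS _).2 h1
    obtain ⟨a, ha⟩ := hsurj s₀
    refine ⟨a, ?_⟩
    have h2 : κ (jS (s₀ * (t a)⁻¹)) = 1 := (hK' _).1 ha
    have h3 : κ (f k) = 1 := (hr _).1 ⟨k, rfl⟩
    rw [hr, map_mul, map_inv, hκc]
    rw [map_mul jS, map_inv jS, hs₀, map_mul κ, map_inv κ, map_mul κ, map_inv κ, h3, inv_one,
      mul_one] at h2
    exact h2
  have hkG : ∀ j, cS h i₀ jS hS (t j) * cS h i₀ jS hS s =
      f (c (kk j)) * cS h i₀ jS hS (t (σ j)) := by
    intro j
    rw [← map_mul, hkk' j, map_mul, hc, f_cK]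
    rfl
  rw [transferAlong_eq_sum_reps f hf (fun j => cS h i₀ jS hS (t j)) hinjG hsurjG x
    (cS h i₀ jS hS s) σ (fun j => c (kk j)) hkG]
  rfl

/-! ### The transfer `cor^K_{K'}` maps the augmentation subgroup to the augmentation subgroup -/

include hS in
theorem transferAlong_uK_mem_augOf {ψ : Additive K' →+ A} (hψ : ψ ∈ augOf f' A) :
    transferAlong (uK f hf hr jS f' hK') ψ ∈ augOf f A := by
  unfold augOf at hψ
  induction hψ using AddSubgroup.closure_induction with
  | mem w hw =>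
    obtain ⟨s, cs, y, hcs, rfl⟩ := hw
    rw [transferAlong_sub]
    refine AddSubgroup.subset_closure ⟨jS s, conjHom f hf hr (jS s),
      transferAlong (uK f hf hr jS f' hK') y, f_conjHom f hf hr (jS s), ?_⟩
    congr 1
    refine AddMonoidHom.ext fun k' => ?_
    obtain ⟨k, rfl⟩ : ∃ k : K, Additive.ofMul k = k' := ⟨Additive.toMul k', rfl⟩
    have key := transferAlong_natural (uK f hf hr jS f' hK') cs (conjEquiv f hf hr (jS s))
      (fun k' => by
        apply hf
        rw [f_conjEquiv, f_uK, f_uK, hcs, map_mul, map_mul, map_inv])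
      (fun g hg => by
        rw [mem_range_uK h f hf hr i₀ jS hS f' hK'] at hg ⊢
        rw [f_conjEquiv, h.act_mul, h.act_mul,
          act_inv_of_act h i₀ (act_jS h i₀ jS hS s)] at hg
        have h2 : h.act (h.act (h.act i₀ (f g)) (jS s)) (jS s)⁻¹ = h.act i₀ (jS s)⁻¹ := by
          rw [hg]
        rw [← h.act_mul, mul_inv_cancel, h.act_one,
          act_inv_of_act h i₀ (act_jS h i₀ jS hS s)] at h2
        exact h2)
      y k
    rw [key]
    rfl
  | zero => rw [transferAlong_zero]; exact AddSubgroup.zero_mem _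
  | add a b _ _ ha hb => rw [transferAlong_add]; exact AddSubgroup.add_mem _ ha hb
  | neg a _ ha => rw [transferAlong_neg]; exact AddSubgroup.neg_mem _ ha

/-! ### The theorem -/

include hκ hf hr hS hK' hjS hf' in
/-- **The Hecke operator maps the kernel of the transfer into the augmentation subgroup**,
provided this kernel is the augmentation subgroup at the level of the stabiliser of `i₀`
(and `K` acts transitively on the index set). -/
theorem transfer_mem_aug_of_transferAlong_eq_zero [Fintype I] [Finite D]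
    (htr : ∀ i : I, ∃ k : K, h.act i₀ (f k) = i)
    (hKC : ∀ ψ : Additive K' →+ A, transferAlong f' ψ = 0 → ψ ∈ augOf f' A)
    (x : Additive K →+ A) (hx : transferAlong f x = 0) :
    (restrictSystem h hκ f hf hr).transfer x ∈ augOf f A := by
  rw [restrict_transfer_eq h hκ f hf hr i₀ jS hS f' hK' hjS hf' htr x]
  apply transferAlong_uK_mem_augOf h f hf hr i₀ jS hS f' hK'
  apply hKC
  rw [transferAlong_comp_cK h hκ f hf hr i₀ jS hS f' hK' hf' htr x, hx]
  rfl

end Main

end Fermat.Agent.S59.MFree.H779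

end
-- ===== PACK-END S59/MFree/H779/AuxSystem.lean

-- ===== PACK-BEGIN S55/E1/H594/TensUnits.lean
section
/-
S55 / engine E1 / G-ADAPTER leaf TENS (helper594), part 2: units, tower form.

For a tower level `L : Tow.Level S` and a prime `q`:
`tensLocEquiv L q : Additive (ℚ_q ⊗[ℚ] L.F)ˣ ≃+ (L.J q).V`
(the local factor of the `S`-idèles in the tensor model of layer G is the coinduced module
`J_q(F) = Coind_{Dec q}^{Gal} F_qˣ` of the tower), with
`tensLocEquiv L q u` = the function `g ↦ ev_g(u)`, `ev_g (c ⊗ x) = c · ι(g x)`,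
and equivariant for the action of `L.Gal` on the second factor.
No `sorry`.
-/



set_option autoImplicit false
set_option linter.unusedSectionVars false
set_option linter.style.haveILetI false

namespace Fermat.Agent.S55.E1.H594

open Fermat.Agent.S55 Fermat.Agent.S55.Tow Fermat.Agent.S55.Bridge
open Fermat.Agent.S55.Bridge.H175
open scoped TensorProduct

attribute [local instance] isAlgebraic_Qbar isGalois_Qbar

noncomputable section

/-- `q : Nat.Primes` is prime (local instance of this file). -/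
local instance instFactPrimeH594 (q : Nat.Primes) : Fact (q : ℕ).Prime := ⟨q.2⟩

variable {S : Finset Nat.Primes} (L : Level S) (q : Nat.Primes)

/-- An element of the Prelude local Galois group as an automorphism of `ℚ̄_q`. -/
def locAut (τ : GQp q) : PadicAlgCl (q : ℕ) ≃ₐ[ℚ_[(q : ℕ)]] PadicAlgCl (q : ℕ) := τ

theorem locQ_eq (τ : GQp q) : locQ q τ = localGaloisToGlobal (q : ℕ) (locAut q τ) := rfl

theorem locAut_mul (τ τ' : GQp q) : locAut q (τ * τ') = locAut q τ * locAut q τ' := rfl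

/-- `toLevel` (B11) in tower terms. -/
theorem toLevel_locAut (τ : GQp q) :
    toLevel (q : ℕ) L.F (locAut q τ) = levelGalEquiv L (QuotientGroup.mk (locQ q τ) : L.Gal) :=
  rfl

theorem toLevel_eq_one_of_mem_V (τ : GQp q) (hτ : τ ∈ L.V q) :
    toLevel (q : ℕ) L.F (locAut q τ) = 1 := by
  rw [toLevel_locAut]
  have : (QuotientGroup.mk (locQ q τ) : L.Gal) = 1 := (QuotientGroup.eq_one_iff _).2 hτ
  rw [this, map_one]

/-- The underlying element of `ℚ̄_q` of an element of `F_qˣ = (ℚ̄_qˣ)^{V}`. -/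
def locVal (x : (L.locUnits q).V) : PadicAlgCl (q : ℕ) :=
  ((Additive.toMul (α := (PadicAlgCl (q : ℕ))ˣ) (x.1 : Additive (PadicAlgCl (q : ℕ))ˣ) :
    (PadicAlgCl (q : ℕ))ˣ) : PadicAlgCl (q : ℕ))

theorem locVal_injective : Function.Injective (locVal L q) := by
  intro x y h
  apply Subtype.ext
  apply Additive.toMul.injective
  apply Units.ext
  exact h

theorem locVal_add (x y : (L.locUnits q).V) : locVal L q (x + y) = locVal L q x * locVal L q y :=
  rfl

theorem locVal_zero : locVal L q 0 = 1 := rfl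

theorem locVal_ne_zero (x : (L.locUnits q).V) : locVal L q x ≠ 0 :=
  (Additive.toMul (α := (PadicAlgCl (q : ℕ))ˣ) (x.1 : Additive (PadicAlgCl (q : ℕ))ˣ)).ne_zero

theorem locVal_ρ_mk (τ : GQp q) (x : (L.locUnits q).V) :
    locVal L q ((L.locUnits q).ρ (QuotientGroup.mk τ : L.Dec q) x) = locAut q τ (locVal L q x) :=
  rfl

theorem locVal_fixed (x : (L.locUnits q).V) (τ : GQp q) (hτ : τ ∈ L.V q) :
    locAut q τ (locVal L q x) = locVal L q x := by
  have h := x.2 ⟨τ, hτ⟩
  exact congrArg (fun v : Additive (PadicAlgCl (q : ℕ))ˣ =>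
    ((Additive.toMul v : (PadicAlgCl (q : ℕ))ˣ) : PadicAlgCl (q : ℕ))) h

/-- Construct an element of `F_qˣ` from a nonzero `V`-fixed element of `ℚ̄_q`. -/
def locMk (w : PadicAlgCl (q : ℕ)) (hw : w ≠ 0)
    (hfix : ∀ τ : GQp q, τ ∈ L.V q → locAut q τ w = w) : (L.locUnits q).V :=
  ⟨Additive.ofMul (Units.mk0 w hw), fun τ => by
    apply Additive.toMul.injective
    apply Units.ext
    exact hfix τ.1 τ.2⟩

theorem locVal_locMk (w : PadicAlgCl (q : ℕ)) (hw : w ≠ 0)
    (hfix : ∀ τ : GQp q, τ ∈ L.V q → locAut q τ w = w) :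
    locVal L q (locMk L q w hw hfix) = w := rfl

/-- Evaluation at `g ∈ L.Gal`: the `ℚ_q`-algebra map `ℚ_q ⊗ F → ℚ̄_q`, `c ⊗ x ↦ c · ι(g x)`. -/
def towerEv (g : L.Gal) : ℚ_[(q : ℕ)] ⊗[ℚ] L.F →ₐ[ℚ_[(q : ℕ)]] PadicAlgCl (q : ℕ) :=
  coreEv (q : ℕ) L.F (levelGalEquiv L g)

theorem towerEv_tmul (g : L.Gal) (c : ℚ_[(q : ℕ)]) (x : L.F) :
    towerEv L q g (c ⊗ₜ[ℚ] x) = algebraMap ℚ_[(q : ℕ)] (PadicAlgCl (q : ℕ)) c *
      padicEmbedding (q : ℕ) ((g • x : L.F) : Qbar) := rfl

theorem towerEv_decHom_mul (τ : GQp q) (g : L.Gal) (a : ℚ_[(q : ℕ)] ⊗[ℚ] L.F) :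
    towerEv L q (L.decHom q (QuotientGroup.mk τ : L.Dec q) * g) a =
      locAut q τ (towerEv L q g a) := by
  have h := corePhi_mem (q : ℕ) L.F a (locAut q τ) (levelGalEquiv L g)
  rw [toLevel_locAut, ← map_mul] at h
  exact h

theorem towerEv_fixed (g : L.Gal) (a : ℚ_[(q : ℕ)] ⊗[ℚ] L.F) (τ : GQp q) (hτ : τ ∈ L.V q) :
    locAut q τ (towerEv L q g a) = towerEv L q g a := by
  have h := corePhi_mem (q : ℕ) L.F a (locAut q τ) (levelGalEquiv L g)
  rw [toLevel_eq_one_of_mem_V L q τ hτ, one_mul] at h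
  exact h.symm

/-- The action of `h ∈ L.Gal` on `ℚ_q ⊗ F` (through the second factor). -/
def towerAct (h : L.Gal) : ℚ_[(q : ℕ)] ⊗[ℚ] L.F →ₐ[ℚ_[(q : ℕ)]] ℚ_[(q : ℕ)] ⊗[ℚ] L.F :=
  Algebra.TensorProduct.map (AlgHom.id ℚ_[(q : ℕ)] ℚ_[(q : ℕ)])
    ((levelGalEquiv L h : L.F ≃ₐ[ℚ] L.F) : L.F →ₐ[ℚ] L.F)

theorem towerAct_tmul (h : L.Gal) (c : ℚ_[(q : ℕ)]) (x : L.F) :
    towerAct L q h (c ⊗ₜ[ℚ] x) = c ⊗ₜ[ℚ] (h • x) := rfl

theorem towerEv_towerAct (g h : L.Gal) (a : ℚ_[(q : ℕ)] ⊗[ℚ] L.F) :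
    towerEv L q g (towerAct L q h a) = towerEv L q (g * h) a := by
  have := coreEv_map (q : ℕ) L.F (levelGalEquiv L h) (levelGalEquiv L g) a
  rw [← map_mul] at this
  exact this

/-- `u ↦ (g ↦ ev_g u)`: the map `(ℚ_q ⊗ F)ˣ → J_q(F)`. -/
def tensLocFun (u : (ℚ_[(q : ℕ)] ⊗[ℚ] L.F)ˣ) : (L.J q).V :=
  ⟨fun g => locMk L q (towerEv L q g (u : ℚ_[(q : ℕ)] ⊗[ℚ] L.F))
      (IsUnit.ne_zero (u.isUnit.map (towerEv L q g).toRingHom))
      (fun τ hτ => towerEv_fixed L q g _ τ hτ), by
    intro d g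
    induction d using QuotientGroup.induction_on with
    | H τ =>
      apply locVal_injective
      rw [locVal_ρ_mk, locVal_locMk, locVal_locMk]
      exact towerEv_decHom_mul L q τ g _⟩

theorem locVal_tensLocFun (u : (ℚ_[(q : ℕ)] ⊗[ℚ] L.F)ˣ) (g : L.Gal) :
    locVal L q ((tensLocFun L q u).1 g) = towerEv L q g (u : ℚ_[(q : ℕ)] ⊗[ℚ] L.F) := rfl

/-- Two elements of `J_q(F)` with the same values are equal. -/
theorem J_ext {f f' : (L.J q).V} (h : ∀ g, locVal L q (f.1 g) = locVal L q (f'.1 g)) :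
    f = f' := by
  apply Subtype.ext
  funext g
  exact locVal_injective L q (h g)

/-- `(ℚ_q ⊗ F)ˣ → J_q(F)` as an additive map. -/
def tensLocHom : Additive (ℚ_[(q : ℕ)] ⊗[ℚ] L.F)ˣ →+ (L.J q).V where
  toFun u := tensLocFun L q u.toMul
  map_zero' := by
    apply J_ext
    intro g
    rw [locVal_tensLocFun]
    exact map_one (towerEv L q g).toRingHom
  map_add' u v := by
    apply J_ext
    intro g
    rw [locVal_tensLocFun]
    exact map_mul (towerEv L q g).toRingHom _ _

theorem locVal_tensLocHom (u : Additive (ℚ_[(q : ℕ)] ⊗[ℚ] L.F)ˣ) (g : L.Gal) :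
    locVal L q ((tensLocHom L q u).1 g) =
      towerEv L q g ((u.toMul : (ℚ_[(q : ℕ)] ⊗[ℚ] L.F)ˣ) : ℚ_[(q : ℕ)] ⊗[ℚ] L.F) := rfl

theorem tensLocHom_injective : Function.Injective (tensLocHom L q) := by
  intro u v h
  apply Additive.toMul.injective
  apply Units.ext
  apply corePhi_injective (q : ℕ) L.F
  funext γ
  have h1 := congrArg (fun f : (L.J q).V => locVal L q (f.1 ((levelGalEquiv L).symm γ))) h
  simp only [locVal_tensLocHom, towerEv, MulEquiv.apply_symm_apply] at h1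
  exact h1

/-- The function `Γ → Ω` underlying an element of `J_q(F)`. -/
def coreOfJ (f : (L.J q).V) : (L.F ≃ₐ[ℚ] L.F) → PadicAlgCl (q : ℕ) :=
  fun γ => locVal L q (f.1 ((levelGalEquiv L).symm γ))

theorem coreOfJ_mem (f : (L.J q).V) : coreOfJ L q f ∈ coreR (q : ℕ) L.F := by
  intro τ' γ
  let τ : GQp q := τ'
  have h1 : toLevel (q : ℕ) L.F τ' =
      levelGalEquiv L (L.decHom q (QuotientGroup.mk τ : L.Dec q)) := rfl
  have h2 : (levelGalEquiv L).symm (toLevel (q : ℕ) L.F τ' * γ) =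
      L.decHom q (QuotientGroup.mk τ : L.Dec q) * (levelGalEquiv L).symm γ := by
    rw [h1, MulEquiv.symm_apply_eq, map_mul, MulEquiv.apply_symm_apply]
  have h3 := f.2 (QuotientGroup.mk τ : L.Dec q) ((levelGalEquiv L).symm γ)
  change locVal L q (f.1 ((levelGalEquiv L).symm (toLevel (q : ℕ) L.F τ' * γ))) =
    τ' (locVal L q (f.1 ((levelGalEquiv L).symm γ)))
  rw [h2, h3]
  rfl

theorem coreOfJ_neg_mul (f : (L.J q).V) (γ : L.F ≃ₐ[ℚ] L.F) :
    coreOfJ L q (-f) γ * coreOfJ L q f γ = 1 := by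
  have h : (-f + f : (L.J q).V) = 0 := neg_add_cancel f
  have h1 := congrArg (fun f' : (L.J q).V => locVal L q (f'.1 ((levelGalEquiv L).symm γ))) h
  exact h1

theorem tensLocHom_surjective : Function.Surjective (tensLocHom L q) := by
  intro f
  let e := (coreEquiv (q : ℕ) L.F).toRingEquiv
  let a := e.symm ⟨coreOfJ L q f, coreOfJ_mem L q f⟩
  let b := e.symm ⟨coreOfJ L q (-f), coreOfJ_mem L q (-f)⟩
  have hba : b * a = 1 := by
    apply e.injective
    rw [map_mul, map_one, RingEquiv.apply_symm_apply, RingEquiv.apply_symm_apply]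
    apply Subtype.ext
    funext γ
    exact coreOfJ_neg_mul L q f γ
  have hab : a * b = 1 := (mul_comm a b).trans hba
  refine ⟨Additive.ofMul ⟨a, b, hab, hba⟩, ?_⟩
  apply J_ext
  intro g
  rw [locVal_tensLocHom]
  change ((coreEquiv (q : ℕ) L.F a : coreR (q : ℕ) L.F) :
    (L.F ≃ₐ[ℚ] L.F) → PadicAlgCl (q : ℕ)) (levelGalEquiv L g) = _
  have h1 : coreEquiv (q : ℕ) L.F a = ⟨coreOfJ L q f, coreOfJ_mem L q f⟩ :=
    e.apply_symm_apply _
  rw [h1]
  change locVal L q (f.1 ((levelGalEquiv L).symm (levelGalEquiv L g))) = _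
  rw [MulEquiv.symm_apply_apply]

/-- **TENS, local factor**: `(ℚ_q ⊗[ℚ] F)ˣ ≃ J_q(F) = Coind_{Dec q}^{Gal} F_qˣ`. -/
def tensLocEquiv : Additive (ℚ_[(q : ℕ)] ⊗[ℚ] L.F)ˣ ≃+ (L.J q).V :=
  AddEquiv.ofBijective (tensLocHom L q) ⟨tensLocHom_injective L q, tensLocHom_surjective L q⟩

theorem locVal_tensLocEquiv (u : Additive (ℚ_[(q : ℕ)] ⊗[ℚ] L.F)ˣ) (g : L.Gal) :
    locVal L q ((tensLocEquiv L q u).1 g) =
      towerEv L q g ((u.toMul : (ℚ_[(q : ℕ)] ⊗[ℚ] L.F)ˣ) : ℚ_[(q : ℕ)] ⊗[ℚ] L.F) := rfl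

/-- The action of `h ∈ L.Gal` on the units of `ℚ_q ⊗ F`. -/
def towerActUnits (h : L.Gal) :
    Additive (ℚ_[(q : ℕ)] ⊗[ℚ] L.F)ˣ →+ Additive (ℚ_[(q : ℕ)] ⊗[ℚ] L.F)ˣ :=
  MonoidHom.toAdditive (Units.map ((towerAct L q h).toRingHom : _ →* _))

theorem coe_towerActUnits (h : L.Gal) (u : Additive (ℚ_[(q : ℕ)] ⊗[ℚ] L.F)ˣ) :
    (((towerActUnits L q h u).toMul : (ℚ_[(q : ℕ)] ⊗[ℚ] L.F)ˣ) : ℚ_[(q : ℕ)] ⊗[ℚ] L.F) =
      towerAct L q h ((u.toMul : (ℚ_[(q : ℕ)] ⊗[ℚ] L.F)ˣ) : ℚ_[(q : ℕ)] ⊗[ℚ] L.F) := rfl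

/-- Equivariance of `tensLocEquiv`. -/
theorem tensLocEquiv_equivariant (h : L.Gal) (u : Additive (ℚ_[(q : ℕ)] ⊗[ℚ] L.F)ˣ) :
    tensLocEquiv L q (towerActUnits L q h u) = (L.J q).ρ h (tensLocEquiv L q u) := by
  apply J_ext
  intro g
  rw [locVal_tensLocEquiv, coe_towerActUnits, towerEv_towerAct]
  rfl

end

end Fermat.Agent.S55.E1.H594

end
-- ===== PACK-END S55/E1/H594/TensUnits.lean

-- ===== PACK-BEGIN S55/G/SIndH237/IntH63.lean
section


/-!
# S55 / G / G-SIND : leaf SIND-INT (`IntSpec`) — helper63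

For `x ∈ Lˣ`: `x ⊗ 1 ∈ U_T(L)` iff `ord_w x = 0` for all primes `w` of `L` above `T`.

Key statement (`tmul_one_mem_RS_iff63`): for `y ∈ L`,
`y ⊗ 1 ∈ RS T L  ↔  ∀ w above T, w.valuation L y ≤ 1`.
-/

set_option autoImplicit false
set_option linter.unusedSectionVars false

open scoped NumberField TensorProduct
open IsDedekindDomain

noncomputable section

namespace Fermat.Agent.S55.G.SIndH237.H63

open Fermat.Agent.S55.G Fermat.Agent.S55.G.SIndH237

variable (T : Finset Nat.Primes) (L : Type) [Field L] [NumberField L]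

local notation "ι63" => Module.Free.ChooseBasisIndex ℤ (𝓞 L)

/-! ## Coordinates on `L ⊗ ℚ_T` with respect to an integral basis -/

/-- The `ℚ_T`-basis `1 ⊗ b_k` of `ℚ_T ⊗ L`. -/
def tbasis63 : Module.Basis ι63 (QS T) (QS T ⊗[ℚ] L) :=
  Algebra.TensorProduct.basis (QS T) (NumberField.integralBasis L)

/-- The `k`-th coordinate of an element of `L ⊗ ℚ_T` (a `ℚ`-linear map to `ℚ_T`). -/
def coord63 (k : ι63) : AS T L →ₗ[ℚ] QS T :=
  ((Finsupp.lapply k : (ι63 →₀ QS T) →ₗ[QS T] QS T).restrictScalars ℚ) ∘ₗ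
    ((tbasis63 T L).repr.toLinearMap.restrictScalars ℚ) ∘ₗ
      (Algebra.TensorProduct.comm ℚ L (QS T)).toLinearMap

lemma coord63_tmul (k : ι63) (x : L) (c : QS T) :
    coord63 T L k (x ⊗ₜ[ℚ] c) =
      c * algebraMap ℚ (QS T) ((NumberField.integralBasis L).repr x k) := by
  simp [coord63, tbasis63]

lemma sum_coord63 (z : AS T L) :
    z = ∑ k : ι63, (NumberField.integralBasis L k) ⊗ₜ[ℚ] (coord63 T L k z) := by
  have h := (tbasis63 T L).sum_repr ((Algebra.TensorProduct.comm ℚ L (QS T)) z)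
  have h2 := congrArg (Algebra.TensorProduct.comm ℚ L (QS T)).symm h
  rw [AlgEquiv.symm_apply_apply] at h2
  have h3 : ∀ k : ι63,
      (tbasis63 T L).repr ((Algebra.TensorProduct.comm ℚ L (QS T)) z) k • (tbasis63 T L) k
      = (coord63 T L k z) ⊗ₜ[ℚ] (NumberField.integralBasis L k) := by
    intro k
    rw [tbasis63, Algebra.TensorProduct.basis_repr_symm_apply']
    rfl
  calc z = (Algebra.TensorProduct.comm ℚ L (QS T)).symm
        (∑ i, ((tbasis63 T L).repr ((Algebra.TensorProduct.comm ℚ L (QS T)) z)) i •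
          (tbasis63 T L) i) := h2.symm
    _ = ∑ k : ι63, (Algebra.TensorProduct.comm ℚ L (QS T)).symm
          ((coord63 T L k z) ⊗ₜ[ℚ] (NumberField.integralBasis L k)) := by
        rw [map_sum]
        exact Finset.sum_congr rfl fun k _ => by rw [h3 k]
    _ = ∑ k : ι63, (NumberField.integralBasis L k) ⊗ₜ[ℚ] (coord63 T L k z) := rfl

/-! ## Elements of `RS` have integral coordinates -/

lemma toPi_algebraMap63 (α : ℚ) (q : T) :
    QS.toPi T (algebraMap ℚ (QS T) α) q = ((α : ℚ) : Qq q.1) := by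
  have h : QS.toPi T (algebraMap ℚ (QS T) α) q = algebraMap ℚ (Qq q.1) α := rfl
  rw [h, eq_ratCast]

lemma algebraMap_mem_ZS_iff63 (α : ℚ) :
    algebraMap ℚ (QS T) α ∈ ZS T ↔ ∀ q ∈ T, ¬ ((q : ℕ) ∣ α.den) := by
  rw [mem_ZS_iff]
  constructor
  · intro h q hq
    have : Fact (q : ℕ).Prime := ⟨q.2⟩
    have h1 := h ⟨q, hq⟩
    rw [toPi_algebraMap63] at h1
    have h2 := (Padic.norm_rat_le_one_iff_padicValuation_le_one (q : ℕ)).1 h1
    exact Rat.padicValuation_le_one_iff.1 h2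
  · intro h q
    have : Fact (q.1 : ℕ).Prime := ⟨q.1.2⟩
    rw [toPi_algebraMap63]
    exact Padic.norm_rat_le_one (h q.1 q.2)

lemma algebraMap_int_mem_ZS63 (n : ℤ) : algebraMap ℚ (QS T) (n : ℚ) ∈ ZS T := by
  rw [algebraMap_mem_ZS_iff63]
  intro q _ h
  rw [Rat.den_intCast] at h
  exact q.2.one_lt.ne' (Nat.dvd_one.1 h)

/-- `z` has all its coordinates in `ℤ_T`. -/
def Good63 (z : AS T L) : Prop := ∀ k : ι63, coord63 T L k z ∈ ZS T

lemma good63_tmul (a : 𝓞 L) (c : QS T) (hc : c ∈ ZS T) :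
    Good63 T L ((a : L) ⊗ₜ[ℚ] c) := by
  intro k
  rw [coord63_tmul]
  refine (ZS T).mul_mem hc ?_
  have h := NumberField.integralBasis_repr_apply L a k
  rw [show ((a : L)) = algebraMap (𝓞 L) L a from rfl, h]
  exact algebraMap_int_mem_ZS63 T _

lemma good63_zero : Good63 T L 0 := fun k => by
  rw [map_zero]; exact (ZS T).zero_mem

lemma good63_add {z z' : AS T L} (hz : Good63 T L z) (hz' : Good63 T L z') :
    Good63 T L (z + z') := fun k => by
  rw [map_add]; exact (ZS T).add_mem (hz k) (hz' k)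

lemma good63_neg {z : AS T L} (hz : Good63 T L z) : Good63 T L (-z) := fun k => by
  rw [map_neg]; exact (ZS T).neg_mem (hz k)

lemma good63_sum {α : Type} (s : Finset α) (f : α → AS T L)
    (h : ∀ i ∈ s, Good63 T L (f i)) : Good63 T L (∑ i ∈ s, f i) := by
  classical
  induction s using Finset.induction_on with
  | empty => simpa using good63_zero T L
  | insert a s ha ih =>
    rw [Finset.sum_insert ha]
    exact good63_add T L (h a (Finset.mem_insert_self a s))
      (ih fun i hi => h i (Finset.mem_insert_of_mem hi))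

lemma good63_mul {z z' : AS T L} (hz : Good63 T L z) (hz' : Good63 T L z') :
    Good63 T L (z * z') := by
  have e : z * z' = ∑ i : ι63, ∑ j : ι63,
      ((NumberField.integralBasis L i) ⊗ₜ[ℚ] (coord63 T L i z)) *
        ((NumberField.integralBasis L j) ⊗ₜ[ℚ] (coord63 T L j z')) := by
    conv_lhs => rw [sum_coord63 T L z, sum_coord63 T L z', Finset.sum_mul_sum]
  rw [e]
  refine good63_sum T L _ _ fun i _ => good63_sum T L _ _ fun j _ => ?_
  rw [Algebra.TensorProduct.tmul_mul_tmul, NumberField.integralBasis_apply,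
    NumberField.integralBasis_apply, ← map_mul]
  exact good63_tmul T L _ _ ((ZS T).mul_mem (hz i) (hz' j))

lemma good63_one : Good63 T L 1 := by
  have h := good63_tmul T L 1 1 (ZS T).one_mem
  rwa [show ((1 : 𝓞 L) : L) = 1 from rfl] at h

lemma good63_of_mem_RS {z : AS T L} (hz : z ∈ RS T L) : Good63 T L z := by
  induction hz using Subring.closure_induction with
  | mem x hx =>
    rcases hx with ⟨a, rfl⟩ | ⟨c, hc, rfl⟩
    · exact good63_tmul T L a 1 (ZS T).one_mem
    · have h := good63_tmul T L 1 c hc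
      rwa [show ((1 : 𝓞 L) : L) = 1 from rfl] at h
  | zero => exact good63_zero T L
  | one => exact good63_one T L
  | add x y _ _ hx hy => exact good63_add T L hx hy
  | neg x _ hx => exact good63_neg T L hx
  | mul x y _ _ hx hy => exact good63_mul T L hx hy

/-! ## Denominators -/

/-- The product of the denominators of the coordinates of `y` in the integral basis. -/
def prodDen63 (y : L) : ℕ := ∏ k : ι63, ((NumberField.integralBasis L).repr y k).den

lemma prodDen63_ne_zero (y : L) : prodDen63 L y ≠ 0 :=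
  Finset.prod_ne_zero_iff.2 fun _ _ => Rat.den_nz _

lemma prodDen63_mul_mem (y : L) :
    ((prodDen63 L y : ℕ) : L) * y ∈ (algebraMap (𝓞 L) L).range := by
  classical
  rw [← NumberField.mem_span_integralBasis, Module.Basis.mem_span_iff_repr_mem]
  intro i
  have h1 : ((prodDen63 L y : ℕ) : L) * y = ((prodDen63 L y : ℕ) : ℚ) • y := by
    rw [Algebra.smul_def]
    simp
  rw [h1, map_smul, Finsupp.smul_apply, smul_eq_mul]
  have h2 : prodDen63 L y =
      (∏ k ∈ Finset.univ.erase i, ((NumberField.integralBasis L).repr y k).den) *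
        ((NumberField.integralBasis L).repr y i).den := by
    unfold prodDen63
    rw [Finset.prod_erase_mul _ _ (Finset.mem_univ i)]
  refine ⟨((∏ k ∈ Finset.univ.erase i, ((NumberField.integralBasis L).repr y k).den : ℕ) : ℤ) *
    ((NumberField.integralBasis L).repr y i).num, ?_⟩
  rw [h2]
  have h3 := Rat.mul_den_eq_num ((NumberField.integralBasis L).repr y i)
  push_cast
  rw [mul_assoc, mul_comm ((((NumberField.integralBasis L).repr y i).den : ℕ) : ℚ), h3]
  simp

lemma not_dvd_prodDen63 (y : L) (hy : y ⊗ₜ[ℚ] (1 : QS T) ∈ RS T L) (q : Nat.Primes)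
    (hq : q ∈ T) : ¬ ((q : ℕ) ∣ prodDen63 L y) := by
  intro h
  obtain ⟨k, _, hk⟩ := (Prime.dvd_finsetProd_iff (Nat.Prime.prime q.2) _).1 h
  have h1 := good63_of_mem_RS T L hy k
  rw [coord63_tmul, one_mul, algebraMap_mem_ZS_iff63] at h1
  exact h1 q hq hk

/-! ## Valuations of rational integers -/

lemma natCast_notMem63 (w : HeightOneSpectrum (𝓞 L)) (q : Nat.Primes)
    (hq : ((q : ℕ) : 𝓞 L) ∈ w.asIdeal) (s : ℕ) (hs : ¬ ((q : ℕ) ∣ s)) :
    ((s : ℕ) : 𝓞 L) ∉ w.asIdeal := by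
  intro h
  have hc : Nat.Coprime s q := (Nat.Coprime.symm ((Nat.Prime.coprime_iff_not_dvd q.2).2 hs))
  obtain ⟨a, b, hab⟩ := Nat.isCoprime_iff_coprime.2 hc
  have h1 : ((a : ℤ) : 𝓞 L) * ((s : ℕ) : 𝓞 L) + ((b : ℤ) : 𝓞 L) * ((q : ℕ) : 𝓞 L) = 1 := by
    have := congrArg (fun z : ℤ => (z : 𝓞 L)) hab
    simpa using this
  have h2 : (1 : 𝓞 L) ∈ w.asIdeal := by
    rw [← h1]
    exact w.asIdeal.add_mem (w.asIdeal.mul_mem_left _ h) (w.asIdeal.mul_mem_left _ hq)
  exact w.isPrime.ne_top ((Ideal.eq_top_iff_one _).2 h2)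

lemma valuation_natCast_eq_one63 (w : HeightOneSpectrum (𝓞 L)) (s : ℕ)
    (hs : ((s : ℕ) : 𝓞 L) ∉ w.asIdeal) : w.valuation L ((s : ℕ) : L) = 1 := by
  have h := (HeightOneSpectrum.valuation_eq_one_iff_notMem (K := L) (v := w)
    (r := ((s : ℕ) : 𝓞 L))).2 hs
  rwa [map_natCast] at h

lemma valuation_le_one_of_mem_range63 (w : HeightOneSpectrum (𝓞 L)) {z : L}
    (hz : z ∈ (algebraMap (𝓞 L) L).range) : w.valuation L z ≤ 1 := by
  obtain ⟨a, rfl⟩ := hz
  exact w.valuation_le_one a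

/-! ## The key equivalence -/

lemma valuation_le_one_of_mem_RS63 (y : L) (hy : y ⊗ₜ[ℚ] (1 : QS T) ∈ RS T L)
    (w : HeightOneSpectrum (𝓞 L)) (hw : IsAbove T L w) : w.valuation L y ≤ 1 := by
  obtain ⟨q, hq, hqw⟩ := hw
  have h1 := valuation_le_one_of_mem_range63 L w (prodDen63_mul_mem L y)
  rw [map_mul, valuation_natCast_eq_one63 L w _
    (natCast_notMem63 L w q hqw _ (not_dvd_prodDen63 T L y hy q hq)), one_mul] at h1
  exact h1

lemma exists_factor63 (m : ℕ) (hm : m ≠ 0) :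
    ∃ n' s : ℕ, m = n' * s ∧ (∀ q ∈ T, ¬ ((q : ℕ) ∣ s)) ∧
      ∀ w : HeightOneSpectrum (𝓞 L), ¬ IsAbove T L w → ((n' : ℕ) : 𝓞 L) ∉ w.asIdeal := by
  classical
  induction T using Finset.induction_on with
  | empty =>
    refine ⟨1, m, (one_mul m).symm, fun q hq => absurd hq (Finset.notMem_empty q), fun w _ h => ?_⟩
    rw [Nat.cast_one] at h
    exact w.isPrime.ne_top ((Ideal.eq_top_iff_one _).2 h)
  | insert q T hqT ih =>
    obtain ⟨n', s, hms, hs, hn'⟩ := ih
    have hs0 : s ≠ 0 := by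
      rintro rfl
      exact hm (by rw [hms, mul_zero])
    obtain ⟨e, s', hs', hse⟩ := Nat.exists_eq_pow_mul_and_not_dvd hs0 (q : ℕ) q.2.one_lt.ne'
    refine ⟨n' * (q : ℕ) ^ e, s', ?_, ?_, ?_⟩
    · rw [hms, hse, mul_assoc]
    · intro q' hq'
      rcases Finset.mem_insert.1 hq' with rfl | hq'
      · exact hs'
      · exact fun h => hs q' hq' (hse ▸ Dvd.dvd.mul_left h _)
    · intro w hw h
      have hwT : ¬ IsAbove T L w := fun ⟨q', hq', hq'w⟩ =>
        hw ⟨q', Finset.mem_insert_of_mem hq', hq'w⟩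
      have hqw : ((q : ℕ) : 𝓞 L) ∉ w.asIdeal := fun hq' =>
        hw ⟨q, Finset.mem_insert_self q T, hq'⟩
      rw [Nat.cast_mul, Nat.cast_pow] at h
      rcases w.isPrime.mem_or_mem h with h | h
      · exact hn' w hwT h
      · exact hqw (w.isPrime.mem_of_pow_mem e h)

lemma tmul_one_mem_RS_of63 (y : L)
    (h : ∀ w : HeightOneSpectrum (𝓞 L), IsAbove T L w → w.valuation L y ≤ 1) :
    y ⊗ₜ[ℚ] (1 : QS T) ∈ RS T L := by
  obtain ⟨n', s, hms, hs, hn'⟩ := exists_factor63 T L (prodDen63 L y) (prodDen63_ne_zero L y)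
  have hs0 : s ≠ 0 := by
    rintro rfl
    exact prodDen63_ne_zero L y (by rw [hms, mul_zero])
  have hmy := prodDen63_mul_mem L y
  -- `z = s y` is integral
  have hz : ((s : ℕ) : L) * y ∈ (algebraMap (𝓞 L) L).range := by
    apply HeightOneSpectrum.mem_integers_of_valuation_le_one
    intro w
    by_cases hw : IsAbove T L w
    · rw [map_mul]
      refine mul_le_one' ?_ (h w hw)
      exact valuation_le_one_of_mem_range63 L w
        ⟨((s : ℕ) : 𝓞 L), map_natCast (algebraMap (𝓞 L) L) s⟩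
    · have h1 := valuation_le_one_of_mem_range63 L w hmy
      rw [hms, Nat.cast_mul, mul_assoc, map_mul,
        valuation_natCast_eq_one63 L w _ (hn' w hw), one_mul] at h1
      exact h1
  obtain ⟨a, ha⟩ := hz
  have hc : algebraMap ℚ (QS T) ((s : ℚ)⁻¹) ∈ ZS T := by
    rw [algebraMap_mem_ZS_iff63]
    intro q hq
    rw [Rat.inv_natCast_den, if_neg hs0]
    exact hs q hq
  have e : y ⊗ₜ[ℚ] (1 : QS T) =
      ((a : L) ⊗ₜ[ℚ] (1 : QS T)) * ((1 : L) ⊗ₜ[ℚ] (algebraMap ℚ (QS T) ((s : ℚ)⁻¹))) := by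
    rw [Algebra.TensorProduct.tmul_mul_tmul, mul_one, one_mul, Algebra.algebraMap_eq_smul_one,
      TensorProduct.tmul_smul, TensorProduct.smul_tmul']
    congr 1
    rw [show ((a : L)) = algebraMap (𝓞 L) L a from rfl, ha, Algebra.smul_def]
    have hsL : ((s : ℕ) : L) ≠ 0 := Nat.cast_ne_zero.2 hs0
    simp only [map_inv₀, map_natCast]
    field_simp
  rw [e]
  exact (RS T L).mul_mem (Subring.subset_closure (Or.inl ⟨a, rfl⟩))
    (Subring.subset_closure (Or.inr ⟨_, hc, rfl⟩))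

theorem tmul_one_mem_RS_iff63 (y : L) :
    y ⊗ₜ[ℚ] (1 : QS T) ∈ RS T L ↔
      ∀ w : HeightOneSpectrum (𝓞 L), IsAbove T L w → w.valuation L y ≤ 1 :=
  ⟨fun hy w hw => valuation_le_one_of_mem_RS63 T L y hy w hw, tmul_one_mem_RS_of63 T L y⟩

/-! ## The leaf -/

theorem int63 : IntSpec := by
  intro T L _ _ x
  rw [mem_UT_iff]
  have e1 : (((unitsDiag T L x).toMul : (AS T L)ˣ) : AS T L) =
      ((x.toMul : Lˣ) : L) ⊗ₜ[ℚ] (1 : QS T) := rfl
  have e2 : ((((unitsDiag T L x).toMul)⁻¹ : (AS T L)ˣ) : AS T L) =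
      (((x.toMul)⁻¹ : Lˣ) : L) ⊗ₜ[ℚ] (1 : QS T) := by
    have : ((unitsDiag T L x).toMul)⁻¹ = (unitsDiag T L (-x)).toMul := by
      rw [map_neg]; rfl
    rw [this]
    rfl
  rw [e1, e2, tmul_one_mem_RS_iff63, tmul_one_mem_RS_iff63]
  constructor
  · rintro ⟨h1, h2⟩ w hw
    rw [ordAt_eq_zero_iff]
    refine le_antisymm (h1 w hw) ?_
    have h3 := h2 w hw
    rw [Units.val_inv_eq_inv_val, map_inv₀] at h3
    have hne : w.valuation L ((x.toMul : Lˣ) : L) ≠ 0 := by simp
    exact (inv_le_one₀ (zero_lt_iff.2 hne)).1 h3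
  · intro h
    refine ⟨fun w hw => ?_, fun w hw => ?_⟩
    · exact ((ordAt_eq_zero_iff w x).1 (h w hw)).le
    · rw [Units.val_inv_eq_inv_val, map_inv₀, (ordAt_eq_zero_iff w x).1 (h w hw), inv_one]

end Fermat.Agent.S55.G.SIndH237.H63

end
end
-- ===== PACK-END S55/G/SIndH237/IntH63.lean

-- ===== PACK-BEGIN S19/H859/UC.lean
section




/-!
# Cell A3 (S19), node UC (helper859): global coordinates from a local order spanned by its
Galois-equivariant elements

Main result: `coeffStatement : Fermat.Agent.S19.Unr.CoeffStatement`.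

Proof.  `B` is a finitely generated `V`-module spanned by equivariant elements, hence spanned by a
FINITE set `H₀` of equivariant elements; these are the coordinates.  Integrality: all Galois
conjugates of a value lie in `V` (`H499.isIntegral_of_forall_conj_mem`).  Addition: the
comultiplication of `B` gives `f (s+t) = Σ c_jk h_j(s) h_k(t)` with `c_jk ∈ V`; clearing the
denominators of the `c_jk` (units of `V`) gives the local relation required by the criterion
`H255.add_mem_of_local`.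
-/

set_option autoImplicit false
set_option linter.style.haveILetI false
set_option linter.unusedSectionVars false
set_option linter.unusedVariables false

open scoped Pointwise

namespace Fermat.Agent.S19.H859

open Fermat.Agent.S19 Fermat.Agent.S19.Unr Fermat.Agent.S14.H714

section Rat

variable {ℓ : ℕ} {V : ValuationSubring _root_.Fermat.Agent.S19.Qb}

/-- `V ∩ ℚ ⊆ ℤ_(ℓ)`. -/
theorem rat_mem_Rl_of_mem (hℓ : ℓ.Prime) (hV : (ℓ : _root_.Fermat.Agent.S19.Qb) ∈ V.nonunits) (r : ℚ)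
    (hr : algebraMap ℚ _root_.Fermat.Agent.S19.Qb r ∈ V) : r ∈ Rl ℓ := by
  show r.den.Coprime ℓ
  by_contra hcop
  have hdvd : ℓ ∣ r.den := by
    by_contra hnd
    exact hcop ((Nat.Coprime.symm ((Nat.Prime.coprime_iff_not_dvd hℓ).mpr hnd)))
  obtain ⟨c, hc⟩ := hdvd
  have hden : ((r.den : ℤ) : _root_.Fermat.Agent.S19.Qb) ∈ V.nonunits := by
    have : ((r.den : ℤ) : _root_.Fermat.Agent.S19.Qb) = (ℓ : _root_.Fermat.Agent.S19.Qb) * ((c : ℤ) : _root_.Fermat.Agent.S19.Qb) := by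
      rw [hc]; push_cast; ring
    rw [this]
    exact nonunits_mul_mem V hV (intCast_mem V _)
  have hnum : ((r.num : ℤ) : _root_.Fermat.Agent.S19.Qb) ∈ V.nonunits := by
    have : ((r.num : ℤ) : _root_.Fermat.Agent.S19.Qb) = ((r.den : ℤ) : _root_.Fermat.Agent.S19.Qb) * algebraMap ℚ _root_.Fermat.Agent.S19.Qb r := by
      have h1 : (r.num : ℚ) = (r.den : ℚ) * r := by
        rw [mul_comm]; exact (Rat.mul_den_eq_num r).symm
      have h2 := congrArg (algebraMap ℚ _root_.Fermat.Agent.S19.Qb) h1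
      rw [map_mul, map_intCast, map_natCast] at h2
      rw [h2]; push_cast; ring
    rw [this]
    exact nonunits_mul_mem V hden hr
  have hdn : (ℓ : ℤ) ∣ r.num := by
    by_contra hnd
    exact intCast_not_mem_nonunits V hℓ hV hnd hnum
  have h1 : ℓ ∣ r.num.natAbs := Int.natCast_dvd.mp hdn
  have h2 : ℓ ∣ Nat.gcd r.num.natAbs r.den := Nat.dvd_gcd h1 ⟨c, hc⟩
  have h3 : Nat.gcd r.num.natAbs r.den = 1 := r.reduced
  rw [h3] at h2
  exact hℓ.one_lt.ne' (Nat.dvd_one.mp h2)

theorem isIntegral_Rl_of_int {c : _root_.Fermat.Agent.S19.Qb} (hc : IsIntegral ℤ c) : IsIntegral (Rl ℓ) c :=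
  hc.tower_top

end Rat

section Denom

variable {ℓ : ℕ} {V : ValuationSubring _root_.Fermat.Agent.S19.Qb} {X : Type*}

/-- `G` lies in `Z̄_(ℓ)[S]` up to a denominator which is an algebraic integer and a unit of
`V`. -/
def HasDenom (V : ValuationSubring _root_.Fermat.Agent.S19.Qb) (ℓ : ℕ) (S : Set (X → _root_.Fermat.Agent.S19.Qb)) (G : X → _root_.Fermat.Agent.S19.Qb) : Prop :=
  ∃ s : _root_.Fermat.Agent.S19.Qb, IsIntegral ℤ s ∧ s ∉ V.nonunits ∧ (fun x => s * G x) ∈ Algebra.adjoin (Zb ℓ) S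

theorem const_mem_adjoin_Zb (S : Set (X → _root_.Fermat.Agent.S19.Qb)) {a : _root_.Fermat.Agent.S19.Qb} (ha : IsIntegral ℤ a) :
    (fun _ : X => a) ∈ Algebra.adjoin (Zb ℓ) S :=
  (Algebra.adjoin (Zb ℓ) S).algebraMap_mem ⟨a, isIntegral_Rl_of_int ha⟩

theorem const_mul_mem_adjoin_Zb (S : Set (X → _root_.Fermat.Agent.S19.Qb)) {a : _root_.Fermat.Agent.S19.Qb} (ha : IsIntegral ℤ a)
    {f : X → _root_.Fermat.Agent.S19.Qb} (hf : f ∈ Algebra.adjoin (Zb ℓ) S) :
    (fun x => a * f x) ∈ Algebra.adjoin (Zb ℓ) S :=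
  (Algebra.adjoin (Zb ℓ) S).mul_mem (const_mem_adjoin_Zb S ha) hf

theorem hasDenom_of_mem (S : Set (X → _root_.Fermat.Agent.S19.Qb)) {G : X → _root_.Fermat.Agent.S19.Qb}
    (hG : G ∈ Algebra.adjoin (Zb ℓ) S) : HasDenom V ℓ S G := by
  refine ⟨1, isIntegral_one, one_not_mem_nonunits V, ?_⟩
  simpa using hG

theorem hasDenom_zero (S : Set (X → _root_.Fermat.Agent.S19.Qb)) : HasDenom V ℓ S (0 : X → _root_.Fermat.Agent.S19.Qb) :=
  hasDenom_of_mem S (Subalgebra.zero_mem _)

theorem hasDenom_add (S : Set (X → _root_.Fermat.Agent.S19.Qb)) {G₁ G₂ : X → _root_.Fermat.Agent.S19.Qb} (h₁ : HasDenom V ℓ S G₁)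
    (h₂ : HasDenom V ℓ S G₂) : HasDenom V ℓ S (G₁ + G₂) := by
  obtain ⟨s₁, hs₁, hu₁, hm₁⟩ := h₁
  obtain ⟨s₂, hs₂, hu₂, hm₂⟩ := h₂
  refine ⟨s₁ * s₂, hs₁.mul hs₂, ?_, ?_⟩
  · rw [ValuationSubring.mem_nonunits_iff, not_lt] at hu₁ hu₂ ⊢
    rw [map_mul]
    have := mul_le_mul' hu₁ hu₂
    rwa [one_mul] at this
  · have e : (fun x => s₁ * s₂ * (G₁ + G₂) x) =
        (fun x => s₂ * (s₁ * G₁ x)) + (fun x => s₁ * (s₂ * G₂ x)) := by
      funext x
      simp only [Pi.add_apply]
      ring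
    rw [e]
    exact Subalgebra.add_mem _ (const_mul_mem_adjoin_Zb S hs₂ hm₁)
      (const_mul_mem_adjoin_Zb S hs₁ hm₂)

theorem hasDenom_smul (hℓ : ℓ.Prime) (hV : (ℓ : _root_.Fermat.Agent.S19.Qb) ∈ V.nonunits) (S : Set (X → _root_.Fermat.Agent.S19.Qb)) (v : V)
    {G : X → _root_.Fermat.Agent.S19.Qb} (h : HasDenom V ℓ S G) : HasDenom V ℓ S (v • G) := by
  obtain ⟨s, hs, hu, hm⟩ := h
  obtain ⟨b, s', hs', hbs⟩ := exists_fraction V hℓ hV v.2
  refine ⟨(s' : _root_.Fermat.Agent.S19.Qb) * s, (s'.2).mul hs, ?_, ?_⟩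
  · have hu' : (s' : _root_.Fermat.Agent.S19.Qb) ∉ V.nonunits := fun h => hs' (mem_primeOf.mpr h)
    rw [ValuationSubring.mem_nonunits_iff, not_lt] at hu hu' ⊢
    rw [map_mul]
    have := mul_le_mul' hu' hu
    rwa [one_mul] at this
  · have e : (fun x => (s' : _root_.Fermat.Agent.S19.Qb) * s * (v • G) x) = (fun x => (b : _root_.Fermat.Agent.S19.Qb) * (s * G x)) := by
      funext x
      have : (v • G) x = (v : _root_.Fermat.Agent.S19.Qb) * G x := rfl
      rw [this, ← hbs]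
      ring
    rw [e]
    exact const_mul_mem_adjoin_Zb S b.2 hm

theorem hasDenom_span (hℓ : ℓ.Prime) (hV : (ℓ : _root_.Fermat.Agent.S19.Qb) ∈ V.nonunits) (S : Set (X → _root_.Fermat.Agent.S19.Qb))
    (T : Set (X → _root_.Fermat.Agent.S19.Qb)) (hT : ∀ t ∈ T, HasDenom V ℓ S t) {G : X → _root_.Fermat.Agent.S19.Qb}
    (hG : G ∈ Submodule.span V T) : HasDenom V ℓ S G := by
  induction hG using Submodule.span_induction with
  | mem x hx => exact hT x hx
  | zero => exact hasDenom_zero S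
  | add x y _ _ hx hy => exact hasDenom_add S hx hy
  | smul a x _ hx => exact hasDenom_smul hℓ hV S a hx

end Denom

section Pull

variable {ℓ : ℕ} {M : Type}

theorem fst_mem_adjoin (S : Set (M → _root_.Fermat.Agent.S19.Qb)) {f : M → _root_.Fermat.Agent.S19.Qb} (hf : f ∈ Algebra.adjoin (Zb ℓ) S) :
    (fun p : M × M => f p.1) ∈ Algebra.adjoin (Zb ℓ) (coordFunctions S) := by
  induction hf using Algebra.adjoin_induction with
  | mem s hs => exact Algebra.subset_adjoin (Or.inl ⟨s, hs, rfl⟩)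
  | algebraMap a => exact (Algebra.adjoin (Zb ℓ) (coordFunctions S)).algebraMap_mem a
  | add f g _ _ hf hg => exact Subalgebra.add_mem _ hf hg
  | mul f g _ _ hf hg => exact Subalgebra.mul_mem _ hf hg

theorem snd_mem_adjoin (S : Set (M → _root_.Fermat.Agent.S19.Qb)) {f : M → _root_.Fermat.Agent.S19.Qb} (hf : f ∈ Algebra.adjoin (Zb ℓ) S) :
    (fun p : M × M => f p.2) ∈ Algebra.adjoin (Zb ℓ) (coordFunctions S) := by
  induction hf using Algebra.adjoin_induction with
  | mem s hs => exact Algebra.subset_adjoin (Or.inr ⟨s, hs, rfl⟩)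
  | algebraMap a => exact (Algebra.adjoin (Zb ℓ) (coordFunctions S)).algebraMap_mem a
  | add f g _ _ hf hg => exact Subalgebra.add_mem _ hf hg
  | mul f g _ _ hf hg => exact Subalgebra.mul_mem _ hf hg

end Pull

section Main

variable {ℓ : ℕ} {M : Type} [AddCommGroup M] {act : GalQ → M → M} {V : ValuationSubring _root_.Fermat.Agent.S19.Qb}

theorem isIntegral_of_equivariant (hℓ : ℓ.Prime) (hV : (ℓ : _root_.Fermat.Agent.S19.Qb) ∈ V.nonunits) {f : M → _root_.Fermat.Agent.S19.Qb}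
    (hf : IsEquivariant act f) (hval : ∀ m, f m ∈ V) (m : M) : IsIntegral (Rl ℓ) (f m) := by
  refine Fermat.Agent.S19.H499.isIntegral_of_forall_conj_mem V.toSubring
    (fun q hq => rat_mem_Rl_of_mem hℓ hV q hq) (f m) (fun σ => ?_)
  rw [← hf σ m]
  exact hval _

/-- A finitely generated module spanned by a set is spanned by a finite subset. -/
theorem exists_finset_span {R W : Type*} [CommRing R] [AddCommGroup W] [Module R W]
    {N : Submodule R W} (hN : N.FG) {T : Set W} (hT : N ≤ Submodule.span R T) :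
    ∃ T₀ : Finset W, (↑T₀ : Set W) ⊆ T ∧ N ≤ Submodule.span R (↑T₀ : Set W) := by
  classical
  obtain ⟨S, hS⟩ := hN
  have h1 : ∀ s : W, ∃ T' : Finset W, s ∈ S → ((↑T' : Set W) ⊆ T ∧ s ∈ Submodule.span R (↑T' : Set W)) := by
    intro s
    by_cases hs : s ∈ S
    · have hsN : s ∈ N := by
        rw [← hS]
        exact Submodule.subset_span hs
      obtain ⟨T', hT', hsT'⟩ := Submodule.mem_span_finite_of_mem_span (hT hsN)
      exact ⟨T', fun _ => ⟨hT', hsT'⟩⟩
    · exact ⟨∅, fun h => absurd h hs⟩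
  choose T' hT' using h1
  refine ⟨S.biUnion T', ?_, ?_⟩
  · intro x hx
    rw [Finset.mem_coe, Finset.mem_biUnion] at hx
    obtain ⟨s, hs, hxs⟩ := hx
    exact (hT' s hs).1 hxs
  · rw [← hS, Submodule.span_le]
    intro s hs
    have h2 : (↑(T' s) : Set W) ⊆ ↑(S.biUnion T') := by
      intro x hx
      rw [Finset.mem_coe, Finset.mem_biUnion]
      exact ⟨s, hs, hx⟩
    exact Submodule.span_mono h2 (hT' s hs).2

/-- **Node UC**: a local order spanned by its Galois-equivariant elements gives global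
coordinates. -/
theorem coeffStatement : CoeffStatement := by
  intro ℓ hℓ' M _ _ act hact V hV O hspan
  classical
  have hℓ : ℓ.Prime := hℓ'.out
  obtain ⟨H₀, hH₀sub, hH₀span⟩ := exists_finset_span O.fg hspan
  have hH₀B : ∀ f ∈ H₀, f ∈ O.B := fun f hf => (hH₀sub hf).1
  have hH₀eq : ∀ f ∈ H₀, IsEquivariant act f := fun f hf => (hH₀sub hf).2
  have hH₀int : ∀ f ∈ (↑H₀ : Set (M → _root_.Fermat.Agent.S19.Qb)), ∀ m : M, IsIntegral (Rl ℓ) (f m) := fun f hf m =>
    isIntegral_of_equivariant hℓ hV (hH₀eq f hf) (O.valued f (hH₀B f hf)) m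
  have hsep : ∀ m m' : M, (∀ f ∈ (↑H₀ : Set (M → _root_.Fermat.Agent.S19.Qb)), f m = f m') → m = m' := by
    intro m m' hmm
    apply O.separates
    have key : ∀ h ∈ Submodule.span V (↑H₀ : Set (M → _root_.Fermat.Agent.S19.Qb)), h m = h m' := by
      intro h hh'
      induction hh' using Submodule.span_induction with
      | mem x hx => exact hmm x hx
      | zero => rfl
      | add x y _ _ hx hy =>
        show x m + y m = x m' + y m'
        rw [hx, hy]
      | smul a x _ hx =>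
        show a • x m = a • x m'
        rw [hx]
    intro h hh
    exact key h (hH₀span hh)
  -- denominators
  have hden₁ : ∀ b ∈ O.B, HasDenom V ℓ (↑H₀ : Set (M → _root_.Fermat.Agent.S19.Qb)) b := by
    intro b hb
    refine hasDenom_span hℓ hV _ (↑H₀ : Set (M → _root_.Fermat.Agent.S19.Qb)) ?_ (hH₀span hb)
    intro t ht
    exact hasDenom_of_mem _ (Algebra.subset_adjoin ht)
  have hden₂ : ∀ G ∈ tensorFunctions (O.B : Set (M → _root_.Fermat.Agent.S19.Qb)),
      HasDenom V ℓ (coordFunctions (↑H₀ : Set (M → _root_.Fermat.Agent.S19.Qb))) G := by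
    rintro G ⟨b, hb, b', hb', rfl⟩
    obtain ⟨s, hs, hu, hm⟩ := hden₁ b hb
    obtain ⟨s', hs', hu', hm'⟩ := hden₁ b' hb'
    refine ⟨s * s', hs.mul hs', ?_, ?_⟩
    · rw [ValuationSubring.mem_nonunits_iff, not_lt] at hu hu' ⊢
      rw [map_mul]
      have := mul_le_mul' hu hu'
      rwa [one_mul] at this
    · have e : (fun p : M × M => s * s' * (b p.1 * b' p.2)) =
          (fun p : M × M => (fun m => s * b m) p.1) * (fun p : M × M => (fun m => s' * b' m) p.2) := by
        funext p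
        simp only [Pi.mul_apply]
        ring
      rw [e]
      exact Subalgebra.mul_mem _ (fst_mem_adjoin _ hm) (snd_mem_adjoin _ hm')
  have hadd : ∀ f ∈ (↑H₀ : Set (M → _root_.Fermat.Agent.S19.Qb)), (fun p : M × M => f (p.1 + p.2)) ∈
      Algebra.adjoin (Zb ℓ) (coordFunctions (↑H₀ : Set (M → _root_.Fermat.Agent.S19.Qb))) := by
    intro f hf
    obtain ⟨s, hs, hu, hm⟩ := hasDenom_span hℓ hV _ _ hden₂ (O.comul f (hH₀B f hf))
    refine Fermat.Agent.S19.H255.add_mem_of_local hℓ act hact.act_add (↑H₀ : Set (M → _root_.Fermat.Agent.S19.Qb))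
      (fun g hg => hH₀eq g hg) hH₀int hsep V hV f (hH₀eq f hf) ?_
    intro m₀ m₀'
    exact ⟨_, hm, _, const_mem_adjoin_Zb _ hs, hu, fun m m' _ _ => rfl⟩
  refine ⟨{ ι := {f : M → _root_.Fermat.Agent.S19.Qb // f ∈ H₀}
            fin := Finite.of_fintype _
            Φ := fun m i => i.1 m
            inj := ?_
            equivariant := ?_
            integral := ?_
            add_mem := ?_ }⟩
  · intro m m' hmm
    apply hsep
    intro f hf
    exact congrFun hmm ⟨f, hf⟩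
  · intro σ m i
    exact hH₀eq i.1 i.2 σ m
  · intro m i
    exact hH₀int i.1 i.2 m
  · intro i
    refine Algebra.adjoin_mono ?_ (hadd i.1 i.2)
    rintro g (⟨h, hh, rfl⟩ | ⟨h, hh, rfl⟩)
    · exact Or.inl ⟨⟨h, hh⟩, rfl⟩
    · exact Or.inr ⟨⟨h, hh⟩, rfl⟩

end Main

end Fermat.Agent.S19.H859

end
-- ===== PACK-END S19/H859/UC.lean

-- ===== PACK-BEGIN S59/H885/LoSqSpec.lean
section



/-!
# Row S59, cell LO, leaf LO-SQ: "WALL-q²" (Mazur's principle at `q² ∥ M`) — top layer (helper885)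

Target: `Fermat.Agent.S59.H934.LoSqStatement` (`p ∈ {3, 5}`, `W` semistable, `W[p]` irreducible,
`q ≠ p`, `q² ∥ M`, `W` residually modular of level `M`  ⊢  residually modular of level `M / q`).

This file reduces it to ONE statement about the Jacobian `J₀(N q)`, `q ∥ N`, with no elliptic
curve, no modular form and no Galois representation in it:

* `CoreSqStatement` (**CORE-SQ**): `p` odd, `q ≠ p`, `q ∥ N`, `P` a place of `ℚ̄` over `q`,
  `a` a non-Eisenstein eigensystem.  Every NONZERO class `x ∈ J₀(N q)[p]` which is fixed by the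
  inertia group `I_P` and is a Hecke eigenvector with eigenvalues `a` off a finite set has its
  eigensystem at level `N`  (`Ribet.H944.Wall.Lowered N p S a`: on `J₀(N)[p]` or on a congruent
  normalised eigenform of level `N`, off a larger finite set).

  TRUE (Néron model of `J₀(N q)` over `ℤ_q^{ur}`, `N = q M'`):  `J[p]^I = 𝒥_s[p]`, and `𝒥_s` has
  component group `Φ` (Eisenstein), abelian part `J₀(M')³` (level `M' ∣ N`), toric part with
  character group commensurable with `(ℤ[Σ]⁰)²` (`Σ` = supersingular points = character group of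
  the toric part of level `q M' = N`), unipotent part (no `p`-torsion).  No hypothesis "new" is
  needed, and there is NO exceptional case `q ≡ ± 1 mod p`.  Holds for `p ∣ N` as well.

* PROVED here:  `loSq_of_core` :
    BLR-W (`Spec.EmbedWStatement`) + Places + FIX-W + NE-W + R3S + R3'-W + CORE-SQ ⟹ LO-SQ.
  All inputs except CORE-SQ are theorems on main (`H823.embedW`, `H584.places`,
  `H404.eigenformOfOccursAway`, `H943.Final.almostAllToWitnessW`) or proved in
  `S59/H885/LoSqFix.lean` (FIX-W, NE-W).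

Levels are written as in row S36 (`JZero (N * q)`, `N.factorization q = 1`), so that the wiring
DESC / NEAT of the S36 engine (`S36/H36/Deg.lean`, `S36/H756`, `S36/H442`) applies verbatim.
-/

set_option autoImplicit false
set_option linter.style.haveILetI false

open WeierstrassCurve WeierstrassCurve.Affine WeierstrassCurve.Affine.Point
open CuspForm ModularFormClass UpperHalfPlane ModularCurve

namespace Fermat.Agent.S59.H885

open Fermat.Agent.Ribet Fermat.Agent.Ribet.Spec Fermat.Agent.Ribet.H944.Wall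

/-! ## The statements -/

/-- **CORE-SQ** (the wall at `q²`, support form, on `J₀(N q)`, `q ∥ N`). -/
def CoreSqStatement : Prop :=
  ∀ (N q p : ℕ) [NeZero N] [NeZero q], q.Prime → N.factorization q = 1 → p.Prime → p ≠ 2 →
    p ≠ q →
    ∀ P : ValuationSubring (AlgebraicClosure ℚ), P.LiesOverPrime q →
    ∀ (S : Finset ℕ) (a : ℕ → ℤ), NonEisAway p a →
    ∀ x : JZero (N * q), x ≠ 0 → p • x = 0 → EigenAt (N * q) S a x →
      (∀ τ ∈ P.inertiaSubgroupIn ℚ, τ • x = x) → Lowered N p S a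

/-- **FIX-W**: for a semistable integral model and `q ≠ p`, the inertia group at a place over `q`
fixes a nonzero vector of `W[p]` (good reduction: everything; multiplicative reduction:
`(σ - 1) x`). -/
def FixWStatement : Prop :=
  ∀ (W : WeierstrassCurve ℤ) (p q : ℕ), W.Δ ≠ 0 → W.IsSemistableModel → p.Prime → q.Prime →
    q ≠ p →
    ∀ A : ValuationSubring (AlgebraicClosure ℚ), A.LiesOverPrime q →
      ∃ v : WTorsion W p, v ≠ 0 ∧ ∀ σ ∈ A.inertiaSubgroupIn ℚ, σ • v = v

/-- **NE-W**: the eigensystem of an irreducible `W[p]` is not Eisenstein. -/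
def NonEisWStatement : Prop :=
  ∀ (W : WeierstrassCurve ℤ) (p : ℕ), W.Δ ≠ 0 → p.Prime → W.ModRepIsIrreducible p →
    NonEisAway p (fun ℓ => W.apOfModel ℓ)

/-! ## Level bookkeeping -/

/-- Transport of `J₀` along an equality of levels, compatible with Galois and Hecke. -/
theorem exists_levelCast885 (A B : ℕ) (h : A = B) [NeZero A] [NeZero B] :
    ∃ e : JZero A ≃+ JZero B,
      (∀ (γ : GQ) (x : JZero A), e (γ • x) = γ • e x) ∧
      (∀ (ℓ : Nat.Primes) (x : JZero A),
        e (heckeOperatorBar A ℓ x) = heckeOperatorBar B ℓ (e x)) := by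
  subst h
  exact ⟨AddEquiv.refl _, fun _ _ => rfl, fun _ _ => rfl⟩

/-- `q² ∣ M`, `q³ ∤ M` ⟹ `v_q(M / q) = 1`. -/
theorem factorization_div_eq_one885 {M q : ℕ} (hM : M ≠ 0) (hq : q.Prime) (hq2 : q ^ 2 ∣ M)
    (hq3 : ¬ q ^ 3 ∣ M) : (M / q).factorization q = 1 := by
  have hqM : q ∣ M := dvd_trans (dvd_pow_self q two_ne_zero) hq2
  have h2 : 2 ≤ M.factorization q := (hq.pow_dvd_iff_le_factorization hM).1 hq2
  have h3 : ¬ 3 ≤ M.factorization q := fun h => hq3 ((hq.pow_dvd_iff_le_factorization hM).2 h)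
  rw [Nat.factorization_div hqM, Finsupp.tsub_apply, hq.factorization_self]
  omega

/-! ## The glue -/

/-- **LO-SQ from CORE-SQ.** -/
theorem loSq_of_core (hE : EmbedWStatement) (hPl : PlacesStatement) (hFix : FixWStatement)
    (hNE : _root_.Fermat.Agent.S59.H885.NonEisWStatement) (hR3 : EigenformOfOccursAwayStatement)
    (hR3' : AlmostAllToWitnessWStatement) (hCore : CoreSqStatement) :
    Fermat.Agent.S59.H934.LoSqStatement := by
  intro p _ hp35 W hΔ hW hirr M q hM _ hM3 hq hqp hq2 hres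
  have hp : p.Prime := Fact.out
  have hp2 : p ≠ 2 := by
    rcases hp35 with h | h <;> omega
  -- level bookkeeping: `M = N * q`, `q ∥ N`
  have hqM : q ∣ M := dvd_trans (dvd_pow_self q two_ne_zero) hq2
  have hfac : (M / q).factorization q = 1 :=
    factorization_div_eq_one885 hM hq hq2 (hM3 q hq hqp)
  have hMN : M = M / q * q := (Nat.div_mul_cancel hqM).symm
  have hN0 : M / q ≠ 0 := Fermat.Agent.S59.H934.div_ne_zero_of_dvd hM hqM
  haveI : NeZero M := ⟨hM⟩
  haveI : NeZero (M / q) := ⟨hN0⟩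
  haveI : NeZero q := ⟨hq.ne_zero⟩
  -- the embedding `W[p] ↪ J₀(M)`
  obtain ⟨f, 𝔪, hwit⟩ := hres
  obtain ⟨S, ι, hinj, hgal, hT⟩ := hE W p M hΔ hp hp2 hirr f 𝔪 hwit
  -- an inertia-fixed vector
  obtain ⟨A, hA, -⟩ := hPl q hq
  obtain ⟨v, hv0, hvfix⟩ := hFix W p q hΔ hW hp hq hqp A hA
  obtain ⟨e, heG, heT⟩ := exists_levelCast885 M (M / q * q) hMN
  have hpv : p • ι v = 0 := by
    rw [← map_nsmul]
    have h0 : p • v = 0 := by
      apply Subtype.ext
      have hv := v.2
      rw [Submodule.mem_torsionBy_iff, natCast_zsmul] at hv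
      simpa using hv
    rw [h0, _root_.map_zero]
  have hlow : Lowered (M / q) p S (fun ℓ => W.apOfModel ℓ) := by
    refine hCore (M / q) q p hq hfac hp hp2 (Ne.symm hqp) A hA S _ (hNE W p hΔ hp hirr)
      (e (ι v)) ?_ ?_ ?_ ?_
    · intro h
      have h1 : ι v = 0 := e.injective (by rw [h, _root_.map_zero])
      exact hv0 (hinj (by rw [h1, _root_.map_zero]))
    · rw [← map_nsmul, hpv, _root_.map_zero]
    · intro ℓ hℓ
      rw [← heT, hT ℓ hℓ v, map_zsmul]
    · intro τ hτ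
      rw [← heG, ← hgal, hvfix τ hτ]
  obtain ⟨S', g, 𝔪', hg, hmax, hpm, hc⟩ := eigenAway_of_lowered hR3 hp hlow
  exact ⟨g, 𝔪', hR3' W p (M / q) hΔ hp hp2 (Nat.pos_of_ne_zero hN0) hirr g 𝔪' _ hg hmax hpm hc⟩

end Fermat.Agent.S59.H885

end
-- ===== PACK-END S59/H885/LoSqSpec.lean

-- ===== PACK-BEGIN S41/H341/Occ.lean
section




/-!
# Row S41, block OCC (helper341): proof of `Spec.OccStatement`

* `occ_exists_eigenChar` : helper642's `exists_eigenChar` (S29/E2), with the extra conclusion that the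
  character vanishes on the elements of finite order (same proof: the character factors through the
  period lattice `L_g ⊆ ℂ`, which is torsion-free).
* `occ` : block OCC.  Apply `occ_exists_eigenChar` to `F = ℤ̄ ⧸ 𝔪` and descend to `𝔽_p` by an
  `𝔽_p`-linear functional `ℤ̄ ⧸ 𝔪 → 𝔽_p` (the Hecke transfer commutes with post-composition and the
  eigenvalues `a_ℓ(W) mod p`, `±(q'+1)` lie in the prime field).
-/

set_option autoImplicit false

namespace Fermat.Agent.S41.H341

open CongruenceSubgroup ModularCurve ModularCurve.Period ModularFormClass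
open Fermat.Agent.S29.H642
open scoped MatrixGroups

section EigenChar

variable {N : ℕ} [NeZero N]

omit [NeZero N] in
/-- Periods along elements of finite order vanish. -/
theorem occ_periodMap_eq_zero_of_pow (g : CuspForm (Gamma0 N) 2) {γ : Gamma0 N} {k : ℕ}
    (hk : 0 < k) (hγ : γ ^ k = 1) : periodMap N g (Additive.ofMul γ) = 0 := by
  have h1 : periodMap N g (k • Additive.ofMul γ) = k • periodMap N g (Additive.ofMul γ) :=
    map_nsmul _ _ _
  have h2 : k • Additive.ofMul γ = (0 : Additive (Gamma0 N)) := by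
    rw [← ofMul_pow, hγ, ofMul_one]
  rw [h2, map_zero, nsmul_eq_mul] at h1
  rcases mul_eq_zero.mp h1.symm with h | h
  · exact absurd h (by exact_mod_cast hk.ne')
  · exact h

/-- helper642's `exists_eigenChar`, with vanishing on the elements of finite order. -/
theorem occ_exists_eigenChar {g : CuspForm (Gamma0 N) 2} (hg : g.IsNormalizedEigenform)
    {p : ℕ} (hp : p.Prime) {F : Type*} [Field F] [CharP F p]
    (ψ : integralClosure ℤ ℂ →+* F) :
    ∃ χ : Additive (Gamma0 N) →+ F, χ ≠ 0 ∧ Spec.IsCuspidal χ ∧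
      ∀ (ℓ : ℕ) [Fact ℓ.Prime] (hℓN : ¬ ℓ ∣ N) (a : integralClosure ℤ ℂ),
        (a : ℂ) = qCoeff ⇑g ℓ → ∀ γ : Additive (Gamma0 N),
          heckeTransfer hℓN χ γ = ψ a * χ γ := by
  classical
  set L : AddSubgroup ℂ := perLattice g with hL
  have : AddGroup.FG L := perLattice_fg g
  have : Module.Finite (stabAlg L) L := stabModule_finite L
  have : Algebra.IsIntegral ℤ (stabAlg L) := stabAlg_isIntegral L
  let θ : stabAlg L →+* F := ψ.comp (stabAlg L).val.toRingHom
  have hmax : (RingHom.ker θ).IsMaximal := ker_isMaximal_of_integral hp θ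
  obtain ⟨x₀, hx₀, hx₀0⟩ := perLattice_ne_bot (ne_zero_of_isNormalizedEigenform hg)
  have hfaith : ∀ r : stabAlg L, (∀ x : L, r • x = 0) → θ r = 0 := by
    intro r hr
    have h1 := congrArg (fun y : L => (y : ℂ)) (hr ⟨x₀, hx₀⟩)
    simp only [coe_stab_smul, ZeroMemClass.coe_zero] at h1
    have h2 : (((r : stabAlg L) : integralClosure ℤ ℂ) : ℂ) = 0 :=
      (mul_eq_zero.mp h1).resolve_right hx₀0
    have h3 : r = 0 := Subtype.ext (Subtype.ext h2)
    rw [h3, map_zero]
  obtain ⟨π, hπ0, hπ⟩ := exists_eigenfunctional θ hmax hfaith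
  -- the period map, with values in `L`
  let P : Additive (Gamma0 N) →+ L := (periodMap N g).rangeRestrict
  have hPsurj : Function.Surjective P := (periodMap N g).rangeRestrict_surjective
  have hPcoe : ∀ γ, ((P γ : L) : ℂ) = periodMap N g γ := fun γ => rfl
  refine ⟨π.comp P, ?_, ⟨?_, ?_⟩, ?_⟩
  · intro h0
    apply hπ0
    refine AddMonoidHom.ext fun y => ?_
    obtain ⟨γ, rfl⟩ := hPsurj y
    exact congrArg (fun φ : Additive (Gamma0 N) →+ F => φ γ) h0
  · intro γ hγ
    have hpar := (mem_parabolicHoms_iff (R := ℂ)).mp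
      (Fermat.Agent.S21.H381.periodMap_mem_parabolicHoms g) γ hγ
    have hP0 : P (Additive.ofMul γ) = 0 := Subtype.ext (by rw [hPcoe, hpar]; rfl)
    rw [AddMonoidHom.comp_apply, hP0, map_zero]
  · intro γ hfin
    obtain ⟨k, hk, hγ⟩ := isOfFinOrder_iff_pow_eq_one.mp hfin
    have hP0 : P (Additive.ofMul γ) = 0 :=
      Subtype.ext (by rw [hPcoe, occ_periodMap_eq_zero_of_pow g hk hγ]; rfl)
    rw [AddMonoidHom.comp_apply, hP0, map_zero]
  · intro ℓ hℓ hℓN a ha γ
    have haL : a ∈ stabAlg L := by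
      intro x hx
      rw [ha]
      exact qCoeff_mul_mem_perLattice hg hℓ.out hℓN hx
    -- the transfer of `P` is `a • P`
    have hTP : heckeTransfer hℓN P γ = (⟨a, haL⟩ : stabAlg L) • P γ := by
      apply Subtype.ext
      rw [coe_stab_smul, hPcoe]
      have h1 := periodMap_heckeTLin hℓ.out hℓN g
      rw [heckeTLin_eq_smul hg hℓ.out hℓN, Fermat.Agent.S21.H381.periodMap_smul] at h1
      have h2 := congrArg (fun φ : Additive (Gamma0 N) →+ ℂ => φ γ) h1
      simp only [AddMonoidHom.smul_apply, smul_eq_mul] at h2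
      show ((heckeTransfer hℓN P γ : L) : ℂ) = (a : ℂ) * periodMap N g γ
      rw [ha, h2]
      have h3 : (periodMap N g) = (L.subtype).comp P := rfl
      rw [h3, heckeTransfer_comp]
      rfl
    rw [heckeTransfer_comp, AddMonoidHom.comp_apply, hTP, hπ, AddMonoidHom.comp_apply]
    rfl

end EigenChar

/-- **Block OCC** of row S41. -/
theorem occ : Spec.OccStatement := by
  intro W p N q' _ hp hq' hq'N f 𝔪 hf hmax hpm hcong hLR
  classical
  let _ : Field (integralClosure ℤ ℂ ⧸ 𝔪) := Ideal.Quotient.field 𝔪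
  let ψ : integralClosure ℤ ℂ →+* (integralClosure ℤ ℂ ⧸ 𝔪) := Ideal.Quotient.mk 𝔪
  have hpk : ((p : ℕ) : integralClosure ℤ ℂ ⧸ 𝔪) = 0 := by
    have h : ψ (p : integralClosure ℤ ℂ) = 0 := Ideal.Quotient.eq_zero_iff_mem.mpr hpm
    rwa [map_natCast] at h
  have : Fact p.Prime := ⟨hp⟩
  have : CharP (integralClosure ℤ ℂ ⧸ 𝔪) p := (CharP.charP_iff_prime_eq_zero hp).mpr hpk
  let _ : Algebra (ZMod p) (integralClosure ℤ ℂ ⧸ 𝔪) := ZMod.algebra _ p
  obtain ⟨χ, hχ0, hχc, hχe⟩ := occ_exists_eigenChar hf hp ψ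
  -- a point where `χ` does not vanish, and a functional detecting it
  obtain ⟨γ₀, hγ₀⟩ : ∃ γ₀, χ γ₀ ≠ 0 := by
    by_contra h
    push Not at h
    exact hχ0 (AddMonoidHom.ext h)
  obtain ⟨φ, hφ⟩ : ∃ φ : Module.Dual (ZMod p) (integralClosure ℤ ℂ ⧸ 𝔪), φ (χ γ₀) ≠ 0 := by
    by_contra hcon
    push Not at hcon
    exact hγ₀ ((Module.forall_dual_apply_eq_zero_iff (ZMod p) _).mp hcon)
  -- the key computation: eigenvalue in the prime field
  have key : ∀ (ℓ : ℕ) [Fact ℓ.Prime] (hℓN : ¬ ℓ ∣ N) (a : integralClosure ℤ ℂ) (c : ZMod p),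
      (a : ℂ) = qCoeff ⇑f ℓ → ψ a = algebraMap (ZMod p) (integralClosure ℤ ℂ ⧸ 𝔪) c →
      heckeTransfer hℓN (φ.toAddMonoidHom.comp χ) = c • (φ.toAddMonoidHom.comp χ) := by
    intro ℓ _ hℓN a c ha hc
    rw [heckeTransfer_comp]
    refine AddMonoidHom.ext fun γ => ?_
    rw [AddMonoidHom.comp_apply, hχe ℓ hℓN a ha γ, hc, ← Algebra.smul_def]
    show φ (c • χ γ) = c • φ (χ γ)
    exact map_smul φ c (χ γ)
  -- the eigenvalue at `q'`
  obtain ⟨aq, haq, haq2⟩ := hLR
  have hsq : ψ aq ^ 2 = (ψ ((q' : integralClosure ℤ ℂ) + 1)) ^ 2 := by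
    have h : ψ (aq ^ 2 - ((q' : integralClosure ℤ ℂ) + 1) ^ 2) = 0 :=
      Ideal.Quotient.eq_zero_iff_mem.mpr haq2
    rw [map_sub, map_pow, map_pow, sub_eq_zero] at h
    exact h
  have hq1 : ψ ((q' : integralClosure ℤ ℂ) + 1)
      = algebraMap (ZMod p) (integralClosure ℤ ℂ ⧸ 𝔪) ((q' : ZMod p) + 1) := by
    rw [map_add, map_add, map_natCast, map_natCast, map_one, map_one]
  obtain ⟨μ, hμ2, hμ⟩ : ∃ μ : ZMod p, μ ^ 2 = ((q' : ZMod p) + 1) ^ 2 ∧
      ψ aq = algebraMap (ZMod p) (integralClosure ℤ ℂ ⧸ 𝔪) μ := by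
    rcases sq_eq_sq_iff_eq_or_eq_neg.mp hsq with h | h
    · exact ⟨(q' : ZMod p) + 1, rfl, by rw [h, hq1]⟩
    · exact ⟨-((q' : ZMod p) + 1), by ring, by rw [h, hq1, map_neg]⟩
  refine ⟨φ.toAddMonoidHom.comp χ, μ, ?_, ⟨?_, ?_⟩, ?_, hμ2, ?_⟩
  · intro h0
    apply hφ
    have := congrArg (fun y : Additive (Gamma0 N) →+ ZMod p => y γ₀) h0
    simpa using this
  · intro γ hγ
    rw [AddMonoidHom.comp_apply, hχc.1 γ hγ, map_zero]
  · intro γ hfin
    rw [AddMonoidHom.comp_apply, hχc.2 γ hfin, map_zero]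
  · intro ℓ hℓ hℓN hgood hℓp
    obtain ⟨a, ha, ham⟩ := hcong ℓ hℓ.out hgood hℓN hℓp
    refine key ℓ hℓN a _ ha ?_
    have h : ψ a = ψ ((W.apOfModel ℓ : ℤ) : integralClosure ℤ ℂ) :=
      Ideal.Quotient.eq.mpr ham
    rw [h, map_intCast, map_intCast]
  · have : Fact q'.Prime := ⟨hq'⟩
    exact key q' hq'N aq μ haq hμ

end Fermat.Agent.S41.H341

end
-- ===== PACK-END S41/H341/Occ.lean

-- ===== PACK-BEGIN S27/TopSmall.lean
section



/-!
# Row S27: the top glue, universe step by helper190 (architect helper87)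

`H190.s27_of_small` (on main) reduces S27 for `K : Type u`, `F : Type v` to the case `F : Type u`
(an essentially finite type extension is `u`-small).  So the leaf `Stmt.Transport` is NOT needed,
and S25, S26 and all leaves are used in the universe of `K` only.

* `result_of_leaves` : S25Stmt, S26Stmt, TensorExists, FFAlg, CurveScheme, Grp, Dim, Conn, PtsDict,
  Genus, PicCl  ⇒  the frozen statement S27.
-/

set_option autoImplicit false
universe u v
open CategoryTheory CategoryTheory.Limits AlgebraicGeometry AlgebraicGeometry.RelPicard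
  NeronModelInfra GoodReductionJacobian AlgebraicCurve

namespace Fermat.Agent.S27

/-- S27 in one universe, in the shape of `H190.S27Small`. -/
theorem small_of_uniform
    (hU : ∀ (K F : Type u) [Field K] [Field F] [Algebra K F], Stmt.Uniform K F) :
    H190.S27Small.{u} :=
  fun K F _ _ _ _ _ _ _ ℓ _ k => hU K F ℓ k

/-- **S27 from the leaves** (final form of the top glue). -/
theorem result_of_leaves
    (hS25 : S25Stmt.{u}) (hS26 : S26Stmt.{u})
    (hT : Stmt.TensorExists.{u})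
    (hA : ∀ (K F : Type u) [Field K] [Field F] [Algebra K F], Stmt.FFAlg K F)
    (hCS : ∀ (K : Type u) [Field K], Stmt.CurveScheme K)
    (hG : ∀ (K : Type u) [Field K], Stmt.Grp K)
    (hD : ∀ (K : Type u) [Field K], Stmt.Dim K)
    (hC : ∀ (K : Type u) [Field K], Stmt.Conn K)
    (hP : ∀ (K : Type u) [Field K], Stmt.PtsDict K)
    (hGen : ∀ (K F : Type u) [Field K] [Field F] [Algebra K F], Stmt.Genus K F)
    (hCl : ∀ (K F : Type u) [Field K] [Field F] [Algebra K F], Stmt.PicCl K F)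
    (K : Type u) (F : Type v) [Field K] [Field F] [Algebra K F] [IsAlgClosed K] [CharZero K]
    [IsCurveOver K F] [Algebra.EssFiniteType K F] (ℓ : ℕ) [Fact ℓ.Prime] (k : ℕ) :
    Nat.card (Pic0.torsion K F (ℓ ^ k)) = ℓ ^ (2 * genusFF K F * k) :=
  H190.s27_of_small
    (small_of_uniform fun K F _ _ _ => uniform_of_jac hS26
      (jac_of_blocks hS25 (model_of_blocks (hA K F) (hCS K)) (hG K) (hD K) (hC K)
        (hGen K F) (hCl K F) (hP K) hT))
    K F ℓ k

end Fermat.Agent.S27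

end
-- ===== PACK-END S27/TopSmall.lean

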