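import Mathlib
import Fermat.Prelude.Def_ModularCurve_PeriodHomPair
import Fermat.Prelude.Def_ModularForm_HeckeOperatorForms
import Fermat.Agent.Pack.S59C.E3L0
import Fermat.Agent.Pack.S43MC.G0E10L2
import Fermat.Agent.Pack.S43MC.G0E14L1
import Fermat.Agent.Pack.S43GC.G0E5L0
import Fermat.Agent.Pack.S43MC.G0E12L1
import Fermat.Agent.Pack.S43MC.G0E14L0
import Fermat.Agent.Pack.S43MC.G0E16L1
import Fermat.Agent.Pack.S59C.E3L3
import Fermat.Agent.Pack.S59C.E1L1
import Fermat.Agent.Pack.S59C.E3L1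
import Fermat.Agent.Pack.S44C.G0E10L0
import Fermat.Agent.Pack.S44C.G0E0L3
import Fermat.Agent.Pack.S43GC.G0E12L3
import Fermat.Agent.Pack.S43GC.G0E0L0
import Fermat.Agent.Pack.S43GC.G0E0L3

set_option linter.all false

-- ===== PACK-BEGIN S59/NMP/Square.lean
section


/-!
# Row S59, cells NMP / NM — the Galois square (helper583)

Pure deformation theory, generic in the two deformation conditions `𝒟` (small) and `𝒟'` (big):

                 φ'
        R' ------------> T'
        |                |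
      β |                | res
        v        φ       v
        R  ------------> T

* `exists_square` : if the universal deformation of type `𝒟` is of type `𝒟'`, the representation
  over `T` is of type `𝒟'` and `ρ_{T'} ⊗_res T ≅ ρ_T`, then there is a unique `β : R' → R` with
  `ρ_{R'} ⊗_β R ≅ ρ_R`, and the square commutes.
* `compatible_unique`, `surjective_of_compatible` : every compatible `φ' : R' → T'` is the
  surjection of the frozen S54.
* `cot_comp_eq` : `Cot (π' ∘ φ') = Cot ((π ∘ φ) ∘ β)` for `π' = π ∘ res`.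

Used by `Fermat.Agent.S59.NMP.nonMinP_of` (flat `→` ordinary); usable verbatim for the cell NM.
-/

set_option autoImplicit false

open IsLocalRing

namespace Fermat.Agent.S59.NMP

open Fermat.Agent.S59.Arch Fermat.Agent.S53.H113

section Square

variable {𝒪 : Type} [CommRing 𝒪] [IsDomain 𝒪] [IsDiscreteValuationRing 𝒪]
  [IsAdicComplete (maximalIdeal 𝒪) 𝒪]
  {ρbar : ResidualGaloisRep (ResidueField 𝒪)}
  {𝒟 𝒟' : ∀ ⦃A : Type⦄ [CommRing A] [IsLocalRing A] [Algebra 𝒪 A], GaloisRepAdic A → Prop}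

/-- Two compatible maps from a universal deformation ring are equal. -/
theorem compatible_unique (D : GaloisRep.DeformationRingData 𝒪 ρbar 𝒟)
    {T : Type} [CommRing T] [IsLocalRing T] [IsNoetherianRing T]
    [IsAdicComplete (maximalIdeal T) T] [Algebra 𝒪 T] [IsLocalHom (algebraMap 𝒪 T)]
    (hTsurj : Function.Surjective (residue T ∘ algebraMap 𝒪 T))
    (ρT : GaloisRepAdic T) (hT𝒟 : 𝒟 ρT)
    (hTres : ρT.residual.IsEquiv (ρbar.baseChangeAlong (ResidueField.map (algebraMap 𝒪 T))))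
    (φ₁ φ₂ : D.R →ₐ[𝒪] T)
    (h₁ : ∃ hφ : IsLocalHom (φ₁ : D.R →+* T), (D.ρ.baseChangeAlong (φ₁ : D.R →+* T) hφ).IsEquiv ρT)
    (h₂ : ∃ hφ : IsLocalHom (φ₂ : D.R →+* T),
      (D.ρ.baseChangeAlong (φ₂ : D.R →+* T) hφ).IsEquiv ρT) :
    φ₁ = φ₂ :=
  (D.universal T hTsurj ρT hT𝒟 hTres).unique h₁ h₂

/-- **The Galois square.** -/
theorem exists_square (D : GaloisRep.DeformationRingData 𝒪 ρbar 𝒟)
    (D' : GaloisRep.DeformationRingData 𝒪 ρbar 𝒟') (hD𝒟' : 𝒟' D.ρ)
    {T : Type} [CommRing T] [IsLocalRing T] [IsNoetherianRing T]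
    [IsAdicComplete (maximalIdeal T) T] [Algebra 𝒪 T] [IsLocalHom (algebraMap 𝒪 T)]
    {T' : Type} [CommRing T'] [IsLocalRing T'] [Algebra 𝒪 T']
    (hTsurj : Function.Surjective (residue T ∘ algebraMap 𝒪 T))
    (ρT : GaloisRepAdic T) (ρT' : GaloisRepAdic T') (hT𝒟' : 𝒟' ρT)
    (hTres : ρT.residual.IsEquiv (ρbar.baseChangeAlong (ResidueField.map (algebraMap 𝒪 T))))
    (res : T' →ₐ[𝒪] T) (hres : IsLocalHom (res : T' →+* T))
    (hcompat : (ρT'.baseChangeAlong (res : T' →+* T) hres).IsEquiv ρT)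
    (φ : D.R →ₐ[𝒪] T) (hφ : IsLocalHom (φ : D.R →+* T))
    (hφe : (D.ρ.baseChangeAlong (φ : D.R →+* T) hφ).IsEquiv ρT)
    (φ' : D'.R →ₐ[𝒪] T') (hφ' : IsLocalHom (φ' : D'.R →+* T'))
    (hφ'e : (D'.ρ.baseChangeAlong (φ' : D'.R →+* T') hφ').IsEquiv ρT') :
    ∃ (β : D'.R →ₐ[𝒪] D.R) (hβ : IsLocalHom (β : D'.R →+* D.R)),
      (D'.ρ.baseChangeAlong (β : D'.R →+* D.R) hβ).IsEquiv D.ρ ∧ res.comp φ' = φ.comp β := by
  obtain ⟨β, ⟨hβ, hβe⟩, -⟩ := D'.universal D.R D.residue_surjective D.ρ hD𝒟' D.residual_isEquiv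
  refine ⟨β, hβ, hβe, ?_⟩
  -- both composites are compatible maps `R' → T`
  have hloc₁ : IsLocalHom ((res.comp φ' : D'.R →ₐ[𝒪] T) : D'.R →+* T) := by
    constructor
    intro a ha
    exact hφ'.map_nonunit a (hres.map_nonunit (φ' a) ha)
  have hloc₂ : IsLocalHom ((φ.comp β : D'.R →ₐ[𝒪] T) : D'.R →+* T) := by
    constructor
    intro a ha
    exact hβ.map_nonunit a (hφ.map_nonunit (β a) ha)
  have e₁ : (D'.ρ.baseChangeAlong ((res.comp φ' : D'.R →ₐ[𝒪] T) : D'.R →+* T) hloc₁).IsEquiv ρT := by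
    have h1 := baseChangeAlong_comp_isEquiv' (φ' : D'.R →+* T') hφ' (res : T' →+* T) hres
      ((res.comp φ' : D'.R →ₐ[𝒪] T) : D'.R →+* T) hloc₁ rfl D'.ρ
    have h2 := isEquiv_baseChangeAlong (res : T' →+* T) hres hφ'e
    exact isEquiv_trans (isEquiv_trans (isEquiv_symm h1) h2) hcompat
  have e₂ : (D'.ρ.baseChangeAlong ((φ.comp β : D'.R →ₐ[𝒪] T) : D'.R →+* T) hloc₂).IsEquiv ρT := by
    have h1 := baseChangeAlong_comp_isEquiv' (β : D'.R →+* D.R) hβ (φ : D.R →+* T) hφ
      ((φ.comp β : D'.R →ₐ[𝒪] T) : D'.R →+* T) hloc₂ rfl D'.ρ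
    have h2 := isEquiv_baseChangeAlong (φ : D.R →+* T) hφ hβe
    exact isEquiv_trans (isEquiv_trans (isEquiv_symm h1) h2) hφe
  exact compatible_unique D' hTsurj ρT hT𝒟' hTres _ _ ⟨hloc₁, e₁⟩ ⟨hloc₂, e₂⟩

/-- Every compatible map `R → T` to the ring of a Hecke–Galois datum is surjective (frozen S54 +
uniqueness). -/
theorem surjective_of_compatible (h54 : S54Statement)
    (D : GaloisRep.DeformationRingData 𝒪 ρbar 𝒟) {N : ℕ} [NeZero N] {S : Set ℕ}
    {θ : CuspForm.heckeAlgebra N 2 S →+* ResidueField 𝒪}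
    {T : Type} [CommRing T] [IsLocalRing T] [IsNoetherianRing T]
    [IsAdicComplete (maximalIdeal T) T] [Algebra 𝒪 T]
    [IsLocalHom (algebraMap 𝒪 T)] [Module.Finite 𝒪 T] [Module.Free 𝒪 T]
    (H : CuspForm.HeckeGaloisRepDatum N S 𝒪 θ T)
    (hS : ∀ q : ℕ, q.Prime → q ∣ N → q ∈ S) (h𝒟 : 𝒟 H.ρ)
    (hres : H.ρ.residual.IsEquiv
      (ρbar.baseChangeAlong (ResidueField.map (algebraMap 𝒪 T))))
    (φ : D.R →ₐ[𝒪] T)
    (hφ : ∃ hφ : IsLocalHom (φ : D.R →+* T), (D.ρ.baseChangeAlong (φ : D.R →+* T) hφ).IsEquiv H.ρ) :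
    Function.Surjective φ := by
  obtain ⟨ψ, hψs, hψ⟩ := h54 D H hS h𝒟 hres
  have : φ = ψ := compatible_unique D H.residue_surjective H.ρ h𝒟 hres φ ψ hφ hψ
  rw [this]
  exact hψs

end Square

end Fermat.Agent.S59.NMP

end
-- ===== PACK-END S59/NMP/Square.lean

-- ===== PACK-BEGIN S41/H585/PDFree.lean
section



/-!
# S41 / PD, leaf FREE (helper585)

* `pdHeckeOfPD : Spec.PDHeckeOfPDStatement`  (Hecke operators are self-adjoint for a PD family);
* `pdHecke_of_pd : Spec.PDStatement → Spec.PDHeckeStatement`;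
* `cuspFree : Spec.CuspFreeStatement`  (`C_n(ℤ)` is a finite free `ℤ`-module);
* `mem_gamma0Delta_iff`, `gamma0Delta_finiteIndex`, `neg_one_mem_gamma0Delta`
  (`Γ' = δ Γ₀(N q) δ⁻¹ = Γ₀(N) ∩ Γ⁰(q)` has finite index and contains `-1`).
-/

set_option autoImplicit false

namespace Fermat.Agent.S41.H585

open CongruenceSubgroup Matrix.SpecialLinearGroup ModularCurve.Period ModularGroup
open Fermat.Agent.S29.H642 Fermat.Agent.S41.Spec
open scoped MatrixGroups

universe u

/-! ## Hecke operators are self-adjoint -/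

/-- (PD-HECKE) `B(T_l x, y) = B(x, T_l y)` for a Poincaré-duality family. -/
theorem pdHeckeOfPD : PDHeckeOfPDStatement.{u} := by
  intro hRC hTRH F _ B hB n l _ hl hn x y hx hy
  obtain ⟨-, -, hskew, -, hadj⟩ := hB
  have hlp : l.Prime := Fact.out
  have hnl : n * l ≠ 0 := Nat.mul_ne_zero hn hlp.ne_zero
  have hTx : IsCuspidal (heckeTransfer hl x) := H761.heckeCusp.{u} n l hl F x hx
  obtain ⟨h1x, h2x⟩ := hRC n l F x hx
  obtain ⟨h1y, h2y⟩ := hRC n l F y hy
  obtain ⟨e1x, -⟩ := hTRH n l hl hn F x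
  obtain ⟨-, e2y⟩ := hTRH n l hl hn F y
  have a1 := (hadj n l hn hlp hl y (r₂ n l x) hy h2x).1
  have a2 := (hadj n l hn hlp hl x (r₁ n l y) hx h1y).2
  calc B n (heckeTransfer hl x) y = - B n y (heckeTransfer hl x) := hskew n hn y _ hy hTx
    _ = - B n y (t₁ n l (r₂ n l x)) := by rw [e1x]
    _ = - B (n * l) (r₁ n l y) (r₂ n l x) := by rw [a1]
    _ = B (n * l) (r₂ n l x) (r₁ n l y) := by
        rw [hskew (n * l) hnl (r₂ n l x) (r₁ n l y) h2x h1y, neg_neg]
    _ = B n x (t₂ n l (r₁ n l y)) := a2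
    _ = B n x (heckeTransfer hl y) := by rw [e2y]

/-- `PD ⇒ PD with Hecke operators`. -/
theorem pdHecke_of_pd (hRC : RestrictCuspStatement.{u})
    (hTRH : TransferRestrictHeckeStatement.{u}) (hPD : PDStatement.{u}) :
    PDHeckeStatement.{u} := by
  intro F _
  obtain ⟨B, hB⟩ := hPD F
  exact ⟨B, hB, pdHeckeOfPD hRC hTRH F B hB⟩

/-! ## `C_n(ℤ)` is finite free -/

/-- evaluation of homomorphisms on a set -/
def evalOn (H : Type*) [Group H] (s : Finset H) : (Additive H →+ ℤ) →ₗ[ℤ] (s → ℤ) where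
  toFun φ x := φ (Additive.ofMul (x : H))
  map_add' _ _ := rfl
  map_smul' _ _ := rfl

lemma evalOn_injective (H : Type*) [Group H] (s : Finset H)
    (hs : Subgroup.closure (s : Set H) = ⊤) :
    Function.Injective (evalOn H s) := by
  rw [← LinearMap.ker_eq_bot, LinearMap.ker_eq_bot']
  intro φ hφ
  have h0 : ∀ x ∈ s, φ (Additive.ofMul x) = 0 := fun x hx => congrFun hφ ⟨x, hx⟩
  have key : ∀ h : H, φ (Additive.ofMul h) = 0 := by
    intro h
    have hg : h ∈ Subgroup.closure (s : Set H) := by rw [hs]; trivial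
    induction hg using Subgroup.closure_induction with
    | mem x hx => exact h0 x hx
    | one => exact map_zero φ
    | mul x y _ _ hx hy => rw [ofMul_mul, map_add, hx, hy, add_zero]
    | inv x _ hx => rw [ofMul_inv, map_neg, hx, neg_zero]
  exact AddMonoidHom.ext fun g => key (Additive.toMul g)

/-- Submodules of `Hom(H, ℤ)` are finite free for finitely generated `H`. -/
theorem finite_free_of_fg (H : Type*) [Group H] [Group.FG H]
    (M : Submodule ℤ (Additive H →+ ℤ)) : Module.Finite ℤ M ∧ Module.Free ℤ M := by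
  obtain ⟨s, hs⟩ := Group.fg_def.mp (inferInstance : Group.FG H)
  let L : M →ₗ[ℤ] (s → ℤ) := (evalOn H s).comp M.subtype
  have hL : Function.Injective L := (evalOn_injective H s hs).comp Subtype.val_injective
  have hfin : Module.Finite ℤ M := Module.Finite.of_injective L hL
  have htf : Module.IsTorsionFree ℤ M :=
    Function.Injective.moduleIsTorsionFree L hL (fun n x => map_smul L n x)
  exact ⟨hfin, inferInstance⟩

/-- **(LIFT b)** `C_n(ℤ)` is a finite free `ℤ`-module. -/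
theorem cuspFree : CuspFreeStatement := by
  intro n hn
  have : NeZero n := ⟨hn⟩
  have : Group.FG SL(2, ℤ) :=
    Group.fg_iff.mpr ⟨{S, T}, _root_.SpecialLinearGroup.SL2Z_generators, Set.toFinite _⟩
  have : Group.FG (Gamma0 n) := Subgroup.fg_of_index_ne_zero (Gamma0 n)
  exact finite_free_of_fg (Gamma0 n) (cuspidalSubmodule ℤ n ℤ)

/-! ## `Γ' = Γ₀(N) ∩ Γ⁰(q)` -/

lemma conjDeltaSL_apply (N q : ℕ) (γ : Gamma0 (N * q)) :
    ((conjDeltaSL N q γ : SL(2, ℤ)) : Matrix (Fin 2) (Fin 2) ℤ) =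
      conjDeltaMatrix q (γ : SL(2, ℤ)) := rfl

/-- `Γ'` consists of the elements of `Γ₀(N)` with upper right entry divisible by `q`. -/
theorem mem_gamma0Delta_iff {N q : ℕ} (hq : q ≠ 0) (g : SL(2, ℤ)) :
    g ∈ gamma0Delta N q ↔ g ∈ Gamma0 N ∧ (q : ℤ) ∣ g 0 1 := by
  have hq' : (q : ℤ) ≠ 0 := by exact_mod_cast hq
  constructor
  · rintro ⟨γ, rfl⟩
    refine ⟨(conjDelta N q γ).2, ?_⟩
    show (q : ℤ) ∣ (conjDeltaMatrix q (γ : SL(2, ℤ))) 0 1
    simp [conjDeltaMatrix]
  · rintro ⟨hg, k, hk⟩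
    have hN : (N : ℤ) ∣ g 1 0 :=
      (ZMod.intCast_zmod_eq_zero_iff_dvd _ _).mp (Gamma0_mem.mp hg)
    have hdet := g.det_coe
    rw [Matrix.det_fin_two] at hdet
    -- `γ = [[a, b / q], [q c, d]]`
    let γ : SL(2, ℤ) := ⟨!![g 0 0, k; q * g 1 0, g 1 1], by
      rw [Matrix.det_fin_two_of]; rw [hk] at hdet; linear_combination hdet⟩
    have hγ : γ ∈ Gamma0 (N * q) := by
      rw [Gamma0_mem, ZMod.intCast_zmod_eq_zero_iff_dvd]
      show ((N * q : ℕ) : ℤ) ∣ (q : ℤ) * g 1 0
      obtain ⟨j, hj⟩ := hN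
      exact ⟨j, by rw [hj]; push_cast; ring⟩
    refine ⟨⟨γ, hγ⟩, ?_⟩
    apply Subtype.ext
    rw [conjDeltaSL_apply]
    show conjDeltaMatrix q γ = (g : Matrix (Fin 2) (Fin 2) ℤ)
    ext i j
    fin_cases i <;> fin_cases j
    · rfl
    · show (q : ℤ) * k = g 0 1
      rw [hk]
    · show (q : ℤ) * g 1 0 / q = g 1 0
      exact Int.mul_ediv_cancel_left _ hq'
    · rfl

theorem neg_one_mem_gamma0Delta (N q : ℕ) : (-1 : SL(2, ℤ)) ∈ gamma0Delta N q := by
  rcases eq_or_ne q 0 with rfl | hq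
  · -- `q = 0`
    have h : (-1 : SL(2, ℤ)) ∈ Gamma0 (N * 0) := by
      rw [Gamma0_mem]; simp
    refine ⟨⟨-1, h⟩, ?_⟩
    apply Subtype.ext
    rw [conjDeltaSL_apply]
    ext i j
    fin_cases i <;> fin_cases j <;> simp [conjDeltaMatrix]
  · rw [mem_gamma0Delta_iff hq]
    refine ⟨?_, ?_⟩
    · rw [Gamma0_mem]; simp
    · simp

theorem gamma_le_gamma0Delta {N q : ℕ} (hq : q ≠ 0) : Gamma (N * q) ≤ gamma0Delta N q := by
  intro g hg
  rw [Gamma_mem] at hg
  obtain ⟨-, h01, h10, -⟩ := hg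
  rw [mem_gamma0Delta_iff hq]
  have d01 : ((N * q : ℕ) : ℤ) ∣ g 0 1 := (ZMod.intCast_zmod_eq_zero_iff_dvd _ _).mp h01
  have d10 : ((N * q : ℕ) : ℤ) ∣ g 1 0 := (ZMod.intCast_zmod_eq_zero_iff_dvd _ _).mp h10
  refine ⟨?_, ?_⟩
  · rw [Gamma0_mem, ZMod.intCast_zmod_eq_zero_iff_dvd]
    exact dvd_trans ⟨(q : ℤ), by push_cast; ring⟩ d10
  · exact dvd_trans ⟨(N : ℤ), by push_cast; ring⟩ d01

theorem gamma0Delta_finiteIndex {N q : ℕ} (hN : N ≠ 0) (hq : q ≠ 0) :
    (gamma0Delta N q).FiniteIndex := by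
  have : NeZero (N * q) := ⟨Nat.mul_ne_zero hN hq⟩
  exact Subgroup.finiteIndex_of_le (gamma_le_gamma0Delta hq)

end Fermat.Agent.S41.H585

end
-- ===== PACK-END S41/H585/PDFree.lean

-- ===== PACK-BEGIN S41/H281/HK.lean
section







/-!
# S41 / block HK closed (helper281): leaf COMM and the bundled `Spec.HKStatement`

* `heckeComm : Spec.HeckeCommStatement` (leaf COMM) `= heckeComm_of_HT H761.heckeTransferComm`;
* `hkStatement : Spec.HKStatement` : all nine Props of block HK, from the landed leaves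
  FUN, RC, TC (helper581), HC, HT, TRH (helper761), HR (helper281), TR (helper105), COMM.
-/

set_option autoImplicit false

namespace Fermat.Agent.S41.H281

open Fermat.Agent.S41.Spec

universe u

/-- **Leaf COMM** of block HK: the Hecke transfers `T_l`, `T_l'` commute. -/
theorem heckeComm : HeckeCommStatement.{u} :=
  heckeComm_of_HT H761.heckeTransferComm.{u}

/-- **Block HK**: all nine Betti relations. -/
theorem hkStatement : HKStatement.{u} :=
  ⟨H581.functoriality, H581.restrictCusp, H581.transferCusp, H761.heckeCusp, heckeRestrict,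
    H761.heckeTransferComm, H105.transferRestrict, H761.transferRestrictHecke, heckeComm⟩

end Fermat.Agent.S41.H281

end
-- ===== PACK-END S41/H281/HK.lean

-- ===== PACK-BEGIN S59/H202/HK2.lean
section






/-!
# Row S59, cell NM, leaf HK2: the Betti relations of the second stage (helper202)

`hk2 : NM.HK2Statement` — for `q` prime, `q ∤ N`, `N ≠ 0`, on `X_n(A) = Hom(Γ₀(n), A)`:

* `r₂' r₁ = r₁' r₂`;
* `t₁' r₁' = q = t₂' r₂'`;
* `t₁' r₂' r₂ = r₂ T_q - r₁`;
* `t₂' r₁' r₁ = r₁ T_q - r₂`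

(`r_i' = r_i (N q) q`, `t_i' = t_i (N q) q`).  Proof: coset systems of `S41/H761`, with
`δ = diag(q, 1)`, `D = diag(1, q)`:

* `t₁' r₂' r₂` has the representatives `δ² γ⁻¹`, `γ ∈ Γ₀(N q) / Γ₀(N q²)`; `r₁` has the
  representative `D δ = q`; together these are the `q + 1` cosets `heckeRep x · δ` of `r₂ T_q`;
* `t₂' r₁' r₁` has the representatives `D γ⁻¹`, `γ ∈ Γ₀(N q) / c_δ Γ₀(N q²)`; `r₂` has the
  representative `δ`; together these are the `q + 1` cosets `heckeRep x` of `r₁ T_q`.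
-/

set_option autoImplicit false

namespace Fermat.Agent.S59.H202

open CongruenceSubgroup Matrix.SpecialLinearGroup ModularForm
open Fermat.Agent.S29.H642 Fermat.Agent.S41.Spec Fermat.Agent.S41.H761
open P2MW.S_ModularForm_heckeT_slash_eq_self_of_mem_Gamma0.ModularForm.HeckeSlashInvariance
open scoped MatrixGroups

section HK2

variable {N q : ℕ}

/-- The embedding of `Γ₀(N q)` through `Γ₀(N)` is the standard one. -/
theorem ιN_incl (g : Gamma0 (N * q)) : ιN N (incl N q g) = ιN (N * q) g := rfl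

/-- `r₂' r₁ = r₁' r₂`. -/
theorem r2_r1_eq {A : Type*} [AddCommGroup A] (φ : Additive (Gamma0 N) →+ A) :
    r₂ (N * q) q (r₁ N q φ) = r₁ (N * q) q (r₂ N q φ) := by
  refine AddMonoidHom.ext fun g' => ?_
  obtain ⟨g, rfl⟩ : ∃ g : Gamma0 (N * q * q), Additive.ofMul g = g' := ⟨Additive.toMul g', rfl⟩
  show φ (Additive.ofMul (incl N q (conjDelta (N * q) q g))) =
    φ (Additive.ofMul (conjDelta N q (incl (N * q) q g)))
  congr 2

variable [Fact q.Prime]

/-- `δ ι(g') = ι(c_δ g') δ` with the standard embedding of `Γ₀(N q)`. -/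
theorem r2_rel_std (g' : Gamma0 (N * q)) :
    heckeRep q OnePoint.infty * ιN (N * q) g' =
      ιN N (conjDelta N q g') * heckeRep q OnePoint.infty :=
  r2_rel g'

/-- `D ι(c_δ g') = ι(g') D`. -/
theorem r1_rel_std (g' : Gamma0 (N * q)) :
    heckeRep q ((0 : ZMod q) : OnePoint (ZMod q)) * ιN N (conjDelta N q g') =
      ιN (N * q) g' * heckeRep q ((0 : ZMod q) : OnePoint (ZMod q)) :=
  r1_rel g'

/-- `δ² ι(g'') = ι(c_δ c_δ' g'') δ²`. -/
theorem dd_rel (g : Gamma0 (N * q * q)) :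
    heckeRep q OnePoint.infty * heckeRep q OnePoint.infty *
        ((ιN (N * q)).comp (incl (N * q) q)) g =
      ιN N (((conjDelta N q).comp (conjDelta (N * q) q)) g) *
        (heckeRep q OnePoint.infty * heckeRep q OnePoint.infty) := by
  have h1 : heckeRep q OnePoint.infty * ((ιN (N * q)).comp (incl (N * q) q)) g =
      ιN (N * q) (conjDelta (N * q) q g) * heckeRep q OnePoint.infty := r2_rel g
  have h2 := r2_rel_std (N := N) (q := q) (conjDelta (N * q) q g)
  rw [mul_assoc, h1, ← mul_assoc, h2, mul_assoc]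
  rfl

/-- `(D δ) ι(g') = ι(g') (D δ)` (`D δ = q` is a scalar). -/
theorem Dd_rel (g' : Gamma0 (N * q)) :
    heckeRep q ((0 : ZMod q) : OnePoint (ZMod q)) * heckeRep q OnePoint.infty * ιN (N * q) g' =
      ιN N (incl N q g') *
        (heckeRep q ((0 : ZMod q) : OnePoint (ZMod q)) * heckeRep q OnePoint.infty) := by
  rw [mul_assoc, r2_rel_std, ← mul_assoc, r1_rel_std, mul_assoc]
  rfl

/-- `D ι(c_δ' g'') = ι(g'') D` at the second stage. -/
theorem D_rel (g : Gamma0 (N * q * q)) :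
    heckeRep q ((0 : ZMod q) : OnePoint (ZMod q)) *
        ((ιN (N * q)).comp (conjDelta (N * q) q)) g =
      ιN N (((incl N q).comp (incl (N * q) q)) g) *
        heckeRep q ((0 : ZMod q) : OnePoint (ZMod q)) :=
  r1_rel g

omit [Fact (Nat.Prime q)] in
/-- `1 · ι(g') = ι(g') · 1`. -/
theorem one_rel (g' : Gamma0 (N * q)) :
    (1 : GL (Fin 2) ℝ) * ιN (N * q) g' = ιN N (incl N q g') * 1 := by
  rw [one_mul, mul_one]
  rfl

/-! ### Distinctness of the cosets -/

omit [Fact (Nat.Prime q)] in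
theorem mem_range_incl_iff_dvd (M : ℕ) (h : Gamma0 M) :
    h ∈ (incl M q).range ↔ ((M * q : ℕ) : ℤ) ∣ (h : SL(2, ℤ)) 1 0 := by
  rw [Fermat.Agent.S41.H105.range_incl, Subgroup.mem_subgroupOf,
    Fermat.Agent.S20.Comb.mem_Gamma0_iff_dvd]

/-- Distinctness of the cosets `δ² γ⁻¹`, `γ ∈ Γ₀(N q) / Γ₀(N q²)`. -/
theorem prodA_S2 (x y : Gamma0 (N * q) ⧸ (incl (N * q) q).range) (g : Gamma0 N)
    (e : heckeRep q OnePoint.infty * heckeRep q OnePoint.infty * ιN (N * q) (x.out)⁻¹ =
      ιN N g * (heckeRep q OnePoint.infty * heckeRep q OnePoint.infty *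
        ιN (N * q) (y.out)⁻¹)) : x = y := by
  have e2 := rel_mul_inv_two (ι := ιN N) (ι' := ιN (N * q)) e
  have e10 := congrArg (fun M : GL (Fin 2) ℝ => (M : Matrix (Fin 2) (Fin 2) ℝ) 1 0) e2
  simp only [coe_mul_apply, coe_ιN_apply, coe_heckeRep_infty, Matrix.of_apply,
    Matrix.cons_val', Matrix.cons_val_zero, Matrix.cons_val_one, Matrix.cons_val_fin_one,
    zero_mul, one_mul, zero_add, mul_zero, add_zero, mul_one] at e10
  have e10' : (((x.out)⁻¹ * ((y.out)⁻¹)⁻¹ : Gamma0 (N * q)) : SL(2, ℤ)) 1 0 =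
      (g : SL(2, ℤ)) 1 0 * (q * q) := by exact_mod_cast e10
  obtain ⟨k, hk⟩ := (Fermat.Agent.S20.Comb.mem_Gamma0_iff_dvd N _).mp g.2
  have hmem : (x.out)⁻¹ * ((y.out)⁻¹)⁻¹ ∈ (incl (N * q) q).range := by
    refine (mem_range_incl_iff_dvd (N * q) _).mpr ?_
    rw [e10', hk]
    push_cast
    exact ⟨k, by ring⟩
  rw [inv_inv] at hmem
  have h3 := QuotientGroup.eq.mpr hmem
  rwa [QuotientGroup.out_eq', QuotientGroup.out_eq'] at h3

/-- The coset `q = D δ` is none of the cosets `δ² γ⁻¹`. -/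
theorem disA (γ : Gamma0 (N * q)) (g : Gamma0 N) :
    heckeRep q OnePoint.infty * heckeRep q OnePoint.infty * ιN (N * q) γ ≠
      ιN N g * (heckeRep q ((0 : ZMod q) : OnePoint (ZMod q)) * heckeRep q OnePoint.infty) := by
  intro e
  have hqp : q.Prime := Fact.out
  have e10 := congrArg (fun M : GL (Fin 2) ℝ => (M : Matrix (Fin 2) (Fin 2) ℝ) 1 0) e
  have e11 := congrArg (fun M : GL (Fin 2) ℝ => (M : Matrix (Fin 2) (Fin 2) ℝ) 1 1) e
  simp only [coe_mul_apply, coe_ιN_apply, coe_heckeRep_infty, coe_heckeRep_coe, ZMod.val_zero,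
    Nat.cast_zero, Matrix.of_apply,
    Matrix.cons_val', Matrix.cons_val_zero, Matrix.cons_val_one, Matrix.cons_val_fin_one,
    zero_mul, one_mul, zero_add, mul_zero, add_zero, mul_one] at e10 e11
  have e10' : (γ : SL(2, ℤ)) 1 0 = (g : SL(2, ℤ)) 1 0 * q := by exact_mod_cast e10
  have e11' : (γ : SL(2, ℤ)) 1 1 = (g : SL(2, ℤ)) 1 1 * q := by exact_mod_cast e11
  have hdet := (γ : SL(2, ℤ)).det_coe
  rw [Matrix.det_fin_two, e10', e11'] at hdet
  have h1 : (q : ℤ) ∣ 1 := by
    rw [← hdet]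
    exact dvd_sub (dvd_mul_of_dvd_right (dvd_mul_left _ _) _)
      (dvd_mul_of_dvd_right (dvd_mul_left _ _) _)
  have := Int.natCast_dvd_natCast.mp (by simpa using h1 : ((q : ℕ) : ℤ) ∣ ((1 : ℕ) : ℤ))
  exact hqp.one_lt.ne' (Nat.dvd_one.mp this)

/-- Distinctness of the cosets `heckeRep x · d`. -/
theorem prodB_S2 (d : GL (Fin 2) ℝ) (x y : OnePoint (ZMod q)) (g : Gamma0 N)
    (e : heckeRep q x * d = ιN N g * (heckeRep q y * d)) : x = y := by
  rw [← mul_assoc] at e
  have e2 := mul_right_cancel e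
  rw [ιN_apply] at e2
  exact heckeRep_eq_of_mul e2

/-- Distinctness of the cosets `D γ⁻¹`, `γ ∈ Γ₀(N q) / c_δ Γ₀(N q²)`. -/
theorem prodA'_S2 (x y : Gamma0 (N * q) ⧸ (conjDelta (N * q) q).range) (g : Gamma0 N)
    (e : heckeRep q ((0 : ZMod q) : OnePoint (ZMod q)) * ιN (N * q) (x.out)⁻¹ =
      ιN N g * (heckeRep q ((0 : ZMod q) : OnePoint (ZMod q)) *
        ιN (N * q) (y.out)⁻¹)) : x = y := by
  have hqp : q.Prime := Fact.out
  have e2 := rel_mul_inv_two (ι := ιN N) (ι' := ιN (N * q)) e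
  have e01 := congrArg (fun M : GL (Fin 2) ℝ => (M : Matrix (Fin 2) (Fin 2) ℝ) 0 1) e2
  simp only [coe_mul_apply, coe_ιN_apply, coe_heckeRep_coe, ZMod.val_zero, Matrix.of_apply,
    Matrix.cons_val', Matrix.cons_val_zero, Matrix.cons_val_one, Matrix.cons_val_fin_one,
    zero_mul, one_mul, zero_add, mul_zero, add_zero, Nat.cast_zero] at e01
  have e01' : (((x.out)⁻¹ * ((y.out)⁻¹)⁻¹ : Gamma0 (N * q)) : SL(2, ℤ)) 0 1 =
      (g : SL(2, ℤ)) 0 1 * q := by exact_mod_cast e01
  have hmem : (x.out)⁻¹ * ((y.out)⁻¹)⁻¹ ∈ (conjDelta (N * q) q).range :=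
    (Fermat.Agent.S41.H105.mem_range_conjDelta_iff (N * q) hqp.ne_zero _).mpr
      ⟨(g : SL(2, ℤ)) 0 1, by rw [e01', mul_comm]⟩
  rw [inv_inv] at hmem
  have h3 := QuotientGroup.eq.mpr hmem
  rwa [QuotientGroup.out_eq', QuotientGroup.out_eq'] at h3

/-- The coset `δ` is none of the cosets `D γ⁻¹`. -/
theorem disA' (γ : Gamma0 (N * q)) (g : Gamma0 N) :
    heckeRep q ((0 : ZMod q) : OnePoint (ZMod q)) * ιN (N * q) γ ≠
      ιN N g * heckeRep q OnePoint.infty := by
  intro e
  have hqp : q.Prime := Fact.out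
  have e00 := congrArg (fun M : GL (Fin 2) ℝ => (M : Matrix (Fin 2) (Fin 2) ℝ) 0 0) e
  simp only [coe_mul_apply, coe_ιN_apply, coe_heckeRep_infty, coe_heckeRep_coe, ZMod.val_zero,
    Nat.cast_zero, Matrix.of_apply,
    Matrix.cons_val', Matrix.cons_val_zero, Matrix.cons_val_one, Matrix.cons_val_fin_one,
    zero_mul, one_mul, zero_add, mul_zero, add_zero, mul_one] at e00
  have e00' : (γ : SL(2, ℤ)) 0 0 = (g : SL(2, ℤ)) 0 0 * q := by exact_mod_cast e00
  have hqc : (q : ℤ) ∣ (γ : SL(2, ℤ)) 1 0 := by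
    have h := (Fermat.Agent.S20.Comb.mem_Gamma0_iff_dvd (N * q) _).mp γ.2
    exact dvd_trans (by push_cast; exact dvd_mul_left _ _) h
  have hdet := (γ : SL(2, ℤ)).det_coe
  rw [Matrix.det_fin_two, e00'] at hdet
  have h1 : (q : ℤ) ∣ 1 := by
    rw [← hdet]
    exact dvd_sub (dvd_mul_of_dvd_left (dvd_mul_left _ _) _) (dvd_mul_of_dvd_right hqc _)
  have := Int.natCast_dvd_natCast.mp (by simpa using h1 : ((q : ℕ) : ℤ) ∣ ((1 : ℕ) : ℤ))
  exact hqp.one_lt.ne' (Nat.dvd_one.mp this)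

/-! ### Cardinalities -/

theorem card_onePoint_zmod : Fintype.card (OnePoint (ZMod q)) = q + 1 := by
  have h : Fintype.card (OnePoint (ZMod q)) = Fintype.card (Option (ZMod q)) := rfl
  rw [h, Fintype.card_option, ZMod.card]

variable {A : Type*} [AddCommGroup A]

/-! ### The relations -/

/-- `t₁' r₂' r₂ + r₁ = r₂ T_q`. -/
theorem t1_r2_r2 (hq : ¬ q ∣ N) (hN : N ≠ 0) (φ : Additive (Gamma0 N) →+ A) :
    t₁ (N * q) q (r₂ (N * q) q (r₂ N q φ)) + r₁ N q φ = r₂ N q (heckeTransfer hq φ) := by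
  have hqp : q.Prime := Fact.out
  have hM : N * q ≠ 0 := Nat.mul_ne_zero hN hqp.ne_zero
  have hidx : (incl (N * q) q).range.index = q :=
    index_range_incl_of_dvd hM hqp (dvd_mul_left q N)
  have : (incl (N * q) q).range.FiniteIndex := ⟨by rw [hidx]; exact hqp.ne_zero⟩
  let _ : Fintype (Gamma0 (N * q) ⧸ (incl (N * q) q).range) :=
    (incl (N * q) q).range.fintypeQuotientOfFiniteIndex
  -- the systems
  have hsA1 := IsCosetSystem.single (ι := ιN N) (ι' := (ιN (N * q)).comp (incl (N * q) q))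
    (ιN_injective N) ((conjDelta N q).comp (conjDelta (N * q) q))
    (heckeRep q OnePoint.infty * heckeRep q OnePoint.infty) dd_rel
  have hsT := IsCosetSystem.ofTransfer (incl (N * q) q)
    (Fermat.Agent.S41.H105.incl_injective (N * q) q) (ιN (N * q)) (ιN_injective (N * q))
  have hprodA := hsA1.prod hsT (fun _ _ x y g e => ⟨rfl, prodA_S2 x y g e⟩)
  have hsA2 := IsCosetSystem.single (ι := ιN N) (ι' := ιN (N * q)) (ιN_injective N)
    (incl N q) (heckeRep q ((0 : ZMod q) : OnePoint (ZMod q)) * heckeRep q OnePoint.infty)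
    Dd_rel
  have hsA := cosetSystem_sum hprodA hsA2 (fun i _ g => disA _ g)
  have hsR2 := IsCosetSystem.single (ι := ιN N) (ι' := ιN (N * q)) (ιN_injective N)
    (conjDelta N q) (heckeRep q OnePoint.infty) r2_rel_std
  have hprodB := (heckeSystem hq).prod hsR2
    (fun x y _ _ g e => ⟨prodB_S2 (heckeRep q OnePoint.infty) x y g e, rfl⟩)
  -- the three transfers
  have hL1 : t₁ (N * q) q (r₂ (N * q) q (r₂ N q φ)) = hprodA.transfer φ := by
    show transferAlong (incl (N * q) q) (r₂ (N * q) q (r₂ N q φ)) = _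
    rw [transferAlong_eq (incl (N * q) q) (Fermat.Agent.S41.H105.incl_injective (N * q) q)
      (ιN (N * q)) (ιN_injective (N * q))]
    have hr : r₂ (N * q) q (r₂ N q φ) = hsA1.transfer φ :=
      (IsCosetSystem.single_transfer (ι := ιN N) (ι' := (ιN (N * q)).comp (incl (N * q) q))
        (ιN_injective N) ((conjDelta N q).comp (conjDelta (N * q) q))
        (heckeRep q OnePoint.infty * heckeRep q OnePoint.infty) dd_rel φ).symm
    rw [hr, IsCosetSystem.transfer_comp hsA1 hsT hprodA]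
  have hL2 : r₁ N q φ = hsA2.transfer φ :=
    (IsCosetSystem.single_transfer (ι := ιN N) (ι' := ιN (N * q)) (ιN_injective N)
      (incl N q) (heckeRep q ((0 : ZMod q) : OnePoint (ZMod q)) * heckeRep q OnePoint.infty)
      Dd_rel φ).symm
  have hR : r₂ N q (heckeTransfer hq φ) = hprodB.transfer φ := by
    rw [heckeTransfer_eq_transfer, ← IsCosetSystem.transfer_comp (heckeSystem hq) hsR2 hprodB]
    exact (IsCosetSystem.single_transfer (ι := ιN N) (ι' := ιN (N * q)) (ιN_injective N)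
      (conjDelta N q) (heckeRep q OnePoint.infty) r2_rel_std _).symm
  rw [hL1, hL2, ← cosetSystem_sum_transfer hprodA hsA2 hsA φ, hR]
  refine transfer_eq_of_le_of_card hsA hprodB ?_ ?_ φ
  · rintro (⟨_, x⟩ | _)
    · refine ⟨(hPerm q ((conjDelta N q (x.out)⁻¹ : Gamma0 N) : SL(2, ℤ)) OnePoint.infty, ()),
        hElt hq (conjDelta N q (x.out)⁻¹) OnePoint.infty, ?_⟩
      show heckeRep q OnePoint.infty * heckeRep q OnePoint.infty * ιN (N * q) (x.out)⁻¹ =
        ιN N (hElt hq (conjDelta N q (x.out)⁻¹) OnePoint.infty) *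
          (heckeRep q (hPerm q ((conjDelta N q (x.out)⁻¹ : Gamma0 N) : SL(2, ℤ))
            OnePoint.infty) * heckeRep q OnePoint.infty)
      rw [mul_assoc, r2_rel_std, ← mul_assoc, heckeSystem_spec hq, mul_assoc]
    · refine ⟨(((0 : ZMod q) : OnePoint (ZMod q)), ()), 1, ?_⟩
      show heckeRep q ((0 : ZMod q) : OnePoint (ZMod q)) * heckeRep q OnePoint.infty =
        ιN N 1 * (heckeRep q ((0 : ZMod q) : OnePoint (ZMod q)) * heckeRep q OnePoint.infty)
      rw [map_one, one_mul]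
  · have hc : Fintype.card (Gamma0 (N * q) ⧸ (incl (N * q) q).range) = q := by
      rw [← Nat.card_eq_fintype_card]
      exact hidx
    rw [Fintype.card_prod, Fintype.card_sum, Fintype.card_prod, Fintype.card_unit, hc,
      card_onePoint_zmod]
    omega

/-- `t₂' r₁' r₁ + r₂ = r₁ T_q`. -/
theorem t2_r1_r1 (hq : ¬ q ∣ N) (φ : Additive (Gamma0 N) →+ A) :
    t₂ (N * q) q (r₁ (N * q) q (r₁ N q φ)) + r₂ N q φ = r₁ N q (heckeTransfer hq φ) := by
  have hqp : q.Prime := Fact.out
  have hidx : (conjDelta (N * q) q).range.index = q :=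
    index_range_conjDelta_of_dvd hqp (dvd_mul_left q N)
  have : (conjDelta (N * q) q).range.FiniteIndex := ⟨by rw [hidx]; exact hqp.ne_zero⟩
  let _ : Fintype (Gamma0 (N * q) ⧸ (conjDelta (N * q) q).range) :=
    (conjDelta (N * q) q).range.fintypeQuotientOfFiniteIndex
  have hinj := Fermat.Agent.S41.H105.conjDelta_injective (N * q) hqp.ne_zero
  -- the systems
  have hsA1 := IsCosetSystem.single (ι := ιN N) (ι' := (ιN (N * q)).comp (conjDelta (N * q) q))
    (ιN_injective N) ((incl N q).comp (incl (N * q) q))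
    (heckeRep q ((0 : ZMod q) : OnePoint (ZMod q))) D_rel
  have hsT := IsCosetSystem.ofTransfer (conjDelta (N * q) q) hinj (ιN (N * q))
    (ιN_injective (N * q))
  have hprodA := hsA1.prod hsT (fun _ _ x y g e => ⟨rfl, prodA'_S2 x y g e⟩)
  have hsA2 := IsCosetSystem.single (ι := ιN N) (ι' := ιN (N * q)) (ιN_injective N)
    (conjDelta N q) (heckeRep q OnePoint.infty) r2_rel_std
  have hsA := cosetSystem_sum hprodA hsA2 (fun i _ g => disA' _ g)
  have hsR1 := IsCosetSystem.single (ι := ιN N) (ι' := ιN (N * q)) (ιN_injective N)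
    (incl N q) (1 : GL (Fin 2) ℝ) one_rel
  have hprodB := (heckeSystem hq).prod hsR1
    (fun x y _ _ g e => ⟨prodB_S2 (1 : GL (Fin 2) ℝ) x y g e, rfl⟩)
  -- the three transfers
  have hL1 : t₂ (N * q) q (r₁ (N * q) q (r₁ N q φ)) = hprodA.transfer φ := by
    show transferAlong (conjDelta (N * q) q) (r₁ (N * q) q (r₁ N q φ)) = _
    rw [transferAlong_eq (conjDelta (N * q) q) hinj (ιN (N * q)) (ιN_injective (N * q))]
    have hr : r₁ (N * q) q (r₁ N q φ) = hsA1.transfer φ :=
      (IsCosetSystem.single_transfer (ι := ιN N)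
        (ι' := (ιN (N * q)).comp (conjDelta (N * q) q))
        (ιN_injective N) ((incl N q).comp (incl (N * q) q))
        (heckeRep q ((0 : ZMod q) : OnePoint (ZMod q))) D_rel φ).symm
    rw [hr, IsCosetSystem.transfer_comp hsA1 hsT hprodA]
  have hL2 : r₂ N q φ = hsA2.transfer φ :=
    (IsCosetSystem.single_transfer (ι := ιN N) (ι' := ιN (N * q)) (ιN_injective N)
      (conjDelta N q) (heckeRep q OnePoint.infty) r2_rel_std φ).symm
  have hR : r₁ N q (heckeTransfer hq φ) = hprodB.transfer φ := by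
    rw [heckeTransfer_eq_transfer, ← IsCosetSystem.transfer_comp (heckeSystem hq) hsR1 hprodB]
    exact (IsCosetSystem.single_transfer (ι := ιN N) (ι' := ιN (N * q)) (ιN_injective N)
      (incl N q) (1 : GL (Fin 2) ℝ) one_rel _).symm
  rw [hL1, hL2, ← cosetSystem_sum_transfer hprodA hsA2 hsA φ, hR]
  refine transfer_eq_of_le_of_card hsA hprodB ?_ ?_ φ
  · rintro (⟨_, x⟩ | _)
    · refine ⟨(hPerm q ((incl N q (x.out)⁻¹ : Gamma0 N) : SL(2, ℤ))
          ((0 : ZMod q) : OnePoint (ZMod q)), ()),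
        hElt hq (incl N q (x.out)⁻¹) ((0 : ZMod q) : OnePoint (ZMod q)), ?_⟩
      show heckeRep q ((0 : ZMod q) : OnePoint (ZMod q)) * ιN (N * q) (x.out)⁻¹ =
        ιN N (hElt hq (incl N q (x.out)⁻¹) ((0 : ZMod q) : OnePoint (ZMod q))) *
          (heckeRep q (hPerm q ((incl N q (x.out)⁻¹ : Gamma0 N) : SL(2, ℤ))
            ((0 : ZMod q) : OnePoint (ZMod q))) * 1)
      rw [mul_one, ← ιN_incl, heckeSystem_spec hq]
    · refine ⟨(OnePoint.infty, ()), 1, ?_⟩
      show heckeRep q OnePoint.infty = ιN N 1 * (heckeRep q OnePoint.infty * 1)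
      rw [map_one, one_mul, mul_one]
  · have hc : Fintype.card (Gamma0 (N * q) ⧸ (conjDelta (N * q) q).range) = q := by
      rw [← Nat.card_eq_fintype_card]
      exact hidx
    rw [Fintype.card_prod, Fintype.card_sum, Fintype.card_prod, Fintype.card_unit, hc,
      card_onePoint_zmod]
    omega

/-- `t₁' r₁' = q`. -/
theorem t1_r1_stage2 (hN : N ≠ 0) (ψ : Additive (Gamma0 (N * q)) →+ A) :
    t₁ (N * q) q (r₁ (N * q) q ψ) = q • ψ := by
  have hqp : q.Prime := Fact.out
  have hM : N * q ≠ 0 := Nat.mul_ne_zero hN hqp.ne_zero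
  have hidx : (incl (N * q) q).range.index = q :=
    index_range_incl_of_dvd hM hqp (dvd_mul_left q N)
  have hf : (incl (N * q) q).range.FiniteIndex := ⟨by rw [hidx]; exact hqp.ne_zero⟩
  show transferAlong (incl (N * q) q) (ψ.comp (MonoidHom.toAdditive (incl (N * q) q))) = q • ψ
  rw [Fermat.Agent.S41.H105.transferAlong_comp (incl (N * q) q)
    (Fermat.Agent.S41.H105.incl_injective (N * q) q) hf ψ, hidx]

/-- `t₂' r₂' = q`. -/
theorem t2_r2_stage2 (ψ : Additive (Gamma0 (N * q)) →+ A) :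
    t₂ (N * q) q (r₂ (N * q) q ψ) = q • ψ := by
  have hqp : q.Prime := Fact.out
  have hidx : (conjDelta (N * q) q).range.index = q :=
    index_range_conjDelta_of_dvd hqp (dvd_mul_left q N)
  have hf : (conjDelta (N * q) q).range.FiniteIndex := ⟨by rw [hidx]; exact hqp.ne_zero⟩
  show transferAlong (conjDelta (N * q) q)
    (ψ.comp (MonoidHom.toAdditive (conjDelta (N * q) q))) = q • ψ
  rw [Fermat.Agent.S41.H105.transferAlong_comp (conjDelta (N * q) q)
    (Fermat.Agent.S41.H105.conjDelta_injective (N * q) hqp.ne_zero) hf ψ, hidx]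

end HK2

/-- **Leaf HK2 of cell NM (row S59)**: the Betti relations of the second stage. -/
theorem hk2 : Fermat.Agent.S59.NM.HK2Statement := by
  intro N q _ hq hN A _
  refine ⟨fun φ => ⟨r2_r1_eq φ, ?_, ?_⟩, fun ψ => ⟨t1_r1_stage2 hN ψ, t2_r2_stage2 ψ⟩⟩
  · rw [← t1_r2_r2 hq hN φ, add_sub_cancel_right]
  · rw [← t2_r1_r1 hq φ, add_sub_cancel_right]

end Fermat.Agent.S59.H202

end
-- ===== PACK-END S59/H202/HK2.lean

-- ===== PACK-BEGIN S59/H563/OldSpec.lean
section




/-!
# Row S59, cell NM, leaf NM-OLD (`NM.OldStatement`) — frozen sub-interface (helper563)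

Route (memo in the notes table, stmt S59, kind `spec`, seat helper563):

* `OldDescentStatement`  : `K → ℂ` (countable subfield, embedding into `ℂ`, linear retraction);
* `OldPeriodStatement`, `OldInvolutionStatement` : the period map and the involution `ι` are
  compatible with the degeneracy maps `r₁, r₂` (Eichler–Shimura transport);
* `OldSSStatement`       : `T_l` is semisimple on `S₂(Γ₀(N))` (Petersson, `S31/H862`);
* `OldLiftStatement`     : linear algebra — eigenvectors lift along an equivariant map when the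
  source is semisimple at the eigenvalue;
* `OldFormsStatement`    : Atkin–Lehner–Li on forms (`Lib/Newform`): an eigenform of level
  `N q²` away from `S ∪ {q}` whose system occurs in level `N` is `h₁(τ) + h₂(qτ) + h₃(q²τ)`.

Only definitions here.
-/

set_option autoImplicit false

open CongruenceSubgroup ModularCurve ModularCurve.Period
open scoped MatrixGroups

namespace Fermat.Agent.S59.H563

open Fermat.Agent.S59.NM Fermat.Agent.S41.Spec Fermat.Agent.S29.H642

/-- **OLD over `ℂ`**: `NM.OldStatement` for `K = ℂ`. -/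
def OldCStatement : Prop :=
  ∀ (N q : ℕ), N ≠ 0 → q.Prime → ¬ q ∣ N →
    ∀ (S : Finset ℕ), q ∉ S → (∀ r : ℕ, r.Prime → r ∣ N → r ∈ S) →
    ∀ (a : ℕ → ℂ),
      (∃ x : Additive (Gamma0 N) →+ ℂ, x ≠ 0 ∧ IsEigenclass N S a x) →
      ∀ y : Additive (Gamma0 (N * q * q)) →+ ℂ, IsEigenclass (N * q * q) (insert q S) a y →
        ∃ z₁ z₂ z₃ : Additive (Gamma0 N) →+ ℂ,
          IsEigenclass N S a z₁ ∧ IsEigenclass N S a z₂ ∧ IsEigenclass N S a z₃ ∧
          y = P₁ N q z₁ + P₂ N q z₂ + P₃ N q z₃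

/-- **OLD-DESCENT**: the statement over `ℂ` implies the statement over every field of
characteristic `0`.  (Take the countable subfield `K₀ ⊆ K` generated by the values of `y` and the
`a l`; replace `x` by `λ ∘ x`, `λ : K → K₀` a `K₀`-linear retraction with `λ ∘ x ≠ 0`... or enlarge
`K₀` by the values of `x`; embed `K₀ ↪ ℂ`; apply the statement over `ℂ`; compose the `z_i` with a
`K₀`-linear retraction `ℂ → K₀`.  All operators commute with post-composition by additive maps:
`H642.heckeTransfer_comp`, HK-0.) -/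
def OldDescentStatement : Prop := OldCStatement → OldStatement

/-- **OLD-PER**: the period map is compatible with the two degeneracy maps:
`P(f at level N q) = r₁ P(f)` and `q • P(f(q τ)) = r₂ P(f)`. -/
def OldPeriodStatement : Prop :=
  ∀ (N q : ℕ) [NeZero N] [NeZero q] (f : CuspForm (Gamma0 N) 2)
    (g : CuspForm (Gamma0 (N * q)) 2),
    ((∀ τ : UpperHalfPlane, g τ = f τ) →
      periodMap (N * q) g = r₁ N q (periodMap N f)) ∧
    ((∀ τ : UpperHalfPlane, g τ = f (ModularForm.heckeDiagMatrix q • τ)) →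
      (q : ℂ) • periodMap (N * q) g = r₂ N q (periodMap N f))

/-- **OLD-INV**: the involution `ι` (conjugation by `diag(1, -1)`) commutes with `r₁, r₂`. -/
def OldInvolutionStatement : Prop :=
  ∀ (N q : ℕ) (φ : Additive (Gamma0 N) →+ ℂ),
    charInvolution (N * q) ℂ ℂ (r₁ N q φ) = r₁ N q (charInvolution N ℂ ℂ φ) ∧
    charInvolution (N * q) ℂ ℂ (r₂ N q φ) = r₂ N q (charInvolution N ℂ ℂ φ)

/-- **OLD-SS**: `T_l` (`l ∤ N`) is semisimple on `S₂(Γ₀(N))`: `(T_l - c)² h = 0 ⇒ (T_l - c) h = 0`.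
(Self-adjointness for the Petersson product: `Fermat.Agent.S31.H862.isSA_heckeTLin`,
`eq_zero_of_petC_self`, `petC_conj`.) -/
def OldSSStatement : Prop :=
  ∀ (N : ℕ) [NeZero N] (l : ℕ) (hl : l.Prime) (hlN : ¬ l ∣ N) (c : ℂ)
    (h : CuspForm (Gamma0 N) 2),
    CuspForm.heckeTLin 2 hl hlN (CuspForm.heckeTLin 2 hl hlN h - c • h) =
      c • (CuspForm.heckeTLin 2 hl hlN h - c • h) →
    CuspForm.heckeTLin 2 hl hlN h = c • h

/-- **OLD-LIFT** (linear algebra): `S j` commuting endomorphisms of a finite-dimensional space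
`V`, semisimple at the eigenvalues `a j`; `Φ : V → W` equivariant.  If `Φ v` is an eigenvector of
the `T j` with eigenvalues `a j`, then `Φ v = Φ e` for an eigenvector `e` of the `S j`. -/
def OldLiftStatement : Prop :=
  ∀ (V W : Type) [AddCommGroup V] [Module ℂ V] [FiniteDimensional ℂ V]
    [AddCommGroup W] [Module ℂ W] (J : Type)
    (S : J → Module.End ℂ V) (T : J → Module.End ℂ W) (Φ : V →ₗ[ℂ] W),
    (∀ i j, Commute (S i) (S j)) → (∀ j v, Φ (S j v) = T j (Φ v)) →
    ∀ a : J → ℂ,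
      (∀ j v, S j (S j v - a j • v) = a j • (S j v - a j • v) → S j v = a j • v) →
      ∀ v : V, (∀ j, T j (Φ v) = a j • Φ v) →
        ∃ e : V, (∀ j, S j e = a j • e) ∧ Φ e = Φ v

/-- **OLD-FORMS** (Atkin–Lehner–Li): forms side of `OldCStatement`. -/
def OldFormsStatement : Prop :=
  ∀ (N q : ℕ) [NeZero N] [NeZero q] [NeZero (N * q * q)], q.Prime → ¬ q ∣ N →
    ∀ (S : Finset ℕ), q ∉ S → (∀ r : ℕ, r.Prime → r ∣ N → r ∈ S) →
    ∀ (a : ℕ → ℂ),
      (∃ G : CuspForm (Gamma0 N) 2, G ≠ 0 ∧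
        ∀ (l : ℕ) (hl : l.Prime) (hlN : ¬ l ∣ N), l ∉ S →
          CuspForm.heckeTLin 2 hl hlN G = a l • G) →
      ∀ F : CuspForm (Gamma0 (N * q * q)) 2,
        (∀ (l : ℕ) (hl : l.Prime) (hlN : ¬ l ∣ N * q * q), l ∉ insert q S →
          CuspForm.heckeTLin 2 hl hlN F = a l • F) →
        ∃ h₁ h₂ h₃ : CuspForm (Gamma0 N) 2,
          (∀ (l : ℕ) (hl : l.Prime) (hlN : ¬ l ∣ N), l ∉ S →
            CuspForm.heckeTLin 2 hl hlN h₁ = a l • h₁) ∧
          (∀ (l : ℕ) (hl : l.Prime) (hlN : ¬ l ∣ N), l ∉ S →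
            CuspForm.heckeTLin 2 hl hlN h₂ = a l • h₂) ∧
          (∀ (l : ℕ) (hl : l.Prime) (hlN : ¬ l ∣ N), l ∉ S →
            CuspForm.heckeTLin 2 hl hlN h₃ = a l • h₃) ∧
          ∀ τ : UpperHalfPlane, F τ = h₁ τ + h₂ (ModularForm.heckeDiagMatrix q • τ) +
            h₃ (ModularForm.heckeDiagMatrix q • (ModularForm.heckeDiagMatrix q • τ))

end Fermat.Agent.S59.H563

end
-- ===== PACK-END S59/H563/OldSpec.lean

-- ===== PACK-BEGIN S59/H563/OldPer.lean
section




/-!
# NM-OLD, Eichler–Shimura transport (helper563): `OldPeriodStatement`, `OldInvolutionStatement`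

The period map and the involution `ι` are compatible with the degeneracy maps `r₁, r₂`.
-/

set_option autoImplicit false

open CongruenceSubgroup ModularCurve ModularCurve.Period Matrix.SpecialLinearGroup
open UpperHalfPlane hiding I
open scoped MatrixGroups ModularForm Manifold

namespace Fermat.Agent.S59.H563

open Fermat.Agent.S59.NM Fermat.Agent.S41.Spec Fermat.Agent.S29.H642

/-- `diag(q, 1) γ = c_δ(γ) diag(q, 1)`. -/
theorem heckeDiag_mul_conjDelta563 (N q : ℕ) (hq : q ≠ 0) (γ : Gamma0 (N * q)) :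
    ModularForm.heckeDiagMatrix q * mapGL ℝ (γ : SL(2, ℤ)) =
      mapGL ℝ ((conjDelta N q γ : Gamma0 N) : SL(2, ℤ)) * ModularForm.heckeDiagMatrix q := by
  obtain ⟨k, hk⟩ := (dvd_of_mem_gamma0_mul γ).1
  have hq' : (q : ℤ) ≠ 0 := by exact_mod_cast hq
  have h10 : ((conjDelta N q γ : Gamma0 N) : SL(2, ℤ)) 1 0 = k := by
    show conjDeltaMatrix q (γ : SL(2, ℤ)) 1 0 = k
    simp [conjDeltaMatrix, hk, Int.mul_ediv_cancel_left _ hq']
  have h00 : ((conjDelta N q γ : Gamma0 N) : SL(2, ℤ)) 0 0 = (γ : SL(2, ℤ)) 0 0 := by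
    show conjDeltaMatrix q (γ : SL(2, ℤ)) 0 0 = _
    simp [conjDeltaMatrix]
  have h01 : ((conjDelta N q γ : Gamma0 N) : SL(2, ℤ)) 0 1 = q * (γ : SL(2, ℤ)) 0 1 := by
    show conjDeltaMatrix q (γ : SL(2, ℤ)) 0 1 = _
    simp [conjDeltaMatrix]
  have h11 : ((conjDelta N q γ : Gamma0 N) : SL(2, ℤ)) 1 1 = (γ : SL(2, ℤ)) 1 1 := by
    show conjDeltaMatrix q (γ : SL(2, ℤ)) 1 1 = _
    simp [conjDeltaMatrix]
  ext i j
  fin_cases i <;> fin_cases j <;>
    simp [hq, Matrix.mul_apply, Fin.sum_univ_two, h00, h01, h10, h11, hk]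
  all_goals ring

/-- **OLD-PER.** -/
theorem oldPeriod563 : OldPeriodStatement := by
  intro N q _ _ f g
  have hq0 : q ≠ 0 := NeZero.ne q
  haveI : NeZero (N * q) := ⟨Nat.mul_ne_zero (NeZero.ne N) hq0⟩
  obtain ⟨F, hF⟩ := Fermat.Agent.S21.H381.exists_hasEquivariantPrimitive f
  obtain ⟨G, hG⟩ := Fermat.Agent.S21.H381.exists_hasEquivariantPrimitive g
  constructor
  · intro hgf
    refine AddMonoidHom.ext fun γ' => ?_
    obtain ⟨γ, rfl⟩ : ∃ γ : Gamma0 (N * q), Additive.ofMul γ = γ' := ⟨Additive.toMul γ', rfl⟩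
    have hFd : ∀ τ : ℍ, HasDerivAt (F ∘ ofComplex) (g τ) ↑τ := fun τ => by
      rw [hgf τ]; exact hF.1 τ
    have hconst := Fermat.Agent.S21.H381.sub_const_of_hasDerivAt hG.1 hFd
      ((γ : SL(2, ℤ)) • UpperHalfPlane.I) UpperHalfPlane.I
    rw [Fermat.Agent.S21.H381.periodMap_apply hG γ UpperHalfPlane.I]
    show _ = periodMap N f (Additive.ofMul (incl N q γ))
    rw [Fermat.Agent.S21.H381.periodMap_apply hF (incl N q γ) UpperHalfPlane.I]
    show _ = F ((γ : SL(2, ℤ)) • UpperHalfPlane.I) - F UpperHalfPlane.I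
    linear_combination hconst
  · intro hgf
    refine AddMonoidHom.ext fun γ' => ?_
    obtain ⟨γ, rfl⟩ : ∃ γ : Gamma0 (N * q), Additive.ofMul γ = γ' := ⟨Additive.toMul γ', rfl⟩
    have hqC : (q : ℂ) ≠ 0 := Nat.cast_ne_zero.mpr hq0
    -- the explicit primitive of `q • g`
    set FT : ℍ → ℂ := fun w => F (ModularForm.heckeDiagMatrix q • w) with hFT
    have hpos : 0 < ((ModularForm.heckeDiagMatrix q : GL (Fin 2) ℝ) :
        Matrix (Fin 2) (Fin 2) ℝ).det := by
      have := ModularForm.det_heckeDiagMatrix_pos q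
      rwa [Matrix.GeneralLinearGroup.val_det_apply] at this
    have hFTd : ∀ τ : ℍ, HasDerivAt (FT ∘ ofComplex) ((q : ℂ) * g τ) ↑τ := by
      intro τ
      have h1 := hasDerivAt_comp_smul_GL hF.1 (ModularForm.heckeDiagMatrix q) hpos τ
      rw [ModularForm.slash_heckeDiagMatrix_apply 2 hq0] at h1
      rw [hgf τ]
      have e : ((q : ℂ) ^ ((2 : ℤ) - 1)) = (q : ℂ) := by norm_num
      rw [e] at h1
      exact h1
    have hGd : ∀ τ : ℍ, HasDerivAt (((q : ℂ) • G) ∘ ofComplex) ((q : ℂ) * g τ) ↑τ := by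
      intro τ
      have := (hG.1 τ).const_smul (q : ℂ)
      exact this
    have hconst := Fermat.Agent.S21.H381.sub_const_of_hasDerivAt hGd hFTd
      ((γ : SL(2, ℤ)) • UpperHalfPlane.I) UpperHalfPlane.I
    rw [AddMonoidHom.smul_apply, Fermat.Agent.S21.H381.periodMap_apply hG γ UpperHalfPlane.I]
    show _ = periodMap N f (Additive.ofMul (conjDelta N q γ))
    rw [Fermat.Agent.S21.H381.periodMap_apply hF (conjDelta N q γ)
      (ModularForm.heckeDiagMatrix q • UpperHalfPlane.I)]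
    have e1 : ModularForm.heckeDiagMatrix q • ((γ : SL(2, ℤ)) • UpperHalfPlane.I)
        = ((conjDelta N q γ : Gamma0 N) : SL(2, ℤ)) •
            (ModularForm.heckeDiagMatrix q • UpperHalfPlane.I) := by
      show ModularForm.heckeDiagMatrix q • (mapGL ℝ (γ : SL(2, ℤ)) • UpperHalfPlane.I)
        = mapGL ℝ ((conjDelta N q γ : Gamma0 N) : SL(2, ℤ)) •
            (ModularForm.heckeDiagMatrix q • UpperHalfPlane.I)
      rw [← mul_smul, ← mul_smul, heckeDiag_mul_conjDelta563 N q hq0 γ]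
    rw [← e1]
    simp only [Pi.smul_apply, smul_eq_mul, hFT] at hconst ⊢
    linear_combination hconst

/-- **OLD-INV.** -/
theorem oldInvolution563 : OldInvolutionStatement := by
  intro N q φ
  refine ⟨?_, ?_⟩
  · refine AddMonoidHom.ext fun γ' => ?_
    obtain ⟨γ, rfl⟩ : ∃ γ : Gamma0 (N * q), Additive.ofMul γ = γ' := ⟨Additive.toMul γ', rfl⟩
    show φ (Additive.ofMul (incl N q (jConjGamma0 (N * q) γ))) =
      φ (Additive.ofMul (jConjGamma0 N (incl N q γ)))
    rw [Fermat.Agent.S41.H863.incl_jConj]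
  · refine AddMonoidHom.ext fun γ' => ?_
    obtain ⟨γ, rfl⟩ : ∃ γ : Gamma0 (N * q), Additive.ofMul γ = γ' := ⟨Additive.toMul γ', rfl⟩
    show φ (Additive.ofMul (conjDelta N q (jConjGamma0 (N * q) γ))) =
      φ (Additive.ofMul (jConjGamma0 N (conjDelta N q γ)))
    rw [Fermat.Agent.S41.H863.conjDelta_jConj]

end Fermat.Agent.S59.H563

end
-- ===== PACK-END S59/H563/OldPer.lean

-- ===== PACK-BEGIN Lib/Frob23/ManinSub.lean
section



/-!
# Manin's exact-height argument in long Weierstrass form, any characteristic (helper472)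

`F` a finite field with `q` elements, `W` a Weierstrass curve over `F` with `Δ ≠ 0`.
On the subgroup `antiSub W` of `W(KK W)` of points anti-invariant under the hyperelliptic
involution:

* the exact degree height `H311.hgt` satisfies the parallelogram law;
* `h (Φ Q) = q · h Q`;
* given polynomials `s, t` with `V^q - negY U V = s(U) V + t(U)` on the curve and
  `2 t - s (a₁ X + a₃) + a₁ (X^q - X) = 0`, the `x`-coordinate of `Φ Q - Q` is Manin's function
  `maninR = N / (X^q - X)²`, `N = s² g + s t L - t² - (a₂ + X^q + X)(X^q - X)²`, of `x(Q)`, hence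
  `h (Φ Q - Q) = ratDeg maninR · h Q`;
* consequently `Φ² - a Φ + q = 0` on `W(L)` for every field `L ⊇ F`, with
  `a = q + 1 - ratDeg maninR`  (`frobPsi_eq_zero_of_data`).
-/

set_option autoImplicit false
set_option linter.unusedSectionVars false

open WeierstrassCurve Polynomial
open scoped Polynomial.Bivariate WeierstrassCurve.Affine

namespace Fermat.Agent.Lib.Frob23

open Fermat.Agent.Lib.FrobRel Fermat.Agent.S52

universe u

variable {F : Type u} [Field F] (W : WeierstrassCurve F) [DecidableEq (KK W)]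

/-- the action of the hyperelliptic involution on points -/
noncomputable def involPt : (W⁄(KK W)).Point →+ (W⁄(KK W)).Point :=
  Affine.Point.map (W' := W) (S := F) (invol W)

/-- **The Manin subgroup**: points anti-invariant under the hyperelliptic involution. -/
noncomputable def antiSub : AddSubgroup (W⁄(KK W)).Point :=
  (involPt W + AddMonoidHom.id _).ker

variable {W}

lemma mem_antiSub {P : (W⁄(KK W)).Point} : P ∈ antiSub W ↔ involPt W P = -P := by
  rw [antiSub, AddMonoidHom.mem_ker, AddMonoidHom.add_apply, AddMonoidHom.id_apply,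
    add_eq_zero_iff_eq_neg]

lemma involPt_some {x y : KK W} (h : (W⁄(KK W)).Nonsingular x y) :
    ∃ h' : (W⁄(KK W)).Nonsingular (invol W x) (invol W y),
      involPt W (Affine.Point.some x y h) = Affine.Point.some (invol W x) (invol W y) h' :=
  ⟨_, rfl⟩

lemma invol_x_of_mem {x y : KK W} {h : (W⁄(KK W)).Nonsingular x y}
    (hP : Affine.Point.some x y h ∈ antiSub W) : invol W x = x := by
  rw [mem_antiSub] at hP
  obtain ⟨h', e⟩ := involPt_some h
  rw [e, Affine.Point.neg_some] at hP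
  exact ((Affine.Point.some.injEq ..).mp hP).1

variable (W) in
lemma generic_mem_antiSub (hΔ : (W⁄F).Δ ≠ 0) : H230.genericPoint W F hΔ ∈ antiSub W := by
  rw [mem_antiSub, H230.genericPoint, Affine.Point.neg_some]
  obtain ⟨h', e⟩ := involPt_some (H230.generic_nonsingular W F hΔ)
  rw [e]
  congr 1
  · exact invol_gx W
  · rw [invol, H230.sigma_gy]

/-! ### The height on the Manin subgroup -/

lemma isXRep_of_x {x y : KK W} (h : (W⁄(KK W)).Nonsingular x y) (u : RatFunc F)
    (hx : x = iR W u) :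
    H311.IsXRep (jX W) (Affine.Point.some x y h) u.num u.denom := by
  refine H311.isXRep_some h u.isCoprime_num_denom ?_ ?_
  · exact (map_ne_zero_iff _ (jX_injective W)).mpr u.denom_ne_zero
  · rw [hx, ← iR_algebraMap, ← iR_algebraMap, ← map_mul]
    congr 1
    have hd : algebraMap F[X] (RatFunc F) u.denom ≠ 0 :=
      RatFunc.algebraMap_ne_zero u.denom_ne_zero
    have := RatFunc.num_div_denom u
    rw [div_eq_iff hd] at this
    exact this.symm

lemma hgt_of_x {x y : KK W} (h : (W⁄(KK W)).Nonsingular x y) (u : RatFunc F)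
    (hx : x = iR W u) :
    H311.hgt (jX W) (Affine.Point.some x y h) = H621.ratDeg u := by
  rw [H311.hgt_eq (jX_injective W) (isXRep_of_x h u hx)]
  rfl

lemma hgt_zero' : H311.hgt (jX W) (0 : (W⁄(KK W)).Point) = 0 :=
  H311.hgt_zero (jX_injective W)

/-- points of the Manin subgroup are `O` or have `x`-coordinate in `F(X)` -/
lemma eq_zero_or_of_mem (hΔ : W.Δ ≠ 0) {P : (W⁄(KK W)).Point} (hP : P ∈ antiSub W) :
    P = 0 ∨ ∃ (u : RatFunc F) (y : KK W) (h : (W⁄(KK W)).Nonsingular (iR W u) y),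
      P = Affine.Point.some (iR W u) y h := by
  rcases P with _ | ⟨x, y, h⟩
  · exact Or.inl rfl
  · right
    obtain ⟨u, hu⟩ := exists_iR_eq_of_invol_eq W hΔ x (invol_x_of_mem hP)
    subst hu
    exact ⟨u, y, h, rfl⟩

lemma exists_isXRep_of_mem (hΔ : W.Δ ≠ 0) {P : (W⁄(KK W)).Point} (hP : P ∈ antiSub W) :
    ∃ a b, H311.IsXRep (jX W) P a b := by
  rcases eq_zero_or_of_mem hΔ hP with rfl | ⟨u, y, h, rfl⟩
  · exact ⟨1, 0, H311.isXRep_zero⟩
  · exact ⟨_, _, isXRep_of_x h u rfl⟩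

/-- **Exact parallelogram law on the Manin subgroup.** -/
theorem hgt_parallelogram (hΔ : W.Δ ≠ 0) {P Q : (W⁄(KK W)).Point}
    (hP : P ∈ antiSub W) (hQ : Q ∈ antiSub W) :
    H311.hgt (jX W) (P + Q) + H311.hgt (jX W) (P - Q)
      = 2 * H311.hgt (jX W) P + 2 * H311.hgt (jX W) Q := by
  have : W.IsElliptic := ⟨isUnit_iff_ne_zero.mpr hΔ⟩
  exact H311.hgt_add_sub (W := W) (jX_injective W) (exists_isXRep_of_mem hΔ hP)
    (exists_isXRep_of_mem hΔ hQ) (exists_isXRep_of_mem hΔ ((antiSub W).add_mem hP hQ))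
    (exists_isXRep_of_mem hΔ ((antiSub W).sub_mem hP hQ))

/-- height zero on the Manin subgroup means constant -/
lemma isConstPt_of_hgt_eq_zero (hΔ : W.Δ ≠ 0) {P : (W⁄(KK W)).Point} (hP : P ∈ antiSub W)
    (h0 : H311.hgt (jX W) P = 0) : H230.IsConstPt W P := by
  rcases eq_zero_or_of_mem hΔ hP with rfl | ⟨u, y, h, rfl⟩
  · exact Or.inl rfl
  · right
    rw [hgt_of_x h u rfl] at h0
    obtain ⟨c, rfl⟩ := (H621.ratDeg_eq_zero_iff u).mp h0
    refine ⟨_, _, h, rfl, ?_⟩
    rw [iR_C]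
    exact isAlgebraic_algebraMap c

/-! ### Frobenius -/

section Frob

variable [Fintype F]

lemma frobPt_some_eq {x y : KK W} (h : (W⁄(KK W)).Nonsingular x y) :
    ∃ h' : (W⁄(KK W)).Nonsingular (x ^ Fintype.card F) (y ^ Fintype.card F),
      H230.frobPt W (KK W) (Affine.Point.some x y h)
        = Affine.Point.some (x ^ Fintype.card F) (y ^ Fintype.card F) h' :=
  ⟨_, H230.frobPt_some W (KK W) h⟩

/-- `Φ` preserves the Manin subgroup -/
lemma frob_mem {P : (W⁄(KK W)).Point} (hP : P ∈ antiSub W) :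
    H230.frobPt W (KK W) P ∈ antiSub W := by
  rw [mem_antiSub] at hP ⊢
  rw [involPt, ← H230.frobPt_map, ← map_neg]
  exact congrArg _ hP

/-- Frobenius restricted to the Manin subgroup -/
noncomputable def frobM : antiSub W →+ antiSub W :=
  AddMonoidHom.codRestrict ((H230.frobPt W (KK W)).comp (antiSub W).subtype) (antiSub W)
    (fun P => frob_mem P.2)

lemma coe_frobM (P : antiSub W) :
    ((frobM P : antiSub W) : (W⁄(KK W)).Point) = H230.frobPt W (KK W) P := rfl

/-- `h (Φ Q) = q · h Q` on the Manin subgroup -/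
lemma hgt_frob (hΔ : W.Δ ≠ 0) {P : (W⁄(KK W)).Point} (hP : P ∈ antiSub W) :
    H311.hgt (jX W) (H230.frobPt W (KK W) P) = Fintype.card F * H311.hgt (jX W) P := by
  rcases eq_zero_or_of_mem hΔ hP with rfl | ⟨u, y, h, rfl⟩
  · rw [map_zero, hgt_zero', mul_zero]
  · obtain ⟨h', e⟩ := frobPt_some_eq h
    rw [e, hgt_of_x h' (u ^ Fintype.card F) (by rw [map_pow]), hgt_of_x h u rfl, H621.ratDeg_pow]

/-! ### Manin's function -/

variable (W) in
/-- numerator of Manin's function attached to the data `s`, `t` -/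
noncomputable def maninN (s t : F[X]) : F[X] :=
  s ^ 2 * cubP W + s * t * linP W - t ^ 2
    - (C W.a₂ + X ^ Fintype.card F + X) * (X ^ Fintype.card F - X) ^ 2

variable (F) in
/-- denominator of Manin's function -/
noncomputable def maninD : F[X] := (X ^ Fintype.card F - X) ^ 2

variable (W) in
/-- Manin's function `x(Φ P₀ - P₀)` -/
noncomputable def maninR (s t : F[X]) : RatFunc F :=
  algebraMap F[X] (RatFunc F) (maninN W s t) / algebraMap F[X] (RatFunc F) (maninD F)

lemma maninD_ne_zero : maninD F ≠ 0 :=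
  pow_ne_zero 2 (FiniteField.X_pow_card_sub_X_ne_zero F Fintype.one_lt_card)

lemma pow_card_ne_self {u : RatFunc F} (hu : H621.ratDeg u ≠ 0) : u ^ Fintype.card F ≠ u := by
  intro h
  have htr : Transcendental F u := by
    apply RatFunc.transcendental_of_ne_C
    rintro ⟨c, hc⟩
    exact hu ((H621.ratDeg_eq_zero_iff u).mpr ⟨c, hc⟩)
  have h0 : aeval u (X ^ Fintype.card F - X : F[X]) = 0 := by
    simp [h]
  exact FiniteField.X_pow_card_sub_X_ne_zero F Fintype.one_lt_card
    ((transcendental_iff.mp htr) _ h0)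

/-- The data `(s, t)`: `V^q - negY U V = s(U) V + t(U)` on the curve (over the function field),
and the trace identity `2 t - s L + a₁ (X^q - X) = 0`. -/
structure IsManinData (W : WeierstrassCurve F) (s t : F[X]) : Prop where
  pow_eq : ∀ (U V : KK W), (W⁄(KK W)).Equation U V →
    V ^ Fintype.card F + V + ((W⁄(KK W)).a₁ * U + (W⁄(KK W)).a₃) = aeval U s * V + aeval U t
  trace_eq : 2 * t - s * linP W + C W.a₁ * (X ^ Fintype.card F - X) = 0

lemma aeval_iR (u : RatFunc F) (p : F[X]) : aeval (iR W u) p = iR W (aeval u p) :=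
  (Polynomial.aeval_algHom_apply (iR W) u p)

/-- the `x`-coordinate of `Φ Q - Q` is Manin's function of the `x`-coordinate of `Q` -/
lemma hgt_frob_sub_of_ne {s t : F[X]} (hst : IsManinData W s t)
    {u : RatFunc F} {y : KK W} (h : (W⁄(KK W)).Nonsingular (iR W u) y)
    (hu : H621.ratDeg u ≠ 0) :
    H311.hgt (jX W) (H230.frobPt W (KK W) (Affine.Point.some _ _ h) - Affine.Point.some _ _ h)
      = H621.ratDeg (maninR W s t) * H621.ratDeg u := by
  obtain ⟨h', e⟩ := frobPt_some_eq h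
  have hne : u ^ Fintype.card F ≠ u := pow_card_ne_self hu
  have hx : (iR W u) ^ Fintype.card F ≠ iR W u := by
    rw [← map_pow]
    exact fun h => hne (iR_injective W h)
  have hsub : (iR W u) ^ Fintype.card F - iR W u ≠ 0 := sub_ne_zero.mpr hx
  rw [e, sub_eq_add_neg, Affine.Point.neg_some, Affine.Point.add_of_X_ne hx]
  rw [hgt_of_x _ (aeval u (maninN W s t) / aeval u (maninD F)) ?_,
    H621.ratDeg_comp _ _ maninD_ne_zero]
  · rfl
  · have hE := (Affine.equation_iff _ _).mp h.1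
    have h1 := hst.pow_eq _ _ h.1
    have h2 := congrArg (fun p : F[X] => aeval (iR W u) p) hst.trace_eq
    simp only [map_add, map_sub, map_mul, map_pow, aeval_X, aeval_C, map_ofNat, map_zero,
      linP] at h2
    rw [map_div₀, ← aeval_iR, ← aeval_iR, Affine.addX, Affine.negY,
      Affine.slope_of_X_ne hx]
    simp only [maninN, maninD, cubP, linP, map_add, map_sub, map_mul, map_pow, aeval_X, aeval_C]
    rw [← bc_a₁ W (KK W), ← bc_a₂ W (KK W), ← bc_a₃ W (KK W), ← bc_a₄ W (KK W),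
      ← bc_a₆ W (KK W)] at *
    generalize aeval (iR W u) s = S at h1 h2 ⊢
    generalize aeval (iR W u) t = T at h1 h2 ⊢
    generalize (iR W u) ^ Fintype.card F = Up at hsub h2 ⊢
    generalize y ^ Fintype.card F = Yp at h1 ⊢
    generalize iR W u = U at hsub hE h1 h2 ⊢
    have hYp : Yp - (-y - (W⁄(KK W)).a₁ * U - (W⁄(KK W)).a₃) = S * y + T := by
      linear_combination h1
    rw [hYp]
    field_simp
    linear_combination (S ^ 2) * hE + (S * y + T) * h2

/-- `h (Φ Q - Q) = N · h Q` on the Manin subgroup -/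
lemma hgt_frob_sub (hΔ : W.Δ ≠ 0) {s t : F[X]} (hst : IsManinData W s t)
    {P : (W⁄(KK W)).Point} (hP : P ∈ antiSub W) :
    H311.hgt (jX W) (H230.frobPt W (KK W) P - P)
      = H621.ratDeg (maninR W s t) * H311.hgt (jX W) P := by
  by_cases h0 : H311.hgt (jX W) P = 0
  · have hpar := hgt_parallelogram hΔ (frob_mem hP) hP
    rw [hgt_frob hΔ hP, h0] at hpar
    rw [h0, mul_zero]
    omega
  · rcases eq_zero_or_of_mem hΔ hP with rfl | ⟨u, y, h, rfl⟩
    · exact absurd hgt_zero' h0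
    · have hu : H621.ratDeg u ≠ 0 := by
        rwa [hgt_of_x h u rfl] at h0
      rw [hgt_frob_sub_of_ne hst h hu, hgt_of_x h u rfl]

/-- **Frobenius relation from Manin data.**  For every field `L ⊇ F`:
`Φ² - a Φ + q = 0` on `W(L)`, where `a = q + 1 - deg (Manin's function)`. -/
theorem frobPsi_eq_zero_of_data (hΔ : W.Δ ≠ 0) {s t : F[X]} (hst : IsManinData W s t)
    {L : Type*} [Field L] [Algebra F L] [DecidableEq L] (T : (W⁄L).Point) :
    H230.frobPsi W L ((Fintype.card F : ℤ) + 1 - (H621.ratDeg (maninR W s t) : ℤ)) T = 0 := by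
  have hΔF : (W⁄F).Δ ≠ 0 := H230.baseChange_Δ_ne_zero' W hΔ F
  let h : antiSub W → ℕ := fun Q => H311.hgt (jX W) (Q : (W⁄(KK W)).Point)
  have hpar : H127.IsParNat h := fun Q R => hgt_parallelogram hΔ Q.2 R.2
  have hΦ : ∀ Q : antiSub W, h (frobM Q) = Fintype.card F * h Q := fun Q => hgt_frob hΔ Q.2
  have hΦ1 : ∀ Q : antiSub W, h (frobM Q - Q) = H621.ratDeg (maninR W s t) * h Q :=
    fun Q => hgt_frob_sub hΔ hst Q.2
  have key := hpar.frobenius_relation frobM (Fintype.card F) (H621.ratDeg (maninR W s t))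
    hΦ hΦ1 ⟨H230.genericPoint W F hΔF, generic_mem_antiSub W hΔF⟩
  set a : ℤ := (Fintype.card F : ℤ) + 1 - (H621.ratDeg (maninR W s t) : ℤ) with ha
  have hcoe : (((frobM (frobM ⟨H230.genericPoint W F hΔF, generic_mem_antiSub W hΔF⟩)
      - a • frobM ⟨H230.genericPoint W F hΔF, generic_mem_antiSub W hΔF⟩
      + Fintype.card F • (⟨H230.genericPoint W F hΔF, generic_mem_antiSub W hΔF⟩ : antiSub W)
        : antiSub W)) : (W⁄(KK W)).Point)
      = H230.frobPsi W (KK W) a (H230.genericPoint W F hΔF) := by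
    rw [H230.frobPsi_apply, natCast_zsmul]
    rfl
  have hC : H230.IsConstPt W (H230.frobPsi W (KK W) a (H230.genericPoint W F hΔF)) := by
    rw [← hcoe]
    exact isConstPt_of_hgt_eq_zero hΔ (Subtype.property _) key
  exact H230.frobPsi_eq_zero W hΔ (H230.generic_nonsingular W F hΔF)
    (H230.gx_transcendental W F) a hC T

end Frob

end Fermat.Agent.Lib.Frob23

end
-- ===== PACK-END Lib/Frob23/ManinSub.lean

-- ===== PACK-BEGIN S59/TW/H959/Inertia.lean
section



/-!
# Row S59 / HARD, cell TW: the inertia value (helper959)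

`IsInertiaValue ρ φ σ a₀ w` (defined in `Iface.lean`) is the Galois-theoretic description of the
"diamond operator" at a Taylor–Wiles prime, by a formula in traces.  This file proves that it is

* unique (`IsInertiaValue.unique`),
* compatible with base change along local homomorphisms (`IsInertiaValue.map`) and with
  equivalence of representations (`IsInertiaValue.of_isEquiv`),
* equal to `1` when `ρ σ = 1` (`IsInertiaValue.eq_one`),
* liftable along local homomorphisms out of a complete local ring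
  (`exists_isInertiaValue_of_map`, Hensel's lemma).

So for `R_Q → T_Q → T₀` and `R_Q → R_min` the elements `w_i - 1` correspond to each other and
die in `R_min`: this is all the patching argument needs from the local structure at `Q`.
-/

set_option autoImplicit false
set_option linter.style.haveILetI false

open Polynomial IsLocalRing

namespace Fermat.Agent.S59.TW.H959

open Fermat.Agent.S59.Arch

/-! ### Traces -/

section Trace

variable {A : Type} [CommRing A] [IsLocalRing A]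

theorem trace_eq_neg_nextCoeff_charpoly {R M : Type*} [CommRing R] [AddCommGroup M] [Module R M]
    [Module.Free R M] [Module.Finite R M] (f : Module.End R M) :
    LinearMap.trace R M f = -(LinearMap.charpoly f).nextCoeff := by
  classical
  let b := Module.Free.chooseBasis R M
  rw [LinearMap.trace_eq_matrix_trace R b f, Matrix.trace_eq_neg_charpoly_nextCoeff,
    LinearMap.charpoly_toMatrix]

theorem trace_eq_add_of_charpoly {R M : Type*} [CommRing R] [Nontrivial R] [AddCommGroup M]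
    [Module R M] [Module.Free R M] [Module.Finite R M] (f : Module.End R M) {a b : R}
    (h : LinearMap.charpoly f = (X - C a) * (X - C b)) :
    LinearMap.trace R M f = a + b := by
  rw [trace_eq_neg_nextCoeff_charpoly, h,
    Polynomial.Monic.nextCoeff_mul (monic_X_sub_C a) (monic_X_sub_C b),
    nextCoeff_X_sub_C, nextCoeff_X_sub_C]
  ring

theorem trace_eq_of_isEquiv {ρ₁ ρ₂ : GaloisRepAdic A} (h : ρ₁.IsEquiv ρ₂) (σ : GQ) :
    ρ₁.trace σ = ρ₂.trace σ := by
  obtain ⟨e⟩ := h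
  have hconj : ρ₂.ρ σ = e.toLinearEquiv.conj (ρ₁.ρ σ) := by
    apply LinearMap.ext
    intro y
    rw [LinearEquiv.conj_apply_apply]
    rw [e.map_apply, LinearEquiv.apply_symm_apply]
  unfold GaloisRepAdic.trace
  rw [hconj, LinearMap.trace_conj']

theorem trace_baseChangeAlong {B : Type} [CommRing B] [IsLocalRing B] (f : A →+* B)
    (hf : IsLocalHom f) (ρ : GaloisRepAdic A) (σ : GQ) :
    (ρ.baseChangeAlong f hf).trace σ = f (ρ.trace σ) := by
  letI : Algebra A B := f.toAlgebra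
  exact LinearMap.trace_baseChange (ρ.ρ σ) B

end Trace

/-! ### Roots of split quadratics in a local ring -/

section Roots

variable {A : Type} [CommRing A] [IsLocalRing A]

/-- Two factorisations of the same quadratic with congruent first roots and a unit
discriminant coincide. -/
theorem roots_unique {a b a' b' : A} (h : (X - C a) * (X - C b) = (X - C a') * (X - C b'))
    (hu : IsUnit (a - b)) (hc : a' - a ∈ maximalIdeal A) : a' = a ∧ b' = b := by
  have h1 := congrArg (Polynomial.eval a') h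
  simp only [eval_mul, eval_sub, eval_X, eval_C, sub_self, zero_mul] at h1
  have hu' : IsUnit (a' - b) := by
    have : a' - b = (a - b) + (a' - a) := by ring
    rw [this]
    by_contra hn
    have hn' : (a - b) + (a' - a) ∈ maximalIdeal A := hn
    have : a - b ∈ maximalIdeal A := by
      have := (maximalIdeal A).sub_mem hn' hc
      simpa using this
    exact this hu
  have ha : a' = a := by
    have := (hu'.mul_left_eq_zero).mp h1
    exact sub_eq_zero.mp this
  refine ⟨ha, ?_⟩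
  subst ha
  have h2 := congrArg (fun P : A[X] => P.coeff 0) h
  have h3 := congrArg (fun P : A[X] => P.coeff 1) h
  simp only [mul_coeff_zero, coeff_sub, coeff_X_zero, coeff_C_zero, zero_sub] at h2
  have e1 : ((X - C a') * (X - C b) : A[X]) = X ^ 2 - C (a' + b) * X + C (a' * b) := by
    simp only [map_add, map_mul]; ring
  have e2 : ((X - C a') * (X - C b') : A[X]) = X ^ 2 - C (a' + b') * X + C (a' * b') := by
    simp only [map_add, map_mul]; ring
  rw [e1, e2] at h3
  simp only [coeff_add, coeff_sub, coeff_X_pow, coeff_C_mul, coeff_X_one, coeff_C] at h3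
  norm_num at h3
  linear_combination -h3

end Roots

/-! ### The inertia value -/

section Inertia

variable {A : Type} [CommRing A] [IsLocalRing A]

theorem IsInertiaValue.unique {ρ : GaloisRepAdic A} {φ σ : GQ} {a₀ w w' : A}
    (h : IsInertiaValue ρ φ σ a₀ w) (h' : IsInertiaValue ρ φ σ a₀ w') : w = w' := by
  obtain ⟨a, b, ha, hu, hc, hw⟩ := h
  obtain ⟨a', b', ha', -, hc', hw'⟩ := h'
  have hcong : a' - a ∈ maximalIdeal A := by
    have := (maximalIdeal A).sub_mem ha' ha
    simpa using this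
  obtain ⟨rfl, rfl⟩ := roots_unique (hc.symm.trans hc') hu hcong
  exact hu.mul_left_cancel (hw.trans hw'.symm)

theorem IsInertiaValue.of_isEquiv {ρ ρ' : GaloisRepAdic A} (he : ρ.IsEquiv ρ') {φ σ : GQ}
    {a₀ w : A} (h : IsInertiaValue ρ φ σ a₀ w) : IsInertiaValue ρ' φ σ a₀ w := by
  obtain ⟨a, b, ha, hu, hc, hw⟩ := h
  refine ⟨a, b, ha, hu, ?_, ?_⟩
  · rw [← charpoly_eq_of_isEquiv he, hc]
  · rw [← trace_eq_of_isEquiv he, ← trace_eq_of_isEquiv he, hw]

theorem IsInertiaValue.map {B : Type} [CommRing B] [IsLocalRing B] (f : A →+* B)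
    (hf : IsLocalHom f) {ρ : GaloisRepAdic A} {φ σ : GQ} {a₀ w : A}
    (h : IsInertiaValue ρ φ σ a₀ w) :
    IsInertiaValue (ρ.baseChangeAlong f hf) φ σ (f a₀) (f w) := by
  obtain ⟨a, b, ha, hu, hc, hw⟩ := h
  refine ⟨f a, f b, ?_, ?_, ?_, ?_⟩
  · rw [← map_sub]
    exact haveI := hf; map_nonunit f _ ha
  · rw [← map_sub]
    exact hu.map f
  · rw [charpoly_baseChangeAlong, hc, Polynomial.map_mul, Polynomial.map_sub,
      Polynomial.map_sub, Polynomial.map_X, Polynomial.map_C, Polynomial.map_C]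
  · rw [trace_baseChangeAlong, trace_baseChangeAlong, ← map_sub, ← map_mul, ← map_mul,
      ← map_sub, hw]

/-- If `σ` acts trivially, the inertia value is `1`. -/
theorem IsInertiaValue.eq_one {ρ : GaloisRepAdic A} {φ σ : GQ} {a₀ w : A}
    (h : IsInertiaValue ρ φ σ a₀ w) (hσ : ρ.ρ σ = 1) : w = 1 := by
  obtain ⟨a, b, -, hu, hc, hw⟩ := h
  have h1 : ρ.trace (φ * σ) = a + b := by
    unfold GaloisRepAdic.trace
    rw [map_mul, hσ, mul_one]
    exact trace_eq_add_of_charpoly _ hc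
  have h2 : ρ.trace σ = 2 := by
    unfold GaloisRepAdic.trace
    rw [hσ, LinearMap.trace_one, ρ.finrank_eq]
    norm_num
  rw [h1, h2] at hw
  have : (a - b) * w = (a - b) * 1 := by rw [hw]; ring
  exact hu.mul_left_cancel this

/-- If `ρ` is unramified at `q`, the inertia value at `q` is `1`. -/
theorem IsInertiaValue.eq_one_of_isUnramifiedAt {ρ : GaloisRepAdic A} {φ σ : GQ} {a₀ w : A}
    (h : IsInertiaValue ρ φ σ a₀ w) {q : ℕ} (hq : ρ.IsUnramifiedAt q)
    {P : ValuationSubring (AlgebraicClosure ℚ)} (hP : P.LiesOverPrime q)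
    (hσ : σ ∈ P.inertiaSubgroupIn ℚ) : w = 1 :=
  h.eq_one (hq P hP σ hσ)

/-- A split quadratic: a monic polynomial of degree `2` with a root `a` is `(X - a)(X - b)`. -/
theorem exists_factor_of_root {P : A[X]} (hP : P.Monic) (hdeg : P.natDegree = 2) {a : A}
    (ha : P.IsRoot a) : ∃ b : A, P = (X - C a) * (X - C b) := by
  have hd : P.degree ≤ 2 := by
    rw [Polynomial.degree_eq_natDegree hP.ne_zero, hdeg]; rfl
  have h2 : P.coeff 2 = 1 := by
    have := hP.coeff_natDegree
    rwa [hdeg] at this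
  obtain ⟨c₁, c₀, hq⟩ : ∃ c₁ c₀ : A, P = X ^ 2 + C c₁ * X + C c₀ := by
    refine ⟨P.coeff 1, P.coeff 0, ?_⟩
    have hq := Polynomial.eq_quadratic_of_degree_le_two hd
    rw [h2, map_one, one_mul] at hq
    exact hq
  subst hq
  have hr : a ^ 2 + c₁ * a + c₀ = 0 := by
    have := ha
    rw [Polynomial.IsRoot.def] at this
    simpa using this
  refine ⟨-(a + c₁), ?_⟩
  have h0 : c₀ = -(a ^ 2 + c₁ * a) := by linear_combination hr
  rw [h0]
  simp only [map_neg, map_add, map_mul, map_pow]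
  ring

/-- **Hensel.**  Inertia values lift along a local homomorphism out of a complete local ring. -/
theorem exists_isInertiaValue_of_map [IsAdicComplete (maximalIdeal A) A]
    {B : Type} [CommRing B] [IsLocalRing B] (f : A →+* B) (hf : IsLocalHom f)
    (ρ : GaloisRepAdic A) (φ σ : GQ) (a₀ : A) {w' : B}
    (h : IsInertiaValue (ρ.baseChangeAlong f hf) φ σ (f a₀) w') :
    ∃ w : A, IsInertiaValue ρ φ σ a₀ w ∧ f w = w' := by
  haveI := hf
  obtain ⟨a', b', ha', hu', hc', hw'⟩ := h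
  set P : A[X] := LinearMap.charpoly (ρ.ρ φ) with hPdef
  have hPm : P.Monic := LinearMap.charpoly_monic _
  have hPd : P.natDegree = 2 := by
    rw [hPdef, LinearMap.charpoly_natDegree, ρ.finrank_eq]
  have hPmap : P.map f = (X - C a') * (X - C b') := by
    rw [← hc', charpoly_baseChangeAlong]
  -- `P(a₀) ∈ 𝔪`
  have hcong : f a₀ - a' ∈ maximalIdeal B := by
    have := (maximalIdeal B).neg_mem ha'
    simpa using this
  have h1 : P.eval a₀ ∈ maximalIdeal A := by
    by_contra hn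
    have hunit : IsUnit (P.eval a₀) := by
      by_contra hn'
      exact hn hn'
    have hunit' : IsUnit (f (P.eval a₀)) := hunit.map f
    have e : f (P.eval a₀) = (f a₀ - a') * (f a₀ - b') := by
      rw [← Polynomial.eval_map_apply, hPmap]
      simp
    rw [e] at hunit'
    exact hcong (isUnit_of_mul_isUnit_left hunit')
  -- `P'(a₀)` is a unit
  have h2 : IsUnit (Ideal.Quotient.mk (maximalIdeal A) ((derivative P).eval a₀)) := by
    have hB : IsUnit (f ((derivative P).eval a₀)) := by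
      have e : f ((derivative P).eval a₀) = (f a₀ - b') + (f a₀ - a') := by
        rw [← Polynomial.eval_map_apply, ← Polynomial.derivative_map, hPmap]
        simp [Polynomial.derivative_mul]
      rw [e]
      have e2 : (f a₀ - b') + (f a₀ - a') = (a' - b') + ((f a₀ - a') + (f a₀ - a')) := by ring
      rw [e2]
      by_contra hn
      have hn' : (a' - b') + ((f a₀ - a') + (f a₀ - a')) ∈ maximalIdeal B := hn
      have : a' - b' ∈ maximalIdeal B := by
        have := (maximalIdeal B).sub_mem hn' ((maximalIdeal B).add_mem hcong hcong)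
        simpa using this
      exact this hu'
    exact (isUnit_of_map_unit f _ hB).map _
  obtain ⟨a, haroot, haa₀⟩ :=
    HenselianRing.is_henselian (I := maximalIdeal A) P hPm a₀ h1 h2
  obtain ⟨b, hab⟩ := exists_factor_of_root hPm hPd haroot
  -- images of the roots
  have hmap2 : (X - C a') * (X - C b') = (X - C (f a)) * (X - C (f b)) := by
    rw [← hPmap, hab, Polynomial.map_mul, Polynomial.map_sub, Polynomial.map_sub,
      Polynomial.map_X, Polynomial.map_C, Polynomial.map_C]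
  have hfa : f a - a' ∈ maximalIdeal B := by
    have e : f a - a' = f (a - a₀) + (f a₀ - a') := by rw [map_sub]; ring
    rw [e]
    exact (maximalIdeal B).add_mem (map_nonunit f _ haa₀) hcong
  obtain ⟨hfa', hfb'⟩ := roots_unique hmap2 hu' hfa
  have hu : IsUnit (a - b) := by
    refine isUnit_of_map_unit f _ ?_
    rw [map_sub, hfa', hfb']
    exact hu'
  obtain ⟨u, hu_eq⟩ := hu
  refine ⟨↑u⁻¹ * (ρ.trace (φ * σ) - b * ρ.trace σ), ⟨a, b, haa₀, ⟨u, hu_eq⟩, hab, ?_⟩, ?_⟩
  · rw [← hu_eq, ← mul_assoc, Units.mul_inv, one_mul]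
  · have hfu : IsUnit (f (u : A)) := u.isUnit.map f
    have e1 : f (u : A) = a' - b' := by rw [hu_eq, map_sub, hfa', hfb']
    apply hfu.mul_left_cancel
    rw [← map_mul, ← mul_assoc, Units.mul_inv, one_mul, e1, hw', trace_baseChangeAlong,
      trace_baseChangeAlong, map_sub, map_mul, hfb']

end Inertia

end Fermat.Agent.S59.TW.H959

end
-- ===== PACK-END S59/TW/H959/Inertia.lean

-- ===== PACK-BEGIN S55/G/SIndH237/Assembly.lean
section
/-
S55 (Poitou–Tate), layer G, leaf G-SIND (`SIndepSpec`, independence of `S`; REC (O5)) — ASSEMBLY.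
Owner: helper237.  Interface of the sub-leaves: `SIndH237/Spec.lean`.

    sIndep_of : ApproxSpec → IntSpec → PrescribedOrdSpec → UnitsCohTrivSpec →
      T.TwinVanishingSpec → SIndepSpec

Contents (one file, to keep import closures small):
1. the splitting `L ⊗ ℚ_{S'} ≅ (L ⊗ ℚ_S) × (L ⊗ ℚ_T)`, `T = S' \ S`, and the bijection
   `(jRes, jRes_T) : J_{S'}(L) → J_S(L) × J_T(L)`;
2. the divisor map `δ_T : J_T(L) → Div^S(L)`, `δ_T (diag x + u) = ∑_{w | T} ord_w(x) [w]`
   (from `ApproxSpec`, `IntSpec`);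
3. `Φ (j, d) = (jRes j, divIncl d + δ_T (jRes_T j))`: equivariance, diagonal, surjectivity, kernel;
4. `π : C_{S'}(L) ⟶ C_S(L)`, `ι : U_T(L) ⟶ C_{S'}(L)` and the short exact sequence
   `0 → U_T(L) → C_{S'}(L) → C_S(L) → 0` in `Rep ℤ G`;
5. cohomology: `U_T(L)` is cohomologically trivial (`UnitsCohTrivSpec` + twin vanishing), so `π`
   is bijective on `Hⁿ(H, -)`, `n ≥ 1`, for all `H ≤ G`.
-/




set_option autoImplicit false
set_option linter.unusedSectionVars false
set_option linter.style.haveILetI false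

open scoped NumberField TensorProduct
open IsDedekindDomain CategoryTheory groupCohomology

noncomputable section

namespace Fermat.Agent.S55.G.SIndH237

open Fermat.Agent.S55.G

/-! # Part: Split -/

section SplitPart

variable {S S' : Finset Nat.Primes} (h : S ⊆ S')

/-- `T = S' \ S`. -/
abbrev sdiffT (S S' : Finset Nat.Primes) : Finset Nat.Primes := S' \ S

lemma sdiffT_subset (S S' : Finset Nat.Primes) : sdiffT S S' ⊆ S' := Finset.sdiff_subset

/-- The pair of projections `ℚ_{S'} → ℚ_S × ℚ_T`. -/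
def qsPair : QS S' →ₐ[ℚ] QS S × QS (sdiffT S S') :=
  AlgHom.prod (QS.res h) (QS.res (sdiffT_subset S S'))

lemma qsPair_injective : Function.Injective (qsPair h) := by
  intro x y hxy
  have h1 : QS.res h x = QS.res h y := congrArg Prod.fst hxy
  have h2 : QS.res (sdiffT_subset S S') x = QS.res (sdiffT_subset S S') y :=
    congrArg Prod.snd hxy
  apply (QS.toPi S').injective
  funext q
  by_cases hq : q.1 ∈ S
  · have := congrArg (fun z => QS.toPi S z ⟨q.1, hq⟩) h1
    simpa using this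
  · have hq' : q.1 ∈ sdiffT S S' := Finset.mem_sdiff.2 ⟨q.2, hq⟩
    have := congrArg (fun z => QS.toPi (sdiffT S S') z ⟨q.1, hq'⟩) h2
    simpa using this

lemma qsPair_surjective : Function.Surjective (qsPair h) := by
  classical
  rintro ⟨a, b⟩
  refine ⟨(QS.toPi S').symm (fun q =>
    if hq : q.1 ∈ S then QS.toPi S a ⟨q.1, hq⟩
    else QS.toPi (sdiffT S S') b ⟨q.1, Finset.mem_sdiff.2 ⟨q.2, hq⟩⟩), ?_⟩
  refine Prod.ext ?_ ?_
  · apply (QS.toPi S).injective
    funext q
    change QS.toPi S (QS.res h _) q = _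
    rw [QS.res_apply, AlgEquiv.apply_symm_apply]
    simp [q.2]
  · apply (QS.toPi (sdiffT S S')).injective
    funext q
    change QS.toPi (sdiffT S S') (QS.res (sdiffT_subset S S') _) q = _
    rw [QS.res_apply, AlgEquiv.apply_symm_apply]
    have hq : q.1 ∉ S := (Finset.mem_sdiff.1 q.2).2
    simp [hq]

/-- `ℚ_{S'} ≃ ℚ_S × ℚ_T`. -/
def qsSplit : QS S' ≃ₐ[ℚ] QS S × QS (sdiffT S S') :=
  AlgEquiv.ofBijective (qsPair h) ⟨qsPair_injective h, qsPair_surjective h⟩

variable (L : Type) [Field L] [CharZero L]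

/-- The pair of projections `L ⊗ ℚ_{S'} → (L ⊗ ℚ_S) × (L ⊗ ℚ_T)`. -/
def asPair : AS S' L →ₐ[ℚ] AS S L × AS (sdiffT S S') L :=
  AlgHom.prod (asRes h L) (asRes (sdiffT_subset S S') L)

/-- `L ⊗ ℚ_{S'} ≃ (L ⊗ ℚ_S) × (L ⊗ ℚ_T)`. -/
def asSplit : AS S' L ≃ₐ[ℚ] AS S L × AS (sdiffT S S') L :=
  (Algebra.TensorProduct.congr (AlgEquiv.refl : L ≃ₐ[ℚ] L) (qsSplit h)).trans
    (Algebra.TensorProduct.prodRight ℚ ℚ L (QS S) (QS (sdiffT S S')))

lemma asSplit_eq_asPair (z : AS S' L) : asSplit h L z = asPair h L z := by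
  induction z using TensorProduct.induction_on with
  | zero => simp
  | tmul a b =>
    change Algebra.TensorProduct.prodRight ℚ ℚ L (QS S) (QS (sdiffT S S'))
      (Algebra.TensorProduct.congr (AlgEquiv.refl : L ≃ₐ[ℚ] L) (qsSplit h) (a ⊗ₜ[ℚ] b)) = _
    rw [Algebra.TensorProduct.congr_apply, Algebra.TensorProduct.map_tmul,
      Algebra.TensorProduct.prodRight_tmul]
    refine Prod.ext ?_ ?_
    · change _ = asRes h L (a ⊗ₜ[ℚ] b)
      rw [asRes_tmul]
      rfl
    · change _ = asRes (sdiffT_subset S S') L (a ⊗ₜ[ℚ] b)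
      rw [asRes_tmul]
      rfl
  | add a b ha hb => rw [map_add, map_add, ha, hb]

lemma asPair_bijective : Function.Bijective (asPair h L) := by
  have : (asPair h L : AS S' L → _) = asSplit h L := by
    funext z; exact (asSplit_eq_asPair h L z).symm
  rw [this]
  exact (asSplit h L).bijective

/-- Injectivity of `(jRes, jRes_T)`. -/
lemma jRes_pair_injective {j j' : Additive (AS S' L)ˣ}
    (h1 : jRes h L j = jRes h L j')
    (h2 : jRes (sdiffT_subset S S') L j = jRes (sdiffT_subset S S') L j') : j = j' := by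
  apply Additive.toMul.injective
  apply Units.ext
  apply (asPair_bijective h L).1
  refine Prod.ext ?_ ?_
  · have := congrArg (fun z : Additive (AS S L)ˣ => ((z.toMul : (AS S L)ˣ) : AS S L)) h1
    simp only [coe_jRes_apply] at this
    exact this
  · have := congrArg
      (fun z : Additive (AS (sdiffT S S') L)ˣ =>
        ((z.toMul : (AS (sdiffT S S') L)ˣ) : AS (sdiffT S S') L)) h2
    simp only [coe_jRes_apply] at this
    exact this

/-- Surjectivity of `(jRes, jRes_T)`. -/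
lemma exists_jRes_pair (a : Additive (AS S L)ˣ) (b : Additive (AS (sdiffT S S') L)ˣ) :
    ∃ j : Additive (AS S' L)ˣ, jRes h L j = a ∧ jRes (sdiffT_subset S S') L j = b := by
  obtain ⟨z, hz⟩ := (asPair_bijective h L).2
    (((a.toMul : (AS S L)ˣ) : AS S L), ((b.toMul : (AS (sdiffT S S') L)ˣ) : AS (sdiffT S S') L))
  obtain ⟨z', hz'⟩ := (asPair_bijective h L).2
    ((((a.toMul)⁻¹ : (AS S L)ˣ) : AS S L),
      (((b.toMul)⁻¹ : (AS (sdiffT S S') L)ˣ) : AS (sdiffT S S') L))
  have hzz' : z * z' = 1 := by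
    apply (asPair_bijective h L).1
    rw [map_mul, hz, hz', map_one]
    refine Prod.ext ?_ ?_
    · simp
    · simp
  have hz'z : z' * z = 1 := by rw [mul_comm]; exact hzz'
  refine ⟨Additive.ofMul ⟨z, z', hzz', hz'z⟩, ?_, ?_⟩
  · apply Additive.toMul.injective
    apply Units.ext
    rw [coe_jRes_apply]
    exact congrArg Prod.fst hz
  · apply Additive.toMul.injective
    apply Units.ext
    rw [coe_jRes_apply]
    exact congrArg Prod.snd hz

end SplitPart

/-! # Part: Delta -/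

section DeltaPart

variable (S T : Finset Nat.Primes) (G L : Type) [Group G] [Field L] [NumberField L]
  [MulSemiringAction G L]

/-! ## The `T`-part of the divisor of `x ∈ Lˣ` -/

/-- The part of the divisor of `x` (as an element of `Div^S(L)`) supported above `T`. -/
def ordAbove : Additive Lˣ →+ (PrimeOut S L →₀ ℤ) where
  toFun x := by
    classical
    exact (ordHom S L x).filter (fun w => IsAbove T L w.1)
  map_zero' := by
    classical
    rw [map_zero]
    exact Finsupp.filter_zero _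
  map_add' x y := by
    classical
    simp only [map_add, Finsupp.filter_add]

lemma ordAbove_apply (x : Additive Lˣ) (w : PrimeOut S L) :
    ordAbove S T L x w = by
      classical
      exact if IsAbove T L w.1 then ordAt w.1 x else 0 := by
  classical
  change ((ordHom S L x).filter (fun w => IsAbove T L w.1)) w = _
  rw [Finsupp.filter_apply]
  rfl

lemma ordAbove_apply_of_isAbove (x : Additive Lˣ) (w : PrimeOut S L) (hw : IsAbove T L w.1) :
    ordAbove S T L x w = ordAt w.1 x := by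
  classical
  rw [ordAbove_apply, if_pos hw]

lemma ordAbove_apply_of_not_isAbove (x : Additive Lˣ) (w : PrimeOut S L)
    (hw : ¬ IsAbove T L w.1) : ordAbove S T L x w = 0 := by
  classical
  rw [ordAbove_apply, if_neg hw]

lemma ordAbove_eq_zero_of_forall (x : Additive Lˣ)
    (hx : ∀ w : HeightOneSpectrum (𝓞 L), IsAbove T L w → ordAt w x = 0) :
    ordAbove S T L x = 0 := by
  classical
  ext w
  by_cases hw : IsAbove T L w.1
  · rw [ordAbove_apply_of_isAbove S T L x w hw, hx w.1 hw]; rfl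
  · rw [ordAbove_apply_of_not_isAbove S T L x w hw]; rfl

/-- Equivariance of `ordAbove`. -/
lemma ordAbove_equivariant (g : G) (x : Additive Lˣ) :
    ordAbove S T L (lRepr G L g x) = divRepr S G L g (ordAbove S T L x) := by
  classical
  ext w
  have hw : w = primeOutMap S G L g (primeOutMap S G L g⁻¹ w) := by
    rw [← primeOutMap_mul, mul_inv_cancel, primeOutMap_one]
  set w' := primeOutMap S G L g⁻¹ w with hw'
  rw [hw, divRepr_apply_apply]
  have hiff : IsAbove T L (primeOutMap S G L g w').1 ↔ IsAbove T L w'.1 := by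
    rw [primeOutMap_val]
    exact isAbove_primeSMul_iff T G g w'.1
  by_cases hab : IsAbove T L w'.1
  · rw [ordAbove_apply_of_isAbove S T L _ _ (hiff.2 hab),
      ordAbove_apply_of_isAbove S T L _ _ hab, primeOutMap_val, ordAt_primeSMul]
  · rw [ordAbove_apply_of_not_isAbove S T L _ _ (fun hh => hab (hiff.1 hh)),
      ordAbove_apply_of_not_isAbove S T L _ _ hab]

/-! ## The map `δ_T` -/

section Delta

variable (hA : ApproxSpec) (hI : IntSpec)

/-- Auxiliary: the underlying function of `δ_T`. -/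
def deltaFun (hA : ApproxSpec) (j : Additive (AS T L)ˣ) : PrimeOut S L →₀ ℤ :=
  ordAbove S T L (Classical.choose (hA T L j))

include hI in
/-- Independence of the choice: `δ_T (diag x + u) = ord_T x`. -/
lemma deltaFun_eq {j : Additive (AS T L)ˣ} {x : Additive Lˣ} {u : Additive (AS T L)ˣ}
    (hu : u ∈ UT T L) (hj : j = unitsDiag T L x + u) :
    deltaFun S T L hA j = ordAbove S T L x := by
  obtain ⟨u₀, hu₀, hj₀⟩ := Classical.choose_spec (hA T L j)
  set x₀ := Classical.choose (hA T L j) with hx₀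
  have hdiff : unitsDiag T L (x - x₀) ∈ UT T L := by
    have h1 : unitsDiag T L (x - x₀) = u₀ - u := by
      rw [map_sub]
      have : unitsDiag T L x + u = unitsDiag T L x₀ + u₀ := by rw [← hj, ← hj₀]
      rw [sub_eq_sub_iff_add_eq_add, this, add_comm]
    rw [h1]
    exact (UT T L).sub_mem hu₀ hu
  have hz := ordAbove_eq_zero_of_forall S T L (x - x₀) ((hI T L (x - x₀)).1 hdiff)
  rw [map_sub, sub_eq_zero] at hz
  exact hz.symm

/-- The divisor map `δ_T : J_T(L) → Div^S(L)`. -/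
def deltaT : Additive (AS T L)ˣ →+ (PrimeOut S L →₀ ℤ) where
  toFun := deltaFun S T L hA
  map_zero' := by
    have := deltaFun_eq S T L hA hI (j := 0) (x := 0) (u := 0) (UT T L).zero_mem (by simp)
    rw [this, map_zero]
  map_add' j j' := by
    obtain ⟨u, hu, hj⟩ := Classical.choose_spec (hA T L j)
    obtain ⟨u', hu', hj'⟩ := Classical.choose_spec (hA T L j')
    set x := Classical.choose (hA T L j)
    set x' := Classical.choose (hA T L j')
    have h1 : j + j' = unitsDiag T L (x + x') + (u + u') := by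
      rw [map_add]
      nth_rewrite 1 [hj]
      nth_rewrite 1 [hj']
      abel
    rw [deltaFun_eq S T L hA hI ((UT T L).add_mem hu hu') h1, map_add]
    rfl

lemma deltaT_eq {j : Additive (AS T L)ˣ} {x : Additive Lˣ} {u : Additive (AS T L)ˣ}
    (hu : u ∈ UT T L) (hj : j = unitsDiag T L x + u) :
    deltaT S T L hA hI j = ordAbove S T L x :=
  deltaFun_eq S T L hA hI hu hj

lemma deltaT_unitsDiag (x : Additive Lˣ) :
    deltaT S T L hA hI (unitsDiag T L x) = ordAbove S T L x :=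
  deltaT_eq S T L hA hI (UT T L).zero_mem (by simp)

lemma deltaT_of_mem_UT {u : Additive (AS T L)ˣ} (hu : u ∈ UT T L) :
    deltaT S T L hA hI u = 0 := by
  rw [deltaT_eq S T L hA hI hu (x := 0) (by simp), map_zero]

/-- The support of `δ_T j` consists of primes above `T`. -/
lemma deltaT_apply_of_not_isAbove (j : Additive (AS T L)ˣ) (w : PrimeOut S L)
    (hw : ¬ IsAbove T L w.1) : deltaT S T L hA hI j w = 0 := by
  obtain ⟨x, u, hu, hj⟩ := hA T L j
  rw [deltaT_eq S T L hA hI hu hj]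
  exact ordAbove_apply_of_not_isAbove S T L x w hw

/-- Kernel of `δ_T`: if no prime above `T` lies above `S`, then `ker δ_T = U_T`. -/
lemma mem_UT_of_deltaT_eq_zero
    (hdisj : ∀ w : HeightOneSpectrum (𝓞 L), IsAbove T L w → ¬ IsAbove S L w)
    {j : Additive (AS T L)ˣ} (hj0 : deltaT S T L hA hI j = 0) : j ∈ UT T L := by
  obtain ⟨x, u, hu, hj⟩ := hA T L j
  rw [deltaT_eq S T L hA hI hu hj] at hj0
  have hx : unitsDiag T L x ∈ UT T L := by
    refine (hI T L x).2 fun w hw => ?_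
    let w' : PrimeOut S L := ⟨w, hdisj w hw⟩
    have h1 : ordAbove S T L x w' = 0 := by rw [hj0]; rfl
    have h2 : ordAbove S T L x w' = ordAt w x := ordAbove_apply_of_isAbove S T L x w' hw
    rw [← h2, h1]
  rw [hj]
  exact (UT T L).add_mem hx hu

include hI in
/-- Equivariance of `δ_T`. -/
lemma deltaT_equivariant (g : G) (j : Additive (AS T L)ˣ) :
    deltaT S T L hA hI (jRepr G T L g j) = divRepr S G L g (deltaT S T L hA hI j) := by
  obtain ⟨x, u, hu, hj⟩ := hA T L j
  have hgu : jRepr G T L g u ∈ UT T L := UT_stable T G L g hu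
  have hgj : jRepr G T L g j = unitsDiag T L (lRepr G L g x) + jRepr G T L g u := by
    rw [hj, map_add, unitsDiag_equivariant]
  rw [deltaT_eq S T L hA hI hgu hgj, deltaT_eq S T L hA hI hu hj, ordAbove_equivariant]

/-- Surjectivity of `δ_T` onto the divisors supported above `T`. -/
lemma exists_deltaT_eq (hP : PrescribedOrdSpec) (d : PrimeOut S L →₀ ℤ)
    (hd : ∀ w, d w ≠ 0 → IsAbove T L w.1) :
    ∃ j : Additive (AS T L)ˣ, deltaT S T L hA hI j = d := by
  classical
  let d' : HeightOneSpectrum (𝓞 L) →₀ ℤ := d.mapDomain Subtype.val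
  have hd'val : ∀ w : PrimeOut S L, d' w.1 = d w := fun w =>
    Finsupp.mapDomain_apply Subtype.val_injective d w
  have hd' : ∀ w, d' w ≠ 0 → IsAbove T L w := by
    intro w hw
    have hmem : w ∈ (d.mapDomain Subtype.val).support := Finsupp.mem_support_iff.2 hw
    have := Finsupp.mapDomain_support hmem
    obtain ⟨w₀, hw₀, rfl⟩ := Finset.mem_image.1 this
    exact hd w₀ (Finsupp.mem_support_iff.1 hw₀)
  obtain ⟨x, hx⟩ := hP T L d' hd'
  refine ⟨unitsDiag T L x, ?_⟩
  rw [deltaT_unitsDiag]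
  ext w
  by_cases hw : IsAbove T L w.1
  · rw [ordAbove_apply_of_isAbove S T L x w hw, hx w.1 hw, hd'val]
  · rw [ordAbove_apply_of_not_isAbove S T L x w hw]
    by_contra hne
    exact hw (hd w (Ne.symm hne))

end Delta

end DeltaPart

/-! # Part: Phi -/

section PhiPart

variable {S S' : Finset Nat.Primes} (h : S ⊆ S') (G L : Type) [Group G] [Field L]
  [NumberField L] [MulSemiringAction G L]

/-! ## Primes above `S`, `S'` and `T = S' \ S` -/

/-- A prime of `L` lies above at most one rational prime. -/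
lemma eq_of_mem_of_mem (w : HeightOneSpectrum (𝓞 L)) {q q' : Nat.Primes}
    (hq : ((q : ℕ) : 𝓞 L) ∈ w.asIdeal) (hq' : ((q' : ℕ) : 𝓞 L) ∈ w.asIdeal) : q = q' := by
  by_contra hne
  have hne' : (q : ℕ) ≠ (q' : ℕ) := fun hh => hne (Subtype.ext hh)
  have hcop : Nat.Coprime (q : ℕ) (q' : ℕ) := (Nat.coprime_primes q.2 q'.2).2 hne'
  have hc : IsCoprime ((q : ℕ) : ℤ) ((q' : ℕ) : ℤ) := Nat.isCoprime_iff_coprime.2 hcop
  obtain ⟨a, b, hab⟩ := hc
  have h1 : ((a : 𝓞 L)) * ((q : ℕ) : 𝓞 L) + (b : 𝓞 L) * ((q' : ℕ) : 𝓞 L) = 1 := by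
    have := congrArg (fun z : ℤ => (z : 𝓞 L)) hab
    simpa using this
  have h2 : (1 : 𝓞 L) ∈ w.asIdeal := by
    rw [← h1]
    exact w.asIdeal.add_mem (w.asIdeal.mul_mem_left _ hq) (w.asIdeal.mul_mem_left _ hq')
  exact w.isPrime.ne_top ((Ideal.eq_top_iff_one _).2 h2)

/-- No prime above `T = S' \ S` lies above `S`. -/
lemma not_isAbove_of_isAbove_sdiff (w : HeightOneSpectrum (𝓞 L))
    (hw : IsAbove (sdiffT S S') L w) : ¬ IsAbove S L w := by
  rintro ⟨q', hq', hmem'⟩
  obtain ⟨q, hq, hmem⟩ := hw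
  have := eq_of_mem_of_mem L w hmem hmem'
  subst this
  exact (Finset.mem_sdiff.1 hq).2 hq'

include h in
lemma isAbove_iff_or (w : HeightOneSpectrum (𝓞 L)) :
    IsAbove S' L w ↔ IsAbove S L w ∨ IsAbove (sdiffT S S') L w := by
  constructor
  · rintro ⟨q, hq, hmem⟩
    by_cases hqS : q ∈ S
    · exact Or.inl ⟨q, hqS, hmem⟩
    · exact Or.inr ⟨q, Finset.mem_sdiff.2 ⟨hq, hqS⟩, hmem⟩
  · rintro (⟨q, hq, hmem⟩ | ⟨q, hq, hmem⟩)
    · exact ⟨q, h hq, hmem⟩
    · exact ⟨q, (Finset.mem_sdiff.1 hq).1, hmem⟩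

include h in
/-- For a prime not above `S`: above `S'` iff above `T`. -/
lemma isAbove_iff_of_primeOut (w : PrimeOut S L) :
    IsAbove S' L w.1 ↔ IsAbove (sdiffT S S') L w.1 := by
  rw [isAbove_iff_or h L w.1]
  constructor
  · rintro (h1 | h1)
    · exact absurd h1 w.2
    · exact h1
  · exact Or.inr

/-! ## `divIncl` pointwise -/

lemma divIncl_apply_of_isAbove (d : PrimeOut S' L →₀ ℤ) (w : PrimeOut S L)
    (hw : IsAbove S' L w.1) : divIncl h L d w = 0 := by
  classical
  refine Finsupp.mapDomain_of_notMem_range _ _ ?_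
  rintro ⟨w', rfl⟩
  exact w'.2 hw

lemma divIncl_apply_of_not_isAbove (d : PrimeOut S' L →₀ ℤ) (w : PrimeOut S L)
    (hw : ¬ IsAbove S' L w.1) : divIncl h L d w = d ⟨w.1, hw⟩ :=
  divIncl_apply h L d ⟨w.1, hw⟩

/-- Every divisor prime to `S` with support outside `S'` comes from `Div^{S'}`. -/
lemma exists_divIncl_eq (e : PrimeOut S L →₀ ℤ) (he : ∀ w, e w ≠ 0 → ¬ IsAbove S' L w.1) :
    ∃ d : PrimeOut S' L →₀ ℤ, divIncl h L d = e := by
  classical
  refine ⟨e.comapDomain (primeOutIncl h L) (primeOutIncl_injective h L).injOn, ?_⟩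
  refine Finsupp.mapDomain_comapDomain _ (primeOutIncl_injective h L) e ?_
  intro w hw
  have hw' : e w ≠ 0 := Finsupp.mem_support_iff.1 hw
  exact ⟨⟨w.1, he w hw'⟩, rfl⟩

/-- The divisor of `x` prime to `S` is the sum of its part prime to `S'` and its part above
`T = S' \ S`. -/
lemma ordHom_split (x : Additive Lˣ) :
    divIncl h L (ordHom S' L x) + ordAbove S (sdiffT S S') L x = ordHom S L x := by
  ext w
  rw [Finsupp.add_apply]
  by_cases hw : IsAbove (sdiffT S S') L w.1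
  · rw [divIncl_apply_of_isAbove h L _ w ((isAbove_iff_of_primeOut h L w).2 hw),
      ordAbove_apply_of_isAbove S _ L x w hw, zero_add]
    rfl
  · have hw' : ¬ IsAbove S' L w.1 := fun hh => hw ((isAbove_iff_of_primeOut h L w).1 hh)
    rw [divIncl_apply_of_not_isAbove h L _ w hw',
      ordAbove_apply_of_not_isAbove S _ L x w hw, add_zero]
    rfl

/-! ## The map `Φ` -/

section Phi

variable (hA : ApproxSpec) (hI : IntSpec)

/-- `Φ (j, d) = (jRes j, divIncl d + δ_T (jRes_T j))`. -/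
def PhiHom : JD S' L →+ JD S L :=
  ((jRes h L).comp (AddMonoidHom.fst _ _)).prod
    (((divIncl h L).comp (AddMonoidHom.snd _ _)) +
      ((deltaT S (sdiffT S S') L hA hI).comp
        ((jRes (sdiffT_subset S S') L).comp (AddMonoidHom.fst _ _))))

lemma PhiHom_apply (y : JD S' L) :
    PhiHom h L hA hI y = (jRes h L y.1,
      divIncl h L y.2 + deltaT S (sdiffT S S') L hA hI (jRes (sdiffT_subset S S') L y.1)) := rfl

lemma PhiHom_fst (y : JD S' L) : (PhiHom h L hA hI y).1 = jRes h L y.1 := rfl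

lemma PhiHom_snd (y : JD S' L) : (PhiHom h L hA hI y).2 =
    divIncl h L y.2 + deltaT S (sdiffT S S') L hA hI (jRes (sdiffT_subset S S') L y.1) := rfl

lemma jdRepr_apply (S : Finset Nat.Primes) (g : G) (y : JD S L) :
    jdRepr S G L g y = (jRepr G S L g y.1, divRepr S G L g y.2) := rfl

/-- (1) `Φ` is equivariant. -/
lemma PhiHom_equivariant (g : G) (y : JD S' L) :
    PhiHom h L hA hI (jdRepr S' G L g y) = jdRepr S G L g (PhiHom h L hA hI y) := by
  rw [jdRepr_apply, jdRepr_apply, PhiHom_apply, PhiHom_apply]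
  refine Prod.ext ?_ ?_
  · exact jRes_equivariant h L G g y.1
  · change divIncl h L (divRepr S' G L g y.2) +
        deltaT S (sdiffT S S') L hA hI (jRes (sdiffT_subset S S') L (jRepr G S' L g y.1)) =
      divRepr S G L g (divIncl h L y.2 +
        deltaT S (sdiffT S S') L hA hI (jRes (sdiffT_subset S S') L y.1))
    rw [divIncl_equivariant, jRes_equivariant, deltaT_equivariant S _ G L hA hI, map_add]

/-- (2) `Φ` is compatible with the diagonal embeddings of `Lˣ`. -/
lemma PhiHom_diagHom (x : Additive Lˣ) :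
    PhiHom h L hA hI (diagHom S' L x) = diagHom S L x := by
  rw [PhiHom_apply]
  refine Prod.ext ?_ ?_
  · exact jRes_unitsDiag h L x
  · change divIncl h L (ordHom S' L x) +
        deltaT S (sdiffT S S') L hA hI (jRes (sdiffT_subset S S') L (unitsDiag S' L x)) =
      ordHom S L x
    rw [jRes_unitsDiag, deltaT_unitsDiag, ordHom_split]

/-- (4) `Φ` is `divIncl` on `Div^{S'}`. -/
lemma PhiHom_inr (d : PrimeOut S' L →₀ ℤ) :
    PhiHom h L hA hI (0, d) = (0, divIncl h L d) := by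
  rw [PhiHom_apply]
  refine Prod.ext ?_ ?_
  · exact map_zero _
  · change divIncl h L d + deltaT S (sdiffT S S') L hA hI (jRes (sdiffT_subset S S') L 0) = _
    rw [map_zero, map_zero, add_zero]

/-- (6) `Φ` is surjective. -/
lemma PhiHom_surjective (hP : PrescribedOrdSpec) : Function.Surjective (PhiHom h L hA hI) := by
  classical
  rintro ⟨a, e⟩
  -- the part of `e` above `T`
  let e₁ : PrimeOut S L →₀ ℤ := e.filter (fun w => IsAbove (sdiffT S S') L w.1)
  let e₂ : PrimeOut S L →₀ ℤ := e.filter (fun w => ¬ IsAbove (sdiffT S S') L w.1)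
  have he : e₁ + e₂ = e := Finsupp.filter_add_filter_not e _
  obtain ⟨b, hb⟩ := exists_deltaT_eq S (sdiffT S S') L hA hI hP e₁ (by
    intro w hw
    by_contra hcon
    exact hw (Finsupp.filter_apply_neg _ _ hcon))
  obtain ⟨d, hd⟩ := exists_divIncl_eq h L e₂ (by
    intro w hw hab
    have h1 : IsAbove (sdiffT S S') L w.1 := (isAbove_iff_of_primeOut h L w).1 hab
    exact hw (Finsupp.filter_apply_neg _ _ (not_not.2 h1)))
  obtain ⟨j, hj1, hj2⟩ := exists_jRes_pair h L a b
  refine ⟨(j, d), ?_⟩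
  rw [PhiHom_apply]
  refine Prod.ext hj1 ?_
  change divIncl h L d + deltaT S (sdiffT S S') L hA hI (jRes (sdiffT_subset S S') L j) = e
  rw [hj2, hb, hd, add_comm, he]

/-- Kernel of `Φ`: `Φ (j, d) = 0` iff `d = 0`, `jRes j = 0` and `jRes_T j ∈ U_T`. -/
lemma PhiHom_eq_zero {y : JD S' L} (hy : PhiHom h L hA hI y = 0) :
    y.2 = 0 ∧ jRes h L y.1 = 0 ∧ jRes (sdiffT_subset S S') L y.1 ∈ UT (sdiffT S S') L := by
  have h1 : jRes h L y.1 = 0 := congrArg Prod.fst hy
  have h2 : divIncl h L y.2 +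
      deltaT S (sdiffT S S') L hA hI (jRes (sdiffT_subset S S') L y.1) = 0 :=
    congrArg Prod.snd hy
  have hd : y.2 = 0 := by
    ext w'
    have h3 := DFunLike.congr_fun h2 (primeOutIncl h L w')
    rw [Finsupp.add_apply, divIncl_apply] at h3
    have h4 : ¬ IsAbove (sdiffT S S') L (primeOutIncl h L w').1 := fun hh =>
      w'.2 ((isAbove_iff_of_primeOut h L (primeOutIncl h L w')).2 hh)
    rw [deltaT_apply_of_not_isAbove S _ L hA hI _ _ h4, add_zero] at h3
    exact h3
  refine ⟨hd, h1, ?_⟩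
  rw [hd, map_zero, zero_add] at h2
  exact mem_UT_of_deltaT_eq_zero S _ L hA hI
    (fun w hw => not_isAbove_of_isAbove_sdiff L w hw) h2

lemma PhiHom_of_mem_UT {j : Additive (AS S' L)ˣ} (hj1 : jRes h L j = 0)
    (hj2 : jRes (sdiffT_subset S S') L j ∈ UT (sdiffT S S') L) :
    PhiHom h L hA hI (j, 0) = 0 := by
  rw [PhiHom_apply]
  refine Prod.ext hj1 ?_
  change divIncl h L 0 + deltaT S (sdiffT S S') L hA hI (jRes (sdiffT_subset S S') L j) = 0
  rw [map_zero, zero_add, deltaT_of_mem_UT S _ L hA hI hj2]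

end Phi

/-! ## Unramified outside `S` implies unramified above `T` -/

lemma isUnramAbove_of_isUnramOut (hur : IsUnramOut S G L) :
    IsUnramAbove (sdiffT S S') G L := fun w hw g hg x =>
  hur w (not_isAbove_of_isAbove_sdiff L w hw) g hg x

end PhiPart

/-! # Part: Pi -/

section PiPart

variable {S S' : Finset Nat.Primes} (h : S ⊆ S') (G L : Type) [Group G] [Field L]
  [NumberField L] [MulSemiringAction G L] (hA : ApproxSpec) (hI : IntSpec)

/-! ## The morphism `π` -/

lemma principal_le_comap_Phi :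
    principal S' L ≤ (principal S L).comap (PhiHom h L hA hI).toIntLinearMap := by
  rintro _ ⟨x, rfl⟩
  exact ⟨x, (PhiHom_diagHom h L hA hI x).symm⟩

/-- The linear map `C_{S'}(L) → C_S(L)` induced by `Φ`. -/
def piLin : CS S' L →ₗ[ℤ] CS S L :=
  (principal S' L).mapQ (principal S L) (PhiHom h L hA hI).toIntLinearMap
    (principal_le_comap_Phi h L hA hI)

lemma piLin_mk (y : JD S' L) :
    piLin h L hA hI ((principal S' L).mkQ y) = (principal S L).mkQ (PhiHom h L hA hI y) := rfl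

/-- The morphism `π : C_{S'}(L) ⟶ C_S(L)` in `Rep ℤ G`. -/
def piHom : CRep S' G L ⟶ CRep S G L :=
  Rep.ofHom ⟨piLin h L hA hI, fun g => LinearMap.ext fun c => by
    obtain ⟨y, rfl⟩ := (principal S' L).mkQ_surjective c
    change piLin h L hA hI ((principal S' L).mkQ (jdRepr S' G L g y)) =
      (principal S L).mkQ (jdRepr S G L g (PhiHom h L hA hI y))
    rw [piLin_mk, PhiHom_equivariant]⟩

/-- (5) `π` is induced by `Φ`. -/
lemma piHom_mk (y : JD S' L) :
    (piHom h G L hA hI).hom ((principal S' L).mkQ y) =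
      (principal S L).mkQ (PhiHom h L hA hI y) := rfl

lemma piHom_surjective (hP : PrescribedOrdSpec) :
    Function.Surjective (piHom h G L hA hI).hom := by
  intro c
  obtain ⟨z, rfl⟩ := (principal S L).mkQ_surjective c
  obtain ⟨y, rfl⟩ := PhiHom_surjective h L hA hI hP z
  exact ⟨(principal S' L).mkQ y, rfl⟩

/-! ## The lift `J_T(L) → J_{S'}(L)` -/

/-- The idèle with `T`-component `u` and trivial `S`-component. -/
def liftT : Additive (AS (sdiffT S S') L)ˣ →+ Additive (AS S' L)ˣ where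
  toFun u := Classical.choose (exists_jRes_pair h L 0 u)
  map_zero' := by
    obtain ⟨h1, h2⟩ := Classical.choose_spec (exists_jRes_pair h L 0
      (0 : Additive (AS (sdiffT S S') L)ˣ))
    exact jRes_pair_injective h L (by rw [h1, map_zero]) (by rw [h2, map_zero])
  map_add' u v := by
    obtain ⟨h1, h2⟩ := Classical.choose_spec (exists_jRes_pair h L 0 (u + v))
    obtain ⟨hu1, hu2⟩ := Classical.choose_spec (exists_jRes_pair h L 0 u)
    obtain ⟨hv1, hv2⟩ := Classical.choose_spec (exists_jRes_pair h L 0 v)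
    exact jRes_pair_injective h L (by rw [h1, map_add, hu1, hv1, add_zero])
      (by rw [h2, map_add, hu2, hv2])

lemma jRes_liftT (u : Additive (AS (sdiffT S S') L)ˣ) : jRes h L (liftT h L u) = 0 :=
  (Classical.choose_spec (exists_jRes_pair h L 0 u)).1

lemma jResT_liftT (u : Additive (AS (sdiffT S S') L)ˣ) :
    jRes (sdiffT_subset S S') L (liftT h L u) = u :=
  (Classical.choose_spec (exists_jRes_pair h L 0 u)).2

lemma eq_liftT {j : Additive (AS S' L)ˣ} (hj : jRes h L j = 0) :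
    j = liftT h L (jRes (sdiffT_subset S S') L j) :=
  jRes_pair_injective h L (by rw [hj, jRes_liftT]) (by rw [jResT_liftT])

lemma liftT_equivariant (g : G) (u : Additive (AS (sdiffT S S') L)ˣ) :
    liftT h L (jRepr G (sdiffT S S') L g u) = jRepr G S' L g (liftT h L u) := by
  refine jRes_pair_injective h L ?_ ?_
  · rw [jRes_liftT, jRes_equivariant, jRes_liftT, map_zero]
  · rw [jResT_liftT, jRes_equivariant, jResT_liftT]

lemma liftT_injective : Function.Injective (liftT h L) := fun u v huv => by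
  have := congrArg (jRes (sdiffT_subset S S') L) huv
  rwa [jResT_liftT, jResT_liftT] at this

/-! ## The embedding `ι : U_T(L) ⟶ C_{S'}(L)` -/

/-- The linear map `U_T(L) → C_{S'}(L)`, `u ↦ [(liftT u, 0)]`. -/
def iotaLin : (UT (sdiffT S S') L).toIntSubmodule →ₗ[ℤ] CS S' L :=
  (principal S' L).mkQ ∘ₗ
    (LinearMap.inl ℤ (Additive (AS S' L)ˣ) (PrimeOut S' L →₀ ℤ)) ∘ₗ
    (liftT h L).toIntLinearMap ∘ₗ (UT (sdiffT S S') L).toIntSubmodule.subtype

lemma iotaLin_apply (u : (UT (sdiffT S S') L).toIntSubmodule) :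
    iotaLin h L u = (principal S' L).mkQ (liftT h L u.1, 0) := rfl

/-- The morphism `ι : U_T(L) ⟶ C_{S'}(L)` in `Rep ℤ G`. -/
def iotaHom : URep (sdiffT S S') G L ⟶ CRep S' G L :=
  Rep.ofHom ⟨iotaLin h L, fun g => LinearMap.ext fun u => by
    change (principal S' L).mkQ (liftT h L (jRepr G (sdiffT S S') L g u.1), 0) =
      (principal S' L).mkQ (jdRepr S' G L g (liftT h L u.1, 0))
    rw [liftT_equivariant, jdRepr_apply, map_zero]⟩

lemma iotaHom_apply (u : (UT (sdiffT S S') L).toIntSubmodule) :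
    (iotaHom h G L).hom u = (principal S' L).mkQ (liftT h L u.1, 0) := rfl

/-- Injectivity of the diagonal `Lˣ → J_S(L)` for `S ≠ ∅`. -/
lemma unitsDiag_inj (S : Finset Nat.Primes) (L : Type) [Field L] [CharZero L]
    (hS : S.Nonempty) : Function.Injective (unitsDiag S L) := by
  obtain ⟨q, hq⟩ := hS
  have hinj : Function.Injective (algebraMap ℚ (QS S)) := by
    intro a b hab
    have h1 := congrArg (QS.proj S ⟨q, hq⟩) hab
    simpa using h1
  have hdiag : Function.Injective (asDiag S L) :=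
    Algebra.TensorProduct.includeLeft_injective (R := ℚ) (S := ℚ) (A := L) (B := QS S) hinj
  intro x y hxy
  apply Additive.toMul.injective
  apply Units.ext
  apply hdiag
  have := congrArg (fun z : Additive (AS S L)ˣ => ((z.toMul : (AS S L)ˣ) : AS S L)) hxy
  simpa [coe_unitsDiag_apply] using this

lemma iotaHom_injective (hS : S.Nonempty) : Function.Injective (iotaHom h G L).hom := by
  rw [injective_iff_map_eq_zero]
  intro u hu
  rw [iotaHom_apply] at hu
  have hmem : ((liftT h L u.1, 0) : JD S' L) ∈ principal S' L :=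
    (Submodule.Quotient.mk_eq_zero _).1 hu
  obtain ⟨x, hx⟩ := hmem
  have hx1 : unitsDiag S' L x = liftT h L u.1 := congrArg Prod.fst hx
  have hx2 : unitsDiag S L x = 0 := by
    rw [← jRes_unitsDiag h L x, hx1, jRes_liftT]
  have hx0 : x = 0 := unitsDiag_inj S L hS (by rw [hx2, map_zero])
  have hl : liftT h L u.1 = 0 := by rw [← hx1, hx0, map_zero]
  have hu0 : u.1 = 0 := liftT_injective h L (by rw [hl, map_zero])
  exact Subtype.ext hu0

lemma piHom_iotaHom (u : (UT (sdiffT S S') L).toIntSubmodule) :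
    (piHom h G L hA hI).hom ((iotaHom h G L).hom u) = 0 := by
  rw [iotaHom_apply, piHom_mk,
    PhiHom_of_mem_UT h L hA hI (jRes_liftT h L u.1) (by rw [jResT_liftT]; exact u.2)]
  exact map_zero _

lemma exists_iotaHom_eq (c : CS S' L) (hc : (piHom h G L hA hI).hom c = 0) :
    ∃ u : (UT (sdiffT S S') L).toIntSubmodule, (iotaHom h G L).hom u = c := by
  obtain ⟨y, rfl⟩ := (principal S' L).mkQ_surjective c
  rw [piHom_mk] at hc
  obtain ⟨x, hx⟩ := (Submodule.Quotient.mk_eq_zero _).1 hc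
  have hx' : diagHom S L x = PhiHom h L hA hI y := hx
  have hker : PhiHom h L hA hI (y - diagHom S' L x) = 0 := by
    rw [map_sub, PhiHom_diagHom, hx', sub_self]
  obtain ⟨h2, h1, hU⟩ := PhiHom_eq_zero h L hA hI hker
  refine ⟨⟨jRes (sdiffT_subset S S') L (y - diagHom S' L x).1, hU⟩, ?_⟩
  rw [iotaHom_apply]
  change (principal S' L).mkQ (liftT h L (jRes (sdiffT_subset S S') L (y - diagHom S' L x).1), 0)
    = (principal S' L).mkQ y
  rw [← eq_liftT h L h1, ← h2]
  change (principal S' L).mkQ (y - diagHom S' L x) = (principal S' L).mkQ y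
  rw [map_sub, sub_eq_self]
  exact (Submodule.Quotient.mk_eq_zero _).2 ⟨x, rfl⟩

/-! ## The short exact sequence -/

/-- The short complex `U_T(L) ⟶ C_{S'}(L) ⟶ C_S(L)`. -/
def sIndShortComplex : ShortComplex (Rep ℤ G) :=
  ShortComplex.mk (iotaHom h G L) (piHom h G L hA hI) (by
    ext u
    exact piHom_iotaHom h G L hA hI u)

lemma sIndShortComplex_shortExact (hP : PrescribedOrdSpec) (hS : S.Nonempty) :
    (sIndShortComplex h G L hA hI).ShortExact :=
  Fermat.Agent.S55.H295.rep_shortExact_of (sIndShortComplex h G L hA hI)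
    (iotaHom_injective h G L hS)
    (fun c hc => exists_iotaHom_eq h G L hA hI c hc)
    (piHom_surjective h G L hA hI hP)

end PiPart

/-! # Part: Coh -/

section CohPart

/-- For a short exact sequence `0 → X₁ → X₂ → X₃ → 0` with `Hⁿ(X₁) = 0 = Hⁿ⁺¹(X₁)`, the map
`Hⁿ(X₂) → Hⁿ(X₃)` is bijective. -/
theorem bijective_coeffMap_of_isZero {k G : Type} [CommRing k] [Group G]
    {X : ShortComplex (Rep.{0} k G)} (hX : X.ShortExact) (n : ℕ)
    (h1 : Limits.IsZero (groupCohomology X.X₁ n))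
    (h2 : Limits.IsZero (groupCohomology X.X₁ (n + 1))) :
    Function.Bijective (T.coeffMap X.g n).hom := by
  constructor
  · have hex := mapShortComplex₂_exact hX n
    have hm : Mono (mapShortComplex₂ X n).g := hex.mono_g (h1.eq_of_src _ _)
    exact (ModuleCat.mono_iff_injective _).1 hm
  · have hex := mapShortComplex₃_exact hX (i := n) rfl
    have he : Epi (mapShortComplex₃ hX (i := n) rfl).f := hex.epi_f (h2.eq_of_tgt _ _)
    exact (ModuleCat.epi_iff_surjective _).1 he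

/-- Cohomologically trivial modules have vanishing `Hⁿ(H, -)`, `n ≥ 1`. -/
theorem isZero_of_isCohTriv {k G : Type} [CommRing k] [Group G] [Finite G] (A : Rep.{0} k G)
    (hA : T.IsCohTriv A) (H : Subgroup G) (n : ℕ) (hn : 0 < n) :
    Limits.IsZero (groupCohomology (T.resSub A H) n) := by
  haveI : NeZero n := ⟨hn.ne'⟩
  letI : Fintype H := Fintype.ofFinite H
  exact Limits.IsZero.of_iso (hA H (n : ℤ))
    ((TateCohomology.isoGroupCohomology n).app (T.resSub A H)).symm

variable {S S' : Finset Nat.Primes} (h : S ⊆ S') (G L : Type) [Group G] [Field L]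
  [NumberField L] [MulSemiringAction G L] (hA : ApproxSpec) (hI : IntSpec)

/-- The restriction of the short exact sequence to a subgroup `H ≤ G`. -/
lemma sIndShortComplex_res_shortExact (hP : PrescribedOrdSpec) (hS : S.Nonempty)
    (H : Subgroup G) :
    ((sIndShortComplex h G L hA hI).map (Rep.resFunctor H.subtype)).ShortExact :=
  Fermat.Agent.S55.H295.rep_shortExact_of _
    (iotaHom_injective h G L hS)
    (fun c hc => exists_iotaHom_eq h G L hA hI c hc)
    (piHom_surjective h G L hA hI hP)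

/-- (7) `π` induces bijections on `Hⁿ(H, -)`, `n ≥ 1`, as soon as `U_T(L)` is cohomologically
trivial. -/
theorem piHom_bijective [Finite G] (hP : PrescribedOrdSpec) (hS : S.Nonempty)
    (hU : T.IsCohTriv (URep (sdiffT S S') G L)) (H : Subgroup G) (n : ℕ) (hn : 0 < n) :
    Function.Bijective
      (T.coeffMap ((Rep.resFunctor H.subtype).map (piHom h G L hA hI)) n).hom :=
  bijective_coeffMap_of_isZero (sIndShortComplex_res_shortExact h G L hA hI hP hS H) n
    (isZero_of_isCohTriv _ hU H n hn) (isZero_of_isCohTriv _ hU H (n + 1) (Nat.succ_pos n))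

end CohPart

/-! # Part: Assembly -/

section AssemblyPart

/-- **G-SIND**, assembled from its four sub-leaves and the twin-vanishing criterion. -/
theorem sIndep_of (hA : ApproxSpec) (hI : IntSpec) (hP : PrescribedOrdSpec)
    (hU : UnitsCohTrivSpec) (hT : T.TwinVanishingSpec) : SIndepSpec := by
  intro S S' h G L _ _ _ _ _ _ hS hur
  have hUct : T.IsCohTriv (URep (sdiffT S S') G L) :=
    hT ℤ G (URep (sdiffT S S') G L)
      (fun H => hU (sdiffT S S') G L (isUnramAbove_of_isUnramOut G L hur) H)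
  exact ⟨PhiHom h L hA hI, piHom h G L hA hI, PhiHom_equivariant h G L hA hI,
    PhiHom_diagHom h L hA hI, PhiHom_fst h L hA hI, PhiHom_inr h L hA hI,
    piHom_mk h G L hA hI, PhiHom_surjective h L hA hI hP,
    fun H n hn => piHom_bijective h G L hA hI hP hS hUct H n hn⟩

end AssemblyPart

end Fermat.Agent.S55.G.SIndH237

end
end
-- ===== PACK-END S55/G/SIndH237/Assembly.lean

-- ===== PACK-BEGIN S41/H744/UnitRel.lean
section


/-!
# S41, block IH' (helper744): the unit relation (L1)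

`G = Γ₀(N)[1/q] = H585.Delta N q`, `Φ : G → F` a homomorphism to an abelian group with
`Φ (u(1)) = 0`, `φ = Φ ∘ j1`.  If `g, g' ∈ Γ₀(N)` have the same lower left entry `C ≠ 0` and
`g'₁₁ ≡ q ^ (2 k) * g₁₁ mod C`, then `φ g' = φ g - 2 • Φ (h (q ^ k))`, `h(v) = diag(v, v⁻¹)`.

The proof is the matrix identity `h(v) g' u(-x) h(v) = u(n) g` in `SL(2, ℚ)`.
-/

set_option autoImplicit false
set_option linter.unusedSectionVars false
set_option linter.unusedSimpArgs false

namespace Fermat.Agent.S41.H744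

open Matrix CongruenceSubgroup Fermat.Agent.S41.H585
open scoped MatrixGroups

variable {N q : ℕ} [hq : Fact q.Prime]

/-- `h(q ^ k) = diag(q ^ k, q ^ (-k))`. -/
noncomputable def hSL (q : ℕ) [Fact q.Prime] (k : ℕ) : SL(2, ℚ) :=
  ⟨!![(q : ℚ) ^ k, 0; 0, ((q : ℚ) ^ k)⁻¹], by
    have : (q : ℚ) ^ k ≠ 0 := pow_ne_zero _ (rq_ne_zero q)
    rw [Matrix.det_fin_two_of]; field_simp; ring⟩

lemma hSL_00 (k : ℕ) : (hSL q k) 0 0 = (q : ℚ) ^ k := rfl
lemma hSL_01 (k : ℕ) : (hSL q k) 0 1 = 0 := rfl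
lemma hSL_10 (k : ℕ) : (hSL q k) 1 0 = 0 := rfl
lemma hSL_11 (k : ℕ) : (hSL q k) 1 1 = ((q : ℚ) ^ k)⁻¹ := rfl

lemma hSL_mem_Delta (N : ℕ) (k : ℕ) : hSL q k ∈ Delta N q := by
  rw [mem_Delta]
  refine ⟨fun i j => ?_, 0, isRInt_zero q, by simp [hSL_10]⟩
  fin_cases i <;> fin_cases j
  · exact ⟨0, (q : ℤ) ^ k, by simp [hSL_00]⟩
  · exact isRInt_zero q
  · exact isRInt_zero q
  · exact isRInt_inv_pow q (r_ne_zero q) k

/-- `h(q ^ k)` as an element of `Γ₀(N)[1/q]`. -/
noncomputable def hD (N q : ℕ) [Fact q.Prime] (k : ℕ) : Delta N q := ⟨hSL q k, hSL_mem_Delta N k⟩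

/-- The upper unipotent `u(n) = [[1, n], [0, 1]]` of `Γ₀(N)`. -/
def uG (N : ℕ) (n : ℤ) : Gamma0 N := mkGamma0 N 1 n 0 1 (by ring) (dvd_zero _)

lemma slz_mul_apply (g h : SL(2, ℤ)) (i j : Fin 2) :
    (g * h) i j = g i 0 * h 0 j + g i 1 * h 1 j := by
  rw [Matrix.SpecialLinearGroup.coe_mul, Matrix.mul_apply, Fin.sum_univ_two]

lemma slq_mul_apply (g h : SL(2, ℚ)) (i j : Fin 2) :
    (g * h) i j = g i 0 * h 0 j + g i 1 * h 1 j := by
  rw [Matrix.SpecialLinearGroup.coe_mul, Matrix.mul_apply, Fin.sum_univ_two]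

lemma uG_00 (n : ℤ) : ((uG N n : Gamma0 N) : SL(2, ℤ)) 0 0 = 1 := rfl
lemma uG_01 (n : ℤ) : ((uG N n : Gamma0 N) : SL(2, ℤ)) 0 1 = n := rfl
lemma uG_10 (n : ℤ) : ((uG N n : Gamma0 N) : SL(2, ℤ)) 1 0 = 0 := rfl
lemma uG_11 (n : ℤ) : ((uG N n : Gamma0 N) : SL(2, ℤ)) 1 1 = 1 := rfl

lemma uG_add (m n : ℤ) : uG N (m + n) = uG N m * uG N n := by
  apply Subtype.ext
  apply Subtype.ext
  ext i j
  rw [Subgroup.coe_mul, slz_mul_apply]
  fin_cases i <;> fin_cases j <;> simp [uG_00, uG_01, uG_10, uG_11, add_comm]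

lemma uG_zero : uG N 0 = 1 := by
  apply Subtype.ext
  apply Subtype.ext
  ext i j
  fin_cases i <;> fin_cases j <;> simp [uG, mkGamma0, mkSL2Z]

/-- `n ↦ u(n)` as a homomorphism `ℤ → Γ₀(N)`. -/
def uHom (N : ℕ) : Multiplicative ℤ →* Gamma0 N where
  toFun n := uG N (Multiplicative.toAdd n)
  map_one' := uG_zero
  map_mul' _ _ := uG_add _ _

section Hom

variable {F : Type*} [AddCommGroup F]

/-- A character of `Γ₀(N)` which kills `u(1)` kills all `u(n)`. -/
lemma apply_uG_eq_zero (φ : Additive (Gamma0 N) →+ F) (h1 : φ (Additive.ofMul (uG N 1)) = 0)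
    (n : ℤ) : φ (Additive.ofMul (uG N n)) = 0 := by
  have key : ∀ m : ℕ, φ (Additive.ofMul (uG N (m : ℤ))) = 0 := by
    intro m
    induction m with
    | zero => simp [uG_zero]
    | succ k ih =>
      rw [Nat.cast_succ, uG_add, ofMul_mul, map_add, ih, h1, add_zero]
  have hneg : ∀ m : ℤ, φ (Additive.ofMul (uG N (-m))) = -φ (Additive.ofMul (uG N m)) := by
    intro m
    have h := congrArg (fun g => φ (Additive.ofMul g)) (uG_add (N := N) (-m) m)
    simp only [neg_add_cancel, uG_zero, ofMul_one, map_zero, ofMul_mul, map_add] at h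
    exact eq_neg_of_add_eq_zero_left h.symm
  obtain ⟨m, rfl | rfl⟩ := Int.eq_nat_or_neg n
  · exact key m
  · rw [hneg, key, neg_zero]

/-- The matrix identity `h(v) g' u(-x) h(v) = u(n) g`. -/
lemma unit_identity (g g' : Gamma0 N) (k : ℕ) (n x : ℤ)
    (hC : (g' : SL(2, ℤ)) 1 0 = (g : SL(2, ℤ)) 1 0) (hC0 : (g : SL(2, ℤ)) 1 0 ≠ 0)
    (hx : (g' : SL(2, ℤ)) 1 1 = (g : SL(2, ℤ)) 1 0 * x + (q : ℤ) ^ (2 * k) * (g : SL(2, ℤ)) 1 1)
    (hn : (q : ℤ) ^ (2 * k) * (g' : SL(2, ℤ)) 0 0 = (g : SL(2, ℤ)) 0 0 + n * (g : SL(2, ℤ)) 1 0) :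
    hD N q k * j1 N q g' * j1 N q (uG N (-x)) * hD N q k = j1 N q (uG N n) * j1 N q g := by
  have hv : (q : ℚ) ^ k ≠ 0 := pow_ne_zero _ (rq_ne_zero q)
  have hdet := Gamma0_det N g
  have hdet' := Gamma0_det N g'
  -- the (0,1) entry
  have hb : (g' : SL(2, ℤ)) 0 1 - (g' : SL(2, ℤ)) 0 0 * x =
      (g : SL(2, ℤ)) 0 1 + n * (g : SL(2, ℤ)) 1 1 := by
    apply mul_left_cancel₀ hC0
    rw [hC] at hdet'
    linear_combination (-1 : ℤ) * hdet' + (g' : SL(2, ℤ)) 0 0 * hx + (g : SL(2, ℤ)) 1 1 * hn + hdet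
  have hCQ : (((g' : SL(2, ℤ)) 1 0 : ℤ) : ℚ) = (((g : SL(2, ℤ)) 1 0 : ℤ) : ℚ) := by
    exact_mod_cast hC
  have hxQ : (((g' : SL(2, ℤ)) 1 1 : ℤ) : ℚ) =
      ((g : SL(2, ℤ)) 1 0 : ℚ) * x + (q : ℚ) ^ (2 * k) * ((g : SL(2, ℤ)) 1 1 : ℚ) := by
    exact_mod_cast hx
  have hnQ : (q : ℚ) ^ (2 * k) * (((g' : SL(2, ℤ)) 0 0 : ℤ) : ℚ) =
      ((g : SL(2, ℤ)) 0 0 : ℚ) + n * ((g : SL(2, ℤ)) 1 0 : ℚ) := by
    exact_mod_cast hn
  have hbQ : (((g' : SL(2, ℤ)) 0 1 : ℤ) : ℚ) - ((g' : SL(2, ℤ)) 0 0 : ℚ) * x =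
      ((g : SL(2, ℤ)) 0 1 : ℚ) + n * ((g : SL(2, ℤ)) 1 1 : ℚ) := by
    exact_mod_cast hb
  have hpow : (q : ℚ) ^ (2 * k) = (q : ℚ) ^ k * (q : ℚ) ^ k := by rw [two_mul, pow_add]
  have hvv : (q : ℚ) ^ k * ((q : ℚ) ^ k)⁻¹ = 1 := mul_inv_cancel₀ hv
  apply Subtype.ext
  apply sl2_ext
  · simp only [Subgroup.coe_mul, slq_mul_apply, coe_j1, J1_apply, hD, hSL_00, hSL_01, hSL_10,
      hSL_11, uG_00, uG_01, uG_10, uG_11]
    push_cast
    rw [hpow] at hnQ
    linear_combination hnQ
  · simp only [Subgroup.coe_mul, slq_mul_apply, coe_j1, J1_apply, hD, hSL_00, hSL_01, hSL_10,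
      hSL_11, uG_00, uG_01, uG_10, uG_11]
    push_cast
    linear_combination ((((g' : SL(2, ℤ)) 0 1 : ℤ) : ℚ) - ((g' : SL(2, ℤ)) 0 0 : ℚ) * x) * hvv + hbQ
  · simp only [Subgroup.coe_mul, slq_mul_apply, coe_j1, J1_apply, hD, hSL_00, hSL_01, hSL_10,
      hSL_11, uG_00, uG_01, uG_10, uG_11]
    push_cast
    linear_combination (((g' : SL(2, ℤ)) 1 0 : ℤ) : ℚ) * hvv + hCQ
  · simp only [Subgroup.coe_mul, slq_mul_apply, coe_j1, J1_apply, hD, hSL_00, hSL_01, hSL_10,
      hSL_11, uG_00, uG_01, uG_10, uG_11]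
    push_cast
    rw [hpow] at hxQ
    linear_combination (((q : ℚ) ^ k)⁻¹ * ((q : ℚ) ^ k)⁻¹) * hxQ
      - ((x : ℚ) * ((q : ℚ) ^ k)⁻¹ * ((q : ℚ) ^ k)⁻¹) * hCQ
      + (((g : SL(2, ℤ)) 1 1 : ℤ) : ℚ) * ((q : ℚ) ^ k * ((q : ℚ) ^ k)⁻¹ + 1) * hvv

/-- **Unit relation (L1).**  If `g, g' ∈ Γ₀(N)` have the same lower left entry `C ≠ 0` and
`g'₁₁ ≡ q ^ (2 k) * g₁₁ mod C`, then `Φ g' = Φ g - 2 • Φ (h (q ^ k))`. -/
theorem apply_eq_sub_of_unit (Φ : Additive (Delta N q) →+ F)
    (hu : Φ (Additive.ofMul (j1 N q (uG N 1))) = 0)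
    (g g' : Gamma0 N) (k : ℕ)
    (hC : (g' : SL(2, ℤ)) 1 0 = (g : SL(2, ℤ)) 1 0) (hC0 : (g : SL(2, ℤ)) 1 0 ≠ 0)
    (he : (g' : SL(2, ℤ)) 1 1 ≡ (q : ℤ) ^ (2 * k) * (g : SL(2, ℤ)) 1 1
      [ZMOD (g : SL(2, ℤ)) 1 0]) :
    Φ (Additive.ofMul (j1 N q g')) =
      Φ (Additive.ofMul (j1 N q g)) - 2 • Φ (Additive.ofMul (hD N q k)) := by
  have hdet := Gamma0_det N g
  have hdet' := Gamma0_det N g'
  obtain ⟨x, hx⟩ := Int.modEq_iff_dvd.mp he.symm
  have hx' : (g' : SL(2, ℤ)) 1 1 =
      (g : SL(2, ℤ)) 1 0 * x + (q : ℤ) ^ (2 * k) * (g : SL(2, ℤ)) 1 1 := by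
    linear_combination hx
  have hcop : IsCoprime ((g : SL(2, ℤ)) 1 0) ((g' : SL(2, ℤ)) 1 1) :=
    ⟨-(g' : SL(2, ℤ)) 0 1, (g' : SL(2, ℤ)) 0 0, by rw [hC] at hdet'; linear_combination hdet'⟩
  have hdvd : (g : SL(2, ℤ)) 1 0 ∣
      ((q : ℤ) ^ (2 * k) * (g' : SL(2, ℤ)) 0 0 - (g : SL(2, ℤ)) 0 0) * (g' : SL(2, ℤ)) 1 1 := by
    refine ⟨(q : ℤ) ^ (2 * k) * (g' : SL(2, ℤ)) 0 1 - (g : SL(2, ℤ)) 0 0 * x -
      (q : ℤ) ^ (2 * k) * (g : SL(2, ℤ)) 0 1, ?_⟩
    rw [hC] at hdet'
    linear_combination ((q : ℤ) ^ (2 * k)) * hdet' - ((q : ℤ) ^ (2 * k)) * hdet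
      - (g : SL(2, ℤ)) 0 0 * hx'
  obtain ⟨n, hn⟩ := hcop.dvd_of_dvd_mul_right hdvd
  have hn' : (q : ℤ) ^ (2 * k) * (g' : SL(2, ℤ)) 0 0 =
      (g : SL(2, ℤ)) 0 0 + n * (g : SL(2, ℤ)) 1 0 := by
    linear_combination hn
  have hid := unit_identity g g' k n x hC hC0 hx' hn'
  have hφ : ∀ m : ℤ, Φ (Additive.ofMul (j1 N q (uG N m))) = 0 :=
    apply_uG_eq_zero (Φ.comp (MonoidHom.toAdditive (j1 N q))) hu
  have h := congrArg (fun y => Φ (Additive.ofMul y)) hid
  simp only [ofMul_mul, map_add, hφ, add_zero, zero_add] at h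
  rw [two_nsmul, ← h]
  abel

end Hom

end Fermat.Agent.S41.H744

end
-- ===== PACK-END S41/H744/UnitRel.lean

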