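import Mathlib
import Fermat.Prelude.Def_GaloisRep_LocalConditions
import Fermat.Prelude.Def_EllipticCurve_FrobeniusTrace
import Fermat.Agent.Pack.S59C.E3L2
import Fermat.Agent.Pack.S59C.E3L3
import Fermat.Agent.Pack.S43MC.G0E12L2
import Fermat.Agent.Pack.S59C.E3L1
import Fermat.Agent.Pack.S59C.E0L2
import Fermat.Agent.Pack.S43GC.G0E12L3
import Fermat.Agent.Pack.S43GC.G0E2L0
import Fermat.Agent.Pack.S43GC.G0E7L1
import Fermat.Agent.Pack.S43GC.G0E9L0
import Fermat.Agent.Pack.S43GC.G0E5L3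
import Fermat.Agent.Pack.S43GC.G0E10L3
import Fermat.Agent.Pack.S59C.E1L1
import Fermat.Agent.Pack.S59C.E2L3
import Fermat.Agent.Pack.S44C.G0E17L2
import Fermat.Agent.Pack.S44C.G0E3L1
import Fermat.Agent.Pack.S43MC.G0E14L2
import Fermat.Agent.Pack.S44C.G0E16L1

set_option linter.all false

-- ===== PACK-BEGIN S41/H161/IK/US.lean
section



/-!
# S41 / IK (helper161): unit symmetry

For `(φ₁, φ₂)` in the kernel of `r₁ + r₂` with `φ₁ U = 0` there is a constant `κ` such that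
`φ₁ γ' = φ₁ γ + k • κ` whenever `γ, γ'` have the same lower-left entry `c`, `q ∤ c`, and
`γ' 1 1 ≡ q ^ (2 k) * γ 1 1 mod c`.
-/

set_option autoImplicit false

namespace Fermat.Agent.S41.H161

open CongruenceSubgroup Matrix.SpecialLinearGroup
open Fermat.Agent.S29.H642 Fermat.Agent.S41.Spec
open scoped MatrixGroups

variable {N q : ℕ} {A : Type*} [AddCommGroup A]

theorem isCoprime_of_prime_not_dvd (hq : q.Prime) {c : ℤ} (hc : ¬ (q : ℤ) ∣ c) :
    IsCoprime c (q : ℤ) := by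
  have hq' : Prime (q : ℤ) := Nat.prime_iff_prime_int.mp hq
  exact (Int.isCoprime_iff_gcd_eq_one.mpr
    (by
      rw [Int.gcd_comm]
      exact Int.isCoprime_iff_gcd_eq_one.mp ((Prime.coprime_iff_not_dvd hq').mpr hc)))

/-- **US**, one step. -/
theorem unit_sym (hq : q.Prime) (hqN : ¬ q ∣ N) {φ₁ φ₂ : Additive (Gamma0 N) →+ A}
    (hker : r₁ N q φ₁ + r₂ N q φ₂ = 0) (hU : φ₁ (Additive.ofMul (upU N)) = 0) :
    ∃ κ : A, ∀ γ γ' : Gamma0 N, (γ' : SL(2, ℤ)) 1 0 = (γ : SL(2, ℤ)) 1 0 →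
      ¬ (q : ℤ) ∣ (γ : SL(2, ℤ)) 1 0 →
      (γ' : SL(2, ℤ)) 1 1 ≡ (q : ℤ) ^ 2 * (γ : SL(2, ℤ)) 1 1 [ZMOD (γ : SL(2, ℤ)) 1 0] →
      φ₁ (Additive.ofMul γ') = φ₁ (Additive.ofMul γ) + κ := by
  -- Bezout for q² and N
  have hcop : IsCoprime ((q : ℤ) * q) (N : ℤ) := by
    have h1 : IsCoprime (q : ℤ) (N : ℤ) := by
      rw [Int.isCoprime_iff_gcd_eq_one, Int.gcd_natCast_natCast]
      exact (Nat.Prime.coprime_iff_not_dvd hq).mpr hqN
    exact h1.mul_left h1
  obtain ⟨u, v, huv⟩ := hcop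
  -- huv : u * (q * q) + v * N = 1
  let w1 : Gamma0 N := mk0 N (q * q) (-v) N u (by linear_combination huv) (dvd_refl _)
  let w1i : Gamma0 N := mk0 N u v (-N) (q * q) (by linear_combination huv)
    (Dvd.dvd.neg_right (dvd_refl _))
  let w1h : Gamma0 N := mk0 N 1 (-v) N (q * q * u) (by linear_combination huv) (dvd_refl _)
  have hw : w1i * w1 = 1 := by
    apply gamma0_ext <;>
      simp only [w1, w1i, mul_00, mul_01, mul_10, mul_11, mk0_00, mk0_01, mk0_10, mk0_11]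
    · show _ = (1 : ℤ); linear_combination huv
    · show _ = (0 : ℤ); ring
    · show _ = (0 : ℤ); ring
    · show _ = (1 : ℤ); linear_combination huv
  have hwφ : φ₁ (Additive.ofMul w1i) = -φ₁ (Additive.ofMul w1) := by
    have : φ₁ (Additive.ofMul w1i) + φ₁ (Additive.ofMul w1) = 0 := by
      rw [← map_add, ← ofMul_mul, hw]; simp
    exact eq_neg_of_add_eq_zero_left this
  refine ⟨φ₁ (Additive.ofMul w1h) - φ₁ (Additive.ofMul w1), ?_⟩
  intro γ γ' h10 hqc h11
  obtain ⟨a, b, c, d, hdet, hc, rfl⟩ := exists_mk0 γ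
  simp only [mk0_10, mk0_11] at h10 hqc h11
  -- make `a ≡ 0 mod q²`
  have hcq : IsCoprime c ((q : ℤ) * q) := by
    have h1 := isCoprime_of_prime_not_dvd hq hqc
    exact h1.mul_right h1
  obtain ⟨m, n, hmn⟩ := hcq
  -- hmn : m * c + n * (q * q) = 1
  -- s = - a m,  a + s c = q² (a n) =: q² t
  set s : ℤ := -(a * m) with hs
  set t : ℤ := a * n with ht
  have hat : a + s * c = q * (q * t) := by
    rw [hs, ht]; linear_combination (-a) * hmn
  set b₀ : ℤ := b + s * d with hb₀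
  have hdet₀ : q * (q * t) * d - b₀ * c = 1 := by
    rw [← hat, hb₀]; linear_combination hdet
  -- γ₀ = upZ s * γ
  have hγ₀ : upZ N s * mk0 N a b c d hdet hc = mk0 N (q * (q * t)) b₀ c d hdet₀ hc := by
    apply gamma0_ext <;>
      simp only [upZ, mul_00, mul_01, mul_10, mul_11, mk0_00, mk0_01, mk0_10, mk0_11]
    · rw [← hat]; ring
    · rw [hb₀]; ring
    · ring
    · ring
  have hφ₀ : φ₁ (Additive.ofMul (mk0 N (q * (q * t)) b₀ c d hdet₀ hc)) =
      φ₁ (Additive.ofMul (mk0 N a b c d hdet hc)) := by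
    rw [← hγ₀, ofMul_mul, map_add, apply_upZ φ₁ hU, zero_add]
  -- γ̂
  have hdeth : t * (q * (q * d)) - b₀ * c = 1 := by linear_combination hdet₀
  set γh : Gamma0 N := mk0 N t b₀ c (q * (q * d)) hdeth hc with hγh
  -- γ₁ = w1i * γ₀, with lower-left entry q (q (-N t + c))
  have hdet₁ : (u * (q * (q * t)) + v * c) * (-N * b₀ + q * q * d) -
      (u * b₀ + v * d) * (q * (q * (-N * t + c))) = 1 := by
    have h1 := det_eq (w1i * mk0 N (q * (q * t)) b₀ c d hdet₀ hc)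
    simp only [w1i, mul_00, mul_01, mul_10, mul_11, mk0_00, mk0_01, mk0_10, mk0_11] at h1
    linear_combination h1
  have hc₁ : (N : ℤ) ∣ -N * t + c := by
    exact dvd_add (Dvd.intro _ (by ring : (N : ℤ) * (-t) = -N * t)) hc
  have hγ₁ : w1i * mk0 N (q * (q * t)) b₀ c d hdet₀ hc =
      mk0 N (u * (q * (q * t)) + v * c) (u * b₀ + v * d) (q * (q * (-N * t + c)))
        (-N * b₀ + q * q * d) hdet₁ (Dvd.dvd.mul_left (Dvd.dvd.mul_left hc₁ _) _) := by
    apply gamma0_ext <;>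
      simp only [w1i, mul_00, mul_01, mul_10, mul_11, mk0_00, mk0_01, mk0_10, mk0_11] <;> ring_nf
  have hT := apply_eq_of_sq hq hqN hker (u * (q * (q * t)) + v * c) (u * b₀ + v * d)
    (-N * t + c) (-N * b₀ + q * q * d) hc₁ hdet₁
  -- γ̂ = w1h * γ̃₁
  have hγh' : γh = w1h * mk0 N (u * (q * (q * t)) + v * c) (q * (q * (u * b₀ + v * d)))
      (-N * t + c) (-N * b₀ + q * q * d) (by linear_combination hdet₁) hc₁ := by
    apply gamma0_ext <;>
      simp only [γh, w1h, mul_00, mul_01, mul_10, mul_11, mk0_00, mk0_01, mk0_10, mk0_11]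
    · linear_combination (-t) * huv
    · linear_combination (-b₀) * huv
    · linear_combination (-c) * huv
    · linear_combination (-(q * q * d)) * huv
  have hφh : φ₁ (Additive.ofMul γh) = φ₁ (Additive.ofMul (mk0 N a b c d hdet hc)) +
      (φ₁ (Additive.ofMul w1h) - φ₁ (Additive.ofMul w1)) := by
    rw [hγh', ofMul_mul, map_add, ← hT, ← hγ₁, ofMul_mul, map_add, hwφ, hφ₀]
    abel
  rw [← hφh]
  apply apply_eq_of_row φ₁ hU
  · simp only [γh, mk0_10]; exact h10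
  · simp only [γh, mk0_10, mk0_11]
    have : (q : ℤ) ^ 2 * d = q * (q * d) := by ring
    rw [← this]; exact h11

/-- **US**, iterated. -/
theorem unit_sym_pow (hq : q.Prime) (hqN : ¬ q ∣ N) {φ₁ φ₂ : Additive (Gamma0 N) →+ A}
    (hker : r₁ N q φ₁ + r₂ N q φ₂ = 0) (hU : φ₁ (Additive.ofMul (upU N)) = 0) :
    ∃ κ : A, ∀ (k : ℕ) (γ γ' : Gamma0 N), (γ' : SL(2, ℤ)) 1 0 = (γ : SL(2, ℤ)) 1 0 →
      ¬ (q : ℤ) ∣ (γ : SL(2, ℤ)) 1 0 →
      (γ' : SL(2, ℤ)) 1 1 ≡ (q : ℤ) ^ (2 * k) * (γ : SL(2, ℤ)) 1 1 [ZMOD (γ : SL(2, ℤ)) 1 0] →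
      φ₁ (Additive.ofMul γ') = φ₁ (Additive.ofMul γ) + k • κ := by
  obtain ⟨κ, hκ⟩ := unit_sym hq hqN hker hU
  refine ⟨κ, ?_⟩
  intro k
  induction k with
  | zero =>
    intro γ γ' h10 _ h11
    rw [zero_smul, add_zero]
    exact apply_eq_of_row φ₁ hU γ γ' h10 (by simpa using h11)
  | succ k ih =>
    intro γ γ' h10 hqc h11
    -- intermediate element with bottom row (c, q^(2k) d)
    have hcop : IsCoprime ((γ : SL(2, ℤ)) 1 0) ((q : ℤ) ^ (2 * k) * (γ : SL(2, ℤ)) 1 1) :=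
      IsCoprime.mul_right ((isCoprime_of_prime_not_dvd hq hqc).pow_right) (isCoprime_row γ)
    obtain ⟨γ'', h10'', h11''⟩ := exists_row hcop (dvd_10 γ)
    have e1 := ih γ γ'' h10'' hqc (by rw [h11''])
    have e2 := hκ γ'' γ' (by rw [h10, h10'']) (by rw [h10'']; exact hqc)
      (by
        rw [h10'', h11'']
        have : (q : ℤ) ^ (2 * (k + 1)) * (γ : SL(2, ℤ)) 1 1 =
            (q : ℤ) ^ 2 * ((q : ℤ) ^ (2 * k) * (γ : SL(2, ℤ)) 1 1) := by ring
        rw [← this]; exact h11)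
    rw [e2, e1, succ_nsmul, add_assoc]

end Fermat.Agent.S41.H161

end
-- ===== PACK-END S41/H161/IK/US.lean

-- ===== PACK-BEGIN S59/H161/Ihara2/Borel.lean
section





/-!
# S59 / cell NM / leaf IHARA2 (helper161): the two Borel subgroups of `Γ₀(N)` at `q`

`G = Γ₀(N)`, `G₁ = Γ₀(N q)` (range of `incl`), `G₂ = Γ₀(N) ∩ Γ⁰(q)` (range of `conjDelta`),
`K = Γ₀(N) ∩ Γ(q) ≤ G₁ ∩ G₂`, `⟨G₁, G₂⟩ = G`.

Main result `t₁_apply_of_mem_Gamma` : for characters `u, v` of `Γ₀(N q)` with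
`r₁' u + r₂' v = 0` on `Γ₀(N q²)`, the transfer `t₁ v` is `(q + 1) v` on `Γ₀(N q) ∩ Γ(q)`.
-/

set_option autoImplicit false

namespace Fermat.Agent.S59.H161

open CongruenceSubgroup Matrix.SpecialLinearGroup
open Fermat.Agent.S29.H642 Fermat.Agent.S41.Spec Fermat.Agent.S41.H161
open scoped MatrixGroups

variable {N q : ℕ} {A : Type*} [AddCommGroup A]

/-- `K = Γ₀(N) ∩ Γ(q)` as a subgroup of `Γ₀(N)`. -/
def coreK (N q : ℕ) : Subgroup (Gamma0 N) := (Gamma q).subgroupOf (Gamma0 N)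

instance coreK_normal (N q : ℕ) : (coreK N q).Normal := by
  unfold coreK
  haveI : (Gamma q).Normal := Gamma_normal q
  infer_instance

theorem mem_coreK_iff (g : Gamma0 N) : g ∈ coreK N q ↔ (g : SL(2, ℤ)) ∈ Gamma q := Iff.rfl

theorem dvd_of_mem_Gamma_10 {g : SL(2, ℤ)} (hg : g ∈ Gamma q) : (q : ℤ) ∣ g 1 0 := by
  rw [Gamma_mem] at hg
  exact (ZMod.intCast_zmod_eq_zero_iff_dvd _ _).mp hg.2.2.1

theorem dvd_of_mem_Gamma_01 {g : SL(2, ℤ)} (hg : g ∈ Gamma q) : (q : ℤ) ∣ g 0 1 := by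
  rw [Gamma_mem] at hg
  exact (ZMod.intCast_zmod_eq_zero_iff_dvd _ _).mp hg.2.1

theorem coreK_le_incl (hq : q.Prime) (hqN : ¬ q ∣ N) : coreK N q ≤ (incl N q).range := by
  intro g hg
  exact (Fermat.Agent.S41.H105.mem_range_incl_iff hq hqN g).mpr (dvd_of_mem_Gamma_10 hg)

theorem coreK_le_conjDelta (hq : q ≠ 0) : coreK N q ≤ (conjDelta N q).range := by
  intro g hg
  exact (Fermat.Agent.S41.H105.mem_range_conjDelta_iff N hq g).mpr (dvd_of_mem_Gamma_01 hg)

/-- `⟨Γ₀(N q), Γ₀(N) ∩ Γ⁰(q)⟩ = Γ₀(N)`. -/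
theorem sup_range_eq_top (hq : q.Prime) (hqN : ¬ q ∣ N) :
    (incl N q).range ⊔ (conjDelta N q).range = ⊤ := by
  have hqZ : Prime (q : ℤ) := Nat.prime_iff_prime_int.mp hq
  have hNq : IsCoprime (N : ℤ) (q : ℤ) := by
    rw [Int.isCoprime_iff_gcd_eq_one, Int.gcd_natCast_natCast]
    exact ((Nat.Prime.coprime_iff_not_dvd hq).mpr hqN).symm
  have key : ∀ g : Gamma0 N, ¬ (q : ℤ) ∣ (g : SL(2, ℤ)) 0 0 →
      g ∈ (incl N q).range ⊔ (conjDelta N q).range := by
    intro g ha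
    have hcop : IsCoprime ((N : ℤ) * (g : SL(2, ℤ)) 0 0) (q : ℤ) :=
      hNq.mul_left (isCoprime_of_prime_not_dvd hq ha)
    obtain ⟨s, r, hsr⟩ := hcop
    set t : ℤ := -((g : SL(2, ℤ)) 1 0 * s) with ht
    let L : Gamma0 N := mk0 N 1 0 (N * t) 1 (by ring) (Dvd.intro _ rfl)
    have hL : L ∈ (conjDelta N q).range :=
      (Fermat.Agent.S41.H105.mem_range_conjDelta_iff N hq.ne_zero L).mpr (by simp [L])
    have hLg : L * g ∈ (incl N q).range := by
      rw [Fermat.Agent.S41.H105.mem_range_incl_iff hq hqN, mul_10]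
      simp only [L, mk0_10, mk0_11, one_mul]
      refine ⟨(g : SL(2, ℤ)) 1 0 * r, ?_⟩
      rw [ht]
      linear_combination (-((g : SL(2, ℤ)) 1 0)) * hsr
    have e : g = L⁻¹ * (L * g) := by group
    rw [e]
    exact Subgroup.mul_mem _ (Subgroup.inv_mem _ (Subgroup.mem_sup_right hL))
      (Subgroup.mem_sup_left hLg)
  rw [eq_top_iff]
  intro g _
  by_cases ha : (q : ℤ) ∣ (g : SL(2, ℤ)) 0 0
  · -- use `U g`
    have hU : upU N ∈ (incl N q).range :=
      (Fermat.Agent.S41.H105.mem_range_incl_iff hq hqN _).mpr (by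
        rw [← upZ_one]; simp [upZ])
    have hUg : upU N * g ∈ (incl N q).range ⊔ (conjDelta N q).range := by
      apply key
      rw [mul_00, ← upZ_one]
      simp only [upZ, mk0_00, mk0_01, one_mul]
      intro h
      have hc : (q : ℤ) ∣ (g : SL(2, ℤ)) 1 0 := (dvd_add_right ha).mp h
      have hdet := det_eq g
      have h1 : (q : ℤ) ∣ 1 := by
        rw [← hdet]
        exact dvd_sub (Dvd.dvd.mul_right ha _) (Dvd.dvd.mul_left hc _)
      exact hqZ.not_unit (isUnit_of_dvd_one h1)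
    have e : g = (upU N)⁻¹ * (upU N * g) := by group
    rw [e]
    exact Subgroup.mul_mem _ (Subgroup.inv_mem _ (Subgroup.mem_sup_left hU)) hUg
  · exact key g ha

/-- `incl ∘ c_δ' = c_δ ∘ incl'` on `Γ₀(N q²)`. -/
theorem incl_conjDelta (γ : Gamma0 (N * q * q)) :
    incl N q (conjDelta (N * q) q γ) = conjDelta N q (incl (N * q) q γ) := rfl

/-- The two characters `v` on `G₁` and `-u ∘ c_δ⁻¹` on `G₂` agree on `G₁ ∩ G₂`. -/
theorem agree_of_rel (hq : q ≠ 0) (u v : Additive (Gamma0 (N * q)) →+ A)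
    (hR : r₁ (N * q) q u + r₂ (N * q) q v = 0) (a b : Gamma0 (N * q))
    (hab : incl N q a = conjDelta N q b) :
    v (Additive.ofMul a) = (-u) (Additive.ofMul b) := by
  have h01 : (q : ℤ) ∣ (a : SL(2, ℤ)) 0 1 := by
    have h := congrArg (fun g : Gamma0 N => (g : SL(2, ℤ)) 0 1) hab
    simp only [incl_apply, conjDelta_01] at h
    exact ⟨_, h⟩
  obtain ⟨a', rfl⟩ := (Fermat.Agent.S41.H105.mem_range_conjDelta_iff (N * q) hq a).mpr h01
  rw [incl_conjDelta] at hab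
  have hb : b = incl (N * q) q a' :=
    (Fermat.Agent.S41.H105.conjDelta_injective N hq hab).symm
  have h := ker_apply hR a'
  rw [hb, AddMonoidHom.neg_apply]
  exact eq_neg_of_add_eq_zero_right h

/-- `v` restricted to `K` is invariant under conjugation by `Γ₀(N)`. -/
theorem conj_invariant (hq : q.Prime) (hqN : ¬ q ∣ N) (u v : Additive (Gamma0 (N * q)) →+ A)
    (hR : r₁ (N * q) q u + r₂ (N * q) q v = 0) (n n' : Gamma0 (N * q)) (g : Gamma0 N)
    (hn : incl N q n ∈ coreK N q) (hc : incl N q n' = g⁻¹ * incl N q n * g) :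
    v (Additive.ofMul n') = v (Additive.ofMul n) :=
  conj_invariant_of_two (incl N q) (conjDelta N q) (Fermat.Agent.S41.H105.incl_injective N q)
    v (-u) (agree_of_rel hq.ne_zero u v hR) (coreK N q) (coreK_le_incl hq hqN)
    (coreK_le_conjDelta hq.ne_zero) (sup_range_eq_top hq hqN) n n' g hn hc

/-- **The transfer on `K`**: `(t₁ v)(n) = (q + 1) v(n)` for `n ∈ Γ₀(N q) ∩ Γ(q)`. -/
theorem t₁_apply_of_mem_Gamma (hN : N ≠ 0) (hq : q.Prime) (hqN : ¬ q ∣ N)
    (u v : Additive (Gamma0 (N * q)) →+ A)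
    (hR : r₁ (N * q) q u + r₂ (N * q) q v = 0) (n : Gamma0 (N * q))
    (hn : (n : SL(2, ℤ)) ∈ Gamma q) :
    t₁ N q v (Additive.ofMul (incl N q n)) = (q + 1) • v (Additive.ofMul n) := by
  haveI : (incl N q).range.FiniteIndex :=
    ⟨by rw [Fermat.Agent.S41.H105.index_range_incl hN hq hqN]; omega⟩
  have h := transferAlong_apply_of_normal (incl N q) (Fermat.Agent.S41.H105.incl_injective N q)
    v (coreK N q) (coreK_le_incl hq hqN)
    (fun n n' g hn hc => conj_invariant hq hqN u v hR n n' g hn hc) n hn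
  rw [Fermat.Agent.S41.H105.index_range_incl hN hq hqN] at h
  exact h

end Fermat.Agent.S59.H161

end
-- ===== PACK-END S59/H161/Ihara2/Borel.lean

-- ===== PACK-BEGIN S41/H161/IK/Main.lean
section





/-!
# S41 / IK (helper161): the main computation

`(T_l φ₁)(γ) = 2 φ₁(γ)` for `(φ₁, φ₂)` in the kernel of `r₁ + r₂`, `γ` with lower-left entry `c`
prime to `q`, `l ≡ 1 mod c`, and `p ∣ ord_l(q^{2k})` for some `k` with `q^{2k} ≡ 1 mod c`.
-/

set_option autoImplicit false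

namespace Fermat.Agent.S41.H161

open CongruenceSubgroup Matrix.SpecialLinearGroup
open Fermat.Agent.S29.H642 Fermat.Agent.S41.Spec Fermat.Agent.S41.H281
open scoped MatrixGroups

variable {N q p : ℕ} {A : Type*} [AddCommGroup A]

theorem ik_apply (hq : q.Prime) (hqN : ¬ q ∣ N) (hp : p.Prime) (hp2 : p ≠ 2)
    (hA : ∀ a : A, p • a = 0) {φ₁ φ₂ : Additive (Gamma0 N) →+ A}
    (hker : r₁ N q φ₁ + r₂ N q φ₂ = 0) (hU : φ₁ (Additive.ofMul (upU N)) = 0)
    (γ : Gamma0 N) (hqc : ¬ (q : ℤ) ∣ (γ : SL(2, ℤ)) 1 0)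
    (l : ℕ) [Fact l.Prime] (hl : ¬ l ∣ N) (hlq : l ≠ q)
    (hl1 : (l : ℤ) ≡ 1 [ZMOD (γ : SL(2, ℤ)) 1 0])
    (hk : ∃ k : ℕ, (q : ℤ) ^ (2 * k) ≡ 1 [ZMOD (γ : SL(2, ℤ)) 1 0] ∧
      p ∣ orderOf ((q : ZMod l) ^ (2 * k))) :
    heckeTransfer hl φ₁ (Additive.ofMul γ) = (2 : ℕ) • φ₁ (Additive.ofMul γ) := by
  classical
  have hlp : l.Prime := Fact.out
  have hl0 : (l : ℤ) ≠ 0 := l_ne_zero_int
  set c : ℤ := (γ : SL(2, ℤ)) 1 0 with hc
  set d : ℤ := (γ : SL(2, ℤ)) 1 1 with hd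
  have hcd : IsCoprime c d := isCoprime_row γ
  -- `l ∤ c`
  have hlc : ¬ (l : ℤ) ∣ c := by
    intro h
    have h1 : c ∣ 1 - (l : ℤ) := Int.modEq_iff_dvd.mp hl1
    have h2 : (l : ℤ) ∣ 1 := by
      have := dvd_add (dvd_trans h h1) (dvd_refl (l : ℤ))
      simpa using this
    have h3 : (l : ℤ) = 1 ∨ (l : ℤ) = -1 := Int.isUnit_iff.mp (isUnit_of_dvd_one h2)
    rcases h3 with h3 | h3
    · exact hlp.one_lt.ne' (by exact_mod_cast h3)
    · have : (0 : ℤ) ≤ l := Int.natCast_nonneg _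
      omega
  have hcl : ((c : ℤ) : ZMod l) ≠ 0 := by
    rwa [Ne, ZMod.intCast_zmod_eq_zero_iff_dvd]
  have hcoplc : (l : ℤ).natAbs.Coprime c.natAbs := by
    rw [Int.natAbs_natCast]
    exact (Nat.Prime.coprime_iff_not_dvd hlp).mpr (fun h => hlc (Int.natCast_dvd.mpr h))
  obtain ⟨κ, hκ⟩ := unit_sym_pow hq hqN hker hU
  obtain ⟨k, hk1, hk2⟩ := hk
  -- the unit `q mod l`
  have hql : ((q : ℕ) : ZMod l) ≠ 0 := by
    rw [Ne, ZMod.natCast_eq_zero_iff]
    intro h
    exact hlq ((Nat.prime_dvd_prime_iff_eq hlp hq).mp h)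
  let qu : (ZMod l)ˣ := Units.mk0 (q : ZMod l) hql
  set n := orderOf (qu ^ (2 * k)) with hn
  have hn' : orderOf ((q : ZMod l) ^ (2 * k)) = n := by
    rw [hn, ← orderOf_units]
    simp [qu]
  have hpn : p ∣ n := hn' ▸ hk2
  have hn0 : 0 < n := orderOf_pos _
  set K := k * (n / p) with hK
  let v : (ZMod l)ˣ := (qu ^ (2 * k)) ^ (n / p)
  have hv : orderOf v = p := by
    rw [orderOf_pow_of_dvd (Nat.div_pos (Nat.le_of_dvd hn0 hpn) hp.pos).ne'
      (Nat.div_dvd_of_dvd hpn)]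
    exact Nat.div_div_self hpn hn0.ne'
  have hvq : ((v : (ZMod l)ˣ) : ZMod l) = (q : ZMod l) ^ (2 * K) := by
    simp only [v, qu, hK, Units.val_pow_eq_pow_val, Units.val_mk0]
    rw [← pow_mul, mul_assoc]
  have hqK : (q : ℤ) ^ (2 * K) ≡ 1 [ZMOD c] := by
    have := hk1.pow (n / p)
    rw [one_pow, ← pow_mul] at this
    rwa [hK, ← mul_assoc]
  have hqlc : ¬ (q : ℤ) ∣ (l : ℤ) * c := by
    intro h
    rcases (Nat.prime_iff_prime_int.mp hq).dvd_mul.mp h with h | h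
    · have : q ∣ l := by exact_mod_cast h
      exact hlq ((Nat.prime_dvd_prime_iff_eq hq hlp).mp this).symm
    · exact hqc h
  -- notation
  set π := hPerm l (γ : SL(2, ℤ)) with hπ
  set f : OnePoint (ZMod l) → A := fun x => φ₁ (Additive.ofMul (hElt hl γ x)) with hf
  rw [heckeTransfer_apply]
  show ∑ x, f x = _
  have hπinf : π OnePoint.infty ≠ OnePoint.infty := hPerm_infty_ne_infty hl γ hlc
  set xinf := π.symm OnePoint.infty with hxinfdef
  have hxinf : xinf ≠ OnePoint.infty := by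
    intro h
    apply hπinf
    have h1 : π xinf = OnePoint.infty := by rw [hxinfdef, Equiv.apply_symm_apply]
    rw [h] at h1
    exact h1
  -- the two special terms
  have hfinf : f OnePoint.infty = φ₁ (Additive.ofMul γ) := by
    obtain ⟨j', hj'⟩ := OnePoint.ne_infty_iff_exists.mp hπinf
    obtain ⟨h10, h11⟩ := hElt_row_infty_coe hl γ j' hj'.symm
    apply apply_eq_of_row φ₁ hU _ _ h10
    rw [← hc, ← hd]
    rw [← hc, ← hd] at h11
    have e1 : ((hElt hl γ OnePoint.infty : Gamma0 N) : SL(2, ℤ)) 1 1 * l ≡ d [ZMOD c] := by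
      rw [h11, Int.modEq_iff_dvd]
      exact ⟨(j'.val : ℤ), by ring⟩
    have e2 : ((hElt hl γ OnePoint.infty : Gamma0 N) : SL(2, ℤ)) 1 1 * l ≡
        ((hElt hl γ OnePoint.infty : Gamma0 N) : SL(2, ℤ)) 1 1 * 1 [ZMOD c] :=
      Int.ModEq.mul_left _ hl1
    rw [mul_one] at e2
    exact e2.symm.trans e1
  have hfxinf : f xinf = φ₁ (Additive.ofMul γ) := by
    obtain ⟨j, hj⟩ := OnePoint.ne_infty_iff_exists.mp hxinf
    have hπj : π (j : OnePoint (ZMod l)) = OnePoint.infty := by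
      rw [hj, hxinfdef, Equiv.apply_symm_apply]
    obtain ⟨h10, h11⟩ := hElt_row_coe_infty hl γ j hπj
    show φ₁ (Additive.ofMul (hElt hl γ xinf)) = _
    rw [← hj]
    apply apply_eq_of_row φ₁ hU _ _ h10
    rw [← hc, ← hd, h11]
    have := Int.ModEq.mul_right d hl1
    rwa [one_mul] at this
  -- the generic terms
  let jfun : (ZMod l)ˣ → ZMod l := fun e => (((d : ℤ) : ZMod l) - e) * ((c : ℤ) : ZMod l)⁻¹
  let xfun : (ZMod l)ˣ → OnePoint (ZMod l) := fun e => π.symm ((jfun e : ZMod l) : OnePoint (ZMod l))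
  have hπx : ∀ e, π (xfun e) = ((jfun e : ZMod l) : OnePoint (ZMod l)) := fun e => by
    simp only [xfun, Equiv.apply_symm_apply]
  have hcast : ∀ e : (ZMod l)ˣ, (((d - c * ((jfun e).val : ℤ) : ℤ)) : ZMod l) = e := by
    intro e
    push_cast
    rw [ZMod.natCast_zmod_val]
    simp only [jfun]
    field_simp
    ring
  have hxne : ∀ e, xfun e ≠ OnePoint.infty := by
    intro e h
    have h1 : π OnePoint.infty = ((jfun e : ZMod l) : OnePoint (ZMod l)) := by
      rw [← h]; exact hπx e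
    obtain ⟨_, h11⟩ := hElt_row_infty_coe hl γ (jfun e) h1
    rw [← hc, ← hd] at h11
    have h2 : ((((hElt hl γ OnePoint.infty : Gamma0 N) : SL(2, ℤ)) 1 1 * (l : ℤ) : ℤ) : ZMod l) =
        (((d - c * ((jfun e).val : ℤ) : ℤ)) : ZMod l) := congrArg Int.cast h11
    rw [hcast e] at h2
    push_cast at h2
    rw [ZMod.natCast_self, mul_zero] at h2
    exact e.ne_zero h2.symm
  have hrow : ∀ e, ((hElt hl γ (xfun e) : Gamma0 N) : SL(2, ℤ)) 1 0 = l * c ∧
      ((hElt hl γ (xfun e) : Gamma0 N) : SL(2, ℤ)) 1 1 = d - c * ((jfun e).val : ℤ) := by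
    intro e
    obtain ⟨j, hj⟩ := OnePoint.ne_infty_iff_exists.mp (hxne e)
    have := hElt_row_coe_coe hl γ j (jfun e) (by rw [hj]; exact hπx e)
    rw [hj] at this
    exact this
  have hgen : ∑ x ∈ Finset.univ.filter (fun x => x ≠ OnePoint.infty ∧ π x ≠ OnePoint.infty), f x =
      ∑ e : (ZMod l)ˣ, f (xfun e) := by
    symm
    refine Finset.sum_bij (fun e _ => xfun e) ?_ ?_ ?_ ?_
    · intro e _
      simp only [Finset.mem_filter, Finset.mem_univ, true_and]
      exact ⟨hxne e, by rw [hπx]; exact OnePoint.coe_ne_infty _⟩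
    · intro e₁ _ e₂ _ h
      have h1 : ((jfun e₁ : ZMod l) : OnePoint (ZMod l)) = ((jfun e₂ : ZMod l) : OnePoint (ZMod l)) := by
        rw [← hπx, ← hπx, h]
      have h2 : jfun e₁ = jfun e₂ := OnePoint.coe_injective h1
      have h3 : (((d : ℤ) : ZMod l) - e₁) = (((d : ℤ) : ZMod l) - e₂) :=
        mul_right_cancel₀ (inv_ne_zero hcl) h2
      exact Units.ext (by linear_combination -h3)
    · intro x hx
      simp only [Finset.mem_filter, Finset.mem_univ, true_and] at hx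
      obtain ⟨j, hj⟩ := OnePoint.ne_infty_iff_exists.mp hx.1
      obtain ⟨j', hj'⟩ := OnePoint.ne_infty_iff_exists.mp hx.2
      obtain ⟨h10, h11⟩ := hElt_row_coe_coe hl γ j j' (by rw [hj, hj'])
      rw [← hc] at h10
      rw [← hc, ← hd] at h11
      -- e = d - c j' is nonzero mod l
      have hcop := isCoprime_row (hElt hl γ (j : OnePoint (ZMod l)))
      rw [h10, h11] at hcop
      have hne : (((d : ℤ) : ZMod l) - ((c : ℤ) : ZMod l) * j') ≠ 0 := by
        intro h0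
        have h1 : (((d - c * (j'.val : ℤ) : ℤ)) : ZMod l) = 0 := by
          push_cast
          rw [ZMod.natCast_zmod_val]
          exact h0
        rw [ZMod.intCast_zmod_eq_zero_iff_dvd] at h1
        have h2 : IsCoprime (l : ℤ) (d - c * (j'.val : ℤ)) := hcop.of_mul_left_left
        have h3 : IsUnit (l : ℤ) := h2.isUnit_of_dvd' (dvd_refl _) h1
        have h4 : (l : ℤ) = 1 ∨ (l : ℤ) = -1 := Int.isUnit_iff.mp h3
        rcases h4 with h4 | h4
        · exact hlp.one_lt.ne' (by exact_mod_cast h4)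
        · have : (0 : ℤ) ≤ l := Int.natCast_nonneg _
          omega
      refine ⟨Units.mk0 _ hne, Finset.mem_univ _, ?_⟩
      have hj2 : jfun (Units.mk0 _ hne) = j' := by
        simp only [jfun, Units.val_mk0]
        field_simp
        ring
      show π.symm ((jfun (Units.mk0 _ hne) : ZMod l) : OnePoint (ZMod l)) = x
      rw [hj2, hj', Equiv.symm_apply_apply]
    · intro e _
      rfl
  have hshift : ∀ e : (ZMod l)ˣ, f (xfun (v * e)) = f (xfun e) + K • κ := by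
    intro e
    obtain ⟨a10, a11⟩ := hrow e
    obtain ⟨b10, b11⟩ := hrow (v * e)
    apply hκ K _ _ (by rw [a10, b10]) (by rw [a10]; exact hqlc)
    rw [a10, a11, b11]
    apply (Int.modEq_and_modEq_iff_modEq_mul hcoplc).mp
    constructor
    · rw [← ZMod.intCast_eq_intCast_iff]
      rw [hcast (v * e)]
      push_cast
      have := hcast e
      push_cast at this
      rw [this, hvq]
    · have e1 : d - c * ((jfun (v * e)).val : ℤ) ≡ d [ZMOD c] := by
        rw [Int.modEq_iff_dvd]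
        exact ⟨((jfun (v * e)).val : ℤ), by ring⟩
      have e2 : d - c * ((jfun e).val : ℤ) ≡ d [ZMOD c] := by
        rw [Int.modEq_iff_dvd]
        exact ⟨((jfun e).val : ℤ), by ring⟩
      have e3 := Int.ModEq.mul hqK e2
      rw [one_mul] at e3
      exact e1.trans e3.symm
  have hzero : ∑ e : (ZMod l)ˣ, f (xfun e) = 0 :=
    sum_eq_zero_of_shift hp hp2 hA v hv (fun e => f (xfun e)) (K • κ) hshift
  -- assemble
  have hsplit := Finset.sum_filter_add_sum_filter_not Finset.univ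
    (fun x => x ≠ OnePoint.infty ∧ π x ≠ OnePoint.infty) f
  have hnot : Finset.univ.filter (fun x => ¬ (x ≠ OnePoint.infty ∧ π x ≠ OnePoint.infty)) =
      {OnePoint.infty, xinf} := by
    ext x
    simp only [Finset.mem_filter, Finset.mem_univ, true_and, Finset.mem_insert,
      Finset.mem_singleton, not_and_or, not_not]
    constructor
    · rintro (h | h)
      · exact Or.inl h
      · exact Or.inr (by rw [hxinfdef, ← h, Equiv.symm_apply_apply])
    · rintro (h | h)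
      · exact Or.inl h
      · exact Or.inr (by rw [h, hxinfdef, Equiv.apply_symm_apply])
  rw [← hsplit, hnot, Finset.sum_pair (Ne.symm hxinf), hgen, hzero, hfinf, hfxinf, zero_add, two_nsmul]

end Fermat.Agent.S41.H161

end
-- ===== PACK-END S41/H161/IK/Main.lean

-- ===== PACK-BEGIN S59/TW/H959/Abs.lean
section


/-!
# Row S59 / HARD, cell TW: from a Taylor–Wiles level to a patching level (helper959)

Pure algebra.  Data: a surjection `g : Λ = 𝒪⟦X₁..X_r⟧ ↠ T_Q`, a `T_Q`-module `M_Q`, elements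
`w_i ∈ T_Q` ("diamond operators"), a substitution `φ : Λ → Λ` with `g (φ X_i) = w_i - 1`,
a surjection `ψ : Λ ↠ R` with `ψ (φ X_i) = 0`, a `ψ`-semilinear surjection `π_Q : M_Q → M`
with kernel `(w_i - 1) M_Q`, such that `M_Q / (w_i^m - 1)` is free over the group ring
`𝒪[(ℤ/m)^r]` (`IsGroupRingBasis`) and `Λ` is spanned modulo `J = ((1+X_j)^m - 1)` by the
group-ring monomials (`WeierstrassStatement`).  Then `N := M_Q / (w_i^m - 1) M_Q` is a
`Algebra.PatchingLevel 𝒪 r R M J`.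
-/

set_option autoImplicit false
set_option linter.style.haveILetI false
set_option linter.unusedSectionVars false

open MvPowerSeries

namespace Fermat.Agent.S59.TW.H959

section Abs

variable {𝒪 : Type} [CommRing 𝒪] {r : ℕ} {R : Type} [CommRing R] [Algebra 𝒪 R]
  {M : Type} [AddCommGroup M] [Module R M]
  {TQ : Type} [CommRing TQ] [Algebra 𝒪 TQ] {MQ : Type} [AddCommGroup MQ] [Module TQ MQ]

/-- the relation ideal `((1 + X_j)^m - 1 : j)` of `𝒪⟦X₁..X_r⟧` -/
noncomputable abbrev relJ (𝒪 : Type) [CommRing 𝒪] (r m : ℕ) : Ideal (MvPowerSeries (Fin r) 𝒪) :=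
  Ideal.span (Set.range fun j : Fin r => ((1 + X j) ^ m - 1 : MvPowerSeries (Fin r) 𝒪))

/-- the group-ring monomial combination `∑_a c_a ∏ (1+X_i)^(a_i)` -/
noncomputable def grpElt (m : ℕ) (c : (Fin r → Fin m) → 𝒪) : MvPowerSeries (Fin r) 𝒪 :=
  ∑ a, algebraMap 𝒪 (MvPowerSeries (Fin r) 𝒪) (c a) * ∏ i, (1 + X i) ^ (a i : ℕ)

/-- the submodule `(w_i^m - 1 : i) M_Q` -/
abbrev relK (MQ : Type) [AddCommGroup MQ] [Module TQ MQ] (m : ℕ) (w : Fin r → TQ) :
    Submodule TQ MQ :=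
  Ideal.span (Set.range fun i => w i ^ m - 1) • (⊤ : Submodule TQ MQ)

variable (m : ℕ) (g : MvPowerSeries (Fin r) 𝒪 →ₐ[𝒪] TQ)
  (ψ : MvPowerSeries (Fin r) 𝒪 →ₐ[𝒪] R)
  (φ : MvPowerSeries (Fin r) 𝒪 →ₐ[𝒪] MvPowerSeries (Fin r) 𝒪)
  (w : Fin r → TQ)

theorem g_phi_one_add_X (hgφ : ∀ i, g (φ (X i)) = w i - 1) (i : Fin r) :
    g (φ (1 + X i)) = w i := by
  rw [map_add, map_add, map_one, map_one, hgφ]
  ring

theorem g_phi_grpElt (hgφ : ∀ i, g (φ (X i)) = w i - 1) (c : (Fin r → Fin m) → 𝒪) :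
    g (φ (grpElt m c)) = ∑ a, algebraMap 𝒪 TQ (c a) * ∏ i, w i ^ (a i : ℕ) := by
  unfold grpElt
  rw [map_sum, map_sum]
  refine Finset.sum_congr rfl fun a _ => ?_
  rw [map_mul, map_mul, AlgHom.commutes, AlgHom.commutes, map_prod, map_prod]
  congr 1
  refine Finset.prod_congr rfl fun i _ => ?_
  rw [map_pow, map_pow, g_phi_one_add_X g φ w hgφ]

theorem g_phi_mem_of_mem_relJ (hgφ : ∀ i, g (φ (X i)) = w i - 1)
    {f : MvPowerSeries (Fin r) 𝒪} (hf : f ∈ relJ 𝒪 r m) :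
    g (φ f) ∈ Ideal.span (Set.range fun i => w i ^ m - 1) := by
  have : relJ 𝒪 r m ≤ (Ideal.span (Set.range fun i => w i ^ m - 1)).comap
      ((g : MvPowerSeries (Fin r) 𝒪 →+* TQ).comp (φ : _ →+* MvPowerSeries (Fin r) 𝒪)) := by
    rw [Ideal.span_le]
    rintro _ ⟨j, rfl⟩
    show g (φ ((1 + X j) ^ m - 1)) ∈ Ideal.span (Set.range fun i => w i ^ m - 1)
    rw [map_sub, map_sub, map_pow, map_pow, map_one, map_one, g_phi_one_add_X g φ w hgφ]
    exact Ideal.subset_span ⟨j, rfl⟩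
  exact this hf

theorem relK_le_ker (πQ : MQ →+ M)
    (hker : ∀ x : MQ, πQ x = 0 ↔
      x ∈ Ideal.span (Set.range fun i => w i - 1) • (⊤ : Submodule TQ MQ)) :
    ∀ x ∈ relK MQ m w, πQ x = 0 := by
  intro x hx
  rw [hker]
  have hle : Ideal.span (Set.range fun i => w i ^ m - 1) ≤
      Ideal.span (Set.range fun i => w i - 1) := by
    rw [Ideal.span_le]
    rintro _ ⟨i, rfl⟩
    have hdvd : w i - 1 ∣ w i ^ m - 1 := by
      have := sub_dvd_pow_sub_pow (w i) 1 m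
      rwa [one_pow] at this
    obtain ⟨c, hc⟩ := hdvd
    show w i ^ m - 1 ∈ Ideal.span (Set.range fun i => w i - 1)
    rw [hc]
    exact Ideal.mul_mem_right _ _ (Ideal.subset_span ⟨i, rfl⟩)
  exact Submodule.smul_mono_left hle hx

/-- **From a Taylor–Wiles level to a patching level.** -/
theorem exists_patchingLevel
    (hψ : Function.Surjective ψ)
    (hgφ : ∀ i, g (φ (X i)) = w i - 1) (hψφ : ∀ i, ψ (φ (X i)) = 0)
    (πQ : MQ →+ M) (hπ : ∀ (f : MvPowerSeries (Fin r) 𝒪) (x : MQ), πQ (g f • x) = ψ f • πQ x)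
    (hπs : Function.Surjective πQ)
    (hker : ∀ x : MQ, πQ x = 0 ↔
      x ∈ Ideal.span (Set.range fun i => w i - 1) • (⊤ : Submodule TQ MQ))
    {d : ℕ} (b : Fin d → MQ) (hb : IsGroupRingBasis 𝒪 m w b)
    (hW : ∀ f : MvPowerSeries (Fin r) 𝒪, ∃ c : (Fin r → Fin m) → 𝒪,
      f - grpElt m c ∈ relJ 𝒪 r m) :
    Nonempty (Algebra.PatchingLevel 𝒪 r R M (relJ 𝒪 r m)) := by
  classical
  -- the module `N`
  letI instN : Module (MvPowerSeries (Fin r) 𝒪) (MQ ⧸ relK MQ m w) :=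
    Module.compHom (MQ ⧸ relK MQ m w) (g : MvPowerSeries (Fin r) 𝒪 →+* TQ)
  have hsmul : ∀ (f : MvPowerSeries (Fin r) 𝒪) (x : MQ),
      f • (Submodule.Quotient.mk x : MQ ⧸ relK MQ m w) = Submodule.Quotient.mk (g f • x) :=
    fun f x => rfl
  -- the map `π`
  let π₀ : (MQ ⧸ relK MQ m w) →+ M :=
    QuotientAddGroup.lift (relK MQ m w).toAddSubgroup πQ
      (fun x hx => relK_le_ker m w πQ hker x hx)
  have hπ₀ : ∀ x : MQ, π₀ (Submodule.Quotient.mk x) = πQ x := fun x => rfl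
  -- vanishing of `J`
  have hJ0 : ∀ f ∈ relJ 𝒪 r m, ∀ x : MQ,
      (φ f) • (Submodule.Quotient.mk x : MQ ⧸ relK MQ m w) = 0 := by
    intro f hf x
    rw [hsmul, Submodule.Quotient.mk_eq_zero]
    exact Submodule.smul_mem_smul (g_phi_mem_of_mem_relJ m g φ w hgφ hf) Submodule.mem_top
  -- sums
  have hsum : ∀ c : Fin d → MvPowerSeries (Fin r) 𝒪,
      (∑ j, φ (c j) • (Submodule.Quotient.mk (b j) : MQ ⧸ relK MQ m w)) =
        Submodule.Quotient.mk (∑ j, g (φ (c j)) • b j) := by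
    intro c
    have h1 : (Submodule.Quotient.mk (∑ j, g (φ (c j)) • b j) : MQ ⧸ relK MQ m w) =
        ∑ j, Submodule.Quotient.mk (g (φ (c j)) • b j) :=
      map_sum (Submodule.mkQ (relK MQ m w)) _ _
    rw [h1]
    exact Finset.sum_congr rfl fun j _ => hsmul _ _
  have hgrp : ∀ c : Fin d → (Fin r → Fin m) → 𝒪,
      (∑ j, g (φ (grpElt m (c j))) • b j) =
        ∑ j, ∑ a, (algebraMap 𝒪 TQ (c j a) * ∏ i, w i ^ (a i : ℕ)) • b j := by
    intro c
    refine Finset.sum_congr rfl fun j _ => ?_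
    rw [g_phi_grpElt m g φ w hgφ, Finset.sum_smul]
  refine ⟨
    { N := MQ ⧸ relK MQ m w
      instAddCommGroup := inferInstance
      instModule := instN
      φ := φ
      ψ := ψ
      ψ_surjective := hψ
      ψ_φ_X := hψφ
      π := π₀
      π_smul := ?_
      π_surjective := ?_
      ker_π := ?_
      d := d
      b := fun j => Submodule.Quotient.mk (b j)
      b_span := ?_
      b_rel := ?_ }⟩
  · -- π_smul
    intro f x
    obtain ⟨x, rfl⟩ := Submodule.Quotient.mk_surjective _ x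
    rw [hsmul, hπ₀, hπ₀, hπ]
  · -- π_surjective
    intro y
    obtain ⟨x, rfl⟩ := hπs y
    exact ⟨Submodule.Quotient.mk x, hπ₀ x⟩
  · -- ker_π
    intro x
    obtain ⟨x, rfl⟩ := Submodule.Quotient.mk_surjective _ x
    rw [hπ₀]
    constructor
    · intro hx
      have hx' := (hker x).mp hx
      -- every `t • y`, `t ∈ (w_i - 1)`, lies in the submodule
      have key : ∀ t ∈ Ideal.span (Set.range fun i => w i - 1), ∀ y : MQ,
          (Submodule.Quotient.mk (t • y) : MQ ⧸ relK MQ m w) ∈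
            Ideal.span (Set.range fun i : Fin r => φ (X i)) •
              (⊤ : Submodule (MvPowerSeries (Fin r) 𝒪) (MQ ⧸ relK MQ m w)) := by
        intro t ht
        refine Submodule.span_induction (p := fun t _ => ∀ y : MQ,
          (Submodule.Quotient.mk (t • y) : MQ ⧸ relK MQ m w) ∈
            Ideal.span (Set.range fun i : Fin r => φ (X i)) •
              (⊤ : Submodule (MvPowerSeries (Fin r) 𝒪) (MQ ⧸ relK MQ m w))) ?_ ?_ ?_ ?_ ht
        · rintro _ ⟨i, rfl⟩ y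
          have : (Submodule.Quotient.mk ((w i - 1) • y) : MQ ⧸ relK MQ m w) =
              φ (X i) • (Submodule.Quotient.mk y : MQ ⧸ relK MQ m w) := by
            rw [hsmul, hgφ]
          rw [this]
          exact Submodule.smul_mem_smul (Ideal.subset_span ⟨i, rfl⟩) Submodule.mem_top
        · intro y
          rw [zero_smul]
          exact Submodule.zero_mem _
        · intro s t _ _ hs ht y
          rw [add_smul]
          exact Submodule.add_mem _ (hs y) (ht y)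
        · intro s t _ ht y
          rw [smul_eq_mul, mul_comm, mul_smul]
          exact ht (s • y)
      refine Submodule.smul_induction_on (p := fun x =>
        (Submodule.Quotient.mk x : MQ ⧸ relK MQ m w) ∈
          Ideal.span (Set.range fun i : Fin r => φ (X i)) •
            (⊤ : Submodule (MvPowerSeries (Fin r) 𝒪) (MQ ⧸ relK MQ m w))) hx' ?_ ?_
      · intro t ht y _
        exact key t ht y
      · intro x y hx hy
        exact Submodule.add_mem _ hx hy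
    · intro hx
      have hψ0 : ∀ f ∈ Ideal.span (Set.range fun i : Fin r => φ (X i)), ψ f = 0 := by
        intro f hf
        have hle : Ideal.span (Set.range fun i : Fin r => φ (X i)) ≤
            RingHom.ker (ψ : MvPowerSeries (Fin r) 𝒪 →+* R) := by
          rw [Ideal.span_le]
          rintro _ ⟨i, rfl⟩
          exact hψφ i
        exact hle hf
      have key : ∀ y ∈ Ideal.span (Set.range fun i : Fin r => φ (X i)) •
          (⊤ : Submodule (MvPowerSeries (Fin r) 𝒪) (MQ ⧸ relK MQ m w)), π₀ y = 0 := by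
        intro y hy
        refine Submodule.smul_induction_on (p := fun y => π₀ y = 0) hy ?_ ?_
        · intro f hf y _
          obtain ⟨y, rfl⟩ := Submodule.Quotient.mk_surjective _ y
          rw [hsmul, hπ₀, hπ, hψ0 f hf, zero_smul]
        · intro x y hx hy
          rw [map_add, hx, hy, add_zero]
      have := key _ hx
      rwa [hπ₀] at this
  · -- b_span
    intro x
    obtain ⟨x, rfl⟩ := Submodule.Quotient.mk_surjective _ x
    obtain ⟨c, hc⟩ := hb.1 x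
    refine ⟨fun j => grpElt m (c j), ?_⟩
    rw [hsum, hgrp]
    exact (Submodule.Quotient.eq _).mpr hc
  · -- b_rel
    intro c
    constructor
    · intro h0
      choose c' hc' using fun j => hW (c j)
      -- the group-ring part vanishes
      have h1 : (∑ j, φ (grpElt m (c' j)) •
          (Submodule.Quotient.mk (b j) : MQ ⧸ relK MQ m w)) = 0 := by
        have h2 : ∀ j, φ (grpElt m (c' j)) •
            (Submodule.Quotient.mk (b j) : MQ ⧸ relK MQ m w) =
            φ (c j) • (Submodule.Quotient.mk (b j) : MQ ⧸ relK MQ m w) -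
              φ (c j - grpElt m (c' j)) • Submodule.Quotient.mk (b j) := by
          intro j
          rw [← sub_smul, ← map_sub, sub_sub_cancel]
        rw [Finset.sum_congr rfl fun j _ => h2 j, Finset.sum_sub_distrib, h0,
          Finset.sum_eq_zero fun j _ => hJ0 _ (hc' j) (b j), sub_zero]
      rw [hsum, hgrp, Submodule.Quotient.mk_eq_zero] at h1
      have h3 := hb.2 c' h1
      intro j
      have h4 : grpElt m (c' j) = 0 := by
        unfold grpElt
        refine Finset.sum_eq_zero fun a _ => ?_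
        rw [h3 j a, map_zero, zero_mul]
      have := hc' j
      rwa [h4, sub_zero] at this
    · intro hc
      exact Finset.sum_eq_zero fun j _ => hJ0 _ (hc j) (b j)

end Abs

end Fermat.Agent.S59.TW.H959

end
-- ===== PACK-END S59/TW/H959/Abs.lean

-- ===== PACK-BEGIN S59/TW/H123/DefRingRes.lean
section





/-!
# Row S59, cell TW, layer 1: leaf `DefRingResStatement` (helper123)

For `Σ ⊆ Σ'` the universal deformation ring of type `Σ'` surjects onto the one of type `Σ`,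
compatibly with the universal deformations.

* the map `res : R_{Σ'} → R_Σ` comes from the universal property of `R_{Σ'}`
  (the condition `sigmaCond` is monotone in `Σ`);
* surjectivity: by the tangent criterion `surjective_of_tangent_injective123`.  If
  `𝔪_{R'} R ≠ 𝔪_R` there is a functional `l ≠ 0` on the relative cotangent space of `R` which
  vanishes on the image of `𝔪_{R'}`; the tangent vectors `φ = homOfDual l` (surjective) and
  `ψ = homOfDual 0` agree on `R'`, hence the two push-forwards of the universal deformation of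
  type `Σ` are equivalent, and the uniqueness part of the universal property of `R_Σ` gives
  `φ = ψ`, i.e. `l = 0`.  So `𝔪_{R'} R = 𝔪_R` and `res` is onto by completeness.
-/

set_option autoImplicit false
set_option linter.unusedSectionVars false
set_option linter.unusedVariables false
set_option linter.style.haveILetI false

noncomputable section

namespace Fermat.Agent.S59.TW.H123

open IsLocalRing GaloisRep
open Fermat.Agent.S59.Arch

/-! ### Monotonicity of the condition in `Σ` -/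

theorem pCond_mono123 {𝒪 : Type} [CommRing 𝒪] {p : ℕ} {t : PType} {Sig Sig' : Finset ℕ}
    (hSig : Sig ⊆ Sig') {A : Type} [CommRing A] [IsLocalRing A] [Algebra 𝒪 A]
    {ρ : GaloisRepAdic A} (hρ : pCond 𝒪 p t Sig ρ) : pCond 𝒪 p t Sig' ρ := by
  cases t with
  | flat => exact ⟨hρ.1, hρ.2.1, fun q hq hqS => hρ.2.2 q hq (fun h => hqS (hSig h))⟩
  | sord => exact ⟨hρ.1, hρ.2.1, fun q hq hqS => hρ.2.2 q hq (fun h => hqS (hSig h))⟩
  | ord => exact ⟨hρ.1, hρ.2.1, fun q hq hqS => hρ.2.2 q hq (fun h => hqS (hSig h))⟩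

theorem sigmaCond_mono123 {𝒪 : Type} [CommRing 𝒪] {p : ℕ} {t : PType} {Smin Sig Sig' : Finset ℕ}
    (hSig : Sig ⊆ Sig') {A : Type} [CommRing A] [IsLocalRing A] [Algebra 𝒪 A]
    {ρ : GaloisRepAdic A} (hρ : sigmaCond 𝒪 p t Smin Sig ρ) : sigmaCond 𝒪 p t Smin Sig' ρ :=
  ⟨pCond_mono123 hSig hρ.1, hρ.2⟩

/-! ### The tangent criterion for surjectivity -/

section Tangent

open Fermat.Agent.S56 Fermat.Agent.S56.H134 Fermat.Agent.S56.H596

attribute [local instance] Fermat.Agent.S56.tanAlgebra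

variable {𝒪 : Type} [CommRing 𝒪] [IsLocalRing 𝒪]
variable {R' : Type} [CommRing R'] [IsLocalRing R'] [Algebra 𝒪 R'] [IsLocalHom (algebraMap 𝒪 R')]
variable {R : Type} [CommRing R] [IsLocalRing R] [Algebra 𝒪 R] [IsLocalHom (algebraMap 𝒪 R)]

/-- A functional on the relative cotangent space of `R` which kills the image of `𝔪_{R'}` gives a
tangent vector of `R` which agrees on `R'` with the trivial tangent vector. -/
theorem homOfDual_comp_eq123
    (hres : Function.Surjective (IsLocalRing.residue R ∘ algebraMap 𝒪 R))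
    (f : R' →ₐ[𝒪] R) (hf : IsLocalHom (f : R' →+* R))
    (l : Module.Dual (ResidueField R) (RelCotangent 𝒪 R))
    (hl : ∀ (z : R') (hz : z ∈ maximalIdeal R'),
      l (toRel 𝒪 R ⟨f z, Fermat.Agent.S56.H966.map_mem_maximalIdeal (f : R' →+* R) hf hz⟩) = 0)
    (x : R') :
    homOfDual hres l (f x) = homOfDual hres 0 (f x) := by
  set a : 𝒪 := liftO hres (f x) with ha
  have hmem : f x - algebraMap 𝒪 R a ∈ maximalIdeal R :=
    sub_algebraMap_mem hres (residue_liftO hres (f x))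
  have hz : x - algebraMap 𝒪 R' a ∈ maximalIdeal R' := by
    by_contra hnot
    have hu : IsUnit (x - algebraMap 𝒪 R' a) := by
      by_contra hn
      exact hnot hn
    have hu' : IsUnit ((f : R' →+* R) (x - algebraMap 𝒪 R' a)) := hu.map _
    have h1 : (f : R' →+* R) (x - algebraMap 𝒪 R' a) = f x - algebraMap 𝒪 R a := by
      simp
    rw [h1] at hu'
    exact hmem hu'
  have h2 := hl _ hz
  have h3 : l (relD hres (f x)) = 0 := by
    rw [relD_eq hres (residue_liftO hres (f x))]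
    have h4 : (⟨f x - algebraMap 𝒪 R (liftO hres (f x)),
        sub_algebraMap_mem hres (residue_liftO hres (f x))⟩ : maximalIdeal R) =
        ⟨f (x - algebraMap 𝒪 R' a),
          Fermat.Agent.S56.H966.map_mem_maximalIdeal (f : R' →+* R) hf hz⟩ := by
      ext
      simp [ha]
    rw [h4]
    exact h2
  rw [homOfDual_apply, homOfDual_apply, h3, LinearMap.zero_apply]

/-- **Tangent criterion.**  A local homomorphism `f : R' → R` of complete Noetherian local
`𝒪`-algebras with residue field `k_𝒪` is surjective as soon as a surjective tangent vector of `R`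
is determined by its restriction to `R'`. -/
theorem surjective_of_tangent_injective123
    [IsNoetherianRing R'] [IsAdicComplete (maximalIdeal R') R']
    [IsNoetherianRing R] [IsAdicComplete (maximalIdeal R) R]
    (hres : Function.Surjective (IsLocalRing.residue R ∘ algebraMap 𝒪 R))
    (f : R' →ₐ[𝒪] R) (hf : IsLocalHom (f : R' →+* R))
    (hinj : ∀ φ ψ : TanHom 𝒪 R, Function.Surjective φ → (∀ x, φ (f x) = ψ (f x)) → φ = ψ) :
    Function.Surjective f := by
  classical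
  have hfm : ∀ {z : R'}, z ∈ maximalIdeal R' → f z ∈ maximalIdeal R := fun hz =>
    Fermat.Agent.S56.H966.map_mem_maximalIdeal (f : R' →+* R) hf hz
  set S : Set (RelCotangent 𝒪 R) :=
    {v | ∃ (z : R') (hz : z ∈ maximalIdeal R'), toRel 𝒪 R ⟨f z, hfm hz⟩ = v} with hS
  -- the image of `𝔪_{R'}` spans the relative cotangent space
  have hspan : Submodule.span (ResidueField R) S = ⊤ := by
    by_contra hne
    obtain ⟨l, hl0, hl⟩ := Submodule.exists_le_ker_of_lt_top _ (lt_top_iff_ne_top.2 hne)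
    have hl' : ∀ (z : R') (hz : z ∈ maximalIdeal R'), l (toRel 𝒪 R ⟨f z, hfm hz⟩) = 0 :=
      fun z hz => LinearMap.mem_ker.mp (hl (Submodule.subset_span ⟨z, hz, rfl⟩))
    obtain ⟨v, hv⟩ : ∃ v, l v ≠ 0 := by
      by_contra h
      push_neg at h
      exact hl0 (LinearMap.ext h)
    obtain ⟨z, rfl⟩ := toRel_surjective v
    have hsurj : Function.Surjective (homOfDual hres l) := by
      refine tanHom_surjective_of_snd_ne_zero (homOfDual hres l) (z : R) ?_
      rw [homOfDual_apply, relD_of_mem]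
      simp only [TrivSqZeroExt.snd_add, TrivSqZeroExt.snd_inl, TrivSqZeroExt.snd_inr, zero_add]
      intro h0
      exact hv ((map_eq_zero_iff _ (resEquiv hres).symm.injective).mp h0)
    have h1 := hinj (homOfDual hres l) (homOfDual hres 0) hsurj
      (homOfDual_comp_eq123 hres f hf l hl')
    exact hl0 (homOfDual_injective hres h1)
  -- hence `𝔪_R = 𝔪_{R'} R + 𝔪_R²`
  set I : Ideal R := (maximalIdeal R').map (f : R' →+* R) with hI
  have hOI : Ideal.map (algebraMap 𝒪 R) (maximalIdeal 𝒪) ≤ I := by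
    rw [Ideal.map_le_iff_le_comap]
    intro c hc
    rw [Ideal.mem_comap, ← f.commutes]
    exact Ideal.mem_map_of_mem (f : R' →+* R)
      (Fermat.Agent.S56.H966.map_mem_maximalIdeal (algebraMap 𝒪 R') inferInstance hc)
  have hle0 : Ideal.map (algebraMap 𝒪 R) (maximalIdeal 𝒪) ⊔ maximalIdeal R ^ 2 ≤
      I ⊔ maximalIdeal R ^ 2 := sup_le_sup_right hOI _
  have hfI : ∀ {z : R'}, z ∈ maximalIdeal R' → f z ∈ I ⊔ maximalIdeal R ^ 2 := fun hz =>
    Ideal.mem_sup_left (Ideal.mem_map_of_mem (f : R' →+* R) hz)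
  have key : ∀ w ∈ Submodule.span (ResidueField R) S,
      ∀ z : maximalIdeal R, toRel 𝒪 R z = w → (z : R) ∈ I ⊔ maximalIdeal R ^ 2 := by
    intro w hw
    induction hw using Submodule.span_induction with
    | mem w hw =>
      obtain ⟨y, hy, rfl⟩ := hw
      intro z hz
      have h0 : toRel 𝒪 R (z - ⟨f y, hfm hy⟩) = 0 := by rw [toRel_sub, hz, sub_self]
      have h1 := hle0 ((toRel_eq_zero_iff _).mp h0)
      have h2 : (z : R) = ((z - ⟨f y, hfm hy⟩ : maximalIdeal R) : R) + f y := by simp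
      rw [h2]
      exact Ideal.add_mem _ h1 (hfI hy)
    | zero =>
      intro z hz
      exact hle0 ((toRel_eq_zero_iff _).mp hz)
    | add w₁ w₂ _ _ ih₁ ih₂ =>
      intro z hz
      obtain ⟨z₁, hz₁⟩ := toRel_surjective w₁
      have h2 : toRel 𝒪 R (z - z₁) = w₂ := by rw [toRel_sub, hz, hz₁, add_sub_cancel_left]
      have h3 : (z : R) = z₁ + ((z - z₁ : maximalIdeal R) : R) := by simp
      rw [h3]
      exact Ideal.add_mem _ (ih₁ z₁ hz₁) (ih₂ _ h2)
    | smul c w₁ _ ih =>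
      intro z hz
      obtain ⟨z₁, hz₁⟩ := toRel_surjective w₁
      obtain ⟨r₀, rfl⟩ := residue_surjective c
      have h0 : toRel 𝒪 R (z - r₀ • z₁) = 0 := by
        rw [toRel_sub, toRel_smul, hz, hz₁, sub_self]
      have h1 := hle0 ((toRel_eq_zero_iff _).mp h0)
      have h3 : (z : R) = ((z - r₀ • z₁ : maximalIdeal R) : R) + r₀ * z₁ := by simp
      rw [h3]
      exact Ideal.add_mem _ h1 (Ideal.mul_mem_left _ _ (ih z₁ hz₁))
  have hC : maximalIdeal R ≤ I ⊔ maximalIdeal R ^ 2 := fun y hy =>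
    key (toRel 𝒪 R ⟨y, hy⟩) (by rw [hspan]; exact Submodule.mem_top) ⟨y, hy⟩ rfl
  -- Nakayama
  have hle : maximalIdeal R ≤ I := by
    have hfg : (maximalIdeal R).FG := IsNoetherian.noetherian _
    refine Submodule.le_of_le_smul_of_le_jacobson_bot hfg
      (IsLocalRing.maximalIdeal_le_jacobson ⊥) ?_
    rw [smul_eq_mul, ← pow_two]
    exact hC
  have hIeq : I = maximalIdeal R :=
    le_antisymm (Ideal.map_le_iff_le_comap.2 fun a ha => hfm ha) hle
  -- completeness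
  haveI : IsHausdorff ((maximalIdeal R').map (f : R' →+* R)) R := by
    rw [← hI, hIeq]
    infer_instance
  have hsurj : Function.Surjective (f : R' →+* R) := by
    refine surjective_of_mk_map_comp_surjective (I := maximalIdeal R') (f : R' →+* R) ?_
    intro y
    obtain ⟨y', rfl⟩ := Ideal.Quotient.mk_surjective y
    obtain ⟨c, hc⟩ := hres (residue R y')
    refine ⟨algebraMap 𝒪 R' c, ?_⟩
    rw [RingHom.comp_apply, Ideal.Quotient.eq, ← hI, hIeq, ← residue_eq_zero_iff, map_sub]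
    have h1 : (f : R' →+* R) (algebraMap 𝒪 R' c) = algebraMap 𝒪 R c := f.commutes c
    rw [h1, sub_eq_zero]
    exact hc
  exact hsurj

end Tangent

/-! ### The leaf -/

section Leaf

open Fermat.Agent.S56 Fermat.Agent.S56.H134 Fermat.Agent.S56.H596 Fermat.Agent.S53.H113

attribute [local instance] Fermat.Agent.S56.tanAlgebra

/-- The residual representation of the push-forward of a deformation along a tangent vector. -/
theorem residual_tanHom123 {𝒪 : Type} [CommRing 𝒪] [IsLocalRing 𝒪]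
    (ρbar : ResidualGaloisRep (ResidueField 𝒪))
    {R : Type} [CommRing R] [IsLocalRing R] [Algebra 𝒪 R] [hloc : IsLocalHom (algebraMap 𝒪 R)]
    (ρ : GaloisRepAdic R)
    (hρ : ρ.residual.IsEquiv (ρbar.baseChangeAlong (ResidueField.map (algebraMap 𝒪 R))))
    (φ : TanHom 𝒪 R) :
    haveI := isLocalHom_tanAlgebra 𝒪
    (ρ.baseChangeAlong (φ : R →+* DualNumber (ResidueField 𝒪)) (isLocalHom_tanHom φ)).residual.IsEquiv
      (ρbar.baseChangeAlong
        (ResidueField.map (algebraMap 𝒪 (DualNumber (ResidueField 𝒪))))) := by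
  haveI := isLocalHom_tanAlgebra 𝒪
  obtain ⟨rb, hrb, ⟨e⟩⟩ := Fermat.Agent.S53.exists_toRes ρbar
  obtain ⟨rR, hrR, hlift, ⟨eR⟩⟩ := Fermat.Agent.S53.exists_lift_of_residual_isEquiv ρbar rb hrb
    ⟨e⟩ ρ hρ
  have hcont : Fermat.Agent.S53.MatCont
      (Fermat.Agent.S53.mapRep (φ : R →+* DualNumber (ResidueField 𝒪)) rR) :=
    hrR.map _ (isLocalHom_tanHom φ)
  have hliftφ : ∀ σ,
      (Fermat.Agent.S53.mapRep (φ : R →+* DualNumber (ResidueField 𝒪)) rR σ).map
        (residue (DualNumber (ResidueField 𝒪))) =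
      (rb σ).map (ResidueField.map (algebraMap 𝒪 (DualNumber (ResidueField 𝒪)))) := by
    intro σ
    ext i j
    simp only [Matrix.map_apply]
    rw [residue_dualNumber_eq]
    congr 1
    have h1 := congrFun (congrFun (hlift σ) i) j
    simp only [Matrix.map_apply] at h1
    exact fst_tanHom_eq_of_map hloc φ (rR σ i j) (rb σ i j) h1
  obtain ⟨e2⟩ := Fermat.Agent.S53.baseChangeAlong_toAdic
    (φ : R →+* DualNumber (ResidueField 𝒪)) (isLocalHom_tanHom φ) rR hrR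
  obtain ⟨e4⟩ := Fermat.Agent.S53.residual_isEquiv_of_lift ρbar rb hrb ⟨e⟩ _ hcont hliftφ
  exact ⟨((eR.baseChangeAlong (φ : R →+* DualNumber (ResidueField 𝒪))
    (isLocalHom_tanHom φ)).trans e2).residual.trans e4⟩

/-- **LEAF GAL-RES** (`DefRingResStatement` of `S59/TW/H959/Iface.lean`, verbatim). -/
theorem defRingRes : Fermat.Agent.S59.TW.H959.DefRingResStatement := by
  intro p _ hp2 𝒪 _ _ _ _ _ hp𝒪 ρbar t Smin Sig Sig' hSig hc hc' D' D
  classical
  have h1 : sigmaCond 𝒪 p t Smin Sig' D.ρ := sigmaCond_mono123 hSig D.isOfType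
  obtain ⟨res, ⟨hres, hE⟩, -⟩ :=
    D'.universal D.R D.residue_surjective D.ρ h1 D.residual_isEquiv
  refine ⟨res, ?_, hres, hE⟩
  refine surjective_of_tangent_injective123 D.residue_surjective res hres ?_
  intro φ ψ hφs hφψ
  haveI hlocD := isLocalHom_tanAlgebra 𝒪
  haveI := isAdicComplete_dualNumber (ResidueField 𝒪)
  have hφloc := isLocalHom_tanHom φ
  have hψloc := isLocalHom_tanHom ψ
  have h𝒟 : sigmaCond 𝒪 p t Smin Sig
      (D.ρ.baseChangeAlong (φ : D.R →+* DualNumber (ResidueField 𝒪)) hφloc) :=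
    (hc.iff_forall_surjective D.instIsLocalHom D.residue_surjective D.ρ).mp D.isOfType
      (Fermat.Agent.S53.isArtinianTestAlgebra_dualNumber 𝒪) φ hφloc hφs
  have hresid := residual_tanHom123 ρbar D.ρ D.residual_isEquiv φ
  have huniv := D.universal (DualNumber (ResidueField 𝒪)) (residue_tanAlgebra_surjective 𝒪)
    _ h𝒟 hresid
  -- the two push-forwards are equivalent
  have hχ : IsLocalHom ((φ : D.R →+* DualNumber (ResidueField 𝒪)).comp (res : D'.R →+* D.R)) :=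
    ⟨fun a ha => hres.map_nonunit a (hφloc.map_nonunit _ ha)⟩
  have e1 := baseChangeAlong_comp_isEquiv' (res : D'.R →+* D.R) hres
    (φ : D.R →+* DualNumber (ResidueField 𝒪)) hφloc _ hχ rfl D'.ρ
  have e2 := baseChangeAlong_comp_isEquiv' (res : D'.R →+* D.R) hres
    (ψ : D.R →+* DualNumber (ResidueField 𝒪)) hψloc _ hχ
    (RingHom.ext fun x => (hφψ x).symm) D'.ρ
  have e3 := isEquiv_baseChangeAlong (ψ : D.R →+* DualNumber (ResidueField 𝒪)) hψloc
    (isEquiv_symm hE)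
  have e4 := isEquiv_baseChangeAlong (φ : D.R →+* DualNumber (ResidueField 𝒪)) hφloc hE
  have hψφ := isEquiv_trans (isEquiv_trans (isEquiv_trans e3 e2) (isEquiv_symm e1)) e4
  exact huniv.unique ⟨hφloc, isEquiv_refl _⟩ ⟨hψloc, hψφ⟩

end Leaf

end Fermat.Agent.S59.TW.H123

end

end
-- ===== PACK-END S59/TW/H123/DefRingRes.lean

-- ===== PACK-BEGIN S55/E1/SpecAlg2.lean
section
/-
S55 engine E1 — block ALG, part 2: frozen Spec statements ALG6, ALG7, ALG8 (+ the p-torsion leaf).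
Sub-architect: helper957.  Blueprint: coord/S55-E1.md §3; details: coord/S55-E1-ALG678.md.
NO proof obligations in this file: specs are `def … : Prop`.
Producers prove `theorem algN : ALGnSpec`; consumers take hypotheses.

Setting: `G` finite, `φ : D →* G` injective (a decomposition group), `N : Rep ℤ G`,
`0 → R → P → N → 0` the standard presentation (`E1/Defs.lean`); `X : Rep ℤ D`,
`J = Rep.coind φ X`, `j : J ⟶ C`.  As a `D`-module `(P, R)` is again a presentation of `N`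
by a free `ℤ[D]`-module: the RESTRICTED presentation `resSC φ N`.
-/



set_option autoImplicit false

open CategoryTheory CategoryTheory.Limits

namespace Fermat.Agent.S55.E1

noncomputable section

variable {G D : Type} [Group G] [Group D]

/-! ## Vocabulary -/

/-- Restriction along `φ : D →* G` in degree `n`: `Hⁿ(G, A) → Hⁿ(D, A)`. -/
def resAlong (φ : D →* G) (A : Rep.{0} ℤ G) (n : ℕ) :
    groupCohomology A n →ₗ[ℤ] groupCohomology (Rep.res φ A) n :=
  (groupCohomology.map φ (𝟙 (Rep.res φ A)) n).hom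

/-- The standard presentation of `N`, restricted to `D`: `0 → R|_D → P|_D → N|_D → 0`. -/
def resSC (φ : D →* G) (N : Rep.{0} ℤ G) : ShortComplex (Rep.{0} ℤ D) :=
  (stdSC N).map (Rep.resFunctor φ)

theorem resSC_shortExact (φ : D →* G) (N : Rep.{0} ℤ G) : (resSC φ N).ShortExact :=
  (Rep.shortExact_res φ).2 (stdSC_shortExact N)

/-- The connecting map `δ_D : H¹(D, N) → H²(D, R)` of the restricted presentation. -/
def resδ (φ : D →* G) (N : Rep.{0} ℤ G) :
    groupCohomology (Rep.res φ N) 1 →ₗ[ℤ] groupCohomology (Rep.res φ (stdR N)) 2 :=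
  (groupCohomology.δ (resSC_shortExact φ N) 1 2 rfl).hom

/-- The local pairing `⟨f, x⟩_D = f_*(δ_D x) ∈ H²(D, X)`, `f ∈ Hom_D(R, X)`, `x ∈ H¹(D, N)`. -/
def pairLoc (φ : D →* G) {N : Rep.{0} ℤ G} {X : Rep.{0} ℤ D} (f : Rep.res φ (stdR N) ⟶ X)
    (x : groupCohomology (Rep.res φ N) 1) : groupCohomology X 2 :=
  (T.coeffMap f 2).hom (resδ φ N x)

/-- `f ↦ f^♭ = ev₁ ∘ f`: `Hom_G(R, Coind X) → Hom_D(R, X)` (Frobenius reciprocity). -/
def flat (φ : D →* G) {R : Rep.{0} ℤ G} {X : Rep.{0} ℤ D} (f : R ⟶ Rep.coind φ X) :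
    Rep.res φ R ⟶ X :=
  (Rep.resFunctor φ).map f ≫ H173.ev1Hom φ X

/-- The Shapiro map `sh = (ev₁)_* ∘ res_φ : H²(G, Coind X) → H²(D, X)` (helper173). -/
abbrev sh2 (φ : D →* G) (X : Rep.{0} ℤ D) :
    groupCohomology (Rep.coind φ X) 2 →ₗ[ℤ] groupCohomology X 2 :=
  (H173.shapiroHom φ X 2).hom

/-- `x ∈ H¹(G, N)` is locally trivial at all `i`: `x ∈ Ш¹_fin = ⋂_i ker res_i`. -/
def IsLocTriv {ι : Type} {Dc : ι → Type} [∀ i, Group (Dc i)] (φ : ∀ i, Dc i →* G)
    (N : Rep.{0} ℤ G) (x : groupCohomology N 1) : Prop :=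
  ∀ i, resAlong (φ i) N 1 x = 0

/-- `Ш¹_fin = ⋂_i ker (res_i : H¹(G, N) → H¹(D_i, N))` as a subgroup of `H¹(G, N)`. -/
def shaFin {ι : Type} {Dc : ι → Type} [∀ i, Group (Dc i)] (φ : ∀ i, Dc i →* G)
    (N : Rep.{0} ℤ G) : AddSubgroup (groupCohomology N 1) where
  carrier := {x | IsLocTriv φ N x}
  zero_mem' := fun i => map_zero _
  add_mem' := fun {a b} ha hb i => by
    show resAlong (φ i) N 1 (a + b) = 0
    rw [map_add, ha i, hb i, add_zero]
  neg_mem' := fun {a} ha i => by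
    show resAlong (φ i) N 1 (-a) = 0
    rw [map_neg, ha i, neg_zero]

/-- `f ∈ A(C)` is a sum of local homs and of a hom which extends to `P`:
`f ∈ Σ_i j_i ∘ A(J_i) + res Bc(C)`. -/
def IsLocSum {ι : Type} [Fintype ι] {N C : Rep.{0} ℤ G} {J : ι → Rep.{0} ℤ G}
    (j : ∀ i, J i ⟶ C) (f : homA N C) : Prop :=
  ∃ (fJ : ∀ i, homA N (J i)) (h : homB N C), f = ∑ i, fJ i ≫ j i + resBA N C h

/-! ## Specs -/

/-- **ALG6 (Shapiro and the restricted presentation).**  `G` finite, `φ : D →* G` injective.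
(a) `δ_D : H¹(D, N) → H²(D, R)` is bijective and `res_φ ∘ δ = δ_D ∘ res_φ`;
(b) `f ↦ f^♭` is a bijection `Hom_G(R, Coind X) → Hom_D(R, X)`;
(c) `sh ⟨f, x⟩ = ⟨f^♭, res_φ x⟩_D`  (`sh` is bijective: `H173.shapiroHom_bijective`). -/
def ALG6Spec : Prop :=
  ∀ (G D : Type) [Group G] [Group D] [Finite G] (φ : D →* G), Function.Injective φ →
    ∀ (N : Rep.{0} ℤ G),
    Function.Bijective (resδ φ N) ∧
    (∀ x : groupCohomology N 1,
      resAlong φ (stdR N) 2 (stdδ N x) = resδ φ N (resAlong φ N 1 x)) ∧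
    ∀ X : Rep.{0} ℤ D,
      Function.Bijective (fun f : homA N (Rep.coind φ X) => flat φ f) ∧
      ∀ (f : homA N (Rep.coind φ X)) (x : groupCohomology N 1),
        sh2 φ X (pair f x) = pairLoc φ (flat φ f) (resAlong φ N 1 x)

/-- **ALG7a (`p`-torsion of `H²` of a class module at `p`).**  `H²(G, C)[p]` is cyclic of order
`≤ p` (every nonzero element generates), and nonzero as soon as `p ∣ |G|`. -/
def ALG7aSpec : Prop :=
  ∀ (p : ℕ), p.Prime → ∀ (G : Type) [Group G] [Finite G] (C : Rep.{0} ℤ G)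
    (γ : groupCohomology C 2), IsClassModuleAt p C γ →
    (∀ w w' : groupCohomology C 2, p • w = 0 → p • w' = 0 → w ≠ 0 → ∃ n : ℕ, w' = n • w) ∧
    (p ∣ Nat.card G → ∃ w : groupCohomology C 2, w ≠ 0 ∧ p • w = 0)

/-- **ALG7 (local image).**  `(X, γ_X)` a class module at `p` for `D`, `(C, γ)` a class module
at `p` for `G`, `j : J = Coind X → C` with `j_*` injective on `H²(G, J)[p]` (GD3).  Then
`{⟨j ∘ f, ·⟩ : f ∈ A(J)} = {χ : H¹(G, N) → H²(G, C) | χ (ker res_φ) = 0}`. -/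
def ALG7Spec : Prop :=
  ∀ (p : ℕ), p.Prime → ∀ (G D : Type) [Group G] [Group D] [Fintype G] [Finite D]
    (φ : D →* G), Function.Injective φ →
    ∀ (N C : Rep.{0} ℤ G) (γ : groupCohomology C 2) (X : Rep.{0} ℤ D)
      (γX : groupCohomology X 2) (j : Rep.coind φ X ⟶ C),
    Finite N.V → (∀ n : N.V, p • n = 0) →
    IsClassModuleAt p C γ → IsClassModuleAt p X γX → TateNakayamaAtSpec →
    (∀ y : groupCohomology (Rep.coind φ X) 2, p • y = 0 → (T.coeffMap j 2).hom y = 0 → y = 0) →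
    ∀ χ : groupCohomology N 1 →+ groupCohomology C 2,
      (∀ x, resAlong φ N 1 x = 0 → χ x = 0) ↔
        ∃ f : homA N (Rep.coind φ X), ∀ x, pair (f ≫ j) x = χ x

/-- **ALG8 (count), elementwise form.**  `(C, γ)` a class module at `p` with the norm-kill
hypothesis of ALG4/ALG5(c) for some `H ⊴ G` acting trivially on `N`; for every `i` a local
datum `φ_i : D_i ↪ G`, `(X_i, γ_i)` class module at `p`, `j_i : J_i = Coind X_i → C` injective
on `H²[p]`.  With `Ш = Ш¹_fin = ⋂_i ker res_i ⊂ H¹(G, N)`: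
(a) `⟨f, ·⟩` vanishes on `Ш`  ⇔  `f ∈ Σ_i j_i ∘ A(J_i) + res Bc(C)`;
(b) every additive `χ : H¹(G, N) → H²(G, C)` agrees on `Ш` with some `⟨f, ·⟩`;
(c) `|Hom(Ш, H²(G, C))| = |Ш|` and `Ш` is finite.
Hence `T := A(C)/(Σ_i j_i A(J_i) + res Bc(C)) ≅ Hom(Ш, H²(G, C))` has `|Ш|` elements. -/
def ALG8Spec : Prop :=
  ∀ (p : ℕ), p.Prime → ∀ (G : Type) [Group G] [Fintype G] (N C : Rep.{0} ℤ G)
    (γ : groupCohomology C 2), Finite N.V → (∀ n : N.V, p • n = 0) →
    IsClassModuleAt p C γ → TateNakayamaAtSpec →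
    ∀ (H : Subgroup G) [H.Normal] [Fintype H], (∀ h ∈ H, ∀ n : N.V, N.ρ h n = n) →
    NormInP p H C →
    ∀ (ι : Type) [Fintype ι] (Dc : ι → Type) [∀ i, Group (Dc i)] [∀ i, Finite (Dc i)]
      (φ : ∀ i, Dc i →* G), (∀ i, Function.Injective (φ i)) →
    ∀ (X : ∀ i, Rep.{0} ℤ (Dc i)) (γX : ∀ i, groupCohomology (X i) 2)
      (j : ∀ i, Rep.coind (φ i) (X i) ⟶ C),
    (∀ i, IsClassModuleAt p (X i) (γX i)) →
    (∀ i, ∀ y : groupCohomology (Rep.coind (φ i) (X i)) 2,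
      p • y = 0 → (T.coeffMap (j i) 2).hom y = 0 → y = 0) →
    (∀ f : homA N C, (∀ x, IsLocTriv φ N x → pair f x = 0) ↔ IsLocSum j f) ∧
    (∀ χ : groupCohomology N 1 →+ groupCohomology C 2,
      ∃ f : homA N C, ∀ x, IsLocTriv φ N x → pair f x = χ x) ∧
    Finite (shaFin φ N) ∧
    Nat.card (shaFin φ N →+ groupCohomology C 2) = Nat.card (shaFin φ N)

/-- ALG8 from ALG5, ALG7, ALG7a (assembly leaf; linear algebra over `𝔽_p`). -/
def ALG8AssemblySpec : Prop := ALG5Spec → ALG7Spec → ALG7aSpec → ALG8Spec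

end

end Fermat.Agent.S55.E1

end
-- ===== PACK-END S55/E1/SpecAlg2.lean

-- ===== PACK-BEGIN S55/G/SIndH237/OrdH870.lean
section
/-
S55 (Poitou–Tate), layer G, leaf G-SIND:ORD — `PrescribedOrdSpec` (helper870).

Every divisor supported above `T` is the `T`-part of the divisor of some `x ∈ Lˣ`:
Chinese remainder theorem in the Dedekind domain `𝓞 L` with uniformisers.
Sorry-free; Mathlib + the frozen `SIndH237/Spec.lean` only.
-/


set_option autoImplicit false

open scoped NumberField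
open IsDedekindDomain

namespace Fermat.Agent.S55.G.SIndH237.H870

open Fermat.Agent.S55.G Fermat.Agent.S55.G.SIndH237

variable {L : Type} [Field L] [NumberField L]

/-- Only finitely many primes of `L` lie above a finite set `T` of rational primes. -/
theorem finite_isAbove (T : Finset Nat.Primes) :
    {w : HeightOneSpectrum (𝓞 L) | IsAbove T L w}.Finite := by
  classical
  set n : ℕ := ∏ q ∈ T, (q : ℕ) with hn
  have hn0 : n ≠ 0 := Finset.prod_ne_zero_iff.2 (fun q _ => q.2.ne_zero)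
  have hI : (Ideal.span {((n : ℕ) : 𝓞 L)} : Ideal (𝓞 L)) ≠ 0 := by
    rw [Ne, Ideal.zero_eq_bot, Ideal.span_singleton_eq_bot]
    exact_mod_cast hn0
  refine (Ideal.finite_factors hI).subset ?_
  rintro w ⟨q, hq, hqw⟩
  show w.asIdeal ∣ Ideal.span {((n : ℕ) : 𝓞 L)}
  rw [Ideal.dvd_span_singleton]
  obtain ⟨m, hm⟩ : (q : ℕ) ∣ n := Finset.dvd_prod_of_mem _ hq
  rw [hm, Nat.cast_mul]
  exact w.asIdeal.mul_mem_right _ hqw

/-- An integer of `L` with prescribed nonnegative orders at finitely many primes. -/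
theorem exists_intValuation_eq (W : Finset (HeightOneSpectrum (𝓞 L)))
    (e : HeightOneSpectrum (𝓞 L) → ℕ) :
    ∃ a : 𝓞 L, a ≠ 0 ∧ ∀ w ∈ W, w.intValuation a = WithZero.exp (-(e w : ℤ)) := by
  classical
  rcases W.eq_empty_or_nonempty with rfl | ⟨w₀, hw₀⟩
  · exact ⟨1, one_ne_zero, fun w hw => absurd hw (Finset.notMem_empty w)⟩
  have hunif : ∀ w : HeightOneSpectrum (𝓞 L), ∃ π : 𝓞 L,
      w.intValuation π = WithZero.exp (-(1 : ℤ)) := fun w => w.intValuation_exists_uniformizer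
  choose π hπ using hunif
  obtain ⟨y, hy⟩ := IsDedekindDomain.exists_forall_sub_mem_ideal (s := W)
    (fun w : HeightOneSpectrum (𝓞 L) => w.asIdeal) (fun w => e w + 1)
    (fun w _ => w.prime)
    (fun w _ w' _ hne h => hne (HeightOneSpectrum.ext h))
    (fun w => π w.1 ^ e w.1)
  have hval : ∀ w ∈ W, w.intValuation y = WithZero.exp (-(e w : ℤ)) := by
    intro w hw
    have h1 : w.intValuation (y - π w ^ e w) ≤ WithZero.exp (-((e w + 1 : ℕ) : ℤ)) :=
      (w.intValuation_le_pow_iff_mem _ _).2 (hy w hw)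
    have h2 : w.intValuation (π w ^ e w) = WithZero.exp (-(e w : ℤ)) := by
      rw [map_pow, hπ w, ← WithZero.exp_nsmul]
      congr 1
      simp
    have h3 : w.intValuation (y - π w ^ e w) < w.intValuation (π w ^ e w) := by
      rw [h2]
      refine lt_of_le_of_lt h1 ?_
      rw [WithZero.exp_lt_exp]
      push_cast
      omega
    have h4 : y = (y - π w ^ e w) + π w ^ e w := by ring
    rw [h4, Valuation.map_add_eq_of_lt_right _ h3, h2]
  refine ⟨y, ?_, hval⟩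
  rintro rfl
  have := hval w₀ hw₀
  rw [map_zero] at this
  exact WithZero.exp_ne_zero.symm this

/-- **SIND-ORD.** -/
theorem prescribedOrd : PrescribedOrdSpec := by
  classical
  intro T L _ _ d _
  set W : Finset (HeightOneSpectrum (𝓞 L)) := (finite_isAbove (L := L) T).toFinset with hW
  obtain ⟨a, ha0, ha⟩ := exists_intValuation_eq W (fun w => (d w).toNat)
  obtain ⟨b, hb0, hb⟩ := exists_intValuation_eq W (fun w => (-(d w)).toNat)
  have ha0' : (a : L) ≠ 0 := by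
    intro h
    exact ha0 (by exact_mod_cast h)
  have hb0' : (b : L) ≠ 0 := by
    intro h
    exact hb0 (by exact_mod_cast h)
  refine ⟨Additive.ofMul (Units.mk0 ((a : L) / (b : L)) (div_ne_zero ha0' hb0')), ?_⟩
  intro w hw
  have hwW : w ∈ W := by
    rw [hW, Set.Finite.mem_toFinset]
    exact hw
  have hva : w.valuation L (a : L) = WithZero.exp (-((d w).toNat : ℤ)) := by
    have := w.valuation_of_algebraMap (K := L) a
    rw [← ha w hwW, ← this]
  have hvb : w.valuation L (b : L) = WithZero.exp (-((-(d w)).toNat : ℤ)) := by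
    have := w.valuation_of_algebraMap (K := L) b
    rw [← hb w hwW, ← this]
  rw [ordAt_apply]
  show -WithZero.log (w.valuation L ((a : L) / (b : L))) = d w
  rw [map_div₀, hva, hvb, ← WithZero.exp_sub, WithZero.log_exp]
  have := Int.toNat_sub_toNat_neg (d w)
  omega

end Fermat.Agent.S55.G.SIndH237.H870

end
-- ===== PACK-END S55/G/SIndH237/OrdH870.lean

-- ===== PACK-BEGIN S59/NM/H254/SurjUniv.lean
section




/-!
# Rows S59 / cells NM, NMP (helper254): maps between universal deformation rings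

Generic in the deformation conditions `𝒟` (small) and `𝒟'` (big); `D`, `D'` universal
deformation rings, `β : D'.R → D.R` a compatible map (`β_* D'.ρ ≅ D.ρ`).

* `cond_of_injective` : a deformation condition descends along INJECTIVE local homomorphisms of
  complete Noetherian local `𝒪`-algebras (Chevalley's lemma + `of_baseChangeAlong_injective`).
* `surjective_of_compatible` : `β` is surjective (only `𝒟` is assumed to be a deformation
  condition).
* `ker_le_of_cond` : if `D'.ρ mod K` is of type `𝒟` then `ker β ≤ K`.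
* `card_cot_le_of_cond_principal` : the Selmer bound for a principal `K = (v)`, `u v = 0`:
  `#Φ_{R'}(x ∘ β) ≤ #Φ_R(x) · #(𝒪 / x(β(u)))`.
-/

set_option autoImplicit false
set_option linter.style.haveILetI false
set_option linter.unusedSectionVars false
set_option linter.unusedVariables false

noncomputable section

namespace Fermat.Agent.S59.NM.H254

open IsLocalRing GaloisRep Fermat.Agent.S53

section Descent

variable {𝒪 : Type} [CommRing 𝒪] [IsLocalRing 𝒪] [Finite (ResidueField 𝒪)]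
  {𝒟 : ∀ ⦃A : Type⦄ [CommRing A] [IsLocalRing A] [Algebra 𝒪 A], GaloisRepAdic A → Prop}

/-- A deformation condition descends along injective local homomorphisms of complete Noetherian
local `𝒪`-algebras. -/
theorem cond_of_injective (h𝒟 : IsDeformationCondition 𝒪 𝒟)
    {A C : Type} [CommRing A] [IsLocalRing A] [IsNoetherianRing A]
    [IsAdicComplete (maximalIdeal A) A] [Algebra 𝒪 A]
    [CommRing C] [IsLocalRing C] [IsNoetherianRing C]
    [IsAdicComplete (maximalIdeal C) C] [Algebra 𝒪 C]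
    (hlocA : IsLocalHom (algebraMap 𝒪 A))
    (hsurjA : Function.Surjective (residue A ∘ algebraMap 𝒪 A))
    (hlocC : IsLocalHom (algebraMap 𝒪 C))
    (hsurjC : Function.Surjective (residue C ∘ algebraMap 𝒪 C))
    (ι : A →ₐ[𝒪] C) (hι : IsLocalHom (ι : A →+* C)) (hinj : Function.Injective ι)
    {ρ : GaloisRepAdic A} (h : 𝒟 (ρ.baseChangeAlong (ι : A →+* C) hι)) : 𝒟 ρ := by
  rw [h𝒟.iff_forall_surjective hlocA hsurjA]
  intro B _ _ _ hB q hq hqs
  obtain ⟨k, hk⟩ := exists_maximalIdeal_pow_eq_bot hB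
  haveI : Finite (ResidueField A) :=
    Finite.of_surjective _ (residueField_map_bijective hlocA hsurjA).2
  obtain ⟨N₁, hN₁⟩ := exists_comap_pow_le (ι : A →+* C) hinj k
  obtain ⟨JC, hJCdef⟩ : ∃ JC : Ideal C, JC = maximalIdeal C ^ (N₁ + 1) := ⟨_, rfl⟩
  obtain ⟨JA, hJAdef⟩ : ∃ JA : Ideal A, JA = JC.comap (ι : A →+* C) := ⟨_, rfl⟩
  have hJC : JC ≠ ⊤ := hJCdef ▸ maximalIdeal_pow_ne_top (N₁ + 1) (Nat.succ_ne_zero _)
  have hJA : JA ≠ ⊤ := by
    intro h1
    have h2 : (1 : A) ∈ JA := h1 ▸ Submodule.mem_top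
    rw [hJAdef, Ideal.mem_comap, map_one] at h2
    exact hJC ((Ideal.eq_top_iff_one _).mpr h2)
  have hJAk : JA ≤ maximalIdeal A ^ k := by
    rw [hJAdef, hJCdef]
    exact (Ideal.comap_mono (Ideal.pow_le_pow_right (Nat.le_succ _))).trans hN₁
  have hmapq : ∀ n : ℕ, ∀ y ∈ maximalIdeal A ^ n, (q : A →+* B) y ∈ maximalIdeal B ^ n := by
    intro n y hy
    have h3 : (maximalIdeal A ^ n).map (q : A →+* B) ≤ maximalIdeal B ^ n := by
      rw [Ideal.map_pow]
      refine Ideal.pow_right_mono ?_ n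
      rw [Ideal.map_le_iff_le_comap]
      intro a ha
      exact Fermat.Agent.S56.H966.map_mem_maximalIdeal _ hq ha
    exact h3 (Ideal.mem_map_of_mem _ hy)
  have hmapι : maximalIdeal A ^ (N₁ + 1) ≤ JA := by
    intro y hy
    rw [hJAdef, Ideal.mem_comap, hJCdef]
    have h3 : (maximalIdeal A ^ (N₁ + 1)).map (ι : A →+* C) ≤ maximalIdeal C ^ (N₁ + 1) := by
      rw [Ideal.map_pow]
      refine Ideal.pow_right_mono ?_ _
      rw [Ideal.map_le_iff_le_comap]
      intro a ha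
      exact Fermat.Agent.S56.H966.map_mem_maximalIdeal _ hι ha
    exact h3 (Ideal.mem_map_of_mem _ hy)
  have hJAq : ∀ a ∈ JA, q a = 0 := by
    intro y hy
    have h2 := hmapq k y (hJAk hy)
    rwa [hk, Ideal.mem_bot] at h2
  -- the two Artinian quotients
  haveI hAloc : IsLocalRing (A ⧸ JA) := isLocalRing_quotient JA hJA
  haveI hCloc : IsLocalRing (C ⧸ JC) := isLocalRing_quotient JC hJC
  have hAN : IsArtinianTestAlgebra 𝒪 (A ⧸ JA) :=
    isArtinianTestAlgebra_quotient_of_pow_le hlocA hsurjA JA (N₁ + 1) hmapι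
  have hCN : IsArtinianTestAlgebra 𝒪 (C ⧸ JC) :=
    isArtinianTestAlgebra_quotient_of_pow_le hlocC hsurjC JC (N₁ + 1) hJCdef.ge
  let mkA : A →ₐ[𝒪] A ⧸ JA := Ideal.Quotient.mkₐ 𝒪 JA
  let mkC : C →ₐ[𝒪] C ⧸ JC := Ideal.Quotient.mkₐ 𝒪 JC
  have hmkA : IsLocalHom (mkA : A →+* A ⧸ JA) :=
    H113.isLocalHom_algHom hAN.isLocalHom hAN.residue_surjective mkA
  have hmkC : IsLocalHom (mkC : C →+* C ⧸ JC) :=
    H113.isLocalHom_algHom hCN.isLocalHom hCN.residue_surjective mkC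
  have hle : JA ≤ JC.comap ι := hJAdef.le
  let ιb : (A ⧸ JA) →ₐ[𝒪] (C ⧸ JC) := Ideal.quotientMapₐ JC ι hle
  have hιb : IsLocalHom (ιb : (A ⧸ JA) →+* (C ⧸ JC)) :=
    H113.isLocalHom_algHom hCN.isLocalHom hCN.residue_surjective ιb
  have hιbinj : Function.Injective ιb :=
    Ideal.quotientMap_injective' (f := (ι : A →+* C)) (H := hle) hJAdef.ge
  -- the composite `A → C ⧸ JC`
  let χ : A →ₐ[𝒪] C ⧸ JC := mkC.comp ι
  have hχ : IsLocalHom (χ : A →+* C ⧸ JC) :=
    H113.isLocalHom_algHom hCN.isLocalHom hCN.residue_surjective χ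
  have h1 : 𝒟 ((ρ.baseChangeAlong (ι : A →+* C) hι).baseChangeAlong (mkC : C →+* C ⧸ JC) hmkC) :=
    (h𝒟.iff_forall_surjective hlocC hsurjC _).mp h hCN mkC hmkC
      (Ideal.Quotient.mkₐ_surjective 𝒪 JC)
  have e1 := H113.baseChangeAlong_comp_isEquiv' (ι : A →+* C) hι (mkC : C →+* C ⧸ JC) hmkC
    (χ : A →+* C ⧸ JC) hχ rfl ρ
  have e2 := H113.baseChangeAlong_comp_isEquiv' (mkA : A →+* A ⧸ JA) hmkA
    (ιb : (A ⧸ JA) →+* (C ⧸ JC)) hιb (χ : A →+* C ⧸ JC) hχ rfl ρ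
  have h2 : 𝒟 ((ρ.baseChangeAlong (mkA : A →+* A ⧸ JA) hmkA).baseChangeAlong
      (ιb : (A ⧸ JA) →+* (C ⧸ JC)) hιb) :=
    h𝒟.of_isEquiv hCN (H113.isEquiv_trans e1 (H113.isEquiv_symm e2)) h1
  have h3 : 𝒟 (ρ.baseChangeAlong (mkA : A →+* A ⧸ JA) hmkA) :=
    h𝒟.of_baseChangeAlong_injective hAN hCN ιb hιb hιbinj h2
  -- `q` factors through `A ⧸ JA`
  let q' : (A ⧸ JA) →ₐ[𝒪] B := Ideal.Quotient.liftₐ JA q hJAq
  have hq' : IsLocalHom (q' : (A ⧸ JA) →+* B) :=
    H113.isLocalHom_algHom hB.isLocalHom hB.residue_surjective q'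
  have h4 : 𝒟 ((ρ.baseChangeAlong (mkA : A →+* A ⧸ JA) hmkA).baseChangeAlong
      (q' : (A ⧸ JA) →+* B) hq') := h𝒟.baseChangeAlong hAN hB q' hq' h3
  have hcomp : (q' : (A ⧸ JA) →+* B).comp (mkA : A →+* A ⧸ JA) = (q : A →+* B) := by
    ext a
    rfl
  have e3 := H113.baseChangeAlong_comp_isEquiv' (mkA : A →+* A ⧸ JA) hmkA
    (q' : (A ⧸ JA) →+* B) hq' (q : A →+* B) hq hcomp ρ
  exact h𝒟.of_isEquiv hB e3 h4

end Descent

section Main

variable {𝒪 : Type} [CommRing 𝒪] [IsDomain 𝒪] [IsDiscreteValuationRing 𝒪]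
  [IsAdicComplete (maximalIdeal 𝒪) 𝒪]
  {ρbar : ResidualGaloisRep (ResidueField 𝒪)}
  {𝒟 𝒟' : ∀ ⦃A : Type⦄ [CommRing A] [IsLocalRing A] [Algebra 𝒪 A], GaloisRepAdic A → Prop}
  {rb : GQ →* M2 (ResidueField 𝒪)} {hrb : GaloisFactorsThroughFiniteLevel rb}
  {c : Idx → 𝒪} (hρb : ρbar.IsEquiv (toRes rb hrb)) (hc : ∀ t, residue 𝒪 (c t) = entries rb t)
  (D : DeformationRingData 𝒪 ρbar 𝒟) (D' : DeformationRingData 𝒪 ρbar 𝒟')
  {r : GQ →* M2 D.R} {hr : MatCont r} (hl : IsLiftC c (entries r))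
  (he : D.ρ.IsEquiv (toAdic r hr))
  {r' : GQ →* M2 D'.R} {hr' : MatCont r'} (hl' : IsLiftC c (entries r'))
  (he' : D'.ρ.IsEquiv (toAdic r' hr'))

include hρb hc hl he in
/-- The identity is the only endomorphism of a universal deformation ring fixing the universal
deformation. -/
theorem eq_id_of_isEquiv (h𝒟 : IsDeformationCondition 𝒪 𝒟) (f : D.R →ₐ[𝒪] D.R)
    (hf : IsLocalHom (f : D.R →+* D.R))
    (hfm : (toAdic (mapRep (f : D.R →+* D.R) r) (hr.map _ hf)).IsEquiv (toAdic r hr)) :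
    AlgHom.id 𝒪 D.R = f := by
  have hidloc : IsLocalHom ((AlgHom.id 𝒪 D.R : D.R →ₐ[𝒪] D.R) : D.R →+* D.R) :=
    H113.isLocalHom_algHom D.instIsLocalHom D.residue_surjective _
  have h8 : (toAdic r hr).IsEquiv (toAdic (mapRep
      ((AlgHom.id 𝒪 D.R : D.R →ₐ[𝒪] D.R) : D.R →+* D.R) r) (hr.map _ hidloc)) :=
    toAdic_congr (mapRep_id r).symm _ _
  have h6 : 𝒟 (toAdic r hr) :=
    D_of_isEquiv_cnl h𝒟 D.instIsLocalHom D.residue_surjective he D.isOfType
  have hid𝒟 : 𝒟 (toAdic (mapRep ((AlgHom.id 𝒪 D.R : D.R →ₐ[𝒪] D.R) : D.R →+* D.R) r)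
      (hr.map _ hidloc)) :=
    D_of_isEquiv_cnl h𝒟 D.instIsLocalHom D.residue_surjective h8 h6
  exact classifying_unique hρb hc D hl he D.residue_surjective _ _ hidloc hf hid𝒟
    (H113.isEquiv_trans (H113.isEquiv_symm h8) (H113.isEquiv_symm hfm))

include hρb hc hl he hl' he' in
/-- **A compatible map between universal deformation rings is surjective** (matrix form). -/
theorem surjective_of_compatible_matrix [Finite (ResidueField 𝒪)]
    (h𝒟 : IsDeformationCondition 𝒪 𝒟)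
    (β : D'.R →ₐ[𝒪] D.R) (hβ : IsLocalHom (β : D'.R →+* D.R))
    (hβm : (toAdic (mapRep (β : D'.R →+* D.R) r') (hr'.map _ hβ)).IsEquiv (toAdic r hr)) :
    Function.Surjective β := by
  classical
  obtain ⟨K, hKdef⟩ : ∃ K : Ideal D'.R, K = RingHom.ker (β : D'.R →+* D.R) := ⟨_, rfl⟩
  have hK : K ≠ ⊤ := by
    intro h1
    have h2 : (1 : D'.R) ∈ K := h1 ▸ Submodule.mem_top
    rw [hKdef, RingHom.mem_ker, map_one] at h2
    exact one_ne_zero h2
  haveI hAloc : IsLocalRing (D'.R ⧸ K) := isLocalRing_quotient K hK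
  haveI hAcomp : IsAdicComplete (maximalIdeal (D'.R ⧸ K)) (D'.R ⧸ K) :=
    Fermat.Agent.S53.H596.isAdicComplete_quotient K hK
  haveI hAlh : IsLocalHom (algebraMap 𝒪 (D'.R ⧸ K)) :=
    isLocalHom_algebraMap_quotient D'.instIsLocalHom K
  have hAsurj : Function.Surjective (residue (D'.R ⧸ K) ∘ algebraMap 𝒪 (D'.R ⧸ K)) :=
    residue_surjective_quotient D'.residue_surjective K
  let mk : D'.R →ₐ[𝒪] D'.R ⧸ K := Ideal.Quotient.mkₐ 𝒪 K
  have hmks : Function.Surjective mk := Ideal.Quotient.mkₐ_surjective 𝒪 K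
  have hmk : IsLocalHom (mk : D'.R →+* D'.R ⧸ K) :=
    H113.isLocalHom_algHom hAlh hAsurj mk
  have hβK : ∀ a ∈ K, β a = 0 := fun a ha => by
    rw [hKdef, RingHom.mem_ker] at ha
    exact ha
  let βb : D'.R ⧸ K →ₐ[𝒪] D.R := Ideal.Quotient.liftₐ K β hβK
  have hβb : ∀ a, βb (mk a) = β a := fun a => rfl
  have hβbloc : IsLocalHom (βb : D'.R ⧸ K →+* D.R) :=
    H113.isLocalHom_algHom D.instIsLocalHom D.residue_surjective _
  have hβbinj : Function.Injective βb := by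
    intro u w huw
    obtain ⟨a, rfl⟩ := hmks u
    obtain ⟨b, rfl⟩ := hmks w
    rw [hβb, hβb] at huw
    have h1 : a - b ∈ K := by
      rw [hKdef, RingHom.mem_ker, map_sub]
      exact sub_eq_zero.mpr huw
    exact (Ideal.Quotient.eq (I := K)).mpr h1
  -- the representation over the quotient is of type `𝒟`
  have hc2 : mapRep (βb : D'.R ⧸ K →+* D.R) (mapRep (mk : D'.R →+* D'.R ⧸ K) r') =
      mapRep (β : D'.R →+* D.R) r' := by
    rw [mapRep_comp]
    rfl
  have h6 : 𝒟 (toAdic r hr) :=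
    D_of_isEquiv_cnl h𝒟 D.instIsLocalHom D.residue_surjective he D.isOfType
  have e1 : ((toAdic (mapRep (mk : D'.R →+* D'.R ⧸ K) r') (hr'.map _ hmk)).baseChangeAlong
      (βb : D'.R ⧸ K →+* D.R) hβbloc).IsEquiv (toAdic r hr) :=
    H113.isEquiv_trans (baseChangeAlong_toAdic _ hβbloc _ (hr'.map _ hmk))
      (H113.isEquiv_trans (toAdic_congr hc2 _ _) hβm)
  have h7 : 𝒟 ((toAdic (mapRep (mk : D'.R →+* D'.R ⧸ K) r') (hr'.map _ hmk)).baseChangeAlong
      (βb : D'.R ⧸ K →+* D.R) hβbloc) :=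
    D_of_isEquiv_cnl h𝒟 D.instIsLocalHom D.residue_surjective (H113.isEquiv_symm e1) h6
  have h4 : 𝒟 (toAdic (mapRep (mk : D'.R →+* D'.R ⧸ K) r') (hr'.map _ hmk)) :=
    cond_of_injective h𝒟 hAlh hAsurj D.instIsLocalHom D.residue_surjective βb hβbloc hβbinj h7
  -- the classifying map of the quotient representation
  have hres := residual_of_isLiftC hρb hc hAlh _ (hr'.map _ hmk) (hl'.map mk hmk)
  obtain ⟨g, ⟨hg, hge⟩, -⟩ := D.universal (D'.R ⧸ K) hAsurj _ h4 hres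
  have hgm : (toAdic (mapRep (g : D.R →+* D'.R ⧸ K) r) (hr.map _ hg)).IsEquiv
      (toAdic (mapRep (mk : D'.R →+* D'.R ⧸ K) r') (hr'.map _ hmk)) :=
    H113.isEquiv_trans (H113.isEquiv_symm (baseChange_matrix he _ hg)) hge
  -- `βb ∘ g = id`
  have hcloc : IsLocalHom ((βb.comp g : D.R →ₐ[𝒪] D.R) : D.R →+* D.R) :=
    H113.isLocalHom_algHom D.instIsLocalHom D.residue_surjective _
  have hc3 : mapRep ((βb.comp g : D.R →ₐ[𝒪] D.R) : D.R →+* D.R) r =
      mapRep (βb : D'.R ⧸ K →+* D.R) (mapRep (g : D.R →+* D'.R ⧸ K) r) := by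
    rw [mapRep_comp]
    rfl
  have e2 : (toAdic (mapRep (βb : D'.R ⧸ K →+* D.R) (mapRep (g : D.R →+* D'.R ⧸ K) r))
      ((hr.map _ hg).map _ hβbloc)).IsEquiv
      (toAdic (mapRep (βb : D'.R ⧸ K →+* D.R)
        (mapRep (mk : D'.R →+* D'.R ⧸ K) r')) ((hr'.map _ hmk).map _ hβbloc)) :=
    H113.isEquiv_trans (H113.isEquiv_symm (baseChangeAlong_toAdic _ hβbloc _ (hr.map _ hg)))
      (H113.isEquiv_trans (H113.isEquiv_baseChangeAlong _ hβbloc hgm)
        (baseChangeAlong_toAdic _ hβbloc _ (hr'.map _ hmk)))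
  have e3 : (toAdic (mapRep ((βb.comp g : D.R →ₐ[𝒪] D.R) : D.R →+* D.R) r)
      (hr.map _ hcloc)).IsEquiv (toAdic r hr) :=
    H113.isEquiv_trans (toAdic_congr hc3 _ _)
      (H113.isEquiv_trans e2 (H113.isEquiv_trans (toAdic_congr hc2 _ _) hβm))
  have hid := eq_id_of_isEquiv hρb hc D hl he h𝒟 (βb.comp g) hcloc e3
  intro y
  have hy : βb (g y) = y := by
    have := congrArg (fun f : D.R →ₐ[𝒪] D.R => f y) hid
    exact this.symm
  obtain ⟨a, ha⟩ := hmks (g y)
  exact ⟨a, by rw [← hβb, ha, hy]⟩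

include hρb hc hl he hl' he' in
/-- **The kernel of a compatible map** (matrix form): if `D'.ρ mod K` is of type `𝒟`, then
`ker β ≤ K`. -/
theorem ker_le_of_cond_matrix (h𝒟' : IsDeformationCondition 𝒪 𝒟')
    (β : D'.R →ₐ[𝒪] D.R) (hβ : IsLocalHom (β : D'.R →+* D.R))
    (hβm : (toAdic (mapRep (β : D'.R →+* D.R) r') (hr'.map _ hβ)).IsEquiv (toAdic r hr))
    (K : Ideal D'.R) (hK : K ≠ ⊤)
    (hKcond : ∀ (hloc : IsLocalRing (D'.R ⧸ K))
      (hmk : IsLocalHom (Ideal.Quotient.mk K)),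
      𝒟 (toAdic (mapRep (Ideal.Quotient.mk K) r') (hr'.map _ hmk))) :
    RingHom.ker (β : D'.R →+* D.R) ≤ K := by
  classical
  haveI hAloc : IsLocalRing (D'.R ⧸ K) := isLocalRing_quotient K hK
  haveI hAcomp : IsAdicComplete (maximalIdeal (D'.R ⧸ K)) (D'.R ⧸ K) :=
    Fermat.Agent.S53.H596.isAdicComplete_quotient K hK
  haveI hAlh : IsLocalHom (algebraMap 𝒪 (D'.R ⧸ K)) :=
    isLocalHom_algebraMap_quotient D'.instIsLocalHom K
  have hAsurj : Function.Surjective (residue (D'.R ⧸ K) ∘ algebraMap 𝒪 (D'.R ⧸ K)) :=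
    residue_surjective_quotient D'.residue_surjective K
  let mk : D'.R →ₐ[𝒪] D'.R ⧸ K := Ideal.Quotient.mkₐ 𝒪 K
  have hmks : Function.Surjective mk := Ideal.Quotient.mkₐ_surjective 𝒪 K
  have hmk : IsLocalHom (mk : D'.R →+* D'.R ⧸ K) :=
    H113.isLocalHom_algHom hAlh hAsurj mk
  have h1 : 𝒟' (D'.ρ.baseChangeAlong (mk : D'.R →+* D'.R ⧸ K) hmk) :=
    cond_baseChange_of_surjective h𝒟' D'.instIsLocalHom D'.residue_surjective hAlh hAsurj mk hmk
      hmks D'.isOfType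
  have h2 : 𝒟' (toAdic (mapRep (mk : D'.R →+* D'.R ⧸ K) r') (hr'.map _ hmk)) :=
    D_of_isEquiv_cnl h𝒟' hAlh hAsurj (baseChange_matrix he' _ hmk) h1
  have h4 : 𝒟 (toAdic (mapRep (mk : D'.R →+* D'.R ⧸ K) r') (hr'.map _ hmk)) :=
    hKcond hAloc hmk
  have hres := residual_of_isLiftC hρb hc hAlh _ (hr'.map _ hmk) (hl'.map mk hmk)
  obtain ⟨g, ⟨hg, hge⟩, -⟩ := D.universal (D'.R ⧸ K) hAsurj _ h4 hres
  have hgm : (toAdic (mapRep (g : D.R →+* D'.R ⧸ K) r) (hr.map _ hg)).IsEquiv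
      (toAdic (mapRep (mk : D'.R →+* D'.R ⧸ K) r') (hr'.map _ hmk)) :=
    H113.isEquiv_trans (H113.isEquiv_symm (baseChange_matrix he _ hg)) hge
  have hgβloc : IsLocalHom ((g.comp β : D'.R →ₐ[𝒪] D'.R ⧸ K) : D'.R →+* D'.R ⧸ K) :=
    H113.isLocalHom_algHom hAlh hAsurj _
  have hcomp1 : mapRep ((g.comp β : D'.R →ₐ[𝒪] D'.R ⧸ K) : D'.R →+* D'.R ⧸ K) r' =
      mapRep (g : D.R →+* D'.R ⧸ K) (mapRep (β : D'.R →+* D.R) r') :=
    (mapRep_comp (g : D.R →+* D'.R ⧸ K) (β : D'.R →+* D.R) r').symm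
  have hgβ : mk = g.comp β := by
    refine classifying_unique hρb hc D' hl' he' hAsurj mk (g.comp β) hmk hgβloc h2 ?_
    have e1 : (toAdic (mapRep (g : D.R →+* D'.R ⧸ K) (mapRep (β : D'.R →+* D.R) r'))
        ((hr'.map _ hβ).map _ hg)).IsEquiv
        (toAdic (mapRep (g : D.R →+* D'.R ⧸ K) r) (hr.map _ hg)) :=
      H113.isEquiv_trans (H113.isEquiv_symm (baseChangeAlong_toAdic _ hg _ (hr'.map _ hβ)))
        (H113.isEquiv_trans (H113.isEquiv_baseChangeAlong _ hg hβm)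
          (baseChangeAlong_toAdic _ hg r hr))
    have e2 := H113.isEquiv_symm (H113.isEquiv_trans e1 hgm)
    exact H113.isEquiv_trans e2 (toAdic_congr hcomp1.symm _ _)
  intro y hy
  rw [RingHom.mem_ker] at hy
  have h6 : mk y = g (β y) := by
    have := congrArg (fun f : D'.R →ₐ[𝒪] D'.R ⧸ K => f y) hgβ
    exact this
  have hy' : (β : D'.R →+* D.R) y = β y := rfl
  rw [hy'] at hy
  rw [hy, map_zero] at h6
  exact Ideal.Quotient.eq_zero_iff_mem.mp h6

end Main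

section Final

variable {𝒪 : Type} [CommRing 𝒪] [IsDomain 𝒪] [IsDiscreteValuationRing 𝒪]
  [IsAdicComplete (maximalIdeal 𝒪) 𝒪]
  {ρbar : ResidualGaloisRep (ResidueField 𝒪)}
  {𝒟 𝒟' : ∀ ⦃A : Type⦄ [CommRing A] [IsLocalRing A] [Algebra 𝒪 A], GaloisRepAdic A → Prop}

/-- **A compatible map `β : R' → R` between universal deformation rings is surjective.**
Only the condition `𝒟` of the target is assumed to be a deformation condition. -/
theorem surjective_of_compatible [Finite (ResidueField 𝒪)]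
    (h𝒟 : IsDeformationCondition 𝒪 𝒟)
    (D : DeformationRingData 𝒪 ρbar 𝒟) (D' : DeformationRingData 𝒪 ρbar 𝒟')
    (β : D'.R →ₐ[𝒪] D.R) (hβ : IsLocalHom (β : D'.R →+* D.R))
    (hβρ : (D'.ρ.baseChangeAlong (β : D'.R →+* D.R) hβ).IsEquiv D.ρ) :
    Function.Surjective β := by
  obtain ⟨rb, hrb, c, hρb, hc⟩ := exists_residual_model ρbar
  obtain ⟨r, hr, hl, he⟩ := exists_matrix_model hρb hc D
  obtain ⟨r', hr', hl', he'⟩ := exists_matrix_model hρb hc D'
  refine surjective_of_compatible_matrix hρb hc D D' hl he hl' he' h𝒟 β hβ ?_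
  exact H113.isEquiv_trans (H113.isEquiv_symm (baseChange_matrix he' _ hβ))
    (H113.isEquiv_trans hβρ he)

/-- **The kernel of a compatible map**: if `D'.ρ mod K` is of type `𝒟`, then `ker β ≤ K`. -/
theorem ker_le_of_cond (h𝒟 : IsDeformationCondition 𝒪 𝒟) (h𝒟' : IsDeformationCondition 𝒪 𝒟')
    (D : DeformationRingData 𝒪 ρbar 𝒟) (D' : DeformationRingData 𝒪 ρbar 𝒟')
    (β : D'.R →ₐ[𝒪] D.R) (hβ : IsLocalHom (β : D'.R →+* D.R))
    (hβρ : (D'.ρ.baseChangeAlong (β : D'.R →+* D.R) hβ).IsEquiv D.ρ)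
    (K : Ideal D'.R) (hK : K ≠ ⊤)
    (hKcond : ∀ (hloc : IsLocalRing (D'.R ⧸ K))
      (hmk : IsLocalHom (Ideal.Quotient.mk K)),
      𝒟 (D'.ρ.baseChangeAlong (Ideal.Quotient.mk K) hmk)) :
    RingHom.ker (β : D'.R →+* D.R) ≤ K := by
  obtain ⟨rb, hrb, c, hρb, hc⟩ := exists_residual_model ρbar
  obtain ⟨r, hr, hl, he⟩ := exists_matrix_model hρb hc D
  obtain ⟨r', hr', hl', he'⟩ := exists_matrix_model hρb hc D'
  refine ker_le_of_cond_matrix hρb hc D D' hl he hl' he' h𝒟' β hβ ?_ K hK ?_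
  · exact H113.isEquiv_trans (H113.isEquiv_symm (baseChange_matrix he' _ hβ))
      (H113.isEquiv_trans hβρ he)
  · intro hloc hmk
    haveI := hloc
    haveI hAcomp : IsAdicComplete (maximalIdeal (D'.R ⧸ K)) (D'.R ⧸ K) :=
      Fermat.Agent.S53.H596.isAdicComplete_quotient K hK
    have hAlh : IsLocalHom (algebraMap 𝒪 (D'.R ⧸ K)) :=
      isLocalHom_algebraMap_quotient D'.instIsLocalHom K
    have hAsurj : Function.Surjective (residue (D'.R ⧸ K) ∘ algebraMap 𝒪 (D'.R ⧸ K)) :=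
      residue_surjective_quotient D'.residue_surjective K
    exact D_of_isEquiv_cnl h𝒟 hAlh hAsurj (baseChange_matrix he' _ hmk) (hKcond hloc hmk)

/-- Nonzero principal ideals of a DVR with finite residue field have finite index. -/
theorem finite_quot_span_singleton_h254 [Finite (ResidueField 𝒪)] {a : 𝒪} (ha : a ≠ 0) :
    Finite (𝒪 ⧸ Ideal.span {a}) := by
  obtain ⟨ϖ, hϖ⟩ := IsDiscreteValuationRing.exists_irreducible 𝒪
  have hne : Ideal.span {a} ≠ ⊥ := by
    rw [Ne, Ideal.span_singleton_eq_bot]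
    exact ha
  obtain ⟨n, hn⟩ := IsDiscreteValuationRing.ideal_eq_span_pow_irreducible hne hϖ
  rw [IsLocalRing.finite_quotient_iff]
  refine ⟨n, ?_⟩
  rw [hn, hϖ.maximalIdeal_eq, Ideal.span_singleton_pow]

/-- **The Selmer bound for a principal ideal.**  `β : R' → R` compatible, `x` an `𝒪`-point of
`R`, `u v = 0` in `R'` with `x (β u) ≠ 0`, and `D'.ρ mod (v)` of type `𝒟`.  Then
`#Φ_{R'}(x ∘ β) ≤ #Φ_R(x) · #(𝒪 / x(β u))`. -/
theorem card_cot_le_of_cond_principal [Finite (ResidueField 𝒪)]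
    (h𝒟 : IsDeformationCondition 𝒪 𝒟) (h𝒟' : IsDeformationCondition 𝒪 𝒟')
    (D : DeformationRingData 𝒪 ρbar 𝒟) (D' : DeformationRingData 𝒪 ρbar 𝒟')
    (β : D'.R →ₐ[𝒪] D.R) (hβ : IsLocalHom (β : D'.R →+* D.R))
    (hβρ : (D'.ρ.baseChangeAlong (β : D'.R →+* D.R) hβ).IsEquiv D.ρ)
    (x : D.R →ₐ[𝒪] 𝒪) (v u : D'.R) (huv : u * v = 0) (hu : (x.comp β) u ≠ 0)
    (hv : ∀ (hloc : IsLocalRing (D'.R ⧸ Ideal.span {v}))
      (hmk : IsLocalHom (Ideal.Quotient.mk (Ideal.span {v}))),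
      𝒟 (D'.ρ.baseChangeAlong (Ideal.Quotient.mk (Ideal.span {v})) hmk))
    [Finite (NC.Cot x)] :
    Finite (NC.Cot (x.comp β)) ∧
      Nat.card (NC.Cot (x.comp β)) ≤
        Nat.card (NC.Cot x) * Nat.card (𝒪 ⧸ Ideal.span {(x.comp β) u}) := by
  have hsurj := surjective_of_compatible h𝒟 D D' β hβ hβρ
  have hv0 : (x.comp β) v = 0 := by
    have h1 := congrArg (x.comp β) huv
    rw [map_mul, map_zero] at h1
    exact (mul_eq_zero.mp h1).resolve_left hu
  have hK : Ideal.span {v} ≠ ⊤ := by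
    intro h1
    have h2 : (1 : D'.R) ∈ Ideal.span {v} := h1 ▸ Submodule.mem_top
    obtain ⟨a, ha⟩ := Ideal.mem_span_singleton'.mp h2
    have h3 := congrArg (x.comp β) ha
    rw [map_mul, hv0, mul_zero, map_one] at h3
    exact zero_ne_one h3
  have hker := ker_le_of_cond h𝒟 h𝒟' D D' β hβ hβρ (Ideal.span {v}) hK hv
  haveI := finite_quot_span_singleton_h254 hu
  exact card_cot_le_of_principal_of_mul_eq_zero β hsurj x (x.comp β) rfl v u hker huv hu

end Final

end Fermat.Agent.S59.NM.H254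

end
end
-- ===== PACK-END S59/NM/H254/SurjUniv.lean

-- ===== PACK-BEGIN S59/NMP/H590/EigFrob.lean
section
/-
Row S59, cell NMP, leaf LGC (Eichler–Shimura at `p`), piece EIG — the root theorem (helper590).

`ρ : GaloisRepAdic O` (`O` a local domain, `2` a unit) with an ordinary line `L = O b₀` at a
place `P | p` on whose quotient every Frobenius element at `P` acts by `α` (the data of
`NMP.UnrFrobAt`), `det ρ` ramified at `P`; `M` a nonzero finite free `O`-module with Galois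
action `ρM` satisfying the quadratic relations of `ρ` (`S32.RelStatement` shape) and

    GEO-REL at `(P, φ)` :  `c ≠ 0`, `c M ⊆ I_aug M + (F² - a F + p) M`  ⟹  `I_aug M + 𝔪 M = M`

(`F = ρM φ`, `φ` a Frobenius element at `P`).  Then `α² - a α + p = 0`.

* `trace_det_of_triangular` : trace and determinant of an upper triangular endomorphism.
* `isFrobeniusAt_mul_of_mem_inertia` : `φ τ` is a Frobenius element if `φ` is and `τ ∈ I_P`.
* `root_of_line` : the theorem above.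
-/






set_option autoImplicit false
set_option linter.style.haveILetI false

noncomputable section

namespace Fermat.Agent.S59.NMP.H590

open Module IsLocalRing Fermat.Agent.S33.H692

section Triangular

variable {O : Type*} [CommRing O] {V : Type*} [AddCommGroup V] [Module O V]

/-- Trace and determinant of an endomorphism which is upper triangular in a basis. -/
theorem trace_det_of_triangular (b : Module.Basis (Fin 2) O V) (f : Module.End O V)
    (α β γ : O) (h0 : f (b 0) = β • b 0) (h1 : f (b 1) = α • b 1 + γ • b 0) :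
    LinearMap.trace O V f = α + β ∧ LinearMap.det f = α * β := by
  have hM : LinearMap.toMatrix b b f = !![β, γ; 0, α] := by
    ext i j
    rw [LinearMap.toMatrix_apply]
    fin_cases i <;> fin_cases j
    · simp [h0]
    · simp [h1]
    · simp [h0]
    · simp [h1]
  constructor
  · rw [LinearMap.trace_eq_matrix_trace O b f, hM, Matrix.trace_fin_two_of]
    ring
  · rw [← LinearMap.det_toMatrix b f, hM, Matrix.det_fin_two_of]
    ring

end Triangular

section Frobenius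

variable {K L : Type*} [Field K] [Field L] [Algebra K L]

/-- The inertia group is contained in the decomposition group. -/
theorem mem_decomposition_of_mem_inertiaIn {P : ValuationSubring L} {τ : L ≃ₐ[K] L}
    (hτ : τ ∈ P.inertiaSubgroupIn K) : τ ∈ P.decompositionSubgroup K := by
  obtain ⟨t, -, rfl⟩ := hτ
  exact t.2

/-- If `φ` is a Frobenius element at `P` and `τ` lies in the inertia group at `P`, then `φ τ`
is a Frobenius element at `P`. -/
theorem isFrobeniusAt_mul_of_mem_inertia {P : ValuationSubring L} {φ τ : L ≃ₐ[K] L} {q : ℕ}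
    (hφ : P.IsFrobeniusAt φ q) (hτ : τ ∈ P.inertiaSubgroupIn K) :
    P.IsFrobeniusAt (φ * τ) q := by
  obtain ⟨t, ht, rfl⟩ := hτ
  obtain ⟨hφD, hφx⟩ := hφ
  have hmul : φ * (P.decompositionSubgroup K).subtype t ∈ P.decompositionSubgroup K :=
    (P.decompositionSubgroup K).mul_mem hφD t.2
  refine ⟨hmul, fun x => ?_⟩
  have ht1 : t • x = x := by
    have h := MonoidHom.mem_ker.mp ht
    have h2 := congrArg (fun e : RingAut (IsLocalRing.ResidueField P) => e x) h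
    simpa using h2
  have e : (⟨φ * (P.decompositionSubgroup K).subtype t, hmul⟩ : P.decompositionSubgroup K)
      = ⟨φ, hφD⟩ * t := Subtype.ext rfl
  rw [e, mul_smul, ht1]
  exact hφx x

end Frobenius

section Root

variable {O : Type} [CommRing O] [IsDomain O] [IsLocalRing O]

/-- **EIG (root theorem), with the residual part as a hypothesis.**  `hne` is
`S33.H692.augSub_sup_ne_top` (residual ordinary line). -/
theorem root_of_line_of_ne (ρ : GaloisRepAdic O) (p : ℕ) (α a : O)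
    (P : ValuationSubring (AlgebraicClosure ℚ))
    (b : Module.Basis (Fin 2) O ρ.V)
    (hD : ∀ σ ∈ P.decompositionSubgroup ℚ, ∀ v ∈ (O ∙ b 0), ρ.ρ σ v ∈ (O ∙ b 0))
    (hI : ∀ σ ∈ P.inertiaSubgroupIn ℚ, ∀ v : ρ.V, ρ.ρ σ v - v ∈ (O ∙ b 0))
    (hF : ∀ σ : GQ, P.IsFrobeniusAt σ p → ∀ v : ρ.V, ρ.ρ σ v - α • v ∈ (O ∙ b 0))
    {φ τ : GQ} (hφ : P.IsFrobeniusAt φ p) (hτ : τ ∈ P.inertiaSubgroupIn ℚ)
    (hτdet : LinearMap.det (ρ.ρ τ) ≠ 1)
    {M : Type} [AddCommGroup M] [Module O M] (ρM : GQ →* Module.End O M)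
    (hrel : ∀ g : GQ, ρM g * ρM g - (LinearMap.trace O ρ.V (ρ.ρ g)) • ρM g
      + (LinearMap.det (ρ.ρ g)) • (1 : Module.End O M) = 0)
    (hres : augSub (↑(P.inertiaSubgroupIn ℚ) : Set GQ) ρM ⊔
      (maximalIdeal O) • (⊤ : Submodule O M) ≠ ⊤)
    (hgeo : ∀ c : O, c ≠ 0 →
      (∀ x : M, c • x ∈ augSub (↑(P.inertiaSubgroupIn ℚ) : Set GQ) ρM ⊔
        LinearMap.range (esEnd (ρM φ) a p)) →
      augSub (↑(P.inertiaSubgroupIn ℚ) : Set GQ) ρM ⊔
        (maximalIdeal O) • (⊤ : Submodule O M) = ⊤) :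
    α ^ 2 - a * α + (p : O) = 0 := by
  classical
  -- the shape of `ρ φ`, `ρ τ`, `ρ (φ τ)` in the basis `b`
  have hb0 : b 0 ∈ (O ∙ b 0) := Submodule.mem_span_singleton_self _
  have hτD : τ ∈ P.decompositionSubgroup ℚ := mem_decomposition_of_mem_inertiaIn hτ
  have hφτ : P.IsFrobeniusAt (φ * τ) p := isFrobeniusAt_mul_of_mem_inertia hφ hτ
  obtain ⟨β, hβ⟩ := Submodule.mem_span_singleton.mp (hD φ hφ.mem_decompositionSubgroup _ hb0)
  obtain ⟨γ, hγ⟩ := Submodule.mem_span_singleton.mp (hF φ hφ (b 1))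
  obtain ⟨δ, hδ⟩ := Submodule.mem_span_singleton.mp (hD τ hτD _ hb0)
  obtain ⟨γ', hγ'⟩ := Submodule.mem_span_singleton.mp (hI τ hτ (b 1))
  obtain ⟨γ'', hγ''⟩ := Submodule.mem_span_singleton.mp (hF (φ * τ) hφτ (b 1))
  have tφ := trace_det_of_triangular b (ρ.ρ φ) α β γ hβ.symm
    (by rw [hγ]; abel)
  have tτ := trace_det_of_triangular b (ρ.ρ τ) 1 δ γ' hδ.symm
    (by rw [hγ', one_smul]; abel)
  have hφτ0 : ρ.ρ (φ * τ) (b 0) = (β * δ) • b 0 := by
    rw [map_mul, Module.End.mul_apply, ← hδ, map_smul, ← hβ, smul_smul, mul_comm]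
  have tφτ := trace_det_of_triangular b (ρ.ρ (φ * τ)) α (β * δ) γ'' hφτ0
    (by rw [hγ'']; abel)
  -- `β ≠ 0`, `δ ≠ 1`
  have hδ1 : δ ≠ 1 := by
    intro h
    apply hτdet
    rw [tτ.2, h, mul_one]
  have hβ0 : β ≠ 0 := by
    intro h
    have hu : IsUnit (LinearMap.det (ρ.ρ φ)) := by
      have h1 : LinearMap.det (ρ.ρ φ) * LinearMap.det (ρ.ρ φ⁻¹) = 1 := by
        rw [← map_mul, ← map_mul, mul_inv_cancel, map_one, map_one]
      exact IsUnit.of_mul_eq_one _ h1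
    rw [tφ.2, h, mul_zero] at hu
    exact not_isUnit_zero hu
  -- the two quadratic relations
  have r1 := hrel φ
  rw [tφ.1, tφ.2] at r1
  have r2 := hrel (φ * τ)
  rw [tφτ.1, tφτ.2, ← mul_assoc] at r2
  have hnorm : ∀ s ∈ P.inertiaSubgroupIn ℚ, φ * s * φ⁻¹ ∈ P.inertiaSubgroupIn ℚ :=
    fun s hs => conj_mem_inertiaIn P hφ.mem_decompositionSubgroup hs
  refine root_of_geoRel ρM (↑(P.inertiaSubgroupIn ℚ) : Set GQ) φ a α p hres hgeo
    ⟨β * (δ - 1), mul_ne_zero hβ0 (sub_ne_zero.mpr hδ1), fun x => ?_⟩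
  exact smul_frob_sub_mem_augSub ρM (P.inertiaSubgroupIn ℚ) hτ hnorm α β δ r1 r2 x

/-- **EIG (root theorem).**  See the header. -/
theorem root_of_line (ρ : GaloisRepAdic O) (p : ℕ) (α a : O)
    (P : ValuationSubring (AlgebraicClosure ℚ))
    (b : Module.Basis (Fin 2) O ρ.V)
    (hD : ∀ σ ∈ P.decompositionSubgroup ℚ, ∀ v ∈ (O ∙ b 0), ρ.ρ σ v ∈ (O ∙ b 0))
    (hI : ∀ σ ∈ P.inertiaSubgroupIn ℚ, ∀ v : ρ.V, ρ.ρ σ v - v ∈ (O ∙ b 0))
    (hF : ∀ σ : GQ, P.IsFrobeniusAt σ p → ∀ v : ρ.V, ρ.ρ σ v - α • v ∈ (O ∙ b 0))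
    {φ τ : GQ} (hφ : P.IsFrobeniusAt φ p) (hτ : τ ∈ P.inertiaSubgroupIn ℚ)
    (hτdet : LinearMap.det (ρ.ρ τ) ≠ 1)
    {M : Type} [AddCommGroup M] [Module O M] [Module.Free O M] [Module.Finite O M]
    [Nontrivial M] (ρM : GQ →* Module.End O M)
    (hspan : Submodule.span O (Set.range ρ.ρ) = ⊤) (h2 : IsUnit (2 : O))
    (hrel : ∀ g : GQ, ρM g * ρM g - (LinearMap.trace O ρ.V (ρ.ρ g)) • ρM g
      + (LinearMap.det (ρ.ρ g)) • (1 : Module.End O M) = 0)
    (hgeo : ∀ c : O, c ≠ 0 →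
      (∀ x : M, c • x ∈ augSub (↑(P.inertiaSubgroupIn ℚ) : Set GQ) ρM ⊔
        LinearMap.range (esEnd (ρM φ) a p)) →
      augSub (↑(P.inertiaSubgroupIn ℚ) : Set GQ) ρM ⊔
        (maximalIdeal O) • (⊤ : Submodule O M) = ⊤) :
    α ^ 2 - a * α + (p : O) = 0 := by
  classical
  -- the residual part: `I_aug M + 𝔪 M ≠ M`
  let c := Module.Free.chooseBasis O M
  have hne : Nonempty (Module.Free.ChooseBasisIndex O M) := by
    by_contra hne
    rw [not_nonempty_iff] at hne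
    obtain ⟨x, y, hxy⟩ := exists_pair_ne M
    apply hxy
    apply c.repr.injective
    ext j
    exact (hne.false j).elim
  have hcoord0 : ∀ v ∈ (O ∙ b 0), b.coord 1 v = 0 := by
    intro v hv
    obtain ⟨r, rfl⟩ := Submodule.mem_span_singleton.mp hv
    rw [map_smul, Module.Basis.coord_apply, Module.Basis.repr_self, Finsupp.single_apply,
      if_neg (by decide), smul_zero]
  have hres : augSub (↑(P.inertiaSubgroupIn ℚ) : Set GQ) ρM ⊔
      (maximalIdeal O) • (⊤ : Submodule O M) ≠ ⊤ := by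
    refine augSub_sup_ne_top b ρ.ρ (RingHom.id O) c ρM hspan (fun g => hrel g) h2
      (↑(P.inertiaSubgroupIn ℚ) : Set GQ) (b.coord 1) ⟨b 1, ?_⟩ ?_
    · rw [RingHom.id_apply, Module.Basis.coord_apply, Module.Basis.repr_self,
        Finsupp.single_apply, if_pos rfl]
      exact isUnit_one
    · intro σ hσ v
      rw [RingHom.id_apply, hcoord0 _ (hI σ hσ v)]
      exact Ideal.zero_mem _
  exact root_of_line_of_ne ρ p α a P b hD hI hF hφ hτ hτdet ρM hrel hres hgeo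

end Root

end Fermat.Agent.S59.NMP.H590

end

end
-- ===== PACK-END S59/NMP/H590/EigFrob.lean

-- ===== PACK-BEGIN S59/Unit3/H37/EtaQuotEis.lean
section
/-
S59 MOONSHOT / cell (A) = wall-p at `p = 3` / leaf UNIT-EIS for the new units (helper37).

At `p = 3` the unit `Δ(t^p)/Δ(t)` of the `p ≥ 5` chain (slope `12`) is replaced by an η-quotient
of slope prime to `3` (candidates: `(η₁η₂/(η₃η₆))⁸`, the Hauptmodul `η₁⁵η₃/(η₂η₆⁵)` of `Γ₀(6)`,
`η₁η_r/(η₃η_{3r})`).  The leaf UNIT-EIS (`kronNorm ℓ u = c · u^(ℓ+1)`, `c ≠ 0`) is the same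
formal statement for every such unit; this file proves it once for ALL formal η-quotients:

* `IsEtaQuot ℓ x` : `x : LaurentSeries ℤ` is built from `t^k` (`k : ℤ`) and the Euler products
  `E(t^d)`, `ℓ ∤ d`, by products and inverses;
* `IsEtaQuot.isNormEig` : over any field `L` with a primitive `ℓ`-th root of unity (`ℓ` prime),
  the base change of an η-quotient is an eigen-unit of the Kronecker norm;
* `unitEis_of_isEtaQuot` : the same in the shape of `Ribet.H884.UnitEisStatement`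
  (constant written `algebraMap L (LaurentSeries L) c`, which is what `cst c` unfolds to);
* `isEtaQuot_shape8` / `unitEis_shape8` : the unit `t⁻² (E(t)E(t²)/(E(t³)E(t⁶)))⁸` in the exact
  syntactic shape of `S59.Unit3.H461.v3L` (apply with `I := etaInvP`,
  `hI := etaProd_mul_etaInvP`; no import of the analytic files is needed);
* `isEtaQuot_shapeD6` / `unitEis_shapeD6` : the Hauptmodul `t⁻¹ E(t)⁵E(t³)/(E(t²)E(t⁶)⁵)`;
* `isEtaQuot_shapeR` / `unitEis_shapeR` : `t^(-s) (E(t)E(t^r)/(E(t³)E(t^(3r))))^n`.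

Imports: `Ribet.H67.UnitEisLaurent` only (helper67's Euler-product calculus).
-/


set_option autoImplicit false

noncomputable section

namespace Fermat.Agent.S59.Unit3.H37

open PowerSeries ModularCurve
open Fermat.Agent.S37 Fermat.Agent.S37.H400
open Fermat.Agent.Ribet.H67

/-! ## Formal η-quotients -/

/-- **Formal η-quotients prime to `ℓ`**: the integral Laurent series obtained from the monomials
`t^k` and the Euler products `E(t^d) = ∏ₙ (1 - t^{dn})`, `ℓ ∤ d`, by products and inverses. -/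
inductive IsEtaQuot (ℓ : ℕ) : LaurentSeries ℤ → Prop
  | single (k : ℤ) : IsEtaQuot ℓ (HahnSeries.single k (1 : ℤ))
  | eulerAt (d : ℕ) [NeZero d] (hd : ¬ ℓ ∣ d) :
      IsEtaQuot ℓ (qExpand ℤ d (HahnSeries.ofPowerSeries ℤ ℤ etaProd))
  | mul {x y : LaurentSeries ℤ} : IsEtaQuot ℓ x → IsEtaQuot ℓ y → IsEtaQuot ℓ (x * y)
  | inv {x y : LaurentSeries ℤ} : IsEtaQuot ℓ x → x * y = 1 → IsEtaQuot ℓ y

namespace IsEtaQuot

variable {ℓ : ℕ}

theorem one : IsEtaQuot ℓ (1 : LaurentSeries ℤ) := IsEtaQuot.single 0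

theorem pow {x : LaurentSeries ℤ} (hx : IsEtaQuot ℓ x) (n : ℕ) : IsEtaQuot ℓ (x ^ n) := by
  induction n with
  | zero => rw [pow_zero]; exact one
  | succ n ih => rw [pow_succ]; exact ih.mul hx

theorem inv' {x y : LaurentSeries ℤ} (hx : IsEtaQuot ℓ x) (h : y * x = 1) : IsEtaQuot ℓ y :=
  hx.inv (by rw [mul_comm]; exact h)

/-- The Euler product `E(t)` itself (`ℓ ≠ 1`). -/
theorem euler (hℓ : ℓ ≠ 1) : IsEtaQuot ℓ (HahnSeries.ofPowerSeries ℤ ℤ etaProd) := by
  have h := IsEtaQuot.eulerAt (ℓ := ℓ) 1 (fun h => hℓ (Nat.dvd_one.1 h))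
  rwa [qExpand_one_apply] at h

/-- `E(t)^n`, as the Laurent series of the power series `etaProd ^ n`. -/
theorem euler_pow (hℓ : ℓ ≠ 1) (n : ℕ) :
    IsEtaQuot ℓ (HahnSeries.ofPowerSeries ℤ ℤ (etaProd ^ n)) := by
  rw [map_pow]
  exact (euler hℓ).pow n

/-- `E(t)^(-n)`, as the Laurent series of `I ^ n` for ANY formal inverse `I` of `etaProd`. -/
theorem euler_inv_pow (hℓ : ℓ ≠ 1) {I : PowerSeries ℤ} (hI : etaProd * I = 1) (n : ℕ) :
    IsEtaQuot ℓ (HahnSeries.ofPowerSeries ℤ ℤ (I ^ n)) := by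
  refine (euler_pow hℓ n).inv ?_
  rw [← map_mul, ← mul_pow, hI, one_pow, map_one]

/-- η-quotients prime to `ℓ` are stable under `t ↦ t^d`, `ℓ ∤ d` (`ℓ` prime). -/
theorem qExpand (hℓ : ℓ.Prime) (d : ℕ) [NeZero d] (hd : ¬ ℓ ∣ d) {x : LaurentSeries ℤ}
    (hx : IsEtaQuot ℓ x) : IsEtaQuot ℓ (_root_.ModularCurve.qExpand ℤ d x) := by
  induction hx with
  | single k =>
    rw [qExpand_single]
    exact IsEtaQuot.single _
  | eulerAt e he =>
    rw [qExpand_qExpand]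
    exact IsEtaQuot.eulerAt (d * e) (fun h => (hℓ.dvd_mul.1 h).elim hd he)
  | mul _ _ ihx ihy =>
    rw [map_mul]
    exact ihx.mul ihy
  | inv _ hxy ihx =>
    refine ihx.inv ?_
    rw [← map_mul, hxy, map_one]

end IsEtaQuot

/-! ## The Kronecker norm of an η-quotient -/

section Main

variable {L : Type*} [Field L]

/-- The monomials `t^k`, `k : ℤ`, are eigen-units of the Kronecker norm. -/
theorem isNormEig_single {ℓ : ℕ} [NeZero ℓ] (hℓ : ℓ.Prime) {ζ : L} (hζ : IsPrimitiveRoot ζ ℓ)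
    (k : ℤ) : IsNormEig ℓ (HahnSeries.single k (1 : L) : LaurentSeries L) := by
  have hε : (∏ b : Fin ℓ, ζ ^ (b : ℕ)) ≠ 0 :=
    Finset.prod_ne_zero_iff.2 fun b _ => pow_ne_zero _ (hζ.ne_zero hℓ.ne_zero)
  have hq : IsNormEig ℓ (H340.qq : LaurentSeries L) := ⟨_, hε, kronNorm_qq hζ⟩
  have hnat : ∀ n : ℕ, IsNormEig ℓ (HahnSeries.single (n : ℤ) (1 : L) : LaurentSeries L) := by
    intro n
    rw [← H340.qq_pow]
    exact hq.pow n
  rcases le_or_gt 0 k with hk | hk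
  · lift k to ℕ using hk
    exact hnat k
  · obtain ⟨n, hn⟩ : ∃ n : ℕ, (n : ℤ) = -k := ⟨(-k).toNat, Int.toNat_of_nonneg (by omega)⟩
    refine (hnat n).of_mul_eq_one (g := HahnSeries.single k (1 : L)) ?_
    rw [HahnSeries.single_mul_single, hn, neg_add_cancel, mul_one]
    rfl

/-- The Euler products `E(t^d)`, `ℓ ∤ d`, are fixed by `f ↦ kronNorm ℓ f / f^(ℓ+1)`. -/
theorem isNormEig_eulerAt {ℓ : ℕ} [NeZero ℓ] (hℓ : ℓ.Prime) {ζ : L} (hζ : IsPrimitiveRoot ζ ℓ)
    (d : ℕ) [NeZero d] (hd : ¬ ℓ ∣ d) :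
    IsNormEig ℓ (qExpand L d (HahnSeries.ofPowerSeries ℤ L (etaK L))) := by
  rw [← ofPS_expand d (NeZero.ne d)]
  exact ⟨1, one_ne_zero, by
    rw [map_one, one_mul]
    exact kronNorm_ofPS_of_identity hζ _ (etaK_expand_norm_identity hℓ hζ d (NeZero.ne d) hd)⟩

/-- **UNIT-EIS for all η-quotients.**  Over a field `L` with a primitive `ℓ`-th root of unity
(`ℓ` prime), the base change of a formal η-quotient prime to `ℓ` is an eigen-unit of the
Kronecker norm: `kronNorm ℓ x = C c · x^(ℓ+1)` with `c ≠ 0`. -/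
theorem IsEtaQuot.isNormEig {ℓ : ℕ} [NeZero ℓ] (hℓ : ℓ.Prime) {ζ : L}
    (hζ : IsPrimitiveRoot ζ ℓ) {x : LaurentSeries ℤ} (hx : IsEtaQuot ℓ x) :
    IsNormEig ℓ (coeffMap (Int.castRingHom L) x) := by
  induction hx with
  | single k =>
    rw [coeffMap_single, map_one]
    exact isNormEig_single hℓ hζ k
  | eulerAt d hd =>
    rw [coeffMap_qExpand_h400, coeffMap_ofPowerSeries]
    exact isNormEig_eulerAt hℓ hζ d hd
  | mul _ _ ihx ihy =>
    rw [map_mul]
    exact ihx.mul ihy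
  | inv _ hxy ihx =>
    refine ihx.of_mul_eq_one ?_
    rw [← map_mul, hxy, map_one]

/-- `IsEtaQuot.isNormEig`, unfolded. -/
theorem kronNorm_of_isEtaQuot {ℓ : ℕ} [NeZero ℓ] (hℓ : ℓ.Prime) {ζ : L}
    (hζ : IsPrimitiveRoot ζ ℓ) {x : LaurentSeries ℤ} (hx : IsEtaQuot ℓ x) :
    ∃ c : L, c ≠ 0 ∧
      kronNorm ℓ (coeffMap (Int.castRingHom L) x) =
        HahnSeries.C c * coeffMap (Int.castRingHom L) x ^ (ℓ + 1) :=
  hx.isNormEig hℓ hζ

theorem algebraMap_eq_C (c : L) :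
    algebraMap L (LaurentSeries L) c = HahnSeries.C c := by
  have h1 : algebraMap L (PowerSeries L) c = PowerSeries.C c := by simp
  rw [HahnSeries.algebraMap_apply', h1, HahnSeries.ofPowerSeries_C]

/-- **UNIT-EIS** in the shape of `Ribet.H884.UnitEisStatement`, for any η-quotient and any field
with enough `ℓ`-th roots of unity (e.g. `L = AlgebraicClosure ℚ`: the instance is found by
`inferInstance` once `NeZero ((ℓ : ℕ) : L)` is in scope, see `unitEis_of_isEtaQuot_algClosed`);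
the constant is written
`algebraMap L (LaurentSeries L) c` (= `A2.H708.cst c`, an `abbrev`). -/
theorem unitEis_of_isEtaQuot (ℓ : Nat.Primes) [NeZero (ℓ : ℕ)]
    [HasEnoughRootsOfUnity L (ℓ : ℕ)]
    {x : LaurentSeries ℤ} (hx : IsEtaQuot (ℓ : ℕ) x) :
    ∃ c : L, c ≠ 0 ∧
      kronNorm (ℓ : ℕ) (coeffMap (Int.castRingHom L) x) =
        algebraMap L (LaurentSeries L) c * coeffMap (Int.castRingHom L) x ^ ((ℓ : ℕ) + 1) := by
  obtain ⟨ζ, hζ⟩ := HasEnoughRootsOfUnity.exists_primitiveRoot L (ℓ : ℕ)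
  obtain ⟨c, hc, h⟩ := hx.isNormEig (L := L) ℓ.2 hζ
  exact ⟨c, hc, by rw [h, algebraMap_eq_C]⟩

/-- `unitEis_of_isEtaQuot` over an algebraically closed field of characteristic `0`. -/
theorem unitEis_of_isEtaQuot_algClosed [IsAlgClosed L] [CharZero L] (ℓ : Nat.Primes)
    [NeZero (ℓ : ℕ)] {x : LaurentSeries ℤ} (hx : IsEtaQuot (ℓ : ℕ) x) :
    ∃ c : L, c ≠ 0 ∧
      kronNorm (ℓ : ℕ) (coeffMap (Int.castRingHom L) x) =
        algebraMap L (LaurentSeries L) c * coeffMap (Int.castRingHom L) x ^ ((ℓ : ℕ) + 1) := by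
  have : NeZero (((ℓ : ℕ) : ℕ) : L) := ⟨by exact_mod_cast ℓ.2.ne_zero⟩
  exact unitEis_of_isEtaQuot ℓ hx

end Main

/-! ## The candidate units at `p = 3` -/

section Shapes

variable {ℓ : ℕ}

/-- **The unit `v = t⁻² (E(t)E(t²)/(E(t³)E(t⁶)))⁸`** (`= (η₁η₂/(η₃η₆))⁸`, slope `8`), in the
syntactic shape of `S59.Unit3.H461.v3L`, is an η-quotient prime to every prime `ℓ ∉ {2, 3}`. -/
theorem isEtaQuot_shape8 (hℓ : ℓ.Prime) (h2 : ℓ ≠ 2) (h3 : ℓ ≠ 3) {I : PowerSeries ℤ}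
    (hI : etaProd * I = 1) :
    IsEtaQuot ℓ
      (HahnSeries.single (-2 : ℤ) (1 : ℤ) * HahnSeries.ofPowerSeries ℤ ℤ (etaProd ^ 8) *
        qExpand ℤ 2 (HahnSeries.ofPowerSeries ℤ ℤ (etaProd ^ 8)) *
        qExpand ℤ 3 (HahnSeries.ofPowerSeries ℤ ℤ (I ^ 8)) *
        qExpand ℤ 6 (HahnSeries.ofPowerSeries ℤ ℤ (I ^ 8))) := by
  have hd2 : ¬ ℓ ∣ 2 := fun h => h2 ((Nat.prime_dvd_prime_iff_eq hℓ Nat.prime_two).1 h)
  have hd3 : ¬ ℓ ∣ 3 := fun h => h3 ((Nat.prime_dvd_prime_iff_eq hℓ Nat.prime_three).1 h)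
  have hd6 : ¬ ℓ ∣ 6 := fun h =>
    (hℓ.dvd_mul.1 (show ℓ ∣ 2 * 3 from h)).elim hd2 hd3
  have hE := IsEtaQuot.euler_pow (ℓ := ℓ) hℓ.ne_one 8
  have hEi := IsEtaQuot.euler_inv_pow (ℓ := ℓ) hℓ.ne_one hI 8
  exact ((((IsEtaQuot.single (-2)).mul hE).mul (hE.qExpand hℓ 2 hd2)).mul
    (hEi.qExpand hℓ 3 hd3)).mul (hEi.qExpand hℓ 6 hd6)

/-- **UNIT-EIS for `v = (η₁η₂/(η₃η₆))⁸`**, shape of `Ribet.H884.UnitEisStatement`. -/
theorem unitEis_shape8 {L : Type*} [Field L] (ℓ : Nat.Primes)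
    [NeZero (ℓ : ℕ)] [HasEnoughRootsOfUnity L (ℓ : ℕ)] (h2 : (ℓ : ℕ) ≠ 2) (h3 : (ℓ : ℕ) ≠ 3)
    {I : PowerSeries ℤ} (hI : etaProd * I = 1) (v : LaurentSeries ℤ)
    (hv : v = HahnSeries.single (-2 : ℤ) (1 : ℤ) * HahnSeries.ofPowerSeries ℤ ℤ (etaProd ^ 8) *
        qExpand ℤ 2 (HahnSeries.ofPowerSeries ℤ ℤ (etaProd ^ 8)) *
        qExpand ℤ 3 (HahnSeries.ofPowerSeries ℤ ℤ (I ^ 8)) *
        qExpand ℤ 6 (HahnSeries.ofPowerSeries ℤ ℤ (I ^ 8))) :
    ∃ c : L, c ≠ 0 ∧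
      kronNorm (ℓ : ℕ) (coeffMap (Int.castRingHom L) v) =
        algebraMap L (LaurentSeries L) c * coeffMap (Int.castRingHom L) v ^ ((ℓ : ℕ) + 1) := by
  subst hv
  exact unitEis_of_isEtaQuot ℓ (isEtaQuot_shape8 ℓ.2 h2 h3 hI)

/-- **The Hauptmodul of `Γ₀(6)`**: `t⁻¹ E(t)⁵ E(t³) / (E(t²) E(t⁶)⁵)` (`= η₁⁵η₃/(η₂η₆⁵)`), for any
formal inverse `I` of the Euler product. -/
theorem isEtaQuot_shapeD6 (hℓ : ℓ.Prime) (h2 : ℓ ≠ 2) (h3 : ℓ ≠ 3) {I : PowerSeries ℤ}
    (hI : etaProd * I = 1) :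
    IsEtaQuot ℓ
      (HahnSeries.single (-1 : ℤ) (1 : ℤ) * HahnSeries.ofPowerSeries ℤ ℤ (etaProd ^ 5) *
        qExpand ℤ 3 (HahnSeries.ofPowerSeries ℤ ℤ etaProd) *
        qExpand ℤ 2 (HahnSeries.ofPowerSeries ℤ ℤ I) *
        qExpand ℤ 6 (HahnSeries.ofPowerSeries ℤ ℤ (I ^ 5))) := by
  have hd2 : ¬ ℓ ∣ 2 := fun h => h2 ((Nat.prime_dvd_prime_iff_eq hℓ Nat.prime_two).1 h)
  have hd3 : ¬ ℓ ∣ 3 := fun h => h3 ((Nat.prime_dvd_prime_iff_eq hℓ Nat.prime_three).1 h)
  have hd6 : ¬ ℓ ∣ 6 := fun h =>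
    (hℓ.dvd_mul.1 (show ℓ ∣ 2 * 3 from h)).elim hd2 hd3
  have hE5 := IsEtaQuot.euler_pow (ℓ := ℓ) hℓ.ne_one 5
  have hE := IsEtaQuot.euler (ℓ := ℓ) hℓ.ne_one
  have hI1 : IsEtaQuot ℓ (HahnSeries.ofPowerSeries ℤ ℤ I) := by
    have h := IsEtaQuot.euler_inv_pow (ℓ := ℓ) hℓ.ne_one hI 1
    rwa [pow_one] at h
  have hI5 := IsEtaQuot.euler_inv_pow (ℓ := ℓ) hℓ.ne_one hI 5
  exact ((((IsEtaQuot.single (-1)).mul hE5).mul (hE.qExpand hℓ 3 hd3)).mul
    (hI1.qExpand hℓ 2 hd2)).mul (hI5.qExpand hℓ 6 hd6)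

/-- **UNIT-EIS for the Hauptmodul of `Γ₀(6)`**. -/
theorem unitEis_shapeD6 {L : Type*} [Field L] (ℓ : Nat.Primes)
    [NeZero (ℓ : ℕ)] [HasEnoughRootsOfUnity L (ℓ : ℕ)] (h2 : (ℓ : ℕ) ≠ 2) (h3 : (ℓ : ℕ) ≠ 3)
    {I : PowerSeries ℤ} (hI : etaProd * I = 1) (v : LaurentSeries ℤ)
    (hv : v = HahnSeries.single (-1 : ℤ) (1 : ℤ) * HahnSeries.ofPowerSeries ℤ ℤ (etaProd ^ 5) *
        qExpand ℤ 3 (HahnSeries.ofPowerSeries ℤ ℤ etaProd) *
        qExpand ℤ 2 (HahnSeries.ofPowerSeries ℤ ℤ I) *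
        qExpand ℤ 6 (HahnSeries.ofPowerSeries ℤ ℤ (I ^ 5))) :
    ∃ c : L, c ≠ 0 ∧
      kronNorm (ℓ : ℕ) (coeffMap (Int.castRingHom L) v) =
        algebraMap L (LaurentSeries L) c * coeffMap (Int.castRingHom L) v ^ ((ℓ : ℕ) + 1) := by
  subst hv
  exact unitEis_of_isEtaQuot ℓ (isEtaQuot_shapeD6 ℓ.2 h2 h3 hI)

/-- **The units `t^s (E(t) E(t^r) / (E(t³) E(t^(3r))))^n`** (`s : ℤ`; for `(η₁η_r/(η₃η_{3r}))^n`
take `s = -n (r + 1) / 12`), for any `r ≠ 0` and any prime `ℓ ∤ 3r`. -/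
theorem isEtaQuot_shapeR (hℓ : ℓ.Prime) (h3 : ℓ ≠ 3) (r : ℕ) [NeZero r] [NeZero (3 * r)]
    (hr : ¬ ℓ ∣ r) (s : ℤ) (n : ℕ) {I : PowerSeries ℤ} (hI : etaProd * I = 1) :
    IsEtaQuot ℓ
      (HahnSeries.single s (1 : ℤ) * HahnSeries.ofPowerSeries ℤ ℤ (etaProd ^ n) *
        qExpand ℤ r (HahnSeries.ofPowerSeries ℤ ℤ (etaProd ^ n)) *
        qExpand ℤ 3 (HahnSeries.ofPowerSeries ℤ ℤ (I ^ n)) *
        qExpand ℤ (3 * r) (HahnSeries.ofPowerSeries ℤ ℤ (I ^ n))) := by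
  have hd3 : ¬ ℓ ∣ 3 := fun h => h3 ((Nat.prime_dvd_prime_iff_eq hℓ Nat.prime_three).1 h)
  have hd3r : ¬ ℓ ∣ 3 * r := fun h => (hℓ.dvd_mul.1 h).elim hd3 hr
  have hE := IsEtaQuot.euler_pow (ℓ := ℓ) hℓ.ne_one n
  have hEi := IsEtaQuot.euler_inv_pow (ℓ := ℓ) hℓ.ne_one hI n
  exact ((((IsEtaQuot.single s).mul hE).mul (hE.qExpand hℓ r hr)).mul
    (hEi.qExpand hℓ 3 hd3)).mul (hEi.qExpand hℓ (3 * r) hd3r)

/-- **UNIT-EIS for `t^s (E(t) E(t^r) / (E(t³) E(t^(3r))))^n`**. -/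
theorem unitEis_shapeR {L : Type*} [Field L] (ℓ : Nat.Primes)
    [NeZero (ℓ : ℕ)] [HasEnoughRootsOfUnity L (ℓ : ℕ)] (h3 : (ℓ : ℕ) ≠ 3) (r : ℕ) [NeZero r]
    [NeZero (3 * r)] (hr : ¬ (ℓ : ℕ) ∣ r) (s : ℤ) (n : ℕ) {I : PowerSeries ℤ} (hI : etaProd * I = 1)
    (v : LaurentSeries ℤ)
    (hv : v = HahnSeries.single s (1 : ℤ) * HahnSeries.ofPowerSeries ℤ ℤ (etaProd ^ n) *
        qExpand ℤ r (HahnSeries.ofPowerSeries ℤ ℤ (etaProd ^ n)) *
        qExpand ℤ 3 (HahnSeries.ofPowerSeries ℤ ℤ (I ^ n)) *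
        qExpand ℤ (3 * r) (HahnSeries.ofPowerSeries ℤ ℤ (I ^ n))) :
    ∃ c : L, c ≠ 0 ∧
      kronNorm (ℓ : ℕ) (coeffMap (Int.castRingHom L) v) =
        algebraMap L (LaurentSeries L) c * coeffMap (Int.castRingHom L) v ^ ((ℓ : ℕ) + 1) := by
  subst hv
  exact unitEis_of_isEtaQuot ℓ (isEtaQuot_shapeR ℓ.2 h3 r hr s n hI)

end Shapes

end Fermat.Agent.S59.Unit3.H37

end

end
-- ===== PACK-END S59/Unit3/H37/EtaQuotEis.lean

-- ===== PACK-BEGIN S36/Reg/H968/Struct.lean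
section
/-
S36 / cell REG / leaf HASSE — part 1 (helper968): integral structure of level-one forms.

`exists_intPoly`: if `G ∈ ℤ[[q]]` is (after `ℤ → ℂ`) a `ℂ`-combination of the monomials
`E₄^x E₆^y` of weight `12 a + 4 δ + 6 ε` (`δ ≤ 2`, `ε ≤ 1`) — e.g. the `q`-expansion of any
level-one modular form of that weight — then in `ℤ((q))`
  `G = E₄^δ · E₆^ε · Δ^a · F(j)`   with `F ∈ ℤ[X]`.
Together with `E₄³ = jΔ` and `E₆² = (j - 1728)Δ` (in `ℤ((q))`, hence over every ring).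
-/





set_option autoImplicit false

open ModularForm ModularFormClass EisensteinSeries UpperHalfPlane MatrixGroups
open ModularCurve HahnSeries
open Fermat.Agent.S23.LevelOne Fermat.Agent.S28

noncomputable section

namespace Fermat.Agent.S36.Reg.H968

/-- `E₄` as an integral Laurent series. -/
def aZ : LaurentSeries ℤ := HahnSeries.ofPowerSeries ℤ ℤ qE4

/-- `E₆` as an integral Laurent series. -/
def bZ : LaurentSeries ℤ := HahnSeries.ofPowerSeries ℤ ℤ qE6

/-- `E₄⁻¹` as an integral Laurent series. -/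
def aZinv : LaurentSeries ℤ := HahnSeries.ofPowerSeries ℤ ℤ (qE4.invOfUnit 1)

/-- `E₆⁻¹` as an integral Laurent series. -/
def bZinv : LaurentSeries ℤ := HahnSeries.ofPowerSeries ℤ ℤ (qE6.invOfUnit 1)

theorem aZ_mul_aZinv : aZ * aZinv = 1 := by
  rw [aZ, aZinv, ← map_mul, PowerSeries.mul_invOfUnit _ _ (by rw [constantCoeff_qE4]; rfl),
    map_one]

theorem bZ_mul_bZinv : bZ * bZinv = 1 := by
  rw [bZ, bZinv, ← map_mul, PowerSeries.mul_invOfUnit _ _ (by rw [constantCoeff_qE6]; rfl),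
    map_one]

theorem coeffMap_aZ : coeffMap (Int.castRingHom ℂ) aZ = th327_a := by
  rw [aZ, coeffMap_ofPowerSeries, th327_a, qExpansion_E4]

theorem coeffMap_bZ : coeffMap (Int.castRingHom ℂ) bZ = th327_b := by
  rw [bZ, coeffMap_ofPowerSeries, th327_b, qExpansion_E6]

/-- `j Δ = E₄³` in `ℤ((q))`. -/
theorem j_mul_delta_Z : jqModC ℤ * deltaL ℤ = aZ ^ 3 := by
  apply th327_coeffMap_intCast_injective
  rw [map_mul, coeffMap_jqModC, h88_coeffMap_deltaL, map_pow, coeffMap_aZ]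
  exact th327_j_mul_delta

/-- `E₄³ - E₆² = 1728 Δ` in `ℤ((q))`. -/
theorem cube_sub_sq_Z : aZ ^ 3 - bZ ^ 2 = 1728 * deltaL ℤ := by
  apply th327_coeffMap_intCast_injective
  rw [map_sub, map_pow, map_pow, coeffMap_aZ, coeffMap_bZ, map_mul, map_ofNat,
    h88_coeffMap_deltaL]
  exact th327_cube_sub_sq_laurent

/-- `E₆² = (j - 1728) Δ` in `ℤ((q))`. -/
theorem sq_eq_Z : bZ ^ 2 = (jqModC ℤ - 1728) * deltaL ℤ := by
  have h1 := cube_sub_sq_Z
  have h2 := j_mul_delta_Z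
  linear_combination -h1 - h2

theorem ofPowerSeries_qMono_C (x y : ℕ) :
    HahnSeries.ofPowerSeries ℤ ℂ ((qMono x y).map (Int.castRingHom ℂ)) =
      th327_a ^ x * th327_b ^ y := by
  rw [qMono, map_mul, map_pow, map_pow, map_mul, map_pow, map_pow, th327_a, th327_b,
    qExpansion_E4, qExpansion_E6]

/-- Step 1 (over `ℂ`): every combination of monomials of weight `12a + 4δ + 6ε` is
`E₄^δ E₆^ε Δ^a F(j)`. -/
theorem exists_poly_of_mem_span (δ ε a : ℕ) (hδ : δ ≤ 2) (hε : ε ≤ 1) (P : PowerSeries ℂ)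
    (hP : P ∈ Submodule.span ℂ (monoSet (12 * (a : ℤ) + 4 * (δ : ℤ) + 6 * (ε : ℤ)))) :
    ∃ F : Polynomial ℂ, HahnSeries.ofPowerSeries ℤ ℂ P =
      th327_a ^ δ * th327_b ^ ε * deltaL ℂ ^ a * Polynomial.aeval (jqModC ℂ) F := by
  induction hP using Submodule.span_induction with
  | mem x hx =>
    obtain ⟨x', y', hxy, rfl⟩ := hx
    obtain ⟨u, v, hu, hv, huv⟩ : ∃ u v : ℕ, x' = δ + 3 * u ∧ y' = ε + 2 * v ∧ u + v = a := by
      refine ⟨(x' - δ) / 3, (y' - ε) / 2, ?_, ?_, ?_⟩ <;> omega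
    subst hu hv huv
    refine ⟨Polynomial.X ^ u * (Polynomial.X - Polynomial.C 1728) ^ v, ?_⟩
    have hA3 : th327_a ^ 3 = jqModC ℂ * deltaL ℂ := th327_j_mul_delta.symm
    have hB2 : th327_b ^ 2 = (jqModC ℂ - 1728) * deltaL ℂ := by
      have h1 := th327_cube_sub_sq_laurent
      linear_combination hA3 - h1
    have hav : Polynomial.aeval (jqModC ℂ)
        (Polynomial.X ^ u * (Polynomial.X - Polynomial.C (1728 : ℂ)) ^ v) =
        jqModC ℂ ^ u * (jqModC ℂ - 1728) ^ v := by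
      rw [map_mul, map_pow, map_pow, map_sub, Polynomial.aeval_X, Polynomial.aeval_C,
        map_ofNat]
    rw [ofPowerSeries_qMono_C, hav, _root_.pow_add, _root_.pow_add, pow_mul, pow_mul, hA3, hB2,
      mul_pow, mul_pow, _root_.pow_add]
    ring
  | zero => exact ⟨0, by simp⟩
  | add x y _ _ hx hy =>
    obtain ⟨F, hF⟩ := hx
    obtain ⟨F', hF'⟩ := hy
    exact ⟨F + F', by rw [map_add, hF, hF', map_add, mul_add]⟩
  | smul c x _ hx =>
    obtain ⟨F, hF⟩ := hx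
    refine ⟨Polynomial.C c * F, ?_⟩
    have h1 : c • x = PowerSeries.C c * x := by
      ext n; simp
    have h2 : (algebraMap ℂ (LaurentSeries ℂ)) c =
        HahnSeries.ofPowerSeries ℤ ℂ (PowerSeries.C c) := rfl
    rw [h1, map_mul, hF, map_mul, Polynomial.aeval_C, h2]
    ring

/-- Step 2: integrality of the polynomial. -/
theorem exists_intPoly (δ ε a : ℕ) (hδ : δ ≤ 2) (hε : ε ≤ 1) (G : PowerSeries ℤ)
    (hG : G.map (Int.castRingHom ℂ) ∈
      Submodule.span ℂ (monoSet (12 * (a : ℤ) + 4 * (δ : ℤ) + 6 * (ε : ℤ)))) :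
    ∃ F : Polynomial ℤ, HahnSeries.ofPowerSeries ℤ ℤ G =
      aZ ^ δ * bZ ^ ε * deltaL ℤ ^ a * Polynomial.aeval (jqModC ℤ) F := by
  obtain ⟨F, hF⟩ := exists_poly_of_mem_span δ ε a hδ hε _ hG
  set φ := coeffMap (Int.castRingHom ℂ) with hφ
  -- the integral Laurent series `H` with `φ H = F(j)`
  set H : LaurentSeries ℤ :=
    HahnSeries.ofPowerSeries ℤ ℤ G * aZinv ^ δ * bZinv ^ ε * deltaInvL ℤ ^ a with hH
  have ha : th327_a * φ aZinv = 1 := by
    rw [← coeffMap_aZ, ← map_mul, aZ_mul_aZinv, map_one]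
  have hb : th327_b * φ bZinv = 1 := by
    rw [← coeffMap_bZ, ← map_mul, bZ_mul_bZinv, map_one]
  have hd : deltaL ℂ * φ (deltaInvL ℤ) = 1 := by
    rw [hφ, h88_coeffMap_deltaInvL, h88_deltaL_mul_deltaInvL]
  have hHF : φ H = Polynomial.aeval (jqModC ℂ) F := by
    rw [hH, map_mul, map_mul, map_mul, map_pow, map_pow, map_pow, hφ, coeffMap_ofPowerSeries,
      hF, ← hφ]
    calc th327_a ^ δ * th327_b ^ ε * deltaL ℂ ^ a * (Polynomial.aeval (jqModC ℂ)) F *
          φ aZinv ^ δ * φ bZinv ^ ε * φ (deltaInvL ℤ) ^ a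
        = (th327_a * φ aZinv) ^ δ * (th327_b * φ bZinv) ^ ε *
            (deltaL ℂ * φ (deltaInvL ℤ)) ^ a * (Polynomial.aeval (jqModC ℂ)) F := by ring
      _ = (Polynomial.aeval (jqModC ℂ)) F := by rw [ha, hb, hd]; simp
  have hcoef : ∀ i, F.coeff i ∈ (Int.castRingHom ℂ).range := by
    refine H685.coeff_mem_of_aeval_jqModC (Int.castRingHom ℂ).range F.natDegree F le_rfl ?_
    intro k
    rw [← hHF, hφ, coeffMap_coeff]
    exact ⟨_, rfl⟩
  obtain ⟨F', hF'⟩ : ∃ F' : Polynomial ℤ, F'.map (Int.castRingHom ℂ) = F := by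
    have : F ∈ Polynomial.lifts (Int.castRingHom ℂ) := by
      rw [Polynomial.lifts_iff_coeff_lifts]
      intro n
      obtain ⟨m, hm⟩ := hcoef n
      exact ⟨m, hm⟩
    exact this
  refine ⟨F', ?_⟩
  apply th327_coeffMap_intCast_injective
  have hav : φ (Polynomial.aeval (jqModC ℤ) F') = Polynomial.aeval (jqModC ℂ) F := by
    rw [hφ, Polynomial.map_aeval_eq_aeval_map (φ := Int.castRingHom ℂ)
      (RingHom.ext_int _ _), coeffMap_jqModC, hF']
  rw [← hφ, map_mul, map_mul, map_mul, map_pow, map_pow, map_pow, hav, hφ, coeffMap_aZ,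
    coeffMap_bZ, h88_coeffMap_deltaL, coeffMap_ofPowerSeries, hF]

/-- Level-one form of weight `12a + 4δ + 6ε` with integral `q`-expansion `G`. -/
theorem exists_intPoly_of_form (δ ε a : ℕ) (hδ : δ ≤ 2) (hε : ε ≤ 1) {k : ℤ}
    (hk : k = 12 * (a : ℤ) + 4 * (δ : ℤ) + 6 * (ε : ℤ)) (f : ModularForm 𝒮ℒ k) (c : ℂ)
    (G : PowerSeries ℤ) (hG : G.map (Int.castRingHom ℂ) = c • qExpansion 1 f) :
    ∃ F : Polynomial ℤ, HahnSeries.ofPowerSeries ℤ ℤ G =
      aZ ^ δ * bZ ^ ε * deltaL ℤ ^ a * Polynomial.aeval (jqModC ℤ) F := by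
  refine exists_intPoly δ ε a hδ hε G ?_
  rw [hG]
  have h := levelOne_qExpansion_mem_span k f
  have hm : monoSet k = monoSet (12 * (a : ℤ) + 4 * (δ : ℤ) + 6 * (ε : ℤ)) := by rw [hk]
  rw [hm] at h
  exact Submodule.smul_mem _ _ h

end Fermat.Agent.S36.Reg.H968

end

end
-- ===== PACK-END S36/Reg/H968/Struct.lean

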