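import Mathlib
import Fermat.Prelude.Def_ModularCurve_ArithmeticGalois
import Fermat.Agent.Pack.S59C.E3L1
import Fermat.Agent.Pack.S59C.E3L0
import Fermat.Agent.Pack.S59C.E0L3
import Fermat.Agent.Pack.S44C.G0E16L2
import Fermat.Agent.Pack.S59C.E1L2
import Fermat.Agent.Pack.S43MC.G0E14L1
import Fermat.Agent.Pack.S43MC.G0E15L0
import Fermat.Agent.Pack.S44C.G0E1L3
import Fermat.Agent.Pack.S59C.E1L0
import Fermat.Agent.Pack.S59C.E3L2
import Fermat.Agent.Pack.S44C.G0E9L2

set_option linter.all false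

-- ===== PACK-BEGIN S59/H427/TateFormula.lean
section


/-!
# S59 / N1 (helper427): Tate's formula for complete intersections (centered presentation)

`card_cotangent_eq_of_ci_centered`: `O` a DVR with finite residue field, `T` a finite free local
`O`-algebra with augmentation `π`, `T = O⟦X₁,…,Xₙ⟧ / (f₁,…,fₙ)` with `π (ψ Xᵢ) = 0`, and
`Φ = ker π / (ker π)²` finite.  Then `η ≠ 0` and `#Φ = #(O/η)`.
-/

set_option autoImplicit false
set_option linter.unusedSectionVars false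
set_option linter.unusedVariables false
set_option linter.style.haveILetI false

namespace Fermat.Agent.S59.H427

open IsLocalRing MvPowerSeries Fermat.Agent.S59.H67

section FiniteQuot

variable {O : Type*} [CommRing O] [IsDomain O] [IsDiscreteValuationRing O]
  [Finite (ResidueField O)]

/-- In a DVR with finite residue field, `O / (d)` is finite for `d ≠ 0`. -/
theorem finite_quotient_span_singleton_of_ne_zero {d : O} (hd : d ≠ 0) :
    Finite (O ⧸ Ideal.span {d}) := by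
  obtain ⟨ϖ, hϖ⟩ := IsDiscreteValuationRing.exists_irreducible O
  obtain ⟨k, hk⟩ := IsDiscreteValuationRing.ideal_eq_span_pow_irreducible
    (s := Ideal.span {d}) (by simpa using hd) hϖ
  have hmax : maximalIdeal O = Ideal.span {ϖ} :=
    (IsDiscreteValuationRing.irreducible_iff_uniformizer ϖ).mp hϖ
  rw [hk, ← Ideal.span_singleton_pow, ← hmax]
  haveI : Finite (O ⧸ maximalIdeal O) := inferInstanceAs (Finite (ResidueField O))
  exact Ideal.finite_quotient_pow (IsNoetherian.noetherian _) k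

end FiniteQuot

section Cot

variable {O : Type*} [CommRing O] {T : Type*} [CommRing T] [Algebra O T]

/-- On the cotangent space of an augmentation ideal, `T` acts through `π`. -/
theorem smul_cotangent_eq_aug (π : T →ₐ[O] O) (s : T) (y : (RingHom.ker π).Cotangent) :
    s • y = π s • y := by
  have h1 : Ideal.Quotient.mk (RingHom.ker π) s =
      Ideal.Quotient.mk _ (algebraMap O T (π s)) := by
    rw [Ideal.Quotient.eq, RingHom.mem_ker, map_sub, sub_eq_zero]
    exact (π.commutes (π s)).symm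
  rw [← algebraMap_smul T (π s) y]
  have h2 : ∀ r : T, r • y = Ideal.Quotient.mk (RingHom.ker π) r • y := fun r => by
    rw [← Ideal.Quotient.algebraMap_eq, algebraMap_smul]
  rw [h2 s, h2 (algebraMap O T (π s)), h1]

/-- The class of `∑ sⱼ xⱼ` in the cotangent space is `∑ π(sⱼ) [xⱼ]`. -/
theorem toCotangent_sum_mul_eq (π : T →ₐ[O] O) {n : ℕ} (s : Fin n → T)
    (x : Fin n → RingHom.ker π) (t : RingHom.ker π) (ht : (t : T) = ∑ j, s j * (x j : T)) :
    (RingHom.ker π).toCotangent t = ∑ j, π (s j) • (RingHom.ker π).toCotangent (x j) := by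
  have h1 : t = ∑ j, s j • x j := by
    apply Subtype.ext
    rw [ht, Submodule.coe_sum]
    rfl
  rw [h1, map_sum]
  refine Finset.sum_congr rfl fun j _ => ?_
  rw [map_smul, smul_cotangent_eq_aug]

end Cot

section Centered

variable {O : Type*} [CommRing O] [IsDomain O] [IsDiscreteValuationRing O]
  [Finite (ResidueField O)]
variable {T : Type*} [CommRing T] [IsLocalRing T] [Algebra O T] [Module.Finite O T]
  [Module.Free O T]

/-- **Tate's formula** for a centered complete-intersection presentation. -/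
theorem card_cotangent_eq_of_ci_centered
    (π : T →ₐ[O] O) {n : ℕ} (ψ : MvPowerSeries (Fin n) O →ₐ[O] T) (hψ : Function.Surjective ψ)
    (f : Fin n → MvPowerSeries (Fin n) O) (hker : RingHom.ker ψ = Ideal.span (Set.range f))
    (hcent : ∀ i, π (ψ (X i)) = 0)
    [Finite (RingHom.ker π).Cotangent] :
    etaIdeal π ≠ ⊥ ∧ Nat.card (RingHom.ker π).Cotangent = Nat.card (O ⧸ etaIdeal π) := by
  classical
  obtain ⟨hη, hle⟩ := Fermat.Agent.S59.H360.card_quot_etaIdeal_le π
  refine ⟨hη, le_antisymm ?_ hle⟩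
  -- the relations have zero constant term
  have hfker : ∀ i, ψ (f i) = 0 := fun i => by
    have : f i ∈ RingHom.ker ψ := by rw [hker]; exact Ideal.subset_span ⟨i, rfl⟩
    exact RingHom.mem_ker.mp this
  have hf0 : ∀ i, constantCoeff (f i) = 0 := by
    intro i
    rw [← aug_eq_constantCoeff π ψ hcent (f i), hfker i, map_zero]
  choose G' hG' using fun i => exists_sum_mul_X_of_constantCoeff_eq_zero (f i) (hf0 i)
  let G : Matrix (Fin n) (Fin n) (MvPowerSeries (Fin n) O) := Matrix.of G'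
  have hG : ∀ i, f i = ∑ j, G i j * X j := hG'
  obtain ⟨ϖ, hϖ⟩ := IsDiscreteValuationRing.exists_irreducible O
  have hmax : maximalIdeal O = Ideal.span {ϖ} :=
    (IsDiscreteValuationRing.irreducible_iff_uniformizer ϖ).mp hϖ
  -- nilpotence mod ϖ
  obtain ⟨a, ha⟩ := exists_maximalIdeal_pow_le_map (O := O) (T := T)
  have hkerπ : RingHom.ker π ≤ maximalIdeal T :=
    IsLocalRing.le_maximalIdeal (RingHom.ker_ne_top _)
  have hmem : ∀ g : MvPowerSeries (Fin n) O, (∃ t : T, ψ g = ϖ • t) →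
      g ∈ Ideal.span (Set.range f) ⊔ Ideal.span {(C ϖ : MvPowerSeries (Fin n) O)} := by
    rintro g ⟨t, ht⟩
    obtain ⟨g', rfl⟩ := hψ t
    have h1 : g - C ϖ * g' ∈ RingHom.ker ψ := by
      rw [RingHom.mem_ker, map_sub, map_mul, ht, sub_eq_zero, Algebra.smul_def]
      congr 1
      exact (ψ.commutes ϖ).symm
    rw [hker] at h1
    have h2 : g = (g - C ϖ * g') + g' * C ϖ := by ring
    rw [h2]
    exact Submodule.add_mem_sup h1 (Ideal.mul_mem_left _ _ (Ideal.subset_span rfl))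
  have hprim : ∀ i, (X i : MvPowerSeries (Fin n) O) ^ a ∈
      Ideal.span (Set.range f) ⊔ Ideal.span {(C ϖ : MvPowerSeries (Fin n) O)} := by
    intro i
    apply hmem
    have h1 : ψ (X i) ^ a ∈ maximalIdeal T ^ a :=
      Ideal.pow_mem_pow (hkerπ (RingHom.mem_ker.mpr (hcent i))) a
    have h2 := ha h1
    rw [hmax, Ideal.map_span, Set.image_singleton, Ideal.mem_span_singleton'] at h2
    obtain ⟨t, ht⟩ := h2
    exact ⟨t, by rw [map_pow, ← ht, Algebra.smul_def, mul_comm]⟩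
  have hdet := det_notMem_span_sup ϖ hϖ.not_isUnit f G hG a hprim
  set θ : T := ψ G.det with hθdef
  have hθann : θ ∈ (RingHom.ker π).annihilator := by
    rw [ker_aug_eq_span π ψ hψ hcent, Submodule.mem_annihilator_span]
    rintro ⟨_, j, rfl⟩
    have h1 := det_mul_mem_span_mulVec G (fun k => (X k : MvPowerSeries (Fin n) O)) j
    have h2 : (fun i => ∑ k, G i k * (X k : MvPowerSeries (Fin n) O)) = f := by
      funext i; exact (hG i).symm
    rw [h2, ← hker, RingHom.mem_ker, map_mul] at h1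
    exact h1
  have hθprim : ∀ t : T, θ ≠ ϖ • t := fun t ht => hdet (hmem _ ⟨t, ht⟩)
  obtain ⟨hθ0, hηeq⟩ := etaIdeal_eq_span_of_not_dvd π hη hϖ hθann hθprim
  -- the Jacobian matrix
  let ρ : MvPowerSeries (Fin n) O →+* O := (π : T →+* O).comp (ψ : MvPowerSeries (Fin n) O →+* T)
  let J : Matrix (Fin n) (Fin n) O := ρ.mapMatrix G
  have hJ : ∀ i j, J i j = π (ψ (G i j)) := fun i j => rfl
  have hJdet : J.det = π θ := (RingHom.map_det ρ G).symm
  -- the surjection onto the cotangent space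
  let x : Fin n → RingHom.ker π := fun j => ⟨ψ (X j), RingHom.mem_ker.mpr (hcent j)⟩
  let Λ : (Fin n → O) →ₗ[O] (RingHom.ker π).Cotangent :=
    Fintype.linearCombination O (fun j => (RingHom.ker π).toCotangent (x j))
  have hΛ : ∀ c, Λ c = ∑ j, c j • (RingHom.ker π).toCotangent (x j) := fun c =>
    Fintype.linearCombination_apply O _ c
  have hΛsurj : Function.Surjective Λ := by
    intro y
    obtain ⟨t, rfl⟩ := (RingHom.ker π).toCotangent_surjective y
    obtain ⟨g, hg⟩ := hψ (t : T)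
    have h0 : constantCoeff g = 0 := by
      rw [← aug_eq_constantCoeff π ψ hcent g, hg]
      exact RingHom.mem_ker.mp t.2
    obtain ⟨h, hh⟩ := exists_sum_mul_X_of_constantCoeff_eq_zero g h0
    refine ⟨fun j => π (ψ (h j)), ?_⟩
    rw [hΛ]
    refine (toCotangent_sum_mul_eq π (fun j => ψ (h j)) x t ?_).symm
    rw [← hg, hh, map_sum]
    refine Finset.sum_congr rfl fun j _ => ?_
    rw [map_mul]
  have hrow : ∀ i, ∑ j, J i j • (RingHom.ker π).toCotangent (x j) = 0 := by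
    intro i
    have h1 := toCotangent_sum_mul_eq π (fun j => ψ (G i j)) x 0 (by
      rw [Submodule.coe_zero, ← hfker i, hG i, map_sum]
      refine Finset.sum_congr rfl fun j _ => ?_
      rw [map_mul])
    rw [map_zero] at h1
    exact h1.symm
  have hΛker : LinearMap.range (J.transpose.mulVecLin) ≤ LinearMap.ker Λ := by
    rintro _ ⟨v, rfl⟩
    rw [LinearMap.mem_ker, hΛ]
    have h1 : ∀ j, (J.transpose.mulVecLin v) j = ∑ i, v i * J i j := fun j => by
      rw [Matrix.mulVecLin_apply, Matrix.mulVec, dotProduct]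
      refine Finset.sum_congr rfl fun i _ => ?_
      rw [Matrix.transpose_apply, mul_comm]
    simp_rw [h1, Finset.sum_smul, mul_smul]
    rw [Finset.sum_comm]
    refine Finset.sum_eq_zero fun i _ => ?_
    rw [← Finset.smul_sum, hrow i, smul_zero]
  -- counting
  have hcardJ := card_quotient_range_mulVecLin J.transpose (by rwa [Matrix.det_transpose, hJdet])
  rw [Matrix.det_transpose, hJdet, ← hηeq] at hcardJ
  haveI hfinη : Finite (O ⧸ etaIdeal π) := by
    rw [hηeq]; exact finite_quotient_span_singleton_of_ne_zero hθ0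
  haveI hfinQ : Finite ((Fin n → O) ⧸ LinearMap.range J.transpose.mulVecLin) := by
    apply Nat.finite_of_card_ne_zero
    rw [hcardJ]
    exact Nat.card_pos.ne'
  rw [← hcardJ]
  refine Nat.card_le_card_of_surjective
    ((LinearMap.range J.transpose.mulVecLin).liftQ Λ hΛker) ?_
  intro y
  obtain ⟨c, hc⟩ := hΛsurj y
  exact ⟨Submodule.Quotient.mk c, by rw [Submodule.liftQ_apply]; exact hc⟩

end Centered

end Fermat.Agent.S59.H427

end
-- ===== PACK-END S59/H427/TateFormula.lean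

-- ===== PACK-BEGIN S59/H427/Final.lean
section


/-!
# S59 / N1 (helper427): injectivity from a unit multiplier

The last step of the numerical criterion, in polynomial form.
-/

set_option autoImplicit false
set_option linter.unusedSectionVars false

namespace Fermat.Agent.S59.H427

open MvPolynomial

section LinearPart

variable {𝒪 : Type*} [CommRing 𝒪] [IsDomain 𝒪] {ι : Type*} [Fintype ι] [DecidableEq ι]

theorem coeff_single_one_mul_sum (a : ι → MvPolynomial ι 𝒪) (b : MvPolynomial ι 𝒪) (k : ι) :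
    coeff (Finsupp.single k 1) (b * ∑ l, a l * X l) = constantCoeff b * constantCoeff (a k) := by
  rw [Finset.mul_sum, coeff_sum]
  have h1 : ∀ l ∈ (Finset.univ : Finset ι), coeff (Finsupp.single k 1) (b * (a l * X l)) =
      if l = k then constantCoeff b * constantCoeff (a k) else 0 := by
    intro l _
    rw [← mul_assoc, coeff_mul_X']
    by_cases hl : l = k
    · subst hl
      have : l ∈ (Finsupp.single l 1).support := by simp
      rw [if_pos this, if_pos rfl, tsub_self]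
      exact map_mul constantCoeff b (a l)
    · have : l ∉ (Finsupp.single k 1).support := by
        simp [hl]
      rw [if_neg this, if_neg hl]
  rw [Finset.sum_congr rfl h1, Finset.sum_ite_eq' Finset.univ k]
  simp

/-- If `∑ j, b j * f j` has no linear part and the linear parts of the `f j` are independent,
then the `b j` have no constant term. -/
theorem constantCoeff_eq_zero_of_sum_mem_sq (a : Matrix ι ι (MvPolynomial ι 𝒪))
    (hdet : constantCoeff a.det ≠ 0) (b : ι → MvPolynomial ι 𝒪)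
    (hb : ∑ j, b j * ∑ l, a j l * X l ∈ idealOfVars ι 𝒪 ^ 2) (j : ι) :
    constantCoeff (b j) = 0 := by
  have h1 : ∀ k, ∑ j, constantCoeff (b j) * constantCoeff (a j k) = 0 := by
    intro k
    have h2 := (mem_pow_idealOfVars_iff' 2 _).mp hb (Finsupp.single k 1)
      (by rw [Finsupp.degree_single]; omega)
    rw [coeff_sum] at h2
    rw [← h2]
    exact Finset.sum_congr rfl fun j _ => (coeff_single_one_mul_sum (a j) (b j) k).symm
  have h3 : Matrix.vecMul (fun j => constantCoeff (b j)) (a.map constantCoeff) = 0 := by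
    funext k
    simp only [Matrix.vecMul, dotProduct, Matrix.map_apply, Pi.zero_apply]
    exact h1 k
  have h4 : (a.map (constantCoeff : MvPolynomial ι 𝒪 →+* 𝒪)).det ≠ 0 := by
    have : (a.map (constantCoeff : MvPolynomial ι 𝒪 →+* 𝒪)).det = constantCoeff a.det := by
      rw [RingHom.map_det]
      rfl
    rw [this]
    exact hdet
  exact congrFun (Matrix.eq_zero_of_vecMul_eq_zero h4 h3) j

end LinearPart

section Main

variable {𝒪 : Type*} [CommRing 𝒪] [IsDomain 𝒪]
variable {R : Type*} [CommRing R] [Algebra 𝒪 R]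
variable {T : Type*} [CommRing T] [Algebra 𝒪 T]
variable {ι : Type*} [Fintype ι] [DecidableEq ι]

theorem aug_aeval' (π : T →ₐ[𝒪] 𝒪) (x : ι → T) (hx : ∀ i, π (x i) = 0)
    (g : MvPolynomial ι 𝒪) : π (aeval x g) = constantCoeff g := by
  have h1 : π.comp (aeval x) = aeval (fun _ : ι => (0 : 𝒪)) := by
    apply MvPolynomial.algHom_ext
    intro i
    simp [hx i]
  have h2 := DFunLike.congr_fun h1 g
  rw [AlgHom.comp_apply] at h2
  rw [h2]
  simp

/-- **Injectivity from a unit multiplier.** -/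
theorem injective_of_unit_multiplier (φ : R →ₐ[𝒪] T) (hφ : Function.Surjective φ)
    (π : T →ₐ[𝒪] 𝒪)
    (hJfg : (RingHom.ker (φ : R →+* T)).FG)
    (hjac : RingHom.ker ((π.comp φ : R →ₐ[𝒪] 𝒪) : R →+* 𝒪) ≤ Ideal.jacobson ⊥)
    (hH1 : RingHom.ker (φ : R →+* T) ≤ RingHom.ker ((π.comp φ : R →ₐ[𝒪] 𝒪) : R →+* 𝒪) ^ 2)
    (x : ι → T) (hx : ∀ i, π (x i) = 0)
    (hspan : ∀ t, π t = 0 → t ∈ Submodule.span 𝒪 (Set.range x))
    (a : Matrix ι ι (MvPolynomial ι 𝒪))
    (hker : ∀ i, aeval x (∑ j, a i j * X j) = 0)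
    (hdet : constantCoeff a.det ≠ 0)
    (y : MvPolynomial ι 𝒪) (hy : IsUnit (constantCoeff y))
    (hyI : ∀ g, aeval x g = 0 →
      y * g ∈ Ideal.span (Set.range fun i => ∑ j, a i j * (X j : MvPolynomial ι 𝒪))) :
    Function.Injective φ := by
  classical
  set 𝔭 : Ideal R := RingHom.ker ((π.comp φ : R →ₐ[𝒪] 𝒪) : R →+* 𝒪) with h𝔭
  set J : Ideal R := RingHom.ker (φ : R →+* T) with hJ
  set f : ι → MvPolynomial ι 𝒪 := fun i => ∑ j, a i j * X j with hf
  have mem𝔭 : ∀ ρ : R, ρ ∈ 𝔭 ↔ π (φ ρ) = 0 := fun ρ => Iff.rfl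
  have memJ : ∀ ρ : R, ρ ∈ J ↔ φ ρ = 0 := fun ρ => Iff.rfl
  have hJ𝔭 : J ≤ 𝔭 := fun ρ hρ => by
    rw [mem𝔭, (memJ ρ).mp hρ, map_zero]
  have hKJ : 𝔭 * J ≤ J := Ideal.mul_le_right
  choose r hr using fun i => hφ (x i)
  set ev : MvPolynomial ι 𝒪 →ₐ[𝒪] R := aeval r with hev
  have hφev : ∀ g, φ (ev g) = aeval x g := by
    intro g
    have h1 : φ.comp ev = aeval x := by
      apply MvPolynomial.algHom_ext
      intro i
      simp [hev, hr i]
    exact DFunLike.congr_fun h1 g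
  have ev_mem_𝔭 : ∀ g, constantCoeff g = 0 → ev g ∈ 𝔭 := by
    intro g hg
    rw [mem𝔭, hφev, aug_aeval' π x hx, hg]
  have ev_sub_mem : ∀ g, ev g - algebraMap 𝒪 R (constantCoeff g) ∈ 𝔭 := by
    intro g
    have h1 : ev g - algebraMap 𝒪 R (constantCoeff g) = ev (g - C (constantCoeff g)) := by
      rw [map_sub, hev, aeval_C]
    rw [h1]
    exact ev_mem_𝔭 _ (by simp)
  have ev_mem_J : ∀ g, aeval x g = 0 → ev g ∈ J := by
    intro g hg
    rw [memJ, hφev, hg]
  -- (F1) decomposition of `𝔭`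
  have F1 : ∀ ρ ∈ 𝔭, ∃ l : MvPolynomial ι 𝒪, l ∈ idealOfVars ι 𝒪 ∧ ρ - ev l ∈ J := by
    intro ρ hρ
    have h1 := hspan (φ ρ) ((mem𝔭 ρ).mp hρ)
    rw [Submodule.mem_span_range_iff_exists_fun] at h1
    obtain ⟨c, hc⟩ := h1
    refine ⟨∑ i, C (c i) * X i, ?_, ?_⟩
    · exact Ideal.sum_mem _ fun i _ => Ideal.mul_mem_left _ _ (Ideal.subset_span ⟨i, rfl⟩)
    · rw [memJ, map_sub, hφev, map_sum]
      simp only [map_mul, aeval_C, aeval_X]
      rw [← hc, sub_eq_zero]
      exact Finset.sum_congr rfl fun i _ => by rw [Algebra.smul_def]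
  -- (F2) decomposition of `𝔭 ^ 2`
  have F2 : ∀ ρ ∈ 𝔭 ^ 2, ∃ q : MvPolynomial ι 𝒪, q ∈ idealOfVars ι 𝒪 ^ 2 ∧ ρ - ev q ∈ 𝔭 * J := by
    intro ρ hρ
    rw [pow_two] at hρ
    refine Submodule.mul_induction_on hρ ?_ ?_
    · intro ρ₁ h₁ ρ₂ h₂
      obtain ⟨l₁, hl₁, hj₁⟩ := F1 ρ₁ h₁
      obtain ⟨l₂, hl₂, hj₂⟩ := F1 ρ₂ h₂
      refine ⟨l₁ * l₂, by rw [pow_two]; exact Ideal.mul_mem_mul hl₁ hl₂, ?_⟩
      have e : ρ₁ * ρ₂ - ev (l₁ * l₂) = ev l₁ * (ρ₂ - ev l₂) + ρ₂ * (ρ₁ - ev l₁) := by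
        rw [map_mul]; ring
      rw [e]
      refine Ideal.add_mem _ (Ideal.mul_mem_mul ?_ hj₂) (Ideal.mul_mem_mul h₂ hj₁)
      apply ev_mem_𝔭
      have := (mem_pow_idealOfVars_iff' 1 l₁).mp (by simpa using hl₁) 0 (by simp)
      simpa [constantCoeff_eq] using this
    · rintro ρ₁ ρ₂ ⟨q₁, hq₁, hk₁⟩ ⟨q₂, hq₂, hk₂⟩
      refine ⟨q₁ + q₂, Ideal.add_mem _ hq₁ hq₂, ?_⟩
      have e : ρ₁ + ρ₂ - ev (q₁ + q₂) = (ρ₁ - ev q₁) + (ρ₂ - ev q₂) := by
        rw [map_add]; ring
      rw [e]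
      exact Ideal.add_mem _ hk₁ hk₂
  -- (★)
  have star : ∀ g, aeval x g = 0 → ∃ b : ι → MvPolynomial ι 𝒪, y * g = ∑ j, b j * f j ∧
      algebraMap 𝒪 R (constantCoeff y) * ev g -
        ∑ j, algebraMap 𝒪 R (constantCoeff (b j)) * ev (f j) ∈ 𝔭 * J := by
    intro g hg
    have h1 := hyI g hg
    rw [Ideal.mem_span_range_iff_exists_fun] at h1
    obtain ⟨b, hb⟩ := h1
    refine ⟨b, hb.symm, ?_⟩
    have h2 : ev y * ev g = ∑ j, ev (b j) * ev (f j) := by
      rw [← map_mul, ← hb, map_sum]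
      exact Finset.sum_congr rfl fun j _ => map_mul _ _ _
    have e : algebraMap 𝒪 R (constantCoeff y) * ev g -
        ∑ j, algebraMap 𝒪 R (constantCoeff (b j)) * ev (f j) =
        ∑ j, (ev (b j) - algebraMap 𝒪 R (constantCoeff (b j))) * ev (f j) -
          (ev y - algebraMap 𝒪 R (constantCoeff y)) * ev g := by
      simp only [sub_mul, Finset.sum_sub_distrib]
      rw [← h2]
      ring
    rw [e]
    refine Ideal.sub_mem _ (Ideal.sum_mem _ fun j _ => ?_) ?_
    · exact Ideal.mul_mem_mul (ev_sub_mem _) (ev_mem_J _ (hker j))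
    · exact Ideal.mul_mem_mul (ev_sub_mem _) (ev_mem_J _ hg)
  -- unit cancellation
  have cancel : ∀ ρ : R, algebraMap 𝒪 R (constantCoeff y) * ρ ∈ 𝔭 * J → ρ ∈ 𝔭 * J := by
    intro ρ hρ
    obtain ⟨u, hu⟩ := hy
    have h1 : ρ = algebraMap 𝒪 R (↑u⁻¹ : 𝒪) * (algebraMap 𝒪 R (constantCoeff y) * ρ) := by
      rw [← mul_assoc, ← map_mul, ← hu, Units.inv_mul, map_one, one_mul]
    rw [h1]
    exact Ideal.mul_mem_left _ _ hρ
  -- (M0) for `q ∈ idealOfVars ^ 2` vanishing at `x`: `y₀ * ev q ≡ ∑ b₀ ev f`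
  -- (M1) `ev (f i) ∈ 𝔭 * J`
  have M1 : ∀ i, ev (f i) ∈ 𝔭 * J := by
    intro i
    obtain ⟨q, hq, hk⟩ := F2 (ev (f i)) (hH1 (ev_mem_J _ (hker i)))
    have hqx : aeval x q = 0 := by
      have h1 : φ (ev (f i) - ev q) = 0 := (memJ _).mp (hKJ hk)
      rw [map_sub, hφev, hφev, hker i, zero_sub, neg_eq_zero] at h1
      exact h1
    obtain ⟨b, hb, hstar⟩ := star q hqx
    have hb0 : ∀ j, constantCoeff (b j) = 0 := by
      apply constantCoeff_eq_zero_of_sum_mem_sq a hdet b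
      have : ∑ j, b j * ∑ l, a j l * X l = y * q := hb.symm
      rw [this]
      exact Ideal.mul_mem_left _ _ hq
    have h2 : algebraMap 𝒪 R (constantCoeff y) * ev q ∈ 𝔭 * J := by
      have e : algebraMap 𝒪 R (constantCoeff y) * ev q =
          algebraMap 𝒪 R (constantCoeff y) * ev q -
            ∑ j, algebraMap 𝒪 R (constantCoeff (b j)) * ev (f j) := by
        have : ∑ j, algebraMap 𝒪 R (constantCoeff (b j)) * ev (f j) = 0 :=
          Finset.sum_eq_zero fun j _ => by rw [hb0 j, map_zero, zero_mul]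
        rw [this, sub_zero]
      rw [e]
      exact hstar
    have h3 := cancel _ h2
    have e : ev (f i) = (ev (f i) - ev q) + ev q := by ring
    rw [e]
    exact Ideal.add_mem _ hk h3
  -- (M2) `J ≤ 𝔭 * J`
  have M2 : J ≤ 𝔭 * J := by
    intro j hj
    obtain ⟨q, hq, hk⟩ := F2 j (hH1 hj)
    have hqx : aeval x q = 0 := by
      have h1 : φ (j - ev q) = 0 := (memJ _).mp (hKJ hk)
      rw [map_sub, hφev, (memJ j).mp hj, zero_sub, neg_eq_zero] at h1
      exact h1
    obtain ⟨b, hb, hstar⟩ := star q hqx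
    have h2 : algebraMap 𝒪 R (constantCoeff y) * ev q ∈ 𝔭 * J := by
      have e : algebraMap 𝒪 R (constantCoeff y) * ev q =
          (algebraMap 𝒪 R (constantCoeff y) * ev q -
            ∑ j, algebraMap 𝒪 R (constantCoeff (b j)) * ev (f j)) +
            ∑ j, algebraMap 𝒪 R (constantCoeff (b j)) * ev (f j) := by ring
      rw [e]
      exact Ideal.add_mem _ hstar (Ideal.sum_mem _ fun j _ => Ideal.mul_mem_left _ _ (M1 j))
    have h3 := cancel _ h2
    have e : j = (j - ev q) + ev q := by ring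
    rw [e]
    exact Ideal.add_mem _ hk h3
  -- Nakayama
  have hbot : J = ⊥ :=
    Submodule.eq_bot_of_le_smul_of_le_jacobson_bot 𝔭 J hJfg (by simpa using M2) hjac
  exact (RingHom.injective_iff_ker_eq_bot (φ : R →+* T)).mpr hbot

end Main

section Core

variable {𝒪 : Type*} [CommRing 𝒪] [IsDomain 𝒪] [IsDiscreteValuationRing 𝒪]
variable {R : Type*} [CommRing R] [Algebra 𝒪 R] [IsLocalRing R] [IsNoetherianRing R]
variable {T : Type*} [CommRing T] [Algebra 𝒪 T] [Module.Free 𝒪 T] [Module.Finite 𝒪 T]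
variable {ι : Type*} [Fintype ι] [DecidableEq ι]

/-- **Numerical criterion, core form.**  `φ : R ↠ T` with `R` Noetherian local, `T` finite free
over the DVR `𝒪`, augmentation `π : T → 𝒪`.  Assume `ker φ ≤ 𝔭_R ^ 2`, that `x` spans `ker π` over
`𝒪`, and that there are polynomial relations `f i = ∑ j, a i j * X j = X i ^ (m+1) + (deg ≤ m)`
among the `x i` such that `det a(0)` is nonzero and generates the congruence ideal
`π (Ann_T (ker π))`.  Then `φ` is injective. -/
theorem injective_of_numerical_data (φ : R →ₐ[𝒪] T) (hφ : Function.Surjective φ)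
    (π : T →ₐ[𝒪] 𝒪)
    (hH1 : RingHom.ker (φ : R →+* T) ≤ RingHom.ker ((π.comp φ : R →ₐ[𝒪] 𝒪) : R →+* 𝒪) ^ 2)
    (x : ι → T) (hx : ∀ i, π (x i) = 0)
    (hspan : ∀ t, π t = 0 → t ∈ Submodule.span 𝒪 (Set.range x))
    (m : ℕ) (a : Matrix ι ι (MvPolynomial ι 𝒪))
    (hdeg : ∀ i, (∑ j, a i j * X j - X i ^ (m + 1)).totalDegree ≤ m)
    (hker : ∀ i, aeval x (∑ j, a i j * X j) = 0)
    (hdet : constantCoeff a.det ≠ 0)
    (hη : ∀ t : T, (∀ i, t * x i = 0) → ∃ c : 𝒪, π t = c * constantCoeff a.det) :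
    Function.Injective φ := by
  obtain ⟨y, hy, hyI⟩ := exists_unit_multiplier π x hx m a hdeg hker hdet hη
  refine injective_of_unit_multiplier φ hφ π (IsNoetherian.noetherian _) ?_ hH1 x hx hspan a hker
    hdet y hy hyI
  -- the augmentation ideal is proper, hence inside the Jacobson radical of the local ring
  have hne : RingHom.ker ((π.comp φ : R →ₐ[𝒪] 𝒪) : R →+* 𝒪) ≠ ⊤ :=
    RingHom.ker_ne_top _
  rw [IsLocalRing.jacobson_eq_maximalIdeal ⊥ bot_ne_top]
  exact IsLocalRing.le_maximalIdeal hne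

end Core

end Fermat.Agent.S59.H427

end
-- ===== PACK-END S59/H427/Final.lean

-- ===== PACK-BEGIN S59/H427/Relations.lean
section


/-!
# S59 / N1 (helper427): from linear relations modulo `𝔭²` to polynomial relation data

Given `x` spanning `𝔭 = ker π` over `𝒪` and a matrix `v` over `𝒪` with
`∑ j, v i j • x j ∈ 𝔭 ^ 2`, we construct the polynomial data needed by the core theorem:
`f i = X i ^ 3 + (degree ≤ 2)` vanishing at `x`, with linear parts `v`.
Consequences: `det v` lies in the congruence ideal, and the core theorem in terms of `v`.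
-/

set_option autoImplicit false
set_option linter.unusedSectionVars false

namespace Fermat.Agent.S59.H427

open MvPolynomial

section Poly

variable {𝒪 : Type*} [CommRing 𝒪]
variable {T : Type*} [CommRing T] [Algebra 𝒪 T]
variable {ι : Type*} [Fintype ι] [DecidableEq ι]

/-- Elements of `𝔭 ^ 2` are `𝒪`-combinations of the products `x a * x b`. -/
theorem exists_quadratic_of_mem_sq (π : T →ₐ[𝒪] 𝒪) (x : ι → T)
    (hspan : ∀ t, π t = 0 → t ∈ Submodule.span 𝒪 (Set.range x))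
    {t : T} (ht : t ∈ RingHom.ker (π : T →+* 𝒪) ^ 2) :
    ∃ w : ι → ι → 𝒪, t = ∑ a, ∑ b, w a b • (x a * x b) := by
  rw [pow_two] at ht
  refine Submodule.mul_induction_on ht ?_ ?_
  · intro t₁ h₁ t₂ h₂
    have e₁ := hspan t₁ h₁
    have e₂ := hspan t₂ h₂
    rw [Submodule.mem_span_range_iff_exists_fun] at e₁ e₂
    obtain ⟨c, hc⟩ := e₁
    obtain ⟨d, hd⟩ := e₂
    refine ⟨fun a b => c a * d b, ?_⟩
    rw [← hc, ← hd, Finset.sum_mul_sum]
    refine Finset.sum_congr rfl fun a _ => Finset.sum_congr rfl fun b _ => ?_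
    rw [smul_mul_smul_comm]
  · rintro t₁ t₂ ⟨w₁, hw₁⟩ ⟨w₂, hw₂⟩
    refine ⟨fun a b => w₁ a b + w₂ a b, ?_⟩
    rw [hw₁, hw₂, ← Finset.sum_add_distrib]
    refine Finset.sum_congr rfl fun a _ => ?_
    rw [← Finset.sum_add_distrib]
    refine Finset.sum_congr rfl fun b _ => ?_
    rw [add_smul]

theorem degLT_C_mul_X (c : 𝒪) (i : ι) : DegLT 3 (C c * X i : MvPolynomial ι 𝒪) := by
  have : (C c * X i : MvPolynomial ι 𝒪) = monomial (Finsupp.single i 1) c := by
    rw [X, C_mul_monomial, mul_one]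
  rw [this]
  exact degLT_monomial (by rw [Finsupp.degree_single]; omega) c

theorem degLT_C_mul_X_mul_X (c : 𝒪) (i j : ι) :
    DegLT 3 (C c * X i * X j : MvPolynomial ι 𝒪) := by
  have : (C c * X i * X j : MvPolynomial ι 𝒪) =
      monomial (Finsupp.single i 1 + Finsupp.single j 1) c := by
    rw [X, X, C_mul_monomial, monomial_mul, mul_one, mul_one]
  rw [this]
  exact degLT_monomial (by rw [map_add, Finsupp.degree_single, Finsupp.degree_single]; omega) c

theorem aug_aeval_gen (π : T →ₐ[𝒪] 𝒪) (x : ι → T) (hx : ∀ i, π (x i) = 0)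
    (g : MvPolynomial ι 𝒪) : π (aeval x g) = constantCoeff g := by
  have h1 : π.comp (aeval x) = aeval (fun _ : ι => (0 : 𝒪)) := by
    apply MvPolynomial.algHom_ext
    intro i
    simp [hx i]
  have h2 := DFunLike.congr_fun h1 g
  rw [AlgHom.comp_apply] at h2
  rw [h2]
  simp

/-- **Polynomial relation data from linear relations modulo `𝔭 ^ 2`.** -/
theorem exists_poly_data (π : T →ₐ[𝒪] 𝒪) (x : ι → T) (hx : ∀ i, π (x i) = 0)
    (hspan : ∀ t, π t = 0 → t ∈ Submodule.span 𝒪 (Set.range x))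
    (v : Matrix ι ι 𝒪) (hv : ∀ i, ∑ j, v i j • x j ∈ RingHom.ker (π : T →+* 𝒪) ^ 2) :
    ∃ a : Matrix ι ι (MvPolynomial ι 𝒪),
      (∀ i, (∑ j, a i j * X j - X i ^ (2 + 1)).totalDegree ≤ 2) ∧
      (∀ i, aeval x (∑ j, a i j * X j) = 0) ∧
      ∀ i j, constantCoeff (a i j) = v i j := by
  have hw := fun i => exists_quadratic_of_mem_sq π x hspan (hv i)
  choose w hw using hw
  have hc : ∀ i, ∃ c : ι → 𝒪, x i * x i = ∑ j, c j • x j := by
    intro i
    have h1 : π (x i * x i) = 0 := by rw [map_mul, hx i, zero_mul]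
    have h2 := hspan _ h1
    rw [Submodule.mem_span_range_iff_exists_fun] at h2
    obtain ⟨c, hc⟩ := h2
    exact ⟨c, hc.symm⟩
  choose c hc using hc
  refine ⟨fun i j => (if i = j then X i ^ 2 else 0) + C (v i j) - C (c i j) * X i -
    ∑ k, C (w i k j) * X k, ?_, ?_, ?_⟩
  · -- degree
    intro i
    have e : ∑ j, ((if i = j then X i ^ 2 else 0) + C (v i j) - C (c i j) * X i -
        ∑ k, C (w i k j) * X k) * X j - X i ^ (2 + 1) =
        ∑ j, C (v i j) * X j - ∑ j, C (c i j) * X i * X j -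
          ∑ j, ∑ k, C (w i k j) * X k * X j := by
      simp only [sub_mul, add_mul, Finset.sum_sub_distrib, Finset.sum_add_distrib, ite_mul,
        zero_mul, Finset.sum_ite_eq, Finset.mem_univ, if_true, Finset.sum_mul]
      ring
    rw [e]
    apply DegLT.totalDegree_le
    refine ((DegLT.sum _ _ fun j _ => degLT_C_mul_X _ _).sub
      (DegLT.sum _ _ fun j _ => degLT_C_mul_X_mul_X _ _ _)).sub
      (DegLT.sum _ _ fun j _ => DegLT.sum _ _ fun k _ => degLT_C_mul_X_mul_X _ _ _)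
  · -- vanishing
    intro i
    have e : ∑ j, ((if i = j then X i ^ 2 else 0) + C (v i j) - C (c i j) * X i -
        ∑ k, C (w i k j) * X k) * X j =
        X i ^ 3 + ∑ j, C (v i j) * X j - X i * ∑ j, C (c i j) * X j -
          ∑ j, ∑ k, C (w i k j) * (X k * X j) := by
      simp only [sub_mul, add_mul, Finset.sum_sub_distrib, Finset.sum_add_distrib, ite_mul,
        zero_mul, Finset.sum_ite_eq, Finset.mem_univ, if_true, Finset.sum_mul, Finset.mul_sum]
      have : ∀ j k : ι, C (w i k j) * X k * X j = C (w i k j) * (X k * X j : MvPolynomial ι 𝒪) :=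
        fun j k => by ring
      simp only [this]
      have : ∀ j : ι, C (c i j) * X i * X j = X i * (C (c i j) * X j : MvPolynomial ι 𝒪) :=
        fun j => by ring
      simp only [this]
      ring
    rw [e]
    simp only [map_sub, map_add, map_pow, map_mul, map_sum, aeval_X, aeval_C,
      ← Algebra.smul_def]
    rw [← hc i]
    have h1 : ∑ j, v i j • x j = ∑ j, ∑ k, w i k j • (x k * x j) := by
      rw [hw i, Finset.sum_comm]
    rw [h1]
    ring
  · intro i j
    simp only [map_sub, map_add, map_sum, map_mul, constantCoeff_C, constantCoeff_X, mul_zero,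
      Finset.sum_const_zero, sub_zero]
    split_ifs <;> simp

theorem constantCoeff_det_eq (a : Matrix ι ι (MvPolynomial ι 𝒪)) (v : Matrix ι ι 𝒪)
    (h : ∀ i j, constantCoeff (a i j) = v i j) : constantCoeff a.det = v.det := by
  rw [RingHom.map_det]
  congr 1
  ext i j
  exact h i j

/-- **Cramer in `T`**: `det v` is the image of an element killing all the `x j`. -/
theorem exists_ann_of_relations (π : T →ₐ[𝒪] 𝒪) (x : ι → T) (hx : ∀ i, π (x i) = 0)
    (hspan : ∀ t, π t = 0 → t ∈ Submodule.span 𝒪 (Set.range x))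
    (v : Matrix ι ι 𝒪) (hv : ∀ i, ∑ j, v i j • x j ∈ RingHom.ker (π : T →+* 𝒪) ^ 2) :
    ∃ t₀ : T, (∀ s, π s = 0 → t₀ * s = 0) ∧ π t₀ = v.det := by
  obtain ⟨a, -, hker, hconst⟩ := exists_poly_data π x hx hspan v hv
  refine ⟨aeval x a.det, ?_, ?_⟩
  · have h1 : ∀ j, aeval x a.det * x j = 0 := by
      intro j
      have h2 := det_mul_X_mem_span a j
      have h3 : Ideal.span (Set.range fun i => ∑ k, a i k * (X k : MvPolynomial ι 𝒪)) ≤
          RingHom.ker (aeval x : MvPolynomial ι 𝒪 →ₐ[𝒪] T) := by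
        rw [Ideal.span_le]
        rintro _ ⟨i, rfl⟩
        exact hker i
      have h4 : aeval x (a.det * X j) = 0 := h3 h2
      rw [map_mul, aeval_X] at h4
      exact h4
    intro s hs
    have h2 := hspan s hs
    refine Submodule.span_induction (p := fun s _ => aeval x a.det * s = 0) ?_ ?_ ?_ ?_ h2
    · rintro _ ⟨j, rfl⟩
      exact h1 j
    · simp
    · intro u w _ _ hu hw
      rw [mul_add, hu, hw, add_zero]
    · intro r u _ hu
      rw [mul_smul_comm, hu, smul_zero]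
  · rw [aug_aeval_gen π x hx, constantCoeff_det_eq a v hconst]

end Poly

section Core

variable {𝒪 : Type*} [CommRing 𝒪] [IsDomain 𝒪] [IsDiscreteValuationRing 𝒪]
variable {R : Type*} [CommRing R] [Algebra 𝒪 R] [IsLocalRing R] [IsNoetherianRing R]
variable {T : Type*} [CommRing T] [Algebra 𝒪 T] [Module.Free 𝒪 T] [Module.Finite 𝒪 T]
variable {ι : Type*} [Fintype ι] [DecidableEq ι]

/-- **Numerical criterion, relation form.**  If `ker φ ≤ 𝔭_R ^ 2`, `x` spans `𝔭_T = ker π` over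
`𝒪`, the rows of `v` are relations among the `x j` modulo `𝔭_T ^ 2`, and `det v ≠ 0` generates the
congruence ideal, then `φ` is injective. -/
theorem injective_of_relations (φ : R →ₐ[𝒪] T) (hφ : Function.Surjective φ)
    (π : T →ₐ[𝒪] 𝒪)
    (hH1 : RingHom.ker (φ : R →+* T) ≤ RingHom.ker ((π.comp φ : R →ₐ[𝒪] 𝒪) : R →+* 𝒪) ^ 2)
    (x : ι → T) (hx : ∀ i, π (x i) = 0)
    (hspan : ∀ t, π t = 0 → t ∈ Submodule.span 𝒪 (Set.range x))
    (v : Matrix ι ι 𝒪) (hv : ∀ i, ∑ j, v i j • x j ∈ RingHom.ker (π : T →+* 𝒪) ^ 2)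
    (hdet : v.det ≠ 0)
    (hη : ∀ t : T, (∀ s, π s = 0 → t * s = 0) → ∃ c : 𝒪, π t = c * v.det) :
    Function.Injective φ := by
  obtain ⟨a, hdeg, hker, hconst⟩ := exists_poly_data π x hx hspan v hv
  have hd := constantCoeff_det_eq a v hconst
  refine injective_of_numerical_data φ hφ π hH1 x hx hspan 2 a hdeg hker (by rw [hd]; exact hdet) ?_
  intro t ht
  rw [hd]
  apply hη t
  intro s hs
  have h2 := hspan s hs
  refine Submodule.span_induction (p := fun s _ => t * s = 0) ?_ ?_ ?_ ?_ h2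
  · rintro _ ⟨j, rfl⟩
    exact ht j
  · simp
  · intro u w _ _ hu hw
    rw [mul_add, hu, hw, add_zero]
  · intro r u _ hu
    rw [mul_smul_comm, hu, smul_zero]

end Core

end Fermat.Agent.S59.H427

end
-- ===== PACK-END S59/H427/Relations.lean

-- ===== PACK-BEGIN S59/H427/TateRecenter.lean
section


/-!
# S59 / N1 (helper427): Tate's formula for complete intersections

`card_cotangent_eq_of_ci` (target **E** of the N1 skeleton): `O` a complete DVR with finite residue
field, `T` a finite free local `O`-algebra with augmentation `π : T → O`, and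
`T = O⟦X₁,…,Xₙ⟧ / (f₁,…,fₙ)`.  If `Φ = ker π / (ker π)²` is finite, then `η = π (Ann ker π) ≠ 0`
and `#Φ = #(O/η)`.

The presentation is re-centered by the translation automorphism `Xᵢ ↦ Xᵢ - cᵢ` of `O⟦X⟧`,
`cᵢ = π (ψ Xᵢ) ∈ 𝔪_O`, and then `card_cotangent_eq_of_ci_centered` applies.
-/

set_option autoImplicit false
set_option linter.unusedSectionVars false
set_option linter.unusedVariables false
set_option linter.style.haveILetI false

namespace Fermat.Agent.S59.H427

open IsLocalRing MvPowerSeries Fermat.Agent.S59.H67 Fermat.Agent.S53.H596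

section Translate

variable {O : Type*} [CommRing O] [IsLocalRing O] [IsNoetherianRing O]
  [IsAdicComplete (maximalIdeal O) O] {n : ℕ}

/-- The translation `Xᵢ ↦ Xᵢ + cᵢ` of `O⟦X⟧` for `cᵢ ∈ 𝔪_O`. -/
noncomputable def translateAlgHom (c : Fin n → O) (hc : ∀ i, c i ∈ maximalIdeal O) :
    MvPowerSeries (Fin n) O →ₐ[O] MvPowerSeries (Fin n) O :=
  haveI := isAdicComplete_mvPowerSeries (σ := Fin n) (R := O)
  evalCNL (maximalIdeal (MvPowerSeries (Fin n) O)) (fun i => X i + C (c i))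
    (fun i => Ideal.add_mem _ (X_mem_maximalIdeal_mvPowerSeries i)
      (C_mem_maximalIdeal_mvPowerSeries (hc i)))

theorem translateAlgHom_X (c : Fin n → O) (hc : ∀ i, c i ∈ maximalIdeal O) (i : Fin n) :
    translateAlgHom c hc (X i) = X i + C (c i) := by
  haveI := isAdicComplete_mvPowerSeries (σ := Fin n) (R := O)
  exact evalCNL_X _ _ _ i

theorem translateAlgHom_comp_neg (c : Fin n → O) (hc : ∀ i, c i ∈ maximalIdeal O) :
    (translateAlgHom c hc).comp
      (translateAlgHom (fun i => - c i) (fun i => neg_mem (hc i))) = AlgHom.id O _ := by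
  haveI := isAdicComplete_mvPowerSeries (σ := Fin n) (R := O)
  refine algHom_ext_of_X (maximalIdeal (MvPowerSeries (Fin n) O)) ?_ ?_
  · intro i
    rw [AlgHom.comp_apply, translateAlgHom_X, map_add, translateAlgHom_X]
    have h1 : (C (-c i) : MvPowerSeries (Fin n) O) = algebraMap O _ (-c i) := rfl
    rw [h1, AlgHom.commutes]
    refine Ideal.add_mem _ (Ideal.add_mem _ (X_mem_maximalIdeal_mvPowerSeries i)
      (C_mem_maximalIdeal_mvPowerSeries (hc i))) ?_
    exact C_mem_maximalIdeal_mvPowerSeries (neg_mem (hc i))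
  · intro i
    rw [AlgHom.comp_apply, translateAlgHom_X, map_add, translateAlgHom_X]
    have h1 : (C (-c i) : MvPowerSeries (Fin n) O) = algebraMap O _ (-c i) := rfl
    rw [h1, AlgHom.commutes, ← h1, AlgHom.id_apply, map_neg]
    ring

/-- The translation automorphism `Xᵢ ↦ Xᵢ + cᵢ`. -/
noncomputable def translateAlgEquiv (c : Fin n → O) (hc : ∀ i, c i ∈ maximalIdeal O) :
    MvPowerSeries (Fin n) O ≃ₐ[O] MvPowerSeries (Fin n) O :=
  AlgEquiv.ofAlgHom (translateAlgHom c hc)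
    (translateAlgHom (fun i => - c i) (fun i => neg_mem (hc i)))
    (translateAlgHom_comp_neg c hc)
    (by
      have := translateAlgHom_comp_neg (fun i => - c i) (fun i => neg_mem (hc i))
      simpa only [neg_neg] using this)

theorem translateAlgEquiv_symm_X (c : Fin n → O) (hc : ∀ i, c i ∈ maximalIdeal O) (i : Fin n) :
    (translateAlgEquiv c hc).symm (X i) = X i - C (c i) := by
  show translateAlgHom (fun i => - c i) (fun i => neg_mem (hc i)) (X i) = _
  rw [translateAlgHom_X, map_neg, sub_eq_add_neg]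

end Translate

section Main

variable {O : Type*} [CommRing O] [IsDomain O] [IsDiscreteValuationRing O]
  [IsAdicComplete (maximalIdeal O) O] [Finite (ResidueField O)]
variable {T : Type*} [CommRing T] [IsLocalRing T] [Algebra O T] [Module.Finite O T]
  [Module.Free O T]

/-- **E. Tate's formula** for complete intersections: `#Φ_T = #(O/η_T)`. -/
theorem card_cotangent_eq_of_ci
    (π : T →ₐ[O] O) {n : ℕ} (ψ : MvPowerSeries (Fin n) O →ₐ[O] T) (hψ : Function.Surjective ψ)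
    (f : Fin n → MvPowerSeries (Fin n) O) (hker : RingHom.ker ψ = Ideal.span (Set.range f))
    [Finite (RingHom.ker π).Cotangent] :
    etaIdeal π ≠ ⊥ ∧ Nat.card (RingHom.ker π).Cotangent = Nat.card (O ⧸ etaIdeal π) := by
  classical
  -- the centre
  set c : Fin n → O := fun i => π (ψ (X i)) with hcdef
  have hc : ∀ i, c i ∈ maximalIdeal O := by
    intro i
    by_contra hu
    rw [mem_maximalIdeal, mem_nonunits_iff, not_not] at hu
    have h1 : IsUnit ((X i : MvPowerSeries (Fin n) O) - C (c i)) := by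
      rw [MvPowerSeries.isUnit_iff_constantCoeff, map_sub, constantCoeff_X, constantCoeff_C,
        zero_sub]
      exact hu.neg
    have h2 : IsUnit (π (ψ ((X i : MvPowerSeries (Fin n) O) - C (c i)))) := (h1.map ψ).map π
    have h3 : π (ψ ((X i : MvPowerSeries (Fin n) O) - C (c i))) = 0 := by
      have h4 : (C (c i) : MvPowerSeries (Fin n) O) = algebraMap O _ (c i) := rfl
      rw [map_sub, map_sub, h4, AlgHom.commutes, AlgHom.commutes, sub_eq_zero]
      rfl
    rw [h3] at h2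
    exact not_isUnit_zero h2
  set e := translateAlgEquiv c hc with hedef
  set ψ' : MvPowerSeries (Fin n) O →ₐ[O] T := ψ.comp (e.symm : _ →ₐ[O] _) with hψ'
  have hψ'surj : Function.Surjective ψ' := hψ.comp e.symm.surjective
  have hcent : ∀ i, π (ψ' (X i)) = 0 := by
    intro i
    show π (ψ (e.symm (X i))) = 0
    rw [hedef, translateAlgEquiv_symm_X]
    have h4 : (C (c i) : MvPowerSeries (Fin n) O) = algebraMap O _ (c i) := rfl
    rw [map_sub, map_sub, h4, AlgHom.commutes, AlgHom.commutes, sub_eq_zero]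
    rfl
  have key : ∀ (τ : MvPowerSeries (Fin n) O →ₐ[O] MvPowerSeries (Fin n) O)
      (S : Set (MvPowerSeries (Fin n) O)) (x : MvPowerSeries (Fin n) O),
      x ∈ Ideal.span S → τ x ∈ Ideal.span (τ '' S) := by
    intro τ S x hx
    have := Ideal.mem_map_of_mem (τ : MvPowerSeries (Fin n) O →+* MvPowerSeries (Fin n) O) hx
    rwa [Ideal.map_span] at this
  have hker' : RingHom.ker ψ' = Ideal.span (Set.range fun i => e (f i)) := by
    ext g
    rw [RingHom.mem_ker]
    show ψ (e.symm g) = 0 ↔ _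
    rw [← RingHom.mem_ker, hker]
    constructor
    · intro h
      have h1 := key (e : _ →ₐ[O] _) _ _ h
      rw [← Set.range_comp] at h1
      have h2 : (e : MvPowerSeries (Fin n) O →ₐ[O] MvPowerSeries (Fin n) O) (e.symm g) = g :=
        e.apply_symm_apply g
      rw [h2] at h1
      exact h1
    · intro h
      have h1 := key (e.symm : _ →ₐ[O] _) _ _ h
      rw [← Set.range_comp] at h1
      have h2 : ((e.symm : MvPowerSeries (Fin n) O →ₐ[O] MvPowerSeries (Fin n) O) ∘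
          fun i => e (f i)) = f := by
        funext i
        exact e.symm_apply_apply (f i)
      rw [h2] at h1
      exact h1
  exact card_cotangent_eq_of_ci_centered π ψ' hψ'surj (fun i => e (f i)) hker' hcent

end Main

end Fermat.Agent.S59.H427

end
-- ===== PACK-END S59/H427/TateRecenter.lean

-- ===== PACK-BEGIN S59/H382/Integral.lean
section




/-!
# Row S59, piece CR-FLAT (helper382): integrality of the normalised coordinates

`A` a valuation subring of `K` in which `2` is a unit, `W` a Weierstrass curve over `K` with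
coefficients in `A` and good reduction `Wκ`.  For a point `P` of odd order:

* `nrep_mem` : the normalised coordinates of `P` lie in `A`;
* `exists_rdv_eq` : their reductions form a projective representative of `red P`;
* `val_Lf_addXYZ` : if `red P ≠ red Q`, the denominator `L(addXYZ (nrep P) (nrep Q))` of the
  chord law is a unit of `A`.
-/

set_option autoImplicit false
set_option linter.unusedSectionVars false
set_option linter.unusedVariables false

namespace Fermat.Agent.S59.H382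

open WeierstrassCurve
open scoped WeierstrassCurve.Projective
open Fermat.Agent.Lib.Red.H290
open Fermat.Agent.S05.SameRed (IntegralCoeffs InKer)

variable {K : Type*} [Field K] [DecidableEq K] {κ : Type*} [Field κ] [DecidableEq κ]
variable {A : ValuationSubring K} {φ : A →+* κ} {W : WeierstrassCurve K} {Wκ : WeierstrassCurve κ}

/-- the reduced coordinate vector -/
noncomputable def rdv (A : ValuationSubring K) (φ : A →+* κ) (V : Fin 3 → K) : Fin 3 → κ :=
  fun i => rd A φ (V i)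

lemma intCoeffs_of_isRedOf (h : IsRedOf A φ W Wκ) :
    Fermat.Agent.S05.H245.IntCoeffs A.valuation W :=
  ⟨h.integralCoeffs.a₁, h.integralCoeffs.a₂, h.integralCoeffs.a₃, h.integralCoeffs.a₄,
    h.integralCoeffs.a₆⟩

lemma two_ne_zero_res (hφ : KerMax A φ) (h2 : A.valuation (2 : K) = 1) : (2 : κ) ≠ 0 := by
  have := (rd_ne_zero_iff hφ (mem_of_val_le h2.le)).mpr h2
  rwa [rd_ofNat] at this

lemma nrep_zero_eq (W : WeierstrassCurve K) :
    nrep W (0 : W.toAffine.Point) = ![0, (2 : K)⁻¹, 0] := by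
  have hL : Lf W (rep0 W (0 : W.toAffine.Point)) = 2 := by
    show Lf W ![0, 1, 0] = 2
    simp [Lf]
  rw [nrep, hL]
  show (2 : K)⁻¹ • ![(0 : K), 1, 0] = _
  funext i
  fin_cases i <;> simp

lemma nrep_some_eq (W : WeierstrassCurve K) {x y : K} (hxy : W.toAffine.Nonsingular x y) :
    nrep W (Affine.Point.some x y hxy) =
      ![x / (2 * y + W.a₁ * x + W.a₃), y / (2 * y + W.a₁ * x + W.a₃),
        1 / (2 * y + W.a₁ * x + W.a₃)] := by
  have hL : Lf W (rep0 W (Affine.Point.some x y hxy)) = 2 * y + W.a₁ * x + W.a₃ := by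
    show Lf W ![x, y, 1] = _
    simp [Lf]
  rw [nrep, hL]
  show (2 * y + W.a₁ * x + W.a₃)⁻¹ • ![x, y, 1] = _
  funext i
  fin_cases i <;> simp [div_eq_inv_mul]

/-- The normalised coordinates of a point of odd order are integral, and reduce to a
representative of the reduction of the point. -/
theorem exists_rdv_eq (h : IsRedOf A φ W Wκ) (hφ : KerMax A φ) (hΔ : Wκ.Δ ≠ 0)
    (h2 : A.valuation (2 : K) = 1) {P : W.toAffine.Point} {N : ℕ} (hN : Odd N)
    (hP : N • P = 0) :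
    (∀ i, nrep W P i ∈ A) ∧
      ∃ c : κ, c ≠ 0 ∧ rdv A φ (nrep W P) = c • rep0 Wκ (red h hΔ P) := by
  have h2κ := two_ne_zero_res hφ h2
  have h2A : (2 : K) ∈ A := mem_of_val_le h2.le
  rcases P with _ | ⟨x, y, hxy⟩
  · -- the origin
    have hn := nrep_zero_eq W
    change nrep W (0 : W.toAffine.Point) = _ at hn
    have hi : (2 : K)⁻¹ ∈ A := inv_mem_of_val_eq_one h2
    refine ⟨?_, rd A φ (2 : K)⁻¹, ?_, ?_⟩
    · intro i
      change nrep W (0 : W.toAffine.Point) i ∈ A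
      rw [hn]
      fin_cases i
      · exact A.zero_mem
      · exact hi
      · exact A.zero_mem
    · rw [rd_ne_zero_iff hφ hi, map_inv₀, h2, inv_one]
    · change rdv A φ (nrep W (0 : W.toAffine.Point)) = _ • rep0 Wκ (red h hΔ 0)
      rw [hn, red_zero]
      show _ = _ • ![(0 : κ), 1, 0]
      funext i
      fin_cases i <;> simp [rdv]
  · set ψ : K := 2 * y + W.a₁ * x + W.a₃ with hψ
    have hn := nrep_some_eq W hxy
    rw [← hψ] at hn
    by_cases hx : x ∈ A
    · -- integral affine point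
      have hy : y ∈ A := y_mem_of_x_mem h hxy.1 hx
      have hψA : ψ ∈ A :=
        A.add_mem _ _ (A.add_mem _ _ (A.mul_mem _ _ h2A hy) (A.mul_mem _ _ h.m₁ hx)) h.m₃
      have hrdψ : rd A φ ψ = 2 * rd A φ y + Wκ.a₁ * rd A φ x + Wκ.a₃ := by
        rw [hψ, rd_add (A.add_mem _ _ (A.mul_mem _ _ h2A hy) (A.mul_mem _ _ h.m₁ hx)) h.m₃,
          rd_add (A.mul_mem _ _ h2A hy) (A.mul_mem _ _ h.m₁ hx), rd_mul h2A hy, rd_mul h.m₁ hx,
          rd_ofNat, h.a₁, h.a₃]
      have hred : red h hΔ (Affine.Point.some x y hxy) =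
          Affine.Point.some (rd A φ x) (rd A φ y) (rd_nonsingular h hΔ hx hxy.1) :=
        red_some_of_mem h hΔ hxy hx
      have hNred : N • red h hΔ (Affine.Point.some x y hxy) = 0 := by
        have := map_nsmul (redHom h hφ hΔ) N (Affine.Point.some x y hxy)
        simp only [redHom_apply] at this
        rw [← this, hP, red_zero]
      have hn2 : N2 Wκ (red h hΔ (Affine.Point.some x y hxy)) := n2_of_odd_nsmul h2κ hN hNred
      have hψ1 : A.valuation ψ = 1 := by
        rw [← rd_ne_zero_iff hφ hψA, hrdψ]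
        rw [hred] at hn2
        have : Lf Wκ (rep0 Wκ (Affine.Point.some (rd A φ x) (rd A φ y)
            (rd_nonsingular h hΔ hx hxy.1))) = 2 * rd A φ y + Wκ.a₁ * rd A φ x + Wκ.a₃ := by
          show Lf Wκ ![rd A φ x, rd A φ y, 1] = _
          simp [Lf]
        rw [N2, this] at hn2
        exact hn2
      have hψi : ψ⁻¹ ∈ A := inv_mem_of_val_eq_one hψ1
      refine ⟨?_, (rd A φ ψ)⁻¹, inv_ne_zero ((rd_ne_zero_iff hφ hψA).mpr hψ1), ?_⟩
      · intro i
        rw [hn]
        fin_cases i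
        · exact div_mem_of_val_eq_one hx hψ1
        · exact div_mem_of_val_eq_one hy hψ1
        · exact div_mem_of_val_eq_one A.one_mem hψ1
      · rw [hn, hred]
        show _ = _ • ![rd A φ x, rd A φ y, 1]
        funext i
        fin_cases i
        · show rd A φ (x / ψ) = (rd A φ ψ)⁻¹ * rd A φ x
          rw [rd_div hx hψ1, div_eq_inv_mul]
        · show rd A φ (y / ψ) = (rd A φ ψ)⁻¹ * rd A φ y
          rw [rd_div hy hψ1, div_eq_inv_mul]
        · show rd A φ (1 / ψ) = (rd A φ ψ)⁻¹ * 1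
          rw [rd_div A.one_mem hψ1, div_eq_inv_mul, rd_one]
    · -- a point of the kernel of reduction
      have hx1 : 1 < A.valuation x := not_mem_iff_one_lt.mp hx
      obtain ⟨hxy', -⟩ := Fermat.Agent.S05.H245.val_xy (intCoeffs_of_isRedOf h) hxy.1 hx1
      have hy1 : 1 < A.valuation y := hx1.trans hxy'
      have hlin : A.valuation (W.a₁ * x + W.a₃) < A.valuation (2 * y) := by
        rw [map_mul, h2, one_mul]
        exact lt_of_le_of_lt
          (Fermat.Agent.S05.H245.val_lin_le (intCoeffs_of_isRedOf h) hx1.le) hxy'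
      have hψv : A.valuation ψ = A.valuation y := by
        have e : ψ = 2 * y + (W.a₁ * x + W.a₃) := by rw [hψ]; ring
        rw [e, Valuation.map_add_eq_of_lt_left _ hlin, map_mul, h2, one_mul]
      have hy0 : A.valuation y ≠ 0 := (lt_trans zero_lt_one hy1).ne'
      have hv0 : A.valuation (x / ψ) < 1 := by
        rw [map_div₀, hψv]
        exact (div_lt_one₀ (lt_trans zero_lt_one hy1)).mpr hxy'
      have hv1 : A.valuation (y / ψ) = 1 := by
        rw [map_div₀, hψv, div_self hy0]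
      have hv2 : A.valuation (1 / ψ) < 1 := by
        rw [map_div₀, hψv, map_one]
        exact (div_lt_one₀ (lt_trans zero_lt_one hy1)).mpr hy1
      refine ⟨?_, rd A φ (y / ψ), (rd_ne_zero_iff hφ (mem_of_val_le hv1.le)).mpr hv1, ?_⟩
      · intro i
        rw [hn]
        fin_cases i
        · exact mem_of_val_le hv0.le
        · exact mem_of_val_le hv1.le
        · exact mem_of_val_le hv2.le
      · rw [hn, red_some_of_not_mem h hΔ hxy hx]
        show _ = _ • ![(0 : κ), 1, 0]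
        funext i
        fin_cases i
        · show rd A φ (x / ψ) = rd A φ (y / ψ) * 0
          rw [rd_eq_zero_of_lt hφ hv0, mul_zero]
        · show rd A φ (y / ψ) = rd A φ (y / ψ) * 1
          rw [mul_one]
        · show rd A φ (1 / ψ) = rd A φ (y / ψ) * 0
          rw [rd_eq_zero_of_lt hφ hv2, mul_zero]

theorem nrep_mem (h : IsRedOf A φ W Wκ) (hφ : KerMax A φ) (hΔ : Wκ.Δ ≠ 0)
    (h2 : A.valuation (2 : K) = 1) {P : W.toAffine.Point} {N : ℕ} (hN : Odd N)
    (hP : N • P = 0) (i : Fin 3) : nrep W P i ∈ A :=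
  (exists_rdv_eq h hφ hΔ h2 hN hP).1 i

theorem nonsingular_rdv (h : IsRedOf A φ W Wκ) (hφ : KerMax A φ) (hΔ : Wκ.Δ ≠ 0)
    (h2 : A.valuation (2 : K) = 1) {P : W.toAffine.Point} {N : ℕ} (hN : Odd N)
    (hP : N • P = 0) : Projective.Nonsingular Wκ (rdv A φ (nrep W P)) := by
  obtain ⟨c, hc, he⟩ := (exists_rdv_eq h hφ hΔ h2 hN hP).2
  rw [he]
  exact (Projective.nonsingular_smul _ (Ne.isUnit hc)).mpr (nonsingular_rep0 Wκ _)

theorem toAffine_rdv (h : IsRedOf A φ W Wκ) (hφ : KerMax A φ) (hΔ : Wκ.Δ ≠ 0)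
    (h2 : A.valuation (2 : K) = 1) {P : W.toAffine.Point} {N : ℕ} (hN : Odd N)
    (hP : N • P = 0) : Projective.Point.toAffine Wκ (rdv A φ (nrep W P)) = red h hΔ P := by
  obtain ⟨c, hc, he⟩ := (exists_rdv_eq h hφ hΔ h2 hN hP).2
  rw [he, Projective.Point.toAffine_smul _ (Ne.isUnit hc), toAffine_rep0]

end Fermat.Agent.S59.H382

end
-- ===== PACK-END S59/H382/Integral.lean

-- ===== PACK-BEGIN Lib/Frob/A1/H382/Main.lean
section



/-!
# Piece A1 (helper382): `reductionData : ReductionData`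
-/

set_option autoImplicit false
set_option linter.unusedSectionVars false
set_option linter.unusedVariables false

open WeierstrassCurve WeierstrassCurve.Affine WeierstrassCurve.Affine.Point

namespace Fermat.Agent.Lib.Frob.A1.H382

open Fermat.Agent.Lib.Red.H382 Fermat.Agent.S05.SameRed Fermat.Agent.Lib.Frob

variable (W : WeierstrassCurve ℤ) (ℓ : ℕ) [Fact ℓ.Prime] (A : ValuationSubring Qb)

/-- the integral model over `A` -/
noncomputable abbrev WA : WeierstrassCurve A := W.map (Int.castRingHom A)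

lemma curveK : (WA W A)⁄Qb = (W.map (Int.castRingHom ℚ))⁄Qb := by
  show (W.map _).map _ = (W.map _).map _
  rw [WeierstrassCurve.map_map, WeierstrassCurve.map_map,
    RingHom.ext_int ((algebraMap A Qb).comp (Int.castRingHom A))
      ((algebraMap ℚ Qb).comp (Int.castRingHom ℚ))]

lemma curveκ [Algebra (ZMod ℓ) (IsLocalRing.ResidueField A)] :
    (WA W A)⁄(IsLocalRing.ResidueField A) = (W.reductionMod ℓ)⁄(IsLocalRing.ResidueField A) := by
  show (W.map _).map _ = (W.map _).map _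
  rw [WeierstrassCurve.map_map, WeierstrassCurve.map_map,
    RingHom.ext_int ((algebraMap A (IsLocalRing.ResidueField A)).comp (Int.castRingHom A))
      ((algebraMap (ZMod ℓ) (IsLocalRing.ResidueField A)).comp (Int.castRingHom (ZMod ℓ)))]

lemma isUnit_Δ (hA : A.LiesOverPrime ℓ) (hgood : W.IsGoodPrimeFor ℓ) : IsUnit (WA W A).Δ := by
  have h : (WA W A).Δ = ((W.Δ : ℤ) : A) := WeierstrassCurve.map_Δ W (Int.castRingHom A)
  rw [h, A.valuation_eq_one_iff]
  have := val_intCast_eq_one A (Fact.out : ℓ.Prime) hA hgood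
  simpa using this

section

variable [DecidableEq (IsLocalRing.ResidueField A)] [Algebra (ZMod ℓ) (IsLocalRing.ResidueField A)]
variable {W ℓ A}
variable (hΔ : IsUnit (WA W A).Δ)

/-- reduction on all points, with the types of the interface -/
noncomputable def redPts :
    Pts W →+ ((W.reductionMod ℓ)⁄(IsLocalRing.ResidueField A)).Point :=
  (pointCast (curveκ W ℓ A)).toAddMonoidHom.comp
    ((red A (WA W A) hΔ).comp (pointCast (curveK W A).symm).toAddMonoidHom)

lemma redPts_apply (P : Pts W) :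
    redPts (ℓ := ℓ) hΔ P =
      pointCast (curveκ W ℓ A) (redFun A (WA W A) hΔ (pointCast (curveK W A).symm P)) := rfl

lemma redPts_some_of_mem {x y : Qb} (h : ((W.map (Int.castRingHom ℚ))⁄Qb).Nonsingular x y)
    (hx : x ∈ A) (hy : y ∈ A)
    (h'' : ((W.reductionMod ℓ)⁄(IsLocalRing.ResidueField A)).Nonsingular
      (rr A ⟨x, hx⟩) (rr A ⟨y, hy⟩)) :
    redPts (ℓ := ℓ) hΔ (Point.some x y h) = Point.some _ _ h'' := by
  rw [redPts_apply, pointCast_some, redFun_some_of_mem hΔ _ hx hy, pointCast_some]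

lemma redPts_some_of_not_mem {x y : Qb} (h : ((W.map (Int.castRingHom ℚ))⁄Qb).Nonsingular x y)
    (hx : x ∉ A) : redPts (ℓ := ℓ) hΔ (Point.some x y h) = 0 := by
  rw [redPts_apply, pointCast_some, redFun_some_of_not_mem hΔ _ hx, _root_.map_zero]

lemma nonsingular_red (hΔ : IsUnit (WA W A).Δ) {x y : Qb} (h : ((W.map (Int.castRingHom ℚ))⁄Qb).Nonsingular x y)
    (hx : x ∈ A) (hy : y ∈ A) :
    ((W.reductionMod ℓ)⁄(IsLocalRing.ResidueField A)).Nonsingular
      (rr A ⟨x, hx⟩) (rr A ⟨y, hy⟩) := by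
  have h' : ((WA W A)⁄Qb).Nonsingular x y := (curveK W A).symm ▸ h
  have := nonsingular_κ A (WA W A) hΔ (x := ⟨x, hx⟩) (y := ⟨y, hy⟩) h'.1
  exact (curveκ W ℓ A) ▸ this

lemma mem_y_Pts {x y : Qb} (h : ((W.map (Int.castRingHom ℚ))⁄Qb).Nonsingular x y)
    (hx : x ∈ A) : y ∈ A := by
  have h' : ((WA W A)⁄Qb).Nonsingular x y := (curveK W A).symm ▸ h
  exact mem_y A (WA W A) h'.1 hx

/-- the kernel of `redPts` on `n`-torsion is trivial when `ℓ ∤ n` -/
theorem redPts_injective_on_torsion (hA : A.LiesOverPrime ℓ) {n : ℕ} (hn : ¬ ℓ ∣ n)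
    (P : Pts W) (hP : (n : ℤ) • P = 0) (h0 : redPts (ℓ := ℓ) hΔ P = 0) : P = 0 := by
  rw [redPts_apply] at h0
  have h1 : redFun A (WA W A) hΔ (pointCast (curveK W A).symm P) = 0 := by
    have := congrArg (pointCast (curveκ W ℓ A)).symm h0
    simpa using this
  have hker := (redFun_eq_zero_iff hΔ _).mp h1
  have hn1 : A.valuation ((n : ℕ) : Qb) = 1 := val_natCast_eq_one A (Fact.out : ℓ.Prime) hA hn
  have hP' : (n : ℤ) • (pointCast (curveK W A).symm P) = 0 := by
    rw [← map_zsmul, hP, _root_.map_zero]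
  have := Fermat.Agent.S05.C1b.eq_zero_of_inKer_of_zsmul_eq_zero (integralCoeffs A (WA W A)) n hn1
    _ hker hP'
  exact (AddEquiv.map_eq_zero_iff _).mp this

end

/-! ### Frobenius -/

section frob

open Pointwise

variable {W ℓ A}

lemma apply_mem_of_mem_decomp {σ : Qb ≃ₐ[ℚ] Qb} (hσ : σ ∈ A.decompositionSubgroup ℚ) {x : Qb}
    (hx : x ∈ A) : σ x ∈ A := by
  have h : σ • A = A := hσ
  have := ValuationSubring.smul_mem_pointwise_smul σ x A hx
  rw [h] at this
  exact this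

lemma mem_of_apply_mem_decomp {σ : Qb ≃ₐ[ℚ] Qb} (hσ : σ ∈ A.decompositionSubgroup ℚ) {x : Qb}
    (hx : σ x ∈ A) : x ∈ A := by
  have h := apply_mem_of_mem_decomp (A := A) (inv_mem hσ) hx
  have e : σ⁻¹ (σ x) = x := by
    show σ.symm (σ x) = x
    exact σ.symm_apply_apply x
  rwa [e] at h

lemma residue_apply_of_isFrobeniusAt {σ : Qb ≃ₐ[ℚ] Qb} (hσ : A.IsFrobeniusAt σ ℓ) {x : Qb}
    (hx : x ∈ A) :
    rr A ⟨σ x, apply_mem_of_mem_decomp hσ.mem_decompositionSubgroup hx⟩ = (rr A ⟨x, hx⟩) ^ ℓ := by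
  have h := hσ.smul_residue_eq (rr A ⟨x, hx⟩)
  rw [← h]
  rfl

variable [DecidableEq (IsLocalRing.ResidueField A)] [Algebra (ZMod ℓ) (IsLocalRing.ResidueField A)]
variable (hΔ : IsUnit (WA W A).Δ)

theorem redPts_smul {σ : Qb ≃ₐ[ℚ] Qb} (hσ : A.IsFrobeniusAt σ ℓ) (P : Pts W) :
    redPts (ℓ := ℓ) hΔ (σ • P) =
      frobPt ℓ (W.reductionMod ℓ) (IsLocalRing.ResidueField A) (redPts (ℓ := ℓ) hΔ P) := by
  rcases P with _ | ⟨x, y, h⟩
  · have e : σ • (Point.zero : Pts W) = (0 : Pts W) := rfl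
    rw [e]
    change redPts (ℓ := ℓ) hΔ 0 = frobPt ℓ (W.reductionMod ℓ) _ (redPts (ℓ := ℓ) hΔ 0)
    rw [_root_.map_zero, _root_.map_zero]
  · have hσh : ((W.map (Int.castRingHom ℚ))⁄Qb).Nonsingular (σ x) (σ y) :=
      ((W.map (Int.castRingHom ℚ)).toAffine.baseChange_nonsingular
          σ.toAlgHom.injective x y).mpr h
    have hsm : σ • (Point.some x y h : Pts W) = Point.some (σ x) (σ y) hσh := rfl
    rw [hsm]
    by_cases hx : x ∈ A
    · have hy : y ∈ A := mem_y_Pts h hx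
      have hσx := apply_mem_of_mem_decomp hσ.mem_decompositionSubgroup hx
      have hσy := apply_mem_of_mem_decomp hσ.mem_decompositionSubgroup hy
      rw [redPts_some_of_mem hΔ hσh hσx hσy (nonsingular_red hΔ hσh hσx hσy),
        redPts_some_of_mem hΔ h hx hy (nonsingular_red hΔ h hx hy)]
      unfold frobPt
      rw [Point.map_some]
      refine some_congr ?_ ?_ _ _
      · rw [residue_apply_of_isFrobeniusAt hσ hx, FiniteField.coe_frobeniusAlgHom, ZMod.card]
      · rw [residue_apply_of_isFrobeniusAt hσ hy, FiniteField.coe_frobeniusAlgHom, ZMod.card]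
    · have hσx : σ x ∉ A := fun h' => hx (mem_of_apply_mem_decomp hσ.mem_decompositionSubgroup h')
      rw [redPts_some_of_not_mem hΔ hσh hσx, redPts_some_of_not_mem hΔ h hx, _root_.map_zero]

end frob

end Fermat.Agent.Lib.Frob.A1.H382

namespace Fermat.Agent.Lib.Frob

open Fermat.Agent.Lib.Frob.A1.H382 in
/-- **Piece A1** (helper382's proof). -/
theorem A1.H382.reductionData : ReductionData := by
  intro W ℓ _ hgood A σ hA hσ n hn0 hn
  have : CharP (IsLocalRing.ResidueField A) ℓ := charP_residueField A (Fact.out : ℓ.Prime) hA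
  let _ : Algebra (ZMod ℓ) (IsLocalRing.ResidueField A) := ZMod.algebra _ ℓ
  let _ : DecidableEq (IsLocalRing.ResidueField A) := Classical.decEq _
  have hΔ := isUnit_Δ W ℓ A hA hgood
  refine ⟨IsLocalRing.ResidueField A, inferInstance, inferInstance, inferInstance,
    (redPts (ℓ := ℓ) hΔ).comp (Submodule.torsionBy ℤ (Pts W) n).subtype.toAddMonoidHom, ?_, ?_⟩
  · rw [injective_iff_map_eq_zero]
    intro P hP
    apply Subtype.ext
    have hP' : (n : ℤ) • (P : Pts W) = 0 := by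
      have := P.2
      rwa [Submodule.mem_torsionBy_iff] at this
    exact redPts_injective_on_torsion hΔ hA hn (P : Pts W) hP' hP
  · intro P
    exact redPts_smul hΔ hσ (P : Pts W)

end Fermat.Agent.Lib.Frob

end
-- ===== PACK-END Lib/Frob/A1/H382/Main.lean

-- ===== PACK-BEGIN S59/Arch/LOW.lean
section


/-!
# Row S59 — cell LO in W-FORM at `p ∈ {3, 5}`: frozen targets and glue (architect helper239)

`H934.levelOpt_of` consumes the frozen statements S38 and S39 for EVERY odd `p`.  Row S59 only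
needs them at `p ∈ {3, 5}`, for semistable `W`, at squarefree levels.  This file freezes the
four targets of the cell LO in exactly that generality and proves the glue

    levelOpt_of_w35 : LoSqStatement → MazurW35Statement → PivotW35Statement →
      S39W35Statement → FlatPeuStatement → ResUnramStatement → ResFlatStatement →
      Arch.LevelOptStatement

* `S39W35Statement`  : frozen S39 at `p ∈ {3, 5}`, `W` semistable (removal of `p`);
* `MazurW35Statement`: removal of a prime `q ≠ p` (ANY prime, `q = 2` included, `p ∣ M` allowed)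
  at which `E[p]` is unramified and which is NOT a pivot (`q ≢ 1 mod p`, or some Frobenius at
  `q` is not a scalar on `E[p]`);
* `PivotW35Statement`: at a level `L` which is MINIMAL among the modular levels and all of whose
  unramified primes are pivots, there is no unramified prime (Ihara avoidance, W-form);
* `H934.LoSqStatement`: removal of squares.

Route of the glue: squarefree level (LO-SQ) → a modular divisor `L` which is minimal for `≤` →
every unramified prime of `L` is a pivot (Mazur + minimality) → no unramified prime (PIVOT) →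
remove `p` in the flat case (S39) → the level is `wilesLevel p t Smin Smin`.
-/

set_option autoImplicit false

open scoped WeierstrassCurve.Affine

namespace Fermat.Agent.S59.Arch.LOW

open Fermat.Agent.S59.Arch Fermat.Agent.S59.H934

/-- Every Frobenius at `q` acts on `ρ̄` by a scalar. -/
def FrobScalarAt {k : Type} [Field k] (ρbar : ResidualGaloisRep k) (q : ℕ) : Prop :=
  ∀ P : ValuationSubring (AlgebraicClosure ℚ), P.LiesOverPrime q →
    ∀ φ : AlgebraicClosure ℚ ≃ₐ[ℚ] AlgebraicClosure ℚ, P.IsFrobeniusAt φ q →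
      ∃ c : k, ρbar.ρ φ = c • (1 : Module.End k ρbar.V)

/-- `q` is a pivot for `ρ̄`: `q ≡ 1 mod p` and every Frobenius at `q` is a scalar. -/
def IsPivotAt {k : Type} [Field k] (p : ℕ) (ρbar : ResidualGaloisRep k) (q : ℕ) : Prop :=
  p ∣ q - 1 ∧ FrobScalarAt ρbar q

/-- **S39 in W-form at `p ∈ {3, 5}`** (frozen S39 restricted to `p ∈ {3, 5}`, `W` semistable). -/
def S39W35Statement : Prop :=
  ∀ (p : ℕ) [Fact p.Prime] (_hp : p = 3 ∨ p = 5)
    (W : WeierstrassCurve ℤ) (_hΔ : W.Δ ≠ 0) (_hW : W.IsSemistableModel)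
    (_hirr : W.ModRepIsIrreducible p)
    (_hfin : (W.map (Int.castRingHom ℚ)).IsPeuRamifieeAt p p)
    (M : ℕ) (_hM : Squarefree M) (_hpM : p ∣ M)
    (_hmod : W.IsResiduallyModularOfLevel p M),
    W.IsResiduallyModularOfLevel p (M / p)

/-- **Mazur's principle in W-form at `p ∈ {3, 5}`**: removal of a prime `q ≠ p` of a squarefree
level at which `E[p]` is unramified and which is not a pivot.  `q = 2` is included and `p ∣ M`
is allowed. -/
def MazurW35Statement : Prop :=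
  ∀ (p : ℕ) [Fact p.Prime] (_hp : p = 3 ∨ p = 5)
    (W : WeierstrassCurve ℤ) (_hΔ : W.Δ ≠ 0) (_hW : W.IsSemistableModel)
    (_hirr : W.ModRepIsIrreducible p)
    (hcard : Nat.card (Submodule.torsionBy ℤ
      ((W.map (Int.castRingHom ℚ))⁄(AlgebraicClosure ℚ)).Point p) = p ^ 2)
    (hker : GaloisFactorsThroughFiniteLevel
      (WeierstrassCurve.Affine.Point.galoisRepModuleEnd (K := AlgebraicClosure ℚ) ℚ
        (W.map (Int.castRingHom ℚ)) p))
    (M q : ℕ) (_hM : Squarefree M) (_hq : q.Prime) (_hqp : q ≠ p) (_hqM : q ∣ M)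
    (_hunr : ((W.map (Int.castRingHom ℚ)).residualGaloisRepOf p hcard hker).IsUnramifiedAt q)
    (_hnp : ¬ IsPivotAt p ((W.map (Int.castRingHom ℚ)).residualGaloisRepOf p hcard hker) q)
    (_hres : W.IsResiduallyModularOfLevel p M),
    W.IsResiduallyModularOfLevel p (M / q)

/-- **The pivots in W-form at `p ∈ {3, 5}`** (Ihara avoidance): a squarefree modular level `L`
which is minimal (no `L / r`, `r ∣ L` prime, is modular) and all of whose unramified primes
`r ≠ p` are pivots has no unramified prime `r ≠ p`. -/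
def PivotW35Statement : Prop :=
  ∀ (p : ℕ) [Fact p.Prime] (_hp : p = 3 ∨ p = 5)
    (W : WeierstrassCurve ℤ) (_hΔ : W.Δ ≠ 0) (_hW : W.IsSemistableModel)
    (_hirr : W.ModRepIsIrreducible p)
    (hcard : Nat.card (Submodule.torsionBy ℤ
      ((W.map (Int.castRingHom ℚ))⁄(AlgebraicClosure ℚ)).Point p) = p ^ 2)
    (hker : GaloisFactorsThroughFiniteLevel
      (WeierstrassCurve.Affine.Point.galoisRepModuleEnd (K := AlgebraicClosure ℚ) ℚ
        (W.map (Int.castRingHom ℚ)) p))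
    (L : ℕ) (_hL : Squarefree L) (_hres : W.IsResiduallyModularOfLevel p L)
    (_hmin : ∀ r : ℕ, r.Prime → r ∣ L → ¬ W.IsResiduallyModularOfLevel p (L / r))
    (_hpiv : ∀ r : ℕ, r.Prime → r ∣ L → r ≠ p →
      ((W.map (Int.castRingHom ℚ)).residualGaloisRepOf p hcard hker).IsUnramifiedAt r →
      IsPivotAt p ((W.map (Int.castRingHom ℚ)).residualGaloisRepOf p hcard hker) r),
    ∀ r : ℕ, r.Prime → r ∣ L → r ≠ p →
      ¬ ((W.map (Int.castRingHom ℚ)).residualGaloisRepOf p hcard hker).IsUnramifiedAt r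

/-! ## The glue -/

section Glue

variable (p : ℕ) [Fact p.Prime] (W : WeierstrassCurve ℤ)

omit [Fact p.Prime] in
/-- A modular divisor of a modular level which is minimal for `≤`. -/
theorem exists_minimal_modular_dvd {M : ℕ} (hres : W.IsResiduallyModularOfLevel p M) :
    ∃ L : ℕ, L ∣ M ∧ W.IsResiduallyModularOfLevel p L ∧
      ∀ L' : ℕ, L' ∣ M → W.IsResiduallyModularOfLevel p L' → L ≤ L' := by
  classical
  have hex : ∃ L : ℕ, L ∣ M ∧ W.IsResiduallyModularOfLevel p L := ⟨M, dvd_rfl, hres⟩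
  exact ⟨Nat.find hex, (Nat.find_spec hex).1, (Nat.find_spec hex).2,
    fun L' hL' hmod' => Nat.find_min' hex ⟨hL', hmod'⟩⟩

variable
    (hcard : Nat.card (Submodule.torsionBy ℤ
      ((W.map (Int.castRingHom ℚ))⁄(AlgebraicClosure ℚ)).Point p) = p ^ 2)
    (hker : GaloisFactorsThroughFiniteLevel
      (WeierstrassCurve.Affine.Point.galoisRepModuleEnd (K := AlgebraicClosure ℚ) ℚ
        (W.map (Int.castRingHom ℚ)) p))

/-- Step B in W-form: a squarefree modular level all of whose primes `≠ p` are ramified, from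
Mazur's principle and the pivots. -/
theorem exists_ramified_level_w35 (hMz : MazurW35Statement) (hPv : PivotW35Statement)
    (hp : p = 3 ∨ p = 5) (hΔ : W.Δ ≠ 0) (hW : W.IsSemistableModel)
    (hirr : W.ModRepIsIrreducible p) (M : ℕ) (hsq : Squarefree M)
    (hres : W.IsResiduallyModularOfLevel p M) :
    ∃ M₂ : ℕ, Squarefree M₂ ∧ W.IsResiduallyModularOfLevel p M₂ ∧
      ∀ q : ℕ, q.Prime → q ∣ M₂ → q ≠ p →
        ¬ ((W.map (Int.castRingHom ℚ)).residualGaloisRepOf p hcard hker).IsUnramifiedAt q := by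
  obtain ⟨L, hLM, hresL, hminL⟩ := exists_minimal_modular_dvd p W hres
  have hsqL : Squarefree L := hsq.squarefree_of_dvd hLM
  have hL0 : L ≠ 0 := hsqL.ne_zero
  have hmin : ∀ r : ℕ, r.Prime → r ∣ L → ¬ W.IsResiduallyModularOfLevel p (L / r) := by
    intro r hr hrL hmodr
    have hdvd : L / r ∣ M := (Nat.div_dvd_of_dvd hrL).trans hLM
    have hle : L ≤ L / r := hminL (L / r) hdvd hmodr
    have hlt : L / r < L := div_lt_of_prime_dvd hL0 hr
    omega
  have hpiv : ∀ r : ℕ, r.Prime → r ∣ L → r ≠ p →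
      ((W.map (Int.castRingHom ℚ)).residualGaloisRepOf p hcard hker).IsUnramifiedAt r →
      IsPivotAt p ((W.map (Int.castRingHom ℚ)).residualGaloisRepOf p hcard hker) r := by
    intro r hr hrL hrp hunr
    by_contra hnp
    exact hmin r hr hrL (hMz p hp W hΔ hW hirr hcard hker L r hsqL hr hrp hrL hunr hnp hresL)
  exact ⟨L, hsqL, hresL, hPv p hp W hΔ hW hirr hcard hker L hsqL hresL hmin hpiv⟩

end Glue

/-- **LO-GLUE in W-form at `p ∈ {3, 5}`.** -/
theorem levelOpt_of_w35 (hSQ : LoSqStatement) (hMz : MazurW35Statement)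
    (hPv : PivotW35Statement) (h39 : S39W35Statement)
    (hFP : FlatPeuStatement) (hU : ResUnramStatement) (hF : ResFlatStatement) :
    LevelOptStatement := by
  intro p _ hp W hΔ hW hirr M₀ _ hres₀ hM₀ hM₀3 hcard hker Smin hSmin t ht
  have hpp : p.Prime := Fact.out
  obtain ⟨hpS, hSprime, hSram⟩ := hSmin
  -- Step A
  obtain ⟨M₁, hsq₁, hres₁⟩ := exists_squarefree_level p W hSQ hp hΔ hW hirr M₀
    (NeZero.ne M₀) hM₀ hM₀3 hres₀
  -- Step B
  obtain ⟨M₂, hsq₂, hres₂, hram₂⟩ := exists_ramified_level_w35 p W hcard hker hMz hPv hp hΔ hW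
    hirr M₁ hsq₁ hres₁
  rcases ht with ⟨rfl, hflat⟩ | ⟨rfl, hnflat⟩
  · -- flat: remove `p` if necessary
    have key : ∃ M₃ : ℕ, Squarefree M₃ ∧ W.IsResiduallyModularOfLevel p M₃ ∧ ¬ p ∣ M₃ ∧
        ∀ q : ℕ, q.Prime → q ∣ M₃ → q ≠ p →
          ¬ ((W.map (Int.castRingHom ℚ)).residualGaloisRepOf p hcard hker).IsUnramifiedAt q := by
      by_cases hpM : p ∣ M₂
      · have hres₃ := h39 p hp W hΔ hW hirr
          (hFP p hp W hΔ hW hirr hcard hker hflat) M₂ hsq₂ hpM hres₂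
        have hdiv : M₂ / p ∣ M₂ := Nat.div_dvd_of_dvd hpM
        exact ⟨M₂ / p, hsq₂.squarefree_of_dvd hdiv, hres₃,
          not_dvd_div_of_squarefree hsq₂ hpp hpM,
          fun q hq hqM hqp => hram₂ q hq (hqM.trans hdiv) hqp⟩
      · exact ⟨M₂, hsq₂, hres₂, hpM, hram₂⟩
    obtain ⟨M₃, hsq₃, hres₃, hpM₃, hram₃⟩ := key
    have hM₃ : M₃ = ∏ q ∈ Smin.erase p, q := by
      apply eq_prod_of_primeDivisors hsq₃
      intro q
      rw [Finset.mem_erase]
      constructor
      · rintro ⟨hqp, hqS⟩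
        have hq : q.Prime := hSprime q hqS
        refine ⟨hq, ?_⟩
        by_contra hqM
        exact (hSram q hq hqp).1 hqS (hU p hp W hΔ hW hirr hcard hker M₃ hsq₃ hres₃ q hq hqp hqM)
      · rintro ⟨hq, hqM⟩
        have hqp : q ≠ p := by
          rintro rfl
          exact hpM₃ hqM
        exact ⟨hqp, (hSram q hq hqp).2 (hram₃ q hq hqM hqp)⟩
    rw [wilesLevel_flat, ← hM₃]
    exact hres₃
  · -- strictly ordinary, not flat: `p` divides the level
    have hpM : p ∣ M₂ := by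
      by_contra hpM
      exact hnflat (hF p hp W hΔ hW hirr hcard hker M₂ hsq₂ hres₂ hpM)
    have hM₂ : M₂ = ∏ q ∈ Smin, q := by
      apply eq_prod_of_primeDivisors hsq₂
      intro q
      constructor
      · intro hqS
        have hq : q.Prime := hSprime q hqS
        refine ⟨hq, ?_⟩
        by_cases hqp : q = p
        · rw [hqp]
          exact hpM
        · by_contra hqM
          exact (hSram q hq hqp).1 hqS
            (hU p hp W hΔ hW hirr hcard hker M₂ hsq₂ hres₂ q hq hqp hqM)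
      · rintro ⟨hq, hqM⟩
        by_cases hqp : q = p
        · rw [hqp]
          exact hpS
        · exact (hSram q hq hqp).2 (hram₂ q hq hqM hqp)
    have hprod : (∏ q ∈ Smin.erase p, q) * p = ∏ q ∈ Smin, q :=
      Finset.prod_erase_mul Smin (fun q => q) hpS
    rw [wilesLevel_sord, hprod, ← hM₂]
    exact hres₂

/-! ## The frozen statements imply the W-forms (for orientation) -/

/-- Frozen S39 implies its restriction. -/
theorem s39W35_of_s39 (h : S39Statement) : S39W35Statement := by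
  intro p _ hp W hΔ hW hirr hfin M hM hpM hmod
  have hpp : p.Prime := Fact.out
  have hp2 : p ≠ 2 := by rcases hp with h | h <;> omega
  have hp2M : ¬ p ^ 2 ∣ M := by
    intro h2
    rw [pow_two] at h2
    exact hpp.not_isUnit (hM p h2)
  exact h W hΔ hpp hp2 (hW p hpp) hirr hfin (Nat.pos_of_ne_zero hM.ne_zero) hpM hp2M hmod

/-- Frozen S38 implies Mazur's principle in W-form (the non-pivot hypothesis is not used). -/
theorem mazurW35_of_s38 (h : S38Statement) : MazurW35Statement := by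
  intro p _ hp W hΔ hW hirr hcard hker M q hM hq hqp hqM hunr _ hres
  have hp2 : p ≠ 2 := by rcases hp with h | h <;> omega
  have hq2 : ¬ q ^ 2 ∣ M := by
    intro h2
    rw [pow_two] at h2
    exact hq.not_isUnit (hM q h2)
  exact h p hp2 W hΔ hW hcard hker hirr M q hq hqp hqM hq2 hM hunr hres

/-- Frozen S38 implies the pivot statement. -/
theorem pivotW35_of_s38 (h : S38Statement) : PivotW35Statement := by
  intro p _ hp W hΔ hW hirr hcard hker L hL hres hmin _ r hr hrL hrp hunr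
  have hp2 : p ≠ 2 := by rcases hp with h | h <;> omega
  have hr2 : ¬ r ^ 2 ∣ L := by
    intro h2
    rw [pow_two] at h2
    exact hr.not_isUnit (hL r h2)
  exact hmin r hr hrL (h p hp2 W hΔ hW hcard hker hirr L r hr hrp hrL hr2 hL hunr hres)

end Fermat.Agent.S59.Arch.LOW

end
-- ===== PACK-END S59/Arch/LOW.lean

-- ===== PACK-BEGIN S55/G/SIndH237/ApproxH959.lean
section
/-
S55 (Poitou–Tate), layer G, leaf G-SIND, sub-leaf SIND-APPROX (helper959).

`theorem approx : Fermat.Agent.S55.G.SIndH237.ApproxSpec` — weak approximation in the integral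
model: `J_T(L) = Lˣ · U_T(L)`.

Proof (Mathlib only).  `n := ∏_{q ∈ T} q`.
* Part A (`ℚ_T`): `|n|_q = 1/q`; `1 + n c` is a unit of `ℤ_T`; bounded denominators
  (`n ^ k c ∈ ℤ_T`); simultaneous approximation of `c ∈ ℚ_T` by a rational modulo `n ^ N ℤ_T`
  (`PadicInt.appr` + Chinese remainder theorem).
* Part B: `RS = 𝒪_L ⊗ ℤ_T` is integral over `ℤ_T`, hence every maximal ideal of `RS` contains
  `n` and `1 + n z` is a unit of `RS` for all `z ∈ RS` (`isUnit_one_add_nT_mul`).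
* Part C: bounded denominators in `L ⊗ ℚ_T` (`exists_pow_mul_mem_RS`) and density of `L ⊗ 1`
  modulo `n ^ N RS` (`exists_approx`).
* Part D: for a unit `j` choose `k` with `n ^ k j⁻¹ ∈ RS` and `y ∈ L` with
  `j - y ⊗ 1 ∈ n ^ (k + 1) RS`; then `j⁻¹ (y ⊗ 1) ∈ 1 + n RS ⊆ RSˣ`.
-/


set_option autoImplicit false
set_option linter.unusedSectionVars false
set_option linter.style.haveILetI false

open scoped NumberField TensorProduct
open IsDedekindDomain

noncomputable section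

namespace Fermat.Agent.S55.G.SIndH237.H959

open Fermat.Agent.S55.G Fermat.Agent.S55.G.SIndH237

/-! ## Part A : the semi-local ring `ℚ_T` and its integers `ℤ_T` -/

section PartA

variable (T : Finset Nat.Primes)

/-- `n = ∏_{q ∈ T} q`. -/
def nT : ℕ := ∏ q ∈ T, (q : ℕ)

lemma nT_pos : 0 < nT T := Finset.prod_pos fun q _ => q.2.pos

lemma nT_ne_zero : nT T ≠ 0 := (nT_pos T).ne'

/-- Two elements of `ℚ_T` with the same components are equal. -/
lemma QS_ext {c d : QS T} (h : ∀ q : T, QS.toPi T c q = QS.toPi T d q) : c = d :=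
  (QS.toPi T).injective (funext h)

@[simp] lemma toPi_natCast (m : ℕ) (q : T) : QS.toPi T (m : QS T) q = (m : Qq q.1) := by
  rw [map_natCast]; rfl

@[simp] lemma toPi_mul (c d : QS T) (q : T) :
    QS.toPi T (c * d) q = QS.toPi T c q * QS.toPi T d q := rfl

@[simp] lemma toPi_add (c d : QS T) (q : T) :
    QS.toPi T (c + d) q = QS.toPi T c q + QS.toPi T d q := rfl

@[simp] lemma toPi_sub (c d : QS T) (q : T) :
    QS.toPi T (c - d) q = QS.toPi T c q - QS.toPi T d q := rfl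

@[simp] lemma toPi_pow (c : QS T) (k : ℕ) (q : T) :
    QS.toPi T (c ^ k) q = QS.toPi T c q ^ k := rfl

@[simp] lemma toPi_one (q : T) : QS.toPi T (1 : QS T) q = 1 := rfl

@[simp] lemma toPi_algebraMap (r : ℚ) (q : T) :
    QS.toPi T (algebraMap ℚ (QS T) r) q = (r : Qq q.1) := by
  have := (QS.proj T q).commutes r
  rw [QS.proj_apply] at this
  rw [this]
  exact (eq_ratCast (algebraMap ℚ (Qq q.1)) r)

@[simp] lemma toPi_symm_apply (f : ∀ q : T, Qq q.1) (q : T) :
    QS.toPi T ((QS.toPi T).symm f) q = f q := rfl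

/-- `|n|_q = 1/q` for `q ∈ T`. -/
lemma norm_nT (q : T) : ‖((nT T : ℕ) : Qq q.1)‖ = ((q.1 : ℕ) : ℝ)⁻¹ := by
  haveI : Fact (Nat.Prime (q.1 : ℕ)) := ⟨q.1.2⟩
  classical
  have h1 : nT T = (q.1 : ℕ) * ∏ q' ∈ T.erase q.1, (q' : ℕ) := by
    rw [nT, Finset.mul_prod_erase T (fun q' : Nat.Primes => (q' : ℕ)) q.2]
  have h2 : Nat.Coprime (q.1 : ℕ) (∏ q' ∈ T.erase q.1, (q' : ℕ)) := by
    refine Nat.Coprime.prod_right fun q' hq' => ?_
    rw [Nat.coprime_primes q.1.2 q'.2]
    intro h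
    exact (Finset.ne_of_mem_erase hq') (Subtype.ext h).symm
  rw [h1, Nat.cast_mul, norm_mul, Padic.norm_p, Padic.norm_natCast_eq_one_iff.2 h2, mul_one]

lemma norm_nT_lt_one (q : T) : ‖((nT T : ℕ) : Qq q.1)‖ < 1 := by
  rw [norm_nT]
  exact inv_lt_one_of_one_lt₀ (by exact_mod_cast q.1.2.one_lt)

lemma norm_nT_pos (q : T) : 0 < ‖((nT T : ℕ) : Qq q.1)‖ := by
  rw [norm_nT]
  exact inv_pos.2 (by exact_mod_cast q.1.2.pos)

lemma nT_cast_ne_zero (q : T) : ((nT T : ℕ) : Qq q.1) ≠ 0 :=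
  norm_pos_iff.1 (norm_nT_pos T q)

/-- An element all of whose components have norm `≤ |n|^N` is `n ^ N` times an element of
`ℤ_T`. -/
lemma exists_eq_pow_mul_of_norm_le (N : ℕ) (d : QS T)
    (hd : ∀ q : T, ‖QS.toPi T d q‖ ≤ ‖((nT T : ℕ) : Qq q.1)‖ ^ N) :
    ∃ d' ∈ ZS T, d = (nT T : QS T) ^ N * d' := by
  refine ⟨(QS.toPi T).symm (fun q => QS.toPi T d q / ((nT T : ℕ) : Qq q.1) ^ N), ?_, ?_⟩
  · intro q
    rw [toPi_symm_apply, norm_div, norm_pow]
    exact div_le_one_of_le₀ (hd q) (pow_nonneg (norm_nonneg _) _)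
  · refine QS_ext T fun q => ?_
    rw [toPi_mul, toPi_pow, toPi_natCast, toPi_symm_apply,
      mul_div_cancel₀ _ (pow_ne_zero _ (nT_cast_ne_zero T q))]

/-- `1 + n c` is a unit of `ℤ_T` for `c ∈ ℤ_T`. -/
lemma isUnit_nT_mul_add_one (c : ZS T) : IsUnit ((nT T : ZS T) * c + 1) := by
  have hnorm : ∀ q : T, ‖QS.toPi T (((nT T : ZS T) * c + 1 : ZS T) : QS T) q‖ = 1 := by
    intro q
    haveI : Fact (Nat.Prime (q.1 : ℕ)) := ⟨q.1.2⟩
    have h1 : QS.toPi T (((nT T : ZS T) * c + 1 : ZS T) : QS T) q =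
        ((nT T : ℕ) : Qq q.1) * QS.toPi T (c : QS T) q + 1 := by
      rw [Subring.coe_add, Subring.coe_mul, Subring.coe_one, Subring.coe_natCast, toPi_add,
        toPi_mul, toPi_natCast, toPi_one]
    rw [h1]
    have h2 : ‖((nT T : ℕ) : Qq q.1) * QS.toPi T (c : QS T) q‖ < 1 := by
      rw [norm_mul]
      calc ‖((nT T : ℕ) : Qq q.1)‖ * ‖QS.toPi T (c : QS T) q‖
          ≤ ‖((nT T : ℕ) : Qq q.1)‖ * 1 :=
            mul_le_mul_of_nonneg_left (c.2 q) (norm_nonneg _)
        _ < 1 := by rw [mul_one]; exact norm_nT_lt_one T q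
    have h3 : ‖((nT T : ℕ) : Qq q.1) * QS.toPi T (c : QS T) q‖ ≠ ‖(1 : Qq q.1)‖ := by
      rw [norm_one]; exact h2.ne
    rw [Padic.add_eq_max_of_ne h3, norm_one, max_eq_right h2.le]
  have hne : ∀ q : T, QS.toPi T (((nT T : ZS T) * c + 1 : ZS T) : QS T) q ≠ 0 := by
    intro q
    rw [← norm_pos_iff, hnorm q]
    exact one_pos
  refine IsUnit.of_mul_eq_one
    (⟨(QS.toPi T).symm (fun q => (QS.toPi T (((nT T : ZS T) * c + 1 : ZS T) : QS T) q)⁻¹),
      ?_⟩ : ZS T) ?_
  · intro q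
    rw [toPi_symm_apply, norm_inv, hnorm q, inv_one]
  · apply Subtype.ext
    rw [Subring.coe_mul, Subring.coe_one]
    refine QS_ext T fun q => ?_
    rw [toPi_mul, toPi_symm_apply, toPi_one, mul_inv_cancel₀ (hne q)]

/-- Bounded denominators: `n ^ k c ∈ ℤ_T` for `k` large. -/
lemma exists_pow_mul_mem_ZS (c : QS T) : ∃ k : ℕ, (nT T : QS T) ^ k * c ∈ ZS T := by
  have h1 : ∀ q : T, ∃ k : ℕ, ‖((nT T : ℕ) : Qq q.1)‖ ^ k * ‖QS.toPi T c q‖ ≤ 1 := by
    intro q
    have hpos : (0 : ℝ) < 1 / (‖QS.toPi T c q‖ + 1) :=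
      div_pos one_pos (by positivity)
    obtain ⟨k, hk⟩ := exists_pow_lt_of_lt_one hpos (norm_nT_lt_one T q)
    refine ⟨k, ?_⟩
    have h2 : ‖((nT T : ℕ) : Qq q.1)‖ ^ k * (‖QS.toPi T c q‖ + 1) ≤ 1 := by
      have := mul_le_mul_of_nonneg_right hk.le
        (by positivity : (0 : ℝ) ≤ ‖QS.toPi T c q‖ + 1)
      rwa [one_div, inv_mul_cancel₀ (by positivity)] at this
    refine le_trans (mul_le_mul_of_nonneg_left (by linarith) (by positivity)) h2
  choose k hk using h1
  refine ⟨Finset.univ.sup k, fun q => ?_⟩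
  rw [toPi_mul, toPi_pow, toPi_natCast, norm_mul, norm_pow]
  refine le_trans (mul_le_mul_of_nonneg_right ?_ (norm_nonneg _)) (hk q)
  exact pow_le_pow_of_le_one (norm_nonneg _) (norm_nT_lt_one T q).le
    (Finset.le_sup (Finset.mem_univ q))

/-- Simultaneous approximation of an element of `ℤ_T` by a natural number. -/
lemma exists_nat_approx (c : QS T) (hc : c ∈ ZS T) (N : ℕ) :
    ∃ r : ℕ, ∀ q : T, ‖QS.toPi T c q - (r : Qq q.1)‖ ≤ ‖((nT T : ℕ) : Qq q.1)‖ ^ N := by
  classical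
  -- local approximations
  let a : T → ℕ := fun q =>
    haveI : Fact (Nat.Prime (q.1 : ℕ)) := ⟨q.1.2⟩
    PadicInt.appr (⟨QS.toPi T c q, hc q⟩ : ℤ_[(q.1 : ℕ)]) N
  let s : T → ℕ := fun q => (q.1 : ℕ) ^ N
  have hs : ∀ q ∈ (Finset.univ : Finset T), s q ≠ 0 := fun q _ =>
    pow_ne_zero _ q.1.2.ne_zero
  have pp : Set.Pairwise (↑(Finset.univ : Finset T)) (Function.onFun Nat.Coprime s) := by
    intro q _ q' _ hne
    show Nat.Coprime ((q.1 : ℕ) ^ N) ((q'.1 : ℕ) ^ N)
    apply Nat.Coprime.pow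
    rw [Nat.coprime_primes q.1.2 q'.1.2]
    intro h
    exact hne (Subtype.ext (Subtype.ext h))
  obtain ⟨r, hr⟩ := Nat.chineseRemainderOfFinset a s Finset.univ hs pp
  refine ⟨r, fun q => ?_⟩
  haveI : Fact (Nat.Prime (q.1 : ℕ)) := ⟨q.1.2⟩
  have hpow : ‖((nT T : ℕ) : Qq q.1)‖ ^ N = ((q.1 : ℕ) : ℝ) ^ (-(N : ℤ)) := by
    rw [norm_nT, zpow_neg, zpow_natCast, inv_pow]
  rw [hpow]
  have h1 : ‖QS.toPi T c q - ((a q : ℕ) : Qq q.1)‖ ≤ ((q.1 : ℕ) : ℝ) ^ (-(N : ℤ)) := by
    have := PadicInt.appr_spec N (⟨QS.toPi T c q, hc q⟩ : ℤ_[(q.1 : ℕ)])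
    rw [← PadicInt.norm_le_pow_iff_mem_span_pow] at this
    exact this
  have h2 : ‖(((a q : ℕ) : Qq q.1) - (r : Qq q.1))‖ ≤ ((q.1 : ℕ) : ℝ) ^ (-(N : ℤ)) := by
    have hmod : r ≡ a q [MOD s q] := hr q (Finset.mem_univ q)
    have hdvd : (((q.1 : ℕ) ^ N : ℕ) : ℤ) ∣ (a q : ℤ) - (r : ℤ) := Nat.modEq_iff_dvd.1 hmod
    have h3 := (Padic.norm_int_le_pow_iff_dvd (p := (q.1 : ℕ)) ((a q : ℤ) - (r : ℤ)) N).2
      (by exact_mod_cast hdvd)
    have h4 : (((a q : ℤ) - (r : ℤ) : ℤ) : ℚ_[(q.1 : ℕ)]) =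
        ((a q : ℕ) : Qq q.1) - (r : Qq q.1) := by push_cast; rfl
    rwa [h4] at h3
  have h5 : QS.toPi T c q - (r : Qq q.1) =
      (QS.toPi T c q - ((a q : ℕ) : Qq q.1)) + (((a q : ℕ) : Qq q.1) - (r : Qq q.1)) := by ring
  rw [h5]
  exact (Padic.nonarchimedean _ _).trans (max_le h1 h2)

/-- Simultaneous approximation of an element of `ℚ_T` by a rational number, modulo
`n ^ N ℤ_T`. -/
lemma exists_rat_approx (c : QS T) (N : ℕ) :
    ∃ r : ℚ, ∃ d ∈ ZS T, c = algebraMap ℚ (QS T) r + (nT T : QS T) ^ N * d := by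
  obtain ⟨k, hk⟩ := exists_pow_mul_mem_ZS T c
  obtain ⟨r, hr⟩ := exists_nat_approx T _ hk (N + k)
  obtain ⟨d, hd, hd'⟩ := exists_eq_pow_mul_of_norm_le T (N + k)
    ((nT T : QS T) ^ k * c - (r : QS T)) (fun q => by
      rw [toPi_sub, toPi_natCast]
      exact hr q)
  refine ⟨(r : ℚ) / ((nT T : ℚ) ^ k), d, hd, QS_ext T fun q => ?_⟩
  have h1 := congrArg (fun x => QS.toPi T x q) hd'
  simp only [toPi_sub, toPi_mul, toPi_pow, toPi_natCast] at h1
  rw [toPi_add, toPi_algebraMap, toPi_mul, toPi_pow, toPi_natCast]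
  have hn0 : ((nT T : ℕ) : Qq q.1) ≠ 0 := nT_cast_ne_zero T q
  have hcast : (((r : ℚ) / ((nT T : ℚ) ^ k) : ℚ) : Qq q.1) =
      (r : Qq q.1) / ((nT T : ℕ) : Qq q.1) ^ k := by
    push_cast; rfl
  rw [hcast]
  field_simp
  rw [pow_add] at h1
  linear_combination h1

end PartA

/-! ## Part B : the integral model `RS` is integral over `ℤ_T`; `n` lies in its radical -/

section PartB

lemma isIntegralElem_of_isIntegral_int {A B : Type} [CommRing A] [CommRing B] (f : A →+* B)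
    {z : B} (hz : IsIntegral ℤ z) : f.IsIntegralElem z := by
  obtain ⟨P, hP, hPz⟩ := hz
  refine ⟨P.map (Int.castRingHom A), hP.map _, ?_⟩
  rw [Polynomial.eval₂_map]
  have : f.comp (Int.castRingHom A) = algebraMap ℤ B := RingHom.ext_int _ _
  rw [this]
  exact hPz

variable (T : Finset Nat.Primes) (L : Type) [Field L] [NumberField L]

lemma tmul_one_mem_RS (a : 𝓞 L) : ((a : L) ⊗ₜ[ℚ] (1 : QS T) : AS T L) ∈ RS T L :=
  Subring.subset_closure (Or.inl ⟨a, rfl⟩)

lemma one_tmul_mem_RS {c : QS T} (hc : c ∈ ZS T) : ((1 : L) ⊗ₜ[ℚ] c : AS T L) ∈ RS T L :=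
  Subring.subset_closure (Or.inr ⟨c, hc, rfl⟩)

lemma tmul_mem_RS (a : 𝓞 L) {c : QS T} (hc : c ∈ ZS T) :
    ((a : L) ⊗ₜ[ℚ] c : AS T L) ∈ RS T L := by
  have := (RS T L).mul_mem (tmul_one_mem_RS T L a) (one_tmul_mem_RS T L hc)
  rwa [Algebra.TensorProduct.tmul_mul_tmul, mul_one, one_mul] at this

/-- `ℤ_T → RS`, `c ↦ 1 ⊗ c`. -/
def zsToRs : ZS T →+* RS T L :=
  ((asIncl T L : QS T →ₐ[ℚ] AS T L) : QS T →+* AS T L).restrict (ZS T) (RS T L)
    (fun _ hc => one_tmul_mem_RS T L hc)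

lemma coe_zsToRs (c : ZS T) : ((zsToRs T L c : RS T L) : AS T L) = (1 : L) ⊗ₜ[ℚ] (c : QS T) :=
  rfl

lemma zsToRs_isIntegral : (zsToRs T L).IsIntegral := by
  rintro ⟨z, hz⟩
  induction hz using Subring.closure_induction with
  | mem x hx =>
    rcases hx with ⟨a, rfl⟩ | ⟨c, hc, rfl⟩
    · apply isIntegralElem_of_isIntegral_int
      have h1 : IsIntegral ℤ ((a : L) ⊗ₜ[ℚ] (1 : QS T) : AS T L) :=
        map_isIntegral_int ((asDiag T L : L →ₐ[ℚ] AS T L) : L →+* AS T L)
          (NumberField.RingOfIntegers.isIntegral_coe a)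
      exact (isIntegral_algHom_iff ((RS T L).subtype.toIntAlgHom)
        Subtype.val_injective).1 h1
    · exact (zsToRs T L).isIntegralElem_map (x := ⟨c, hc⟩)
  | zero => exact RingHom.isIntegralElem_zero _
  | one => exact RingHom.isIntegralElem_one _
  | add x y hx hy ihx ihy => exact RingHom.IsIntegralElem.add _ ihx ihy
  | neg x hx ihx => exact RingHom.IsIntegralElem.neg _ ihx
  | mul x y hx hy ihx ihy => exact RingHom.IsIntegralElem.mul _ ihx ihy

/-- `1 + n z` is a unit of `RS` for every `z ∈ RS`. -/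
lemma isUnit_one_add_nT_mul (z : RS T L) : IsUnit (1 + (nT T : RS T L) * z) := by
  by_contra hnu
  obtain ⟨M, hM, hmem⟩ := exists_max_ideal_of_mem_nonunits (mem_nonunits_iff.2 hnu)
  haveI := hM
  have hM' := Ideal.isMaximal_comap_of_isIntegral_of_isMaximal' (zsToRs T L)
    (zsToRs_isIntegral T L) M
  have hn : (nT T : ZS T) ∈ M.comap (zsToRs T L) := by
    have hj : (nT T : ZS T) ∈ Ideal.jacobson (⊥ : Ideal (ZS T)) :=
      Ideal.mem_jacobson_bot.2 (fun y => isUnit_nT_mul_add_one T y)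
    exact (Ideal.mem_sInf.1 hj) ⟨bot_le, hM'⟩
  rw [Ideal.mem_comap, map_natCast] at hn
  have h1 : (1 : RS T L) ∈ M := by
    have := M.sub_mem hmem (M.mul_mem_right z hn)
    simpa using this
  exact hM.ne_top ((Ideal.eq_top_iff_one M).2 h1)

end PartB

/-! ## Part C : `L ⊗ 1` is dense in `L ⊗ ℚ_T` for the `n`-adic topology of the integral model -/

section PartC

variable (T : Finset Nat.Primes) (L : Type) [Field L] [NumberField L]

/-- Every pure tensor is `a ⊗ c'` with `a` an algebraic integer. -/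
lemma exists_tmul_eq (x : L) (c : QS T) :
    ∃ (a : 𝓞 L) (c' : QS T), (x ⊗ₜ[ℚ] c : AS T L) = (a : L) ⊗ₜ[ℚ] c' := by
  obtain ⟨m, hm, hint⟩ := ((IsFractionRing.isAlgebraic_iff ℤ ℚ L).2
    (Algebra.IsAlgebraic.isAlgebraic (R := ℚ) x)).exists_integral_multiple
  refine ⟨⟨m • x, hint⟩, (m : ℚ)⁻¹ • c, ?_⟩
  have h1 : (m • x : L) = (m : ℚ) • x := by
    rw [Int.cast_smul_eq_zsmul]
  show (x ⊗ₜ[ℚ] c : AS T L) = (m • x) ⊗ₜ[ℚ] ((m : ℚ)⁻¹ • c)
  rw [h1, TensorProduct.smul_tmul, smul_smul, mul_inv_cancel₀ (Int.cast_ne_zero.2 hm), one_smul]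

lemma natCast_pow_eq (k : ℕ) :
    ((nT T : ℕ) : AS T L) ^ k = (1 : L) ⊗ₜ[ℚ] ((nT T : QS T) ^ k) := by
  rw [← Algebra.TensorProduct.includeRight_apply, map_pow, map_natCast]

lemma natCast_pow_mul_tmul (k : ℕ) (x : L) (c : QS T) :
    ((nT T : ℕ) : AS T L) ^ k * (x ⊗ₜ[ℚ] c) = x ⊗ₜ[ℚ] ((nT T : QS T) ^ k * c) := by
  rw [natCast_pow_eq, Algebra.TensorProduct.tmul_mul_tmul, one_mul]

lemma natCast_pow_mem_RS (k : ℕ) : ((nT T : ℕ) : AS T L) ^ k ∈ RS T L :=
  pow_mem (natCast_mem _ _) _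

/-- Bounded denominators in `L ⊗ ℚ_T`. -/
lemma exists_pow_mul_mem_RS (z : AS T L) :
    ∃ k : ℕ, ((nT T : ℕ) : AS T L) ^ k * z ∈ RS T L := by
  induction z using TensorProduct.induction_on with
  | zero => exact ⟨0, by rw [mul_zero]; exact (RS T L).zero_mem⟩
  | tmul x c =>
    obtain ⟨a, c', h⟩ := exists_tmul_eq T L x c
    obtain ⟨k, hk⟩ := exists_pow_mul_mem_ZS T c'
    refine ⟨k, ?_⟩
    rw [h, natCast_pow_mul_tmul]
    exact tmul_mem_RS T L a hk
  | add z₁ z₂ h₁ h₂ =>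
    obtain ⟨k₁, hk₁⟩ := h₁
    obtain ⟨k₂, hk₂⟩ := h₂
    refine ⟨k₁ + k₂, ?_⟩
    have : ((nT T : ℕ) : AS T L) ^ (k₁ + k₂) * (z₁ + z₂) =
        ((nT T : ℕ) : AS T L) ^ k₂ * (((nT T : ℕ) : AS T L) ^ k₁ * z₁) +
        ((nT T : ℕ) : AS T L) ^ k₁ * (((nT T : ℕ) : AS T L) ^ k₂ * z₂) := by ring
    rw [this]
    exact (RS T L).add_mem ((RS T L).mul_mem (natCast_pow_mem_RS T L k₂) hk₁)
      ((RS T L).mul_mem (natCast_pow_mem_RS T L k₁) hk₂)

/-- Density of `L ⊗ 1`. -/
lemma exists_approx (z : AS T L) (N : ℕ) :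
    ∃ y : L, ∃ z₀ ∈ RS T L,
      z = y ⊗ₜ[ℚ] (1 : QS T) + ((nT T : ℕ) : AS T L) ^ N * z₀ := by
  induction z using TensorProduct.induction_on with
  | zero => exact ⟨0, 0, (RS T L).zero_mem, by rw [TensorProduct.zero_tmul, mul_zero, add_zero]⟩
  | tmul x c =>
    obtain ⟨a, c', h⟩ := exists_tmul_eq T L x c
    obtain ⟨r, d, hd, hc'⟩ := exists_rat_approx T c' N
    refine ⟨r • (a : L), (a : L) ⊗ₜ[ℚ] d, tmul_mem_RS T L a hd, ?_⟩
    rw [h, natCast_pow_mul_tmul]
    conv_lhs => rw [hc']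
    rw [TensorProduct.tmul_add]
    congr 1
    rw [Algebra.algebraMap_eq_smul_one, TensorProduct.tmul_smul, TensorProduct.smul_tmul']
  | add z₁ z₂ h₁ h₂ =>
    obtain ⟨y₁, w₁, hw₁, e₁⟩ := h₁
    obtain ⟨y₂, w₂, hw₂, e₂⟩ := h₂
    refine ⟨y₁ + y₂, w₁ + w₂, (RS T L).add_mem hw₁ hw₂, ?_⟩
    conv_lhs => rw [e₁, e₂]
    rw [TensorProduct.add_tmul]
    ring

end PartC

/-! ## Part D : weak approximation -/

section PartD

/-- **SIND-APPROX** : `J_T(L) = Lˣ · U_T(L)`. -/
theorem approx : ApproxSpec := by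
  intro T L _ _ j
  rcases subsingleton_or_nontrivial (AS T L) with hsub | hnt
  · refine ⟨0, j, ⟨?_, ?_⟩, by rw [map_zero, zero_add]⟩
    · rw [Subsingleton.elim ((j.toMul : (AS T L)ˣ) : AS T L) 0]
      exact (RS T L).zero_mem
    · rw [Subsingleton.elim (((j.toMul)⁻¹ : (AS T L)ˣ) : AS T L) 0]
      exact (RS T L).zero_mem
  · obtain ⟨k, hk⟩ := exists_pow_mul_mem_RS T L (((j.toMul)⁻¹ : (AS T L)ˣ) : AS T L)
    obtain ⟨y, z₀, hz₀, hy⟩ := exists_approx T L ((j.toMul : (AS T L)ˣ) : AS T L) (k + 1)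
    obtain ⟨w, hw⟩ := isUnit_one_add_nT_mul T L
      (⟨-(((nT T : ℕ) : AS T L) ^ k * (((j.toMul)⁻¹ : (AS T L)ˣ) : AS T L) * z₀),
        (RS T L).neg_mem ((RS T L).mul_mem hk hz₀)⟩ : RS T L)
    have hwval : ((w : RS T L) : AS T L) =
        1 + ((nT T : ℕ) : AS T L) *
          -(((nT T : ℕ) : AS T L) ^ k * (((j.toMul)⁻¹ : (AS T L)ˣ) : AS T L) * z₀) := by
      rw [hw]
      rfl
    have hJ : ((j.toMul : (AS T L)ˣ) : AS T L) * (((j.toMul)⁻¹ : (AS T L)ˣ) : AS T L) = 1 := by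
      rw [← Units.val_mul, mul_inv_cancel, Units.val_one]
    have hyw : (y ⊗ₜ[ℚ] (1 : QS T) : AS T L) =
        ((j.toMul : (AS T L)ˣ) : AS T L) * ((w : RS T L) : AS T L) := by
      rw [hwval]
      have e : (y ⊗ₜ[ℚ] (1 : QS T) : AS T L) = ((j.toMul : (AS T L)ˣ) : AS T L) -
          ((nT T : ℕ) : AS T L) ^ (k + 1) * z₀ := by
        rw [eq_sub_iff_add_eq]
        exact hy.symm
      rw [e]
      linear_combination (((nT T : ℕ) : AS T L) ^ (k + 1) * z₀) * hJ
    have hwinv : ((w : RS T L) : AS T L) * (((w⁻¹ : (RS T L)ˣ) : RS T L) : AS T L) = 1 := by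
      rw [← Subring.coe_mul, ← Units.val_mul, mul_inv_cancel, Units.val_one, Subring.coe_one]
    have hy0 : y ≠ 0 := by
      rintro rfl
      rw [TensorProduct.zero_tmul] at hyw
      have h1 : (1 : AS T L) = 0 := by
        calc (1 : AS T L) = (((j.toMul)⁻¹ : (AS T L)ˣ) : AS T L) *
              (((j.toMul : (AS T L)ˣ) : AS T L) * ((w : RS T L) : AS T L)) *
              (((w⁻¹ : (RS T L)ˣ) : RS T L) : AS T L) := by
              rw [← mul_assoc, mul_comm (((j.toMul)⁻¹ : (AS T L)ˣ) : AS T L), hJ, one_mul, hwinv]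
          _ = 0 := by rw [← hyw, mul_zero, zero_mul]
      exact one_ne_zero h1
    refine ⟨Additive.ofMul (Units.mk0 y hy0),
      Additive.ofMul (Units.map (RS T L).subtype.toMonoidHom w⁻¹), ⟨?_, ?_⟩, ?_⟩
    · exact ((w⁻¹ : (RS T L)ˣ) : RS T L).2
    · have : ((Units.map (RS T L).subtype.toMonoidHom w⁻¹)⁻¹ : (AS T L)ˣ) =
          Units.map (RS T L).subtype.toMonoidHom w := by
        rw [← map_inv, inv_inv]
      show (((Units.map (RS T L).subtype.toMonoidHom w⁻¹)⁻¹ : (AS T L)ˣ) : AS T L) ∈ RS T L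
      rw [this]
      exact (w : RS T L).2
    · apply Additive.toMul.injective
      apply Units.ext
      show ((j.toMul : (AS T L)ˣ) : AS T L) =
        (y ⊗ₜ[ℚ] (1 : QS T) : AS T L) * (((w⁻¹ : (RS T L)ˣ) : RS T L) : AS T L)
      rw [hyw, mul_assoc, hwinv, mul_one]

end PartD

end Fermat.Agent.S55.G.SIndH237.H959

end
end
-- ===== PACK-END S55/G/SIndH237/ApproxH959.lean

-- ===== PACK-BEGIN S33/Spec2.lean
section
/-
Row S33 (ordinary at `p`, `p ‖ N`) — frozen decomposition of ORD-EIG (helper409).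

    S33  ⇐  OrdEigenStatement                                   (`Top.lean`, proved)
    OrdEigenStatement  ⇐  GeoEigenStatement                      (ALG:   pure algebra + BLR + REL)
    GeoEigenStatement  ⇐  KeyStatement                           (EIG-B: Tate eigenmodule, level `N`)
    KeyStatement       ⇐  OrdFilStatement + OldAugStatement      (KEY:   dévissage by `α, β`)
    OldAugStatement    ⇐  S19 (Hopf models, `p ∤ M'`) + CE       (OLD)
    OrdFilStatement    =  the wall at `p` : (DEG) + (S1⁺) + (S2) (NEW:   RIBET row 38 leaves)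

Vocabulary (definitions of helper270, `origin/helper270:Fermat/Agent/S33/H270/KeyCore.lean`):
`iAug I Y = ⟨σ • y - y : σ ∈ I, y ∈ Y⟩`, `torsSub J m = J[m]`,
`InSPlus I p x : p • x = 0 ∧ ∃ n, x ∈ iAug I J[p ^ n]`   (the set `𝒮⁺`).

Route and proofs on paper: `coord/S33-helper409.md` on `origin/helper409`.
Only sorry-free definitions in this file.
-/



set_option autoImplicit false

noncomputable section

namespace Fermat.Agent.S33

open IsLocalRing Fermat.Agent.S31

/-! ### Abstract vocabulary -/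

section Abstract

variable {G : Type*} [Group G] {J : Type*} [AddCommGroup J] [DistribMulAction G J]

/-- The augmentation subgroup `⟨σ • y - y : σ ∈ I, y ∈ Y⟩`. -/
def iAug (I : Subgroup G) (Y : AddSubgroup J) : AddSubgroup J :=
  AddSubgroup.closure {z | ∃ σ ∈ I, ∃ y ∈ Y, z = σ • y - y}

/-- The `m`-torsion subgroup. -/
def torsSub (J : Type*) [AddCommGroup J] (m : ℕ) : AddSubgroup J :=
  (nsmulAddMonoidHom (α := J) m).ker

/-- `𝒮⁺ = ⋃ₙ (I_aug J[pⁿ] ∩ J[p])` as a predicate. -/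
def InSPlus (I : Subgroup G) (p : ℕ) (x : J) : Prop :=
  p • x = 0 ∧ ∃ n : ℕ, x ∈ iAug I (torsSub J (p ^ n))

/-- **(K)** for `(G, I, J)`: every `G`-stable subgroup of `𝒮⁺` is generated by its
augmentation (its `I`-coinvariants vanish). -/
def KeyAt (I : Subgroup G) (p : ℕ) (J : Type*) [AddCommGroup J] [DistribMulAction G J] : Prop :=
  ∀ Y : AddSubgroup J, (∀ (σ : G), ∀ y ∈ Y, σ • y ∈ Y) → (∀ y ∈ Y, InSPlus I p y) →
    Y ≤ iAug I Y

end Abstract

/-! ### The augmentation submodule of a linear action -/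

/-- The submodule of `M` generated by the `ρ σ m - m`, `σ ∈ I`. -/
def augSpan {A M : Type} [CommRing A] [AddCommGroup M] [Module A M]
    (ρ : GQ →* Module.End A M) (I : Subgroup GQ) : Submodule A M :=
  Submodule.span A {x | ∃ σ ∈ I, ∃ m : M, x = ρ σ m - m}

/-- **GEO** for a linear action over a local ring: if the augmentation submodule contains `a M`
for some `a ≠ 0`, then it generates `M` modulo the maximal ideal. -/
def GeoAt {A M : Type} [CommRing A] [IsLocalRing A] [AddCommGroup M] [Module A M]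
    (ρ : GQ →* Module.End A M) (I : Subgroup GQ) : Prop :=
  ∀ a : A, a ≠ 0 → (∀ m : M, a • m ∈ augSpan ρ I) →
    augSpan ρ I ⊔ (maximalIdeal A) • (⊤ : Submodule A M) = ⊤

/-! ### The frozen leaves -/

/-- **GEO-EIG** (engine, no datum, no residual hypothesis).  For `p ‖ N`, `p` odd, every
eigencharacter with values in a complete DVR has an adic eigenmodule satisfying GEO at every
place over `p`. -/
def GeoEigenStatement : Prop :=
  ∀ (p : ℕ) [Fact p.Prime] (_hp2 : p ≠ 2) (N : ℕ) [NeZero N] (S : Finset ℕ)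
    (_hN : p ∣ N ∧ ¬ p ^ 2 ∣ N) (_hNS : ∀ q : ℕ, q.Prime → q ∣ N → q ∈ S)
    (𝒪' : Type) [CommRing 𝒪'] [IsDomain 𝒪'] [IsDiscreteValuationRing 𝒪']
    [IsAdicComplete (maximalIdeal 𝒪') 𝒪'] [Finite (ResidueField 𝒪')]
    [CharZero 𝒪'] (_hp𝒪' : (p : 𝒪') ∈ maximalIdeal 𝒪')
    (χ : CuspForm.heckeAlgebra N 2 (↑S : Set ℕ) →+* 𝒪'),
    ∃ E : Fermat.Agent.S30.H990.AdicEigenModule p N S 𝒪' χ,
      ∀ P : ValuationSubring Qb, P.LiesOverPrime p → GeoAt E.ρ (P.inertiaSubgroupIn ℚ)

/-- **KEY** = (K) for `J₀(N)`, `p ‖ N`, `p` odd, at every place over `p`. -/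
def KeyStatement : Prop :=
  ∀ (p N : ℕ) [NeZero N], p.Prime → p ≠ 2 → p ∣ N → ¬ p ^ 2 ∣ N →
    ∀ P : ValuationSubring Qb, P.LiesOverPrime p →
      KeyAt (P.inertiaSubgroupIn ℚ) p (ModularCurve.JZero N)

/-- **OLD** = (K) for `J₀(M')`, `p ∤ M'`, `p` odd (connected–étale sequence of the Hopf models
of `J₀(M')[p ^ n]`; S19 + CE). -/
def OldAugStatement : Prop :=
  ∀ (p M' : ℕ) [NeZero M'], p.Prime → p ≠ 2 → ¬ p ∣ M' →
    ∀ P : ValuationSubring Qb, P.LiesOverPrime p →
      KeyAt (P.inertiaSubgroupIn ℚ) p (ModularCurve.JZero M')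

/-- **NEW** = the wall at `p`: degeneracy maps `α, β : J₀(pM') → J₀(M')` (additive,
Galois-equivariant) and, at every place `A ∣ p`, a set `𝒮` with
(S1⁺) `𝒮⁺ ⊆ 𝒮`, (S2) inertia acts through the cyclotomic character on the new part of `𝒮`.
((S2) is clause (S2) of `Ribet.H944.Wall.AtPFiltrationStatement`, verbatim.) -/
def OrdFilStatement : Prop :=
  ∀ (p M' : ℕ) [NeZero M'] [NeZero (p * M')], p.Prime → p ≠ 2 → ¬ p ∣ M' →
    ∃ (α β : ModularCurve.JZero (p * M') →+ ModularCurve.JZero M'),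
      (∀ (σ : GQ) (x : ModularCurve.JZero (p * M')), α (σ • x) = σ • α x) ∧
      (∀ (σ : GQ) (x : ModularCurve.JZero (p * M')), β (σ • x) = σ • β x) ∧
      ∀ A : ValuationSubring Qb, A.LiesOverPrime p →
        ∃ 𝒮 : Set (ModularCurve.JZero (p * M')),
          (∀ x : ModularCurve.JZero (p * M'), InSPlus (A.inertiaSubgroupIn ℚ) p x → x ∈ 𝒮) ∧
          (∀ x ∈ 𝒮, p • x = 0 → α x = 0 → β x = 0 →
            ∀ σ ∈ A.inertiaSubgroupIn ℚ, ∀ c : ℕ,
              (∀ ζ : Qb, ζ ^ p = 1 → σ ζ = ζ ^ c) → σ • x = c • x)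

end Fermat.Agent.S33

end
end
-- ===== PACK-END S33/Spec2.lean

-- ===== PACK-BEGIN S59/H826/Spec32.lean
section
/-
Row S59, cell LO, leaf LO-SQ at `(p, q) = (3, 2)` — SOFT route (no geometry, no local-global
compatibility, no S36 engine): frozen interface of the outer leaves and the glue (helper826).

Chain (N odd, `M = 4 N`):
  `W` residually modular of level `4 N`
    ⟹ (OCC-W)   the eigensystem of `W` occurs in `Hom(Γ₀(4N), 𝔽₃)`
    ⟹ (BETTI32) it occurs in `Hom(Γ₀(2N), 𝔽₃)`          [`Γ(2) ∩ Γ₀(N) ≅ Γ₀(4N)`, `S₃`-symmetry,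
                                                          `MFree.H761.kerCor`, ONE `3`-block]
    ⟹ (FORM32)  `W` residually modular of level `2 N`   [given BDRY].
BETTI32 uses two auxiliary primes: `r ≡ 2 mod 3` with `a_r(W) ≢ 0` (CHEB32: kills the elements of
order `3`, removed by the retraction `T_r = β α`) and `l₀` with `a_{l₀} ≢ l₀ + 1` (NE32).
-/



set_option autoImplicit false

namespace Fermat.Agent.S59.H826

open CongruenceSubgroup
open Fermat.Agent.S29.H642
open scoped MatrixGroups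

/-- The eigensystem `a` (integers, taken mod `p`; only the primes `ℓ ∤ M` with `good ℓ` matter)
occurs in `Hom(Γ₀(M), 𝔽_p)` for the Hecke transfers of S29/S41. -/
def Occ826 (p M : ℕ) (good : ℕ → Prop) (a : ℕ → ℤ) : Prop :=
  ∃ y : Additive (Gamma0 M) →+ ZMod p, y ≠ 0 ∧
    ∀ (ℓ : ℕ) [Fact ℓ.Prime] (hℓ : ¬ ℓ ∣ M), good ℓ →
      heckeTransfer hℓ y = ((a ℓ : ℤ) : ZMod p) • y

theorem Occ826.mono {p M : ℕ} {good good' : ℕ → Prop} {a : ℕ → ℤ} (h : Occ826 p M good a)
    (hg : ∀ ℓ, good' ℓ → good ℓ) : Occ826 p M good' a := by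
  obtain ⟨y, hy, he⟩ := h
  exact ⟨y, hy, fun ℓ _ hℓ hgood => he ℓ hℓ (hg ℓ hgood)⟩

/-- **OCC-W.**  A residually modular curve gives a mod-`p` Betti eigenclass. -/
def OccWStatement : Prop :=
  ∀ (p : ℕ) [Fact p.Prime] (W : WeierstrassCurve ℤ) (M : ℕ), M ≠ 0 →
    W.IsResiduallyModularOfLevel p M →
    Occ826 p M (fun ℓ => W.IsGoodPrimeFor ℓ ∧ ℓ ≠ p) (fun ℓ => W.apOfModel ℓ)

/-- **BDRY: the boundary is Eisenstein** (same text as `S38.H59.BdryStatement`, proved by
helper119 off-main).  For a prime `ℓ ≡ 1 mod M`, `ℓ ≠ 2`, every `φ ∈ Hom(Γ₀(M), A)` and every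
parabolic `γ ∈ Γ₀(M)`: `(T_ℓ φ)(γ) = (ℓ + 1) φ(γ)`. -/
def Bdry826Statement : Prop :=
  ∀ (M ℓ : ℕ) [Fact ℓ.Prime] (hℓ : ¬ ℓ ∣ M), M ≠ 0 → ℓ ≠ 2 → ℓ ≡ 1 [MOD M] →
    ∀ (A : Type) [AddCommGroup A] (φ : Additive (Gamma0 M) →+ A) (γ : Gamma0 M),
      ((γ : SL(2, ℤ)) : Matrix (Fin 2) (Fin 2) ℤ).trace ^ 2 = 4 →
      heckeTransfer hℓ φ (Additive.ofMul γ) = (ℓ + 1) • φ (Additive.ofMul γ)

/-- **FORM32.**  `M` even.  A mod-`3` Betti eigenclass of level `M` with the eigenvalues of an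
irreducible `W[3]` gives an eigenform: `W` is residually modular of level `M`.
(`Γ₀(M) ⊆ Γ₀(2)` has no elements of order `3`, so all classes mod `3` are torsion-trivial;
BDRY + NE make the class parabolic.) -/
def Form32Statement : Prop :=
  ∀ (W : WeierstrassCurve ℤ), W.Δ ≠ 0 → W.ModRepIsIrreducible 3 → ∀ (M : ℕ), M ≠ 0 → 2 ∣ M →
    Occ826 3 M (fun ℓ => W.IsGoodPrimeFor ℓ ∧ ℓ ≠ 3) (fun ℓ => W.apOfModel ℓ) →
    W.IsResiduallyModularOfLevel 3 M

/-- **CHEB32.**  For a semistable `W` with irreducible `W[3]` there are primes `r ≡ 2 mod 3`,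
outside any finite set, with `a_r(W) ≢ 0 mod 3`.
(The image of `ρ̄` is not contained in the normaliser `D₄` of a split Cartan subgroup: it is
unramified outside `3` and `ℚ(√-3)` is the only quadratic field unramified outside `3`; every
other irreducible subgroup of `GL₂(𝔽₃)` with surjective determinant contains an element of
order `8`, which has determinant `-1` and trace `±1`.  Chebotarev.) -/
def Cheb32Statement : Prop :=
  ∀ (W : WeierstrassCurve ℤ), W.Δ ≠ 0 → W.IsSemistableModel → W.ModRepIsIrreducible 3 →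
    ∀ S : Finset ℕ, ∃ r : ℕ, r.Prime ∧ r ∉ S ∧ W.IsGoodPrimeFor r ∧ r % 3 = 2 ∧
      ¬ (3 : ℤ) ∣ W.apOfModel r

/-- **NE32.**  For an irreducible `W[3]` there are primes `l₀`, outside any finite set, with
`a_{l₀}(W) ≢ l₀ + 1 mod 3`. -/
def NE32Statement : Prop :=
  ∀ (W : WeierstrassCurve ℤ), W.Δ ≠ 0 → W.ModRepIsIrreducible 3 →
    ∀ S : Finset ℕ, ∃ l : ℕ, l.Prime ∧ l ∉ S ∧ W.IsGoodPrimeFor l ∧
      ¬ (3 : ℤ) ∣ W.apOfModel l - (l + 1)

/-- **BETTI32.**  `N` odd; `r ≡ 2 mod 3` and `l₀` auxiliary primes (prime to `6 N`, `good`) with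
`a_r ≢ 0` and `a_{l₀} ≢ l₀ + 1 mod 3`.  If `a` occurs in `Hom(Γ₀(4N), 𝔽₃)` then it occurs in
`Hom(Γ₀(2N), 𝔽₃)`. -/
def Betti32Statement : Prop :=
  ∀ (N : ℕ), N ≠ 0 → ¬ 2 ∣ N → ∀ (good : ℕ → Prop) (a : ℕ → ℤ) (r l₀ : ℕ),
    r.Prime → ¬ r ∣ 6 * N → r % 3 = 2 → good r → ¬ (3 : ℤ) ∣ a r →
    l₀.Prime → ¬ l₀ ∣ 6 * N * r → good l₀ → ¬ (3 : ℤ) ∣ a l₀ - (l₀ + 1) →
    (∀ ℓ, good ℓ → ℓ ≠ 3) →
    Occ826 3 (4 * N) good a → Occ826 3 (2 * N) good a

/-- **LO-SQ at `(3, 2)`**: `H934.LoSqStatement` for `p = 3`, `q = 2`. -/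
def LoSq32Statement : Prop :=
  ∀ (W : WeierstrassCurve ℤ) (_hΔ : W.Δ ≠ 0) (_hW : W.IsSemistableModel)
    (_hirr : W.ModRepIsIrreducible 3)
    (M : ℕ) (_hM : M ≠ 0) (_h8 : ¬ 2 ^ 3 ∣ M) (_h4 : 2 ^ 2 ∣ M)
    (_hres : W.IsResiduallyModularOfLevel 3 M),
    W.IsResiduallyModularOfLevel 3 (M / 2)

/-- **Glue.** -/
theorem loSq32_of_leaves (hOcc : OccWStatement) (hForm : Form32Statement) (hCheb : Cheb32Statement)
    (hNE : NE32Statement) (hBetti : Betti32Statement) : LoSq32Statement := by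
  intro W hΔ hW hirr M hM h8 h4 hres
  have : Fact (Nat.Prime 3) := ⟨by norm_num⟩
  obtain ⟨N, rfl⟩ : ∃ N, M = 4 * N := by
    obtain ⟨N, hN⟩ := h4
    exact ⟨N, by rw [hN]; norm_num⟩
  have hN0 : N ≠ 0 := by
    rintro rfl
    exact hM rfl
  have hNodd : ¬ 2 ∣ N := by
    rintro ⟨k, rfl⟩
    exact h8 ⟨k, by ring⟩
  have hdiv : 4 * N / 2 = 2 * N := by omega
  rw [hdiv]
  -- auxiliary primes
  obtain ⟨r, hr, hrS, hrgood, hr3, har⟩ :=
    hCheb W hΔ hW hirr ((6 * N).primeFactors ∪ {3})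
  have hr6N : ¬ r ∣ 6 * N := by
    intro h
    apply hrS
    rw [Finset.mem_union]
    exact Or.inl (Nat.mem_primeFactors.mpr ⟨hr, h, by omega⟩)
  have hr3' : r ≠ 3 := by
    rintro rfl
    simp at hr3
  obtain ⟨l₀, hl₀, hl₀S, hl₀good, hal₀⟩ :=
    hNE W hΔ hirr ((6 * N * r).primeFactors ∪ {3})
  have hl₀6 : ¬ l₀ ∣ 6 * N * r := by
    intro h
    apply hl₀S
    rw [Finset.mem_union]
    exact Or.inl (Nat.mem_primeFactors.mpr ⟨hl₀, h, by
      have := hr.pos
      positivity⟩)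
  have hl₀3 : l₀ ≠ 3 := by
    rintro rfl
    exact hl₀6 (Dvd.dvd.mul_right (Dvd.dvd.mul_right ⟨2, by norm_num⟩ N) r)
  have h1 := hOcc 3 W (4 * N) hM hres
  have h2 := hBetti N hN0 hNodd (fun ℓ => W.IsGoodPrimeFor ℓ ∧ ℓ ≠ 3) (fun ℓ => W.apOfModel ℓ)
    r l₀ hr hr6N hr3 ⟨hrgood, hr3'⟩ har hl₀ hl₀6 ⟨hl₀good, hl₀3⟩ hal₀ (fun ℓ h => h.2) h1
  exact hForm W hΔ hirr (2 * N) (by omega) ⟨N, rfl⟩ h2

end Fermat.Agent.S59.H826

end
-- ===== PACK-END S59/H826/Spec32.lean

-- ===== PACK-BEGIN S36/H803/Squeeze.lean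
section




/-!
# S36 / R3 (helper803): the THICK1 squeeze, abstract form

`B` a noetherian integrally closed domain (a chart of the model), `p₁`, `p₂` the two components
of the special fibre `w = 0` (`p₁ ⊓ p₂ = (w)`, incomparable, transversal, `B ⧸ p₂` Dedekind),
`(D, D')` a *unit pair*: `D * D' = ε * w ^ N`, `D' ∉ p₁`, `D ∉ p₂`
(for `X₀(qM)`: `D = q¹² Δ(qz)/Δ(z)`, `D' = Δ(z)/Δ(qz)`, `N = 12`).

* `ordAt_le` (local upper bound): `ord_n(D|C₂) ≤ N` at every node `n`.
* `th1_abs` (**squeeze**): if `s` is a finite set of nodes with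
  `∑_{n ∈ s} ord_n(D|C₂) = Z` (DEG0) and `N * #s ≤ Z` (COUNT = GUB + GEN), then `p₁` is locally
  principal at every `n ∈ s`: the model is regular at `n` (thickness `1`).
* `th1_abs_snd`: then `p₂` is locally principal at `n` as well.

Inputs: `H996.ordLike_le`, `H996.hgen_of_ordLike_eq` (helper996), `A2.Alg.H132.vertVal`
(helper132), `H849` Hartogs (helper849), `OrdAt.lean`.
-/

set_option autoImplicit false
set_option linter.unusedSectionVars false
set_option linter.unusedVariables false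
set_option linter.style.haveILetI false

namespace Fermat.Agent.S36.H803

open Fermat.Agent.A2.H849 Fermat.Agent.A2.Alg.H132 Fermat.Agent.S36.H996

section Abs

variable {B : Type*} [CommRing B] [IsDomain B] [IsNoetherianRing B] [IsIntegrallyClosed B]
variable {F : Type*} [Field F] [Algebra B F] [IsFractionRing B F]

/-- `w` is a uniformiser of the valuation ring of a component. -/
theorem irreducible_vert {w : B} {p q : Ideal B} (h : VertData w p q) :
    Irreducible (⟨algebraMap B F w, algebraMap_mem_vertVal h w⟩ : vertVal (F := F) h) := by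
  have hwF : algebraMap B F w ≠ 0 := algebraMap_ne_zero h.w_ne
  set V := vertVal (F := F) h with hV
  haveI hdvr : IsDiscreteValuationRing V := (isLocDVR_vertVal h).dvr
  set wV : V := ⟨algebraMap B F w, algebraMap_mem_vertVal h w⟩ with hwV
  have hwnu : ¬ IsUnit wV := by
    intro hu
    obtain ⟨u, hu⟩ := hu
    have h1 : ((u⁻¹ : Vˣ) : V) * wV = 1 := by rw [← hu]; exact Units.inv_mul u
    have h2 : (((u⁻¹ : Vˣ) : V) : F) * algebraMap B F w = 1 := congrArg Subtype.val h1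
    have h3 : (algebraMap B F w)⁻¹ = (((u⁻¹ : Vˣ) : V) : F) :=
      (eq_inv_of_mul_eq_one_left h2).symm
    exact inv_notMem_vertVal h h.w_mem h.w_ne (h3 ▸ ((u⁻¹ : Vˣ) : V).2)
  have hgen : ∀ y : V, ¬ IsUnit y → wV ∣ y := by
    intro y hy
    by_cases hy0 : y = 0
    · rw [hy0]; exact dvd_zero _
    have hyF : (y : F) ≠ 0 := fun h0 => hy0 (Subtype.ext h0)
    have hinv : (y : F)⁻¹ ∉ V := by
      intro hmem
      apply hy
      refine IsUnit.of_mul_eq_one ⟨(y : F)⁻¹, hmem⟩ ?_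
      exact Subtype.ext (mul_inv_cancel₀ hyF)
    refine ⟨⟨(y : F) * (algebraMap B F w)⁻¹, mul_inv_mem_vertVal h y.2 hinv⟩, ?_⟩
    apply Subtype.ext
    show (y : F) = algebraMap B F w * ((y : F) * (algebraMap B F w)⁻¹)
    field_simp
  rw [IsDiscreteValuationRing.irreducible_iff_uniformizer]
  apply le_antisymm
  · intro y hy
    rw [Ideal.mem_span_singleton]
    exact hgen y ((IsLocalRing.mem_maximalIdeal y).1 hy)
  · rw [Ideal.span_le, Set.singleton_subset_iff]
    exact (IsLocalRing.mem_maximalIdeal wV).2 hwnu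

variable (w : B) (p₁ p₂ : Ideal B) [hp₁ : p₁.IsPrime] [hp₂ : p₂.IsPrime]

/-- The standing hypotheses on the unit pair, bundled. -/
structure UnitPair (D D' : B) (N : ℕ) : Prop where
  w_ne : w ≠ 0
  inf_eq : p₁ ⊓ p₂ = Ideal.span {w}
  not_le₁₂ : ¬ p₁ ≤ p₂
  not_le₂₁ : ¬ p₂ ≤ p₁
  pos : 0 < N
  eq : ∃ ε : B, IsUnit ε ∧ D * D' = ε * w ^ N
  notMem₁ : D' ∉ p₁
  notMem₂ : D ∉ p₂

variable {w p₁ p₂}

theorem UnitPair.vertData {D D' : B} {N : ℕ} (h : UnitPair w p₁ p₂ D D' N) :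
    VertData w p₁ p₂ :=
  ⟨hp₁, h.w_ne, h.not_le₂₁, h.inf_eq⟩

theorem UnitPair.w_mem₁ {D D' : B} {N : ℕ} (h : UnitPair w p₁ p₂ D D' N) : w ∈ p₁ :=
  h.vertData.w_mem

theorem UnitPair.w_mem₂ {D D' : B} {N : ℕ} (h : UnitPair w p₁ p₂ D D' N) : w ∈ p₂ :=
  h.vertData.w_mem'

/-- `D` is a unit at every height-one prime other than `p₁`. -/
theorem UnitPair.notMem_of_isLocDVR {D D' : B} {N : ℕ} (h : UnitPair w p₁ p₂ D D' N)
    (O' : ValuationSubring F) (P' : Ideal B) (hO' : IsLocDVR O' P') (hne : P' ≠ p₁) :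
    D ∉ P' := by
  intro hD
  have hP' := hO'.prime
  obtain ⟨ε, hε, heq⟩ := h.eq
  have h1 : ε * w ^ N ∈ P' := by
    rw [← heq]
    exact P'.mul_mem_right _ hD
  have hεP : ε ∉ P' := fun hmem => hP'.ne_top (Ideal.eq_top_of_isUnit_mem _ hmem hε)
  have h2 : w ^ N ∈ P' := (hP'.mem_or_mem h1).resolve_left hεP
  have h3 : w ∈ P' := hP'.mem_of_pow_mem N h2
  have h4 : p₁ ⊓ p₂ ≤ P' := by
    rw [h.inf_eq, Ideal.span_le, Set.singleton_subset_iff]
    exact h3
  have hp₁0 : p₁ ≠ ⊥ := fun h0 => h.w_ne (by simpa [h0] using h.w_mem₁)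
  have hp₂0 : p₂ ≠ ⊥ := fun h0 => h.w_ne (by simpa [h0] using h.w_mem₂)
  rcases (Ideal.IsPrime.inf_le hP').1 h4 with h5 | h5
  · exact hne (hO'.height_one p₁ hp₁ hp₁0 h5).symm
  · have h6 : p₂ = P' := hO'.height_one p₂ hp₂ hp₂0 h5
    exact h.notMem₂ (h6 ▸ hD)

/-- `D = u * w ^ N` with `u` a unit of the valuation ring of `p₁`. -/
theorem UnitPair.exists_unit {D D' : B} {N : ℕ} (h : UnitPair w p₁ p₂ D D' N) :
    ∃ u : (vertVal (F := F) h.vertData)ˣ,
      algebraMap B F D = ((u : vertVal (F := F) h.vertData) : F) * (algebraMap B F w) ^ N := by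
  obtain ⟨ε, hε, heq⟩ := h.eq
  set V := vertVal (F := F) h.vertData with hV
  have hD'0 : D' ≠ 0 := fun h0 => h.notMem₁ (h0 ▸ p₁.zero_mem)
  have hD'F : algebraMap B F D' ≠ 0 := algebraMap_ne_zero hD'0
  obtain ⟨ε', hε'⟩ := hε.exists_right_inv
  have hεF : algebraMap B F ε * algebraMap B F ε' = 1 := by
    rw [← map_mul, hε', map_one]
  have hεF0 : algebraMap B F ε ≠ 0 := left_ne_zero_of_mul_eq_one hεF
  -- the unit `u = ε / D'`
  let a : V := ⟨algebraMap B F ε * (algebraMap B F D')⁻¹,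
    V.mul_mem _ _ (algebraMap_mem_vertVal h.vertData ε) (inv_mem_vertVal h.vertData h.notMem₁)⟩
  let b : V := ⟨algebraMap B F ε' * algebraMap B F D',
    V.mul_mem _ _ (algebraMap_mem_vertVal h.vertData ε') (algebraMap_mem_vertVal h.vertData D')⟩
  have hab : a * b = 1 := by
    apply Subtype.ext
    show algebraMap B F ε * (algebraMap B F D')⁻¹ * (algebraMap B F ε' * algebraMap B F D') = 1
    calc algebraMap B F ε * (algebraMap B F D')⁻¹ * (algebraMap B F ε' * algebraMap B F D')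
        = (algebraMap B F ε * algebraMap B F ε') *
            ((algebraMap B F D')⁻¹ * algebraMap B F D') := by ring
      _ = 1 := by rw [hεF, inv_mul_cancel₀ hD'F, one_mul]
  have hba : b * a = 1 := by rw [mul_comm]; exact hab
  refine ⟨⟨a, b, hab, hba⟩, ?_⟩
  show algebraMap B F D = algebraMap B F ε * (algebraMap B F D')⁻¹ * (algebraMap B F w) ^ N
  have e : algebraMap B F D * algebraMap B F D' = algebraMap B F ε * (algebraMap B F w) ^ N := by
    rw [← map_mul, heq, map_mul, map_pow]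
  field_simp
  exact e

variable [IsDedekindDomain (B ⧸ p₂)]

/-- **Local upper bound** at a node: `ord_n(D|C₂) ≤ N`. -/
theorem UnitPair.ordAt_le (F : Type*) [Field F] [Algebra B F] [IsFractionRing B F]
    {D D' : B} {N : ℕ} (h : UnitPair w p₁ p₂ D D' N)
    (hrad : (p₁ ⊔ p₂).IsRadical)
    (n : Ideal B) [hn : n.IsMaximal] (h₁ : p₁ ≤ n) (h₂ : p₂ ≤ n) :
    ordAt p₂ n D ≤ N := by
  have hne : ∃ a ∈ n, a ∉ p₂ := by
    obtain ⟨a, ha, ha'⟩ := Set.not_subset.1 h.not_le₁₂
    exact ⟨a, h₁ ha, ha'⟩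
  obtain ⟨x, hx₁, hx⟩ := exists_mem_ordAt_eq_one p₂ n h₂ p₁ h₁ h.not_le₁₂ hrad
  have hx0 : x ≠ 0 := by
    rintro rfl
    have : ordAt p₂ n (0 : B) = ⊤ := (ordAt_eq_top_iff p₂ n h₂ hne 0).2 p₂.zero_mem
    rw [this] at hx
    exact ENat.top_ne_one hx
  obtain ⟨u, hu⟩ := h.exists_unit (F := F)
  have key := ordLike_le (B := B) (F := F) n (vertVal (F := F) h.vertData) p₁
    (isLocDVR_vertVal h.vertData) h₁ D x N
    (fun O' P' hO' _ hne' => h.notMem_of_isLocDVR O' P' hO' hne')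
    ⟨algebraMap B F w, algebraMap_mem_vertVal h.vertData w⟩ (irreducible_vert h.vertData) u hu
    hx₁ hx0 (ordAt p₂ n) (ordAt_mul p₂ n h₂ hne)
    (fun a ha => ordAt_eq_zero_of_notMem p₂ n h₂ ha)
  rw [hx, mul_one] at key
  exact key

/-- **The THICK1 squeeze.**  DEG0 + COUNT ⟹ `p₁` is locally principal at every node of `s`. -/
theorem UnitPair.th1_abs (F : Type*) [Field F] [Algebra B F] [IsFractionRing B F]
    {D D' : B} {N : ℕ} (h : UnitPair w p₁ p₂ D D' N)
    (hrad : (p₁ ⊔ p₂).IsRadical)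
    (s : Finset (Ideal B)) (hs : ∀ n ∈ s, n.IsMaximal ∧ p₁ ≤ n ∧ p₂ ≤ n)
    (Z : ℕ) (hdeg : ∑ n ∈ s, ordAt p₂ n D = Z) (hcount : N * s.card ≤ Z) :
    ∀ n ∈ s, ∃ x ∈ p₁, ∀ a ∈ p₁, ∃ g : B, g ∉ n ∧ ∃ c : B, g * a = x * c := by
  classical
  -- every term is `≤ N`
  have hle : ∀ n ∈ s, ordAt p₂ n D ≤ N := by
    intro n hn
    obtain ⟨hmax, h₁, h₂⟩ := hs n hn
    haveI := hmax
    exact h.ordAt_le F hrad n h₁ h₂
  -- pass to natural numbers
  have hnat : ∀ n ∈ s, ((ordAt p₂ n D).toNat : ℕ∞) = ordAt p₂ n D := by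
    intro n hn
    exact ENat.natCast_toNat (ne_top_of_le_ne_top (ENat.natCast_ne_top N) (hle n hn))
  have hsum : ∑ n ∈ s, (ordAt p₂ n D).toNat = Z := by
    have h1 : ((∑ n ∈ s, (ordAt p₂ n D).toNat : ℕ) : ℕ∞) = (Z : ℕ∞) := by
      rw [Nat.cast_sum, ← hdeg]
      exact Finset.sum_congr rfl hnat
    exact_mod_cast h1
  have hle' : ∀ n ∈ s, (ordAt p₂ n D).toNat ≤ N := by
    intro n hn
    have := hle n hn
    rw [← hnat n hn] at this
    exact_mod_cast this
  -- all terms are equal to `N`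
  have heq : ∀ n ∈ s, (ordAt p₂ n D).toNat = N := by
    by_contra hcon
    push Not at hcon
    obtain ⟨n₀, hn₀, hne₀⟩ := hcon
    have hlt : ∑ n ∈ s, (ordAt p₂ n D).toNat < ∑ _n ∈ s, N :=
      Finset.sum_lt_sum hle' ⟨n₀, hn₀, lt_of_le_of_ne (hle' n₀ hn₀) hne₀⟩
    rw [Finset.sum_const, smul_eq_mul, hsum, mul_comm] at hlt
    omega
  intro n hn
  obtain ⟨hmax, h₁, h₂⟩ := hs n hn
  haveI := hmax
  have hne : ∃ a ∈ n, a ∉ p₂ := by
    obtain ⟨a, ha, ha'⟩ := Set.not_subset.1 h.not_le₁₂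
    exact ⟨a, h₁ ha, ha'⟩
  obtain ⟨x, hx₁, hx⟩ := exists_mem_ordAt_eq_one p₂ n h₂ p₁ h₁ h.not_le₁₂ hrad
  have hx0 : x ≠ 0 := by
    rintro rfl
    have : ordAt p₂ n (0 : B) = ⊤ := (ordAt_eq_top_iff p₂ n h₂ hne 0).2 p₂.zero_mem
    rw [this] at hx
    exact ENat.top_ne_one hx
  obtain ⟨u, hu⟩ := h.exists_unit (F := F)
  have hνD : ordAt p₂ n D = (N : ℕ∞) := by
    rw [← hnat n hn, heq n hn]
  refine ⟨x, hx₁, ?_⟩
  exact hgen_of_ordLike_eq (B := B) (F := F) n (vertVal (F := F) h.vertData) p₁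
    (isLocDVR_vertVal h.vertData) h₁ D x N h.pos
    (fun O' P' hO' _ hne' => h.notMem_of_isLocDVR O' P' hO' hne')
    ⟨algebraMap B F w, algebraMap_mem_vertVal h.vertData w⟩ (irreducible_vert h.vertData) u hu
    hx₁ hx0 (ordAt p₂ n) (ordAt_mul p₂ n h₂ hne)
    (fun a ha => ordAt_eq_zero_of_notMem p₂ n h₂ ha)
    (fun a ha => one_le_ordAt_of_mem p₂ n h₂ ha)
    N h.pos hνD (by rw [hx, mul_one])

omit [IsNoetherianRing B] [IsIntegrallyClosed B] [IsDedekindDomain (B ⧸ p₂)] in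
/-- If `p₁` is locally generated by `x` at `n`, then `p₂` is locally generated by the
complementary factor of `w`. -/
theorem snd_of_fst (hinf : p₁ ⊓ p₂ = Ideal.span {w}) (h12 : ¬ p₁ ≤ p₂)
    (n : Ideal B) [hn : n.IsPrime] (h₂ : p₂ ≤ n) (x : B) (hx₁ : x ∈ p₁)
    (hgen : ∀ a ∈ p₁, ∃ g : B, g ∉ n ∧ ∃ c : B, g * a = x * c) :
    ∃ y ∈ p₂, (∃ g : B, g ∉ n ∧ g * w = x * y) ∧
      ∀ b ∈ p₂, ∃ g : B, g ∉ n ∧ ∃ c : B, g * b = y * c := by
  have hw₁ : w ∈ p₁ := (inf_le_left : p₁ ⊓ p₂ ≤ p₁) (hinf ▸ Ideal.mem_span_singleton_self w)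
  have hw₂ : w ∈ p₂ := (inf_le_right : p₁ ⊓ p₂ ≤ p₂) (hinf ▸ Ideal.mem_span_singleton_self w)
  -- `x ∉ p₂`
  have hx₂ : x ∉ p₂ := by
    intro hx₂
    apply h12
    intro a ha
    obtain ⟨g, hg, c, hc⟩ := hgen a ha
    have h1 : g * a ∈ p₂ := by rw [hc]; exact p₂.mul_mem_right _ hx₂
    exact (hp₂.mem_or_mem h1).resolve_left (fun hmem => hg (h₂ hmem))
  have hx0 : x ≠ 0 := fun h0 => hx₂ (h0 ▸ p₂.zero_mem)
  obtain ⟨g, hg, y, hy⟩ := hgen w hw₁
  have hy₂ : y ∈ p₂ := by
    have h1 : x * y ∈ p₂ := by rw [← hy]; exact p₂.mul_mem_left _ hw₂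
    exact (hp₂.mem_or_mem h1).resolve_left hx₂
  refine ⟨y, hy₂, ⟨g, hg, hy⟩, fun b hb => ?_⟩
  have h1 : x * b ∈ p₁ ⊓ p₂ := ⟨p₁.mul_mem_right _ hx₁, p₂.mul_mem_left _ hb⟩
  rw [hinf, Ideal.mem_span_singleton] at h1
  obtain ⟨t, ht⟩ := h1
  refine ⟨g, hg, t, ?_⟩
  apply mul_left_cancel₀ hx0
  calc x * (g * b) = g * (x * b) := by ring
    _ = g * (w * t) := by rw [ht]
    _ = (g * w) * t := by ring
    _ = (x * y) * t := by rw [hy]
    _ = x * (y * t) := by ring

end Abs

end Fermat.Agent.S36.H803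

end
-- ===== PACK-END S36/H803/Squeeze.lean

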