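import Mathlib
import Fermat.Agent.Pack.S59C.E4L1
import Fermat.Agent.Pack.S59C.E4L2
import Fermat.Agent.Pack.S59C.E2L2
import Fermat.Agent.Pack.S59C.E4L0
import Fermat.Agent.Pack.S59C.E2L0
import Fermat.Agent.Pack.S44C.G0E6L0
import Fermat.Agent.Pack.S59C.E2L3
import Fermat.Agent.Pack.S43GC.G0E13L1
import Fermat.Agent.Pack.S43MC.G0E3L0
import Fermat.Agent.Pack.S43GC.G0E13L2
import Fermat.Agent.Pack.S43GC.G0E14L1
import Fermat.Agent.Pack.S43GC.G0E10L0
import Fermat.Agent.Pack.S43GC.G0E8L0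
import Fermat.Agent.Pack.S59C.E3L2
import Fermat.Agent.Pack.S43GC.G0E1L1
import Fermat.Agent.Pack.S59C.E4L3
import Fermat.Agent.Pack.S44C.G0E19L3
import Fermat.Agent.Pack.S44C.G0E14L2
import Fermat.Agent.Pack.S59C.E2L1
import Fermat.Agent.Pack.S59C.E0L2
import Fermat.Agent.Pack.S43GC.G0E5L0
import Fermat.Agent.Pack.S43MC.G0E12L2

set_option linter.all false

-- ===== PACK-BEGIN S59/Arch/Glue5.lean
section



/-!
# Row S59 — main glue, v5: the `Plus` invariant (architect helper239)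

Targets of the cells: `Arch/SpecPlus.lean`.  All PROVED here:
* `rtIsoPlus_union` : the induction over the non-minimal primes;
* `rtAll_of_plus`   : `MinRTPlusH → NonMinStepPlusH → NonMinPPlusH → RTAllStatement`;
* `mlt2_of_plus`    : THE glue of the `R = T` layer (with `Glue4.mlt2_of_rtAll`).
-/

set_option autoImplicit false

open Polynomial IsLocalRing
open scoped WeierstrassCurve.Affine

namespace Fermat.Agent.S59.Arch

open Fermat.Agent.S59.NM

section Induction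

variable (p : ℕ) [Fact p.Prime]
  (𝒪 : Type) [CommRing 𝒪] [IsDomain 𝒪] [IsDiscreteValuationRing 𝒪]
  [IsAdicComplete (maximalIdeal 𝒪) 𝒪] [Finite (ResidueField 𝒪)] [CharZero 𝒪]
  (ρbar : ResidualGaloisRep (ResidueField 𝒪))

/-- The induction over the non-minimal primes, `Plus` form. -/
theorem rtIsoPlus_union (hNM : NonMinStepPlusHStatement) (Smin : Finset ℕ)
    (h : ResidualHyp p 𝒪 ρbar Smin) (hc : CurveCase p ρbar) (t : PType)
    (ht : (t = .flat ∧ (GaloisRepAdic.ofResidualGaloisRep ρbar).IsFlatAt p) ∨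
      (t = .sord ∧ (GaloisRepAdic.ofResidualGaloisRep ρbar).IsStrictOrdinaryAt p ∧
        ¬ (GaloisRepAdic.ofResidualGaloisRep ρbar).IsFlatAt p))
    (hN : NeZero (wilesLevel p t Smin Smin))
    (χ : CuspForm.heckeAlgebra (wilesLevel p t Smin Smin) 2 (↑Smin : Set ℕ) →+* 𝒪)
    (hχ : G4.ResFrobCond ρbar ((residue 𝒪).comp χ))
    (hmin : RTIsoPlus p 𝒪 ρbar t Smin Smin (eig χ))
    (E : Finset ℕ) (hE : ∀ q ∈ E, q.Prime) :
    RTIsoPlus p 𝒪 ρbar t Smin (Smin ∪ E) (eig χ) := by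
  classical
  induction E using Finset.induction_on with
  | empty => simpa using hmin
  | insert q E hqE ih =>
    have hE' : ∀ q ∈ E, q.Prime := fun r hr => hE r (Finset.mem_insert_of_mem hr)
    have ih' := ih hE'
    by_cases hq : q ∈ Smin ∪ E
    · have : Smin ∪ insert q E = Smin ∪ E := by
        ext r
        simp only [Finset.mem_union, Finset.mem_insert]
        constructor
        · rintro (h1 | rfl | h1)
          · exact Or.inl h1
          · exact Finset.mem_union.mp hq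
          · exact Or.inr h1
        · rintro (h1 | h1)
          · exact Or.inl h1
          · exact Or.inr (Or.inr h1)
      rw [this]
      exact ih'
    · have : Smin ∪ insert q E = insert q (Smin ∪ E) := by
        ext r
        simp only [Finset.mem_union, Finset.mem_insert]
        tauto
      rw [this]
      refine hNM p 𝒪 ρbar Smin h hc t ht hN χ hχ (Smin ∪ E) Finset.subset_union_left ?_ q
        (hE q (Finset.mem_insert_self q E)) hq ih'
      intro r hr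
      rcases Finset.mem_union.mp hr with h1 | h1
      · exact h.hSmin r h1
      · exact hE' r h1

end Induction

/-- The three cells TW, NM, NMP in `Plus` form give all the `R_Σ ≅ T_Σ`. -/
theorem rtAll_of_plus (hMin : MinRTPlusHStatement) (hNM : NonMinStepPlusHStatement)
    (hNMP : NonMinPPlusHStatement) : RTAllStatement := by
  intro p _ 𝒪 _ _ _ _ _ _ ρbar Smin h hc t ht hN χ hχ E hE
  have hmin := hMin p 𝒪 ρbar Smin h hc t ht hN χ hχ
  have hU := rtIsoPlus_union p 𝒪 ρbar hNM Smin h hc t ht hN χ hχ hmin E hE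
  refine ⟨hU.rtIso, ?_⟩
  intro htf hord
  subst htf
  have hflat : (GaloisRepAdic.ofResidualGaloisRep ρbar).IsFlatAt p := by
    rcases ht with ⟨-, hf⟩ | ⟨h1, -⟩
    · exact hf
    · exact absurd h1 (by simp)
  refine hNMP p 𝒪 ρbar Smin h hc hN χ hχ (Smin ∪ E) Finset.subset_union_left ?_ hflat hord hU
  intro r hr
  rcases Finset.mem_union.mp hr with h1 | h1
  · exact h.hSmin r h1
  · exact hE r h1

/-- **THE GLUE of the `R = T` layer** (`Plus` form, board v5). -/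
theorem mlt2_of_plus (hC : CoeffStatement) (hCR : CurveRepStatement)
    (h53 : S53Statement) (h54 : S54Statement)
    (hRED : ResidualOfAdicStatement) (hID : ResidualIdStatement)
    (hLO : LevelOptStatement) (hDICT : DictStatement) (hGTW : CurveResidualHypStatement)
    (hBC : ResidualBCStatement) (hCOND : SigmaCondStatement)
    (hMin : MinRTPlusHStatement) (hNM : NonMinStepPlusHStatement)
    (hNMP : NonMinPPlusHStatement) :
    SemistableMLT2Statement :=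
  mlt2_of_rtAll hC hCR h53 h54 hRED hID hLO hDICT hGTW hBC hCOND (rtAll_of_plus hMin hNM hNMP)

end Fermat.Agent.S59.Arch

end
-- ===== PACK-END S59/Arch/Glue5.lean

-- ===== PACK-BEGIN S41/H161/IK/IK.lean
section




/-!
# S41 / block IK (helper161): END

* `ik : IKStatement` — Ihara's lemma in Eisenstein form, without amalgam and without CSP;
* `swapStatement : SwapStatement`;
* `kum : KumStatement` (in `Kum.lean`).

Mathematics: `coord/S41-IK.md`.
-/

set_option autoImplicit false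

namespace Fermat.Agent.S41.H161

open CongruenceSubgroup Matrix.SpecialLinearGroup
open Fermat.Agent.S29.H642 Fermat.Agent.S41.Spec Fermat.Agent.S41.H281
open scoped MatrixGroups

universe u

theorem swapStatement : SwapStatement.{u} := by
  intro N q hq hqN A _ φ₁ φ₂ hker
  exact swap hq hqN hker

/-- A nonzero character of `Γ₀(N)` is nonzero on some `γ₀` whose lower-left entry is prime to `q`. -/
theorem exists_ne_zero_not_dvd {N q : ℕ} (hq : q.Prime) (hqN : ¬ q ∣ N) {A : Type*}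
    [AddCommGroup A] (φ : Additive (Gamma0 N) →+ A) (hφ : φ ≠ 0) :
    ∃ γ₀ : Gamma0 N, φ (Additive.ofMul γ₀) ≠ 0 ∧ ¬ (q : ℤ) ∣ (γ₀ : SL(2, ℤ)) 1 0 := by
  have hqN' : ¬ (q : ℤ) ∣ (N : ℤ) := by
    intro h; exact hqN (by exact_mod_cast h)
  obtain ⟨γ', hγ'⟩ : ∃ γ', φ γ' ≠ 0 := by
    by_contra h
    push_neg at h
    exact hφ (AddMonoidHom.ext h)
  obtain ⟨γ, rfl⟩ : ∃ γ : Gamma0 N, Additive.ofMul γ = γ' := ⟨Additive.toMul γ', rfl⟩
  by_cases hc : (q : ℤ) ∣ (γ : SL(2, ℤ)) 1 0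
  · -- use `E = [[1, 0], [N, 1]]`
    let E : Gamma0 N := mk0 N 1 0 N 1 (by ring) (dvd_refl _)
    by_cases hE : φ (Additive.ofMul E) = 0
    · refine ⟨γ * E, ?_, ?_⟩
      · rw [ofMul_mul, map_add, hE, add_zero]; exact hγ'
      · rw [mul_10]
        simp only [E, mk0_00, mk0_10, mul_one]
        intro h
        have h1 : (q : ℤ) ∣ (γ : SL(2, ℤ)) 1 1 * N := (dvd_add_right hc).mp h
        rcases (Nat.prime_iff_prime_int.mp hq).dvd_mul.mp h1 with h2 | h2
        · -- q ∣ c and q ∣ d contradicts coprimality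
          have hcop := isCoprime_row γ
          have h3 : IsUnit (q : ℤ) := hcop.isUnit_of_dvd' hc h2
          exact (Nat.prime_iff_prime_int.mp hq).not_unit h3
        · exact hqN' h2
    · exact ⟨E, hE, by simpa [E] using hqN'⟩
  · exact ⟨γ, hγ', hc⟩

theorem ik : IKStatement.{u} := by
  intro N q p hqF hpF hp2 hqN _ A _ hA φ₁ φ₂ hker hU hne
  have hq : q.Prime := Fact.out
  have hp : p.Prime := Fact.out
  obtain ⟨γ₀, h1, h2⟩ := exists_ne_zero_not_dvd hq hqN φ₁ hne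
  refine ⟨γ₀, h1, ?_, h2, ?_⟩
  · intro h0
    apply h2
    rw [h0]
    exact dvd_zero _
  · intro l _ hl hlq hl1 hk
    exact ik_apply hq hqN hp hp2 hA hker hU γ₀ h2 l hl hlq hl1 hk

end Fermat.Agent.S41.H161

end
-- ===== PACK-END S41/H161/IK/IK.lean

-- ===== PACK-BEGIN Lib/Frob23/Three.lean
section




/-!
# The Hasse-Weil Frobenius relation over `𝔽_3` (helper472; generated by `gen_small.py`)

For every Weierstrass curve `E` over `ZMod 3` with `Δ ≠ 0` (long Weierstrass form) and every field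
`k ⊇ 𝔽_3`:  `Φ² - a Φ + 3 = 0` on `E(k)`, `a = 3 + 1 - #E(𝔽_3)`  (`frobRelationFin_three`).

Manin data: `s = linP W ^ 2 + cubP W + 1`, `t = linP W - linP W * cubP W` (`L = a₁ X + a₃`, `g = X³ + a₂ X² + a₄ X + a₆`).
-/

set_option autoImplicit false
set_option linter.unusedSectionVars false
set_option linter.unusedVariables false
set_option linter.unusedSimpArgs false

open WeierstrassCurve Polynomial
open scoped Polynomial.Bivariate WeierstrassCurve.Affine

namespace Fermat.Agent.Lib.Frob23.Three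

open Fermat.Agent.Lib.FrobRel Fermat.Agent.S52 Fermat.Agent.Lib.Frob23

variable (W : WeierstrassCurve (ZMod 3))

/-- the Manin datum `s` -/
noncomputable def sP : (ZMod 3)[X] := linP W ^ 2 + cubP W + 1

/-- the Manin datum `t` -/
noncomputable def tP : (ZMod 3)[X] := linP W - linP W * cubP W

/-- the expanded numerator of Manin's function -/
noncomputable def nExp : (ZMod 3)[X] := X ^ 7 + 2 * X ^ 6 + X ^ 5 + X ^ 5 * C W.a₂ + X ^ 5 * C W.a₁ ^ 2 + X ^ 4 * C W.a₄ + 2 * X ^ 4 * C W.a₂ + 2 * X ^ 4 * C W.a₂ ^ 2 + 2 * X ^ 4 * C W.a₁ * C W.a₃ + X ^ 4 * C W.a₁ ^ 2 + X ^ 4 * C W.a₁ ^ 2 * C W.a₂ + X ^ 3 * C W.a₆ + X ^ 3 * C W.a₄ + X ^ 3 * C W.a₃ ^ 2 + X ^ 3 * C W.a₂ * C W.a₄ + X ^ 3 * C W.a₁ * C W.a₃ + 2 * X ^ 3 * C W.a₁ * C W.a₂ * C W.a₃ + X ^ 3 * C W.a₁ ^ 2 * C W.a₄ + 2 * X ^ 2 * C W.a₄ ^ 2 + X ^ 2 * C W.a₂ * C W.a₆ + X ^ 2 * C W.a₂ * C W.a₃ ^ 2 + 2 * X ^ 2 * C W.a₁ * C W.a₃ * C W.a₄ + X ^ 2 * C W.a₁ ^ 2 * C W.a₆ + X *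 C W.a₄ + X * C W.a₄ * C W.a₆ + X * C W.a₃ ^ 2 * C W.a₄ + X * C W.a₁ * C W.a₃ + 2 * X * C W.a₁ * C W.a₃ * C W.a₆ + 2 * C W.a₆ + 2 * C W.a₆ ^ 2 + C W.a₃ ^ 2 + C W.a₃ ^ 2 * C W.a₆

/-- the lower part of the expanded numerator -/
noncomputable def nLow : (ZMod 3)[X] := 2 * X ^ 6 + X ^ 5 + X ^ 5 * C W.a₂ + X ^ 5 * C W.a₁ ^ 2 + X ^ 4 * C W.a₄ + 2 * X ^ 4 * C W.a₂ + 2 * X ^ 4 * C W.a₂ ^ 2 + 2 * X ^ 4 * C W.a₁ * C W.a₃ + X ^ 4 * C W.a₁ ^ 2 + X ^ 4 * C W.a₁ ^ 2 * C W.a₂ + X ^ 3 * C W.a₆ + X ^ 3 * C W.a₄ + X ^ 3 * C W.a₃ ^ 2 + X ^ 3 * C W.a₂ * C W.a₄ + X ^ 3 * C W.a₁ * C W.a₃ + 2 * X ^ 3 * C W.a₁ * C W.a₂ * C W.a₃ + X ^ 3 * C W.a₁ ^ 2 * C W.a₄ + 2 * X ^ 2 * C W.a₄ ^ 2 + X ^ 2 * C W.a₂ * C W.a₆ + X ^ 2 * C W.a₂ * C W.a₃ ^ 2 + 2 * X ^ 2 * C W.a₁ * C W.a₃ * C W.a₄ + X ^ 2 * C W.a₁ ^ 2 * C W.a₆ + X * C W.a₄ + X * C W.a₄ * C W.a₆ + X * C W.a₃ ^ 2 * C W.a₄ + X * C W.a₁ * C W.a₃ + 2 * X * C W.a₁ * C W.a₃ * C W.a₆ + 2 * C W.a₆ + 2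 * C W.a₆ ^ 2 + C W.a₃ ^ 2 + C W.a₃ ^ 2 * C W.a₆

lemma char_poly : ((3 : ℕ) : (ZMod 3)[X]) = 0 := CharP.cast_eq_zero _ _

lemma C_pow_card (a : ZMod 3) : (C a : (ZMod 3)[X]) ^ 3 = C a := by
  rw [← C_pow, ZMod.pow_card]

theorem isManinData [DecidableEq (KK W)] : IsManinData W (sP W) (tP W) where
  pow_eq := by
    intro U V h
    have hE := (Affine.equation_iff _ _).mp h
    rw [ZMod.card]
    simp only [sP, tP, linP, cubP, map_add, map_sub, map_mul, map_pow, map_one, aeval_X, aeval_C]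
    rw [← bc_a₁ W (KK W), ← bc_a₂ W (KK W), ← bc_a₃ W (KK W), ← bc_a₄ W (KK W),
      ← bc_a₆ W (KK W)]
    linear_combination (V - ((W⁄(KK W)).a₁ * U + (W⁄(KK W)).a₃)) * hE
  trace_eq := by
    have hl : ((3 : ℕ) : (ZMod 3)[X]) = 0 := char_poly
    have hA1 := C_pow_card W.a₁
    have hA2 := C_pow_card W.a₂
    have hA3 := C_pow_card W.a₃
    have hA4 := C_pow_card W.a₄
    have hA6 := C_pow_card W.a₆
    rw [ZMod.card]
    simp only [sP, tP, linP, cubP]
    push_cast at hl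
    linear_combination (exp := 1) (-X ^ 4 * C W.a₁ - X ^ 3 * C W.a₃ - X ^ 3 * C W.a₁ * C W.a₂ - X ^ 2 * C W.a₂ * C W.a₃ - X ^ 2 * C W.a₁ * C W.a₄ - X ^ 2 * C W.a₁ ^ 2 * C W.a₃ - X * C W.a₃ * C W.a₄ - X * C W.a₁ * C W.a₆ - X * C W.a₁ * C W.a₃ ^ 2 - C W.a₃ * C W.a₆) * hl + (-X ^ 3) * hA1 + (-1) * hA3

theorem maninN_eq : maninN W (sP W) (tP W) = nExp W := by
  have hl : ((3 : ℕ) : (ZMod 3)[X]) = 0 := char_poly
  have hA1 := C_pow_card W.a₁
  have hA2 := C_pow_card W.a₂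
  have hA3 := C_pow_card W.a₃
  have hA4 := C_pow_card W.a₄
  have hA6 := C_pow_card W.a₆
  rw [maninN, ZMod.card]
  simp only [sP, tP, linP, cubP, nExp]
  push_cast at hl
  linear_combination (exp := 1) (X ^ 8 * C W.a₂ + X ^ 7 * C W.a₄ + X ^ 7 * C W.a₂ ^ 2 + X ^ 6 * C W.a₆ + 2 * X ^ 6 * C W.a₂ * C W.a₄ + X ^ 5 * C W.a₄ ^ 2 + X ^ 5 * C W.a₂ + 2 * X ^ 5 * C W.a₂ * C W.a₆ + X ^ 5 * C W.a₂ ^ 2 * C W.a₄ + X ^ 5 * C W.a₁ ^ 2 + X ^ 4 * C W.a₄ + 2 * X ^ 4 * C W.a₄ * C W.a₆ + X ^ 4 * C W.a₂ * C W.a₄ ^ 2 + X ^ 4 * C W.a₂ ^ 2 * C W.a₆ + 2 * X ^ 4 * C W.a₁ * C W.a₃ + X ^ 4 * C W.a₁ ^ 2 * C W.a₂ + X ^ 3 * C W.a₆ + X ^ 3 * C W.a₆ ^ 2 + X ^ 3 * C W.a₃ ^ 2 + X ^ 3 * C W.a₂ * C W.a₄ + 2 * X ^ 3 * C W.a₂ * C W.a₄ * C W.a₆ + X ^ 3 * C W.a₁ * C W.a₃ + 2 * X ^ 3 * C W.a₁ * C W.a₂ * C W.a₃ + X ^ 3 * C W.a₁ ^ 2 * C W.a₄ + X ^ 2 * C W.a₄ ^ 2 * C W.a₆ + X ^ 2 * C W.a₂ * C W.a₆ + X ^ 2 * C W.a₂ * C W.a₆ ^ 2 + X ^ 2 * C W.a₂ * C W.a₃ ^ 2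 + 2 * X ^ 2 * C W.a₁ * C W.a₃ * C W.a₄ + X ^ 2 * C W.a₁ ^ 2 * C W.a₆ + 2 * X ^ 2 * C W.a₁ ^ 2 * C W.a₃ ^ 2 + X * C W.a₄ * C W.a₆ + X * C W.a₄ * C W.a₆ ^ 2 + X * C W.a₃ ^ 2 * C W.a₄ + X * C W.a₁ * C W.a₃ + 2 * X * C W.a₁ * C W.a₃ * C W.a₆ + C W.a₃ ^ 2 * C W.a₆) * hl + (X ^ 4 * C W.a₁ + 4 * X ^ 3 * C W.a₃) * hA1 + (X ^ 6) * hA2 + (4 * X * C W.a₁ + C W.a₃) * hA3 + (X ^ 3) * hA4 + (1) * hA6

theorem nExp_eq : nExp W = X ^ 7 + nLow W := by
  simp only [nExp, nLow]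
  ring

theorem natDegree_nLow : (nLow W).natDegree < 7 := by
  have : (nLow W).natDegree ≤ 6 := by
    unfold nLow
    compute_degree
  omega

theorem natDegree_maninN : (maninN W (sP W) (tP W)).natDegree = 2 * 3 + 1 := by
  rw [maninN_eq, nExp_eq, natDegree_add_eq_left_of_natDegree_lt (by
    rw [natDegree_X_pow]; exact natDegree_nLow W), natDegree_X_pow]

/-- value of the numerator at `c` -/
def nVal (a₁ a₂ a₃ a₄ a₆ c : ZMod 3) : ZMod 3 := c ^ 7 + 2 * c ^ 6 + c ^ 5 + c ^ 5 * a₂ + c ^ 5 * a₁ ^ 2 + c ^ 4 * a₄ + 2 * c ^ 4 * a₂ + 2 * c ^ 4 * a₂ ^ 2 + 2 * c ^ 4 * a₁ * a₃ + c ^ 4 * a₁ ^ 2 + c ^ 4 * a₁ ^ 2 * a₂ + c ^ 3 * a₆ + c ^ 3 * a₄ + c ^ 3 * a₃ ^ 2 + c ^ 3 * a₂ * a₄ + c ^ 3 * a₁ * a₃ + 2 * c ^ 3 * a₁ * a₂ * a₃ + c ^ 3 * a₁ ^ 2 * a₄ + 2 * c ^ 2 * a₄ ^ 2 + c ^ 2 * a₂ * a₆ + c ^ 2 * a₂ * a₃ ^ 2 + 2 * c ^ 2 * a₁ * a₃ * a₄ + c ^ 2 * a₁ ^ 2 * a₆ + c * a₄ + c * a₄ * a₆ + c * a₃ ^ 2 * a₄ + c * a₁ * a₃ + 2 * c * a₁ * a₃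 * a₆ + 2 * a₆ + 2 * a₆ ^ 2 + a₃ ^ 2 + a₃ ^ 2 * a₆

/-- value of the derivative of the numerator at `c` -/
def ndVal (a₁ a₂ a₃ a₄ a₆ c : ZMod 3) : ZMod 3 := 7 * c ^ 6 + 12 * c ^ 5 + 5 * c ^ 4 + 5 * c ^ 4 * a₂ + 5 * c ^ 4 * a₁ ^ 2 + 4 * c ^ 3 * a₄ + 8 * c ^ 3 * a₂ + 8 * c ^ 3 * a₂ ^ 2 + 8 * c ^ 3 * a₁ * a₃ + 4 * c ^ 3 * a₁ ^ 2 + 4 * c ^ 3 * a₁ ^ 2 * a₂ + 3 * c ^ 2 * a₆ + 3 * c ^ 2 * a₄ + 3 * c ^ 2 * a₃ ^ 2 + 3 * c ^ 2 * a₂ * a₄ + 3 * c ^ 2 * a₁ * a₃ + 6 * c ^ 2 * a₁ * a₂ * a₃ + 3 * c ^ 2 * a₁ ^ 2 * a₄ + 4 * c * a₄ ^ 2 + 2 * c * a₂ * a₆ + 2 * c * a₂ * a₃ ^ 2 + 4 * c * a₁ * a₃ * a₄ + 2 * c * a₁ ^ 2 * a₆ + a₄ + a₄ * a₆ + a₃ ^ 2 * a₄ + a₁ * a₃ + 2 * a₁ * a₃ * a₆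

/-- number of points above `c` -/
def nPts (a₁ a₂ a₃ a₄ a₆ c : ZMod 3) : ℕ :=
  (Finset.univ.filter fun y : ZMod 3 =>
    y ^ 2 + a₁ * c * y + a₃ * y = c ^ 3 + a₂ * c ^ 2 + a₄ * c + a₆).card

theorem eval_maninN (c : ZMod 3) :
    (maninN W (sP W) (tP W)).eval c = nVal W.a₁ W.a₂ W.a₃ W.a₄ W.a₆ c := by
  rw [maninN_eq, nExp, nVal]
  simp only [eval_add, eval_mul, eval_pow, eval_X, eval_C, eval_ofNat]
  try ring

theorem eval_derivative_maninN (c : ZMod 3) :
    (derivative (maninN W (sP W) (tP W))).eval c = ndVal W.a₁ W.a₂ W.a₃ W.a₄ W.a₆ c := by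
  rw [maninN_eq, nExp, ndVal]
  simp only [derivative_add, derivative_mul, derivative_X_pow, derivative_X, derivative_C,
    derivative_ofNat, eval_add, eval_mul, eval_pow, eval_X, eval_C, eval_ofNat, eval_natCast,
    eval_zero, eval_one, derivative_pow]
  try simp
  try ring

/-- the finite check: local behaviour of the numerator at the points of `𝔽_3` -/
theorem local_check : ∀ a₁ a₂ a₃ a₄ a₆ c : ZMod 3,
    (⟨a₁, a₂, a₃, a₄, a₆⟩ : WeierstrassCurve (ZMod 3)).Δ ≠ 0 →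
      nPts a₁ a₂ a₃ a₄ a₆ c ≤ 2 ∧
      (nPts a₁ a₂ a₃ a₄ a₆ c = 2 → nVal a₁ a₂ a₃ a₄ a₆ c ≠ 0) ∧
      (nPts a₁ a₂ a₃ a₄ a₆ c = 1 →
        nVal a₁ a₂ a₃ a₄ a₆ c = 0 ∧ ndVal a₁ a₂ a₃ a₄ a₆ c ≠ 0) ∧
      (nPts a₁ a₂ a₃ a₄ a₆ c = 0 →
        nVal a₁ a₂ a₃ a₄ a₆ c = 0 ∧ ndVal a₁ a₂ a₃ a₄ a₆ c = 0) := by
  decide

/-- **Manin's count**: `deg x(Φ P₀ - P₀) = #E(𝔽_3)`. -/
theorem ratDeg_maninR (hΔ : W.Δ ≠ 0) : H621.ratDeg (maninR W (sP W) (tP W)) = W.card := by
  have hloc : ∀ c : ZMod 3,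
      nPts W.a₁ W.a₂ W.a₃ W.a₄ W.a₆ c ≤ 2 ∧
      (nPts W.a₁ W.a₂ W.a₃ W.a₄ W.a₆ c = 2 → nVal W.a₁ W.a₂ W.a₃ W.a₄ W.a₆ c ≠ 0) ∧
      (nPts W.a₁ W.a₂ W.a₃ W.a₄ W.a₆ c = 1 →
        nVal W.a₁ W.a₂ W.a₃ W.a₄ W.a₆ c = 0 ∧ ndVal W.a₁ W.a₂ W.a₃ W.a₄ W.a₆ c ≠ 0) ∧
      (nPts W.a₁ W.a₂ W.a₃ W.a₄ W.a₆ c = 0 →
        nVal W.a₁ W.a₂ W.a₃ W.a₄ W.a₆ c = 0 ∧ ndVal W.a₁ W.a₂ W.a₃ W.a₄ W.a₆ c = 0) :=
    fun c => local_check W.a₁ W.a₂ W.a₃ W.a₄ W.a₆ c hΔ
  rw [card_eq_sum 3 W hΔ, maninR, maninD, ZMod.card]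
  refine ratDeg_eq_of_local (n := fun c => nPts W.a₁ W.a₂ W.a₃ W.a₄ W.a₆ c)
    (natDegree_maninN W) (fun c => (hloc c).1) ?_ ?_ ?_
  · intro c hc
    rw [eval_maninN]
    exact (hloc c).2.1 hc
  · intro c hc
    rw [eval_maninN, eval_derivative_maninN]
    exact (hloc c).2.2.1 hc
  · intro c hc
    rw [eval_maninN, eval_derivative_maninN]
    exact (hloc c).2.2.2 hc

/-- **The Hasse-Weil Frobenius relation over `𝔽_3`**, every Weierstrass curve with `Δ ≠ 0`. -/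
theorem frobRelationFin_three (E : WeierstrassCurve (ZMod 3)) (hΔ : E.Δ ≠ 0)
    (k : Type) [Field k] [Algebra (ZMod 3) k] [DecidableEq k] (P : (E⁄k).Point) :
    haveI : Fact (Nat.Prime 3) := ⟨by norm_num⟩
    Fermat.Agent.Lib.Frob.frobPt 3 E k (Fermat.Agent.Lib.Frob.frobPt 3 E k P)
      - E.traceOfFrobenius • Fermat.Agent.Lib.Frob.frobPt 3 E k P + ((3 : ℕ) : ℤ) • P = 0 := by
  classical
  have key := frobPsi_eq_zero_of_data hΔ (isManinData E) P
  rw [ratDeg_maninR E hΔ, H230.frobPsi_apply, ZMod.card] at key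
  have htr : ((3 : ℕ) : ℤ) + 1 - (E.card : ℤ) = E.traceOfFrobenius := by
    rw [WeierstrassCurve.traceOfFrobenius, Nat.card_zmod]
  rw [htr] at key
  exact key

end Fermat.Agent.Lib.Frob23.Three

end
-- ===== PACK-END Lib/Frob23/Three.lean

-- ===== PACK-BEGIN S59/H405/TWQuadC.lean
section



/-!
# S59 / G-TW (helper405): ramification of quadratic fields

`G' ≤ G_ℚ` of index `2`, stabiliser of `β` with `β² = d`, `d` squarefree.  If `G'` contains the
inertia groups of all places over the prime `q`, then `q ∤ d`, and `d ≢ 3 mod 4` if `q = 2`.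

Proof: `N` := fixed field of `G'`, `g ∉ G'`.  If `q ∣ d` (or `q = 2`, `d ≡ 3 mod 4`) then
`g x - x ∈ 𝔪_A` for every algebraic integer `x ∈ N`, so `g|_N` lifts to an inertia element
(`H247.exists_mem_inertia_restrict_eq_of_integral`), which lies in `G'` — but `g β = -β`.
-/

set_option autoImplicit false

namespace Fermat.Agent.S59.H405

open Fermat.Agent.S55.Bridge

attribute [local instance] isAlgebraic_Qbar isGalois_Qbar

section Rat

/-- a rational number which is an algebraic integer of `ℚ̄` is an integer -/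
theorem exists_int_of_isIntegral (t : ℚ) (h : IsIntegral ℤ (algebraMap ℚ QbT t)) :
    ∃ m : ℤ, t = m := by
  have h1 : IsIntegral ℤ t :=
    (isIntegral_algebraMap_iff (algebraMap ℚ QbT).injective).mp h
  obtain ⟨m, hm⟩ := (IsIntegrallyClosed.isIntegral_iff (R := ℤ) (K := ℚ)).mp h1
  exact ⟨m, by rw [← hm]; rfl⟩

/-- if `t² d` is an integer and `d` is squarefree, then `t` is an integer -/
theorem exists_int_of_sq_mul (t : ℚ) (d m : ℤ) (hd : Squarefree d)
    (h : t ^ 2 * d = m) : ∃ s : ℤ, t = s := by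
  have hden : (t.den : ℚ) ≠ 0 := by exact_mod_cast t.den_ne_zero
  have h1 : (t.num : ℚ) ^ 2 * d = m * (t.den : ℚ) ^ 2 := by
    have ht : t = t.num / t.den := (Rat.num_div_den t).symm
    rw [ht] at h
    field_simp at h
    linear_combination h
  have h2 : t.num ^ 2 * d = m * (t.den : ℤ) ^ 2 := by exact_mod_cast h1
  have hcop : IsCoprime ((t.den : ℤ) ^ 2) (t.num ^ 2) := by
    apply IsCoprime.pow
    rw [Int.isCoprime_iff_gcd_eq_one]
    have := t.reduced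
    rw [Nat.coprime_comm] at this
    simpa [Int.gcd, Nat.Coprime] using this
  have hdvd : (t.den : ℤ) ^ 2 ∣ d := by
    apply hcop.dvd_of_dvd_mul_left
    exact ⟨m, by rw [h2]; ring⟩
  have hunit : IsUnit (t.den : ℤ) := hd _ (by rw [← pow_two]; exact hdvd)
  have hden1 : t.den = 1 := by
    have := Int.isUnit_iff.mp hunit
    rcases this with h | h
    · exact_mod_cast h
    · have : (0 : ℤ) ≤ t.den := by positivity
      omega
  exact ⟨t.num, by
    have := Rat.num_div_den t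
    rw [hden1] at this
    rw [← this]
    simp⟩

end Rat

section Val

variable {A : ValuationSubring QbT}

theorem mem_nonunits_of_sq (y : QbT) (h : y ^ 2 ∈ A.nonunits) : y ∈ A.nonunits := by
  rw [ValuationSubring.mem_nonunits_iff] at h ⊢
  rw [map_pow] at h
  by_contra hcon
  rw [not_lt] at hcon
  have : (1 : _) ≤ A.valuation y ^ 2 := one_le_pow₀ hcon
  exact absurd h (not_lt.mpr this)

theorem intCast_mul_mem_nonunits {q : ℕ} (hA : A.LiesOverPrime q) (m : ℤ) {z : QbT}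
    (hz : z ∈ A) : ((q : ℤ) * m : ℤ) * z ∈ A.nonunits := by
  rw [ValuationSubring.mem_nonunits_iff]
  have hq : A.valuation (q : QbT) < 1 := (A.mem_nonunits_iff).mp hA
  have hm : A.valuation (m : QbT) ≤ 1 :=
    (A.valuation_le_one_iff _).mpr (intCast_mem A m)
  have hz' : A.valuation z ≤ 1 := (A.valuation_le_one_iff _).mpr hz
  push_cast
  rw [map_mul, map_mul]
  calc A.valuation (q : QbT) * A.valuation (m : QbT) * A.valuation z
      ≤ A.valuation (q : QbT) * 1 * 1 := by gcongr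
    _ < 1 := by rw [mul_one, mul_one]; exact hq

end Val

section Ram

variable (G' : Subgroup GQT)

/-- **The key estimate**: if `q ∣ d`, or `q = 2` and `d ≡ 3 mod 4`, an element `g ∉ G'` moves
every algebraic integer of the fixed field of `G'` by an element of the maximal ideal. -/
theorem sub_mem_nonunits (hG' : G'.index = 2) {d : ℤ} {β : QbT} (hd : Squarefree d)
    (hβ2 : β ^ 2 = (d : QbT)) (hβ0 : β ≠ 0) (hβ : IsAnti G' β)
    {q : ℕ} (hqd : (q : ℤ) ∣ d ∨ (q = 2 ∧ d % 4 = 3))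
    {A : ValuationSubring QbT} (hA : A.LiesOverPrime q)
    {g : GQT} (hg : g ∉ G') {x : QbT} (hx : ∀ σ ∈ G', σ x = x) (hxi : IsIntegral ℤ x) :
    g x - x ∈ A.nonunits := by
  have hnorm : G'.Normal := Subgroup.normal_of_index_eq_two hG'
  have hgx : ∀ σ ∈ G', σ (g x) = g x := fixed_apply G' hnorm hx g
  have hgxi : IsIntegral ℤ (g x) := hxi.map g
  -- `y = g x - x = t β` with `t` rational
  have hy : IsAnti G' (x - g x) := isAnti_sub G' hG' hx hg
  obtain ⟨t, ht⟩ := hβ.div_rat hy hβ0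
  have hyi : IsIntegral ℤ (x - g x) := hxi.sub hgxi
  -- `t² d` is an integer
  have hsq : algebraMap ℚ QbT (t ^ 2 * d) = (x - g x) ^ 2 := by
    rw [ht, mul_pow, hβ2, map_mul, map_pow]
    simp
  obtain ⟨m, hm⟩ := exists_int_of_isIntegral (t ^ 2 * d) (by rw [hsq]; exact hyi.pow 2)
  obtain ⟨s, hs⟩ := exists_int_of_sq_mul t d m hd hm
  have hβi : IsIntegral ℤ β := by
    refine IsIntegral.of_pow (n := 2) (by norm_num) ?_
    rw [hβ2]
    have h := isIntegral_algebraMap (R := ℤ) (A := QbT) (x := d)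
    rwa [eq_intCast] at h
  have hβA : β ∈ A := Fermat.Agent.S54.isIntegral_mem_valuationSubring A hβi
  have hneg : g x - x = -(x - g x) := by ring
  rcases hqd with hqd | ⟨hq2, hd4⟩
  · -- `q ∣ d`: `y² = s² d ∈ q ℤ̄`
    obtain ⟨e, he⟩ := hqd
    have h1 : (g x - x) ^ 2 = (((q : ℤ) * (e * s ^ 2) : ℤ) : QbT) * 1 := by
      rw [hneg, neg_sq, ← hsq, hs, he]
      push_cast
      simp only [map_mul, map_pow, map_intCast, map_natCast, eq_intCast]
      ring
    apply mem_nonunits_of_sq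
    rw [h1]
    exact intCast_mul_mem_nonunits hA _ A.one_mem
  · -- `q = 2`, `d ≡ 3 mod 4`: `s` is even
    subst hq2
    -- trace and norm are integers
    have hT : ∀ f : GQT, f (x + g x) = x + g x := by
      intro f
      by_cases hf : f ∈ G'
      · rw [map_add, hx f hf, hgx f hf]
      · rw [map_add, apply_eq_of_not_mem G' hG' hx hg hf,
          apply_eq_of_not_mem G' hG' hgx hg hf, apply_apply_of_fixed G' hG' hx g]
        ring
    have hP : ∀ f : GQT, f (x * g x) = x * g x := by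
      intro f
      by_cases hf : f ∈ G'
      · rw [map_mul, hx f hf, hgx f hf]
      · rw [map_mul, apply_eq_of_not_mem G' hG' hx hg hf,
          apply_eq_of_not_mem G' hG' hgx hg hf, apply_apply_of_fixed G' hG' hx g]
        ring
    obtain ⟨T, hT'⟩ :=
      (InfiniteGalois.mem_range_algebraMap_iff_fixed (k := ℚ) (K := QbT) (x + g x)).mpr hT
    obtain ⟨P, hP'⟩ :=
      (InfiniteGalois.mem_range_algebraMap_iff_fixed (k := ℚ) (K := QbT) (x * g x)).mpr hP
    obtain ⟨Tz, hTz⟩ := exists_int_of_isIntegral T (by rw [hT']; exact hxi.add hgxi)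
    obtain ⟨Pz, hPz⟩ := exists_int_of_isIntegral P (by rw [hP']; exact hxi.mul hgxi)
    have hrel : (s : ℚ) ^ 2 * d = (Tz : ℚ) ^ 2 - 4 * Pz := by
      apply (algebraMap ℚ QbT).injective
      rw [← hs, hsq, ← hTz, ← hPz, map_sub, map_mul, map_pow, hT', hP']
      simp only [map_ofNat]
      ring
    have hrelZ : s ^ 2 * d = Tz ^ 2 - 4 * Pz := by exact_mod_cast hrel
    have hseven : (2 : ℤ) ∣ s := by
      by_contra hodd
      have hs1 : s % 2 = 1 := by omega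
      obtain ⟨k, hk⟩ : ∃ k, s = 2 * k + 1 := ⟨s / 2, by omega⟩
      have hs2 : s ^ 2 = 4 * (k * k + k) + 1 := by rw [hk]; ring
      rw [hs2] at hrelZ
      have hX : (4 * (k * k + k) + 1) * d = 4 * ((k * k + k) * d) + d := by ring
      rw [hX] at hrelZ
      rcases Int.emod_two_eq_zero_or_one Tz with h0 | h1
      · obtain ⟨l, hl⟩ : ∃ l, Tz = 2 * l := ⟨Tz / 2, by omega⟩
        have hT2 : Tz ^ 2 = 4 * (l * l) := by rw [hl]; ring
        rw [hT2] at hrelZ
        omega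
      · obtain ⟨l, hl⟩ : ∃ l, Tz = 2 * l + 1 := ⟨Tz / 2, by omega⟩
        have hT2 : Tz ^ 2 = 4 * (l * l + l) + 1 := by rw [hl]; ring
        rw [hT2] at hrelZ
        omega
    obtain ⟨k, hk⟩ := hseven
    have h1 : g x - x = ((((2 : ℕ) : ℤ) * (-k) : ℤ) : QbT) * β := by
      rw [hneg, ht, hs, hk]
      push_cast
      simp only [map_mul, map_intCast, map_ofNat, eq_intCast]
      ring
    rw [h1]
    exact intCast_mul_mem_nonunits hA _ hβA

/-- **Ramification of `ℚ(√d)`.**  If `G'` contains the inertia groups of all places over `q`,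
then `q ∤ d`, and `d ≢ 3 mod 4` if `q = 2`. -/
theorem not_dvd_of_inertia_le (hG' : G'.index = 2) {d : ℤ} {β : QbT} (hd : Squarefree d)
    (hβ2 : β ^ 2 = (d : QbT)) (hβ0 : β ≠ 0) (hβ : IsAnti G' β)
    {q : ℕ} (hq : q.Prime)
    (hunr : ∀ A : ValuationSubring QbT, A.LiesOverPrime q →
      ∀ σ ∈ A.inertiaSubgroupIn ℚ, σ ∈ G') :
    ¬ ((q : ℤ) ∣ d ∨ (q = 2 ∧ d % 4 = 3)) := by
  intro hqd
  obtain ⟨A, hA⟩ := Fermat.Agent.S54.exists_valuationSubring_liesOver q hq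
  have hne : G' ≠ ⊤ := by
    intro h
    rw [h, Subgroup.index_top] at hG'
    omega
  obtain ⟨g, hg⟩ : ∃ g : GQT, g ∉ G' := by
    by_contra h
    push_neg at h
    exact hne ((Subgroup.eq_top_iff' G').mpr h)
  have hginv : g⁻¹ ∉ G' := fun h => hg (by simpa using G'.inv_mem h)
  have hnorm : G'.Normal := Subgroup.normal_of_index_eq_two hG'
  let N : IntermediateField ℚ QbT := IntermediateField.fixedField G'
  have hN : ∀ x, x ∈ N ↔ ∀ σ ∈ G', σ x = x := fun x => by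
    show x ∈ IntermediateField.fixedField G' ↔ _
    rw [IntermediateField.mem_fixedField_iff]
  obtain ⟨σ', hσ'I, hσ'⟩ := Fermat.Agent.S59.H247.exists_mem_inertia_restrict_eq_of_integral N
    hq hA g
    (fun x hx => (hN _).mpr (fixed_apply G' hnorm ((hN x).mp hx) g))
    (fun x hx => (hN _).mpr (fixed_apply G' hnorm ((hN x).mp hx) g⁻¹))
    (fun x hx hxi => sub_mem_nonunits G' hG' hd hβ2 hβ0 hβ hqd hA hg ((hN x).mp hx) hxi)
  have hβN : β ∈ N := (hN β).mpr (fun σ hσ => (hβ σ).1 hσ)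
  have h1 : σ' β = β := (hβ σ').1 (hunr A hA σ' hσ'I)
  have h2 : σ' β = -β := by rw [hσ' β hβN]; exact (hβ g).2 hg
  have h3 : (2 : QbT) * β = 0 := by
    have := h1.symm.trans h2
    linear_combination this
  rcases mul_eq_zero.mp h3 with h | h
  · exact two_ne_zero h
  · exact hβ0 h

end Ram

end Fermat.Agent.S59.H405

end
-- ===== PACK-END S59/H405/TWQuadC.lean

-- ===== PACK-BEGIN S59/H405/TWQuadD.lean
section



/-!
# S59 / G-TW (helper405): the only quadratic field unramified outside `p` is `ℚ(√p*)`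

* `pstar p`            : `p* = ± p ≡ 1 mod 4`;
* `sqrtPstar p`        : a square root of `p*` in `ℚ̄`;
* `stabQ β`            : the stabiliser of `β` in `G_ℚ`;
* `index_two_eq_stab`  : an open subgroup of index `2` of `G_ℚ` containing all inertia groups at
  the primes `q ≠ p` (`p` odd) is the stabiliser of `√p*`;
* `involution_mem_stab_five` : every involution `c ≠ 1` of `ℚ̄` fixes `√5`.
-/

set_option autoImplicit false

namespace Fermat.Agent.S59.H405

/-- the possible squarefree `d`: `d = ± p`, `d ≡ 1 mod 4` -/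
theorem eq_or_eq_neg_of_forall_not_dvd {p : ℕ} (hp2 : p ≠ 2) {d : ℤ}
    (hd : Squarefree d) (hd1 : d ≠ 1)
    (h : ∀ q : ℕ, q.Prime → q ≠ p → ¬ ((q : ℤ) ∣ d ∨ (q = 2 ∧ d % 4 = 3))) :
    (d = p ∨ d = -p) ∧ d % 4 = 1 := by
  have h2 := h 2 Nat.prime_two (fun h => hp2 h.symm)
  push_neg at h2
  have hodd : ¬ (2 : ℤ) ∣ d := by
    have := h2.1
    simpa using this
  have h43 : d % 4 ≠ 3 := h2.2 rfl
  have h4 : d % 4 = 1 := by omega
  refine ⟨?_, h4⟩
  have hn : Squarefree d.natAbs := Int.squarefree_natAbs.mpr hd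
  have hprime : ∀ q : ℕ, q.Prime → q ∣ d.natAbs → q = p := by
    intro q hq hqd
    by_contra hne
    exact h q hq hne (Or.inl (Int.natCast_dvd.mpr hqd))
  have hn1 : d.natAbs ≠ 1 := by
    intro h1
    rcases Int.natAbs_eq d with h | h
    · rw [h1] at h
      exact hd1 (by simpa using h)
    · rw [h1] at h
      rw [h] at h4
      norm_num at h4
  obtain ⟨q, hq, hqd⟩ := Nat.exists_prime_and_dvd hn1
  have hqp := hprime q hq hqd
  subst hqp
  obtain ⟨k, hk⟩ := hqd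
  have hk1 : k = 1 := by
    by_contra hk1
    obtain ⟨q', hq', hq'k⟩ := Nat.exists_prime_and_dvd hk1
    have hq'q := hprime q' hq' (by rw [hk]; exact dvd_mul_of_dvd_right hq'k q)
    subst hq'q
    have hsq : q' * q' ∣ d.natAbs := by
      rw [hk]
      exact mul_dvd_mul_left q' hq'k
    have := hn q' hsq
    exact hq'.one_lt.ne' (Nat.isUnit_iff.mp this)
  rw [hk1, mul_one] at hk
  rcases Int.natAbs_eq d with h | h
  · left; rw [h, hk]
  · right; rw [h, hk]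

/-- `p* = ± p ≡ 1 mod 4` -/
def pstar (p : ℕ) : ℤ := if p % 4 = 1 then (p : ℤ) else -(p : ℤ)

theorem eq_pstar {p : ℕ} {d : ℤ} (h : d = p ∨ d = -p) (h4 : d % 4 = 1) : d = pstar p := by
  unfold pstar
  rcases h with h | h
  · have : p % 4 = 1 := by omega
    rw [if_pos this, h]
  · have : ¬ p % 4 = 1 := by omega
    rw [if_neg this, h]

theorem pstar_five : pstar 5 = 5 := by
  unfold pstar
  norm_num

theorem exists_sqrtPstar (p : ℕ) : ∃ s : QbT, s ^ 2 = (pstar p : QbT) :=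
  IsAlgClosed.exists_pow_nat_eq (pstar p : QbT) (by norm_num)

/-- a square root of `p*` in `ℚ̄` -/
noncomputable def sqrtPstar (p : ℕ) : QbT := (exists_sqrtPstar p).choose

theorem sqrtPstar_sq (p : ℕ) : sqrtPstar p ^ 2 = (pstar p : QbT) := (exists_sqrtPstar p).choose_spec

/-- the stabiliser of `β` in `G_ℚ` -/
def stabQ (β : QbT) : Subgroup GQT where
  carrier := {σ | σ β = β}
  one_mem' := rfl
  mul_mem' := by
    intro a b ha hb
    show a (b β) = β
    rw [Set.mem_setOf_eq] at ha hb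
    rw [hb, ha]
  inv_mem' := by
    intro a ha
    rw [Set.mem_setOf_eq] at ha ⊢
    have h1 : a⁻¹ (a β) = β := by
      show (a⁻¹ * a) β = β
      rw [inv_mul_cancel]
      rfl
    rwa [ha] at h1

theorem mem_stabQ {β : QbT} {σ : GQT} : σ ∈ stabQ β ↔ σ β = β := Iff.rfl

theorem stabQ_neg (β : QbT) : stabQ (-β) = stabQ β := by
  ext σ
  rw [mem_stabQ, mem_stabQ, map_neg, neg_inj]

section Main

open Fermat.Agent.S55.Bridge

attribute [local instance] isAlgebraic_Qbar isGalois_Qbar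

/-- **The only quadratic field unramified outside the odd prime `p` is `ℚ(√p*)`.** -/
theorem index_two_eq_stab {p : ℕ} (hp2 : p ≠ 2) (G' : Subgroup GQT)
    (hG' : G'.index = 2) (hopen : IsOpen (G' : Set GQT))
    (hunr : ∀ q : ℕ, q.Prime → q ≠ p → ∀ A : ValuationSubring QbT, A.LiesOverPrime q →
      ∀ σ ∈ A.inertiaSubgroupIn ℚ, σ ∈ G') :
    G' = stabQ (sqrtPstar p) := by
  obtain ⟨d, β, hd, hd1, hβ2, hβ0, hβ⟩ := exists_sqrt_of_index_two G' hG' hopen
  have hram : ∀ q : ℕ, q.Prime → q ≠ p → ¬ ((q : ℤ) ∣ d ∨ (q = 2 ∧ d % 4 = 3)) :=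
    fun q hq hqp => not_dvd_of_inertia_le G' hG' hd hβ2 hβ0 hβ hq (hunr q hq hqp)
  obtain ⟨hdp, hd4⟩ := eq_or_eq_neg_of_forall_not_dvd hp2 hd hd1 hram
  have hdstar : d = pstar p := eq_pstar hdp hd4
  have hG : G' = stabQ β := by
    ext σ
    rw [mem_stabQ]
    constructor
    · exact (hβ σ).1
    · intro h
      by_contra hσ
      have h1 := (hβ σ).2 hσ
      have h2 : (2 : QbT) * β = 0 := by
        have := h.symm.trans h1
        linear_combination this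
      rcases mul_eq_zero.mp h2 with h | h
      · exact two_ne_zero h
      · exact hβ0 h
  have hsq : β ^ 2 = sqrtPstar p ^ 2 := by rw [hβ2, sqrtPstar_sq, hdstar]
  rcases sq_eq_sq_iff_eq_or_eq_neg.mp hsq with h | h
  · rw [hG, h]
  · rw [hG, h, stabQ_neg]

end Main

/-- Every involution `c ≠ 1` of `ℚ̄` fixes `√5`. -/
theorem involution_mem_stab_five (c : GQT) (hc : c * c = 1) (hc1 : c ≠ 1) :
    c ∈ stabQ (sqrtPstar 5) := by
  rw [mem_stabQ]
  have hcc : ∀ x : QbT, (c : QbT ≃+* QbT) ((c : QbT ≃+* QbT) x) = x := by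
    intro x
    have h := congrArg (fun f : GQT => f x) hc
    simpa [AlgEquiv.mul_apply] using h
  have hne : ∃ x : QbT, (c : QbT ≃+* QbT) x ≠ x := by
    by_contra h
    exact hc1 (AlgEquiv.ext fun x => not_not.mp (not_exists.mp h x))
  obtain ⟨w, hw, hw2⟩ := Fermat.Agent.S59.G4.H178.exists_fixed_sq_eq_add (K := QbT) two_ne_zero
    (c : QbT ≃+* QbT) hcc hne 1 2 (map_one _) (map_ofNat (c : QbT ≃+* QbT) 2)
  have hsq : sqrtPstar 5 ^ 2 = w ^ 2 := by
    rw [sqrtPstar_sq, pstar_five, hw2]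
    norm_num
  have hw' : c w = w := hw
  rcases sq_eq_sq_iff_eq_or_eq_neg.mp hsq with h | h
  · rw [h, hw']
  · rw [h, map_neg, hw']

end Fermat.Agent.S59.H405

end
-- ===== PACK-END S59/H405/TWQuadD.lean

-- ===== PACK-BEGIN S59/TW/SpecPlus.lean
section



/-!
# Row S59, cell TW, LAYER 2, `Plus` form — frozen interface (helper24)

Architect's ruling v5 (`coord/S59.md` §00, §1): the target of the cell TW is
`Arch.MinRTPlusHStatement`; Layer 1 (helper959) reduces it to `Arch.HeckeSidePlusStatement`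
(`Arch/PlusPkg.lean`) = `H959.HeckeSideStatement` under the extra hypothesis `Arch.CurveCase`,
with the two bridge clauses

* (a) the point `pt` of `T_min` has the eigenvalues of `χ`;
* (b) `(∃ d b, Bijective (Fintype.linearCombination T_min b)) →
        NC.congIdeal pt = NM.cohCong N_min Smin (NM.eig χ)`.

Layer 2, `Plus` form:

* `PkgPlusStatement` = `PkgStatement` under the extra hypothesis `CurveCase`
  (`pkgPlus_of_pkg : PkgStatement → PkgPlusStatement`);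
* `AutPlusStatement` = `AutStatement` under the extra hypothesis `CurveCase`, for a package `P₀`
  over `θ = χ mod 𝔪` and THE point `pt` of `T_min` given by `χ`, with the bridge clause (b) on `M₀`
  (for `M₀ = e·H¹_par(Γ₀(N_min), 𝒪)`: Manin pairing + `NM.BaseStatement`);
* the other leaves (`ResGalStatement`, `InertiaExistsStatement`, `InertiaOrderStatement`,
  `CycloSurjStatement`, `AlgStatement`) are unchanged (all CLOSED on main).

Assembly (`TW/AsmPlus.lean`): `heckeSidePlus_of_leaves`, `heckeSidePlus_of`.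
-/

set_option autoImplicit false

open Polynomial IsLocalRing

namespace Fermat.Agent.S59.TW

open Fermat.Agent.S59.Arch Fermat.Agent.S59.TW.H959 Fermat.Agent.S59.NM

/-- **PKG under `CurveCase`.** -/
def PkgPlusStatement : Prop :=
  ∀ (p : ℕ) [Fact p.Prime]
    (𝒪 : Type) [CommRing 𝒪] [IsDomain 𝒪] [IsDiscreteValuationRing 𝒪]
    [IsAdicComplete (maximalIdeal 𝒪) 𝒪] [Finite (ResidueField 𝒪)] [CharZero 𝒪]
    (ρbar : ResidualGaloisRep (ResidueField 𝒪)) (Smin : Finset ℕ)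
    (_h : ResidualHyp p 𝒪 ρbar Smin) (_hc : CurveCase p ρbar) (t : PType)
    (_ht : (t = .flat ∧ (GaloisRepAdic.ofResidualGaloisRep ρbar).IsFlatAt p) ∨
      (t = .sord ∧ (GaloisRepAdic.ofResidualGaloisRep ρbar).IsStrictOrdinaryAt p ∧
        ¬ (GaloisRepAdic.ofResidualGaloisRep ρbar).IsFlatAt p))
    (Sig : Finset ℕ) (_hSig : Smin ⊆ Sig) (_hSigP : ∀ q ∈ Sig, q.Prime)
    [NeZero (wilesLevel p t Smin Sig)]
    (θ : CuspForm.heckeAlgebra (wilesLevel p t Smin Sig) 2 (↑Sig : Set ℕ) →+* ResidueField 𝒪)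
    (_hθ : G4.ResFrobCond ρbar θ),
    ∃ P : HeckePkg p 𝒪 ρbar t Smin Sig, P.θ = θ

theorem pkgPlus_of_pkg (h : PkgStatement) : PkgPlusStatement :=
  fun p _ 𝒪 _ _ _ _ _ _ ρbar Smin hR _ t ht Sig hSig hSigP _ θ hθ =>
    h p 𝒪 ρbar Smin hR t ht Sig hSig hSigP θ hθ

/-- **AUT, `Plus` form (the mountain).**  As `AutStatement`, under the extra hypothesis
`CurveCase`, for an eigensystem `χ` of the minimal level lifting the residual character of the
package `P₀` and the point `pt` of `T_min` defined by `χ`; with the bridge clause: if `M₀` has a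
finite basis over `T_min` then `η_{T_min}(pt) = δ₀(χ)`, the ideal of the values of the Manin
pairing on the `χ`-eigenclasses of level `N_min`. -/
def AutPlusStatement : Prop :=
  ∀ (p : ℕ) [Fact p.Prime]
    (𝒪 : Type) [CommRing 𝒪] [IsDomain 𝒪] [IsDiscreteValuationRing 𝒪]
    [IsAdicComplete (maximalIdeal 𝒪) 𝒪] [Finite (ResidueField 𝒪)] [CharZero 𝒪]
    (ρbar : ResidualGaloisRep (ResidueField 𝒪)) (Smin : Finset ℕ)
    (_h : ResidualHyp p 𝒪 ρbar Smin) (_hc : CurveCase p ρbar) (t : PType)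
    (_ht : (t = .flat ∧ (GaloisRepAdic.ofResidualGaloisRep ρbar).IsFlatAt p) ∨
      (t = .sord ∧ (GaloisRepAdic.ofResidualGaloisRep ρbar).IsStrictOrdinaryAt p ∧
        ¬ (GaloisRepAdic.ofResidualGaloisRep ρbar).IsFlatAt p))
    [NeZero (wilesLevel p t Smin Smin)]
    (P₀ : HeckePkg p 𝒪 ρbar t Smin Smin)
    (χ : CuspForm.heckeAlgebra (wilesLevel p t Smin Smin) 2 (↑Smin : Set ℕ) →+* 𝒪)
    (_hχ : G4.ResFrobCond ρbar ((residue 𝒪).comp χ))
    (_hθ : P₀.θ = (residue 𝒪).comp χ)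
    (pt : P₀.T →ₐ[𝒪] 𝒪)
    (_hpt : ∀ x : CuspForm.heckeAlgebra (wilesLevel p t Smin Smin) 2 (↑Smin : Set ℕ),
      pt (CuspForm.heckeLocal.π (wilesLevel p t Smin Smin) (↑Smin : Set ℕ) 𝒪 P₀.θ x) = χ x),
    ∃ (M₀ : Type) (_ : AddCommGroup M₀) (_ : Module P₀.T M₀) (_ : Nontrivial M₀),
      ((∃ (d : ℕ) (b : Fin d → M₀), Function.Bijective (Fintype.linearCombination P₀.T b)) →
        NC.congIdeal pt = cohCong (wilesLevel p t Smin Smin) Smin (eig χ)) ∧
      ∀ (n r : ℕ) (qv : Fin r → ℕ) (_hq : IsTWSet p ρbar Smin n qv)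
        [NeZero (wilesLevel p t Smin (Smin ∪ Finset.univ.image qv))]
        (PQ : HeckePkg p 𝒪 ρbar t Smin (Smin ∪ Finset.univ.image qv))
        (res : PQ.T →ₐ[𝒪] P₀.T) (_hres : IsRestriction P₀ PQ res),
        ∃ A : AutLevel P₀ M₀ qv PQ res, A.Cmp

end Fermat.Agent.S59.TW

end
-- ===== PACK-END S59/TW/SpecPlus.lean

-- ===== PACK-BEGIN S55/E1/SpecAlg3.lean
section
/-
S55 engine E1 — block ALG, part 3: frozen Spec statements ALG9 (edge map), ALG10 (transitions),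
ALG11 (local injectivity).   Sub-architect: helper895.   Blueprint: coord/S55-E1.md §3.
Definitions: `E1/Tr/Defs.lean`.   NO sorry: specs are `def … : Prop`.
Producers prove `theorem xxx : XxxSpec`; consumers take hypotheses.

Standing data of a CHANGE OF GROUP:  `π : G' →* G`, `ν : N' ⟶ Rep.res π N` (resp. an
isomorphism `ν : N' ≅ Rep.res π N`), `ι : Rep.res π X ⟶ X'`.  Special cases:
* `π = id`, `ν = 𝟙`: naturality in the coefficient module `X`;
* `π = D.subtype`, `ν = 𝟙`, `ι = 𝟙`: restriction to a subgroup `D ≤ G`;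
* `π : Gal(F'/ℚ) ↠ Gal(F/ℚ)`: the transition maps of the tower.
-/


set_option autoImplicit false

open CategoryTheory CategoryTheory.Limits

namespace Fermat.Agent.S55.E1

open Fermat.Agent.S55.T.H719 (ihomLin)

/-! ## ALG9: the edge map -/

/-- **ALG9 (edge).** `δ' : H¹(G, 𝔹) → H²(G, Hom_ℤ(N, X))` is bijective
(`Hom_ℤ(ℤ[G]^{(N)}, X)` is coinduced, hence acyclic). -/
def ALG9Spec : Prop :=
  ∀ (G : Type) [Group G] [Finite G] (N X : Rep.{0} ℤ G), Function.Bijective (edgeδ N X)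

/-- **ALG9 (a), module form.** If `p N = 0` (`p` prime), every additive `φ : R → X` with
`φ(R) ⊆ p X` extends to an additive map `P → X`, i.e. `φ ∈ 𝔹`. -/
def ALG9aSpec : Prop :=
  ∀ (p : ℕ), p.Prime → ∀ (G : Type) [Group G] (N X : Rep.{0} ℤ G), (∀ n : N.V, p • n = 0) →
    ∀ φ : ((Rep.ihom (stdR N)).obj X).V,
      (∀ r : (stdR N).V, ∃ x : X.V, ihomLin φ r = p • x) → φ ∈ ihomImage (stdι N) X

/-- **ALG9 (a), cocycle form.** A class in `𝔈²(X)` represented by a `1`-cocycle all of whose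
values map `R` into `p X` lies in the image of `H¹(G, 𝔹)`, hence (ALG9) in the image of `e`. -/
def ALG9aCocycleSpec : Prop :=
  ∀ (p : ℕ), p.Prime → ∀ (G : Type) [Group G] (N X : Rep.{0} ℤ G), (∀ n : N.V, p • n = 0) →
    ∀ c : groupCohomology.cocycles₁ ((Rep.ihom (stdR N)).obj X),
      (∀ (g : G) (r : (stdR N).V), ∃ x : X.V, ihomLin (c g) r = p • x) →
      ∃ b : groupCohomology (edgeB N X) 1, edgeIncl N X b = groupCohomology.H1π _ c

/-! ## ALG10: transitions -/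

/-- **ALG10 (functoriality).** `tr ∘ tr = tr` for `G'' → G' → G`, on `P`, `R` (elementwise). -/
def ALG10CompSpec : Prop :=
  ∀ (G G' G'' : Type) [Group G] [Group G'] [Group G''] (π : G' →* G) (π' : G'' →* G')
    (N : Rep.{0} ℤ G) (N' : Rep.{0} ℤ G') (N'' : Rep.{0} ℤ G'')
    (ν : N' ⟶ Rep.res π N) (ν' : N'' ⟶ Rep.res π' N') (ν'' : N'' ⟶ Rep.res (π.comp π') N),
    (∀ n : N''.V, ν''.hom n = ν.hom (ν'.hom n)) →
    (∀ x : (stdP N'').V, (trP (π.comp π') ν'').hom x = (trP π ν).hom ((trP π' ν').hom x)) ∧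
    (∀ r : (stdR N'').V, (trR (π.comp π') ν'').hom r = (trR π ν).hom ((trR π' ν').hom r))

/-- **ALG10 (functoriality on `𝔈²`).** `tr ∘ tr = tr` on `𝔈²` and on `Hⁿ`. -/
def ALG10CompE2Spec : Prop :=
  ∀ (G G' G'' : Type) [Group G] [Group G'] [Group G''] (π : G' →* G) (π' : G'' →* G')
    (N : Rep.{0} ℤ G) (N' : Rep.{0} ℤ G') (N'' : Rep.{0} ℤ G'')
    (ν : N' ⟶ Rep.res π N) (ν' : N'' ⟶ Rep.res π' N') (ν'' : N'' ⟶ Rep.res (π.comp π') N)
    (X : Rep.{0} ℤ G) (X' : Rep.{0} ℤ G') (X'' : Rep.{0} ℤ G'')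
    (ι : Rep.res π X ⟶ X') (ι' : Rep.res π' X' ⟶ X'') (ι'' : Rep.res (π.comp π') X ⟶ X''),
    (∀ n : N''.V, ν''.hom n = ν.hom (ν'.hom n)) →
    (∀ x : X.V, ι''.hom x = ι'.hom (ι.hom x)) →
    (∀ y : E2 N X, trE2 (π.comp π') ν'' ι'' y = trE2 π' ν' ι' (trE2 π ν ι y)) ∧
    (∀ (n : ℕ) (z : groupCohomology X n),
      infCoeff (π.comp π') ι'' n z = infCoeff π' ι' n (infCoeff π ι n z))

/-- **ALG10 (edge).** `tr` commutes with `δ'` and `incl_*`, hence with the edge map `e`. -/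
def ALG10EdgeSpec : Prop :=
  ∀ (G G' : Type) [Group G] [Group G'] (π : G' →* G)
    (N : Rep.{0} ℤ G) (N' : Rep.{0} ℤ G') (ν : N' ⟶ Rep.res π N)
    (X : Rep.{0} ℤ G) (X' : Rep.{0} ℤ G') (ι : Rep.res π X ⟶ X')
    (b : groupCohomology (edgeB N X) 1),
    edgeδ N' X' ((groupCohomology.map π (trEdgeB π ν ι) 1).hom b) =
      (groupCohomology.map π (trIhom π ν ι) 2).hom (edgeδ N X b) ∧
    edgeIncl N' X' ((groupCohomology.map π (trEdgeB π ν ι) 1).hom b) =
      trE2 π ν ι (edgeIncl N X b)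

/-- Consequence of `ALG10EdgeSpec`: `y = e(x) ⇒ tr y = e(inf x)`. -/
theorem isEdge_tr_of (h : ALG10EdgeSpec) {G G' : Type} [Group G] [Group G'] (π : G' →* G)
    {N : Rep.{0} ℤ G} {N' : Rep.{0} ℤ G'} (ν : N' ⟶ Rep.res π N)
    {X : Rep.{0} ℤ G} {X' : Rep.{0} ℤ G'} (ι : Rep.res π X ⟶ X')
    {x : groupCohomology ((Rep.ihom N).obj X) 2} {y : E2 N X} (hxy : IsEdge x y) :
    IsEdge ((groupCohomology.map π (trIhom π ν ι) 2).hom x) (trE2 π ν ι y) := by
  obtain ⟨b, rfl, rfl⟩ := hxy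
  obtain ⟨h1, h2⟩ := h G G' π N N' ν X X' ι b
  exact ⟨_, h1, h2⟩

/-- **ALG10 (pairing).** `⟨tr f, inf x⟩ = inf_ι ⟨f, x⟩`, where `inf x = (ν⁻¹)_* (inflation x)`. -/
def ALG10PairSpec : Prop :=
  ∀ (G G' : Type) [Group G] [Group G'] (π : G' →* G)
    (N : Rep.{0} ℤ G) (N' : Rep.{0} ℤ G') (ν : N' ≅ Rep.res π N)
    (X : Rep.{0} ℤ G) (X' : Rep.{0} ℤ G') (ι : Rep.res π X ⟶ X')
    (f : homA N X) (x : groupCohomology N 1),
    pair (trA π ν.hom ι f) ((groupCohomology.map π ν.inv 1).hom x) = infCoeff π ι 2 (pair f x)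

/-! ## ALG11: local injectivity -/

/-- **ALG11 (local injectivity).** `π : G' ↠ G` with kernel `H`, `N' ≅ res_π N`,
`ι : X → X'` injective with image the `H`-invariants, `H¹(H, X') = 0` (Hilbert 90).
Then `tr : 𝔈²_G(X) → 𝔈²_{G'}(X')` is injective. -/
def ALG11Spec : Prop :=
  ∀ (G G' : Type) [Group G] [Group G'] [Finite G'] (π : G' →* G), Function.Surjective π →
    ∀ (N : Rep.{0} ℤ G) (N' : Rep.{0} ℤ G') (ν : N' ≅ Rep.res π N)
      (X : Rep.{0} ℤ G) (X' : Rep.{0} ℤ G') (ι : Rep.res π X ⟶ X'),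
      Function.Injective ι.hom →
      (∀ x' : X'.V, (∀ h ∈ π.ker, X'.ρ h x' = x') → ∃ x : X.V, ι.hom x = x') →
      IsZero (groupCohomology (T.resSub X' π.ker) 1) →
      Function.Injective (trE2 π ν.hom ι)

end Fermat.Agent.S55.E1

end
-- ===== PACK-END S55/E1/SpecAlg3.lean

-- ===== PACK-BEGIN S55/E1/H719/Lim2.lean
section





/-!
# S55 engine E1, block LIM, leaf LIM2 (capitulation) — helper719

Blueprint `coord/S55-E1.md` §5.  Elementwise ("eventually") form, independent of the way the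
systems `T'_F`, `T_F` are packaged:

* `lim2_ker`   : `h ∈ Bc_F(C)` with `h(R) ⊆ C'(F) := im (J(F) → C(F))`  ⇒  for all large `F'`,
                 `tr h = Σ_q h_q ≫ j_q` with `h_q ∈ Bc_{F'}(J_q)`;
* `lim2_ker_A` : `f = Σ_q f_q ≫ j_q + res h ∈ A_F(C)` with values in `C'(F)`  ⇒  for all large `F'`,
                 `tr f ∈ Σ_q j_q ∘ A_{F'}(J_q)`   (eventual injectivity of `T'_F → T_F`);
* `lim2_coker` : for `f ∈ A_F(C)` there is `w ≡ 1 (p)` with `w • f = f + res h` and, for all large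
                 `F'`, `tr (w • f)` has values in `C'(F')`   (eventual surjectivity of `T'_F → T_F`).

`lim2_coker` needs that `C(F) / C'(F)` is TORSION (`TorsionModLocal`, think: `Cl_S(F)` is
finite).  This is NOT a field of the frozen `TowerDatum.IsGoodMu`; it is an explicit hypothesis.
-/

set_option autoImplicit false

open CategoryTheory CategoryTheory.Limits

namespace Fermat.Agent.S55.E1.H719

open Fermat.Agent.S55.Tow Fermat.Agent.S55.E1

noncomputable section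

section Generic

variable {k G : Type} [CommRing k] [Group G]

/-- Evaluation of a finite sum of morphisms of representations. -/
lemma sum_hom_apply {ι : Type} (s : Finset ι) {A B : Rep.{0} k G} (f : ι → (A ⟶ B)) (a : A.V) :
    (∑ i ∈ s, f i).hom a = ∑ i ∈ s, (f i).hom a := by
  rw [Rep.sum_hom, Representation.IntertwiningMap.sum_apply]

/-- The value of `Rep.freeLift` on a basis element. -/
lemma freeLift_hom_single {α : Type} (A : Rep.{0} k G) (f : α → A.V) (i : α) :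
    (Rep.freeLift k G A f).hom (Finsupp.single i (MonoidAlgebra.single (1 : G) (1 : k))) =
      f i := by
  have h := Representation.freeLift_single_single A.ρ i (1 : G) (1 : k) f
  rw [map_one, one_smul] at h
  exact h

/-- Evaluation of an `ℕ`-multiple of a morphism of representations. -/
lemma nsmul_hom_apply {A B : Rep.{0} k G} (n : ℕ) (f : A ⟶ B) (a : A.V) :
    (n • f).hom a = n • f.hom a := by
  induction n with
  | zero => rw [zero_nsmul, zero_nsmul]; rfl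
  | succ m ih =>
    rw [succ_nsmul, succ_nsmul, ← ih]
    rfl

end Generic

variable {S : Finset Nat.Primes}

/-- **GDT**: `C(F) / im (J(F) → C(F))` is a torsion group (in arithmetic: `Cl_S(F)` is finite). -/
def TorsionModLocal (D : TowerDatum S) : Prop :=
  ∀ (L : Level S) (c : (D.C L).V), ∃ n : ℕ, 0 < n ∧ D.IsLocalSum L (n • c)

section LocalSum

variable {D : TowerDatum S} {L : Level S}

lemma isLocalSum_zero : D.IsLocalSum L 0 :=
  ⟨fun _ => 0, by simp⟩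

lemma isLocalSum_add {c c' : (D.C L).V} (h : D.IsLocalSum L c) (h' : D.IsLocalSum L c') :
    D.IsLocalSum L (c + c') := by
  obtain ⟨x, rfl⟩ := h
  obtain ⟨x', rfl⟩ := h'
  exact ⟨fun q => x q + x' q, by simp only [map_add, Finset.sum_add_distrib]⟩

lemma isLocalSum_neg {c : (D.C L).V} (h : D.IsLocalSum L c) : D.IsLocalSum L (-c) := by
  obtain ⟨x, rfl⟩ := h
  exact ⟨fun q => -x q, by simp only [map_neg, Finset.sum_neg_distrib]⟩

lemma isLocalSum_nsmul (n : ℕ) {c : (D.C L).V} (h : D.IsLocalSum L c) :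
    D.IsLocalSum L (n • c) := by
  induction n with
  | zero => rw [zero_nsmul]; exact isLocalSum_zero
  | succ k ih => rw [succ_nsmul]; exact isLocalSum_add ih h

/-- `tr` maps `im J(F)` into `im J(F')` (GD7a). -/
lemma isLocalSum_tr {p : ℕ} (hD : D.IsGoodMu p) {L' : Level S} (h : L ≤ L') {c : (D.C L).V}
    (hc : D.IsLocalSum L c) : D.IsLocalSum L' ((D.tr h).hom c) := by
  obtain ⟨x, rfl⟩ := hc
  refine ⟨fun q => (Level.trJ h q.1).hom (x q), ?_⟩
  rw [map_sum]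
  exact Finset.sum_congr rfl fun q _ => hD.gd7a h q.1 q.2 (x q)

/-- GD5 in "eventually" form. -/
lemma exists_level_isLocalSum {p : ℕ} (hD : D.IsGoodMu p) (c : (D.C L).V) (a : ℕ)
    (hc : D.IsLocalSum L (p ^ a • c)) :
    ∃ L₁ : Level S, L ≤ L₁ ∧ ∀ (L' : Level S) (h : L ≤ L'), L₁ ≤ L' →
      D.IsLocalSum L' ((D.tr h).hom c) := by
  obtain ⟨L₁, h₁, hc₁⟩ := hD.gd5 L c a hc
  refine ⟨L₁, h₁, fun L' h h' => ?_⟩
  have := isLocalSum_tr hD h' hc₁
  rwa [hD.gd7b h₁ h' c] at this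

/-- GD5 for a finite family, in "eventually" form. -/
lemma exists_level_forall_isLocalSum [IsDirected (Level S) (· ≤ ·)] {p : ℕ} (hD : D.IsGoodMu p)
    {ι : Type} [Finite ι] (c : ι → (D.C L).V) (a : ι → ℕ)
    (hc : ∀ i, D.IsLocalSum L (p ^ a i • c i)) :
    ∃ L₁ : Level S, L ≤ L₁ ∧ ∀ (L' : Level S) (h : L ≤ L'), L₁ ≤ L' →
      ∀ i, D.IsLocalSum L' ((D.tr h).hom (c i)) := by
  choose Lc hLc hcap using fun i => exists_level_isLocalSum hD (c i) (a i) (hc i)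
  have : Nonempty (Level S) := ⟨L⟩
  obtain ⟨M, hM⟩ := Finite.exists_le Lc
  obtain ⟨L₁, hL, hML⟩ := exists_ge_ge L M
  exact ⟨L₁, hL, fun L' h h' i => hcap i L' h (((hM i).trans hML).trans h')⟩

end LocalSum

section Ker

variable (D : TowerDatum S)

/-- The value of `tr h` on a basis element. -/
lemma trB_stdE {L L' : Level S} (h : L ≤ L') {N : Rep.{0} ℤ L.Gal} {N' : Rep.{0} ℤ L'.Gal}
    (ν : N' ⟶ Rep.res (Level.proj h) N) (hB : homB N (D.C L)) (n' : N'.V) :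
    (trB (Level.proj h) ν (D.tr h) hB).hom (stdE N' n') =
      (D.tr h).hom (hB.hom (stdE N (ν.hom n'))) := by
  rw [trB_hom_apply, trP_stdE]

/-- **LIM2 (kernel part), form for `Bc`.**  If `h ∈ Bc_F(C)` maps `R` into `im J(F)`, then for all
large `F'` the transported `tr h ∈ Bc_{F'}(C)` factors through `⊕_q J_q(F')`. -/
theorem lim2_ker [IsDirected (Level S) (· ≤ ·)] {p : ℕ} (hD : D.IsGoodMu p) {L : Level S}
    (N : Rep.{0} ℤ L.Gal) [Finite N.V] (hpN : ∀ n : N.V, p • n = 0) (hB : homB N (D.C L))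
    (hloc : ∀ r : (stdR N).V, D.IsLocalSum L ((resBA N (D.C L) hB).hom r)) :
    ∃ L₁ : Level S, L ≤ L₁ ∧ ∀ (L' : Level S) (h : L ≤ L'), L₁ ≤ L' →
      ∀ (N' : Rep.{0} ℤ L'.Gal) (ν : N' ⟶ Rep.res (Level.proj h) N),
        ∃ hJ : ∀ q : S, homB N' (L'.J q.1),
          trB (Level.proj h) ν (D.tr h) hB = ∑ q : S, hJ q ≫ D.j L' q.1 := by
  have key : ∀ n : N.V, D.IsLocalSum L (p ^ 1 • hB.hom (stdE N n)) := by
    intro n
    have h1 := hloc ((H304.mulP p N hpN).hom (stdE N n))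
    have h2 : (stdι N).hom ((H304.mulP p N hpN).hom (stdE N n)) = p • stdE N n := by
      have := congrArg (fun f : stdP N ⟶ stdP N => f.hom (stdE N n))
        (H304.mulP_comp_stdι p N hpN)
      simp only [Rep.nsmul_hom] at this
      exact this
    have h3 : (resBA N (D.C L) hB).hom ((H304.mulP p N hpN).hom (stdE N n)) =
        hB.hom ((stdι N).hom ((H304.mulP p N hpN).hom (stdE N n))) := rfl
    rw [h3, h2, map_nsmul] at h1
    rwa [pow_one]
  obtain ⟨L₁, hL₁, hcap⟩ := exists_level_forall_isLocalSum hD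
    (fun n : N.V => hB.hom (stdE N n)) (fun _ => 1) key
  refine ⟨L₁, hL₁, fun L' h h' N' ν => ?_⟩
  have hx : ∀ n' : N'.V, D.IsLocalSum L' ((D.tr h).hom (hB.hom (stdE N (ν.hom n')))) :=
    fun n' => hcap L' h h' (ν.hom n')
  choose x hx using hx
  refine ⟨fun q => Rep.freeLift ℤ L'.Gal (L'.J q.1) (fun n' => x n' q), ?_⟩
  apply Rep.free_ext
  intro n'
  have h1 : (trB (Level.proj h) ν (D.tr h) hB).hom
      (Finsupp.single n' (MonoidAlgebra.single (1 : L'.Gal) (1 : ℤ))) =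
      (D.tr h).hom (hB.hom (stdE N (ν.hom n'))) := trB_stdE D h ν hB n'
  refine h1.trans ((hx n').trans ?_)
  rw [sum_hom_apply]
  refine Finset.sum_congr rfl fun q _ => ?_
  rw [Rep.comp_apply]
  congr 1
  exact (freeLift_hom_single (L'.J q.1) (fun n' => x n' q) n').symm

/-- GD7a in morphism form. -/
lemma res_j_comp_tr {p : ℕ} (hD : D.IsGoodMu p) {L L' : Level S} (h : L ≤ L') (q : S) :
    (Rep.resFunctor (Level.proj h)).map (D.j L q.1) ≫ D.tr h = Level.trJ h q.1 ≫ D.j L' q.1 := by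
  apply repHom_ext_tr
  intro x
  exact hD.gd7a h q.1 q.2 x

/-- `tr (f_q ≫ j_q) = tr f_q ≫ j_q`. -/
lemma trA_comp_j {p : ℕ} (hD : D.IsGoodMu p) {L L' : Level S} (h : L ≤ L')
    {N : Rep.{0} ℤ L.Gal} {N' : Rep.{0} ℤ L'.Gal} (ν : N' ⟶ Rep.res (Level.proj h) N) (q : S)
    (fJ : homA N (L.J q.1)) :
    trA (Level.proj h) ν (D.tr h) (fJ ≫ D.j L q.1) =
      trA (Level.proj h) ν (Level.trJ h q.1) fJ ≫ D.j L' q.1 := by
  change trR (Level.proj h) ν ≫ (Rep.resFunctor (Level.proj h)).map (fJ ≫ D.j L q.1) ≫ D.tr h =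
    (trR (Level.proj h) ν ≫ (Rep.resFunctor (Level.proj h)).map fJ ≫ Level.trJ h q.1) ≫
      D.j L' q.1
  rw [Functor.map_comp, Category.assoc, res_j_comp_tr D hD h q]
  simp only [Category.assoc]

/-- **LIM2 (kernel part) = eventual injectivity of `T'_F → T_F`.**  If
`f = Σ_q f_q ≫ j_q + res h ∈ A_F(C)` has values in `im J(F)`, then for all large `F'`
the transported `tr f ∈ A_{F'}(C)` lies in `Σ_q j_q ∘ A_{F'}(J_q)`. -/
theorem lim2_ker_A [IsDirected (Level S) (· ≤ ·)] {p : ℕ} (hD : D.IsGoodMu p) {L : Level S}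
    (N : Rep.{0} ℤ L.Gal) [Finite N.V] (hpN : ∀ n : N.V, p • n = 0)
    (fJ : ∀ q : S, homA N (L.J q.1)) (hB : homB N (D.C L))
    (hloc : ∀ r : (stdR N).V,
      D.IsLocalSum L ((∑ q : S, fJ q ≫ D.j L q.1 + resBA N (D.C L) hB).hom r)) :
    ∃ L₁ : Level S, L ≤ L₁ ∧ ∀ (L' : Level S) (h : L ≤ L'), L₁ ≤ L' →
      ∀ (N' : Rep.{0} ℤ L'.Gal) (ν : N' ⟶ Rep.res (Level.proj h) N),
        ∃ fJ' : ∀ q : S, homA N' (L'.J q.1),
          trA (Level.proj h) ν (D.tr h) (∑ q : S, fJ q ≫ D.j L q.1 + resBA N (D.C L) hB) =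
            ∑ q : S, fJ' q ≫ D.j L' q.1 := by
  have hloc' : ∀ r : (stdR N).V, D.IsLocalSum L ((resBA N (D.C L) hB).hom r) := by
    intro r
    have h1 := hloc r
    have h2 : D.IsLocalSum L ((∑ q : S, fJ q ≫ D.j L q.1).hom r) := by
      rw [sum_hom_apply]
      exact ⟨fun q => (fJ q).hom r, Finset.sum_congr rfl fun q _ => Rep.comp_apply _ _ _⟩
    have h3 : (resBA N (D.C L) hB).hom r =
        (∑ q : S, fJ q ≫ D.j L q.1 + resBA N (D.C L) hB).hom r +
          -((∑ q : S, fJ q ≫ D.j L q.1).hom r) := by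
      rw [Rep.add_hom]
      change _ = ((∑ q : S, fJ q ≫ D.j L q.1).hom r + (resBA N (D.C L) hB).hom r) + _
      abel
    rw [h3]
    exact isLocalSum_add h1 (isLocalSum_neg h2)
  obtain ⟨L₁, hL₁, hker⟩ := lim2_ker D hD N hpN hB hloc'
  refine ⟨L₁, hL₁, fun L' h h' N' ν => ?_⟩
  obtain ⟨hJ, hhJ⟩ := hker L' h h' N' ν
  refine ⟨fun q => trA (Level.proj h) ν (Level.trJ h q.1) (fJ q) + resBA N' (L'.J q.1) (hJ q), ?_⟩
  rw [map_add, map_sum, trA_resBA, hhJ, map_sum, ← Finset.sum_add_distrib]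
  refine Finset.sum_congr rfl fun q _ => ?_
  rw [trA_comp_j D hD h ν q (fJ q), Preadditive.add_comp]
  rfl

end Ker

section Coker

variable (D : TowerDatum S)

/-- `R` is a finitely generated abelian group (ALG1). -/
lemma exists_finset_closure_stdR {G : Type} [Group G] [Finite G] (N : Rep.{0} ℤ G)
    [Finite N.V] : ∃ s : Finset (stdR N).V, AddSubgroup.closure (s : Set (stdR N).V) = ⊤ := by
  obtain ⟨-, hfin, -⟩ := H304.alg1 G N inferInstance
  have e : (stdR N).hV2 = AddCommGroup.toIntModule _ := Subsingleton.elim _ _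
  rw [e] at hfin
  exact AddGroup.fg_def.1 (Module.Finite.iff_addGroup_fg.1 hfin)

/-- **LIM2 (cokernel part) = eventual surjectivity of `T'_F → T_F`.**  Assume that
`C(F)/im J(F)` is torsion.  For `f ∈ A_F(C)` there is `w ≡ 1 (mod p)` such that
`w • f − f ∈ res Bc_F(C)` and, for all large `F'`, `tr (w • f)` has values in `im J(F')`. -/
theorem lim2_coker [IsDirected (Level S) (· ≤ ·)] {p : ℕ} (hp : p.Prime) (hD : D.IsGoodMu p)
    (hT : TorsionModLocal D) {L : Level S} (N : Rep.{0} ℤ L.Gal) [Finite N.V]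
    (hpN : ∀ n : N.V, p • n = 0) (f : homA N (D.C L)) :
    ∃ (w : ℕ) (hB : homB N (D.C L)), w • f = f + resBA N (D.C L) hB ∧
      ∃ L₁ : Level S, L ≤ L₁ ∧ ∀ (L' : Level S) (h : L ≤ L'), L₁ ≤ L' →
        ∀ (N' : Rep.{0} ℤ L'.Gal) (ν : N' ⟶ Rep.res (Level.proj h) N) (r' : (stdR N').V),
          D.IsLocalSum L' ((trA (Level.proj h) ν (D.tr h) (w • f)).hom r') := by
  classical
  obtain ⟨s, hs⟩ := exists_finset_closure_stdR N
  choose n hn0 hn using fun r : (stdR N).V => hT L (f.hom r)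
  have hn₀ : (∏ r ∈ s, n r) ≠ 0 := (Finset.prod_pos fun r _ => hn0 r).ne'
  obtain ⟨a, m, hm, hnm⟩ := Nat.exists_eq_pow_mul_and_not_dvd hn₀ p hp.ne_one
  have hcop : Nat.Coprime m p := ((Nat.Prime.coprime_iff_not_dvd hp).2 hm).symm
  obtain ⟨m', -, hm'⟩ := Nat.exists_mul_mod_eq_one_of_coprime hcop hp.one_lt
  obtain ⟨h₀, hh₀⟩ := H304.alg2 p L.Gal N (D.C L) hpN f
  have hw : m * m' = p * (m * m' / p) + 1 := by
    have := Nat.div_add_mod (m * m') p
    rw [hm'] at this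
    exact this.symm
  refine ⟨m * m', (m * m' / p) • h₀, ?_, ?_⟩
  · have h1 : resBA N (D.C L) ((m * m' / p) • h₀) = (m * m' / p) • (p • f) := by
      rw [map_nsmul]
      congr 1
    rw [h1, ← mul_nsmul', add_comm f]
    conv_lhs => rw [hw]
    rw [add_nsmul, one_nsmul, mul_comm]
  · have hfam : ∀ r : s, D.IsLocalSum L (p ^ a • (m • f.hom r.1)) := by
      intro r
      obtain ⟨d, hd⟩ := Finset.dvd_prod_of_mem n r.2
      rw [← mul_nsmul', ← hnm, hd, mul_comm, mul_nsmul']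
      exact isLocalSum_nsmul d (hn r.1)
    obtain ⟨L₁, hL₁, hcap⟩ := exists_level_forall_isLocalSum hD
      (fun r : s => m • f.hom r.1) (fun _ => a) hfam
    refine ⟨L₁, hL₁, fun L' h h' N' ν r' => ?_⟩
    have hall : ∀ y : (stdR N).V, D.IsLocalSum L' ((D.tr h).hom (m • f.hom y)) := by
      intro y
      have hy : y ∈ AddSubgroup.closure (s : Set (stdR N).V) := by rw [hs]; trivial
      induction hy using AddSubgroup.closure_induction with
      | mem x hx => exact hcap L' h h' ⟨x, hx⟩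
      | zero =>
        rw [map_zero, nsmul_zero, map_zero]
        exact isLocalSum_zero
      | add x y _ _ hx hy =>
        rw [map_add, nsmul_add, map_add]
        exact isLocalSum_add hx hy
      | neg x _ hx =>
        rw [map_neg, neg_nsmul, map_neg]
        exact isLocalSum_neg hx
    rw [trA_hom_apply, nsmul_hom_apply, mul_nsmul, map_nsmul]
    exact isLocalSum_nsmul m' (hall _)

end Coker

end

end Fermat.Agent.S55.E1.H719

end
-- ===== PACK-END S55/E1/H719/Lim2.lean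

-- ===== PACK-BEGIN S55/E1/H594/TensS.lean
section
/-
S55 / engine E1 / G-ADAPTER leaf TENS (helper594), part 3: the `S`-idèles.

For a tower level `L : Tow.Level S`: the `S`-idèle module of layer G,
`G.JRep L.Gal S L.F = (L.F ⊗[ℚ] ℚ_S)ˣ`, is the product of the tower modules
`L.J q = Coind_{Dec q}^{Gal} F_qˣ`, `q ∈ S`:

* `tensEvS L q g : L.F ⊗[ℚ] ℚ_S →+* ℚ̄_q`, `x ⊗ y ↦ ι(g x) · y_q`;
* `tensEquiv L : Additive (G.AS S L.F)ˣ ≃+ ∀ q : S, (L.J q).V`, with
  `locVal ((tensEquiv L u q).1 g) = tensEvS L q g u`, equivariant for `G.jRepr`;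
* `tensProj L q : G.JRep L.Gal S L.F ⟶ L.J q`, `tensIncl L q : L.J q ⟶ G.JRep L.Gal S L.F`
  in `Rep ℤ L.Gal`, presenting `J_S` as the biproduct of the `J_q`;
* compatibility with the diagonal embedding of `Fˣ` (`tensEquiv_unitsDiag`).
No `sorry`.
-/



set_option autoImplicit false
set_option linter.unusedSectionVars false
set_option linter.style.haveILetI false

namespace Fermat.Agent.S55.E1.H594

open Fermat.Agent.S55 Fermat.Agent.S55.Tow Fermat.Agent.S55.Bridge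
open Fermat.Agent.S55.Bridge.H175
open scoped TensorProduct

attribute [local instance] isAlgebraic_Qbar isGalois_Qbar

noncomputable section

/-- `q : Nat.Primes` is prime (local instance of this file). -/
local instance instFactPrimeH594' (q : Nat.Primes) : Fact (q : ℕ).Prime := ⟨q.2⟩

variable {S : Finset Nat.Primes} (L : Level S)

/-- The ring isomorphism `L.F ⊗[ℚ] ℚ_S ≃ ∏_{q ∈ S} ℚ_q ⊗[ℚ] L.F`. -/
def asPiEquiv : G.AS S L.F ≃+* (∀ q : S, ℚ_[(q.1 : ℕ)] ⊗[ℚ] L.F) := by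
  classical
  exact ((Algebra.TensorProduct.congr (AlgEquiv.refl : L.F ≃ₐ[ℚ] L.F) (G.QS.toPi S)).trans
    ((Algebra.TensorProduct.piRight ℚ ℚ L.F (fun q : S => G.Qq q.1)).trans
      (AlgEquiv.piCongrRight
        (fun q : S => Algebra.TensorProduct.comm ℚ L.F (G.Qq q.1))))).toRingEquiv

theorem asPiEquiv_tmul (x : L.F) (y : G.QS S) (q : S) :
    asPiEquiv L (x ⊗ₜ[ℚ] y) q = (G.QS.toPi S y q) ⊗ₜ[ℚ] x := rfl

/-- Evaluation at `q ∈ S`, `g ∈ L.Gal`: the ring map `L.F ⊗[ℚ] ℚ_S → ℚ̄_q`,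
`x ⊗ y ↦ y_q · ι(g x)`. -/
def tensEvS (q : S) (g : L.Gal) : G.AS S L.F →+* PadicAlgCl (q.1 : ℕ) :=
  (towerEv L q.1 g).toRingHom.comp
    ((Pi.evalRingHom (fun q : S => ℚ_[(q.1 : ℕ)] ⊗[ℚ] L.F) q).comp (asPiEquiv L).toRingHom)

theorem tensEvS_apply (q : S) (g : L.Gal) (a : G.AS S L.F) :
    tensEvS L q g a = towerEv L q.1 g (asPiEquiv L a q) := rfl

theorem tensEvS_tmul (q : S) (g : L.Gal) (x : L.F) (y : G.QS S) :
    tensEvS L q g (x ⊗ₜ[ℚ] y) =
      algebraMap ℚ_[(q.1 : ℕ)] (PadicAlgCl (q.1 : ℕ)) (G.QS.toPi S y q) *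
        padicEmbedding (q.1 : ℕ) ((g • x : L.F) : Qbar) := rfl

/-- `asPiEquiv` intertwines the action of `L.Gal` on `L.F ⊗ ℚ_S` with the componentwise
action on `∏ ℚ_q ⊗ L.F`. -/
theorem asPiEquiv_asAut (h : L.Gal) (a : G.AS S L.F) (q : S) :
    asPiEquiv L (G.asAut S L.Gal L.F h a) q = towerAct L q.1 h (asPiEquiv L a q) := by
  induction a using TensorProduct.induction_on with
  | zero =>
    rw [map_zero, map_zero, Pi.zero_apply]
    exact (map_zero (towerAct L q.1 h).toRingHom).symm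
  | add a b ha hb =>
    rw [map_add, map_add, Pi.add_apply, ha, hb, map_add, Pi.add_apply]
    exact (map_add (towerAct L q.1 h).toRingHom _ _).symm
  | tmul x y =>
    rw [G.asAut_tmul, asPiEquiv_tmul, asPiEquiv_tmul, towerAct_tmul]

theorem tensEvS_asAut (q : S) (g h : L.Gal) (a : G.AS S L.F) :
    tensEvS L q g (G.asAut S L.Gal L.F h a) = tensEvS L q (g * h) a := by
  rw [tensEvS_apply, tensEvS_apply, asPiEquiv_asAut, towerEv_towerAct]

/-- `Additive (∏ M_i) ≃+ ∏ Additive (M_i)`. -/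
def additivePiEquiv {ι : Type} (M : ι → Type) [∀ i, Monoid (M i)] :
    Additive (∀ i, M i) ≃+ (∀ i, Additive (M i)) where
  toFun f i := Additive.ofMul (f.toMul i)
  invFun f := Additive.ofMul (fun i => (f i).toMul)
  left_inv _ := rfl
  right_inv _ := rfl
  map_add' _ _ := rfl

/-- **TENS**: `(L.F ⊗[ℚ] ℚ_S)ˣ ≃ ∏_{q ∈ S} J_q(F)`. -/
def tensEquiv : Additive (G.AS S L.F)ˣ ≃+ (∀ q : S, (L.J q.1).V) :=
  ((MulEquiv.toAdditive (Units.mapEquiv (asPiEquiv L).toMulEquiv)).trans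
    ((MulEquiv.toAdditive
        (MulEquiv.piUnits (M := fun q : S => ℚ_[(q.1 : ℕ)] ⊗[ℚ] L.F))).trans
      (additivePiEquiv (fun q : S => (ℚ_[(q.1 : ℕ)] ⊗[ℚ] L.F)ˣ)))).trans
    (AddEquiv.piCongrRight (fun q : S => tensLocEquiv L q.1))

theorem locVal_tensEquiv (u : Additive (G.AS S L.F)ˣ) (q : S) (g : L.Gal) :
    locVal L q.1 ((tensEquiv L u q).1 g) =
      tensEvS L q g ((u.toMul : (G.AS S L.F)ˣ) : G.AS S L.F) := rfl

/-- Equivariance of `tensEquiv` for the layer-G action `G.jRepr` on the `S`-idèles. -/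
theorem tensEquiv_equivariant (h : L.Gal) (u : Additive (G.AS S L.F)ˣ) (q : S) :
    tensEquiv L (G.jRepr L.Gal S L.F h u) q = (L.J q.1).ρ h (tensEquiv L u q) := by
  apply J_ext
  intro g
  rw [locVal_tensEquiv, G.coe_jRepr_apply, tensEvS_asAut]
  rfl

/-- Compatibility with the diagonal embedding `Fˣ → J_S(F)`: the `q`-component of the image of
`x ∈ Fˣ` is the function `g ↦ ι(g x)`. -/
theorem tensEquiv_unitsDiag (x : Additive (L.F)ˣ) (q : S) (g : L.Gal) :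
    locVal L q.1 ((tensEquiv L (G.unitsDiag S L.F x) q).1 g) =
      padicEmbedding (q.1 : ℕ) ((g • ((x.toMul : (L.F)ˣ) : L.F) : L.F) : Qbar) := by
  rw [locVal_tensEquiv, G.coe_unitsDiag_apply, G.asDiag_apply, tensEvS_tmul]
  have h1 : G.QS.toPi S (1 : G.QS S) q = 1 := rfl
  rw [h1, map_one, one_mul]

/-! ### The same in `Rep ℤ L.Gal` -/

/-- The projection `J_S(F) → J_q(F)` as an intertwining map. -/
def tensProjMap (q : S) :
    (G.jRepr L.Gal S L.F).IntertwiningMap (Representation.coind (L.decHom q.1) (L.locUnits q.1).ρ)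
    where
  toLinearMap :=
    ((Pi.evalAddMonoidHom (fun q : S => (L.J q.1).V) q).comp
      (tensEquiv L).toAddMonoidHom).toIntLinearMap
  isIntertwining' := fun h => LinearMap.ext fun u => tensEquiv_equivariant L h u q

/-- The projection `J_S(F) → J_q(F)` in `Rep ℤ L.Gal`. -/
def tensProj (q : S) : G.JRep L.Gal S L.F ⟶ L.J q.1 := Rep.ofHom (tensProjMap L q)

theorem tensProj_apply (q : S) (u : Additive (G.AS S L.F)ˣ) :
    (tensProj L q).hom u = tensEquiv L u q := rfl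

open Classical in
/-- The element of `J_S(F)` with `q`-component `f` and trivial other components. -/
def tensInclFun (q : S) (f : (L.J q.1).V) : Additive (G.AS S L.F)ˣ :=
  (tensEquiv L).symm (Pi.single q f)

open Classical in
theorem tensEquiv_tensInclFun (q : S) (f : (L.J q.1).V) :
    tensEquiv L (tensInclFun L q f) = Pi.single q f :=
  (tensEquiv L).apply_symm_apply _

theorem tensEquiv_tensInclFun_same (q : S) (f : (L.J q.1).V) :
    tensEquiv L (tensInclFun L q f) q = f := by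
  classical
  rw [tensEquiv_tensInclFun, Pi.single_eq_same]

theorem tensEquiv_tensInclFun_ne {q q' : S} (hq : q' ≠ q) (f : (L.J q.1).V) :
    tensEquiv L (tensInclFun L q f) q' = 0 := by
  classical
  rw [tensEquiv_tensInclFun, Pi.single_eq_of_ne hq]

/-- The inclusion `J_q(F) → J_S(F)` as an intertwining map. -/
def tensInclMap (q : S) :
    (Representation.coind (L.decHom q.1) (L.locUnits q.1).ρ).IntertwiningMap
      (G.jRepr L.Gal S L.F) where
  toLinearMap := by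
    classical
    exact (((tensEquiv L).symm.toAddMonoidHom).comp
      (AddMonoidHom.single (fun q : S => (L.J q.1).V) q)).toIntLinearMap
  isIntertwining' := fun h => LinearMap.ext fun f => by
    classical
    apply (tensEquiv L).injective
    funext q'
    change tensEquiv L (tensInclFun L q ((L.J q.1).ρ h f)) q' =
      tensEquiv L (G.jRepr L.Gal S L.F h (tensInclFun L q f)) q'
    rw [tensEquiv_equivariant]
    by_cases hq : q' = q
    · subst hq
      rw [tensEquiv_tensInclFun_same, tensEquiv_tensInclFun_same]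
    · rw [tensEquiv_tensInclFun_ne L hq, tensEquiv_tensInclFun_ne L hq, map_zero]

/-- The inclusion `J_q(F) → J_S(F)` in `Rep ℤ L.Gal`. -/
def tensIncl (q : S) : L.J q.1 ⟶ G.JRep L.Gal S L.F := Rep.ofHom (tensInclMap L q)

theorem tensIncl_apply (q : S) (f : (L.J q.1).V) :
    (tensIncl L q).hom f = tensInclFun L q f := rfl

theorem tensProj_tensIncl_same (q : S) (f : (L.J q.1).V) :
    (tensProj L q).hom ((tensIncl L q).hom f) = f :=
  tensEquiv_tensInclFun_same L q f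

theorem tensProj_tensIncl_ne {q q' : S} (hq : q' ≠ q) (f : (L.J q.1).V) :
    (tensProj L q').hom ((tensIncl L q).hom f) = 0 :=
  tensEquiv_tensInclFun_ne L hq f

theorem sum_tensInclFun (u : Additive (G.AS S L.F)ˣ) :
    ∑ q : S, tensInclFun L q (tensEquiv L u q) = u := by
  classical
  apply (tensEquiv L).injective
  funext q'
  rw [map_sum, Finset.sum_apply]
  rw [Finset.sum_eq_single q']
  · exact tensEquiv_tensInclFun_same L q' _
  · intro q _ hq
    exact tensEquiv_tensInclFun_ne L (Ne.symm hq) _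
  · intro h
    exact absurd (Finset.mem_univ q') h

theorem sum_tensIncl_tensProj (u : (G.JRep L.Gal S L.F).V) :
    ∑ q : S, (tensIncl L q).hom ((tensProj L q).hom u) = u :=
  sum_tensInclFun L u

/-- A family `(x_q)_{q ∈ S}`, `x_q ∈ J_q(F)`, is the family of components of a unique `S`-idèle. -/
theorem existsUnique_idele (x : ∀ q : S, (L.J q.1).V) :
    ∃! u : Additive (G.AS S L.F)ˣ, ∀ q : S, (tensProj L q).hom u = x q :=
  ⟨(tensEquiv L).symm x, fun q => congrFun ((tensEquiv L).apply_symm_apply x) q,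
    fun u hu => (tensEquiv L).injective (by
      rw [AddEquiv.apply_symm_apply]
      exact funext hu)⟩

end

end Fermat.Agent.S55.E1.H594

end
-- ===== PACK-END S55/E1/H594/TensS.lean

-- ===== PACK-BEGIN S55/T/InfDescentH244.lean
section


/-!
# Inflation along a surjection is injective on `p`-primary torsion  (helper244)

Abstract form of GD8 of `coord/S55-E1.md` (`Tow.TowerDatum.IsGood.gd8`), ready for the tower:

`π : G' ↠ G` (think `Level.proj h : Gal(F'/ℚ) → Gal(F/ℚ)`), `C : Rep k G`, `C' : Rep k G'`,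
`tr : Rep.res π C ⟶ C'` (think `D.tr h : C(F) → C(F')`), such that

* (descent) `tr` is injective and its image is the set of `ker π`-invariants of `C'`,
* `H¹(Q, C') = 0` for every `p`-subgroup `Q ≤ G'`  (first clause of `E1.IsClassModuleAt p`).

Then `groupCohomology.map π tr 2 : H²(G, C) → H²(G', C')` is injective on elements killed by a
power of `p`.  No reciprocity, no norm trick: inflation–restriction up to torsion
(`InfResTorsCoreH244`) + `cor ∘ res = index` on `H¹(ker π, C')` (Sylow subgroup of `ker π`).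

Everything is done on cochains of `G'`; no quotient group and no `quotientToInvariants` appears in
the statement.
-/

set_option autoImplicit false
set_option linter.unusedSectionVars false

namespace Fermat.Agent.S55.T.H244

open CategoryTheory groupCohomology Rep Fermat.Agent.S55.H954

section Transport

variable {k G : Type} [CommRing k] [Group G]

/-- Elementary vanishing of `H¹` on a subgroup `P ≤ N` (`N ≤ G`) from vanishing of `H¹` on the
corresponding subgroup `P.map N.subtype ≤ G`. -/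
lemma h1_subgroup_eq_zero_of_map (A : Rep.{0} k G) (N : Subgroup G) (P : Subgroup N)
    (h : ∀ z : groupCohomology (resSub A (P.map N.subtype)) 1, z = 0)
    (x : groupCohomology (resSub (resSub A N) P) 1) : x = 0 := by
  induction x using H1_induction_on with | @h f =>
  have hf : ∀ s t : P, (f : P → A) (s * t) = A.ρ ((s : N) : G) ((f : P → A) t) + (f : P → A) s :=
    fun s t => (mem_cocycles₁_iff (A := resSub (resSub A N) P) (f : P → A)).1 f.2 s t
  -- the cocycle on `Q = P.map N.subtype`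
  have hmem : ∀ q : P.map N.subtype, ∃ s : P, ((s : N) : G) = (q : G) := by
    rintro ⟨q, n, hn, rfl⟩
    exact ⟨⟨n, hn⟩, rfl⟩
  choose σ hσ using hmem
  have hσmul : ∀ q q' : P.map N.subtype, σ (q * q') = σ q * σ q' := by
    intro q q'
    apply Subtype.ext
    apply Subtype.ext
    rw [Subgroup.coe_mul, Subgroup.coe_mul, hσ, hσ, hσ, Subgroup.coe_mul]
  let f' : P.map N.subtype → A := fun q => (f : P → A) (σ q)
  have hf' : f' ∈ cocycles₁ (resSub A (P.map N.subtype)) := by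
    rw [mem_cocycles₁_iff]
    intro q q'
    show (f : P → A) (σ (q * q')) = A.ρ (q : G) ((f : P → A) (σ q')) + (f : P → A) (σ q)
    rw [hσmul, hf, hσ]
  have h0 := h (H1π _ ⟨f', hf'⟩)
  rw [H1π_eq_zero_iff] at h0
  obtain ⟨a, ha⟩ := h0
  rw [H1π_eq_zero_iff]
  refine ⟨a, ?_⟩
  funext s
  have hsQ : ((s : N) : G) ∈ P.map N.subtype := ⟨(s : N), s.2, rfl⟩
  have hs : σ ⟨((s : N) : G), hsQ⟩ = s := by
    apply Subtype.ext
    apply Subtype.ext
    exact hσ _
  have := congr_fun ha ⟨((s : N) : G), hsQ⟩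
  rw [d₀₁_hom_apply] at this ⊢
  have h2 : A.ρ ((s : N) : G) a - a = (f : P → A) (σ ⟨((s : N) : G), hsQ⟩) := this
  rw [hs] at h2
  exact h2

/-- If `H¹(Q, A) = 0` for every `p`-subgroup `Q ≤ G`, then for every finite subgroup `N ≤ G`
there is `m` prime to `p` killing `H¹(N, A)`, in the elementary form `HOneKilledBy`. -/
lemma exists_coprime_hOneKilledBy (A : Rep.{0} k G) (p : ℕ) [Fact p.Prime]
    (hH1 : ∀ Q : Subgroup G, IsPGroup p Q →
      Limits.IsZero (groupCohomology (resSub A Q) 1))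
    (N : Subgroup G) [N.Normal] [Finite N] :
    ∃ m : ℕ, m.Coprime p ∧ HOneKilledBy m A.ρ N := by
  obtain ⟨P⟩ : Nonempty (Sylow p N) := inferInstance
  have hcop : (P : Subgroup N).index.Coprime p := by
    rw [Nat.coprime_comm, Nat.Prime.coprime_iff_not_dvd (Fact.out : p.Prime)]
    exact P.not_dvd_index
  refine ⟨(P : Subgroup N).index, hcop, hOneKilledBy_of_H1 ?_⟩
  intro x
  refine hOne_nsmul_eq_zero_of_subgroup A N (P : Subgroup N) ?_ x
  intro z
  refine h1_subgroup_eq_zero_of_map A N (P : Subgroup N) ?_ z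
  intro y
  have hQ : IsPGroup p ((P : Subgroup N).map N.subtype) := P.2.map N.subtype
  exact (ModuleCat.isZero_iff_subsingleton.mp (hH1 _ hQ)).elim _ _

end Transport

section Descent

variable {k G G' : Type} [CommRing k] [Group G] [Group G']

/-- **Inflation along a surjection with descent, up to torsion (cochain form).**  If `m` kills
`H¹(ker π, C')` and `tr : C → C'` is injective with image the `ker π`-invariants, then
`inf z = 0 → m • z = 0` for `z ∈ H²(G, C)`, `inf = groupCohomology.map π tr 2`. -/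
theorem nsmul_eq_zero_of_map_eq_zero (π : G' →* G) (hπ : Function.Surjective π)
    (C : Rep.{0} k G) (C' : Rep.{0} k G') (tr : Rep.res π C ⟶ C')
    (htr_inj : Function.Injective tr.hom)
    (htr_surj : ∀ c' : C'.V, (∀ n ∈ π.ker, C'.ρ n c' = c') → ∃ c : C.V, tr.hom c = c')
    {m : ℕ} (hkill : HOneKilledBy m C'.ρ π.ker)
    (z : groupCohomology C 2) (h0 : (groupCohomology.map π tr 2).hom z = 0) : m • z = 0 := by
  induction z using H2_induction_on with | @h f =>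
  have hcocf : ∀ g h j : G, (f : G × G → C) (g * h, j) + (f : G × G → C) (g, h) =
      C.ρ g ((f : G × G → C) (h, j)) + (f : G × G → C) (g, h * j) :=
    (mem_cocycles₂_iff _).1 f.2
  have h1 : H2π C' (mapCocycles₂ π tr f) = 0 := by
    rw [← H2π_comp_map_apply π]; exact h0
  obtain ⟨(c : G' → C'), hc⟩ := (H2π_eq_zero_iff _).1 h1
  -- equivariance of `tr`
  have htr_eq : ∀ (a : G') (x : C.V), tr.hom (C.ρ (π a) x) = C'.ρ a (tr.hom x) := by
    intro a x
    exact Rep.hom_comm_apply tr a x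
  set f' : G' × G' → C' := fun q => tr.hom ((f : G × G → C) (π q.1, π q.2)) with hf'
  have hc' : f' = dOne C'.ρ c := by
    funext ⟨a, b⟩
    have := congr_fun hc (a, b)
    rw [d₁₂_hom_apply] at this
    rw [dOne_apply, this]
    rfl
  have hker : ∀ s ∈ π.ker, ∀ a : G', π (a * s) = π a := by
    intro s hs a
    rw [map_mul, MonoidHom.mem_ker.1 hs, mul_one]
  obtain ⟨c', hd, hright, hval⟩ := exists_invariant_cochain_of_inf_coboundary_nsmul C'.ρ π.ker
    hkill (f' := f')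
    (fun s hs a b => by simp only [hf', hker s hs])
    (fun s hs a b => by simp only [hf', hker s hs])
    (fun s hs a b => by
      simp only [hf']
      rw [← htr_eq, MonoidHom.mem_ker.1 hs, map_one]
      rfl) c hc'
  -- descend `c'` to a cochain of `G` with values in `C`
  have hex : ∀ g : G, ∃ x : C.V, ∀ a : G', π a = g → tr.hom x = c' a := by
    intro g
    obtain ⟨a₀, ha₀⟩ := hπ g
    obtain ⟨x, hx⟩ := htr_surj (c' a₀) (fun n hn => hval n hn a₀)
    refine ⟨x, fun a ha => ?_⟩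
    have hs : a₀⁻¹ * a ∈ π.ker := by
      rw [MonoidHom.mem_ker, map_mul, map_inv, ha₀, ha, inv_mul_cancel]
    have : a = a₀ * (a₀⁻¹ * a) := by group
    rw [hx, this, hright _ hs]
  choose c₀ hc₀ using hex
  rw [← map_nsmul, H2π_eq_zero_iff]
  refine ⟨c₀, ?_⟩
  funext ⟨g, h⟩
  obtain ⟨a, rfl⟩ := hπ g
  obtain ⟨b, rfl⟩ := hπ h
  apply htr_inj
  rw [d₁₂_hom_apply]
  have hd' := congr_fun hd (a, b)
  rw [dOne_apply] at hd'
  have e1 : tr.hom (c₀ (π b)) = c' b := hc₀ (π b) b rfl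
  have e2 : tr.hom (c₀ (π a * π b)) = c' (a * b) := hc₀ (π a * π b) (a * b) (map_mul π a b)
  have e3 : tr.hom (c₀ (π a)) = c' a := hc₀ (π a) a rfl
  rw [map_add, map_sub, htr_eq, e1, e2, e3, ← hd']
  show m • tr.hom ((f : G × G → C) (π a, π b)) = tr.hom (m • (f : G × G → C) (π a, π b))
  rw [map_nsmul]

/-- **GD8, abstract form.**  `π : G' ↠ G`, `G'` finite, `tr : C → C'` injective with image the
`ker π`-invariants, `H¹(Q, C') = 0` for all `p`-subgroups `Q ≤ G'`.  Then inflation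
`groupCohomology.map π tr 2 : H²(G, C) → H²(G', C')` is injective on `p`-primary torsion. -/
theorem eq_zero_of_map_eq_zero_of_pPrimary [Finite G'] (π : G' →* G)
    (hπ : Function.Surjective π)
    (C : Rep.{0} k G) (C' : Rep.{0} k G') (tr : Rep.res π C ⟶ C')
    (htr_inj : Function.Injective tr.hom)
    (htr_surj : ∀ c' : C'.V, (∀ n ∈ π.ker, C'.ρ n c' = c') → ∃ c : C.V, tr.hom c = c')
    (p : ℕ) (hp : p.Prime)
    (hH1 : ∀ Q : Subgroup G', IsPGroup p Q →
      Limits.IsZero (groupCohomology (resSub C' Q) 1))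
    (z : groupCohomology C 2) (n : ℕ) (hz : p ^ n • z = 0)
    (h0 : (groupCohomology.map π tr 2).hom z = 0) : z = 0 := by
  have : Fact p.Prime := ⟨hp⟩
  obtain ⟨m, hm, hkill⟩ := exists_coprime_hOneKilledBy C' p hH1 π.ker
  have h1 := nsmul_eq_zero_of_map_eq_zero π hπ C C' tr htr_inj htr_surj hkill z h0
  exact eq_zero_of_coprime_nsmul (Nat.Coprime.pow_left n hm.symm) hz h1

/-- **GD8, in the exact shape of `Tow.TowerDatum.IsGood.gd8`** (`p • z = 0`). -/
theorem eq_zero_of_map_eq_zero_of_pTorsion [Finite G'] (π : G' →* G)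
    (hπ : Function.Surjective π)
    (C : Rep.{0} k G) (C' : Rep.{0} k G') (tr : Rep.res π C ⟶ C')
    (htr_inj : Function.Injective tr.hom)
    (htr_surj : ∀ c' : C'.V, (∀ n ∈ π.ker, C'.ρ n c' = c') → ∃ c : C.V, tr.hom c = c')
    (p : ℕ) (hp : p.Prime)
    (hH1 : ∀ Q : Subgroup G', IsPGroup p Q →
      Limits.IsZero (groupCohomology (resSub C' Q) 1))
    (z : groupCohomology C 2) (hz : p • z = 0)
    (h0 : (groupCohomology.map π tr 2).hom z = 0) : z = 0 :=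
  eq_zero_of_map_eq_zero_of_pPrimary π hπ C C' tr htr_inj htr_surj p hp hH1 z 1
    (by rwa [pow_one]) h0

end Descent

end Fermat.Agent.S55.T.H244

end
-- ===== PACK-END S55/T/InfDescentH244.lean

-- ===== PACK-BEGIN S55/G/SIndH237/H95/Struct.lean
section
/-
S55 / layer G / G-SIND:UCT (helper95).  Part 6: structure of the integral model `RS T L`.

With `n = ∏_{q ∈ T} q` and `I = n · RS`: `RS` is `I`-adically complete, `RS ⧸ I` is finite.
(Coordinates with respect to an integral basis: `H63.coord63`; estimates: `H959`.)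
-/



set_option autoImplicit false
set_option linter.unusedSectionVars false
set_option linter.style.haveILetI false

open scoped NumberField TensorProduct
open IsDedekindDomain

noncomputable section

namespace Fermat.Agent.S55.G.SIndH237.H95

open Fermat.Agent.S55.G Fermat.Agent.S55.G.SIndH237 Fermat.Agent.S55.G.SIndH237.H63
  Fermat.Agent.S55.G.SIndH237.H959

variable (T : Finset Nat.Primes) (L : Type) [Field L] [NumberField L]

local notation "ιB" => Module.Free.ChooseBasisIndex ℤ (𝓞 L)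

/-! ## Coordinates -/

/-- All coordinates of `z` are divisible by `n ^ N` in `ℤ_T`. -/
def CoordLe (N : ℕ) (z : AS T L) : Prop :=
  ∀ (k : ιB) (q : T), ‖QS.toPi T (coord63 T L k z) q‖ ≤ ‖((nT T : ℕ) : Qq q.1)‖ ^ N

lemma coordLe_zero_iff (z : AS T L) : CoordLe T L 0 z ↔ z ∈ RS T L := by
  constructor
  · intro h
    rw [sum_coord63 T L z]
    refine (RS T L).sum_mem fun k _ => ?_
    rw [NumberField.integralBasis_apply]
    exact tmul_mem_RS T L _ (fun q => by simpa using h k q)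
  · intro h k q
    simpa using good63_of_mem_RS T L h k q

lemma coord_basis_tmul (k j : ιB) (c : QS T) :
    coord63 T L k ((NumberField.integralBasis L j) ⊗ₜ[ℚ] c) = if j = k then c else 0 := by
  classical
  rw [coord63_tmul, Module.Basis.repr_self, Finsupp.single_apply]
  split_ifs <;> simp

lemma coord_sum_basis_tmul (k : ιB) (c : ιB → QS T) :
    coord63 T L k (∑ j : ιB, (NumberField.integralBasis L j) ⊗ₜ[ℚ] (c j)) = c k := by
  classical
  rw [map_sum]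
  simp only [coord_basis_tmul]
  rw [Finset.sum_ite_eq' Finset.univ k c]
  simp

lemma coord_natCast_pow_mul (N : ℕ) (k : ιB) (z : AS T L) :
    coord63 T L k (((nT T : ℕ) : AS T L) ^ N * z) = (nT T : QS T) ^ N * coord63 T L k z := by
  conv_lhs => rw [sum_coord63 T L z, Finset.mul_sum]
  simp only [natCast_pow_mul_tmul]
  rw [coord_sum_basis_tmul]

lemma coordLe_pow_mul {N : ℕ} {y : AS T L} (hy : y ∈ RS T L) :
    CoordLe T L N (((nT T : ℕ) : AS T L) ^ N * y) := by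
  intro k q
  rw [coord_natCast_pow_mul, toPi_mul, toPi_pow, toPi_natCast, norm_mul, norm_pow]
  have h1 := good63_of_mem_RS T L hy k q
  calc ‖((nT T : ℕ) : Qq q.1)‖ ^ N * ‖QS.toPi T (coord63 T L k y) q‖
      ≤ ‖((nT T : ℕ) : Qq q.1)‖ ^ N * 1 :=
        mul_le_mul_of_nonneg_left h1 (pow_nonneg (norm_nonneg _) _)
    _ = ‖((nT T : ℕ) : Qq q.1)‖ ^ N := mul_one _

lemma exists_eq_pow_mul_of_coordLe {N : ℕ} {z : AS T L} (h : CoordLe T L N z) :
    ∃ y ∈ RS T L, z = ((nT T : ℕ) : AS T L) ^ N * y := by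
  have h1 : ∀ k : ιB, ∃ d' ∈ ZS T, coord63 T L k z = (nT T : QS T) ^ N * d' :=
    fun k => exists_eq_pow_mul_of_norm_le T N _ (h k)
  choose d hd hd' using h1
  refine ⟨∑ k : ιB, (NumberField.integralBasis L k) ⊗ₜ[ℚ] (d k), ?_, ?_⟩
  · refine (RS T L).sum_mem fun k _ => ?_
    rw [NumberField.integralBasis_apply]
    exact tmul_mem_RS T L _ (hd k)
  · conv_lhs => rw [sum_coord63 T L z]
    rw [Finset.mul_sum]
    refine Finset.sum_congr rfl fun k _ => ?_
    rw [natCast_pow_mul_tmul, hd' k]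

lemma coordLe_iff {N : ℕ} {z : AS T L} :
    CoordLe T L N z ↔ ∃ y ∈ RS T L, z = ((nT T : ℕ) : AS T L) ^ N * y :=
  ⟨exists_eq_pow_mul_of_coordLe T L, fun ⟨_, hy, h⟩ => h ▸ coordLe_pow_mul T L hy⟩

lemma coordLe_sub {N : ℕ} {z z' : AS T L} (h : CoordLe T L N z) (h' : CoordLe T L N z') :
    CoordLe T L N (z - z') := by
  intro k q
  haveI : Fact (q.1 : ℕ).Prime := ⟨q.1.2⟩
  rw [map_sub, toPi_sub, sub_eq_add_neg]
  refine (Padic.nonarchimedean _ _).trans (max_le (h k q) ?_)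
  rw [norm_neg]
  exact h' k q

lemma eq_zero_of_coordLe {z : AS T L} (h : ∀ N, CoordLe T L N z) : z = 0 := by
  have h0 : ∀ k : ιB, coord63 T L k z = 0 := by
    intro k
    refine QS_ext T fun q => ?_
    have h1 : ∀ N : ℕ, ‖QS.toPi T (coord63 T L k z) q‖ ≤ ‖((nT T : ℕ) : Qq q.1)‖ ^ N :=
      fun N => h N k q
    have h2 : ‖QS.toPi T (coord63 T L k z) q‖ ≤ 0 :=
      ge_of_tendsto' (tendsto_pow_atTop_nhds_zero_of_lt_one (norm_nonneg _)
        (norm_nT_lt_one T q)) h1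
    rw [norm_le_zero_iff] at h2
    rw [h2]
    rfl
  rw [sum_coord63 T L z]
  simp [h0]

/-! ## Limits -/

lemma exists_limit_padic (q : T) (c : ℕ → Qq q.1)
    (hc : ∀ m n, m ≤ n → ‖c m - c n‖ ≤ ‖((nT T : ℕ) : Qq q.1)‖ ^ m) :
    ∃ ℓ : Qq q.1, ∀ m, ‖c m - ℓ‖ ≤ ‖((nT T : ℕ) : Qq q.1)‖ ^ m := by
  haveI : Fact (q.1 : ℕ).Prime := ⟨q.1.2⟩
  have hcs : CauchySeq c := by
    refine cauchySeq_of_le_geometric ‖((nT T : ℕ) : Qq q.1)‖ 1 (norm_nT_lt_one T q) fun n => ?_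
    rw [dist_eq_norm, one_mul]
    exact hc n (n + 1) (Nat.le_succ n)
  obtain ⟨ℓ, hℓ⟩ := cauchySeq_tendsto_of_complete hcs
  refine ⟨ℓ, fun m => ?_⟩
  have h1 : Filter.Tendsto (fun n => ‖c m - c n‖) Filter.atTop (nhds ‖c m - ℓ‖) :=
    (tendsto_const_nhds.sub hℓ).norm
  exact le_of_tendsto h1 (Filter.eventually_atTop.2 ⟨m, fun n hn => hc m n hn⟩)

lemma exists_limit_QS (c : ℕ → QS T)
    (hc : ∀ m n, m ≤ n → ∀ q : T,
      ‖QS.toPi T (c m - c n) q‖ ≤ ‖((nT T : ℕ) : Qq q.1)‖ ^ m) :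
    ∃ ℓ : QS T, ∀ (m : ℕ) (q : T),
      ‖QS.toPi T (c m - ℓ) q‖ ≤ ‖((nT T : ℕ) : Qq q.1)‖ ^ m := by
  have h1 : ∀ q : T, ∃ ℓ : Qq q.1, ∀ m,
      ‖QS.toPi T (c m) q - ℓ‖ ≤ ‖((nT T : ℕ) : Qq q.1)‖ ^ m :=
    fun q => exists_limit_padic T q (fun n => QS.toPi T (c n) q) fun m n hmn => by
      have := hc m n hmn q
      rwa [toPi_sub] at this
  choose ℓ hℓ using h1
  refine ⟨(QS.toPi T).symm ℓ, fun m q => ?_⟩
  rw [toPi_sub, toPi_symm_apply]
  exact hℓ q m

/-! ## The ideal `n · RS` -/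

/-- The ideal `I = n · RS` of the integral model. -/
def nIdeal : Ideal (RS T L) := Ideal.span {((nT T : ℕ) : RS T L)}

lemma mem_nIdeal_pow_iff (N : ℕ) (x : RS T L) :
    x ∈ nIdeal T L ^ N ↔ CoordLe T L N (x : AS T L) := by
  rw [nIdeal, Ideal.span_singleton_pow, Ideal.mem_span_singleton', coordLe_iff]
  constructor
  · rintro ⟨a, rfl⟩
    refine ⟨a, a.2, ?_⟩
    rw [Subring.coe_mul, Subring.coe_pow, Subring.coe_natCast, mul_comm]
  · rintro ⟨y, hy, h⟩
    refine ⟨⟨y, hy⟩, Subtype.ext ?_⟩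
    rw [Subring.coe_mul, Subring.coe_pow, Subring.coe_natCast, h, mul_comm]

lemma mem_nIdeal_iff (x : RS T L) : x ∈ nIdeal T L ↔ CoordLe T L 1 (x : AS T L) := by
  rw [← mem_nIdeal_pow_iff, pow_one]

instance isHausdorff_nIdeal : IsHausdorff (nIdeal T L) (RS T L) where
  haus' x hx := by
    refine Subtype.ext (eq_zero_of_coordLe T L fun N => ?_)
    have := hx N
    rw [SModEq.zero, smul_eq_mul, Ideal.mul_top] at this
    exact (mem_nIdeal_pow_iff T L N x).1 this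

instance isPrecomplete_nIdeal : IsPrecomplete (nIdeal T L) (RS T L) where
  prec' f hf := by
    have hf' : ∀ m n, m ≤ n → CoordLe T L m ((f m : AS T L) - (f n : AS T L)) := by
      intro m n hmn
      have := hf hmn
      rw [SModEq.sub_mem, smul_eq_mul, Ideal.mul_top, mem_nIdeal_pow_iff] at this
      exact this
    have h1 : ∀ k : ιB, ∃ ℓ : QS T, ∀ (m : ℕ) (q : T),
        ‖QS.toPi T (coord63 T L k (f m : AS T L) - ℓ) q‖ ≤ ‖((nT T : ℕ) : Qq q.1)‖ ^ m :=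
      fun k => exists_limit_QS T (fun n => coord63 T L k (f n : AS T L)) fun m n hmn q => by
        have := hf' m n hmn k q
        rwa [map_sub] at this
    choose ℓ hℓ using h1
    set Lim : AS T L := ∑ j : ιB, (NumberField.integralBasis L j) ⊗ₜ[ℚ] (ℓ j) with hLim
    have hL : ∀ m, CoordLe T L m ((f m : AS T L) - Lim) := by
      intro m k q
      rw [map_sub, hLim, coord_sum_basis_tmul]
      exact hℓ k m q
    have hmem : Lim ∈ RS T L := by
      rw [← coordLe_zero_iff]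
      have h0 : CoordLe T L 0 (f 0 : AS T L) := (coordLe_zero_iff T L _).2 (f 0).2
      have := coordLe_sub T L h0 (hL 0)
      rwa [sub_sub_cancel] at this
    refine ⟨⟨Lim, hmem⟩, fun n => ?_⟩
    rw [SModEq.sub_mem, smul_eq_mul, Ideal.mul_top, mem_nIdeal_pow_iff]
    exact hL n

instance isAdicComplete_nIdeal : IsAdicComplete (nIdeal T L) (RS T L) where

/-! ## Finiteness of `RS ⧸ n · RS` -/

lemma exists_nat_lt_approx (c : QS T) (hc : c ∈ ZS T) :
    ∃ r : ℕ, r < nT T ∧ ∀ q : T, ‖QS.toPi T c q - (r : Qq q.1)‖ ≤ ‖((nT T : ℕ) : Qq q.1)‖ ^ 1 := by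
  obtain ⟨r, hr⟩ := exists_nat_approx T c hc 1
  refine ⟨r % nT T, Nat.mod_lt _ (nT_pos T), fun q => ?_⟩
  haveI : Fact (q.1 : ℕ).Prime := ⟨q.1.2⟩
  have h1 : QS.toPi T c q - ((r % nT T : ℕ) : Qq q.1) =
      (QS.toPi T c q - (r : Qq q.1)) + ((nT T : ℕ) : Qq q.1) * ((r / nT T : ℕ) : Qq q.1) := by
    have h2 : ((r : ℕ) : Qq q.1) =
        ((nT T : ℕ) : Qq q.1) * ((r / nT T : ℕ) : Qq q.1) + ((r % nT T : ℕ) : Qq q.1) := by
      rw [← Nat.cast_mul, ← Nat.cast_add, Nat.div_add_mod]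
    rw [h2]
    ring
  rw [h1]
  refine (Padic.nonarchimedean _ _).trans (max_le (hr q) ?_)
  rw [norm_mul, pow_one]
  calc ‖((nT T : ℕ) : Qq q.1)‖ * ‖((r / nT T : ℕ) : Qq q.1)‖
      ≤ ‖((nT T : ℕ) : Qq q.1)‖ * 1 :=
        mul_le_mul_of_nonneg_left (by
          have := Padic.norm_int_le_one (p := (q.1 : ℕ)) ((r / nT T : ℕ) : ℤ)
          rwa [Int.cast_natCast] at this) (norm_nonneg _)
    _ = ‖((nT T : ℕ) : Qq q.1)‖ := mul_one _

lemma natCast_mem_ZS (r : ℕ) : (r : QS T) ∈ ZS T := natCast_mem _ _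

instance finite_quotient_nIdeal : Finite (RS T L ⧸ nIdeal T L) := by
  classical
  let φ : (ιB → Fin (nT T)) → RS T L ⧸ nIdeal T L := fun r =>
    Ideal.Quotient.mk (nIdeal T L)
      ⟨∑ j : ιB, (NumberField.integralBasis L j) ⊗ₜ[ℚ] (((r j : ℕ) : QS T)),
        (RS T L).sum_mem fun k _ => by
          rw [NumberField.integralBasis_apply]
          exact tmul_mem_RS T L _ (natCast_mem_ZS T _)⟩
  refine Finite.of_surjective φ fun x => ?_
  obtain ⟨x, rfl⟩ := Ideal.Quotient.mk_surjective x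
  have h1 : ∀ k : ιB, ∃ r : ℕ, r < nT T ∧ ∀ q : T,
      ‖QS.toPi T (coord63 T L k (x : AS T L)) q - (r : Qq q.1)‖ ≤
        ‖((nT T : ℕ) : Qq q.1)‖ ^ 1 :=
    fun k => exists_nat_lt_approx T _ (good63_of_mem_RS T L x.2 k)
  choose r hr hr' using h1
  refine ⟨fun k => ⟨r k, hr k⟩, ?_⟩
  rw [eq_comm, Ideal.Quotient.eq, mem_nIdeal_iff]
  intro k q
  have hsub : ((x - ⟨∑ j : ιB, (NumberField.integralBasis L j) ⊗ₜ[ℚ] (((r j : ℕ) : QS T)),
      (RS T L).sum_mem fun k _ => by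
        rw [NumberField.integralBasis_apply]
        exact tmul_mem_RS T L _ (natCast_mem_ZS T _)⟩ : RS T L) : AS T L) =
      (x : AS T L) - ∑ j : ιB, (NumberField.integralBasis L j) ⊗ₜ[ℚ] (((r j : ℕ) : QS T)) := rfl
  change ‖QS.toPi T (coord63 T L k ((x - ⟨∑ j : ιB,
    (NumberField.integralBasis L j) ⊗ₜ[ℚ] (((r j : ℕ) : QS T)), _⟩ : RS T L) : AS T L)) q‖ ≤ _
  rw [hsub, map_sub, coord_sum_basis_tmul, toPi_sub, toPi_natCast]
  exact hr' k q

end Fermat.Agent.S55.G.SIndH237.H95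

end
end
-- ===== PACK-END S55/G/SIndH237/H95/Struct.lean

-- ===== PACK-BEGIN Lib/Cheb/H476/Strong.lean
section



/-!
# CHEB Tier 1, strong client forms

* `frobeniusDivision_strong` : as `frobeniusDivision`, but the inertia groups at ALL valuation
  subrings over `ℓ` act trivially on `E` (so that Prelude's `IsUnramifiedAt ℓ` follows).
* `exists_frobenius_division_map_strong` : homomorphisms factoring through a finite level.
* `isFrobeniusAt_apply_of_pow_eq_one` : a Frobenius element at `ℓ` raises roots of unity of order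
  prime to `ℓ` to the `ℓ`-th power.
* `dvd_sub_one_of_isFrobeniusAt_fixes` : if a Frobenius element at `ℓ ∤ m` fixes a primitive
  `m`-th root of unity, then `ℓ ≡ 1 mod m`.
-/

set_option autoImplicit false
set_option linter.style.haveILetI false

open scoped Pointwise

namespace Fermat.Agent.Lib.Cheb.H476

open Fermat.Agent.Lib.Cheb.Spec

/-- Elements of `Gal(ℚ̄/ℚ)` preserve normal intermediate fields. -/
theorem apply_mem_of_normal (L : IntermediateField ℚ Qb) [Normal ℚ L] (g : GQ) {x : Qb}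
    (hx : x ∈ L) : g x ∈ L := by
  have h := AlgEquiv.restrictNormal_commutes g L ⟨x, hx⟩
  have h2 : g x = ((AlgEquiv.restrictNormal g L ⟨x, hx⟩ : L) : Qb) := h.symm
  rw [h2]
  exact (AlgEquiv.restrictNormal g L ⟨x, hx⟩).2

/-- **Frobenius division, strong form**: the prime `ℓ` is unramified in `E` at every valuation
subring over `ℓ`. -/
theorem frobeniusDivision_strong (E : IntermediateField ℚ Qb) [FiniteDimensional ℚ E]
    (σ : GQ) (S : Finset ℕ) :
    ∃ (ℓ : ℕ) (A : ValuationSubring Qb) (τ : GQ) (k j : ℕ),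
      ℓ.Prime ∧ ℓ ∉ S ∧ A.LiesOverPrime ℓ ∧ A.IsFrobeniusAt τ ℓ ∧
      (∀ A' : ValuationSubring Qb, A'.LiesOverPrime ℓ →
        ∀ ι ∈ A'.inertiaSubgroupIn ℚ, ∀ x ∈ E, ι x = x) ∧
      (∀ x ∈ E, τ x = (σ ^ k) x) ∧ (∀ x ∈ E, (τ ^ j) x = σ x) := by
  haveI := numberField_normalClosure E
  haveI := isGalois_normalClosure E
  have hEL : E ≤ IntermediateField.normalClosure ℚ E Qb := IntermediateField.le_normalClosure E
  obtain ⟨ℓ, A, τ, k, j, hℓ, hℓS, hA, hτ, hin, hk, hj⟩ :=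
    _root_.Fermat.Agent.Lib.Cheb.H476.frobeniusDivision (IntermediateField.normalClosure ℚ E Qb) inferInstance σ S
  refine ⟨ℓ, A, τ, k, j, hℓ, hℓS, hA, hτ, ?_, fun x hx => hk x (hEL hx),
    fun x hx => hj x (hEL hx)⟩
  intro A' hA' ι' hι' x hx
  obtain ⟨g, ι, hι, rfl⟩ := exists_conj_of_mem_inertia hℓ hA hA' hι'
  have h1 : g⁻¹ x ∈ IntermediateField.normalClosure ℚ E Qb :=
    apply_mem_of_normal _ g⁻¹ (hEL hx)
  rw [conj_apply, hin ι hι _ h1, apply_inv_apply]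

/-- **Frobenius division for homomorphisms, strong form**: `ρ` is trivial on the inertia groups
at all valuation subrings over `ℓ`. -/
theorem exists_frobenius_division_map_strong {M : Type} [Monoid M] (ρ : GQ →* M)
    (hρ : GaloisFactorsThroughFiniteLevel ρ) (σ : GQ) (S : Finset ℕ) :
    ∃ (ℓ : ℕ) (A : ValuationSubring Qb) (τ : GQ) (k j : ℕ),
      ℓ.Prime ∧ ℓ ∉ S ∧ A.LiesOverPrime ℓ ∧ A.IsFrobeniusAt τ ℓ ∧
      (∀ A' : ValuationSubring Qb, A'.LiesOverPrime ℓ →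
        ∀ ι ∈ A'.inertiaSubgroupIn ℚ, ρ ι = 1) ∧
      ρ τ = ρ σ ^ k ∧ ρ σ = ρ τ ^ j := by
  obtain ⟨E, hE, hρE⟩ := hρ
  haveI := hE
  obtain ⟨ℓ, A, τ, k, j, hℓ, hℓS, hA, hτ, hin, hk, hj⟩ := frobeniusDivision_strong E σ S
  refine ⟨ℓ, A, τ, k, j, hℓ, hℓS, hA, hτ, fun A' hA' ι hι => hρE ι (hin A' hA' ι hι), ?_, ?_⟩
  · have h1 := hρE _ (inv_mul_apply_eq_of_agree E hk)
    have h2 : ρ τ = ρ (σ ^ k) * ρ ((σ ^ k)⁻¹ * τ) := by
      rw [← map_mul, mul_inv_cancel_left]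
    rw [h2, h1, mul_one, map_pow]
  · have h1 := hρE _ (inv_mul_apply_eq_of_agree E hj)
    have h2 : ρ (τ ^ j) = ρ σ * ρ (σ⁻¹ * τ ^ j) := by
      rw [← map_mul, mul_inv_cancel_left]
    rw [h1, mul_one, map_pow] at h2
    exact h2.symm

/-! ### Frobenius elements and roots of unity -/

theorem mul_mem_nonunits_of_mem (A : ValuationSubring Qb) {x a : Qb} (hx : x ∈ A.nonunits)
    (ha : a ∈ A) : x * a ∈ A.nonunits := by
  rw [A.mem_nonunits_iff] at hx ⊢
  rw [mul_comm, map_mul]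
  exact mul_lt_of_le_one_of_lt ((A.valuation_le_one_iff a).mpr ha) hx

theorem one_notMem_nonunits (A : ValuationSubring Qb) : (1 : Qb) ∉ A.nonunits := by
  rw [A.mem_nonunits_iff, map_one]
  exact lt_irrefl _

theorem mem_of_pow_eq_one (A : ValuationSubring Qb) {m : ℕ} (hm : m ≠ 0) {η : Qb}
    (hη : η ^ m = 1) : η ∈ A := by
  apply Fermat.Agent.S54.isIntegral_mem_valuationSubring A
  exact IsIntegral.of_pow (Nat.pos_of_ne_zero hm) (hη ▸ isIntegral_one)

/-- If `η ≠ 1` is an `m`-th root of unity with `η - 1` in the maximal ideal of `A`, then `m` lies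
in the maximal ideal of `A`. -/
theorem natCast_mem_nonunits_of_root (A : ValuationSubring Qb) {m : ℕ} {η : Qb}
    (hη : η ^ m = 1) (hη1 : η ≠ 1) (h : η - 1 ∈ A.nonunits) : (m : Qb) ∈ A.nonunits := by
  rcases Nat.eq_zero_or_pos m with rfl | hm
  · rw [Nat.cast_zero]
    exact A.nonunits.zero_mem
  have hηA : η ∈ A := mem_of_pow_eq_one A hm.ne' hη
  have hsum : ∑ i ∈ Finset.range m, η ^ i = 0 := by
    have h1 := mul_geom_sum η m
    rw [hη, sub_self] at h1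
    rcases mul_eq_zero.mp h1 with h2 | h2
    · exact absurd (sub_eq_zero.mp h2) hη1
    · exact h2
  have hm' : (m : Qb) = ∑ i ∈ Finset.range m, (1 - η ^ i) := by
    rw [Finset.sum_sub_distrib, hsum, sub_zero, Finset.sum_const, Finset.card_range,
      nsmul_eq_mul, mul_one]
  rw [hm']
  refine sum_mem fun i _ => ?_
  have h2 : 1 - η ^ i = (η - 1) * (-(∑ j ∈ Finset.range i, η ^ j)) := by
    rw [mul_neg, mul_geom_sum]
    ring
  rw [h2]
  exact mul_mem_nonunits_of_mem A h (A.neg_mem _ (sum_mem fun j _ => A.pow_mem hηA j))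

/-- A Frobenius element at `ℓ` raises every root of unity of order prime to `ℓ` to the `ℓ`-th
power. -/
theorem isFrobeniusAt_apply_of_pow_eq_one {A : ValuationSubring Qb} {τ : GQ} {ℓ m : ℕ}
    (hℓ : ℓ.Prime) (hA : A.LiesOverPrime ℓ) (hτ : A.IsFrobeniusAt τ ℓ) (hm : ¬ ℓ ∣ m)
    {ζ : Qb} (hζ : ζ ^ m = 1) : τ ζ = ζ ^ ℓ := by
  have hm0 : m ≠ 0 := by
    rintro rfl
    exact hm (dvd_zero ℓ)
  have hζA : ζ ∈ A := mem_of_pow_eq_one A hm0 hζ
  have hζ0 : ζ ≠ 0 := by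
    rintro rfl
    rw [zero_pow hm0] at hζ
    exact zero_ne_one hζ
  have hFrob := ((isFrobeniusAt_iff A τ ℓ).mp hτ).2 ζ hζA
  by_contra hne
  -- the quotient `η = τ ζ / ζ ^ ℓ`
  have hη : (τ ζ * (ζ ^ ℓ)⁻¹) ^ m = 1 := by
    rw [mul_pow, ← map_pow, hζ, map_one, one_mul, inv_pow, ← pow_mul, mul_comm ℓ m, pow_mul, hζ,
      one_pow, inv_one]
  have hη1 : τ ζ * (ζ ^ ℓ)⁻¹ ≠ 1 := by
    intro h
    apply hne
    have := congrArg (· * ζ ^ ℓ) h
    simpa [hζ0] using this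
  have hinvA : (ζ ^ ℓ)⁻¹ ∈ A := by
    apply mem_of_pow_eq_one A hm0
    rw [inv_pow, ← pow_mul, mul_comm ℓ m, pow_mul, hζ, one_pow, inv_one]
  have hsub : τ ζ * (ζ ^ ℓ)⁻¹ - 1 ∈ A.nonunits := by
    have h1 : τ ζ * (ζ ^ ℓ)⁻¹ - 1 = (τ ζ - ζ ^ ℓ) * (ζ ^ ℓ)⁻¹ := by
      rw [sub_mul, mul_inv_cancel₀ (pow_ne_zero ℓ hζ0)]
    rw [h1]
    exact mul_mem_nonunits_of_mem A hFrob hinvA
  have hmA := natCast_mem_nonunits_of_root A hη hη1 hsub
  -- Bezout
  have hcop : IsCoprime (ℓ : ℤ) (m : ℤ) :=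
    Nat.isCoprime_iff_coprime.mpr ((Nat.Prime.coprime_iff_not_dvd hℓ).mpr hm)
  obtain ⟨a, b, hab⟩ := hcop
  have h1 : ((a : ℤ) : Qb) * (ℓ : Qb) + ((b : ℤ) : Qb) * (m : Qb) = 1 := by
    have := congrArg (fun z : ℤ => (z : Qb)) hab
    simpa using this
  have h2 : (1 : Qb) ∈ A.nonunits := by
    rw [← h1]
    refine A.nonunits.add_mem ?_ ?_
    · rw [mul_comm]
      exact mul_mem_nonunits_of_mem A hA (intCast_mem A a)
    · rw [mul_comm]
      exact mul_mem_nonunits_of_mem A hmA (intCast_mem A b)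
  exact one_notMem_nonunits A h2

/-- If a Frobenius element at `ℓ ∤ m` fixes a primitive `m`-th root of unity then
`ℓ ≡ 1 mod m`. -/
theorem dvd_sub_one_of_isFrobeniusAt_fixes {A : ValuationSubring Qb} {τ : GQ} {ℓ m : ℕ}
    (hℓ : ℓ.Prime) (hA : A.LiesOverPrime ℓ) (hτ : A.IsFrobeniusAt τ ℓ) (hm : ¬ ℓ ∣ m)
    {ζ : Qb} (hζ : IsPrimitiveRoot ζ m) (hfix : τ ζ = ζ) : m ∣ ℓ - 1 := by
  have h1 := isFrobeniusAt_apply_of_pow_eq_one hℓ hA hτ hm hζ.pow_eq_one
  rw [hfix] at h1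
  have hm0 : m ≠ 0 := by
    rintro rfl
    exact hm (dvd_zero ℓ)
  have hζ0 : ζ ≠ 0 := hζ.ne_zero hm0
  apply hζ.dvd_of_pow_eq_one
  have h2 : ζ ^ ℓ = ζ ^ (ℓ - 1) * ζ := by
    rw [← pow_succ, Nat.sub_add_cancel hℓ.one_le]
  rw [h2] at h1
  have h3 : ζ ^ (ℓ - 1) * ζ = 1 * ζ := by rw [one_mul]; exact h1.symm
  exact mul_right_cancel₀ hζ0 h3

end Fermat.Agent.Lib.Cheb.H476

end
-- ===== PACK-END Lib/Cheb/H476/Strong.lean

-- ===== PACK-BEGIN S41/H744/IHPrime.lean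
section




/-!
# S41, block IH' (helper744): characters of `Γ₀(N)[1/q]` are Eisenstein at many primes

`G = Γ₀(N)[1/q] = H585.Delta N q`, `Φ : G → F` a homomorphism to an abelian group killed by the odd
number `p`, with `Φ (u(1)) = 0`; `φ = Φ ∘ j1`.  Let `l ∤ N`, `l ≠ q` be a prime, `γ ∈ Γ₀(N)` with lower
left entry `c`, and `κ` with

* `l ≡ 1 mod c`,
* `q ^ (2 κ) ≡ 1 mod c`,
* `p ∣ orderOf (q ^ (2 κ) mod l)`.

Then `(T_l φ) γ = 2 • φ γ`.  No congruence subgroup property is used.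
-/

set_option autoImplicit false
set_option linter.unusedSectionVars false
set_option linter.unusedSimpArgs false

namespace Fermat.Agent.S41.H744

open Matrix CongruenceSubgroup Fermat.Agent.S29.H642 Fermat.Agent.S41.H281
  Fermat.Agent.S41.H585
open scoped MatrixGroups

variable {N q l : ℕ} [hq : Fact q.Prime] [hl : Fact l.Prime] {F : Type*} [AddCommGroup F]

lemma hD_zero : hD N q 0 = 1 := by
  apply Subtype.ext
  apply sl2_ext <;> simp [hD, hSL_00, hSL_01, hSL_10, hSL_11]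

/-- (L1) for `k = 0`: the value only depends on the bottom row `(C, e mod C)`. -/
lemma apply_eq_of_row (Φ : Additive (Delta N q) →+ F)
    (hu : Φ (Additive.ofMul (j1 N q (uG N 1))) = 0) (g g' : Gamma0 N)
    (hC : (g' : SL(2, ℤ)) 1 0 = (g : SL(2, ℤ)) 1 0) (hC0 : (g : SL(2, ℤ)) 1 0 ≠ 0)
    (he : (g' : SL(2, ℤ)) 1 1 ≡ (g : SL(2, ℤ)) 1 1 [ZMOD (g : SL(2, ℤ)) 1 0]) :
    Φ (Additive.ofMul (j1 N q g')) = Φ (Additive.ofMul (j1 N q g)) := by
  have h := apply_eq_sub_of_unit Φ hu g g' 0 hC hC0 (by simpa using he)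
  rw [h, hD_zero, ofMul_one, map_zero, smul_zero, sub_zero]

/-- The reindexing `t ↦ j = (t - a) / c` of `ZMod l` (inverse: `j ↦ a + j c`). -/
noncomputable def reindex (A C : ZMod l) (hC : C ≠ 0) : ZMod l ≃ ZMod l where
  toFun t := (t - A) / C
  invFun j := A + j * C
  left_inv t := by field_simp; ring
  right_inv j := by field_simp; ring

lemma reindex_spec (A C : ZMod l) (hC : C ≠ 0) (t : ZMod l) :
    A + reindex A C hC t * C = t := (reindex A C hC).left_inv t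

lemma shift_aux_h744 {x y : ZMod l} (u w : (ZMod l)ˣ) (h3 : x * (u : ZMod l) = 1)
    (h3' : y * ((u * w : (ZMod l)ˣ) : ZMod l) = 1) : x = (w : ZMod l) * y := by
  rw [Units.val_mul] at h3'
  linear_combination (y * (w : ZMod l)) * h3 - x * h3'

/-- **Theorem IH'.** -/
theorem heckeTransfer_apply_eq_two_nsmul (p : ℕ) (hp : Odd p) (hF : ∀ x : F, p • x = 0)
    (hlN : ¬ l ∣ N) (hlq : l ≠ q)
    (Φ : Additive (Delta N q) →+ F) (hu : Φ (Additive.ofMul (j1 N q (uG N 1))) = 0)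
    (γ : Gamma0 N) (κ : ℕ)
    (hlc : (l : ℤ) ≡ 1 [ZMOD (γ : SL(2, ℤ)) 1 0])
    (hκ : (q : ℤ) ^ (2 * κ) ≡ 1 [ZMOD (γ : SL(2, ℤ)) 1 0])
    (hord : p ∣ orderOf ((q : ZMod l) ^ (2 * κ))) :
    heckeTransfer hlN (Φ.comp (MonoidHom.toAdditive (j1 N q))) (Additive.ofMul γ) =
      2 • Φ (Additive.ofMul (j1 N q γ)) := by
  classical
  have hl1 : (1 : ℤ) < l := by exact_mod_cast hl.out.one_lt
  -- `c ≠ 0` and `l ∤ c`
  have hc0 : (γ : SL(2, ℤ)) 1 0 ≠ 0 := by
    intro h0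
    rw [h0, Int.modEq_zero_iff] at hlc
    omega
  have hlc' : ¬ (l : ℤ) ∣ (γ : SL(2, ℤ)) 1 0 := by
    intro hdvd
    have h1 : (l : ℤ) ≡ 1 [ZMOD (l : ℤ)] := hlc.of_dvd hdvd
    have h2 : (l : ℤ) ∣ 1 - l := Int.modEq_iff_dvd.mp h1
    have h3 : (l : ℤ) ∣ 1 := by
      have := dvd_add h2 (dvd_refl (l : ℤ))
      simpa using this
    have := Int.le_of_dvd one_pos h3
    omega
  have hCc : (((γ : SL(2, ℤ)) 1 0 : ℤ) : ZMod l) ≠ 0 := by
    intro h0
    exact hlc' ((ZMod.intCast_zmod_eq_zero_iff_dvd _ _).mp h0)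
  set φ : Additive (Gamma0 N) →+ F := Φ.comp (MonoidHom.toAdditive (j1 N q)) with hφ
  have hφ_apply : ∀ g : Gamma0 N, φ (Additive.ofMul g) = Φ (Additive.ofMul (j1 N q g)) :=
    fun _ => rfl
  -- the two terms with bottom row `(c, *)`
  have hrow : ∀ g : Gamma0 N, (g : SL(2, ℤ)) 1 0 = (γ : SL(2, ℤ)) 1 0 →
      (g : SL(2, ℤ)) 1 1 ≡ (γ : SL(2, ℤ)) 1 1 [ZMOD (γ : SL(2, ℤ)) 1 0] →
      φ (Additive.ofMul g) = φ (Additive.ofMul γ) := fun g h1 h2 =>
    apply_eq_of_row Φ hu γ g h1 hc0 h2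
  have hinf : φ (Additive.ofMul (hElt hlN γ OnePoint.infty)) = φ (Additive.ofMul γ) := by
    obtain ⟨h1, h2⟩ := hElt_infty_row hlN γ hlc'
    refine hrow _ h1 ?_
    have h3 := hlc.mul_right (((hElt hlN γ OnePoint.infty : Gamma0 N) : SL(2, ℤ)) 1 1)
    rw [one_mul] at h3
    exact h3.symm.trans h2
  set A : ZMod l := (((γ : SL(2, ℤ)) 0 0 : ℤ) : ZMod l) with hA
  set C : ZMod l := (((γ : SL(2, ℤ)) 1 0 : ℤ) : ZMod l) with hC
  have hzero : φ (Additive.ofMul (hElt hlN γ ((reindex A C hCc 0 : ZMod l) : OnePoint (ZMod l))))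
      = φ (Additive.ofMul γ) := by
    obtain ⟨h1, h2⟩ := hElt_coe_row_zero hlN γ (reindex A C hCc 0) (reindex_spec A C hCc 0)
    refine hrow _ h1 ?_
    rw [h2]
    have h3 := hlc.mul_right ((γ : SL(2, ℤ)) 1 1)
    rw [one_mul] at h3
    exact h3
  -- the terms with bottom row `(l c, *)`
  set G : (ZMod l)ˣ → F := fun u =>
    φ (Additive.ofMul (hElt hlN γ ((reindex A C hCc (u : ZMod l) : ZMod l) : OnePoint (ZMod l))))
    with hG
  have hq0 : (q : ZMod l) ≠ 0 := by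
    intro h0
    have := (ZMod.natCast_eq_zero_iff q l).mp h0
    exact hlq ((Nat.prime_dvd_prime_iff_eq hl.out hq.out).mp this)
  set w : (ZMod l)ˣ := Units.mk0 ((q : ZMod l) ^ (2 * κ)) (pow_ne_zero _ hq0) with hw
  have hordw : p ∣ orderOf w := by
    rw [← orderOf_units]
    exact hord
  have hcop : (Int.natAbs (l : ℤ)).Coprime (Int.natAbs ((γ : SL(2, ℤ)) 1 0)) := by
    rw [Int.natAbs_natCast]
    refine (Nat.Prime.coprime_iff_not_dvd hl.out).mpr fun hdvd => hlc' ?_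
    exact Int.natCast_dvd.mpr hdvd
  have hshift : ∀ u : (ZMod l)ˣ, G (u * w) =
      G u - (-(2 • Φ (Additive.ofMul (hD N q κ)))) := by
    intro u
    obtain ⟨h1, h2, h3⟩ := hElt_coe_row_ne hlN γ (reindex A C hCc (u : ZMod l))
      (by rw [reindex_spec]; exact u.ne_zero)
    obtain ⟨h1', h2', h3'⟩ := hElt_coe_row_ne hlN γ (reindex A C hCc ((u * w : (ZMod l)ˣ) : ZMod l))
      (by rw [reindex_spec]; exact (u * w).ne_zero)
    rw [reindex_spec] at h3 h3'
    have hl0 : (l : ℤ) ≠ 0 := by exact_mod_cast hl.out.ne_zero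
    have key := apply_eq_sub_of_unit Φ hu
      (hElt hlN γ ((reindex A C hCc ((u * w : (ZMod l)ˣ) : ZMod l) : ZMod l) : OnePoint (ZMod l)))
      (hElt hlN γ ((reindex A C hCc (u : ZMod l) : ZMod l) : OnePoint (ZMod l))) κ
      (h1.trans h1'.symm) (by rw [h1']; exact mul_ne_zero hl0 hc0) (by
        rw [h1', ← Int.modEq_and_modEq_iff_modEq_mul hcop]
        constructor
        · rw [← ZMod.intCast_eq_intCast_iff]
          have h4 := shift_aux_h744 u w h3 h3'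
          rw [h4, hw, Units.val_mk0]
          push_cast
          rfl
        · have := hκ.mul h2'
          rw [one_mul] at this
          exact h2.trans this.symm)
    simp only [hG, hφ_apply]
    rw [key]
    abel
  have hsum : ∑ u : (ZMod l)ˣ, G u = 0 :=
    sum_eq_zero_of_shift_h744 p hp hF G w _ hshift hordw
  -- assemble
  rw [heckeTransfer_apply]
  have e1 : ∑ x : OnePoint (ZMod l), φ (Additive.ofMul (hElt hlN γ x)) =
      φ (Additive.ofMul (hElt hlN γ OnePoint.infty)) +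
        ∑ j : ZMod l, φ (Additive.ofMul (hElt hlN γ (j : OnePoint (ZMod l)))) :=
    Fintype.sum_option (fun x : Option (ZMod l) => φ (Additive.ofMul (hElt hlN γ x)))
  have e2 : ∑ j : ZMod l, φ (Additive.ofMul (hElt hlN γ (j : OnePoint (ZMod l)))) =
      ∑ t : ZMod l,
        φ (Additive.ofMul (hElt hlN γ ((reindex A C hCc t : ZMod l) : OnePoint (ZMod l)))) :=
    (Equiv.sum_comp (reindex A C hCc)
      (fun j : ZMod l => φ (Additive.ofMul (hElt hlN γ (j : OnePoint (ZMod l)))))).symm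
  have e3 : ∑ t : ZMod l,
        φ (Additive.ofMul (hElt hlN γ ((reindex A C hCc t : ZMod l) : OnePoint (ZMod l)))) =
      φ (Additive.ofMul (hElt hlN γ ((reindex A C hCc 0 : ZMod l) : OnePoint (ZMod l)))) +
        ∑ t : {t : ZMod l // t ≠ 0},
          φ (Additive.ofMul (hElt hlN γ
            ((reindex A C hCc (t : ZMod l) : ZMod l) : OnePoint (ZMod l)))) :=
    Fintype.sum_eq_add_sum_subtype_ne _ 0
  have e4 : ∑ t : {t : ZMod l // t ≠ 0},
          φ (Additive.ofMul (hElt hlN γ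
            ((reindex A C hCc (t : ZMod l) : ZMod l) : OnePoint (ZMod l)))) =
      ∑ u : (ZMod l)ˣ, G u :=
    (Equiv.sum_comp unitsEquivNeZero
      (fun t : {t : ZMod l // t ≠ 0} => φ (Additive.ofMul (hElt hlN γ
            ((reindex A C hCc (t : ZMod l) : ZMod l) : OnePoint (ZMod l)))))).symm
  rw [e1, e2, e3, e4, hsum, hinf, hzero, add_zero, two_nsmul]
  rfl

end Fermat.Agent.S41.H744

end
-- ===== PACK-END S41/H744/IHPrime.lean

-- ===== PACK-BEGIN S41/H744/IharaAux.lean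
section




/-!
# S41, block IH (helper744): auxiliary steps of `IharaEigenStatement`

* `exists_Phi`   : a pair `(φ₁, φ₂)` with `r₁ φ₁ + r₂ φ₂ = 0` glues to a character `Φ` of
  `Γ₀(N)[1/q]` with `Φ ∘ j1 = φ₁` (amalgam theorem `H585.amalg_ext`);
* `exists_good_elt` : a nonzero cuspidal class is nonzero at some `γ` with `q ∤ c`;
* `dvd_orderOf_of_kummer` : the order condition of IH' from the Kummer condition;
* `eq_zero_of_r₂_eq_zero` : a cuspidal class killed by `r₂` vanishes.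
-/

set_option autoImplicit false
set_option linter.unusedSectionVars false
set_option linter.unusedSimpArgs false

namespace Fermat.Agent.S41.H744

open Matrix CongruenceSubgroup ModularCurve.Period Fermat.Agent.S29.H642 Fermat.Agent.S41.H281
  Fermat.Agent.S41.H585 Fermat.Agent.S41.Spec
open scoped MatrixGroups

variable {N q : ℕ} [hq : Fact q.Prime] {F : Type*} [AddCommGroup F]

/-- `J1 γ = J2 γ'` means `γ ∈ Γ₀(N q)` and `γ' = c_δ γ`. -/
lemma exists_of_J1_eq_J2 (γ γ' : Gamma0 N) (h : J1 N γ = J2 N q γ') :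
    ∃ g : Gamma0 (N * q), incl N q g = γ ∧ conjDelta N q g = γ' := by
  have hq0 : (q : ℚ) ≠ 0 := rq_ne_zero q
  have hq0' : (q : ℤ) ≠ 0 := by exact_mod_cast (r_ne_zero q)
  have h00 : (γ : SL(2, ℤ)) 0 0 = (γ' : SL(2, ℤ)) 0 0 := by
    have := congrArg (fun x : SL(2, ℚ) => x 0 0) h
    simp only [J1_apply, J2_00] at this
    exact_mod_cast this
  have h01 : (q : ℤ) * (γ : SL(2, ℤ)) 0 1 = (γ' : SL(2, ℤ)) 0 1 := by
    have := congrArg (fun x : SL(2, ℚ) => x 0 1) h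
    simp only [J1_apply, J2_01] at this
    have h2 : (q : ℚ) * ((γ : SL(2, ℤ)) 0 1 : ℚ) = ((γ' : SL(2, ℤ)) 0 1 : ℚ) := by
      rw [this]; field_simp
    exact_mod_cast h2
  have h10 : (γ : SL(2, ℤ)) 1 0 = (q : ℤ) * (γ' : SL(2, ℤ)) 1 0 := by
    have := congrArg (fun x : SL(2, ℚ) => x 1 0) h
    simp only [J1_apply, J2_10] at this
    exact_mod_cast this
  have h11 : (γ : SL(2, ℤ)) 1 1 = (γ' : SL(2, ℤ)) 1 1 := by
    have := congrArg (fun x : SL(2, ℚ) => x 1 1) h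
    simp only [J1_apply, J2_11] at this
    exact_mod_cast this
  have hmem : (γ : SL(2, ℤ)) ∈ Gamma0 (N * q) := by
    apply mem_Gamma0_of_dvd
    obtain ⟨t, ht⟩ := Gamma0_dvd N γ'
    refine ⟨t, ?_⟩
    rw [h10, ht]; push_cast; ring
  refine ⟨⟨(γ : SL(2, ℤ)), hmem⟩, Subtype.ext rfl, ?_⟩
  apply Subtype.ext
  apply Subtype.ext
  show conjDeltaMatrix q (γ : SL(2, ℤ)) = _
  ext i j
  fin_cases i <;> fin_cases j
  · simpa [conjDeltaMatrix] using h00
  · simpa [conjDeltaMatrix] using h01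
  · simp only [conjDeltaMatrix, Fin.mk_one, Fin.zero_eta, Matrix.of_apply, Matrix.cons_val',
      Matrix.cons_val_zero, Matrix.cons_val_one, Matrix.cons_val_fin_one]
    rw [h10, Int.mul_ediv_cancel_left _ hq0']
  · simpa [conjDeltaMatrix] using h11

/-- **Gluing** (amalgam): `r₁ φ₁ + r₂ φ₂ = 0` gives a character `Φ` of `Γ₀(N)[1/q]` extending
`φ₁`. -/
lemma exists_Phi (hNq : Nat.Coprime N q) (φ₁ φ₂ : Additive (Gamma0 N) →+ F)
    (h : r₁ N q φ₁ + r₂ N q φ₂ = 0) :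
    ∃ Φ : Additive (Delta N q) →+ F,
      ∀ g : Gamma0 N, Φ (Additive.ofMul (j1 N q g)) = φ₁ (Additive.ofMul g) := by
  have hcompat : ∀ γ γ' : Gamma0 N, J1 N γ = J2 N q γ' →
      AddMonoidHom.toMultiplicativeRight φ₁ γ = AddMonoidHom.toMultiplicativeRight (-φ₂) γ' := by
    intro γ γ' hJ
    obtain ⟨g, rfl, rfl⟩ := exists_of_J1_eq_J2 γ γ' hJ
    have h0 := congrArg (fun ψ : Additive (Gamma0 (N * q)) →+ F => ψ (Additive.ofMul g)) h
    simp only [AddMonoidHom.add_apply, AddMonoidHom.zero_apply] at h0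
    have h1 : φ₁ (Additive.ofMul (incl N q g)) = -φ₂ (Additive.ofMul (conjDelta N q g)) :=
      eq_neg_of_add_eq_zero_left h0
    show Multiplicative.ofAdd (φ₁ (Additive.ofMul (incl N q g))) =
      Multiplicative.ofAdd ((-φ₂) (Additive.ofMul (conjDelta N q g)))
    rw [h1]; rfl
  obtain ⟨Φ, ⟨hΦ1, -⟩, -⟩ := amalg_ext hNq _ _ hcompat
  refine ⟨MonoidHom.toAdditiveLeft Φ, fun g => ?_⟩
  have := hΦ1 g
  show Multiplicative.toAdd (Φ (j1 N q g)) = φ₁ (Additive.ofMul g)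
  rw [this]; rfl

lemma trace_uG (n : ℤ) :
    (((uG N n : Gamma0 N) : SL(2, ℤ)) : Matrix (Fin 2) (Fin 2) ℤ).trace ^ 2 = 4 := by
  rw [Matrix.trace_fin_two]
  show (((uG N n : Gamma0 N) : SL(2, ℤ)) 0 0 + ((uG N n : Gamma0 N) : SL(2, ℤ)) 1 1) ^ 2 = 4
  rw [uG_00, uG_11]; norm_num

/-- The lower unipotent `[[1, 0], [N, 1]]` of `Γ₀(N)`. -/
def lG (N : ℕ) : Gamma0 N := mkGamma0 N 1 0 N 1 (by ring) (dvd_refl _)

lemma trace_lG : (((lG N : Gamma0 N) : SL(2, ℤ)) : Matrix (Fin 2) (Fin 2) ℤ).trace ^ 2 = 4 := by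
  rw [Matrix.trace_fin_two]
  show (((lG N : Gamma0 N) : SL(2, ℤ)) 0 0 + ((lG N : Gamma0 N) : SL(2, ℤ)) 1 1) ^ 2 = 4
  simp only [lG, mkGamma0_00, mkGamma0_11]; norm_num

/-- A nonzero parabolic class is nonzero at some `γ` with `q ∤ c`. -/
lemma exists_good_elt (hqN : ¬ q ∣ N) (φ : Additive (Gamma0 N) →+ F)
    (hpar : IsParabolicHom (Gamma0 N) φ) (hφ : φ ≠ 0) :
    ∃ γ : Gamma0 N, φ (Additive.ofMul γ) ≠ 0 ∧ ¬ (q : ℤ) ∣ (γ : SL(2, ℤ)) 1 0 := by
  obtain ⟨γ', hγ'⟩ := DFunLike.ne_iff.mp hφ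
  set γ : Gamma0 N := Additive.toMul γ' with hγ
  have hγ0 : φ (Additive.ofMul γ) ≠ 0 := fun h0 => hγ' h0
  by_cases hc : (q : ℤ) ∣ (γ : SL(2, ℤ)) 1 0
  · refine ⟨γ * lG N, ?_, ?_⟩
    · rw [ofMul_mul, map_add, hpar (lG N) trace_lG, add_zero]
      exact hγ0
    · intro hdvd
      rw [Subgroup.coe_mul, slz_mul_apply] at hdvd
      simp only [lG, mkGamma0_00, mkGamma0_10, mul_one] at hdvd
      have h1 : (q : ℤ) ∣ (γ : SL(2, ℤ)) 1 1 * (N : ℤ) := (Int.dvd_add_right hc).mp hdvd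
      have hqp : Prime (q : ℤ) := Nat.prime_iff_prime_int.mp hq.out
      have hqN' : ¬ (q : ℤ) ∣ (N : ℤ) := fun h => hqN (Int.natCast_dvd_natCast.mp h)
      have h2 : (q : ℤ) ∣ (γ : SL(2, ℤ)) 1 1 := (hqp.dvd_or_dvd h1).resolve_right hqN'
      have hdet := Gamma0_det N γ
      have h3 : (q : ℤ) ∣ 1 := by
        rw [← hdet]
        exact dvd_sub (Dvd.dvd.mul_left h2 _) (Dvd.dvd.mul_left hc _)
      exact hqp.not_dvd_one h3
  · exact ⟨γ, hγ0, hc⟩

/-- The order condition of IH' from the Kummer condition. -/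
lemma dvd_orderOf_of_kummer {l p κ : ℕ} [hl : Fact l.Prime] (hp : p.Prime) (hlq : l ≠ q)
    (hdvd : 2 * κ * p ∣ l - 1) (hk : ¬ (q ^ ((l - 1) / p) ≡ 1 [MOD l])) :
    p ∣ orderOf ((q : ZMod l) ^ (2 * κ)) := by
  by_contra hnd
  obtain ⟨t, ht⟩ := hdvd
  have hq0 : (q : ZMod l) ≠ 0 := by
    intro h0
    have := (ZMod.natCast_eq_zero_iff q l).mp h0
    exact hlq ((Nat.prime_dvd_prime_iff_eq hl.out hq.out).mp this)
  have h1 : ((q : ZMod l) ^ (2 * κ)) ^ (p * t) = 1 := by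
    rw [← pow_mul, show 2 * κ * (p * t) = l - 1 by rw [ht]; ring]
    exact ZMod.pow_card_sub_one_eq_one hq0
  have h2 : orderOf ((q : ZMod l) ^ (2 * κ)) ∣ p * t := orderOf_dvd_of_pow_eq_one h1
  have hcop : Nat.Coprime (orderOf ((q : ZMod l) ^ (2 * κ))) p :=
    (Nat.Coprime.symm ((Nat.Prime.coprime_iff_not_dvd hp).mpr hnd))
  have h3 : orderOf ((q : ZMod l) ^ (2 * κ)) ∣ t := hcop.dvd_of_dvd_mul_left h2
  have h4 : ((q : ZMod l) ^ (2 * κ)) ^ t = 1 := orderOf_dvd_iff_pow_eq_one.mp h3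
  apply hk
  have h5 : (l - 1) / p = 2 * κ * t := by
    rw [ht, show 2 * κ * p * t = p * (2 * κ * t) by ring, Nat.mul_div_cancel_left _ hp.pos]
  rw [h5, ← ZMod.natCast_eq_natCast_iff]
  push_cast
  rw [pow_mul]
  exact h4

/-- A parabolic class killed by `r₂` vanishes (`Γ₀(N)` is generated by `c_δ(Γ₀(N q))` and the
upper unipotents). -/
lemma eq_zero_of_r₂_eq_zero (φ : Additive (Gamma0 N) →+ F)
    (hpar : IsParabolicHom (Gamma0 N) φ) (h : r₂ N q φ = 0) : φ = 0 := by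
  have hqp : Prime (q : ℤ) := Nat.prime_iff_prime_int.mp hq.out
  -- vanishing on the range of `c_δ`
  have hrange : ∀ g : Gamma0 N, (q : ℤ) ∣ (g : SL(2, ℤ)) 0 1 → φ (Additive.ofMul g) = 0 := by
    intro g hg
    obtain ⟨g', rfl⟩ := (Fermat.Agent.S41.H105.mem_range_conjDelta_iff N (r_ne_zero q) g).mpr hg
    have := congrArg (fun ψ : Additive (Gamma0 (N * q)) →+ F => ψ (Additive.ofMul g')) h
    exact this
  -- `u(x) γ u(y)` has the same value as `γ`
  have hval : ∀ (γ : Gamma0 N) (x y : ℤ),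
      φ (Additive.ofMul (uG N x * γ * uG N y)) = φ (Additive.ofMul γ) := by
    intro γ x y
    rw [ofMul_mul, ofMul_mul, map_add, map_add, hpar _ (trace_uG x), hpar _ (trace_uG y),
      zero_add, add_zero]
  -- if `q ∤ a` then some `γ u(y)` has `q ∣ b`
  have hstep : ∀ γ : Gamma0 N, ¬ (q : ℤ) ∣ (γ : SL(2, ℤ)) 0 0 → φ (Additive.ofMul γ) = 0 := by
    intro γ ha
    have hcop : IsCoprime ((γ : SL(2, ℤ)) 0 0) (q : ℤ) :=
      (hqp.coprime_iff_not_dvd.mpr ha).symm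
    obtain ⟨u, v, huv⟩ := hcop
    rw [← hval γ 0 (-(γ : SL(2, ℤ)) 0 1 * u)]
    apply hrange
    rw [Subgroup.coe_mul, Subgroup.coe_mul, slz_mul_apply, slz_mul_apply, slz_mul_apply]
    simp only [uG_00, uG_01, uG_10, uG_11]
    refine ⟨(γ : SL(2, ℤ)) 0 1 * v, ?_⟩
    linear_combination (-(γ : SL(2, ℤ)) 0 1) * huv
  refine AddMonoidHom.ext fun γ' => ?_
  obtain ⟨γ, rfl⟩ : ∃ γ : Gamma0 N, Additive.ofMul γ = γ' := ⟨Additive.toMul γ', rfl⟩
  rw [AddMonoidHom.zero_apply]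
  by_cases ha : (q : ℤ) ∣ (γ : SL(2, ℤ)) 0 0
  · -- then `q ∤ c`, replace `γ` by `u(1) γ`
    have hc : ¬ (q : ℤ) ∣ (γ : SL(2, ℤ)) 1 0 := by
      intro hc
      have hdet := Gamma0_det N γ
      have h3 : (q : ℤ) ∣ 1 := by
        rw [← hdet]
        exact dvd_sub (Dvd.dvd.mul_right ha _) (Dvd.dvd.mul_left hc _)
      exact hqp.not_dvd_one h3
    have h1 := hval γ 1 0
    rw [uG_zero, mul_one] at h1
    rw [← h1]
    apply hstep
    rw [Subgroup.coe_mul, slz_mul_apply]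
    simp only [uG_00, uG_01, one_mul]
    intro hd
    exact hc ((Int.dvd_add_right ha).mp hd)
  · exact hstep γ ha

end Fermat.Agent.S41.H744

end
-- ===== PACK-END S41/H744/IharaAux.lean

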