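import Mathlib
import Fermat.Agent.Pack.S59C.E3L0
import Fermat.Agent.Pack.S43MC.G0E12L2
import Fermat.Agent.Pack.S43MC.G0E12L1
import Fermat.Agent.Pack.S43MC.G0E14L3
import Fermat.Agent.Pack.S59C.E4L0
import Fermat.Agent.Pack.S43MC.G0E16L3
import Fermat.Agent.Pack.S59C.E3L2
import Fermat.Agent.Pack.S59C.E2L1
import Fermat.Agent.Pack.S59C.E2L2
import Fermat.Agent.Pack.S44C.G0E18L3
import Fermat.Agent.Pack.S44C.G0E13L2
import Fermat.Agent.Pack.S44C.G0E0L1
import Fermat.Agent.Pack.S59C.E0L1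
import Fermat.Agent.Pack.S43MC.G0E14L0
import Fermat.Agent.Pack.S44C.G0E13L1
import Fermat.Agent.Pack.S59C.E4L1
import Fermat.Agent.Pack.S43GC.G0E0L2
import Fermat.Agent.Pack.S44C.G0E19L0
import Fermat.Agent.Pack.S43GC.G0E2L0
import Fermat.Agent.Pack.S43GC.G0E15L1
import Fermat.Agent.Pack.S59C.E4L2
import Fermat.Agent.Pack.S43GC.G0E14L1
import Fermat.Agent.Pack.S43GC.G0E5L0
import Fermat.Agent.Pack.S59C.E4L3
import Fermat.Agent.Pack.S59C.E0L3
import Fermat.Agent.Pack.S43GC.G0E13L0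
import Fermat.Agent.Pack.S43C.E0L0
import Fermat.Agent.Pack.S43GC.G0E13L2
import Fermat.Agent.Pack.S43GC.G0E9L3

set_option linter.all false

-- ===== PACK-BEGIN S41/H585/PDMain.lean
section












/-!
# S41, block PD — unconditional assembly (helper585)

All leaves of `Spec/PD.lean` are on main; this file plugs them into helper221's assembly
`H221.pd_of_leaves`:

* `pd       : Spec.PDStatement`
* `pdHecke  : Spec.PDHeckeStatement`
* (`lift : Spec.LiftStatement`, `cuspFree : Spec.CuspFreeStatement` are in `PDLift`, `PDFree`).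
-/

set_option autoImplicit false

namespace Fermat.Agent.S41.H585

open Fermat.Agent.S41.Spec

universe u

/-- **Block PD**, unconditional. -/
theorem pd : PDStatement.{u} :=
  H221.pd_of_leaves H281.maninPerp H281.maninSkew H281.maninParDataOf
    H460.maninRepExists H460.maninRepZero H460.maninRepInvariant H460.maninRepLinear
    maninRepRealize maninRepTorsionU maninRepParabolic
    H232.maninRepRes H232.maninRepCores H232.maninFormAdjoint H232.transferAlongEquiv
    H945.heisLift H874.cuspSumZero_h874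
    H769.tOrbitSystemExists H769.tOrbitCusp H769.cuspSumIndep H769.cuspSystemConjDelta

/-- **Block PD with Hecke operators**, unconditional. -/
theorem pdHecke : PDHeckeStatement.{u} :=
  pdHecke_of_pd H281.hkStatement.2.1 H281.hkStatement.2.2.2.2.2.2.2.1 pd

end Fermat.Agent.S41.H585

end
-- ===== PACK-END S41/H585/PDMain.lean

-- ===== PACK-BEGIN S59/H396/TorsionCount.lean
section







/-!
# CR-O, part B3 (helper396): the `p`-power torsion in the kernel of reduction, multiplicative case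

`K` algebraically closed of characteristic `0`, `V ⊂ K` a valuation subring of residue
characteristic `p ≠ 2`, `W₀` a Weierstrass curve over `V` with `Δ ≠ 0`, `Δ ∈ 𝔪`, `c₄ ∈ Vˣ`
(multiplicative reduction), `E = W₀ ⊗ K`.  For `q = p^j`:

* `ncard_torsion_inKer` : exactly `q` points of `E[q]` lie in the kernel of reduction
  `E₁ = {0} ∪ {x ∉ V}`  (the formal group has height one);
* `residue_xc_of_torsion` : every other point of `E[q]` reduces to the node: `x̄(T) = x̄₀`.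
-/

set_option autoImplicit false
set_option linter.unusedSectionVars false
set_option linter.style.haveILetI false

namespace Fermat.Agent.S59.H396

open Polynomial WeierstrassCurve WeierstrassCurve.Affine
open Fermat.Agent.S13.H891
open Fermat.Agent.S51.Five (xc xc_some pointsOver card_pointsOver_le mem_pointsOver)
open Fermat.Agent.S59.H127 (finite_torsion card_torsion_eq mem_torsionBy_natCast_iff)
open Fermat.Agent.S05.SameRed (InKer)

variable {K : Type*} [Field K] [DecidableEq K]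
  (V : ValuationSubring K) (W₀ : WeierstrassCurve V)

/-- the curve over `K` -/
abbrev curveK : WeierstrassCurve.Affine K := W₀.map (algebraMap V K)

/-- the reduced curve -/
abbrev curveRes : WeierstrassCurve (IsLocalRing.ResidueField V) :=
  W₀.map (IsLocalRing.residue V)

/-- the division polynomial `W_m` over `V` -/
noncomputable abbrev polyWV (m : ℕ) : V[X] := polyW W₀.b₂ W₀.b₄ W₀.b₆ W₀.b₈ m

lemma map_polyWV_K (m : ℕ) :
    (polyWV V W₀ m).map (algebraMap V K)
      = polyW (curveK V W₀).b₂ (curveK V W₀).b₄ (curveK V W₀).b₆ (curveK V W₀).b₈ m := by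
  rw [polyWV, map_polyW]
  simp only [curveK, WeierstrassCurve.map_b₂, WeierstrassCurve.map_b₄, WeierstrassCurve.map_b₆,
    WeierstrassCurve.map_b₈]

lemma map_polyWV_res (m : ℕ) :
    (polyWV V W₀ m).map (IsLocalRing.residue V)
      = polyW (curveRes V W₀).b₂ (curveRes V W₀).b₄ (curveRes V W₀).b₆ (curveRes V W₀).b₈ m := by
  rw [polyWV, map_polyW]
  simp only [curveRes, WeierstrassCurve.map_b₂, WeierstrassCurve.map_b₄, WeierstrassCurve.map_b₆,
    WeierstrassCurve.map_b₈]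

section reduction

variable (p : ℕ) [hp : Fact p.Prime]

include hp in
lemma charP_residue (hpV : (p : V) ∈ IsLocalRing.maximalIdeal V) :
    CharP (IsLocalRing.ResidueField V) p := by
  rw [CharP.charP_iff_prime_eq_zero hp.out]
  have := (IsLocalRing.residue_eq_zero_iff (p : V)).mpr hpV
  rwa [map_natCast] at this

include hp in
lemma two_ne_zero_residue (hp2 : p ≠ 2) (hpV : (p : V) ∈ IsLocalRing.maximalIdeal V) :
    (2 : IsLocalRing.ResidueField V) ≠ 0 := by
  haveI := charP_residue V p hpV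
  intro h
  have h2 : ((2 : ℕ) : IsLocalRing.ResidueField V) = 0 := by exact_mod_cast h
  rw [CharP.cast_eq_zero_iff (IsLocalRing.ResidueField V) p 2] at h2
  exact hp2 ((Nat.prime_dvd_prime_iff_eq hp.out Nat.prime_two).mp h2)

variable (hp2 : p ≠ 2) (hpV : (p : V) ∈ IsLocalRing.maximalIdeal V)
  (hΔ : W₀.Δ ∈ IsLocalRing.maximalIdeal V) (hc4 : W₀.c₄ ∉ IsLocalRing.maximalIdeal V)

include hp hp2 hpV hΔ hc4

/-- the reduction of the `p^j`-division polynomial -/
theorem polyWV_res_eq (j m : ℕ) (hm : 1 ≤ m) (hq : 2 * m + 1 = p ^ j) :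
    (polyWV V W₀ m).map (IsLocalRing.residue V)
      = C (nodeA (curveRes V W₀) ^ m) * (X - C (nodeX (curveRes V W₀))) ^ (2 * m ^ 2 + m) := by
  haveI := charP_residue V p hpV
  rw [map_polyWV_res]
  refine polyW_of_nodal p (curveRes V W₀) (two_ne_zero_residue V p hp2 hpV) ?_ ?_ j m hm hq
  · rw [curveRes, WeierstrassCurve.map_Δ]
    exact (IsLocalRing.residue_eq_zero_iff _).mpr hΔ
  · rw [curveRes, WeierstrassCurve.map_c₄]
    exact fun h => hc4 ((IsLocalRing.residue_eq_zero_iff _).mp h)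

lemma nodeA_ne_zero : nodeA (curveRes V W₀) ≠ 0 := by
  have h := (nodal_params (curveRes V W₀) (two_ne_zero_residue V p hp2 hpV)
    (by rw [curveRes, WeierstrassCurve.map_Δ]; exact (IsLocalRing.residue_eq_zero_iff _).mpr hΔ)
    (by rw [curveRes, WeierstrassCurve.map_c₄]
        exact fun h => hc4 ((IsLocalRing.residue_eq_zero_iff _).mp h))).1
  intro h0
  rw [h0, zero_pow (by norm_num), curveRes, WeierstrassCurve.map_c₄] at h
  exact hc4 ((IsLocalRing.residue_eq_zero_iff _).mp h.symm)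

theorem natDegree_polyWV_res (j m : ℕ) (hm : 1 ≤ m) (hq : 2 * m + 1 = p ^ j) :
    ((polyWV V W₀ m).map (IsLocalRing.residue V)).natDegree = 2 * m ^ 2 + m := by
  rw [polyWV_res_eq V W₀ p hp2 hpV hΔ hc4 j m hm hq,
    Polynomial.natDegree_C_mul (pow_ne_zero m (nodeA_ne_zero V W₀ p hp2 hpV hΔ hc4)),
    Polynomial.natDegree_pow, Polynomial.natDegree_X_sub_C, mul_one]

theorem polyWV_res_ne_zero (j m : ℕ) (hm : 1 ≤ m) (hq : 2 * m + 1 = p ^ j) :
    (polyWV V W₀ m).map (IsLocalRing.residue V) ≠ 0 := by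
  rw [polyWV_res_eq V W₀ p hp2 hpV hΔ hc4 j m hm hq]
  have hA := pow_ne_zero m (nodeA_ne_zero V W₀ p hp2 hpV hΔ hc4)
  exact mul_ne_zero (by rwa [Ne, C_eq_zero]) (pow_ne_zero _ (Polynomial.X_sub_C_ne_zero _))

end reduction

section count

variable [IsAlgClosed K] [CharZero K] [hE : (curveK V W₀).IsElliptic]
variable (p : ℕ) [hp : Fact p.Prime]
variable (hp2 : p ≠ 2) (hpV : (p : V) ∈ IsLocalRing.maximalIdeal V)
  (hΔ : W₀.Δ ∈ IsLocalRing.maximalIdeal V) (hc4 : W₀.c₄ ∉ IsLocalRing.maximalIdeal V)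

lemma natDegree_polyWV (m : ℕ) (hm : 1 ≤ m) : (polyWV V W₀ m).natDegree = 2 * m ^ 2 + 2 * m := by
  rw [← Polynomial.natDegree_map_eq_of_injective (IsFractionRing.injective V K), map_polyWV_K]
  exact natDegree_polyW (curveK V W₀) m hm (Nat.cast_ne_zero.mpr (by omega))

lemma card_roots_polyWV (m : ℕ) (hm : 1 ≤ m) :
    ((polyWV V W₀ m).map (algebraMap V K)).roots.card = 2 * m ^ 2 + 2 * m := by
  rw [IsAlgClosed.card_roots_eq_natDegree,
    Polynomial.natDegree_map_eq_of_injective (IsFractionRing.injective V K),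
    natDegree_polyWV V W₀ m hm]

include hp hp2 hpV hΔ hc4

open scoped Classical in
/-- the number of non-integral / integral roots of the `p^j`-division polynomial -/
theorem card_filter_roots (j m : ℕ) (hm : 1 ≤ m) (hq : 2 * m + 1 = p ^ j) :
    (((polyWV V W₀ m).map (algebraMap V K)).roots.filter (fun r => r ∉ V)).card = m ∧
    (((polyWV V W₀ m).map (algebraMap V K)).roots.filter (fun r => r ∈ V)).card
      = 2 * m ^ 2 + m := by
  have h1 := newton_count V (polyWV V W₀ m)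
    (by rw [card_roots_polyWV V W₀ m hm, natDegree_polyWV V W₀ m hm])
    (polyWV_res_ne_zero V W₀ p hp2 hpV hΔ hc4 j m hm hq)
  rw [natDegree_polyWV_res V W₀ p hp2 hpV hΔ hc4 j m hm hq, natDegree_polyWV V W₀ m hm] at h1
  have h2 := congrArg Multiset.card
    (Multiset.filter_add_not (fun r => r ∈ V) ((polyWV V W₀ m).map (algebraMap V K)).roots)
  rw [Multiset.card_add, card_roots_polyWV V W₀ m hm] at h2
  constructor
  · omega
  · omega

/-- **`E[p^j]` meets the kernel of reduction in exactly `p^j` points.** -/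
theorem ncard_torsion_inKer (j : ℕ) :
    Set.ncard {T : (curveK V W₀).Point |
      p ^ j • T = 0 ∧ InKer (curveK V W₀) V.valuation T} = p ^ j := by
  classical
  rcases Nat.eq_zero_or_pos j with rfl | hj
  · have : {T : (curveK V W₀).Point | p ^ 0 • T = 0 ∧ InKer (curveK V W₀) V.valuation T}
        = {0} := by
      ext T
      simp only [pow_zero, one_smul, Set.mem_setOf_eq, Set.mem_singleton_iff]
      constructor
      · exact fun h => h.1
      · rintro rfl; exact ⟨rfl, trivial⟩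
    rw [this, Set.ncard_singleton, pow_zero]
  -- `q = p^j = 2m+1`
  have hpodd : Odd p := hp.out.odd_of_ne_two hp2
  have hqodd : Odd (p ^ j) := hpodd.pow
  obtain ⟨m, hqm⟩ := hqodd
  have hq : 2 * m + 1 = p ^ j := hqm.symm
  have hm : 1 ≤ m := by
    by_contra hlt
    have hm0 : m = 0 := by omega
    rw [hm0] at hq
    have : 2 ≤ p ^ j := le_trans hp.out.two_le (Nat.le_self_pow hj.ne' p)
    omega
  set E := curveK V W₀ with hEdef
  set f := (polyWV V W₀ m).map (algebraMap V K) with hf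
  have hfE : f = polyW E.b₂ E.b₄ E.b₆ E.b₈ m := map_polyWV_K V W₀ m
  have hf0 : f ≠ 0 := by
    rw [hfE]; exact polyW_ne_zero E m hm (Nat.cast_ne_zero.mpr (by omega))
  obtain ⟨hout, hin⟩ := card_filter_roots V W₀ p hp2 hpV hΔ hc4 j m hm hq
  -- the torsion
  have hq1 : 1 ≤ p ^ j := Nat.one_le_pow _ _ hp.out.pos
  haveI := finite_torsion E (p ^ j) hq1
  have hfin : {T : E.Point | p ^ j • T = 0}.Finite := by
    have h1 : {T : E.Point | p ^ j • T = 0}
        = ((Submodule.torsionBy ℤ E.Point ((p ^ j : ℕ) : ℤ) : Submodule ℤ E.Point) :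
            Set E.Point) := by
      ext T; exact mem_torsionBy_natCast_iff.symm
    rw [h1]; exact Set.toFinite _
  have hcardA : hfin.toFinset.card = (p ^ j) ^ 2 := by
    rw [← card_torsion_eq E (p ^ j), ← Set.ncard_eq_toFinset_card _ hfin,
      ← Nat.card_coe_set_eq]
    apply Nat.card_congr
    exact Equiv.subtypeEquivRight fun T => mem_torsionBy_natCast_iff.symm
  set A := hfin.toFinset with hA
  have hroot : ∀ T ∈ A, T ≠ 0 → xc T ∈ f.roots.toFinset := by
    intro T hT hT0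
    rw [hA, Set.Finite.mem_toFinset] at hT
    rw [Multiset.mem_toFinset, Polynomial.mem_roots hf0, Polynomial.IsRoot.def, hfE]
    have hT' : (2 * m + 1) • T = 0 := by rw [hq]; exact hT
    exact (torsion_iff_root hT0 m).mp hT'
  set Aout := A.filter (fun T => T ≠ 0 ∧ xc T ∉ V) with hAout
  set Ain := A.filter (fun T => T ≠ 0 ∧ xc T ∈ V) with hAin
  have hbout : Aout.card ≤ 2 * m := by
    have hsub : Aout ⊆ pointsOver E (f.roots.toFinset.filter (fun r => r ∉ V)) := by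
      intro T hT
      rw [hAout, Finset.mem_filter] at hT
      exact mem_pointsOver hT.2.1 (Finset.mem_filter.mpr ⟨hroot T hT.1 hT.2.1, hT.2.2⟩)
    calc Aout.card ≤ (pointsOver E (f.roots.toFinset.filter (fun r => r ∉ V))).card :=
          Finset.card_le_card hsub
      _ ≤ (f.roots.toFinset.filter (fun r => r ∉ V)).card * 2 := card_pointsOver_le E _
      _ ≤ (f.roots.filter (fun r => r ∉ V)).card * 2 := by
          apply Nat.mul_le_mul_right
          rw [← Multiset.toFinset_filter]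
          exact Multiset.toFinset_card_le _
      _ = 2 * m := by rw [hout]; ring
  have hbin : Ain.card ≤ 2 * (2 * m ^ 2 + m) := by
    have hsub : Ain ⊆ pointsOver E (f.roots.toFinset.filter (fun r => r ∈ V)) := by
      intro T hT
      rw [hAin, Finset.mem_filter] at hT
      exact mem_pointsOver hT.2.1 (Finset.mem_filter.mpr ⟨hroot T hT.1 hT.2.1, hT.2.2⟩)
    calc Ain.card ≤ (pointsOver E (f.roots.toFinset.filter (fun r => r ∈ V))).card :=
          Finset.card_le_card hsub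
      _ ≤ (f.roots.toFinset.filter (fun r => r ∈ V)).card * 2 := card_pointsOver_le E _
      _ ≤ (f.roots.filter (fun r => r ∈ V)).card * 2 := by
          apply Nat.mul_le_mul_right
          rw [← Multiset.toFinset_filter]
          exact Multiset.toFinset_card_le _
      _ = 2 * (2 * m ^ 2 + m) := by rw [hin]; ring
  have hcover : A ⊆ insert 0 (Aout ∪ Ain) := by
    intro T hT
    by_cases hT0 : T = 0
    · rw [hT0]; exact Finset.mem_insert_self _ _
    · apply Finset.mem_insert_of_mem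
      by_cases hx : xc T ∈ V
      · exact Finset.mem_union_right _ (Finset.mem_filter.mpr ⟨hT, hT0, hx⟩)
      · exact Finset.mem_union_left _ (Finset.mem_filter.mpr ⟨hT, hT0, hx⟩)
  have hle : A.card ≤ 1 + Aout.card + Ain.card := by
    calc A.card ≤ (insert 0 (Aout ∪ Ain)).card := Finset.card_le_card hcover
      _ ≤ (Aout ∪ Ain).card + 1 := Finset.card_insert_le _ _
      _ ≤ Aout.card + Ain.card + 1 := Nat.add_le_add_right (Finset.card_union_le _ _) 1
      _ = 1 + Aout.card + Ain.card := by ring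
  have hAoutcard : Aout.card = 2 * m := by
    rw [hcardA, ← hq] at hle
    have e : (2 * m + 1) ^ 2 = 1 + 2 * m + 2 * (2 * m ^ 2 + m) := by ring
    rw [e] at hle
    omega
  -- the target set
  have hset : {T : E.Point | p ^ j • T = 0 ∧ InKer E V.valuation T}
      = ((insert 0 Aout : Finset E.Point) : Set E.Point) := by
    ext T
    simp only [Set.mem_setOf_eq, Finset.coe_insert, Set.mem_insert_iff, Finset.mem_coe]
    constructor
    · rintro ⟨hT, hker⟩
      by_cases hT0 : T = 0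
      · exact Or.inl hT0
      · right
        rw [hAout, Finset.mem_filter, hA, Set.Finite.mem_toFinset]
        refine ⟨hT, hT0, ?_⟩
        cases T with
        | zero => exact absurd rfl hT0
        | some x y h =>
          change 1 < V.valuation x at hker
          rw [xc_some]
          intro hx
          exact (not_le.mpr hker) ((V.valuation_le_one_iff x).mpr hx)
    · rintro (rfl | hT)
      · exact ⟨smul_zero _, trivial⟩
      · rw [hAout, Finset.mem_filter, hA, Set.Finite.mem_toFinset] at hT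
        refine ⟨hT.1, ?_⟩
        obtain ⟨hT1, hT0, hx⟩ := hT
        cases T with
        | zero => exact absurd rfl hT0
        | some x y h =>
          rw [xc_some] at hx
          change 1 < V.valuation x
          rw [← not_le]
          exact fun hle => hx ((V.valuation_le_one_iff x).mp hle)
  rw [hset, Set.ncard_coe_finset, Finset.card_insert_of_notMem, hAoutcard, hq]
  rw [hAout, Finset.mem_filter]
  exact fun h => h.2.1 rfl

/-- **The other points of `E[p^j]` reduce to the node.** -/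
theorem residue_xc_of_torsion (j : ℕ) (T : (curveK V W₀).Point) (hT : p ^ j • T = 0)
    (hT0 : T ≠ 0) (hx : xc T ∈ V) :
    IsLocalRing.residue V ⟨xc T, hx⟩ = nodeX (curveRes V W₀) := by
  rcases Nat.eq_zero_or_pos j with rfl | hj
  · rw [pow_zero, one_smul] at hT
    exact absurd hT hT0
  have hpodd : Odd p := hp.out.odd_of_ne_two hp2
  have hqodd : Odd (p ^ j) := hpodd.pow
  obtain ⟨m, hqm⟩ := hqodd
  have hq : 2 * m + 1 = p ^ j := hqm.symm
  have hm : 1 ≤ m := by
    by_contra hlt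
    have hm0 : m = 0 := by omega
    rw [hm0] at hq
    have : 2 ≤ p ^ j := le_trans hp.out.two_le (Nat.le_self_pow hj.ne' p)
    omega
  have hT' : (2 * m + 1) • T = 0 := by rw [hq]; exact hT
  have h1 := (torsion_iff_root hT0 m).mp hT'
  rw [← map_polyWV_K V W₀ m] at h1
  have h2 := residue_isRoot_of_isRoot V (polyWV V W₀ m) ⟨xc T, hx⟩ h1
  rw [polyWV_res_eq V W₀ p hp2 hpV hΔ hc4 j m hm hq, Polynomial.IsRoot.def, Polynomial.eval_mul,
    Polynomial.eval_C, Polynomial.eval_pow, Polynomial.eval_sub, Polynomial.eval_X,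
    Polynomial.eval_C] at h2
  rcases mul_eq_zero.mp h2 with h3 | h3
  · exact absurd h3 (pow_ne_zero m (nodeA_ne_zero V W₀ p hp2 hpV hΔ hc4))
  · exact sub_eq_zero.mp (pow_eq_zero_iff (by positivity) |>.mp h3)

end count

end Fermat.Agent.S59.H396

end
-- ===== PACK-END S59/H396/TorsionCount.lean

-- ===== PACK-BEGIN S59/H396/OrdGeom.lean
section





/-!
# CR-O, part C2 (helper396): the decomposition group at a prime of multiplicative reduction `p`
acts on `E[p^∞] / E₁[p^∞]` by a sign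

## Torsion data (`MultTorsion`)
For a Weierstrass curve `E` over an algebraically closed valued field and a prime `p`:
* `card` : `#(E[p^j] ∩ E₁) = p^j` for all `j`  (`E₁` = kernel of reduction);
* `rad`  : every point of `E[p^j]` with integral `x` has singular reduction (`rad < 1`).
`multTorsion_curveK` : this holds for `E = W₀ ⊗ K`, `W₀` over a valuation subring `V` of residue
characteristic `p ≠ 2`, `Δ ∈ 𝔪`, `c₄ ∈ Vˣ`  (from `TorsionCount`).

## Galois action (abstract setting of `H240.Unip`)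
`σ : K ≃ₐ[S] K` preserving the valuation, `E = W'⁄K` with `MultTorsion`:
* `inKer_smul`            : `σ E₁ = E₁`;
* `inKer_of_inE0`         : `E₀ ∩ E[p^j] ⊆ E₁`;
* `inKer_smul_sub`        : `σ P - P ∈ E₁` for `P ∈ E[p^j]` if `σ` acts trivially on the residue
                            field;
* `inKer_smul_sub_or_add` : `σ P - P ∈ E₁` or `σ P + P ∈ E₁` for `P ∈ E[p^j]`;
* `exists_sign`           : there is `z = ±1` with `σ P - z P ∈ E₁` for ALL `P ∈ E[p^∞]`.
-/

set_option autoImplicit false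
set_option linter.unusedSectionVars false
set_option linter.unusedVariables false
set_option linter.style.haveILetI false

namespace Fermat.Agent.S59.H396

open WeierstrassCurve WeierstrassCurve.Affine
open Fermat.Agent.S05.SameRed (IntegralCoeffs InKer)
open Fermat.Agent.S05
open Fermat.Agent.S59.H240
open Fermat.Agent.S51.Five (xc xc_some)

section data

variable {K : Type*} [Field K] [DecidableEq K] {Γ₀ : Type*} [LinearOrderedCommGroupWithZero Γ₀]

/-- the torsion data at a prime of multiplicative reduction -/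
structure MultTorsion (E : WeierstrassCurve.Affine K) (v : Valuation K Γ₀) (p : ℕ) : Prop where
  card : ∀ j : ℕ, Set.ncard {T : E.Point | p ^ j • T = 0 ∧ InKer E v T} = p ^ j
  rad : ∀ (j : ℕ) {x y : K} (h : E.Nonsingular x y), p ^ j • Point.some x y h = 0 → v x ≤ 1 →
    rad E v x y < 1

end data

section curveK

variable {K : Type*} [Field K] [DecidableEq K]
  (V : ValuationSubring K) (W₀ : WeierstrassCurve V)

lemma integralCoeffs_curveK : IntegralCoeffs (curveK V W₀) V.valuation :=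
  ⟨by rw [curveK, WeierstrassCurve.map_a₁]; exact V.valuation_le_one _,
   by rw [curveK, WeierstrassCurve.map_a₂]; exact V.valuation_le_one _,
   by rw [curveK, WeierstrassCurve.map_a₃]; exact V.valuation_le_one _,
   by rw [curveK, WeierstrassCurve.map_a₄]; exact V.valuation_le_one _,
   by rw [curveK, WeierstrassCurve.map_a₆]; exact V.valuation_le_one _⟩

lemma val_lt_one_of_residue_eq_zero (t : V) (ht : IsLocalRing.residue V t = 0) :
    V.valuation (t : K) < 1 :=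
  (V.valuation_lt_one_iff t).mp ((IsLocalRing.residue_eq_zero_iff t).mp ht)

variable [IsAlgClosed K] [CharZero K] [hE : (curveK V W₀).IsElliptic]
variable (p : ℕ) [hp : Fact p.Prime]
variable (hp2 : p ≠ 2) (hpV : (p : V) ∈ IsLocalRing.maximalIdeal V)
  (hΔ : W₀.Δ ∈ IsLocalRing.maximalIdeal V) (hc4 : W₀.c₄ ∉ IsLocalRing.maximalIdeal V)

include hp hp2 hpV hΔ hc4

/-- **Integral `p`-power torsion points have singular reduction.** -/
theorem rad_lt_one_of_torsion (j : ℕ) {x y : K} (h : (curveK V W₀).Nonsingular x y)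
    (hT : p ^ j • Point.some x y h = 0) (hx : V.valuation x ≤ 1) :
    rad (curveK V W₀) V.valuation x y < 1 := by
  have hW := integralCoeffs_curveK V W₀
  have hy : V.valuation y ≤ 1 := GoodRed.val_y_le_one hW h.1 hx
  have hxV : x ∈ V := (V.valuation_le_one_iff x).mp hx
  have hyV : y ∈ V := (V.valuation_le_one_iff y).mp hy
  -- the residues
  set X : V := ⟨x, hxV⟩ with hXdef
  set Y : V := ⟨y, hyV⟩ with hYdef
  set r := IsLocalRing.residue V with hr
  have h2k : (2 : IsLocalRing.ResidueField V) ≠ 0 := two_ne_zero_residue V p hp2 hpV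
  -- the equation over `V`
  have hEqV : Y ^ 2 + W₀.a₁ * X * Y + W₀.a₃ * Y = X ^ 3 + W₀.a₂ * X ^ 2 + W₀.a₄ * X + W₀.a₆ := by
    apply Subtype.ext
    have := (Affine.equation_iff x y).mp h.1
    simp only [curveK, WeierstrassCurve.map_a₁, WeierstrassCurve.map_a₂, WeierstrassCurve.map_a₃,
      WeierstrassCurve.map_a₄, WeierstrassCurve.map_a₆] at this
    push_cast
    exact this
  have hEqk := congrArg r hEqV
  simp only [map_add, map_mul, map_pow] at hEqk
  -- the node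
  have hnode : r X = nodeX (curveRes V W₀) :=
    residue_xc_of_torsion V W₀ p hp2 hpV hΔ hc4 j _ hT (Point.some_ne_zero h)
      (by rw [xc_some]; exact hxV)
  have hΔk : (curveRes V W₀).Δ = 0 := by
    rw [curveRes, WeierstrassCurve.map_Δ]
    exact (IsLocalRing.residue_eq_zero_iff _).mpr hΔ
  have hc4k : (curveRes V W₀).c₄ ≠ 0 := by
    rw [curveRes, WeierstrassCurve.map_c₄]
    exact fun h0 => hc4 ((IsLocalRing.residue_eq_zero_iff _).mp h0)
  obtain ⟨-, hb2, hb4, hb6, -⟩ := nodal_params (curveRes V W₀) h2k hΔk hc4k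
  simp only [curveRes, WeierstrassCurve.b₂, WeierstrassCurve.b₄, WeierstrassCurve.b₆,
    WeierstrassCurve.map_a₁, WeierstrassCurve.map_a₂, WeierstrassCurve.map_a₃,
    WeierstrassCurve.map_a₄, WeierstrassCurve.map_a₆] at hb2 hb4 hb6
  rw [← hr] at hb2 hb4 hb6
  generalize nodeA (curveRes V W₀) = A at hb2 hb4 hb6
  rw [← hnode] at hb2 hb4 hb6
  -- `gY` reduces to zero
  have hgY : r (2 * Y + W₀.a₁ * X + W₀.a₃) = 0 := by
    have hsq : r (2 * Y + W₀.a₁ * X + W₀.a₃) ^ 2 = 0 := by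
      simp only [map_add, map_mul, map_ofNat]
      linear_combination 4 * hEqk + (r X) ^ 2 * hb2 + 2 * r X * hb4 + hb6
    exact pow_eq_zero_iff (two_ne_zero) |>.mp hsq
  -- `gX` reduces to zero
  have hgX : r (W₀.a₁ * Y - (3 * X ^ 2 + 2 * W₀.a₂ * X + W₀.a₄)) = 0 := by
    have h4 : (4 : IsLocalRing.ResidueField V) ≠ 0 := by
      have : (4 : IsLocalRing.ResidueField V) = 2 * 2 := by norm_num
      rw [this]; exact mul_ne_zero h2k h2k
    have h4z : 4 * r (W₀.a₁ * Y - (3 * X ^ 2 + 2 * W₀.a₂ * X + W₀.a₄)) = 0 := by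
      simp only [map_add, map_mul, map_ofNat, map_sub, map_pow] at hgY ⊢
      linear_combination 2 * r W₀.a₁ * hgY - 2 * r X * hb2 - 2 * hb4
    exact (mul_eq_zero.mp h4z).resolve_left h4
  have e1 : gX (curveK V W₀) x y
      = ((W₀.a₁ * Y - (3 * X ^ 2 + 2 * W₀.a₂ * X + W₀.a₄) : V) : K) := by
    simp only [gX, curveK, WeierstrassCurve.map_a₁, WeierstrassCurve.map_a₂,
      WeierstrassCurve.map_a₄]
    push_cast
    rfl
  have e2 : gY (curveK V W₀) x y = ((2 * Y + W₀.a₁ * X + W₀.a₃ : V) : K) := by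
    simp only [gY, curveK, WeierstrassCurve.map_a₁, WeierstrassCurve.map_a₃]
    push_cast
    rfl
  rw [rad, e1, e2]
  exact max_lt (val_lt_one_of_residue_eq_zero V _ hgX) (val_lt_one_of_residue_eq_zero V _ hgY)

/-- the torsion data of `W₀ ⊗ K` -/
theorem multTorsion_curveK : MultTorsion (curveK V W₀) V.valuation p :=
  ⟨fun j => ncard_torsion_inKer V W₀ p hp2 hpV hΔ hc4 j,
   fun j _ _ h hT hx => rad_lt_one_of_torsion V W₀ p hp2 hpV hΔ hc4 j h hT hx⟩

omit hE in
/-- the same for a curve which is equal to `W₀ ⊗ K` -/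
theorem multTorsion_of_eq {E : WeierstrassCurve.Affine K} [hE' : E.IsElliptic]
    (hEq : E = curveK V W₀) : MultTorsion E V.valuation p := by
  subst hEq
  exact multTorsion_curveK V W₀ p hp2 hpV hΔ hc4

end curveK

end Fermat.Agent.S59.H396

end
-- ===== PACK-END S59/H396/OrdGeom.lean

-- ===== PACK-BEGIN S59/H686/ResidualDict.lean
section



/-!
# Row S59 — the two small dictionary cells RED and ID of `Arch/Glue3` (helper686)

* `residualOfAdic : Arch.ResidualOfAdicStatement` (**RED**): a deformation condition satisfied by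
  `ρ` over `𝒪` is satisfied by any model of its residual representation.
* `residualId : Arch.ResidualIdStatement` (**ID**): base change of a residual representation along
  the identity of the residue field.

Both go through the matrix dictionary `S53/Dict`.
-/

set_option autoImplicit false

open IsLocalRing

namespace Fermat.Agent.S59.H686

open Fermat.Agent.S53

section Field

variable {k : Type} [Field k]

/-- An equivalence of residual representations is an equivalence of the associated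
adic representations over the field. -/
def ofResidualEquiv {ρ₁ ρ₂ : ResidualGaloisRep k} (e : ResidualGaloisRep.Equiv ρ₁ ρ₂) :
    GaloisRepAdic.Equiv (GaloisRepAdic.ofResidualGaloisRep ρ₁)
      (GaloisRepAdic.ofResidualGaloisRep ρ₂) :=
  { toLinearEquiv := e.toLinearEquiv
    map_apply := e.map_apply }

theorem ofResidual_isEquiv {ρ₁ ρ₂ : ResidualGaloisRep k} (h : ρ₁.IsEquiv ρ₂) :
    (GaloisRepAdic.ofResidualGaloisRep ρ₁).IsEquiv (GaloisRepAdic.ofResidualGaloisRep ρ₂) := by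
  obtain ⟨e⟩ := h
  exact ⟨ofResidualEquiv e⟩

/-- The matrix models: `toAdic` over a field is `ofResidualGaloisRep` of `toRes`. -/
theorem toAdic_isEquiv_ofResidual_toRes (r r' : GQ →* M2 k) (hr : MatCont r)
    (hr' : GaloisFactorsThroughFiniteLevel r') (h : r = r') :
    (toAdic r hr).IsEquiv (GaloisRepAdic.ofResidualGaloisRep (toRes r' hr')) := by
  subst h
  exact ⟨⟨LinearEquiv.refl k (Fin 2 → k), fun _ _ => rfl⟩⟩

end Field

/-- The residue field is an Artinian test algebra. -/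
theorem isArtinianTestAlgebra_residueField (𝒪 : Type) [CommRing 𝒪] [IsLocalRing 𝒪] :
    GaloisRep.IsArtinianTestAlgebra 𝒪 (ResidueField 𝒪) where
  isLocalHom := inferInstanceAs (IsLocalHom (residue 𝒪))
  residue_surjective := (residue_surjective (R := ResidueField 𝒪)).comp
    (residue_surjective (R := 𝒪))
  isArtinian := inferInstance

/-- **RED.** -/
theorem residualOfAdic : Arch.ResidualOfAdicStatement := by
  intro 𝒪 _ _ _ _ 𝒟 h𝒟 ρ ρbar hres hD
  have hT := _root_.Fermat.Agent.S59.H686.isArtinianTestAlgebra_residueField 𝒪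
  have hloc : IsLocalHom (algebraMap 𝒪 𝒪) := inferInstanceAs (IsLocalHom (RingHom.id 𝒪))
  have hsurj : Function.Surjective (residue 𝒪 ∘ algebraMap 𝒪 𝒪) := residue_surjective
  have hq : IsLocalHom ((Algebra.ofId 𝒪 (ResidueField 𝒪) : 𝒪 →ₐ[𝒪] ResidueField 𝒪) :
      𝒪 →+* ResidueField 𝒪) := inferInstanceAs (IsLocalHom (residue 𝒪))
  have h1 := (h𝒟.iff_forall_surjective hloc hsurj ρ).1 hD hT
    (Algebra.ofId 𝒪 (ResidueField 𝒪)) hq residue_surjective
  refine h𝒟.of_isEquiv hT ?_ h1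
  obtain ⟨r, hr, ⟨e0⟩⟩ := exists_toAdic ρ
  obtain ⟨e1⟩ := baseChangeAlong_toAdic
    ((Algebra.ofId 𝒪 (ResidueField 𝒪) : 𝒪 →ₐ[𝒪] ResidueField 𝒪) : 𝒪 →+* ResidueField 𝒪) hq r hr
  obtain ⟨e2⟩ := toAdic_isEquiv_ofResidual_toRes
    (mapRep ((Algebra.ofId 𝒪 (ResidueField 𝒪) : 𝒪 →ₐ[𝒪] ResidueField 𝒪) :
      𝒪 →+* ResidueField 𝒪) r) (mapRep (residue 𝒪) r) (hr.map _ hq) hr.factors_residue rfl
  obtain ⟨e3⟩ := residual_toAdic r hr
  obtain ⟨e4⟩ := hres
  exact ⟨((e0.baseChangeAlong _ hq).trans e1).trans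
    (e2.trans (ofResidualEquiv (e3.symm.trans (e0.residual.symm.trans e4))))⟩

/-- **ID.** -/
theorem residualId : Arch.ResidualIdStatement := by
  intro 𝒪 _ _ ρbar
  obtain ⟨rb, hrb, ⟨e0⟩⟩ := exists_toRes ρbar
  obtain ⟨e1⟩ := baseChangeAlong_toRes (ResidueField.map (algebraMap 𝒪 𝒪)) rb hrb
  have h2 : (toRes rb hrb).IsEquiv (toRes (mapRep (ResidueField.map (algebraMap 𝒪 𝒪)) rb)
      (factors_mapRep (ResidueField.map (algebraMap 𝒪 𝒪)) hrb)) := by
    rw [toRes_isEquiv_iff]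
    refine ⟨1, fun σ => ?_⟩
    have hid : ResidueField.map (algebraMap 𝒪 𝒪) = RingHom.id (ResidueField 𝒪) :=
      ResidueField.map_id
    have h3 : mapRep (ResidueField.map (algebraMap 𝒪 𝒪)) rb σ = rb σ := by
      rw [hid, mapRep_id]
    rw [h3, Units.val_one, one_mul, mul_one]
  obtain ⟨e2⟩ := h2
  exact ⟨e0.trans (e2.trans (e1.symm.trans (e0.baseChangeAlong _).symm))⟩

end Fermat.Agent.S59.H686

end
-- ===== PACK-END S59/H686/ResidualDict.lean

-- ===== PACK-BEGIN S15/H782/UVal.lean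
section


/-!
# S15, node GEO, piece UVAL (helper782): the algebraic modular unit and its valuation

Route: `origin/helper902:coord/S15-PB-helper902.md`, section 0.  For a Weierstrass curve `W` and
a point `Q` of prime order `p` put

  `psiTwo W P = 2 y + a₁ x + a₃`   (`P = (x, y)`),
  `psiProd W Q p = ∏_{0 < k < p} psiTwo W (k • Q)`,
  `unitU W p Q = p ^ 12 * (psiProd W Q p) ^ 4 / Δ ^ (p - 1)`     (`= Δ(τ)/Δ(pτ)` at `(E, ⟨Q⟩)`).

At a place `A` with `v_A(p) = 1` (no hypothesis on the reduction type, none on `v_A(2)`):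

* `val_psiProd_eq_one` : `Q ∈ E⁰`, `p` odd  ⟹  `v_A(psiProd) = 1`;
* `val_psiProd_lt_one` : `Q ∉ E⁰`           ⟹  `v_A(psiProd) < 1`, and every factor is in `𝔪_A`;

and for `W : WeierstrassCurve ℤ`, `A ⊆ ℚ̄` over `ℓ ≠ p`, in the Prelude's vocabulary:

* `val_unitU_of_inZeroComponentAt`     : `v_A(unitU) * v_A(Δ) ^ (p - 1) = 1`;
* `val_unitU_of_not_inZeroComponentAt` : `v_A(unitU) * v_A(Δ) ^ (p - 1) < 1`;
* `unitU_smul` (Galois equivariance), `unitU_rational` (`Q` rational ⟹ `unitU ∈ ℚ`).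
-/

set_option autoImplicit false

namespace Fermat.Agent.S15.H782

open WeierstrassCurve WeierstrassCurve.Affine
open Fermat.Agent.S05.SameRed (IntegralCoeffs InKer)
open Fermat.Agent.Lib.Red.H290
open Fermat.Agent.S15.H242

section general

variable {K : Type*} [Field K] {κ : Type*} [Field κ]
variable {A : ValuationSubring K} {φ : A →+* κ} {W : Affine K} {Wκ : Affine κ}

/-- `ψ₂(P) = 2y + a₁x + a₃` (the `y`-derivative of the Weierstrass polynomial at `P`), with the
convention `ψ₂(O) = 1`. -/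
def psiTwo (W : Affine K) : W.Point → K
  | .zero => 1
  | .some x y _ => 2 * y + W.a₁ * x + W.a₃

@[simp] lemma psiTwo_zero : psiTwo W (0 : W.Point) = 1 := rfl

@[simp] lemma psiTwo_some {x y : K} (h : W.Nonsingular x y) :
    psiTwo W (Point.some x y h) = 2 * y + W.a₁ * x + W.a₃ := rfl

/-- The product of `ψ₂` over the nonzero multiples `k • Q`, `0 < k < p`. -/
def psiProd [DecidableEq K] (W : Affine K) (Q : W.Point) (p : ℕ) : K :=
  ∏ k ∈ Finset.Ioo 0 p, psiTwo W (k • Q)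

/-- `ψ₂` of an integral point is integral and reduces to `ψ₂` of the reduction. -/
lemma rd_psiTwoExpr (h : IsRedOf A φ W Wκ) {x y : K} (hx : x ∈ A) (hy : y ∈ A) :
    2 * y + W.a₁ * x + W.a₃ ∈ A ∧
    rd A φ (2 * y + W.a₁ * x + W.a₃) = 2 * rd A φ y + Wκ.a₁ * rd A φ x + Wκ.a₃ := by
  obtain ⟨c₁, c₂, c₃, c₄, c₆, e₁, e₂, e₃, e₄, e₆, f₁, f₂, f₃, f₄, f₆⟩ := h.exists_lift
  lift x to A using hx
  lift y to A using hy
  simp only [← e₁, ← e₃, ← f₁, ← f₃]
  have : (2 * (y : K) + c₁ * x + c₃) = ((2 * y + c₁ * x + c₃ : A) : K) := by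
    push_cast; rw [coe_two]
  rw [this, rd_coe, rd_coe, rd_coe]
  exact ⟨Subtype.mem _, by simp only [map_add, map_mul, map_ofNat]⟩

end general

section localFacts

variable {K : Type*} [Field K] [DecidableEq K] {κ : Type*} [Field κ] [DecidableEq κ]
variable {A : ValuationSubring K} {φ : A →+* κ} {W : Affine K} {Wκ : Affine κ}

omit [DecidableEq K] [DecidableEq κ] in
/-- A point outside `E⁰` is an integral affine point whose reduction is singular. -/
lemma not_inE0_iff {x y : K} (hxy : W.Nonsingular x y) :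
    ¬ InE0 A φ Wκ (Point.some x y hxy) ↔ x ∈ A ∧ ¬ Wκ.Nonsingular (rd A φ x) (rd A φ y) := by
  rw [inE0_some_iff, Classical.not_imp]

omit [DecidableEq κ] in
/-- **(b), one factor.**  If `P ∉ E⁰` then `ψ₂(P) ∈ 𝔪_A`: the `y`-derivative of the
Weierstrass polynomial vanishes at the singular point of the reduction. -/
theorem val_psiTwo_lt_one_of_not_inE0 (h : IsRedOf A φ W Wκ) (hφ : KerMax A φ) {P : W.Point}
    (hP : ¬ InE0 A φ Wκ P) : A.valuation (psiTwo W P) < 1 := by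
  rcases P with _ | ⟨x, y, hxy⟩
  · exact absurd inE0_zero hP
  · obtain ⟨hx, hsing⟩ := (not_inE0_iff hxy).mp hP
    have hy : y ∈ A := y_mem_of_x_mem h hxy.1 hx
    obtain ⟨hmem, hrd⟩ := rd_psiTwoExpr h hx hy
    have heq := rd_equation h hx hy hxy.1
    have h0 : 2 * rd A φ y + Wκ.a₁ * rd A φ x + Wκ.a₃ = 0 := by
      by_contra hne
      exact hsing ((Affine.nonsingular_iff' _ _).mpr ⟨heq, Or.inr hne⟩)
    rw [psiTwo_some]
    exact (rd_eq_zero_iff hφ hmem).mp (hrd.trans h0)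

/-- **(a), one factor.**  If `P ∈ E⁰` is integral and its reduction is not killed by `2`, then
`ψ₂(P)` is a unit of `A`. -/
theorem val_psiTwo_eq_one_of_inE0 (h : IsRedOf A φ W Wκ) (hφ : KerMax A φ) {x y : K}
    (hxy : W.Nonsingular x y) (hx : x ∈ A) (hP : InE0 A φ Wκ (Point.some x y hxy))
    (h2 : 2 • red0 A φ Wκ (Point.some x y hxy) ≠ 0) :
    A.valuation (psiTwo W (Point.some x y hxy)) = 1 := by
  have hy : y ∈ A := y_mem_of_x_mem h hxy.1 hx
  obtain ⟨hmem, hrd⟩ := rd_psiTwoExpr h hx hy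
  have hns := hP hx
  rw [psiTwo_some]
  refine (rd_ne_zero_iff hφ hmem).mp fun h0 => h2 ?_
  rw [red0_some_of_mem hxy hx hns, two_nsmul]
  refine Point.add_self_of_Y_eq ?_
  rw [hrd] at h0
  rw [Affine.negY]
  linear_combination h0

/-- If `Q ∉ E⁰` has order dividing the prime `p`, no multiple `k • Q` with `p ∤ k` lies in
`E⁰` (`E⁰` is a subgroup). -/
theorem not_inE0_nsmul (h : IsRedOf A φ W Wκ) (hφ : KerMax A φ) {p : ℕ} (hp : p.Prime)
    {Q : W.Point} (hQ : ¬ InE0 A φ Wκ Q) (hpQ : p • Q = 0) {k : ℕ} (hk : ¬ p ∣ k) :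
    ¬ InE0 A φ Wκ (k • Q) := by
  intro hkQ
  have hcop : Nat.Coprime k p := ((Nat.Prime.coprime_iff_not_dvd hp).mpr hk).symm
  obtain ⟨m, -, hm⟩ := Nat.exists_mul_mod_eq_one_of_coprime hcop hp.one_lt
  have hQ' : m • (k • Q) = Q := by
    rw [smul_smul, mul_comm, ← Nat.div_add_mod (k * m) p, hm, add_smul, mul_smul, one_smul]
    rw [smul_comm, hpQ, smul_zero, zero_add]
  exact hQ (hQ' ▸ inE0_nsmul h hφ hkQ m)

/-- The multiples `k • Q`, `0 < k < p`, of a point of prime order `p` have order `p`. -/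
lemma addOrderOf_nsmul_of_mem_Ioo {G : Type*} [AddGroup G] {p : ℕ} (hp : p.Prime) {Q : G}
    (hord : addOrderOf Q = p) {k : ℕ} (hk : k ∈ Finset.Ioo 0 p) : addOrderOf (k • Q) = p := by
  obtain ⟨hk0, hkp⟩ := Finset.mem_Ioo.mp hk
  have hnd : ¬ p ∣ k := Nat.not_dvd_of_pos_of_lt hk0 hkp
  have hcop : Nat.Coprime (addOrderOf Q) k := by
    rw [hord]; exact (Nat.Prime.coprime_iff_not_dvd hp).mpr hnd
  rw [Nat.Coprime.addOrderOf_nsmul hcop, hord]

/-- **(b).**  If `Q ∉ E⁰` has prime order `p`, every factor `ψ₂(k • Q)`, `0 < k < p`, lies in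
`𝔪_A`. -/
theorem val_psiTwo_nsmul_lt_one (h : IsRedOf A φ W Wκ) (hφ : KerMax A φ) {p : ℕ} (hp : p.Prime)
    {Q : W.Point} (hQ : ¬ InE0 A φ Wκ Q) (hord : addOrderOf Q = p) {k : ℕ}
    (hk : k ∈ Finset.Ioo 0 p) : A.valuation (psiTwo W (k • Q)) < 1 := by
  obtain ⟨hk0, hkp⟩ := Finset.mem_Ioo.mp hk
  have hpQ : p • Q = 0 := by rw [← hord]; exact addOrderOf_nsmul_eq_zero Q
  exact val_psiTwo_lt_one_of_not_inE0 h hφ
    (not_inE0_nsmul h hφ hp hQ hpQ (Nat.not_dvd_of_pos_of_lt hk0 hkp))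

/-- **(b), product.**  If `Q ∉ E⁰` has prime order `p` then `v_A(∏ ψ₂(k • Q)) < 1`. -/
theorem val_psiProd_lt_one (h : IsRedOf A φ W Wκ) (hφ : KerMax A φ) {p : ℕ} (hp : p.Prime)
    {Q : W.Point} (hQ : ¬ InE0 A φ Wκ Q) (hord : addOrderOf Q = p) :
    A.valuation (psiProd W Q p) < 1 := by
  have h1 : (1 : ℕ) ∈ Finset.Ioo 0 p := Finset.mem_Ioo.mpr ⟨Nat.one_pos, hp.one_lt⟩
  rw [psiProd, ← Finset.mul_prod_erase _ _ h1, map_mul, map_prod]
  have hle : ∏ k ∈ (Finset.Ioo 0 p).erase 1, A.valuation (psiTwo W (k • Q)) ≤ 1 :=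
    Finset.prod_le_one' fun k hk =>
      (val_psiTwo_nsmul_lt_one h hφ hp hQ hord (Finset.mem_of_mem_erase hk)).le
  calc A.valuation (psiTwo W (1 • Q)) * ∏ k ∈ (Finset.Ioo 0 p).erase 1,
        A.valuation (psiTwo W (k • Q))
      ≤ A.valuation (psiTwo W (1 • Q)) * 1 := mul_le_mul_right hle _
    _ = A.valuation (psiTwo W (1 • Q)) := mul_one _
    _ < 1 := val_psiTwo_nsmul_lt_one h hφ hp hQ hord h1

/-- **(a).**  If `Q ∈ E⁰` has odd prime order `p`, a unit of `A`, then every factor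
`ψ₂(k • Q)`, `0 < k < p`, is a unit of `A`. -/
theorem val_psiTwo_nsmul_eq_one (h : IsRedOf A φ W Wκ) (hφ : KerMax A φ) {p : ℕ} (hp : p.Prime)
    (hp2 : p ≠ 2) (hv : A.valuation (p : K) = 1) {Q : W.Point} (hQ : InE0 A φ Wκ Q)
    (hord : addOrderOf Q = p) {k : ℕ} (hk : k ∈ Finset.Ioo 0 p) :
    A.valuation (psiTwo W (k • Q)) = 1 := by
  have hkQ : InE0 A φ Wκ (k • Q) := inE0_nsmul h hφ hQ k
  have hordk : addOrderOf (k • Q) = p := addOrderOf_nsmul_of_mem_Ioo hp hord hk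
  have hred := addOrderOf_red0 h hφ hp hv hkQ hordk
  have h2 : 2 • red0 A φ Wκ (k • Q) ≠ 0 := fun h0 => by
    have hdvd := addOrderOf_dvd_of_nsmul_eq_zero h0
    rw [hred] at hdvd
    exact hp2 ((Nat.prime_dvd_prime_iff_eq hp Nat.prime_two).mp hdvd)
  generalize k • Q = P at hkQ hred h2
  rcases P with _ | ⟨x, y, hxy⟩
  · exact absurd (smul_zero 2) h2
  · have hx : x ∈ A := by
      by_contra hx
      rw [red0_some_of_not_mem hxy hx, smul_zero] at h2
      exact h2 rfl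
    exact val_psiTwo_eq_one_of_inE0 h hφ hxy hx hkQ h2

/-- **(a), product.**  If `Q ∈ E⁰` has odd prime order `p`, a unit of `A`, then
`v_A(∏ ψ₂(k • Q)) = 1`. -/
theorem val_psiProd_eq_one (h : IsRedOf A φ W Wκ) (hφ : KerMax A φ) {p : ℕ} (hp : p.Prime)
    (hp2 : p ≠ 2) (hv : A.valuation (p : K) = 1) {Q : W.Point} (hQ : InE0 A φ Wκ Q)
    (hord : addOrderOf Q = p) : A.valuation (psiProd W Q p) = 1 := by
  rw [psiProd, map_prod]
  exact Finset.prod_eq_one fun k hk => val_psiTwo_nsmul_eq_one h hφ hp hp2 hv hQ hord hk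

end localFacts

/-! ### The Prelude's vocabulary: `W : WeierstrassCurve ℤ`, places of `ℚ̄` -/

section global

variable (W : WeierstrassCurve ℤ)

/-- The points of `W` over `ℚ̄` (the type of `Q` in the frozen statement S15). -/
abbrev PtsBar : Type := ((W.map (Int.castRingHom ℚ))⁄(AlgebraicClosure ℚ)).Point

/-- The algebraic modular unit `U(W, Q) = p¹² ∏_{0<k<p} ψ₂(kQ)⁴ / Δ^{p-1}`
(`= Δ(τ)/Δ(pτ)` at the moduli point of `(E, ⟨Q⟩)`). -/
noncomputable def unitU (p : ℕ) (Q : PtsBar W) : AlgebraicClosure ℚ :=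
  (p : AlgebraicClosure ℚ) ^ 12 * psiProd _ Q p ^ 4 / ((W.Δ : ℤ) : AlgebraicClosure ℚ) ^ (p - 1)

lemma unitU_mul_Δ_pow (hΔ : W.Δ ≠ 0) (p : ℕ) (Q : PtsBar W) :
    unitU W p Q * ((W.Δ : ℤ) : AlgebraicClosure ℚ) ^ (p - 1) =
      (p : AlgebraicClosure ℚ) ^ 12 * psiProd _ Q p ^ 4 := by
  have h0 : ((W.Δ : ℤ) : AlgebraicClosure ℚ) ^ (p - 1) ≠ 0 :=
    pow_ne_zero _ (Int.cast_ne_zero.mpr hΔ)
  rw [unitU, div_mul_cancel₀ _ h0]

variable (A : ValuationSubring (AlgebraicClosure ℚ))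

/-- The converse of `H242.inE0_of_inZeroComponentAt`. -/
lemma inZeroComponentAt_of_inE0 {Q : PtsBar W}
    (hQ : InE0 A (IsLocalRing.residue A) (W⁄(IsLocalRing.ResidueField A)) Q) :
    W.InZeroComponentAt A Q := by
  rcases Q with _ | ⟨x, y, h⟩
  · exact Or.inl rfl
  · refine Or.inr ⟨x, y, h, rfl, ?_⟩
    by_cases hx : x ∈ A
    · have hy : y ∈ A := y_mem_of_x_mem (isRedOf_int A W (IsLocalRing.residue A)) h.1 hx
      have hns := hQ hx
      rw [rd_of_mem hx, rd_of_mem hy] at hns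
      exact Or.inr ⟨hx, hy, hns⟩
    · exact Or.inl hx

lemma inZeroComponentAt_iff_inE0 {Q : PtsBar W} :
    W.InZeroComponentAt A Q ↔
      InE0 A (IsLocalRing.residue A) (W⁄(IsLocalRing.ResidueField A)) Q :=
  ⟨inE0_of_inZeroComponentAt W A, inZeroComponentAt_of_inE0 W A⟩

variable {W A}

/-- **UVAL (a).**  `Q ∈ E⁰` at `A ∣ ℓ ≠ p`, `Q` of odd prime order `p`:
`v_A(U(W,Q)) · v_A(Δ)^{p-1} = 1`, i.e. `ord_A U = -(p-1) ord_A Δ`. -/
theorem val_unitU_of_inZeroComponentAt {p : ℕ} (hp : p.Prime) (hp2 : p ≠ 2) (hΔ : W.Δ ≠ 0)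
    {Q : PtsBar W} (hord : addOrderOf Q = p) {ℓ : ℕ} (hℓ : ℓ.Prime) (hℓp : ℓ ≠ p)
    (hA : A.LiesOverPrime ℓ) (hQ0 : W.InZeroComponentAt A Q) :
    A.valuation (unitU W p Q) * A.valuation ((W.Δ : ℤ) : AlgebraicClosure ℚ) ^ (p - 1) = 1 := by
  classical
  have hv : A.valuation ((p : ℕ) : AlgebraicClosure ℚ) = 1 := val_natCast_eq_one A hA hℓ hp hℓp
  have h1 := val_psiProd_eq_one (isRedOf_int A W (IsLocalRing.residue A)) (kerMax_residue A)
    hp hp2 hv (inE0_of_inZeroComponentAt W A hQ0) hord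
  rw [← map_pow, ← map_mul, unitU_mul_Δ_pow W hΔ, map_mul, map_pow, map_pow, hv, h1, one_pow,
    one_pow, one_mul]

/-- **UVAL (b).**  `Q ∉ E⁰` at `A ∣ ℓ ≠ p`, `Q` of prime order `p`:
`v_A(U(W,Q)) · v_A(Δ)^{p-1} < 1`, i.e. `ord_A U > -(p-1) ord_A Δ`. -/
theorem val_unitU_of_not_inZeroComponentAt {p : ℕ} (hp : p.Prime) (hΔ : W.Δ ≠ 0)
    {Q : PtsBar W} (hord : addOrderOf Q = p) {ℓ : ℕ} (hℓ : ℓ.Prime) (hℓp : ℓ ≠ p)
    (hA : A.LiesOverPrime ℓ) (hQ0 : ¬ W.InZeroComponentAt A Q) :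
    A.valuation (unitU W p Q) * A.valuation ((W.Δ : ℤ) : AlgebraicClosure ℚ) ^ (p - 1) < 1 := by
  classical
  have hv : A.valuation ((p : ℕ) : AlgebraicClosure ℚ) = 1 := val_natCast_eq_one A hA hℓ hp hℓp
  have h1 := val_psiProd_lt_one (isRedOf_int A W (IsLocalRing.residue A)) (kerMax_residue A)
    hp (fun h => hQ0 (inZeroComponentAt_of_inE0 W A h)) hord
  rw [← map_pow, ← map_mul, unitU_mul_Δ_pow W hΔ, map_mul, map_pow, map_pow, hv, one_pow,
    one_mul]
  exact pow_lt_one₀ zero_le h1 (by norm_num)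

/-! ### Comparison with the `j`-invariant `c₄³ / Δ` -/

/-- At a multiplicative prime, `v_A(j) = v_A(Δ)⁻¹ > 1`. -/
theorem val_j_of_mult {ℓ : ℕ} (hℓ : ℓ.Prime) (hℓc₄ : ¬ (ℓ : ℤ) ∣ W.c₄)
    (hA : A.LiesOverPrime ℓ) :
    A.valuation (((W.c₄ : ℤ) : AlgebraicClosure ℚ) ^ 3 / ((W.Δ : ℤ) : AlgebraicClosure ℚ)) =
      (A.valuation ((W.Δ : ℤ) : AlgebraicClosure ℚ))⁻¹ := by
  rw [map_div₀, map_pow, val_intCast_eq_one A hA hℓ hℓc₄, one_pow, one_div]

theorem val_Δ_lt_one {ℓ : ℕ} (hℓΔ : (ℓ : ℤ) ∣ W.Δ) (hA : A.LiesOverPrime ℓ) :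
    A.valuation ((W.Δ : ℤ) : AlgebraicClosure ℚ) < 1 := by
  obtain ⟨c, hc⟩ := hℓΔ
  have hℓv : A.valuation ((ℓ : ℕ) : AlgebraicClosure ℚ) < 1 := (A.mem_nonunits_iff).mp hA
  rw [hc]
  push_cast
  rw [map_mul]
  calc A.valuation ((ℓ : ℕ) : AlgebraicClosure ℚ) * A.valuation ((c : ℤ) : AlgebraicClosure ℚ)
      ≤ A.valuation ((ℓ : ℕ) : AlgebraicClosure ℚ) * 1 :=
        mul_le_mul_right (val_intCast_le_one A c) _
    _ < 1 := by rwa [mul_one]

/-- **UVAL (a), `j`-form.**  `Q ∈ E⁰` ⟹ `v_A(U) = v_A(j)^{p-1}` (`> 1`: `U` is the root of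
negative order of the modular equation). -/
theorem val_unitU_eq_val_j_pow {p : ℕ} (hp : p.Prime) (hp2 : p ≠ 2) (hΔ : W.Δ ≠ 0)
    {Q : PtsBar W} (hord : addOrderOf Q = p) {ℓ : ℕ} (hℓ : ℓ.Prime) (hℓp : ℓ ≠ p)
    (hℓc₄ : ¬ (ℓ : ℤ) ∣ W.c₄) (hA : A.LiesOverPrime ℓ) (hQ0 : W.InZeroComponentAt A Q) :
    A.valuation (unitU W p Q) =
      A.valuation (((W.c₄ : ℤ) : AlgebraicClosure ℚ) ^ 3 /
        ((W.Δ : ℤ) : AlgebraicClosure ℚ)) ^ (p - 1) := by
  have h := val_unitU_of_inZeroComponentAt hp hp2 hΔ hord hℓ hℓp hA hQ0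
  have h0 : A.valuation ((W.Δ : ℤ) : AlgebraicClosure ℚ) ^ (p - 1) ≠ 0 :=
    pow_ne_zero _ ((Valuation.ne_zero_iff _).mpr (Int.cast_ne_zero.mpr hΔ))
  rw [val_j_of_mult hℓ hℓc₄ hA, inv_pow]
  exact eq_inv_of_mul_eq_one_left h

/-- **UVAL (b), `j`-form.**  `Q ∉ E⁰` ⟹ `v_A(U) < v_A(j)^{p-1}` (`U` is NOT the root of
order `(p-1) ord_A j` of the modular equation). -/
theorem val_unitU_lt_val_j_pow {p : ℕ} (hp : p.Prime) (hΔ : W.Δ ≠ 0)
    {Q : PtsBar W} (hord : addOrderOf Q = p) {ℓ : ℕ} (hℓ : ℓ.Prime) (hℓp : ℓ ≠ p)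
    (hℓc₄ : ¬ (ℓ : ℤ) ∣ W.c₄) (hA : A.LiesOverPrime ℓ) (hQ0 : ¬ W.InZeroComponentAt A Q) :
    A.valuation (unitU W p Q) <
      A.valuation (((W.c₄ : ℤ) : AlgebraicClosure ℚ) ^ 3 /
        ((W.Δ : ℤ) : AlgebraicClosure ℚ)) ^ (p - 1) := by
  have h := val_unitU_of_not_inZeroComponentAt hp hΔ hord hℓ hℓp hA hQ0
  have h0 : 0 < A.valuation ((W.Δ : ℤ) : AlgebraicClosure ℚ) ^ (p - 1) :=
    pow_pos ((Valuation.pos_iff _).mpr (Int.cast_ne_zero.mpr hΔ)) _
  rw [val_j_of_mult hℓ hℓc₄ hA, inv_pow, ← one_mul (_⁻¹)]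
  exact (lt_mul_inv_iff₀ h0).mpr h

/-! ### Galois equivariance and rationality -/

lemma psiTwo_smul (σ : AlgebraicClosure ℚ ≃ₐ[ℚ] AlgebraicClosure ℚ) (P : PtsBar W) :
    psiTwo _ (σ • P) = σ (psiTwo _ P) := by
  rcases P with _ | ⟨x, y, h⟩
  · exact (map_one σ).symm
  · rw [Point.algEquiv_smul_def, Point.map_some, psiTwo_some, psiTwo_some]
    simp only [map_add, map_mul, map_ofNat, AlgEquiv.coe_toAlgHom]
    have e₁ : σ ((W.map (Int.castRingHom ℚ))⁄(AlgebraicClosure ℚ)).a₁ =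
        ((W.map (Int.castRingHom ℚ))⁄(AlgebraicClosure ℚ)).a₁ := σ.commutes _
    have e₃ : σ ((W.map (Int.castRingHom ℚ))⁄(AlgebraicClosure ℚ)).a₃ =
        ((W.map (Int.castRingHom ℚ))⁄(AlgebraicClosure ℚ)).a₃ := σ.commutes _
    rw [e₁, e₃]

lemma psiProd_smul (σ : AlgebraicClosure ℚ ≃ₐ[ℚ] AlgebraicClosure ℚ) (Q : PtsBar W) (p : ℕ) :
    psiProd _ (σ • Q) p = σ (psiProd _ Q p) := by
  rw [psiProd, psiProd, map_prod]
  refine Finset.prod_congr rfl fun k _ => ?_
  rw [← psiTwo_smul, smul_comm]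

/-- Galois equivariance of the algebraic modular unit. -/
theorem unitU_smul (σ : AlgebraicClosure ℚ ≃ₐ[ℚ] AlgebraicClosure ℚ) (Q : PtsBar W) (p : ℕ) :
    unitU W p (σ • Q) = σ (unitU W p Q) := by
  rw [unitU, unitU, psiProd_smul, map_div₀, map_mul, map_pow, map_pow, map_pow, map_natCast,
    map_intCast]

/-- For a rational point `Q`, `U(W, Q)` is a rational number. -/
theorem unitU_rational {Q : PtsBar W}
    (hQfix : ∀ σ : AlgebraicClosure ℚ ≃ₐ[ℚ] AlgebraicClosure ℚ, σ • Q = Q) (p : ℕ) :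
    unitU W p Q ∈ Set.range (algebraMap ℚ (AlgebraicClosure ℚ)) := by
  have := isGalois_Qbar_h242
  refine (InfiniteGalois.mem_range_algebraMap_iff_fixed _).mpr fun σ => ?_
  rw [← unitU_smul, hQfix]

end global

end Fermat.Agent.S15.H782

end
-- ===== PACK-END S15/H782/UVal.lean

-- ===== PACK-BEGIN S19/H435/Prod.lean
section
/-
A3 / WP-C piece E (helper435): products and finite powers of Hopf lattices / Hopf models.
-/




set_option autoImplicit false
set_option linter.style.haveILetI false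

noncomputable section

namespace Fermat.Agent.S19.H435

variable {ℓ : ℕ}

/-- The subalgebra of equivariant functions. -/
def equivariantSubalgebra (ℓ : ℕ) {M : Type*} (act : Gal → M → M) :
    Subalgebra (Zl ℓ) (M → _root_.Fermat.Agent.S19.H435.Qb) where
  carrier := {f | IsEquivariantFun act f}
  mul_mem' := by
    intro f g hf hg σ m
    rw [Pi.mul_apply, Pi.mul_apply, hf σ m, hg σ m, map_mul]
  add_mem' := by
    intro f g hf hg σ m
    rw [Pi.add_apply, Pi.add_apply, hf σ m, hg σ m, map_add]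
  algebraMap_mem' := by
    intro r σ m
    show algebraMap ℚ _root_.Fermat.Agent.S19.H435.Qb (r : ℚ) = σ (algebraMap ℚ _root_.Fermat.Agent.S19.H435.Qb (r : ℚ))
    exact (σ.commutes (r : ℚ)).symm

/-- Decompositions of the comultiplication indexed by an arbitrary fintype. -/
def HasComul {M : Type*} [AddCommGroup M] (Λ : Subalgebra (Zl ℓ) (M → _root_.Fermat.Agent.S19.H435.Qb)) (f : M → _root_.Fermat.Agent.S19.H435.Qb) : Prop :=
  ∃ (n : ℕ) (a b : Fin n → M → _root_.Fermat.Agent.S19.H435.Qb), (∀ k, a k ∈ Λ) ∧ (∀ k, b k ∈ Λ) ∧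
    ∀ x y : M, f (x + y) = ∑ k, a k x * b k y

theorem hasComul_of_fintype {M : Type*} [AddCommGroup M] {Λ : Subalgebra (Zl ℓ) (M → _root_.Fermat.Agent.S19.H435.Qb)}
    {f : M → _root_.Fermat.Agent.S19.H435.Qb} {ι : Type*} [Fintype ι] (a b : ι → M → _root_.Fermat.Agent.S19.H435.Qb) (ha : ∀ k, a k ∈ Λ)
    (hb : ∀ k, b k ∈ Λ) (h : ∀ x y : M, f (x + y) = ∑ k, a k x * b k y) : HasComul Λ f := by
  refine ⟨Fintype.card ι, fun k => a ((Fintype.equivFin ι).symm k),
    fun k => b ((Fintype.equivFin ι).symm k), fun k => ha _, fun k => hb _, ?_⟩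
  intro x y
  rw [h]
  exact (Equiv.sum_comp (Fintype.equivFin ι).symm (fun k => a k x * b k y)).symm

/-- The functions whose comultiplication decomposes in `Λ` form a subalgebra. -/
def comulSubalgebra {M : Type*} [AddCommGroup M] (Λ : Subalgebra (Zl ℓ) (M → _root_.Fermat.Agent.S19.H435.Qb)) :
    Subalgebra (Zl ℓ) (M → _root_.Fermat.Agent.S19.H435.Qb) where
  carrier := {f | HasComul Λ f}
  mul_mem' := by
    rintro f g ⟨n, a, b, ha, hb, hab⟩ ⟨m, a', b', ha', hb', hab'⟩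
    refine hasComul_of_fintype (ι := Fin n × Fin m) (fun p => a p.1 * a' p.2)
      (fun p => b p.1 * b' p.2) (fun p => Subalgebra.mul_mem _ (ha _) (ha' _))
      (fun p => Subalgebra.mul_mem _ (hb _) (hb' _)) ?_
    intro x y
    rw [Pi.mul_apply, hab, hab', Fintype.sum_prod_type, Finset.sum_mul_sum]
    refine Finset.sum_congr rfl fun i _ => Finset.sum_congr rfl fun j _ => ?_
    simp only [Pi.mul_apply]
    ring
  add_mem' := by
    rintro f g ⟨n, a, b, ha, hb, hab⟩ ⟨m, a', b', ha', hb', hab'⟩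
    refine hasComul_of_fintype (ι := Fin n ⊕ Fin m) (Sum.elim a a') (Sum.elim b b')
      (fun p => by cases p <;> simp [ha, ha']) (fun p => by cases p <;> simp [hb, hb']) ?_
    intro x y
    rw [Pi.add_apply, hab, hab', Fintype.sum_sum_type]
    simp
  algebraMap_mem' := by
    intro r
    refine ⟨1, fun _ => algebraMap (Zl ℓ) (M → _root_.Fermat.Agent.S19.H435.Qb) r, fun _ => 1,
      fun _ => Subalgebra.algebraMap_mem _ _, fun _ => Subalgebra.one_mem _, ?_⟩
    intro x y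
    simp

variable {M₁ M₂ : Type*} [AddCommGroup M₁] [AddCommGroup M₂]
  {act₁ : Gal → M₁ → M₁} {act₂ : Gal → M₂ → M₂}
  {Λ₁ : Subalgebra (Zl ℓ) (M₁ → _root_.Fermat.Agent.S19.H435.Qb)} {Λ₂ : Subalgebra (Zl ℓ) (M₂ → _root_.Fermat.Agent.S19.H435.Qb)}

/-- The product lattice on `M₁ × M₂`. -/
def prodLattice (Λ₁ : Subalgebra (Zl ℓ) (M₁ → _root_.Fermat.Agent.S19.H435.Qb)) (Λ₂ : Subalgebra (Zl ℓ) (M₂ → _root_.Fermat.Agent.S19.H435.Qb)) :
    Subalgebra (Zl ℓ) (M₁ × M₂ → _root_.Fermat.Agent.S19.H435.Qb) :=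
  Λ₁.map (precompAlgHom ℓ Prod.fst) ⊔ Λ₂.map (precompAlgHom ℓ Prod.snd)

/-- **Piece E (products).** -/
theorem IsHopfLattice.prod (h₁ : IsHopfLattice ℓ act₁ Λ₁) (h₂ : IsHopfLattice ℓ act₂ Λ₂) :
    IsHopfLattice ℓ (fun σ (p : M₁ × M₂) => (act₁ σ p.1, act₂ σ p.2)) (prodLattice Λ₁ Λ₂) := by
  have hle₁ : Λ₁.map (precompAlgHom ℓ (Prod.fst : M₁ × M₂ → M₁)) ≤ prodLattice Λ₁ Λ₂ :=
    le_sup_left
  have hle₂ : Λ₂.map (precompAlgHom ℓ (Prod.snd : M₁ × M₂ → M₂)) ≤ prodLattice Λ₁ Λ₂ :=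
    le_sup_right
  refine ⟨?_, ?_, ?_, ?_⟩
  · unfold prodLattice
    rw [← Subalgebra.mul_toSubmodule]
    refine Submodule.FG.mul ?_ ?_
    · have h1 : Subalgebra.toSubmodule (Λ₁.map (precompAlgHom ℓ (Prod.fst : M₁ × M₂ → M₁))) =
          (Subalgebra.toSubmodule Λ₁).map (precompAlgHom ℓ Prod.fst).toLinearMap := by
        ext f
        simp [Subalgebra.mem_map]
      rw [h1]
      exact h₁.fg.map _
    · have h1 : Subalgebra.toSubmodule (Λ₂.map (precompAlgHom ℓ (Prod.snd : M₁ × M₂ → M₂))) =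
          (Subalgebra.toSubmodule Λ₂).map (precompAlgHom ℓ Prod.snd).toLinearMap := by
        ext f
        simp [Subalgebra.mem_map]
      rw [h1]
      exact h₂.fg.map _
  · have : prodLattice Λ₁ Λ₂ ≤
        equivariantSubalgebra ℓ (fun σ (p : M₁ × M₂) => (act₁ σ p.1, act₂ σ p.2)) := by
      refine sup_le ?_ ?_
      · rintro _ ⟨f, hf, rfl⟩ σ p
        exact h₁.equivariant f hf σ p.1
      · rintro _ ⟨f, hf, rfl⟩ σ p
        exact h₂.equivariant f hf σ p.2
    exact fun f hf => this hf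
  · rintro ⟨m₁, m₂⟩ ⟨n₁, n₂⟩ hne
    by_cases h : m₁ = n₁
    · have h' : m₂ ≠ n₂ := fun h' => hne (by rw [h, h'])
      obtain ⟨f, hf, hfne⟩ := h₂.separates m₂ n₂ h'
      exact ⟨precompAlgHom ℓ Prod.snd f, hle₂ ⟨f, hf, rfl⟩, hfne⟩
    · obtain ⟨f, hf, hfne⟩ := h₁.separates m₁ n₁ h
      exact ⟨precompAlgHom ℓ Prod.fst f, hle₁ ⟨f, hf, rfl⟩, hfne⟩
  · have : prodLattice Λ₁ Λ₂ ≤ comulSubalgebra (prodLattice Λ₁ Λ₂) := by
      refine sup_le ?_ ?_
      · rintro _ ⟨f, hf, rfl⟩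
        obtain ⟨n, a, b, ha, hb, hab⟩ := h₁.comul_mem f hf
        refine ⟨n, fun k => precompAlgHom ℓ Prod.fst (a k),
          fun k => precompAlgHom ℓ Prod.fst (b k), fun k => hle₁ ⟨a k, ha k, rfl⟩,
          fun k => hle₁ ⟨b k, hb k, rfl⟩, ?_⟩
        intro x y
        exact hab x.1 y.1
      · rintro _ ⟨f, hf, rfl⟩
        obtain ⟨n, a, b, ha, hb, hab⟩ := h₂.comul_mem f hf
        refine ⟨n, fun k => precompAlgHom ℓ Prod.snd (a k),
          fun k => precompAlgHom ℓ Prod.snd (b k), fun k => hle₂ ⟨a k, ha k, rfl⟩,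
          fun k => hle₂ ⟨b k, hb k, rfl⟩, ?_⟩
        intro x y
        exact hab x.2 y.2
    exact fun f hf => this hf

/-- The trivial lattice on a subsingleton. -/
theorem IsHopfLattice.of_subsingleton {M : Type*} [AddCommGroup M] [Subsingleton M]
    (act : Gal → M → M) : IsHopfLattice ℓ act (⊥ : Subalgebra (Zl ℓ) (M → _root_.Fermat.Agent.S19.H435.Qb)) := by
  refine ⟨?_, ?_, ?_, ?_⟩
  · rw [Algebra.toSubmodule_bot]
    rw [Submodule.one_eq_span]
    exact Submodule.fg_span_singleton _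
  · have : (⊥ : Subalgebra (Zl ℓ) (M → _root_.Fermat.Agent.S19.H435.Qb)) ≤ equivariantSubalgebra ℓ act := bot_le
    exact fun f hf => this hf
  · intro m n hmn
    exact absurd (Subsingleton.elim m n) hmn
  · have : (⊥ : Subalgebra (Zl ℓ) (M → _root_.Fermat.Agent.S19.H435.Qb)) ≤ comulSubalgebra ⊥ := bot_le
    exact fun f hf => this hf

section HopfModel

open Fermat.Agent.S19 (HopfModel OrdStatement)

/-- Products of Hopf models are Hopf models. -/
theorem hopfModel_prod (hord : OrdStatement) [Fact ℓ.Prime] {M₁ M₂ : Type}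
    [AddCommGroup M₁] [AddCommGroup M₂] {act₁ : Gal → M₁ → M₁} {act₂ : Gal → M₂ → M₂}
    (h₁ : HopfModel ℓ M₁ act₁) (h₂ : HopfModel ℓ M₂ act₂) :
    HopfModel ℓ (M₁ × M₂) (fun σ p => (act₁ σ p.1, act₂ σ p.2)) := by
  obtain ⟨Λ₁, hΛ₁⟩ := exists_isHopfLattice_of_hopfModel h₁
  obtain ⟨Λ₂, hΛ₂⟩ := exists_isHopfLattice_of_hopfModel h₂
  exact (hΛ₁.prod hΛ₂).hopfModel hord

/-- The trivial group is a Hopf model. -/
theorem hopfModel_of_subsingleton (hord : OrdStatement) [Fact ℓ.Prime] {M : Type}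
    [AddCommGroup M] [Subsingleton M] (act : Gal → M → M) : HopfModel ℓ M act :=
  (IsHopfLattice.of_subsingleton (ℓ := ℓ) act).hopfModel hord

/-- Finite powers of Hopf models are Hopf models. -/
theorem hopfModel_pi (hord : OrdStatement) [Fact ℓ.Prime] {M : Type} [AddCommGroup M]
    {act : Gal → M → M} (h : HopfModel ℓ M act) (r : ℕ) :
    HopfModel ℓ (Fin r → M) (fun σ v i => act σ (v i)) := by
  induction r with
  | zero => exact hopfModel_of_subsingleton hord _
  | succ r ih =>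
    have hp := hopfModel_prod hord h ih
    let ι : (Fin (r + 1) → M) →+ M × (Fin r → M) :=
      { toFun := fun v => (v 0, fun i => v i.succ)
        map_zero' := rfl
        map_add' := fun _ _ => rfl }
    refine hopfModel_of_injective hord hp ι ?_ _ (fun σ v => rfl)
    intro v w hvw
    funext i
    have h1 : v 0 = w 0 := congrArg Prod.fst hvw
    have h2 : (fun i : Fin r => v i.succ) = fun i => w i.succ := congrArg Prod.snd hvw
    refine Fin.cases h1 (fun j => congrFun h2 j) i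

end HopfModel

end Fermat.Agent.S19.H435

end
end
-- ===== PACK-END S19/H435/Prod.lean

-- ===== PACK-BEGIN S55/E1/H354/E2Shapiro.lean
section
/-
S55 engine E1: **E2-Shapiro** (input of LIM5(i)), helper354.

For `φ : D →* G` injective, `R : Rep k G`, `X : Rep k D`:
`Hom_k(R, Coind_φ X) ≅ Coind_φ Hom_k(R|_D, X)` as `G`-modules (`thetaIso`), hence
`Hⁿ(G, Hom_k(R, Coind_φ X)) → Hⁿ(D, Hom_k(R|_D, X))`, `c ↦ (d ↦ ev₁ ∘ c(φ d))`, is bijective.
For `n = 1`, `R = stdR N`: `𝔈²_G(N, Coind X) → H¹(D, Hom_ℤ(R|_D, X))` is bijective.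
-/




set_option autoImplicit false

open CategoryTheory CategoryTheory.Limits groupCohomology

namespace Fermat.Agent.S55.E1.H354

noncomputable section

section generic

variable {k G D : Type} [CommRing k] [Group G] [Group D] (φ : D →* G)
variable (R : Rep.{0} k G) (X : Rep.{0} k D)

/-- Evaluation at `g`: `Coind_φ X → X` (linear). -/
def coindEval (g : G) : (Rep.coind φ X).V →ₗ[k] X.V :=
  LinearMap.proj g ∘ₗ (Representation.coindV φ X.ρ).subtype

lemma coindEval_apply (g : G) (F : (Rep.coind φ X).V) : coindEval φ X g F = F.1 g := rfl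

lemma coindEval_mul (d : D) (g : G) (F : (Rep.coind φ X).V) :
    coindEval φ X (φ d * g) F = X.ρ d (coindEval φ X g F) := F.2 d g

lemma coindEval_ρ (g γ : G) (F : (Rep.coind φ X).V) :
    coindEval φ X g ((Rep.coind φ X).ρ γ F) = coindEval φ X (g * γ) F := rfl

lemma coind_ext {F F' : (Rep.coind φ X).V} (h : ∀ g, coindEval φ X g F = coindEval φ X g F') :
    F = F' := Subtype.ext (funext h)

/-- `Θ(ψ)(g) = ev_g ∘ ψ ∘ g⁻¹ ∈ Hom_k(R, X)`. -/
def thetaFun (ψ : R.V →ₗ[k] (Rep.coind φ X).V) (g : G) : R.V →ₗ[k] X.V :=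
  coindEval φ X g ∘ₗ ψ ∘ₗ R.ρ g⁻¹

lemma thetaFun_apply (ψ : R.V →ₗ[k] (Rep.coind φ X).V) (g : G) (r : R.V) :
    thetaFun φ R X ψ g r = coindEval φ X g (ψ (R.ρ g⁻¹ r)) := rfl

lemma thetaFun_mem (ψ : R.V →ₗ[k] (Rep.coind φ X).V) :
    (fun g => thetaFun φ R X ψ g) ∈
      Representation.coindV φ ((Rep.ihom (Rep.res φ R)).obj X).ρ := by
  intro d g
  apply LinearMap.ext
  intro r
  show thetaFun φ R X ψ (φ d * g) r = X.ρ d (thetaFun φ R X ψ g (R.ρ (φ d⁻¹) r))
  rw [thetaFun_apply, thetaFun_apply, coindEval_mul, mul_inv_rev, map_mul, ← map_inv φ d]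
  rfl

/-- `Θ : Hom_k(R, Coind_φ X) → Coind_φ Hom_k(R|_D, X)` as a linear map. -/
def thetaLin : (R.V →ₗ[k] (Rep.coind φ X).V) →ₗ[k]
    (Rep.coind φ ((Rep.ihom (Rep.res φ R)).obj X)).V where
  toFun ψ := ⟨fun g => thetaFun φ R X ψ g, thetaFun_mem φ R X ψ⟩
  map_add' ψ ψ' := by
    apply Subtype.ext
    funext g
    apply LinearMap.ext
    intro r
    rfl
  map_smul' c ψ := by
    apply Subtype.ext
    funext g
    apply LinearMap.ext
    intro r
    rfl

lemma thetaLin_apply (ψ : R.V →ₗ[k] (Rep.coind φ X).V) (g : G) (r : R.V) :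
    ihomLin ((thetaLin φ R X ψ).1 g) r = coindEval φ X g (ψ (R.ρ g⁻¹ r)) := rfl

/-- `Θ` as a morphism of `G`-modules. -/
def thetaHom : (Rep.ihom R).obj (Rep.coind φ X) ⟶
    Rep.coind φ ((Rep.ihom (Rep.res φ R)).obj X) :=
  Rep.ofHom (LinearMap.intertwiningMap_of_isIntertwiningMap _ _ (thetaLin φ R X) (by
    intro γ ψ
    apply Subtype.ext
    funext g
    apply LinearMap.ext
    intro r
    show coindEval φ X g ((Rep.coind φ X).ρ γ (ihomLin ψ (R.ρ γ⁻¹ (R.ρ g⁻¹ r)))) =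
      coindEval φ X (g * γ) (ihomLin ψ (R.ρ (g * γ)⁻¹ r))
    rw [coindEval_ρ, mul_inv_rev, map_mul]
    rfl))

lemma thetaHom_hom_apply (ψ : ((Rep.ihom R).obj (Rep.coind φ X)).V) :
    (thetaHom φ R X).hom ψ = thetaLin φ R X ψ := rfl

theorem thetaHom_injective : Function.Injective (thetaHom φ R X).hom := by
  intro ψ ψ' h
  apply LinearMap.ext
  intro r
  apply coind_ext
  intro g
  have h1 : coindEval φ X g (ihomLin ψ (R.ρ g⁻¹ (R.ρ g r))) =
      coindEval φ X g (ihomLin ψ' (R.ρ g⁻¹ (R.ρ g r))) :=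
    congrArg (fun F : (Rep.coind φ ((Rep.ihom (Rep.res φ R)).obj X)).V =>
      (show R.V →ₗ[k] X.V from F.1 g) (R.ρ g r)) h
  rw [← Module.End.mul_apply, ← map_mul, inv_mul_cancel, map_one, Module.End.one_apply] at h1
  exact h1

theorem thetaHom_surjective : Function.Surjective (thetaHom φ R X).hom := by
  intro F
  have hF : ∀ (d : D) (g : G) (r : R.V),
      ihomLin (F.1 (φ d * g)) r = X.ρ d (ihomLin (F.1 g) (R.ρ (φ d⁻¹) r)) := by
    intro d g r
    have := F.2 d g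
    exact congrArg (fun x : ((Rep.ihom (Rep.res φ R)).obj X).V =>
      (show R.V →ₗ[k] X.V from x) r) this
  let ψ : R.V →ₗ[k] (Rep.coind φ X).V :=
    { toFun := fun r => ⟨fun g => ihomLin (F.1 g) (R.ρ g r), by
        intro d g
        show ihomLin (F.1 (φ d * g)) (R.ρ (φ d * g) r) = X.ρ d (ihomLin (F.1 g) (R.ρ g r))
        rw [hF, ← Module.End.mul_apply, ← map_mul, ← mul_assoc, ← map_mul, inv_mul_cancel,
          map_one, one_mul]⟩
      map_add' := by
        intro r r'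
        apply Subtype.ext
        funext g
        show ihomLin (F.1 g) (R.ρ g (r + r')) = ihomLin (F.1 g) (R.ρ g r) +
          ihomLin (F.1 g) (R.ρ g r')
        rw [map_add, map_add]
      map_smul' := by
        intro c r
        apply Subtype.ext
        funext g
        show ihomLin (F.1 g) (R.ρ g (c • r)) = c • ihomLin (F.1 g) (R.ρ g r)
        rw [map_smul, map_smul] }
  refine ⟨ψ, ?_⟩
  apply Subtype.ext
  funext g
  apply LinearMap.ext
  intro r
  show ihomLin (F.1 g) (R.ρ g (R.ρ g⁻¹ r)) = ihomLin (F.1 g) r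
  rw [← Module.End.mul_apply, ← map_mul, mul_inv_cancel, map_one, Module.End.one_apply]


instance thetaHom_isIso : IsIso (thetaHom φ R X) :=
  (ConcreteCategory.isIso_iff_bijective _).2
    ⟨thetaHom_injective φ R X, thetaHom_surjective φ R X⟩

/-- `Hom_k(R, Coind_φ X) ≅ Coind_φ Hom_k(R|_D, X)` as `G`-modules. -/
def thetaIso : (Rep.ihom R).obj (Rep.coind φ X) ≅
    Rep.coind φ ((Rep.ihom (Rep.res φ R)).obj X) :=
  asIso (thetaHom φ R X)

/-- The morphism of `D`-modules `Hom_k(R, Coind_φ X)|_D → Hom_k(R|_D, X)`, `ψ ↦ ev₁ ∘ ψ`. -/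
def ihomEv : Rep.res φ ((Rep.ihom R).obj (Rep.coind φ X)) ⟶ (Rep.ihom (Rep.res φ R)).obj X :=
  trIhom φ (𝟙 (Rep.res φ R)) (H173.ev1Hom φ X)

lemma ihomEv_hom_apply (ψ : ((Rep.ihom R).obj (Rep.coind φ X)).V) (r : R.V) :
    ihomLin ((ihomEv φ R X).hom ψ) r = coindEval φ X 1 (ihomLin ψ r) := rfl

theorem ihomEv_eq : ihomEv φ R X =
    (Rep.resFunctor φ).map (thetaHom φ R X) ≫
      H173.ev1Hom φ ((Rep.ihom (Rep.res φ R)).obj X) := by
  apply Rep.hom_ext
  apply DFunLike.ext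
  intro ψ
  apply LinearMap.ext
  intro r
  show coindEval φ X 1 (ihomLin ψ r) = coindEval φ X 1 (ihomLin ψ (R.ρ 1⁻¹ r))
  rw [inv_one, map_one, Module.End.one_apply]

/-- **Shapiro for `Hom`**: `Hⁿ(G, Hom_k(R, Coind_φ X)) → Hⁿ(D, Hom_k(R|_D, X))`,
on cocycles `c ↦ (d ↦ ev₁ ∘ c(φ d))`. -/
def ihomShapiro (n : ℕ) : groupCohomology ((Rep.ihom R).obj (Rep.coind φ X)) n ⟶
    groupCohomology ((Rep.ihom (Rep.res φ R)).obj X) n :=
  groupCohomology.map φ (ihomEv φ R X) n

theorem ihomShapiro_eq (n : ℕ) : ihomShapiro φ R X n =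
    groupCohomology.map (MonoidHom.id G) (thetaHom φ R X) n ≫
      H173.shapiroHom φ ((Rep.ihom (Rep.res φ R)).obj X) n := by
  rw [ihomShapiro, ihomEv_eq, ← groupCohomology.map_comp]
  rfl

variable {φ}

theorem ihomShapiro_bijective (hφ : Function.Injective φ) (n : ℕ) :
    Function.Bijective (ihomShapiro φ R X n).hom := by
  rw [ihomShapiro_eq]
  have h0 : IsIso ((groupCohomology.functor k G n).map (thetaHom φ R X)) := inferInstance
  have h1 : Function.Bijective ((groupCohomology.functor k G n).map (thetaHom φ R X)).hom :=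
    (ConcreteCategory.isIso_iff_bijective _).1 h0
  have h2 := H173.shapiroHom_bijective hφ n ((Rep.ihom (Rep.res φ R)).obj X)
  exact h2.comp h1

/-- Naturality: for a `G`-map `u : Y ⟶ Coind_φ X`, Shapiro after `u_*` is the map induced by
`φ` and `ψ ↦ (ev₁ ∘ u) ∘ ψ`. -/
theorem ihomShapiro_comp_map {Y : Rep.{0} k G} (u : Y ⟶ Rep.coind φ X) (n : ℕ) :
    groupCohomology.map (MonoidHom.id G) ((Rep.ihom R).map u) n ≫ ihomShapiro φ R X n =
      groupCohomology.map φ (trIhom φ (𝟙 (Rep.res φ R))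
        ((Rep.resFunctor φ).map u ≫ H173.ev1Hom φ X)) n := by
  rw [ihomShapiro, ← groupCohomology.map_comp]
  rfl

end generic

/-! ### The case of the standard presentation (`k = ℤ`) -/

section std

variable {G D : Type} [Group G] [Group D]

/-- **E2-Shapiro**: `𝔈²_G(N, Coind_φ X) → H¹(D, Hom_ℤ(R|_D, X))`, `c ↦ (d ↦ ev₁ ∘ c(φ d))`. -/
def E2sh (φ : D →* G) (N : Rep.{0} ℤ G) (X : Rep.{0} ℤ D) :
    E2 N (Rep.coind φ X) →ₗ[ℤ]
      groupCohomology ((Rep.ihom (Rep.res φ (stdR N))).obj X) 1 :=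
  (ihomShapiro φ (stdR N) X 1).hom

theorem E2sh_eq (φ : D →* G) (N : Rep.{0} ℤ G) (X : Rep.{0} ℤ D) :
    E2sh φ N X =
      (groupCohomology.map φ (trIhom φ (𝟙 (Rep.res φ (stdR N))) (H173.ev1Hom φ X)) 1).hom :=
  rfl

theorem E2sh_bijective {φ : D →* G} (hφ : Function.Injective φ) (N : Rep.{0} ℤ G)
    (X : Rep.{0} ℤ D) : Function.Bijective (E2sh φ N X) :=
  ihomShapiro_bijective (stdR N) X hφ 1

theorem E2sh_injective {φ : D →* G} (hφ : Function.Injective φ) (N : Rep.{0} ℤ G)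
    (X : Rep.{0} ℤ D) : Function.Injective (E2sh φ N X) :=
  (E2sh_bijective hφ N X).1

/-- Naturality of E2-Shapiro in `u : Y ⟶ Coind_φ X`. -/
theorem E2sh_coeffMap (φ : D →* G) (N : Rep.{0} ℤ G) {Y : Rep.{0} ℤ G} {X : Rep.{0} ℤ D}
    (u : Y ⟶ Rep.coind φ X) (y : E2 N Y) :
    E2sh φ N X ((T.coeffMap ((Rep.ihom (stdR N)).map u) 1).hom y) =
      (groupCohomology.map φ (trIhom φ (𝟙 (Rep.res φ (stdR N))) (flat φ u)) 1).hom y := by
  have h := ihomShapiro_comp_map (stdR N) X u 1 (φ := φ)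
  exact congrArg (fun f => f.hom y) h

/-- `y ∈ 𝔈²_G(N, Y)` dies in `𝔈²_G(N, Coind_φ X)` iff its local image in
`H¹(D, Hom_ℤ(R|_D, X))` vanishes. -/
theorem E2_coeffMap_eq_zero_iff {φ : D →* G} (hφ : Function.Injective φ) (N : Rep.{0} ℤ G)
    {Y : Rep.{0} ℤ G} {X : Rep.{0} ℤ D} (u : Y ⟶ Rep.coind φ X) (y : E2 N Y) :
    (T.coeffMap ((Rep.ihom (stdR N)).map u) 1).hom y = 0 ↔
      (groupCohomology.map φ (trIhom φ (𝟙 (Rep.res φ (stdR N))) (flat φ u)) 1).hom y = 0 := by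
  rw [← E2sh_coeffMap]
  constructor
  · intro h
    rw [h, map_zero]
  · intro h
    exact E2sh_injective hφ N X (h.trans (map_zero _).symm)

end std

/-- **E2-Shapiro**, Spec form. -/
def E2ShapiroSpec : Prop :=
  ∀ (G D : Type) [Group G] [Group D] (φ : D →* G), Function.Injective φ →
    ∀ (N : Rep.{0} ℤ G) (X : Rep.{0} ℤ D),
      Function.Bijective
        (groupCohomology.map φ (trIhom φ (𝟙 (Rep.res φ (stdR N))) (H173.ev1Hom φ X)) 1).hom

theorem e2Shapiro : E2ShapiroSpec := fun _ _ _ _ _ hφ N X => E2sh_bijective hφ N X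

end

end Fermat.Agent.S55.E1.H354

end
-- ===== PACK-END S55/E1/H354/E2Shapiro.lean

-- ===== PACK-BEGIN S19/Unr/H992/Unr.lean
section




/-!
# Cell A3 (S19) — node UNR closed

`unrStatement : Fermat.Agent.S19.UnrStatement` (frozen in `Fermat/Agent/S19/Spec.lean`):
local coordinates at ONE place above `ℓ`, equivariant under inertia only, give global
Galois-equivariant integral coordinates.

* UA `closureStatement`  (helper992, `Closure.lean`),
* UB `spanningStatement` (helper992, `Spanning.lean`; second proof: helper859 `UBSpan.lean`),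
* UC `coeffStatement`    (helper859, `S19/H859/UC.lean`; second proof: helper619).
-/

set_option autoImplicit false

namespace Fermat.Agent.S19.Unr.H992

/-- **UNR** (unramified descent). -/
theorem unrStatement : Fermat.Agent.S19.UnrStatement :=
  Fermat.Agent.S19.Unr.unrStatement_of_nodes closureStatement spanningStatement
    Fermat.Agent.S19.H859.coeffStatement

end Fermat.Agent.S19.Unr.H992

end
-- ===== PACK-END S19/Unr/H992/Unr.lean

-- ===== PACK-BEGIN S59/H601/PeuRoots.lean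
section


/-!
# S59 / TW-STRICT / PEU-FLAT (helper601), part 1: `p`-th roots of unity

`ζ` a primitive `p`-th root of unity in `ℚ̄`.

* `ez601 ζ x = ζ ^ x.val` (`x : ZMod p`): the additive character `𝔽_p → μ_p`;
* `om601 hζ σ : ZMod p`: the mod `p` cyclotomic character, `σ ζ = ζ ^ (om601 hζ σ).val`;
* `root_mem601`, `root_sub_one_mem601`: a `p`-th root of unity is a unit `≡ 1` at every valuation
  subring over `p`.
-/

set_option autoImplicit false
set_option linter.unusedSectionVars false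
set_option linter.style.haveILetI false

namespace Fermat.Agent.S59.H601

open Fermat.Agent.S19

section Roots

variable {p : ℕ} [Fact p.Prime]

/-- The additive character `x ↦ ζ ^ x`. -/
noncomputable def ez601 (ζ : Qb) (x : ZMod p) : Qb := ζ ^ x.val

theorem ez601_zero (ζ : Qb) : ez601 ζ (0 : ZMod p) = 1 := by
  simp [ez601]

theorem ez601_add {ζ : Qb} (hζ : ζ ^ p = 1) (x y : ZMod p) :
    ez601 ζ (x + y) = ez601 ζ x * ez601 ζ y := by
  unfold ez601
  rw [ZMod.val_add, ← pow_add, ← pow_eq_pow_mod _ hζ]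

theorem ez601_mul {ζ : Qb} (hζ : ζ ^ p = 1) (a x : ZMod p) :
    ez601 ζ (a * x) = (ζ ^ a.val) ^ x.val := by
  unfold ez601
  rw [ZMod.val_mul, ← pow_mul, ← pow_eq_pow_mod _ hζ]

theorem ez601_pow {ζ : Qb} (hζ : ζ ^ p = 1) (x : ZMod p) : ez601 ζ x ^ p = 1 := by
  unfold ez601
  rw [← pow_mul, mul_comm, pow_mul, hζ, one_pow]

theorem ez601_ne_zero {ζ : Qb} (hζ : ζ ^ p = 1) (x : ZMod p) : ez601 ζ x ≠ 0 := by
  intro h
  have := ez601_pow hζ x
  rw [h, zero_pow (Fact.out : p.Prime).ne_zero] at this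
  exact zero_ne_one this

theorem ez601_eq_one_iff {ζ : Qb} (hζ : IsPrimitiveRoot ζ p) (x : ZMod p) :
    ez601 ζ x = 1 ↔ x = 0 := by
  constructor
  · intro h
    unfold ez601 at h
    have h1 := (hζ.pow_eq_one_iff_dvd x.val).mp h
    have h2 : x.val < p := ZMod.val_lt x
    have h3 : x.val = 0 := Nat.eq_zero_of_dvd_of_lt h1 h2
    exact (ZMod.val_eq_zero x).mp h3
  · rintro rfl
    exact ez601_zero ζ

theorem ez601_neg_mul {ζ : Qb} (hζ : ζ ^ p = 1) (x : ZMod p) :
    ez601 ζ (-x) * ez601 ζ x = 1 := by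
  rw [← ez601_add hζ, neg_add_cancel, ez601_zero]

theorem exists_om601 {ζ : Qb} (hζ : IsPrimitiveRoot ζ p) (σ : GalQ) :
    ∃ a : ZMod p, σ ζ = ζ ^ a.val := by
  have h1 : (σ ζ) ^ p = 1 := by rw [← map_pow, hζ.pow_eq_one, map_one]
  obtain ⟨i, hi, hi'⟩ := hζ.eq_pow_of_pow_eq_one h1
  refine ⟨(i : ZMod p), ?_⟩
  rw [ZMod.val_natCast_of_lt hi, hi']

/-- The mod `p` cyclotomic character. -/
noncomputable def om601 {ζ : Qb} (hζ : IsPrimitiveRoot ζ p) (σ : GalQ) : ZMod p :=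
  (exists_om601 hζ σ).choose

theorem map_zeta601 {ζ : Qb} (hζ : IsPrimitiveRoot ζ p) (σ : GalQ) :
    σ ζ = ζ ^ (om601 hζ σ).val :=
  (exists_om601 hζ σ).choose_spec

theorem om601_unique {ζ : Qb} (hζ : IsPrimitiveRoot ζ p) (σ : GalQ) {a : ZMod p}
    (h : σ ζ = ζ ^ a.val) : om601 hζ σ = a := by
  have h1 := map_zeta601 hζ σ
  rw [h] at h1
  have h2 := hζ.pow_inj (ZMod.val_lt a) (ZMod.val_lt _) h1
  exact (ZMod.val_injective p h2).symm

theorem map_ez601 {ζ : Qb} (hζ : IsPrimitiveRoot ζ p) (σ : GalQ) (x : ZMod p) :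
    σ (ez601 ζ x) = ez601 ζ (om601 hζ σ * x) := by
  rw [ez601_mul hζ.pow_eq_one, ← map_zeta601 hζ σ]
  unfold ez601
  rw [map_pow]

theorem om601_one {ζ : Qb} (hζ : IsPrimitiveRoot ζ p) : om601 hζ (1 : GalQ) = 1 := by
  apply om601_unique
  have : (1 : ZMod p).val = 1 := by
    haveI : Fact (1 < p) := ⟨(Fact.out : p.Prime).one_lt⟩
    exact ZMod.val_one p
  rw [this, pow_one]
  rfl

theorem om601_mul {ζ : Qb} (hζ : IsPrimitiveRoot ζ p) (σ τ : GalQ) :
    om601 hζ (σ * τ) = om601 hζ σ * om601 hζ τ := by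
  apply om601_unique
  show σ (τ ζ) = _
  rw [map_zeta601 hζ τ]
  have := map_ez601 hζ σ (om601 hζ τ)
  unfold ez601 at this
  exact this

theorem om601_eq_one_iff {ζ : Qb} (hζ : IsPrimitiveRoot ζ p) (σ : GalQ) :
    om601 hζ σ = 1 ↔ σ ζ = ζ := by
  have h1 : (1 : ZMod p).val = 1 := by
    haveI : Fact (1 < p) := ⟨(Fact.out : p.Prime).one_lt⟩
    exact ZMod.val_one p
  constructor
  · intro h
    rw [map_zeta601 hζ σ, h, h1, pow_one]
  · intro h
    apply om601_unique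
    rw [h1, pow_one, h]

theorem om601_ne_zero {ζ : Qb} (hζ : IsPrimitiveRoot ζ p) (σ : GalQ) : om601 hζ σ ≠ 0 := by
  intro h
  have h1 := map_zeta601 hζ σ
  rw [h, ZMod.val_zero, pow_zero] at h1
  have h2 : ζ = 1 := by
    have : σ ζ = σ 1 := by rw [h1, map_one]
    exact σ.injective this
  have h3 := hζ.pow_eq_one_iff_dvd 1
  rw [pow_one] at h3
  have h4 := h3.mp h2
  exact (Fact.out : p.Prime).one_lt.ne' (Nat.dvd_one.mp h4)

end Roots

section Val

variable {p : ℕ} [Fact p.Prime] (P : ValuationSubring Qb)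

/-- A `p`-th root of unity has valuation one. -/
theorem root_val601 {y : Qb} (hy : y ^ p = 1) : P.valuation y = 1 := by
  have h1 : P.valuation y ^ p = 1 := by rw [← map_pow, hy, map_one]
  exact (pow_eq_one_iff_of_nonneg zero_le (Fact.out : p.Prime).ne_zero).mp h1

theorem root_mem601 {y : Qb} (hy : y ^ p = 1) : y ∈ P := by
  rw [← ValuationSubring.valuation_le_one_iff, root_val601 P hy]

/-- A `p`-th root of unity is `≡ 1` at every valuation subring over `p`. -/
theorem root_sub_one_mem601 (hP : (p : Qb) ∈ P.nonunits) {y : Qb} (hy : y ^ p = 1) :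
    y - 1 ∈ P.nonunits := by
  have hp : p.Prime := Fact.out
  have hyP := root_mem601 P hy
  obtain ⟨r, hr⟩ := exists_add_pow_prime_eq hp (⟨y, hyP⟩ - 1 : P) 1
  have h1 : ((⟨y, hyP⟩ - 1 : P) + 1) ^ p = 1 := by
    rw [sub_add_cancel]
    exact Subtype.ext hy
  rw [h1, one_pow] at hr
  have h2 : (⟨y, hyP⟩ - 1 : P) ^ p = -((p : P) * (⟨y, hyP⟩ - 1) * 1 * r) := by
    linear_combination -hr
  have h3 : (y - 1) ^ p = -((p : Qb) * (y - 1) * 1 * (r : Qb)) := by
    have := congrArg (Subtype.val : P → Qb) h2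
    simpa using this
  rw [ValuationSubring.mem_nonunits_iff] at hP ⊢
  by_contra hcon
  have h4 : P.valuation (y - 1) = 1 := by
    have h5 : P.valuation (y - 1) ≤ 1 := by
      rw [ValuationSubring.valuation_le_one_iff]
      exact P.toSubring.sub_mem hyP P.one_mem
    exact le_antisymm h5 (not_lt.mp hcon)
  have h6 : P.valuation ((y - 1) ^ p) = 1 := by rw [map_pow, h4, one_pow]
  rw [h3, Valuation.map_neg, map_mul, map_mul, map_mul, h4, map_one, mul_one, mul_one] at h6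
  have h7 : P.valuation (r : Qb) ≤ 1 := by
    rw [ValuationSubring.valuation_le_one_iff]
    exact r.2
  have h8 : P.valuation (p : Qb) * P.valuation (r : Qb) < 1 := by
    calc P.valuation (p : Qb) * P.valuation (r : Qb) ≤ P.valuation (p : Qb) * 1 :=
          mul_le_mul_right h7 _
      _ = P.valuation (p : Qb) := mul_one _
      _ < 1 := hP
  rw [h6] at h8
  exact lt_irrefl _ h8

end Val

end Fermat.Agent.S59.H601

end
-- ===== PACK-END S59/H601/PeuRoots.lean

-- ===== PACK-BEGIN S33/AugCore.lean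
section
/-
Row S33 — augmentation calculus on the frozen vocabulary of `Spec2.lean` (helper409).

The lemmas `iAug_mono` … `le_iAug_of_devissage` are those of helper270
(`origin/helper270:Fermat/Agent/S33/H270/KeyCore.lean`), restated for the frozen definitions.
New: `keyAt_pi` — (K) for `J` implies (K) for the finite powers `Fin r → J`.
-/


set_option autoImplicit false

namespace Fermat.Agent.S33

variable {G : Type*} [Group G] {J J' : Type*} [AddCommGroup J] [AddCommGroup J']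
  [DistribMulAction G J] [DistribMulAction G J']

theorem mem_torsSub {m : ℕ} {x : J} : x ∈ torsSub J m ↔ m • x = 0 := by
  unfold torsSub
  rw [AddMonoidHom.mem_ker]
  rfl

theorem smul_sub_mem_iAug {I : Subgroup G} {Y : AddSubgroup J} {σ : G} (hσ : σ ∈ I) {y : J}
    (hy : y ∈ Y) : σ • y - y ∈ iAug I Y :=
  AddSubgroup.subset_closure ⟨σ, hσ, y, hy, rfl⟩

theorem iAug_mono {I : Subgroup G} {Y Z : AddSubgroup J} (h : Y ≤ Z) : iAug I Y ≤ iAug I Z := by
  unfold iAug
  apply AddSubgroup.closure_mono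
  rintro z ⟨σ, hσ, y, hy, rfl⟩
  exact ⟨σ, hσ, y, h hy, rfl⟩

/-- `I_aug Y ≤ Y` when `Y` is `I`-stable. -/
theorem iAug_le_self {I : Subgroup G} {Y : AddSubgroup J}
    (hY : ∀ σ ∈ I, ∀ y ∈ Y, σ • y ∈ Y) : iAug I Y ≤ Y := by
  unfold iAug
  rw [AddSubgroup.closure_le]
  rintro z ⟨σ, hσ, y, hy, rfl⟩
  exact Y.sub_mem (hY σ hσ y hy) hy

/-- An `I`-equivariant additive map sends `I_aug Y` into `I_aug Y'` if it sends `Y` to `Y'`. -/
theorem map_mem_iAug {I : Subgroup G} (f : J →+ J')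
    (hf : ∀ σ ∈ I, ∀ x : J, f (σ • x) = σ • f x) {Y : AddSubgroup J} {Y' : AddSubgroup J'}
    (hYY' : ∀ y ∈ Y, f y ∈ Y') {x : J} (hx : x ∈ iAug I Y) : f x ∈ iAug I Y' := by
  unfold iAug at hx
  induction hx using AddSubgroup.closure_induction with
  | mem z hz =>
    obtain ⟨σ, hσ, y, hy, rfl⟩ := hz
    rw [map_sub, hf σ hσ]
    exact smul_sub_mem_iAug hσ (hYY' y hy)
  | zero => rw [map_zero]; exact AddSubgroup.zero_mem _
  | add a b _ _ ha hb => rw [map_add]; exact AddSubgroup.add_mem _ ha hb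
  | neg a _ ha => rw [map_neg]; exact AddSubgroup.neg_mem _ ha

/-- Every element of `I_aug (f Y)` is the image of an element of `I_aug Y`. -/
theorem exists_mem_iAug_of_mem_iAug_map {I : Subgroup G} (f : J →+ J')
    (hf : ∀ σ ∈ I, ∀ x : J, f (σ • x) = σ • f x) {Y : AddSubgroup J} {z : J'}
    (hz : z ∈ iAug I (Y.map f)) : ∃ x ∈ iAug I Y, f x = z := by
  unfold iAug at hz
  induction hz using AddSubgroup.closure_induction with
  | mem w hw =>
    obtain ⟨σ, hσ, y', hy', rfl⟩ := hw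
    obtain ⟨y, hy, rfl⟩ := AddSubgroup.mem_map.mp hy'
    exact ⟨σ • y - y, smul_sub_mem_iAug hσ hy, by rw [map_sub, hf σ hσ]⟩
  | zero => exact ⟨0, AddSubgroup.zero_mem _, map_zero f⟩
  | add a b _ _ ha hb =>
    obtain ⟨x, hx, rfl⟩ := ha
    obtain ⟨y, hy, rfl⟩ := hb
    exact ⟨x + y, AddSubgroup.add_mem _ hx hy, map_add f x y⟩
  | neg a _ ha =>
    obtain ⟨x, hx, rfl⟩ := ha
    exact ⟨-x, AddSubgroup.neg_mem _ hx, map_neg f x⟩

/-- **Dévissage** (right exactness of `I`-coinvariants, subgroup form). -/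
theorem le_iAug_of_devissage {I : Subgroup G} (f : J →+ J')
    (hf : ∀ σ ∈ I, ∀ x : J, f (σ • x) = σ • f x) {A B : AddSubgroup J}
    (hB : ∀ σ ∈ I, ∀ y ∈ B, σ • y ∈ B)
    (hAB : ∀ b ∈ B, f b = 0 → b ∈ A) (hAle : A ≤ B) (hA : A ≤ iAug I A)
    (hC : B.map f ≤ iAug I (B.map f)) : B ≤ iAug I B := by
  intro b hb
  obtain ⟨z, hz, hzb⟩ :=
    exists_mem_iAug_of_mem_iAug_map f hf (hC (AddSubgroup.mem_map_of_mem f hb))
  have hzB : z ∈ B := iAug_le_self hB hz
  have hbz : b - z ∈ A := hAB _ (B.sub_mem hb hzB) (by rw [map_sub, hzb, sub_self])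
  have h1 : b - z ∈ iAug I B := iAug_mono hAle (hA hbz)
  have h2 := AddSubgroup.add_mem _ h1 hz
  rwa [sub_add_cancel] at h2

/-- **(K) for finite powers.**  If every `G`-stable subgroup of `𝒮⁺(J)` is generated by its
augmentation, then so is every `G`-stable subgroup of `Fin r → J` with coordinates in `𝒮⁺(J)`. -/
theorem keyAt_pi {I : Subgroup G} {p : ℕ} (hKey : KeyAt I p J) :
    ∀ (r : ℕ) (Y : AddSubgroup (Fin r → J)), (∀ (σ : G), ∀ y ∈ Y, σ • y ∈ Y) →
      (∀ y ∈ Y, ∀ i, InSPlus I p (y i)) → Y ≤ iAug I Y := by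
  intro r
  induction r with
  | zero =>
    intro Y _ _ y _
    have : y = 0 := Subsingleton.elim _ _
    rw [this]
    exact AddSubgroup.zero_mem _
  | succ r ih =>
    intro Y hYG hY
    -- first coordinate
    let f : (Fin (r + 1) → J) →+ J := Pi.evalAddMonoidHom (fun _ => J) 0
    have hf : ∀ σ ∈ I, ∀ x : Fin (r + 1) → J, f (σ • x) = σ • f x := fun _ _ _ => rfl
    -- the tail
    let g : (Fin (r + 1) → J) →+ (Fin r → J) :=
      { toFun := fun y i => y i.succ
        map_zero' := rfl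
        map_add' := fun _ _ => rfl }
    -- extension by zero
    let ι : (Fin r → J) →+ (Fin (r + 1) → J) :=
      { toFun := fun z => Fin.cons (α := fun _ => J) 0 z
        map_zero' := by
          funext i
          refine Fin.cases ?_ (fun i => ?_) i <;> simp
        map_add' := fun z z' => by
          funext i
          refine Fin.cases ?_ (fun i => ?_) i <;> simp }
    have hι : ∀ σ ∈ I, ∀ z : Fin r → J, ι (σ • z) = σ • ι z := by
      intro σ _ z
      funext i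
      refine Fin.cases ?_ (fun i => ?_) i
      · show (0 : J) = σ • (0 : J)
        rw [smul_zero]
      · rfl
    have hιg : ∀ y : Fin (r + 1) → J, f y = 0 → ι (g y) = y := by
      intro y hy
      funext i
      refine Fin.cases ?_ (fun i => ?_) i
      · exact hy.symm
      · rfl
    set A : AddSubgroup (Fin (r + 1) → J) := Y ⊓ f.ker with hA
    refine le_iAug_of_devissage (A := A) f hf (fun σ _ y hy => hYG σ y hy)
      (fun b hb hb0 => AddSubgroup.mem_inf.mpr ⟨hb, AddMonoidHom.mem_ker.mpr hb0⟩)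
      inf_le_left ?_ ?_
    · -- the kernel part, by induction
      have hA' : A.map g ≤ iAug I (A.map g) := by
        refine ih (A.map g) ?_ ?_
        · rintro σ _ ⟨y, hy, rfl⟩
          have hy' : y ∈ Y ∧ f y = 0 := ⟨hy.1, AddMonoidHom.mem_ker.mp hy.2⟩
          refine ⟨σ • y, ⟨hYG σ y hy'.1, AddMonoidHom.mem_ker.mpr ?_⟩, rfl⟩
          show σ • f y = 0
          rw [hy'.2, smul_zero]
        · rintro _ ⟨y, hy, rfl⟩ i
          exact hY y hy.1 i.succ
      intro y hy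
      have hy0 : f y = 0 := AddMonoidHom.mem_ker.mp hy.2
      have h1 : g y ∈ iAug I (A.map g) := hA' (AddSubgroup.mem_map_of_mem g hy)
      have h2 : ι (g y) ∈ iAug I A := by
        refine map_mem_iAug ι hι ?_ h1
        rintro _ ⟨y', hy', rfl⟩
        rw [hιg y' (AddMonoidHom.mem_ker.mp hy'.2)]
        exact hy'
      rwa [hιg y hy0] at h2
    · -- the image in the first coordinate
      refine hKey _ ?_ ?_
      · rintro σ _ ⟨y, hy, rfl⟩
        exact ⟨σ • y, hYG σ y hy, rfl⟩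
      · rintro _ ⟨y, hy, rfl⟩
        exact hY y hy 0

end Fermat.Agent.S33

end
-- ===== PACK-END S33/AugCore.lean

-- ===== PACK-BEGIN S33/H270/KeySpec.lean
section




/-!
# S33, leaf KEY in the frozen shape of `S33/Spec2.lean`  — helper270

`keyStatement : S33.OrdFilStatement → S33.OldAugStatement → S33.KeyStatement`  (VERBATIM Spec2).

Proof: dévissage `KeyCore.key_of` along `Y ⊇ Y ∩ ker α ⊇ Y ∩ ker α ∩ ker β`; on the last step
inertia acts through the cyclotomic character by (S1⁺) + (S2), and some `σ₀ ∈ I_P` has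
`χ(σ₀) ≢ 1 mod p` (total ramification of `ℚ(ζ_p)` at `p`, `S59.H659.exists_inertia_cycExp_ne_one`).
-/

set_option autoImplicit false
set_option linter.style.haveILetI false

namespace Fermat.Agent.S33.H270

/-- The Spec2 vocabulary is the `KeyCore` vocabulary. -/
theorem spec_iAug_eq {G : Type*} [Group G] {J : Type*} [AddCommGroup J] [DistribMulAction G J]
    (I : Subgroup G) (Y : AddSubgroup J) : Fermat.Agent.S33.iAug I Y = _root_.Fermat.Agent.S33.H270.iAug I Y := rfl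

theorem spec_inSPlus_iff {G : Type*} [Group G] {J : Type*} [AddCommGroup J]
    [DistribMulAction G J] (I : Subgroup G) (p : ℕ) (x : J) :
    Fermat.Agent.S33.InSPlus I p x ↔ _root_.Fermat.Agent.S33.H270.InSPlus I p x := Iff.rfl

/-- DETI in the form used by `KeyCore`: some `σ₀ ∈ I_P` acts on `μ_p` through an exponent `c₀`
with `d * c₀ ≡ d + 1 mod p` for some `d`. -/
theorem exists_inertia_scalar_spec {p : ℕ} (hp : p.Prime) (hp2 : p ≠ 2)
    (P : ValuationSubring (AlgebraicClosure ℚ)) (hP : P.LiesOverPrime p) :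
    ∃ σ₀ ∈ P.inertiaSubgroupIn ℚ, ∃ c₀ d : ℕ,
      (∀ ζ : AlgebraicClosure ℚ, ζ ^ p = 1 → σ₀ ζ = ζ ^ c₀) ∧ d * c₀ ≡ d + 1 [MOD p] := by
  obtain ⟨σ₀, hσ₀, hne⟩ := Fermat.Agent.S59.H659.exists_inertia_cycExp_ne_one p hp hp2 P hP
  obtain ⟨c₀, hc₀⟩ := Fermat.Agent.S59.H659.exists_isCycExp p hp.ne_zero σ₀
  have hc1 : ¬ c₀ ≡ 1 [MOD p] := hne c₀ hc₀
  haveI : Fact p.Prime := ⟨hp⟩
  have hu : ((c₀ : ZMod p) - 1) ≠ 0 := by
    intro h
    apply hc1
    rw [← ZMod.natCast_eq_natCast_iff]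
    rw [sub_eq_zero] at h
    rw [h, Nat.cast_one]
  refine ⟨σ₀, hσ₀, c₀, (((c₀ : ZMod p) - 1)⁻¹).val, hc₀, ?_⟩
  rw [← ZMod.natCast_eq_natCast_iff]
  push_cast
  rw [ZMod.natCast_zmod_val]
  have h1 : ((c₀ : ZMod p) - 1)⁻¹ * ((c₀ : ZMod p) - 1) = 1 := inv_mul_cancel₀ hu
  linear_combination h1

/-- **KEY**, frozen Spec2 shape. -/
theorem keyStatement (hNEW : Fermat.Agent.S33.OrdFilStatement)
    (hOLD : Fermat.Agent.S33.OldAugStatement) : Fermat.Agent.S33.KeyStatement := by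
  intro p N _ hp hp2 hN hN2 P hP
  obtain ⟨M', rfl⟩ := hN
  have hM' : M' ≠ 0 := by
    rintro rfl
    exact NeZero.ne (p * 0) (mul_zero p)
  haveI : NeZero M' := ⟨hM'⟩
  have hpM' : ¬ p ∣ M' := by
    rintro ⟨k, rfl⟩
    exact hN2 ⟨k, by ring⟩
  obtain ⟨α, β, hα, hβ, hfil⟩ := hNEW p M' hp hp2 hpM'
  obtain ⟨𝒮, hS1, hS2⟩ := hfil P hP
  obtain ⟨σ₀, hσ₀, c₀, d, hc₀, hcd⟩ := exists_inertia_scalar_spec hp hp2 P hP
  intro Y hYG hY
  rw [spec_iAug_eq]
  refine key_of (I := P.inertiaSubgroupIn ℚ) (p := p) α β hα hβ hσ₀ hcd 𝒮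
    (fun x hx => hS1 x hx) (fun x hx hpx hαx hβx => hS2 x hx hpx hαx hβx σ₀ hσ₀ c₀ hc₀)
    (fun Y' hY'G hY' => hOLD p M' hp hp2 hpM' P hP Y' hY'G hY') Y hYG hY

end Fermat.Agent.S33.H270

end
-- ===== PACK-END S33/H270/KeySpec.lean

-- ===== PACK-BEGIN S38T/IA/Spec.lean
section


/-!
# Row S59, cell LO-IA (B2), HECKE-T: the `t`-generic twin of `S38/IA/Spec.lean`  (helper3)

MECHANICAL TWIN of the cell HECKE of row HARD (`S38/IA/Hecke/*`, closed for `t = .flat`, `5 ≤ p`),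
for BOTH types `ty = .flat` / `ty = .sord` at `p` and EVERY odd prime `p`.  The frozen files of row
HARD are NOT touched: every twin lives in `Fermat/Agent/S38T/…` and its declarations carry the
suffix `_T`.

Conventions of the twin:
* `(ty : PType) (_hflat : IsPTypeAt p ρbar ty)` replaces the hypothesis `IsFlatAt p`
  (`IsPTypeAt` = VERBATIM the hypothesis `_ht` of `TW.PkgStatement`);
* `(_hp5 : 3 ≤ p)` replaces `5 ≤ p`;
* base level `wilesLevel p ty Smin Smin`, package `HeckePkg p 𝒪 ρbar ty Smin Σ`;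
* minimal level `ribetLevelT p ty Smin Piv` (`= ribetLevel p Smin Piv` for `.flat`,
  `= ribetLevel p Smin Piv * p` for `.sord`, BY `rfl`).
Only sorry-free definitions in this file.
-/

set_option autoImplicit false

open Polynomial IsLocalRing

namespace Fermat.Agent.S38.IA

open Fermat.Agent.S59.Arch Fermat.Agent.S59.TW.H959

/-- The type of `ρ̄` at `p`: VERBATIM the hypothesis `_ht` of `TW.PkgStatement`. -/
def IsPTypeAt {k : Type} [Field k] (p : ℕ) (ρbar : ResidualGaloisRep k) (ty : PType) : Prop :=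
  (ty = .flat ∧ (GaloisRepAdic.ofResidualGaloisRep ρbar).IsFlatAt p) ∨
    (ty = .sord ∧ (GaloisRepAdic.ofResidualGaloisRep ρbar).IsStrictOrdinaryAt p ∧
      ¬ (GaloisRepAdic.ofResidualGaloisRep ρbar).IsFlatAt p)

/-- The factor at `p` of Wiles's level. -/
def pFac (p : ℕ) (ty : PType) : ℕ :=
  match ty with
  | .flat => 1
  | .sord => p
  | .ord => p

/-- **Ribet's level of type `ty`**: `ribetLevel p Smin Piv` for `.flat`,
`ribetLevel p Smin Piv * p` for `.sord`. -/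
noncomputable def ribetLevelT (p : ℕ) (ty : PType) (Smin Piv : Finset ℕ) : ℕ :=
  match ty with
  | .flat => ribetLevel p Smin Piv
  | .sord => ribetLevel p Smin Piv * p
  | .ord => ribetLevel p Smin Piv * p

theorem ribetLevelT_flat (p : ℕ) (Smin Piv : Finset ℕ) :
    ribetLevelT p .flat Smin Piv = ribetLevel p Smin Piv := rfl

theorem ribetLevelT_sord (p : ℕ) (Smin Piv : Finset ℕ) :
    ribetLevelT p .sord Smin Piv = ribetLevel p Smin Piv * p := rfl

theorem ribetLevelT_eq (p : ℕ) (ty : PType) (Smin Piv : Finset ℕ) :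
    ribetLevelT p ty Smin Piv = ribetLevel p Smin Piv * pFac p ty := by
  cases ty <;> simp [ribetLevelT, pFac]

theorem wilesLevel_eq_mul_pFac (p : ℕ) (ty : PType) (Smin Sig : Finset ℕ) :
    wilesLevel p ty Smin Sig = wilesLevel p .flat Smin Sig * pFac p ty := by
  cases ty <;> simp [wilesLevel, pFac]

section Hecke

variable (p : ℕ)
  (𝒪 : Type) [CommRing 𝒪] [IsDomain 𝒪] [IsDiscreteValuationRing 𝒪]
  [IsAdicComplete (maximalIdeal 𝒪) 𝒪]
  (ρbar : ResidualGaloisRep (ResidueField 𝒪))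

/-- **The Hecke side of Ihara avoidance at one Taylor–Wiles set `Q = {q_i}` of level `n`**, type
`ty` at `p`: `IA.HasIAModule` with `.flat` replaced by `ty`. -/
def HasIAModule_T (ty : PType) (Smin Piv : Finset ℕ) (lam : 𝒪) (d n : ℕ) {r : ℕ}
    (qv : Fin r → ℕ) : Prop :=
  ∃ (_ : NeZero (wilesLevel p ty Smin (Smin ∪ Piv ∪ Finset.univ.image qv)))
    (PQ : HeckePkg p 𝒪 ρbar ty Smin (Smin ∪ Piv ∪ Finset.univ.image qv))
    (MQ : Type) (_ : AddCommGroup MQ) (_ : Module PQ.T MQ)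
    (w : Fin r → PQ.T) (b : Fin d → MQ),
    -- freeness over the group ring of the Taylor–Wiles primes
    IsGroupRingBasis 𝒪 (p ^ n) w b ∧
    (∀ i, w i - 1 ∈ maximalIdeal PQ.T) ∧
    -- (SUPP-NU) the module is supported on the points which are not unipotent at the pivots
    (∀ t : PQ.T,
      (∀ (𝒪' : Type) [CommRing 𝒪'] [IsDomain 𝒪'] [IsDiscreteValuationRing 𝒪'] [CharZero 𝒪']
          [Algebra 𝒪 𝒪'] (x : PQ.T →ₐ[𝒪] 𝒪') (hx : IsLocalHom (x : PQ.T →+* 𝒪')),
          (∀ q ∈ Piv,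
            ¬ (PQ.H.ρ.baseChangeAlong (x : PQ.T →+* 𝒪') hx).IsUnipotentOnInertiaAt q) →
          x t = 0) →
      ∀ m : MQ, t • m = 0) ∧
    -- (ST) the Steinberg element is divisible by `lam` on the module
    (∀ q ∈ Piv, ∀ P : ValuationSubring (AlgebraicClosure ℚ), P.LiesOverPrime q →
      ∀ φ : AlgebraicClosure ℚ ≃ₐ[ℚ] AlgebraicClosure ℚ, P.IsFrobeniusAt φ q →
        ∀ m : MQ, ∃ m' : MQ,
          (PQ.H.ρ.trace φ ^ 2 - ((1 + q : ℕ) : PQ.T) ^ 2) • m = algebraMap 𝒪 PQ.T lam • m')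

/-- For `ty = .flat` this is `IA.HasIAModule` (by `Iff.rfl`). -/
theorem hasIAModule_T_flat (Smin Piv : Finset ℕ) (lam : 𝒪) (d n : ℕ) {r : ℕ} (qv : Fin r → ℕ) :
    HasIAModule_T p 𝒪 ρbar .flat Smin Piv lam d n qv ↔
      HasIAModule p 𝒪 ρbar Smin Piv lam d n qv := Iff.rfl

end Hecke

/-- **LEAF HECKE-T of cell LO-IA (B2) of row S59**: `IA.IAHeckeStatement` for both types at `p` and
every odd prime `p`. -/
def IAHeckeStatement_T : Prop :=
  ∀ (p : ℕ) [Fact p.Prime]
    (𝒪 : Type) [CommRing 𝒪] [IsDomain 𝒪] [IsDiscreteValuationRing 𝒪]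
    [IsAdicComplete (maximalIdeal 𝒪) 𝒪] [Finite (ResidueField 𝒪)] [CharZero 𝒪]
    (ρbar : ResidualGaloisRep (ResidueField 𝒪)) (Smin : Finset ℕ)
    (_h : ResidualHyp p 𝒪 ρbar Smin)
    (ty : PType) (_hflat : IsPTypeAt p ρbar ty)
    (ζ : 𝒪) (_hζ : IsPrimitiveRoot ζ p)
    (Piv : Finset ℕ) (_hPiv : IsPivotSet p ρbar Smin Piv)
    (_hmod : ResModular 𝒪 ρbar (ribetLevelT p ty Smin Piv) (Smin ∪ Piv))
    (_hmin : ∀ q ∈ Piv, ∀ S : Finset ℕ,
      ¬ ResModular 𝒪 ρbar (ribetLevelT p ty Smin (Piv.erase q)) S),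
    ∃ d : ℕ, 0 < d ∧ ∀ (n r : ℕ) (qv : Fin r → ℕ), IsTWSet p ρbar (Smin ∪ Piv) n qv →
      HasIAModule_T p 𝒪 ρbar ty Smin Piv (ζ - 1) d n qv

end Fermat.Agent.S38.IA

end
-- ===== PACK-END S38T/IA/Spec.lean

-- ===== PACK-BEGIN S38T/IA/Hecke/Spec.lean
section




/-!
# Row S59 (B2) HECKE-T, LAYER 2: `ty`-generic twin of `S38/IA/Hecke/Spec.lean`  (helper3)

MECHANICAL TWIN (see `S38T/IA/Spec.lean`); the text below is the text of the original file with
`.flat` replaced by `ty`.  PKG is `TW.PkgStatement` itself (no flat copy).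

`IA.IAHeckeStatement_T` (trunk `S38/IA/Spec.lean`, helper995) asks, for every Taylor–Wiles set `Q`
relative to `Smin ∪ Piv`, for a module `M_Q` over the Prelude ring
`T_Q = heckeLocal (N_min ∏_{Piv ∪ Q} q²)` with elements `w_i ∈ T_Q` (`HasIAModule_T`).
This file mirrors layer 2 of the cell TW of row S59 (`S59/TW/Spec.lean`, helper24):

| leaf | Prop | content | status |
|---|---|---|---|
| PKG   | `PkgFlatStatement` | the Hecke package of type `ty` over a Frobenius character | `pkgFlat_of_pkg` from `TW.PkgStatement` (helper659) |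
| INX, INO, CYC | `TW.InertiaExistsStatement`, … | inertia values at the Taylor–Wiles primes | ON MAIN |
| ALG   | `TW.AlgStatement` | basis transfer from the diamonds to the inertia values | helper95 / helper773 |
| IA-AUT | `IAAutStatement_T` | the module `M_Q` (`IAAutLevel_T`) with `Cmp` | THE MOUNTAIN, split in layer 3 |

Assembly (`Hecke/Asm.lean`):
`iaHecke_of_leaves_T : PkgFlatStatement → IAAutStatement_T → INX → INO → CYC → ALG →
  IA.IAHeckeStatement_T`.

## The automorphic module, abstractly (`IAAutLevel_T`)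

Classically `M_Q` = the `χ`-part (`χ = ⊗_{q ∈ Piv} χ_q`, `χ_q` of order `p` and conductor `q`) of
`e · H¹_par(Γ₀(N_min) ∩ Γ_H(Piv ∪ Q), 𝒪)`, `e` the idempotent of the maximal ideal of `ρ̄` and of
`U_q = α̃_q` (`q ∈ Q`), a module over `T_Q` through the operators twisted to trivial character;
`dia` = the (normalised) diamond operators of `Δ_Q`.
DIFFERENCES with `TW.AutLevel`:
* NO minimal package, NO projection `π`, NO control statement in the interface (single-sided
  Ihara avoidance needs no level `0`); but the RANK `d` is fixed BEFORE `Q`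
  (control is used inside the proof of `IAAutStatement_T`: `M_Q / I_Δ ≅ M_∅`);
* two more fields, VERBATIM the clauses (SUPP-NU) and (ST) of `IA.HasIAModule_T`.
Only sorry-free definitions in this file.
-/

set_option autoImplicit false

open Polynomial IsLocalRing

namespace Fermat.Agent.S38.IA.Hecke


open Fermat.Agent.S59.Arch Fermat.Agent.S59.TW.H959 Fermat.Agent.S59.TW Fermat.Agent.S59.H765
open CuspForm

section Aut

variable {p : ℕ} {ty : PType}
  {𝒪 : Type} [CommRing 𝒪] [IsDomain 𝒪] [IsDiscreteValuationRing 𝒪]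
  [IsAdicComplete (maximalIdeal 𝒪) 𝒪]
  {ρbar : ResidualGaloisRep (ResidueField 𝒪)} {Smin : Finset ℕ}

/-- **The automorphic Ihara-avoidance module at the Taylor–Wiles set `Q = qv`**, abstractly:
a `T_Q`-module with a diamond action of `∏ (ℤ/q_j)^×` factoring through the `p`-Sylow quotient
`Δ_Q`, FREE OF RANK `d` over `𝒪[Δ_Q]`, supported on the points which are not unipotent at the
pivots (SUPP-NU), and on which the Steinberg elements at the pivots are divisible by `lam`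
(ST). -/
structure IAAutLevel_T (Piv : Finset ℕ) {r : ℕ} (qv : Fin r → ℕ)
    [NeZero (wilesLevel p ty Smin (Smin ∪ Piv ∪ Finset.univ.image qv))]
    (PQ : HeckePkg p 𝒪 ρbar ty Smin (Smin ∪ Piv ∪ Finset.univ.image qv))
    (lam : 𝒪) (d : ℕ) : Type 1 where
  /-- the module `M_Q` -/
  MQ : Type
  [instAddCommGroup : AddCommGroup MQ]
  [instModule : Module PQ.T MQ]
  /-- the (normalised) diamond operators at the Taylor–Wiles primes -/
  dia : (∀ j : Fin r, (ZMod (qv j))ˣ) →* Module.End PQ.T MQ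
  /-- the diamond action factors through the `p`-Sylow quotient -/
  dia_pow : ∀ a : ∀ j : Fin r, (ZMod (qv j))ˣ,
    dia (fun j => a j ^ p ^ padicValNat p (qv j - 1)) = 1
  /-- `M_Q` is free of rank `d` over `𝒪[Δ_Q]`: for primitive roots `g_j` mod `q_j`, the
  elements `dia (g^e) b_i`, `0 ≤ e_j < p^{m_j}` (`m_j = v_p(q_j - 1)`), `i < d`, form an
  `𝒪`-basis. -/
  free : ∀ g : ∀ j : Fin r, (ZMod (qv j))ˣ, (∀ j, orderOf (g j) = qv j - 1) →
    ∃ b : Fin d → MQ, ∀ y : MQ,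
      ∃! c : Fin d → (∀ j : Fin r, Fin (p ^ padicValNat p (qv j - 1))) → 𝒪,
        y = ∑ i, ∑ e, algebraMap 𝒪 PQ.T (c i e) • dia (fun j => g j ^ (e j : ℕ)) (b i)
  /-- (SUPP-NU), verbatim from `IA.HasIAModule_T` -/
  supp_nu : ∀ t : PQ.T,
    (∀ (𝒪' : Type) [CommRing 𝒪'] [IsDomain 𝒪'] [IsDiscreteValuationRing 𝒪'] [CharZero 𝒪']
        [Algebra 𝒪 𝒪'] (x : PQ.T →ₐ[𝒪] 𝒪') (hx : IsLocalHom (x : PQ.T →+* 𝒪')),
        (∀ q ∈ Piv,
          ¬ (PQ.H.ρ.baseChangeAlong (x : PQ.T →+* 𝒪') hx).IsUnipotentOnInertiaAt q) →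
        x t = 0) →
    ∀ m : MQ, t • m = 0
  /-- (ST), verbatim from `IA.HasIAModule_T` -/
  st : ∀ q ∈ Piv, ∀ P : ValuationSubring (AlgebraicClosure ℚ), P.LiesOverPrime q →
    ∀ φ : AlgebraicClosure ℚ ≃ₐ[ℚ] AlgebraicClosure ℚ, P.IsFrobeniusAt φ q →
      ∀ m : MQ, ∃ m' : MQ,
        (PQ.H.ρ.trace φ ^ 2 - ((1 + q : ℕ) : PQ.T) ^ 2) • m = algebraMap 𝒪 PQ.T lam • m'

attribute [instance] IAAutLevel_T.instAddCommGroup IAAutLevel_T.instModule

variable {Piv : Finset ℕ} {r : ℕ} {qv : Fin r → ℕ}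
  [NeZero (wilesLevel p ty Smin (Smin ∪ Piv ∪ Finset.univ.image qv))]
  {PQ : HeckePkg p 𝒪 ρbar ty Smin (Smin ∪ Piv ∪ Finset.univ.image qv)}
  {lam : 𝒪} {d : ℕ}

/-- **The comparison of the Galois and the diamond structure on `M_Q`** at the Taylor–Wiles
primes: literally `TW.AutLevel.Cmp`.  For a place `P` over `q_j`, a Frobenius `φ` at `P`, `σ` in
the inertia group of `P` acting on `μ_{q_j}` through a primitive root `a`, and every inertia
value `w ∈ T_Q` at `(φ, σ)`:  `(w - 1) M_Q = (dia_j a - 1) M_Q`. -/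
def IAAutLevel_T.Cmp (A : IAAutLevel_T Piv qv PQ lam d) : Prop :=
  ∀ (j : Fin r) (P : ValuationSubring Qb), P.LiesOverPrime (qv j) →
    ∀ φ : GQ, P.IsFrobeniusAt φ (qv j) →
    ∀ σ ∈ P.inertiaSubgroupIn ℚ, ∀ a : (ZMod (qv j))ˣ, orderOf a = qv j - 1 →
      CycloAt (qv j) σ (a : ZMod (qv j)).val →
      ∀ a₀ w : PQ.T, IsInertiaValue PQ.H.ρ φ σ a₀ w →
        ∀ y : A.MQ, (∃ y' : A.MQ, y = w • y' - y') ↔
          ∃ y' : A.MQ, y = A.dia (Pi.mulSingle j a) y' - y'

end Aut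

/-! ## The leaves -/

/-- **IA-AUT (the mountain of row HARD).**  Under the hypotheses of `IA.IAHeckeStatement_T`, with
the Frobenius character `θ₀` of level `L = ribetLevel` given by `hmod`: a rank `d > 0` and, for
every Taylor–Wiles set `Q` (relative to `Smin ∪ Piv`) and every Hecke package `P_Q` of type
`Smin ∪ Piv ∪ Q` over the character `θ₀ ∘ oldRestrict`, an automorphic module of rank `d`
satisfying the comparison `Cmp`. -/
def IAAutStatement_T : Prop :=
  ∀ (p : ℕ) [Fact p.Prime]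
    (𝒪 : Type) [CommRing 𝒪] [IsDomain 𝒪] [IsDiscreteValuationRing 𝒪]
    [IsAdicComplete (maximalIdeal 𝒪) 𝒪] [Finite (ResidueField 𝒪)] [CharZero 𝒪]
    (ρbar : ResidualGaloisRep (ResidueField 𝒪)) (Smin : Finset ℕ)
    (_h : ResidualHyp p 𝒪 ρbar Smin)
    (ty : PType) (_hflat : IsPTypeAt p ρbar ty)
    (ζ : 𝒪) (_hζ : IsPrimitiveRoot ζ p)
    (Piv : Finset ℕ) (_hPiv : IsPivotSet p ρbar Smin Piv)
    [NeZero (ribetLevelT p ty Smin Piv)]
    (θ₀ : CuspForm.heckeAlgebra (ribetLevelT p ty Smin Piv) 2 (↑(Smin ∪ Piv) : Set ℕ) →+*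
      ResidueField 𝒪)
    (_hθ₀ : Fermat.Agent.S59.G4.ResFrobCond ρbar θ₀)
    (_hmin : ∀ q ∈ Piv, ∀ S : Finset ℕ,
      ¬ ResModular 𝒪 ρbar (ribetLevelT p ty Smin (Piv.erase q)) S),
    ∃ d : ℕ, 0 < d ∧ ∀ (n r : ℕ) (qv : Fin r → ℕ) (_hq : IsTWSet p ρbar (Smin ∪ Piv) n qv)
      [NeZero (wilesLevel p ty Smin (Smin ∪ Piv ∪ Finset.univ.image qv))]
      (hp : LevelPair (ribetLevelT p ty Smin Piv)
        (wilesLevel p ty Smin (Smin ∪ Piv ∪ Finset.univ.image qv))
        (↑(Smin ∪ Piv) : Set ℕ) (↑(Smin ∪ Piv ∪ Finset.univ.image qv) : Set ℕ))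
      (PQ : HeckePkg p 𝒪 ρbar ty Smin (Smin ∪ Piv ∪ Finset.univ.image qv))
      (_hθ : PQ.θ = θ₀.comp (oldRestrict hp)),
      ∃ A : IAAutLevel_T Piv qv PQ (ζ - 1) d, A.Cmp

end Fermat.Agent.S38.IA.Hecke

end
-- ===== PACK-END S38T/IA/Hecke/Spec.lean

-- ===== PACK-BEGIN S59/LOQ/H849/NeatGlue.lean
section


/-!
# Row S59, cell LO-Q (B1): `MazurW35` from its NEAT levels, by PAD / UNPAD with a Chebotarev prime
  (helper849; statement-level glue, replaces the target-level cell T3-DESC)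

At `p = 3` the tame node relation (CORE-OUT-q) needs a modular unit of slope prime to `3` at `q`;
it exists iff the level is `3`-NEAT at `q`:

    Neat3 p q M  :=  p = 3 → q ≡ 1 (3)  ∨  ∃ r prime, r ∣ M, r ≠ q, r ≡ 2 (3).

If `M` is not neat, pad the level with a prime `r ≡ 2 (3)`, `r ∤ M`, `W` good at `r`,
`3 ∤ a_r(W)` (Chebotarev): the level `r M` is neat, Mazur's principle at the neat level removes
`q`, and `r` is removed for free: `(r + 1)² ≡ 0` and `a_r² ≡ 1` modulo `3`, so `r` is not a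
level-raising prime and every eigenform of level `r (M / q)` congruent to `W` is `r`-old
(S35 + oldforms).  No descent of the targets `𝓕`, `𝒮` is needed, and the degree `r + 1 ≡ 0 (3)` of
`X₀(rM) → X₀(M)` plays no role.

    mazurW35_of_neat : MazurW35NeatStatement → PadStatement → UnpadStatement → Cheb3Statement →
      LOW.MazurW35Statement

The four hypotheses are stated in the weakest form that the glue consumes (every available
hypothesis is passed on), so any stronger theorem of the owners plugs in by a one-line adapter.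
-/

set_option autoImplicit false

open scoped WeierstrassCurve.Affine

namespace Fermat.Agent.S59.LOQ.H849

open Fermat.Agent.S59.Arch Fermat.Agent.S59.Arch.LOW

/-- The level `M` is `3`-neat at `q` (vacuous for `p ≠ 3`): `q ≡ 1 mod 3`, or a prime
`r ≡ 2 mod 3`, `r ≠ q`, divides `M`. -/
def Neat3 (p q M : ℕ) : Prop :=
  p = 3 → (q % 3 = 1 ∨ ∃ r : ℕ, r.Prime ∧ r ∣ M ∧ r ≠ q ∧ r % 3 = 2)

/-- **Mazur's principle in W-form at the NEAT levels** (`LOW.MazurW35Statement` with the extra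
hypothesis `Neat3 p q M`). -/
def MazurW35NeatStatement : Prop :=
  ∀ (p : ℕ) [Fact p.Prime] (_hp : p = 3 ∨ p = 5)
    (W : WeierstrassCurve ℤ) (_hΔ : W.Δ ≠ 0) (_hW : W.IsSemistableModel)
    (_hirr : W.ModRepIsIrreducible p)
    (hcard : Nat.card (Submodule.torsionBy ℤ
      ((W.map (Int.castRingHom ℚ))⁄(AlgebraicClosure ℚ)).Point p) = p ^ 2)
    (hker : GaloisFactorsThroughFiniteLevel
      (WeierstrassCurve.Affine.Point.galoisRepModuleEnd (K := AlgebraicClosure ℚ) ℚ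
        (W.map (Int.castRingHom ℚ)) p))
    (M q : ℕ) (_hM : Squarefree M) (_hq : q.Prime) (_hqp : q ≠ p) (_hqM : q ∣ M)
    (_hunr : ((W.map (Int.castRingHom ℚ)).residualGaloisRepOf p hcard hker).IsUnramifiedAt q)
    (_hnp : ¬ IsPivotAt p ((W.map (Int.castRingHom ℚ)).residualGaloisRepOf p hcard hker) q)
    (_hres : W.IsResiduallyModularOfLevel p M)
    (_hneat : Neat3 p q M),
    W.IsResiduallyModularOfLevel p (M / q)

/-- **PAD** at `p = 3`: a squarefree modular level can be multiplied by a good prime `r ≠ 3`,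
`r ∤ M` (stabilisation). -/
def PadStatement : Prop :=
  ∀ (W : WeierstrassCurve ℤ) (_hΔ : W.Δ ≠ 0) (_hW : W.IsSemistableModel)
    (_hirr : W.ModRepIsIrreducible 3)
    (M r : ℕ) (_hM : Squarefree M) (_hr : r.Prime) (_hr3 : r ≠ 3) (_hrM : ¬ r ∣ M)
    (_hgood : W.IsGoodPrimeFor r)
    (_hres : W.IsResiduallyModularOfLevel 3 M),
    W.IsResiduallyModularOfLevel 3 (r * M)

/-- **UNPAD** at `p = 3`: a good prime `r ≡ 2 mod 3` with `3 ∤ a_r(W)` (so that
`a_r² ≢ (r + 1)²`: no level raising at `r`) is removed from a squarefree modular level. -/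
def UnpadStatement : Prop :=
  ∀ (W : WeierstrassCurve ℤ) (_hΔ : W.Δ ≠ 0) (_hW : W.IsSemistableModel)
    (_hirr : W.ModRepIsIrreducible 3)
    (M r : ℕ) (_hM : Squarefree (r * M)) (_hr : r.Prime) (_hr3 : r ≠ 3) (_hrM : ¬ r ∣ M)
    (_hgood : W.IsGoodPrimeFor r) (_hr2 : r % 3 = 2)
    (_ha : ¬ (3 : ℤ) ∣ W.apOfModel r)
    (_hlr : ¬ (3 : ℤ) ∣ W.apOfModel r ^ 2 - ((r : ℤ) + 1) ^ 2)
    (_hres : W.IsResiduallyModularOfLevel 3 (r * M)),
    W.IsResiduallyModularOfLevel 3 M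

/-- **CHEB-3**: outside any finite set there is a good prime `r ≡ 2 mod 3` with `3 ∤ a_r(W)`
(a Frobenius of order `8` in the image of `ρ̄`). -/
def Cheb3Statement : Prop :=
  ∀ (W : WeierstrassCurve ℤ) (_hΔ : W.Δ ≠ 0) (_hW : W.IsSemistableModel)
    (_hirr : W.ModRepIsIrreducible 3) (S : Finset ℕ),
    ∃ r : ℕ, r.Prime ∧ r ∉ S ∧ r % 3 = 2 ∧ W.IsGoodPrimeFor r ∧ ¬ (3 : ℤ) ∣ W.apOfModel r

/-! ## Arithmetic -/

/-- `r ≡ 2 mod 3` and `3 ∤ a` give `3 ∤ a² − (r + 1)²`. -/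
theorem not_dvd_sq_sub_sq {r : ℕ} (hr2 : r % 3 = 2) {a : ℤ} (ha : ¬ (3 : ℤ) ∣ a) :
    ¬ (3 : ℤ) ∣ a ^ 2 - ((r : ℤ) + 1) ^ 2 := by
  intro h
  have h3 : (3 : ℤ) ∣ (r : ℤ) + 1 := by
    have : (3 : ℕ) ∣ r + 1 := by omega
    exact_mod_cast this
  have h4 : (3 : ℤ) ∣ ((r : ℤ) + 1) ^ 2 := Dvd.dvd.pow h3 (by norm_num)
  have h5 : (3 : ℤ) ∣ a ^ 2 := by
    have := dvd_add h h4
    simpa using this
  have hp : Prime (3 : ℤ) := by
    have : Nat.Prime 3 := by norm_num
    exact_mod_cast Nat.prime_iff_prime_int.mp this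
  exact ha (hp.dvd_of_dvd_pow h5)

/-- A prime `r ∤ M` times a squarefree `M` is squarefree. -/
theorem squarefree_prime_mul {r M : ℕ} (hr : r.Prime) (hM : Squarefree M) (hrM : ¬ r ∣ M) :
    Squarefree (r * M) := by
  rw [Nat.squarefree_mul_iff]
  exact ⟨(Nat.Prime.coprime_iff_not_dvd hr).mpr hrM, hr.squarefree, hM⟩

/-! ## The glue -/

/-- **`MazurW35` from the neat levels, PAD, UNPAD and CHEB-3.** -/
theorem mazurW35_of_neat (hN : MazurW35NeatStatement) (hPad : PadStatement)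
    (hUnpad : UnpadStatement) (hCheb : Cheb3Statement) : MazurW35Statement := by
  intro p _ hp W hΔ hW hirr hcard hker M q hM hq hqp hqM hunr hnp hres
  by_cases hneat : Neat3 p q M
  · exact hN p hp W hΔ hW hirr hcard hker M q hM hq hqp hqM hunr hnp hres hneat
  -- not neat: `p = 3`
  have hp3 : p = 3 := by
    by_contra h
    exact hneat (fun h' => absurd h' h)
  subst hp3
  have hM0 : M ≠ 0 := hM.ne_zero
  -- the Chebotarev prime
  obtain ⟨r, hr, hrS, hr2, hgood, ha⟩ := hCheb W hΔ hW hirr (M.primeFactors ∪ {3, q})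
  have hrM : ¬ r ∣ M := by
    intro h
    exact hrS (Finset.mem_union_left _ (Nat.mem_primeFactors.mpr ⟨hr, h, hM0⟩))
  have hr3 : r ≠ 3 := by
    intro h
    exact hrS (Finset.mem_union_right _ (by simp [h]))
  have hrq : r ≠ q := by
    intro h
    exact hrS (Finset.mem_union_right _ (by simp [h]))
  -- PAD
  have hres₁ : W.IsResiduallyModularOfLevel 3 (r * M) :=
    hPad W hΔ hW hirr M r hM hr hr3 hrM hgood hres
  have hsq₁ : Squarefree (r * M) := squarefree_prime_mul hr hM hrM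
  -- Mazur at the neat level `r * M`
  have hneat₁ : Neat3 3 q (r * M) :=
    fun _ => Or.inr ⟨r, hr, Dvd.intro M rfl, hrq, hr2⟩
  have hres₂ : W.IsResiduallyModularOfLevel 3 (r * M / q) :=
    hN 3 hp W hΔ hW hirr hcard hker (r * M) q hsq₁ hq hqp (Dvd.dvd.mul_left hqM r) hunr hnp
      hres₁ hneat₁
  rw [Nat.mul_div_assoc r hqM] at hres₂
  -- UNPAD
  have hdiv : M / q ∣ M := Nat.div_dvd_of_dvd hqM
  have hrMq : ¬ r ∣ M / q := fun h => hrM (h.trans hdiv)
  have hsq₂ : Squarefree (r * (M / q)) :=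
    squarefree_prime_mul hr (hM.squarefree_of_dvd hdiv) hrMq
  exact hUnpad W hΔ hW hirr (M / q) r hsq₂ hr hr3 hrMq hgood hr2 ha
    (not_dvd_sq_sub_sq hr2 ha) hres₂

end Fermat.Agent.S59.LOQ.H849

end
-- ===== PACK-END S59/LOQ/H849/NeatGlue.lean

-- ===== PACK-BEGIN S59/H826/Frame32.lean
section
/-
Row S59, cell LO, leaf LO-SQ at `(p, q) = (3, 2)` — SOFT route: the CONTRACT between the
group/Hecke side (B-GRP, B-HECKE: helper316) and the core (helper826), and the proof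
`Frame32 ⟹ Betti32Statement`.

A frame for `(N, r)` (`N` odd, `r ≡ 2 mod 3` prime, `r ∤ 6 N`) consists of
* subgroups `K`, `K'` of `SL(2,ℤ)` (`K` of finite index), thought of as `Γ(2) ∩ Γ₀(N)` and
  `Γ(2) ∩ Γ₀(N r)` (or their conjugates `Γ₀(4N)`, `Γ₀(4Nr)`), `V = Hom(K, 𝔽₃)`, `V' = Hom(K', 𝔽₃)`;
* Hecke operators `T l` on `V` (`l ∤ 6N`), `T' l` on `V'` (`l ∤ 6Nr`);
* the `S₃`-symmetry `σ`, `u` of `V` (`σ³ = 1`, `u² = 1`, `u σ u = σ²`), commuting with the `T l`;
  `σ'` on `V'`;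
* `inp : Hom(Γ₀(4N), 𝔽₃) → V` injective and Hecke-equivariant (levels written `N * 2 * 2` and
  `N * 2`, as in `S41.Spec.conjDelta (N * 2) 2` and `H316.K2_le_Gamma0_two`);
* `out : V → Hom(Γ₀(2N), 𝔽₃)` Hecke-equivariant and injective on `V^u` (`res ∘ cor = 1 + u`);
* `α : V → V'`, `β : V' → V` with `β α = T r`, `β σ' = σ β`, `α σ = σ' α`, `α T_l = T'_l α`;
* KEY at the auxiliary level (from `key826` + `exists_conj_sub_of_mem_augSub826`): a `σ'`-fixed
  `T'_{l₀}`-eigenclass with non-Eisenstein eigenvalue lies in `(σ' - 1) V'`.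
-/



set_option autoImplicit false
set_option linter.style.haveILetI false

namespace Fermat.Agent.S59.H826

open CongruenceSubgroup
open Fermat.Agent.S29.H642
open scoped MatrixGroups

/-- `Hom(Γ, 𝔽₃)` is finite-dimensional for `Γ ≤ SL(2,ℤ)` of finite index. -/
theorem finite_hom826 (Γ : Subgroup SL(2, ℤ)) [Γ.FiniteIndex] :
    Module.Finite (ZMod 3) (Additive Γ →+ ZMod 3) := by
  have hG : Group.FG SL(2, ℤ) :=
    Group.fg_iff.mpr ⟨{ModularGroup.S, ModularGroup.T}, SpecialLinearGroup.SL2Z_generators,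
      Set.toFinite _⟩
  have hΓ : Group.FG Γ := Subgroup.fg_of_index_ne_zero Γ
  obtain ⟨s, hs, hfin⟩ := Group.fg_iff.mp hΓ
  have : Finite s := hfin
  let E : (Additive Γ →+ ZMod 3) →ₗ[ZMod 3] (s → ZMod 3) :=
    { toFun := fun φ γ => φ (Additive.ofMul γ.1)
      map_add' := fun _ _ => rfl
      map_smul' := fun _ _ => rfl }
  refine Module.Finite.of_injective E ?_
  rw [← LinearMap.ker_eq_bot, LinearMap.ker_eq_bot']
  intro φ hφ
  have key : ∀ γ : Γ, φ (Additive.ofMul γ) = 0 := by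
    intro γ
    have hγ : γ ∈ Subgroup.closure s := by rw [hs]; trivial
    induction hγ using Subgroup.closure_induction with
    | mem x hx => exact congrFun hφ ⟨x, hx⟩
    | one => exact map_zero φ
    | mul x y _ _ hx hy =>
      rw [ofMul_mul, map_add, hx, hy, add_zero]
    | inv x _ hx =>
      rw [ofMul_inv, map_neg, hx, neg_zero]
  exact AddMonoidHom.ext fun g => key (Additive.toMul g)

/-- **The contract.** -/
structure Frame32 (N r : ℕ) where
  /-- level `N` (`Γ(2) ∩ Γ₀(N)`) -/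
  K : Subgroup SL(2, ℤ)
  /-- level `N r` -/
  K' : Subgroup SL(2, ℤ)
  fin : K.FiniteIndex
  T : ℕ → (Additive K →+ ZMod 3) →+ (Additive K →+ ZMod 3)
  σ : (Additive K →+ ZMod 3) →+ (Additive K →+ ZMod 3)
  u : (Additive K →+ ZMod 3) →+ (Additive K →+ ZMod 3)
  hσ : ∀ x, σ (σ (σ x)) = x
  hu : ∀ x, u (u x) = x
  huσ : ∀ x, u (σ (u x)) = σ (σ x)
  hTT : ∀ l l' : ℕ, l.Prime → ¬ l ∣ 6 * N → l'.Prime → ¬ l' ∣ 6 * N →
    ∀ x, T l (T l' x) = T l' (T l x)
  hTσ : ∀ l : ℕ, l.Prime → ¬ l ∣ 6 * N → ∀ x, T l (σ x) = σ (T l x)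
  hTu : ∀ l : ℕ, l.Prime → ¬ l ∣ 6 * N → ∀ x, T l (u x) = u (T l x)
  inp : (Additive (Gamma0 (N * 2 * 2)) →+ ZMod 3) →+ (Additive K →+ ZMod 3)
  inp_inj : Function.Injective inp
  hinp : ∀ (l : ℕ) [Fact l.Prime] (hl : ¬ l ∣ N * 2 * 2), l ≠ 3 →
    ∀ y, inp (heckeTransfer hl y) = T l (inp y)
  out : (Additive K →+ ZMod 3) →+ (Additive (Gamma0 (N * 2)) →+ ZMod 3)
  hout : ∀ (l : ℕ) [Fact l.Prime] (hl : ¬ l ∣ N * 2), l ≠ 3 →
    ∀ z, out (T l z) = heckeTransfer hl (out z)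
  hout0 : ∀ z, u z = z → out z = 0 → z = 0
  T' : ℕ → (Additive K' →+ ZMod 3) →+ (Additive K' →+ ZMod 3)
  σ' : (Additive K' →+ ZMod 3) →+ (Additive K' →+ ZMod 3)
  α : (Additive K →+ ZMod 3) →+ (Additive K' →+ ZMod 3)
  β : (Additive K' →+ ZMod 3) →+ (Additive K →+ ZMod 3)
  hβσ : ∀ w, β (σ' w) = σ (β w)
  hασ : ∀ x, α (σ x) = σ' (α x)
  hβα : ∀ x, β (α x) = T r x
  hαT : ∀ l : ℕ, l.Prime → ¬ l ∣ 6 * N * r → ∀ x, α (T l x) = T' l (α x)
  key : ∀ l : ℕ, l.Prime → ¬ l ∣ 6 * N * r → ∀ c : ZMod 3, c ≠ (l : ZMod 3) + 1 →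
    ∀ x', σ' x' = x' → T' l x' = c • x' → ∃ w, x' = σ' w - w

/-- **The frames exist** (B-GRP + B-HECKE). -/
def Frame32Statement : Prop :=
  ∀ N r : ℕ, N ≠ 0 → ¬ 2 ∣ N → r.Prime → ¬ r ∣ 6 * N → r % 3 = 2 → Nonempty (Frame32 N r)

theorem not_dvd_of_not_dvd_six826 {l N : ℕ} (hl : l.Prime) (h : ¬ l ∣ 6 * N) :
    ¬ l ∣ 4 * N ∧ ¬ l ∣ 2 * N ∧ l ≠ 3 := by
  refine ⟨fun h4 => ?_, fun h2 => ?_, ?_⟩
  · rcases (Nat.Prime.dvd_mul hl).mp h4 with h' | h'
    · have h2 : l ∣ 2 := by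
        have : l ∣ 2 ^ 2 := by simpa using h'
        exact hl.dvd_of_dvd_pow this
      exact h (Dvd.dvd.mul_right (h2.trans ⟨3, by norm_num⟩) N)
    · exact h (Dvd.dvd.mul_left h' 6)
  · rcases (Nat.Prime.dvd_mul hl).mp h2 with h' | h'
    · exact h (Dvd.dvd.mul_right (h'.trans ⟨3, by norm_num⟩) N)
    · exact h (Dvd.dvd.mul_left h' 6)
  · rintro rfl
    exact h (Dvd.dvd.mul_right ⟨2, by norm_num⟩ N)

theorem not_dvd_six_of826 {l N : ℕ} (hl : l.Prime) (h2 : ¬ l ∣ 2 * N) (h3 : l ≠ 3) :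
    ¬ l ∣ 6 * N := by
  intro h
  have h6 : 6 * N = 3 * (2 * N) := by ring
  rw [h6] at h
  rcases (Nat.Prime.dvd_mul hl).mp h with h' | h'
  · exact h3 ((Nat.prime_dvd_prime_iff_eq hl (by norm_num)).mp h')
  · exact h2 h'

/-- **Frame ⟹ BETTI32.** -/
theorem betti32_of_frame (hF : Frame32Statement) : Betti32Statement := by
  intro N hN hodd good a r l₀ hr hr6 hr3 hgr har hl₀ hl₀6 hgl₀ hal₀ hg3 hocc
  have e4 : 4 * N = N * 2 * 2 := by ring
  have e2 : 2 * N = N * 2 := by ring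
  rw [e4] at hocc
  rw [e2]
  obtain ⟨y, hy, hey⟩ := hocc
  obtain ⟨F⟩ := hF N r hN hodd hr hr6 hr3
  haveI := F.fin
  haveI : Module.Finite (ZMod 3) (Additive F.K →+ ZMod 3) := finite_hom826 F.K
  have hl₀N : ¬ l₀ ∣ 6 * N := fun h => hl₀6 (Dvd.dvd.mul_right h r)
  -- the core
  obtain ⟨z, hz, huz, hzT⟩ :=
    exists_fixed_eigen826 (k := ZMod 3) (V := Additive F.K →+ ZMod 3)
      (V' := Additive F.K' →+ ZMod 3)
      (ι := {l : ℕ // l.Prime ∧ ¬ l ∣ 6 * N ∧ good l})
      (fun i => (F.T i.1).toZModLinearMap 3)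
      (fun i j => LinearMap.ext fun x => F.hTT i.1 j.1 i.2.1 i.2.2.1 j.2.1 j.2.2.1 x)
      (F.σ.toZModLinearMap 3) (F.u.toZModLinearMap 3)
      (LinearMap.ext fun x => F.hσ x) (LinearMap.ext fun x => F.huσ x)
      (LinearMap.ext fun x => F.hu x)
      (fun i => LinearMap.ext fun x => F.hTσ i.1 i.2.1 i.2.2.1 x)
      (fun i => LinearMap.ext fun x => F.hTu i.1 i.2.1 i.2.2.1 x)
      (F.σ'.toZModLinearMap 3) (F.α.toZModLinearMap 3) (F.β.toZModLinearMap 3)
      (fun w => F.hβσ w) ⟨r, hr, hr6, hgr⟩ (fun v => F.hβα v)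
      (fun i => ((a i.1 : ℤ) : ZMod 3))
      (by
        intro h
        exact har ((ZMod.intCast_zmod_eq_zero_iff_dvd (a r) 3).mp h))
      (by
        intro x hxT hσx
        refine F.key l₀ hl₀ hl₀6 ((a l₀ : ℤ) : ZMod 3) ?_ (F.α x) ?_ ?_
        · intro h
          apply hal₀
          apply (ZMod.intCast_zmod_eq_zero_iff_dvd (a l₀ - ((l₀ : ℤ) + 1)) 3).mp
          push_cast
          rw [h]
          ring
        · have := F.hασ x
          rw [← this]
          exact congrArg F.α hσx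
        · have h1 := hxT ⟨l₀, hl₀, hl₀N, hgl₀⟩
          have h2 := F.hαT l₀ hl₀ hl₀6 x
          rw [← h2]
          have h3 : F.T l₀ x = ((a l₀ : ℤ) : ZMod 3) • x := h1
          rw [h3]
          exact ZMod.map_smul F.α _ _)
      (F.inp y)
      (fun h => hy (F.inp_inj (by rw [h, map_zero])))
      (by
        rintro ⟨l, hl, hl6, hgl⟩
        haveI : Fact l.Prime := ⟨hl⟩
        obtain ⟨h4, -, h3⟩ := not_dvd_of_not_dvd_six826 hl hl6
        rw [e4] at h4
        have h1 := F.hinp l h4 h3 y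
        have h2 := hey l h4 hgl
        show F.T l (F.inp y) = _
        rw [← h1, h2]
        exact ZMod.map_smul F.inp _ _)
  -- the output
  refine ⟨F.out z, fun h => hz (F.hout0 z huz h), ?_⟩
  intro ℓ hℓ hℓN hgood
  have hℓ6 : ¬ ℓ ∣ 6 * N := not_dvd_six_of826 hℓ.out (by rw [e2]; exact hℓN) (hg3 ℓ hgood)
  have h1 := F.hout ℓ hℓN (hg3 ℓ hgood) z
  have h2 : F.T ℓ z = ((a ℓ : ℤ) : ZMod 3) • z := hzT ⟨ℓ, hℓ.out, hℓ6, hgood⟩
  rw [← h1, h2]
  exact ZMod.map_smul F.out _ _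

end Fermat.Agent.S59.H826

end
-- ===== PACK-END S59/H826/Frame32.lean

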