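import Mathlib
import Fermat.Prelude.Def_GaloisRep_Flat
import Fermat.Agent.Pack.S59C.E2L3
import Fermat.Agent.Pack.S59C.E5L3
import Fermat.Agent.Pack.S59C.E0L1
import Fermat.Agent.Pack.S43GC.G0E3L1
import Fermat.Agent.Pack.S43MC.G0E10L1
import Fermat.Agent.Pack.S59C.E5L1
import Fermat.Agent.Pack.S43MC.G0E17L3
import Fermat.Agent.Pack.S43GC.G0E2L0
import Fermat.Agent.Pack.S43GC.G0E16L3
import Fermat.Agent.Pack.S43GC.G0E17L1
import Fermat.Agent.Pack.S43GC.G0E16L1
import Fermat.Agent.Pack.S43GC.G2E0L0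
import Fermat.Agent.Pack.S43MC.G0E4L0
import Fermat.Agent.Pack.S59C.E0L2
import Fermat.Agent.Pack.S59C.E1L2
import Fermat.Agent.Pack.S44C.G0E21L3
import Fermat.Agent.Pack.S59C.E2L1
import Fermat.Agent.Pack.S43C.E0L0
import Fermat.Agent.Pack.S43MC.G0E19L0

set_option linter.all false

-- ===== PACK-BEGIN S59/H405/TWRes.lean
section






/-!
# S59 / G-TW (helper405): the hypothesis `hTW` of S56 for residual representations over `𝔽_p`

`hTW_of_residual` : let `p ∈ {3, 5}` and let `ρ₀ : G_ℚ → GL₂(𝔽_p)` be odd, irreducible, with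
unipotent inertia at every prime `q ≠ p`.  Then every base change of `ρ₀` stays irreducible on
every subgroup of index `2` of `G_ℚ` (over every extension field): this is the hypothesis `hTW`
of the frozen statement S56.  No information on `ρ₀|_{I_p}` is used.
-/

set_option autoImplicit false

namespace Fermat.Agent.S59.H405

open Fermat.Agent.S53 Matrix

section Transport

variable {F : Type} [Field F]

/-- transport of the determinant along an equivalence with a matrix representation -/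
theorem det_of_equiv {ρ₀ : ResidualGaloisRep F} {rb : S53.GQ →* S53.M2 F}
    {h : GaloisFactorsThroughFiniteLevel rb} (e : ResidualGaloisRep.Equiv ρ₀ (toRes rb h))
    (σ : S53.GQ) : (rb σ).det = LinearMap.det (ρ₀.ρ σ) := by
  let f : ρ₀.V ≃ₗ[F] (Fin 2 → F) := e.toLinearEquiv
  have hf : ∀ x, f (ρ₀.ρ σ x) = (rb σ) *ᵥ (f x) := e.map_apply σ
  have h1 : ρ₀.ρ σ = (f.symm : (Fin 2 → F) →ₗ[F] ρ₀.V) ∘ₗ
      (Matrix.toLin' (rb σ)) ∘ₗ (f.symm.symm : ρ₀.V →ₗ[F] (Fin 2 → F)) := by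
    apply LinearMap.ext
    intro x
    simp only [LinearMap.coe_comp, LinearEquiv.coe_coe, Function.comp_apply, Matrix.toLin'_apply,
      LinearEquiv.symm_symm]
    apply f.injective
    rw [LinearEquiv.apply_symm_apply]
    exact hf x
  rw [h1, LinearMap.det_conj, LinearMap.det_toLin']

/-- transport of unipotency along an equivalence with a matrix representation -/
theorem unip_of_equiv {ρ₀ : ResidualGaloisRep F} {rb : S53.GQ →* S53.M2 F}
    {h : GaloisFactorsThroughFiniteLevel rb} (e : ResidualGaloisRep.Equiv ρ₀ (toRes rb h))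
    (σ : S53.GQ) (hσ : (ρ₀.ρ σ - 1) * (ρ₀.ρ σ - 1) = 0) :
    (rb σ - 1) * (rb σ - 1) = 0 := by
  let f : ρ₀.V ≃ₗ[F] (Fin 2 → F) := e.toLinearEquiv
  have hf : ∀ x, f (ρ₀.ρ σ x) = (rb σ) *ᵥ (f x) := e.map_apply σ
  apply mulVec_injective_M2
  intro y
  obtain ⟨x, rfl⟩ := f.surjective y
  have hstep : ∀ z : ρ₀.V, (rb σ - 1) *ᵥ (f z) = f ((ρ₀.ρ σ - 1) z) := by
    intro z
    rw [Matrix.sub_mulVec, Matrix.one_mulVec, LinearMap.sub_apply, map_sub]
    congr 1
    exact (hf z).symm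
  rw [← Matrix.mulVec_mulVec, hstep, hstep, Matrix.zero_mulVec]
  have := congrArg (fun g : Module.End F ρ₀.V => g x) hσ
  simp only [Module.End.mul_apply, LinearMap.zero_apply] at this
  rw [this, map_zero]

end Transport

/-- **G-TW for residual representations over `𝔽_p`, `p ∈ {3, 5}`.** -/
theorem hTW_of_residual (p : ℕ) [Fact p.Prime] (hp : p = 3 ∨ p = 5)
    (ρ₀ : ResidualGaloisRep (ZMod p)) (hodd : ρ₀.IsOdd) (hirr : ρ₀.IsIrreducible)
    (hunip : ∀ q : ℕ, q.Prime → q ≠ p → ∀ A : ValuationSubring (AlgebraicClosure ℚ),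
      A.LiesOverPrime q → ∀ σ ∈ A.inertiaSubgroupIn ℚ, (ρ₀.ρ σ - 1) * (ρ₀.ρ σ - 1) = 0)
    (k : Type) [Field k] (ι : ZMod p →+* k) (ρbar : ResidualGaloisRep k)
    (hρ : ρbar.IsEquiv (ρ₀.baseChangeAlong ι))
    (K : Type) [Field K] [Algebra k K]
    (G : Subgroup (AlgebraicClosure ℚ ≃ₐ[ℚ] AlgebraicClosure ℚ)) (hG : G.index = 2)
    (V : Submodule K (ρbar.baseChange K).V)
    (hV : ∀ σ ∈ G, ∀ x ∈ V, (ρbar.baseChange K).ρ σ x ∈ V) : V = ⊥ ∨ V = ⊤ := by
  have hp2 : p ≠ 2 := by rcases hp with h | h <;> omega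
  -- matrix form
  obtain ⟨rb, hrb, ⟨e₀⟩⟩ := exists_toRes ρ₀
  obtain ⟨e₁⟩ := baseChangeAlong_toRes ι rb hrb
  obtain ⟨e₂⟩ := hρ
  have E₁ : ResidualGaloisRep.Equiv ρbar (toRes (mapRep ι rb) (factors_mapRep ι hrb)) :=
    (e₂.trans (e₀.baseChangeAlong ι)).trans e₁
  obtain ⟨e₃⟩ := baseChange_toRes K (mapRep ι rb) (factors_mapRep ι hrb)
  have E : ResidualGaloisRep.Equiv (ρbar.baseChange K)
      (toRes (mapRep (algebraMap k K) (mapRep ι rb))
        (factors_mapRep (algebraMap k K) (factors_mapRep ι hrb))) :=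
    (resEquivBaseChange K E₁).trans e₃
  set φ : ZMod p →+* K := (algebraMap k K).comp ι with hφ
  let f : (ρbar.baseChange K).V ≃ₗ[K] (Fin 2 → K) := E.toLinearEquiv
  have hact : ∀ (σ : S53.GQ) (x : (ρbar.baseChange K).V),
      f ((ρbar.baseChange K).ρ σ x) = ((rb σ).map φ) *ᵥ (f x) := by
    intro σ x
    exact E.map_apply σ x
  by_contra hcon
  rw [not_or] at hcon
  obtain ⟨hbot, htop⟩ := hcon
  -- the transported line
  let W : Submodule K (Fin 2 → K) := V.map (f : (ρbar.baseChange K).V →ₗ[K] (Fin 2 → K))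
  have hWbot : W ≠ ⊥ := by
    intro h
    apply hbot
    rw [Submodule.map_eq_bot_iff] at h
    exact h
  have hWtop : W ≠ ⊤ := by
    intro h
    apply htop
    rw [eq_top_iff]
    intro x _
    have hx : f x ∈ W := by rw [h]; exact Submodule.mem_top
    obtain ⟨y, hy, hyx⟩ := hx
    have : y = x := f.injective hyx
    rwa [← this]
  have hWstab : ∀ σ ∈ G, ∀ w ∈ W, ((rb σ).map φ) *ᵥ w ∈ W := by
    rintro σ hσ w ⟨x, hx, rfl⟩
    refine ⟨(ρbar.baseChange K).ρ σ x, hV σ hσ x hx, ?_⟩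
    exact hact σ x
  have h1 : 0 < Module.finrank K W := by
    haveI : Nontrivial W := (Submodule.nontrivial_iff_ne_bot).mpr hWbot
    exact Module.finrank_pos
  have h2 : Module.finrank K W < Module.finrank K (Fin 2 → K) := Submodule.finrank_lt hWtop
  rw [Module.finrank_fin_fun] at h2
  have h3 : Module.finrank K W = 1 := by omega
  obtain ⟨w, hw, hall⟩ := finrank_eq_one_iff'.mp h3
  have hv0 : (w : Fin 2 → K) ≠ 0 := fun h0 => hw (Subtype.ext h0)
  have hline : ∀ σ ∈ G, IsEig ((rb σ).map φ) (w : Fin 2 → K) := by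
    intro σ hσ
    obtain ⟨c, hc⟩ := hall ⟨((rb σ).map φ) *ᵥ (w : Fin 2 → K), hWstab σ hσ _ w.2⟩
    exact ⟨c, (congrArg Subtype.val hc).symm⟩
  -- the inputs of `core`
  obtain ⟨c, hcc, hc1⟩ := exists_involution_Qbar
  have hdet : (rb c).det = -1 := by
    rw [det_of_equiv e₀ c]
    exact hodd c hcc hc1
  have hirr' : ¬ HasLine rb := by
    rintro ⟨v, hv, hE⟩
    have h4 : (toRes rb hrb).IsIrreducible := isIrreducible_of_equiv e₀ hirr
    exact (Fermat.Agent.S59.G4.H307.toRes_isIrreducible_iff rb hrb).mp h4 ⟨v, hv, fun σ => hE σ⟩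
  refine core p hp rb c hcc hdet hirr' φ G hG (stabQ (sqrtPstar p)) ?_ ?_ (w : Fin 2 → K) hv0 hline
  · intro h5
    subst h5
    exact involution_mem_stab_five c hcc hc1
  · intro htriv G' hG' hker
    obtain ⟨L, hL, hLker⟩ := hrb
    have := hL
    have hopen : IsOpen (G' : Set GQT) := by
      apply Subgroup.isOpen_mono (H₁ := L.fixingSubgroup) _ (IntermediateField.fixingSubgroup_isOpen L)
      intro σ hσ
      apply hker
      apply hLker
      intro x hx
      exact (IntermediateField.mem_fixingSubgroup_iff L σ).mp hσ x hx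
    apply index_two_eq_stab hp2 G' hG' hopen
    intro q hq hqp A hA σ hσ
    exact hker σ (htriv σ (unip_of_equiv e₀ σ (hunip q hq hqp A hA σ hσ)))

end Fermat.Agent.S59.H405

end
-- ===== PACK-END S59/H405/TWRes.lean

-- ===== PACK-BEGIN S15/H782/UValExact.lean
section



/-!
# S15, node GEO, piece UVAL (b)-EXACT (helper782)

For a point `Q ∉ E⁰` of odd prime order `p = 2 m + 1` on a curve with a node (`NodeModel`, any
residue characteristic):

  `v (∏_{0<k<p} ψ₂(k • Q)) ^ p = v(a) ^ (2 m (m + 1))`       (`v(a)² = v(Δ)`),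

i.e. `ord (∏ ψ₂(kQ)⁴) = (p² - 1)/p · ord Δ`, hence `ord U(W, Q) = (p - 1)/p · ord Δ > 0`.

Proof: `v ψ₂(P) = v (x(P) - e)` near the node; the values `g_k = v (x(kQ) - e)`, `0 < k ≤ m`,
satisfy `g_k ^ p = v(a) ^ (2 j_k)` with `1 ≤ j_k ≤ m` (`torsion_near_node`), and `k ↦ j_k` is
injective because the component map is injective on `⟨Q⟩`.  No Tate curve, no Newton polygon of
the modular equation.
-/

set_option autoImplicit false

namespace Fermat.Agent.S15.H782

open WeierstrassCurve WeierstrassCurve.Affine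
open Fermat.Agent.S05.Comp (cls CompGroup)
open Fermat.Agent.S13.H365

section combinatorics

variable {Γ₀ : Type*} [LinearOrderedCommGroupWithZero Γ₀]

lemma sum_two_mul_succ (m : ℕ) : ∑ i ∈ Finset.range m, 2 * (i + 1) = m * (m + 1) := by
  induction m with
  | zero => simp
  | succ n ih => rw [Finset.sum_range_succ, ih]; ring

/-- **Combinatorial core.**  If `g 0, …, g (m-1)` are pairwise distinct elements strictly between
`α` and `1` whose `(2m+1)`-st powers are even powers of `α`, then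
`(∏ g i) ^ (2m+1) = α ^ (m (m+1))`. -/
theorem prod_pow_eq_of_injOn {α : Γ₀} (hα0 : 0 < α) (hα1 : α < 1) (m : ℕ) (g : ℕ → Γ₀)
    (hg : ∀ i < m, α < g i ∧ g i < 1 ∧ ∃ j : ℕ, g i ^ (2 * m + 1) = α ^ (2 * j))
    (hinj : ∀ i < m, ∀ i' < m, g i = g i' → i = i') :
    (∏ i ∈ Finset.range m, g i) ^ (2 * m + 1) = α ^ (m * (m + 1)) := by
  classical
  choose! J hJ using fun i (hi : i < m) => (hg i hi).2.2
  have hJpos : ∀ i < m, 0 < J i := by
    intro i hi
    rcases Nat.eq_zero_or_pos (J i) with h0 | h0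
    · exfalso
      have h1 : g i ^ (2 * m + 1) < 1 :=
        pow_lt_one₀ zero_le (hg i hi).2.1 (Nat.succ_ne_zero _)
      rw [hJ i hi, h0, mul_zero, pow_zero] at h1
      exact lt_irrefl _ h1
    · exact h0
  have hJle : ∀ i < m, J i ≤ m := by
    intro i hi
    have h1 : α ^ (2 * m + 1) < g i ^ (2 * m + 1) :=
      pow_lt_pow_left₀ (hg i hi).1 hα0.le (Nat.succ_ne_zero _)
    rw [hJ i hi] at h1
    have := (pow_lt_pow_iff_right_of_lt_one₀ hα0 hα1).mp h1
    omega
  have hJinj : ∀ i < m, ∀ i' < m, J i = J i' → i = i' := by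
    intro i hi i' hi' h
    refine hinj i hi i' hi' ?_
    have h1 : g i ^ (2 * m + 1) = g i' ^ (2 * m + 1) := by rw [hJ i hi, hJ i' hi', h]
    exact (pow_left_inj₀ zero_le zero_le (Nat.succ_ne_zero _)).mp h1
  have himg : (Finset.range m).image (fun i => J i - 1) = Finset.range m := by
    refine Finset.eq_of_subset_of_card_le ?_ ?_
    · intro j hj
      obtain ⟨i, hi, rfl⟩ := Finset.mem_image.mp hj
      have hi' := Finset.mem_range.mp hi
      have := hJpos i hi'
      have := hJle i hi'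
      exact Finset.mem_range.mpr (by omega)
    · rw [Finset.card_image_of_injOn]
      intro i hi i' hi' h
      have hi1 := Finset.mem_range.mp hi
      have hi1' := Finset.mem_range.mp hi'
      have := hJpos i hi1
      have := hJpos i' hi1'
      exact hJinj i hi1 i' hi1' (by simp only at h; omega)
  rw [← Finset.prod_pow]
  calc ∏ i ∈ Finset.range m, g i ^ (2 * m + 1)
      = ∏ i ∈ Finset.range m, α ^ (2 * ((J i - 1) + 1)) := by
        refine Finset.prod_congr rfl fun i hi => ?_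
        have hi' := Finset.mem_range.mp hi
        have := hJpos i hi'
        rw [hJ i hi', Nat.sub_add_cancel this]
    _ = ∏ j ∈ (Finset.range m).image (fun i => J i - 1), α ^ (2 * (j + 1)) := by
        rw [Finset.prod_image]
        intro i hi i' hi' h
        have hi1 := Finset.mem_range.mp hi
        have hi1' := Finset.mem_range.mp hi'
        have := hJpos i hi1
        have := hJpos i' hi1'
        exact hJinj i hi1 i' hi1' (by simp only at h; omega)
    _ = ∏ j ∈ Finset.range m, α ^ (2 * (j + 1)) := by rw [himg]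
    _ = α ^ (m * (m + 1)) := by rw [Finset.prod_pow_eq_pow_sum, sum_two_mul_succ]

end combinatorics

section node

variable {K : Type*} [Field K] {Γ₀ : Type*} [LinearOrderedCommGroupWithZero Γ₀]
  {v : Valuation K Γ₀} {W : Affine K}

/-- `v (x(P) - e)`: the distance of `P` from the node (`1` for `P = O`). -/
def xiVal (M : NodeModel v W) : W.Point → Γ₀
  | .zero => 1
  | .some x _ _ => v (x - M.e)

@[simp] lemma xiVal_zero (M : NodeModel v W) : xiVal M (0 : W.Point) = 1 := rfl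

@[simp] lemma xiVal_some (M : NodeModel v W) {x y : K} (h : W.Nonsingular x y) :
    xiVal M (Point.some x y h) = v (x - M.e) := rfl

lemma xiVal_neg (M : NodeModel v W) (P : W.Point) : xiVal M (-P) = xiVal M P := by
  rcases P with _ | ⟨x, y, h⟩
  · rfl
  · rw [Point.neg_some]; rfl

lemma inE0_iff_xiVal (M : NodeModel v W) (P : W.Point) : M.InE0 P ↔ 1 ≤ xiVal M P := by
  rcases P with _ | ⟨x, y, h⟩
  · exact ⟨fun _ => le_refl _, fun _ => trivial⟩
  · exact Iff.rfl

/-- Near the node (but not too near), `v ψ₂(P) = v (x(P) - e)`. -/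
lemma val_psiTwo_eq_xiVal (M : NodeModel v W) {P : W.Point} (hlo : v M.a < xiVal M P)
    (hhi : xiVal M P < 1) : v (psiTwo W P) = xiVal M P := by
  rcases P with _ | ⟨x, y, h⟩
  · exact absurd hhi (lt_irrefl _)
  · rw [xiVal_some] at hlo hhi
    rw [psiTwo_some, xiVal_some]
    have hpos : 0 < v (x - M.e) := lt_of_le_of_lt zero_le hlo
    have h4 : v (4 : K) ≤ 1 := val_four_le_one
    have hδ2 : v ((M.γ₁ - M.γ₂) ^ 2) = 1 := by rw [map_pow, M.hδ, one_pow]
    have h4ξ : v (4 * (x - M.e)) < 1 := by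
      rw [map_mul]
      calc v 4 * v (x - M.e) ≤ 1 * v (x - M.e) := mul_le_mul_left h4 _
        _ = v (x - M.e) := one_mul _
        _ < 1 := hhi
    have hunit : v ((M.γ₁ - M.γ₂) ^ 2 + 4 * (x - M.e)) = 1 := by
      rw [Valuation.map_add_eq_of_lt_left _ (by rw [hδ2]; exact h4ξ), hδ2]
    have hsmall : v (4 * M.a * (x - M.e)) < v (x - M.e) ^ 2 := by
      rw [map_mul, map_mul, pow_two]
      calc v 4 * v M.a * v (x - M.e) ≤ 1 * v M.a * v (x - M.e) :=
            mul_le_mul_left (mul_le_mul_left h4 _) _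
        _ = v M.a * v (x - M.e) := by rw [one_mul]
        _ < v (x - M.e) * v (x - M.e) := mul_lt_mul_of_pos_right hlo hpos
    have hid : (2 * y + W.a₁ * x + W.a₃) ^ 2 =
        (x - M.e) ^ 2 * ((M.γ₁ - M.γ₂) ^ 2 + 4 * (x - M.e)) + 4 * M.a * (x - M.e) := by
      rw [M.ns_id₂ h.1]; ring
    have hbig : v ((x - M.e) ^ 2 * ((M.γ₁ - M.γ₂) ^ 2 + 4 * (x - M.e))) = v (x - M.e) ^ 2 := by
      rw [map_mul, map_pow, hunit, mul_one]
    have hsq : v (2 * y + W.a₁ * x + W.a₃) ^ 2 = v (x - M.e) ^ 2 := by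
      rw [← map_pow, hid, Valuation.map_add_eq_of_lt_left _ (by rw [hbig]; exact hsmall), hbig]
    exact (pow_left_inj₀ zero_le zero_le two_ne_zero).mp hsq

/-- Near the node the component of `P` is `cls (v (x(P) - e))` or its inverse. -/
lemma comp_eq_cls_or (M : NodeModel v W) {P : W.Point} (hlo : v M.a < xiVal M P)
    (hhi : xiVal M P < 1) :
    M.comp P = cls v M.a (xiVal M P) ∨ M.comp P = (cls v M.a (xiVal M P))⁻¹ := by
  rcases P with _ | ⟨x, y, h⟩
  · exact absurd hhi (lt_irrefl _)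
  · rw [xiVal_some] at hlo hhi
    rw [xiVal_some, M.comp_some]
    rcases compN_cases M.hδ M.ha ((M.equation_iff x y).mp h.1) with ⟨hZ, -⟩ | ⟨hM, -⟩ |
      ⟨-, -, -, e⟩ | ⟨-, -, -, e⟩
    · exact absurd hZ (not_le.mpr hhi)
    · exact absurd hM (not_le.mpr hlo)
    · exact Or.inl e
    · exact Or.inr e

variable [DecidableEq K]

/-- An odd-torsion point outside `E⁰` is near the node, strictly between `v a` and `1`, and the
`n`-th power of its distance is an even power of `v a`. -/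
lemma xiVal_mid (M : NodeModel v W) {n : ℕ} (hn : Odd n) {P : W.Point} (hP : n • P = 0)
    (hE0 : ¬ M.InE0 P) :
    v M.a < xiVal M P ∧ xiVal M P < 1 ∧ ∃ j : ℕ, xiVal M P ^ n = v M.a ^ (2 * j) := by
  rcases P with _ | ⟨x, y, h⟩
  · exact absurd trivial hE0
  · have hhi : v (x - M.e) < 1 := not_le.mp hE0
    obtain ⟨hlo, j, hj⟩ := M.torsion_near_node hn h hP hhi
    exact ⟨hlo, hhi, j, hj⟩

end node

section main

variable {K : Type*} [Field K] [DecidableEq K] {Γ₀ : Type*} [LinearOrderedCommGroupWithZero Γ₀]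
  {v : Valuation K Γ₀} {W : Affine K}

lemma prod_Ioo_zero_succ {M : Type*} [CommMonoid M] (f : ℕ → M) (n : ℕ) :
    ∏ k ∈ Finset.Ioo 0 (n + 1), f k = ∏ i ∈ Finset.range n, f (i + 1) := by
  refine Finset.prod_nbij' (fun k => k - 1) (fun i => i + 1) ?_ ?_ ?_ ?_ ?_
  · intro k hk
    have := Finset.mem_Ioo.mp hk
    exact Finset.mem_range.mpr (by omega)
  · intro i hi
    have := Finset.mem_range.mp hi
    exact Finset.mem_Ioo.mpr (by omega)
  · intro k hk
    have := Finset.mem_Ioo.mp hk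
    show k - 1 + 1 = k
    omega
  · intro i _
    show i + 1 - 1 = i
    omega
  · intro k hk
    have := Finset.mem_Ioo.mp hk
    show f k = f (k - 1 + 1)
    rw [Nat.sub_add_cancel (by omega)]

/-- A product over `range (m + m)` of a function symmetric under `i ↦ 2m - 1 - i` is a square. -/
lemma prod_range_add_self_of_symm {M : Type*} [CommMonoid M] (g : ℕ → M) (m : ℕ)
    (hsymm : ∀ i < m, g (m + (m - 1 - i)) = g i) :
    ∏ i ∈ Finset.range (m + m), g i = (∏ i ∈ Finset.range m, g i) ^ 2 := by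
  rw [Finset.prod_range_add, pow_two]
  congr 1
  rw [← Finset.prod_range_reflect]
  exact Finset.prod_congr rfl fun i hi => hsymm i (Finset.mem_range.mp hi)

/-- **UVAL (b)-EXACT, abstract form.**  For `Q ∉ E⁰` of odd prime order `p = 2m + 1` on a curve
with a node: `v (∏_{0<k<p} ψ₂(kQ)) ^ p = v(a) ^ (2 m (m+1))`. -/
theorem val_psiProd_pow_of_not_inE0 (M : NodeModel v W) {m : ℕ} (hp : (2 * m + 1).Prime)
    {Q : W.Point} (hord : addOrderOf Q = 2 * m + 1) (hQ : ¬ M.InE0 Q) :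
    v (psiProd W Q (2 * m + 1)) ^ (2 * m + 1) = v M.a ^ (2 * (m * (m + 1))) := by
  have : Fact (2 * m + 1).Prime := ⟨hp⟩
  have hα0 : 0 < v M.a := (Valuation.pos_iff v).mpr M.ha0
  have hodd : Odd (2 * m + 1) := ⟨m, rfl⟩
  have hpQ : (2 * m + 1) • Q = 0 := by rw [← hord]; exact addOrderOf_nsmul_eq_zero Q
  -- the component of `Q` has order `p`
  have hc1 : M.comp Q ≠ 1 := fun h => hQ ((M.comp_eq_one_iff Q).mp h)
  have hcp : M.comp Q ^ (2 * m + 1) = 1 := by rw [← M.comp_nsmul, hpQ, NodeModel.comp_zero]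
  have hco : orderOf (M.comp Q) = 2 * m + 1 := orderOf_eq_prime hcp hc1
  have hdvd : ∀ k : ℕ, M.comp Q ^ k = 1 → (2 * m + 1) ∣ k := fun k hk => by
    rw [← hco]; exact orderOf_dvd_of_pow_eq_one hk
  -- the multiples of `Q`
  have hE0 : ∀ i < 2 * m, ¬ M.InE0 ((i + 1) • Q) := by
    intro i hi h
    have := hdvd (i + 1) (by rw [← M.comp_nsmul]; exact (M.comp_eq_one_iff _).mpr h)
    have := Nat.le_of_dvd (Nat.succ_pos i) this
    omega
  have hmid : ∀ i < 2 * m, v M.a < xiVal M ((i + 1) • Q) ∧ xiVal M ((i + 1) • Q) < 1 ∧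
      ∃ j : ℕ, xiVal M ((i + 1) • Q) ^ (2 * m + 1) = v M.a ^ (2 * j) := fun i hi =>
    xiVal_mid M hodd (by rw [smul_comm, hpQ, smul_zero]) (hE0 i hi)
  -- symmetry
  have hsymm : ∀ i < m, xiVal M ((m + (m - 1 - i) + 1) • Q) = xiVal M ((i + 1) • Q) := by
    intro i hi
    rw [← xiVal_neg M ((i + 1) • Q)]
    congr 1
    rw [eq_neg_iff_add_eq_zero, ← add_smul]
    have : m + (m - 1 - i) + 1 + (i + 1) = 2 * m + 1 := by omega
    rw [this, hpQ]
  -- injectivity
  have hinj : ∀ i < m, ∀ i' < m,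
      xiVal M ((i + 1) • Q) = xiVal M ((i' + 1) • Q) → i = i' := by
    intro i hi i' hi' h
    have h1 := comp_eq_cls_or M (hmid i (by omega)).1 (hmid i (by omega)).2.1
    have h2 := comp_eq_cls_or M (hmid i' (by omega)).1 (hmid i' (by omega)).2.1
    rw [M.comp_nsmul] at h1 h2
    rw [← h] at h2
    have key : M.comp Q ^ (i + 1) = M.comp Q ^ (i' + 1) ∨
        M.comp Q ^ (i + 1) * M.comp Q ^ (i' + 1) = 1 := by
      rcases h1 with h1 | h1 <;> rcases h2 with h2 | h2
      · exact Or.inl (h1.trans h2.symm)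
      · exact Or.inr (by rw [h1, h2, mul_inv_cancel])
      · exact Or.inr (by rw [h1, h2, inv_mul_cancel])
      · exact Or.inl (h1.trans h2.symm)
    rcases key with key | key
    · have hmod := (pow_eq_pow_iff_modEq).mp key
      rw [hco] at hmod
      have := Nat.ModEq.eq_of_lt_of_lt hmod (by omega) (by omega)
      omega
    · rw [← pow_add] at key
      have := Nat.le_of_dvd (by omega) (hdvd _ key)
      omega
  have core := prod_pow_eq_of_injOn hα0 M.ha m (fun i => xiVal M ((i + 1) • Q))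
    (fun i hi => hmid i (by omega)) hinj
  -- assemble
  have hval : v (psiProd W Q (2 * m + 1)) =
      (∏ i ∈ Finset.range m, xiVal M ((i + 1) • Q)) ^ 2 := by
    rw [psiProd, prod_Ioo_zero_succ, map_prod, two_mul,
      ← prod_range_add_self_of_symm (fun i => xiVal M ((i + 1) • Q)) m hsymm]
    refine Finset.prod_congr rfl fun i hi => ?_
    have hi' : i < 2 * m := by have := Finset.mem_range.mp hi; omega
    exact val_psiTwo_eq_xiVal M (hmid i hi').1 (hmid i hi').2.1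
  rw [hval, ← pow_mul, mul_comm 2, pow_mul, core, ← pow_mul, mul_comm]

end main

end Fermat.Agent.S15.H782

end
-- ===== PACK-END S15/H782/UValExact.lean

-- ===== PACK-BEGIN S15/H782/NodeExists.lean
section


/-!
# S15, piece UVAL (helper782): existence of a `NodeModel` at a multiplicative place

`K` algebraically closed of characteristic `≠ 2` with a valuation `v`, `W` a Weierstrass curve with
`v`-integral coefficients, `v c₄ = 1`, `v Δ < 1`, `Δ ≠ 0` (multiplicative reduction; ANY residue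
characteristic, including `2` and `3`).  Then there is a `2`-torsion point `(e, f)` of `W`
reducing to the node, i.e. a `Fermat.Agent.S13.H365.NodeModel v W` with `v e ≤ 1`
(`exists_nodeModel`), and `v Δ = v(a) ^ 2` (`NodeModel.val_Δ`).

The root `e` of the `2`-torsion cubic `4x³ + b₂x² + 2b₄x + b₆ = 4 ∏ (x - eᵢ)` is found by
valuation arguments: with `A(e) = (e - e')(e - e'')`,
* `∏ A(eᵢ) = -Δ/16` (residue characteristic `≠ 2`: all roots are integral);
* `Δ = A(e)² (c₄ - 16 A(e))` (residue characteristic `2`: there is an integral root).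
-/

set_option autoImplicit false

namespace Fermat.Agent.S15.H782

open WeierstrassCurve WeierstrassCurve.Affine
open Fermat.Agent.S05.SameRed (IntegralCoeffs)
open Fermat.Agent.S13.H365

section identities

variable {K : Type*} [Field K] {W : Affine K}

/-- `Δ` and `c₄` in terms of the data of a `2`-torsion point `(e, f)` and the tangent slopes. -/
lemma Δ_c₄_of_nodeData {e f γ₁ γ₂ a : K}
    (h2tors : 2 * f + W.a₁ * e + W.a₃ = 0)
    (hon : f ^ 2 + W.a₁ * e * f + W.a₃ * f = e ^ 3 + W.a₂ * e ^ 2 + W.a₄ * e + W.a₆)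
    (hsum : γ₁ + γ₂ = -W.a₁) (hprod : γ₁ * γ₂ = -(W.a₂ + 3 * e))
    (ha_def : a = 3 * e ^ 2 + 2 * W.a₂ * e + W.a₄ - W.a₁ * f) :
    W.Δ = a ^ 2 * ((γ₁ - γ₂) ^ 4 - 64 * a) ∧ W.c₄ = (γ₁ - γ₂) ^ 4 - 48 * a := by
  have e₁ : W.a₁ = -(γ₁ + γ₂) := by linear_combination hsum
  have e₂ : W.a₂ = -(γ₁ * γ₂) - 3 * e := by linear_combination hprod
  have e₃ : W.a₃ = -2 * f + (γ₁ + γ₂) * e := by linear_combination h2tors - e * hsum
  have e₄ : W.a₄ = a + 3 * e ^ 2 + 2 * (γ₁ * γ₂) * e - (γ₁ + γ₂) * f := by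
    linear_combination -ha_def - 2 * e * hprod + f * hsum
  have e₆ : W.a₆ = f ^ 2 + W.a₁ * e * f + W.a₃ * f - (e ^ 3 + W.a₂ * e ^ 2 + W.a₄ * e) := by
    linear_combination -hon
  rw [e₄, e₃, e₂, e₁] at e₆
  constructor
  · simp only [WeierstrassCurve.Δ, WeierstrassCurve.b₂, WeierstrassCurve.b₄,
      WeierstrassCurve.b₆, WeierstrassCurve.b₈]
    rw [e₆, e₄, e₃, e₂, e₁]
    ring
  · simp only [WeierstrassCurve.c₄, WeierstrassCurve.b₂, WeierstrassCurve.b₄]
    rw [e₄, e₃, e₂, e₁]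
    ring

/-- The smoothing parameter attached to a root `e` of the `2`-torsion cubic:
`a = 3e² + 2a₂e + a₄ - a₁ f` with `f = -(a₁e + a₃)/2`. -/
noncomputable def nodeA (W : Affine K) (e : K) : K :=
  3 * e ^ 2 + 2 * W.a₂ * e + W.a₄ - W.a₁ * (-(W.a₁ * e + W.a₃) / 2)

lemma two_mul_nodeA (h2 : (2 : K) ≠ 0) (e : K) :
    2 * nodeA W e = 6 * e ^ 2 + W.b₂ * e + W.b₄ := by
  simp only [nodeA, WeierstrassCurve.b₂, WeierstrassCurve.b₄]
  field_simp
  ring

/-- Vieta: `A(e₁) = (e₁ - e₂)(e₁ - e₃)`. -/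
lemma nodeA_eq_of_vieta (h2 : (2 : K) ≠ 0) {e₁ e₂ e₃ : K}
    (hb₂ : W.b₂ = 4 * -(e₁ + e₂ + e₃)) (hb₄ : 2 * W.b₄ = 4 * (e₁ * e₂ + e₁ * e₃ + e₂ * e₃)) :
    nodeA W e₁ = (e₁ - e₂) * (e₁ - e₃) := by
  have h := two_mul_nodeA (W := W) h2 e₁
  have h4 : (4 : K) ≠ 0 := by
    have : (4 : K) = 2 * 2 := by norm_num
    rw [this]; exact mul_ne_zero h2 h2
  apply mul_left_cancel₀ h4
  linear_combination 2 * h + 2 * e₁ * hb₂ + hb₄

/-- Vieta: a root of the factored cubic is a root of the `2`-torsion cubic. -/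
lemma twoTorsion_root_of_vieta {e₁ e₂ e₃ : K}
    (hb₂ : W.b₂ = 4 * -(e₁ + e₂ + e₃)) (hb₄ : 2 * W.b₄ = 4 * (e₁ * e₂ + e₁ * e₃ + e₂ * e₃))
    (hb₆ : W.b₆ = 4 * -(e₁ * e₂ * e₃)) :
    4 * e₁ ^ 3 + W.b₂ * e₁ ^ 2 + 2 * W.b₄ * e₁ + W.b₆ = 0 := by
  rw [hb₂, hb₄, hb₆]; ring

/-- Over an algebraically closed field the `2`-torsion cubic splits: Vieta's relations. -/
lemma exists_twoTorsion_roots [IsAlgClosed K] (h2 : (2 : K) ≠ 0) (W : Affine K) :
    ∃ e₁ e₂ e₃ : K, W.b₂ = 4 * -(e₁ + e₂ + e₃) ∧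
      2 * W.b₄ = 4 * (e₁ * e₂ + e₁ * e₃ + e₂ * e₃) ∧ W.b₆ = 4 * -(e₁ * e₂ * e₃) ∧
      W.Δ = 16 * ((e₁ - e₂) * (e₁ - e₃) * (e₂ - e₃)) ^ 2 := by
  have h4 : (4 : K) ≠ 0 := by
    have : (4 : K) = 2 * 2 := by norm_num
    rw [this]; exact mul_ne_zero h2 h2
  have ha : W.twoTorsionPolynomial.a ≠ 0 := h4
  have hsplit : (W.twoTorsionPolynomial.toPoly.map (RingHom.id K)).Splits :=
    IsAlgClosed.splits _
  obtain ⟨x, y, z, h3⟩ := (Cubic.splits_iff_roots_eq_three ha).mp hsplit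
  have hb := Cubic.b_eq_three_roots ha h3
  have hc := Cubic.c_eq_three_roots ha h3
  have hd := Cubic.d_eq_three_roots ha h3
  have hD := Cubic.discr_eq_prod_three_roots ha h3
  simp only [RingHom.id_apply, twoTorsionPolynomial_discr] at hb hc hd hD
  simp only [twoTorsionPolynomial] at hb hc hd hD
  refine ⟨x, y, z, hb, hc, hd, ?_⟩
  have h16 : (16 : K) ≠ 0 := by
    have : (16 : K) = 4 * 4 := by norm_num
    rw [this]; exact mul_ne_zero h4 h4
  apply mul_left_cancel₀ h16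
  rw [hD]; ring

end identities

section valuation

variable {K : Type*} [Field K] {Γ₀ : Type*} [LinearOrderedCommGroupWithZero Γ₀]
  {v : Valuation K Γ₀} {W : Affine K}

lemma val_natCast_le_one' (v : Valuation K Γ₀) (n : ℕ) : v (n : K) ≤ 1 := by
  induction n with
  | zero => simp
  | succ n ih =>
    rw [Nat.cast_succ]
    exact Valuation.map_add_le _ ih (le_of_eq (map_one v))

lemma val_ofNat_le_one (v : Valuation K Γ₀) (n : ℕ) [n.AtLeastTwo] :
    v (OfNat.ofNat n : K) ≤ 1 := by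
  rw [← Nat.cast_ofNat]; exact val_natCast_le_one' v n

lemma val_mul_le_one' {x y : K} (hx : v x ≤ 1) (hy : v y ≤ 1) : v (x * y) ≤ 1 := by
  rw [map_mul]; exact mul_le_one' hx hy

lemma val_b₂_le_one (hW : IntegralCoeffs W v) : v W.b₂ ≤ 1 := by
  simp only [WeierstrassCurve.b₂]
  exact Valuation.map_add_le _ (by rw [map_pow]; exact pow_le_one' hW.a₁ 2)
    (val_mul_le_one' (val_ofNat_le_one v 4) hW.a₂)

lemma val_b₄_le_one (hW : IntegralCoeffs W v) : v W.b₄ ≤ 1 := by
  simp only [WeierstrassCurve.b₄]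
  exact Valuation.map_add_le _ (val_mul_le_one' (val_ofNat_le_one v 2) hW.a₄)
    (val_mul_le_one' hW.a₁ hW.a₃)

lemma val_b₆_le_one (hW : IntegralCoeffs W v) : v W.b₆ ≤ 1 := by
  simp only [WeierstrassCurve.b₆]
  exact Valuation.map_add_le _ (by rw [map_pow]; exact pow_le_one' hW.a₃ 2)
    (val_mul_le_one' (val_ofNat_le_one v 4) hW.a₆)

/-- A non-integral root `e` of the `2`-torsion cubic has `v 4 * v e = v b₂`. -/
lemma val_four_mul_of_root_of_one_lt (hW : IntegralCoeffs W v) {e : K}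
    (hroot : 4 * e ^ 3 + W.b₂ * e ^ 2 + 2 * W.b₄ * e + W.b₆ = 0) (he : 1 < v e) :
    v (4 : K) * v e ≤ 1 ∧ (v W.b₂ = 1 → v (4 : K) * v e = 1) := by
  have hpos : 0 < v e := lt_trans zero_lt_one he
  have he2 : 0 < v e ^ 2 := pow_pos hpos 2
  have hlow : v (2 * W.b₄ * e + W.b₆) < v e ^ 2 := by
    apply Valuation.map_add_lt
    · rw [map_mul]
      calc v (2 * W.b₄) * v e ≤ 1 * v e :=
            mul_le_mul_left (val_mul_le_one' (val_ofNat_le_one v 2) (val_b₄_le_one hW)) _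
        _ = v e := one_mul _
        _ = v e * 1 := (mul_one _).symm
        _ < v e * v e := mul_lt_mul_of_pos_left he hpos
        _ = v e ^ 2 := (pow_two _).symm
    · calc v W.b₆ ≤ 1 := val_b₆_le_one hW
        _ < v e ^ 2 := one_lt_pow₀ he two_ne_zero
  have hmid : v (W.b₂ * e ^ 2 + (2 * W.b₄ * e + W.b₆)) ≤ v e ^ 2 := by
    apply Valuation.map_add_le _ _ hlow.le
    rw [map_mul, map_pow]
    calc v W.b₂ * v e ^ 2 ≤ 1 * v e ^ 2 := mul_le_mul_left (val_b₂_le_one hW) _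
      _ = v e ^ 2 := one_mul _
  have h4e : 4 * e ^ 3 = -(W.b₂ * e ^ 2 + (2 * W.b₄ * e + W.b₆)) := by
    linear_combination hroot
  have hval : v (4 : K) * v e * v e ^ 2 = v (W.b₂ * e ^ 2 + (2 * W.b₄ * e + W.b₆)) := by
    rw [← Valuation.map_neg v (W.b₂ * e ^ 2 + _), ← h4e, map_mul, map_pow, mul_assoc,
      ← pow_succ']
  constructor
  · have : v (4 : K) * v e * v e ^ 2 ≤ 1 * v e ^ 2 := by rw [hval, one_mul]; exact hmid
    exact le_of_mul_le_mul_right this he2
  · intro hb₂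
    have heq : v (W.b₂ * e ^ 2 + (2 * W.b₄ * e + W.b₆)) = v e ^ 2 := by
      rw [Valuation.map_add_eq_of_lt_left _ (by rw [map_mul, map_pow, hb₂, one_mul]; exact hlow),
        map_mul, map_pow, hb₂, one_mul]
    rw [heq] at hval
    have : v (4 : K) * v e * v e ^ 2 = 1 * v e ^ 2 := by rw [hval, one_mul]
    exact mul_right_cancel₀ he2.ne' this

/-- If `v 4 = 1`, every root of the `2`-torsion cubic is integral. -/
lemma val_root_le_one (hW : IntegralCoeffs W v) (h4 : v (4 : K) = 1) {e : K}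
    (hroot : 4 * e ^ 3 + W.b₂ * e ^ 2 + 2 * W.b₄ * e + W.b₆ = 0) : v e ≤ 1 := by
  by_contra hcon
  rw [not_le] at hcon
  have := (val_four_mul_of_root_of_one_lt hW hroot hcon).1
  rw [h4, one_mul] at this
  exact absurd hcon (not_lt.mpr this)

/-- `f = -(a₁e + a₃)/2` is integral at an integral root `e` of the `2`-torsion cubic. -/
lemma val_nodeF_le_one (h2 : (2 : K) ≠ 0) (hW : IntegralCoeffs W v) {e : K}
    (hroot : 4 * e ^ 3 + W.b₂ * e ^ 2 + 2 * W.b₄ * e + W.b₆ = 0) (he : v e ≤ 1) :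
    v (-(W.a₁ * e + W.a₃) / 2) ≤ 1 := by
  have h2v : v (2 : K) ≠ 0 := (Valuation.ne_zero_iff v).mpr h2
  have hid : (W.a₁ * e + W.a₃) ^ 2 = -(4 * (e ^ 3 + W.a₂ * e ^ 2 + W.a₄ * e + W.a₆)) := by
    simp only [WeierstrassCurve.b₂, WeierstrassCurve.b₄, WeierstrassCurve.b₆] at hroot
    linear_combination hroot
  have hcub : v (e ^ 3 + W.a₂ * e ^ 2 + W.a₄ * e + W.a₆) ≤ 1 := by
    refine Valuation.map_add_le _ (Valuation.map_add_le _ (Valuation.map_add_le _ ?_ ?_) ?_) hW.a₆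
    · rw [map_pow]; exact pow_le_one' he 3
    · exact val_mul_le_one' hW.a₂ (by rw [map_pow]; exact pow_le_one' he 2)
    · exact val_mul_le_one' hW.a₄ he
  have hsq : v (W.a₁ * e + W.a₃) ^ 2 ≤ v (2 : K) ^ 2 := by
    rw [← map_pow, hid, Valuation.map_neg, map_mul]
    have : (4 : K) = 2 ^ 2 := by norm_num
    rw [this, map_pow]
    calc v (2 : K) ^ 2 * v (e ^ 3 + W.a₂ * e ^ 2 + W.a₄ * e + W.a₆) ≤ v (2 : K) ^ 2 * 1 :=
          mul_le_mul_right hcub _
      _ = v (2 : K) ^ 2 := mul_one _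
  have hle : v (W.a₁ * e + W.a₃) ≤ v (2 : K) :=
    (pow_le_pow_iff_left₀ zero_le zero_le two_ne_zero).mp hsq
  rw [map_div₀, Valuation.map_neg]
  exact (div_le_one₀ (zero_lt_iff.mpr h2v)).mpr hle

lemma val_nodeA_le_one (h2 : (2 : K) ≠ 0) (hW : IntegralCoeffs W v) {e : K}
    (hroot : 4 * e ^ 3 + W.b₂ * e ^ 2 + 2 * W.b₄ * e + W.b₆ = 0) (he : v e ≤ 1) :
    v (nodeA W e) ≤ 1 := by
  have hf := val_nodeF_le_one h2 hW hroot he
  simp only [nodeA]
  rw [sub_eq_add_neg]
  refine Valuation.map_add_le _ (Valuation.map_add_le _ (Valuation.map_add_le _ ?_ ?_) hW.a₄) ?_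
  · exact val_mul_le_one' (val_ofNat_le_one v 3) (by rw [map_pow]; exact pow_le_one' he 2)
  · exact val_mul_le_one' (val_mul_le_one' (val_ofNat_le_one v 2) hW.a₂) he
  · rw [Valuation.map_neg]; exact val_mul_le_one' hW.a₁ hf

/-- **The root near the node.**  There is a root `e` of the `2`-torsion cubic which is integral
and whose smoothing parameter `A(e)` is a non-unit. -/
theorem exists_root_near_node [IsAlgClosed K] (h2 : (2 : K) ≠ 0) (hW : IntegralCoeffs W v)
    (hc₄ : v W.c₄ = 1) (hΔ : v W.Δ < 1) :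
    ∃ e : K, 4 * e ^ 3 + W.b₂ * e ^ 2 + 2 * W.b₄ * e + W.b₆ = 0 ∧ v e ≤ 1 ∧
      v (nodeA W e) < 1 := by
  obtain ⟨e₁, e₂, e₃, hb₂, hb₄, hb₆, hD⟩ := exists_twoTorsion_roots h2 W
  -- the three roots, with the three cyclic forms of Vieta's relations
  have r₁ := twoTorsion_root_of_vieta hb₂ hb₄ hb₆
  have hb₂' : W.b₂ = 4 * -(e₂ + e₁ + e₃) := by rw [hb₂]; ring
  have hb₄' : 2 * W.b₄ = 4 * (e₂ * e₁ + e₂ * e₃ + e₁ * e₃) := by rw [hb₄]; ring
  have hb₆' : W.b₆ = 4 * -(e₂ * e₁ * e₃) := by rw [hb₆]; ring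
  have hb₂'' : W.b₂ = 4 * -(e₃ + e₁ + e₂) := by rw [hb₂]; ring
  have hb₄'' : 2 * W.b₄ = 4 * (e₃ * e₁ + e₃ * e₂ + e₁ * e₂) := by rw [hb₄]; ring
  have hb₆'' : W.b₆ = 4 * -(e₃ * e₁ * e₂) := by rw [hb₆]; ring
  have r₂ := twoTorsion_root_of_vieta hb₂' hb₄' hb₆'
  have r₃ := twoTorsion_root_of_vieta hb₂'' hb₄'' hb₆''
  have A₁ := nodeA_eq_of_vieta h2 hb₂ hb₄
  have A₂ := nodeA_eq_of_vieta h2 hb₂' hb₄'
  have A₃ := nodeA_eq_of_vieta h2 hb₂'' hb₄''
  have h4 : (4 : K) = 2 ^ 2 := by norm_num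
  have h16 : (16 : K) = 2 ^ 4 := by norm_num
  rcases (val_ofNat_le_one v 2).lt_or_eq with h2v | h2v
  · -- residue characteristic `2`
    have hv4 : v (4 : K) < 1 := by
      rw [h4, map_pow]; exact pow_lt_one₀ zero_le h2v two_ne_zero
    have hv16 : v (16 : K) < 1 := by
      rw [h16, map_pow]; exact pow_lt_one₀ zero_le h2v (by norm_num)
    have hvb₂ : v W.b₂ = 1 := by
      have hc : W.c₄ = W.b₂ ^ 2 + -(24 * W.b₄) := by simp only [WeierstrassCurve.c₄]; ring
      have h24 : v (-(24 * W.b₄)) < 1 := by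
        rw [Valuation.map_neg, map_mul]
        have : (24 : K) = 2 * 12 := by norm_num
        rw [this, map_mul]
        calc v (2 : K) * v (12 : K) * v W.b₄ ≤ v (2 : K) * 1 * 1 :=
              mul_le_mul' (mul_le_mul_right (val_ofNat_le_one v 12) _) (val_b₄_le_one hW)
          _ = v (2 : K) := by rw [mul_one, mul_one]
          _ < 1 := h2v
      have hsq : v (W.b₂ ^ 2) = 1 := by
        by_contra hne
        have hlt : v (W.b₂ ^ 2) < 1 :=
          lt_of_le_of_ne (by rw [map_pow]; exact pow_le_one' (val_b₂_le_one hW) 2) hne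
        have : v W.c₄ < 1 := by rw [hc]; exact Valuation.map_add_lt _ hlt h24
        rw [hc₄] at this
        exact lt_irrefl _ this
      rw [map_pow] at hsq
      exact (pow_eq_one_iff_of_nonneg zero_le two_ne_zero).mp hsq
    -- an integral root exists
    have hex : ∃ e : K, 4 * e ^ 3 + W.b₂ * e ^ 2 + 2 * W.b₄ * e + W.b₆ = 0 ∧ v e ≤ 1 ∧
        ∃ e' e'' : K, nodeA W e = (e - e') * (e - e'') ∧
          W.Δ = 16 * ((e - e') * (e - e'') * (e' - e'')) ^ 2 ∧
          W.b₂ = 4 * -(e + e' + e'') ∧ 2 * W.b₄ = 4 * (e * e' + e * e'' + e' * e'') := by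
      by_contra hcon
      push Not at hcon
      have n₁ : 1 < v e₁ := by
        by_contra h
        exact hcon e₁ r₁ (not_lt.mp h) e₂ e₃ A₁ hD hb₂ hb₄
      have n₂ : 1 < v e₂ := by
        by_contra h
        exact hcon e₂ r₂ (not_lt.mp h) e₁ e₃ A₂ (by rw [hD]; ring) hb₂' hb₄'
      have n₃ : 1 < v e₃ := by
        by_contra h
        exact hcon e₃ r₃ (not_lt.mp h) e₁ e₂ A₃ (by rw [hD]; ring) hb₂'' hb₄''
      have m₁ := (val_four_mul_of_root_of_one_lt hW r₁ n₁).2 hvb₂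
      have m₂ := (val_four_mul_of_root_of_one_lt hW r₂ n₂).2 hvb₂
      have m₃ := (val_four_mul_of_root_of_one_lt hW r₃ n₃).2 hvb₂
      have hb₆v : v W.b₆ * v (4 : K) ^ 2 = 1 := by
        rw [hb₆, map_mul, Valuation.map_neg, map_mul, map_mul]
        calc v (4 : K) * (v e₁ * v e₂ * v e₃) * v (4 : K) ^ 2
            = (v (4 : K) * v e₁) * (v (4 : K) * v e₂) * (v (4 : K) * v e₃) := by
              rw [pow_two]
              simp only [mul_comm, mul_left_comm]
          _ = 1 := by rw [m₁, m₂, m₃, one_mul, one_mul]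
      have hlt : v W.b₆ * v (4 : K) ^ 2 < 1 := by
        calc v W.b₆ * v (4 : K) ^ 2 ≤ 1 * v (4 : K) ^ 2 :=
              mul_le_mul_left (val_b₆_le_one hW) _
          _ = v (4 : K) ^ 2 := one_mul _
          _ < 1 := pow_lt_one₀ zero_le hv4 two_ne_zero
      rw [hb₆v] at hlt
      exact lt_irrefl _ hlt
    obtain ⟨e, hroot, he, e', e'', hA, hDe, hbe₂, hbe₄⟩ := hex
    refine ⟨e, hroot, he, ?_⟩
    have hAle := val_nodeA_le_one h2 hW hroot he
    by_contra hnot
    have hA1 : v (nodeA W e) = 1 := le_antisymm hAle (not_lt.mp hnot)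
    -- `Δ = A² (c₄ - 16 A)`
    have hid : W.Δ = nodeA W e ^ 2 * (W.c₄ + -(16 * nodeA W e)) := by
      have hc : W.c₄ = W.b₂ ^ 2 - 12 * (2 * W.b₄) := by
        simp only [WeierstrassCurve.c₄]; ring
      rw [hDe, hc, hA, hbe₂, hbe₄]; ring
    have h16A : v (-(16 * nodeA W e)) < 1 := by
      rw [Valuation.map_neg, map_mul, hA1, mul_one]; exact hv16
    have : v W.Δ = 1 := by
      rw [hid, map_mul, map_pow, hA1, one_pow, one_mul,
        Valuation.map_add_eq_of_lt_left _ (by rw [hc₄]; exact h16A), hc₄]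
    rw [this] at hΔ
    exact lt_irrefl _ hΔ
  · -- residue characteristic `≠ 2`: all roots are integral
    have hv4 : v (4 : K) = 1 := by rw [h4, map_pow, h2v, one_pow]
    have hv16 : v (16 : K) = 1 := by rw [h16, map_pow, h2v, one_pow]
    have hprod : v (nodeA W e₁) * v (nodeA W e₂) * v (nodeA W e₃) = v W.Δ := by
      have : W.Δ = -(16 * (nodeA W e₁ * nodeA W e₂ * nodeA W e₃)) := by
        rw [hD, A₁, A₂, A₃]; ring
      rw [this, Valuation.map_neg, map_mul, hv16, one_mul, map_mul, map_mul]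
    by_contra hcon
    push Not at hcon
    have k₁ : 1 ≤ v (nodeA W e₁) := by
      by_contra h
      exact absurd (not_le.mp h) (not_lt.mpr (hcon e₁ r₁ (val_root_le_one hW hv4 r₁)))
    have k₂ : 1 ≤ v (nodeA W e₂) := by
      by_contra h
      exact absurd (not_le.mp h) (not_lt.mpr (hcon e₂ r₂ (val_root_le_one hW hv4 r₂)))
    have k₃ : 1 ≤ v (nodeA W e₃) := by
      by_contra h
      exact absurd (not_le.mp h) (not_lt.mpr (hcon e₃ r₃ (val_root_le_one hW hv4 r₃)))
    have : 1 ≤ v W.Δ := by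
      rw [← hprod]
      exact one_le_mul_of_one_le_of_one_le (one_le_mul_of_one_le_of_one_le k₁ k₂) k₃
    exact absurd hΔ (not_lt.mpr this)

/-- **Existence of a node model** at a multiplicative place of an algebraically closed valued
field of characteristic `≠ 2` (any residue characteristic). -/
theorem exists_nodeModel [IsAlgClosed K] (h2 : (2 : K) ≠ 0) (hW : IntegralCoeffs W v)
    (hc₄ : v W.c₄ = 1) (hΔ : v W.Δ < 1) (hΔ0 : W.Δ ≠ 0) :
    ∃ M : NodeModel v W, v M.e ≤ 1 := by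
  obtain ⟨e, hroot, he, hA⟩ := exists_root_near_node h2 hW hc₄ hΔ
  obtain ⟨s, hs⟩ := IsAlgClosed.exists_eq_mul_self (W.b₂ + 12 * e)
  have h2tors : 2 * (-(W.a₁ * e + W.a₃) / 2) + W.a₁ * e + W.a₃ = 0 := by
    field_simp; ring
  have hon : (-(W.a₁ * e + W.a₃) / 2) ^ 2 + W.a₁ * e * (-(W.a₁ * e + W.a₃) / 2)
      + W.a₃ * (-(W.a₁ * e + W.a₃) / 2) = e ^ 3 + W.a₂ * e ^ 2 + W.a₄ * e + W.a₆ := by
    simp only [WeierstrassCurve.b₂, WeierstrassCurve.b₄, WeierstrassCurve.b₆] at hroot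
    field_simp
    linear_combination -hroot
  have hsum : (-W.a₁ + s) / 2 + (-W.a₁ - s) / 2 = -W.a₁ := by field_simp; ring
  have hprod : (-W.a₁ + s) / 2 * ((-W.a₁ - s) / 2) = -(W.a₂ + 3 * e) := by
    simp only [WeierstrassCurve.b₂] at hs
    field_simp
    linear_combination hs
  obtain ⟨hDid, hcid⟩ := Δ_c₄_of_nodeData (a := nodeA W e) h2tors hon hsum hprod rfl
  have hdiff : (-W.a₁ + s) / 2 - (-W.a₁ - s) / 2 = s := by field_simp; ring
  rw [hdiff] at hDid hcid
  have h48 : v (48 * nodeA W e) < 1 := by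
    rw [map_mul]
    calc v (48 : K) * v (nodeA W e) ≤ 1 * v (nodeA W e) :=
          mul_le_mul_left (val_ofNat_le_one v 48) _
      _ = v (nodeA W e) := one_mul _
      _ < 1 := hA
  have hs4 : v s ^ 4 = 1 := by
    have : s ^ 4 = W.c₄ + 48 * nodeA W e := by rw [hcid]; ring
    rw [← map_pow, this, Valuation.map_add_eq_of_lt_left _ (by rw [hc₄]; exact h48), hc₄]
  have hs1 : v s = 1 := (pow_eq_one_iff_of_nonneg zero_le (by norm_num)).mp hs4
  have hA0 : nodeA W e ≠ 0 := by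
    intro h0
    rw [h0] at hDid
    exact hΔ0 (by rw [hDid]; ring)
  exact ⟨{ e := e
           f := -(W.a₁ * e + W.a₃) / 2
           γ₁ := (-W.a₁ + s) / 2
           γ₂ := (-W.a₁ - s) / 2
           a := nodeA W e
           h2tors := h2tors
           hon := hon
           hsum := hsum
           hprod := hprod
           ha_def := rfl
           hδ := by rw [hdiff]; exact hs1
           ha := hA
           ha0 := hA0 }, he⟩

/-- `v Δ = v(a)²` for a node model. -/
theorem nodeModel_val_Δ (M : NodeModel v W) : v W.Δ = v M.a ^ 2 := by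
  obtain ⟨hD, -⟩ := Δ_c₄_of_nodeData (W := W) M.h2tors M.hon M.hsum M.hprod M.ha_def
  have h64 : v (-(64 * M.a)) < 1 := by
    rw [Valuation.map_neg, map_mul]
    calc v (64 : K) * v M.a ≤ 1 * v M.a := mul_le_mul_left (val_ofNat_le_one v 64) _
      _ = v M.a := one_mul _
      _ < 1 := M.ha
  have h1 : v ((M.γ₁ - M.γ₂) ^ 4) = 1 := by rw [map_pow, M.hδ, one_pow]
  rw [hD, map_mul, map_pow, sub_eq_add_neg,
    Valuation.map_add_eq_of_lt_left _ (by rw [h1]; exact h64), h1, mul_one]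

end valuation

end Fermat.Agent.S15.H782

end
-- ===== PACK-END S15/H782/NodeExists.lean

-- ===== PACK-BEGIN S19/H435/FlatGlue.lean
section
/-
A3 / WP-C piece G (helper435): glue of the closure algebra to `GaloisRepAdic.IsFlatAt`.

`IsFlatAt` is, level by level, a `HopfModel`; so a representation all of whose finite levels are
Galois-equivariant subquotients of modules having Hopf models is flat.
-/





set_option autoImplicit false
set_option linter.style.haveILetI false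

noncomputable section

namespace Fermat.Agent.S19.H435

open Fermat.Agent.S19 (HopfModel OrdStatement)

variable {A : Type} [CommRing A] [IsLocalRing A]

/-- `IsFlatAt` in terms of `HopfModel`. -/
theorem isFlatAt_iff_hopfModel (ρ : GaloisRepAdic A) (p : ℕ) :
    ρ.IsFlatAt p ↔ Finite (IsLocalRing.ResidueField A) ∧ ∀ I : Ideal A, Finite (A ⧸ I) →
      HopfModel p (ρ.V ⧸ (I • (⊤ : Submodule A ρ.V))) (fun σ v => ρ.levelAction I σ v) :=
  Iff.rfl

/-- **Piece G.** If every finite level of `ρ` is a Galois-equivariant subquotient of a module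
with a Hopf model, then `ρ` is flat at `p`. -/
theorem isFlatAt_of_subquotients (hord : OrdStatement) {p : ℕ} [Fact p.Prime]
    (ρ : GaloisRepAdic A) (hres : Finite (IsLocalRing.ResidueField A))
    (h : ∀ I : Ideal A, Finite (A ⧸ I) →
      ∃ (M : Type) (_ : AddCommGroup M) (act : Gal → M → M), HopfModel p M act ∧
      ∃ (M' : Type) (_ : AddCommGroup M') (act' : Gal → M' → M') (ι : M' →+ M)
        (π : M' →+ (ρ.V ⧸ (I • (⊤ : Submodule A ρ.V)))),
        Function.Injective ι ∧ (∀ σ m', ι (act' σ m') = act σ (ι m')) ∧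
        Function.Surjective π ∧ ∀ σ m', ρ.levelAction I σ (π m') = π (act' σ m')) :
    ρ.IsFlatAt p := by
  rw [isFlatAt_iff_hopfModel]
  refine ⟨hres, fun I hI => ?_⟩
  obtain ⟨M, _, act, hM, M', _, act', ι, π, hι, hcι, hπ, hcπ⟩ := h I hI
  exact hopfModel_of_subquotient hord hM ι hι act' hcι π hπ _ hcπ

/-- Variant of piece G with finite powers built in: every finite level of `ρ` is a
subquotient of a finite power of a module with a Hopf model. -/
theorem isFlatAt_of_subquotients_pi (hord : OrdStatement) {p : ℕ} [Fact p.Prime]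
    (ρ : GaloisRepAdic A) (hres : Finite (IsLocalRing.ResidueField A))
    (h : ∀ I : Ideal A, Finite (A ⧸ I) →
      ∃ (M : Type) (_ : AddCommGroup M) (act : Gal → M → M) (r : ℕ), HopfModel p M act ∧
      ∃ (M' : Type) (_ : AddCommGroup M') (act' : Gal → M' → M') (ι : M' →+ (Fin r → M))
        (π : M' →+ (ρ.V ⧸ (I • (⊤ : Submodule A ρ.V)))),
        Function.Injective ι ∧ (∀ σ m' i, ι (act' σ m') i = act σ (ι m' i)) ∧
        Function.Surjective π ∧ ∀ σ m', ρ.levelAction I σ (π m') = π (act' σ m')) :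
    ρ.IsFlatAt p := by
  refine isFlatAt_of_subquotients hord ρ hres fun I hI => ?_
  obtain ⟨M, _, act, r, hM, M', _, act', ι, π, hι, hcι, hπ, hcπ⟩ := h I hI
  exact ⟨Fin r → M, inferInstance, fun σ v i => act σ (v i), hopfModel_pi hord hM r, M',
    inferInstance, act', ι, π, hι, fun σ m' => funext fun i => hcι σ m' i, hπ, hcπ⟩

end Fermat.Agent.S19.H435

end
end
-- ===== PACK-END S19/H435/FlatGlue.lean

-- ===== PACK-BEGIN S56/H66/FlatTame.lean
section



/-!
# S56 / FLAT-O, leaf FT (helper66): Raynaud's tame characters, level one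

`flatTame : H906.FlatTameStatement`: if the inertia group at `P | p` (`p` odd) acts on a point
`x ≠ 0` of a Hopf lattice killed by `p` through scalars of `𝔽_p`, then it acts trivially on `x`
or through the mod-`p` cyclotomic character.

Proof.  `μ` := a coordinate difference `e x - e 0` of maximal valuation.
* `v(μ) = 1`: `τ x - x = (n - 1) x` has all coordinate differences in `𝔪_P`; if `p ∤ n - 1` then
  so does `x`: contradiction.  Hence `τ x = x`.
* `v(μ) < 1`: Newton: `e (k x) - e 0 = k μ + O(μ²)`.  The product of the `e (k x) - e 0` over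
  `k ∈ 𝔽_p^×` is fixed by inertia and has valuation `v(μ)^(p-1)`, so `v(μ)^(p-1) ≤ v(p)`
  (`vg0_le`); Lemma A gives `≥`.  So `μ = w (ζ - 1)` with `w` a unit, and
  `n μ ≡ τ μ = τ(w) (ζ^a - 1) ≡ a μ` modulo `μ 𝔪_P`, i.e. `n ≡ a mod p`.
-/

set_option autoImplicit false
set_option linter.unusedSectionVars false
set_option linter.style.haveILetI false

open Polynomial

noncomputable section

namespace Fermat.Agent.S56.H66

open Fermat.Agent.S56 Fermat.Agent.S56.H906 Fermat.Agent.S14.H894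

section Basic

variable {p : ℕ} [Fact p.Prime] {M : Type} [AddCommGroup M] {act : GQ → M → M}
  {Λ : Subalgebra (Zp p) (M → Qb)} (P : ValuationSubring Qb)

/-- The Galois action on a Hopf lattice commutes with natural multiples. -/
theorem ft_act_nsmul (hΛ : IsHL p act Λ) (σ : GQ) (k : ℕ) (x : M) :
    act σ (k • x) = k • act σ x := by
  induction k with
  | zero => rw [zero_nsmul, zero_nsmul]; exact hΛ.act_zero σ
  | succ k ih => rw [succ_nsmul, succ_nsmul, hΛ.act_add, ih]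

/-- Natural multiples of a point killed by `p` depend only on the class mod `p`. -/
theorem ft_nsmul_congr {x : M} (hx : p • x = 0) {a b : ℕ} (h : (a : ZMod p) = b) :
    a • x = b • x := by
  have key : ∀ c : ℕ, c • x = (c % p) • x := by
    intro c
    conv_lhs => rw [← Nat.div_add_mod c p, add_nsmul, mul_comm, mul_nsmul', hx, nsmul_zero,
      zero_add]
  rw [key a, key b]
  have := (ZMod.natCast_eq_natCast_iff' a b p).mp h
  rw [this]

/-- The set of points reducing to `0` is stable under addition. -/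
theorem ft_red_add (hΛ : IsHL p act Λ) (hP : P.LiesOverPrime p) {y z : M}
    (hy : ∀ f ∈ Λ, P.valuation (f y - f 0) < 1) (hz : ∀ f ∈ Λ, P.valuation (f z - f 0) < 1) :
    ∀ f ∈ Λ, P.valuation (f (y + z) - f 0) < 1 := by
  intro f hf
  obtain ⟨n, a, b, ha, hb, hab⟩ := hΛ.comul_mem f hf
  have h0 := hab 0 0
  rw [add_zero] at h0
  rw [hab y z, h0, ← Finset.sum_sub_distrib]
  refine Valuation.map_sum_lt _ one_ne_zero fun k _ => ?_
  have h1 : a k y * b k z - a k 0 * b k 0 =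
      (a k y - a k 0) * b k z + a k 0 * (b k z - b k 0) := by ring
  rw [h1]
  refine Valuation.map_add_lt _ ?_ ?_
  · rw [map_mul]
    calc P.valuation (a k y - a k 0) * P.valuation (b k z)
        ≤ P.valuation (a k y - a k 0) * 1 := by
          gcongr
          exact (P.valuation_le_one_iff _).mpr (apply_mem P hΛ hP (hb k) z)
      _ = P.valuation (a k y - a k 0) := mul_one _
      _ < 1 := hy _ (ha k)
  · rw [map_mul]
    calc P.valuation (a k 0) * P.valuation (b k z - b k 0)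
        ≤ 1 * P.valuation (b k z - b k 0) := by
          gcongr
          exact (P.valuation_le_one_iff _).mpr (apply_mem P hΛ hP (ha k) 0)
      _ = P.valuation (b k z - b k 0) := one_mul _
      _ < 1 := hz _ (hb k)

/-- ... and under natural multiples. -/
theorem ft_red_nsmul (hΛ : IsHL p act Λ) (hP : P.LiesOverPrime p) {y : M}
    (hy : ∀ f ∈ Λ, P.valuation (f y - f 0) < 1) (k : ℕ) :
    ∀ f ∈ Λ, P.valuation (f (k • y) - f 0) < 1 := by
  induction k with
  | zero =>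
    intro f _
    rw [zero_nsmul, sub_self, map_zero]
    exact zero_lt_one
  | succ k ih =>
    rw [succ_nsmul]
    exact ft_red_add P hΛ hP ih hy

/-- For `τ` in the inertia group, `τ y - y` reduces to `0`. -/
theorem ft_red_inertia (hΛ : IsHL p act Λ) (hP : P.LiesOverPrime p) {τ : GQ}
    (hτ : τ ∈ P.inertiaSubgroupIn ℚ) (y : M) :
    ∀ f ∈ Λ, P.valuation (f (act τ y - y) - f 0) < 1 := by
  intro f hf
  obtain ⟨n, a, b, ha, hb, hab⟩ := hΛ.comul_mem f hf
  have h0 := hab y (-y)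
  rw [add_neg_cancel] at h0
  have h1 : act τ y - y = act τ y + -y := sub_eq_add_neg _ _
  rw [h1, hab (act τ y) (-y), h0, ← Finset.sum_sub_distrib]
  refine Valuation.map_sum_lt _ one_ne_zero fun k _ => ?_
  rw [← sub_mul, map_mul, hΛ.equivariant _ (ha k) τ y]
  have h1 : τ (a k y) - a k y ∈ P.nonunits :=
    ((Fermat.Agent.A2.IF.H9.mem_inertiaSubgroupIn_iff_forall P τ).mp hτ) _
      (apply_mem P hΛ hP (ha k) y)
  calc P.valuation (τ (a k y) - a k y) * P.valuation (b k (-y))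
      ≤ P.valuation (τ (a k y) - a k y) * 1 := by
        gcongr
        exact (P.valuation_le_one_iff _).mpr (apply_mem P hΛ hP (hb k) (-y))
    _ = P.valuation (τ (a k y) - a k y) := mul_one _
    _ < 1 := (P.mem_nonunits_iff).mp h1

/-- A coordinate difference of maximal valuation at a nonzero point. -/
theorem ft_exists_max (hΛ : IsHL p act Λ) (hP : P.LiesOverPrime p) {x : M} (hx : x ≠ 0) :
    ∃ e ∈ Λ, e x - e 0 ≠ 0 ∧ ∀ g ∈ Λ, P.valuation (g x - g 0) ≤ P.valuation (e x - e 0) := by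
  have hp : p.Prime := Fact.out
  set v := P.valuation with hv
  obtain ⟨f₀, hf₀, hne⟩ := hΛ.separates x 0 hx
  obtain ⟨n, e, he, -, -, hexp⟩ := Fermat.Agent.S19.H435.IsHopfLattice.exists_basis hΛ
  have hcoord : ∀ g ∈ Λ, ∃ c : Fin n → Zp p,
      g x - g 0 = ∑ i, algebraMap (Zp p) Qb (c i) * (e i x - e i 0) := by
    intro g hg
    obtain ⟨c, hc⟩ := hexp g hg
    refine ⟨c, ?_⟩
    have h1 : ∀ y : M, g y = ∑ i, algebraMap (Zp p) Qb (c i) * e i y := by
      intro y
      rw [hc, Finset.sum_apply]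
      refine Finset.sum_congr rfl fun i _ => ?_
      rw [Pi.smul_apply, Algebra.smul_def]
    rw [h1 x, h1 0, ← Finset.sum_sub_distrib]
    exact Finset.sum_congr rfl fun i _ => by ring
  have hex : ∃ i, e i x - e i 0 ≠ 0 := by
    by_contra hcon
    push Not at hcon
    obtain ⟨c, hc⟩ := hcoord f₀ hf₀
    apply hne
    rw [← sub_eq_zero, hc]
    exact Finset.sum_eq_zero fun i _ => by rw [hcon i, mul_zero]
  obtain ⟨i₁, hi₁⟩ := hex
  obtain ⟨i₀, -, hi₀⟩ := Finset.exists_max_image Finset.univ (fun i => v (e i x - e i 0))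
    ⟨i₁, Finset.mem_univ _⟩
  refine ⟨e i₀, he i₀, ?_, ?_⟩
  · intro h0
    have h1 := hi₀ i₁ (Finset.mem_univ _)
    rw [h0, map_zero] at h1
    exact hi₁ ((Valuation.zero_iff v).mp (le_antisymm h1 zero_le))
  · intro g hg
    obtain ⟨c, hc⟩ := hcoord g hg
    rw [hc]
    refine Valuation.map_sum_le v fun i _ => ?_
    rw [map_mul]
    calc v (algebraMap (Zp p) Qb (c i)) * v (e i x - e i 0)
        ≤ 1 * v (e i x - e i 0) := by
          gcongr
          exact (ValuationSubring.valuation_le_one_iff P _).mpr (zp_mem P hp hP (c i))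
      _ = v (e i x - e i 0) := one_mul _
      _ ≤ v (e i₀ x - e i₀ 0) := hi₀ i (Finset.mem_univ _)

/-- **Leading term** (Newton): `e (k x) - e 0 = k μ + O(μ²)`, `μ = e x - e 0` of maximal
valuation. -/
theorem ft_leading (hΛ : IsHL p act Λ) (hP : P.LiesOverPrime p) (x : M) {e : M → Qb}
    (he : e ∈ Λ) (hμ0 : e x - e 0 ≠ 0)
    (hmax : ∀ g ∈ Λ, P.valuation (g x - g 0) ≤ P.valuation (e x - e 0)) (k : ℕ) :
    P.valuation (e (k • x) - e 0 - (k : Qb) * (e x - e 0)) ≤ P.valuation (e x - e 0) ^ 2 := by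
  set v := P.valuation with hv
  set μ := e x - e 0 with hμdef
  have hμ1 : v μ ≤ 1 := by
    rw [ValuationSubring.valuation_le_one_iff]
    exact sub_mem (apply_mem P hΛ hP he x) (apply_mem P hΛ hP he 0)
  rcases k with _ | q
  · simp
  have hN := sum_choose_delta x (q + 1) e
  rw [Finset.sum_range_succ', Finset.sum_range_succ'] at hN
  simp only [Nat.choose_zero_right, Nat.cast_one, pow_zero, Module.End.one_apply, one_mul,
    zero_add, Nat.choose_one_right, pow_one] at hN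
  have hd1 : delta x e 0 = μ := by rw [delta_apply, zero_add]
  rw [hd1] at hN
  have hsum : e ((q + 1) • x) - e 0 - ((q + 1 : ℕ) : Qb) * μ =
      ∑ m ∈ Finset.range q,
        (((q + 1).choose (m + 1 + 1) : ℕ) : Qb) * (delta x ^ (m + 1 + 1)) e 0 := by
    rw [hN]; ring
  rw [hsum]
  refine Valuation.map_sum_le v fun m _ => ?_
  obtain ⟨G, hG, hG'⟩ := delta_pow_mem P hΛ x μ hμ0 hmax (m + 1 + 1) (subset_pspan P he)
  have hg1 : v (G 0) ≤ 1 :=
    (ValuationSubring.valuation_le_one_iff P _).mpr (pspan_apply_mem P hΛ hP hG 0)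
  have hc1 : v ((((q + 1).choose (m + 1 + 1) : ℕ) : Qb)) ≤ 1 :=
    (ValuationSubring.valuation_le_one_iff P _).mpr (natCast_mem P _)
  rw [hG', Pi.smul_apply, smul_eq_mul, map_mul, map_mul, map_pow]
  calc v ((((q + 1).choose (m + 1 + 1) : ℕ) : Qb)) * (v μ ^ (m + 1 + 1) * v (G 0))
      ≤ 1 * (v μ ^ (m + 1 + 1) * 1) := by gcongr
    _ = v μ ^ (m + 1 + 1) := by rw [one_mul, mul_one]
    _ = v μ ^ m * v μ ^ 2 := by rw [← pow_add]
    _ ≤ 1 * v μ ^ 2 := by
        gcongr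
        exact pow_le_one₀ zero_le hμ1
    _ = v μ ^ 2 := one_mul _

/-- In the connected case, the coordinate differences of the nonzero multiples of `x` all have
the valuation of `μ`. -/
theorem ft_val_multiple (hΛ : IsHL p act Λ) (hP : P.LiesOverPrime p) (x : M) {e : M → Qb}
    (he : e ∈ Λ) (hμ0 : e x - e 0 ≠ 0)
    (hmax : ∀ g ∈ Λ, P.valuation (g x - g 0) ≤ P.valuation (e x - e 0))
    (hμ1 : P.valuation (e x - e 0) < 1) {k : ℕ} (hk : ¬ p ∣ k) :
    P.valuation (e (k • x) - e 0) = P.valuation (e x - e 0) := by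
  have hp : p.Prime := Fact.out
  have h1 := ft_leading P hΛ hP x he hμ0 hmax k
  set v := P.valuation with hv
  set μ := e x - e 0 with hμdef
  have hk1 : v (k : Qb) = 1 := by
    have := valuation_intCast_eq_one P p hp hP (k : ℤ) (by exact_mod_cast hk)
    simpa using this
  have h2 : v ((k : Qb) * μ) = v μ := by rw [map_mul, hk1, one_mul]
  have hvμ : v μ ≠ 0 := (Valuation.ne_zero_iff _).mpr hμ0
  have h3 : v μ ^ 2 < v μ := by
    rw [pow_two]
    calc v μ * v μ < 1 * v μ := mul_lt_mul_of_pos_right hμ1 (zero_lt_iff.mpr hvμ)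
      _ = v μ := one_mul _
  have h4 : e (k • x) - e 0 = (k : Qb) * μ + (e (k • x) - e 0 - (k : Qb) * μ) := by ring
  rw [h4, Valuation.map_add_eq_of_lt_left, h2]
  rw [h2]
  exact lt_of_le_of_lt h1 h3

/-- The "norm" of a coordinate difference: the product over the nonzero multiples of `x`. -/
def ftNorm (p : ℕ) [Fact p.Prime] (e : M → Qb) (x : M) : Qb :=
  ∏ c : (ZMod p)ˣ, (e ((c : ZMod p).val • x) - e 0)

/-- If `τ` acts on `x` through a scalar, it fixes the norm. -/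
theorem ftNorm_fixed (hΛ : IsHL p act Λ) {x : M} (hpx : p • x = 0) (hx : x ≠ 0) {e : M → Qb}
    (he : e ∈ Λ) {τ : GQ} {n : ℕ} (hτ : act τ x = n • x) :
    τ (ftNorm p e x) = ftNorm p e x := by
  have hn0 : (n : ZMod p) ≠ 0 := by
    intro h0
    apply hx
    have h1 : n • x = 0 := by
      rw [ft_nsmul_congr hpx (b := 0) (by simpa using h0), zero_nsmul]
    rw [h1] at hτ
    have h2 := hΛ.act_inv_act τ x
    rw [hτ, hΛ.act_zero] at h2
    exact h2.symm
  set U : (ZMod p)ˣ := Units.mk0 (n : ZMod p) hn0 with hU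
  unfold ftNorm
  rw [map_prod]
  rw [← Equiv.prod_comp (Equiv.mulRight U) (fun c : (ZMod p)ˣ => e ((c : ZMod p).val • x) - e 0)]
  refine Finset.prod_congr rfl fun c _ => ?_
  rw [map_sub, ← hΛ.equivariant e he τ, ← hΛ.equivariant e he τ, hΛ.act_zero,
    ft_act_nsmul hΛ, hτ, ← mul_nsmul']
  congr 2
  refine ft_nsmul_congr hpx ?_
  rw [Equiv.coe_mulRight, Units.val_mul, hU, Units.val_mk0, Nat.cast_mul, ZMod.natCast_zmod_val,
    ZMod.natCast_zmod_val]

/-- The valuation of the norm in the connected case. -/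
theorem ftNorm_valuation (hΛ : IsHL p act Λ) (hP : P.LiesOverPrime p) (x : M) {e : M → Qb}
    (he : e ∈ Λ) (hμ0 : e x - e 0 ≠ 0)
    (hmax : ∀ g ∈ Λ, P.valuation (g x - g 0) ≤ P.valuation (e x - e 0))
    (hμ1 : P.valuation (e x - e 0) < 1) :
    P.valuation (ftNorm p e x) = P.valuation (e x - e 0) ^ (p - 1) := by
  have hp : p.Prime := Fact.out
  unfold ftNorm
  rw [map_prod]
  have h1 : ∀ c ∈ (Finset.univ : Finset (ZMod p)ˣ),
      P.valuation (e ((c : ZMod p).val • x) - e 0) = P.valuation (e x - e 0) := by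
    intro c _
    refine ft_val_multiple P hΛ hP x he hμ0 hmax hμ1 ?_
    intro hdvd
    have h2 : (((c : ZMod p).val : ℕ) : ZMod p) = 0 := (ZMod.natCast_eq_zero_iff _ _).mpr hdvd
    rw [ZMod.natCast_zmod_val] at h2
    exact c.ne_zero h2
  rw [Finset.prod_congr rfl h1, Finset.prod_const, Finset.card_univ, ZMod.card_units]

end Basic

/-- **(FT)** Raynaud's tame characters at level one: inertia acts on a scalar point of a flat
module killed by `p` trivially or through the cyclotomic character. -/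
theorem flatTame : FlatTameStatement := by
  intro p _ hp2 M _ _ act Λ hΛ hpM P hP x hx hI
  have hp : p.Prime := Fact.out
  obtain ⟨e, he, hμ0, hmax⟩ := ft_exists_max P hΛ hP hx
  set v := P.valuation with hv
  set μ := e x - e 0 with hμdef
  have hvμ : v μ ≠ 0 := (Valuation.ne_zero_iff _).mpr hμ0
  by_cases hμ1 : v μ < 1
  · -- the connected case: the cyclotomic character
    right
    have hN1 : v (ftNorm p e x) = v μ ^ (p - 1) := ftNorm_valuation P hΛ hP x he hμ0 hmax hμ1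
    have hp1 : p - 1 ≠ 0 := by have := hp.two_le; omega
    have hNnon : ftNorm p e x ∈ P.nonunits := by
      rw [P.mem_nonunits_iff, ← hv, hN1]
      exact pow_lt_one₀ zero_le hμ1 hp1
    have hNfix : ∀ σ ∈ P.inertiaSubgroupIn ℚ, σ (ftNorm p e x) = ftNorm p e x := by
      intro σ hσ
      obtain ⟨n, hn⟩ := hI σ hσ
      exact ftNorm_fixed hΛ (hpM x) hx he hn
    have hle : v μ ^ (p - 1) ≤ v (p : Qb) := by
      rw [← hN1]
      exact vg0_le p hp P hP _ hNnon hNfix
    have hge : v (p : Qb) ≤ v μ ^ (p - 1) := by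
      by_contra hcon
      rw [not_le] at hcon
      exact hx (lemmaA p M act Λ hΛ P hP x μ (hpM x) hcon hmax)
    have heq : v μ ^ (p - 1) = v (p : Qb) := le_antisymm hle hge
    haveI : NeZero p := ⟨hp.ne_zero⟩
    obtain ⟨ζ, hζ⟩ := HasEnoughRootsOfUnity.exists_primitiveRoot Qb p
    have hπ : v (ζ - 1) = v μ := by
      have h1 := valuation_natCast_eq_pow P p hp ζ hζ
      rw [← hv, ← heq] at h1
      exact ((pow_left_inj₀ zero_le zero_le hp1).mp h1).symm
    have hπ1 : v (ζ - 1) < 1 := valuation_zeta_sub_one_lt_one P p hp hP ζ hζ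
    have hζ1 : ζ - 1 ≠ 0 :=
      (Valuation.ne_zero_iff v).mp (valuation_zeta_sub_one_ne_zero P p hp ζ hζ)
    have hμ2 : v μ ^ 2 < v μ := by
      rw [pow_two]
      calc v μ * v μ < 1 * v μ := mul_lt_mul_of_pos_right hμ1 (zero_lt_iff.mpr hvμ)
        _ = v μ := one_mul _
    set w := μ / (ζ - 1) with hw
    have hwμ : μ = w * (ζ - 1) := by rw [hw]; field_simp
    have hvw : v w = 1 := by rw [hw, map_div₀, hπ, div_self hvμ]
    have hwP : w ∈ P := (P.valuation_le_one_iff _).mp hvw.le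
    intro τ hτ a ha
    obtain ⟨n, hn⟩ := hI τ hτ
    rw [hn]
    refine ft_nsmul_congr (hpM x) ?_
    have hτμ : τ μ = e (n • x) - e 0 := by
      rw [hμdef, map_sub, ← hΛ.equivariant e he τ, ← hΛ.equivariant e he τ, hΛ.act_zero, hn]
    have hlead : v (τ μ - (n : Qb) * μ) ≤ v μ ^ 2 := by
      rw [hτμ]
      exact ft_leading P hΛ hP x he hμ0 hmax n
    have hτw : v (τ w - w) < 1 :=
      (P.mem_nonunits_iff).mp
        (((Fermat.Agent.A2.IF.H9.mem_inertiaSubgroupIn_iff_forall P τ).mp hτ) w hwP)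
    have hτζ : τ ζ = ζ ^ a := ha ζ hζ.pow_eq_one
    set S := ∑ j ∈ Finset.range a, ζ ^ j with hS
    have hSmul : ζ ^ a - 1 = S * (ζ - 1) := (geom_sum_mul ζ a).symm
    have hSa : v (S - (a : Qb)) < 1 := by
      have h1 : S - (a : Qb) = ∑ j ∈ Finset.range a, (ζ ^ j - 1) := by
        rw [Finset.sum_sub_distrib, Finset.sum_const, Finset.card_range, nsmul_eq_mul, mul_one]
      rw [h1]
      refine Valuation.map_sum_lt v one_ne_zero fun j _ => ?_
      exact lt_of_le_of_lt (valuation_pow_sub_one_le P hp.ne_zero hζ.pow_eq_one j) hπ1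
    have hS1 : v S ≤ 1 := by
      refine Valuation.map_sum_le v fun j _ => ?_
      rw [map_pow]
      exact pow_le_one₀ zero_le (valuation_le_one_of_pow_eq_one P hp.ne_zero hζ.pow_eq_one)
    have h5 : τ μ - (a : Qb) * μ = (ζ - 1) * ((τ w - w) * S + w * (S - a)) := by
      have h1 : τ μ = τ w * (ζ ^ a - 1) := by
        conv_lhs => rw [hwμ]
        rw [map_mul, map_sub, map_one, hτζ]
      rw [h1, hSmul]
      conv_lhs => rw [hwμ]
      ring
    have h6 : v (τ μ - (a : Qb) * μ) < v μ := by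
      rw [h5, map_mul, hπ]
      have h1 : v ((τ w - w) * S + w * (S - a)) < 1 := by
        refine Valuation.map_add_lt v ?_ ?_
        · rw [map_mul]
          calc v (τ w - w) * v S ≤ v (τ w - w) * 1 := by gcongr
            _ = v (τ w - w) := mul_one _
            _ < 1 := hτw
        · rw [map_mul, hvw, one_mul]
          exact hSa
      calc v μ * v ((τ w - w) * S + w * (S - a)) < v μ * 1 :=
            mul_lt_mul_of_pos_left h1 (zero_lt_iff.mpr hvμ)
        _ = v μ := mul_one _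
    have h7 : ((((n : ℤ) - (a : ℤ) : ℤ)) : Qb) * μ =
        (τ μ - (a : Qb) * μ) - (τ μ - (n : Qb) * μ) := by
      push_cast
      ring
    have h8 : v ((((n : ℤ) - (a : ℤ) : ℤ)) : Qb) < 1 := by
      by_contra hcon
      have h9 : v ((((n : ℤ) - (a : ℤ) : ℤ)) : Qb) = 1 :=
        le_antisymm (valuation_intCast_le_one P _) (not_lt.mp hcon)
      have h10 : v (((((n : ℤ) - (a : ℤ) : ℤ)) : Qb) * μ) = v μ := by
        rw [map_mul, h9, one_mul]
      have h11 : v (((((n : ℤ) - (a : ℤ) : ℤ)) : Qb) * μ) < v μ := by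
        rw [h7]
        exact Valuation.map_sub_lt v h6 (lt_of_le_of_lt hlead hμ2)
      exact absurd h10 h11.ne
    have h12 : (p : ℤ) ∣ (n : ℤ) - a := by
      by_contra hnd
      exact absurd (valuation_intCast_eq_one P p hp hP _ hnd) h8.ne
    have h13 := (ZMod.intCast_zmod_eq_zero_iff_dvd ((n : ℤ) - a) p).mpr h12
    push_cast at h13
    exact sub_eq_zero.mp h13
  · -- the étale case: trivial action
    left
    intro τ hτ
    obtain ⟨n, hn⟩ := hI τ hτ
    rw [hn]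
    by_contra hne
    have hn1 : (n : ZMod p) ≠ 1 := by
      intro h1
      apply hne
      rw [ft_nsmul_congr (hpM x) (b := 1) (by simpa using h1), one_nsmul]
    set u : ZMod p := (n : ZMod p) - 1 with hu
    have hu0 : u ≠ 0 := sub_ne_zero.mpr hn1
    set m := (u⁻¹).val with hm
    have hz : ∀ f ∈ Λ, v (f (act τ x - x) - f 0) < 1 := ft_red_inertia P hΛ hP hτ x
    have hmz := ft_red_nsmul P hΛ hP hz m
    have hxm : m • (act τ x - x) = x := by
      rw [hn, nsmul_sub, ← mul_nsmul']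
      have h1 : (m * n) • x = (m + 1) • x := by
        refine ft_nsmul_congr (hpM x) ?_
        push_cast
        rw [hm, ZMod.natCast_zmod_val]
        have h2 : (n : ZMod p) = u + 1 := by rw [hu]; ring
        rw [h2, mul_add, inv_mul_cancel₀ hu0, mul_one, add_comm]
      rw [h1, succ_nsmul]
      abel
    rw [hxm] at hmz
    exact hμ1 (hmz e he)

end Fermat.Agent.S56.H66

end

end
-- ===== PACK-END S56/H66/FlatTame.lean

-- ===== PACK-BEGIN S55/E1/H793/Alg10Comp.lean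
section


/-!
# S55 / E1 : ALG10C (subtask 479) — functoriality of the transition maps

`alg10Comp : ALG10CompSpec` and `alg10CompE2 : ALG10CompE2Spec`:
`tr ∘ tr = tr` along `G'' → G' → G` on `P`, `R`, `𝔈²` and `Hⁿ`.
-/

set_option autoImplicit false

open CategoryTheory CategoryTheory.Limits

namespace Fermat.Agent.S55.E1.H793

open Fermat.Agent.S55.E1

section

variable {G G' G'' : Type} [Group G] [Group G'] [Group G''] (π : G' →* G) (π' : G'' →* G')
variable {N : Rep.{0} ℤ G} {N' : Rep.{0} ℤ G'} {N'' : Rep.{0} ℤ G''}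
variable (ν : N' ⟶ Rep.res π N) (ν' : N'' ⟶ Rep.res π' N') (ν'' : N'' ⟶ Rep.res (π.comp π') N)

/-- The inclusion `R → P` is injective on elements. -/
lemma stdι_hom_injective {H : Type} [Group H] (M : Rep.{0} ℤ H) :
    Function.Injective (stdι M).hom :=
  (Rep.mono_iff_injective (stdι M)).1 (stdι_mono M)

/-- `tr ∘ tr = tr` on `P`, as morphisms. -/
lemma trP_comp_eq (hν : ∀ n : N''.V, ν''.hom n = ν.hom (ν'.hom n)) :
    trP (π.comp π') ν'' = trP π' ν' ≫ (Rep.resFunctor π').map (trP π ν) := by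
  apply Rep.free_ext
  intro n
  have h1 := trP_stdE (π.comp π') ν'' n
  have h2 := trP_stdE π' ν' n
  have h3 := trP_stdE π ν (ν'.hom n)
  unfold stdE at h1 h2 h3
  rw [Rep.comp_apply]
  erw [h1, h2]
  rw [hν]
  exact h3.symm

/-- `tr ∘ tr = tr` on `P`, elementwise. -/
lemma trP_comp_apply (hν : ∀ n : N''.V, ν''.hom n = ν.hom (ν'.hom n)) (x : (stdP N'').V) :
    (trP (π.comp π') ν'').hom x = (trP π ν).hom ((trP π' ν').hom x) := by
  have := congrArg (fun f => f.hom x) (trP_comp_eq π π' ν ν' ν'' hν)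
  exact this

/-- `tr ∘ tr = tr` on `R`, elementwise. -/
lemma trR_comp_apply (hν : ∀ n : N''.V, ν''.hom n = ν.hom (ν'.hom n)) (r : (stdR N'').V) :
    (trR (π.comp π') ν'').hom r = (trR π ν).hom ((trR π' ν').hom r) := by
  apply stdι_hom_injective N
  rw [trR_stdι_apply, trR_stdι_apply, trR_stdι_apply]
  exact trP_comp_apply π π' ν ν' ν'' hν _

end

/-- **ALG10 (functoriality)** on `P` and `R`. -/
theorem alg10Comp : ALG10CompSpec := by
  intro G G' G'' _ _ _ π π' N N' N'' ν ν' ν'' hν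
  exact ⟨trP_comp_apply π π' ν ν' ν'' hν, trR_comp_apply π π' ν ν' ν'' hν⟩

section

variable {k G G' G'' : Type} [CommRing k] [Group G] [Group G'] [Group G'']
variable (π : G' →* G) (π' : G'' →* G')
variable {A X : Rep.{0} k G} {A' X' : Rep.{0} k G'} {A'' X'' : Rep.{0} k G''}

/-- Composition of the coefficient maps `φ ↦ ι ∘ φ ∘ a`. -/
lemma trIhom_comp_eq (a : A' ⟶ Rep.res π A) (a' : A'' ⟶ Rep.res π' A')
    (a'' : A'' ⟶ Rep.res (π.comp π') A)
    (ι : Rep.res π X ⟶ X') (ι' : Rep.res π' X' ⟶ X'') (ι'' : Rep.res (π.comp π') X ⟶ X'')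
    (ha : ∀ x : A''.V, a''.hom x = a.hom (a'.hom x))
    (hι : ∀ x : X.V, ι''.hom x = ι'.hom (ι.hom x)) :
    trIhom (π.comp π') a'' ι'' = (Rep.resFunctor π').map (trIhom π a ι) ≫ trIhom π' a' ι' := by
  apply Rep.hom_ext
  apply DFunLike.ext
  intro φ
  have key : ∀ x : A''.V,
      (show A''.V →ₗ[k] X''.V from (trIhom (π.comp π') a'' ι'').hom φ) x =
        (show A''.V →ₗ[k] X''.V from
          ((Rep.resFunctor π').map (trIhom π a ι) ≫ trIhom π' a' ι').hom φ) x := by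
    intro x
    change ι''.hom ((show A.V →ₗ[k] X.V from φ) (a''.hom x)) =
      ι'.hom (ι.hom ((show A.V →ₗ[k] X.V from φ) (a.hom (a'.hom x))))
    rw [ha, hι]
  exact LinearMap.ext key

/-- Composition of the coefficient maps, degenerate case. -/
lemma iota_comp_eq (ι : Rep.res π X ⟶ X') (ι' : Rep.res π' X' ⟶ X'')
    (ι'' : Rep.res (π.comp π') X ⟶ X'') (hι : ∀ x : X.V, ι''.hom x = ι'.hom (ι.hom x)) :
    ι'' = (Rep.resFunctor π').map ι ≫ ι' := by
  apply Rep.hom_ext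
  apply DFunLike.ext
  intro x
  exact hι x

end

/-- **ALG10 (functoriality on `𝔈²` and `Hⁿ`).** -/
theorem alg10CompE2 : ALG10CompE2Spec := by
  intro G G' G'' _ _ _ π π' N N' N'' ν ν' ν'' X X' X'' ι ι' ι'' hν hι
  refine ⟨?_, ?_⟩
  · intro y
    have h1 : trIhom (π.comp π') (trR (π.comp π') ν'') ι'' =
        (Rep.resFunctor π').map (trIhom π (trR π ν) ι) ≫ trIhom π' (trR π' ν') ι' :=
      trIhom_comp_eq π π' (trR π ν) (trR π' ν') (trR (π.comp π') ν'') ι ι' ι''
        (trR_comp_apply π π' ν ν' ν'' hν) hι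
    have h2 := groupCohomology.map_comp π π' (trIhom π (trR π ν) ι) (trIhom π' (trR π' ν') ι') 1
    unfold trE2
    rw [h1, h2]
    rfl
  · intro n z
    have h1 := iota_comp_eq π π' ι ι' ι'' hι
    have h2 := groupCohomology.map_comp π π' ι ι' n
    unfold infCoeff
    rw [h1, h2]
    rfl

end Fermat.Agent.S55.E1.H793

end
-- ===== PACK-END S55/E1/H793/Alg10Comp.lean

-- ===== PACK-BEGIN S55/E1/Lim/TrLemmas.lean
section
/-
S55 engine E1 — block LIM: composition / identity / naturality lemmas for the canonical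
transition maps of `E1/Tr/Defs.lean` (`trP, trR, trA, trB, trE2, infCoeff`), in the POINTWISE
form needed for strict functoriality over the tower (`Level.proj (h.trans h')` is only
propositionally `(Level.proj h).comp (Level.proj h')`).   helper474.  Sorry-free.
Uses `H793.alg10Comp`, `H793.alg10CompE2`.
-/



set_option autoImplicit false

open CategoryTheory CategoryTheory.Limits

namespace Fermat.Agent.S55.E1.Lim

open Fermat.Agent.S55.E1

noncomputable section

attribute [local instance 10000] Rep.hV2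

variable {G G' G'' : Type} [Group G] [Group G'] [Group G'']

/-- Pointwise extensionality for morphisms of representations. -/
lemma repHom_ext {A B : Rep.{0} ℤ G} {f g : A ⟶ B} (h : ∀ x : A.V, f.hom x = g.hom x) :
    f = g := by
  apply Rep.hom_ext
  apply DFunLike.ext
  exact h

section Comp

variable (π : G' →* G) (π' : G'' →* G') (π'' : G'' →* G)
variable {N : Rep.{0} ℤ G} {N' : Rep.{0} ℤ G'} {N'' : Rep.{0} ℤ G''}
variable (ν : N' ⟶ Rep.res π N) (ν' : N'' ⟶ Rep.res π' N') (ν'' : N'' ⟶ Rep.res π'' N)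
variable {X : Rep.{0} ℤ G} {X' : Rep.{0} ℤ G'} {X'' : Rep.{0} ℤ G''}
variable (ι : Rep.res π X ⟶ X') (ι' : Rep.res π' X' ⟶ X'') (ι'' : Rep.res π'' X ⟶ X'')

lemma trP_comp (hπ : ∀ g, π'' g = π (π' g)) (hν : ∀ n : N''.V, ν''.hom n = ν.hom (ν'.hom n))
    (x : (stdP N'').V) : (trP π'' ν'').hom x = (trP π ν).hom ((trP π' ν').hom x) := by
  obtain rfl : π'' = π.comp π' := MonoidHom.ext hπ
  exact H793.trP_comp_apply π π' ν ν' ν'' hν x

lemma trR_comp (hπ : ∀ g, π'' g = π (π' g)) (hν : ∀ n : N''.V, ν''.hom n = ν.hom (ν'.hom n))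
    (r : (stdR N'').V) : (trR π'' ν'').hom r = (trR π ν).hom ((trR π' ν').hom r) := by
  obtain rfl : π'' = π.comp π' := MonoidHom.ext hπ
  exact H793.trR_comp_apply π π' ν ν' ν'' hν r

lemma trA_comp (hπ : ∀ g, π'' g = π (π' g)) (hν : ∀ n : N''.V, ν''.hom n = ν.hom (ν'.hom n))
    (hι : ∀ x : X.V, ι''.hom x = ι'.hom (ι.hom x)) (f : homA N X) :
    trA π' ν' ι' (trA π ν ι f) = trA π'' ν'' ι'' f := by
  apply repHom_ext
  intro r
  rw [trA_hom_apply, trA_hom_apply, trA_hom_apply, trR_comp π π' π'' ν ν' ν'' hπ hν, hι]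

lemma trB_comp (hπ : ∀ g, π'' g = π (π' g)) (hν : ∀ n : N''.V, ν''.hom n = ν.hom (ν'.hom n))
    (hι : ∀ x : X.V, ι''.hom x = ι'.hom (ι.hom x)) (f : homB N X) :
    trB π' ν' ι' (trB π ν ι f) = trB π'' ν'' ι'' f := by
  apply repHom_ext
  intro r
  rw [trB_hom_apply, trB_hom_apply, trB_hom_apply, trP_comp π π' π'' ν ν' ν'' hπ hν, hι]

lemma trE2_comp (hπ : ∀ g, π'' g = π (π' g)) (hν : ∀ n : N''.V, ν''.hom n = ν.hom (ν'.hom n))
    (hι : ∀ x : X.V, ι''.hom x = ι'.hom (ι.hom x)) (y : E2 N X) :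
    trE2 π' ν' ι' (trE2 π ν ι y) = trE2 π'' ν'' ι'' y := by
  obtain rfl : π'' = π.comp π' := MonoidHom.ext hπ
  exact ((H793.alg10CompE2 G G' G'' π π' N N' N'' ν ν' ν'' X X' X'' ι ι' ι'' hν hι).1 y).symm

lemma infCoeff_comp (hπ : ∀ g, π'' g = π (π' g))
    (hι : ∀ x : X.V, ι''.hom x = ι'.hom (ι.hom x)) (n : ℕ) (z : groupCohomology X n) :
    infCoeff π' ι' n (infCoeff π ι n z) = infCoeff π'' ι'' n z := by
  obtain rfl : π'' = π.comp π' := MonoidHom.ext hπ
  have h := groupCohomology.map_comp (k := ℤ) π π' ι ι' n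
  have h2 : ι'' = (Rep.resFunctor π').map ι ≫ ι' := repHom_ext hι
  subst h2
  show (groupCohomology.map π' ι' n).hom ((groupCohomology.map π ι n).hom z) = _
  unfold infCoeff
  rw [h]
  rfl

end Comp

/-! ### The identity transition -/

section Id

variable {N : Rep.{0} ℤ G} {X Y : Rep.{0} ℤ G}

/-- The identity of `N` as `ν` for `π = id`. -/
def idν (N : Rep.{0} ℤ G) : N ⟶ Rep.res (MonoidHom.id G) N := 𝟙 N

/-- A morphism `X ⟶ Y` as `ι` for `π = id`. -/
def idι (f : X ⟶ Y) : Rep.res (MonoidHom.id G) X ⟶ Y := f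

@[simp] lemma idν_apply (n : N.V) : (idν N).hom n = n := rfl

@[simp] lemma idι_apply (f : X ⟶ Y) (x : X.V) : (idι f).hom x = f.hom x := rfl

lemma trP_id_apply (x : (stdP N).V) : (trP (MonoidHom.id G) (idν N)).hom x = x := by
  have h : trP (MonoidHom.id G) (idν N) = 𝟙 (stdP N) := by
    apply Rep.free_ext
    intro n
    exact trP_stdE (MonoidHom.id G) (idν N) n
  rw [h]; rfl

lemma trR_id_apply (r : (stdR N).V) : (trR (MonoidHom.id G) (idν N)).hom r = r := by
  apply H793.stdι_hom_injective N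
  rw [trR_stdι_apply, trP_id_apply]

lemma trA_id (f : X ⟶ Y) (u : homA N X) : trA (MonoidHom.id G) (idν N) (idι f) u = u ≫ f := by
  apply repHom_ext
  intro r
  rw [trA_hom_apply, trR_id_apply]
  rfl

lemma trE2_id (f : X ⟶ Y) (y : E2 N X) :
    trE2 (MonoidHom.id G) (idν N) (idι f) y = (H354.ihomH1Map (stdR N) f).hom y := by
  have h2 : groupCohomology.map (MonoidHom.id G)
      (trIhom (MonoidHom.id G) (trR (MonoidHom.id G) (idν N)) (idι f)) 1 =
      groupCohomology.map (MonoidHom.id G) ((Rep.ihom (stdR N)).map f) 1 := by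
    refine groupCohomology.map_congr rfl (LinearMap.ext fun u => ?_) 1
    refine LinearMap.ext fun r => ?_
    show f.hom ((show (stdR N).V →ₗ[ℤ] X.V from u) ((trR (MonoidHom.id G) (idν N)).hom r)) =
      f.hom ((show (stdR N).V →ₗ[ℤ] X.V from u) r)
    rw [trR_id_apply]
  show (groupCohomology.map (MonoidHom.id G)
      (trIhom (MonoidHom.id G) (trR (MonoidHom.id G) (idν N)) (idι f)) 1).hom y = _
  rw [h2]

end Id

/-! ### Naturality in the coefficients -/

section Nat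

variable (π : G' →* G) {N : Rep.{0} ℤ G} {N' : Rep.{0} ℤ G'} (ν : N' ⟶ Rep.res π N)
variable {X Y : Rep.{0} ℤ G} {X' Y' : Rep.{0} ℤ G'}

lemma trA_natural (f : X ⟶ Y) (f' : X' ⟶ Y') (ιX : Rep.res π X ⟶ X') (ιY : Rep.res π Y ⟶ Y')
    (h : ∀ x : X.V, ιY.hom (f.hom x) = f'.hom (ιX.hom x)) (u : homA N X) :
    trA π ν ιY (u ≫ f) = trA π ν ιX u ≫ f' := by
  apply repHom_ext
  intro r
  show ιY.hom (f.hom (u.hom ((trR π ν).hom r))) = f'.hom (ιX.hom (u.hom ((trR π ν).hom r)))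
  rw [h]

lemma trE2_natural (f : X ⟶ Y) (f' : X' ⟶ Y') (ιX : Rep.res π X ⟶ X')
    (ιY : Rep.res π Y ⟶ Y')
    (h : ∀ x : X.V, ιY.hom (f.hom x) = f'.hom (ιX.hom x)) (y : E2 N X) :
    trE2 π ν ιY ((H354.ihomH1Map (stdR N) f).hom y) =
      (H354.ihomH1Map (stdR N') f').hom (trE2 π ν ιX y) := by
  rw [← trE2_id, ← trE2_id]
  rw [trE2_comp (MonoidHom.id G) π π (idν N) ν ν (idι f) ιY ((Rep.resFunctor π).map f ≫ ιY)
    (fun _ => rfl) (fun _ => rfl) (fun _ => rfl) y]
  rw [trE2_comp π (MonoidHom.id G') π ν (idν N') ν ιX (idι f') ((Rep.resFunctor π).map f ≫ ιY)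
    (fun _ => rfl) (fun _ => rfl) (fun x => h x) y]

end Nat

end

end Fermat.Agent.S55.E1.Lim

end
-- ===== PACK-END S55/E1/Lim/TrLemmas.lean

-- ===== PACK-BEGIN S55/E1/H600/ALG10Edge.lean
section
/-
S55 engine E1 — leaf ALG10E (`ALG10EdgeSpec`): the transition maps `tr` commute with the
connecting map `δ'` and with `incl_*`, hence with the edge map.   (helper600, subtask 480)
-/



set_option autoImplicit false

open CategoryTheory CategoryTheory.Limits

namespace Fermat.Agent.S55.E1.H600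

noncomputable section

section Generic

variable {k G G' : Type} [CommRing k] [Group G] [Group G'] (π : G' →* G)

/-- A morphism of short complexes `S' ⟶ res_π S` (given elementwise) and `ι : res_π X ⟶ X'`
induce a morphism of short complexes `res_π (ihomImageSC S X) ⟶ ihomImageSC S' X'`. -/
def ihomImageSCHom (S : ShortComplex (Rep.{0} k G)) (S' : ShortComplex (Rep.{0} k G'))
    (t₁ : S'.X₁ ⟶ Rep.res π S.X₁) (t₂ : S'.X₂ ⟶ Rep.res π S.X₂) (t₃ : S'.X₃ ⟶ Rep.res π S.X₃)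
    (h₁₂ : ∀ x : S'.X₁.V, S.f.hom (t₁.hom x) = t₂.hom (S'.f.hom x))
    (h₂₃ : ∀ x : S'.X₂.V, S.g.hom (t₂.hom x) = t₃.hom (S'.g.hom x))
    {X : Rep.{0} k G} {X' : Rep.{0} k G'} (ι : Rep.res π X ⟶ X') :
    (ihomImageSC S X).map (Rep.resFunctor π) ⟶ ihomImageSC S' X' where
  τ₁ := trIhom π t₃ ι
  τ₂ := trIhom π t₂ ι
  τ₃ := trImage π S.f S'.f t₁ t₂ ι h₁₂
  comm₁₂ := by
    apply Rep.hom_ext
    apply DFunLike.ext
    intro (φ : S.X₃.V →ₗ[k] X.V)
    apply LinearMap.ext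
    intro x
    change ι.hom (φ (t₃.hom (S'.g.hom x))) = ι.hom (φ (S.g.hom (t₂.hom x)))
    rw [h₂₃]
  comm₂₃ := by
    apply Rep.hom_ext
    apply DFunLike.ext
    intro (ψ : S.X₂.V →ₗ[k] X.V)
    apply Subtype.ext
    apply LinearMap.ext
    intro r
    change ι.hom (ψ (t₂.hom (S'.f.hom r))) = ι.hom (ψ (S.f.hom (t₁.hom r)))
    rw [h₁₂]

/-- `incl ∘ tr = tr ∘ incl` for the image submodules. -/
lemma trImage_incl {A B X : Rep.{0} k G} {A' B' X' : Rep.{0} k G'}
    (a : A ⟶ B) (a' : A' ⟶ B') (tA : A' ⟶ Rep.res π A) (tB : B' ⟶ Rep.res π B)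
    (ι : Rep.res π X ⟶ X') (hsq : ∀ x : A'.V, a.hom (tA.hom x) = tB.hom (a'.hom x)) :
    trImage π a a' tA tB ι hsq ≫ ihomImageIncl a' X' =
      (Rep.resFunctor π).map (ihomImageIncl a X) ≫ trIhom π tA ι := by
  apply Rep.hom_ext
  apply DFunLike.ext
  intro φ
  rfl

end Generic

variable {G G' : Type} [Group G] [Group G'] (π : G' →* G)
variable {N : Rep.{0} ℤ G} {N' : Rep.{0} ℤ G'} (ν : N' ⟶ Rep.res π N)
variable {X : Rep.{0} ℤ G} {X' : Rep.{0} ℤ G'} (ι : Rep.res π X ⟶ X')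

/-- The morphism of short complexes `res_π (edgeSC N X) ⟶ edgeSC N' X'` given by the three
transition maps `φ ↦ ι ∘ φ ∘ ν`, `φ ↦ ι ∘ φ ∘ ρ`, `φ ↦ ι ∘ φ ∘ ρ|_{R'}`. -/
def edgeSCHom : (edgeSC N X).map (Rep.resFunctor π) ⟶ edgeSC N' X' :=
  ihomImageSCHom π (stdSC N) (stdSC N') (trR π ν) (trP π ν) ν
    (fun r => trR_stdι_apply π ν r) (fun x => trP_stdε_apply π ν x) ι

/-- `tr` commutes with the connecting map `δ'`. -/
theorem edgeδ_tr (b : groupCohomology (edgeB N X) 1) :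
    edgeδ N' X' ((groupCohomology.map π (trEdgeB π ν ι) 1).hom b) =
      (groupCohomology.map π (trIhom π ν ι) 2).hom (edgeδ N X b) := by
  have h := H783.δ_naturality_map π (edgeSC_shortExact N X) (edgeSC_shortExact N' X')
    (edgeSCHom π ν ι) 1 2 rfl
  have h' := congrArg (fun f => f.hom b) h
  exact h'.symm

/-- `tr` commutes with `incl_*`. -/
theorem edgeIncl_tr (b : groupCohomology (edgeB N X) 1) :
    edgeIncl N' X' ((groupCohomology.map π (trEdgeB π ν ι) 1).hom b) =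
      trE2 π ν ι (edgeIncl N X b) := by
  have h1 : groupCohomology.map π (trEdgeB π ν ι) 1 ≫
      groupCohomology.map (MonoidHom.id G') (ihomImageIncl (stdι N') X') 1 =
      groupCohomology.map (MonoidHom.id G) (ihomImageIncl (stdι N) X) 1 ≫
        groupCohomology.map π (trIhom π (trR π ν) ι) 1 := by
    rw [← groupCohomology.map_comp, ← groupCohomology.map_comp]
    exact groupCohomology.map_congr rfl rfl 1
  have h' := congrArg (fun f => f.hom b) h1
  exact h'

theorem alg10Edge : ALG10EdgeSpec := by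
  intro G G' _ _ π N N' ν X X' ι b
  exact ⟨edgeδ_tr π ν ι b, edgeIncl_tr π ν ι b⟩

end

end Fermat.Agent.S55.E1.H600

end
-- ===== PACK-END S55/E1/H600/ALG10Edge.lean

-- ===== PACK-BEGIN S55/E1/H603/LocalEdge.lean
section
/-
S55 / engine E1 / block LIM, leaf LIM5 (helper603): the edge relation under change of group.

Pure algebra on top of `E1/SpecAlg3.lean` (ALG9, ALG9a, ALG10Edge, ALG11 are HYPOTHESES):
* `isEdge_zero_left`, `isEdge_unique`, `exists_isEdge` : `IsEdge` is a function (ALG9);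
* `edge_eq_zero_of_inf_eq_zero` : if `inf x = 0` at a higher level satisfying Hilbert 90 then
  `e(x) = 0`  (ALG10Edge + ALG11);
* `exists_cochain_of_edge_eq_zero`, `inf_eq_zero_of_divisible` : if `e(x) = 0` then `inf x = 0`
  at every higher level in which the values of a suitable `φ₀ : R → X` become `p`-divisible
  (ALG9a + ALG10Edge).
No sorry.
-/


set_option autoImplicit false

open CategoryTheory CategoryTheory.Limits groupCohomology

namespace Fermat.Agent.S55.E1.H603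

open Fermat.Agent.S55.E1
open Fermat.Agent.S55.T.H719 (ihomLin)

noncomputable section

variable {G G' : Type} [Group G] [Group G']

/-- `e(0) = 0`. -/
theorem isEdge_zero_left (h9 : ALG9Spec) [Finite G] {N X : Rep.{0} ℤ G} {y : E2 N X}
    (h : IsEdge (0 : groupCohomology ((Rep.ihom N).obj X) 2) y) : y = 0 := by
  obtain ⟨b, hb, rfl⟩ := h
  have hb0 : b = 0 := (h9 G N X).1 (by rw [hb, map_zero])
  rw [hb0, map_zero]

/-- The edge relation is total (ALG9). -/
theorem exists_isEdge (h9 : ALG9Spec) [Finite G] {N X : Rep.{0} ℤ G}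
    (x : groupCohomology ((Rep.ihom N).obj X) 2) : ∃ y : E2 N X, IsEdge x y := by
  obtain ⟨b, hb⟩ := (h9 G N X).2 x
  exact ⟨edgeIncl N X b, b, hb, rfl⟩

/-- The edge relation is functional (ALG9). -/
theorem isEdge_unique (h9 : ALG9Spec) [Finite G] {N X : Rep.{0} ℤ G}
    {x : groupCohomology ((Rep.ihom N).obj X) 2} {y y' : E2 N X}
    (h : IsEdge x y) (h' : IsEdge x y') : y = y' := by
  obtain ⟨b, hb, rfl⟩ := h
  obtain ⟨b', hb', rfl⟩ := h'
  have : b = b' := (h9 G N X).1 (hb.trans hb'.symm)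
  rw [this]

/-- The edge relation is additive. -/
theorem IsEdge.add {N X : Rep.{0} ℤ G} {x x' : groupCohomology ((Rep.ihom N).obj X) 2}
    {y y' : E2 N X} (h : IsEdge x y) (h' : IsEdge x' y') : IsEdge (x + x') (y + y') := by
  obtain ⟨b, rfl, rfl⟩ := h
  obtain ⟨b', rfl, rfl⟩ := h'
  exact ⟨b + b', map_add _ _ _, map_add _ _ _⟩

theorem IsEdge.neg {N X : Rep.{0} ℤ G} {x : groupCohomology ((Rep.ihom N).obj X) 2}
    {y : E2 N X} (h : IsEdge x y) : IsEdge (-x) (-y) := by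
  obtain ⟨b, rfl, rfl⟩ := h
  exact ⟨-b, map_neg _ _, map_neg _ _⟩

theorem isEdge_zero (N X : Rep.{0} ℤ G) :
    IsEdge (0 : groupCohomology ((Rep.ihom N).obj X) 2) (0 : E2 N X) :=
  ⟨0, map_zero _, map_zero _⟩

/-- `incl_*` on classes of cocycles. -/
theorem edgeIncl_H1π {N X : Rep.{0} ℤ G} (β : cocycles₁ (edgeB N X)) :
    edgeIncl N X ((H1π (edgeB N X)).hom β) =
      (H1π ((Rep.ihom (stdR N)).obj X)).hom
        ((mapCocycles₁ (MonoidHom.id G) (ihomImageIncl (stdι N) X)).hom β) := by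
  unfold edgeIncl T.coeffMap
  exact H1π_comp_map_apply (A := edgeB N X) (B := (Rep.ihom (stdR N)).obj X)
    (MonoidHom.id G) (ihomImageIncl (stdι N) X) β

/-- **(⇐)** If `inf x = 0` at a higher level satisfying Hilbert 90, then `e(x) = 0`. -/
theorem edge_eq_zero_of_inf_eq_zero (h9 : ALG9Spec) (h10 : ALG10EdgeSpec) (h11 : ALG11Spec)
    [Finite G'] (π : G' →* G) (hπ : Function.Surjective π)
    (N : Rep.{0} ℤ G) (N' : Rep.{0} ℤ G') (ν : N' ≅ Rep.res π N)
    (X : Rep.{0} ℤ G) (X' : Rep.{0} ℤ G') (ι : Rep.res π X ⟶ X')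
    (hι : Function.Injective ι.hom)
    (hinv : ∀ x' : X'.V, (∀ h ∈ π.ker, X'.ρ h x' = x') → ∃ x : X.V, ι.hom x = x')
    (hH90 : IsZero (groupCohomology (T.resSub X' π.ker) 1))
    {x : groupCohomology ((Rep.ihom N).obj X) 2} {y : E2 N X} (hxy : IsEdge x y)
    (hx : (groupCohomology.map π (trIhom π ν.hom ι) 2).hom x = 0) : y = 0 := by
  have h1 := isEdge_tr_of h10 π ν.hom ι hxy
  rw [hx] at h1
  have h2 : trE2 π ν.hom ι y = 0 := isEdge_zero_left h9 h1
  exact h11 G G' π hπ N N' ν X X' ι hι hinv hH90 (by rw [h2, map_zero])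

/-- **(⇒), step 1.** If `e(x) = 0` then `x = δ'[β]` for a cocycle `β : G → 𝔹` which becomes
the coboundary of some `φ₀` in `Hom_ℤ(R, X)`. -/
theorem exists_cochain_of_edge_eq_zero {N X : Rep.{0} ℤ G}
    {x : groupCohomology ((Rep.ihom N).obj X) 2} (hx : IsEdge x (0 : E2 N X)) :
    ∃ (β : cocycles₁ (edgeB N X)) (φ₀ : ((Rep.ihom (stdR N)).obj X).V),
      edgeδ N X ((H1π (edgeB N X)).hom β) = x ∧
      ∀ g : G, (ihomImageIncl (stdι N) X).hom (β g) =
        ((Rep.ihom (stdR N)).obj X).ρ g φ₀ - φ₀ := by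
  obtain ⟨b, hb, hinc⟩ := hx
  obtain ⟨β, rfl⟩ := (ModuleCat.epi_iff_surjective (H1π (edgeB N X))).1 inferInstance b
  rw [edgeIncl_H1π, H1π_eq_zero_iff] at hinc
  obtain ⟨φ₀, hφ₀⟩ := hinc
  refine ⟨β, φ₀, hb, fun g => ?_⟩
  have := congrFun hφ₀ g
  rw [d₀₁_hom_apply] at this
  exact this.symm

/-- **(⇒), step 2.** In the situation of step 1, `inf x = 0` along every change of group for
which the values of `φ₀` become `p`-divisible. -/
theorem inf_eq_zero_of_divisible (h9a : ALG9aSpec) (h10 : ALG10EdgeSpec) (p : ℕ) (hp : p.Prime)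
    (π : G' →* G) (N : Rep.{0} ℤ G) (N' : Rep.{0} ℤ G') (ν : N' ⟶ Rep.res π N)
    (hN' : ∀ n : N'.V, p • n = 0)
    (X : Rep.{0} ℤ G) (X' : Rep.{0} ℤ G') (ι : Rep.res π X ⟶ X')
    (β : cocycles₁ (edgeB N X)) (φ₀ : ((Rep.ihom (stdR N)).obj X).V)
    (hβ : ∀ g : G, (ihomImageIncl (stdι N) X).hom (β g) =
        ((Rep.ihom (stdR N)).obj X).ρ g φ₀ - φ₀)
    (hdiv : ∀ r : (stdR N).V, ∃ x' : X'.V, ι.hom (ihomLin φ₀ r) = p • x') :
    (groupCohomology.map π (trIhom π ν ι) 2).hom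
      (edgeδ N X ((H1π (edgeB N X)).hom β)) = 0 := by
  -- the transported cochain lies in `𝔹'`
  have hmem : (trIhom π (trR π ν) ι).hom φ₀ ∈ ihomImage (stdι N') X' := by
    apply h9a p hp G' N' X' hN'
    intro r
    exact hdiv ((trR π ν).hom r)
  -- the class of `tr β` vanishes
  have hzero : (groupCohomology.map π (trEdgeB π ν ι) 1).hom ((H1π (edgeB N X)).hom β) = 0 := by
    have h1 : (groupCohomology.map π (trEdgeB π ν ι) 1).hom ((H1π (edgeB N X)).hom β) =
        (H1π (edgeB N' X')).hom ((mapCocycles₁ π (trEdgeB π ν ι)).hom β) :=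
      H1π_comp_map_apply (A := edgeB N X) (B := edgeB N' X') π (trEdgeB π ν ι) β
    rw [h1, H1π_eq_zero_iff]
    let b₀ : (edgeB N' X').V := ⟨(trIhom π (trR π ν) ι).hom φ₀, hmem⟩
    refine ⟨b₀, ?_⟩
    funext g'
    rw [d₀₁_hom_apply]
    apply Subtype.ext
    have hcomm := Rep.hom_comm_apply (trIhom π (trR π ν) ι) g' φ₀
    have hβ' := congrArg (trIhom π (trR π ν) ι).hom (hβ (π g'))
    rw [map_sub] at hβ'
    change ((Rep.ihom (stdR N')).obj X').ρ g' ((trIhom π (trR π ν) ι).hom φ₀) -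
      (trIhom π (trR π ν) ι).hom φ₀ =
      (trIhom π (trR π ν) ι).hom ((ihomImageIncl (stdι N) X).hom (β (π g')))
    rw [hβ', ← hcomm]
    rfl
  obtain ⟨h1, -⟩ := h10 G G' π N N' ν X X' ι ((H1π (edgeB N X)).hom β)
  rw [← h1, hzero, map_zero]

end

end Fermat.Agent.S55.E1.H603

end
-- ===== PACK-END S55/E1/H603/LocalEdge.lean

-- ===== PACK-BEGIN S59/H649/TresStrict.lean
section






/-!
# Row S59, leaf TW-STRICT, part (a): très ramifié ⟹ strict (helper649)

`tresStrict : TresStrictStatement`.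

For `σ ∈ D_P` with matrix `[[X, C], [0, Z]]` in an ordinary basis and cyclotomic exponent `a`
modulo `p ^ n`, put `d = X - a Z`.  If `d ∉ J = (p ^ n) + 𝔪 ^ N`, the additive character
`t ↦ ζ ^ ξ (t̄ w)` of `A / J` factors through multiplication by `d`, say as `Λ`; a Hilbert 90
generator `y` of the inertia cocycle `γ ↦ Λ (Z C_γ)` gives the `P`-unit
`W = (σ⁻¹ y / y) ^ a · Λ (C_σ)`, a Kummer generator of `γ ↦ ζ ^ ξ (ρ̄ γ v - v)`: the residual
representation is peu ramifié.  Hence `d ∈ J` for all `N`, and `d ∈ (p ^ n)` by Krull.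
-/

set_option autoImplicit false
set_option linter.style.haveILetI false
set_option linter.unusedSectionVars false
set_option linter.unusedVariables false

open scoped TensorProduct

namespace Fermat.Agent.S59.H649

attribute [local instance] Fermat.Agent.S55.Bridge.isGalois_Qbar

/-- cyclotomic exponents exist -/
theorem exists_cycExp_h649 (m : ℕ) [NeZero m] (γ : GQ) :
    ∃ a : ℕ, ∀ μ : Qb, μ ^ m = 1 → γ μ = μ ^ a := by
  haveI : NeZero ((m : ℕ) : ℚ) := ⟨Nat.cast_ne_zero.mpr (NeZero.ne m)⟩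
  obtain ⟨ζ, hζ⟩ := HasEnoughRootsOfUnity.exists_primitiveRoot Qb m
  have h1 : (γ ζ) ^ m = 1 := by rw [← map_pow, hζ.pow_eq_one, map_one]
  obtain ⟨a, -, ha⟩ := hζ.eq_pow_of_pow_eq_one h1
  refine ⟨a, fun μ hμ => ?_⟩
  obtain ⟨i, -, rfl⟩ := hζ.eq_pow_of_pow_eq_one hμ
  rw [map_pow, ← ha, ← pow_mul, ← pow_mul, mul_comm]

/-- the decomposition group normalises the inertia group -/
theorem conj_mem_inertiaIn_h649 (P : ValuationSubring Qb) {τ σ : GQ}
    (hτ : τ ∈ P.decompositionSubgroup ℚ) (hσ : σ ∈ P.inertiaSubgroupIn ℚ) :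
    τ * σ * τ⁻¹ ∈ P.inertiaSubgroupIn ℚ := by
  obtain ⟨t, ht, rfl⟩ := hσ
  let d : P.decompositionSubgroup ℚ := ⟨τ, hτ⟩
  have hn : (P.inertiaSubgroup ℚ).Normal := MonoidHom.normal_ker _
  exact ⟨d * t * d⁻¹, hn.conj_mem t ht d, rfl⟩

/-- roots of unity have trivial valuation -/
theorem valuation_eq_one_of_pow_h649 (P : ValuationSubring Qb) {r : Qb} {m : ℕ} (hm : m ≠ 0)
    (hr : r ^ m = 1) : P.valuation r = 1 := by
  have h := congrArg P.valuation hr
  rw [map_pow, map_one] at h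
  exact (pow_eq_one_iff_left hm).mp h

section Residual

variable {A : Type} [CommRing A] [IsLocalRing A] {V : Type} [AddCommGroup V] [Module A V]

/-- `1 ⊗ (x • v) = x̄ • (1 ⊗ v)` -/
theorem one_tmul_smul_h649 (x : A) (v : V) :
    (1 : IsLocalRing.ResidueField A) ⊗ₜ[A] (x • v) =
      IsLocalRing.residue A x • ((1 : IsLocalRing.ResidueField A) ⊗ₜ[A] v) := by
  rw [TensorProduct.tmul_smul, TensorProduct.smul_tmul', TensorProduct.smul_tmul',
    Algebra.smul_def, mul_one, smul_eq_mul, mul_one]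
  rfl

/-- the residual matrix of an ordinary element acting trivially on the quotient and with
`X ≡ 1`: `ḡ v̄ - v̄ = C̄ • β̄ • (1 ⊗ b 0)` -/
theorem baseChange_sub_eq_h649 (b : Module.Basis (Fin 2) A V) {g : V →ₗ[A] V}
    (hg : g (b 0) ∈ Submodule.span A {b 0})
    (hX : IsLocalRing.residue A (cX b g) = 1) (hZ : cZ b g = 1)
    (v : IsLocalRing.ResidueField A ⊗[A] V) :
    g.baseChange (IsLocalRing.ResidueField A) v - v =
      IsLocalRing.residue A (cC b g) •
        ((b.baseChange (IsLocalRing.ResidueField A)).repr v 1 •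
          ((1 : IsLocalRing.ResidueField A) ⊗ₜ[A] b 0)) := by
  set bk := b.baseChange (IsLocalRing.ResidueField A) with hbk
  have hv := bk.sum_repr v
  rw [Fin.sum_univ_two] at hv
  have h0 : bk 0 = (1 : IsLocalRing.ResidueField A) ⊗ₜ[A] b 0 :=
    Module.Basis.baseChange_apply _ _ _
  have h1 : bk 1 = (1 : IsLocalRing.ResidueField A) ⊗ₜ[A] b 1 :=
    Module.Basis.baseChange_apply _ _ _
  have e0 : g.baseChange (IsLocalRing.ResidueField A) (bk 0) = bk 0 := by
    rw [h0, LinearMap.baseChange_tmul, apply_b0 b hg, one_tmul_smul_h649, hX, one_smul]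
  have e1 : g.baseChange (IsLocalRing.ResidueField A) (bk 1) =
      IsLocalRing.residue A (cC b g) • bk 0 + bk 1 := by
    rw [h0, h1, LinearMap.baseChange_tmul, apply_b1 b g, hZ, one_smul, TensorProduct.tmul_add,
      one_tmul_smul_h649]
  conv_lhs => rw [← hv]
  rw [map_add, map_smul, map_smul, e0, e1, ← h0, smul_add, smul_smul, smul_smul, mul_comm]
  abel

end Residual

/-- **Key congruence.**  Residually très ramifié forces `X ≡ a Z` modulo `(p ^ n) + 𝔪 ^ N`. -/
theorem tres_congr_h649 {p : ℕ} [Fact p.Prime] {A : Type} [CommRing A] [IsLocalRing A]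
    [IsNoetherianRing A] [Finite (IsLocalRing.ResidueField A)] (ρ : GaloisRepAdic A)
    (hdet : ρ.DetIsCyclotomic p) (P : ValuationSubring Qb)
    (b : Module.Basis (Fin 2) A ρ.V) (hL : IsOrdLineAt ρ P (Submodule.span A {b 0}))
    (hpeu : ¬ IsPeuAt p ρ.residual P) {σ : GQ} (hσ : σ ∈ P.decompositionSubgroup ℚ)
    (n a : ℕ) (ha : ∀ μ : Qb, μ ^ p ^ n = 1 → σ μ = μ ^ a) (N : ℕ) :
    cX b (ρ.ρ σ) - (a : A) * cZ b (ρ.ρ σ) ∈
      Ideal.span {((p ^ n : ℕ) : A)} ⊔ IsLocalRing.maximalIdeal A ^ N := by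
  classical
  have hp : p.Prime := Fact.out
  haveI : NeZero p := ⟨hp.ne_zero⟩
  haveI : NeZero (p ^ n) := ⟨pow_ne_zero _ hp.ne_zero⟩
  -- trivial cases
  rcases Nat.eq_zero_or_pos n with hn0 | hn
  · subst hn0
    have : Ideal.span {((p ^ 0 : ℕ) : A)} = ⊤ := by
      rw [pow_zero, Nat.cast_one, Ideal.span_singleton_one]
    rw [this, top_sup_eq]
    exact Submodule.mem_top
  rcases Nat.eq_zero_or_pos N with hN0 | hN
  · subst hN0
    rw [pow_zero, Ideal.one_eq_top, sup_top_eq]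
    exact Submodule.mem_top
  by_contra hd
  set J : Ideal A := Ideal.span {((p ^ n : ℕ) : A)} ⊔ IsLocalRing.maximalIdeal A ^ N with hJ
  set d : A := cX b (ρ.ρ σ) - (a : A) * cZ b (ρ.ρ σ) with hd_def
  have hpnJ : ((p ^ n : ℕ) : A) ∈ J :=
    Ideal.mem_sup_left (Ideal.subset_span (Set.mem_singleton _))
  have hmNJ : IsLocalRing.maximalIdeal A ^ N ≤ J := le_sup_right
  have hJm : J ≤ IsLocalRing.maximalIdeal A := by
    refine sup_le ?_ (Ideal.pow_le_self (Nat.pos_iff_ne_zero.mp hN))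
    rw [Ideal.span_singleton_le_iff_mem, Nat.cast_pow]
    exact Ideal.pow_mem_of_mem _ hdet.1 n hn
  -- stability
  have hstab : ∀ τ ∈ P.decompositionSubgroup ℚ, ρ.ρ τ (b 0) ∈ Submodule.span A {b 0} :=
    fun τ hτ => hL.stable τ hτ _ (Submodule.mem_span_singleton_self _)
  have hID : ∀ γ ∈ P.inertiaSubgroupIn ℚ, γ ∈ P.decompositionSubgroup ℚ :=
    fun γ hγ => Fermat.Agent.A2.IF.H429.decomp_of_inertia P hγ
  have hZ1 : ∀ γ ∈ P.inertiaSubgroupIn ℚ, cZ b (ρ.ρ γ) = 1 :=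
    fun γ hγ => cZ_eq_one b (hL.inertia γ hγ (b 1))
  have hXdet : ∀ γ ∈ P.inertiaSubgroupIn ℚ, LinearMap.det (ρ.ρ γ) = cX b (ρ.ρ γ) := by
    intro γ hγ
    rw [det_eq_mul b (hstab γ (hID γ hγ)), hZ1 γ hγ, mul_one]
  -- the failure of peu ramifié
  unfold IsPeuAt at hpeu
  push Not at hpeu
  obtain ⟨ζ, hζ, ξ, vbar, hB⟩ := hpeu
  have hζp : ζ ^ p = 1 := hζ.pow_eq_one
  set w : ρ.residual.V :=
    ((b.baseChange (IsLocalRing.ResidueField A)).repr vbar 1 •
      ((1 : IsLocalRing.ResidueField A) ⊗ₜ[A] b 0) : IsLocalRing.ResidueField A ⊗[A] ρ.V)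
    with hw
  have hres : ∀ γ ∈ P.inertiaSubgroupIn ℚ, γ ζ = ζ →
      ρ.residual.ρ γ vbar - vbar = IsLocalRing.residue A (cC b (ρ.ρ γ)) • w := by
    intro γ hγ hγζ
    have hX1 : IsLocalRing.residue A (cX b (ρ.ρ γ)) = 1 := by
      have h1 : ∀ μ : Qb, μ ^ p ^ 1 = 1 → γ μ = μ ^ 1 := by
        intro μ hμ
        rw [pow_one] at hμ ⊢
        obtain ⟨i, -, rfl⟩ := hζ.eq_pow_of_pow_eq_one hμ
        rw [map_pow, hγζ]
      have h2 := hdet.2 1 γ 1 h1
      rw [hXdet γ hγ, pow_one, Nat.cast_one] at h2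
      have h3 : cX b (ρ.ρ γ) - 1 ∈ IsLocalRing.maximalIdeal A := by
        refine (Ideal.span_singleton_le_iff_mem (I := IsLocalRing.maximalIdeal A)).mpr hdet.1 h2
      have h4 := (IsLocalRing.residue_eq_zero_iff _).mpr h3
      rw [map_sub, map_one, sub_eq_zero] at h4
      exact h4
    exact baseChange_sub_eq_h649 b (hstab γ (hID γ hγ)) hX1 (hZ1 γ hγ) vbar
  -- the finite quotient
  haveI hfinm : Finite (A ⧸ IsLocalRing.maximalIdeal A) :=
    ‹Finite (IsLocalRing.ResidueField A)›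
  haveI hfinN : Finite (A ⧸ IsLocalRing.maximalIdeal A ^ N) :=
    Ideal.finite_quotient_pow (IsNoetherian.noetherian _) N
  haveI hfinJ : Finite (A ⧸ J) :=
    Finite.of_surjective (Ideal.Quotient.factor hmNJ) (Ideal.Quotient.factor_surjective hmNJ)
  let mk : A →+* A ⧸ J := Ideal.Quotient.mk J
  have hmk0 : ∀ t : A, mk t = 0 ↔ t ∈ J := fun t => Ideal.Quotient.eq_zero_iff_mem
  let res' : A ⧸ J →+* IsLocalRing.ResidueField A :=
    Ideal.Quotient.lift J (IsLocalRing.residue A)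
      (fun t ht => (IsLocalRing.residue_eq_zero_iff t).mpr (hJm ht))
  have hres' : ∀ t : A, res' (mk t) = IsLocalRing.residue A t := fun t => rfl
  let ℓ' : A ⧸ J →+ ZMod p :=
    { toFun := fun t => ξ (res' t • w)
      map_zero' := by rw [map_zero, zero_smul, map_zero]
      map_add' := fun s t => by rw [map_add, add_smul, map_add] }
  have hℓ' : ∀ t : A ⧸ J, ℓ' t = ξ (res' t • w) := fun t => rfl
  let Λ₀ : A ⧸ J → Qb := fun t => ζ ^ (ℓ' t).val
  have hΛ₀0 : Λ₀ 0 = 1 := by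
    show ζ ^ (ℓ' 0).val = 1
    rw [map_zero, ZMod.val_zero, pow_zero]
  have hΛ₀add : ∀ s t, Λ₀ (s + t) = Λ₀ s * Λ₀ t := by
    intro s t
    show ζ ^ (ℓ' (s + t)).val = ζ ^ (ℓ' s).val * ζ ^ (ℓ' t).val
    rw [map_add, zeta_pow_val_add_h649 hζp]
  have hker : ∀ t : A ⧸ J, mk d * t = 0 → Λ₀ t = 1 := by
    intro t ht
    obtain ⟨t₀, rfl⟩ := Ideal.Quotient.mk_surjective t
    have h1 : d * t₀ ∈ J := by
      rw [← hmk0, map_mul]
      exact ht
    have h2 : t₀ ∈ IsLocalRing.maximalIdeal A := by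
      by_contra hcon
      have hu : IsUnit t₀ := by
        by_contra hnu
        exact hcon ((IsLocalRing.mem_maximalIdeal _).mpr hnu)
      obtain ⟨u, rfl⟩ := hu
      apply hd
      have := J.mul_mem_right (↑u⁻¹ : A) h1
      rwa [mul_assoc, Units.mul_inv, mul_one] at this
    show ζ ^ (ℓ' (Ideal.Quotient.mk J t₀)).val = 1
    rw [hℓ']
    have h3 : res' (Ideal.Quotient.mk J t₀) = 0 := by
      rw [show res' (Ideal.Quotient.mk J t₀) = IsLocalRing.residue A t₀ from rfl]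
      exact (IsLocalRing.residue_eq_zero_iff t₀).mpr h2
    rw [h3, zero_smul, map_zero, ZMod.val_zero, pow_zero]
  haveI : NeZero ((Monoid.exponent (Multiplicative (A ⧸ J)) : ℕ) : ℚ) :=
    ⟨Nat.cast_ne_zero.mpr Monoid.exponent_ne_zero_of_finite⟩
  obtain ⟨Λ, hΛ0, hΛadd, hΛd⟩ := exists_charFun_mul_h649 (Ω := Qb) (mk d) Λ₀ hΛ₀0 hΛ₀add hker
  -- the cyclotomic exponents
  have hex : ∀ γ : GQ, ∃ e : ℕ, ∀ μ : Qb, μ ^ p ^ n = 1 → γ μ = μ ^ e :=
    fun γ => exists_cycExp_h649 (p ^ n) γ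
  choose e he using hex
  have hm : (((p ^ n : ℕ) : ℕ) : A ⧸ J) = 0 := by
    have := (hmk0 _).mpr hpnJ
    rwa [map_natCast] at this
  have hX : ∀ γ ∈ P.inertiaSubgroupIn ℚ, ∀ a' : ℕ, (∀ μ : Qb, μ ^ p ^ n = 1 → γ μ = μ ^ a') →
      mk (cX b (ρ.ρ γ)) = (a' : A ⧸ J) := by
    intro γ hγ a' ha'
    have h1 := hdet.2 n γ a' ha'
    rw [hXdet γ hγ] at h1
    have h2 : cX b (ρ.ρ γ) - (a' : A) ∈ J := Ideal.mem_sup_left h1
    have h3 := (hmk0 _).mpr h2
    rw [map_sub, map_natCast, sub_eq_zero] at h3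
    exact h3
  let c : GQ → A ⧸ J := fun γ => mk (cC b (ρ.ρ γ))
  have hc : ∀ γ ∈ P.inertiaSubgroupIn ℚ, ∀ γ' ∈ P.inertiaSubgroupIn ℚ,
      c (γ * γ') = (e γ : A ⧸ J) * c γ' + c γ := by
    intro γ hγ γ' hγ'
    show mk (cC b (ρ.ρ (γ * γ'))) = (e γ : A ⧸ J) * mk (cC b (ρ.ρ γ')) + mk (cC b (ρ.ρ γ))
    rw [map_mul, cC_mul b (hstab γ (hID γ hγ)), hZ1 γ' hγ', mul_one, map_add, map_mul,
      hX γ hγ (e γ) (he γ)]
  obtain ⟨E, hEfin, hE⟩ := ρ.isAdicContinuous N
  haveI : FiniteDimensional ℚ E := hEfin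
  have hlev : ∀ τ ∈ P.inertiaSubgroupIn ℚ, (∀ x ∈ E, τ x = x) → c τ = 0 := by
    intro τ _ hτ
    show mk (cC b (ρ.ρ τ)) = 0
    rw [hmk0]
    apply hmNJ
    have h1 := repr_mem_of_mem_smul_top b _ (hE τ hτ (b 1)) 0
    rw [map_sub, Finsupp.sub_apply, Module.Basis.repr_self, Finsupp.single_apply,
      if_neg (by decide), sub_zero] at h1
    exact h1
  have hconj : ∀ γ ∈ P.inertiaSubgroupIn ℚ, σ * γ * σ⁻¹ ∈ P.inertiaSubgroupIn ℚ :=
    fun γ hγ => conj_mem_inertiaIn_h649 P hσ hγ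
  have hcj : ∀ γ ∈ P.inertiaSubgroupIn ℚ,
      mk (cZ b (ρ.ρ σ)) * c (σ * γ * σ⁻¹) =
        mk (cX b (ρ.ρ σ)) * c γ + (1 - (e γ : A ⧸ J)) * mk (cC b (ρ.ρ σ)) := by
    intro γ hγ
    have hγ' := hconj γ hγ
    have h1 : ρ.ρ (σ * γ * σ⁻¹) * ρ.ρ σ = ρ.ρ σ * ρ.ρ γ := by
      rw [← map_mul, ← map_mul]
      congr 1
      group
    have h2 := congrArg (cC b) h1
    rw [cC_mul b (hstab _ (hID _ hγ')), cC_mul b (hstab σ hσ), hZ1 γ hγ, mul_one] at h2
    have h3 := congrArg mk h2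
    rw [RingHom.map_add, RingHom.map_add, RingHom.map_mul, RingHom.map_mul, RingHom.map_mul] at h3
    have hcyc : ∀ μ : Qb, μ ^ p ^ n = 1 → (σ * γ * σ⁻¹) μ = μ ^ (e γ) := by
      intro μ hμ
      have hμ' : (σ⁻¹ μ) ^ p ^ n = 1 := by rw [← map_pow, hμ, map_one]
      show σ (γ (σ⁻¹ μ)) = μ ^ (e γ)
      rw [he γ _ hμ', map_pow]
      congr 1
      show σ (σ.symm μ) = μ
      exact σ.apply_symm_apply μ
    rw [hX _ hγ' (e γ) hcyc] at h3
    show mk (cZ b (ρ.ρ σ)) * mk (cC b (ρ.ρ (σ * γ * σ⁻¹))) =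
      mk (cX b (ρ.ρ σ)) * mk (cC b (ρ.ρ γ)) + (1 - (e γ : A ⧸ J)) * mk (cC b (ρ.ρ σ))
    linear_combination h3
  have hdΛ : ∀ t, Λ ((mk (cX b (ρ.ρ σ)) - (a : A ⧸ J) * mk (cZ b (ρ.ρ σ))) * t) = Λ₀ t := by
    intro t
    rw [← hΛd t, hd_def, map_sub, map_mul, map_natCast]
  obtain ⟨y, hy0, hW⟩ := kummer_core_h649 (K := ℚ) (Ω := Qb) (P.inertiaSubgroupIn ℚ) σ hconj
    (R := A ⧸ J) (p ^ n) a hm ha e he c (mk (cX b (ρ.ρ σ))) (mk (cZ b (ρ.ρ σ)))
    (mk (cC b (ρ.ρ σ))) hc E hlev hcj Λ Λ₀ hΛ0 hΛadd hdΛ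
  -- the valuation of `W`
  have hvW : P.valuation ((σ⁻¹ y / y) ^ a * Λ (mk (cC b (ρ.ρ σ)))) = 1 := by
    have h1 : P.valuation (σ⁻¹ y) = P.valuation y :=
      Fermat.Agent.A2.IF.H429.valuation_map_eq P (inv_mem hσ) y
    have h2 : P.valuation y ≠ 0 := (Valuation.ne_zero_iff _).mpr hy0
    have h3 : P.valuation (Λ (mk (cC b (ρ.ρ σ)))) = 1 :=
      valuation_eq_one_of_pow_h649 P (pow_ne_zero n hp.ne_zero)
        (charFun_pow_eq_one Λ hΛ0 hΛadd hm _)
    rw [map_mul, map_pow, map_div₀, h1, div_self h2, one_pow, one_mul, h3]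
  obtain ⟨γ, hγ, hγζ, hne⟩ := hB _ hvW
  apply hne
  rw [hW γ hγ, hres γ hγ hγζ]
  rfl

/-- **(a) TRÈS ⟹ STRICT.** -/
theorem tresStrict : TresStrictStatement := by
  intro p _ _ A _ _ _ _ ρ hdet P _ L hL hpeu
  obtain ⟨b, rfl⟩ := hL.basis
  intro σ hσ
  have hstab : ρ.ρ σ (b 0) ∈ Submodule.span A {b 0} :=
    hL.stable σ hσ _ (Submodule.mem_span_singleton_self _)
  refine ⟨cX b (ρ.ρ σ), cZ b (ρ.ρ σ), fun w hw => apply_mem_span b hstab hw,
    fun v => apply_sub_smul_mem b hstab v, fun n a ha => ?_⟩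
  exact mem_of_forall_mem_sup_pow_h649 _ _
    (fun N => tres_congr_h649 ρ hdet P b hL hpeu hσ n a ha N)

end Fermat.Agent.S59.H649

end
-- ===== PACK-END S59/H649/TresStrict.lean

-- ===== PACK-BEGIN S41/H744/IharaEigen.lean
section




/-!
# S41, block IH (helper744): `IharaEigenStatement` from `NEKummerStatement`

`iharaEigen_of_neKummer : Spec.NEKummerStatement → Spec.IharaEigenStatement`.

Route (no congruence subgroup property): amalgam (`H585.amalg_ext`) + IH'
(`heckeTransfer_apply_eq_two_nsmul`) + NE' (the hypothesis).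
-/

set_option autoImplicit false
set_option linter.unusedSectionVars false
set_option linter.unusedSimpArgs false

namespace Fermat.Agent.S41.H744

open Matrix CongruenceSubgroup ModularCurve.Period Fermat.Agent.S29.H642 Fermat.Agent.S41.H281
  Fermat.Agent.S41.H585 Fermat.Agent.S41.Spec
open scoped MatrixGroups

/-- **Block IH** from block NE'. -/
theorem iharaEigen_of_neKummer (hNE : Spec.NEKummerStatement) : Spec.IharaEigenStatement := by
  intro E _ W hW p N q hp hp2 hN0 hq hqN hqp hirr φ₁ φ₂ hc₁ hc₂ hker heig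
  have : Fact q.Prime := ⟨hq⟩
  have : Fact p.Prime := ⟨hp⟩
  have hφ₁ : φ₁ = 0 := by
    by_contra hne
    obtain ⟨γ, hγ, hcq⟩ := exists_good_elt hqN φ₁ hc₁.1 hne
    have hc0 : (γ : SL(2, ℤ)) 1 0 ≠ 0 := by
      intro h0
      exact hcq (h0 ▸ dvd_zero _)
    have hn0 : 0 < ((γ : SL(2, ℤ)) 1 0).natAbs := Int.natAbs_pos.mpr hc0
    have hκ0 : 0 < Nat.totient ((γ : SL(2, ℤ)) 1 0).natAbs := Nat.totient_pos.mpr hn0
    have hm0 : 0 < 2 * Nat.totient ((γ : SL(2, ℤ)) 1 0).natAbs * p *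
        ((γ : SL(2, ℤ)) 1 0).natAbs :=
      Nat.mul_pos (Nat.mul_pos (Nat.mul_pos two_pos hκ0) hp.pos) hn0
    obtain ⟨l, hl, hlS, hgood, hlm, hlp, hne', hkum⟩ :=
      hNE E W hW p hp hp2 hirr q hq _ hm0 ((N * q).primeFactors)
    have : Fact l.Prime := ⟨hl⟩
    have hNq0 : N * q ≠ 0 := Nat.mul_ne_zero hN0 hq.ne_zero
    have hlNq : ¬ l ∣ N * q := fun hd => hlS (Nat.mem_primeFactors.mpr ⟨hl, hd, hNq0⟩)
    have hlN : ¬ l ∣ N := fun hd => hlNq (Dvd.dvd.mul_right hd q)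
    have hlq : l ≠ q := fun h => hlNq (h ▸ Dvd.intro_left N rfl)
    have hlp' : l ≠ p := by
      intro h
      rw [h] at hlp
      have h1 : p ∣ p - 1 := (Nat.modEq_iff_dvd' hp.one_le).mp hlp.symm
      have h2 := Nat.le_of_dvd (Nat.sub_pos_of_lt hp.one_lt) h1
      have := hp.one_lt
      omega
    obtain ⟨Φ, hΦ⟩ := exists_Phi
      (Nat.Coprime.symm ((Nat.Prime.coprime_iff_not_dvd hq).mpr hqN)) φ₁ φ₂ hker
    have hu : Φ (Additive.ofMul (j1 N q (uG N 1))) = 0 := by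
      rw [hΦ]; exact hc₁.1 _ (trace_uG 1)
    have hcomp : Φ.comp (MonoidHom.toAdditive (j1 N q)) = φ₁ :=
      AddMonoidHom.ext fun g => hΦ (Additive.toMul g)
    -- the congruences
    have hcdvd : (γ : SL(2, ℤ)) 1 0 ∣ ((((γ : SL(2, ℤ)) 1 0).natAbs : ℕ) : ℤ) :=
      Int.dvd_natAbs.mpr dvd_rfl
    have hlc : (l : ℤ) ≡ 1 [ZMOD (γ : SL(2, ℤ)) 1 0] := by
      have h1 : l ≡ 1 [MOD ((γ : SL(2, ℤ)) 1 0).natAbs] := hlm.of_dvd (Dvd.intro_left _ rfl)
      have h2 := Int.natCast_modEq_iff.mpr h1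
      exact_mod_cast h2.of_dvd hcdvd
    have hκ : (q : ℤ) ^ (2 * Nat.totient ((γ : SL(2, ℤ)) 1 0).natAbs) ≡ 1
        [ZMOD (γ : SL(2, ℤ)) 1 0] := by
      have hcop : Nat.Coprime q ((γ : SL(2, ℤ)) 1 0).natAbs :=
        (Nat.Prime.coprime_iff_not_dvd hq).mpr fun h => hcq (Int.natCast_dvd.mpr h)
      have h1 := Nat.ModEq.pow_totient hcop
      have h2 : q ^ (2 * Nat.totient ((γ : SL(2, ℤ)) 1 0).natAbs) ≡ 1
          [MOD ((γ : SL(2, ℤ)) 1 0).natAbs] := by
        have := h1.pow 2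
        rwa [← pow_mul, one_pow, mul_comm] at this
      have h3 := Int.natCast_modEq_iff.mpr h2
      exact_mod_cast h3.of_dvd hcdvd
    have hord : p ∣ orderOf ((q : ZMod l) ^ (2 * Nat.totient ((γ : SL(2, ℤ)) 1 0).natAbs)) := by
      refine dvd_orderOf_of_kummer hp hlq ?_ hkum
      have h1 : 2 * Nat.totient ((γ : SL(2, ℤ)) 1 0).natAbs * p *
          ((γ : SL(2, ℤ)) 1 0).natAbs ∣ l - 1 := (Nat.modEq_iff_dvd' hl.one_le).mp hlm.symm
      exact dvd_trans (Dvd.intro _ rfl) h1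
    have key := heckeTransfer_apply_eq_two_nsmul p (hp.odd_of_ne_two hp2)
      (fun x : ZMod p => by simp) hlN hlq Φ hu γ _ hlc hκ hord
    rw [hcomp, hΦ, (heig l hlN hlNq hgood hlp').1] at key
    -- `a_l φ₁(γ) = 2 φ₁(γ)` in `ZMod p`
    have h2 : ((W.apOfModel l : ℤ) : ZMod p) = 2 := by
      have h3 : ((W.apOfModel l : ℤ) : ZMod p) * φ₁ (Additive.ofMul γ) =
          2 * φ₁ (Additive.ofMul γ) := by
        rw [AddMonoidHom.smul_apply, smul_eq_mul, two_nsmul] at key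
        rw [key]; ring
      exact mul_right_cancel₀ hγ h3
    apply hne'
    rw [← ZMod.intCast_zmod_eq_zero_iff_dvd]
    have hl1 : ((l : ℕ) : ZMod p) = 1 := by
      have := (ZMod.natCast_eq_natCast_iff l 1 p).mpr hlp
      simpa using this
    push_cast
    rw [h2, hl1]; ring
  refine ⟨hφ₁, ?_⟩
  rw [hφ₁] at hker
  have h0 : r₂ N q φ₂ = 0 := by
    have : r₁ N q (0 : Additive (Gamma0 N) →+ ZMod p) = 0 := AddMonoidHom.zero_comp _
    rw [this, zero_add] at hker
    exact hker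
  exact eq_zero_of_r₂_eq_zero φ₂ hc₂.1 h0

end Fermat.Agent.S41.H744

end
-- ===== PACK-END S41/H744/IharaEigen.lean

-- ===== PACK-BEGIN S38/H681/GLevel.lean
section



/-!
# Row HARD, cell HECKE, leaf IA-FREE: the level structure of a family of primes (helper681)

Generic-index versions (family `qq : ι → ℕ`, `ι` a finite type; vocabulary `gLevel`, `gRed`,
`gChi`, `gKappa`, `GDelta` of `S38/IA/Hecke/Spec3.lean`) of the facts known for `Fin r`-indexed
families (`S59/TW/Aut/SkelLemmas.lean`, `S59/TW/Aut/H762`):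

* `h681_gRed_surjective`, `h681_gKappa_surjective` (Chinese remainder theorem);
* `h681_isPGroup_gDelta`, `h681_card_gDelta` (`Δ` is a finite `p`-group);
* `h681_gKappa_of_d_eq_one` (`κ` is trivial on `{d ≡ 1}`);
* `h681_gEpsIdx_bijective` (the exponent tuples enumerate `Δ`).
-/

set_option autoImplicit false

open CongruenceSubgroup
open scoped MatrixGroups

namespace Fermat.Agent.S38.H681

open Fermat.Agent.S59.TW.H653 Fermat.Agent.S59.TW.Aut Fermat.Agent.S38.IA.Hecke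

section G

variable (p N₀ : ℕ) {ι : Type} [Fintype ι] (qq : ι → ℕ)

theorem h681_gRed_apply (u : (ZMod (gLevel N₀ qq))ˣ) (s : ι) :
    gRed N₀ qq u s = ZMod.unitsMap (dvd_gLevel N₀ qq s) u := rfl

theorem h681_gLevel_ne_zero (hN₀ : N₀ ≠ 0) (hprime : ∀ s, (qq s).Prime) :
    gLevel N₀ qq ≠ 0 :=
  Nat.mul_ne_zero hN₀ (Finset.prod_ne_zero_iff.mpr fun s _ => (hprime s).ne_zero)

/-- `(ℤ/M)ˣ → ∏ (ℤ/qq s)ˣ` is onto. -/
theorem h681_gRed_surjective (hN₀ : N₀ ≠ 0) (hinj : Function.Injective qq)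
    (hprime : ∀ s, (qq s).Prime) : Function.Surjective (gRed N₀ qq) := by
  intro a
  have hcop : Pairwise (Function.onFun Nat.Coprime qq) := by
    intro i j hij
    exact (Nat.coprime_primes (hprime i) (hprime j)).mpr fun h => hij (hinj h)
  have hM : NeZero (gLevel N₀ qq) := ⟨h681_gLevel_ne_zero N₀ qq hN₀ hprime⟩
  have hPM : (∏ s, qq s) ∣ gLevel N₀ qq := Dvd.intro_left _ rfl
  set e := ZMod.prodEquivPi qq hcop with he
  set x : ZMod (∏ s, qq s) := e.symm (fun s => ((a s : (ZMod (qq s))ˣ) : ZMod (qq s))) with hx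
  set y : ZMod (∏ s, qq s) := e.symm (fun s => ((a s)⁻¹ : (ZMod (qq s))ˣ)) with hy
  have hxy : x * y = 1 := by
    rw [hx, hy, ← map_mul]
    have : ((fun s => ((a s : (ZMod (qq s))ˣ) : ZMod (qq s))) *
        fun s => (((a s)⁻¹ : (ZMod (qq s))ˣ) : ZMod (qq s))) = 1 := by
      funext s
      simp
    rw [this, map_one]
  obtain ⟨u, hu⟩ := ZMod.unitsMap_surjective hPM (Units.mkOfMulEqOne x y hxy)
  refine ⟨u, ?_⟩
  funext s
  apply Units.ext
  rw [h681_gRed_apply]
  have h1 : ZMod.unitsMap (dvd_gLevel N₀ qq s) u =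
      ZMod.unitsMap (Finset.dvd_prod_of_mem qq (Finset.mem_univ s)) (ZMod.unitsMap hPM u) := by
    rw [← MonoidHom.comp_apply, ZMod.unitsMap_comp]
  rw [h1, hu]
  show ZMod.castHom (Finset.dvd_prod_of_mem qq (Finset.mem_univ s)) (ZMod (qq s)) x = _
  rw [← ZMod.prodEquivPi_apply qq hcop x s, ← he, hx, RingEquiv.apply_symm_apply]

/-- `gChi` is onto. -/
theorem h681_gChi_surjective (hred : Function.Surjective (gRed N₀ qq)) :
    Function.Surjective (gChi p N₀ qq) := by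
  unfold gChi
  exact (QuotientGroup.mk'_surjective _).comp hred

/-- `κ : Γ₀(M) → Δ` is onto. -/
theorem h681_gKappa_surjective [NeZero (gLevel N₀ qq)]
    (hred : Function.Surjective (gRed N₀ qq)) : Function.Surjective (gKappa p N₀ qq) := by
  unfold gKappa
  exact (h681_gChi_surjective p N₀ qq hred).comp dUnit_surjective

theorem h681_gKappa_apply (g : Gamma0 (gLevel N₀ qq)) :
    gKappa p N₀ qq g = gChi p N₀ qq (dUnit (gLevel N₀ qq) g) := rfl

theorem h681_gChi_apply (u : (ZMod (gLevel N₀ qq))ˣ) :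
    gChi p N₀ qq u = QuotientGroup.mk (gRed N₀ qq u) := rfl

/-- `κ` is trivial on the elements with `d ≡ 1` modulo `M`. -/
theorem h681_gKappa_of_d_eq_one (γ : Gamma0 (gLevel N₀ qq))
    (h : ((((γ : SL(2, ℤ)) 1 1 : ℤ)) : ZMod (gLevel N₀ qq)) = 1) : gKappa p N₀ qq γ = 1 := by
  have h1 : dUnit (gLevel N₀ qq) γ = 1 := by
    apply Units.ext
    rw [coe_dUnit, h, Units.val_one]
  rw [h681_gKappa_apply, h1, map_one]

omit [Fintype ι] in
theorem h681_mem_gPowSub_iff (a : ∀ s : ι, (ZMod (qq s))ˣ) :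
    a ∈ gPowSub p qq ↔ ∀ s, ∃ u : (ZMod (qq s))ˣ, u ^ (p ^ padicValNat p (qq s - 1)) = a s := by
  unfold gPowSub
  rw [Subgroup.mem_pi]
  constructor
  · intro h s
    obtain ⟨u, hu⟩ := h s (Set.mem_univ s)
    exact ⟨u, hu⟩
  · intro h s _
    obtain ⟨u, hu⟩ := h s
    exact ⟨u, hu⟩

/-- `Δ` is a `p`-group. -/
theorem h681_isPGroup_gDelta : IsPGroup p (GDelta p qq) := by
  intro d
  obtain ⟨a, rfl⟩ := QuotientGroup.mk_surjective d
  refine ⟨∑ s, padicValNat p (qq s - 1), ?_⟩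
  rw [← QuotientGroup.mk_pow, QuotientGroup.eq_one_iff, h681_mem_gPowSub_iff]
  intro s
  have hle : padicValNat p (qq s - 1) ≤ ∑ s, padicValNat p (qq s - 1) :=
    Finset.single_le_sum (f := fun s => padicValNat p (qq s - 1)) (fun _ _ => Nat.zero_le _)
      (Finset.mem_univ s)
  refine ⟨a s ^ (p ^ ((∑ s, padicValNat p (qq s - 1)) - padicValNat p (qq s - 1))), ?_⟩
  rw [Pi.pow_apply, ← pow_mul, ← pow_add, Nat.sub_add_cancel hle]

instance h681_finite_gDelta : Finite (GDelta p qq) := inferInstance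

/-- `Δ` has `p`-power order. -/
theorem h681_card_gDelta [Fact p.Prime] : ∃ a : ℕ, Nat.card (GDelta p qq) = p ^ a :=
  IsPGroup.iff_card.mp (h681_isPGroup_gDelta p qq)

/-! ## The exponent tuples enumerate `Δ` -/

/-- The index map `e ↦ class of (g s ^ e s)_s`. -/
def gEpsIdx (g : ∀ s : ι, (ZMod (qq s))ˣ)
    (e : ∀ s : ι, Fin (p ^ padicValNat p (qq s - 1))) : GDelta p qq :=
  QuotientGroup.mk (fun s => g s ^ (e s : ℕ))

theorem h681_gEpsIdx_injective [Fact p.Prime] (hprime : ∀ s, (qq s).Prime)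
    (g : ∀ s : ι, (ZMod (qq s))ˣ) (hg : ∀ s, orderOf (g s) = qq s - 1) :
    Function.Injective (gEpsIdx p qq g) := by
  intro e e' h
  unfold gEpsIdx at h
  rw [QuotientGroup.eq, h681_mem_gPowSub_iff] at h
  funext j
  obtain ⟨u, hu⟩ := h j
  obtain ⟨k, rfl⟩ :=
    Fermat.Agent.S59.TW.Aut.H762.exists_pow_eq_of_orderOf (hprime j) (hg j) u
  have h1 : g j ^ (k * p ^ padicValNat p (qq j - 1) + (e j : ℕ)) = g j ^ (e' j : ℕ) := by
    rw [pow_add, pow_mul, hu]
    simp
  rw [pow_eq_pow_iff_modEq, hg j] at h1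
  have hdvd : p ^ padicValNat p (qq j - 1) ∣ qq j - 1 := pow_padicValNat_dvd
  have h2 : (k * p ^ padicValNat p (qq j - 1) + (e j : ℕ)) ≡ (e' j : ℕ)
      [MOD p ^ padicValNat p (qq j - 1)] := h1.of_dvd hdvd
  have h3 : ((e j : ℕ)) ≡ (e' j : ℕ) [MOD p ^ padicValNat p (qq j - 1)] := by
    have h4 : (k * p ^ padicValNat p (qq j - 1) + (e j : ℕ)) ≡ (e j : ℕ)
        [MOD p ^ padicValNat p (qq j - 1)] := by
      unfold Nat.ModEq
      rw [Nat.mul_add_mod_of_lt (e j).2]
      exact (Nat.mod_eq_of_lt (e j).2).symm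
    exact h4.symm.trans h2
  apply Fin.ext
  unfold Nat.ModEq at h3
  rw [Nat.mod_eq_of_lt (e j).2, Nat.mod_eq_of_lt (e' j).2] at h3
  exact h3

theorem h681_gEpsIdx_surjective [hp : Fact p.Prime] (hprime : ∀ s, (qq s).Prime)
    (g : ∀ s : ι, (ZMod (qq s))ˣ) (hg : ∀ s, orderOf (g s) = qq s - 1) :
    Function.Surjective (gEpsIdx p qq g) := by
  intro d
  obtain ⟨a, rfl⟩ := QuotientGroup.mk_surjective d
  have hk : ∀ j, ∃ k : ℕ, g j ^ k = a j := fun j =>
    Fermat.Agent.S59.TW.Aut.H762.exists_pow_eq_of_orderOf (hprime j) (hg j) (a j)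
  choose k hk using hk
  have hpos : ∀ j, 0 < p ^ padicValNat p (qq j - 1) := fun j => pow_pos hp.out.pos _
  refine ⟨fun j => ⟨k j % p ^ padicValNat p (qq j - 1), Nat.mod_lt _ (hpos j)⟩, ?_⟩
  unfold gEpsIdx
  rw [QuotientGroup.eq, h681_mem_gPowSub_iff]
  intro j
  refine ⟨g j ^ (k j / p ^ padicValNat p (qq j - 1)), ?_⟩
  show _ = ((fun j => g j ^ (k j % p ^ padicValNat p (qq j - 1)))⁻¹ * a) j
  rw [Pi.mul_apply, Pi.inv_apply, ← hk j, ← pow_mul, eq_inv_mul_iff_mul_eq, ← pow_add]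
  congr 1
  rw [mul_comm]
  exact Nat.mod_add_div _ _

theorem h681_gEpsIdx_bijective [Fact p.Prime] (hprime : ∀ s, (qq s).Prime)
    (g : ∀ s : ι, (ZMod (qq s))ˣ) (hg : ∀ s, orderOf (g s) = qq s - 1) :
    Function.Bijective (gEpsIdx p qq g) :=
  ⟨h681_gEpsIdx_injective p qq hprime g hg, h681_gEpsIdx_surjective p qq hprime g hg⟩

end G

end Fermat.Agent.S38.H681

end
-- ===== PACK-END S38/H681/GLevel.lean

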