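import Mathlib
import Fermat.Prelude.Def_AlgebraicCurve_DivisorPushPull
import Fermat.Prelude.Def_AlgebraicCurve_Correspondence
import Fermat.Agent.Pack.S59C.E4L3
import Fermat.Agent.Pack.S59C.E4L0
import Fermat.Agent.Pack.S59C.E3L3
import Fermat.Agent.Pack.S59C.E2L0
import Fermat.Agent.Pack.S44C.G0E6L0
import Fermat.Agent.Pack.S43GC.G0E15L1
import Fermat.Agent.Pack.S43GC.G0E15L2
import Fermat.Agent.Pack.S43MC.G0E16L0
import Fermat.Agent.Pack.S43MC.G0E6L0
import Fermat.Agent.Pack.S44C.G0E18L0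
import Fermat.Agent.Pack.S44C.G0E19L2
import Fermat.Agent.Pack.S43C.E0L0
import Fermat.Agent.Pack.S43MC.G0E14L0
import Fermat.Agent.Pack.S43C.E0L2
import Fermat.Agent.Pack.S44C.G1E0L0
import Fermat.Agent.Pack.S44C.G0E7L1
import Fermat.Agent.Pack.S44C.G0E17L1
import Fermat.Agent.Pack.S44C.G0E20L1

set_option linter.all false

-- ===== PACK-BEGIN S59/H427/Structure.lean
section


/-!
# S59 / N1 (helper427): adapted generators of the augmentation ideal

For a finite algebra `T` over a DVR `𝒪` with augmentation `π` and finite cotangent module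
`Φ = 𝔭 / 𝔭 ^ 2`, there is an `𝒪`-spanning family `x` of `𝔭 = ker π` with diagonal relations
`d i • x i ∈ 𝔭 ^ 2` such that `#(𝒪 / ∏ d i) = #Φ` (structure theorem over a PID).
-/

set_option autoImplicit false
set_option linter.unusedSectionVars false
open IsLocalRing

namespace Fermat.Agent.S59.H427

universe u v

section Card
variable {𝒪 : Type u} [CommRing 𝒪] [IsDomain 𝒪] [IsDiscreteValuationRing 𝒪]

theorem card_quot_maximalIdeal_pow (E : ℕ) :
    Nat.card (𝒪 ⧸ (maximalIdeal 𝒪) ^ E) = Nat.card (𝒪 ⧸ maximalIdeal 𝒪) ^ E := by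
  have h := cardQuot_pow_of_prime (P := maximalIdeal 𝒪)
    (IsDiscreteValuationRing.not_a_field 𝒪) (i := E)
  simpa [Submodule.cardQuot_apply] using h

theorem span_irreducible_pow {p : 𝒪} (hp : Irreducible p) (e : ℕ) :
    Ideal.span {p ^ e} = maximalIdeal 𝒪 ^ e := by
  rw [← Ideal.span_singleton_pow, ← (IsDiscreteValuationRing.irreducible_iff_uniformizer p).mp hp]

/-- A finite module over a DVR is torsion. -/
theorem isTorsion_of_finite {M : Type*} [AddCommGroup M] [Module 𝒪 M] [Finite M] :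
    Module.IsTorsion 𝒪 M := by
  intro x
  obtain ⟨ϖ, hϖ⟩ := IsDiscreteValuationRing.exists_irreducible 𝒪
  obtain ⟨k, l, hkl, he⟩ := Finite.exists_ne_map_eq_of_infinite (fun n : ℕ => ϖ ^ n • x)
  have hne : ϖ ^ k - ϖ ^ l ≠ 0 := by
    intro h0
    exact hkl (pow_injective_of_not_isUnit hϖ.not_isUnit hϖ.ne_zero (sub_eq_zero.mp h0))
  refine ⟨⟨ϖ ^ k - ϖ ^ l, mem_nonZeroDivisors_of_ne_zero hne⟩, ?_⟩
  show (ϖ ^ k - ϖ ^ l) • x = 0
  rw [sub_smul, sub_eq_zero]
  exact he

/-- Generators and diagonal relations of a finite module over a DVR, with the order formula. -/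
theorem exists_generators_of_finite {M : Type v} [AddCommGroup M] [Module 𝒪 M] [Finite M] :
    ∃ (κ : Type u) (_ : Fintype κ) (g : κ → M) (d : κ → 𝒪),
      (∀ m : M, ∃ c : κ → 𝒪, m = ∑ i, c i • g i) ∧ (∀ i, d i • g i = 0) ∧ (∏ i, d i ≠ 0) ∧
      Nat.card (𝒪 ⧸ Ideal.span {∏ i, d i}) = Nat.card M := by
  classical
  have : Module.Finite 𝒪 M := Module.Finite.of_finite
  obtain ⟨κ, hκ, p, hp, e, ⟨E₀⟩⟩ :=
    Module.equiv_directSum_of_isTorsion (R := 𝒪) (M := M) isTorsion_of_finite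
  let E : M ≃ₗ[𝒪] (∀ i : κ, 𝒪 ⧸ Ideal.span {p i ^ e i}) :=
    E₀.trans (DirectSum.linearEquivFunOnFintype 𝒪 κ fun i => 𝒪 ⧸ Ideal.span {p i ^ e i})
  refine ⟨κ, hκ, fun i => E.symm (Pi.single i (Ideal.Quotient.mk _ 1)), fun i => p i ^ e i,
    ?_, ?_, ?_, ?_⟩
  · intro m
    have h1 : ∀ i, ∃ c : 𝒪, E m i = Ideal.Quotient.mk _ c := fun i =>
      (Ideal.Quotient.mk_surjective (E m i)).imp fun c hc => hc.symm
    choose c hc using h1
    refine ⟨c, ?_⟩
    apply E.injective
    rw [map_sum]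
    simp only [map_smul, LinearEquiv.apply_symm_apply]
    funext i
    rw [Finset.sum_apply, hc i]
    rw [Finset.sum_eq_single i]
    · simp only [Pi.smul_apply, Pi.single_eq_same]
      rw [Algebra.smul_def]
      simp
    · intro j _ hji
      simp [Ne.symm hji]
    · intro h
      exact absurd (Finset.mem_univ i) h
  · intro i
    rw [← map_smul]
    have : (p i ^ e i) • (Pi.single i (Ideal.Quotient.mk (Ideal.span {p i ^ e i}) 1) :
        ∀ i : κ, 𝒪 ⧸ Ideal.span {p i ^ e i}) = 0 := by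
      rw [← Pi.single_smul]
      have : (p i ^ e i) • (Ideal.Quotient.mk (Ideal.span {p i ^ e i}) 1) = 0 := by
        rw [Algebra.smul_def, map_one, mul_one]
        exact Ideal.Quotient.eq_zero_iff_mem.mpr (Ideal.mem_span_singleton_self _)
      rw [this, Pi.single_zero]
    rw [this, map_zero]
  · exact Finset.prod_ne_zero_iff.mpr fun i _ => pow_ne_zero _ (hp i).ne_zero
  · have h1 : Ideal.span {∏ i, p i ^ e i} = maximalIdeal 𝒪 ^ (∑ i, e i) := by
      rw [← Ideal.prod_span_singleton, ← Finset.prod_pow_eq_pow_sum]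
      exact Finset.prod_congr rfl fun i _ => span_irreducible_pow (hp i) (e i)
    rw [h1, card_quot_maximalIdeal_pow, Nat.card_congr E.toEquiv, Nat.card_pi,
      ← Finset.prod_pow_eq_pow_sum]
    refine Finset.prod_congr rfl fun i _ => ?_
    rw [span_irreducible_pow (hp i) (e i), card_quot_maximalIdeal_pow]

/-- **Adapted generators of the augmentation ideal.** -/
theorem exists_diag_relations {T : Type v} [CommRing T] [Algebra 𝒪 T] [Module.Finite 𝒪 T]
    (π : T →ₐ[𝒪] 𝒪) [Finite (RingHom.ker (π : T →+* 𝒪)).Cotangent] :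
    ∃ (ι : Type u) (_ : Fintype ι) (x : ι → T) (d : ι → 𝒪),
      (∀ i, π (x i) = 0) ∧ (∀ t, π t = 0 → t ∈ Submodule.span 𝒪 (Set.range x)) ∧
      (∀ i, d i • x i ∈ RingHom.ker (π : T →+* 𝒪) ^ 2) ∧ (∏ i, d i ≠ 0) ∧
      Nat.card (𝒪 ⧸ Ideal.span {∏ i, d i}) =
        Nat.card (RingHom.ker (π : T →+* 𝒪)).Cotangent := by
  classical
  set 𝔭 : Ideal T := RingHom.ker (π : T →+* 𝒪) with h𝔭
  have mem𝔭 : ∀ t : T, t ∈ 𝔭 ↔ π t = 0 := fun t => Iff.rfl
  obtain ⟨κ, hκ, g, d, hgen, hrel, hprod, hcard⟩ :=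
    exists_generators_of_finite (𝒪 := 𝒪) (M := 𝔭.Cotangent)
  choose xκ hxκ using fun i => 𝔭.toCotangent_surjective (g i)
  -- generators of `𝔭 ^ 2` over `𝒪`
  have hnoeth : IsNoetherian 𝒪 T := isNoetherian_of_isNoetherianRing_of_finite 𝒪 T
  have hfg : ((𝔭 ^ 2).restrictScalars 𝒪).FG := IsNoetherian.noetherian _
  obtain ⟨n, z, hz⟩ := Submodule.fg_iff_exists_fin_generating_family.mp hfg
  have hzmem : ∀ j, z j ∈ 𝔭 ^ 2 := by
    intro j
    have : z j ∈ (𝔭 ^ 2).restrictScalars 𝒪 := by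
      rw [← hz]; exact Submodule.subset_span ⟨j, rfl⟩
    exact this
  have hsq_le : 𝔭 ^ 2 ≤ 𝔭 := Ideal.pow_le_self two_ne_zero
  have hsmul : ∀ (c : 𝒪) (y : 𝔭), 𝔭.toCotangent (c • y) = c • 𝔭.toCotangent y :=
    fun c y => LinearMap.map_smul_of_tower _ c y
  refine ⟨κ ⊕ Fin n, inferInstance, Sum.elim (fun i => (xκ i : T)) z,
    Sum.elim d (fun _ => 1), ?_, ?_, ?_, ?_, ?_⟩
  · rintro (i | j)
    · exact (mem𝔭 _).mp (xκ i).2
    · exact (mem𝔭 _).mp (hsq_le (hzmem j))
  · intro t ht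
    obtain ⟨c, hc⟩ := hgen (𝔭.toCotangent ⟨t, (mem𝔭 t).mpr ht⟩)
    have h1 : 𝔭.toCotangent ⟨t, (mem𝔭 t).mpr ht⟩ = 𝔭.toCotangent (∑ i, c i • xκ i) := by
      rw [hc, map_sum]
      exact Finset.sum_congr rfl fun i _ => by rw [hsmul, hxκ]
    rw [Ideal.toCotangent_eq] at h1
    have h2 : t - ∑ i, c i • (xκ i : T) ∈ Submodule.span 𝒪 (Set.range z) := by
      rw [hz]
      show t - ∑ i, c i • (xκ i : T) ∈ 𝔭 ^ 2
      convert h1 using 2
      simp
    have h3 : Set.range z ⊆ Set.range (Sum.elim (fun i => (xκ i : T)) z) := by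
      rintro _ ⟨j, rfl⟩
      exact ⟨Sum.inr j, rfl⟩
    have h4 : t = (t - ∑ i, c i • (xκ i : T)) + ∑ i, c i • (xκ i : T) := by ring
    rw [h4]
    refine Submodule.add_mem _ (Submodule.span_mono h3 h2) (Submodule.sum_mem _ fun i _ => ?_)
    exact Submodule.smul_mem _ _ (Submodule.subset_span ⟨Sum.inl i, rfl⟩)
  · rintro (i | j)
    · simp only [Sum.elim_inl]
      have h1 : 𝔭.toCotangent (d i • xκ i) = 0 := by rw [hsmul, hxκ, hrel]
      rw [Ideal.toCotangent_eq_zero] at h1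
      exact h1
    · simp only [Sum.elim_inr, one_smul]
      exact hzmem j
  · rw [Fintype.prod_sum_type]
    simpa using hprod
  · rw [Fintype.prod_sum_type]
    simpa using hcard

end Card
end Fermat.Agent.S59.H427

end
-- ===== PACK-END S59/H427/Structure.lean

-- ===== PACK-BEGIN S59/H427/Numerical.lean
section


/-!
# S59 / N1 (helper427): the Wiles–Lenstra numerical criterion

`𝒪` a discrete valuation ring, `R` a Noetherian local `𝒪`-algebra, `T` a finite free
`𝒪`-algebra, `φ : R ↠ T` a surjective `𝒪`-algebra map and `π : T → 𝒪` an augmentation.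
With `𝔭_R = ker (π ∘ φ)`, `Φ_R = 𝔭_R / 𝔭_R ^ 2` and `η_T = π (Ann_T (ker π))`:

  if `Φ_R` is finite and `#Φ_R ≤ #(𝒪 / η_T)`, then `φ` is an isomorphism.

No completeness assumption is needed.
-/

set_option autoImplicit false
set_option linter.unusedSectionVars false

namespace Fermat.Agent.S59.H427

open IsLocalRing

universe u v w

variable {𝒪 : Type u} [CommRing 𝒪] [IsDomain 𝒪] [IsDiscreteValuationRing 𝒪]
variable {R : Type w} [CommRing R] [Algebra 𝒪 R] [IsLocalRing R] [IsNoetherianRing R]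
variable {T : Type v} [CommRing T] [Algebra 𝒪 T] [Module.Free 𝒪 T] [Module.Finite 𝒪 T]

/-- **Wiles–Lenstra numerical criterion** (Mathlib-only statement), with the resulting
equality `#Φ_R = #(𝒪 / η_T)`. -/
theorem numerical_criterion_full (φ : R →ₐ[𝒪] T) (hφ : Function.Surjective φ) (π : T →ₐ[𝒪] 𝒪)
    [Finite (RingHom.ker ((π.comp φ : R →ₐ[𝒪] 𝒪) : R →+* 𝒪)).Cotangent]
    (hcard : Nat.card (RingHom.ker ((π.comp φ : R →ₐ[𝒪] 𝒪) : R →+* 𝒪)).Cotangent ≤
      Nat.card (𝒪 ⧸ Ideal.map (π : T →+* 𝒪)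
        (Submodule.annihilator (RingHom.ker (π : T →+* 𝒪))))) :
    Function.Bijective φ ∧
      Nat.card (RingHom.ker ((π.comp φ : R →ₐ[𝒪] 𝒪) : R →+* 𝒪)).Cotangent =
        Nat.card (𝒪 ⧸ Ideal.map (π : T →+* 𝒪)
          (Submodule.annihilator (RingHom.ker (π : T →+* 𝒪)))) := by
  classical
  refine ⟨⟨?_, hφ⟩, ?_⟩
  swap
  · -- the equality of cardinalities is re-derived below; here we only need `≥`
    refine le_antisymm hcard ?_
    set 𝔭R : Ideal R := RingHom.ker ((π.comp φ : R →ₐ[𝒪] 𝒪) : R →+* 𝒪) with h𝔭R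
    set 𝔭T : Ideal T := RingHom.ker (π : T →+* 𝒪) with h𝔭T
    set η : Ideal 𝒪 := Ideal.map (π : T →+* 𝒪) (Submodule.annihilator 𝔭T) with hη
    have mem𝔭T : ∀ t : T, t ∈ 𝔭T ↔ π t = 0 := fun t => Iff.rfl
    have hle : 𝔭R ≤ 𝔭T.comap φ := fun r hr => hr
    let mapCot : 𝔭R.Cotangent →ₗ[𝒪] 𝔭T.Cotangent := Ideal.mapCotangent 𝔭R 𝔭T φ hle
    have hmapCot : ∀ r : 𝔭R, mapCot (𝔭R.toCotangent r) = 𝔭T.toCotangent ⟨φ r, hle r.2⟩ :=
      fun r => Ideal.mapCotangent_toCotangent 𝔭R 𝔭T φ hle r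
    have hsurj : Function.Surjective mapCot := by
      intro y
      obtain ⟨⟨t, ht⟩, rfl⟩ := 𝔭T.toCotangent_surjective y
      obtain ⟨r, rfl⟩ := hφ t
      exact ⟨𝔭R.toCotangent ⟨r, ht⟩, hmapCot _⟩
    have : Finite 𝔭T.Cotangent := Finite.of_surjective _ hsurj
    obtain ⟨ι, hι, x, d, hx, hspan, hrel, hprod, hcardT⟩ := exists_diag_relations π
    set v : Matrix ι ι 𝒪 := Matrix.diagonal d with hv
    have hdet : v.det = ∏ i, d i := Matrix.det_diagonal
    have hvrel : ∀ i, ∑ j, v i j • x j ∈ 𝔭T ^ 2 := by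
      intro i
      have : ∑ j, v i j • x j = d i • x i := by
        rw [Finset.sum_eq_single i]
        · rw [hv, Matrix.diagonal_apply_eq]
        · intro j _ hji
          rw [hv, Matrix.diagonal_apply_ne _ (Ne.symm hji), zero_smul]
        · intro h
          exact absurd (Finset.mem_univ i) h
      rw [this]
      exact hrel i
    obtain ⟨t₀, ht₀, hπt₀⟩ := exists_ann_of_relations π x hx hspan v hvrel
    have hdetη : v.det ∈ η := by
      rw [← hπt₀]
      refine Ideal.mem_map_of_mem _ ?_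
      rw [Submodule.mem_annihilator]
      intro s hs
      exact ht₀ s ((mem𝔭T s).mp hs)
    have hspanη : Ideal.span {v.det} ≤ η := (Ideal.span_singleton_le_iff_mem _).mpr hdetη
    have hc1 : Nat.card (𝒪 ⧸ Ideal.span {v.det}) = Nat.card 𝔭T.Cotangent := by
      rw [hdet]; exact hcardT
    have hc2 : Nat.card 𝔭T.Cotangent ≤ Nat.card 𝔭R.Cotangent :=
      Nat.card_le_card_of_surjective _ hsurj
    have hfin : Finite (𝒪 ⧸ Ideal.span {v.det}) := by
      apply Nat.finite_of_card_ne_zero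
      rw [hc1]
      exact Nat.card_pos.ne'
    have hc3 : Nat.card (𝒪 ⧸ η) ≤ Nat.card (𝒪 ⧸ Ideal.span {v.det}) :=
      Nat.card_le_card_of_surjective _ (Ideal.Quotient.factor_surjective hspanη)
    omega
  set 𝔭R : Ideal R := RingHom.ker ((π.comp φ : R →ₐ[𝒪] 𝒪) : R →+* 𝒪) with h𝔭R
  set 𝔭T : Ideal T := RingHom.ker (π : T →+* 𝒪) with h𝔭T
  set η : Ideal 𝒪 := Ideal.map (π : T →+* 𝒪) (Submodule.annihilator 𝔭T) with hη
  have mem𝔭R : ∀ r : R, r ∈ 𝔭R ↔ π (φ r) = 0 := fun r => Iff.rfl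
  have mem𝔭T : ∀ t : T, t ∈ 𝔭T ↔ π t = 0 := fun t => Iff.rfl
  -- the map on cotangent spaces
  have hle : 𝔭R ≤ 𝔭T.comap φ := fun r hr => hr
  let mapCot : 𝔭R.Cotangent →ₗ[𝒪] 𝔭T.Cotangent := Ideal.mapCotangent 𝔭R 𝔭T φ hle
  have hmapCot : ∀ r : 𝔭R, mapCot (𝔭R.toCotangent r) = 𝔭T.toCotangent ⟨φ r, hle r.2⟩ :=
    fun r => Ideal.mapCotangent_toCotangent 𝔭R 𝔭T φ hle r
  have hsurj : Function.Surjective mapCot := by
    intro y
    obtain ⟨⟨t, ht⟩, rfl⟩ := 𝔭T.toCotangent_surjective y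
    obtain ⟨r, rfl⟩ := hφ t
    exact ⟨𝔭R.toCotangent ⟨r, ht⟩, hmapCot _⟩
  have : Finite 𝔭T.Cotangent := Finite.of_surjective _ hsurj
  -- adapted generators
  obtain ⟨ι, hι, x, d, hx, hspan, hrel, hprod, hcardT⟩ := exists_diag_relations π
  set v : Matrix ι ι 𝒪 := Matrix.diagonal d with hv
  have hdet : v.det = ∏ i, d i := Matrix.det_diagonal
  have hvrel : ∀ i, ∑ j, v i j • x j ∈ 𝔭T ^ 2 := by
    intro i
    have : ∑ j, v i j • x j = d i • x i := by
      rw [Finset.sum_eq_single i]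
      · rw [hv, Matrix.diagonal_apply_eq]
      · intro j _ hji
        rw [hv, Matrix.diagonal_apply_ne _ (Ne.symm hji), zero_smul]
      · intro h
        exact absurd (Finset.mem_univ i) h
    rw [this]
    exact hrel i
  -- `det v ∈ η`
  obtain ⟨t₀, ht₀, hπt₀⟩ := exists_ann_of_relations π x hx hspan v hvrel
  have hdetη : v.det ∈ η := by
    rw [← hπt₀]
    refine Ideal.mem_map_of_mem _ ?_
    rw [Submodule.mem_annihilator]
    intro s hs
    exact ht₀ s ((mem𝔭T s).mp hs)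
  have hspanη : Ideal.span {v.det} ≤ η := (Ideal.span_singleton_le_iff_mem _).mpr hdetη
  -- cardinalities
  have hc1 : Nat.card (𝒪 ⧸ Ideal.span {v.det}) = Nat.card 𝔭T.Cotangent := by
    rw [hdet]; exact hcardT
  have hc2 : Nat.card 𝔭T.Cotangent ≤ Nat.card 𝔭R.Cotangent :=
    Nat.card_le_card_of_surjective _ hsurj
  have hfin : Finite (𝒪 ⧸ Ideal.span {v.det}) := by
    apply Nat.finite_of_card_ne_zero
    rw [hc1]
    exact Nat.card_pos.ne'
  have hc3 : Nat.card (𝒪 ⧸ η) ≤ Nat.card (𝒪 ⧸ Ideal.span {v.det}) :=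
    Nat.card_le_card_of_surjective _ (Ideal.Quotient.factor_surjective hspanη)
  have hc4 : Nat.card (𝒪 ⧸ Ideal.span {v.det}) = Nat.card (𝒪 ⧸ η) := by omega
  have hc5 : Nat.card 𝔭R.Cotangent = Nat.card 𝔭T.Cotangent := by omega
  -- `η = (det v)`
  have hfac : Function.Bijective (Ideal.Quotient.factor hspanη) :=
    (Nat.bijective_iff_surjective_and_card _).mpr ⟨Ideal.Quotient.factor_surjective hspanη, hc4⟩
  have hηle : η ≤ Ideal.span {v.det} := by
    intro c hc
    have h1 : Ideal.Quotient.factor hspanη (Ideal.Quotient.mk _ c) = 0 := by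
      rw [Ideal.Quotient.factor_mk]
      exact Ideal.Quotient.eq_zero_iff_mem.mpr hc
    have h2 := hfac.1 (h1.trans (map_zero _).symm)
    exact Ideal.Quotient.eq_zero_iff_mem.mp h2
  -- injectivity on cotangent spaces gives `ker φ ≤ 𝔭R ^ 2`
  have hbij : Function.Bijective mapCot :=
    (Nat.bijective_iff_surjective_and_card _).mpr ⟨hsurj, hc5⟩
  have hH1 : RingHom.ker (φ : R →+* T) ≤ 𝔭R ^ 2 := by
    intro j hj
    have hj0 : φ j = 0 := hj
    have hj𝔭 : j ∈ 𝔭R := by rw [mem𝔭R, hj0, map_zero]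
    have h1 : mapCot (𝔭R.toCotangent ⟨j, hj𝔭⟩) = 0 := by
      rw [hmapCot, Ideal.toCotangent_eq_zero]
      show φ j ∈ 𝔭T ^ 2
      rw [hj0]
      exact Ideal.zero_mem _
    have h2 := hbij.1 (h1.trans (map_zero _).symm)
    exact (Ideal.toCotangent_eq_zero _ _).mp h2
  -- apply the core theorem
  refine injective_of_relations φ hφ π hH1 x hx hspan v hvrel (by rw [hdet]; exact hprod) ?_
  intro t ht
  have h1 : π t ∈ η := by
    refine Ideal.mem_map_of_mem _ ?_
    rw [Submodule.mem_annihilator]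
    intro s hs
    exact ht s ((mem𝔭T s).mp hs)
  obtain ⟨c, hc⟩ := Ideal.mem_span_singleton'.mp (hηle h1)
  exact ⟨c, hc.symm⟩

/-- **Wiles–Lenstra numerical criterion** (Mathlib-only statement). -/
theorem numerical_criterion (φ : R →ₐ[𝒪] T) (hφ : Function.Surjective φ) (π : T →ₐ[𝒪] 𝒪)
    [Finite (RingHom.ker ((π.comp φ : R →ₐ[𝒪] 𝒪) : R →+* 𝒪)).Cotangent]
    (hcard : Nat.card (RingHom.ker ((π.comp φ : R →ₐ[𝒪] 𝒪) : R →+* 𝒪)).Cotangent ≤
      Nat.card (𝒪 ⧸ Ideal.map (π : T →+* 𝒪)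
        (Submodule.annihilator (RingHom.ker (π : T →+* 𝒪))))) :
    Function.Bijective φ :=
  (numerical_criterion_full φ hφ π hcard).1

end Fermat.Agent.S59.H427

end
-- ===== PACK-END S59/H427/Numerical.lean

-- ===== PACK-BEGIN S59/H161/Ihara2/Lin.lean
section




/-!
# S59 / cell NM / leaf IHARA2 (helper161): linearity of `r₁, r₂, t₁, t₂, T_l`, eigenclasses

Coefficients in a field `k` (any commutative ring would do).
-/

set_option autoImplicit false

namespace Fermat.Agent.S59.H161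

open CongruenceSubgroup Matrix.SpecialLinearGroup
open Fermat.Agent.S29.H642 Fermat.Agent.S41.Spec
open Fermat.Agent.S59.NM
open scoped MatrixGroups

variable {k : Type} [Field k] {N q : ℕ}

theorem smul_eq_mulLeft_comp {G : Type*} [AddZeroClass G] (c : k) (φ : G →+ k) :
    c • φ = (AddMonoidHom.mulLeft c).comp φ := by
  refine AddMonoidHom.ext fun x => ?_
  simp

theorem natCast_smul_hom {G : Type*} [AddZeroClass G] (n : ℕ) (φ : G →+ k) :
    (n : k) • φ = n • φ := by
  refine AddMonoidHom.ext fun x => ?_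
  simp [nsmul_eq_mul]

/-! ### `r₁`, `r₂` -/

theorem r₁_add' (φ ψ : Additive (Gamma0 N) →+ k) : r₁ N q (φ + ψ) = r₁ N q φ + r₁ N q ψ := rfl

theorem r₂_add' (φ ψ : Additive (Gamma0 N) →+ k) : r₂ N q (φ + ψ) = r₂ N q φ + r₂ N q ψ := rfl

theorem r₁_smul' (c : k) (φ : Additive (Gamma0 N) →+ k) : r₁ N q (c • φ) = c • r₁ N q φ := rfl

theorem r₂_smul' (c : k) (φ : Additive (Gamma0 N) →+ k) : r₂ N q (c • φ) = c • r₂ N q φ := rfl

theorem r₁_zero' : r₁ N q (0 : Additive (Gamma0 N) →+ k) = 0 := rfl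

theorem r₂_zero' : r₂ N q (0 : Additive (Gamma0 N) →+ k) = 0 := rfl

theorem r₁_neg' (φ : Additive (Gamma0 N) →+ k) : r₁ N q (-φ) = -r₁ N q φ := rfl

theorem r₂_neg' (φ : Additive (Gamma0 N) →+ k) : r₂ N q (-φ) = -r₂ N q φ := rfl

theorem r₁_sub' (φ ψ : Additive (Gamma0 N) →+ k) : r₁ N q (φ - ψ) = r₁ N q φ - r₁ N q ψ := rfl

theorem r₂_sub' (φ ψ : Additive (Gamma0 N) →+ k) : r₂ N q (φ - ψ) = r₂ N q φ - r₂ N q ψ := rfl

/-! ### `t₁`, `t₂` -/

theorem t₁_add' (φ ψ : Additive (Gamma0 (N * q)) →+ k) :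
    t₁ N q (φ + ψ) = t₁ N q φ + t₁ N q ψ :=
  ((Fermat.Agent.S41.H281.hkStatement.{0}.1 N q k k (AddMonoidHom.id k)).2.1 φ ψ).1

theorem t₂_add' (φ ψ : Additive (Gamma0 (N * q)) →+ k) :
    t₂ N q (φ + ψ) = t₂ N q φ + t₂ N q ψ :=
  ((Fermat.Agent.S41.H281.hkStatement.{0}.1 N q k k (AddMonoidHom.id k)).2.1 φ ψ).2

theorem t₁_smul' (c : k) (φ : Additive (Gamma0 (N * q)) →+ k) :
    t₁ N q (c • φ) = c • t₁ N q φ := by
  rw [smul_eq_mulLeft_comp, smul_eq_mulLeft_comp]
  exact ((Fermat.Agent.S41.H281.hkStatement.{0}.1 N q k k (AddMonoidHom.mulLeft c)).2.2.2 φ).1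

theorem t₂_smul' (c : k) (φ : Additive (Gamma0 (N * q)) →+ k) :
    t₂ N q (c • φ) = c • t₂ N q φ := by
  rw [smul_eq_mulLeft_comp, smul_eq_mulLeft_comp]
  exact ((Fermat.Agent.S41.H281.hkStatement.{0}.1 N q k k (AddMonoidHom.mulLeft c)).2.2.2 φ).2

theorem t₁_zero' : t₁ N q (0 : Additive (Gamma0 (N * q)) →+ k) = 0 := by
  have h := t₁_smul' (N := N) (q := q) (0 : k) (0 : Additive (Gamma0 (N * q)) →+ k)
  rwa [zero_smul, zero_smul] at h

theorem t₂_zero' : t₂ N q (0 : Additive (Gamma0 (N * q)) →+ k) = 0 := by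
  have h := t₂_smul' (N := N) (q := q) (0 : k) (0 : Additive (Gamma0 (N * q)) →+ k)
  rwa [zero_smul, zero_smul] at h

/-! ### `T_l` -/

section Hecke

variable {l : ℕ} [Fact l.Prime]

theorem hecke_smul' (hl : ¬ l ∣ N) (c : k) (φ : Additive (Gamma0 N) →+ k) :
    heckeTransfer hl (c • φ) = c • heckeTransfer hl φ := by
  rw [smul_eq_mulLeft_comp, smul_eq_mulLeft_comp, heckeTransfer_comp]

theorem hecke_zero' (hl : ¬ l ∣ N) : heckeTransfer hl (0 : Additive (Gamma0 N) →+ k) = 0 := by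
  have h := hecke_smul' hl (0 : k) (0 : Additive (Gamma0 N) →+ k)
  rwa [zero_smul, zero_smul] at h

theorem hecke_neg' (hl : ¬ l ∣ N) (φ : Additive (Gamma0 N) →+ k) :
    heckeTransfer hl (-φ) = -heckeTransfer hl φ := by
  have h := hecke_smul' hl (-1 : k) φ
  rwa [neg_one_smul, neg_one_smul] at h

theorem hecke_sub' (hl : ¬ l ∣ N) (φ ψ : Additive (Gamma0 N) →+ k) :
    heckeTransfer hl (φ - ψ) = heckeTransfer hl φ - heckeTransfer hl ψ := by
  rw [sub_eq_add_neg, heckeTransfer_add, hecke_neg', ← sub_eq_add_neg]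

end Hecke

/-! ### Cuspidal classes and eigenclasses -/

theorem isCuspidal_zero' {n : ℕ} : IsCuspidal (0 : Additive (Gamma0 n) →+ k) :=
  ⟨fun _ _ => rfl, fun _ _ => rfl⟩

theorem isCuspidal_add' {n : ℕ} {φ ψ : Additive (Gamma0 n) →+ k} (hφ : IsCuspidal φ)
    (hψ : IsCuspidal ψ) : IsCuspidal (φ + ψ) := by
  refine ⟨fun γ hγ => ?_, fun γ hγ => ?_⟩
  · rw [AddMonoidHom.add_apply, hφ.1 γ hγ, hψ.1 γ hγ, add_zero]
  · rw [AddMonoidHom.add_apply, hφ.2 γ hγ, hψ.2 γ hγ, add_zero]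

theorem isCuspidal_smul' {n : ℕ} (c : k) {φ : Additive (Gamma0 n) →+ k} (hφ : IsCuspidal φ) :
    IsCuspidal (c • φ) := by
  refine ⟨fun γ hγ => ?_, fun γ hγ => ?_⟩
  · rw [AddMonoidHom.smul_apply, hφ.1 γ hγ, smul_zero]
  · rw [AddMonoidHom.smul_apply, hφ.2 γ hγ, smul_zero]

variable {S : Finset ℕ} {a : ℕ → k}

theorem isEigenclass_zero' : IsEigenclass N S a (0 : Additive (Gamma0 N) →+ k) :=
  ⟨isCuspidal_zero', fun l _ hl _ => by rw [hecke_zero', smul_zero]⟩

theorem isEigenclass_add' {φ ψ : Additive (Gamma0 N) →+ k} (hφ : IsEigenclass N S a φ)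
    (hψ : IsEigenclass N S a ψ) : IsEigenclass N S a (φ + ψ) :=
  ⟨isCuspidal_add' hφ.1 hψ.1, fun l _ hl hlS => by
    rw [heckeTransfer_add, hφ.2 l hl hlS, hψ.2 l hl hlS, smul_add]⟩

theorem isEigenclass_smul' (c : k) {φ : Additive (Gamma0 N) →+ k} (hφ : IsEigenclass N S a φ) :
    IsEigenclass N S a (c • φ) :=
  ⟨isCuspidal_smul' c hφ.1, fun l _ hl hlS => by
    rw [hecke_smul', hφ.2 l hl hlS, smul_comm]⟩

theorem isEigenclass_neg' {φ : Additive (Gamma0 N) →+ k} (hφ : IsEigenclass N S a φ) :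
    IsEigenclass N S a (-φ) := by
  have h := isEigenclass_smul' (-1 : k) hφ
  rwa [neg_one_smul] at h

theorem isEigenclass_sub' {φ ψ : Additive (Gamma0 N) →+ k} (hφ : IsEigenclass N S a φ)
    (hψ : IsEigenclass N S a ψ) : IsEigenclass N S a (φ - ψ) := by
  rw [sub_eq_add_neg]
  exact isEigenclass_add' hφ (isEigenclass_neg' hψ)

/-- `T_q` preserves eigenclasses. -/
theorem isEigenclass_hecke' [Fact q.Prime] (hq : ¬ q ∣ N) {φ : Additive (Gamma0 N) →+ k}
    (hφ : IsEigenclass N S a φ) : IsEigenclass N S a (heckeTransfer hq φ) :=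
  ⟨Fermat.Agent.S41.H281.hkStatement.{0}.2.2.2.1 N q hq k φ hφ.1, fun l _ hl hlS => by
    rw [Fermat.Agent.S41.H281.hkStatement.{0}.2.2.2.2.2.2.2.2 N l q hl hq k φ, hφ.2 l hl hlS,
      hecke_smul']⟩

end Fermat.Agent.S59.H161

end
-- ===== PACK-END S59/H161/Ihara2/Lin.lean

-- ===== PACK-BEGIN Lib/Frob23/Two.lean
section




/-!
# The Hasse-Weil Frobenius relation over `𝔽_2` (helper472; generated by `gen_small.py`)

For every Weierstrass curve `E` over `ZMod 2` with `Δ ≠ 0` (long Weierstrass form) and every field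
`k ⊇ 𝔽_2`:  `Φ² - a Φ + 2 = 0` on `E(k)`, `a = 2 + 1 - #E(𝔽_2)`  (`frobRelationFin_two`).

Manin data: `s = 1 - linP W`, `t = cubP W + linP W` (`L = a₁ X + a₃`, `g = X³ + a₂ X² + a₄ X + a₆`).
-/

set_option autoImplicit false
set_option linter.unusedSectionVars false
set_option linter.unusedVariables false
set_option linter.unusedSimpArgs false

open WeierstrassCurve Polynomial
open scoped Polynomial.Bivariate WeierstrassCurve.Affine

namespace Fermat.Agent.Lib.Frob23.Two

open Fermat.Agent.Lib.FrobRel Fermat.Agent.S52 Fermat.Agent.Lib.Frob23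

variable (W : WeierstrassCurve (ZMod 2))

/-- the Manin datum `s` -/
noncomputable def sP : (ZMod 2)[X] := 1 - linP W

/-- the Manin datum `t` -/
noncomputable def tP : (ZMod 2)[X] := cubP W + linP W

/-- the expanded numerator of Manin's function -/
noncomputable def nExp : (ZMod 2)[X] := X ^ 5 + X ^ 4 + X ^ 4 * C W.a₁ + X ^ 3 * C W.a₃ + X ^ 3 * C W.a₁ + X ^ 3 * C W.a₁ * C W.a₂ + X ^ 2 * C W.a₄ + X ^ 2 * C W.a₂ * C W.a₃ + X ^ 2 * C W.a₁ * C W.a₄ + X ^ 2 * C W.a₁ * C W.a₃ + X * C W.a₄ + X * C W.a₃ * C W.a₄ + X * C W.a₁ * C W.a₆ + X * C W.a₁ * C W.a₃ + C W.a₃ + C W.a₃ * C W.a₆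

/-- the lower part of the expanded numerator -/
noncomputable def nLow : (ZMod 2)[X] := X ^ 4 + X ^ 4 * C W.a₁ + X ^ 3 * C W.a₃ + X ^ 3 * C W.a₁ + X ^ 3 * C W.a₁ * C W.a₂ + X ^ 2 * C W.a₄ + X ^ 2 * C W.a₂ * C W.a₃ + X ^ 2 * C W.a₁ * C W.a₄ + X ^ 2 * C W.a₁ * C W.a₃ + X * C W.a₄ + X * C W.a₃ * C W.a₄ + X * C W.a₁ * C W.a₆ + X * C W.a₁ * C W.a₃ + C W.a₃ + C W.a₃ * C W.a₆

lemma char_poly : ((2 : ℕ) : (ZMod 2)[X]) = 0 := CharP.cast_eq_zero _ _

lemma C_pow_card (a : ZMod 2) : (C a : (ZMod 2)[X]) ^ 2 = C a := by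
  rw [← C_pow, ZMod.pow_card]

theorem isManinData [DecidableEq (KK W)] : IsManinData W (sP W) (tP W) where
  pow_eq := by
    intro U V h
    have hE := (Affine.equation_iff _ _).mp h
    rw [ZMod.card]
    simp only [sP, tP, linP, cubP, map_add, map_sub, map_mul, map_pow, map_one, aeval_X, aeval_C]
    rw [← bc_a₁ W (KK W), ← bc_a₂ W (KK W), ← bc_a₃ W (KK W), ← bc_a₄ W (KK W),
      ← bc_a₆ W (KK W)]
    linear_combination hE
  trace_eq := by
    have hl : ((2 : ℕ) : (ZMod 2)[X]) = 0 := char_poly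
    have hA1 := C_pow_card W.a₁
    have hA2 := C_pow_card W.a₂
    have hA3 := C_pow_card W.a₃
    have hA4 := C_pow_card W.a₄
    have hA6 := C_pow_card W.a₆
    rw [ZMod.card]
    simp only [sP, tP, linP, cubP]
    push_cast at hl
    linear_combination (exp := 1) (X ^ 3 + X ^ 2 * C W.a₂ + X ^ 2 * C W.a₁ + X * C W.a₄ + X * C W.a₁ * C W.a₃ + C W.a₆ + C W.a₃) * hl + (X ^ 2) * hA1 + (1) * hA3

theorem maninN_eq : maninN W (sP W) (tP W) = nExp W := by
  have hl : ((2 : ℕ) : (ZMod 2)[X]) = 0 := char_poly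
  have hA1 := C_pow_card W.a₁
  have hA2 := C_pow_card W.a₂
  have hA3 := C_pow_card W.a₃
  have hA4 := C_pow_card W.a₄
  have hA6 := C_pow_card W.a₆
  rw [maninN, ZMod.card]
  simp only [sP, tP, linP, cubP, nExp]
  push_cast at hl
  linear_combination (exp := 1) (-X ^ 6 - X ^ 5 * C W.a₂ - X ^ 4 * C W.a₄ - X ^ 4 * C W.a₂ - 2 * X ^ 4 * C W.a₁ - X ^ 3 * C W.a₆ - 2 * X ^ 3 * C W.a₃ + X ^ 3 * C W.a₂ - X ^ 3 * C W.a₂ * C W.a₄ - X ^ 3 * C W.a₁ - 2 * X ^ 3 * C W.a₁ * C W.a₂ - X ^ 2 * C W.a₄ - X ^ 2 * C W.a₂ * C W.a₆ - 2 * X ^ 2 * C W.a₂ * C W.a₃ - 2 * X ^ 2 * C W.a₁ * C W.a₄ - 2 * X ^ 2 * C W.a₁ * C W.a₃ - X * C W.a₄ * C W.a₆ - 2 * X * C W.a₃ * C W.a₄ - 2 * X * C W.a₁ * C W.a₆ - 2 * X * C W.a₁ * C W.a₃ - C W.a₃ - 2 * C W.a₃ * C W.a₆) * hl + (-X ^ 3 - X ^ 3 * C W.a₁ - 3 * X ^ 2 * C W.a₃) * hA1 + (-X ^ 4) * hA2 + (-3 * X * C W.a₁ - 1 - C W.a₃) * hA3 + (-X ^ 2) * hA4 + (-1) * hA6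

theorem nExp_eq : nExp W = X ^ 5 + nLow W := by
  simp only [nExp, nLow]
  ring

theorem natDegree_nLow : (nLow W).natDegree < 5 := by
  have : (nLow W).natDegree ≤ 4 := by
    unfold nLow
    compute_degree
  omega

theorem natDegree_maninN : (maninN W (sP W) (tP W)).natDegree = 2 * 2 + 1 := by
  rw [maninN_eq, nExp_eq, natDegree_add_eq_left_of_natDegree_lt (by
    rw [natDegree_X_pow]; exact natDegree_nLow W), natDegree_X_pow]

/-- value of the numerator at `c` -/
def nVal (a₁ a₂ a₃ a₄ a₆ c : ZMod 2) : ZMod 2 := c ^ 5 + c ^ 4 + c ^ 4 * a₁ + c ^ 3 * a₃ + c ^ 3 * a₁ + c ^ 3 * a₁ * a₂ + c ^ 2 * a₄ + c ^ 2 * a₂ * a₃ + c ^ 2 * a₁ * a₄ + c ^ 2 * a₁ * a₃ + c * a₄ + c * a₃ * a₄ + c * a₁ * a₆ + c * a₁ * a₃ + a₃ + a₃ * a₆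

/-- value of the derivative of the numerator at `c` -/
def ndVal (a₁ a₂ a₃ a₄ a₆ c : ZMod 2) : ZMod 2 := 5 * c ^ 4 + 4 * c ^ 3 + 4 * c ^ 3 * a₁ + 3 * c ^ 2 * a₃ + 3 * c ^ 2 * a₁ + 3 * c ^ 2 * a₁ * a₂ + 2 * c * a₄ + 2 * c * a₂ * a₃ + 2 * c * a₁ * a₄ + 2 * c * a₁ * a₃ + a₄ + a₃ * a₄ + a₁ * a₆ + a₁ * a₃

/-- number of points above `c` -/
def nPts (a₁ a₂ a₃ a₄ a₆ c : ZMod 2) : ℕ :=
  (Finset.univ.filter fun y : ZMod 2 =>
    y ^ 2 + a₁ * c * y + a₃ * y = c ^ 3 + a₂ * c ^ 2 + a₄ * c + a₆).card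

theorem eval_maninN (c : ZMod 2) :
    (maninN W (sP W) (tP W)).eval c = nVal W.a₁ W.a₂ W.a₃ W.a₄ W.a₆ c := by
  rw [maninN_eq, nExp, nVal]
  simp only [eval_add, eval_mul, eval_pow, eval_X, eval_C, eval_ofNat]
  try ring

theorem eval_derivative_maninN (c : ZMod 2) :
    (derivative (maninN W (sP W) (tP W))).eval c = ndVal W.a₁ W.a₂ W.a₃ W.a₄ W.a₆ c := by
  rw [maninN_eq, nExp, ndVal]
  simp only [derivative_add, derivative_mul, derivative_X_pow, derivative_X, derivative_C,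
    derivative_ofNat, eval_add, eval_mul, eval_pow, eval_X, eval_C, eval_ofNat, eval_natCast,
    eval_zero, eval_one, derivative_pow]
  try simp
  try ring

/-- the finite check: local behaviour of the numerator at the points of `𝔽_2` -/
theorem local_check : ∀ a₁ a₂ a₃ a₄ a₆ c : ZMod 2,
    (⟨a₁, a₂, a₃, a₄, a₆⟩ : WeierstrassCurve (ZMod 2)).Δ ≠ 0 →
      nPts a₁ a₂ a₃ a₄ a₆ c ≤ 2 ∧
      (nPts a₁ a₂ a₃ a₄ a₆ c = 2 → nVal a₁ a₂ a₃ a₄ a₆ c ≠ 0) ∧
      (nPts a₁ a₂ a₃ a₄ a₆ c = 1 →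
        nVal a₁ a₂ a₃ a₄ a₆ c = 0 ∧ ndVal a₁ a₂ a₃ a₄ a₆ c ≠ 0) ∧
      (nPts a₁ a₂ a₃ a₄ a₆ c = 0 →
        nVal a₁ a₂ a₃ a₄ a₆ c = 0 ∧ ndVal a₁ a₂ a₃ a₄ a₆ c = 0) := by
  decide

/-- **Manin's count**: `deg x(Φ P₀ - P₀) = #E(𝔽_2)`. -/
theorem ratDeg_maninR (hΔ : W.Δ ≠ 0) : H621.ratDeg (maninR W (sP W) (tP W)) = W.card := by
  have hloc : ∀ c : ZMod 2,
      nPts W.a₁ W.a₂ W.a₃ W.a₄ W.a₆ c ≤ 2 ∧
      (nPts W.a₁ W.a₂ W.a₃ W.a₄ W.a₆ c = 2 → nVal W.a₁ W.a₂ W.a₃ W.a₄ W.a₆ c ≠ 0) ∧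
      (nPts W.a₁ W.a₂ W.a₃ W.a₄ W.a₆ c = 1 →
        nVal W.a₁ W.a₂ W.a₃ W.a₄ W.a₆ c = 0 ∧ ndVal W.a₁ W.a₂ W.a₃ W.a₄ W.a₆ c ≠ 0) ∧
      (nPts W.a₁ W.a₂ W.a₃ W.a₄ W.a₆ c = 0 →
        nVal W.a₁ W.a₂ W.a₃ W.a₄ W.a₆ c = 0 ∧ ndVal W.a₁ W.a₂ W.a₃ W.a₄ W.a₆ c = 0) :=
    fun c => local_check W.a₁ W.a₂ W.a₃ W.a₄ W.a₆ c hΔ
  rw [card_eq_sum 2 W hΔ, maninR, maninD, ZMod.card]
  refine ratDeg_eq_of_local (n := fun c => nPts W.a₁ W.a₂ W.a₃ W.a₄ W.a₆ c)
    (natDegree_maninN W) (fun c => (hloc c).1) ?_ ?_ ?_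
  · intro c hc
    rw [eval_maninN]
    exact (hloc c).2.1 hc
  · intro c hc
    rw [eval_maninN, eval_derivative_maninN]
    exact (hloc c).2.2.1 hc
  · intro c hc
    rw [eval_maninN, eval_derivative_maninN]
    exact (hloc c).2.2.2 hc

/-- **The Hasse-Weil Frobenius relation over `𝔽_2`**, every Weierstrass curve with `Δ ≠ 0`. -/
theorem frobRelationFin_two (E : WeierstrassCurve (ZMod 2)) (hΔ : E.Δ ≠ 0)
    (k : Type) [Field k] [Algebra (ZMod 2) k] [DecidableEq k] (P : (E⁄k).Point) :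
    haveI : Fact (Nat.Prime 2) := ⟨by norm_num⟩
    Fermat.Agent.Lib.Frob.frobPt 2 E k (Fermat.Agent.Lib.Frob.frobPt 2 E k P)
      - E.traceOfFrobenius • Fermat.Agent.Lib.Frob.frobPt 2 E k P + ((2 : ℕ) : ℤ) • P = 0 := by
  classical
  have key := frobPsi_eq_zero_of_data hΔ (isManinData E) P
  rw [ratDeg_maninR E hΔ, H230.frobPsi_apply, ZMod.card] at key
  have htr : ((2 : ℕ) : ℤ) + 1 - (E.card : ℤ) = E.traceOfFrobenius := by
    rw [WeierstrassCurve.traceOfFrobenius, Nat.card_zmod]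
  rw [htr] at key
  exact key

end Fermat.Agent.Lib.Frob23.Two

end
-- ===== PACK-END Lib/Frob23/Two.lean

-- ===== PACK-BEGIN S59/H870/OrdMat.lean
section



/-!
# S59, cell COND, `.ord` case (helper870): the ordinary condition, matrix level

`IsOStd 𝔓 r` : the matrix representation `r` is in "ordinary standard form" at the place `𝔓`
over `p`: the decomposition group acts by upper triangular matrices `[[x, *], [0, z]]` and
`z = 1` on inertia.

For an odd prime `p` and representations with cyclotomic determinant the stable line is unique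
(it is spanned by a column of `r σ₀ - 1`, `σ₀` an element of the inertia group on which the
cyclotomic character is not `1` modulo `p`), so the property "conjugate to a representation in
standard form" descends along jointly injective pairs (`exists_isOStd_of_fibre`) and from the
quotients `A ⧸ 𝔪ⁿ` (`exists_isOStd_of_quotients`).

This is the pattern of `Fermat.Agent.S59.H659.SOMat` (helper659, strictly ordinary case); the
congruence `x ≡ ε z` of the strictly ordinary standard form is replaced by the determinant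
condition.
-/

set_option autoImplicit false
set_option linter.unusedSectionVars false
set_option linter.style.haveILetI false

namespace Fermat.Agent.S59.H870

open Fermat.Agent.S53 Fermat.Agent.S59.H659 IsLocalRing Polynomial

/-- Ordinary standard form at the place `𝔓`. -/
structure IsOStd (𝔓 : ValuationSubring (AlgebraicClosure ℚ)) {A : Type} [CommRing A]
    (r : GQ →* M2 A) : Prop where
  dec : ∀ σ ∈ 𝔓.decompositionSubgroup ℚ, r σ 1 0 = 0
  inert : ∀ σ ∈ 𝔓.inertiaSubgroupIn ℚ, r σ 1 1 = 1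

section Descent

variable {𝔓 : ValuationSubring (AlgebraicClosure ℚ)}

/-- Standard form descends along jointly injective pairs. -/
theorem IsOStd.of_fibre {P A B : Type} [CommRing P] [CommRing A] [CommRing B]
    (pA : P →+* A) (pB : P →+* B) (hinj : Function.Injective (fun x => (pA x, pB x)))
    {r : GQ →* M2 P}
    (hA : _root_.Fermat.Agent.S59.H870.IsOStd 𝔓 (mapRep pA r)) (hB : _root_.Fermat.Agent.S59.H870.IsOStd 𝔓 (mapRep pB r)) : _root_.Fermat.Agent.S59.H870.IsOStd 𝔓 r where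
  dec := by
    intro σ hσ
    have hA1 := hA.dec σ hσ
    have hB1 := hB.dec σ hσ
    rw [mapRep_apply_apply] at hA1 hB1
    exact eq_zero_of_fibre pA pB hinj hA1 hB1
  inert := by
    intro σ hσ
    have hA1 := hA.inert σ hσ
    have hB1 := hB.inert σ hσ
    rw [mapRep_apply_apply] at hA1 hB1
    exact eq_of_fibre pA pB hinj (by rw [hA1, map_one]) (by rw [hB1, map_one])

/-- Standard form descends from the quotients `A ⧸ 𝔪ⁿ`. -/
theorem IsOStd.of_quotients {A : Type} [CommRing A] [IsLocalRing A] [IsNoetherianRing A]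
    {r : GQ →* M2 A}
    (h : ∀ n : ℕ, n ≠ 0 → _root_.Fermat.Agent.S59.H870.IsOStd 𝔓 (mapRep (Ideal.Quotient.mk (maximalIdeal A ^ n)) r)) :
    _root_.Fermat.Agent.S59.H870.IsOStd 𝔓 r where
  dec := by
    intro σ hσ
    refine eq_zero_of_quotients fun n hn => ?_
    have := (h n hn).dec σ hσ
    rwa [mapRep_apply_apply] at this
  inert := by
    intro σ hσ
    refine eq_of_quotients fun n hn => ?_
    have := (h n hn).inert σ hσ
    rw [mapRep_apply_apply] at this
    rw [this, map_one]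

end Descent

section Triangular

variable {A : Type} [CommRing A] {𝔓 : ValuationSubring (AlgebraicClosure ℚ)}

/-- Standard form is preserved by conjugation with invertible upper triangular matrices. -/
theorem IsOStd.conj_triangular {r : GQ →* M2 A} (h : _root_.Fermat.Agent.S59.H870.IsOStd 𝔓 r) (T : (M2 A)ˣ)
    (hT : (T : M2 A) 1 0 = 0) : _root_.Fermat.Agent.S59.H870.IsOStd 𝔓 (cj T⁻¹ r) := by
  have key : ∀ σ : GQ, r σ 1 0 = 0 → cj T⁻¹ r σ 1 0 = 0 ∧
      cj T⁻¹ r σ 0 0 = r σ 0 0 ∧ cj T⁻¹ r σ 1 1 = r σ 1 1 := by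
    intro σ hσ
    refine Fermat.Agent.S59.H659.conj_triangular T hT (r σ) (cj T⁻¹ r σ) ?_ hσ
    rw [cj_apply, inv_inv, ← mul_assoc, ← mul_assoc, Units.mul_inv, one_mul]
  constructor
  · intro σ hσ
    exact (key σ (h.dec σ hσ)).1
  · intro σ hσ
    obtain ⟨-, -, k3⟩ := key σ (h.dec σ (mem_decomposition_of_mem_inertia hσ))
    rw [k3]
    exact h.inert σ hσ

end Triangular

section Main

variable {𝔓 : ValuationSubring (AlgebraicClosure ℚ)} {p : ℕ}

/-- The trace of `r σ₀ - 1` is a unit when `r` has cyclotomic determinant and is conjugate to a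
representation in standard form, and the cyclotomic character of `σ₀ ∈ I` is not `1` modulo
`p`. -/
theorem isUnit_trace_sub_one_of_det {A : Type} [CommRing A] [IsLocalRing A] (hp : p.Prime)
    (hpA : (p : A) ∈ maximalIdeal A) {r : GQ →* M2 A} (P : (M2 A)ˣ)
    (h : _root_.Fermat.Agent.S59.H870.IsOStd 𝔓 (cj P r)) {σ₀ : GQ} (hσ₀ : σ₀ ∈ 𝔓.inertiaSubgroupIn ℚ)
    (hσ₀' : ∀ a : ℕ, IsCycExp p σ₀ a → ¬ a ≡ 1 [MOD p])
    (hdet : CycCong p σ₀ (r σ₀).det 1) : IsUnit (r σ₀ - 1).trace := by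
  obtain ⟨a, ha⟩ := exists_isCycExp p hp.ne_zero σ₀
  have h1 := hdet 1 a (by rwa [pow_one])
  have h10 := h.dec σ₀ (mem_decomposition_of_mem_inertia hσ₀)
  have h2 := h.inert σ₀ hσ₀
  have hdet' : (r σ₀).det = cj P r σ₀ 0 0 := by
    have h3 : (cj P r σ₀).det = (r σ₀).det := by
      rw [cj_apply]
      exact Matrix.det_units_conj P (r σ₀)
    rw [← h3, Matrix.det_fin_two, h10, h2]
    ring
  have htr : (r σ₀ - 1).trace = cj P r σ₀ 0 0 - 1 := by
    have h3 : (cj P r σ₀).trace = (r σ₀).trace := by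
      rw [cj_apply]
      exact Matrix.trace_units_conj P (r σ₀)
    rw [Matrix.trace_sub, ← h3, Matrix.trace_fin_two, Matrix.trace_fin_two, h2]
    simp only [Matrix.one_apply_eq]
    ring
  rw [htr]
  rw [hdet', mul_one, pow_one] at h1
  have h4 : cj P r σ₀ 0 0 - (a : A) ∈ maximalIdeal A := by
    obtain ⟨c, hc⟩ := Ideal.mem_span_singleton'.mp h1
    rw [← hc]
    exact Ideal.mul_mem_left _ _ hpA
  have h5 : IsUnit ((a : A) - 1) := isUnit_natCast_sub_one hp hpA (hσ₀' a ha)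
  have h6 : cj P r σ₀ 0 0 - 1 = ((a : A) - 1) + (cj P r σ₀ 0 0 - (a : A)) := by ring
  rw [h6]
  by_contra hcon
  have h7 : ((a : A) - 1) + (cj P r σ₀ 0 0 - (a : A)) ∈ maximalIdeal A := hcon
  have h8 : (a : A) - 1 ∈ maximalIdeal A := by
    have := Ideal.sub_mem _ h7 h4
    rwa [add_sub_cancel_right] at this
  exact h8 h5

/-- **The stable line is canonical.** Let `Q` be an invertible matrix whose first column is a
column of `r σ₀ - 1`, `σ₀` in the inertia group. If the push-forward of `r` along `φ` is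
conjugate to a representation in standard form, then the push-forward of `Q⁻¹ r Q` is in standard
form. -/
theorem isOStd_mapRep_conj {R A : Type} [CommRing R] [CommRing A] (φ : R →+* A)
    {r : GQ →* M2 R} {σ₀ : GQ} (hσ₀ : σ₀ ∈ 𝔓.inertiaSubgroupIn ℚ) (Q : (M2 R)ˣ) (j : Fin 2)
    (hQ : ∀ i, (Q : M2 R) i 0 = (r σ₀ - 1) i j) (P : (M2 A)ˣ)
    (h : _root_.Fermat.Agent.S59.H870.IsOStd 𝔓 (cj P (mapRep φ r))) :
    _root_.Fermat.Agent.S59.H870.IsOStd 𝔓 (mapRep φ (cj Q⁻¹ r)) := by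
  set Qφ : (M2 A)ˣ := Units.map φ.mapMatrix.toMonoidHom Q with hQφ
  set T : (M2 A)ˣ := P * Qφ with hT
  have h10 := h.dec σ₀ (mem_decomposition_of_mem_inertia hσ₀)
  have h11 := h.inert σ₀ hσ₀
  have hconj : (P : M2 A) * (mapRep φ r σ₀ - 1) = (cj P (mapRep φ r) σ₀ - 1) * P := by
    rw [mul_sub, sub_mul, mul_one, one_mul, cj_mul_eq]
  have hrow : ∀ k, ((P : M2 A) * (mapRep φ r σ₀ - 1)) 1 k = 0 := by
    intro k
    rw [hconj, Matrix.mul_apply, Fin.sum_univ_two, Matrix.sub_apply, Matrix.sub_apply, h10, h11]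
    simp
  have hT10 : (T : M2 A) 1 0 = 0 := by
    have h1 : ∀ i, (Qφ : M2 A) i 0 = (mapRep φ r σ₀ - 1) i j := by
      intro i
      show φ ((Q : M2 R) i 0) = _
      rw [hQ i, Matrix.sub_apply, Matrix.sub_apply, map_sub, mapRep_apply_apply]
      congr 1
      by_cases hij : i = j
      · subst hij; simp
      · simp [hij]
    have h2 := hrow j
    rw [Matrix.mul_apply, Fin.sum_univ_two] at h2
    rw [hT, Units.val_mul, Matrix.mul_apply, Fin.sum_univ_two, h1 0, h1 1]
    exact h2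
  have h3 := h.conj_triangular T hT10
  rw [cj_cj] at h3
  have h4 : T⁻¹ * P = Qφ⁻¹ := by
    rw [hT, mul_inv_rev, inv_mul_cancel_right]
  rw [h4] at h3
  rw [mapRep_cj, map_inv]
  exact h3

/-- **Ordinary descent along jointly injective pairs** (cyclotomic determinant). -/
theorem exists_isOStd_of_fibre (hp : p.Prime) (hp2 : p ≠ 2) (h𝔓 : 𝔓.LiesOverPrime p)
    {P A B : Type} [CommRing P] [IsLocalRing P] [CommRing A] [IsLocalRing A] [CommRing B]
    [IsLocalRing B]
    (pA : P →+* A) (pB : P →+* B) (hpA : IsLocalHom pA)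
    (hinj : Function.Injective (fun x => (pA x, pB x)))
    (hA : (p : A) ∈ maximalIdeal A) (r : GQ →* M2 P)
    (hdetA : ∀ σ : GQ, CycCong p σ (mapRep pA r σ).det 1)
    (h1 : ∃ U : (M2 A)ˣ, _root_.Fermat.Agent.S59.H870.IsOStd 𝔓 (cj U (mapRep pA r)))
    (h2 : ∃ U : (M2 B)ˣ, _root_.Fermat.Agent.S59.H870.IsOStd 𝔓 (cj U (mapRep pB r))) :
    ∃ U : (M2 P)ˣ, _root_.Fermat.Agent.S59.H870.IsOStd 𝔓 (cj U r) := by
  obtain ⟨σ₀, hσ₀, hσ₀'⟩ := exists_inertia_cycExp_ne_one p hp hp2 𝔓 h𝔓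
  obtain ⟨UA, hUA⟩ := h1
  obtain ⟨UB, hUB⟩ := h2
  have htr : IsUnit (r σ₀ - 1).trace := by
    have h3 := isUnit_trace_sub_one_of_det hp hA UA hUA hσ₀ hσ₀' (hdetA σ₀)
    have h4 : (mapRep pA r σ₀ - 1).trace = pA (r σ₀ - 1).trace := by
      rw [Matrix.trace_fin_two, Matrix.trace_fin_two]
      simp
    rw [h4] at h3
    exact isUnit_of_map_unit pA _ h3
  obtain ⟨Q, j, hQ⟩ := exists_unit_col (r σ₀ - 1) htr
  exact ⟨Q⁻¹, _root_.Fermat.Agent.S59.H870.IsOStd.of_fibre pA pB hinj (_root_.Fermat.Agent.S59.H870.isOStd_mapRep_conj pA hσ₀ Q j hQ UA hUA)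
    (_root_.Fermat.Agent.S59.H870.isOStd_mapRep_conj pB hσ₀ Q j hQ UB hUB)⟩

/-- **Ordinary descent from the quotients `A ⧸ 𝔪ⁿ`** (cyclotomic determinant). -/
theorem exists_isOStd_of_quotients (hp : p.Prime) (hp2 : p ≠ 2) (h𝔓 : 𝔓.LiesOverPrime p)
    {A : Type} [CommRing A] [IsLocalRing A] [IsNoetherianRing A] (r : GQ →* M2 A)
    (hloc : IsLocalRing (A ⧸ maximalIdeal A ^ 1))
    (hA : (p : A ⧸ maximalIdeal A ^ 1) ∈ maximalIdeal (A ⧸ maximalIdeal A ^ 1))
    (hdet : ∀ σ : GQ,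
      CycCong p σ (mapRep (Ideal.Quotient.mk (maximalIdeal A ^ 1)) r σ).det 1)
    (h : ∀ n : ℕ, n ≠ 0 → ∃ U : (M2 (A ⧸ maximalIdeal A ^ n))ˣ,
      _root_.Fermat.Agent.S59.H870.IsOStd 𝔓 (cj U (mapRep (Ideal.Quotient.mk (maximalIdeal A ^ n)) r))) :
    ∃ U : (M2 A)ˣ, _root_.Fermat.Agent.S59.H870.IsOStd 𝔓 (cj U r) := by
  obtain ⟨σ₀, hσ₀, hσ₀'⟩ := exists_inertia_cycExp_ne_one p hp hp2 𝔓 h𝔓
  have htr : IsUnit (r σ₀ - 1).trace := by
    obtain ⟨U1, hU1⟩ := h 1 one_ne_zero
    have h3 := isUnit_trace_sub_one_of_det hp hA U1 hU1 hσ₀ hσ₀' (hdet σ₀)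
    have h4 : (mapRep (Ideal.Quotient.mk (maximalIdeal A ^ 1)) r σ₀ - 1).trace =
        Ideal.Quotient.mk (maximalIdeal A ^ 1) (r σ₀ - 1).trace := by
      rw [Matrix.trace_fin_two, Matrix.trace_fin_two]
      simp
    rw [h4] at h3
    haveI : IsLocalHom (Ideal.Quotient.mk (maximalIdeal A ^ 1)) :=
      IsLocalHom.of_surjective _ Ideal.Quotient.mk_surjective
    exact isUnit_of_map_unit (Ideal.Quotient.mk (maximalIdeal A ^ 1)) _ h3
  obtain ⟨Q, j, hQ⟩ := exists_unit_col (r σ₀ - 1) htr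
  refine ⟨Q⁻¹, _root_.Fermat.Agent.S59.H870.IsOStd.of_quotients fun n hn => ?_⟩
  obtain ⟨Un, hUn⟩ := h n hn
  exact _root_.Fermat.Agent.S59.H870.isOStd_mapRep_conj _ hσ₀ Q j hQ Un hUn

end Main

end Fermat.Agent.S59.H870

end
-- ===== PACK-END S59/H870/OrdMat.lean

-- ===== PACK-BEGIN S58/H94/Cmp.lean
section




/-!
# Row S58 (helper94): comparison of two adic Galois representations by a common quadratic
relation

If two continuous Galois actions over a complete DVR `𝒪` satisfy, at every Frobenius element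
outside a finite set `S ∋ p`, the *same* quadratic relation `X² - t_ℓ X + ℓ`, then every element
`g` of `G_ℚ` satisfies on both a common relation `X² - a X + χ(g)` (`χ` the `p`-adic cyclotomic
character).  This is the Chebotarev argument of the S30 glue (helper990), applied to the direct
sum.  No determinant and no irreducibility are needed to compare the two actions afterwards.
-/

set_option autoImplicit false

namespace Fermat.Agent.S58.H94

open Fermat.Agent.S30.H990 Fermat.Agent.S55.H414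

/-- The weak Chebotarev statement, unconditional. -/
theorem chebWeak_h94 : ChebWeak :=
  chebWeak_of_frobeniusDivision Fermat.Agent.Lib.Cheb.frobeniusDivision

section Gen

variable {𝒪 : Type} [CommRing 𝒪] [IsDomain 𝒪] [IsDiscreteValuationRing 𝒪]
  [IsAdicComplete (IsLocalRing.maximalIdeal 𝒪) 𝒪] [Finite (IsLocalRing.ResidueField 𝒪)]
  {M : Type} [AddCommGroup M] [Module 𝒪 M]

omit [IsAdicComplete (IsLocalRing.maximalIdeal 𝒪) 𝒪] [Finite (IsLocalRing.ResidueField 𝒪)] in
/-- The quadratic relation modulo `𝔪 ^ n` for every element of `G_ℚ` (generic form of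
`S30.H990.exists_rel_mod`). -/
theorem exists_rel_mod_gen (p : ℕ) [Fact p.Prime] (S : Finset ℕ) (hpS : p ∈ S)
    (ρ : _root_.Fermat.Agent.S30.H990.GQ →* Module.End 𝒪 M) (cont : GaloisActionIsAdicContinuous 𝒪 ρ)
    (t : ℕ → 𝒪)
    (frob : ∀ ℓ : ℕ, ℓ.Prime → ℓ ∉ S →
      ∀ A : ValuationSubring (AlgebraicClosure ℚ), A.LiesOverPrime ℓ →
        ∀ σ : _root_.Fermat.Agent.S30.H990.GQ, A.IsFrobeniusAt σ ℓ →
          ρ σ * ρ σ - t ℓ • ρ σ + (ℓ : 𝒪) • 1 = 0)
    (d : _root_.Fermat.Agent.S30.H990.GQ →* 𝒪ˣ)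
    (hdfrob : ∀ ℓ : ℕ, ℓ.Prime → ℓ ≠ p → ∀ A : ValuationSubring (AlgebraicClosure ℚ),
      A.LiesOverPrime ℓ → ∀ σ : _root_.Fermat.Agent.S30.H990.GQ, A.IsFrobeniusAt σ ℓ → ((d σ : 𝒪ˣ) : 𝒪) = (ℓ : 𝒪))
    (hdcont : ∀ (n : ℕ) (σ : _root_.Fermat.Agent.S30.H990.GQ), (∀ x ∈ cycloLevel (p ^ n), σ x = x) →
      ((d σ : 𝒪ˣ) : 𝒪) - 1 ∈ IsLocalRing.maximalIdeal 𝒪 ^ n)
    (g : _root_.Fermat.Agent.S30.H990.GQ) (n : ℕ) :
    ∃ a : 𝒪, ∀ v : M, ρ g (ρ g v) - a • ρ g v + ((d g : 𝒪ˣ) : 𝒪) • v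
      ∈ (IsLocalRing.maximalIdeal 𝒪 ^ n) • (⊤ : Submodule 𝒪 M) := by
  obtain ⟨L₁, hL₁fin, hL₁⟩ := cont n
  have : FiniteDimensional ℚ L₁ := hL₁fin
  have hLfin : FiniteDimensional ℚ ↥(L₁ ⊔ cycloLevel (p ^ n)) :=
    IntermediateField.finiteDimensional_sup L₁ (cycloLevel (p ^ n))
  obtain ⟨ℓ, hℓ, hℓS, A, hA, τ, hτ, j, hj⟩ :=
    chebWeak_h94 (L₁ ⊔ cycloLevel (p ^ n)) hLfin g S
  have hℓp : ℓ ≠ p := fun h => hℓS (h ▸ hpS)
  set σ : _root_.Fermat.Agent.S30.H990.GQ := (τ ^ j)⁻¹ * g with hσ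
  have hg : g = τ ^ j * σ := by rw [hσ, mul_inv_cancel_left]
  have hσfix : ∀ x ∈ L₁ ⊔ cycloLevel (p ^ n), σ x = x := by
    intro x hx
    have h1 : σ x = (τ ^ j)⁻¹ (g x) := rfl
    rw [h1, hj x hx]
    exact (τ ^ j).symm_apply_apply x
  have hs : ∀ v : M, ρ σ v - v
      ∈ (IsLocalRing.maximalIdeal 𝒪 ^ n) • (⊤ : Submodule 𝒪 M) :=
    hL₁ σ (fun x hx => hσfix x ((le_sup_left : L₁ ≤ L₁ ⊔ cycloLevel (p ^ n)) hx))
  have hu : ((d σ : 𝒪ˣ) : 𝒪) - 1 ∈ IsLocalRing.maximalIdeal 𝒪 ^ n :=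
    hdcont n σ (fun x hx =>
      hσfix x ((le_sup_right : cycloLevel (p ^ n) ≤ L₁ ⊔ cycloLevel (p ^ n)) hx))
  have hfrob := frob ℓ hℓ hℓS A hA τ hτ
  obtain ⟨t', ht⟩ := lucas (ρ τ) (t ℓ) (ℓ : 𝒪) hfrob j
  refine ⟨t', fun v => ?_⟩
  have key := rel_mod_of_mul (IsLocalRing.maximalIdeal 𝒪 ^ n) (ρ τ ^ j) (ρ σ) t'
    ((ℓ : 𝒪) ^ j) ((d σ : 𝒪ˣ) : 𝒪) ht hs hu v
  have hρg : ρ g = ρ τ ^ j * ρ σ := by rw [hg, map_mul, map_pow]
  have hdg : ((d g : 𝒪ˣ) : 𝒪) = (ℓ : 𝒪) ^ j * ((d σ : 𝒪ˣ) : 𝒪) := by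
    rw [hg, map_mul, map_pow, Units.val_mul, Units.val_pow_eq_pow_val,
      hdfrob ℓ hℓ hℓp A hA τ hτ]
  rw [hρg, hdg]
  exact key

/-- The exact quadratic relation for every element of `G_ℚ`. -/
theorem exists_rel_gen [Module.Finite 𝒪 M] (p : ℕ) [Fact p.Prime] (S : Finset ℕ) (hpS : p ∈ S)
    (ρ : _root_.Fermat.Agent.S30.H990.GQ →* Module.End 𝒪 M) (cont : GaloisActionIsAdicContinuous 𝒪 ρ)
    (t : ℕ → 𝒪)
    (frob : ∀ ℓ : ℕ, ℓ.Prime → ℓ ∉ S →
      ∀ A : ValuationSubring (AlgebraicClosure ℚ), A.LiesOverPrime ℓ →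
        ∀ σ : _root_.Fermat.Agent.S30.H990.GQ, A.IsFrobeniusAt σ ℓ →
          ρ σ * ρ σ - t ℓ • ρ σ + (ℓ : 𝒪) • 1 = 0)
    (d : _root_.Fermat.Agent.S30.H990.GQ →* 𝒪ˣ)
    (hdfrob : ∀ ℓ : ℕ, ℓ.Prime → ℓ ≠ p → ∀ A : ValuationSubring (AlgebraicClosure ℚ),
      A.LiesOverPrime ℓ → ∀ σ : _root_.Fermat.Agent.S30.H990.GQ, A.IsFrobeniusAt σ ℓ → ((d σ : 𝒪ˣ) : 𝒪) = (ℓ : 𝒪))
    (hdcont : ∀ (n : ℕ) (σ : _root_.Fermat.Agent.S30.H990.GQ), (∀ x ∈ cycloLevel (p ^ n), σ x = x) →
      ((d σ : 𝒪ˣ) : 𝒪) - 1 ∈ IsLocalRing.maximalIdeal 𝒪 ^ n)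
    (g : _root_.Fermat.Agent.S30.H990.GQ) : ∃ a, Fermat.Agent.S30.H990.Rel ρ d g a :=
  exists_rel_of_mod ρ d g
    (fun n => exists_rel_mod_gen p S hpS ρ cont t frob d hdfrob hdcont g n)

end Gen

section Pair

variable {𝒪 : Type} [CommRing 𝒪] [IsDomain 𝒪] [IsDiscreteValuationRing 𝒪]
  [IsAdicComplete (IsLocalRing.maximalIdeal 𝒪) 𝒪] [Finite (IsLocalRing.ResidueField 𝒪)]

/-- The diagonal action on the product of two adic representations. -/
noncomputable def prodRho (ρ₁ ρ₂ : GaloisRepAdic 𝒪) : _root_.Fermat.Agent.S30.H990.GQ →* Module.End 𝒪 (ρ₁.V × ρ₂.V) where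
  toFun σ := LinearMap.prodMap (ρ₁.ρ σ) (ρ₂.ρ σ)
  map_one' := by
    rw [map_one, map_one]
    exact LinearMap.prodMap_one
  map_mul' σ τ := by
    rw [map_mul, map_mul]
    exact (LinearMap.prodMap_mul _ _ _ _).symm

omit [IsAdicComplete (IsLocalRing.maximalIdeal 𝒪) 𝒪] [Finite (IsLocalRing.ResidueField 𝒪)] in
theorem prodRho_apply (ρ₁ ρ₂ : GaloisRepAdic 𝒪) (σ : _root_.Fermat.Agent.S30.H990.GQ) (v : ρ₁.V × ρ₂.V) :
    prodRho ρ₁ ρ₂ σ v = (ρ₁.ρ σ v.1, ρ₂.ρ σ v.2) := rfl

omit [IsDomain 𝒪] [IsDiscreteValuationRing 𝒪] [IsAdicComplete (IsLocalRing.maximalIdeal 𝒪) 𝒪]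
  [Finite (IsLocalRing.ResidueField 𝒪)] in
theorem prod_mem_smul_top (I : Ideal 𝒪) {V₁ V₂ : Type} [AddCommGroup V₁] [Module 𝒪 V₁]
    [AddCommGroup V₂] [Module 𝒪 V₂] {x : V₁} {y : V₂}
    (hx : x ∈ I • (⊤ : Submodule 𝒪 V₁)) (hy : y ∈ I • (⊤ : Submodule 𝒪 V₂)) :
    ((x, y) : V₁ × V₂) ∈ I • (⊤ : Submodule 𝒪 (V₁ × V₂)) := by
  have h1 : ((x, 0) : V₁ × V₂) ∈ I • (⊤ : Submodule 𝒪 (V₁ × V₂)) := by
    refine Submodule.smul_induction_on (p := fun x => ((x, 0) : V₁ × V₂) ∈
      I • (⊤ : Submodule 𝒪 (V₁ × V₂))) hx ?_ ?_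
    · intro r hr n _
      have : ((r • n, 0) : V₁ × V₂) = r • ((n, 0) : V₁ × V₂) := by
        rw [Prod.smul_mk, smul_zero]
      rw [this]
      exact Submodule.smul_mem_smul hr Submodule.mem_top
    · intro a b ha hb
      have : ((a + b, 0) : V₁ × V₂) = (a, 0) + (b, 0) := by
        rw [Prod.mk_add_mk, add_zero]
      rw [this]
      exact Submodule.add_mem _ ha hb
  have h2 : ((0, y) : V₁ × V₂) ∈ I • (⊤ : Submodule 𝒪 (V₁ × V₂)) := by
    refine Submodule.smul_induction_on (p := fun y => ((0, y) : V₁ × V₂) ∈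
      I • (⊤ : Submodule 𝒪 (V₁ × V₂))) hy ?_ ?_
    · intro r hr n _
      have : ((0, r • n) : V₁ × V₂) = r • ((0, n) : V₁ × V₂) := by
        rw [Prod.smul_mk, smul_zero]
      rw [this]
      exact Submodule.smul_mem_smul hr Submodule.mem_top
    · intro a b ha hb
      have : ((0, a + b) : V₁ × V₂) = (0, a) + (0, b) := by
        rw [Prod.mk_add_mk, add_zero]
      rw [this]
      exact Submodule.add_mem _ ha hb
  have : ((x, y) : V₁ × V₂) = (x, 0) + (0, y) := by
    rw [Prod.mk_add_mk, add_zero, zero_add]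
  rw [this]
  exact Submodule.add_mem _ h1 h2

omit [IsAdicComplete (IsLocalRing.maximalIdeal 𝒪) 𝒪] [Finite (IsLocalRing.ResidueField 𝒪)] in
theorem prodRho_cont (ρ₁ ρ₂ : GaloisRepAdic 𝒪) :
    GaloisActionIsAdicContinuous 𝒪 (prodRho ρ₁ ρ₂) := by
  intro n
  obtain ⟨L₁, hL₁fin, hL₁⟩ := ρ₁.isAdicContinuous n
  obtain ⟨L₂, hL₂fin, hL₂⟩ := ρ₂.isAdicContinuous n
  have : FiniteDimensional ℚ L₁ := hL₁fin
  have : FiniteDimensional ℚ L₂ := hL₂fin
  refine ⟨L₁ ⊔ L₂, IntermediateField.finiteDimensional_sup L₁ L₂, fun σ hσ v => ?_⟩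
  have h1 := hL₁ σ (fun x hx => hσ x ((le_sup_left : L₁ ≤ L₁ ⊔ L₂) hx)) v.1
  have h2 := hL₂ σ (fun x hx => hσ x ((le_sup_right : L₂ ≤ L₁ ⊔ L₂) hx)) v.2
  have : prodRho ρ₁ ρ₂ σ v - v = (ρ₁.ρ σ v.1 - v.1, ρ₂.ρ σ v.2 - v.2) := by
    rw [prodRho_apply]
    rfl
  rw [this]
  exact prod_mem_smul_top _ h1 h2

/-- **Common quadratic relation.**  Two adic representations with the same quadratic relation
at the Frobenius elements outside `S` satisfy a common relation `X² - a X + d(g)` at every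
`g ∈ G_ℚ`. -/
theorem exists_common_rel (p : ℕ) [Fact p.Prime] (S : Finset ℕ) (hpS : p ∈ S)
    (ρ₁ ρ₂ : GaloisRepAdic 𝒪) (t : ℕ → 𝒪)
    (frob₁ : ∀ ℓ : ℕ, ℓ.Prime → ℓ ∉ S →
      ∀ A : ValuationSubring (AlgebraicClosure ℚ), A.LiesOverPrime ℓ →
        ∀ σ : _root_.Fermat.Agent.S30.H990.GQ, A.IsFrobeniusAt σ ℓ →
          ρ₁.ρ σ * ρ₁.ρ σ - t ℓ • ρ₁.ρ σ + (ℓ : 𝒪) • 1 = 0)
    (frob₂ : ∀ ℓ : ℕ, ℓ.Prime → ℓ ∉ S →
      ∀ A : ValuationSubring (AlgebraicClosure ℚ), A.LiesOverPrime ℓ →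
        ∀ σ : _root_.Fermat.Agent.S30.H990.GQ, A.IsFrobeniusAt σ ℓ →
          ρ₂.ρ σ * ρ₂.ρ σ - t ℓ • ρ₂.ρ σ + (ℓ : 𝒪) • 1 = 0)
    (d : _root_.Fermat.Agent.S30.H990.GQ →* 𝒪ˣ)
    (hdfrob : ∀ ℓ : ℕ, ℓ.Prime → ℓ ≠ p → ∀ A : ValuationSubring (AlgebraicClosure ℚ),
      A.LiesOverPrime ℓ → ∀ σ : _root_.Fermat.Agent.S30.H990.GQ, A.IsFrobeniusAt σ ℓ → ((d σ : 𝒪ˣ) : 𝒪) = (ℓ : 𝒪))
    (hdcont : ∀ (n : ℕ) (σ : _root_.Fermat.Agent.S30.H990.GQ), (∀ x ∈ cycloLevel (p ^ n), σ x = x) →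
      ((d σ : 𝒪ˣ) : 𝒪) - 1 ∈ IsLocalRing.maximalIdeal 𝒪 ^ n)
    (g : _root_.Fermat.Agent.S30.H990.GQ) : ∃ a : 𝒪, Fermat.Agent.S30.H990.Rel ρ₁.ρ d g a ∧ Fermat.Agent.S30.H990.Rel ρ₂.ρ d g a := by
  have frob : ∀ ℓ : ℕ, ℓ.Prime → ℓ ∉ S →
      ∀ A : ValuationSubring (AlgebraicClosure ℚ), A.LiesOverPrime ℓ →
        ∀ σ : _root_.Fermat.Agent.S30.H990.GQ, A.IsFrobeniusAt σ ℓ →
          prodRho ρ₁ ρ₂ σ * prodRho ρ₁ ρ₂ σ - t ℓ • prodRho ρ₁ ρ₂ σ + (ℓ : 𝒪) • 1 = 0 := by
    intro ℓ hℓ hℓS A hA σ hσ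
    have h1 := frob₁ ℓ hℓ hℓS A hA σ hσ
    have h2 := frob₂ ℓ hℓ hℓS A hA σ hσ
    apply LinearMap.ext
    rintro ⟨v, w⟩
    have e1 := congrArg (fun f : Module.End 𝒪 ρ₁.V => f v) h1
    have e2 := congrArg (fun f : Module.End 𝒪 ρ₂.V => f w) h2
    simp only [LinearMap.add_apply, LinearMap.sub_apply, Module.End.mul_apply,
      LinearMap.smul_apply, Module.End.one_apply, LinearMap.zero_apply] at e1 e2
    simp only [LinearMap.add_apply, LinearMap.sub_apply, Module.End.mul_apply,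
      LinearMap.smul_apply, Module.End.one_apply, LinearMap.zero_apply, prodRho_apply,
      Prod.smul_mk, Prod.mk_sub_mk, Prod.mk_add_mk, e1, e2]
    rfl
  obtain ⟨a, ha⟩ := exists_rel_gen p S hpS (prodRho ρ₁ ρ₂) (prodRho_cont ρ₁ ρ₂) t frob d
    hdfrob hdcont g
  refine ⟨a, ?_, ?_⟩
  · unfold Fermat.Agent.S30.H990.Rel
    apply LinearMap.ext
    intro v
    have := rel_apply (prodRho ρ₁ ρ₂) d ha ((v, 0) : ρ₁.V × ρ₂.V)
    have e := congrArg Prod.fst this
    simpa [prodRho_apply] using e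
  · unfold Fermat.Agent.S30.H990.Rel
    apply LinearMap.ext
    intro w
    have := rel_apply (prodRho ρ₁ ρ₂) d ha ((0, w) : ρ₁.V × ρ₂.V)
    have e := congrArg Prod.snd this
    simpa [prodRho_apply] using e

end Pair

end Fermat.Agent.S58.H94

end
-- ===== PACK-END S58/H94/Cmp.lean

-- ===== PACK-BEGIN Ribet/H109/PeuNode.lean
section


/-!
# Row 38 / S39, W-form: the node analysis when inertia may SWAP the two node roots (helper109)

`S13.H64.inKer_sub_of_node` (helper64) assumes that `σ` fixes the node root `e₁` of the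
2-division cubic; this holds for the Frey curve (rational 2-torsion) but not for a general curve
with multiplicative reduction (the two node roots `e₁`, `e₁ + α` are conjugate when `v(Δ)` is
odd).  Here `σ` is only assumed to fix the coefficients: then `σ` fixes the SIMPLE root
`e₁ + β`, hence the midpoint `e₁ + α / 2` of the node roots, and the scaled argument
`inKer_sub_of_scaled` runs with the midpoint as centre.

* `Roots.map_eq_h109`       : `σ` permutes the roots.
* `sigma_simple_h109`       : `σ (e₁ + β) = e₁ + β`.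
* `sigma_mid_h109`          : `σ (e₁ + α / 2) = e₁ + α / 2`.
* `inKer_sub_of_node_sym_h109` : `σ P - P ∈ E₁` for an integral odd torsion point `P`.

Mathlib + S05/S13 generic lemmas only.
-/

set_option autoImplicit false
set_option linter.unusedSectionVars false
set_option linter.unusedVariables false

namespace Fermat.Agent.Ribet.H109.Peu

open WeierstrassCurve WeierstrassCurve.Affine WeierstrassCurve.Affine.Point
open Fermat.Agent.S05 Fermat.Agent.S05.SameRed Fermat.Agent.S05.Assemble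
open Fermat.Agent.S13.H64

variable {K : Type*} [Field K] [DecidableEq K]
  {Γ₀ : Type*} [LinearOrderedCommGroupWithZero Γ₀]
variable {W : Affine K} {v : Valuation K Γ₀}

/-- The cubic `4 (X - r₁)(X - r₂)(X - r₃)` in coefficient form. -/
theorem Roots.cubic_h109 {r₁ r₂ r₃ : K} (hr : Roots W r₁ r₂ r₃) (z : K) :
    4 * z ^ 3 + W.b₂ * z ^ 2 + 2 * W.b₄ * z + W.b₆ = 4 * ((z - r₁) * (z - r₂) * (z - r₃)) := by
  rw [hr.b₂, hr.b₄, hr.b₆]
  ring

/-- A ring endomorphism fixing `b₂, b₄, b₆` permutes the roots of the 2-division cubic. -/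
theorem Roots.map_eq_h109 (h2 : v (2 : K) = 1) {r₁ r₂ r₃ : K} (hr : Roots W r₁ r₂ r₃)
    (σ : K →+* K) (hσ₂ : σ W.b₂ = W.b₂) (hσ₄ : σ W.b₄ = W.b₄) (hσ₆ : σ W.b₆ = W.b₆) :
    σ r₃ = r₁ ∨ σ r₃ = r₂ ∨ σ r₃ = r₃ := by
  have h20 : (2 : K) ≠ 0 := by
    intro h0; rw [h0, _root_.map_zero] at h2; exact zero_ne_one h2
  have h40 : (4 : K) ≠ 0 := by
    have : (4 : K) = 2 * 2 := by norm_num
    rw [this]; exact mul_ne_zero h20 h20
  have h0 : 4 * r₃ ^ 3 + W.b₂ * r₃ ^ 2 + 2 * W.b₄ * r₃ + W.b₆ = 0 := by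
    rw [Roots.cubic_h109 hr]; ring
  have h1 := congrArg σ h0
  simp only [map_add, map_mul, map_pow, map_ofNat, hσ₂, hσ₄, hσ₆, _root_.map_zero] at h1
  rw [Roots.cubic_h109 hr] at h1
  rcases mul_eq_zero.mp h1 with h | h
  · exact absurd h h40
  rcases mul_eq_zero.mp h with h | h
  · rcases mul_eq_zero.mp h with h | h
    · exact Or.inl (sub_eq_zero.mp h)
    · exact Or.inr (Or.inl (sub_eq_zero.mp h))
  · exact Or.inr (Or.inr (sub_eq_zero.mp h))

/-- `σ` acts trivially on the residue field and fixes the coefficients: it fixes the simple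
root. -/
theorem sigma_simple_h109 (h2 : v (2 : K) = 1)
    (σ : K →+* K) (hres : ∀ z, v z ≤ 1 → v (σ z - z) < 1)
    (hσ₂ : σ W.b₂ = W.b₂) (hσ₄ : σ W.b₄ = W.b₄) (hσ₆ : σ W.b₆ = W.b₆)
    {e₁ α β : K} (hr : Roots W e₁ (e₁ + α) (e₁ + β)) (he₁ : v e₁ ≤ 1) (hα : v α < 1)
    (hβ : v β = 1) : σ (e₁ + β) = e₁ + β := by
  have hr₃ : v (e₁ + β) ≤ 1 := val_add_le_one he₁ hβ.le
  have hlt := hres (e₁ + β) hr₃
  rcases Roots.map_eq_h109 h2 hr σ hσ₂ hσ₄ hσ₆ with h | h | h
  · exfalso
    rw [h] at hlt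
    have : e₁ - (e₁ + β) = -β := by ring
    rw [this, Valuation.map_neg, hβ] at hlt
    exact lt_irrefl _ hlt
  · exfalso
    rw [h] at hlt
    have : e₁ + α - (e₁ + β) = α - β := by ring
    rw [this, val_sub_eq_of_lt' (by rw [hβ]; exact hα), hβ] at hlt
    exact lt_irrefl _ hlt
  · exact h

/-- … hence the midpoint of the two node roots. -/
theorem sigma_mid_h109 (h2 : v (2 : K) = 1)
    (σ : K →+* K) (hres : ∀ z, v z ≤ 1 → v (σ z - z) < 1)
    (hσ₂ : σ W.b₂ = W.b₂) (hσ₄ : σ W.b₄ = W.b₄) (hσ₆ : σ W.b₆ = W.b₆)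
    {e₁ α β : K} (hr : Roots W e₁ (e₁ + α) (e₁ + β)) (he₁ : v e₁ ≤ 1) (hα : v α < 1)
    (hβ : v β = 1) : σ (e₁ + α / 2) = e₁ + α / 2 := by
  have h20 : (2 : K) ≠ 0 := by
    intro h0; rw [h0, _root_.map_zero] at h2; exact zero_ne_one h2
  have h40 : (4 : K) ≠ 0 := by
    have : (4 : K) = 2 * 2 := by norm_num
    rw [this]; exact mul_ne_zero h20 h20
  have hs := sigma_simple_h109 h2 σ hres hσ₂ hσ₄ hσ₆ hr he₁ hα hβ
  have hm : e₁ + α / 2 = (-(W.b₂) / 4 - (e₁ + β)) / 2 := by
    rw [hr.b₂]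
    field_simp
    ring
  rw [hm, map_div₀, map_sub, map_div₀, map_neg, hσ₂, hs, map_ofNat, map_ofNat]

/-- **[Node], symmetric form.**  As `S13.H64.inKer_sub_of_node`, with `σ e₁ = e₁` replaced by
`σ` fixing the midpoint of the node roots. -/
theorem inKer_sub_of_node_mid_h109 (hW : IntegralCoeffs W v) (h2 : v (2 : K) = 1)
    (σ : K →+* K) (hres : ∀ z, v z ≤ 1 → v (σ z - z) < 1)
    (hσ₁ : σ W.a₁ = W.a₁) (hσ₃ : σ W.a₃ = W.a₃)
    {n : ℕ} (hn : Odd n)
    {e₁ α β : K} (hr : Roots W e₁ (e₁ + α) (e₁ + β)) (he₁ : v e₁ ≤ 1) (hα : v α < 1)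
    (hβ : v β = 1) (hσm : σ (e₁ + α / 2) = e₁ + α / 2)
    {π : K} (hπ0 : π ≠ 0) (hσπ : σ π = π) (hπ : v π ^ n = v α ^ 2)
    (hC3 : NodeTorsion W v e₁ α n)
    {x y : K} (h : W.Nonsingular x y) (h' : W.Nonsingular (σ x) (σ y))
    (hP : n • Point.some x y h = 0) (hx : v x ≤ 1) :
    InKer W v (Point.some (σ x) (σ y) h' - Point.some x y h) := by
  have hy : v y ≤ 1 := Assemble.val_y_le_one hW h.1 hx
  have h4 := val_four (v := v) h2
  have hn0 : n ≠ 0 := hn.pos.ne'
  have hxe : v (x - e₁) ≤ 1 := val_sub_le_one hx he₁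
  have hr₂ : v (e₁ + α) ≤ 1 := val_add_le_one he₁ hα.le
  have hr₃ : v (e₁ + β) ≤ 1 := val_add_le_one he₁ hβ.le
  have hβα : v (β - α) = 1 := by
    rw [val_sub_eq_of_lt (by rw [hβ]; exact hα), hβ]
  rcases hxe.lt_or_eq with hlt | heq
  · -- off `E₀`
    obtain ⟨hαx, j, hj⟩ := hC3 x y h hP hlt
    have hvc : v (π ^ j) = v (x - e₁) := by
      apply pow_eq_pow_imp_eq hn0
      rw [hj, map_pow, ← pow_mul, mul_comm, pow_mul, hπ, ← pow_mul]
    have hxα : v (x - (e₁ + α)) = v (x - e₁) := by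
      have : x - (e₁ + α) = (x - e₁) - α := by ring
      rw [this, val_sub_eq_of_lt hαx]
    have hxβ : v (x - (e₁ + β)) = 1 := by
      have : x - (e₁ + β) = (x - e₁) - β := by ring
      rw [this, val_sub_eq_of_lt' (by rw [hβ]; exact hlt), hβ]
    have hη : v (2 * y + W.a₁ * x + W.a₃) = v (π ^ j) := by
      apply pow_eq_pow_imp_eq (n := 2) (by norm_num)
      rw [← map_pow, hr.eta_sq h.1, map_mul, map_mul, map_mul, h4, hxα, hxβ, hvc]
      simp [pow_two]
    have hα2 : v (α / 2) = v α := by rw [map_div₀, h2, div_one]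
    have hxm : v (x - (e₁ + α / 2)) = v (x - e₁) := by
      have : x - (e₁ + α / 2) = (x - e₁) - α / 2 := by ring
      rw [this, val_sub_eq_of_lt (by rw [hα2]; exact hαx)]
    exact inKer_sub_of_scaled hW h2 σ hres hσ₁ hσ₃ h h' hx (c := π ^ j) (e := e₁ + α / 2)
      (pow_ne_zero _ hπ0) (by rw [map_pow, hσπ]) hσm hη (by rw [hvc, hxm])
  · -- on `E₀`
    have hη1 : v (2 * y + W.a₁ * x + W.a₃) = 1 := by
      apply val_eta_eq_one_of_integral_torsion hW h2 hn h hP hx
      intro hη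
      have hsq := val_eta_sq_lt_one hη
      rw [hr.eta_sq h.1, map_mul, h4, one_mul] at hsq
      have hxα : v (x - (e₁ + α)) = 1 := by
        have : x - (e₁ + α) = (x - e₁) - α := by ring
        rw [this, val_sub_eq_of_lt (by rw [heq]; exact hα), heq]
      have h3 : v (x - (e₁ + β)) < 1 := by
        rw [map_mul, map_mul, heq, hxα, one_mul, one_mul] at hsq
        exact hsq
      have h31 : v (e₁ + β - e₁) = 1 := by
        have : e₁ + β - e₁ = β := by ring
        rw [this, hβ]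
      have h32 : v (e₁ + β - (e₁ + α)) = 1 := by
        have : e₁ + β - (e₁ + α) = β - α := by ring
        rw [this, hβα]
      exact hr.swap₁₃.val_WX_eq_one hW h2 hx hr₃ hr₂ he₁ hη h3 h32 h31
    exact inKer_sub_of_scaled hW h2 σ hres hσ₁ hσ₃ h h' hx (c := 1) (e := 0) one_ne_zero
      (map_one σ) (map_zero σ) (by rw [hη1, map_one]) (by rw [sub_zero, map_one]; exact hx)

/-- **[Node], symmetric form, coefficients fixed.** -/
theorem inKer_sub_of_node_sym_h109 (hW : IntegralCoeffs W v) (h2 : v (2 : K) = 1)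
    (σ : K →+* K) (hres : ∀ z, v z ≤ 1 → v (σ z - z) < 1)
    (hσ₁ : σ W.a₁ = W.a₁) (hσ₃ : σ W.a₃ = W.a₃)
    (hσb₂ : σ W.b₂ = W.b₂) (hσb₄ : σ W.b₄ = W.b₄) (hσb₆ : σ W.b₆ = W.b₆)
    {n : ℕ} (hn : Odd n)
    {e₁ α β : K} (hr : Roots W e₁ (e₁ + α) (e₁ + β)) (he₁ : v e₁ ≤ 1) (hα : v α < 1)
    (hβ : v β = 1)
    {π : K} (hπ0 : π ≠ 0) (hσπ : σ π = π) (hπ : v π ^ n = v α ^ 2)
    (hC3 : NodeTorsion W v e₁ α n)
    {x y : K} (h : W.Nonsingular x y) (h' : W.Nonsingular (σ x) (σ y))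
    (hP : n • Point.some x y h = 0) (hx : v x ≤ 1) :
    InKer W v (Point.some (σ x) (σ y) h' - Point.some x y h) :=
  inKer_sub_of_node_mid_h109 hW h2 σ hres hσ₁ hσ₃ hn hr he₁ hα hβ
    (sigma_mid_h109 h2 σ hres hσb₂ hσb₄ hσb₆ hr he₁ hα hβ) hπ0 hσπ hπ hC3 h h' hP hx

end Fermat.Agent.Ribet.H109.Peu

end
-- ===== PACK-END Ribet/H109/PeuNode.lean

-- ===== PACK-BEGIN S59/LO/H405/PivotSpec.lean
section


/-!
# Row S59, cell LO, sub-row LO-IA (helper405): the IA-core in `ρ̄`-form at `p ∈ {3, 5}`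

Two Props, the inputs of the W-TOP `pivotW35_of` (`PivotTop.lean`):

* `IACoreFlat35Statement` : the text of `S38.IA.IACore5Statement` with `p = 3 ∨ p = 5` instead of
  `5 ≤ p` (`ρ̄` flat at `p`, level `ribetLevel p Smin Piv` prime to `p`);
* `IACoreSord35Statement` : the same for `ρ̄` strictly ordinary and NOT flat at `p`, at the level
  `ribetLevel p Smin Piv * p`.

Both are instances of Ribet's theorem (level lowering at a pivot), hence TRUE.
`iaCoreFlat35_of` : the flat Prop follows from `IACoreStatement` (all `p`), and from the statement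
for `5 ≤ p` together with the statement at `p = 3`.
-/

set_option autoImplicit false

open Polynomial IsLocalRing

namespace Fermat.Agent.S59.LO.H405

open Fermat.Agent.S59.Arch Fermat.Agent.S38.IA

/-- **IA-CORE, flat case, `p ∈ {3, 5}`.** -/
def IACoreFlat35Statement : Prop :=
  ∀ (p : ℕ) [Fact p.Prime] (_hp : p = 3 ∨ p = 5)
    (𝒪 : Type) [CommRing 𝒪] [IsDomain 𝒪] [IsDiscreteValuationRing 𝒪]
    [IsAdicComplete (maximalIdeal 𝒪) 𝒪] [Finite (ResidueField 𝒪)] [CharZero 𝒪]
    (ρbar : ResidualGaloisRep (ResidueField 𝒪)) (Smin : Finset ℕ)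
    (_h : ResidualHyp p 𝒪 ρbar Smin)
    (_hflat : (GaloisRepAdic.ofResidualGaloisRep ρbar).IsFlatAt p)
    (Piv : Finset ℕ) (_hPiv : IsPivotSet p ρbar Smin Piv) (_hne : Piv.Nonempty)
    (_hroots : ∀ q ∈ Piv, ∀ m : ℕ, p ^ m ∣ q - 1 → ∃ ζ : 𝒪, IsPrimitiveRoot ζ (p ^ m))
    (_hmod : ResModular 𝒪 ρbar (ribetLevel p Smin Piv) (Smin ∪ Piv)),
    ∃ q ∈ Piv, ∃ S : Finset ℕ, ResModular 𝒪 ρbar (ribetLevel p Smin (Piv.erase q)) S

/-- **IA-CORE, strictly ordinary non-flat case, `p ∈ {3, 5}`**: the level is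
`ribetLevel p Smin Piv * p`. -/
def IACoreSord35Statement : Prop :=
  ∀ (p : ℕ) [Fact p.Prime] (_hp : p = 3 ∨ p = 5)
    (𝒪 : Type) [CommRing 𝒪] [IsDomain 𝒪] [IsDiscreteValuationRing 𝒪]
    [IsAdicComplete (maximalIdeal 𝒪) 𝒪] [Finite (ResidueField 𝒪)] [CharZero 𝒪]
    (ρbar : ResidualGaloisRep (ResidueField 𝒪)) (Smin : Finset ℕ)
    (_h : ResidualHyp p 𝒪 ρbar Smin)
    (_hso : (GaloisRepAdic.ofResidualGaloisRep ρbar).IsStrictOrdinaryAt p)
    (_hnflat : ¬ (GaloisRepAdic.ofResidualGaloisRep ρbar).IsFlatAt p)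
    (Piv : Finset ℕ) (_hPiv : IsPivotSet p ρbar Smin Piv) (_hne : Piv.Nonempty)
    (_hroots : ∀ q ∈ Piv, ∀ m : ℕ, p ^ m ∣ q - 1 → ∃ ζ : 𝒪, IsPrimitiveRoot ζ (p ^ m))
    (_hmod : ResModular 𝒪 ρbar (ribetLevel p Smin Piv * p) (Smin ∪ Piv)),
    ∃ q ∈ Piv, ∃ S : Finset ℕ, ResModular 𝒪 ρbar (ribetLevel p Smin (Piv.erase q) * p) S

/-- The flat Prop from the general IA-core. -/
theorem iaCoreFlat35_of_iaCore (h : IACoreStatement) : IACoreFlat35Statement :=
  fun p _ _ 𝒪 _ _ _ _ _ _ ρbar Smin hh hflat Piv hPiv hne hroots hmod =>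
    h p 𝒪 ρbar Smin hh hflat Piv hPiv hne hroots hmod

/-- **IA-CORE at `p = 3`, flat case** (the missing half of `IACoreFlat35Statement`). -/
def IACoreFlat3Statement : Prop :=
  ∀ (𝒪 : Type) [CommRing 𝒪] [IsDomain 𝒪] [IsDiscreteValuationRing 𝒪]
    [IsAdicComplete (maximalIdeal 𝒪) 𝒪] [Finite (ResidueField 𝒪)] [CharZero 𝒪]
    (ρbar : ResidualGaloisRep (ResidueField 𝒪)) (Smin : Finset ℕ)
    (_h : ResidualHyp 3 𝒪 ρbar Smin)
    (_hflat : (GaloisRepAdic.ofResidualGaloisRep ρbar).IsFlatAt 3)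
    (Piv : Finset ℕ) (_hPiv : IsPivotSet 3 ρbar Smin Piv) (_hne : Piv.Nonempty)
    (_hroots : ∀ q ∈ Piv, ∀ m : ℕ, 3 ^ m ∣ q - 1 → ∃ ζ : 𝒪, IsPrimitiveRoot ζ (3 ^ m))
    (_hmod : ResModular 𝒪 ρbar (ribetLevel 3 Smin Piv) (Smin ∪ Piv)),
    ∃ q ∈ Piv, ∃ S : Finset ℕ, ResModular 𝒪 ρbar (ribetLevel 3 Smin (Piv.erase q)) S

/-- The flat Prop from the statement for `5 ≤ p` (row HARD) and the statement at `p = 3`. -/
theorem iaCoreFlat35_of_five_three (h5 : IACore5Statement) (h3 : IACoreFlat3Statement) :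
    IACoreFlat35Statement := by
  intro p _ hp 𝒪 _ _ _ _ _ _ ρbar Smin hh hflat Piv hPiv hne hroots hmod
  rcases hp with rfl | rfl
  · exact h3 𝒪 ρbar Smin hh hflat Piv hPiv hne hroots hmod
  · exact h5 5 (le_refl 5) 𝒪 ρbar Smin hh hflat Piv hPiv hne hroots hmod

end Fermat.Agent.S59.LO.H405

end
-- ===== PACK-END S59/LO/H405/PivotSpec.lean

-- ===== PACK-BEGIN S59/TW/H201/KDegHeckeGen.lean
section




/-!
# S59 / HARD, cell TW: Hecke operators and transfers at `Γ_H`-levels — general lemma (helper201)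

* `sysTransfer_transferAlong201` : the commutation lemma of `S41/H761/HT.lean`
  (`heckeTransfer_transferAlong`) for ARBITRARY groups `H`, `G` embedded in an ambient group and
  two possibly different families of representatives `ρ` (for `G`) and `ρ'` (for `H`);
* `h2_incl_T201`, `h2_conj201`, `h2_incl_U201` : the three coset separation statements at the
  `Γ₀`-levels `N`, `N q` (extracted from `S41/H761/HT.lean`).
-/

set_option autoImplicit false

namespace Fermat.Agent.S59.TW.H201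

open CongruenceSubgroup Matrix.SpecialLinearGroup ModularForm
open Fermat.Agent.S29.H642 Fermat.Agent.S41.Spec Fermat.Agent.S41.H761 Fermat.Agent.S59.TW.H653
open P2MW.S_ModularForm_heckeT_slash_eq_self_of_mem_Gamma0.ModularForm.HeckeSlashInvariance
open scoped MatrixGroups

section General

variable {𝒢 G H : Type*} [Group 𝒢] [Group G] [Group H] {A : Type*} [AddCommGroup A]
  {I J : Type*} [Fintype I] [Fintype J] {ιG : G →* 𝒢} {ιH : H →* 𝒢} {ρ : I → 𝒢} {ρ' : J → 𝒢}

/-- **General commutation lemma** (any groups, two families of representatives).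
`f : H →* G` injective with finite index range, realized by conjugation by `d`; `ρ` a coset system
for `G`, `ρ'` a coset system for `H` with the same number of representatives; the conjugated
representatives `d ρ'_y d⁻¹` are representatives `ρ` up to `G`, and the cosets of the family
`d ρ'_y d⁻¹ x⁻¹` are distinct.  Then the operators of `ρ`, `ρ'` commute with the transfer along
`f`. -/
theorem sysTransfer_transferAlong201 (hιG : Function.Injective ιG)
    (hcard : Fintype.card J = Fintype.card I)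
    (sysN : IsCosetSystem ιG ιG ρ) (sysM : IsCosetSystem ιH ιH ρ') (f : H →* G)
    (hf : Function.Injective f) [f.range.FiniteIndex] (d : 𝒢)
    (hd : ∀ g : H, d * ιH g = (ιG.comp f) g * d)
    (H1 : ∀ y : J, ∃ (u : G) (y' : I), d * ρ' y * d⁻¹ = ιG u * ρ y')
    (H2 : ∀ (y y' : J) (m : G) (g : H) (Q : 𝒢),
      d * Q = ιG m * d → ρ' y * Q = ιH g * ρ' y' → m ∈ f.range)
    (ψ : Additive H →+ A) :
    sysN.transfer (transferAlong f ψ) = transferAlong f (sysM.transfer ψ) := by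
  classical
  let _ : Fintype (G ⧸ f.range) := f.range.fintypeQuotientOfFiniteIndex
  have sysT' := sysM.conj d hd hd
  have sysTr := IsCosetSystem.ofTransfer f hf ιG hιG
  -- family A
  have famA := sysTr.prod sysN (by
    intro x x' y y' g e
    have e2 : ρ y = ιG (x.out * f g * (x'.out)⁻¹) * ρ y' := by
      have h1 : ρ y = ιG x.out * (ιG (x.out)⁻¹ * ρ y) := by
        rw [map_inv, mul_inv_cancel_left]
      rw [h1, e]
      simp only [MonoidHom.comp_apply, map_mul, mul_assoc]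
    have hy := sysN.eq_of_mul _ _ _ e2
    subst hy
    have e3 : ιG (x.out * f g * (x'.out)⁻¹) = 1 := by
      have h2 : ιG (x.out * f g * (x'.out)⁻¹) * ρ y = 1 * ρ y := by
        rw [one_mul]; exact e2.symm
      exact mul_right_cancel h2
    have e4 : x.out * f g * (x'.out)⁻¹ = 1 := hιG (e3.trans (map_one _).symm)
    have e5 : f g = (x.out)⁻¹ * x'.out := by
      have := congrArg (fun t => (x.out)⁻¹ * t * x'.out) e4
      simpa [mul_assoc] using this
    have hmem : (x.out)⁻¹ * x'.out ∈ f.range := ⟨g, e5⟩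
    have h3 := QuotientGroup.eq.mpr hmem
    rw [QuotientGroup.out_eq', QuotientGroup.out_eq'] at h3
    exact ⟨h3, rfl⟩)
  -- family B
  have famB := sysT'.prod sysTr (by
    intro y y' x x' g e
    have hfg : (ιG.comp f) g = d * ιH g * d⁻¹ := by
      rw [hd g, mul_inv_cancel_right]
    have hQ : ρ' y * (d⁻¹ * ιG ((x.out)⁻¹ * x'.out) * d) = ιH g * ρ' y' := by
      have e' := congrArg (fun t => d⁻¹ * t * (ιG (x'.out)⁻¹)⁻¹ * d) e
      simp only [hfg, mul_assoc, inv_mul_cancel_left, inv_mul_cancel, mul_one, map_inv,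
        inv_inv] at e'
      simp only [map_mul, map_inv, mul_assoc]
      exact e'
    have hmem := H2 y y' ((x.out)⁻¹ * x'.out) g (d⁻¹ * ιG ((x.out)⁻¹ * x'.out) * d)
      (by simp only [mul_assoc, mul_inv_cancel_left]) hQ
    have hx : x = x' := by
      have h3 := QuotientGroup.eq.mpr hmem
      rwa [QuotientGroup.out_eq', QuotientGroup.out_eq'] at h3
    subst hx
    refine ⟨?_, rfl⟩
    have e2 := mul_right_cancel (e.trans (mul_assoc _ _ _).symm)
    exact sysT'.eq_of_mul _ _ _ e2)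
  rw [transferAlong_eq f hf ιG hιG, transferAlong_eq f hf ιG hιG,
    ← IsCosetSystem.conj_transfer sysM d hd hd]
  rw [IsCosetSystem.transfer_comp sysTr sysN famA, IsCosetSystem.transfer_comp sysT' sysTr famB]
  symm
  refine IsCosetSystem.transfer_eq_of_le_of_card famB famA ?_ ?_ ψ
  · rw [Fintype.card_prod, Fintype.card_prod, mul_comm, hcard]
  · rintro ⟨y, x⟩
    obtain ⟨u, y₁, hu⟩ := H1 y
    set w : G := u * sysN.coc y₁ (x.out)⁻¹ with hw
    have hmem : (w⁻¹)⁻¹ * ((w⁻¹ : G) : G ⧸ f.range).out ∈ f.range :=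
      QuotientGroup.eq.mp (QuotientGroup.out_eq' _).symm
    obtain ⟨g, hg⟩ := hmem
    rw [inv_inv] at hg
    refine ⟨(((w⁻¹ : G) : G ⧸ f.range), sysN.act y₁ (x.out)⁻¹), g, ?_⟩
    rw [hu, mul_assoc, sysN.spec y₁ (x.out)⁻¹, MonoidHom.comp_apply, hg]
    simp only [map_mul, map_inv, mul_assoc, hw]
    rw [mul_inv_cancel_left]

end General

/-! ## Coset separation at the `Γ₀`-levels -/

section Level

variable {N q l : ℕ} [Fact l.Prime]

/-- Separation for the inclusion, representatives of `T_l`. -/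
theorem h2_incl_T201 (hl' : ¬ l ∣ N * q) (y y' : OnePoint (ZMod l)) (m : Gamma0 N)
    (g : Gamma0 (N * q)) (e : heckeRep l y * ιN N m = ιN (N * q) g * heckeRep l y') :
    m ∈ (incl N q).range := by
  obtain ⟨a, b, d, hα, had⟩ := heckeRep_form (l := l) y
  obtain ⟨a', b', d', hα', had'⟩ := heckeRep_form (l := l) y'
  have e10 := congrArg (fun M : GL (Fin 2) ℝ => (M : Matrix (Fin 2) (Fin 2) ℝ) 1 0) e
  simp only [coe_mul_apply, coe_ιN_apply, hα, hα', Matrix.of_apply, Matrix.cons_val',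
    Matrix.cons_val_zero, Matrix.cons_val_one, Matrix.cons_val_fin_one, zero_mul, zero_add,
    mul_zero, add_zero] at e10
  have e10' : d * (m : SL(2, ℤ)) 1 0 = (g : SL(2, ℤ)) 1 0 * a' := by exact_mod_cast e10
  have hg : ((N * q : ℕ) : ℤ) ∣ (g : SL(2, ℤ)) 1 0 := dvd_of_mem_Gamma0 g.2
  have hcop : IsCoprime (d : ℤ) ((N * q : ℕ) : ℤ) := by
    have hl1 : IsCoprime (l : ℤ) ((N * q : ℕ) : ℤ) := by
      rw [Int.isCoprime_iff_gcd_eq_one, Int.gcd_natCast_natCast]
      exact (Fact.out : l.Prime).coprime_iff_not_dvd.mpr hl'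
    exact IsCoprime.of_mul_left_right (by rw [had]; exact hl1)
  have hdvd : ((N * q : ℕ) : ℤ) ∣ (m : SL(2, ℤ)) 1 0 := by
    have h1 : ((N * q : ℕ) : ℤ) ∣ d * (m : SL(2, ℤ)) 1 0 := by
      rw [e10']; exact dvd_mul_of_dvd_left hg _
    exact hcop.symm.dvd_of_dvd_mul_left h1
  rw [Fermat.Agent.S41.H105.range_incl, Subgroup.mem_subgroupOf]
  exact mem_Gamma0_of_dvd hdvd

/-- Separation for `c_δ`, representatives `heckeRep l` (`l ∤ q`; `l ∣ N` allowed). -/
theorem h2_conj201 (hq : q ≠ 0) (hlq : ¬ l ∣ q) (y y' : OnePoint (ZMod l)) (m : Gamma0 N)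
    (g : Gamma0 (N * q)) (Q : GL (Fin 2) ℝ)
    (hQ : heckeDiagMatrix q * Q = ιN N m * heckeDiagMatrix q)
    (e : heckeRep l y * Q = ιN (N * q) g * heckeRep l y') :
    m ∈ (conjDelta N q).range := by
  obtain ⟨a, b, d, hα, had⟩ := heckeRep_form (l := l) y
  obtain ⟨a', b', d', hα', had'⟩ := heckeRep_form (l := l) y'
  have q01 := congrArg (fun M : GL (Fin 2) ℝ => (M : Matrix (Fin 2) (Fin 2) ℝ) 0 1) hQ
  have q11 := congrArg (fun M : GL (Fin 2) ℝ => (M : Matrix (Fin 2) (Fin 2) ℝ) 1 1) hQ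
  have e01 := congrArg (fun M : GL (Fin 2) ℝ => (M : Matrix (Fin 2) (Fin 2) ℝ) 0 1) e
  simp only [coe_mul_apply, coe_ιN_apply, val_heckeDiagMatrix hq, Matrix.of_apply,
    Matrix.cons_val', Matrix.cons_val_zero, Matrix.cons_val_one, Matrix.cons_val_fin_one,
    zero_mul, zero_add, mul_zero, add_zero, one_mul, mul_one] at q01 q11
  simp only [coe_mul_apply, coe_ιN_apply, hα, hα', Matrix.of_apply, Matrix.cons_val',
    Matrix.cons_val_zero, Matrix.cons_val_one, Matrix.cons_val_fin_one] at e01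
  rw [q11] at e01
  have key : (a : ℝ) * (((m : SL(2, ℤ)) 0 1 : ℤ) : ℝ) =
      (q : ℝ) * ((((g : SL(2, ℤ)) 0 0 : ℤ) : ℝ) * b' + (((g : SL(2, ℤ)) 0 1 : ℤ) : ℝ) * d'
        - b * (((m : SL(2, ℤ)) 1 1 : ℤ) : ℝ)) := by
    rw [← q01]
    linear_combination (q : ℝ) * e01
  have key' : a * (m : SL(2, ℤ)) 0 1 =
      q * ((g : SL(2, ℤ)) 0 0 * b' + (g : SL(2, ℤ)) 0 1 * d' - b * (m : SL(2, ℤ)) 1 1) := by
    exact_mod_cast key
  have hcop : IsCoprime (a : ℤ) (q : ℤ) := by
    have hl1 : IsCoprime (l : ℤ) (q : ℤ) := by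
      rw [Int.isCoprime_iff_gcd_eq_one, Int.gcd_natCast_natCast]
      exact (Fact.out : l.Prime).coprime_iff_not_dvd.mpr hlq
    exact IsCoprime.of_mul_left_left (by rw [had]; exact hl1)
  have hdvd : (q : ℤ) ∣ (m : SL(2, ℤ)) 0 1 :=
    hcop.symm.dvd_of_dvd_mul_left ⟨_, key'⟩
  exact (Fermat.Agent.S41.H105.mem_range_conjDelta_iff N hq m).mpr hdvd

/-- Separation for the inclusion, representatives of `U_l` (`l ∣ N`, `q ∤ N` prime). -/
theorem h2_incl_U201 (hq : q.Prime) (hqN : ¬ q ∣ N) (hl : l ∣ N) (j j' : ZMod l)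
    (m : Gamma0 N) (g : Gamma0 (N * q))
    (e : repsU l j * ιN N m = ιN (N * q) g * repsU l j') :
    m ∈ (incl N q).range := by
  have hl0 : l ≠ 0 := (Fact.out : l.Prime).ne_zero
  have e10 := congrArg (fun M : GL (Fin 2) ℝ => (M : Matrix (Fin 2) (Fin 2) ℝ) 1 0) e
  simp only [repsU, coe_mul_apply, coe_ιN_apply, val_heckeMatrix hl0, Matrix.of_apply,
    Matrix.cons_val', Matrix.cons_val_zero, Matrix.cons_val_one, Matrix.cons_val_fin_one,
    zero_mul, zero_add, mul_zero, add_zero, mul_one] at e10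
  have e10' : (l : ℤ) * (m : SL(2, ℤ)) 1 0 = (g : SL(2, ℤ)) 1 0 := by exact_mod_cast e10
  have hg : ((N * q : ℕ) : ℤ) ∣ (g : SL(2, ℤ)) 1 0 := dvd_of_mem_Gamma0 g.2
  have hqg : (q : ℤ) ∣ (l : ℤ) * (m : SL(2, ℤ)) 1 0 := by
    rw [e10']
    exact dvd_trans ⟨(N : ℤ), by push_cast; ring⟩ hg
  have hqq' : ¬ q ∣ l := fun h => hqN (dvd_trans h hl)
  have hcop : IsCoprime (q : ℤ) (l : ℤ) := by
    rw [Int.isCoprime_iff_gcd_eq_one, Int.gcd_natCast_natCast]
    exact hq.coprime_iff_not_dvd.mpr hqq'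
  exact (Fermat.Agent.S41.H105.mem_range_incl_iff hq hqN m).mpr (hcop.dvd_of_dvd_mul_left hqg)

end Level

end Fermat.Agent.S59.TW.H201

end
-- ===== PACK-END S59/TW/H201/KDegHeckeGen.lean

-- ===== PACK-BEGIN Lib/FFSep280/Local.lean
section







/-!
# Lib/FFSep280 — relative theory of places for a finite SEPARABLE extension `F'/F` of function
# fields, in ANY characteristic (port of `Lib/FF398/Local.lean` of helper398 by helper280)

For a place `v` of `F` and a finite separable extension `F'/F` (any characteristic; the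
hypothesis `[CharZero F]` of `Lib/FF398` is replaced by `[Algebra.IsSeparable F F']`, and the use
of Mathlib's `Ideal.relNorm_eq_pow_of_isMaximal`, which needs a perfect base field, by a counting
argument) we use the integral
closure `S` of `O_v` in `F'` (a semi-local Dedekind domain) as a dictionary:
places of `F'` over `v`  ↔  height-one primes of `S`.

Main results of this file:
* `placeOf v q` : the place of `F'` attached to a height one prime `q` of `S`;
* `restrict_placeOf`, `exists_placeOf_eq`, `placeOf_injective` : the dictionary;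
* `ord_placeOf` : `ord` of `placeOf v q` is the `q`-adic valuation.
-/

set_option autoImplicit false
set_option linter.unusedSectionVars false

open AlgebraicCurve IsDedekindDomain

namespace Fermat.Agent.Lib.FFSep280

section Max

variable {K F : Type*} [Field K] [Field F] [Algebra K F]

/-- Discrete valuation rings are maximal subrings: comparable places are equal. -/
theorem place_eq_of_le {v w : Place K F} (h : v.toValuationSubring ≤ w.toValuationSubring) :
    v = w :=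
  Place.ext (ValuationSubring.eq_of_le_of_ne_top _ h w.ne_top')

end Max

section Local

variable {K F F' : Type*} [Field K] [Field F] [Field F'] [Algebra K F] [Algebra K F']
  [Algebra F F'] [IsScalarTower K F F'] [FiniteDimensional F F'] [Algebra.IsSeparable F F']
variable (v : Place K F)

variable (F') in
/-- The integral closure of `O_v` in `F'`. -/
abbrev intCl : Subalgebra v.toValuationSubring F' := integralClosure v.toValuationSubring F'

omit [Algebra K F'] [IsScalarTower K F F'] [FiniteDimensional F F'] [Algebra.IsSeparable F F'] in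
theorem algebraMap_OF'_injective :
    Function.Injective (algebraMap v.toValuationSubring F') := by
  intro a b h
  apply Subtype.ext
  exact (algebraMap F F').injective h

instance (priority := 2000) instFaithfulOF' : FaithfulSMul v.toValuationSubring F' :=
  (faithfulSMul_iff_algebraMap_injective _ _).mpr (algebraMap_OF'_injective v)

instance (priority := 2000) instTorsionFreeOF' :
    Module.IsTorsionFree v.toValuationSubring F' :=
  FaithfulSMul.to_isTorsionFree _ _

instance (priority := 2000) instTorsionFreeIntCl :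
    Module.IsTorsionFree v.toValuationSubring (intCl F' v) :=
  Subalgebra.instIsTorsionFree (intCl F' v)

instance instTowerKOF' : IsScalarTower K v.toValuationSubring F' :=
  IsScalarTower.of_algebraMap_eq fun a => by
    show algebraMap K F' a = algebraMap F F' (algebraMap K F a)
    rw [← IsScalarTower.algebraMap_apply]

instance instDedekindIntCl : IsDedekindDomain (intCl F' v) :=
  integralClosure.isDedekindDomain v.toValuationSubring F F'

instance instFracIntCl : IsFractionRing (intCl F' v) F' :=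
  IsIntegralClosure.isFractionRing_of_finite_extension v.toValuationSubring F F' (intCl F' v)

instance instFiniteIntCl : Module.Finite v.toValuationSubring (intCl F' v) :=
  IsIntegralClosure.finite v.toValuationSubring F F' (intCl F' v)

instance instFreeIntCl : Module.Free v.toValuationSubring (intCl F' v) :=
  Module.free_of_finite_type_torsion_free'

/-- The place of `F'` attached to a height-one prime of the integral closure of `O_v`. -/
noncomputable def placeOf (q : HeightOneSpectrum (intCl F' v)) : Place K F' :=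
  Place.ofHeightOneSpectrum (K := K) q

theorem placeOf_toValuationSubring (q : HeightOneSpectrum (intCl F' v)) :
    (placeOf v q).toValuationSubring = (q.valuation F').valuationSubring := rfl

theorem mem_placeOf_iff (q : HeightOneSpectrum (intCl F' v)) (g : F') :
    g ∈ (placeOf v q).toValuationSubring ↔ q.valuation F' g ≤ 1 := Iff.rfl

/-- `placeOf v q` lies over `v`. -/
theorem restrict_placeOf (q : HeightOneSpectrum (intCl F' v)) :
    (placeOf v q).restrict F = v := by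
  symm
  apply place_eq_of_le
  intro a ha
  rw [Place.restrict_toValuationSubring, ValuationSubring.mem_comap, mem_placeOf_iff]
  have : algebraMap F F' a = algebraMap (intCl F' v) F'
      (algebraMap v.toValuationSubring (intCl F' v) ⟨a, ha⟩) := rfl
  rw [this]
  exact q.valuation_le_one _

/-- The order function of `placeOf v q` is the `q`-adic valuation. -/
theorem ord_placeOf (q : HeightOneSpectrum (intCl F' v)) (g : F') :
    (placeOf v q).ord g = -(WithZero.log (q.valuation F' g)) := by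
  rcases eq_or_ne g 0 with rfl | hg
  · simp
  symm
  obtain ⟨π, hπ⟩ := q.valuation_exists_uniformizer F'
  have hπ0 : π ≠ 0 := by
    rintro rfl
    rw [map_zero] at hπ
    exact WithZero.exp_ne_zero hπ.symm
  refine Fermat.Agent.S24.FF.ordLike_eq_ord (fun g => -(WithZero.log (q.valuation F' g)))
    (fun f g hf hg => ?_) (placeOf v q) (fun f hf => ?_) hπ0 ?_ hg
  · rw [map_mul, WithZero.log_mul ((Valuation.ne_zero_iff _).mpr hf)
      ((Valuation.ne_zero_iff _).mpr hg)]
    ring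
  · rw [mem_placeOf_iff, neg_nonneg,
      WithZero.log_le_iff_le_exp ((Valuation.ne_zero_iff _).mpr hf)]
    rfl
  · rw [hπ, WithZero.log_exp]
    ring

/-- Membership in a height-one prime, read off from the valuation subring. -/
theorem mem_asIdeal_iff (q : HeightOneSpectrum (intCl F' v)) (s : intCl F' v) :
    s ∈ q.asIdeal ↔ s = 0 ∨ ((s : F'))⁻¹ ∉ (placeOf v q).toValuationSubring := by
  rw [mem_placeOf_iff, ← q.valuation_lt_one_iff_mem (K := F')]
  show q.valuation F' (s : F') < 1 ↔ s = 0 ∨ ¬ q.valuation F' ((s : F'))⁻¹ ≤ 1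
  rcases eq_or_ne s 0 with rfl | hs
  · simp
  have hs' : (s : F') ≠ 0 := fun h => hs (Subtype.ext h)
  have hv0 : q.valuation F' (s : F') ≠ 0 := (Valuation.ne_zero_iff _).mpr hs'
  rw [map_inv₀, not_le, one_lt_inv₀ (zero_lt_iff.mpr hv0)]
  simp [hs]

theorem placeOf_injective : Function.Injective (placeOf (F' := F') v) := by
  intro q q' h
  apply HeightOneSpectrum.ext
  ext s
  rw [mem_asIdeal_iff, mem_asIdeal_iff, h]

/-- The integral closure of `O_{w|F}` is contained in `O_w`. -/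
theorem coe_intCl_mem (w : Place K F') (s : intCl F' (w.restrict F)) :
    (s : F') ∈ w.toValuationSubring := by
  obtain ⟨p, hp, hps⟩ := s.2
  have hint : IsIntegral w.toValuationSubring (s : F') := by
    refine ⟨p.map (Place.restrictInclusion F w), hp.map _, ?_⟩
    rw [Polynomial.eval₂_map]
    exact hps
  obtain ⟨y, hy⟩ := IsIntegrallyClosed.isIntegral_iff.mp hint
  rw [← hy]
  exact y.2

/-- The inclusion of the integral closure of `O_{w|F}` into `O_w`. -/
def intClInclusion (w : Place K F') : intCl F' (w.restrict F) →+* w.toValuationSubring where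
  toFun s := ⟨(s : F'), coe_intCl_mem w s⟩
  map_one' := rfl
  map_mul' _ _ := rfl
  map_zero' := rfl
  map_add' _ _ := rfl

@[simp]
theorem coe_intClInclusion (w : Place K F') (s : intCl F' (w.restrict F)) :
    ((intClInclusion w s : w.toValuationSubring) : F') = (s : F') := rfl

/-- The centre of `w` on the integral closure of `O_{w|F}`. -/
def centre (w : Place K F') : Ideal (intCl F' (w.restrict F)) :=
  Ideal.comap (intClInclusion w) (IsLocalRing.maximalIdeal w.toValuationSubring)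

instance centre_isPrime (w : Place K F') : (centre (F := F) w).IsPrime :=
  Ideal.comap_isPrime _ _

theorem centre_ne_bot (w : Place K F') : centre (F := F) w ≠ ⊥ := by
  obtain ⟨π, hπ⟩ := IsDiscreteValuationRing.exists_irreducible (w.restrict F).toValuationSubring
  intro h
  have hmem : algebraMap (w.restrict F).toValuationSubring (intCl F' (w.restrict F)) π
      ∈ centre (F := F) w := by
    rw [centre, Ideal.mem_comap, IsLocalRing.mem_maximalIdeal, mem_nonunits_iff]
    intro hu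
    have hu' : IsUnit (Place.restrictInclusion F w π) := hu
    exact hπ.not_isUnit (isUnit_of_map_unit (Place.restrictInclusion F w) π hu')
  rw [h, Ideal.mem_bot] at hmem
  have hinj : Function.Injective
      (algebraMap (w.restrict F).toValuationSubring (intCl F' (w.restrict F))) :=
    FaithfulSMul.algebraMap_injective _ _
  exact hπ.ne_zero (hinj (by rw [hmem, map_zero]))

/-- The centre of `w` as a height-one prime. -/
def centrePrime (w : Place K F') : HeightOneSpectrum (intCl F' (w.restrict F)) :=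
  ⟨centre w, centre_isPrime w, centre_ne_bot w⟩

theorem placeOf_centrePrime (w : Place K F') : placeOf (w.restrict F) (centrePrime w) = w := by
  apply place_eq_of_le
  intro g hg
  rw [mem_placeOf_iff] at hg
  obtain ⟨n, d, hnd⟩ := (centrePrime w).exists_primeCompl_mul_eq_of_integer g hg
  have hd : (d : intCl F' (w.restrict F)) ∉ centre (F := F) w := d.2
  rw [centre, Ideal.mem_comap, IsLocalRing.mem_maximalIdeal, mem_nonunits_iff, not_not] at hd
  obtain ⟨b, hb⟩ := isUnit_iff_exists_inv.mp hd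
  have hb' : ((d : intCl F' (w.restrict F)) : F') * (b : F') = 1 := congrArg Subtype.val hb
  have hd0 : ((d : intCl F' (w.restrict F)) : F') ≠ 0 := left_ne_zero_of_mul_eq_one hb'
  have hg' : g = ((n : F')) * (b : F') := by
    have h1 : g * ((d : intCl F' (w.restrict F)) : F') = (n : F') := hnd
    calc g = g * (((d : intCl F' (w.restrict F)) : F') * (b : F')) := by rw [hb', mul_one]
      _ = (n : F') * (b : F') := by rw [← mul_assoc, h1]
  rw [hg']
  exact mul_mem (coe_intCl_mem w n) b.2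

/-- Every place of `F'` over `v` comes from a height-one prime of the integral closure. -/
theorem exists_placeOf_eq (w : Place K F') (hw : w.restrict F = v) :
    ∃ q : HeightOneSpectrum (intCl F' v), placeOf v q = w := by
  subst hw
  exact ⟨centrePrime w, placeOf_centrePrime w⟩

theorem range_placeOf : Set.range (placeOf (F' := F') v) = {w : Place K F' | w.restrict F = v} := by
  ext w
  constructor
  · rintro ⟨q, rfl⟩
    exact restrict_placeOf v q
  · intro hw
    exact exists_placeOf_eq v w hw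

/-! ### Primes over the maximal ideal of `O_v` -/

/-- The maximal ideal of `O_v`. -/
abbrev pv : Ideal v.toValuationSubring := IsLocalRing.maximalIdeal v.toValuationSubring

theorem pv_ne_bot : pv v ≠ ⊥ := IsDiscreteValuationRing.not_a_field _

theorem algebraMap_O_intCl_injective :
    Function.Injective (algebraMap v.toValuationSubring (intCl F' v)) :=
  FaithfulSMul.algebraMap_injective _ _

theorem map_pv_ne_bot : (pv v).map (algebraMap v.toValuationSubring (intCl F' v)) ≠ ⊥ := by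
  rw [Ne, Ideal.map_eq_bot_iff_of_injective (algebraMap_O_intCl_injective v)]
  exact pv_ne_bot v

instance liesOver_pv (q : HeightOneSpectrum (intCl F' v)) : q.asIdeal.LiesOver (pv v) := by
  constructor
  have hprime : (q.asIdeal.under v.toValuationSubring).IsPrime := Ideal.IsPrime.under _ _
  have hne : q.asIdeal.under v.toValuationSubring ≠ ⊥ :=
    Ideal.under_ne_bot v.toValuationSubring q.ne_bot
  have hmax : (q.asIdeal.under v.toValuationSubring).IsMaximal := hprime.isMaximal hne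
  exact (IsLocalRing.eq_maximalIdeal hmax).symm

instance isMaximal_asIdeal (q : HeightOneSpectrum (intCl F' v)) : q.asIdeal.IsMaximal :=
  q.isPrime.isMaximal q.ne_bot

/-- The height-one prime attached to a prime over `𝔪_v`. -/
def primeOfOver (q : (pv v).primesOver (intCl F' v)) : HeightOneSpectrum (intCl F' v) :=
  ⟨q.1, q.2.1, by
    have := q.2.2
    exact Ideal.ne_bot_of_liesOver_of_ne_bot (pv_ne_bot v) q.1⟩

@[simp]
theorem primeOfOver_asIdeal (q : (pv v).primesOver (intCl F' v)) :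
    (primeOfOver v q).asIdeal = q.1 := rfl

theorem primeOfOver_injective : Function.Injective (primeOfOver (F' := F') v) := by
  intro q q' h
  apply Subtype.ext
  exact congrArg HeightOneSpectrum.asIdeal h

theorem primeOfOver_surjective : Function.Surjective (primeOfOver (F' := F') v) := by
  intro q
  exact ⟨⟨q.asIdeal, q.isPrime, liesOver_pv v q⟩, rfl⟩

instance finite_primesOver : Finite ((pv v).primesOver (intCl F' v)) :=
  (Algebra.QuasiFinite.finite_primesOver (pv v)).to_subtype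

instance finite_heightOneSpectrum : Finite (HeightOneSpectrum (intCl F' v)) :=
  Finite.of_surjective _ (primeOfOver_surjective v)

/-- The fibre over `v` is finite (no `HasPrincipalDivisors` needed). -/
theorem finite_fibre : {w : Place K F' | w.restrict F = v}.Finite := by
  rw [← range_placeOf]
  exact Set.finite_range _

/-! ### Ramification index and residue degree -/

theorem mem_asIdeal_iff_ord (q : HeightOneSpectrum (intCl F' v)) (s : intCl F' v) :
    s ∈ q.asIdeal ↔ s = 0 ∨ 0 < (placeOf v q).ord (s : F') := by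
  rcases eq_or_ne s 0 with rfl | hs
  · simp
  have hs' : (s : F') ≠ 0 := fun h => hs (Subtype.ext h)
  have hv0 : q.valuation F' (s : F') ≠ 0 := (Valuation.ne_zero_iff _).mpr hs'
  rw [ord_placeOf, neg_pos, WithZero.log_lt_iff_lt_exp hv0, ← q.valuation_lt_one_iff_mem (K := F')]
  simp only [hs, false_or]
  rfl

theorem ord_placeOf_coe_nonneg (q : HeightOneSpectrum (intCl F' v)) (s : intCl F' v) :
    0 ≤ (placeOf v q).ord (s : F') :=
  (Fermat.Agent.S24.FF.mem_iff_ord_nonneg _).mp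
    ((mem_placeOf_iff v q _).mpr (q.valuation_le_one s))

/-- The ramification index of `placeOf v q` (in the sense of the Prelude) is Mathlib's
ramification index of `q` over `O_v`. -/
theorem ramificationIndex_placeOf (q : HeightOneSpectrum (intCl F' v)) :
    ((placeOf v q).ramificationIndex F : ℤ)
      = (q.asIdeal.ramificationIdx v.toValuationSubring : ℤ) := by
  obtain ⟨π, hπ, hπ1⟩ := Fermat.Agent.S24.FF.exists_irreducible_coe v
  have h1 := (placeOf v q).ord_restrict (F := F) (π : F)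
  rw [restrict_placeOf, hπ1, mul_one] at h1
  rw [← h1, ord_placeOf]
  have hπS : algebraMap v.toValuationSubring (intCl F' v) π ≠ 0 := fun h =>
    hπ.ne_zero (algebraMap_O_intCl_injective v (by rw [h, map_zero]))
  have h2 : q.valuation F' (algebraMap F F' (π : F))
      = q.intValuation (algebraMap v.toValuationSubring (intCl F' v) π) :=
    q.valuation_of_algebraMap (algebraMap v.toValuationSubring (intCl F' v) π)
  rw [h2, q.intValuation_eq_exp_neg_multiplicity hπS, WithZero.log_exp, neg_neg,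
    Ideal.IsDedekindDomain.ramificationIdx_eq_multiplicity (pv v) q.asIdeal (map_pv_ne_bot v)]
  have h3 : (pv v).map (algebraMap v.toValuationSubring (intCl F' v))
      = Ideal.span {algebraMap v.toValuationSubring (intCl F' v) π} := by
    rw [pv, hπ.maximalIdeal_eq, Ideal.map_span, Set.image_singleton]
  rw [h3]

/-- If all places of `F'` have degree one, residue degrees over `O_v` are one. -/
theorem inertiaDeg_intCl_eq_one (hdeg' : ∀ w : Place K F', w.deg = 1)
    (q : HeightOneSpectrum (intCl F' v)) :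
    q.asIdeal.inertiaDeg v.toValuationSubring = 1 := by
  refine Fermat.Agent.S24.FF.inertiaDeg_eq_one_of_forall_exists (pv v) q.asIdeal fun s => ?_
  obtain ⟨c, hc⟩ := Fermat.Agent.Lib.RR.exists_const_sub (placeOf v q) (hdeg' _)
    (ord_placeOf_coe_nonneg v q s)
  refine ⟨algebraMap K v.toValuationSubring c, ?_⟩
  rw [mem_asIdeal_iff_ord]
  have hcoe : ((s - algebraMap v.toValuationSubring (intCl F' v)
      (algebraMap K v.toValuationSubring c) : intCl F' v) : F') = (s : F') - algebraMap K F' c := by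
    rw [IsScalarTower.algebraMap_apply K F F']
    rfl
  rcases hc with hc | hc
  · left
    apply Subtype.ext
    rw [hcoe]
    exact hc
  · right
    rw [hcoe]
    exact hc

omit [Algebra.IsSeparable F F'] [FiniteDimensional F F'] in
/-- If all places of `F'` have degree one, the Prelude's residue degrees are one. -/
theorem inertiaDeg_eq_one [Algebra.IsIntegral F F'] (hdeg' : ∀ w : Place K F', w.deg = 1)
    (w : Place K F') : w.inertiaDeg F = 1 := by
  have h := w.deg_restrict_mul_inertiaDeg (F := F)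
  rw [hdeg' w] at h
  exact (mul_eq_one.mp h).2

omit [Algebra.IsSeparable F F'] [FiniteDimensional F F'] in
theorem deg_restrict_eq_one [Algebra.IsIntegral F F'] (hdeg' : ∀ w : Place K F', w.deg = 1)
    (w : Place K F') : (w.restrict F).deg = 1 := by
  have h := w.deg_restrict_mul_inertiaDeg (F := F)
  rw [hdeg' w] at h
  exact (mul_eq_one.mp h).1

/-- **Local fundamental identity** `∑_{w | v} e(w|v) = [F' : F]`. -/
theorem sum_ramificationIndex (hdeg' : ∀ w : Place K F', w.deg = 1)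
    (s : Finset (Place K F')) (hs : ∀ w, w ∈ s ↔ w.restrict F = v) :
    ∑ w ∈ s, (w.ramificationIndex F : ℤ) = (Module.finrank F F' : ℤ) := by
  let _ : Fintype ((pv v).primesOver (intCl F' v)) := Fintype.ofFinite _
  have h := Ideal.sum_ramification_inertia_eq_finrank (pv v) (intCl F' v)
  rw [IsFractionRing.finrank_eq v.toValuationSubring F (intCl F' v) F', ← h]
  push_cast
  symm
  refine Finset.sum_bij (fun q _ => placeOf v (primeOfOver v q)) ?_ ?_ ?_ ?_
  · intro q _
    exact (hs _).mpr (restrict_placeOf v _)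
  · intro q _ q' _ h
    exact primeOfOver_injective v (placeOf_injective v h)
  · intro w hw
    obtain ⟨q, hq⟩ := exists_placeOf_eq v w ((hs w).mp hw)
    obtain ⟨q', rfl⟩ := primeOfOver_surjective v q
    exact ⟨q', Finset.mem_univ _, hq⟩
  · intro q _
    have h1 := inertiaDeg_intCl_eq_one v hdeg' (primeOfOver v q)
    rw [primeOfOver_asIdeal] at h1
    rw [ramificationIndex_placeOf, primeOfOver_asIdeal, h1]
    simp

/-! ### Norm formula -/

open UniqueFactorizationMonoid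

theorem ord_coe_eq_multiplicity (a : v.toValuationSubring) (ha : a ≠ 0) :
    v.ord (a : F) = (multiplicity (pv v) (Ideal.span {a}) : ℤ) := by
  rw [Place.ord, v.adicValuation_coe, v.heightOneSpectrum.intValuation_eq_exp_neg_multiplicity ha,
    WithZero.log_exp, neg_neg]
  rfl

theorem ord_placeOf_coe_eq_multiplicity (q : HeightOneSpectrum (intCl F' v)) (x : intCl F' v)
    (hx : x ≠ 0) :
    (placeOf v q).ord (x : F') = (multiplicity q.asIdeal (Ideal.span {x}) : ℤ) := by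
  rw [ord_placeOf]
  have h2 : q.valuation F' (x : F') = q.intValuation x := q.valuation_of_algebraMap x
  rw [h2, q.intValuation_eq_exp_neg_multiplicity hx, WithZero.log_exp, neg_neg]

theorem multiplicity_eq_count (q : HeightOneSpectrum (intCl F' v)) (I : Ideal (intCl F' v))
    (hI : I ≠ ⊥) :
    multiplicity q.asIdeal I = (normalizedFactors I).count q.asIdeal := by
  have hq : Prime q.asIdeal := Ideal.prime_of_isPrime q.ne_bot q.isPrime
  rw [multiplicity_eq_of_emultiplicity_eq_some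
    (emultiplicity_eq_count_normalizedFactors hq.irreducible hI), normalize_eq]

theorem sum_count_eq_card [Fintype (HeightOneSpectrum (intCl F' v))] (I : Ideal (intCl F' v))
    (hI : I ≠ ⊥) :
    ∑ q : HeightOneSpectrum (intCl F' v), (normalizedFactors I).count q.asIdeal
      = Multiset.card (normalizedFactors I) := by
  classical
  rw [← Multiset.toFinset_sum_count_eq]
  have hinj : Function.Injective
      (fun q : HeightOneSpectrum (intCl F' v) => q.asIdeal) := fun q q' h =>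
    HeightOneSpectrum.ext h
  rw [← Finset.sum_image (s := Finset.univ)
    (f := fun P : Ideal (intCl F' v) => (normalizedFactors I).count P)
    (g := fun q : HeightOneSpectrum (intCl F' v) => q.asIdeal) (fun q _ q' _ h => hinj h)]
  symm
  refine Finset.sum_subset ?_ ?_
  · intro P hP
    rw [Multiset.mem_toFinset, Ideal.mem_normalizedFactors_iff hI] at hP
    have hPne : P ≠ ⊥ := fun h => hI (le_bot_iff.mp (h ▸ hP.2))
    exact Finset.mem_image.mpr ⟨⟨P, hP.1, hPne⟩, Finset.mem_univ _, rfl⟩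
  · intro P _ hP
    rw [Multiset.mem_toFinset] at hP
    exact Multiset.count_eq_zero_of_notMem hP

/-- The relative norm of a prime of the integral closure is a positive power of `𝔪_v`. -/
theorem exists_relNorm_asIdeal_eq_pow (q : HeightOneSpectrum (intCl F' v)) :
    ∃ s : ℕ, 1 ≤ s ∧ Ideal.relNorm v.toValuationSubring q.asIdeal = (pv v) ^ s := by
  obtain ⟨s, hs⟩ := Ideal.exists_relNorm_eq_pow_of_isPrime q.asIdeal (pv v)
  refine ⟨s, ?_, hs⟩
  by_contra h0
  have hs0 : s = 0 := by omega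
  have hle := Ideal.relNorm_le_comap v.toValuationSubring q.asIdeal
  rw [hs, hs0, pow_zero, Ideal.one_eq_top] at hle
  have htop : Ideal.comap (algebraMap v.toValuationSubring (intCl F' v)) q.asIdeal = ⊤ :=
    top_le_iff.mp hle
  have hq : q.asIdeal = ⊤ := by
    rw [Ideal.eq_top_iff_one]
    have h1 : (1 : v.toValuationSubring) ∈
        Ideal.comap (algebraMap v.toValuationSubring (intCl F' v)) q.asIdeal := by
      rw [htop]; trivial
    simpa using h1
  exact q.isPrime.ne_top hq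

/-- A multiset of positive natural numbers whose sum is its cardinality consists of ones. -/
theorem eq_one_of_sum_eq_card {α : Type*} (m : Multiset α) (s : α → ℕ)
    (hpos : ∀ a ∈ m, 1 ≤ s a) (hsum : (m.map s).sum = Multiset.card m) :
    ∀ a ∈ m, s a = 1 := by
  induction m using Multiset.induction_on with
  | empty => intro a ha; simp at ha
  | cons b m ih =>
    have hb := hpos b (Multiset.mem_cons_self b m)
    have hm : ∀ a ∈ m, 1 ≤ s a := fun a ha => hpos a (Multiset.mem_cons_of_mem ha)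
    have hge : Multiset.card m ≤ (m.map s).sum := by
      clear ih hsum hpos hb
      induction m using Multiset.induction_on with
      | empty => simp
      | cons c m ih2 =>
        have hc := hm c (Multiset.mem_cons_self c m)
        have := ih2 fun a ha => hm a (Multiset.mem_cons_of_mem ha)
        simp only [Multiset.map_cons, Multiset.sum_cons, Multiset.card_cons]
        omega
    simp only [Multiset.map_cons, Multiset.sum_cons, Multiset.card_cons] at hsum
    have hb1 : s b = 1 := by omega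
    have hsum' : (m.map s).sum = Multiset.card m := by omega
    intro a ha
    rcases Multiset.mem_cons.mp ha with rfl | ha
    · exact hb1
    · exact ih hm hsum' a ha

theorem prod_map_pow_eq_pow_sum {α M : Type*} [CommMonoid M] (m : Multiset α) (b : M)
    (s : α → ℕ) : (m.map fun a => b ^ s a).prod = b ^ (m.map s).sum := by
  induction m using Multiset.induction_on with
  | empty => simp
  | cons a m ih => simp [ih, pow_add]

theorem pv_pow_injective : Function.Injective fun n : ℕ => (pv v) ^ n := by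
  intro a b hab
  have hp : Prime (pv v) :=
    Ideal.prime_of_isPrime (pv_ne_bot v) (IsLocalRing.maximalIdeal.isMaximal _).isPrime
  have h1 := multiplicity_pow_self_of_prime hp a
  have h2 := multiplicity_pow_self_of_prime hp b
  simp only at hab
  rw [hab] at h1
  omega

/-- **Key lemma** (replaces Mathlib's `Ideal.relNorm_eq_pow_of_isMaximal`, which needs a perfect
base field): if all places of `F'` have degree one, every prime of the integral closure of `O_v`
has relative norm `𝔪_v`.  Proof: `relNorm q = 𝔪_v ^ s_q` with `s_q ≥ 1`, and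
`∑ e_q s_q = [F':F] = ∑ e_q`. -/
theorem relNorm_asIdeal_eq (hdeg' : ∀ w : Place K F', w.deg = 1)
    (q : HeightOneSpectrum (intCl F' v)) :
    Ideal.relNorm v.toValuationSubring q.asIdeal = pv v := by
  classical
  let _ : Fintype (HeightOneSpectrum (intCl F' v)) := Fintype.ofFinite _
  let _ : Fintype ((pv v).primesOver (intCl F' v)) := Fintype.ofFinite _
  set J : Ideal (intCl F' v) := (pv v).map (algebraMap v.toValuationSubring (intCl F' v)) with hJ
  have hJ0 : J ≠ ⊥ := map_pv_ne_bot v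
  -- the exponents
  let s : Ideal (intCl F' v) → ℕ := fun P =>
    if h : P.IsPrime ∧ P ≠ ⊥ then (exists_relNorm_asIdeal_eq_pow v ⟨P, h.1, h.2⟩).choose else 1
  have hs_pos : ∀ P, 1 ≤ s P := by
    intro P
    by_cases h : P.IsPrime ∧ P ≠ ⊥
    · simp only [s, dif_pos h]
      exact (exists_relNorm_asIdeal_eq_pow v ⟨P, h.1, h.2⟩).choose_spec.1
    · simp only [s, dif_neg h]; exact le_refl 1
  have hs_spec : ∀ P ∈ normalizedFactors J,
      Ideal.relNorm v.toValuationSubring P = (pv v) ^ s P := by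
    intro P hP
    rw [Ideal.mem_normalizedFactors_iff hJ0] at hP
    have hPne : P ≠ ⊥ := fun h => hJ0 (le_bot_iff.mp (h ▸ hP.2))
    have h : P.IsPrime ∧ P ≠ ⊥ := ⟨hP.1, hPne⟩
    simp only [s, dif_pos h]
    exact (exists_relNorm_asIdeal_eq_pow v ⟨P, h.1, h.2⟩).choose_spec.2
  -- `∑ s = [F':F]`
  have hsum : ((normalizedFactors J).map s).sum = Module.finrank v.toValuationSubring (intCl F' v) := by
    have h1 : Ideal.relNorm v.toValuationSubring J
        = (pv v) ^ Module.finrank v.toValuationSubring (intCl F' v) :=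
      Ideal.relNorm_algebraMap (intCl F' v) (pv v)
    have h2 : Ideal.relNorm v.toValuationSubring J = (pv v) ^ ((normalizedFactors J).map s).sum := by
      conv_lhs => rw [← Ideal.prod_normalizedFactors_eq_self hJ0]
      rw [map_multiset_prod, ← prod_map_pow_eq_pow_sum]
      congr 1
      exact Multiset.map_congr rfl hs_spec
    exact pv_pow_injective v (h2.symm.trans h1)
  -- `card = ∑ e = [F':F]`
  have hcard : Multiset.card (normalizedFactors J)
      = Module.finrank v.toValuationSubring (intCl F' v) := by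
    have h := Ideal.sum_ramification_inertia_eq_finrank (pv v) (intCl F' v)
    rw [← sum_count_eq_card v J hJ0, ← h]
    symm
    refine Fintype.sum_bijective (primeOfOver v)
      ⟨primeOfOver_injective v, primeOfOver_surjective v⟩ _ _ fun P => ?_
    have h1 := inertiaDeg_intCl_eq_one v hdeg' (primeOfOver v P)
    rw [primeOfOver_asIdeal] at h1
    rw [h1, mul_one, primeOfOver_asIdeal]
    have : P.1.LiesOver (pv v) := P.2.2
    exact Ideal.IsDedekindDomain.ramificationIdx_eq_normalizedFactors_count (pv v) P.1 hJ0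
  have hall := eq_one_of_sum_eq_card (normalizedFactors J) s (fun P _ => hs_pos P)
    (hsum.trans hcard.symm)
  have hq : q.asIdeal ∈ normalizedFactors J := by
    rw [Ideal.mem_normalizedFactors_iff hJ0]
    refine ⟨q.isPrime, ?_⟩
    rw [hJ, Ideal.map_le_iff_le_comap]
    exact le_of_eq ((liesOver_pv v q).over)
  rw [hs_spec _ hq, hall _ hq, pow_one]

theorem relNorm_eq_pow (hdeg' : ∀ w : Place K F', w.deg = 1) (I : Ideal (intCl F' v))
    (hI : I ≠ ⊥) :
    Ideal.relNorm v.toValuationSubring I = (pv v) ^ Multiset.card (normalizedFactors I) := by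
  conv_lhs => rw [← Ideal.prod_normalizedFactors_eq_self hI]
  rw [map_multiset_prod]
  have hconst : (normalizedFactors I).map (Ideal.relNorm v.toValuationSubring)
      = (normalizedFactors I).map (fun _ => pv v) := by
    refine Multiset.map_congr rfl fun P hP => ?_
    rw [Ideal.mem_normalizedFactors_iff hI] at hP
    have hPne : P ≠ ⊥ := fun h => hI (le_bot_iff.mp (h ▸ hP.2))
    exact relNorm_asIdeal_eq v hdeg' ⟨P, hP.1, hPne⟩
  rw [hconst, Multiset.map_const', Multiset.prod_replicate]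

theorem sum_ord_coe_eq_ord_intNorm [Fintype (HeightOneSpectrum (intCl F' v))]
    (hdeg' : ∀ w : Place K F', w.deg = 1) (x : intCl F' v) (hx : x ≠ 0) :
    ∑ q : HeightOneSpectrum (intCl F' v), (placeOf v q).ord (x : F')
      = v.ord ((Algebra.intNorm v.toValuationSubring (intCl F' v) x : v.toValuationSubring) : F) := by
  have hI : Ideal.span {x} ≠ (⊥ : Ideal (intCl F' v)) := by
    rw [Ne, Ideal.span_singleton_eq_bot]
    exact hx
  have hN : Algebra.intNorm v.toValuationSubring (intCl F' v) x ≠ 0 :=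
    Algebra.intNorm_ne_zero.mpr hx
  rw [ord_coe_eq_multiplicity v _ hN, ← Ideal.relNorm_singleton, relNorm_eq_pow v hdeg' _ hI,
    multiplicity_pow_self_of_prime
      (Ideal.prime_of_isPrime (pv_ne_bot v) (IsLocalRing.maximalIdeal.isMaximal _).isPrime),
    ← sum_count_eq_card v _ hI]
  push_cast
  refine Finset.sum_congr rfl fun q _ => ?_
  rw [ord_placeOf_coe_eq_multiplicity v q x hx, multiplicity_eq_count v q _ hI]

omit [FiniteDimensional F F'] [Algebra.IsSeparable F F'] [Algebra K F'] [IsScalarTower K F F'] [Algebra F F'] in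
theorem ord_div' (u : Place K F) {f g : F} (hf : f ≠ 0) (hg : g ≠ 0) :
    u.ord (f / g) = u.ord f - u.ord g := by
  rw [div_eq_mul_inv, u.ord_mul hf (inv_ne_zero hg), u.ord_inv]
  ring

theorem sum_ord_eq_ord_norm_of_mem (hdeg' : ∀ w : Place K F', w.deg = 1)
    (s : Finset (Place K F')) (hs : ∀ w, w ∈ s ↔ w.restrict F = v)
    (x : intCl F' v) (hx : x ≠ 0) :
    ∑ w ∈ s, w.ord (x : F') = v.ord (Algebra.norm F (x : F')) := by
  let _ : Fintype (HeightOneSpectrum (intCl F' v)) := Fintype.ofFinite _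
  have h1 := sum_ord_coe_eq_ord_intNorm v hdeg' x hx
  have h2 : ((Algebra.intNorm v.toValuationSubring (intCl F' v) x : v.toValuationSubring) : F)
      = Algebra.norm F (x : F') :=
    Algebra.algebraMap_intNorm (A := v.toValuationSubring) (K := F) (L := F')
      (B := intCl F' v) x
  rw [← h2, ← h1]
  symm
  refine Finset.sum_bij (fun q _ => placeOf v q) ?_ ?_ ?_ ?_
  · intro q _
    exact (hs _).mpr (restrict_placeOf v _)
  · intro q _ q' _ h
    exact placeOf_injective v h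
  · intro w hw
    obtain ⟨q, hq⟩ := exists_placeOf_eq v w ((hs w).mp hw)
    exact ⟨q, Finset.mem_univ _, hq⟩
  · intro q _
    rfl

/-- **Local norm formula** `∑_{w | v} ord_w(g) = ord_v(N_{F'/F} g)`. -/
theorem sum_ord_eq_ord_norm (hdeg' : ∀ w : Place K F', w.deg = 1)
    (s : Finset (Place K F')) (hs : ∀ w, w ∈ s ↔ w.restrict F = v)
    (g : F') (hg : g ≠ 0) :
    ∑ w ∈ s, w.ord g = v.ord (Algebra.norm F g) := by
  obtain ⟨a, b, hb, rfl⟩ := IsFractionRing.div_surjective (A := intCl F' v) g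
  have hb0 : b ≠ 0 := nonZeroDivisors.ne_zero hb
  have ha0 : a ≠ 0 := by
    rintro rfl
    simp at hg
  have ha' : (a : F') ≠ 0 := fun h => ha0 (Subtype.ext h)
  have hb' : (b : F') ≠ 0 := fun h => hb0 (Subtype.ext h)
  have hcoea : algebraMap (intCl F' v) F' a = (a : F') := rfl
  have hcoeb : algebraMap (intCl F' v) F' b = (b : F') := rfl
  have hnorm : Algebra.norm F ((a : F') / (b : F'))
      = Algebra.norm F (a : F') / Algebra.norm F (b : F') := by
    rw [eq_div_iff (Algebra.norm_ne_zero_iff.mpr hb'), ← map_mul, div_mul_cancel₀ _ hb']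
  rw [hcoea, hcoeb, hnorm,
    ord_div' v (Algebra.norm_ne_zero_iff.mpr ha') (Algebra.norm_ne_zero_iff.mpr hb'),
    ← sum_ord_eq_ord_norm_of_mem v hdeg' s hs a ha0,
    ← sum_ord_eq_ord_norm_of_mem v hdeg' s hs b hb0, ← Finset.sum_sub_distrib]
  refine Finset.sum_congr rfl fun w _ => ?_
  exact ord_div' w ha' hb'

end Local

end Fermat.Agent.Lib.FFSep280

end
-- ===== PACK-END Lib/FFSep280/Local.lean

-- ===== PACK-BEGIN Lib/FFSep280/Global.lean
section




/-!
# Lib/FFSep280 — fundamental identity and norm formula for finite SEPARABLE extensions of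
# function fields, in ANY characteristic  (helper280; port of `Lib/FF398/Global.lean`)

`K` a field, `F'/F` a finite separable extension of fields over `K`, all places of `F'` of
degree one (e.g. `K` algebraically closed and `F'` finite over `K(x')`).  No assumption on the
characteristic: the hypothesis `[CharZero F]` of `Lib/FF398` and `Lib/FF` is replaced by
`[Algebra.IsSeparable F F']`.

* `sumRamificationInertia`, `fundamentalIdentity` : `∑_{w | v} e(w|v) f(w|v) = [F' : F]`;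
* `pushforwardNormFormula` : `N_* div(g) = div(N_{F'/F} g)`  (Prelude `Divisor.PushforwardNormFormula`);
* `sum_ord_eq_ord_norm` (in `Local.lean`) : `∑_{w | v} ord_w g = ord_v (N_{F'/F} g)`;
* `…_of_isAlgClosed` : the same for `K` algebraically closed of any characteristic and `F'` finite
  over `K(x')`, with no further hypothesis (degrees one from `S24.FF.deg_eq_one`, principal
  divisors from `Lib.RR.H560.hasPrincipalDivisors`).

Intended use: the special fibre `F_k / k(x̄)` (characteristic `ℓ`) in the conservation law (FC) of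
S37-RED / S18, where separability comes from the `q`-expansion (`ord_q x̄ = -1`).
-/

set_option autoImplicit false
set_option linter.unusedSectionVars false

open AlgebraicCurve IsDedekindDomain IntermediateField

namespace Fermat.Agent.Lib.FFSep280

section Relative

variable {K F F' : Type*} [Field K] [Field F] [Field F'] [Algebra K F] [Algebra K F']
  [Algebra F F'] [IsScalarTower K F F'] [FiniteDimensional F F'] [Algebra.IsSeparable F F']
  [HasPrincipalDivisors K F']

/-- **Fundamental identity** `∑_{w | v} e(w|v) f(w|v) = [F' : F]` when all places of `F'` have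
degree one (finite separable extension, any characteristic). -/
theorem sumRamificationInertia (hdeg' : ∀ w : Place K F', w.deg = 1) :
    SumRamificationInertia K F F' where
  sum_ramificationIndex_mul_inertiaDeg v := by
    rw [← sum_ramificationIndex v hdeg' (v.fiber F') (fun w => Place.mem_fiber)]
    refine Finset.sum_congr rfl fun w _ => ?_
    rw [inertiaDeg_eq_one hdeg' w]
    simp

theorem fundamentalIdentity (hdeg' : ∀ w : Place K F', w.deg = 1) :
    FundamentalIdentity K F F' :=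
  haveI := sumRamificationInertia (F := F) hdeg'
  inferInstance

/-- **Norm formula** `N_* div(g) = div(N_{F'/F} g)` when all places of `F'` have degree one
(finite separable extension, any characteristic). -/
theorem pushforwardNormFormula (hdeg' : ∀ w : Place K F', w.deg = 1) :
    Divisor.PushforwardNormFormula K F F' := by
  classical
  intro g hg D hD v
  rw [Divisor.pushforward_apply, ← sum_ord_eq_ord_norm v hdeg' (v.fiber F')
    (fun w => Place.mem_fiber) g hg]
  rw [← Finset.sum_filter]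
  refine Finset.sum_subset_zero_on_sdiff ?_ ?_ ?_
  · intro w hw
    rw [Finset.mem_filter] at hw
    exact Place.mem_fiber.mpr hw.2
  · intro w hw
    rw [Finset.mem_sdiff, Finset.mem_filter, Place.mem_fiber] at hw
    have hnot : w ∉ D.support := fun h => hw.2 ⟨h, hw.1⟩
    rw [Finsupp.notMem_support_iff, hD] at hnot
    exact hnot
  · intro w hw
    rw [hD, inertiaDeg_eq_one hdeg' w]
    simp

end Relative

section AlgClosed

variable {K F F' : Type*} [Field K] [Field F] [Field F'] [Algebra K F] [Algebra K F']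
  [Algebra F F'] [IsScalarTower K F F'] [FiniteDimensional F F'] [Algebra.IsSeparable F F']
  [IsAlgClosed K]

/-- **Local norm formula**, `K` algebraically closed of any characteristic, `F'` finite over
`K(x')`, `F'/F` finite separable: `∑_{w | v} ord_w g = ord_v (N_{F'/F} g)`. -/
theorem sum_ord_eq_ord_norm_of_isAlgClosed {x' : F'} (hx' : Transcendental K x')
    [FiniteDimensional K⟮x'⟯ F'] (v : Place K F)
    (s : Finset (Place K F')) (hs : ∀ w, w ∈ s ↔ w.restrict F = v)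
    (g : F') (hg : g ≠ 0) :
    ∑ w ∈ s, w.ord g = v.ord (Algebra.norm F g) :=
  sum_ord_eq_ord_norm v (fun w => Fermat.Agent.S24.FF.deg_eq_one w hx') s hs g hg

/-- **Local fundamental identity**, `K` algebraically closed of any characteristic:
`∑_{w | v} e(w|v) = [F' : F]`. -/
theorem sum_ramificationIndex_of_isAlgClosed {x' : F'} (hx' : Transcendental K x')
    [FiniteDimensional K⟮x'⟯ F'] (v : Place K F)
    (s : Finset (Place K F')) (hs : ∀ w, w ∈ s ↔ w.restrict F = v) :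
    ∑ w ∈ s, (w.ramificationIndex F : ℤ) = (Module.finrank F F' : ℤ) :=
  sum_ramificationIndex v (fun w => Fermat.Agent.S24.FF.deg_eq_one w hx') s hs

/-- Prelude `Divisor.PushforwardNormFormula` for `K` algebraically closed of any
characteristic, `F'` finite over `K(x')`, `F'/F` finite separable. -/
theorem pushforwardNormFormula_of_isAlgClosed {x' : F'} (hx' : Transcendental K x')
    [FiniteDimensional K⟮x'⟯ F'] :
    haveI := Fermat.Agent.Lib.RR.H560.hasPrincipalDivisors (K := K) x' hx'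
    Divisor.PushforwardNormFormula K F F' :=
  haveI := Fermat.Agent.Lib.RR.H560.hasPrincipalDivisors (K := K) x' hx'
  pushforwardNormFormula (fun w => Fermat.Agent.S24.FF.deg_eq_one w hx')

/-- Prelude `SumRamificationInertia` for `K` algebraically closed of any characteristic. -/
theorem sumRamificationInertia_of_isAlgClosed {x' : F'} (hx' : Transcendental K x')
    [FiniteDimensional K⟮x'⟯ F'] :
    haveI := Fermat.Agent.Lib.RR.H560.hasPrincipalDivisors (K := K) x' hx'
    SumRamificationInertia K F F' :=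
  haveI := Fermat.Agent.Lib.RR.H560.hasPrincipalDivisors (K := K) x' hx'
  sumRamificationInertia (fun w => Fermat.Agent.S24.FF.deg_eq_one w hx')

end AlgClosed

end Fermat.Agent.Lib.FFSep280

end
-- ===== PACK-END Lib/FFSep280/Global.lean

-- ===== PACK-BEGIN S36/H803/Th1Alg.lean
section



/-!
# S36 / R3 (helper803): THICK1 on a semistable chart (ALG setting of cell A2)

`R` a discrete valuation ring with uniformiser `w`, `B` a chart of a function field `F / E`
(`ChartCtx`), `c : SSChart w B` its two components.  For a unit pair `(D, D')`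
(`D * D' = ε * w ^ N`, `D' ∉ p₁`, `D ∉ p₂`):

* `ordAt_le_of_ssChart` : `ord_n(D|C₂) ≤ N` at every node;
* `th1_of_ssChart` : DEG0 (`∑_{n ∈ s} ord_n(D|C₂) = Z`) and COUNT (`N * #s ≤ Z`) imply that BOTH
  components are locally principal at every node `n ∈ s` (the chart is regular at `n`).
-/

set_option autoImplicit false
set_option linter.unusedSectionVars false
set_option linter.unusedVariables false
set_option linter.style.haveILetI false

namespace Fermat.Agent.S36.H803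

open Fermat.Agent.A2 Fermat.Agent.A2.Alg

variable {R E F : Type*} [CommRing R] [IsDomain R] [IsDiscreteValuationRing R]
  [Field E] [CharZero E] [Algebra R E] [IsFractionRing R E]
  [Field F] [Algebra E F] [Algebra R F] [IsScalarTower R E F]

/-- The unit pair hypotheses on a semistable chart. -/
structure ChartUnitPair (w : R) (B : Subalgebra R F) (c : SSChart w B) (D D' : B) (N : ℕ) :
    Prop where
  pos : 0 < N
  eq : ∃ ε : B, IsUnit ε ∧ D * D' = ε * algebraMap R B w ^ N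
  notMem₁ : D' ∉ c.p₁
  notMem₂ : D ∉ c.p₂

omit [CharZero E] [IsFractionRing R E] [IsScalarTower R E F] [IsDiscreteValuationRing R] in
theorem ChartUnitPair.unitPair {w : R} {B : Subalgebra R F} {c : SSChart w B} {D D' : B}
    {N : ℕ} (h : ChartUnitPair w B c D D' N) :
    haveI := c.prime₁
    haveI := c.prime₂
    UnitPair (algebraMap R B w) c.p₁ c.p₂ D D' N := by
  haveI := c.prime₁
  haveI := c.prime₂
  refine ⟨?_, c.inf_eq, c.not_le₁₂, c.not_le₂₁, h.pos, h.eq, h.notMem₁, h.notMem₂⟩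
  intro hw0
  obtain ⟨ε, -, heq⟩ := h.eq
  rw [hw0, zero_pow h.pos.ne', mul_zero] at heq
  rcases mul_eq_zero.1 heq with h0 | h0
  · exact h.notMem₂ (h0 ▸ c.p₂.zero_mem)
  · exact h.notMem₁ (h0 ▸ c.p₁.zero_mem)

/-- **Local upper bound** on a semistable chart. -/
theorem ordAt_le_of_ssChart (w : R) (x : F) (B : Subalgebra R F) (hB : ChartCtx E w x B)
    (c : SSChart w B) (D D' : B) (N : ℕ) (h : ChartUnitPair w B c D D' N)
    (n : Ideal B) (hn : n.IsMaximal) (h₁ : c.p₁ ≤ n) (h₂ : c.p₂ ≤ n) :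
    ordAt c.p₂ n D ≤ N := by
  obtain ⟨hnoeth, hic, hfrac⟩ := H34.chart_instances' w x B hB
  haveI := c.prime₁
  haveI := c.prime₂
  haveI : IsIntegrallyClosed (B ⧸ c.p₂) := c.normal₂
  have hw : algebraMap R B w ∈ c.p₁ ⊓ c.p₂ := by
    rw [c.inf_eq]
    exact Ideal.mem_span_singleton_self _
  haveI : IsDedekindDomain (B ⧸ c.p₂) :=
    H609.isDedekindDomain_quotient_chart w x B hB c.p₂ hw.2
  exact h.unitPair.ordAt_le F c.transversal n h₁ h₂

/-- **THICK1 on a semistable chart**: DEG0 + COUNT ⟹ both components are locally principal at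
every node of `s`. -/
theorem th1_of_ssChart (w : R) (x : F) (B : Subalgebra R F) (hB : ChartCtx E w x B)
    (c : SSChart w B) (D D' : B) (N : ℕ) (h : ChartUnitPair w B c D D' N)
    (s : Finset (Ideal B)) (hs : ∀ n ∈ s, n.IsMaximal ∧ c.p₁ ≤ n ∧ c.p₂ ≤ n)
    (Z : ℕ) (hdeg : ∑ n ∈ s, ordAt c.p₂ n D = Z) (hcount : N * s.card ≤ Z) :
    ∀ n ∈ s,
      (∃ x₁ ∈ c.p₁, ∀ a ∈ c.p₁, ∃ g : B, g ∉ n ∧ ∃ b : B, g * a = x₁ * b) ∧
      (∃ x₂ ∈ c.p₂, ∀ a ∈ c.p₂, ∃ g : B, g ∉ n ∧ ∃ b : B, g * a = x₂ * b) := by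
  obtain ⟨hnoeth, hic, hfrac⟩ := H34.chart_instances' w x B hB
  haveI := c.prime₁
  haveI := c.prime₂
  haveI : IsIntegrallyClosed (B ⧸ c.p₂) := c.normal₂
  have hw : algebraMap R B w ∈ c.p₁ ⊓ c.p₂ := by
    rw [c.inf_eq]
    exact Ideal.mem_span_singleton_self _
  haveI : IsDedekindDomain (B ⧸ c.p₂) :=
    H609.isDedekindDomain_quotient_chart w x B hB c.p₂ hw.2
  intro n hn
  obtain ⟨x₁, hx₁, hgen⟩ := h.unitPair.th1_abs F c.transversal s hs Z hdeg hcount n hn
  obtain ⟨hmax, h₁, h₂⟩ := hs n hn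
  haveI := hmax.isPrime
  obtain ⟨y, hy, -, hgen₂⟩ := snd_of_fst c.inf_eq c.not_le₁₂ n h₂ x₁ hx₁ hgen
  exact ⟨⟨x₁, hx₁, hgen⟩, ⟨y, hy, hgen₂⟩⟩

end Fermat.Agent.S36.H803

end
-- ===== PACK-END S36/H803/Th1Alg.lean

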