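import Fermat.Prelude.Def_FLTPrelim_GaloisRep
import Mathlib
import Fermat.Prelude.Def_GaloisRep_Residual
import Fermat.Agent.Pack.S59C.E4L0
import Fermat.Agent.Pack.S59C.E0L1
import Fermat.Agent.Pack.S59C.E4L3
import Fermat.Agent.Pack.S59C.E4L1
import Fermat.Agent.Pack.S59C.E3L3
import Fermat.Agent.Pack.S44C.G0E18L3
import Fermat.Agent.Pack.S44C.G0E18L0
import Fermat.Agent.Pack.S44C.G0E6L2
import Fermat.Agent.Pack.S59C.E4L2
import Fermat.Agent.Pack.S43GC.G2E0L0
import Fermat.Agent.Pack.S59C.E1L3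
import Fermat.Agent.Pack.S43GC.G0E7L3
import Fermat.Agent.Pack.S43GC.G0E12L2
import Fermat.Agent.Pack.S59C.E3L2
import Fermat.Agent.Pack.S43GC.G0E14L0
import Fermat.Agent.Pack.S43GC.G0E12L1
import Fermat.Agent.Pack.S43GC.G0E5L0
import Fermat.Agent.Pack.S43GC.G0E10L2
import Fermat.Agent.Pack.S59C.E2L2
import Fermat.Agent.Pack.S43GC.G0E7L1
import Fermat.Agent.Pack.S43MC.G0E4L0
import Fermat.Agent.Pack.S43GC.G0E15L1
import Fermat.Agent.Pack.S43GC.G1E0L0
import Fermat.Agent.Pack.S59C.E1L1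
import Fermat.Agent.Pack.S43MC.G0E9L3
import Fermat.Agent.Pack.S43MC.G0E15L1

set_option linter.all false

-- ===== PACK-BEGIN S59/H63/OldDescent.lean
section



/-!
# Row S59, cell NM, leaf NM-OLD, sub-leaf OLD-DESCENT (helper63)

`oldDescent : H563.OldDescentStatement`, i.e. `H563.OldCStatement → NM.OldStatement`:
the statement OLD over `ℂ` implies OLD over every field `K` of characteristic `0`.

Proof.  Let `K₀ ⊆ K` be the subfield generated by the values of `x`, `y` and `a`: it is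
countable, hence embeds into `ℂ` (`S48.H368.nonempty_algHom_complex`), `ι : K₀ → ℂ`.  The classes
`ι ∘ x`, `ι ∘ y` are eigenclasses over `ℂ` for the system `ι ∘ a` (the Hecke transfer and the
degeneracy maps commute with post-composition by additive maps).  Apply OLD over `ℂ` and compose
the `z_i` with a `K₀`-linear retraction `ℂ → K₀` of `ι`.
-/

set_option autoImplicit false

open CongruenceSubgroup Cardinal
open scoped MatrixGroups

namespace Fermat.Agent.S59.H63

open Fermat.Agent.S59.NM Fermat.Agent.S41.Spec Fermat.Agent.S29.H642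

/-- Post-composition by an additive map preserves cuspidal classes. -/
theorem isCuspidal_comp63 {A B : Type*} [AddCommGroup A] [AddCommGroup B] {n : ℕ}
    (π : A →+ B) {φ : Additive (Gamma0 n) →+ A} (h : IsCuspidal φ) :
    IsCuspidal (π.comp φ) := by
  refine ⟨fun γ hγ => ?_, fun γ hγ => ?_⟩
  · rw [AddMonoidHom.comp_apply, h.1 γ hγ, map_zero]
  · rw [AddMonoidHom.comp_apply, h.2 γ hγ, map_zero]

/-- An injective additive map reflects cuspidal classes. -/
theorem isCuspidal_of_comp63 {A B : Type*} [AddCommGroup A] [AddCommGroup B] {n : ℕ}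
    (π : A →+ B) (hπ : Function.Injective π) {φ : Additive (Gamma0 n) →+ A}
    (h : IsCuspidal (π.comp φ)) : IsCuspidal φ := by
  refine ⟨fun γ hγ => hπ ?_, fun γ hγ => hπ ?_⟩
  · have := h.1 γ hγ
    rwa [AddMonoidHom.comp_apply, ← map_zero π] at this
  · have := h.2 γ hγ
    rwa [AddMonoidHom.comp_apply, ← map_zero π] at this

/-- Eigenclasses are transported by an additive map which is semilinear for the eigenvalues. -/
theorem isEigenclass_comp63 {A B : Type} [CommRing A] [CommRing B] {n : ℕ} {S : Finset ℕ}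
    {a : ℕ → A} {b : ℕ → B} (π : A →+ B) (hπ : ∀ (l : ℕ) (v : A), π (a l * v) = b l * π v)
    {x : Additive (Gamma0 n) →+ A} (hx : IsEigenclass n S a x) :
    IsEigenclass n S b (π.comp x) := by
  refine ⟨isCuspidal_comp63 π hx.1, fun l _ hl hlS => ?_⟩
  rw [heckeTransfer_comp, hx.2 l hl hlS]
  refine AddMonoidHom.ext fun γ => ?_
  simp only [AddMonoidHom.comp_apply, AddMonoidHom.smul_apply, smul_eq_mul, hπ]

/-- Eigenclasses are reflected by an injective additive map which is semilinear for the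
eigenvalues. -/
theorem isEigenclass_of_comp63 {A B : Type} [CommRing A] [CommRing B] {n : ℕ} {S : Finset ℕ}
    {a : ℕ → A} {b : ℕ → B} (π : A →+ B) (hinj : Function.Injective π)
    (hπ : ∀ (l : ℕ) (v : A), π (a l * v) = b l * π v)
    {x : Additive (Gamma0 n) →+ A} (hx : IsEigenclass n S b (π.comp x)) :
    IsEigenclass n S a x := by
  refine ⟨isCuspidal_of_comp63 π hinj hx.1, fun l _ hl hlS => ?_⟩
  have h := hx.2 l hl hlS
  rw [heckeTransfer_comp] at h
  refine AddMonoidHom.ext fun γ => hinj ?_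
  have h2 := DFunLike.congr_fun h γ
  simp only [AddMonoidHom.comp_apply, AddMonoidHom.smul_apply, smul_eq_mul] at h2
  rw [h2, AddMonoidHom.smul_apply, smul_eq_mul, hπ]

/-- The degeneracy maps `P₁, P₂, P₃` commute with post-composition. -/
theorem P_comp63 {A B : Type*} [AddCommGroup A] [AddCommGroup B] (N q : ℕ) (π : A →+ B)
    (φ : Additive (Gamma0 N) →+ A) :
    P₁ N q (π.comp φ) = π.comp (P₁ N q φ) ∧ P₂ N q (π.comp φ) = π.comp (P₂ N q φ) ∧
      P₃ N q (π.comp φ) = π.comp (P₃ N q φ) :=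
  ⟨rfl, rfl, rfl⟩

/-- **OLD-DESCENT.** -/
theorem oldDescent : H563.OldDescentStatement := by
  intro hC K _ _ N q hN hq hqN S hqS hNS a hx y hy
  obtain ⟨x, hx0, hx⟩ := hx
  classical
  -- the subfield generated by the values
  let s : Set K := (Set.range fun γ : Additive (Gamma0 N) => x γ) ∪
    (Set.range fun γ : Additive (Gamma0 (N * q * q)) => y γ) ∪ Set.range a
  let K₀ : Subfield K := Subfield.closure s
  have hxs : ∀ γ, x γ ∈ K₀ := fun γ =>
    Subfield.subset_closure (Or.inl (Or.inl ⟨γ, rfl⟩))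
  have hys : ∀ γ, y γ ∈ K₀ := fun γ =>
    Subfield.subset_closure (Or.inl (Or.inr ⟨γ, rfl⟩))
  have has : ∀ l, a l ∈ K₀ := fun l => Subfield.subset_closure (Or.inr ⟨l, rfl⟩)
  have hcG : ∀ n : ℕ, Countable (Additive (Gamma0 n)) := fun n =>
    Function.Injective.countable (β := Fin 2 → Fin 2 → ℤ)
      (f := fun γ : Additive (Gamma0 n) =>
        fun i j => ((Additive.toMul γ : Gamma0 n) : SL(2, ℤ)) i j)
      (fun γ γ' h => by
        have h1 : (Additive.toMul γ : Gamma0 n) = Additive.toMul γ' :=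
          Subtype.ext (Subtype.ext (Matrix.ext fun i j => congrFun (congrFun h i) j))
        exact Additive.toMul.injective h1)
  have := hcG N
  have := hcG (N * q * q)
  have hscount : s.Countable :=
    ((Set.countable_range _).union (Set.countable_range _)).union (Set.countable_range _)
  have hK₀ : #K₀ ≤ 𝔠 := by
    have h1 : #K₀ ≤ max #s ℵ₀ := Subfield.cardinalMk_closure_le_max s
    have h2 : #s ≤ ℵ₀ := hscount.le_aleph0
    exact (h1.trans (max_le h2 le_rfl)).trans aleph0_le_continuum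
  -- the embedding into `ℂ`
  have : FaithfulSMul ℤ K₀ :=
    (faithfulSMul_iff_algebraMap_injective ℤ K₀).mpr (by
      intro m n hmn
      have : ((m : K₀) : K) = ((n : K₀) : K) := congrArg _ hmn
      exact_mod_cast this)
  have : FaithfulSMul ℤ ℂ :=
    (faithfulSMul_iff_algebraMap_injective ℤ ℂ).mpr (by
      intro m n hmn
      exact_mod_cast hmn)
  obtain ⟨ι'⟩ := Fermat.Agent.S48.H368.nonempty_algHom_complex (O := ℤ) (E := K₀) hK₀
  let ι : K₀ →+* ℂ := ι'.toRingHom
  have hι : Function.Injective ι := ι.injective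
  -- the restricted classes
  let x₀ : Additive (Gamma0 N) →+ K₀ := x.codRestrict K₀ hxs
  let y₀ : Additive (Gamma0 (N * q * q)) →+ K₀ := y.codRestrict K₀ hys
  let a₀ : ℕ → K₀ := fun l => ⟨a l, has l⟩
  have hsub : Function.Injective (K₀.subtype : K₀ →+ K) := Subtype.val_injective
  have ex : (K₀.subtype : K₀ →+ K).comp x₀ = x := AddMonoidHom.ext fun γ => rfl
  have ey : (K₀.subtype : K₀ →+ K).comp y₀ = y := AddMonoidHom.ext fun γ => rfl
  have hx₀ : IsEigenclass N S a₀ x₀ :=
    isEigenclass_of_comp63 (b := a) (K₀.subtype : K₀ →+ K) hsub (fun l v => rfl)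
      (x := x₀) (ex.symm ▸ hx)
  have hy₀ : IsEigenclass (N * q * q) (insert q S) a₀ y₀ :=
    isEigenclass_of_comp63 (b := a) (K₀.subtype : K₀ →+ K) hsub (fun l v => rfl)
      (x := y₀) (ey.symm ▸ hy)
  have hxC : IsEigenclass N S (fun l => ι (a₀ l)) ((ι : K₀ →+ ℂ).comp x₀) :=
    isEigenclass_comp63 (ι : K₀ →+ ℂ) (fun l v => map_mul ι _ _) hx₀
  have hyC : IsEigenclass (N * q * q) (insert q S) (fun l => ι (a₀ l))
      ((ι : K₀ →+ ℂ).comp y₀) :=
    isEigenclass_comp63 (ι : K₀ →+ ℂ) (fun l v => map_mul ι _ _) hy₀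
  have hxC0 : (ι : K₀ →+ ℂ).comp x₀ ≠ 0 := by
    intro h0
    apply hx0
    refine AddMonoidHom.ext fun γ => ?_
    have h1 := DFunLike.congr_fun h0 γ
    simp only [AddMonoidHom.comp_apply, AddMonoidHom.zero_apply] at h1
    have h2 : x₀ γ = 0 := hι (by rw [map_zero]; exact h1)
    have h3 : ((x₀ γ : K₀) : K) = 0 := by rw [h2]; rfl
    exact h3
  obtain ⟨z₁, z₂, z₃, hz₁, hz₂, hz₃, hyz⟩ :=
    hC N q hN hq hqN S hqS hNS (fun l => ι (a₀ l)) ⟨_, hxC0, hxC⟩ _ hyC
  -- the retraction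
  let _ : Algebra K₀ ℂ := ι.toAlgebra
  obtain ⟨lam, hlam⟩ := LinearMap.exists_leftInverse_of_injective (Algebra.linearMap K₀ ℂ)
    (LinearMap.ker_eq_bot.mpr (by exact hι))
  have hlamι : ∀ c : K₀, lam (ι c) = c := fun c => LinearMap.congr_fun hlam c
  have hlamsmul : ∀ (c : K₀) (v : ℂ), lam (ι c * v) = c * lam v := by
    intro c v
    have : ι c * v = c • v := (Algebra.smul_def c v).symm
    rw [this, map_smul, smul_eq_mul]
  let π : ℂ →+ K := (K₀.subtype : K₀ →+ K).comp lam.toAddMonoidHom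
  have hπ : ∀ (l : ℕ) (v : ℂ), π (ι (a₀ l) * v) = a l * π v := by
    intro l v
    show ((lam (ι (a₀ l) * v) : K₀) : K) = a l * ((lam v : K₀) : K)
    rw [hlamsmul]
    rfl
  refine ⟨π.comp z₁, π.comp z₂, π.comp z₃, isEigenclass_comp63 π hπ hz₁,
    isEigenclass_comp63 π hπ hz₂, isEigenclass_comp63 π hπ hz₃, ?_⟩
  rw [(P_comp63 N q π z₁).1, (P_comp63 N q π z₂).2.1, (P_comp63 N q π z₃).2.2,
    ← AddMonoidHom.comp_add, ← AddMonoidHom.comp_add, ← hyz]
  refine AddMonoidHom.ext fun γ => ?_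
  show y γ = ((lam (ι (y₀ γ)) : K₀) : K)
  rw [hlamι]
  rfl

end Fermat.Agent.S59.H63

end
-- ===== PACK-END S59/H63/OldDescent.lean

-- ===== PACK-BEGIN S59/H382/ChordUnit.lean
section


/-!
# Row S59, piece CR-FLAT (helper382): the chord law has a unit denominator

If `P`, `Q` are points of odd order with distinct reductions, then the chord law
`addXYZ (nrep P) (nrep Q) = L • nrep (P + Q)` holds with `L` a unit of `A`.
-/

set_option autoImplicit false
set_option linter.unusedSectionVars false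
set_option linter.unusedVariables false

namespace Fermat.Agent.S59.H382

open WeierstrassCurve
open scoped WeierstrassCurve.Projective
open Fermat.Agent.Lib.Red.H290
open Fermat.Agent.S05.SameRed (IntegralCoeffs InKer)

variable {K : Type*} [Field K] [DecidableEq K] {κ : Type*} [Field κ] [DecidableEq κ]
variable {A : ValuationSubring K} {φ : A →+* κ} {W : WeierstrassCurve K} {Wκ : WeierstrassCurve κ}

/-- A curve over `A` lifting `W` and `Wκ`. -/
lemma exists_curve_lift (h : IsRedOf A φ W Wκ) :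
    ∃ W₀ : WeierstrassCurve A, W₀.map A.subtype = W ∧ W₀.map φ = Wκ := by
  obtain ⟨c₁, c₂, c₃, c₄, c₆, e₁, e₂, e₃, e₄, e₆, f₁, f₂, f₃, f₄, f₆⟩ := h.exists_lift
  refine ⟨⟨c₁, c₂, c₃, c₄, c₆⟩, ?_, ?_⟩
  · ext
    · exact e₁
    · exact e₂
    · exact e₃
    · exact e₄
    · exact e₆
  · ext
    · exact f₁
    · exact f₂
    · exact f₃
    · exact f₄
    · exact f₆

lemma exists_rep0_eq_one (W : WeierstrassCurve κ) (R : W.toAffine.Point) :
    ∃ i, rep0 W R i = 1 := by
  rcases R with _ | ⟨x, y, h⟩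
  · exact ⟨1, rfl⟩
  · exact ⟨2, rfl⟩

lemma two_ne_zero_of_val (h2 : A.valuation (2 : K) = 1) : (2 : K) ≠ 0 := by
  intro h0
  rw [h0, map_zero] at h2
  exact zero_ne_one h2

/-- **The chord law with unit denominator.** -/
theorem val_Lf_addXYZ (h : IsRedOf A φ W Wκ) (hφ : KerMax A φ) (hΔ : Wκ.Δ ≠ 0)
    (h2 : A.valuation (2 : K) = 1) {P Q : W.toAffine.Point} {N : ℕ} (hN : Odd N)
    (hP : N • P = 0) (hQ : N • Q = 0) (hne : red h hΔ P ≠ red h hΔ Q) :
    A.valuation (Lf W (Projective.addXYZ W (nrep W P) (nrep W Q))) = 1 ∧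
      Projective.addXYZ W (nrep W P) (nrep W Q) =
        Lf W (Projective.addXYZ W (nrep W P) (nrep W Q)) • nrep W (P + Q) := by
  have h2K := two_ne_zero_of_val h2
  have hPQne : P ≠ Q := fun e => hne (by rw [e])
  have hPQ : N • (P + Q) = 0 := by rw [smul_add, hP, hQ, add_zero]
  obtain ⟨hL0, hV⟩ := addXYZ_nrep (n2_of_odd_nsmul h2K hN hP) (n2_of_odd_nsmul h2K hN hQ)
    (n2_of_odd_nsmul h2K hN hPQ) hPQne
  refine ⟨?_, hV⟩
  obtain ⟨W₀, hW₀, hW₀κ⟩ := exists_curve_lift h
  -- integral lifts of the coordinates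
  let uP : Fin 3 → A := fun i => ⟨nrep W P i, nrep_mem h hφ hΔ h2 hN hP i⟩
  let uQ : Fin 3 → A := fun i => ⟨nrep W Q i, nrep_mem h hφ hΔ h2 hN hQ i⟩
  have huP : (A.subtype : A → K) ∘ uP = nrep W P := rfl
  have huQ : (A.subtype : A → K) ∘ uQ = nrep W Q := rfl
  have huPκ : (φ : A → κ) ∘ uP = rdv A φ (nrep W P) := by
    funext i
    exact (rd_of_mem (nrep_mem h hφ hΔ h2 hN hP i)).symm
  have huQκ : (φ : A → κ) ∘ uQ = rdv A φ (nrep W Q) := by
    funext i
    exact (rd_of_mem (nrep_mem h hφ hΔ h2 hN hQ i)).symm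
  set V₀ : Fin 3 → A := Projective.addXYZ W₀ uP uQ with hV₀
  have hVK : Projective.addXYZ W (nrep W P) (nrep W Q) = (A.subtype : A → K) ∘ V₀ := by
    rw [hV₀, ← Projective.map_addXYZ, huP, huQ, show Projective.map W₀ A.subtype = W from hW₀]
  have hVκ : Projective.addXYZ Wκ (rdv A φ (nrep W P)) (rdv A φ (nrep W Q)) =
      (φ : A → κ) ∘ V₀ := by
    rw [hV₀, ← Projective.map_addXYZ, huPκ, huQκ, show Projective.map W₀ φ = Wκ from hW₀κ]
  -- nonsingularity over the residue field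
  have hns := (addXYZ_rep (nonsingular_rdv h hφ hΔ h2 hN hP) (nonsingular_rdv h hφ hΔ h2 hN hQ)
    (by rw [toAffine_rdv h hφ hΔ h2 hN hP, toAffine_rdv h hφ hΔ h2 hN hQ]; exact hne)).1
  obtain ⟨u, hu, hVu⟩ := exists_smul_rep0 Wκ hns
  obtain ⟨i, hi⟩ := exists_rep0_eq_one Wκ
    (Projective.Point.toAffine Wκ (Projective.addXYZ Wκ (rdv A φ (nrep W P))
      (rdv A φ (nrep W Q))))
  have hφi : φ (V₀ i) ≠ 0 := by
    have e1 : φ (V₀ i) = ((φ : A → κ) ∘ V₀) i := rfl
    rw [e1, ← hVκ, hVu, Pi.smul_apply, hi, smul_eq_mul, mul_one]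
    exact hu
  have hvi : A.valuation ((V₀ i : A) : K) = 1 := by
    refine le_antisymm (val_le_of_mem (V₀ i).2) (not_lt.mp fun hlt => hφi ((hφ (V₀ i)).mpr hlt))
  -- the `i`-th coordinate
  have hcoord : ((V₀ i : A) : K) =
      Lf W (Projective.addXYZ W (nrep W P) (nrep W Q)) * nrep W (P + Q) i := by
    have e1 : ((V₀ i : A) : K) = ((A.subtype : A → K) ∘ V₀) i := rfl
    rw [e1, ← hVK]
    conv_lhs => rw [hV]
    rfl
  have hLA : Lf W (Projective.addXYZ W (nrep W P) (nrep W Q)) ∈ A := by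
    rw [hVK, ← hW₀, Lf_map]
    exact (Lf W₀ V₀).2
  have hnA := nrep_mem h hφ hΔ h2 hN hPQ i
  rw [hcoord, map_mul] at hvi
  refine le_antisymm (val_le_of_mem hLA) ?_
  calc (1 : _) = A.valuation (Lf W (Projective.addXYZ W (nrep W P) (nrep W Q))) *
        A.valuation (nrep W (P + Q) i) := hvi.symm
    _ ≤ A.valuation (Lf W (Projective.addXYZ W (nrep W P) (nrep W Q))) * 1 :=
        mul_le_mul_right (val_le_of_mem hnA) _
    _ = _ := mul_one _

end Fermat.Agent.S59.H382

end
-- ===== PACK-END S59/H382/ChordUnit.lean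

-- ===== PACK-BEGIN S59/H382/Global.lean
section







/-!
# Row S59, piece CR-FLAT (helper382): the normalised coordinates on `E(ℚ̄)`

`W` a Weierstrass curve over `ℤ`, `E = W_{ℚ̄}`.  The functions `coord W i : E(ℚ̄) → ℚ̄`
(`i = 0, 1, 2`: `x/ψ`, `y/ψ`, `1/ψ`) are Galois-equivariant, and on points of odd order they are
integral over `ℤ_(p)` for every odd prime `p` of good reduction.
-/

set_option autoImplicit false
set_option linter.unusedSectionVars false
set_option linter.unusedVariables false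

namespace Fermat.Agent.S59.H382

open WeierstrassCurve
open scoped WeierstrassCurve.Affine
open Fermat.Agent.Lib.Red.H290
open Fermat.Agent.S19 (Qb GalQ Rl Zb)

variable (W : WeierstrassCurve ℤ)

/-- the curve over `ℚ̄` -/
noncomputable abbrev EQ : WeierstrassCurve Qb := (W.map (Int.castRingHom ℚ))⁄Qb

/-- the points over `ℚ̄` (the Prelude's type) -/
abbrev PtsQ : Type := ((W.map (Int.castRingHom ℚ))⁄Qb).Point

/-- the normalised coordinate functions -/
noncomputable def coord (i : Fin 3) (P : PtsQ W) : Qb := nrep (EQ W) P i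

section local_

variable {W} (A : ValuationSubring Qb) {p : ℕ} [Fact p.Prime]

open Fermat.Agent.Lib.Frob.A1.H382 in
/-- the reduced curve -/
noncomputable abbrev Eκ (W : WeierstrassCurve ℤ) (A : ValuationSubring Qb) :
    WeierstrassCurve (IsLocalRing.ResidueField A) :=
  (WA W A)⁄(IsLocalRing.ResidueField A)

open Fermat.Agent.Lib.Frob.A1.H382 in
lemma isRedOf_EQ : IsRedOf A (algebraMap A (IsLocalRing.ResidueField A)) (EQ W) (Eκ W A) := by
  have h := isRedOf_baseChange A (WA W A)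
  rwa [curveK] at h

open Fermat.Agent.Lib.Frob.A1.H382 in
lemma Eκ_Δ_ne_zero (hA : A.LiesOverPrime p) (hgood : ¬ (p : ℤ) ∣ W.Δ) : (Eκ W A).Δ ≠ 0 :=
  Δ_baseChange_ne_zero A (WA W A) (isUnit_Δ W p A hA hgood)

open Fermat.Agent.Lib.Frob.A1.H382 in
lemma val_two_eq_one (hA : A.LiesOverPrime p) (hp2 : p ≠ 2) : A.valuation (2 : Qb) = 1 := by
  have h := val_natCast_eq_one A (Fact.out : p.Prime) hA (n := 2) (by
    intro hdvd
    exact hp2 ((Nat.prime_dvd_prime_iff_eq (Fact.out : p.Prime) Nat.prime_two).mp hdvd))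
  simpa using h

open scoped Classical in
/-- integrality at a place over `p` -/
theorem coord_mem (hA : A.LiesOverPrime p) (hgood : ¬ (p : ℤ) ∣ W.Δ) (hp2 : p ≠ 2)
    {P : PtsQ W} {N : ℕ} (hN : Odd N) (hP : N • P = 0) (i : Fin 3) : coord W i P ∈ A :=
  nrep_mem (isRedOf_EQ A) (kerMax_algebraMap A) (Eκ_Δ_ne_zero A hA hgood)
    (val_two_eq_one A hA hp2) hN hP i

end local_

/-- An element of `ℚ̄` lying in every valuation subring over `p` is integral over `ℤ_(p)`. -/
theorem isIntegral_of_forall_mem {p : ℕ} (hp : p.Prime) {x : Qb}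
    (h : ∀ A : ValuationSubring Qb, (p : Qb) ∈ A.nonunits → x ∈ A) : IsIntegral (Rl p) x := by
  by_contra hx
  have hx' : x ∉ (integralClosure (Rl p) Qb).toSubring := hx
  obtain ⟨V, hV, hxV⟩ := Subring.exists_le_valuationSubring_of_isIntegrallyClosedIn hx'
  have hV' : ∀ y : Qb, IsIntegral (Rl p) y → y ∈ V := fun y hy => hV hy
  rcases Fermat.Agent.S19.H255.eq_top_or_liesOver_of_le hp V hV' with htop | hlo
  · exact hxV (htop ▸ ValuationSubring.mem_top x)
  · exact hxV (h V hlo)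

/-- integrality over `ℤ_(p)` -/
theorem coord_isIntegral {p : ℕ} [Fact p.Prime] (hgood : ¬ (p : ℤ) ∣ W.Δ) (hp2 : p ≠ 2)
    {P : PtsQ W} {N : ℕ} (hN : Odd N) (hP : N • P = 0) (i : Fin 3) :
    IsIntegral (Rl p) (coord W i P) :=
  isIntegral_of_forall_mem Fact.out fun A hA => coord_mem A hA hgood hp2 hN hP i

/-- Galois equivariance -/
theorem coord_smul (σ : GalQ) (P : PtsQ W) (i : Fin 3) :
    coord W i (σ • P) = σ (coord W i P) := by
  have ha₁ : σ (EQ W).a₁ = (EQ W).a₁ := σ.commutes _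
  have ha₃ : σ (EQ W).a₃ = (EQ W).a₃ := σ.commutes _
  rcases P with _ | ⟨x, y, hxy⟩
  · show nrep (EQ W) (0 : (EQ W).toAffine.Point) i = σ (nrep (EQ W) (0 : (EQ W).toAffine.Point) i)
    rw [nrep_zero_eq]
    fin_cases i
    · exact (map_zero σ).symm
    · show (2 : Qb)⁻¹ = σ (2 : Qb)⁻¹
      rw [map_inv₀, map_ofNat]
    · exact (map_zero σ).symm
  · have hs := Fermat.Agent.S05.GoodRed.smul_some (S := ℚ) (W' := W.map (Int.castRingHom ℚ)) σ hxy
    show nrep (EQ W) (σ • (Affine.Point.some x y hxy : PtsQ W)) i =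
      σ (nrep (EQ W) (Affine.Point.some x y hxy) i)
    rw [hs]
    refine (congrFun (nrep_some_eq (EQ W) _) i).trans ?_
    rw [nrep_some_eq]
    fin_cases i
    · show σ x / _ = σ (x / _)
      rw [map_div₀, map_add, map_add, map_mul, map_mul, ha₁, ha₃, map_ofNat]
    · show σ y / _ = σ (y / _)
      rw [map_div₀, map_add, map_add, map_mul, map_mul, ha₁, ha₃, map_ofNat]
    · show 1 / _ = σ (1 / _)
      rw [map_div₀, map_add, map_add, map_mul, map_mul, ha₁, ha₃, map_ofNat, map_one]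

/-- the coordinates separate the points which are not `2`-torsion -/
theorem eq_of_coord_eq {P Q : PtsQ W} (hP : N2 (EQ W) P) (hQ : N2 (EQ W) Q)
    (h : ∀ i, coord W i P = coord W i Q) : P = Q := by
  have e : nrep (EQ W) P = nrep (EQ W) Q := funext h
  rw [← toAffine_nrep hP, ← toAffine_nrep hQ, e]

end Fermat.Agent.S59.H382

end
-- ===== PACK-END S59/H382/Global.lean

-- ===== PACK-BEGIN S59/H382/Triple.lean
section


/-!
# Row S59, piece CR-FLAT (helper382): a complete addition law on odd torsion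

With an auxiliary point `T` of odd order `q` prime to `n` (and to the residue characteristic), the
composite chord law

  `V(P₁, P₂) = addXYZ (addXYZ (nrep P₁) (nrep T)) (addXYZ (nrep P₂) (nrep (-T)))`

represents `P₁ + P₂` for ALL pairs of `n`-torsion points, with a unit denominator:
`V = L(V) • nrep (P₁ + P₂)` and `L(V) ∈ Aˣ`.
-/

set_option autoImplicit false
set_option linter.unusedSectionVars false
set_option linter.unusedVariables false

namespace Fermat.Agent.S59.H382

open WeierstrassCurve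
open scoped WeierstrassCurve.Projective
open Fermat.Agent.Lib.Red.H290
open Fermat.Agent.S05.SameRed (IntegralCoeffs InKer)

variable {K : Type*} [Field K] [DecidableEq K] {κ : Type*} [Field κ] [DecidableEq κ]
variable {A : ValuationSubring K} {φ : A →+* κ} {W : WeierstrassCurve K} {Wκ : WeierstrassCurve κ}

/-- the composite law -/
noncomputable def tripleLaw {R : Type*} [CommRing R] (W : WeierstrassCurve R)
    (u₁ u₂ t t' : Fin 3 → R) : Fin 3 → R :=
  Projective.addXYZ W (Projective.addXYZ W u₁ t) (Projective.addXYZ W u₂ t')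

lemma tripleLaw_map {R S : Type*} [CommRing R] [CommRing S] (W : WeierstrassCurve R)
    (f : R →+* S) (u₁ u₂ t t' : Fin 3 → R) :
    tripleLaw (W.map f) (f ∘ u₁) (f ∘ u₂) (f ∘ t) (f ∘ t') = f ∘ tripleLaw W u₁ u₂ t t' := by
  simp only [tripleLaw]
  rw [show W.map f = Projective.map W f from rfl, Projective.map_addXYZ, Projective.map_addXYZ,
    Projective.map_addXYZ]

lemma eq_zero_of_coprime_nsmul {G : Type*} [AddCommGroup G] {n q : ℕ} (hcop : Nat.Coprime n q)
    {g : G} (hn : n • g = 0) (hq : q • g = 0) : g = 0 := by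
  have h1 : addOrderOf g ∣ n := addOrderOf_dvd_of_nsmul_eq_zero hn
  have h2 : addOrderOf g ∣ q := addOrderOf_dvd_of_nsmul_eq_zero hq
  have h3 : addOrderOf g ∣ 1 := by
    have := Nat.dvd_gcd h1 h2
    rwa [hcop.gcd_eq_one] at this
  exact AddMonoid.addOrderOf_eq_one_iff.mp (Nat.dvd_one.mp h3)

/-- a nonzero `q`-torsion point and an `n`-torsion point have distinct reductions -/
lemma red_ne_of_coprime (h : IsRedOf A φ W Wκ) (hφ : KerMax A φ) (hΔ : Wκ.Δ ≠ 0)
    {n q : ℕ} (hcop : Nat.Coprime n q) (hvq : A.valuation (q : K) = 1)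
    {R S : W.toAffine.Point} (hR : q • R = 0) (hR0 : R ≠ 0) (hS : n • S = 0) :
    red h hΔ R ≠ red h hΔ S := by
  intro heq
  apply hR0
  apply eq_zero_of_red_eq_zero_of_nsmul h hΔ q hvq R hR
  have hn : n • red h hΔ R = 0 := by
    have := map_nsmul (redHom h hφ hΔ) n S
    simp only [redHom_apply] at this
    rw [heq, ← this, hS, red_zero]
  have hq : q • red h hΔ R = 0 := by
    have := map_nsmul (redHom h hφ hΔ) q R
    simp only [redHom_apply] at this
    rw [← this, hR, red_zero]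
  exact eq_zero_of_coprime_nsmul hcop hn hq

/-- **The complete addition law on `n`-torsion.** -/
theorem tripleLaw_nrep (h : IsRedOf A φ W Wκ) (hφ : KerMax A φ) (hΔ : Wκ.Δ ≠ 0)
    (h2 : A.valuation (2 : K) = 1) {n q : ℕ} (hn : Odd n) (hq : Odd q)
    (hcop : Nat.Coprime n q) (hvq : A.valuation (q : K) = 1)
    {T : W.toAffine.Point} (hT : q • T = 0) (hT0 : T ≠ 0)
    {P₁ P₂ : W.toAffine.Point} (h₁ : n • P₁ = 0) (h₂ : n • P₂ = 0) :
    A.valuation (Lf W (tripleLaw W (nrep W P₁) (nrep W P₂) (nrep W T) (nrep W (-T)))) = 1 ∧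
      tripleLaw W (nrep W P₁) (nrep W P₂) (nrep W T) (nrep W (-T)) =
        Lf W (tripleLaw W (nrep W P₁) (nrep W P₂) (nrep W T) (nrep W (-T))) •
          nrep W (P₁ + P₂) := by
  have h2K := two_ne_zero_of_val h2
  have hN : Odd (n * q) := hn.mul hq
  have k₁ : (n * q) • P₁ = 0 := by rw [mul_comm, mul_smul, h₁, smul_zero]
  have k₂ : (n * q) • P₂ = 0 := by rw [mul_comm, mul_smul, h₂, smul_zero]
  have kT : (n * q) • T = 0 := by rw [mul_smul, hT, smul_zero]
  have hT' : q • (-T) = 0 := by rw [smul_neg, hT, neg_zero]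
  have kT' : (n * q) • (-T) = 0 := by rw [smul_neg, kT, neg_zero]
  have hT'0 : -T ≠ 0 := neg_ne_zero.mpr hT0
  have k₁T : (n * q) • (P₁ + T) = 0 := by rw [smul_add, k₁, kT, add_zero]
  have k₂T : (n * q) • (P₂ + -T) = 0 := by rw [smul_add, k₂, kT', add_zero]
  have k₁₂ : (n * q) • (P₁ + P₂) = 0 := by rw [smul_add, k₁, k₂, add_zero]
  -- distinct reductions
  have d₁ : red h hΔ P₁ ≠ red h hΔ T :=
    fun e => red_ne_of_coprime h hφ hΔ hcop hvq hT hT0 h₁ e.symm
  have d₂ : red h hΔ P₂ ≠ red h hΔ (-T) :=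
    fun e => red_ne_of_coprime h hφ hΔ hcop hvq hT' hT'0 h₂ e.symm
  have hTT0 : T + T ≠ 0 := by
    intro e
    apply hT0
    have h2T : 2 • T = 0 := by rw [two_nsmul]; exact e
    have hc : Nat.Coprime 2 q := Nat.coprime_two_left.mpr hq
    exact eq_zero_of_coprime_nsmul hc h2T hT
  have d₃ : red h hΔ (P₁ + T) ≠ red h hΔ (P₂ + -T) := by
    intro e
    have hS : n • (P₂ - P₁) = 0 := by rw [smul_sub, h₁, h₂, sub_zero]
    have hR : q • (T + T) = 0 := by rw [smul_add, hT, add_zero]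
    refine red_ne_of_coprime h hφ hΔ hcop hvq hR hTT0 hS ?_
    have e1 := map_add (redHom h hφ hΔ) P₁ T
    have e2 := map_add (redHom h hφ hΔ) P₂ (-T)
    have e3 := map_add (redHom h hφ hΔ) T T
    have e4 := map_sub (redHom h hφ hΔ) P₂ P₁
    have e5 := map_neg (redHom h hφ hΔ) T
    simp only [redHom_apply] at e1 e2 e3 e4 e5
    rw [e1, e2, e5] at e
    rw [e3, e4]
    have : red h hΔ T + red h hΔ T = red h hΔ P₂ - red h hΔ P₁ := by
      have e' : red h hΔ T = red h hΔ P₂ + -red h hΔ T - red h hΔ P₁ := by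
        rw [← e]; abel
      calc red h hΔ T + red h hΔ T
          = red h hΔ T + (red h hΔ P₂ + -red h hΔ T - red h hΔ P₁) := by rw [← e']
        _ = red h hΔ P₂ - red h hΔ P₁ := by abel
    exact this
  obtain ⟨v₁, e₁⟩ := val_Lf_addXYZ h hφ hΔ h2 hN k₁ kT d₁
  obtain ⟨v₂, e₂⟩ := val_Lf_addXYZ h hφ hΔ h2 hN k₂ kT' d₂
  obtain ⟨v₃, e₃⟩ := val_Lf_addXYZ h hφ hΔ h2 hN k₁T k₂T d₃
  have hsum : P₁ + T + (P₂ + -T) = P₁ + P₂ := by abel
  rw [hsum] at e₃
  set L₁ := Lf W (Projective.addXYZ W (nrep W P₁) (nrep W T)) with hL₁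
  set L₂ := Lf W (Projective.addXYZ W (nrep W P₂) (nrep W (-T))) with hL₂
  set L₃ := Lf W (Projective.addXYZ W (nrep W (P₁ + T)) (nrep W (P₂ + -T))) with hL₃
  have hV : tripleLaw W (nrep W P₁) (nrep W P₂) (nrep W T) (nrep W (-T)) =
      ((L₁ * L₂) ^ 2 * L₃) • nrep W (P₁ + P₂) := by
    rw [tripleLaw, e₁, e₂, Projective.addXYZ_smul, e₃, smul_smul]
  have hL : Lf W (tripleLaw W (nrep W P₁) (nrep W P₂) (nrep W T) (nrep W (-T))) =
      (L₁ * L₂) ^ 2 * L₃ := by
    rw [hV, Lf_smul, Lf_nrep (n2_of_odd_nsmul h2K hN k₁₂), mul_one]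
  refine ⟨?_, ?_⟩
  · rw [hL, map_mul, map_pow, map_mul, v₁, v₂, v₃]
    simp
  · rw [hL]
    exact hV

end Fermat.Agent.S59.H382

end
-- ===== PACK-END S59/H382/Triple.lean

-- ===== PACK-BEGIN S59/TW/Aut/H186/AuxPrime.lean
section





/-!
# Row S59, cell TW, layer 3 (AUT), leaf FREE: the auxiliary prime at `p = 3` (helper186)

`exists_prime_trace_ne_zero_h186` : `k` a field of characteristic `3`, `ρ̄ : G_ℚ → GL₂(k)` whose
restriction to every subgroup of index `2` is absolutely irreducible (`ResidualHyp.hTW`), with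
Frobenius characteristic polynomials `X² - a_ℓ X + ℓ` off a finite set `S`.  Then there is a prime
`r ∉ S`, `r ≡ 2 mod 3`, with `a_r ≠ 0`.

Use (case (B) of leaf FREE, `coord/S59-AUT.md` trap 3): `Γ₀(M r)` has no element of order `3`
and `T_r` is invertible on the localisation at `θ`.

Proof: otherwise `tr ρ̄(σ) = 0` for every `σ` outside `H = ker (det ρ̄)` (Frobenius division
`Lib.Cheb.frobeniusDivision`), `H` has index `2` (Dirichlet: a Frobenius at a prime `≡ 2 mod 3`),
and `ρ̄(H)` has a common eigenvector over `k̄` (`exists_stable_line_h186`).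

`exists_stable_line_h186` (Mathlib only): `V` a plane over a field `k` of characteristic `≠ 2`,
`g` an involution of `V` of trace `0`, `Hs` a multiplicatively closed set of endomorphisms with
`tr (g x) = 0` for every `x ∈ Hs`; then the elements of `Hs` have a common eigenvector over every
algebraically closed extension `K` of `k`.  (In an eigenbasis of `g = diag(1, -1)` every `x ∈ Hs`
is `[[a, b], [c, a]]` and `b c' = c b'` for `x, x' ∈ Hs`; so either `c = 0` for all `x`, or
`b = μ c` for a fixed `μ` and `s e₀ + e₁` is a common eigenvector, `s² = μ`.)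
-/

set_option autoImplicit false

open Polynomial Module
open scoped TensorProduct

namespace Fermat.Agent.S59.TW.Aut.H186

section Line

variable {k : Type*} [Field k] {V : Type*} [AddCommGroup V] [Module k V]

/-- An involution of trace `0` of a plane has an eigenbasis, with eigenvalues `1`, `-1`. -/
theorem exists_eigenbasis_h186 (h2 : (2 : k) ≠ 0) (hdim : finrank k V = 2)
    (g : End k V) (hg : g * g = 1) (htr : LinearMap.trace k V g = 0) :
    ∃ b : Basis (Fin 2) k V, g (b 0) = b 0 ∧ g (b 1) = - b 1 := by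
  classical
  have hfin : Module.Finite k V := Module.finite_of_finrank_eq_succ hdim
  have hgg : ∀ v, g (g v) = v := fun v => by
    have := congrArg (fun f : End k V => f v) hg
    simpa using this
  have hne1 : g ≠ 1 := by
    rintro rfl
    rw [LinearMap.trace_one, hdim] at htr
    exact h2 (by exact_mod_cast htr)
  have hne2 : g ≠ -1 := by
    rintro rfl
    rw [map_neg, LinearMap.trace_one, hdim, neg_eq_zero] at htr
    exact h2 (by exact_mod_cast htr)
  obtain ⟨u₁, hu₁⟩ : ∃ u, g u ≠ u := by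
    by_contra h
    simp only [not_exists, not_not] at h
    exact hne1 (LinearMap.ext h)
  obtain ⟨u₂, hu₂⟩ : ∃ u, g u ≠ -u := by
    by_contra h
    simp only [not_exists, not_not] at h
    exact hne2 (LinearMap.ext fun v => by simpa using h v)
  set vp : V := g u₂ + u₂ with hvp
  set vm : V := g u₁ - u₁ with hvm
  have hvp0 : vp ≠ 0 := fun h => hu₂ (eq_neg_of_add_eq_zero_left h)
  have hvm0 : vm ≠ 0 := fun h => hu₁ (sub_eq_zero.mp h)
  have hgp : g vp = vp := by rw [hvp, map_add, hgg, add_comm]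
  have hgm : g vm = -vm := by rw [hvm, map_sub, hgg, neg_sub]
  have hli : LinearIndependent k ![vp, vm] := by
    rw [LinearIndependent.pair_iff]
    intro s t hst
    have h1 : s • vp - t • vm = 0 := by
      have := congrArg g hst
      rw [map_add, map_smul, map_smul, hgp, hgm, smul_neg, map_zero, ← sub_eq_add_neg] at this
      exact this
    have hs : (2 * s) • vp = 0 := by
      have : (2 * s) • vp = (s • vp + t • vm) + (s • vp - t • vm) := by
        rw [mul_smul, two_smul]; abel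
      rw [this, hst, h1, add_zero]
    have ht : (2 * t) • vm = 0 := by
      have : (2 * t) • vm = (s • vp + t • vm) - (s • vp - t • vm) := by
        rw [mul_smul, two_smul]; abel
      rw [this, hst, h1, sub_zero]
    rcases smul_eq_zero.mp hs with h | h
    · rcases smul_eq_zero.mp ht with h' | h'
      · exact ⟨(mul_eq_zero.mp h).resolve_left h2, (mul_eq_zero.mp h').resolve_left h2⟩
      · exact absurd h' hvm0
    · exact absurd h hvp0
  have hcard : Fintype.card (Fin 2) = finrank k V := by rw [hdim]; rfl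
  refine ⟨basisOfLinearIndependentOfCardEqFinrank hli hcard, ?_, ?_⟩
  · rw [coe_basisOfLinearIndependentOfCardEqFinrank]
    exact hgp
  · rw [coe_basisOfLinearIndependentOfCardEqFinrank]
    exact hgm

/-- **The stable line.** -/
theorem exists_stable_line_h186 (h2 : (2 : k) ≠ 0) (hdim : finrank k V = 2)
    (g : End k V) (hg : g * g = 1) (htr : LinearMap.trace k V g = 0)
    (Hs : Set (End k V)) (hmul : ∀ x ∈ Hs, ∀ y ∈ Hs, x * y ∈ Hs)
    (hH : ∀ x ∈ Hs, LinearMap.trace k V (g * x) = 0)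
    (K : Type*) [Field K] [Algebra k K] [IsAlgClosed K] :
    ∃ w : K ⊗[k] V, w ≠ 0 ∧ ∀ x ∈ Hs, ∃ c : K, x.baseChange K w = c • w := by
  classical
  obtain ⟨b, hb0, hb1⟩ := exists_eigenbasis_h186 h2 hdim g hg htr
  -- the matrix of `x`
  obtain ⟨M, hM⟩ : ∃ M : End k V → Matrix (Fin 2) (Fin 2) k,
      ∀ x, M x = LinearMap.toMatrix b b x := ⟨_, fun _ => rfl⟩
  have hMmul : ∀ x y : End k V, M (x * y) = M x * M y := fun x y => by
    rw [hM, hM, hM]
    exact LinearMap.toMatrix_mul b x y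
  have hMg : M g = !![1, 0; 0, -1] := by
    ext i j
    rw [hM, LinearMap.toMatrix_apply]
    fin_cases i <;> fin_cases j <;> simp [hb0, hb1]
  have htrM : ∀ x : End k V, LinearMap.trace k V (g * x) = M x 0 0 - M x 1 1 := by
    intro x
    rw [LinearMap.trace_eq_matrix_trace k b, ← hM, hMmul, hMg, Matrix.trace_fin_two]
    simp [Matrix.mul_apply, Fin.sum_univ_two]
    ring
  have hdiag : ∀ x ∈ Hs, M x 0 0 = M x 1 1 := fun x hx =>
    sub_eq_zero.mp ((htrM x).symm.trans (hH x hx))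
  have hcross : ∀ x ∈ Hs, ∀ y ∈ Hs, M x 0 1 * M y 1 0 = M x 1 0 * M y 0 1 := by
    intro x hx y hy
    have h := hdiag (x * y) (hmul x hx y hy)
    rw [hMmul] at h
    simp only [Matrix.mul_apply, Fin.sum_univ_two] at h
    rw [hdiag x hx, hdiag y hy] at h
    linear_combination h
  -- the base change
  set e0 : K ⊗[k] V := (1 : K) ⊗ₜ[k] b 0 with he0
  set e1 : K ⊗[k] V := (1 : K) ⊗ₜ[k] b 1 with he1
  have hx0 : ∀ x : End k V, x.baseChange K e0 =
      algebraMap k K (M x 0 0) • e0 + algebraMap k K (M x 1 0) • e1 := by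
    intro x
    have hxb : x (b 0) = M x 0 0 • b 0 + M x 1 0 • b 1 := by
      have := b.sum_repr (x (b 0))
      rw [Fin.sum_univ_two] at this
      rw [hM, LinearMap.toMatrix_apply, LinearMap.toMatrix_apply]
      exact this.symm
    rw [he0, he1, LinearMap.baseChange_tmul, hxb, TensorProduct.tmul_add,
      TensorProduct.tmul_smul, TensorProduct.tmul_smul, algebraMap_smul, algebraMap_smul]
  have hx1 : ∀ x : End k V, x.baseChange K e1 =
      algebraMap k K (M x 0 1) • e0 + algebraMap k K (M x 1 1) • e1 := by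
    intro x
    have hxb : x (b 1) = M x 0 1 • b 0 + M x 1 1 • b 1 := by
      have := b.sum_repr (x (b 1))
      rw [Fin.sum_univ_two] at this
      rw [hM, LinearMap.toMatrix_apply, LinearMap.toMatrix_apply]
      exact this.symm
    rw [he0, he1, LinearMap.baseChange_tmul, hxb, TensorProduct.tmul_add,
      TensorProduct.tmul_smul, TensorProduct.tmul_smul, algebraMap_smul, algebraMap_smul]
  have hliK : LinearIndependent K ![e0, e1] := by
    have h := (b.baseChange K).linearIndependent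
    have h' : (⇑(b.baseChange K) : Fin 2 → K ⊗[k] V) = ![e0, e1] := by
      funext i
      fin_cases i <;> simp [Basis.baseChange_apply, he0, he1]
    rwa [h'] at h
  rw [LinearIndependent.pair_iff] at hliK
  by_cases hc : ∀ x ∈ Hs, M x 1 0 = 0
  · refine ⟨e0, ?_, fun x hx => ⟨algebraMap k K (M x 0 0), ?_⟩⟩
    · intro h
      have := hliK 1 0 (by rw [one_smul, zero_smul, add_zero, h])
      exact one_ne_zero this.1
    · rw [hx0, hc x hx, map_zero, zero_smul, add_zero]
  · simp only [not_forall] at hc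
    obtain ⟨x₀, hx₀, hc₀⟩ := hc
    obtain ⟨s, hs⟩ := IsAlgClosed.exists_eq_mul_self (algebraMap k K (M x₀ 0 1 / M x₀ 1 0))
    refine ⟨s • e0 + e1, ?_, fun x hx =>
      ⟨algebraMap k K (M x 0 0) + s * algebraMap k K (M x 1 0), ?_⟩⟩
    · intro h
      have := hliK s 1 (by rw [one_smul, h])
      exact one_ne_zero this.2
    · have hb : M x 0 1 = (M x₀ 0 1 / M x₀ 1 0) * M x 1 0 := by
        have := hcross x hx x₀ hx₀
        field_simp
        linear_combination this
      have hb' : algebraMap k K (M x 0 1) = s * s * algebraMap k K (M x 1 0) := by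
        rw [hb, map_mul, hs]
      rw [map_add, map_smul, hx0, hx1, hb', ← hdiag x hx]
      module

end Line

section LA

variable {k : Type*} [Field k] {V : Type*} [AddCommGroup V] [Module k V]

/-- Trace, determinant and the Cayley–Hamilton relation of an endomorphism of a plane with
characteristic polynomial `X² - a X + c`. -/
theorem facts_of_charpoly_h186 [Module.Finite k V] (hdim : finrank k V = 2) (f : End k V)
    (a c : k)
    (h : LinearMap.charpoly f = X ^ 2 - C a * X + C c) :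
    LinearMap.trace k V f = a ∧ LinearMap.det f = c ∧
      f * f - a • f + c • (1 : End k V) = 0 := by
  classical
  refine ⟨?_, ?_, ?_⟩
  · have hcard : Fintype.card (Module.Free.ChooseBasisIndex k V) = 2 := by
      rw [← Module.finrank_eq_card_chooseBasisIndex, hdim]
    have : Nonempty (Module.Free.ChooseBasisIndex k V) := by
      rw [← Fintype.card_pos_iff, hcard]; norm_num
    rw [LinearMap.trace_eq_matrix_trace k (Module.Free.chooseBasis k V) f,
      Matrix.trace_eq_neg_charpoly_coeff, hcard,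
      LinearMap.charpoly_toMatrix f (Module.Free.chooseBasis k V), h]
    simp [Polynomial.coeff_C]
  · rw [LinearMap.det_eq_sign_charpoly_coeff, hdim, h]
    simp [Polynomial.coeff_X, Polynomial.coeff_C]
  · have hCH := LinearMap.aeval_self_charpoly f
    rw [h] at hCH
    simp only [map_sub, map_add, map_mul, map_pow, aeval_X, aeval_C,
      Algebra.algebraMap_eq_smul_one] at hCH
    rw [← hCH, pow_two, smul_mul_assoc, one_mul]

end LA

section Main

variable {k : Type} [Field k]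

/-- two automorphisms agreeing on a field of definition of `ρ̄` have the same image -/
theorem rho_eq_of_eqOn_h186 (ρbar : ResidualGaloisRep k)
    (L : IntermediateField ℚ (AlgebraicClosure ℚ))
    (hL : ∀ σ : AlgebraicClosure ℚ ≃ₐ[ℚ] AlgebraicClosure ℚ, (∀ x ∈ L, σ x = x) → ρbar.ρ σ = 1)
    (σ τ : AlgebraicClosure ℚ ≃ₐ[ℚ] AlgebraicClosure ℚ)
    (h : ∀ x ∈ L, σ x = τ x) : ρbar.ρ σ = ρbar.ρ τ := by
  have h1 : ρbar.ρ (τ⁻¹ * σ) = 1 := by
    apply hL
    intro x hx
    show (τ⁻¹ : AlgebraicClosure ℚ ≃ₐ[ℚ] AlgebraicClosure ℚ) (σ x) = x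
    rw [h x hx]
    show (τ⁻¹ * τ) x = x
    rw [inv_mul_cancel]
    rfl
  have h2 : σ = τ * (τ⁻¹ * σ) := by group
  rw [h2, map_mul, h1, mul_one]

/-- In characteristic `3`: `(ℓ : k) = 1` if `ℓ ≡ 1`, `(ℓ : k) = -1` if `ℓ ≡ 2 mod 3`. -/
theorem natCast_of_mod_three_h186 [CharP k 3] (ℓ : ℕ) :
    (ℓ % 3 = 1 → (ℓ : k) = 1) ∧ (ℓ % 3 = 2 → (ℓ : k) = -1) := by
  have h3 : ((3 : ℕ) : k) = 0 := CharP.cast_eq_zero k 3
  have hℓ : (ℓ : k) = ((ℓ % 3 : ℕ) : k) := by
    conv_lhs => rw [← Nat.div_add_mod ℓ 3]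
    rw [Nat.cast_add, Nat.cast_mul, h3, zero_mul, zero_add]
  constructor
  · intro h
    rw [hℓ, h, Nat.cast_one]
  · intro h
    rw [hℓ, h]
    have : ((2 : ℕ) : k) + 1 = 0 := by
      have : ((2 : ℕ) : k) + 1 = ((3 : ℕ) : k) := by push_cast; norm_num
      rw [this, h3]
    exact eq_neg_of_add_eq_zero_left this

theorem one_ne_neg_one_h186 [CharP k 3] : (1 : k) ≠ -1 := by
  intro h
  have h2 : ((2 : ℕ) : k) = 0 := by
    have : (1 : k) + 1 = 0 := by nth_rewrite 1 [h]; exact neg_add_cancel 1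
    push_cast
    rw [← this]; norm_num
  have := (CharP.cast_eq_zero_iff k 3 2).mp h2
  omega

theorem two_ne_zero_h186 [CharP k 3] : (2 : k) ≠ 0 := by
  intro h
  have h2 : ((2 : ℕ) : k) = 0 := by exact_mod_cast h
  have := (CharP.cast_eq_zero_iff k 3 2).mp h2
  omega

/-- **The auxiliary prime** at `p = 3`. -/
theorem exists_prime_trace_ne_zero_h186 [CharP k 3] (ρbar : ResidualGaloisRep k)
    (hTW : ∀ (K : Type) [Field K] [Algebra k K]
      (G : Subgroup (AlgebraicClosure ℚ ≃ₐ[ℚ] AlgebraicClosure ℚ)), G.index = 2 →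
      ∀ V : Submodule K (ρbar.baseChange K).V,
        (∀ σ ∈ G, ∀ x ∈ V, (ρbar.baseChange K).ρ σ x ∈ V) → V = ⊥ ∨ V = ⊤)
    (S : Finset ℕ) (a : ℕ → k)
    (ha : ∀ (l : ℕ), l.Prime → l ∉ S →
      ∀ B : ValuationSubring (AlgebraicClosure ℚ), B.LiesOverPrime l →
        ∀ σ : AlgebraicClosure ℚ ≃ₐ[ℚ] AlgebraicClosure ℚ, B.IsFrobeniusAt σ l →
          LinearMap.charpoly (ρbar.ρ σ) = X ^ 2 - C (a l) * X + C ((l : k))) :
    ∃ r : ℕ, r.Prime ∧ r ∉ S ∧ r % 3 = 2 ∧ a r ≠ 0 := by
  classical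
  by_contra hcon
  have hcon' : ∀ r : ℕ, r.Prime → r ∉ S → r % 3 = 2 → a r = 0 := by
    intro r h1 h2 h3
    by_contra h4
    exact hcon ⟨r, h1, h2, h3, h4⟩
  have hdim : finrank k ρbar.V = 2 := ρbar.finrank_eq
  have h2 : (2 : k) ≠ 0 := two_ne_zero_h186
  -- Step A: the dichotomy
  have hA : ∀ σ : AlgebraicClosure ℚ ≃ₐ[ℚ] AlgebraicClosure ℚ,
      LinearMap.det (ρbar.ρ σ) = 1 ∨
        (ρbar.ρ σ * ρbar.ρ σ = 1 ∧ LinearMap.trace k ρbar.V (ρbar.ρ σ) = 0 ∧
          LinearMap.det (ρbar.ρ σ) = -1) := by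
    intro σ
    obtain ⟨L, hLfd, hL⟩ := ρbar.factorsThroughFiniteLevel
    obtain ⟨ℓ, A, τ, e, j, hℓ, hℓS, hA, hτ, -, -, hστ⟩ :=
      Fermat.Agent.Lib.Cheb.frobeniusDivision L hLfd σ (S ∪ {3})
    simp only [Finset.mem_union, Finset.mem_singleton, not_or] at hℓS
    obtain ⟨hℓS, hℓ3⟩ := hℓS
    have hg : ρbar.ρ σ = ρbar.ρ τ ^ j := by
      rw [← map_pow]
      exact (rho_eq_of_eqOn_h186 ρbar L hL (τ ^ j) σ hστ).symm
    obtain ⟨htr, hdet, hCH⟩ := facts_of_charpoly_h186 hdim (ρbar.ρ τ) (a ℓ) (ℓ : k)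
      (ha ℓ hℓ hℓS A hA τ hτ)
    have hmod : ℓ % 3 = 1 ∨ ℓ % 3 = 2 := by
      have h0 : ℓ % 3 ≠ 0 := by
        intro h0
        have : 3 ∣ ℓ := Nat.dvd_of_mod_eq_zero h0
        exact hℓ3 ((Nat.prime_dvd_prime_iff_eq Nat.prime_three hℓ).mp this).symm
      omega
    rcases hmod with h1 | h1
    · left
      rw [hg, map_pow, hdet, (natCast_of_mod_three_h186 ℓ).1 h1, one_pow]
    · have hℓk : (ℓ : k) = -1 := (natCast_of_mod_three_h186 ℓ).2 h1
      have ha0 : a ℓ = 0 := hcon' ℓ hℓ hℓS h1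
      have hsq : ρbar.ρ τ * ρbar.ρ τ = 1 := by
        rw [ha0, hℓk, zero_smul, sub_zero, neg_smul, one_smul, ← sub_eq_add_neg] at hCH
        exact sub_eq_zero.mp hCH
      rcases Nat.even_or_odd j with ⟨m, hm⟩ | ⟨m, hm⟩
      · left
        have : ρbar.ρ τ ^ j = 1 := by
          rw [hm, ← two_mul, pow_mul, pow_two, hsq, one_pow]
        rw [hg, this, map_one]
      · right
        have : ρbar.ρ τ ^ j = ρbar.ρ τ := by
          rw [hm, pow_succ, pow_mul, pow_two, hsq, one_pow, one_mul]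
        rw [hg, this]
        exact ⟨hsq, by rw [htr, ha0], by rw [hdet, hℓk]⟩
  -- Step B: the subgroup `H = ker (det ρ̄)`
  let H : Subgroup (AlgebraicClosure ℚ ≃ₐ[ℚ] AlgebraicClosure ℚ) :=
    { carrier := {σ | LinearMap.det (ρbar.ρ σ) = 1}
      mul_mem' := by
        intro x y hx hy
        change LinearMap.det (ρbar.ρ x) = 1 at hx
        change LinearMap.det (ρbar.ρ y) = 1 at hy
        change LinearMap.det (ρbar.ρ (x * y)) = 1
        rw [map_mul, map_mul, hx, hy, one_mul]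
      one_mem' := by
        change LinearMap.det (ρbar.ρ 1) = 1
        rw [map_one, map_one]
      inv_mem' := by
        intro x hx
        change LinearMap.det (ρbar.ρ x) = 1 at hx
        change LinearMap.det (ρbar.ρ x⁻¹) = 1
        have h : LinearMap.det (ρbar.ρ x⁻¹) * LinearMap.det (ρbar.ρ x) = 1 := by
          rw [← map_mul, ← map_mul, inv_mul_cancel, map_one, map_one]
        rw [hx, mul_one] at h
        exact h }
  have hHmem : ∀ σ, σ ∈ H ↔ LinearMap.det (ρbar.ρ σ) = 1 := fun σ => Iff.rfl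
  -- a Frobenius at a prime `≡ 2 mod 3`
  obtain ⟨q, hqgt, hq, hqmod⟩ := Nat.forall_exists_prime_gt_and_eq_mod
    (q := 3) (a := 2) (by decide) (S.sup id)
  have hqS : q ∉ S := by
    intro h
    have : q ≤ S.sup id := Finset.le_sup (f := id) h
    omega
  have hq3 : q % 3 = 2 := by
    have h1 : ((q : ℕ) : ZMod 3) = ((2 : ℕ) : ZMod 3) := by rw [hqmod]; rfl
    have := (ZMod.natCast_eq_natCast_iff' q 2 3).mp h1
    omega
  obtain ⟨B, σ₀, hB, hσ₀⟩ := Fermat.Agent.S54.exists_frobenius q hq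
  obtain ⟨-, hdet₀, -⟩ := facts_of_charpoly_h186 hdim (ρbar.ρ σ₀) (a q) (q : k)
    (ha q hq hqS B hB σ₀ hσ₀)
  rw [(natCast_of_mod_three_h186 q).2 hq3] at hdet₀
  have hne : (-1 : k) ≠ 1 := fun h => one_ne_neg_one_h186 h.symm
  have hdetpm : ∀ σ, LinearMap.det (ρbar.ρ σ) = 1 ∨ LinearMap.det (ρbar.ρ σ) = -1 := by
    intro σ
    rcases hA σ with h | ⟨-, -, h⟩
    · exact Or.inl h
    · exact Or.inr h
  have hidx : H.index = 2 := by
    rw [Subgroup.index_eq_two_iff]
    refine ⟨σ₀, fun b => ?_⟩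
    rw [hHmem, hHmem, map_mul, map_mul, hdet₀]
    rcases hdetpm b with h | h
    · rw [h, one_mul]
      exact Or.inr ⟨rfl, hne⟩
    · rw [h]
      refine Or.inl ⟨by norm_num, hne⟩
  obtain ⟨hg₀, htr₀⟩ : ρbar.ρ σ₀ * ρbar.ρ σ₀ = 1 ∧
      LinearMap.trace k ρbar.V (ρbar.ρ σ₀) = 0 := by
    rcases hA σ₀ with h | ⟨h1, h2, -⟩
    · rw [hdet₀] at h
      exact absurd h hne
    · exact ⟨h1, h2⟩
  -- Step C: the stable line
  obtain ⟨w, hw0, hw⟩ := exists_stable_line_h186 h2 hdim (ρbar.ρ σ₀) hg₀ htr₀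
    (ρbar.ρ '' (H : Set (AlgebraicClosure ℚ ≃ₐ[ℚ] AlgebraicClosure ℚ)))
    (by
      rintro _ ⟨x, hx, rfl⟩ _ ⟨y, hy, rfl⟩
      exact ⟨x * y, H.mul_mem hx hy, map_mul _ _ _⟩)
    (by
      rintro _ ⟨x, hx, rfl⟩
      rw [← map_mul]
      rcases hA (σ₀ * x) with h | ⟨-, h, -⟩
      · rw [map_mul, map_mul, hdet₀, (hHmem x).mp hx, mul_one] at h
        exact absurd h hne
      · exact h)
    (AlgebraicClosure k)
  -- Step D: contradiction with `hTW`
  let W : Submodule (AlgebraicClosure k) (AlgebraicClosure k ⊗[k] ρbar.V) :=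
    Submodule.span (AlgebraicClosure k) {w}
  have hWstab : ∀ σ ∈ H, ∀ y ∈ W, (ρbar.baseChange (AlgebraicClosure k)).ρ σ y ∈ W := by
    intro σ hσ y hy
    obtain ⟨b, rfl⟩ := Submodule.mem_span_singleton.1 hy
    obtain ⟨c, hc⟩ := hw (ρbar.ρ σ) ⟨σ, hσ, rfl⟩
    have e : (ρbar.baseChange (AlgebraicClosure k)).ρ σ w = c • w := hc
    rw [map_smul, e]
    exact Submodule.smul_mem _ _ (Submodule.smul_mem _ _ (Submodule.mem_span_singleton_self w))
  rcases hTW (AlgebraicClosure k) H hidx W hWstab with h | h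
  · exact hw0 (Submodule.span_singleton_eq_bot.1 h)
  · have h1 : Module.finrank (AlgebraicClosure k) W = 2 := by
      rw [h, finrank_top, Module.finrank_baseChange, ρbar.finrank_eq]
    have h2' : Module.finrank (AlgebraicClosure k) W = 1 := finrank_span_singleton hw0
    omega

end Main

end Fermat.Agent.S59.TW.Aut.H186

end
-- ===== PACK-END S59/TW/Aut/H186/AuxPrime.lean

-- ===== PACK-BEGIN S55/E1/H304/Alg6.lean
section
/-
S55 engine E1, block ALG — leaf ALG6 (helper304): `theorem alg6 : ALG6Spec`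
(Shapiro and the restricted presentation), exact frozen statement of `E1/SpecAlg2.lean`.

(a) `δ_D` bijective: `H304.alg1_res_bijective` (restriction of a free module to a subgroup is
    coinduced from `1`); naturality of `δ` under restriction: `H783.δ_naturality_map`.
(b) `flat φ = (Rep.resCoindHomEquiv φ R X).symm` (Frobenius reciprocity).
(c) both sides are `map φ (flat φ f) 2 (δ x)`.
-/




set_option autoImplicit false

open CategoryTheory CategoryTheory.Limits groupCohomology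

namespace Fermat.Agent.S55.E1.H304

noncomputable section Alg6

variable {G D : Type} [Group G] [Group D]

/-- ALG6 (a1): the connecting map of the restricted standard presentation is bijective. -/
theorem resδ_bijective [Finite G] (φ : D →* G) (hφ : Function.Injective φ) (N : Rep.{0} ℤ G) :
    Function.Bijective (resδ φ N) :=
  alg1_res_bijective N φ hφ

/-- ALG6 (a2), categorical form: `δ ≫ res_φ = res_φ ≫ δ_D`. -/
theorem stdδ_comp_res (φ : D →* G) (N : Rep.{0} ℤ G) :
    groupCohomology.δ (stdSC_shortExact N) 1 2 rfl ≫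
        groupCohomology.map φ (𝟙 (Rep.res φ (stdR N))) 2 =
      groupCohomology.map φ (𝟙 (Rep.res φ N)) 1 ≫
        groupCohomology.δ (resSC_shortExact φ N) 1 2 rfl :=
  Fermat.Agent.S55.H783.δ_naturality_map φ (stdSC_shortExact N) (resSC_shortExact φ N)
    (𝟙 (resSC φ N)) 1 2 rfl

/-- ALG6 (a2): `res_φ (δ x) = δ_D (res_φ x)`. -/
theorem resAlong_stdδ (φ : D →* G) (N : Rep.{0} ℤ G) (x : groupCohomology N 1) :
    resAlong φ (stdR N) 2 (stdδ N x) = resδ φ N (resAlong φ N 1 x) :=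
  congrArg (fun m => m.hom x) (stdδ_comp_res φ N)

/-- `flat` is the inverse of Mathlib's Frobenius reciprocity equivalence. -/
theorem flat_eq_symm (φ : D →* G) {R : Rep.{0} ℤ G} {X : Rep.{0} ℤ D}
    (f : R ⟶ Rep.coind φ X) : flat φ f = (Rep.resCoindHomEquiv φ R X).symm f := by
  apply Rep.hom_ext
  apply DFunLike.ext
  intro x
  rfl

/-- ALG6 (b): `f ↦ f^♭` is bijective. -/
theorem flat_bijective (φ : D →* G) (R : Rep.{0} ℤ G) (X : Rep.{0} ℤ D) :
    Function.Bijective (fun f : R ⟶ Rep.coind φ X => flat φ f) := by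
  have h : (fun f : R ⟶ Rep.coind φ X => flat φ f) =
      fun f => (Rep.resCoindHomEquiv φ R X).symm f := funext fun f => flat_eq_symm φ f
  rw [h]
  exact (Rep.resCoindHomEquiv φ R X).symm.bijective

/-- Restriction followed by a coefficient map is the mixed functoriality map. -/
theorem res_comp_coeff (φ : D →* G) {A : Rep.{0} ℤ G} {X : Rep.{0} ℤ D}
    (g : Rep.res φ A ⟶ X) (n : ℕ) :
    groupCohomology.map φ (𝟙 (Rep.res φ A)) n ≫ groupCohomology.map (MonoidHom.id D) g n =
      groupCohomology.map φ g n := by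
  have h := groupCohomology.map_comp (k := ℤ) φ (MonoidHom.id D) (𝟙 (Rep.res φ A)) g n
  rw [← h]
  congr 1

/-- A coefficient map followed by a mixed map is the mixed map of the composite. -/
theorem coeff_comp_map (φ : D →* G) {A B : Rep.{0} ℤ G} {X : Rep.{0} ℤ D}
    (f : A ⟶ B) (g : Rep.res φ B ⟶ X) (n : ℕ) :
    groupCohomology.map (MonoidHom.id G) f n ≫ groupCohomology.map φ g n =
      groupCohomology.map φ ((Rep.resFunctor φ).map f ≫ g) n := by
  have h := groupCohomology.map_comp (k := ℤ) (MonoidHom.id G) φ f g n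
  exact h.symm

/-- ALG6 (c): `sh ⟨f, x⟩ = ⟨f^♭, res_φ x⟩_D`. -/
theorem sh2_pair (φ : D →* G) {N : Rep.{0} ℤ G} {X : Rep.{0} ℤ D}
    (f : homA N (Rep.coind φ X)) (x : groupCohomology N 1) :
    sh2 φ X (pair f x) = pairLoc φ (flat φ f) (resAlong φ N 1 x) := by
  have h1 : sh2 φ X (pair f x) =
      (groupCohomology.map φ (flat φ f) 2).hom (stdδ N x) := by
    have := coeff_comp_map φ f (Fermat.Agent.S55.H173.ev1Hom φ X) 2
    exact congrArg (fun m => m.hom (stdδ N x)) this
  have h2 : pairLoc φ (flat φ f) (resAlong φ N 1 x) =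
      (groupCohomology.map φ (flat φ f) 2).hom (stdδ N x) := by
    unfold pairLoc
    rw [← resAlong_stdδ]
    have := res_comp_coeff φ (flat φ f) 2
    exact congrArg (fun m => m.hom (stdδ N x)) this
  rw [h1, h2]

/-- **ALG6** (Shapiro and the restricted presentation). -/
theorem alg6 : ALG6Spec := by
  intro G D _ _ _ φ hφ N
  refine ⟨resδ_bijective φ hφ N, resAlong_stdδ φ N, fun X => ⟨flat_bijective φ (stdR N) X, ?_⟩⟩
  intro f x
  exact sh2_pair φ f x

end Alg6

end Fermat.Agent.S55.E1.H304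

end
-- ===== PACK-END S55/E1/H304/Alg6.lean

-- ===== PACK-BEGIN S55/E1/H353/Alg8.lean
section






/-!
# S55, engine E1, block ALG8 (helper353): `alg8_of : ALG8AssemblySpec`

`ALG8Spec` from `ALG5Spec`, `ALG7Spec`, `ALG7aSpec` (exact types of `E1/SpecAlg2.lean`), by the
abstract count of `Alg8Core.lean`.
-/

set_option autoImplicit false
set_option linter.unusedSectionVars false
set_option linter.style.haveILetI false

open CategoryTheory CategoryTheory.Limits groupCohomology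

namespace Fermat.Agent.S55.E1.H353

noncomputable section

variable {G : Type} [Group G]

/-! ### The pairing as an additive map -/

lemma pair_add_left {N X : Rep.{0} ℤ G} (f f' : homA N X) (x : groupCohomology N 1) :
    pair (f + f') x = pair f x + pair f' x := by
  unfold pair
  rw [T.H415.coeffMap_add]
  rfl

lemma pair_add_right {N X : Rep.{0} ℤ G} (f : homA N X) (x x' : groupCohomology N 1) :
    pair f (x + x') = pair f x + pair f x' := by
  unfold pair
  rw [map_add, map_add]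

lemma pair_zero_right {N X : Rep.{0} ℤ G} (f : homA N X) : pair f (0 : groupCohomology N 1) = 0 := by
  unfold pair
  rw [map_zero, map_zero]

lemma pair_zero_left {N X : Rep.{0} ℤ G} (x : groupCohomology N 1) :
    pair (0 : homA N X) x = 0 := by
  have h := pair_add_left (0 : homA N X) 0 x
  rw [add_zero] at h
  exact left_eq_add.mp h

/-- The pairing `f ↦ ⟨f, ·⟩` as an additive map `A(X) → Hom(H¹(G, N), H²(G, X))`. -/
def pairHom (N X : Rep.{0} ℤ G) : homA N X →+ (groupCohomology N 1 →+ groupCohomology X 2) where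
  toFun f :=
    { toFun := pair f
      map_zero' := pair_zero_right f
      map_add' := pair_add_right f }
  map_zero' := by
    ext x
    exact pair_zero_left x
  map_add' f f' := by
    ext x
    exact pair_add_left f f' x

@[simp] lemma pairHom_apply {N X : Rep.{0} ℤ G} (f : homA N X) (x : groupCohomology N 1) :
    pairHom N X f x = pair f x := rfl

/-- Composition with `j : J ⟶ C` as an additive map `A(J) → A(C)`. -/
def compJ {N J C : Rep.{0} ℤ G} (j : J ⟶ C) : homA N J →+ homA N C where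
  toFun f := f ≫ j
  map_zero' := by simp
  map_add' f f' := by simp

@[simp] lemma compJ_apply {N J C : Rep.{0} ℤ G} (j : J ⟶ C) (f : homA N J) :
    compJ (N := N) j f = f ≫ j := rfl

/-! ### `IsLocSum` as membership in a supremum -/

lemma isLocSum_iff {ι : Type} [Fintype ι] {N C : Rep.{0} ℤ G} {J : ι → Rep.{0} ℤ G}
    (j : ∀ i, J i ⟶ C) (f : homA N C) :
    IsLocSum j f ↔ f ∈ (resBA N C).range ⊔ ⨆ i, (compJ (N := N) (j i)).range := by
  classical
  constructor
  · rintro ⟨fJ, h, rfl⟩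
    rw [add_comm]
    refine AddSubgroup.add_mem_sup ⟨h, rfl⟩ ?_
    refine AddSubgroup.sum_mem _ fun i _ => ?_
    exact (le_iSup (fun i => (compJ (N := N) (j i)).range) i) ⟨fJ i, rfl⟩
  · intro hf
    obtain ⟨b, ⟨h, rfl⟩, c, hc, rfl⟩ := AddSubgroup.mem_sup.1 hf
    have key : ∃ fJ : ∀ i, homA N (J i), c = ∑ i, fJ i ≫ j i := by
      refine AddSubgroup.iSup_induction (fun i => (compJ (N := N) (j i)).range)
        (C := fun c => ∃ fJ : ∀ i, homA N (J i), c = ∑ i, fJ i ≫ j i) hc ?_ ?_ ?_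
      · rintro i _ ⟨g, rfl⟩
        refine ⟨fun k => if hk : k = i then hk ▸ g else 0, ?_⟩
        rw [Finset.sum_eq_single i]
        · simp
        · intro k _ hk
          simp [hk]
        · intro hi
          exact absurd (Finset.mem_univ i) hi
      · exact ⟨fun _ => 0, by simp⟩
      · rintro _ _ ⟨fJ, rfl⟩ ⟨fJ', rfl⟩
        refine ⟨fun i => fJ i + fJ' i, ?_⟩
        rw [← Finset.sum_add_distrib]
        refine Finset.sum_congr rfl fun i _ => ?_
        simp
    obtain ⟨fJ, rfl⟩ := key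
    exact ⟨fJ, h, by rw [add_comm]⟩

/-! ### Torsion and finiteness of `H¹` -/

/-- `H¹(G, N)` is finite for finite `G` and `N`. -/
lemma finite_H1 [Finite G] (N : Rep.{0} ℤ G) [Finite N.V] : Finite (groupCohomology N 1) := by
  haveI : Finite (G → N.V) := Pi.finite
  haveI : Finite (cocycles₁ N) :=
    Finite.of_injective (fun c : cocycles₁ N => (c : G → N.V)) Subtype.val_injective
  refine Finite.of_surjective (fun c : cocycles₁ N => (H1π N).hom c) ?_
  intro x
  induction x using groupCohomology.H1_induction_on with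
  | h f => exact ⟨f, rfl⟩

/-- If `H¹(G, N) ≠ 0` and `p N = 0` then `p ∣ |G|`. -/
lemma dvd_card_of_H1_ne_zero [Finite G] {p : ℕ} [Fact p.Prime] (N : Rep.{0} ℤ G)
    (hN : ∀ n : N.V, p • n = 0) (x : groupCohomology N 1) (hx : x ≠ 0) : p ∣ Nat.card G := by
  have h1 : p • x = 0 := H114.nsmul_H1_eq_zero p N hN x
  have h2 : Nat.card G • x = 0 := T.H572.cardTorsion ℤ G N 1 (by norm_num) x
  rw [← addOrderOf_eq_prime h1 hx]
  exact addOrderOf_dvd_iff_nsmul_eq_zero.2 h2

/-! ### Counting homomorphisms -/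

lemma card_hom_eq_of_pGen {p : ℕ} [Fact p.Prime] {M W : Type} [AddCommGroup M] [AddCommGroup W]
    [Finite M] [Module (ZMod p) M] (g : PGen p W) : Nat.card (M →+ W) = Nat.card M :=
  (Nat.card_congr (g.homEquivDual M).toEquiv).trans (card_dual_eq M)

/-- `|Hom(M, W)| = |M|` for a finite group `M` killed by `p` and a group `W` with cyclic
`p`-torsion, nonzero as soon as `M ≠ 0`. -/
lemma card_hom_eq {p : ℕ} [Fact p.Prime] {M W : Type} [AddCommGroup M] [AddCommGroup W]
    [Finite M] (hM : ∀ m : M, p • m = 0) (hcyc : CyclicPTorsion p W)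
    (hMW : (∃ m : M, m ≠ 0) → ∃ w : W, w ≠ 0 ∧ p • w = 0) :
    Nat.card (M →+ W) = Nat.card M := by
  by_cases hMtriv : ∀ m : M, m = 0
  · haveI : Subsingleton M := ⟨fun a b => (hMtriv a).trans (hMtriv b).symm⟩
    haveI : Subsingleton (M →+ W) := ⟨fun a b => by
      ext m
      rw [hMtriv m, map_zero, map_zero]⟩
    rw [Nat.card_unique, Nat.card_unique]
  · obtain ⟨m₁, hm₁⟩ := not_forall.1 hMtriv
    obtain ⟨w₀, hne, hw₀⟩ := hMW ⟨m₁, hm₁⟩
    letI : Module (ZMod p) M := AddCommGroup.zmodModule hM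
    exact card_hom_eq_of_pGen (hcyc.pGen w₀ hw₀ hne)

/-! ### ALG8 -/

/-- **ALG8** from ALG5, ALG7, ALG7a. -/
theorem alg8_of : ALG8AssemblySpec := by
  intro h5 h7 h7a p hp G _ _ N C γ hNfin hN hC hT6p H _ _ hH hNorm ι _ Dc _ _ φ hφ X γX j hX hgd3
  haveI : Fact p.Prime := ⟨hp⟩
  haveI : Finite N.V := hNfin
  obtain ⟨h5a, h5b, h5c⟩ := h5 p hp G N C γ hNfin hN hC hT6p
  obtain ⟨hcyc, hnz⟩ := h7a p hp G C γ hC
  have hV : ∀ v : groupCohomology N 1, p • v = 0 := H114.nsmul_H1_eq_zero p N hN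
  haveI : Finite (groupCohomology N 1) := finite_H1 N
  -- the kernel of the pairing
  have hB : ∀ a : homA N C, a ∈ (resBA N C).range ↔ pairHom N C a = 0 := by
    intro a
    constructor
    · rintro ⟨h, rfl⟩
      ext x
      exact h5a h x
    · intro ha
      obtain ⟨h, hh⟩ := h5c H hH hNorm a (fun x => congrArg (fun χ => χ x) ha)
      exact ⟨h, hh⟩
  -- ALG7 for every `i`
  have hi : ∀ (i : ι) (χ : groupCohomology N 1 →+ groupCohomology C 2),
      (∃ a ∈ (compJ (N := N) (j i)).range, pairHom N C a = χ) ↔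
        ∀ v ∈ (resAlong (φ i) N 1).toAddMonoidHom.ker, χ v = 0 := by
    intro i χ
    have h := h7 p hp G (Dc i) (φ i) (hφ i) N C γ (X i) (γX i) (j i) hNfin hN hC (hX i) hT6p
      (hgd3 i) χ
    constructor
    · rintro ⟨_, ⟨f, rfl⟩, hf⟩ v hv
      exact h.2 ⟨f, fun x => congrArg (fun χ' => χ' x) hf⟩ v hv
    · intro hχ
      obtain ⟨f, hf⟩ := h.1 (fun x hx => hχ x hx)
      exact ⟨f ≫ j i, ⟨f, rfl⟩, by ext x; exact hf x⟩
  have hmem : ∀ x : groupCohomology N 1,
      x ∈ (⨅ i, (resAlong (φ i) N 1).toAddMonoidHom.ker) ↔ IsLocTriv φ N x := by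
    intro x
    rw [AddSubgroup.mem_iInf]
    rfl
  have hVW : ∀ x : groupCohomology N 1, x ≠ 0 →
      ∃ w : groupCohomology C 2, w ≠ 0 ∧ p • w = 0 :=
    fun x hx => hnz (dvd_card_of_H1_ne_zero N hN x hx)
  refine ⟨?_, ?_, ?_, ?_⟩
  · -- (a)
    intro f
    rw [isLocSum_iff, mem_sup_iff_core hV hcyc (pairHom N C) _ hB _ _ hi f]
    constructor
    · intro h v hv
      exact h v ((hmem v).1 hv)
    · intro h v hv
      exact h v ((hmem v).2 hv)
  · -- (b)
    intro χ
    obtain ⟨f, hf⟩ := h5b χ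
    exact ⟨f, fun x _ => hf x⟩
  · -- (c1)
    exact Finite.of_injective (fun x : shaFin φ N => (x : groupCohomology N 1))
      Subtype.val_injective
  · -- (c2)
    haveI : Finite (shaFin φ N) :=
      Finite.of_injective (fun x : shaFin φ N => (x : groupCohomology N 1))
        Subtype.val_injective
    refine card_hom_eq (p := p) (fun m => Subtype.ext (hV m.1)) hcyc ?_
    rintro ⟨m, hm⟩
    exact hVW m.1 (fun h => hm (Subtype.ext h))

end

end Fermat.Agent.S55.E1.H353

end
-- ===== PACK-END S55/E1/H353/Alg8.lean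

-- ===== PACK-BEGIN S55/E1/H295/BidualCore.lean
section
/-
S55 engine E1, block LIM, leaf LIM-BIDUAL -- part 1: generic algebra.  helper295.  Complete proofs.

* `pairingHom β hβ : A ⟶ Hom_ℤ(B, E)` for an equivariant biadditive pairing `β : A × B → E`
  of `G`-modules; `pairingHom_bijective`, `pairingHom_isIso` for a perfect pairing
  (left nondegenerate + every additive `B → E` is `β a`).
* `exists_eval_of_additive`: for a finite dimensional `𝔽_p`-vector space `M`, a line `T ≃ 𝔽_p`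
  and an injective additive `θ : T → E` onto the `p`-torsion of `E`, every additive map
  `φ : M^* → E` is `f ↦ θ (e (f m))` for a unique `m ∈ M`.
-/


set_option autoImplicit false

open CategoryTheory

namespace Fermat.Agent.S55.E1.H295

open Fermat.Agent.S55.E1.Lim

noncomputable section

attribute [local instance 10000] Rep.hV2

section Pairing

variable {G : Type} [Group G] {A B E : Rep.{0} ℤ G}

/-- The morphism `A ⟶ Hom_ℤ(B, E)`, `a ↦ β a`, attached to an equivariant biadditive pairing. -/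
def pairingHom (β : A.V →+ B.V →+ E.V)
    (hβ : ∀ (g : G) (a : A.V) (b : B.V), β (A.ρ g a) (B.ρ g b) = E.ρ g (β a b)) :
    A ⟶ (Rep.ihom B).obj E :=
  homOfAdd (B := (Rep.ihom B).obj E)
    { toFun := fun a => (linOfAdd (β a) : B.V →ₗ[ℤ] E.V)
      map_zero' := by
        apply LinearMap.ext
        intro b
        show β 0 b = 0
        rw [map_zero]
        rfl
      map_add' := fun a a' => by
        apply LinearMap.ext
        intro b
        show β (a + a') b = β a b + β a' b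
        rw [map_add]
        rfl }
    (fun g a => by
      apply LinearMap.ext
      intro b
      show β (A.ρ g a) b = E.ρ g (β a (B.ρ g⁻¹ b))
      rw [← hβ, B.ρ.self_inv_apply])

lemma pairingHom_apply (β : A.V →+ B.V →+ E.V)
    (hβ : ∀ (g : G) (a : A.V) (b : B.V), β (A.ρ g a) (B.ρ g b) = E.ρ g (β a b))
    (a : A.V) (b : B.V) :
    (show B.V →ₗ[ℤ] E.V from (pairingHom β hβ).hom a) b = β a b := rfl

theorem pairingHom_bijective (β : A.V →+ B.V →+ E.V)
    (hβ : ∀ (g : G) (a : A.V) (b : B.V), β (A.ρ g a) (B.ρ g b) = E.ρ g (β a b))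
    (hinj : ∀ a : A.V, (∀ b : B.V, β a b = 0) → a = 0)
    (hsurj : ∀ φ : B.V →+ E.V, ∃ a : A.V, ∀ b : B.V, β a b = φ b) :
    Function.Bijective (pairingHom β hβ).hom := by
  constructor
  · rw [injective_iff_map_eq_zero]
    intro a ha
    apply hinj
    intro b
    have := congrArg (fun t : B.V →ₗ[ℤ] E.V => t b) ha
    exact this
  · intro (φ : B.V →ₗ[ℤ] E.V)
    obtain ⟨a, ha⟩ := hsurj φ.toAddMonoidHom
    refine ⟨a, ?_⟩
    apply LinearMap.ext
    intro b
    exact ha b

theorem pairingHom_isIso (β : A.V →+ B.V →+ E.V)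
    (hβ : ∀ (g : G) (a : A.V) (b : B.V), β (A.ρ g a) (B.ρ g b) = E.ρ g (β a b))
    (hinj : ∀ a : A.V, (∀ b : B.V, β a b = 0) → a = 0)
    (hsurj : ∀ φ : B.V →+ E.V, ∃ a : A.V, ∀ b : B.V, β a b = φ b) :
    IsIso (pairingHom β hβ) := by
  have hb := pairingHom_bijective β hβ hinj hsurj
  haveI : Mono (pairingHom β hβ) := (Rep.mono_iff_injective _).2 hb.1
  haveI : Epi (pairingHom β hβ) := (Rep.epi_iff_surjective _).2 hb.2
  exact isIso_of_mono_of_epi _

end Pairing

section Eval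

variable {p : ℕ} [Fact p.Prime]

/-- Every additive map from the dual of a finite dimensional `𝔽_p`-vector space `M` to an
abelian group `E` whose `p`-torsion is a line `θ(T)` is `f ↦ θ (e (f m))` for some `m ∈ M`. -/
theorem exists_eval_of_additive {M T E : Type} [AddCommGroup M] [Module (ZMod p) M]
    [Module.Finite (ZMod p) M] [AddCommGroup T] [Module (ZMod p) T] (e : ZMod p ≃ₗ[ZMod p] T)
    [AddCommGroup E] (θ : T →+ E) (hθ : Function.Injective θ)
    (hθp : ∀ x : E, p • x = 0 → ∃ t : T, θ t = x)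
    (φ : Module.Dual (ZMod p) M →+ E) :
    ∃ m : M, ∀ f : Module.Dual (ZMod p) M, θ (e (f m)) = φ f := by
  have hp : ∀ f : Module.Dual (ZMod p) M, p • φ f = 0 := by
    intro f
    rw [← map_nsmul]
    have h0 : p • f = 0 := by
      rw [← Nat.cast_smul_eq_nsmul (ZMod p), ZMod.natCast_self, zero_smul]
    rw [h0, map_zero]
  choose ψ₀ hψ₀ using fun f => hθp (φ f) (hp f)
  have hadd : ∀ f f' : Module.Dual (ZMod p) M, ψ₀ (f + f') = ψ₀ f + ψ₀ f' := by
    intro f f'
    apply hθ
    rw [map_add, hψ₀, hψ₀, hψ₀, map_add]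
  let ψ : Module.Dual (ZMod p) M →+ T := AddMonoidHom.mk' ψ₀ hadd
  let χ : Module.Dual (ZMod p) (Module.Dual (ZMod p) M) :=
    e.symm.toLinearMap ∘ₗ (ψ.toZModLinearMap p)
  refine ⟨(Module.evalEquiv (ZMod p) M).symm χ, fun f => ?_⟩
  rw [Module.apply_evalEquiv_symm_apply]
  change θ (e (e.symm (ψ₀ f))) = φ f
  rw [LinearEquiv.apply_symm_apply, hψ₀]

/-- Left nondegeneracy of `(m, f) ↦ θ (e (f m))`. -/
theorem eq_zero_of_eval_eq_zero {M T E : Type} [AddCommGroup M] [Module (ZMod p) M]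
    [Module.Finite (ZMod p) M] [AddCommGroup T] [Module (ZMod p) T] (e : ZMod p ≃ₗ[ZMod p] T)
    [AddCommGroup E] (θ : T →+ E) (hθ : Function.Injective θ) (m : M)
    (h : ∀ f : Module.Dual (ZMod p) M, θ (e (f m)) = 0) : m = 0 := by
  rw [← Module.forall_dual_apply_eq_zero_iff (ZMod p) m]
  intro f
  have h1 := h f
  rw [← map_zero θ] at h1
  have h2 := hθ h1
  rwa [LinearEquiv.map_eq_zero_iff] at h2

end Eval

end

end Fermat.Agent.S55.E1.H295

end
-- ===== PACK-END S55/E1/H295/BidualCore.lean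

-- ===== PACK-BEGIN S55/G/SIndH237/H95/FinVanish.lean
section
/-
S55 / layer G / G-SIND:UCT (helper95).  Part 2 (layer T only).

For a FINITE module `A` over a finite group `G`:
if `H¹(H, A) = 0` for every subgroup `H ≤ G`, then `H²(H, A) = 0` for every subgroup `H ≤ G`.
(Sylow reduction, `p`-group induction with inflation–restriction in degree 2, and the Herbrand
quotient of a finite module over a cyclic group.)
-/




set_option autoImplicit false
set_option linter.unusedSectionVars false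
set_option linter.style.haveILetI false

namespace Fermat.Agent.S55.G.SIndH237.H95

open CategoryTheory groupCohomology Fermat.Agent.S55.T

section FinVanish

variable {k G : Type} [CommRing k] [Group G] [Finite G] (A : Rep.{0} k G)

lemma isZero_of_forall_eq_zero {M : ModuleCat.{0} k} (h : ∀ x : M, x = 0) : Limits.IsZero M := by
  haveI : Subsingleton M := ⟨fun a b => (h a).trans (h b).symm⟩
  exact ModuleCat.isZero_of_subsingleton M

lemma eq_zero_of_isZero {M : ModuleCat.{0} k} (h : Limits.IsZero M) (x : M) : x = 0 :=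
  (ModuleCat.isZero_iff_subsingleton.1 h).elim x 0

/-- The cyclic prime-order step: `H²(G ⧸ K, A^K) = 0` if `A` is finite, `G ⧸ K` has prime order
and `H¹(G, A) = 0`. -/
theorem isZero_H2_quotient_of_prime (hfin : Finite A.V) (K : Subgroup G) [K.Normal]
    (hp : (Nat.card (G ⧸ K)).Prime) (h1 : Limits.IsZero (groupCohomology A 1)) :
    Limits.IsZero (groupCohomology (A.quotientToInvariants K) 2) := by
  haveI : Fact (Nat.card (G ⧸ K)).Prime := ⟨hp⟩
  haveI : IsCyclic (G ⧸ K) := isCyclic_of_prime_card rfl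
  have hfinB : Finite (A.quotientToInvariants K).V := by
    change Finite ↥(Representation.invariants (MonoidHom.comp A.ρ K.subtype))
    exact Finite.of_injective (fun x => (x : A.V)) Subtype.val_injective
  obtain ⟨hf1, hf2, hcard⟩ := Fermat.Agent.S55.T.H895.herbrandFinite k (G ⧸ K)
    (A.quotientToInvariants K) hfinB
  have hinj : Function.Injective (H1InfRes A K).f.hom :=
    (ModuleCat.mono_iff_injective _).1 inferInstance
  have hsub1 : Subsingleton (groupCohomology (A.quotientToInvariants K) 1) := by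
    refine ⟨fun a b => hinj ?_⟩
    exact (ModuleCat.isZero_iff_subsingleton.1 h1).elim _ _
  have hc1 : Nat.card (groupCohomology (A.quotientToInvariants K) 1) = 1 :=
    Nat.card_of_subsingleton 0
  rw [hc1] at hcard
  haveI := hf2
  haveI : Subsingleton (groupCohomology (A.quotientToInvariants K) 2) :=
    (Nat.card_eq_one_iff_unique.1 hcard.symm).1
  exact ModuleCat.isZero_of_subsingleton _

/-- The `p`-group case, by induction on the order. -/
theorem isZero_H2_of_finite_pgroup (hfin : Finite A.V)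
    (h1 : ∀ H : Subgroup G, Limits.IsZero (groupCohomology (resSub A H) 1))
    (p : ℕ) [hp : Fact p.Prime] :
    ∀ (n : ℕ) (H : Subgroup G), Nat.card H = p ^ n →
      Limits.IsZero (groupCohomology (resSub A H) 2) := by
  intro n
  induction n with
  | zero =>
    intro H hH
    rw [pow_zero] at hH
    exact isZero_of_forall_eq_zero
      (Fermat.Agent.S55.H954.H2_eq_zero_of_card_eq_one (resSub A H) hH)
  | succ n ih =>
    intro H hH
    obtain ⟨K, hK⟩ := Sylow.exists_subgroup_card_pow_prime (G := ↥H) p (n := n)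
      (by rw [hH]; exact pow_dvd_pow p (Nat.le_succ n))
    have hidx : K.index = p := by
      have h := K.card_mul_index
      rw [hK, hH, pow_succ] at h
      exact Nat.eq_of_mul_eq_mul_left (pow_pos hp.out.pos n) h
    haveI hKn : K.Normal := Subgroup.normal_of_index_eq_minFac_card (by
      rw [hidx, hH, Nat.pow_minFac (Nat.succ_ne_zero n), hp.out.minFac_eq])
    have hq : Nat.card (↥H ⧸ K) = p := by rw [← Subgroup.index_eq_card]; exact hidx
    have hQ : Limits.IsZero (groupCohomology ((resSub A H).quotientToInvariants K) 2) :=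
      isZero_H2_quotient_of_prime (resSub A H) hfin K (by rw [hq]; exact hp.out) (h1 H)
    have hK' : Nat.card (K.map H.subtype) = p ^ n :=
      (Fermat.Agent.S55.T.H954.card_map_subtype H K).trans hK
    have IH := ih (K.map H.subtype) hK'
    have hK2 : Limits.IsZero (groupCohomology (resSub (resSub A H) K) 2) :=
      isZero_of_forall_eq_zero
        (Fermat.Agent.S55.T.H954.eq_zero_of_iso_of_isZero
          (Fermat.Agent.S55.T.H954.resResIso A H K 2) IH)
    have hK1 : Limits.IsZero (groupCohomology (resSub (resSub A H) K) 1) :=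
      isZero_of_forall_eq_zero
        (Fermat.Agent.S55.T.H954.eq_zero_of_iso_of_isZero
          (Fermat.Agent.S55.T.H954.resResIso A H K 1) (h1 (K.map H.subtype)))
    obtain ⟨-, -, hex⟩ := Fermat.Agent.S55.T.H954.infRes2 k H (resSub A H) K hK1
    refine isZero_of_forall_eq_zero fun x => ?_
    obtain ⟨y, hy⟩ := hex x (eq_zero_of_isZero hK2 _)
    rw [← hy, eq_zero_of_isZero hQ y, map_zero]

/-- **Finite modules**: vanishing of `H¹` on all subgroups implies vanishing of `H²` on all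
subgroups. -/
theorem isZero_H2_of_finite (hfin : Finite A.V)
    (h1 : ∀ H : Subgroup G, Limits.IsZero (groupCohomology (resSub A H) 1))
    (H : Subgroup G) : Limits.IsZero (groupCohomology (resSub A H) 2) := by
  refine isZero_of_forall_eq_zero fun x => ?_
  refine Fermat.Agent.S55.H119.eq_zero_of_forall_sylow_resMap_eq_zero_two (resSub A H) x
    fun p hp => ?_
  haveI : Fact p.Prime := ⟨hp⟩
  obtain ⟨P⟩ : Nonempty (Sylow p H) := inferInstance
  refine ⟨P, ?_⟩
  have hP : Nat.card (P : Subgroup H) = p ^ ((Nat.card H).factorization p) :=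
    Sylow.card_eq_multiplicity P
  have hP' : Nat.card ((P : Subgroup H).map H.subtype) = p ^ ((Nat.card H).factorization p) :=
    (Fermat.Agent.S55.T.H954.card_map_subtype H (P : Subgroup H)).trans hP
  have hz := isZero_H2_of_finite_pgroup A hfin h1 p _ ((P : Subgroup H).map H.subtype) hP'
  exact Fermat.Agent.S55.T.H954.eq_zero_of_iso_of_isZero
    (Fermat.Agent.S55.T.H954.resResIso A H (P : Subgroup H) 2) hz _

/-- The same for the full group. -/
theorem isZero_H2_self_of_finite (hfin : Finite A.V)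
    (h1 : ∀ H : Subgroup G, Limits.IsZero (groupCohomology (resSub A H) 1)) :
    Limits.IsZero (groupCohomology A 2) := by
  refine isZero_of_forall_eq_zero fun x => ?_
  refine Fermat.Agent.S55.H119.eq_zero_of_forall_sylow_resMap_eq_zero_two A x fun p hp => ?_
  haveI : Fact p.Prime := ⟨hp⟩
  obtain ⟨P⟩ : Nonempty (Sylow p G) := inferInstance
  exact ⟨P, eq_zero_of_isZero (isZero_H2_of_finite_pgroup A hfin h1 p _ (P : Subgroup G)
    (Sylow.card_eq_multiplicity P)) _⟩

end FinVanish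

end Fermat.Agent.S55.G.SIndH237.H95

end
-- ===== PACK-END S55/G/SIndH237/H95/FinVanish.lean

-- ===== PACK-BEGIN S55/G/SIndH237/H95/Complete.lean
section
/-
S55 / layer G / G-SIND:UCT (helper95).  Part 5: the abstract theorem.

Let `R` be a commutative ring, complete for an ideal `I` with `R ⧸ I` finite, and let a finite
group `H` act on `R` by ring automorphisms stabilising `I`, with trivial inertia at every maximal
ideal.  Then every multiplicative `1`-cocycle and every multiplicative `2`-cocycle of `H` with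
values in `Rˣ` is a coboundary.
-/




set_option autoImplicit false
set_option linter.unusedSectionVars false
set_option linter.style.haveILetI false

namespace Fermat.Agent.S55.G.SIndH237.H95

open CategoryTheory groupCohomology Fermat.Agent.S55.T

attribute [local instance] unitsAct

section FiniteRing

variable {A : Type} [CommRing A] [Finite A] {H : Type} [Group H] [Finite H]
  [MulSemiringAction H A]

lemma finite_maximal_of_finite : {m : Ideal A | m.IsMaximal}.Finite := by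
  haveI : Finite (Ideal A) :=
    Finite.of_injective (fun J : Ideal A => (J : Set A)) SetLike.coe_injective
  exact Set.toFinite _

/-- `H¹(K, Aˣ) = 0` for every subgroup `K ≤ H` (finite ring, trivial inertia). -/
theorem isZero_H1_units_of_finite
    (hin : ∀ m : Ideal A, m.IsMaximal → ∀ h : H, (∀ x : A, h • x - x ∈ m) → h = 1)
    (K : Subgroup H) :
    Limits.IsZero (groupCohomology (resSub (Rep.ofMulDistribMulAction H Aˣ) K) 1) := by
  refine isZero_of_forall_eq_zero fun x => ?_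
  induction x using H1_induction_on with
  | h c =>
    rw [H1π_eq_zero_iff]
    have hc := (mem_cocycles₁_iff (c : K → _)).1 c.2
    letI := Fintype.ofFinite K
    have hf : IsMulCocycle₁ (fun k : K => (Additive.toMul (c.1 k) : Aˣ)) := fun g h => hc g h
    have hinK : ∀ m : Ideal A, m.IsMaximal → ∀ k : K, (∀ x : A, k • x - x ∈ m) → k = 1 :=
      fun m hm k hk => Subtype.ext (hin m hm (k : H) hk)
    obtain ⟨x, hx⟩ := isMulCoboundary₁_of_trivial_inertia finite_maximal_of_finite hinK _ hf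
    exact ⟨Additive.ofMul x, funext fun g => congrArg Additive.ofMul (hx g)⟩

/-- `H²(H, Aˣ) = 0` on the level of cocycles (finite ring, trivial inertia). -/
theorem isMulCoboundary₂_units_of_finite
    (hin : ∀ m : Ideal A, m.IsMaximal → ∀ h : H, (∀ x : A, h • x - x ∈ m) → h = 1)
    (c : H × H → Aˣ) (hc : IsMulCocycle₂ c) : IsMulCoboundary₂ c := by
  have hz := isZero_H2_self_of_finite (Rep.ofMulDistribMulAction H Aˣ)
    (inferInstanceAs (Finite (Additive Aˣ))) (fun K => isZero_H1_units_of_finite hin K)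
  have h0 : H2π _ (cocyclesOfIsMulCocycle₂ hc) = 0 := eq_zero_of_isZero hz _
  rw [H2π_eq_zero_iff] at h0
  exact isMulCoboundary₂_of_mem_coboundaries₂ _ h0

end FiniteRing

section Complete

variable {R : Type} [CommRing R] {H : Type} [Group H] [Finite H] [MulSemiringAction H R]
  (I : Ideal R)

lemma finite_maximal_of_finite_quotient (hJ : I ≤ Ideal.jacobson ⊥) [Finite (R ⧸ I)] :
    {m : Ideal R | m.IsMaximal}.Finite := by
  haveI : Finite (Ideal (R ⧸ I)) :=
    Finite.of_injective (fun J : Ideal (R ⧸ I) => (J : Set (R ⧸ I))) SetLike.coe_injective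
  refine Set.Finite.of_finite_image (f := fun m : Ideal R => m.map (Ideal.Quotient.mk I))
    (Set.toFinite _) ?_
  intro m₁ h₁ m₂ h₂ h
  have key : ∀ m : Ideal R, m.IsMaximal →
      (m.map (Ideal.Quotient.mk I)).comap (Ideal.Quotient.mk I) = m := by
    intro m hm
    rw [Ideal.comap_map_of_surjective _ Ideal.Quotient.mk_surjective, ← RingHom.ker_eq_comap_bot,
      Ideal.mk_ker]
    exact sup_eq_left.2 (hJ.trans (sInf_le ⟨bot_le, hm⟩))
  rw [← key m₁ h₁, ← key m₂ h₂]
  exact congrArg _ h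

lemma inertia_quot (hI : ∀ (h : H) (x : R), x ∈ I → h • x ∈ I)
    (hin : ∀ m : Ideal R, m.IsMaximal → ∀ h : H, (∀ x : R, h • x - x ∈ m) → h = 1) :
    letI := quotAct I hI
    ∀ m : Ideal (R ⧸ I), m.IsMaximal → ∀ h : H, (∀ x : R ⧸ I, h • x - x ∈ m) → h = 1 := by
  intro m hm h hx
  haveI := hm
  refine hin (m.comap (Ideal.Quotient.mk I))
    (Ideal.comap_isMaximal_of_surjective _ Ideal.Quotient.mk_surjective) h fun r => ?_
  rw [Ideal.mem_comap, map_sub]
  exact hx (Ideal.Quotient.mk I r)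

lemma mem_unitFil_one_iff (u : Rˣ) :
    u ∈ unitFil I 1 ↔ Units.map (Ideal.Quotient.mk I : R →* R ⧸ I) u = 1 := by
  rw [mem_unitFil_iff, pow_one, ← Ideal.Quotient.eq, map_one, Units.ext_iff]
  rfl

/-- **H¹**: Hilbert 90 for the units of `R`. -/
theorem isMulCoboundary₁_of_complete [IsAdicComplete I R] [Finite (R ⧸ I)]
    (hin : ∀ m : Ideal R, m.IsMaximal → ∀ h : H, (∀ x : R, h • x - x ∈ m) → h = 1)
    (c : H → Rˣ) (hc : IsMulCocycle₁ c) : IsMulCoboundary₁ c := by
  letI := Fintype.ofFinite H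
  exact isMulCoboundary₁_of_trivial_inertia
    (finite_maximal_of_finite_quotient I (IsAdicComplete.le_jacobson_bot I)) hin c hc

/-- The residual step (`j = 0`) for `2`-cocycles. -/
theorem zero_step₂ [IsAdicComplete I R] [Finite (R ⧸ I)] (hI : ∀ (h : H) (x : R), x ∈ I → h • x ∈ I)
    (hin : ∀ m : Ideal R, m.IsMaximal → ∀ h : H, (∀ x : R, h • x - x ∈ m) → h = 1)
    (c : H × H → Rˣ) (hc : IsMulCocycle₂ c) :
    ∃ x : H → Rˣ, ∀ g h, c (g, h) / (g • x h / x (g * h) * x g) ∈ unitFil I 1 := by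
  letI := quotAct I hI
  have hJ : I ≤ Ideal.jacobson ⊥ := IsAdicComplete.le_jacobson_bot I
  set π : Rˣ →* (R ⧸ I)ˣ := Units.map (Ideal.Quotient.mk I : R →* R ⧸ I) with hπ
  have hπsmul : ∀ (g : H) (u : Rˣ), π (g • u) = g • π u := fun g u => Units.ext rfl
  have hc' : IsMulCocycle₂ (fun p : H × H => π (c p)) := by
    intro g h j
    have := congrArg π (hc g h j)
    simpa only [map_mul, hπsmul] using this
  obtain ⟨y, hy⟩ := isMulCoboundary₂_units_of_finite (inertia_quot I hI hin) _ hc'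
  have hlift : ∀ g : H, ∃ u : Rˣ, π u = y g := by
    intro g
    obtain ⟨u, hu⟩ := exists_unit_lift I hJ (y g)
    exact ⟨u, Units.ext hu⟩
  choose x hx using hlift
  refine ⟨x, fun g h => ?_⟩
  rw [mem_unitFil_one_iff, ← hπ, map_div, map_mul, map_div, hπsmul, hx, hx, hx, hy g h]
  exact div_self' _

/-- **H²**: every `2`-cocycle with values in `Rˣ` is a coboundary. -/
theorem isMulCoboundary₂_of_complete [IsAdicComplete I R] [Finite (R ⧸ I)]
    (hI : ∀ (h : H) (x : R), x ∈ I → h • x ∈ I)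
    (hin : ∀ m : Ideal R, m.IsMaximal → ∀ h : H, (∀ x : R, h • x - x ∈ m) → h = 1)
    (c : H × H → Rˣ) (hc : IsMulCocycle₂ c) : IsMulCoboundary₂ c := by
  letI := Fintype.ofFinite H
  have hJ : I ≤ Ideal.jacobson ⊥ := IsAdicComplete.le_jacobson_bot I
  obtain ⟨b, hb⟩ := exists_trace_eq_one (H := H)
    (finite_maximal_of_finite_quotient I hJ) hin
  obtain ⟨x, -, hx⟩ := Fermat.Agent.S55.Local.H478.filtH2 H Rˣ (unitFil I)
    (unitFil_anti I) (fun j g u hu => smul_mem_unitFil I hI j g hu)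
    (unitFil_complete I) (unitFil_separated I)
    (fun j c hc hcj => by
      rcases Nat.eq_zero_or_pos j with rfl | hj
      · obtain ⟨x, hx⟩ := zero_step₂ I hI hin c hc
        exact ⟨x, fun g => mem_unitFil_zero I _, hx⟩
      · exact graded_step₂ I hJ hI b hb j hj c hc hcj)
    c hc (fun p => mem_unitFil_zero I _)
  exact ⟨x, hx⟩

end Complete

end Fermat.Agent.S55.G.SIndH237.H95

end
-- ===== PACK-END S55/G/SIndH237/H95/Complete.lean

-- ===== PACK-BEGIN S59/NMP/H254/OrdLine.lean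
section




/-!
# Row S59, cell NMP, leaf SEL (helper254): the ordinary line is unique

For an odd prime `p`, a representation `ρ` over a local ring with cyclotomic determinant and a
place `P | p`:

* `ordLine_unique` : two ordinary lines of `ρ` at `P` coincide (an inertial `τ` with
  `ε(τ) ≢ 1 mod p` acts on an ordinary line by `det ρ(τ)`, and `det ρ(τ) - 1` is a unit);
* `exists_quotient_scalar` : `σ ∈ D_P` acts on `V / L` by a scalar `z`;
* `quotient_scalar_unique` : this scalar does not depend on the ordinary line;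
* `IsOrdLineAt.baseChange`, `quotient_scalar_baseChange` : base change.
-/

set_option autoImplicit false
set_option linter.style.haveILetI false
set_option linter.unusedSectionVars false
set_option linter.unusedVariables false

noncomputable section

namespace Fermat.Agent.S59.NMP.H254

open IsLocalRing Fermat.Agent.S59.H649 Fermat.Agent.S59.H659
open scoped TensorProduct

section Line

variable {A : Type} [CommRing A] [IsLocalRing A]

/-- Coordinates: a vector in the line spanned by `b 0` has vanishing second coordinate. -/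
theorem repr_one_eq_zero_of_mem {V : Type*} [AddCommGroup V] [Module A V]
    (b : Module.Basis (Fin 2) A V) {w : V} (hw : w ∈ Submodule.span A {b 0}) :
    b.repr w 1 = 0 := by
  obtain ⟨c, rfl⟩ := Submodule.mem_span_singleton.mp hw
  rw [map_smul, Finsupp.smul_apply, Module.Basis.repr_self, Finsupp.single_apply,
    if_neg (by decide), smul_zero]

/-- Coordinates: a vector with vanishing second coordinate lies in the line spanned by `b 0`. -/
theorem mem_of_repr_one_eq_zero {V : Type*} [AddCommGroup V] [Module A V]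
    (b : Module.Basis (Fin 2) A V) {w : V} (hw : b.repr w 1 = 0) :
    w ∈ Submodule.span A {b 0} := by
  have h1 := b.sum_repr w
  rw [Fin.sum_univ_two, hw, zero_smul, add_zero] at h1
  rw [← h1]
  exact Submodule.smul_mem _ _ (Submodule.mem_span_singleton_self _)

/-- `σ ∈ D_P` acts on the quotient by an ordinary line by a scalar. -/
theorem exists_quotient_scalar {ρ : GaloisRepAdic A} {P : ValuationSubring Qb}
    {L : Submodule A ρ.V} (hL : IsOrdLineAt ρ P L) {σ : GQ}
    (hσ : σ ∈ P.decompositionSubgroup ℚ) : ∃ z : A, ∀ w : ρ.V, ρ.ρ σ w - z • w ∈ L := by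
  obtain ⟨b, rfl⟩ := hL.basis
  refine ⟨b.repr (ρ.ρ σ (b 1)) 1, fun w => ?_⟩
  apply mem_of_repr_one_eq_zero b
  have h0 : b.repr (ρ.ρ σ (b 0)) 1 = 0 :=
    repr_one_eq_zero_of_mem b (hL.stable σ hσ _ (Submodule.mem_span_singleton_self _))
  have hw := b.sum_repr w
  rw [Fin.sum_univ_two] at hw
  conv_lhs => rw [← hw]
  simp only [map_add, map_smul, map_sub, Finsupp.coe_sub, Finsupp.coe_add, Finsupp.coe_smul,
    Pi.sub_apply, Pi.add_apply, Pi.smul_apply, smul_eq_mul, Module.Basis.repr_self,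
    Finsupp.single_apply, h0]
  simp
  ring

/-- The scalar by which `σ` acts on `V / L` is determined by `L`. -/
theorem quotient_scalar_unique_of_line {ρ : GaloisRepAdic A} {P : ValuationSubring Qb}
    {L : Submodule A ρ.V} (hL : IsOrdLineAt ρ P L) {f : ρ.V →ₗ[A] ρ.V} {z₁ z₂ : A}
    (h₁ : ∀ w : ρ.V, f w - z₁ • w ∈ L) (h₂ : ∀ w : ρ.V, f w - z₂ • w ∈ L) : z₁ = z₂ := by
  obtain ⟨b, rfl⟩ := hL.basis
  have h3 : (z₂ - z₁) • b 1 ∈ Submodule.span A {b 0} := by
    have := Submodule.sub_mem _ (h₁ (b 1)) (h₂ (b 1))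
    rw [sub_sub_sub_cancel_left, ← sub_smul] at this
    exact this
  have h4 := repr_one_eq_zero_of_mem b h3
  rw [map_smul, Finsupp.smul_apply, Module.Basis.repr_self, Finsupp.single_apply,
    if_pos rfl, smul_eq_mul, mul_one] at h4
  exact (sub_eq_zero.mp h4).symm

/-- **The ordinary line is unique** (one inclusion). -/
theorem ordLine_le {p : ℕ} (hp : p.Prime) (hp2 : p ≠ 2) {ρ : GaloisRepAdic A}
    (hdet : ρ.DetIsCyclotomic p) {P : ValuationSubring Qb} (hP : P.LiesOverPrime p)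
    {L₁ L₂ : Submodule A ρ.V} (h₁ : IsOrdLineAt ρ P L₁) (h₂ : IsOrdLineAt ρ P L₂) :
    L₁ ≤ L₂ := by
  obtain ⟨τ, hτ, hτ'⟩ := exists_inertia_cycExp_ne_one p hp hp2 P hP
  obtain ⟨a, ha⟩ := exists_isCycExp p hp.ne_zero τ
  have ha' : ¬ a ≡ 1 [MOD p] := hτ' a ha
  have hτD : τ ∈ P.decompositionSubgroup ℚ := mem_decomposition_of_mem_inertia hτ
  have hd1 := hdet.2 1 τ a (by rw [pow_one]; exact ha)
  have hd2 : LinearMap.det (ρ.ρ τ) - (a : A) ∈ maximalIdeal A := by
    obtain ⟨c, hc⟩ := Ideal.mem_span_singleton'.mp hd1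
    rw [← hc, pow_one]
    exact Ideal.mul_mem_left _ _ hdet.1
  have hu : IsUnit ((a : A) - 1) := isUnit_natCast_sub_one hp hdet.1 ha'
  have hdu : IsUnit (LinearMap.det (ρ.ρ τ) - 1) := by
    by_contra hcon
    have h7 : LinearMap.det (ρ.ρ τ) - 1 ∈ maximalIdeal A := hcon
    have h8 : (a : A) - 1 ∈ maximalIdeal A := by
      have := Ideal.sub_mem _ h7 hd2
      rwa [sub_sub_sub_cancel_left] at this
    exact h8 hu
  obtain ⟨b, rfl⟩ := h₁.basis
  -- the matrix of `ρ τ` in the basis `b`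
  have h00 : b.repr (ρ.ρ τ (b 0)) 1 = 0 :=
    repr_one_eq_zero_of_mem b (h₁.stable τ hτD _ (Submodule.mem_span_singleton_self _))
  have h11 : b.repr (ρ.ρ τ (b 1)) 1 = 1 := by
    have := repr_one_eq_zero_of_mem b (h₁.inertia τ hτ (b 1))
    rw [map_sub, Finsupp.sub_apply, Module.Basis.repr_self, Finsupp.single_apply, if_pos rfl,
      sub_eq_zero] at this
    exact this
  have hdet' : LinearMap.det (ρ.ρ τ) = b.repr (ρ.ρ τ (b 0)) 0 := by
    rw [← LinearMap.det_toMatrix b, Matrix.det_fin_two]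
    simp only [LinearMap.toMatrix_apply, h00, h11, mul_one, mul_zero, sub_zero]
  -- `ρ τ (b 0) = det • b 0`
  have hb0 : ρ.ρ τ (b 0) = LinearMap.det (ρ.ρ τ) • b 0 := by
    have h1 := b.sum_repr (ρ.ρ τ (b 0))
    rw [Fin.sum_univ_two, h00, zero_smul, add_zero] at h1
    rw [hdet', h1]
  have hmem : (LinearMap.det (ρ.ρ τ) - 1) • b 0 ∈ L₂ := by
    have := h₂.inertia τ hτ (b 0)
    rw [hb0] at this
    rw [sub_smul, one_smul]
    exact this
  rw [Submodule.span_le, Set.singleton_subset_iff, SetLike.mem_coe]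
  obtain ⟨u, hu'⟩ := hdu
  have := Submodule.smul_mem L₂ (↑u⁻¹ : A) hmem
  rwa [← hu', smul_smul, Units.inv_mul, one_smul] at this

/-- **The ordinary line is unique.** -/
theorem ordLine_unique {p : ℕ} (hp : p.Prime) (hp2 : p ≠ 2) {ρ : GaloisRepAdic A}
    (hdet : ρ.DetIsCyclotomic p) {P : ValuationSubring Qb} (hP : P.LiesOverPrime p)
    {L₁ L₂ : Submodule A ρ.V} (h₁ : IsOrdLineAt ρ P L₁) (h₂ : IsOrdLineAt ρ P L₂) :
    L₁ = L₂ :=
  le_antisymm (ordLine_le hp hp2 hdet hP h₁ h₂) (ordLine_le hp hp2 hdet hP h₂ h₁)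

/-- **The scalar on the unramified quotient is canonical.** -/
theorem quotient_scalar_unique {p : ℕ} (hp : p.Prime) (hp2 : p ≠ 2) {ρ : GaloisRepAdic A}
    (hdet : ρ.DetIsCyclotomic p) {P : ValuationSubring Qb} (hP : P.LiesOverPrime p)
    {L₁ L₂ : Submodule A ρ.V} (h₁ : IsOrdLineAt ρ P L₁) (h₂ : IsOrdLineAt ρ P L₂)
    {f : ρ.V →ₗ[A] ρ.V} {z₁ z₂ : A}
    (hz₁ : ∀ w : ρ.V, f w - z₁ • w ∈ L₁) (hz₂ : ∀ w : ρ.V, f w - z₂ • w ∈ L₂) : z₁ = z₂ := by
  have hL := ordLine_unique hp hp2 hdet hP h₁ h₂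
  subst hL
  exact quotient_scalar_unique_of_line h₁ hz₁ hz₂

end Line

section BaseChange

variable {A : Type} [CommRing A] [IsLocalRing A] {B : Type} [CommRing B] [IsLocalRing B]

/-- Base change of an ordinary line together with the scalar on the quotient. -/
theorem exists_ordLine_baseChange (φ : A →+* B) (hφ : IsLocalHom φ) {ρ : GaloisRepAdic A}
    {P : ValuationSubring Qb} {L : Submodule A ρ.V} (hL : IsOrdLineAt ρ P L) {σ : GQ} {z : A}
    (hz : ∀ w : ρ.V, ρ.ρ σ w - z • w ∈ L) :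
    ∃ L' : Submodule B (ρ.baseChangeAlong φ hφ).V, IsOrdLineAt (ρ.baseChangeAlong φ hφ) P L' ∧
      ∀ w : (ρ.baseChangeAlong φ hφ).V, (ρ.baseChangeAlong φ hφ).ρ σ w - φ z • w ∈ L' := by
  letI : Algebra A B := φ.toAlgebra
  obtain ⟨b, rfl⟩ := hL.basis
  refine ⟨(Submodule.span B {(1 : B) ⊗ₜ[A] b 0} : Submodule B (B ⊗[A] ρ.V)),
    ⟨⟨b.baseChange B, Fermat.Agent.S56.H966.span_eq_span_baseChange φ b⟩, ?_, ?_⟩, ?_⟩
  · intro τ hτ v hv
    exact Fermat.Agent.S56.H966.baseChange_mem_span_of_mem φ (b 0) (ρ.ρ τ) (hL.stable τ hτ) v hv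
  · intro τ hτ (w : B ⊗[A] ρ.V)
    have := Fermat.Agent.S56.H966.baseChange_sub_smul_mem φ (b 0) (ρ.ρ τ) 1
      (fun v => by rw [one_smul]; exact hL.inertia τ hτ v) w
    rw [map_one, one_smul] at this
    exact this
  · intro (w : B ⊗[A] ρ.V)
    exact Fermat.Agent.S56.H966.baseChange_sub_smul_mem φ (b 0) (ρ.ρ σ) z hz w

/-- Transport of an ordinary line, together with the scalar on the quotient, along an
equivalence. -/
theorem exists_ordLine_of_isEquiv {ρ₁ ρ₂ : GaloisRepAdic A} (he : ρ₁.IsEquiv ρ₂)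
    {P : ValuationSubring Qb} {L : Submodule A ρ₁.V} (hL : IsOrdLineAt ρ₁ P L) {σ : GQ} {z : A}
    (hz : ∀ w : ρ₁.V, ρ₁.ρ σ w - z • w ∈ L) :
    ∃ L' : Submodule A ρ₂.V, IsOrdLineAt ρ₂ P L' ∧ ∀ w : ρ₂.V, ρ₂.ρ σ w - z • w ∈ L' := by
  obtain ⟨e⟩ := he
  obtain ⟨b, rfl⟩ := hL.basis
  have hmem : ∀ {u : ρ₁.V}, u ∈ Submodule.span A {b 0} →
      e.toLinearEquiv u ∈ Submodule.span A {e.toLinearEquiv (b 0)} := by
    intro u hu
    obtain ⟨a, rfl⟩ := Submodule.mem_span_singleton.mp hu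
    rw [map_smul]
    exact Submodule.smul_mem _ _ (Submodule.mem_span_singleton_self _)
  refine ⟨Submodule.span A {e.toLinearEquiv (b 0)}, ⟨⟨b.map e.toLinearEquiv, ?_⟩, ?_, ?_⟩, ?_⟩
  · rw [Module.Basis.map_apply]
  · intro τ hτ v hv
    obtain ⟨a, rfl⟩ := Submodule.mem_span_singleton.mp hv
    rw [map_smul, ← e.map_apply]
    exact Submodule.smul_mem _ _ (hmem (hL.stable τ hτ _ (Submodule.mem_span_singleton_self _)))
  · intro τ hτ w
    have := hmem (hL.inertia τ hτ (e.toLinearEquiv.symm w))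
    rwa [map_sub, e.map_apply, LinearEquiv.apply_symm_apply] at this
  · intro w
    have := hmem (hz (e.toLinearEquiv.symm w))
    rwa [map_sub, e.map_apply, map_smul, LinearEquiv.apply_symm_apply] at this

end BaseChange

end Fermat.Agent.S59.NMP.H254

end
end
-- ===== PACK-END S59/NMP/H254/OrdLine.lean

-- ===== PACK-BEGIN S59/NMP/H43/LgcDevS33.lean
section



/-!
# S59 / NMP-LGC — DEV in the vocabulary of `S33/Spec2.lean` (helper43)

`iAug I (torsSub J (p ^ n))` instead of the unfolded `augSub_h43`.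

* `augSub_eq_iAug_h43`   : `augSub_h43 I J m = S33.iAug I (S33.torsSub J m)`.
* `redKer_le_iAug_s33_h43` (DEV) : MAXUNR at level `p` + divisibility ⟹
  `K ⊓ J[p ^ n] ≤ iAug I J[p ^ n]` for all `n`.
* `core_of_frob_s33_h43` (CORE) : `(φ² - t φ + p) J[p ^ n] ⊆ iAug I J[p ^ n]` from the
  Eichler–Shimura relation modulo `K`.
-/

set_option autoImplicit false

namespace Fermat.Agent.S59.NMP.H43

open Fermat.Agent.S33

variable {G J : Type*} [Group G] [AddCommGroup J] [DistribMulAction G J]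

theorem mem_torsSub_iff_h43 (m : ℕ) (y : J) : y ∈ torsSub J m ↔ m • y = 0 := by
  simp [torsSub, AddMonoidHom.mem_ker]

theorem augSub_eq_iAug_h43 (I : Subgroup G) (m : ℕ) :
    augSub_h43 I J m = iAug I (torsSub J m) := by
  unfold augSub_h43 augGen_h43 iAug
  congr 1

/-- **DEV**, S33 vocabulary. -/
theorem redKer_le_iAug_s33_h43 (I : Subgroup G) (K : AddSubgroup J) (p : ℕ)
    (haug : ∀ σ ∈ I, ∀ y : J, σ • y - y ∈ K)
    (hdiv : ∀ (n : ℕ) (z : J), p ^ n • z = 0 → ∃ y : J, p ^ (n + 1) • y = 0 ∧ p • y = z)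
    (h1 : K ⊓ torsSub J p ≤ iAug I (torsSub J p)) (n : ℕ) :
    K ⊓ torsSub J (p ^ n) ≤ iAug I (torsSub J (p ^ n)) := by
  rintro x ⟨hxK, hx⟩
  rw [← augSub_eq_iAug_h43]
  refine redKer_le_iAug_h43 I K p haug hdiv ?_ n x hxK ((mem_torsSub_iff_h43 _ x).mp hx)
  intro y hyK hy
  rw [augSub_eq_iAug_h43]
  exact h1 ⟨hyK, (mem_torsSub_iff_h43 p y).mpr hy⟩

/-- **CORE**, S33 vocabulary: the Eichler–Shimura relation modulo the kernel of reduction gives
`(φ² - t φ + p) J[p ^ n] ⊆ iAug I J[p ^ n]`. -/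
theorem core_of_frob_s33_h43 (I : Subgroup G) (K : AddSubgroup J) (p : ℕ)
    (haug : ∀ σ ∈ I, ∀ y : J, σ • y - y ∈ K)
    (hdiv : ∀ (n : ℕ) (z : J), p ^ n • z = 0 → ∃ y : J, p ^ (n + 1) • y = 0 ∧ p • y = z)
    (h1 : K ⊓ torsSub J p ≤ iAug I (torsSub J p))
    (φ t : J →+ J) (hes : ∀ x : J, φ (φ x) - t (φ x) + p • x ∈ K)
    (n : ℕ) (x : J) (hx : x ∈ torsSub J (p ^ n)) :
    φ (φ x) - t (φ x) + p • x ∈ iAug I (torsSub J (p ^ n)) := by
  rw [← augSub_eq_iAug_h43]
  refine core_of_frob_h43 I K p haug hdiv ?_ φ t hes n x ((mem_torsSub_iff_h43 _ x).mp hx)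
  intro y hyK hy
  rw [augSub_eq_iAug_h43]
  exact h1 ⟨hyK, (mem_torsSub_iff_h43 p y).mpr hy⟩

end Fermat.Agent.S59.NMP.H43

end
-- ===== PACK-END S59/NMP/H43/LgcDevS33.lean

-- ===== PACK-BEGIN S59/NMP/H135/CoreAbs.lean
section


/-!
# S59 / NMP-LGC (helper135): CORE, abstract form with a level-raising map

`JN`, `JM` two `G`-modules, `L : JN →+ JM` equivariant (the pull-back `J₀(N) → J₀(M)`; `L = id` at
good levels), `KM ≤ JM` (the kernel of the reduction map at level `M`) with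

* `σ y - y ∈ KM` for `σ ∈ I`,
* MAXUNR at level `M`: `KM ⊓ JM[p] ≤ iAug I JM[p]`,
* Eichler–Shimura at level `M`: `φ² y - t_M φ y + p y ∈ KM`,
* `hback`: a point `y ∈ JN[p]` with `L y ∈ iAug I JM[p]` lies in `iAug I JN[p]`
  (relative CE + injectivity of `L` on `JN[p]`),
* `JN` is `p`-divisible on `p`-power torsion.

Then CORE holds at level `N`:  `φ² x - t_N φ x + p x ∈ iAug I JN[pⁿ]` for `x ∈ JN[pⁿ]`
(`core_of_pull135`; dévissage = `H43.core_of_frob_s33_h43`).
-/

set_option autoImplicit false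

namespace Fermat.Agent.S59.NMP.H135

open Fermat.Agent.S33 Fermat.Agent.S59.NMP.H43

variable {G JN JM : Type*} [Group G] [AddCommGroup JN] [AddCommGroup JM]
  [DistribMulAction G JN] [DistribMulAction G JM]

/-- The augmentation of a stable subgroup is contained in it. -/
theorem iAug_le_of_stable135 (I : Subgroup G) (Y : AddSubgroup JN)
    (hY : ∀ σ ∈ I, ∀ y ∈ Y, σ • y ∈ Y) : iAug I Y ≤ Y := by
  unfold iAug
  rw [AddSubgroup.closure_le]
  rintro z ⟨σ, hσ, y, hy, rfl⟩
  exact Y.sub_mem (hY σ hσ y hy) hy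

/-- The torsion subgroup is stable. -/
theorem smul_mem_torsSub135 (m : ℕ) (σ : G) {y : JN} (hy : y ∈ torsSub JN m) :
    σ • y ∈ torsSub JN m := by
  rw [mem_torsSub_iff_h43] at hy ⊢
  rw [← smul_comm, hy, smul_zero]

/-- The augmentation of the image of `Y` under an equivariant map is the image of the
augmentation of `Y`. -/
theorem exists_preimage_of_mem_iAug_map135 (I : Subgroup G) (L : JN →+ JM)
    (hLg : ∀ (τ : G) (x : JN), L (τ • x) = τ • L x) (Y : AddSubgroup JN) {z : JM}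
    (hz : z ∈ iAug I (Y.map L)) : ∃ y ∈ iAug I Y, L y = z := by
  unfold iAug at hz
  induction hz using AddSubgroup.closure_induction with
  | mem z hz =>
    obtain ⟨σ, hσ, w, ⟨w₀, hw₀, rfl⟩, rfl⟩ := hz
    refine ⟨σ • w₀ - w₀, AddSubgroup.subset_closure ⟨σ, hσ, w₀, hw₀, rfl⟩, ?_⟩
    rw [map_sub, hLg]
  | zero => exact ⟨0, AddSubgroup.zero_mem _, map_zero _⟩
  | add a b _ _ ha hb =>
    obtain ⟨ya, hya, rfl⟩ := ha
    obtain ⟨yb, hyb, rfl⟩ := hb
    exact ⟨ya + yb, AddSubgroup.add_mem _ hya hyb, map_add _ _ _⟩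
  | neg a _ ha =>
    obtain ⟨ya, hya, rfl⟩ := ha
    exact ⟨-ya, AddSubgroup.neg_mem _ hya, map_neg _ _⟩

/-- **`hback` from relative CE and injectivity on `p`-torsion.** -/
theorem back_of_relCE135 (I : Subgroup G) (p : ℕ) (L : JN →+ JM)
    (hLg : ∀ (τ : G) (x : JN), L (τ • x) = τ • L x)
    (hinj : ∀ y : JN, p • y = 0 → L y = 0 → y = 0)
    (hCE : ∀ z ∈ (torsSub JN p).map L, z ∈ iAug I (torsSub JM p) →
      z ∈ iAug I ((torsSub JN p).map L))
    (y : JN) (hy : p • y = 0) (hLy : L y ∈ iAug I (torsSub JM p)) :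
    y ∈ iAug I (torsSub JN p) := by
  have hyT : y ∈ torsSub JN p := (mem_torsSub_iff_h43 p y).mpr hy
  obtain ⟨y', hy', hLy'⟩ := exists_preimage_of_mem_iAug_map135 I L hLg (torsSub JN p)
    (hCE (L y) ⟨y, hyT, rfl⟩ hLy)
  have hy'T : y' ∈ torsSub JN p :=
    iAug_le_of_stable135 I (torsSub JN p) (fun σ _ w hw => smul_mem_torsSub135 p σ hw) hy'
  have h0 : y - y' = 0 := by
    refine hinj (y - y') ?_ ?_
    · rw [smul_sub, hy, (mem_torsSub_iff_h43 p y').mp hy'T, sub_zero]
    · rw [map_sub, hLy', sub_self]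
  rw [sub_eq_zero.mp h0]
  exact hy'

/-- **CORE at level `N` from the geometry at level `M`.** -/
theorem core_of_pull135 (I : Subgroup G) (p : ℕ) (KM : AddSubgroup JM)
    (hKI : ∀ τ ∈ I, ∀ y : JM, τ • y - y ∈ KM)
    (hmax : KM ⊓ torsSub JM p ≤ iAug I (torsSub JM p))
    (L : JN →+ JM) (hLg : ∀ (τ : G) (x : JN), L (τ • x) = τ • L x)
    (hdiv : ∀ (n : ℕ) (z : JN), p ^ n • z = 0 → ∃ y : JN, p ^ (n + 1) • y = 0 ∧ p • y = z)
    (hback : ∀ y : JN, p • y = 0 → L y ∈ iAug I (torsSub JM p) → y ∈ iAug I (torsSub JN p))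
    (φ : G) (tN : JN →+ JN) (tM : JM →+ JM) (hLh : ∀ x : JN, L (tN x) = tM (L x))
    (hes : ∀ y : JM, φ • φ • y - tM (φ • y) + p • y ∈ KM)
    (n : ℕ) (x : JN) (hx : p ^ n • x = 0) :
    φ • φ • x - tN (φ • x) + p • x ∈ iAug I (torsSub JN (p ^ n)) := by
  have haug : ∀ σ ∈ I, ∀ y : JN, σ • y - y ∈ KM.comap L := by
    intro σ hσ y
    rw [AddSubgroup.mem_comap, map_sub, hLg]
    exact hKI σ hσ (L y)
  have h1 : KM.comap L ⊓ torsSub JN p ≤ iAug I (torsSub JN p) := by
    rintro y ⟨hyK, hyT⟩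
    have hy : p • y = 0 := (mem_torsSub_iff_h43 p y).mp hyT
    have hLT : L y ∈ torsSub JM p := by
      rw [mem_torsSub_iff_h43, ← map_nsmul, hy, map_zero]
    exact hback y hy (hmax ⟨hyK, hLT⟩)
  have hes' : ∀ y : JN, (DistribSMul.toAddMonoidHom JN φ)
      ((DistribSMul.toAddMonoidHom JN φ) y) -
        tN ((DistribSMul.toAddMonoidHom JN φ) y) + p • y ∈ KM.comap L := by
    intro y
    rw [AddSubgroup.mem_comap]
    show L (φ • φ • y - tN (φ • y) + p • y) ∈ KM
    rw [map_add, map_sub, map_nsmul, hLg, hLg, hLh, hLg]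
    exact hes (L y)
  exact core_of_frob_s33_h43 I (KM.comap L) p haug hdiv h1
    (DistribSMul.toAddMonoidHom JN φ) tN hes' n x ((mem_torsSub_iff_h43 _ x).mpr hx)

end Fermat.Agent.S59.NMP.H135

end
-- ===== PACK-END S59/NMP/H135/CoreAbs.lean

-- ===== PACK-BEGIN S59/Unit3/H37/EtaQuotShapes.lean
section
/-
S59 MOONSHOT / cells (A), (B1) at `p = 3`: more shapes of formal η-quotients (helper37).

`isEtaQuot_shapeQR` / `unitEis_shapeQR`: the units
`t^s (E(t) E(t^r) / (E(t^q) E(t^(q r))))^n` (`= (η₁η_r/(η_qη_{qr}))^n` up to the power of `t`),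
for arbitrary `q, r ≠ 0` and every prime `ℓ ∤ q r` — the shape of the WALL-q units at `p = 3`
(`r = 1`: `q ≡ 1 (3)`; `r ≡ 2 (3)` an auxiliary prime) and of `η₁η_r/(η₃η_{3r})`.
`isEtaQuot_shapeQ` / `unitEis_shapeQ`: `t^s (E(t)/E(t^q))^n`.
-/


set_option autoImplicit false

noncomputable section

namespace Fermat.Agent.S59.Unit3.H37

open PowerSeries ModularCurve
open Fermat.Agent.S37 Fermat.Agent.S37.H400
open Fermat.Agent.Ribet.H67

variable {ℓ : ℕ}

/-- `t^s (E(t) E(t^r) / (E(t^q) E(t^(q r))))^n` is an η-quotient prime to every prime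
`ℓ ∤ q r`. -/
theorem isEtaQuot_shapeQR (hℓ : ℓ.Prime) (q r : ℕ) [NeZero q] [NeZero r] [NeZero (q * r)]
    (hq : ¬ ℓ ∣ q) (hr : ¬ ℓ ∣ r) (s : ℤ) (n : ℕ) {I : PowerSeries ℤ} (hI : etaProd * I = 1) :
    IsEtaQuot ℓ
      (HahnSeries.single s (1 : ℤ) * HahnSeries.ofPowerSeries ℤ ℤ (etaProd ^ n) *
        qExpand ℤ r (HahnSeries.ofPowerSeries ℤ ℤ (etaProd ^ n)) *
        qExpand ℤ q (HahnSeries.ofPowerSeries ℤ ℤ (I ^ n)) *
        qExpand ℤ (q * r) (HahnSeries.ofPowerSeries ℤ ℤ (I ^ n))) := by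
  have hqr : ¬ ℓ ∣ q * r := fun h => (hℓ.dvd_mul.1 h).elim hq hr
  have hE := IsEtaQuot.euler_pow (ℓ := ℓ) hℓ.ne_one n
  have hEi := IsEtaQuot.euler_inv_pow (ℓ := ℓ) hℓ.ne_one hI n
  exact ((((IsEtaQuot.single s).mul hE).mul (hE.qExpand hℓ r hr)).mul
    (hEi.qExpand hℓ q hq)).mul (hEi.qExpand hℓ (q * r) hqr)

/-- **UNIT-EIS for `t^s (E(t) E(t^r) / (E(t^q) E(t^(q r))))^n`**. -/
theorem unitEis_shapeQR {L : Type*} [Field L] (ℓ : Nat.Primes)
    [NeZero (ℓ : ℕ)] [HasEnoughRootsOfUnity L (ℓ : ℕ)] (q r : ℕ) [NeZero q] [NeZero r]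
    [NeZero (q * r)] (hq : ¬ (ℓ : ℕ) ∣ q) (hr : ¬ (ℓ : ℕ) ∣ r) (s : ℤ) (n : ℕ)
    {I : PowerSeries ℤ} (hI : etaProd * I = 1) (v : LaurentSeries ℤ)
    (hv : v = HahnSeries.single s (1 : ℤ) * HahnSeries.ofPowerSeries ℤ ℤ (etaProd ^ n) *
        qExpand ℤ r (HahnSeries.ofPowerSeries ℤ ℤ (etaProd ^ n)) *
        qExpand ℤ q (HahnSeries.ofPowerSeries ℤ ℤ (I ^ n)) *
        qExpand ℤ (q * r) (HahnSeries.ofPowerSeries ℤ ℤ (I ^ n))) :
    ∃ c : L, c ≠ 0 ∧
      kronNorm (ℓ : ℕ) (coeffMap (Int.castRingHom L) v) =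
        algebraMap L (LaurentSeries L) c * coeffMap (Int.castRingHom L) v ^ ((ℓ : ℕ) + 1) := by
  subst hv
  exact unitEis_of_isEtaQuot ℓ (isEtaQuot_shapeQR ℓ.2 q r hq hr s n hI)

/-- `t^s (E(t) / E(t^q))^n` is an η-quotient prime to every prime `ℓ ∤ q`. -/
theorem isEtaQuot_shapeQ (hℓ : ℓ.Prime) (q : ℕ) [NeZero q] (hq : ¬ ℓ ∣ q) (s : ℤ) (n : ℕ)
    {I : PowerSeries ℤ} (hI : etaProd * I = 1) :
    IsEtaQuot ℓ
      (HahnSeries.single s (1 : ℤ) * HahnSeries.ofPowerSeries ℤ ℤ (etaProd ^ n) *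
        qExpand ℤ q (HahnSeries.ofPowerSeries ℤ ℤ (I ^ n))) := by
  have hE := IsEtaQuot.euler_pow (ℓ := ℓ) hℓ.ne_one n
  have hEi := IsEtaQuot.euler_inv_pow (ℓ := ℓ) hℓ.ne_one hI n
  exact ((IsEtaQuot.single s).mul hE).mul (hEi.qExpand hℓ q hq)

/-- **UNIT-EIS for `t^s (E(t) / E(t^q))^n`**. -/
theorem unitEis_shapeQ {L : Type*} [Field L] (ℓ : Nat.Primes)
    [NeZero (ℓ : ℕ)] [HasEnoughRootsOfUnity L (ℓ : ℕ)] (q : ℕ) [NeZero q]
    (hq : ¬ (ℓ : ℕ) ∣ q) (s : ℤ) (n : ℕ)
    {I : PowerSeries ℤ} (hI : etaProd * I = 1) (v : LaurentSeries ℤ)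
    (hv : v = HahnSeries.single s (1 : ℤ) * HahnSeries.ofPowerSeries ℤ ℤ (etaProd ^ n) *
        qExpand ℤ q (HahnSeries.ofPowerSeries ℤ ℤ (I ^ n))) :
    ∃ c : L, c ≠ 0 ∧
      kronNorm (ℓ : ℕ) (coeffMap (Int.castRingHom L) v) =
        algebraMap L (LaurentSeries L) c * coeffMap (Int.castRingHom L) v ^ ((ℓ : ℕ) + 1) := by
  subst hv
  exact unitEis_of_isEtaQuot ℓ (isEtaQuot_shapeQ ℓ.2 q hq s n hI)

/-- A formal inverse of the Euler product (so that the hypothesis `hI` of the shape lemmas can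
always be discharged): `dedekindEtaUnitInv * etaProd ^ 23`. -/
theorem etaProd_mul_inv23 : etaProd * (dedekindEtaUnitInv * etaProd ^ 23) = 1 := by
  calc etaProd * (dedekindEtaUnitInv * etaProd ^ 23)
      = etaProd ^ 24 * dedekindEtaUnitInv := by ring
    _ = 1 := dedekindEtaUnit_mul_inv

end Fermat.Agent.S59.Unit3.H37

end

end
-- ===== PACK-END S59/Unit3/H37/EtaQuotShapes.lean

-- ===== PACK-BEGIN S36/Reg/H968/Hasse.lean
section
/-
S36 / cell REG / leaf HASSE (helper968): `hasse : HasseStatement q` for every prime `q ≥ 5`.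

`E_{q-1} ≡ 1 mod q` (von Staudt–Clausen: `q ∣ den B_{q-1}`), and
`num(B_{q-1}) · E_{q-1} = E₄^δ E₆^ε Δ^a F(j)` with `F ∈ ℤ[X]` (`Struct.lean`); reduce mod `q`
and take 12-th powers.
-/




set_option autoImplicit false

open ModularForm ModularFormClass EisensteinSeries UpperHalfPlane MatrixGroups
open ModularCurve HahnSeries
open Fermat.Agent.S23.LevelOne Fermat.Agent.S28

noncomputable section

namespace Fermat.Agent.S36.Reg.H968

/-! ### von Staudt–Clausen at `q` -/

/-- The denominator of `1 / p` is `p`. -/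
theorem den_one_div_natCast {p : ℕ} (hp : p ≠ 0) : ((1 : ℚ) / (p : ℚ)).den = p := by
  rw [one_div]
  have := Rat.inv_natCast_den p
  simp [this, hp]

/-- **von Staudt–Clausen at `q`**: an odd prime `q` divides the denominator of `B_{q-1}`. -/
theorem prime_dvd_den_bernoulli (q : ℕ) (hq : q.Prime) (h3 : 3 ≤ q) :
    q ∣ (bernoulli (q - 1)).den := by
  classical
  have hodd : ¬ 2 ∣ q := by
    intro h
    have := (Nat.prime_dvd_prime_iff_eq Nat.prime_two hq).1 h
    omega
  obtain ⟨k, hk⟩ : ∃ k, q - 1 = 2 * k := ⟨(q - 1) / 2, by omega⟩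
  obtain ⟨z, hz⟩ := Bernoulli.vonStaudt_clausen k
  rw [← hk] at hz
  set S := (Finset.range (q - 1 + 2)).filter (fun p => p.Prime ∧ (p - 1) ∣ (q - 1)) with hS
  have hqS : q ∈ S := by
    rw [hS, Finset.mem_filter, Finset.mem_range]
    exact ⟨by omega, hq, dvd_rfl⟩
  set x : ℚ := ∑ p ∈ S.erase q, (1 : ℚ) / p with hx
  have hsum : ∑ p ∈ S, (1 : ℚ) / p = 1 / (q : ℚ) + x := by
    rw [hx, ← Finset.add_sum_erase S _ hqS]
  -- `q` does not divide the denominator of `x`
  have hxden : ¬ q ∣ x.den := by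
    intro hdvd
    have h1 : x.den ∣ ∏ p ∈ S.erase q, ((1 : ℚ) / p).den :=
      Finset.Rat.den_sum_dvd_prod_den _ _
    have h2 := dvd_trans hdvd h1
    obtain ⟨p, hp, hqp⟩ := (Prime.dvd_finsetProd_iff hq.prime _).1 h2
    rw [Finset.mem_erase, hS, Finset.mem_filter] at hp
    obtain ⟨hne, -, hpp, -⟩ := hp
    rw [den_one_div_natCast hpp.ne_zero] at hqp
    exact hne ((Nat.prime_dvd_prime_iff_eq hq hpp).1 hqp).symm
  set B := bernoulli (q - 1) with hB
  -- `B + 1/q = z - x`
  have hBq : B + 1 / (q : ℚ) = (z : ℚ) + (-x) := by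
    have := hz
    rw [hsum] at this
    linarith
  have hden1 : ¬ q ∣ (B + 1 / (q : ℚ)).den := by
    intro hdvd
    rw [hBq] at hdvd
    have h1 : ((z : ℚ) + (-x)).den ∣ (z : ℚ).den * (-x).den := Rat.add_den_dvd _ _
    rw [Rat.den_intCast, one_mul, Rat.neg_den] at h1
    exact hxden (dvd_trans hdvd h1)
  -- `1/q = (B + 1/q) - B`
  have hq1 : ((1 : ℚ) / (q : ℚ)).den ∣ (B + 1 / (q : ℚ)).den * (-B).den := by
    have h1 : (1 : ℚ) / (q : ℚ) = (B + 1 / (q : ℚ)) + (-B) := by ring
    conv_lhs => rw [h1]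
    exact Rat.add_den_dvd _ _
  rw [den_one_div_natCast hq.ne_zero, Rat.neg_den] at hq1
  rcases (Nat.Prime.dvd_mul hq).1 hq1 with h | h
  · exact absurd h hden1
  · exact h

/-! ### The integral `q`-expansion of `num(B_{q-1}) · E_{q-1}` -/

/-- `num(B_{q-1}) · E_{q-1}` as an integral power series. -/
def eisNum (q : ℕ) : PowerSeries ℤ :=
  PowerSeries.mk fun m =>
    if m = 0 then (bernoulli (q - 1)).num
    else -(2 * ((q - 1 : ℕ) : ℤ) * ((bernoulli (q - 1)).den : ℤ) *
      ((ArithmeticFunction.sigma (q - 1 - 1) m : ℕ) : ℤ))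

theorem bernoulli_num_ne_zero (q : ℕ) (hq : q.Prime) (h3 : 3 ≤ q) :
    (bernoulli (q - 1)).num ≠ 0 := by
  intro h
  have h0 : bernoulli (q - 1) = 0 := Rat.num_eq_zero.1 h
  have h1 := prime_dvd_den_bernoulli q hq h3
  rw [h0, Rat.den_zero] at h1
  have := Nat.le_of_dvd one_pos h1
  omega

theorem not_dvd_bernoulli_num (q : ℕ) (hq : q.Prime) (h3 : 3 ≤ q) :
    ¬ (q : ℤ) ∣ (bernoulli (q - 1)).num := by
  intro h
  have h1 := prime_dvd_den_bernoulli q hq h3
  have h2 : q ∣ (bernoulli (q - 1)).num.natAbs := Int.natCast_dvd.1 h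
  have h3' := Nat.dvd_gcd h2 h1
  rw [(bernoulli (q - 1)).reduced] at h3'
  have := Nat.le_of_dvd one_pos h3'
  omega

theorem eisNum_map_C (q : ℕ) (hq : q.Prime) (h5 : 5 ≤ q) (hk3 : 3 ≤ q - 1)
    (hev : Even (q - 1)) :
    (eisNum q).map (Int.castRingHom ℂ) =
      ((bernoulli (q - 1)).num : ℂ) • qExpansion 1 (E hk3) := by
  ext m
  rw [PowerSeries.coeff_map, PowerSeries.coeff_smul, E_qExpansion_coeff hk3 hev m, eisNum,
    PowerSeries.coeff_mk]
  by_cases hm : m = 0
  · simp [hm]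
  · rw [if_neg hm, if_neg hm]
    have hn : ((bernoulli (q - 1)).num : ℂ) ≠ 0 := by
      exact_mod_cast bernoulli_num_ne_zero q hq (by omega)
    have hd : ((bernoulli (q - 1)).den : ℂ) ≠ 0 := by
      exact_mod_cast (bernoulli (q - 1)).den_ne_zero
    have hB : ((bernoulli (q - 1) : ℚ) : ℂ) =
        ((bernoulli (q - 1)).num : ℂ) / ((bernoulli (q - 1)).den : ℂ) := by
      rw [Rat.cast_def]
    rw [hB]
    simp only [eq_intCast, Int.cast_neg, Int.cast_mul, Int.cast_ofNat, Int.cast_natCast,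
      smul_eq_mul]
    field_simp

theorem eisNum_map_zmod (q : ℕ) (hq : q.Prime) (h3 : 3 ≤ q) :
    (eisNum q).map (Int.castRingHom (ZMod q)) =
      PowerSeries.C (((bernoulli (q - 1)).num : ℤ) : ZMod q) := by
  ext m
  rw [PowerSeries.coeff_map, eisNum, PowerSeries.coeff_mk, PowerSeries.coeff_C]
  by_cases hm : m = 0
  · simp [hm]
  · rw [if_neg hm, if_neg hm]
    have hd : (((bernoulli (q - 1)).den : ℕ) : ZMod q) = 0 :=
      (ZMod.natCast_eq_zero_iff _ _).2 (prime_dvd_den_bernoulli q hq h3)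
    simp [hd]

/-! ### The Hasse identity -/

theorem hasse_weight (q : ℕ) (hq : q.Prime) (h5 : 5 ≤ q) :
    q - 1 = 12 * ((q - 1) / 12) + 4 * hasseDelta q + 6 * hasseEps q := by
  have h2 : ¬ 2 ∣ q := by
    intro h
    have := (Nat.prime_dvd_prime_iff_eq Nat.prime_two hq).1 h
    omega
  have h3 : ¬ 3 ∣ q := by
    intro h
    have := (Nat.prime_dvd_prime_iff_eq Nat.prime_three hq).1 h
    omega
  unfold hasseDelta hasseEps
  split_ifs <;> omega

theorem hasseDelta_le (q : ℕ) : hasseDelta q ≤ 2 := by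
  unfold hasseDelta; split_ifs <;> omega

theorem hasseEps_le (q : ℕ) : hasseEps q ≤ 1 := by
  unfold hasseEps; split_ifs <;> omega

/-- **Leaf HASSE.** -/
theorem hasse (q : ℕ) [NeZero q] (hq : q.Prime) (h5 : 5 ≤ q) : HasseStatement q := by
  have : Fact q.Prime := ⟨hq⟩
  have hw := hasse_weight q hq h5
  set δ := hasseDelta q with hδ
  set ε := hasseEps q with hε
  set a := (q - 1) / 12 with ha
  have hk3 : 3 ≤ q - 1 := by omega
  have hev : Even (q - 1) := by
    have h2 : ¬ 2 ∣ q := by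
      intro h
      have := (Nat.prime_dvd_prime_iff_eq Nat.prime_two hq).1 h
      omega
    exact ⟨(q - 1) / 2, by omega⟩
  have hkZ : ((q - 1 : ℕ) : ℤ) = 12 * (a : ℤ) + 4 * (δ : ℤ) + 6 * (ε : ℤ) := by
    exact_mod_cast hw
  obtain ⟨F, hF⟩ := exists_intPoly_of_form δ ε a (hasseDelta_le q) (hasseEps_le q) hkZ
    (E hk3) _ (eisNum q) (eisNum_map_C q hq h5 hk3 hev)
  set ψ := coeffMap (Int.castRingHom (ZMod q)) with hψ
  set n : ZMod q := (((bernoulli (q - 1)).num : ℤ) : ZMod q) with hn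
  have hn0 : n ≠ 0 := by
    rw [hn, Ne, ZMod.intCast_zmod_eq_zero_iff_dvd]
    exact not_dvd_bernoulli_num q hq (by omega)
  set A := ψ aZ with hA
  set B := ψ bZ with hB
  set D := deltaL (ZMod q) with hD
  set Dinv := deltaInvL (ZMod q) with hDinv
  set J := jqModC (ZMod q) with hJ
  set Φ := Polynomial.aeval J (F.map (Int.castRingHom (ZMod q))) with hΦ
  have hDD : D * Dinv = 1 := h88_deltaL_mul_deltaInvL (ZMod q)
  have hA3 : A ^ 3 = J * D := by
    have h := congrArg ψ j_mul_delta_Z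
    rw [map_mul, map_pow, hψ, coeffMap_jqModC, h88_coeffMap_deltaL] at h
    exact h.symm
  have hB2 : B ^ 2 = (J - 1728) * D := by
    have h := congrArg ψ sq_eq_Z
    rw [map_mul, map_pow, map_sub, map_ofNat, hψ, coeffMap_jqModC, h88_coeffMap_deltaL] at h
    exact h
  have hav : ψ (Polynomial.aeval (jqModC ℤ) F) = Φ := by
    rw [hψ, Polynomial.map_aeval_eq_aeval_map (φ := Int.castRingHom (ZMod q))
      (RingHom.ext_int _ _), coeffMap_jqModC]
  have h0 : HahnSeries.ofPowerSeries ℤ (ZMod q) (PowerSeries.C n) = A ^ δ * B ^ ε * D ^ a * Φ := by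
    have h := congrArg ψ hF
    rw [map_mul, map_mul, map_mul, map_pow, map_pow, map_pow, hav] at h
    have h' : ψ (HahnSeries.ofPowerSeries ℤ ℤ (eisNum q)) =
        HahnSeries.ofPowerSeries ℤ (ZMod q) (PowerSeries.C n) := by
      rw [hψ, coeffMap_ofPowerSeries, eisNum_map_zmod q hq (by omega)]
    have h'' : ψ (deltaL ℤ) = D := h88_coeffMap_deltaL _
    rw [h', h''] at h
    exact h
  set c := HahnSeries.ofPowerSeries ℤ (ZMod q) (PowerSeries.C n) with hc
  set cinv := HahnSeries.ofPowerSeries ℤ (ZMod q) (PowerSeries.C n⁻¹) with hcinv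
  have hcc : c * cinv = 1 := by
    rw [hc, hcinv, ← map_mul, ← map_mul, mul_inv_cancel₀ hn0, map_one, map_one]
  have e1 : c ^ 12 = J ^ (4 * δ) * (J - 1728) ^ (6 * ε) * D ^ (q - 1) * Φ ^ 12 := by
    rw [h0, hw]
    calc (A ^ δ * B ^ ε * D ^ a * Φ) ^ 12
        = (A ^ 3) ^ (4 * δ) * (B ^ 2) ^ (6 * ε) * D ^ (12 * a) * Φ ^ 12 := by ring
      _ = (J * D) ^ (4 * δ) * ((J - 1728) * D) ^ (6 * ε) * D ^ (12 * a) * Φ ^ 12 := by
          rw [hA3, hB2]
      _ = _ := by
          rw [mul_pow, mul_pow]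
          generalize J - 1728 = X
          ring
  refine ⟨Polynomial.C n⁻¹ * F.map (Int.castRingHom (ZMod q)), ?_⟩
  have hΨ : Polynomial.aeval J (Polynomial.C n⁻¹ * F.map (Int.castRingHom (ZMod q))) =
      cinv * Φ := by
    rw [map_mul, Polynomial.aeval_C]
    rfl
  rw [hΨ]
  calc Dinv ^ (q - 1) = Dinv ^ (q - 1) * (c * cinv) ^ 12 := by rw [hcc, one_pow, mul_one]
    _ = Dinv ^ (q - 1) * c ^ 12 * cinv ^ 12 := by ring
    _ = (D * Dinv) ^ (q - 1) * (J ^ (4 * δ) * (J - 1728) ^ (6 * ε) * (cinv * Φ) ^ 12) := by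
        rw [e1]; ring
    _ = J ^ (4 * δ) * (J - 1728) ^ (6 * ε) * (cinv * Φ) ^ 12 := by
        rw [hDD, one_pow, one_mul]

/-- `coeffMap` commutes with `aeval` (coefficient ring hom `φ : R →+* S`). -/
theorem coeffMap_aeval {R S : Type*} [CommRing R] [CommRing S] (φ : R →+* S)
    (y : LaurentSeries R) (f : Polynomial R) :
    coeffMap φ (Polynomial.aeval y f) = Polynomial.aeval (coeffMap φ y) (f.map φ) := by
  refine Polynomial.map_aeval_eq_aeval_map (φ := φ) (ψ := coeffMap φ) ?_ f y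
  ext r : 1
  show algebraMap S (LaurentSeries S) (φ r) = coeffMap φ (algebraMap R (LaurentSeries R) r)
  rw [HahnSeries.algebraMap_apply', HahnSeries.algebraMap_apply', coeffMap_ofPowerSeries,
    PowerSeries.algebraMap_apply, PowerSeries.algebraMap_apply, PowerSeries.map_C]
  rfl

/-- **Leaf HASSE**, in the consumed form (any field of characteristic `q`). -/
theorem hasse_field (q : ℕ) [NeZero q] (hq : q.Prime) (h5 : 5 ≤ q) (k : Type) [Field k]
    [CharP k q] : HasseStatementField q k := by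
  obtain ⟨f, hf⟩ := hasse q hq h5
  set φ : ZMod q →+* k := ZMod.castHom (dvd_refl q) k with hφ
  refine ⟨f.map φ, ?_⟩
  have h := congrArg (coeffMap φ) hf
  rw [map_pow, map_mul, map_mul, map_pow, map_pow, map_pow, map_sub, map_ofNat,
    coeffMap_aeval, coeffMap_jqModC, h88_coeffMap_deltaInvL] at h
  exact h

end Fermat.Agent.S36.Reg.H968

end

end
-- ===== PACK-END S36/Reg/H968/Hasse.lean

-- ===== PACK-BEGIN S27/H443/FFAlgLeaf.lean
section



/-!
# Row S27, leaf FF-ALG: hand-in in the exact form of `Stmt.FFAlg`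

`ffAlg K F : Stmt.FFAlg K F` (the frozen leaf of `Fermat/Agent/S27/Spec.lean`).
The characteristic zero hypothesis of the leaf is not used.

Author: helper443.
-/

set_option autoImplicit false

universe u

namespace Fermat.Agent.S27.H443

open Fermat.Agent.S25 AlgebraicCurve

/-- **FF-ALG** (leaf of row S27): a function field of a curve has a curve chart. -/
theorem ffAlg (K F : Type u) [Field K] [Field F] [Algebra K F] : Stmt.FFAlg K F := by
  intro _ _ _ _
  obtain ⟨B₀, B₁, B₀₁, _, _, _, _, _, _, _, _, _, _, x, y, e, j₀, j₁, j₀₁, hchart, h₀, h₁,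
    hj₀, -, hj₀₁, hfrac, -⟩ := ffalg_of_isCurveOver K F
  refine ⟨{ B₀ := B₀, B₁ := B₁, B₀₁ := B₀₁, x := x, y := y, e := e, isCurveChart := hchart,
            j₀ := j₀, j₁ := j₁, j₀₁ := j₀₁, j₀₁_algebraMap₀ := h₀, j₀₁_algebraMap₁ := h₁,
            isFracMap := ⟨hj₀₁, fun f => ?_⟩ }⟩
  obtain ⟨a, b, hb, hab⟩ := hfrac f
  refine ⟨algebraMap B₀ B₀₁ a, algebraMap B₀ B₀₁ b, ?_, ?_⟩
  · rw [h₀]
    intro h0
    exact hb (hj₀ (by rw [h0, map_zero]))
  · rw [h₀, h₀]
    exact hab

end Fermat.Agent.S27.H443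

end
-- ===== PACK-END S27/H443/FFAlgLeaf.lean

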