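import Mathlib
import Fermat.Agent.Pack.S59C.E5L1
import Fermat.Agent.Pack.S59C.E0L1
import Fermat.Agent.Pack.S59C.E3L3
import Fermat.Agent.Pack.S43GC.G0E16L3
import Fermat.Agent.Pack.S43GC.G0E9L2
import Fermat.Agent.Pack.S43MC.G0E20L0
import Fermat.Agent.Pack.S59C.E5L3
import Fermat.Agent.Pack.S43GC.G0E8L0
import Fermat.Agent.Pack.S43GC.G0E16L1
import Fermat.Agent.Pack.S59C.E5L2
import Fermat.Agent.Pack.S43MC.G0E4L1
import Fermat.Agent.Pack.S44C.G0E6L2
import Fermat.Agent.Pack.S44C.G0E10L3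
import Fermat.Agent.Pack.S44C.G0E19L0
import Fermat.Agent.Pack.S44C.G0E20L1
import Fermat.Agent.Pack.S43C.E0L0
import Fermat.Agent.Pack.S43MC.G0E19L1
import Fermat.Agent.Pack.S43MC.G0E19L3
import Fermat.Agent.Pack.S59C.E5L0

set_option linter.all false

-- ===== PACK-BEGIN S59/H585/IntPD.lean
section
/-
S59 / non-minimal engine (helper585): INTEGRAL POINCARÉ DUALITY for the cuspidal classes of a
subgroup `Γ ≤ SL(2,ℤ)` of finite index with `-1 ∈ Γ`.

Built on the Manin pairing of row S41 (`Fermat.Agent.S41.Spec.maninPairing`, block PD).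

* `cuspSub R Γ A`            : the cuspidal classes `Γ → A` as an `R`-submodule of `Hom(Γ, A)`;
* `maninPairing_add_left`, `maninPairing_smul_left`, `maninPairing_skew` (any commutative ring);
* `maninPairing_map`         : compatibility with base change along a ring homomorphism;
* `exists_lift`              : cuspidal classes mod `p` lift to `ℤ` (any `Γ`);
* `exists_eq_smul_of_cast_eq_zero` : `C_Γ(ℤ)` is saturated in `Hom(Γ, ℤ)`;
* `intPairing`               : the `ℤ`-bilinear Manin pairing on `C_Γ(ℤ)`;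
* `intPairing_bijective`     : it is PERFECT (unimodular): `C_Γ(ℤ) ≃ Hom_ℤ(C_Γ(ℤ), ℤ)`.
-/



set_option autoImplicit false

namespace Fermat.Agent.S59.H585

open CongruenceSubgroup Matrix.SpecialLinearGroup ModularCurve.Period ModularGroup
open Fermat.Agent.S41.Spec
open scoped MatrixGroups

/-! ## Unconditional assembly statements of block PD (general `Γ`) -/

/-- (A1) the pairing is computed by any representatives. -/
theorem pairingEq : ManinPairingEqStatement.{0} :=
  Fermat.Agent.S41.H221.maninPairingEq Fermat.Agent.S41.H460.maninRepZero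
    Fermat.Agent.S41.H460.maninRepLinear Fermat.Agent.S41.H585.maninRepParabolic
    Fermat.Agent.S41.H281.maninSkew

/-- (A2) bilinear, skew-symmetric, nondegenerate over fields. -/
theorem pairingPD : ManinPairingPDStatement.{0} :=
  Fermat.Agent.S41.H221.maninPairingPD pairingEq Fermat.Agent.S41.H460.maninRepExists
    Fermat.Agent.S41.H460.maninRepInvariant Fermat.Agent.S41.H460.maninRepLinear
    Fermat.Agent.S41.H585.maninRepRealize Fermat.Agent.S41.H585.maninRepTorsionU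
    Fermat.Agent.S41.H585.maninRepParabolic Fermat.Agent.S41.H281.maninPerp
    Fermat.Agent.S41.H281.maninSkew Fermat.Agent.S41.H281.maninParDataOf

/-! ## Cuspidal classes -/

section Cusp

variable {Γ : Subgroup SL(2, ℤ)}

/-- The cuspidal classes `Γ → A` as a submodule of `Hom(Γ, A)`. -/
def cuspSub (R : Type*) [Semiring R] (Γ : Subgroup SL(2, ℤ)) (A : Type*) [AddCommGroup A]
    [Module R A] : Submodule R (Additive Γ →+ A) where
  carrier := {φ | IsCuspidalOn Γ φ}
  zero_mem' := ⟨fun _ _ => rfl, fun _ _ => rfl⟩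
  add_mem' := by
    intro φ ψ hφ hψ
    refine ⟨fun γ hγ => ?_, fun γ hγ => ?_⟩
    · show φ (Additive.ofMul γ) + ψ (Additive.ofMul γ) = 0
      rw [hφ.1 γ hγ, hψ.1 γ hγ, add_zero]
    · show φ (Additive.ofMul γ) + ψ (Additive.ofMul γ) = 0
      rw [hφ.2 γ hγ, hψ.2 γ hγ, add_zero]
  smul_mem' := by
    intro c φ hφ
    refine ⟨fun γ hγ => ?_, fun γ hγ => ?_⟩
    · show c • φ (Additive.ofMul γ) = 0
      rw [hφ.1 γ hγ, smul_zero]
    · show c • φ (Additive.ofMul γ) = 0
      rw [hφ.2 γ hγ, smul_zero]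

theorem mem_cuspSub {R : Type*} [Semiring R] {A : Type*} [AddCommGroup A] [Module R A]
    {φ : Additive Γ →+ A} : φ ∈ cuspSub R Γ A ↔ IsCuspidalOn Γ φ := Iff.rfl

theorem isCuspidalOn_comp {A B : Type*} [AddCommGroup A] [AddCommGroup B] (π : A →+ B)
    {φ : Additive Γ →+ A} (hφ : IsCuspidalOn Γ φ) : IsCuspidalOn Γ (π.comp φ) := by
  refine ⟨fun γ hγ => ?_, fun γ hγ => ?_⟩
  · show π (φ (Additive.ofMul γ)) = 0
    rw [hφ.1 γ hγ, map_zero]
  · show π (φ (Additive.ofMul γ)) = 0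
    rw [hφ.2 γ hγ, map_zero]

theorem isCuspidalOn_add {A : Type*} [AddCommGroup A] {φ ψ : Additive Γ →+ A}
    (hφ : IsCuspidalOn Γ φ) (hψ : IsCuspidalOn Γ ψ) : IsCuspidalOn Γ (φ + ψ) :=
  (cuspSub ℤ Γ A).add_mem hφ hψ

theorem isParData_map {A B : Type*} [AddCommGroup A] [AddCommGroup B] (π : A →+ B)
    {m e : SL(2, ℤ) ⧸ Γ → A} (h : IsParData Γ m e) :
    IsParData Γ (fun x => π (m x)) (fun x => π (e x)) := by
  intro x
  show π (e (T • x)) - π (e x) = π (m ((S * T) • x)) - π (m x)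
  rw [← map_sub, ← map_sub, h x]

variable [Γ.FiniteIndex]

instance finite_quot : Finite (SL(2, ℤ) ⧸ Γ) := Subgroup.finite_quotient_of_finiteIndex

/-- Manin representative and parabolic data of a cuspidal class. -/
theorem exists_reps (hneg : (-1 : SL(2, ℤ)) ∈ Γ) {A : Type} [AddCommGroup A]
    {φ : Additive Γ →+ A} (hφ : IsCuspidalOn Γ φ) :
    ∃ m e : SL(2, ℤ) ⧸ Γ → A, IsManinRep Γ φ m ∧ IsParData Γ m e := by
  obtain ⟨m, hm⟩ := Fermat.Agent.S41.H460.maninRepExists Γ hneg A φ hφ.2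
  obtain ⟨e, he⟩ := (Fermat.Agent.S41.H585.maninRepParabolic Γ hneg A φ m hm).mp hφ.1
  exact ⟨m, e, hm, he⟩

/-- A class with a Manin representative admitting parabolic data is cuspidal. -/
theorem isCuspidalOn_of_reps (hneg : (-1 : SL(2, ℤ)) ∈ Γ) {A : Type} [AddCommGroup A]
    {φ : Additive Γ →+ A} {m e : SL(2, ℤ) ⧸ Γ → A} (hm : IsManinRep Γ φ m)
    (he : IsParData Γ m e) : IsCuspidalOn Γ φ :=
  ⟨(Fermat.Agent.S41.H585.maninRepParabolic Γ hneg A φ m hm).mpr ⟨e, he⟩,
    Fermat.Agent.S41.H585.maninRepTorsionU Γ hneg A φ m hm⟩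

end Cusp

/-! ## The pairing over a commutative ring -/

section Pairing

variable {Γ : Subgroup SL(2, ℤ)} [Γ.FiniteIndex] {R : Type} [CommRing R]

theorem maninPairing_eq_form (hneg : (-1 : SL(2, ℤ)) ∈ Γ) {φ ψ : Additive Γ →+ R}
    (hφ : IsCuspidalOn Γ φ) {m m' e' : SL(2, ℤ) ⧸ Γ → R} (hm : IsManinRep Γ φ m)
    (hm' : IsManinRep Γ ψ m') (he' : IsParData Γ m' e') :
    maninPairing Γ φ ψ = maninForm Γ m e' :=
  pairingEq Γ hneg R φ ψ m m' e' hφ.1 hm hm' he'

theorem maninPairing_add_left (hneg : (-1 : SL(2, ℤ)) ∈ Γ) {φ φ' ψ : Additive Γ →+ R}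
    (hφ : IsCuspidalOn Γ φ) (hφ' : IsCuspidalOn Γ φ') (hψ : IsCuspidalOn Γ ψ) :
    maninPairing Γ (φ + φ') ψ = maninPairing Γ φ ψ + maninPairing Γ φ' ψ := by
  obtain ⟨m, e, hm, -⟩ := exists_reps hneg hφ
  obtain ⟨m', e', hm', -⟩ := exists_reps hneg hφ'
  obtain ⟨n, f, hn, hf⟩ := exists_reps hneg hψ
  have hsum := (Fermat.Agent.S41.H460.maninRepLinear Γ R R (AddMonoidHom.id R) φ φ' m m' hm hm').1
  rw [maninPairing_eq_form hneg (isCuspidalOn_add hφ hφ') hsum hn hf,
    maninPairing_eq_form hneg hφ hm hn hf, maninPairing_eq_form hneg hφ' hm' hn hf,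
    Fermat.Agent.S41.H221.maninForm_add_left]

omit [Γ.FiniteIndex] in
theorem isManinRep_smul (c : R) {φ : Additive Γ →+ R} {m : SL(2, ℤ) ⧸ Γ → R}
    (hm : IsManinRep Γ φ m) : IsManinRep Γ (c • φ) (fun x => c * m x) := by
  have h := (Fermat.Agent.S41.H460.maninRepLinear Γ R R (AddMonoidHom.mulLeft c) φ φ m m hm hm).2.2
  have e1 : (AddMonoidHom.mulLeft c).comp φ = c • φ := by
    ext γ
    simp
  rw [e1] at h
  exact h

theorem maninPairing_smul_left (hneg : (-1 : SL(2, ℤ)) ∈ Γ) (c : R) {φ ψ : Additive Γ →+ R}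
    (hφ : IsCuspidalOn Γ φ) (hψ : IsCuspidalOn Γ ψ) :
    maninPairing Γ (c • φ) ψ = c * maninPairing Γ φ ψ := by
  obtain ⟨m, e, hm, -⟩ := exists_reps hneg hφ
  obtain ⟨n, f, hn, hf⟩ := exists_reps hneg hψ
  have hc : IsCuspidalOn Γ (c • φ) := (cuspSub R Γ R).smul_mem c hφ
  rw [maninPairing_eq_form hneg hc (isManinRep_smul c hm) hn hf,
    maninPairing_eq_form hneg hφ hm hn hf, Fermat.Agent.S41.H221.maninForm_mul_left]

theorem maninPairing_skew (hneg : (-1 : SL(2, ℤ)) ∈ Γ) {φ ψ : Additive Γ →+ R}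
    (hφ : IsCuspidalOn Γ φ) (hψ : IsCuspidalOn Γ ψ) :
    maninPairing Γ ψ φ = - maninPairing Γ φ ψ := by
  obtain ⟨m, e, hm, he⟩ := exists_reps hneg hφ
  obtain ⟨n, f, hn, hf⟩ := exists_reps hneg hψ
  rw [maninPairing_eq_form hneg hψ hn hm he, maninPairing_eq_form hneg hφ hm hn hf]
  exact Fermat.Agent.S41.H221.maninForm_skew Fermat.Agent.S41.H281.maninSkew hneg m e n f he hf

theorem maninPairing_add_right (hneg : (-1 : SL(2, ℤ)) ∈ Γ) {φ ψ ψ' : Additive Γ →+ R}
    (hφ : IsCuspidalOn Γ φ) (hψ : IsCuspidalOn Γ ψ) (hψ' : IsCuspidalOn Γ ψ') :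
    maninPairing Γ φ (ψ + ψ') = maninPairing Γ φ ψ + maninPairing Γ φ ψ' := by
  have h1 := maninPairing_skew hneg (isCuspidalOn_add hψ hψ') hφ
  have h2 := maninPairing_skew hneg hψ hφ
  have h3 := maninPairing_skew hneg hψ' hφ
  have h4 := maninPairing_add_left hneg hψ hψ' hφ
  rw [h1, h2, h3, h4]
  ring

theorem maninPairing_smul_right (hneg : (-1 : SL(2, ℤ)) ∈ Γ) (c : R) {φ ψ : Additive Γ →+ R}
    (hφ : IsCuspidalOn Γ φ) (hψ : IsCuspidalOn Γ ψ) :
    maninPairing Γ φ (c • ψ) = c * maninPairing Γ φ ψ := by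
  have hc : IsCuspidalOn Γ (c • ψ) := (cuspSub R Γ R).smul_mem c hψ
  have h1 := maninPairing_skew hneg hc hφ
  have h2 := maninPairing_skew hneg hψ hφ
  have h3 := maninPairing_smul_left hneg c hψ hφ
  rw [h1, h2, h3]
  ring

/-- The Manin form commutes with ring homomorphisms. -/
theorem maninForm_map {R' : Type} [CommRing R'] (π : R →+* R') (m e : SL(2, ℤ) ⧸ Γ → R) :
    maninForm Γ (fun x => π (m x)) (fun x => π (e x)) = π (maninForm Γ m e) := by
  have : Fintype (SL(2, ℤ) ⧸ Γ) := Fintype.ofFinite _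
  rw [maninForm_eq_sum, maninForm_eq_sum, map_sum]
  refine Finset.sum_congr rfl fun x _ => ?_
  rw [map_mul, map_sub]

/-- **Base change**: the pairing commutes with ring homomorphisms. -/
theorem maninPairing_map (hneg : (-1 : SL(2, ℤ)) ∈ Γ) {R' : Type} [CommRing R'] (π : R →+* R')
    {φ ψ : Additive Γ →+ R} (hφ : IsCuspidalOn Γ φ) (hψ : IsCuspidalOn Γ ψ) :
    maninPairing Γ (π.toAddMonoidHom.comp φ) (π.toAddMonoidHom.comp ψ) =
      π (maninPairing Γ φ ψ) := by
  obtain ⟨m, e, hm, -⟩ := exists_reps hneg hφ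
  obtain ⟨n, f, hn, hf⟩ := exists_reps hneg hψ
  have hm' := (Fermat.Agent.S41.H460.maninRepLinear Γ R R' π.toAddMonoidHom φ φ m m hm hm).2.2
  have hn' := (Fermat.Agent.S41.H460.maninRepLinear Γ R R' π.toAddMonoidHom ψ ψ n n hn hn).2.2
  have hf' := isParData_map (Γ := Γ) π.toAddMonoidHom hf
  rw [maninPairing_eq_form hneg (isCuspidalOn_comp π.toAddMonoidHom hφ) hm' hn' hf',
    maninPairing_eq_form hneg hφ hm hn hf]
  exact maninForm_map π m f

end Pairing

/-! ## Lifting and saturation -/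

section Lift

variable {Γ : Subgroup SL(2, ℤ)} [Γ.FiniteIndex]

/-- **LIFT** for any `Γ`: cuspidal classes mod `p` lift to cuspidal classes over `ℤ`. -/
theorem exists_lift (hneg : (-1 : SL(2, ℤ)) ∈ Γ) (p : ℕ) {xbar : Additive Γ →+ ZMod p}
    (hxbar : IsCuspidalOn Γ xbar) :
    ∃ x : Additive Γ →+ ℤ, IsCuspidalOn Γ x ∧ (Int.castAddHom (ZMod p)).comp x = xbar := by
  obtain ⟨mbar, ebar, hmbar, hebar⟩ := exists_reps hneg hxbar
  obtain ⟨m, e, hme, hm, -⟩ := Fermat.Agent.S41.H281.parDataLift Γ p mbar ebar hebar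
  obtain ⟨x, hx⟩ := Fermat.Agent.S41.H585.maninRepRealize Γ hneg ℤ m
  refine ⟨x, isCuspidalOn_of_reps hneg hx hme, ?_⟩
  have hred : IsManinRep Γ ((Int.castAddHom (ZMod p)).comp x)
      (fun y => (Int.castAddHom (ZMod p)) (m y)) :=
    (Fermat.Agent.S41.H460.maninRepLinear Γ ℤ (ZMod p) (Int.castAddHom (ZMod p)) x x m m hx hx).2.2
  have hmb : (fun y => (Int.castAddHom (ZMod p)) (m y)) = mbar := by
    funext y
    exact hm y
  rw [hmb] at hred
  have hdiff := (Fermat.Agent.S41.H460.maninRepLinear Γ (ZMod p) (ZMod p) (AddMonoidHom.id _)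
    ((Int.castAddHom (ZMod p)).comp x) xbar mbar mbar hred hmbar).2.1
  rw [sub_self] at hdiff
  have hzero : IsInvariantSum Γ (0 : SL(2, ℤ) ⧸ Γ → ZMod p) :=
    ⟨0, 0, fun _ => rfl, fun _ => rfl, by simp⟩
  have := Fermat.Agent.S41.H460.maninRepInvariant Γ hneg (ZMod p) _ 0 hdiff hzero
  exact sub_eq_zero.mp this

omit [Γ.FiniteIndex] in
/-- **Saturation**: a cuspidal class over `ℤ` which vanishes mod `p` is `p` times a cuspidal
class. -/
theorem exists_eq_smul_of_cast_eq_zero {p : ℕ} (hp : p ≠ 0) {x : Additive Γ →+ ℤ}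
    (hx : IsCuspidalOn Γ x) (h0 : (Int.castAddHom (ZMod p)).comp x = 0) :
    ∃ x' : Additive Γ →+ ℤ, IsCuspidalOn Γ x' ∧ x = (p : ℤ) • x' := by
  have hp' : (p : ℤ) ≠ 0 := by exact_mod_cast hp
  have hdvd : ∀ g : Additive Γ, (p : ℤ) ∣ x g := by
    intro g
    have := DFunLike.congr_fun h0 g
    exact (ZMod.intCast_zmod_eq_zero_iff_dvd _ _).mp this
  let x' : Additive Γ →+ ℤ :=
    { toFun := fun g => x g / p
      map_zero' := by rw [map_zero]; exact Int.zero_ediv _
      map_add' := fun g g' => by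
        rw [map_add]
        exact Int.add_ediv_of_dvd_left (hdvd g) }
  have hx' : ∀ g, x g = (p : ℤ) * x' g := fun g => (Int.mul_ediv_cancel' (hdvd g)).symm
  refine ⟨x', ⟨fun γ hγ => ?_, fun γ hγ => ?_⟩, ?_⟩
  · have := hx.1 γ hγ
    rw [hx'] at this
    exact (mul_eq_zero.mp this).resolve_left hp'
  · have := hx.2 γ hγ
    rw [hx'] at this
    exact (mul_eq_zero.mp this).resolve_left hp'
  · refine AddMonoidHom.ext fun g => ?_
    show x g = (p : ℤ) • x' g
    rw [smul_eq_mul]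
    exact hx' g

end Lift

/-! ## The integral pairing is perfect -/

section Perfect

variable (Γ : Subgroup SL(2, ℤ)) [Γ.FiniteIndex]

/-- `C_Γ(ℤ)` is a finite free `ℤ`-module. -/
theorem cuspSub_finite_free : Module.Finite ℤ (cuspSub ℤ Γ ℤ) ∧ Module.Free ℤ (cuspSub ℤ Γ ℤ) := by
  have : Group.FG SL(2, ℤ) :=
    Group.fg_iff.mpr ⟨{S, T}, _root_.SpecialLinearGroup.SL2Z_generators, Set.toFinite _⟩
  have : Group.FG Γ := Subgroup.fg_of_index_ne_zero Γ
  exact Fermat.Agent.S41.H585.finite_free_of_fg Γ (cuspSub ℤ Γ ℤ)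

instance cuspSub_finite : Module.Finite ℤ (cuspSub ℤ Γ ℤ) := (cuspSub_finite_free Γ).1

instance cuspSub_free : Module.Free ℤ (cuspSub ℤ Γ ℤ) := (cuspSub_finite_free Γ).2

variable {Γ}

/-- **The integral Manin pairing** on the cuspidal classes. -/
noncomputable def intPairing (hneg : (-1 : SL(2, ℤ)) ∈ Γ) :
    cuspSub ℤ Γ ℤ →ₗ[ℤ] cuspSub ℤ Γ ℤ →ₗ[ℤ] ℤ :=
  LinearMap.mk₂ ℤ (fun x y => maninPairing Γ (x : Additive Γ →+ ℤ) (y : Additive Γ →+ ℤ))
    (fun x x' y => maninPairing_add_left hneg x.2 x'.2 y.2)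
    (fun c x y => maninPairing_smul_left hneg c x.2 y.2)
    (fun x y y' => maninPairing_add_right hneg x.2 y.2 y'.2)
    (fun c x y => maninPairing_smul_right hneg c x.2 y.2)

@[simp] theorem intPairing_apply (hneg : (-1 : SL(2, ℤ)) ∈ Γ) (x y : cuspSub ℤ Γ ℤ) :
    intPairing hneg x y = maninPairing Γ (x : Additive Γ →+ ℤ) (y : Additive Γ →+ ℤ) := rfl

theorem intPairing_skew (hneg : (-1 : SL(2, ℤ)) ∈ Γ) (x y : cuspSub ℤ Γ ℤ) :
    intPairing hneg y x = - intPairing hneg x y :=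
  maninPairing_skew hneg x.2 y.2

/-- The radical of the integral pairing modulo `p` is `p · C_Γ(ℤ)`. -/
theorem radical_mod_prime (hneg : (-1 : SL(2, ℤ)) ∈ Γ) (p : ℕ) (hp : p.Prime)
    (x : cuspSub ℤ Γ ℤ) (h : ∀ y : cuspSub ℤ Γ ℤ, (p : ℤ) ∣ intPairing hneg y x) :
    ∃ x' : cuspSub ℤ Γ ℤ, x = (p : ℤ) • x' := by
  have : Fact p.Prime := ⟨hp⟩
  set π : ℤ →+* ZMod p := Int.castRingHom (ZMod p) with hπ
  have hxbar : IsCuspidalOn Γ (π.toAddMonoidHom.comp (x : Additive Γ →+ ℤ)) :=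
    isCuspidalOn_comp _ x.2
  -- the reduction of `x` is in the radical of the pairing mod `p`
  have hrad : ∀ ybar : Additive Γ →+ ZMod p, IsCuspidalOn Γ ybar →
      maninPairing Γ (π.toAddMonoidHom.comp (x : Additive Γ →+ ℤ)) ybar = 0 := by
    intro ybar hybar
    obtain ⟨y, hy, rfl⟩ := exists_lift hneg p hybar
    have h1 := maninPairing_map hneg π hy x.2
    have h2 := maninPairing_skew hneg (isCuspidalOn_comp π.toAddMonoidHom hy) hxbar
    have h3 : π (maninPairing Γ y (x : Additive Γ →+ ℤ)) = 0 :=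
      (ZMod.intCast_zmod_eq_zero_iff_dvd _ _).mpr (h ⟨y, hy⟩)
    show maninPairing Γ (π.toAddMonoidHom.comp (x : Additive Γ →+ ℤ))
      (π.toAddMonoidHom.comp y) = 0
    rw [h2, h1, h3, neg_zero]
  have hzero := (pairingPD Γ hneg (ZMod p)).2.2.2 _ hxbar hrad
  obtain ⟨x', hx', hxx'⟩ := exists_eq_smul_of_cast_eq_zero hp.ne_zero x.2 hzero
  exact ⟨⟨x', hx'⟩, Subtype.ext hxx'⟩

/-- **Integral Poincaré duality**: the Manin pairing on `C_Γ(ℤ)` is perfect. -/
theorem intPairing_bijective (hneg : (-1 : SL(2, ℤ)) ∈ Γ) :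
    Function.Bijective (intPairing hneg) :=
  bijective_of_radical_mod_primes (intPairing hneg) (radical_mod_prime hneg)

theorem intPairing_flip_bijective (hneg : (-1 : SL(2, ℤ)) ∈ Γ) :
    Function.Bijective (intPairing hneg).flip := by
  have h : (intPairing hneg).flip = - intPairing hneg := by
    ext x y
    exact intPairing_skew hneg x y
  rw [h]
  exact (Equiv.neg _).bijective.comp (intPairing_bijective hneg)

end Perfect

end Fermat.Agent.S59.H585

end
-- ===== PACK-END S59/H585/IntPD.lean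

-- ===== PACK-BEGIN S59/H585/IntPDHecke.lean
section
/-
S59 / non-minimal engine (helper585): the INTEGRAL Manin pairing on `Γ₀(n)` and the maps of row S41.

For the pairing `maninPairing (Gamma0 n)` on cuspidal classes with coefficients `ℤ`
(perfect by `IntPD.lean`):

* `pairing_adj_field`   : over a field, `B(r_i x, y) = B(x, t_i y)`  (explicit pairing; replay of
                          `S41.H221.pd_of_asm`);
* `pairing_adj_int`     : the same over `ℤ`;
* `pairing_hecke_int`   : `B(T_l x, y) = B(x, T_l y)` over `ℤ`;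
* `gamma0Pairing n`     : the bilinear pairing on `Spec.cuspidalSubmodule ℤ n ℤ`, with
  `gamma0Pairing_bijective`, `gamma0Pairing_skew`.
-/



set_option autoImplicit false

namespace Fermat.Agent.S59.H585

open CongruenceSubgroup Matrix.SpecialLinearGroup ModularCurve.Period ModularGroup
open Fermat.Agent.S29.H642 Fermat.Agent.S41.Spec
open scoped MatrixGroups

/-! ## Unconditional assembly statements A3, A4, A5 -/

theorem pairingResCores : ManinPairingResCoresStatement.{0} :=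
  Fermat.Agent.S41.H221.maninPairingResCores pairingEq Fermat.Agent.S41.H460.maninRepExists
    Fermat.Agent.S41.H585.maninRepParabolic Fermat.Agent.S41.H232.maninRepRes
    Fermat.Agent.S41.H232.maninRepCores Fermat.Agent.S41.H232.maninFormAdjoint

theorem pairingBeta : ManinPairingBetaStatement.{0} :=
  Fermat.Agent.S41.H221.maninPairingBeta pairingEq Fermat.Agent.S41.H460.maninRepExists
    Fermat.Agent.S41.H585.maninRepParabolic Fermat.Agent.S41.H945.heisLift
    Fermat.Agent.S41.H874.cuspSumZero_h874 Fermat.Agent.S41.H769.tOrbitSystemExists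
    Fermat.Agent.S41.H769.tOrbitCusp Fermat.Agent.S41.H769.cuspSumIndep

theorem pairingConjDelta : ManinPairingConjDeltaStatement.{0} :=
  Fermat.Agent.S41.H221.maninPairingConjDelta pairingBeta Fermat.Agent.S41.H460.maninRepExists
    Fermat.Agent.S41.H585.maninRepParabolic Fermat.Agent.S41.H945.heisLift
    Fermat.Agent.S41.H769.tOrbitSystemExists Fermat.Agent.S41.H769.tOrbitCusp
    Fermat.Agent.S41.H769.cuspSystemConjDelta

/-! ## Adjunction over a field, for the explicit pairing -/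

open Fermat.Agent.S41.H221 in
/-- `r_i` is left adjoint to `t_i` for the Manin pairing (fields). -/
theorem pairing_adj_field (F : Type) [Field F] {N q : ℕ} (hN : N ≠ 0) (hq : q.Prime)
    (hqN : ¬ q ∣ N) (x : Additive (Gamma0 N) →+ F) (y : Additive (Gamma0 (N * q)) →+ F)
    (hx : IsCuspidal x) (hy : IsCuspidal y) :
    maninPairing (Gamma0 (N * q)) (r₁ N q x) y = maninPairing (Gamma0 N) x (t₁ N q y) ∧
    maninPairing (Gamma0 (N * q)) (r₂ N q x) y = maninPairing (Gamma0 N) x (t₂ N q y) := by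
  have hA3 := pairingResCores
  have hA5 := pairingConjDelta
  have hTE := Fermat.Agent.S41.H232.transferAlongEquiv.{0}
  have hq0 : q ≠ 0 := hq.ne_zero
  have hFI : (Gamma0 N).FiniteIndex := finiteIndex_gamma0 hN
  have hFI' : (Gamma0 (N * q)).FiniteIndex := finiteIndex_gamma0 (Nat.mul_ne_zero hN hq0)
  have hFI'' : (gamma0Delta N q).FiniteIndex := finiteIndex_gamma0Delta hN hq0
  constructor
  · exact hA3 (Gamma0 (N * q)) (Gamma0 N) (gamma0_mul_le N q) (neg_one_mem_gamma0 _) F x y hx hy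
  · set e := conjDeltaEquiv N q hq0 with he
    have hr₂ : r₂ N q x = (x.comp (MonoidHom.toAdditive
        (Subgroup.inclusion (gamma0Delta_le N q)))).comp
          (MonoidHom.toAdditive (conjDeltaR N q)) := by
      unfold r₂
      rw [← inclusion_comp_conjDeltaR]
      rfl
    have hy' : y = (y.comp (MonoidHom.toAdditive e.symm.toMonoidHom)).comp
        (MonoidHom.toAdditive (conjDeltaR N q)) := by
      ext γ
      show y (Additive.ofMul γ) = y (Additive.ofMul (e.symm (conjDeltaR N q γ)))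
      rw [← conjDeltaEquiv_apply N q hq0, ← he, MulEquiv.symm_apply_apply]
    have ht₂ : t₂ N q y = transferAlong (Subgroup.inclusion (gamma0Delta_le N q))
        (y.comp (MonoidHom.toAdditive e.symm.toMonoidHom)) := by
      unfold t₂
      rw [← hTE (Gamma0 (N * q)) (gamma0Delta N q) (Gamma0 N) e
        (Subgroup.inclusion (gamma0Delta_le N q)) F y]
      rfl
    rw [hr₂, ht₂]
    conv_lhs => rw [hy']
    rw [hA5 N q hN hq hqN F _ _ (isCuspidalOn_res (gamma0Delta_le N q) x hx)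
      (isCuspidalOn_comp_symm hq0 y hy)]
    exact hA3 (gamma0Delta N q) (Gamma0 N) (gamma0Delta_le N q) (neg_one_mem_gamma0Delta N q) F
      x _ hx (isCuspidalOn_comp_symm hq0 y hy)

/-! ## Over `ℤ` -/

section Int

variable {N q : ℕ}

theorem finiteIndex_Gamma0' {n : ℕ} (hn : n ≠ 0) : (Gamma0 n).FiniteIndex :=
  Fermat.Agent.S41.H221.finiteIndex_gamma0 hn

theorem neg_one_mem_Gamma0' (n : ℕ) : (-1 : SL(2, ℤ)) ∈ Gamma0 n :=
  Fermat.Agent.S41.H221.neg_one_mem_gamma0 n

/-- The cast `ℤ → ℚ` of the pairing. -/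
theorem cast_pairing {n : ℕ} (hn : n ≠ 0) {x y : Additive (Gamma0 n) →+ ℤ} (hx : IsCuspidal x)
    (hy : IsCuspidal y) :
    ((maninPairing (Gamma0 n) x y : ℤ) : ℚ) =
      maninPairing (Gamma0 n) ((Int.castAddHom ℚ).comp x) ((Int.castAddHom ℚ).comp y) := by
  have := finiteIndex_Gamma0' hn
  exact (maninPairing_map (neg_one_mem_Gamma0' n) (Int.castRingHom ℚ) hx hy).symm

/-- **Adjunction over `ℤ`**: `B(r_i x, y) = B(x, t_i y)`. -/
theorem pairing_adj_int (hN : N ≠ 0) (hq : q.Prime) (hqN : ¬ q ∣ N)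
    (x : Additive (Gamma0 N) →+ ℤ) (y : Additive (Gamma0 (N * q)) →+ ℤ)
    (hx : IsCuspidal x) (hy : IsCuspidal y) :
    maninPairing (Gamma0 (N * q)) (r₁ N q x) y = maninPairing (Gamma0 N) x (t₁ N q y) ∧
    maninPairing (Gamma0 (N * q)) (r₂ N q x) y = maninPairing (Gamma0 N) x (t₂ N q y) := by
  have hNq : N * q ≠ 0 := Nat.mul_ne_zero hN hq.ne_zero
  obtain ⟨hFun, hRC, hTC, -⟩ := Fermat.Agent.S41.H281.hkStatement.{0}
  obtain ⟨hr1, hr2⟩ := hRC N q ℤ x hx
  obtain ⟨ht1, ht2⟩ := hTC N q ℤ y hy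
  set ι : ℤ →+ ℚ := Int.castAddHom ℚ with hι
  have hxQ : IsCuspidal (ι.comp x) := Fermat.Agent.S41.H41.isCuspidal_comp ι hx
  have hyQ : IsCuspidal (ι.comp y) := Fermat.Agent.S41.H41.isCuspidal_comp ι hy
  obtain ⟨a1, a2⟩ := pairing_adj_field ℚ hN hq hqN (ι.comp x) (ι.comp y) hxQ hyQ
  constructor
  · apply Int.cast_injective (α := ℚ)
    rw [cast_pairing hNq hr1 hy, cast_pairing hN hx ht1,
      ← Fermat.Agent.S41.H41.t₁_comp hFun, ← Fermat.Agent.S41.H41.r₁_comp]
    exact a1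
  · apply Int.cast_injective (α := ℚ)
    rw [cast_pairing hNq hr2 hy, cast_pairing hN hx ht2,
      ← Fermat.Agent.S41.H41.t₂_comp hFun, ← Fermat.Agent.S41.H41.r₂_comp]
    exact a2

/-- **Hecke operators are self-adjoint over `ℤ`**. -/
theorem pairing_hecke_int {n l : ℕ} [Fact l.Prime] (hl : ¬ l ∣ n) (hn : n ≠ 0)
    (x y : Additive (Gamma0 n) →+ ℤ) (hx : IsCuspidal x) (hy : IsCuspidal y) :
    maninPairing (Gamma0 n) (heckeTransfer hl x) y =
      maninPairing (Gamma0 n) x (heckeTransfer hl y) := by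
  have hlp : l.Prime := Fact.out
  have hnl : n * l ≠ 0 := Nat.mul_ne_zero hn hlp.ne_zero
  have hFI := finiteIndex_Gamma0' hn
  have hFI' := finiteIndex_Gamma0' hnl
  obtain ⟨-, hRC, -, hHC, -, -, -, hTRH, -⟩ := Fermat.Agent.S41.H281.hkStatement.{0}
  have hTx : IsCuspidal (heckeTransfer hl x) := hHC n l hl ℤ x hx
  obtain ⟨h1x, h2x⟩ := hRC n l ℤ x hx
  obtain ⟨h1y, h2y⟩ := hRC n l ℤ y hy
  obtain ⟨e1x, -⟩ := hTRH n l hl hn ℤ x
  obtain ⟨-, e2y⟩ := hTRH n l hl hn ℤ y
  have a1 := (pairing_adj_int hn hlp hl y (r₂ n l x) hy h2x).1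
  have a2 := (pairing_adj_int hn hlp hl x (r₁ n l y) hx h1y).2
  calc maninPairing (Gamma0 n) (heckeTransfer hl x) y
      = - maninPairing (Gamma0 n) y (heckeTransfer hl x) :=
        maninPairing_skew (neg_one_mem_Gamma0' n) hy hTx
    _ = - maninPairing (Gamma0 n) y (t₁ n l (r₂ n l x)) := by rw [e1x]
    _ = - maninPairing (Gamma0 (n * l)) (r₁ n l y) (r₂ n l x) := by rw [a1]
    _ = maninPairing (Gamma0 (n * l)) (r₂ n l x) (r₁ n l y) := by
        rw [maninPairing_skew (neg_one_mem_Gamma0' (n * l)) h2x h1y, neg_neg]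
    _ = maninPairing (Gamma0 n) x (t₂ n l (r₁ n l y)) := a2
    _ = maninPairing (Gamma0 n) x (heckeTransfer hl y) := by rw [e2y]

/-- The integral pairing on `Spec.cuspidalSubmodule ℤ n ℤ` (`= cuspSub ℤ (Gamma0 n) ℤ`). -/
noncomputable def gamma0Pairing {n : ℕ} (hn : n ≠ 0) :
    cuspidalSubmodule ℤ n ℤ →ₗ[ℤ] cuspidalSubmodule ℤ n ℤ →ₗ[ℤ] ℤ :=
  haveI := finiteIndex_Gamma0' hn
  intPairing (Γ := Gamma0 n) (neg_one_mem_Gamma0' n)

@[simp] theorem gamma0Pairing_apply {n : ℕ} (hn : n ≠ 0) (x y : cuspidalSubmodule ℤ n ℤ) :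
    gamma0Pairing hn x y =
      maninPairing (Gamma0 n) (x : Additive (Gamma0 n) →+ ℤ) (y : Additive (Gamma0 n) →+ ℤ) :=
  rfl

theorem gamma0Pairing_skew {n : ℕ} (hn : n ≠ 0) (x y : cuspidalSubmodule ℤ n ℤ) :
    gamma0Pairing hn y x = - gamma0Pairing hn x y :=
  haveI := finiteIndex_Gamma0' hn
  intPairing_skew (Γ := Gamma0 n) (neg_one_mem_Gamma0' n) x y

/-- **Integral Poincaré duality on `Γ₀(n)`**. -/
theorem gamma0Pairing_bijective {n : ℕ} (hn : n ≠ 0) :
    Function.Bijective (gamma0Pairing hn) :=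
  haveI := finiteIndex_Gamma0' hn
  intPairing_bijective (Γ := Gamma0 n) (neg_one_mem_Gamma0' n)

theorem gamma0Pairing_flip_bijective {n : ℕ} (hn : n ≠ 0) :
    Function.Bijective (gamma0Pairing hn).flip :=
  haveI := finiteIndex_Gamma0' hn
  intPairing_flip_bijective (Γ := Gamma0 n) (neg_one_mem_Gamma0' n)

end Int

end Fermat.Agent.S59.H585

end
-- ===== PACK-END S59/H585/IntPDHecke.lean

-- ===== PACK-BEGIN S56/H664/FlatUnit.lean
section



/-!
# S56 / FLAT-O, piece (FU): unit resolvent = "peu ramifié" (helper664)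

`flatUnit : Fermat.Agent.S56.H906.FlatUnitStatement` (verbatim, unconditional).

Route (no convolution ring, no Galois descent, no discreteness; inertia is not used):
* `span_Qb_eq_top`, `exists_Qb_basis`: a `ℤ_(p)`-basis of the Hopf lattice is a `ℚ̄`-basis of all
  functions `M → ℚ̄` (separation).
* `isIntegral_coord_of_mul`: the coordinates `c_i` of a character `χ` of `M` in that basis span a
  `ℤ_(p)`-module closed under multiplication (structure constants of the comultiplication), so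
  they are integral over `ℤ_(p)`, hence lie in `P`.
* `mem_span_fixedInt` (saturation, first section) applied to the space `W` of coordinate
  vectors of functions `F` with `F(y + t) = χ(t) F(y)` (`t ∈ L`): `χ = ∑ a_j F_j` with `a_j ∈ P` and
  `F_j ∈ W` integral with `H`-fixed coordinates; since `χ(x)` is a unit some `F_j(x)` is a unit.
-/

set_option autoImplicit false
set_option linter.unusedSectionVars false
set_option linter.style.haveILetI false

noncomputable section

namespace Fermat.Agent.S56.H664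

open Fermat.Agent.S56 Fermat.Agent.S56.H906

/-! ## Saturation

`K` a field, `P` a valuation subring, `T` a set of ring endomorphisms of `K`, `W ⊆ K^ι` a
`K`-subspace stable under the coordinatewise action of `T`.  Then every vector of `W` with
coordinates in `P` is a `P`-linear combination of vectors of `W` with coordinates in `P` which are
fixed by `T`.  Proof: one induction on `dim W`; a nonzero vector of `W` with minimal support,
normalised at a coordinate of maximal valuation, is fixed by `T` and has coordinates in `P`;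
subtract a multiple of it and pass to the subspace of `W` where that coordinate vanishes. -/

section Sat

variable {K : Type*} [Field K] (P : ValuationSubring K) (T : Set (K →+* K))
  {ι : Type*} [Fintype ι]

/-- The vectors of `W` with coordinates in `P` which are fixed by `T`. -/
def fixedInt (W : Submodule K (ι → K)) : Set (ι → K) :=
  {c | c ∈ W ∧ (∀ i, c i ∈ P) ∧ ∀ σ ∈ T, ∀ i, σ (c i) = c i}

omit [Fintype ι] in
theorem fixedInt_mono {W W' : Submodule K (ι → K)} (h : W' ≤ W) :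
    fixedInt P T W' ⊆ fixedInt P T W :=
  fun _ hc => ⟨h hc.1, hc.2.1, hc.2.2⟩

theorem mem_span_fixedInt_aux (d : ℕ) :
    ∀ (W : Submodule K (ι → K)), Module.finrank K W = d →
      (∀ σ ∈ T, ∀ c ∈ W, (fun i => σ (c i)) ∈ W) →
      ∀ z ∈ W, (∀ i, z i ∈ P) → z ∈ Submodule.span P (fixedInt P T W) := by
  classical
  induction d using Nat.strong_induction_on with
  | _ d ih =>
    intro W hd hW z hz hzP
    by_cases hz0 : z = 0
    · rw [hz0]; exact Submodule.zero_mem _
    -- a nonzero vector of minimal support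
    let supp : (ι → K) → Finset ι := fun c => Finset.univ.filter (fun i => c i ≠ 0)
    have hex : ∃ k : ℕ, ∃ w ∈ W, w ≠ 0 ∧ (supp w).card = k := ⟨_, z, hz, hz0, rfl⟩
    obtain ⟨w, hwW, hw0, hwk⟩ := Nat.find_spec hex
    have hmin : ∀ w' ∈ W, w' ≠ 0 → (supp w).card ≤ (supp w').card := by
      intro w' hw' hw'0
      rw [hwk]
      exact Nat.find_min' hex ⟨w', hw', hw'0, rfl⟩
    have hne : (supp w).Nonempty := by
      by_contra hcon
      rw [Finset.not_nonempty_iff_eq_empty] at hcon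
      apply hw0
      funext i
      by_contra hi
      have : i ∈ supp w := Finset.mem_filter.mpr ⟨Finset.mem_univ _, hi⟩
      rw [hcon] at this
      exact absurd this (Finset.notMem_empty _)
    obtain ⟨i₁, hi₁, hmax⟩ := Finset.exists_max_image (supp w) (fun i => P.valuation (w i)) hne
    have hwi₁ : w i₁ ≠ 0 := (Finset.mem_filter.mp hi₁).2
    -- the normalised vector
    set w₂ : ι → K := (w i₁)⁻¹ • w with hw₂
    have hw₂W : w₂ ∈ W := W.smul_mem _ hwW
    have hw₂i : ∀ i, w₂ i = (w i₁)⁻¹ * w i := fun i => rfl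
    have hw₂1 : w₂ i₁ = 1 := by rw [hw₂i, inv_mul_cancel₀ hwi₁]
    have hw₂P : ∀ i, w₂ i ∈ P := by
      intro i
      by_cases hi : w i = 0
      · rw [hw₂i, hi, mul_zero]; exact P.zero_mem
      · have hmem : i ∈ supp w := Finset.mem_filter.mpr ⟨Finset.mem_univ _, hi⟩
        have hle := hmax i hmem
        rw [← ValuationSubring.valuation_le_one_iff, hw₂i, map_mul, map_inv₀]
        have hpos : (0 : _) < P.valuation (w i₁) := by
          rw [Valuation.pos_iff]; exact hwi₁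
        rw [inv_mul_le_iff₀ hpos, mul_one]
        exact hle
    have hw₂0 : ∀ i, w i = 0 → w₂ i = 0 := fun i hi => by rw [hw₂i, hi, mul_zero]
    have hw₂fix : ∀ σ ∈ T, ∀ i, σ (w₂ i) = w₂ i := by
      intro σ hσ
      set u : ι → K := (fun i => σ (w₂ i)) - w₂ with hu
      have huW : u ∈ W := W.sub_mem (hW σ hσ w₂ hw₂W) hw₂W
      have hu0 : u = 0 := by
        by_contra hune
        have h1 := hmin u huW hune
        have h2 : supp u ⊂ supp w := by
          rw [Finset.ssubset_iff_of_subset]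
          · refine ⟨i₁, hi₁, ?_⟩
            intro hmem
            have := (Finset.mem_filter.mp hmem).2
            apply this
            show σ (w₂ i₁) - w₂ i₁ = 0
            rw [hw₂1, map_one, sub_self]
          · intro i hi
            have hui := (Finset.mem_filter.mp hi).2
            refine Finset.mem_filter.mpr ⟨Finset.mem_univ _, ?_⟩
            intro hwi
            apply hui
            show σ (w₂ i) - w₂ i = 0
            rw [hw₂0 i hwi, map_zero, sub_self]
        exact absurd (Finset.card_lt_card h2) (not_lt.mpr h1)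
      intro i
      have := congrFun hu0 i
      exact sub_eq_zero.mp this
    have hw₂mem : w₂ ∈ fixedInt P T W := ⟨hw₂W, hw₂P, hw₂fix⟩
    -- the smaller subspace
    set W' : Submodule K (ι → K) :=
      W ⊓ LinearMap.ker (LinearMap.proj i₁ : (ι → K) →ₗ[K] K) with hW'
    have hW'le : W' ≤ W := inf_le_left
    have hW'lt : W' < W := by
      refine lt_of_le_of_ne hW'le ?_
      intro heq
      have : w₂ ∈ W' := by rw [heq]; exact hw₂W
      have h0 : w₂ i₁ = 0 := (Submodule.mem_inf.mp this).2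
      rw [hw₂1] at h0
      exact one_ne_zero h0
    have hfin : Module.finrank K W' < d := by
      rw [← hd]
      exact Submodule.finrank_lt_finrank_of_lt hW'lt
    have hW'stab : ∀ σ ∈ T, ∀ c ∈ W', (fun i => σ (c i)) ∈ W' := by
      intro σ hσ c hc
      refine Submodule.mem_inf.mpr ⟨hW σ hσ c (Submodule.mem_inf.mp hc).1, ?_⟩
      have h0 : c i₁ = 0 := (Submodule.mem_inf.mp hc).2
      show σ (c i₁) = 0
      rw [h0, map_zero]
    set z' : ι → K := z - (z i₁) • w₂ with hz'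
    have hz'W : z' ∈ W' := by
      refine Submodule.mem_inf.mpr ⟨W.sub_mem hz (W.smul_mem _ hw₂W), ?_⟩
      show z i₁ - z i₁ * w₂ i₁ = 0
      rw [hw₂1, mul_one, sub_self]
    have hz'P : ∀ i, z' i ∈ P := by
      intro i
      show z i - z i₁ * w₂ i ∈ P
      exact sub_mem (hzP i) (mul_mem (hzP i₁) (hw₂P i))
    have h1 : z' ∈ Submodule.span P (fixedInt P T W) :=
      Submodule.span_mono (fixedInt_mono P T hW'le)
        (ih _ hfin W' rfl hW'stab z' hz'W hz'P)
    have h2 : (⟨z i₁, hzP i₁⟩ : P) • w₂ ∈ Submodule.span P (fixedInt P T W) :=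
      Submodule.smul_mem _ _ (Submodule.subset_span hw₂mem)
    have h3 : z = z' + (⟨z i₁, hzP i₁⟩ : P) • w₂ := by
      funext i
      show z i = z i - z i₁ * w₂ i + z i₁ * w₂ i
      ring
    rw [h3]
    exact Submodule.add_mem _ h1 h2

/-- **Saturation.**  Every vector of a `T`-stable subspace `W` with coordinates in `P` is a
`P`-linear combination of `T`-fixed vectors of `W` with coordinates in `P`. -/
theorem mem_span_fixedInt (W : Submodule K (ι → K))
    (hW : ∀ σ ∈ T, ∀ c ∈ W, (fun i => σ (c i)) ∈ W)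
    {z : ι → K} (hz : z ∈ W) (hzP : ∀ i, z i ∈ P) :
    z ∈ Submodule.span P (fixedInt P T W) :=
  mem_span_fixedInt_aux P T _ W rfl hW z hz hzP

end Sat

section Span

variable {p : ℕ} [Fact p.Prime] {M : Type} [AddCommGroup M] [Finite M] {act : GQ → M → M}
  {Λ : Subalgebra (Zp p) (M → Qb)}

/-- The `ℚ̄`-span of a Hopf lattice is the space of all functions. -/
theorem span_Qb_eq_top (hΛ : IsHL p act Λ) :
    Submodule.span Qb (Λ : Set (M → Qb)) = ⊤ := by
  classical
  letI : Fintype M := Fintype.ofFinite M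
  have hadj : Submodule.span Qb (Λ : Set (M → Qb)) =
      Subalgebra.toSubmodule (Algebra.adjoin Qb (Λ : Set (M → Qb))) := by
    rw [Algebra.adjoin_eq_span]
    congr 1
    have : (Λ : Set (M → Qb)) = ((Λ.toSubmonoid : Submonoid (M → Qb)) : Set (M → Qb)) := rfl
    rw [this, Submonoid.closure_eq]
  rw [hadj]
  set A := Algebra.adjoin Qb (Λ : Set (M → Qb)) with hA
  have hind : ∀ m : M, (Pi.single m (1 : Qb) : M → Qb) ∈ A := by
    intro m
    have hsep : ∀ n : M, ∃ g ∈ A, g m = 1 ∧ (n ≠ m → g n = 0) := by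
      intro n
      by_cases hn : n = m
      · exact ⟨1, A.one_mem, rfl, fun h => absurd hn h⟩
      · obtain ⟨f, hf, hfne⟩ := hΛ.separates m n (Ne.symm hn)
        have hfA : f ∈ A := Algebra.subset_adjoin hf
        have hne : f m - f n ≠ 0 := sub_ne_zero.mpr hfne
        refine ⟨(f m - f n)⁻¹ • (f - algebraMap Qb (M → Qb) (f n)),
          A.smul_mem (A.sub_mem hfA (A.algebraMap_mem _)) _, ?_, fun _ => ?_⟩
        · show (f m - f n)⁻¹ * (f m - f n) = 1
          exact inv_mul_cancel₀ hne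
        · show (f m - f n)⁻¹ * (f n - f n) = 0
          rw [sub_self, mul_zero]
    choose g hgA hgm hgn using hsep
    have hprod : (Pi.single m (1 : Qb) : M → Qb) = ∏ n, g n := by
      funext y
      rw [Finset.prod_apply]
      by_cases hy : y = m
      · subst hy
        rw [Pi.single_eq_same]
        exact (Finset.prod_eq_one fun n _ => hgm n).symm
      · rw [Pi.single_eq_of_ne hy]
        exact (Finset.prod_eq_zero (f := fun c => g c y) (Finset.mem_univ y) (hgn y hy)).symm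
    rw [hprod]
    exact A.prod_mem fun n _ => hgA n
  rw [eq_top_iff]
  intro F _
  have hF : F = ∑ m, F m • (Pi.single m (1 : Qb) : M → Qb) := by
    funext y
    rw [Finset.sum_apply]
    simp [Pi.single_apply]
  rw [hF]
  exact Submodule.sum_mem _ fun m _ => Submodule.smul_mem _ _ (hind m)

/-- A `ℚ̄`-basis of the space of functions made of lattice elements, in which the lattice has
coordinates in `ℤ_(p)`. -/
theorem exists_Qb_basis (hΛ : IsHL p act Λ) :
    ∃ (n : ℕ) (B : Module.Basis (Fin n) Qb (M → Qb)), (∀ i, B i ∈ Λ) ∧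
      ∀ f ∈ Λ, ∀ i, ∃ r : Zp p, B.coord i f = algebraMap (Zp p) Qb r := by
  obtain ⟨n, e, he, -, hli, hexp⟩ := Fermat.Agent.S19.H435.IsHopfLattice.exists_basis hΛ
  have hsmul : ∀ (r : Zp p) (f : M → Qb), r • f = (algebraMap (Zp p) Qb r) • f := by
    intro r f
    funext y
    show r • f y = algebraMap (Zp p) Qb r * f y
    rw [Algebra.smul_def]
  have hsp : ⊤ ≤ Submodule.span Qb (Set.range e) := by
    rw [← span_Qb_eq_top hΛ]
    refine Submodule.span_le.mpr ?_
    intro f hf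
    obtain ⟨c, rfl⟩ := hexp f hf
    refine Submodule.sum_mem _ fun i _ => ?_
    rw [hsmul]
    exact Submodule.smul_mem _ _ (Submodule.subset_span ⟨i, rfl⟩)
  refine ⟨n, Module.Basis.mk hli hsp, fun i => by rw [Module.Basis.coe_mk]; exact he i, ?_⟩
  intro f hf i
  obtain ⟨c, rfl⟩ := hexp f hf
  refine ⟨c i, ?_⟩
  rw [map_sum]
  have hterm : ∀ j, (Module.Basis.mk hli hsp).coord i (c j • e j) =
      if j = i then algebraMap (Zp p) Qb (c j) else 0 := by
    intro j
    have hej : e j = (Module.Basis.mk hli hsp) j := by rw [Module.Basis.coe_mk]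
    rw [hsmul, map_smul, hej, Module.Basis.coord_apply, Module.Basis.repr_self,
      Finsupp.single_apply, smul_eq_mul]
    split_ifs <;> simp
  simp_rw [hterm]
  rw [Finset.sum_ite_eq' Finset.univ i]
  simp

end Span

section Theta

variable {M : Type} [AddCommGroup M] {n : ℕ} (B : Module.Basis (Fin n) Qb (M → Qb))

/-- `Θ_{jk} f = coord_j (x ↦ coord_k (y ↦ f (x + y)))`. -/
def theta (j k : Fin n) : (M → Qb) →ₗ[Qb] Qb :=
  (B.coord j).comp
    (LinearMap.pi fun x : M => (B.coord k).comp (LinearMap.funLeft Qb Qb (fun y : M => x + y)))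

theorem theta_apply (j k : Fin n) (f : M → Qb) :
    theta B j k f = B.coord j (fun x => B.coord k (fun y => f (x + y))) := rfl

/-- `Θ_{jk}` of a function with a decomposition `f (x + y) = ∑ a_l x * b_l y`. -/
theorem theta_of_comul (j k : Fin n) (f : M → Qb) {m : ℕ} (a b : Fin m → M → Qb)
    (hab : ∀ x y, f (x + y) = ∑ l, a l x * b l y) :
    theta B j k f = ∑ l, B.coord k (b l) * B.coord j (a l) := by
  rw [theta_apply]
  have h1 : ∀ x : M, (fun y => f (x + y)) = ∑ l, a l x • b l := by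
    intro x
    funext y
    rw [hab, Finset.sum_apply]
    rfl
  have h2 : (fun x => B.coord k (fun y => f (x + y))) = ∑ l, B.coord k (b l) • a l := by
    funext x
    rw [h1, map_sum, Finset.sum_apply]
    refine Finset.sum_congr rfl fun l _ => ?_
    rw [map_smul, smul_eq_mul, Pi.smul_apply, smul_eq_mul, mul_comm]
  rw [h2, map_sum]
  refine Finset.sum_congr rfl fun l _ => ?_
  rw [map_smul, smul_eq_mul]

/-- `Θ_{jk}` of a multiplicative function. -/
theorem theta_of_mul (j k : Fin n) (χ : M → Qb) (hχ : ∀ x y, χ (x + y) = χ x * χ y) :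
    theta B j k χ = B.coord k χ * B.coord j χ := by
  have := theta_of_comul B j k χ (m := 1) (fun _ => χ) (fun _ => χ)
    (fun x y => by rw [hχ]; simp)
  rw [this]
  simp

end Theta

section Char

variable {p : ℕ} [Fact p.Prime] {M : Type} [AddCommGroup M] [Finite M] {act : GQ → M → M}
  {Λ : Subalgebra (Zp p) (M → Qb)}

omit [Fact (Nat.Prime p)] [Finite M] in
/-- `Θ_{jk}` maps the lattice to `ℤ_(p)`. -/
theorem theta_mem (hΛ : IsHL p act Λ) {n : ℕ} (B : Module.Basis (Fin n) Qb (M → Qb))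
    (hcoord : ∀ f ∈ Λ, ∀ i, ∃ r : Zp p, B.coord i f = algebraMap (Zp p) Qb r)
    (j k : Fin n) {f : M → Qb} (hf : f ∈ Λ) :
    ∃ r : Zp p, theta B j k f = algebraMap (Zp p) Qb r := by
  obtain ⟨m, a, b, ha, hb, hab⟩ := hΛ.comul_mem f hf
  choose α hα using fun l => hcoord (a l) (ha l) j
  choose β hβ using fun l => hcoord (b l) (hb l) k
  refine ⟨∑ l, β l * α l, ?_⟩
  rw [theta_of_comul B j k f a b hab, map_sum]
  refine Finset.sum_congr rfl fun l _ => ?_
  rw [hα, hβ, map_mul]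

/-- The coordinates of a nonzero multiplicative function in a lattice basis are integral over
`ℤ_(p)`. -/
theorem isIntegral_coord_of_mul (hΛ : IsHL p act Λ) {n : ℕ}
    (B : Module.Basis (Fin n) Qb (M → Qb)) (hB : ∀ i, B i ∈ Λ)
    (hcoord : ∀ f ∈ Λ, ∀ i, ∃ r : Zp p, B.coord i f = algebraMap (Zp p) Qb r)
    (χ : M → Qb) (hχ : ∀ x y, χ (x + y) = χ x * χ y) (hχ0 : χ ≠ 0) (j : Fin n) :
    IsIntegral (Zp p) (B.coord j χ) := by
  classical
  set c : Fin n → Qb := fun i => B.coord i χ with hc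
  have hsum : χ = ∑ i, c i • B i := (B.sum_repr χ).symm
  set C : Submodule (Zp p) Qb := Submodule.span (Zp p) (Set.range c) with hC
  have hne : C ≠ ⊥ := by
    intro hbot
    apply hχ0
    rw [hsum]
    refine Finset.sum_eq_zero fun i _ => ?_
    have : c i ∈ C := Submodule.subset_span ⟨i, rfl⟩
    rw [hbot, Submodule.mem_bot] at this
    rw [this, zero_smul]
  have hfg : C.FG := Submodule.fg_span (Set.finite_range c)
  have hmul : ∀ k, c j * c k ∈ C := by
    intro k
    have h1 : c j * c k = theta B k j χ := by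
      rw [theta_of_mul B k j χ hχ]
    have h2 : theta B k j χ = ∑ i, c i * theta B k j (B i) := by
      refine (congrArg (theta B k j) hsum).trans ?_
      rw [map_sum]
      refine Finset.sum_congr rfl fun i _ => ?_
      rw [map_smul, smul_eq_mul]
    rw [h1, h2]
    refine Submodule.sum_mem _ fun i _ => ?_
    obtain ⟨r, hr⟩ := theta_mem hΛ B hcoord k j (hB i)
    rw [hr, mul_comm, ← Algebra.smul_def]
    exact Submodule.smul_mem _ _ (Submodule.subset_span ⟨i, rfl⟩)
  refine isIntegral_of_smul_mem_submodule C hne hfg (c j) ?_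
  intro y hy
  induction hy using Submodule.span_induction with
  | mem y hy =>
    obtain ⟨k, rfl⟩ := hy
    exact hmul k
  | zero => rw [smul_zero]; exact Submodule.zero_mem _
  | add a b _ _ ha hb => rw [smul_add]; exact Submodule.add_mem _ ha hb
  | smul r a _ ha =>
    rw [smul_comm]
    exact Submodule.smul_mem _ _ ha

end Char


/-- **(FU)** unit resolvent: the Kummer characters attached to a flat module are Kummer
characters of `P`-units. -/
theorem flatUnit : FlatUnitStatement := by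
  intro p _ M _ _ act Λ hΛ _ P hP ζ hζ L hL1 hL2 ξ x
  classical
  have hp : p.Prime := Fact.out
  obtain ⟨n, B, hB, hcoord⟩ := exists_Qb_basis hΛ
  -- the character `χ = ζ ^ ξ`
  set χ : M → Qb := fun y => ζ ^ (ξ y).val with hχdef
  have hζp : ζ ^ p = 1 := hζ.pow_eq_one
  haveI : NeZero p := ⟨hp.ne_zero⟩
  have hχadd : ∀ y t, χ (y + t) = χ y * χ t := by
    intro y t
    show ζ ^ (ξ (y + t)).val = ζ ^ (ξ y).val * ζ ^ (ξ t).val
    rw [map_add, ZMod.val_add, ← pow_add, ← pow_eq_pow_mod _ hζp]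
  have hχ0 : χ 0 = 1 := by
    show ζ ^ (ξ 0).val = 1
    rw [map_zero, ZMod.val_zero, pow_zero]
  have hχne : χ ≠ 0 := by
    intro h
    have := congrFun h 0
    rw [hχ0] at this
    exact one_ne_zero this
  have hvζ : P.valuation ζ = 1 := by
    have h1 : P.valuation ζ ^ p = 1 := by rw [← map_pow, hζp, map_one]
    rcases lt_trichotomy (P.valuation ζ) 1 with h | h | h
    · exact absurd h1 (ne_of_lt (pow_lt_one₀ zero_le h hp.ne_zero))
    · exact h
    · exact absurd h1 (ne_of_gt (one_lt_pow₀ h hp.ne_zero))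
  have hvχ : ∀ y, P.valuation (χ y) = 1 := by
    intro y
    show P.valuation (ζ ^ (ξ y).val) = 1
    rw [map_pow, hvζ, one_pow]
  -- coordinates
  set comb : (Fin n → Qb) →ₗ[Qb] (M → Qb) := Fintype.linearCombination Qb B with hcomb
  have hcomb_apply : ∀ (d : Fin n → Qb) (y : M), comb d y = ∑ i, d i * B i y := by
    intro d y
    rw [hcomb, Fintype.linearCombination_apply, Finset.sum_apply]
    rfl
  set c : Fin n → Qb := fun i => B.coord i χ with hc
  have hcχ : comb c = χ := by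
    rw [hcomb, Fintype.linearCombination_apply]
    exact B.sum_repr χ
  have hcP : ∀ i, c i ∈ P := fun i =>
    mem_of_isIntegral_zp P hp hP (isIntegral_coord_of_mul hΛ B hB hcoord χ hχadd hχne i)
  -- the subspace `W`
  let W : Submodule Qb (Fin n → Qb) :=
    { carrier := {d | ∀ y : M, ∀ t ∈ L, comb d (y + t) = χ t * comb d y}
      add_mem' := by
        intro a b ha hb y t ht
        rw [map_add, Pi.add_apply, Pi.add_apply, ha y t ht, hb y t ht, mul_add]
      zero_mem' := by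
        intro y t _
        rw [map_zero, Pi.zero_apply, Pi.zero_apply, mul_zero]
      smul_mem' := by
        intro r a ha y t ht
        rw [map_smul, Pi.smul_apply, Pi.smul_apply, ha y t ht, smul_eq_mul, smul_eq_mul]
        ring }
  have hWmem : ∀ d, d ∈ W ↔ ∀ y : M, ∀ t ∈ L, comb d (y + t) = χ t * comb d y :=
    fun d => Iff.rfl
  -- the acting maps
  let T : Set (Qb →+* Qb) :=
    {f | ∃ σ : GQ, σ ∈ P.inertiaSubgroupIn ℚ ∧ σ ζ = ζ ∧ ∀ a, f a = σ a}
  have hσχ : ∀ σ : GQ, σ ζ = ζ → ∀ t, σ (χ t) = χ t := by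
    intro σ hσ t
    show σ (ζ ^ (ξ t).val) = ζ ^ (ξ t).val
    rw [map_pow, hσ]
  have hcombσ : ∀ (σ : GQ) (d : Fin n → Qb) (y : M),
      comb (fun i => σ (d i)) y = σ (comb d (act σ⁻¹ y)) := by
    intro σ d y
    rw [hcomb_apply, hcomb_apply, map_sum]
    refine Finset.sum_congr rfl fun i _ => ?_
    rw [map_mul, ← hΛ.equivariant _ (hB i) σ,
      Fermat.Agent.S19.H435.IsHopfLattice.act_act_inv hΛ]
  have hWstab : ∀ f ∈ T, ∀ d ∈ W, (fun i => f (d i)) ∈ W := by
    rintro f ⟨σ, hσI, hσζ, hfσ⟩ d hd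
    have hfd : (fun i => f (d i)) = fun i => σ (d i) := funext fun i => hfσ (d i)
    rw [hfd, hWmem]
    intro y t ht
    have hinvI : σ⁻¹ ∈ P.inertiaSubgroupIn ℚ := inv_mem hσI
    have hinvζ : σ⁻¹ ζ = ζ := by
      have := congrArg (σ⁻¹ : GQ) hσζ
      rw [← this]
      exact (AlgEquiv.symm_apply_apply σ ζ)
    rw [hcombσ, hcombσ, Fermat.Agent.S19.H435.IsHopfLattice.act_add hΛ,
      hL1 σ⁻¹ hinvI hinvζ t ht, hd _ t ht, map_mul, hσχ σ hσζ]
  have hcW : c ∈ W := by
    rw [hWmem]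
    intro y t _
    rw [hcχ, hχadd, mul_comm]
  -- saturation
  have hsat := mem_span_fixedInt P T W hWstab hcW hcP
  -- values at `x` of integral vectors
  have hvalP : ∀ d : Fin n → Qb, (∀ i, d i ∈ P) → comb d x ∈ P := by
    intro d hd
    rw [hcomb_apply]
    exact sum_mem fun i _ => mul_mem (hd i) (apply_mem P hΛ hP (hB i) x)
  -- some `T`-fixed integral vector of `W` has a unit value at `x`
  have hex : ∃ d ∈ fixedInt P T W, P.valuation (comb d x) = 1 := by
    by_contra hcon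
    push Not at hcon
    have hlt : ∀ d ∈ fixedInt P T W, P.valuation (comb d x) < 1 := by
      intro d hd
      refine lt_of_le_of_ne ?_ (hcon d hd)
      rw [ValuationSubring.valuation_le_one_iff]
      exact hvalP d hd.2.1
    have hall : ∀ z ∈ Submodule.span P (fixedInt P T W), P.valuation (comb z x) < 1 := by
      intro z hz
      induction hz using Submodule.span_induction with
      | mem d hd => exact hlt d hd
      | zero => rw [map_zero, Pi.zero_apply, map_zero]; exact zero_lt_one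
      | add a b _ _ ha hb =>
        rw [map_add, Pi.add_apply]
        exact Valuation.map_add_lt _ ha hb
      | smul a z _ hz =>
        have h1 : (a • z : Fin n → Qb) = (a : Qb) • z := rfl
        rw [h1, map_smul, Pi.smul_apply, smul_eq_mul, map_mul]
        have ha : P.valuation (a : Qb) ≤ 1 := by
          rw [ValuationSubring.valuation_le_one_iff]
          exact a.2
        exact mul_lt_of_le_one_of_lt ha hz
    have := hall c hsat
    rw [hcχ, hvχ] at this
    exact lt_irrefl _ this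
  obtain ⟨d, hd, hdval⟩ := hex
  refine ⟨comb d x, hdval, ?_⟩
  intro σ hσI hσζ
  have hdfix : ∀ i, σ (d i) = d i := by
    intro i
    let f : Qb →+* Qb := (σ : Qb ≃ₐ[ℚ] Qb).toAlgHom.toRingHom
    have hf : f ∈ T := ⟨σ, hσI, hσζ, fun _ => rfl⟩
    exact hd.2.2 f hf i
  have h1 : σ (comb d x) = comb d (act σ x) := by
    rw [hcomb_apply, hcomb_apply, map_sum]
    refine Finset.sum_congr rfl fun i _ => ?_
    rw [map_mul, hdfix, hΛ.equivariant _ (hB i) σ]
  have h2 : act σ x = x + (act σ x - x) := by abel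
  rw [h1, h2, hd.1 x _ (hL2 σ hσI hσζ x)]
  congr 2
  abel_nf

end Fermat.Agent.S56.H664

end

end
-- ===== PACK-END S56/H664/FlatUnit.lean

-- ===== PACK-BEGIN S59/TW/H24/AutPlus.lean
section



/-!
# Row S59, cell TW, layer 3 (AUT), `Plus` form: the glue (helper24)

Layer 2, `Plus` form (`TW/SpecPlus.lean`) consumes `TW.AutPlusStatement` = `TW.AutStatement`
under `CurveCase` with the bridge clause

    M₀ has a finite basis over T_min  ⇒  η_{T_min}(pt) = δ₀(χ) = NM.cohCong N_min Smin (eig χ).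

Layer 3 (`TW/Aut/Spec.lean`, helper511) builds `M₀ := ModOf V₀ a₀`, `V₀ ⊆ X_{Γ₀(N_min)}(𝒪)` the
localisation at the (anemic) maximal ideal of `P₀` (`IsMinPart`), with the action `a₀` of `T_min`
(`IsMinAction`).  Here:

* `BridgeStatement` : the new leaf BRIDGE = the bridge clause for `M₀ = ModOf V₀ a₀`;
* `autPlus_of_leaves : Idem → Mod0 → Nontriv → ModQ → FreeQ → Ctrl → Cmp → Bridge →
    TW.AutPlusStatement`  (same proof as `Aut.aut_of_leaves`, with `M₀` exported).
-/

set_option autoImplicit false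

open Polynomial IsLocalRing CongruenceSubgroup
open scoped MatrixGroups

namespace Fermat.Agent.S59.TW.H24

open Fermat.Agent.S59.Arch Fermat.Agent.S59.TW.H959 Fermat.Agent.S59.TW.H653
  Fermat.Agent.S59.TW.Aut Fermat.Agent.S59.NM

/-- **BRIDGE** (leaf of layer 3, `Plus` form).  For the localisation `V₀` of
`X_{Γ₀(N_min)}(𝒪)` at the maximal ideal of the package `P₀` with its action `a₀` of `T_min`:
if `V₀` has a finite basis over `T_min`, then the congruence ideal of the point `pt` of `T_min`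
defined by the eigensystem `χ` is the ideal of the values of the Manin pairing on the
`χ`-eigenclasses of level `N_min`.
(Manin pairing perfect on the cuspidal classes [`H585.perf_charZero`], `T_ℓ` self-adjoint
[`H585.pairing_hecke_int`], `V₀` cuspidal [CUSP], `V₀[ker pt]` = the `χ`-eigenclasses, and
`NM.BaseStatement` [`H585.base`].) -/
def BridgeStatement : Prop :=
  ∀ (p : ℕ) [Fact p.Prime]
    (𝒪 : Type) [CommRing 𝒪] [IsDomain 𝒪] [IsDiscreteValuationRing 𝒪]
    [IsAdicComplete (maximalIdeal 𝒪) 𝒪] [Finite (ResidueField 𝒪)] [CharZero 𝒪]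
    (ρbar : ResidualGaloisRep (ResidueField 𝒪)) (Smin : Finset ℕ)
    (_h : ResidualHyp p 𝒪 ρbar Smin) (_hc : CurveCase p ρbar) (t : PType)
    (_ht : (t = .flat ∧ (GaloisRepAdic.ofResidualGaloisRep ρbar).IsFlatAt p) ∨
      (t = .sord ∧ (GaloisRepAdic.ofResidualGaloisRep ρbar).IsStrictOrdinaryAt p ∧
        ¬ (GaloisRepAdic.ofResidualGaloisRep ρbar).IsFlatAt p))
    [NeZero (wilesLevel p t Smin Smin)]
    (P₀ : HeckePkg p 𝒪 ρbar t Smin Smin)
    (χ : CuspForm.heckeAlgebra (wilesLevel p t Smin Smin) 2 (↑Smin : Set ℕ) →+* 𝒪)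
    (_hχ : G4.ResFrobCond ρbar ((residue 𝒪).comp χ))
    (_hθ : P₀.θ = (residue 𝒪).comp χ)
    (pt : P₀.T →ₐ[𝒪] 𝒪)
    (_hpt : ∀ x : CuspForm.heckeAlgebra (wilesLevel p t Smin Smin) 2 (↑Smin : Set ℕ),
      pt (CuspForm.heckeLocal.π (wilesLevel p t Smin Smin) (↑Smin : Set ℕ) 𝒪 P₀.θ x) = χ x)
    (V₀ : Submodule 𝒪 (Additive (Gamma0 (wilesLevel p t Smin Smin)) →+ 𝒪))
    (_hV₀ : IsMinPart P₀ V₀)
    (a₀ : P₀.T →ₐ[𝒪] Module.End 𝒪 V₀) (_ha₀ : IsMinAction P₀ V₀ a₀),
    (∃ (d : ℕ) (b : Fin d → ModOf V₀ a₀),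
        Function.Bijective (Fintype.linearCombination P₀.T b)) →
      NC.congIdeal pt = cohCong (wilesLevel p t Smin Smin) Smin (eig χ)

/-- **Layer 3 of the cell TW, `Plus` form: `AutPlusStatement` from the leaves.** -/
theorem autPlus_of_leaves (hIdem : IdemStatement) (hMod0 : Mod0Statement)
    (hNon : NontrivStatement) (hModQ : ModQStatement) (hFree : FreeQStatement)
    (hCtrl : CtrlStatement) (hCmp : CmpStatement) (hBridge : BridgeStatement) :
    AutPlusStatement := by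
  intro p hpF 𝒪 _ _ _ _ _ _ ρbar Smin hh hc t ht hN P₀ χ hχ hθ pt hpt
  -- the minimal level
  obtain ⟨V₀, hV₀⟩ := hIdem 𝒪 (wilesLevel p t Smin Smin) (NeZero.ne _)
    (Gamma0 (wilesLevel p t Smin Smin)) (isMid_Gamma0 _) (TsetOf P₀) ∅
    (by
      rintro ⟨ℓ, c⟩ ⟨hℓ, hℓN, -, -⟩
      exact ⟨hℓ, hℓN⟩)
    (by
      intro x hx
      exact absurd hx (Set.notMem_empty x))
  have hV₀' : IsMinPart P₀ V₀ := hV₀
  obtain ⟨a₀, ha₀⟩ := hMod0 p 𝒪 ρbar Smin hh t ht P₀ V₀ hV₀'
  have hnt : Nontrivial V₀ := hNon p 𝒪 ρbar Smin hh t ht P₀ V₀ hV₀'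
  refine ⟨ModOf V₀ a₀, inferInstance, inferInstance, hnt,
    hBridge p 𝒪 ρbar Smin hh hc t ht P₀ χ hχ hθ pt hpt V₀ hV₀' a₀ ha₀, ?_⟩
  intro n r qv hq hNQ PQ res hres
  obtain ⟨hinj, hqv, hfrob⟩ := id hq
  have hprime : ∀ j, (qv j).Prime := fun j => (hqv j).1
  -- lifts of Frobenius eigenvalues
  choose Pv φv hPv hφv using fun j => Fermat.Agent.S54.exists_frobenius (qv j) (hprime j)
  choose αk βk hαβ hchar using fun j => hfrob j (Pv j) (hPv j) (φv j) (hφv j)
  choose α hα using fun j => residue_surjective (αk j)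
  have hFL : IsFrobLift ρbar qv α := fun j =>
    ⟨Pv j, φv j, βk j, hPv j, hφv j, by rw [hα]; exact hαβ j, by rw [hα]; exact hchar j⟩
  -- the level `Q`
  have hM : bLevel (wilesLevel p t Smin Smin) qv ≠ 0 :=
    Nat.mul_ne_zero (NeZero.ne _) (Finset.prod_ne_zero_iff.mpr fun j _ => (hprime j).ne_zero)
  obtain ⟨V, hV⟩ := hIdem 𝒪 (bLevel (wilesLevel p t Smin Smin) qv) hM
    (KQ p (wilesLevel p t Smin Smin) qv) (isMid_KQ p _ qv) (TsetOf PQ) (UsetOf qv α)
    (by
      rintro ⟨ℓ, c⟩ ⟨hℓ, hℓN, hℓS, -⟩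
      exact ⟨hℓ, not_dvd_bLevel hℓ hprime hℓN hℓS⟩)
    (by
      rintro ⟨q, c⟩ ⟨j, hj⟩
      have h1 : q = qv j := congrArg Prod.fst hj
      rw [h1]
      exact ⟨hprime j, dvd_bLevel _ qv j⟩)
  have hV' : IsQPart PQ α V := hV
  obtain ⟨h, a, hhalf, ha⟩ :=
    hModQ p 𝒪 ρbar Smin hh t ht P₀ n r qv hq PQ res hres α hFL V hV'
  exact exists_autLevel P₀ PQ res α V₀ a₀ V h a hh.hSmin hh.hpSmin hinj hprime
    (fun j => (hqv j).2.1) hres hV₀' ha₀ hV' ha
    (hFree p 𝒪 ρbar Smin hh t ht P₀ n r qv hq PQ res hres α hFL V hV')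
    (hCtrl p 𝒪 ρbar Smin hh t ht P₀ n r qv hq PQ res hres α hFL V₀ V hV₀' hV')
    (hCmp p 𝒪 ρbar Smin hh t ht P₀ n r qv hq PQ res hres α hFL V h a hV' hhalf ha)

end Fermat.Agent.S59.TW.H24

end
-- ===== PACK-END S59/TW/H24/AutPlus.lean

-- ===== PACK-BEGIN S55/E1/H423/Alg9a.lean
section



/-!
# S55, engine E1, leaf ALG9a (extension criterion) — exact frozen Spec forms

* `alg9a_add` : interface-free additive form.  `ι : R ↪ P` with `p P ⊆ ι R` (`p` prime); every
  additive `φ : R → X` with `φ(R) ⊆ p X` is the restriction of an additive map `P → X`.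
* `alg9aSpec : ALG9aSpec` : module form for the standard presentation `0 → R → P → N → 0`.
* `alg9aCocycleSpec : ALG9aCocycleSpec` : cocycle form.
-/

set_option autoImplicit false
set_option linter.style.haveILetI false

open CategoryTheory CategoryTheory.Limits

namespace Fermat.Agent.S55.E1.H423

section Additive

universe u

/-- **ALG9a, additive form.**  Let `ι : R' → P` be injective with `p P ⊆ ι R'` (`p` prime).
Every additive `φ : R' → X` with values in `p X` extends to an additive map `P → X`. -/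
theorem alg9a_add {R' : Type*} {P : Type u} {X : Type*} [AddCommGroup R'] [AddCommGroup P]
    [AddCommGroup X] (ι : R' →+ P) (hι : Function.Injective ι) (p : ℕ) [Fact p.Prime]
    (hp : ∀ x : P, ∃ r : R', ι r = p • x)
    (φ : R' →+ X) (hφ : ∀ r : R', ∃ x : X, φ r = p • x) :
    ∃ K : P →+ X, ∀ r : R', K (ι r) = φ r := by
  classical
  let R : Submodule ℤ P := LinearMap.range ι.toIntLinearMap
  have hpR : ∀ x : P, (p : ℤ) • x ∈ R := by
    intro x
    obtain ⟨r, hr⟩ := hp x
    exact ⟨r, by rw [Nat.cast_smul_eq_nsmul]; exact hr⟩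
  let e : R' ≃ₗ[ℤ] R := LinearEquiv.ofInjective ι.toIntLinearMap hι
  have he : ∀ r : R', ((e r : R) : P) = ι r := fun r => rfl
  let f : R →ₗ[ℤ] X := φ.toIntLinearMap ∘ₗ e.symm.toLinearMap
  have hf : ∀ r : R, ∃ x : X, f r = (p : ℤ) • x := by
    intro r
    obtain ⟨x, hx⟩ := hφ (e.symm r)
    exact ⟨x, by rw [Nat.cast_smul_eq_nsmul]; exact hx⟩
  obtain ⟨I, x, hgen, hdvd⟩ := exists_lift_family R p hpR
  let xr : I → R := fun i => ⟨(p : ℤ) • x i, hpR (x i)⟩
  have hy : ∀ i : I, ∃ y : X, f (xr i) = (p : ℤ) • y := fun i => hf _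
  choose y hy using hy
  have hrel : ∀ (m : I →₀ ℤ) (hm : Finsupp.linearCombination ℤ x m ∈ R),
      f ⟨_, hm⟩ = Finsupp.linearCombination ℤ y m := by
    intro m hm
    have hd := hdvd m hm
    have hl : ∀ i, (m i / (p : ℤ)) * (p : ℤ) = m i := fun i => Int.ediv_mul_cancel (hd i)
    let l : I →₀ ℤ := m.mapRange (fun n => n / (p : ℤ)) (by simp)
    have h1 : (⟨_, hm⟩ : R) = Finsupp.linearCombination ℤ xr l := by
      apply Subtype.ext
      have e1 : ((Finsupp.linearCombination ℤ xr l : R) : P) =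
          Finsupp.linearCombination ℤ (fun i => (p : ℤ) • x i) l := by
        rw [← Submodule.subtype_apply, LinearMap.map_finsupp_linearCombination]
        rfl
      rw [e1]
      show Finsupp.linearCombination ℤ x m = _
      rw [Finsupp.linearCombination_apply, Finsupp.linearCombination_apply,
        Finsupp.sum_mapRange_index (by intro i; exact zero_smul _ _)]
      refine Finsupp.sum_congr fun i _ => ?_
      rw [smul_smul, hl]
    rw [h1, LinearMap.map_finsupp_linearCombination, Finsupp.linearCombination_apply,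
      Finsupp.linearCombination_apply, Finsupp.sum_mapRange_index (by intro i; exact zero_smul _ _)]
    refine Finsupp.sum_congr fun i _ => ?_
    show (m i / (p : ℤ)) • f (xr i) = m i • y i
    rw [hy, smul_smul, hl]
  obtain ⟨k, hkR, -⟩ := exists_linearMap_extend R f x y hgen hrel
  refine ⟨k.toAddMonoidHom, fun r => ?_⟩
  have h1 := hkR (e r)
  have h0 : k (ι r) = k ((e r : R) : P) := by rw [he]
  show k (ι r) = _
  rw [h0, h1]
  show φ (e.symm (e r)) = φ r
  rw [LinearEquiv.symm_apply_apply]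

end Additive

section Spec

open Fermat.Agent.S55.E1
open Fermat.Agent.S55.T.H719 (ihomLin)

variable {G : Type} [Group G]

/-- The additive map underlying an element of `Hom_ℤ(A, X)`. -/
def ihomAdd {A X : Rep.{0} ℤ G} (φ : ((Rep.ihom A).obj X).V) : A.V →+ X.V :=
  AddMonoidHom.mk' (fun r => ihomLin φ r) (fun a b => map_add (ihomLin φ) a b)

@[simp]
theorem ihomAdd_apply {A X : Rep.{0} ℤ G} (φ : ((Rep.ihom A).obj X).V) (r : A.V) :
    ihomAdd φ r = ihomLin φ r := rfl

/-- An additive map between the underlying groups of representations, as an element of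
`Hom_ℤ(A, X)`. -/
def ihomOfAdd {A X : Rep.{0} ℤ G} (K : A.V →+ X.V) : ((Rep.ihom A).obj X).V :=
  letI : Module ℤ A.V := A.hV2
  letI : Module ℤ X.V := X.hV2
  ({ toFun := K
     map_add' := K.map_add
     map_smul' := fun n x => by simpa using map_intCast_smul K ℤ ℤ n x } : A.V →ₗ[ℤ] X.V)

theorem ihomLin_ihomOfAdd {A X : Rep.{0} ℤ G} (K : A.V →+ X.V) (r : A.V) :
    ihomLin (ihomOfAdd K) r = K r := rfl

/-- Membership in `ihomImage` on elements. -/
theorem mem_ihomImage_of_add {A B X : Rep.{0} ℤ G} (a : A ⟶ B) (φ : ((Rep.ihom A).obj X).V)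
    (K : B.V →+ X.V) (hK : ∀ r : A.V, K (a.hom r) = ihomLin φ r) : φ ∈ ihomImage a X := by
  refine ⟨ihomOfAdd K, ?_⟩
  show ihomLin ((ihomPre a X).hom (ihomOfAdd K)) = ihomLin φ
  exact DFunLike.ext _ _ fun r => hK r

/-- **ALG9 (a), module form**, exact frozen Spec form. -/
theorem alg9aSpec : ALG9aSpec := by
  intro p hp G _ N X hpN φ hφ
  haveI : Fact p.Prime := ⟨hp⟩
  have h1 : ∀ x : (stdP N).V, ∃ r : (stdR N).V, addHom (stdι N) r = p • x := by
    intro x
    refine exists_stdι_eq N ?_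
    rw [map_nsmul, hpN]
  obtain ⟨K, hK⟩ := alg9a_add (addHom (stdι N)) (stdι_injective N) p h1 (ihomAdd φ) hφ
  exact mem_ihomImage_of_add (stdι N) φ K hK

/-- **ALG9 (a), cocycle form**, exact frozen Spec form. -/
theorem alg9aCocycleSpec : ALG9aCocycleSpec := by
  intro p hp G _ N X hpN c hc
  have hmem : ∀ g : G, (c.1 g) ∈ ihomImage (stdι N) X := fun g =>
    alg9aSpec p hp G N X hpN (c.1 g) (hc g)
  let c' : G → (edgeB N X).V := fun g => ⟨c.1 g, hmem g⟩
  have hc' : c' ∈ groupCohomology.cocycles₁ (edgeB N X) := by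
    rw [groupCohomology.mem_cocycles₁_iff]
    intro g h
    apply Subtype.ext
    exact (groupCohomology.mem_cocycles₁_iff c.1).1 c.2 g h
  refine ⟨groupCohomology.H1π _ ⟨c', hc'⟩, ?_⟩
  unfold edgeIncl
  erw [groupCohomology.H1π_comp_map_apply]
  congr 1

end Spec

end Fermat.Agent.S55.E1.H423

end
-- ===== PACK-END S55/E1/H423/Alg9a.lean

-- ===== PACK-BEGIN S55/E1/H895/Alg11Core.lean
section
/-
S55 engine E1, leaf ALG11 (helper895), part 1: the algebraic core, for a GENERIC ring `k`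
(this avoids the `ℤ`-module diamond) and ABSTRACT presentations.

Setting: `π : G' ↠ G` with kernel `H`, `ν₀ : α' → α` bijective, `P = k[G]^{(α)}`,
`P' = k[G']^{(α')}`, `tP : P' → P` (`g' e_{a'} ↦ π(g') e_{ν₀ a'}`), subrepresentations
`iR : R ↪ P`, `iR' : R' ↪ P'` with `R' = tP⁻¹(R)`, `tR : R' → R` the restriction of `tP`;
`ι : X ↪ X'` semilinear with image `X'^H`; Hilbert 90 for `(H, X')` in cocycle form.

`exists_primitive` : if `c : G → Hom_k(R, X)` satisfies `c 1 = 0` and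
`ι ∘ c(π g') ∘ tR = g' φ - φ` for some `φ ∈ Hom_k(R', X')`, then `c(g) = g ψ - ψ` for some
`ψ ∈ Hom_k(R, X)`.
-/


set_option autoImplicit false
set_option linter.unusedSectionVars false
set_option linter.unusedVariables false

open CategoryTheory CategoryTheory.Limits groupCohomology

namespace Fermat.Agent.S55.E1.H895

noncomputable section

/-! ## Injectivity criterion on `H¹` -/

section LayerA

variable {k G G' : Type} [CommRing k] [Group G] [Group G'] (π : G' →* G)
variable {M : Rep.{0} k G} {M' : Rep.{0} k G'} (Φ : Rep.res π M ⟶ M')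

/-- Injectivity criterion for `H¹(G, M) → H¹(G', M')` in terms of cocycles. -/
theorem map_one_injective_of
    (h : ∀ (c : cocycles₁ M) (m' : M'.V),
      (∀ g' : G', Φ.hom (c (π g')) = M'.ρ g' m' - m') →
      ∃ m : M.V, ∀ g : G, c g = M.ρ g m - m) :
    Function.Injective (groupCohomology.map π Φ 1).hom := by
  rw [injective_iff_map_eq_zero]
  intro x hx
  induction x using H1_induction_on with | @h c =>
  rw [H1π_comp_map_apply] at hx
  obtain ⟨m', hm'⟩ := (H1π_eq_zero_iff _).1 hx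
  obtain ⟨m, hm⟩ := h c m' (fun g' => by
    have := congrFun hm' g'
    rw [coe_mapCocycles₁] at this
    exact this.symm)
  refine (H1π_eq_zero_iff _).2 ⟨m, ?_⟩
  funext g
  exact (hm g).symm

end LayerA

/-! ## The basis of a free module `k[G]^{(α)}` -/

section FreeBasis

variable {k G α V : Type} [CommRing k] [Group G] [AddCommGroup V] [Module k V]

/-- The basis element `g • e_a` of `k[G]^{(α)}`. -/
def bas (k : Type) [CommRing k] {G α : Type} [Group G] (a : α) (g : G) : (Rep.free k G α).V :=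
  Finsupp.single a (MonoidAlgebra.single g (1 : k))

/-- The `k`-linear map out of `k[G]^{(α)}` with prescribed values on the basis `g • e_a`. -/
def basLift (v : α → G → V) : (Rep.free k G α).V →ₗ[k] V :=
  Finsupp.linearCombination k (fun x : α × G => v x.1 x.2) ∘ₗ
    (Finsupp.curryLinearEquiv k).symm.toLinearMap ∘ₗ
    Finsupp.mapRange.linearMap (MonoidAlgebra.coeffLinearEquiv _).toLinearMap

lemma basLift_bas (v : α → G → V) (a : α) (g : G) : basLift v (bas k a g) = v a g := by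
  simp [basLift, bas]

lemma free_ρ_bas (g h : G) (a : α) : (Rep.free k G α).ρ g (bas k a h) = bas k a (g * h) := by
  simp [bas]

/-- Linear maps out of `k[G]^{(α)}` agree if they agree on the basis. -/
lemma linearMap_ext_bas {f₁ f₂ : (Rep.free k G α).V →ₗ[k] V}
    (h : ∀ a g, f₁ (bas k a g) = f₂ (bas k a g)) : f₁ = f₂ := by
  ext a g
  simpa [bas] using h a g

lemma freeLift_bas (A : Rep.{0} k G) (x : α → A.V) (a : α) (g : G) :
    (Rep.freeLift k G A x).hom (bas k a g) = A.ρ g (x a) := by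
  simp [bas]

end FreeBasis

/-! ## The core lemma -/

section Core

variable {k G G' α α' : Type} [CommRing k] [Group G] [Group G'] (π : G' →* G)
variable (ν₀ : α' → α)

/-- `tP : P' → P`, `g' e_{a'} ↦ π(g') e_{ν₀ a'}`. -/
def tP : Rep.free k G' α' ⟶ Rep.res π (Rep.free k G α) :=
  Rep.freeLift k G' (Rep.res π (Rep.free k G α)) (fun a' => bas k (ν₀ a') 1)

lemma tP_bas (a' : α') (g' : G') :
    (tP (k := k) π ν₀).hom (bas k a' g') = bas k (ν₀ a') (π g') := by
  unfold tP
  rw [freeLift_bas]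
  change (Rep.free k G α).ρ (π g') (bas k (ν₀ a') 1) = _
  rw [free_ρ_bas, mul_one]

variable {R X : Rep.{0} k G} {R' X' : Rep.{0} k G'}
variable (iR : R ⟶ Rep.free k G α) (iR' : R' ⟶ Rep.free k G' α')
variable (tR : R' ⟶ Rep.res π R) (ι : Rep.res π X ⟶ X')

lemma res_ρ_apply {A : Rep.{0} k G} (g' : G') (x : A.V) :
    (Rep.res π A).ρ g' x = A.ρ (π g') x := rfl

theorem exists_primitive
    (hπ : Function.Surjective π) (hν : Function.Bijective ν₀)
    (hiR : Function.Injective iR.hom) (hiR' : Function.Injective iR'.hom)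
    (hsq : ∀ r' : R'.V, iR.hom (tR.hom r') = (tP (k := k) π ν₀).hom (iR'.hom r'))
    (hpre : ∀ y' : (Rep.free k G' α').V,
      (∃ r : R.V, iR.hom r = (tP (k := k) π ν₀).hom y') → ∃ r' : R'.V, iR'.hom r' = y')
    (hι : Function.Injective ι.hom)
    (hinv : ∀ x' : X'.V, (∀ h ∈ π.ker, X'.ρ h x' = x') → ∃ x : X.V, ι.hom x = x')
    (h90 : ∀ z : π.ker → X'.V, (∀ h₁ h₂ : π.ker, z (h₁ * h₂) = X'.ρ h₁ (z h₂) + z h₁) →
      ∃ x' : X'.V, ∀ h : π.ker, z h = X'.ρ h x' - x')
    (c : G → (R.V →ₗ[k] X.V)) (hc1 : c 1 = 0) (φ : R'.V →ₗ[k] X'.V)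
    (hφ : ∀ (g' : G') (r' : R'.V),
      ι.hom (c (π g') (tR.hom r')) = X'.ρ g' (φ (R'.ρ g'⁻¹ r')) - φ r') :
    ∃ ψ : R.V →ₗ[k] X.V, ∀ (g : G) (r : R.V), c g r = X.ρ g (ψ (R.ρ g⁻¹ r)) - ψ r := by
  classical
  -- equivariance facts
  have etR : ∀ (g' : G') (r' : R'.V), tR.hom (R'.ρ g' r') = R.ρ (π g') (tR.hom r') :=
    fun g' r' => Rep.hom_comm_apply tR g' r'
  have eι : ∀ (g' : G') (x : X.V), ι.hom (X.ρ (π g') x) = X'.ρ g' (ι.hom x) :=
    fun g' x => Rep.hom_comm_apply ι g' x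
  have eiR' : ∀ (g' : G') (r' : R'.V), iR'.hom (R'.ρ g' r') =
      (Rep.free k G' α').ρ g' (iR'.hom r') := fun g' r' => Rep.hom_comm_apply iR' g' r'
  -- Step 1: `φ` is `H`-equivariant
  have s1 : ∀ h ∈ π.ker, ∀ r' : R'.V, φ (R'.ρ h r') = X'.ρ h (φ r') := by
    intro h hh r'
    have := hφ h (R'.ρ h r')
    rw [MonoidHom.mem_ker.1 hh, hc1, LinearMap.zero_apply, map_zero] at this
    have h2 : R'.ρ h⁻¹ (R'.ρ h r') = r' := by
      rw [← Module.End.mul_apply, ← map_mul, inv_mul_cancel, map_one]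
      rfl
    rw [h2] at this
    exact (sub_eq_zero.1 this.symm).symm
  -- Step 2: the elements `w h a' = (h - 1) e_{a'} ∈ R'` and the cocycles `z a'`
  have hw : ∀ (h : π.ker) (a' : α'), ∃ r' : R'.V,
      iR'.hom r' = bas k a' (h : G') - bas k a' 1 := by
    intro h a'
    refine hpre _ ⟨0, ?_⟩
    rw [map_zero, map_sub, tP_bas, tP_bas, MonoidHom.mem_ker.1 h.2, map_one, sub_self]
  choose w hw using hw
  have htRw : ∀ (h : π.ker) (a' : α'), tR.hom (w h a') = 0 := by
    intro h a'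
    apply hiR
    rw [hsq, hw, map_zero, map_sub, tP_bas, tP_bas, MonoidHom.mem_ker.1 h.2, map_one, sub_self]
  have hwmul : ∀ (h₁ h₂ : π.ker) (a' : α'),
      w (h₁ * h₂) a' = R'.ρ h₁ (w h₂ a') + w h₁ a' := by
    intro h₁ h₂ a'
    apply hiR'
    rw [map_add, eiR', hw, hw, hw, map_sub, free_ρ_bas, free_ρ_bas, mul_one]
    change bas k a' ((h₁ : G') * (h₂ : G')) - bas k a' 1 = _
    abel
  have hz : ∀ a' : α', ∃ x' : X'.V, ∀ h : π.ker, φ (w h a') = X'.ρ h x' - x' := by
    intro a'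
    refine h90 (fun h => φ (w h a')) ?_
    intro h₁ h₂
    rw [hwmul, map_add, s1 _ h₁.2]
  choose x hx using hz
  -- Step 3: correct `φ` by the `G'`-map `θ : P' → X'`, `e_{a'} ↦ x a'`
  let θ : Rep.free k G' α' ⟶ X' := Rep.freeLift k G' X' x
  have hθ : ∀ (a' : α') (g' : G'), θ.hom (bas k a' g') = X'.ρ g' (x a') :=
    fun a' g' => freeLift_bas X' x a' g'
  have eθ : ∀ (g' : G') (y : (Rep.free k G' α').V),
      θ.hom ((Rep.free k G' α').ρ g' y) = X'.ρ g' (θ.hom y) :=
    fun g' y => Rep.hom_comm_apply θ g' y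
  let φ₁ : R'.V →ₗ[k] X'.V := φ - θ.hom.toLinearMap ∘ₗ iR'.hom.toLinearMap
  have hφ₁ : ∀ r' : R'.V, φ₁ r' = φ r' - θ.hom (iR'.hom r') := fun r' => rfl
  have s3a : ∀ (h : π.ker) (a' : α'), φ₁ (w h a') = 0 := by
    intro h a'
    rw [hφ₁, hw, map_sub, hθ, hθ, map_one, hx]
    simp
  have s3b : ∀ (g' : G') (r' : R'.V),
      ι.hom (c (π g') (tR.hom r')) = X'.ρ g' (φ₁ (R'.ρ g'⁻¹ r')) - φ₁ r' := by
    intro g' r'
    rw [hφ₁, hφ₁, hφ g' r', map_sub, eiR', eθ, ← Module.End.mul_apply, ← map_mul,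
      mul_inv_cancel, map_one]
    simp
  have s3c : ∀ (g' : G') (r' : R'.V), tR.hom r' = 0 → φ₁ (R'.ρ g' r') = X'.ρ g' (φ₁ r') := by
    intro g' r' hr'
    have := s3b g' (R'.ρ g' r')
    rw [etR, hr', map_zero, map_zero, map_zero] at this
    have h2 : R'.ρ g'⁻¹ (R'.ρ g' r') = r' := by
      rw [← Module.End.mul_apply, ← map_mul, inv_mul_cancel, map_one]
      rfl
    rw [h2] at this
    exact (sub_eq_zero.1 this.symm).symm
  -- Step 4: a section of `tP` and the map `D : P' → R'`, `y ↦ y - σ (tP y)`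
  let s : G → G' := Function.surjInv hπ
  have hs : ∀ g, π (s g) = g := Function.surjInv_eq hπ
  let νi : α → α' := Function.surjInv hν.2
  have hνi : ∀ a, ν₀ (νi a) = a := Function.surjInv_eq hν.2
  have hνi' : ∀ a', νi (ν₀ a') = a' := fun a' => hν.1 (hνi (ν₀ a'))
  let σ : (Rep.free k G α).V →ₗ[k] (Rep.free k G' α').V :=
    basLift (fun a g => bas k (νi a) (s g))
  have hσ : ∀ a g, σ (bas k a g) = bas k (νi a) (s g) := fun a g => basLift_bas _ a g
  have hker : ∀ g' : G', (s (π g'))⁻¹ * g' ∈ π.ker := by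
    intro g'
    rw [MonoidHom.mem_ker, map_mul, map_inv, hs, inv_mul_cancel]
  let D : (Rep.free k G' α').V →ₗ[k] R'.V :=
    basLift (fun a' g' => R'.ρ (s (π g')) (w ⟨(s (π g'))⁻¹ * g', hker g'⟩ a'))
  have hD : ∀ a' g', D (bas k a' g') = R'.ρ (s (π g')) (w ⟨(s (π g'))⁻¹ * g', hker g'⟩ a') :=
    fun a' g' => basLift_bas _ a' g'
  have hDi : ∀ y : (Rep.free k G' α').V,
      iR'.hom (D y) = y - σ ((tP (k := k) π ν₀).hom y) := by
    intro y
    have : iR'.hom.toLinearMap ∘ₗ D =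
        LinearMap.id - σ ∘ₗ (tP (k := k) π ν₀).hom.toLinearMap := by
      apply linearMap_ext_bas
      intro a' g'
      change iR'.hom (D (bas k a' g')) = bas k a' g' - σ ((tP (k := k) π ν₀).hom (bas k a' g'))
      rw [hD, eiR', hw, map_sub, free_ρ_bas, free_ρ_bas, tP_bas, hσ, hνi', mul_one]
      change bas k a' (s (π g') * ((s (π g'))⁻¹ * g')) - _ = _
      rw [mul_inv_cancel_left]
    exact LinearMap.congr_fun this y
  have hφD : ∀ y : (Rep.free k G' α').V, φ₁ (D y) = 0 := by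
    intro y
    have : φ₁ ∘ₗ D = 0 := by
      apply linearMap_ext_bas
      intro a' g'
      change φ₁ (D (bas k a' g')) = 0
      rw [hD, s3c _ _ (htRw _ _), s3a, map_zero]
    exact LinearMap.congr_fun this y
  have hkill : ∀ r' : R'.V, tR.hom r' = 0 → φ₁ r' = 0 := by
    intro r' hr'
    have h1 : D (iR'.hom r') = r' := by
      apply hiR'
      rw [hDi, ← hsq, hr', map_zero, map_zero, sub_zero]
    rw [← h1, hφD]
  -- Step 5: a linear section `ρsec` of `tR` and `ψ' = φ₁ ∘ ρsec`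
  have htPσ : ∀ y : (Rep.free k G α).V, (tP (k := k) π ν₀).hom (σ y) = y := by
    intro y
    have : (tP (k := k) π ν₀).hom.toLinearMap ∘ₗ σ = LinearMap.id := by
      apply linearMap_ext_bas
      intro a g
      change (tP (k := k) π ν₀).hom (σ (bas k a g)) = bas k a g
      rw [hσ, tP_bas, hνi, hs]
    exact LinearMap.congr_fun this y
  have hmem : ∀ r : R.V, σ (iR.hom r) ∈ LinearMap.range iR'.hom.toLinearMap := by
    intro r
    obtain ⟨r', hr'⟩ := hpre (σ (iR.hom r)) ⟨r, (htPσ _).symm⟩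
    exact ⟨r', hr'⟩
  let e := LinearEquiv.ofInjective iR'.hom.toLinearMap hiR'
  let ρsec : R.V →ₗ[k] R'.V :=
    e.symm.toLinearMap ∘ₗ
      (σ ∘ₗ iR.hom.toLinearMap).codRestrict (LinearMap.range iR'.hom.toLinearMap) hmem
  have hρsec : ∀ r : R.V, iR'.hom (ρsec r) = σ (iR.hom r) := by
    intro r
    have := e.apply_symm_apply
      ((σ ∘ₗ iR.hom.toLinearMap).codRestrict (LinearMap.range iR'.hom.toLinearMap) hmem r)
    exact congrArg Subtype.val this
  have htRρ : ∀ r : R.V, tR.hom (ρsec r) = r := by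
    intro r
    apply hiR
    rw [hsq, hρsec, htPσ]
  let ψ' : R.V →ₗ[k] X'.V := φ₁ ∘ₗ ρsec
  have hψ' : ∀ r' : R'.V, ψ' (tR.hom r') = φ₁ r' := by
    intro r'
    have h1 : φ₁ (r' - ρsec (tR.hom r')) = 0 := by
      apply hkill
      rw [map_sub, htRρ, sub_self]
    rw [map_sub, sub_eq_zero] at h1
    exact h1.symm
  -- Step 6: the values of `ψ'` are `H`-invariant
  have s6 : ∀ (r : R.V), ∀ h ∈ π.ker, X'.ρ h (ψ' r) = ψ' r := by
    intro r h hh
    have h1 := s3b h (ρsec r)
    rw [MonoidHom.mem_ker.1 hh, hc1, LinearMap.zero_apply, map_zero] at h1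
    have h2 : φ₁ (R'.ρ h⁻¹ (ρsec r)) = ψ' r := by
      rw [← hψ', etR, htRρ, map_inv, MonoidHom.mem_ker.1 hh, inv_one, map_one]
      rfl
    rw [h2] at h1
    have h3 : φ₁ (ρsec r) = ψ' r := rfl
    rw [h3] at h1
    exact sub_eq_zero.1 h1.symm
  -- Step 7: `ψ' = ι ∘ ψ`
  have hmemι : ∀ r : R.V, ψ' r ∈ LinearMap.range ι.hom.toLinearMap := by
    intro r
    obtain ⟨x, hx⟩ := hinv (ψ' r) (s6 r)
    exact ⟨x, hx⟩
  let eι' := LinearEquiv.ofInjective ι.hom.toLinearMap hι
  let ψ : R.V →ₗ[k] X.V :=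
    eι'.symm.toLinearMap ∘ₗ ψ'.codRestrict (LinearMap.range ι.hom.toLinearMap) hmemι
  have hψ : ∀ r : R.V, ι.hom (ψ r) = ψ' r := by
    intro r
    have := eι'.apply_symm_apply (ψ'.codRestrict (LinearMap.range ι.hom.toLinearMap) hmemι r)
    exact congrArg Subtype.val this
  -- Step 8: `c = dψ`
  refine ⟨ψ, ?_⟩
  intro g r
  obtain ⟨g', rfl⟩ := hπ g
  apply hι
  have h1 := s3b g' (ρsec r)
  rw [htRρ] at h1
  rw [h1, map_sub, eι, hψ, hψ, ← hψ', ← hψ' (ρsec r), etR, htRρ, map_inv]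

end Core

end

end Fermat.Agent.S55.E1.H895

end
-- ===== PACK-END S55/E1/H895/Alg11Core.lean

-- ===== PACK-BEGIN S55/E1/H895/Alg11.lean
section
/-
S55 engine E1, leaf **ALG11 (local injectivity)** — helper895.   `theorem alg11 : ALG11Spec`.

`π : G' ↠ G` with kernel `H`, `N' ≅ res_π N`, `ι : X → X'` injective with image `X'^H`,
`H¹(H, X') = 0`  ⇒  `tr : 𝔈²_G(X) → 𝔈²_{G'}(X')` is injective.
Proof: cocycle argument of `coord/S55-E1-ALG911.md` (core: `Alg11Core.exists_primitive`).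
-/



set_option autoImplicit false
set_option linter.unusedSectionVars false
set_option linter.unusedVariables false

open CategoryTheory CategoryTheory.Limits groupCohomology

namespace Fermat.Agent.S55.E1.H895

noncomputable section

variable {G G' : Type} [Group G] [Group G']

lemma tP_eq_trP (π : G' →* G) {N : Rep.{0} ℤ G} {N' : Rep.{0} ℤ G'} (ν : N' ⟶ Rep.res π N) :
    tP (k := ℤ) π (fun n' : N'.V => ν.hom n') = trP π ν := rfl

/-- Hilbert 90 in cocycle form from the vanishing of `H¹`. -/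
lemma h90_of_isZero {k : Type} [CommRing k] (X' : Rep.{0} k G') (H : Subgroup G')
    (h : IsZero (groupCohomology (Rep.res H.subtype X') 1))
    (z : H → X'.V) (hz : ∀ h₁ h₂ : H, z (h₁ * h₂) = X'.ρ h₁ (z h₂) + z h₁) :
    ∃ x' : X'.V, ∀ h : H, z h = X'.ρ h x' - x' := by
  have hmem : z ∈ cocycles₁ (Rep.res H.subtype X') :=
    (mem_cocycles₁_iff (A := Rep.res H.subtype X') z).2 hz
  have h0 : H1π (Rep.res H.subtype X') ⟨z, hmem⟩ = 0 := by
    have := (ModuleCat.isZero_iff_subsingleton.1 h)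
    exact Subsingleton.elim _ _
  obtain ⟨x', hx'⟩ := (H1π_eq_zero_iff _).1 h0
  exact ⟨x', fun h => (congrFun hx' h).symm⟩

/-- Extensionality for elements of `Hom_k(R, X)` (generic `k`). -/
lemma ihom_ext_lin {k : Type} [CommRing k] {R X : Rep.{0} k G}
    {φ ψ : ((Rep.ihom R).obj X).V}
    (h : ∀ r : R.V, Fermat.Agent.S55.T.H719.ihomLin φ r = Fermat.Agent.S55.T.H719.ihomLin ψ r) :
    φ = ψ :=
  LinearMap.ext h

/-- `R' = ρ⁻¹(R)`: an element of `P'` whose image in `P` lies in `R` lies in `R'`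
(`ν` injective). -/
lemma exists_stdι_of_trP (π : G' →* G) {N : Rep.{0} ℤ G} {N' : Rep.{0} ℤ G'}
    (ν : N' ⟶ Rep.res π N) (hν : Function.Injective ν.hom) (y' : (stdP N').V)
    (h : ∃ r : (stdR N).V, (stdι N).hom r = (trP π ν).hom y') :
    ∃ r' : (stdR N').V, (stdι N').hom r' = y' := by
  obtain ⟨r, hr⟩ := h
  have hex := (Fermat.Agent.S55.T.H719.rep_shortExact_iff (stdSC N')).1 (stdSC_shortExact N')
  have hex0 := (Fermat.Agent.S55.T.H719.rep_shortExact_iff (stdSC N)).1 (stdSC_shortExact N)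
  refine hex.2.2 y' ?_
  apply hν
  have h1 : ν.hom ((stdε N').hom y') = (stdε N).hom ((trP π ν).hom y') :=
    (trP_stdε_apply π ν y').symm
  change ν.hom ((stdε N').hom y') = ν.hom 0
  rw [h1, ← hr, map_zero]
  have h2 : stdι N ≫ stdε N = 0 := (stdSC N).zero
  exact congrArg (fun t => t.hom r) h2

/-- **ALG11** (local injectivity). -/
theorem alg11 : ALG11Spec := by
  intro G G' _ _ _ π hπ N N' ν X X' ι hι hinv hH90
  have hνbij : Function.Bijective (fun n' : N'.V => ν.hom.hom n') := by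
    constructor
    · intro a b hab
      have := congrArg (fun t => ν.inv.hom t) hab
      simpa using this
    · intro b
      exact ⟨ν.inv.hom b, by simp⟩
  unfold trE2
  apply map_one_injective_of
  intro c m' hm'
  obtain ⟨ψ, hψ⟩ := exists_primitive (k := ℤ) π (fun n' : N'.V => ν.hom.hom n')
    (stdι N) (stdι N') (trR π ν.hom) ι hπ hνbij
    (Fermat.Agent.S55.E1.H304.stdι_injective N) (Fermat.Agent.S55.E1.H304.stdι_injective N')
    (fun r' => trR_stdι_apply π ν.hom r')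
    (fun y' hy' => exists_stdι_of_trP π ν.hom hνbij.1 y' hy')
    hι hinv (h90_of_isZero X' π.ker hH90)
    (fun g => Fermat.Agent.S55.T.H719.ihomLin (c g)) (cocycles₁_map_one c)
    (Fermat.Agent.S55.T.H719.ihomLin m')
    (fun g' r' => by
      have := congrArg (fun t : ((Rep.ihom (stdR N')).obj X').V =>
        Fermat.Agent.S55.T.H719.ihomLin t r') (hm' g')
      exact this)
  refine ⟨Fermat.Agent.S55.T.H719.ihomMk ψ, fun g => ?_⟩
  exact ihom_ext_lin (fun r => hψ g r)

end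

end Fermat.Agent.S55.E1.H895

end
-- ===== PACK-END S55/E1/H895/Alg11.lean

-- ===== PACK-BEGIN S55/GAD/IsoH594.lean
section
/-
S55 / G-ADAPTER leaf GAD-ISO (helper594): comparison of the class module of layer G with the
class module of the concrete tower datum (coord/S55-E1-GAD.md §3).

For a tower level `L : Tow.Level S`:
* `psi L : Additive (G.AS S L.F)ˣ ≃ₗ[ℤ] GAD.JSV L`  (= TENS, `E1/H594/TensS.lean`), equivariant,
  `psi_unitsDiag : psi (unitsDiag y) q = (L.diag q) (levelUnitsIso y)`;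
* `psiD L : G.JD S L.F ≃ₗ[ℤ] GAD.JDV L`, `psiD_diagHom`, `map_principal`;
* **`crepIso L : G.CRep S L.Gal L.F ≅ GAD.CT L`** in `Rep ℤ L.Gal`, with
  `crepIso_hom_mk : Φ [y] = mkC (psiD y)`, `crepIso_hom_jToC : Φ (j u) = mkC (psi u, 0)
  = ∑ q, jT q (psi u q)`, and `jT_eq : jT L q = tensIncl L q ≫ jToCRepHom ≫ Φ` (`q ∈ S`).
No `sorry`.
-/



set_option autoImplicit false
set_option linter.unusedSectionVars false
set_option linter.style.haveILetI false

open CategoryTheory

namespace Fermat.Agent.S55.GAD.H594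

open Fermat.Agent.S55 Fermat.Agent.S55.Tow Fermat.Agent.S55.E1.H594 Fermat.Agent.S55.G
open Fermat.Agent.S55.GAD

noncomputable section

variable {S : Finset Nat.Primes} (L : Level S)

/-- `Ψ_L : J_S(F) = (F ⊗ ℚ_S)ˣ ≃ ∏_{q ∈ S} J_q(F)` (TENS) as a `ℤ`-linear equivalence. -/
def psi : Additive (AS S L.F)ˣ ≃ₗ[ℤ] JSV L := (tensEquiv L).toIntLinearEquiv

theorem psi_apply (u : Additive (AS S L.F)ˣ) (q : S) : psi L u q = tensEquiv L u q := rfl

theorem psi_equivariant (g : L.Gal) (u : Additive (AS S L.F)ˣ) :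
    psi L (jRepr L.Gal S L.F g u) = jsRepr L g (psi L u) :=
  funext fun q => tensEquiv_equivariant L g u q

/-- The value of the tower's diagonal map, in `ℚ̄_q`. -/
theorem locVal_diag (x : L.units.V) (q : Nat.Primes) (g : L.Gal) :
    E1.H594.locVal L q (((L.diag q).hom x).1 g) =
      padicEmbedding (q : ℕ) (levelInvVal L (L.units.ρ g x)) := rfl

theorem levelInvVal_ρ_hom (y : Additive (L.F)ˣ) (g : L.Gal) :
    levelInvVal L (L.units.ρ g ((levelUnitsIso L).hom.hom y)) =
      ((g • ((y.toMul : (L.F)ˣ) : L.F) : L.F) : Qbar) := by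
  have h1 := Rep.hom_comm_apply (levelUnitsIso L).hom g y
  rw [← h1]
  exact coe_levelUnitsIso_hom_apply L _

/-- `Ψ_L` is compatible with the diagonal embeddings of `Fˣ`. -/
theorem psi_unitsDiag (y : Additive (L.F)ˣ) (q : S) :
    psi L (unitsDiag S L.F y) q = (L.diag q.1).hom ((levelUnitsIso L).hom.hom y) := by
  apply E1.H594.J_ext
  intro g
  rw [psi_apply, tensEquiv_unitsDiag, locVal_diag, levelInvVal_ρ_hom]

/-- `Ψ_L × id : J_S(F) × Div^S(F) ≃ ∏ J_q(F) × Div^S(F)`. -/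
def psiD : JD S L.F ≃ₗ[ℤ] JDV L :=
  LinearEquiv.prodCongr (psi L) (LinearEquiv.refl ℤ (PrimeOut S L.F →₀ ℤ))

theorem psiD_apply (y : JD S L.F) : psiD L y = (psi L y.1, y.2) := rfl

theorem psiD_equivariant (g : L.Gal) (y : JD S L.F) :
    psiD L (G.jdRepr S L.Gal L.F g y) = GAD.jdRepr L g (psiD L y) :=
  Prod.ext (psi_equivariant L g y.1) rfl

theorem toField_hom (y : Additive (L.F)ˣ) : toField L ((levelUnitsIso L).hom.hom y) = y :=
  Rep.inv_hom_apply _ _ (levelUnitsIso L) y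

theorem hom_toField (x : L.units.V) : (levelUnitsIso L).hom.hom (toField L x) = x :=
  Rep.hom_inv_apply _ _ (levelUnitsIso L) x

/-- `Ψ_L × id` maps the diagonal of layer G to the diagonal of the tower datum. -/
theorem psiD_diagHom (y : Additive (L.F)ˣ) :
    psiD L (diagHom S L.F y) = diagT L ((levelUnitsIso L).hom.hom y) := by
  refine Prod.ext (funext fun q => ?_) ?_
  · exact psi_unitsDiag L y q
  · change ordHom S L.F y = ordHom S L.F (toField L ((levelUnitsIso L).hom.hom y))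
    rw [toField_hom]

theorem psiD_diagHom_toField (x : L.units.V) :
    psiD L (diagHom S L.F (toField L x)) = diagT L x := by
  rw [psiD_diagHom, hom_toField]

/-- `Ψ_L × id` maps the principal idèles onto the principal elements of the tower datum. -/
theorem map_principal :
    (principal S L.F).map (psiD L : JD S L.F →ₗ[ℤ] JDV L) = princ L := by
  apply le_antisymm
  · rintro _ ⟨_, ⟨y, rfl⟩, rfl⟩
    exact ⟨(levelUnitsIso L).hom.hom y, (psiD_diagHom L y).symm⟩
  · rintro _ ⟨x, rfl⟩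
    exact ⟨diagHom S L.F (toField L x), ⟨toField L x, rfl⟩, psiD_diagHom_toField L x⟩

/-- The underlying linear equivalence of `Φ_L`. -/
def isoLin : CS S L.F ≃ₗ[ℤ] (CT L).V :=
  Submodule.Quotient.equiv (principal S L.F) (princ L) (psiD L) (_root_.Fermat.Agent.S55.GAD.H594.map_principal L)

theorem isoLin_mk (y : JD S L.F) :
    isoLin L ((principal S L.F).mkQ y) = mkC L (psiD L y) := rfl

theorem isoLin_equivariant (g : L.Gal) (c : CS S L.F) :
    isoLin L (cRepr S L.Gal L.F g c) = (CT L).ρ g (isoLin L c) := by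
  obtain ⟨y, rfl⟩ := Submodule.mkQ_surjective (principal S L.F) c
  change isoLin L ((principal S L.F).mkQ (G.jdRepr S L.Gal L.F g y)) = _
  rw [isoLin_mk, isoLin_mk, psiD_equivariant]
  rfl

/-- `Φ_L` as an equivalence of representations. -/
def isoEquiv : (cRepr S L.Gal L.F).Equiv (CT L).ρ :=
  Representation.Equiv.mk (isoLin L) (fun g => LinearMap.ext fun c => isoLin_equivariant L g c)

/-- **GAD-ISO**: `Φ_L : C_S(F) ≅ C(L)`, the class module of layer G is the class module of the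
concrete tower datum. -/
def crepIso : CRep S L.Gal L.F ≅ CT L := Rep.mkIso (isoEquiv L)

theorem crepIso_hom_apply (c : CS S L.F) : (crepIso L).hom.hom c = isoLin L c := rfl

theorem crepIso_hom_mk (y : JD S L.F) :
    (crepIso L).hom.hom ((principal S L.F).mkQ y) = mkC L (psiD L y) := rfl

theorem crepIso_hom_quot (y : JD S L.F) :
    (crepIso L).hom.hom ((quotRepHom S L.Gal L.F).hom y) = mkC L (psiD L y) := rfl

/-- `Φ ∘ (J_S → C_S) = mkC ∘ (Ψ, 0)`. -/
theorem crepIso_hom_jToC (u : Additive (AS S L.F)ˣ) :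
    (crepIso L).hom.hom ((jToCRepHom S L.Gal L.F).hom u) = mkC L (psi L u, 0) := rfl

/-- `Φ ∘ (J_S → C_S) = ∑_q j_q ∘ Ψ_q`. -/
theorem crepIso_hom_jToC_eq_sum (u : Additive (AS S L.F)ˣ) :
    (crepIso L).hom.hom ((jToCRepHom S L.Gal L.F).hom u) =
      ∑ q : S, (jT L q.1).hom (psi L u q) := by
  rw [crepIso_hom_jToC, sum_jT]

/-- `j_q = Φ ∘ (J_S → C_S) ∘ incl_q` for `q ∈ S`, elementwise. -/
theorem jT_apply_eq (q : S) (f : (L.J q.1).V) :
    (jT L q.1).hom f =
      (crepIso L).hom.hom ((jToCRepHom S L.Gal L.F).hom ((tensIncl L q).hom f)) := by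
  classical
  rw [crepIso_hom_jToC, jT_apply_of_mem]
  have h : psi L ((tensIncl L q).hom f) = Pi.single q f := tensEquiv_tensInclFun L q f
  rw [h]

/-- `j_q = incl_q ≫ (J_S → C_S) ≫ Φ` for `q ∈ S`, in `Rep ℤ L.Gal`. -/
theorem jT_eq (q : S) :
    jT L q.1 = tensIncl L q ≫ jToCRepHom S L.Gal L.F ≫ (crepIso L).hom := by
  apply Rep.hom_ext
  apply Representation.IntertwiningMap.ext
  exact LinearMap.ext fun f => jT_apply_eq L q f

end

end Fermat.Agent.S55.GAD.H594

end
-- ===== PACK-END S55/GAD/IsoH594.lean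

-- ===== PACK-BEGIN S55/G/SIndH237/H95/Main.lean
section
/-
S55 / layer G / G-SIND:UCT (helper95).  Part 7: `UnitsCohTrivSpec`.

Unit idèles at unramified primes are cohomologically trivial in degrees `1` and `2`:
the abstract theorem (`Complete.lean`) applied to `R = RS T L`, `I = n · RS`.
-/



set_option autoImplicit false
set_option linter.unusedSectionVars false
set_option linter.style.haveILetI false

open scoped NumberField TensorProduct
open IsDedekindDomain CategoryTheory groupCohomology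

noncomputable section

namespace Fermat.Agent.S55.G.SIndH237.H95

open Fermat.Agent.S55.G Fermat.Agent.S55.G.SIndH237 Fermat.Agent.S55.G.SIndH237.H63
  Fermat.Agent.S55.G.SIndH237.H959 Fermat.Agent.S55.T

variable (T : Finset Nat.Primes) (G L : Type) [Group G] [Field L] [NumberField L]
  [MulSemiringAction G L]

/-! ## The Galois action on the integral model -/

/-- The action of `G` on the integral model `RS T L` (a definition, NOT a global instance). -/
@[reducible] def rsAct : MulSemiringAction G (RS T L) where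
  smul g z := ⟨asAut T G L g z.1, asAut_mem_RS T G L g z.2⟩
  one_smul z := Subtype.ext (by
    change asAut T G L 1 z.1 = z.1
    rw [map_one]; rfl)
  mul_smul g h z := Subtype.ext (by
    change asAut T G L (g * h) z.1 = asAut T G L g (asAut T G L h z.1)
    rw [map_mul]; rfl)
  smul_zero g := Subtype.ext (map_zero (asAut T G L g))
  smul_add g x y := Subtype.ext (map_add (asAut T G L g) x.1 y.1)
  smul_one g := Subtype.ext (map_one (asAut T G L g))
  smul_mul g x y := Subtype.ext (map_mul (asAut T G L g) x.1 y.1)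

attribute [local instance] rsAct unitsAct

lemma coe_rsAct_smul (g : G) (z : RS T L) : ((g • z : RS T L) : AS T L) = asAut T G L g z := rfl

lemma rsAct_smul_natCast (g : G) (m : ℕ) : g • ((m : ℕ) : RS T L) = m :=
  Subtype.ext (by rw [coe_rsAct_smul, Subring.coe_natCast, map_natCast])

lemma smul_mem_nIdeal (g : G) (x : RS T L) (hx : x ∈ nIdeal T L) : g • x ∈ nIdeal T L := by
  rw [nIdeal, Ideal.mem_span_singleton'] at hx ⊢
  obtain ⟨a, rfl⟩ := hx
  exact ⟨g • a, by rw [smul_mul', rsAct_smul_natCast]⟩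

/-! ## Inertia -/

/-- The ring homomorphism `𝒪_L → RS`, `a ↦ a ⊗ 1`. -/
def intToRS : 𝓞 L →+* RS T L :=
  (((asDiag T L : L →ₐ[ℚ] AS T L) : L →+* AS T L).comp (algebraMap (𝓞 L) L)).codRestrict
    (RS T L) (fun a => tmul_one_mem_RS T L a)

lemma coe_intToRS (a : 𝓞 L) : ((intToRS T L a : RS T L) : AS T L) = (a : L) ⊗ₜ[ℚ] (1 : QS T) :=
  rfl

lemma intToRS_smul (g : G) (a : 𝓞 L) : intToRS T L (g • a) = g • intToRS T L a :=
  Subtype.ext (by
    rw [coe_rsAct_smul, coe_intToRS, coe_intToRS, asAut_tmul]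
    rfl)

lemma natCast_nT_mem_of_isMaximal (m : Ideal (RS T L)) (hm : m.IsMaximal) :
    ((nT T : ℕ) : RS T L) ∈ m := by
  have hJ : nIdeal T L ≤ Ideal.jacobson ⊥ := IsAdicComplete.le_jacobson_bot (nIdeal T L)
  exact (hJ.trans (sInf_le ⟨bot_le, hm⟩)) (Ideal.subset_span rfl)

/-- Trivial inertia at the maximal ideals of `RS`, from `IsUnramAbove`. -/
lemma inertia_RS [FaithfulSMul G L] (hun : IsUnramAbove T G L) (m : Ideal (RS T L))
    (hm : m.IsMaximal) (g : G) (hg : ∀ x : RS T L, g • x - x ∈ m) : g = 1 := by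
  haveI := hm
  set p : Ideal (𝓞 L) := m.comap (intToRS T L) with hp
  have hn : ((nT T : ℕ) : 𝓞 L) ∈ p := by
    rw [hp, Ideal.mem_comap, map_natCast]
    exact natCast_nT_mem_of_isMaximal T L m hm
  have hprime : p.IsPrime := Ideal.comap_isPrime _ _
  have hbot : p ≠ ⊥ := by
    intro h
    rw [h, Ideal.mem_bot] at hn
    exact nT_ne_zero T (by exact_mod_cast hn)
  let w : HeightOneSpectrum (𝓞 L) := ⟨p, hprime, hbot⟩
  have hab : IsAbove T L w := by
    have h1 : ((nT T : ℕ) : 𝓞 L) = ∏ q ∈ T, (((q : ℕ) : ℕ) : 𝓞 L) := by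
      rw [nT, Nat.cast_prod]
    rw [h1] at hn
    obtain ⟨q, hq, hqm⟩ := (Ideal.IsPrime.prod_mem_iff (hp := hprime)).1 hn
    exact ⟨q, hq, hqm⟩
  have htriv : ∀ x : L, g • x = x := hun w hab g fun a => by
    change g • a - a ∈ p
    rw [hp, Ideal.mem_comap, map_sub, intToRS_smul]
    exact hg _
  exact FaithfulSMul.eq_of_smul_eq_smul (α := L) fun x => by rw [htriv x, one_smul]

/-! ## Units of the integral model versus `U_T(L)` -/

/-- An element of `U_T(L)` as a unit of the ring `RS T L`. -/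
def toRU (u : (UT T L).toIntSubmodule) : (RS T L)ˣ where
  val := ⟨((Additive.toMul u.1 : (AS T L)ˣ) : AS T L), u.2.1⟩
  inv := ⟨(((Additive.toMul u.1)⁻¹ : (AS T L)ˣ) : AS T L), u.2.2⟩
  val_inv := Subtype.ext (Units.mul_inv _)
  inv_val := Subtype.ext (Units.inv_mul _)

/-- A unit of the ring `RS T L` as an element of `U_T(L)`. -/
def ofRU (x : (RS T L)ˣ) : (UT T L).toIntSubmodule :=
  ⟨Additive.ofMul (Units.map ((RS T L).subtype : RS T L →* AS T L) x), ⟨x.1.2, x⁻¹.1.2⟩⟩

section Sub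

variable (H : Subgroup G)

/-- `toRU` on the underlying module of the restricted representation. -/
def toRUH (u : (resSub (URep T G L) H).V) : (RS T L)ˣ := toRU T L u

/-- `ofRU` into the underlying module of the restricted representation. -/
def ofRUH (x : (RS T L)ˣ) : (resSub (URep T G L) H).V := ofRU T L x

lemma toRUH_ofRUH (x : (RS T L)ˣ) : toRUH T G L H (ofRUH T G L H x) = x :=
  Units.ext (Subtype.ext rfl)

lemma toRUH_injective : Function.Injective (toRUH T G L H) := by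
  intro u v h
  have h1 := congrArg (fun x : (RS T L)ˣ => ((x : RS T L) : AS T L)) h
  exact Subtype.ext (Additive.toMul.injective (Units.ext h1))

lemma toRUH_add (u v : (resSub (URep T G L) H).V) :
    toRUH T G L H (u + v) = toRUH T G L H u * toRUH T G L H v := Units.ext (Subtype.ext rfl)

lemma toRUH_neg (u : (resSub (URep T G L) H).V) :
    toRUH T G L H (-u) = (toRUH T G L H u)⁻¹ := Units.ext (Subtype.ext rfl)

lemma toRUH_sub (u v : (resSub (URep T G L) H).V) :
    toRUH T G L H (u - v) = toRUH T G L H u / toRUH T G L H v := by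
  rw [sub_eq_add_neg, toRUH_add, toRUH_neg, div_eq_mul_inv]

lemma toRUH_rho (g : H) (u : (resSub (URep T G L) H).V) :
    toRUH T G L H ((resSub (URep T G L) H).ρ g u) = g • toRUH T G L H u :=
  Units.ext (Subtype.ext rfl)

end Sub

/-! ## The theorem -/

variable [Finite G] [FaithfulSMul G L]

lemma inertia_RS_sub (hun : IsUnramAbove T G L) (H : Subgroup G) (m : Ideal (RS T L))
    (hm : m.IsMaximal) (g : H) (hg : ∀ x : RS T L, g • x - x ∈ m) : g = 1 :=
  Subtype.ext (inertia_RS T G L hun m hm (g : G) hg)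

theorem isZero_H1_URep (hun : IsUnramAbove T G L) (H : Subgroup G) :
    Limits.IsZero (groupCohomology (resSub (URep T G L) H) 1) := by
  refine isZero_of_forall_eq_zero fun x => ?_
  induction x using H1_induction_on with
  | h c =>
    rw [H1π_eq_zero_iff]
    have hc := (mem_cocycles₁_iff (c : H → _)).1 c.2
    have hf : IsMulCocycle₁ (fun h : H => toRUH T G L H (c.1 h)) := by
      intro g h
      change toRUH T G L H (c.1 (g * h)) = g • toRUH T G L H (c.1 h) * toRUH T G L H (c.1 g)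
      rw [← toRUH_rho, ← toRUH_add]
      exact congrArg (toRUH T G L H) (hc g h)
    obtain ⟨x, hx⟩ := isMulCoboundary₁_of_complete (H := H) (nIdeal T L)
      (inertia_RS_sub T G L hun H) _ hf
    refine ⟨ofRUH T G L H x, funext fun g => ?_⟩
    apply toRUH_injective T G L H
    change toRUH T G L H ((resSub (URep T G L) H).ρ g (ofRUH T G L H x) - ofRUH T G L H x) =
      toRUH T G L H (c.1 g)
    rw [toRUH_sub, toRUH_rho, toRUH_ofRUH]
    exact hx g

theorem isZero_H2_URep (hun : IsUnramAbove T G L) (H : Subgroup G) :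
    Limits.IsZero (groupCohomology (resSub (URep T G L) H) 2) := by
  refine isZero_of_forall_eq_zero fun x => ?_
  induction x using H2_induction_on with
  | h c =>
    rw [H2π_eq_zero_iff]
    have hc := (mem_cocycles₂_iff (c : H × H → _)).1 c.2
    have hf : IsMulCocycle₂ (fun p : H × H => toRUH T G L H (c.1 p)) := by
      intro g h j
      change toRUH T G L H (c.1 (g * h, j)) * toRUH T G L H (c.1 (g, h)) =
        g • toRUH T G L H (c.1 (h, j)) * toRUH T G L H (c.1 (g, h * j))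
      rw [← toRUH_rho, ← toRUH_add, ← toRUH_add]
      exact congrArg (toRUH T G L H) (hc g h j)
    obtain ⟨x, hx⟩ := isMulCoboundary₂_of_complete (H := H) (nIdeal T L)
      (fun h x hx => smul_mem_nIdeal T G L (h : G) x hx)
      (inertia_RS_sub T G L hun H) _ hf
    refine ⟨fun g => ofRUH T G L H (x g), funext fun p => ?_⟩
    obtain ⟨g, h⟩ := p
    apply toRUH_injective T G L H
    change toRUH T G L H ((resSub (URep T G L) H).ρ g (ofRUH T G L H (x h)) -
      ofRUH T G L H (x (g * h)) + ofRUH T G L H (x g)) = toRUH T G L H (c.1 (g, h))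
    rw [toRUH_add, toRUH_sub, toRUH_rho, toRUH_ofRUH, toRUH_ofRUH, toRUH_ofRUH]
    exact hx g h

/-- **SIND-UCT.** -/
theorem unitsCohTriv : UnitsCohTrivSpec := by
  intro T G L _ _ _ _ _ _ hun H
  exact ⟨isZero_H1_URep T G L hun H, isZero_H2_URep T G L hun H⟩

end Fermat.Agent.S55.G.SIndH237.H95

end
end
-- ===== PACK-END S55/G/SIndH237/H95/Main.lean

-- ===== PACK-BEGIN S41/H45/Rel.lean
section






/-!
# S41, block NE, leaf REL (helper45)

The Frobenius relation `τ² − a_ℓ(W) τ + ℓ = 0` on `E[p](ℚ̄)` for a curve `E/ℚ` with integral model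
`W`:  `frobRelTorsion_h45 : Spec.FrobRelTorsionStatement`.
Transport of `Lib.Frob.FrobRelation` (for the model `W`) along `Lib.VC.vcPointBC`.
-/

set_option autoImplicit false

namespace Fermat.Agent.S41.H45

open WeierstrassCurve WeierstrassCurve.Affine WeierstrassCurve.Affine.Point
open Fermat.Agent.Lib.VC

/-- The Galois action commutes with the change of variables. -/
theorem smul_vcPointBC_h45 (E : WeierstrassCurve ℚ) (C : VariableChange ℚ)
    (τ : AlgebraicClosure ℚ ≃ₐ[ℚ] AlgebraicClosure ℚ)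
    (P : ((C • E)⁄(AlgebraicClosure ℚ)).Point) :
    τ • (vcPointBC E C (AlgebraicClosure ℚ) P) = vcPointBC E C (AlgebraicClosure ℚ) (τ • P) :=
  map_vcPointBC E C τ.toAlgHom P

/-- Transfer of a quadratic relation on torsion points from `C • E` to `E`. -/
theorem rel_transfer_h45 (E W' : WeierstrassCurve ℚ) (C : VariableChange ℚ) (hC : C • E = W')
    (τ : AlgebraicClosure ℚ ≃ₐ[ℚ] AlgebraicClosure ℚ) (a b : ℤ) (n : ℕ)
    (h : ∀ P : (W'⁄(AlgebraicClosure ℚ)).Point, n • P = 0 →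
      τ • τ • P - a • τ • P + b • P = 0)
    (Q : (E⁄(AlgebraicClosure ℚ)).Point) (hQ : n • Q = 0) :
    τ • τ • Q - a • τ • Q + b • Q = 0 := by
  subst hC
  obtain ⟨P, rfl⟩ := (vcPointBC E C (AlgebraicClosure ℚ)).surjective Q
  have hP : n • P = 0 := by
    apply (vcPointBC E C (AlgebraicClosure ℚ)).injective
    rw [map_nsmul, hQ, _root_.map_zero]
  have := congrArg (vcPointBC E C (AlgebraicClosure ℚ)) (h P hP)
  rw [_root_.map_zero, map_add, map_sub, map_zsmul, map_zsmul, ← smul_vcPointBC_h45,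
    ← smul_vcPointBC_h45] at this
  exact this

/-- The Frobenius relation for integral models (on main, S52 row). -/
theorem frobRelation_h45 : Fermat.Agent.Lib.Frob.FrobRelation :=
  Fermat.Agent.Lib.Frob.frobRelation_of_parts Fermat.Agent.Lib.Frob.frobRelationFin
    Fermat.Agent.Lib.Frob.reductionData

/-- **Leaf REL.** -/
theorem frobRelTorsion_h45 : Spec.FrobRelTorsionStatement := by
  intro E _ W hW p ℓ hp hℓ h5 hℓp hgood A τ hA hτ P
  obtain ⟨C, hC⟩ := hW
  have hp0 : 0 < p := hp.pos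
  have hℓp' : ¬ ℓ ∣ p := by
    intro h
    exact hℓp ((Nat.prime_dvd_prime_iff_eq hℓ hp).mp h)
  have hP : p • (P : (E⁄(AlgebraicClosure ℚ)).Point) = 0 := by
    have := P.2
    rw [Submodule.mem_torsionBy_iff] at this
    rw [← this]
    exact (natCast_zsmul _ p).symm
  have key := rel_transfer_h45 E _ C hC τ (W.apOfModel ℓ) (ℓ : ℤ) p
    (fun P' hP' => frobRelation_h45 W ℓ hℓ h5 hgood A τ hA hτ p hp0 hℓp' P' hP')
    (P : (E⁄(AlgebraicClosure ℚ)).Point) hP
  apply Subtype.ext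
  exact key

end Fermat.Agent.S41.H45

end
-- ===== PACK-END S41/H45/Rel.lean

-- ===== PACK-BEGIN S38/H681/IANontriv.lean
section




/-!
# Row HARD, cell HECKE, layer 3: leaf IA-NONTRIV (helper681)

`iaNontriv_h681 : IA.Hecke.IANontrivStatement` (VERBATIM, `Hecke/Spec3.lean`): the localisation
`V₀` of `X_{Γ₀(L)}(𝒪)`, `L = ribetLevel p Smin Piv`, at the maximal ideal of `θ₀` is free of
positive rank over `𝒪`.

Route: `V₀` is a submodule of `Hom(Γ₀(L), 𝒪)`, hence finite free over the discrete valuation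
ring `𝒪` (`MFree.H761.finite_free_submodule`); it is nonzero because the character `θ₀` occurs
in `X_{Γ₀(L)}(𝒪)` modulo `𝔪_𝒪` (`S59.TW.Aut.H581.h581_exists_occ`, valid for every level) and
because of the fullness clause of `IsLocPart`.
-/

set_option autoImplicit false

open Polynomial IsLocalRing CongruenceSubgroup
open scoped MatrixGroups

namespace Fermat.Agent.S38.H681

open Fermat.Agent.S59.Arch Fermat.Agent.S59.TW.H959 Fermat.Agent.S59.TW.H653
open Fermat.Agent.S59.TW.Aut Fermat.Agent.S38.IA Fermat.Agent.S38.IA.Hecke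

/-- The primes of Ribet's level lie in `Smin ∪ Piv`. -/
theorem h681_mem_of_dvd_ribetLevel {p : ℕ} {Smin Piv : Finset ℕ}
    (hS : ∀ q ∈ Smin, q.Prime) (hP : ∀ q ∈ Piv, q.Prime) {q : ℕ} (hq : q.Prime)
    (hdvd : q ∣ ribetLevel p Smin Piv) : q ∈ (↑(Smin ∪ Piv) : Set ℕ) := by
  unfold ribetLevel at hdvd
  rw [Finset.mem_coe, Finset.mem_union]
  rcases (Nat.Prime.dvd_mul hq).mp hdvd with h | h
  · obtain ⟨a, ha, hqa⟩ := (Prime.dvd_finsetProd_iff hq.prime _).mp h
    have ha' : a ∈ Smin := Finset.mem_of_mem_erase ha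
    have : q = a := (Nat.prime_dvd_prime_iff_eq hq (hS a ha')).mp hqa
    rw [this]
    exact Or.inl ha'
  · obtain ⟨a, ha, hqa⟩ := (Prime.dvd_finsetProd_iff hq.prime _).mp h
    have : q = a := (Nat.prime_dvd_prime_iff_eq hq (hP a ha)).mp hqa
    rw [this]
    exact Or.inr ha

/-- **Nonvanishing of a localisation at level `Γ₀(N)`** (any level `N`, any residual character
`θ` of the Hecke algebra away from `S ⊇ primes(N)`): a submodule `V₀` which is the localisation
of `X_{Γ₀(N)}(𝒪)` at the eigen-system `TsetOfθ θ` (no `U`-operators) is nonzero. -/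
theorem h681_locPart_ne_bot {N : ℕ} [NeZero N] {S : Set ℕ}
    (hNS : ∀ q : ℕ, q.Prime → q ∣ N → q ∈ S)
    {𝒪 : Type} [CommRing 𝒪] [IsDomain 𝒪] [IsDiscreteValuationRing 𝒪]
    (θ : CuspForm.heckeAlgebra N 2 S →+* ResidueField 𝒪)
    (V₀ : Submodule 𝒪 (Additive (Gamma0 N) →+ 𝒪))
    (hV₀ : IsLocPart (isMid_Gamma0 N) (TsetOfθ θ) ∅ V₀) :
    ∃ v : V₀, v ≠ 0 := by
  classical
  obtain ⟨x, hx0, hxe⟩ := Fermat.Agent.S59.TW.Aut.H581.h581_exists_occ hNS θ
  obtain ⟨e, -, he_mem, -, -, -, -, hfull⟩ := hV₀.exists_proj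
  have hex : e x ≠ 0 := by
    intro h0
    apply hx0
    refine hfull x h0 ?_ ?_
    · intro ℓ _ c hc
      obtain ⟨hℓ, hℓN, hℓS, hres⟩ := hc
      rw [TK_Gamma0 hℓN]
      exact hxe ℓ hℓN hℓS c hres
    · intro q _ α hα
      exact absurd hα (Set.notMem_empty _)
  exact ⟨⟨e x, he_mem x⟩, fun h0 => hex (congrArg Subtype.val h0)⟩

/-- **IA-NONTRIV** (leaf of `S38/IA/Hecke/Spec3.lean`), verbatim. -/
theorem iaNontriv_h681 : IANontrivStatement := by
  intro p _ _hp5 𝒪 _ _ _ _ _ _ ρbar Smin h _hflat Piv hPiv hL θ₀ _hθ₀ V₀ hV₀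
  classical
  have hNS : ∀ q : ℕ, q.Prime → q ∣ ribetLevel p Smin Piv →
      q ∈ (↑(Smin ∪ Piv) : Set ℕ) :=
    fun q hq hdvd => h681_mem_of_dvd_ribetLevel h.hSmin (fun a ha => (hPiv a ha).1) hq hdvd
  obtain ⟨v, hv⟩ := h681_locPart_ne_bot hNS θ₀ V₀ hV₀
  have : (Gamma0 (ribetLevel p Smin Piv)).FiniteIndex :=
    Subgroup.finiteIndex_of_le (isMid_Gamma0 (ribetLevel p Smin Piv)).ge
  obtain ⟨hfin, hfree⟩ :=
    Fermat.Agent.S59.MFree.H761.finite_free_submodule (O := 𝒪)
      (Gamma0 (ribetLevel p Smin Piv)) V₀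
  have hnt : Nontrivial V₀ := nontrivial_of_ne v 0 hv
  have hpos : 0 < Module.finrank 𝒪 V₀ := Module.finrank_pos (R := 𝒪) (M := V₀)
  exact ⟨Module.finrank 𝒪 V₀, hpos, ⟨Module.finBasis 𝒪 V₀⟩⟩

end Fermat.Agent.S38.H681

end
-- ===== PACK-END S38/H681/IANontriv.lean

-- ===== PACK-BEGIN S59/TW/H201/KDegHecke.lean
section



/-!
# S59 / HARD, cell TW: `T_ℓ`, `U_{q'}` commute with the transfers `t₁K`, `t₂K` (helper201)

Level `N`, a group `K` with `Γ₁(N) ≤ K ≤ Γ₀(N)`, a prime `q ∤ N`, `K_q = K ⊓ Γ₀(N q)`.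

* `TK_t₁K`, `TK_t₂K` : `T_ℓ (t_i ψ) = t_i (T_ℓ ψ)` for a prime `ℓ ∤ N q`;
* `UK_t₁K`, `UK_t₂K` : `U_{q'} (t_i ψ) = t_i (U_{q'} ψ)` for a prime `q' ∣ N`.

The operators are `H653.TK`, `H653.UK`; the transfers are those of `KDegDefs.lean`.
-/

set_option autoImplicit false

namespace Fermat.Agent.S59.TW.H201

open CongruenceSubgroup Matrix.SpecialLinearGroup ModularForm
open Fermat.Agent.S29.H642 Fermat.Agent.S41.Spec Fermat.Agent.S41.H761 Fermat.Agent.S59.TW.H653
open P2MW.S_ModularForm_heckeT_slash_eq_self_of_mem_Gamma0.ModularForm.HeckeSlashInvariance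
open scoped MatrixGroups

/-! ## Normalised representatives -/

section Norm

variable {N q : ℕ} {K : Subgroup SL(2, ℤ)}

/-- A normalised matrix at level `N q` is normalised at level `N`. -/
theorem isNormRep_of_mul201 {X : GL (Fin 2) ℝ} (hX : IsNormRep (N * q) X) : IsNormRep N X := by
  obtain ⟨a, b, c, d, hc, ha, hXe⟩ := hX
  have hNq : (N : ℤ) ∣ ((N * q : ℕ) : ℤ) := ⟨(q : ℤ), by push_cast; ring⟩
  exact ⟨a, b, c, d, dvd_trans hNq hc, dvd_trans hNq ha, hXe⟩

/-- The conjugate by `δ = diag(q, 1)` of a normalised matrix at level `N q` is normalised at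
level `N`. -/
theorem isNormRep_conj201 (hq : q ≠ 0) {X : GL (Fin 2) ℝ} (hX : IsNormRep (N * q) X) :
    IsNormRep N (heckeDiagMatrix q * X * (heckeDiagMatrix q)⁻¹) := by
  obtain ⟨a, b, c, d, hc, ha, hXe⟩ := hX
  obtain ⟨k, hk⟩ := hc
  have hNq : (N : ℤ) ∣ ((N * q : ℕ) : ℤ) := ⟨(q : ℤ), by push_cast; ring⟩
  refine ⟨a, q * b, N * k, d, Dvd.intro _ rfl, dvd_trans hNq ha, ?_⟩
  have hqR : (q : ℝ) ≠ 0 := by exact_mod_cast hq
  -- the matrix identity `M δ = δ X`
  have hM : (!![(a : ℝ), ((q * b : ℤ) : ℝ); ((N * k : ℤ) : ℝ), (d : ℝ)] :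
      Matrix (Fin 2) (Fin 2) ℝ) * ((heckeDiagMatrix q : GL (Fin 2) ℝ) : Matrix (Fin 2) (Fin 2) ℝ)
      = ((heckeDiagMatrix q : GL (Fin 2) ℝ) : Matrix (Fin 2) (Fin 2) ℝ) *
        (X : Matrix (Fin 2) (Fin 2) ℝ) := by
    rw [hXe, val_heckeDiagMatrix hq, hk]
    ext i j
    fin_cases i <;> fin_cases j <;>
      simp [Matrix.mul_apply, Fin.sum_univ_two] <;> ring
  have h1 : ((heckeDiagMatrix q * X * (heckeDiagMatrix q)⁻¹ : GL (Fin 2) ℝ) :
      Matrix (Fin 2) (Fin 2) ℝ)
      = ((heckeDiagMatrix q : GL (Fin 2) ℝ) : Matrix (Fin 2) (Fin 2) ℝ) *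
        (X : Matrix (Fin 2) (Fin 2) ℝ) *
        (((heckeDiagMatrix q)⁻¹ : GL (Fin 2) ℝ) : Matrix (Fin 2) (Fin 2) ℝ) := by
    simp only [Units.val_mul]
  have h2 : ((heckeDiagMatrix q : GL (Fin 2) ℝ) : Matrix (Fin 2) (Fin 2) ℝ) *
      (((heckeDiagMatrix q)⁻¹ : GL (Fin 2) ℝ) : Matrix (Fin 2) (Fin 2) ℝ) = 1 :=
    Units.mul_inv _
  rw [h1, ← hM, Matrix.mul_assoc, h2, Matrix.mul_one]

/-- If `X = u Y` with `X`, `Y` normalised at level `N` and `u ∈ Γ₀(N)`, then `u ∈ K`. -/
theorem mem_of_normRep201 (hK : IsMid N K) {X Y : GL (Fin 2) ℝ} (hX : IsNormRep N X)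
    (hY : IsNormRep N Y) (u : Gamma0 N) (e : X = ιN N u * Y) : (u : SL(2, ℤ)) ∈ K := by
  obtain ⟨hu, h1⟩ := normRep_coc hX hY (g := (1 : Gamma0 N)) (g' := (u : SL(2, ℤ)))
    (by rw [map_one, mul_one]; exact e)
  apply hK.mem_of_dUnit_eq_one (g := u)
  have h2 : (⟨(u : SL(2, ℤ)), hu⟩ : Gamma0 N) = u := Subtype.ext rfl
  rw [h2, map_one] at h1
  exact h1

/-- From a `Γ₀(N)`-relation between normalised matrices to a `K`-relation. -/
theorem h1_of_gamma0_201 (hK : IsMid N K) {X : GL (Fin 2) ℝ} (hX : IsNormRep N X)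
    {I : Type*} {ρ : I → GL (Fin 2) ℝ} (hρ : ∀ i, IsNormRep N (ρ i))
    (h : ∃ (u : Gamma0 N) (i : I), X = ιN N u * ρ i) :
    ∃ (u : K) (i : I), X = ιK K u * ρ i := by
  obtain ⟨u, i, e⟩ := h
  exact ⟨⟨(u : SL(2, ℤ)), mem_of_normRep201 hK hX (hρ i) u e⟩, i, e⟩

end Norm

/-! ## The representatives of `T_ℓ` -/

section TwistT

variable {N q ℓ : ℕ} [Fact ℓ.Prime]

omit [Fact ℓ.Prime] in
theorem repsT_apply201 (M : ℕ) (y : OnePoint (ZMod ℓ)) :
    repsT M ℓ y = ιN M (tauT M ℓ y) * heckeRep ℓ y := congrFun (repsT_eq_twist M ℓ) y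

omit [Fact ℓ.Prime] in
/-- `Γ₀`-level form of the conjugation property for `repsT`. -/
theorem h1_repsT_gamma0_201 (f₀ : Gamma0 (N * q) →* Gamma0 N) (d : GL (Fin 2) ℝ)
    (hd : ∀ g : Gamma0 (N * q), d * ιN (N * q) g = ιN N (f₀ g) * d)
    (h : ∀ y : OnePoint (ZMod ℓ), ∃ (u : Gamma0 N) (y' : OnePoint (ZMod ℓ)),
      d * heckeRep ℓ y * d⁻¹ = ιN N u * heckeRep ℓ y')
    (y : OnePoint (ZMod ℓ)) :
    ∃ (u : Gamma0 N) (y' : OnePoint (ZMod ℓ)),
      d * repsT (N * q) ℓ y * d⁻¹ = ιN N u * repsT N ℓ y' := by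
  obtain ⟨u₁, y', h1⟩ := h y
  refine ⟨f₀ (tauT (N * q) ℓ y) * u₁ * (tauT N ℓ y')⁻¹, y', ?_⟩
  rw [repsT_apply201, repsT_apply201]
  have h2 : d * (ιN (N * q) (tauT (N * q) ℓ y) * heckeRep ℓ y) * d⁻¹
      = (d * ιN (N * q) (tauT (N * q) ℓ y)) * d⁻¹ * (d * heckeRep ℓ y * d⁻¹) := by
    group
  rw [h2, hd, h1]
  simp only [map_mul, map_inv, mul_assoc, mul_inv_cancel_left, inv_mul_cancel_left]

omit [Fact ℓ.Prime] in
/-- Untwisting a relation between the representatives `repsT`. -/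
theorem h2_untwist201 (y y' : OnePoint (ZMod ℓ)) (g : Gamma0 (N * q)) (Q : GL (Fin 2) ℝ)
    (e : repsT (N * q) ℓ y * Q = ιN (N * q) g * repsT (N * q) ℓ y') :
    heckeRep ℓ y * Q =
      ιN (N * q) ((tauT (N * q) ℓ y)⁻¹ * g * tauT (N * q) ℓ y') * heckeRep ℓ y' := by
  rw [repsT_apply201, repsT_apply201] at e
  have h1 : heckeRep ℓ y * Q = (ιN (N * q) (tauT (N * q) ℓ y))⁻¹ *
      (ιN (N * q) (tauT (N * q) ℓ y) * heckeRep ℓ y * Q) := by
    group
  rw [h1, e]
  simp only [map_mul, map_inv, mul_assoc]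

end TwistT

/-! ## `T_ℓ` and the transfers -/

section TT

variable {N q ℓ : ℕ} [Fact ℓ.Prime] {K : Subgroup SL(2, ℤ)} {A : Type*} [AddCommGroup A]

/-- `T_ℓ t₁ = t₁ T_ℓ` at `Γ_H`-levels (`ℓ ∤ N q` prime). -/
theorem TK_t₁K (hK : IsMid N K) (hN : N ≠ 0) (hq : q.Prime) (hqN : ¬ q ∣ N)
    (hℓ : ¬ ℓ ∣ N * q) (ψ : Additive (Kq N q K) →+ A) :
    TK N K ℓ (t₁K N q K ψ) = t₁K N q K (TK (N * q) (Kq N q K) ℓ ψ) := by
  have hℓN : ¬ ℓ ∣ N := fun h => hℓ (dvd_mul_of_dvd_left h q)
  have := finiteIndex_range_inclKq hK hN hq hqN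
  rw [TK_eq hK hℓN, TK_eq (isMid_Kq hK q) hℓ]
  refine sysTransfer_transferAlong201 (ιK_injective K) rfl (repsT_system hK hℓN)
    (repsT_system (isMid_Kq hK q) hℓ) (inclKq N q K) (inclKq_injective N q K) 1
    (fun g => by rw [one_mul, mul_one]; rfl) ?_ ?_ ψ
  · intro y
    refine h1_of_gamma0_201 hK ?_ (isNormRep_repsT hℓN) ?_
    · rw [one_mul, inv_one, mul_one]
      exact isNormRep_of_mul201 (isNormRep_repsT hℓ y)
    · exact h1_repsT_gamma0_201 (incl N q) 1 (fun g => by rw [one_mul, mul_one]; rfl)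
        (fun y => ⟨1, y, by simp⟩) y
  · intro y y' m g Q hQ e
    rw [one_mul, mul_one] at hQ
    subst hQ
    have e' := h2_untwist201 y y' (toGamma0q N q K g) (ιK K m) e
    exact (mem_range_inclKq_iff hK m).mpr (h2_incl_T201 hℓ y y' (inclK hK m) _ e')

/-- `T_ℓ t₂ = t₂ T_ℓ` at `Γ_H`-levels (`ℓ ∤ N q` prime). -/
theorem TK_t₂K (hK : IsMid N K) (hN : N ≠ 0) (hq : q.Prime) (hqN : ¬ q ∣ N)
    (hℓ : ¬ ℓ ∣ N * q) (ψ : Additive (Kq N q K) →+ A) :
    TK N K ℓ (t₂K hK q ψ) = t₂K hK q (TK (N * q) (Kq N q K) ℓ ψ) := by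
  have hℓN : ¬ ℓ ∣ N := fun h => hℓ (dvd_mul_of_dvd_left h q)
  have hℓq : ¬ ℓ ∣ q := fun h => hℓ (dvd_mul_of_dvd_right h N)
  have hq0 : q ≠ 0 := hq.ne_zero
  have := finiteIndex_range_conjDeltaK hK hN hq hqN
  rw [TK_eq hK hℓN, TK_eq (isMid_Kq hK q) hℓ]
  refine sysTransfer_transferAlong201 (ιK_injective K) rfl (repsT_system hK hℓN)
    (repsT_system (isMid_Kq hK q) hℓ) (conjDeltaK hK q) (conjDeltaK_injective hK hq0)
    (heckeDiagMatrix q) (fun g => diag_rel hq0 (toGamma0q N q K g)) ?_ ?_ ψ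
  · intro y
    refine h1_of_gamma0_201 hK (isNormRep_conj201 hq0 (isNormRep_repsT hℓ y))
      (isNormRep_repsT hℓN) ?_
    exact h1_repsT_gamma0_201 (conjDelta N q) (heckeDiagMatrix q) (diag_rel hq0)
      (diag_conj_heckeRep hq0) y
  · intro y y' m g Q hQ e
    have e' := h2_untwist201 y y' (toGamma0q N q K g) Q e
    exact (mem_range_conjDeltaK_iff hK m).mpr
      (h2_conj201 hq0 hℓq y y' (inclK hK m) _ Q hQ e')

end TT

/-! ## `U_{q'}` and the transfers -/

section UT201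

variable {N q q' : ℕ} [Fact q'.Prime] {K : Subgroup SL(2, ℤ)} {A : Type*} [AddCommGroup A]

/-- Conjugation of the `U_{q'}` representatives by `diag(q, 1)`. -/
theorem diag_conj_repsU201 (hq : q ≠ 0) (j : ZMod q') :
    ∃ (u : Gamma0 N) (j' : ZMod q'),
      heckeDiagMatrix q * repsU q' j * (heckeDiagMatrix q)⁻¹ = ιN N u * repsU q' j' := by
  have hq'0 : q' ≠ 0 := (Fact.out : q'.Prime).ne_zero
  obtain ⟨T, Y, hmod⟩ : ∃ (T : ℕ) (Y : ZMod q'),
      ((Y.val : ℕ) : ℝ) + (T : ℝ) * q' = (q : ℝ) * j.val := by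
    refine ⟨q * j.val / q', ((q * j.val : ℕ) : ZMod q'), ?_⟩
    rw [ZMod.val_natCast]
    have := Nat.mod_add_div (q * j.val) q'
    have h2 : (((q * j.val) % q' + q' * (q * j.val / q') : ℕ) : ℝ) = ((q * j.val : ℕ) : ℝ) := by
      rw [this]
    push_cast at h2
    linarith
  obtain ⟨u00, u01, u10, u11⟩ := mkGamma0_apply N 1 (T : ℤ) 0 1 (by ring) (dvd_zero _)
  refine ⟨mkGamma0 N 1 (T : ℤ) 0 1 (by ring) (dvd_zero _), Y, ?_⟩
  rw [mul_inv_eq_iff_eq_mul]
  apply gl_ext <;>
    simp only [repsU, coe_mul_apply, coe_ιN_apply, val_heckeMatrix hq'0, val_heckeDiagMatrix hq,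
      Matrix.of_apply, Matrix.cons_val', Matrix.cons_val_zero, Matrix.cons_val_one,
      Matrix.cons_val_fin_one, u00, u01, u10, u11] <;>
    push_cast
  · ring
  · linear_combination (-1 : ℝ) * hmod
  · ring
  · ring

/-- `U_{q'} t₁ = t₁ U_{q'}` at `Γ_H`-levels (`q' ∣ N` prime). -/
theorem UK_t₁K (hK : IsMid N K) (hN : N ≠ 0) (hq : q.Prime) (hqN : ¬ q ∣ N) (hq' : q' ∣ N)
    (ψ : Additive (Kq N q K) →+ A) :
    UK K q' (t₁K N q K ψ) = t₁K N q K (UK (Kq N q K) q' ψ) := by
  have hq'' : q' ∣ N * q := dvd_mul_of_dvd_left hq' q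
  have := finiteIndex_range_inclKq hK hN hq hqN
  rw [UK_eq hK hq', UK_eq (isMid_Kq hK q) hq'']
  refine sysTransfer_transferAlong201 (ιK_injective K) rfl (repsU_system hK hq')
    (repsU_system (isMid_Kq hK q) hq'') (inclKq N q K) (inclKq_injective N q K) 1
    (fun g => by rw [one_mul, mul_one]; rfl) (fun y => ⟨1, y, by simp⟩) ?_ ψ
  intro y y' m g Q hQ e
  rw [one_mul, mul_one] at hQ
  subst hQ
  exact (mem_range_inclKq_iff hK m).mpr
    (h2_incl_U201 hq hqN hq' y y' (inclK hK m) (toGamma0q N q K g) e)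

/-- `U_{q'} t₂ = t₂ U_{q'}` at `Γ_H`-levels (`q' ∣ N` prime). -/
theorem UK_t₂K (hK : IsMid N K) (hN : N ≠ 0) (hq : q.Prime) (hqN : ¬ q ∣ N) (hq' : q' ∣ N)
    (ψ : Additive (Kq N q K) →+ A) :
    UK K q' (t₂K hK q ψ) = t₂K hK q (UK (Kq N q K) q' ψ) := by
  have hq'' : q' ∣ N * q := dvd_mul_of_dvd_left hq' q
  have hq0 : q ≠ 0 := hq.ne_zero
  have hq'q : ¬ q' ∣ q := by
    intro h
    have h1 := (Nat.prime_dvd_prime_iff_eq (Fact.out : q'.Prime) hq).mp h
    exact hqN (h1 ▸ hq')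
  have := finiteIndex_range_conjDeltaK hK hN hq hqN
  rw [UK_eq hK hq', UK_eq (isMid_Kq hK q) hq'']
  refine sysTransfer_transferAlong201 (ιK_injective K) rfl (repsU_system hK hq')
    (repsU_system (isMid_Kq hK q) hq'') (conjDeltaK hK q) (conjDeltaK_injective hK hq0)
    (heckeDiagMatrix q) (fun g => diag_rel hq0 (toGamma0q N q K g)) ?_ ?_ ψ
  · intro y
    exact h1_of_gamma0_201 hK (isNormRep_conj201 hq0 (isNormRep_repsU q' y))
      (isNormRep_repsU q') (diag_conj_repsU201 hq0 y)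
  · intro y y' m g Q hQ e
    exact (mem_range_conjDeltaK_iff hK m).mpr
      (h2_conj201 hq0 hq'q (y : OnePoint (ZMod q')) (y' : OnePoint (ZMod q')) (inclK hK m)
        (toGamma0q N q K g) Q hQ e)

end UT201

end Fermat.Agent.S59.TW.H201

end
-- ===== PACK-END S59/TW/H201/KDegHecke.lean

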