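import Fermat.Prelude.Def_GaloisRep_LocalConditions
import Mathlib
import Fermat.Prelude.Def_Algebra_PatchingDatum
import Fermat.Agent.Pack.S43MC.G0E18L3
import Fermat.Agent.Pack.S59C.E2L0
import Fermat.Agent.Pack.S43MC.G0E19L2
import Fermat.Agent.Pack.S43GC.G0E0L2
import Fermat.Agent.Pack.S59C.E5L1
import Fermat.Agent.Pack.S59C.E3L1
import Fermat.Agent.Pack.S44C.G0E6L0
import Fermat.Agent.Pack.S43MC.G0E3L1
import Fermat.Agent.Pack.S59C.E5L0
import Fermat.Agent.Pack.S43GC.G0E16L2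
import Fermat.Agent.Pack.S43GC.G0E15L2
import Fermat.Agent.Pack.S43GC.G0E9L0
import Fermat.Agent.Pack.S43GC.G0E0L0
import Fermat.Agent.Pack.S43GC.G0E2L0
import Fermat.Agent.Pack.S44C.G0E14L2
import Fermat.Agent.Pack.S44C.G0E21L3
import Fermat.Agent.Pack.S44C.G0E13L3
import Fermat.Agent.Pack.S59C.E2L2
import Fermat.Agent.Pack.S59C.E1L3
import Fermat.Agent.Pack.S43GC.G0E16L1
import Fermat.Agent.Pack.S43MC.G0E20L0
import Fermat.Agent.Pack.S59C.E5L2
import Fermat.Agent.Pack.S43GC.G0E14L1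
import Fermat.Agent.Pack.S43GC.G0E5L2
import Fermat.Agent.Pack.S43C.E0L0
import Fermat.Agent.Pack.S43GC.G0E15L3
import Fermat.Agent.Pack.S44C.G0E7L1

set_option linter.all false

-- ===== PACK-BEGIN S59/H563/OldSS.lean
section


/-!
# NM-OLD, leaf SS (helper563): `T_l` is semisimple on `S₂(Γ₀(N))`

`heckeTLin_semisimple563`: `(T_l - c)² h = 0 ⇒ (T_l - c) h = 0`, from the self-adjointness of
`T_l` for the Petersson product (`S31/H862`).
-/

set_option autoImplicit false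

open UpperHalfPlane CongruenceSubgroup MeasureTheory
open scoped MatrixGroups ModularForm ComplexConjugate

namespace Fermat.Agent.S59.H563

open Fermat.Agent.S31.H862

variable {N : ℕ} [NeZero N]

omit [NeZero N] in
theorem petC_smul_right563 (c : ℂ) (f g : CuspForm (Gamma0 N) 2) :
    petC f (c • g) = c * petC f g := by
  unfold petC pet pint
  rw [← integral_const_mul]
  refine integral_congr_ae (Filter.Eventually.of_forall fun z => ?_)
  have h1 : ((c • g : CuspForm (Gamma0 N) 2) : ℍ → ℂ) z = c * g z := by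
    simp
  simp only [petersson, h1]
  ring

theorem petC_smul_left563 (c : ℂ) (f g : CuspForm (Gamma0 N) 2) :
    petC (c • f) g = conj c * petC f g := by
  rw [← petC_conj g (c • f), petC_smul_right563, map_mul, petC_conj]

theorem petC_sub_right563 (f g₁ g₂ : CuspForm (Gamma0 N) 2) :
    petC f (g₁ - g₂) = petC f g₁ - petC f g₂ := by
  have h : g₁ - g₂ = g₁ + (-1 : ℂ) • g₂ := by
    rw [neg_one_smul, sub_eq_add_neg]
  rw [h, petC_add_right, petC_smul_right563]
  ring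

/-- **OLD-SS.** -/
theorem heckeTLin_semisimple563 (l : ℕ) (hl : l.Prime) (hlN : ¬ l ∣ N) (c : ℂ)
    (h : CuspForm (Gamma0 N) 2)
    (hh : CuspForm.heckeTLin 2 hl hlN (CuspForm.heckeTLin 2 hl hlN h - c • h) =
      c • (CuspForm.heckeTLin 2 hl hlN h - c • h)) :
    CuspForm.heckeTLin 2 hl hlN h = c • h := by
  set T := CuspForm.heckeTLin (N := N) 2 hl hlN with hT
  set h' := T h - c • h with hh'
  have hSA : ∀ f g : CuspForm (Gamma0 N) 2, petC (T f) g = petC f (T g) :=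
    isSA_heckeTLin hl hlN
  by_contra hne
  have hne' : h' ≠ 0 := fun h0 => hne (sub_eq_zero.mp h0)
  have hpos : petC h' h' ≠ 0 := fun h0 => hne' (eq_zero_of_petC_self h' h0)
  -- `c` is real
  have h1 : petC (T h') h' = conj c * petC h' h' := by rw [hh, petC_smul_left563]
  have h2 : petC h' (T h') = c * petC h' h' := by rw [hh, petC_smul_right563]
  have hc : conj c = c := by
    have := hSA h' h'
    rw [h1, h2] at this
    exact mul_right_cancel₀ hpos this
  -- `⟨h', h'⟩ = 0`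
  apply hpos
  have h3 : petC h' h' = petC h' (T h) - c * petC h' h := by
    conv_lhs => rw [hh']
    rw [petC_sub_right563, petC_smul_right563]
  rw [h3, ← hSA h' h, hh, petC_smul_left563, hc, sub_self]

end Fermat.Agent.S59.H563

end
-- ===== PACK-END S59/H563/OldSS.lean

-- ===== PACK-BEGIN S59/H127/Residual.lean
section




/-!
# Row S59, layer E (CR-ASM) — the residual representation of the Tate module

For `W' : Affine ℚ` elliptic, `ρ = tateGaloisRep W' cb : GaloisRepAdic ℤ_[p]`, ANY local ring `B`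
with a local homomorphism `φ : ℤ_[p] →+* B` and ANY `ι : ZMod p →+* ResidueField B`:

  `(ρ.baseChangeAlong φ hφ).residual ≅ (W'.residualGaloisRepOf p hcard hker).baseChangeAlong ι`

(`residual_tate_baseChange`), i.e. the field `residual` of `Arch.CurveRep` for the base change of
the Tate module to `B`.  Everything goes through the matrix dictionary `S53/Dict.lean`.
-/

set_option autoImplicit false

open PadicInt WeierstrassCurve WeierstrassCurve.Affine
open scoped WeierstrassCurve.Affine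

namespace Fermat.Agent.S59.H127

open Fermat.Agent.S53 (M2 MatCont toAdic toRes mapRep)

/-- two ring homomorphisms from `ℤ_[p]` to a ring in which `p = 0` agree -/
theorem padicInt_ringHom_ext_of_p_eq_zero {p : ℕ} [Fact p.Prime] {R : Type*} [Ring R]
    (hp0 : (p : R) = 0) (f g : ℤ_[p] →+* R) : f = g := by
  have key : ∀ (h : ℤ_[p] →+* R) (x : ℤ_[p]), h x = ((x.appr 1 : ℕ) : R) := by
    intro h x
    have := PadicInt.appr_spec 1 x
    rw [Ideal.mem_span_singleton'] at this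
    obtain ⟨y, hy⟩ := this
    have hx : x = y * (p : ℤ_[p]) ^ 1 + ((x.appr 1 : ℕ) : ℤ_[p]) := by rw [hy]; ring
    conv_lhs => rw [hx]
    rw [map_add, map_mul, map_pow, map_natCast, map_natCast, hp0, pow_one, mul_zero, zero_add]
  ext x
  rw [key f, key g]

variable (W' : WeierstrassCurve.Affine ℚ) [hE : (W'⁄(AlgebraicClosure ℚ)).IsElliptic]
variable {p : ℕ} [hp : Fact p.Prime] (cb : CompatBasis (W'⁄(AlgebraicClosure ℚ)).Point p 2)

/-- the Tate representation in matrix form -/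
noncomputable def tateMat : _root_.Fermat.Agent.S59.H127.GQ →* M2 ℤ_[p] :=
  (LinearMap.toMatrixAlgEquiv' (R := ℤ_[p]) (n := Fin 2)).toAlgHom.toRingHom.toMonoidHom.comp
    (tateGaloisRep W' cb).ρ

lemma tateMat_apply (σ : _root_.Fermat.Agent.S59.H127.GQ) :
    tateMat W' cb σ = LinearMap.toMatrix' ((tateGaloisRep W' cb).ρ σ) := rfl

lemma matCont_tateMat : MatCont (tateMat W' cb) := by
  intro n
  obtain ⟨L, hL, h⟩ := (tateGaloisRep W' cb).isAdicContinuous n
  refine ⟨L, hL, fun σ hσ i j => ?_⟩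
  let f : (Fin 2 → ℤ_[p]) →ₗ[ℤ_[p]] (Fin 2 → ℤ_[p]) := (tateGaloisRep W' cb).ρ σ
  have h1 : (tateMat W' cb σ - 1) i j
      = (f (Pi.single j (1 : ℤ_[p])) - (Pi.single j (1 : ℤ_[p]) : Fin 2 → ℤ_[p])) i := by
    have e1 : tateMat W' cb σ = LinearMap.toMatrix' f := rfl
    rw [e1, Matrix.sub_apply, LinearMap.toMatrix'_apply, Matrix.one_apply,
      Pi.sub_apply, Pi.single_apply]
  rw [h1]
  have h2 : f (Pi.single j (1 : ℤ_[p])) - (Pi.single j (1 : ℤ_[p]) : Fin 2 → ℤ_[p])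
      ∈ (IsLocalRing.maximalIdeal ℤ_[p] ^ n) • (⊤ : Submodule ℤ_[p] (Fin 2 → ℤ_[p])) :=
    h σ hσ (Pi.single j (1 : ℤ_[p]))
  exact (Fermat.Agent.S53.mem_smul_top_pi_iff _ _).mp h2 i

/-- the Tate representation is its matrix form -/
theorem tate_isEquiv_toAdic :
    (tateGaloisRep W' cb).IsEquiv (toAdic (tateMat W' cb) (matCont_tateMat W' cb)) :=
  ⟨⟨LinearEquiv.refl ℤ_[p] (Fin 2 → ℤ_[p]), fun σ x => by
    let f : (Fin 2 → ℤ_[p]) →ₗ[ℤ_[p]] (Fin 2 → ℤ_[p]) := (tateGaloisRep W' cb).ρ σ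
    show f x = (LinearMap.toMatrix' f).mulVec x
    exact (LinearMap.toMatrix'_mulVec f x).symm⟩⟩

/-- the matrix of `σ` on `E[p]` in the level-one basis is the reduction of the Tate matrix -/
theorem toMatrix_residual (π : ℤ_[p] →+* ZMod p) (σ : _root_.Fermat.Agent.S59.H127.GQ) :
    LinearMap.toMatrix (cb.levelBasisOf (m := p) (n := 1) (pow_one p).symm)
        (cb.levelBasisOf (m := p) (n := 1) (pow_one p).symm)
        (WeierstrassCurve.Affine.Point.galoisRepModuleEnd (K := AlgebraicClosure ℚ) ℚ W' p σ)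
      = mapRep π (tateMat W' cb) σ :=
  cb.toMatrix_levelOf (pow_one p).symm π _ _ (fun _ => rfl)

lemma factors_mapRep_tateMat (π : ℤ_[p] →+* ZMod p)
    (hker : GaloisFactorsThroughFiniteLevel
      (WeierstrassCurve.Affine.Point.galoisRepModuleEnd (K := AlgebraicClosure ℚ) ℚ W' p)) :
    GaloisFactorsThroughFiniteLevel (mapRep π (tateMat W' cb)) := by
  obtain ⟨L, hL, h⟩ := hker
  refine ⟨L, hL, fun σ hσ => ?_⟩
  rw [← toMatrix_residual W' cb π σ, h σ hσ]
  exact LinearMap.toMatrix_one _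

/-- `E[p]` in matrix form -/
theorem residualGaloisRepOf_isEquiv_toRes (π : ℤ_[p] →+* ZMod p)
    (hcard : Nat.card (Submodule.torsionBy ℤ (W'⁄(AlgebraicClosure ℚ)).Point p) = p ^ 2)
    (hker : GaloisFactorsThroughFiniteLevel
      (WeierstrassCurve.Affine.Point.galoisRepModuleEnd (K := AlgebraicClosure ℚ) ℚ W' p)) :
    (WeierstrassCurve.residualGaloisRepOf W' p hcard hker).IsEquiv
      (toRes (mapRep π (tateMat W' cb)) (factors_mapRep_tateMat W' cb π hker)) := by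
  refine ⟨⟨(cb.levelBasisOf (m := p) (n := 1) (pow_one p).symm).equivFun, fun σ x => ?_⟩⟩
  let b := cb.levelBasisOf (m := p) (n := 1) (pow_one p).symm
  let g : Module.End (ZMod p) (Submodule.torsionBy ℤ (W'⁄(AlgebraicClosure ℚ)).Point p) :=
    WeierstrassCurve.Affine.Point.galoisRepModuleEnd (K := AlgebraicClosure ℚ) ℚ W' p σ
  let x' : Submodule.torsionBy ℤ (W'⁄(AlgebraicClosure ℚ)).Point p := x
  show b.equivFun (g x') = (mapRep π (tateMat W' cb) σ).mulVec (b.equivFun x')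
  rw [← toMatrix_residual W' cb π σ]
  exact (LinearMap.toMatrix_mulVec_repr b b g x').symm

omit hE hp in
lemma toRes_isEquiv_of_eq {k : Type} [Field k] {r r' : _root_.Fermat.Agent.S59.H127.GQ →* M2 k} (h : r = r')
    (hr : GaloisFactorsThroughFiniteLevel r) (hr' : GaloisFactorsThroughFiniteLevel r') :
    (toRes r hr).IsEquiv (toRes r' hr') := by
  subst h
  exact ⟨ResidualGaloisRep.Equiv.refl _⟩

/-- **the field `residual` of `CurveRep`**, for the base change of the Tate module along any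
local homomorphism `φ : ℤ_[p] →+* B` -/
theorem residual_tate_baseChange {B : Type} [CommRing B] [IsLocalRing B]
    (φ : ℤ_[p] →+* B) (hφ : IsLocalHom φ) (ι : ZMod p →+* IsLocalRing.ResidueField B)
    (hcard : Nat.card (Submodule.torsionBy ℤ (W'⁄(AlgebraicClosure ℚ)).Point p) = p ^ 2)
    (hker : GaloisFactorsThroughFiniteLevel
      (WeierstrassCurve.Affine.Point.galoisRepModuleEnd (K := AlgebraicClosure ℚ) ℚ W' p)) :
    ((tateGaloisRep W' cb).baseChangeAlong φ hφ).residual.IsEquiv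
      ((WeierstrassCurve.residualGaloisRepOf W' p hcard hker).baseChangeAlong ι) := by
  have hp0 : (p : IsLocalRing.ResidueField B) = 0 := by
    have h1 : (p : ℤ_[p]) ∈ IsLocalRing.maximalIdeal ℤ_[p] := by
      rw [PadicInt.maximalIdeal_eq_span_p]
      exact Ideal.mem_span_singleton_self _
    have h2 : φ (p : ℤ_[p]) ∈ IsLocalRing.maximalIdeal B := by
      have := hφ
      exact map_nonunit φ _ h1
    rw [← IsLocalRing.residue_eq_zero_iff, map_natCast, map_natCast] at h2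
    exact h2
  have hhom : (IsLocalRing.residue B).comp φ = ι.comp (PadicInt.toZMod (p := p)) :=
    padicInt_ringHom_ext_of_p_eq_zero hp0 _ _
  -- the adic side
  obtain ⟨e0⟩ := tate_isEquiv_toAdic W' cb
  obtain ⟨e1⟩ := Fermat.Agent.S53.baseChangeAlong_toAdic φ hφ (tateMat W' cb)
    (matCont_tateMat W' cb)
  obtain ⟨e2⟩ := Fermat.Agent.S53.residual_toAdic (mapRep φ (tateMat W' cb))
    ((matCont_tateMat W' cb).map φ hφ)
  have hL : ((tateGaloisRep W' cb).baseChangeAlong φ hφ).residual.IsEquiv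
      (toRes (mapRep (IsLocalRing.residue B) (mapRep φ (tateMat W' cb)))
        ((matCont_tateMat W' cb).map φ hφ).factors_residue) :=
    ⟨((e0.baseChangeAlong φ hφ).trans e1).residual.trans e2⟩
  -- the residual side
  obtain ⟨e3⟩ := residualGaloisRepOf_isEquiv_toRes W' cb PadicInt.toZMod hcard hker
  obtain ⟨e4⟩ := Fermat.Agent.S53.baseChangeAlong_toRes ι (mapRep PadicInt.toZMod (tateMat W' cb))
    (factors_mapRep_tateMat W' cb PadicInt.toZMod hker)
  have hR : ((WeierstrassCurve.residualGaloisRepOf W' p hcard hker).baseChangeAlong ι).IsEquiv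
      (toRes (mapRep ι (mapRep PadicInt.toZMod (tateMat W' cb)))
        (Fermat.Agent.S53.factors_mapRep ι
          (factors_mapRep_tateMat W' cb PadicInt.toZMod hker))) :=
    ⟨(e3.baseChangeAlong ι).trans e4⟩
  have heq : mapRep (IsLocalRing.residue B) (mapRep φ (tateMat W' cb))
      = mapRep ι (mapRep PadicInt.toZMod (tateMat W' cb)) := by
    rw [Fermat.Agent.S53.mapRep_comp, Fermat.Agent.S53.mapRep_comp, hhom]
  obtain ⟨e5⟩ := toRes_isEquiv_of_eq heq
    ((matCont_tateMat W' cb).map φ hφ).factors_residue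
    (Fermat.Agent.S53.factors_mapRep ι (factors_mapRep_tateMat W' cb PadicInt.toZMod hker))
  obtain ⟨eL⟩ := hL
  obtain ⟨eR⟩ := hR
  exact ⟨(eL.trans e5).trans eR.symm⟩

end Fermat.Agent.S59.H127

end
-- ===== PACK-END S59/H127/Residual.lean

-- ===== PACK-BEGIN S59/H396/OrdGalois.lean
section


/-!
# CR-O, part C3 (helper396): the Galois action on the `p`-power torsion at a prime of
multiplicative reduction `p` (abstract setting of `H240.Unip`)

`σ : K ≃ₐ[S] K` preserving the valuation `v`, `E = W'⁄K` with integral coefficients, `v c₄ = 1`,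
`Δ ≠ 0` and the torsion data `MultTorsion E v p`:
* `inKer_smul`            : `σ E₁ ⊆ E₁`;
* `inKer_of_inE0`         : `E₀ ∩ E[p^j] ⊆ E₁`;
* `inKer_smul_sub`        : `σ P - P ∈ E₁` for `P ∈ E[p^j]` if `σ` acts trivially on the residue
                            field (inertia);
* `inKer_smul_sub_or_add` : `σ P - P ∈ E₁` or `σ P + P ∈ E₁` for `P ∈ E[p^j]` (decomposition group);
* `exists_sign`           : there is `z = ±1` with `σ P - z P ∈ E₁` for ALL `P ∈ E[p^∞]`.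
-/

set_option autoImplicit false
set_option linter.unusedSectionVars false
set_option linter.unusedVariables false
set_option linter.style.haveILetI false

namespace Fermat.Agent.S59.H396

open WeierstrassCurve WeierstrassCurve.Affine
open Fermat.Agent.S05.SameRed (IntegralCoeffs InKer)
open Fermat.Agent.S05
open Fermat.Agent.S59.H240
open Fermat.Agent.Lib.Red.H290 (inKer_add inKer_neg inKer_sub)

section galois

variable {R S K : Type*} [CommRing R] [CommRing S] [Field K] [DecidableEq K]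
  [Algebra R S] [Algebra R K] [Algebra S K] [IsScalarTower R S K]
  {Γ₀ : Type*} [LinearOrderedCommGroupWithZero Γ₀]
  {W' : Affine R} {v : Valuation K Γ₀}

/-- the Galois action commutes with multiplication by `n` -/
lemma smul_nsmul_point (σ : K ≃ₐ[S] K) (n : ℕ) (P : (W'⁄K).Point) :
    σ • (n • P) = n • (σ • P) :=
  map_nsmul (DistribSMul.toAddMonoidHom (W'⁄K).Point σ) n P

/-- `σ E₁ ⊆ E₁` -/
lemma inKer_smul (σ : K ≃ₐ[S] K) (hσv : ∀ t : K, v (σ t) = v t) {T : (W'⁄K).Point}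
    (hT : InKer (W'⁄K) v T) : InKer (W'⁄K) v (σ • T) := by
  rcases T with _ | ⟨x, y, h⟩
  · have e : σ • (Point.zero : (W'⁄K).Point) = 0 := by
      change σ • (0 : (W'⁄K).Point) = 0
      rw [smul_zero]
    rw [e]
    exact SameRed.inKer_zero
  · rw [GoodRed.smul_some]
    exact (SameRed.inKer_some _).mpr
      (((SameRed.inKer_some h).mp hT).trans_eq (hσv x).symm)

variable {p : ℕ}

/-- `E₀ ∩ E[p^j] ⊆ E₁` -/
lemma inKer_of_inE0 (hMT : MultTorsion (W'⁄K) v p) {Q : (W'⁄K).Point}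
    (hQ0 : InE0 (W'⁄K) v Q) (j : ℕ) (hQ : p ^ j • Q = 0) : InKer (W'⁄K) v Q := by
  rcases Q with _ | ⟨x, y, h⟩
  · exact SameRed.inKer_zero
  · rw [SameRed.inKer_some]
    by_contra hx
    rw [not_lt] at hx
    have hrad := hMT.rad j h hQ hx
    rw [inE0_some] at hQ0
    rcases hQ0 with h1 | h1 | h1
    · exact absurd hx (not_le.mpr h1)
    · have : (1 : Γ₀) ≤ rad (W'⁄K) v x y := by rw [rad, ← h1]; exact le_max_left _ _
      exact absurd hrad (not_lt.mpr this)
    · have : (1 : Γ₀) ≤ rad (W'⁄K) v x y := by rw [rad, ← h1]; exact le_max_right _ _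
      exact absurd hrad (not_lt.mpr this)

lemma nsmul_smul_sub (σ : K ≃ₐ[S] K) (j : ℕ) (P : (W'⁄K).Point) (hP : p ^ j • P = 0) :
    p ^ j • (σ • P - P) = 0 := by
  rw [nsmul_sub, ← smul_nsmul_point, hP, smul_zero, sub_zero]

lemma nsmul_smul_add (σ : K ≃ₐ[S] K) (j : ℕ) (P : (W'⁄K).Point) (hP : p ^ j • P = 0) :
    p ^ j • (σ • P + P) = 0 := by
  rw [nsmul_add, ← smul_nsmul_point, hP, smul_zero, add_zero]

/-- **Decomposition group, pointwise.** -/
theorem inKer_smul_sub_or_add [IsAlgClosed K] (h2 : (2 : K) ≠ 0)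
    (hW : IntegralCoeffs (W'⁄K) v) (hc₄ : v (W'⁄K).c₄ = 1) (hΔ : (W'⁄K).Δ ≠ 0)
    (hMT : MultTorsion (W'⁄K) v p)
    (σ : K ≃ₐ[S] K) (hσv : ∀ t : K, v (σ t) = v t)
    (j : ℕ) (P : (W'⁄K).Point) (hP : p ^ j • P = 0) :
    InKer (W'⁄K) v (σ • P - P) ∨ InKer (W'⁄K) v (σ • P + P) := by
  by_cases hker : InKer (W'⁄K) v P
  · exact Or.inl (inKer_sub hW (inKer_smul σ hσv hker) hker)
  rcases P with _ | ⟨x, y, h⟩
  · exact absurd SameRed.inKer_zero hker
  · rw [SameRed.inKer_some, not_lt] at hker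
    have hy : v y ≤ 1 := GoodRed.val_y_le_one hW h.1 hker
    have hrad := hMT.rad j h hP hker
    have key : InE0 (W'⁄K) v (σ • Point.some x y h - Point.some x y h) ∨
        InE0 (W'⁄K) v (σ • Point.some x y h + Point.some x y h) :=
      sub_or_add_inE0 h2 hW hc₄ hΔ h
        ((W'.baseChange_nonsingular σ.toAlgHom.injective x y).mpr h) hker hy
        ((hσv x).le.trans hker) hrad (rad_apply σ hσv x y)
    rcases key with key | key
    · exact Or.inl (inKer_of_inE0 hMT key j (nsmul_smul_sub σ j _ hP))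
    · exact Or.inr (inKer_of_inE0 hMT key j (nsmul_smul_add σ j _ hP))

/-- **Inertia.** -/
theorem inKer_smul_sub [IsAlgClosed K] (h2 : (2 : K) ≠ 0)
    (hW : IntegralCoeffs (W'⁄K) v) (hc₄ : v (W'⁄K).c₄ = 1) (hΔ : (W'⁄K).Δ ≠ 0)
    (hMT : MultTorsion (W'⁄K) v p)
    (σ : K ≃ₐ[S] K) (hσ : ∀ t : K, v t ≤ 1 → v (σ t - t) < 1) (hσv : ∀ t : K, v (σ t) = v t)
    (j : ℕ) (P : (W'⁄K).Point) (hP : p ^ j • P = 0) :
    InKer (W'⁄K) v (σ • P - P) := by
  by_cases hker : InKer (W'⁄K) v P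
  · exact inKer_sub hW (inKer_smul σ hσv hker) hker
  rcases P with _ | ⟨x, y, h⟩
  · exact absurd SameRed.inKer_zero hker
  · rw [SameRed.inKer_some, not_lt] at hker
    have hy : v y ≤ 1 := GoodRed.val_y_le_one hW h.1 hker
    have hrad := hMT.rad j h hP hker
    have key : InE0 (W'⁄K) v (σ • Point.some x y h - Point.some x y h) := by
      rw [GoodRed.smul_some]
      refine sub_inE0 h2 hW hc₄ hΔ h _ hker hy (by rw [hσv]; exact hker) hrad
        (rad_apply σ hσv x y) ?_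
      rw [← apply_gX, ← apply_gY]
      refine val_cross_lt σ hσ hσv ?_
      -- the point is nonsingular
      have hns := (Affine.nonsingular_iff' x y).mp h
      by_contra hcon
      rw [not_or, not_not, not_not] at hcon
      rcases hns.2 with h1 | h1
      · apply h1
        have := hcon.1
        unfold gX at this
        linear_combination this
      · apply h1
        have := hcon.2
        unfold gY at this
        linear_combination this
    exact inKer_of_inE0 hMT key j (nsmul_smul_sub σ j _ hP)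

/-- **Decomposition group: the sign is uniform.** -/
theorem exists_sign [IsAlgClosed K] (h2 : (2 : K) ≠ 0)
    (hW : IntegralCoeffs (W'⁄K) v) (hc₄ : v (W'⁄K).c₄ = 1) (hΔ : (W'⁄K).Δ ≠ 0)
    (hMT : MultTorsion (W'⁄K) v p)
    (σ : K ≃ₐ[S] K) (hσv : ∀ t : K, v (σ t) = v t) :
    ∃ z : ℤ, (z = 1 ∨ z = -1) ∧
      ∀ (n : ℕ) (P : (W'⁄K).Point), p ^ n • P = 0 → InKer (W'⁄K) v (σ • P - z • P) := by
  by_cases hplus : ∀ (n : ℕ) (P : (W'⁄K).Point), p ^ n • P = 0 → InKer (W'⁄K) v (σ • P - P)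
  · exact ⟨1, Or.inl rfl, fun n P hP => by rw [one_zsmul]; exact hplus n P hP⟩
  by_cases hminus : ∀ (n : ℕ) (P : (W'⁄K).Point), p ^ n • P = 0 → InKer (W'⁄K) v (σ • P + P)
  · exact ⟨-1, Or.inr rfl, fun n P hP => by
      rw [neg_zsmul, one_zsmul, sub_neg_eq_add]; exact hminus n P hP⟩
  exfalso
  push Not at hplus hminus
  obtain ⟨n, a, ha, ha'⟩ := hplus
  obtain ⟨m, b, hb, hb'⟩ := hminus
  -- `a ∈ S₋ ∖ S₊`, `b ∈ S₊ ∖ S₋`
  have haM : InKer (W'⁄K) v (σ • a + a) :=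
    (inKer_smul_sub_or_add h2 hW hc₄ hΔ hMT σ hσv n a ha).resolve_left ha'
  have hbP : InKer (W'⁄K) v (σ • b - b) :=
    (inKer_smul_sub_or_add h2 hW hc₄ hΔ hMT σ hσv m b hb).resolve_right hb'
  have hab : p ^ (n + m) • (a + b) = 0 := by
    have e1 : p ^ (n + m) • a = 0 := by
      rw [pow_add, mul_nsmul, ha, smul_zero]
    have e2 : p ^ (n + m) • b = 0 := by
      rw [pow_add, mul_comm, mul_nsmul, hb, smul_zero]
    rw [nsmul_add, e1, e2, add_zero]
  rcases inKer_smul_sub_or_add h2 hW hc₄ hΔ hMT σ hσv (n + m) (a + b) hab with h1 | h1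
  · -- `a + b ∈ S₊`, `b ∈ S₊` ⟹ `a ∈ S₊`
    apply ha'
    have := inKer_sub hW h1 hbP
    have e : σ • (a + b) - (a + b) - (σ • b - b) = σ • a - a := by
      rw [smul_add]; abel
    rwa [e] at this
  · -- `a + b ∈ S₋`, `a ∈ S₋` ⟹ `b ∈ S₋`
    apply hb'
    have := inKer_sub hW h1 haM
    have e : σ • (a + b) + (a + b) - (σ • a + a) = σ • b + b := by
      rw [smul_add]; abel
    rwa [e] at this

end galois

end Fermat.Agent.S59.H396

end
-- ===== PACK-END S59/H396/OrdGalois.lean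

-- ===== PACK-BEGIN S59/H396/OrdData.lean
section





/-!
# CR-O, part C4 (helper396): the torsion-level input `OrdDataAt` for an integral model with
multiplicative reduction at `p`

`W : WeierstrassCurve ℤ`, `p` an odd prime with `p ∣ Δ`, `p ∤ c₄`, `Δ ≠ 0`, and `A` a place of `ℚ̄`
over `p`.  The kernel of reduction `kerRed W A ≤ E(ℚ̄)` satisfies `OrdDataAt p E(ℚ̄) A`
(`ordDataAt_of_mult`):
* `#(E₁ ∩ E[p^n]) = p^n`                                      (`TorsionCount.ncard_torsion_inKer`);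
* the decomposition group of `A` stabilises `E₁`              (`OrdGalois.inKer_smul`);
* inertia acts trivially on `E[p^∞]/E₁[p^∞]`                  (`OrdGalois.inKer_smul_sub`);
* the decomposition group acts by a sign on `E[p^∞]/E₁[p^∞]`  (`OrdGalois.exists_sign`).
-/

set_option autoImplicit false
set_option linter.unusedSectionVars false
set_option linter.unusedVariables false
set_option linter.style.haveILetI false

namespace Fermat.Agent.S59.H396

open WeierstrassCurve WeierstrassCurve.Affine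
open scoped WeierstrassCurve.Affine
open Fermat.Agent.S05.SameRed (IntegralCoeffs InKer)
open Fermat.Agent.S05
open Fermat.Agent.S59.H899
open Fermat.Agent.S59.H360
open Fermat.Agent.Lib.Red.H290 (inKer_add inKer_neg inKer_sub)

section model

variable (W : WeierstrassCurve ℤ) (A : ValuationSubring QbarH)

/-- the integral model over the valuation ring `A` -/
noncomputable def modelAt : WeierstrassCurve A := W.map (Int.castRingHom A)

lemma curveQbar_eq_curveK : curveQbar W = curveK A (modelAt W A) := by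
  rw [curveQbar_eq_map, curveK, modelAt, WeierstrassCurve.map_map]
  congr 1

lemma modelAt_Δ : ((modelAt W A).Δ : QbarH) = ((W.Δ : ℤ) : QbarH) := by
  rw [modelAt, WeierstrassCurve.map_Δ]
  simp

lemma modelAt_c₄ : ((modelAt W A).c₄ : QbarH) = ((W.c₄ : ℤ) : QbarH) := by
  rw [modelAt, WeierstrassCurve.map_c₄]
  simp

/-- the curve over `ℚ̄` is elliptic -/
lemma isElliptic_curveQbar (hΔ : W.Δ ≠ 0) : (curveQbar W).IsElliptic := by
  refine ⟨?_⟩
  rw [isUnit_iff_ne_zero, curveQbar_Δ]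
  exact_mod_cast hΔ

/-- the kernel of reduction at the place `A`, as a subgroup of `E(ℚ̄)` -/
def kerRed : AddSubgroup (curveQbar W).Point where
  carrier := {T | InKer (curveQbar W) A.valuation T}
  zero_mem' := (SameRed.inKer_zero : InKer (curveQbar W) A.valuation 0)
  add_mem' := fun ha hb => inKer_add (integralCoeffs W A) ha hb
  neg_mem' := fun ha => inKer_neg ha

lemma mem_kerRed {T : (curveQbar W).Point} :
    T ∈ kerRed W A ↔ InKer (curveQbar W) A.valuation T := Iff.rfl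

variable {W A}

/-- the torsion data at a place over a prime of multiplicative reduction -/
theorem multTorsion_curveQbar {p : ℕ} [hp : Fact p.Prime] (hp2 : p ≠ 2) (hΔ : W.Δ ≠ 0)
    (hbad : (p : ℤ) ∣ W.Δ) (hc₄ : ¬ (p : ℤ) ∣ W.c₄) (hA : A.LiesOverPrime p) :
    MultTorsion (curveQbar W) A.valuation p := by
  haveI := _root_.Fermat.Agent.S59.H396.isElliptic_curveQbar W hΔ
  have hpV : (p : A) ∈ IsLocalRing.maximalIdeal A := by
    rw [ValuationSubring.valuation_lt_one_iff]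
    have : A.valuation ((p : ℤ) : QbarH) < 1 := val_intCast_lt_one hA (dvd_refl _)
    simpa using this
  have hΔ' : (modelAt W A).Δ ∈ IsLocalRing.maximalIdeal A := by
    rw [ValuationSubring.valuation_lt_one_iff, modelAt_Δ]
    exact val_intCast_lt_one hA hbad
  have hc4' : (modelAt W A).c₄ ∉ IsLocalRing.maximalIdeal A := by
    rw [ValuationSubring.valuation_lt_one_iff, modelAt_c₄,
      val_intCast_eq_one hA hp.out hc₄]
    exact lt_irrefl _
  exact multTorsion_of_eq A (modelAt W A) p hp2 hpV hΔ' hc4' (curveQbar_eq_curveK W A)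

/-- `#(E₁ ∩ E[p^n]) = p^n` -/
theorem lineCard_kerRed {p : ℕ} [hp : Fact p.Prime]
    (hMT : MultTorsion (curveQbar W) A.valuation p) : LineCard p (kerRed W A) := by
  intro n
  have h1 : ((kerRed W A ⊓ tors p (curveQbar W).Point n : AddSubgroup (curveQbar W).Point) :
      Set (curveQbar W).Point) =
      {T : (curveQbar W).Point | p ^ n • T = 0 ∧ InKer (curveQbar W) A.valuation T} := by
    ext T
    simp only [SetLike.mem_coe, AddSubgroup.mem_inf, mem_tors, mem_kerRed, Set.mem_ofPred_eq]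
    exact and_comm
  have h2 : Nat.card ↥(kerRed W A ⊓ tors p (curveQbar W).Point n) = Set.ncard
      ((kerRed W A ⊓ tors p (curveQbar W).Point n : AddSubgroup (curveQbar W).Point) :
        Set (curveQbar W).Point) := Nat.card_coe_set_eq _
  rw [h2, h1, hMT.card n]

/-- **`OrdDataAt` at a place over a prime of multiplicative reduction.** -/
theorem ordDataAt_of_mult {p : ℕ} [hp : Fact p.Prime] (hp2 : p ≠ 2) (hΔ : W.Δ ≠ 0)
    (hbad : (p : ℤ) ∣ W.Δ) (hc₄ : ¬ (p : ℤ) ∣ W.c₄) (hA : A.LiesOverPrime p) :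
    OrdDataAt p (curveQbar W).Point A := by
  have hMT := multTorsion_curveQbar hp2 hΔ hbad hc₄ hA
  have hW := integralCoeffs W A
  have hc : A.valuation (curveQbar W).c₄ = 1 := by
    rw [curveQbar_c₄]
    exact val_intCast_eq_one hA hp.out hc₄
  have hΔ' : (curveQbar W).Δ ≠ 0 := by
    rw [curveQbar_Δ]
    exact_mod_cast hΔ
  have hval : ∀ σ ∈ A.decompositionSubgroup ℚ, ∀ t : QbarH, A.valuation (σ t) = A.valuation t :=
    fun σ hσ t => Sq12.valuation_apply_eq_of_mem_decomp A hσ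
      (Sq12.isAlgebraic_algebraicClosure_rat t)
  refine ⟨kerRed W A, lineCard_kerRed hMT, ?_, ?_, ?_⟩
  · intro σ hσ x hx
    exact inKer_smul (W' := (W.map (Int.castRingHom ℚ)).toAffine) (S := ℚ) σ (hval σ hσ) hx
  · intro σ hσ n x hx
    have hσD := Sq12.mem_decomp_of_mem_inertiaIn A hσ
    exact inKer_smul_sub (W' := (W.map (Int.castRingHom ℚ)).toAffine) (S := ℚ)
      two_ne_zero hW hc hΔ' hMT σ (fun t ht => inertia_val_sub_lt_one hσ t ht)
      (hval σ hσD) n x hx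
  · intro σ hσ
    exact exists_sign (W' := (W.map (Int.castRingHom ℚ)).toAffine) (S := ℚ)
      two_ne_zero hW hc hΔ' hMT σ (hval σ hσ)

end model

end Fermat.Agent.S59.H396

end
-- ===== PACK-END S59/H396/OrdData.lean

-- ===== PACK-BEGIN S59/H870/OrdBridge.lean
section




/-!
# S59, cell COND, `.ord` case (helper870): the ordinary condition, from lines to matrices

* `isOrdinaryAt_toAdic_iff` : the representation `toAdic r hr` is ordinary at `p` (Prelude) iff
  for every place `𝔓` over `p` the matrix representation `r` is conjugate to one in ordinary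
  standard form at `𝔓`;
* `isOrdinaryAt_baseChangeAlong`, `isOrdinaryAt_of_isEquiv`.
-/

set_option autoImplicit false
set_option linter.unusedSectionVars false
set_option linter.style.haveILetI false

namespace Fermat.Agent.S59.H870

open Fermat.Agent.S53 Fermat.Agent.S59.H659 Fermat.Agent.S56.H966 IsLocalRing Polynomial
open scoped TensorProduct

section Bridge

variable {A : Type} [CommRing A] [IsLocalRing A]

/-- The local part of the Prelude's `IsOrdinaryAt`, in terms of a basis. -/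
theorem oLoc_iff_basis (ρ : GaloisRepAdic A) (𝔓 : ValuationSubring (AlgebraicClosure ℚ)) :
    (∃ L : Submodule A ρ.V,
      (∃ b : Module.Basis (Fin 2) A ρ.V, L = Submodule.span A {b 0}) ∧
      (∀ σ ∈ 𝔓.decompositionSubgroup ℚ, ∀ v ∈ L, ρ.ρ σ v ∈ L) ∧
      (∀ σ ∈ 𝔓.inertiaSubgroupIn ℚ, ∀ v : ρ.V, ρ.ρ σ v - v ∈ L)) ↔
    ∃ b : Module.Basis (Fin 2) A ρ.V,
      (∀ σ ∈ 𝔓.decompositionSubgroup ℚ, LinearMap.toMatrix b b (ρ.ρ σ) 1 0 = 0) ∧
      (∀ σ ∈ 𝔓.inertiaSubgroupIn ℚ, LinearMap.toMatrix b b (ρ.ρ σ) 1 1 = 1) := by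
  constructor
  · rintro ⟨L, ⟨b, rfl⟩, hD, hI⟩
    refine ⟨b, fun σ hσ => ?_, fun σ hσ => ?_⟩
    · exact (map_mem_span_iff b (ρ.ρ σ)).mp (hD σ hσ)
    · have h1 : ∀ v, ρ.ρ σ v - (1 : A) • v ∈ Submodule.span A {b 0} := fun v => by
        rw [one_smul]; exact hI σ hσ v
      exact ((sub_smul_mem_span_iff b (ρ.ρ σ) 1).mp h1).2
  · rintro ⟨b, hD, hI⟩
    refine ⟨Submodule.span A {b 0}, ⟨b, rfl⟩, fun σ hσ => ?_, fun σ hσ v => ?_⟩
    · exact (map_mem_span_iff b (ρ.ρ σ)).mpr (hD σ hσ)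
    · have h1 := (sub_smul_mem_span_iff b (ρ.ρ σ) 1).mpr
        ⟨hD σ (mem_decomposition_of_mem_inertia hσ), hI σ hσ⟩ v
      rwa [one_smul] at h1

/-- **Ordinary representations in terms of matrices.** -/
theorem isOrdinaryAt_toAdic_iff (r : GQ →* M2 A) (hr : MatCont r) (p : ℕ) :
    (toAdic r hr).IsOrdinaryAt p ↔
      ∀ 𝔓 : ValuationSubring (AlgebraicClosure ℚ),
        𝔓.LiesOverPrime p → ∃ U : (M2 A)ˣ, _root_.Fermat.Agent.S59.H870.IsOStd 𝔓 (cj U r) := by
  have key : ∀ (b : Module.Basis (Fin 2) A (Fin 2 → A)) (U : (M2 A)ˣ),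
      (∀ v : Fin 2 → A, (U : M2 A).mulVec v = b.equivFun v) →
      ∀ σ, LinearMap.toMatrix b b ((toAdic r hr).ρ σ) = cj U r σ := fun b U hU σ =>
    toMatrix_matEnd b U hU (r σ)
  unfold GaloisRepAdic.IsOrdinaryAt
  refine forall_congr' fun 𝔓 => forall_congr' fun h𝔓 => ?_
  rw [_root_.Fermat.Agent.S59.H870.oLoc_iff_basis]
  constructor
  · rintro ⟨b, hD, hI⟩
    have hU : ∀ v : Fin 2 → A, ((equivUnit b.equivFun : (M2 A)ˣ) : M2 A).mulVec v =
        b.equivFun v := fun v => equivUnit_mulVec b.equivFun v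
    refine ⟨equivUnit b.equivFun, ⟨fun σ hσ => ?_, fun σ hσ => ?_⟩⟩
    · rw [← key b _ hU σ]
      exact hD σ hσ
    · rw [← key b _ hU σ]
      exact hI σ hσ
  · rintro ⟨U, hU⟩
    let b : Module.Basis (Fin 2) A (Fin 2 → A) := Module.Basis.ofEquivFun (unitEquiv U)
    have hb : ∀ v : Fin 2 → A, (U : M2 A).mulVec v = b.equivFun v := fun v => by
      rw [Module.Basis.equivFun_ofEquivFun]
      rfl
    refine ⟨b, fun σ hσ => ?_, fun σ hσ => ?_⟩
    · have h1 := hU.dec σ hσ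
      rw [← key b U hb σ] at h1
      exact h1
    · have h1 := hU.inert σ hσ
      rw [← key b U hb σ] at h1
      exact h1

end Bridge

section BC

variable {A B : Type} [CommRing A] [IsLocalRing A] [CommRing B] [IsLocalRing B]

/-- Ordinarity is stable under base change along local homomorphisms. -/
theorem isOrdinaryAt_baseChangeAlong (φ : A →+* B) (hφ : IsLocalHom φ)
    {ρ : GaloisRepAdic A} {p : ℕ} (h : ρ.IsOrdinaryAt p) :
    (ρ.baseChangeAlong φ hφ).IsOrdinaryAt p := by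
  letI : Algebra A B := φ.toAlgebra
  intro P hP
  obtain ⟨L, ⟨b, rfl⟩, hD, hI⟩ := h P hP
  refine ⟨(Submodule.span B {(1 : B) ⊗ₜ[A] b 0} : Submodule B (B ⊗[A] ρ.V)),
    ⟨b.baseChange B, span_eq_span_baseChange φ b⟩, ?_, ?_⟩
  · intro σ hσ v hv
    exact baseChange_mem_span_of_mem φ (b 0) (ρ.ρ σ) (hD σ hσ) v hv
  · intro σ hσ w
    have := baseChange_sub_smul_mem φ (b 0) (ρ.ρ σ) 1
      (fun v => by rw [one_smul]; exact hI σ hσ v) w
    rw [map_one, one_smul] at this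
    exact this

variable {ρ₁ ρ₂ : GaloisRepAdic A}

/-- Ordinarity is invariant under equivalence. -/
theorem isOrdinaryAt_of_isEquiv (he : ρ₁.IsEquiv ρ₂) {p : ℕ}
    (h : ρ₁.IsOrdinaryAt p) : ρ₂.IsOrdinaryAt p := by
  obtain ⟨e⟩ := he
  intro P hP
  obtain ⟨L, ⟨b, rfl⟩, hD, hI⟩ := h P hP
  have hmem : ∀ {u : ρ₁.V}, u ∈ Submodule.span A {b 0} →
      e.toLinearEquiv u ∈ Submodule.span A {e.toLinearEquiv (b 0)} := by
    intro u hu
    obtain ⟨a, rfl⟩ := Submodule.mem_span_singleton.mp hu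
    rw [map_smul]
    exact Submodule.smul_mem _ _ (Submodule.mem_span_singleton_self _)
  have hsub : ∀ (σ : AlgebraicClosure ℚ ≃ₐ[ℚ] AlgebraicClosure ℚ) (z : A),
      (∀ v, ρ₁.ρ σ v - z • v ∈ Submodule.span A {b 0}) →
      ∀ w, ρ₂.ρ σ w - z • w ∈ Submodule.span A {e.toLinearEquiv (b 0)} := by
    intro σ z hz w
    have := hmem (hz (e.toLinearEquiv.symm w))
    rwa [map_sub, map_smul, e.map_apply, LinearEquiv.apply_symm_apply] at this
  refine ⟨Submodule.span A {e.toLinearEquiv (b 0)}, ⟨b.map e.toLinearEquiv, ?_⟩, ?_, ?_⟩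
  · rw [Module.Basis.map_apply]
  · intro σ hσ v hv
    obtain ⟨a, rfl⟩ := Submodule.mem_span_singleton.mp hv
    rw [map_smul, ← e.map_apply]
    exact Submodule.smul_mem _ _ (hmem (hD σ hσ _ (Submodule.mem_span_singleton_self _)))
  · intro σ hσ w
    have := hsub σ 1 (fun v => by rw [one_smul]; exact hI σ hσ v) w
    rwa [one_smul] at this

end BC

end Fermat.Agent.S59.H870

end
-- ===== PACK-END S59/H870/OrdBridge.lean

-- ===== PACK-BEGIN S59/H126/Univ.lean
section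







/-!
# S59 / NM-SEL (helper126): `R_Σ = R_{Σ ∪ q} ⧸ (inertia ideal at q)`

`D`, `D'` universal deformation rings of type `Σ`, `Σ ∪ {q}` (`q ∉ Σ`), `ψ : D'.R → D.R` the
classifying map of `D.ρ`.  Then `ψ` is surjective and its kernel is the inertia ideal at `q`
of any matrix model of `D'.ρ` (`ker_eq_inertiaIdeal`).
-/

set_option autoImplicit false
set_option linter.unusedSectionVars false
set_option linter.style.haveILetI false

open IsLocalRing

namespace Fermat.Agent.S59.H126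

open Fermat.Agent.S53
open Fermat.Agent.S59.Arch (PType pCond sigmaCond)

section Cond

variable {𝒪 : Type} [CommRing 𝒪]
  {A : Type} [CommRing A] [IsLocalRing A] [Algebra 𝒪 A]
  {B : Type} [CommRing B] [IsLocalRing B] [Algebra 𝒪 B]
  {p : ℕ} {t : PType} {Smin Sig : Finset ℕ}

theorem pCond_det {ρ : GaloisRepAdic A} (h : pCond 𝒪 p t Sig ρ) : ρ.DetIsCyclotomic p := by
  cases t <;> exact h.1

theorem pCond_unram {ρ : GaloisRepAdic A} (h : pCond 𝒪 p t Sig ρ) :
    ∀ q : ℕ, q.Prime → q ∉ Sig → ρ.IsUnramifiedAt q := by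
  cases t <;> exact h.2.2

theorem pCond_of_insert {ρ : GaloisRepAdic A} {q : ℕ} (h : pCond 𝒪 p t (insert q Sig) ρ)
    (hq : ρ.IsUnramifiedAt q) : pCond 𝒪 p t Sig ρ := by
  have hun : ∀ r : ℕ, r.Prime → r ∉ Sig → ρ.IsUnramifiedAt r := by
    intro r hr hrS
    by_cases hrq : r = q
    · rw [hrq]; exact hq
    · exact pCond_unram h r hr (by
        rw [Finset.mem_insert]
        exact fun h' => h'.elim hrq hrS)
  cases t
  · exact ⟨h.1, h.2.1, hun⟩
  · exact ⟨h.1, h.2.1, hun⟩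
  · exact ⟨h.1, h.2.1, hun⟩

theorem pCond_baseChangeAlong (f : A →+* B) (hf : IsLocalHom f) (hsurj : Function.Surjective f)
    {ρ : GaloisRepAdic A} (h : pCond 𝒪 p t Sig ρ) :
    pCond 𝒪 p t Sig (ρ.baseChangeAlong f hf) := by
  cases t
  · exact Fermat.Agent.S56.H966.flatCondition_baseChangeAlong_of_surjective 𝒪 f hf hsurj h
  · exact Fermat.Agent.S56.H966.strictOrdinaryCondition_baseChangeAlong 𝒪 f hf h
  · exact ⟨Fermat.Agent.S56.H966.detIsCyclotomic_baseChangeAlong f hf h.1,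
      Fermat.Agent.S59.H870.isOrdinaryAt_baseChangeAlong f hf h.2.1,
      fun q hq hqS => Fermat.Agent.S56.H966.isUnramifiedAt_baseChangeAlong f hf (h.2.2 q hq hqS)⟩

theorem sigmaCond_baseChangeAlong (f : A →+* B) (hf : IsLocalHom f)
    (hsurj : Function.Surjective f) {ρ : GaloisRepAdic A} (h : sigmaCond 𝒪 p t Smin Sig ρ) :
    sigmaCond 𝒪 p t Smin Sig (ρ.baseChangeAlong f hf) :=
  ⟨pCond_baseChangeAlong f hf hsurj h.1, fun q hq hqp hqne =>
    Fermat.Agent.S56.H966.isUnipotentOnInertiaAt_baseChangeAlong f hf (h.2 q hq hqp hqne)⟩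

end Cond

section Residual

variable {𝒪 : Type} [CommRing 𝒪] [IsLocalRing 𝒪]
  {A : Type} [CommRing A] [IsLocalRing A] [Algebra 𝒪 A] [IsLocalHom (algebraMap 𝒪 A)]
  {B : Type} [CommRing B] [IsLocalRing B] [Algebra 𝒪 B] [IsLocalHom (algebraMap 𝒪 B)]

/-- The residual representation of a base change along a local `𝒪`-algebra homomorphism. -/
theorem residual_isEquiv_baseChangeAlong (ρbar : ResidualGaloisRep (ResidueField 𝒪))
    (ρA : GaloisRepAdic A)
    (hres : ρA.residual.IsEquiv (ρbar.baseChangeAlong (ResidueField.map (algebraMap 𝒪 A))))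
    (f : A →ₐ[𝒪] B) (hf : IsLocalHom (f : A →+* B)) :
    (ρA.baseChangeAlong (f : A →+* B) hf).residual.IsEquiv
      (ρbar.baseChangeAlong (ResidueField.map (algebraMap 𝒪 B))) := by
  obtain ⟨rb, hrb, hρbar⟩ := exists_toRes ρbar
  obtain ⟨r, hr, hlift, he⟩ := exists_lift_of_residual_isEquiv ρbar rb hrb hρbar ρA hres
  obtain ⟨e1⟩ := Fermat.Agent.S59.H659.baseChangeAlong_isEquiv_toAdic (f : A →+* B) hf ρA r hr he
  have hlift' : ∀ σ, (mapRep (f : A →+* B) r σ).map (residue B) =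
      (rb σ).map (ResidueField.map (algebraMap 𝒪 B)) := by
    intro σ
    ext i j
    have h1 := congrFun (congrFun (hlift σ) i) j
    simp only [Matrix.map_apply] at h1
    simp only [Matrix.map_apply, mapRep_apply]
    haveI := hf
    have h2 : residue B ((f : A →+* B) (r σ i j)) =
        ResidueField.map (f : A →+* B) (residue A (r σ i j)) :=
      (ResidueField.map_residue (f : A →+* B) (r σ i j)).symm
    rw [h2, h1]
    have h3 : (algebraMap 𝒪 B) = (f : A →+* B).comp (algebraMap 𝒪 A) := by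
      ext o
      exact (f.commutes o).symm
    have h4 : ResidueField.map (algebraMap 𝒪 B) =
        (ResidueField.map (f : A →+* B)).comp (ResidueField.map (algebraMap 𝒪 A)) := by
      ext z
      obtain ⟨o, rfl⟩ := IsLocalRing.residue_surjective z
      simp only [RingHom.comp_apply, ResidueField.map_residue]
      rw [h3]
      rfl
    rw [h4]
    rfl
  obtain ⟨e2⟩ := residual_isEquiv_of_lift ρbar rb hrb hρbar (mapRep (f : A →+* B) r)
    (hr.map _ hf) hlift'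
  exact ⟨e1.residual.trans e2⟩

end Residual

section Trace

variable {A : Type} [CommRing A] [IsLocalRing A]

theorem trace_eq_of_isEquiv {ρ₁ ρ₂ : GaloisRepAdic A} (h : ρ₁.IsEquiv ρ₂) (σ : _root_.Fermat.Agent.S53.GQ) :
    ρ₁.trace σ = ρ₂.trace σ := by
  obtain ⟨e⟩ := h
  have h1 : ρ₂.ρ σ = e.toLinearEquiv.conj (ρ₁.ρ σ) := by
    apply LinearMap.ext
    intro v
    rw [LinearEquiv.conj_apply, LinearMap.comp_apply, LinearMap.comp_apply, LinearEquiv.coe_coe,
      LinearEquiv.coe_coe, e.map_apply, LinearEquiv.apply_symm_apply]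
  show LinearMap.trace A ρ₁.V (ρ₁.ρ σ) = LinearMap.trace A ρ₂.V (ρ₂.ρ σ)
  rw [h1, LinearMap.trace_conj']

theorem trace_toAdic (r : _root_.Fermat.Agent.S53.GQ →* M2 A) (hr : MatCont r) (σ : _root_.Fermat.Agent.S53.GQ) :
    (toAdic r hr).trace σ = (r σ).trace := by
  show LinearMap.trace A (Fin 2 → A) (Matrix.toLin' (r σ)) = (r σ).trace
  rw [LinearMap.trace_eq_matrix_trace A (Pi.basisFun A (Fin 2)), LinearMap.toMatrix_eq_toMatrix',
    LinearMap.toMatrix'_toLin']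

theorem baseChangeAlong_id_isEquiv (ρ : GaloisRepAdic A)
    (h : IsLocalHom (RingHom.id A)) : (ρ.baseChangeAlong (RingHom.id A) h).IsEquiv ρ := by
  obtain ⟨r, hr, he⟩ := exists_toAdic ρ
  have e1 := Fermat.Agent.S59.H659.baseChangeAlong_isEquiv_toAdic (RingHom.id A) h ρ r hr he
  have e2 : (toAdic (mapRep (RingHom.id A) r) (hr.map _ h)).IsEquiv (toAdic r hr) := by
    rw [toAdic_isEquiv_iff]
    refine ⟨1, fun σ => ?_⟩
    rw [mapRep_id, Units.val_one, one_mul, mul_one]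
  exact Fermat.Agent.S53.H113.isEquiv_trans e1
    (Fermat.Agent.S53.H113.isEquiv_trans e2 (Fermat.Agent.S53.H113.isEquiv_symm he))

end Trace

end Fermat.Agent.S59.H126

end
-- ===== PACK-END S59/H126/Univ.lean

-- ===== PACK-BEGIN Ribet/H420/TameVal.lean
section




/-!
# RIBET / ELOC-Frey (helper420): the value group of the tame field `ℚ̄^I(ζ_p)`

`A` a valuation subring of `ℚ̄` over `p`, `I` its inertia group.  If `a ≠ 0` is fixed by every
`s ∈ I` fixing the `p`-th roots of unity, then `v a ^ (p - 1)` is an integral power of `v p`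
(`inTame_of_fixed`): the norm of `a` down to the inertia field is a product of at most `p - 1`
conjugates of `a` under `I`, all of the same valuation, and the inertia field is unramified
(`Fermat.Agent.A2.IF.H429.exists_zpow_of_mem_inertiaField`).
-/

set_option autoImplicit false
set_option linter.unusedSectionVars false
set_option linter.style.haveILetI false

namespace Fermat.Agent.Ribet.H420

open Fermat.Agent.A2.IF.H429 Fermat.Agent.S55.H414

local notation "Qb" => AlgebraicClosure ℚ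

variable (A : ValuationSubring Qb) {p : ℕ} [hp : Fact p.Prime]

/-- an element with trivial cyclotomic character fixes all `p`-th roots of unity -/
lemma apply_root_of_cycloPow_eq_one (s : Qb ≃ₐ[ℚ] Qb)
    (hs : haveI : NeZero p := ⟨hp.out.ne_zero⟩; cycloPow p s = 1)
    (ζ : Qb) (hζ : ζ ^ p = 1) : s ζ = ζ := by
  haveI : NeZero p := ⟨hp.out.ne_zero⟩
  obtain ⟨i, -, rfl⟩ := (zetaBar_spec p).eq_pow_of_pow_eq_one hζ
  have h1 := cycloPow_spec p s
  rw [hs, Units.val_one, ZMod.val_one, pow_one] at h1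
  rw [map_pow, h1]

theorem inTame_of_fixed (hA : A.LiesOverPrime p) (a : Qb) (ha0 : a ≠ 0)
    (hfix : ∀ s ∈ A.inertiaSubgroupIn ℚ, (∀ ζ : Qb, ζ ^ p = 1 → s ζ = ζ) → s a = a) :
    InTame A p (A.valuation a) := by
  classical
  haveI : NeZero p := ⟨hp.out.ne_zero⟩
  set I := A.inertiaSubgroupIn ℚ with hI
  set χ := cycloPow p with hχ
  set C : Subgroup (ZMod p)ˣ := I.map χ with hC
  -- a section
  set g : (ZMod p)ˣ → Qb := fun u =>
    if h : ∃ s ∈ I, χ s = u then (Classical.choose h) a else 1 with hg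
  have hgs : ∀ s ∈ I, g (χ s) = s a := by
    intro s hs
    have h : ∃ s' ∈ I, χ s' = χ s := ⟨s, hs, rfl⟩
    have hs' := Classical.choose_spec h
    simp only [hg, dif_pos h]
    set s' := Classical.choose h with hs'def
    have hmem : s'⁻¹ * s ∈ I := I.mul_mem (I.inv_mem hs'.1) hs
    have hχ1 : χ (s'⁻¹ * s) = 1 := by
      rw [map_mul, map_inv, hs'.2, inv_mul_cancel]
    have := hfix _ hmem (fun ζ hζ => apply_root_of_cycloPow_eq_one _ hχ1 ζ hζ)
    rw [AlgEquiv.mul_apply] at this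
    have h2 := congrArg s' this
    rw [← AlgEquiv.mul_apply, mul_inv_cancel, AlgEquiv.one_apply] at h2
    exact h2.symm
  set F : Finset (ZMod p)ˣ := Finset.univ.filter (fun u => u ∈ C) with hF
  set N : Qb := ∏ u ∈ F, g u with hN
  have hmemF : ∀ u, u ∈ F ↔ ∃ s ∈ I, χ s = u := by
    intro u
    rw [hF, Finset.mem_filter, hC, Subgroup.mem_map]
    simp
  -- `N` is fixed by inertia
  have hNfix : ∀ s ∈ I, s N = N := by
    intro s hs
    rw [hN, map_prod]
    refine Finset.prod_bij (fun u _ => χ s * u) ?_ ?_ ?_ ?_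
    · intro u hu
      obtain ⟨t, ht, rfl⟩ := (hmemF u).mp hu
      exact (hmemF _).mpr ⟨s * t, I.mul_mem hs ht, map_mul _ _ _⟩
    · intro u _ u' _ h
      exact mul_left_cancel h
    · intro u hu
      obtain ⟨t, ht, rfl⟩ := (hmemF u).mp hu
      refine ⟨χ (s⁻¹ * t), (hmemF _).mpr ⟨s⁻¹ * t, I.mul_mem (I.inv_mem hs) ht, rfl⟩, ?_⟩
      rw [← map_mul, mul_inv_cancel_left]
    · intro u hu
      obtain ⟨t, ht, rfl⟩ := (hmemF u).mp hu
      rw [hgs t ht, ← map_mul, hgs (s * t) (I.mul_mem hs ht), AlgEquiv.mul_apply]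
  -- valuations
  have hval : ∀ u ∈ F, A.valuation (g u) = A.valuation a := by
    intro u hu
    obtain ⟨t, ht, rfl⟩ := (hmemF u).mp hu
    rw [hgs t ht]
    exact valuation_map_eq A (decomp_of_inertia A ht) a
  have hvN : A.valuation N = A.valuation a ^ F.card := by
    rw [hN, map_prod, Finset.prod_congr rfl hval, Finset.prod_const]
  have hva0 : A.valuation a ≠ 0 := by rw [Ne, map_eq_zero]; exact ha0
  have hN0 : N ≠ 0 := by
    intro h
    rw [h, map_zero] at hvN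
    exact pow_ne_zero _ hva0 hvN.symm
  obtain ⟨k, hk⟩ := exists_zpow_of_mem_inertiaField A p hp.out hA N
    ((mem_inertiaField_iff A).mpr hNfix) hN0
  have hp0 : A.valuation ((p : ℕ) : Qb) ≠ 0 := by
    rw [Ne, map_eq_zero]; exact_mod_cast hp.out.ne_zero
  rw [map_div₀, map_zpow₀] at hk
  have hk' : A.valuation N = A.valuation ((p : ℕ) : Qb) ^ k :=
    (div_eq_one_iff_eq (zpow_ne_zero k hp0)).mp hk
  -- Lagrange
  have hcard : F.card ∣ p - 1 := by
    have h1 : Nat.card C ∣ Nat.card (ZMod p)ˣ := Subgroup.card_subgroup_dvd_card C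
    have h2 : Nat.card (ZMod p)ˣ = p - 1 := by
      rw [Nat.card_eq_fintype_card, ZMod.card_units]
    have h3 : Nat.card C = F.card := by
      rw [Nat.card_eq_fintype_card, hF, Fintype.card_subtype]
    rwa [h2, h3] at h1
  obtain ⟨d, hd⟩ := hcard
  refine ⟨k * d, ?_⟩
  rw [hd, pow_mul, ← hvN, hk', ← zpow_natCast, ← zpow_mul]

end Fermat.Agent.Ribet.H420

end
-- ===== PACK-END Ribet/H420/TameVal.lean

-- ===== PACK-BEGIN S59/Patch/H967/Free.lean
section





/-!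
# Patching: freeness of the module of a patching datum (helper967, row S59, piece PATCH)

Combination of the patching lemma `exists_patchingLevel_bot` with the landed descent step `S57`.
-/

set_option autoImplicit false

namespace Fermat.Agent.S59.Patch.H967

open IsLocalRing

/-- **Patching.** If `M ≠ 0` carries a patching datum over `R`, then `M` is a free and faithful
`R`-module. -/
theorem free_and_faithful_of_patchingDatum
    {𝒪 : Type} [CommRing 𝒪] [IsDomain 𝒪] [IsDiscreteValuationRing 𝒪]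
    [IsAdicComplete (maximalIdeal 𝒪) 𝒪] [Finite (ResidueField 𝒪)]
    {ℓ r : ℕ} (hℓ : (ℓ : 𝒪) ∈ maximalIdeal 𝒪)
    {R : Type} [CommRing R] [Algebra 𝒪 R]
    {M : Type} [AddCommGroup M] [Module R M] [Nontrivial M]
    (P : Algebra.PatchingDatum 𝒪 ℓ r R M) :
    Module.Free R M ∧ Module.annihilator R M = ⊥ := by
  obtain ⟨L⟩ := exists_patchingLevel_bot hℓ P
  obtain ⟨h1, h2, -⟩ := Fermat.Agent.S57.result L
  exact ⟨h1, h2⟩

/-- **Patching, injectivity form.** If `M ≠ 0` carries a patching datum over `R`, then an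
element of `R` acting as zero on `M` is zero. -/
theorem eq_zero_of_smul_eq_zero_of_patchingDatum
    {𝒪 : Type} [CommRing 𝒪] [IsDomain 𝒪] [IsDiscreteValuationRing 𝒪]
    [IsAdicComplete (maximalIdeal 𝒪) 𝒪] [Finite (ResidueField 𝒪)]
    {ℓ r : ℕ} (hℓ : (ℓ : 𝒪) ∈ maximalIdeal 𝒪)
    {R : Type} [CommRing R] [Algebra 𝒪 R]
    {M : Type} [AddCommGroup M] [Module R M] [Nontrivial M]
    (P : Algebra.PatchingDatum 𝒪 ℓ r R M) {a : R} (ha : ∀ m : M, a • m = 0) : a = 0 := by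
  have h := (free_and_faithful_of_patchingDatum hℓ P).2
  have h1 : a ∈ Module.annihilator R M := Module.mem_annihilator.mpr ha
  rw [h] at h1
  exact (Ideal.mem_bot).mp h1

end Fermat.Agent.S59.Patch.H967

end
-- ===== PACK-END S59/Patch/H967/Free.lean

-- ===== PACK-BEGIN S59/Patch/H967/Iso.lean
section




/-!
# Patching: `R ≅ T` (helper967, row S59, glue MLT-ISO)

If `φ : R → T` is a surjective ring homomorphism, `M ≠ 0` is a `T`-module and `M`, viewed as an
`R`-module through `φ`, carries a patching datum, then `φ` is bijective (and `M` is free over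
`R`).  This is the form in which patching is consumed: `R` a deformation ring, `T` a Hecke ring,
`φ` the surjection of `S54`, `M` a Hecke module.
-/

set_option autoImplicit false

namespace Fermat.Agent.S59.Patch.H967

open IsLocalRing

/-- **`R = T` from a patching datum** (module structures given independently, compatible
through `φ`). -/
theorem bijective_of_patchingDatum
    {𝒪 : Type} [CommRing 𝒪] [IsDomain 𝒪] [IsDiscreteValuationRing 𝒪]
    [IsAdicComplete (maximalIdeal 𝒪) 𝒪] [Finite (ResidueField 𝒪)]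
    {ℓ r : ℕ} (hℓ : (ℓ : 𝒪) ∈ maximalIdeal 𝒪)
    {R : Type} [CommRing R] [Algebra 𝒪 R] {T : Type} [CommRing T]
    (φ : R →+* T) (hφ : Function.Surjective φ)
    {M : Type} [AddCommGroup M] [Module R M] [Module T M] [Nontrivial M]
    (hcompat : ∀ (a : R) (m : M), a • m = φ a • m)
    (P : Algebra.PatchingDatum 𝒪 ℓ r R M) : Function.Bijective φ := by
  refine ⟨?_, hφ⟩
  rw [injective_iff_map_eq_zero]
  intro a ha
  refine eq_zero_of_smul_eq_zero_of_patchingDatum hℓ P fun m => ?_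
  rw [hcompat, ha, zero_smul]

/-- **`R = T` from a patching datum** (`M` an `R`-module by restriction of scalars along `φ`). -/
theorem bijective_of_patchingDatum_compHom
    {𝒪 : Type} [CommRing 𝒪] [IsDomain 𝒪] [IsDiscreteValuationRing 𝒪]
    [IsAdicComplete (maximalIdeal 𝒪) 𝒪] [Finite (ResidueField 𝒪)]
    {ℓ r : ℕ} (hℓ : (ℓ : 𝒪) ∈ maximalIdeal 𝒪)
    {R : Type} [CommRing R] [Algebra 𝒪 R] {T : Type} [CommRing T]
    (φ : R →+* T) (hφ : Function.Surjective φ)
    {M : Type} [AddCommGroup M] [Module T M] [Nontrivial M]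
    (P : letI : Module R M := Module.compHom M φ; Algebra.PatchingDatum 𝒪 ℓ r R M) :
    Function.Bijective φ :=
  letI : Module R M := Module.compHom M φ
  bijective_of_patchingDatum hℓ φ hφ (fun _ _ => rfl) P

/-- The ring isomorphism `R ≃+* T` obtained from a patching datum. -/
noncomputable def ringEquivOfPatchingDatum
    {𝒪 : Type} [CommRing 𝒪] [IsDomain 𝒪] [IsDiscreteValuationRing 𝒪]
    [IsAdicComplete (maximalIdeal 𝒪) 𝒪] [Finite (ResidueField 𝒪)]
    {ℓ r : ℕ} (hℓ : (ℓ : 𝒪) ∈ maximalIdeal 𝒪)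
    {R : Type} [CommRing R] [Algebra 𝒪 R] {T : Type} [CommRing T]
    (φ : R →+* T) (hφ : Function.Surjective φ)
    {M : Type} [AddCommGroup M] [Module R M] [Module T M] [Nontrivial M]
    (hcompat : ∀ (a : R) (m : M), a • m = φ a • m)
    (P : Algebra.PatchingDatum 𝒪 ℓ r R M) : R ≃+* T :=
  RingEquiv.ofBijective φ (bijective_of_patchingDatum hℓ φ hφ hcompat P)

/-- Under the hypotheses of `bijective_of_patchingDatum`, `M` is free over `T`. -/
theorem free_of_patchingDatum_of_surjective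
    {𝒪 : Type} [CommRing 𝒪] [IsDomain 𝒪] [IsDiscreteValuationRing 𝒪]
    [IsAdicComplete (maximalIdeal 𝒪) 𝒪] [Finite (ResidueField 𝒪)]
    {ℓ r : ℕ} (hℓ : (ℓ : 𝒪) ∈ maximalIdeal 𝒪)
    {R : Type} [CommRing R] [Algebra 𝒪 R] {T : Type} [CommRing T]
    (φ : R →+* T) (hφ : Function.Surjective φ)
    {M : Type} [AddCommGroup M] [Module R M] [Module T M] [Nontrivial M]
    (hcompat : ∀ (a : R) (m : M), a • m = φ a • m)
    (P : Algebra.PatchingDatum 𝒪 ℓ r R M) : Module.Free T M := by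
  haveI : Module.Free R M := (free_and_faithful_of_patchingDatum hℓ P).1
  obtain ⟨⟨ι, b⟩⟩ := (inferInstance : Module.Free R M)
  -- transport the basis along `φ`
  refine Module.Free.of_basis (ι := ι) (Module.Basis.mk (v := fun i => b i) ?_ ?_)
  · -- linear independence over `T`
    rw [linearIndependent_iff']
    intro s g hg i hi
    -- lift the coefficients to `R`
    choose g' hg' using fun j => hφ (g j)
    have h1 : ∑ j ∈ s, g' j • b j = 0 := by
      rw [← hg]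
      exact Finset.sum_congr rfl fun j _ => by rw [hcompat, hg']
    have h2 := (linearIndependent_iff'.mp b.linearIndependent) s g' h1 i hi
    rw [← hg', h2, map_zero]
  · -- spanning over `T`
    intro m _
    have hm : m ∈ Submodule.span R (Set.range b) := by
      rw [b.span_eq]
      exact Submodule.mem_top
    refine Submodule.span_induction (p := fun x _ => x ∈ Submodule.span T (Set.range fun i => b i))
      ?_ ?_ ?_ ?_ hm
    · intro x hx
      exact Submodule.subset_span hx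
    · exact Submodule.zero_mem _
    · intro x y _ _ hx hy
      exact Submodule.add_mem _ hx hy
    · intro a x _ hx
      rw [hcompat]
      exact Submodule.smul_mem _ _ hx

end Fermat.Agent.S59.Patch.H967

end
-- ===== PACK-END S59/Patch/H967/Iso.lean

-- ===== PACK-BEGIN S59/TW/Aut/H959/CuspMin.lean
section


/-!
# Row S59, cell TW, layer 3 (AUT): the leaf CUSP-MIN (statement; helper959)

* `CuspMinStatement` (CUSP at the minimal level): the localisation `V₀` of `X_{Γ₀(N₀)}(𝒪)` at the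
  (non-Eisenstein) maximal ideal of the package consists of cuspidal classes.

Consumers: the bridge clause of the `Plus` form (`η_{T_min}(pt) = δ₀(χ)`), through
`TW/Aut/H959/Pair.lean` (`eigen_mem`, `act_eigen`, `pair_act`, `pairing_mem_congIdeal`).
-/

set_option autoImplicit false

open Polynomial IsLocalRing CongruenceSubgroup
open scoped MatrixGroups

namespace Fermat.Agent.S59.TW.Aut.H959

open Fermat.Agent.S59.Arch Fermat.Agent.S59.TW.H959 Fermat.Agent.S59.TW.H653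
open Fermat.Agent.S59.TW.Aut
open Fermat.Agent.S29.H642 Fermat.Agent.S41.Spec

/-- **CUSP at the minimal level.**  The localisation `V₀` of `X_{Γ₀(N₀)}(𝒪)` at the maximal ideal
of the minimal package consists of cuspidal classes.
(`ρ̄` is irreducible, so there is a prime `ℓ ≡ 1` modulo `N₀` with `θ (T_ℓ) ≠ ℓ + 1`; `T_ℓ` acts
as `ℓ + 1` on the values at the parabolic and the elliptic elements.) -/
def CuspMinStatement : Prop :=
  ∀ (p : ℕ) [Fact p.Prime]
    (𝒪 : Type) [CommRing 𝒪] [IsDomain 𝒪] [IsDiscreteValuationRing 𝒪]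
    [IsAdicComplete (maximalIdeal 𝒪) 𝒪] [Finite (ResidueField 𝒪)] [CharZero 𝒪]
    (ρbar : ResidualGaloisRep (ResidueField 𝒪)) (Smin : Finset ℕ)
    (_h : ResidualHyp p 𝒪 ρbar Smin) (t : PType)
    (_ht : (t = .flat ∧ (GaloisRepAdic.ofResidualGaloisRep ρbar).IsFlatAt p) ∨
      (t = .sord ∧ (GaloisRepAdic.ofResidualGaloisRep ρbar).IsStrictOrdinaryAt p ∧
        ¬ (GaloisRepAdic.ofResidualGaloisRep ρbar).IsFlatAt p))
    [NeZero (wilesLevel p t Smin Smin)]
    (P₀ : HeckePkg p 𝒪 ρbar t Smin Smin)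
    (V₀ : Submodule 𝒪 (Additive (Gamma0 (wilesLevel p t Smin Smin)) →+ 𝒪)),
    IsMinPart P₀ V₀ → ∀ v ∈ V₀, IsCuspidal v

end Fermat.Agent.S59.TW.Aut.H959

end
-- ===== PACK-END S59/TW/Aut/H959/CuspMin.lean

-- ===== PACK-BEGIN S55/E1/H295/Bidual.lean
section
/-
S55 engine E1, block LIM, leaf LIM-BIDUAL -- part 2: the tower (global form).  helper295.
Complete proofs.  Vocabulary: `E1/Lim/Obj.lean` (helper474): `zRep`, `lev`, `levν`, `sUnits`, `trS`;
`Bridge/MuP.lean`: `MuP`, `muPRep`, `evalMuP`; `E1/Tr/Defs.lean`: `trIhom`.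

For a level `L` with `μ_p ⊂ L.F` (`L.HasMu p`) and `M : Rep 𝔽_p G_ℚ` finite dimensional with
`L.U` acting trivially, `N := M.dualTwist (cycloChar p)`:
* `muToUnits L hL : μ_p →+ Fˣ`, `muToSUnits L hL : μ_p →+ E(F)` (injective, onto the `p`-torsion,
  Galois equivariant);
* `bidualHom  : lev (zRep M) L hM ⟶ Hom_ℤ(lev (zRep N) L hN, E(F))`, `m ↦ (f ↦ ⟨m, f⟩)`,
  `bidualHom_isIso`, `bidualIso`;
* `bidualHomU : lev (zRep M) L hM ⟶ Hom_ℤ(lev (zRep N) L hN, Fˣ)`, same with all units;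
* naturality in `L`: `bidualHom_tr`, `bidualHomU_tr`.
-/




set_option autoImplicit false

open CategoryTheory

namespace Fermat.Agent.S55.E1.H295

open Fermat.Agent.S55.Tow Fermat.Agent.S55.E1.Lim ExtCitation
open Fermat.Agent.S55.Bridge (MuP muPRep muPLinearEquiv evalMuP)

noncomputable section

attribute [local instance 10000] Rep.hV2

variable {S : Finset Nat.Primes} {p : ℕ} [Fact p.Prime]

/-! ## `μ_p → Fˣ` -/

/-- `p`-th roots of unity lie in `F` if `μ_p ⊂ F`. -/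
lemma root_mem_of_hasMu (L : Level S) (hL : L.HasMu p) (t : rootsOfUnity p Qbar) :
    ((t : Qbarˣ) : Qbar) ∈ L.F := by
  obtain ⟨ζ, hζ, hprim⟩ := hL
  have hp0 : NeZero p := ⟨(Fact.out : p.Prime).ne_zero⟩
  have h1 : ((t : Qbarˣ) : Qbar) ^ p = 1 := by
    have := (mem_rootsOfUnity p (t : Qbarˣ)).1 t.2
    have h2 := congrArg Units.val this
    simpa using h2
  obtain ⟨i, -, hi⟩ := hprim.eq_pow_of_pow_eq_one h1
  rw [← hi]
  exact pow_mem hζ i

/-- The element of `Fˣ` attached to a `p`-th root of unity. -/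
def muToUnitsFun (L : Level S) (hL : L.HasMu p) (t : MuP p) : L.units.V :=
  L.unitsMk (Additive.ofMul ((t.root : Qbarˣ))) (fun g hg => by
    apply Additive.toMul.injective
    apply Units.ext
    have h1 := root_mem_of_hasMu L hL t.root
    exact (IntermediateField.mem_fixingSubgroup_iff _ g).1 hg _ h1)

/-- `θ : μ_p →+ Fˣ`. -/
def muToUnits (L : Level S) (hL : L.HasMu p) : MuP p →+ L.units.V where
  toFun := muToUnitsFun L hL
  map_zero' := rfl
  map_add' _ _ := rfl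

lemma unitsCoe_muToUnits (L : Level S) (hL : L.HasMu p) (t : MuP p) :
    L.unitsCoe (muToUnits L hL t) = Additive.ofMul ((t.root : Qbarˣ)) := rfl

lemma muToUnits_injective (L : Level S) (hL : L.HasMu p) :
    Function.Injective (muToUnits L hL) := by
  intro t t' h
  have h1 := congrArg L.unitsCoe h
  rw [unitsCoe_muToUnits, unitsCoe_muToUnits] at h1
  apply MuP.root_injective
  apply Subtype.ext
  exact Additive.ofMul.injective h1

/-- The image of `θ` is the `p`-torsion of `Fˣ`. -/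
lemma exists_muToUnits_eq (L : Level S) (hL : L.HasMu p) (x : L.units.V) (hx : p • x = 0) :
    ∃ t : MuP p, muToUnits L hL t = x := by
  have h1 : (L.val x) ^ p = 1 := by
    have h2 := congrArg L.val hx
    exact h2
  have hp0 : NeZero p := ⟨(Fact.out : p.Prime).ne_zero⟩
  refine ⟨MuP.of p ⟨L.val x, (mem_rootsOfUnity p _).2 h1⟩, ?_⟩
  apply L.unitsCoe_injective
  rfl

/-- `θ` is Galois equivariant. -/
lemma muToUnits_equivariant (L : Level S) (hL : L.HasMu p) (σ : _root_.Fermat.Agent.S55.Tow.GQ) (t : MuP p) :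
    L.units.ρ (QuotientGroup.mk σ) (muToUnits L hL t) = muToUnits L hL (muPRep p σ t) := by
  apply L.unitsCoe_injective
  rw [L.units_ρ_coe, unitsCoe_muToUnits, unitsCoe_muToUnits]
  apply Additive.toMul.injective
  apply Units.ext
  exact (Fermat.Agent.S55.Bridge.muPRep_apply p σ t).symm

/-- Roots of unity are `S`-units. -/
lemma isSUnit_muToUnits (L : Level S) (hL : L.HasMu p) (t : MuP p) :
    L.IsSUnit (muToUnits L hL t) := by
  intro ℓ _ A _
  have hx : (L.val (muToUnits L hL t)) ^ p = 1 := by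
    have := (mem_rootsOfUnity p (t.root : Qbarˣ)).1 t.root.2
    exact this
  have hn : p ≠ 0 := (Fact.out : p.Prime).ne_zero
  have h1 : A.valuation ((L.val (muToUnits L hL t) : Qbarˣ) : Qbar) ^ p = 1 := by
    rw [← map_pow, ← Units.val_pow_eq_pow_val, hx, Units.val_one, map_one]
  have h2 : A.valuation ((L.val (muToUnits L hL t) : Qbarˣ) : Qbar) = 1 :=
    (pow_eq_one_iff_of_nonneg zero_le hn).1 h1
  have h3 : A.valuation (((L.val (muToUnits L hL t))⁻¹ : Qbarˣ) : Qbar) = 1 := by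
    rw [Units.val_inv_eq_inv_val, map_inv₀, h2, inv_one]
  exact ⟨(A.valuation_le_one_iff _).1 h2.le, (A.valuation_le_one_iff _).1 h3.le⟩

lemma muToUnits_mem (L : Level S) (hL : L.HasMu p) (t : MuP p) :
    muToUnits L hL t ∈ sUnitsAdd L := by
  intro g
  induction g using QuotientGroup.induction_on with
  | H σ =>
    rw [muToUnits_equivariant]
    exact isSUnit_muToUnits L hL _

/-- `θ_S : μ_p →+ E(F)` (the `S`-units). -/
def muToSUnits (L : Level S) (hL : L.HasMu p) : MuP p →+ (sUnits L).V where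
  toFun t := subMk (muToUnits L hL t) (muToUnits_mem L hL t)
  map_zero' := rfl
  map_add' _ _ := rfl

lemma sIncl_muToSUnits (L : Level S) (hL : L.HasMu p) (t : MuP p) :
    (sIncl L).hom (muToSUnits L hL t) = muToUnits L hL t := rfl

lemma muToSUnits_injective (L : Level S) (hL : L.HasMu p) :
    Function.Injective (muToSUnits L hL) := by
  intro t t' h
  apply muToUnits_injective L hL
  rw [← sIncl_muToSUnits, ← sIncl_muToSUnits, h]

lemma exists_muToSUnits_eq (L : Level S) (hL : L.HasMu p) (x : (sUnits L).V) (hx : p • x = 0) :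
    ∃ t : MuP p, muToSUnits L hL t = x := by
  have h1 : p • (sIncl L).hom x = 0 := by
    rw [← map_nsmul, hx, map_zero]
  obtain ⟨t, ht⟩ := exists_muToUnits_eq L hL _ h1
  refine ⟨t, ?_⟩
  apply sIncl_injective L
  rw [sIncl_muToSUnits, ht]

lemma muToSUnits_equivariant (L : Level S) (hL : L.HasMu p) (σ : _root_.Fermat.Agent.S55.Tow.GQ) (t : MuP p) :
    (sUnits L).ρ (QuotientGroup.mk σ) (muToSUnits L hL t) = muToSUnits L hL (muPRep p σ t) := by
  apply sIncl_injective L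
  rw [sIncl_muToSUnits, Rep.hom_comm_apply, sIncl_muToSUnits, muToUnits_equivariant]

/-! ## The generic evaluation morphism -/

section EvalHom

variable {Γ : Type} [Group Γ] (A B E : Rep.{0} ℤ Γ) (M : Rep.{0, 0, 0} (ZMod p) _root_.Fermat.Agent.S55.Tow.GQ)
  (eA : A.V ≃+ M.V) (eB : B.V ≃+ (M.dualTwist (cycloChar p)).V) (θ : MuP p →+ E.V)

/-- The pairing `A × B → E`, `(a, b) ↦ θ ⟨a, b⟩`, for `A ≃ M`, `B ≃ M^∨(1)`. -/
def evalPairing : A.V →+ B.V →+ E.V :=
  AddMonoidHom.mk' (fun a => (θ.comp (evalMuP M (eA a)).toAddMonoidHom).comp eB.toAddMonoidHom)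
    (fun a a' => by
      apply AddMonoidHom.ext
      intro b
      show θ (evalMuP M (eA (a + a')) (eB b)) =
        θ (evalMuP M (eA a) (eB b)) + θ (evalMuP M (eA a') (eB b))
      rw [map_add, map_add, LinearMap.add_apply, map_add])

lemma evalPairing_apply (a : A.V) (b : B.V) :
    evalPairing A B E M eA eB θ a b = θ (evalMuP M (eA a) (eB b)) := rfl

/-- Compatibility of the three actions with the Galois action: every `γ ∈ Γ` acts on
`A ≃ M`, `B ≃ M^∨(1)` and on `θ(μ_p)` like some `σ ∈ G_ℚ`. -/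
def EvalCompat : Prop :=
  ∀ γ : Γ, ∃ σ : _root_.Fermat.Agent.S55.Tow.GQ, (∀ a : A.V, eA (A.ρ γ a) = M.ρ σ (eA a)) ∧
    (∀ b : B.V, eB (B.ρ γ b) = (M.dualTwist (cycloChar p)).ρ σ (eB b)) ∧
    (∀ t : MuP p, E.ρ γ (θ t) = θ (muPRep p σ t))

variable {A B E M eA eB θ}

lemma evalPairing_equivariant (hc : EvalCompat A B E M eA eB θ) (γ : Γ) (a : A.V) (b : B.V) :
    evalPairing A B E M eA eB θ (A.ρ γ a) (B.ρ γ b) =
      E.ρ γ (evalPairing A B E M eA eB θ a b) := by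
  obtain ⟨σ, h1, h2, h3⟩ := hc γ
  rw [evalPairing_apply, evalPairing_apply, h1, h2, h3,
    Fermat.Agent.S55.Bridge.evalMuP_equivariant]

/-- The morphism `A ⟶ Hom_ℤ(B, E)`, `a ↦ (b ↦ θ ⟨a, b⟩)`. -/
def evalHom (hc : EvalCompat A B E M eA eB θ) : A ⟶ (Rep.ihom B).obj E :=
  pairingHom (evalPairing A B E M eA eB θ) (evalPairing_equivariant hc)

lemma evalHom_apply (hc : EvalCompat A B E M eA eB θ) (a : A.V) (b : B.V) :
    (show B.V →ₗ[ℤ] E.V from (evalHom hc).hom a) b = θ (evalMuP M (eA a) (eB b)) := rfl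

theorem evalHom_bijective [FiniteDimensional (ZMod p) M] (hc : EvalCompat A B E M eA eB θ)
    (hθ : Function.Injective θ) (hθp : ∀ x : E.V, p • x = 0 → ∃ t : MuP p, θ t = x) :
    Function.Bijective (evalHom hc).hom := by
  apply pairingHom_bijective
  · intro a ha
    have h1 : eA a = 0 := by
      apply eq_zero_of_eval_eq_zero (muPLinearEquiv p) θ hθ (eA a)
      intro f
      have h2 := ha (eB.symm f)
      rw [evalPairing_apply, AddEquiv.apply_symm_apply] at h2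
      exact h2
    exact (AddEquiv.map_eq_zero_iff eA).1 h1
  · intro φ
    obtain ⟨m, hm⟩ := exists_eval_of_additive (M := M.V) (muPLinearEquiv p) θ hθ hθp
      (φ.comp eB.symm.toAddMonoidHom)
    refine ⟨eA.symm m, fun b => ?_⟩
    rw [evalPairing_apply, AddEquiv.apply_symm_apply]
    have h1 := hm (eB b)
    rw [AddMonoidHom.comp_apply] at h1
    have h2 : eB.symm.toAddMonoidHom (eB b) = b := AddEquiv.symm_apply_apply eB b
    rw [h2] at h1
    exact h1

theorem evalHom_isIso [FiniteDimensional (ZMod p) M] (hc : EvalCompat A B E M eA eB θ)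
    (hθ : Function.Injective θ) (hθp : ∀ x : E.V, p • x = 0 → ∃ t : MuP p, θ t = x) :
    IsIso (evalHom hc) := by
  have hb := evalHom_bijective hc hθ hθp
  haveI : Mono (evalHom hc) := (Rep.mono_iff_injective _).2 hb.1
  haveI : Epi (evalHom hc) := (Rep.epi_iff_surjective _).2 hb.2
  exact isIso_of_mono_of_epi _

end EvalHom

/-! ## The global isomorphisms -/

section Global

variable (M : Rep.{0, 0, 0} (ZMod p) _root_.Fermat.Agent.S55.Tow.GQ)

/-- `L.U` acts trivially on `N = M^∨(1)` if it acts trivially on `M` and `μ_p ⊂ F`. -/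
lemma dualTwist_ρ_eq_one (L : Level S) (hL : L.HasMu p) (hM : ∀ s ∈ L.U, M.ρ s = 1) :
    ∀ s ∈ L.U, (M.dualTwist (cycloChar p)).ρ s = 1 := by
  intro s hs
  have hχ : cycloChar p s = 1 := by
    apply Fermat.Agent.S55.Bridge.cycloChar_eq_one_of_fixes
    intro t ht
    exact (IntermediateField.mem_fixingSubgroup_iff _ s).1 hs _
      (root_mem_of_hasMu L hL ⟨t, ht⟩)
  have hs' : M.ρ s⁻¹ = 1 := hM _ (inv_mem hs)
  apply LinearMap.ext
  intro f
  rw [Rep.dualTwist_ρ_apply, hχ, hs']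
  simp only [Units.val_one, one_smul]
  rfl

/-- The hypotheses for `zRep`. -/
lemma zRep_trivial {k G : Type} [CommRing k] [Group G] (A : Rep.{0} k G) (U : Subgroup G)
    (h : ∀ s ∈ U, A.ρ s = 1) : ∀ s ∈ U, (zRep A).ρ s = 1 :=
  fun s hs => zRep_ρ_eq_one (h s hs)

variable (L : Level S) (hL : L.HasMu p) (hM : ∀ s ∈ L.U, (zRep M).ρ s = 1)
  (hN : ∀ s ∈ L.U, (zRep (M.dualTwist (cycloChar p))).ρ s = 1)

lemma evalCompat_sUnits :
    EvalCompat (lev (zRep M) L hM) (lev (zRep (M.dualTwist (cycloChar p))) L hN) (sUnits L) M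
      (AddEquiv.refl _) (AddEquiv.refl _) (muToSUnits L hL) := by
  intro γ
  induction γ using QuotientGroup.induction_on with
  | H σ =>
    exact ⟨σ, fun a => rfl, fun b => rfl, fun t => muToSUnits_equivariant L hL σ t⟩

lemma evalCompat_units :
    EvalCompat (lev (zRep M) L hM) (lev (zRep (M.dualTwist (cycloChar p))) L hN) L.units M
      (AddEquiv.refl _) (AddEquiv.refl _) (muToUnits L hL) := by
  intro γ
  induction γ using QuotientGroup.induction_on with
  | H σ =>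
    exact ⟨σ, fun a => rfl, fun b => rfl, fun t => muToUnits_equivariant L hL σ t⟩

/-- **LIM-BIDUAL** (`S`-units): `M_F ⟶ Hom_ℤ(N_F, E(F))`, `m ↦ (f ↦ ⟨m, f⟩ ∈ μ_p ⊂ E(F))`. -/
def bidualHom :
    lev (zRep M) L hM ⟶
      (Rep.ihom (lev (zRep (M.dualTwist (cycloChar p))) L hN)).obj (sUnits L) :=
  evalHom (evalCompat_sUnits M L hL hM hN)

/-- **LIM-BIDUAL** (all units): `M_F ⟶ Hom_ℤ(N_F, Fˣ)`. -/
def bidualHomU :
    lev (zRep M) L hM ⟶
      (Rep.ihom (lev (zRep (M.dualTwist (cycloChar p))) L hN)).obj L.units :=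
  evalHom (evalCompat_units M L hL hM hN)

lemma bidualHom_apply (m : M.V) (f : (M.dualTwist (cycloChar p)).V) :
    (show (lev (zRep (M.dualTwist (cycloChar p))) L hN).V →ₗ[ℤ] (sUnits L).V from
      (bidualHom M L hL hM hN).hom m) f = muToSUnits L hL (evalMuP M m f) := rfl

lemma bidualHomU_apply (m : M.V) (f : (M.dualTwist (cycloChar p)).V) :
    (show (lev (zRep (M.dualTwist (cycloChar p))) L hN).V →ₗ[ℤ] L.units.V from
      (bidualHomU M L hL hM hN).hom m) f = muToUnits L hL (evalMuP M m f) := rfl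

/-- `bidualHomU = (sIncl)_* ∘ bidualHom`. -/
lemma bidualHom_sIncl :
    bidualHom M L hL hM hN ≫
      (Rep.ihom (lev (zRep (M.dualTwist (cycloChar p))) L hN)).map (sIncl L) =
    bidualHomU M L hL hM hN := by
  apply Rep.hom_ext
  apply DFunLike.ext
  intro m
  rfl

variable [FiniteDimensional (ZMod p) M]

theorem bidualHom_bijective : Function.Bijective (bidualHom M L hL hM hN).hom :=
  evalHom_bijective _ (muToSUnits_injective L hL) (exists_muToSUnits_eq L hL)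

theorem bidualHomU_bijective : Function.Bijective (bidualHomU M L hL hM hN).hom :=
  evalHom_bijective _ (muToUnits_injective L hL) (exists_muToUnits_eq L hL)

instance bidualHom_isIso : IsIso (bidualHom M L hL hM hN) :=
  evalHom_isIso _ (muToSUnits_injective L hL) (exists_muToSUnits_eq L hL)

instance bidualHomU_isIso : IsIso (bidualHomU M L hL hM hN) :=
  evalHom_isIso _ (muToUnits_injective L hL) (exists_muToUnits_eq L hL)

/-- **LIM-BIDUAL**: `M_F ≅ Hom_ℤ(N_F, E(F))` in `Rep ℤ Gal(F/ℚ)`. -/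
def bidualIso :
    lev (zRep M) L hM ≅
      (Rep.ihom (lev (zRep (M.dualTwist (cycloChar p))) L hN)).obj (sUnits L) :=
  asIso (bidualHom M L hL hM hN)

/-- **LIM-BIDUAL**: `M_F ≅ Hom_ℤ(N_F, Fˣ)` in `Rep ℤ Gal(F/ℚ)`. -/
def bidualIsoU :
    lev (zRep M) L hM ≅
      (Rep.ihom (lev (zRep (M.dualTwist (cycloChar p))) L hN)).obj L.units :=
  asIso (bidualHomU M L hL hM hN)

end Global

/-! ## Naturality in the level -/

section Naturality

variable (M : Rep.{0, 0, 0} (ZMod p) _root_.Fermat.Agent.S55.Tow.GQ) {L L' : Level S} (h : L ≤ L') (hL : L.HasMu p)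
  (hM : ∀ s ∈ L.U, (zRep M).ρ s = 1)
  (hN : ∀ s ∈ L.U, (zRep (M.dualTwist (cycloChar p))).ρ s = 1)

lemma trUnits_muToUnits (t : MuP p) :
    (Level.trUnits h).hom (muToUnits L hL t) = muToUnits L' (hL.mono h) t := rfl

lemma trS_muToSUnits (t : MuP p) :
    (trS h).hom (muToSUnits L hL t) = muToSUnits L' (hL.mono h) t := rfl

/-- Naturality of `bidualHom` in the level (`S`-units). -/
theorem bidualHom_tr :
    (Rep.resFunctor (Level.proj h)).map (bidualHom M L hL hM hN) ≫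
        trIhom (Level.proj h) (levν (zRep (M.dualTwist (cycloChar p))) h hN) (trS h) =
      Fermat.Agent.S55.Bridge.levelHom (zRep M) h hM ≫
        bidualHom M L' (hL.mono h) (triv_of_le _ h hM) (triv_of_le _ h hN) := by
  apply Rep.hom_ext
  apply DFunLike.ext
  intro m
  rfl

/-- Naturality of `bidualHomU` in the level (all units). -/
theorem bidualHomU_tr :
    (Rep.resFunctor (Level.proj h)).map (bidualHomU M L hL hM hN) ≫
        trIhom (Level.proj h) (levν (zRep (M.dualTwist (cycloChar p))) h hN)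
          (Level.trUnits h) =
      Fermat.Agent.S55.Bridge.levelHom (zRep M) h hM ≫
        bidualHomU M L' (hL.mono h) (triv_of_le _ h hM) (triv_of_le _ h hN) := by
  apply Rep.hom_ext
  apply DFunLike.ext
  intro m
  rfl

end Naturality

end

end Fermat.Agent.S55.E1.H295

end
-- ===== PACK-END S55/E1/H295/Bidual.lean

-- ===== PACK-BEGIN S55/E1/H295/BidualLoc.lean
section
/-
S55 engine E1, block LIM, leaf LIM-BIDUAL -- part 3: the local form.  helper295.  Complete proofs.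

For a level `L` with `μ_p ⊂ L.F`, a prime `q`, `D_q = L.Dec q ↪ Gal(F/ℚ)` (`L.decHom q`):
* `muToLoc L q hL : μ_p →+ F_qˣ` (`= emb ∘ muToUnits`; injective, onto the `p`-torsion of `F_qˣ`,
  equivariant for the local Galois group);
* `bidualHomLoc : Res_{D_q} M_F ⟶ Hom_ℤ(Res_{D_q} N_F, F_qˣ)`, an isomorphism (`bidualIsoLoc`);
* compatibility with the global form: `bidualHomU_emb`;
* naturality in the level (elementwise): `bidualHomLoc_tr`.
-/


set_option autoImplicit false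

open CategoryTheory

namespace Fermat.Agent.S55.E1.H295

open Fermat.Agent.S55.Tow Fermat.Agent.S55.E1.Lim ExtCitation
open Fermat.Agent.S55.Bridge (MuP muPRep muPLinearEquiv evalMuP)

noncomputable section

attribute [local instance 10000] Rep.hV2

variable {S : Finset Nat.Primes} {p : ℕ} [Fact p.Prime]

/-! ## `μ_p → F_qˣ` -/

/-- `θ_q : μ_p →+ F_qˣ`, the composite of `μ_p → Fˣ` and the embedding `Fˣ → F_qˣ`. -/
def muToLoc (L : Level S) (q : Nat.Primes) (hL : L.HasMu p) : MuP p →+ (L.locUnits q).V :=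
  (L.embFun q).toAddMonoidHom.comp (muToUnits L hL)

lemma muToLoc_apply (L : Level S) (q : Nat.Primes) (hL : L.HasMu p) (t : MuP p) :
    muToLoc L q hL t = L.embFun q (muToUnits L hL t) := rfl

lemma embQbar_injective (q : Nat.Primes) : Function.Injective (embQbar q) := by
  intro x y h
  apply Additive.toMul.injective
  apply Units.ext
  have h1 : ((Additive.toMul (embQbar q x) : (PadicAlgCl (q : ℕ))ˣ) : PadicAlgCl (q : ℕ)) =
      ((Additive.toMul (embQbar q y) : (PadicAlgCl (q : ℕ))ˣ) : PadicAlgCl (q : ℕ)) := by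
    rw [h]
  exact (padicEmbedding (q : ℕ)).toRingHom.injective h1

lemma embFun_injective (L : Level S) (q : Nat.Primes) : Function.Injective (L.embFun q) := by
  intro x y h
  apply L.unitsCoe_injective
  apply embQbar_injective q
  rw [← L.locCoe_embFun, ← L.locCoe_embFun, h]

lemma muToLoc_injective (L : Level S) (q : Nat.Primes) (hL : L.HasMu p) :
    Function.Injective (muToLoc L q hL) :=
  (embFun_injective L q).comp (muToUnits_injective L hL)

lemma embQbar_val (q : Nat.Primes) (a : unitsQbar.V) :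
    ((Additive.toMul (embQbar q a) : (PadicAlgCl (q : ℕ))ˣ) : PadicAlgCl (q : ℕ)) =
      padicEmbedding (q : ℕ) ((Additive.toMul a : Qbarˣ) : Qbar) := rfl

/-- The image of `θ_q` is the `p`-torsion of `F_qˣ`. -/
lemma exists_muToLoc_eq (L : Level S) (q : Nat.Primes) (hL : L.HasMu p) (x : (L.locUnits q).V)
    (hx : p • x = 0) : ∃ t : MuP p, muToLoc L q hL t = x := by
  obtain ⟨ζ, hζ, hprim⟩ := id hL
  have hp0 : NeZero p := ⟨(Fact.out : p.Prime).ne_zero⟩
  have hprim' : IsPrimitiveRoot (padicEmbedding (q : ℕ) ζ) p :=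
    hprim.map_of_injective (padicEmbedding (q : ℕ)).toRingHom.injective
  have h1 : (L.locVal q x) ^ p = 1 := congrArg (L.locVal q) hx
  have h2 : ((L.locVal q x : (PadicAlgCl (q : ℕ))ˣ) : PadicAlgCl (q : ℕ)) ^ p = 1 := by
    rw [← Units.val_pow_eq_pow_val, h1, Units.val_one]
  obtain ⟨i, -, hi⟩ := hprim'.eq_pow_of_pow_eq_one h2
  let u : Qbarˣ := (hprim.isUnit hp0.ne).unit
  have hu : (u : Qbar) = ζ := rfl
  have hup : u ^ p = 1 := by
    apply Units.ext
    rw [Units.val_pow_eq_pow_val, hu, hprim.pow_eq_one, Units.val_one]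
  have hmem : u ^ i ∈ rootsOfUnity p Qbar := by
    rw [mem_rootsOfUnity, ← pow_mul, mul_comm, pow_mul, hup, one_pow]
  refine ⟨MuP.of p ⟨u ^ i, hmem⟩, ?_⟩
  apply L.locCoe_injective q
  rw [muToLoc_apply, L.locCoe_embFun, unitsCoe_muToUnits]
  apply Additive.toMul.injective
  apply Units.ext
  change padicEmbedding (q : ℕ) ((u ^ i : Qbarˣ) : Qbar) =
    ((L.locVal q x : (PadicAlgCl (q : ℕ))ˣ) : PadicAlgCl (q : ℕ))
  rw [Units.val_pow_eq_pow_val, hu, map_pow, hi]

/-- `θ_q` is equivariant for the local Galois group. -/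
lemma muToLoc_equivariant (L : Level S) (q : Nat.Primes) (hL : L.HasMu p) (τ : GQp q)
    (t : MuP p) :
    (L.locUnits q).ρ (QuotientGroup.mk τ) (muToLoc L q hL t) =
      muToLoc L q hL (muPRep p (locQ q τ) t) := by
  rw [muToLoc_apply, muToLoc_apply, ← muToUnits_equivariant]
  exact (Rep.hom_comm_apply (L.emb q) (QuotientGroup.mk τ) (muToUnits L hL t)).symm

/-! ## The local isomorphism -/

section Local

variable (M : Rep.{0, 0, 0} (ZMod p) _root_.Fermat.Agent.S55.Tow.GQ) (L : Level S) (q : Nat.Primes) (hL : L.HasMu p)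
  (hM : ∀ s ∈ L.U, (zRep M).ρ s = 1)
  (hN : ∀ s ∈ L.U, (zRep (M.dualTwist (cycloChar p))).ρ s = 1)

lemma evalCompat_loc :
    EvalCompat (Rep.res (L.decHom q) (lev (zRep M) L hM))
      (Rep.res (L.decHom q) (lev (zRep (M.dualTwist (cycloChar p))) L hN)) (L.locUnits q) M
      (AddEquiv.refl _) (AddEquiv.refl _) (muToLoc L q hL) := by
  intro γ
  induction γ using QuotientGroup.induction_on with
  | H τ =>
    exact ⟨locQ q τ, fun a => rfl, fun b => rfl, fun t => muToLoc_equivariant L q hL τ t⟩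

/-- **LIM-BIDUAL, local form**: `Res_{D_q} M_F ⟶ Hom_ℤ(Res_{D_q} N_F, F_qˣ)`,
`m ↦ (f ↦ ⟨m, f⟩ ∈ μ_p ⊂ F_qˣ)`. -/
def bidualHomLoc :
    Rep.res (L.decHom q) (lev (zRep M) L hM) ⟶
      (Rep.ihom (Rep.res (L.decHom q) (lev (zRep (M.dualTwist (cycloChar p))) L hN))).obj
        (L.locUnits q) :=
  evalHom (evalCompat_loc M L q hL hM hN)

lemma bidualHomLoc_apply (m : M.V) (f : (M.dualTwist (cycloChar p)).V) :
    (show (Rep.res (L.decHom q) (lev (zRep (M.dualTwist (cycloChar p))) L hN)).V →ₗ[ℤ]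
        (L.locUnits q).V from (bidualHomLoc M L q hL hM hN).hom m) f =
      muToLoc L q hL (evalMuP M m f) := rfl

/-- Compatibility of the local and the global form: `emb_* ∘ Res(bidualHomU) = bidualHomLoc`. -/
theorem bidualHomU_emb :
    (Rep.resFunctor (L.decHom q)).map (bidualHomU M L hL hM hN) ≫
        trIhom (L.decHom q)
          (𝟙 (Rep.res (L.decHom q) (lev (zRep (M.dualTwist (cycloChar p))) L hN))) (L.emb q) =
      bidualHomLoc M L q hL hM hN := by
  apply Rep.hom_ext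
  apply DFunLike.ext
  intro m
  rfl

variable [FiniteDimensional (ZMod p) M]

theorem bidualHomLoc_bijective : Function.Bijective (bidualHomLoc M L q hL hM hN).hom :=
  evalHom_bijective _ (muToLoc_injective L q hL) (exists_muToLoc_eq L q hL)

instance bidualHomLoc_isIso : IsIso (bidualHomLoc M L q hL hM hN) :=
  evalHom_isIso _ (muToLoc_injective L q hL) (exists_muToLoc_eq L q hL)

/-- **LIM-BIDUAL, local form**: `Res_{D_q} M_F ≅ Hom_ℤ(Res_{D_q} N_F, F_qˣ)`. -/
def bidualIsoLoc :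
    Rep.res (L.decHom q) (lev (zRep M) L hM) ≅
      (Rep.ihom (Rep.res (L.decHom q) (lev (zRep (M.dualTwist (cycloChar p))) L hN))).obj
        (L.locUnits q) :=
  asIso (bidualHomLoc M L q hL hM hN)

end Local

/-! ## Naturality of the local form in the level -/

section LocalNaturality

variable (M : Rep.{0, 0, 0} (ZMod p) _root_.Fermat.Agent.S55.Tow.GQ) {L L' : Level S} (h : L ≤ L') (q : Nat.Primes)
  (hL : L.HasMu p) (hM : ∀ s ∈ L.U, (zRep M).ρ s = 1)
  (hN : ∀ s ∈ L.U, (zRep (M.dualTwist (cycloChar p))).ρ s = 1)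

lemma trLoc_muToLoc (t : MuP p) :
    (Level.trLoc h q).hom (muToLoc L q hL t) = muToLoc L' q (hL.mono h) t := rfl

/-- The identity of `M` as a morphism `Res_{proj}(Res_{D_q} M_F) ⟶ Res_{D'_q} M_{F'}`. -/
def locLevelHom (A : Rep.{0} ℤ _root_.Fermat.Agent.S55.Tow.GQ) (hA : ∀ s ∈ L.U, A.ρ s = 1) :
    Rep.res (Level.projDec h q) (Rep.res (L.decHom q) (lev A L hA)) ⟶
      Rep.res (L'.decHom q) (lev A L' (triv_of_le A h hA)) :=
  Rep.ofHom ⟨LinearMap.id, fun g => QuotientGroup.induction_on g fun _ => rfl⟩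

/-- The identity of `N` as a morphism `Res_{D'_q} N_{F'} ⟶ Res_{proj}(Res_{D_q} N_F)`. -/
def locLevν (A : Rep.{0} ℤ _root_.Fermat.Agent.S55.Tow.GQ) (hA : ∀ s ∈ L.U, A.ρ s = 1) :
    Rep.res (L'.decHom q) (lev A L' (triv_of_le A h hA)) ⟶
      Rep.res (Level.projDec h q) (Rep.res (L.decHom q) (lev A L hA)) :=
  Rep.ofHom ⟨LinearMap.id, fun g => QuotientGroup.induction_on g fun _ => rfl⟩

@[simp] lemma locLevelHom_apply (A : Rep.{0} ℤ _root_.Fermat.Agent.S55.Tow.GQ) (hA : ∀ s ∈ L.U, A.ρ s = 1) (a : A.V) :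
    (locLevelHom h q A hA).hom a = a := rfl

@[simp] lemma locLevν_apply (A : Rep.{0} ℤ _root_.Fermat.Agent.S55.Tow.GQ) (hA : ∀ s ∈ L.U, A.ρ s = 1) (a : A.V) :
    (locLevν h q A hA).hom a = a := rfl

/-- Naturality of `bidualHomLoc` in the level. -/
theorem bidualHomLoc_tr :
    (Rep.resFunctor (Level.projDec h q)).map (bidualHomLoc M L q hL hM hN) ≫
        trIhom (Level.projDec h q) (locLevν h q (zRep (M.dualTwist (cycloChar p))) hN)
          (Level.trLoc h q) =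
      locLevelHom h q (zRep M) hM ≫
        bidualHomLoc M L' q (hL.mono h) (triv_of_le _ h hM) (triv_of_le _ h hN) := by
  apply Rep.hom_ext
  apply DFunLike.ext
  intro m
  rfl

end LocalNaturality

end

end Fermat.Agent.S55.E1.H295

end
-- ===== PACK-END S55/E1/H295/BidualLoc.lean

-- ===== PACK-BEGIN S59/NMP/H649/ValComp.lean
section


/-!
# Row S59, cell NMP, leaf SEL / VALFIN: the valuation component of a Kummer family (helper649)

`P` a valuation subring of `ℚ̄` over `p`, `I = I_P`, `G` a finite abelian group killed by `p ^ n`,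
`c : Gal → G` a map such that for every character `Λ` of `G` the function `τ ↦ Λ (c τ)` on `I` has
a Kummer generator `y_Λ ≠ 0` (`τ y = Λ (c τ) · y` for `τ ∈ I`).  Then `y_Λ ^ (p ^ n)` is fixed by
`I`, so `v(y_Λ) ^ (p ^ n) = v(p) ^ k` (the inertia field is unramified), and
`Λ ↦ ζ ^ k` is a character of the character group of `G`: by finite duality it is the evaluation
at one element `v ∈ G`, THE VALUATION COMPONENT.  `Λ v = 1` iff `τ ↦ Λ (c τ)` is the Kummer
character of a `P`-unit.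
-/

set_option autoImplicit false
set_option linter.style.haveILetI false
set_option linter.unusedSectionVars false
set_option linter.unusedVariables false

namespace Fermat.Agent.S59.NMP.H649

/-- `ℚ̄` -/
local notation "Qb" => AlgebraicClosure ℚ

/-- `Gal(ℚ̄/ℚ)` -/
local notation "GQ" => (AlgebraicClosure ℚ ≃ₐ[ℚ] AlgebraicClosure ℚ)

variable (P : ValuationSubring Qb)

/-- the valuation class of `y` at level `p ^ n`: `v(y) ^ (p ^ n) = v(p) ^ k`, `w = ζ ^ k` -/
def KVal (p n : ℕ) (ζ : Qbˣ) (y : Qb) (w : Qbˣ) : Prop :=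
  ∃ k : ℤ, P.valuation (y ^ p ^ n / (p : Qb) ^ k) = 1 ∧ w = ζ ^ k

variable {P} {p n : ℕ} {ζ : Qbˣ}

theorem natCast_ne_zero_h649 (hp : p.Prime) : ((p : ℕ) : Qb) ≠ 0 :=
  Nat.cast_ne_zero.mpr hp.ne_zero

theorem valuation_p_ne_zero_h649 (hp : p.Prime) : P.valuation ((p : ℕ) : Qb) ≠ 0 :=
  (Valuation.ne_zero_iff _).mpr (natCast_ne_zero_h649 hp)

theorem valuation_eq_zpow_h649 (hp : p.Prime) {x : Qb} {k : ℤ}
    (h : P.valuation (x / (p : Qb) ^ k) = 1) : P.valuation x = P.valuation (p : Qb) ^ k := by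
  rw [map_div₀, map_zpow₀] at h
  exact (div_eq_one_iff_eq (zpow_ne_zero k (valuation_p_ne_zero_h649 hp))).mp h

theorem zpow_valuation_injective_h649 (hp : p.Prime) (hP : P.LiesOverPrime p) {k k' : ℤ}
    (h : P.valuation ((p : ℕ) : Qb) ^ k = P.valuation ((p : ℕ) : Qb) ^ k') : k = k' := by
  have h1 : P.valuation ((p : ℕ) : Qb) < 1 := (P.mem_nonunits_iff).mp hP
  have h0 : 0 < P.valuation ((p : ℕ) : Qb) := zero_lt_iff.mpr (valuation_p_ne_zero_h649 hp)
  exact zpow_right_injective₀ h0 h1.ne h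

theorem KVal.unique (hp : p.Prime) (hP : P.LiesOverPrime p) {y : Qb} {w w' : Qbˣ}
    (h : KVal P p n ζ y w) (h' : KVal P p n ζ y w') : w = w' := by
  obtain ⟨k, hk, rfl⟩ := h
  obtain ⟨k', hk', rfl⟩ := h'
  have e := (valuation_eq_zpow_h649 hp hk).symm.trans (valuation_eq_zpow_h649 hp hk')
  rw [zpow_valuation_injective_h649 hp hP e]

theorem KVal.mul (hp : p.Prime) {y y' : Qb} {w w' : Qbˣ}
    (h : KVal P p n ζ y w) (h' : KVal P p n ζ y' w') : KVal P p n ζ (y * y') (w * w') := by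
  obtain ⟨k, hk, rfl⟩ := h
  obtain ⟨k', hk', rfl⟩ := h'
  refine ⟨k + k', ?_, (zpow_add ζ k k').symm⟩
  have e : (y * y') ^ p ^ n / (p : Qb) ^ (k + k') =
      (y ^ p ^ n / (p : Qb) ^ k) * (y' ^ p ^ n / (p : Qb) ^ k') := by
    rw [mul_pow, zpow_add₀ (natCast_ne_zero_h649 hp), mul_div_mul_comm]
  rw [e, map_mul, hk, hk', one_mul]

theorem KVal.of_unit {B : Qb} (hB : P.valuation B = 1) : KVal P p n ζ B 1 := by
  refine ⟨0, ?_, (zpow_zero ζ).symm⟩
  rw [zpow_zero, div_one, map_pow, hB, one_pow]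

theorem KVal.of_fixed (hp : p.Prime) (hP : P.LiesOverPrime p) (hζ : ζ ^ p ^ n = 1) {r : Qb}
    (hr0 : r ≠ 0) (hfix : ∀ τ ∈ P.inertiaSubgroupIn ℚ, τ r = r) : KVal P p n ζ r 1 := by
  obtain ⟨j, hj⟩ := Fermat.Agent.A2.IF.H429.exists_zpow_of_mem_inertiaField P p hp hP r
    ((Fermat.Agent.A2.IF.H429.mem_inertiaField_iff P).mpr hfix) hr0
  refine ⟨j * (p ^ n : ℕ), ?_, ?_⟩
  · have e : r ^ p ^ n / (p : Qb) ^ (j * (p ^ n : ℕ)) = (r / (p : Qb) ^ j) ^ p ^ n := by
      rw [div_pow, zpow_mul, zpow_natCast]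
    rw [e, map_pow, hj, one_pow]
  · rw [mul_comm, zpow_mul, zpow_natCast, hζ, one_zpow]

theorem KVal.exists (hp : p.Prime) (hP : P.LiesOverPrime p) (ζ : Qbˣ) {y : Qb} (hy0 : y ≠ 0)
    (hfix : ∀ τ ∈ P.inertiaSubgroupIn ℚ, τ (y ^ p ^ n) = y ^ p ^ n) :
    ∃ w : Qbˣ, KVal P p n ζ y w := by
  obtain ⟨k, hk⟩ := Fermat.Agent.A2.IF.H429.exists_zpow_of_mem_inertiaField P p hp hP (y ^ p ^ n)
    ((Fermat.Agent.A2.IF.H429.mem_inertiaField_iff P).mpr hfix) (pow_ne_zero _ hy0)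
  exact ⟨ζ ^ k, k, hk, rfl⟩

theorem KVal.exists_unit (hp : p.Prime) (hζ : IsPrimitiveRoot ζ (p ^ n)) {y : Qb}
    (h : KVal P p n ζ y 1) : ∃ j : ℤ, P.valuation (y / (p : Qb) ^ j) = 1 := by
  obtain ⟨k, hk, hk1⟩ := h
  have hdvd : ((p ^ n : ℕ) : ℤ) ∣ k := (hζ.zpow_eq_one_iff_dvd k).mp hk1.symm
  obtain ⟨j, rfl⟩ := hdvd
  refine ⟨j, ?_⟩
  have e : y ^ p ^ n / (p : Qb) ^ (((p ^ n : ℕ) : ℤ) * j) = (y / (p : Qb) ^ j) ^ p ^ n := by
    rw [div_pow, mul_comm, zpow_mul, zpow_natCast]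
  rw [e, map_pow] at hk
  exact (pow_eq_one_iff_left (pow_ne_zero n hp.ne_zero)).mp hk

section Component

variable {G : Type*} [AddCommGroup G] [Finite G]

/-- `Λ` is the Kummer character of `y` on the inertia group -/
def IsGen (P : ValuationSubring Qb) (c : GQ → G) (Λ : Multiplicative G →* Qbˣ) (y : Qb) : Prop :=
  y ≠ 0 ∧ ∀ τ ∈ P.inertiaSubgroupIn ℚ, τ y = ((Λ (Multiplicative.ofAdd (c τ)) : Qbˣ) : Qb) * y

theorem IsGen.mul {c : GQ → G} {Λ Λ' : Multiplicative G →* Qbˣ} {y y' : Qb}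
    (h : IsGen P c Λ y) (h' : IsGen P c Λ' y') : IsGen P c (Λ * Λ') (y * y') := by
  refine ⟨mul_ne_zero h.1 h'.1, fun τ hτ => ?_⟩
  rw [map_mul, h.2 τ hτ, h'.2 τ hτ, MonoidHom.mul_apply, Units.val_mul]
  ring

theorem IsGen.one (c : GQ → G) : IsGen P c 1 1 := by
  refine ⟨one_ne_zero, fun τ _ => ?_⟩
  rw [map_one, MonoidHom.one_apply, Units.val_one, one_mul]

theorem IsGen.div_fixed {c : GQ → G} {Λ : Multiplicative G →* Qbˣ} {y y' : Qb}
    (h : IsGen P c Λ y) (h' : IsGen P c Λ y') :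
    ∀ τ ∈ P.inertiaSubgroupIn ℚ, τ (y' / y) = y' / y := by
  intro τ hτ
  rw [map_div₀, h.2 τ hτ, h'.2 τ hτ]
  exact mul_div_mul_left _ _ (Units.ne_zero _)

theorem IsGen.pow_fixed (hG : ∀ g : G, (p ^ n) • g = 0) {c : GQ → G}
    {Λ : Multiplicative G →* Qbˣ} {y : Qb} (h : IsGen P c Λ y) :
    ∀ τ ∈ P.inertiaSubgroupIn ℚ, τ (y ^ p ^ n) = y ^ p ^ n := by
  intro τ hτ
  rw [map_pow, h.2 τ hτ, mul_pow, ← Units.val_pow_eq_pow_val, ← map_pow]
  have : (Multiplicative.ofAdd (c τ)) ^ p ^ n = 1 := by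
    rw [← ofAdd_nsmul, hG]
    rfl
  rw [this, map_one, Units.val_one, one_mul]

/-- the relation "`w` is the valuation class of `Λ`" -/
def Rel (P : ValuationSubring Qb) (p n : ℕ) (ζ : Qbˣ) (c : GQ → G)
    (Λ : Multiplicative G →* Qbˣ) (w : Qbˣ) : Prop :=
  ∃ y : Qb, IsGen P c Λ y ∧ KVal P p n ζ y w

theorem Rel.unique (hp : p.Prime) (hP : P.LiesOverPrime p) (hζ : ζ ^ p ^ n = 1)
    {c : GQ → G} {Λ : Multiplicative G →* Qbˣ} {w w' : Qbˣ}
    (h : Rel P p n ζ c Λ w) (h' : Rel P p n ζ c Λ w') : w = w' := by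
  obtain ⟨y, hy, hw⟩ := h
  obtain ⟨y', hy', hw'⟩ := h'
  have hr : KVal P p n ζ (y' / y) 1 :=
    KVal.of_fixed hp hP hζ (div_ne_zero hy'.1 hy.1) (hy.div_fixed hy')
  have h2 := hr.mul hp hw
  rw [div_mul_cancel₀ _ hy.1, one_mul] at h2
  exact h2.unique hp hP hw'

/-- **The valuation component.** -/
theorem exists_valuation_component (hp : p.Prime) (hP : P.LiesOverPrime p) (n : ℕ)
    (ζ : Qb) (hζ : IsPrimitiveRoot ζ (p ^ n)) (hG : ∀ g : G, (p ^ n) • g = 0) (c : GQ → G)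
    (hgen : ∀ Λ : Multiplicative G →* Qbˣ, ∃ y : Qb, IsGen P c Λ y) :
    ∃ v : G, ∀ Λ : Multiplicative G →* Qbˣ,
      (Λ (Multiplicative.ofAdd v) = 1 ↔
        ∃ B : Qb, P.valuation B = 1 ∧ ∀ τ ∈ P.inertiaSubgroupIn ℚ,
          τ B = ((Λ (Multiplicative.ofAdd (c τ)) : Qbˣ) : Qb) * B) := by
  classical
  have hζ0 : ζ ≠ 0 := hζ.ne_zero (pow_ne_zero n hp.ne_zero)
  let ζu : Qbˣ := Units.mk0 ζ hζ0
  have hζu : IsPrimitiveRoot ζu (p ^ n) := by
    have : IsPrimitiveRoot ((ζu : Qbˣ) : Qb) (p ^ n) := hζ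
    exact IsPrimitiveRoot.coe_units_iff.mp this
  have hζu1 : ζu ^ p ^ n = 1 := hζu.pow_eq_one
  have hex : ∀ Λ : Multiplicative G →* Qbˣ, ∃ w : Qbˣ, Rel P p n ζu c Λ w := by
    intro Λ
    obtain ⟨y, hy⟩ := hgen Λ
    obtain ⟨w, hw⟩ := KVal.exists hp hP ζu hy.1 (hy.pow_fixed hG)
    exact ⟨w, y, hy, hw⟩
  choose φ hφ using hex
  have hφ_one : φ 1 = 1 :=
    (hφ 1).unique hp hP hζu1 ⟨1, IsGen.one c, KVal.of_unit (by rw [map_one])⟩
  have hφ_mul : ∀ Λ Λ', φ (Λ * Λ') = φ Λ * φ Λ' := by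
    intro Λ Λ'
    obtain ⟨y, hy, hw⟩ := hφ Λ
    obtain ⟨y', hy', hw'⟩ := hφ Λ'
    exact (hφ (Λ * Λ')).unique hp hP hζu1 ⟨y * y', hy.mul hy', hw.mul hp hw'⟩
  let Φ : (Multiplicative G →* Qbˣ) →* Qbˣ :=
    { toFun := φ
      map_one' := hφ_one
      map_mul' := hφ_mul }
  haveI : NeZero ((Monoid.exponent (Multiplicative G) : ℕ) : ℚ) :=
    ⟨Nat.cast_ne_zero.mpr Monoid.exponent_ne_zero_of_finite⟩
  let g : Multiplicative G := CommGroup.monoidHomMonoidHomEquiv (Multiplicative G) Qb Φ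
  have hg : ∀ Λ : Multiplicative G →* Qbˣ, Λ g = Φ Λ := fun Λ =>
    CommGroup.apply_monoidHomMonoidHomEquiv (G := Multiplicative G) (M := Qb) Λ Φ
  refine ⟨Multiplicative.toAdd g, fun Λ => ?_⟩
  have hΛg : Λ (Multiplicative.ofAdd (Multiplicative.toAdd g)) = φ Λ := hg Λ
  rw [hΛg]
  constructor
  · intro h1
    obtain ⟨y, hy, hw⟩ := hφ Λ
    rw [h1] at hw
    obtain ⟨j, hj⟩ := hw.exists_unit hp hζu
    refine ⟨y / (p : Qb) ^ j, hj, fun τ hτ => ?_⟩
    rw [map_div₀, hy.2 τ hτ, map_zpow₀, map_natCast, mul_div_assoc]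
  · rintro ⟨B, hB, hBτ⟩
    have hB0 : B ≠ 0 := by
      intro h
      rw [h, map_zero] at hB
      exact zero_ne_one hB
    exact (hφ Λ).unique hp hP hζu1 ⟨B, ⟨hB0, hBτ⟩, KVal.of_unit hB⟩

end Component

end Fermat.Agent.S59.NMP.H649

end
-- ===== PACK-END S59/NMP/H649/ValComp.lean

-- ===== PACK-BEGIN S38T/IA/Hecke/Spec3.lean
section




/-!
# Row S59 (B2) HECKE-T, LAYER 3: `ty`-generic twin of `S38/IA/Hecke/Spec3.lean`  (helper3)

MECHANICAL TWIN (see `S38T/IA/Spec.lean`): the `ty`-dependent objects and leaves of Spec3 v2, with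
`.flat` replaced by `ty` and `5 ≤ p` by `3 ≤ p`; the `ty`-independent definitions (`gLevel`, `KG`,
`gLift`, `TsetOfθ`, `pairU`, `IsPivChar`, `IARankStatement`, `IACharStatement`) are those of Spec3.

Layer 2 (`Hecke/Spec.lean`) reduced `IA.IAHeckeStatement_T` to ONE open leaf, `IAAutStatement_T`:
the automorphic module `M_Q` (`IAAutLevel_T`) with the comparison `Cmp`.  This file cuts it,
in the Betti vocabulary of helper653 (`S59/TW/H653`) and of layer 3 of the cell TW of row S59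
(`S59/TW/Aut/Spec.lean`, helper511: `IsLocPart`, `TsetOf`, `UsetOf`, `ActsBy`, `tOpTw`,
`IdemStatement`).  Only sorry-free definitions in this file.

## v2 (23:20Z): `IsHalf`
As in layer 3 of the cell TW (`S59/TW/Aut/Spec.lean` on main): IA-MOD provides `h` with
`IsHalf p pv h ∧ IsHalf p qv h` (`p^{m_s} ∣ 2h + 1` at every pivot and every Taylor–Wiles prime),
and IA-CMP, IA-NU, IA-ST assume it.  Nothing else changed with respect to v1 (@10e5dd6e2).

## RESTRICTION `5 ≤ p`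
The concrete leaves are stated for `5 ≤ p` (enough for the Frey curve, S43): for `p = 3` the
hypothesis (Ell) of `MFree.free` (the elements of finite order of `Γ₀(M)` lie in `K`) can fail and
an auxiliary level is needed.  `IAAut5Statement_T` / `IAHecke5Statement_T` are `IAAutStatement_T` /
`IA.IAHeckeStatement_T` with the extra hypothesis `5 ≤ p`.

## The objects (all CONCRETE)
* `pv : Fin k → ℕ` an enumeration of `Piv`, `qv : Fin r → ℕ` the Taylor–Wiles set; the COMBINED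
  family `Sum.elim pv qv : Fin k ⊕ Fin r → ℕ` (pivots, then Taylor–Wiles primes);
* `N₀ = wilesLevel p ty Smin Smin = ∏_{Smin ∖ p} q`, Betti level
  `M = gLevel N₀ (Sum.elim pv qv) = N₀ · ∏ pv · ∏ qv`;
* `K = KIA_T p ty Smin pv qv = Γ₀(N₀) ∩ Γ_H(Piv ∪ Q) = GammaH M (ker (ℤ/M)ˣ → Δ_Piv × Δ_Q)`
  (`gLevel`, `gChi`, `KG`: the definitions `bLevel`, `chi`, `KQ` of helper511 for a family
  indexed by an arbitrary finite type; for `ι = Fin r` they are definitionally his);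
* `V ⊆ X_K(𝒪)`: THE localisation at `(𝔪_𝒪, T_ℓ - c_ℓ (ℓ ∉ Σ), U_{q_j} - α_j (j : Fin r))`
  (`IsIAPart_T`); the `U`-operators are localised at the TAYLOR–WILES primes only;
* `V₀ ⊆ X_{Γ₀(L)}(𝒪)`, `L = ribetLevelT p ty Smin Piv`: the localisation at `(𝔪_𝒪, T_ℓ - c_ℓ)`,
  `c_ℓ ↦ θ₀(T_ℓ)` (`IsIAMinPart_T`); its rank is `d`;
* `T_Q = PQ.T` acts on `V` through `⟨ℓ⟩^h T_ℓ` (`IsIAAction_T`);
* diamond operators `diaIA_T a₁ a₂`, `a₁ ∈ ∏ (ℤ/pv i)ˣ`, `a₂ ∈ ∏ (ℤ/qv j)ˣ`;
* `χ : ∏ (ℤ/pv i)ˣ → 𝒪`, of order `p`, nontrivial at every pivot (`IsPivChar`);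
  `chiRelIA_T χ V` = the `𝒪`-span of the `⟨a₁⟩ y - χ(a₁) y`, `y ∈ V`;
  `M_Q := V / chiRelIA_T χ V`.

## Leaves (each is a `Prop`; prove `theorem foo : FooStatement` VERBATIM)

| leaf | Prop | content | inputs |
|---|---|---|---|
| IDEM | `S59.TW.Aut.IdemStatement` | the localisations exist | shared with row S59 |
| IA-NONTRIV | `IANontrivStatement_T` | `V₀` is free of rank `d > 0` over `𝒪` | ES + faithfulness (= S59 NONTRIV at level `L`) |
| IA-MOD | `IAModStatement_T` | `T_Q` acts on `V`, `T_ℓ ↦ ⟨ℓ⟩^h T_ℓ`, `h` half | = S59 MODQ for the combined family |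
| IA-FREE | `IAFreeStatement_T` | `V` has an `𝒪`-basis `⟨g^e⟩ b_i` (free over `𝒪[Δ_Piv × Δ_Q]`) | `MFree.free` |
| IA-CTRL | `IACtrlStatement_T` | `π : V ↠ V₀`, `ker π = I_Δ V` (`Δ = Δ_Piv × Δ_Q`) | `MFree` (ker cor, cor onto) + TW-CTRL over the base level `L` |
| IA-CMP | `IACmpStatement_T` | `(w - 1) V = (⟨u⟩_j - 1) V` at the Taylor–Wiles primes | = S59 CMP |
| IA-NU | `IANuStatement_T` | `t` vanishing at the points not unipotent at the pivots ⇒ `t V ⊆ chiRelIA_T χ V` | twist is `q²`-new + frozen S36 |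
| IA-ST | `IAStStatement_T` | `(tr ρ(Frob_q)² - (1+q)²) V ⊆ chiRelIA_T 1 V` (`= I_{Δ_Piv} V`) | (MIN) + CTRL-MIN (helper719) + S35 |

## Glue
* `IABettiLevel_T` / `IABettiStatement_T`: the ABSTRACT Betti module (a `T_Q`-module `V` with a
  `T_Q`-linear diamond action of `∏ (ℤ/pv i)ˣ × ∏ (ℤ/qv j)ˣ`, free of rank `d`, with (NU), (ST)
  into the `χ`-relations, and `Cmp`);
* glue A, pure algebra (`χ`-part of helper354): `IABettiStatement_T → IAAut5Statement_T`;
* glue B, bookkeeping: the leaves above `→ IABettiStatement_T`;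
* `IARankStatement` (Mathlib only): a basis `⟨g^e⟩ b_i`, `i < d'`, of `V` and `V / I_Δ V ≅ V₀`
  free of rank `d` give `d' = d`.
-/

set_option autoImplicit false

open Polynomial IsLocalRing CongruenceSubgroup
open scoped MatrixGroups

namespace Fermat.Agent.S38.IA.Hecke


open Fermat.Agent.S59.Arch Fermat.Agent.S59.TW.H959 Fermat.Agent.S59.TW Fermat.Agent.S59.H765
open Fermat.Agent.S59.TW.H653 Fermat.Agent.S59.TW.Aut
open CuspForm

/-! ## The Betti objects of Ihara avoidance -/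

section Obj

variable (p : ℕ) (ty : PType) (Smin : Finset ℕ) {k r : ℕ} (pv : Fin k → ℕ) (qv : Fin r → ℕ)

/-- `K = Γ₀(N_min) ∩ Γ_H(Piv ∪ Q)`. -/
noncomputable abbrev KIA_T : Subgroup SL(2, ℤ) := KG p (wilesLevel p ty Smin Smin) (Sum.elim pv qv)

/-- The Betti level `M = N_min · ∏ pv · ∏ qv`. -/
noncomputable abbrev MIA_T : ℕ := gLevel (wilesLevel p ty Smin Smin) (Sum.elim pv qv)

theorem isMid_KIA_T : IsMid (MIA_T p ty Smin pv qv) (KIA_T p ty Smin pv qv) := isMid_KG _ _ _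

/-- The Betti module `X_K(𝒪) = Hom(K, 𝒪)`. -/
abbrev XIA_T (𝒪 : Type) [CommRing 𝒪] : Type := Additive (KIA_T p ty Smin pv qv) →+ 𝒪

/-- The plain diamond operator of `(a₁, a₂) ∈ ∏ (ℤ/pv i)ˣ × ∏ (ℤ/qv j)ˣ` on `X_K(𝒪)`. -/
noncomputable def diaIA_T (𝒪 : Type) [CommRing 𝒪] (a₁ : ∀ i : Fin k, (ZMod (pv i))ˣ)
    (a₂ : ∀ j : Fin r, (ZMod (qv j))ˣ) (x : XIA_T p ty Smin pv qv 𝒪) : XIA_T p ty Smin pv qv 𝒪 :=
  diamondU (isMid_KIA_T p ty Smin pv qv)
    (gLift (wilesLevel p ty Smin Smin) (Sum.elim pv qv) (pairU a₁ a₂)) x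

/-- The `χ`-relations in `V`: the `𝒪`-span of the `⟨a₁⟩ y - χ(a₁) y`, `y ∈ V`, `a₁` at the
pivots.  (`chiRelIA_T 1 V = I_{Δ_Piv} V`.) -/
noncomputable def chiRelIA_T {𝒪 : Type} [CommRing 𝒪] (χ : (∀ i : Fin k, (ZMod (pv i))ˣ) →* 𝒪)
    (V : Submodule 𝒪 (XIA_T p ty Smin pv qv 𝒪)) : Submodule 𝒪 (XIA_T p ty Smin pv qv 𝒪) :=
  Submodule.span 𝒪 {w | ∃ (a₁ : ∀ i : Fin k, (ZMod (pv i))ˣ) (y : XIA_T p ty Smin pv qv 𝒪),
    y ∈ V ∧ w = diaIA_T p ty Smin pv qv 𝒪 a₁ 1 y - χ a₁ • y}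

end Obj

section Parts

variable {p : ℕ} {ty : PType}
  {𝒪 : Type} [CommRing 𝒪] [IsDomain 𝒪] [IsDiscreteValuationRing 𝒪]
  [IsAdicComplete (maximalIdeal 𝒪) 𝒪]
  {ρbar : ResidualGaloisRep (ResidueField 𝒪)} {Smin : Finset ℕ}

/-- `V₀` is the localisation of `X_{Γ₀(L)}(𝒪)`, `L = ribetLevelT p ty Smin Piv`, at the maximal ideal
of `θ₀`. -/
def IsIAMinPart_T {Piv : Finset ℕ} [NeZero (ribetLevelT p ty Smin Piv)]
    (θ₀ : CuspForm.heckeAlgebra (ribetLevelT p ty Smin Piv) 2 (↑(Smin ∪ Piv) : Set ℕ) →+*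
      ResidueField 𝒪)
    (V₀ : Submodule 𝒪 (Additive (Gamma0 (ribetLevelT p ty Smin Piv)) →+ 𝒪)) : Prop :=
  IsLocPart (isMid_Gamma0 (ribetLevelT p ty Smin Piv)) (TsetOfθ θ₀) ∅ V₀

variable {Piv : Finset ℕ} {k r : ℕ} {pv : Fin k → ℕ} {qv : Fin r → ℕ}

/-- **FREE at `V`, rank `d`**: for primitive roots `g₁ i` mod `pv i` and `g₂ j` mod `qv j`, an
`𝒪`-basis of `V` of the form `⟨g₁^{e₁}, g₂^{e₂}⟩ b_i`, `i < d`. -/
def IAFreeAt_T (V : Submodule 𝒪 (XIA_T p ty Smin pv qv 𝒪)) (d : ℕ) : Prop :=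
  ∀ (g₁ : ∀ i : Fin k, (ZMod (pv i))ˣ) (g₂ : ∀ j : Fin r, (ZMod (qv j))ˣ),
    (∀ i, orderOf (g₁ i) = pv i - 1) → (∀ j, orderOf (g₂ j) = qv j - 1) →
    ∃ b : Fin d → V, ∀ y : V,
      ∃! c : Fin d → (∀ i : Fin k, Fin (p ^ padicValNat p (pv i - 1))) ×
          (∀ j : Fin r, Fin (p ^ padicValNat p (qv j - 1))) → 𝒪,
        (y : XIA_T p ty Smin pv qv 𝒪) =
          ∑ i, ∑ e, c i e • diaIA_T p ty Smin pv qv 𝒪 (fun i' => g₁ i' ^ (e.1 i' : ℕ))
            (fun j => g₂ j ^ (e.2 j : ℕ)) (b i)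

/-- **CTRL at `(V₀, V)`**: a surjective `𝒪`-linear map `π : V → V₀` whose kernel is the
augmentation submodule of the diamond action of `Δ_Piv × Δ_Q`.
(No Hecke-equivariance is asked: only the rank is used.) -/
def IACtrlAt_T (V₀ : Submodule 𝒪 (Additive (Gamma0 (ribetLevelT p ty Smin Piv)) →+ 𝒪))
    (V : Submodule 𝒪 (XIA_T p ty Smin pv qv 𝒪)) : Prop :=
  ∃ π : V →ₗ[𝒪] V₀, Function.Surjective π ∧
    ∀ y : V, π y = 0 ↔
      y ∈ AddSubgroup.closure {z : V | ∃ (a₁ : ∀ i : Fin k, (ZMod (pv i))ˣ)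
        (a₂ : ∀ j : Fin r, (ZMod (qv j))ˣ) (y' : V),
        (z : XIA_T p ty Smin pv qv 𝒪) = diaIA_T p ty Smin pv qv 𝒪 a₁ a₂ y' - y'}

variable [NeZero (wilesLevel p ty Smin (Smin ∪ Piv ∪ Finset.univ.image qv))]

/-- `V` is the localisation of `X_K(𝒪)` at the maximal ideal of the package `P_Q` and of
`U_{q_j} - α_j`, `q_j` the TAYLOR–WILES primes. -/
def IsIAPart_T (PQ : HeckePkg p 𝒪 ρbar ty Smin (Smin ∪ Piv ∪ Finset.univ.image qv))
    (α : Fin r → 𝒪) (V : Submodule 𝒪 (XIA_T p ty Smin pv qv 𝒪)) : Prop :=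
  IsLocPart (isMid_KIA_T p ty Smin pv qv) (TsetOf PQ) (UsetOf qv α) V

/-- The action of `T_Q` on `V`: `T_ℓ ↦ ⟨ℓ⟩^h T_ℓ`. -/
def IsIAAction_T (PQ : HeckePkg p 𝒪 ρbar ty Smin (Smin ∪ Piv ∪ Finset.univ.image qv))
    (V : Submodule 𝒪 (XIA_T p ty Smin pv qv 𝒪)) (h : ℕ) (a : PQ.T →ₐ[𝒪] Module.End 𝒪 V) : Prop :=
  ActsBy PQ V a (tOpTw (isMid_KIA_T p ty Smin pv qv) 𝒪 h)

/-- **CMP at `(V, a)`**: the comparison of `IAAutLevel_T.Cmp` at the Taylor–Wiles primes, for the
action `a` of `T_Q` on `V` and the plain diamond operators. -/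
def IACmpAt_T (PQ : HeckePkg p 𝒪 ρbar ty Smin (Smin ∪ Piv ∪ Finset.univ.image qv))
    (V : Submodule 𝒪 (XIA_T p ty Smin pv qv 𝒪)) (a : PQ.T →ₐ[𝒪] Module.End 𝒪 V) : Prop :=
  ∀ (j : Fin r) (P : ValuationSubring Qb), P.LiesOverPrime (qv j) →
    ∀ φ : GQ, P.IsFrobeniusAt φ (qv j) →
    ∀ σ ∈ P.inertiaSubgroupIn ℚ, ∀ u : (ZMod (qv j))ˣ, orderOf u = qv j - 1 →
      CycloAt (qv j) σ (u : ZMod (qv j)).val →
      ∀ a₀ w : PQ.T, IsInertiaValue PQ.H.ρ φ σ a₀ w →
        ∀ y : V, (∃ y' : V, y = a w y' - y') ↔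
          ∃ y' : V, (y : XIA_T p ty Smin pv qv 𝒪) =
            diaIA_T p ty Smin pv qv 𝒪 1 (Pi.mulSingle j u) y' - y'

/-- **NU at `(V, a)`**: an element `t ∈ T_Q` vanishing at every point of `T_Q` whose Galois
representation is not unipotent on inertia at any pivot maps `V` into the `χ`-relations, for
every character `χ` of order `p` nontrivial at every pivot. -/
def IANuAt_T
    (PQ : HeckePkg p 𝒪 ρbar ty Smin (Smin ∪ Piv ∪ Finset.univ.image qv))
    (V : Submodule 𝒪 (XIA_T p ty Smin pv qv 𝒪)) (a : PQ.T →ₐ[𝒪] Module.End 𝒪 V) : Prop :=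
  ∀ χ : (∀ i : Fin k, (ZMod (pv i))ˣ) →* 𝒪, IsPivChar p pv χ →
    ∀ t : PQ.T,
      (∀ (𝒪' : Type) [CommRing 𝒪'] [IsDomain 𝒪'] [IsDiscreteValuationRing 𝒪'] [CharZero 𝒪']
          [Algebra 𝒪 𝒪'] (x : PQ.T →ₐ[𝒪] 𝒪') (hx : IsLocalHom (x : PQ.T →+* 𝒪')),
          (∀ q ∈ Piv,
            ¬ (PQ.H.ρ.baseChangeAlong (x : PQ.T →+* 𝒪') hx).IsUnipotentOnInertiaAt q) →
          x t = 0) →
      ∀ v : V, ((a t v : V) : XIA_T p ty Smin pv qv 𝒪) ∈ chiRelIA_T p ty Smin pv qv χ V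

/-- **ST at `(V, a)`**: the Steinberg elements at the pivots map `V` into the augmentation
submodule of `Δ_Piv`. -/
def IAStAt_T
    (PQ : HeckePkg p 𝒪 ρbar ty Smin (Smin ∪ Piv ∪ Finset.univ.image qv))
    (V : Submodule 𝒪 (XIA_T p ty Smin pv qv 𝒪)) (a : PQ.T →ₐ[𝒪] Module.End 𝒪 V) : Prop :=
  ∀ q ∈ Piv, ∀ P : ValuationSubring (AlgebraicClosure ℚ), P.LiesOverPrime q →
    ∀ φ : AlgebraicClosure ℚ ≃ₐ[ℚ] AlgebraicClosure ℚ, P.IsFrobeniusAt φ q →
      ∀ v : V, ((a (PQ.H.ρ.trace φ ^ 2 - ((1 + q : ℕ) : PQ.T) ^ 2) v : V) :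
        XIA_T p ty Smin pv qv 𝒪) ∈ chiRelIA_T p ty Smin pv qv 1 V

end Parts

/-! ## The abstract Betti module -/

section Betti

variable {p : ℕ} {ty : PType}
  {𝒪 : Type} [CommRing 𝒪] [IsDomain 𝒪] [IsDiscreteValuationRing 𝒪]
  [IsAdicComplete (maximalIdeal 𝒪) 𝒪]
  {ρbar : ResidualGaloisRep (ResidueField 𝒪)} {Smin : Finset ℕ}

/-- **The Betti module of Ihara avoidance at the Taylor–Wiles set `Q = qv`, abstractly**
(BEFORE the `χ`-part): a `T_Q`-module with a `T_Q`-linear diamond action of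
`∏ (ℤ/pv i)ˣ × ∏ (ℤ/qv j)ˣ` factoring through the `p`-Sylow quotients, free of rank `d` over
`𝒪[Δ_Piv × Δ_Q]`, such that (NU), (ST) hold modulo the `χ`-relations at the pivots. -/
structure IABettiLevel_T (Piv : Finset ℕ) {k : ℕ} (pv : Fin k → ℕ) {r : ℕ} (qv : Fin r → ℕ)
    [NeZero (wilesLevel p ty Smin (Smin ∪ Piv ∪ Finset.univ.image qv))]
    (PQ : HeckePkg p 𝒪 ρbar ty Smin (Smin ∪ Piv ∪ Finset.univ.image qv))
    (d : ℕ) : Type 1 where
  /-- the module `V` -/
  V : Type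
  [instAddCommGroup : AddCommGroup V]
  [instModule : Module PQ.T V]
  /-- the diamond operators at the pivots and at the Taylor–Wiles primes -/
  dia : (∀ i : Fin k, (ZMod (pv i))ˣ) × (∀ j : Fin r, (ZMod (qv j))ˣ) →* Module.End PQ.T V
  /-- the diamond action at the pivots factors through the `p`-Sylow quotient -/
  dia_pow₁ : ∀ a₁ : ∀ i : Fin k, (ZMod (pv i))ˣ,
    dia (fun i => a₁ i ^ p ^ padicValNat p (pv i - 1), 1) = 1
  /-- the diamond action at the Taylor–Wiles primes factors through the `p`-Sylow quotient -/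
  dia_pow₂ : ∀ a₂ : ∀ j : Fin r, (ZMod (qv j))ˣ,
    dia (1, fun j => a₂ j ^ p ^ padicValNat p (qv j - 1)) = 1
  /-- `V` is free of rank `d` over `𝒪[Δ_Piv × Δ_Q]` -/
  free : ∀ (g₁ : ∀ i : Fin k, (ZMod (pv i))ˣ) (g₂ : ∀ j : Fin r, (ZMod (qv j))ˣ),
    (∀ i, orderOf (g₁ i) = pv i - 1) → (∀ j, orderOf (g₂ j) = qv j - 1) →
    ∃ b : Fin d → V, ∀ y : V,
      ∃! c : Fin d → (∀ i : Fin k, Fin (p ^ padicValNat p (pv i - 1))) ×
          (∀ j : Fin r, Fin (p ^ padicValNat p (qv j - 1))) → 𝒪,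
        y = ∑ i, ∑ e, algebraMap 𝒪 PQ.T (c i e) •
          dia (fun i' => g₁ i' ^ (e.1 i' : ℕ), fun j => g₂ j ^ (e.2 j : ℕ)) (b i)
  /-- (NU) modulo the `χ`-relations -/
  nu : ∀ χ : (∀ i : Fin k, (ZMod (pv i))ˣ) →* 𝒪, IsPivChar p pv χ →
    ∀ t : PQ.T,
      (∀ (𝒪' : Type) [CommRing 𝒪'] [IsDomain 𝒪'] [IsDiscreteValuationRing 𝒪'] [CharZero 𝒪']
          [Algebra 𝒪 𝒪'] (x : PQ.T →ₐ[𝒪] 𝒪') (hx : IsLocalHom (x : PQ.T →+* 𝒪')),
          (∀ q ∈ Piv,
            ¬ (PQ.H.ρ.baseChangeAlong (x : PQ.T →+* 𝒪') hx).IsUnipotentOnInertiaAt q) →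
          x t = 0) →
      ∀ v : V, t • v ∈ Submodule.span PQ.T
        {w : V | ∃ (a₁ : ∀ i : Fin k, (ZMod (pv i))ˣ) (y : V),
          w = dia (a₁, 1) y - algebraMap 𝒪 PQ.T (χ a₁) • y}
  /-- (ST) modulo the augmentation submodule of the pivots -/
  st : ∀ q ∈ Piv, ∀ P : ValuationSubring (AlgebraicClosure ℚ), P.LiesOverPrime q →
    ∀ φ : AlgebraicClosure ℚ ≃ₐ[ℚ] AlgebraicClosure ℚ, P.IsFrobeniusAt φ q →
      ∀ v : V, (PQ.H.ρ.trace φ ^ 2 - ((1 + q : ℕ) : PQ.T) ^ 2) • v ∈ Submodule.span PQ.T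
        {w : V | ∃ (a₁ : ∀ i : Fin k, (ZMod (pv i))ˣ) (y : V), w = dia (a₁, 1) y - y}

attribute [instance] IABettiLevel_T.instAddCommGroup IABettiLevel_T.instModule

variable {Piv : Finset ℕ} {k : ℕ} {pv : Fin k → ℕ} {r : ℕ} {qv : Fin r → ℕ}
  [NeZero (wilesLevel p ty Smin (Smin ∪ Piv ∪ Finset.univ.image qv))]
  {PQ : HeckePkg p 𝒪 ρbar ty Smin (Smin ∪ Piv ∪ Finset.univ.image qv)} {d : ℕ}

/-- The comparison of the Galois and the diamond structure on the Betti module, at the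
Taylor–Wiles primes. -/
def IABettiLevel_T.Cmp (B : IABettiLevel_T Piv pv qv PQ d) : Prop :=
  ∀ (j : Fin r) (P : ValuationSubring Qb), P.LiesOverPrime (qv j) →
    ∀ φ : GQ, P.IsFrobeniusAt φ (qv j) →
    ∀ σ ∈ P.inertiaSubgroupIn ℚ, ∀ u : (ZMod (qv j))ˣ, orderOf u = qv j - 1 →
      CycloAt (qv j) σ (u : ZMod (qv j)).val →
      ∀ a₀ w : PQ.T, IsInertiaValue PQ.H.ρ φ σ a₀ w →
        ∀ y : B.V, (∃ y' : B.V, y = w • y' - y') ↔
          ∃ y' : B.V, y = B.dia (1, Pi.mulSingle j u) y' - y'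

end Betti

/-! ## The statements with `5 ≤ p` -/

/-- `IA.IAHeckeStatement_T` for `5 ≤ p` (enough for S43). -/
def IAHecke5Statement_T : Prop :=
  ∀ (p : ℕ) [Fact p.Prime] (_hp5 : 3 ≤ p)
    (𝒪 : Type) [CommRing 𝒪] [IsDomain 𝒪] [IsDiscreteValuationRing 𝒪]
    [IsAdicComplete (maximalIdeal 𝒪) 𝒪] [Finite (ResidueField 𝒪)] [CharZero 𝒪]
    (ρbar : ResidualGaloisRep (ResidueField 𝒪)) (Smin : Finset ℕ)
    (_h : ResidualHyp p 𝒪 ρbar Smin)
    (ty : PType) (_hflat : IsPTypeAt p ρbar ty)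
    (ζ : 𝒪) (_hζ : IsPrimitiveRoot ζ p)
    (Piv : Finset ℕ) (_hPiv : IsPivotSet p ρbar Smin Piv)
    (_hmod : ResModular 𝒪 ρbar (ribetLevelT p ty Smin Piv) (Smin ∪ Piv))
    (_hmin : ∀ q ∈ Piv, ∀ S : Finset ℕ,
      ¬ ResModular 𝒪 ρbar (ribetLevelT p ty Smin (Piv.erase q)) S),
    ∃ d : ℕ, 0 < d ∧ ∀ (n r : ℕ) (qv : Fin r → ℕ), IsTWSet p ρbar (Smin ∪ Piv) n qv →
      HasIAModule_T p 𝒪 ρbar ty Smin Piv (ζ - 1) d n qv

/-- `IAAutStatement_T` for `5 ≤ p`. -/
def IAAut5Statement_T : Prop :=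
  ∀ (p : ℕ) [Fact p.Prime] (_hp5 : 3 ≤ p)
    (𝒪 : Type) [CommRing 𝒪] [IsDomain 𝒪] [IsDiscreteValuationRing 𝒪]
    [IsAdicComplete (maximalIdeal 𝒪) 𝒪] [Finite (ResidueField 𝒪)] [CharZero 𝒪]
    (ρbar : ResidualGaloisRep (ResidueField 𝒪)) (Smin : Finset ℕ)
    (_h : ResidualHyp p 𝒪 ρbar Smin)
    (ty : PType) (_hflat : IsPTypeAt p ρbar ty)
    (ζ : 𝒪) (_hζ : IsPrimitiveRoot ζ p)
    (Piv : Finset ℕ) (_hPiv : IsPivotSet p ρbar Smin Piv)
    [NeZero (ribetLevelT p ty Smin Piv)]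
    (θ₀ : CuspForm.heckeAlgebra (ribetLevelT p ty Smin Piv) 2 (↑(Smin ∪ Piv) : Set ℕ) →+*
      ResidueField 𝒪)
    (_hθ₀ : Fermat.Agent.S59.G4.ResFrobCond ρbar θ₀)
    (_hmin : ∀ q ∈ Piv, ∀ S : Finset ℕ,
      ¬ ResModular 𝒪 ρbar (ribetLevelT p ty Smin (Piv.erase q)) S),
    ∃ d : ℕ, 0 < d ∧ ∀ (n r : ℕ) (qv : Fin r → ℕ) (_hq : IsTWSet p ρbar (Smin ∪ Piv) n qv)
      [NeZero (wilesLevel p ty Smin (Smin ∪ Piv ∪ Finset.univ.image qv))]
      (hp : LevelPair (ribetLevelT p ty Smin Piv)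
        (wilesLevel p ty Smin (Smin ∪ Piv ∪ Finset.univ.image qv))
        (↑(Smin ∪ Piv) : Set ℕ) (↑(Smin ∪ Piv ∪ Finset.univ.image qv) : Set ℕ))
      (PQ : HeckePkg p 𝒪 ρbar ty Smin (Smin ∪ Piv ∪ Finset.univ.image qv))
      (_hθ : PQ.θ = θ₀.comp (oldRestrict hp)),
      ∃ A : IAAutLevel_T Piv qv PQ (ζ - 1) d, A.Cmp

/-- `IAAutStatement_T` implies its restriction to `5 ≤ p`. -/
theorem iaAut5_of_iaAut_T (h : IAAutStatement_T) : IAAut5Statement_T :=
  fun p _ _ 𝒪 _ _ _ _ _ _ ρbar Smin hh ty hflat ζ hζ Piv hPiv _ θ₀ hθ₀ hmin =>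
    h p 𝒪 ρbar Smin hh ty hflat ζ hζ Piv hPiv θ₀ hθ₀ hmin

/-- **IA-BETTI**: the abstract Betti module, for every enumeration `pv` of the pivots. -/
def IABettiStatement_T : Prop :=
  ∀ (p : ℕ) [Fact p.Prime] (_hp5 : 3 ≤ p)
    (𝒪 : Type) [CommRing 𝒪] [IsDomain 𝒪] [IsDiscreteValuationRing 𝒪]
    [IsAdicComplete (maximalIdeal 𝒪) 𝒪] [Finite (ResidueField 𝒪)] [CharZero 𝒪]
    (ρbar : ResidualGaloisRep (ResidueField 𝒪)) (Smin : Finset ℕ)
    (_h : ResidualHyp p 𝒪 ρbar Smin)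
    (ty : PType) (_hflat : IsPTypeAt p ρbar ty)
    (Piv : Finset ℕ) (_hPiv : IsPivotSet p ρbar Smin Piv)
    [NeZero (ribetLevelT p ty Smin Piv)]
    (θ₀ : CuspForm.heckeAlgebra (ribetLevelT p ty Smin Piv) 2 (↑(Smin ∪ Piv) : Set ℕ) →+*
      ResidueField 𝒪)
    (_hθ₀ : Fermat.Agent.S59.G4.ResFrobCond ρbar θ₀)
    (_hmin : ∀ q ∈ Piv, ∀ S : Finset ℕ,
      ¬ ResModular 𝒪 ρbar (ribetLevelT p ty Smin (Piv.erase q)) S)
    (k : ℕ) (pv : Fin k → ℕ) (_hpv : Function.Injective pv)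
    (_hpvPiv : Finset.univ.image pv = Piv),
    ∃ d : ℕ, 0 < d ∧ ∀ (n r : ℕ) (qv : Fin r → ℕ) (_hq : IsTWSet p ρbar (Smin ∪ Piv) n qv)
      [NeZero (wilesLevel p ty Smin (Smin ∪ Piv ∪ Finset.univ.image qv))]
      (hp : LevelPair (ribetLevelT p ty Smin Piv)
        (wilesLevel p ty Smin (Smin ∪ Piv ∪ Finset.univ.image qv))
        (↑(Smin ∪ Piv) : Set ℕ) (↑(Smin ∪ Piv ∪ Finset.univ.image qv) : Set ℕ))
      (PQ : HeckePkg p 𝒪 ρbar ty Smin (Smin ∪ Piv ∪ Finset.univ.image qv))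
      (_hθ : PQ.θ = θ₀.comp (oldRestrict hp)),
      ∃ B : IABettiLevel_T Piv pv qv PQ d, B.Cmp

/-! ## The leaves -/

/-- **IA-NONTRIV.**  `V₀`, the localisation of `X_{Γ₀(L)}(𝒪)` at `θ₀`, is free of positive rank
over `𝒪`.  (The Hecke algebra acts faithfully on `S₂(Γ₀(L))`, hence on `Hom(Γ₀(L), ℤ)_par` by
S21; `X_{Γ₀(L)}(𝒪)` is finite free over the discrete valuation ring `𝒪`.) -/
def IANontrivStatement_T : Prop :=
  ∀ (p : ℕ) [Fact p.Prime] (_hp5 : 3 ≤ p)
    (𝒪 : Type) [CommRing 𝒪] [IsDomain 𝒪] [IsDiscreteValuationRing 𝒪]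
    [IsAdicComplete (maximalIdeal 𝒪) 𝒪] [Finite (ResidueField 𝒪)] [CharZero 𝒪]
    (ρbar : ResidualGaloisRep (ResidueField 𝒪)) (Smin : Finset ℕ)
    (_h : ResidualHyp p 𝒪 ρbar Smin)
    (ty : PType) (_hflat : IsPTypeAt p ρbar ty)
    (Piv : Finset ℕ) (_hPiv : IsPivotSet p ρbar Smin Piv)
    [NeZero (ribetLevelT p ty Smin Piv)]
    (θ₀ : CuspForm.heckeAlgebra (ribetLevelT p ty Smin Piv) 2 (↑(Smin ∪ Piv) : Set ℕ) →+*
      ResidueField 𝒪)
    (_hθ₀ : Fermat.Agent.S59.G4.ResFrobCond ρbar θ₀)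
    (V₀ : Submodule 𝒪 (Additive (Gamma0 (ribetLevelT p ty Smin Piv)) →+ 𝒪)),
    IsIAMinPart_T θ₀ V₀ → ∃ d : ℕ, 0 < d ∧ Nonempty (Module.Basis (Fin d) 𝒪 V₀)

/-- **IA-MOD.**  The Hecke ring `T_Q = heckeLocal (N_min ∏_{Piv ∪ Q} q²)` acts on
`V ⊆ X_K(𝒪)` through the twisted operators `⟨ℓ⟩^h T_ℓ`, for a suitable `h` with `2 h ≡ -1`
modulo the exponents of `Δ_Piv` and `Δ_Q`.
(As MODQ of the cell TW, for the combined family.) -/
def IAModStatement_T : Prop :=
  ∀ (p : ℕ) [Fact p.Prime] (_hp5 : 3 ≤ p)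
    (𝒪 : Type) [CommRing 𝒪] [IsDomain 𝒪] [IsDiscreteValuationRing 𝒪]
    [IsAdicComplete (maximalIdeal 𝒪) 𝒪] [Finite (ResidueField 𝒪)] [CharZero 𝒪]
    (ρbar : ResidualGaloisRep (ResidueField 𝒪)) (Smin : Finset ℕ)
    (_h : ResidualHyp p 𝒪 ρbar Smin)
    (ty : PType) (_hflat : IsPTypeAt p ρbar ty)
    (Piv : Finset ℕ) (_hPiv : IsPivotSet p ρbar Smin Piv)
    (k : ℕ) (pv : Fin k → ℕ) (_hpv : Function.Injective pv)
    (_hpvPiv : Finset.univ.image pv = Piv)
    (n r : ℕ) (qv : Fin r → ℕ) (_hq : IsTWSet p ρbar (Smin ∪ Piv) n qv)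
    [NeZero (wilesLevel p ty Smin (Smin ∪ Piv ∪ Finset.univ.image qv))]
    (PQ : HeckePkg p 𝒪 ρbar ty Smin (Smin ∪ Piv ∪ Finset.univ.image qv))
    (α : Fin r → 𝒪) (_hα : IsFrobLift ρbar qv α)
    (V : Submodule 𝒪 (XIA_T p ty Smin pv qv 𝒪)),
    IsIAPart_T PQ α V →
      ∃ (h : ℕ) (a : PQ.T →ₐ[𝒪] Module.End 𝒪 V),
        IsHalf p pv h ∧ IsHalf p qv h ∧ IsIAAction_T PQ V h a

/-- **IA-FREE.**  `V` is free over `𝒪[Δ_Piv × Δ_Q]`.
(`MFree.free` at `κ = gKappa`; (Ell) holds because `5 ≤ p`.) -/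
def IAFreeStatement_T : Prop :=
  ∀ (p : ℕ) [Fact p.Prime] (_hp5 : 3 ≤ p)
    (𝒪 : Type) [CommRing 𝒪] [IsDomain 𝒪] [IsDiscreteValuationRing 𝒪]
    [IsAdicComplete (maximalIdeal 𝒪) 𝒪] [Finite (ResidueField 𝒪)] [CharZero 𝒪]
    (ρbar : ResidualGaloisRep (ResidueField 𝒪)) (Smin : Finset ℕ)
    (_h : ResidualHyp p 𝒪 ρbar Smin)
    (ty : PType) (_hflat : IsPTypeAt p ρbar ty)
    (Piv : Finset ℕ) (_hPiv : IsPivotSet p ρbar Smin Piv)
    (k : ℕ) (pv : Fin k → ℕ) (_hpv : Function.Injective pv)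
    (_hpvPiv : Finset.univ.image pv = Piv)
    (n r : ℕ) (qv : Fin r → ℕ) (_hq : IsTWSet p ρbar (Smin ∪ Piv) n qv)
    [NeZero (wilesLevel p ty Smin (Smin ∪ Piv ∪ Finset.univ.image qv))]
    (PQ : HeckePkg p 𝒪 ρbar ty Smin (Smin ∪ Piv ∪ Finset.univ.image qv))
    (α : Fin r → 𝒪) (_hα : IsFrobLift ρbar qv α)
    (V : Submodule 𝒪 (XIA_T p ty Smin pv qv 𝒪)),
    IsIAPart_T PQ α V → ∃ d : ℕ, IAFreeAt_T V d

/-- **IA-CTRL.**  `V / I_Δ V ≅ V₀`, `Δ = Δ_Piv × Δ_Q`.
(`MFree.free`: `ker (cor | V) = I_Δ V` and `cor` is onto the localisation of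
`X_{Γ₀(L ∏ qv)}(𝒪)`; TW-CTRL over the base level `L = ribetLevel`: the transfers `t₂` at the
Taylor–Wiles primes.) -/
def IACtrlStatement_T : Prop :=
  ∀ (p : ℕ) [Fact p.Prime] (_hp5 : 3 ≤ p)
    (𝒪 : Type) [CommRing 𝒪] [IsDomain 𝒪] [IsDiscreteValuationRing 𝒪]
    [IsAdicComplete (maximalIdeal 𝒪) 𝒪] [Finite (ResidueField 𝒪)] [CharZero 𝒪]
    (ρbar : ResidualGaloisRep (ResidueField 𝒪)) (Smin : Finset ℕ)
    (_h : ResidualHyp p 𝒪 ρbar Smin)
    (ty : PType) (_hflat : IsPTypeAt p ρbar ty)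
    (Piv : Finset ℕ) (_hPiv : IsPivotSet p ρbar Smin Piv)
    [NeZero (ribetLevelT p ty Smin Piv)]
    (θ₀ : CuspForm.heckeAlgebra (ribetLevelT p ty Smin Piv) 2 (↑(Smin ∪ Piv) : Set ℕ) →+*
      ResidueField 𝒪)
    (_hθ₀ : Fermat.Agent.S59.G4.ResFrobCond ρbar θ₀)
    (k : ℕ) (pv : Fin k → ℕ) (_hpv : Function.Injective pv)
    (_hpvPiv : Finset.univ.image pv = Piv)
    (n r : ℕ) (qv : Fin r → ℕ) (_hq : IsTWSet p ρbar (Smin ∪ Piv) n qv)
    [NeZero (wilesLevel p ty Smin (Smin ∪ Piv ∪ Finset.univ.image qv))]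
    (hp : LevelPair (ribetLevelT p ty Smin Piv)
      (wilesLevel p ty Smin (Smin ∪ Piv ∪ Finset.univ.image qv))
      (↑(Smin ∪ Piv) : Set ℕ) (↑(Smin ∪ Piv ∪ Finset.univ.image qv) : Set ℕ))
    (PQ : HeckePkg p 𝒪 ρbar ty Smin (Smin ∪ Piv ∪ Finset.univ.image qv))
    (_hθ : PQ.θ = θ₀.comp (oldRestrict hp))
    (α : Fin r → 𝒪) (_hα : IsFrobLift ρbar qv α)
    (V₀ : Submodule 𝒪 (Additive (Gamma0 (ribetLevelT p ty Smin Piv)) →+ 𝒪))
    (V : Submodule 𝒪 (XIA_T p ty Smin pv qv 𝒪)),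
    IsIAMinPart_T θ₀ V₀ → IsIAPart_T PQ α V → IACtrlAt_T V₀ V

/-- **IA-CMP.**  The comparison of the Galois and the diamond structure on `V` at the
Taylor–Wiles primes.  (As CMP of the cell TW.) -/
def IACmpStatement_T : Prop :=
  ∀ (p : ℕ) [Fact p.Prime] (_hp5 : 3 ≤ p)
    (𝒪 : Type) [CommRing 𝒪] [IsDomain 𝒪] [IsDiscreteValuationRing 𝒪]
    [IsAdicComplete (maximalIdeal 𝒪) 𝒪] [Finite (ResidueField 𝒪)] [CharZero 𝒪]
    (ρbar : ResidualGaloisRep (ResidueField 𝒪)) (Smin : Finset ℕ)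
    (_h : ResidualHyp p 𝒪 ρbar Smin)
    (ty : PType) (_hflat : IsPTypeAt p ρbar ty)
    (Piv : Finset ℕ) (_hPiv : IsPivotSet p ρbar Smin Piv)
    (k : ℕ) (pv : Fin k → ℕ) (_hpv : Function.Injective pv)
    (_hpvPiv : Finset.univ.image pv = Piv)
    (n r : ℕ) (qv : Fin r → ℕ) (_hq : IsTWSet p ρbar (Smin ∪ Piv) n qv)
    [NeZero (wilesLevel p ty Smin (Smin ∪ Piv ∪ Finset.univ.image qv))]
    (PQ : HeckePkg p 𝒪 ρbar ty Smin (Smin ∪ Piv ∪ Finset.univ.image qv))
    (α : Fin r → 𝒪) (_hα : IsFrobLift ρbar qv α)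
    (V : Submodule 𝒪 (XIA_T p ty Smin pv qv 𝒪)) (h : ℕ) (a : PQ.T →ₐ[𝒪] Module.End 𝒪 V),
    IsIAPart_T PQ α V → IsHalf p pv h → IsHalf p qv h → IsIAAction_T PQ V h a → IACmpAt_T PQ V a

/-- **IA-NU.**  The `χ`-part of `V` is supported on the points which are not unipotent on inertia
at the pivots.  (The eigen-systems of `V / chiRelIA_T χ V` are those of newforms with nebentypus
`χ^{±1} ψ`, `ψ` a character of `Δ_Q`; their twists to trivial character have level exactly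
divisible by `q²`, `q ∈ Piv`, and `ρ|_{I_q} = χ_q^{1/2} ⊕ χ_q^{-1/2}` is not unipotent:
frozen S36, or local-global compatibility for ramified principal series; the action of `T_Q` on
`V ⊗ K` is semisimple and `V / chiRelIA_T χ V` is `𝒪`-free.) -/
def IANuStatement_T : Prop :=
  ∀ (p : ℕ) [Fact p.Prime] (_hp5 : 3 ≤ p)
    (𝒪 : Type) [CommRing 𝒪] [IsDomain 𝒪] [IsDiscreteValuationRing 𝒪]
    [IsAdicComplete (maximalIdeal 𝒪) 𝒪] [Finite (ResidueField 𝒪)] [CharZero 𝒪]
    (ρbar : ResidualGaloisRep (ResidueField 𝒪)) (Smin : Finset ℕ)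
    (_h : ResidualHyp p 𝒪 ρbar Smin)
    (ty : PType) (_hflat : IsPTypeAt p ρbar ty)
    (Piv : Finset ℕ) (_hPiv : IsPivotSet p ρbar Smin Piv)
    (k : ℕ) (pv : Fin k → ℕ) (_hpv : Function.Injective pv)
    (_hpvPiv : Finset.univ.image pv = Piv)
    (n r : ℕ) (qv : Fin r → ℕ) (_hq : IsTWSet p ρbar (Smin ∪ Piv) n qv)
    [NeZero (wilesLevel p ty Smin (Smin ∪ Piv ∪ Finset.univ.image qv))]
    (PQ : HeckePkg p 𝒪 ρbar ty Smin (Smin ∪ Piv ∪ Finset.univ.image qv))
    (α : Fin r → 𝒪) (_hα : IsFrobLift ρbar qv α)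
    (V : Submodule 𝒪 (XIA_T p ty Smin pv qv 𝒪)) (h : ℕ) (a : PQ.T →ₐ[𝒪] Module.End 𝒪 V),
    IsIAPart_T PQ α V → IsHalf p pv h → IsHalf p qv h → IsIAAction_T PQ V h a → IANuAt_T PQ V a

/-- **IA-ST.**  The Steinberg elements `tr ρ(Frob_q)² - (1+q)²`, `q ∈ Piv`, kill the
coinvariants `V / I_{Δ_Piv} V`.  (`V / I_{Δ_Piv} V` is the localisation at level
`Γ₀(L) ∩ Γ_H(Q)`; by (MIN), `MFree.free` and the control at the levels `L / q` [CTRL-MIN,
helper719] all its eigen-systems are new at every pivot `q`, hence Steinberg at `q`: S35 or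
ST-UQ [helper53]; the action of `T_Q` is semisimple.) -/
def IAStStatement_T : Prop :=
  ∀ (p : ℕ) [Fact p.Prime] (_hp5 : 3 ≤ p)
    (𝒪 : Type) [CommRing 𝒪] [IsDomain 𝒪] [IsDiscreteValuationRing 𝒪]
    [IsAdicComplete (maximalIdeal 𝒪) 𝒪] [Finite (ResidueField 𝒪)] [CharZero 𝒪]
    (ρbar : ResidualGaloisRep (ResidueField 𝒪)) (Smin : Finset ℕ)
    (_h : ResidualHyp p 𝒪 ρbar Smin)
    (ty : PType) (_hflat : IsPTypeAt p ρbar ty)
    (Piv : Finset ℕ) (_hPiv : IsPivotSet p ρbar Smin Piv)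
    (_hmin : ∀ q ∈ Piv, ∀ S : Finset ℕ,
      ¬ ResModular 𝒪 ρbar (ribetLevelT p ty Smin (Piv.erase q)) S)
    (k : ℕ) (pv : Fin k → ℕ) (_hpv : Function.Injective pv)
    (_hpvPiv : Finset.univ.image pv = Piv)
    (n r : ℕ) (qv : Fin r → ℕ) (_hq : IsTWSet p ρbar (Smin ∪ Piv) n qv)
    [NeZero (wilesLevel p ty Smin (Smin ∪ Piv ∪ Finset.univ.image qv))]
    (PQ : HeckePkg p 𝒪 ρbar ty Smin (Smin ∪ Piv ∪ Finset.univ.image qv))
    (α : Fin r → 𝒪) (_hα : IsFrobLift ρbar qv α)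
    (V : Submodule 𝒪 (XIA_T p ty Smin pv qv 𝒪)) (h : ℕ) (a : PQ.T →ₐ[𝒪] Module.End 𝒪 V),
    IsIAPart_T PQ α V → IsHalf p pv h → IsHalf p qv h → IsIAAction_T PQ V h a → IAStAt_T PQ V a

end Fermat.Agent.S38.IA.Hecke

end
-- ===== PACK-END S38T/IA/Hecke/Spec3.lean

-- ===== PACK-BEGIN Ribet/H376/PDivPlaces.lean
section
/-
Row 38 (RIBET), WALL-p, W-EIS leaf HECKE-NODE, core part 2 (helper376): the PLACES half, abstract.

`K` algebraically closed (any characteristic), `F'/F` a finite separable extension of function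
fields of one variable over `K`, `β : F →ₐ[K] F'` a second (integral) embedding, `j : F` a
function such that `j ∈ O_w ⇒ β j ∈ O_w` for every place `w` of `F'` ("`β` maps non-cuspidal
places to non-cuspidal places").  Then the correspondence `h ↦ N_{F'/F}(β h)` preserves
"`p ∣ ord_Q h` at every place `Q` with `0 ≤ ord_Q j`" (`dvd_ord_norm_of_dvd`).
-/



set_option autoImplicit false
set_option maxHeartbeats 400000
set_option linter.style.haveILetI false
set_option linter.unusedSectionVars false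

noncomputable section

namespace Fermat.Agent.Ribet.H376

open AlgebraicCurve IntermediateField

section Places

variable {K F F' : Type*} [Field K] [Field F] [Field F'] [Algebra K F] [Algebra K F']
  [Algebra F F'] [IsScalarTower K F F'] [FiniteDimensional F F'] [Algebra.IsSeparable F F']
  [IsAlgClosed K]

/-- The order of `β f` at `w` is a multiple of the order of `f` at the place below `w` along
`β`; in particular divisibility by `p` is inherited. -/
theorem dvd_ord_along (β : F →ₐ[K] F') (hβ : β.toRingHom.IsIntegral) (w : Place K F')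
    {p : ℤ} {f : F} (h : p ∣ (w.restrictAlong β hβ).ord f) : p ∣ w.ord (β f) := by
  rw [Place.ord_restrictAlong β hβ w f]
  exact Dvd.dvd.mul_left h _

/-- `j` is regular at the place below `w` along `β` iff `β j` is regular at `w`. -/
theorem mem_restrictAlong_iff (β : F →ₐ[K] F') (hβ : β.toRingHom.IsIntegral) (w : Place K F')
    (j : F) :
    j ∈ (w.restrictAlong β hβ).toValuationSubring ↔ β j ∈ w.toValuationSubring :=
  Iff.rfl

/-- **The places half of PDIV-KNORM** (abstract form). -/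
theorem dvd_ord_norm_of_dvd {x' : F'} (hx' : Transcendental K x') [FiniteDimensional K⟮x'⟯ F']
    (β : F →ₐ[K] F') (hβ : β.toRingHom.IsIntegral) (j : F)
    (hcusp : ∀ w : Place K F', algebraMap F F' j ∈ w.toValuationSubring →
      β j ∈ w.toValuationSubring)
    (p : ℤ) {h : F} (h0 : h ≠ 0)
    (hdiv : ∀ Q : Place K F, 0 ≤ Q.ord j → p ∣ Q.ord h)
    (Q : Place K F) (hQ : 0 ≤ Q.ord j) :
    p ∣ Q.ord (Algebra.norm F (β h)) := by
  classical
  haveI : HasPrincipalDivisors K F' :=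
    Fermat.Agent.Lib.RR.H560.hasPrincipalDivisors (K := K) x' hx'
  have hβh : β h ≠ 0 := fun hz => h0 ((map_eq_zero β).mp hz)
  rw [← Fermat.Agent.Lib.FFSep280.sum_ord_eq_ord_norm_of_isAlgClosed hx' Q (Q.fiber F')
    (fun w => Place.mem_fiber) (β h) hβh]
  refine Finset.dvd_sum fun w hw => ?_
  have hwQ : w.restrict F = Q := Place.mem_fiber.mp hw
  apply dvd_ord_along β hβ w
  apply hdiv
  apply Fermat.Agent.Lib.RR.ord_nonneg_of_mem
  rw [mem_restrictAlong_iff]
  apply hcusp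
  have h1 : j ∈ (w.restrict F).toValuationSubring := by
    rw [hwQ]
    exact Fermat.Agent.Lib.RR.mem_of_ord_nonneg Q hQ
  exact h1

end Places

end Fermat.Agent.Ribet.H376

end
end
-- ===== PACK-END Ribet/H376/PDivPlaces.lean

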