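import Mathlib
import Fermat.Prelude.Def_ModularCurve_X0ModL
import Fermat.Agent.Pack.S43MC.G0E21L0
import Fermat.Agent.Pack.S43MC.G0E7L0
import Fermat.Agent.Pack.S43MC.G0E7L3
import Fermat.Agent.Pack.S43GC.G0E7L2
import Fermat.Agent.Pack.S43MC.G0E15L0
import Fermat.Agent.Pack.S59C.E6L0
import Fermat.Agent.Pack.S43MC.G0E20L0
import Fermat.Agent.Pack.S43MC.G0E21L1
import Fermat.Agent.Pack.S43MC.G0E19L1
import Fermat.Agent.Pack.S43GC.G0E9L0
import Fermat.Agent.Pack.S43MC.G0E3L1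
import Fermat.Agent.Pack.S59C.E6L2
import Fermat.Agent.Pack.S59C.E5L3
import Fermat.Agent.Pack.S59C.E6L3
import Fermat.Agent.Pack.S59C.E0L1
import Fermat.Agent.Pack.S59C.E5L1
import Fermat.Agent.Pack.S43MC.G0E19L2
import Fermat.Agent.Pack.S43MC.G0E20L1
import Fermat.Agent.Pack.S43MC.G0E12L3
import Fermat.Agent.Pack.S43MC.G0E10L0
import Fermat.Agent.Pack.S59C.E4L3
import Fermat.Agent.Pack.S44C.G0E16L1
import Fermat.Agent.Pack.S44C.G0E20L2
import Fermat.Agent.Pack.S44C.G0E21L1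
import Fermat.Agent.Pack.S44C.G0E4L0
import Fermat.Agent.Pack.S43MC.G0E20L2

set_option linter.all false

-- ===== PACK-BEGIN Lib/Newform/H443/MultOne.lean
section
/-
NEWFORM library (helper443) — **ASSEMBLY**: `OldEigen`, `MultOne`, `MultOneEigen`
(exact bodies of the row-lead's `H23/Spec.lean`), UNCONDITIONAL.

Inputs (all on main): `H803.mainLemma` (Atkin–Lehner main lemma), `H863.raiseLin` (degeneracy
maps, `T_ℓ`-equivariant), `H443.exists_eigenvector_of_equivariant_family` (eigenvector descent),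
`H683.exists_normalizedEigenform_of_eigenvector` (extraction).

* `oldMap N p : S₂(Γ₀(N/p)) →ₗ S₂(Γ₀(N))`, `p ∈ N.primeFactors`: the map `B_p`.
* `oldEigen`      : body of `H23.OldEigen`.
* `multOne`       : body of `H23.MultOne`: the good eigenspace of a Prelude-newform is a line.
* `multOneEigen`  : body of `H23.MultOneEigen`: strong multiplicity one at level `N`.
* `IsNewform.qCoeff_eq` : corollary, all coefficients agree.
-/






set_option autoImplicit false

open CuspForm CongruenceSubgroup ModularFormClass UpperHalfPlane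

namespace Fermat.Agent.Lib.Newform.H443

/-- `T_ℓ` commutes with the raising maps `B_d : S(M) → S(C)`, `ℓ ∤ C`. -/
theorem heckeTLin_raiseLin {M d C ℓ : ℕ} [NeZero d] (h : d * M ∣ C) (hℓ : ℓ.Prime)
    (hℓC : ¬ ℓ ∣ C) (g : CuspForm (Gamma0 M) 2) :
    heckeTLin 2 hℓ hℓC (Fermat.Agent.Lib.Newform.H863.raiseLin h g) =
      Fermat.Agent.Lib.Newform.H863.raiseLin h
        (heckeTLin 2 hℓ (fun hd => hℓC ((hd.mul_left d).trans h)) g) := by
  have hMd : M * d ∣ C := Fermat.Agent.Lib.Newform.H863.raise_dvd h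
  change heckeTLin 2 hℓ hℓC (Fermat.Agent.Lib.Newform.H863.levelIncl hMd
      (Fermat.Agent.Lib.Newform.H863.degen d g)) =
    Fermat.Agent.Lib.Newform.H863.levelIncl hMd (Fermat.Agent.Lib.Newform.H863.degen d _)
  rw [Fermat.Agent.Lib.Newform.H863.heckeTLin_levelIncl hMd hℓ hℓC,
    Fermat.Agent.Lib.Newform.H863.heckeTLin_degen hℓ (fun hd => hℓC (hd.trans hMd)) g]

section OldMap

variable (N : ℕ)

/-- The degeneracy map `B_p : S₂(Γ₀(N/p)) → S₂(Γ₀(N))` for a prime factor `p` of `N`. -/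
noncomputable def oldMap (p : N.primeFactors) :
    CuspForm (Gamma0 (N / p.1)) 2 →ₗ[ℂ] CuspForm (Gamma0 N) 2 :=
  haveI : NeZero p.1 := ⟨(Nat.prime_of_mem_primeFactors p.2).ne_zero⟩
  Fermat.Agent.Lib.Newform.H863.raiseLin (d := p.1) (M := N / p.1) (C := N)
    (by rw [Nat.mul_div_cancel' (Nat.dvd_of_mem_primeFactors p.2)])

theorem qCoeff_oldMap (p : N.primeFactors) (g : CuspForm (Gamma0 (N / p.1)) 2) (n : ℕ) :
    qCoeff ⇑(oldMap N p g) n = if p.1 ∣ n then qCoeff ⇑g (n / p.1) else 0 := by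
  have : NeZero p.1 := ⟨(Nat.prime_of_mem_primeFactors p.2).ne_zero⟩
  exact Fermat.Agent.Lib.Newform.H863.qCoeff_raiseLin _ g n

theorem oldMap_apply (p : N.primeFactors) (g : CuspForm (Gamma0 (N / p.1)) 2) (τ : ℍ) :
    oldMap N p g τ = g (ModularForm.heckeDiagMatrix p.1 • τ) := by
  have : NeZero p.1 := ⟨(Nat.prime_of_mem_primeFactors p.2).ne_zero⟩
  exact Fermat.Agent.Lib.Newform.H863.raiseLin_apply _ g τ

theorem div_dvd_of_mem (p : N.primeFactors) : N / p.1 ∣ N :=
  Nat.div_dvd_of_dvd (Nat.dvd_of_mem_primeFactors p.2)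

theorem div_ne_of_mem [NeZero N] (p : N.primeFactors) : N / p.1 ≠ N :=
  (Nat.div_lt_self (Nat.pos_of_ne_zero (NeZero.ne N))
    (Nat.prime_of_mem_primeFactors p.2).one_lt).ne

theorem heckeTLin_oldMap (p : N.primeFactors) {ℓ : ℕ} (hℓ : ℓ.Prime) (hℓN : ¬ ℓ ∣ N)
    (g : CuspForm (Gamma0 (N / p.1)) 2) :
    oldMap N p (heckeTLin 2 hℓ (fun hd => hℓN (hd.trans (div_dvd_of_mem N p))) g) =
      heckeTLin 2 hℓ hℓN (oldMap N p g) := by
  have : NeZero p.1 := ⟨(Nat.prime_of_mem_primeFactors p.2).ne_zero⟩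
  exact (heckeTLin_raiseLin _ hℓ hℓN g).symm

/-- A form given by an "old" `q`-expansion lies in the sum of the ranges of the `B_p`. -/
theorem mem_iSup_range_oldMap_of_qCoeff (h : CuspForm (Gamma0 N) 2)
    (g : (p : ℕ) → CuspForm (Gamma0 (N / p)) 2)
    (hg : ∀ n : ℕ, qCoeff h n =
      ∑ p ∈ N.primeFactors, if p ∣ n then qCoeff (g p) (n / p) else 0) :
    h ∈ ⨆ p : N.primeFactors, LinearMap.range (oldMap N p) := by
  have hsum : h = ∑ p : N.primeFactors, oldMap N p (g p.1) := by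
    apply Fermat.Agent.Lib.Newform.H683.cusp_ext_qCoeff
    intro n
    have h1 : qCoeff ⇑(∑ p : N.primeFactors, oldMap N p (g p.1)) n =
        ∑ p : N.primeFactors, qCoeff ⇑(oldMap N p (g p.1)) n := by
      exact map_sum (Fermat.Agent.Lib.Newform.H683.coeffLin N 2 n)
        (fun p : N.primeFactors => oldMap N p (g p.1)) Finset.univ
    rw [h1, hg n, ← Finset.sum_coe_sort N.primeFactors
      (fun p => if p ∣ n then qCoeff (g p) (n / p) else 0)]
    exact Finset.sum_congr rfl (fun p _ => (qCoeff_oldMap N p (g p.1) n).symm)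
  rw [hsum]
  exact Submodule.sum_mem _ (fun p _ =>
    Submodule.mem_iSup_of_mem p (LinearMap.mem_range_self _ _))

/-- **Main lemma**, submodule form: a form of level `N` with `a_n = 0` for all `n` prime to `N`
lies in the sum of the ranges of the `B_p`, `p ∣ N`. -/
theorem mem_iSup_range_oldMap [NeZero N] (h : CuspForm (Gamma0 N) 2)
    (hh : ∀ n : ℕ, n.Coprime N → qCoeff h n = 0) :
    h ∈ ⨆ p : N.primeFactors, LinearMap.range (oldMap N p) := by
  obtain ⟨g, hg⟩ := Fermat.Agent.Lib.Newform.H803.mainLemma N 2 h hh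
  have hsum : h = ∑ p : N.primeFactors, oldMap N p (g p.1) := by
    apply DFunLike.coe_injective
    funext τ
    have h1 : (⇑(∑ p : N.primeFactors, oldMap N p (g p.1)) : ℍ → ℂ) τ =
        ∑ p : N.primeFactors, (oldMap N p (g p.1)) τ := by
      have hgen : ∀ s : Finset N.primeFactors,
          (⇑(∑ p ∈ s, oldMap N p (g p.1)) : ℍ → ℂ) τ = ∑ p ∈ s, (oldMap N p (g p.1)) τ := by
        intro s
        classical
        induction s using Finset.induction_on with
        | empty => simp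
        | insert a s ha ih =>
          rw [Finset.sum_insert ha, Finset.sum_insert ha, FunLike.coe_add, Pi.add_apply, ih]
      exact hgen Finset.univ
    rw [h1, hg τ, ← Finset.sum_coe_sort N.primeFactors
      (fun p => (g p) (ModularForm.heckeDiagMatrix p • τ))]
    exact Finset.sum_congr rfl (fun p _ => (oldMap_apply N p (g p.1) τ).symm)
  rw [hsum]
  exact Submodule.sum_mem _ (fun p _ =>
    Submodule.mem_iSup_of_mem p (LinearMap.mem_range_self _ _))

end OldMap

/-- **OLD-EIGEN** (body of `H23.OldEigen`): a nonzero eigenvector of the `T_ℓ`, `ℓ ∤ N`, which is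
a sum of forms `B_p g_p` has its eigensystem at some level `N / p`. -/
theorem oldEigen :
    ∀ (N : ℕ) [NeZero N] (h : CuspForm (Gamma0 N) 2), h ≠ 0 → ∀ a : ℕ → ℂ,
      (∀ (ℓ : ℕ) (hℓ : ℓ.Prime) (hℓN : ¬ ℓ ∣ N), CuspForm.heckeTLin 2 hℓ hℓN h = a ℓ • h) →
      (∃ g : (p : ℕ) → CuspForm (Gamma0 (N / p)) 2, ∀ n : ℕ,
        qCoeff h n = ∑ p ∈ N.primeFactors, if p ∣ n then qCoeff (g p) (n / p) else 0) →
      ∃ p : ℕ, p.Prime ∧ p ∣ N ∧ ∃ G : CuspForm (Gamma0 (N / p)) 2, G.IsNormalizedEigenform ∧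
        ∀ ℓ : ℕ, ℓ.Prime → ¬ ℓ ∣ N → qCoeff G ℓ = a ℓ := by
  intro N _ h hh a heig ⟨g, hg⟩
  have hmem := mem_iSup_range_oldMap_of_qCoeff N h g hg
  have hM0 : ∀ p : N.primeFactors, NeZero (N / p.1) := fun p =>
    ⟨fun h0 => NeZero.ne N (Nat.eq_zero_of_zero_dvd (h0 ▸ div_dvd_of_mem N p))⟩
  have : ∀ p : N.primeFactors, FiniteDimensional ℂ (CuspForm (Gamma0 (N / p.1)) 2) := fun p =>
    have := hM0 p
    Fermat.Agent.Lib.Newform.H683.finiteDimensional_cuspForm (N / p.1) 2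
  let ι : Type := {ℓ : ℕ // ℓ.Prime ∧ ¬ ℓ ∣ N}
  let S : ∀ p : N.primeFactors, ι → Module.End ℂ (CuspForm (Gamma0 (N / p.1)) 2) := fun p ℓ =>
    heckeTLin 2 ℓ.2.1 (fun hd => ℓ.2.2 (hd.trans (div_dvd_of_mem N p)))
  let T : ι → Module.End ℂ (CuspForm (Gamma0 N) 2) := fun ℓ => heckeTLin 2 ℓ.2.1 ℓ.2.2
  obtain ⟨p, v, hv0, hv⟩ := exists_eigenvector_of_equivariant_family S T
    (fun p ℓ ℓ' => CuspForm.heckeTLin_comm 2 _ _ _ _) (oldMap N)
    (fun p ℓ v => heckeTLin_oldMap N p ℓ.2.1 ℓ.2.2 v) (fun ℓ => a ℓ.1) hh hmem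
    (fun ℓ => heig ℓ.1 ℓ.2.1 ℓ.2.2)
  have := hM0 p
  obtain ⟨G, hG, hGa⟩ := Fermat.Agent.Lib.Newform.H683.exists_normalizedEigenform_of_eigenvector
    (M := N / p.1) (fun ℓ => ¬ ℓ ∣ N) a v hv0 (fun ℓ hℓ _ hℓN => by
      have h1 := hv ⟨ℓ, hℓ, hℓN⟩
      have h2 := congrArg (fun F : CuspForm (Gamma0 (N / p.1)) 2 => (⇑F : ℍ → ℂ)) h1
      simpa [S] using h2)
  exact ⟨p.1, Nat.prime_of_mem_primeFactors p.2, Nat.dvd_of_mem_primeFactors p.2, G, hG,
    fun ℓ hℓ hℓN => hGa ℓ hℓ (fun hd => hℓN (hd.trans (div_dvd_of_mem N p))) hℓN⟩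

/-- **MULT-ONE** (body of `H23.MultOne`): the good eigenspace of a Prelude-newform is the line
through it. -/
theorem multOne :
    ∀ (N : ℕ) [NeZero N] (f : CuspForm (Gamma0 N) 2), f.IsNewform →
      ∀ h : CuspForm (Gamma0 N) 2,
        (∀ (ℓ : ℕ) (hℓ : ℓ.Prime) (hℓN : ¬ ℓ ∣ N),
          CuspForm.heckeTLin 2 hℓ hℓN h = qCoeff f ℓ • h) →
        h = qCoeff h 1 • f := by
  intro N _ f hf h heig
  exact IsNewform.eq_smul_of_mainLemma (fun p : N.primeFactors => N / p.1) (div_dvd_of_mem N)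
    (oldMap N) hf (div_ne_of_mem N) (fun p ℓ hℓ hℓN v => heckeTLin_oldMap N p hℓ hℓN v)
    (mem_iSup_range_oldMap N) h heig

/-- **MULT-ONE'** (body of `H23.MultOneEigen`): strong multiplicity one at level `N`. -/
theorem multOneEigen :
    ∀ (N : ℕ) [NeZero N] (f g : CuspForm (Gamma0 N) 2), f.IsNewform → g.IsNormalizedEigenform →
      (∀ ℓ : ℕ, ℓ.Prime → ¬ ℓ ∣ N → qCoeff g ℓ = qCoeff f ℓ) → g = f := by
  intro N _ f g hf hg hgf
  exact IsNewform.eq_of_mainLemma (fun p : N.primeFactors => N / p.1) (div_dvd_of_mem N)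
    (oldMap N) hf (div_ne_of_mem N) (fun p ℓ hℓ hℓN v => heckeTLin_oldMap N p hℓ hℓN v)
    (mem_iSup_range_oldMap N) hg hgf

/-- Strong multiplicity one, coefficient form: a normalised eigenform of level `N` with the good
eigenvalues of a newform `f` of level `N` has ALL coefficients equal to those of `f`
(in particular at the primes `q ∣ N`). -/
theorem IsNewform.qCoeff_eq {N : ℕ} [NeZero N] {f g : CuspForm (Gamma0 N) 2} (hf : f.IsNewform)
    (hg : g.IsNormalizedEigenform)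
    (hgf : ∀ ℓ : ℕ, ℓ.Prime → ¬ ℓ ∣ N → qCoeff g ℓ = qCoeff f ℓ) (n : ℕ) :
    qCoeff g n = qCoeff f n := by
  rw [_root_.Fermat.Agent.Lib.Newform.H443.multOneEigen N f g hf hg hgf]

end Fermat.Agent.Lib.Newform.H443

end
-- ===== PACK-END Lib/Newform/H443/MultOne.lean

-- ===== PACK-BEGIN S59/H405/GTW.lean
section





/-!
# S59 / G-TW (helper405): the hypothesis `hTW` of S56 for semistable elliptic curves

`gtw : GTWStatement` : for `p ∈ {3, 5}`, a semistable integral Weierstrass model `W` with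
`Δ ≠ 0` and irreducible `E[p]`, every residual representation equivalent to a base change of
`E[p]` stays irreducible over every extension field on every subgroup of index `2` of `G_ℚ`.
This is exactly the hypothesis `hTW` of the frozen statement S56 for `ρ̄ = E[p] ⊗ k`.

The proof does not use the shape of `E[p]` at `p`: see `TWRes.lean`, `TWGroup.lean`.
-/

set_option autoImplicit false

namespace Fermat.Agent.S59.H405

open WeierstrassCurve WeierstrassCurve.Affine WeierstrassCurve.Affine.Point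
open scoped WeierstrassCurve.Affine
open Fermat.Agent.S59.H667

/-- **G-TW**: the hypothesis `hTW` of S56 holds for `E[p] ⊗ k`, `p ∈ {3, 5}`, `W` semistable
with irreducible `E[p]`. -/
def GTWStatement : Prop :=
  ∀ (p : ℕ) [Fact p.Prime] (_hp : p = 3 ∨ p = 5) (W : WeierstrassCurve ℤ) (_hΔ : W.Δ ≠ 0)
    (_hW : W.IsSemistableModel) (_hirr : W.ModRepIsIrreducible p)
    (hcard : Nat.card (Submodule.torsionBy ℤ
      ((W.map (Int.castRingHom ℚ))⁄(AlgebraicClosure ℚ)).Point p) = p ^ 2)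
    (hker : GaloisFactorsThroughFiniteLevel
      (WeierstrassCurve.Affine.Point.galoisRepModuleEnd (K := AlgebraicClosure ℚ) ℚ
        (W.map (Int.castRingHom ℚ)) p))
    (k : Type) [Field k] (ι : ZMod p →+* k) (ρbar : ResidualGaloisRep k)
    (_hρ : ρbar.IsEquiv
      (((W.map (Int.castRingHom ℚ)).residualGaloisRepOf p hcard hker).baseChangeAlong ι))
    (K : Type) [Field K] [Algebra k K]
    (G : Subgroup (AlgebraicClosure ℚ ≃ₐ[ℚ] AlgebraicClosure ℚ)), G.index = 2 →
    ∀ V : Submodule K (ρbar.baseChange K).V,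
      (∀ σ ∈ G, ∀ x ∈ V, (ρbar.baseChange K).ρ σ x ∈ V) → V = ⊥ ∨ V = ⊤

section Odd

variable (W : WeierstrassCurve ℤ) (hΔ : W.Δ ≠ 0) (p : ℕ) [Fact p.Prime]
  (hirr : W.ModRepIsIrreducible p)

include hΔ hirr in
/-- the determinant of an involution on `E[m]`, `m = p ^ 1` -/
theorem det_involution_aux (hp2 : p ≠ 2) (c : GQE) (hc : c * c = 1) (hc1 : c ≠ 1) (m : ℕ)
    (hm : m = p ^ 1) : LinearMap.det (rhoFin W m c) = -1 := by
  subst hm
  have hp : p.Prime := Fact.out
  haveI := isElliptic_of_Δ_ne_zero W hΔ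
  obtain ⟨cb⟩ := Fermat.Agent.S59.H127.nonempty_compatBasis_point
    ((W.map (Int.castRingHom ℚ))⁄(AlgebraicClosure ℚ)) p
  have hcc : ∀ x : QbE, (c : QbE ≃+* QbE) ((c : QbE ≃+* QbE) x) = x := by
    intro x
    have h := congrArg (fun f : GQE => f x) hc
    simpa [AlgEquiv.mul_apply] using h
  have hne : ∃ x : QbE, (c : QbE ≃+* QbE) x ≠ x := by
    by_contra h
    exact hc1 (AlgEquiv.ext fun x => not_not.mp (not_exists.mp h x))
  have hroot : ∀ μ : QbE, μ ^ p ^ 1 = 1 → c μ = μ ^ (p ^ 1 - 1) := by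
    intro μ hμ
    have h1 : μ * c μ = 1 :=
      Fermat.Agent.S59.G4.H178.involution_mul_self_eq_one (K := QbE) two_ne_zero
        (c : QbE ≃+* QbE) hcc hne p hp hp2 1 μ hμ
    have hpos : 0 < p ^ 1 := pow_pos hp.pos 1
    have h2 : μ * μ ^ (p ^ 1 - 1) = 1 := by
      rw [← pow_succ', Nat.sub_add_cancel hpos, hμ]
    have hμ0 : μ ≠ 0 := by
      rintro rfl
      rw [zero_mul] at h1
      exact zero_ne_one h1
    exact mul_left_cancel₀ hμ0 (h1.trans h2.symm)
  rw [det_rhoFin_eq_natCast' W hΔ p hirr cb 1 c (p ^ 1 - 1) hroot]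
  have hpos : 1 ≤ p ^ 1 := pow_pos hp.pos 1
  rw [Nat.cast_sub hpos, ZMod.natCast_self, Nat.cast_one, zero_sub]

end Odd

section Unip

variable (W : WeierstrassCurve ℤ) (hΔ : W.Δ ≠ 0) (hW : W.IsSemistableModel)

include hΔ hW in
/-- inertia at `q ≠ p` acts unipotently on `E[p]` -/
theorem unip_torsion {p q : ℕ} (hpp : p.Prime) (hq : q.Prime) (hqp : q ≠ p)
    (A : ValuationSubring (AlgebraicClosure ℚ)) (hA : A.LiesOverPrime q)
    (σ : GQE) (hσ : σ ∈ A.inertiaSubgroupIn ℚ) :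
    (rhoFin W p σ - 1) * (rhoFin W p σ - 1) = 0 := by
  have hqm : ¬ q ∣ p := fun h => hqp ((Nat.prime_dvd_prime_iff_eq hq hpp).mp h)
  apply LinearMap.ext
  intro x
  apply Subtype.ext
  have hx : p • (x : PtsE W) = 0 := by
    have := x.2
    rw [Submodule.mem_torsionBy_iff] at this
    rwa [natCast_zsmul] at this
  show (σ • (σ • (x : PtsE W) - x) - (σ • (x : PtsE W) - x)) = 0
  by_cases hgood : W.IsGoodPrimeFor q
  · have h1 := Fermat.Agent.S59.H899.inertia_smul_eq_self_of_good W hq hgood hqm A hA σ hσ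
      (x : PtsE W) hx
    rw [h1, sub_self, smul_zero, sub_self]
  · have hc₄ : ¬ (q : ℤ) ∣ W.c₄ := hW q hq (not_not.mp hgood)
    have h1 := Fermat.Agent.S59.H240.inertia_smul_sub_fixed_of_mult W hΔ hq hc₄ hqm A hA σ σ
      hσ hσ (x : PtsE W) hx
    rw [h1, sub_self]

end Unip

/-- **G-TW.** -/
theorem gtw : GTWStatement := by
  intro p _ hp W hΔ hW hirr hcard hker k _ ι ρbar hρ K _ _ G hG V hV
  have hpp : p.Prime := Fact.out
  have hp2 : p ≠ 2 := by rcases hp with h | h <;> omega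
  refine hTW_of_residual p hp ((W.map (Int.castRingHom ℚ)).residualGaloisRepOf p hcard hker)
    ?_ ?_ ?_ k ι ρbar hρ K G hG V hV
  · -- odd
    intro c hc hc1
    exact det_involution_aux W hΔ p hirr hp2 c hc hc1 p (pow_one p).symm
  · -- irreducible
    intro N hN
    exact hirr.2 N (fun σ x hx => hN σ x hx)
  · -- unipotent inertia at `q ≠ p`
    intro q hq hqp A hA σ hσ
    exact unip_torsion W hΔ hW hpp hq hqp A hA σ hσ

end Fermat.Agent.S59.H405

end
-- ===== PACK-END S59/H405/GTW.lean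

-- ===== PACK-BEGIN S59/H405/Hyp.lean
section




/-!
# S59 / cell GTW (helper405): `Arch.CurveResidualHypStatement`

The standing hypotheses `Arch.ResidualHyp` (= those of the frozen S56, plus the description of
the minimal set) hold for `E[p] ⊗ k`, `p ∈ {3, 5}`, `W` semistable with irreducible `E[p]`:

* `habs`   : odd + irreducible over `𝔽_p` implies irreducible over every extension
             (`irreducible_baseChange_of_odd`);
* `hdet`   : Weil pairing at level `p` (`H667.det_rhoFin_eq_natCast'`) and base change;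
* `hsplit` : characteristic polynomials are defined over `𝔽_p`, quadratics split in `k`;
* `hTW`    : `gtw` (`GTW.lean`);
* `hunip`  : `(σ - 1)² = 0` on inertia at `q ≠ p` (`unip_torsion`).
-/

set_option autoImplicit false

namespace Fermat.Agent.S59.H405

open Polynomial IsLocalRing
open WeierstrassCurve WeierstrassCurve.Affine WeierstrassCurve.Affine.Point
open scoped WeierstrassCurve.Affine TensorProduct
open Fermat.Agent.S53 Matrix
open Fermat.Agent.S59.H667

section AbsIrr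

/-- an odd irreducible residual representation over `F` (`2 ≠ 0`) stays irreducible after every
base change -/
theorem irreducible_baseChange_of_odd {F : Type} [Field F] (h2 : (2 : F) ≠ 0)
    (ρ₀ : ResidualGaloisRep F) (hodd : ρ₀.IsOdd) (hirr : ρ₀.IsIrreducible)
    (k : Type) [Field k] (ι : F →+* k) (K : Type) [Field K] [Algebra k K] :
    ((ρ₀.baseChangeAlong ι).baseChange K).IsIrreducible := by
  intro V hV
  obtain ⟨rb, hrb, ⟨e₀⟩⟩ := exists_toRes ρ₀
  obtain ⟨e₁⟩ := baseChangeAlong_toRes ι rb hrb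
  have E₁ : ResidualGaloisRep.Equiv (ρ₀.baseChangeAlong ι)
      (toRes (mapRep ι rb) (factors_mapRep ι hrb)) :=
    (e₀.baseChangeAlong ι).trans e₁
  obtain ⟨e₃⟩ := baseChange_toRes K (mapRep ι rb) (factors_mapRep ι hrb)
  have E : ResidualGaloisRep.Equiv ((ρ₀.baseChangeAlong ι).baseChange K)
      (toRes (mapRep (algebraMap k K) (mapRep ι rb))
        (factors_mapRep (algebraMap k K) (factors_mapRep ι hrb))) :=
    (resEquivBaseChange K E₁).trans e₃
  set φ : F →+* K := (algebraMap k K).comp ι with hφ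
  let f : ((ρ₀.baseChangeAlong ι).baseChange K).V ≃ₗ[K] (Fin 2 → K) := E.toLinearEquiv
  have hact : ∀ (σ : S53.GQ) (x : ((ρ₀.baseChangeAlong ι).baseChange K).V),
      f (((ρ₀.baseChangeAlong ι).baseChange K).ρ σ x) = ((rb σ).map φ) *ᵥ (f x) := by
    intro σ x
    exact E.map_apply σ x
  by_contra hcon
  rw [not_or] at hcon
  obtain ⟨hbot, htop⟩ := hcon
  let W : Submodule K (Fin 2 → K) :=
    V.map (f : ((ρ₀.baseChangeAlong ι).baseChange K).V →ₗ[K] (Fin 2 → K))
  have hWbot : W ≠ ⊥ := by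
    intro h
    apply hbot
    rw [Submodule.map_eq_bot_iff] at h
    exact h
  have hWtop : W ≠ ⊤ := by
    intro h
    apply htop
    rw [eq_top_iff]
    intro x _
    have hx : f x ∈ W := by rw [h]; exact Submodule.mem_top
    obtain ⟨y, hy, hyx⟩ := hx
    have : y = x := f.injective hyx
    rwa [← this]
  have hWstab : ∀ σ : S53.GQ, ∀ w ∈ W, ((rb σ).map φ) *ᵥ w ∈ W := by
    rintro σ w ⟨x, hx, rfl⟩
    refine ⟨((ρ₀.baseChangeAlong ι).baseChange K).ρ σ x, hV σ x hx, ?_⟩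
    exact hact σ x
  have h1 : 0 < Module.finrank K W := by
    haveI : Nontrivial W := (Submodule.nontrivial_iff_ne_bot).mpr hWbot
    exact Module.finrank_pos
  have h2' : Module.finrank K W < Module.finrank K (Fin 2 → K) := Submodule.finrank_lt hWtop
  rw [Module.finrank_fin_fun] at h2'
  have h3 : Module.finrank K W = 1 := by omega
  obtain ⟨w, hw, hall⟩ := finrank_eq_one_iff'.mp h3
  have hv0 : (w : Fin 2 → K) ≠ 0 := fun h0 => hw (Subtype.ext h0)
  have hline : ∀ σ : S53.GQ, IsEig ((rb σ).map φ) (w : Fin 2 → K) := by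
    intro σ
    obtain ⟨c, hc⟩ := hall ⟨((rb σ).map φ) *ᵥ (w : Fin 2 → K), hWstab σ _ w.2⟩
    exact ⟨c, (congrArg Subtype.val hc).symm⟩
  obtain ⟨c, hcc, hc1⟩ := exists_involution_Qbar
  have hdet : (rb c).det = -1 := by
    rw [det_of_equiv e₀ c]
    exact hodd c hcc hc1
  have hirr' : ¬ HasLine rb := by
    rintro ⟨v, hv, hE⟩
    have h4 : (toRes rb hrb).IsIrreducible := isIrreducible_of_equiv e₀ hirr
    exact (Fermat.Agent.S59.G4.H307.toRes_isIrreducible_iff rb hrb).mp h4 ⟨v, hv, fun σ => hE σ⟩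
  exact no_line_of_odd φ rb h2 c hcc hdet hirr' ⟨(w : Fin 2 → K), hv0, fun σ => hline σ⟩

end AbsIrr

section Det

variable (W : WeierstrassCurve ℤ) (hΔ : W.Δ ≠ 0) (p : ℕ) [Fact p.Prime]
  (hirr : W.ModRepIsIrreducible p)

include hΔ hirr in
/-- the determinant on `E[m]`, `m = p ^ 1`, is the cyclotomic character -/
theorem det_level_one_aux (σ : GQE) (a : ℕ) (m : ℕ) (hm : m = p ^ 1)
    (ha : ∀ μ : QbE, μ ^ m = 1 → σ μ = μ ^ a) :
    LinearMap.det (rhoFin W m σ) = (a : ZMod m) := by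
  subst hm
  haveI := isElliptic_of_Δ_ne_zero W hΔ
  obtain ⟨cb⟩ := Fermat.Agent.S59.H127.nonempty_compatBasis_point
    ((W.map (Int.castRingHom ℚ))⁄(AlgebraicClosure ℚ)) p
  exact det_rhoFin_eq_natCast' W hΔ p hirr cb 1 σ a ha

end Det

/-- **Cell GTW.** -/
theorem curveResidualHyp : Fermat.Agent.S59.Arch.CurveResidualHypStatement := by
  intro p _ hp W hΔ hW hirr hcard hker 𝒪 _ _ _ _ _ _ hp𝒪 ι hι Smin hSmin
  have hpp : p.Prime := Fact.out
  have hp2 : p ≠ 2 := by rcases hp with h | h <;> omega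
  have h2 : (2 : ZMod p) ≠ 0 := by
    intro h
    have h' : ((2 : ℕ) : ZMod p) = 0 := by exact_mod_cast h
    rw [ZMod.natCast_eq_zero_iff] at h'
    exact hp2 ((Nat.prime_dvd_prime_iff_eq hpp Nat.prime_two).mp h')
  have hodd : ((W.map (Int.castRingHom ℚ)).residualGaloisRepOf p hcard hker).IsOdd := by
    intro c hc hc1
    exact det_involution_aux W hΔ p hirr hp2 c hc hc1 p (pow_one p).symm
  have hirr₀ : ((W.map (Int.castRingHom ℚ)).residualGaloisRepOf p hcard hker).IsIrreducible := by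
    intro N hN
    exact hirr.2 N (fun σ x hx => hN σ x hx)
  have hpk : ((p : ℕ) : ResidueField 𝒪) = 0 := by
    rw [← map_natCast ι p, ZMod.natCast_self, _root_.map_zero]
  letI : Algebra (ZMod p) (ResidueField 𝒪) := ι.toAlgebra
  have hunip₀ : ∀ q : ℕ, q.Prime → q ≠ p → ∀ A : ValuationSubring (AlgebraicClosure ℚ),
      A.LiesOverPrime q → ∀ σ ∈ A.inertiaSubgroupIn ℚ,
      LinearMap.charpoly
        (((W.map (Int.castRingHom ℚ)).residualGaloisRepOf p hcard hker).ρ σ) = (X - 1) ^ 2 := by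
    intro q hq hqp A hA σ hσ
    have h := unip_torsion W hΔ hW hpp hq hqp A hA σ hσ
    apply Fermat.Agent.S59.H127.charpoly_eq_of_sub_one_sq
      ((W.map (Int.castRingHom ℚ)).residualGaloisRepOf p hcard hker).finrank_eq
    have h' : (((W.map (Int.castRingHom ℚ)).residualGaloisRepOf p hcard hker).ρ σ - 1) *
        (((W.map (Int.castRingHom ℚ)).residualGaloisRepOf p hcard hker).ρ σ - 1) = 0 := h
    rw [← h', two_smul]
    noncomm_ring
  refine
    { hp2 := hp2
      hp𝒪 := hp𝒪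
      habs := ?_
      hdet := ?_
      hsplit := ?_
      hTW := ?_
      hpSmin := hSmin.1
      hSmin := hSmin.2.1
      hmin := hSmin.2.2
      hunip := ?_ }
  · -- absolutely irreducible
    exact irreducible_baseChange_of_odd h2 _ hodd hirr₀ (ResidueField 𝒪) ι
      (AlgebraicClosure (ResidueField 𝒪))
  · -- determinant
    refine ⟨?_, fun n σ a ha => ?_⟩
    · rw [hpk]
      exact Submodule.zero_mem _
    · rcases Nat.eq_zero_or_pos n with rfl | hn
      · rw [pow_zero, Nat.cast_one, Ideal.span_singleton_one]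
        exact Submodule.mem_top
      · have ha' : ∀ μ : QbE, μ ^ p = 1 → σ μ = μ ^ a := by
          intro μ hμ
          apply ha
          obtain ⟨m, rfl⟩ : ∃ m, n = m + 1 := ⟨n - 1, by omega⟩
          rw [pow_succ', pow_mul, hμ, one_pow]
        have hd := det_level_one_aux W hΔ p hirr σ a p (pow_one p).symm ha'
        have hd' : LinearMap.det
            (((W.map (Int.castRingHom ℚ)).residualGaloisRepOf p hcard hker).ρ σ)
            = (a : ZMod p) := hd
        have hbc : LinearMap.det ((GaloisRepAdic.ofResidualGaloisRep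
            (Fermat.Agent.S59.Arch.curveResidual p W hcard hker ι)).ρ σ)
            = algebraMap (ZMod p) (ResidueField 𝒪) (LinearMap.det
              (((W.map (Int.castRingHom ℚ)).residualGaloisRepOf p hcard hker).ρ σ)) :=
          LinearMap.det_baseChange
            (((W.map (Int.castRingHom ℚ)).residualGaloisRepOf p hcard hker).ρ σ)
        rw [hbc, hd', map_natCast, sub_self]
        exact Submodule.zero_mem _
  · -- splitting
    intro σ
    have hbc : LinearMap.charpoly ((Fermat.Agent.S59.Arch.curveResidual p W hcard hker ι).ρ σ)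
        = (LinearMap.charpoly
            (((W.map (Int.castRingHom ℚ)).residualGaloisRepOf p hcard hker).ρ σ)).map
          (algebraMap (ZMod p) (ResidueField 𝒪)) :=
      LinearMap.charpoly_baseChange
        (((W.map (Int.castRingHom ℚ)).residualGaloisRepOf p hcard hker).ρ σ) (ResidueField 𝒪)
    rw [hbc]
    apply hι
    · exact LinearMap.charpoly_monic _
    · rw [LinearMap.charpoly_natDegree]
      exact ((W.map (Int.castRingHom ℚ)).residualGaloisRepOf p hcard hker).finrank_eq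
  · -- hTW
    intro K _ _ G hG V hV
    exact gtw p hp W hΔ hW hirr hcard hker (ResidueField 𝒪) ι
      (Fermat.Agent.S59.Arch.curveResidual p W hcard hker ι)
      ⟨ResidualGaloisRep.Equiv.refl _⟩ K G hG V hV
  · -- unipotent inertia
    intro q _ hq hqp P hP σ hσ
    have hbc : LinearMap.charpoly ((GaloisRepAdic.ofResidualGaloisRep
        (Fermat.Agent.S59.Arch.curveResidual p W hcard hker ι)).ρ σ)
        = (LinearMap.charpoly
            (((W.map (Int.castRingHom ℚ)).residualGaloisRepOf p hcard hker).ρ σ)).map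
          (algebraMap (ZMod p) (ResidueField 𝒪)) :=
      LinearMap.charpoly_baseChange
        (((W.map (Int.castRingHom ℚ)).residualGaloisRepOf p hcard hker).ρ σ) (ResidueField 𝒪)
    rw [hbc, hunip₀ q hq hqp P hP σ hσ]
    simp

end Fermat.Agent.S59.H405

end
-- ===== PACK-END S59/H405/Hyp.lean

-- ===== PACK-BEGIN S59/H126/Kernel.lean
section


/-!
# S59 / NM-SEL (helper126): `ker (R_{Σ ∪ q} → R_Σ)` is the inertia ideal at `q`
-/

set_option autoImplicit false
set_option linter.unusedSectionVars false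
set_option linter.style.haveILetI false

open IsLocalRing

namespace Fermat.Agent.S59.H126

open Fermat.Agent.S53 Fermat.Agent.S53.H113
open Fermat.Agent.S59.Arch (PType pCond sigmaCond)

section Kernel

variable {p : ℕ} [Fact p.Prime]
  {𝒪 : Type} [CommRing 𝒪] [IsDomain 𝒪] [IsDiscreteValuationRing 𝒪]
  [IsAdicComplete (maximalIdeal 𝒪) 𝒪]
  {ρbar : ResidualGaloisRep (ResidueField 𝒪)} {t : PType} {Smin Sig : Finset ℕ} {q : ℕ}

theorem inertiaIdeal_le_ker
    (D : GaloisRep.DeformationRingData 𝒪 ρbar (sigmaCond 𝒪 p t Smin Sig))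
    (D' : GaloisRep.DeformationRingData 𝒪 ρbar (sigmaCond 𝒪 p t Smin (insert q Sig)))
    (ψ : D'.R →ₐ[𝒪] D.R) (hψ : IsLocalHom (ψ : D'.R →+* D.R))
    (hψρ : (D'.ρ.baseChangeAlong (ψ : D'.R →+* D.R) hψ).IsEquiv D.ρ)
    (hq : q.Prime) (hqS : q ∉ Sig)
    (P : ValuationSubring (AlgebraicClosure ℚ)) (hP : P.LiesOverPrime q)
    (r : _root_.Fermat.Agent.S53.GQ →* M2 D'.R) (hr : MatCont r) (he : D'.ρ.IsEquiv (toAdic r hr)) :
    inertiaIdeal r P ≤ RingHom.ker (ψ : D'.R →+* D.R) := by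
  have hun : D.ρ.IsUnramifiedAt q := pCond_unram D.isOfType.1 q hq hqS
  have e1 := Fermat.Agent.S59.H659.baseChangeAlong_isEquiv_toAdic (ψ : D'.R →+* D.R) hψ D'.ρ
    r hr he
  have hun2 : (toAdic (mapRep (ψ : D'.R →+* D.R) r) (hr.map _ hψ)).IsUnramifiedAt q :=
    Fermat.Agent.S56.H966.isUnramifiedAt_of_isEquiv (isEquiv_trans (isEquiv_symm hψρ) e1) hun
  rw [inertiaIdeal, Ideal.span_le]
  rintro _ ⟨τ, hτ, i, j, rfl⟩
  have h1 := (Fermat.Agent.S59.H659.toAdic_rho_eq_one_iff _ _ τ).mp (hun2 P hP τ hτ)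
  rw [mapRep_eq_one_add] at h1
  have h2 : (r τ - 1).map (ψ : D'.R →+* D.R) = 0 := by
    have := add_left_cancel (a := (1 : M2 D.R)) (b := (r τ - 1).map (ψ : D'.R →+* D.R)) (c := 0)
      (by rw [h1, add_zero])
    exact this
  have h3 := congrFun (congrFun h2 i) j
  rw [Matrix.map_apply, Matrix.zero_apply] at h3
  exact h3

/-- **`R_Σ = R_{Σ ∪ q} ⧸ (inertia at q)`**. -/
theorem ker_eq_inertiaIdeal
    (D : GaloisRep.DeformationRingData 𝒪 ρbar (sigmaCond 𝒪 p t Smin Sig))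
    (D' : GaloisRep.DeformationRingData 𝒪 ρbar (sigmaCond 𝒪 p t Smin (insert q Sig)))
    (ψ : D'.R →ₐ[𝒪] D.R) (hψ : IsLocalHom (ψ : D'.R →+* D.R))
    (hψρ : (D'.ρ.baseChangeAlong (ψ : D'.R →+* D.R) hψ).IsEquiv D.ρ)
    (hq : q.Prime) (hqS : q ∉ Sig)
    (P : ValuationSubring (AlgebraicClosure ℚ)) (hP : P.LiesOverPrime q)
    (r : _root_.Fermat.Agent.S53.GQ →* M2 D'.R) (hr : MatCont r) (he : D'.ρ.IsEquiv (toAdic r hr)) :
    Function.Surjective ψ ∧ RingHom.ker (ψ : D'.R →+* D.R) = inertiaIdeal r P := by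
  classical
  set J : Ideal D'.R := inertiaIdeal r P with hJdef
  have hJle : J ≤ RingHom.ker (ψ : D'.R →+* D.R) :=
    inertiaIdeal_le_ker D D' ψ hψ hψρ hq hqS P hP r hr he
  have hJtop : J ≠ ⊤ := by
    intro h
    have h1 : (1 : D'.R) ∈ RingHom.ker (ψ : D'.R →+* D.R) := hJle (h ▸ Submodule.mem_top)
    rw [RingHom.mem_ker, map_one] at h1
    exact one_ne_zero h1
  letI hlocB : IsLocalRing (D'.R ⧸ J) := Fermat.Agent.S53.H596.isLocalRing_quotient J hJtop
  haveI hcompB : IsAdicComplete (maximalIdeal (D'.R ⧸ J)) (D'.R ⧸ J) :=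
    Fermat.Agent.S53.H596.isAdicComplete_quotient J hJtop
  haveI hlocalB : IsLocalHom (algebraMap 𝒪 (D'.R ⧸ J)) :=
    Fermat.Agent.S53.H596.isLocalHom_algebraMap_quotient J hJtop
  have hresB : Function.Surjective (residue (D'.R ⧸ J) ∘ algebraMap 𝒪 (D'.R ⧸ J)) :=
    Fermat.Agent.S53.H596.residue_surjective_quotient D'.residue_surjective J hJtop
  have hloc : ∀ {A : Type} [CommRing A] [IsLocalRing A] [Algebra 𝒪 A]
      (f : A →ₐ[𝒪] (D'.R ⧸ J)), IsLocalHom (f : A →+* (D'.R ⧸ J)) := fun f =>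
    isLocalHom_algHom hlocalB hresB f
  have hlocD : ∀ {A : Type} [CommRing A] [IsLocalRing A] [Algebra 𝒪 A]
      (f : A →ₐ[𝒪] D.R), IsLocalHom (f : A →+* D.R) := fun f =>
    isLocalHom_algHom D.instIsLocalHom D.residue_surjective f
  let mkA : D'.R →ₐ[𝒪] (D'.R ⧸ J) := Ideal.Quotient.mkₐ 𝒪 J
  have hmkA : IsLocalHom (mkA : D'.R →+* D'.R ⧸ J) := hloc mkA
  have hmksurj : Function.Surjective (mkA : D'.R →+* D'.R ⧸ J) := Ideal.Quotient.mk_surjective
  have hmk0 : ∀ a : D'.R, mkA a = 0 ↔ a ∈ J := fun a => Ideal.Quotient.eq_zero_iff_mem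
  set ρB : GaloisRepAdic (D'.R ⧸ J) := D'.ρ.baseChangeAlong (mkA : D'.R →+* D'.R ⧸ J) hmkA
    with hρB
  have h𝒟' : sigmaCond 𝒪 p t Smin (insert q Sig) ρB :=
    sigmaCond_baseChangeAlong _ hmkA hmksurj D'.isOfType
  have eB := Fermat.Agent.S59.H659.baseChangeAlong_isEquiv_toAdic (mkA : D'.R →+* D'.R ⧸ J) hmkA
    D'.ρ r hr he
  have hunB : ρB.IsUnramifiedAt q := by
    apply Fermat.Agent.S56.H966.isUnramifiedAt_of_isEquiv (isEquiv_symm eB)
    intro P' hP' τ hτ
    rw [Fermat.Agent.S59.H659.toAdic_rho_eq_one_iff]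
    refine Fermat.Agent.Lib.Cheb.H476.map_inertia_eq_one_of_liesOver
      (mapRep (mkA : D'.R →+* D'.R ⧸ J) r) hq hP hP' ?_ τ hτ
    intro ι hι
    apply mapRep_eq_one_of_mem_ker
    intro i j
    rw [RingHom.mem_ker]
    exact (hmk0 _).mpr (entry_mem_inertiaIdeal r P hι i j)
  have h𝒟 : sigmaCond 𝒪 p t Smin Sig ρB := ⟨pCond_of_insert h𝒟'.1 hunB, h𝒟'.2⟩
  have hresρB := residual_isEquiv_baseChangeAlong ρbar D'.ρ D'.residual_isEquiv mkA hmkA
  obtain ⟨χ, ⟨hχloc, hχρ⟩, -⟩ := D.universal (D'.R ⧸ J) hresB ρB h𝒟 hresρB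
  obtain ⟨θ, -, hθuniq⟩ := D'.universal (D'.R ⧸ J) hresB ρB h𝒟' hresρB
  have h1 : mkA = θ := hθuniq mkA ⟨hmkA, isEquiv_refl _⟩
  have h2 : χ.comp ψ = θ := by
    refine hθuniq (χ.comp ψ) ⟨hloc _, ?_⟩
    have ea := baseChangeAlong_comp_isEquiv' (ψ : D'.R →+* D.R) hψ (χ : D.R →+* D'.R ⧸ J) hχloc
      ((χ.comp ψ : D'.R →ₐ[𝒪] D'.R ⧸ J) : D'.R →+* D'.R ⧸ J) (hloc _) rfl D'.ρ
    have eb := isEquiv_baseChangeAlong (χ : D.R →+* D'.R ⧸ J) hχloc hψρ
    exact isEquiv_trans (isEquiv_symm ea) (isEquiv_trans eb hχρ)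
  have hχψ : ∀ a : D'.R, χ (ψ a) = mkA a := by
    intro a
    have := congrArg (fun f : D'.R →ₐ[𝒪] D'.R ⧸ J => f a) (h2.trans h1.symm)
    exact this
  -- the kernel
  have hker : RingHom.ker (ψ : D'.R →+* D.R) = J := by
    refine le_antisymm (fun a ha => ?_) hJle
    rw [RingHom.mem_ker] at ha
    have h3 : ψ a = 0 := ha
    rw [← hmk0, ← hχψ, h3, map_zero]
  -- surjectivity
  let ψbar : (D'.R ⧸ J) →ₐ[𝒪] D.R := Ideal.Quotient.liftₐ J ψ (fun a ha => hJle ha)
  have hψbar : ∀ a : D'.R, ψbar (mkA a) = ψ a := fun a => rfl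
  obtain ⟨ι, -, hιuniq⟩ := D.universal D.R D.residue_surjective D.ρ D.isOfType D.residual_isEquiv
  have hidloc : IsLocalHom (RingHom.id D.R) := ⟨fun a ha => ha⟩
  have h3 : AlgHom.id 𝒪 D.R = ι := hιuniq _ ⟨hidloc, baseChangeAlong_id_isEquiv D.ρ hidloc⟩
  have h4 : ψbar.comp χ = ι := by
    refine hιuniq _ ⟨hlocD _, ?_⟩
    have ea := baseChangeAlong_comp_isEquiv' (χ : D.R →+* D'.R ⧸ J) hχloc
      (ψbar : (D'.R ⧸ J) →+* D.R) (hlocD ψbar)
      ((ψbar.comp χ : D.R →ₐ[𝒪] D.R) : D.R →+* D.R) (hlocD _) rfl D.ρ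
    have eb := isEquiv_baseChangeAlong (ψbar : (D'.R ⧸ J) →+* D.R) (hlocD ψbar) hχρ
    have ec := baseChangeAlong_comp_isEquiv' (mkA : D'.R →+* D'.R ⧸ J) hmkA
      (ψbar : (D'.R ⧸ J) →+* D.R) (hlocD ψbar) (ψ : D'.R →+* D.R) hψ
      (by ext a; rfl) D'.ρ
    exact isEquiv_trans (isEquiv_symm ea) (isEquiv_trans eb (isEquiv_trans ec hψρ))
  have hsurj : Function.Surjective ψ := by
    intro b
    have h5 : ψbar (χ b) = b := by
      have := congrArg (fun f : D.R →ₐ[𝒪] D.R => f b) (h4.trans h3.symm)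
      exact this
    obtain ⟨a, ha⟩ := hmksurj (χ b)
    refine ⟨a, ?_⟩
    rw [← hψbar, ← h5]
    exact congrArg ψbar ha
  exact ⟨hsurj, hker⟩

end Kernel

end Fermat.Agent.S59.H126

end
-- ===== PACK-END S59/H126/Kernel.lean

-- ===== PACK-BEGIN S59/H126/NMSel.lean
section


/-!
# S59 / cell NM, leaf NM-SEL (helper126): the Selmer step of the numerical criterion

`D`, `D'` universal deformation rings of type `Σ` and `Σ ∪ {q}` (`q ∉ Σ`, `q ≠ p`),
`ψ : D'.R → D.R` the classifying map of `D.ρ`, `x : D.R → 𝒪` an augmentation, `σ` a Frobenius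
at `q`, `c = (q - 1) ((tr x(ρ(σ)))² - (q + 1)²) ≠ 0`.  Then

  `#Φ_{D'.R}(x ∘ ψ) ≤ #Φ_{D.R}(x) · #(𝒪/c)`        (`nmSel : NMSelStatement`).

No duality is used: `ker ψ` is the inertia ideal at `q` (`Kernel.lean`), and its image in
`I'/I'²` is bounded by the tame relation (`Galois.lean`, `Count.lean`).
-/

set_option autoImplicit false
set_option linter.unusedSectionVars false
set_option linter.style.haveILetI false

open IsLocalRing

namespace Fermat.Agent.S59.H126

open Fermat.Agent.S53 Fermat.Agent.S53.H113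
open Fermat.Agent.S59.Arch (PType pCond sigmaCond)

/-- **NM-SEL.** -/
def NMSelStatement : Prop :=
  ∀ (p : ℕ) [Fact p.Prime]
    (𝒪 : Type) [CommRing 𝒪] [IsDomain 𝒪] [IsDiscreteValuationRing 𝒪]
    [IsAdicComplete (maximalIdeal 𝒪) 𝒪] [Finite (ResidueField 𝒪)]
    (ρbar : ResidualGaloisRep (ResidueField 𝒪)) (t : PType) (Smin Sig : Finset ℕ)
    (q : ℕ) (_hq : q.Prime) (_hqp : q ≠ p) (_hqS : q ∉ Sig)
    (D : GaloisRep.DeformationRingData 𝒪 ρbar (sigmaCond 𝒪 p t Smin Sig))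
    (D' : GaloisRep.DeformationRingData 𝒪 ρbar (sigmaCond 𝒪 p t Smin (insert q Sig)))
    (ψ : D'.R →ₐ[𝒪] D.R) (hψ : IsLocalHom (ψ : D'.R →+* D.R))
    (_hψρ : (D'.ρ.baseChangeAlong (ψ : D'.R →+* D.R) hψ).IsEquiv D.ρ)
    (x : D.R →ₐ[𝒪] 𝒪)
    (P : ValuationSubring (AlgebraicClosure ℚ)) (_hP : P.LiesOverPrime q)
    (σ : AlgebraicClosure ℚ ≃ₐ[ℚ] AlgebraicClosure ℚ) (_hσ : P.IsFrobeniusAt σ q)
    (_hc : ((q : 𝒪) - 1) * (x (D.ρ.trace σ) ^ 2 - ((q : 𝒪) + 1) ^ 2) ≠ 0)
    (_hfin : Finite (Fermat.Agent.S59.NC.Cot x)),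
    Finite (Fermat.Agent.S59.NC.Cot (x.comp ψ)) ∧
      Nat.card (Fermat.Agent.S59.NC.Cot (x.comp ψ)) ≤ Nat.card (Fermat.Agent.S59.NC.Cot x) *
        Nat.card (𝒪 ⧸ Ideal.span
          {((q : 𝒪) - 1) * (x (D.ρ.trace σ) ^ 2 - ((q : 𝒪) + 1) ^ 2)})

section Aux

theorem finite_quot_span_singleton {𝒪 : Type*} [CommRing 𝒪] [IsDomain 𝒪]
    [IsDiscreteValuationRing 𝒪] [Finite (ResidueField 𝒪)] {c : 𝒪} (hc : c ≠ 0) :
    Finite (𝒪 ⧸ Ideal.span {c}) := by
  obtain ⟨ϖ, hϖ⟩ := IsDiscreteValuationRing.exists_irreducible 𝒪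
  obtain ⟨n, hn⟩ := IsDiscreteValuationRing.associated_pow_irreducible hc hϖ
  rw [Ideal.span_singleton_eq_span_singleton.mpr hn]
  apply Nat.finite_of_card_ne_zero
  rw [Fermat.Agent.S55.H424.card_quot_span_pow ϖ
    (fun x hx => (mul_eq_zero.mp hx).resolve_left hϖ.ne_zero) n]
  apply pow_ne_zero
  rw [← hϖ.maximalIdeal_eq]
  haveI : Finite (𝒪 ⧸ maximalIdeal 𝒪) := ‹Finite (ResidueField 𝒪)›
  exact Nat.card_pos.ne'

theorem finite_and_card_le_of_forall_finset {α : Type*} (C : ℕ)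
    (h : ∀ s : Finset α, s.card ≤ C) : Finite α ∧ Nat.card α ≤ C := by
  have hfin : Finite α := by
    by_contra hinf
    rw [not_finite_iff_infinite] at hinf
    obtain ⟨s, hs⟩ := Infinite.exists_subset_card_eq α (C + 1)
    have := h s
    omega
  refine ⟨hfin, ?_⟩
  haveI := Fintype.ofFinite α
  rw [Nat.card_eq_fintype_card, ← Finset.card_univ]
  exact h Finset.univ

theorem isUnit_natCast_of_prime_ne {𝒪 : Type*} [CommRing 𝒪] [IsLocalRing 𝒪] {p q : ℕ}
    (hp : p.Prime) (hq : q.Prime) (hqp : q ≠ p) (hp𝒪 : (p : 𝒪) ∈ maximalIdeal 𝒪) :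
    IsUnit (q : 𝒪) := by
  have hcop : IsCoprime (p : ℤ) (q : ℤ) :=
    Nat.isCoprime_iff_coprime.mpr ((Nat.coprime_primes hp hq).mpr (Ne.symm hqp))
  obtain ⟨a, b, hab⟩ := hcop
  have h1 : (a : 𝒪) * p + (b : 𝒪) * q = 1 := by
    have := congrArg (Int.cast : ℤ → 𝒪) hab
    push_cast at this
    exact this
  have h2 : IsUnit ((b : 𝒪) * q) := by
    have h3 : (b : 𝒪) * q = 1 - a * p := by linear_combination h1
    rw [h3]
    exact IsLocalRing.isUnit_one_sub_self_of_mem_nonunits _ (Ideal.mul_mem_left _ _ hp𝒪)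
  exact isUnit_of_mul_isUnit_right h2

end Aux

/-- **NM-SEL** (Selmer step of the numerical criterion). -/
theorem nmSel : NMSelStatement := by
  intro p _ 𝒪 _ _ _ _ _ ρbar t Smin Sig q hq hqp hqS D D' ψ hψ hψρ x P hP σ hσ hc hfin
  classical
  have hpp : p.Prime := Fact.out
  obtain ⟨r, hr, he⟩ := exists_toAdic D'.ρ
  obtain ⟨hsurj, hker⟩ := ker_eq_inertiaIdeal D D' ψ hψ hψρ hq hqS P hP r hr he
  have hdet : (toAdic r hr).DetIsCyclotomic p :=
    Fermat.Agent.S56.H966.detIsCyclotomic_of_isEquiv he (pCond_det D'.isOfType.1)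
  have hp𝒪 : (p : 𝒪) ∈ maximalIdeal 𝒪 := by
    by_contra h
    have hu : IsUnit (p : 𝒪) := by
      by_contra hn
      exact h hn
    have hu' := hu.map (algebraMap 𝒪 D'.R)
    rw [map_natCast] at hu'
    exact hdet.1 hu'
  have hqu : IsUnit (q : 𝒪) := isUnit_natCast_of_prime_ne hpp hq hqp hp𝒪
  -- the trace
  have htr : (x.comp ψ) (r σ).trace = x (D.ρ.trace σ) := by
    have e1 := Fermat.Agent.S59.H659.baseChangeAlong_isEquiv_toAdic (ψ : D'.R →+* D.R) hψ D'.ρ
      r hr he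
    have h1 : D.ρ.trace σ = (mapRep (ψ : D'.R →+* D.R) r σ).trace := by
      rw [← trace_toAdic _ (hr.map _ hψ)]
      exact trace_eq_of_isEquiv (isEquiv_trans (isEquiv_symm hψρ) e1) σ
    rw [h1, Matrix.trace_fin_two, Matrix.trace_fin_two, mapRep_apply_apply, mapRep_apply_apply,
      AlgHom.comp_apply, map_add]
    rfl
  rw [← htr] at hc ⊢
  set c : 𝒪 := ((q : 𝒪) - 1) * ((x.comp ψ) (r σ).trace ^ 2 - ((q : 𝒪) + 1) ^ 2) with hcdef
  have hfinc : Finite (𝒪 ⧸ Ideal.span {c}) := finite_quot_span_singleton hc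
  set I' : Ideal D'.R := Fermat.Agent.S59.NC.augIdeal (x.comp ψ) with hI'
  set I : Ideal D.R := Fermat.Agent.S59.NC.augIdeal x with hI
  have hI'eq : I' = RingHom.ker ((x.comp ψ : D'.R →ₐ[𝒪] 𝒪) : D'.R →+* 𝒪) := rfl
  have hmemI' : ∀ a : D'.R, a ∈ I' ↔ x (ψ a) = 0 := fun a => RingHom.mem_ker
  have hmemI : ∀ b : D.R, b ∈ I ↔ x b = 0 := fun b => RingHom.mem_ker
  have hJI' : inertiaIdeal r P ≤ I' := by
    intro a ha
    rw [← hker, RingHom.mem_ker] at ha
    rw [hmemI']
    have : ψ a = 0 := ha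
    rw [this, map_zero]
  have hIent : ∀ τ ∈ P.inertiaSubgroupIn ℚ, ∀ i j,
      (r τ - 1) i j ∈ RingHom.ker ((x.comp ψ : D'.R →ₐ[𝒪] 𝒪) : D'.R →+* 𝒪) := by
    intro τ hτ i j
    rw [← hI'eq]
    exact hJI' (entry_mem_inertiaIdeal r P hτ i j)
  have hcount : ∀ s : Finset D'.R, (∀ y ∈ s, y ∈ inertiaIdeal r P) →
      (∀ y ∈ s, ∀ y' ∈ s, y - y' ∈ I' ^ 2 → y = y') → s.card ≤ Nat.card (𝒪 ⧸ Ideal.span {c}) :=
    fun s hs hinj => inertia_count (p := p) hq hqp hqu (x.comp ψ) r hr hdet P hP σ hσ hIent hc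
      hfinc s hs hinj
  -- the map on cotangent spaces
  have hle : I' ≤ I.comap ψ := by
    intro a ha
    rw [Ideal.mem_comap, hmemI]
    exact (hmemI' a).mp ha
  let μ : I'.Cotangent →ₗ[𝒪] I.Cotangent := Ideal.mapCotangent I' I ψ hle
  have hImap : I = I'.map (ψ : D'.R →+* D.R) := by
    have h1 : I' = I.comap (ψ : D'.R →+* D.R) := by
      ext a
      rw [hmemI', Ideal.mem_comap, hmemI]
      rfl
    rw [h1]
    exact (Ideal.map_comap_of_surjective (ψ : D'.R →+* D.R) hsurj I).symm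
  -- every element of the kernel comes from the inertia ideal
  have hlift : ∀ κ : LinearMap.ker μ, ∃ y : D'.R, y ∈ inertiaIdeal r P ∧
      ∃ hy : y ∈ I', I'.toCotangent ⟨y, hy⟩ = (κ : I'.Cotangent) := by
    intro κ
    obtain ⟨⟨a, ha⟩, hκ⟩ := Ideal.toCotangent_surjective I' (κ : I'.Cotangent)
    have h1 : μ (I'.toCotangent ⟨a, ha⟩) = 0 := by
      rw [hκ]
      exact κ.2
    rw [Ideal.mapCotangent_toCotangent, Ideal.toCotangent_eq_zero] at h1
    have h2 : ψ a ∈ (I' ^ 2).map (ψ : D'.R →+* D.R) := by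
      rw [Ideal.map_pow, ← hImap]
      exact h1
    obtain ⟨a₂, ha₂, ha₂'⟩ := (Ideal.mem_map_iff_of_surjective (ψ : D'.R →+* D.R) hsurj).mp h2
    have ha₂I : a₂ ∈ I' := Ideal.pow_le_self two_ne_zero ha₂
    have hy : a - a₂ ∈ inertiaIdeal r P := by
      rw [← hker, RingHom.mem_ker, map_sub, sub_eq_zero]
      exact ha₂'.symm
    refine ⟨a - a₂, hy, I'.sub_mem ha ha₂I, ?_⟩
    rw [← hκ, Ideal.toCotangent_eq]
    show a - a₂ - a ∈ I' ^ 2
    have : a - a₂ - a = -a₂ := by ring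
    rw [this]
    exact (I' ^ 2).neg_mem ha₂
  choose g hgJ hgI hgκ using hlift
  have hginj : ∀ κ κ' : LinearMap.ker μ, g κ - g κ' ∈ I' ^ 2 → κ = κ' := by
    intro κ κ' h
    apply Subtype.ext
    rw [← hgκ κ, ← hgκ κ', Ideal.toCotangent_eq]
    exact h
  have hK : ∀ s : Finset (LinearMap.ker μ), s.card ≤ Nat.card (𝒪 ⧸ Ideal.span {c}) := by
    intro s
    have hinj : Set.InjOn g (s : Set (LinearMap.ker μ)) := by
      intro κ _ κ' _ h
      apply hginj
      rw [h, sub_self]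
      exact (I' ^ 2).zero_mem
    rw [← Finset.card_image_of_injOn hinj]
    apply hcount
    · intro y hy
      obtain ⟨κ, -, rfl⟩ := Finset.mem_image.mp hy
      exact hgJ κ
    · intro y hy y' hy' h
      obtain ⟨κ, -, rfl⟩ := Finset.mem_image.mp hy
      obtain ⟨κ', -, rfl⟩ := Finset.mem_image.mp hy'
      rw [hginj κ κ' h]
  obtain ⟨hKfin, hKcard⟩ := finite_and_card_le_of_forall_finset _ hK
  -- the count
  haveI := hfin
  haveI : Finite I.Cotangent := hfin
  have hrange : Nat.card (I'.Cotangent ⧸ LinearMap.ker μ) ≤ Nat.card I.Cotangent := by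
    rw [Nat.card_congr (LinearMap.quotKerEquivRange μ).toEquiv]
    exact Nat.card_le_card_of_injective _ (Subtype.val_injective)
  haveI : Finite (I'.Cotangent ⧸ LinearMap.ker μ) :=
    Finite.of_equiv _ (LinearMap.quotKerEquivRange μ).toEquiv.symm
  have hmul := Submodule.card_eq_card_quotient_mul_card (LinearMap.ker μ)
  have hpos1 : 0 < Nat.card (LinearMap.ker μ) := Nat.card_pos
  have hpos2 : 0 < Nat.card (I'.Cotangent ⧸ LinearMap.ker μ) := Nat.card_pos
  have hfin' : Finite I'.Cotangent := by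
    apply Nat.finite_of_card_ne_zero
    rw [hmul]
    exact (Nat.mul_pos hpos1 hpos2).ne'
  refine ⟨hfin', ?_⟩
  show Nat.card I'.Cotangent ≤ Nat.card I.Cotangent * Nat.card (𝒪 ⧸ Ideal.span {c})
  rw [hmul, mul_comm]
  exact Nat.mul_le_mul hrange hKcard

end Fermat.Agent.S59.H126

end
-- ===== PACK-END S59/H126/NMSel.lean

-- ===== PACK-BEGIN S55/E1/H423/Cmp.lean
section





/-!
# S55, engine E1: comparison of presentations (CMP)

Let `φ : D →* G` be injective and `N` a `G`-module.  There are two presentations of `N|_D` by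
free `ℤ[D]`-modules: the standard presentation `0 → R_D → P_D → N|_D → 0` of `Rep.res φ N`
and the restriction to `D` of the standard presentation `0 → R → P → N → 0` of `N`.
They are compared by `trP φ 𝟙 : P_D → P|_D`, `trR φ 𝟙 : R_D → R|_D`.

Main result: for every `D`-module `X` the pull-back along `trR φ 𝟙`

  `H¹(D, Hom_ℤ(R|_D, X)) → H¹(D, Hom_ℤ(R_D, X))`

is bijective (`cmp_bijective`).  Consequences: `trE2_eq_cmp`, `trE2_eq_zero_iff` and
`E2_dies_iff_trE2` (E2-Shapiro of helper354 in terms of `trE2 φ 𝟙 (flat φ u)`, i.e. for the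
STANDARD presentation of `N|_D` over `D`, as used by ALG9a, ALG10, ALG11).
-/

set_option autoImplicit false
set_option linter.style.haveILetI false

open CategoryTheory CategoryTheory.Limits

namespace Fermat.Agent.S55.E1.H423

open Fermat.Agent.S55.E1
open Fermat.Agent.S55.T.H719 (ihomLin)

/-! ## Coset representatives -/

section Coset

variable {G D : Type} [Group G] [Group D] (φ : D →* G)

/-- A representative of the right coset `φ(D) g`; it is `1` on `φ(D)`. -/
noncomputable def cosetRep (g : G) : G :=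
  ((Quotient.mk (QuotientGroup.rightRel φ.range) 1).out)⁻¹ *
    (Quotient.mk (QuotientGroup.rightRel φ.range) g).out

private theorem out_mem (g : G) :
    (Quotient.mk (QuotientGroup.rightRel φ.range) g).out * g⁻¹ ∈ φ.range := by
  have h : (QuotientGroup.rightRel φ.range) g
      ((Quotient.mk (QuotientGroup.rightRel φ.range) g).out) :=
    Quotient.exact (Quotient.out_eq _).symm
  exact QuotientGroup.rightRel_apply.1 h

theorem cosetRep_mem (g : G) : g * (cosetRep φ g)⁻¹ ∈ φ.range := by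
  have h1 := out_mem φ g
  have h2 := out_mem φ 1
  rw [inv_one, mul_one] at h2
  have h3 : cosetRep φ g * g⁻¹ ∈ φ.range := by
    unfold cosetRep
    rw [mul_assoc]
    exact φ.range.mul_mem (φ.range.inv_mem h2) h1
  have := φ.range.inv_mem h3
  rwa [mul_inv_rev, inv_inv] at this

theorem cosetRep_mul (d : D) (g : G) : cosetRep φ (φ d * g) = cosetRep φ g := by
  unfold cosetRep
  have h : (Quotient.mk (QuotientGroup.rightRel φ.range) (φ d * g)) =
      Quotient.mk (QuotientGroup.rightRel φ.range) g := by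
    apply Quotient.sound
    apply QuotientGroup.rightRel_apply.2
    rw [mul_inv_rev, ← mul_assoc, mul_inv_cancel, one_mul]
    exact φ.range.inv_mem ⟨d, rfl⟩
  rw [h]

theorem cosetRep_range (d : D) : cosetRep φ (φ d) = 1 := by
  have := cosetRep_mul φ d 1
  rw [mul_one] at this
  rw [this]
  unfold cosetRep
  rw [inv_mul_cancel]

/-- The `D`-coordinate of `g`: `g = φ (cosetCoord g) * cosetRep g`. -/
noncomputable def cosetCoord (g : G) : D := Classical.choose (cosetRep_mem φ g)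

theorem cosetCoord_spec (g : G) : φ (cosetCoord φ g) * cosetRep φ g = g := by
  have h := Classical.choose_spec (cosetRep_mem φ g)
  unfold cosetCoord
  rw [h, inv_mul_cancel_right]

variable {φ}

theorem cosetCoord_mul (hφ : Function.Injective φ) (d : D) (g : G) :
    cosetCoord φ (φ d * g) = d * cosetCoord φ g := by
  apply hφ
  have h1 := cosetCoord_spec φ (φ d * g)
  have h2 := cosetCoord_spec φ g
  rw [cosetRep_mul] at h1
  rw [map_mul]
  have : φ (cosetCoord φ (φ d * g)) * cosetRep φ g = φ d * φ (cosetCoord φ g) * cosetRep φ g := by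
    rw [h1, mul_assoc, h2]
  exact mul_right_cancel this

theorem cosetCoord_range (hφ : Function.Injective φ) (d : D) : cosetCoord φ (φ d) = d := by
  apply hφ
  have h1 := cosetCoord_spec φ (φ d)
  rwa [cosetRep_range, mul_one] at h1

end Coset

/-! ## The retraction `pr : P → P_D` -/

section Pr

variable {G D : Type} [Group G] [Group D] (φ : D →* G) (N : Rep.{0} ℤ G)

/-- The basis element `m • g e_n` of `P = ℤ[G]^{(N)}`. -/
noncomputable def bvec (n : N.V) (g : G) (m : ℤ) : (stdP N).V :=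
  (Finsupp.single n (MonoidAlgebra.single g m) : N.V →₀ MonoidAlgebra ℤ G)

theorem stdP_ρ_bvec (h : G) (n : N.V) (g : G) (m : ℤ) :
    (stdP N).ρ h (bvec N n g m) = bvec N n (h * g) m :=
  Representation.free_single_single h g n m

theorem stdε_bvec (n : N.V) (g : G) (m : ℤ) :
    (stdε N).hom (bvec N n g m) = m • N.ρ g n := by
  have h2 : (stdε N).hom (bvec N n g m) = @HSMul.hSMul ℤ N.V N.V (@instHSMul ℤ N.V N.hV2.toSMul)
      m (N.ρ g n) := by
    letI : Module ℤ N.V := N.hV2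
    exact Representation.freeLift_single_single N.ρ n g m (fun n : N.V => n)
  rw [h2]
  exact int_smul_eq_zsmul N.hV2 m _

/-- Induction principle for `P`. -/
theorem stdP_induction {motive : (stdP N).V → Prop} (x : (stdP N).V)
    (zero : motive 0) (add : ∀ x y, motive x → motive y → motive (x + y))
    (single : ∀ (n : N.V) (g : G) (m : ℤ), motive (bvec N n g m)) : motive x :=
  H295.free_induction (motive := motive) x zero add single

/-- Two additive maps on `P` which agree on the basis are equal. -/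
theorem stdP_addHom_ext {M : Type} [AddCommGroup M] {f f' : (stdP N).V →+ M}
    (h : ∀ (n : N.V) (g : G) (m : ℤ), f (bvec N n g m) = f' (bvec N n g m)) (x : (stdP N).V) :
    f x = f' x := by
  induction x using stdP_induction with
  | zero => rw [map_zero, map_zero]
  | add x y hx hy => rw [map_add, map_add, hx, hy]
  | single n g m => exact h n g m

/-- Additive maps out of `P` from values on the basis. -/
noncomputable def stdPLift {M : Type} [AddCommGroup M] (v : N.V → G → M) : (stdP N).V →+ M :=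
  H295.freeBasisLift v

theorem stdPLift_bvec {M : Type} [AddCommGroup M] (v : N.V → G → M) (n : N.V) (g : G) (m : ℤ) :
    stdPLift N v (bvec N n g m) = m • v n g :=
  H295.freeBasisLift_single_single v n g m

theorem zsmul_bvec (n : N.V) (g : G) (m : ℤ) : m • bvec N n g 1 = bvec N n g m :=
  H295.zsmul_single_single n g m

/-- `pr : P → P_D`, `g e_n ↦ d_g e_{s_g n}` where `g = φ(d_g) s_g`. -/
noncomputable def cmpPr : (stdP N).V →+ (stdP (Rep.res φ N)).V :=
  stdPLift N (fun n g => bvec (Rep.res φ N) (N.ρ (cosetRep φ g) n) (cosetCoord φ g) 1)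

theorem cmpPr_bvec (n : N.V) (g : G) (m : ℤ) :
    cmpPr φ N (bvec N n g m) =
      bvec (Rep.res φ N) (N.ρ (cosetRep φ g) n) (cosetCoord φ g) m := by
  unfold cmpPr
  rw [stdPLift_bvec, zsmul_bvec]

theorem trP_bvec {G' : Type} [Group G'] (π : G' →* G) {N' : Rep.{0} ℤ G'}
    (ν : N' ⟶ Rep.res π N) (n' : N'.V) (d : G') (m : ℤ) :
    (trP π ν).hom (bvec N' n' d m) = bvec N (ν.hom n') (π d) m := by
  have h1 : (trP π ν).hom (bvec N' n' d m) =
      @HSMul.hSMul ℤ (stdP N).V (stdP N).V (@instHSMul ℤ (stdP N).V (stdP N).hV2.toSMul) m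
        ((stdP N).ρ (π d) (stdE N (ν.hom n'))) := by
    letI : Module ℤ (stdP N).V := (stdP N).hV2
    exact Representation.freeLift_single_single (Rep.res π (stdP N)).ρ n' d m
      (fun n' : N'.V => stdE N (ν.hom n'))
  refine h1.trans ((int_smul_eq_zsmul (stdP N).hV2 m _).trans ?_)
  have h2 : stdE N (ν.hom n') = bvec N (ν.hom n') 1 1 := rfl
  rw [h2, stdP_ρ_bvec, mul_one, zsmul_bvec]

variable {φ} in
theorem cmpPr_equivariant (hφ : Function.Injective φ) (d : D) (x : (stdP N).V) :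
    cmpPr φ N ((stdP N).ρ (φ d) x) = (stdP (Rep.res φ N)).ρ d (cmpPr φ N x) := by
  induction x using stdP_induction with
  | zero => rw [map_zero, map_zero, map_zero]
  | add x y hx hy => rw [map_add, map_add, hx, hy, map_add, map_add]
  | single n g m =>
    rw [stdP_ρ_bvec, cmpPr_bvec, cmpPr_bvec, stdP_ρ_bvec, cosetRep_mul, cosetCoord_mul hφ]

theorem stdε_cmpPr (x : (stdP N).V) :
    (stdε (Rep.res φ N)).hom (cmpPr φ N x) = (stdε N).hom x := by
  induction x using stdP_induction with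
  | zero => rw [map_zero, map_zero, map_zero]
  | add x y hx hy => rw [map_add, map_add, hx, hy, map_add]
  | single n g m =>
    rw [cmpPr_bvec, stdε_bvec, stdε_bvec]
    congr 1
    show N.ρ (φ (cosetCoord φ g)) (N.ρ (cosetRep φ g) n) = N.ρ g n
    have h : N.ρ (φ (cosetCoord φ g) * cosetRep φ g) n = N.ρ g n := by
      rw [cosetCoord_spec]
    rw [← h, map_mul]
    rfl

variable {φ} in
theorem cmpPr_trP (hφ : Function.Injective φ) (y : (stdP (Rep.res φ N)).V) :
    cmpPr φ N ((trP φ (𝟙 (Rep.res φ N))).hom y) = y := by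
  induction y using stdP_induction with
  | zero => rw [map_zero, map_zero]
  | add x y hx hy => rw [map_add, map_add, hx, hy]
  | single n d m =>
    rw [trP_bvec, cmpPr_bvec, cosetRep_range, cosetCoord_range hφ]
    have h1 : (𝟙 (Rep.res φ N) : Rep.res φ N ⟶ Rep.res φ N).hom n = n := rfl
    rw [h1, map_one]
    rfl

end Pr

/-! ## The retraction `r : R|_D → R_D` and the projection `κ : P → R` -/

section Retr

variable {G D : Type} [Group G] [Group D]

/-- Lift an additive map with values in `ker ε` through `stdι`. -/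
theorem exists_addHom_lift_stdι {A : Type} [AddCommGroup A] (M : Rep.{0} ℤ G)
    (f : A →+ (stdP M).V) (hf : ∀ a, (stdε M).hom (f a) = 0) :
    ∃ f' : A →+ (stdR M).V, ∀ a, (stdι M).hom (f' a) = f a := by
  have h : ∀ a, ∃ r : (stdR M).V, (stdι M).hom r = f a := fun a => exists_stdι_eq M (hf a)
  choose ρ hρ using h
  refine ⟨AddMonoidHom.mk' ρ (fun a b => ?_), hρ⟩
  apply stdι_injective M
  rw [map_add, hρ, hρ, hρ, map_add]

variable (φ : D →* G) (N : Rep.{0} ℤ G)

theorem cmpRetr_aux : ∃ f' : (stdR N).V →+ (stdR (Rep.res φ N)).V,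
    ∀ b, (stdι (Rep.res φ N)).hom (f' b) = cmpPr φ N ((stdι N).hom b) :=
  exists_addHom_lift_stdι (Rep.res φ N) ((cmpPr φ N).comp (addHom (stdι N)))
    (fun b => by
      show (stdε (Rep.res φ N)).hom (cmpPr φ N ((stdι N).hom b)) = 0
      rw [stdε_cmpPr, stdε_stdι_apply])

/-- The retraction `r : R|_D → R_D` (additive, `D`-equivariant). -/
noncomputable def cmpRetr : (stdR N).V →+ (stdR (Rep.res φ N)).V :=
  Classical.choose (cmpRetr_aux φ N)

theorem stdι_cmpRetr (b : (stdR N).V) :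
    (stdι (Rep.res φ N)).hom (cmpRetr φ N b) = cmpPr φ N ((stdι N).hom b) :=
  Classical.choose_spec (cmpRetr_aux φ N) b

theorem cmpKap_aux : ∃ f' : (stdP N).V →+ (stdR N).V,
    ∀ x, (stdι N).hom (f' x) = x - (trP φ (𝟙 (Rep.res φ N))).hom (cmpPr φ N x) :=
  exists_addHom_lift_stdι N
    (AddMonoidHom.id _ - (addHom (trP φ (𝟙 (Rep.res φ N)))).comp (cmpPr φ N))
    (fun x => by
      show (stdε N).hom (x - (trP φ (𝟙 (Rep.res φ N))).hom (cmpPr φ N x)) = 0
      rw [map_sub, trP_stdε_apply, stdε_cmpPr, sub_eq_zero]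
      rfl)

/-- The projection `κ = 1 - τ_P ∘ pr : P → R` (additive, `D`-equivariant). -/
noncomputable def cmpKap : (stdP N).V →+ (stdR N).V :=
  Classical.choose (cmpKap_aux φ N)

theorem stdι_cmpKap (x : (stdP N).V) :
    (stdι N).hom (cmpKap φ N x) = x - (trP φ (𝟙 (Rep.res φ N))).hom (cmpPr φ N x) :=
  Classical.choose_spec (cmpKap_aux φ N) x

variable {φ}

theorem cmpRetr_equivariant (hφ : Function.Injective φ) (d : D) (b : (stdR N).V) :
    cmpRetr φ N ((stdR N).ρ (φ d) b) = (stdR (Rep.res φ N)).ρ d (cmpRetr φ N b) := by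
  apply stdι_injective (Rep.res φ N)
  rw [stdι_cmpRetr, Rep.hom_comm_apply, cmpPr_equivariant N hφ, Rep.hom_comm_apply,
    stdι_cmpRetr]

theorem cmpRetr_trR (hφ : Function.Injective φ) (a : (stdR (Rep.res φ N)).V) :
    cmpRetr φ N ((trR φ (𝟙 (Rep.res φ N))).hom a) = a := by
  apply stdι_injective (Rep.res φ N)
  rw [stdι_cmpRetr, trR_stdι_apply, cmpPr_trP N hφ]

theorem trP_equivariant (d : D) (y : (stdP (Rep.res φ N)).V) :
    (trP φ (𝟙 (Rep.res φ N))).hom ((stdP (Rep.res φ N)).ρ d y) =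
      (stdP N).ρ (φ d) ((trP φ (𝟙 (Rep.res φ N))).hom y) :=
  Rep.hom_comm_apply (trP φ (𝟙 (Rep.res φ N))) d y

theorem trR_equivariant (d : D) (a : (stdR (Rep.res φ N)).V) :
    (trR φ (𝟙 (Rep.res φ N))).hom ((stdR (Rep.res φ N)).ρ d a) =
      (stdR N).ρ (φ d) ((trR φ (𝟙 (Rep.res φ N))).hom a) :=
  Rep.hom_comm_apply (trR φ (𝟙 (Rep.res φ N))) d a

theorem cmpKap_equivariant (hφ : Function.Injective φ) (d : D) (x : (stdP N).V) :
    cmpKap φ N ((stdP N).ρ (φ d) x) = (stdR N).ρ (φ d) (cmpKap φ N x) := by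
  apply stdι_injective N
  rw [stdι_cmpKap, Rep.hom_comm_apply, stdι_cmpKap, cmpPr_equivariant N hφ, trP_equivariant,
    map_sub]

theorem cmpKap_stdι (b : (stdR N).V) :
    cmpKap φ N ((stdι N).hom b) = b - (trR φ (𝟙 (Rep.res φ N))).hom (cmpRetr φ N b) := by
  apply stdι_injective N
  rw [stdι_cmpKap, map_sub, trR_stdι_apply, stdι_cmpRetr]

end Retr

/-! ## The cocycle computation -/

section Cocycle

variable {G D : Type} [Group G] [Group D] {φ : D →* G} (N : Rep.{0} ℤ G) (X : Rep.{0} ℤ D)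

/-- `Hom_ℤ(R|_D, X)`. -/
noncomputable abbrev cmpHB (φ : D →* G) (N : Rep.{0} ℤ G) (X : Rep.{0} ℤ D) : Rep.{0} ℤ D :=
  (Rep.ihom (Rep.res φ (stdR N))).obj X

/-- `Hom_ℤ(R_D, X)`. -/
noncomputable abbrev cmpHA (φ : D →* G) (N : Rep.{0} ℤ G) (X : Rep.{0} ℤ D) : Rep.{0} ℤ D :=
  (Rep.ihom (stdR (Rep.res φ N))).obj X

/-- The pull-back `Hom_ℤ(R|_D, X) ⟶ Hom_ℤ(R_D, X)` along `trR φ 𝟙`. -/
noncomputable abbrev cmpPre (φ : D →* G) (N : Rep.{0} ℤ G) (X : Rep.{0} ℤ D) : cmpHB φ N X ⟶ cmpHA φ N X :=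
  ihomPre (trR φ (𝟙 (Rep.res φ N))) X

theorem cmpHB_ρ_apply (d : D) (f : (cmpHB φ N X).V) (b : (stdR N).V) :
    ihomLin ((cmpHB φ N X).ρ d f) b = X.ρ d (ihomLin f ((stdR N).ρ (φ d⁻¹) b)) := rfl

theorem cmpHA_ρ_apply (d : D) (f : (cmpHA φ N X).V) (a : (stdR (Rep.res φ N)).V) :
    ihomLin ((cmpHA φ N X).ρ d f) a =
      X.ρ d (ihomLin f ((stdR (Rep.res φ N)).ρ d⁻¹ a)) := rfl

theorem cmpPre_apply (f : (cmpHB φ N X).V) (a : (stdR (Rep.res φ N)).V) :
    ihomLin ((cmpPre φ N X).hom f) a = ihomLin f ((trR φ (𝟙 (Rep.res φ N))).hom a) := rfl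

/-- The primitive `θ₀ : P → X` of a cocycle vanishing on `R_D`. -/
noncomputable def cmpTheta (c : D → (cmpHB φ N X).V) : (stdP N).V →+ X.V :=
  stdPLift N (fun n g => - ihomLin (c (cosetCoord φ g)) (cmpKap φ N (bvec N n g 1)))

theorem cmpTheta_bvec (c : D → (cmpHB φ N X).V) (n : N.V) (g : G) (m : ℤ) :
    cmpTheta N X c (bvec N n g m) =
      m • (- ihomLin (c (cosetCoord φ g)) (cmpKap φ N (bvec N n g 1))) :=
  stdPLift_bvec N _ n g m

/-- The key identity. -/
theorem cmp_key (hφ : Function.Injective φ) (c : D → (cmpHB φ N X).V)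
    (hc : ∀ d₁ d₂ : D, c (d₁ * d₂) = (cmpHB φ N X).ρ d₁ (c d₂) + c d₁) (d : D)
    (x : (stdP N).V) :
    ihomLin (c d) (cmpKap φ N x) =
      X.ρ d (cmpTheta N X c ((stdP N).ρ (φ d⁻¹) x)) - cmpTheta N X c x := by
  induction x using stdP_induction with
  | zero => simp only [map_zero, sub_zero]
  | add x y hx hy =>
    simp only [map_add, hx, hy]
    abel
  | single n g m =>
    have hk : cmpKap φ N (bvec N n (φ d⁻¹ * g) 1) =
        (stdR N).ρ (φ d⁻¹) (cmpKap φ N (bvec N n g 1)) := by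
      rw [← cmpKap_equivariant N hφ, stdP_ρ_bvec]
    have hcoc : c (cosetCoord φ g) =
        (cmpHB φ N X).ρ d (c (d⁻¹ * cosetCoord φ g)) + c d := by
      rw [← hc, mul_inv_cancel_left]
    have h1 : ihomLin (c (cosetCoord φ g)) (cmpKap φ N (bvec N n g 1)) =
        X.ρ d (ihomLin (c (d⁻¹ * cosetCoord φ g))
          ((stdR N).ρ (φ d⁻¹) (cmpKap φ N (bvec N n g 1)))) +
        ihomLin (c d) (cmpKap φ N (bvec N n g 1)) := by
      conv_lhs => rw [hcoc]
      rfl
    rw [stdP_ρ_bvec, cmpTheta_bvec, cmpTheta_bvec, cosetCoord_mul hφ, hk, ← zsmul_bvec,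
      map_zsmul, map_zsmul, map_zsmul, ← smul_sub, map_neg, h1]
    congr 1
    abel

/-- **Vanishing case**: a cocycle `D → Hom_ℤ(R|_D, X)` whose values vanish on `R_D` is a
coboundary. -/
theorem cmp_coboundary_of_vanish (hφ : Function.Injective φ) (c : D → (cmpHB φ N X).V)
    (hc : ∀ d₁ d₂ : D, c (d₁ * d₂) = (cmpHB φ N X).ρ d₁ (c d₂) + c d₁)
    (hv : ∀ (d : D) (a : (stdR (Rep.res φ N)).V),
      ihomLin (c d) ((trR φ (𝟙 (Rep.res φ N))).hom a) = 0) :
    ∃ θ : (cmpHB φ N X).V, ∀ d : D, (cmpHB φ N X).ρ d θ - θ = c d := by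
  let θ : (cmpHB φ N X).V :=
    ihomOfAdd (A := Rep.res φ (stdR N)) ((cmpTheta N X c).comp (addHom (stdι N)))
  have hθ : ∀ b : (stdR N).V, ihomLin θ b = cmpTheta N X c ((stdι N).hom b) := fun b => rfl
  refine ⟨θ, fun d => ?_⟩
  show ihomLin ((cmpHB φ N X).ρ d θ - θ) = ihomLin (c d)
  refine DFunLike.ext _ _ fun b => ?_
  have h1 : ihomLin ((cmpHB φ N X).ρ d θ - θ) b =
      X.ρ d (ihomLin θ ((stdR N).ρ (φ d⁻¹) b)) - ihomLin θ b := rfl
  rw [h1, hθ, hθ, Rep.hom_comm_apply, ← cmp_key N X hφ c hc d, cmpKap_stdι, map_sub, hv,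
    sub_zero]

end Cocycle

/-! ## The comparison theorem -/

section Main

variable {G D : Type} [Group G] [Group D] {φ : D →* G} (N : Rep.{0} ℤ G) (X : Rep.{0} ℤ D)

/-- **CMP, injectivity.** -/
theorem cmp_injective (hφ : Function.Injective φ) :
    Function.Injective (T.coeffMap (cmpPre φ N X) 1).hom := by
  rw [injective_iff_map_eq_zero]
  intro y hy
  induction y using groupCohomology.H1_induction_on with
  | h c =>
    erw [groupCohomology.H1π_comp_map_apply] at hy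
    rw [groupCohomology.H1π_eq_zero_iff] at hy ⊢
    obtain ⟨ψ, hψ⟩ := hy
    have hψ' : ∀ d : D, (cmpHA φ N X).ρ d ψ - ψ = (cmpPre φ N X).hom (c d) :=
      fun d => congrFun hψ d
    have hcoc : ∀ d₁ d₂ : D, c (d₁ * d₂) = (cmpHB φ N X).ρ d₁ (c d₂) + c d₁ :=
      (groupCohomology.mem_cocycles₁_iff c.1).1 c.2
    let Ψ : (cmpHB φ N X).V :=
      ihomOfAdd (A := Rep.res φ (stdR N)) ((ihomAdd ψ).comp (cmpRetr φ N))
    have hΨ : ∀ b : (stdR N).V, ihomLin Ψ b = ihomLin ψ (cmpRetr φ N b) := fun b => rfl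
    let c' : D → (cmpHB φ N X).V := fun d => c d - ((cmpHB φ N X).ρ d Ψ - Ψ)
    have hc' : ∀ d₁ d₂ : D, c' (d₁ * d₂) = (cmpHB φ N X).ρ d₁ (c' d₂) + c' d₁ := by
      intro d₁ d₂
      have hmul : (cmpHB φ N X).ρ (d₁ * d₂) Ψ = (cmpHB φ N X).ρ d₁ ((cmpHB φ N X).ρ d₂ Ψ) := by
        rw [map_mul]
        rfl
      show c (d₁ * d₂) - ((cmpHB φ N X).ρ (d₁ * d₂) Ψ - Ψ) =
        (cmpHB φ N X).ρ d₁ (c d₂ - ((cmpHB φ N X).ρ d₂ Ψ - Ψ)) +
          (c d₁ - ((cmpHB φ N X).ρ d₁ Ψ - Ψ))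
      rw [hcoc, hmul, map_sub, map_sub]
      abel
    have hv : ∀ (d : D) (a : (stdR (Rep.res φ N)).V),
        ihomLin (c' d) ((trR φ (𝟙 (Rep.res φ N))).hom a) = 0 := by
      intro d a
      have h1 : ihomLin (c' d) ((trR φ (𝟙 (Rep.res φ N))).hom a) =
          ihomLin (c d) ((trR φ (𝟙 (Rep.res φ N))).hom a) -
            (X.ρ d (ihomLin Ψ ((stdR N).ρ (φ d⁻¹) ((trR φ (𝟙 (Rep.res φ N))).hom a))) -
              ihomLin Ψ ((trR φ (𝟙 (Rep.res φ N))).hom a)) := rfl
      have h2 : ihomLin (c d) ((trR φ (𝟙 (Rep.res φ N))).hom a) =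
          X.ρ d (ihomLin ψ ((stdR (Rep.res φ N)).ρ d⁻¹ a)) - ihomLin ψ a := by
        have := congrArg (fun f : (cmpHA φ N X).V => ihomLin f a) (hψ' d)
        exact this.symm
      rw [h1, h2, hΨ, hΨ, ← trR_equivariant, cmpRetr_trR N hφ, cmpRetr_trR N hφ, sub_self]
    obtain ⟨θ, hθ⟩ := cmp_coboundary_of_vanish N X hφ c' hc' hv
    refine ⟨Ψ + θ, ?_⟩
    funext d
    show (cmpHB φ N X).ρ d (Ψ + θ) - (Ψ + θ) = c d
    have h3 : c d = c' d + ((cmpHB φ N X).ρ d Ψ - Ψ) := by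
      show c d = c d - ((cmpHB φ N X).ρ d Ψ - Ψ) + ((cmpHB φ N X).ρ d Ψ - Ψ)
      abel
    rw [h3, ← hθ d, map_add]
    abel

/-- **CMP, surjectivity.** -/
theorem cmp_surjective (hφ : Function.Injective φ) :
    Function.Surjective (T.coeffMap (cmpPre φ N X) 1).hom := by
  intro y
  induction y using groupCohomology.H1_induction_on with
  | h cA =>
    have hcoc : ∀ d₁ d₂ : D, cA (d₁ * d₂) = (cmpHA φ N X).ρ d₁ (cA d₂) + cA d₁ :=
      (groupCohomology.mem_cocycles₁_iff cA.1).1 cA.2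
    let cB : D → (cmpHB φ N X).V := fun d =>
      ihomOfAdd (A := Rep.res φ (stdR N)) ((ihomAdd (cA d)).comp (cmpRetr φ N))
    have hcB0 : ∀ (d : D) (b : (stdR N).V), ihomLin (cB d) b = ihomLin (cA d) (cmpRetr φ N b) :=
      fun d b => rfl
    have hcB : cB ∈ groupCohomology.cocycles₁ (cmpHB φ N X) := by
      rw [groupCohomology.mem_cocycles₁_iff]
      intro d₁ d₂
      show ihomLin (cB (d₁ * d₂)) = ihomLin ((cmpHB φ N X).ρ d₁ (cB d₂) + cB d₁)
      refine DFunLike.ext _ _ fun b => ?_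
      have h1 : ihomLin ((cmpHB φ N X).ρ d₁ (cB d₂) + cB d₁) b =
          X.ρ d₁ (ihomLin (cB d₂) ((stdR N).ρ (φ d₁⁻¹) b)) + ihomLin (cB d₁) b := rfl
      have h2 : ihomLin (cA (d₁ * d₂)) (cmpRetr φ N b) =
          X.ρ d₁ (ihomLin (cA d₂) ((stdR (Rep.res φ N)).ρ d₁⁻¹ (cmpRetr φ N b))) +
            ihomLin (cA d₁) (cmpRetr φ N b) := by
        rw [hcoc]
        rfl
      rw [h1, hcB0, hcB0, hcB0, h2, cmpRetr_equivariant N hφ]
    refine ⟨groupCohomology.H1π _ ⟨cB, hcB⟩, ?_⟩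
    erw [groupCohomology.H1π_comp_map_apply]
    congr 1
    apply Subtype.ext
    funext d
    show ihomLin ((cmpPre φ N X).hom (cB d)) = ihomLin (cA d)
    refine DFunLike.ext _ _ fun a => ?_
    rw [cmpPre_apply, hcB0, cmpRetr_trR N hφ]

/-- **CMP (comparison of presentations).**  For `φ : D →* G` injective the pull-back along
`trR φ 𝟙 : R_D → R|_D` induces a bijection
`H¹(D, Hom_ℤ(R|_D, X)) → H¹(D, Hom_ℤ(R_D, X)) = 𝔈²_D(N|_D, X)`. -/
theorem cmp_bijective (hφ : Function.Injective φ) :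
    Function.Bijective (T.coeffMap (cmpPre φ N X) 1).hom :=
  ⟨cmp_injective N X hφ, cmp_surjective N X hφ⟩

end Main

/-! ## Consequences for `trE2` along an injective `φ` -/

section Consequences

variable {G D : Type} [Group G] [Group D] {φ : D →* G} (N : Rep.{0} ℤ G)
variable {Y : Rep.{0} ℤ G} {X : Rep.{0} ℤ D}

/-- `trE2 φ 𝟙 ι` is the composite of `map φ (trIhom φ 𝟙 ι)` (restricted presentation) with the
comparison map. -/
theorem trE2_eq_cmp (ι : Rep.res φ Y ⟶ X) (y : E2 N Y) :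
    trE2 φ (𝟙 (Rep.res φ N)) ι y =
      (T.coeffMap (cmpPre φ N X) 1).hom
        ((groupCohomology.map φ (trIhom φ (𝟙 (Rep.res φ (stdR N))) ι) 1).hom y) := by
  induction y using groupCohomology.H1_induction_on with
  | h c =>
    unfold trE2
    erw [groupCohomology.H1π_comp_map_apply, groupCohomology.H1π_comp_map_apply,
      groupCohomology.H1π_comp_map_apply]
    rfl

/-- For `φ` injective: `trE2 φ 𝟙 ι y = 0` iff the image of `y` in `H¹(D, Hom_ℤ(R|_D, X))`
(restricted presentation) vanishes. -/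
theorem trE2_eq_zero_iff (hφ : Function.Injective φ) (ι : Rep.res φ Y ⟶ X) (y : E2 N Y) :
    trE2 φ (𝟙 (Rep.res φ N)) ι y = 0 ↔
      (groupCohomology.map φ (trIhom φ (𝟙 (Rep.res φ (stdR N))) ι) 1).hom y = 0 := by
  rw [trE2_eq_cmp]
  constructor
  · intro h
    exact cmp_injective N X hφ (h.trans (map_zero _).symm)
  · intro h
    rw [h, map_zero]

/-- **E2-Shapiro in terms of `trE2`.**  For `φ : D →* G` injective and `u : Y ⟶ Coind_φ X`:
`y ∈ 𝔈²_G(N, Y)` dies in `𝔈²_G(N, Coind_φ X)` iff `tr y = 0` in `𝔈²_D(N|_D, X)`, where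
`tr = trE2 φ 𝟙 (flat φ u)` is the transition map along `φ` for the standard presentations. -/
theorem E2_dies_iff_trE2 (hφ : Function.Injective φ) (u : Y ⟶ Rep.coind φ X) (y : E2 N Y) :
    (T.coeffMap ((Rep.ihom (stdR N)).map u) 1).hom y = 0 ↔
      trE2 φ (𝟙 (Rep.res φ N)) (flat φ u) y = 0 := by
  rw [H354.E2_coeffMap_eq_zero_iff hφ N u y, trE2_eq_zero_iff N hφ]

end Consequences

end Fermat.Agent.S55.E1.H423

end
-- ===== PACK-END S55/E1/H423/Cmp.lean

-- ===== PACK-BEGIN S59/TW/H314/CmpGlue.lean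
section





/-!
# Row S59, cell TW, layer 4: leaf CMP-GLUE and the glue of the leaf CMP  (helper314)

* `cmpGlue : CmpGlueStatement` — `FreeAt V` + `TptAt` + `RptAt` ⇒ `CmpAt` (route TW-ALG:
  `H314.twCmp_of_pt`, Mathlib only, applied to `Aut.ModOf V a` with the diamond action `Aut.diaT`;
  the order of the inertia value is INO, `TW.H123.inertiaOrder`).
* `tptAt_of`, `rptAt_of` — (T), (R) from the dictionary and the Galois leaves.
* `cmp_of_leaves : FreeQStatement → DictTStatement → DictRStatement → GalTStatement →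
  GalRStatement → Aut.CmpStatement`.
-/

set_option autoImplicit false
set_option linter.style.haveILetI false

open Polynomial IsLocalRing CongruenceSubgroup
open scoped MatrixGroups

namespace Fermat.Agent.S59.TW.H314

open Fermat.Agent.S59.Arch Fermat.Agent.S59.TW.H959 Fermat.Agent.S59.TW.H653
  Fermat.Agent.S59.TW.Aut

/-- **CMP-GLUE.** -/
theorem cmpGlue : CmpGlueStatement := by
  classical
  intro p hpF 𝒪 _ _ _ _ _ _ ρbar Smin h t _ n r qv hq _ PQ α V hh a hV ha hfree hT hR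
  have hprime : ∀ j, (qv j).Prime := fun j => (hq.2.1 j).1
  have hinj : Function.Injective qv := hq.1
  have hM : NeZero (bLevel (wilesLevel p t Smin Smin) qv) :=
    ⟨Nat.mul_ne_zero (NeZero.ne _) (Finset.prod_ne_zero_iff.mpr fun j _ => (hprime j).ne_zero)⟩
  have hred := red_surjective (wilesLevel p t Smin Smin) qv (NeZero.ne _) hinj hprime
  have hcomm : ∀ (hV : IsQPart PQ α V) (u : ∀ j : Fin r, (ZMod (qv j))ˣ)
      (s : PQ.T) (v : V), diaV hV u (a s v) = a s (diaV hV u v) :=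
    fun hV' u s v => diaV_comm PQ α V hh a h.hSmin h.hpSmin hprime hV' ha u s v
  let D : (∀ j : Fin r, (ZMod (qv j))ˣ) →* Module.End PQ.T (ModOf V a) :=
    { toFun := fun u => diaT PQ α V a hcomm hV u
      map_one' := by
        refine LinearMap.ext fun y => ?_
        apply ModOf.val_injective
        apply Subtype.ext
        rw [val_diaT]
        exact diaQ_one p t Smin qv 𝒪 _
      map_mul' := by
        intro u u'
        refine LinearMap.ext fun y => ?_
        apply ModOf.val_injective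
        apply Subtype.ext
        rw [val_diaT, Module.End.mul_apply, val_diaT, val_diaT]
        exact diaQ_mul p t Smin qv 𝒪 hred u u' _ }
  have hD : ∀ u y, ((ModOf.val V a (D u y) : V) : XQ p t Smin qv 𝒪) =
      diaQ p t Smin qv 𝒪 u (ModOf.val V a y : V) := fun u y => rfl
  have hDpow : ∀ (u : ∀ j : Fin r, (ZMod (qv j))ˣ) (k : ℕ) (y : ModOf V a),
      ((ModOf.val V a ((D u ^ k) y) : V) : XQ p t Smin qv 𝒪) =
        (diaQ p t Smin qv 𝒪 u)^[k] (ModOf.val V a y : V) := by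
    intro u k
    induction k with
    | zero => intro y; rfl
    | succ k ih =>
      intro y
      rw [pow_succ, Module.End.mul_apply, ih, hD, Function.iterate_succ_apply]
  intro j P hP φ hφ σ hσ u hu hcyc a₀ w hw
  -- the order of `w`
  obtain ⟨-, hqv, -⟩ := hq
  obtain ⟨hqprime, hqS, hqdvd⟩ := hqv j
  have hdet : PQ.H.ρ.DetIsCyclotomic p := by
    have h1 := PQ.hcond.1
    cases t <;> exact h1.1
  have hqp : qv j ≠ p := fun e => hqS (e ▸ h.hpSmin)
  have hpq : p ∣ qv j - 1 := dvd_trans (dvd_pow_self p (Nat.succ_ne_zero n)) hqdvd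
  have hunr : PQ.H.ρ.residual.IsUnramifiedAt (qv j) := by
    have h1 : ρbar.IsUnramifiedAt (qv j) := by
      by_contra hcon
      exact hqS ((h.hmin (qv j) hqprime hqp).mpr hcon)
    obtain ⟨e⟩ := PQ.hres
    intro B hB τ hτ
    have h2 : (ρbar.baseChangeAlong (ResidueField.map (algebraMap 𝒪 PQ.T))).ρ τ = 1 := by
      letI : Algebra (ResidueField 𝒪) (ResidueField PQ.T) :=
        (ResidueField.map (algebraMap 𝒪 PQ.T)).toAlgebra
      show (ρbar.ρ τ).baseChange (ResidueField PQ.T) = 1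
      rw [h1 B hB τ hτ]
      exact LinearMap.baseChange_one _ _
    refine LinearMap.ext fun x => ?_
    apply e.toLinearEquiv.injective
    rw [e.map_apply, h2]
    rfl
  haveI : Finite (ResidueField PQ.T) := IsLocalRing.ResidueField.finite_of_finite (R := 𝒪) ‹_›
  obtain ⟨w', -, hwp, -⟩ :=
    Fermat.Agent.S59.TW.H123.inertiaOrder p PQ.T hdet.1 PQ.H.ρ hdet (qv j) hqprime hqp hpq hunr
      P hP φ hφ σ hσ a₀ w hw
  -- primitive roots at the other primes
  have hprim : ∀ i, ∃ g : (ZMod (qv i))ˣ, orderOf g = qv i - 1 := by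
    intro i
    have : Fact (qv i).Prime := ⟨hprime i⟩
    have := ZMod.isCyclic_units_prime (hprime i)
    obtain ⟨g, hg⟩ := IsCyclic.exists_ofOrder_eq_natCard (α := (ZMod (qv i))ˣ)
    refine ⟨g, ?_⟩
    rw [hg, Nat.card_eq_fintype_card, ZMod.card_units]
  choose g₀ hg₀ using hprim
  obtain ⟨g, hgj, hg⟩ : ∃ g : ∀ i : Fin r, (ZMod (qv i))ˣ, g j = u ∧
      ∀ i, orderOf (g i) = qv i - 1 := by
    refine ⟨Function.update g₀ j u, Function.update_self .., ?_⟩
    intro i
    by_cases h : i = j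
    · subst h
      rw [Function.update_self]
      exact hu
    · rw [Function.update_of_ne h]
      exact hg₀ i
  -- the basis
  obtain ⟨d, b, hb⟩ := hfree g hg
  have hb' : ∀ y : ModOf V a,
      ∃! c : Fin d → (∀ j : Fin r, Fin (p ^ padicValNat p (qv j - 1))) → 𝒪,
        y = ∑ i, ∑ e, algebraMap 𝒪 PQ.T (c i e) •
          D (fun j => g j ^ (e j : ℕ)) (ModOf.mk V a (b i)) := by
    intro y
    have key : ∀ c : Fin d → (∀ j : Fin r, Fin (p ^ padicValNat p (qv j - 1))) → 𝒪,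
        (y = ∑ i, ∑ e, algebraMap 𝒪 PQ.T (c i e) •
            D (fun j => g j ^ (e j : ℕ)) (ModOf.mk V a (b i))) ↔
        ((ModOf.val V a y : V) : XQ p t Smin qv 𝒪) =
          ∑ i, ∑ e, c i e • diaQ p t Smin qv 𝒪 (fun j => g j ^ (e j : ℕ)) (b i) := by
      intro c
      have hsum : ((ModOf.val V a (∑ i, ∑ e, algebraMap 𝒪 PQ.T (c i e) •
            D (fun j => g j ^ (e j : ℕ)) (ModOf.mk V a (b i))) : V) : XQ p t Smin qv 𝒪) =
          ∑ i, ∑ e, c i e • diaQ p t Smin qv 𝒪 (fun j => g j ^ (e j : ℕ)) (b i) := by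
        rw [ModOf.val_sum, Submodule.coe_sum]
        refine Finset.sum_congr rfl fun i _ => ?_
        rw [ModOf.val_sum, Submodule.coe_sum]
        refine Finset.sum_congr rfl fun e _ => ?_
        rw [ModOf.val_algebraMap_smul, Submodule.coe_smul, hD]
        rfl
      constructor
      · intro hy
        rw [← hsum, ← hy]
      · intro hy
        apply ModOf.val_injective
        apply Subtype.ext
        rw [hsum]
        exact hy
    obtain ⟨c, hc, huniq⟩ := hb (ModOf.val V a y)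
    exact ⟨c, (key c).mpr hc, fun c' hc' => huniq c' ((key c').mp hc')⟩
  have hX : ∀ i, D (Pi.mulSingle i (g i)) ^ (p ^ padicValNat p (qv i - 1)) = 1 := by
    intro i
    rw [← map_pow]
    refine LinearMap.ext fun y => ?_
    apply ModOf.val_injective
    apply Subtype.ext
    rw [hD]
    have h1 : (Pi.mulSingle i (g i) ^ p ^ padicValNat p (qv i - 1) :
        ∀ j : Fin r, (ZMod (qv j))ˣ) =
        fun j => (Pi.mulSingle i (g i) : ∀ j : Fin r, (ZMod (qv j))ˣ) j ^
          p ^ padicValNat p (qv j - 1) := by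
      funext i'
      by_cases h : i' = i
      · subst h
        simp
      · simp [Pi.mulSingle_eq_of_ne h]
    rw [h1]
    exact diaQ_pow p t Smin qv 𝒪 hred _ _
  have hpJ : (p : 𝒪) ∈ Ideal.jacobson (⊥ : Ideal 𝒪) := maximalIdeal_le_jacobson ⊥ h.hp𝒪
  have hpnzd : ∀ c : 𝒪, (p : 𝒪) * c = 0 → c = 0 := by
    intro c hc
    rcases mul_eq_zero.mp hc with h' | h'
    · exact absurd h' (by exact_mod_cast hpF.out.ne_zero)
    · exact h'
  haveI : IsNoetherianRing PQ.T := PQ.isNoetherianRing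
  -- eigenvectors
  have heig : ∀ y : ModOf V a, y ≠ 0 →
      (∀ s s' : PQ.T, (s * s') • y = 0 → s • y = 0 ∨ s' • y = 0) →
      IsEigVec PQ V a (ModOf.val V a y) := by
    intro y hy hpr
    exact ⟨hy, fun s s' hss' => hpr s s' hss'⟩
  have key := Fermat.Agent.S59.H314.twCmp_of_pt p hpF.out h.hp2 𝒪 hpJ hpnzd PQ.T (ModOf V a) r
    (fun i => (ZMod (qv i))ˣ) (fun i => padicValNat p (qv i - 1)) D g hX d
    (fun i => ModOf.mk V a (b i)) hb' j w _ hwp
    (by
      intro y hy hpr hfix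
      rw [hgj] at hfix
      have h1 := hT j P hP φ hφ σ hσ u hu hcyc a₀ w hw (ModOf.val V a y) (heig y hy hpr)
        (by
          have := congrArg (fun z : ModOf V a => ((ModOf.val V a z : V) : XQ p t Smin qv 𝒪)) hfix
          simpa [hD] using this)
      exact h1)
    (by
      intro y hy hpr hΦ
      rw [hgj] at hΦ
      have h1 := hR j P hP φ hφ σ hσ u hu hcyc a₀ w hw (ModOf.val V a y) (heig y hy hpr)
        (by
          have h2 : ((ModOf.val V a ((∑ k ∈ Finset.range p, D (Pi.mulSingle j u) ^ k) y) : V) :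
              XQ p t Smin qv 𝒪) = 0 := by
            rw [hΦ]
            rfl
          rw [LinearMap.sum_apply, ModOf.val_sum, Submodule.coe_sum] at h2
          rw [← h2]
          refine Finset.sum_congr rfl fun k _ => ?_
          rw [hDpow])
      exact h1)
  rw [hgj] at key
  intro y
  have key' := key (ModOf.mk V a y)
  constructor
  · rintro ⟨y', hy'⟩
    obtain ⟨z, hz⟩ := key'.mp ⟨ModOf.mk V a y', hy'⟩
    refine ⟨ModOf.val V a z, ?_⟩
    have := congrArg (fun x : ModOf V a => ((ModOf.val V a x : V) : XQ p t Smin qv 𝒪)) hz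
    exact this
  · rintro ⟨y', hy'⟩
    obtain ⟨z, hz⟩ := key'.mpr ⟨ModOf.mk V a y', Subtype.ext hy'⟩
    exact ⟨ModOf.val V a z, hz⟩

/-- **The leaf CMP from its layer-4 leaves.** -/
theorem cmp_of_leaves (hFree : FreeQStatement) (hDT : DictTStatement) (hDR : DictRStatement)
    (hGT : GalTStatement) (hGR : GalRStatement) : CmpStatement := by
  intro p hpF 𝒪 _ _ _ _ _ _ ρbar Smin h t ht _ P₀ n r qv hq _ PQ res hres α hα V hh a hV hhalf ha
  have hfree : FreeAt V := hFree p 𝒪 ρbar Smin h t ht P₀ n r qv hq PQ res hres α hα V hV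
  have hsub : ∀ (w : PQ.T) (y : V), a (w - 1) y = a w y - y := by
    intro w y
    have h1 : a w = a (w - 1) + 1 := by
      rw [← map_one a, ← map_add, sub_add_cancel]
    rw [h1, LinearMap.add_apply, Module.End.one_apply]
    exact (add_sub_cancel_right (a (w - 1) y) y).symm
  have hT : TptAt PQ V a := by
    intro j P hP φ hφ σ hσ u hu _hcyc a₀ w hw y hy hfix
    obtain ⟨O', _, _, _, _, _, _, emb, hloc, hker, hnew⟩ :=
      hDT p 𝒪 ρbar Smin h t ht n r qv hq PQ α hα V hh a hV hhalf ha j u hu y hy hfix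
    have h1 : emb w = 1 :=
      hGT p 𝒪 ρbar Smin h t n r qv hq PQ j P hP φ hφ σ hσ a₀ w hw O' emb hloc hnew
    have h2 : a (w - 1) y = 0 := by
      rw [hker, map_sub, h1, map_one, sub_self]
    have h3 := hsub w y
    rw [h2] at h3
    exact sub_eq_zero.mp h3.symm
  have hR : RptAt PQ V a := by
    intro j P hP φ hφ σ hσ u hu hcyc a₀ w hw y hy hΦ hwy
    obtain ⟨O', _, _, _, _, _, _, emb, hloc, hker, hnew⟩ :=
      hDR p 𝒪 ρbar Smin h t ht n r qv hq PQ α hα V hh a hV hhalf ha j u hu y hy hΦ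
    have h1 : emb w ≠ 1 :=
      hGR p 𝒪 ρbar Smin h t n r qv hq PQ j P hP φ hφ σ hσ u hu hcyc a₀ w hw O' emb hloc hnew
    apply h1
    have h2 : a (w - 1) y = 0 := by
      rw [hsub, hwy]
      exact sub_self y
    have h3 := (hker (w - 1)).mp h2
    rw [map_sub, map_one, sub_eq_zero] at h3
    exact h3
  exact cmpGlue p 𝒪 ρbar Smin h t n r qv hq PQ α V hh a hV ha hfree hT hR

end Fermat.Agent.S59.TW.H314

end
-- ===== PACK-END S59/TW/H314/CmpGlue.lean

-- ===== PACK-BEGIN Lib/Newform/H683/Main.lean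
section
/-
NEWFORM library (helper683) — ASSEMBLY of the targets of the frozen interface
`Fermat.Agent.Lib.Newform.H958` (Spec.lean) from the leaves on main:

* `EigenT`, `EigenU`  : `H683/SpecLeaves.lean`
* `Incl`, `Occurs`    : `H958/Leaves.lean` (helper958, helper863)
* `LowerU`            : `H563/LowerU.lean` (helper563)
* `TraceAL`           : `H923/TraceALProof.lean` (helper923, helper503)

Unconditional results:

* `newformBadPrimeCoeff N : CuspForm.NewformBadPrimeCoeff N` (Prelude target) for `N ≠ 0`;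
* `badCoeffAt`, `descent_newform`, `stabilisation`.
-/





set_option autoImplicit false

open CongruenceSubgroup ModularFormClass

namespace Fermat.Agent.Lib.Newform.H683

open Fermat.Agent.Lib.Newform

/-- **BAD-AT** (unconditional). -/
theorem badCoeffAt : H958.BadCoeffAt :=
  H958.badCoeffAt_of _root_.Fermat.Agent.Lib.Newform.H683.eigenT _root_.Fermat.Agent.Lib.Newform.H683.eigenU H958.occurs H563.lowerU H923.traceAL

/-- **BAD** (unconditional): the Prelude's `NewformBadPrimeCoeff` at every positive level. -/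
theorem badCoeff : H958.BadCoeff := H958.badCoeff_of _root_.Fermat.Agent.Lib.Newform.H683.badCoeffAt

/-- The Prelude target: for a newform `f` of level `N` and a prime `q ∣ N`,
`a_q² = 1` if `q ∥ N` and `a_q = 0` if `q² ∣ N`. -/
theorem newformBadPrimeCoeff (N : ℕ) [NeZero N] : CuspForm.NewformBadPrimeCoeff N :=
  _root_.Fermat.Agent.Lib.Newform.H683.badCoeff N

/-- **STAB** (unconditional). -/
theorem stabilisation : H958.Stab := H958.stab_of _root_.Fermat.Agent.Lib.Newform.H683.eigenT H958.incl H958.occurs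

/-- **DESCENT** (unconditional). -/
theorem descent_newform : H958.Descent := H958.descent

/-- Explicit form: the coefficient at `q ∥ N` of a newform. -/
theorem qCoeff_sq_eq_one {N : ℕ} [NeZero N] {f : CuspForm (Gamma0 N) 2} (hf : f.IsNewform)
    {q : ℕ} (hq : q.Prime) (hqN : q ∣ N) (hq2 : ¬ q ^ 2 ∣ N) : qCoeff ⇑f q ^ 2 = 1 :=
  (_root_.Fermat.Agent.Lib.Newform.H683.newformBadPrimeCoeff N f hf q hq hqN).1 hq2

/-- Explicit form: the coefficient at `q² ∣ N` of a newform. -/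
theorem qCoeff_eq_zero {N : ℕ} [NeZero N] {f : CuspForm (Gamma0 N) 2} (hf : f.IsNewform)
    {q : ℕ} (hq : q.Prime) (hq2 : q ^ 2 ∣ N) : qCoeff ⇑f q = 0 :=
  (_root_.Fermat.Agent.Lib.Newform.H683.newformBadPrimeCoeff N f hf q hq (dvd_trans (dvd_pow_self q two_ne_zero) hq2)).2 hq2

end Fermat.Agent.Lib.Newform.H683

end
-- ===== PACK-END Lib/Newform/H683/Main.lean

-- ===== PACK-BEGIN S59/H826/SqFree35.lean
section
/-
Row S59, cell LO, sub-cell (C) LO-SQ — the RETURN is free (helper826).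

`Arch.LOW.levelOpt_of_w35` and `H934.levelOpt_of` use LO-SQ only through
`H934.exists_squarefree_level`: "there is SOME squarefree level at which `W` is residually
modular".  This file freezes that target (`SqFree35Statement`), proves it from

* `LoSqNeatStatement` : LO-SQ for an ODD prime `q`, at NEAT levels only (`4 ∥ M`, an auxiliary
  prime `r ≡ 47 mod 60` with `r ∥ M`, `W` good at `r`), with the WEAK conclusion
  "residually modular of level `M / q`" — this is the target of the wall at `q²`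
  (CORE-SQ at neat levels, in W-form);
* `LoSq32Statement`   : LO-SQ at `(p, q) = (3, 2)` (closed: `H826.loSq32`);
* `LoSq52Statement`   : LO-SQ at `(p, q) = (5, 2)` (the easy half: `5 ∤ 2² - 1`);

and re-proves the glue of the cell LO with it (`levelOpt_of_sqFree35`).

Route: raise the level ONCE, `M₀ ↦ C = M₀ · 2^(2 - v₂(M₀)) · r` (stabilisation,
`Lib.Newform.H683.stabilisation`; `r` by Dirichlet); remove every odd square at the neat levels
(the level stays divisible by `4 r`); remove `4 ↦ 2` at the end.  The result `2 · r · (odd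
squarefree)` is squarefree; the pads `2` and `r` (non-pivots: `r ≡ 2 mod p`) are removed later,
at squarefree level, by Mazur's principle (cell B1).  No retraction, no old-form statement, no
Hecke relation at the auxiliary primes is needed.
-/




set_option autoImplicit false

open scoped WeierstrassCurve.Affine

namespace Fermat.Agent.S59.H826

open Fermat.Agent.S59.Arch Fermat.Agent.S59.H934 Fermat.Agent.S59.Arch.LOW

/-! ## The statements -/

/-- **(C), end-to-end form**: a residually modular level which is cube-free away from `p` and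
not divisible by `p²` can be replaced by a squarefree one. -/
def SqFree35Statement : Prop :=
  ∀ (p : ℕ) [Fact p.Prime] (_hp : p = 3 ∨ p = 5)
    (W : WeierstrassCurve ℤ) (_hΔ : W.Δ ≠ 0) (_hW : W.IsSemistableModel)
    (_hirr : W.ModRepIsIrreducible p)
    (M : ℕ) (_hM : M ≠ 0) (_hpM : ¬ p ^ 2 ∣ M)
    (_hM3 : ∀ r : ℕ, r.Prime → r ≠ p → ¬ r ^ 3 ∣ M)
    (_hres : W.IsResiduallyModularOfLevel p M),
    ∃ M₁ : ℕ, Squarefree M₁ ∧ W.IsResiduallyModularOfLevel p M₁

/-- **LO-SQ at NEAT levels, `q` odd** (target of the wall at `q²`).  The level `M` satisfies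
`4 ∥ M`, `r ∥ M` for a prime `r ≡ 47 mod 60` (so `r ≡ 11 mod 12`, `r ≡ 2 mod 3`, `r ≡ 2 mod 5`)
of good reduction; in the vocabulary of the S36 engine, `M = M' q²` with
`S36.Eng.NeatFor M' q`. -/
def LoSqNeatStatement : Prop :=
  ∀ (p : ℕ) [Fact p.Prime] (_hp : p = 3 ∨ p = 5)
    (W : WeierstrassCurve ℤ) (_hΔ : W.Δ ≠ 0) (_hW : W.IsSemistableModel)
    (_hirr : W.ModRepIsIrreducible p)
    (M q r : ℕ) (_hM : M ≠ 0) (_hpM : ¬ p ^ 2 ∣ M)
    (_hM3 : ∀ s : ℕ, s.Prime → s ≠ p → ¬ s ^ 3 ∣ M)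
    (_hq : q.Prime) (_hqp : q ≠ p) (_hq2 : q ≠ 2) (_hqM : q ^ 2 ∣ M)
    (_h4 : 4 ∣ M) (_h8 : ¬ 8 ∣ M)
    (_hr : r.Prime) (_hr60 : r % 60 = 47) (_hrM : r ∣ M) (_hr2 : ¬ r ^ 2 ∣ M)
    (_hrgood : W.IsGoodPrimeFor r)
    (_hres : W.IsResiduallyModularOfLevel p M),
    W.IsResiduallyModularOfLevel p (M / q)

/-- **LO-SQ at `(5, 2)`** (easy half: `5 ∤ 2² - 1`). -/
def LoSq52Statement : Prop :=
  ∀ (W : WeierstrassCurve ℤ) (_hΔ : W.Δ ≠ 0) (_hW : W.IsSemistableModel)
    (_hirr : W.ModRepIsIrreducible 5)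
    (M : ℕ) (_hM : M ≠ 0) (_hpM : ¬ 5 ^ 2 ∣ M)
    (_hM3 : ∀ r : ℕ, r.Prime → r ≠ 5 → ¬ r ^ 3 ∣ M) (_h4 : 2 ^ 2 ∣ M)
    (_hres : W.IsResiduallyModularOfLevel 5 M),
    W.IsResiduallyModularOfLevel 5 (M / 2)

/-- `LoSq52Statement` from LO-SQ restricted to the non-congruence primes (`p ∤ q² - 1`), whatever
the order of its binders: here in the shape "`H934.LoSqStatement` + one hypothesis". -/
def LoSqEasy826Statement : Prop :=
  ∀ (p : ℕ) [Fact p.Prime] (_hp : p = 3 ∨ p = 5)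
    (W : WeierstrassCurve ℤ) (_hΔ : W.Δ ≠ 0) (_hW : W.IsSemistableModel)
    (_hirr : W.ModRepIsIrreducible p)
    (M q : ℕ) (_hM : M ≠ 0) (_hpM : ¬ p ^ 2 ∣ M)
    (_hM3 : ∀ r : ℕ, r.Prime → r ≠ p → ¬ r ^ 3 ∣ M)
    (_hq : q.Prime) (_hqp : q ≠ p) (_hq2 : q ^ 2 ∣ M) (_hpq : ¬ p ∣ q ^ 2 - 1)
    (_hres : W.IsResiduallyModularOfLevel p M),
    W.IsResiduallyModularOfLevel p (M / q)

/-! ## Raising the level -/

/-- **GO-UP.**  Residual modularity passes to every nonzero multiple of the level. -/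
theorem resMod_of_dvd826 {p : ℕ} {W : WeierstrassCurve ℤ} {M C : ℕ} (hC : C ≠ 0) (hMC : M ∣ C)
    (h : W.IsResiduallyModularOfLevel p M) : W.IsResiduallyModularOfLevel p C := by
  haveI : NeZero C := ⟨hC⟩
  obtain ⟨f, 𝔪, hf, hmax, hp𝔪, hcong⟩ := h
  obtain ⟨g, hg, hcoef⟩ := Fermat.Agent.Lib.Newform.H683.stabilisation M C hMC f hf
  refine ⟨g, 𝔪, hg, hmax, hp𝔪, fun ℓ hℓ hgood hℓC hℓp => ?_⟩
  obtain ⟨a, ha, hmem⟩ := hcong ℓ hℓ hgood (fun h => hℓC (h.trans hMC)) hℓp
  exact ⟨a, by rw [ha, hcoef ℓ hℓ hℓC], hmem⟩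

/-! ## Arithmetic of the neat level -/

/-- The auxiliary prime. -/
theorem exists_aux_prime826 (n : ℕ) : ∃ r : ℕ, n < r ∧ r.Prime ∧ r % 60 = 47 := by
  obtain ⟨r, hn, hr, hmod⟩ := Nat.forall_exists_prime_gt_and_modEq n (q := 60) (a := 47)
    (by norm_num) (by norm_num)
  refine ⟨r, hn, hr, ?_⟩
  have : r % 60 = 47 % 60 := hmod
  simpa using this

/-- The pad: `4 / 2^(v₂ M)` for `8 ∤ M`. -/
def pad826 (M : ℕ) : ℕ := if 4 ∣ M then 1 else if 2 ∣ M then 2 else 4

theorem pad826_pos (M : ℕ) : 0 < pad826 M := by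
  unfold pad826
  split_ifs <;> norm_num

theorem four_dvd_pad826_mul (M : ℕ) : 4 ∣ pad826 M * M := by
  unfold pad826
  split_ifs with h4 h2
  · simpa using h4
  · obtain ⟨k, rfl⟩ := h2
    exact ⟨k, by ring⟩
  · exact Dvd.intro _ rfl

theorem not_eight_dvd_pad826_mul {M : ℕ} (h8 : ¬ 8 ∣ M) : ¬ 8 ∣ pad826 M * M := by
  unfold pad826
  split_ifs with h4 h2
  · simpa using h8
  · intro h
    apply h4
    omega
  · intro h
    apply h2
    omega

theorem pad826_dvd_four (M : ℕ) : pad826 M ∣ 4 := by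
  unfold pad826
  split_ifs <;> norm_num

/-- An odd prime power dividing `pad · M · r`, for a prime `s ∉ {2, r}`, divides `M`. -/
theorem pow_dvd_of_pow_dvd_pad826 {M r s k : ℕ} (hs : s.Prime) (hr : r.Prime) (hs2 : s ≠ 2)
    (hsr : s ≠ r) (h : s ^ k ∣ pad826 M * M * r) : s ^ k ∣ M := by
  have hcr : Nat.Coprime (s ^ k) r :=
    Nat.Coprime.pow_left k ((Nat.coprime_primes hs hr).mpr hsr)
  have h1 : s ^ k ∣ pad826 M * M := hcr.dvd_of_dvd_mul_right h
  have hc4 : Nat.Coprime (s ^ k) (pad826 M) := by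
    apply Nat.Coprime.pow_left
    apply Nat.Coprime.coprime_dvd_right (pad826_dvd_four M)
    have : Nat.Coprime s (2 ^ 2) :=
      Nat.Coprime.pow_right 2 ((Nat.coprime_primes hs Nat.prime_two).mpr hs2)
    simpa using this
  exact hc4.dvd_of_dvd_mul_left h1

/-! ## The induction at the neat levels -/

section Induction

variable (p : ℕ) [Fact p.Prime] (W : WeierstrassCurve ℤ)

/-- At a level `M` with `4 ∥ M` all of whose odd prime squares are absent, `M / 2` is
squarefree. -/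
theorem squarefree_half826 {M : ℕ} (hM : M ≠ 0) (h8 : ¬ 8 ∣ M)
    (hodd : ∀ q : ℕ, q.Prime → q ≠ 2 → ¬ q ^ 2 ∣ M) (h2 : 2 ∣ M) : Squarefree (M / 2) := by
  rw [Nat.squarefree_iff_prime_squarefree]
  intro s hs hss
  have hdiv : M / 2 ∣ M := Nat.div_dvd_of_dvd h2
  by_cases hs2 : s = 2
  · subst hs2
    apply h8
    obtain ⟨k, hk⟩ := hss
    have : M = 2 * (M / 2) := (Nat.mul_div_cancel' h2).symm
    exact ⟨k, by rw [this, hk]; ring⟩
  · exact hodd s hs hs2 (by rw [pow_two]; exact hss.trans hdiv)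

/-- The induction: at neat levels every odd square is removed, then `4 ↦ 2`. -/
theorem exists_squarefree_of_neat826 (hNeat : LoSqNeatStatement)
    (h2 : ∀ M : ℕ, M ≠ 0 → ¬ p ^ 2 ∣ M → (∀ s : ℕ, s.Prime → s ≠ p → ¬ s ^ 3 ∣ M) →
      2 ^ 2 ∣ M → W.IsResiduallyModularOfLevel p M → W.IsResiduallyModularOfLevel p (M / 2))
    (hp : p = 3 ∨ p = 5) (hΔ : W.Δ ≠ 0)
    (hW : W.IsSemistableModel) (hirr : W.ModRepIsIrreducible p)
    (r : ℕ) (hr : r.Prime) (hr60 : r % 60 = 47) (hrgood : W.IsGoodPrimeFor r) :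
    ∀ M : ℕ, M ≠ 0 → ¬ p ^ 2 ∣ M → (∀ s : ℕ, s.Prime → s ≠ p → ¬ s ^ 3 ∣ M) →
      4 ∣ M → ¬ 8 ∣ M → r ∣ M → ¬ r ^ 2 ∣ M →
      W.IsResiduallyModularOfLevel p M →
      ∃ M₁ : ℕ, Squarefree M₁ ∧ W.IsResiduallyModularOfLevel p M₁ := by
  intro M
  induction M using Nat.strong_induction_on with
  | _ M ih =>
    intro hM hpM hM3 h4 h8 hrM hr2 hres
    by_cases hodd : ∀ q : ℕ, q.Prime → q ≠ 2 → ¬ q ^ 2 ∣ M
    · -- only the square `4` is left
      refine ⟨M / 2, squarefree_half826 hM h8 hodd (Dvd.dvd.trans (by norm_num) h4), ?_⟩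
      exact h2 M hM hpM hM3 (by simpa using h4) hres
    · -- an odd square
      rw [not_forall] at hodd
      obtain ⟨q, hq'⟩ := hodd
      rw [Classical.not_imp, Classical.not_imp, not_not] at hq'
      obtain ⟨hq, hq2, hqM2⟩ := hq'
      have hqp : q ≠ p := by
        rintro rfl
        exact hpM hqM2
      have hqr : q ≠ r := by
        rintro rfl
        exact hr2 hqM2
      have hqM : q ∣ M := dvd_trans (dvd_pow_self q two_ne_zero) hqM2
      have hres' := hNeat p hp W hΔ hW hirr M q r hM hpM hM3 hq hqp hq2 hqM2 h4 h8 hr hr60 hrM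
        hr2 hrgood hres
      have hdiv : M / q ∣ M := Nat.div_dvd_of_dvd hqM
      have hMq : M = q * (M / q) := (Nat.mul_div_cancel' hqM).symm
      have h4' : 4 ∣ M / q := by
        have hc : Nat.Coprime 4 q := by
          have : Nat.Coprime (2 ^ 2) q :=
            Nat.Coprime.pow_left 2 ((Nat.coprime_primes Nat.prime_two hq).mpr (Ne.symm hq2))
          simpa using this
        exact hc.dvd_of_dvd_mul_left (by rw [← hMq]; exact h4)
      have hr' : r ∣ M / q := by
        have hc : Nat.Coprime r q := (Nat.coprime_primes hr hq).mpr (Ne.symm hqr)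
        exact hc.dvd_of_dvd_mul_left (by rw [← hMq]; exact hrM)
      exact ih (M / q) (div_lt_of_prime_dvd hM hq) (div_ne_zero_of_dvd hM hqM)
        (fun h => hpM (h.trans hdiv)) (fun s hs hsp h => hM3 s hs hsp (h.trans hdiv)) h4'
        (fun h => h8 (h.trans hdiv)) hr' (fun h => hr2 (h.trans hdiv)) hres'

end Induction

/-! ## The glue -/

/-- **(C) from the wall at neat levels.** -/
theorem sqFree35_of_neat (hNeat : LoSqNeatStatement) (h32 : LoSq32Statement)
    (h52 : LoSq52Statement) : SqFree35Statement := by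
  intro p _ hp W hΔ hW hirr M₀ hM₀ hpM₀ hM₀3 hres₀
  have hpp : p.Prime := Fact.out
  -- the auxiliary prime
  obtain ⟨r, hrbig, hr, hr60⟩ := exists_aux_prime826 (M₀ + p + W.Δ.natAbs)
  have hrM₀ : ¬ r ∣ M₀ := fun h => by
    have := Nat.le_of_dvd (Nat.pos_of_ne_zero hM₀) h
    omega
  have hrp : r ≠ p := by omega
  have hr2 : r ≠ 2 := by
    rintro rfl
    omega
  have hrgood : W.IsGoodPrimeFor r := by
    intro h
    have h1 : r ∣ W.Δ.natAbs := by
      have := Int.natAbs_dvd_natAbs.mpr h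
      simpa using this
    have h2 : 0 < W.Δ.natAbs := Int.natAbs_pos.mpr hΔ
    have := Nat.le_of_dvd h2 h1
    omega
  have hp2 : p ≠ 2 := by
    rcases hp with h | h <;> omega
  -- the neat level
  set C : ℕ := pad826 M₀ * M₀ * r with hC
  have hC0 : C ≠ 0 := by
    have := pad826_pos M₀
    have := hr.pos
    have := Nat.pos_of_ne_zero hM₀
    positivity
  have hM₀C : M₀ ∣ C := ⟨pad826 M₀ * r, by rw [hC]; ring⟩
  have h8M₀ : ¬ 8 ∣ M₀ := by
    have := hM₀3 2 Nat.prime_two (Ne.symm hp2)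
    simpa using this
  have hc8r : Nat.Coprime 8 r := by
    have : Nat.Coprime (2 ^ 3) r :=
      Nat.Coprime.pow_left 3 ((Nat.coprime_primes Nat.prime_two hr).mpr (Ne.symm hr2))
    simpa using this
  have h4C : 4 ∣ C := (four_dvd_pad826_mul M₀).mul_right r
  have h8C : ¬ 8 ∣ C := fun h =>
    not_eight_dvd_pad826_mul h8M₀ (hc8r.dvd_of_dvd_mul_right h)
  have hrC : r ∣ C := Dvd.intro_left _ rfl
  have hr2C : ¬ r ^ 2 ∣ C := by
    intro h
    rw [hC, pow_two] at h
    have h1 : r ∣ pad826 M₀ * M₀ := Nat.dvd_of_mul_dvd_mul_right hr.pos h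
    rcases (Nat.Prime.dvd_mul hr).mp h1 with h2 | h2
    · have h3 : r ∣ 4 := h2.trans (pad826_dvd_four M₀)
      have := Nat.le_of_dvd (by norm_num) h3
      omega
    · exact hrM₀ h2
  have hpC : ¬ p ^ 2 ∣ C := fun h =>
    hpM₀ (pow_dvd_of_pow_dvd_pad826 hpp hr hp2 (Ne.symm hrp) h)
  have hC3 : ∀ s : ℕ, s.Prime → s ≠ p → ¬ s ^ 3 ∣ C := by
    intro s hs hsp h
    by_cases hs2 : s = 2
    · subst hs2
      exact h8C (by simpa using h)
    · by_cases hsr : s = r
      · subst hsr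
        exact hr2C ((pow_dvd_pow s (by norm_num : 2 ≤ 3)).trans h)
      · exact hM₀3 s hs hsp (pow_dvd_of_pow_dvd_pad826 hs hr hs2 hsr h)
  have hresC : W.IsResiduallyModularOfLevel p C := resMod_of_dvd826 hC0 hM₀C hres₀
  -- the step `4 ↦ 2`
  have h2step : ∀ M : ℕ, M ≠ 0 → ¬ p ^ 2 ∣ M → (∀ s : ℕ, s.Prime → s ≠ p → ¬ s ^ 3 ∣ M) →
      2 ^ 2 ∣ M → W.IsResiduallyModularOfLevel p M →
      W.IsResiduallyModularOfLevel p (M / 2) := by
    intro M hM hpM hM3 h4 hres
    rcases hp with rfl | rfl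
    · exact h32 W hΔ hW hirr M hM (hM3 2 Nat.prime_two (by norm_num)) h4 hres
    · exact h52 W hΔ hW hirr M hM hpM hM3 h4 hres
  exact exists_squarefree_of_neat826 p W hNeat h2step hp hΔ hW hirr r hr hr60 hrgood C hC0 hpC
    hC3 h4C h8C hrC hr2C hresC

/-- `LoSq52Statement` from the easy half. -/
theorem loSq52_of_easy (hE : LoSqEasy826Statement) : LoSq52Statement := by
  intro W hΔ hW hirr M hM hpM hM3 h4 hres
  haveI : Fact (Nat.Prime 5) := ⟨by norm_num⟩
  exact hE 5 (Or.inr rfl) W hΔ hW hirr M 2 hM hpM hM3 Nat.prime_two (by norm_num) h4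
    (by norm_num) hres

/-! ## The glue of the cell LO -/

/-- **LO-GLUE in W-form at `p ∈ {3, 5}`**, with the end-to-end form of (C): the proof of
`Arch.LOW.levelOpt_of_w35` with Step A replaced by `SqFree35Statement`. -/
theorem levelOpt_of_sqFree35 (hSF : SqFree35Statement) (hMz : MazurW35Statement)
    (hPv : PivotW35Statement) (h39 : S39W35Statement)
    (hFP : FlatPeuStatement) (hU : ResUnramStatement) (hF : ResFlatStatement) :
    LevelOptStatement := by
  intro p _ hp W hΔ hW hirr M₀ _ hres₀ hM₀ hM₀3 hcard hker Smin hSmin t ht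
  have hpp : p.Prime := Fact.out
  obtain ⟨hpS, hSprime, hSram⟩ := hSmin
  -- Step A
  obtain ⟨M₁, hsq₁, hres₁⟩ := hSF p hp W hΔ hW hirr M₀ (NeZero.ne M₀) hM₀ hM₀3 hres₀
  -- Step B
  obtain ⟨M₂, hsq₂, hres₂, hram₂⟩ := exists_ramified_level_w35 p W hcard hker hMz hPv hp hΔ hW
    hirr M₁ hsq₁ hres₁
  rcases ht with ⟨rfl, hflat⟩ | ⟨rfl, hnflat⟩
  · -- flat: remove `p` if necessary
    have key : ∃ M₃ : ℕ, Squarefree M₃ ∧ W.IsResiduallyModularOfLevel p M₃ ∧ ¬ p ∣ M₃ ∧
        ∀ q : ℕ, q.Prime → q ∣ M₃ → q ≠ p →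
          ¬ ((W.map (Int.castRingHom ℚ)).residualGaloisRepOf p hcard hker).IsUnramifiedAt q := by
      by_cases hpM : p ∣ M₂
      · have hres₃ := h39 p hp W hΔ hW hirr
          (hFP p hp W hΔ hW hirr hcard hker hflat) M₂ hsq₂ hpM hres₂
        have hdiv : M₂ / p ∣ M₂ := Nat.div_dvd_of_dvd hpM
        exact ⟨M₂ / p, hsq₂.squarefree_of_dvd hdiv, hres₃,
          not_dvd_div_of_squarefree hsq₂ hpp hpM,
          fun q hq hqM hqp => hram₂ q hq (hqM.trans hdiv) hqp⟩
      · exact ⟨M₂, hsq₂, hres₂, hpM, hram₂⟩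
    obtain ⟨M₃, hsq₃, hres₃, hpM₃, hram₃⟩ := key
    have hM₃ : M₃ = ∏ q ∈ Smin.erase p, q := by
      apply eq_prod_of_primeDivisors hsq₃
      intro q
      rw [Finset.mem_erase]
      constructor
      · rintro ⟨hqp, hqS⟩
        have hq : q.Prime := hSprime q hqS
        refine ⟨hq, ?_⟩
        by_contra hqM
        exact (hSram q hq hqp).1 hqS (hU p hp W hΔ hW hirr hcard hker M₃ hsq₃ hres₃ q hq hqp hqM)
      · rintro ⟨hq, hqM⟩
        have hqp : q ≠ p := by
          rintro rfl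
          exact hpM₃ hqM
        exact ⟨hqp, (hSram q hq hqp).2 (hram₃ q hq hqM hqp)⟩
    rw [wilesLevel_flat, ← hM₃]
    exact hres₃
  · -- strictly ordinary, not flat: `p` divides the level
    have hpM : p ∣ M₂ := by
      by_contra hpM
      exact hnflat (hF p hp W hΔ hW hirr hcard hker M₂ hsq₂ hres₂ hpM)
    have hM₂ : M₂ = ∏ q ∈ Smin, q := by
      apply eq_prod_of_primeDivisors hsq₂
      intro q
      constructor
      · intro hqS
        have hq : q.Prime := hSprime q hqS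
        refine ⟨hq, ?_⟩
        by_cases hqp : q = p
        · rw [hqp]
          exact hpM
        · by_contra hqM
          exact (hSram q hq hqp).1 hqS
            (hU p hp W hΔ hW hirr hcard hker M₂ hsq₂ hres₂ q hq hqp hqM)
      · rintro ⟨hq, hqM⟩
        by_cases hqp : q = p
        · rw [hqp]
          exact hpS
        · exact (hSram q hq hqp).2 (hram₂ q hq hqM hqp)
    have hprod : (∏ q ∈ Smin.erase p, q) * p = ∏ q ∈ Smin, q :=
      Finset.prod_erase_mul Smin (fun q => q) hpS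
    rw [wilesLevel_sord, hprod, ← hM₂]
    exact hres₂


/-- The frozen `H934.LoSqStatement` implies the end-to-end form. -/
theorem sqFree35_of_loSq (hSQ : LoSqStatement) : SqFree35Statement := by
  intro p _ hp W hΔ hW hirr M hM hpM hM3 hres
  exact exists_squarefree_level p W hSQ hp hΔ hW hirr M hM hpM hM3 hres

/-- **The cell LO from the wall at neat levels.** -/
theorem levelOpt_of_neat (hNeat : LoSqNeatStatement) (h32 : LoSq32Statement)
    (h52 : LoSq52Statement) (hMz : MazurW35Statement)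
    (hPv : PivotW35Statement) (h39 : S39W35Statement)
    (hFP : FlatPeuStatement) (hU : ResUnramStatement) (hF : ResFlatStatement) :
    LevelOptStatement :=
  levelOpt_of_sqFree35 (sqFree35_of_neat hNeat h32 h52) hMz hPv h39 hFP hU hF

end Fermat.Agent.S59.H826

end
-- ===== PACK-END S59/H826/SqFree35.lean

-- ===== PACK-BEGIN S38T/H593/StCorSpec.lean
section


/-!
# Row HARD, cell HECKE, leaf IA-ST, middle glue (B): the COR statement  (helper593)

The only input of the final assembly of IA-ST (`S38/H593/StAsm.lean`,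
`iaStPt_h593_T : IAMinZeroStatement_T → S35Statement → IAStCorStatement_T → IAStPtStatement953_T`)
which is not a closed theorem yet.  Only definitions here.

`K = KIA_T p ty Smin pv qv = Γ₀(N_min) ∩ Γ_H(Piv ∪ Q)`, `K₁ = KG p (ribetLevelT p ty Smin Piv) qv =
Γ₀(N_min · ∏ Piv) ∩ Γ_H(Q)` (same level as a number, `K ≤ K₁`).

`IAStCorStatement_T` : there is an `𝒪`-linear map `c : X_K(𝒪) → X_{K₁}(𝒪)` (the corestriction) and
an integer `n ≠ 0` (the index `[K₁ : K] = |Δ_Piv|`, or `1`) such that, for the localisation `V`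
of `X_K(𝒪)` (`IsIAPart_T`):

* NAT: `c V ⊆ V₁` for every localisation `V₁` of `X_{K₁}(𝒪)` at the same eigen-system;
* EQUIVARIANCE: `c (⟨ℓ⟩^h T_ℓ v) = ⟨ℓ⟩^h T_ℓ (c v)` for `v ∈ V` and every good prime `ℓ`;
* KERNEL: `c v = 0`, `v ∈ V` ⟹ `n • v ∈ chiRelIA_T 1 V = I_{Δ_Piv} V`
  (`res ∘ cor = ∑_{d ∈ Δ_Piv} ⟨d⟩`).
-/

set_option autoImplicit false

open Polynomial IsLocalRing CongruenceSubgroup
open scoped MatrixGroups

namespace Fermat.Agent.S38.H593

variable {ty : Fermat.Agent.S59.Arch.PType}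


open Fermat.Agent.S59.Arch Fermat.Agent.S59.TW.H959 Fermat.Agent.S59.TW Fermat.Agent.S59.H765
open Fermat.Agent.S59.TW.H653 Fermat.Agent.S59.TW.Aut
open Fermat.Agent.S38.IA Fermat.Agent.S38.IA.Hecke
open CuspForm

/-- **IA-ST-COR.**  Binders of `IAStStatement_T` (without `_hmin`, `a`); see the header. -/
def IAStCorStatement_T : Prop :=
  ∀ (p : ℕ) [Fact p.Prime] (_hp5 : 3 ≤ p)
    (𝒪 : Type) [CommRing 𝒪] [IsDomain 𝒪] [IsDiscreteValuationRing 𝒪]
    [IsAdicComplete (maximalIdeal 𝒪) 𝒪] [Finite (ResidueField 𝒪)] [CharZero 𝒪]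
    (ρbar : ResidualGaloisRep (ResidueField 𝒪)) (Smin : Finset ℕ)
    (_h : ResidualHyp p 𝒪 ρbar Smin)
    (ty : PType) (_hflat : IsPTypeAt p ρbar ty)
    (Piv : Finset ℕ) (_hPiv : IsPivotSet p ρbar Smin Piv)
    (k : ℕ) (pv : Fin k → ℕ) (_hpv : Function.Injective pv)
    (_hpvPiv : Finset.univ.image pv = Piv)
    (n r : ℕ) (qv : Fin r → ℕ) (_hq : IsTWSet p ρbar (Smin ∪ Piv) n qv)
    [NeZero (wilesLevel p ty Smin (Smin ∪ Piv ∪ Finset.univ.image qv))]
    (PQ : HeckePkg p 𝒪 ρbar ty Smin (Smin ∪ Piv ∪ Finset.univ.image qv))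
    (α : Fin r → 𝒪) (_hα : IsFrobLift ρbar qv α)
    (V : Submodule 𝒪 (XIA_T p ty Smin pv qv 𝒪)) (h : ℕ),
    IsIAPart_T PQ α V → IsHalf p pv h → IsHalf p qv h →
    ∃ (c : XIA_T p ty Smin pv qv 𝒪 →ₗ[𝒪] (Additive (KG p (ribetLevelT p ty Smin Piv) qv) →+ 𝒪))
      (m : ℕ), m ≠ 0 ∧
      (∀ V₁ : Submodule 𝒪 (Additive (KG p (ribetLevelT p ty Smin Piv) qv) →+ 𝒪),
        IsLocPart (isMid_KG p (ribetLevelT p ty Smin Piv) qv) (TsetOf PQ) (UsetOf qv α) V₁ →
        ∀ v ∈ V, c v ∈ V₁) ∧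
      (∀ (ℓ : ℕ) (hℓ : ℓ.Prime),
        ¬ ℓ ∣ wilesLevel p ty Smin (Smin ∪ Piv ∪ Finset.univ.image qv) →
        ℓ ∉ (↑(Smin ∪ Piv ∪ Finset.univ.image qv) : Set ℕ) → ∀ v ∈ V,
        c (tOpTw (isMid_KIA_T p ty Smin pv qv) 𝒪 h ℓ hℓ v) =
          tOpTw (isMid_KG p (ribetLevelT p ty Smin Piv) qv) 𝒪 h ℓ hℓ (c v)) ∧
      ∀ v ∈ V, c v = 0 → m • v ∈ chiRelIA_T p ty Smin pv qv 1 V

end Fermat.Agent.S38.H593

end
-- ===== PACK-END S38T/H593/StCorSpec.lean

-- ===== PACK-BEGIN S18/H65/ModFinite.lean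
section






/-!
# S18 / squad S18/S05, piece MOD.1 (helper65): `k(j(q^d) : d ∣ N)` is finite over `k(j)`

`modFinite` is `Fermat.Agent.S18.Sq05.ModFiniteStatement` of the squad's frozen
`Sq05/Spec.lean` (in unfolded form; `jC k N` of the Spec is `⟨jqModC k, jqModC_mem_full k N⟩`):

  for every field `k` in which the primes dividing `N` are invertible,
  `j` is transcendental over `k` and `modularFunctionFieldFullC k N` is finite over `k(j)`.

Also exported (characteristic-free, no hypothesis on `N`):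

* `transcendental_jqModC k : Transcendental k (jqModC k)`  (in `k((q))`),
* `transcendental_subtype`, `finiteDimensional_adjoin_subtype` : transfer of transcendence and
  of finiteness over `k(x)` from the ambient field to an intermediate field.

Inputs: landed S28 (`H626.relrank_adjoin_j_full_le`, `H867.hasModPolys`,
`H807.nonempty_modPolyData`).
-/

set_option autoImplicit false

open ModularCurve IntermediateField Polynomial

namespace Fermat.Agent.S18.H65

section Transcendence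

variable (k : Type*) [Field k]

theorem coeff_algebraMap_mul_laurent (c : k) (f : LaurentSeries k) (m : ℤ) :
    (algebraMap k (LaurentSeries k) c * f).coeff m = c * f.coeff m := by
  rw [algebraMap_laurentSeries_eq_single, HahnSeries.coeff_single_zero_mul]

/-- The coefficient of `q^{-deg P}` in `P(j)` is the leading coefficient of `P`. -/
theorem coeff_aeval_jqModC (P : Polynomial k) :
    (aeval (jqModC k) P).coeff (-(P.natDegree : ℤ)) = P.leadingCoeff := by
  rw [aeval_def, eval₂_eq_sum_range, HahnSeries.coeff_sum]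
  rw [Finset.sum_eq_single P.natDegree]
  · rw [coeff_algebraMap_mul_laurent, coeff_jqModC_pow_self, mul_one]
    rfl
  · intro i hi hne
    have hlt : i < P.natDegree := by
      have := Finset.mem_range.mp hi
      omega
    rw [coeff_algebraMap_mul_laurent,
      coeff_jqModC_pow_of_lt k (by omega : -(P.natDegree : ℤ) < -(i : ℤ)), mul_zero]
  · intro h
    exact absurd (Finset.mem_range.mpr (Nat.lt_succ_self _)) h

/-- `j` is transcendental over `k` in `k((q))`, for every field `k`. -/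
theorem transcendental_jqModC : Transcendental k (jqModC k) := by
  rw [Transcendental, IsAlgebraic]
  rintro ⟨P, hP0, hP⟩
  have h := coeff_aeval_jqModC k P
  rw [hP, HahnSeries.coeff_zero] at h
  exact hP0 (leadingCoeff_eq_zero.mp h.symm)

end Transcendence

section Transfer

variable {k : Type*} [Field k] {L : Type*} [Field L] [Algebra k L]

/-- Transcendence passes from the ambient field to an intermediate field. -/
theorem transcendental_subtype (F : IntermediateField k L) (x : F)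
    (hx : Transcendental k (x : L)) : Transcendental k x := by
  intro h
  exact hx ((isAlgebraic_algHom_iff F.val F.val.injective).mpr h)

/-- Finite-dimensionality of an intermediate field `F` over `k(x)`, `x ∈ F`, can be checked in the
ambient field (in `relrank` form). -/
theorem finiteDimensional_adjoin_subtype (F : IntermediateField k L) (x : F)
    (h : IntermediateField.relrank (IntermediateField.adjoin k {(x : L)}) F < Cardinal.aleph0) :
    FiniteDimensional k⟮x⟯ F := by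
  have h1 : (k⟮x⟯ : IntermediateField k F).map F.val = IntermediateField.adjoin k {(x : L)} := by
    rw [IntermediateField.adjoin_map, Set.image_singleton]
    rfl
  have h2 : (⊤ : IntermediateField k F).map F.val = F := by
    rw [← AlgHom.fieldRange_eq_map, IntermediateField.fieldRange_val]
  have h3 : IntermediateField.relrank (k⟮x⟯ : IntermediateField k F) ⊤ =
      IntermediateField.relrank (IntermediateField.adjoin k {(x : L)}) F := by
    rw [← IntermediateField.relrank_map_map _ _ F.val, h1, h2]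
  rw [IntermediateField.relrank_top_right] at h3
  rw [FiniteDimensional, ← Module.rank_lt_aleph0_iff, h3]
  exact h

end Transfer

section Modular

open Fermat.Agent.S28

/-- **MOD.1** (`Sq05.ModFiniteStatement`, unfolded). -/
theorem modFinite :
    ∀ (k : Type) [Field k] (N : ℕ) [NeZero N], (∀ p : ℕ, p.Prime → p ∣ N → (p : k) ≠ 0) →
      Transcendental k (⟨jqModC k, jqModC_mem_full k N⟩ : modularFunctionFieldFullC k N) ∧
        FiniteDimensional
          k⟮(⟨jqModC k, jqModC_mem_full k N⟩ : modularFunctionFieldFullC k N)⟯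
          (modularFunctionFieldFullC k N) := by
  intro k _ N _ hchar
  refine ⟨transcendental_subtype _ _ (transcendental_jqModC k),
    finiteDimensional_adjoin_subtype _ _ ?_⟩
  have H : H626.HasModPolys k N :=
    H867.hasModPolys k N (fun p hp _ _ => H807.nonempty_modPolyData p hp) hchar
  exact lt_of_le_of_lt (H626.relrank_adjoin_j_full_le N H) Cardinal.natCast_lt_aleph0

/-- The same for a universe-polymorphic field. -/
theorem modFinite' (k : Type*) [Field k] (N : ℕ) [NeZero N]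
    (hchar : ∀ p : ℕ, p.Prime → p ∣ N → (p : k) ≠ 0) :
    Transcendental k (⟨jqModC k, jqModC_mem_full k N⟩ : modularFunctionFieldFullC k N) ∧
      FiniteDimensional
        k⟮(⟨jqModC k, jqModC_mem_full k N⟩ : modularFunctionFieldFullC k N)⟯
        (modularFunctionFieldFullC k N) := by
  refine ⟨transcendental_subtype _ _ (transcendental_jqModC k),
    finiteDimensional_adjoin_subtype _ _ ?_⟩
  have H : H626.HasModPolys k N :=
    H867.hasModPolys k N (fun p hp _ _ => H807.nonempty_modPolyData p hp) hchar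
  exact lt_of_le_of_lt (H626.relrank_adjoin_j_full_le N H) Cardinal.natCast_lt_aleph0

end Modular

end Fermat.Agent.S18.H65

end
-- ===== PACK-END S18/H65/ModFinite.lean

-- ===== PACK-BEGIN Ribet/H997/DictVal.lean
section



/-!
# Row 38, WALL-p, S2 leaf DICT — abstract part (helper997)

`F` a field, `V₁ ≠ V₂` valuation subrings with a common uniformiser `ϖ` (`A2.H48.IsUnif`).

* `exists_unit_pair`   : there is `π` with `v₁ π = 1`, `v₂ π = v₂ ϖ`;
* `exists_val_pair`    : for `a b : ℤ` there is `H ≠ 0` with `v₁ H = v₁ ϖ ^ a`, `v₂ H = v₂ ϖ ^ b`;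
* `exists_gSplitV_pair`: if `y ∈ P₁ ^ p · (1 + 𝔪₁)` and `y ∈ P₂ ^ p · (1 + 𝔪₂)` with
  `v₁ P₁ = v₁ ϖ ^ a`, `v₂ P₂ = v₂ ϖ ^ b`, then for some `H ≠ 0` the function `y / H ^ p` has
  residues in `(κˣ)^p` at `V₁` and at `V₂` (`S35.H433.GSplitV`, constant `1`).
-/

set_option autoImplicit false

namespace Fermat.Agent.Ribet.H997

open Fermat.Agent.A2 Fermat.Agent.S35.H433

section Abstract

variable {F : Type*} [Field F] {V₁ V₂ : ValuationSubring F} {ϖ : F}

theorem val_eq_one_iff (V : ValuationSubring F) (x : F) :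
    V.valuation x = 1 ↔ x ≠ 0 ∧ x ∈ V ∧ x⁻¹ ∈ V := by
  constructor
  · intro h
    have hx0 : x ≠ 0 := by
      rintro rfl
      rw [map_zero] at h
      exact zero_ne_one h
    refine ⟨hx0, (V.valuation_le_one_iff x).1 h.le, (V.valuation_le_one_iff _).1 ?_⟩
    rw [map_inv₀, h, inv_one]
  · rintro ⟨hx0, hx, hxi⟩
    have h1 : V.valuation x ≤ 1 := (V.valuation_le_one_iff x).2 hx
    have h2 : V.valuation x⁻¹ ≤ 1 := (V.valuation_le_one_iff _).2 hxi
    rw [map_inv₀] at h2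
    have h3 : V.valuation x ≠ 0 := (Valuation.ne_zero_iff _).2 hx0
    have h4 : 1 ≤ V.valuation x := by
      rwa [inv_le_one₀ (zero_lt_iff.2 h3)] at h2
    exact le_antisymm h1 h4

theorem val_eq_one_of_sub_one_nonunit (V : ValuationSubring F) {x : F}
    (h : x - 1 ∈ V.nonunits) : V.valuation x = 1 := by
  have h1 : V.valuation (x - 1) < 1 := V.mem_nonunits_iff.1 h
  have h2 := Valuation.map_one_add_of_lt (v := V.valuation) h1
  rwa [add_sub_cancel] at h2

/-- An element which is a unit at `V₁` and a uniformiser at `V₂`. -/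
theorem exists_unit_pair (h₁ : H48.IsUnif V₁ ϖ) (h₂ : H48.IsUnif V₂ ϖ) (hne : V₁ ≠ V₂) :
    ∃ π : F, V₁.valuation π = 1 ∧ V₂.valuation π = V₂.valuation ϖ := by
  obtain ⟨g, -, hg1, hg2⟩ := H48.exists_approx h₁ h₂ hne (f := 1) (one_mem _) (k := 0)
    (by rw [pow_zero, one_mul]; exact one_mem _)
  have hv1 : V₁.valuation (g - 1) < 1 := h₁.mul_inv_mem_iff.1 hg1
  have hg1' : V₁.valuation g = 1 := by
    have := Valuation.map_one_add_of_lt (v := V₁.valuation) hv1
    rwa [add_sub_cancel] at this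
  have hv2 : V₂.valuation g < 1 := h₂.mul_inv_mem_iff.1 hg2
  have hv2' : V₂.valuation g ≤ V₂.valuation ϖ := h₂.val_le_of_lt_one hv2
  rcases eq_or_lt_of_le hv2' with h | h
  · exact ⟨g, hg1', h⟩
  · refine ⟨g + ϖ, ?_, ?_⟩
    · have h3 : V₁.valuation ϖ < V₁.valuation g := by rw [hg1']; exact h₁.val_lt_one
      rw [add_comm, Valuation.map_add_eq_of_lt_right _ h3, hg1']
    · exact Valuation.map_add_eq_of_lt_right _ h

/-- Prescribed valuations at two valuation rings with a common uniformiser. -/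
theorem exists_val_pair (h₁ : H48.IsUnif V₁ ϖ) (h₂ : H48.IsUnif V₂ ϖ) (hne : V₁ ≠ V₂)
    (a b : ℤ) :
    ∃ H : F, H ≠ 0 ∧ V₁.valuation H = V₁.valuation ϖ ^ a ∧
      V₂.valuation H = V₂.valuation ϖ ^ b := by
  obtain ⟨π, hπ1, hπ2⟩ := exists_unit_pair h₁ h₂ hne
  have hπ0 : π ≠ 0 := ((val_eq_one_iff V₁ π).1 hπ1).1
  have hϖ0 : ϖ ≠ 0 := h₁.ne_zero
  refine ⟨ϖ ^ a * π ^ (b - a), mul_ne_zero (zpow_ne_zero _ hϖ0) (zpow_ne_zero _ hπ0), ?_, ?_⟩
  · rw [map_mul, map_zpow₀, map_zpow₀, hπ1, one_zpow, mul_one]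
  · rw [map_mul, map_zpow₀, map_zpow₀, hπ2, ← zpow_add₀ h₂.val_ne_zero]
    congr 1
    ring

/-- **Normalisation.**  If `y` is a `p`-th power times a `1`-unit at `V₁` and at `V₂`, with
`p`-th roots of discrete valuations `a`, `b`, then after division by a global `p`-th power the
residues of `y` at `V₁` and at `V₂` are `p`-th powers of units. -/
theorem exists_gSplitV_pair (R : Type*) [CommRing R] [Algebra R F]
    (h₁ : H48.IsUnif V₁ ϖ) (h₂ : H48.IsUnif V₂ ϖ) (hne : V₁ ≠ V₂) (p : ℕ)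
    {y P₁ P₂ : F} (a b : ℤ)
    (hP₁ : V₁.valuation P₁ = V₁.valuation ϖ ^ a) (hP₂ : V₂.valuation P₂ = V₂.valuation ϖ ^ b)
    (hy₁ : y * (P₁ ^ p)⁻¹ - 1 ∈ V₁.nonunits) (hy₂ : y * (P₂ ^ p)⁻¹ - 1 ∈ V₂.nonunits) :
    ∃ H : F, H ≠ 0 ∧ GSplitV R V₁ p (y * (H ^ p)⁻¹) ∧ GSplitV R V₂ p (y * (H ^ p)⁻¹) := by
  obtain ⟨H, hH0, hH1, hH2⟩ := exists_val_pair h₁ h₂ hne a b
  have key : ∀ (V : ValuationSubring F) (P : F), V.valuation P = V.valuation H →
      y * (P ^ p)⁻¹ - 1 ∈ V.nonunits → GSplitV R V p (y * (H ^ p)⁻¹) := by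
    intro V P hPH hy
    have hP0 : P ≠ 0 := by
      rintro rfl
      rw [map_zero] at hPH
      exact (Valuation.ne_zero_iff _).2 hH0 hPH.symm
    have hg : V.valuation (P * H⁻¹) = 1 := by
      rw [map_mul, map_inv₀, hPH]
      exact mul_inv_cancel₀ ((Valuation.ne_zero_iff _).2 hH0)
    obtain ⟨hg0, hgV, hgVi⟩ := (val_eq_one_iff V _).1 hg
    refine ⟨P * H⁻¹, hg0, hgV, hgVi, 1, isUnit_one, ?_⟩
    have e : y * (H ^ p)⁻¹ * ((P * H⁻¹) ^ p)⁻¹ = y * (P ^ p)⁻¹ := by
      rw [mul_pow, inv_pow H]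
      field_simp
    rw [e, map_one]
    exact hy
  exact ⟨H, hH0, key V₁ P₁ (by rw [hP₁, hH1]) hy₁, key V₂ P₂ (by rw [hP₂, hH2]) hy₂⟩

/-- `exists_gSplitV_pair` with the discrete valuations given in unit form. -/
theorem exists_gSplitV_pair_of_unit (R : Type*) [CommRing R] [Algebra R F]
    (h₁ : H48.IsUnif V₁ ϖ) (h₂ : H48.IsUnif V₂ ϖ) (hne : V₁ ≠ V₂) (p : ℕ)
    {y P₁ P₂ : F} (a b : ℤ)
    (hP₁ : V₁.valuation (P₁ * (ϖ ^ a)⁻¹) = 1) (hP₂ : V₂.valuation (P₂ * (ϖ ^ b)⁻¹) = 1)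
    (hy₁ : y * (P₁ ^ p)⁻¹ - 1 ∈ V₁.nonunits) (hy₂ : y * (P₂ ^ p)⁻¹ - 1 ∈ V₂.nonunits) :
    ∃ H : F, H ≠ 0 ∧ GSplitV R V₁ p (y * (H ^ p)⁻¹) ∧ GSplitV R V₂ p (y * (H ^ p)⁻¹) := by
  have key : ∀ (V : ValuationSubring F) (P : F) (n : ℤ), H48.IsUnif V ϖ →
      V.valuation (P * (ϖ ^ n)⁻¹) = 1 → V.valuation P = V.valuation ϖ ^ n := by
    intro V P n hV h
    rw [map_mul, map_inv₀, map_zpow₀] at h
    exact (mul_inv_eq_one₀ (zpow_ne_zero _ hV.val_ne_zero)).1 h
  exact exists_gSplitV_pair R h₁ h₂ hne p a b (key V₁ P₁ a h₁ hP₁) (key V₂ P₂ b h₂ hP₂) hy₁ hy₂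

/-- Units of a pulled-back valuation ring. -/
theorem val_comap_eq_one_iff (V : ValuationSubring F) (W : F →+* F) (z : F) :
    (V.comap W).valuation z = 1 ↔ V.valuation (W z) = 1 := by
  rw [val_eq_one_iff, val_eq_one_iff, ValuationSubring.mem_comap, ValuationSubring.mem_comap,
    map_inv₀, map_ne_zero]

end Abstract

end Fermat.Agent.Ribet.H997

end
-- ===== PACK-END Ribet/H997/DictVal.lean

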