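import Mathlib
import Fermat.Prelude.Def_GroupCohomology_Selmer
import Fermat.Agent.Pack.S59C.E5L0
import Fermat.Agent.Pack.S59C.E5L3
import Fermat.Agent.Pack.S59C.E3L3
import Fermat.Agent.Pack.S43GC.G0E7L2
import Fermat.Agent.Pack.S44C.G0E21L3
import Fermat.Agent.Pack.S43MC.G0E17L1
import Fermat.Agent.Pack.S43GC.G0E2L0
import Fermat.Agent.Pack.S44C.G0E19L0
import Fermat.Agent.Pack.S44C.G0E20L1
import Fermat.Agent.Pack.S44C.G0E10L3
import Fermat.Agent.Pack.S43MC.G0E20L0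
import Fermat.Agent.Pack.S43GC.G2E0L0
import Fermat.Agent.Pack.S59C.E4L2
import Fermat.Agent.Pack.S59C.E0L0
import Fermat.Agent.Pack.S43GC.G0E14L1
import Fermat.Agent.Pack.S59C.E5L1

set_option linter.all false

-- ===== PACK-BEGIN S59/H427/Gor.lean
section


/-!
# S59 / N1 (helper427): the Gorenstein property from the numerical criterion

`socle_of_numerical_data`: in the situation of the numerical criterion (`T` finite free local over
the DVR `𝒪`, augmentation `π`, box relations `f = a · X` with `det a(0)` generating the congruence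
ideal), the socle of `T / ϖ T` is spanned by the class of `θ = det a (x)`: if `𝔭 t ⊆ ϖ T` then
`t ∈ 𝒪 θ + ϖ T`.

`exists_socle_generator`: the same from the numerical hypothesis `#Φ_T ≤ #(𝒪/η_T)`.
-/

set_option autoImplicit false
set_option linter.unusedSectionVars false
set_option linter.unusedVariables false
set_option linter.style.haveILetI false

namespace Fermat.Agent.S59.H427

open MvPolynomial

section GorCore

variable {𝒪 : Type*} [CommRing 𝒪] [IsDomain 𝒪] [IsDiscreteValuationRing 𝒪]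
variable {T : Type*} [CommRing T] [IsLocalRing T] [Algebra 𝒪 T] [Module.Free 𝒪 T]
  [Module.Finite 𝒪 T]
variable {ι : Type*} [Fintype ι] [DecidableEq ι]

/-- In a local ring with an augmentation, an element with unit augmentation is a unit. -/
theorem isUnit_of_isUnit_aug (π : T →ₐ[𝒪] 𝒪) {s : T} (hs : IsUnit (π s)) : IsUnit s := by
  by_contra hns
  have h1 : s ∈ IsLocalRing.maximalIdeal T := (IsLocalRing.mem_maximalIdeal _).mpr hns
  obtain ⟨u, hu⟩ := hs
  have h2 : algebraMap 𝒪 T (↑u⁻¹ : 𝒪) * s ∈ IsLocalRing.maximalIdeal T :=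
    Ideal.mul_mem_left _ _ h1
  have h3 : 1 - algebraMap 𝒪 T (↑u⁻¹ : 𝒪) * s ∈ RingHom.ker π := by
    rw [RingHom.mem_ker, map_sub, map_one, map_mul, AlgHom.commutes, ← hu]
    simp
  have h4 : RingHom.ker π ≤ IsLocalRing.maximalIdeal T :=
    IsLocalRing.le_maximalIdeal (RingHom.ker_ne_top _)
  have h5 : (1 : T) ∈ IsLocalRing.maximalIdeal T := by
    have := Ideal.add_mem _ (h4 h3) h2
    rwa [sub_add_cancel] at this
  exact (Ideal.ne_top_iff_one _).mp (IsLocalRing.maximalIdeal.isMaximal T).ne_top h5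

/-- **The socle of `T / ϖ T`** in the situation of the numerical criterion. -/
theorem socle_of_numerical_data (π : T →ₐ[𝒪] 𝒪) (x : ι → T) (hx : ∀ i, π (x i) = 0)
    (hspan : ∀ t, π t = 0 → t ∈ Submodule.span 𝒪 (Set.range x))
    (m : ℕ) (a : Matrix ι ι (MvPolynomial ι 𝒪))
    (hdeg : ∀ i, (∑ j, a i j * X j - X i ^ (m + 1)).totalDegree ≤ m)
    (hker : ∀ i, aeval x (∑ j, a i j * X j) = 0)
    (hdet : constantCoeff a.det ≠ 0)
    (hη : ∀ t : T, (∀ i, t * x i = 0) → ∃ c : 𝒪, π t = c * constantCoeff a.det)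
    {ϖ : 𝒪} (hϖ : Irreducible ϖ) (t : T) (ht : ∀ i, ∃ t', x i * t = ϖ • t') :
    ∃ (c : 𝒪) (t' : T), t = c • aeval x a.det + ϖ • t' := by
  classical
  set f : ι → MvPolynomial ι 𝒪 := fun i => ∑ j, a i j * X j with hf
  set h : ι → MvPolynomial ι 𝒪 := fun i => f i - X i ^ (m + 1) with hh'
  have hh : ∀ i, (h i).totalDegree ≤ m := hdeg
  have hgen : boxGen m h = f := by
    funext i
    simp only [boxGen, hh']
    ring
  have hI : boxIdeal m h = Ideal.span (Set.range f) := by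
    rw [boxIdeal, hgen]
  have hψI : ∀ g ∈ boxIdeal m h, aeval x g = 0 := by
    intro g hg
    have : boxIdeal m h ≤ RingHom.ker (aeval x : MvPolynomial ι 𝒪 →ₐ[𝒪] T) := by
      rw [hI, Ideal.span_le]
      rintro _ ⟨i, rfl⟩
      exact hker i
    exact this hg
  let ψbar : (MvPolynomial ι 𝒪 ⧸ boxIdeal m h) →ₐ[𝒪] T :=
    Ideal.Quotient.liftₐ (boxIdeal m h) (aeval x) hψI
  have hψbar : ∀ g, ψbar (Ideal.Quotient.mk _ g) = aeval x g := fun g => rfl
  -- the Cramer element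
  set Δ := a.det with hΔ
  set t₀ : T := aeval x Δ with ht₀
  have ht₀x : ∀ i, t₀ * x i = 0 := by
    intro i
    have h1 := det_mul_X_mem_span a i
    have h2 : aeval x (Δ * X i) = 0 := hψI _ (by rw [hI]; exact h1)
    rw [map_mul, aeval_X] at h2
    exact h2
  have hπt₀ : π t₀ = constantCoeff Δ := aug_aeval π x hx Δ
  -- primitivity
  have hprim : ∀ (ϖ : 𝒪) (t' : T), t₀ = ϖ • t' → IsUnit ϖ := by
    intro ϖ t' ht'
    have hϖ0 : ϖ ≠ 0 := by
      rintro rfl
      rw [zero_smul] at ht'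
      rw [ht', map_zero] at hπt₀
      exact hdet hπt₀.symm
    have h1 : ∀ i, t' * x i = 0 := by
      intro i
      have h2 : ϖ • (t' * x i) = 0 := by
        rw [← smul_mul_assoc, ← ht', ht₀x]
      exact (smul_eq_zero.mp h2).resolve_left hϖ0
    obtain ⟨c, hc⟩ := hη t' h1
    have h3 : π t₀ = ϖ * π t' := by
      rw [ht', map_smul, smul_eq_mul]
    rw [hc, hπt₀] at h3
    have h4 : (1 - ϖ * c) * constantCoeff Δ = 0 := by
      rw [sub_mul, one_mul, mul_assoc, ← h3, sub_self]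
    have h5 : 1 - ϖ * c = 0 := (mul_eq_zero.mp h4).resolve_right hdet
    exact IsUnit.of_mul_eq_one c (sub_eq_zero.mp h5).symm
  obtain ⟨μ, hμ⟩ := exists_dual_eq_one_of_primitive t₀ hprim
  -- the multiplier
  obtain ⟨yC, hyC⟩ := exists_boxLam_mul_eq hh (μ ∘ₗ ψbar.toLinearMap)
  have hyC' : ∀ c, boxLam hh (yC * c) = μ (ψbar c) := hyC
  obtain ⟨y, rfl⟩ := Ideal.Quotient.mk_surjective yC
  have hyunit : IsUnit (constantCoeff y) := by
    have h1 : boxLam hh (Ideal.Quotient.mk _ y * Ideal.Quotient.mk _ Δ) = 1 := by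
      rw [hyC', hψbar]
      exact hμ
    have h2 : Ideal.Quotient.mk (boxIdeal m h) y * Ideal.Quotient.mk _ Δ =
        constantCoeff y • Ideal.Quotient.mk (boxIdeal m h) Δ := by
      have e1 : y * Δ = C (constantCoeff y) * Δ + Δ * (y - C (constantCoeff y)) := by ring
      have e2 : Δ * (y - C (constantCoeff y)) ∈ boxIdeal m h := by
        rw [hI]
        apply det_mul_mem_span_of_constantCoeff_eq_zero
        simp
      rw [← map_mul, e1, map_add, Ideal.Quotient.eq_zero_iff_mem.mpr e2, add_zero,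
        ← smul_eq_C_mul]
      exact map_smul (Ideal.Quotient.mkₐ 𝒪 (boxIdeal m h)) (constantCoeff y) Δ
    rw [h2, map_smul, smul_eq_mul] at h1
    exact IsUnit.of_mul_eq_one _ h1
  have hyT : IsUnit (aeval x y) := by
    apply isUnit_of_isUnit_aug π
    rw [aug_aeval π x hx y]
    exact hyunit
  -- decomposition of elements of `T`
  have hdecomp : ∀ s : T, ∃ c : ι → 𝒪, s = algebraMap 𝒪 T (π s) + ∑ i, c i • x i := by
    intro s
    have h1 : π (s - algebraMap 𝒪 T (π s)) = 0 := by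
      rw [map_sub, AlgHom.commutes, sub_eq_zero]; rfl
    have h2 := hspan _ h1
    rw [Submodule.mem_span_range_iff_exists_fun] at h2
    obtain ⟨c, hc⟩ := h2
    exact ⟨c, by rw [hc]; ring⟩
  -- `ψbar` is surjective
  have hsurj : Function.Surjective ψbar := by
    intro s
    obtain ⟨c, hc⟩ := hdecomp s
    refine ⟨Ideal.Quotient.mk _ (C (π s) + ∑ i, C (c i) * X i), ?_⟩
    rw [hψbar, map_add, aeval_C, map_sum]
    conv_rhs => rw [hc]
    congr 1
    refine Finset.sum_congr rfl fun i _ => ?_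
    rw [map_mul, aeval_C, aeval_X, Algebra.smul_def]
  obtain ⟨cq, hcq⟩ := hsurj t
  choose t' ht' using ht
  -- the key congruences
  have hkey1 : ∀ s : T, ∃ r : 𝒪, μ (t * s) = π s * μ t + ϖ * r := by
    intro s
    obtain ⟨c, hc⟩ := hdecomp s
    refine ⟨μ (∑ i, c i • t' i), ?_⟩
    have h1 : t * s = π s • t + ϖ • ∑ i, c i • t' i := by
      conv_lhs => rw [hc]
      rw [mul_add, Finset.mul_sum, Finset.smul_sum, mul_comm, ← Algebra.smul_def]
      congr 1
      refine Finset.sum_congr rfl fun i _ => ?_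
      rw [mul_smul_comm, mul_comm, ht' i, smul_comm]
    rw [h1, map_add, map_smul, map_smul, smul_eq_mul, smul_eq_mul]
  have hkey2 : ∀ s : T, μ (t₀ * s) = π s := by
    intro s
    obtain ⟨c, hc⟩ := hdecomp s
    have h1 : t₀ * s = π s • t₀ := by
      conv_lhs => rw [hc]
      rw [mul_add, Finset.mul_sum, mul_comm, ← Algebra.smul_def]
      rw [Finset.sum_eq_zero, add_zero]
      intro i _
      rw [mul_smul_comm, ht₀x, smul_zero]
    rw [h1, map_smul, hμ, smul_eq_mul, mul_one]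
  set z : MvPolynomial ι 𝒪 ⧸ boxIdeal m h :=
    Ideal.Quotient.mk _ y * (cq - μ t • Ideal.Quotient.mk _ Δ) with hz
  have hzg : ∀ g, ∃ r : 𝒪, boxLam hh (z * g) = ϖ * r := by
    intro g
    obtain ⟨r, hr⟩ := hkey1 (ψbar g)
    refine ⟨r, ?_⟩
    have e : z * g = Ideal.Quotient.mk _ y * (cq * g) -
        μ t • (Ideal.Quotient.mk _ y * (Ideal.Quotient.mk _ Δ * g)) := by
      rw [hz]
      simp only [mul_sub, sub_mul, mul_smul_comm, smul_mul_assoc, mul_assoc]
    rw [e, map_sub, map_smul, hyC', hyC', map_mul ψbar cq g, map_mul ψbar _ g, hcq, hψbar, hr,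
      hkey2, smul_eq_mul]
    ring
  -- perfectness modulo `ϖ`
  have hzdiv : ∃ z', z = ϖ • z' := by
    haveI := boxQuot_finite hh
    haveI := boxQuot_free hh
    let b := Module.Free.chooseBasis 𝒪 (MvPolynomial ι 𝒪 ⧸ boxIdeal m h)
    haveI : Fintype (Module.Free.ChooseBasisIndex 𝒪 (MvPolynomial ι 𝒪 ⧸ boxIdeal m h)) :=
      Module.Free.ChooseBasisIndex.fintype 𝒪 _
    have hcoord : ∀ k, ∃ r : 𝒪, b.repr z k = ϖ * r := by
      intro k
      obtain ⟨w, hw⟩ := exists_boxLam_mul_eq hh (b.coord k)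
      obtain ⟨r, hr⟩ := hzg w
      refine ⟨r, ?_⟩
      rw [← hr, mul_comm z w, hw]
      rfl
    choose r hr using hcoord
    refine ⟨∑ k, r k • b k, ?_⟩
    conv_lhs => rw [← b.sum_repr z]
    rw [Finset.smul_sum]
    refine Finset.sum_congr rfl fun k _ => ?_
    rw [hr k, mul_smul]
  obtain ⟨z', hz'⟩ := hzdiv
  -- conclusion
  have hfin : aeval x y * (t - μ t • t₀) = ϖ • ψbar z' := by
    have h1 := congrArg ψbar hz'
    rw [hz, map_mul, map_sub, map_smul, map_smul, hψbar, hψbar, hcq] at h1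
    exact h1
  obtain ⟨u, hu⟩ := hyT
  refine ⟨μ t, (↑u⁻¹ : T) * ψbar z', ?_⟩
  have h2 : t - μ t • t₀ = ϖ • ((↑u⁻¹ : T) * ψbar z') := by
    have h3 : ϖ • ((↑u⁻¹ : T) * ψbar z') = (↑u⁻¹ : T) * (ϖ • ψbar z') := (mul_smul_comm _ _ _).symm
    rw [h3, ← hfin, ← hu, ← mul_assoc, Units.inv_mul, one_mul]
  rw [← h2]
  ring

end GorCore

section GorNum

universe u v

variable {𝒪 : Type u} [CommRing 𝒪] [IsDomain 𝒪] [IsDiscreteValuationRing 𝒪]
variable {T : Type v} [CommRing T] [IsLocalRing T] [Algebra 𝒪 T] [Module.Free 𝒪 T]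
  [Module.Finite 𝒪 T]

/-- **Gorenstein property from the numerical equality.**  If `Φ_T` is finite and
`#Φ_T ≤ #(𝒪/η_T)`, there is `θ ∈ Ann (ker π)` with `η_T = (π θ) ≠ 0` whose class spans the socle
of `T / ϖ T`: every `t` with `(ker π) t ⊆ ϖ T` lies in `𝒪 θ + ϖ T`. -/
theorem exists_socle_generator (π : T →ₐ[𝒪] 𝒪)
    [Finite (RingHom.ker (π : T →+* 𝒪)).Cotangent]
    (hcard : Nat.card (RingHom.ker (π : T →+* 𝒪)).Cotangent ≤
      Nat.card (𝒪 ⧸ Ideal.map (π : T →+* 𝒪)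
        (Submodule.annihilator (RingHom.ker (π : T →+* 𝒪)))))
    {ϖ : 𝒪} (hϖ : Irreducible ϖ) :
    ∃ θ : T, (∀ s, π s = 0 → θ * s = 0) ∧ π θ ≠ 0 ∧
      Ideal.map (π : T →+* 𝒪) (Submodule.annihilator (RingHom.ker (π : T →+* 𝒪))) =
        Ideal.span {π θ} ∧
      ∀ t : T, (∀ s, π s = 0 → ∃ t', s * t = ϖ • t') →
        ∃ (c : 𝒪) (t' : T), t = c • θ + ϖ • t' := by
  classical
  set 𝔭T : Ideal T := RingHom.ker (π : T →+* 𝒪) with h𝔭T
  set η : Ideal 𝒪 := Ideal.map (π : T →+* 𝒪) (Submodule.annihilator 𝔭T) with hη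
  have mem𝔭T : ∀ t : T, t ∈ 𝔭T ↔ π t = 0 := fun t => Iff.rfl
  obtain ⟨ι, hι, x, d, hx, hspan, hrel, hprod, hcardT⟩ := exists_diag_relations π
  set v : Matrix ι ι 𝒪 := Matrix.diagonal d with hv
  have hdet : v.det = ∏ i, d i := Matrix.det_diagonal
  have hvrel : ∀ i, ∑ j, v i j • x j ∈ 𝔭T ^ 2 := by
    intro i
    have : ∑ j, v i j • x j = d i • x i := by
      rw [Finset.sum_eq_single i]
      · rw [hv, Matrix.diagonal_apply_eq]
      · intro j _ hji
        rw [hv, Matrix.diagonal_apply_ne _ (Ne.symm hji), zero_smul]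
      · intro h
        exact absurd (Finset.mem_univ i) h
    rw [this]
    exact hrel i
  obtain ⟨a, hdeg, hker, hconst⟩ := exists_poly_data π x hx hspan v hvrel
  have hd := constantCoeff_det_eq a v hconst
  set θ : T := MvPolynomial.aeval x a.det with hθ
  have hθx : ∀ j, θ * x j = 0 := by
    intro j
    have h2 := det_mul_X_mem_span a j
    have h3 : Ideal.span (Set.range fun i => ∑ k, a i k * (X k : MvPolynomial ι 𝒪)) ≤
        RingHom.ker (aeval x : MvPolynomial ι 𝒪 →ₐ[𝒪] T) := by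
      rw [Ideal.span_le]
      rintro _ ⟨i, rfl⟩
      exact hker i
    have h4 : aeval x (a.det * X j) = 0 := h3 h2
    rw [map_mul, aeval_X] at h4
    exact h4
  have hθann : ∀ s, π s = 0 → θ * s = 0 := by
    intro s hs
    have h1 := hspan s hs
    rw [Submodule.mem_span_range_iff_exists_fun] at h1
    obtain ⟨c, rfl⟩ := h1
    rw [Finset.mul_sum]
    refine Finset.sum_eq_zero fun i _ => ?_
    rw [mul_smul_comm, hθx, smul_zero]
  have hπθ : π θ = v.det := by
    rw [hθ, aug_aeval π x hx, hd]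
  have hdetη : v.det ∈ η := by
    rw [← hπθ]
    refine Ideal.mem_map_of_mem _ ?_
    rw [Submodule.mem_annihilator]
    intro s hs
    exact hθann s ((mem𝔭T s).mp hs)
  have hspanη : Ideal.span {v.det} ≤ η := (Ideal.span_singleton_le_iff_mem _).mpr hdetη
  have hc1 : Nat.card (𝒪 ⧸ Ideal.span {v.det}) = Nat.card 𝔭T.Cotangent := by
    rw [hdet]; exact hcardT
  have hfin : Finite (𝒪 ⧸ Ideal.span {v.det}) := by
    apply Nat.finite_of_card_ne_zero
    rw [hc1]
    exact Nat.card_pos.ne'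
  have hc3 : Nat.card (𝒪 ⧸ η) ≤ Nat.card (𝒪 ⧸ Ideal.span {v.det}) :=
    Nat.card_le_card_of_surjective _ (Ideal.Quotient.factor_surjective hspanη)
  have hc4 : Nat.card (𝒪 ⧸ Ideal.span {v.det}) = Nat.card (𝒪 ⧸ η) := by omega
  have hfac : Function.Bijective (Ideal.Quotient.factor hspanη) :=
    (Nat.bijective_iff_surjective_and_card _).mpr ⟨Ideal.Quotient.factor_surjective hspanη, hc4⟩
  have hηle : η ≤ Ideal.span {v.det} := by
    intro c hc
    have h1 : Ideal.Quotient.factor hspanη (Ideal.Quotient.mk _ c) = 0 := by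
      rw [Ideal.Quotient.factor_mk]
      exact Ideal.Quotient.eq_zero_iff_mem.mpr hc
    have h2 := hfac.1 (h1.trans (map_zero _).symm)
    exact Ideal.Quotient.eq_zero_iff_mem.mp h2
  have hdet0 : v.det ≠ 0 := by rw [hdet]; exact hprod
  refine ⟨θ, hθann, by rw [hπθ]; exact hdet0, ?_, ?_⟩
  · rw [hπθ]
    exact le_antisymm hηle hspanη
  · intro t ht
    refine socle_of_numerical_data π x hx hspan 2 a hdeg hker (by rw [hd]; exact hdet0) ?_ hϖ t
      (fun i => ht (x i) (hx i))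
    intro t₁ ht₁
    rw [hd]
    have h1 : π t₁ ∈ η := by
      refine Ideal.mem_map_of_mem _ ?_
      rw [Submodule.mem_annihilator]
      intro s hs
      have h2 := hspan s ((mem𝔭T s).mp hs)
      rw [Submodule.mem_span_range_iff_exists_fun] at h2
      obtain ⟨c, rfl⟩ := h2
      rw [smul_eq_mul, Finset.mul_sum]
      refine Finset.sum_eq_zero fun i _ => ?_
      rw [mul_smul_comm, ht₁, smul_zero]
    obtain ⟨c, hc⟩ := Ideal.mem_span_singleton'.mp (hηle h1)
    exact ⟨c, hc.symm⟩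

end GorNum

end Fermat.Agent.S59.H427

end
-- ===== PACK-END S59/H427/Gor.lean

-- ===== PACK-BEGIN S59/H161/Ihara2/T.lean
section




/-!
# S59 / cell NM / leaf IHARA2 (helper161): Ihara's lemma in Eisenstein form under relation (T)

`HasT N q φ` is the relation

    (T)   φ [[a, b], [q² c, d]] = φ [[a, q² b], [c, d]]      (`N ∣ c`),

i.e. `P₁ φ = P₃ φ` on `Γ₀(N q²)` (`hasT_of_P`).  It holds for the first component of a pair in the
kernel of `r₁ + r₂` (`hasT_of_ker`, = `S41.H161.apply_eq_of_sq`), and it is the ONLY consequence of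
`r₁ φ₁ + r₂ φ₂ = 0` used by the block IK of row S41.  `ikT` is `S41.H161.ik` with hypothesis (T).
-/

set_option autoImplicit false

namespace Fermat.Agent.S59.H161

open CongruenceSubgroup Matrix.SpecialLinearGroup
open Fermat.Agent.S29.H642 Fermat.Agent.S41.Spec Fermat.Agent.S41.H281 Fermat.Agent.S41.H161
open Fermat.Agent.S59.NM
open scoped MatrixGroups

variable {N q p : ℕ} {A : Type*} [AddCommGroup A]

/-- Relation **(T)** for a character `φ` of `Γ₀(N)`. -/
def HasT (N q : ℕ) (φ : Additive (Gamma0 N) →+ A) : Prop :=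
  ∀ (a b c d : ℤ) (hc : (N : ℤ) ∣ c) (hdet : a * d - b * (q * (q * c)) = 1),
    φ (Additive.ofMul (mk0 N a b (q * (q * c)) d hdet
        (Dvd.dvd.mul_left (Dvd.dvd.mul_left hc _) _))) =
      φ (Additive.ofMul (mk0 N a (q * (q * b)) c d (by linear_combination hdet) hc))

theorem hasT_of_ker (hq : q.Prime) (hqN : ¬ q ∣ N) {φ₁ φ₂ : Additive (Gamma0 N) →+ A}
    (hker : r₁ N q φ₁ + r₂ N q φ₂ = 0) : HasT N q φ₁ :=
  fun a b c d hc hdet => apply_eq_of_sq hq hqN hker a b c d hc hdet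

/-- `P₁ φ = P₃ φ` is relation (T). -/
theorem hasT_of_P (hq : q.Prime) {φ : Additive (Gamma0 N) →+ A}
    (hP : P₁ N q φ = P₃ N q φ) : HasT N q φ := by
  intro a b c d hc hdet
  have hq0 : q ≠ 0 := hq.ne_zero
  have hc' : ((N * q : ℕ) : ℤ) ∣ q * c := by
    obtain ⟨k, rfl⟩ := hc
    exact ⟨k, by push_cast; ring⟩
  have h := DFunLike.congr_fun hP
    (Additive.ofMul (mkq (N * q) q a b (q * c) d hdet hc'))
  simp only [P₁, P₃, r₁, r₂, AddMonoidHom.coe_comp, Function.comp_apply,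
    MonoidHom.toAdditive_apply_apply, toMul_ofMul] at h
  rw [incl_mkq, conjDelta_mkq hq0] at h
  have e1 : incl N q (mk0 (N * q) a b (q * (q * c)) d hdet (Dvd.dvd.mul_left hc' _)) =
      mk0 N a b (q * (q * c)) d hdet (Dvd.dvd.mul_left (Dvd.dvd.mul_left hc _) _) :=
    gamma0_ext rfl rfl rfl rfl
  have e2 : mk0 (N * q) a (q * b) (q * c) d (by linear_combination hdet) hc' =
      mkq N q a (q * b) c d (by linear_combination hdet) hc :=
    gamma0_ext rfl rfl rfl rfl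
  rw [e1, e2, conjDelta_mkq hq0] at h
  exact h

/-- **US** under (T), one step. -/
theorem unit_symT (hq : q.Prime) (hqN : ¬ q ∣ N) {φ₁ : Additive (Gamma0 N) →+ A}
    (hT' : HasT N q φ₁) (hU : φ₁ (Additive.ofMul (upU N)) = 0) :
    ∃ κ : A, ∀ γ γ' : Gamma0 N, (γ' : SL(2, ℤ)) 1 0 = (γ : SL(2, ℤ)) 1 0 →
      ¬ (q : ℤ) ∣ (γ : SL(2, ℤ)) 1 0 →
      (γ' : SL(2, ℤ)) 1 1 ≡ (q : ℤ) ^ 2 * (γ : SL(2, ℤ)) 1 1 [ZMOD (γ : SL(2, ℤ)) 1 0] →
      φ₁ (Additive.ofMul γ') = φ₁ (Additive.ofMul γ) + κ := by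
  -- Bezout for q² and N
  have hcop : IsCoprime ((q : ℤ) * q) (N : ℤ) := by
    have h1 : IsCoprime (q : ℤ) (N : ℤ) := by
      rw [Int.isCoprime_iff_gcd_eq_one, Int.gcd_natCast_natCast]
      exact (Nat.Prime.coprime_iff_not_dvd hq).mpr hqN
    exact h1.mul_left h1
  obtain ⟨u, v, huv⟩ := hcop
  -- huv : u * (q * q) + v * N = 1
  let w1 : Gamma0 N := mk0 N (q * q) (-v) N u (by linear_combination huv) (dvd_refl _)
  let w1i : Gamma0 N := mk0 N u v (-N) (q * q) (by linear_combination huv)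
    (Dvd.dvd.neg_right (dvd_refl _))
  let w1h : Gamma0 N := mk0 N 1 (-v) N (q * q * u) (by linear_combination huv) (dvd_refl _)
  have hw : w1i * w1 = 1 := by
    apply gamma0_ext <;>
      simp only [w1, w1i, mul_00, mul_01, mul_10, mul_11, mk0_00, mk0_01, mk0_10, mk0_11]
    · show _ = (1 : ℤ); linear_combination huv
    · show _ = (0 : ℤ); ring
    · show _ = (0 : ℤ); ring
    · show _ = (1 : ℤ); linear_combination huv
  have hwφ : φ₁ (Additive.ofMul w1i) = -φ₁ (Additive.ofMul w1) := by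
    have : φ₁ (Additive.ofMul w1i) + φ₁ (Additive.ofMul w1) = 0 := by
      rw [← map_add, ← ofMul_mul, hw]; simp
    exact eq_neg_of_add_eq_zero_left this
  refine ⟨φ₁ (Additive.ofMul w1h) - φ₁ (Additive.ofMul w1), ?_⟩
  intro γ γ' h10 hqc h11
  obtain ⟨a, b, c, d, hdet, hc, rfl⟩ := exists_mk0 γ
  simp only [mk0_10, mk0_11] at h10 hqc h11
  -- make `a ≡ 0 mod q²`
  have hcq : IsCoprime c ((q : ℤ) * q) := by
    have h1 := isCoprime_of_prime_not_dvd hq hqc
    exact h1.mul_right h1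
  obtain ⟨m, n, hmn⟩ := hcq
  -- hmn : m * c + n * (q * q) = 1
  -- s = - a m,  a + s c = q² (a n) =: q² t
  set s : ℤ := -(a * m) with hs
  set t : ℤ := a * n with ht
  have hat : a + s * c = q * (q * t) := by
    rw [hs, ht]; linear_combination (-a) * hmn
  set b₀ : ℤ := b + s * d with hb₀
  have hdet₀ : q * (q * t) * d - b₀ * c = 1 := by
    rw [← hat, hb₀]; linear_combination hdet
  -- γ₀ = upZ s * γ
  have hγ₀ : upZ N s * mk0 N a b c d hdet hc = mk0 N (q * (q * t)) b₀ c d hdet₀ hc := by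
    apply gamma0_ext <;>
      simp only [upZ, mul_00, mul_01, mul_10, mul_11, mk0_00, mk0_01, mk0_10, mk0_11]
    · rw [← hat]; ring
    · rw [hb₀]; ring
    · ring
    · ring
  have hφ₀ : φ₁ (Additive.ofMul (mk0 N (q * (q * t)) b₀ c d hdet₀ hc)) =
      φ₁ (Additive.ofMul (mk0 N a b c d hdet hc)) := by
    rw [← hγ₀, ofMul_mul, map_add, apply_upZ φ₁ hU, zero_add]
  -- γ̂
  have hdeth : t * (q * (q * d)) - b₀ * c = 1 := by linear_combination hdet₀
  set γh : Gamma0 N := mk0 N t b₀ c (q * (q * d)) hdeth hc with hγh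
  -- γ₁ = w1i * γ₀, with lower-left entry q (q (-N t + c))
  have hdet₁ : (u * (q * (q * t)) + v * c) * (-N * b₀ + q * q * d) -
      (u * b₀ + v * d) * (q * (q * (-N * t + c))) = 1 := by
    have h1 := det_eq (w1i * mk0 N (q * (q * t)) b₀ c d hdet₀ hc)
    simp only [w1i, mul_00, mul_01, mul_10, mul_11, mk0_00, mk0_01, mk0_10, mk0_11] at h1
    linear_combination h1
  have hc₁ : (N : ℤ) ∣ -N * t + c := by
    exact dvd_add (Dvd.intro _ (by ring : (N : ℤ) * (-t) = -N * t)) hc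
  have hγ₁ : w1i * mk0 N (q * (q * t)) b₀ c d hdet₀ hc =
      mk0 N (u * (q * (q * t)) + v * c) (u * b₀ + v * d) (q * (q * (-N * t + c)))
        (-N * b₀ + q * q * d) hdet₁ (Dvd.dvd.mul_left (Dvd.dvd.mul_left hc₁ _) _) := by
    apply gamma0_ext <;>
      simp only [w1i, mul_00, mul_01, mul_10, mul_11, mk0_00, mk0_01, mk0_10, mk0_11] <;> ring_nf
  have hT := hT' (u * (q * (q * t)) + v * c) (u * b₀ + v * d)
    (-N * t + c) (-N * b₀ + q * q * d) hc₁ hdet₁
  -- γ̂ = w1h * γ̃₁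
  have hγh' : γh = w1h * mk0 N (u * (q * (q * t)) + v * c) (q * (q * (u * b₀ + v * d)))
      (-N * t + c) (-N * b₀ + q * q * d) (by linear_combination hdet₁) hc₁ := by
    apply gamma0_ext <;>
      simp only [γh, w1h, mul_00, mul_01, mul_10, mul_11, mk0_00, mk0_01, mk0_10, mk0_11]
    · linear_combination (-t) * huv
    · linear_combination (-b₀) * huv
    · linear_combination (-c) * huv
    · linear_combination (-(q * q * d)) * huv
  have hφh : φ₁ (Additive.ofMul γh) = φ₁ (Additive.ofMul (mk0 N a b c d hdet hc)) +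
      (φ₁ (Additive.ofMul w1h) - φ₁ (Additive.ofMul w1)) := by
    rw [hγh', ofMul_mul, map_add, ← hT, ← hγ₁, ofMul_mul, map_add, hwφ, hφ₀]
    abel
  rw [← hφh]
  apply apply_eq_of_row φ₁ hU
  · simp only [γh, mk0_10]; exact h10
  · simp only [γh, mk0_10, mk0_11]
    have : (q : ℤ) ^ 2 * d = q * (q * d) := by ring
    rw [← this]; exact h11

/-- **US** under (T), iterated. -/
theorem unit_sym_powT (hq : q.Prime) (hqN : ¬ q ∣ N) {φ₁ : Additive (Gamma0 N) →+ A}
    (hT' : HasT N q φ₁) (hU : φ₁ (Additive.ofMul (upU N)) = 0) :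
    ∃ κ : A, ∀ (k : ℕ) (γ γ' : Gamma0 N), (γ' : SL(2, ℤ)) 1 0 = (γ : SL(2, ℤ)) 1 0 →
      ¬ (q : ℤ) ∣ (γ : SL(2, ℤ)) 1 0 →
      (γ' : SL(2, ℤ)) 1 1 ≡ (q : ℤ) ^ (2 * k) * (γ : SL(2, ℤ)) 1 1 [ZMOD (γ : SL(2, ℤ)) 1 0] →
      φ₁ (Additive.ofMul γ') = φ₁ (Additive.ofMul γ) + k • κ := by
  obtain ⟨κ, hκ⟩ := unit_symT hq hqN hT' hU
  refine ⟨κ, ?_⟩
  intro k
  induction k with
  | zero =>
    intro γ γ' h10 _ h11
    rw [zero_smul, add_zero]
    exact apply_eq_of_row φ₁ hU γ γ' h10 (by simpa using h11)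
  | succ k ih =>
    intro γ γ' h10 hqc h11
    -- intermediate element with bottom row (c, q^(2k) d)
    have hcop : IsCoprime ((γ : SL(2, ℤ)) 1 0) ((q : ℤ) ^ (2 * k) * (γ : SL(2, ℤ)) 1 1) :=
      IsCoprime.mul_right ((isCoprime_of_prime_not_dvd hq hqc).pow_right) (isCoprime_row γ)
    obtain ⟨γ'', h10'', h11''⟩ := exists_row hcop (dvd_10 γ)
    have e1 := ih γ γ'' h10'' hqc (by rw [h11''])
    have e2 := hκ γ'' γ' (by rw [h10, h10'']) (by rw [h10'']; exact hqc)
      (by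
        rw [h10'', h11'']
        have : (q : ℤ) ^ (2 * (k + 1)) * (γ : SL(2, ℤ)) 1 1 =
            (q : ℤ) ^ 2 * ((q : ℤ) ^ (2 * k) * (γ : SL(2, ℤ)) 1 1) := by ring
        rw [← this]; exact h11)
    rw [e2, e1, succ_nsmul, add_assoc]

/-- The main computation of IK under (T). -/
theorem ik_applyT (hq : q.Prime) (hqN : ¬ q ∣ N) (hp : p.Prime) (hp2 : p ≠ 2)
    (hA : ∀ a : A, p • a = 0) {φ₁ : Additive (Gamma0 N) →+ A}
    (hT : HasT N q φ₁) (hU : φ₁ (Additive.ofMul (upU N)) = 0)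
    (γ : Gamma0 N) (hqc : ¬ (q : ℤ) ∣ (γ : SL(2, ℤ)) 1 0)
    (l : ℕ) [Fact l.Prime] (hl : ¬ l ∣ N) (hlq : l ≠ q)
    (hl1 : (l : ℤ) ≡ 1 [ZMOD (γ : SL(2, ℤ)) 1 0])
    (hk : ∃ k : ℕ, (q : ℤ) ^ (2 * k) ≡ 1 [ZMOD (γ : SL(2, ℤ)) 1 0] ∧
      p ∣ orderOf ((q : ZMod l) ^ (2 * k))) :
    heckeTransfer hl φ₁ (Additive.ofMul γ) = (2 : ℕ) • φ₁ (Additive.ofMul γ) := by
  classical
  have hlp : l.Prime := Fact.out
  have hl0 : (l : ℤ) ≠ 0 := l_ne_zero_int
  set c : ℤ := (γ : SL(2, ℤ)) 1 0 with hc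
  set d : ℤ := (γ : SL(2, ℤ)) 1 1 with hd
  have hcd : IsCoprime c d := isCoprime_row γ
  -- `l ∤ c`
  have hlc : ¬ (l : ℤ) ∣ c := by
    intro h
    have h1 : c ∣ 1 - (l : ℤ) := Int.modEq_iff_dvd.mp hl1
    have h2 : (l : ℤ) ∣ 1 := by
      have := dvd_add (dvd_trans h h1) (dvd_refl (l : ℤ))
      simpa using this
    have h3 : (l : ℤ) = 1 ∨ (l : ℤ) = -1 := Int.isUnit_iff.mp (isUnit_of_dvd_one h2)
    rcases h3 with h3 | h3
    · exact hlp.one_lt.ne' (by exact_mod_cast h3)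
    · have : (0 : ℤ) ≤ l := Int.natCast_nonneg _
      omega
  have hcl : ((c : ℤ) : ZMod l) ≠ 0 := by
    rwa [Ne, ZMod.intCast_zmod_eq_zero_iff_dvd]
  have hcoplc : (l : ℤ).natAbs.Coprime c.natAbs := by
    rw [Int.natAbs_natCast]
    exact (Nat.Prime.coprime_iff_not_dvd hlp).mpr (fun h => hlc (Int.natCast_dvd.mpr h))
  obtain ⟨κ, hκ⟩ := unit_sym_powT hq hqN hT hU
  obtain ⟨k, hk1, hk2⟩ := hk
  -- the unit `q mod l`
  have hql : ((q : ℕ) : ZMod l) ≠ 0 := by
    rw [Ne, ZMod.natCast_eq_zero_iff]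
    intro h
    exact hlq ((Nat.prime_dvd_prime_iff_eq hlp hq).mp h)
  let qu : (ZMod l)ˣ := Units.mk0 (q : ZMod l) hql
  set n := orderOf (qu ^ (2 * k)) with hn
  have hn' : orderOf ((q : ZMod l) ^ (2 * k)) = n := by
    rw [hn, ← orderOf_units]
    simp [qu]
  have hpn : p ∣ n := hn' ▸ hk2
  have hn0 : 0 < n := orderOf_pos _
  set K := k * (n / p) with hK
  let v : (ZMod l)ˣ := (qu ^ (2 * k)) ^ (n / p)
  have hv : orderOf v = p := by
    rw [orderOf_pow_of_dvd (Nat.div_pos (Nat.le_of_dvd hn0 hpn) hp.pos).ne'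
      (Nat.div_dvd_of_dvd hpn)]
    exact Nat.div_div_self hpn hn0.ne'
  have hvq : ((v : (ZMod l)ˣ) : ZMod l) = (q : ZMod l) ^ (2 * K) := by
    simp only [v, qu, hK, Units.val_pow_eq_pow_val, Units.val_mk0]
    rw [← pow_mul, mul_assoc]
  have hqK : (q : ℤ) ^ (2 * K) ≡ 1 [ZMOD c] := by
    have := hk1.pow (n / p)
    rw [one_pow, ← pow_mul] at this
    rwa [hK, ← mul_assoc]
  have hqlc : ¬ (q : ℤ) ∣ (l : ℤ) * c := by
    intro h
    rcases (Nat.prime_iff_prime_int.mp hq).dvd_mul.mp h with h | h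
    · have : q ∣ l := by exact_mod_cast h
      exact hlq ((Nat.prime_dvd_prime_iff_eq hq hlp).mp this).symm
    · exact hqc h
  -- notation
  set π := hPerm l (γ : SL(2, ℤ)) with hπ
  set f : OnePoint (ZMod l) → A := fun x => φ₁ (Additive.ofMul (hElt hl γ x)) with hf
  rw [heckeTransfer_apply]
  show ∑ x, f x = _
  have hπinf : π OnePoint.infty ≠ OnePoint.infty := hPerm_infty_ne_infty hl γ hlc
  set xinf := π.symm OnePoint.infty with hxinfdef
  have hxinf : xinf ≠ OnePoint.infty := by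
    intro h
    apply hπinf
    have h1 : π xinf = OnePoint.infty := by rw [hxinfdef, Equiv.apply_symm_apply]
    rw [h] at h1
    exact h1
  -- the two special terms
  have hfinf : f OnePoint.infty = φ₁ (Additive.ofMul γ) := by
    obtain ⟨j', hj'⟩ := OnePoint.ne_infty_iff_exists.mp hπinf
    obtain ⟨h10, h11⟩ := hElt_row_infty_coe hl γ j' hj'.symm
    apply apply_eq_of_row φ₁ hU _ _ h10
    rw [← hc, ← hd]
    rw [← hc, ← hd] at h11
    have e1 : ((hElt hl γ OnePoint.infty : Gamma0 N) : SL(2, ℤ)) 1 1 * l ≡ d [ZMOD c] := by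
      rw [h11, Int.modEq_iff_dvd]
      exact ⟨(j'.val : ℤ), by ring⟩
    have e2 : ((hElt hl γ OnePoint.infty : Gamma0 N) : SL(2, ℤ)) 1 1 * l ≡
        ((hElt hl γ OnePoint.infty : Gamma0 N) : SL(2, ℤ)) 1 1 * 1 [ZMOD c] :=
      Int.ModEq.mul_left _ hl1
    rw [mul_one] at e2
    exact e2.symm.trans e1
  have hfxinf : f xinf = φ₁ (Additive.ofMul γ) := by
    obtain ⟨j, hj⟩ := OnePoint.ne_infty_iff_exists.mp hxinf
    have hπj : π (j : OnePoint (ZMod l)) = OnePoint.infty := by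
      rw [hj, hxinfdef, Equiv.apply_symm_apply]
    obtain ⟨h10, h11⟩ := hElt_row_coe_infty hl γ j hπj
    show φ₁ (Additive.ofMul (hElt hl γ xinf)) = _
    rw [← hj]
    apply apply_eq_of_row φ₁ hU _ _ h10
    rw [← hc, ← hd, h11]
    have := Int.ModEq.mul_right d hl1
    rwa [one_mul] at this
  -- the generic terms
  let jfun : (ZMod l)ˣ → ZMod l := fun e => (((d : ℤ) : ZMod l) - e) * ((c : ℤ) : ZMod l)⁻¹
  let xfun : (ZMod l)ˣ → OnePoint (ZMod l) := fun e => π.symm ((jfun e : ZMod l) : OnePoint (ZMod l))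
  have hπx : ∀ e, π (xfun e) = ((jfun e : ZMod l) : OnePoint (ZMod l)) := fun e => by
    simp only [xfun, Equiv.apply_symm_apply]
  have hcast : ∀ e : (ZMod l)ˣ, (((d - c * ((jfun e).val : ℤ) : ℤ)) : ZMod l) = e := by
    intro e
    push_cast
    rw [ZMod.natCast_zmod_val]
    simp only [jfun]
    field_simp
    ring
  have hxne : ∀ e, xfun e ≠ OnePoint.infty := by
    intro e h
    have h1 : π OnePoint.infty = ((jfun e : ZMod l) : OnePoint (ZMod l)) := by
      rw [← h]; exact hπx e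
    obtain ⟨_, h11⟩ := hElt_row_infty_coe hl γ (jfun e) h1
    rw [← hc, ← hd] at h11
    have h2 : ((((hElt hl γ OnePoint.infty : Gamma0 N) : SL(2, ℤ)) 1 1 * (l : ℤ) : ℤ) : ZMod l) =
        (((d - c * ((jfun e).val : ℤ) : ℤ)) : ZMod l) := congrArg Int.cast h11
    rw [hcast e] at h2
    push_cast at h2
    rw [ZMod.natCast_self, mul_zero] at h2
    exact e.ne_zero h2.symm
  have hrow : ∀ e, ((hElt hl γ (xfun e) : Gamma0 N) : SL(2, ℤ)) 1 0 = l * c ∧
      ((hElt hl γ (xfun e) : Gamma0 N) : SL(2, ℤ)) 1 1 = d - c * ((jfun e).val : ℤ) := by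
    intro e
    obtain ⟨j, hj⟩ := OnePoint.ne_infty_iff_exists.mp (hxne e)
    have := hElt_row_coe_coe hl γ j (jfun e) (by rw [hj]; exact hπx e)
    rw [hj] at this
    exact this
  have hgen : ∑ x ∈ Finset.univ.filter (fun x => x ≠ OnePoint.infty ∧ π x ≠ OnePoint.infty), f x =
      ∑ e : (ZMod l)ˣ, f (xfun e) := by
    symm
    refine Finset.sum_bij (fun e _ => xfun e) ?_ ?_ ?_ ?_
    · intro e _
      simp only [Finset.mem_filter, Finset.mem_univ, true_and]
      exact ⟨hxne e, by rw [hπx]; exact OnePoint.coe_ne_infty _⟩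
    · intro e₁ _ e₂ _ h
      have h1 : ((jfun e₁ : ZMod l) : OnePoint (ZMod l)) = ((jfun e₂ : ZMod l) : OnePoint (ZMod l)) := by
        rw [← hπx, ← hπx, h]
      have h2 : jfun e₁ = jfun e₂ := OnePoint.coe_injective h1
      have h3 : (((d : ℤ) : ZMod l) - e₁) = (((d : ℤ) : ZMod l) - e₂) :=
        mul_right_cancel₀ (inv_ne_zero hcl) h2
      exact Units.ext (by linear_combination -h3)
    · intro x hx
      simp only [Finset.mem_filter, Finset.mem_univ, true_and] at hx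
      obtain ⟨j, hj⟩ := OnePoint.ne_infty_iff_exists.mp hx.1
      obtain ⟨j', hj'⟩ := OnePoint.ne_infty_iff_exists.mp hx.2
      obtain ⟨h10, h11⟩ := hElt_row_coe_coe hl γ j j' (by rw [hj, hj'])
      rw [← hc] at h10
      rw [← hc, ← hd] at h11
      -- e = d - c j' is nonzero mod l
      have hcop := isCoprime_row (hElt hl γ (j : OnePoint (ZMod l)))
      rw [h10, h11] at hcop
      have hne : (((d : ℤ) : ZMod l) - ((c : ℤ) : ZMod l) * j') ≠ 0 := by
        intro h0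
        have h1 : (((d - c * (j'.val : ℤ) : ℤ)) : ZMod l) = 0 := by
          push_cast
          rw [ZMod.natCast_zmod_val]
          exact h0
        rw [ZMod.intCast_zmod_eq_zero_iff_dvd] at h1
        have h2 : IsCoprime (l : ℤ) (d - c * (j'.val : ℤ)) := hcop.of_mul_left_left
        have h3 : IsUnit (l : ℤ) := h2.isUnit_of_dvd' (dvd_refl _) h1
        have h4 : (l : ℤ) = 1 ∨ (l : ℤ) = -1 := Int.isUnit_iff.mp h3
        rcases h4 with h4 | h4
        · exact hlp.one_lt.ne' (by exact_mod_cast h4)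
        · have : (0 : ℤ) ≤ l := Int.natCast_nonneg _
          omega
      refine ⟨Units.mk0 _ hne, Finset.mem_univ _, ?_⟩
      have hj2 : jfun (Units.mk0 _ hne) = j' := by
        simp only [jfun, Units.val_mk0]
        field_simp
        ring
      show π.symm ((jfun (Units.mk0 _ hne) : ZMod l) : OnePoint (ZMod l)) = x
      rw [hj2, hj', Equiv.symm_apply_apply]
    · intro e _
      rfl
  have hshift : ∀ e : (ZMod l)ˣ, f (xfun (v * e)) = f (xfun e) + K • κ := by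
    intro e
    obtain ⟨a10, a11⟩ := hrow e
    obtain ⟨b10, b11⟩ := hrow (v * e)
    apply hκ K _ _ (by rw [a10, b10]) (by rw [a10]; exact hqlc)
    rw [a10, a11, b11]
    apply (Int.modEq_and_modEq_iff_modEq_mul hcoplc).mp
    constructor
    · rw [← ZMod.intCast_eq_intCast_iff]
      rw [hcast (v * e)]
      push_cast
      have := hcast e
      push_cast at this
      rw [this, hvq]
    · have e1 : d - c * ((jfun (v * e)).val : ℤ) ≡ d [ZMOD c] := by
        rw [Int.modEq_iff_dvd]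
        exact ⟨((jfun (v * e)).val : ℤ), by ring⟩
      have e2 : d - c * ((jfun e).val : ℤ) ≡ d [ZMOD c] := by
        rw [Int.modEq_iff_dvd]
        exact ⟨((jfun e).val : ℤ), by ring⟩
      have e3 := Int.ModEq.mul hqK e2
      rw [one_mul] at e3
      exact e1.trans e3.symm
  have hzero : ∑ e : (ZMod l)ˣ, f (xfun e) = 0 :=
    sum_eq_zero_of_shift hp hp2 hA v hv (fun e => f (xfun e)) (K • κ) hshift
  -- assemble
  have hsplit := Finset.sum_filter_add_sum_filter_not Finset.univ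
    (fun x => x ≠ OnePoint.infty ∧ π x ≠ OnePoint.infty) f
  have hnot : Finset.univ.filter (fun x => ¬ (x ≠ OnePoint.infty ∧ π x ≠ OnePoint.infty)) =
      {OnePoint.infty, xinf} := by
    ext x
    simp only [Finset.mem_filter, Finset.mem_univ, true_and, Finset.mem_insert,
      Finset.mem_singleton, not_and_or, not_not]
    constructor
    · rintro (h | h)
      · exact Or.inl h
      · exact Or.inr (by rw [hxinfdef, ← h, Equiv.symm_apply_apply])
    · rintro (h | h)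
      · exact Or.inl h
      · exact Or.inr (by rw [h, hxinfdef, Equiv.apply_symm_apply])
  rw [← hsplit, hnot, Finset.sum_pair (Ne.symm hxinf), hgen, hzero, hfinf, hfxinf, zero_add, two_nsmul]


/-- **IK under (T)**: `S41.H161.IKStatement` with the hypothesis `r₁ φ₁ + r₂ φ₂ = 0` replaced by
relation (T) for `φ`. -/
theorem ikT (hq : q.Prime) (hqN : ¬ q ∣ N) (hp : p.Prime) (hp2 : p ≠ 2)
    (hA : ∀ a : A, p • a = 0) {φ : Additive (Gamma0 N) →+ A} (hT : HasT N q φ)
    (hU : φ (Additive.ofMul (upU N)) = 0) (hne : φ ≠ 0) :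
    ∃ γ₀ : Gamma0 N, φ (Additive.ofMul γ₀) ≠ 0 ∧ (γ₀ : SL(2, ℤ)) 1 0 ≠ 0 ∧
      ¬ (q : ℤ) ∣ (γ₀ : SL(2, ℤ)) 1 0 ∧
      ∀ (l : ℕ) [Fact l.Prime] (hl : ¬ l ∣ N), l ≠ q →
        (l : ℤ) ≡ 1 [ZMOD (γ₀ : SL(2, ℤ)) 1 0] →
        (∃ k : ℕ, (q : ℤ) ^ (2 * k) ≡ 1 [ZMOD (γ₀ : SL(2, ℤ)) 1 0] ∧
          p ∣ orderOf ((q : ZMod l) ^ (2 * k))) →
        heckeTransfer hl φ (Additive.ofMul γ₀) = (2 : ℕ) • φ (Additive.ofMul γ₀) := by
  obtain ⟨γ₀, h1, h2⟩ := exists_ne_zero_not_dvd hq hqN φ hne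
  refine ⟨γ₀, h1, ?_, h2, ?_⟩
  · intro h0
    apply h2
    rw [h0]
    exact dvd_zero _
  · intro l _ hl hlq hl1 hk
    exact ik_applyT hq hqN hp hp2 hA hT hU γ₀ h2 l hl hlq hl1 hk

end Fermat.Agent.S59.H161

end
-- ===== PACK-END S59/H161/Ihara2/T.lean

-- ===== PACK-BEGIN S59/H161/Ihara2/Stage1.lean
section



/-!
# S59 / cell NM / leaf IHARA2 (helper161): stage 1 in eigen form, coefficients in a field `k`

`NEPrimeLocal p S a q` is the conclusion of NE' for the system `a` (the body of helper62's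
`H62.NEPrimeKStatement`): for every `m ≥ 1` and finite `S'` there is a prime `l ∉ S ∪ S'`,
`l ≡ 1 mod m`, `l ≡ 1 mod p`, `a l ≠ l + 1`, `q` not a `p`-th power modulo `l` (Euler form).

* `eq_zero_of_hasT`  : an `a`-eigenclass with relation (T) vanishes                    (S1T);
* `eq_zero_of_PP`    : the same with `P₁ φ = P₃ φ`;
* `eq_zero_of_ker`   : `r₁ φ₁ + r₂ φ₂ = 0`, `φ₁` an eigenclass, `φ₂` ARBITRARY ⇒ `φ₁ = 0` (S1);
* `eq_zero_of_ker'`  : `r₁ φ₁ + r₂ φ₂ = 0`, `φ₂` an eigenclass, `φ₁` ARBITRARY ⇒ `φ₂ = 0`.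
-/

set_option autoImplicit false

namespace Fermat.Agent.S59.H161

open CongruenceSubgroup Matrix.SpecialLinearGroup
open Fermat.Agent.S29.H642 Fermat.Agent.S41.Spec Fermat.Agent.S41.H281 Fermat.Agent.S41.H161
open Fermat.Agent.S59.NM
open scoped MatrixGroups

/-- The conclusion of NE' for the system of eigenvalues `a` (Euler form of the Kummer condition). -/
def NEPrimeLocal (p : ℕ) {k : Type} [Field k] (S : Finset ℕ) (a : ℕ → k) (q : ℕ) : Prop :=
  ∀ (m : ℕ), 0 < m → ∀ S' : Finset ℕ, ∃ l : ℕ, l.Prime ∧ l ∉ S ∧ l ∉ S' ∧ l ≡ 1 [MOD m] ∧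
    l ≡ 1 [MOD p] ∧ a l ≠ (l : k) + 1 ∧ ¬ (q ^ ((l - 1) / p) ≡ 1 [MOD l])

/-- Euler's criterion, the easy direction: a `p`-th power `q ≢ 0` modulo `l ≡ 1 mod p` has
`q^((l-1)/p) ≡ 1`. -/
theorem euler_of_pow {l p q : ℕ} (hl : l.Prime) (hlp : l ≡ 1 [MOD p]) (hlq : ¬ l ∣ q)
    (h : ∃ x : ZMod l, x ^ p = (q : ZMod l)) : q ^ ((l - 1) / p) ≡ 1 [MOD l] := by
  haveI : Fact l.Prime := ⟨hl⟩
  obtain ⟨x, hx⟩ := h
  have hq0 : (q : ZMod l) ≠ 0 := by
    rwa [Ne, ZMod.natCast_eq_zero_iff]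
  have hx0 : x ≠ 0 := by
    rintro rfl
    rcases Nat.eq_zero_or_pos p with hp0 | hp0
    · subst hp0
      -- `l ≡ 1 mod 0` means `l = 1`
      have : l = 1 := by simpa [Nat.ModEq] using hlp
      exact hl.one_lt.ne' this
    · rw [zero_pow hp0.ne'] at hx
      exact hq0 hx.symm
  have hdiv : p ∣ l - 1 := (Nat.modEq_iff_dvd' hl.one_lt.le).mp hlp.symm
  rw [← ZMod.natCast_eq_natCast_iff]
  push_cast
  rw [← hx, ← pow_mul, Nat.mul_div_cancel' hdiv]
  exact ZMod.pow_card_sub_one_eq_one hx0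

/-- A cuspidal class vanishes on `U = [[1, 1], [0, 1]]`. -/
theorem upU_eq_zero_of_isCuspidal {N : ℕ} {A : Type*} [AddCommGroup A]
    {φ : Additive (Gamma0 N) →+ A} (hφ : IsCuspidal φ) : φ (Additive.ofMul (upU N)) = 0 := by
  apply hφ.1
  simp [upU, Matrix.trace_fin_two_of]

variable {p : ℕ} {k : Type} [Field k] [CharP k p] {N q : ℕ}

/-- **(S1T)** an eigenclass with relation (T) for a system `a` with NE' vanishes. -/
theorem eq_zero_of_hasT (hp : p.Prime) (hp2 : p ≠ 2) (hN : N ≠ 0) (hq : q.Prime) (hqN : ¬ q ∣ N)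
    {S : Finset ℕ} {a : ℕ → k} (hNE : NEPrimeLocal p S a q)
    {φ : Additive (Gamma0 N) →+ k} (hφ : IsEigenclass N (insert q S) a φ) (hT : HasT N q φ) :
    φ = 0 := by
  by_contra hne
  have hA : ∀ x : k, p • x = 0 := by
    intro x
    rw [nsmul_eq_mul, CharP.cast_eq_zero, zero_mul]
  obtain ⟨γ₀, hγ₀, hc0, hqc, H⟩ := ikT hq hqN hp hp2 hA hT (upU_eq_zero_of_isCuspidal hφ.1) hne
  -- the modulus
  set c : ℤ := (γ₀ : SL(2, ℤ)) 1 0 with hc
  have hcn : 0 < c.natAbs := Int.natAbs_pos.mpr hc0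
  set t : ℕ := Nat.totient c.natAbs with ht
  have hcop : Nat.Coprime q c.natAbs := by
    rw [Nat.Prime.coprime_iff_not_dvd hq]
    intro h
    exact hqc (Int.natCast_dvd.mpr h)
  have hqk : (q : ℤ) ^ (2 * t) ≡ 1 [ZMOD c] := by
    have h1 : q ^ t ≡ 1 [MOD c.natAbs] := Nat.ModEq.pow_totient hcop
    have h2 : (q ^ t) ^ 2 ≡ 1 ^ 2 [MOD c.natAbs] := h1.pow 2
    have h3 : (((q ^ t) ^ 2 : ℕ) : ℤ) ≡ ((1 ^ 2 : ℕ) : ℤ) [ZMOD (c.natAbs : ℤ)] :=
      Int.natCast_modEq_iff.mpr h2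
    have h4 : (c.natAbs : ℤ) ∣ ((1 ^ 2 : ℕ) : ℤ) - (((q ^ t) ^ 2 : ℕ) : ℤ) :=
      Int.ModEq.dvd h3
    rw [Int.natAbs_dvd] at h4
    rw [Int.modEq_iff_dvd]
    have e : (1 : ℤ) - (q : ℤ) ^ (2 * t) = ((1 ^ 2 : ℕ) : ℤ) - (((q ^ t) ^ 2 : ℕ) : ℤ) := by
      push_cast
      ring
    rw [e]
    exact h4
  have ht0 : 0 < t := Nat.totient_pos.mpr hcn
  set M : ℕ := 2 * t with hM
  have hM0 : M ≠ 0 := by omega
  set e : ℕ := padicValNat p M with he
  haveI : Fact p.Prime := ⟨hp⟩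
  have hMe : ¬ p ^ (e + 1) ∣ M := pow_succ_padicValNat_not_dvd hM0
  set m : ℕ := c.natAbs * p ^ (e + 1) with hm
  have hm0 : 0 < m := Nat.mul_pos hcn (pow_pos hp.pos _)
  obtain ⟨l, hl, hlS, hlS', hlm, hlp1, hnE, hpow⟩ := hNE m hm0 (insert q N.primeFactors)
  haveI hlF : Fact l.Prime := ⟨hl⟩
  have hlq : l ≠ q := by
    rintro rfl
    exact hlS' (Finset.mem_insert_self _ _)
  have hlN : ¬ l ∣ N := by
    intro h
    exact hlS' (Finset.mem_insert_of_mem (Nat.mem_primeFactors.mpr ⟨hl, h, hN⟩))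
  have hlqS : l ∉ insert q S := by
    intro h
    rcases Finset.mem_insert.mp h with h | h
    · exact hlq h
    · exact hlS h
  have hlc : (l : ℤ) ≡ 1 [ZMOD c] := by
    have h1 : l ≡ 1 [MOD c.natAbs] := hlm.of_dvd (Dvd.intro _ rfl)
    have h3 : ((l : ℕ) : ℤ) ≡ ((1 : ℕ) : ℤ) [ZMOD (c.natAbs : ℤ)] :=
      Int.natCast_modEq_iff.mpr h1
    have h4 : (c.natAbs : ℤ) ∣ ((1 : ℕ) : ℤ) - ((l : ℕ) : ℤ) := Int.ModEq.dvd h3
    rw [Int.natAbs_dvd] at h4
    rw [Int.modEq_iff_dvd]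
    simpa using h4
  have hl1 : l ≡ 1 [MOD p ^ (e + 1)] := hlm.of_dvd (Dvd.intro_left _ rfl)
  have hlq' : ¬ l ∣ q := by
    intro h
    exact hlq ((Nat.prime_dvd_prime_iff_eq hl hq).mp h)
  have hord : p ∣ orderOf ((q : ZMod l) ^ M) :=
    kum l p q M e hl hp hl1 hMe (fun h => hpow (euler_of_pow hl hlp1 hlq' h))
  have h2 := H l hlN hlq hlc ⟨t, hqk, hord⟩
  rw [hφ.2 l hlN hlqS] at h2
  -- `(a_l - 2) φ(γ₀) = 0`
  have h3 : (a l - 2) * φ (Additive.ofMul γ₀) = 0 := by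
    have h4 : a l * φ (Additive.ofMul γ₀) = 2 * φ (Additive.ofMul γ₀) := by
      simpa [AddMonoidHom.smul_apply, smul_eq_mul, nsmul_eq_mul] using h2
    rw [sub_mul, h4, sub_self]
  have h5 : a l - 2 = 0 := by
    rcases mul_eq_zero.mp h3 with h | h
    · exact h
    · exact absurd h hγ₀
  apply hnE
  have hl1' : ((l : ℕ) : k) = 1 := by
    have h6 : ((l : ℕ) : k) = ((1 : ℕ) : k) := (CharP.natCast_eq_natCast k p).mpr hlp1
    simpa using h6
  rw [hl1']
  linear_combination h5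

/-- (S1T) with the relation in the form `P₁ φ = P₃ φ`. -/
theorem eq_zero_of_PP (hp : p.Prime) (hp2 : p ≠ 2) (hN : N ≠ 0) (hq : q.Prime) (hqN : ¬ q ∣ N)
    {S : Finset ℕ} {a : ℕ → k} (hNE : NEPrimeLocal p S a q)
    {φ : Additive (Gamma0 N) →+ k} (hφ : IsEigenclass N (insert q S) a φ)
    (hP : P₁ N q φ = P₃ N q φ) : φ = 0 :=
  eq_zero_of_hasT hp hp2 hN hq hqN hNE hφ (hasT_of_P hq hP)

/-- **(S1)** stage 1 in eigen form: the first component of a pair in the kernel of `r₁ + r₂`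
vanishes if it is an eigenclass (the second component is arbitrary). -/
theorem eq_zero_of_ker (hp : p.Prime) (hp2 : p ≠ 2) (hN : N ≠ 0) (hq : q.Prime) (hqN : ¬ q ∣ N)
    {S : Finset ℕ} {a : ℕ → k} (hNE : NEPrimeLocal p S a q)
    {φ₁ φ₂ : Additive (Gamma0 N) →+ k} (hφ : IsEigenclass N (insert q S) a φ₁)
    (hker : r₁ N q φ₁ + r₂ N q φ₂ = 0) : φ₁ = 0 :=
  eq_zero_of_hasT hp hp2 hN hq hqN hNE hφ (hasT_of_ker hq hqN hker)

/-- (S1), second component. -/
theorem eq_zero_of_ker' (hp : p.Prime) (hp2 : p ≠ 2) (hN : N ≠ 0) (hq : q.Prime) (hqN : ¬ q ∣ N)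
    {S : Finset ℕ} {a : ℕ → k} (hNE : NEPrimeLocal p S a q)
    {φ₁ φ₂ : Additive (Gamma0 N) →+ k} (hφ : IsEigenclass N (insert q S) a φ₂)
    (hker : r₁ N q φ₁ + r₂ N q φ₂ = 0) : φ₂ = 0 :=
  eq_zero_of_ker hp hp2 hN hq hqN hNE hφ (swap hq hqN hker)

end Fermat.Agent.S59.H161

end
-- ===== PACK-END S59/H161/Ihara2/Stage1.lean

-- ===== PACK-BEGIN S59/H7/EigenOfChar.lean
section




/-!
# S59, top layer, piece E1 (helper7): an integral character of the Hecke algebra is an eigenform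

* `exists_eigenvector_of_intChar` : a ring homomorphism `χ : heckeAlgebra N 2 S →+* ℤ` occurs in
  `S₂(Γ₀(N))`: there is a nonzero common eigenvector with eigencharacter `χ`.
* `isModularModelOfLevel_of_intChar` : the statement `EigenformOfCharStatement` of the S59
  architecture (`origin/helper239`, `Fermat/Agent/S59/H239/Top.lean`), in unfolded form.

No `p`-stabilisation is needed: the eigenvector is pushed to level `N * p` by the level inclusion
and the landed NEWFORM lemma `exists_normalizedEigenform_of_eigenvector` produces the normalised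
eigenform there.
-/

set_option autoImplicit false

open CuspForm CongruenceSubgroup ModularFormClass Polynomial

namespace Fermat.Agent.S59.H7

/-- An eigencharacter `χ'` with `ker χ' ≤ ker χ`, `χ` integer valued, equals `χ`. -/
theorem char_eq_of_ker_le {A : Type*} [CommRing A] (hint : ∀ a : A, IsIntegral ℤ a)
    (χ : A →+* ℤ) (χ' : A →+* ℂ) (hker : RingHom.ker χ' ≤ RingHom.ker χ) (t : A) :
    χ' t = (χ t : ℂ) := by
  set s : A := t - (χ t : A) with hs
  have hχs : χ s = 0 := by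
    rw [hs, map_sub, map_intCast, Int.cast_id, sub_self]
  have hz : IsIntegral ℤ (χ' s) := (hint s).map χ'.toIntAlgHom
  suffices h : χ' s = 0 by
    rw [hs, map_sub, map_intCast, sub_eq_zero] at h
    exact h
  by_contra hne
  have h0 : (minpoly ℚ (χ' s)).coeff 0 ≠ 0 := minpoly.coeff_zero_ne_zero hz.tower_top hne
  have hmap : minpoly ℚ (χ' s) = (minpoly ℤ (χ' s)).map (algebraMap ℤ ℚ) :=
    minpoly.isIntegrallyClosed_eq_field_fractions' ℚ hz
  have h0' : (minpoly ℤ (χ' s)).coeff 0 ≠ 0 := by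
    intro h
    apply h0
    rw [hmap, coeff_map, h, map_zero]
  apply h0'
  have h1 : χ' (aeval s (minpoly ℤ (χ' s))) = 0 := by
    have := aeval_algHom_apply χ'.toIntAlgHom s (minpoly ℤ (χ' s))
    rw [RingHom.toIntAlgHom_apply] at this
    rw [← RingHom.toIntAlgHom_apply χ', ← this, minpoly.aeval]
  have h2 : χ (aeval s (minpoly ℤ (χ' s))) = 0 := hker h1
  have h3 := aeval_algHom_apply χ.toIntAlgHom s (minpoly ℤ (χ' s))
  rw [RingHom.toIntAlgHom_apply, RingHom.toIntAlgHom_apply, h2, hχs] at h3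
  rw [← h3, ← coeff_zero_eq_aeval_zero]

/-- **Characters occur.** A ring homomorphism from the (anemic) Hecke algebra to `ℤ` is the
eigencharacter of a nonzero cusp form. -/
theorem exists_eigenvector_of_intChar {N : ℕ} [NeZero N] (S : Set ℕ)
    (χ : heckeAlgebra N 2 S →+* ℤ) :
    ∃ g : CuspForm (Gamma0 N) 2, g ≠ 0 ∧
      ∀ t : heckeAlgebra N 2 S,
        (t : Module.End ℂ (CuspForm (Gamma0 N) 2)) g = (χ t : ℂ) • g := by
  classical
  have := Fermat.Agent.Lib.Newform.H863.finiteDimensional_cuspForm N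
  have hfin : Module.Finite ℤ (heckeAlgebra N 2 S) := Fermat.Agent.S22.result N 2 S
  have hint : ∀ a : heckeAlgebra N 2 S, IsIntegral ℤ a := fun a =>
    (Algebra.IsIntegral.of_finite ℤ (heckeAlgebra N 2 S)).isIntegral a
  have : (RingHom.ker χ).IsPrime := RingHom.ker_isPrime χ
  obtain ⟨g, χ', hg, hχ', hker⟩ := Fermat.Agent.S49.exists_eigenvector_ker_le
    (K := ℂ) (V := CuspForm (Gamma0 N) 2)
    ((heckeAlgebra N 2 S).val.toRingHom) Subtype.val_injective (RingHom.ker χ)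
  refine ⟨g, hg, fun t => ?_⟩
  rw [← char_eq_of_ker_le hint χ χ' hker t]
  exact hχ' t

/-- **E1** (`EigenformOfCharStatement` of the S59 architecture, unfolded). -/
theorem isModularModelOfLevel_of_intChar
    (W : WeierstrassCurve ℤ) (N : ℕ) [NeZero N] (S : Finset ℕ) (p : ℕ) (hp : p.Prime)
    (_hS : ∀ ℓ ∈ S, ℓ.Prime) (hSN : ∀ ℓ ∈ S, ℓ = p ∨ ℓ ∣ N)
    (χ : CuspForm.heckeAlgebra N 2 (↑S : Set ℕ) →+* ℤ)
    (hχ : ∀ (ℓ : ℕ) (hℓ : ℓ.Prime) (hℓN : ¬ ℓ ∣ N) (hℓS : ℓ ∉ (↑S : Set ℕ)),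
      χ (CuspForm.heckeAlgebra.T hℓ hℓN hℓS) = W.apOfModel ℓ) :
    W.IsModularModelOfLevel (if p ∣ N then N else N * p) := by
  classical
  obtain ⟨g, hg, hgχ⟩ := exists_eigenvector_of_intChar (↑S : Set ℕ) χ
  have hgT : ∀ (ℓ : ℕ) (hℓ : ℓ.Prime) (hℓN : ¬ ℓ ∣ N), ℓ ∉ (↑S : Set ℕ) →
      CuspForm.heckeTLin 2 hℓ hℓN g = ((W.apOfModel ℓ : ℤ) : ℂ) • g := by
    intro ℓ hℓ hℓN hℓS
    have := hgχ (heckeAlgebra.T hℓ hℓN hℓS)
    rw [heckeAlgebra.coe_T, hχ ℓ hℓ hℓN hℓS] at this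
    exact this
  by_cases hpN : p ∣ N
  · rw [if_pos hpN]
    obtain ⟨f, hf, hfℓ⟩ :=
      Fermat.Agent.Lib.Newform.H863.exists_normalizedEigenform_of_eigenvector
        (↑S : Set ℕ) (fun ℓ => ((W.apOfModel ℓ : ℤ) : ℂ)) g hg hgT
    refine ⟨f, hf, fun ℓ hℓ _ hℓN => hfℓ ℓ hℓ hℓN ?_⟩
    intro hℓS
    rcases hSN ℓ (Finset.mem_coe.mp hℓS) with h | h
    · exact hℓN (h ▸ hpN)
    · exact hℓN h
  · rw [if_neg hpN]
    have hdvd : N ∣ N * p := Dvd.intro p rfl
    have : NeZero (N * p) := ⟨Nat.mul_ne_zero (NeZero.ne N) hp.ne_zero⟩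
    set h := Fermat.Agent.Lib.Newform.H863.levelIncl hdvd g with hh
    have hh0 : h ≠ 0 := by
      intro h0
      apply hg
      apply Fermat.Agent.Lib.Newform.H863.levelIncl_injective hdvd
      rw [← hh, h0, map_zero]
    have hhT : ∀ (ℓ : ℕ) (hℓ : ℓ.Prime) (hℓM : ¬ ℓ ∣ N * p), ℓ ∉ (↑S : Set ℕ) →
        CuspForm.heckeTLin 2 hℓ hℓM h = ((W.apOfModel ℓ : ℤ) : ℂ) • h := by
      intro ℓ hℓ hℓM hℓS
      rw [hh, Fermat.Agent.Lib.Newform.H863.heckeTLin_levelIncl hdvd hℓ hℓM,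
        hgT ℓ hℓ (fun hd => hℓM (hd.trans hdvd)) hℓS, map_smul]
    obtain ⟨f, hf, hfℓ⟩ :=
      Fermat.Agent.Lib.Newform.H863.exists_normalizedEigenform_of_eigenvector
        (↑S : Set ℕ) (fun ℓ => ((W.apOfModel ℓ : ℤ) : ℂ)) h hh0 hhT
    refine ⟨f, hf, fun ℓ hℓ _ hℓN => hfℓ ℓ hℓ hℓN ?_⟩
    intro hℓS
    rcases hSN ℓ (Finset.mem_coe.mp hℓS) with h' | h'
    · exact hℓN (h' ▸ Dvd.intro_left N rfl)
    · exact hℓN (h'.trans hdvd)

end Fermat.Agent.S59.H7

end
-- ===== PACK-END S59/H7/EigenOfChar.lean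

-- ===== PACK-BEGIN S59/H7/E1Glue.lean
section



/-!
# S59, top layer: E1 in the architecture's shape (helper7)

* `eigenformOfChar : H239.EigenformOfCharStatement`   (unconditional)
* `ml_of_rt : H239.RTStatement → H239.MLStatement`
* `s59_of_rt : H239.S58Statement → H239.RTStatement → H239.S59Statement`
-/

set_option autoImplicit false

namespace Fermat.Agent.S59.H7

/-- **E1**, unconditional. -/
theorem eigenformOfChar : Fermat.Agent.S59.H239.EigenformOfCharStatement :=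
  fun W N _ S p hp hS hSN χ hχ => isModularModelOfLevel_of_intChar W N S p hp hS hSN χ hχ

/-- (ML) from (RT) alone. -/
theorem ml_of_rt (hRT : Fermat.Agent.S59.H239.RTStatement) :
    Fermat.Agent.S59.H239.MLStatement :=
  Fermat.Agent.S59.H239.ml_of hRT eigenformOfChar

/-- S59 from S58 and (RT). -/
theorem s59_of_rt (h58 : Fermat.Agent.S59.H239.S58Statement)
    (hRT : Fermat.Agent.S59.H239.RTStatement) : Fermat.Agent.S59.H239.S59Statement :=
  Fermat.Agent.S59.H239.s59_of h58 (ml_of_rt hRT)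

end Fermat.Agent.S59.H7

end
-- ===== PACK-END S59/H7/E1Glue.lean

-- ===== PACK-BEGIN Lib/Frob23/Main.lean
section






/-!
# Shared library `Frob23`: the Frobenius relation at ALL primes (helper472)

`Lib/Frob` proves `σ² − a_ℓ σ + ℓ = 0` for primes `ℓ ≥ 5`.  This file removes the restriction:

* `frobRelationFinAll` : over `𝔽_ℓ`, any prime `ℓ`, any long Weierstrass curve with `Δ ≠ 0`,
  any field `k ⊇ 𝔽_ℓ`:  `Φ² − a Φ + ℓ = 0` on `E(k)`;
* `frobRelationAll` : for an integral Weierstrass model `W`, a prime `ℓ ∤ Δ(W)`, a valuation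
  subring `A` of `ℚ̄` over `ℓ`, a Frobenius element `σ` at `A` and a point `P ∈ W(ℚ̄)` killed by
  some `n > 0` prime to `ℓ`:  `σ² P − a_ℓ(W) σ P + ℓ P = 0`.

The new cases `ℓ = 2, 3` are `Two.frobRelationFin_two`, `Three.frobRelationFin_three` (Manin's
exact-height argument in long Weierstrass form, on the subgroup of points anti-invariant under
the hyperelliptic involution of the function field).
-/

set_option autoImplicit false

open WeierstrassCurve WeierstrassCurve.Affine WeierstrassCurve.Affine.Point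

namespace Fermat.Agent.Lib.Frob23

open Fermat.Agent.Lib.Frob

/-- **The Hasse–Weil Frobenius relation over `𝔽_ℓ`, every prime `ℓ`.** -/
theorem frobRelationFinAll (ℓ : ℕ) [Fact ℓ.Prime] (E : WeierstrassCurve (ZMod ℓ)) (hΔ : E.Δ ≠ 0)
    (k : Type) [Field k] [Algebra (ZMod ℓ) k] [DecidableEq k] (P : (E⁄k).Point) :
    frobPt ℓ E k (frobPt ℓ E k P) - E.traceOfFrobenius • frobPt ℓ E k P + (ℓ : ℤ) • P = 0 := by
  by_cases h5 : 5 ≤ ℓ
  · exact frobRelationFin ℓ h5 E hΔ k P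
  · have hp : ℓ.Prime := Fact.out
    have h23 : ℓ = 2 ∨ ℓ = 3 := by
      have h2 := hp.two_le
      have h4 : ℓ ≠ 4 := by
        rintro rfl
        exact absurd hp (by norm_num)
      omega
    rcases h23 with h | h
    · subst h
      exact Two.frobRelationFin_two E hΔ k P
    · subst h
      exact Three.frobRelationFin_three E hΔ k P

/-- **The Frobenius relation on prime-to-`ℓ` torsion of `W(ℚ̄)`, every prime `ℓ` of good
reduction.** -/
theorem frobRelationAll (W : WeierstrassCurve ℤ) (ℓ : ℕ) (hℓ : ℓ.Prime)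
    (hgood : W.IsGoodPrimeFor ℓ) (A : ValuationSubring Qb) (σ : Qb ≃ₐ[ℚ] Qb)
    (hA : A.LiesOverPrime ℓ) (hσ : A.IsFrobeniusAt σ ℓ) (n : ℕ) (hn : 0 < n) (hℓn : ¬ ℓ ∣ n)
    (P : Pts W) (hP : n • P = 0) :
    σ • σ • P - W.apOfModel ℓ • σ • P + (ℓ : ℤ) • P = 0 := by
  have : Fact ℓ.Prime := ⟨hℓ⟩
  obtain ⟨k, hk1, hk2, hk3, red, hinj, hcomm⟩ := reductionData W ℓ hgood A σ hA hσ n hn hℓn
  have hmem : P ∈ Submodule.torsionBy ℤ (Pts W) n := by
    rw [Submodule.mem_torsionBy_iff]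
    rw [← hP]
    exact (natCast_zsmul P n)
  set P' : Submodule.torsionBy ℤ (Pts W) n := ⟨P, hmem⟩ with hP'
  have key : σ • σ • P' - W.apOfModel ℓ • σ • P' + (ℓ : ℤ) • P' = 0 := by
    apply hinj
    rw [_root_.map_zero, map_add, map_sub, map_zsmul, map_zsmul, hcomm, hcomm]
    exact frobRelationFinAll ℓ (W.reductionMod ℓ) (reductionMod_Δ_ne_zero W ℓ hgood) k (red P')
  have h2 := congrArg Subtype.val key
  simp only [Submodule.coe_add, Submodule.coe_sub, Submodule.coe_smul_of_tower,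
    coe_galois_smul_torsion, ZeroMemClass.coe_zero] at h2
  exact h2

end Fermat.Agent.Lib.Frob23

end
-- ===== PACK-END Lib/Frob23/Main.lean

-- ===== PACK-BEGIN S59/TW/H564/KQArith.lean
section


/-!
# S59 / TW, leaf MODQ (helper564): arithmetic of `Δ_Q`

* `kexp p qv = ∑ v_p(q_j - 1)`; `chi_pow_eq_one` : `Δ_Q` is killed by `p ^ kexp`;
* `hhalf p qv = (p ^ kexp - 1) / 2`; `isHalf_hhalf` : `Aut.IsHalf p qv (hhalf p qv)` (`p` odd);
* `diamondU_pow_eq` : the diamond operators of `K_Q` have order dividing `p ^ kexp`.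
-/

set_option autoImplicit false
set_option linter.unusedSectionVars false

noncomputable section

namespace Fermat.Agent.S59.TW.H564

open CongruenceSubgroup
open Fermat.Agent.S59.TW.H653 Fermat.Agent.S59.TW.Aut
open scoped MatrixGroups

variable (p N₀ : ℕ) {r : ℕ} (qv : Fin r → ℕ)

/-- The exponent `∑ v_p(q_j - 1)`. -/
def kexp : ℕ := ∑ j, padicValNat p (qv j - 1)

theorem padicValNat_le_kexp (j : Fin r) : padicValNat p (qv j - 1) ≤ kexp p qv :=
  Finset.single_le_sum (f := fun j => padicValNat p (qv j - 1)) (fun _ _ => Nat.zero_le _)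
    (Finset.mem_univ j)

/-- `Δ_Q` is killed by `p ^ kexp`. -/
theorem chi_pow_eq_one (u : (ZMod (bLevel N₀ qv))ˣ) :
    chi p N₀ qv (u ^ p ^ kexp p qv) = 1 := by
  unfold chi
  rw [MonoidHom.comp_apply, QuotientGroup.mk'_apply, QuotientGroup.eq_one_iff]
  unfold powSub
  rw [Subgroup.mem_pi]
  intro j _
  obtain ⟨d, hd⟩ := Nat.exists_eq_add_of_le (padicValNat_le_kexp p qv j)
  refine ⟨(red N₀ qv u j) ^ p ^ d, ?_⟩
  have h1 : p ^ kexp p qv = p ^ d * p ^ padicValNat p (qv j - 1) := by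
    rw [hd, pow_add, mul_comm]
  rw [powMonoidHom_apply, map_pow (red N₀ qv), Pi.pow_apply, h1, pow_mul]

/-- `(p ^ kexp - 1) / 2`. -/
def hhalf : ℕ := (p ^ kexp p qv - 1) / 2

variable {p}

theorem two_mul_hhalf_add_one (hp : p.Prime) (hp2 : p ≠ 2) :
    2 * hhalf p qv + 1 = p ^ kexp p qv := by
  have hodd : Odd (p ^ kexp p qv) := (hp.odd_of_ne_two hp2).pow
  obtain ⟨c, hc⟩ := hodd
  unfold hhalf
  rw [hc]
  omega

theorem isHalf_hhalf (hp : p.Prime) (hp2 : p ≠ 2) : IsHalf p qv (hhalf p qv) := by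
  intro j
  rw [two_mul_hhalf_add_one qv hp hp2]
  exact pow_dvd_pow p (padicValNat_le_kexp p qv j)

variable (p)

/-- The diamond operators of `K_Q` have order dividing `p ^ kexp`. -/
theorem diamondU_pow_eq {A : Type} [AddCommGroup A] [NeZero (bLevel N₀ qv)]
    (u : (ZMod (bLevel N₀ qv))ˣ) (x : Additive (KQ p N₀ qv) →+ A) :
    diamondU (isMid_KQ p N₀ qv) (u ^ p ^ kexp p qv) x = x :=
  diamondU_of_chi p N₀ qv (chi_pow_eq_one p N₀ qv u) x

end Fermat.Agent.S59.TW.H564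

end
end
-- ===== PACK-END S59/TW/H564/KQArith.lean

-- ===== PACK-BEGIN S55/E1/H245/Alg10Pair.lean
section
/-
S55 engine E1 — leaf ALG10P (pairing formula), helper245.
`alg10Pair : ALG10PairSpec` (exact frozen type of `E1/SpecAlg3.lean`):
`⟨tr f, inf x⟩ = inf_ι ⟨f, x⟩`.

Proof: `(trR, trP, ν)` is a morphism of short exact sequences `(R', P', N') → res π (R, P, N)`
of `G'`-modules; naturality of `δ` for coefficient morphisms (Mathlib) and under change of
group (`H783.δ_naturality_map`, on main) plus `groupCohomology.map_comp`.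
-/



set_option autoImplicit false

open CategoryTheory CategoryTheory.Limits groupCohomology

namespace Fermat.Agent.S55.E1.H245

noncomputable section

variable {G G' : Type} [Group G] [Group G'] (π : G' →* G)

/-- `map π φ` followed by a coefficient map. -/
lemma map_then_coeff {A : Rep.{0} ℤ G} {B C : Rep.{0} ℤ G'} (φ : Rep.res π A ⟶ B) (ψ : B ⟶ C)
    (n : ℕ) (z : groupCohomology A n) :
    (T.coeffMap ψ n).hom ((groupCohomology.map π φ n).hom z) =
      (groupCohomology.map π (φ ≫ ψ) n).hom z := by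
  have h := groupCohomology.map_comp (k := ℤ) π (MonoidHom.id G') φ ψ n
  have h' : groupCohomology.map π (φ ≫ ψ) n =
      groupCohomology.map π φ n ≫ groupCohomology.map (MonoidHom.id G') ψ n := by
    rw [← h]
    exact groupCohomology.map_congr rfl rfl n
  rw [h']
  rfl

/-- A coefficient map followed by `map π φ`. -/
lemma coeff_then_map {A A₂ : Rep.{0} ℤ G} {B : Rep.{0} ℤ G'} (f : A ⟶ A₂)
    (φ : Rep.res π A₂ ⟶ B) (n : ℕ) (z : groupCohomology A n) :
    (groupCohomology.map π φ n).hom ((T.coeffMap f n).hom z) =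
      (groupCohomology.map π ((Rep.resFunctor π).map f ≫ φ) n).hom z := by
  have h := groupCohomology.map_comp (k := ℤ) (MonoidHom.id G) π f φ n
  have h' : groupCohomology.map π ((Rep.resFunctor π).map f ≫ φ) n =
      groupCohomology.map (MonoidHom.id G) f n ≫ groupCohomology.map π φ n := by
    rw [← h]
    exact groupCohomology.map_congr rfl rfl n
  rw [h']
  rfl

variable {N : Rep.{0} ℤ G} {N' : Rep.{0} ℤ G'}

/-- The morphism of short complexes `(R', P', N') ⟶ res π (R, P, N)`. -/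
def trSC (ν : N' ⟶ Rep.res π N) : stdSC N' ⟶ (stdSC N).map (Rep.resFunctor π) where
  τ₁ := trR π ν
  τ₂ := trP π ν
  τ₃ := ν
  comm₁₂ := trR_stdι π ν
  comm₂₃ := trP_stdε π ν

theorem stdSC_res_shortExact245 (N : Rep.{0} ℤ G) :
    ((stdSC N).map (Rep.resFunctor π)).ShortExact :=
  (Rep.shortExact_res π).2 (stdSC_shortExact N)

/-- `δ` of the restricted presentation commutes with inflation. -/
lemma δ_res_inf (N : Rep.{0} ℤ G) (x : groupCohomology N 1) :
    (groupCohomology.δ (stdSC_res_shortExact245 π N) 1 2 rfl).hom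
        ((groupCohomology.map π (𝟙 (Rep.res π N)) 1).hom x) =
      (groupCohomology.map π (𝟙 (Rep.res π (stdR N))) 2).hom (stdδ N x) := by
  have h := H783.δ_naturality_map π (stdSC_shortExact N) (stdSC_res_shortExact245 π N)
    (𝟙 ((stdSC N).map (Rep.resFunctor π))) 1 2 rfl
  have h' := congrArg (fun t => t.hom x) h
  exact h'.symm

/-- `(trR)_* ∘ δ' = δ_res ∘ ν_*`. -/
lemma trR_δ (ν : N' ⟶ Rep.res π N) (y : groupCohomology N' 1) :
    (T.coeffMap (trR π ν) 2).hom (stdδ N' y) =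
      (groupCohomology.δ (stdSC_res_shortExact245 π N) 1 2 rfl).hom
        ((T.coeffMap ν 1).hom y) := by
  have h := groupCohomology.δ_naturality (stdSC_shortExact N') (stdSC_res_shortExact245 π N)
    (trSC π ν) 1 2 rfl
  have h' := congrArg (fun t => t.hom y) h
  exact h'

/-- **ALG10 (pairing).** -/
theorem alg10Pair : ALG10PairSpec := by
  intro G G' _ _ π N N' ν X X' ι f x
  change (T.coeffMap (trR π ν.hom ≫ (Rep.resFunctor π).map f ≫ ι) 2).hom
      (stdδ N' ((groupCohomology.map π ν.inv 1).hom x)) =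
    (groupCohomology.map π ι 2).hom ((T.coeffMap f 2).hom (stdδ N x))
  rw [coeff_then_map]
  have h1 : (T.coeffMap (trR π ν.hom ≫ (Rep.resFunctor π).map f ≫ ι) 2).hom
      (stdδ N' ((groupCohomology.map π ν.inv 1).hom x)) =
      (T.coeffMap ((Rep.resFunctor π).map f ≫ ι) 2).hom
        ((T.coeffMap (trR π ν.hom) 2).hom
          (stdδ N' ((groupCohomology.map π ν.inv 1).hom x))) := by
    have h0 := groupCohomology.map_id_comp (k := ℤ) (trR π ν.hom)
      ((Rep.resFunctor π).map f ≫ ι) 2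
    exact congrArg (fun t => t.hom (stdδ N' ((groupCohomology.map π ν.inv 1).hom x))) h0
  rw [h1, trR_δ, map_then_coeff, Iso.inv_hom_id, δ_res_inf, map_then_coeff, Category.id_comp]

end

end Fermat.Agent.S55.E1.H245

end
-- ===== PACK-END S55/E1/H245/Alg10Pair.lean

-- ===== PACK-BEGIN S55/E1/H298/Alg9.lean
section



/-!
# S55 engine E1, block ALG, leaf ALG9 (helper298)

The edge map `δ' : H¹(G, 𝔹) → H²(G, Hom_ℤ(N, X))` of
`0 → Hom_ℤ(N, X) → Hom_ℤ(P, X) → 𝔹 → 0` (`P = ℤ[G]^{(N)}`) is bijective.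

* `ihomFreeLEquiv` : `Hom_k(k[G]^{(α)}, X) ≃ₗ[k] (G → (α → X))`,
  `φ ↦ (x ↦ (a ↦ x • φ(x⁻¹ • e_a)))`;
* `ihomFreeIsoFunRep` : `Hom_k(k[G]^{(α)}, X) ≅ funRep k G (α → X)` (coinduced), for ANY group `G`;
* `isZero_groupCohomology_ihom_free` : `Hⁿ⁺¹(G, Hom_k(k[G]^{(α)}, X)) = 0`;
* `alg9 : ALG9Spec`.
-/

set_option autoImplicit false

open CategoryTheory CategoryTheory.Limits

namespace Fermat.Agent.S55.E1.H298

open Fermat.Agent.S55.E1

noncomputable section

section IhomFree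

variable (k G α : Type) [CommRing k] [Group G] (X : Rep.{0} k G)

/-- The basis vector `g • e_a` of `k[G]^{(α)}`. -/
def freeBasisVec (a : α) (g : G) : (Rep.free k G α).V :=
  Finsupp.single a (MonoidAlgebra.single g (1 : k))

lemma free_ρ_freeBasisVec (h : G) (a : α) (g : G) :
    (Rep.free k G α).ρ h (freeBasisVec k G α a g) = freeBasisVec k G α a (h * g) := by
  unfold freeBasisVec
  exact Representation.free_single_single h g a 1

/-- The linear map `k[G]^{(α)} → V` with prescribed values on the basis `g • e_a`. -/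
def freeDesc {V : Type} [AddCommGroup V] [Module k V] (F : α → G → V) :
    (α →₀ MonoidAlgebra k G) →ₗ[k] V :=
  Finsupp.lsum k (fun a => (Finsupp.linearCombination k (F a)) ∘ₗ
    (MonoidAlgebra.coeffLinearEquiv k).toLinearMap)

lemma freeDesc_freeBasisVec {V : Type} [AddCommGroup V] [Module k V] (F : α → G → V)
    (a : α) (g : G) : freeDesc k G α F (freeBasisVec k G α a g) = F a g := by
  simp [freeDesc, freeBasisVec]

/-- Two linear maps on `k[G]^{(α)}` agreeing on the basis `g • e_a` are equal. -/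
lemma free_lhom_ext {V : Type} [AddCommGroup V] [Module k V]
    {φ ψ : (α →₀ MonoidAlgebra k G) →ₗ[k] V}
    (h : ∀ (a : α) (g : G), φ (freeBasisVec k G α a g) = ψ (freeBasisVec k G α a g)) :
    φ = ψ := by
  apply Finsupp.lhom_ext
  intro a m
  induction m using MonoidAlgebra.induction_linear with
  | zero => simp
  | add f₁ f₂ h₁ h₂ => rw [Finsupp.single_add, map_add, map_add, h₁, h₂]
  | single g c =>
    have e : (Finsupp.single a (MonoidAlgebra.single g c) : α →₀ MonoidAlgebra k G) =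
        c • freeBasisVec k G α a g := by
      unfold freeBasisVec
      rw [Finsupp.smul_single, MonoidAlgebra.smul_single, smul_eq_mul, mul_one]
    rw [e, map_smul, map_smul, h]

/-- `Hom_k(k[G]^{(α)}, X) ≃ₗ[k] (G → (α → X))`, `φ ↦ (x ↦ (a ↦ x • φ(x⁻¹ • e_a)))`. -/
def ihomFreeLEquiv :
    ((Rep.ihom (Rep.free k G α)).obj X).V ≃ₗ[k] (G → (α → X.V)) where
  toFun φ := fun x a => X.ρ x (T.H719.ihomLin φ (freeBasisVec k G α a x⁻¹))
  map_add' φ ψ := by
    funext x a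
    change X.ρ x ((T.H719.ihomLin φ + T.H719.ihomLin ψ) (freeBasisVec k G α a x⁻¹)) = _
    rw [LinearMap.add_apply, map_add]
    rfl
  map_smul' c φ := by
    funext x a
    change X.ρ x ((c • T.H719.ihomLin φ) (freeBasisVec k G α a x⁻¹)) = _
    rw [LinearMap.smul_apply, map_smul]
    rfl
  invFun f := T.H719.ihomMk (freeDesc k G α (fun a g => X.ρ g (f g⁻¹ a)))
  left_inv φ := by
    apply free_lhom_ext
    intro a g
    change freeDesc k G α _ (freeBasisVec k G α a g) = _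
    rw [freeDesc_freeBasisVec]
    change X.ρ g (X.ρ g⁻¹ (T.H719.ihomLin φ (freeBasisVec k G α a g⁻¹⁻¹))) = _
    rw [inv_inv, ← Module.End.mul_apply, ← map_mul, mul_inv_cancel, map_one,
      Module.End.one_apply]
  right_inv f := by
    funext x a
    change X.ρ x (freeDesc k G α _ (freeBasisVec k G α a x⁻¹)) = _
    rw [freeDesc_freeBasisVec, inv_inv, ← Module.End.mul_apply, ← map_mul, mul_inv_cancel,
      map_one, Module.End.one_apply]

lemma ihomFreeLEquiv_apply (φ : ((Rep.ihom (Rep.free k G α)).obj X).V) (x : G) (a : α) :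
    ihomFreeLEquiv k G α X φ x a = X.ρ x (T.H719.ihomLin φ (freeBasisVec k G α a x⁻¹)) := rfl

lemma ihomFreeLEquiv_equivariant (g : G) (φ : ((Rep.ihom (Rep.free k G α)).obj X).V) :
    ihomFreeLEquiv k G α X (((Rep.ihom (Rep.free k G α)).obj X).ρ g φ)
      = Fermat.Agent.S55.H783.funRho k G (α → X.V) g (ihomFreeLEquiv k G α X φ) := by
  funext x a
  rw [Fermat.Agent.S55.H783.funRho_apply, ihomFreeLEquiv_apply, ihomFreeLEquiv_apply,
    T.H719.ihom_ρ_apply, free_ρ_freeBasisVec, mul_inv_rev, map_mul, Module.End.mul_apply]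

/-- `Hom_k(k[G]^{(α)}, X)` is coinduced (for any group `G`). -/
def ihomFreeIsoFunRep :
    (Rep.ihom (Rep.free k G α)).obj X ≅ Fermat.Agent.S55.H783.funRep k G (α → X.V) :=
  Rep.mkIso
    { toLinearEquiv := ihomFreeLEquiv k G α X
      isIntertwining' := fun g => by
        apply LinearMap.ext
        intro φ
        exact ihomFreeLEquiv_equivariant k G α X g φ }

/-- `Hⁿ⁺¹(G, Hom_k(k[G]^{(α)}, X)) = 0`. -/
theorem isZero_groupCohomology_ihom_free (n : ℕ) :
    IsZero (groupCohomology ((Rep.ihom (Rep.free k G α)).obj X) (n + 1)) :=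
  (Fermat.Agent.S55.H783.isZero_funRep (k := k) (G := G) (α → X.V) n).of_iso
    ((groupCohomology.functor k G (n + 1)).mapIso (ihomFreeIsoFunRep k G α X))

end IhomFree

section Alg9

/-- **ALG9.** The edge map `δ' : H¹(G, 𝔹) → H²(G, Hom_ℤ(N, X))` is bijective
(for any group `G`; finiteness is not needed). -/
theorem edgeδ_bijective {G : Type} [Group G] (N X : Rep.{0} ℤ G) :
    Function.Bijective (edgeδ N X) := by
  have h := groupCohomology.isIso_δ_of_isZero (edgeSC_shortExact N X) 1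
    (isZero_groupCohomology_ihom_free ℤ G N.V X 0)
    (isZero_groupCohomology_ihom_free ℤ G N.V X 1)
  exact (ConcreteCategory.isIso_iff_bijective _).mp h

/-- **ALG9.** -/
theorem alg9 : ALG9Spec := by
  intro G _ _ N X
  exact edgeδ_bijective N X

end Alg9

end

end Fermat.Agent.S55.E1.H298

end
-- ===== PACK-END S55/E1/H298/Alg9.lean

-- ===== PACK-BEGIN S55/E1/H603/E2Map.lean
section
/-
S55 / engine E1 / block LIM, leaf LIM5 (helper603): coefficient functoriality of `𝔈²` and the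
Shapiro comparison `ker(𝔈²_G(E) → 𝔈²_G(Coind X)) = ker(tr_φ : 𝔈²_G(E) → 𝔈²_D(X))`.

* `e2Map N f : 𝔈²(X) → 𝔈²(Y)` for `f : X ⟶ Y`;
* `trE2_comp_e2Map` : `tr_{π, ν, f ≫ ι} = tr_{π, ν, ι} ∘ f_*`;
* `ALG12Spec` : (Shapiro on `𝔈²`) `tr_{φ, 𝟙, ev₁} : 𝔈²_G(Coind_φ X) → 𝔈²_D(X)` is injective
  for `φ : D →* G` injective, `G` finite;
* `e2Map_eq_zero_iff` : consequence for a morphism `E ⟶ Coind_φ X`.
No sorry.
-/



set_option autoImplicit false

open CategoryTheory CategoryTheory.Limits groupCohomology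

namespace Fermat.Agent.S55.E1.H603

open Fermat.Agent.S55.E1
open Fermat.Agent.S55.T.H719 (ihomLin)

noncomputable section

variable {G G' : Type} [Group G] [Group G']

/-- The formula for `groupCohomology.map` in degree one on classes of cocycles. -/
theorem map_H1π (π : G' →* G) {A : Rep.{0} ℤ G} {B : Rep.{0} ℤ G'} (φ : Rep.res π A ⟶ B)
    (c : cocycles₁ A) :
    (groupCohomology.map π φ 1).hom ((H1π A).hom c) =
      (H1π B).hom ((mapCocycles₁ π φ).hom c) :=
  H1π_comp_map_apply (A := A) (B := B) π φ c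

/-- The formula for `groupCohomology.map` in degree two on classes of cocycles. -/
theorem map_H2π (π : G' →* G) {A : Rep.{0} ℤ G} {B : Rep.{0} ℤ G'} (φ : Rep.res π A ⟶ B)
    (c : cocycles₂ A) :
    (groupCohomology.map π φ 2).hom ((H2π A).hom c) =
      (H2π B).hom ((mapCocycles₂ π φ).hom c) := by
  have hcomp := congrArg (fun ψ => ψ.hom c) (H2π_comp_map (A := A) (B := B) π φ)
  simp only [ModuleCat.hom_comp, LinearMap.comp_apply] at hcomp
  exact hcomp

/-- `f_* : 𝔈²(X) → 𝔈²(Y)` for a morphism of coefficient modules `f : X ⟶ Y`. -/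
def e2Map (N : Rep.{0} ℤ G) {X Y : Rep.{0} ℤ G} (f : X ⟶ Y) : E2 N X →ₗ[ℤ] E2 N Y :=
  (groupCohomology.map (MonoidHom.id G) ((Rep.ihom (stdR N)).map f) 1).hom

theorem e2Map_H1π (N : Rep.{0} ℤ G) {X Y : Rep.{0} ℤ G} (f : X ⟶ Y)
    (c : cocycles₁ ((Rep.ihom (stdR N)).obj X)) :
    e2Map N f ((H1π _).hom c) =
      (H1π ((Rep.ihom (stdR N)).obj Y)).hom
        ((mapCocycles₁ (MonoidHom.id G) ((Rep.ihom (stdR N)).map f)).hom c) := by
  unfold e2Map
  exact map_H1π (A := (Rep.ihom (stdR N)).obj X) (B := (Rep.ihom (stdR N)).obj Y)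
    (MonoidHom.id G) ((Rep.ihom (stdR N)).map f) c

theorem trE2_H1π (π : G' →* G) {N : Rep.{0} ℤ G} {N' : Rep.{0} ℤ G'} (ν : N' ⟶ Rep.res π N)
    {X : Rep.{0} ℤ G} {X' : Rep.{0} ℤ G'} (ι : Rep.res π X ⟶ X')
    (c : cocycles₁ ((Rep.ihom (stdR N)).obj X)) :
    trE2 π ν ι ((H1π _).hom c) =
      (H1π ((Rep.ihom (stdR N')).obj X')).hom
        ((mapCocycles₁ π (trIhom π (trR π ν) ι)).hom c) := by
  unfold trE2
  exact map_H1π (A := (Rep.ihom (stdR N)).obj X) (B := (Rep.ihom (stdR N')).obj X')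
    π (trIhom π (trR π ν) ι) c

/-- `tr_{π, ν, f ≫ ι} = tr_{π, ν, ι} ∘ f_*`. -/
theorem trE2_comp_e2Map (π : G' →* G) {N : Rep.{0} ℤ G} {N' : Rep.{0} ℤ G'}
    (ν : N' ⟶ Rep.res π N) {X Y : Rep.{0} ℤ G} {X' : Rep.{0} ℤ G'} (f : X ⟶ Y)
    (ι : Rep.res π Y ⟶ X') (y : E2 N X) :
    trE2 π ν ((Rep.resFunctor π).map f ≫ ι) y = trE2 π ν ι (e2Map N f y) := by
  induction y using H1_induction_on with | @h c =>
  rw [trE2_H1π, e2Map_H1π, trE2_H1π]
  rfl

/-- **ALG12 (Shapiro on `𝔈²`).** For `φ : D →* G` injective (`G` finite) and a `D`-module `X`,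
the map `tr_{φ, 𝟙, ev₁} : 𝔈²_G(Coind_φ X) → 𝔈²_D(X)` (restriction to `D`, evaluation at `1`,
restriction to the standard presentation of `N|_D`) is injective. -/
def ALG12Spec : Prop :=
  ∀ (G D : Type) [Group G] [Group D] [Finite G] (φ : D →* G), Function.Injective φ →
    ∀ (N : Rep.{0} ℤ G) (X : Rep.{0} ℤ D),
      Function.Injective
        (trE2 φ (𝟙 (Rep.res φ N)) (H173.ev1Hom φ X) :
          E2 N (Rep.coind φ X) → E2 (Rep.res φ N) X)

/-- Consequence of ALG12: for `d : E ⟶ Coind_φ X` with `ev₁ ∘ d = emb`, the kernel of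
`d_* : 𝔈²_G(E) → 𝔈²_G(Coind_φ X)` is the kernel of `tr_{φ, 𝟙, emb} : 𝔈²_G(E) → 𝔈²_D(X)`. -/
theorem e2Map_eq_zero_iff (h12 : ALG12Spec) {D : Type} [Group D] [Finite G] (φ : D →* G)
    (hφ : Function.Injective φ) (N E : Rep.{0} ℤ G) (X : Rep.{0} ℤ D)
    (d : E ⟶ Rep.coind φ X) (emb : Rep.res φ E ⟶ X)
    (hemb : (Rep.resFunctor φ).map d ≫ H173.ev1Hom φ X = emb) (y : E2 N E) :
    e2Map N d y = 0 ↔ trE2 φ (𝟙 (Rep.res φ N)) emb y = 0 := by
  rw [← hemb, trE2_comp_e2Map]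
  constructor
  · intro h
    rw [h, map_zero]
  · intro h
    exact h12 G D φ hφ N X (by rw [h, map_zero])

end

end Fermat.Agent.S55.E1.H603

end
-- ===== PACK-END S55/E1/H603/E2Map.lean

-- ===== PACK-BEGIN S55/E1/H603/Lambda.lean
section
/-
S55 / engine E1 / block LIM, leaf LIM5 (helper603): the identification
`Hom_ℤ(N, X) ≅ B` for `N = B^*(χ)` and a module `X` with `X[p] = ⟨z⟩ ≅ μ_p`.

Abstract setting: `Γ` a group, `B : Rep (ZMod p) Γ` finite dimensional, `χ : Γ →* (ZMod p)ˣ`,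
* `DualModel B χ N` : `N : Rep ℤ Γ` with an equivariant additive bijection `N ≃ B.dualTwist χ`;
* `MuData χ X`     : `z ∈ X` of order `p` generating `X[p]`, with `g z = χ(g) z`;
* `lam : toInt B ⟶ Hom_ℤ(N, X)`, `m ↦ (n ↦ ⟨n, m⟩ • z)`, bijective (`lam_bijective`);
* `lam_tr` : compatibility with change of group.
No sorry.
-/





set_option autoImplicit false
set_option linter.style.haveILetI false

open CategoryTheory groupCohomology

namespace Fermat.Agent.S55.E1.H603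

open Fermat.Agent.S55.E1
open Fermat.Agent.S55.T.H719 (ihomLin ihomMk)

noncomputable section

section Generic

variable {k : Type} [CommRing k] {Γ : Type} [Group Γ] {N X A Y : Rep.{0} k Γ}

/-- An additive, `k`-homogeneous map as an element of `Hom_k(N, X)`. -/
def ihomOfAddGen (f : N.V →+ X.V) (hf : ∀ (c : k) (n : N.V), f (c • n) = c • f n) :
    ((Rep.ihom N).obj X).V :=
  ihomMk { toFun := f, map_add' := f.map_add, map_smul' := hf }

theorem ihomOfAddGen_apply (f : N.V →+ X.V) (hf : ∀ (c : k) (n : N.V), f (c • n) = c • f n)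
    (n : N.V) : ihomLin (ihomOfAddGen f hf) n = f n := rfl

theorem ihom_ext {φ ψ : ((Rep.ihom N).obj X).V} (h : ∀ n, ihomLin φ n = ihomLin ψ n) :
    φ = ψ := LinearMap.ext h

theorem ihomLin_add (φ ψ : ((Rep.ihom N).obj X).V) (n : N.V) :
    ihomLin (φ + ψ) n = ihomLin φ n + ihomLin ψ n := rfl

theorem ihomLin_sub (φ ψ : ((Rep.ihom N).obj X).V) (n : N.V) :
    ihomLin (φ - ψ) n = ihomLin φ n - ihomLin ψ n := rfl

theorem ihomLin_zero (n : N.V) : ihomLin (0 : ((Rep.ihom N).obj X).V) n = 0 := rfl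

theorem ihomLin_neg (φ : ((Rep.ihom N).obj X).V) (n : N.V) :
    ihomLin (-φ) n = -ihomLin φ n := rfl

/-- An additive, homogeneous, equivariant map as a morphism of representations. -/
def repHomOfAddGen (f : A.V →+ Y.V) (hf : ∀ (c : k) (a : A.V), f (c • a) = c • f a)
    (hcomm : ∀ (g : Γ) (a : A.V), f (A.ρ g a) = Y.ρ g (f a)) : A ⟶ Y :=
  Rep.ofHom ⟨{ toFun := f, map_add' := f.map_add, map_smul' := hf },
    fun g => LinearMap.ext fun a => hcomm g a⟩

theorem repHomOfAddGen_apply (f : A.V →+ Y.V) (hf : ∀ (c : k) (a : A.V), f (c • a) = c • f a)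
    (hcomm : ∀ (g : Γ) (a : A.V), f (A.ρ g a) = Y.ρ g (f a)) (a : A.V) :
    (repHomOfAddGen f hf hcomm).hom a = f a := rfl

end Generic

section IntHelpers

variable {Γ : Type} [Group Γ]

/-- An additive map as an element of `Hom_ℤ(N, X)`. -/
def ihomOfAdd {N X : Rep.{0} ℤ Γ} (f : N.V →+ X.V) : ((Rep.ihom N).obj X).V :=
  ihomOfAddGen (k := ℤ) f (fun c n => by
    have h1 := int_smul_eq_zsmul N.hV2 c n
    have h2 := int_smul_eq_zsmul X.hV2 c (f n)
    exact (congrArg f h1).trans ((map_zsmul f c n).trans h2.symm))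

theorem ihomOfAdd_apply {N X : Rep.{0} ℤ Γ} (f : N.V →+ X.V) (n : N.V) :
    ihomLin (ihomOfAdd f) n = f n := rfl

/-- An additive equivariant map as a morphism in `Rep ℤ Γ`. -/
def repHomOfAdd {A Y : Rep.{0} ℤ Γ} (f : A.V →+ Y.V)
    (hcomm : ∀ (g : Γ) (a : A.V), f (A.ρ g a) = Y.ρ g (f a)) : A ⟶ Y :=
  repHomOfAddGen (k := ℤ) f (fun c n => by
    have h1 := int_smul_eq_zsmul A.hV2 c n
    have h2 := int_smul_eq_zsmul Y.hV2 c (f n)
    exact (congrArg f h1).trans ((map_zsmul f c n).trans h2.symm)) hcomm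

theorem repHomOfAdd_apply {A Y : Rep.{0} ℤ Γ} (f : A.V →+ Y.V)
    (hcomm : ∀ (g : Γ) (a : A.V), f (A.ρ g a) = Y.ρ g (f a)) (a : A.V) :
    (repHomOfAdd f hcomm).hom a = f a := rfl

end IntHelpers

variable {p : ℕ} [Fact p.Prime] {Γ : Type} [Group Γ]

/-- A `μ_p`-structure on `X`: an element `z` of order `p` generating the `p`-torsion, on which
`Γ` acts through `χ`. -/
structure MuData (χ : Γ →* (ZMod p)ˣ) (X : Rep.{0} ℤ Γ) where
  /-- the generator -/
  z : X.V
  p_nsmul : p • z = 0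
  ne_zero : z ≠ 0
  tors : ∀ x : X.V, p • x = 0 → ∃ k : ℕ, x = k • z
  act : ∀ g : Γ, X.ρ g z = ((χ g : ZMod p).val) • z

namespace MuData

variable {χ : Γ →* (ZMod p)ˣ} {X : Rep.{0} ℤ Γ} (μ : MuData χ X)

/-- `a ↦ a • z`, `ZMod p →+ X`. -/
def zl : ZMod p →+ X.V :=
  ZMod.lift p ⟨zmultiplesHom X.V μ.z, by
    rw [zmultiplesHom_apply, natCast_zsmul]
    exact μ.p_nsmul⟩

theorem zl_natCast (k : ℕ) : μ.zl (k : ZMod p) = k • μ.z := by
  have h : μ.zl ((k : ℤ) : ZMod p) = zmultiplesHom X.V μ.z (k : ℤ) := ZMod.lift_coe p _ _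
  rw [zmultiplesHom_apply, natCast_zsmul] at h
  rw [← h]
  norm_cast

theorem zl_apply (a : ZMod p) : μ.zl a = a.val • μ.z := by
  haveI : NeZero p := ⟨(Fact.out : p.Prime).ne_zero⟩
  conv_lhs => rw [← ZMod.natCast_zmod_val a]
  exact μ.zl_natCast a.val

theorem zl_one : μ.zl 1 = μ.z := by
  have := μ.zl_natCast 1
  simpa using this

theorem addOrderOf_z : addOrderOf μ.z = p :=
  addOrderOf_eq_prime μ.p_nsmul μ.ne_zero

theorem zl_injective : Function.Injective μ.zl := by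
  haveI : NeZero p := ⟨(Fact.out : p.Prime).ne_zero⟩
  rw [injective_iff_map_eq_zero]
  intro a ha
  rw [zl_apply] at ha
  have hdvd : p ∣ a.val := by
    have h := addOrderOf_dvd_of_nsmul_eq_zero ha
    rwa [μ.addOrderOf_z] at h
  have hlt : a.val < p := ZMod.val_lt a
  have h0 : a.val = 0 := Nat.eq_zero_of_dvd_of_lt hdvd hlt
  exact (ZMod.val_eq_zero a).1 h0

theorem exists_zl_eq (x : X.V) (hx : p • x = 0) : ∃ a : ZMod p, μ.zl a = x := by
  obtain ⟨k, rfl⟩ := μ.tors x hx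
  exact ⟨(k : ZMod p), μ.zl_natCast k⟩

theorem ρ_zl (g : Γ) (a : ZMod p) : X.ρ g (μ.zl a) = μ.zl ((χ g : ZMod p) * a) := by
  haveI : NeZero p := ⟨(Fact.out : p.Prime).ne_zero⟩
  rw [zl_apply, map_nsmul, μ.act g, ← mul_nsmul']
  rw [← zl_natCast]
  have h : (((a.val * (χ g : ZMod p).val : ℕ)) : ZMod p) = (χ g : ZMod p) * a := by
    rw [Nat.cast_mul, ZMod.natCast_zmod_val, ZMod.natCast_zmod_val, mul_comm]
  rw [h]

end MuData

/-- A model over `ℤ` of the Tate-twisted dual `B^*(χ)`. -/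
structure DualModel (B : Rep.{0, 0, 0} (ZMod p) Γ) (χ : Γ →* (ZMod p)ˣ) (N : Rep.{0} ℤ Γ) where
  /-- the identification -/
  e : N.V ≃+ Module.Dual (ZMod p) B.V
  equivariant : ∀ (g : Γ) (n : N.V), e (N.ρ g n) = (B.dualTwist χ).ρ g (e n)

section Lam

variable {B : Rep.{0, 0, 0} (ZMod p) Γ} {χ : Γ →* (ZMod p)ˣ} {N X : Rep.{0} ℤ Γ}
  (dm : DualModel B χ N) (μ : MuData χ X)

/-- Evaluation at `m`, as an additive map on the dual. -/
def evalAt (m : B.V) : Module.Dual (ZMod p) B.V →+ ZMod p :=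
  (LinearMap.applyₗ m : Module.Dual (ZMod p) B.V →ₗ[ZMod p] ZMod p).toAddMonoidHom

@[simp] theorem evalAt_apply (m : B.V) (f : Module.Dual (ZMod p) B.V) : evalAt m f = f m := rfl

/-- `n ↦ ⟨n, m⟩ • z`, as an additive map. -/
def lamAdd (m : B.V) : N.V →+ X.V := μ.zl.comp ((evalAt m).comp dm.e.toAddMonoidHom)

theorem lamAdd_apply (m : B.V) (n : N.V) : lamAdd dm μ m n = μ.zl (dm.e n m) := rfl

theorem lamAdd_zero (n : N.V) : lamAdd dm μ 0 n = 0 := by
  rw [lamAdd_apply, map_zero, map_zero]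

theorem lamAdd_add (m m' : B.V) (n : N.V) :
    lamAdd dm μ (m + m') n = lamAdd dm μ m n + lamAdd dm μ m' n := by
  rw [lamAdd_apply, lamAdd_apply, lamAdd_apply, map_add, map_add]

theorem DualModel.e_ρ_inv_apply (g : Γ) (n : N.V) (m : B.V) :
    dm.e (N.ρ g⁻¹ n) m = ((χ g⁻¹ : (ZMod p)ˣ) : ZMod p) * dm.e n (B.ρ g m) := by
  rw [dm.equivariant, Rep.dualTwist_ρ_apply, inv_inv]
  rfl

theorem lamAdd_ρ (g : Γ) (m : B.V) (n : N.V) :
    lamAdd dm μ (B.ρ g m) n = X.ρ g (lamAdd dm μ m (N.ρ g⁻¹ n)) := by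
  rw [lamAdd_apply, lamAdd_apply, μ.ρ_zl, dm.e_ρ_inv_apply, ← mul_assoc, ← Units.val_mul,
    ← map_mul, mul_inv_cancel, map_one, Units.val_one, one_mul]

/-- The additive map underlying `lam`. -/
def lamHomAdd : (toInt B).V →+ ((Rep.ihom N).obj X).V where
  toFun m := ihomOfAdd (lamAdd dm μ m)
  map_zero' := ihom_ext fun n => lamAdd_zero dm μ n
  map_add' m m' := ihom_ext fun n => lamAdd_add dm μ m m' n

/-- `Λ : B ⟶ Hom_ℤ(N, X)`, `m ↦ (n ↦ ⟨n, m⟩ • z)`. -/
def lam : toInt B ⟶ (Rep.ihom N).obj X :=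
  repHomOfAdd (lamHomAdd dm μ) (fun g m => ihom_ext fun n => lamAdd_ρ dm μ g m n)

theorem lam_hom_apply (m : B.V) (n : N.V) :
    ihomLin ((lam dm μ).hom m) n = μ.zl (dm.e n m) := rfl

theorem lam_hom_eq (m : B.V) : (lam dm μ).hom m = ihomOfAdd (lamAdd dm μ m) := rfl

include dm in
/-- `N` is killed by `p`. -/
theorem DualModel.p_nsmul (n : N.V) : p • n = 0 := by
  apply dm.e.injective
  rw [map_nsmul, map_zero]
  have h : ((p : ZMod p)) • dm.e n = p • dm.e n := Nat.cast_smul_eq_nsmul (ZMod p) p (dm.e n)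
  rw [← h, ZMod.natCast_self, zero_smul]

theorem lam_injective : Function.Injective (lam dm μ).hom := by
  intro (m : B.V) (m' : B.V) h
  have h1 : ∀ n : N.V, dm.e n m = dm.e n m' := fun n => by
    apply μ.zl_injective
    have := congrArg (fun φ => ihomLin φ n) h
    exact this
  have h2 : ∀ f : Module.Dual (ZMod p) B.V, f (m - m') = 0 := fun f => by
    obtain ⟨n, rfl⟩ := dm.e.surjective f
    rw [map_sub, h1 n, sub_self]
  have h3 := (Module.forall_dual_apply_eq_zero_iff (ZMod p) (m - m')).1 h2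
  exact sub_eq_zero.1 h3

theorem lam_surjective [Module.Finite (ZMod p) B.V] : Function.Surjective (lam dm μ).hom := by
  intro φ
  have h1 : ∀ n : N.V, p • ihomLin φ n = 0 := fun n => by
    rw [← map_nsmul, DualModel.p_nsmul dm, map_zero]
  have hex : ∀ f : Module.Dual (ZMod p) B.V, ∃ a : ZMod p, μ.zl a = ihomLin φ (dm.e.symm f) :=
    fun f => μ.exists_zl_eq _ (h1 _)
  choose lf hlf using hex
  let lAdd : Module.Dual (ZMod p) B.V →+ ZMod p :=
    { toFun := lf
      map_zero' := by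
        apply μ.zl_injective
        rw [hlf, map_zero, map_zero, map_zero]
      map_add' := fun f f' => by
        apply μ.zl_injective
        rw [map_add, hlf, hlf, hlf, map_add, map_add] }
  let lLin : Module.Dual (ZMod p) (Module.Dual (ZMod p) B.V) := lAdd.toZModLinearMap p
  refine ⟨(Module.evalEquiv (ZMod p) B.V).symm lLin, ?_⟩
  refine ihom_ext fun n => ?_
  change μ.zl (dm.e n ((Module.evalEquiv (ZMod p) B.V).symm lLin)) = ihomLin φ n
  rw [Module.apply_evalEquiv_symm_apply]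
  change μ.zl (lf (dm.e n)) = ihomLin φ n
  rw [hlf, AddEquiv.symm_apply_apply]

theorem lam_bijective [Module.Finite (ZMod p) B.V] : Function.Bijective (lam dm μ).hom :=
  ⟨lam_injective dm μ, lam_surjective dm μ⟩

end Lam

/-! ### Bijective morphisms induce bijections on cohomology -/

section Iso

variable {k : Type} [CommRing k] {Γ : Type} [Group Γ]

/-- The linear equivalence underlying a bijective morphism. -/
def linEquivOfBijective {A Y : Rep.{0} k Γ} (f : A ⟶ Y) (hf : Function.Bijective f.hom) :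
    A.V ≃ₗ[k] Y.V :=
  LinearEquiv.ofBijective f.hom.toLinearMap hf

theorem linEquivOfBijective_apply {A Y : Rep.{0} k Γ} (f : A ⟶ Y)
    (hf : Function.Bijective f.hom) (a : A.V) : linEquivOfBijective f hf a = f.hom a := rfl

/-- The inverse of a bijective morphism. -/
def invOfBijective {A Y : Rep.{0} k Γ} (f : A ⟶ Y) (hf : Function.Bijective f.hom) : Y ⟶ A :=
  Rep.ofHom ⟨(linEquivOfBijective f hf).symm.toLinearMap, fun g => by
    refine LinearMap.ext fun y => ?_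
    apply (linEquivOfBijective f hf).injective
    change (linEquivOfBijective f hf) ((linEquivOfBijective f hf).symm (Y.ρ g y)) =
      f.hom (A.ρ g ((linEquivOfBijective f hf).symm y))
    rw [LinearEquiv.apply_symm_apply, Rep.hom_comm_apply]
    congr 1
    exact ((linEquivOfBijective f hf).apply_symm_apply y).symm⟩

theorem invOfBijective_hom_apply {A Y : Rep.{0} k Γ} (f : A ⟶ Y)
    (hf : Function.Bijective f.hom) (y : Y.V) :
    (invOfBijective f hf).hom y = (linEquivOfBijective f hf).symm y := rfl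

theorem comp_invOfBijective {A Y : Rep.{0} k Γ} (f : A ⟶ Y) (hf : Function.Bijective f.hom) :
    f ≫ invOfBijective f hf = 𝟙 A := by
  apply Rep.hom_ext
  apply DFunLike.ext
  intro a
  exact (linEquivOfBijective f hf).symm_apply_apply a

theorem invOfBijective_comp {A Y : Rep.{0} k Γ} (f : A ⟶ Y) (hf : Function.Bijective f.hom) :
    invOfBijective f hf ≫ f = 𝟙 Y := by
  apply Rep.hom_ext
  apply DFunLike.ext
  intro y
  exact (linEquivOfBijective f hf).apply_symm_apply y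

theorem map_bijective_of_bijective {A Y : Rep.{0} k Γ} (f : A ⟶ Y)
    (hf : Function.Bijective f.hom) (n : ℕ) :
    Function.Bijective (groupCohomology.map (MonoidHom.id Γ) f n).hom := by
  have e1 : groupCohomology.map (MonoidHom.id Γ) f n ≫
      groupCohomology.map (MonoidHom.id Γ) (invOfBijective f hf) n = 𝟙 _ := by
    rw [← groupCohomology.map_id_comp, comp_invOfBijective]
    exact groupCohomology.map_id (B := A) n
  have e2 : groupCohomology.map (MonoidHom.id Γ) (invOfBijective f hf) n ≫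
      groupCohomology.map (MonoidHom.id Γ) f n = 𝟙 _ := by
    rw [← groupCohomology.map_id_comp, invOfBijective_comp]
    exact groupCohomology.map_id (B := Y) n
  refine Function.bijective_iff_has_inverse.2
    ⟨(groupCohomology.map (MonoidHom.id Γ) (invOfBijective f hf) n).hom, fun x => ?_, fun y => ?_⟩
  · have := congrArg (fun φ => φ.hom x) e1
    simpa using this
  · have := congrArg (fun φ => φ.hom y) e2
    simpa using this

end Iso

/-! ### Compatibility with change of group -/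

section Tr

variable {Γ Γ' : Type} [Group Γ] [Group Γ'] (π : Γ' →* Γ)
variable {B : Rep.{0, 0, 0} (ZMod p) Γ} {χ : Γ →* (ZMod p)ˣ}
variable {N X : Rep.{0} ℤ Γ} {N' X' : Rep.{0} ℤ Γ'}
variable (dm : DualModel B χ N) (μ : MuData χ X)
variable (dm' : DualModel (Rep.res π B) (χ.comp π) N') (μ' : MuData (χ.comp π) X')
variable (ν : N' ⟶ Rep.res π N) (ι : Rep.res π X ⟶ X')

include μ μ' in
theorem ι_zl (hι : ι.hom μ.z = μ'.z) (a : ZMod p) : ι.hom (μ.zl a) = μ'.zl a := by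
  rw [μ.zl_apply, μ'.zl_apply, ← hι]
  exact map_nsmul ι.hom a.val μ.z

theorem lam_tr (hν : ∀ n' : N'.V, dm.e (ν.hom n') = dm'.e n') (hι : ι.hom μ.z = μ'.z)
    (m : B.V) : (trIhom π ν ι).hom ((lam dm μ).hom m) = (lam dm' μ').hom m := by
  refine ihom_ext fun n' => ?_
  change ι.hom (μ.zl (dm.e (ν.hom n') m)) = μ'.zl (dm'.e n' m)
  rw [ι_zl π μ μ' ι hι, hν]

end Tr

end

end Fermat.Agent.S55.E1.H603

end
-- ===== PACK-END S55/E1/H603/Lambda.lean

-- ===== PACK-BEGIN S59/H601/PeuLocal.lean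
section


/-!
# S59 / TW-STRICT / PEU-FLAT (helper601), part 2: local coordinates of a peu ramifié extension

Abstract setting: `M` a finite `G_ℚ`-module, `P` a valuation subring of `ℚ̄` over `p`, `ζ` a
primitive `p`-th root of unity, `L ⊆ M` a subgroup such that the inertia group `I` of `P` acts
trivially on `M / L` and by the cyclotomic character on `L`, and such that every Kummer character
`σ ↦ ζ ^ ξ (σ c - c)` of `{σ ∈ I : σ ζ = ζ}` is the Kummer character of a `P`-unit (peu ramifié).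

* `exists_unit601`     : the Kummer COCYCLE `σ ↦ ζ ^ ξ (σ c - c)` of the whole inertia group is the
                          coboundary of a `P`-unit (average over `I / I_ζ`, of order prime to `p`);
* `localCoordDatum601` : the unit eigenfunctions `m ↦ [m - c ∈ L] ζ ^ ξ (m - c) B_{c,ξ}` are
                          inertia-equivariant `P`-integral coordinates with `P`-polynomial addition
                          law, i.e. a `Fermat.Agent.S19.LocalCoordDatum` (input of the landed UNR).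
-/

set_option autoImplicit false
set_option linter.unusedSectionVars false
set_option linter.unusedVariables false
set_option linter.style.haveILetI false

namespace Fermat.Agent.S59.H601

open Fermat.Agent.S19
open Fermat.Agent.S14.H714 (nonunits_add_mem nonunits_mul_mem)

section Aux

variable (P : ValuationSubring _root_.Fermat.Agent.S19.Qb)

theorem sum_mem_nonunits601 {ι : Type*} (s : Finset ι) (f : ι → _root_.Fermat.Agent.S19.Qb)
    (h : ∀ i ∈ s, f i ∈ P.nonunits) : ∑ i ∈ s, f i ∈ P.nonunits := by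
  classical
  induction s using Finset.induction_on with
  | empty =>
    rw [Finset.sum_empty]
    exact P.nonunits.zero_mem
  | insert a s ha ih =>
    rw [Finset.sum_insert ha]
    exact nonunits_add_mem P (h a (Finset.mem_insert_self a s))
      (ih fun i hi => h i (Finset.mem_insert_of_mem hi))

theorem val_eq_one_of_mem601 {x : _root_.Fermat.Agent.S19.Qb} (hx : x ∈ P) (hx' : x⁻¹ ∈ P) (h0 : x ≠ 0) :
    P.valuation x = 1 := by
  have h1 : P.valuation x ≤ 1 := (ValuationSubring.valuation_le_one_iff P x).mpr hx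
  have h2 : P.valuation x⁻¹ ≤ 1 := (ValuationSubring.valuation_le_one_iff P x⁻¹).mpr hx'
  have h3 : P.valuation x * P.valuation x⁻¹ = 1 := by
    rw [← map_mul, mul_inv_cancel₀ h0, map_one]
  refine le_antisymm h1 ?_
  by_contra hcon
  have h4 : P.valuation x < 1 := not_le.mp hcon
  have h5 : P.valuation x * P.valuation x⁻¹ < 1 := by
    calc P.valuation x * P.valuation x⁻¹ ≤ P.valuation x * 1 := mul_le_mul_right h2 _
      _ = P.valuation x := mul_one _
      _ < 1 := h4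
  rw [h3] at h5
  exact lt_irrefl _ h5

theorem mem_of_val_eq_one601 {x : _root_.Fermat.Agent.S19.Qb} (hx : P.valuation x = 1) : x ∈ P :=
  (ValuationSubring.valuation_le_one_iff P x).mp hx.le

theorem inv_mem_of_val_eq_one601 {x : _root_.Fermat.Agent.S19.Qb} (hx : P.valuation x = 1) : x⁻¹ ∈ P := by
  rw [← ValuationSubring.valuation_le_one_iff, map_inv₀, hx, inv_one]

theorem ne_zero_of_val_eq_one601 {x : _root_.Fermat.Agent.S19.Qb} (hx : P.valuation x = 1) : x ≠ 0 := by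
  rintro rfl
  rw [map_zero] at hx
  exact zero_ne_one hx

end Aux

section Local

variable {p : ℕ} [Fact p.Prime] {M : Type} [AddCommGroup M] {act : GalQ → M → M}

theorem act_zero601 (hact : IsContAddAction act) (σ : GalQ) : act σ 0 = 0 := by
  have h := hact.act_add σ 0 0
  rw [add_zero] at h
  exact left_eq_add.mp h

theorem act_neg601 (hact : IsContAddAction act) (σ : GalQ) (a : M) : act σ (-a) = -act σ a := by
  have h := hact.act_add σ a (-a)
  rw [add_neg_cancel, act_zero601 hact] at h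
  exact eq_neg_of_add_eq_zero_right h.symm

theorem act_sub601 (hact : IsContAddAction act) (σ : GalQ) (a b : M) :
    act σ (a - b) = act σ a - act σ b := by
  rw [sub_eq_add_neg, hact.act_add, act_neg601 hact, ← sub_eq_add_neg]

variable (hact : IsContAddAction act) (P : ValuationSubring _root_.Fermat.Agent.S19.Qb) (hP : (p : _root_.Fermat.Agent.S19.Qb) ∈ P.nonunits)
  {ζ : _root_.Fermat.Agent.S19.Qb} (hζ : IsPrimitiveRoot ζ p) (L : AddSubgroup M)
  (hI : ∀ σ, IsInertiaAt P σ → ∀ m, act σ m - m ∈ L)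
  (hL : ∀ σ, IsInertiaAt P σ → ∀ l ∈ L, act σ l = (om601 hζ σ).val • l)

include hact hI hL in
/-- The cocycle relation. -/
theorem xi_cocycle601 (ξ : M →+ ZMod p) (c : M) {σ τ : GalQ} (hσ : IsInertiaAt P σ)
    (hτ : IsInertiaAt P τ) :
    ξ (act (σ * τ) c - c) = om601 hζ σ * ξ (act τ c - c) + ξ (act σ c - c) := by
  have h1 : act (σ * τ) c - c = act σ (act τ c - c) + (act σ c - c) := by
    rw [hact.act_mul, act_sub601 hact]
    abel
  rw [h1, map_add, hL σ hσ _ (hI τ hτ c), map_nsmul, nsmul_eq_mul, ZMod.natCast_zmod_val]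

include hact hI hL in
/-- Translation by an element of `L`. -/
theorem xi_act601 (ξ : M →+ ZMod p) (c m : M) (hm : m - c ∈ L) {σ : GalQ}
    (hσ : IsInertiaAt P σ) :
    ξ (act σ m - c) = om601 hζ σ * ξ (m - c) + ξ (act σ c - c) := by
  have h1 : act σ m - c = act σ (m - c) + (act σ c - c) := by
    rw [act_sub601 hact]
    abel
  rw [h1, map_add, hL σ hσ _ hm, map_nsmul, nsmul_eq_mul, ZMod.natCast_zmod_val]

include hI in
theorem act_sub_mem_iff601 (c m : M) {σ : GalQ} (hσ : IsInertiaAt P σ) :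
    act σ m - c ∈ L ↔ m - c ∈ L := by
  have h1 : act σ m - c = (act σ m - m) + (m - c) := by abel
  rw [h1]
  exact L.add_mem_cancel_left (hI σ hσ m)

variable (hpeu : ∀ (ξ : M →+ ZMod p) (c : M), ∃ B : _root_.Fermat.Agent.S19.Qb, P.valuation B = 1 ∧
      ∀ σ, IsInertiaAt P σ → σ ζ = ζ → σ B = ez601 ζ (ξ (act σ c - c)) * B)

include hact hP hI hL hpeu in
/-- **Averaging.**  The Kummer cocycle of the whole inertia group is the coboundary of a unit. -/
theorem exists_unit601 (ξ : M →+ ZMod p) (c : M) :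
    ∃ B : _root_.Fermat.Agent.S19.Qb, P.valuation B = 1 ∧
      ∀ σ, IsInertiaAt P σ → σ B = ez601 ζ (ξ (act σ c - c)) * B := by
  classical
  have hp : p.Prime := Fact.out
  have hζp : ζ ^ p = 1 := hζ.pow_eq_one
  obtain ⟨B₀, hB₀, hB₀eq⟩ := hpeu ξ c
  have hB₀P : B₀ ∈ P := mem_of_val_eq_one601 P hB₀
  have hB₀0 : B₀ ≠ 0 := ne_zero_of_val_eq_one601 P hB₀
  -- the cocycle
  let z : GalQ → _root_.Fermat.Agent.S19.Qb := fun σ => ez601 ζ (ξ (act σ c - c))
  have hz0 : ∀ σ, z σ ≠ 0 := fun σ => ez601_ne_zero hζp _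
  have hzc : ∀ σ τ, IsInertiaAt P σ → IsInertiaAt P τ → z (σ * τ) = σ (z τ) * z σ := by
    intro σ τ hσ hτ
    show ez601 ζ _ = σ (ez601 ζ _) * ez601 ζ _
    rw [xi_cocycle601 hact P hζ L hI hL ξ c hσ hτ, ez601_add hζp, map_ez601 hζ]
  -- the translates
  let T : GalQ → _root_.Fermat.Agent.S19.Qb := fun γ => (z γ)⁻¹ * γ B₀
  have hT1 : ∀ γ γ', IsInertiaAt P γ → IsInertiaAt P γ' → om601 hζ γ = om601 hζ γ' →
      T γ = T γ' := by
    intro γ γ' hγ hγ' hom
    have hτ : IsInertiaAt P (γ⁻¹ * γ') :=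
      Fermat.Agent.S19.H859.IsInertiaAt_mul (Fermat.Agent.S19.H859.IsInertiaAt_inv hγ) hγ'
    have hγ'eq : γ' = γ * (γ⁻¹ * γ') := by group
    have homτ : om601 hζ (γ⁻¹ * γ') = 1 := by
      have h1 : om601 hζ γ' = om601 hζ γ * om601 hζ (γ⁻¹ * γ') := by
        conv_lhs => rw [hγ'eq]
        rw [om601_mul]
      rw [← hom] at h1
      have h2 : om601 hζ γ * om601 hζ (γ⁻¹ * γ') = om601 hζ γ * 1 := by
        rw [mul_one]
        exact h1.symm
      exact mul_left_cancel₀ (om601_ne_zero hζ γ) h2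
    have hfix : (γ⁻¹ * γ') ζ = ζ := (om601_eq_one_iff hζ _).mp homτ
    have hB := hB₀eq _ hτ hfix
    have hz' : z γ' = γ (z (γ⁻¹ * γ')) * z γ := by
      conv_lhs => rw [hγ'eq]
      exact hzc γ _ hγ hτ
    have hB' : γ' B₀ = γ (z (γ⁻¹ * γ')) * γ B₀ := by
      conv_lhs => rw [hγ'eq]
      show γ ((γ⁻¹ * γ') B₀) = _
      rw [hB, map_mul]
    show (z γ)⁻¹ * γ B₀ = (z γ')⁻¹ * γ' B₀
    rw [hz', hB']
    have h3 : γ (z (γ⁻¹ * γ')) ≠ 0 := by
      rw [Ne, map_eq_zero]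
      exact hz0 _
    field_simp
  have hT2 : ∀ σ γ, IsInertiaAt P σ → IsInertiaAt P γ → σ (T γ) = z σ * T (σ * γ) := by
    intro σ γ hσ hγ
    show σ ((z γ)⁻¹ * γ B₀) = z σ * ((z (σ * γ))⁻¹ * (σ * γ) B₀)
    rw [hzc σ γ hσ hγ, map_mul, map_inv₀]
    have h3 : σ (z γ) ≠ 0 := by
      rw [Ne, map_eq_zero]
      exact hz0 _
    have h4 : (σ * γ) B₀ = σ (γ B₀) := rfl
    rw [h4]
    field_simp [hz0 σ]
  have hT3 : ∀ γ, IsInertiaAt P γ → T γ - B₀ ∈ P.nonunits := by
    intro γ hγ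
    have h1 : T γ - B₀ = (z γ)⁻¹ * (γ B₀ - B₀) + ((z γ)⁻¹ - 1) * B₀ := by
      show (z γ)⁻¹ * γ B₀ - B₀ = _
      ring
    have hzinv : (z γ)⁻¹ ^ p = 1 := by
      rw [inv_pow, ez601_pow hζp, inv_one]
    rw [h1]
    refine nonunits_add_mem P ?_ ?_
    · rw [mul_comm]
      exact nonunits_mul_mem P (hγ B₀ hB₀P) (root_mem601 P hzinv)
    · exact nonunits_mul_mem P (root_sub_one_mem601 P hP hzinv) hB₀P
  -- the average
  let Tf : ZMod p → _root_.Fermat.Agent.S19.Qb := fun a =>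
    if h : ∃ γ, IsInertiaAt P γ ∧ om601 hζ γ = a then T h.choose else 0
  have hTf : ∀ γ, IsInertiaAt P γ → Tf (om601 hζ γ) = T γ := by
    intro γ hγ
    have h : ∃ γ', IsInertiaAt P γ' ∧ om601 hζ γ' = om601 hζ γ := ⟨γ, hγ, rfl⟩
    show (if h : ∃ γ', IsInertiaAt P γ' ∧ om601 hζ γ' = om601 hζ γ then T h.choose else 0) = T γ
    rw [dif_pos h]
    exact hT1 _ _ h.choose_spec.1 hγ h.choose_spec.2
  let S : Finset (ZMod p) :=
    Finset.univ.filter (fun a => ∃ γ, IsInertiaAt P γ ∧ om601 hζ γ = a)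
  have hS : ∀ a, a ∈ S ↔ ∃ γ, IsInertiaAt P γ ∧ om601 hζ γ = a := by
    intro a
    simp [S]
  have h1S : (1 : ZMod p) ∈ S :=
    (hS 1).mpr ⟨1, Fermat.Agent.S19.H859.isInertiaAt_one, om601_one hζ⟩
  have h0S : (0 : ZMod p) ∉ S := by
    intro h
    obtain ⟨γ, -, hγ⟩ := (hS 0).mp h
    exact om601_ne_zero hζ γ hγ
  have hcard : ¬ p ∣ S.card := by
    intro hdvd
    have hpos : 0 < S.card := Finset.card_pos.mpr ⟨1, h1S⟩
    have hle : S.card ≤ (Finset.univ.erase (0 : ZMod p)).card := by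
      apply Finset.card_le_card
      intro a ha
      rw [Finset.mem_erase]
      exact ⟨fun h => h0S (h ▸ ha), Finset.mem_univ a⟩
    rw [Finset.card_erase_of_mem (Finset.mem_univ _), Finset.card_univ, ZMod.card] at hle
    have := Nat.le_of_dvd hpos hdvd
    have hp1 : 1 ≤ p := hp.one_lt.le
    omega
  refine ⟨∑ a ∈ S, Tf a, ?_, ?_⟩
  · -- a unit
    have hsplit : ∑ a ∈ S, Tf a = ∑ a ∈ S, (Tf a - B₀) + (S.card : _root_.Fermat.Agent.S19.Qb) * B₀ := by
      rw [Finset.sum_sub_distrib, Finset.sum_const, nsmul_eq_mul]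
      ring
    have hsmall : ∑ a ∈ S, (Tf a - B₀) ∈ P.nonunits := by
      apply sum_mem_nonunits601
      intro a ha
      obtain ⟨γ, hγ, rfl⟩ := (hS a).mp ha
      rw [hTf γ hγ]
      exact hT3 γ hγ
    have hn0 : (S.card : _root_.Fermat.Agent.S19.Qb) ≠ 0 := by
      have : S.card ≠ 0 := fun h => hcard (h ▸ dvd_zero p)
      exact_mod_cast this
    have hnval : P.valuation (S.card : _root_.Fermat.Agent.S19.Qb) = 1 := by
      apply val_eq_one_of_mem601 P _ _ hn0
      · exact natCast_mem P S.card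
      · exact Fermat.Agent.S19.Unr.H992.natCast_unit_of_not_dvd P hp hP hcard
    have hbig : P.valuation ((S.card : _root_.Fermat.Agent.S19.Qb) * B₀) = 1 := by
      rw [map_mul, hnval, hB₀, mul_one]
    rw [hsplit]
    rw [Valuation.map_add_eq_of_lt_right, hbig]
    rw [hbig]
    exact (ValuationSubring.mem_nonunits_iff P).mp hsmall
  · -- equivariance
    intro σ hσ
    have hσi : IsInertiaAt P σ⁻¹ := Fermat.Agent.S19.H859.IsInertiaAt_inv hσ
    have hterm : ∀ a ∈ S, σ (Tf a) = z σ * Tf (om601 hζ σ * a) := by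
      intro a ha
      obtain ⟨γ, hγ, rfl⟩ := (hS a).mp ha
      rw [hTf γ hγ, hT2 σ γ hσ hγ, ← om601_mul,
        hTf (σ * γ) (Fermat.Agent.S19.H859.IsInertiaAt_mul hσ hγ)]
    have hinv : om601 hζ σ⁻¹ * om601 hζ σ = 1 := by
      rw [← om601_mul, inv_mul_cancel, om601_one]
    have hinv' : om601 hζ σ * om601 hζ σ⁻¹ = 1 := by
      rw [← om601_mul, mul_inv_cancel, om601_one]
    rw [map_sum, Finset.sum_congr rfl hterm, ← Finset.mul_sum]
    show z σ * _ = z σ * _
    congr 1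
    refine Finset.sum_nbij' (fun a => om601 hζ σ * a) (fun b => om601 hζ σ⁻¹ * b) ?_ ?_ ?_ ?_ ?_
    · intro a ha
      obtain ⟨γ, hγ, rfl⟩ := (hS a).mp ha
      exact (hS _).mpr ⟨σ * γ, Fermat.Agent.S19.H859.IsInertiaAt_mul hσ hγ, om601_mul hζ σ γ⟩
    · intro b hb
      obtain ⟨γ, hγ, rfl⟩ := (hS b).mp hb
      exact (hS _).mpr ⟨σ⁻¹ * γ, Fermat.Agent.S19.H859.IsInertiaAt_mul hσi hγ,
        om601_mul hζ σ⁻¹ γ⟩
    · intro a _
      show om601 hζ σ⁻¹ * (om601 hζ σ * a) = a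
      rw [← mul_assoc, hinv, one_mul]
    · intro b _
      show om601 hζ σ * (om601 hζ σ⁻¹ * b) = b
      rw [← mul_assoc, hinv', one_mul]
    · intro a _
      rfl

end Local

end Fermat.Agent.S59.H601

end
-- ===== PACK-END S59/H601/PeuLocal.lean

-- ===== PACK-BEGIN Ribet/H109/PeuRoots.lean
section


/-!
# Row 38 / S39, W-form: the roots of the 2-division cubic at a prime of multiplicative reduction
(helper109)

`K` algebraically closed with a valuation `v`, `v 2 = 1`, `W` with `v`-integral coefficients,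
`v Δ < 1`, `v c₄ = 1` (multiplicative reduction).  Then the 2-division cubic has roots
`e₁, e₁ + α, e₁ + β` with `v α < 1`, `v β = 1`, `α ≠ 0` and `v α ^ 2 = v Δ`
(`exists_node_roots_h109`).  Mathlib + `S05.Assemble.Roots` only.
-/

set_option autoImplicit false
set_option linter.unusedSectionVars false
set_option linter.unusedVariables false

namespace Fermat.Agent.Ribet.H109.Peu

open WeierstrassCurve WeierstrassCurve.Affine WeierstrassCurve.Affine.Point
open Fermat.Agent.S05 Fermat.Agent.S05.SameRed Fermat.Agent.S05.Assemble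
open Polynomial

variable {K : Type*} [Field K] [DecidableEq K]
  {Γ₀ : Type*} [LinearOrderedCommGroupWithZero Γ₀]
variable {W : Affine K} {v : Valuation K Γ₀}

theorem Roots.swap₂₃_h109 {r₁ r₂ r₃ : K} (h : Roots W r₁ r₂ r₃) : Roots W r₁ r₃ r₂ :=
  ⟨by rw [h.b₂]; ring, by rw [h.b₄]; ring, by rw [h.b₆]; ring⟩

theorem Roots.rot_h109 {r₁ r₂ r₃ : K} (h : Roots W r₁ r₂ r₃) : Roots W r₂ r₃ r₁ :=
  ⟨by rw [h.b₂]; ring, by rw [h.b₄]; ring, by rw [h.b₆]; ring⟩

/-- Over an algebraically closed field of characteristic `≠ 2` the 2-division cubic splits. -/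
theorem exists_roots_h109 [IsAlgClosed K] (h20 : (2 : K) ≠ 0) (W : Affine K) :
    ∃ r₁ r₂ r₃ : K, Roots W r₁ r₂ r₃ := by
  have h40 : (4 : K) ≠ 0 := by
    have : (4 : K) = 2 * 2 := by norm_num
    rw [this]; exact mul_ne_zero h20 h20
  set b : K := W.b₂ / 4 with hb
  set c : K := W.b₄ / 2 with hc
  set d : K := W.b₆ / 4 with hd
  have hdeg : (C (1 : K) * X ^ 3 + C b * X ^ 2 + C c * X + C d).degree ≠ 0 := by
    rw [Polynomial.degree_cubic one_ne_zero]
    norm_num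
  obtain ⟨r₁, hr₁⟩ := IsAlgClosed.exists_root _ hdeg
  have hr₁' : r₁ ^ 3 + b * r₁ ^ 2 + c * r₁ + d = 0 := by
    have := hr₁
    simp only [IsRoot.def, eval_add, eval_mul, eval_C, eval_pow, eval_X, one_mul] at this
    exact this
  set s : K := b + r₁ with hs
  set t : K := c + r₁ * s with ht
  obtain ⟨δ, hδ⟩ := IsAlgClosed.exists_pow_nat_eq (s ^ 2 - 4 * t) (n := 2) (by norm_num)
  have hb2 : W.b₂ = 4 * b := by rw [hb]; field_simp
  have hb4 : W.b₄ = 2 * c := by rw [hc]; field_simp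
  have hb6 : W.b₆ = 4 * d := by rw [hd]; field_simp
  refine ⟨r₁, (-s + δ) / 2, (-s - δ) / 2, ?_, ?_, ?_⟩
  · rw [hb2, hs]
    field_simp
    ring
  · rw [hb4]
    have e1 : r₁ * ((-s + δ) / 2) + r₁ * ((-s - δ) / 2) + (-s + δ) / 2 * ((-s - δ) / 2) =
        -(r₁ * s) + (s ^ 2 - δ ^ 2) / 4 := by
      field_simp
      ring
    rw [e1, hδ]
    have e2 : (s ^ 2 - (s ^ 2 - 4 * t)) / 4 = t := by
      field_simp
      ring
    rw [e2, ht]
    ring
  · rw [hb6]
    have e1 : r₁ * ((-s + δ) / 2) * ((-s - δ) / 2) = r₁ * ((s ^ 2 - δ ^ 2) / 4) := by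
      field_simp
      ring
    rw [e1, hδ]
    have e2 : (s ^ 2 - (s ^ 2 - 4 * t)) / 4 = t := by
      field_simp
      ring
    rw [e2, ht, hs]
    linear_combination (4 : K) * hr₁'

section val

theorem val_b₂_le_one_h109 (hW : IntegralCoeffs W v) (h2 : v (2 : K) = 1) : v W.b₂ ≤ 1 := by
  rw [WeierstrassCurve.b₂]
  refine val_add_le_one ?_ ?_
  · rw [map_pow]; exact pow_le_one₀ zero_le hW.a₁
  · exact val_mul_le_one (by rw [val_four h2]) hW.a₂

theorem val_b₄_le_one_h109 (hW : IntegralCoeffs W v) (h2 : v (2 : K) = 1) : v W.b₄ ≤ 1 := by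
  rw [WeierstrassCurve.b₄]
  refine val_add_le_one ?_ ?_
  · exact val_mul_le_one h2.le hW.a₄
  · exact val_mul_le_one hW.a₁ hW.a₃

theorem val_b₆_le_one_h109 (hW : IntegralCoeffs W v) (h2 : v (2 : K) = 1) : v W.b₆ ≤ 1 := by
  rw [WeierstrassCurve.b₆]
  refine val_add_le_one ?_ ?_
  · rw [map_pow]; exact pow_le_one₀ zero_le hW.a₃
  · exact val_mul_le_one (by rw [val_four h2]) hW.a₆

/-- The roots of the 2-division cubic are integral. -/
theorem Roots.val_le_one₃_h109 (hW : IntegralCoeffs W v) (h2 : v (2 : K) = 1)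
    {r₁ r₂ r₃ : K} (hr : Roots W r₁ r₂ r₃) : v r₃ ≤ 1 := by
  by_contra hcon
  rw [not_le] at hcon
  have h4 := val_four (v := v) h2
  have h0 : 4 * r₃ ^ 3 + W.b₂ * r₃ ^ 2 + 2 * W.b₄ * r₃ + W.b₆ = 0 := by
    rw [Roots.cubic_h109 hr]; ring
  have hsq : v r₃ ≤ v r₃ ^ 2 := by
    rw [pow_two]
    exact le_mul_of_one_le_left zero_le hcon.le
  have h1 : v (W.b₂ * r₃ ^ 2 + 2 * W.b₄ * r₃ + W.b₆) ≤ v r₃ ^ 2 := by
    refine (v.map_add _ _).trans (max_le ((v.map_add _ _).trans (max_le ?_ ?_)) ?_)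
    · rw [map_mul, map_pow]
      exact mul_le_of_le_one_left zero_le (val_b₂_le_one_h109 hW h2)
    · rw [map_mul, map_mul, h2, one_mul]
      exact (mul_le_of_le_one_left zero_le (val_b₄_le_one_h109 hW h2)).trans hsq
    · exact (val_b₆_le_one_h109 hW h2).trans (hcon.le.trans hsq)
  have h3 : v (4 * r₃ ^ 3) = v r₃ ^ 3 := by rw [map_mul, h4, one_mul, map_pow]
  have h5 : 4 * r₃ ^ 3 = -(W.b₂ * r₃ ^ 2 + 2 * W.b₄ * r₃ + W.b₆) := by
    linear_combination h0
  rw [h5, Valuation.map_neg] at h3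
  rw [h3] at h1
  have h6 : v r₃ ^ 2 < v r₃ ^ 3 := pow_lt_pow_right₀ hcon (by norm_num)
  exact absurd h1 (not_le.mpr h6)

/-- `Δ = 16 ∏ (rᵢ - rⱼ)²`. -/
theorem Roots.Δ_eq_h109 (h20 : (2 : K) ≠ 0) {r₁ r₂ r₃ : K} (hr : Roots W r₁ r₂ r₃) :
    W.Δ = 16 * ((r₁ - r₂) ^ 2 * (r₁ - r₃) ^ 2 * (r₂ - r₃) ^ 2) := by
  have h40 : (4 : K) ≠ 0 := by
    have : (4 : K) = 2 * 2 := by norm_num
    rw [this]; exact mul_ne_zero h20 h20
  have hb4 : W.b₄ = 2 * (r₁ * r₂ + r₁ * r₃ + r₂ * r₃) :=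
    mul_left_cancel₀ h20 (by linear_combination hr.b₄)
  have hb8 : W.b₈ = 4 * ((r₁ + r₂ + r₃) * (r₁ * r₂ * r₃)) - (r₁ * r₂ + r₁ * r₃ + r₂ * r₃) ^ 2 := by
    apply mul_left_cancel₀ h40
    rw [W.b_relation, hr.b₂, hb4, hr.b₆]
    ring
  rw [WeierstrassCurve.Δ, hb8, hr.b₂, hb4, hr.b₆]
  ring

/-- `c₄ = 8 ∑ (rᵢ - rⱼ)²`. -/
theorem Roots.c₄_eq_h109 (h20 : (2 : K) ≠ 0) {r₁ r₂ r₃ : K} (hr : Roots W r₁ r₂ r₃) :
    W.c₄ = 8 * ((r₁ - r₂) ^ 2 + (r₁ - r₃) ^ 2 + (r₂ - r₃) ^ 2) := by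
  have hb4 : W.b₄ = 2 * (r₁ * r₂ + r₁ * r₃ + r₂ * r₃) :=
    mul_left_cancel₀ h20 (by linear_combination hr.b₄)
  rw [WeierstrassCurve.c₄, hr.b₂, hb4]
  ring

/-- Core: if the first two roots are congruent, they are the node roots. -/
theorem node_of_lt_h109 (hW : IntegralCoeffs W v) (h2 : v (2 : K) = 1)
    (hΔ0 : W.Δ ≠ 0) (hc₄ : v W.c₄ = 1)
    {r₁ r₂ r₃ : K} (hr : Roots W r₁ r₂ r₃) (h12 : v (r₁ - r₂) < 1) :
    ∃ e₁ α β : K, Roots W e₁ (e₁ + α) (e₁ + β) ∧ v e₁ ≤ 1 ∧ v α < 1 ∧ v β = 1 ∧ α ≠ 0 ∧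
      v α ^ 2 = v W.Δ := by
  have h20 : (2 : K) ≠ 0 := by
    intro h0; rw [h0, _root_.map_zero] at h2; exact zero_ne_one h2
  have h4 := val_four (v := v) h2
  have h8 : v (8 : K) = 1 := by
    have : (8 : K) = 2 * 4 := by norm_num
    rw [this, map_mul, h2, h4, one_mul]
  have h16 : v (16 : K) = 1 := by
    have : (16 : K) = 4 * 4 := by norm_num
    rw [this, map_mul, h4, one_mul]
  have hr₁ : v r₁ ≤ 1 := Roots.val_le_one₃_h109 hW h2 hr.swap₁₃
  have hr₂ : v r₂ ≤ 1 := Roots.val_le_one₃_h109 hW h2 (Roots.swap₂₃_h109 hr)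
  have hr₃ : v r₃ ≤ 1 := Roots.val_le_one₃_h109 hW h2 hr
  have h13le : v (r₁ - r₃) ≤ 1 := val_sub_le_one hr₁ hr₃
  have h23le : v (r₂ - r₃) ≤ 1 := val_sub_le_one hr₂ hr₃
  have hsmall : ∀ {a b c : K}, v a < 1 → v b < 1 → v c < 1 →
      v (8 * (a ^ 2 + b ^ 2 + c ^ 2)) < 1 := by
    intro a b c ha hb hc
    rw [map_mul, h8, one_mul]
    have hsq : ∀ {z : K}, v z < 1 → v (z ^ 2) < 1 := fun hz => by
      rw [map_pow]; exact pow_lt_one₀ zero_le hz (by norm_num)
    exact lt_of_le_of_lt (v.map_add _ _)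
      (max_lt (lt_of_le_of_lt (v.map_add _ _) (max_lt (hsq ha) (hsq hb))) (hsq hc))
  have h13 : v (r₁ - r₃) = 1 := by
    refine le_antisymm h13le (not_lt.mp fun hlt => ?_)
    have h23 : v (r₂ - r₃) < 1 := by
      have : r₂ - r₃ = (r₁ - r₃) - (r₁ - r₂) := by ring
      rw [this]
      exact lt_of_le_of_lt (v.map_sub _ _) (max_lt hlt h12)
    have := hsmall h12 hlt h23
    rw [← Roots.c₄_eq_h109 h20 hr, hc₄] at this
    exact lt_irrefl _ this
  have h23 : v (r₂ - r₃) = 1 := by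
    refine le_antisymm h23le (not_lt.mp fun hlt => ?_)
    have h13' : v (r₁ - r₃) < 1 := by
      have : r₁ - r₃ = (r₂ - r₃) + (r₁ - r₂) := by ring
      rw [this]
      exact lt_of_le_of_lt (v.map_add _ _) (max_lt hlt h12)
    rw [h13] at h13'
    exact lt_irrefl _ h13'
  have hΔ := Roots.Δ_eq_h109 h20 hr
  refine ⟨r₁, r₂ - r₁, r₃ - r₁, ?_, hr₁, ?_, ?_, ?_, ?_⟩
  · have e1 : r₁ + (r₂ - r₁) = r₂ := by ring
    have e2 : r₁ + (r₃ - r₁) = r₃ := by ring
    rw [e1, e2]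
    exact hr
  · rw [← Valuation.map_neg, neg_sub]; exact h12
  · rw [← Valuation.map_neg, neg_sub]; exact h13
  · intro h0
    apply hΔ0
    have : r₁ - r₂ = 0 := by linear_combination -h0
    rw [hΔ, this]
    ring
  · rw [hΔ, map_mul, map_mul, map_mul, h16, map_pow, map_pow, map_pow, h13, h23, one_mul,
      one_pow, mul_one, mul_one, ← Valuation.map_neg, neg_sub]

/-- **The node roots** at a prime of multiplicative reduction. -/
theorem exists_node_roots_h109 [IsAlgClosed K] (hW : IntegralCoeffs W v) (h2 : v (2 : K) = 1)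
    (hΔ0 : W.Δ ≠ 0) (hΔ : v W.Δ < 1) (hc₄ : v W.c₄ = 1) :
    ∃ e₁ α β : K, Roots W e₁ (e₁ + α) (e₁ + β) ∧ v e₁ ≤ 1 ∧ v α < 1 ∧ v β = 1 ∧ α ≠ 0 ∧
      v α ^ 2 = v W.Δ := by
  have h20 : (2 : K) ≠ 0 := by
    intro h0; rw [h0, _root_.map_zero] at h2; exact zero_ne_one h2
  have h4 := val_four (v := v) h2
  have h16 : v (16 : K) = 1 := by
    have : (16 : K) = 4 * 4 := by norm_num
    rw [this, map_mul, h4, one_mul]
  obtain ⟨r₁, r₂, r₃, hr⟩ := exists_roots_h109 h20 W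
  have hr₁ : v r₁ ≤ 1 := Roots.val_le_one₃_h109 hW h2 hr.swap₁₃
  have hr₂ : v r₂ ≤ 1 := Roots.val_le_one₃_h109 hW h2 (Roots.swap₂₃_h109 hr)
  have hr₃ : v r₃ ≤ 1 := Roots.val_le_one₃_h109 hW h2 hr
  by_cases h12 : v (r₁ - r₂) < 1
  · exact node_of_lt_h109 hW h2 hΔ0 hc₄ hr h12
  by_cases h13 : v (r₁ - r₃) < 1
  · exact node_of_lt_h109 hW h2 hΔ0 hc₄ (Roots.swap₂₃_h109 hr) h13
  by_cases h23 : v (r₂ - r₃) < 1
  · exact node_of_lt_h109 hW h2 hΔ0 hc₄ (Roots.rot_h109 hr) h23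
  exfalso
  have e12 : v (r₁ - r₂) = 1 := le_antisymm (val_sub_le_one hr₁ hr₂) (not_lt.mp h12)
  have e13 : v (r₁ - r₃) = 1 := le_antisymm (val_sub_le_one hr₁ hr₃) (not_lt.mp h13)
  have e23 : v (r₂ - r₃) = 1 := le_antisymm (val_sub_le_one hr₂ hr₃) (not_lt.mp h23)
  rw [Roots.Δ_eq_h109 h20 hr, map_mul, map_mul, map_mul, h16, map_pow, map_pow, map_pow, e12, e13,
    e23] at hΔ
  simp at hΔ

end val

end Fermat.Agent.Ribet.H109.Peu

end
-- ===== PACK-END Ribet/H109/PeuRoots.lean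

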