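import Fermat.Agent.Pack.S59C.E3L0
import Fermat.Agent.Pack.S44C.G0E24L3
import Fermat.Agent.Pack.S44C.G0E10L0
import Fermat.Agent.Pack.S44C.G0E21L3
import Fermat.Agent.Pack.S43MC.G0E21L1
import Fermat.Agent.Pack.S43MC.G0E19L1
import Fermat.Agent.Pack.S44C.G0E23L1
import Fermat.Agent.Pack.S44C.G0E19L3
import Fermat.Agent.Pack.S59C.E5L0
import Fermat.Agent.Pack.S43MC.G0E3L1
import Fermat.Agent.Pack.S59C.E6L2
import Fermat.Agent.Pack.S44C.G0E21L1
import Fermat.Agent.Pack.S59C.E1L0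
import Fermat.Agent.Pack.S44C.G0E14L0
import Fermat.Agent.Pack.S59C.E6L0
import Fermat.Agent.Pack.S44C.G0E1L1
import Fermat.Agent.Pack.S44C.G0E6L1
import Fermat.Agent.Pack.S44C.G0E10L2
import Fermat.Agent.Pack.S59C.E6L1
import Fermat.Agent.Pack.S43GC.G0E11L1
import Fermat.Agent.Pack.S43C.E1L2
import Fermat.Agent.Pack.S59C.E6L3
import Fermat.Agent.Pack.S43MC.G0E20L3
import Fermat.Agent.Pack.S43GC.G0E7L1
import Fermat.Agent.Pack.S43MC.G0E19L2
import Fermat.Agent.Pack.S43MC.G0E21L2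
import Fermat.Agent.Pack.S43MC.G0E14L2
import Fermat.Agent.Pack.S43MC.G0E16L2

set_option linter.all false

-- ===== PACK-BEGIN Ribet/H883/Char0.lean
section
/-
RIBET row, piece R3 (helper883), characteristic-0 step: a nonzero parabolic class
`φ ∈ Hom(Γ₀(M), ℂ)` which is an eigenvector of the Hecke transfers `T_l` (`l ∤ M`, `l ∉ S`) with
eigenvalues `b l` produces a normalized eigenform of level `M` with `a_l = b l`.
Inputs (all on main): S21 (Eichler–Shimura), `S29.H642.periodMap_heckeTLin`,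
`Lib.Newform.H863.exists_normalizedEigenform_of_eigenvector`.
-/





set_option autoImplicit false

noncomputable section

namespace Fermat.Agent.Ribet.H883

open CongruenceSubgroup ModularCurve ModularCurve.Period ModularFormClass
open Fermat.Agent.S29
open scoped MatrixGroups

variable {M : ℕ}

theorem heckeTransfer_zero {l : ℕ} [Fact l.Prime] (hl : ¬ l ∣ M) :
    H642.heckeTransfer hl (0 : Additive (Gamma0 M) →+ ℂ) = 0 := by
  have h := H642.heckeTransfer_add hl (0 : Additive (Gamma0 M) →+ ℂ) 0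
  rw [add_zero] at h
  exact left_eq_add.mp h

theorem heckeTransfer_neg {l : ℕ} [Fact l.Prime] (hl : ¬ l ∣ M)
    (φ : Additive (Gamma0 M) →+ ℂ) :
    H642.heckeTransfer hl (-φ) = - H642.heckeTransfer hl φ := by
  have h := H642.heckeTransfer_add hl φ (-φ)
  rw [add_neg_cancel, heckeTransfer_zero] at h
  exact eq_neg_of_add_eq_zero_right h.symm

theorem heckeTransfer_sub {l : ℕ} [Fact l.Prime] (hl : ¬ l ∣ M)
    (φ ψ : Additive (Gamma0 M) →+ ℂ) :
    H642.heckeTransfer hl (φ - ψ) = H642.heckeTransfer hl φ - H642.heckeTransfer hl ψ := by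
  rw [sub_eq_add_neg, H642.heckeTransfer_add, heckeTransfer_neg, ← sub_eq_add_neg]

theorem heckeTransfer_smul {l : ℕ} [Fact l.Prime] (hl : ¬ l ∣ M) (c : ℂ)
    (φ : Additive (Gamma0 M) →+ ℂ) :
    H642.heckeTransfer hl (c • φ) = c • H642.heckeTransfer hl φ := by
  have h := H642.heckeTransfer_comp hl (AddMonoidHom.mulLeft c) φ
  have e1 : (AddMonoidHom.mulLeft c).comp φ = c • φ := by
    refine AddMonoidHom.ext fun γ => ?_
    simp
  have e2 : (AddMonoidHom.mulLeft c).comp (H642.heckeTransfer hl φ) =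
      c • H642.heckeTransfer hl φ := by
    refine AddMonoidHom.ext fun γ => ?_
    simp
  rw [e1, e2] at h
  exact h

variable [NeZero M]

/-- Hecke equivariance of the Eichler–Shimura map `periodHomPair`. -/
theorem heckeTransfer_periodHomPair {l : ℕ} [Fact l.Prime] (hlp : l.Prime) (hl : ¬ l ∣ M)
    (f₁ f₂ : CuspForm (Gamma0 M) 2) :
    H642.heckeTransfer hl (periodHomPair M (f₁, f₂)) =
      periodHomPair M (CuspForm.heckeTLin 2 hlp hl f₁, CuspForm.heckeTLin 2 hlp hl f₂) := by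
  have hp₁ : IsParabolicHom (Gamma0 M) (periodMap M f₁) :=
    Fermat.Agent.S21.H381.periodMap_mem_parabolicHoms f₁
  have hp₂ : IsParabolicHom (Gamma0 M) (periodMap M f₂) :=
    Fermat.Agent.S21.H381.periodMap_mem_parabolicHoms f₂
  rw [Fermat.Agent.S21.H381.periodHomPair_apply, Fermat.Agent.S21.H381.periodHomPair_apply,
    H642.heckeTransfer_add, H642.heckeTransfer_add, heckeTransfer_sub,
    heckeTransfer_charInvolution ℂ hl _ hp₁, heckeTransfer_charInvolution ℂ hl _ hp₂,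
    H642.periodMap_heckeTLin hlp hl f₁, H642.periodMap_heckeTLin hlp hl f₂]

/-- **Characteristic-0 step of R3.** -/
theorem exists_eigenform_of_parabolic_eigen (S : Set ℕ) (b : ℕ → ℂ)
    (φ : Additive (Gamma0 M) →+ ℂ) (hφ : φ ∈ parabolicHoms ℂ (Gamma0 M) ℂ) (hφ0 : φ ≠ 0)
    (hT : ∀ (l : ℕ) [Fact l.Prime] (hl : ¬ l ∣ M), l ∉ S → H642.heckeTransfer hl φ = b l • φ) :
    ∃ g : CuspForm (Gamma0 M) 2, g.IsNormalizedEigenform ∧
      ∀ l : ℕ, l.Prime → ¬ l ∣ M → l ∉ S → qCoeff g l = b l := by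
  obtain ⟨hinj, hrange⟩ := Fermat.Agent.S21.main M
  have hφr : φ ∈ LinearMap.range (periodHomPair M) := by rw [hrange]; exact hφ
  obtain ⟨⟨f₁, f₂⟩, hpair⟩ := hφr
  have eig : ∀ (l : ℕ) (hl : l.Prime) (hlM : ¬ l ∣ M), l ∉ S →
      CuspForm.heckeTLin 2 hl hlM f₁ = b l • f₁ ∧ CuspForm.heckeTLin 2 hl hlM f₂ = b l • f₂ := by
    intro l hl hlM hlS
    have : Fact l.Prime := ⟨hl⟩
    have hTl := hT l hlM hlS
    have e : periodHomPair M
        (CuspForm.heckeTLin 2 hl hlM f₁, CuspForm.heckeTLin 2 hl hlM f₂) =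
        periodHomPair M (b l • (f₁, f₂)) := by
      rw [← heckeTransfer_periodHomPair hl hlM f₁ f₂, hpair, hTl, map_smul, hpair]
    have := hinj e
    rw [Prod.smul_mk, Prod.mk.injEq] at this
    exact this
  have hne : f₁ ≠ 0 ∨ f₂ ≠ 0 := by
    by_contra hcon
    push Not at hcon
    apply hφ0
    rw [← hpair, hcon.1, hcon.2]
    exact map_zero _
  rcases hne with hf | hf
  · exact Fermat.Agent.Lib.Newform.H863.exists_normalizedEigenform_of_eigenvector S b f₁ hf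
      (fun l hl hlM hlS => (eig l hl hlM hlS).1)
  · exact Fermat.Agent.Lib.Newform.H863.exists_normalizedEigenform_of_eigenvector S b f₂ hf
      (fun l hl hlM hlS => (eig l hl hlM hlS).2)

end Fermat.Agent.Ribet.H883

end
end
-- ===== PACK-END Ribet/H883/Char0.lean

-- ===== PACK-BEGIN S58/H94/TateSide.lean
section





/-!
# Row S58 (helper94): the `lam`-adic Tate module of a semistable integral model, with the two
quadratic relations used by the comparison argument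

For every prime `lam` (no irreducibility hypothesis) there is `T : GaloisRepAdic ℤ_[lam]` with
* `T(σ)² - a_ℓ(W) T(σ) + ℓ = 0` for every Frobenius element `σ` at a good prime `ℓ ≠ lam`;
* `T(σ)² - 2 T(σ) + 1 = 0` for every `σ` in an inertia group at a prime `q ≠ lam`.
-/

set_option autoImplicit false

namespace Fermat.Agent.S58.H94

open WeierstrassCurve WeierstrassCurve.Affine
open scoped WeierstrassCurve.Affine

/-- The Tate module side of the comparison. -/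
theorem exists_tate_h94 (W : WeierstrassCurve ℤ) (hΔ : W.Δ ≠ 0) (hss : W.IsSemistableModel)
    (lam : ℕ) [hlam : Fact lam.Prime] :
    ∃ T : GaloisRepAdic ℤ_[lam],
      (∀ ℓ : ℕ, ℓ.Prime → W.IsGoodPrimeFor ℓ → ℓ ≠ lam →
        ∀ A : ValuationSubring (AlgebraicClosure ℚ), A.LiesOverPrime ℓ →
          ∀ σ : AlgebraicClosure ℚ ≃ₐ[ℚ] AlgebraicClosure ℚ, A.IsFrobeniusAt σ ℓ →
            T.ρ σ * T.ρ σ - (((W.apOfModel ℓ : ℤ) : ℤ_[lam])) • T.ρ σ
              + ((ℓ : ℤ_[lam])) • (1 : Module.End ℤ_[lam] T.V) = 0) ∧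
      (∀ q : ℕ, q.Prime → q ≠ lam →
        ∀ P : ValuationSubring (AlgebraicClosure ℚ), P.LiesOverPrime q →
          ∀ σ ∈ P.inertiaSubgroupIn ℚ,
            T.ρ σ * T.ρ σ - (2 : ℤ_[lam]) • T.ρ σ + (1 : Module.End ℤ_[lam] T.V) = 0) := by
  classical
  have hE : ((Fermat.Agent.S59.H127.WQ W)⁄(AlgebraicClosure ℚ)).IsElliptic :=
    Fermat.Agent.S59.H127.isElliptic_of_Δ_ne_zero W hΔ
  obtain ⟨cb⟩ := Fermat.Agent.S59.H127.nonempty_compatBasis_point
    ((Fermat.Agent.S59.H127.WQ W)⁄(AlgebraicClosure ℚ)) lam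
  refine ⟨Fermat.Agent.S59.H127.tateGaloisRep (Fermat.Agent.S59.H127.WQ W) cb, ?_, ?_⟩
  · intro ℓ hℓ hgood hℓlam A hA σ hσ
    have h := Fermat.Agent.S59.H127.tateGaloisRep_quadratic (Fermat.Agent.S59.H127.WQ W) cb σ
      (W.apOfModel ℓ) (ℓ : ℤ) (fun n x hx =>
        Fermat.Agent.Lib.Frob.Small.frobRelationAll W ℓ hℓ hgood A σ hA hσ (lam ^ n)
          (pow_pos hlam.out.pos n)
          (Fermat.Agent.S59.H899.not_dvd_prime_pow hℓ hlam.out hℓlam n) x hx)
    rw [Int.cast_natCast] at h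
    exact h
  · intro q hq hqlam P hP σ hσ
    have h := Fermat.Agent.S59.H127.tateGaloisRep_quadratic (Fermat.Agent.S59.H127.WQ W) cb σ
      2 1 (fun n x hx => by
        by_cases hgood : W.IsGoodPrimeFor q
        · have hfix : ∀ y : Fermat.Agent.S59.H127.Pts W, lam ^ n • y = 0 → σ • y = y :=
            fun y hy => Fermat.Agent.S59.H899.inertia_smul_eq_self_of_good W hq hgood
              (Fermat.Agent.S59.H899.not_dvd_prime_pow hq hlam.out hqlam n) P hP σ hσ y hy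
          rw [hfix x hx, hfix x hx, one_zsmul]
          have e2 : (2 : ℤ) • x = x + x := by
            rw [show (2 : ℤ) = 1 + 1 from rfl, add_zsmul, one_zsmul]
          rw [e2]
          abel
        · exact Fermat.Agent.S59.H240.unipInput_of_semistable lam hlam.out W hΔ hss q hq hgood
            hqlam P hP σ hσ n x hx)
    rw [Int.cast_one, one_smul, Int.cast_ofNat] at h
    exact h

end Fermat.Agent.S58.H94

end
-- ===== PACK-END S58/H94/TateSide.lean

-- ===== PACK-BEGIN S58/H94/Compare.lean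
section




/-!
# Row S58 (helper94): comparison of a `lam`-adic representation with the Tate module of `W`

`compare_h94`: let `ρ'` be a `GaloisRepAdic` over a complete DVR `𝒪` of residue characteristic
`lam` whose Frobenius characteristic polynomials outside a finite set `S` (containing `lam` and
the bad primes of the semistable model `W`) are `X² - a_ℓ(W) X + ℓ`.  Then
* at every good prime `q ≠ lam` (possibly in `S`): if `charpoly ρ'(Frob_q) = X² - s X + q` then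
  `s = a_q(W)`;
* `ρ'` is unipotent on inertia at every prime `q ≠ lam`.
-/

set_option autoImplicit false

namespace Fermat.Agent.S58.H94

open Polynomial Fermat.Agent.S30.H990 Fermat.Agent.S55.H414

section LinAlg

variable {R : Type*} [CommRing R] {V : Type*} [AddCommGroup V] [Module R V]

/-- Cayley–Hamilton for a quadratic characteristic polynomial. -/
theorem rel_of_charpoly [Module.Free R V] [Module.Finite R V] (f : Module.End R V) (s b : R)
    (h : LinearMap.charpoly f = X ^ 2 - C s * X + C b) :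
    f * f - s • f + b • (1 : Module.End R V) = 0 := by
  have := LinearMap.aeval_self_charpoly f
  rw [h] at this
  simp only [map_add, map_sub, map_mul, aeval_X, aeval_C, Algebra.algebraMap_eq_smul_one,
    smul_mul_assoc, one_mul, pow_two] at this
  exact this

/-- Two quadratic relations with the same constant term for an invertible endomorphism of a
free module of rank two over a domain have the same linear term. -/
theorem eq_of_two_rel [IsDomain R] [Module.Free R V] [Module.Finite R V]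
    (h2 : Module.finrank R V = 2) (f : Module.End R V) (hf : IsUnit f) (a a' b : R)
    (h : f * f - a • f + b • (1 : Module.End R V) = 0)
    (h' : f * f - a' • f + b • (1 : Module.End R V) = 0) : a = a' := by
  have h1 : (a' - a) • f = 0 := by
    have : (a' - a) • f = (f * f - a • f + b • (1 : Module.End R V))
        - (f * f - a' • f + b • (1 : Module.End R V)) := by
      rw [sub_smul]; abel
    rw [this, h, h', sub_zero]
  obtain ⟨u, rfl⟩ := hf
  have h3 : (a' - a) • (1 : Module.End R V) = 0 := by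
    have := congrArg (fun g : Module.End R V => g * ((u⁻¹ : (Module.End R V)ˣ) : Module.End R V)) h1
    simpa [smul_mul_assoc] using this
  let e := Module.finBasisOfFinrankEq R V h2
  have h4 : (a' - a) • e 0 = 0 := by
    have := congrArg (fun g : Module.End R V => g (e 0)) h3
    simpa using this
  have h5 := congrArg (fun v => e.repr v 0) h4
  simp only [map_smul, Finsupp.smul_apply, Module.Basis.repr_self, Finsupp.single_eq_same,
    smul_eq_mul, mul_one, map_zero, Finsupp.zero_apply] at h5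
  exact (sub_eq_zero.mp h5).symm

end LinAlg

section BaseChange

variable {A : Type} [CommRing A] [IsLocalRing A] {B : Type} [CommRing B] [IsLocalRing B]

/-- A quadratic relation passes to the base change (tensor product form). -/
theorem rel_baseChange_h94 {A' B' : Type*} [CommRing A'] [CommRing B'] [Algebra A' B']
    {V : Type*} [AddCommGroup V] [Module A' V] (f : Module.End A' V) (a b : A')
    (h : f * f - a • f + b • (1 : Module.End A' V) = 0) :
    f.baseChange B' * f.baseChange B' - algebraMap A' B' a • f.baseChange B'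
      + algebraMap A' B' b • (1 : Module.End B' (TensorProduct A' B' V)) = 0 := by
  apply LinearMap.ext
  intro w
  simp only [LinearMap.add_apply, LinearMap.sub_apply, Module.End.mul_apply,
    LinearMap.smul_apply, Module.End.one_apply, LinearMap.zero_apply]
  induction w using TensorProduct.induction_on with
  | zero => simp
  | tmul c v =>
    have e := congrArg (fun g : Module.End A' V => g v) h
    simp only [LinearMap.add_apply, LinearMap.sub_apply, Module.End.mul_apply,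
      LinearMap.smul_apply, Module.End.one_apply, LinearMap.zero_apply] at e
    have ha : algebraMap A' B' a • (c ⊗ₜ[A'] (f v) : TensorProduct A' B' V)
        = c ⊗ₜ[A'] (a • f v) := by
      rw [TensorProduct.tmul_smul, TensorProduct.smul_tmul', TensorProduct.smul_tmul',
        Algebra.smul_def, Algebra.smul_def, Algebra.algebraMap_self, RingHom.id_apply]
    have hb : algebraMap A' B' b • (c ⊗ₜ[A'] v : TensorProduct A' B' V) = c ⊗ₜ[A'] (b • v) := by
      rw [TensorProduct.tmul_smul, TensorProduct.smul_tmul', TensorProduct.smul_tmul',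
        Algebra.smul_def, Algebra.smul_def, Algebra.algebraMap_self, RingHom.id_apply]
    rw [LinearMap.baseChange_tmul, LinearMap.baseChange_tmul, ha, hb, ← TensorProduct.tmul_sub,
      ← TensorProduct.tmul_add, e, TensorProduct.tmul_zero]
  | add x y hx hy =>
    have : f.baseChange B' (f.baseChange B' (x + y))
        - algebraMap A' B' a • f.baseChange B' (x + y) + algebraMap A' B' b • (x + y)
        = (f.baseChange B' (f.baseChange B' x) - algebraMap A' B' a • f.baseChange B' x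
            + algebraMap A' B' b • x)
          + (f.baseChange B' (f.baseChange B' y) - algebraMap A' B' a • f.baseChange B' y
            + algebraMap A' B' b • y) := by
      simp only [map_add, smul_add]
      abel
    rw [this, hx, hy, add_zero]

/-- A quadratic relation passes to the base change. -/
theorem rel_baseChangeAlong (φ : A →+* B) (hφ : IsLocalHom φ) (ρ : GaloisRepAdic A)
    (σ : AlgebraicClosure ℚ ≃ₐ[ℚ] AlgebraicClosure ℚ) (a b : A)
    (h : ρ.ρ σ * ρ.ρ σ - a • ρ.ρ σ + b • (1 : Module.End A ρ.V) = 0) :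
    (ρ.baseChangeAlong φ hφ).ρ σ * (ρ.baseChangeAlong φ hφ).ρ σ
      - φ a • (ρ.baseChangeAlong φ hφ).ρ σ
      + φ b • (1 : Module.End B (ρ.baseChangeAlong φ hφ).V) = 0 := by
  let _ : Algebra A B := φ.toAlgebra
  exact rel_baseChange_h94 (B' := B) (ρ.ρ σ) a b h

theorem isUnit_rho (ρ : GaloisRepAdic A) (σ : AlgebraicClosure ℚ ≃ₐ[ℚ] AlgebraicClosure ℚ) :
    IsUnit (ρ.ρ σ) :=
  (Group.isUnit σ).map ρ.ρ

end BaseChange

section Main

variable {𝒪 : Type} [CommRing 𝒪] [IsDomain 𝒪] [IsDiscreteValuationRing 𝒪]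
  [IsAdicComplete (IsLocalRing.maximalIdeal 𝒪) 𝒪] [Finite (IsLocalRing.ResidueField 𝒪)]

omit [IsAdicComplete (IsLocalRing.maximalIdeal 𝒪) 𝒪] [Finite (IsLocalRing.ResidueField 𝒪)] in
/-- A ring homomorphism `ℤ_[lam] → 𝒪` is local as soon as `lam` is not a unit of `𝒪`. -/
theorem isLocalHom_of_padicInt (lam : ℕ) [Fact lam.Prime]
    (hlam : (lam : 𝒪) ∈ IsLocalRing.maximalIdeal 𝒪) (φ : ℤ_[lam] →+* 𝒪) : IsLocalHom φ := by
  refine ⟨fun x hx => ?_⟩
  by_contra hnu
  have hx' : x ∈ IsLocalRing.maximalIdeal ℤ_[lam] := hnu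
  rw [PadicInt.maximalIdeal_eq_span_p, Ideal.mem_span_singleton'] at hx'
  obtain ⟨y, rfl⟩ := hx'
  have : φ (y * (lam : ℤ_[lam])) ∈ IsLocalRing.maximalIdeal 𝒪 := by
    rw [map_mul, map_natCast]
    exact Ideal.mul_mem_left _ _ hlam
  exact this hx

/-- **The comparison lemma.** -/
theorem compare_h94 (W : WeierstrassCurve ℤ) (hΔ : W.Δ ≠ 0) (hss : W.IsSemistableModel)
    (lam : ℕ) [Fact lam.Prime] (hlam : (lam : 𝒪) ∈ IsLocalRing.maximalIdeal 𝒪)
    (S : Finset ℕ) (hlamS : lam ∈ S) (hbadS : ∀ ℓ : ℕ, ℓ.Prime → (ℓ : ℤ) ∣ W.Δ → ℓ ∈ S)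
    (ρ' : GaloisRepAdic 𝒪)
    (hρ' : ∀ ℓ : ℕ, ℓ.Prime → ℓ ∉ S →
      ∀ A : ValuationSubring (AlgebraicClosure ℚ), A.LiesOverPrime ℓ →
        ∀ σ : AlgebraicClosure ℚ ≃ₐ[ℚ] AlgebraicClosure ℚ, A.IsFrobeniusAt σ ℓ →
          LinearMap.charpoly (ρ'.ρ σ) =
            X ^ 2 - C (((W.apOfModel ℓ : ℤ) : 𝒪)) * X + C ((ℓ : 𝒪))) :
    (∀ q : ℕ, q.Prime → q ≠ lam → W.IsGoodPrimeFor q →
      ∀ A : ValuationSubring (AlgebraicClosure ℚ), A.LiesOverPrime q →
        ∀ σ : AlgebraicClosure ℚ ≃ₐ[ℚ] AlgebraicClosure ℚ, A.IsFrobeniusAt σ q →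
          ∀ s : 𝒪, LinearMap.charpoly (ρ'.ρ σ) = X ^ 2 - C s * X + C ((q : 𝒪)) →
            s = ((W.apOfModel q : ℤ) : 𝒪)) ∧
    (∀ q : ℕ, q.Prime → q ≠ lam → ρ'.IsUnipotentOnInertiaAt q) := by
  obtain ⟨φ⟩ := exists_padicInt_ringHom lam 𝒪 hlam
  have hφ : IsLocalHom φ := isLocalHom_of_padicInt lam hlam φ
  obtain ⟨T, hTfrob, hTinert⟩ := exists_tate_h94 W hΔ hss lam
  set Tb : GaloisRepAdic 𝒪 := T.baseChangeAlong φ hφ with hTb
  obtain ⟨d, hdfrob, hdinert, -, hdcont⟩ := exists_cyclo lam 𝒪 hlam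
  -- the Frobenius relation on `Tb` at all good primes `≠ lam`
  have hTbfrob : ∀ ℓ : ℕ, ℓ.Prime → W.IsGoodPrimeFor ℓ → ℓ ≠ lam →
      ∀ A : ValuationSubring (AlgebraicClosure ℚ), A.LiesOverPrime ℓ →
        ∀ σ : AlgebraicClosure ℚ ≃ₐ[ℚ] AlgebraicClosure ℚ, A.IsFrobeniusAt σ ℓ →
          Tb.ρ σ * Tb.ρ σ - (((W.apOfModel ℓ : ℤ) : 𝒪)) • Tb.ρ σ
            + ((ℓ : 𝒪)) • (1 : Module.End 𝒪 Tb.V) = 0 := by
    intro ℓ hℓ hgood hℓlam A hA σ hσ
    have := rel_baseChangeAlong φ hφ T σ _ _ (hTfrob ℓ hℓ hgood hℓlam A hA σ hσ)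
    rw [map_intCast, map_natCast] at this
    exact this
  have hTbinert : ∀ q : ℕ, q.Prime → q ≠ lam →
      ∀ P : ValuationSubring (AlgebraicClosure ℚ), P.LiesOverPrime q →
        ∀ σ ∈ P.inertiaSubgroupIn ℚ,
          Tb.ρ σ * Tb.ρ σ - (2 : 𝒪) • Tb.ρ σ + (1 : 𝒪) • (1 : Module.End 𝒪 Tb.V) = 0 := by
    intro q hq hqlam P hP σ hσ
    have h := hTinert q hq hqlam P hP σ hσ
    have h' : T.ρ σ * T.ρ σ - (2 : ℤ_[lam]) • T.ρ σ
        + (1 : ℤ_[lam]) • (1 : Module.End ℤ_[lam] T.V) = 0 := by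
      rw [one_smul]; exact h
    have := rel_baseChangeAlong φ hφ T σ _ _ h'
    rw [map_ofNat, map_one] at this
    exact this
  -- the common relation
  have hgoodS : ∀ ℓ : ℕ, ℓ.Prime → ℓ ∉ S → W.IsGoodPrimeFor ℓ ∧ ℓ ≠ lam :=
    fun ℓ hℓ hℓS => ⟨fun hd => hℓS (hbadS ℓ hℓ hd), fun h => hℓS (h ▸ hlamS)⟩
  have hcommon : ∀ g : _root_.Fermat.Agent.S30.H990.GQ, ∃ a : 𝒪, Fermat.Agent.S30.H990.Rel ρ'.ρ d g a ∧
      Fermat.Agent.S30.H990.Rel Tb.ρ d g a :=
    exists_common_rel lam S hlamS ρ' Tb (fun ℓ => ((W.apOfModel ℓ : ℤ) : 𝒪))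
      (fun ℓ hℓ hℓS A hA σ hσ => rel_of_charpoly _ _ _ (hρ' ℓ hℓ hℓS A hA σ hσ))
      (fun ℓ hℓ hℓS A hA σ hσ =>
        hTbfrob ℓ hℓ (hgoodS ℓ hℓ hℓS).1 (hgoodS ℓ hℓ hℓS).2 A hA σ hσ)
      d hdfrob hdcont
  refine ⟨?_, ?_⟩
  · intro q hq hqlam hgood A hA σ hσ s hs
    obtain ⟨a, ha₁, ha₂⟩ := hcommon σ
    have hdσ : ((d σ : 𝒪ˣ) : 𝒪) = (q : 𝒪) := hdfrob q hq hqlam A hA σ hσ
    unfold Fermat.Agent.S30.H990.Rel at ha₁ ha₂
    rw [hdσ] at ha₁ ha₂
    have e1 : a = s := eq_of_two_rel ρ'.finrank_eq (ρ'.ρ σ) (isUnit_rho ρ' σ) a s (q : 𝒪) ha₁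
      (rel_of_charpoly _ _ _ hs)
    have e2 : a = ((W.apOfModel q : ℤ) : 𝒪) :=
      eq_of_two_rel Tb.finrank_eq (Tb.ρ σ) (isUnit_rho Tb σ) a _ (q : 𝒪) ha₂
        (hTbfrob q hq hgood hqlam A hA σ hσ)
    rw [← e1, e2]
  · intro q hq hqlam P hP σ hσ
    obtain ⟨a, ha₁, ha₂⟩ := hcommon σ
    have hdσ : d σ = 1 := hdinert q hq hqlam P hP σ hσ
    unfold Fermat.Agent.S30.H990.Rel at ha₁ ha₂
    rw [hdσ, Units.val_one] at ha₁ ha₂
    have e2 : a = 2 := eq_of_two_rel Tb.finrank_eq (Tb.ρ σ) (isUnit_rho Tb σ) a 2 1 ha₂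
      (hTbinert q hq hqlam P hP σ hσ)
    rw [e2, one_smul] at ha₁
    exact Fermat.Agent.S59.H127.charpoly_eq_of_sub_one_sq ρ'.finrank_eq (ρ'.ρ σ) ha₁

end Main

end Fermat.Agent.S58.H94

end
-- ===== PACK-END S58/H94/Compare.lean

-- ===== PACK-BEGIN S59/H461/FlatPeuKer.lean
section





/-!
# S59 / LO leaf FlatPeu (helper461): the `p`-torsion in the kernel of reduction, general `W`

`W : WeierstrassCurve ℤ` with multiplicative reduction at the odd prime `p` (`p ∣ Δ`, `p ∤ c₄`),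
`A` a valuation subring of `ℚ̄` over `p`, `E = curveQbar W`.  General-`W` versions of the
statements of helper420 for the Frey curve (`Ribet/H420/FreyKer.lean`):

* `val_xc_of_inKer_mult` : a nonzero `T ∈ E[p] ∩ E₁` has `v p * v (x T) ^ ((p-1)/2) = 1`;
* `exists_generator_mult` : `E[p] ∩ E₁ = {n • t}` for some `t ≠ 0`.
-/

set_option autoImplicit false
set_option linter.unusedSectionVars false
set_option linter.unusedVariables false
set_option linter.style.haveILetI false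

namespace Fermat.Agent.S59.H461

open WeierstrassCurve WeierstrassCurve.Affine Polynomial
open Fermat.Agent.S05.SameRed (InKer IntegralCoeffs)
open Fermat.Agent.S51.Five (xc xc_some)
open Fermat.Agent.S13.H891 (polyW map_polyW dc_polyW torsion_iff_root)
open Fermat.Agent.S59.H396 Fermat.Agent.S59.H899

local notation "Qb" => AlgebraicClosure ℚ

variable (W : WeierstrassCurve ℤ) (A : ValuationSubring Qb)

lemma natCast_mem_maxIdeal_h461 {p : ℕ} (hA : A.LiesOverPrime p) :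
    (p : A) ∈ IsLocalRing.maximalIdeal A := by
  rw [ValuationSubring.valuation_lt_one_iff]
  have : A.valuation ((p : ℤ) : Qb) < 1 := val_intCast_lt_one hA (dvd_refl _)
  simpa using this

lemma modelAt_Δ_mem {p : ℕ} (hA : A.LiesOverPrime p) (hbad : (p : ℤ) ∣ W.Δ) :
    (modelAt W A).Δ ∈ IsLocalRing.maximalIdeal A := by
  rw [ValuationSubring.valuation_lt_one_iff, modelAt_Δ]
  exact val_intCast_lt_one hA hbad

lemma modelAt_c₄_not_mem {p : ℕ} [hp : Fact p.Prime] (hA : A.LiesOverPrime p)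
    (hc₄ : ¬ (p : ℤ) ∣ W.c₄) :
    (modelAt W A).c₄ ∉ IsLocalRing.maximalIdeal A := by
  rw [ValuationSubring.valuation_lt_one_iff, modelAt_c₄, val_intCast_eq_one hA hp.out hc₄]
  exact lt_irrefl _

lemma map_polyW_modelAt (m : ℕ) :
    (polyW W.b₂ W.b₄ W.b₆ W.b₈ m).map (algebraMap ℤ A) = polyWV A (modelAt W A) m := by
  rw [map_polyW, polyWV, modelAt, WeierstrassCurve.map_b₂, WeierstrassCurve.map_b₄,
    WeierstrassCurve.map_b₆, WeierstrassCurve.map_b₈]
  rfl

/-- **The valuation of the `x`-coordinate of a `p`-torsion point in the kernel of reduction.** -/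
theorem val_xc_of_inKer_mult {p : ℕ} [hp : Fact p.Prime] (hp2 : p ≠ 2) (hΔ : W.Δ ≠ 0)
    (hbad : (p : ℤ) ∣ W.Δ) (hc₄ : ¬ (p : ℤ) ∣ W.c₄) (hA : A.LiesOverPrime p)
    (m : ℕ) (hm : p = 2 * m + 1)
    (T : (curveQbar W).Point) (hT0 : T ≠ 0) (hTp : p • T = 0)
    (hker : 1 < A.valuation (xc T)) :
    A.valuation (p : Qb) * A.valuation (xc T) ^ m = 1 := by
  haveI := _root_.Fermat.Agent.S59.H396.isElliptic_curveQbar W hΔ
  have hm1 : 1 ≤ m := by have := hp.out.two_le; omega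
  have hpv : A.valuation (p : Qb) < 1 := A.mem_nonunits_iff.mp hA
  have hpK : (p : Qb) ≠ 0 := Nat.cast_ne_zero.mpr hp.out.ne_zero
  obtain ⟨hdeg, hlead⟩ := dc_polyW W.b₂ W.b₄ W.b₆ W.b₈ m hm1
  have hres := natDegree_polyWV_res A (modelAt W A) p hp2 (natCast_mem_maxIdeal_h461 A hA)
    (modelAt_Δ_mem W A hA hbad) (modelAt_c₄_not_mem W A hA hc₄) 1 m hm1 (by rw [pow_one, hm])
  rw [← map_polyW_modelAt, Polynomial.map_map] at hres
  set f : ℤ[X] := polyW W.b₂ W.b₄ W.b₆ W.b₈ m with hf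
  set φ : ℤ →+* IsLocalRing.ResidueField A := (IsLocalRing.residue A).comp (algebraMap ℤ A)
    with hφ
  have hcoeff : ∀ k, (f.map φ).coeff k = 0 ↔ A.valuation ((f.coeff k : ℤ) : Qb) < 1 := by
    intro k
    rw [Polynomial.coeff_map, hφ, RingHom.comp_apply, IsLocalRing.residue_eq_zero_iff,
      ValuationSubring.valuation_lt_one_iff]
    simp
  have hD : 2 * m ^ 2 + 2 * m - m = 2 * m ^ 2 + m := by omega
  have hroot : (f.map (Int.castRingHom Qb)).eval (xc T) = 0 := by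
    rw [hf, Fermat.Agent.Ribet.H187.map_intCast_polyW]
    exact (torsion_iff_root hT0 m).mp (by rw [← hm]; exact hTp)
  refine Fermat.Agent.Ribet.H420.val_root_of_two_slopes A.valuation hp.out hpv hpK f
    (2 * m ^ 2 + 2 * m) m (by omega) (by nlinarith) hdeg (by rw [hlead, hm]) ?_ ?_ (xc T) hker
    hroot
  · rw [hD]
    have hne : (f.map φ).coeff (2 * m ^ 2 + m) ≠ 0 := by
      rw [← hres]
      apply Polynomial.leadingCoeff_ne_zero.mpr
      intro h0
      rw [h0, Polynomial.natDegree_zero] at hres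
      nlinarith
    rw [Ne, hcoeff, not_lt] at hne
    exact le_antisymm (Fermat.Agent.Ribet.H187.val_intCast_le_one A.valuation _) hne
  · intro k hk
    rw [← hcoeff]
    apply Polynomial.coeff_eq_zero_of_natDegree_lt
    rw [hres]
    omega

/-- `E[p]` meets the kernel of reduction in exactly `p` points. -/
theorem ncard_inKer_mult {p : ℕ} [hp : Fact p.Prime] (hp2 : p ≠ 2) (hΔ : W.Δ ≠ 0)
    (hbad : (p : ℤ) ∣ W.Δ) (hc₄ : ¬ (p : ℤ) ∣ W.c₄) (hA : A.LiesOverPrime p) :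
    Set.ncard {T : (curveQbar W).Point | p • T = 0 ∧ InKer (curveQbar W) A.valuation T} = p := by
  have h := (multTorsion_curveQbar hp2 hΔ hbad hc₄ hA).card 1
  simpa using h

/-- **`E[p] ∩ E₁` is cyclic of order `p`.** -/
theorem exists_generator_mult {p : ℕ} [hp : Fact p.Prime] (hp2 : p ≠ 2) (hΔ : W.Δ ≠ 0)
    (hbad : (p : ℤ) ∣ W.Δ) (hc₄ : ¬ (p : ℤ) ∣ W.c₄) (hA : A.LiesOverPrime p) :
    ∃ t : (curveQbar W).Point, t ≠ 0 ∧ p • t = 0 ∧ InKer (curveQbar W) A.valuation t ∧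
      ∀ T : (curveQbar W).Point, p • T = 0 → InKer (curveQbar W) A.valuation T →
        ∃ n : ℕ, T = n • t := by
  classical
  have hcard := ncard_inKer_mult W A hp2 hΔ hbad hc₄ hA
  set S : Set (curveQbar W).Point :=
    {T | p • T = 0 ∧ InKer (curveQbar W) A.valuation T} with hS
  have hp1 : 1 < p := hp.out.one_lt
  have hfin : S.Finite := Set.finite_of_ncard_pos (by rw [hcard]; exact hp.out.pos)
  obtain ⟨t, htS, ht0⟩ := Set.exists_ne_of_one_lt_ncard (by rw [hcard]; exact hp1)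
    (0 : (curveQbar W).Point)
  have hW := integralCoeffs W A
  refine ⟨t, ht0, htS.1, htS.2, ?_⟩
  have hord : addOrderOf t = p := addOrderOf_eq_prime htS.1 ht0
  set I : Set (curveQbar W).Point := (fun n : ℕ => n • t) '' (Set.Iio p) with hI
  have hIsub : I ⊆ S := by
    rintro _ ⟨n, -, rfl⟩
    refine ⟨?_, Fermat.Agent.S13.H64.inKer_nsmul hW htS.2 n⟩
    rw [smul_comm, htS.1]
    exact nsmul_zero n
  have hinj : Set.InjOn (fun n : ℕ => n • t) (Set.Iio p) := by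
    have := nsmul_injOn_Iio_addOrderOf (x := t)
    rwa [hord] at this
  have hIcard : I.ncard = p := by
    rw [hI, Set.InjOn.ncard_image hinj]
    simp [Set.ncard_eq_toFinset_card']
  have hIS : I = S := Set.eq_of_subset_of_ncard_le hIsub (by rw [hIcard, hcard]) hfin
  intro T hT hTker
  have hTS : T ∈ S := ⟨hT, hTker⟩
  rw [← hIS] at hTS
  obtain ⟨n, -, rfl⟩ := hTS
  exact ⟨n, rfl⟩

end Fermat.Agent.S59.H461

end
-- ===== PACK-END S59/H461/FlatPeuKer.lean

-- ===== PACK-BEGIN S59/H461/FlatPeuNode.lean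
section





/-!
# S59 / LO leaf FlatPeu (helper461): valuations near the node

`K` a valued field, `W` a Weierstrass curve with `v`-integral coefficients and a node model `M`
(`Fermat.Agent.S13.H365.NodeModel`: multiplicative reduction), `v 2 = 1`.

* `nodeCentre W = (18 b₆ - b₂ b₄) / c₄` is a RATIONAL centre of the node:
  `v (nodeCentre W - M.e) = v M.a` (`val_nodeCentre_sub`), so `v (x - nodeCentre W) = v (x - M.e)`
  for the points `x` of the annulus `v M.a < v (x - M.e)`;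
* `val_sub_node_lt_one` : an integral point with singular reduction has `v (x - M.e) < 1`;
* `val_shift_sq_le` : for `P = (x₁, y₁)` in the annulus and `T = (x₂, y₂)` in the kernel of
  reduction, `v (x(P + T) - x₁) ^ 2 * v x₂ ≤ v (x₁ - M.e) ^ 2`.
-/

set_option autoImplicit false
set_option linter.unusedSectionVars false
set_option linter.unusedVariables false
set_option linter.style.haveILetI false

namespace Fermat.Agent.S59.H461

open WeierstrassCurve WeierstrassCurve.Affine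
open Fermat.Agent.S05.SameRed (IntegralCoeffs InKer)
open Fermat.Agent.S13.H365
open Fermat.Agent.S05

variable {K : Type*} [Field K] {Γ₀ : Type*} [LinearOrderedCommGroupWithZero Γ₀]
  {v : Valuation K Γ₀} {W : Affine K}

/-- the rational centre of the node -/
noncomputable def nodeCentre (W : Affine K) : K := (18 * W.b₆ - W.b₂ * W.b₄) / W.c₄

section identities

variable [DecidableEq K]

lemma nodeModel_b₂ (M : NodeModel v W) : W.b₂ = (M.γ₁ - M.γ₂) ^ 2 - 12 * M.e := by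
  simp only [WeierstrassCurve.b₂]
  rw [M.a₂_eq, M.a₁_eq]
  ring

lemma nodeModel_b₄ (M : NodeModel v W) :
    W.b₄ = 2 * M.a - M.e * (M.γ₁ - M.γ₂) ^ 2 + 6 * M.e ^ 2 := by
  simp only [WeierstrassCurve.b₄]
  rw [M.a₄_eq, M.a₃_eq, M.a₁_eq]
  ring

lemma nodeModel_b₆ (M : NodeModel v W) :
    W.b₆ = -(4 * M.a * M.e) + M.e ^ 2 * (M.γ₁ - M.γ₂) ^ 2 - 4 * M.e ^ 3 := by
  simp only [WeierstrassCurve.b₆]
  rw [M.a₆_eq, M.a₄_eq, M.a₃_eq, M.a₂_eq, M.a₁_eq]
  ring

lemma nodeModel_c₄ (M : NodeModel v W) : W.c₄ = (M.γ₁ - M.γ₂) ^ 4 - 48 * M.a := by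
  simp only [WeierstrassCurve.c₄]
  rw [nodeModel_b₂ M, nodeModel_b₄ M]
  ring

lemma nodeCentre_sub (M : NodeModel v W) (hc : W.c₄ ≠ 0) :
    nodeCentre W - M.e = -(2 * M.a * (M.γ₁ - M.γ₂) ^ 2) / W.c₄ := by
  have h : 18 * W.b₆ - W.b₂ * W.b₄ - M.e * W.c₄ = -(2 * M.a * (M.γ₁ - M.γ₂) ^ 2) := by
    rw [nodeModel_c₄ M, nodeModel_b₂ M, nodeModel_b₄ M, nodeModel_b₆ M]
    ring
  rw [nodeCentre, eq_div_iff hc, sub_mul, div_mul_cancel₀ _ hc]
  exact h

/-- `2 sumNum - 4 x₁ (x₁ - x₂)²` in the coordinates centred at the node. -/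
lemma sumNum_node (M : NodeModel v W) (x₁ x₂ : K) :
    2 * XOnly.sumNum W x₁ x₂ - 4 * (x₁ - x₂) ^ 2 * x₁ =
      (x₂ - M.e) * (12 * (x₁ - M.e) ^ 2 + 2 * (M.γ₁ - M.γ₂) ^ 2 * (x₁ - M.e) + 4 * M.a)
        + (4 * M.a * (x₁ - M.e) - 4 * (x₁ - M.e) ^ 3) := by
  simp only [XOnly.sumNum]
  rw [nodeModel_b₂ M, nodeModel_b₄ M, nodeModel_b₆ M]
  ring

/-- `η² = 4ξ³ + δ²ξ² + 4aξ`. -/
lemma twoF_node (M : NodeModel v W) (x : K) :
    XOnly.twoF W x =
      4 * (x - M.e) ^ 3 + (M.γ₁ - M.γ₂) ^ 2 * (x - M.e) ^ 2 + 4 * M.a * (x - M.e) := by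
  simp only [XOnly.twoF]
  rw [nodeModel_b₂ M, nodeModel_b₄ M, nodeModel_b₆ M]
  ring

end identities

section valuations

variable [DecidableEq K]

lemma val_four_h461 (h2 : v (2 : K) = 1) : v (4 : K) = 1 := by
  have : (4 : K) = 2 * 2 := by norm_num
  rw [this, map_mul, h2, one_mul]

lemma val_ofNat_le_one_h461 (n : ℕ) : v (n : K) ≤ 1 := by
  induction n with
  | zero => simp
  | succ n ih =>
    push_cast
    exact (v.map_add _ _).trans (max_le ih (by rw [map_one]))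

/-- `v (nodeCentre W - M.e) = v M.a`. -/
lemma val_nodeCentre_sub (M : NodeModel v W) (h2 : v (2 : K) = 1) (hc₄ : v W.c₄ = 1) :
    v (nodeCentre W - M.e) = v M.a := by
  have hc : W.c₄ ≠ 0 := by
    intro h
    rw [h, map_zero] at hc₄
    exact zero_ne_one hc₄
  rw [nodeCentre_sub M hc, map_div₀, hc₄, div_one, Valuation.map_neg, map_mul, map_mul, h2,
    one_mul, map_pow, M.hδ, one_pow, mul_one]

/-- On the annulus, the distance to the rational centre is the distance to `M.e`. -/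
lemma val_sub_nodeCentre (M : NodeModel v W) (h2 : v (2 : K) = 1) (hc₄ : v W.c₄ = 1)
    {x : K} (hx : v M.a < v (x - M.e)) : v (x - nodeCentre W) = v (x - M.e) := by
  have e : x - nodeCentre W = (x - M.e) - (nodeCentre W - M.e) := by ring
  rw [e]
  exact Valuation.map_sub_eq_of_lt_left _ (by rw [val_nodeCentre_sub M h2 hc₄]; exact hx)

/-- An integral point with singular reduction reduces to the node. -/
lemma val_sub_node_lt_one (M : NodeModel v W) (hW : IntegralCoeffs W v) (he : v M.e ≤ 1)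
    {x y : K} (h : W.Equation x y) (hx : v x ≤ 1)
    (hgX : v (W.a₁ * y - (3 * x ^ 2 + 2 * W.a₂ * x + W.a₄)) < 1)
    (hgY : v (2 * y + W.a₁ * x + W.a₃) < 1) : v (x - M.e) < 1 := by
  have hy := GoodRed.val_y_le_one hW h hx
  have hle : v (x - M.e) ≤ 1 := (v.map_sub _ _).trans (max_le hx he)
  refine lt_of_le_of_ne hle fun heq => ?_
  rcases M.nonsingular_red hW h hx hy heq with h1 | h1
  · exact hgX.ne h1
  · exact hgY.ne h1

/-- `v η² = v x ³` at a point of the kernel of reduction. -/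
lemma val_eta_sq_of_large (hW : IntegralCoeffs W v) (h2 : v (2 : K) = 1) {x y : K}
    (h : W.Equation x y) (hx : 1 < v x) :
    v (XOnly.eta W x y) ^ 2 = v x ^ 3 := by
  have hI := C1b.isIntegralAt_of_integralCoeffs hW
  have h4 : v (4 : K) = 1 := val_four_h461 h2
  have e := XOnly.eta_sq W h
  simp only [XOnly.twoF] at e
  rw [← map_pow, e]
  have hmain : v (4 * x ^ 3) = v x ^ 3 := by rw [map_mul, h4, one_mul, map_pow]
  have h1 : v (W.b₂ * x ^ 2) < v x ^ 3 := by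
    rw [map_mul, map_pow]
    calc v W.b₂ * v x ^ 2 ≤ 1 * v x ^ 2 := mul_le_mul_left (FG.v_b₂ hI) _
      _ = v x ^ 2 := one_mul _
      _ < v x ^ 3 := pow_lt_pow_right₀ hx (by norm_num)
  have h3 : v (2 * W.b₄ * x) < v x ^ 3 := by
    rw [map_mul, map_mul, h2, one_mul]
    calc v W.b₄ * v x ≤ 1 * v x := mul_le_mul_left (FG.v_b₄ hI) _
      _ = v x ^ 1 := by rw [one_mul, pow_one]
      _ < v x ^ 3 := pow_lt_pow_right₀ hx (by norm_num)
  have h6 : v W.b₆ < v x ^ 3 :=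
    lt_of_le_of_lt (FG.v_b₆ hI) (one_lt_pow₀ hx (by norm_num))
  rw [add_assoc, add_assoc, v.map_add_eq_of_lt_left, hmain]
  rw [hmain]
  exact lt_of_le_of_lt (v.map_add _ _) (max_lt h1
    (lt_of_le_of_lt (v.map_add _ _) (max_lt h3 h6)))

/-- **The shift bound.**  For `P = (x₁, y₁)` in the annulus around the node and `T = (x₂, y₂)` in
the kernel of reduction: `v (x(P + T) - x(P)) ^ 2 * v (x T) ≤ v (x(P) - e) ^ 2`. -/
theorem val_shift_sq_le (M : NodeModel v W) (hW : IntegralCoeffs W v) (he : v M.e ≤ 1)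
    (h2 : v (2 : K) = 1)
    {x₁ y₁ x₂ y₂ : K} (h₁ : W.Nonsingular x₁ y₁) (h₂ : W.Nonsingular x₂ y₂)
    (hlo : v M.a < v (x₁ - M.e)) (hhi : v (x₁ - M.e) < 1) (hx₂ : 1 < v x₂)
    {xp yp : K} (hp : W.Nonsingular xp yp)
    (hadd : Point.some x₁ y₁ h₁ + Point.some x₂ y₂ h₂ = Point.some xp yp hp) :
    v (xp - x₁) ^ 2 * v x₂ ≤ v (x₁ - M.e) ^ 2 := by
  have h4 : v (4 : K) = 1 := val_four_h461 h2
  set g := v (x₁ - M.e) with hg
  set G := v x₂ with hG
  have hGpos : 0 < G := lt_trans zero_lt_one hx₂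
  have hG1 : 1 ≤ G := hx₂.le
  have hg1 : g ≤ 1 := hhi.le
  have hx₁ : v x₁ ≤ 1 := by
    have e : x₁ = (x₁ - M.e) + M.e := by ring
    rw [e]
    exact (v.map_add _ _).trans (max_le hg1 he)
  have hne : x₁ ≠ x₂ := by
    rintro rfl
    exact absurd hx₂ (not_lt.mpr hx₁)
  obtain ⟨xp', yp', xm, ym, hp', hm', hadd', -, e1, -⟩ := XOnly.add_sub_of_X_ne W h₁ h₂ hne
  have hxp : xp = xp' := by
    have h := hadd.symm.trans hadd'
    simp only [Point.some.injEq] at h
    exact h.1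
  subst hxp
  -- the key identity
  have key : 4 * (x₁ - x₂) ^ 2 * (xp - x₁) =
      (x₂ - M.e) * (12 * (x₁ - M.e) ^ 2 + 2 * (M.γ₁ - M.γ₂) ^ 2 * (x₁ - M.e) + 4 * M.a)
        + (4 * M.a * (x₁ - M.e) - 4 * (x₁ - M.e) ^ 3)
        - 2 * XOnly.eta W x₁ y₁ * XOnly.eta W x₂ y₂ := by
    linear_combination e1 + sumNum_node M x₁ x₂
  -- valuations of the pieces
  have hva : v M.a ≤ g := hlo.le
  have hξ₂ : v (x₂ - M.e) = G :=
    Valuation.map_sub_eq_of_lt_left _ (lt_of_le_of_lt he hx₂)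
  have hx12 : v (x₁ - x₂) = G := by
    rw [Valuation.map_sub_swap]
    exact Valuation.map_sub_eq_of_lt_left _ (lt_of_le_of_lt hx₁ hx₂)
  have h12 : v (12 : K) ≤ 1 := by exact_mod_cast val_ofNat_le_one_h461 (v := v) 12
  have hF : v (12 * (x₁ - M.e) ^ 2 + 2 * (M.γ₁ - M.γ₂) ^ 2 * (x₁ - M.e) + 4 * M.a) ≤ g := by
    refine (v.map_add _ _).trans (max_le ((v.map_add _ _).trans (max_le ?_ ?_)) ?_)
    · rw [map_mul, map_pow, ← hg]
      calc v (12 : K) * g ^ 2 ≤ 1 * g ^ 2 := mul_le_mul_left h12 _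
        _ = g * g := by rw [one_mul, pow_two]
        _ ≤ g * 1 := mul_le_mul_right hg1 _
        _ = g := mul_one _
    · rw [map_mul, map_mul, map_pow, h2, M.hδ, one_pow, one_mul, one_mul]
    · rw [map_mul, h4, one_mul]
      exact hva
  have hR : v (4 * M.a * (x₁ - M.e) - 4 * (x₁ - M.e) ^ 3) ≤ g := by
    refine (v.map_sub _ _).trans (max_le ?_ ?_)
    · rw [map_mul, map_mul, h4, one_mul, ← hg]
      calc v M.a * g ≤ 1 * g := mul_le_mul_left (M.ha.le) _
        _ = g := one_mul _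
    · rw [map_mul, map_pow, h4, one_mul, ← hg]
      calc g ^ 3 = g ^ 2 * g := pow_succ g 2
        _ ≤ 1 * g := mul_le_mul_left (pow_le_one₀ zero_le hg1) _
        _ = g := one_mul _
  have hη₁ : v (XOnly.eta W x₁ y₁) ^ 2 ≤ g ^ 2 := by
    rw [← map_pow, XOnly.eta_sq W h₁.1, twoF_node M x₁]
    refine (v.map_add _ _).trans (max_le ((v.map_add _ _).trans (max_le ?_ ?_)) ?_)
    · rw [map_mul, map_pow, h4, one_mul, ← hg]
      calc g ^ 3 = g ^ 2 * g := pow_succ g 2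
        _ ≤ g ^ 2 * 1 := mul_le_mul_right hg1 _
        _ = g ^ 2 := mul_one _
    · rw [map_mul, map_pow, map_pow, M.hδ, one_pow, one_mul]
    · rw [map_mul, map_mul, h4, one_mul, ← hg, pow_two]
      exact mul_le_mul_left hva _
  have hη₂ : v (XOnly.eta W x₂ y₂) ^ 2 = G ^ 3 := val_eta_sq_of_large hW h2 h₂.1 hx₂
  -- the numerator
  set d := v (xp - x₁) with hd
  have hN : v (4 * (x₁ - x₂) ^ 2 * (xp - x₁)) = G ^ 2 * d := by
    rw [map_mul, map_mul, map_pow, h4, one_mul, hx12]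
  have hG3 : (0 : Γ₀) < G ^ 3 := pow_pos hGpos 3
  have hbound : v (4 * (x₁ - x₂) ^ 2 * (xp - x₁)) ≤ G * g ∨
      v (4 * (x₁ - x₂) ^ 2 * (xp - x₁)) ≤
        v (XOnly.eta W x₁ y₁) * v (XOnly.eta W x₂ y₂) := by
    rw [key]
    have hA : v ((x₂ - M.e) *
        (12 * (x₁ - M.e) ^ 2 + 2 * (M.γ₁ - M.γ₂) ^ 2 * (x₁ - M.e) + 4 * M.a)
        + (4 * M.a * (x₁ - M.e) - 4 * (x₁ - M.e) ^ 3)) ≤ G * g := by
      refine (v.map_add _ _).trans (max_le ?_ ?_)
      · rw [map_mul, hξ₂]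
        exact mul_le_mul_right hF _
      · calc v (4 * M.a * (x₁ - M.e) - 4 * (x₁ - M.e) ^ 3) ≤ g := hR
          _ = 1 * g := (one_mul _).symm
          _ ≤ G * g := mul_le_mul_left hG1 _
    have hB : v (2 * XOnly.eta W x₁ y₁ * XOnly.eta W x₂ y₂) =
        v (XOnly.eta W x₁ y₁) * v (XOnly.eta W x₂ y₂) := by
      rw [map_mul, map_mul, h2, one_mul]
    rcases le_total (v (2 * XOnly.eta W x₁ y₁ * XOnly.eta W x₂ y₂))
      (v ((x₂ - M.e) *
        (12 * (x₁ - M.e) ^ 2 + 2 * (M.γ₁ - M.γ₂) ^ 2 * (x₁ - M.e) + 4 * M.a)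
        + (4 * M.a * (x₁ - M.e) - 4 * (x₁ - M.e) ^ 3))) with hle | hle
    · left
      exact (v.map_sub _ _).trans (max_le hA (hle.trans hA))
    · right
      rw [← hB]
      exact (v.map_sub _ _).trans (max_le hle le_rfl)
  have hsq : (G ^ 2 * d) ^ 2 ≤ g ^ 2 * G ^ 3 := by
    rw [← hN]
    rcases hbound with hb | hb
    · calc v (4 * (x₁ - x₂) ^ 2 * (xp - x₁)) ^ 2 ≤ (G * g) ^ 2 :=
            pow_le_pow_left₀ zero_le hb 2
        _ = g ^ 2 * G ^ 2 := by rw [mul_pow, mul_comm]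
        _ ≤ g ^ 2 * G ^ 3 := mul_le_mul_right (pow_le_pow_right₀ hG1 (by norm_num)) _
    · calc v (4 * (x₁ - x₂) ^ 2 * (xp - x₁)) ^ 2
          ≤ (v (XOnly.eta W x₁ y₁) * v (XOnly.eta W x₂ y₂)) ^ 2 :=
            pow_le_pow_left₀ zero_le hb 2
        _ = v (XOnly.eta W x₁ y₁) ^ 2 * G ^ 3 := by rw [mul_pow, hη₂]
        _ ≤ g ^ 2 * G ^ 3 := mul_le_mul_left hη₁ _
  have hfin : G ^ 3 * (d ^ 2 * G) ≤ G ^ 3 * g ^ 2 := by
    calc G ^ 3 * (d ^ 2 * G) = (G ^ 2 * d) ^ 2 := by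
          simp only [pow_succ, pow_zero, one_mul]; ac_rfl
      _ ≤ g ^ 2 * G ^ 3 := hsq
      _ = G ^ 3 * g ^ 2 := mul_comm _ _
  exact (mul_le_mul_iff_right₀ hG3).mp hfin

end valuations

end Fermat.Agent.S59.H461

end
-- ===== PACK-END S59/H461/FlatPeuNode.lean

-- ===== PACK-BEGIN S59/H461/FlatPeuLoc.lean
section



/-!
# S59 / LO leaf FlatPeu (helper461): the `p`-torsion outside the kernel of reduction

`W : WeierstrassCurve ℤ` with multiplicative reduction at the odd prime `p`, `A` a place of `ℚ̄`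
over `p`, `E = curveQbar W`, `M` a node model of `E` at `A`, `c = nodeCentre E` (a rational number).
For `P = (x, y) ∈ E[p]` outside the kernel of reduction:

* `annulus_of_torsion`  : `v a < v (x - e) < 1` and `v (x - c) = v (x - e)`;
* `val_pow_of_torsion`  : `v (x - c) ^ p = v p ^ m` with `p ∤ m`, if `p ∤ v_p(Δ)`;
* `val_shift_pow_le`    : `v (x(P + T) - x(P)) ^ (p - 1) ≤ v p * v (x - c) ^ (p - 1)` for
  `T ∈ E[p]` in the kernel of reduction.
-/

set_option autoImplicit false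
set_option linter.unusedSectionVars false
set_option linter.unusedVariables false
set_option linter.style.haveILetI false

namespace Fermat.Agent.S59.H461

open WeierstrassCurve WeierstrassCurve.Affine
open Fermat.Agent.S05.SameRed (InKer IntegralCoeffs)
open Fermat.Agent.S51.Five (xc xc_some)
open Fermat.Agent.S59.H396 Fermat.Agent.S59.H899
open Fermat.Agent.S13.H365
open Fermat.Agent.S59.H240 (rad gX gY)
open Fermat.Agent.Lib.Red.H290 (inKer_add inKer_neg inKer_sub)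

local notation "Qb" => AlgebraicClosure ℚ

variable (W : WeierstrassCurve ℤ) (A : ValuationSubring Qb)

/-- the valuation of a nonzero integer at a place over `p` -/
lemma val_intCast_eq_pow_h461 {p : ℕ} [hp : Fact p.Prime] (hA : A.LiesOverPrime p) {z : ℤ}
    (hz : z ≠ 0) :
    A.valuation ((z : ℤ) : Qb) = A.valuation (p : Qb) ^ padicValInt p z := by
  obtain ⟨c, hc⟩ := padicValInt_dvd (p := p) z
  have hnd : ¬ (p : ℤ) ∣ c := by
    intro hdvd
    obtain ⟨d, hd⟩ := hdvd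
    have h1 : (p : ℤ) ^ (padicValInt p z + 1) ∣ z :=
      ⟨d, by conv_lhs => rw [hc, hd]
             ring⟩
    rcases (padicValInt_dvd_iff _ _).mp h1 with h | h
    · exact hz h
    · omega
  have h1 := val_intCast_eq_one hA hp.out hnd
  have e : ((z : ℤ) : Qb) = (p : Qb) ^ padicValInt p z * ((c : ℤ) : Qb) := by
    conv_lhs => rw [hc]
    push_cast
    rfl
  rw [e, map_mul, map_pow, h1, mul_one]

variable {W A}

lemma val_two_eq_one_h461 {p : ℕ} [hp : Fact p.Prime] (hp2 : p ≠ 2) (hA : A.LiesOverPrime p) :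
    A.valuation (2 : Qb) = 1 := by
  have h : ¬ (p : ℤ) ∣ 2 := by
    intro h
    have h' : p ∣ 2 := by exact_mod_cast h
    exact hp2 ((Nat.prime_dvd_prime_iff_eq hp.out Nat.prime_two).mp h')
  have := val_intCast_eq_one hA hp.out h
  simpa using this

section mult

variable {p : ℕ} [hp : Fact p.Prime] (hp2 : p ≠ 2) (hΔ : W.Δ ≠ 0)
  (hbad : (p : ℤ) ∣ W.Δ) (hc₄ : ¬ (p : ℤ) ∣ W.c₄) (hA : A.LiesOverPrime p)

include hp2 hΔ hbad hc₄ hA

/-- a node model at a place over a multiplicative prime -/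
theorem exists_nodeModel_h461 :
    ∃ M : NodeModel A.valuation (curveQbar W), A.valuation M.e ≤ 1 := by
  have hW := integralCoeffs W A
  have hc : A.valuation (curveQbar W).c₄ = 1 := by
    rw [curveQbar_c₄]
    exact val_intCast_eq_one hA hp.out hc₄
  have hΔv : A.valuation (curveQbar W).Δ < 1 := by
    rw [curveQbar_Δ]
    exact val_intCast_lt_one hA hbad
  have hΔ0 : (curveQbar W).Δ ≠ 0 := by
    rw [curveQbar_Δ]
    exact_mod_cast hΔ
  exact Fermat.Agent.S15.H782.exists_nodeModel two_ne_zero hW hc hΔv hΔ0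

/-- **The annulus.** An integral point of order `p` lies in the open annulus around the node. -/
theorem annulus_of_torsion (M : NodeModel A.valuation (curveQbar W)) (he : A.valuation M.e ≤ 1)
    {x y : Qb} (h : (curveQbar W).Nonsingular x y) (hP : p • Point.some x y h = 0)
    (hx : A.valuation x ≤ 1) :
    A.valuation M.a < A.valuation (x - M.e) ∧ A.valuation (x - M.e) < 1 ∧
      A.valuation (x - nodeCentre (curveQbar W)) = A.valuation (x - M.e) ∧
      ∃ j : ℕ, 0 < j ∧ 2 * j < p ∧ A.valuation (x - M.e) ^ p = A.valuation M.a ^ (2 * j) := by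
  have hW := integralCoeffs W A
  have hc : A.valuation (curveQbar W).c₄ = 1 := by
    rw [curveQbar_c₄]
    exact val_intCast_eq_one hA hp.out hc₄
  have h2 : A.valuation (2 : Qb) = 1 := val_two_eq_one_h461 hp2 hA
  have hMT := multTorsion_curveQbar hp2 hΔ hbad hc₄ hA
  have hrad := hMT.rad 1 h (by rw [pow_one]; exact hP) hx
  rw [rad, max_lt_iff] at hrad
  have hlt : A.valuation (x - M.e) < 1 := val_sub_node_lt_one M hW he h.1 hx hrad.1 hrad.2
  obtain ⟨hlo, j, hj⟩ := M.torsion_near_node (hp.out.odd_of_ne_two hp2) h hP hlt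
  have hcen := val_sub_nodeCentre M h2 hc hlo
  have ha0 : 0 < A.valuation M.a := zero_lt_iff.mpr ((Valuation.ne_zero_iff _).mpr M.ha0)
  have ha1 : A.valuation M.a < 1 := M.ha
  have hj1 : A.valuation M.a ^ (2 * j) < 1 := by
    rw [← hj]
    exact pow_lt_one₀ zero_le hlt hp.out.ne_zero
  have hj2 : A.valuation M.a ^ p < A.valuation M.a ^ (2 * j) := by
    rw [← hj]
    exact pow_lt_pow_left₀ hlo zero_le hp.out.ne_zero
  have hjpos : 0 < j := by
    rcases Nat.eq_zero_or_pos j with h0 | h0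
    · rw [h0, mul_zero, pow_zero] at hj1
      exact absurd hj1 (lt_irrefl _)
    · exact h0
  have hjlt : 2 * j < p := (pow_lt_pow_iff_right_of_lt_one₀ ha0 ha1).mp hj2
  exact ⟨hlo, hlt, hcen, j, hjpos, hjlt, hj⟩

/-- **The valuation of `x - c`** for a `p`-torsion point outside the kernel of reduction, when
`p ∤ v_p(Δ)`. -/
theorem val_pow_of_torsion (hpeu : ¬ (p : ℤ) ∣ ((padicValInt p W.Δ : ℕ) : ℤ))
    (M : NodeModel A.valuation (curveQbar W)) (he : A.valuation M.e ≤ 1)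
    {x y : Qb} (h : (curveQbar W).Nonsingular x y) (hP : p • Point.some x y h = 0)
    (hx : A.valuation x ≤ 1) :
    ∃ m : ℤ, ¬ (p : ℤ) ∣ m ∧
      A.valuation (x - nodeCentre (curveQbar W)) ^ p = A.valuation (p : Qb) ^ m := by
  obtain ⟨hlo, hlt, hcen, j, hjpos, hjlt, hj⟩ :=
    annulus_of_torsion hp2 hΔ hbad hc₄ hA M he h hP hx
  have hΔv : A.valuation (curveQbar W).Δ = A.valuation (p : Qb) ^ padicValInt p W.Δ := by
    rw [curveQbar_Δ]
    exact val_intCast_eq_pow_h461 A hA hΔ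
  have hMa : A.valuation M.a ^ 2 = A.valuation (p : Qb) ^ padicValInt p W.Δ := by
    rw [← Fermat.Agent.S15.H782.nodeModel_val_Δ M, hΔv]
  refine ⟨((padicValInt p W.Δ * j : ℕ) : ℤ), ?_, ?_⟩
  · intro hdvd
    have h' : p ∣ padicValInt p W.Δ * j := by exact_mod_cast hdvd
    rcases (Nat.Prime.dvd_mul hp.out).mp h' with h1 | h1
    · exact hpeu (by exact_mod_cast h1)
    · have := Nat.le_of_dvd hjpos h1
      omega
  · rw [hcen, hj, pow_mul, hMa, ← pow_mul, zpow_natCast]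

/-- **The shift bound.** -/
theorem val_shift_pow_le (M : NodeModel A.valuation (curveQbar W)) (he : A.valuation M.e ≤ 1)
    {x₁ y₁ : Qb} (h₁ : (curveQbar W).Nonsingular x₁ y₁) (hP : p • Point.some x₁ y₁ h₁ = 0)
    (hx₁ : A.valuation x₁ ≤ 1)
    (T : (curveQbar W).Point) (hTp : p • T = 0) (hT : InKer (curveQbar W) A.valuation T) :
    A.valuation (xc (Point.some x₁ y₁ h₁ + T) - x₁) ^ (p - 1) ≤
      A.valuation (p : Qb) * A.valuation (x₁ - nodeCentre (curveQbar W)) ^ (p - 1) := by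
  obtain ⟨hlo, hlt, hcen, -⟩ := annulus_of_torsion hp2 hΔ hbad hc₄ hA M he h₁ hP hx₁
  have hW := integralCoeffs W A
  have h2 : A.valuation (2 : Qb) = 1 := val_two_eq_one_h461 hp2 hA
  have hp1 : p - 1 ≠ 0 := by
    have := hp.out.two_le
    omega
  rcases T with _ | ⟨x₂, y₂, h₂⟩
  · have e : Point.some x₁ y₁ h₁ + (Point.zero : (curveQbar W).Point) = Point.some x₁ y₁ h₁ :=
      add_zero _
    rw [e, xc_some, sub_self, map_zero, zero_pow hp1]
    exact zero_le
  · have hx₂ : 1 < A.valuation x₂ := hT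
    obtain ⟨m, hm⟩ : ∃ m, p = 2 * m + 1 := hp.out.odd_of_ne_two hp2
    have hT0 : Point.some x₂ y₂ h₂ ≠ 0 := Point.some_ne_zero h₂
    have hv := val_xc_of_inKer_mult W A hp2 hΔ hbad hc₄ hA m hm _ hT0 hTp
      (by rw [xc_some]; exact hx₂)
    rw [xc_some] at hv
    rcases hQ : Point.some x₁ y₁ h₁ + Point.some x₂ y₂ h₂ with _ | ⟨xp, yp, hp'⟩
    · exfalso
      have e : Point.some x₁ y₁ h₁ = - Point.some x₂ y₂ h₂ := eq_neg_of_add_eq_zero_left hQ
      have hk : InKer (curveQbar W) A.valuation (Point.some x₁ y₁ h₁) := by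
        rw [e]
        exact inKer_neg hT
      exact absurd hk (not_lt.mpr hx₁)
    · rw [xc_some, hcen]
      have key := val_shift_sq_le M hW he h2 h₁ h₂ hlo hlt hx₂ hp' hQ
      have hpm : p - 1 = 2 * m := by omega
      rw [hpm, pow_mul, pow_mul]
      have h3 : (A.valuation (xp - x₁) ^ 2 * A.valuation x₂) ^ m ≤
          (A.valuation (x₁ - M.e) ^ 2) ^ m := pow_le_pow_left₀ zero_le key m
      rw [mul_pow] at h3
      calc (A.valuation (xp - x₁) ^ 2) ^ m
          = (A.valuation (xp - x₁) ^ 2) ^ m * (A.valuation (p : Qb) * A.valuation x₂ ^ m) := by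
            rw [hv, mul_one]
        _ = A.valuation (p : Qb) * ((A.valuation (xp - x₁) ^ 2) ^ m * A.valuation x₂ ^ m) := by
            ac_rfl
        _ ≤ A.valuation (p : Qb) * (A.valuation (x₁ - M.e) ^ 2) ^ m :=
            mul_le_mul_right h3 _

end mult

end Fermat.Agent.S59.H461

end
-- ===== PACK-END S59/H461/FlatPeuLoc.lean

-- ===== PACK-BEGIN S59/H601/PeuRootsN.lean
section


/-!
# S59 / NMP-SEL (F) (helper601), part 1: `N`-th roots of unity

`ζ` a primitive `N`-th root of unity in `ℚ̄` (`N ≠ 0`; in the application `N = p ^ n`).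

* `ezN601 ζ x = ζ ^ x.val` (`x : ZMod N`): the additive character `ℤ/N → μ_N`;
* `omN601 hζ σ : ZMod N`: the mod `N` cyclotomic character, `σ ζ = ζ ^ (omN601 hζ σ).val`;
* `root_valN601`: an `N`-th root of unity is a unit at every valuation subring.
-/

set_option autoImplicit false
set_option linter.unusedSectionVars false
set_option linter.style.haveILetI false

namespace Fermat.Agent.S59.H601

open Fermat.Agent.S19

section RootsN

variable {N : ℕ} [NeZero N]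

/-- The additive character `x ↦ ζ ^ x`. -/
noncomputable def ezN601 (ζ : Qb) (x : ZMod N) : Qb := ζ ^ x.val

theorem ezN601_zero (ζ : Qb) : ezN601 ζ (0 : ZMod N) = 1 := by
  simp [ezN601]

theorem ezN601_add {ζ : Qb} (hζ : ζ ^ N = 1) (x y : ZMod N) :
    ezN601 ζ (x + y) = ezN601 ζ x * ezN601 ζ y := by
  unfold ezN601
  rw [ZMod.val_add, ← pow_add, ← pow_eq_pow_mod _ hζ]

theorem ezN601_mul {ζ : Qb} (hζ : ζ ^ N = 1) (a x : ZMod N) :
    ezN601 ζ (a * x) = (ζ ^ a.val) ^ x.val := by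
  unfold ezN601
  rw [ZMod.val_mul, ← pow_mul, ← pow_eq_pow_mod _ hζ]

theorem ezN601_pow {ζ : Qb} (hζ : ζ ^ N = 1) (x : ZMod N) : ezN601 ζ x ^ N = 1 := by
  unfold ezN601
  rw [← pow_mul, mul_comm, pow_mul, hζ, one_pow]

theorem ezN601_ne_zero {ζ : Qb} (hζ : ζ ^ N = 1) (x : ZMod N) : ezN601 ζ x ≠ 0 := by
  intro h
  have := ezN601_pow hζ x
  rw [h, zero_pow (NeZero.ne N)] at this
  exact zero_ne_one this

theorem ezN601_eq_one_iff {ζ : Qb} (hζ : IsPrimitiveRoot ζ N) (x : ZMod N) :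
    ezN601 ζ x = 1 ↔ x = 0 := by
  constructor
  · intro h
    unfold ezN601 at h
    have h1 := (hζ.pow_eq_one_iff_dvd x.val).mp h
    have h2 : x.val < N := ZMod.val_lt x
    have h3 : x.val = 0 := Nat.eq_zero_of_dvd_of_lt h1 h2
    exact (ZMod.val_eq_zero x).mp h3
  · rintro rfl
    exact ezN601_zero ζ

theorem exists_omN601 {ζ : Qb} (hζ : IsPrimitiveRoot ζ N) (σ : GalQ) :
    ∃ a : ZMod N, σ ζ = ζ ^ a.val := by
  have h1 : (σ ζ) ^ N = 1 := by rw [← map_pow, hζ.pow_eq_one, map_one]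
  obtain ⟨i, hi, hi'⟩ := hζ.eq_pow_of_pow_eq_one h1
  refine ⟨(i : ZMod N), ?_⟩
  rw [ZMod.val_natCast_of_lt hi, hi']

/-- The mod `N` cyclotomic character. -/
noncomputable def omN601 {ζ : Qb} (hζ : IsPrimitiveRoot ζ N) (σ : GalQ) : ZMod N :=
  (exists_omN601 hζ σ).choose

theorem map_zetaN601 {ζ : Qb} (hζ : IsPrimitiveRoot ζ N) (σ : GalQ) :
    σ ζ = ζ ^ (omN601 hζ σ).val :=
  (exists_omN601 hζ σ).choose_spec

theorem map_ezN601 {ζ : Qb} (hζ : IsPrimitiveRoot ζ N) (σ : GalQ) (x : ZMod N) :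
    σ (ezN601 ζ x) = ezN601 ζ (omN601 hζ σ * x) := by
  rw [ezN601_mul hζ.pow_eq_one, ← map_zetaN601 hζ σ]
  unfold ezN601
  rw [map_pow]

/-- `σ` raises every `N`-th root of unity to the power `omN601 hζ σ`. -/
theorem map_rootN601 {ζ : Qb} (hζ : IsPrimitiveRoot ζ N) (σ : GalQ) {μ : Qb} (hμ : μ ^ N = 1) :
    σ μ = μ ^ (omN601 hζ σ).val := by
  obtain ⟨i, -, rfl⟩ := hζ.eq_pow_of_pow_eq_one hμ
  rw [map_pow, map_zetaN601 hζ σ, ← pow_mul, ← pow_mul, mul_comm]

end RootsN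

section ValN

variable {N : ℕ} [NeZero N] (P : ValuationSubring Qb)

/-- An `N`-th root of unity has valuation one. -/
theorem root_valN601 {y : Qb} (hy : y ^ N = 1) : P.valuation y = 1 := by
  have h1 : P.valuation y ^ N = 1 := by rw [← map_pow, hy, map_one]
  exact (pow_eq_one_iff_of_nonneg zero_le (NeZero.ne N)).mp h1

theorem root_memN601 {y : Qb} (hy : y ^ N = 1) : y ∈ P := by
  rw [← ValuationSubring.valuation_le_one_iff, root_valN601 P hy]

end ValN

section LocalN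

variable {N : ℕ} [NeZero N] {M : Type} [AddCommGroup M] {act : GalQ → M → M}
  (hact : IsContAddAction act) (P : ValuationSubring Qb)
  {ζ : Qb} (hζ : IsPrimitiveRoot ζ N) (L : AddSubgroup M)
  (hI : ∀ σ, IsInertiaAt P σ → ∀ m, act σ m - m ∈ L)
  (hL : ∀ σ, IsInertiaAt P σ → ∀ l ∈ L, act σ l = (omN601 hζ σ).val • l)

include hact hI hL in
/-- Translation by an element of `L`. -/
theorem xi_actN601 (ξ : M →+ ZMod N) (c m : M) (hm : m - c ∈ L) {σ : GalQ}
    (hσ : IsInertiaAt P σ) :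
    ξ (act σ m - c) = omN601 hζ σ * ξ (m - c) + ξ (act σ c - c) := by
  have h1 : act σ m - c = act σ (m - c) + (act σ c - c) := by
    rw [act_sub601 hact]
    abel
  rw [h1, map_add, hL σ hσ _ hm, map_nsmul, nsmul_eq_mul, ZMod.natCast_zmod_val]

include hI in
theorem act_sub_mem_iffN601 (c m : M) {σ : GalQ} (hσ : IsInertiaAt P σ) :
    act σ m - c ∈ L ↔ m - c ∈ L := by
  have h1 : act σ m - c = (act σ m - m) + (m - c) := by abel
  rw [h1]
  exact L.add_mem_cancel_left (hI σ hσ m)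

end LocalN

end Fermat.Agent.S59.H601

end
-- ===== PACK-END S59/H601/PeuRootsN.lean

-- ===== PACK-BEGIN S59/H601/PeuCoordN.lean
section


/-!
# S59 / NMP-SEL (F) (helper601), part 2: the local coordinate datum at modulus `N`

Abstract setting: `M` a finite `G_ℚ`-module, `P` a valuation subring of `ℚ̄` over `ℓ`, `ζ` a
primitive `N`-th root of unity, `L ⊆ M` a subgroup such that the inertia group `I` of `P` acts
trivially on `M / L` and by the mod `N` cyclotomic character on `L`, every Kummer cocycle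
`σ ↦ ζ ^ ξ (σ c - c)` of `I` is the coboundary of a `P`-unit, and the characters `M → ℤ/N`
separate the points of `M`.  Then

`localCoordDatumN601 : Nonempty (LocalCoordDatum ℓ M act)` with coordinates
`Ψ m (c, ξ) = [m - c ∈ L] · ζ ^ ξ (m - c) · B_{c,ξ}`.
-/

set_option autoImplicit false
set_option linter.unusedSectionVars false
set_option linter.unusedVariables false
set_option linter.style.haveILetI false

namespace Fermat.Agent.S59.H601

open Fermat.Agent.S19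

section CoordN

variable {N : ℕ} [NeZero N] {M : Type} [AddCommGroup M]

open Classical in
/-- The coordinates. -/
noncomputable def psiN601 (ζ : Qb) (L : AddSubgroup M) (Bf : M → (M →+ ZMod N) → Qb) (m : M)
    (i : M × (M →+ ZMod N)) : Qb :=
  if m - i.1 ∈ L then ezN601 ζ (i.2 (m - i.1)) * Bf i.1 i.2 else 0

theorem psiN601_of_mem {ζ : Qb} {L : AddSubgroup M} (Bf : M → (M →+ ZMod N) → Qb) {m c : M}
    (ξ : M →+ ZMod N) (h : m - c ∈ L) :
    psiN601 ζ L Bf m (c, ξ) = ezN601 ζ (ξ (m - c)) * Bf c ξ := by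
  unfold psiN601
  rw [if_pos h]

theorem psiN601_of_not_mem {ζ : Qb} {L : AddSubgroup M} (Bf : M → (M →+ ZMod N) → Qb) {m c : M}
    (ξ : M →+ ZMod N) (h : m - c ∉ L) :
    psiN601 ζ L Bf m (c, ξ) = 0 := by
  unfold psiN601
  rw [if_neg h]

theorem finite_addMonoidHomN601 [Finite M] : Finite (M →+ ZMod N) :=
  Finite.of_injective (fun f : M →+ ZMod N => (f : M → ZMod N)) DFunLike.coe_injective

variable [Finite M] {act : GalQ → M → M} (ℓ : ℕ)
  (hact : IsContAddAction act) (P : ValuationSubring Qb) (hP : (ℓ : Qb) ∈ P.nonunits)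
  {ζ : Qb} (hζ : IsPrimitiveRoot ζ N) (L : AddSubgroup M)
  (hI : ∀ σ, IsInertiaAt P σ → ∀ m, act σ m - m ∈ L)
  (hL : ∀ σ, IsInertiaAt P σ → ∀ l ∈ L, act σ l = (omN601 hζ σ).val • l)
  (hunit : ∀ (ξ : M →+ ZMod N) (c : M), ∃ B : Qb, P.valuation B = 1 ∧
      ∀ σ, IsInertiaAt P σ → σ B = ezN601 ζ (ξ (act σ c - c)) * B)
  (hsep : ∀ x : M, (∀ ξ : M →+ ZMod N, ξ x = 0) → x = 0)

include hact hP hζ hI hL hunit hsep in
/-- **The local coordinate datum of a peu ramifié extension, modulus `N`.** -/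
theorem localCoordDatumN601 : Nonempty (LocalCoordDatum ℓ M act) := by
  classical
  have hζp : ζ ^ N = 1 := hζ.pow_eq_one
  choose Bf hBfv hBfeq using hunit
  have hBf0 : ∀ ξ c, Bf ξ c ≠ 0 := fun ξ c => ne_zero_of_val_eq_one601 P (hBfv ξ c)
  have hBfP : ∀ ξ c, Bf ξ c ∈ P := fun ξ c => mem_of_val_eq_one601 P (hBfv ξ c)
  have hBfinv : ∀ ξ c, (Bf ξ c)⁻¹ ∈ P := fun ξ c => inv_mem_of_val_eq_one601 P (hBfv ξ c)
  have hezP : ∀ x : ZMod N, ezN601 ζ x ∈ P := fun x => root_memN601 P (ezN601_pow hζp x)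
  -- the coordinates
  let Bg : M → (M →+ ZMod N) → Qb := fun c ξ => Bf ξ c
  let Ψ : M → M × (M →+ ZMod N) → Qb := psiN601 ζ L Bg
  have hΨP : ∀ m i, Ψ m i ∈ P := by
    rintro m ⟨c, ξ⟩
    by_cases h : m - c ∈ L
    · show psiN601 ζ L Bg m (c, ξ) ∈ P
      rw [psiN601_of_mem Bg ξ h]
      exact P.mul_mem _ _ (hezP _) (hBfP ξ c)
    · show psiN601 ζ L Bg m (c, ξ) ∈ P
      rw [psiN601_of_not_mem Bg ξ h]
      exact P.zero_mem
  haveI hfinHom : Finite (M →+ ZMod N) := finite_addMonoidHomN601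
  refine ⟨{ V := P
            ell_mem := hP
            ι := M × (M →+ ZMod N)
            fin := inferInstance
            Ψ := Ψ
            inj := ?_
            integral := hΨP
            equivariant := ?_
            add_mem := ?_ }⟩
  · -- injectivity
    intro m m' hmm
    have hkey : ∀ ξ : M →+ ZMod N, m' - m ∈ L ∧ ξ (m' - m) = 0 := by
      intro ξ
      have h1 : Ψ m (m, ξ) = Bf ξ m := by
        show psiN601 ζ L Bg m (m, ξ) = _
        rw [psiN601_of_mem Bg ξ (by rw [sub_self]; exact L.zero_mem), sub_self, map_zero,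
          ezN601_zero, one_mul]
      have h2 : Ψ m' (m, ξ) = Bf ξ m := by
        rw [← congrFun hmm (m, ξ)]
        exact h1
      by_cases h : m' - m ∈ L
      · refine ⟨h, ?_⟩
        have h3 : psiN601 ζ L Bg m' (m, ξ) = Bf ξ m := h2
        rw [psiN601_of_mem Bg ξ h] at h3
        have h4 : ezN601 ζ (ξ (m' - m)) = 1 := by
          have h5 : ezN601 ζ (ξ (m' - m)) * Bf ξ m = 1 * Bf ξ m := by rw [one_mul]; exact h3
          exact mul_right_cancel₀ (hBf0 ξ m) h5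
        exact (ezN601_eq_one_iff hζ _).mp h4
      · exfalso
        have h3 : psiN601 ζ L Bg m' (m, ξ) = Bf ξ m := h2
        rw [psiN601_of_not_mem Bg ξ h] at h3
        exact hBf0 ξ m h3.symm
    have h0 : m' - m = 0 := hsep _ fun ξ => (hkey ξ).2
    exact (sub_eq_zero.mp h0).symm
  · -- equivariance under inertia
    rintro σ hσ m ⟨c, ξ⟩
    show psiN601 ζ L Bg (act σ m) (c, ξ) = σ (psiN601 ζ L Bg m (c, ξ))
    by_cases h : m - c ∈ L
    · have h' : act σ m - c ∈ L := (act_sub_mem_iffN601 P L hI c m hσ).mpr h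
      rw [psiN601_of_mem Bg ξ h, psiN601_of_mem Bg ξ h', map_mul, map_ezN601 hζ,
        xi_actN601 hact P hζ L hI hL ξ c m h hσ, ezN601_add hζp]
      show _ * _ * Bf ξ c = _ * σ (Bf ξ c)
      rw [hBfeq ξ c σ hσ]
      ring
    · have h' : act σ m - c ∉ L := fun h' => h ((act_sub_mem_iffN601 P L hI c m hσ).mp h')
      rw [psiN601_of_not_mem Bg ξ h, psiN601_of_not_mem Bg ξ h', map_zero]
  · -- the addition law
    rintro ⟨c, ξ⟩
    letI : Fintype (M ⧸ L) := Fintype.ofFinite _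
    let r : M ⧸ L → M := fun q => Quotient.out q
    have hr : ∀ m : M, m - r (QuotientAddGroup.mk m) ∈ L := by
      intro m
      have h1 : (QuotientAddGroup.mk (r (QuotientAddGroup.mk m)) : M ⧸ L) =
          QuotientAddGroup.mk m := Quotient.out_eq _
      have h2 := QuotientAddGroup.eq.mp h1
      have h3 : m - r (QuotientAddGroup.mk m) = -r (QuotientAddGroup.mk m) + m := by abel
      rw [h3]
      exact h2
    have hr' : ∀ (m : M) (q : M ⧸ L), m - r q ∈ L → q = QuotientAddGroup.mk m := by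
      intro m q h
      have h1 : (QuotientAddGroup.mk (r q) : M ⧸ L) = q := Quotient.out_eq _
      rw [← h1]
      apply QuotientAddGroup.eq.mpr
      have h3 : -r q + m = m - r q := by abel
      rw [h3]
      exact h
    -- the structure constants
    let u : M ⧸ L → M ⧸ L → Qb := fun q₁ q₂ =>
      if r q₁ + r q₂ - c ∈ L then
        ezN601 ζ (ξ (r q₁ + r q₂ - c)) * Bf ξ c * (Bf ξ (r q₁))⁻¹ * (Bf ξ (r q₂))⁻¹
      else 0
    have huP : ∀ q₁ q₂, u q₁ q₂ ∈ P := by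
      intro q₁ q₂
      show (if r q₁ + r q₂ - c ∈ L then _ else _) ∈ P
      split_ifs with h
      · exact P.mul_mem _ _ (P.mul_mem _ _ (P.mul_mem _ _ (hezP _) (hBfP ξ c)) (hBfinv ξ _))
          (hBfinv ξ _)
      · exact P.zero_mem
    have hmain : ∀ (m m' c₁ c₂ : M), m - c₁ ∈ L → m' - c₂ ∈ L →
        psiN601 ζ L Bg (m + m') (c, ξ) =
          (if c₁ + c₂ - c ∈ L then
            ezN601 ζ (ξ (c₁ + c₂ - c)) * Bf ξ c * (Bf ξ c₁)⁻¹ * (Bf ξ c₂)⁻¹
          else 0) * psiN601 ζ L Bg m (c₁, ξ) * psiN601 ζ L Bg m' (c₂, ξ) := by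
      intro m m' c₁ c₂ h1 h2
      have hsum : m + m' - c = (m - c₁) + (m' - c₂) + (c₁ + c₂ - c) := by abel
      have hiff : m + m' - c ∈ L ↔ c₁ + c₂ - c ∈ L := by
        rw [hsum]
        exact L.add_mem_cancel_left (L.add_mem h1 h2)
      rw [psiN601_of_mem Bg ξ h1, psiN601_of_mem Bg ξ h2]
      by_cases h : m + m' - c ∈ L
      · have h' := hiff.mp h
        rw [psiN601_of_mem Bg ξ h, if_pos h', hsum, map_add, map_add, ezN601_add hζp,
          ezN601_add hζp]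
        show _ * Bf ξ c = _ * (_ * Bf ξ c₁) * (_ * Bf ξ c₂)
        have := hBf0 ξ c₁
        have := hBf0 ξ c₂
        field_simp
      · have h' : c₁ + c₂ - c ∉ L := fun h' => h (hiff.mpr h')
        rw [psiN601_of_not_mem Bg ξ h, if_neg h', zero_mul, zero_mul]
    have hmem : (∑ q₁ : M ⧸ L, ∑ q₂ : M ⧸ L,
        algebraMap P (M × M → Qb) ⟨u q₁ q₂, huP q₁ q₂⟩ *
          (fun x : M × M => Ψ x.1 (r q₁, ξ)) * (fun x : M × M => Ψ x.2 (r q₂, ξ))) ∈
        Algebra.adjoin P ({f | ∃ j, f = fun x : M × M => Ψ x.1 j} ∪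
          {f | ∃ j, f = fun x : M × M => Ψ x.2 j}) := by
      refine Subalgebra.sum_mem _ fun q₁ _ => Subalgebra.sum_mem _ fun q₂ _ => ?_
      refine Subalgebra.mul_mem _ (Subalgebra.mul_mem _ (Subalgebra.algebraMap_mem _ _) ?_) ?_
      · exact Algebra.subset_adjoin (Or.inl ⟨(r q₁, ξ), rfl⟩)
      · exact Algebra.subset_adjoin (Or.inr ⟨(r q₂, ξ), rfl⟩)
    have heq : (fun x : M × M => Ψ (x.1 + x.2) (c, ξ)) = ∑ q₁ : M ⧸ L, ∑ q₂ : M ⧸ L,
        algebraMap P (M × M → Qb) ⟨u q₁ q₂, huP q₁ q₂⟩ *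
          (fun x : M × M => Ψ x.1 (r q₁, ξ)) * (fun x : M × M => Ψ x.2 (r q₂, ξ)) := by
      funext ⟨m, m'⟩
      rw [Finset.sum_apply]
      simp only [Finset.sum_apply, Pi.mul_apply]
      rw [Finset.sum_eq_single (QuotientAddGroup.mk m : M ⧸ L)]
      · rw [Finset.sum_eq_single (QuotientAddGroup.mk m' : M ⧸ L)]
        · -- the main term
          exact hmain m m' _ _ (hr m) (hr m')
        · intro q₂ _ hq₂
          have h2 : m' - r q₂ ∉ L := fun h => hq₂ (hr' m' q₂ h)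
          show _ * _ * psiN601 ζ L Bg m' (r q₂, ξ) = 0
          rw [psiN601_of_not_mem Bg ξ h2, mul_zero]
        · intro h
          exact absurd (Finset.mem_univ _) h
      · intro q₁ _ hq₁
        have h1 : m - r q₁ ∉ L := fun h => hq₁ (hr' m q₁ h)
        apply Finset.sum_eq_zero
        intro q₂ _
        show _ * psiN601 ζ L Bg m (r q₁, ξ) * _ = 0
        rw [psiN601_of_not_mem Bg ξ h1, mul_zero, zero_mul]
      · intro h
        exact absurd (Finset.mem_univ _) h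
    rw [heq]
    exact hmem

end CoordN

end Fermat.Agent.S59.H601

end
-- ===== PACK-END S59/H601/PeuCoordN.lean

-- ===== PACK-BEGIN S38T/IA/Hecke/Spec4.lean
section


/-!
# Row HARD, cell HECKE, layer 4: sub-leaves of IA-ST  (sub-architect helper3)

* `IAMinZeroStatement_T` (asked by helper59, squad S55/S59: "TW control at level `L / q`"):
  under (MIN), for every pivot `q` the localisation of `X_{K'}(𝒪)`,
  `K' = Γ₀(L / q) ∩ Γ_H(Q)`, at the maximal ideal `(𝔪_𝒪, T_ℓ - c_ℓ, U_{q_j} - α_j)` of the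
  package `P_Q` is ZERO.
  (`MFree.free` at `κ = gKappa p (L / q) qv`: the part is free over `𝒪[Δ_Q]` with coinvariants
  the part of `X_{Γ₀((L/q) ∏ qv)}(𝒪)`; TW-CTRL: this is the part of `X_{Γ₀(L/q)}(𝒪)`; (MIN) and the
  Eichler–Shimura dictionary: that part is zero [CTRL-MIN helper719, DICT-MIN helper841].)
  CONSUMER: IA-ST (both traces `X_{Γ₀(L) ∩ Γ_H(Q)} → X_{K'}` vanish on the localised part, hence
  `U_q² = ⟨q⟩` there).
Only sorry-free definitions in this file.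
-/

set_option autoImplicit false

open Polynomial IsLocalRing CongruenceSubgroup
open scoped MatrixGroups

namespace Fermat.Agent.S38.IA.Hecke

variable {ty : Fermat.Agent.S59.Arch.PType}


open Fermat.Agent.S59.Arch Fermat.Agent.S59.TW.H959 Fermat.Agent.S59.TW Fermat.Agent.S59.H765
open Fermat.Agent.S59.TW.H653 Fermat.Agent.S59.TW.Aut
open CuspForm

/-- **IA-MINZERO.**  Under (MIN) the localisation at level `Γ₀(L / q) ∩ Γ_H(Q)` is zero, for
every pivot `q`. -/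
def IAMinZeroStatement_T : Prop :=
  ∀ (p : ℕ) [Fact p.Prime] (_hp5 : 3 ≤ p)
    (𝒪 : Type) [CommRing 𝒪] [IsDomain 𝒪] [IsDiscreteValuationRing 𝒪]
    [IsAdicComplete (maximalIdeal 𝒪) 𝒪] [Finite (ResidueField 𝒪)] [CharZero 𝒪]
    (ρbar : ResidualGaloisRep (ResidueField 𝒪)) (Smin : Finset ℕ)
    (_h : ResidualHyp p 𝒪 ρbar Smin)
    (ty : PType) (_hflat : IsPTypeAt p ρbar ty)
    (Piv : Finset ℕ) (_hPiv : IsPivotSet p ρbar Smin Piv)
    (_hmin : ∀ q ∈ Piv, ∀ S : Finset ℕ,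
      ¬ ResModular 𝒪 ρbar (ribetLevelT p ty Smin (Piv.erase q)) S)
    (n r : ℕ) (qv : Fin r → ℕ) (_hq : IsTWSet p ρbar (Smin ∪ Piv) n qv)
    [NeZero (wilesLevel p ty Smin (Smin ∪ Piv ∪ Finset.univ.image qv))]
    (PQ : HeckePkg p 𝒪 ρbar ty Smin (Smin ∪ Piv ∪ Finset.univ.image qv))
    (α : Fin r → 𝒪) (_hα : IsFrobLift ρbar qv α)
    (q : ℕ) (_hqP : q ∈ Piv)
    (V' : Submodule 𝒪 (Additive (KG p (ribetLevelT p ty Smin (Piv.erase q)) qv) →+ 𝒪)),
    IsLocPart (isMid_KG p (ribetLevelT p ty Smin (Piv.erase q)) qv) (TsetOf PQ) (UsetOf qv α) V' →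
      V' = ⊥

end Fermat.Agent.S38.IA.Hecke

end
-- ===== PACK-END S38T/IA/Hecke/Spec4.lean

-- ===== PACK-BEGIN S38T/IA/Hecke/LevelT.lean
section



/-!
# S59 (B2) HECKE-T: arithmetic of the levels of type `ty`  (helper3)

Generic replacements for the level lemmas of row HARD which unfold `wilesLevel p .flat` or
`ribetLevel`: the base level `wilesLevel p ty Smin Smin = ∏_{Smin ∖ p} q · pFactor p ty` and the
minimal level `ribetLevelT p ty Smin Piv = ribetLevel p Smin Piv · pFactor p ty`.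
-/

set_option autoImplicit false

namespace Fermat.Agent.S38.IA.Hecke

open Fermat.Agent.S59.Arch Fermat.Agent.S38.IA

variable {p : ℕ} {ty : PType} {Smin Piv : Finset ℕ}

theorem pFac_eq_pFactor (p : ℕ) (ty : PType) : pFac p ty = pFactor p ty := by
  cases ty <;> rfl

theorem ribetLevelT_eq_pFactor (p : ℕ) (ty : PType) (Smin Piv : Finset ℕ) :
    ribetLevelT p ty Smin Piv = ribetLevel p Smin Piv * pFactor p ty := by
  rw [ribetLevelT_eq, pFac_eq_pFactor]

theorem wilesLevel_self_T (p : ℕ) (ty : PType) (Smin : Finset ℕ) :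
    wilesLevel p ty Smin Smin = (∏ q ∈ Smin.erase p, q) * pFactor p ty := by
  rw [wilesLevel_eq, Finset.sdiff_self, Finset.prod_empty, mul_one]

/-- The minimal level is the base level times the product of the pivots. -/
theorem ribetLevelT_eq_base (p : ℕ) (ty : PType) (Smin Piv : Finset ℕ) :
    ribetLevelT p ty Smin Piv = wilesLevel p ty Smin Smin * ∏ q ∈ Piv, q := by
  rw [ribetLevelT_eq_pFactor, wilesLevel_self_T]
  unfold ribetLevel
  ring

theorem wilesLevel_self_ne_zero_T (hp : p.Prime) (hSp : ∀ q ∈ Smin, q.Prime) :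
    wilesLevel p ty Smin Smin ≠ 0 :=
  wilesLevel_ne_zero hp hSp hSp

theorem ribetLevel_ne_zero_gen (hSp : ∀ q ∈ Smin, q.Prime) (hPiv : ∀ q ∈ Piv, q.Prime) :
    ribetLevel p Smin Piv ≠ 0 := by
  unfold ribetLevel
  exact mul_ne_zero
    (Finset.prod_ne_zero_iff.mpr fun q hq => (hSp q (Finset.mem_of_mem_erase hq)).ne_zero)
    (Finset.prod_ne_zero_iff.mpr fun q hq => (hPiv q hq).ne_zero)

theorem ribetLevelT_ne_zero_gen (hp : p.Prime) (hSp : ∀ q ∈ Smin, q.Prime)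
    (hPiv : ∀ q ∈ Piv, q.Prime) : ribetLevelT p ty Smin Piv ≠ 0 := by
  rw [ribetLevelT_eq_pFactor]
  exact mul_ne_zero (ribetLevel_ne_zero_gen hSp hPiv) (pFactor_ne_zero hp ty)

theorem ribetLevel_dvd_ribetLevelT (p : ℕ) (ty : PType) (Smin Piv : Finset ℕ) :
    ribetLevel p Smin Piv ∣ ribetLevelT p ty Smin Piv :=
  ⟨pFactor p ty, ribetLevelT_eq_pFactor p ty Smin Piv⟩

theorem pFactor_dvd (p : ℕ) (ty : PType) : pFactor p ty ∣ p := by
  cases ty
  · exact one_dvd p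
  · exact dvd_rfl
  · exact dvd_rfl

/-- A prime divisor of `pFactor p ty` is `p`. -/
theorem eq_of_prime_dvd_pFactor (hp : p.Prime) {ℓ : ℕ} (hℓ : ℓ.Prime) (h : ℓ ∣ pFactor p ty) :
    ℓ = p :=
  (Nat.prime_dvd_prime_iff_eq hℓ hp).mp (h.trans (pFactor_dvd p ty))

/-- A prime divisor of the minimal level lies in `Smin ∪ Piv`. -/
theorem mem_of_prime_dvd_ribetLevelT (hp : p.Prime) (hpS : p ∈ Smin)
    (hSp : ∀ q ∈ Smin, q.Prime) (hPiv : ∀ q ∈ Piv, q.Prime) {ℓ : ℕ} (hℓ : ℓ.Prime)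
    (h : ℓ ∣ ribetLevelT p ty Smin Piv) : ℓ ∈ Smin ∪ Piv := by
  rw [ribetLevelT_eq_pFactor] at h
  rcases (Nat.Prime.dvd_mul hℓ).mp h with h | h
  · unfold ribetLevel at h
    rcases (Nat.Prime.dvd_mul hℓ).mp h with h | h
    · obtain ⟨q, hq, hd⟩ := (Prime.dvd_finset_prod_iff hℓ.prime _).mp h
      have hqe : ℓ = q :=
        (Nat.prime_dvd_prime_iff_eq hℓ (hSp q (Finset.mem_of_mem_erase hq))).mp hd
      exact Finset.mem_union_left _ (hqe ▸ Finset.mem_of_mem_erase hq)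
    · obtain ⟨q, hq, hd⟩ := (Prime.dvd_finset_prod_iff hℓ.prime _).mp h
      have hqe : ℓ = q := (Nat.prime_dvd_prime_iff_eq hℓ (hPiv q hq)).mp hd
      exact Finset.mem_union_right _ (hqe ▸ hq)
  · exact Finset.mem_union_left _ ((eq_of_prime_dvd_pFactor hp hℓ h) ▸ hpS)

/-- Every element of `Smin ∪ Piv` other than `p` divides the minimal level. -/
theorem dvd_ribetLevelT_of_mem {q : ℕ} (hq : q ∈ Smin ∪ Piv) (hqp : q ≠ p) :
    q ∣ ribetLevelT p ty Smin Piv := by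
  refine Dvd.dvd.trans ?_ (ribetLevel_dvd_ribetLevelT p ty Smin Piv)
  unfold ribetLevel
  rcases Finset.mem_union.mp hq with h | h
  · exact Dvd.dvd.mul_right (Finset.dvd_prod_of_mem _ (Finset.mem_erase.mpr ⟨hqp, h⟩)) _
  · exact Dvd.dvd.mul_left (Finset.dvd_prod_of_mem _ h) _

end Fermat.Agent.S38.IA.Hecke

end
-- ===== PACK-END S38T/IA/Hecke/LevelT.lean

-- ===== PACK-BEGIN S38T/IA/Hecke/GlueB1.lean
section






/-!
# S59 (B2) HECKE-T: MECHANICAL `ty`-generic twin of `Fermat.Agent.S38.IA.Hecke.GlueB1`  (helper3, by script)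

Only the `ty`-dependent declarations are twinned (suffix `_T`); the others are imported.
-/

set_option autoImplicit false

open Polynomial IsLocalRing CongruenceSubgroup
open scoped MatrixGroups

namespace Fermat.Agent.S38.IA.Hecke

variable {ty : Fermat.Agent.S59.Arch.PType}

open Fermat.Agent.S59.Arch Fermat.Agent.S59.TW.H959 Fermat.Agent.S59.TW Fermat.Agent.S59.H765
open Fermat.Agent.S59.TW.H653 Fermat.Agent.S59.TW.Aut
open CuspForm

section Pair

variable {k r : ℕ} {pv : Fin k → ℕ} {qv : Fin r → ℕ}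

end Pair

section Dia

variable (p : ℕ) (Smin : Finset ℕ) {k r : ℕ} (pv : Fin k → ℕ) (qv : Fin r → ℕ)
  (𝒪 : Type) [CommRing 𝒪]

theorem diaIA_add_T (a₁ : ∀ i : Fin k, (ZMod (pv i))ˣ) (a₂ : ∀ j : Fin r, (ZMod (qv j))ˣ)
    (x y : XIA_T p ty Smin pv qv 𝒪) :
    diaIA_T p ty Smin pv qv 𝒪 a₁ a₂ (x + y) =
      diaIA_T p ty Smin pv qv 𝒪 a₁ a₂ x + diaIA_T p ty Smin pv qv 𝒪 a₁ a₂ y := rfl

theorem diaIA_smul_T (a₁ : ∀ i : Fin k, (ZMod (pv i))ˣ) (a₂ : ∀ j : Fin r, (ZMod (qv j))ˣ)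
    (c : 𝒪) (x : XIA_T p ty Smin pv qv 𝒪) :
    diaIA_T p ty Smin pv qv 𝒪 a₁ a₂ (c • x) = c • diaIA_T p ty Smin pv qv 𝒪 a₁ a₂ x := rfl

theorem diaIA_sub_T (a₁ : ∀ i : Fin k, (ZMod (pv i))ˣ) (a₂ : ∀ j : Fin r, (ZMod (qv j))ˣ)
    (x y : XIA_T p ty Smin pv qv 𝒪) :
    diaIA_T p ty Smin pv qv 𝒪 a₁ a₂ (x - y) =
      diaIA_T p ty Smin pv qv 𝒪 a₁ a₂ x - diaIA_T p ty Smin pv qv 𝒪 a₁ a₂ y := by
  unfold diaIA_T diamondU diamond
  exact AddMonoidHom.ext fun _ => rfl

variable [NeZero (MIA_T p ty Smin pv qv)]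
  (hsurj : Function.Surjective (gRed (wilesLevel p ty Smin Smin) (Sum.elim pv qv)))

include hsurj in
theorem diaIA_one_T (x : XIA_T p ty Smin pv qv 𝒪) : diaIA_T p ty Smin pv qv 𝒪 1 1 x = x := by
  unfold diaIA_T
  rw [pairU_one]
  exact diamondU_gLift_one p _ _ hsurj x

include hsurj in
theorem diaIA_mul_T (a₁ b₁ : ∀ i : Fin k, (ZMod (pv i))ˣ) (a₂ b₂ : ∀ j : Fin r, (ZMod (qv j))ˣ)
    (x : XIA_T p ty Smin pv qv 𝒪) :
    diaIA_T p ty Smin pv qv 𝒪 (a₁ * b₁) (a₂ * b₂) x =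
      diaIA_T p ty Smin pv qv 𝒪 a₁ a₂ (diaIA_T p ty Smin pv qv 𝒪 b₁ b₂ x) := by
  unfold diaIA_T
  rw [pairU_mul]
  exact diamondU_gLift_mul p _ _ hsurj _ _ x

include hsurj in
theorem diaIA_pow_T (a₁ : ∀ i : Fin k, (ZMod (pv i))ˣ) (a₂ : ∀ j : Fin r, (ZMod (qv j))ˣ)
    (x : XIA_T p ty Smin pv qv 𝒪) :
    diaIA_T p ty Smin pv qv 𝒪 (fun i => a₁ i ^ p ^ padicValNat p (pv i - 1))
      (fun j => a₂ j ^ p ^ padicValNat p (qv j - 1)) x = x := by
  unfold diaIA_T
  exact diamondU_gLift_of_mem p _ _ hsurj (pairU_mem_gPowSub p a₁ a₂) x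

end Dia

section Mod

variable {p : ℕ}
  {𝒪 : Type} [CommRing 𝒪] [IsDomain 𝒪] [IsDiscreteValuationRing 𝒪]
  [IsAdicComplete (maximalIdeal 𝒪) 𝒪]
  {ρbar : ResidualGaloisRep (ResidueField 𝒪)} {Smin Piv : Finset ℕ}
  {k r : ℕ} {pv : Fin k → ℕ} {qv : Fin r → ℕ}
  [NeZero (wilesLevel p ty Smin (Smin ∪ Piv ∪ Finset.univ.image qv))]
  {PQ : HeckePkg p 𝒪 ρbar ty Smin (Smin ∪ Piv ∪ Finset.univ.image qv)}

/-- `V` with the action of `T_Q` through `a`. -/
def VMod_T (V : Submodule 𝒪 (XIA_T p ty Smin pv qv 𝒪)) (_a : PQ.T →ₐ[𝒪] Module.End 𝒪 V) : Type := V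

variable {V : Submodule 𝒪 (XIA_T p ty Smin pv qv 𝒪)} {a : PQ.T →ₐ[𝒪] Module.End 𝒪 V}

noncomputable instance : AddCommGroup (VMod_T V a) := inferInstanceAs (AddCommGroup V)

noncomputable instance : Module PQ.T (VMod_T V a) :=
  Module.compHom V (a : PQ.T →+* Module.End 𝒪 V)

/-- The identification `VMod_T V a = V`. -/
noncomputable def VMod_T.mk (v : V) : VMod_T V a := v

/-- The identification `VMod_T V a = V`. -/
noncomputable def VMod_T.val (v : VMod_T V a) : V := v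

theorem VMod_T.smul_def (t : PQ.T) (v : VMod_T V a) : t • v = VMod_T.mk (a t (VMod_T.val v)) := rfl

theorem VMod_T.algebraMap_smul (c : 𝒪) (v : VMod_T V a) :
    algebraMap 𝒪 PQ.T c • v = VMod_T.mk (c • VMod_T.val v) := by
  rw [VMod_T.smul_def, AlgHom.commutes]
  rfl

end Mod

end Fermat.Agent.S38.IA.Hecke

end
-- ===== PACK-END S38T/IA/Hecke/GlueB1.lean

-- ===== PACK-BEGIN S38/H681/IANontrivOdd.lean
section


/-!
# IA-NONTRIV for EVERY prime `p` (helper681)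

Cell (B2) of the S59 end-game: the leaf IA-NONTRIV of `S38/IA/Hecke/Spec3.lean` needs neither
`5 ≤ p` nor flatness at `p`.

* `h681_locPart_free_pos` (GENERIC: any level `N`, any `S ⊇ primes(N)`, any residual character
  `θ`): a localisation of `X_{Γ₀(N)}(𝒪)` at `TsetOfθ θ` is free of positive rank over `𝒪`.
* `iaNontrivAt_odd_h681`: the binders of `IANontrivStatement` WITHOUT `_hp5`, `_hflat`, `_hθ₀`.
-/

set_option autoImplicit false

open Polynomial IsLocalRing CongruenceSubgroup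
open scoped MatrixGroups

namespace Fermat.Agent.S38.H681

open Fermat.Agent.S59.Arch Fermat.Agent.S59.TW.H959 Fermat.Agent.S59.TW.H653
open Fermat.Agent.S59.TW.Aut Fermat.Agent.S38.IA Fermat.Agent.S38.IA.Hecke

/-- **Nonvanishing + freeness of a localisation at level `Γ₀(N)`.** -/
theorem h681_locPart_free_pos {N : ℕ} [NeZero N] {S : Set ℕ}
    (hNS : ∀ q : ℕ, q.Prime → q ∣ N → q ∈ S)
    {𝒪 : Type} [CommRing 𝒪] [IsDomain 𝒪] [IsDiscreteValuationRing 𝒪]
    (θ : CuspForm.heckeAlgebra N 2 S →+* ResidueField 𝒪)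
    (V₀ : Submodule 𝒪 (Additive (Gamma0 N) →+ 𝒪))
    (hV₀ : IsLocPart (isMid_Gamma0 N) (TsetOfθ θ) ∅ V₀) :
    ∃ d : ℕ, 0 < d ∧ Nonempty (Module.Basis (Fin d) 𝒪 V₀) := by
  classical
  obtain ⟨v, hv⟩ := h681_locPart_ne_bot hNS θ V₀ hV₀
  have : (Gamma0 N).FiniteIndex := Subgroup.finiteIndex_of_le (isMid_Gamma0 N).ge
  obtain ⟨hfin, hfree⟩ :=
    Fermat.Agent.S59.MFree.H761.finite_free_submodule (O := 𝒪) (Gamma0 N) V₀
  have hnt : Nontrivial V₀ := nontrivial_of_ne v 0 hv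
  have hpos : 0 < Module.finrank 𝒪 V₀ := Module.finrank_pos (R := 𝒪) (M := V₀)
  exact ⟨Module.finrank 𝒪 V₀, hpos, ⟨Module.finBasis 𝒪 V₀⟩⟩

/-- **IA-NONTRIV without `5 ≤ p`** (and without flatness at `p`). -/
theorem iaNontrivAt_odd_h681 (p : ℕ)
    (𝒪 : Type) [CommRing 𝒪] [IsDomain 𝒪] [IsDiscreteValuationRing 𝒪]
    [IsAdicComplete (maximalIdeal 𝒪) 𝒪]
    (ρbar : ResidualGaloisRep (ResidueField 𝒪)) (Smin : Finset ℕ)
    (hSmin : ∀ q ∈ Smin, q.Prime)
    (Piv : Finset ℕ) (hPiv : IsPivotSet p ρbar Smin Piv)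
    [NeZero (ribetLevel p Smin Piv)]
    (θ₀ : CuspForm.heckeAlgebra (ribetLevel p Smin Piv) 2 (↑(Smin ∪ Piv) : Set ℕ) →+*
      ResidueField 𝒪)
    (V₀ : Submodule 𝒪 (Additive (Gamma0 (ribetLevel p Smin Piv)) →+ 𝒪))
    (hV₀ : IsIAMinPart θ₀ V₀) :
    ∃ d : ℕ, 0 < d ∧ Nonempty (Module.Basis (Fin d) 𝒪 V₀) :=
  h681_locPart_free_pos
    (fun _ hq hdvd => h681_mem_of_dvd_ribetLevel hSmin (fun a ha => (hPiv a ha).1) hq hdvd)
    θ₀ V₀ hV₀

end Fermat.Agent.S38.H681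

end
-- ===== PACK-END S38/H681/IANontrivOdd.lean

-- ===== PACK-BEGIN S59/TW/H658/CuspG.lean
section




/-!
# S59 / cell TW, layer 3: the GENERIC cuspidality of a localisation (helper658)

For a Hecke package `P : HeckePkg p 𝒪 ρ̄ t Smin Σ` (any `Σ`), any group `K` between `Γ₁(M)` and
`Γ₀(M)` and any set `Uset`:

* `resFrobCond_pkg` : `θ = P.θ` is the Frobenius character of `ρ̄`
  (`charpoly ρ̄(Frob_ℓ) = X² - θ(T_ℓ) X + ℓ`, `ℓ ∉ Σ`, `ℓ ∤ N_Σ`);
* `exists_nonEis_pkg` : there is a prime `ℓ ∉ Σ`, `ℓ ∤ N_Σ`, `ℓ ≡ 1` mod `M`, with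
  `θ(T_ℓ) ≠ ℓ + 1` (Chebotarev: `H424.nePrimeK_h424`);
* `isLocPart_cuspidal_pkg`, `isLocPart_parabolic_pkg` : every class of a localisation `V`
  (`Aut.IsLocPart hK (TsetOf P) Uset V`) is cuspidal, in particular parabolic.

Instances: `K = Γ₀(N₀)` (MOD0, CUSP-MIN), `K = K_Q` (MODQ), `K = K_IA` (row HARD, IA-MOD).
-/

set_option autoImplicit false
set_option linter.unusedSectionVars false
set_option linter.style.haveILetI false

noncomputable section

namespace Fermat.Agent.S59.TW.H658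

open CongruenceSubgroup IsLocalRing Polynomial
open Fermat.Agent.S59.Arch Fermat.Agent.S59.TW.H959 Fermat.Agent.S59.TW.H653
open Fermat.Agent.S59.TW.Aut Fermat.Agent.S59
open scoped MatrixGroups

section Pkg

variable {p : ℕ} [Fact p.Prime]
  {𝒪 : Type} [CommRing 𝒪] [IsDomain 𝒪] [IsDiscreteValuationRing 𝒪]
  [IsAdicComplete (maximalIdeal 𝒪) 𝒪]
  {ρbar : ResidualGaloisRep (ResidueField 𝒪)} {t : PType} {Smin Sig : Finset ℕ}
  [NeZero (wilesLevel p t Smin Sig)]

/-- `P.θ` is the Frobenius character of `ρ̄`. -/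
theorem resFrobCond_pkg (P : HeckePkg p 𝒪 ρbar t Smin Sig) : G4.ResFrobCond ρbar P.θ := by
  intro ℓ hℓ hℓN hℓS B hB σ hσ
  have hinj : Function.Injective (ResidueField.map (algebraMap 𝒪 P.T)) :=
    (ResidueField.map (algebraMap 𝒪 P.T)).injective
  apply Polynomial.map_injective _ hinj
  have h1 : LinearMap.charpoly ((ρbar.baseChangeAlong
      (ResidueField.map (algebraMap 𝒪 P.T))).ρ σ) =
      (LinearMap.charpoly (ρbar.ρ σ)).map (ResidueField.map (algebraMap 𝒪 P.T)) := by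
    letI : Algebra (ResidueField 𝒪) (ResidueField P.T) :=
      (ResidueField.map (algebraMap 𝒪 P.T)).toAlgebra
    exact LinearMap.charpoly_baseChange (ρbar.ρ σ) (ResidueField P.T)
  have h2 : LinearMap.charpoly (P.H.ρ.residual.ρ σ) =
      LinearMap.charpoly ((ρbar.baseChangeAlong
        (ResidueField.map (algebraMap 𝒪 P.T))).ρ σ) := by
    obtain ⟨e⟩ := P.hres
    have h3 : (ρbar.baseChangeAlong (ResidueField.map (algebraMap 𝒪 P.T))).ρ σ =
        e.toLinearEquiv.conj (P.H.ρ.residual.ρ σ) := by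
      apply LinearMap.ext
      intro y
      rw [LinearEquiv.conj_apply_apply, e.map_apply, LinearEquiv.apply_symm_apply]
    rw [h3, LinearEquiv.charpoly_conj]
  have h4 : LinearMap.charpoly (P.H.ρ.residual.ρ σ) =
      (LinearMap.charpoly (P.H.ρ.ρ σ)).map (residue P.T) :=
    LinearMap.charpoly_baseChange (P.H.ρ.ρ σ) (ResidueField P.T)
  rw [← h1, ← h2, h4, P.H.charpoly_frob ℓ hℓ hℓN hℓS B hB σ hσ]
  simp only [Polynomial.map_add, Polynomial.map_sub, Polynomial.map_mul, Polynomial.map_pow,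
    Polynomial.map_X, Polynomial.map_C, map_natCast, Polynomial.map_natCast]
  rw [P.H.residue_π]

/-- The primes dividing `N_Σ` lie in `Σ` (if `p ∈ Σ`, `Smin ⊆ Σ` and `Σ` consists of primes). -/
theorem mem_of_dvd_wilesLevel_gen (hpS : p ∈ Sig) (hSmin : Smin ⊆ Sig)
    (hSig : ∀ q ∈ Sig, q.Prime) {q : ℕ} (hq : q.Prime)
    (hdvd : q ∣ wilesLevel p t Smin Sig) : q ∈ Sig := by
  unfold wilesLevel at hdvd
  rcases (Nat.Prime.dvd_mul hq).mp hdvd with h | h
  · rcases (Nat.Prime.dvd_mul hq).mp h with h | h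
    · obtain ⟨q', hq', hqq'⟩ := (Prime.dvd_finsetProd_iff hq.prime _).mp h
      have hq'S : q' ∈ Sig := hSmin (Finset.mem_of_mem_erase hq')
      rw [(Nat.prime_dvd_prime_iff_eq hq (hSig q' hq'S)).mp hqq']
      exact hq'S
    · obtain ⟨q', hq', hqq'⟩ := (Prime.dvd_finsetProd_iff hq.prime _).mp h
      have hq'S : q' ∈ Sig := (Finset.mem_sdiff.mp hq').1
      rw [(Nat.prime_dvd_prime_iff_eq hq (hSig q' hq'S)).mp (hq.dvd_of_dvd_pow hqq')]
      exact hq'S
  · have h2 : q ∣ p := by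
      cases t
      · simp only at h
        exact absurd (Nat.dvd_one.mp h) hq.ne_one
      · exact h
      · exact h
    rw [(Nat.prime_dvd_prime_iff_eq hq (Fact.out : p.Prime)).mp h2]
    exact hpS

/-- **CHEB for a package**: a prime `ℓ ∉ Σ ∪ S'`, `ℓ ∤ N_Σ`, `ℓ ≡ 1` modulo `M`, at which `θ` is
not Eisenstein: `θ(T_ℓ) ≠ ℓ + 1`. -/
theorem exists_nonEis_pkg [Finite (ResidueField 𝒪)] (h : ResidualHyp p 𝒪 ρbar Smin)
    (hpS : p ∈ Sig) (hSmin : Smin ⊆ Sig) (hSig : ∀ q ∈ Sig, q.Prime)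
    (P : HeckePkg p 𝒪 ρbar t Smin Sig) (M : ℕ) (hM : 0 < M) (S' : Finset ℕ) :
    ∃ (ℓ : ℕ) (hℓ : ℓ.Prime) (hℓN : ¬ ℓ ∣ wilesLevel p t Smin Sig)
      (hℓS : ℓ ∉ (↑Sig : Set ℕ)), ℓ ∉ S' ∧ ¬ ℓ ∣ M ∧ ℓ ≡ 1 [MOD M] ∧
        P.θ (CuspForm.heckeAlgebra.T hℓ hℓN hℓS) ≠ (ℓ : ResidueField 𝒪) + 1 := by
  classical
  have hp : p.Prime := Fact.out
  haveI : CharP (ResidueField 𝒪) p := by
    rw [CharP.charP_iff_prime_eq_zero hp]
    have h0 : residue 𝒪 (p : 𝒪) = 0 := (residue_eq_zero_iff _).mpr h.hp𝒪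
    rwa [map_natCast] at h0
  have hgood : ∀ l : ℕ, l.Prime → l ∉ Sig → ¬ l ∣ wilesLevel p t Smin Sig := fun l hl hlS hd =>
    hlS (mem_of_dvd_wilesLevel_gen hpS hSmin hSig hl hd)
  -- the Frobenius traces
  let a : ℕ → ResidueField 𝒪 := fun l =>
    if hl : l.Prime ∧ l ∉ Sig then
      P.θ (CuspForm.heckeAlgebra.T hl.1 (hgood l hl.1 hl.2) (by simpa using hl.2))
    else 0
  have ha : ∀ (l : ℕ), l.Prime → l ∉ Sig →
      ∀ B : ValuationSubring Fermat.Agent.S31.Qb, B.LiesOverPrime l →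
        ∀ σ : Fermat.Agent.S31.GQ, B.IsFrobeniusAt σ l →
          LinearMap.charpoly (ρbar.ρ σ) = X ^ 2 - C (a l) * X + C ((l : ResidueField 𝒪)) := by
    intro l hl hlS B hB σ hσ
    have := resFrobCond_pkg P l hl (hgood l hl hlS) (by simpa using hlS) B hB σ hσ
    rw [this]
    simp only [a, dif_pos (And.intro hl hlS)]
  -- an auxiliary prime `q ≠ p`
  obtain ⟨q, hq, hqp⟩ : ∃ q : ℕ, q.Prime ∧ q ≠ p := by
    by_cases h2 : p = 2
    · exact ⟨3, Nat.prime_three, by omega⟩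
    · exact ⟨2, Nat.prime_two, fun h' => h2 h'.symm⟩
  obtain ⟨l, hl, hlS, hlS', hlM, -, hal, -⟩ :=
    H424.nePrimeK_h424 p h.hp2 (ResidueField 𝒪) ρbar h.habs h.hsplit Sig hpS a ha q hq hqp M hM S'
  refine ⟨l, hl, hgood l hl hlS, by simpa using hlS, hlS', ?_, hlM, ?_⟩
  · intro hd
    have h1 : l ∣ 1 := by
      have h2 : (1 : ℕ) ≡ l [MOD l] := (hlM.symm).of_dvd hd
      have h3 : l ∣ l - 1 := (Nat.modEq_iff_dvd' hl.one_le).mp h2
      have h4 : l - 1 < l := Nat.sub_lt hl.pos Nat.one_pos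
      have h5 : l - 1 = 0 := Nat.eq_zero_of_dvd_of_lt h3 h4
      have := hl.two_le
      omega
    exact hl.ne_one (Nat.dvd_one.mp h1)
  · have : a l = P.θ (CuspForm.heckeAlgebra.T hl (hgood l hl hlS) (by simpa using hlS)) := by
      simp only [a, dif_pos (And.intro hl hlS)]
    rw [← this]
    exact hal

/-- **CUSP, generic**: every class of a localisation of `X_K(𝒪)` at the eigen-system of a Hecke
package is cuspidal. -/
theorem isLocPart_cuspidal_pkg [Finite (ResidueField 𝒪)] [CharZero 𝒪]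
    (h : ResidualHyp p 𝒪 ρbar Smin)
    (hpS : p ∈ Sig) (hSmin : Smin ⊆ Sig) (hSig : ∀ q ∈ Sig, q.Prime)
    (P : HeckePkg p 𝒪 ρbar t Smin Sig) {M : ℕ} [NeZero M] {K : Subgroup SL(2, ℤ)}
    (hK : IsMid M K) {Uset : Set (ℕ × 𝒪)} {V : Submodule 𝒪 (Additive K →+ 𝒪)}
    (hV : IsLocPart hK (TsetOf P) Uset V) : ∀ v ∈ V, IsCuspidalK v := by
  obtain ⟨ℓ, hℓ, hℓN, hℓS, -, hℓM, h1, hne⟩ :=
    exists_nonEis_pkg h hpS hSmin hSig P M (Nat.pos_of_ne_zero (NeZero.ne M)) ∅
  obtain ⟨c, hc⟩ := residue_surjective (P.θ (CuspForm.heckeAlgebra.T hℓ hℓN hℓS))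
  haveI : Fact ℓ.Prime := ⟨hℓ⟩
  have hmem : (ℓ, c) ∈ TsetOf P := ⟨hℓ, hℓN, hℓS, hc⟩
  have hunit : IsUnit (c - ((ℓ : 𝒪) + 1)) := by
    rw [← not_not (a := IsUnit _), ← mem_nonunits_iff, ← mem_maximalIdeal,
      ← residue_eq_zero_iff, map_sub, map_add, map_natCast, map_one, hc, sub_eq_zero]
    exact hne
  exact H324.isLocPart_cuspidal' hK hV hℓM h1 hmem hunit

/-- **CUSP, generic, parabolic form** (the hypothesis `hpar` of the ring homomorphisms
`exists_heckeAction_*`). -/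
theorem isLocPart_parabolic_pkg [Finite (ResidueField 𝒪)] [CharZero 𝒪]
    (h : ResidualHyp p 𝒪 ρbar Smin)
    (hpS : p ∈ Sig) (hSmin : Smin ⊆ Sig) (hSig : ∀ q ∈ Sig, q.Prime)
    (P : HeckePkg p 𝒪 ρbar t Smin Sig) {M : ℕ} [NeZero M] {K : Subgroup SL(2, ℤ)}
    (hK : IsMid M K) {Uset : Set (ℕ × 𝒪)} {V : Submodule 𝒪 (Additive K →+ 𝒪)}
    (hV : IsLocPart hK (TsetOf P) Uset V) :
    ∀ v ∈ V, ModularCurve.Period.IsParabolicHom K v :=
  fun v hv => (isLocPart_cuspidal_pkg h hpS hSmin hSig P hK hV v hv).1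

end Pkg

end Fermat.Agent.S59.TW.H658

end
end
-- ===== PACK-END S59/TW/H658/CuspG.lean

-- ===== PACK-BEGIN S38T/IA/Hecke/H183/CmpSpecIA.lean
section



/-!
# Row HARD, cell HECKE, LAYER 4: the leaf IA-CMP of `Hecke/Spec3.lean` — interface  (helper183)

`Hecke.IACmpStatement_T`: `(w - 1) V = (⟨u⟩_j - 1) V` for every inertia value `w` at `(φ, σ)`,
`σ ↦ u`, at the TAYLOR–WILES primes `q_j` of the combined family (pivots, then Taylor–Wiles
primes).  This file is the twin, for the combined family, of layer 4 of the cell TW of row S59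
(`S59/TW/H314/CmpSpec.lean`, helper314); the text of the Props is the same, with

* `XQ p t Smin qv 𝒪` replaced by `XIA_T p ty Smin pv qv 𝒪` (`K = Γ₀(N_min) ∩ Γ_H(Piv ∪ Q)`),
* `diaQ … (Pi.mulSingle j u)` replaced by `diaIA_T … 1 (Pi.mulSingle j u)`,
* `Σ = Smin ∪ Q` replaced by `Σ = Smin ∪ Piv ∪ Q` (and `t = ty`).

Route TW-ALG (`S59/H314/TwPt.lean`, Mathlib only): it is enough to know

* **(T)** `IATptAt_T`: a `T_Q`-eigenvector `y ∈ V` (= nonzero vector with PRIME annihilator) with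
  `⟨u⟩_j y = y` satisfies `w y = y`;
* **(R)** `IARptAt_T`: a `T_Q`-eigenvector `y ∈ V` with `(1 + ⟨u⟩_j + … + ⟨u⟩_j^(p-1)) y = 0`
  satisfies `w y ≠ y`;

together with the freeness `IAFreeAt_T V d` (`IACmpGlueStatement_T`, proved in `CmpGlueIA.lean`).
(T) and (R) are cut into an AUTOMORPHIC half (DICT) and a GALOIS half (GAL) along the notion of a
newform point of `T_Q`.

| leaf | Prop | content |
|---|---|---|
| IA-CMP-GLUE | `IACmpGlueStatement_T` | `IAFreeAt_T` + `IATptAt_T` + `IARptAt_T` ⇒ `IACmpAt_T` |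
| IA-DICT-T | `IADictTStatement_T` | eigenvector with `⟨u⟩_j y = y` ⇒ newform point with `q_j² ∤ M` |
| IA-DICT-R | `IADictRStatement_T` | eigenvector with `Φ_p(⟨u⟩_j) y = 0` ⇒ newform point with `q_j² ∥ M` |
| IA-GAL-T | `IAGalTStatement_T` | newform point with `q_j² ∤ M` ⇒ `emb w = 1` |
| IA-GAL-R | `IAGalRStatement_T` | newform point with `q_j² ∥ M` ⇒ `emb w ≠ 1` |

Glue (`CmpGlueIA.lean`): `iaCmp_of_leaves_T : IAFreeStatement_T → IADictTStatement_T →
IADictRStatement_T → IAGalTStatement_T → IAGalRStatement_T → Hecke.IACmpStatement_T`.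

Only sorry-free definitions here.
-/

set_option autoImplicit false

open Polynomial IsLocalRing CongruenceSubgroup
open scoped MatrixGroups

namespace Fermat.Agent.S38.IA.Hecke.H183

variable {ty : Fermat.Agent.S59.Arch.PType}


open Fermat.Agent.S59.Arch Fermat.Agent.S59.TW.H959 Fermat.Agent.S59.TW Fermat.Agent.S59.H765
open Fermat.Agent.S59.TW.H653 Fermat.Agent.S59.TW.Aut
open Fermat.Agent.S38.IA Fermat.Agent.S38.IA.Hecke
open CuspForm

section At

variable {p : ℕ}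
  {𝒪 : Type} [CommRing 𝒪] [IsDomain 𝒪] [IsDiscreteValuationRing 𝒪]
  [IsAdicComplete (maximalIdeal 𝒪) 𝒪]
  {ρbar : ResidualGaloisRep (ResidueField 𝒪)} {Smin Piv : Finset ℕ}
  {k r : ℕ} {pv : Fin k → ℕ} {qv : Fin r → ℕ}
  [NeZero (wilesLevel p ty Smin (Smin ∪ Piv ∪ Finset.univ.image qv))]

/-- `y` is an **eigenvector** of `T_Q` in `V`: a nonzero vector whose annihilator is a prime ideal
(`T_Q / Ann y` is a domain; every associated prime of `V` is of this form). -/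
def IAIsEigVec_T (PQ : HeckePkg p 𝒪 ρbar ty Smin (Smin ∪ Piv ∪ Finset.univ.image qv))
    (V : Submodule 𝒪 (XIA_T p ty Smin pv qv 𝒪)) (a : PQ.T →ₐ[𝒪] Module.End 𝒪 V) (y : V) : Prop :=
  y ≠ 0 ∧ ∀ s s' : PQ.T, a (s * s') y = 0 → a s y = 0 ∨ a s' y = 0

/-- **(T) at `V`, pointwise**: an eigenvector of `T_Q` fixed by the diamond operator `⟨u⟩_j` at
the Taylor–Wiles prime `q_j` is fixed by the inertia value `w`. -/
def IATptAt_T (PQ : HeckePkg p 𝒪 ρbar ty Smin (Smin ∪ Piv ∪ Finset.univ.image qv))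
    (V : Submodule 𝒪 (XIA_T p ty Smin pv qv 𝒪)) (a : PQ.T →ₐ[𝒪] Module.End 𝒪 V) : Prop :=
  ∀ (j : Fin r) (P : ValuationSubring Qb), P.LiesOverPrime (qv j) →
    ∀ φ : GQ, P.IsFrobeniusAt φ (qv j) →
    ∀ σ ∈ P.inertiaSubgroupIn ℚ, ∀ u : (ZMod (qv j))ˣ, orderOf u = qv j - 1 →
      CycloAt (qv j) σ (u : ZMod (qv j)).val →
      ∀ a₀ w : PQ.T, IsInertiaValue PQ.H.ρ φ σ a₀ w →
        ∀ y : V, IAIsEigVec_T PQ V a y →
          diaIA_T p ty Smin pv qv 𝒪 1 (Pi.mulSingle j u) (y : XIA_T p ty Smin pv qv 𝒪) = y →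
          a w y = y

/-- **(R) at `V`, pointwise**: an eigenvector of `T_Q` on which the diamond operator `⟨u⟩_j` has
order exactly `p` (`Φ_p(⟨u⟩_j) y = 0`) is NOT fixed by the inertia value `w`. -/
def IARptAt_T (PQ : HeckePkg p 𝒪 ρbar ty Smin (Smin ∪ Piv ∪ Finset.univ.image qv))
    (V : Submodule 𝒪 (XIA_T p ty Smin pv qv 𝒪)) (a : PQ.T →ₐ[𝒪] Module.End 𝒪 V) : Prop :=
  ∀ (j : Fin r) (P : ValuationSubring Qb), P.LiesOverPrime (qv j) →
    ∀ φ : GQ, P.IsFrobeniusAt φ (qv j) →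
    ∀ σ ∈ P.inertiaSubgroupIn ℚ, ∀ u : (ZMod (qv j))ˣ, orderOf u = qv j - 1 →
      CycloAt (qv j) σ (u : ZMod (qv j)).val →
      ∀ a₀ w : PQ.T, IsInertiaValue PQ.H.ρ φ σ a₀ w →
        ∀ y : V, IAIsEigVec_T PQ V a y →
          (∑ i ∈ Finset.range p,
            (diaIA_T p ty Smin pv qv 𝒪 1 (Pi.mulSingle j u))^[i] (y : XIA_T p ty Smin pv qv 𝒪)) = 0 →
          a w y ≠ y

end At

section Pt

variable {p : ℕ}
  {𝒪 : Type} [CommRing 𝒪] [IsDomain 𝒪] [IsDiscreteValuationRing 𝒪]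
  [IsAdicComplete (maximalIdeal 𝒪) 𝒪]
  {ρbar : ResidualGaloisRep (ResidueField 𝒪)} {t : PType} {Smin Sig : Finset ℕ}
  [NeZero (wilesLevel p t Smin Sig)]

/-- **A newform point of the Hecke ring `T_Σ` of a package of type `Σ`** (any `Σ`).
`emb : T_Σ → O'` takes at the `T_ℓ` (`ℓ ∉ Σ`) the Hecke eigenvalues of a newform `g` of level `M`
(all of whose prime factors lie in `Σ`) satisfying `c M`, in the shape of the frozen statements
S35 / S36: `chig` is the eigen-character of `g` on the Hecke algebra of level `M` and `iota`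
embeds its values into `O'`.
(For `Σ = Smin ∪ Q` this is `S59.TW.H314.IsNewPt`, word for word.) -/
def IsNewPtSig_T (PQ : HeckePkg p 𝒪 ρbar t Smin Sig)
    {O' : Type} [CommRing O'] (emb : PQ.T →+* O') (c : ℕ → Prop) : Prop :=
  ∃ (M : ℕ) (_ : NeZero M) (g : CuspForm (Gamma0 M) 2), g.IsNewform ∧ c M ∧
    (∀ q : ℕ, q.Prime → q ∣ M → q ∈ Sig) ∧
    ∃ (chig : CuspForm.heckeAlgebra M 2 (↑Sig : Set ℕ) →+* ℂ)
      (iota : chig.range →+* O'),
      (∀ (ℓ : ℕ) (hℓ : ℓ.Prime) (hℓM : ¬ ℓ ∣ M) (hℓS : ℓ ∉ (↑Sig : Set ℕ)),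
        chig (CuspForm.heckeAlgebra.T hℓ hℓM hℓS) = ModularFormClass.qCoeff g ℓ) ∧
      ∀ (ℓ : ℕ) (hℓ : ℓ.Prime)
        (hℓN : ¬ ℓ ∣ wilesLevel p t Smin Sig) (hℓM : ¬ ℓ ∣ M)
        (hℓS : ℓ ∉ (↑Sig : Set ℕ)),
        iota (chig.rangeRestrict (CuspForm.heckeAlgebra.T hℓ hℓM hℓS)) =
          emb (PQ.H.π (CuspForm.heckeAlgebra.T hℓ hℓN hℓS))

end Pt

section HasPt

variable {p : ℕ}
  {𝒪 : Type} [CommRing 𝒪] [IsDomain 𝒪] [IsDiscreteValuationRing 𝒪]
  [IsAdicComplete (maximalIdeal 𝒪) 𝒪]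
  {ρbar : ResidualGaloisRep (ResidueField 𝒪)} {Smin Piv : Finset ℕ}
  {k r : ℕ} {pv : Fin k → ℕ} {qv : Fin r → ℕ}
  [NeZero (wilesLevel p ty Smin (Smin ∪ Piv ∪ Finset.univ.image qv))]

/-- **The eigenvector `y` is a newform point**: there is a newform point `emb : T_Q → O'`, `O'` a
complete DVR of characteristic `0` with finite residue field, `emb` local, whose kernel is the
annihilator of `y`. -/
def IAHasNewPt_T (PQ : HeckePkg p 𝒪 ρbar ty Smin (Smin ∪ Piv ∪ Finset.univ.image qv))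
    (V : Submodule 𝒪 (XIA_T p ty Smin pv qv 𝒪)) (a : PQ.T →ₐ[𝒪] Module.End 𝒪 V) (y : V)
    (c : ℕ → Prop) : Prop :=
  ∃ (O' : Type) (_ : CommRing O') (_ : IsDomain O') (_ : IsDiscreteValuationRing O')
    (_ : IsAdicComplete (maximalIdeal O') O') (_ : Finite (ResidueField O')) (_ : CharZero O')
    (emb : PQ.T →+* O'), IsLocalHom emb ∧ (∀ s : PQ.T, a s y = 0 ↔ emb s = 0) ∧
      IsNewPtSig_T PQ emb c

end HasPt

/-! ## The leaves, as closed statements -/

/-- **IA-CMP-GLUE** (pure algebra, route TW-ALG).  Freeness + (T) + (R) ⇒ `IACmpAt_T`. -/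
def IACmpGlueStatement_T : Prop :=
  ∀ (p : ℕ) [Fact p.Prime]
    (𝒪 : Type) [CommRing 𝒪] [IsDomain 𝒪] [IsDiscreteValuationRing 𝒪]
    [IsAdicComplete (maximalIdeal 𝒪) 𝒪] [Finite (ResidueField 𝒪)] [CharZero 𝒪]
    (ρbar : ResidualGaloisRep (ResidueField 𝒪)) (Smin : Finset ℕ)
    (_h : ResidualHyp p 𝒪 ρbar Smin)
    (Piv : Finset ℕ) (_hPiv : IsPivotSet p ρbar Smin Piv)
    (k : ℕ) (pv : Fin k → ℕ) (_hpv : Function.Injective pv)
    (_hpvPiv : Finset.univ.image pv = Piv)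
    (n r : ℕ) (qv : Fin r → ℕ) (_hq : IsTWSet p ρbar (Smin ∪ Piv) n qv)
    [NeZero (wilesLevel p ty Smin (Smin ∪ Piv ∪ Finset.univ.image qv))]
    (PQ : HeckePkg p 𝒪 ρbar ty Smin (Smin ∪ Piv ∪ Finset.univ.image qv))
    (α : Fin r → 𝒪)
    (V : Submodule 𝒪 (XIA_T p ty Smin pv qv 𝒪)) (h : ℕ) (a : PQ.T →ₐ[𝒪] Module.End 𝒪 V) (d : ℕ),
    IsIAPart_T PQ α V → IsIAAction_T PQ V h a → IAFreeAt_T V d → IATptAt_T PQ V a → IARptAt_T PQ V a →
      IACmpAt_T PQ V a

/-- **IA-DICT-T** (automorphic).  An eigenvector of `T_Q` in `V` fixed by `⟨u⟩_j` (`q_j` a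
Taylor–Wiles prime) is a newform point of a level `M` with `q_j² ∤ M`.
(As DICT-T of the cell TW, for the combined family: the eigen-system comes from a cusp form on
`K = Γ₀(N_min) ∩ Γ_H(Piv ∪ Q)` whose nebentypus is trivial at `q_j`; its twist to trivial
character has level prime to `q_j` or exactly divisible by `q_j`.) -/
def IADictTStatement_T : Prop :=
  ∀ (p : ℕ) [Fact p.Prime] (_hp5 : 3 ≤ p)
    (𝒪 : Type) [CommRing 𝒪] [IsDomain 𝒪] [IsDiscreteValuationRing 𝒪]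
    [IsAdicComplete (maximalIdeal 𝒪) 𝒪] [Finite (ResidueField 𝒪)] [CharZero 𝒪]
    (ρbar : ResidualGaloisRep (ResidueField 𝒪)) (Smin : Finset ℕ)
    (_h : ResidualHyp p 𝒪 ρbar Smin)
    (ty : PType) (_hflat : IsPTypeAt p ρbar ty)
    (Piv : Finset ℕ) (_hPiv : IsPivotSet p ρbar Smin Piv)
    (k : ℕ) (pv : Fin k → ℕ) (_hpv : Function.Injective pv)
    (_hpvPiv : Finset.univ.image pv = Piv)
    (n r : ℕ) (qv : Fin r → ℕ) (_hq : IsTWSet p ρbar (Smin ∪ Piv) n qv)
    [NeZero (wilesLevel p ty Smin (Smin ∪ Piv ∪ Finset.univ.image qv))]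
    (PQ : HeckePkg p 𝒪 ρbar ty Smin (Smin ∪ Piv ∪ Finset.univ.image qv))
    (α : Fin r → 𝒪) (_hα : IsFrobLift ρbar qv α)
    (V : Submodule 𝒪 (XIA_T p ty Smin pv qv 𝒪)) (h : ℕ) (a : PQ.T →ₐ[𝒪] Module.End 𝒪 V),
    IsIAPart_T PQ α V → IsHalf p pv h → IsHalf p qv h → IsIAAction_T PQ V h a →
    ∀ (j : Fin r) (u : (ZMod (qv j))ˣ), orderOf u = qv j - 1 →
      ∀ y : V, IAIsEigVec_T PQ V a y →
        diaIA_T p ty Smin pv qv 𝒪 1 (Pi.mulSingle j u) (y : XIA_T p ty Smin pv qv 𝒪) = y →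
        IAHasNewPt_T PQ V a y (fun M => ¬ qv j ^ 2 ∣ M)

/-- **IA-DICT-R** (automorphic).  An eigenvector of `T_Q` in `V` on which `⟨u⟩_j` has order
exactly `p` is a newform point of a level `M` with `q_j² ∥ M`.
(As DICT-R of the cell TW, for the combined family.) -/
def IADictRStatement_T : Prop :=
  ∀ (p : ℕ) [Fact p.Prime] (_hp5 : 3 ≤ p)
    (𝒪 : Type) [CommRing 𝒪] [IsDomain 𝒪] [IsDiscreteValuationRing 𝒪]
    [IsAdicComplete (maximalIdeal 𝒪) 𝒪] [Finite (ResidueField 𝒪)] [CharZero 𝒪]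
    (ρbar : ResidualGaloisRep (ResidueField 𝒪)) (Smin : Finset ℕ)
    (_h : ResidualHyp p 𝒪 ρbar Smin)
    (ty : PType) (_hflat : IsPTypeAt p ρbar ty)
    (Piv : Finset ℕ) (_hPiv : IsPivotSet p ρbar Smin Piv)
    (k : ℕ) (pv : Fin k → ℕ) (_hpv : Function.Injective pv)
    (_hpvPiv : Finset.univ.image pv = Piv)
    (n r : ℕ) (qv : Fin r → ℕ) (_hq : IsTWSet p ρbar (Smin ∪ Piv) n qv)
    [NeZero (wilesLevel p ty Smin (Smin ∪ Piv ∪ Finset.univ.image qv))]
    (PQ : HeckePkg p 𝒪 ρbar ty Smin (Smin ∪ Piv ∪ Finset.univ.image qv))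
    (α : Fin r → 𝒪) (_hα : IsFrobLift ρbar qv α)
    (V : Submodule 𝒪 (XIA_T p ty Smin pv qv 𝒪)) (h : ℕ) (a : PQ.T →ₐ[𝒪] Module.End 𝒪 V),
    IsIAPart_T PQ α V → IsHalf p pv h → IsHalf p qv h → IsIAAction_T PQ V h a →
    ∀ (j : Fin r) (u : (ZMod (qv j))ˣ), orderOf u = qv j - 1 →
      ∀ y : V, IAIsEigVec_T PQ V a y →
        (∑ i ∈ Finset.range p,
          (diaIA_T p ty Smin pv qv 𝒪 1 (Pi.mulSingle j u))^[i] (y : XIA_T p ty Smin pv qv 𝒪)) = 0 →
        IAHasNewPt_T PQ V a y (fun M => M.factorization (qv j) = 2)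

/-- **GAL-T for a package of any type `Σ`** (Galois).  `q ∈ Σ ∖ Smin` a prime, `q ≡ 1` modulo `p`,
at which every Frobenius has two distinct eigenvalues on `ρ̄`.  At a newform point of level `M`
with `q² ∤ M` the inertia value at `q` is `1`.
(`q ∤ M`: the representation of the frozen S30 at level `M` is unramified at `q` and has the
same Frobenius characteristic polynomials as `ρ_Σ ⊗ O''`, so the same traces [Chebotarev];
the inertia value is a formula in traces.  `q ∥ M`: impossible, by the frozen S35 the Frobenius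
at `q` would have eigenvalues `±1, ±q`, equal modulo `p`.)
For `Σ = Smin ∪ Q`, `q = q_j` this is `S59.TW.H314.GalTStatement`. -/
def GalTSigStatement_T : Prop :=
  ∀ (p : ℕ) [Fact p.Prime]
    (𝒪 : Type) [CommRing 𝒪] [IsDomain 𝒪] [IsDiscreteValuationRing 𝒪]
    [IsAdicComplete (maximalIdeal 𝒪) 𝒪] [Finite (ResidueField 𝒪)] [CharZero 𝒪]
    (ρbar : ResidualGaloisRep (ResidueField 𝒪)) (Smin : Finset ℕ)
    (_h : ResidualHyp p 𝒪 ρbar Smin) (t : PType) (Sig : Finset ℕ)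
    (_hSig : ∀ q ∈ Sig, q.Prime) (_hSminSig : Smin ⊆ Sig)
    [NeZero (wilesLevel p t Smin Sig)]
    (PQ : HeckePkg p 𝒪 ρbar t Smin Sig)
    (q : ℕ) (_hq : q.Prime) (_hqSig : q ∈ Sig) (_hqS : q ∉ Smin) (_hpq : p ∣ q - 1)
    (_hdist : ∀ P : ValuationSubring (AlgebraicClosure ℚ), P.LiesOverPrime q →
      ∀ φ : AlgebraicClosure ℚ ≃ₐ[ℚ] AlgebraicClosure ℚ, P.IsFrobeniusAt φ q →
        ∃ α β : ResidueField 𝒪, α ≠ β ∧ LinearMap.charpoly (ρbar.ρ φ) = (X - C α) * (X - C β))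
    (P : ValuationSubring Qb), P.LiesOverPrime q →
    ∀ φ : GQ, P.IsFrobeniusAt φ q →
    ∀ σ ∈ P.inertiaSubgroupIn ℚ,
      ∀ a₀ w : PQ.T, IsInertiaValue PQ.H.ρ φ σ a₀ w →
      ∀ (O' : Type) [CommRing O'] [IsDomain O'] [IsDiscreteValuationRing O']
        [IsAdicComplete (maximalIdeal O') O'] [Finite (ResidueField O')] [CharZero O']
        (emb : PQ.T →+* O'), IsLocalHom emb →
        IsNewPtSig_T PQ emb (fun M => ¬ q ^ 2 ∣ M) → emb w = 1

/-- **GAL-R for a package of any type `Σ`** (Galois).  At a newform point of level `M` with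
`q² ∥ M` the inertia value at `(φ, σ)`, `σ ↦` a primitive root modulo `q`, is not `1`.
(Frozen S36 + Chebotarev + `H59.twGal1` + `H59.twGalCyc`, as for `S59.TW.H314.GalRStatement`,
which is the case `Σ = Smin ∪ Q`, `q = q_j`.) -/
def GalRSigStatement_T : Prop :=
  ∀ (p : ℕ) [Fact p.Prime]
    (𝒪 : Type) [CommRing 𝒪] [IsDomain 𝒪] [IsDiscreteValuationRing 𝒪]
    [IsAdicComplete (maximalIdeal 𝒪) 𝒪] [Finite (ResidueField 𝒪)] [CharZero 𝒪]
    (ρbar : ResidualGaloisRep (ResidueField 𝒪)) (Smin : Finset ℕ)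
    (_h : ResidualHyp p 𝒪 ρbar Smin) (t : PType) (Sig : Finset ℕ)
    (_hSig : ∀ q ∈ Sig, q.Prime) (_hSminSig : Smin ⊆ Sig)
    [NeZero (wilesLevel p t Smin Sig)]
    (PQ : HeckePkg p 𝒪 ρbar t Smin Sig)
    (q : ℕ) (_hq : q.Prime) (_hqSig : q ∈ Sig) (_hqS : q ∉ Smin) (_hpq : p ∣ q - 1)
    (_hdist : ∀ P : ValuationSubring (AlgebraicClosure ℚ), P.LiesOverPrime q →
      ∀ φ : AlgebraicClosure ℚ ≃ₐ[ℚ] AlgebraicClosure ℚ, P.IsFrobeniusAt φ q →
        ∃ α β : ResidueField 𝒪, α ≠ β ∧ LinearMap.charpoly (ρbar.ρ φ) = (X - C α) * (X - C β))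
    (P : ValuationSubring Qb), P.LiesOverPrime q →
    ∀ φ : GQ, P.IsFrobeniusAt φ q →
    ∀ σ ∈ P.inertiaSubgroupIn ℚ, ∀ u : (ZMod q)ˣ, orderOf u = q - 1 →
      CycloAt q σ (u : ZMod q).val →
      ∀ a₀ w : PQ.T, IsInertiaValue PQ.H.ρ φ σ a₀ w →
      ∀ (O' : Type) [CommRing O'] [IsDomain O'] [IsDiscreteValuationRing O']
        [IsAdicComplete (maximalIdeal O') O'] [Finite (ResidueField O')] [CharZero O']
        (emb : PQ.T →+* O'), IsLocalHom emb →
        IsNewPtSig_T PQ emb (fun M => M.factorization q = 2) → emb w ≠ 1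

/-- **IA-GAL-T**: `GalTSigStatement_T` at `Σ = Smin ∪ Piv ∪ Q`, `q = q_j`. -/
def IAGalTStatement_T : Prop :=
  ∀ (p : ℕ) [Fact p.Prime]
    (𝒪 : Type) [CommRing 𝒪] [IsDomain 𝒪] [IsDiscreteValuationRing 𝒪]
    [IsAdicComplete (maximalIdeal 𝒪) 𝒪] [Finite (ResidueField 𝒪)] [CharZero 𝒪]
    (ρbar : ResidualGaloisRep (ResidueField 𝒪)) (Smin : Finset ℕ)
    (_h : ResidualHyp p 𝒪 ρbar Smin)
    (Piv : Finset ℕ) (_hPiv : IsPivotSet p ρbar Smin Piv)
    (n r : ℕ) (qv : Fin r → ℕ) (_hq : IsTWSet p ρbar (Smin ∪ Piv) n qv)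
    [NeZero (wilesLevel p ty Smin (Smin ∪ Piv ∪ Finset.univ.image qv))]
    (PQ : HeckePkg p 𝒪 ρbar ty Smin (Smin ∪ Piv ∪ Finset.univ.image qv))
    (j : Fin r) (P : ValuationSubring Qb), P.LiesOverPrime (qv j) →
    ∀ φ : GQ, P.IsFrobeniusAt φ (qv j) →
    ∀ σ ∈ P.inertiaSubgroupIn ℚ,
      ∀ a₀ w : PQ.T, IsInertiaValue PQ.H.ρ φ σ a₀ w →
      ∀ (O' : Type) [CommRing O'] [IsDomain O'] [IsDiscreteValuationRing O']
        [IsAdicComplete (maximalIdeal O') O'] [Finite (ResidueField O')] [CharZero O']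
        (emb : PQ.T →+* O'), IsLocalHom emb →
        IsNewPtSig_T PQ emb (fun M => ¬ qv j ^ 2 ∣ M) → emb w = 1

/-- **IA-GAL-R**: `GalRSigStatement_T` at `Σ = Smin ∪ Piv ∪ Q`, `q = q_j`. -/
def IAGalRStatement_T : Prop :=
  ∀ (p : ℕ) [Fact p.Prime]
    (𝒪 : Type) [CommRing 𝒪] [IsDomain 𝒪] [IsDiscreteValuationRing 𝒪]
    [IsAdicComplete (maximalIdeal 𝒪) 𝒪] [Finite (ResidueField 𝒪)] [CharZero 𝒪]
    (ρbar : ResidualGaloisRep (ResidueField 𝒪)) (Smin : Finset ℕ)
    (_h : ResidualHyp p 𝒪 ρbar Smin)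
    (Piv : Finset ℕ) (_hPiv : IsPivotSet p ρbar Smin Piv)
    (n r : ℕ) (qv : Fin r → ℕ) (_hq : IsTWSet p ρbar (Smin ∪ Piv) n qv)
    [NeZero (wilesLevel p ty Smin (Smin ∪ Piv ∪ Finset.univ.image qv))]
    (PQ : HeckePkg p 𝒪 ρbar ty Smin (Smin ∪ Piv ∪ Finset.univ.image qv))
    (j : Fin r) (P : ValuationSubring Qb), P.LiesOverPrime (qv j) →
    ∀ φ : GQ, P.IsFrobeniusAt φ (qv j) →
    ∀ σ ∈ P.inertiaSubgroupIn ℚ, ∀ u : (ZMod (qv j))ˣ, orderOf u = qv j - 1 →
      CycloAt (qv j) σ (u : ZMod (qv j)).val →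
      ∀ a₀ w : PQ.T, IsInertiaValue PQ.H.ρ φ σ a₀ w →
      ∀ (O' : Type) [CommRing O'] [IsDomain O'] [IsDiscreteValuationRing O']
        [IsAdicComplete (maximalIdeal O') O'] [Finite (ResidueField O')] [CharZero O']
        (emb : PQ.T →+* O'), IsLocalHom emb →
        IsNewPtSig_T PQ emb (fun M => M.factorization (qv j) = 2) → emb w ≠ 1

end Fermat.Agent.S38.IA.Hecke.H183

end
-- ===== PACK-END S38T/IA/Hecke/H183/CmpSpecIA.lean

-- ===== PACK-BEGIN S38T/IA/Hecke/H183/CmpSigIA.lean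
section



/-!
# Row HARD, cell HECKE, layer 4: the Galois leaves of IA-CMP from their form for a general `Σ`
(helper183)

* `iaGalT_of_sig : GalTSigStatement → IAGalTStatement`, `iaGalR_of_sig`;
* `galT314_of_sig : GalTSigStatement → S59.TW.H314.GalTStatement`, `galR314_of_sig`
  (the leaves of the cell TW of row S59 are the case `Σ = Smin ∪ Q`).
-/

set_option autoImplicit false
set_option linter.style.haveILetI false
set_option linter.unusedSectionVars false
set_option linter.unusedVariables false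

open Polynomial IsLocalRing CongruenceSubgroup
open scoped MatrixGroups

namespace Fermat.Agent.S38.IA.Hecke.H183

variable {ty : Fermat.Agent.S59.Arch.PType}

open Fermat.Agent.S59.Arch Fermat.Agent.S59.TW.H959 Fermat.Agent.S59.TW Fermat.Agent.S59.H765
open Fermat.Agent.S59.TW.H653 Fermat.Agent.S59.TW.Aut
open Fermat.Agent.S38.IA Fermat.Agent.S38.IA.Hecke
open CuspForm

/-! ## The Galois leaves from their form for a general `Σ` -/

section Sig

variable {p : ℕ} {k : Type} [Field k] {ρbar : ResidualGaloisRep k} {Smin Piv : Finset ℕ}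
  {n r : ℕ} {qv : Fin r → ℕ}

theorem sig_prime_of_T (hSmin : ∀ q ∈ Smin, q.Prime) (hPiv : IsPivotSet p ρbar Smin Piv)
    (hq : IsTWSet p ρbar (Smin ∪ Piv) n qv) :
    ∀ q ∈ Smin ∪ Piv ∪ Finset.univ.image qv, q.Prime := by
  intro q hq'
  rcases Finset.mem_union.mp hq' with h' | h'
  · rcases Finset.mem_union.mp h' with h'' | h''
    · exact hSmin q h''
    · exact (hPiv q h'').1
  · obtain ⟨j, -, rfl⟩ := Finset.mem_image.mp h'
    exact (hq.2.1 j).1

end Sig

/-- `IAGalTStatement` is the case `Σ = Smin ∪ Piv ∪ Q`, `q = q_j` of `GalTSigStatement`. -/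
theorem iaGalT_of_sig_T (hG : GalTSigStatement_T) : IAGalTStatement_T (ty := ty) := by
  intro p hpF 𝒪 _ _ _ _ _ _ ρbar Smin h Piv hPiv n r qv hq _ PQ j P hP φ hφ σ hσ a₀ w hw
    O' _ _ _ _ _ _ emb hloc hnew
  obtain ⟨hqprime, hqS, hqdvd⟩ := hq.2.1 j
  exact hG p 𝒪 ρbar Smin h ty (Smin ∪ Piv ∪ Finset.univ.image qv)
    (sig_prime_of_T h.hSmin hPiv hq) (Finset.subset_union_left.trans Finset.subset_union_left)
    PQ (qv j) hqprime
    (Finset.mem_union_right _ (Finset.mem_image_of_mem qv (Finset.mem_univ j)))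
    (fun e => hqS (Finset.mem_union_left _ e))
    (dvd_trans (dvd_pow_self p (Nat.succ_ne_zero n)) hqdvd)
    (fun P' hP' φ' hφ' => hq.2.2 j P' hP' φ' hφ')
    P hP φ hφ σ hσ a₀ w hw O' emb hloc hnew

/-- `IAGalRStatement` is the case `Σ = Smin ∪ Piv ∪ Q`, `q = q_j` of `GalRSigStatement`. -/
theorem iaGalR_of_sig_T (hG : GalRSigStatement_T) : IAGalRStatement_T (ty := ty) := by
  intro p hpF 𝒪 _ _ _ _ _ _ ρbar Smin h Piv hPiv n r qv hq _ PQ j P hP φ hφ σ hσ u hu hcyc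
    a₀ w hw O' _ _ _ _ _ _ emb hloc hnew
  obtain ⟨hqprime, hqS, hqdvd⟩ := hq.2.1 j
  exact hG p 𝒪 ρbar Smin h ty (Smin ∪ Piv ∪ Finset.univ.image qv)
    (sig_prime_of_T h.hSmin hPiv hq) (Finset.subset_union_left.trans Finset.subset_union_left)
    PQ (qv j) hqprime
    (Finset.mem_union_right _ (Finset.mem_image_of_mem qv (Finset.mem_univ j)))
    (fun e => hqS (Finset.mem_union_left _ e))
    (dvd_trans (dvd_pow_self p (Nat.succ_ne_zero n)) hqdvd)
    (fun P' hP' φ' hφ' => hq.2.2 j P' hP' φ' hφ')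
    P hP φ hφ σ hσ u hu hcyc a₀ w hw O' emb hloc hnew

/-- `S59.TW.H314.GalTStatement` is the case `Σ = Smin ∪ Q`, `q = q_j` of `GalTSigStatement`. -/
theorem galT314_of_sig_T (hG : GalTSigStatement_T) : Fermat.Agent.S59.TW.H314.GalTStatement := by
  intro p hpF 𝒪 _ _ _ _ _ _ ρbar Smin h t _ n r qv hq _ PQ j P hP φ hφ σ hσ a₀ w hw
    O' _ _ _ _ _ _ emb hloc hnew
  obtain ⟨hqprime, hqS, hqdvd⟩ := hq.2.1 j
  have hSigP : ∀ q ∈ Smin ∪ Finset.univ.image qv, q.Prime := by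
    intro q hq'
    rcases Finset.mem_union.mp hq' with h' | h'
    · exact h.hSmin q h'
    · obtain ⟨j, -, rfl⟩ := Finset.mem_image.mp h'
      exact (hq.2.1 j).1
  exact hG p 𝒪 ρbar Smin h t (Smin ∪ Finset.univ.image qv) hSigP Finset.subset_union_left
    PQ (qv j) hqprime
    (Finset.mem_union_right _ (Finset.mem_image_of_mem qv (Finset.mem_univ j)))
    hqS (dvd_trans (dvd_pow_self p (Nat.succ_ne_zero n)) hqdvd)
    (fun P' hP' φ' hφ' => hq.2.2 j P' hP' φ' hφ')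
    P hP φ hφ σ hσ a₀ w hw O' emb hloc hnew

/-- `S59.TW.H314.GalRStatement` is the case `Σ = Smin ∪ Q`, `q = q_j` of `GalRSigStatement`. -/
theorem galR314_of_sig_T (hG : GalRSigStatement_T) : Fermat.Agent.S59.TW.H314.GalRStatement := by
  intro p hpF 𝒪 _ _ _ _ _ _ ρbar Smin h t _ n r qv hq _ PQ j P hP φ hφ σ hσ u hu hcyc a₀ w hw
    O' _ _ _ _ _ _ emb hloc hnew
  obtain ⟨hqprime, hqS, hqdvd⟩ := hq.2.1 j
  have hSigP : ∀ q ∈ Smin ∪ Finset.univ.image qv, q.Prime := by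
    intro q hq'
    rcases Finset.mem_union.mp hq' with h' | h'
    · exact h.hSmin q h'
    · obtain ⟨j, -, rfl⟩ := Finset.mem_image.mp h'
      exact (hq.2.1 j).1
  exact hG p 𝒪 ρbar Smin h t (Smin ∪ Finset.univ.image qv) hSigP Finset.subset_union_left
    PQ (qv j) hqprime
    (Finset.mem_union_right _ (Finset.mem_image_of_mem qv (Finset.mem_univ j)))
    hqS (dvd_trans (dvd_pow_self p (Nat.succ_ne_zero n)) hqdvd)
    (fun P' hP' φ' hφ' => hq.2.2 j P' hP' φ' hφ')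
    P hP φ hφ σ hσ u hu hcyc a₀ w hw O' emb hloc hnew

end Fermat.Agent.S38.IA.Hecke.H183

end
-- ===== PACK-END S38T/IA/Hecke/H183/CmpSigIA.lean

-- ===== PACK-BEGIN S59/H826/LoSq32Key.lean
section
/-
Row S59, cell LO, leaf LO-SQ at `(p, q) = (3, 2)` — SOFT route, the KEY step (helper826).

`Γ ≤ SL(2,ℤ)` of finite index, `κ : Γ ↠ D`, `|D| = 3`, `-1 ∈ ker κ`, (Ell): the elements of finite
order of `Γ` lie in `ker κ`.  `h` a coset system on `Γ` whose cocycle preserves `κ` (a Hecke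
correspondence with representatives `≡ 1` modulo the level of `κ`), `t` its restriction to
`K = ker κ`.  Then every `D`-invariant class `x : K → 𝔽₃` with `t x = a x`, `a ≠ |I|`
(`|I| = l + 1`: non-Eisenstein) lies in `(σ - 1) Hom(K, 𝔽₃)`, `σ` the action of any `g₀ ∉ ker κ`.

Proof: `res (cor x) = ∑_d d x = 3 x = 0` (`H57.resCor`), so `cor x` factors through `D`, where the
transfer of `h` is multiplication by `|I|`; `cor` intertwines `t` and the transfer of `h`
(`H587.transferAlong_restrict`), so `(a - |I|) cor x = 0`, `cor x = 0`, and `H761.kerCor` applies.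
-/




set_option autoImplicit false
set_option linter.unusedSectionVars false
set_option linter.style.haveILetI false

namespace Fermat.Agent.S59.H826

open CongruenceSubgroup Matrix.SpecialLinearGroup
open Fermat.Agent.S41.Spec Fermat.Agent.S41.H761
open Fermat.Agent.S59.MFree Fermat.Agent.S59.MFree.H587 Fermat.Agent.S59.MFree.H57
open Fermat.Agent.S59.MFree.H761
open scoped MatrixGroups

section Eis

variable {Γ : Subgroup SL(2, ℤ)} {D : Type} [Group D] (κ : Γ →* D)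
variable {A : Type*} [AddCommGroup A]

/-- A class on `Γ` killed by the restriction to `ker κ` only depends on `κ`. -/
theorem apply_eq_of_kappa_eq826 (y : Additive Γ →+ A) (hy : res κ y = 0) {g g' : Γ}
    (hg : κ g = κ g') : y (Additive.ofMul g) = y (Additive.ofMul g') := by
  have hk : κ (g⁻¹ * g') = 1 := by rw [map_mul, map_inv, hg, inv_mul_cancel]
  have h1 : y (Additive.ofMul (g⁻¹ * g')) = 0 := by
    have := congrArg (fun φ : Additive (kerSub κ) →+ A =>
      φ (Additive.ofMul (toKer57 κ (g⁻¹ * g') hk))) hy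
    simpa [res_apply] using this
  rw [ofMul_mul, ofMul_inv, map_add, map_neg] at h1
  have : y (Additive.ofMul g') = y (Additive.ofMul g) := by
    have h2 := eq_neg_of_add_eq_zero_right h1
    rw [neg_neg] at h2
    exact h2
  exact this.symm

/-- **Eisenstein.**  On the classes of `Γ` killed by the restriction to `ker κ`, the transfer of a
coset system preserving `κ` is the multiplication by the number of representatives. -/
theorem transfer_of_res_eq_zero826 {I : Type*} [Fintype I] {𝒢 : Type*} [Group 𝒢] {ι : Γ →* 𝒢}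
    {ρ : I → 𝒢} (h : IsCosetSystem ι ι ρ) (hp : PreservesKappa h κ)
    (y : Additive Γ →+ A) (hy : res κ y = 0) : h.transfer y = Fintype.card I • y := by
  refine AddMonoidHom.ext fun g' => ?_
  obtain ⟨g, rfl⟩ : ∃ g : Γ, Additive.ofMul g = g' := ⟨Additive.toMul g', rfl⟩
  rw [IsCosetSystem.transfer_apply, AddMonoidHom.nsmul_apply,
    Finset.sum_congr rfl (fun i _ => apply_eq_of_kappa_eq826 κ y hy (hp i g)),
    Finset.sum_const, Finset.card_univ]

end Eis

section Key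

variable {Γ : Subgroup SL(2, ℤ)} [Γ.FiniteIndex] {D : Type} [Group D] [Fintype D] (κ : Γ →* D)

/-- **KEY.** -/
theorem key826 (hκ : Function.Surjective κ) (hD : Fintype.card D = 3)
    (hneg : (-1 : SL(2, ℤ)) ∈ kerSub κ) (hell : ∀ g : Γ, IsOfFinOrder g → κ g = 1)
    {I : Type*} [Fintype I] {𝒢 : Type*} [Group 𝒢] {ι : Γ →* 𝒢} {ρ : I → 𝒢}
    (h : IsCosetSystem ι ι ρ) (hp : PreservesKappa h κ)
    (x : Additive (kerSub κ) →+ ZMod 3) (hxtt : IsTorsionTrivial x)
    (hfix : ∀ g : Γ, conjAct κ g x = x) (a : ZMod 3)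
    (hx : (restrictSystem h hp (Subgroup.inclusion (kerSub_le κ))
      (Subgroup.inclusion_injective _) (mem_range_inclusion_iff κ)).transfer x = a • x)
    (hac : a ≠ (Fintype.card I : ZMod 3)) :
    x ∈ augSub κ (ZMod 3) := by
  haveI : Fact (Nat.Prime 3) := ⟨by norm_num⟩
  choose s hs using hκ
  -- `res (cor x) = 3 x = 0`
  have h1 : res κ (cor κ x) = 0 := by
    rw [resCor Γ D κ s hs (ZMod 3) x, Finset.sum_congr rfl (fun d _ => hfix (s d)),
      Finset.sum_const, Finset.card_univ, hD]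
    refine AddMonoidHom.ext fun g => ?_
    rw [AddMonoidHom.nsmul_apply, AddMonoidHom.zero_apply, nsmul_eq_mul]
    have : ((3 : ℕ) : ZMod 3) = 0 := ZMod.natCast_self 3
    rw [this, zero_mul]
  -- `cor x` is Eisenstein
  have h2 : h.transfer (cor κ x) = Fintype.card I • cor κ x :=
    transfer_of_res_eq_zero826 κ h hp (cor κ x) h1
  haveI : (Subgroup.inclusion (kerSub_le κ)).range.FiniteIndex := finiteIndex_range_incl57 κ
  have h3 : cor κ ((restrictSystem h hp (Subgroup.inclusion (kerSub_le κ))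
      (Subgroup.inclusion_injective _) (mem_range_inclusion_iff κ)).transfer x) =
      h.transfer (cor κ x) :=
    transferAlong_restrict h hp (Subgroup.inclusion (kerSub_le κ))
      (Subgroup.inclusion_injective _) (mem_range_inclusion_iff κ) x
  rw [hx, cor_smul, h2] at h3
  have h4 : cor κ x = 0 := by
    have h5 : (a - (Fintype.card I : ZMod 3)) • cor κ x = 0 := by
      rw [sub_smul, h3, Nat.cast_smul_eq_nsmul, sub_self]
    rcases smul_eq_zero.mp h5 with h6 | h6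
    · exact absurd (sub_eq_zero.mp h6) hac
    · exact h6
  exact H761.kerCor Γ D κ hneg hell (ZMod 3) x hxtt h4

end Key

section Aug

variable {Γ : Subgroup SL(2, ℤ)} {D : Type} [Group D] [Fintype D] (κ : Γ →* D)
variable {A : Type*} [AddCommGroup A]

theorem conjAct_add826 (g : Γ) (x y : Additive (kerSub κ) →+ A) :
    conjAct κ g (x + y) = conjAct κ g x + conjAct κ g y := rfl

theorem conjAct_sub826 (g : Γ) (x y : Additive (kerSub κ) →+ A) :
    conjAct κ g (x - y) = conjAct κ g x - conjAct κ g y := rfl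

theorem conjAct_neg826 (g : Γ) (x : Additive (kerSub κ) →+ A) :
    conjAct κ g (-x) = -conjAct κ g x := rfl

theorem conjAct_zero826 (g : Γ) : conjAct κ g (0 : Additive (kerSub κ) →+ A) = 0 := rfl

/-- `(g₀ⁿ - 1) y ∈ (g₀ - 1) H`. -/
theorem exists_conj_pow_sub826 (g₀ : Γ) (y : Additive (kerSub κ) →+ A) (n : ℕ) :
    ∃ w : Additive (kerSub κ) →+ A, conjAct κ (g₀ ^ n) y - y = conjAct κ g₀ w - w := by
  induction n with
  | zero => exact ⟨0, by rw [pow_zero, conjAct_one, sub_self, conjAct_zero826, sub_self]⟩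
  | succ n ih =>
    obtain ⟨w, hw⟩ := ih
    refine ⟨conjAct κ (g₀ ^ n) y + w, ?_⟩
    rw [pow_succ', conjAct_mul, conjAct_add826]
    have : conjAct κ g₀ (conjAct κ (g₀ ^ n) y) - y =
        (conjAct κ g₀ (conjAct κ (g₀ ^ n) y) - conjAct κ (g₀ ^ n) y) +
          (conjAct κ (g₀ ^ n) y - y) := by abel
    rw [this, hw]
    abel

/-- If `|D| = 3` and `κ g₀ ≠ 1`, then `I_D H = (g₀ - 1) H`. -/
theorem exists_conj_sub_of_mem_augSub826 (hD : Fintype.card D = 3) (g₀ : Γ) (hg₀ : κ g₀ ≠ 1)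
    (x : Additive (kerSub κ) →+ A) (hx : x ∈ augSub κ A) :
    ∃ w : Additive (kerSub κ) →+ A, x = conjAct κ g₀ w - w := by
  haveI : Fact (Nat.Prime 3) := ⟨by norm_num⟩
  have hgen : ∀ d : D, ∃ n : ℕ, d = κ g₀ ^ n := by
    intro d
    have h1 : d ∈ Subgroup.zpowers (κ g₀) := by
      rw [zpowers_eq_top_of_prime_card (p := 3) (by rw [Nat.card_eq_fintype_card, hD]) hg₀]
      exact Subgroup.mem_top d
    obtain ⟨n, hn⟩ := (mem_powers_iff_mem_zpowers.mpr h1)
    exact ⟨n, hn.symm⟩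
  unfold augSub at hx
  induction hx using AddSubgroup.closure_induction with
  | mem v hv =>
    obtain ⟨g, y, -, rfl⟩ := hv
    obtain ⟨n, hn⟩ := hgen (κ g)
    have h2 : conjAct κ g y = conjAct κ (g₀ ^ n) y :=
      conjAct_congr57 κ y (by rw [map_pow, hn])
    rw [h2]
    exact exists_conj_pow_sub826 κ g₀ y n
  | zero => exact ⟨0, by rw [conjAct_zero826, sub_self]⟩
  | add v v' _ _ hv hv' =>
    obtain ⟨w, rfl⟩ := hv
    obtain ⟨w', rfl⟩ := hv'
    exact ⟨w + w', by rw [conjAct_add826]; abel⟩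
  | neg v _ hv =>
    obtain ⟨w, rfl⟩ := hv
    exact ⟨-w, by rw [conjAct_neg826]; abel⟩

end Aug

end Fermat.Agent.S59.H826

end
-- ===== PACK-END S59/H826/LoSq32Key.lean

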