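import Mathlib
import Fermat.Agent.Pack.S59C.E6L1
import Fermat.Agent.Pack.S59C.E4L3
import Fermat.Agent.Pack.S59C.E4L2
import Fermat.Agent.Pack.S59C.E5L0
import Fermat.Agent.Pack.S43MC.G0E7L3
import Fermat.Agent.Pack.S59C.E4L0
import Fermat.Agent.Pack.S59C.E5L2
import Fermat.Agent.Pack.S43MC.G0E22L2
import Fermat.Agent.Pack.S43GC.G0E2L0
import Fermat.Agent.Pack.S43GC.G0E0L0
import Fermat.Agent.Pack.S59C.E6L2
import Fermat.Agent.Pack.S59C.E4L1
import Fermat.Agent.Pack.S59C.E6L3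
import Fermat.Agent.Pack.S43MC.G0E20L0
import Fermat.Agent.Pack.S43MC.G0E14L0
import Fermat.Agent.Pack.S43GC.G0E18L0
import Fermat.Agent.Pack.S43GC.G0E12L3
import Fermat.Agent.Pack.S44C.G0E19L1
import Fermat.Agent.Pack.S43GC.G0E14L1
import Fermat.Agent.Pack.S44C.G0E6L2
import Fermat.Agent.Pack.S43GC.G0E17L0
import Fermat.Agent.Pack.S59C.E2L3
import Fermat.Agent.Pack.S44C.G0E22L1
import Fermat.Agent.Pack.S44C.G0E18L2
import Fermat.Agent.Pack.S43GC.G0E4L1

set_option linter.all false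

-- ===== PACK-BEGIN S59/H427/Omega.lean
section



/-!
# S59 / N1 (helper427): the congruence module `Ω` of a module (Diamond, DDT "Criterion II")

`T` an augmented `𝒪`-algebra (`π : T → 𝒪`, `𝔭 = ker π`, `I = Ann 𝔭`, `η = π I`), `M` a
`T`-module which is finite free over the DVR `𝒪`.

* `augTorsion π M = M[𝔭]`, `annTorsion π M = M[I]` (as `𝒪`-submodules of `M`);
* `OmegaMod π M = M ⧸ (M[𝔭] ⊔ M[I])`;
* `card_omegaMod_le` : `#Ω ≤ #(𝒪/η)^d`, `d = rank_𝒪 M[𝔭]`;
* `augTorsion_le_range_of_card_omegaMod_eq` : in case of equality, `M[𝔭] = θ M` for a generator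
  `θ` of `I`.
-/

set_option autoImplicit false
set_option linter.unusedSectionVars false
set_option linter.unusedVariables false
set_option linter.style.haveILetI false

namespace Fermat.Agent.S59.H427

open IsLocalRing Fermat.Agent.S59.H67

section Defs

variable {𝒪 : Type*} [CommRing 𝒪] {T : Type*} [CommRing T] [Algebra 𝒪 T]
variable (π : T →ₐ[𝒪] 𝒪) (M : Type*) [AddCommGroup M] [Module 𝒪 M] [Module T M]
  [IsScalarTower 𝒪 T M]

/-- `M[𝔭]`: the elements of `M` killed by `𝔭 = ker π`. -/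
def augTorsion : Submodule 𝒪 M where
  carrier := {m | ∀ s : T, π s = 0 → s • m = 0}
  zero_mem' := fun s _ => smul_zero s
  add_mem' := fun {a b} ha hb s hs => by rw [smul_add, ha s hs, hb s hs, add_zero]
  smul_mem' := fun c m hm s hs => by rw [smul_comm, hm s hs, smul_zero]

/-- `M[I]`: the elements of `M` killed by `I = Ann (ker π)`. -/
def annTorsion : Submodule 𝒪 M where
  carrier := {m | ∀ s : T, (∀ r : T, π r = 0 → s * r = 0) → s • m = 0}
  zero_mem' := fun s _ => smul_zero s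
  add_mem' := fun {a b} ha hb s hs => by rw [smul_add, ha s hs, hb s hs, add_zero]
  smul_mem' := fun c m hm s hs => by rw [smul_comm, hm s hs, smul_zero]

variable {π M}

theorem mem_augTorsion {m : M} : m ∈ augTorsion π M ↔ ∀ s : T, π s = 0 → s • m = 0 := Iff.rfl

theorem mem_annTorsion {m : M} :
    m ∈ annTorsion π M ↔ ∀ s : T, (∀ r : T, π r = 0 → s * r = 0) → s • m = 0 := Iff.rfl

/-- On `M[𝔭]`, `T` acts through `π`. -/
theorem smul_eq_aug_smul_of_mem_augTorsion {m : M} (hm : m ∈ augTorsion π M) (s : T) :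
    s • m = π s • m := by
  have h1 : π (s - algebraMap 𝒪 T (π s)) = 0 := by
    rw [map_sub, AlgHom.commutes, sub_eq_zero]; rfl
  have h2 := hm _ h1
  rw [sub_smul, sub_eq_zero, algebraMap_smul] at h2
  exact h2

/-- `I M ⊆ M[𝔭]`. -/
theorem smul_mem_augTorsion {θ : T} (hθ : ∀ s, π s = 0 → θ * s = 0) (m : M) :
    θ • m ∈ augTorsion π M := by
  intro s hs
  rw [smul_smul, mul_comm, hθ s hs, zero_smul]

variable (π M)

/-- The congruence module `Ω = M ⧸ (M[𝔭] ⊔ M[I])`. -/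
abbrev OmegaMod : Type _ := M ⧸ (augTorsion π M ⊔ annTorsion π M)

end Defs

section Core

variable {𝒪 : Type*} [CommRing 𝒪] [IsDomain 𝒪] [IsDiscreteValuationRing 𝒪]
variable {T : Type*} [CommRing T] [Algebra 𝒪 T] [Module.Free 𝒪 T]
variable (π : T →ₐ[𝒪] 𝒪) (M : Type*) [AddCommGroup M] [Module 𝒪 M] [Module T M]
  [IsScalarTower 𝒪 T M] [Module.Free 𝒪 M] [Module.Finite 𝒪 M]

/-- If `η = (π θ) ≠ 0` with `θ ∈ I`, then `I = 𝒪 θ`. -/
theorem exists_smul_eq_of_mem_ann {θ : T} (hθ : ∀ s, π s = 0 → θ * s = 0) (hθ0 : π θ ≠ 0)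
    (hηθ : etaIdeal π = Ideal.span {π θ}) {s : T} (hs : ∀ r : T, π r = 0 → s * r = 0) :
    ∃ c : 𝒪, s = c • θ := by
  have hη : etaIdeal π ≠ ⊥ := by
    rw [hηθ]
    intro h
    rw [Ideal.span_singleton_eq_bot] at h
    exact hθ0 h
  have hsI : s ∈ (RingHom.ker π).annihilator := by
    rw [Submodule.mem_annihilator]
    intro r hr
    exact hs r (RingHom.mem_ker.mp hr)
  have hθI : θ ∈ (RingHom.ker π).annihilator := by
    rw [Submodule.mem_annihilator]
    intro r hr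
    exact hθ r (RingHom.mem_ker.mp hr)
  have h1 : π s ∈ etaIdeal π := Ideal.mem_map_of_mem _ hsI
  rw [hηθ, Ideal.mem_span_singleton'] at h1
  obtain ⟨c, hc⟩ := h1
  refine ⟨c, ?_⟩
  refine Fermat.Agent.S59.H360.eq_of_mem_annihilator_of_map_eq π hη hsI
    (Submodule.smul_of_tower_mem _ c hθI) ?_
  rw [map_smul, smul_eq_mul, hc]

/-- The comparison map `Θ : M → (𝒪/η)^d`, `m ↦ (coordinates of θ m in a basis of M[𝔭]) mod η`:
its kernel is `M[𝔭] ⊔ M[I]`, and if it is surjective then `M[𝔭] = θ M`. -/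
theorem exists_omega_map {θ : T} (hθ : ∀ s, π s = 0 → θ * s = 0) (hθ0 : π θ ≠ 0)
    (hηθ : etaIdeal π = Ideal.span {π θ}) :
    ∃ Θ : M →ₗ[𝒪] (Fin (Module.finrank 𝒪 (augTorsion π M)) → 𝒪 ⧸ Ideal.span {π θ}),
      LinearMap.ker Θ = augTorsion π M ⊔ annTorsion π M ∧
      (Function.Surjective Θ → ∀ n ∈ augTorsion π M, ∃ m : M, θ • m = n) := by
  classical
  set L : Submodule 𝒪 M := augTorsion π M with hL
  let b : Module.Basis (Fin (Module.finrank 𝒪 L)) 𝒪 L := Module.finBasis 𝒪 L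
  let θmul : M →ₗ[𝒪] L :=
    { toFun := fun m => ⟨θ • m, smul_mem_augTorsion hθ m⟩
      map_add' := fun m₁ m₂ => Subtype.ext (smul_add θ m₁ m₂)
      map_smul' := fun c m => Subtype.ext (smul_comm θ c m) }
  have hθmul : ∀ m, ((θmul m : L) : M) = θ • m := fun m => rfl
  let Ψ : L →ₗ[𝒪] (Fin (Module.finrank 𝒪 L) → 𝒪 ⧸ Ideal.span {π θ}) :=
    LinearMap.pi fun i => (Submodule.mkQ (Ideal.span {π θ})).comp (b.coord i)
  have hΨ : ∀ n i, Ψ n i = Submodule.Quotient.mk (b.repr n i) := fun n i => rfl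
  -- kernel of `Ψ`
  have hΨker : ∀ n : L, Ψ n = 0 ↔ ∃ n₁ : L, n = π θ • n₁ := by
    intro n
    constructor
    · intro h
      have h1 : ∀ i, ∃ c : 𝒪, b.repr n i = π θ * c := by
        intro i
        have h2 := congrFun h i
        rw [hΨ, Pi.zero_apply, Submodule.Quotient.mk_eq_zero] at h2
        obtain ⟨c, hc⟩ := Ideal.mem_span_singleton'.mp h2
        exact ⟨c, by rw [← hc, mul_comm]⟩
      choose c hc using h1
      refine ⟨∑ i, c i • b i, ?_⟩
      conv_lhs => rw [← b.sum_repr n]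
      rw [Finset.smul_sum]
      refine Finset.sum_congr rfl fun i _ => ?_
      rw [hc i, mul_smul]
    · rintro ⟨n₁, rfl⟩
      funext i
      rw [hΨ, Pi.zero_apply, Submodule.Quotient.mk_eq_zero, map_smul, Finsupp.smul_apply,
        smul_eq_mul]
      exact Ideal.mul_mem_right _ _ (Ideal.subset_span rfl)
  have hθL : ∀ n : L, θ • (n : M) = π θ • (n : M) := fun n =>
    smul_eq_aug_smul_of_mem_augTorsion n.2 θ
  refine ⟨Ψ.comp θmul, ?_, ?_⟩
  · ext m
    rw [LinearMap.mem_ker, LinearMap.comp_apply, hΨker, Submodule.mem_sup]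
    constructor
    · rintro ⟨n₁, hn₁⟩
      have h1 : θ • m = θ • (n₁ : M) := by
        rw [hθL, ← hθmul, hn₁]
        rfl
      refine ⟨n₁, n₁.2, m - n₁, ?_, by abel⟩
      intro s hs
      obtain ⟨c, rfl⟩ := exists_smul_eq_of_mem_ann π hθ hθ0 hηθ hs
      rw [smul_assoc, smul_sub, h1, sub_self, smul_zero]
    · rintro ⟨n, hn, n', hn', rfl⟩
      refine ⟨⟨n, hn⟩, Subtype.ext ?_⟩
      rw [hθmul, smul_add, hn' θ hθ, add_zero, hθL ⟨n, hn⟩]
      rfl
  · intro hsurj n hn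
    obtain ⟨m, hm⟩ := hsurj (Ψ ⟨n, hn⟩)
    have h1 : Ψ (θmul m - ⟨n, hn⟩) = 0 := by
      rw [map_sub, sub_eq_zero]
      exact hm
    obtain ⟨n₁, hn₁⟩ := (hΨker _).mp h1
    refine ⟨m - n₁, ?_⟩
    have h2 := congrArg (fun z : L => (z : M)) hn₁
    simp only [Submodule.coe_sub, Submodule.coe_smul, hθmul] at h2
    rw [smul_sub, hθL n₁, ← h2]
    abel

end Core

section Card

variable {𝒪 : Type*} [CommRing 𝒪] [IsDomain 𝒪] [IsDiscreteValuationRing 𝒪]
  [Finite (ResidueField 𝒪)]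
variable {T : Type*} [CommRing T] [Algebra 𝒪 T] [Module.Free 𝒪 T]
variable (π : T →ₐ[𝒪] 𝒪) (M : Type*) [AddCommGroup M] [Module 𝒪 M] [Module T M]
  [IsScalarTower 𝒪 T M] [Module.Free 𝒪 M] [Module.Finite 𝒪 M]

/-- **`#Ω ≤ #(𝒪/η)^d`**, and in case of equality `M[𝔭] = θ M`. -/
theorem card_omegaMod_le_aux {θ : T} (hθ : ∀ s, π s = 0 → θ * s = 0) (hθ0 : π θ ≠ 0)
    (hηθ : etaIdeal π = Ideal.span {π θ}) :
    Finite (OmegaMod π M) ∧
    Nat.card (OmegaMod π M) ≤
      Nat.card (𝒪 ⧸ etaIdeal π) ^ Module.finrank 𝒪 (augTorsion π M) ∧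
    (Nat.card (OmegaMod π M) =
      Nat.card (𝒪 ⧸ etaIdeal π) ^ Module.finrank 𝒪 (augTorsion π M) →
      ∀ n ∈ augTorsion π M, ∃ m : M, θ • m = n) := by
  classical
  obtain ⟨Θ, hker, hsurj⟩ := exists_omega_map π M hθ hθ0 hηθ
  haveI hfin : Finite (𝒪 ⧸ Ideal.span {π θ}) := finite_quotient_span_singleton_of_ne_zero hθ0
  have hcardtarget : Nat.card (Fin (Module.finrank 𝒪 (augTorsion π M)) → 𝒪 ⧸ Ideal.span {π θ}) =
      Nat.card (𝒪 ⧸ etaIdeal π) ^ Module.finrank 𝒪 (augTorsion π M) := by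
    rw [Nat.card_fun, Nat.card_fin, hηθ]
  let ι : OmegaMod π M →ₗ[𝒪] (Fin (Module.finrank 𝒪 (augTorsion π M)) → 𝒪 ⧸ Ideal.span {π θ}) :=
    (augTorsion π M ⊔ annTorsion π M).liftQ Θ hker.ge
  have hι : Function.Injective ι := by
    rw [← LinearMap.ker_eq_bot]
    exact Submodule.ker_liftQ_eq_bot _ _ _ hker.le
  have hfinΩ : Finite (OmegaMod π M) := Finite.of_injective ι hι
  refine ⟨hfinΩ, ?_, ?_⟩
  · rw [← hcardtarget]
    exact Nat.card_le_card_of_injective ι hι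
  · intro hcard
    apply hsurj
    have hbij : Function.Bijective ι :=
      (Nat.bijective_iff_injective_and_card ι).mpr ⟨hι, by rw [hcard, hcardtarget]⟩
    intro y
    obtain ⟨ω, hω⟩ := hbij.2 y
    obtain ⟨m, rfl⟩ := Submodule.Quotient.mk_surjective _ ω
    exact ⟨m, hω⟩

end Card

end Fermat.Agent.S59.H427

end
-- ===== PACK-END S59/H427/Omega.lean

-- ===== PACK-BEGIN S59/H427/DiamondFree.lean
section


/-!
# S59 / N1 (helper427): freeness of the module in "Criterion II"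

* `bijective_of_injective_mod` : a linear map between finite free modules over a local ring with
  principal maximal ideal `(ϖ)` which is injective modulo `ϖ`, with `rank Y ≤ rank X`, is bijective.
* `exists_linearEquiv_of_socle` : `T` finite free local over the DVR `𝒪` with augmentation `π`,
  `θ ∈ Ann (ker π)` spanning the socle of `T/ϖT` (Gorenstein), `M` a `T`-module finite free over
  `𝒪` with `M[𝔭] = θ M` and `rank_𝒪 M ≤ d · rank_𝒪 T`, `d = rank_𝒪 M[𝔭]`.  Then `M ≅ T^d`.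
-/

set_option autoImplicit false
set_option linter.unusedSectionVars false
set_option linter.unusedVariables false
set_option linter.style.haveILetI false

namespace Fermat.Agent.S59.H427

open IsLocalRing TensorProduct Fermat.Agent.S59.H67

section LemA

variable {𝒪 : Type*} [CommRing 𝒪] [IsLocalRing 𝒪]

theorem one_tmul_eq_zero_iff {ϖ : 𝒪} (hmax : maximalIdeal 𝒪 = Ideal.span {ϖ})
    (Z : Type*) [AddCommGroup Z] [Module 𝒪 Z] (z : Z) :
    (1 : ResidueField 𝒪) ⊗ₜ[𝒪] z = 0 ↔ ∃ z' : Z, z = ϖ • z' := by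
  have h1 : (1 : ResidueField 𝒪) ⊗ₜ[𝒪] z = 0 ↔
      z ∈ LinearMap.ker (TensorProduct.mk 𝒪 (𝒪 ⧸ maximalIdeal 𝒪) Z 1) := Iff.rfl
  rw [h1, LinearMap.ker_tensorProductMk, hmax, Submodule.ideal_span_singleton_smul,
    Submodule.mem_smul_pointwise_iff_exists]
  constructor
  · rintro ⟨z', -, hz'⟩
    exact ⟨z', hz'.symm⟩
  · rintro ⟨z', rfl⟩
    exact ⟨z', Submodule.mem_top, rfl⟩

variable {X Y : Type*} [AddCommGroup X] [Module 𝒪 X] [Module.Free 𝒪 X] [Module.Finite 𝒪 X]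
  [AddCommGroup Y] [Module 𝒪 Y] [Module.Free 𝒪 Y] [Module.Finite 𝒪 Y]

/-- A linear map of finite free modules over a local ring with maximal ideal `(ϖ)` which is
injective modulo `ϖ`, with `rank Y ≤ rank X`, is bijective. -/
theorem bijective_of_injective_mod {ϖ : 𝒪} (hmax : maximalIdeal 𝒪 = Ideal.span {ϖ})
    (φ : X →ₗ[𝒪] Y) (hφ : ∀ x : X, (∃ y : Y, φ x = ϖ • y) → ∃ x' : X, x = ϖ • x')
    (hrank : Module.finrank 𝒪 Y ≤ Module.finrank 𝒪 X) : Function.Bijective φ := by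
  have hinj : Function.Injective (φ.lTensor (ResidueField 𝒪)) := by
    rw [← LinearMap.ker_eq_bot, LinearMap.ker_eq_bot']
    intro ξ hξ
    obtain ⟨x, rfl⟩ := TensorProduct.mk_surjective 𝒪 X (ResidueField 𝒪)
      Ideal.Quotient.mk_surjective ξ
    rw [TensorProduct.mk_apply, LinearMap.lTensor_tmul] at hξ
    rw [TensorProduct.mk_apply]
    exact (one_tmul_eq_zero_iff hmax X x).mpr (hφ x ((one_tmul_eq_zero_iff hmax Y (φ x)).mp hξ))
  obtain ⟨l', hl'⟩ := (IsLocalRing.split_injective_iff_lTensor_residueField_injective φ).mpr hinj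
  have hφinj : Function.Injective φ :=
    Function.HasLeftInverse.injective ⟨l', LinearMap.congr_fun hl'⟩
  refine ⟨hφinj, ?_⟩
  have hinj' : Function.Injective (φ.baseChange (ResidueField 𝒪)) := by
    rw [LinearMap.baseChange_eq_ltensor]; exact hinj
  have hfr : Module.finrank (ResidueField 𝒪) (ResidueField 𝒪 ⊗[𝒪] X) =
      Module.finrank (ResidueField 𝒪) (ResidueField 𝒪 ⊗[𝒪] Y) := by
    apply le_antisymm (LinearMap.finrank_le_finrank_of_injective hinj')
    rw [Module.finrank_baseChange, Module.finrank_baseChange]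
    exact hrank
  have hsurj' : Function.Surjective (φ.baseChange (ResidueField 𝒪)) :=
    (LinearMap.injective_iff_surjective_of_finrank_eq_finrank hfr).mp hinj'
  rw [← LinearMap.range_eq_top, ← IsLocalRing.map_tensorProduct_mk_eq_top, eq_top_iff]
  intro ζ _
  obtain ⟨ξ, rfl⟩ := hsurj' ζ
  obtain ⟨x, rfl⟩ := TensorProduct.mk_surjective 𝒪 X (ResidueField 𝒪)
    Ideal.Quotient.mk_surjective ξ
  rw [TensorProduct.mk_apply, LinearMap.baseChange_tmul]
  exact ⟨φ x, ⟨x, rfl⟩, rfl⟩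

end LemA

section Free

variable {𝒪 : Type*} [CommRing 𝒪] [IsDomain 𝒪] [IsDiscreteValuationRing 𝒪]
variable {T : Type*} [CommRing T] [IsLocalRing T] [Algebra 𝒪 T] [Module.Free 𝒪 T]
  [Module.Finite 𝒪 T]
variable (π : T →ₐ[𝒪] 𝒪) (M : Type*) [AddCommGroup M] [Module 𝒪 M] [Module T M]
  [IsScalarTower 𝒪 T M] [Module.Free 𝒪 M] [Module.Finite 𝒪 M]

/-- **Freeness.**  If `θ` spans the socle of `T/ϖT`, `M[𝔭] = θ M` and
`rank_𝒪 M ≤ d · rank_𝒪 T` with `d = rank_𝒪 M[𝔭]`, then `M` is free of rank `d` over `T`. -/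
theorem exists_bijective_linearCombination_of_socle {ϖ : 𝒪} (hϖ : Irreducible ϖ) {θ : T}
    (hθ : ∀ s, π s = 0 → θ * s = 0)
    (hsoc : ∀ t : T, (∀ s, π s = 0 → ∃ t', s * t = ϖ • t') →
      ∃ (c : 𝒪) (t' : T), t = c • θ + ϖ • t')
    (hLθ : ∀ n ∈ augTorsion π M, ∃ m : M, θ • m = n)
    (hrank : Module.finrank 𝒪 M ≤ Module.finrank 𝒪 (augTorsion π M) * Module.finrank 𝒪 T) :
    ∃ m : Fin (Module.finrank 𝒪 (augTorsion π M)) → M,
      Function.Bijective (Fintype.linearCombination T m) := by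
  classical
  have hmax : maximalIdeal 𝒪 = Ideal.span {ϖ} :=
    (IsDiscreteValuationRing.irreducible_iff_uniformizer ϖ).mp hϖ
  have hϖ0 : ϖ ≠ 0 := hϖ.ne_zero
  set L : Submodule 𝒪 M := augTorsion π M with hL
  set d := Module.finrank 𝒪 L with hd
  let b : Module.Basis (Fin d) 𝒪 L := Module.finBasis 𝒪 L
  choose m hm using fun i => hLθ (b i : M) (b i).2
  refine ⟨m, ?_⟩
  set φT : (Fin d → T) →ₗ[T] M := Fintype.linearCombination T m with hφT
  have hφTapp : ∀ t, φT t = ∑ i, t i • m i := fun t => Fintype.linearCombination_apply T m t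
  let φ : (Fin d → T) →ₗ[𝒪] M := φT.restrictScalars 𝒪
  have hφapp : ∀ t, φ t = ∑ i, t i • m i := hφTapp
  have hkerπ : RingHom.ker π ≤ maximalIdeal T :=
    IsLocalRing.le_maximalIdeal (RingHom.ker_ne_top _)
  -- the induction on the nilpotency order
  have hP : ∀ k : ℕ, ∀ t : Fin d → T, (∃ y : M, φ t = ϖ • y) →
      (∀ s ∈ maximalIdeal T ^ k, ∃ t' : Fin d → T, s • t = ϖ • t') →
      ∃ t' : Fin d → T, t = ϖ • t' := by
    intro k
    induction k with
    | zero =>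
      intro t _ h
      obtain ⟨t', ht'⟩ := h 1 (by rw [pow_zero, Ideal.one_eq_top]; exact Submodule.mem_top)
      exact ⟨t', by rw [← ht', one_smul]⟩
    | succ k ih =>
      intro t hy h
      obtain ⟨y, hy⟩ := hy
      -- Step 1
      have h1 : ∀ r ∈ maximalIdeal T, ∃ t' : Fin d → T, r • t = ϖ • t' := by
        intro r hr
        refine ih (r • t) ⟨r • y, ?_⟩ ?_
        · have : φ (r • t) = r • φ t := map_smul φT r t
          rw [this, hy, smul_comm]
        · intro s hs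
          have hsr : s * r ∈ maximalIdeal T ^ (k + 1) := by
            rw [pow_succ]
            exact Ideal.mul_mem_mul hs hr
          obtain ⟨t', ht'⟩ := h (s * r) hsr
          exact ⟨t', by rw [smul_smul, ht']⟩
      -- Step 2
      have h2 : ∀ i, ∃ (c : 𝒪) (u : T), t i = c • θ + ϖ • u := by
        intro i
        apply hsoc
        intro s hs
        obtain ⟨t', ht'⟩ := h1 s (hkerπ (RingHom.mem_ker.mpr hs))
        refine ⟨t' i, ?_⟩
        have := congrFun ht' i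
        simpa using this
      choose c u hcu using h2
      -- Step 3
      have h3 : ∑ i, c i • (b i : M) = ϖ • (y - φ u) := by
        rw [smul_sub, ← hy, hφapp, hφapp, Finset.smul_sum, ← Finset.sum_sub_distrib]
        refine Finset.sum_congr rfl fun i _ => ?_
        rw [hcu i, add_smul, smul_assoc, hm i, smul_assoc]
        abel
      -- Step 4
      have h4 : y - φ u ∈ L := by
        intro s hs
        have h5 : ϖ • (s • (y - φ u)) = 0 := by
          rw [smul_comm, ← h3]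
          have h6 : ∑ i, c i • (b i : M) ∈ L :=
            Submodule.sum_mem _ fun i _ => Submodule.smul_mem _ _ (b i).2
          exact h6 s hs
        exact (smul_eq_zero.mp h5).resolve_left hϖ0
      -- Step 5
      have h5 : ∀ i, c i = ϖ * b.repr ⟨y - φ u, h4⟩ i := by
        intro i
        have h6 : (∑ j, c j • b j : L) = ϖ • (⟨y - φ u, h4⟩ : L) := by
          apply Subtype.ext
          rw [Submodule.coe_sum, Submodule.coe_smul]
          exact h3
        have h7 := congrArg (fun z => b.repr z i) h6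
        simp only [Module.Basis.repr_sum_self, map_smul, Finsupp.smul_apply, smul_eq_mul] at h7
        exact h7
      refine ⟨fun i => b.repr ⟨y - φ u, h4⟩ i • θ + u i, ?_⟩
      funext i
      rw [Pi.smul_apply, hcu i, h5 i, smul_add, mul_smul]
  -- nilpotency
  obtain ⟨a, ha⟩ := exists_maximalIdeal_pow_le_map (O := 𝒪) (T := T)
  have hmod : ∀ t : Fin d → T, (∃ y : M, φ t = ϖ • y) → ∃ t' : Fin d → T, t = ϖ • t' := by
    intro t hy
    refine hP a t hy ?_
    intro s hs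
    have h1 := ha hs
    rw [hmax, Ideal.map_span, Set.image_singleton, Ideal.mem_span_singleton'] at h1
    obtain ⟨s', hs'⟩ := h1
    refine ⟨s' • t, ?_⟩
    rw [← hs', mul_smul, algebraMap_smul, smul_comm]
  have hrank' : Module.finrank 𝒪 M ≤ Module.finrank 𝒪 (Fin d → T) := by
    rw [Module.finrank_pi_fintype, Finset.sum_const, Finset.card_univ, Fintype.card_fin,
      smul_eq_mul]
    exact hrank
  exact bijective_of_injective_mod hmax φ hmod hrank'

end Free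

end Fermat.Agent.S59.H427

end
-- ===== PACK-END S59/H427/DiamondFree.lean

-- ===== PACK-BEGIN S59/H161/Ihara2/CaseA.lean
section






/-!
# S59 / cell NM / leaf IHARA2 (helper161): the case `q ≢ -1 mod p` (two Borels)

`u, v` characters of `Γ₀(N q)` with `r₁' u + r₂' v = 0` on `Γ₀(N q²)`, `q + 1` invertible in `k`,
`v` an eigenvector of `T_l` with eigenvalue `a ≠ l + 1` for ONE prime `l ≡ 1 mod q`, `l ∤ N q`.
Then `v = r₁ w` with `w = (q + 1)⁻¹ t₁ v` (`exists_r₁_add_eq_zero`):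

* `ε = v - r₁ w` vanishes on `Γ₀(N q) ∩ Γ(q)` (`Borel.lean`), so `T_l ε = (l + 1) ε` (block EIS of
  row S41);
* `w` is an eigenvector of `T_l` with eigenvalue `a` (`T_l` commutes with `t₁`), so
  `T_l ε = a ε`, and `ε = 0`.

`ihara2_caseA` : IHARA2 when `q + 1 ≠ 0` in `k`.
-/

set_option autoImplicit false

namespace Fermat.Agent.S59.H161

open CongruenceSubgroup Matrix.SpecialLinearGroup
open Fermat.Agent.S29.H642 Fermat.Agent.S41.Spec Fermat.Agent.S41.H161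
open Fermat.Agent.S59.NM
open scoped MatrixGroups

variable {k : Type} [Field k] {N q : ℕ}

/-- The core of the two-Borel argument. -/
theorem exists_r₁_add_eq_zero (hN : N ≠ 0) (hq : q.Prime) (hqN : ¬ q ∣ N)
    (hq1 : (q : k) + 1 ≠ 0) {l : ℕ} [Fact l.Prime] (hl : ¬ l ∣ N) (hl' : ¬ l ∣ N * q)
    (hlq : l ≡ 1 [MOD q]) (a : k) (ha : a ≠ (l : k) + 1)
    (u v : Additive (Gamma0 (N * q)) →+ k) (hR : r₁ (N * q) q u + r₂ (N * q) q v = 0)
    (hv : heckeTransfer hl' v = a • v) :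
    ∃ w : Additive (Gamma0 N) →+ k, r₁ N q w + v = 0 := by
  set c : k := -((q : k) + 1)⁻¹ with hc
  set w : Additive (Gamma0 N) →+ k := c • t₁ N q v with hw
  refine ⟨w, ?_⟩
  set ε : Additive (Gamma0 (N * q)) →+ k := r₁ N q w + v with hε
  -- ε vanishes on Γ₀(N q) ∩ Γ(q)
  have hε0 : ∀ γ : Gamma0 (N * q), (γ : SL(2, ℤ)) ∈ Gamma q → ε (Additive.ofMul γ) = 0 := by
    intro γ hγ
    have h1 := t₁_apply_of_mem_Gamma hN hq hqN u v hR γ hγ
    have h2 : ε (Additive.ofMul γ) =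
        c * t₁ N q v (Additive.ofMul (incl N q γ)) + v (Additive.ofMul γ) := rfl
    rw [h2, h1, hc, nsmul_eq_mul]
    push_cast
    field_simp
    ring
  -- Eisenstein
  have hE : heckeTransfer hl' ε = (l + 1) • ε :=
    Fermat.Agent.S41.H281.heckeTransfer_eq_of_vanish_modEq hl' q hlq ε hε0
  -- eigen
  have hN' : N * q ≠ 0 := Nat.mul_ne_zero hN hq.ne_zero
  have hw' : heckeTransfer hl w = a • w := by
    rw [hw, hecke_smul',
      (Fermat.Agent.S41.H281.hkStatement.{0}.2.2.2.2.2.1 N q l hl hl' hN' k v).1, hv,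
      t₁_smul', smul_comm]
  have ha' : heckeTransfer hl' ε = a • ε := by
    rw [hε, heckeTransfer_add, Fermat.Agent.S41.H281.heckeTransfer_r₁ hl hl', hw', hv,
      r₁_smul', smul_add]
  have h3 : (a - ((l : k) + 1)) • ε = 0 := by
    rw [sub_smul, ← ha', hE]
    have : ((l : k) + 1) • ε = (l + 1) • ε := by
      have := natCast_smul_hom (k := k) (l + 1) ε
      rw [← this]
      push_cast
      rfl
    rw [this, sub_self]
  rcases smul_eq_zero.mp h3 with h | h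
  · exact absurd (sub_eq_zero.mp h) ha
  · exact h

variable {p : ℕ} [CharP k p]

/-- **IHARA2, case `q ≢ -1 mod p`.** -/
theorem ihara2_caseA (hp : p.Prime) (hp2 : p ≠ 2) (hN : N ≠ 0) (hq : q.Prime) (hqN : ¬ q ∣ N)
    (hqp : q ≠ p) (hq1 : (q : k) + 1 ≠ 0) {S : Finset ℕ} {a : ℕ → k}
    (hNE : NEPrimeLocal p S a q) (hHK2 : HK2Statement)
    {z₁ z₂ z₃ : Additive (Gamma0 N) →+ k} (h₁ : IsEigenclass N (insert q S) a z₁)
    (h₂ : IsEigenclass N (insert q S) a z₂) (h₃ : IsEigenclass N (insert q S) a z₃)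
    (hP : P₁ N q z₁ + P₂ N q z₂ + P₃ N q z₃ = 0) : z₁ = 0 ∧ z₂ = 0 ∧ z₃ = 0 := by
  haveI : Fact q.Prime := ⟨hq⟩
  haveI : Fact p.Prime := ⟨hp⟩
  -- a non-Eisenstein prime `l ≡ 1 mod q`
  obtain ⟨l, hl, hlS, hlS', hlm, -, hnE, -⟩ := hNE q hq.pos (insert q N.primeFactors)
  haveI hlF : Fact l.Prime := ⟨hl⟩
  have hlq : l ≠ q := by
    rintro rfl
    exact hlS' (Finset.mem_insert_self _ _)
  have hlN : ¬ l ∣ N := by
    intro h
    exact hlS' (Finset.mem_insert_of_mem (Nat.mem_primeFactors.mpr ⟨hl, h, hN⟩))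
  have hlNq : ¬ l ∣ N * q := by
    intro h
    rcases (Nat.Prime.dvd_mul hl).mp h with h | h
    · exact hlN h
    · exact hlq ((Nat.prime_dvd_prime_iff_eq hl hq).mp h)
  have hlqS : l ∉ insert q S := by
    intro h
    rcases Finset.mem_insert.mp h with h | h
    · exact hlq h
    · exact hlS h
  -- the relation at level `N q`
  set u : Additive (Gamma0 (N * q)) →+ k := r₁ N q z₁ + r₂ N q z₂ with hu
  set v : Additive (Gamma0 (N * q)) →+ k := r₂ N q z₃ with hv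
  have hR : r₁ (N * q) q u + r₂ (N * q) q v = 0 := hP
  have hvE : heckeTransfer hlNq v = a l • v := by
    rw [hv, Fermat.Agent.S41.H281.heckeTransfer_r₂ hlN hlNq, h₃.2 l hlN hlqS, r₂_smul']
  obtain ⟨w, hw⟩ := exists_r₁_add_eq_zero hN hq hqN hq1 hlN hlNq hlm (a l) hnE u v hR hvE
  have hz₃ : z₃ = 0 := eq_zero_of_ker' hp hp2 hN hq hqN hNE h₃ hw
  -- `r₁' u = 0`, hence `u = 0`
  have hv0 : v = 0 := by rw [hv, hz₃]; rfl
  have hu0 : r₁ (N * q) q u = 0 := by
    rw [hv0] at hR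
    have : r₂ (N * q) q (0 : Additive (Gamma0 (N * q)) →+ k) = 0 := rfl
    rwa [this, add_zero] at hR
  have hqu : q • u = 0 := by
    have h := ((hHK2 N q hqN hN k).2 u).1
    rw [hu0, t₁_zero'] at h
    exact h.symm
  have hqk : (q : k) ≠ 0 := by
    intro h
    have h1 : p ∣ q := (CharP.cast_eq_zero_iff k p q).mp h
    exact hqp ((Nat.prime_dvd_prime_iff_eq hp hq).mp h1).symm
  have hu00 : u = 0 := by
    rw [← natCast_smul_hom] at hqu
    rcases smul_eq_zero.mp hqu with h | h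
    · exact absurd h hqk
    · exact h
  exact ⟨eq_zero_of_ker hp hp2 hN hq hqN hNE h₁ hu00,
    eq_zero_of_ker' hp hp2 hN hq hqN hNE h₂ hu00, hz₃⟩

end Fermat.Agent.S59.H161

end
-- ===== PACK-END S59/H161/Ihara2/CaseA.lean

-- ===== PACK-BEGIN S59/H161/Ihara2/CaseB.lean
section




/-!
# S59 / cell NM / leaf IHARA2 (helper161): the case `q ≡ -1 mod p` (transfers and relation (T))

Apply `t₁'`, `t₂'` to `P₁ z₁ + P₂ z₂ + P₃ z₃ = 0` (HK2):

    r₁ (q z₁ - z₃) + r₂ (q z₂ + T_q z₃) = 0,      r₁ (T_q z₁ + q z₂) + r₂ (q z₃ - z₁) = 0,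

so by stage 1 all four components vanish.  With `q = -1` in `k`: `z₃ = -z₁`, `T_q z₁ = 0`,
`z₂ = 0`, and the relation reads `P₁ z₁ = P₃ z₁`, i.e. relation (T) for `z₁`; hence `z₁ = 0` by
`eq_zero_of_PP`.
-/

set_option autoImplicit false

namespace Fermat.Agent.S59.H161

open CongruenceSubgroup Matrix.SpecialLinearGroup
open Fermat.Agent.S29.H642 Fermat.Agent.S41.Spec Fermat.Agent.S41.H161
open Fermat.Agent.S59.NM
open scoped MatrixGroups

variable {k : Type} [Field k] {N q : ℕ} {p : ℕ} [CharP k p]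

/-- The four relations obtained from the transfers (any `q ≠ p`). -/
theorem transfer_relations (hp : p.Prime) (hp2 : p ≠ 2) (hN : N ≠ 0) (hq : q.Prime)
    (hqN : ¬ q ∣ N) {S : Finset ℕ} {a : ℕ → k}
    (hNE : NEPrimeLocal p S a q) (hHK2 : HK2Statement)
    {z₁ z₂ z₃ : Additive (Gamma0 N) →+ k} (h₁ : IsEigenclass N (insert q S) a z₁)
    (h₂ : IsEigenclass N (insert q S) a z₂) (h₃ : IsEigenclass N (insert q S) a z₃)
    (hP : P₁ N q z₁ + P₂ N q z₂ + P₃ N q z₃ = 0) :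
    haveI : Fact q.Prime := ⟨hq⟩
    (q : k) • z₁ - z₃ = 0 ∧ (q : k) • z₂ + heckeTransfer hqN z₃ = 0 ∧
      heckeTransfer hqN z₁ + (q : k) • z₂ = 0 ∧ (q : k) • z₃ - z₁ = 0 := by
  haveI : Fact q.Prime := ⟨hq⟩
  obtain ⟨hA, hB⟩ := hHK2 N q hqN hN k
  -- apply `t₁'`
  have e1 : r₁ N q ((q : k) • z₁ - z₃) + r₂ N q ((q : k) • z₂ + heckeTransfer hqN z₃) = 0 := by
    have h := congrArg (t₁ (N * q) q) hP
    rw [t₁_zero', t₁_add', t₁_add'] at h
    have a1 : t₁ (N * q) q (P₁ N q z₁) = (q : k) • r₁ N q z₁ := by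
      rw [natCast_smul_hom]; exact (hB (r₁ N q z₁)).1
    have a2 : t₁ (N * q) q (P₂ N q z₂) = (q : k) • r₂ N q z₂ := by
      rw [natCast_smul_hom]; exact (hB (r₂ N q z₂)).1
    have a3 : t₁ (N * q) q (P₃ N q z₃) = r₂ N q (heckeTransfer hqN z₃) - r₁ N q z₃ :=
      (hA z₃).2.1
    rw [a1, a2, a3] at h
    rw [r₁_sub', r₂_add', r₁_smul', r₂_smul']
    rw [← h]
    abel
  -- apply `t₂'`
  have e2 : r₁ N q (heckeTransfer hqN z₁ + (q : k) • z₂) + r₂ N q ((q : k) • z₃ - z₁) = 0 := by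
    have h := congrArg (t₂ (N * q) q) hP
    rw [t₂_zero', t₂_add', t₂_add'] at h
    have a1 : t₂ (N * q) q (P₁ N q z₁) = r₁ N q (heckeTransfer hqN z₁) - r₂ N q z₁ :=
      (hA z₁).2.2
    have a2 : t₂ (N * q) q (P₂ N q z₂) = (q : k) • r₁ N q z₂ := by
      rw [natCast_smul_hom]
      have : P₂ N q z₂ = r₂ (N * q) q (r₁ N q z₂) := ((hA z₂).1).symm
      rw [this]
      exact (hB (r₁ N q z₂)).2
    have a3 : t₂ (N * q) q (P₃ N q z₃) = (q : k) • r₂ N q z₃ := by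
      rw [natCast_smul_hom]; exact (hB (r₂ N q z₃)).2
    rw [a1, a2, a3] at h
    rw [r₁_add', r₂_sub', r₁_smul', r₂_smul']
    rw [← h]
    abel
  have hTz₁ := isEigenclass_hecke' hqN h₁
  have hTz₃ := isEigenclass_hecke' hqN h₃
  have f1 : (q : k) • z₁ - z₃ = 0 :=
    eq_zero_of_ker hp hp2 hN hq hqN hNE (isEigenclass_sub' (isEigenclass_smul' _ h₁) h₃) e1
  have f2 : (q : k) • z₂ + heckeTransfer hqN z₃ = 0 :=
    eq_zero_of_ker' hp hp2 hN hq hqN hNE (isEigenclass_add' (isEigenclass_smul' _ h₂) hTz₃) e1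
  have f3 : heckeTransfer hqN z₁ + (q : k) • z₂ = 0 :=
    eq_zero_of_ker hp hp2 hN hq hqN hNE (isEigenclass_add' hTz₁ (isEigenclass_smul' _ h₂)) e2
  have f4 : (q : k) • z₃ - z₁ = 0 :=
    eq_zero_of_ker' hp hp2 hN hq hqN hNE (isEigenclass_sub' (isEigenclass_smul' _ h₃) h₁) e2
  exact ⟨f1, f2, f3, f4⟩

/-- **IHARA2, case `q ≡ -1 mod p`.** -/
theorem ihara2_caseB (hp : p.Prime) (hp2 : p ≠ 2) (hN : N ≠ 0) (hq : q.Prime) (hqN : ¬ q ∣ N)
    (hq1 : (q : k) + 1 = 0) {S : Finset ℕ} {a : ℕ → k}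
    (hNE : NEPrimeLocal p S a q) (hHK2 : HK2Statement)
    {z₁ z₂ z₃ : Additive (Gamma0 N) →+ k} (h₁ : IsEigenclass N (insert q S) a z₁)
    (h₂ : IsEigenclass N (insert q S) a z₂) (h₃ : IsEigenclass N (insert q S) a z₃)
    (hP : P₁ N q z₁ + P₂ N q z₂ + P₃ N q z₃ = 0) : z₁ = 0 ∧ z₂ = 0 ∧ z₃ = 0 := by
  haveI : Fact q.Prime := ⟨hq⟩
  obtain ⟨f1, f2, f3, -⟩ := transfer_relations hp hp2 hN hq hqN hNE hHK2 h₁ h₂ h₃ hP
  have hqk : (q : k) = -1 := eq_neg_of_add_eq_zero_left hq1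
  have h2 : (2 : k) ≠ 0 := by
    intro h
    have h' : ((2 : ℕ) : k) = 0 := by exact_mod_cast h
    have h1 : p ∣ 2 := (CharP.cast_eq_zero_iff k p 2).mp h'
    exact hp2 ((Nat.prime_dvd_prime_iff_eq hp Nat.prime_two).mp h1)
  rw [hqk] at f1 f2 f3
  -- z₃ = -z₁
  have hz₃ : z₃ = -z₁ := by
    rw [neg_one_smul] at f1
    exact (sub_eq_zero.mp f1).symm
  -- T_q z₁ = z₂ = -T_q z₁ ... so T_q z₁ = 0
  have g2 : heckeTransfer hqN z₃ = z₂ := by
    rw [neg_one_smul] at f2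
    exact (eq_of_sub_eq_zero (by rw [sub_eq_add_neg, add_comm]; exact f2))
  have g3 : heckeTransfer hqN z₁ = z₂ := by
    rw [neg_one_smul] at f3
    exact eq_of_sub_eq_zero (by rw [sub_eq_add_neg]; exact f3)
  have g4 : z₂ = 0 := by
    have e : z₂ = -z₂ := by
      conv_lhs => rw [← g2, hz₃, hecke_neg', g3]
    have e2 : (2 : k) • z₂ = 0 := by
      rw [two_smul]
      nth_rewrite 1 [e]
      exact neg_add_cancel z₂
    rcases smul_eq_zero.mp e2 with h | h
    · exact absurd h h2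
    · exact h
  -- relation (T) for z₁
  have hPP : P₁ N q z₁ = P₃ N q z₁ := by
    rw [g4, hz₃] at hP
    have e0 : P₂ N q (0 : Additive (Gamma0 N) →+ k) = 0 := rfl
    have e1 : P₃ N q (-z₁) = -P₃ N q z₁ := rfl
    rw [e0, e1, add_zero] at hP
    exact eq_of_sub_eq_zero (by rw [sub_eq_add_neg]; exact hP)
  have hz₁ : z₁ = 0 := eq_zero_of_PP hp hp2 hN hq hqN hNE h₁ hPP
  exact ⟨hz₁, g4, by rw [hz₃, hz₁, neg_zero]⟩

end Fermat.Agent.S59.H161

end
-- ===== PACK-END S59/H161/Ihara2/CaseB.lean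

-- ===== PACK-BEGIN S59/H161/Ihara2/Main.lean
section





/-!
# S59 / cell NM / leaf IHARA2 (helper161): `NM.Ihara2Statement` from NE' for `(k, ρ̄)`

`ihara2_of_ne : NEPrimeKProp → NM.Ihara2Statement`, where `NEPrimeKProp` is NE' for `(k, ρ̄)`
(word for word helper62's `H62.NEPrimeKStatement`): non-Eisenstein primes `l ≡ 1 mod m p` with
`q` not a `p`-th power modulo `l`.  Everything else is proved here:

* `q ≢ -1 mod p` : two Borels (`CaseA.lean`), stage 1 (`Stage1.lean`), HK2;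
* `q ≡ -1 mod p` : transfers (HK2), stage 1, and Ihara's lemma under relation (T) (`T.lean`).
-/

set_option autoImplicit false

open Polynomial

namespace Fermat.Agent.S59.H161

open CongruenceSubgroup
open Fermat.Agent.S59.NM

/-- **NE' for `(k, ρ̄)`** (non-Eisenstein primes with a Kummer condition). -/
def NEPrimeKProp : Prop :=
  ∀ (p : ℕ) [Fact p.Prime] (_hp2 : p ≠ 2) (k : Type) [Field k] [Finite k] [CharP k p]
    (ρbar : ResidualGaloisRep k) (_habs : ρbar.IsAbsolutelyIrreducible)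
    (_hsplit : ∀ σ : AlgebraicClosure ℚ ≃ₐ[ℚ] AlgebraicClosure ℚ,
      ∃ α β : k, LinearMap.charpoly (ρbar.ρ σ) = (X - C α) * (X - C β))
    (S : Finset ℕ) (_hpS : p ∈ S) (a : ℕ → k)
    (_ha : ∀ (l : ℕ), l.Prime → l ∉ S →
      ∀ B : ValuationSubring Fermat.Agent.S31.Qb, B.LiesOverPrime l →
        ∀ σ : Fermat.Agent.S31.GQ, B.IsFrobeniusAt σ l →
          LinearMap.charpoly (ρbar.ρ σ) = X ^ 2 - C (a l) * X + C ((l : k)))
    (q : ℕ) (_hq : q.Prime) (_hqp : q ≠ p) (m : ℕ) (_hm : 0 < m) (S' : Finset ℕ),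
    ∃ l : ℕ, l.Prime ∧ l ∉ S ∧ l ∉ S' ∧ l ≡ 1 [MOD m] ∧ l ≡ 1 [MOD p] ∧
      a l ≠ (l : k) + 1 ∧ ¬ (q ^ ((l - 1) / p) ≡ 1 [MOD l])

/-- IHARA2 for one system of eigenvalues `a` with NE' (no Galois representation). -/
theorem ihara2_of_local {p : ℕ} (hp : p.Prime) (hp2 : p ≠ 2) {k : Type} [Field k] [CharP k p]
    {N q : ℕ} (hN : N ≠ 0) (hq : q.Prime) (hqN : ¬ q ∣ N) (hqp : q ≠ p) {S : Finset ℕ}
    {a : ℕ → k} (hNE : NEPrimeLocal p S a q) (hHK2 : HK2Statement)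
    {z₁ z₂ z₃ : Additive (Gamma0 N) →+ k} (h₁ : IsEigenclass N (insert q S) a z₁)
    (h₂ : IsEigenclass N (insert q S) a z₂) (h₃ : IsEigenclass N (insert q S) a z₃)
    (hP : P₁ N q z₁ + P₂ N q z₂ + P₃ N q z₃ = 0) : z₁ = 0 ∧ z₂ = 0 ∧ z₃ = 0 := by
  by_cases hq1 : (q : k) + 1 = 0
  · exact ihara2_caseB hp hp2 hN hq hqN hq1 hNE hHK2 h₁ h₂ h₃ hP
  · exact ihara2_caseA hp hp2 hN hq hqN hqp hq1 hNE hHK2 h₁ h₂ h₃ hP

/-- **IHARA2** from HK2 and NE' for `(k, ρ̄)`. -/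
theorem ihara2_of_hk2_ne (hHK2 : HK2Statement) (hNE : NEPrimeKProp) : Ihara2Statement := by
  intro p hpF hp2 k _ _ _ ρbar habs hsplit N q hN hq hqN hqp S hpS a ha z₁ z₂ z₃ h₁ h₂ h₃ hP
  exact ihara2_of_local hpF.out hp2 hN hq hqN hqp
    (hNE p hp2 k ρbar habs hsplit S hpS a ha q hq hqp) hHK2 h₁ h₂ h₃ hP

/-- **IHARA2** from NE' for `(k, ρ̄)` (HK2 is `H202.hk2`, on main). -/
theorem ihara2_of_ne (hNE : NEPrimeKProp) : Ihara2Statement :=
  ihara2_of_hk2_ne Fermat.Agent.S59.H202.hk2 hNE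

end Fermat.Agent.S59.H161

end
-- ===== PACK-END S59/H161/Ihara2/Main.lean

-- ===== PACK-BEGIN S59/H382/OrderDatum.lean
section




/-!
# Row S59, piece CR-FLAT (helper382): `E[n]` is finite flat at an odd prime of good reduction

`W` a Weierstrass curve over `ℤ`, `p` an odd prime with `p ∤ Δ(W)`, `n` odd.

* `orderDatum_torsion` : the torsion `E[n](ℚ̄)` with its Galois action carries an
  `Fermat.Agent.S19.OrderDatum p`;
* `hopfModel_torsion`  : hence it is the group of `ℚ̄`-points of a finite flat commutative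
  cocommutative Hopf algebra over `ℤ_(p)`, Galois-equivariantly
  (`Fermat.Agent.S19.HopfModel p`, the shape of `GaloisRepAdic.IsFlatAt`).

The generators are the three normalised projective coordinates `x/ψ`, `y/ψ`, `1/ψ`
(`ψ = 2y + a₁x + a₃`); the addition law is the composite chord law of `Triple.lean`, whose
denominator is a unit at every place over `p` for ALL pairs of `n`-torsion points.
-/

set_option autoImplicit false
set_option linter.unusedSectionVars false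
set_option linter.unusedVariables false

namespace Fermat.Agent.S59.H382

open WeierstrassCurve
open scoped WeierstrassCurve.Projective
open Fermat.Agent.Lib.Red.H290
open Fermat.Agent.S19 (Qb GalQ Rl Zb coordFunctions OrderDatum HopfModel)

variable (W : WeierstrassCurve ℤ)

/-- `E[n](ℚ̄)` (the Prelude's type) -/
abbrev Tor (n : ℕ) : Type := ↥(Submodule.torsionBy ℤ (PtsQ W) ((n : ℕ) : ℤ))

lemma EQ_Δ : (EQ W).Δ = ((W.Δ : ℤ) : Qb) := by
  show ((W.map (Int.castRingHom ℚ)).map (algebraMap ℚ Qb)).Δ = _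
  rw [WeierstrassCurve.map_Δ, WeierstrassCurve.map_Δ]
  simp

lemma isElliptic_EQ (hΔ : W.Δ ≠ 0) : (EQ W).IsElliptic := by
  refine ⟨?_⟩
  rw [EQ_Δ]
  exact (Int.cast_ne_zero.mpr hΔ).isUnit

lemma Δ_ne_zero_of_good {p : ℕ} (hgood : ¬ (p : ℤ) ∣ W.Δ) : W.Δ ≠ 0 :=
  fun h => hgood (h ▸ dvd_zero _)

lemma tor_nsmul {n : ℕ} (m : Tor W n) : n • (m : PtsQ W) = 0 := by
  have := m.2
  rwa [Submodule.mem_torsionBy_iff, natCast_zsmul] at this

lemma finite_tor (hΔ : W.Δ ≠ 0) {n : ℕ} (hn : 1 ≤ n) : Finite (Tor W n) := by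
  have := isElliptic_EQ W hΔ
  exact Fermat.Agent.S59.H127.finite_torsion (EQ W) n hn

lemma exists_torsion_point (hΔ : W.Δ ≠ 0) {q : ℕ} (hq : 2 ≤ q) :
    ∃ T : PtsQ W, q • T = 0 ∧ T ≠ 0 := by
  have := isElliptic_EQ W hΔ
  have hcard := Fermat.Agent.S59.H127.card_torsion_eq (EQ W) q
  have := finite_tor W hΔ (n := q) (by omega)
  have h1 : 1 < Nat.card (Tor W q) := by
    rw [hcard]
    nlinarith
  have : Nontrivial (Tor W q) := Finite.one_lt_card_iff_nontrivial.mp h1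
  obtain ⟨m, hm⟩ := exists_ne (0 : Tor W q)
  exact ⟨m.1, tor_nsmul W m, fun h => hm (Subtype.ext h)⟩

/-- the three coordinate functions on `E[n]` -/
def gensTor (n : ℕ) : Set (Tor W n → Qb) :=
  Set.range fun (j : Fin 3) (m : Tor W n) => coord W j m.1

variable {W}

/-- **The global addition law**: numerator and denominator in the coordinate ring, the
denominator a unit at `A₀` at every pair of points. -/
theorem exists_global_add {p : ℕ} [Fact p.Prime] (hp2 : p ≠ 2) (hgood : ¬ (p : ℤ) ∣ W.Δ)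
    {n : ℕ} (hn : Odd n) (A₀ : ValuationSubring Qb) (hA₀ : (p : Qb) ∈ A₀.nonunits) (i : Fin 3) :
    ∃ P ∈ Algebra.adjoin (Zb p) (coordFunctions (gensTor W n)),
    ∃ Q ∈ Algebra.adjoin (Zb p) (coordFunctions (gensTor W n)),
      ∀ m m' : Tor W n, Q (m, m') ∉ A₀.nonunits ∧
        Q (m, m') * coord W i ((m + m' : Tor W n) : PtsQ W) = P (m, m') := by
  classical
  have hΔ := Δ_ne_zero_of_good W hgood
  have hp : p.Prime := Fact.out
  have hnpos : 0 < n := hn.pos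
  -- the auxiliary prime
  obtain ⟨q, hqge, hqp⟩ := Nat.exists_infinite_primes (n + p + 3)
  have hqodd : Odd q := hqp.odd_of_ne_two (by omega)
  have hcop : Nat.Coprime n q := by
    refine Nat.Coprime.symm ((Nat.Prime.coprime_iff_not_dvd hqp).mpr fun h => ?_)
    have := Nat.le_of_dvd hnpos h
    omega
  have hvq : A₀.valuation ((q : ℕ) : Qb) = 1 :=
    Fermat.Agent.Lib.Frob.A1.H382.val_natCast_eq_one A₀ hp hA₀ (n := q) (fun hdvd => by
      have := (Nat.prime_dvd_prime_iff_eq hp hqp).mp hdvd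
      omega)
  obtain ⟨T, hT, hT0⟩ := exists_torsion_point W hΔ hqp.two_le
  have hT' : q • (-T) = 0 := by rw [neg_nsmul, hT, neg_zero]
  -- the coordinate ring
  let c1 : Fin 3 → Algebra.adjoin (Zb p) (coordFunctions (gensTor W n)) := fun j =>
    ⟨fun x => coord W j x.1.1, Algebra.subset_adjoin (Or.inl ⟨_, ⟨j, rfl⟩, rfl⟩)⟩
  let c2 : Fin 3 → Algebra.adjoin (Zb p) (coordFunctions (gensTor W n)) := fun j =>
    ⟨fun x => coord W j x.2.1, Algebra.subset_adjoin (Or.inr ⟨_, ⟨j, rfl⟩, rfl⟩)⟩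
  let tB : Fin 3 → Algebra.adjoin (Zb p) (coordFunctions (gensTor W n)) := fun j =>
    ⟨fun _ => coord W j T, Fermat.Agent.S19.H255.const_mem_adjoin _
      (coord_isIntegral W hgood hp2 hqodd hT j)⟩
  let tB' : Fin 3 → Algebra.adjoin (Zb p) (coordFunctions (gensTor W n)) := fun j =>
    ⟨fun _ => coord W j (-T), Fermat.Agent.S19.H255.const_mem_adjoin _
      (coord_isIntegral W hgood hp2 hqodd hT' j)⟩
  let WB : WeierstrassCurve (Algebra.adjoin (Zb p) (coordFunctions (gensTor W n))) :=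
    W.map (Int.castRingHom _)
  refine ⟨((tripleLaw WB c1 c2 tB tB' i : Algebra.adjoin (Zb p) (coordFunctions (gensTor W n))) :
      Tor W n × Tor W n → Qb), (tripleLaw WB c1 c2 tB tB' i).2,
    ((Lf WB (tripleLaw WB c1 c2 tB tB') : Algebra.adjoin (Zb p) (coordFunctions (gensTor W n))) :
      Tor W n × Tor W n → Qb), (Lf WB (tripleLaw WB c1 c2 tB tB')).2, ?_⟩
  intro m m'
  let ev : Algebra.adjoin (Zb p) (coordFunctions (gensTor W n)) →+* Qb :=
    (Pi.evalRingHom (fun _ : Tor W n × Tor W n => Qb) (m, m')).comp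
      (Algebra.adjoin (Zb p) (coordFunctions (gensTor W n))).val.toRingHom
  have hW : WB.map ev = EQ W := by
    show (W.map _).map _ = (W.map _).map _
    rw [WeierstrassCurve.map_map, WeierstrassCurve.map_map]
    congr 1
  have hc1 : ev ∘ c1 = nrep (EQ W) m.1 := rfl
  have hc2 : ev ∘ c2 = nrep (EQ W) m'.1 := rfl
  have ht : ev ∘ tB = nrep (EQ W) T := rfl
  have ht' : ev ∘ tB' = nrep (EQ W) (-T) := rfl
  have key := tripleLaw_map WB ev c1 c2 tB tB'
  rw [hW, hc1, hc2, ht, ht'] at key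
  have hL := Lf_map WB ev (tripleLaw WB c1 c2 tB tB')
  rw [hW, ← key] at hL
  obtain ⟨hv, he⟩ := tripleLaw_nrep (isRedOf_EQ A₀) (kerMax_algebraMap A₀)
    (Eκ_Δ_ne_zero A₀ hA₀ hgood) (val_two_eq_one A₀ hA₀ hp2) hn hqodd hcop hvq hT hT0
    (tor_nsmul W m) (tor_nsmul W m')
  rw [hL] at hv he
  constructor
  · show ev (Lf WB (tripleLaw WB c1 c2 tB tB')) ∉ A₀.nonunits
    intro hmem
    rw [ValuationSubring.mem_nonunits_iff, hv] at hmem
    exact lt_irrefl _ hmem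
  · show ev (Lf WB (tripleLaw WB c1 c2 tB tB')) * nrep (EQ W) (m.1 + m'.1) i =
      ev (tripleLaw WB c1 c2 tB tB' i)
    have h1 := congrFun he i
    have h2 := congrFun key i
    rw [h2] at h1
    exact h1.symm

/-- **ELL-ORD.**  For an odd prime `p` of good reduction and odd `n`, the `n`-torsion of `E(ℚ̄)`
carries an order datum at `p`. -/
theorem orderDatum_torsion (W : WeierstrassCurve ℤ) (p : ℕ) [Fact p.Prime] (hp2 : p ≠ 2)
    (hgood : ¬ (p : ℤ) ∣ W.Δ) (n : ℕ) (hn : Odd n) :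
    Nonempty (OrderDatum p (Tor W n) (fun σ m => σ • m)) := by
  have hΔ := Δ_ne_zero_of_good W hgood
  have hp : p.Prime := Fact.out
  obtain ⟨A₀, hA₀⟩ := Fermat.Agent.S19.H255.exists_valuationSubring_over hp
  have := finite_tor W hΔ (n := n) hn.pos
  have h2 : (2 : Qb) ≠ 0 := two_ne_zero
  refine ⟨Fermat.Agent.S19.H255.orderDatum_of_local hp (fun σ m => σ • m)
    (fun σ a b => smul_add σ a b) (gensTor W n) ?_ ?_ ?_ A₀ hA₀ ?_⟩
  · rintro _ ⟨j, rfl⟩ σ m
    exact coord_smul W σ m.1 j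
  · rintro _ ⟨j, rfl⟩ m
    exact coord_isIntegral W hgood hp2 hn (tor_nsmul W m) j
  · intro m m' h
    apply Subtype.ext
    apply eq_of_coord_eq W (n2_of_odd_nsmul h2 hn (tor_nsmul W m))
      (n2_of_odd_nsmul h2 hn (tor_nsmul W m'))
    intro j
    exact h _ ⟨j, rfl⟩
  · rintro _ ⟨i, rfl⟩ m₀ m₀'
    obtain ⟨P, hP, Q, hQ, hPQ⟩ := exists_global_add hp2 hgood hn A₀ hA₀ i
    exact ⟨P, hP, Q, hQ, (hPQ m₀ m₀').1, fun m m' _ _ => (hPQ m m').2⟩

/-- **CR-FLAT core.**  For an odd prime `p` of good reduction and odd `n` (e.g. `n = p ^ k`),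
`E[n](ℚ̄)` is, Galois-equivariantly, the group of `ℚ̄`-points of a finite flat commutative
cocommutative Hopf algebra over `ℤ_(p)`. -/
theorem hopfModel_torsion (W : WeierstrassCurve ℤ) (p : ℕ) [Fact p.Prime] (hp2 : p ≠ 2)
    (hgood : ¬ (p : ℤ) ∣ W.Δ) (n : ℕ) (hn : Odd n) :
    HopfModel p (Tor W n) (fun σ m => σ • m) := by
  have := finite_tor W (Δ_ne_zero_of_good W hgood) (n := n) hn.pos
  exact Fermat.Agent.A3.H619.ord p (Tor W n) _ (orderDatum_torsion W p hp2 hgood n hn)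

/-- the same for `E[p ^ k]` -/
theorem hopfModel_torsion_pow (W : WeierstrassCurve ℤ) (p : ℕ) [Fact p.Prime] (hp2 : p ≠ 2)
    (hgood : ¬ (p : ℤ) ∣ W.Δ) (k : ℕ) :
    HopfModel p (Tor W (p ^ k)) (fun σ m => σ • m) :=
  hopfModel_torsion W p hp2 hgood (p ^ k)
    (((Fact.out : p.Prime).odd_of_ne_two hp2).pow)

end Fermat.Agent.S59.H382

end
-- ===== PACK-END S59/H382/OrderDatum.lean

-- ===== PACK-BEGIN S59/TW/H959/Glue.lean
section






/-!
# Row S59, cell TW: the glue `minRT_of_leaves` (helper959)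

`minRT_of_leaves : TWPrimesStatement → DefRingExistsStatement → Arch.SigmaCondStatement →
  RToTStatement → DefRingResStatement → WeierstrassStatement → MinNumStatement →
  G4.RedStatement → HeckeSideStatement → Arch.MinRTStatement`.

The Taylor–Wiles argument: for every `n` the Taylor–Wiles set `Q_n` of S56 gives
`γ : Λ ↠ R_Q`; S54 gives `R_Q ↠ T_Q`; the inertia values `w_i ∈ T_Q` of the Hecke side lift
uniquely to `R_Q` (Hensel) and die in `R_min`; substituting `X_i ↦ (a lift of) w_i - 1` gives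
`φ : Λ → Λ`; `M_Q / (w_i^(p^n) - 1)` is then a patching level, and patching
(`Patch.H967`, S57) gives `R_min ≅ T_min` and the complete intersection property.
-/

set_option autoImplicit false
set_option linter.style.haveILetI false
set_option linter.unusedSectionVars false
set_option linter.unusedVariables false

open IsLocalRing

namespace Fermat.Agent.S59.TW.H959

open Fermat.Agent.S59.Arch Fermat.Agent.S53.H113 Fermat.Agent.S53.H596

/-! ### Small lemmas on the conditions and the level -/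

theorem sigmaCond_mono {𝒪 : Type} [CommRing 𝒪] {p : ℕ} {t : PType} {Smin Sig Sig' : Finset ℕ}
    (hS : Sig ⊆ Sig') {A : Type} [CommRing A] [IsLocalRing A] [Algebra 𝒪 A]
    {ρ : GaloisRepAdic A} (h : sigmaCond 𝒪 p t Smin Sig ρ) : sigmaCond 𝒪 p t Smin Sig' ρ := by
  refine ⟨?_, h.2⟩
  have h1 := h.1
  cases t
  · exact ⟨h1.1, h1.2.1, fun q hq hqS => h1.2.2 q hq (fun hh => hqS (hS hh))⟩
  · exact ⟨h1.1, h1.2.1, fun q hq hqS => h1.2.2 q hq (fun hh => hqS (hS hh))⟩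
  · exact ⟨h1.1, h1.2.1, fun q hq hqS => h1.2.2 q hq (fun hh => hqS (hS hh))⟩

theorem isUnramifiedAt_of_sigmaCond {𝒪 : Type} [CommRing 𝒪] {p : ℕ} {t : PType}
    {Smin Sig : Finset ℕ} {A : Type} [CommRing A] [IsLocalRing A] [Algebra 𝒪 A]
    {ρ : GaloisRepAdic A} (h : sigmaCond 𝒪 p t Smin Sig ρ) {q : ℕ} (hq : q.Prime)
    (hqS : q ∉ Sig) : ρ.IsUnramifiedAt q := by
  have h1 := h.1
  cases t
  · exact h1.2.2 q hq hqS
  · exact h1.2.2 q hq hqS
  · exact h1.2.2 q hq hqS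

theorem mem_of_prime_dvd_wilesLevel {p : ℕ} (hp : p.Prime) {t : PType} {Smin Sig : Finset ℕ}
    (hSig : ∀ q ∈ Sig, q.Prime) (hsub : Smin ⊆ Sig) (hpS : p ∈ Smin) {q : ℕ} (hq : q.Prime)
    (hdvd : q ∣ wilesLevel p t Smin Sig) : q ∈ Sig := by
  unfold wilesLevel at hdvd
  rcases (Nat.Prime.dvd_mul hq).mp hdvd with h1 | h3
  · rcases (Nat.Prime.dvd_mul hq).mp h1 with h1 | h2
    · obtain ⟨q', hq', hqq'⟩ := (Prime.dvd_finsetProd_iff hq.prime _).mp h1
      have hq'S : q' ∈ Smin := Finset.mem_of_mem_erase hq'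
      have : q = q' := (Nat.prime_dvd_prime_iff_eq hq (hSig q' (hsub hq'S))).mp hqq'
      rw [this]; exact hsub hq'S
    · obtain ⟨q', hq', hqq'⟩ := (Prime.dvd_finsetProd_iff hq.prime _).mp h2
      have hq'S : q' ∈ Sig := (Finset.mem_sdiff.mp hq').1
      have hqq'' : q ∣ q' := hq.dvd_of_dvd_pow hqq'
      have : q = q' := (Nat.prime_dvd_prime_iff_eq hq (hSig q' hq'S)).mp hqq''
      rw [this]; exact hq'S
  · cases t
    · exact absurd (Nat.dvd_one.mp h3) hq.one_lt.ne'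
    · have : q = p := (Nat.prime_dvd_prime_iff_eq hq hp).mp h3
      rw [this]; exact hsub hpS
    · have : q = p := (Nat.prime_dvd_prime_iff_eq hq hp).mp h3
      rw [this]; exact hsub hpS

section Residual

variable {p : ℕ} [Fact p.Prime]
  {𝒪 : Type} [CommRing 𝒪] [IsDomain 𝒪] [IsDiscreteValuationRing 𝒪]
  [IsAdicComplete (maximalIdeal 𝒪) 𝒪]
  {ρbar : ResidualGaloisRep (ResidueField 𝒪)} {Smin : Finset ℕ}

theorem sigmaCond_residual (h : ResidualHyp p 𝒪 ρbar Smin) {t : PType}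
    (ht : (t = .flat ∧ (GaloisRepAdic.ofResidualGaloisRep ρbar).IsFlatAt p) ∨
      (t = .sord ∧ (GaloisRepAdic.ofResidualGaloisRep ρbar).IsStrictOrdinaryAt p ∧
        ¬ (GaloisRepAdic.ofResidualGaloisRep ρbar).IsFlatAt p))
    {Sig : Finset ℕ} (hS : Smin ⊆ Sig) :
    sigmaCond 𝒪 p t Smin Sig (GaloisRepAdic.ofResidualGaloisRep ρbar) := by
  have hunr : ∀ q : ℕ, q.Prime → q ∉ Sig →
      (GaloisRepAdic.ofResidualGaloisRep ρbar).IsUnramifiedAt q := by
    intro q hq hqS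
    have hqp : q ≠ p := fun e => hqS (hS (e ▸ h.hpSmin))
    have hqSmin : q ∉ Smin := fun hh => hqS (hS hh)
    have h1 : ρbar.IsUnramifiedAt q := by
      by_contra hn
      exact hqSmin ((h.hmin q hq hqp).mpr hn)
    exact h1
  refine ⟨?_, h.hunip⟩
  rcases ht with ⟨rfl, hf⟩ | ⟨rfl, hs, -⟩
  · exact ⟨h.hdet, hf, hunr⟩
  · exact ⟨h.hdet, hs, hunr⟩

/-- Uniqueness in the universal property. -/
theorem eq_of_compat
    {𝒟 : ∀ ⦃A : Type⦄ [CommRing A] [IsLocalRing A] [Algebra 𝒪 A], GaloisRepAdic A → Prop}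
    (D : GaloisRep.DeformationRingData 𝒪 ρbar 𝒟)
    {A : Type} [CommRing A] [IsLocalRing A] [IsNoetherianRing A]
    [IsAdicComplete (maximalIdeal A) A] [Algebra 𝒪 A] [IsLocalHom (algebraMap 𝒪 A)]
    (hsurj : Function.Surjective (residue A ∘ algebraMap 𝒪 A)) (ρA : GaloisRepAdic A)
    (h𝒟 : 𝒟 ρA)
    (hres : ρA.residual.IsEquiv (ρbar.baseChangeAlong (ResidueField.map (algebraMap 𝒪 A))))
    (φ φ' : D.R →ₐ[𝒪] A)
    (h : ∃ hφ : IsLocalHom (φ : D.R →+* A),
      (D.ρ.baseChangeAlong (φ : D.R →+* A) hφ).IsEquiv ρA)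
    (h' : ∃ hφ : IsLocalHom (φ' : D.R →+* A),
      (D.ρ.baseChangeAlong (φ' : D.R →+* A) hφ).IsEquiv ρA) : φ = φ' :=
  (D.universal A hsurj ρA h𝒟 hres).unique h h'

/-- Compatibility of a composite. -/
theorem compat_comp
    {𝒟 : ∀ ⦃A : Type⦄ [CommRing A] [IsLocalRing A] [Algebra 𝒪 A], GaloisRepAdic A → Prop}
    (D : GaloisRep.DeformationRingData 𝒪 ρbar 𝒟)
    {A : Type} [CommRing A] [IsLocalRing A] [Algebra 𝒪 A]
    {B : Type} [CommRing B] [IsLocalRing B] [Algebra 𝒪 B]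
    (φ : D.R →ₐ[𝒪] A) (hφ : IsLocalHom (φ : D.R →+* A)) (ρA : GaloisRepAdic A)
    (hA : (D.ρ.baseChangeAlong (φ : D.R →+* A) hφ).IsEquiv ρA)
    (ψ : A →ₐ[𝒪] B) (hψ : IsLocalHom (ψ : A →+* B)) (ρB : GaloisRepAdic B)
    (hB : (ρA.baseChangeAlong (ψ : A →+* B) hψ).IsEquiv ρB) :
    ∃ h : IsLocalHom ((ψ.comp φ : D.R →ₐ[𝒪] B) : D.R →+* B),
      (D.ρ.baseChangeAlong ((ψ.comp φ : D.R →ₐ[𝒪] B) : D.R →+* B) h).IsEquiv ρB := by
  have hloc : IsLocalHom ((ψ.comp φ : D.R →ₐ[𝒪] B) : D.R →+* B) := by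
    haveI := hφ
    haveI := hψ
    exact RingHom.isLocalHom_comp (ψ : A →+* B) (φ : D.R →+* A)
  refine ⟨hloc, ?_⟩
  have h1 := baseChangeAlong_comp_isEquiv' (φ : D.R →+* A) hφ (ψ : A →+* B) hψ
    ((ψ.comp φ : D.R →ₐ[𝒪] B) : D.R →+* B) hloc rfl D.ρ
  exact isEquiv_trans (isEquiv_symm h1)
    (isEquiv_trans (isEquiv_baseChangeAlong (ψ : A →+* B) hψ hA) hB)

end Residual

/-! ### One patching level -/

section Level

variable {p : ℕ} [Fact p.Prime]
  {𝒪 : Type} [CommRing 𝒪] [IsDomain 𝒪] [IsDiscreteValuationRing 𝒪]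
  [IsAdicComplete (maximalIdeal 𝒪) 𝒪] [Finite (ResidueField 𝒪)]
  {ρbar : ResidualGaloisRep (ResidueField 𝒪)} {Smin : Finset ℕ} {t : PType}
  [NeZero (wilesLevel p t Smin Smin)]

/-- **The patching level attached to one Taylor–Wiles set.** -/
theorem exists_level (h54 : RToTStatement) (hres : DefRingResStatement)
    (hW : WeierstrassStatement)
    (hc : ∀ Sig : Finset ℕ, GaloisRep.IsDeformationCondition 𝒪 (sigmaCond 𝒪 p t Smin Sig))
    (h : ResidualHyp p 𝒪 ρbar Smin)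
    (P₀ : HeckePkg p 𝒪 ρbar t Smin Smin)
    {M₀ : Type} [AddCommGroup M₀] [Module P₀.T M₀]
    (D : GaloisRep.DeformationRingData 𝒪 ρbar (sigmaCond 𝒪 p t Smin Smin))
    (φ₀ : D.R →ₐ[𝒪] P₀.T) (hφ₀loc : IsLocalHom (φ₀ : D.R →+* P₀.T))
    (hφ₀ : (D.ρ.baseChangeAlong (φ₀ : D.R →+* P₀.T) hφ₀loc).IsEquiv P₀.H.ρ)
    {n r : ℕ} {qv : Fin r → ℕ} (hQ : IsTWSet p ρbar Smin n qv)
    (hmod : HasTWModule P₀ M₀ n qv)
    (DQ : GaloisRep.DeformationRingData 𝒪 ρbar
      (sigmaCond 𝒪 p t Smin (Smin ∪ Finset.univ.image qv)))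
    (γ : MvPowerSeries (Fin r) 𝒪 →ₐ[𝒪] DQ.R) (hγ : Function.Surjective γ) :
    letI : Module D.R M₀ := Module.compHom M₀ (φ₀ : D.R →+* P₀.T)
    Nonempty (Algebra.PatchingLevel 𝒪 r D.R M₀ (relJ 𝒪 r (p ^ n))) := by
  classical
  have hpP : p.Prime := Fact.out
  obtain ⟨hNQ, PQ, resT, hresT, MQ, _, _, πQ, Pv, φv, σv, αv, w, d, b, hcompat, hπ, hπs,
    hker, hloc, hbasis⟩ := hmod
  haveI := hNQ
  have hsub : Smin ⊆ Smin ∪ Finset.univ.image qv := Finset.subset_union_left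
  have hSigP : ∀ q ∈ Smin ∪ Finset.univ.image qv, q.Prime := by
    intro q hq
    rcases Finset.mem_union.mp hq with hq | hq
    · exact h.hSmin q hq
    · obtain ⟨i, -, rfl⟩ := Finset.mem_image.mp hq
      exact (hQ.2.1 i).1
  -- `R_Q ↠ T_Q`
  obtain ⟨φQ, hφQs, hφQloc, hφQ⟩ := h54 DQ PQ.H
    (fun q hq hdvd => _root_.Fermat.Agent.S59.TW.H959.mem_of_prime_dvd_wilesLevel hpP hSigP hsub h.hpSmin hq hdvd)
    PQ.hcond PQ.hres
  -- `R_Q ↠ R_min`
  obtain ⟨resR, hresRs, hresRloc, hresR⟩ := hres p h.hp2 𝒪 h.hp𝒪 ρbar t Smin Smin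
    (Smin ∪ Finset.univ.image qv) hsub (hc _) (hc _) DQ D
  -- the square commutes
  have hcomm : resT.comp φQ = φ₀.comp resR :=
    eq_of_compat DQ P₀.H.residue_surjective P₀.H.ρ (sigmaCond_mono hsub P₀.hcond) P₀.hres _ _
      (compat_comp DQ φQ hφQloc PQ.H.ρ hφQ resT hresT P₀.H.ρ hcompat)
      (compat_comp DQ resR hresRloc D.ρ hresR φ₀ hφ₀loc P₀.H.ρ hφ₀)
  -- inertia values in `R_Q`
  have hwR : ∀ i, ∃ wR : DQ.R,
      IsInertiaValue DQ.ρ (φv i) (σv i) (algebraMap 𝒪 DQ.R (αv i)) wR ∧ φQ wR = w i := by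
    intro i
    obtain ⟨-, -, -, hiv⟩ := hloc i
    have h1 : IsInertiaValue (DQ.ρ.baseChangeAlong (φQ : DQ.R →+* PQ.T) hφQloc) (φv i) (σv i)
        ((φQ : DQ.R →+* PQ.T) (algebraMap 𝒪 DQ.R (αv i))) (w i) := by
      have h2 := hiv.of_isEquiv (isEquiv_symm hφQ)
      have h3 : (φQ : DQ.R →+* PQ.T) (algebraMap 𝒪 DQ.R (αv i)) = algebraMap 𝒪 PQ.T (αv i) :=
        φQ.commutes _
      rw [h3]
      exact h2
    exact exists_isInertiaValue_of_map (φQ : DQ.R →+* PQ.T) hφQloc DQ.ρ (φv i) (σv i) _ h1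
  choose wR hwR1 hwR2 using hwR
  have hres1 : ∀ i, resR (wR i) = 1 := by
    intro i
    obtain ⟨hP, -, hσ, -⟩ := hloc i
    have h1 := ((hwR1 i).map (resR : DQ.R →+* D.R) hresRloc).of_isEquiv hresR
    have hq : D.ρ.IsUnramifiedAt (qv i) :=
      isUnramifiedAt_of_sigmaCond D.isOfType (hQ.2.1 i).1 (hQ.2.1 i).2.1
    exact h1.eq_one_of_isUnramifiedAt hq hP hσ
  -- the substitution
  have hf : ∀ i, ∃ f : MvPowerSeries (Fin r) 𝒪, γ f = wR i - 1 := fun i => hγ _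
  choose f hf using hf
  have hfm : ∀ i, f i ∈ maximalIdeal (MvPowerSeries (Fin r) 𝒪) := by
    intro i
    by_contra hn
    have hu : IsUnit (f i) := by
      by_contra h'
      exact hn h'
    have h1 : IsUnit (resR (γ (f i))) := (hu.map γ).map resR
    rw [hf, map_sub, hres1, map_one, sub_self] at h1
    exact not_isUnit_zero h1
  haveI : IsAdicComplete (maximalIdeal (MvPowerSeries (Fin r) 𝒪)) (MvPowerSeries (Fin r) 𝒪) :=
    isAdicComplete_mvPowerSeries
  let φ : MvPowerSeries (Fin r) 𝒪 →ₐ[𝒪] MvPowerSeries (Fin r) 𝒪 :=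
    evalCNL (maximalIdeal (MvPowerSeries (Fin r) 𝒪)) f hfm
  have hφX : ∀ i, φ (MvPowerSeries.X i) = f i := fun i => evalCNL_X _ _ _ i
  -- assemble
  letI : Module D.R M₀ := Module.compHom M₀ (φ₀ : D.R →+* P₀.T)
  refine exists_patchingLevel (p ^ n) (φQ.comp γ) (resR.comp γ) φ w
    (hresRs.comp hγ) ?_ ?_ πQ ?_ hπs hker b hbasis ?_
  · intro i
    rw [hφX]
    show φQ (γ (f i)) = _
    rw [hf, map_sub, hwR2, map_one]
  · intro i
    rw [hφX]
    show resR (γ (f i)) = 0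
    rw [hf, map_sub, hres1, map_one, sub_self]
  · intro g x
    show πQ (φQ (γ g) • x) = φ₀ (resR (γ g)) • πQ x
    rw [hπ]
    congr 1
    exact AlgHom.congr_fun hcomm (γ g)
  · intro g
    exact hW p 𝒪 h.hp𝒪 n r g

end Level

/-! ### The glue -/

section Core

variable {p : ℕ} [Fact p.Prime]
  {𝒪 : Type} [CommRing 𝒪] [IsDomain 𝒪] [IsDiscreteValuationRing 𝒪]
  [IsAdicComplete (maximalIdeal 𝒪) 𝒪] [Finite (ResidueField 𝒪)] [CharZero 𝒪]
  {ρbar : ResidualGaloisRep (ResidueField 𝒪)} {Smin : Finset ℕ} {t : PType}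
  [NeZero (wilesLevel p t Smin Smin)]

/-- **The Taylor–Wiles argument.**  Given the output of the Hecke side (a package `P₀`, an
`𝒪`-point, a nonzero module `M₀` with Taylor–Wiles modules over it for all Taylor–Wiles sets):
every compatible `φ₀ : R_min → T_min` is bijective, `M₀` is free over `T_min`, and
`#Φ = #(𝒪/η) < ∞`. -/
theorem tw_core (hTW : TWPrimesStatement) (h53 : DefRingExistsStatement)
    (hcond : SigmaCondStatement) (h54 : RToTStatement) (hres : DefRingResStatement)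
    (hW : WeierstrassStatement) (hnum : MinNumStatement) (hred : G4.RedStatement)
    (h : ResidualHyp p 𝒪 ρbar Smin)
    (ht : (t = .flat ∧ (GaloisRepAdic.ofResidualGaloisRep ρbar).IsFlatAt p) ∨
      (t = .sord ∧ (GaloisRepAdic.ofResidualGaloisRep ρbar).IsStrictOrdinaryAt p ∧
        ¬ (GaloisRepAdic.ofResidualGaloisRep ρbar).IsFlatAt p))
    (P₀ : HeckePkg p 𝒪 ρbar t Smin Smin) (pt : P₀.T →ₐ[𝒪] 𝒪)
    {M₀ : Type} [AddCommGroup M₀] [Module P₀.T M₀] [Nontrivial M₀]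
    (hM : ∀ (n r : ℕ) (qv : Fin r → ℕ), IsTWSet p ρbar Smin n qv → HasTWModule P₀ M₀ n qv)
    (D : GaloisRep.DeformationRingData 𝒪 ρbar (sigmaCond 𝒪 p t Smin Smin))
    (φ₀ : D.R →ₐ[𝒪] P₀.T) (hφ₀loc : IsLocalHom (φ₀ : D.R →+* P₀.T))
    (hφ₀ : (D.ρ.baseChangeAlong (φ₀ : D.R →+* P₀.T) hφ₀loc).IsEquiv P₀.H.ρ) :
    Function.Bijective φ₀ ∧
      (∃ (d : ℕ) (b : Fin d → M₀), Function.Bijective (Fintype.linearCombination P₀.T b)) ∧
      Finite (NC.Cot (pt.comp φ₀)) ∧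
      Nat.card (NC.Cot (pt.comp φ₀)) = Nat.card (𝒪 ⧸ NC.congIdeal pt) := by
  classical
  have hpP : p.Prime := Fact.out
  have hc : ∀ Sig : Finset ℕ, GaloisRep.IsDeformationCondition 𝒪 (sigmaCond 𝒪 p t Smin Sig) :=
    fun Sig => (hcond p h.hp2 𝒪 h.hp𝒪 t Smin Sig).1
  have hNS : ∀ q : ℕ, q.Prime → q ∣ wilesLevel p t Smin Smin → q ∈ (↑Smin : Set ℕ) :=
    fun q hq hdvd => _root_.Fermat.Agent.S59.TW.H959.mem_of_prime_dvd_wilesLevel hpP h.hSmin (Finset.Subset.refl _) h.hpSmin hq hdvd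
  -- surjectivity of `φ₀`
  have hφ₀s : Function.Surjective φ₀ := by
    obtain ⟨φ', hφ's, hφ'loc, hφ'⟩ := h54 D P₀.H hNS P₀.hcond P₀.hres
    have : φ₀ = φ' := eq_of_compat D P₀.H.residue_surjective P₀.H.ρ P₀.hcond P₀.hres _ _
      ⟨hφ₀loc, hφ₀⟩ ⟨hφ'loc, hφ'⟩
    rw [this]
    exact hφ's
  -- the Taylor–Wiles primes
  have ht' : t = .flat ∨ t = .sord := by
    rcases ht with ⟨h1, -⟩ | ⟨h1, -⟩
    · exact Or.inl h1
    · exact Or.inr h1
  obtain ⟨r, hr⟩ := hTW p 𝒪 ρbar Smin h t ht'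
  letI : Module D.R M₀ := Module.compHom M₀ (φ₀ : D.R →+* P₀.T)
  have hlev : ∀ n : ℕ, Nonempty (Algebra.PatchingLevel 𝒪 r D.R M₀ (relJ 𝒪 r (p ^ n))) := by
    intro n
    obtain ⟨qv, hQ, hγ⟩ := hr n
    obtain ⟨DQ⟩ := h53 𝒪 ρbar (sigmaCond 𝒪 p t Smin (Smin ∪ Finset.univ.image qv)) h.habs
      (hc _) (sigmaCond_residual h ht Finset.subset_union_left)
      ((hcond p h.hp2 𝒪 h.hp𝒪 t Smin _).2 ρbar)
    obtain ⟨γ, hγs⟩ := hγ DQ
    exact exists_level h54 hres hW hc h P₀ D φ₀ hφ₀loc hφ₀ hQ (hM n r qv hQ) DQ γ hγs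
  let P : Algebra.PatchingDatum 𝒪 p r D.R M₀ := ⟨fun n => Classical.choice (hlev n)⟩
  have hbij : Function.Bijective φ₀ :=
    Patch.H967.bijective_of_patchingDatum h.hp𝒪 (φ₀ : D.R →+* P₀.T) hφ₀s (fun _ _ => rfl) P
  have hfree : Module.Free P₀.T M₀ :=
    Patch.H967.free_of_patchingDatum_of_surjective h.hp𝒪 (φ₀ : D.R →+* P₀.T) hφ₀s
      (fun _ _ => rfl) P
  obtain ⟨L⟩ := Patch.H967.exists_patchingLevel_bot h.hp𝒪 P
  obtain ⟨-, -, hkerL⟩ := Fermat.Agent.S57.result L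
  -- `M₀` is finite over `T₀`
  haveI hfin : Module.Finite P₀.T M₀ := by
    refine ⟨⟨Finset.univ.image fun i => L.π (L.b i), ?_⟩⟩
    rw [eq_top_iff]
    intro m _
    obtain ⟨x, rfl⟩ := L.π_surjective m
    obtain ⟨c, rfl⟩ := L.b_span x
    rw [map_sum]
    refine Submodule.sum_mem _ fun i _ => ?_
    rw [L.π_smul]
    show φ₀ (L.ψ (L.φ (c i))) • L.π (L.b i) ∈ _
    refine Submodule.smul_mem _ _ (Submodule.subset_span ?_)
    simp
  have hbasis : ∃ (d : ℕ) (b : Fin d → M₀),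
      Function.Bijective (Fintype.linearCombination P₀.T b) := by
    haveI := hfree
    let B := Module.finBasis P₀.T M₀
    refine ⟨_, B, ?_⟩
    have : (Fintype.linearCombination P₀.T B : (Fin _ → P₀.T) → M₀) = B.equivFun.symm := by
      funext x
      rw [Fintype.linearCombination_apply, Module.Basis.equivFun_symm_apply]
    rw [this]
    exact B.equivFun.symm.bijective
  refine ⟨hbij, hbasis, ?_⟩
  haveI : IsReduced P₀.T := hred (wilesLevel p t Smin Smin) (↑Smin : Set ℕ) hNS 𝒪 P₀.θ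
  exact hnum 𝒪 r D.R P₀.T φ₀ hbij L.ψ L.ψ_surjective (fun i => L.φ (MvPowerSeries.X i)) hkerL pt

end Core

/-- **Cell TW (ring form).**  `R_min ≅ T_min` from the leaves. -/
theorem minRT_of_leaves (hTW : TWPrimesStatement) (h53 : DefRingExistsStatement)
    (hcond : SigmaCondStatement) (h54 : RToTStatement) (hres : DefRingResStatement)
    (hW : WeierstrassStatement) (hnum : MinNumStatement) (hred : G4.RedStatement)
    (hHecke : HeckeSideStatement) : MinRTStatement := by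
  intro p _ 𝒪 _ _ _ _ _ _ ρbar Smin h t ht hN χ hχ
  obtain ⟨P₀, pt, M₀, _, _, _, hM⟩ := hHecke p 𝒪 ρbar Smin h t ht hN χ hχ
  refine rtIso_of_pkg P₀ ?_
  rintro D φ₀ ⟨hφ₀loc, hφ₀⟩
  obtain ⟨h1, -, h2, h3⟩ := tw_core hTW h53 hcond h54 hres hW hnum hred h ht P₀ pt hM D φ₀
    hφ₀loc hφ₀
  exact ⟨h1, pt, h2, h3⟩

end Fermat.Agent.S59.TW.H959

namespace Fermat.Agent.S59.TW.H959

open Polynomial Fermat.Agent.S59.Arch

/-- The frozen S56, as a `Prop` (verbatim). -/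
def S56Statement : Prop :=
  ∀ {𝒪 : Type} [CommRing 𝒪] [IsDomain 𝒪] [IsDiscreteValuationRing 𝒪]
    [IsAdicComplete (maximalIdeal 𝒪) 𝒪] [Finite (ResidueField 𝒪)]
    (p : ℕ) [Fact p.Prime] (_hp2 : p ≠ 2) (_hp𝒪 : (p : 𝒪) ∈ maximalIdeal 𝒪)
    (ρbar : ResidualGaloisRep (ResidueField 𝒪))
    (_habs : ρbar.IsAbsolutelyIrreducible)
    (_hdet : (GaloisRepAdic.ofResidualGaloisRep ρbar).DetIsCyclotomic p)
    (_hsplit : ∀ σ : AlgebraicClosure ℚ ≃ₐ[ℚ] AlgebraicClosure ℚ,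
      ∃ α β : ResidueField 𝒪, LinearMap.charpoly (ρbar.ρ σ) = (X - C α) * (X - C β))
    (_hTW : ∀ (K : Type) [Field K] [Algebra (ResidueField 𝒪) K]
      (G : Subgroup (AlgebraicClosure ℚ ≃ₐ[ℚ] AlgebraicClosure ℚ)), G.index = 2 →
      ∀ V : Submodule K (ρbar.baseChange K).V,
        (∀ σ ∈ G, ∀ x ∈ V, (ρbar.baseChange K).ρ σ x ∈ V) → V = ⊥ ∨ V = ⊤)
    (S Smin : Finset ℕ) (_hpSmin : p ∈ Smin) (_hSmin : Smin ⊆ S) (_hS : ∀ q ∈ S, q.Prime)
    (_hmin : ∀ q : ℕ, q.Prime → q ≠ p → (q ∈ Smin ↔ ¬ ρbar.IsUnramifiedAt q)),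
    (∃ r : ℕ, ∀ n : ℕ, ∃ qv : Fin r → ℕ, Function.Injective qv ∧
      (∀ i, (qv i).Prime ∧ qv i ∉ S ∧ p ^ (n + 1) ∣ qv i - 1) ∧
      (∀ i, ∀ P : ValuationSubring (AlgebraicClosure ℚ), P.LiesOverPrime (qv i) →
        ∀ φ : AlgebraicClosure ℚ ≃ₐ[ℚ] AlgebraicClosure ℚ, P.IsFrobeniusAt φ (qv i) →
          ∃ α β : ResidueField 𝒪, α ≠ β ∧ LinearMap.charpoly (ρbar.ρ φ) = (X - C α) * (X - C β)) ∧
      ∀ DQ : GaloisRep.DeformationRingData 𝒪 ρbar (fun _A _ _ _ ρ =>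
          GaloisRep.strictOrdinaryCondition 𝒪 p (Smin ∪ Finset.univ.image qv) ρ ∧
            ∀ q ∈ Smin, q.Prime → q ≠ p → ρ.IsUnipotentOnInertiaAt q),
        ∃ γ : MvPowerSeries (Fin r) 𝒪 →ₐ[𝒪] DQ.R, Function.Surjective γ) ∧
    (∃ r : ℕ, ∀ n : ℕ, ∃ qv : Fin r → ℕ, Function.Injective qv ∧
      (∀ i, (qv i).Prime ∧ qv i ∉ S ∧ p ^ (n + 1) ∣ qv i - 1) ∧
      (∀ i, ∀ P : ValuationSubring (AlgebraicClosure ℚ), P.LiesOverPrime (qv i) →
        ∀ φ : AlgebraicClosure ℚ ≃ₐ[ℚ] AlgebraicClosure ℚ, P.IsFrobeniusAt φ (qv i) →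
          ∃ α β : ResidueField 𝒪, α ≠ β ∧ LinearMap.charpoly (ρbar.ρ φ) = (X - C α) * (X - C β)) ∧
      ∀ DQ : GaloisRep.DeformationRingData 𝒪 ρbar (fun _A _ _ _ ρ =>
          GaloisRep.flatCondition 𝒪 p (Smin ∪ Finset.univ.image qv) ρ ∧
            ∀ q ∈ Smin, q.Prime → q ≠ p → ρ.IsUnipotentOnInertiaAt q),
        ∃ γ : MvPowerSeries (Fin r) 𝒪 →ₐ[𝒪] DQ.R, Function.Surjective γ)

/-- **Adapter**: the frozen S56 gives the Taylor–Wiles primes in the vocabulary of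
`sigmaCond`. -/
theorem twPrimes_of_S56 (h56 : S56Statement) : TWPrimesStatement := by
  intro p _ 𝒪 _ _ _ _ _ ρbar Smin h t ht
  obtain ⟨hs, hf⟩ := h56 p h.hp2 h.hp𝒪 ρbar h.habs h.hdet h.hsplit h.hTW Smin Smin h.hpSmin
    (Finset.Subset.refl _) h.hSmin h.hmin
  rcases ht with rfl | rfl
  · obtain ⟨r, hr⟩ := hf
    refine ⟨r, fun n => ?_⟩
    obtain ⟨qv, h1, h2, h3, h4⟩ := hr n
    exact ⟨qv, ⟨h1, h2, h3⟩, fun DQ => h4 DQ⟩
  · obtain ⟨r, hr⟩ := hs
    refine ⟨r, fun n => ?_⟩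
    obtain ⟨qv, h1, h2, h3, h4⟩ := hr n
    exact ⟨qv, ⟨h1, h2, h3⟩, fun DQ => h4 DQ⟩

end Fermat.Agent.S59.TW.H959

end
-- ===== PACK-END S59/TW/H959/Glue.lean

-- ===== PACK-BEGIN S59/TW/H959/GluePlus.lean
section



/-!
# Row S59, cell TW: the glue in `Plus` form (helper959, board v5)

`minRTPlusH_of_leaves : (the leaves of tw_core) → Arch.HeckeSidePlusStatement →
  Arch.MinRTPlusHStatement`.

The Taylor–Wiles argument `tw_core` (`Glue.lean`) applied to ONE compatible pair `(D, φ₀)`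
(which exists by S53 + S54) gives a finite basis of `M₀` over `T₀`; the bridge clause of the
Hecke side then gives `η_{T₀}(pt) = δ₀(χ)`, which is the target ideal at `Σ = Smin`
(`Arch.targetIdeal_min`); the clause `∀ D φ` of `RTIsoPlus` is `tw_core` again.
-/

set_option autoImplicit false
set_option linter.style.haveILetI false
set_option linter.unusedSectionVars false
set_option linter.unusedVariables false

open IsLocalRing

namespace Fermat.Agent.S59.TW.H959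

open Fermat.Agent.S59.Arch Fermat.Agent.S59.NM

/-- **Cell TW (`Plus` form).**  `RTIsoPlus` at the minimal level from the leaves. -/
theorem minRTPlusH_of_leaves (hTW : TWPrimesStatement) (h53 : DefRingExistsStatement)
    (hcond : SigmaCondStatement) (h54 : RToTStatement) (hres : DefRingResStatement)
    (hW : WeierstrassStatement) (hnum : MinNumStatement) (hred : G4.RedStatement)
    (hHecke : HeckeSidePlusStatement) : MinRTPlusHStatement := by
  intro p _ 𝒪 _ _ _ _ _ _ ρbar Smin h hcurve t ht hN χ hχ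
  classical
  have hpP : p.Prime := Fact.out
  obtain ⟨P₀, pt, M₀, _, _, _, hpt, hbridge, hM⟩ :=
    hHecke p 𝒪 ρbar Smin h hcurve t ht hN χ hχ
  have hc : ∀ Sig : Finset ℕ, GaloisRep.IsDeformationCondition 𝒪 (sigmaCond 𝒪 p t Smin Sig) :=
    fun Sig => (hcond p h.hp2 𝒪 h.hp𝒪 t Smin Sig).1
  have hNS : ∀ q : ℕ, q.Prime → q ∣ wilesLevel p t Smin Smin → q ∈ (↑Smin : Set ℕ) :=
    fun q hq hdvd =>
      _root_.Fermat.Agent.S59.TW.H959.mem_of_prime_dvd_wilesLevel hpP h.hSmin (Finset.Subset.refl _) h.hpSmin hq hdvd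
  -- one compatible pair `(D, φ₀)`
  obtain ⟨D⟩ := h53 𝒪 ρbar (sigmaCond 𝒪 p t Smin Smin) h.habs (hc _)
    (sigmaCond_residual h ht (Finset.Subset.refl _))
    ((hcond p h.hp2 𝒪 h.hp𝒪 t Smin _).2 ρbar)
  obtain ⟨φ', -, hφ'loc, hφ'⟩ := h54 D P₀.H hNS P₀.hcond P₀.hres
  obtain ⟨-, hbasis, -, -⟩ := tw_core hTW h53 hcond h54 hres hW hnum hred h ht P₀ pt hM D φ'
    hφ'loc hφ'
  have hη : NC.congIdeal pt = targetIdeal p 𝒪 t Smin Smin (eig χ) := by
    rw [targetIdeal_min]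
    exact hbridge hbasis
  refine rtIsoPlus_of_pkg P₀ (eig χ) pt hpt hη ?_
  rintro D φ₀ ⟨hφ₀loc, hφ₀⟩
  obtain ⟨h1, -, h2, h3⟩ := tw_core hTW h53 hcond h54 hres hW hnum hred h ht P₀ pt hM D φ₀
    hφ₀loc hφ₀
  exact ⟨h1, h2, h3⟩

/-- The same from the frozen S56 (as a `Prop`). -/
theorem minRTPlusH_of_S56 (h56 : S56Statement) (h53 : DefRingExistsStatement)
    (hcond : SigmaCondStatement) (h54 : RToTStatement) (hres : DefRingResStatement)
    (hW : WeierstrassStatement) (hnum : MinNumStatement) (hred : G4.RedStatement)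
    (hHecke : HeckeSidePlusStatement) : MinRTPlusHStatement :=
  minRTPlusH_of_leaves (twPrimes_of_S56 h56) h53 hcond h54 hres hW hnum hred hHecke

end Fermat.Agent.S59.TW.H959

end
-- ===== PACK-END S59/TW/H959/GluePlus.lean

-- ===== PACK-BEGIN S59/TW/Aut/H959/PairDom.lean
section


/-!
# Row S59, cell TW, layer 3 (AUT), leaf PAIR — part 1: the Manin pairing over a domain
(helper959)

`Fermat.Agent.S59.H585` proves that the Hecke operators `T_l` (`l ∤ n`) are self-adjoint for the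
Manin pairing on the cuspidal classes of `Γ₀(n)` with coefficients `ℤ` (and `ℤ/m`).  Here the same
for coefficients in an arbitrary domain `R` (through the field of fractions), and the linear
functional `⟨x, ·⟩` on a submodule of cuspidal classes.
-/

set_option autoImplicit false

namespace Fermat.Agent.S59.TW.Aut.H959

open CongruenceSubgroup Matrix.SpecialLinearGroup ModularCurve.Period ModularGroup
open Fermat.Agent.S29.H642 Fermat.Agent.S41.Spec Fermat.Agent.S59.H585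
open scoped MatrixGroups

section Dom

variable {R : Type} [CommRing R] [IsDomain R] {N q : ℕ}

/-- The cast `R → Frac R` of the pairing. -/
theorem cast_pairing_dom {n : ℕ} (hn : n ≠ 0) {x y : Additive (Gamma0 n) →+ R}
    (hx : IsCuspidal x) (hy : IsCuspidal y) :
    algebraMap R (FractionRing R) (maninPairing (Gamma0 n) x y) =
      maninPairing (Gamma0 n)
        ((algebraMap R (FractionRing R)).toAddMonoidHom.comp x)
        ((algebraMap R (FractionRing R)).toAddMonoidHom.comp y) := by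
  have := finiteIndex_Gamma0' hn
  exact (maninPairing_map (neg_one_mem_Gamma0' n) (algebraMap R (FractionRing R)) hx hy).symm

/-- **Adjunction over a domain**: `B(r_i x, y) = B(x, t_i y)`. -/
theorem pairing_adj_dom (hN : N ≠ 0) (hq : q.Prime) (hqN : ¬ q ∣ N)
    (x : Additive (Gamma0 N) →+ R) (y : Additive (Gamma0 (N * q)) →+ R)
    (hx : IsCuspidal x) (hy : IsCuspidal y) :
    maninPairing (Gamma0 (N * q)) (r₁ N q x) y = maninPairing (Gamma0 N) x (t₁ N q y) ∧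
    maninPairing (Gamma0 (N * q)) (r₂ N q x) y = maninPairing (Gamma0 N) x (t₂ N q y) := by
  have hNq : N * q ≠ 0 := Nat.mul_ne_zero hN hq.ne_zero
  obtain ⟨hFun, hRC, hTC, -⟩ := Fermat.Agent.S41.H281.hkStatement.{0}
  obtain ⟨hr1, hr2⟩ := hRC N q R x hx
  obtain ⟨ht1, ht2⟩ := hTC N q R y hy
  set ι : R →+ FractionRing R := (algebraMap R (FractionRing R)).toAddMonoidHom with hι
  have hinj : Function.Injective (algebraMap R (FractionRing R)) :=
    IsFractionRing.injective R (FractionRing R)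
  have hxQ : IsCuspidal (ι.comp x) := Fermat.Agent.S41.H41.isCuspidal_comp ι hx
  have hyQ : IsCuspidal (ι.comp y) := Fermat.Agent.S41.H41.isCuspidal_comp ι hy
  obtain ⟨a1, a2⟩ := pairing_adj_field (FractionRing R) hN hq hqN (ι.comp x) (ι.comp y) hxQ hyQ
  constructor
  · apply hinj
    rw [cast_pairing_dom hNq hr1 hy, cast_pairing_dom hN hx ht1,
      ← Fermat.Agent.S41.H41.t₁_comp hFun, ← Fermat.Agent.S41.H41.r₁_comp]
    exact a1
  · apply hinj
    rw [cast_pairing_dom hNq hr2 hy, cast_pairing_dom hN hx ht2,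
      ← Fermat.Agent.S41.H41.t₂_comp hFun, ← Fermat.Agent.S41.H41.r₂_comp]
    exact a2

/-- **Hecke operators are self-adjoint over a domain.** -/
theorem pairing_hecke_dom {n l : ℕ} [Fact l.Prime] (hl : ¬ l ∣ n) (hn : n ≠ 0)
    (x y : Additive (Gamma0 n) →+ R) (hx : IsCuspidal x) (hy : IsCuspidal y) :
    maninPairing (Gamma0 n) (heckeTransfer hl x) y =
      maninPairing (Gamma0 n) x (heckeTransfer hl y) := by
  have hlp : l.Prime := Fact.out
  have hnl : n * l ≠ 0 := Nat.mul_ne_zero hn hlp.ne_zero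
  have hFI := finiteIndex_Gamma0' hn
  have hFI' := finiteIndex_Gamma0' hnl
  obtain ⟨-, hRC, -, hHC, -, -, -, hTRH, -⟩ := Fermat.Agent.S41.H281.hkStatement.{0}
  have hTx : IsCuspidal (heckeTransfer hl x) := hHC n l hl R x hx
  obtain ⟨h1x, h2x⟩ := hRC n l R x hx
  obtain ⟨h1y, h2y⟩ := hRC n l R y hy
  obtain ⟨e1x, -⟩ := hTRH n l hl hn R x
  obtain ⟨-, e2y⟩ := hTRH n l hl hn R y
  have a1 := (pairing_adj_dom hn hlp hl y (r₂ n l x) hy h2x).1
  have a2 := (pairing_adj_dom hn hlp hl x (r₁ n l y) hx h1y).2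
  calc maninPairing (Gamma0 n) (heckeTransfer hl x) y
      = - maninPairing (Gamma0 n) y (heckeTransfer hl x) :=
        maninPairing_skew (neg_one_mem_Gamma0' n) hy hTx
    _ = - maninPairing (Gamma0 n) y (t₁ n l (r₂ n l x)) := by rw [e1x]
    _ = - maninPairing (Gamma0 (n * l)) (r₁ n l y) (r₂ n l x) := by rw [a1]
    _ = maninPairing (Gamma0 (n * l)) (r₂ n l x) (r₁ n l y) := by
        rw [maninPairing_skew (neg_one_mem_Gamma0' (n * l)) h2x h1y, neg_neg]
    _ = maninPairing (Gamma0 n) x (t₂ n l (r₁ n l y)) := a2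
    _ = maninPairing (Gamma0 n) x (heckeTransfer hl y) := by rw [e2y]

/-- Cuspidality is preserved by the Hecke operators. -/
theorem isCuspidal_heckeTransfer {n l : ℕ} [Fact l.Prime] (hl : ¬ l ∣ n)
    {x : Additive (Gamma0 n) →+ R} (hx : IsCuspidal x) : IsCuspidal (heckeTransfer hl x) := by
  obtain ⟨-, -, -, hHC, -⟩ := Fermat.Agent.S41.H281.hkStatement.{0}
  exact hHC n l hl R x hx

end Dom

section Functional

variable {R : Type} [CommRing R] {n : ℕ}

/-- The functional `v ↦ ⟨x, v⟩` on a submodule of cuspidal classes. -/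
noncomputable def pairL (hn : n ≠ 0) (V : Submodule R (Additive (Gamma0 n) →+ R))
    (hV : ∀ v ∈ V, IsCuspidal v) {x : Additive (Gamma0 n) →+ R} (hx : IsCuspidal x) :
    V →ₗ[R] R where
  toFun v := maninPairing (Gamma0 n) x (v : Additive (Gamma0 n) →+ R)
  map_add' v w := by
    have := finiteIndex_Gamma0' hn
    exact maninPairing_add_right (neg_one_mem_Gamma0' n) hx (hV v v.2) (hV w w.2)
  map_smul' c v := by
    have := finiteIndex_Gamma0' hn
    exact maninPairing_smul_right (neg_one_mem_Gamma0' n) c hx (hV v v.2)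

@[simp] theorem pairL_apply (hn : n ≠ 0) (V : Submodule R (Additive (Gamma0 n) →+ R))
    (hV : ∀ v ∈ V, IsCuspidal v) {x : Additive (Gamma0 n) →+ R} (hx : IsCuspidal x) (v : V) :
    pairL hn V hV hx v = maninPairing (Gamma0 n) x (v : Additive (Gamma0 n) →+ R) := rfl

end Functional

end Fermat.Agent.S59.TW.Aut.H959

end
-- ===== PACK-END S59/TW/Aut/H959/PairDom.lean

-- ===== PACK-BEGIN S59/TW/Aut/H959/Pair.lean
section




/-!
# Row S59, cell TW, layer 3 (AUT), leaf PAIR — the bridge clause of the module form (helper959)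

Board v4 of row S59 (`coord/S59.md`, §1): the target of the cell TW is `Arch.MinRTMStatement`, so
the automorphic module `M₀` of `TW.AutStatement` has to satisfy

  `(∃ d b, Bijective (Fintype.linearCombination T_min b)) →
      ∀ π : T_min →ₐ[𝒪] 𝒪, PairInv N_min Smin Smin (eigOf π) (η_π ^ 2)`.

For the module of layer 3 (`M₀ = ModOf V₀ a₀`, `V₀` the localisation of `X_{Γ₀(N₀)}(𝒪)` at the
maximal ideal of the package, `TW/Aut/Spec.lean`) this is `pairInv_of_basis`: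

* every eigenclass with eigenvalues `π (T_ℓ)` lies in `V₀` (`eigen_mem`: fullness of the
  localisation + Krull's intersection theorem);
* `T_min` acts on it through `π` (`act_eigen`), so its coordinates in a `T_min`-basis of `V₀` lie
  in `Ann (ker π)`;
* the Hecke operators are self-adjoint for the Manin pairing (`pairing_hecke_dom`), so
  `⟨x, s v⟩ = π (s) ⟨x, v⟩` for an eigenclass `x` (`pair_act`);
* hence `⟨x, y⟩ = ∑ π (c_i) ⟨x, b_i⟩ ∈ π (Ann (ker π)) = η_π`.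

The only input which is not proved here is the cuspidality of `V₀` (leaf CUSP of layer 3: the
localisation at a non-Eisenstein maximal ideal is cuspidal), a hypothesis of `pairInv_of_basis`.
-/

set_option autoImplicit false

open Polynomial IsLocalRing CongruenceSubgroup
open scoped MatrixGroups

namespace Fermat.Agent.S59.TW.Aut.H959

open Fermat.Agent.S59.Arch Fermat.Agent.S59.TW.H959 Fermat.Agent.S59.TW.H653
open Fermat.Agent.S59.TW.Aut
open Fermat.Agent.S29.H642 Fermat.Agent.S41.Spec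

/-! ## Points of the Hecke ring -/

section Point

variable {p : ℕ}
  {𝒪 : Type} [CommRing 𝒪] [IsDomain 𝒪] [IsDiscreteValuationRing 𝒪]
  [IsAdicComplete (maximalIdeal 𝒪) 𝒪]
  {ρbar : ResidualGaloisRep (ResidueField 𝒪)} {t : PType} {Smin Sig : Finset ℕ}
  [NeZero (wilesLevel p t Smin Sig)]
  (P : HeckePkg p 𝒪 ρbar t Smin Sig)

/-- An `𝒪`-point of the Hecke ring maps the maximal ideal to the maximal ideal. -/
theorem point_mem_maximalIdeal (π : P.T →ₐ[𝒪] 𝒪) {s : P.T} (hs : s ∈ maximalIdeal P.T) :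
    π s ∈ maximalIdeal 𝒪 := by
  have hsurj : Function.Surjective (π : P.T →+* 𝒪) := fun c =>
    ⟨algebraMap 𝒪 P.T c, by simp⟩
  have hmax : ((maximalIdeal 𝒪).comap (π : P.T →+* 𝒪)).IsMaximal :=
    Ideal.comap_isMaximal_of_surjective _ hsurj
  have h := IsLocalRing.eq_maximalIdeal hmax
  rw [← h] at hs
  exact hs

/-- The eigenvalues of an `𝒪`-point reduce to the residual character. -/
theorem residue_point (π : P.T →ₐ[𝒪] 𝒪)
    (s : CuspForm.heckeAlgebra (wilesLevel p t Smin Sig) 2 (↑Sig : Set ℕ)) :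
    residue 𝒪 (π (P.H.π s)) = P.θ s := by
  obtain ⟨c, hc⟩ := residue_surjective (P.θ s)
  have h1 := P.H.residue_π s
  rw [← hc, ResidueField.map_residue] at h1
  have h2 : P.H.π s - algebraMap 𝒪 P.T c ∈ maximalIdeal P.T := by
    rw [← residue_eq_zero_iff, map_sub, h1, sub_self]
  have h3 := point_mem_maximalIdeal P π h2
  rw [map_sub, AlgHom.commutes, ← residue_eq_zero_iff, map_sub, sub_eq_zero] at h3
  rw [h3, ← hc]
  rfl

end Point

/-! ## Eigenclasses lie in the localisation -/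

section Eigen

variable {p : ℕ} [hpF : Fact p.Prime]
  {𝒪 : Type} [CommRing 𝒪] [IsDomain 𝒪] [IsDiscreteValuationRing 𝒪]
  [IsAdicComplete (maximalIdeal 𝒪) 𝒪]
  {ρbar : ResidualGaloisRep (ResidueField 𝒪)} {t : PType} {Smin : Finset ℕ}
  [NeZero (wilesLevel p t Smin Smin)]
  (P₀ : HeckePkg p 𝒪 ρbar t Smin Smin)
  (V₀ : Submodule 𝒪 (Additive (Gamma0 (wilesLevel p t Smin Smin)) →+ 𝒪))

/-- `x` is an eigenclass for the eigenvalues of the point `π` (no cuspidality required). -/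
def IsEigen (π : P₀.T →ₐ[𝒪] 𝒪)
    (x : Additive (Gamma0 (wilesLevel p t Smin Smin)) →+ 𝒪) : Prop :=
  ∀ (l : ℕ) [Fact l.Prime] (hl : ¬ l ∣ wilesLevel p t Smin Smin), l ∉ Smin →
    heckeTransfer hl x =
      eigOf (wilesLevel p t Smin Smin) (↑Smin : Set ℕ) 𝒪 P₀.θ π l • x

theorem IsEigenclass.isEigen {π : P₀.T →ₐ[𝒪] 𝒪} {dual : Bool}
    {x : Additive (Gamma0 (wilesLevel p t Smin Smin)) →+ 𝒪}
    (hx : IsEigenclass (wilesLevel p t Smin Smin) Smin Smin
      (eigOf (wilesLevel p t Smin Smin) (↑Smin : Set ℕ) 𝒪 P₀.θ π) dual x) :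
    IsEigen P₀ π x := fun l _ hl hlS => hx.2.1 l hl hlS

omit [IsDomain 𝒪] [IsDiscreteValuationRing 𝒪] [IsAdicComplete (maximalIdeal 𝒪) 𝒪] in
theorem smul_eq_comp (c : 𝒪) {Γ : Type} [Group Γ] (x : Additive Γ →+ 𝒪) :
    c • x = (AddMonoidHom.mulLeft c).comp x := by
  ext γ
  rfl

omit [IsDomain 𝒪] [IsDiscreteValuationRing 𝒪] [IsAdicComplete (maximalIdeal 𝒪) 𝒪] in
theorem heckeTransfer_smul' {n l : ℕ} [Fact l.Prime] (hl : ¬ l ∣ n) (c : 𝒪)
    (x : Additive (Gamma0 n) →+ 𝒪) :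
    heckeTransfer hl (c • x) = c • heckeTransfer hl x := by
  rw [← TK_Gamma0 hl, ← TK_Gamma0 hl, smul_eq_comp, smul_eq_comp,
    TK_comp (isMid_Gamma0 n) hl]

omit [IsDomain 𝒪] [IsDiscreteValuationRing 𝒪] [IsAdicComplete (maximalIdeal 𝒪) 𝒪] in
theorem heckeTransfer_sub' {n l : ℕ} [Fact l.Prime] (hl : ¬ l ∣ n)
    (x y : Additive (Gamma0 n) →+ 𝒪) :
    heckeTransfer hl (x - y) = heckeTransfer hl x - heckeTransfer hl y := by
  have h := TK_add (isMid_Gamma0 n) hl (x - y) y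
  rw [sub_add_cancel, TK_Gamma0 hl, TK_Gamma0 hl, TK_Gamma0 hl] at h
  rw [h, add_sub_cancel_right]

include hpF in
/-- **Eigenclasses with eigenvalues `π (T_ℓ)` lie in the localisation `V₀`.** -/
theorem eigen_mem (hV₀ : IsMinPart P₀ V₀) (π : P₀.T →ₐ[𝒪] 𝒪)
    {x : Additive (Gamma0 (wilesLevel p t Smin Smin)) →+ 𝒪} (hx : IsEigen P₀ π x) :
    x ∈ V₀ := by
  obtain ⟨e, he1, he2, he3, he4, -, -, hfull⟩ := hV₀.exists_proj
  obtain ⟨ϖ, hϖ⟩ := IsDiscreteValuationRing.exists_irreducible 𝒪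
  have hϖ0 : ϖ ≠ 0 := hϖ.ne_zero
  have hmax : maximalIdeal 𝒪 = Ideal.span {ϖ} := hϖ.maximalIdeal_eq
  -- torsion-freeness
  have htf : ∀ z : Additive (Gamma0 (wilesLevel p t Smin Smin)) →+ 𝒪, ϖ • z = 0 → z = 0 := by
    intro z hz
    ext γ
    have h1 : ϖ * z γ = 0 := by
      have := congrArg (fun f : Additive (Gamma0 (wilesLevel p t Smin Smin)) →+ 𝒪 => f γ) hz
      exact this
    rcases mul_eq_zero.mp h1 with h2 | h2
    · exact absurd h2 hϖ0
    · exact h2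
  -- the eigenvalue equation in the vocabulary of `IsLocPart`
  have hstep : ∀ z : Additive (Gamma0 (wilesLevel p t Smin Smin)) →+ 𝒪,
      e z = 0 → IsEigen P₀ π z → ∃ z', z = ϖ • z' ∧ e z' = 0 ∧ IsEigen P₀ π z' := by
    intro z hez hz
    have hzm : z ∈ mX (Gamma0 (wilesLevel p t Smin Smin)) 𝒪 := by
      refine hfull z hez ?_ ?_
      · intro ℓ _ c hc
        obtain ⟨hℓ, hℓN, hℓS, hres⟩ := hc
        have hℓN' : ¬ ℓ ∣ wilesLevel p t Smin Smin := hℓN
        have hℓS' : ℓ ∉ Smin := fun hm => hℓS (Finset.mem_coe.mpr hm)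
        rw [TK_Gamma0 hℓN', hz ℓ hℓN' hℓS', ← sub_smul]
        refine Submodule.smul_mem_smul ?_ Submodule.mem_top
        rw [← residue_eq_zero_iff, map_sub, hres, eigOf_eq _ _ _ _ π hℓ hℓN hℓS, ← P₀.hπ,
          residue_point P₀ π, sub_self]
      · intro q _ α hα
        exact absurd hα (Set.notMem_empty _)
    unfold mX at hzm
    rw [hmax, Submodule.ideal_span_singleton_smul] at hzm
    obtain ⟨z', -, hz'⟩ := (Submodule.mem_smul_pointwise_iff_exists _ _ _).mp hzm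
    refine ⟨z', hz'.symm, ?_, ?_⟩
    · apply htf
      rw [← map_smul, hz', hez]
    · intro l _ hl hlS
      have h1 := hz l hl hlS
      rw [← hz', heckeTransfer_smul', smul_comm] at h1
      have h2 : ϖ • (heckeTransfer hl z' -
          eigOf (wilesLevel p t Smin Smin) (↑Smin : Set ℕ) 𝒪 P₀.θ π l • z') = 0 := by
        rw [smul_sub, h1, sub_self]
      exact sub_eq_zero.mp (htf _ h2)
  have hpow : ∀ (n : ℕ) (z : Additive (Gamma0 (wilesLevel p t Smin Smin)) →+ 𝒪),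
      e z = 0 → IsEigen P₀ π z → ∃ z', z = ϖ ^ n • z' := by
    intro n
    induction n with
    | zero => intro z _ _; exact ⟨z, by rw [pow_zero, one_smul]⟩
    | succ n ih =>
      intro z hez hz
      obtain ⟨z₁, h1, h2, h3⟩ := hstep z hez hz
      obtain ⟨z₂, h4⟩ := ih z₁ h2 h3
      exact ⟨z₂, by rw [h1, h4, smul_smul, pow_succ']⟩
  -- `z = x - e x`
  have hez : e (x - e x) = 0 := by rw [map_sub, he1, sub_self]
  have hzE : IsEigen P₀ π (x - e x) := by
    intro l _ hl hlS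
    have h1 := he4 l hl x
    rw [TK_Gamma0 hl, TK_Gamma0 hl, hx l hl hlS, map_smul] at h1
    rw [heckeTransfer_sub', hx l hl hlS, ← h1, smul_sub]
  have hz0 : x - e x = 0 := by
    ext γ
    have hmem : ∀ n : ℕ, (x - e x) γ ∈ maximalIdeal 𝒪 ^ n := by
      intro n
      obtain ⟨z', hz'⟩ := hpow n _ hez hzE
      rw [hz', hmax, Ideal.span_singleton_pow]
      exact Ideal.mem_span_singleton.mpr ⟨z' γ, rfl⟩
    have hbot : (⨅ i, maximalIdeal 𝒪 ^ i) = ⊥ :=
      Ideal.iInf_pow_eq_bot_of_isLocalRing _ (maximalIdeal.isMaximal 𝒪).ne_top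
    have : (x - e x) γ ∈ (⨅ i, maximalIdeal 𝒪 ^ i) := by
      rw [Ideal.mem_iInf]
      exact hmem
    rw [hbot] at this
    exact this
  rw [sub_eq_zero.mp hz0]
  exact he2 x

end Eigen

/-! ## The action of the Hecke ring on eigenclasses and on the pairing -/

section Act

variable {p : ℕ} [hpF : Fact p.Prime]
  {𝒪 : Type} [CommRing 𝒪] [IsDomain 𝒪] [IsDiscreteValuationRing 𝒪]
  [IsAdicComplete (maximalIdeal 𝒪) 𝒪]
  {ρbar : ResidualGaloisRep (ResidueField 𝒪)} {t : PType} {Smin : Finset ℕ}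
  [NeZero (wilesLevel p t Smin Smin)]
  (P₀ : HeckePkg p 𝒪 ρbar t Smin Smin)
  (V₀ : Submodule 𝒪 (Additive (Gamma0 (wilesLevel p t Smin Smin)) →+ 𝒪))
  (a₀ : P₀.T →ₐ[𝒪] Module.End 𝒪 V₀)

include hpF in
/-- `a₀ (T_ℓ)` is the Hecke transfer. -/
theorem act_T (ha₀ : IsMinAction P₀ V₀ a₀) {ℓ : ℕ} [Fact ℓ.Prime] (hℓ : ℓ.Prime)
    (hℓN : ¬ ℓ ∣ wilesLevel p t Smin Smin) (hℓS : ℓ ∉ (↑Smin : Set ℕ)) (v : V₀) :
    ((a₀ (P₀.H.π (CuspForm.heckeAlgebra.T hℓ hℓN hℓS)) v : V₀) :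
      Additive (Gamma0 (wilesLevel p t Smin Smin)) →+ 𝒪) = heckeTransfer hℓN v := by
  rw [ha₀ ℓ hℓ hℓN hℓS v, ← TK_Gamma0 hℓN]
  rfl

include hpF in
/-- **The Hecke ring acts on an eigenclass through the point `π`.** -/
theorem act_eigen (h : ResidualHyp p 𝒪 ρbar Smin) (ha₀ : IsMinAction P₀ V₀ a₀)
    (π : P₀.T →ₐ[𝒪] 𝒪) (y : V₀)
    (hy : IsEigen P₀ π (y : Additive (Gamma0 (wilesLevel p t Smin Smin)) →+ 𝒪)) (s : P₀.T) :
    a₀ s y = π s • y := by
  refine pkg_induction P₀ (fun q hq hqN => Finset.mem_coe.mpr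
    (_root_.Fermat.Agent.S59.Arch.mem_of_prime_dvd_wilesLevel hpF.out h.hSmin h.hSmin h.hpSmin (Finset.Subset.refl _)
      q hq hqN)) (fun s => a₀ s y = π s • y) ?_ ?_ ?_ ?_ s
  · intro c
    rw [AlgHom.commutes, AlgHom.commutes]
    rfl
  · intro s s' hs hs'
    rw [map_add, LinearMap.add_apply, hs, hs', map_add, add_smul]
  · intro s s' hs hs'
    rw [map_mul, Module.End.mul_apply, hs', map_smul, hs, map_mul, smul_smul, mul_comm]
  · intro ℓ hℓ hℓN hℓS
    have : Fact ℓ.Prime := ⟨hℓ⟩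
    apply Subtype.ext
    rw [act_T P₀ V₀ a₀ ha₀ hℓ hℓN hℓS y,
      hy ℓ hℓN (fun hm => hℓS (Finset.mem_coe.mpr hm)), eigOf_eq _ _ _ _ π hℓ hℓN hℓS, ← P₀.hπ]
    rfl

include hpF in
/-- **The pairing with an eigenclass is `π`-semilinear on `V₀`.** -/
theorem pair_act (h : ResidualHyp p 𝒪 ρbar Smin) (ha₀ : IsMinAction P₀ V₀ a₀)
    (hcusp : ∀ v ∈ V₀, IsCuspidal v) (π : P₀.T →ₐ[𝒪] 𝒪)
    {x : Additive (Gamma0 (wilesLevel p t Smin Smin)) →+ 𝒪} (hxc : IsCuspidal x)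
    (hx : IsEigen P₀ π x) (s : P₀.T) (v : V₀) :
    pairL (NeZero.ne _) V₀ hcusp hxc (a₀ s v) = π s * pairL (NeZero.ne _) V₀ hcusp hxc v := by
  revert v
  refine pkg_induction P₀ (fun q hq hqN => Finset.mem_coe.mpr
    (_root_.Fermat.Agent.S59.Arch.mem_of_prime_dvd_wilesLevel hpF.out h.hSmin h.hSmin h.hpSmin (Finset.Subset.refl _)
      q hq hqN))
    (fun s => ∀ v : V₀, pairL (NeZero.ne _) V₀ hcusp hxc (a₀ s v) =
      π s * pairL (NeZero.ne _) V₀ hcusp hxc v) ?_ ?_ ?_ ?_ s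
  · intro c v
    rw [AlgHom.commutes, AlgHom.commutes]
    exact (pairL (NeZero.ne _) V₀ hcusp hxc).map_smul c v
  · intro s s' hs hs' v
    rw [map_add, LinearMap.add_apply, map_add, hs, hs', map_add, add_mul]
  · intro s s' hs hs' v
    rw [map_mul, Module.End.mul_apply, hs, hs', map_mul, mul_assoc]
  · intro ℓ hℓ hℓN hℓS v
    have : Fact ℓ.Prime := ⟨hℓ⟩
    rw [pairL_apply, pairL_apply, act_T P₀ V₀ a₀ ha₀ hℓ hℓN hℓS v,
      ← pairing_hecke_dom hℓN (NeZero.ne _) x v hxc (hcusp v v.2),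
      hx ℓ hℓN (fun hm => hℓS (Finset.mem_coe.mpr hm)), eigOf_eq _ _ _ _ π hℓ hℓN hℓS, ← P₀.hπ]
    have := Fermat.Agent.S59.H585.finiteIndex_Gamma0' (NeZero.ne (wilesLevel p t Smin Smin))
    exact Fermat.Agent.S59.H585.maninPairing_smul_left
      (Fermat.Agent.S59.H585.neg_one_mem_Gamma0' _) _ hxc (hcusp v v.2)

end Act

/-! ## The bridge clause -/

section Main

variable {p : ℕ} [hpF : Fact p.Prime]
  {𝒪 : Type} [CommRing 𝒪] [IsDomain 𝒪] [IsDiscreteValuationRing 𝒪]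
  [IsAdicComplete (maximalIdeal 𝒪) 𝒪]
  {ρbar : ResidualGaloisRep (ResidueField 𝒪)} {t : PType} {Smin : Finset ℕ}
  [NeZero (wilesLevel p t Smin Smin)]
  (P₀ : HeckePkg p 𝒪 ρbar t Smin Smin)
  (V₀ : Submodule 𝒪 (Additive (Gamma0 (wilesLevel p t Smin Smin)) →+ 𝒪))
  (a₀ : P₀.T →ₐ[𝒪] Module.End 𝒪 V₀)

include hpF in
/-- **The pairing of two eigenclasses lies in the congruence ideal**, if `V₀` is free over
`T_min`. -/
theorem pairing_mem_congIdeal (h : ResidualHyp p 𝒪 ρbar Smin) (hV₀ : IsMinPart P₀ V₀)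
    (ha₀ : IsMinAction P₀ V₀ a₀) (hcusp : ∀ v ∈ V₀, IsCuspidal v)
    {d : ℕ} (b : Fin d → ModOf V₀ a₀)
    (hb : Function.Bijective (Fintype.linearCombination P₀.T b))
    (π : P₀.T →ₐ[𝒪] 𝒪) {x y : Additive (Gamma0 (wilesLevel p t Smin Smin)) →+ 𝒪}
    (hxc : IsCuspidal x) (hx : IsEigen P₀ π x) (hy : IsEigen P₀ π y) :
    maninPairing (Gamma0 (wilesLevel p t Smin Smin)) x y ∈ NC.congIdeal π := by
  have hyV : y ∈ V₀ := eigen_mem P₀ V₀ hV₀ π hy
  set y' : V₀ := ⟨y, hyV⟩ with hy'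
  obtain ⟨c, hc⟩ := hb.2 (ModOf.mk V₀ a₀ y')
  rw [Fintype.linearCombination_apply] at hc
  -- the coordinates lie in `Ann (ker π)`
  have hact : ∀ s : P₀.T, s • ModOf.mk V₀ a₀ y' = algebraMap 𝒪 P₀.T (π s) • ModOf.mk V₀ a₀ y' := by
    intro s
    apply ModOf.val_injective
    rw [ModOf.val_smul, ModOf.val_algebraMap_smul, ModOf.val_mk]
    exact act_eigen P₀ V₀ a₀ h ha₀ π y' hy s
  have hcoord : ∀ (s : P₀.T) (i : Fin d), s * c i = algebraMap 𝒪 P₀.T (π s) * c i := by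
    intro s
    have h1 : Fintype.linearCombination P₀.T b (fun i => s * c i) =
        Fintype.linearCombination P₀.T b (fun i => algebraMap 𝒪 P₀.T (π s) * c i) := by
      rw [Fintype.linearCombination_apply, Fintype.linearCombination_apply]
      simp only [mul_smul]
      rw [← Finset.smul_sum, ← Finset.smul_sum, hc]
      exact hact s
    exact fun i => congrFun (hb.1 h1) i
  have hann : ∀ i, c i ∈ NC.annAug π := by
    intro i
    rw [NC.mem_annAug]
    intro s hs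
    rw [NC.mem_augIdeal] at hs
    rw [mul_comm, hcoord s i, hs, map_zero, zero_mul]
  -- the pairing
  have hsum : (y' : V₀) = ∑ i, a₀ (c i) (ModOf.val V₀ a₀ (b i)) := by
    have h1 := congrArg (ModOf.val V₀ a₀) hc
    rw [ModOf.val_sum, ModOf.val_mk] at h1
    rw [← h1]
    rfl
  have hpair : maninPairing (Gamma0 (wilesLevel p t Smin Smin)) x y =
      pairL (NeZero.ne _) V₀ hcusp hxc y' := rfl
  rw [hpair, hsum, map_sum]
  refine Ideal.sum_mem _ fun i _ => ?_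
  rw [pair_act P₀ V₀ a₀ h ha₀ hcusp π hxc hx]
  exact Ideal.mul_mem_right _ _ (Ideal.mem_map_of_mem _ (hann i))

include hpF in
/-- **Leaf PAIR: the bridge clause of the module form**, for the module `ModOf V₀ a₀` of
layer 3. -/
theorem pairInv_of_basis (h : ResidualHyp p 𝒪 ρbar Smin) (hV₀ : IsMinPart P₀ V₀)
    (ha₀ : IsMinAction P₀ V₀ a₀) (hcusp : ∀ v ∈ V₀, IsCuspidal v)
    (hbasis : ∃ (d : ℕ) (b : Fin d → ModOf V₀ a₀),
      Function.Bijective (Fintype.linearCombination P₀.T b))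
    (π : P₀.T →ₐ[𝒪] 𝒪) :
    PairInv (wilesLevel p t Smin Smin) Smin Smin
      (eigOf (wilesLevel p t Smin Smin) (↑Smin : Set ℕ) 𝒪 P₀.θ π) (NC.congIdeal π ^ 2) := by
  obtain ⟨d, b, hb⟩ := hbasis
  intro x₁ x₂ y₁ y₂ hx₁ hx₂ hy₁ hy₂
  have key : ∀ {x y : Additive (Gamma0 (wilesLevel p t Smin Smin)) →+ 𝒪},
      IsEigenclass (wilesLevel p t Smin Smin) Smin Smin
        (eigOf (wilesLevel p t Smin Smin) (↑Smin : Set ℕ) 𝒪 P₀.θ π) false x →
      IsEigenclass (wilesLevel p t Smin Smin) Smin Smin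
        (eigOf (wilesLevel p t Smin Smin) (↑Smin : Set ℕ) 𝒪 P₀.θ π) true y →
      maninPairing (Gamma0 (wilesLevel p t Smin Smin)) x y ∈ NC.congIdeal π :=
    fun hx hy => pairing_mem_congIdeal P₀ V₀ a₀ h hV₀ ha₀ hcusp b hb π hx.1
      (IsEigenclass.isEigen P₀ hx) (IsEigenclass.isEigen P₀ hy)
  rw [pow_two]
  exact Ideal.sub_mem _ (Ideal.mul_mem_mul (key hx₁ hy₁) (key hx₂ hy₂))
    (Ideal.mul_mem_mul (key hx₁ hy₂) (key hx₂ hy₁))

end Main

end Fermat.Agent.S59.TW.Aut.H959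

end
-- ===== PACK-END S59/TW/Aut/H959/Pair.lean

-- ===== PACK-BEGIN S55/G/Rec/Tow/H414/Ram.lean
section






/-!
# S55 / layer G / block REC / adapter TOW : leaf RAM (`RamSpec p`)   (helper414)

For a level `L` of `S`, a prime `p` and `k`: choose a prime `r ∉ S`, `r ≡ 1 mod p^k`, and put
`M = L · L(r, p^k)`, `L(r, n) = auxField63 r n ⊂ ℚ(ζ_r)` (helper63, `H63AuxField`).  Then `M` is a
level of `S ∪ {r}`, `Gal(M/L) ≅ Gal(L(r, p^k)/ℚ)` has order `p^k` and is the image of the inertia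
group of any place of `ℚ̄` over `r`; in particular it fixes the prime of `M` below such a place.
-/

set_option autoImplicit false
set_option linter.style.haveILetI false
set_option linter.unusedSectionVars false

noncomputable section

namespace Fermat.Agent.S55.G.Rec.TOW.H414

open Fermat.Agent.S55 Fermat.Agent.S55.Tow Fermat.Agent.S55.E1.H594 Fermat.Agent.S55.G.Rec
open Fermat.Agent.S54 Fermat.Agent.S55.Bridge Fermat.Agent.S55.Bridge.H594
open IsDedekindDomain NumberField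

/-! ## The auxiliary prime -/

theorem exists_aux_prime (S : Finset Nat.Primes) (n : ℕ) (hn : n ≠ 0) :
    ∃ r : Nat.Primes, r ∉ S ∧ n ∣ (r : ℕ) - 1 := by
  obtain ⟨r, hr, hlt, hmod⟩ := Nat.exists_prime_gt_modEq_one (S.sup fun q => (q : ℕ)) hn
  refine ⟨⟨r, hr⟩, fun hmem => ?_, ?_⟩
  · have h1 : ((⟨r, hr⟩ : Nat.Primes) : ℕ) ≤ S.sup fun q => (q : ℕ) :=
      Finset.le_sup (f := fun q : Nat.Primes => (q : ℕ)) hmem
    exact absurd hlt (not_lt.2 h1)
  · exact (Nat.modEq_iff_dvd' hr.one_lt.le).1 hmod.symm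

/-! ## The auxiliary level -/

section Level

variable {S : Finset Nat.Primes} (L : Level S) (r : Nat.Primes) (n : ℕ)

/-- the instance `Fact r.Prime` of a `r : Nat.Primes` -/
local instance factPrime414 : Fact (r : ℕ).Prime := ⟨r.2⟩

/-- The level `M = L · L(r, n)` of `S ∪ {r}`. -/
def ramLevel : Level (insert r S) where
  F := L.F ⊔ auxField63 (r : ℕ) n
  unram := (L.unram.mono (Finset.subset_insert r S)).sup
    (auxField63_isUnramifiedOutside (r : ℕ) n (insert r S) (Finset.mem_insert_self r S))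
  normalU := by
    rw [IntermediateField.fixingSubgroup_sup]
    haveI := L.normalU
    haveI : ((auxField63 (r : ℕ) n).fixingSubgroup).Normal := by
      rw [fixingSubgroup_auxField63]
      infer_instance
    infer_instance

theorem le_ramLevel : Level.ofLE (Finset.subset_insert r S) L ≤ ramLevel L r n :=
  (le_sup_left : L.F ≤ L.F ⊔ auxField63 (r : ℕ) n)

theorem ramLevel_U : (ramLevel L r n).U = L.U ⊓ (auxChar63 (r : ℕ) n).ker := by
  show (L.F ⊔ auxField63 (r : ℕ) n).fixingSubgroup = _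
  rw [IntermediateField.fixingSubgroup_sup, fixingSubgroup_auxField63]
  rfl

/-- The character of `Gal(M/ℚ)` cutting out `L(r, n)`. -/
def ramChar : (ramLevel L r n).Gal →* (ZMod (r : ℕ))ˣ ⧸ powSubgroup63 (r : ℕ) n :=
  QuotientGroup.lift (ramLevel L r n).U (auxChar63 (r : ℕ) n) fun g hg => by
    rw [ramLevel_U] at hg
    exact hg.2

@[simp] theorem ramChar_mk (g : _root_.Fermat.Agent.S55.Tow.GQ) :
    ramChar L r n (QuotientGroup.mk g : (ramLevel L r n).Gal) = auxChar63 (r : ℕ) n g := rfl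

theorem mk_mem_relGal_iff (g : _root_.Fermat.Agent.S55.Tow.GQ) :
    (QuotientGroup.mk g : (ramLevel L r n).Gal) ∈ Level.relGal (le_ramLevel L r n) ↔ g ∈ L.U := by
  show (Level.proj (le_ramLevel L r n)) (QuotientGroup.mk g) = 1 ↔ _
  show (QuotientGroup.mk g : (Level.ofLE (Finset.subset_insert r S) L).Gal) = 1 ↔ _
  rw [QuotientGroup.eq_one_iff]
  rfl

/-- Inertia at `r` lies in `Gal(ℚ̄/L)`. -/
theorem inertia_le_U (hr : r ∉ S) (A : ValuationSubring Qbar) (hA : A.LiesOverPrime (r : ℕ)) :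
    A.inertiaSubgroupIn ℚ ≤ L.U :=
  L.unram.2 r hr A hA

/-- Every element of `Gal(M/L)` is the image of an element of the inertia group of `A`. -/
theorem exists_inertia_mk_eq (hr : r ∉ S) (A : ValuationSubring Qbar)
    (hA : A.LiesOverPrime (r : ℕ)) (z : (ramLevel L r n).Gal)
    (hz : z ∈ Level.relGal (le_ramLevel L r n)) :
    ∃ σ ∈ A.inertiaSubgroupIn ℚ, (QuotientGroup.mk σ : (ramLevel L r n).Gal) = z := by
  obtain ⟨g, rfl⟩ := QuotientGroup.mk_surjective z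
  have hg : g ∈ L.U := (_root_.Fermat.Agent.S55.G.Rec.TOW.H414.mk_mem_relGal_iff L r n g).1 hz
  obtain ⟨σ, hσ, h⟩ := exists_inertia_auxChar_eq63 (r : ℕ) n A hA g
  refine ⟨σ, hσ, ?_⟩
  have hmem : σ⁻¹ * g ∈ L.U ⊓ (auxChar63 (r : ℕ) n).ker :=
    Subgroup.mem_inf.2 ⟨L.U.mul_mem (L.U.inv_mem (inertia_le_U L r hr A hA hσ)) hg,
      MonoidHom.mem_ker.2 (by rw [map_mul, map_inv, h, inv_mul_cancel])⟩
  rw [← ramLevel_U] at hmem
  exact QuotientGroup.eq.2 hmem

theorem ramChar_bijective (hr : r ∉ S) :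
    Function.Bijective ((ramChar L r n).comp (Level.relGal (le_ramLevel L r n)).subtype) := by
  constructor
  · rw [injective_iff_map_eq_one]
    rintro ⟨z, hz⟩ h
    obtain ⟨g, rfl⟩ := QuotientGroup.mk_surjective z
    have hg : g ∈ L.U := (_root_.Fermat.Agent.S55.G.Rec.TOW.H414.mk_mem_relGal_iff L r n g).1 hz
    have h1 : auxChar63 (r : ℕ) n g = 1 := h
    apply Subtype.ext
    show (QuotientGroup.mk g : (ramLevel L r n).Gal) = 1
    rw [QuotientGroup.eq_one_iff, ramLevel_U]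
    exact ⟨hg, h1⟩
  · intro c
    obtain ⟨g₀, rfl⟩ := auxChar63_surjective (r : ℕ) n c
    obtain ⟨A, hA⟩ := exists_valuationSubring_liesOver (r : ℕ) r.2
    obtain ⟨σ, hσ, h⟩ := exists_inertia_auxChar_eq63 (r : ℕ) n A hA g₀
    refine ⟨⟨QuotientGroup.mk σ, (_root_.Fermat.Agent.S55.G.Rec.TOW.H414.mk_mem_relGal_iff L r n σ).2 (inertia_le_U L r hr A hA hσ)⟩, ?_⟩
    exact h

theorem card_relGal (hr : r ∉ S) (hn : n ∣ (r : ℕ) - 1) :
    Nat.card (Level.relGal (le_ramLevel L r n)) = n := by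
  rw [Nat.card_congr (Equiv.ofBijective _ (ramChar_bijective L r n hr))]
  exact card_quotient_powSubgroup63 (r : ℕ) n hn

/-! ## `Gal(M/L)` fixes a prime above `r` -/

attribute [local instance] isAlgebraic_Qbar isGalois_Qbar

theorem algebraMap_mk_smul {T : Finset Nat.Primes} (M : Level T) (σ : _root_.Fermat.Agent.S55.Tow.GQ) (x : 𝓞 M.F) :
    algebraMap (𝓞 M.F) Qbar ((QuotientGroup.mk σ : M.Gal) • x) =
      σ (algebraMap (𝓞 M.F) Qbar x) :=
  level_mk_smul M σ (algebraMap (𝓞 M.F) M.F x)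

theorem smul_mem_primeBelowF_iff {T : Finset Nat.Primes} (M : Level T)
    (A : ValuationSubring Qbar) (σ : _root_.Fermat.Agent.S55.Tow.GQ) (hσ : σ ∈ A.inertiaSubgroupIn ℚ) (x : 𝓞 M.F) :
    (QuotientGroup.mk σ : M.Gal) • x ∈ primeBelowF M.F A ↔ x ∈ primeBelowF M.F A := by
  have key : (QuotientGroup.mk σ : M.Gal) • x - x ∈ primeBelowF M.F A := by
    rw [mem_primeBelowF, map_sub, algebraMap_mk_smul]
    exact ((mem_inertiaSubgroupIn_iff A σ).mp hσ).2 _ (algebraMap_ringOfIntegers_mem M.F A x)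
  constructor
  · intro h
    have := (primeBelowF M.F A).sub_mem h key
    simpa using this
  · intro h
    have := (primeBelowF M.F A).add_mem key h
    simpa using this

theorem fixesPrimeAbove_relGal (hr : r ∉ S) :
    FixesPrimeAbove (ramLevel L r n) r (Level.relGal (le_ramLevel L r n)) := by
  obtain ⟨A, hA⟩ := exists_valuationSubring_liesOver (r : ℕ) r.2
  refine ⟨placePrime (ramLevel L r n).F A r.2 hA,
    natCast_mem_primeBelowF (ramLevel L r n).F A hA, ?_⟩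
  intro z hz
  obtain ⟨σ, hσ, rfl⟩ := exists_inertia_mk_eq L r n hr A hA z hz
  apply HeightOneSpectrum.ext
  ext x
  rw [G.mem_primeSMul_iff]
  show (QuotientGroup.mk σ : (ramLevel L r n).Gal)⁻¹ • x ∈ primeBelowF (ramLevel L r n).F A ↔
    x ∈ primeBelowF (ramLevel L r n).F A
  exact smul_mem_primeBelowF_iff (ramLevel L r n) A σ⁻¹
    ((A.inertiaSubgroupIn ℚ).inv_mem hσ) x

end Level

/-- **RAM** (`RamSpec p`): the auxiliary level. -/
theorem ramSpec (p : ℕ) : RamSpec p := by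
  intro hp S L k
  obtain ⟨r, hr, hdvd⟩ := exists_aux_prime S (p ^ k) (pow_ne_zero k hp.ne_zero)
  exact ⟨r, hr, ramLevel L r (p ^ k), le_ramLevel L r (p ^ k),
    card_relGal L r (p ^ k) hr hdvd, fixesPrimeAbove_relGal L r (p ^ k) hr⟩

end Fermat.Agent.S55.G.Rec.TOW.H414

end
end
-- ===== PACK-END S55/G/Rec/Tow/H414/Ram.lean

-- ===== PACK-BEGIN S55/G/SIndH237/Main.lean
section
/-
S55 (Poitou–Tate), layer G, leaf G-SIND (`SIndepSpec`, independence of `S`; REC (O5)) — CLOSED.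

    sIndep : SIndepSpec        (unconditional)

Assembly `sIndep_of` (helper237, `SIndH237/Assembly.lean`) applied to the four sub-leaves
* `H959.approx        : ApproxSpec`         (weak approximation, helper959),
* `H63.int63          : IntSpec`            (principal integral units, helper63),
* `H870.prescribedOrd : PrescribedOrdSpec`  (prescribed orders, helper870),
* `H95.unitsCohTriv   : UnitsCohTrivSpec`   (unit idèles at unramified primes, helper95),
and to the twin-vanishing criterion `H295.twinVanishing` (layer T, helper295).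
-/







set_option autoImplicit false

namespace Fermat.Agent.S55.G.SIndH237

open Fermat.Agent.S55.G

/-- **G-SIND** from `UnitsCohTrivSpec` and twin vanishing. -/
theorem sIndep_of_uct (hU : UnitsCohTrivSpec) (hT : T.TwinVanishingSpec) : SIndepSpec :=
  sIndep_of H959.approx H63.int63 H870.prescribedOrd hU hT

/-- **G-SIND** (independence of `S`), unconditional. -/
theorem sIndep : SIndepSpec :=
  sIndep_of_uct H95.unitsCohTriv Fermat.Agent.S55.H295.twinVanishing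

end Fermat.Agent.S55.G.SIndH237

end
-- ===== PACK-END S55/G/SIndH237/Main.lean

-- ===== PACK-BEGIN S59/H601/PeuCoord.lean
section


/-!
# S59 / TW-STRICT / PEU-FLAT (helper601), part 3: the local coordinate datum

In the setting of `PeuLocal.lean`, with characters of `M` separating points:
`localCoordDatum601 : Nonempty (LocalCoordDatum p M act)` with coordinates
`Ψ m (c, ξ) = [m - c ∈ L] · ζ ^ ξ (m - c) · B_{c,ξ}`.
-/

set_option autoImplicit false
set_option linter.unusedSectionVars false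
set_option linter.unusedVariables false
set_option linter.style.haveILetI false

namespace Fermat.Agent.S59.H601

open Fermat.Agent.S19
open Fermat.Agent.S14.H714 (nonunits_add_mem nonunits_mul_mem)

section Coord

variable {p : ℕ} [Fact p.Prime] {M : Type} [AddCommGroup M]

open Classical in
/-- The coordinates. -/
noncomputable def psi601 (ζ : _root_.Fermat.Agent.S19.Qb) (L : AddSubgroup M) (Bf : M → (M →+ ZMod p) → _root_.Fermat.Agent.S19.Qb) (m : M)
    (i : M × (M →+ ZMod p)) : _root_.Fermat.Agent.S19.Qb :=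
  if m - i.1 ∈ L then ez601 ζ (i.2 (m - i.1)) * Bf i.1 i.2 else 0

theorem psi601_of_mem {ζ : _root_.Fermat.Agent.S19.Qb} {L : AddSubgroup M} (Bf : M → (M →+ ZMod p) → _root_.Fermat.Agent.S19.Qb) {m c : M}
    (ξ : M →+ ZMod p) (h : m - c ∈ L) :
    psi601 ζ L Bf m (c, ξ) = ez601 ζ (ξ (m - c)) * Bf c ξ := by
  unfold psi601
  rw [if_pos h]

theorem psi601_of_not_mem {ζ : _root_.Fermat.Agent.S19.Qb} {L : AddSubgroup M} (Bf : M → (M →+ ZMod p) → _root_.Fermat.Agent.S19.Qb) {m c : M}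
    (ξ : M →+ ZMod p) (h : m - c ∉ L) :
    psi601 ζ L Bf m (c, ξ) = 0 := by
  unfold psi601
  rw [if_neg h]

theorem finite_addMonoidHom601 [Finite M] : Finite (M →+ ZMod p) :=
  Finite.of_injective (fun f : M →+ ZMod p => (f : M → ZMod p)) DFunLike.coe_injective

variable [Finite M] {act : GalQ → M → M}
  (hact : IsContAddAction act) (P : ValuationSubring _root_.Fermat.Agent.S19.Qb) (hP : (p : _root_.Fermat.Agent.S19.Qb) ∈ P.nonunits)
  {ζ : _root_.Fermat.Agent.S19.Qb} (hζ : IsPrimitiveRoot ζ p) (L : AddSubgroup M)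
  (hI : ∀ σ, IsInertiaAt P σ → ∀ m, act σ m - m ∈ L)
  (hL : ∀ σ, IsInertiaAt P σ → ∀ l ∈ L, act σ l = (om601 hζ σ).val • l)
  (hpeu : ∀ (ξ : M →+ ZMod p) (c : M), ∃ B : _root_.Fermat.Agent.S19.Qb, P.valuation B = 1 ∧
      ∀ σ, IsInertiaAt P σ → σ ζ = ζ → σ B = ez601 ζ (ξ (act σ c - c)) * B)
  (hsep : ∀ x : M, (∀ ξ : M →+ ZMod p, ξ x = 0) → x = 0)

include hact hP hζ hI hL hpeu hsep in
/-- **The local coordinate datum of a peu ramifié extension.** -/
theorem localCoordDatum601 : Nonempty (LocalCoordDatum p M act) := by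
  classical
  have hp : p.Prime := Fact.out
  have hζp : ζ ^ p = 1 := hζ.pow_eq_one
  have hex := exists_unit601 hact P hP hζ L hI hL hpeu
  choose Bf hBfv hBfeq using hex
  have hBf0 : ∀ ξ c, Bf ξ c ≠ 0 := fun ξ c => ne_zero_of_val_eq_one601 P (hBfv ξ c)
  have hBfP : ∀ ξ c, Bf ξ c ∈ P := fun ξ c => mem_of_val_eq_one601 P (hBfv ξ c)
  have hBfinv : ∀ ξ c, (Bf ξ c)⁻¹ ∈ P := fun ξ c => inv_mem_of_val_eq_one601 P (hBfv ξ c)
  have hezP : ∀ x : ZMod p, ez601 ζ x ∈ P := fun x => root_mem601 P (ez601_pow hζp x)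
  -- the coordinates
  let Bg : M → (M →+ ZMod p) → _root_.Fermat.Agent.S19.Qb := fun c ξ => Bf ξ c
  let Ψ : M → M × (M →+ ZMod p) → _root_.Fermat.Agent.S19.Qb := psi601 ζ L Bg
  have hΨP : ∀ m i, Ψ m i ∈ P := by
    rintro m ⟨c, ξ⟩
    by_cases h : m - c ∈ L
    · show psi601 ζ L Bg m (c, ξ) ∈ P
      rw [psi601_of_mem Bg ξ h]
      exact P.mul_mem _ _ (hezP _) (hBfP ξ c)
    · show psi601 ζ L Bg m (c, ξ) ∈ P
      rw [psi601_of_not_mem Bg ξ h]
      exact P.zero_mem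
  haveI hfinHom : Finite (M →+ ZMod p) := finite_addMonoidHom601
  refine ⟨{ V := P
            ell_mem := hP
            ι := M × (M →+ ZMod p)
            fin := inferInstance
            Ψ := Ψ
            inj := ?_
            integral := hΨP
            equivariant := ?_
            add_mem := ?_ }⟩
  · -- injectivity
    intro m m' hmm
    have hkey : ∀ ξ : M →+ ZMod p, m' - m ∈ L ∧ ξ (m' - m) = 0 := by
      intro ξ
      have h1 : Ψ m (m, ξ) = Bf ξ m := by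
        show psi601 ζ L Bg m (m, ξ) = _
        rw [psi601_of_mem Bg ξ (by rw [sub_self]; exact L.zero_mem), sub_self, map_zero,
          ez601_zero, one_mul]
      have h2 : Ψ m' (m, ξ) = Bf ξ m := by
        rw [← congrFun hmm (m, ξ)]
        exact h1
      by_cases h : m' - m ∈ L
      · refine ⟨h, ?_⟩
        have h3 : psi601 ζ L Bg m' (m, ξ) = Bf ξ m := h2
        rw [psi601_of_mem Bg ξ h] at h3
        have h4 : ez601 ζ (ξ (m' - m)) = 1 := by
          have h5 : ez601 ζ (ξ (m' - m)) * Bf ξ m = 1 * Bf ξ m := by rw [one_mul]; exact h3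
          exact mul_right_cancel₀ (hBf0 ξ m) h5
        exact (ez601_eq_one_iff hζ _).mp h4
      · exfalso
        have h3 : psi601 ζ L Bg m' (m, ξ) = Bf ξ m := h2
        rw [psi601_of_not_mem Bg ξ h] at h3
        exact hBf0 ξ m h3.symm
    have h0 : m' - m = 0 := hsep _ fun ξ => (hkey ξ).2
    exact (sub_eq_zero.mp h0).symm
  · -- equivariance under inertia
    rintro σ hσ m ⟨c, ξ⟩
    show psi601 ζ L Bg (act σ m) (c, ξ) = σ (psi601 ζ L Bg m (c, ξ))
    by_cases h : m - c ∈ L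
    · have h' : act σ m - c ∈ L := (act_sub_mem_iff601 P L hI c m hσ).mpr h
      rw [psi601_of_mem Bg ξ h, psi601_of_mem Bg ξ h', map_mul, map_ez601 hζ,
        xi_act601 hact P hζ L hI hL ξ c m h hσ, ez601_add hζp]
      show _ * _ * Bf ξ c = _ * σ (Bf ξ c)
      rw [hBfeq ξ c σ hσ]
      ring
    · have h' : act σ m - c ∉ L := fun h' => h ((act_sub_mem_iff601 P L hI c m hσ).mp h')
      rw [psi601_of_not_mem Bg ξ h, psi601_of_not_mem Bg ξ h', map_zero]
  · -- the addition law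
    rintro ⟨c, ξ⟩
    letI : Fintype (M ⧸ L) := Fintype.ofFinite _
    let r : M ⧸ L → M := fun q => Quotient.out q
    have hr : ∀ m : M, m - r (QuotientAddGroup.mk m) ∈ L := by
      intro m
      have h1 : (QuotientAddGroup.mk (r (QuotientAddGroup.mk m)) : M ⧸ L) =
          QuotientAddGroup.mk m := Quotient.out_eq _
      have h2 := QuotientAddGroup.eq.mp h1
      have h3 : m - r (QuotientAddGroup.mk m) = -r (QuotientAddGroup.mk m) + m := by abel
      rw [h3]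
      exact h2
    have hr' : ∀ (m : M) (q : M ⧸ L), m - r q ∈ L → q = QuotientAddGroup.mk m := by
      intro m q h
      have h1 : (QuotientAddGroup.mk (r q) : M ⧸ L) = q := Quotient.out_eq _
      rw [← h1]
      apply QuotientAddGroup.eq.mpr
      have h3 : -r q + m = m - r q := by abel
      rw [h3]
      exact h
    -- the structure constants
    let u : M ⧸ L → M ⧸ L → _root_.Fermat.Agent.S19.Qb := fun q₁ q₂ =>
      if r q₁ + r q₂ - c ∈ L then
        ez601 ζ (ξ (r q₁ + r q₂ - c)) * Bf ξ c * (Bf ξ (r q₁))⁻¹ * (Bf ξ (r q₂))⁻¹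
      else 0
    have huP : ∀ q₁ q₂, u q₁ q₂ ∈ P := by
      intro q₁ q₂
      show (if r q₁ + r q₂ - c ∈ L then _ else _) ∈ P
      split_ifs with h
      · exact P.mul_mem _ _ (P.mul_mem _ _ (P.mul_mem _ _ (hezP _) (hBfP ξ c)) (hBfinv ξ _))
          (hBfinv ξ _)
      · exact P.zero_mem
    have hmain : ∀ (m m' c₁ c₂ : M), m - c₁ ∈ L → m' - c₂ ∈ L →
        psi601 ζ L Bg (m + m') (c, ξ) =
          (if c₁ + c₂ - c ∈ L then
            ez601 ζ (ξ (c₁ + c₂ - c)) * Bf ξ c * (Bf ξ c₁)⁻¹ * (Bf ξ c₂)⁻¹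
          else 0) * psi601 ζ L Bg m (c₁, ξ) * psi601 ζ L Bg m' (c₂, ξ) := by
      intro m m' c₁ c₂ h1 h2
      have hsum : m + m' - c = (m - c₁) + (m' - c₂) + (c₁ + c₂ - c) := by abel
      have hiff : m + m' - c ∈ L ↔ c₁ + c₂ - c ∈ L := by
        rw [hsum]
        exact L.add_mem_cancel_left (L.add_mem h1 h2)
      rw [psi601_of_mem Bg ξ h1, psi601_of_mem Bg ξ h2]
      by_cases h : m + m' - c ∈ L
      · have h' := hiff.mp h
        rw [psi601_of_mem Bg ξ h, if_pos h', hsum, map_add, map_add, ez601_add hζp,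
          ez601_add hζp]
        show _ * Bf ξ c = _ * (_ * Bf ξ c₁) * (_ * Bf ξ c₂)
        have := hBf0 ξ c₁
        have := hBf0 ξ c₂
        field_simp
      · have h' : c₁ + c₂ - c ∉ L := fun h' => h (hiff.mpr h')
        rw [psi601_of_not_mem Bg ξ h, if_neg h', zero_mul, zero_mul]
    have hmem : (∑ q₁ : M ⧸ L, ∑ q₂ : M ⧸ L,
        algebraMap P (M × M → _root_.Fermat.Agent.S19.Qb) ⟨u q₁ q₂, huP q₁ q₂⟩ *
          (fun x : M × M => Ψ x.1 (r q₁, ξ)) * (fun x : M × M => Ψ x.2 (r q₂, ξ))) ∈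
        Algebra.adjoin P ({f | ∃ j, f = fun x : M × M => Ψ x.1 j} ∪
          {f | ∃ j, f = fun x : M × M => Ψ x.2 j}) := by
      refine Subalgebra.sum_mem _ fun q₁ _ => Subalgebra.sum_mem _ fun q₂ _ => ?_
      refine Subalgebra.mul_mem _ (Subalgebra.mul_mem _ (Subalgebra.algebraMap_mem _ _) ?_) ?_
      · exact Algebra.subset_adjoin (Or.inl ⟨(r q₁, ξ), rfl⟩)
      · exact Algebra.subset_adjoin (Or.inr ⟨(r q₂, ξ), rfl⟩)
    have heq : (fun x : M × M => Ψ (x.1 + x.2) (c, ξ)) = ∑ q₁ : M ⧸ L, ∑ q₂ : M ⧸ L,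
        algebraMap P (M × M → _root_.Fermat.Agent.S19.Qb) ⟨u q₁ q₂, huP q₁ q₂⟩ *
          (fun x : M × M => Ψ x.1 (r q₁, ξ)) * (fun x : M × M => Ψ x.2 (r q₂, ξ)) := by
      funext ⟨m, m'⟩
      rw [Finset.sum_apply]
      simp only [Finset.sum_apply, Pi.mul_apply]
      rw [Finset.sum_eq_single (QuotientAddGroup.mk m : M ⧸ L)]
      · rw [Finset.sum_eq_single (QuotientAddGroup.mk m' : M ⧸ L)]
        · -- the main term
          exact hmain m m' _ _ (hr m) (hr m')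
        · intro q₂ _ hq₂
          have h2 : m' - r q₂ ∉ L := fun h => hq₂ (hr' m' q₂ h)
          show _ * _ * psi601 ζ L Bg m' (r q₂, ξ) = 0
          rw [psi601_of_not_mem Bg ξ h2, mul_zero]
        · intro h
          exact absurd (Finset.mem_univ _) h
      · intro q₁ _ hq₁
        have h1 : m - r q₁ ∉ L := fun h => hq₁ (hr' m q₁ h)
        apply Finset.sum_eq_zero
        intro q₂ _
        show _ * psi601 ζ L Bg m (r q₁, ξ) * _ = 0
        rw [psi601_of_not_mem Bg ξ h1, mul_zero, zero_mul]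
      · intro h
        exact absurd (Finset.mem_univ _) h
    rw [heq]
    exact hmem

end Coord

end Fermat.Agent.S59.H601

end
-- ===== PACK-END S59/H601/PeuCoord.lean

-- ===== PACK-BEGIN S33/H855/TowerBase.lean
section




/-!
# Row S33, leaf (S1⁺): the two modular inputs of the tower lemma (helper855)

* `inertiaAut A N` : the image of the inertia group of `A` in the semilinear automorphisms of
  `ℚ̄(X₀(N))`;
* `exists_const_of_ord_eq_zero` : a function without zeros and poles on `X₀(N)` is constant.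
-/

set_option autoImplicit false
set_option linter.unusedSectionVars false

noncomputable section

namespace Fermat.Agent.S33.H855

open ModularCurve AlgebraicCurve

local notation "Q̄" => AlgebraicClosure ℚ

/-- The image of the inertia group of `A` in the semilinear automorphisms of `ℚ̄(X₀(N))`. -/
def inertiaAut (A : ValuationSubring Q̄) (N : ℕ) [NeZero N] :
    Subgroup (SemilinearAut Q̄ ↥(modularFunctionFieldBar N)) :=
  (A.inertiaSubgroupIn ℚ).map (arithmeticGalois (modularFunctionFieldFull N))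

/-- A function without zeros and poles on `X₀(N)` is constant. -/
theorem exists_const_of_ord_eq_zero (N : ℕ) [NeZero N] (u : ↥(modularFunctionFieldBar N))
    (hu : ∀ v : Place Q̄ ↥(modularFunctionFieldBar N), v.ord u = 0) :
    ∃ c : Q̄, algebraMap Q̄ ↥(modularFunctionFieldBar N) c = u :=
  Fermat.Agent.Lib.RR.H383.eq_algebraMap_of_forall_ord_eq_zero
    (Fermat.Agent.Lib.FF398.transcendental_jF N) hu

end Fermat.Agent.S33.H855

end
end
-- ===== PACK-END S33/H855/TowerBase.lean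

-- ===== PACK-BEGIN S38T/H953/NuPtSpec.lean
section



/-!
# Row HARD, cell HECKE, layer 3, leaves IA-NU / IA-ST: the POINT-LEVEL statements  (helper953)

`IANuStatement_T` and `IAStStatement_T` (`S38/IA/Hecke/Spec3.lean`, v2) are statements on the module
`V / chiRelIA_T χ V`.  The Galois and the dictionary inputs are pointwise.  This file states the
point-level Props; `S38/H953/NuKill.lean` proves

    iaNu_of_pt_953 : IAFreeStatement_T → IANuPtStatement953_T → IANuStatement_T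
    iaSt_of_pt_953 : IAFreeStatement_T → IAStPtStatement953_T → IAStStatement_T.

A **support point** of `V / W` (`W = chiRelIA_T χ V`) is a local `𝒪`-algebra homomorphism
`x : T_Q → 𝒪'` into a COMPLETE discrete valuation ring of characteristic `0` with FINITE residue
field of characteristic `p`, which vanishes on every `s ∈ T_Q` with `a s V ⊆ W` (`IsSuppPt953_T`).

* `IANuPtAt953_T` : at every support point of `V / chiRelIA_T χ V` (`χ` a pivot character) the
  representation is not unipotent on inertia at any pivot;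
* `IAStPtAt953_T` : at every support point of `V / chiRelIA_T 1 V` the Steinberg elements vanish.

Only sorry-free definitions here.
-/

set_option autoImplicit false

open Polynomial IsLocalRing CongruenceSubgroup
open scoped MatrixGroups

namespace Fermat.Agent.S38.H953

variable {ty : Fermat.Agent.S59.Arch.PType}


open Fermat.Agent.S59.Arch Fermat.Agent.S59.TW.H959 Fermat.Agent.S59.TW Fermat.Agent.S59.H765
open Fermat.Agent.S59.TW.H653 Fermat.Agent.S59.TW.Aut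
open Fermat.Agent.S38.IA Fermat.Agent.S38.IA.Hecke
open CuspForm

section At

variable {p : ℕ}
  {𝒪 : Type} [CommRing 𝒪] [IsDomain 𝒪] [IsDiscreteValuationRing 𝒪]
  [IsAdicComplete (maximalIdeal 𝒪) 𝒪]
  {ρbar : ResidualGaloisRep (ResidueField 𝒪)} {Smin : Finset ℕ}
  {Piv : Finset ℕ} {k r : ℕ} {pv : Fin k → ℕ} {qv : Fin r → ℕ}
  [NeZero (wilesLevel p ty Smin (Smin ∪ Piv ∪ Finset.univ.image qv))]

/-- `x : T_Q → 𝒪'` is a **support point** of `V / W`: it vanishes on every `s ∈ T_Q` which maps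
`V` into `W`. -/
def IsSuppPt953_T (PQ : HeckePkg p 𝒪 ρbar ty Smin (Smin ∪ Piv ∪ Finset.univ.image qv))
    (V : Submodule 𝒪 (XIA_T p ty Smin pv qv 𝒪)) (a : PQ.T →ₐ[𝒪] Module.End 𝒪 V)
    (W : Submodule 𝒪 (XIA_T p ty Smin pv qv 𝒪)) {𝒪' : Type} [CommRing 𝒪'] (x : PQ.T →+* 𝒪') : Prop :=
  ∀ s : PQ.T, (∀ v : V, ((a s v : V) : XIA_T p ty Smin pv qv 𝒪) ∈ W) → x s = 0

/-- **NU at the support points of `V / chiRelIA_T χ V`.** -/
def IANuPtAt953_T (PQ : HeckePkg p 𝒪 ρbar ty Smin (Smin ∪ Piv ∪ Finset.univ.image qv))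
    (V : Submodule 𝒪 (XIA_T p ty Smin pv qv 𝒪)) (a : PQ.T →ₐ[𝒪] Module.End 𝒪 V) : Prop :=
  ∀ χ : (∀ i : Fin k, (ZMod (pv i))ˣ) →* 𝒪, IsPivChar p pv χ →
    ∀ (𝒪' : Type) [CommRing 𝒪'] [IsDomain 𝒪'] [IsDiscreteValuationRing 𝒪']
      [IsAdicComplete (maximalIdeal 𝒪') 𝒪'] [Finite (ResidueField 𝒪')] [CharZero 𝒪']
      [Algebra 𝒪 𝒪'] (x : PQ.T →ₐ[𝒪] 𝒪') (hx : IsLocalHom (x : PQ.T →+* 𝒪')),
      (p : 𝒪') ∈ maximalIdeal 𝒪' →
      IsSuppPt953_T PQ V a (chiRelIA_T p ty Smin pv qv χ V) (x : PQ.T →+* 𝒪') →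
      ∀ q ∈ Piv, ¬ (PQ.H.ρ.baseChangeAlong (x : PQ.T →+* 𝒪') hx).IsUnipotentOnInertiaAt q

/-- **ST at the support points of `V / chiRelIA_T 1 V`.** -/
def IAStPtAt953_T (PQ : HeckePkg p 𝒪 ρbar ty Smin (Smin ∪ Piv ∪ Finset.univ.image qv))
    (V : Submodule 𝒪 (XIA_T p ty Smin pv qv 𝒪)) (a : PQ.T →ₐ[𝒪] Module.End 𝒪 V) : Prop :=
  ∀ (𝒪' : Type) [CommRing 𝒪'] [IsDomain 𝒪'] [IsDiscreteValuationRing 𝒪']
    [IsAdicComplete (maximalIdeal 𝒪') 𝒪'] [Finite (ResidueField 𝒪')] [CharZero 𝒪']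
    [Algebra 𝒪 𝒪'] (x : PQ.T →ₐ[𝒪] 𝒪') (_hx : IsLocalHom (x : PQ.T →+* 𝒪')),
    (p : 𝒪') ∈ maximalIdeal 𝒪' →
    IsSuppPt953_T PQ V a (chiRelIA_T p ty Smin pv qv 1 V) (x : PQ.T →+* 𝒪') →
    ∀ q ∈ Piv, ∀ P : ValuationSubring (AlgebraicClosure ℚ), P.LiesOverPrime q →
      ∀ φ : AlgebraicClosure ℚ ≃ₐ[ℚ] AlgebraicClosure ℚ, P.IsFrobeniusAt φ q →
        x (PQ.H.ρ.trace φ ^ 2 - ((1 + q : ℕ) : PQ.T) ^ 2) = 0

end At

/-- **IA-NU, point level.**  Binders of `IANuStatement_T` VERBATIM; conclusion `IANuPtAt953_T`. -/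
def IANuPtStatement953_T : Prop :=
  ∀ (p : ℕ) [Fact p.Prime] (_hp5 : 3 ≤ p)
    (𝒪 : Type) [CommRing 𝒪] [IsDomain 𝒪] [IsDiscreteValuationRing 𝒪]
    [IsAdicComplete (maximalIdeal 𝒪) 𝒪] [Finite (ResidueField 𝒪)] [CharZero 𝒪]
    (ρbar : ResidualGaloisRep (ResidueField 𝒪)) (Smin : Finset ℕ)
    (_h : ResidualHyp p 𝒪 ρbar Smin)
    (ty : PType) (_hflat : IsPTypeAt p ρbar ty)
    (Piv : Finset ℕ) (_hPiv : IsPivotSet p ρbar Smin Piv)
    (k : ℕ) (pv : Fin k → ℕ) (_hpv : Function.Injective pv)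
    (_hpvPiv : Finset.univ.image pv = Piv)
    (n r : ℕ) (qv : Fin r → ℕ) (_hq : IsTWSet p ρbar (Smin ∪ Piv) n qv)
    [NeZero (wilesLevel p ty Smin (Smin ∪ Piv ∪ Finset.univ.image qv))]
    (PQ : HeckePkg p 𝒪 ρbar ty Smin (Smin ∪ Piv ∪ Finset.univ.image qv))
    (α : Fin r → 𝒪) (_hα : IsFrobLift ρbar qv α)
    (V : Submodule 𝒪 (XIA_T p ty Smin pv qv 𝒪)) (h : ℕ) (a : PQ.T →ₐ[𝒪] Module.End 𝒪 V),
    IsIAPart_T PQ α V → IsHalf p pv h → IsHalf p qv h → IsIAAction_T PQ V h a → IANuPtAt953_T PQ V a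

/-- **IA-ST, point level.**  Binders of `IAStStatement_T` VERBATIM (with `_hmin`); conclusion
`IAStPtAt953_T`. -/
def IAStPtStatement953_T : Prop :=
  ∀ (p : ℕ) [Fact p.Prime] (_hp5 : 3 ≤ p)
    (𝒪 : Type) [CommRing 𝒪] [IsDomain 𝒪] [IsDiscreteValuationRing 𝒪]
    [IsAdicComplete (maximalIdeal 𝒪) 𝒪] [Finite (ResidueField 𝒪)] [CharZero 𝒪]
    (ρbar : ResidualGaloisRep (ResidueField 𝒪)) (Smin : Finset ℕ)
    (_h : ResidualHyp p 𝒪 ρbar Smin)
    (ty : PType) (_hflat : IsPTypeAt p ρbar ty)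
    (Piv : Finset ℕ) (_hPiv : IsPivotSet p ρbar Smin Piv)
    (_hmin : ∀ q ∈ Piv, ∀ S : Finset ℕ,
      ¬ ResModular 𝒪 ρbar (ribetLevelT p ty Smin (Piv.erase q)) S)
    (k : ℕ) (pv : Fin k → ℕ) (_hpv : Function.Injective pv)
    (_hpvPiv : Finset.univ.image pv = Piv)
    (n r : ℕ) (qv : Fin r → ℕ) (_hq : IsTWSet p ρbar (Smin ∪ Piv) n qv)
    [NeZero (wilesLevel p ty Smin (Smin ∪ Piv ∪ Finset.univ.image qv))]
    (PQ : HeckePkg p 𝒪 ρbar ty Smin (Smin ∪ Piv ∪ Finset.univ.image qv))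
    (α : Fin r → 𝒪) (_hα : IsFrobLift ρbar qv α)
    (V : Submodule 𝒪 (XIA_T p ty Smin pv qv 𝒪)) (h : ℕ) (a : PQ.T →ₐ[𝒪] Module.End 𝒪 V),
    IsIAPart_T PQ α V → IsHalf p pv h → IsHalf p qv h → IsIAAction_T PQ V h a → IAStPtAt953_T PQ V a

end Fermat.Agent.S38.H953

end
-- ===== PACK-END S38T/H953/NuPtSpec.lean

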