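import Fermat.Agent.Pack.S59C.E3L3
import Fermat.Agent.Pack.S59C.E6L3
import Fermat.Agent.Pack.S59C.E4L0
import Fermat.Agent.Pack.S43MC.G0E21L0
import Fermat.Agent.Pack.S59C.E6L2
import Fermat.Agent.Pack.S43GC.G1E0L0
import Fermat.Agent.Pack.S43MC.G0E10L2
import Fermat.Agent.Pack.S43MC.G0E20L0
import Fermat.Agent.Pack.S43MC.G0E19L1
import Fermat.Agent.Pack.S43MC.G0E21L1
import Fermat.Agent.Pack.S59C.E6L1
import Fermat.Agent.Pack.S59C.E6L0
import Fermat.Agent.Pack.S43GC.G0E16L1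
import Fermat.Agent.Pack.S59C.E5L3
import Fermat.Agent.Pack.S43GC.G0E14L0
import Fermat.Agent.Pack.S59C.E3L0
import Fermat.Agent.Pack.S43GC.G0E17L0
import Fermat.Agent.Pack.S43GC.G0E18L0
import Fermat.Agent.Pack.S43MC.G0E14L2
import Fermat.Agent.Pack.S43MC.G0E17L3
import Fermat.Agent.Pack.S43MC.G0E7L2
import Fermat.Agent.Pack.S44C.G0E18L0
import Fermat.Agent.Pack.S59C.E0L2
import Fermat.Agent.Pack.S43MC.G0E14L1
import Fermat.Agent.Pack.S43MC.G0E4L3
import Fermat.Agent.Pack.S43GC.G0E4L1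
import Fermat.Agent.Pack.S59C.E4L3
import Fermat.Agent.Pack.S59C.E4L1

set_option linter.all false

-- ===== PACK-BEGIN S59/H585/Adj2.lean
section



/-!
# S59, cell NM, leaf ADJ2 (helper585): adjunction over any domain, at both stages

* `pairingConjDelta'`   : `c_δ` is an isometry for ALL `N ≠ 0`, `q ≠ 0` (fields);
* `pairing_adj_field'`  : `B(r_i x, y) = B(x, t_i y)` over a field, all `N ≠ 0`, `q ≠ 0`;
* `pairing_hecke_field` : `T_l` is self-adjoint over a field;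
* `adj2 : NM.Adj2Statement` (domains, via the fraction field).
-/

set_option autoImplicit false

namespace Fermat.Agent.S59.H585

open CongruenceSubgroup Matrix.SpecialLinearGroup ModularCurve.Period ModularGroup
open Fermat.Agent.S29.H642 Fermat.Agent.S41.Spec
open scoped MatrixGroups

open Fermat.Agent.S41.H221 in
/-- (A5) for all `N ≠ 0`, `q ≠ 0`: `c_δ` is an isometry. -/
theorem pairingConjDelta' (N q : ℕ) (hN : N ≠ 0) (hq0 : q ≠ 0) (F : Type) [Field F]
    (φ ψ : Additive (gamma0Delta N q) →+ F)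
    (hφ : IsCuspidalOn (gamma0Delta N q) φ) (hψ : IsCuspidalOn (gamma0Delta N q) ψ) :
    maninPairing (Gamma0 (N * q)) (φ.comp (MonoidHom.toAdditive (conjDeltaR N q)))
      (ψ.comp (MonoidHom.toAdditive (conjDeltaR N q))) = maninPairing (gamma0Delta N q) φ ψ := by
  have hFI' : (gamma0Delta N q).FiniteIndex := finiteIndex_gamma0Delta hN hq0
  have hFI : (Gamma0 (N * q)).FiniteIndex := finiteIndex_gamma0 (Nat.mul_ne_zero hN hq0)
  have hneg' := neg_one_mem_gamma0Delta N q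
  have hneg := neg_one_mem_gamma0 (N * q)
  obtain ⟨m, hm⟩ := Fermat.Agent.S41.H460.maninRepExists.{0} _ hneg' F φ hφ.2
  obtain ⟨e, he⟩ := (Fermat.Agent.S41.H585.maninRepParabolic.{0} _ hneg' F φ m hm).1 hφ.1
  obtain ⟨m', hm'⟩ := Fermat.Agent.S41.H460.maninRepExists.{0} _ hneg' F ψ hψ.2
  obtain ⟨e', he'⟩ := (Fermat.Agent.S41.H585.maninRepParabolic.{0} _ hneg' F ψ m' hm').1 hψ.1
  obtain ⟨ζ, hζ, -⟩ := Fermat.Agent.S41.H945.heisLift.{0} _ hneg' F φ ψ m m' e e' hm hm' he he'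
  obtain ⟨ι, inst, γ, h, w, hsys⟩ := Fermat.Agent.S41.H769.tOrbitSystemExists (Gamma0 (N * q))
  have hcusp := Fermat.Agent.S41.H769.tOrbitCusp _ hneg ι γ h w hsys
  have hcusp' := Fermat.Agent.S41.H769.cuspSystemConjDelta N q hN hq0 ι γ hcusp
  have h1 := pairingBeta _ hneg F _ _ _ (isCuspidalOn_comp_conjDeltaR φ hφ)
    (isCuspidalOn_comp_conjDeltaR ψ hψ) (isHeisLift_comp_conjDeltaR φ ψ ζ hζ) ι γ hcusp
  have h2 := pairingBeta _ hneg' F φ ψ ζ hφ hψ hζ ι (fun i => conjDeltaR N q (γ i)) hcusp'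
  exact neg_injective (h1.symm.trans h2)

open Fermat.Agent.S41.H221 in
/-- `r_i` is left adjoint to `t_i` for the Manin pairing over a field (all `N ≠ 0`, `q ≠ 0`). -/
theorem pairing_adj_field' (F : Type) [Field F] {N q : ℕ} (hN : N ≠ 0) (hq0 : q ≠ 0)
    (x : Additive (Gamma0 N) →+ F) (y : Additive (Gamma0 (N * q)) →+ F)
    (hx : IsCuspidal x) (hy : IsCuspidal y) :
    maninPairing (Gamma0 (N * q)) (r₁ N q x) y = maninPairing (Gamma0 N) x (t₁ N q y) ∧
    maninPairing (Gamma0 (N * q)) (r₂ N q x) y = maninPairing (Gamma0 N) x (t₂ N q y) := by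
  have hA3 := pairingResCores
  have hTE := Fermat.Agent.S41.H232.transferAlongEquiv.{0}
  have hFI : (Gamma0 N).FiniteIndex := finiteIndex_gamma0 hN
  have hFI' : (Gamma0 (N * q)).FiniteIndex := finiteIndex_gamma0 (Nat.mul_ne_zero hN hq0)
  have hFI'' : (gamma0Delta N q).FiniteIndex := finiteIndex_gamma0Delta hN hq0
  constructor
  · exact hA3 (Gamma0 (N * q)) (Gamma0 N) (gamma0_mul_le N q) (neg_one_mem_gamma0 _) F x y hx hy
  · set e := conjDeltaEquiv N q hq0 with he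
    have hr₂ : r₂ N q x = (x.comp (MonoidHom.toAdditive
        (Subgroup.inclusion (gamma0Delta_le N q)))).comp
          (MonoidHom.toAdditive (conjDeltaR N q)) := by
      unfold r₂
      rw [← inclusion_comp_conjDeltaR]
      rfl
    have hy' : y = (y.comp (MonoidHom.toAdditive e.symm.toMonoidHom)).comp
        (MonoidHom.toAdditive (conjDeltaR N q)) := by
      ext γ
      show y (Additive.ofMul γ) = y (Additive.ofMul (e.symm (conjDeltaR N q γ)))
      rw [← conjDeltaEquiv_apply N q hq0, ← he, MulEquiv.symm_apply_apply]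
    have ht₂ : t₂ N q y = transferAlong (Subgroup.inclusion (gamma0Delta_le N q))
        (y.comp (MonoidHom.toAdditive e.symm.toMonoidHom)) := by
      unfold t₂
      rw [← hTE (Gamma0 (N * q)) (gamma0Delta N q) (Gamma0 N) e
        (Subgroup.inclusion (gamma0Delta_le N q)) F y]
      rfl
    rw [hr₂, ht₂]
    conv_lhs => rw [hy']
    rw [pairingConjDelta' N q hN hq0 F _ _ (isCuspidalOn_res (gamma0Delta_le N q) x hx)
      (isCuspidalOn_comp_symm hq0 y hy)]
    exact hA3 (gamma0Delta N q) (Gamma0 N) (gamma0Delta_le N q) (neg_one_mem_gamma0Delta N q) F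
      x _ hx (isCuspidalOn_comp_symm hq0 y hy)

/-- `T_l` is self-adjoint for the Manin pairing over a field. -/
theorem pairing_hecke_field (F : Type) [Field F] {n l : ℕ} [Fact l.Prime] (hl : ¬ l ∣ n)
    (hn : n ≠ 0) (x y : Additive (Gamma0 n) →+ F) (hx : IsCuspidal x) (hy : IsCuspidal y) :
    maninPairing (Gamma0 n) (heckeTransfer hl x) y =
      maninPairing (Gamma0 n) x (heckeTransfer hl y) := by
  have hlp : l.Prime := Fact.out
  have hnl : n * l ≠ 0 := Nat.mul_ne_zero hn hlp.ne_zero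
  have hFI := finiteIndex_Gamma0' hn
  have hFI' := finiteIndex_Gamma0' hnl
  obtain ⟨-, hRC, -, hHC, -, -, -, hTRH, -⟩ := Fermat.Agent.S41.H281.hkStatement.{0}
  have hTx : IsCuspidal (heckeTransfer hl x) := hHC n l hl F x hx
  obtain ⟨h1x, h2x⟩ := hRC n l F x hx
  obtain ⟨h1y, h2y⟩ := hRC n l F y hy
  obtain ⟨e1x, -⟩ := hTRH n l hl hn F x
  obtain ⟨-, e2y⟩ := hTRH n l hl hn F y
  have a1 := (pairing_adj_field' F hn hlp.ne_zero y (r₂ n l x) hy h2x).1
  have a2 := (pairing_adj_field' F hn hlp.ne_zero x (r₁ n l y) hx h1y).2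
  calc maninPairing (Gamma0 n) (heckeTransfer hl x) y
      = - maninPairing (Gamma0 n) y (heckeTransfer hl x) :=
        maninPairing_skew (neg_one_mem_Gamma0' n) hy hTx
    _ = - maninPairing (Gamma0 n) y (t₁ n l (r₂ n l x)) := by rw [e1x]
    _ = - maninPairing (Gamma0 (n * l)) (r₁ n l y) (r₂ n l x) := by rw [a1]
    _ = maninPairing (Gamma0 (n * l)) (r₂ n l x) (r₁ n l y) := by
        rw [maninPairing_skew (neg_one_mem_Gamma0' (n * l)) h2x h1y, neg_neg]
    _ = maninPairing (Gamma0 n) x (t₂ n l (r₁ n l y)) := a2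
    _ = maninPairing (Gamma0 n) x (heckeTransfer hl y) := by rw [e2y]

/-- **ADJ2.** -/
theorem adj2 : Fermat.Agent.S59.NM.Adj2Statement := by
  intro R _ _ N q hN hq
  have hq0 : q ≠ 0 := hq.ne_zero
  have hNq : N * q ≠ 0 := Nat.mul_ne_zero hN hq0
  have hFI := finiteIndex_Gamma0' hN
  have hFI' := finiteIndex_Gamma0' hNq
  obtain ⟨hFun, hRC, hTC, hHC, -⟩ := Fermat.Agent.S41.H281.hkStatement.{0}
  set K := FractionRing R with hK
  set ι : R →+* K := algebraMap R K with hι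
  have hinj : Function.Injective ι := IsFractionRing.injective R K
  refine ⟨fun x y hx hy => ?_, fun l _ hl x y hx hy => ?_⟩
  · obtain ⟨hr1, hr2⟩ := hRC N q R x hx
    obtain ⟨ht1, ht2⟩ := hTC N q R y hy
    have hxK : IsCuspidal (ι.toAddMonoidHom.comp x) :=
      Fermat.Agent.S41.H41.isCuspidal_comp ι.toAddMonoidHom hx
    have hyK : IsCuspidal (ι.toAddMonoidHom.comp y) :=
      Fermat.Agent.S41.H41.isCuspidal_comp ι.toAddMonoidHom hy
    obtain ⟨a1, a2⟩ := pairing_adj_field' K hN hq0 _ _ hxK hyK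
    constructor
    · apply hinj
      rw [← maninPairing_map (neg_one_mem_Gamma0' (N * q)) ι hr1 hy,
        ← maninPairing_map (neg_one_mem_Gamma0' N) ι hx ht1,
        ← Fermat.Agent.S41.H41.t₁_comp hFun, ← Fermat.Agent.S41.H41.r₁_comp]
      exact a1
    · apply hinj
      rw [← maninPairing_map (neg_one_mem_Gamma0' (N * q)) ι hr2 hy,
        ← maninPairing_map (neg_one_mem_Gamma0' N) ι hx ht2,
        ← Fermat.Agent.S41.H41.t₂_comp hFun, ← Fermat.Agent.S41.H41.r₂_comp]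
      exact a2
  · have hxK : IsCuspidal (ι.toAddMonoidHom.comp x) :=
      Fermat.Agent.S41.H41.isCuspidal_comp ι.toAddMonoidHom hx
    have hyK : IsCuspidal (ι.toAddMonoidHom.comp y) :=
      Fermat.Agent.S41.H41.isCuspidal_comp ι.toAddMonoidHom hy
    have hTx : IsCuspidal (heckeTransfer hl x) := hHC N l hl R x hx
    have hTy : IsCuspidal (heckeTransfer hl y) := hHC N l hl R y hy
    apply hinj
    rw [← maninPairing_map (neg_one_mem_Gamma0' N) ι hTx hy,
      ← maninPairing_map (neg_one_mem_Gamma0' N) ι hx hTy,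
      ← heckeTransfer_comp hl, ← heckeTransfer_comp hl]
    exact pairing_hecke_field K hl hN _ _ hxK hyK

end Fermat.Agent.S59.H585

end
-- ===== PACK-END S59/H585/Adj2.lean

-- ===== PACK-BEGIN S59/H585/StepLin.lean
section




/-!
# S59, cell NM, leaf STEP, part 1 (helper585): linearity of the Betti operators, eigenclasses

Elementary facts on `r₁ r₂ t₁ t₂`, `heckeTransfer`, `P₁ P₂ P₃` and `NM.IsEigenclass`, used by
`Step.lean` (`boundStep_of`).
-/

set_option autoImplicit false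

open CongruenceSubgroup
open scoped MatrixGroups

namespace Fermat.Agent.S59.H585

open Fermat.Agent.S59.NM Fermat.Agent.S41.Spec Fermat.Agent.S29.H642 ModularCurve.Period

section Lin

variable {R : Type} [CommRing R] {N q : ℕ}

theorem smul_eq_comp_mulLeft585 {n : ℕ} (c : R) (φ : Additive (Gamma0 n) →+ R) :
    c • φ = (AddMonoidHom.mulLeft c).comp φ := rfl

theorem nsmul_eq_smul585 {n : ℕ} (m : ℕ) (φ : Additive (Gamma0 n) →+ R) :
    m • φ = (m : R) • φ := by
  refine AddMonoidHom.ext fun g => ?_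
  simp

theorem r₁_add585 {A : Type} [AddCommGroup A] (φ φ' : Additive (Gamma0 N) →+ A) :
    r₁ N q (φ + φ') = r₁ N q φ + r₁ N q φ' := rfl

theorem r₂_add585 {A : Type} [AddCommGroup A] (φ φ' : Additive (Gamma0 N) →+ A) :
    r₂ N q (φ + φ') = r₂ N q φ + r₂ N q φ' := rfl

theorem r₁_sub585 {A : Type} [AddCommGroup A] (φ φ' : Additive (Gamma0 N) →+ A) :
    r₁ N q (φ - φ') = r₁ N q φ - r₁ N q φ' := rfl

theorem r₂_sub585 {A : Type} [AddCommGroup A] (φ φ' : Additive (Gamma0 N) →+ A) :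
    r₂ N q (φ - φ') = r₂ N q φ - r₂ N q φ' := rfl

theorem r₁_smul585 (c : R) (φ : Additive (Gamma0 N) →+ R) :
    r₁ N q (c • φ) = c • r₁ N q φ := rfl

theorem r₂_smul585 (c : R) (φ : Additive (Gamma0 N) →+ R) :
    r₂ N q (c • φ) = c • r₂ N q φ := rfl

theorem r₁_zero585 {A : Type} [AddCommGroup A] :
    r₁ N q (0 : Additive (Gamma0 N) →+ A) = 0 := rfl

theorem r₂_zero585 {A : Type} [AddCommGroup A] :
    r₂ N q (0 : Additive (Gamma0 N) →+ A) = 0 := rfl

theorem r₁_comp585 {A B : Type} [AddCommGroup A] [AddCommGroup B] (π : A →+ B)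
    (φ : Additive (Gamma0 N) →+ A) : r₁ N q (π.comp φ) = π.comp (r₁ N q φ) := rfl

theorem r₂_comp585 {A B : Type} [AddCommGroup A] [AddCommGroup B] (π : A →+ B)
    (φ : Additive (Gamma0 N) →+ A) : r₂ N q (π.comp φ) = π.comp (r₂ N q φ) := rfl

theorem t₁_add585 {A : Type} [AddCommGroup A] (ψ ψ' : Additive (Gamma0 (N * q)) →+ A) :
    t₁ N q (ψ + ψ') = t₁ N q ψ + t₁ N q ψ' :=
  ((Fermat.Agent.S41.H281.hkStatement.{0}.1 N q A A (AddMonoidHom.id A)).2.1 ψ ψ').1

theorem t₂_add585 {A : Type} [AddCommGroup A] (ψ ψ' : Additive (Gamma0 (N * q)) →+ A) :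
    t₂ N q (ψ + ψ') = t₂ N q ψ + t₂ N q ψ' :=
  ((Fermat.Agent.S41.H281.hkStatement.{0}.1 N q A A (AddMonoidHom.id A)).2.1 ψ ψ').2

theorem t₁_comp585 {A B : Type} [AddCommGroup A] [AddCommGroup B] (π : A →+ B)
    (ψ : Additive (Gamma0 (N * q)) →+ A) : t₁ N q (π.comp ψ) = π.comp (t₁ N q ψ) :=
  ((Fermat.Agent.S41.H281.hkStatement.{0}.1 N q A B π).2.2.2 ψ).1

theorem t₂_comp585 {A B : Type} [AddCommGroup A] [AddCommGroup B] (π : A →+ B)
    (ψ : Additive (Gamma0 (N * q)) →+ A) : t₂ N q (π.comp ψ) = π.comp (t₂ N q ψ) :=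
  ((Fermat.Agent.S41.H281.hkStatement.{0}.1 N q A B π).2.2.2 ψ).2

theorem t₁_smul585 (c : R) (ψ : Additive (Gamma0 (N * q)) →+ R) :
    t₁ N q (c • ψ) = c • t₁ N q ψ := by
  rw [smul_eq_comp_mulLeft585, smul_eq_comp_mulLeft585, t₁_comp585]

theorem t₂_smul585 (c : R) (ψ : Additive (Gamma0 (N * q)) →+ R) :
    t₂ N q (c • ψ) = c • t₂ N q ψ := by
  rw [smul_eq_comp_mulLeft585, smul_eq_comp_mulLeft585, t₂_comp585]

theorem t₁_sub585 (ψ ψ' : Additive (Gamma0 (N * q)) →+ R) :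
    t₁ N q (ψ - ψ') = t₁ N q ψ - t₁ N q ψ' := by
  have h := t₁_add585 (N := N) (q := q) (ψ - ψ') ψ'
  rw [sub_add_cancel] at h
  rw [h, add_sub_cancel_right]

theorem t₂_sub585 (ψ ψ' : Additive (Gamma0 (N * q)) →+ R) :
    t₂ N q (ψ - ψ') = t₂ N q ψ - t₂ N q ψ' := by
  have h := t₂_add585 (N := N) (q := q) (ψ - ψ') ψ'
  rw [sub_add_cancel] at h
  rw [h, add_sub_cancel_right]

theorem heckeTransfer_smul585 {n l : ℕ} [Fact l.Prime] (hl : ¬ l ∣ n) (c : R)
    (φ : Additive (Gamma0 n) →+ R) :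
    heckeTransfer hl (c • φ) = c • heckeTransfer hl φ := by
  rw [smul_eq_comp_mulLeft585, smul_eq_comp_mulLeft585, heckeTransfer_comp]

theorem heckeTransfer_sub585 {n l : ℕ} [Fact l.Prime] (hl : ¬ l ∣ n)
    (φ φ' : Additive (Gamma0 n) →+ R) :
    heckeTransfer hl (φ - φ') = heckeTransfer hl φ - heckeTransfer hl φ' := by
  have h := heckeTransfer_add hl (φ - φ') φ'
  rw [sub_add_cancel] at h
  rw [h, add_sub_cancel_right]

theorem heckeTransfer_zero585 {A : Type} [AddCommGroup A] {n l : ℕ} [Fact l.Prime]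
    (hl : ¬ l ∣ n) : heckeTransfer hl (0 : Additive (Gamma0 n) →+ A) = 0 := by
  have h := heckeTransfer_add hl (0 : Additive (Gamma0 n) →+ A) 0
  rw [add_zero] at h
  exact left_eq_add.mp h

end Lin

/-! ## Cuspidality -/

section Cusp

variable {N q : ℕ}

theorem isCuspidal_r₁585 {A : Type} [AddCommGroup A] {φ : Additive (Gamma0 N) →+ A}
    (h : IsCuspidal φ) : IsCuspidal (r₁ N q φ) :=
  (Fermat.Agent.S41.H281.hkStatement.{0}.2.1 N q A φ h).1

theorem isCuspidal_r₂585 {A : Type} [AddCommGroup A] {φ : Additive (Gamma0 N) →+ A}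
    (h : IsCuspidal φ) : IsCuspidal (r₂ N q φ) :=
  (Fermat.Agent.S41.H281.hkStatement.{0}.2.1 N q A φ h).2

theorem isCuspidal_t₁585 {A : Type} [AddCommGroup A] {ψ : Additive (Gamma0 (N * q)) →+ A}
    (h : IsCuspidal ψ) : IsCuspidal (t₁ N q ψ) :=
  (Fermat.Agent.S41.H281.hkStatement.{0}.2.2.1 N q A ψ h).1

theorem isCuspidal_t₂585 {A : Type} [AddCommGroup A] {ψ : Additive (Gamma0 (N * q)) →+ A}
    (h : IsCuspidal ψ) : IsCuspidal (t₂ N q ψ) :=
  (Fermat.Agent.S41.H281.hkStatement.{0}.2.2.1 N q A ψ h).2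

theorem isCuspidal_P₁585 {A : Type} [AddCommGroup A] {φ : Additive (Gamma0 N) →+ A}
    (h : IsCuspidal φ) : IsCuspidal (P₁ N q φ) :=
  isCuspidal_r₁585 (isCuspidal_r₁585 h)

theorem isCuspidal_P₂585 {A : Type} [AddCommGroup A] {φ : Additive (Gamma0 N) →+ A}
    (h : IsCuspidal φ) : IsCuspidal (P₂ N q φ) :=
  isCuspidal_r₁585 (isCuspidal_r₂585 h)

theorem isCuspidal_P₃585 {A : Type} [AddCommGroup A] {φ : Additive (Gamma0 N) →+ A}
    (h : IsCuspidal φ) : IsCuspidal (P₃ N q φ) :=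
  isCuspidal_r₂585 (isCuspidal_r₂585 h)

theorem isCuspidal_comp585 {A B : Type} [AddCommGroup A] [AddCommGroup B] {n : ℕ} (π : A →+ B)
    {φ : Additive (Gamma0 n) →+ A} (h : IsCuspidal φ) : IsCuspidal (π.comp φ) :=
  ⟨fun γ hγ => by
    show π (φ _) = 0
    rw [h.1 γ hγ, map_zero], fun γ hγ => by
    show π (φ _) = 0
    rw [h.2 γ hγ, map_zero]⟩

theorem isCuspidal_of_comp_injective585 {A B : Type} [AddCommGroup A] [AddCommGroup B] {n : ℕ}
    (π : A →+ B) (hπ : Function.Injective π) {φ : Additive (Gamma0 n) →+ A}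
    (h : IsCuspidal (π.comp φ)) : IsCuspidal φ :=
  ⟨fun γ hγ => hπ (by rw [map_zero]; exact h.1 γ hγ),
    fun γ hγ => hπ (by rw [map_zero]; exact h.2 γ hγ)⟩

theorem isCuspidal_zero585 {A : Type} [AddCommGroup A] {n : ℕ} :
    IsCuspidal (0 : Additive (Gamma0 n) →+ A) :=
  ⟨fun _ _ => rfl, fun _ _ => rfl⟩

theorem isCuspidal_add585 {A : Type} [AddCommGroup A] {n : ℕ} {φ φ' : Additive (Gamma0 n) →+ A}
    (h : IsCuspidal φ) (h' : IsCuspidal φ') : IsCuspidal (φ + φ') :=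
  ⟨fun γ hγ => by
    show φ _ + φ' _ = 0
    rw [h.1 γ hγ, h'.1 γ hγ, add_zero], fun γ hγ => by
    show φ _ + φ' _ = 0
    rw [h.2 γ hγ, h'.2 γ hγ, add_zero]⟩

theorem isCuspidal_sub585 {A : Type} [AddCommGroup A] {n : ℕ} {φ φ' : Additive (Gamma0 n) →+ A}
    (h : IsCuspidal φ) (h' : IsCuspidal φ') : IsCuspidal (φ - φ') :=
  ⟨fun γ hγ => by
    show φ _ - φ' _ = 0
    rw [h.1 γ hγ, h'.1 γ hγ, sub_zero], fun γ hγ => by
    show φ _ - φ' _ = 0
    rw [h.2 γ hγ, h'.2 γ hγ, sub_zero]⟩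

theorem isCuspidal_smul585 {R : Type} [CommRing R] {n : ℕ} (c : R)
    {φ : Additive (Gamma0 n) →+ R} (h : IsCuspidal φ) : IsCuspidal (c • φ) :=
  isCuspidal_comp585 (AddMonoidHom.mulLeft c) h

end Cusp

/-! ## Eigenclasses -/

section Eigen

variable {R : Type} [CommRing R]

theorem isEigenclass_mono585 {n : ℕ} {S S' : Finset ℕ} (hS : S ⊆ S') {a : ℕ → R}
    {x : Additive (Gamma0 n) →+ R} (h : IsEigenclass n S a x) : IsEigenclass n S' a x :=
  ⟨h.1, fun l _ hl hlS => h.2 l hl fun hh => hlS (hS hh)⟩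

theorem isEigenclass_zero585 {n : ℕ} {S : Finset ℕ} {a : ℕ → R} :
    IsEigenclass n S a (0 : Additive (Gamma0 n) →+ R) :=
  ⟨isCuspidal_zero585, fun l _ hl _ => by rw [heckeTransfer_zero585, smul_zero]⟩

theorem isEigenclass_add585 {n : ℕ} {S : Finset ℕ} {a : ℕ → R}
    {x y : Additive (Gamma0 n) →+ R} (hx : IsEigenclass n S a x) (hy : IsEigenclass n S a y) :
    IsEigenclass n S a (x + y) :=
  ⟨isCuspidal_add585 hx.1 hy.1, fun l _ hl hlS => by
    rw [heckeTransfer_add, hx.2 l hl hlS, hy.2 l hl hlS, smul_add]⟩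

theorem isEigenclass_sub585 {n : ℕ} {S : Finset ℕ} {a : ℕ → R}
    {x y : Additive (Gamma0 n) →+ R} (hx : IsEigenclass n S a x) (hy : IsEigenclass n S a y) :
    IsEigenclass n S a (x - y) :=
  ⟨isCuspidal_sub585 hx.1 hy.1, fun l _ hl hlS => by
    rw [heckeTransfer_sub585, hx.2 l hl hlS, hy.2 l hl hlS, smul_sub]⟩

theorem isEigenclass_smul585 {n : ℕ} {S : Finset ℕ} {a : ℕ → R} (c : R)
    {x : Additive (Gamma0 n) →+ R} (hx : IsEigenclass n S a x) :
    IsEigenclass n S a (c • x) :=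
  ⟨isCuspidal_smul585 c hx.1, fun l _ hl hlS => by
    rw [heckeTransfer_smul585, hx.2 l hl hlS, smul_comm]⟩

/-- Eigenclasses map to eigenclasses under a ring homomorphism of the coefficients. -/
theorem isEigenclass_map585 {R' : Type} [CommRing R'] (f : R →+* R') {n : ℕ} {S : Finset ℕ}
    {a : ℕ → R} {x : Additive (Gamma0 n) →+ R} (hx : IsEigenclass n S a x) :
    IsEigenclass n S (fun l => f (a l)) (f.toAddMonoidHom.comp x) :=
  ⟨isCuspidal_comp585 _ hx.1, fun l _ hl hlS => by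
    rw [heckeTransfer_comp, hx.2 l hl hlS]
    refine AddMonoidHom.ext fun g => ?_
    show f (a l * x g) = f (a l) * f (x g)
    rw [map_mul]⟩

/-- Descent of eigenclasses along an injective ring homomorphism of the coefficients. -/
theorem isEigenclass_of_map585 {R' : Type} [CommRing R'] (f : R →+* R')
    (hf : Function.Injective f) {n : ℕ} {S : Finset ℕ}
    {a : ℕ → R} {x : Additive (Gamma0 n) →+ R}
    (hx : IsEigenclass n S (fun l => f (a l)) (f.toAddMonoidHom.comp x)) :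
    IsEigenclass n S a x :=
  ⟨isCuspidal_of_comp_injective585 f.toAddMonoidHom hf hx.1, fun l _ hl hlS => by
    have h := hx.2 l hl hlS
    rw [heckeTransfer_comp] at h
    refine AddMonoidHom.ext fun g => hf ?_
    have hg := DFunLike.congr_fun h g
    show f (heckeTransfer hl x g) = f (a l * x g)
    rw [map_mul]
    exact hg⟩

variable {N q : ℕ}

theorem not_dvd_of_not_dvd_mul585 {l a b : ℕ} (h : ¬ l ∣ a * b) : ¬ l ∣ a :=
  fun hh => h (dvd_mul_of_dvd_left hh b)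

theorem heckeTransfer_r₁585 {A : Type} [AddCommGroup A] {l : ℕ} [Fact l.Prime]
    (hl' : ¬ l ∣ N * q) (φ : Additive (Gamma0 N) →+ A) :
    heckeTransfer hl' (r₁ N q φ) = r₁ N q (heckeTransfer (not_dvd_of_not_dvd_mul585 hl') φ) :=
  (Fermat.Agent.S41.H281.hkStatement.{0}.2.2.2.2.1 N q l
    (not_dvd_of_not_dvd_mul585 hl') hl' A φ).1

theorem heckeTransfer_r₂585 {A : Type} [AddCommGroup A] {l : ℕ} [Fact l.Prime]
    (hl' : ¬ l ∣ N * q) (φ : Additive (Gamma0 N) →+ A) :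
    heckeTransfer hl' (r₂ N q φ) = r₂ N q (heckeTransfer (not_dvd_of_not_dvd_mul585 hl') φ) :=
  (Fermat.Agent.S41.H281.hkStatement.{0}.2.2.2.2.1 N q l
    (not_dvd_of_not_dvd_mul585 hl') hl' A φ).2

/-- `r₁` maps eigenclasses of level `N` to eigenclasses of level `N q` (away from `S ∪ {q}`). -/
theorem isEigenclass_r₁585 {S : Finset ℕ} {a : ℕ → R} {x : Additive (Gamma0 N) →+ R}
    (hx : IsEigenclass N (insert q S) a x) : IsEigenclass (N * q) (insert q S) a (r₁ N q x) :=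
  ⟨isCuspidal_r₁585 hx.1, fun l _ hl hlS => by
    rw [heckeTransfer_r₁585, hx.2 l (not_dvd_of_not_dvd_mul585 hl) hlS, r₁_smul585]⟩

theorem isEigenclass_r₂585 {S : Finset ℕ} {a : ℕ → R} {x : Additive (Gamma0 N) →+ R}
    (hx : IsEigenclass N (insert q S) a x) : IsEigenclass (N * q) (insert q S) a (r₂ N q x) :=
  ⟨isCuspidal_r₂585 hx.1, fun l _ hl hlS => by
    rw [heckeTransfer_r₂585, hx.2 l (not_dvd_of_not_dvd_mul585 hl) hlS, r₂_smul585]⟩

theorem isEigenclass_P₁585 {S : Finset ℕ} {a : ℕ → R} {x : Additive (Gamma0 N) →+ R}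
    (hx : IsEigenclass N (insert q S) a x) :
    IsEigenclass (N * q * q) (insert q S) a (P₁ N q x) :=
  isEigenclass_r₁585 (isEigenclass_r₁585 hx)

theorem isEigenclass_P₂585 {S : Finset ℕ} {a : ℕ → R} {x : Additive (Gamma0 N) →+ R}
    (hx : IsEigenclass N (insert q S) a x) :
    IsEigenclass (N * q * q) (insert q S) a (P₂ N q x) :=
  isEigenclass_r₁585 (isEigenclass_r₂585 hx)

theorem isEigenclass_P₃585 {S : Finset ℕ} {a : ℕ → R} {x : Additive (Gamma0 N) →+ R}
    (hx : IsEigenclass N (insert q S) a x) :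
    IsEigenclass (N * q * q) (insert q S) a (P₃ N q x) :=
  isEigenclass_r₂585 (isEigenclass_r₂585 hx)

end Eigen

end Fermat.Agent.S59.H585

end
-- ===== PACK-END S59/H585/StepLin.lean

-- ===== PACK-BEGIN S59/H585/Perf.lean
section



/-!
# S59, cell NM, leaf PERF (helper585): the Manin pairing over a DVR is perfect

* `exists_lincomb`  : over a domain `R` of characteristic `0`, every cuspidal class `Γ → R` is an
  `R`-linear combination of cuspidal classes `Γ → ℤ`;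
* `maninPairing_sum_left` : additivity of the pairing in finite sums;
* `perf_charZero`   : `NM.PerfStatement` for DVRs of characteristic `0` (the case used by S59).
-/

set_option autoImplicit false

open CongruenceSubgroup IsLocalRing
open scoped MatrixGroups

namespace Fermat.Agent.S59.H585

open Fermat.Agent.S41.Spec Fermat.Agent.S59.NM ModularCurve.Period

section LinComb

variable {Γ : Subgroup SL(2, ℤ)}

/-- Cuspidality only depends on the zero set. -/
theorem isCuspidalOn_of_zero_imp {A B : Type*} [AddCommGroup A] [AddCommGroup B]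
    {y : Additive Γ →+ A} {z : Additive Γ →+ B} (hy : IsCuspidalOn Γ y)
    (h : ∀ g : Additive Γ, y g = 0 → z g = 0) : IsCuspidalOn Γ z :=
  ⟨fun γ hγ => h _ (hy.1 γ hγ), fun γ hγ => h _ (hy.2 γ hγ)⟩

variable [Γ.FiniteIndex]

theorem fg_of_finiteIndex : Group.FG Γ := by
  have : Group.FG SL(2, ℤ) :=
    Group.fg_iff.mpr ⟨{ModularGroup.S, ModularGroup.T},
      _root_.SpecialLinearGroup.SL2Z_generators, Set.toFinite _⟩
  exact Subgroup.fg_of_index_ne_zero Γ

/-- **LIN-COMB** (characteristic `0`): a cuspidal class with values in a domain of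
characteristic `0` is a linear combination of integral cuspidal classes. -/
theorem exists_lincomb {R : Type} [CommRing R] [IsDomain R] [CharZero R]
    {y : Additive Γ →+ R} (hy : IsCuspidalOn Γ y) :
    ∃ (ι : Type) (_ : Fintype ι) (v : ι → R) (z : ι → Additive Γ →+ ℤ),
      (∀ k, IsCuspidalOn Γ (z k)) ∧ ∀ g : Additive Γ, y g = ∑ k, v k * ((z k g : ℤ) : R) := by
  classical
  haveI : Group.FG Γ := fg_of_finiteIndex
  set V : Submodule ℤ R := AddSubgroup.toIntSubmodule y.range with hV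
  have hVfg : V.FG := by
    rw [Submodule.fg_iff_addSubgroup_fg]
    exact (AddGroup.fg_iff_addSubgroup_fg _).mp (AddGroup.fg_range y)
  haveI : Module.Finite ℤ V := Module.Finite.iff_fg.mpr hVfg
  haveI : Module.Free ℤ V := Module.free_of_finite_type_torsion_free'
  set β := Module.Free.chooseBasis ℤ V with hβ
  haveI : Fintype (Module.Free.ChooseBasisIndex ℤ V) :=
    Module.Free.ChooseBasisIndex.fintype ℤ _
  let y' : Additive Γ →+ V :=
    { toFun := fun g => ⟨y g, ⟨g, rfl⟩⟩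
      map_zero' := Subtype.ext (map_zero y)
      map_add' := fun a b => Subtype.ext (map_add y a b) }
  refine ⟨Module.Free.ChooseBasisIndex ℤ V, inferInstance,
    fun k => ((β k : V) : R),
    fun k => (β.coord k).toAddMonoidHom.comp y', ?_, ?_⟩
  · intro k
    refine isCuspidalOn_of_zero_imp hy fun g hg => ?_
    show β.coord k (y' g) = 0
    have : y' g = 0 := Subtype.ext hg
    rw [this, map_zero]
  · intro g
    have h1 := β.sum_repr (y' g)
    have h2 := congrArg (Subtype.val : V → R) h1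
    have h3 : ((y' g : V) : R) = y g := rfl
    rw [← h3, ← h2]
    rw [AddSubmonoidClass.coe_finset_sum]
    refine Finset.sum_congr rfl fun k _ => ?_
    show ((β.repr (y' g) k • β k : V) : R) = _
    rw [Submodule.coe_smul, zsmul_eq_mul, mul_comm]
    rfl

end LinComb

section Sum

variable {Γ : Subgroup SL(2, ℤ)} [Γ.FiniteIndex] {R : Type} [CommRing R]

theorem maninPairing_zero_left (hneg : (-1 : SL(2, ℤ)) ∈ Γ) {ψ : Additive Γ →+ R}
    (hψ : IsCuspidalOn Γ ψ) : maninPairing Γ (0 : Additive Γ →+ R) ψ = 0 := by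
  have h0 : IsCuspidalOn Γ (0 : Additive Γ →+ R) := (cuspSub R Γ R).zero_mem
  have h := maninPairing_add_left hneg h0 h0 hψ
  rw [add_zero] at h
  exact left_eq_add.mp h

omit [Γ.FiniteIndex] in
theorem isCuspidalOn_sum {ι : Type} (s : Finset ι) {φ : ι → Additive Γ →+ R}
    (hφ : ∀ k, IsCuspidalOn Γ (φ k)) : IsCuspidalOn Γ (∑ k ∈ s, φ k) :=
  (cuspSub R Γ R).sum_mem fun k _ => hφ k

theorem maninPairing_sum_left (hneg : (-1 : SL(2, ℤ)) ∈ Γ) {ι : Type} (s : Finset ι)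
    {φ : ι → Additive Γ →+ R} (hφ : ∀ k, IsCuspidalOn Γ (φ k)) {ψ : Additive Γ →+ R}
    (hψ : IsCuspidalOn Γ ψ) :
    maninPairing Γ (∑ k ∈ s, φ k) ψ = ∑ k ∈ s, maninPairing Γ (φ k) ψ := by
  classical
  induction s using Finset.induction_on with
  | empty => simpa using maninPairing_zero_left hneg hψ
  | insert a s ha ih =>
    rw [Finset.sum_insert ha, Finset.sum_insert ha,
      maninPairing_add_left hneg (hφ a) (isCuspidalOn_sum s hφ) hψ, ih]

end Sum

section Perf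

variable {Γ : Subgroup SL(2, ℤ)} [Γ.FiniteIndex]

/-- **PERF** for any `Γ` (characteristic `0`): a cuspidal class with a unit value pairs to `1`
with some cuspidal class. -/
theorem exists_pairing_eq_one (hneg : (-1 : SL(2, ℤ)) ∈ Γ) {R : Type} [CommRing R] [IsDomain R]
    [CharZero R] {x : Additive Γ →+ R} (hx : IsCuspidalOn Γ x) {g₀ : Additive Γ}
    (hu : IsUnit (x g₀)) :
    ∃ m : Additive Γ →+ R, IsCuspidalOn Γ m ∧ maninPairing Γ x m = 1 := by
  classical
  obtain ⟨ι, _, v, z, hz, hxz⟩ := exists_lincomb hx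
  -- the evaluation at `g₀` on the integral classes
  let ev : cuspSub ℤ Γ ℤ →ₗ[ℤ] ℤ :=
    { toFun := fun c => (c : Additive Γ →+ ℤ) g₀
      map_add' := fun _ _ => rfl
      map_smul' := fun _ _ => rfl }
  obtain ⟨w, hw⟩ := (intPairing_flip_bijective (Γ := Γ) hneg).2 ev
  have hw' : ∀ c : cuspSub ℤ Γ ℤ,
      maninPairing Γ (c : Additive Γ →+ ℤ) (w : Additive Γ →+ ℤ) = (c : Additive Γ →+ ℤ) g₀ := by
    intro c
    have := LinearMap.congr_fun hw c
    exact this
  set ι' : ℤ →+* R := Int.castRingHom R with hι'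
  set W : Additive Γ →+ R := ι'.toAddMonoidHom.comp (w : Additive Γ →+ ℤ) with hW
  have hWc : IsCuspidalOn Γ W := isCuspidalOn_comp _ w.2
  have hzc : ∀ k, IsCuspidalOn Γ (v k • ι'.toAddMonoidHom.comp (z k)) := fun k =>
    (cuspSub R Γ R).smul_mem (v k) (isCuspidalOn_comp _ (hz k))
  have hxsum : x = ∑ k, v k • ι'.toAddMonoidHom.comp (z k) := by
    refine AddMonoidHom.ext fun g => ?_
    rw [hxz g, AddMonoidHom.finsetSum_apply]
    rfl
  have hB : maninPairing Γ x W = x g₀ := by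
    conv_lhs => rw [hxsum]
    rw [maninPairing_sum_left hneg Finset.univ hzc hWc, hxz g₀]
    refine Finset.sum_congr rfl fun k _ => ?_
    rw [maninPairing_smul_left hneg (v k) (isCuspidalOn_comp _ (hz k)) hWc,
      maninPairing_map hneg ι' (hz k) w.2, hw' ⟨z k, hz k⟩]
    rfl
  obtain ⟨u, hu⟩ := hu
  refine ⟨(↑u⁻¹ : R) • W, (cuspSub R Γ R).smul_mem _ hWc, ?_⟩
  rw [maninPairing_smul_right hneg _ hx hWc, hB, ← hu, Units.inv_mul]

/-- **PERF** (`NM.PerfStatement` for DVRs of characteristic `0`). -/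
theorem perf_charZero (𝒪 : Type) [CommRing 𝒪] [IsDomain 𝒪] [CharZero 𝒪] (n : ℕ) (hn : n ≠ 0)
    (x : Additive (Gamma0 n) →+ 𝒪) (hx : IsCuspidal x) (hp : IsPrim x) :
    ∃ m : Additive (Gamma0 n) →+ 𝒪, IsCuspidal m ∧ maninPairing (Gamma0 n) x m = 1 := by
  haveI := finiteIndex_Gamma0' hn
  obtain ⟨γ, hγ⟩ := hp
  exact exists_pairing_eq_one (neg_one_mem_Gamma0' n) hx hγ

end Perf

end Fermat.Agent.S59.H585

end
-- ===== PACK-END S59/H585/Perf.lean

-- ===== PACK-BEGIN S59/H127/AsmO.lean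
section









/-!
# Row S59, layer E — CR-ASM: assembly of `Arch.CurveRep p W 𝒪`

`ρ_𝒪 = (tateGaloisRep (WQ W) cb).baseChangeAlong φ` for the canonical `φ : ℤ_[p] →+* 𝒪`.

* `curveRepOfTate` : the structure `Arch.CurveRep p W 𝒪` from
  - `DetIsCyclotomic` of the Tate module (H667),
  - `FrobRelInput` (Lib/Frob23), `UnramInput` (H899), `UnipInput` (H240),
  - the two OPEN fields, as hypotheses in their final form:
    `flat` for `ρ_𝒪` and `ord` for the Tate module over `ℤ_[p]`;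
* `frobRelInput`, `unramInput` : the inputs from main;
* `FlatFinalInput`, `OrdFinalInput` : the two open inputs as `Prop`s;
* `curveRepStatement_of : FlatFinalInput → OrdFinalInput → Arch.CurveRepStatement`.
-/

set_option autoImplicit false

open PadicInt Polynomial WeierstrassCurve WeierstrassCurve.Affine
open scoped WeierstrassCurve.Affine

namespace Fermat.Agent.S59.H127

section localHom

variable {p : ℕ} [hp : Fact p.Prime]

/-- every ring homomorphism from `ℤ_[p]` to a local ring with `p` in the maximal ideal is local -/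
theorem isLocalHom_of_padicInt {B : Type*} [CommRing B] [IsLocalRing B]
    (hpB : (p : B) ∈ IsLocalRing.maximalIdeal B) (φ : ℤ_[p] →+* B) : IsLocalHom φ := by
  refine ⟨fun a ha => ?_⟩
  by_contra hna
  have h1 : a ∈ IsLocalRing.maximalIdeal ℤ_[p] := hna
  rw [PadicInt.maximalIdeal_eq_span_p, Ideal.mem_span_singleton'] at h1
  obtain ⟨b, rfl⟩ := h1
  have h2 : φ (b * (p : ℤ_[p])) ∈ IsLocalRing.maximalIdeal B := by
    rw [map_mul, map_natCast]
    exact Ideal.mul_mem_left _ _ hpB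
  exact h2 ha

/-- the residue field of a local ring with `p` in the maximal ideal is an `𝔽_p`-algebra -/
noncomputable def zmodToResidueField {B : Type*} [CommRing B] [IsLocalRing B]
    (hpB : (p : B) ∈ IsLocalRing.maximalIdeal B) : ZMod p →+* IsLocalRing.ResidueField B :=
  haveI := ringChar.charP (IsLocalRing.ResidueField B)
  ZMod.castHom ((ringChar.spec (IsLocalRing.ResidueField B) p).mp (by
    rw [← map_natCast (IsLocalRing.residue B), IsLocalRing.residue_eq_zero_iff]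
    exact hpB)) (IsLocalRing.ResidueField B)

end localHom

section assemble

variable (p : ℕ) [hp : Fact p.Prime] (W : WeierstrassCurve ℤ)
  [hE : ((WQ W)⁄(AlgebraicClosure ℚ)).IsElliptic]
  (cb : CompatBasis (Pts W) p 2)

/-- `charpoly_frob` over `ℤ_[p]` from the Frobenius relation and `DetIsCyclotomic` -/
theorem charpoly_frob_of_det (hfrob : FrobRelInput p W)
    (hdet : (tateGaloisRep (WQ W) cb).DetIsCyclotomic p)
    (ℓ : ℕ) (hℓ : ℓ.Prime) (hgood : W.IsGoodPrimeFor ℓ) (hℓp : ℓ ≠ p)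
    (A : ValuationSubring Qb) (hA : A.LiesOverPrime ℓ) (σ : GQ) (hσ : A.IsFrobeniusAt σ ℓ) :
    LinearMap.charpoly ((tateGaloisRep (WQ W) cb).ρ σ)
      = X ^ 2 - C ((W.apOfModel ℓ : ℤ) : ℤ_[p]) * X + C ((ℓ : ℤ_[p])) := by
  have hrel := tateGaloisRep_quadratic (WQ W) cb σ (W.apOfModel ℓ) (ℓ : ℤ)
    (hfrob ℓ hℓ hgood hℓp A hA σ hσ)
  have hd := det_frob_of_detIsCyclotomic hdet hℓ hℓp A hA σ hσ
  have hℓ0 : ((ℓ : ℤ) : ℤ_[p]) ≠ 0 := by
    rw [Int.cast_natCast]
    exact Nat.cast_ne_zero.mpr hℓ.ne_zero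
  have := charpoly_eq_of_quadratic_of_det (tateGaloisRep (WQ W) cb).finrank_eq
    ((tateGaloisRep (WQ W) cb).ρ σ) ((W.apOfModel ℓ : ℤ) : ℤ_[p]) ((ℓ : ℤ) : ℤ_[p]) hℓ0 hrel
    (by rw [hd, Int.cast_natCast])
  rw [this, Int.cast_natCast]

variable {𝒪 : Type} [CommRing 𝒪] [IsLocalRing 𝒪]

/-- **CR-ASM.**  The structure `Arch.CurveRep p W 𝒪` on the base change of the Tate module along
`φ : ℤ_[p] →+* 𝒪`, from the finite-level inputs. -/
noncomputable def curveRepOfTate (φ : ℤ_[p] →+* 𝒪) (hφ : IsLocalHom φ)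
    (ι : ZMod p →+* IsLocalRing.ResidueField 𝒪)
    (hdet : (tateGaloisRep (WQ W) cb).DetIsCyclotomic p)
    (hfrob : FrobRelInput p W) (hunr : UnramInput p W) (hunip : UnipInput p W)
    (hflat : W.IsGoodPrimeFor p → ((tateGaloisRep (WQ W) cb).baseChangeAlong φ hφ).IsFlatAt p)
    (hord : ¬ W.IsGoodPrimeFor p → (tateGaloisRep (WQ W) cb).IsStrictOrdinaryAt p) :
    Fermat.Agent.S59.Arch.CurveRep p W 𝒪 where
  ρ := (tateGaloisRep (WQ W) cb).baseChangeAlong φ hφ
  hcard := card_torsion_prime (WQ W) p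
  hker := galoisFactorsThroughFiniteLevel_torsion (WQ W) p hp.out.one_le
  ι := ι
  residual := residual_tate_baseChange (WQ W) cb φ hφ ι _ _
  charpoly_frob := fun ℓ hℓ hgood hℓp A hA σ hσ => by
    rw [Fermat.Agent.S59.Arch.charpoly_baseChangeAlong φ hφ,
      charpoly_frob_of_det p W cb hfrob hdet ℓ hℓ hgood hℓp A hA σ hσ]
    rw [Polynomial.map_add, Polynomial.map_sub, Polynomial.map_mul, Polynomial.map_pow,
      Polynomial.map_X, Polynomial.map_C, Polynomial.map_C, map_intCast, map_natCast]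
  det := Fermat.Agent.S56.H966.detIsCyclotomic_baseChangeAlong φ hφ hdet
  unram := fun ℓ hℓ hgood hℓp =>
    Fermat.Agent.S56.H966.isUnramifiedAt_baseChangeAlong φ hφ
      (isUnramifiedAt_of_input W cb hunr ℓ hℓ hgood hℓp)
  unip := fun ℓ hℓ hbad hℓp =>
    Fermat.Agent.S56.H966.isUnipotentOnInertiaAt_baseChangeAlong φ hφ
      (isUnipotentOnInertiaAt_of_input W cb hunip ℓ hℓ hbad hℓp)
  flat := hflat
  ord := fun hbad =>
    Fermat.Agent.S56.H966.isStrictOrdinaryAt_baseChangeAlong φ hφ (hord hbad)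

end assemble

section inputs

variable (p : ℕ) (W : WeierstrassCurve ℤ)

/-- `FrobRelInput` from `Lib/Frob23` (all good primes `ℓ ≠ p`, including `2` and `3`) -/
theorem frobRelInput (hp : p.Prime) : FrobRelInput p W := by
  intro ℓ hℓ hgood hℓp A hA σ hσ n x hx
  have hn : ¬ ℓ ∣ p ^ n := fun h =>
    hℓp ((Nat.prime_dvd_prime_iff_eq hℓ hp).mp (hℓ.dvd_of_dvd_pow h))
  exact Fermat.Agent.Lib.Frob23.frobRelationAll W ℓ hℓ hgood A σ hA hσ (p ^ n)
    (pow_pos hp.pos n) hn x hx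

/-- `UnramInput` from H899 -/
theorem unramInput (hp : p.Prime) : UnramInput p W := by
  intro ℓ hℓ hgood hℓp A hA σ hσ n x hx
  have hn : ¬ ℓ ∣ p ^ n := fun h =>
    hℓp ((Nat.prime_dvd_prime_iff_eq hℓ hp).mp (hℓ.dvd_of_dvd_pow h))
  exact Fermat.Agent.S59.H899.inertia_smul_eq_self_of_good W hℓ hgood hn A hA σ hσ x hx

end inputs

/-- **OPEN INPUT (CR-FLAT), final form**: if `W` has good reduction at `p`, every base change of
the Tate module along a homomorphism to a complete DVR `𝒪` as in `CurveRepStatement` is flat. -/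
def FlatFinalInput : Prop :=
  ∀ (p : ℕ) [Fact p.Prime] (_hp2 : p ≠ 2) (W : WeierstrassCurve ℤ) (_hΔ : W.Δ ≠ 0)
    (_hW : W.IsSemistableModel) (_hirr : W.ModRepIsIrreducible p),
    W.IsGoodPrimeFor p →
    ∀ (hE : ((WQ W)⁄(AlgebraicClosure ℚ)).IsElliptic) (cb : CompatBasis (Pts W) p 2)
      (𝒪 : Type) [CommRing 𝒪] [IsDomain 𝒪] [IsDiscreteValuationRing 𝒪]
      [IsAdicComplete (IsLocalRing.maximalIdeal 𝒪) 𝒪] [Finite (IsLocalRing.ResidueField 𝒪)]
      [CharZero 𝒪] (φ : ℤ_[p] →+* 𝒪) (hφ : IsLocalHom φ),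
      ((@tateGaloisRep (WQ W) hE p _ cb).baseChangeAlong φ hφ).IsFlatAt p

/-- **OPEN INPUT (CR-ORD), final form**: if `W` is semistable with bad reduction at `p`, the Tate
module is strictly ordinary at `p` (the determinant being cyclotomic). -/
def OrdFinalInput : Prop :=
  ∀ (p : ℕ) [Fact p.Prime] (_hp2 : p ≠ 2) (W : WeierstrassCurve ℤ) (_hΔ : W.Δ ≠ 0)
    (_hW : W.IsSemistableModel) (_hirr : W.ModRepIsIrreducible p),
    ¬ W.IsGoodPrimeFor p →
    ∀ (hE : ((WQ W)⁄(AlgebraicClosure ℚ)).IsElliptic) (cb : CompatBasis (Pts W) p 2),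
      (@tateGaloisRep (WQ W) hE p _ cb).DetIsCyclotomic p →
      (@tateGaloisRep (WQ W) hE p _ cb).IsStrictOrdinaryAt p

/-- **Layer E of S59, up to the two open inputs.** -/
theorem curveRepStatement_of (hflat : FlatFinalInput) (hord : OrdFinalInput) :
    Fermat.Agent.S59.Arch.CurveRepStatement := by
  intro p _ hp2 W hΔ hW hirr 𝒪 _ _ _ _ _ _ hp𝒪
  have hp : p.Prime := Fact.out
  have hE : ((WQ W)⁄(AlgebraicClosure ℚ)).IsElliptic := isElliptic_of_Δ_ne_zero W hΔ
  obtain ⟨cb⟩ := nonempty_compatBasis_point ((WQ W)⁄(AlgebraicClosure ℚ)) p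
  let φ : ℤ_[p] →+* 𝒪 :=
    Fermat.Agent.S30.H870.padicToComplete p (IsLocalRing.maximalIdeal 𝒪) hp𝒪
  have hφ : IsLocalHom φ := isLocalHom_of_padicInt hp𝒪 φ
  have hdet : (tateGaloisRep (WQ W) cb).DetIsCyclotomic p :=
    Fermat.Agent.S59.H667.tate_detIsCyclotomic W hΔ p hirr cb
  exact ⟨curveRepOfTate p W cb φ hφ (zmodToResidueField hp𝒪) hdet (frobRelInput p W hp)
    (unramInput p W hp) (Fermat.Agent.S59.H240.unipInput_of_semistable p hp W hΔ hW)
    (fun hgood => hflat p hp2 W hΔ hW hirr hgood hE cb 𝒪 φ hφ)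
    (fun hbad => hord p hp2 W hΔ hW hirr hbad hE cb hdet)⟩

end Fermat.Agent.S59.H127

end
-- ===== PACK-END S59/H127/AsmO.lean

-- ===== PACK-BEGIN S59/H396/OrdInput.lean
section




/-!
# CR-O, part E (helper396): `H127.OrdInput` — the Tate representation of a semistable integral
model is strictly ordinary at an odd prime `p` of bad (= multiplicative) reduction

* `phiTateEquiv cb`   : the `ℤ_p`-linear isomorphism `ℤ_p² ≃ T_p E` (compatible sequences,
                         `H360.tateSub`) attached to a compatible system of bases `cb`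
                         (`H127.CompatBasis`);
* `torsCard_pts`, `torsFiniteLevel_pts` : `#E[p^n] = p^(2n)` and finite level for `E(ℚ̄)`;
* `tateEquivRep W cb` : `H127.tateGaloisRep (WQ W) cb ≃ H360.tateRepOf …` as Galois
                         representations;
* `isStrictOrdinaryAt_tateGaloisRep` : strict ordinarity at `p` of `H127.tateGaloisRep (WQ W) cb`
                         from `DetIsCyclotomic` + multiplicative reduction at `p ≠ 2`;
* `ordInput_of_det`, `ordInput_of_detInput` : **`H127.OrdInput p W`**.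
-/

set_option autoImplicit false
set_option linter.unusedSectionVars false
set_option linter.unusedVariables false
set_option linter.style.haveILetI false

namespace Fermat.Agent.S59.H396

open WeierstrassCurve WeierstrassCurve.Affine
open scoped WeierstrassCurve.Affine
open Fermat.Agent.S59.H360 Fermat.Agent.S59.H127 Fermat.Agent.S59.H899 PadicInt

section abstract

variable {p : ℕ} [hp : Fact p.Prime] {E : Type*} [AddCommGroup E] (cb : CompatBasis E p 2)

/-- the compatible sequence attached to a coordinate vector -/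
noncomputable def phiTate (a : Fin 2 → ℤ_[p]) : tateSub p E :=
  ⟨fun k => cb.Φ a k, fun k => ⟨cb.Φ_torsion a k, cb.Φ_succ a k⟩⟩

lemma phiTate_apply (a : Fin 2 → ℤ_[p]) (k : ℕ) : (phiTate cb a).1 k = cb.Φ a k := rfl

/-- `phiTate` as a linear map -/
noncomputable def phiTateLin : (Fin 2 → ℤ_[p]) →ₗ[ℤ_[p]] tateSub p E where
  toFun := phiTate cb
  map_add' a b := tateSub_ext fun k => by
    rw [tateSub_coe_add, phiTate_apply, phiTate_apply, phiTate_apply, cb.Φ_add]
  map_smul' c a := tateSub_ext fun k => by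
    rw [RingHom.id_apply, tate_smul_apply, phiTate_apply, phiTate_apply, cb.Φ_smul]

lemma phiTateLin_apply (a : Fin 2 → ℤ_[p]) (k : ℕ) : (phiTateLin cb a).1 k = cb.Φ a k := rfl

lemma phiTateLin_bijective : Function.Bijective (phiTateLin cb) :=
  ⟨fun a b hab => cb.Φ_injective fun k => by
      rw [← phiTateLin_apply, ← phiTateLin_apply, hab],
   fun f => by
     obtain ⟨a, ha⟩ := cb.Φ_surjective f.1 (tateSub_zero_apply f) (fun k => tateSub_p_smul f k)
     exact ⟨a, tateSub_ext ha⟩⟩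

/-- **`ℤ_p² ≃ T_p E`** -/
noncomputable def phiTateEquiv : (Fin 2 → ℤ_[p]) ≃ₗ[ℤ_[p]] tateSub p E :=
  LinearEquiv.ofBijective (phiTateLin cb) (phiTateLin_bijective cb)

lemma phiTateEquiv_apply (a : Fin 2 → ℤ_[p]) (k : ℕ) : (phiTateEquiv cb a).1 k = cb.Φ a k := rfl

end abstract

section galois

variable {p : ℕ} [hp : Fact p.Prime] (W : WeierstrassCurve ℤ)
  [hE : ((WQ W)⁄(AlgebraicClosure ℚ)).IsElliptic]

/-- `#E[p^n] = p^(2n)` -/
theorem torsCard_pts : TorsCard p (Pts W) := by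
  intro n
  have h := card_torsion_eq ((WQ W)⁄(AlgebraicClosure ℚ)) (p ^ n)
  rw [← pow_mul, mul_comm] at h
  rw [← h]
  refine Nat.card_congr (Equiv.subtypeEquivRight fun x => ?_)
  rw [mem_tors, mem_torsionBy_natCast_iff]

/-- the `p^n`-torsion is defined over a finite extension -/
theorem torsFiniteLevel_pts : TorsFiniteLevel p (Pts W) := fun n =>
  exists_finite_level (WQ W) (p ^ n) (Nat.one_le_pow _ _ hp.out.pos)

/-- the two models of the Tate module are isomorphic Galois representations -/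
noncomputable def tateEquivRep (cb : CompatBasis (Pts W) p 2) :
    GaloisRepAdic.Equiv (tateGaloisRep (WQ W) cb)
      (tateRepOf (torsCard_pts (p := p) W) (torsFiniteLevel_pts W)) where
  toLinearEquiv := phiTateEquiv cb
  map_apply σ a := tateSub_ext fun k => Φ_tateGaloisRep (WQ W) cb σ a k

variable {W}

/-- **Strict ordinarity of the Tate representation at an odd prime of multiplicative
reduction**, given that the determinant is cyclotomic. -/
theorem isStrictOrdinaryAt_tateGaloisRep (hp2 : p ≠ 2) (hΔ : W.Δ ≠ 0)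
    (hbad : (p : ℤ) ∣ W.Δ) (hc₄ : ¬ (p : ℤ) ∣ W.c₄) (cb : CompatBasis (Pts W) p 2)
    (hdet : (tateGaloisRep (WQ W) cb).DetIsCyclotomic p) :
    (tateGaloisRep (WQ W) cb).IsStrictOrdinaryAt p := by
  have e := tateEquivRep W cb
  have hdet' : (tateRepOf (torsCard_pts (p := p) W) (torsFiniteLevel_pts W)).DetIsCyclotomic p :=
    Fermat.Agent.S56.H966.detIsCyclotomic_of_isEquiv ⟨e⟩ hdet
  have h := isStrictOrdinaryAt_of_data (torsCard_pts (p := p) W) (torsFiniteLevel_pts W) hdet'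
    (fun P hP => ordDataAt_of_mult hp2 hΔ hbad hc₄ hP)
  exact Fermat.Agent.S56.H966.isStrictOrdinaryAt_of_isEquiv ⟨e.symm⟩ h

end galois

section input

variable {p : ℕ} [hp : Fact p.Prime] {W : WeierstrassCurve ℤ}

/-- **`OrdInput`** from the cyclotomic determinant -/
theorem ordInput_of_det (hp2 : p ≠ 2) (hΔ : W.Δ ≠ 0) (hss : W.IsSemistableModel)
    (hdet : ∀ (hE : ((WQ W)⁄(AlgebraicClosure ℚ)).IsElliptic) (cb : CompatBasis (Pts W) p 2),
      (@tateGaloisRep (WQ W) hE p _ cb).DetIsCyclotomic p) :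
    OrdInput p W := by
  intro hbad hE cb
  exact isStrictOrdinaryAt_tateGaloisRep hp2 hΔ (not_not.mp hbad)
    (hss p hp.out (not_not.mp hbad)) cb (hdet hE cb)

/-- **`OrdInput`** from `DetInput` -/
theorem ordInput_of_detInput (hp2 : p ≠ 2) (hΔ : W.Δ ≠ 0) (hss : W.IsSemistableModel)
    (hdet : DetInput p W) : OrdInput p W :=
  ordInput_of_det hp2 hΔ hss fun hE cb =>
    @detIsCyclotomic_of_input p _ W hE cb hdet

end input

end Fermat.Agent.S59.H396

end
-- ===== PACK-END S59/H396/OrdInput.lean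

-- ===== PACK-BEGIN S59/H127/CurveRepOrd.lean
section



/-!
# Row S59, layer E — `CurveRepStatement` up to CR-FLAT only

CR-ORD is closed by helper396 (`H396.isStrictOrdinaryAt_tateGaloisRep`), so

* `ordFinalInput : OrdFinalInput`;
* `curveRepStatement_of_flat : FlatFinalInput → Arch.CurveRepStatement`.
-/

set_option autoImplicit false

open WeierstrassCurve WeierstrassCurve.Affine
open scoped WeierstrassCurve.Affine

namespace Fermat.Agent.S59.H127

/-- **CR-ORD, final form** (helper396's theorem in the shape consumed by `curveRepStatement_of`) -/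
theorem ordFinalInput : OrdFinalInput := by
  intro p hp hp2 W hΔ hW _ hbad hE cb hdet
  exact Fermat.Agent.S59.H396.isStrictOrdinaryAt_tateGaloisRep hp2 hΔ (not_not.mp hbad)
    (hW p hp.out (not_not.mp hbad)) cb hdet

/-- **Layer E of S59, up to CR-FLAT.** -/
theorem curveRepStatement_of_flat (hflat : FlatFinalInput) :
    Fermat.Agent.S59.Arch.CurveRepStatement :=
  curveRepStatement_of hflat ordFinalInput

end Fermat.Agent.S59.H127

end
-- ===== PACK-END S59/H127/CurveRepOrd.lean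

-- ===== PACK-BEGIN S55/E1/H895/Alg911Final.lean
section








/-!
# S55, engine E1, block ALG9–ALG11: CLOSED (consolidation file, helper895)

All frozen Specs of `E1/SpecAlg3.lean` are theorems.  One import, one namespace for consumers
(LIM1–LIM5):

* `alg9        : ALG9Spec`          (helper298)  edge connecting map bijective
* `alg9a       : ALG9aSpec`         (helper423)  extension criterion
* `alg9aCocycle: ALG9aCocycleSpec`  (helper423)
* `alg10Comp   : ALG10CompSpec`     (helper793)  `tr ∘ tr = tr` on `A`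
* `alg10CompE2 : ALG10CompE2Spec`   (helper793)  `tr ∘ tr = tr` on `𝔈²`
* `alg10Edge   : ALG10EdgeSpec`     (helper600)  `tr` commutes with the edge map
* `alg10Pair   : ALG10PairSpec`     (helper245)  pairing formula
* `alg10Bdry   : H354.ALG10BdrySpec`(helper354)  `tr` commutes with the ALG3 boundary
* `alg11       : ALG11Spec`         (helper895)  local injectivity
* `isEdge_tr   `                    edges are transported to edges (from `alg10Edge`)
-/

namespace Fermat.Agent.S55.E1.H895.Final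

open Fermat.Agent.S55.E1

theorem alg9 : ALG9Spec := H298.alg9
theorem alg9a : ALG9aSpec := H423.alg9aSpec
theorem alg9aCocycle : ALG9aCocycleSpec := H423.alg9aCocycleSpec
theorem alg10Comp : ALG10CompSpec := H793.alg10Comp
theorem alg10CompE2 : ALG10CompE2Spec := H793.alg10CompE2
theorem alg10Edge : ALG10EdgeSpec := H600.alg10Edge
theorem alg10Pair : ALG10PairSpec := H245.alg10Pair
theorem alg10Bdry : H354.ALG10BdrySpec := H354.alg10Bdry
theorem alg11 : ALG11Spec := H895.alg11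

end Fermat.Agent.S55.E1.H895.Final

end
-- ===== PACK-END S55/E1/H895/Alg911Final.lean

-- ===== PACK-BEGIN S55/E1/H423/Lim5Core.lean
section



/-!
# S55, engine E1, block LIM: generic cores of LIM5 (ii) and (iii)

Setting: a change of group `π : G' →* G`, `ν : N' ⟶ res π N`, `ι : res π X ⟶ X'`
(`E1/Tr/Defs.lean`), `p` prime with `p N' = 0`.

* `exists_edgeIncl_eq_trE2` (**LIM5 (iii)**): if `c` is a `1`-cocycle `G → Hom_ℤ(R, X)` such
  that all `ι (c g r)` are divisible by `p` in `X'`, then `tr [c] = incl_* b'` for some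
  `b' ∈ H¹(G', 𝔹')`; hence `tr [c] = e(δ' b')` lies in the image of the edge map
  (`isEdge_trE2`).
* `map_trEdgeB_eq_zero` (**LIM5 (ii)**): if `β : G → 𝔹` is a cocycle which is the coboundary of
  `φ ∈ Hom_ℤ(R, X)` and all `ι (φ r)` are divisible by `p` in `X'`, then `tr [β] = 0` in
  `H¹(G', 𝔹')`.  `exists_primitive` produces `β`, `φ` from `incl_* b = 0`.
* `div_of_div_on_generators` : divisibility of the values on a generating set suffices.
-/

set_option autoImplicit false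
set_option linter.style.haveILetI false

open CategoryTheory CategoryTheory.Limits

namespace Fermat.Agent.S55.E1.H423

open Fermat.Agent.S55.E1
open Fermat.Agent.S55.T.H719 (ihomLin)

section Core

variable {G G' : Type} [Group G] [Group G'] (π : G' →* G)
variable {N : Rep.{0} ℤ G} {N' : Rep.{0} ℤ G'} (ν : N' ⟶ Rep.res π N)
variable {X : Rep.{0} ℤ G} {X' : Rep.{0} ℤ G'} (ι : Rep.res π X ⟶ X')

/-- The values of `tr φ = ι ∘ φ ∘ ρ`. -/
theorem ihomLin_trIhom (φ : ((Rep.ihom (stdR N)).obj X).V) (r' : (stdR N').V) :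
    ihomLin ((trIhom π (trR π ν) ι).hom φ) r' = ι.hom (ihomLin φ ((trR π ν).hom r')) := rfl

/-- **LIM5 (iii), generic core.** -/
theorem exists_edgeIncl_eq_trE2 {p : ℕ} (hp : p.Prime) (hN' : ∀ n : N'.V, p • n = 0)
    (c : groupCohomology.cocycles₁ ((Rep.ihom (stdR N)).obj X))
    (hdiv : ∀ (g : G) (r : (stdR N).V), ∃ x' : X'.V, ι.hom (ihomLin (c g) r) = p • x') :
    ∃ b' : groupCohomology (edgeB N' X') 1,
      edgeIncl N' X' b' = trE2 π ν ι (groupCohomology.H1π _ c) := by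
  let c' : groupCohomology.cocycles₁ ((Rep.ihom (stdR N')).obj X') :=
    groupCohomology.mapCocycles₁ π (trIhom π (trR π ν) ι) c
  have hc' : ∀ (g' : G') (r' : (stdR N').V), ∃ x' : X'.V, ihomLin (c' g') r' = p • x' := by
    intro g' r'
    exact hdiv (π g') ((trR π ν).hom r')
  obtain ⟨b', hb'⟩ := alg9aCocycleSpec p hp G' N' X' hN' c' hc'
  refine ⟨b', ?_⟩
  rw [hb']
  unfold trE2
  erw [groupCohomology.H1π_comp_map_apply]

/-- **LIM5 (iii)**: after transition, the class lies in the image of the edge map. -/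
theorem isEdge_trE2 {p : ℕ} (hp : p.Prime) (hN' : ∀ n : N'.V, p • n = 0)
    (c : groupCohomology.cocycles₁ ((Rep.ihom (stdR N)).obj X))
    (hdiv : ∀ (g : G) (r : (stdR N).V), ∃ x' : X'.V, ι.hom (ihomLin (c g) r) = p • x') :
    ∃ x'' : groupCohomology ((Rep.ihom N').obj X') 2,
      IsEdge x'' (trE2 π ν ι (groupCohomology.H1π _ c)) := by
  obtain ⟨b', hb'⟩ := exists_edgeIncl_eq_trE2 π ν ι hp hN' c hdiv
  exact ⟨edgeδ N' X' b', b', rfl, hb'⟩

/-- **LIM5 (ii), generic core.**  If the cocycle `β : G → 𝔹` is the coboundary of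
`φ ∈ Hom_ℤ(R, X)` and the values of `ι ∘ φ` are divisible by `p` in `X'`, then `tr [β] = 0`
in `H¹(G', 𝔹')`. -/
theorem map_trEdgeB_eq_zero {p : ℕ} (hp : p.Prime) (hN' : ∀ n : N'.V, p • n = 0)
    (β : groupCohomology.cocycles₁ (edgeB N X)) (φ : ((Rep.ihom (stdR N)).obj X).V)
    (hβ : ∀ g : G, ((β g).1 : ((Rep.ihom (stdR N)).obj X).V) =
      ((Rep.ihom (stdR N)).obj X).ρ g φ - φ)
    (hdiv : ∀ r : (stdR N).V, ∃ x' : X'.V, ι.hom (ihomLin φ r) = p • x') :
    (groupCohomology.map π (trEdgeB π ν ι) 1).hom (groupCohomology.H1π _ β) = 0 := by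
  erw [groupCohomology.H1π_comp_map_apply]
  rw [groupCohomology.H1π_eq_zero_iff]
  have hmem : (trIhom π (trR π ν) ι).hom φ ∈ ihomImage (stdι N') X' :=
    alg9aSpec p hp G' N' X' hN' _ (fun r' => hdiv _)
  refine ⟨⟨(trIhom π (trR π ν) ι).hom φ, hmem⟩, ?_⟩
  funext g'
  apply Subtype.ext
  have h1 : (trIhom π (trR π ν) ι).hom ((β (π g')).1) =
      (trIhom π (trR π ν) ι).hom (((Rep.ihom (stdR N)).obj X).ρ (π g') φ) -
        (trIhom π (trR π ν) ι).hom φ := by
    rw [hβ, map_sub]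
  have h2 : (trIhom π (trR π ν) ι).hom (((Rep.ihom (stdR N)).obj X).ρ (π g') φ) =
      ((Rep.ihom (stdR N')).obj X').ρ g' ((trIhom π (trR π ν) ι).hom φ) :=
    Rep.hom_comm_apply (trIhom π (trR π ν) ι) g' φ
  rw [h2] at h1
  exact h1.symm

end Core

section Primitive

variable {G : Type} [Group G] {N X : Rep.{0} ℤ G}

/-- A class `b ∈ H¹(G, 𝔹)` with `incl_* b = 0` is represented by a cocycle which is the
coboundary of some `φ ∈ Hom_ℤ(R, X)`. -/
theorem exists_primitive (b : groupCohomology (edgeB N X) 1) (hb : edgeIncl N X b = 0) :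
    ∃ (β : groupCohomology.cocycles₁ (edgeB N X)) (φ : ((Rep.ihom (stdR N)).obj X).V),
      groupCohomology.H1π _ β = b ∧
      ∀ g : G, ((β g).1 : ((Rep.ihom (stdR N)).obj X).V) =
        ((Rep.ihom (stdR N)).obj X).ρ g φ - φ := by
  induction b using groupCohomology.H1_induction_on with
  | h β =>
    unfold edgeIncl at hb
    erw [groupCohomology.H1π_comp_map_apply] at hb
    rw [groupCohomology.H1π_eq_zero_iff] at hb
    obtain ⟨φ, hφ⟩ := hb
    refine ⟨β, φ, rfl, fun g => ?_⟩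
    have := congrFun hφ g
    exact this.symm

end Primitive

section Wrap

variable {G : Type} [Group G] {N X : Rep.{0} ℤ G}

/-- **LIM5 (ii)**, in terms of `b ∈ H¹(G, 𝔹)`: if `incl_* b = 0` there is `φ ∈ Hom_ℤ(R, X)` such
that `tr b = 0` for every transition which makes the values of `φ` divisible by `p`. -/
theorem exists_forall_map_trEdgeB_eq_zero {p : ℕ} (hp : p.Prime)
    (b : groupCohomology (edgeB N X) 1) (hb : edgeIncl N X b = 0) :
    ∃ φ : ((Rep.ihom (stdR N)).obj X).V,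
      ∀ (G' : Type) [Group G'] (π : G' →* G) (N' : Rep.{0} ℤ G') (ν : N' ⟶ Rep.res π N)
        (X' : Rep.{0} ℤ G') (ι : Rep.res π X ⟶ X'), (∀ n : N'.V, p • n = 0) →
        (∀ r : (stdR N).V, ∃ x' : X'.V, ι.hom (ihomLin φ r) = p • x') →
        (groupCohomology.map π (trEdgeB π ν ι) 1).hom b = 0 := by
  obtain ⟨β, φ, rfl, hβ⟩ := exists_primitive b hb
  exact ⟨φ, fun G' _ π N' ν X' ι hN' hdiv => map_trEdgeB_eq_zero π ν ι hp hN' β φ hβ hdiv⟩

/-- **LIM5 (ii)**, in terms of `x ∈ H²(G, Hom_ℤ(N, X))`: if `e(x) = 0` there is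
`φ ∈ Hom_ℤ(R, X)` such that `inf x = 0` for every transition which makes the values of `φ`
divisible by `p`. -/
theorem exists_forall_inf_eq_zero (h10 : ALG10EdgeSpec) {p : ℕ} (hp : p.Prime)
    (x : groupCohomology ((Rep.ihom N).obj X) 2) (hx : IsEdge x (0 : E2 N X)) :
    ∃ φ : ((Rep.ihom (stdR N)).obj X).V,
      ∀ (G' : Type) [Group G'] (π : G' →* G) (N' : Rep.{0} ℤ G') (ν : N' ⟶ Rep.res π N)
        (X' : Rep.{0} ℤ G') (ι : Rep.res π X ⟶ X'), (∀ n : N'.V, p • n = 0) →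
        (∀ r : (stdR N).V, ∃ x' : X'.V, ι.hom (ihomLin φ r) = p • x') →
        (groupCohomology.map π (trIhom π ν ι) 2).hom x = 0 := by
  obtain ⟨b, rfl, hb⟩ := hx
  obtain ⟨φ, hφ⟩ := exists_forall_map_trEdgeB_eq_zero hp b hb
  refine ⟨φ, fun G' _ π N' ν X' ι hN' hdiv => ?_⟩
  have h1 := (h10 G G' π N N' ν X X' ι b).1
  rw [← h1, hφ G' π N' ν X' ι hN' hdiv, map_zero]

end Wrap

section Generators

variable {G G' : Type} [Group G] [Group G'] (π : G' →* G)
variable {A X : Rep.{0} ℤ G} {X' : Rep.{0} ℤ G'} (ι : Rep.res π X ⟶ X')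

/-- Divisibility of the values of `ι ∘ φ` on a generating set suffices. -/
theorem div_of_div_on_generators (p : ℕ) (φ : ((Rep.ihom A).obj X).V) (s : Set A.V)
    (hs : AddSubgroup.closure s = ⊤)
    (h : ∀ r ∈ s, ∃ x' : X'.V, ι.hom (ihomLin φ r) = p • x') :
    ∀ r : A.V, ∃ x' : X'.V, ι.hom (ihomLin φ r) = p • x' := by
  intro r
  have hr : r ∈ AddSubgroup.closure s := by rw [hs]; exact AddSubgroup.mem_top r
  induction hr using AddSubgroup.closure_induction with
  | mem y hy => exact h y hy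
  | zero => exact ⟨0, by rw [map_zero, map_zero, smul_zero]⟩
  | add y z _ _ hy hz =>
    obtain ⟨a, ha⟩ := hy
    obtain ⟨b, hb⟩ := hz
    exact ⟨a + b, by rw [map_add, map_add, ha, hb, smul_add]⟩
  | neg y _ hy =>
    obtain ⟨a, ha⟩ := hy
    exact ⟨-a, by rw [map_neg, map_neg, ha, smul_neg]⟩

/-- A finitely generated `ℤ`-module (w.r.t. the module structure of the representation) is
generated, as an additive group, by a finite set. -/
theorem exists_finset_closure_eq_top (A : Rep.{0} ℤ G)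
    (hA : @Module.Finite ℤ A.V _ _ A.hV2) :
    ∃ s : Finset A.V, AddSubgroup.closure (s : Set A.V) = ⊤ := by
  letI : Module ℤ A.V := A.hV2
  obtain ⟨s, hs⟩ := hA.fg_top
  refine ⟨s, ?_⟩
  have key : ∀ x : A.V, x ∈ Submodule.span ℤ (s : Set A.V) →
      x ∈ AddSubgroup.closure (s : Set A.V) := by
    intro x hx
    induction hx using Submodule.span_induction with
    | mem y hy => exact AddSubgroup.subset_closure hy
    | zero => exact AddSubgroup.zero_mem _
    | add y z _ _ hy hz => exact AddSubgroup.add_mem _ hy hz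
    | smul n y _ hy =>
      have h1 : @HSMul.hSMul ℤ A.V A.V (@instHSMul ℤ A.V A.hV2.toSMul) n y = n • y :=
        int_smul_eq_zsmul A.hV2 n y
      rw [h1]
      exact AddSubgroup.zsmul_mem _ hy n
  rw [eq_top_iff]
  intro x _
  exact key x (by rw [hs]; exact Submodule.mem_top)

end Generators

end Fermat.Agent.S55.E1.H423

end
-- ===== PACK-END S55/E1/H423/Lim5Core.lean

-- ===== PACK-BEGIN S55/E1/H423/Lim5Tower.lean
section




/-!
# S55, engine E1, block LIM: LIM5 (ii) and (iii) ON THE TOWER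

Coefficients `X = E(F) = Lim.sUnits L` (the `S`-units of a level), transition `Lim.trS`.
Input: `Tow.SUnitsDivSpec S p` (GD9) and directedness of the levels.

* `exists_level_div_sUnits` : finitely many elements of `E(F)` become divisible by `p` in
  `E(F')` for all `F' ≥ F₁`;
* `lim5_iii_tower` : every class of `𝔈²_F(E)` lies, after transition to any `F' ≥ F₁`, in the
  image of `incl_* : H¹(G', 𝔹') → 𝔈²_{F'}(E)`;  `lim5_iii_isEdge` : hence in the image of `e`;
* `lim5_ii_tower` : `b ∈ H¹(G, 𝔹)` with `incl_* b = 0` dies in `H¹(G', 𝔹')` for `F' ≥ F₁`;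
* `lim5_ii_inf` : `IsEdge x 0 ⇒ inf x = 0` in `H²(G', Hom_ℤ(N', E(F')))` for `F' ≥ F₁`.

The modules `N'` at higher levels are an arbitrary family `N' L' h` with
`ν : N' ⟶ Res N`, `p N' = 0` (in the engine: `c.NL`, `c.ν`).
-/

set_option autoImplicit false
set_option linter.style.haveILetI false

open CategoryTheory CategoryTheory.Limits

namespace Fermat.Agent.S55.E1.H423

open Fermat.Agent.S55.E1 Fermat.Agent.S55.Tow
open Fermat.Agent.S55.T.H719 (ihomLin)

variable {S : Finset Nat.Primes}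

/-- If `x ^ p` lies in a valuation subring (`p > 0`) then so does `x`. -/
theorem mem_valuationSubring_of_pow_mem {K : Type*} [Field K] (A : ValuationSubring K) {x : K}
    {p : ℕ} (hp : 0 < p) (hx : x ^ p ∈ A) : x ∈ A := by
  rcases A.mem_or_inv_mem x with h | h
  · exact h
  · by_cases hx0 : x = 0
    · rw [hx0]; exact A.zero_mem
    · have h1 : x = x ^ p * x⁻¹ ^ (p - 1) := by
        have h2 : x ^ p = x ^ (p - 1) * x := by
          rw [← pow_succ, Nat.sub_add_cancel hp]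
        rw [h2, inv_pow, mul_comm (x ^ (p - 1)) x, mul_assoc,
          mul_inv_cancel₀ (pow_ne_zero _ hx0), mul_one]
      rw [h1]
      exact A.mul_mem _ _ hx (A.pow_mem h _)

/-- If `p • y` is an `S`-unit (`p > 0`) then `y` is an `S`-unit. -/
theorem isSUnit_of_nsmul (L : Level S) {p : ℕ} (hp : 0 < p) {y : L.units.V}
    (hy : L.IsSUnit (p • y)) : L.IsSUnit y := by
  intro ℓ hℓ A hA
  obtain ⟨h1, h2⟩ := hy ℓ hℓ A hA
  have e1 : L.val (p • y) = (L.val y) ^ p := rfl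
  rw [e1] at h1 h2
  refine ⟨mem_valuationSubring_of_pow_mem A hp ?_, mem_valuationSubring_of_pow_mem A hp ?_⟩
  · rw [← Units.val_pow_eq_pow_val]; exact h1
  · rw [← Units.val_pow_eq_pow_val, inv_pow]; exact h2

/-- If `p • y ∈ E(F)` (`p > 0`) then `y ∈ E(F)`. -/
theorem mem_sUnitsAdd_of_nsmul (L : Level S) {p : ℕ} (hp : 0 < p) {y : L.units.V}
    (hy : p • y ∈ Lim.sUnitsAdd L) : y ∈ Lim.sUnitsAdd L := by
  intro g
  apply isSUnit_of_nsmul L hp
  have := hy g
  rwa [map_nsmul] at this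

/-- Divisibility by `p` in `Fˣ` of an element of `E(F)` is divisibility in `E(F)`. -/
theorem exists_sUnits_div {L L' : Level S} (h : L ≤ L') {p : ℕ} (hp : 0 < p) (e : (Lim.sUnits L).V)
    (e' : L'.units.V) (he' : p • e' = (Level.trUnits h).hom ((Lim.sIncl L).hom e)) :
    ∃ x' : (Lim.sUnits L').V, (Lim.trS h).hom e = p • x' := by
  have hmem : e' ∈ Lim.sUnitsAdd L' := by
    apply mem_sUnitsAdd_of_nsmul L' hp
    rw [he']
    exact Lim.trUnits_mem h _ (Lim.sIncl_mem L e)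
  let x' : (Lim.sUnits L').V := Lim.subMk (hW := Lim.sUnitsAdd_stable L') e' hmem
  have hx' : (Lim.sIncl L').hom x' = e' := rfl
  refine ⟨x', ?_⟩
  apply Lim.sIncl_injective L'
  rw [Lim.sIncl_trS, map_nsmul, hx', he']

/-- Divisibility persists at higher levels. -/
theorem sUnits_div_mono {L L₁ L' : Level S} (h₁ : L ≤ L₁) (h' : L₁ ≤ L') {p : ℕ}
    (e : (Lim.sUnits L).V) (hdiv : ∃ x₁ : (Lim.sUnits L₁).V, (Lim.trS h₁).hom e = p • x₁) :
    ∃ x' : (Lim.sUnits L').V, (Lim.trS (h₁.trans h')).hom e = p • x' := by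
  obtain ⟨x₁, hx₁⟩ := hdiv
  refine ⟨(Lim.trS h').hom x₁, ?_⟩
  have h1 : (Lim.trS (h₁.trans h')).hom e = (Lim.trS h').hom ((Lim.trS h₁).hom e) := rfl
  rw [h1, hx₁, map_nsmul]

/-- **GD9 for finitely many elements of `E(F)`**, cofinal form. -/
theorem exists_level_div_sUnits [IsDirected (Level S) (· ≤ ·)] {p : ℕ} (hp : 0 < p)
    (hdiv : SUnitsDivSpec S p) (L : Level S) (s : Finset (Lim.sUnits L).V) :
    ∃ (L₁ : Level S), L ≤ L₁ ∧ ∀ (L' : Level S) (h : L ≤ L'), L₁ ≤ L' → ∀ e ∈ s,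
      ∃ x' : (Lim.sUnits L').V, (Lim.trS h).hom e = p • x' := by
  classical
  obtain ⟨L₁, h₁, hL₁⟩ := exists_level_div_finset hdiv L (s.image (fun e => (Lim.sIncl L).hom e))
    (fun x hx => by
      obtain ⟨e, -, rfl⟩ := Finset.mem_image.1 hx
      exact Lim.isSUnit_of_mem L (Lim.sIncl_mem L e))
  refine ⟨L₁, h₁, fun L' h h' e he => ?_⟩
  obtain ⟨e₁, -, he₁⟩ := hL₁ _ (Finset.mem_image_of_mem _ he)
  exact sUnits_div_mono h₁ h' e (exists_sUnits_div h₁ hp e e₁ he₁)

section Tower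

variable [IsDirected (Level S) (· ≤ ·)] {p : ℕ}

/-- **LIM5 (iii) on the tower**, cocycle form. -/
theorem lim5_iii_tower_cocycle (hp : p.Prime) (hdiv : SUnitsDivSpec S p) (L : Level S)
    (N : Rep.{0} ℤ L.Gal) (hfin : @Module.Finite ℤ (stdR N).V _ _ (stdR N).hV2)
    (c : groupCohomology.cocycles₁ ((Rep.ihom (stdR N)).obj (Lim.sUnits L))) :
    ∃ L₁ : Level S, L ≤ L₁ ∧ ∀ (L' : Level S) (h : L ≤ L'), L₁ ≤ L' →
      ∀ (N' : Rep.{0} ℤ L'.Gal) (ν : N' ⟶ Rep.res (Level.proj h) N), (∀ n : N'.V, p • n = 0) →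
        ∃ b' : groupCohomology (edgeB N' (Lim.sUnits L')) 1,
          edgeIncl N' (Lim.sUnits L') b' =
            trE2 (Level.proj h) ν (Lim.trS h) (groupCohomology.H1π _ c) := by
  classical
  obtain ⟨s, hs⟩ := exists_finset_closure_eq_top (stdR N) hfin
  haveI : Fintype L.Gal := Fintype.ofFinite _
  let vals : Finset (Lim.sUnits L).V :=
    (Finset.univ : Finset L.Gal).biUnion (fun g => s.image (fun r => ihomLin (c g) r))
  obtain ⟨L₁, h₁, hL₁⟩ := exists_level_div_sUnits hp.pos hdiv L vals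
  refine ⟨L₁, h₁, fun L' h h' N' ν hN' => ?_⟩
  refine exists_edgeIncl_eq_trE2 (Level.proj h) ν (Lim.trS h) hp hN' c (fun g => ?_)
  refine div_of_div_on_generators (Level.proj h) (Lim.trS h) p (c g) (s : Set (stdR N).V) hs
    (fun r hr => ?_)
  refine hL₁ L' h h' _ ?_
  exact Finset.mem_biUnion.2 ⟨g, Finset.mem_univ g, Finset.mem_image_of_mem _ hr⟩

/-- **LIM5 (iii) on the tower**: every class of `𝔈²_F(E)` lies, after transition to any
`F' ≥ F₁`, in the image of `incl_* : H¹(G', 𝔹') → 𝔈²_{F'}(E)`. -/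
theorem lim5_iii_tower (hp : p.Prime) (hdiv : SUnitsDivSpec S p) (L : Level S)
    (N : Rep.{0} ℤ L.Gal) (hfin : @Module.Finite ℤ (stdR N).V _ _ (stdR N).hV2)
    (y : E2 N (Lim.sUnits L)) :
    ∃ L₁ : Level S, L ≤ L₁ ∧ ∀ (L' : Level S) (h : L ≤ L'), L₁ ≤ L' →
      ∀ (N' : Rep.{0} ℤ L'.Gal) (ν : N' ⟶ Rep.res (Level.proj h) N), (∀ n : N'.V, p • n = 0) →
        ∃ b' : groupCohomology (edgeB N' (Lim.sUnits L')) 1,
          edgeIncl N' (Lim.sUnits L') b' = trE2 (Level.proj h) ν (Lim.trS h) y := by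
  induction y using groupCohomology.H1_induction_on with
  | h c => exact lim5_iii_tower_cocycle hp hdiv L N hfin c

/-- **LIM5 (iii) on the tower**, edge form: after transition to any `F' ≥ F₁` the class is
`e(x')` for some `x' ∈ H²(G', Hom_ℤ(N', E(F')))`. -/
theorem lim5_iii_isEdge (hp : p.Prime) (hdiv : SUnitsDivSpec S p) (L : Level S)
    (N : Rep.{0} ℤ L.Gal) (hfin : @Module.Finite ℤ (stdR N).V _ _ (stdR N).hV2)
    (y : E2 N (Lim.sUnits L)) :
    ∃ L₁ : Level S, L ≤ L₁ ∧ ∀ (L' : Level S) (h : L ≤ L'), L₁ ≤ L' →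
      ∀ (N' : Rep.{0} ℤ L'.Gal) (ν : N' ⟶ Rep.res (Level.proj h) N), (∀ n : N'.V, p • n = 0) →
        ∃ x' : groupCohomology ((Rep.ihom N').obj (Lim.sUnits L')) 2,
          IsEdge x' (trE2 (Level.proj h) ν (Lim.trS h) y) := by
  obtain ⟨L₁, h₁, hL₁⟩ := lim5_iii_tower hp hdiv L N hfin y
  refine ⟨L₁, h₁, fun L' h h' N' ν hN' => ?_⟩
  obtain ⟨b', hb'⟩ := hL₁ L' h h' N' ν hN'
  exact ⟨edgeδ N' (Lim.sUnits L') b', b', rfl, hb'⟩

/-- **LIM5 (ii) on the tower**: a class `b ∈ H¹(G, 𝔹)` with `incl_* b = 0` dies in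
`H¹(G', 𝔹')` for all `F' ≥ F₁`. -/
theorem lim5_ii_tower (hp : p.Prime) (hdiv : SUnitsDivSpec S p) (L : Level S)
    (N : Rep.{0} ℤ L.Gal) (hfin : @Module.Finite ℤ (stdR N).V _ _ (stdR N).hV2)
    (b : groupCohomology (edgeB N (Lim.sUnits L)) 1) (hb : edgeIncl N (Lim.sUnits L) b = 0) :
    ∃ L₁ : Level S, L ≤ L₁ ∧ ∀ (L' : Level S) (h : L ≤ L'), L₁ ≤ L' →
      ∀ (N' : Rep.{0} ℤ L'.Gal) (ν : N' ⟶ Rep.res (Level.proj h) N), (∀ n : N'.V, p • n = 0) →
        (groupCohomology.map (Level.proj h) (trEdgeB (Level.proj h) ν (Lim.trS h)) 1).hom b =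
          0 := by
  classical
  obtain ⟨s, hs⟩ := exists_finset_closure_eq_top (stdR N) hfin
  obtain ⟨φ, hφ⟩ := exists_forall_map_trEdgeB_eq_zero hp b hb
  obtain ⟨L₁, h₁, hL₁⟩ := exists_level_div_sUnits hp.pos hdiv L (s.image (fun r => ihomLin φ r))
  refine ⟨L₁, h₁, fun L' h h' N' ν hN' => ?_⟩
  refine hφ L'.Gal (Level.proj h) N' ν (Lim.sUnits L') (Lim.trS h) hN' ?_
  refine div_of_div_on_generators (Level.proj h) (Lim.trS h) p φ (s : Set (stdR N).V) hs
    (fun r hr => ?_)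
  exact hL₁ L' h h' _ (Finset.mem_image_of_mem _ hr)

/-- **LIM5 (ii) on the tower**, `H²`-form: if `e(x) = 0` then `inf x = 0` in
`H²(G', Hom_ℤ(N', E(F')))` for all `F' ≥ F₁`. -/
theorem lim5_ii_inf (h10 : ALG10EdgeSpec) (hp : p.Prime) (hdiv : SUnitsDivSpec S p)
    (L : Level S) (N : Rep.{0} ℤ L.Gal)
    (hfin : @Module.Finite ℤ (stdR N).V _ _ (stdR N).hV2)
    (x : groupCohomology ((Rep.ihom N).obj (Lim.sUnits L)) 2)
    (hx : IsEdge x (0 : E2 N (Lim.sUnits L))) :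
    ∃ L₁ : Level S, L ≤ L₁ ∧ ∀ (L' : Level S) (h : L ≤ L'), L₁ ≤ L' →
      ∀ (N' : Rep.{0} ℤ L'.Gal) (ν : N' ⟶ Rep.res (Level.proj h) N), (∀ n : N'.V, p • n = 0) →
        (groupCohomology.map (Level.proj h) (trIhom (Level.proj h) ν (Lim.trS h)) 2).hom x =
          0 := by
  obtain ⟨b, rfl, hb⟩ := hx
  obtain ⟨L₁, h₁, hL₁⟩ := lim5_ii_tower hp hdiv L N hfin b hb
  refine ⟨L₁, h₁, fun L' h h' N' ν hN' => ?_⟩
  have h1 := (h10 L.Gal L'.Gal (Level.proj h) N N' ν (Lim.sUnits L) (Lim.sUnits L')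
    (Lim.trS h) b).1
  rw [← h1, hL₁ L' h h' N' ν hN', map_zero]

end Tower

end Fermat.Agent.S55.E1.H423

end
-- ===== PACK-END S55/E1/H423/Lim5Tower.lean

-- ===== PACK-BEGIN S55/GAD/TransH594.lean
section
/-
S55 / G-ADAPTER, leaf GAD-TR (helper594): the targets of the block REC2-TOW
(`G/Rec/Tow/Spec.lean`: `Gd1Spec`, `Gd3Spec`) imply the leaf specs GAD-CM and GAD-J of the
concrete tower datum (`GAD/Spec.lean`), along the comparison isomorphism
`crepIso L : G.CRep S L.Gal L.F ≅ GAD.CT L` (`GAD/IsoH594.lean`).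

* `asPiEquivF S F : F ⊗ ℚ_S ≃+* ∏_{q ∈ S} ℚ_q ⊗ F` (any field `F`), `asPiEquivF_asRes`;
* `jRes_tensInclFun` : the `q`-component `J_q(F) → J_S(F)` dies in `J_{S ∖ {q}}(F)`;
* `isAt_tensIncl` : classes coming from `H²(J_q(F))` are concentrated at `q` (`TOW.IsAt`);
* **`classModule_of_gd1 : TOW.Gd1Spec p → GAD.ClassModuleSpec S p`**  (`p` odd prime, `p ∈ S`);
* **`jInj_of_gd3 : TOW.Gd3Spec p → GAD.JInjSpec S p`**.
Complete proofs.
-/




set_option autoImplicit false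
set_option linter.unusedSectionVars false
set_option linter.style.haveILetI false

open CategoryTheory

namespace Fermat.Agent.S55.GAD.H594

open Fermat.Agent.S55 Fermat.Agent.S55.Tow Fermat.Agent.S55.E1.H594 Fermat.Agent.S55.G
open Fermat.Agent.S55.GAD
open scoped TensorProduct

noncomputable section

/-! ### 1. Components of `S`-adèles, for any field -/

section Generic

variable (S : Finset Nat.Primes) (F : Type) [Field F] [CharZero F]

/-- The ring isomorphism `F ⊗[ℚ] ℚ_S ≃ ∏_{q ∈ S} ℚ_q ⊗[ℚ] F`, for any field `F`. -/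
def asPiEquivF : G.AS S F ≃+* (∀ q : S, G.Qq q.1 ⊗[ℚ] F) := by
  classical
  exact ((Algebra.TensorProduct.congr (AlgEquiv.refl : F ≃ₐ[ℚ] F) (G.QS.toPi S)).trans
    ((Algebra.TensorProduct.piRight ℚ ℚ F (fun q : S => G.Qq q.1)).trans
      (AlgEquiv.piCongrRight
        (fun q : S => Algebra.TensorProduct.comm ℚ F (G.Qq q.1))))).toRingEquiv

theorem asPiEquivF_tmul (x : F) (y : G.QS S) (q : S) :
    asPiEquivF S F (x ⊗ₜ[ℚ] y) q = (G.QS.toPi S y q) ⊗ₜ[ℚ] x := rfl

variable {S} in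
/-- The components of the projection `𝔸_S(F) → 𝔸_{S'}(F)`, `S' ⊆ S`. -/
theorem asPiEquivF_asRes {S' : Finset Nat.Primes} (h : S' ⊆ S) (a : G.AS S F) (q : S') :
    asPiEquivF S' F (G.asRes h F a) q = asPiEquivF S F a ⟨q.1, h q.2⟩ := by
  induction a using TensorProduct.induction_on with
  | zero => rw [map_zero, map_zero, map_zero]; rfl
  | add a b ha hb =>
    rw [map_add, map_add, map_add, Pi.add_apply, Pi.add_apply, ha, hb]
  | tmul x y =>
    rw [G.asRes_tmul, asPiEquivF_tmul, asPiEquivF_tmul]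
    rfl

end Generic

variable {S : Finset Nat.Primes} (L : Level S)

theorem asPiEquivF_eq : asPiEquivF S L.F = asPiEquiv L := rfl

/-- If the `q`-component (in the tower module `J_q(F)`) of an `S`-idèle is trivial, so is its
component in `(ℚ_q ⊗ F)ˣ`. -/
theorem asPiEquiv_eq_one_of_tensEquiv (u : Additive (AS S L.F)ˣ) (q : S)
    (h : tensEquiv L u q = 0) :
    asPiEquiv L ((u.toMul : (AS S L.F)ˣ) : AS S L.F) q = 1 := by
  have h1 : tensLocEquiv L q.1
      (Additive.ofMul (MulEquiv.piUnits (M := fun q : S => G.Qq q.1 ⊗[ℚ] L.F)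
        (Units.mapEquiv (asPiEquiv L).toMulEquiv u.toMul) q)) = 0 := h
  have h2 := (AddEquiv.map_eq_zero_iff (tensLocEquiv L q.1)).1 h1
  have h3 : MulEquiv.piUnits (M := fun q : S => G.Qq q.1 ⊗[ℚ] L.F)
        (Units.mapEquiv (asPiEquiv L).toMulEquiv u.toMul) q = 1 := h2
  exact congrArg Units.val h3

/-- The `q`-component `J_q(F) → J_S(F)` dies in `J_{S ∖ {q}}(F)`. -/
theorem jRes_tensInclFun (q : S) (f : (L.J q.1).V) :
    G.jRes (Finset.erase_subset q.1 S) L.F (tensInclFun L q f) = 0 := by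
  apply Additive.toMul.injective
  apply Units.ext
  change G.asRes (Finset.erase_subset q.1 S) L.F
    (((tensInclFun L q f).toMul : (AS S L.F)ˣ) : AS S L.F) = 1
  apply (asPiEquivF (S.erase q.1) L.F).injective
  rw [map_one]
  funext q'
  rw [asPiEquivF_asRes]
  have hne : (⟨q'.1, Finset.erase_subset q.1 S q'.2⟩ : S) ≠ q := fun hq =>
    (Finset.mem_erase.1 q'.2).1 (congrArg Subtype.val hq)
  exact asPiEquiv_eq_one_of_tensEquiv L _ _ (tensEquiv_tensInclFun_ne L hne f)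

/-- The same in `Rep ℤ L.Gal`. -/
theorem tensIncl_comp_jRes (q : S) :
    tensIncl L q ≫ G.Rec.TOW.jResRepHom L.Gal L.F (Finset.erase_subset q.1 S) = 0 := by
  apply Rep.hom_ext
  apply Representation.IntertwiningMap.ext
  exact LinearMap.ext fun f => jRes_tensInclFun L q f

theorem tensIncl_comp_tensProj (q : S) : tensIncl L q ≫ tensProj L q = 𝟙 (L.J q.1) := by
  apply Rep.hom_ext
  apply Representation.IntertwiningMap.ext
  exact LinearMap.ext fun f => tensProj_tensIncl_same L q f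

/-! ### 2. Functoriality of `H²` -/

section Coh

variable {Γ : Type} [Group Γ]

theorem h2_comp {A B C : Rep.{0} ℤ Γ} (f : A ⟶ B) (g : B ⟶ C) (x : groupCohomology A 2) :
    (T.coeffMap (f ≫ g) 2).hom x = (T.coeffMap g 2).hom ((T.coeffMap f 2).hom x) := by
  have h : T.coeffMap (f ≫ g) 2 = T.coeffMap f 2 ≫ T.coeffMap g 2 :=
    groupCohomology.map_id_comp f g 2
  rw [h]
  rfl

theorem h2_id (A : Rep.{0} ℤ Γ) (x : groupCohomology A 2) : (T.coeffMap (𝟙 A) 2).hom x = x := by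
  have h : T.coeffMap (𝟙 A) 2 = 𝟙 _ := groupCohomology.map_id (B := A) (n := 2)
  rw [h]
  rfl

theorem h2_zero (A B : Rep.{0} ℤ Γ) (x : groupCohomology A 2) :
    (T.coeffMap (0 : A ⟶ B) 2).hom x = 0 := by
  change ((groupCohomology.functor ℤ Γ 2).map (0 : A ⟶ B)).hom x = 0
  rw [CategoryTheory.Functor.map_zero]
  rfl

theorem h2_iso_injective {C C' : Rep.{0} ℤ Γ} (e : C ≅ C') :
    Function.Injective (T.coeffMap e.hom 2).hom := by
  intro x y hxy
  have h := congrArg (T.coeffMap e.inv 2).hom hxy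
  rwa [← h2_comp, ← h2_comp, Iso.hom_inv_id, h2_id, h2_id] at h

end Coh

/-- Classes coming from `H²(Gal, J_q(F))` are concentrated at `q`. -/
theorem isAt_tensIncl (q : S) (y : groupCohomology (L.J q.1) 2) :
    G.Rec.TOW.IsAt S L.Gal L.F q.1 ((T.coeffMap (tensIncl L q) 2).hom y) := by
  change (T.coeffMap (G.Rec.TOW.jResRepHom L.Gal L.F (Finset.erase_subset q.1 S)) 2).hom
    ((T.coeffMap (tensIncl L q) 2).hom y) = 0
  rw [← h2_comp, tensIncl_comp_jRes, h2_zero]

/-! ### 3. The transports -/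

section Iso

variable {Γ : Type} [Group Γ]

/-- Restriction to a subgroup commutes with change of coefficients. -/
theorem resMap_coeffMap_apply594 {C C' : Rep.{0} ℤ Γ} (f : C ⟶ C') (H : Subgroup Γ) (n : ℕ)
    (x : groupCohomology C n) :
    (T.resMap C' H n).hom ((T.coeffMap f n).hom x) =
      (T.coeffMap ((Rep.resFunctor H.subtype).map f) n).hom ((T.resMap C H n).hom x) := by
  have h : T.coeffMap f n ≫ T.resMap C' H n =
      T.resMap C H n ≫ T.coeffMap ((Rep.resFunctor H.subtype).map f) n := by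
    rw [← groupCohomology.map_comp, ← groupCohomology.map_comp]
    exact groupCohomology.map_congr rfl rfl n
  exact congrArg (fun φ => φ.hom x) h

/-- The isomorphism on the cohomology of a subgroup induced by an isomorphism of modules. -/
def subCohIso594 {C C' : Rep.{0} ℤ Γ} (e : C ≅ C') (H : Subgroup Γ) (n : ℕ) :
    groupCohomology (T.resSub C H) n ≅ groupCohomology (T.resSub C' H) n :=
  (groupCohomology.functor ℤ H n).mapIso ((Rep.resFunctor H.subtype).mapIso e)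

/-- Class modules at `p` are transported along isomorphisms. -/
theorem isClassModuleAt_iso594 [Finite Γ] (p : ℕ) {C C' : Rep.{0} ℤ Γ} (e : C ≅ C')
    (γ : groupCohomology C 2) (hγ : E1.IsClassModuleAt p C γ) :
    E1.IsClassModuleAt p C' ((T.coeffMap e.hom 2).hom γ) := by
  intro H hH
  obtain ⟨h1, h2, h3⟩ := hγ H hH
  refine ⟨Limits.IsZero.of_iso h1 (subCohIso594 e H 1).symm, ?_, ?_⟩
  · rw [← h2]
    exact Nat.card_congr (subCohIso594 e H 2).symm.toLinearEquiv.toEquiv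
  · intro x'
    obtain ⟨n, hn⟩ := h3 ((subCohIso594 e H 2).inv.hom x')
    refine ⟨n, ?_⟩
    have hx : x' = (subCohIso594 e H 2).hom.hom ((subCohIso594 e H 2).inv.hom x') := by
      rw [← ModuleCat.comp_apply, Iso.inv_hom_id]
      rfl
    rw [hx, hn, map_nsmul, resMap_coeffMap_apply594]
    rfl

end Iso

variable (S) (p : ℕ)

/-- **GAD-CM from GD1-TOW.** -/
theorem classModule_of_gd1 (hp : p.Prime) (hp2 : p ≠ 2) (hpS : (⟨p, hp⟩ : Nat.Primes) ∈ S)
    (h : G.Rec.TOW.Gd1Spec p) : GAD.ClassModuleSpec S p := by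
  intro L hμ
  obtain ⟨γ, hγ⟩ := h S hp hp2 hpS L hμ
  exact ⟨_, isClassModuleAt_iso594 p (crepIso L) γ hγ⟩

/-- **GAD-J from GD3-TOW.** -/
theorem jInj_of_gd3 (h : G.Rec.TOW.Gd3Spec p) : GAD.JInjSpec S p := by
  intro L _ q hq y hy hy0
  have h1 : E1.IsPPrimary p ((T.coeffMap (tensIncl L ⟨q, hq⟩) 2).hom y) :=
    ⟨1, by rw [pow_one, ← map_nsmul, hy, map_zero]⟩
  have h2 := isAt_tensIncl L ⟨q, hq⟩ y
  have h3 : (T.coeffMap (G.Rec.TOW.lvlj L) 2).hom
      ((T.coeffMap (tensIncl L ⟨q, hq⟩) 2).hom y) = 0 := by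
    apply h2_iso_injective (crepIso L)
    rw [map_zero, ← h2_comp, ← h2_comp]
    have h4 : jT L q = tensIncl L ⟨q, hq⟩ ≫ G.Rec.TOW.lvlj L ≫ (crepIso L).hom :=
      jT_eq L ⟨q, hq⟩
    rw [← h4]
    exact hy0
  have h5 := h S L q hq _ h1 h2 h3
  have h6 : y = (T.coeffMap (tensProj L ⟨q, hq⟩) 2).hom
      ((T.coeffMap (tensIncl L ⟨q, hq⟩) 2).hom y) := by
    rw [← h2_comp, tensIncl_comp_tensProj, h2_id]
  rw [h6, h5, map_zero]

end

end Fermat.Agent.S55.GAD.H594

end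
-- ===== PACK-END S55/GAD/TransH594.lean

-- ===== PACK-BEGIN S41/H45/NE.lean
section






/-!
# S41, block NE: assembly (helper45)

`ne_h45 : Spec.NEStatement` — if `E[p]` is irreducible (`p` odd), then for every `m ≥ 1` and every
finite set `S` there is a prime `ℓ ∉ S` of good reduction of `W`, `ℓ ≡ 1 mod m`, with
`p ∤ a_ℓ(W) − (ℓ + 1)`.

Inputs: Frobenius division (`Lib.Cheb.frobeniusDivision`), the Frobenius relation
(`frobRelTorsion_h45`), the cyclotomic character mod `m p` (`Cyc.lean`), the abstract lemma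
`H701.exists_stable_line_of_eisenstein_h701` and `dim E[p] = 2` (`H701.finrank_torsion_eq_two_h701`).
-/

set_option autoImplicit false

namespace Fermat.Agent.S41.H45

open WeierstrassCurve WeierstrassCurve.Affine WeierstrassCurve.Affine.Point

/-- The mod `p` representation of `G_ℚ` on `E[p](ℚ̄)`, as a monoid homomorphism to `End`. -/
noncomputable def rho_h45 (E : WeierstrassCurve ℚ) (p : ℕ) :
    (AlgebraicClosure ℚ ≃ₐ[ℚ] AlgebraicClosure ℚ) →*
      Module.End (ZMod p) (Submodule.torsionBy ℤ (E⁄(AlgebraicClosure ℚ)).Point p) where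
  toFun σ := AddMonoidHom.toZModLinearMap p
    (DistribSMul.toAddMonoidHom (Submodule.torsionBy ℤ (E⁄(AlgebraicClosure ℚ)).Point p) σ)
  map_one' := by
    ext x
    simp
  map_mul' σ τ := by
    ext x
    simp [mul_smul]

theorem rho_apply_h45 (E : WeierstrassCurve ℚ) (p : ℕ)
    (σ : AlgebraicClosure ℚ ≃ₐ[ℚ] AlgebraicClosure ℚ)
    (P : Submodule.torsionBy ℤ (E⁄(AlgebraicClosure ℚ)).Point p) :
    rho_h45 E p σ P = σ • P := rfl

/-- The discriminant of an integral model of an elliptic curve is nonzero. -/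
theorem delta_ne_zero_h45 (E : WeierstrassCurve ℚ) [E.IsElliptic] (W : WeierstrassCurve ℤ)
    (hW : W.IsIntegralModelOf E) : W.Δ ≠ 0 := by
  obtain ⟨C, hC⟩ := hW
  intro h0
  have h1 : (W.map (Int.castRingHom ℚ)).Δ = 0 := by
    rw [WeierstrassCurve.map_Δ, h0, _root_.map_zero]
  rw [← hC] at h1
  exact (C • E).isUnit_Δ.ne_zero h1

/-- **Block NE.** -/
theorem ne_h45 : Spec.NEStatement := by
  intro E _ W hW p hp hp2 hirr m hm S
  by_contra hcon
  push Not at hcon
  classical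
  have : Fact p.Prime := ⟨hp⟩
  have hMpos : 0 < m * p := Nat.mul_pos hm hp.pos
  have : NeZero (m * p) := ⟨hMpos.ne'⟩
  obtain ⟨ζ, hζ⟩ := HasEnoughRootsOfUnity.exists_primitiveRoot (AlgebraicClosure ℚ) (m * p)
  obtain ⟨L₁, hL₁fin, hL₁⟩ := torsionField_h45 E p hp.pos
  obtain ⟨L₂, hL₂fin, hL₂⟩ := rootField_h45 (m * p) hMpos
  have hΔ := delta_ne_zero_h45 E W hW
  have hpM : p ∣ m * p := Dvd.intro_left m rfl
  have hLfin : FiniteDimensional ℚ ↥(L₁ ⊔ L₂) := IntermediateField.finiteDimensional_sup L₁ L₂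
  have hζL : ζ ∈ L₁ ⊔ L₂ := (le_sup_right : L₂ ≤ L₁ ⊔ L₂) (hL₂ ζ hζ.pow_eq_one)
  have h2 : (2 : ZMod p) ≠ 0 := by
    intro h
    have h' : ((2 : ℕ) : ZMod p) = 0 := by exact_mod_cast h
    rw [ZMod.natCast_eq_zero_iff] at h'
    exact hp2 ((Nat.prime_dvd_prime_iff_eq hp Nat.prime_two).mp h')
  have : (E⁄(AlgebraicClosure ℚ)).IsElliptic :=
    inferInstanceAs (E.map (algebraMap ℚ (AlgebraicClosure ℚ))).IsElliptic
  have hdim := Fermat.Agent.S41.H701.finrank_torsion_eq_two_h701 (K := AlgebraicClosure ℚ) E p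
  have hεval : ∀ u : (ZMod (m * p))ˣ, ((ZMod.unitsMap hpM u : (ZMod p)ˣ) : ZMod p)
      = ZMod.castHom hpM (ZMod p) (u : ZMod (m * p)) := by
    intro u
    rw [ZMod.unitsMap_def]
    rfl
  have hF : ∀ σ : AlgebraicClosure ℚ ≃ₐ[ℚ] AlgebraicClosure ℚ,
      ∃ (τ : AlgebraicClosure ℚ ≃ₐ[ℚ] AlgebraicClosure ℚ) (j : ℕ) (a : ZMod p),
        rho_h45 E p σ = rho_h45 E p τ ^ j ∧ hζ.autToPow ℚ σ = hζ.autToPow ℚ τ ^ j ∧
        (hζ.autToPow ℚ σ = 1 → hζ.autToPow ℚ τ = 1) ∧
        rho_h45 E p τ * rho_h45 E p τ - a • rho_h45 E p τ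
          + ((ZMod.unitsMap hpM (hζ.autToPow ℚ τ) : (ZMod p)ˣ) : ZMod p) •
            (1 : Module.End (ZMod p) (Submodule.torsionBy ℤ (E⁄(AlgebraicClosure ℚ)).Point p)) = 0 ∧
        (hζ.autToPow ℚ τ = 1 → a = 2) := by
    intro σ
    obtain ⟨ℓ, A, τ, k, j, hℓ, hℓS, hA, hτ, -, hk, hj⟩ :=
      Fermat.Agent.Lib.Cheb.frobeniusDivision (L₁ ⊔ L₂) hLfin σ
        (S ∪ Finset.range 5 ∪ {p} ∪ W.Δ.natAbs.primeFactors ∪ (m * p).primeFactors)
    simp only [Finset.mem_union, Finset.mem_range, Finset.mem_singleton, not_or] at hℓS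
    obtain ⟨⟨⟨⟨hℓS, hℓ5⟩, hℓp⟩, hℓΔ⟩, hℓM⟩ := hℓS
    have h5 : 5 ≤ ℓ := not_lt.mp hℓ5
    have hgood : W.IsGoodPrimeFor ℓ := by
      intro hdvd
      apply hℓΔ
      rw [Nat.mem_primeFactors]
      exact ⟨hℓ, Int.natCast_dvd.mp hdvd, Int.natAbs_ne_zero.mpr hΔ⟩
    have hℓM' : ¬ ℓ ∣ m * p := by
      intro hdvd
      apply hℓM
      rw [Nat.mem_primeFactors]
      exact ⟨hℓ, hdvd, hMpos.ne'⟩
    have hχτ : ((hζ.autToPow ℚ τ : (ZMod (m * p))ˣ) : ZMod (m * p)) = (ℓ : ZMod (m * p)) :=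
      chi_frob_h45 hζ hℓ hℓM' A τ hA hτ
    refine ⟨τ, j, ((W.apOfModel ℓ : ℤ) : ZMod p), ?_, ?_, ?_, ?_, ?_⟩
    · rw [← map_pow]
      apply LinearMap.ext
      intro P
      rw [rho_apply_h45, rho_apply_h45]
      exact hL₁ σ (τ ^ j) (fun x hx => (hj x ((le_sup_left : L₁ ≤ L₁ ⊔ L₂) hx)).symm) P
    · rw [← map_pow]
      exact chi_eq_of_apply_eq_h45 hζ σ (τ ^ j) (hj ζ hζL).symm
    · intro hσ1
      rw [chi_eq_of_apply_eq_h45 hζ τ (σ ^ k) (hk ζ hζL), map_pow, hσ1, one_pow]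
    · apply LinearMap.ext
      intro P
      have hrel := frobRelTorsion_h45 E W hW p ℓ hp hℓ h5 hℓp hgood A τ hA hτ P
      have hc : ((ZMod.unitsMap hpM (hζ.autToPow ℚ τ) : (ZMod p)ˣ) : ZMod p)
          = (((ℓ : ℤ)) : ZMod p) := by
        rw [hεval, hχτ, map_natCast, Int.cast_natCast]
      rw [hc]
      simp only [LinearMap.add_apply, LinearMap.sub_apply, LinearMap.smul_apply,
        Module.End.mul_apply, Module.End.one_apply, LinearMap.zero_apply, rho_apply_h45]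
      rw [Int.cast_smul_eq_zsmul, Int.cast_smul_eq_zsmul]
      exact hrel
    · intro hτ1
      rw [hτ1, Units.val_one] at hχτ
      have hmod : ℓ ≡ 1 [MOD m * p] := by
        rw [← ZMod.natCast_eq_natCast_iff, ← hχτ, Nat.cast_one]
      have hmodm : ℓ ≡ 1 [MOD m] := Nat.ModEq.of_mul_right p hmod
      have hmodp : ℓ ≡ 1 [MOD p] := Nat.ModEq.of_mul_left m hmod
      have hdvd := hcon ℓ hℓ hℓS hgood hmodm
      have h1 : (((W.apOfModel ℓ - ((ℓ : ℤ) + 1) : ℤ)) : ZMod p) = 0 :=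
        (ZMod.intCast_zmod_eq_zero_iff_dvd _ p).mpr hdvd
      have h3 : ((ℓ : ℕ) : ZMod p) = ((1 : ℕ) : ZMod p) :=
        (ZMod.natCast_eq_natCast_iff _ _ _).mpr hmodp
      push_cast at h1 h3
      rw [h3] at h1
      linear_combination h1
  have hcc : hζ.autToPow ℚ complexConjugation = -1 := chi_complexConjugation_h45 hζ
  have hc2 : hζ.autToPow ℚ complexConjugation * hζ.autToPow ℚ complexConjugation = 1 := by
    rw [hcc]
    simp
  have hcε : ((ZMod.unitsMap hpM (hζ.autToPow ℚ complexConjugation) : (ZMod p)ˣ) : ZMod p)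
      = -1 := by
    rw [hεval, hcc, Units.val_neg, Units.val_one, map_neg, map_one]
  obtain ⟨L, hLbot, hLtop, hLstab⟩ :=
    Fermat.Agent.S41.H701.exists_stable_line_of_eisenstein_h701 h2 hdim (rho_h45 E p)
      (hζ.autToPow ℚ) (ZMod.unitsMap hpM) hF complexConjugation hc2 hcε
  rcases hirr.2 L (fun σ x hx => hLstab σ x hx) with h | h
  · exact hLbot h
  · exact hLtop h

end Fermat.Agent.S41.H45

end
-- ===== PACK-END S41/H45/NE.lean

-- ===== PACK-BEGIN S41/H45/NEKummer.lean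
section





/-!
# S41, block NE': assembly (helper45)

`neKummer_h45 : Spec.NEKummerStatement` — if `E[p]` is irreducible (`p` odd) and `q` is a prime, then
for every `m ≥ 1` and every finite set `S` there is a prime `ℓ ∉ S` of good reduction of `W` with
`ℓ ≡ 1 mod m`, `ℓ ≡ 1 mod p`, `p ∤ a_ℓ(W) − (ℓ + 1)` and `q ^ ((ℓ - 1) / p) ≢ 1 mod ℓ`.
-/

set_option autoImplicit false

namespace Fermat.Agent.S41.H45

open WeierstrassCurve WeierstrassCurve.Affine WeierstrassCurve.Affine.Point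

section Chi

variable {M : ℕ} [NeZero M] {ζ : AlgebraicClosure ℚ} (hζ : IsPrimitiveRoot ζ M)

/-- An element of the kernel of `χ` fixes the `M`-th roots of unity. -/
theorem apply_root_of_chi_eq_one_h45 (s : AlgebraicClosure ℚ ≃ₐ[ℚ] AlgebraicClosure ℚ)
    (hs : hζ.autToPow ℚ s = 1) (t : AlgebraicClosure ℚ) (ht : t ^ M = 1) : s t = t := by
  have hζs : s ζ = ζ := by
    have h := hζ.autToPow_spec ℚ s
    rw [hs, Units.val_one] at h
    rw [← h]
    rcases Nat.lt_or_ge 1 M with h1 | h1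
    · haveI : Fact (1 < M) := ⟨h1⟩
      rw [ZMod.val_one, pow_one]
    · have hM : M = 1 := le_antisymm h1 (Nat.pos_of_ne_zero (NeZero.ne M))
      subst hM
      have := hζ.pow_eq_one
      rw [pow_one] at this
      rw [this, one_pow]
  obtain ⟨i, -, rfl⟩ := hζ.eq_pow_of_pow_eq_one ht
  rw [map_pow, hζs]

/-- The Kummer character is multiplicative on the kernel of `χ`. -/
theorem kummer_mul_h45 {p : ℕ} (hpM : p ∣ M) (a : ℚ) (β : AlgebraicClosure ℚ) (hβ0 : β ≠ 0)
    (hβ : β ^ p = algebraMap ℚ (AlgebraicClosure ℚ) a)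
    (s t : AlgebraicClosure ℚ ≃ₐ[ℚ] AlgebraicClosure ℚ) (hs : hζ.autToPow ℚ s = 1) :
    (s * t) β = (s β / β) * (t β / β) * β := by
  have hκ : (t β / β) ^ M = 1 := by
    obtain ⟨k, rfl⟩ := hpM
    rw [pow_mul, div_pow, ← map_pow, hβ, AlgEquiv.commutes, div_self, one_pow]
    rw [← hβ]
    exact pow_ne_zero p hβ0
  have h1 := apply_root_of_chi_eq_one_h45 hζ s hs _ hκ
  have h2 : t β = (t β / β) * β := by field_simp
  rw [AlgEquiv.mul_apply, h2, map_mul, h1]
  field_simp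

end Chi

/-- The Frobenius relation as an identity in `End (E[p])`. -/
theorem rho_frob_rel_h45 (E : WeierstrassCurve ℚ) [E.IsElliptic] (W : WeierstrassCurve ℤ)
    (hW : W.IsIntegralModelOf E) (p ℓ : ℕ) (hp : p.Prime) (hℓ : ℓ.Prime) (h5 : 5 ≤ ℓ)
    (hℓp : ℓ ≠ p) (hgood : W.IsGoodPrimeFor ℓ)
    (A : ValuationSubring (AlgebraicClosure ℚ))
    (τ : AlgebraicClosure ℚ ≃ₐ[ℚ] AlgebraicClosure ℚ)
    (hA : A.LiesOverPrime ℓ) (hτ : A.IsFrobeniusAt τ ℓ) :
    rho_h45 E p τ * rho_h45 E p τ - ((W.apOfModel ℓ : ℤ) : ZMod p) • rho_h45 E p τ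
      + (((ℓ : ℤ)) : ZMod p) •
        (1 : Module.End (ZMod p) (Submodule.torsionBy ℤ (E⁄(AlgebraicClosure ℚ)).Point p)) = 0 := by
  apply LinearMap.ext
  intro P
  have hrel := frobRelTorsion_h45 E W hW p ℓ hp hℓ h5 hℓp hgood A τ hA hτ P
  simp only [LinearMap.add_apply, LinearMap.sub_apply, LinearMap.smul_apply,
    Module.End.mul_apply, Module.End.one_apply, LinearMap.zero_apply, rho_apply_h45]
  rw [Int.cast_smul_eq_zsmul, Int.cast_smul_eq_zsmul]
  exact hrel

/-- **Block NE'.** -/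
theorem neKummer_h45 : Spec.NEKummerStatement := by
  intro E _ W hW p hp hp2 hirr q hq m hm S
  by_contra hcon
  push Not at hcon
  classical
  have hcon' : ∀ ℓ : ℕ, ℓ.Prime → ℓ ∉ S → W.IsGoodPrimeFor ℓ → ℓ ≡ 1 [MOD m] → ℓ ≡ 1 [MOD p] →
      ¬ (q ^ ((ℓ - 1) / p) ≡ 1 [MOD ℓ]) → (p : ℤ) ∣ W.apOfModel ℓ - ((ℓ : ℤ) + 1) := by
    intro ℓ h1 h2 h3 h4 h5 h6
    by_contra h7
    exact h6 (hcon ℓ h1 h2 h3 h4 h5 h7)
  have : Fact p.Prime := ⟨hp⟩
  have hMpos : 0 < m * p := Nat.mul_pos hm hp.pos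
  have : NeZero (m * p) := ⟨hMpos.ne'⟩
  obtain ⟨ζ, hζ⟩ := HasEnoughRootsOfUnity.exists_primitiveRoot (AlgebraicClosure ℚ) (m * p)
  obtain ⟨L₁, hL₁fin, hL₁⟩ := torsionField_h45 E p hp.pos
  obtain ⟨L₂, hL₂fin, hL₂⟩ := rootField_h45 (m * p) hMpos
  obtain ⟨β, σ₀, hβ, hs₁β⟩ := exists_commutator_moving_h45 hp hp2 hq
  set s₁ : AlgebraicClosure ℚ ≃ₐ[ℚ] AlgebraicClosure ℚ :=
    σ₀ * complexConjugation * σ₀⁻¹ * complexConjugation⁻¹ with hs₁
  have hq0 : (q : AlgebraicClosure ℚ) ≠ 0 := by exact_mod_cast hq.ne_zero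
  have hβ0 : β ≠ 0 := by
    rintro rfl
    rw [zero_pow hp.ne_zero] at hβ
    exact pow_ne_zero 2 hq0 hβ.symm
  have hβ' : β ^ p = algebraMap ℚ (AlgebraicClosure ℚ) ((q : ℚ) ^ 2) := by
    rw [hβ, map_pow, map_natCast]
  have hL₃fin : FiniteDimensional ℚ ↥(IntermediateField.adjoin ℚ ({β} : Set (AlgebraicClosure ℚ))) :=
    IntermediateField.adjoin.finiteDimensional (isAlgebraic_Qb_h45.isAlgebraic β).isIntegral
  set L₃ := IntermediateField.adjoin ℚ ({β} : Set (AlgebraicClosure ℚ)) with hL₃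
  have hβL₃ : β ∈ L₃ := IntermediateField.subset_adjoin ℚ _ (Set.mem_singleton β)
  have hΔ := delta_ne_zero_h45 E W hW
  have hpM : p ∣ m * p := Dvd.intro_left m rfl
  have hL₁₂fin : FiniteDimensional ℚ ↥(L₁ ⊔ L₂) := IntermediateField.finiteDimensional_sup L₁ L₂
  have hLfin : FiniteDimensional ℚ ↥(L₁ ⊔ L₂ ⊔ L₃) :=
    IntermediateField.finiteDimensional_sup (L₁ ⊔ L₂) L₃
  have hL₁le : L₁ ≤ L₁ ⊔ L₂ ⊔ L₃ := le_sup_left.trans le_sup_left
  have hζL : ζ ∈ L₁ ⊔ L₂ ⊔ L₃ :=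
    (le_sup_right.trans le_sup_left : L₂ ≤ L₁ ⊔ L₂ ⊔ L₃) (hL₂ ζ hζ.pow_eq_one)
  have hβL : β ∈ L₁ ⊔ L₂ ⊔ L₃ := (le_sup_right : L₃ ≤ L₁ ⊔ L₂ ⊔ L₃) hβL₃
  have h2 : (2 : ZMod p) ≠ 0 := by
    intro h
    have h' : ((2 : ℕ) : ZMod p) = 0 := by exact_mod_cast h
    rw [ZMod.natCast_eq_zero_iff] at h'
    exact hp2 ((Nat.prime_dvd_prime_iff_eq hp Nat.prime_two).mp h')
  have : (E⁄(AlgebraicClosure ℚ)).IsElliptic :=
    inferInstanceAs (E.map (algebraMap ℚ (AlgebraicClosure ℚ))).IsElliptic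
  have hdim := Fermat.Agent.S41.H701.finrank_torsion_eq_two_h701 (K := AlgebraicClosure ℚ) E p
  have hεval : ∀ u : (ZMod (m * p))ˣ, ((ZMod.unitsMap hpM u : (ZMod p)ˣ) : ZMod p)
      = ZMod.castHom hpM (ZMod p) (u : ZMod (m * p)) := by
    intro u
    rw [ZMod.unitsMap_def]
    rfl
  -- the data of a Frobenius element attached to `σ`
  have hFrob : ∀ σ : AlgebraicClosure ℚ ≃ₐ[ℚ] AlgebraicClosure ℚ,
      ∃ (ℓ : ℕ) (A : ValuationSubring (AlgebraicClosure ℚ))
        (τ : AlgebraicClosure ℚ ≃ₐ[ℚ] AlgebraicClosure ℚ) (k j : ℕ),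
        ℓ.Prime ∧ ℓ ∉ S ∧ 5 ≤ ℓ ∧ ℓ ≠ p ∧ ℓ ≠ q ∧ W.IsGoodPrimeFor ℓ ∧
        A.LiesOverPrime ℓ ∧ A.IsFrobeniusAt τ ℓ ∧
        ((hζ.autToPow ℚ τ : (ZMod (m * p))ˣ) : ZMod (m * p)) = (ℓ : ZMod (m * p)) ∧
        rho_h45 E p σ = rho_h45 E p τ ^ j ∧ hζ.autToPow ℚ σ = hζ.autToPow ℚ τ ^ j ∧
        hζ.autToPow ℚ τ = hζ.autToPow ℚ σ ^ k ∧ (τ ^ j) β = σ β := by
    intro σ
    obtain ⟨ℓ, A, τ, k, j, hℓ, hℓS, hA, hτ, -, hk, hj⟩ :=
      Fermat.Agent.Lib.Cheb.frobeniusDivision (L₁ ⊔ L₂ ⊔ L₃) hLfin σ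
        (S ∪ Finset.range 5 ∪ {p} ∪ {q} ∪ W.Δ.natAbs.primeFactors ∪ (m * p).primeFactors)
    simp only [Finset.mem_union, Finset.mem_range, Finset.mem_singleton, not_or] at hℓS
    obtain ⟨⟨⟨⟨⟨hℓS, hℓ5⟩, hℓp⟩, hℓq⟩, hℓΔ⟩, hℓM⟩ := hℓS
    have h5 : 5 ≤ ℓ := not_lt.mp hℓ5
    have hgood : W.IsGoodPrimeFor ℓ := by
      intro hdvd
      apply hℓΔ
      rw [Nat.mem_primeFactors]
      exact ⟨hℓ, Int.natCast_dvd.mp hdvd, Int.natAbs_ne_zero.mpr hΔ⟩
    have hℓM' : ¬ ℓ ∣ m * p := by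
      intro hdvd
      apply hℓM
      rw [Nat.mem_primeFactors]
      exact ⟨hℓ, hdvd, hMpos.ne'⟩
    refine ⟨ℓ, A, τ, k, j, hℓ, hℓS, h5, hℓp, hℓq, hgood, hA, hτ,
      chi_frob_h45 hζ hℓ hℓM' A τ hA hτ, ?_, ?_, ?_, hj β hβL⟩
    · rw [← map_pow]
      apply LinearMap.ext
      intro P
      rw [rho_apply_h45, rho_apply_h45]
      exact hL₁ σ (τ ^ j) (fun x hx => (hj x (hL₁le hx)).symm) P
    · rw [← map_pow]
      exact chi_eq_of_apply_eq_h45 hζ σ (τ ^ j) (hj ζ hζL).symm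
    · rw [← map_pow]
      exact chi_eq_of_apply_eq_h45 hζ τ (σ ^ k) (hk ζ hζL)
  -- elements of `ker χ` moving `β` are unipotent
  have hU : ∀ s : AlgebraicClosure ℚ ≃ₐ[ℚ] AlgebraicClosure ℚ, hζ.autToPow ℚ s = 1 → s β ≠ β →
      (rho_h45 E p s - 1) * (rho_h45 E p s - 1) = 0 := by
    intro s hs hsβ
    obtain ⟨ℓ, A, τ, k, j, hℓ, hℓS, h5, hℓp, hℓq, hgood, hA, hτ, hχτ, hρ, -, hχk, hjβ⟩ := hFrob s
    have hτ1 : hζ.autToPow ℚ τ = 1 := by rw [hχk, hs, one_pow]
    rw [hτ1, Units.val_one] at hχτ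
    have hmod : ℓ ≡ 1 [MOD m * p] := by
      rw [← ZMod.natCast_eq_natCast_iff, ← hχτ, Nat.cast_one]
    have hmodm : ℓ ≡ 1 [MOD m] := Nat.ModEq.of_mul_right p hmod
    have hmodp : ℓ ≡ 1 [MOD p] := Nat.ModEq.of_mul_left m hmod
    have hpℓ : p ∣ ℓ - 1 := (Nat.modEq_iff_dvd' hℓ.one_le).mp hmodp.symm
    have hτβ : τ β ≠ β := by
      intro h
      apply hsβ
      rw [← hjβ]
      clear hjβ hρ
      induction j with
      | zero => simp
      | succ n ih => rw [pow_succ, AlgEquiv.mul_apply, h, ih]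
    have hK := not_modEq_of_frob_h45 hp hq hℓ hℓp hℓq hpℓ A τ hA hτ β hβ hτβ
    have hdvd := hcon' ℓ hℓ hℓS hgood hmodm hmodp hK
    have h1 : (((W.apOfModel ℓ - ((ℓ : ℤ) + 1) : ℤ)) : ZMod p) = 0 :=
      (ZMod.intCast_zmod_eq_zero_iff_dvd _ p).mpr hdvd
    have h3 : ((ℓ : ℕ) : ZMod p) = ((1 : ℕ) : ZMod p) :=
      (ZMod.natCast_eq_natCast_iff _ _ _).mpr hmodp
    push_cast at h1 h3
    rw [h3] at h1
    have ha : ((W.apOfModel ℓ : ℤ) : ZMod p) = 2 := by linear_combination h1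
    have hrel := rho_frob_rel_h45 E W hW p ℓ hp hℓ h5 hℓp hgood A τ hA hτ
    rw [ha, Int.cast_natCast, h3, one_smul, two_smul] at hrel
    have hτu : (rho_h45 E p τ - 1) * (rho_h45 E p τ - 1) = 0 := by
      rw [← hrel]; noncomm_ring
    rw [hρ]
    exact Fermat.Agent.S41.H701.sq_zero_pow_sub_one_h701 _ hτu j
  have hcc : hζ.autToPow ℚ complexConjugation = -1 := chi_complexConjugation_h45 hζ
  have hs₁χ : hζ.autToPow ℚ s₁ = 1 := by
    rw [hs₁, map_mul, map_mul, map_mul, map_inv, map_inv, hcc]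
    simp
  -- all elements of `ker χ` are unipotent
  have hUall : ∀ σ : AlgebraicClosure ℚ ≃ₐ[ℚ] AlgebraicClosure ℚ, hζ.autToPow ℚ σ = 1 →
      (rho_h45 E p σ - 1) * (rho_h45 E p σ - 1) = 0 := by
    intro σ hσ
    by_cases hσβ : σ β = β
    · have hκ1 : s₁ β / β ≠ 1 := fun h => hs₁β ((div_eq_one_iff_eq hβ0).mp h)
      have hκp : (s₁ β / β) ^ p = 1 := by
        rw [div_pow, ← map_pow, hβ', AlgEquiv.commutes, div_self]
        rw [← hβ']
        exact pow_ne_zero p hβ0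
      have hκ2 : (s₁ β / β) ^ 2 ≠ 1 := by
        intro h
        obtain ⟨k, hk⟩ := (hp.eq_two_or_odd'.resolve_left hp2)
        apply hκ1
        have : (s₁ β / β) ^ p = (s₁ β / β) := by
          rw [hk, pow_succ, pow_mul, h, one_pow, one_mul]
        rw [← this, hκp]
      have e1 : (σ * s₁) β = (s₁ β / β) * β := by
        rw [kummer_mul_h45 hζ hpM _ β hβ0 hβ' σ s₁ hσ, hσβ, div_self hβ0, one_mul]
      have e2 : (s₁ * s₁) β = (s₁ β / β) ^ 2 * β := by
        rw [kummer_mul_h45 hζ hpM _ β hβ0 hβ' s₁ s₁ hs₁χ, sq]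
      have e3 : (σ * (s₁ * s₁)) β = (s₁ β / β) ^ 2 * β := by
        rw [kummer_mul_h45 hζ hpM _ β hβ0 hβ' σ (s₁ * s₁) hσ, hσβ, div_self hβ0, one_mul, e2]
        field_simp
      have n1 : (σ * s₁) β ≠ β := by
        rw [e1]
        intro h
        apply hκ1
        field_simp at h ⊢
        exact h
      have n3 : (σ * (s₁ * s₁)) β ≠ β := by
        rw [e3]
        intro h
        apply hκ2
        have h' : ((s₁ β / β) ^ 2 - 1) * β = 0 := by rw [sub_mul, h, one_mul, sub_self]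
        rcases mul_eq_zero.mp h' with h'' | h''
        · exact sub_eq_zero.mp h''
        · exact absurd h'' hβ0
      have u1 := hU s₁ hs₁χ hs₁β
      have u2 := hU (σ * s₁) (by rw [map_mul, hσ, hs₁χ, one_mul]) n1
      have u3 := hU (σ * (s₁ * s₁)) (by rw [map_mul, map_mul, hσ, hs₁χ, one_mul, one_mul]) n3
      rw [map_mul] at u2
      rw [map_mul, map_mul] at u3
      exact unipotent_of_three_h45 hdim (rho_h45 E p σ) (rho_h45 E p s₁) u1 u2 u3
    · exact hU σ hσ hσβ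
  have hF : ∀ σ : AlgebraicClosure ℚ ≃ₐ[ℚ] AlgebraicClosure ℚ,
      ∃ (τ : AlgebraicClosure ℚ ≃ₐ[ℚ] AlgebraicClosure ℚ) (j : ℕ) (a : ZMod p),
        rho_h45 E p σ = rho_h45 E p τ ^ j ∧ hζ.autToPow ℚ σ = hζ.autToPow ℚ τ ^ j ∧
        (hζ.autToPow ℚ σ = 1 → hζ.autToPow ℚ τ = 1) ∧
        rho_h45 E p τ * rho_h45 E p τ - a • rho_h45 E p τ
          + ((ZMod.unitsMap hpM (hζ.autToPow ℚ τ) : (ZMod p)ˣ) : ZMod p) •
            (1 : Module.End (ZMod p) (Submodule.torsionBy ℤ (E⁄(AlgebraicClosure ℚ)).Point p)) = 0 ∧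
        (hζ.autToPow ℚ τ = 1 → a = 2) := by
    intro σ
    by_cases hσ : hζ.autToPow ℚ σ = 1
    · refine ⟨σ, 1, 2, (pow_one _).symm, (pow_one _).symm, fun h => h, ?_, fun _ => rfl⟩
      have hu := hUall σ hσ
      rw [hσ, map_one, Units.val_one, one_smul, two_smul, ← hu]
      noncomm_ring
    · obtain ⟨ℓ, A, τ, k, j, hℓ, hℓS, h5, hℓp, hℓq, hgood, hA, hτ, hχτ, hρ, hχj, -, -⟩ := hFrob σ
      refine ⟨τ, j, ((W.apOfModel ℓ : ℤ) : ZMod p), hρ, hχj, fun h => absurd h hσ, ?_, ?_⟩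
      · have hc : ((ZMod.unitsMap hpM (hζ.autToPow ℚ τ) : (ZMod p)ˣ) : ZMod p)
            = (((ℓ : ℤ)) : ZMod p) := by
          rw [hεval, hχτ, map_natCast, Int.cast_natCast]
        rw [hc]
        exact rho_frob_rel_h45 E W hW p ℓ hp hℓ h5 hℓp hgood A τ hA hτ
      · intro hτ1
        exfalso
        apply hσ
        rw [hχj, hτ1, one_pow]
  have hc2 : hζ.autToPow ℚ complexConjugation * hζ.autToPow ℚ complexConjugation = 1 := by
    rw [hcc]
    simp
  have hcε : ((ZMod.unitsMap hpM (hζ.autToPow ℚ complexConjugation) : (ZMod p)ˣ) : ZMod p)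
      = -1 := by
    rw [hεval, hcc, Units.val_neg, Units.val_one, map_neg, map_one]
  obtain ⟨L, hLbot, hLtop, hLstab⟩ :=
    Fermat.Agent.S41.H701.exists_stable_line_of_eisenstein_h701 h2 hdim (rho_h45 E p)
      (hζ.autToPow ℚ) (ZMod.unitsMap hpM) hF complexConjugation hc2 hcε
  rcases hirr.2 L (fun σ x hx => hLstab σ x hx) with h | h
  · exact hLbot h
  · exact hLtop h

end Fermat.Agent.S41.H45

end
-- ===== PACK-END S41/H45/NEKummer.lean

-- ===== PACK-BEGIN S59/NMP/H296/UnrPlus.lean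
section


/-!
# S59 / NMP-LGC, leaf MAXUNR, piece UNR⁺ (helper296)

`S19.H679.unrStatementH679` (unramified descent of local coordinates) with a TRACKED CLAUSE.

Let `L` be a local coordinate datum at the valuation ring `V` and `K₀ ⊆ M` a subset which is stable
under the decomposition group of `V` (e.g. the kernel of the specialisation map at `V`).  If the
local coordinates are constant modulo `𝔪_V` on `K₀`, i.e. `Ψ x i - Ψ 0 i ∈ 𝔪_V` for `x ∈ K₀`, then
the GLOBAL coordinates produced by the descent have the same property.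

* `sub_mem_nonunits_of_mem_Hloc_h296` : the clause for every function of the local algebra `Hloc`;
* `unrPlus_h296` : the descent with the clause.

The proof of `unrPlus_h296` is the proof of `unrStatementH679` (helper679), with one more field.
-/

set_option autoImplicit false

namespace Fermat.Agent.S59.NMP.H296

open Fermat.Agent.S19 Fermat.Agent.S19.H679
open Fermat.Agent.S54 Fermat.Agent.S55.Bridge

attribute [local instance] isAlgebraic_Qbar isGalois_Qbar

variable {ℓ : ℕ} {M : Type} [AddCommGroup M] {act : GalQ → M → M}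

theorem act_zero_h296 (hact : IsContAddAction act) (σ : GalQ) : act σ 0 = 0 := by
  have h := hact.act_add σ 0 0
  rw [add_zero] at h
  exact left_eq_add.mp h

theorem zero_mem_nonunits_h296 (V : ValuationSubring Qb) : (0 : Qb) ∈ V.nonunits := by
  rw [ValuationSubring.mem_nonunits_iff, map_zero]
  exact zero_lt_one

theorem add_mem_nonunits_h296 (V : ValuationSubring Qb) {a b : Qb} (ha : a ∈ V.nonunits)
    (hb : b ∈ V.nonunits) : a + b ∈ V.nonunits := by
  rw [ValuationSubring.mem_nonunits_iff] at ha hb ⊢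
  exact lt_of_le_of_lt (V.valuation.map_add a b) (max_lt ha hb)

theorem mul_mem_nonunits_left_h296 (V : ValuationSubring Qb) {a b : Qb} (ha : a ∈ V.nonunits)
    (hb : b ∈ V) : a * b ∈ V.nonunits := by
  rw [ValuationSubring.mem_nonunits_iff] at ha ⊢
  rw [map_mul]
  have hb' : V.valuation b ≤ 1 := (V.valuation_le_one_iff b).mpr hb
  exact lt_of_le_of_lt (mul_le_of_le_one_right' hb') ha

theorem mul_mem_nonunits_right_h296 (V : ValuationSubring Qb) {a b : Qb} (ha : a ∈ V)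
    (hb : b ∈ V.nonunits) : a * b ∈ V.nonunits := by
  rw [mul_comm]
  exact mul_mem_nonunits_left_h296 V hb ha

/-- **The clause on the local algebra.**  If the local coordinates are constant modulo `𝔪_V` on a
`D_V`-stable set `K₀`, so is every function of `Hloc`. -/
theorem sub_mem_nonunits_of_mem_Hloc_h296 (hact : IsContAddAction act)
    (L : LocalCoordDatum ℓ M act) (K₀ : Set M)
    (hK : ∀ δ ∈ L.V.decompositionSubgroup ℚ, ∀ x ∈ K₀, act δ x ∈ K₀)
    (hΨ : ∀ x ∈ K₀, ∀ i, L.Ψ x i - L.Ψ 0 i ∈ L.V.nonunits)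
    {f : M → Qb} (hf : f ∈ HlocH679 L) : ∀ x ∈ K₀, f x - f 0 ∈ L.V.nonunits := by
  have hval : ∀ g ∈ HlocH679 L, ∀ m, g m ∈ L.V := fun g hg m => Hloc_le_valuedH679 L hg m
  unfold HlocH679 at hf
  induction hf using Algebra.adjoin_induction with
  | mem φ hφ =>
    obtain ⟨δ, hδ, i, rfl⟩ := hφ
    intro x hx
    have h1 : starH679 act δ (psiH679 L i) x - starH679 act δ (psiH679 L i) 0 =
        δ (L.Ψ (act δ⁻¹ x) i - L.Ψ 0 i) := by
      rw [map_sub]
      show δ (L.Ψ (act δ⁻¹ x) i) - δ (L.Ψ (act δ⁻¹ 0) i) = _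
      rw [act_zero_h296 hact]
    rw [h1]
    exact (mem_nonunits_decompH679 hδ _).2
      (hΨ _ (hK δ⁻¹ ((L.V.decompositionSubgroup ℚ).inv_mem hδ) x hx) i)
  | algebraMap r =>
    intro x _
    have : (algebraMap L.V (M → Qb) r) x - (algebraMap L.V (M → Qb) r) 0 = 0 := sub_self _
    rw [this]
    exact zero_mem_nonunits_h296 L.V
  | add f g hf hg ihf ihg =>
    intro x hx
    have : (f + g) x - (f + g) 0 = (f x - f 0) + (g x - g 0) := by
      simp only [Pi.add_apply]; ring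
    rw [this]
    exact add_mem_nonunits_h296 L.V (ihf x hx) (ihg x hx)
  | mul f g hf hg ihf ihg =>
    intro x hx
    have : (f * g) x - (f * g) 0 = (f x - f 0) * g x + f 0 * (g x - g 0) := by
      simp only [Pi.mul_apply]; ring
    rw [this]
    exact add_mem_nonunits_h296 L.V
      (mul_mem_nonunits_left_h296 L.V (ihf x hx) (hval g hg x))
      (mul_mem_nonunits_right_h296 L.V (hval f hf 0) (ihg x hx))

/-- **UNR⁺**: unramified descent of local coordinates, with the tracked clause.  The global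
coordinates `C.Φ` are constant modulo `𝔪_V` on every `D_V`-stable set `K₀` on which the local
coordinates `L.Ψ` are. -/
theorem unrPlus_h296 (ℓ : ℕ) [hℓfact : Fact ℓ.Prime] (M : Type) [AddCommGroup M] [Finite M]
    (act : GalQ → M → M) (hact : IsContAddAction act) (L : LocalCoordDatum ℓ M act)
    (K₀ : Set M)
    (hK : ∀ δ ∈ L.V.decompositionSubgroup ℚ, ∀ x ∈ K₀, act δ x ∈ K₀)
    (hΨ : ∀ x ∈ K₀, ∀ i, L.Ψ x i - L.Ψ 0 i ∈ L.V.nonunits) :
    ∃ C : CoordDatum ℓ M act, ∀ x ∈ K₀, ∀ k : C.ι, C.Φ x k - C.Φ 0 k ∈ L.V.nonunits := by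
  classical
  have hℓ : ℓ.Prime := hℓfact.out
  have hA := isActH679_of_cont hact
  have hspan : Submodule.span L.V (invSetH679 L) = Subalgebra.toSubmodule (HlocH679 L) :=
    le_antisymm (Submodule.span_le.2 fun h hh => hh.1) (Hloc_le_span_invH679 hℓ hact L)
  obtain ⟨Λ⟩ := exists_levelDataH679 hact L
  obtain ⟨F, hF1, hF2, hF3⟩ :=
    exists_minimal_spanningH679 (invSetH679 L) _ (Hloc_fgH679 hact L Λ) hspan
  have hind := indep_of_minimalH679 L.V F hF3
  have hFinv : ∀ k : ↥F, ∀ σ : GalQ, starH679 act σ (k : M → Qb) = k := fun k σ =>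
    (hF1 k.2).2 σ
  have hFH : ∀ k : ↥F, (k : M → Qb) ∈ HlocH679 L := fun k => (hF1 k.2).1
  have hFV : ∀ (k : ↥F) (m : M), (k : M → Qb) m ∈ L.V := fun k m =>
    Hloc_le_valuedH679 L (hFH k) m
  have hFeq : ∀ (k : ↥F) (σ : GalQ) (m : M), (k : M → Qb) (act σ m) = σ ((k : M → Qb) m) :=
    fun k σ m => (starH679_eq_self_iff hA σ _).1 (hFinv k σ) m
  refine ⟨{ ι := ↥F
            fin := inferInstance
            Φ := fun m k => (k : M → Qb) m
            inj := ?_
            equivariant := fun σ m k => hFeq k σ m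
            integral := ?_
            add_mem := ?_ }, ?_⟩
  · -- injectivity
    intro m m' h
    apply L.inj
    funext i
    have hsub : Submodule.span L.V (F : Set (M → Qb)) ≤
        LinearMap.ker ((LinearMap.proj m : (M → Qb) →ₗ[L.V] Qb) - LinearMap.proj m') := by
      rw [Submodule.span_le]
      intro f hf
      rw [SetLike.mem_coe, LinearMap.mem_ker, LinearMap.sub_apply, sub_eq_zero]
      exact congrFun h ⟨f, hf⟩
    have h1 : psiH679 L i ∈ Submodule.span L.V (F : Set (M → Qb)) := by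
      rw [hF2]
      exact psi_mem_HlocH679 hact L i
    have h2 := hsub h1
    rw [LinearMap.mem_ker, LinearMap.sub_apply, sub_eq_zero] at h2
    exact h2
  · -- integrality
    intro m k
    apply isIntegral_of_conj_memH679 L.V hℓ L.ell_mem
    intro σ
    rw [← hFeq k σ m]
    exact hFV k _
  · -- addition
    intro k
    have h1 : addPullH679 (k : M → Qb) ∈ tensImageH679 L :=
      addPull_mem_tensImageH679 hact L (hFH k)
    rw [tensImage_eq_span_of_spanH679 L (F : Set (M → Qb)) hF2] at h1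
    have hrange : Set.image2 (fun g g' => tensH679 L.V M g g') (F : Set (M → Qb))
        (F : Set (M → Qb)) = Set.range fun p : ↥F × ↥F =>
          tensH679 L.V M (p.1 : M → Qb) (p.2 : M → Qb) := by
      ext G
      constructor
      · rintro ⟨g, hg, g', hg', rfl⟩
        exact ⟨(⟨g, hg⟩, ⟨g', hg'⟩), rfl⟩
      · rintro ⟨p, rfl⟩
        exact ⟨p.1, p.1.2, p.2, p.2.2, rfl⟩
    rw [hrange, Submodule.mem_span_range_iff_exists_fun] at h1
    obtain ⟨c, hc⟩ := h1
    -- pointwise form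
    have hcpt : ∀ x y : M, ∑ p : ↥F × ↥F, (c p : Qb) * ((p.1 : M → Qb) x * (p.2 : M → Qb) y)
        = (k : M → Qb) (x + y) := by
      intro x y
      have := congrFun hc (x, y)
      rw [Finset.sum_apply] at this
      exact this
    -- the coefficients are Galois-invariant
    have hcinv : ∀ (σ : GalQ) (p : ↥F × ↥F), σ (c p : Qb) = (c p : Qb) := by
      intro σ p
      have h2 : ∀ x y : M, ∑ p : ↥F × ↥F,
          (σ (c p : Qb) - (c p : Qb)) * ((p.1 : M → Qb) x * (p.2 : M → Qb) y) = 0 := by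
        intro x y
        have h3 := congrArg σ (hcpt (act σ⁻¹ x) (act σ⁻¹ y))
        rw [map_sum, ← hact.act_add, ← hFeq k σ, hA.act_inv, ← hcpt x y] at h3
        rw [← sub_eq_zero, ← Finset.sum_sub_distrib] at h3
        rw [← h3]
        refine Finset.sum_congr rfl fun p _ => ?_
        rw [map_mul, map_mul, ← hFeq p.1 σ, ← hFeq p.2 σ, hA.act_inv, hA.act_inv]
        ring
      have h4 := tensor_indep_subtypeH679 F hind (fun p => σ (c p : Qb) - (c p : Qb)) h2 p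
      exact sub_eq_zero.1 h4
    -- hence they lie in `ℤ_(ℓ)`, in particular in `Zb`
    have hcint : ∀ p : ↥F × ↥F, IsIntegral (Rl ℓ) (c p : Qb) := by
      intro p
      obtain ⟨q, hq⟩ := mem_range_of_fixedH679 (c p : Qb) fun σ => hcinv σ p
      have hqR : q ∈ Rl ℓ := mem_ratLocalizedAtH679 L.V hℓ L.ell_mem q (hq ▸ (c p).2)
      have : (c p : Qb) = algebraMap (Rl ℓ) Qb ⟨q, hqR⟩ := hq.symm
      rw [this]
      exact isIntegral_algebraMap
    have hfinal : (fun p : M × M => (k : M → Qb) (p.1 + p.2))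
        = ∑ p : ↥F × ↥F, (⟨(c p : Qb), hcint p⟩ : Zb ℓ) •
            ((fun x : M × M => (p.1 : M → Qb) x.1) * fun x : M × M => (p.2 : M → Qb) x.2) := by
      funext x
      rw [Finset.sum_apply, ← hcpt x.1 x.2]
      rfl
    rw [hfinal]
    refine Subalgebra.sum_mem _ fun p _ => Subalgebra.smul_mem _ (mul_mem ?_ ?_) _
    · exact Algebra.subset_adjoin (Or.inl ⟨p.1, rfl⟩)
    · exact Algebra.subset_adjoin (Or.inr ⟨p.2, rfl⟩)
  · -- the tracked clause
    intro x hx k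
    exact sub_mem_nonunits_of_mem_Hloc_h296 hact L K₀ hK hΨ (hFH k) x hx

end Fermat.Agent.S59.NMP.H296

end
-- ===== PACK-END S59/NMP/H296/UnrPlus.lean

-- ===== PACK-BEGIN S38T/H473/PtSpec.lean
section



/-!
# Row HARD, cell HECKE, leaves IA-NU / IA-ST: the POINT-LEVEL statements  (helper473)

`IANuStatement_T` and `IAStStatement_T` of layer 3 (`Hecke/Spec3.lean`, helper3) are statements on
the module `V / chiRelIA_T χ V`.  Here are their pointwise forms, in the same vocabulary: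
a `p`-adic point `P : S31.PadicPoint p PQ.T` (complete DVR of characteristic `0`, finite residue
field of characteristic `p`), local, is **through the annihilator of `V / chiRelIA_T χ V`** if
`P.χ t = 0` for every `t ∈ T_Q` with `a(t) V ⊆ chiRelIA_T χ V`.

* `IANuPtAt_T PQ V a` : for every pivot character `χ`, every local `p`-adic point through the
  annihilator of `V / chiRelIA_T χ V` is NOT unipotent on inertia at any pivot;
* `IAStPtAt_T PQ V a` : at every local `p`-adic point `P` through the annihilator of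
  `V / chiRelIA_T 1 V`, `P.χ (tr ρ(Frob_q)² - (1+q)²) = 0` for every pivot `q`;
* `IANuPtStatement_T`, `IAStPtStatement_T` : the same binders as `IANuStatement_T`, `IAStStatement_T`.

The glue (`PtGlue.lean`): `iaNu_of_pt_T : IAFreeStatement_T → IANuPtStatement_T → IANuStatement_T`,
`iaSt_of_pt_T : IAFreeStatement_T → IAStPtStatement_T → IAStStatement_T`.
-/

set_option autoImplicit false

open Polynomial IsLocalRing CongruenceSubgroup
open scoped MatrixGroups

namespace Fermat.Agent.S38.H473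

variable {ty : Fermat.Agent.S59.Arch.PType}


open Fermat.Agent.S59.Arch Fermat.Agent.S59.TW.H959 Fermat.Agent.S59.TW Fermat.Agent.S59.H765
open Fermat.Agent.S59.TW.H653 Fermat.Agent.S59.TW.Aut
open Fermat.Agent.S38.IA Fermat.Agent.S38.IA.Hecke
open CuspForm

section Parts

variable {p : ℕ}
  {𝒪 : Type} [CommRing 𝒪] [IsDomain 𝒪] [IsDiscreteValuationRing 𝒪]
  [IsAdicComplete (maximalIdeal 𝒪) 𝒪]
  {ρbar : ResidualGaloisRep (ResidueField 𝒪)} {Smin : Finset ℕ}
  {Piv : Finset ℕ} {k r : ℕ} {pv : Fin k → ℕ} {qv : Fin r → ℕ}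
  [NeZero (wilesLevel p ty Smin (Smin ∪ Piv ∪ Finset.univ.image qv))]

/-- The point `x` of `T_Q` is through the annihilator of `V / chiRelIA_T χ V`. -/
def ThroughAnn_T (PQ : HeckePkg p 𝒪 ρbar ty Smin (Smin ∪ Piv ∪ Finset.univ.image qv))
    (V : Submodule 𝒪 (XIA_T p ty Smin pv qv 𝒪)) (a : PQ.T →ₐ[𝒪] Module.End 𝒪 V)
    (χ : (∀ i : Fin k, (ZMod (pv i))ˣ) →* 𝒪) {R : Type} [CommRing R] (x : PQ.T →+* R) : Prop :=
  ∀ t : PQ.T, (∀ v : V, ((a t v : V) : XIA_T p ty Smin pv qv 𝒪) ∈ chiRelIA_T p ty Smin pv qv χ V) →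
    x t = 0

/-- **NU at `(V, a)`, pointwise**: every local `p`-adic point of `T_Q` through the annihilator
of `V / chiRelIA_T χ V` (`χ` a pivot character) is not unipotent on inertia at any pivot. -/
def IANuPtAt_T
    (PQ : HeckePkg p 𝒪 ρbar ty Smin (Smin ∪ Piv ∪ Finset.univ.image qv))
    (V : Submodule 𝒪 (XIA_T p ty Smin pv qv 𝒪)) (a : PQ.T →ₐ[𝒪] Module.End 𝒪 V) : Prop :=
  ∀ χ : (∀ i : Fin k, (ZMod (pv i))ˣ) →* 𝒪, IsPivChar p pv χ →
    ∀ (P : Fermat.Agent.S31.PadicPoint p PQ.T) (hP : IsLocalHom P.χ),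
      ThroughAnn_T PQ V a χ P.χ →
      ∀ q ∈ Piv, ¬ (PQ.H.ρ.baseChangeAlong P.χ hP).IsUnipotentOnInertiaAt q

/-- **ST at `(V, a)`, pointwise**: the Steinberg elements at the pivots vanish at every local
`p`-adic point of `T_Q` through the annihilator of `V / I_{Δ_Piv} V`. -/
def IAStPtAt_T
    (PQ : HeckePkg p 𝒪 ρbar ty Smin (Smin ∪ Piv ∪ Finset.univ.image qv))
    (V : Submodule 𝒪 (XIA_T p ty Smin pv qv 𝒪)) (a : PQ.T →ₐ[𝒪] Module.End 𝒪 V) : Prop :=
  ∀ (P : Fermat.Agent.S31.PadicPoint p PQ.T), IsLocalHom P.χ →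
    ThroughAnn_T PQ V a 1 P.χ →
    ∀ q ∈ Piv, ∀ Pl : ValuationSubring (AlgebraicClosure ℚ), Pl.LiesOverPrime q →
      ∀ φ : AlgebraicClosure ℚ ≃ₐ[ℚ] AlgebraicClosure ℚ, Pl.IsFrobeniusAt φ q →
        P.χ (PQ.H.ρ.trace φ ^ 2 - ((1 + q : ℕ) : PQ.T) ^ 2) = 0

end Parts

/-- **IA-NU, pointwise.**  Same binders as `IANuStatement_T`. -/
def IANuPtStatement_T : Prop :=
  ∀ (p : ℕ) [Fact p.Prime] (_hp5 : 3 ≤ p)
    (𝒪 : Type) [CommRing 𝒪] [IsDomain 𝒪] [IsDiscreteValuationRing 𝒪]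
    [IsAdicComplete (maximalIdeal 𝒪) 𝒪] [Finite (ResidueField 𝒪)] [CharZero 𝒪]
    (ρbar : ResidualGaloisRep (ResidueField 𝒪)) (Smin : Finset ℕ)
    (_h : ResidualHyp p 𝒪 ρbar Smin)
    (ty : PType) (_hflat : IsPTypeAt p ρbar ty)
    (Piv : Finset ℕ) (_hPiv : IsPivotSet p ρbar Smin Piv)
    (k : ℕ) (pv : Fin k → ℕ) (_hpv : Function.Injective pv)
    (_hpvPiv : Finset.univ.image pv = Piv)
    (n r : ℕ) (qv : Fin r → ℕ) (_hq : IsTWSet p ρbar (Smin ∪ Piv) n qv)
    [NeZero (wilesLevel p ty Smin (Smin ∪ Piv ∪ Finset.univ.image qv))]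
    (PQ : HeckePkg p 𝒪 ρbar ty Smin (Smin ∪ Piv ∪ Finset.univ.image qv))
    (α : Fin r → 𝒪) (_hα : IsFrobLift ρbar qv α)
    (V : Submodule 𝒪 (XIA_T p ty Smin pv qv 𝒪)) (h : ℕ) (a : PQ.T →ₐ[𝒪] Module.End 𝒪 V),
    IsIAPart_T PQ α V → IsHalf p pv h → IsHalf p qv h → IsIAAction_T PQ V h a → IANuPtAt_T PQ V a

/-- **IA-ST, pointwise.**  Same binders as `IAStStatement_T`. -/
def IAStPtStatement_T : Prop :=
  ∀ (p : ℕ) [Fact p.Prime] (_hp5 : 3 ≤ p)
    (𝒪 : Type) [CommRing 𝒪] [IsDomain 𝒪] [IsDiscreteValuationRing 𝒪]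
    [IsAdicComplete (maximalIdeal 𝒪) 𝒪] [Finite (ResidueField 𝒪)] [CharZero 𝒪]
    (ρbar : ResidualGaloisRep (ResidueField 𝒪)) (Smin : Finset ℕ)
    (_h : ResidualHyp p 𝒪 ρbar Smin)
    (ty : PType) (_hflat : IsPTypeAt p ρbar ty)
    (Piv : Finset ℕ) (_hPiv : IsPivotSet p ρbar Smin Piv)
    (_hmin : ∀ q ∈ Piv, ∀ S : Finset ℕ,
      ¬ ResModular 𝒪 ρbar (ribetLevelT p ty Smin (Piv.erase q)) S)
    (k : ℕ) (pv : Fin k → ℕ) (_hpv : Function.Injective pv)
    (_hpvPiv : Finset.univ.image pv = Piv)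
    (n r : ℕ) (qv : Fin r → ℕ) (_hq : IsTWSet p ρbar (Smin ∪ Piv) n qv)
    [NeZero (wilesLevel p ty Smin (Smin ∪ Piv ∪ Finset.univ.image qv))]
    (PQ : HeckePkg p 𝒪 ρbar ty Smin (Smin ∪ Piv ∪ Finset.univ.image qv))
    (α : Fin r → 𝒪) (_hα : IsFrobLift ρbar qv α)
    (V : Submodule 𝒪 (XIA_T p ty Smin pv qv 𝒪)) (h : ℕ) (a : PQ.T →ₐ[𝒪] Module.End 𝒪 V),
    IsIAPart_T PQ α V → IsHalf p pv h → IsHalf p qv h → IsIAAction_T PQ V h a → IAStPtAt_T PQ V a

end Fermat.Agent.S38.H473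

end
-- ===== PACK-END S38T/H473/PtSpec.lean

-- ===== PACK-BEGIN S59/H826/Outer32A.lean
section
/-
Row S59, cell LO, leaf LO-SQ at `(p, q) = (3, 2)` — SOFT route, outer leaves OCC-W and NE32
(helper826).

* `occW826 : OccWStatement` — a residually modular curve gives a mod-`p` Betti eigenclass
  (`S41.H341.occ_exists_eigenChar` + an `𝔽_p`-linear functional on `ℤ̄ ⧸ 𝔪`).
* `ne32_826 : NE32Statement` — from `S41.H45.ne_h45`.
-/




set_option autoImplicit false
set_option linter.style.haveILetI false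

namespace Fermat.Agent.S59.H826

open CongruenceSubgroup ModularFormClass
open Fermat.Agent.S29.H642
open WeierstrassCurve WeierstrassCurve.Affine WeierstrassCurve.Affine.Point
open scoped MatrixGroups

/-- **OCC-W.** -/
theorem occW826 : OccWStatement := by
  intro p hpF W M hM hres
  obtain ⟨f, 𝔪, hf, hmax, hpm, hcong⟩ := hres
  have hp : p.Prime := hpF.out
  haveI : NeZero M := ⟨hM⟩
  classical
  letI : Field (integralClosure ℤ ℂ ⧸ 𝔪) := Ideal.Quotient.field 𝔪
  let ψ : integralClosure ℤ ℂ →+* (integralClosure ℤ ℂ ⧸ 𝔪) := Ideal.Quotient.mk 𝔪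
  have hpk : ((p : ℕ) : integralClosure ℤ ℂ ⧸ 𝔪) = 0 := by
    have h : ψ (p : integralClosure ℤ ℂ) = 0 := Ideal.Quotient.eq_zero_iff_mem.mpr hpm
    rwa [map_natCast] at h
  haveI : CharP (integralClosure ℤ ℂ ⧸ 𝔪) p := (CharP.charP_iff_prime_eq_zero hp).mpr hpk
  letI : Algebra (ZMod p) (integralClosure ℤ ℂ ⧸ 𝔪) := ZMod.algebra _ p
  obtain ⟨χ, hχ0, -, hχe⟩ := Fermat.Agent.S41.H341.occ_exists_eigenChar hf hp ψ
  obtain ⟨γ₀, hγ₀⟩ : ∃ γ₀, χ γ₀ ≠ 0 := by
    by_contra h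
    push Not at h
    exact hχ0 (AddMonoidHom.ext h)
  obtain ⟨φ, hφ⟩ : ∃ φ : Module.Dual (ZMod p) (integralClosure ℤ ℂ ⧸ 𝔪), φ (χ γ₀) ≠ 0 := by
    by_contra hcon
    push Not at hcon
    exact hγ₀ ((Module.forall_dual_apply_eq_zero_iff (ZMod p) _).mp hcon)
  refine ⟨φ.toAddMonoidHom.comp χ, ?_, ?_⟩
  · intro h0
    apply hφ
    have := congrArg (fun y : Additive (Gamma0 M) →+ ZMod p => y γ₀) h0
    simpa using this
  · intro ℓ hℓ hℓM hgood
    obtain ⟨a, ha, ham⟩ := hcong ℓ hℓ.out hgood.1 hℓM hgood.2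
    have h : ψ a = ψ ((W.apOfModel ℓ : ℤ) : integralClosure ℤ ℂ) :=
      Ideal.Quotient.eq.mpr ham
    have hc : ψ a = algebraMap (ZMod p) (integralClosure ℤ ℂ ⧸ 𝔪)
        ((W.apOfModel ℓ : ℤ) : ZMod p) := by
      rw [h, map_intCast, map_intCast]
    rw [heckeTransfer_comp]
    refine AddMonoidHom.ext fun γ => ?_
    rw [AddMonoidHom.comp_apply, hχe ℓ hℓM a ha γ, hc, ← Algebra.smul_def]
    show φ (((W.apOfModel ℓ : ℤ) : ZMod p) • χ γ) = ((W.apOfModel ℓ : ℤ) : ZMod p) • φ (χ γ)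
    exact map_smul φ _ (χ γ)

/-- `W` is an integral model of its own generic fibre. -/
theorem isIntegralModelOf_self826 (W : WeierstrassCurve ℤ) :
    W.IsIntegralModelOf (W.map (Int.castRingHom ℚ)) :=
  ⟨1, one_smul _ _⟩

theorem isElliptic_map826 (W : WeierstrassCurve ℤ) (hΔ : W.Δ ≠ 0) :
    (W.map (Int.castRingHom ℚ)).IsElliptic := by
  refine ⟨?_⟩
  rw [WeierstrassCurve.map_Δ]
  exact isUnit_iff_ne_zero.mpr (by simpa using hΔ)

/-- **NE32.** -/
theorem ne32_826 : NE32Statement := by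
  intro W hΔ hirr S
  haveI := isElliptic_map826 W hΔ
  obtain ⟨ℓ, hℓ, hℓS, hgood, -, hne⟩ :=
    Fermat.Agent.S41.H45.ne_h45 (W.map (Int.castRingHom ℚ)) W (isIntegralModelOf_self826 W) 3
      (by norm_num) (by norm_num) hirr 1 Nat.one_pos S
  exact ⟨ℓ, hℓ, hℓS, hgood, hne⟩

end Fermat.Agent.S59.H826

end
-- ===== PACK-END S59/H826/Outer32A.lean

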