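import Mathlib
import Fermat.Prelude.Thm_CuspForm_heckeTLin_comm
import Fermat.Agent.Pack.S59C.E3L3
import Fermat.Agent.Pack.S43MC.G0E23L3
import Fermat.Agent.Pack.S59C.E1L3
import Fermat.Agent.Pack.S59C.E7L1
import Fermat.Agent.Pack.S59C.E7L2
import Fermat.Agent.Pack.S43GC.G0E8L0
import Fermat.Agent.Pack.S59C.E6L0
import Fermat.Agent.Pack.S59C.E7L3
import Fermat.Agent.Pack.S43MC.G0E4L0
import Fermat.Agent.Pack.S43GC.G0E19L2
import Fermat.Agent.Pack.S59C.E7L0
import Fermat.Agent.Pack.S43MC.G0E23L1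
import Fermat.Agent.Pack.S59C.E0L0
import Fermat.Agent.Pack.S59C.E0L1
import Fermat.Agent.Pack.S44C.G0E21L2
import Fermat.Agent.Pack.S59C.E1L0

set_option linter.all false

-- ===== PACK-BEGIN S59/NM/H709/EtaOfBound.lean
section






/-!
# S59 / cell NM, leaf ETAB (helper709): `BettiBound N S a J ⇒ η_T(π) ⊆ J`

`theorem etaOfBound : NM.EtaOfBoundStatement` (VERBATIM, unconditional).

Proof.  `A = heckeBaseAlgebra N S O = O ⊗ 𝕋_lat` acts on `W = Hom(Λ, O)` (`Λ` = period lattice) by
`Phi`; `W ≃ C_N(O)` (cuspidal classes) by `toCls`/`ofCls` (Eichler–Shimura), and `1 ⊗ T_ℓ` acts as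
the Hecke transfer.  `T = heckeLocal` is a localization of `A`; for `e ∈ Ann_T(ker π)` take
`e₁ ∈ A` with `π(e₁) = c π(e)`, `c ∈ O^×`, `ker(π_A) · e₁ = 0` (`exists_lift_annAug`).
`x` the primitive eigenclass of the Betti bound, `m` cuspidal with `B(x, m) = 1`
(`H585.perf_charZero`).  Then `e₁ m` is an eigenclass and
`π(e₁) = B(π(e₁) x, m) = B(e₁ x, m) = B(x, e₁ m) ∈ J` (self-adjointness: `H585.adj2`).
-/

set_option autoImplicit false

noncomputable section

namespace Fermat.Agent.S59.NM.H709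

open CongruenceSubgroup ModularCurve ModularCurve.Period CuspForm IsLocalRing
open Fermat.Agent.S30.H709 Fermat.Agent.S41.Spec Fermat.Agent.S29 Fermat.Agent.S29.H642
open Fermat.Agent.S59 Fermat.Agent.S59.NM
open scoped MatrixGroups TensorProduct

section Core

variable {N : ℕ} [NeZero N] {S : Set ℕ} [hint : Fact (HasIntegralStructure N 2)]
  (O : Type) [CommRing O] [IsDomain O] [CharZero O]
  (hNS : ∀ q : ℕ, q.Prime → q ∣ N → q ∈ S)

/-- The Manin pairing on `W = Hom(Λ, O)`. -/
def pairW (u v : _root_.Fermat.Agent.S30.H709.perLattice N →+ O) : O := maninPairing (Gamma0 N) (toCls u) (toCls v)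

omit hint in
theorem pairW_add_left (u u' v : _root_.Fermat.Agent.S30.H709.perLattice N →+ O) :
    pairW O (u + u') v = pairW O u v + pairW O u' v := by
  have := Fermat.Agent.S59.H585.finiteIndex_Gamma0' (NeZero.ne N)
  exact Fermat.Agent.S59.H585.maninPairing_add_left (Fermat.Agent.S59.H585.neg_one_mem_Gamma0' N)
    (isCuspidal_toCls u) (isCuspidal_toCls u') (isCuspidal_toCls v)

omit hint in
theorem pairW_add_right (u v v' : _root_.Fermat.Agent.S30.H709.perLattice N →+ O) :
    pairW O u (v + v') = pairW O u v + pairW O u v' := by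
  have := Fermat.Agent.S59.H585.finiteIndex_Gamma0' (NeZero.ne N)
  exact Fermat.Agent.S59.H585.maninPairing_add_right (Fermat.Agent.S59.H585.neg_one_mem_Gamma0' N)
    (isCuspidal_toCls u) (isCuspidal_toCls v) (isCuspidal_toCls v')

omit hint in
theorem pairW_smul_left (c : O) (u v : _root_.Fermat.Agent.S30.H709.perLattice N →+ O) :
    pairW O (c • u) v = c * pairW O u v := by
  have := Fermat.Agent.S59.H585.finiteIndex_Gamma0' (NeZero.ne N)
  exact Fermat.Agent.S59.H585.maninPairing_smul_left (Fermat.Agent.S59.H585.neg_one_mem_Gamma0' N)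
    c (isCuspidal_toCls u) (isCuspidal_toCls v)

omit hint in
theorem pairW_smul_right (c : O) (u v : _root_.Fermat.Agent.S30.H709.perLattice N →+ O) :
    pairW O u (c • v) = c * pairW O u v := by
  have := Fermat.Agent.S59.H585.finiteIndex_Gamma0' (NeZero.ne N)
  exact Fermat.Agent.S59.H585.maninPairing_smul_right (Fermat.Agent.S59.H585.neg_one_mem_Gamma0' N)
    c (isCuspidal_toCls u) (isCuspidal_toCls v)

set_option maxHeartbeats 1000000 in
/-- **(F3)** the action of `A` on `W` is self-adjoint for the Manin pairing. -/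
theorem pairW_Phi (α : heckeBaseAlgebra N S O) :
    ∀ u v : _root_.Fermat.Agent.S30.H709.perLattice N →+ O, pairW O (Phi O hNS α u) v = pairW O u (Phi O hNS α v) := by
  induction α using base_induction O hNS with
  | hgen l hl hlN hlS =>
    intro u v
    have : Fact l.Prime := ⟨hl⟩
    unfold pairW
    rw [toCls_Phi_gen O hNS hlN hlS u, toCls_Phi_gen O hNS hlN hlS v]
    exact (Fermat.Agent.S59.H585.adj2 O N 2 (NeZero.ne N) Nat.prime_two).2 l hlN (toCls u)
      (toCls v) (isCuspidal_toCls u) (isCuspidal_toCls v)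
  | halg o =>
    intro u v
    rw [Phi_algebraMap_apply O hNS o u, Phi_algebraMap_apply O hNS o v, pairW_smul_left,
      pairW_smul_right]
  | hadd α β hα hβ =>
    intro u v
    rw [Phi_add_apply O hNS α β u, Phi_add_apply O hNS α β v, pairW_add_left, pairW_add_right,
      hα u v, hβ u v]
  | hmul α β hα hβ =>
    intro u v
    have h1 := Phi_mul_apply O hNS α β u
    have h2 := Phi_mul_apply O hNS β α v
    have h3 : α * β = β * α := mul_comm α β
    rw [h1, hα, hβ, ← h2, ← h3]

end Core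

section Main

variable {N : ℕ} [NeZero N] [hint : Fact (HasIntegralStructure N 2)]
  {O : Type} [CommRing O] [IsDomain O] [IsDiscreteValuationRing O] [CharZero O]

/-- `heckeBaseAlgebra` is Noetherian. -/
theorem isNoetherianRing_base (N : ℕ) [NeZero N] (S : Set ℕ) (O : Type) [CommRing O]
    [IsNoetherianRing O] : IsNoetherianRing (heckeBaseAlgebra N S O) := by
  have : Module.Finite O (heckeBaseAlgebra N S O) :=
    inferInstanceAs (Module.Finite O (O ⊗[ℤ] ↥(heckeLatticeAlgebra N S)))
  exact IsNoetherianRing.of_finite O (heckeBaseAlgebra N S O)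

/-- `heckeLocal.π` in terms of the generators. -/
theorem heckeLocal_π_T {S : Set ℕ} (θ : heckeAlgebra N 2 S →+* ResidueField O) {l : ℕ}
    (hl : l.Prime) (hlN : ¬ l ∣ N) (hlS : l ∉ S) :
    heckeLocal.π N S O θ (heckeAlgebra.T hl hlN hlS) =
      algebraMap (heckeBaseAlgebra N S O) (heckeLocal N S O θ) (gen O hl hlN hlS) := rfl

set_option maxHeartbeats 2000000 in
/-- **ETA-OF-BOUND**, core form (`S` a set). -/
theorem etaOfBound_core {S : Set ℕ} (hNS : ∀ q : ℕ, q.Prime → q ∣ N → q ∈ S)
    (θ : heckeAlgebra N 2 S →+* ResidueField O)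
    (π : heckeLocal N S O θ →ₐ[O] O) (a : ℕ → O)
    (hπ : ∀ (l : ℕ) (hl : l.Prime) (hlN : ¬ l ∣ N) (hlS : l ∉ S),
      π (heckeLocal.π N S O θ (heckeAlgebra.T hl hlN hlS)) = a l)
    (J : Ideal O) (x : Additive (Gamma0 N) →+ O) (hxc : IsCuspidal x)
    (hxe : ∀ (l : ℕ) [Fact l.Prime] (hl : ¬ l ∣ N), l ∉ S → heckeTransfer hl x = a l • x)
    (hxp : IsPrim x)
    (hxJ : ∀ y : Additive (Gamma0 N) →+ O, IsCuspidal y →
      (∀ (l : ℕ) [Fact l.Prime] (hl : ¬ l ∣ N), l ∉ S → heckeTransfer hl y = a l • y) →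
      maninPairing (Gamma0 N) x y ∈ J) :
    NC.congIdeal π ≤ J := by
  intro c hc
  obtain ⟨e, he, rfl⟩ := NC.mem_congIdeal.mp hc
  have := isNoetherianRing_base N S O
  obtain ⟨e1, c, hcu, hπe1, hker⟩ :=
    exists_lift_annAug (A := heckeBaseAlgebra N S O) (heckeLocalSubmonoid N S O θ) π e he
  -- the augmentation of `A`
  set πA : heckeBaseAlgebra N S O → O :=
    fun α => π (algebraMap (heckeBaseAlgebra N S O) (heckeLocal N S O θ) α) with hπA
  have hπA_gen : ∀ (l : ℕ) (hl : l.Prime) (hlN : ¬ l ∣ N) (hlS : l ∉ S),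
      πA (gen O hl hlN hlS) = a l := fun l hl hlN hlS => hπ l hl hlN hlS
  have hπA_alg : ∀ o : O, πA (algebraMap O (heckeBaseAlgebra N S O) o) = o := by
    intro o
    show π (algebraMap (heckeBaseAlgebra N S O) (heckeLocal N S O θ)
      (algebraMap O (heckeBaseAlgebra N S O) o)) = o
    rw [← IsScalarTower.algebraMap_apply, AlgHom.commutes]
    rfl
  have hπA_add : ∀ α β : heckeBaseAlgebra N S O, πA (α + β) = πA α + πA β := by
    intro α β
    show π (algebraMap (heckeBaseAlgebra N S O) (heckeLocal N S O θ) (α + β)) = _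
    rw [map_add, map_add]
  have hπA_mul : ∀ α β : heckeBaseAlgebra N S O, πA (α * β) = πA α * πA β := by
    intro α β
    show π (algebraMap (heckeBaseAlgebra N S O) (heckeLocal N S O θ) (α * β)) = _
    rw [map_mul, map_mul]
  -- the eigenclass `x` on `W`
  set ux : _root_.Fermat.Agent.S30.H709.perLattice N →+ O := ofCls x hxc.1 with hux
  have hux_cls : toCls ux = x := toCls_ofCls x hxc.1
  -- (F2) `x` is an eigenvector of `A` with character `π_A`
  have hF2 : ∀ α : heckeBaseAlgebra N S O, Phi O hNS α ux = πA α • ux := by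
    intro α
    induction α using base_induction O hNS with
    | hgen l hl hlN hlS =>
      have : Fact l.Prime := ⟨hl⟩
      apply toCls_injective
      rw [toCls_Phi_gen O hNS hlN hlS ux, toCls_smul, hux_cls, hxe l hlN hlS, hπA_gen]
    | halg o => rw [Phi_algebraMap_apply O hNS o ux, hπA_alg]
    | hadd α β hα hβ =>
      rw [Phi_add_apply O hNS α β ux, hα, hβ, ← add_smul, hπA_add]
    | hmul α β hα hβ =>
      rw [Phi_mul_apply O hNS α β ux, hβ, Phi_smul O hNS α (πA β) ux, hα, smul_smul, hπA_mul,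
        mul_comm]
  -- perfectness
  obtain ⟨m, hmc, hm1⟩ := Fermat.Agent.S59.H585.perf_charZero O N (NeZero.ne N) x hxc hxp
  set um : _root_.Fermat.Agent.S30.H709.perLattice N →+ O := ofCls m hmc.1 with hum
  have hum_cls : toCls um = m := toCls_ofCls m hmc.1
  -- `e₁ m` is an eigenclass
  have hy_eig : ∀ (l : ℕ) [Fact l.Prime] (hl : ¬ l ∣ N), l ∉ S →
      heckeTransfer hl (toCls (Phi O hNS e1 um)) = a l • toCls (Phi O hNS e1 um) := by
    intro l _ hlN hlS
    have hl : l.Prime := Fact.out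
    have h0 : (gen O hl hlN hlS - algebraMap O (heckeBaseAlgebra N S O) (a l)) * e1 = 0 := by
      apply hker
      have h1 : π (algebraMap (heckeBaseAlgebra N S O) (heckeLocal N S O θ)
          (gen O hl hlN hlS)) = a l := hπA_gen l hl hlN hlS
      have h2 : π (algebraMap (heckeBaseAlgebra N S O) (heckeLocal N S O θ)
          (algebraMap O (heckeBaseAlgebra N S O) (a l))) = a l := hπA_alg (a l)
      rw [map_sub, map_sub, h1, h2, sub_self]
    have h3 : gen O hl hlN hlS * e1 = algebraMap O (heckeBaseAlgebra N S O) (a l) * e1 := by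
      rw [sub_mul] at h0
      exact sub_eq_zero.mp h0
    have h4 := toCls_Phi_gen O hNS hlN hlS (Phi O hNS e1 um)
    have h5 := Phi_mul_apply O hNS (gen O hl hlN hlS) e1 um
    have h6 := Phi_mul_apply O hNS (algebraMap O (heckeBaseAlgebra N S O) (a l)) e1 um
    have h7 := Phi_algebraMap_apply O hNS (a l) (Phi O hNS e1 um)
    rw [← h4, ← h5, h3, h6, h7, toCls_smul]
  have hJ := hxJ (toCls (Phi O hNS e1 um)) (isCuspidal_toCls _) hy_eig
  -- the computation
  have hcomp : maninPairing (Gamma0 N) x (toCls (Phi O hNS e1 um)) = πA e1 := by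
    have h1 : pairW O ux (Phi O hNS e1 um) = pairW O (Phi O hNS e1 ux) um :=
      (pairW_Phi O hNS e1 ux um).symm
    have h2 : pairW O (Phi O hNS e1 ux) um = πA e1 * pairW O ux um := by
      rw [hF2 e1, pairW_smul_left]
    have h3 : pairW O ux um = 1 := by
      unfold pairW
      rw [hux_cls, hum_cls, hm1]
    have h4 : pairW O ux (Phi O hNS e1 um) =
        maninPairing (Gamma0 N) x (toCls (Phi O hNS e1 um)) := by
      unfold pairW
      rw [hux_cls]
    rw [← h4, h1, h2, h3, mul_one]
  rw [hcomp] at hJ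
  have hJ' : c * π e ∈ J := by
    rw [← hπe1]
    exact hJ
  obtain ⟨cu, rfl⟩ := hcu
  have := J.mul_mem_left (↑cu⁻¹ : O) hJ'
  rwa [← mul_assoc, Units.inv_mul, one_mul] at this

end Main

/-- **ETA-OF-BOUND** (`NM.EtaOfBoundStatement`, verbatim). -/
theorem etaOfBound : EtaOfBoundStatement := by
  intro p _ O _ _ _ _ _ _ _hpO N _ _ S hNS θ π a hπ J hB
  obtain ⟨x, ⟨hxc, hxe⟩, hxp, hxJ⟩ := hB
  have hNS' : ∀ q : ℕ, q.Prime → q ∣ N → q ∈ (↑S : Set ℕ) :=
    fun q hq hqN => Finset.mem_coe.mpr (hNS q hq hqN)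
  refine etaOfBound_core hNS' θ π a hπ J x hxc
    (fun l _ hl hlS => hxe l hl fun h => hlS (Finset.mem_coe.mpr h)) hxp ?_
  intro y hyc hye
  exact hxJ y ⟨hyc, fun l _ hl hlS => hye l hl fun h => hlS (Finset.mem_coe.mp h)⟩

end Fermat.Agent.S59.NM.H709

end
end
-- ===== PACK-END S59/NM/H709/EtaOfBound.lean

-- ===== PACK-BEGIN S59/H126/SelAdapter.lean
section



/-!
# S59 / cell NM, leaf NM-SEL in the shape of `NM/Spec.lean` (helper126)

`sel : Fermat.Agent.S59.NM.SelStatement`, from `nmSel : NMSelStatement`: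

* `q ≠ p` since `p ∈ Smin ⊆ Σ` and `q ∉ Σ`;
* the classifying map `ψ : R_{Σ ∪ q} → R_Σ` of `D.ρ` exists by the universal property of `D'`
  (the condition `sigmaCond` is monotone in `Σ`);
* `x' = x ∘ ψ` by the uniqueness part of the universal property of `D'` at `A = 𝒪`;
* `x (tr D.ρ(σ)) = a_q` for a Frobenius `σ` at `q`, from the characteristic polynomial.
-/

set_option autoImplicit false
set_option linter.unusedSectionVars false
set_option linter.unusedVariables false
set_option linter.style.haveILetI false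

open IsLocalRing Polynomial

namespace Fermat.Agent.S59.H126

open Fermat.Agent.S53 Fermat.Agent.S53.H113
open Fermat.Agent.S59.Arch (PType pCond sigmaCond ResidualHyp)

section Mono

variable {𝒪 : Type} [CommRing 𝒪]
  {A : Type} [CommRing A] [IsLocalRing A] [Algebra 𝒪 A]
  {p : ℕ} {t : PType} {Smin Sig Sig' : Finset ℕ}

theorem pCond_mono126 (hSig : Sig ⊆ Sig') {ρ : GaloisRepAdic A} (hρ : pCond 𝒪 p t Sig ρ) :
    pCond 𝒪 p t Sig' ρ := by
  cases t with
  | flat => exact ⟨hρ.1, hρ.2.1, fun q hq hqS => hρ.2.2 q hq (fun h => hqS (hSig h))⟩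
  | sord => exact ⟨hρ.1, hρ.2.1, fun q hq hqS => hρ.2.2 q hq (fun h => hqS (hSig h))⟩
  | ord => exact ⟨hρ.1, hρ.2.1, fun q hq hqS => hρ.2.2 q hq (fun h => hqS (hSig h))⟩

theorem sigmaCond_mono126 (hSig : Sig ⊆ Sig') {ρ : GaloisRepAdic A}
    (hρ : sigmaCond 𝒪 p t Smin Sig ρ) : sigmaCond 𝒪 p t Smin Sig' ρ :=
  ⟨pCond_mono126 hSig hρ.1, hρ.2⟩

end Mono

section TraceBC

variable {A : Type} [CommRing A] [IsLocalRing A] {B : Type} [CommRing B] [IsLocalRing B]

/-- The trace of a push-forward. -/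
theorem trace_baseChangeAlong126 (f : A →+* B) (hf : IsLocalHom f) (ρ : GaloisRepAdic A)
    (σ : _root_.Fermat.Agent.S53.GQ) : (ρ.baseChangeAlong f hf).trace σ = f (ρ.trace σ) := by
  obtain ⟨r, hr, he⟩ := exists_toAdic ρ
  have e1 := Fermat.Agent.S59.H659.baseChangeAlong_isEquiv_toAdic f hf ρ r hr he
  rw [trace_eq_of_isEquiv e1 σ, trace_eq_of_isEquiv he σ, trace_toAdic, trace_toAdic,
    Matrix.trace_fin_two, Matrix.trace_fin_two, map_add]
  rfl

/-- The trace is read off from the characteristic polynomial. -/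
theorem trace_eq_of_charpoly126 (ρ : GaloisRepAdic A) (σ : _root_.Fermat.Agent.S53.GQ) (a b : A)
    (h : LinearMap.charpoly (ρ.ρ σ) = X ^ 2 - C a * X + C b) : ρ.trace σ = a := by
  obtain ⟨r, hr, he⟩ := exists_toAdic ρ
  have h1 : LinearMap.charpoly (ρ.ρ σ) = (r σ).charpoly := by
    obtain ⟨e⟩ := he
    have h2 : (toAdic r hr).ρ σ = e.toLinearEquiv.conj (ρ.ρ σ) := by
      apply LinearMap.ext
      intro v
      rw [LinearEquiv.conj_apply, LinearMap.comp_apply, LinearMap.comp_apply,
        LinearEquiv.coe_coe, LinearEquiv.coe_coe, e.map_apply, LinearEquiv.apply_symm_apply]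
    rw [← Fermat.Agent.S59.H659.charpoly_toAdic r hr σ, h2, LinearEquiv.charpoly_conj]
  rw [trace_eq_of_isEquiv he σ, trace_toAdic]
  rw [h1, Matrix.charpoly_fin_two] at h
  have h3 := congrArg (fun P : A[X] => P.coeff 1) h
  simp only [coeff_add, coeff_sub, coeff_C_mul, coeff_X_pow, coeff_X_one, coeff_C] at h3
  simpa using h3

end TraceBC

/-- **NM-SEL**, in the shape of the frozen interface of cell NM. -/
theorem sel : Fermat.Agent.S59.NM.SelStatement := by
  intro p _ 𝒪 _ _ _ _ _ _ ρbar Smin h t ht Sig hSig hSigP q hq hqS D D' x x' hx hx' hxx' aq haq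
    hc hfin
  have hqp : q ≠ p := fun e => hqS (hSig (e ▸ h.hpSmin))
  -- the classifying map of `D.ρ`
  have hD : sigmaCond 𝒪 p t Smin (insert q Sig) D.ρ :=
    sigmaCond_mono126 (Finset.subset_insert q Sig) D.isOfType
  obtain ⟨ψ, ⟨hψ, hψρ⟩, -⟩ := D'.universal D.R D.residue_surjective D.ρ hD D.residual_isEquiv
  -- the two augmentations of `D'.R` agree
  have hxsurj : Function.Surjective (x : D.R →+* 𝒪) := fun o =>
    ⟨algebraMap 𝒪 D.R o, x.commutes o⟩
  haveI : IsLocalHom (algebraMap 𝒪 𝒪) := ⟨fun a ha => ha⟩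
  have hres𝒪 : Function.Surjective (IsLocalRing.residue 𝒪 ∘ algebraMap 𝒪 𝒪) :=
    IsLocalRing.residue_surjective
  have hcond : sigmaCond 𝒪 p t Smin (insert q Sig) (D.ρ.baseChangeAlong (x : D.R →+* 𝒪) hx) :=
    sigmaCond_baseChangeAlong (x : D.R →+* 𝒪) hx hxsurj hD
  have hresid := residual_isEquiv_baseChangeAlong ρbar D.ρ D.residual_isEquiv x hx
  obtain ⟨φ0, -, huniq⟩ := D'.universal 𝒪 hres𝒪 (D.ρ.baseChangeAlong (x : D.R →+* 𝒪) hx)
    hcond hresid
  have hcomp : IsLocalHom ((x.comp ψ : D'.R →ₐ[𝒪] 𝒪) : D'.R →+* 𝒪) :=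
    isLocalHom_algHom inferInstance hres𝒪 (x.comp ψ)
  have hcompρ : (D'.ρ.baseChangeAlong ((x.comp ψ : D'.R →ₐ[𝒪] 𝒪) : D'.R →+* 𝒪) hcomp).IsEquiv
      (D.ρ.baseChangeAlong (x : D.R →+* 𝒪) hx) :=
    isEquiv_trans
      (isEquiv_symm (baseChangeAlong_comp_isEquiv' (ψ : D'.R →+* D.R) hψ (x : D.R →+* 𝒪) hx
        ((x.comp ψ : D'.R →ₐ[𝒪] 𝒪) : D'.R →+* 𝒪) hcomp rfl D'.ρ))
      (isEquiv_baseChangeAlong (x : D.R →+* 𝒪) hx hψρ)
  have hx'eq : x' = x.comp ψ :=
    (huniq x' ⟨hx', hxx'⟩).trans (huniq (x.comp ψ) ⟨hcomp, hcompρ⟩).symm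
  -- a Frobenius at `q`
  obtain ⟨P, σ, hP, hσ⟩ := Fermat.Agent.S54.exists_frobenius q hq
  have htr : x (D.ρ.trace σ) = aq := by
    have h1 := trace_eq_of_charpoly126 (D.ρ.baseChangeAlong (x : D.R →+* 𝒪) hx) σ aq (q : 𝒪)
      (haq P hP σ hσ)
    rw [trace_baseChangeAlong126] at h1
    exact h1
  have key := nmSel p 𝒪 ρbar t Smin Sig q hq hqp hqS D D' ψ hψ hψρ x P hP σ hσ
    (by rw [htr]; exact hc) hfin
  rw [htr] at key
  rw [hx'eq]
  exact key

end Fermat.Agent.S59.H126

end
-- ===== PACK-END S59/H126/SelAdapter.lean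

-- ===== PACK-BEGIN S55/E1/H603/LocalTower.lean
section
/-
S55 / engine E1 / block LIM, leaf LIM5(i), LOCAL TOWER (helper603).

For a level `F`, a prime `q`, `D = Gal(F_q/ℚ_q)`, a finite `D`-module `N` killed by `p`,
`x ∈ H²(D, Hom_ℤ(N, F_qˣ))` and `y = e(x) ∈ 𝔈²_D(F_qˣ)`:

  `y = 0  ↔  x dies in H²(Gal(F'_q/ℚ_q), Hom_ℤ(N, F'_qˣ))` for some finite Galois `F' ⊇ F`
  (a level for some `S'' ⊇ S`).

* `locInf h q N` : the local inflation map;
* `exists_level_locDiv` : uniform local divisibility (from `Tow.LocalSpec`, LDIV);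
* `edge_eq_zero_of_locInf_eq_zero` (LH90 + ALG9/10Edge/11), `exists_locInf_eq_zero` (LDIV + ALG1/9a/10E),
  `edge_eq_zero_iff_exists_locInf`.
All ALG inputs are theorems on main (`E1/H895/Alg911Final.lean`, `E1/H304/Alg1.lean`); the only
hypothesis is `Tow.LocalSpec p`.  No sorry.
-/






set_option autoImplicit false

open CategoryTheory CategoryTheory.Limits groupCohomology

namespace Fermat.Agent.S55.E1.H603

open Fermat.Agent.S55.E1 Fermat.Agent.S55.Tow
open Fermat.Agent.S55.T.H719 (ihomLin)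

noncomputable section

variable {S : Finset Nat.Primes}

/-! ### Elementary facts on the local tower -/

theorem projDec_surjective {L L' : Level S} (h : L ≤ L') (q : Nat.Primes) :
    Function.Surjective (Level.projDec h q) := by
  intro d
  induction d using QuotientGroup.induction_on with
  | H g => exact ⟨QuotientGroup.mk g, rfl⟩

theorem trLoc_injective {L L' : Level S} (h : L ≤ L') (q : Nat.Primes) :
    Function.Injective (Level.trLoc h q).hom := by
  intro x y hxy
  apply L.locCoe_injective q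
  have := congrArg (L'.locCoe q) hxy
  exact this

theorem locCoe_trLoc {L L' : Level S} (h : L ≤ L') (q : Nat.Primes) (x : (L.locUnits q).V) :
    L'.locCoe q ((Level.trLoc h q).hom x) = L.locCoe q x := rfl

theorem exists_trLoc_eq_of_invariant {L L' : Level S} (h : L ≤ L') (q : Nat.Primes)
    (x' : (L'.locUnits q).V)
    (hx' : ∀ d ∈ (Level.projDec h q).ker, (L'.locUnits q).ρ d x' = x') :
    ∃ x : (L.locUnits q).V, (Level.trLoc h q).hom x = x' := by
  have hfix : ∀ g ∈ L.V q, (unitsQpbar q).ρ g (L'.locCoe q x') = L'.locCoe q x' := by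
    intro g hg
    have hker : (QuotientGroup.mk g : L'.Dec q) ∈ (Level.projDec h q).ker := by
      rw [MonoidHom.mem_ker, Level.projDec_mk]
      exact (QuotientGroup.eq_one_iff g).2 hg
    have := congrArg (L'.locCoe q) (hx' _ hker)
    rw [Level.locUnits_ρ_coe] at this
    exact this
  refine ⟨L.locMk q (L'.locCoe q x') hfix, ?_⟩
  apply L'.locCoe_injective q
  rfl

/-! ### The local inflation map -/

/-- Local inflation `H²(Gal(F_q/ℚ_q), Hom_ℤ(N, F_qˣ)) → H²(Gal(F'_q/ℚ_q), Hom_ℤ(N, F'_qˣ))`. -/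
def locInf {L L' : Level S} (h : L ≤ L') (q : Nat.Primes) (N : Rep.{0} ℤ (L.Dec q)) :
    groupCohomology ((Rep.ihom N).obj (L.locUnits q)) 2 →ₗ[ℤ]
      groupCohomology ((Rep.ihom (Rep.res (Level.projDec h q) N)).obj (L'.locUnits q)) 2 :=
  (groupCohomology.map (Level.projDec h q)
    (trIhom (Level.projDec h q) (𝟙 (Rep.res (Level.projDec h q) N)) (Level.trLoc h q)) 2).hom

/-- **(⇐)** If `x` dies at a higher local level then `e(x) = 0` (LH90, ALG9, ALG10Edge, ALG11). -/
theorem edge_eq_zero_of_locInf_eq_zero {p : ℕ} (hLoc : LocalSpec p) {L L' : Level S} (h : L ≤ L')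
    (q : Nat.Primes) (N : Rep.{0} ℤ (L.Dec q))
    {x : groupCohomology ((Rep.ihom N).obj (L.locUnits q)) 2} {y : E2 N (L.locUnits q)}
    (hxy : IsEdge x y) (hx : locInf h q N x = 0) : y = 0 :=
  edge_eq_zero_of_inf_eq_zero H895.Final.alg9 H895.Final.alg10Edge H895.Final.alg11
    (Level.projDec h q) (projDec_surjective h q) N (Rep.res (Level.projDec h q) N) (Iso.refl _)
    (L.locUnits q) (L'.locUnits q) (Level.trLoc h q) (trLoc_injective h q)
    (exists_trLoc_eq_of_invariant h q) (hLoc.2.1 S L L' h q) hxy hx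

/-! ### Uniform local divisibility -/

theorem trLoc_trLoc_ofLE {S' S'' : Finset Nat.Primes} (hS : S ⊆ S') (hS' : S' ⊆ S'')
    (L : Level S) (L₁ : Level S') (L₂ : Level S'') (h₁ : Level.ofLE hS L ≤ L₁)
    (h₂ : Level.ofLE hS' L₁ ≤ L₂) (h : Level.ofLE (hS.trans hS') L ≤ L₂) (q : Nat.Primes)
    (t : (L.locUnits q).V) :
    (Level.trLoc h₂ q).hom ((Level.trLoc h₁ q).hom t) = (Level.trLoc h q).hom t := by
  apply L₂.locCoe_injective q
  rfl

/-- **Uniform LDIV.** Finitely many elements of `F_qˣ` become `p`-th powers in `F'_qˣ` for a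
suitable finite Galois `F' ⊇ F`. -/
theorem exists_level_locDiv {p : ℕ} (hLoc : LocalSpec p) (L : Level S) (q : Nat.Primes)
    (s : Finset (L.locUnits q).V) :
    ∃ (S' : Finset Nat.Primes) (hS : S ⊆ S') (L' : Level S') (h : Level.ofLE hS L ≤ L'),
      ∀ t ∈ s, ∃ y : (L'.locUnits q).V, p • y = (Level.trLoc h q).hom t := by
  classical
  induction s using Finset.induction_on with
  | empty =>
    exact ⟨S, Finset.Subset.refl S, L, le_refl L.F, fun t ht => absurd ht (Finset.notMem_empty t)⟩
  | insert t₀ s₀ _ ih =>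
    obtain ⟨S₁, hS₁, L₁, h₁, hdiv₁⟩ := ih
    obtain ⟨S₂, hS₂, L₂, h₂, y₀, hy₀⟩ := hLoc.2.2 S₁ L₁ q ((Level.trLoc h₁ q).hom t₀)
    have hF : L.F ≤ L₂.F := le_trans (show L.F ≤ L₁.F from h₁) (show L₁.F ≤ L₂.F from h₂)
    have h : Level.ofLE (hS₁.trans hS₂) L ≤ L₂ := hF
    refine ⟨S₂, hS₁.trans hS₂, L₂, h, fun t ht => ?_⟩
    rcases Finset.mem_insert.1 ht with rfl | ht
    · refine ⟨y₀, ?_⟩
      rw [hy₀]
      exact trLoc_trLoc_ofLE hS₁ hS₂ L L₁ L₂ h₁ h₂ h q t
    · obtain ⟨y₁, hy₁⟩ := hdiv₁ t ht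
      refine ⟨(Level.trLoc h₂ q).hom y₁, ?_⟩
      rw [← trLoc_trLoc_ofLE hS₁ hS₂ L L₁ L₂ h₁ h₂ h q t, ← hy₁]
      exact (map_nsmul (Level.trLoc h₂ q).hom p y₁).symm

/-- **(⇒)** If `e(x) = 0` then `x` dies at a higher local level (LDIV, ALG1, ALG9a, ALG10Edge). -/
theorem exists_locInf_eq_zero {p : ℕ} (hp : p.Prime) (hLoc : LocalSpec p) (L : Level S)
    (q : Nat.Primes) (N : Rep.{0} ℤ (L.Dec q)) (hNfin : Finite N.V) (hN : ∀ n : N.V, p • n = 0)
    {x : groupCohomology ((Rep.ihom N).obj (L.locUnits q)) 2}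
    (hx : IsEdge x (0 : E2 N (L.locUnits q))) :
    ∃ (S' : Finset Nat.Primes) (hS : S ⊆ S') (L' : Level S') (h : Level.ofLE hS L ≤ L'),
      locInf (L := Level.ofLE hS L) h q N x = 0 := by
  classical
  obtain ⟨φ, hφ⟩ := H423.exists_forall_inf_eq_zero H895.Final.alg10Edge hp x hx
  have hfin := (H304.alg1 (L.Dec q) N hNfin).2.1
  obtain ⟨s, hs⟩ := H423.exists_finset_closure_eq_top (stdR N) hfin
  obtain ⟨S', hS, L', h, hdiv⟩ :=
    exists_level_locDiv hLoc L q (s.image (fun r => ihomLin φ r))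
  refine ⟨S', hS, L', h, ?_⟩
  refine hφ (L'.Dec q) (Level.projDec h q) (Rep.res (Level.projDec h q) N) (𝟙 _)
    (L'.locUnits q) (Level.trLoc h q) hN ?_
  refine H423.div_of_div_on_generators (Level.projDec h q) (Level.trLoc h q) p φ
    (s : Set (stdR N).V) hs (fun r hr => ?_)
  obtain ⟨y, hy⟩ := hdiv (ihomLin φ r) (Finset.mem_image_of_mem _ hr)
  exact ⟨y, hy.symm⟩

/-- **LIM5(i), local tower.** For `y = e(x)`: `y = 0` iff `x` dies at a higher local level. -/
theorem edge_eq_zero_iff_exists_locInf {p : ℕ} (hp : p.Prime) (hLoc : LocalSpec p) (L : Level S)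
    (q : Nat.Primes) (N : Rep.{0} ℤ (L.Dec q)) (hNfin : Finite N.V) (hN : ∀ n : N.V, p • n = 0)
    {x : groupCohomology ((Rep.ihom N).obj (L.locUnits q)) 2} {y : E2 N (L.locUnits q)}
    (hxy : IsEdge x y) :
    y = 0 ↔ ∃ (S' : Finset Nat.Primes) (hS : S ⊆ S') (L' : Level S')
      (h : Level.ofLE hS L ≤ L'), locInf (L := Level.ofLE hS L) h q N x = 0 := by
  constructor
  · rintro rfl
    exact exists_locInf_eq_zero hp hLoc L q N hNfin hN hxy
  · rintro ⟨S', hS, L', h, hx⟩
    exact edge_eq_zero_of_locInf_eq_zero hLoc (L := Level.ofLE hS L) h q N hxy hx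

end

end Fermat.Agent.S55.E1.H603

end
-- ===== PACK-END S55/E1/H603/LocalTower.lean

-- ===== PACK-BEGIN S59/H601/PeuFlat.lean
section




/-!
# S59 / TW-STRICT, leaf (b) PEU-FLAT (helper601)

`peuFlat : H649.PeuFlatStatement` — a residual representation over a finite field of odd
characteristic `p` with cyclotomic determinant which at one place `P | p` has an ordinary line and
is peu ramifié (Kummer form `H649.IsPeuAt`) is flat at `p`.

Route: the unit Kummer eigenfunctions are inertia-equivariant local coordinates with a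
`P`-polynomial addition law (`localCoordDatum601`); the landed unramified descent
(`S19.Unr.H992.unrStatement`) and ORD (`S19.H15.ordStatement`) turn them into a Hopf model.
-/

set_option autoImplicit false
set_option linter.unusedSectionVars false
set_option linter.unusedVariables false
set_option linter.style.haveILetI false

namespace Fermat.Agent.S59.H601

open Fermat.Agent.S19
open scoped Pointwise

/-- Additive characters of an elementary abelian `p`-group separate points. -/
theorem sep_aux601 (p : ℕ) [Fact p.Prime] (V : Type) [AddCommGroup V] [Module (ZMod p) V] (x : V)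
    (hx : ∀ ξ : V →+ ZMod p, ξ x = 0) : x = 0 := by
  apply (Module.forall_dual_apply_eq_zero_iff (ZMod p) x).mp
  intro φ
  exact hx φ.toAddMonoidHom

/-- The Prelude inertia group contains the elementwise inertia of `S19`. -/
theorem mem_inertiaSubgroupIn_of_isInertiaAt601 {P : ValuationSubring Qb} {σ : GalQ}
    (hσ : IsInertiaAt P σ) : σ ∈ P.inertiaSubgroupIn ℚ :=
  Fermat.Agent.S14.H714.mem_inertiaSubgroupIn_of
    ((Fermat.Agent.S19.Unr.H992.isDecompAt_iff_smul_eq σ).mp
      (Fermat.Agent.S19.Unr.H992.isInertiaAt_isDecompAt hσ)) hσ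

theorem mem_decompositionSubgroup_of_isInertiaAt601 {P : ValuationSubring Qb} {σ : GalQ}
    (hσ : IsInertiaAt P σ) : σ ∈ P.decompositionSubgroup ℚ :=
  MulAction.mem_stabilizer_iff.mpr
    ((Fermat.Agent.S19.Unr.H992.isDecompAt_iff_smul_eq σ).mp
      (Fermat.Agent.S19.Unr.H992.isInertiaAt_isDecompAt hσ))

/-- There is a primitive `p`-th root of unity in `ℚ̄`. -/
theorem exists_primitiveRoot601 (p : ℕ) [Fact p.Prime] : ∃ ζ : Qb, IsPrimitiveRoot ζ p := by
  haveI : NeZero ((p : ℕ) : Qb) := ⟨by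
    have := (Fact.out : p.Prime).ne_zero
    exact_mod_cast this⟩
  exact HasEnoughRootsOfUnity.exists_primitiveRoot Qb p

section Det

variable {k : Type} [Field k]

/-- In an ordinary basis, the determinant is the eigenvalue on the line. -/
theorem det_eq_of_ordinary601 {V : Type} [AddCommGroup V] [Module k V]
    (b : Module.Basis (Fin 2) k V) (f : Module.End k V) (x y : k)
    (h0 : f (b 0) = x • b 0) (h1 : f (b 1) = b 1 + y • b 0) : LinearMap.det f = x := by
  rw [← LinearMap.det_toMatrix b, Matrix.det_fin_two]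
  simp only [LinearMap.toMatrix_apply, h0, h1, map_add, map_smul, Module.Basis.repr_self,
    Finsupp.smul_apply, Finsupp.add_apply, Finsupp.single_apply, smul_eq_mul]
  simp

end Det

/-- **PEU ⟹ FLAT.** -/
theorem peuFlat : Fermat.Agent.S59.H649.PeuFlatStatement := by
  intro p _ hp2 k _ _ ρbar hdet P hP L hL hpeu
  classical
  have hp : p.Prime := Fact.out
  -- the module and its action
  haveI hfinM : Finite ρbar.V := Module.finite_of_finite k
  let act : GalQ → ρbar.V → ρbar.V := fun σ m => ρbar.ρ σ m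
  have hact : IsContAddAction act :=
    { act_one := fun m => by
        show ρbar.ρ 1 m = m
        rw [map_one]
        rfl
      act_mul := fun σ τ m => by
        show ρbar.ρ (σ * τ) m = ρbar.ρ σ (ρbar.ρ τ m)
        rw [map_mul]
        rfl
      act_add := fun σ m m' => map_add (ρbar.ρ σ) m m'
      cont := fun m => by
        obtain ⟨F, hF, h1⟩ := ρbar.factorsThroughFiniteLevel
        refine ⟨F, hF, fun σ hσ => ?_⟩
        show ρbar.ρ σ m = m
        rw [h1 σ hσ]
        rfl }
  -- `p = 0` in `k`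
  have hpk : (p : k) = 0 := by
    have h1 : (p : k) ∈ IsLocalRing.maximalIdeal k := hdet.1
    by_contra h0
    exact (IsLocalRing.mem_maximalIdeal _).mp h1 (isUnit_iff_ne_zero.mpr h0)
  have hpM : ∀ x : ρbar.V, p • x = 0 := by
    intro x
    rw [← Nat.cast_smul_eq_nsmul k p x, hpk, zero_smul]
  -- the root of unity
  obtain ⟨ζ, hζ⟩ := exists_primitiveRoot601 p
  have hPp : (p : Qb) ∈ P.nonunits := hP
  -- the line
  obtain ⟨b, hb⟩ : ∃ b : Module.Basis (Fin 2) k ρbar.V, L = Submodule.span k {b 0} := hL.basis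
  have hstab : ∀ σ ∈ P.decompositionSubgroup ℚ, ∀ v ∈ L, ρbar.ρ σ v ∈ L := hL.stable
  have hin : ∀ σ ∈ P.inertiaSubgroupIn ℚ, ∀ v : ρbar.V, ρbar.ρ σ v - v ∈ L := hL.inertia
  have hdet2 : ∀ (n : ℕ) (σ : AlgebraicClosure ℚ ≃ₐ[ℚ] AlgebraicClosure ℚ) (a : ℕ),
      (∀ μ : AlgebraicClosure ℚ, μ ^ p ^ n = 1 → σ μ = μ ^ a) →
        LinearMap.det (ρbar.ρ σ) - (a : k) ∈ Ideal.span {((p ^ n : ℕ) : k)} := hdet.2
  have hI : ∀ σ, IsInertiaAt P σ → ∀ m, act σ m - m ∈ L.toAddSubgroup := fun σ hσ m =>
    hin σ (mem_inertiaSubgroupIn_of_isInertiaAt601 hσ) m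
  have hLact : ∀ σ, IsInertiaAt P σ → ∀ l ∈ L.toAddSubgroup,
      act σ l = (om601 hζ σ).val • l := by
    intro σ hσ l hl
    have hσD := mem_decompositionSubgroup_of_isInertiaAt601 hσ
    have hσI := mem_inertiaSubgroupIn_of_isInertiaAt601 hσ
    have hb0 : b 0 ∈ L := by
      rw [hb]
      exact Submodule.mem_span_singleton_self _
    -- the eigenvalue on the line
    have h0 := hstab σ hσD (b 0) hb0
    rw [hb, Submodule.mem_span_singleton] at h0
    obtain ⟨x, hx⟩ := h0
    have h1 := hin σ hσI (b 1)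
    rw [hb, Submodule.mem_span_singleton] at h1
    obtain ⟨y, hy⟩ := h1
    have hf0 : (ρbar.ρ σ) (b 0) = x • b 0 := hx.symm
    have hf1 : (ρbar.ρ σ) (b 1) = b 1 + y • b 0 := by
      have : ρbar.ρ σ (b 1) - b 1 = y • b 0 := hy.symm
      exact sub_eq_iff_eq_add'.mp this
    have hdetx : LinearMap.det (ρbar.ρ σ) = x := det_eq_of_ordinary601 b _ x y hf0 hf1
    -- the determinant is cyclotomic
    have hcyc : ∀ μ : AlgebraicClosure ℚ, μ ^ p ^ 1 = 1 → σ μ = μ ^ (om601 hζ σ).val := by
      intro μ hμ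
      rw [pow_one] at hμ
      obtain ⟨i, -, rfl⟩ := hζ.eq_pow_of_pow_eq_one hμ
      rw [map_pow, map_zeta601 hζ σ, ← pow_mul, ← pow_mul, mul_comm]
    have h2 := hdet2 1 σ (om601 hζ σ).val hcyc
    have h3 : ((p ^ 1 : ℕ) : k) = 0 := by
      rw [pow_one]
      exact hpk
    rw [h3, Ideal.span_singleton_eq_bot.mpr rfl, Ideal.mem_bot, sub_eq_zero] at h2
    have hx' : x = ((om601 hζ σ).val : k) := by
      rw [← hdetx]
      exact h2
    -- conclusion
    have hl' : l ∈ L := hl
    rw [hb, Submodule.mem_span_singleton] at hl'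
    obtain ⟨t, rfl⟩ := hl'
    show ρbar.ρ σ (t • b 0) = (om601 hζ σ).val • (t • b 0)
    rw [map_smul, hf0, hx', ← Nat.cast_smul_eq_nsmul k (om601 hζ σ).val (t • b 0), smul_comm]
  have hpeu' : ∀ (ξ : ρbar.V →+ ZMod p) (c : ρbar.V), ∃ B : Qb, P.valuation B = 1 ∧
      ∀ σ, IsInertiaAt P σ → σ ζ = ζ → σ B = ez601 ζ (ξ (act σ c - c)) * B := by
    intro ξ c
    obtain ⟨B, hB, hBeq⟩ := hpeu ζ hζ ξ c
    exact ⟨B, hB, fun σ hσ hσζ => hBeq σ (mem_inertiaSubgroupIn_of_isInertiaAt601 hσ) hσζ⟩
  have hsep : ∀ x : ρbar.V, (∀ ξ : ρbar.V →+ ZMod p, ξ x = 0) → x = 0 := by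
    intro x hx
    letI : Module (ZMod p) ρbar.V := AddCommGroup.zmodModule hpM
    exact sep_aux601 p ρbar.V x hx
  -- local coordinates, descent, ORD
  obtain ⟨D⟩ := localCoordDatum601 hact P hPp hζ L.toAddSubgroup hI hLact hpeu' hsep
  obtain ⟨C⟩ := Fermat.Agent.S19.Unr.H992.unrStatement p ρbar.V act hact D
  have hO := orderDatum_of_coordDatum hact.act_add C
  have hH : HopfModel p ρbar.V act := Fermat.Agent.S19.H15.ordStatement p ρbar.V act hO
  -- the levels
  have hSub := H659.hopfSubquot_closed p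
  have hres : Finite (IsLocalRing.ResidueField k) :=
    Finite.of_surjective (IsLocalRing.residue k) IsLocalRing.residue_surjective
  rw [H779.isFlatAt_iff_flatLevel]
  have hbot : H779.FlatLevel p (GaloisRepAdic.ofResidualGaloisRep ρbar) ⊥ := by
    have hbotsub : ((⊥ : Ideal k) • (⊤ : Submodule k ρbar.V)) = ⊥ := Submodule.bot_smul _
    let e : ρbar.V ≃+ H779.Lev (GaloisRepAdic.ofResidualGaloisRep ρbar) ⊥ :=
      (Submodule.quotEquivOfEqBot _ hbotsub).symm.toAddEquiv
    refine H779.HopfModel.transport (p := p) (actM := act) e ?_ hH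
    intro σ x
    rfl
  refine ⟨hres, fun I _ => ?_⟩
  rcases Ideal.eq_bot_or_top I with rfl | rfl
  · exact hbot
  · exact H779.FlatLevel.mono hSub bot_le hbot

end Fermat.Agent.S59.H601

end
-- ===== PACK-END S59/H601/PeuFlat.lean

-- ===== PACK-BEGIN S59/H649/TWStrict.lean
section




/-!
# Row S59, cell TW, leaf TW-STRICT — CLOSED (helper649)

`twStrict : TWStrictStatement`: a representation over a noetherian local ring with finite
residue field of odd characteristic `p` which is ordinary at `p`, has cyclotomic determinant and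
whose residual representation is not flat at `p`, is strictly ordinary at `p`.

* (a) `tresStrict` (helper649, `TresStrict.lean`): residually très ramifié ⟹ strict;
* (b) `Fermat.Agent.S59.H601.peuFlat` (helper601): peu ramifié ordinary ⟹ flat;
* glue `twStrict_of_leaves` (`StrictGlue.lean`).
-/

set_option autoImplicit false

namespace Fermat.Agent.S59.H649

/-- **TW-STRICT.** -/
theorem twStrict : TWStrictStatement :=
  twStrict_of_leaves Fermat.Agent.S59.H601.peuFlat tresStrict

end Fermat.Agent.S59.H649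

end
-- ===== PACK-END S59/H649/TWStrict.lean

-- ===== PACK-BEGIN S59/H601/PeuLevel.lean
section




/-!
# S59 / cell NMP, leaf SEL, step (F): PEU at a finite level ⟹ Hopf model (helper601)

`peuLevel : PeuLevelStatement` and `peuFlatAll : PeuFlatAllStatement`.

Route (as for `peuFlat`): on `M = V ⧸ I V` the unit Kummer eigenfunctions
`m ↦ [m - c ∈ L̄] ζ ^ ξ (m - c) B_{c,ξ}` (`ζ` a primitive `p ^ n`-th root of unity, `p ^ n ∈ I`,
`ξ : M → ℤ/pⁿ`, `L̄` the image of the ordinary line) are inertia-equivariant `P`-integral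
coordinates with a `P`-polynomial addition law (`localCoordDatumN601`); the landed unramified
descent (`S19.Unr.H992.unrStatement`) and ORD (`S19.H15.ordStatement`) give the Hopf model.
-/

set_option autoImplicit false
set_option linter.unusedSectionVars false
set_option linter.unusedVariables false
set_option linter.style.haveILetI false

namespace Fermat.Agent.S59.H601

open Fermat.Agent.S19
open scoped Pointwise

section Algebra

/-- In a local ring, an ideal of finite index contains a power of the maximal ideal. -/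
theorem exists_pow_maximalIdeal_le601 {A : Type} [CommRing A] [IsLocalRing A] (I : Ideal A)
    [Finite (A ⧸ I)] : ∃ n : ℕ, IsLocalRing.maximalIdeal A ^ n ≤ I := by
  by_cases hI : I = ⊤
  · exact ⟨0, by rw [hI]; exact le_top⟩
  · have hjac : I.jacobson = IsLocalRing.maximalIdeal A :=
      IsLocalRing.jacobson_eq_maximalIdeal I hI
    have hsurj : Function.Surjective (Ideal.Quotient.mk I) := Ideal.Quotient.mk_surjective
    have hmap : Ideal.map (Ideal.Quotient.mk I) I.jacobson =
        (Ideal.map (Ideal.Quotient.mk I) I).jacobson :=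
      Ideal.map_jacobson_of_surjective hsurj (by rw [Ideal.mk_ker])
    rw [Ideal.map_quotient_self, hjac] at hmap
    obtain ⟨n, hn⟩ := IsArtinianRing.isNilpotent_jacobson_bot (R := A ⧸ I)
    refine ⟨n, ?_⟩
    rw [← hmap, ← Ideal.map_pow, Ideal.zero_eq_bot, Ideal.map_eq_bot_iff_le_ker,
      Ideal.mk_ker] at hn
    exact hn

/-- In an ordinary basis, the determinant is the eigenvalue on the line. -/
theorem det_eq_of_ordinaryR601 {A : Type} [CommRing A] {V : Type} [AddCommGroup V] [Module A V]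
    (b : Module.Basis (Fin 2) A V) (f : Module.End A V) (x y : A)
    (h0 : f (b 0) = x • b 0) (h1 : f (b 1) = b 1 + y • b 0) : LinearMap.det f = x := by
  rw [← LinearMap.det_toMatrix b, Matrix.det_fin_two]
  simp only [LinearMap.toMatrix_apply, h0, h1, map_add, map_smul, Module.Basis.repr_self,
    Finsupp.smul_apply, Finsupp.add_apply, Finsupp.single_apply, smul_eq_mul]
  simp

end Algebra

section Sep

variable {N : ℕ} [NeZero N] {M : Type} [AddCommGroup M] [Finite M]

theorem ezN601_injective {ζ : Qb} (hζ : IsPrimitiveRoot ζ N) {a b : ZMod N}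
    (h : ezN601 ζ a = ezN601 ζ b) : a = b := by
  have h1 : ezN601 ζ (a - b) * ezN601 ζ b = 1 * ezN601 ζ b := by
    rw [← ezN601_add hζ.pow_eq_one, sub_add_cancel, one_mul, h]
  have h2 := mul_right_cancel₀ (ezN601_ne_zero hζ.pow_eq_one b) h1
  exact sub_eq_zero.mp ((ezN601_eq_one_iff hζ _).mp h2)

/-- The characters `M → ℤ/N` separate the points of a finite abelian group killed by `N`. -/
theorem sepN601 (hN : ∀ x : M, N • x = 0) {ζ : Qb} (hζ : IsPrimitiveRoot ζ N) (x : M)
    (hx : ∀ ξ : M →+ ZMod N, ξ x = 0) : x = 0 := by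
  by_contra hx0
  have hexp : Monoid.exponent (Multiplicative M) ≠ 0 := Monoid.exponent_ne_zero_of_finite
  haveI : NeZero ((Monoid.exponent (Multiplicative M) : ℕ) : Qb) := ⟨by exact_mod_cast hexp⟩
  have hx1 : Multiplicative.ofAdd x ≠ 1 := fun h => hx0 (by simpa using h)
  obtain ⟨φ, hφ⟩ := CommGroup.exists_apply_ne_one_of_hasEnoughRootsOfUnity
    (Multiplicative M) Qb hx1
  let g : M → Qb := fun m => ((φ (Multiplicative.ofAdd m) : Qbˣ) : Qb)
  have hg_add : ∀ a b : M, g (a + b) = g a * g b := by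
    intro a b
    show ((φ (Multiplicative.ofAdd (a + b)) : Qbˣ) : Qb) = _
    rw [ofAdd_add, map_mul, Units.val_mul]
  have hgN : ∀ m : M, g m ^ N = 1 := by
    intro m
    show ((φ (Multiplicative.ofAdd m) : Qbˣ) : Qb) ^ N = 1
    rw [← Units.val_pow_eq_pow_val, ← map_pow, ← ofAdd_nsmul, hN m, ofAdd_zero, map_one,
      Units.val_one]
  have hex : ∀ m : M, ∃ i : ZMod N, ezN601 ζ i = g m := by
    intro m
    obtain ⟨i, hi, hi'⟩ := hζ.eq_pow_of_pow_eq_one (hgN m)
    refine ⟨(i : ZMod N), ?_⟩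
    unfold ezN601
    rw [ZMod.val_natCast_of_lt hi, hi']
  choose f hf using hex
  let ξ : M →+ ZMod N := AddMonoidHom.mk' f (by
    intro a b
    apply ezN601_injective hζ
    rw [ezN601_add hζ.pow_eq_one, hf, hf, hf, hg_add])
  have h1 : f x = 0 := hx ξ
  have h2 : g x = 1 := by rw [← hf x, h1, ezN601_zero]
  apply hφ
  exact Units.ext h2

end Sep

section Level

variable {A : Type} [CommRing A] [IsLocalRing A]

theorem levelAction_mk601 (ρ : GaloisRepAdic A) (I : Ideal A) (σ : GalQ) (v : ρ.V) :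
    ρ.levelAction I σ (Submodule.Quotient.mk v) = Submodule.Quotient.mk (ρ.ρ σ v) := rfl

/-- The levels of a representation are finite. -/
theorem finite_lev601 (ρ : GaloisRepAdic A) (I : Ideal A) [Finite (A ⧸ I)] :
    Finite (Fermat.Agent.S59.H779.Lev ρ I) := by
  haveI : Module.Finite (A ⧸ I) (ρ.V ⧸ (I • (⊤ : Submodule A ρ.V))) :=
    Module.Finite.of_restrictScalars_finite A (A ⧸ I) _
  exact Module.finite_of_finite (A ⧸ I)

/-- The Galois action on a finite level is additive with open stabilisers. -/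
theorem isContAddAction_lev601 (ρ : GaloisRepAdic A) (I : Ideal A) [Finite (A ⧸ I)] :
    IsContAddAction (fun (σ : GalQ) (x : Fermat.Agent.S59.H779.Lev ρ I) =>
      ρ.levelAction I σ x) := by
  obtain ⟨n, hn⟩ := exists_pow_maximalIdeal_le601 I
  obtain ⟨F, hF, hFfix⟩ := ρ.isAdicContinuous n
  refine
    { act_one := fun m => ?_
      act_mul := fun σ τ m => ?_
      act_add := fun σ m m' => map_add (ρ.levelAction I σ) m m'
      cont := fun m => ⟨F, hF, fun σ hσ => ?_⟩ }
  · obtain ⟨v, rfl⟩ := Submodule.Quotient.mk_surjective _ m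
    show ρ.levelAction I 1 (Submodule.Quotient.mk v) = _
    rw [levelAction_mk601, map_one]
    rfl
  · obtain ⟨v, rfl⟩ := Submodule.Quotient.mk_surjective _ m
    show ρ.levelAction I (σ * τ) (Submodule.Quotient.mk v) =
      ρ.levelAction I σ (ρ.levelAction I τ (Submodule.Quotient.mk v))
    rw [levelAction_mk601, levelAction_mk601, levelAction_mk601, map_mul]
    rfl
  · obtain ⟨v, rfl⟩ := Submodule.Quotient.mk_surjective _ m
    show ρ.levelAction I σ (Submodule.Quotient.mk v) = _
    rw [levelAction_mk601, Submodule.Quotient.eq]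
    exact Submodule.smul_mono_left hn (hFfix σ hσ v)

end Level

/-- **(F) at one level: PEU ⟹ Hopf model.** -/
theorem peuLevel : PeuLevelStatement := by
  intro p _ A _ _ ρ hdet P hP L hL I hfin n ζ hζ hpn hpeu
  classical
  have hp : p.Prime := Fact.out
  haveI : NeZero (p ^ n) := ⟨pow_ne_zero n hp.ne_zero⟩
  haveI hfinM : Finite (Fermat.Agent.S59.H779.Lev ρ I) := finite_lev601 ρ I
  let act : GalQ → Fermat.Agent.S59.H779.Lev ρ I → Fermat.Agent.S59.H779.Lev ρ I :=
    fun σ x => ρ.levelAction I σ x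
  have hact : IsContAddAction act := isContAddAction_lev601 ρ I
  have hPp : (p : Qb) ∈ P.nonunits := hP
  -- the module is killed by `p ^ n`
  have hkill : ∀ x : Fermat.Agent.S59.H779.Lev ρ I, (p ^ n) • x = 0 := by
    intro x
    obtain ⟨v, rfl⟩ := Submodule.Quotient.mk_surjective _ x
    rw [← Submodule.Quotient.mk_smul, Submodule.Quotient.mk_eq_zero,
      ← Nat.cast_smul_eq_nsmul A (p ^ n) v]
    exact Submodule.smul_mem_smul hpn Submodule.mem_top
  -- the line
  obtain ⟨b, hb⟩ : ∃ b : Module.Basis (Fin 2) A ρ.V, L = Submodule.span A {b 0} := hL.basis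
  have hstab : ∀ σ ∈ P.decompositionSubgroup ℚ, ∀ v ∈ L, ρ.ρ σ v ∈ L := hL.stable
  have hin : ∀ σ ∈ P.inertiaSubgroupIn ℚ, ∀ v : ρ.V, ρ.ρ σ v - v ∈ L := hL.inertia
  let Lbar : AddSubgroup (Fermat.Agent.S59.H779.Lev ρ I) :=
    (L.map (Submodule.mkQ (I • (⊤ : Submodule A ρ.V)))).toAddSubgroup
  have hLbar : ∀ x, x ∈ Lbar ↔ ∃ w ∈ L, Submodule.Quotient.mk w = x := by
    intro x
    show x ∈ L.map (Submodule.mkQ (I • (⊤ : Submodule A ρ.V))) ↔ _
    rw [Submodule.mem_map]
    rfl
  have hI : ∀ σ, IsInertiaAt P σ → ∀ m, act σ m - m ∈ Lbar := by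
    intro σ hσ m
    obtain ⟨v, rfl⟩ := Submodule.Quotient.mk_surjective _ m
    rw [hLbar]
    exact ⟨ρ.ρ σ v - v, hin σ (mem_inertiaSubgroupIn_of_isInertiaAt601 hσ) v, rfl⟩
  have hLact : ∀ σ, IsInertiaAt P σ → ∀ l ∈ Lbar, act σ l = (omN601 hζ σ).val • l := by
    intro σ hσ l hl
    have hσD := mem_decompositionSubgroup_of_isInertiaAt601 hσ
    have hσI := mem_inertiaSubgroupIn_of_isInertiaAt601 hσ
    have hb0 : b 0 ∈ L := by
      rw [hb]
      exact Submodule.mem_span_singleton_self _
    -- the eigenvalue on the line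
    have h0 := hstab σ hσD (b 0) hb0
    rw [hb, Submodule.mem_span_singleton] at h0
    obtain ⟨x, hx⟩ := h0
    have h1 := hin σ hσI (b 1)
    rw [hb, Submodule.mem_span_singleton] at h1
    obtain ⟨y, hy⟩ := h1
    have hf0 : (ρ.ρ σ) (b 0) = x • b 0 := hx.symm
    have hf1 : (ρ.ρ σ) (b 1) = b 1 + y • b 0 := by
      have : ρ.ρ σ (b 1) - b 1 = y • b 0 := hy.symm
      exact sub_eq_iff_eq_add'.mp this
    have hdetx : LinearMap.det (ρ.ρ σ) = x := det_eq_of_ordinaryR601 b _ x y hf0 hf1
    -- the determinant is cyclotomic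
    have hcyc : ∀ μ : AlgebraicClosure ℚ, μ ^ p ^ n = 1 → σ μ = μ ^ (omN601 hζ σ).val :=
      fun μ hμ => map_rootN601 hζ σ hμ
    have h2 := hdet.2 n σ (omN601 hζ σ).val hcyc
    rw [hdetx] at h2
    have h3 : x - (((omN601 hζ σ).val : ℕ) : A) ∈ I :=
      (Ideal.span_singleton_le_iff_mem (I := I)).mpr hpn h2
    -- conclusion
    obtain ⟨w, hw, rfl⟩ := (hLbar l).mp hl
    rw [hb, Submodule.mem_span_singleton] at hw
    obtain ⟨t, rfl⟩ := hw
    show ρ.levelAction I σ (Submodule.Quotient.mk (t • b 0)) = _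
    rw [levelAction_mk601, ← Submodule.Quotient.mk_smul, Submodule.Quotient.eq, map_smul, hf0,
      ← Nat.cast_smul_eq_nsmul A (omN601 hζ σ).val (t • b 0)]
    have h4 : t • x • b 0 - (((omN601 hζ σ).val : ℕ) : A) • t • b 0 =
        (x - (((omN601 hζ σ).val : ℕ) : A)) • (t • b 0) := by
      rw [sub_smul, smul_comm t x]
    rw [h4]
    exact Submodule.smul_mem_smul h3 Submodule.mem_top
  have hunit : ∀ (ξ : Fermat.Agent.S59.H779.Lev ρ I →+ ZMod (p ^ n))
      (c : Fermat.Agent.S59.H779.Lev ρ I), ∃ B : Qb, P.valuation B = 1 ∧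
      ∀ σ, IsInertiaAt P σ → σ B = ezN601 ζ (ξ (act σ c - c)) * B := by
    intro ξ c
    obtain ⟨B, hB, hBeq⟩ := hpeu ξ c
    exact ⟨B, hB, fun σ hσ => hBeq σ (mem_inertiaSubgroupIn_of_isInertiaAt601 hσ)⟩
  have hsep : ∀ x : Fermat.Agent.S59.H779.Lev ρ I,
      (∀ ξ : Fermat.Agent.S59.H779.Lev ρ I →+ ZMod (p ^ n), ξ x = 0) → x = 0 :=
    fun x hx => sepN601 hkill hζ x hx
  -- local coordinates, descent, ORD
  obtain ⟨D⟩ := localCoordDatumN601 p hact P hPp hζ Lbar hI hLact hunit hsep
  obtain ⟨C⟩ := Fermat.Agent.S19.Unr.H992.unrStatement p (Fermat.Agent.S59.H779.Lev ρ I) act hact D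
  have hO := orderDatum_of_coordDatum hact.act_add C
  exact Fermat.Agent.S19.H15.ordStatement p (Fermat.Agent.S59.H779.Lev ρ I) act hO

/-- **(F) at all levels: PEU at every finite level ⟹ flat at `p`.** -/
theorem peuFlatAll : PeuFlatAllStatement := peuFlatAll_of_level peuLevel

end Fermat.Agent.S59.H601

end
-- ===== PACK-END S59/H601/PeuLevel.lean

-- ===== PACK-BEGIN S59/NMP/H587/BettiChar.lean
section


/-!
# S59 / cell NMP, leaf LGC, bridge BETTI (helper587) — eigenclasses give characters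

`W = Hom(Λ, O)` (`Λ` the period lattice of level `N`) with the action `NM.H709.actHom` of the Hecke
algebra `𝕋 = heckeAlgebra N 2 S` (`S` any set of primes containing the primes dividing `N`).

* `exists_char_of_eigen` : a nonzero `u ∈ W` which is an eigenvector of every `T_ℓ` (`ℓ ∉ S`,
  `ℓ ∤ N`) is an eigenvector of `𝕋`; the eigenvalues form a ring homomorphism `χ : 𝕋 →+* O`.
-/

set_option autoImplicit false

noncomputable section

namespace Fermat.Agent.S59.NMP.H587

open CongruenceSubgroup ModularCurve ModularCurve.Period CuspForm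
open Fermat.Agent.S30.H709 Fermat.Agent.S59.NM.H709
open scoped MatrixGroups

variable {N : ℕ} [NeZero N] {S : Set ℕ} {O : Type} [CommRing O] [IsDomain O]

omit [NeZero N] in
theorem smul_eq_smul_iff_of_ne_zero {Λ : Type*} [AddCommGroup Λ] {u : Λ →+ O} (hu : u ≠ 0)
    {c c' : O} : c • u = c' • u ↔ c = c' := by
  constructor
  · intro h
    obtain ⟨x, hx⟩ : ∃ x, u x ≠ 0 := by
      by_contra hcon
      push Not at hcon
      exact hu (AddMonoidHom.ext hcon)
    have := DFunLike.congr_fun h x
    rw [AddMonoidHom.smul_apply, AddMonoidHom.smul_apply, smul_eq_mul, smul_eq_mul] at this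
    exact mul_right_cancel₀ hx this
  · rintro rfl
    rfl

omit [IsDomain O] in
/-- Every element of the Hecke algebra acts on a joint eigenvector of the generators by a
scalar. -/
theorem exists_scalar_of_eigen (hNS : ∀ q : ℕ, q.Prime → q ∣ N → q ∈ S)
    (u : perLattice N →+ O) (e : ℕ → O)
    (he : ∀ (ℓ : ℕ) (hℓ : ℓ.Prime) (hℓN : ¬ ℓ ∣ N) (hℓS : ℓ ∉ S),
      actHom O hNS (heckeAlgebra.T hℓ hℓN hℓS) u = e ℓ • u)
    (t : heckeAlgebra N 2 S) : ∃ c : O, actHom O hNS t u = c • u := by
  obtain ⟨t, ht⟩ := t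
  unfold heckeAlgebra at ht
  induction ht using Algebra.adjoin_induction with
  | mem x hx =>
    rcases hx with ⟨ℓ, hℓ, hℓN, hℓS, rfl⟩ | ⟨q, hqN, hq, hqS, rfl⟩
    · exact ⟨e ℓ, he ℓ hℓ hℓN hℓS⟩
    · exact absurd (hNS q hq hqN) hqS
  | algebraMap r =>
    refine ⟨(r : O), ?_⟩
    have h1 : (⟨algebraMap ℤ (Module.End ℂ (CuspForm (Gamma0 N) 2)) r,
        Subalgebra.algebraMap_mem _ r⟩ : heckeAlgebra N 2 S) = (r : heckeAlgebra N 2 S) := by
      apply Subtype.ext
      simp
    rw [h1, map_intCast]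
    refine AddMonoidHom.ext fun x => ?_
    simp
  | add x y hx hy ihx ihy =>
    obtain ⟨cx, hcx⟩ := ihx
    obtain ⟨cy, hcy⟩ := ihy
    refine ⟨cx + cy, ?_⟩
    have h1 : (⟨x + y, Subalgebra.add_mem _ hx hy⟩ : heckeAlgebra N 2 S) =
        (⟨x, hx⟩ : heckeAlgebra N 2 S) + ⟨y, hy⟩ := rfl
    rw [h1, map_add, LinearMap.add_apply, hcx, hcy, add_smul]
  | mul x y hx hy ihx ihy =>
    obtain ⟨cx, hcx⟩ := ihx
    obtain ⟨cy, hcy⟩ := ihy
    refine ⟨cx * cy, ?_⟩
    have h1 : (⟨x * y, Subalgebra.mul_mem _ hx hy⟩ : heckeAlgebra N 2 S) =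
        (⟨x, hx⟩ : heckeAlgebra N 2 S) * ⟨y, hy⟩ := rfl
    rw [h1, map_mul, Module.End.mul_apply, hcy, map_smul, hcx, smul_smul, mul_comm]

/-- **Eigenclasses give characters.**  A nonzero joint eigenvector `u ∈ Hom(Λ, O)` of the `T_ℓ`
(`ℓ ∉ S`, `ℓ ∤ N`), with eigenvalues `e ℓ`, defines a ring homomorphism
`χ : heckeAlgebra N 2 S →+* O` with `χ (T_ℓ) = e ℓ` and `t u = χ t • u`. -/
theorem exists_char_of_eigen (hNS : ∀ q : ℕ, q.Prime → q ∣ N → q ∈ S)
    (u : perLattice N →+ O) (hu : u ≠ 0) (e : ℕ → O)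
    (he : ∀ (ℓ : ℕ) (hℓ : ℓ.Prime) (hℓN : ¬ ℓ ∣ N) (hℓS : ℓ ∉ S),
      actHom O hNS (heckeAlgebra.T hℓ hℓN hℓS) u = e ℓ • u) :
    ∃ χ : heckeAlgebra N 2 S →+* O, (∀ t, actHom O hNS t u = χ t • u) ∧
      ∀ (ℓ : ℕ) (hℓ : ℓ.Prime) (hℓN : ¬ ℓ ∣ N) (hℓS : ℓ ∉ S),
        χ (heckeAlgebra.T hℓ hℓN hℓS) = e ℓ := by
  classical
  choose c hc using exists_scalar_of_eigen hNS u e he
  have huniq : ∀ {a b : O}, a • u = b • u → a = b := fun h =>
    (smul_eq_smul_iff_of_ne_zero hu).mp h
  refine ⟨{ toFun := c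
            map_one' := huniq (by rw [← hc, map_one, Module.End.one_apply, one_smul])
            map_mul' := fun x y => huniq (by
              rw [← hc, map_mul, Module.End.mul_apply, hc y, map_smul, hc x, smul_smul, mul_comm])
            map_zero' := huniq (by rw [← hc, map_zero, LinearMap.zero_apply, zero_smul])
            map_add' := fun x y => huniq (by
              rw [← hc, map_add, LinearMap.add_apply, hc x, hc y, add_smul]) }, hc, ?_⟩
  intro ℓ hℓ hℓN hℓS
  exact huniq ((hc _).symm.trans (he ℓ hℓ hℓN hℓS))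

end Fermat.Agent.S59.NMP.H587

end
end
-- ===== PACK-END S59/NMP/H587/BettiChar.lean

-- ===== PACK-BEGIN S17/GDiv/Defs.lean
section



/-!
# S17 / G-DIV (divisibility of `J₀(N)(ℚ̄)`), ALGEBRAIC line: definitions and frozen statements

Architect: helper797.  Route: Weil generic points + rigidity by derivations (helper797) with the
ending "transitivity instead of specialisation" (helper20).  Plan: `coord/S17-GDIV.md`
(origin/helper797).  No analysis, no torsion input, no Jacobian variety.

Notation: `k = ℚ̄`, `L ⊇ k` an algebraically closed field (in the end `L = ℂ`),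
`F_L = laurentBaseChange L (modularFunctionFieldFull N) ⊆ L((q))`, `∞ = cuspL` the place `ord_q`,
`t = j`.  A place `P` of `F_L` is RATIONAL over a subfield `K₁ ⊆ L` if every finite value at `P`
of a function with rational `q`-expansion lies in `K₁`.

This file is complete.  The pieces are the `Prop`s `Stmt…`; each owner proves
`theorem stmt… : Stmt… N L` (with the hypotheses on `L` he needs among those of `Assembly.lean`).
-/

set_option autoImplicit false

noncomputable section

open AlgebraicCurve ModularCurve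

namespace Fermat.Agent.S17.GDiv

open Fermat.Agent.Lib.RR Fermat.Agent.S17.H680

/-- `ℚ̄` -/
abbrev Qb : Type := AlgebraicClosure ℚ

section Defs

variable (N : ℕ) [NeZero N] (L : Type) [Field L] [Algebra ℚ L]

/-- The function field of `X₀(N)` over `L`. -/
abbrev FL : IntermediateField L (LaurentSeries L) :=
  laurentBaseChange L (modularFunctionFieldFull N)

/-- The base change of a function with rational `q`-expansion. -/
def bcQ (u : modularFunctionFieldFull N) : FL N L :=
  ⟨coeffEmb L (u : LaurentSeries ℚ), coeffEmb_mem_laurentBaseChange L u.2⟩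

omit [NeZero N] in
@[simp]
theorem coe_bcQ (u : modularFunctionFieldFull N) :
    ((bcQ N L u : FL N L) : LaurentSeries L) = coeffEmb L (u : LaurentSeries ℚ) := rfl

/-- `j` as an element of the rational function field. -/
def jQ : modularFunctionFieldFull N := ⟨jq, modularFunctionField_le_full N (jq_mem N)⟩

/-- `t = j ∈ F_L`. -/
def tL : FL N L := bcQ N L (jQ N)

theorem exists_order_neg :
    ∃ f : FL N L, (f : LaurentSeries L).order < 0 := by
  refine ⟨tL N L, ?_⟩
  show (coeffEmb L jq).order < 0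
  have h : (coeffEmb L jq).order ≤ -1 :=
    HahnSeries.order_le_of_coeff_ne_zero (by
      rw [coeffEmb_coeff, coeff_jq_neg_one, map_one]; exact one_ne_zero)
  omega

/-- The cusp `∞`, as a place of `F_L`. -/
def cuspL : Place L (FL N L) :=
  cuspInf (modularFunctionFieldFull N) (exists_order_neg N L)

variable {N L}

/-- `f` vanishes at `P` (`f ∈ 𝔪_P`; recall that the Prelude has `ord 0 = 0`). -/
def VanishesAt (P : Place L (FL N L)) (f : FL N L) : Prop := f = 0 ∨ 0 < P.ord f

/-- `u` has the finite value `c` at `P`. -/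
def HasValue (P : Place L (FL N L)) (f : FL N L) (c : L) : Prop :=
  VanishesAt P (f - algebraMap L (FL N L) c)

/-- The place `P` is rational over the subfield `K₁`: all finite values at `P` of functions
with rational `q`-expansion lie in `K₁`. -/
def IsRationalOver (K₁ : Subfield L) (P : Place L (FL N L)) : Prop :=
  ∀ (u : modularFunctionFieldFull N) (c : L), HasValue P (bcQ N L u) c → c ∈ K₁

/-- A divisor is rational over `K₁` if all places of its support are. -/
def DivRationalOver (K₁ : Subfield L) (D : Divisor L (FL N L)) : Prop :=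
  ∀ P ∈ D.support, IsRationalOver K₁ P

/-- `K₁` is algebraically closed in `L`. -/
def AlgClosedIn (K₁ : Subfield L) : Prop := ∀ x : L, IsAlgebraic K₁ x → x ∈ K₁

/-- The `t`-value of a place (`0` if `t` has a pole at `P`). -/
def tval (P : Place L (FL N L)) : L :=
  open Classical in if h : ∃ c : L, HasValue P (tL N L) c then h.choose else 0

/-- A tuple of places is generic and independent over `K₀`: `t` is finite at each of them and
the values are algebraically independent over `K₀`. -/
def IsGenericTuple (K₀ : Subfield L) {m : ℕ} (P : Fin m → Place L (FL N L)) : Prop :=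
  (∀ i, ∃ c : L, HasValue (P i) (tL N L) c) ∧ AlgebraicIndependent K₀ (fun i => tval (P i))

/-- All coefficients of the `q`-expansion lie in `K₁`. -/
def CoeffsIn (K₁ : Subfield L) (f : FL N L) : Prop :=
  ∀ m : ℤ, (f : LaurentSeries L).coeff m ∈ K₁

end Defs

section WithFF1

variable {N : ℕ} [NeZero N] {L : Type} [Field L] [Algebra ℚ L] [FF1 L (FL N L)]

/-- The effective divisor `P₁ + … + P_m`. -/
def sumPl {m : ℕ} (P : Fin m → Place L (FL N L)) : Divisor L (FL N L) :=
  ∑ i, prim (P i)

omit [NeZero N] in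
theorem degree_sumPl {m : ℕ} (P : Fin m → Place L (FL N L)) :
    Divisor.degree (sumPl P) = m := by
  simp [sumPl, map_sum, degree_prim _ (deg_eq_one _)]

theorem degree_sumPl_sub {m : ℕ} (P : Fin m → Place L (FL N L)) :
    Divisor.degree (sumPl P - m • prim (cuspL N L)) = 0 := by
  rw [map_sub, degree_sumPl, map_nsmul, degree_prim _ (deg_eq_one _)]
  simp

/-- The class `[P₁ + … + P_m − m ∞]`. -/
def cls {m : ℕ} (P : Fin m → Place L (FL N L)) : Pic0 L (FL N L) :=
  Pic0.mk ⟨sumPl P - m • prim (cuspL N L), degree_sumPl_sub P⟩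

variable (N L)

/-- The genus of `F_L`. -/
abbrev gL : ℕ := genusR L (FL N L)

/-- The set of generic classes over `K₀`. -/
def Gen (K₀ : Subfield L) : Set (Pic0 L (FL N L)) :=
  {ξ | ∃ P : Fin (gL N L) → Place L (FL N L), IsGenericTuple K₀ P ∧ ξ = cls P}

/-! ## The frozen statements of the pieces -/

/-- **DPRES** (the coefficientwise derivation preserves `F_L`). -/
def StmtDPRES : Prop :=
  ∀ (d : Derivation ℚ L L) (f : FL N L), ∃ h : FL N L,
    ∀ m : ℤ, (h : LaurentSeries L).coeff m = d ((f : LaurentSeries L).coeff m)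

/-- **PLEXT** (a place is determined by its values on the functions with rational
`q`-expansion). -/
def StmtPLEXT : Prop :=
  ∀ P P' : Place L (FL N L),
    (∀ (u : modularFunctionFieldFull N) (c : L),
      HasValue P (bcQ N L u) c → HasValue P' (bcQ N L u) c) → P = P'

/-- **DER** (derivations respect the local rings).  For a derivation `∂` of `L` and
`D` = coefficientwise `∂` on `F_L ⊆ L((q))`: if `g • f = D f` (`g` is the logarithmic derivative of
`f ≠ 0`), then `g` has at most simple poles, and no pole at `P` if `ord_P f = 0` or if `P` is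
rational over a subfield killed by `∂`. -/
def StmtDER : Prop :=
  ∀ (d : Derivation ℚ L L) (f g : FL N L), f ≠ 0 →
    (∀ m : ℤ, ((g * f : FL N L) : LaurentSeries L).coeff m
        = d ((f : LaurentSeries L).coeff m)) →
    ∀ P : Place L (FL N L), g = 0 ∨
      (-1 ≤ P.ord g ∧
        (P.ord f = 0 → 0 ≤ P.ord g) ∧
        (∀ K₁ : Subfield L, (∀ a ∈ K₁, d a = 0) → IsRationalOver K₁ P → 0 ≤ P.ord g))

/-- **DEREX** (enough derivations; Mathlib only).  If `K₁` is algebraically closed in `L`
(characteristic zero) and `x ∉ K₁`, some derivation of `L` kills `K₁` but not `x`. -/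
def StmtDEREX : Prop :=
  ∀ K₁ : Subfield L, AlgClosedIn K₁ → ∀ x : L, x ∉ K₁ →
    ∃ d : Derivation ℚ L L, (∀ a ∈ K₁, d a = 0) ∧ d x ≠ 0

/-- **CORE** (rigidity for functions).  If all zeros and poles of `f` which are not rational over
`K₁` lie in the support of an effective divisor `E` with `ℓ(E) = 1`, then `f` is a constant
multiple of a function with coefficients in `K₁`. -/
def StmtCORE : Prop :=
  ∀ K₁ : Subfield L, AlgClosedIn K₁ → ∀ (f : FL N L), f ≠ 0 →
    ∀ E : Divisor L (FL N L), 0 ≤ E → ell E = 1 →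
      (∀ P : Place L (FL N L), ¬ IsRationalOver K₁ P → P.ord f ≠ 0 → 0 < E P) →
      ∃ c : L, c ≠ 0 ∧ CoeffsIn K₁ (c • f)

/-- **ZRAT** (zeros of functions over `K₁` are rational over `K₁`). -/
def StmtZRAT : Prop :=
  ∀ K₁ : Subfield L, AlgClosedIn K₁ → ∀ (f : FL N L), CoeffsIn K₁ f →
    ∀ P : Place L (FL N L), P.ord f ≠ 0 → IsRationalOver K₁ P

/-- **CUSPRAT** (the cusp is rational over every subfield). -/
def StmtCUSPRAT : Prop := ∀ K₁ : Subfield L, IsRationalOver K₁ (cuspL N L)

/-- **RIG** (rigidity for classes).  If `n • y` is represented by a divisor rational over `K₁`,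
then the minimal representative of `y` is rational over `K₁`. -/
def StmtRIG : Prop :=
  ∀ K₁ : Subfield L, AlgClosedIn K₁ → ∀ (y : Pic0 L (FL N L)) (n : ℕ), n ≠ 0 →
    ∀ B : Divisor.degZero (K := L) (F := FL N L), DivRationalOver K₁ (B : Divisor L (FL N L)) →
      n • y = Pic0.mk B → DivRationalOver K₁ (minRep (cuspL N L) y)

/-- **NS** (generic points are non-special).  Every countable subfield `K` is contained in a
countable subfield `K₀`, algebraically closed in `L`, such that `ℓ(P₁ + … + P_g) = 1` for every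
tuple generic over `K₀`.  (`K₀` = a field of definition of a canonical divisor.) -/
def StmtNS : Prop :=
  ∀ K : Subfield L, (K : Set L).Countable →
    ∃ K₀ : Subfield L, K ≤ K₀ ∧ AlgClosedIn K₀ ∧ (K₀ : Set L).Countable ∧
      ∀ P : Fin (gL N L) → Place L (FL N L), IsGenericTuple K₀ P → ell (sumPl P) = 1

/-- **GEN** (generic tuples exist). -/
def StmtGEN : Prop :=
  ∀ K₀ : Subfield L, (K₀ : Set L).Countable →
    ∃ P : Fin (gL N L) → Place L (FL N L), IsGenericTuple K₀ P

/-- **GENSTAB** (the set of generic classes is stable under `n •` and under translation by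
classes rational over `K₀`). -/
def StmtGENSTAB : Prop :=
  ∀ K₀ : Subfield L, AlgClosedIn K₀ →
    (∀ P : Fin (gL N L) → Place L (FL N L), IsGenericTuple K₀ P → ell (sumPl P) = 1) →
    ∀ ξ ∈ Gen N L K₀,
      (∀ n : ℕ, n ≠ 0 → n • ξ ∈ Gen N L K₀) ∧
      (∀ B : Divisor.degZero (K := L) (F := FL N L),
        DivRationalOver K₀ (B : Divisor L (FL N L)) → Pic0.mk B + ξ ∈ Gen N L K₀)

/-- **TRANS** (transitivity).  `Aut(L/K₀)` acts transitively on generic tuples. -/
def StmtTRANS : Prop :=
  ∀ K₀ : Subfield L, AlgClosedIn K₀ → (K₀ : Set L).Countable →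
    ∀ P Q : Fin (gL N L) → Place L (FL N L), IsGenericTuple K₀ P → IsGenericTuple K₀ Q →
      ∃ σ : L ≃ₐ[ℚ] L, (∀ a ∈ K₀, σ a = a) ∧
        ∀ i, arithmeticGalois (modularFunctionFieldFull N) σ • P i = Q i

end WithFF1

section BaseChange

variable (N : ℕ) [NeZero N] (L : Type) [Field L] [Algebra ℚ L] [Algebra Qb L]
  [FF1 L (FL N L)]

/-- The image of `ℚ̄` in `L`. -/
def kL : Subfield L := (algebraMap Qb L).fieldRange

/-- **BC** (base change of classes).  An injective homomorphism `J(ℚ̄) → J(L)` whose image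
consists of the classes with `ℚ̄`-rational minimal representative; every class in the image is
represented by a `ℚ̄`-rational divisor. -/
def StmtBC : Prop :=
  ∃ β : JZero N →+ Pic0 L (FL N L), Function.Injective β ∧
    (∀ x : JZero N, ∃ B : Divisor.degZero (K := L) (F := FL N L),
      DivRationalOver (kL L) (B : Divisor L (FL N L)) ∧ β x = Pic0.mk B) ∧
    (∀ y : Pic0 L (FL N L), DivRationalOver (kL L) (minRep (cuspL N L) y) → y ∈ Set.range β)

end BaseChange

end Fermat.Agent.S17.GDiv

end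
end
-- ===== PACK-END S17/GDiv/Defs.lean

-- ===== PACK-BEGIN S17/GDiv/Assembly.lean
section



/-!
# S17 / G-DIV, algebraic line: the assembly (complete)

`divisible_of` : `J₀(N)(ℚ̄)` is divisible, from the frozen pieces of `Defs.lean`
(`StmtBC`, `StmtRIG`, `StmtNS`, `StmtGEN`, `StmtGENSTAB`, `StmtTRANS`) for ONE algebraically
closed field `L ⊇ ℚ̄`.

Proof (helper20's ending).  `𝒢` = generic classes over `K₀`, `ξ ∈ 𝒢`.  Then `n ξ ∈ 𝒢` and
`β x + ξ ∈ 𝒢`; by transitivity `n ξ = σ ξ`, `β x + ξ = τ ξ`, hence `ξ = n σ⁻¹ ξ` and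
`β x = n (τ σ⁻¹ ξ - σ⁻¹ ξ) =: n y`; by rigidity `y` is `ℚ̄`-rational, `y = β y₀`, and `n y₀ = x`
by injectivity of `β`.
-/

set_option autoImplicit false

noncomputable section

open AlgebraicCurve ModularCurve

namespace Fermat.Agent.S17.GDiv

open Fermat.Agent.Lib.RR Fermat.Agent.S17.H680

section

variable {N : ℕ} [NeZero N] {L : Type} [Field L] [Algebra ℚ L] [FF1 L (FL N L)]

omit [NeZero N] [FF1 L (FL N L)] in
theorem DivRationalOver.mono {K₁ K₂ : Subfield L} (h : K₁ ≤ K₂) {D : Divisor L (FL N L)}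
    (hD : DivRationalOver K₁ D) : DivRationalOver K₂ D :=
  fun P hP u c hc => h (hD P hP u c hc)

omit [FF1 L (FL N L)] in
theorem galois_smul_cuspL (σ : L ≃ₐ[ℚ] L) :
    arithmeticGalois (modularFunctionFieldFull N) σ • cuspL N L = cuspL N L :=
  arithmeticGalois_smul_cuspInf _ _ σ

omit [NeZero N] [FF1 L (FL N L)] in
theorem galois_smul_sumPl (σ : L ≃ₐ[ℚ] L) {m : ℕ} (P : Fin m → Place L (FL N L)) :
    arithmeticGalois (modularFunctionFieldFull N) σ • sumPl P
      = sumPl (fun i => arithmeticGalois (modularFunctionFieldFull N) σ • P i) := by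
  simp only [sumPl, Finset.smul_sum, smul_prim]

theorem galois_smul_cls (σ : L ≃ₐ[ℚ] L) {m : ℕ} (P : Fin m → Place L (FL N L)) :
    σ • cls P = cls (fun i => arithmeticGalois (modularFunctionFieldFull N) σ • P i) := by
  rw [galois_smul_pic0_def, cls, cls, SemilinearAut.pic0_smul_mk]
  congr 1
  apply Subtype.ext
  rw [SemilinearAut.coe_degZeroSMulHom]
  show arithmeticGalois (modularFunctionFieldFull N) σ • (sumPl P - m • prim (cuspL N L)) = _
  rw [smul_sub, smul_comm, smul_prim, galois_smul_cuspL, galois_smul_sumPl]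

/-- Transitivity on generic classes. -/
theorem exists_smul_eq_of_mem_Gen (hTRANS : StmtTRANS N L) {K₀ : Subfield L}
    (hK₀a : AlgClosedIn K₀) (hK₀c : (K₀ : Set L).Countable)
    {ξ ξ' : Pic0 L (FL N L)} (hξ : ξ ∈ Gen N L K₀) (hξ' : ξ' ∈ Gen N L K₀) :
    ∃ σ : L ≃ₐ[ℚ] L, σ • ξ = ξ' := by
  obtain ⟨P, hP, rfl⟩ := hξ
  obtain ⟨Q, hQ, rfl⟩ := hξ'
  obtain ⟨σ, -, hσ⟩ := hTRANS K₀ hK₀a hK₀c P Q hP hQ
  refine ⟨σ, ?_⟩
  rw [galois_smul_cls]
  congr 1
  funext i
  exact hσ i

end

section Main

variable (N : ℕ) [NeZero N] (L : Type) [Field L] [Algebra ℚ L] [Algebra Qb L]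
  [FF1 L (FL N L)]

/-- **G-DIV from the pieces.** -/
theorem divisible_of (hkc : (kL L : Set L).Countable) (hka : AlgClosedIn (kL L))
    (hBC : StmtBC N L) (hRIG : StmtRIG N L)
    (hNS : StmtNS N L)
    (hGEN : StmtGEN N L) (hSTAB : StmtGENSTAB N L) (hTRANS : StmtTRANS N L)
    (n : ℕ) (hn : n ≠ 0) (x : JZero N) : ∃ y : JZero N, n • y = x := by
  obtain ⟨β, hβinj, hβrat, hβrange⟩ := hBC
  obtain ⟨K₀, hK, hK₀a, hK₀c, hns⟩ := hNS (kL L) hkc
  obtain ⟨P, hP⟩ := hGEN K₀ hK₀c
  have hξ : cls P ∈ Gen N L K₀ := ⟨P, hP, rfl⟩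
  obtain ⟨h1, h2⟩ := hSTAB K₀ hK₀a hns (cls P) hξ
  obtain ⟨B, hB, hβx⟩ := hβrat x
  obtain ⟨σ, hσ⟩ := exists_smul_eq_of_mem_Gen hTRANS hK₀a hK₀c hξ (h1 n hn)
  obtain ⟨τ, hτ⟩ := exists_smul_eq_of_mem_Gen hTRANS hK₀a hK₀c hξ (h2 B (hB.mono hK))
  have comm : ∀ (ρ : L ≃ₐ[ℚ] L) (z : Pic0 L (FL N L)), n • (ρ • z) = ρ • (n • z) :=
    fun ρ z => (map_nsmul (DistribSMul.toAddMonoidHom (Pic0 L (FL N L)) ρ) n z).symm
  have h3 : n • (σ⁻¹ • cls P) = cls P := by
    rw [comm, ← hσ, inv_smul_smul]
  have hy : n • (τ • σ⁻¹ • cls P - σ⁻¹ • cls P) = β x := by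
    rw [nsmul_sub, comm τ, h3, hτ, hβx, add_sub_cancel_right]
  have hyr := hRIG (kL L) hka _ n hn B hB (by rw [hy, hβx])
  obtain ⟨y₀, hy₀⟩ := hβrange _ hyr
  refine ⟨y₀, hβinj ?_⟩
  rw [map_nsmul, hy₀, hy]

end Main

end Fermat.Agent.S17.GDiv

end
end
-- ===== PACK-END S17/GDiv/Assembly.lean

-- ===== PACK-BEGIN S17/H917/CoreRig.lean
section



/-!
# S17 / G-DIV, pieces CORE (rigidity for functions) and RIG (rigidity for classes)

* `stmtCORE : StmtDER N L → StmtDEREX L → StmtDPRES N L → StmtCORE N L`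
* `stmtRIG  : StmtCORE N L → StmtZRAT N L → StmtCUSPRAT N L → StmtRIG N L`

## CORE

Proof (plan `coord/S17-GDIV.md` v2 of helper797).  Normalise the leading `q`-coefficient of `f` to
`1`: `f₁ = c • f`.  If some coefficient `x` of `f₁` is not in `K₁`, DEREX gives a derivation `∂` of
`L` killing `K₁` with `∂ x ≠ 0`; `h := D f₁` (coefficientwise `∂`, DPRES) is nonzero and
`g := h / f₁` has, by DER, at most simple poles, all of them at non-`K₁`-rational zeros or poles of
`f`, i.e. in the support of `E`.  So `g ∈ L(E) = L` (as `ℓ(E) = 1`): `D f₁ = a • f₁` for a constant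
`a`; comparing the leading coefficients, `a = ∂ 1 = 0`, so `D f₁ = 0`, a contradiction.

## RIG

Let `E = minRep y`, `m = minDeg y`, so `y = [E - m ∞]`, `E ≥ 0`, `ℓ(E) = 1`.  From `n • y = [B]`
we get `h ≠ 0` with `B = n (E - m ∞) + div h`.  A place `P` which is not `K₁`-rational is not the
cusp (CUSPRAT) and not in the support of `B`, so `ord_P h = - n E(P)`; in particular all
non-rational zeros and poles of `h` lie in the support of `E`.  By CORE a constant multiple of `h`
has coefficients in `K₁`, hence by ZRAT all zeros and poles of `h` are `K₁`-rational.  So a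
non-rational `P` has `E(P) = 0`.
-/

set_option autoImplicit false

noncomputable section

open AlgebraicCurve ModularCurve

namespace Fermat.Agent.S17.H917

open Fermat.Agent.Lib.RR Fermat.Agent.S17.H680 Fermat.Agent.S17.GDiv

variable {N : ℕ} [NeZero N] {L : Type} [Field L] [Algebra ℚ L]

omit [NeZero N] in
/-- Coefficients of a constant multiple. -/
theorem coeff_algebraMap_mul_FL (a : L) (f : FL N L) (m : ℤ) :
    ((algebraMap L (FL N L) a * f : FL N L) : LaurentSeries L).coeff m
      = a * (f : LaurentSeries L).coeff m := by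
  show (algebraMap L (LaurentSeries L) a * (f : LaurentSeries L)).coeff m = _
  rw [algebraMap_laurentSeries_eq_single, HahnSeries.coeff_single_zero_mul]

omit [NeZero N] in
/-- Coefficients of a scalar multiple. -/
theorem coeff_smul_FL (c : L) (f : FL N L) (m : ℤ) :
    ((c • f : FL N L) : LaurentSeries L).coeff m = c * (f : LaurentSeries L).coeff m := by
  rw [Algebra.smul_def, coeff_algebraMap_mul_FL]

omit [NeZero N] in
/-- A nonzero element of `F_L` has a nonzero coefficient; normalising it gives a coefficient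
equal to `1`. -/
theorem exists_coeff_ne_zero_FL {f : FL N L} (hf : f ≠ 0) :
    ∃ m : ℤ, (f : LaurentSeries L).coeff m ≠ 0 := by
  have hf' : (f : LaurentSeries L) ≠ 0 := fun h => hf (Subtype.ext h)
  exact ⟨_, fun h => hf' (HahnSeries.coeff_order_eq_zero.mp h)⟩

omit [NeZero N] in
/-- If `E ≥ 0` and `ℓ(E) = 1`, then `L(E)` consists of the constants. -/
theorem exists_const_of_mem_L_of_ell_eq_one {E : Divisor L (FL N L)} (hE : 0 ≤ E)
    (hell : ell E = 1) {g : FL N L} (hg : g ∈ riemannRochSpace E) :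
    ∃ a : L, g = algebraMap L (FL N L) a := by
  have h1 : (1 : FL N L) ∈ riemannRochSpace E := by
    rw [mem_riemannRochSpace_iff]
    intro v
    right
    rw [Place.ord_one]
    have := Finsupp.le_def.mp hE v
    simp only [Finsupp.coe_zero, Pi.zero_apply] at this
    omega
  have hne : (⟨1, h1⟩ : riemannRochSpace E) ≠ 0 := by
    intro h
    have := congrArg Subtype.val h
    simp at this
  obtain ⟨a, ha⟩ := (finrank_eq_one_iff_of_nonzero' (⟨1, h1⟩ : riemannRochSpace E) hne).mp hell
    ⟨g, hg⟩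
  refine ⟨a, ?_⟩
  have := congrArg Subtype.val ha
  simp only [Submodule.coe_smul] at this
  rw [← this, Algebra.smul_def, mul_one]

omit [NeZero N] in
/-- **CORE** (rigidity for functions). -/
theorem stmtCORE (hDER : StmtDER N L) (hDEREX : StmtDEREX L) (hDPRES : StmtDPRES N L) :
    StmtCORE N L := by
  intro K₁ hK₁ f hf E hE hell hsupp
  -- normalise
  obtain ⟨n₀, hn₀⟩ := exists_coeff_ne_zero_FL hf
  set c : L := ((f : LaurentSeries L).coeff n₀)⁻¹ with hc
  have hc0 : c ≠ 0 := inv_ne_zero hn₀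
  refine ⟨c, hc0, ?_⟩
  have hf₁ : c • f ≠ 0 := by
    rw [Algebra.smul_def]
    exact mul_ne_zero ((map_ne_zero _).mpr hc0) hf
  have hlead : ((c • f : FL N L) : LaurentSeries L).coeff n₀ = 1 := by
    rw [coeff_smul_FL, hc, inv_mul_cancel₀ hn₀]
  -- coefficients
  intro m
  by_contra hx
  obtain ⟨d, hdK, hdx⟩ := hDEREX K₁ hK₁ _ hx
  obtain ⟨h, hh⟩ := hDPRES d (c • f)
  have hh0 : h ≠ 0 := by
    intro h0
    apply hdx
    rw [← hh m, h0]
    simp
  set g : FL N L := h / (c • f) with hg
  have hgf : g * (c • f) = h := div_mul_cancel₀ h hf₁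
  have hg0 : g ≠ 0 := div_ne_zero hh0 hf₁
  have hder := hDER d (c • f) g hf₁ (fun m => by rw [hgf]; exact hh m)
  -- `g ∈ L(E)`
  have hgE : g ∈ riemannRochSpace E := by
    rw [mem_riemannRochSpace_iff]
    intro P
    right
    rcases hder P with h0 | ⟨h1, h2, h3⟩
    · exact absurd h0 hg0
    have hEP : 0 ≤ E P := by
      have := Finsupp.le_def.mp hE P
      simpa using this
    by_cases hord : P.ord (c • f) = 0
    · have := h2 hord
      omega
    by_cases hrat : IsRationalOver K₁ P
    · have := h3 K₁ hdK hrat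
      omega
    · have hordf : P.ord f ≠ 0 := by
        intro h0
        apply hord
        rw [Algebra.smul_def, P.ord_mul ((map_ne_zero _).mpr hc0) hf, ord_algebraMap, h0, zero_add]
      have := hsupp P hrat hordf
      omega
  obtain ⟨a, ha⟩ := exists_const_of_mem_L_of_ell_eq_one hE hell hgE
  -- compare the coefficients at `n₀`
  have key : ∀ m : ℤ, d (((c • f : FL N L) : LaurentSeries L).coeff m)
      = a * ((c • f : FL N L) : LaurentSeries L).coeff m := by
    intro m
    rw [← hh m, ← hgf, ha, coeff_algebraMap_mul_FL]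
  have ha0 : a = 0 := by
    have := key n₀
    rw [hlead, mul_one] at this
    rw [← this]
    exact d.map_one_eq_zero
  apply hdx
  rw [key m, ha0, zero_mul]

section Rig

variable {N : ℕ} [NeZero N] {L : Type} [Field L] [Algebra ℚ L] [FF1 L (FL N L)]

/-- **RIG** (rigidity for classes). -/
theorem stmtRIG (hCORE : StmtCORE N L) (hZRAT : StmtZRAT N L) (hCUSP : StmtCUSPRAT N L) :
    StmtRIG N L := by
  intro K₁ hK₁ y n hn B hB hny
  have hE0 : 0 ≤ minRep (cuspL N L) y := minRep_nonneg _ y
  have hEell : ell (minRep (cuspL N L) y) = 1 := ell_minRep _ y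
  -- the function `h`
  have h1 : Pic0.mk (n • minDiv (cuspL N L) y) = Pic0.mk B := by
    rw [← hny]
    conv_rhs => rw [← mk_minDiv (cuspL N L) y]
    rfl
  obtain ⟨h, hh, e⟩ := mk_eq_mk_iff'.mp h1
  -- orders of `h` at the non-rational places
  have hord : ∀ P : Place L (FL N L), ¬ IsRationalOver K₁ P →
      P.ord h = - (n : ℤ) * minRep (cuspL N L) y P := by
    intro P hP
    have hPc : P ≠ cuspL N L := fun hc => hP (hc ▸ hCUSP K₁)
    have hPB : (B : Divisor L (FL N L)) P = 0 := by
      by_contra hne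
      exact hP (hB P (Finsupp.mem_support_iff.mpr hne))
    have e' := DFunLike.congr_fun e P
    rw [hPB, Finsupp.add_apply, divOf_apply, AddSubgroup.coe_nsmul, coe_minDiv,
      Finsupp.smul_apply, Finsupp.sub_apply, Finsupp.smul_apply, prim_apply_of_ne hPc] at e'
    simp only [smul_zero, sub_zero, nsmul_eq_mul] at e'
    linarith
  -- CORE
  obtain ⟨c, hc0, hcoef⟩ := hCORE K₁ hK₁ h hh (minRep (cuspL N L) y) hE0 hEell (by
    intro P hP hne
    have hEP : 0 ≤ minRep (cuspL N L) y P := by
      have := Finsupp.le_def.mp hE0 P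
      simpa using this
    rcases hEP.lt_or_eq with hlt | heq
    · exact hlt
    · exfalso
      apply hne
      rw [hord P hP, ← heq, mul_zero])
  -- ZRAT
  have hzr := hZRAT K₁ hK₁ (c • h) hcoef
  intro P hPE
  by_contra hP
  apply hP
  apply hzr P
  rw [Algebra.smul_def, P.ord_mul ((map_ne_zero _).mpr hc0) hh, ord_algebraMap, zero_add,
    hord P hP]
  have hne : minRep (cuspL N L) y P ≠ 0 := Finsupp.mem_support_iff.mp hPE
  have hn' : (n : ℤ) ≠ 0 := by exact_mod_cast hn
  exact mul_ne_zero (neg_ne_zero.mpr hn') hne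

end Rig

end Fermat.Agent.S17.H917

end
end
-- ===== PACK-END S17/H917/CoreRig.lean

-- ===== PACK-BEGIN S17/H770/DerStmt.lean
section




/-!
# S17 / G-DIV (helper770): the pieces `StmtDPRES` and `StmtDEREX` of `GDiv/Defs.lean`
-/

set_option autoImplicit false

open AlgebraicCurve ModularCurve

namespace Fermat.Agent.S17.H770

open Fermat.Agent.S17.GDiv

/-- **DPRES**: the coefficientwise derivation preserves `F_L`. -/
theorem stmtDPRES (N : ℕ) (L : Type) [Field L] [Algebra ℚ L] : StmtDPRES N L := by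
  intro d f
  exact ⟨fieldDer d (modularFunctionFieldFull N) f, fun m => rfl⟩

/-- **DEREX**: enough derivations. -/
theorem stmtDEREX (L : Type) [Field L] [Algebra ℚ L] : StmtDEREX L := by
  intro K₁ hK₁ x hx
  have : CharZero L := charZero_of_injective_algebraMap (algebraMap ℚ L).injective
  have : CharZero K₁ := charZero_of_injective_algebraMap (algebraMap ℚ K₁).injective
  have htr : Transcendental K₁ x := fun halg => hx (hK₁ x halg)
  obtain ⟨D, hD⟩ := exists_derivation_eq_one (K := K₁) x htr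
  refine ⟨D.restrictScalars ℚ, fun a ha => ?_, ?_⟩
  · exact D.map_algebraMap (⟨a, ha⟩ : K₁)
  · show D x ≠ 0
    rw [hD]
    exact one_ne_zero

end Fermat.Agent.S17.H770

end
-- ===== PACK-END S17/H770/DerStmt.lean

-- ===== PACK-BEGIN S17/H797/DerDefs.lean
section




/-!
# S17 / G-DIV, piece DER: reduction to the two local statements (helper797)

`DL d` is the coefficientwise derivation of `F_L = L · F₀ ⊆ L((q))` attached to a derivation `d`
of `L`.  A place `P` of `F_L` is of CONSTANT TYPE if `ord_P` is non-trivial on the functions with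
rational `q`-expansion, of GENERIC TYPE otherwise.

* `StmtDERa` : at a place of constant type, `ord_P (D h) ≥ ord_P h`;
* `StmtDERb` : at a place of generic type, `t` is finite at `P`, `ord_P (D h) ≥ ord_P h - 1`,
  `D h` is regular if `h` is a unit, and `ord_P (D h) ≥ ord_P h` if `d` kills the value of `t`;
* `stmtDER_of` : `StmtDERa → StmtDERb → GDiv.StmtDER`  (proved here);
* `stmtDPRES` : `GDiv.StmtDPRES` (proved here, from helper800's `coeffDer_mem_laurentBaseChange`).
-/

set_option autoImplicit false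

noncomputable section

open AlgebraicCurve ModularCurve

namespace Fermat.Agent.S17.H797

open Fermat.Agent.Lib.RR Fermat.Agent.S17.GDiv Fermat.Agent.S17.H800

section Defs

variable {N : ℕ} {L : Type} [Field L] [Algebra ℚ L]

/-- The coefficientwise derivation of `F_L`. -/
def DL (d : Derivation ℚ L L) : FL N L →+ FL N L where
  toFun f := ⟨coeffDer d (f : LaurentSeries L), coeffDer_mem_laurentBaseChange d _ f.2⟩
  map_zero' := Subtype.ext (map_zero _)
  map_add' _ _ := Subtype.ext (map_add _ _ _)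

@[simp]
theorem coe_DL (d : Derivation ℚ L L) (f : FL N L) :
    ((DL d f : FL N L) : LaurentSeries L) = coeffDer d (f : LaurentSeries L) := rfl

theorem coeff_DL (d : Derivation ℚ L L) (f : FL N L) (m : ℤ) :
    ((DL d f : FL N L) : LaurentSeries L).coeff m = d ((f : LaurentSeries L).coeff m) := rfl

/-- Leibniz rule. -/
theorem DL_mul (d : Derivation ℚ L L) (f g : FL N L) :
    DL d (f * g) = f * DL d g + g * DL d f :=
  Subtype.ext (coeffDer_mul d _ _)

theorem DL_algebraMap (d : Derivation ℚ L L) (c : L) :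
    DL d (algebraMap L (FL N L) c) = algebraMap L (FL N L) (d c) :=
  Subtype.ext (coeffDer_algebraMap d c)

theorem DL_bcQ (d : Derivation ℚ L L) (u : modularFunctionFieldFull N) :
    DL d (bcQ N L u) = 0 :=
  Subtype.ext (coeffDer_coeffEmb d _)

theorem DL_one (d : Derivation ℚ L L) : DL d (1 : FL N L) = 0 :=
  Subtype.ext (coeffDer_one d)

theorem DL_inv (d : Derivation ℚ L L) (f : FL N L) :
    DL d f⁻¹ = -(f⁻¹ ^ 2 * DL d f) :=
  Subtype.ext (coeffDer_inv d _)

/-- Quotient rule. -/
theorem DL_div (d : Derivation ℚ L L) (a b : FL N L) :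
    DL d (a / b) = (b * DL d a - a * DL d b) * (b⁻¹) ^ 2 := by
  rcases eq_or_ne b 0 with rfl | hb
  · simp
  rw [div_eq_mul_inv, DL_mul, DL_inv]
  field_simp
  ring

/-- `P` is of constant type: `ord_P` is non-trivial on the functions with rational
`q`-expansion. -/
def IsConstType (P : Place L (FL N L)) : Prop :=
  ∃ u : modularFunctionFieldFull N, P.ord (bcQ N L u) ≠ 0

end Defs

section Stmts

variable (N : ℕ) [NeZero N] (L : Type) [Field L] [Algebra ℚ L]

/-- **DER-a**: places of constant type. -/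
def StmtDERa : Prop :=
  ∀ (d : Derivation ℚ L L) (P : Place L (FL N L)), IsConstType P →
    ∀ h : FL N L, DL d h = 0 ∨ P.ord h ≤ P.ord (DL d h)

/-- **DER-b**: places of generic type. -/
def StmtDERb : Prop :=
  ∀ (d : Derivation ℚ L L) (P : Place L (FL N L)), ¬ IsConstType P →
    (∃ c : L, HasValue P (tL N L) c) ∧
    ∀ h : FL N L, DL d h = 0 ∨
      (P.ord h - 1 ≤ P.ord (DL d h) ∧
        (P.ord h = 0 → 0 ≤ P.ord (DL d h)) ∧
        ((∀ c : L, HasValue P (tL N L) c → d c = 0) → P.ord h ≤ P.ord (DL d h)))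

variable {N L}

omit [NeZero N] in
/-- **DPRES**. -/
theorem stmtDPRES [FF1 L (FL N L)] : StmtDPRES N L :=
  fun d f => ⟨DL d f, fun m => coeff_DL d f m⟩

/-- **DER** from the two local statements. -/
theorem stmtDER_of [FF1 L (FL N L)] (ha : StmtDERa N L) (hb : StmtDERb N L) : StmtDER N L := by
  intro d f g hf hg P
  have hgf : g * f = DL d f := by
    apply Subtype.ext
    ext m
    exact hg m
  by_cases hg0 : g = 0
  · exact Or.inl hg0
  refine Or.inr ?_
  have hD0 : DL d f ≠ 0 := by
    rw [← hgf]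
    exact mul_ne_zero hg0 hf
  have hord : P.ord (DL d f) = P.ord g + P.ord f := by
    rw [← hgf]
    exact P.ord_mul hg0 hf
  by_cases hP : IsConstType P
  · have h1 := (ha d P hP f).resolve_left hD0
    rw [hord] at h1
    have h0 : 0 ≤ P.ord g := by linarith
    exact ⟨by linarith, fun _ => h0, fun _ _ _ => h0⟩
  · obtain ⟨-, hb'⟩ := hb d P hP
    obtain ⟨h1, h2, h3⟩ := (hb' f).resolve_left hD0
    rw [hord] at h1 h2 h3
    refine ⟨by linarith, fun h => by have := h2 h; linarith, fun K₁ hK₁ hrat => ?_⟩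
    have := h3 (fun c hc => hK₁ c (hrat (jQ N) c hc))
    linarith

end Stmts

end Fermat.Agent.S17.H797

end
end
-- ===== PACK-END S17/H797/DerDefs.lean

-- ===== PACK-BEGIN S17/H200/PlextVal.lean
section


/-!
# G-DIV / PLEXT, part 1: values of functions at places (small calculus)

`VanishesAt P` is the maximal ideal of `P`, `HasValue P f c` is "`f ≡ c` modulo the maximal
ideal".  We prove existence (for functions regular at `P`), uniqueness and linearity of values.
-/

set_option autoImplicit false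

noncomputable section

open AlgebraicCurve ModularCurve

namespace Fermat.Agent.S17.H200

open Fermat.Agent.Lib.RR Fermat.Agent.S17.GDiv

variable {N : ℕ} [NeZero N] {L : Type} [Field L] [Algebra ℚ L]

omit [NeZero N] in
theorem vanishesAt_zero (P : Place L (FL N L)) : VanishesAt P (0 : FL N L) := Or.inl rfl

omit [NeZero N] in
theorem VanishesAt.add {P : Place L (FL N L)} {f g : FL N L} (hf : VanishesAt P f)
    (hg : VanishesAt P g) : VanishesAt P (f + g) := by
  have h := ord_add_of_le P (n := 1)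
    (hf.imp id fun h => by omega) (hg.imp id fun h => by omega)
  exact h.imp id fun h => by omega

omit [NeZero N] in
theorem VanishesAt.smul {P : Place L (FL N L)} {f : FL N L} (hf : VanishesAt P f) (a : L) :
    VanishesAt P (a • f) := by
  rcases hf with rfl | hf
  · left; rw [smul_zero]
  rcases eq_or_ne a 0 with rfl | ha
  · left; rw [zero_smul]
  right
  have hf0 : f ≠ 0 := ne_zero_of_ord_ne_zero P (by omega)
  have ha0 : algebraMap L (FL N L) a ≠ 0 := by
    rwa [Ne, map_eq_zero]
  rw [Algebra.smul_def, P.ord_mul ha0 hf0, ord_algebraMap]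
  omega

omit [NeZero N] in
theorem VanishesAt.neg {P : Place L (FL N L)} {f : FL N L} (hf : VanishesAt P f) :
    VanishesAt P (-f) := by
  rcases hf with rfl | hf
  · left; rw [neg_zero]
  · right; rwa [ord_neg]

omit [NeZero N] in
theorem not_vanishesAt_algebraMap {P : Place L (FL N L)} {a : L} (ha : a ≠ 0) :
    ¬ VanishesAt P (algebraMap L (FL N L) a) := by
  rintro (h | h)
  · exact ha ((map_eq_zero _).mp h)
  · rw [ord_algebraMap] at h
    exact lt_irrefl _ h

omit [NeZero N] in
theorem hasValue_zero (P : Place L (FL N L)) : HasValue P (0 : FL N L) 0 := by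
  unfold HasValue
  rw [map_zero, sub_zero]
  exact vanishesAt_zero P

omit [NeZero N] in
theorem HasValue.add {P : Place L (FL N L)} {f g : FL N L} {c d : L} (hf : HasValue P f c)
    (hg : HasValue P g d) : HasValue P (f + g) (c + d) := by
  unfold HasValue at *
  have := VanishesAt.add hf hg
  rwa [show f - algebraMap L (FL N L) c + (g - algebraMap L (FL N L) d)
    = f + g - algebraMap L (FL N L) (c + d) by rw [map_add]; ring] at this

omit [NeZero N] in
theorem HasValue.smul {P : Place L (FL N L)} {f : FL N L} {c : L} (hf : HasValue P f c)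
    (a : L) : HasValue P (a • f) (a * c) := by
  unfold HasValue at *
  have := VanishesAt.smul hf a
  rwa [show a • (f - algebraMap L (FL N L) c) = a • f - algebraMap L (FL N L) (a * c) by
    rw [smul_sub, map_mul, Algebra.smul_def a (algebraMap L (FL N L) c)]] at this

omit [NeZero N] in
theorem HasValue.unique {P : Place L (FL N L)} {f : FL N L} {c d : L} (hc : HasValue P f c)
    (hd : HasValue P f d) : c = d := by
  by_contra hne
  unfold HasValue at *
  have h := VanishesAt.add hd (VanishesAt.neg hc)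
  rw [show f - algebraMap L (FL N L) d + -(f - algebraMap L (FL N L) c)
    = algebraMap L (FL N L) (c - d) by rw [map_sub]; ring] at h
  exact not_vanishesAt_algebraMap (sub_ne_zero.mpr hne) h

omit [NeZero N] in
theorem hasValue_zero_iff {P : Place L (FL N L)} {f : FL N L} :
    HasValue P f 0 ↔ VanishesAt P f := by
  unfold HasValue
  rw [map_zero, sub_zero]

variable [FF1 L (FL N L)]

omit [NeZero N] in
/-- A function which is regular at `P` has a value at `P`. -/
theorem exists_hasValue {P : Place L (FL N L)} {f : FL N L} (hf : f = 0 ∨ 0 ≤ P.ord f) :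
    ∃ c : L, HasValue P f c := by
  have hf' : 0 ≤ P.ord f := by
    rcases hf with rfl | h
    · rw [Place.ord_zero]
    · exact h
  exact exists_const_sub P (deg_eq_one P) hf'

end Fermat.Agent.S17.H200

end
end
-- ===== PACK-END S17/H200/PlextVal.lean

-- ===== PACK-BEGIN S17/H830/NSVal.lean
section


/-!
# S17 / G-DIV, piece NS (helper830), part 1: values of functions at places

General API (`K`, `F` arbitrary, places of the Prelude):

* `HasVal P f c` : `f` has the finite value `c` at `P` (`f - c = 0 ∨ 0 < ord_P (f - c)`), the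
  general form of `GDiv.HasValue`;
* `hasVal_iff_residue`, uniqueness, compatibility with `+`, `*`, `⁻¹`, constants;
* `HasVal.smul` : semilinear automorphisms transport values;
* `finite_setOf_ord_ne_zero` : a nonzero function has finitely many zeros and poles.
-/

set_option autoImplicit false

noncomputable section

open AlgebraicCurve

namespace Fermat.Agent.S17.H830

open Fermat.Agent.Lib.RR

section General

variable {K F : Type*} [Field K] [Field F] [Algebra K F]

/-- `f` has the finite value `c` at `P`. -/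
def HasVal (P : Place K F) (f : F) (c : K) : Prop :=
  f - algebraMap K F c = 0 ∨ 0 < P.ord (f - algebraMap K F c)

theorem HasVal.mem {P : Place K F} {f : F} {c : K} (h : HasVal P f c) :
    f ∈ P.toValuationSubring := by
  have h1 : f - algebraMap K F c ∈ P.toValuationSubring := by
    rcases h with h | h
    · rw [h]; exact zero_mem _
    · exact mem_of_ord_nonneg P h.le
  have h2 := add_mem h1 (P.algebraMap_mem' c)
  rwa [sub_add_cancel] at h2

theorem algebraMap_residue (P : Place K F) (c : K) :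
    algebraMap K P.ResidueField c
      = IsLocalRing.residue P.toValuationSubring (algebraMap K P.toValuationSubring c) := by
  rw [IsScalarTower.algebraMap_apply K P.toValuationSubring P.ResidueField]
  rfl

theorem hasVal_iff_residue (P : Place K F) (f : F) (c : K) :
    HasVal P f c ↔ ∃ hf : f ∈ P.toValuationSubring,
      IsLocalRing.residue P.toValuationSubring ⟨f, hf⟩ = algebraMap K P.ResidueField c := by
  constructor
  · intro h
    refine ⟨h.mem, ?_⟩
    rw [algebraMap_residue, ← sub_eq_zero, ← map_sub, IsLocalRing.residue_eq_zero_iff,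
      mem_maximalIdeal_iff]
    exact h
  · rintro ⟨hf, h⟩
    rw [algebraMap_residue, ← sub_eq_zero, ← map_sub, IsLocalRing.residue_eq_zero_iff,
      mem_maximalIdeal_iff] at h
    exact h

theorem HasVal.unique {P : Place K F} {f : F} {c c' : K} (h : HasVal P f c)
    (h' : HasVal P f c') : c = c' := by
  obtain ⟨hf, h1⟩ := (hasVal_iff_residue P f c).mp h
  obtain ⟨_, h2⟩ := (hasVal_iff_residue P f c').mp h'
  exact (algebraMap K P.ResidueField).injective (h1.symm.trans h2)

theorem hasVal_algebraMap (P : Place K F) (c : K) : HasVal P (algebraMap K F c) c :=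
  Or.inl (sub_self _)

theorem HasVal.add {P : Place K F} {f g : F} {c d : K} (hf : HasVal P f c)
    (hg : HasVal P g d) : HasVal P (f + g) (c + d) := by
  obtain ⟨hf', h1⟩ := (hasVal_iff_residue P f c).mp hf
  obtain ⟨hg', h2⟩ := (hasVal_iff_residue P g d).mp hg
  refine (hasVal_iff_residue P _ _).mpr ⟨add_mem hf' hg', ?_⟩
  have : (⟨f + g, add_mem hf' hg'⟩ : P.toValuationSubring) = ⟨f, hf'⟩ + ⟨g, hg'⟩ := rfl
  rw [this, map_add, h1, h2, map_add]

theorem HasVal.mul {P : Place K F} {f g : F} {c d : K} (hf : HasVal P f c)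
    (hg : HasVal P g d) : HasVal P (f * g) (c * d) := by
  obtain ⟨hf', h1⟩ := (hasVal_iff_residue P f c).mp hf
  obtain ⟨hg', h2⟩ := (hasVal_iff_residue P g d).mp hg
  refine (hasVal_iff_residue P _ _).mpr ⟨mul_mem hf' hg', ?_⟩
  have : (⟨f * g, mul_mem hf' hg'⟩ : P.toValuationSubring) = ⟨f, hf'⟩ * ⟨g, hg'⟩ := rfl
  rw [this, map_mul, h1, h2, map_mul]

theorem HasVal.neg {P : Place K F} {f : F} {c : K} (hf : HasVal P f c) :
    HasVal P (-f) (-c) := by
  have h := (hasVal_algebraMap P (-1 : K)).mul hf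
  simpa using h

theorem HasVal.sub {P : Place K F} {f g : F} {c d : K} (hf : HasVal P f c)
    (hg : HasVal P g d) : HasVal P (f - g) (c - d) := by
  rw [sub_eq_add_neg, sub_eq_add_neg]
  exact hf.add hg.neg

/-- A function with a finite value at `P` which vanishes at `P` has value `0`. -/
theorem hasVal_zero_iff (P : Place K F) (f : F) : HasVal P f 0 ↔ (f = 0 ∨ 0 < P.ord f) := by
  unfold HasVal
  rw [map_zero, sub_zero]

theorem HasVal.ord_nonneg {P : Place K F} {f : F} {c : K} (h : HasVal P f c) :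
    0 ≤ P.ord f :=
  ord_nonneg_of_mem P h.mem

/-- At a place of degree one, every function without pole has a value. -/
theorem exists_hasVal (P : Place K F) (hP : P.deg = 1) {f : F} (hf : 0 ≤ P.ord f) :
    ∃ c : K, HasVal P f c :=
  exists_const_sub P hP hf

/-- Semilinear automorphisms transport values. -/
theorem HasVal.smul (g : SemilinearAut K F) {P : Place K F} {f : F} {c : K}
    (h : HasVal P f c) : HasVal (g • P) (g • f) (SemilinearAut.baseAut g c) := by
  have key : g • (f - algebraMap K F c)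
      = g • f - algebraMap K F (SemilinearAut.baseAut g c) := by
    rw [smul_sub, SemilinearAut.smul_algebraMap]
  unfold HasVal
  rw [← key]
  rcases h with h | h
  · left
    rw [h, smul_zero]
  · right
    rw [SemilinearAut.ord_smul]
    exact h

/-- A nonzero function has finitely many zeros and poles. -/
theorem finite_setOf_ord_ne_zero [HasPrincipalDivisors K F] {f : F} (hf : f ≠ 0) :
    {v : Place K F | v.ord f ≠ 0}.Finite := by
  classical
  obtain ⟨D, hD, -⟩ := HasPrincipalDivisors.exists_divisor (K := K) f hf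
  refine D.support.finite_toSet.subset ?_
  intro v hv
  rw [Finset.mem_coe, Finsupp.mem_support_iff, hD]
  exact hv

end General

end Fermat.Agent.S17.H830

end
end
-- ===== PACK-END S17/H830/NSVal.lean

-- ===== PACK-BEGIN S17/H137/Gen.lean
section




/-!
# S17 / G-DIV: the piece GEN (helper137)

`stmtGEN N L : StmtGEN N L` — generic tuples exist: for a countable subfield `K₀` of an
uncountable algebraically closed field `L ⊇ ℚ` there are `g` places `P₁, …, P_g` of `F_L` at
which `t = j` is finite with values algebraically independent over `K₀`.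
Hypotheses: `[Field L] [Algebra ℚ L] [IsAlgClosed L] [Uncountable L] [FF1 L (FL N L)]`.

Also (reusable by the other G-DIV pieces):

* `hasValue_unique` : a function has at most one value at a place;
* `tval_eq_of_hasValue` : `tval P = c` if `t` has the value `c` at `P`;
* `transcendental_tL`, `finiteDimensional_tL` : `t` is transcendental over `L` and `F_L` is finite
  over `L(t)`;
* `exists_place_hasValue_tL` : every `c ∈ L` is the `t`-value of some place;
* `exists_algebraicIndependent_fin` : arbitrarily long algebraically independent tuples over a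
  countable subfield of an uncountable algebraically closed field.
-/

set_option autoImplicit false

noncomputable section

open AlgebraicCurve ModularCurve IntermediateField

namespace Fermat.Agent.S17.H137

open Fermat.Agent.Lib.RR Fermat.Agent.S17.GDiv Fermat.Agent.S24

section Values

variable {N : ℕ} {L : Type} [Field L] [Algebra ℚ L]

/-- A function has at most one value at a place. -/
theorem hasValue_unique (P : Place L (FL N L)) (f : FL N L) {c c' : L}
    (h : HasValue P f c) (h' : HasValue P f c') : c = c' := by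
  by_contra hne
  have hd : (f - algebraMap L (FL N L) c') - (f - algebraMap L (FL N L) c)
      = algebraMap L (FL N L) (c - c') := by
    rw [map_sub]; ring
  have hd0 : algebraMap L (FL N L) (c - c') ≠ 0 := by
    rw [Ne, map_eq_zero, sub_eq_zero]; exact hne
  have hord : P.ord (algebraMap L (FL N L) (c - c')) = 0 := FF.ord_algebraMap P _
  rcases h with h | h <;> rcases h' with h' | h'
  · rw [h, h', sub_self] at hd
    exact hd0 hd.symm
  · rw [h, sub_zero] at hd
    rw [hd, hord] at h'
    exact lt_irrefl _ h'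
  · rw [h', zero_sub] at hd
    have h2 : P.ord (-(f - algebraMap L (FL N L) c)) = P.ord (f - algebraMap L (FL N L) c) :=
      Fermat.Agent.Lib.RR.ord_neg P _
    rw [← h2, hd, hord] at h
    exact lt_irrefl _ h
  · have hsum : (f - algebraMap L (FL N L) c') + -(f - algebraMap L (FL N L) c) ≠ 0 := by
      rw [← sub_eq_add_neg, hd]; exact hd0
    have h2 : P.ord (-(f - algebraMap L (FL N L) c)) = P.ord (f - algebraMap L (FL N L) c) :=
      Fermat.Agent.Lib.RR.ord_neg P _
    have := FF.ord_add_ge P hsum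
    rw [← sub_eq_add_neg, hd, hord, h2] at this
    have := lt_min h' h
    omega

/-- The `t`-value of a place at which `t` has the value `c`. -/
theorem tval_eq_of_hasValue [NeZero N] (P : Place L (FL N L)) {c : L}
    (h : HasValue P (tL N L) c) : tval P = c := by
  have hex : ∃ c : L, HasValue P (tL N L) c := ⟨c, h⟩
  unfold tval
  rw [dif_pos hex]
  exact hasValue_unique P _ hex.choose_spec h

end Values

section Coordinate

variable (N : ℕ) [NeZero N] (L : Type) [Field L] [Algebra ℚ L]

/-- `t = j` is not a constant. -/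
theorem tL_not_mem_range : tL N L ∉ (algebraMap L (FL N L)).range := by
  rintro ⟨c, hc⟩
  have h1 : (coeffEmb L jq).order < 0 := by
    have h : (coeffEmb L jq).order ≤ -1 :=
      HahnSeries.order_le_of_coeff_ne_zero (by
        rw [coeffEmb_coeff, coeff_jq_neg_one, map_one]; exact one_ne_zero)
    omega
  have h2 : ((tL N L : FL N L) : LaurentSeries L) = coeffEmb L jq := rfl
  have h3 : ((algebraMap L (FL N L) c : FL N L) : LaurentSeries L)
      = algebraMap L (LaurentSeries L) c := rfl
  rw [← hc, h3] at h2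
  rw [← h2] at h1
  have h4 : (algebraMap L (LaurentSeries L) c).order = 0 :=
    Fermat.Agent.S17.H680.order_algebraMap_laurent c
  omega

variable [IsAlgClosed L]

/-- `t = j` is transcendental over `L`. -/
theorem transcendental_tL : Transcendental L (tL N L) :=
  FF.transcendental_of_not_mem_range (tL_not_mem_range N L)

variable [FF1 L (FL N L)]

/-- `F_L` is finite over `L(t)`. -/
theorem finiteDimensional_tL : FiniteDimensional L⟮tL N L⟯ (FL N L) := by
  obtain ⟨x, hx, hfin⟩ := FF1.exists_finite (K := L) (F := FL N L)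
  exact FF.finiteDimensional_adjoin_of_transcendental hx (transcendental_tL N L)

/-- Every `c ∈ L` is the `t`-value of some place. -/
theorem exists_place_hasValue_tL (c : L) : ∃ P : Place L (FL N L), HasValue P (tL N L) c := by
  have : CharZero L := charZero_of_injective_algebraMap (algebraMap ℚ L).injective
  have := finiteDimensional_tL N L
  obtain ⟨P, hP⟩ := H804.exists_place_ord_sub_pos (transcendental_tL N L) c
  exact ⟨P, Or.inr hP⟩

end Coordinate

section AlgInd

open Cardinal

/-- Arbitrarily long algebraically independent tuples over a countable subfield of an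
uncountable algebraically closed field. -/
theorem exists_algebraicIndependent_fin {L : Type} [Field L] [IsAlgClosed L] [Uncountable L]
    (K₀ : Subfield L) (hK₀ : (K₀ : Set L).Countable) (g : ℕ) :
    ∃ τ : Fin g → L, AlgebraicIndependent K₀ τ := by
  obtain ⟨s, hs⟩ := exists_isTranscendenceBasis K₀ L
  have hcard := IsAlgClosed.cardinal_le_max_transcendence_basis' ((↑) : s → L) hs
  have hK : #K₀ ≤ ℵ₀ := by
    have : Countable K₀ := hK₀.to_subtype
    exact Cardinal.mk_le_aleph0
  have hL : ℵ₀ < #L := Cardinal.aleph0_lt_mk_iff.mpr inferInstance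
  have hinf : Infinite s := by
    by_contra hfin
    rw [not_infinite_iff_finite] at hfin
    have hs' : #s ≤ ℵ₀ := (Cardinal.lt_aleph0_of_finite s).le
    have : #L ≤ ℵ₀ := hcard.trans (max_le (max_le hK hs') le_rfl)
    exact absurd hL (not_lt.mpr this)
  let e : Fin g ↪ s := (Fin.valEmbedding).trans (Infinite.natEmbedding s)
  exact ⟨fun i => ((e i : s) : L), hs.1.comp e e.injective⟩

end AlgInd

section Main

variable (N : ℕ) [NeZero N] (L : Type) [Field L] [Algebra ℚ L] [IsAlgClosed L]
  [Uncountable L] [FF1 L (FL N L)]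

/-- **GEN**, exact frozen shape: generic tuples exist. -/
theorem stmtGEN : StmtGEN N L := by
  intro K₀ hK₀
  obtain ⟨τ, hτ⟩ := exists_algebraicIndependent_fin K₀ hK₀ (gL N L)
  choose P hP using fun i => exists_place_hasValue_tL N L (τ i)
  refine ⟨P, fun i => ⟨τ i, hP i⟩, ?_⟩
  have h : (fun i => tval (P i)) = τ := funext fun i => tval_eq_of_hasValue (P i) (hP i)
  rw [h]
  exact hτ

end Main

end Fermat.Agent.S17.H137

end
end
-- ===== PACK-END S17/H137/Gen.lean

-- ===== PACK-BEGIN Ribet/H883/Lattice.lean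
section
/-
RIBET row, piece R3 (helper883), lattice step: the lattice `K` of integral parabolic classes
inside `V = Hom(Γ₀(M), ℂ)` is finitely generated, stable under the Hecke transfers, and the Hecke
transfers commute on it.  Deligne–Serre lifting (landed `S41.H401.ds_general_mem`) then turns a
mod-`p` eigenclass of `K / pK` into a normalized eigenform of level `M`.
-/




set_option autoImplicit false

noncomputable section

namespace Fermat.Agent.Ribet.H883

open CongruenceSubgroup ModularCurve ModularCurve.Period ModularFormClass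
open Fermat.Agent.S29
open scoped MatrixGroups

/-! ### Finite generation -/

/-- `SL(2, ℤ)` is finitely generated. -/
theorem fg_SL2Z_h883 : Group.FG SL(2, ℤ) :=
  Group.fg_iff.mpr ⟨{ModularGroup.S, ModularGroup.T}, SpecialLinearGroup.SL2Z_generators,
    Set.toFinite _⟩

/-- `Γ₀(M)` is finitely generated (Schreier). -/
theorem fg_Gamma0_h883 (M : ℕ) [NeZero M] : Group.FG (Gamma0 M) := by
  have := fg_SL2Z_h883
  exact Subgroup.fg_of_index_ne_zero (Gamma0 M)

/-- `Hom(Γ₀(M), ℤ)` is a finitely generated `ℤ`-module. -/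
theorem finite_homZ (M : ℕ) [NeZero M] : Module.Finite ℤ (Additive (Gamma0 M) →+ ℤ) := by
  obtain ⟨s, hs⟩ := Group.fg_def.mp (fg_Gamma0_h883 M)
  let ev : (Additive (Gamma0 M) →+ ℤ) →ₗ[ℤ] (s → ℤ) :=
    { toFun := fun ψ x => ψ (Additive.ofMul x.1)
      map_add' := fun ψ ψ' => rfl
      map_smul' := fun n ψ => rfl }
  have hinj : Function.Injective ev := by
    intro ψ ψ' h
    have key : ∀ γ ∈ Subgroup.closure (s : Set (Gamma0 M)),
        ψ (Additive.ofMul γ) = ψ' (Additive.ofMul γ) := by
      intro γ hγ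
      induction hγ using Subgroup.closure_induction with
      | mem x hx => exact congrFun h ⟨x, hx⟩
      | one => simp
      | mul x y _ _ hx hy => rw [ofMul_mul, map_add, map_add, hx, hy]
      | inv x _ hx => rw [ofMul_inv, map_neg, map_neg, hx]
    refine AddMonoidHom.ext fun γ => ?_
    exact key (Additive.toMul γ) (by rw [hs]; exact Subgroup.mem_top _)
  exact Module.Finite.of_injective ev hinj

/-! ### The lattice of integral parabolic classes -/

section lattice

variable (M : ℕ)

/-- Integral parabolic classes (in the sense of `S29.IsParHom`). -/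
def parZ : AddSubgroup (Additive (Gamma0 M) →+ ℤ) where
  carrier := {ψ | IsParHom (funOf ψ)}
  zero_mem' := ⟨fun _ _ => by simp [funOf], fun _ _ => rfl, fun _ _ _ _ => rfl⟩
  add_mem' := by
    rintro ψ ψ' ⟨-, h2, h3⟩ ⟨-, h2', h3'⟩
    refine ⟨funOf_map_mul _, fun γ hγ => ?_, fun γ n hn hγ => ?_⟩
    · show ψ (Additive.ofMul γ) + ψ' (Additive.ofMul γ) = 0
      have e1 : ψ (Additive.ofMul γ) = 0 := h2 γ hγ
      have e2 : ψ' (Additive.ofMul γ) = 0 := h2' γ hγ
      rw [e1, e2, add_zero]
    · show ψ (Additive.ofMul γ) + ψ' (Additive.ofMul γ) = 0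
      have e1 : ψ (Additive.ofMul γ) = 0 := h3 γ n hn hγ
      have e2 : ψ' (Additive.ofMul γ) = 0 := h3' γ n hn hγ
      rw [e1, e2, add_zero]
  neg_mem' := by
    rintro ψ ⟨-, h2, h3⟩
    refine ⟨funOf_map_mul _, fun γ hγ => ?_, fun γ n hn hγ => ?_⟩
    · show - ψ (Additive.ofMul γ) = 0
      have e1 : ψ (Additive.ofMul γ) = 0 := h2 γ hγ
      rw [e1, neg_zero]
    · show - ψ (Additive.ofMul γ) = 0
      have e1 : ψ (Additive.ofMul γ) = 0 := h3 γ n hn hγ
      rw [e1, neg_zero]

theorem mem_parZ {ψ : Additive (Gamma0 M) →+ ℤ} : ψ ∈ parZ M ↔ IsParHom (funOf ψ) := Iff.rfl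

/-- Extension of coefficients `Hom(Γ₀(M), ℤ) → Hom(Γ₀(M), ℂ)`. -/
def toC : (Additive (Gamma0 M) →+ ℤ) →+ (Additive (Gamma0 M) →+ ℂ) :=
  AddMonoidHom.compHom (Int.castAddHom ℂ)

@[simp] theorem toC_apply (ψ : Additive (Gamma0 M) →+ ℤ) (γ : Additive (Gamma0 M)) :
    toC M ψ γ = ((ψ γ : ℤ) : ℂ) := rfl

theorem toC_eq_comp (ψ : Additive (Gamma0 M) →+ ℤ) : toC M ψ = (Int.castAddHom ℂ).comp ψ := rfl

theorem toC_injective : Function.Injective (toC M) := by
  intro ψ ψ' h
  refine AddMonoidHom.ext fun γ => ?_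
  have := congrArg (fun φ : Additive (Gamma0 M) →+ ℂ => φ γ) h
  simp only [toC_apply] at this
  exact_mod_cast this

/-- The lattice `K ⊂ Hom(Γ₀(M), ℂ)` of integral parabolic classes. -/
def latK : AddSubgroup (Additive (Gamma0 M) →+ ℂ) := (parZ M).map (toC M)

theorem latK_fg [NeZero M] : (latK M).FG := by
  haveI := finite_homZ M
  have h1 : (AddSubgroup.toIntSubmodule (parZ M)).FG := IsNoetherian.noetherian _
  have h2 : (parZ M).FG := by
    have := (Submodule.fg_iff_addSubgroup_fg _).mp h1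
    simpa using this
  obtain ⟨s, hs⟩ := h2
  classical
  refine ⟨s.image (toC M), ?_⟩
  rw [Finset.coe_image, ← AddMonoidHom.map_closure, hs]
  rfl

theorem latK_le_parabolic {x : Additive (Gamma0 M) →+ ℂ} (hx : x ∈ latK M) :
    x ∈ parabolicHoms ℂ (Gamma0 M) ℂ := by
  obtain ⟨ψ, hψ, rfl⟩ := hx
  rw [mem_parabolicHoms_iff]
  intro γ hγ
  have ht : (G0.mat γ).trace = 2 ∨ (G0.mat γ).trace = -2 := by
    have h4 : ((G0.mat γ).trace - 2) * ((G0.mat γ).trace + 2) = 0 := by
      have : (G0.mat γ).trace ^ 2 = 4 := hγ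
      linear_combination this
    rcases mul_eq_zero.mp h4 with h | h
    · left; linarith
    · right; linarith
  have e : ψ (Additive.ofMul γ) = 0 := (mem_parZ M).mp hψ |>.parabolic γ ht
  rw [toC_apply, e, Int.cast_zero]

end lattice

/-! ### Hecke operators on `V` -/

section hecke

variable (M : ℕ)

/-- The index set: primes not dividing `M`. -/
abbrev GoodPrime : Type := {l : ℕ // l.Prime ∧ ¬ l ∣ M}

variable {M}

/-- `T_l` on `Hom(Γ₀(M), A)` for `l : GoodPrime M`. -/
def tOp {A : Type*} [AddCommGroup A] (i : GoodPrime M) (φ : Additive (Gamma0 M) →+ A) :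
    Additive (Gamma0 M) →+ A :=
  haveI : Fact i.1.Prime := ⟨i.2.1⟩
  H642.heckeTransfer i.2.2 φ

theorem tOp_eq {A : Type*} [AddCommGroup A] {l : ℕ} [Fact l.Prime] (hl : l.Prime) (hlM : ¬ l ∣ M)
    (φ : Additive (Gamma0 M) →+ A) :
    tOp (⟨l, hl, hlM⟩ : GoodPrime M) φ = H642.heckeTransfer hlM φ := rfl

/-- `T_l` as a `ℂ`-linear endomorphism of `V`. -/
def tEnd (i : GoodPrime M) : Module.End ℂ (Additive (Gamma0 M) →+ ℂ) :=
  haveI : Fact i.1.Prime := ⟨i.2.1⟩
  { toFun := fun φ => tOp i φ
    map_add' := fun φ ψ => H642.heckeTransfer_add i.2.2 φ ψ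
    map_smul' := fun c φ => heckeTransfer_smul i.2.2 c φ }

@[simp] theorem tEnd_apply (i : GoodPrime M) (φ : Additive (Gamma0 M) →+ ℂ) :
    tEnd i φ = tOp i φ := rfl

theorem tOp_comp {A B : Type*} [AddCommGroup A] [AddCommGroup B] (i : GoodPrime M) (π : A →+ B)
    (φ : Additive (Gamma0 M) →+ A) : tOp i (π.comp φ) = π.comp (tOp i φ) :=
  haveI : Fact i.1.Prime := ⟨i.2.1⟩
  H642.heckeTransfer_comp i.2.2 π φ

theorem funOf_tOp {A : Type*} [AddCommGroup A] (i : GoodPrime M)
    (φ : Additive (Gamma0 M) →+ A) : funOf (tOp i φ) = heckeCoh M i.1 (funOf φ) :=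
  haveI : Fact i.1.Prime := ⟨i.2.1⟩
  funOf_heckeTransfer i.2.2 φ

theorem tOp_mem_parZ (i : GoodPrime M) {ψ : Additive (Gamma0 M) →+ ℤ} (hψ : ψ ∈ parZ M) :
    tOp i ψ ∈ parZ M := by
  rw [mem_parZ, funOf_tOp]
  exact H149.isParHom_heckeCoh i.2.1 i.2.2 ((mem_parZ M).mp hψ)

theorem tEnd_toC (i : GoodPrime M) (ψ : Additive (Gamma0 M) →+ ℤ) :
    tEnd i (toC M ψ) = toC M (tOp i ψ) := by
  rw [tEnd_apply, toC_eq_comp, toC_eq_comp, tOp_comp]

theorem tEnd_mem_latK (i : GoodPrime M) {x : Additive (Gamma0 M) →+ ℂ} (hx : x ∈ latK M) :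
    tEnd i x ∈ latK M := by
  obtain ⟨ψ, hψ, rfl⟩ := hx
  exact ⟨tOp i ψ, tOp_mem_parZ i hψ, (tEnd_toC i ψ).symm⟩

variable [NeZero M]

theorem tEnd_periodHomPair (i : GoodPrime M) (f₁ f₂ : CuspForm (Gamma0 M) 2) :
    tEnd i (periodHomPair M (f₁, f₂)) =
      periodHomPair M (CuspForm.heckeTLin 2 i.2.1 i.2.2 f₁, CuspForm.heckeTLin 2 i.2.1 i.2.2 f₂) :=
  haveI : Fact i.1.Prime := ⟨i.2.1⟩
  heckeTransfer_periodHomPair i.2.1 i.2.2 f₁ f₂

/-- The Hecke transfers commute on parabolic classes (via Eichler–Shimura). -/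
theorem tEnd_comm_of_parabolic (i j : GoodPrime M) {x : Additive (Gamma0 M) →+ ℂ}
    (hx : x ∈ parabolicHoms ℂ (Gamma0 M) ℂ) : tEnd i (tEnd j x) = tEnd j (tEnd i x) := by
  obtain ⟨-, hrange⟩ := Fermat.Agent.S21.main M
  have hxr : x ∈ LinearMap.range (periodHomPair M) := by rw [hrange]; exact hx
  obtain ⟨⟨f₁, f₂⟩, rfl⟩ := hxr
  rw [tEnd_periodHomPair, tEnd_periodHomPair, tEnd_periodHomPair, tEnd_periodHomPair]
  have hc := (CuspForm.heckeTLin_comm (N := M) 2 i.2.1 i.2.2 j.2.1 j.2.2).eq
  have h1 := congrArg (fun T : Module.End ℂ (CuspForm (Gamma0 M) 2) => T f₁) hc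
  have h2 := congrArg (fun T : Module.End ℂ (CuspForm (Gamma0 M) 2) => T f₂) hc
  simp only [Module.End.mul_apply] at h1 h2
  rw [h1, h2]

end hecke

/-! ### Deligne–Serre on the lattice -/

section ds

variable {M : ℕ} [NeZero M]

/-- **Lattice step of R3.**  An integral parabolic class `y ∉ pK` which is an eigenvector mod `pK`
of the `T_l` (`l ∤ M`, `l ∉ S`) with eigenvalues `a l` yields a normalized eigenform of level `M`
whose `l`-th coefficients are congruent to `a l` modulo a maximal ideal over `p`. -/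
theorem exists_eigenform_of_lattice_class (p : ℕ) (S : Set ℕ) (a : ℕ → ℤ)
    (y : Additive (Gamma0 M) →+ ℂ) (hy : y ∈ latK M) (hyp : ∀ z ∈ latK M, y ≠ p • z)
    (heig : ∀ i : GoodPrime M, i.1 ∉ S → ∃ z ∈ latK M, tEnd i y - a i.1 • y = p • z) :
    ∃ (g : CuspForm (Gamma0 M) 2) (𝔪 : Ideal (integralClosure ℤ ℂ)),
      g.IsNormalizedEigenform ∧ 𝔪.IsMaximal ∧ (p : integralClosure ℤ ℂ) ∈ 𝔪 ∧
      ∀ l : ℕ, l.Prime → ¬ l ∣ M → l ∉ S →
        ∃ b : integralClosure ℤ ℂ, (b : ℂ) = qCoeff g l ∧
          b - ((a l : ℤ) : integralClosure ℤ ℂ) ∈ 𝔪 := by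
  obtain ⟨v, b, 𝔪, hv0, hvU, hvb, h𝔪, hp𝔪, hcong⟩ :=
    Fermat.Agent.S41.H401.ds_general_mem (tEnd (M := M)) (latK M) (latK_fg M)
      (fun i x hx => tEnd_mem_latK i hx)
      (fun i j x hx => tEnd_comm_of_parabolic i j (latK_le_parabolic M hx))
      p {i | i.1 ∉ S} (fun i => a i.1) y hy hyp (fun i hi => heig i hi)
      (parabolicHoms ℂ (Gamma0 M) ℂ) (fun x hx => latK_le_parabolic M hx)
  classical
  let b' : ℕ → ℂ := fun l => if h : l.Prime ∧ ¬ l ∣ M then ((b ⟨l, h⟩ : integralClosure ℤ ℂ) : ℂ) else 0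
  obtain ⟨g, hg, hgb⟩ := exists_eigenform_of_parabolic_eigen (M := M) ∅ b' v hvU hv0
    (fun l _ hl _ => by
      have hlp : l.Prime := Fact.out
      have h := hvb ⟨l, hlp, hl⟩
      rw [tEnd_apply, tOp_eq hlp hl] at h
      rw [h]
      simp only [b', dif_pos (And.intro hlp hl)])
  refine ⟨g, 𝔪, hg, h𝔪, hp𝔪, fun l hl hlM hlS => ⟨b ⟨l, hl, hlM⟩, ?_, hcong ⟨l, hl, hlM⟩ hlS⟩⟩
  rw [hgb l hl hlM (Set.notMem_empty l)]
  simp only [b', dif_pos (And.intro hl hlM)]

end ds

end Fermat.Agent.Ribet.H883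

end
end
-- ===== PACK-END Ribet/H883/Lattice.lean

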