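import Fermat.Prelude.Def_GaloisRep_LocalConditions
import Fermat.Agent.Pack.S59C.E7L1
import Fermat.Agent.Pack.S59C.E7L3
import Fermat.Agent.Pack.S43GC.G0E19L2
import Fermat.Agent.Pack.S43GC.G0E7L1
import Fermat.Agent.Pack.S43C.E1L3
import Fermat.Agent.Pack.S44C.G0E14L2
import Fermat.Agent.Pack.S43GC.G0E9L3
import Fermat.Agent.Pack.S43C.E0L3
import Fermat.Agent.Pack.S43C.E0L0
import Fermat.Agent.Pack.S59C.E1L1
import Fermat.Agent.Pack.S43C.E1L1
import Fermat.Agent.Pack.S59C.E1L0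
import Fermat.Agent.Pack.S59C.E0L0
import Fermat.Agent.Pack.S59C.E7L2
import Fermat.Agent.Pack.S43MC.G0E19L2
import Fermat.Agent.Pack.S43MC.G0E22L1
import Fermat.Agent.Pack.S43MC.G0E17L3
import Fermat.Agent.Pack.S44C.G0E25L0
import Fermat.Agent.Pack.S44C.G0E15L0
import Fermat.Agent.Pack.S59C.E7L0

set_option linter.all false

-- ===== PACK-BEGIN S59/H127/FlatAsm.lean
section





/-!
# Row S59, layer E — CR-FLAT assembly and `Arch.CurveRepStatement`

* `levelToTor` : the Galois-equivariant additive embedding `T_p E ⧸ p^k T_p E ↪ E[p^k]`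
  (`T_p E = tateGaloisRep`, via `Φ`);
* `flatLevel_tate_of_hopfModel` : a Hopf model of `E[p^k]` gives `FlatLevel` of the Tate module at
  the ideal `(p^k)`;
* `isFlatAt_tate_baseChange` : flatness of every base change of the Tate module, from Hopf models of
  all `E[p^k]`;
* `flatFinalInput : FlatFinalInput` (Hopf models: `H382.hopfModel_torsion_pow`, closure:
  `H659.hopfSubquot_closed`, `hopfProd_closed`, ascent: `H779.FlatLevel.baseChange`);
* **`curveRepStatement : Arch.CurveRepStatement`**.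
-/

set_option autoImplicit false

open PadicInt WeierstrassCurve WeierstrassCurve.Affine
open scoped WeierstrassCurve.Affine

namespace Fermat.Agent.S59.H127

open Fermat.Agent.S59.H779 (Lev FlatLevel HopfSubquotSpec HopfProdSpec)
open Fermat.Agent.S19 (HopfModel)

section level

variable (W' : WeierstrassCurve.Affine ℚ) [hE : (W'⁄(AlgebraicClosure ℚ)).IsElliptic]
variable {p : ℕ} [hp : Fact p.Prime] (cb : CompatBasis (W'⁄(AlgebraicClosure ℚ)).Point p 2)
variable (k : ℕ)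

/-- the projection `T_p E → E[p^k]` in coordinates -/
noncomputable def tateToLevel : (Fin 2 → ℤ_[p]) →+
    Submodule.torsionBy ℤ (W'⁄(AlgebraicClosure ℚ)).Point ((p ^ k : ℕ) : ℤ) where
  toFun a := ⟨cb.Φ a k, mem_torsionBy_natCast_iff.mpr (cb.Φ_torsion a k)⟩
  map_zero' := Subtype.ext (cb.Φ_zero_left k)
  map_add' a b := Subtype.ext (cb.Φ_add a b k)

omit hE in
lemma coe_tateToLevel (a : Fin 2 → ℤ_[p]) :
    ((tateToLevel W' cb k a : Submodule.torsionBy ℤ (W'⁄(AlgebraicClosure ℚ)).Point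
      ((p ^ k : ℕ) : ℤ)) : (W'⁄(AlgebraicClosure ℚ)).Point) = cb.Φ a k := rfl

omit hE in
lemma tateToLevel_eq_zero_iff (a : Fin 2 → ℤ_[p]) :
    tateToLevel W' cb k a = 0 ↔
      a ∈ (Ideal.span {(p : ℤ_[p]) ^ k}) • (⊤ : Submodule ℤ_[p] (Fin 2 → ℤ_[p])) := by
  rw [Fermat.Agent.S53.mem_smul_top_pi_iff, ← cb.Φ_eq_zero_iff a k]
  constructor
  · intro h
    exact congrArg Subtype.val h
  · intro h
    exact Subtype.ext h

/-- the embedding `T_p E ⧸ p^k T_p E ↪ E[p^k]` -/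
noncomputable def levelToTor :
    Lev (tateGaloisRep W' cb) (Ideal.span {(p : ℤ_[p]) ^ k}) →+
      Submodule.torsionBy ℤ (W'⁄(AlgebraicClosure ℚ)).Point ((p ^ k : ℕ) : ℤ) :=
  QuotientAddGroup.lift
    ((Ideal.span {(p : ℤ_[p]) ^ k}) • (⊤ : Submodule ℤ_[p] (Fin 2 → ℤ_[p]))).toAddSubgroup
    (tateToLevel W' cb k)
    (fun a ha => (tateToLevel_eq_zero_iff W' cb k a).mpr ha)

lemma levelToTor_mk (a : (tateGaloisRep W' cb).V) :
    levelToTor W' cb k
      (Submodule.Quotient.mk a : Lev (tateGaloisRep W' cb) (Ideal.span {(p : ℤ_[p]) ^ k}))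
        = tateToLevel W' cb k a := rfl

lemma levelToTor_injective : Function.Injective (levelToTor W' cb k) := by
  intro x y hxy
  obtain ⟨a, rfl⟩ := Submodule.Quotient.mk_surjective _ x
  obtain ⟨b, rfl⟩ := Submodule.Quotient.mk_surjective _ y
  let a' : Fin 2 → ℤ_[p] := a
  let b' : Fin 2 → ℤ_[p] := b
  have h1 : tateToLevel W' cb k a' = tateToLevel W' cb k b' := hxy
  have h2 : tateToLevel W' cb k (a' - b') = 0 := by rw [map_sub, h1, sub_self]
  have h3 := (tateToLevel_eq_zero_iff W' cb k (a' - b')).mp h2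
  exact (Submodule.Quotient.eq _).mpr h3

lemma levelToTor_levelAction (σ : GQ)
    (x : Lev (tateGaloisRep W' cb) (Ideal.span {(p : ℤ_[p]) ^ k})) :
    levelToTor W' cb k ((tateGaloisRep W' cb).levelAction (Ideal.span {(p : ℤ_[p]) ^ k}) σ x)
      = σ • levelToTor W' cb k x := by
  obtain ⟨a, rfl⟩ := Submodule.Quotient.mk_surjective _ x
  have h1 : (tateGaloisRep W' cb).levelAction (Ideal.span {(p : ℤ_[p]) ^ k}) σ
      (Submodule.Quotient.mk a) = Submodule.Quotient.mk ((tateGaloisRep W' cb).ρ σ a) := rfl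
  rw [h1]
  let a' : Fin 2 → ℤ_[p] := a
  show tateToLevel W' cb k ((tateGaloisRep W' cb).ρ σ a') = σ • tateToLevel W' cb k a'
  apply Subtype.ext
  exact Φ_tateGaloisRep W' cb σ a' k

variable {k}

/-- a Hopf model of `E[p^k]` gives flatness of the Tate module at the level `(p^k)` -/
theorem flatLevel_tate_of_hopfModel (hSub : HopfSubquotSpec p)
    (h : HopfModel p (Submodule.torsionBy ℤ (W'⁄(AlgebraicClosure ℚ)).Point ((p ^ k : ℕ) : ℤ))
      (fun σ m => σ • m)) :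
    FlatLevel p (tateGaloisRep W' cb) (Ideal.span {(p : ℤ_[p]) ^ k}) :=
  Fermat.Agent.S59.H779.HopfModel.sub hSub (levelToTor W' cb k) (levelToTor_injective W' cb k)
    (fun σ x => levelToTor_levelAction W' cb k σ x) h

/-- flatness of the Tate module at every ideal of finite index -/
theorem flatLevel_tate (hSub : HopfSubquotSpec p)
    (h : ∀ k : ℕ, HopfModel p
      (Submodule.torsionBy ℤ (W'⁄(AlgebraicClosure ℚ)).Point ((p ^ k : ℕ) : ℤ))
      (fun σ m => σ • m))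
    (I : Ideal ℤ_[p]) (hI : Finite (ℤ_[p] ⧸ I)) : FlatLevel p (tateGaloisRep W' cb) I := by
  have hI0 : I ≠ ⊥ := by
    rintro rfl
    have e : ℤ_[p] ≃ ℤ_[p] ⧸ (⊥ : Ideal ℤ_[p]) := (RingEquiv.quotientBot ℤ_[p]).symm.toEquiv
    have hfin : Finite ℤ_[p] := Finite.of_equiv _ e.symm
    exact not_finite ℤ_[p]
  obtain ⟨n, rfl⟩ := PadicInt.ideal_eq_span_pow_p hI0
  exact flatLevel_tate_of_hopfModel W' cb hSub (h n)

/-- **flatness of every base change of the Tate module**, from Hopf models of all `E[p^k]` -/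
theorem isFlatAt_tate_baseChange (hSub : HopfSubquotSpec p) (hProd : HopfProdSpec p)
    (h : ∀ k : ℕ, HopfModel p
      (Submodule.torsionBy ℤ (W'⁄(AlgebraicClosure ℚ)).Point ((p ^ k : ℕ) : ℤ))
      (fun σ m => σ • m))
    {B : Type} [CommRing B] [IsLocalRing B] [Finite (IsLocalRing.ResidueField B)]
    (φ : ℤ_[p] →+* B) (hφ : IsLocalHom φ) :
    ((tateGaloisRep W' cb).baseChangeAlong φ hφ).IsFlatAt p := by
  refine ⟨inferInstance, fun J hJ => ?_⟩
  have hfin : Finite (ℤ_[p] ⧸ J.comap φ) :=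
    Finite.of_injective (Ideal.quotientMap J φ le_rfl)
      (Ideal.quotientMap_injective' le_rfl)
  exact Fermat.Agent.S59.H779.FlatLevel.baseChange hSub hProd φ hφ
    (flatLevel_tate W' cb hSub h (J.comap φ) hfin)

end level

/-- **CR-FLAT, final form.** -/
theorem flatFinalInput : FlatFinalInput := by
  intro p hp hp2 W hΔ hW _ hgood hE cb 𝒪 _ _ _ _ _ _ φ hφ
  exact isFlatAt_tate_baseChange (WQ W) cb (Fermat.Agent.S59.H659.hopfSubquot_closed p)
    (Fermat.Agent.S59.H659.hopfProd_closed p)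
    (fun k => Fermat.Agent.S59.H382.hopfModel_torsion_pow W p hp2 hgood k) φ hφ

/-- **Layer E of S59: the Tate module of a semistable curve with all its local properties,
over every complete DVR `𝒪`.** -/
theorem curveRepStatement : Fermat.Agent.S59.Arch.CurveRepStatement :=
  curveRepStatement_of_flat flatFinalInput

end Fermat.Agent.S59.H127

end
-- ===== PACK-END S59/H127/FlatAsm.lean

-- ===== PACK-BEGIN S38/H419/TypeGal.lean
section
/-
Row 37 HARD (Ihara avoidance), leaf GAL, item (D) "TYPE clause": Galois input.   (helper419)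

`R` a Noetherian local ring, `ρ : GaloisRepAdic R` with cyclotomic determinant, `(φ, σ)` a tame
pair (helper1, `LocGenSpec`) at a place `P | q`, `q ≠ p`, `ρ` residually unramified at `P`
(`ResUnramAt`), `bas` a basis of `ρ.V`.  With `Σ = [ρ σ]`, `Φ = [ρ φ]` (matrices in `bas`):

* `det_eq_natCast_h419`, `det_inertia_h419`, `det_frobenius_h419` : `det ρ(ι) = 1` on inertia,
  `det ρ(φ) = q`;
* `toMatrix_tame_rel_h419` : `Φ Σ = Σ^q Φ`;
* `toMatrix_sub_one_mem_h419` : `Σ ≡ 1` modulo the maximal ideal;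
* `isUnipotentOnInertiaAt_of_trace_h419` : for a local homomorphism `y : R → 𝒪'` to a Noetherian
  local ring, if `y (tr ρ σ) = 2` then `ρ ⊗_y 𝒪'` is unipotent on inertia at `q` (at EVERY place
  over `q`);
* `resUnramAt_of_residual_h419` : `ResUnramAt` from the triviality of the residual
  representation on inertia.

All proofs complete.
-/






set_option autoImplicit false
set_option linter.style.haveILetI false
set_option linter.unusedSectionVars false

open Polynomial IsLocalRing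
open scoped TensorProduct

namespace Fermat.Agent.S38.H419

open Fermat.Agent.S56 Fermat.Agent.S38.IA.Gal

/-! ### Generalities -/

section Gen

variable {R : Type*} [CommRing R]

/-- Krull's intersection theorem, elementwise. -/
theorem eq_zero_of_forall_mem_pow_h419 [IsLocalRing R] [IsNoetherianRing R] {x : R}
    (h : ∀ n : ℕ, x ∈ maximalIdeal R ^ n) : x = 0 := by
  have h1 : x ∈ ⨅ i : ℕ, maximalIdeal R ^ i := by
    rw [Ideal.mem_iInf]
    exact h
  rw [Ideal.iInf_pow_eq_bot_of_isLocalRing (maximalIdeal R)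
    (Ideal.IsPrime.ne_top inferInstance)] at h1
  exact (Ideal.mem_bot).mp h1

variable {M : Type*} [AddCommGroup M] [Module R M] {ι : Type*}

/-- The coordinates of an element of `I • M` lie in `I`. -/
theorem repr_mem_of_mem_smul_top_h419 (bas : Module.Basis ι R M) (I : Ideal R) {x : M}
    (hx : x ∈ I • (⊤ : Submodule R M)) (i : ι) : bas.repr x i ∈ I := by
  refine Submodule.smul_induction_on (p := fun x => bas.repr x i ∈ I) hx ?_ ?_
  · intro a ha m _
    rw [map_smul, Finsupp.smul_apply, smul_eq_mul]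
    exact I.mul_mem_right _ ha
  · intro x y hx hy
    rw [map_add, Finsupp.add_apply]
    exact I.add_mem hx hy

variable [Fintype ι] [DecidableEq ι]

/-- Congruent endomorphisms have congruent matrices. -/
theorem toMatrix_sub_mem_h419 (bas : Module.Basis ι R M) (I : Ideal R) (f g : Module.End R M)
    (h : ∀ v : M, f v - g v ∈ I • (⊤ : Submodule R M)) (i j : ι) :
    (LinearMap.toMatrix bas bas f - LinearMap.toMatrix bas bas g) i j ∈ I := by
  rw [Matrix.sub_apply, LinearMap.toMatrix_apply, LinearMap.toMatrix_apply, ← Finsupp.sub_apply,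
    ← map_sub]
  exact repr_mem_of_mem_smul_top_h419 bas I (h (bas j)) i

theorem toMatrix_pow_h419 (bas : Module.Basis ι R M) (f : Module.End R M) (n : ℕ) :
    LinearMap.toMatrix bas bas (f ^ n) = LinearMap.toMatrix bas bas f ^ n := by
  induction n with
  | zero => rw [pow_zero, pow_zero, Module.End.one_eq_id, LinearMap.toMatrix_id]
  | succ n ih => rw [pow_succ, pow_succ, LinearMap.toMatrix_mul, ih]

end Gen

/-! ### Determinants -/

section Det

variable {R : Type} [CommRing R] [IsLocalRing R] [IsNoetherianRing R]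

/-- The determinant of a representation with cyclotomic determinant, at an element acting on
all `p`-power roots of unity by `μ ↦ μ ^ a`. -/
theorem det_eq_natCast_h419 (ρ : GaloisRepAdic R) {p : ℕ} (hdet : ρ.DetIsCyclotomic p)
    (τ : GQ) (a : ℕ) (h : ∀ (n : ℕ) (μ : Qb), μ ^ p ^ n = 1 → τ μ = μ ^ a) :
    LinearMap.det (ρ.ρ τ) = (a : R) := by
  have hp := hdet.1
  have h1 : ∀ n, LinearMap.det (ρ.ρ τ) - (a : R) ∈ maximalIdeal R ^ n := by
    intro n
    have h2 := hdet.2 n τ a (h n)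
    have h3 : Ideal.span {((p ^ n : ℕ) : R)} ≤ maximalIdeal R ^ n := by
      rw [Ideal.span_singleton_le_iff_mem, Nat.cast_pow]
      exact Ideal.pow_mem_pow hp n
    exact h3 h2
  exact sub_eq_zero.mp (eq_zero_of_forall_mem_pow_h419 h1)

theorem det_inertia_h419 (ρ : GaloisRepAdic R) {p : ℕ} [Fact p.Prime]
    (hdet : ρ.DetIsCyclotomic p) {q : ℕ} (hq : q.Prime) (hqp : q ≠ p)
    {P : ValuationSubring Qb} (hP : P.LiesOverPrime q)
    {τ : GQ} (hτ : τ ∈ P.inertiaSubgroupIn ℚ) : LinearMap.det (ρ.ρ τ) = 1 := by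
  have h := det_eq_natCast_h419 ρ hdet τ 1 (fun n μ hμ => by
    rw [pow_one]
    exact Fermat.Agent.S30.H870.inertia_root_eq p hq hqp P hP τ hτ hμ)
  rwa [Nat.cast_one] at h

theorem det_frobenius_h419 (ρ : GaloisRepAdic R) {p : ℕ} [Fact p.Prime]
    (hdet : ρ.DetIsCyclotomic p) {q : ℕ} (hq : q.Prime) (hqp : q ≠ p)
    {P : ValuationSubring Qb} (hP : P.LiesOverPrime q)
    {φ : GQ} (hφ : P.IsFrobeniusAt φ q) : LinearMap.det (ρ.ρ φ) = (q : R) :=
  det_eq_natCast_h419 ρ hdet φ q (fun _ _ hμ =>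
    Fermat.Agent.S30.H870.frob_root_pow_eq p hq hqp P hP φ hφ hμ)

end Det

/-! ### The tame relation and the congruence, in matrix form -/

section Tame

variable {R : Type} [CommRing R] [IsLocalRing R] [IsNoetherianRing R]
  {p q : ℕ} {P : ValuationSubring Qb} {φ σ : GQ}

/-- **The tame relation** `Φ Σ = Σ^q Φ` for the matrices of `ρ φ`, `ρ σ`. -/
theorem toMatrix_tame_rel_h419 (ρ : GaloisRepAdic R) (bas : Module.Basis (Fin 2) R ρ.V)
    (h : IsTamePair p q P φ σ) (hp : p.Prime) (hq : q.Prime) (hpq : p ≠ q)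
    (hP : P.LiesOverPrime q) (hpR : (p : R) ∈ maximalIdeal R) (hres : ResUnramAt P ρ.ρ) :
    LinearMap.toMatrix bas bas (ρ.ρ φ) * LinearMap.toMatrix bas bas (ρ.ρ σ) =
      LinearMap.toMatrix bas bas (ρ.ρ σ) ^ q * LinearMap.toMatrix bas bas (ρ.ρ φ) := by
  have h1 := adic_rel h hp hq hpq hP hpR ρ.isAdicContinuous hres separated_of_noetherian
  have h2 : ρ.ρ φ * ρ.ρ σ = ρ.ρ σ ^ q * ρ.ρ φ := by
    rw [← h1, ← map_mul, ← map_mul]
    congr 1
    group
  rw [← LinearMap.toMatrix_mul, h2, LinearMap.toMatrix_mul, toMatrix_pow_h419]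

/-- `Σ ≡ 1` modulo the maximal ideal, for `ρ` residually unramified at `P`. -/
theorem toMatrix_sub_one_mem_h419 (ρ : GaloisRepAdic R) (bas : Module.Basis (Fin 2) R ρ.V)
    (hres : ResUnramAt P ρ.ρ) {ι : GQ} (hι : ι ∈ P.inertiaSubgroupIn ℚ) (i j : Fin 2) :
    (LinearMap.toMatrix bas bas (ρ.ρ ι) - 1) i j ∈ maximalIdeal R := by
  have h1 := toMatrix_sub_mem_h419 bas (maximalIdeal R) (ρ.ρ ι) 1 (fun v => by
    rw [Module.End.one_apply]
    exact hres ι hι v) i j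
  rwa [Module.End.one_eq_id, LinearMap.toMatrix_id] at h1

end Tame

/-! ### Unipotency from the trace of the tame generator -/

section Unip

variable {R : Type} [CommRing R] [IsLocalRing R] [IsNoetherianRing R]
  {B : Type} [CommRing B] [IsLocalRing B] [IsNoetherianRing B]
  {p q : ℕ} {P : ValuationSubring Qb} {φ σ : GQ}

omit [IsNoetherianRing R] [IsNoetherianRing B] in
theorem map_mem_pow_h419 (y : R →+* B) (hy : IsLocalHom y) (n : ℕ) {a : R}
    (ha : a ∈ maximalIdeal R ^ n) : y a ∈ maximalIdeal B ^ n := by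
  have hmap : (maximalIdeal R ^ n).map y ≤ maximalIdeal B ^ n := by
    rw [Ideal.map_pow]
    exact Ideal.pow_right_mono (Ideal.map_le_iff_le_comap.mpr fun a ha =>
      Ideal.mem_comap.mpr (haveI := hy; map_nonunit y a ha)) n
  exact hmap (Ideal.mem_map_of_mem y ha)

/-- If `y (tr ρ σ) = 2` for the tame generator `σ`, then `y (tr ρ ι) = 2` for all `ι ∈ I_P`. -/
theorem map_trace_inertia_h419 (ρ : GaloisRepAdic R) [Fact p.Prime]
    (hdet : ρ.DetIsCyclotomic p) (h : IsTamePair p q P φ σ) (hq : q.Prime) (hpq : p ≠ q)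
    (hP : P.LiesOverPrime q) (hres : ResUnramAt P ρ.ρ) (y : R →+* B) (hy : IsLocalHom y)
    (htr : y (LinearMap.trace R ρ.V (ρ.ρ σ)) = 2) {ι : GQ} (hι : ι ∈ P.inertiaSubgroupIn ℚ) :
    y (LinearMap.trace R ρ.V (ρ.ρ ι)) = 2 := by
  have hp : p.Prime := Fact.out
  let bas : Module.Basis (Fin 2) R ρ.V := Module.finBasisOfFinrankEq R ρ.V ρ.finrank_eq
  set Sg : Matrix (Fin 2) (Fin 2) R := LinearMap.toMatrix bas bas (ρ.ρ σ) with hSg
  have hdetS : Sg.det = 1 := by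
    rw [hSg, LinearMap.det_toMatrix]
    exact det_inertia_h419 ρ hdet hq hpq.symm hP h.mem
  have htrS : Sg.trace = LinearMap.trace R ρ.V (ρ.ρ σ) :=
    (LinearMap.trace_eq_matrix_trace R bas (ρ.ρ σ)).symm
  -- the image of `Σ`
  have hdetY : (y.mapMatrix Sg).det = 1 := by
    rw [← RingHom.map_det, hdetS, map_one]
  have htrace_map : ∀ M : Matrix (Fin 2) (Fin 2) R, (y.mapMatrix M).trace = y M.trace := by
    intro M
    rw [Matrix.trace_fin_two, Matrix.trace_fin_two, map_add]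
    rfl
  have htrY : (1 : B) + 1 = (y.mapMatrix Sg).trace := by
    rw [htrace_map, htrS, htr]
    norm_num
  have hpowY : ∀ j : ℕ, y ((Sg ^ j).trace) = 2 := by
    intro j
    rw [← htrace_map, map_pow,
      Fermat.Agent.S38.IA.H474.trace_pow_eq (y.mapMatrix Sg) hdetY 1 1 htrY (one_mul 1) j,
      one_pow]
    norm_num
  -- congruences
  have hcong : ∀ n : ℕ, y (LinearMap.trace R ρ.V (ρ.ρ ι)) - 2 ∈ maximalIdeal B ^ n := by
    intro n
    obtain ⟨j, hj⟩ := adic_inertia_mod h hp hq hpq hP hdet.1 ρ.isAdicContinuous hres n hι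
    have h1 := toMatrix_sub_mem_h419 bas (maximalIdeal R ^ n) (ρ.ρ ι) (ρ.ρ σ ^ j) hj
    rw [toMatrix_pow_h419] at h1
    have h2 : LinearMap.trace R ρ.V (ρ.ρ ι) - (Sg ^ j).trace ∈ maximalIdeal R ^ n := by
      rw [LinearMap.trace_eq_matrix_trace R bas (ρ.ρ ι), Matrix.trace_fin_two,
        Matrix.trace_fin_two]
      have e : LinearMap.toMatrix bas bas (ρ.ρ ι) 0 0 + LinearMap.toMatrix bas bas (ρ.ρ ι) 1 1 -
          ((Sg ^ j) 0 0 + (Sg ^ j) 1 1) =
          (LinearMap.toMatrix bas bas (ρ.ρ ι) - Sg ^ j) 0 0 +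
            (LinearMap.toMatrix bas bas (ρ.ρ ι) - Sg ^ j) 1 1 := by
        rw [Matrix.sub_apply, Matrix.sub_apply]
        ring
      rw [e]
      exact Ideal.add_mem _ (h1 0 0) (h1 1 1)
    have h3 := map_mem_pow_h419 y hy n h2
    rwa [map_sub, hpowY j] at h3
  exact sub_eq_zero.mp (eq_zero_of_forall_mem_pow_h419 hcong)

/-- **Unipotency.**  If `y (tr ρ σ) = 2` for the tame generator `σ` at ONE place `P | q`, then
the base change of `ρ` along `y` is unipotent on inertia at `q`. -/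
theorem isUnipotentOnInertiaAt_of_trace_h419 (ρ : GaloisRepAdic R) [Fact p.Prime]
    (hdet : ρ.DetIsCyclotomic p) (h : IsTamePair p q P φ σ) (hq : q.Prime) (hpq : p ≠ q)
    (hP : P.LiesOverPrime q) (hres : ResUnramAt P ρ.ρ) (y : R →+* B) (hy : IsLocalHom y)
    (htr : y (LinearMap.trace R ρ.V (ρ.ρ σ)) = 2) :
    (ρ.baseChangeAlong y hy).IsUnipotentOnInertiaAt q := by
  intro P' hP' ι' hι'
  obtain ⟨g, ι, hι, hconj⟩ :=
    Fermat.Agent.Lib.Cheb.H476.exists_conj_of_mem_inertia hq hP hP' hι'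
  have hdet' : LinearMap.det (ρ.ρ ι') = 1 := det_inertia_h419 ρ hdet hq hpq.symm hP' hι'
  have htr' : y (LinearMap.trace R ρ.V (ρ.ρ ι')) = 2 := by
    have e : LinearMap.trace R ρ.V (ρ.ρ ι') = LinearMap.trace R ρ.V (ρ.ρ ι) := by
      have e0 : ρ.ρ (g * ι * g⁻¹) = ρ.ρ g * ρ.ρ ι * ρ.ρ g⁻¹ := by
        rw [MonoidHom.map_mul, MonoidHom.map_mul]
      rw [hconj, e0, LinearMap.trace_mul_comm, ← mul_assoc, ← MonoidHom.map_mul, inv_mul_cancel,
        MonoidHom.map_one, one_mul]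
    rw [e]
    exact map_trace_inertia_h419 ρ hdet h hq hpq hP hres y hy htr hι
  letI : Algebra R B := y.toAlgebra
  show LinearMap.charpoly ((ρ.ρ ι').baseChange B) = (X - 1) ^ 2
  rw [LinearMap.charpoly_baseChange]
  let bas : Module.Basis (Fin 2) R ρ.V := Module.finBasisOfFinrankEq R ρ.V ρ.finrank_eq
  rw [← LinearMap.charpoly_toMatrix (ρ.ρ ι') bas, Matrix.charpoly_fin_two,
    ← LinearMap.trace_eq_matrix_trace R bas (ρ.ρ ι'), LinearMap.det_toMatrix, hdet']
  have halg : ∀ a : R, algebraMap R B a = y a := fun _ => rfl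
  rw [Polynomial.map_add, Polynomial.map_sub, Polynomial.map_mul, Polynomial.map_pow,
    Polynomial.map_X, Polynomial.map_C, Polynomial.map_C, halg, halg, htr', map_one]
  rw [map_ofNat, map_one]
  ring

end Unip

/-! ### Residual unramifiedness -/

section Res

theorem mem_smul_top_of_one_tmul_eq_zero_h419 {R : Type*} [CommRing R] [IsLocalRing R]
    {M : Type*} [AddCommGroup M] [Module R M] {x : M}
    (h : (1 : ResidueField R) ⊗ₜ[R] x = 0) : x ∈ maximalIdeal R • (⊤ : Submodule R M) := by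
  have h2 : TensorProduct.quotTensorEquivQuotSMul M (maximalIdeal R)
      ((1 : ResidueField R) ⊗ₜ[R] x) = Submodule.Quotient.mk ((1 : R) • x) :=
    TensorProduct.quotTensorEquivQuotSMul_mk_tmul (maximalIdeal R) 1 x
  have h1 : TensorProduct.quotTensorEquivQuotSMul M (maximalIdeal R)
      ((1 : ResidueField R) ⊗ₜ[R] x) = 0 :=
    (LinearEquiv.map_eq_zero_iff _).mpr h
  rw [h2, one_smul] at h1
  exact (Submodule.Quotient.mk_eq_zero _).mp h1

/-- `ρ` is residually unramified at `P` (helper1's `ResUnramAt`) as soon as its residual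
representation is trivial on `I_P`. -/
theorem resUnramAt_of_residual_h419 {R : Type} [CommRing R] [IsLocalRing R]
    (ρ : GaloisRepAdic R) (P : ValuationSubring Qb)
    (h : ∀ ι ∈ P.inertiaSubgroupIn ℚ, ρ.residual.ρ ι = 1) : ResUnramAt P ρ.ρ := by
  intro ι hι v
  apply mem_smul_top_of_one_tmul_eq_zero_h419
  have h1 : ρ.residual.ρ ι ((1 : ResidueField R) ⊗ₜ[R] v) = (1 : ResidueField R) ⊗ₜ[R] v := by
    rw [h ι hι]
    rfl
  have h2 : ρ.residual.ρ ι ((1 : ResidueField R) ⊗ₜ[R] v) =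
      (1 : ResidueField R) ⊗ₜ[R] (ρ.ρ ι v) := by
    show (ρ.ρ ι).baseChange (ResidueField R) ((1 : ResidueField R) ⊗ₜ[R] v) = _
    rw [LinearMap.baseChange_tmul]
  rw [h2] at h1
  rw [TensorProduct.tmul_sub, h1, sub_self]

/-- The universal deformation of a residual representation unramified at `q` is residually
unramified at every place over `q`. -/
theorem resUnramAt_of_deformation_h419 {𝒪 : Type} [CommRing 𝒪] [IsDomain 𝒪]
    [IsDiscreteValuationRing 𝒪] [IsAdicComplete (maximalIdeal 𝒪) 𝒪]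
    {ρbar : ResidualGaloisRep (ResidueField 𝒪)}
    {𝒟 : ∀ ⦃A : Type⦄ [CommRing A] [IsLocalRing A] [Algebra 𝒪 A], GaloisRepAdic A → Prop}
    (DQ : GaloisRep.DeformationRingData 𝒪 ρbar 𝒟) {q : ℕ} (hunr : ρbar.IsUnramifiedAt q)
    {P : ValuationSubring Qb} (hP : P.LiesOverPrime q) : ResUnramAt P DQ.ρ.ρ := by
  apply resUnramAt_of_residual_h419
  intro ι hι
  obtain ⟨e⟩ := DQ.residual_isEquiv
  refine LinearMap.ext fun w => e.toLinearEquiv.injective ?_
  rw [e.map_apply, Module.End.one_apply]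
  letI : Algebra (ResidueField 𝒪) (ResidueField DQ.R) :=
    (IsLocalRing.ResidueField.map (algebraMap 𝒪 DQ.R)).toAlgebra
  show (ρbar.ρ ι).baseChange (ResidueField DQ.R) (e.toLinearEquiv w) = e.toLinearEquiv w
  rw [hunr P hP ι hι, LinearMap.baseChange_one]
  rfl

end Res

end Fermat.Agent.S38.H419

end
-- ===== PACK-END S38/H419/TypeGal.lean

-- ===== PACK-BEGIN S38/H419/TypeClause.lean
section
/-
Row 37 HARD (Ihara avoidance), leaf GAL, item (D): the TYPE clause of the frozen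
`Fermat.Agent.S38.IA.IAGalStatement` (`S38/IA/Spec2.lean`, trunk `origin/helper995`).  (helper419)

`typeClause_h419` : `ρ : GaloisRepAdic R` over a Noetherian local `𝒪`-algebra `R`, with
cyclotomic determinant, residually unramified at the places `Pv q` (`q ∈ Piv`, `q ≡ 1 mod p`),
`(φv q, σv q)` tame pairs at `Pv q` (helper1, `LocGenSpec.IsTamePair`), `bas` a basis of `ρ.V`,
`γ : LocAmb 𝒪 Piv g →ₐ[𝒪] R` such that `γ(v_q)`, `γ(w_q)` are the traceless coordinates of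
`ρ(σv q)`, `ρ(φv q)` in `bas`.  Then for EVERY characteristic zero discrete valuation ring `𝒪'`
over `𝒪` and every local `y : R →ₐ[𝒪] 𝒪'` such that `ρ ⊗_y 𝒪'` is not unipotent on inertia at the
pivots, `y ∘ γ` kills the type ideal of some vector of type values: VERBATIM the last clause of
`IAGalStatement`.

`typeClause_deformation_h419` : the same for `ρ = DQ.ρ`, `DQ` a `DeformationRingData` of ANY
type `𝒟`, with `ρ̄` unramified at the pivots (`ResUnramAt` is then automatic).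

All proofs complete.
-/




set_option autoImplicit false
set_option linter.style.haveILetI false
set_option linter.unusedSectionVars false
set_option linter.overlappingInstances false

open Polynomial IsLocalRing

namespace Fermat.Agent.S38.H419

open Fermat.Agent.S56 Fermat.Agent.S38.IA Fermat.Agent.S38.IA.Gal

/-! ### The coefficient ring -/

section Coeff

variable {𝒪 : Type} [CommRing 𝒪] [IsDomain 𝒪] [IsDiscreteValuationRing 𝒪]

/-- `2` is invertible in a local ring of odd residue characteristic. -/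
theorem exists_two_mul_eq_one_h419 {A : Type*} [CommRing A] [IsLocalRing A] {p : ℕ}
    (hp : p.Prime) (hp2 : p ≠ 2) (hpA : (p : A) ∈ maximalIdeal A) : ∃ c : A, 2 * c = 1 := by
  have h2 : IsUnit (2 : A) := by
    by_contra hnu
    have h2m : (2 : A) ∈ maximalIdeal A := (IsLocalRing.mem_maximalIdeal _).mpr hnu
    obtain ⟨k, hk⟩ := hp.eq_two_or_odd'.resolve_left hp2
    have h1 : (1 : A) = (p : A) - 2 * (k : A) := by
      rw [hk]
      push_cast
      ring
    have : (1 : A) ∈ maximalIdeal A := by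
      rw [h1]
      exact Ideal.sub_mem _ hpA (Ideal.mul_mem_right _ _ h2m)
    exact (Ideal.ne_top_iff_one _).mp (Ideal.IsPrime.ne_top inferInstance) this
  obtain ⟨u, hu⟩ := h2
  exact ⟨((u⁻¹ : Aˣ) : A), by rw [← hu, Units.mul_inv]⟩

/-- A discrete valuation ring `𝒪` with `p ∈ 𝔪` embeds into every domain of characteristic zero
over it. -/
theorem algebraMap_injective_h419 {p : ℕ} (hp : p.Prime) (hp𝒪 : (p : 𝒪) ∈ maximalIdeal 𝒪)
    (𝒪' : Type*) [CommRing 𝒪'] [IsDomain 𝒪'] [CharZero 𝒪'] [Algebra 𝒪 𝒪'] :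
    Function.Injective (algebraMap 𝒪 𝒪') := by
  rw [RingHom.injective_iff_ker_eq_bot]
  by_contra hne
  haveI : (RingHom.ker (algebraMap 𝒪 𝒪')).IsPrime := RingHom.ker_isPrime _
  have hmax : (RingHom.ker (algebraMap 𝒪 𝒪')).IsMaximal :=
    Ideal.IsPrime.isMaximal inferInstance hne
  have heq := IsLocalRing.eq_maximalIdeal hmax
  have hpk : (p : 𝒪) ∈ RingHom.ker (algebraMap 𝒪 𝒪') := heq ▸ hp𝒪
  rw [RingHom.mem_ker, map_natCast] at hpk
  exact hp.ne_zero (Nat.cast_eq_zero.mp hpk)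

end Coeff

/-! ### One pivot -/

section One

variable {𝒪 : Type} [CommRing 𝒪] [IsDomain 𝒪] [IsDiscreteValuationRing 𝒪]
  {R : Type} [CommRing R] [IsLocalRing R] [IsNoetherianRing R] [Algebra 𝒪 R]
  {𝒪' : Type} [CommRing 𝒪'] [IsDomain 𝒪'] [IsDiscreteValuationRing 𝒪'] [CharZero 𝒪']
  [Algebra 𝒪 𝒪']

/-- **TYPE at one pivot.** -/
theorem exists_typeValue_h419 {p : ℕ} [Fact p.Prime] (hp2 : p ≠ 2)
    (hp𝒪 : (p : 𝒪) ∈ maximalIdeal 𝒪)
    (ρ : GaloisRepAdic R) (hdet : ρ.DetIsCyclotomic p)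
    {q : ℕ} (hq : q.Prime) (hpq1 : p ∣ q - 1)
    (hroots : ∀ m : ℕ, p ^ m ∣ q - 1 → ∃ ζ : 𝒪, IsPrimitiveRoot ζ (p ^ m))
    (bas : Module.Basis (Fin 2) R ρ.V)
    {P : ValuationSubring Qb} {φ σ : GQ} (hP : P.LiesOverPrime q)
    (htame : IsTamePair p q P φ σ) (hres : ResUnramAt P ρ.ρ)
    (u w : Fin 3 → R) (hu : IsTracelessCoords bas (ρ.ρ σ) u)
    (hw : IsTracelessCoords bas (ρ.ρ φ) w)
    (y : R →ₐ[𝒪] 𝒪') (hy : IsLocalHom (y : R →+* 𝒪'))
    (hNU : ¬ (ρ.baseChangeAlong (y : R →+* 𝒪') hy).IsUnipotentOnInertiaAt q) :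
    ∃ δ : 𝒪, IsTypeValue p q δ ∧
      y (u 0) ^ 2 + y (u 1) * y (u 2) = algebraMap 𝒪 𝒪' δ ^ 2 ∧
      ∀ a b : Fin 3, y (w a) * y (u b) - y (w b) * y (u a) = 0 := by
  have hp : p.Prime := Fact.out
  have hq2 := hq.two_le
  have hq1 : q - 1 ≠ 0 := by omega
  have hpq : p ≠ q := by
    rintro rfl
    have := Nat.le_of_dvd (by omega) hpq1
    omega
  obtain ⟨K, n', hn', hKn⟩ := Nat.exists_eq_pow_mul_and_not_dvd hq1 p hp.ne_one
  have hK : 0 < K := by
    rcases Nat.eq_zero_or_pos K with h0 | h0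
    · exfalso
      rw [h0, pow_zero, one_mul] at hKn
      rw [hKn] at hpq1
      exact hn' hpq1
    · exact h0
  have hqeq : q = p ^ K * n' + 1 := by omega
  obtain ⟨ζ, hζ⟩ := hroots K ⟨n', hKn⟩
  have hinj := algebraMap_injective_h419 hp hp𝒪 𝒪'
  have hζ' : IsPrimitiveRoot (algebraMap 𝒪 𝒪' ζ) (p ^ K) := hζ.map_of_injective hinj
  -- the matrices
  let yR : R →+* 𝒪' := (y : R →+* 𝒪')
  obtain ⟨hu0, hu1, hu2⟩ := hu
  obtain ⟨hw0, hw1, hw2⟩ := hw
  obtain ⟨MS, hMS⟩ : ∃ M : Matrix (Fin 2) (Fin 2) R, M = LinearMap.toMatrix bas bas (ρ.ρ σ) :=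
    ⟨_, rfl⟩
  obtain ⟨MΦ, hMΦ⟩ : ∃ M : Matrix (Fin 2) (Fin 2) R, M = LinearMap.toMatrix bas bas (ρ.ρ φ) :=
    ⟨_, rfl⟩
  rw [← hMS] at hu0 hu1 hu2
  rw [← hMΦ] at hw0 hw1 hw2
  have hentry : ∀ (M : Matrix (Fin 2) (Fin 2) R) (i j : Fin 2),
      (yR.mapMatrix M) i j = y (M i j) := fun M i j => rfl
  have hdetS : (yR.mapMatrix MS).det = 1 := by
    rw [← RingHom.map_det, hMS, LinearMap.det_toMatrix,
      det_inertia_h419 ρ hdet hq hpq.symm hP htame.mem, map_one]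
  have hdetΦ : (yR.mapMatrix MΦ).det ≠ 0 := by
    rw [← RingHom.map_det, hMΦ, LinearMap.det_toMatrix,
      det_frobenius_h419 ρ hdet hq hpq.symm hP htame.frob, map_natCast]
    exact Nat.cast_ne_zero.mpr hq.ne_zero
  have hconj : yR.mapMatrix MΦ * yR.mapMatrix MS = yR.mapMatrix MS ^ q * yR.mapMatrix MΦ := by
    have h0 := toMatrix_tame_rel_h419 ρ bas htame hp hq hpq hP hdet.1 hres
    rw [← hMS, ← hMΦ] at h0
    have h1 := congrArg yR.mapMatrix h0
    rwa [RingHom.map_mul, RingHom.map_mul, RingHom.map_pow] at h1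
  have hSg : ∀ i j, (yR.mapMatrix MS - 1) i j ∈ maximalIdeal 𝒪' := by
    intro i j
    have h1 := toMatrix_sub_one_mem_h419 ρ bas hres htame.mem i j
    rw [← hMS] at h1
    have h2 : (yR.mapMatrix MS - 1) i j = yR ((MS - 1) i j) := by
      have e : yR.mapMatrix MS - 1 = yR.mapMatrix (MS - 1) := by
        rw [map_sub, map_one]
      rw [e]
      rfl
    rw [h2]
    have h3 := map_mem_pow_h419 yR hy 1 (by rw [pow_one]; exact h1)
    rwa [pow_one] at h3
  have hp𝒪' : ((p : ℕ) : 𝒪') ∈ maximalIdeal 𝒪' := by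
    have h3 := map_mem_pow_h419 yR hy 1 (by rw [pow_one]; exact hdet.1)
    rwa [pow_one, map_natCast] at h3
  have hNUtr : (yR.mapMatrix MS).trace ≠ 2 := by
    intro htr
    apply hNU
    refine isUnipotentOnInertiaAt_of_trace_h419 ρ hdet htame hq hpq hP hres yR hy ?_
    rw [LinearMap.trace_eq_matrix_trace R bas (ρ.ρ σ), ← hMS, ← htr, Matrix.trace_fin_two,
      Matrix.trace_fin_two, map_add]
    rfl
  -- coordinates
  have hyu0 : 2 * y (u 0) = (yR.mapMatrix MS) 0 0 - (yR.mapMatrix MS) 1 1 := by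
    rw [hentry, hentry, ← map_sub, ← hu0, map_mul, map_ofNat]
  have hyu1 : y (u 1) = (yR.mapMatrix MS) 0 1 := by rw [hentry, ← hu1]
  have hyu2 : y (u 2) = (yR.mapMatrix MS) 1 0 := by rw [hentry, ← hu2]
  have hyw0 : 2 * y (w 0) = (yR.mapMatrix MΦ) 0 0 - (yR.mapMatrix MΦ) 1 1 := by
    rw [hentry, hentry, ← map_sub, ← hw0, map_mul, map_ofNat]
  have hyw1 : y (w 1) = (yR.mapMatrix MΦ) 0 1 := by rw [hentry, ← hw1]
  have hyw2 : y (w 2) = (yR.mapMatrix MΦ) 1 0 := by rw [hentry, ← hw2]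
  obtain ⟨j, hj0, hj, hQ, hmin⟩ := type_algebra_h419 hp hp2 hK hqeq hn' (maximalIdeal 𝒪')
    (Ideal.IsPrime.ne_top inferInstance) hp𝒪' (yR.mapMatrix MS) (yR.mapMatrix MΦ) hdetS hdetΦ
    hconj hSg (algebraMap 𝒪 𝒪' ζ) hζ' hNUtr (fun i => y (u i)) (fun i => y (w i))
    hyu0 hyu1 hyu2 hyw0 hyw1 hyw2
  -- the type value
  obtain ⟨c, hc⟩ := exists_two_mul_eq_one_h419 (A := 𝒪) hp hp2 hp𝒪
  have hprod : ζ ^ (p ^ K - j) * ζ ^ j = 1 := by
    rw [← pow_add, Nat.sub_add_cancel hj.le, hζ.pow_eq_one]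
  refine ⟨c * (ζ ^ j - ζ ^ (p ^ K - j)), ⟨ζ ^ j, ?_, ⟨K, ?_⟩, ?_, ?_⟩, ?_, hmin⟩
  · exact hζ.pow_ne_one_of_pos_of_lt hj0.ne' hj
  · rw [← pow_mul, mul_comm, pow_mul, hζ.pow_eq_one, one_pow]
  · rw [hKn, ← pow_mul, mul_comm j, mul_assoc, pow_mul, hζ.pow_eq_one, one_pow]
  · linear_combination (ζ ^ j - ζ ^ (p ^ K - j)) * ζ ^ j * hc - hprod
  · have h4 : (4 : 𝒪') ≠ 0 := by norm_num
    apply mul_left_cancel₀ h4
    have hc' : 2 * algebraMap 𝒪 𝒪' c = 1 := by
      rw [← map_ofNat (algebraMap 𝒪 𝒪') 2, ← map_mul, hc, map_one]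
    have hQ' : 4 * (y (u 0) ^ 2 + y (u 1) * y (u 2)) =
        (algebraMap 𝒪 𝒪' ζ ^ j - algebraMap 𝒪 𝒪' ζ ^ (p ^ K - j)) ^ 2 := hQ
    rw [hQ', map_mul, map_sub, map_pow, map_pow]
    linear_combination (-(algebraMap 𝒪 𝒪' ζ ^ j - algebraMap 𝒪 𝒪' ζ ^ (p ^ K - j)) ^ 2) *
      (2 * algebraMap 𝒪 𝒪' c + 1) * hc'

end One

/-! ### The TYPE clause -/

section Clause

variable {𝒪 : Type} [CommRing 𝒪] [IsDomain 𝒪] [IsDiscreteValuationRing 𝒪]
  {R : Type} [CommRing R] [IsLocalRing R] [IsNoetherianRing R] [Algebra 𝒪 R]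

/-- **The TYPE clause of `IAGalStatement`** (verbatim conclusion), for any representation `ρ`
over a Noetherian local `𝒪`-algebra `R` with cyclotomic determinant which is residually
unramified at the places `Pv q`, and tame pairs `(φv q, σv q)` at `Pv q`. -/
theorem typeClause_h419 (p : ℕ) [Fact p.Prime] (hp2 : p ≠ 2)
    (hp𝒪 : (p : 𝒪) ∈ maximalIdeal 𝒪)
    (ρ : GaloisRepAdic R) (hdet : ρ.DetIsCyclotomic p)
    (Piv : Finset ℕ) (hPiv : ∀ q ∈ Piv, q.Prime ∧ p ∣ q - 1)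
    (hroots : ∀ q ∈ Piv, ∀ m : ℕ, p ^ m ∣ q - 1 → ∃ ζ : 𝒪, IsPrimitiveRoot ζ (p ^ m))
    (g : ℕ) (bas : Module.Basis (Fin 2) R ρ.V)
    (Pv : Piv → ValuationSubring (AlgebraicClosure ℚ))
    (φv σv : Piv → (AlgebraicClosure ℚ ≃ₐ[ℚ] AlgebraicClosure ℚ))
    (hPv : ∀ q : Piv, (Pv q).LiesOverPrime (q : ℕ))
    (htame : ∀ q : Piv, IsTamePair p (q : ℕ) (Pv q) (φv q) (σv q))
    (hres : ∀ q : Piv, ResUnramAt (Pv q) ρ.ρ)
    (γ : LocAmb 𝒪 Piv g →ₐ[𝒪] R)
    (hv : ∀ q : Piv, IsTracelessCoords bas (ρ.ρ (σv q)) (fun j => γ (vVar 𝒪 g q j)))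
    (hw : ∀ q : Piv, IsTracelessCoords bas (ρ.ρ (φv q)) (fun j => γ (wVar 𝒪 g q j)))
    (𝒪' : Type) [CommRing 𝒪'] [IsDomain 𝒪'] [IsDiscreteValuationRing 𝒪'] [CharZero 𝒪']
    [Algebra 𝒪 𝒪'] (y : R →ₐ[𝒪] 𝒪') (hy : IsLocalHom (y : R →+* 𝒪'))
    (hNU : ∀ q ∈ Piv, ¬ (ρ.baseChangeAlong (y : R →+* 𝒪') hy).IsUnipotentOnInertiaAt q) :
    ∃ δ : Piv → 𝒪, (∀ q : Piv, IsTypeValue p (q : ℕ) (δ q)) ∧
      ∀ a ∈ typeIdeal 𝒪 g δ, y (γ a) = 0 := by
  have key : ∀ q : Piv, ∃ δ : 𝒪, IsTypeValue p (q : ℕ) δ ∧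
      y (γ (vVar 𝒪 g q 0)) ^ 2 + y (γ (vVar 𝒪 g q 1)) * y (γ (vVar 𝒪 g q 2)) =
        algebraMap 𝒪 𝒪' δ ^ 2 ∧
      ∀ a b : Fin 3, y (γ (wVar 𝒪 g q a)) * y (γ (vVar 𝒪 g q b)) -
        y (γ (wVar 𝒪 g q b)) * y (γ (vVar 𝒪 g q a)) = 0 := fun q =>
    exists_typeValue_h419 hp2 hp𝒪 ρ hdet (hPiv q q.2).1 (hPiv q q.2).2 (hroots q q.2) bas
      (hPv q) (htame q) (hres q) (fun j => γ (vVar 𝒪 g q j)) (fun j => γ (wVar 𝒪 g q j))
      (hv q) (hw q) y hy (hNU q q.2)
  choose δ hδ using key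
  refine ⟨δ, fun q => (hδ q).1, ?_⟩
  have hC : ∀ c : 𝒪, y (γ (MvPowerSeries.C c)) = algebraMap 𝒪 𝒪' c := by
    intro c
    have e : (MvPowerSeries.C c : LocAmb 𝒪 Piv g) = algebraMap 𝒪 (LocAmb 𝒪 Piv g) c := by
      rw [MvPowerSeries.algebraMap_apply]
      rfl
    rw [e, AlgHom.commutes, AlgHom.commutes]
  have hle : typeIdeal 𝒪 g δ ≤
      RingHom.ker ((y : R →+* 𝒪').comp (γ : LocAmb 𝒪 Piv g →+* R)) := by
    unfold typeIdeal
    rw [Ideal.span_le]
    rintro a (⟨q, rfl⟩ | ⟨q, i, j, rfl⟩)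
    · show (y : R →+* 𝒪') ((γ : LocAmb 𝒪 Piv g →+* R) (qV 𝒪 g q - MvPowerSeries.C (δ q) ^ 2)) = 0
      show y (γ (qV 𝒪 g q - MvPowerSeries.C (δ q) ^ 2)) = 0
      unfold qV
      rw [map_sub, map_sub, map_pow, map_pow, hC, map_add, map_add, map_mul, map_mul, map_pow,
        map_pow, (hδ q).2.1, sub_self]
    · show y (γ (minor 𝒪 g q i j)) = 0
      unfold minor
      rw [map_sub, map_sub, map_mul, map_mul, map_mul, map_mul]
      exact (hδ q).2.2 i j
  intro a ha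
  exact hle ha

/-- **The TYPE clause for a universal deformation** `DQ` of any type `𝒟` (with cyclotomic
determinant), `ρ̄` unramified at the pivots. -/
theorem typeClause_deformation_h419 [IsAdicComplete (maximalIdeal 𝒪) 𝒪]
    (p : ℕ) [Fact p.Prime] (hp2 : p ≠ 2) (hp𝒪 : (p : 𝒪) ∈ maximalIdeal 𝒪)
    {ρbar : ResidualGaloisRep (ResidueField 𝒪)}
    {𝒟 : ∀ ⦃A : Type⦄ [CommRing A] [IsLocalRing A] [Algebra 𝒪 A], GaloisRepAdic A → Prop}
    (DQ : GaloisRep.DeformationRingData 𝒪 ρbar 𝒟) (hdet : DQ.ρ.DetIsCyclotomic p)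
    (Piv : Finset ℕ) (hPiv : ∀ q ∈ Piv, q.Prime ∧ p ∣ q - 1)
    (hunr : ∀ q ∈ Piv, ρbar.IsUnramifiedAt q)
    (hroots : ∀ q ∈ Piv, ∀ m : ℕ, p ^ m ∣ q - 1 → ∃ ζ : 𝒪, IsPrimitiveRoot ζ (p ^ m))
    (g : ℕ) (bas : Module.Basis (Fin 2) DQ.R DQ.ρ.V)
    (Pv : Piv → ValuationSubring (AlgebraicClosure ℚ))
    (φv σv : Piv → (AlgebraicClosure ℚ ≃ₐ[ℚ] AlgebraicClosure ℚ))
    (hPv : ∀ q : Piv, (Pv q).LiesOverPrime (q : ℕ))
    (htame : ∀ q : Piv, IsTamePair p (q : ℕ) (Pv q) (φv q) (σv q))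
    (γ : LocAmb 𝒪 Piv g →ₐ[𝒪] DQ.R)
    (hv : ∀ q : Piv, IsTracelessCoords bas (DQ.ρ.ρ (σv q)) (fun j => γ (vVar 𝒪 g q j)))
    (hw : ∀ q : Piv, IsTracelessCoords bas (DQ.ρ.ρ (φv q)) (fun j => γ (wVar 𝒪 g q j))) :
    ∀ (𝒪' : Type) [CommRing 𝒪'] [IsDomain 𝒪'] [IsDiscreteValuationRing 𝒪'] [CharZero 𝒪']
      [Algebra 𝒪 𝒪'] (y : DQ.R →ₐ[𝒪] 𝒪') (hy : IsLocalHom (y : DQ.R →+* 𝒪')),
      (∀ q ∈ Piv,
        ¬ (DQ.ρ.baseChangeAlong (y : DQ.R →+* 𝒪') hy).IsUnipotentOnInertiaAt q) →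
      ∃ δ : Piv → 𝒪, (∀ q : Piv, IsTypeValue p (q : ℕ) (δ q)) ∧
        ∀ a ∈ typeIdeal 𝒪 g δ, y (γ a) = 0 := by
  intro 𝒪' _ _ _ _ _ y hy hNU
  exact typeClause_h419 p hp2 hp𝒪 DQ.ρ hdet Piv hPiv hroots g bas Pv φv σv hPv htame
    (fun q => resUnramAt_of_deformation_h419 DQ (hunr q q.2) (hPv q)) γ hv hw 𝒪' y hy hNU

/-- The determinant clauses of `IAGalStatement`: `det ρ(σ_q) = 1`, `det ρ(φ_q) = q`. -/
theorem det_clause_h419 (p : ℕ) [Fact p.Prime] (ρ : GaloisRepAdic R)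
    (hdet : ρ.DetIsCyclotomic p)
    (Piv : Finset ℕ) (hPiv : ∀ q ∈ Piv, q.Prime ∧ p ∣ q - 1)
    (Pv : Piv → ValuationSubring (AlgebraicClosure ℚ))
    (φv σv : Piv → (AlgebraicClosure ℚ ≃ₐ[ℚ] AlgebraicClosure ℚ))
    (hPv : ∀ q : Piv, (Pv q).LiesOverPrime (q : ℕ))
    (hφ : ∀ q : Piv, (Pv q).IsFrobeniusAt (φv q) (q : ℕ))
    (hσ : ∀ q : Piv, σv q ∈ (Pv q).inertiaSubgroupIn ℚ) :
    (∀ q : Piv, LinearMap.det (ρ.ρ (φv q)) = ((q : ℕ) : R)) ∧
      ∀ q : Piv, LinearMap.det (ρ.ρ (σv q)) = 1 := by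
  have hqp : ∀ q : Piv, (q : ℕ) ≠ p := by
    intro q h
    have h1 := (hPiv q q.2).2
    have h2 := (hPiv q q.2).1.two_le
    rw [h] at h1 h2
    have := Nat.le_of_dvd (by omega) h1
    omega
  exact ⟨fun q => det_frobenius_h419 ρ hdet (hPiv q q.2).1 (hqp q) (hPv q) (hφ q),
    fun q => det_inertia_h419 ρ hdet (hPiv q q.2).1 (hqp q) (hPv q) (hσ q)⟩

end Clause

/-! ### In the vocabulary of `IAGalStatement` -/

section IAGal

open Fermat.Agent.S59.Arch

variable (p : ℕ) [Fact p.Prime]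
  (𝒪 : Type) [CommRing 𝒪] [IsDomain 𝒪] [IsDiscreteValuationRing 𝒪]
  [IsAdicComplete (maximalIdeal 𝒪) 𝒪]
  (ρbar : ResidualGaloisRep (ResidueField 𝒪)) (Smin : Finset ℕ)

/-- The pivots are primes `q ≡ 1 mod p` (so `q ≠ p`) at which `ρ̄` is unramified. -/
theorem pivot_facts_h419 (h : ResidualHyp p 𝒪 ρbar Smin) (Piv : Finset ℕ)
    (hPiv : IsPivotSet p ρbar Smin Piv) :
    (∀ q ∈ Piv, q.Prime ∧ p ∣ q - 1) ∧ (∀ q ∈ Piv, q ≠ p) ∧
      ∀ q ∈ Piv, ρbar.IsUnramifiedAt q := by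
  have hqp : ∀ q ∈ Piv, q ≠ p := by
    intro q hq hqp
    exact (hPiv q hq).2.1 (hqp ▸ h.hpSmin)
  refine ⟨fun q hq => ⟨(hPiv q hq).1, (hPiv q hq).2.2.1⟩, hqp, fun q hq => ?_⟩
  by_contra hcon
  exact (hPiv q hq).2.1 ((h.hmin q (hPiv q hq).1 (hqp q hq)).mpr hcon)

/-- **The TYPE clause of `IAGalStatement`, in its vocabulary.**  Under the standing hypotheses
of `IAGalStatement`, for a universal deformation ring `DQ` of type `sigmaCond 𝒪 p t Smin Sig`
(any `t`, any `Sig`), any basis `bas`, tame pairs `(φv q, σv q)` at places `Pv q | q`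
(`q ∈ Piv`) and any `γ` computing the traceless coordinates of `ρ(σv q)`, `ρ(φv q)`:
the last clause of `IAGalStatement` holds. -/
theorem typeClause_iaGal_h419 (h : ResidualHyp p 𝒪 ρbar Smin) (Piv : Finset ℕ)
    (hPiv : IsPivotSet p ρbar Smin Piv)
    (hroots : ∀ q ∈ Piv, ∀ m : ℕ, p ^ m ∣ q - 1 → ∃ ζ : 𝒪, IsPrimitiveRoot ζ (p ^ m))
    (t : PType) (Sig : Finset ℕ) (g : ℕ)
    (DQ : GaloisRep.DeformationRingData 𝒪 ρbar (sigmaCond 𝒪 p t Smin Sig))
    (bas : Module.Basis (Fin 2) DQ.R DQ.ρ.V)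
    (Pv : Piv → ValuationSubring (AlgebraicClosure ℚ))
    (φv σv : Piv → (AlgebraicClosure ℚ ≃ₐ[ℚ] AlgebraicClosure ℚ))
    (hPv : ∀ q : Piv, (Pv q).LiesOverPrime (q : ℕ))
    (htame : ∀ q : Piv, IsTamePair p (q : ℕ) (Pv q) (φv q) (σv q))
    (γ : LocAmb 𝒪 Piv g →ₐ[𝒪] DQ.R)
    (hv : ∀ q : Piv, IsTracelessCoords bas (DQ.ρ.ρ (σv q)) (fun j => γ (vVar 𝒪 g q j)))
    (hw : ∀ q : Piv, IsTracelessCoords bas (DQ.ρ.ρ (φv q)) (fun j => γ (wVar 𝒪 g q j))) :
    ∀ (𝒪' : Type) [CommRing 𝒪'] [IsDomain 𝒪'] [IsDiscreteValuationRing 𝒪'] [CharZero 𝒪']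
      [Algebra 𝒪 𝒪'] (y : DQ.R →ₐ[𝒪] 𝒪') (hy : IsLocalHom (y : DQ.R →+* 𝒪')),
      (∀ q ∈ Piv,
        ¬ (DQ.ρ.baseChangeAlong (y : DQ.R →+* 𝒪') hy).IsUnipotentOnInertiaAt q) →
      ∃ δ : Piv → 𝒪, (∀ q : Piv, IsTypeValue p (q : ℕ) (δ q)) ∧
        ∀ a ∈ typeIdeal 𝒪 g δ, y (γ a) = 0 := by
  obtain ⟨h1, _, h3⟩ := pivot_facts_h419 p 𝒪 ρbar Smin h Piv hPiv
  have hdet : DQ.ρ.DetIsCyclotomic p := by
    have := DQ.isOfType.1
    cases t <;> exact this.1
  exact typeClause_deformation_h419 p h.hp2 h.hp𝒪 DQ hdet Piv h1 h3 hroots g bas Pv φv σv hPv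
    htame γ hv hw

/-- **The determinant clause of `IAGalStatement`, in its vocabulary** (and `det ρ(σ_q) = 1`). -/
theorem det_clause_iaGal_h419 (h : ResidualHyp p 𝒪 ρbar Smin) (Piv : Finset ℕ)
    (hPiv : IsPivotSet p ρbar Smin Piv) (t : PType) (Sig : Finset ℕ)
    (DQ : GaloisRep.DeformationRingData 𝒪 ρbar (sigmaCond 𝒪 p t Smin Sig))
    (Pv : Piv → ValuationSubring (AlgebraicClosure ℚ))
    (φv σv : Piv → (AlgebraicClosure ℚ ≃ₐ[ℚ] AlgebraicClosure ℚ))
    (hPv : ∀ q : Piv, (Pv q).LiesOverPrime (q : ℕ))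
    (hφ : ∀ q : Piv, (Pv q).IsFrobeniusAt (φv q) (q : ℕ))
    (hσ : ∀ q : Piv, σv q ∈ (Pv q).inertiaSubgroupIn ℚ) :
    (∀ q : Piv, LinearMap.det (DQ.ρ.ρ (φv q)) = ((q : ℕ) : DQ.R)) ∧
      ∀ q : Piv, LinearMap.det (DQ.ρ.ρ (σv q)) = 1 := by
  obtain ⟨h1, _, _⟩ := pivot_facts_h419 p 𝒪 ρbar Smin h Piv hPiv
  have hdet : DQ.ρ.DetIsCyclotomic p := by
    have := DQ.isOfType.1
    cases t <;> exact this.1
  exact det_clause_h419 p DQ.ρ hdet Piv h1 Pv φv σv hPv hφ hσ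

end IAGal

end Fermat.Agent.S38.H419

end
-- ===== PACK-END S38/H419/TypeClause.lean

-- ===== PACK-BEGIN S38/H546/Coord6.lean
section




/-!
# Row HARD, cell GAL — the presentation in SIX traceless coordinates per pivot (helper546)

The frozen `IA.IAGalStatement` (`S38/IA/Spec2.lean`) asks for a surjection
`γ : LocAmb 𝒪 Piv g = 𝒪⟦v_{q,0..2}, w_{q,0..2} (q ∈ Piv), x₁..x_g⟧ ↠ R_Q` whose values at the
variables are the TRACELESS coordinates of `Σ_q = ρ^univ(σ_q)` and `Φ_q = ρ^univ(φ_q)`;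
helper953's `exists_surjective_pivots` gives it for the EIGHT entries of `Σ_q − 1`, `Φ_q − a_q`.
Here: the six-coordinate form, by `HenselCoord.entries_mem_range_evalCNL` (the entries are power
series in the traceless coordinates because `det Σ_q = 1`, `det Φ_q = d_q ∈ 𝒪`).

* `exists_surjective_powerSeries_of_range` — helper953's `exists_surjective_powerSeries_of_relSelCob`
  with the entries in the RANGE of the evaluation map (instead of the subalgebra generated by the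
  coordinates);
* `coord6`, `coord6_mem` — the coordinates;
* `exists_surjective_coord6` — the presentation `𝒪⟦(J × Fin 6) ⊕ Fin g⟧ ↠ DQ.R`;
* `frameBasis`, `toMatrix_frameBasis` — the basis of `DQ.ρ.V` of a frame;
* `exists_surjective_locAmb` — the same in the vocabulary of `IA.IAGalStatement`
  (`LocAmb`, `vVar`, `wVar`, `IsTracelessCoords`).

Nothing unproved in this file.
-/

set_option autoImplicit false
set_option linter.unusedSectionVars false
set_option linter.unusedVariables false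
set_option linter.style.haveILetI false

namespace Fermat.Agent.S38.H546

noncomputable section

open IsLocalRing TrivSqZeroExt
open Fermat.Agent.S56 Fermat.Agent.S56.H716 Fermat.Agent.S56.H596 Fermat.Agent.S53.H596
open Fermat.Agent.S38.H953 Fermat.Agent.S38.IA

section Main

variable {𝒪 : Type} [CommRing 𝒪] [IsDomain 𝒪] [IsDiscreteValuationRing 𝒪]
  [IsAdicComplete (maximalIdeal 𝒪) 𝒪]
  {ρbar : ResidualGaloisRep (ResidueField 𝒪)} {𝒟 : DefCond 𝒪}
  {DQ : GaloisRep.DeformationRingData 𝒪 ρbar 𝒟}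

attribute [local instance] Fermat.Agent.S56.tanAlgebra

/-- **(REL-P1, no frames, power series base, closed form).**  Like helper953's
`exists_surjective_powerSeries_of_relSelCob`, with the entries of the universal matrices in the
range of the evaluation map `𝒪⟦ι⟧ → DQ.R`, `X_i ↦ x i`. -/
theorem exists_surjective_powerSeries_of_range [Finite (ResidueField 𝒪)]
    (p : ℕ) (hp : p.Prime)
    (hdet : ∀ ρ' : GaloisRepAdic (DualNumber (ResidueField 𝒪)), 𝒟 ρ' → ρ'.DetIsCyclotomic p)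
    (hbc : ∀ (φ : TanHom 𝒪 DQ.R)
      (hφ : IsLocalHom (φ : DQ.R →+* DualNumber (ResidueField 𝒪))), Function.Surjective φ →
      𝒟 (DQ.ρ.baseChangeAlong (φ : DQ.R →+* DualNumber (ResidueField 𝒪)) hφ))
    (F : UFrame DQ) (D : Set GQ)
    {ι : Type} [Finite ι] (x : ι → DQ.R) (hx : ∀ i, x i ∈ maximalIdeal DQ.R)
    (hD : ∀ σ ∈ D, ∀ i j,
      F.rR σ i j ∈ Set.range (evalCNL (R := 𝒪) (maximalIdeal DQ.R) x hx))
    (g : ℕ) (hsel : RelSelCob 𝒪 ρbar 𝒟 D g) :
    ∃ γ : MvPowerSeries (ι ⊕ Fin g) 𝒪 →ₐ[𝒪] DQ.R,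
      Function.Surjective γ ∧ ∀ i, γ (MvPowerSeries.X (Sum.inl i)) = x i := by
  refine exists_surjective_sum x hx DQ.residue_surjective g ?_
  letI : Algebra (MvPowerSeries ι 𝒪) DQ.R :=
    (evalCNL (R := 𝒪) (maximalIdeal DQ.R) x hx : MvPowerSeries ι 𝒪 →+* DQ.R).toAlgebra
  haveI : IsScalarTower 𝒪 (MvPowerSeries ι 𝒪) DQ.R :=
    IsScalarTower.of_algebraMap_eq fun a =>
      ((evalCNL (R := 𝒪) (maximalIdeal DQ.R) x hx).commutes a).symm
  haveI : IsAdicComplete (maximalIdeal (MvPowerSeries ι 𝒪)) (MvPowerSeries ι 𝒪) :=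
    isAdicComplete_mvPowerSeries
  refine exists_surjective_of_relSelCob (B := MvPowerSeries ι 𝒪) p hp hdet hbc F D ?_ g hsel
  intro σ hσ i j
  obtain ⟨f, hf⟩ := hD σ hσ i j
  exact ⟨f, hf⟩

/-- The six traceless coordinates at the pivots: `(j, 0), (j, 1), (j, 2)` for
`Σ_j = F.rR (σ j)` and `(j, 3), (j, 4), (j, 5)` for `Φ_j = F.rR (φ j)`; `half = 1/2`. -/
def coord6 (F : UFrame DQ) {J : Type} (φ σ : J → GQ) (half : DQ.R) : J × Fin 6 → DQ.R :=
  fun z => ![half * (F.rR (σ z.1) 0 0 - F.rR (σ z.1) 1 1), F.rR (σ z.1) 0 1, F.rR (σ z.1) 1 0,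
    half * (F.rR (φ z.1) 0 0 - F.rR (φ z.1) 1 1), F.rR (φ z.1) 0 1, F.rR (φ z.1) 1 0] z.2

theorem coord6_mem {J : Type} (F : UFrame DQ) (φ σ : J → GQ) (a : J → 𝒪) (half : DQ.R)
    (hφ : ∀ j, ρbar.ρ (φ j) = residue 𝒪 (a j) • (1 : Module.End (ResidueField 𝒪) ρbar.V))
    (hσ : ∀ j, ρbar.ρ (σ j) = 1) (z : J × Fin 6) :
    coord6 F φ σ half z ∈ maximalIdeal DQ.R := by
  obtain ⟨j, i⟩ := z
  have hp := fun b i i' => pivX_mem F φ σ a hφ hσ (j, b, i, i')
  have s00 : F.rR (σ j) 0 0 - 1 ∈ maximalIdeal DQ.R := by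
    simpa [pivX] using hp true 0 0
  have s11 : F.rR (σ j) 1 1 - 1 ∈ maximalIdeal DQ.R := by
    simpa [pivX] using hp true 1 1
  have s01 : F.rR (σ j) 0 1 ∈ maximalIdeal DQ.R := by
    simpa [pivX] using hp true 0 1
  have s10 : F.rR (σ j) 1 0 ∈ maximalIdeal DQ.R := by
    simpa [pivX] using hp true 1 0
  have f00 : F.rR (φ j) 0 0 - algebraMap 𝒪 DQ.R (a j) ∈ maximalIdeal DQ.R := by
    simpa [pivX] using hp false 0 0
  have f11 : F.rR (φ j) 1 1 - algebraMap 𝒪 DQ.R (a j) ∈ maximalIdeal DQ.R := by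
    simpa [pivX] using hp false 1 1
  have f01 : F.rR (φ j) 0 1 ∈ maximalIdeal DQ.R := by
    simpa [pivX] using hp false 0 1
  have f10 : F.rR (φ j) 1 0 ∈ maximalIdeal DQ.R := by
    simpa [pivX] using hp false 1 0
  have sd : F.rR (σ j) 0 0 - F.rR (σ j) 1 1 ∈ maximalIdeal DQ.R := by
    have := Ideal.sub_mem _ s00 s11
    rwa [sub_sub_sub_cancel_right] at this
  have fd : F.rR (φ j) 0 0 - F.rR (φ j) 1 1 ∈ maximalIdeal DQ.R := by
    have := Ideal.sub_mem _ f00 f11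
    rwa [sub_sub_sub_cancel_right] at this
  fin_cases i
  · exact Ideal.mul_mem_left _ _ sd
  · exact s01
  · exact s10
  · exact Ideal.mul_mem_left _ _ fd
  · exact f01
  · exact f10

/-- **(GAL), six traceless coordinates per pivot**: presentation of the universal deformation
ring over the power series ring on the traceless coordinates of the universal matrices at the
pivot primes. -/
theorem exists_surjective_coord6 [Finite (ResidueField 𝒪)]
    (p : ℕ) (hp : p.Prime) (h2 : IsUnit (2 : 𝒪))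
    (hdet : ∀ ρ' : GaloisRepAdic (DualNumber (ResidueField 𝒪)), 𝒟 ρ' → ρ'.DetIsCyclotomic p)
    (hbc : ∀ (φ : TanHom 𝒪 DQ.R)
      (hφ : IsLocalHom (φ : DQ.R →+* DualNumber (ResidueField 𝒪))), Function.Surjective φ →
      𝒟 (DQ.ρ.baseChangeAlong (φ : DQ.R →+* DualNumber (ResidueField 𝒪)) hφ))
    (F : UFrame DQ) {J : Type} [Finite J] (φ σ : J → GQ) (a d : J → 𝒪)
    (hφ : ∀ j, ρbar.ρ (φ j) = residue 𝒪 (a j) • (1 : Module.End (ResidueField 𝒪) ρbar.V))
    (hσ : ∀ j, ρbar.ρ (σ j) = 1)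
    (hau : ∀ j, IsUnit (a j)) (had : ∀ j, a j ^ 2 - d j ∈ maximalIdeal 𝒪)
    (hdφ : ∀ j, (F.rR (φ j)).det = algebraMap 𝒪 DQ.R (d j))
    (hdσ : ∀ j, (F.rR (σ j)).det = 1)
    (g : ℕ) (hsel : RelSelCob 𝒪 ρbar 𝒟 (Set.range φ ∪ Set.range σ) g) :
    ∃ γ : MvPowerSeries ((J × Fin 6) ⊕ Fin g) 𝒪 →ₐ[𝒪] DQ.R, Function.Surjective γ ∧
      ∀ j,
        (2 * γ (MvPowerSeries.X (Sum.inl (j, 0))) = F.rR (σ j) 0 0 - F.rR (σ j) 1 1 ∧
          γ (MvPowerSeries.X (Sum.inl (j, 1))) = F.rR (σ j) 0 1 ∧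
          γ (MvPowerSeries.X (Sum.inl (j, 2))) = F.rR (σ j) 1 0) ∧
        (2 * γ (MvPowerSeries.X (Sum.inl (j, 3))) = F.rR (φ j) 0 0 - F.rR (φ j) 1 1 ∧
          γ (MvPowerSeries.X (Sum.inl (j, 4))) = F.rR (φ j) 0 1 ∧
          γ (MvPowerSeries.X (Sum.inl (j, 5))) = F.rR (φ j) 1 0) := by
  classical
  have hlocR : IsLocalHom (algebraMap 𝒪 DQ.R) := DQ.instIsLocalHom
  set half : DQ.R := algebraMap 𝒪 DQ.R (↑h2.unit⁻¹ : 𝒪) with hhalf
  have h2half : (2 : DQ.R) * half = 1 := by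
    rw [hhalf, ← map_ofNat (algebraMap 𝒪 DQ.R) 2, ← map_mul]
    have : (2 : 𝒪) * ↑h2.unit⁻¹ = 1 := by
      have := h2.unit.mul_inv
      rwa [IsUnit.unit_spec] at this
    rw [this, map_one]
  have hx := coord6_mem F φ σ a half hφ hσ
  have hpiv := fun j b i i' => pivX_mem F φ σ a hφ hσ (j, b, i, i')
  have hc0 : ∀ y : DQ.R, 2 * (half * y) = y := fun y => by
    rw [← mul_assoc, h2half, one_mul]
  have hD : ∀ τ ∈ Set.range φ ∪ Set.range σ, ∀ i j, F.rR τ i j ∈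
      Set.range (evalCNL (R := 𝒪) (maximalIdeal DQ.R) (coord6 F φ σ half) hx) := by
    intro τ hτ
    rcases hτ with ⟨j, rfl⟩ | ⟨j, rfl⟩
    · -- `Φ_j`: `c = a j`, determinant `d j`
      refine entries_mem_range_evalCNL hlocR (coord6 F φ σ half) hx (F.rR (φ j)) (a j) (d j)
        (h2.mul (hau j)) (had j) (hdφ j) ?_ ?_ (j, 3) (j, 4) (j, 5) (hc0 _) rfl rfl
      · simpa [pivX] using hpiv j false 0 0
      · simpa [pivX] using hpiv j false 1 1
    · -- `Σ_j`: `c = 1`, determinant `1`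
      refine entries_mem_range_evalCNL hlocR (coord6 F φ σ half) hx (F.rR (σ j)) 1 1
        (by rw [mul_one]; exact h2) (by rw [one_pow, sub_self]; exact Ideal.zero_mem _)
        (by rw [hdσ j, map_one]) ?_ ?_ (j, 0) (j, 1) (j, 2) (hc0 _) rfl rfl
      · simpa [pivX] using hpiv j true 0 0
      · simpa [pivX] using hpiv j true 1 1
  obtain ⟨γ, hγ, hγX⟩ := exists_surjective_powerSeries_of_range p hp hdet hbc F
    (Set.range φ ∪ Set.range σ) (coord6 F φ σ half) hx hD g hsel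
  refine ⟨γ, hγ, fun j => ⟨⟨?_, ?_, ?_⟩, ?_, ?_, ?_⟩⟩
  · rw [hγX]; exact hc0 _
  · rw [hγX]; rfl
  · rw [hγX]; rfl
  · rw [hγX]; exact hc0 _
  · rw [hγX]; rfl
  · rw [hγX]; rfl

/-! ## The vocabulary of `IA.IAGalStatement` -/

/-- The coordinate system of `DQ.ρ.V` given by a frame. -/
def frameEquiv (F : UFrame DQ) : DQ.ρ.V ≃ₗ[DQ.R] (Fin 2 → DQ.R) :=
  F.eR.toLinearEquiv

theorem frameEquiv_apply (F : UFrame DQ) (τ : GQ) (v : DQ.ρ.V) :
    frameEquiv F (DQ.ρ.ρ τ v) = (F.rR τ).mulVec (frameEquiv F v) := F.eR.map_apply τ v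

/-- The basis of `DQ.ρ.V` given by a frame. -/
def frameBasis (F : UFrame DQ) : Module.Basis (Fin 2) DQ.R DQ.ρ.V :=
  Module.Basis.ofEquivFun (frameEquiv F)

/-- In the basis of the frame, the universal deformation has the matrices `F.rR`. -/
theorem toMatrix_frameBasis (F : UFrame DQ) (τ : GQ) :
    LinearMap.toMatrix (frameBasis F) (frameBasis F) (DQ.ρ.ρ τ) = F.rR τ := by
  classical
  ext i j
  rw [LinearMap.toMatrix_apply]
  show (Module.Basis.ofEquivFun (frameEquiv F)).repr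
    (DQ.ρ.ρ τ (Module.Basis.ofEquivFun (frameEquiv F) j)) i = F.rR τ i j
  rw [Module.Basis.ofEquivFun_repr_apply, frameEquiv_apply, Module.Basis.coe_ofEquivFun,
    LinearEquiv.apply_symm_apply]
  simp [Matrix.mulVec, dotProduct, Pi.single_apply]

/-- `LinearMap.det` of the universal deformation is the determinant of the matrix of the frame. -/
theorem det_eq_det_rR (F : UFrame DQ) (τ : GQ) :
    LinearMap.det (DQ.ρ.ρ τ) = (F.rR τ).det := by
  rw [← LinearMap.det_toMatrix (frameBasis F), toMatrix_frameBasis]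

/-- **(GAL), in the vocabulary of the frozen `IA.IAGalStatement`.** -/
theorem exists_surjective_locAmb [Finite (ResidueField 𝒪)]
    (p : ℕ) (hp : p.Prime) (h2 : IsUnit (2 : 𝒪))
    (hdet : ∀ ρ' : GaloisRepAdic (DualNumber (ResidueField 𝒪)), 𝒟 ρ' → ρ'.DetIsCyclotomic p)
    (hbc : ∀ (φ : TanHom 𝒪 DQ.R)
      (hφ : IsLocalHom (φ : DQ.R →+* DualNumber (ResidueField 𝒪))), Function.Surjective φ →
      𝒟 (DQ.ρ.baseChangeAlong (φ : DQ.R →+* DualNumber (ResidueField 𝒪)) hφ))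
    (F : UFrame DQ) (Piv : Finset ℕ) (φ σ : Piv → GQ) (a d : Piv → 𝒪)
    (hφ : ∀ j, ρbar.ρ (φ j) = residue 𝒪 (a j) • (1 : Module.End (ResidueField 𝒪) ρbar.V))
    (hσ : ∀ j, ρbar.ρ (σ j) = 1)
    (hau : ∀ j, IsUnit (a j)) (had : ∀ j, a j ^ 2 - d j ∈ maximalIdeal 𝒪)
    (hdφ : ∀ j, LinearMap.det (DQ.ρ.ρ (φ j)) = algebraMap 𝒪 DQ.R (d j))
    (hdσ : ∀ j, LinearMap.det (DQ.ρ.ρ (σ j)) = 1)
    (g : ℕ) (hsel : RelSelCob 𝒪 ρbar 𝒟 (Set.range φ ∪ Set.range σ) g) :
    ∃ γ : LocAmb 𝒪 Piv g →ₐ[𝒪] DQ.R, Function.Surjective γ ∧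
      (∀ q : Piv, IsTracelessCoords (frameBasis F) (DQ.ρ.ρ (σ q))
        (fun j => γ (vVar 𝒪 g q j))) ∧
      (∀ q : Piv, IsTracelessCoords (frameBasis F) (DQ.ρ.ρ (φ q))
        (fun j => γ (wVar 𝒪 g q j))) := by
  obtain ⟨γ, hγ, hγX⟩ := exists_surjective_coord6 p hp h2 hdet hbc F φ σ a d hφ hσ hau had
    (fun j => by rw [← det_eq_det_rR, hdφ j]) (fun j => by rw [← det_eq_det_rR, hdσ j]) g hsel
  refine ⟨γ, hγ, fun q => ?_, fun q => ?_⟩
  · obtain ⟨⟨h0, h1, h2'⟩, -⟩ := hγX q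
    refine ⟨?_, ?_, ?_⟩
    · rw [toMatrix_frameBasis]; exact h0
    · rw [toMatrix_frameBasis]; exact h1
    · rw [toMatrix_frameBasis]; exact h2'
  · obtain ⟨-, h0, h1, h2'⟩ := hγX q
    refine ⟨?_, ?_, ?_⟩
    · rw [toMatrix_frameBasis]; exact h0
    · rw [toMatrix_frameBasis]; exact h1
    · rw [toMatrix_frameBasis]; exact h2'

end Main

end

end Fermat.Agent.S38.H546

end
-- ===== PACK-END S38/H546/Coord6.lean

-- ===== PACK-BEGIN S59/H826/Cheb32.lean
section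
/-
Row S59, cell LO, leaf LO-SQ at `(p, q) = (3, 2)` — SOFT route, outer leaf CHEB32 (helper826).

`cheb32_826 : Cheb32Statement` — for a semistable `W` with irreducible `W[3]` there are primes
`r ≡ 2 mod 3`, outside any finite set, of good reduction, with `a_r(W) ≢ 0 mod 3`.

Proof.  Otherwise every `σ ∈ G_ℚ` with `χ₃(σ) = -1` is, on the field of `3`-division points,
a power of a Frobenius `τ` at a good prime `ℓ ≡ 2 mod 3` with `3 ∣ a_ℓ`
(`Lib.Cheb.frobeniusDivision`), and `τ² = a_ℓ τ - ℓ = 1` on `E[3]` (`S41.H45.frobRelTorsion_h45`):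
all elements outside `G = ker χ₃` act as involutions, so `G` acts through a commutative group
and stabilises a line over `𝔽̄₃` (`exists_stable_line_of_sq826`): this contradicts G-TW
(`S59.H405.gtw`: `E[3] ⊗ K` is irreducible on every subgroup of index `2`).
-/





set_option autoImplicit false
set_option linter.style.haveILetI false

namespace Fermat.Agent.S59.H826

open WeierstrassCurve WeierstrassCurve.Affine WeierstrassCurve.Affine.Point
open Fermat.Agent.S41.H45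
open scoped WeierstrassCurve.Affine

/-- `ℚ̄` -/
abbrev Qb826 : Type := AlgebraicClosure ℚ

/-- `G_ℚ` -/
abbrev GQ826 : Type := Qb826 ≃ₐ[ℚ] Qb826

/-- **Step 1.**  If `p ∣ a_r` for all good primes `r ≡ -1 mod p` outside `S`, then every `σ` with
`χ_p(σ) = -1` acts as an involution on `E[p]`. -/
theorem rho_mul_self_eq_one826 (p : ℕ) [NeZero p] (hp : p.Prime) (hp2 : p ≠ 2)
    (W : WeierstrassCurve ℤ) (hΔ : W.Δ ≠ 0) (S : Finset ℕ)
    (hcon : ∀ r : ℕ, r.Prime → r ∉ S → W.IsGoodPrimeFor r → p ∣ r + 1 →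
      (p : ℤ) ∣ W.apOfModel r)
    {ζ : Qb826} (hζ : IsPrimitiveRoot ζ p) (σ : GQ826) (hσ : hζ.autToPow ℚ σ = -1) :
    galoisRepModuleEnd (K := Qb826) ℚ (W.map (Int.castRingHom ℚ)) p σ *
      galoisRepModuleEnd (K := Qb826) ℚ (W.map (Int.castRingHom ℚ)) p σ = 1 := by
  classical
  haveI := isElliptic_map826 W hΔ
  have hW := isIntegralModelOf_self826 W
  obtain ⟨L₁, hL₁fin, hL₁⟩ := torsionField_h45 (W.map (Int.castRingHom ℚ)) p hp.pos
  obtain ⟨L₂, hL₂fin, hL₂⟩ := rootField_h45 p hp.pos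
  have hLfin : FiniteDimensional ℚ ↥(L₁ ⊔ L₂) := IntermediateField.finiteDimensional_sup L₁ L₂
  have hζL : ζ ∈ L₁ ⊔ L₂ := (le_sup_right : L₂ ≤ L₁ ⊔ L₂) (hL₂ ζ hζ.pow_eq_one)
  obtain ⟨ℓ, A, τ, k, j, hℓ, hℓS, hA, hτ, -, hk, hj⟩ :=
    Fermat.Agent.Lib.Cheb.frobeniusDivision (L₁ ⊔ L₂) hLfin σ
      (S ∪ Finset.range 5 ∪ {p} ∪ W.Δ.natAbs.primeFactors)
  simp only [Finset.mem_union, Finset.mem_range, Finset.mem_singleton, not_or] at hℓS
  obtain ⟨⟨⟨hℓS, hℓ5⟩, hℓp⟩, hℓΔ⟩ := hℓS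
  have h5 : 5 ≤ ℓ := not_lt.mp hℓ5
  have hgood : W.IsGoodPrimeFor ℓ := by
    intro hdvd
    apply hℓΔ
    rw [Nat.mem_primeFactors]
    exact ⟨hℓ, Int.natCast_dvd.mp hdvd, Int.natAbs_ne_zero.mpr hΔ⟩
  have hℓp' : ¬ ℓ ∣ p := fun h => hℓp ((Nat.prime_dvd_prime_iff_eq hℓ hp).mp h)
  have hχτ : ((hζ.autToPow ℚ τ : (ZMod p)ˣ) : ZMod p) = (ℓ : ZMod p) :=
    chi_frob_h45 hζ hℓ hℓp' A τ hA hτ
  have h1 : hζ.autToPow ℚ σ = hζ.autToPow ℚ τ ^ j := by
    rw [← map_pow]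
    exact chi_eq_of_apply_eq_h45 hζ σ (τ ^ j) (hj ζ hζL).symm
  have h2 : hζ.autToPow ℚ τ = hζ.autToPow ℚ σ ^ k := by
    rw [← map_pow]
    exact chi_eq_of_apply_eq_h45 hζ τ (σ ^ k) (hk ζ hζL)
  haveI : Fact p.Prime := ⟨hp⟩
  have hneg : (-1 : (ZMod p)ˣ) ≠ 1 := by
    intro h
    have h' := congrArg (fun u : (ZMod p)ˣ => (u : ZMod p)) h
    simp only [Units.val_neg, Units.val_one] at h'
    have h2' : (2 : ZMod p) = 0 := by linear_combination -h'
    have h3' : ((2 : ℕ) : ZMod p) = 0 := by exact_mod_cast h2'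
    rw [ZMod.natCast_eq_zero_iff] at h3'
    exact hp2 ((Nat.prime_dvd_prime_iff_eq hp Nat.prime_two).mp h3')
  have h3 : hζ.autToPow ℚ τ = -1 := by
    rw [hσ] at h2 h1
    rcases Nat.even_or_odd k with hk' | hk'
    · rw [hk'.neg_one_pow] at h2
      rw [h2, one_pow] at h1
      exact absurd h1 hneg
    · rw [hk'.neg_one_pow] at h2
      exact h2
  have h4 : p ∣ ℓ + 1 := by
    rw [h3] at hχτ
    rw [← ZMod.natCast_eq_zero_iff]
    push_cast
    rw [← hχτ]
    simp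
  obtain ⟨c, hc⟩ := hcon ℓ hℓ hℓS hgood h4
  obtain ⟨d, hd⟩ := h4
  have hrel := frobRelTorsion_h45 (W.map (Int.castRingHom ℚ)) W hW p ℓ hp hℓ h5 hℓp hgood A τ hA hτ
  -- `τ² = 1` on `E[p]`
  have hττ : ∀ Q : Submodule.torsionBy ℤ ((W.map (Int.castRingHom ℚ))⁄Qb826).Point p,
      τ • τ • Q = Q := by
    intro Q
    have hQ := hrel Q
    have hp0 : ∀ X : Submodule.torsionBy ℤ ((W.map (Int.castRingHom ℚ))⁄Qb826).Point p,
        (p : ℤ) • X = 0 := fun X => Submodule.smul_torsionBy _ X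
    have ha : W.apOfModel ℓ • τ • Q = 0 := by
      rw [hc, mul_comm, mul_smul, hp0, smul_zero]
    have hl : (ℓ : ℤ) • Q = -Q := by
      have : (ℓ : ℤ) = d * p - 1 := by
        have : ((ℓ + 1 : ℕ) : ℤ) = ((p * d : ℕ) : ℤ) := by rw [hd]
        push_cast at this
        linarith
      rw [this, sub_smul, mul_smul, hp0, smul_zero, one_smul, zero_sub]
    rw [ha, hl, sub_zero] at hQ
    exact add_neg_eq_zero.mp hQ
  have hτ1 : galoisRepModuleEnd (K := Qb826) ℚ (W.map (Int.castRingHom ℚ)) p τ *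
      galoisRepModuleEnd (K := Qb826) ℚ (W.map (Int.castRingHom ℚ)) p τ = 1 := by
    apply LinearMap.ext
    intro Q
    exact hττ Q
  have hστ : galoisRepModuleEnd (K := Qb826) ℚ (W.map (Int.castRingHom ℚ)) p σ
      = galoisRepModuleEnd (K := Qb826) ℚ (W.map (Int.castRingHom ℚ)) p τ ^ j := by
    rw [← map_pow]
    apply LinearMap.ext
    intro Q
    exact hL₁ σ (τ ^ j) (fun x hx => (hj x ((le_sup_left : L₁ ≤ L₁ ⊔ L₂) hx)).symm) Q
  rw [hστ, ← pow_add, ← two_mul, pow_mul, pow_two, hτ1, one_pow]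

theorem units_zmod_three826 : ∀ u : (ZMod 3)ˣ, u = 1 ∨ u = -1 := by decide

/-- the kernel of the mod `3` cyclotomic character has index `2` -/
theorem index_ker_chi3_826 {ζ : Qb826} (hζ : IsPrimitiveRoot ζ 3) :
    (hζ.autToPow ℚ).ker.index = 2 := by
  rw [Subgroup.index_ker]
  have hall := units_zmod_three826
  have htop : (hζ.autToPow ℚ).range = ⊤ := by
    rw [eq_top_iff]
    intro u _
    rcases hall u with h | h
    · rw [h]
      exact Subgroup.one_mem _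
    · rw [h]
      exact ⟨complexConjugation, chi_complexConjugation_h45 hζ⟩
  rw [htop, Nat.card_congr (Subgroup.topEquiv (G := (ZMod 3)ˣ)).toEquiv, Nat.card_eq_fintype_card,
    ZMod.card_units_eq_totient]
  decide

/-- **CHEB32.** -/
theorem cheb32_826 : Cheb32Statement := by
  intro W hΔ hW hirr S
  by_contra hcon
  push Not at hcon
  haveI : Fact (Nat.Prime 3) := ⟨by norm_num⟩
  haveI := isElliptic_map826 W hΔ
  haveI : ((W.map (Int.castRingHom ℚ))⁄Qb826).IsElliptic :=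
    inferInstanceAs ((W.map (Int.castRingHom ℚ)).map (algebraMap ℚ Qb826)).IsElliptic
  have hcard := Fermat.Agent.S59.H127.card_torsion_prime (W.map (Int.castRingHom ℚ)) 3
  have hker := Fermat.Agent.S59.H127.galoisFactorsThroughFiniteLevel_torsion
    (W.map (Int.castRingHom ℚ)) 3 (by norm_num)
  obtain ⟨ζ, hζ⟩ := HasEnoughRootsOfUnity.exists_primitiveRoot Qb826 3
  have hG := index_ker_chi3_826 hζ
  have hall := units_zmod_three826
  -- involutions outside `G`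
  have hsq₀ : ∀ σ : GQ826, σ ∉ (hζ.autToPow ℚ).ker →
      galoisRepModuleEnd (K := Qb826) ℚ (W.map (Int.castRingHom ℚ)) 3 σ *
        galoisRepModuleEnd (K := Qb826) ℚ (W.map (Int.castRingHom ℚ)) 3 σ = 1 := by
    intro σ hσ
    have hσ' : hζ.autToPow ℚ σ = -1 := by
      rcases hall (hζ.autToPow ℚ σ) with h | h
      · exact absurd (MonoidHom.mem_ker.mpr h) hσ
      · exact h
    refine rho_mul_self_eq_one826 3 (by norm_num) (by norm_num) W hΔ S ?_ hζ σ hσ'
    intro r hr hrS hgood h3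
    exact hcon r hr hrS hgood (by omega)
  set ρ₀ : ResidualGaloisRep (ZMod 3) :=
    (W.map (Int.castRingHom ℚ)).residualGaloisRepOf 3 hcard hker with hρ₀
  set ρbar : ResidualGaloisRep (ZMod 3) := ρ₀.baseChangeAlong (RingHom.id (ZMod 3)) with hρbar
  have htop : ∀ τ : GQ826, ρ₀.ρ τ = 1 →
      (ρbar.baseChange (AlgebraicClosure (ZMod 3))).ρ τ = 1 := by
    intro τ h
    have h1 : ρbar.ρ τ = 1 := by
      letI : Algebra (ZMod 3) (ZMod 3) := (RingHom.id (ZMod 3)).toAlgebra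
      show LinearMap.baseChange (ZMod 3) (ρ₀.ρ τ) = 1
      rw [h, LinearMap.baseChange_one]
    show LinearMap.baseChange (AlgebraicClosure (ZMod 3)) (ρbar.ρ τ) = 1
    rw [h1, LinearMap.baseChange_one]
  obtain ⟨V, hVbot, hVtop, hVstab⟩ :=
    exists_stable_line_of_sq826 (ρbar.baseChange (AlgebraicClosure (ZMod 3))).finrank_eq
      (ρbar.baseChange (AlgebraicClosure (ZMod 3))).ρ (hζ.autToPow ℚ).ker hG
      (fun σ hσ => by
        rw [← map_mul]
        apply htop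
        rw [map_mul]
        exact hsq₀ σ hσ)
  rcases Fermat.Agent.S59.H405.gtw 3 (Or.inl rfl) W hΔ hW hirr hcard hker (ZMod 3)
      (RingHom.id (ZMod 3)) ρbar ⟨ResidualGaloisRep.Equiv.refl _⟩
      (AlgebraicClosure (ZMod 3)) (hζ.autToPow ℚ).ker hG V hVstab with h | h
  · exact hVbot h
  · exact hVtop h

end Fermat.Agent.S59.H826

end
-- ===== PACK-END S59/H826/Cheb32.lean

-- ===== PACK-BEGIN S59/H316/Odd.lean
section
/-
Row S59, cell LO, leaf LO-SQ at `(p, q) = (3, 2)` — block B-HECKE, part 1 (helper316).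

Reduction modulo `2` and Hecke representatives which are `≡ 1 mod 2`.

* `red2 : SL(2, ℤ) →* SL(2, 𝔽₂)`;
* `IsOddRep X` : `X ∈ GL(2, ℝ)` is an integral matrix `≡ 1 mod 2`;
* `red2_eq_of_rel` : `X g = g' Y` with `X`, `Y` odd implies `g' ≡ g mod 2`;
* `oddRep ℓ : ℙ¹(𝔽_ℓ) → GL(2, ℝ)` : the representatives `[[1, j̃], [0, ℓ]]` (`j̃ ≡ j mod ℓ` even) and
  `[[ℓ, 0], [0, 1]]` of `T_ℓ`, independent of the level;
* `oddSystem` : they form a coset system from `Γ₀(M)` to `Γ₀(M)` (`ℓ ∤ M`) with transfer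
  `heckeTransfer`, and for `ℓ` odd its cocycle preserves the reduction modulo `2`
  (`oddSystem_red2`).
-/



set_option autoImplicit false

namespace Fermat.Agent.S59.H316

open CongruenceSubgroup Matrix.SpecialLinearGroup
open Fermat.Agent.S41.Spec Fermat.Agent.S29.H642 Fermat.Agent.S41.H761
open Fermat.Agent.S59.MFree Fermat.Agent.S59.MFree.H587 Fermat.Agent.S59.TW.H653
open P2MW.S_ModularForm_heckeT_slash_eq_self_of_mem_Gamma0.ModularForm.HeckeSlashInvariance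
open scoped MatrixGroups

/-- `SL(2, 𝔽₂)`. -/
abbrev S2 : Type := Matrix.SpecialLinearGroup (Fin 2) (ZMod 2)

/-- Reduction modulo `2`. -/
def red2 : SL(2, ℤ) →* S2 := Matrix.SpecialLinearGroup.map (Int.castRingHom (ZMod 2))

theorem red2_apply (g : SL(2, ℤ)) (i j : Fin 2) : (red2 g) i j = ((g i j : ℤ) : ZMod 2) := rfl

theorem red2_ker : red2.ker = Gamma 2 := rfl

theorem s2_ext {x y : S2} (h00 : x 0 0 = y 0 0) (h01 : x 0 1 = y 0 1) (h10 : x 1 0 = y 1 0)
    (h11 : x 1 1 = y 1 1) : x = y := by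
  apply Subtype.ext
  ext i j
  fin_cases i <;> fin_cases j
  · exact h00
  · exact h01
  · exact h10
  · exact h11

theorem zmod2_eq_iff (a b : ℤ) : ((a : ℤ) : ZMod 2) = ((b : ℤ) : ZMod 2) ↔ (2 : ℤ) ∣ a - b := by
  rw [← sub_eq_zero, ← Int.cast_sub]
  exact ZMod.intCast_zmod_eq_zero_iff_dvd (a - b) 2

theorem red2_eq_iff (g g' : SL(2, ℤ)) :
    red2 g = red2 g' ↔ ∀ i j, (2 : ℤ) ∣ g i j - g' i j := by
  constructor
  · intro h i j
    rw [← zmod2_eq_iff, ← red2_apply, ← red2_apply, h]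
  · intro h
    apply s2_ext <;> rw [red2_apply, red2_apply, zmod2_eq_iff] <;> exact h _ _

/-- `X ∈ GL(2, ℝ)` is an integral matrix congruent to `1` modulo `2`. -/
def IsOddRep (X : GL (Fin 2) ℝ) : Prop :=
  ∃ a b c d : ℤ, (2 : ℤ) ∣ a - 1 ∧ (2 : ℤ) ∣ b ∧ (2 : ℤ) ∣ c ∧ (2 : ℤ) ∣ d - 1 ∧
    (X : Matrix (Fin 2) (Fin 2) ℝ) = !![(a : ℝ), (b : ℝ); (c : ℝ), (d : ℝ)]

/-- If `X * g = g' * Y` with `X`, `Y` odd, then `g' ≡ g mod 2`. -/
theorem red2_eq_of_rel {X Y : GL (Fin 2) ℝ} (hX : IsOddRep X) (hY : IsOddRep Y)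
    {g g' : SL(2, ℤ)} (e : X * mapGL ℝ g = mapGL ℝ g' * Y) : red2 g' = red2 g := by
  obtain ⟨a, b, c, d, ha, hb, hc, hd, hXe⟩ := hX
  obtain ⟨a', b', c', d', ha', hb', hc', hd', hYe⟩ := hY
  have e00 := congrArg (fun Z : GL (Fin 2) ℝ => (Z : Matrix (Fin 2) (Fin 2) ℝ) 0 0) e
  have e01 := congrArg (fun Z : GL (Fin 2) ℝ => (Z : Matrix (Fin 2) (Fin 2) ℝ) 0 1) e
  have e10 := congrArg (fun Z : GL (Fin 2) ℝ => (Z : Matrix (Fin 2) (Fin 2) ℝ) 1 0) e
  have e11 := congrArg (fun Z : GL (Fin 2) ℝ => (Z : Matrix (Fin 2) (Fin 2) ℝ) 1 1) e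
  simp only [coe_mul_apply, coe_mapGL_apply, hXe, hYe, Matrix.of_apply, Matrix.cons_val',
    Matrix.cons_val_zero, Matrix.cons_val_one, Matrix.cons_val_fin_one] at e00 e01 e10 e11
  have i00 : a * g 0 0 + b * g 1 0 = g' 0 0 * a' + g' 0 1 * c' := by exact_mod_cast e00
  have i01 : a * g 0 1 + b * g 1 1 = g' 0 0 * b' + g' 0 1 * d' := by exact_mod_cast e01
  have i10 : c * g 0 0 + d * g 1 0 = g' 1 0 * a' + g' 1 1 * c' := by exact_mod_cast e10
  have i11 : c * g 0 1 + d * g 1 1 = g' 1 0 * b' + g' 1 1 * d' := by exact_mod_cast e11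
  obtain ⟨ka, hka⟩ := ha
  obtain ⟨kb, hkb⟩ := hb
  obtain ⟨kc, hkc⟩ := hc
  obtain ⟨kd, hkd⟩ := hd
  obtain ⟨ka', hka'⟩ := ha'
  obtain ⟨kb', hkb'⟩ := hb'
  obtain ⟨kc', hkc'⟩ := hc'
  obtain ⟨kd', hkd'⟩ := hd'
  have ea : a = 1 + 2 * ka := by linarith
  have ed : d = 1 + 2 * kd := by linarith
  have ea' : a' = 1 + 2 * ka' := by linarith
  have ed' : d' = 1 + 2 * kd' := by linarith
  subst ea ed ea' ed' hkb hkc hkb' hkc'
  rw [red2_eq_iff]
  intro i j
  fin_cases i <;> fin_cases j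
  · exact ⟨ka * g 0 0 + kb * g 1 0 - g' 0 0 * ka' - g' 0 1 * kc', by
      simp only [Fin.zero_eta, Fin.isValue]; linear_combination -i00⟩
  · exact ⟨ka * g 0 1 + kb * g 1 1 - g' 0 0 * kb' - g' 0 1 * kd', by
      simp only [Fin.zero_eta, Fin.mk_one, Fin.isValue]; linear_combination -i01⟩
  · exact ⟨kc * g 0 0 + kd * g 1 0 - g' 1 0 * ka' - g' 1 1 * kc', by
      simp only [Fin.zero_eta, Fin.mk_one, Fin.isValue]; linear_combination -i10⟩
  · exact ⟨kc * g 0 1 + kd * g 1 1 - g' 1 0 * kb' - g' 1 1 * kd', by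
      simp only [Fin.mk_one, Fin.isValue]; linear_combination -i11⟩

/-! ## The odd representatives of `T_ℓ` -/

/-- `0` if `j` is even, `1` if `j` is odd: `j + oddShift ℓ j * ℓ` is even for `ℓ` odd. -/
def oddShift (ℓ : ℕ) (j : ZMod ℓ) : ℤ := if Even j.val then 0 else 1

/-- The twisting family: translations by `oddShift`, and `1` at `∞`. -/
noncomputable def wOdd (M ℓ : ℕ) (x : OnePoint (ZMod ℓ)) : Gamma0 M :=
  x.elim 1 (fun j => transl M (oddShift ℓ j))

@[simp] theorem wOdd_infty (M ℓ : ℕ) : wOdd M ℓ OnePoint.infty = 1 := rfl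

@[simp] theorem wOdd_coe (M ℓ : ℕ) (j : ZMod ℓ) :
    wOdd M ℓ (j : OnePoint (ZMod ℓ)) = transl M (oddShift ℓ j) := rfl

/-- The coercion of `wOdd` to `SL(2, ℤ)` does not depend on the level. -/
theorem wOdd_coe_eq (M M' ℓ : ℕ) (x : OnePoint (ZMod ℓ)) :
    ((wOdd M ℓ x : Gamma0 M) : SL(2, ℤ)) = ((wOdd M' ℓ x : Gamma0 M') : SL(2, ℤ)) := by
  induction x using OnePoint.rec with
  | infty => rfl
  | coe j => rfl

/-- **The odd representatives of `T_ℓ`** (independent of the level). -/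
noncomputable def oddRep (ℓ : ℕ) (x : OnePoint (ZMod ℓ)) : GL (Fin 2) ℝ :=
  ιN 1 (wOdd 1 ℓ x) * heckeRep ℓ x

theorem oddRep_eq (M ℓ : ℕ) (x : OnePoint (ZMod ℓ)) :
    oddRep ℓ x = ιN M (wOdd M ℓ x) * heckeRep ℓ x := by
  unfold oddRep
  rw [ιN_apply, ιN_apply, wOdd_coe_eq 1 M]

theorem oddRep_funext (M ℓ : ℕ) : oddRep ℓ = fun x => ιN M (wOdd M ℓ x) * heckeRep ℓ x :=
  funext (oddRep_eq M ℓ)

section Prime

variable {ℓ : ℕ} [Fact ℓ.Prime]

theorem coe_oddRep_infty :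
    ((oddRep ℓ OnePoint.infty : GL (Fin 2) ℝ) : Matrix (Fin 2) (Fin 2) ℝ) =
      !![(ℓ : ℝ), 0; 0, 1] := by
  unfold oddRep
  rw [wOdd_infty, map_one, one_mul, coe_heckeRep_infty]

theorem coe_oddRep_coe (j : ZMod ℓ) :
    ((oddRep ℓ (j : OnePoint (ZMod ℓ)) : GL (Fin 2) ℝ) : Matrix (Fin 2) (Fin 2) ℝ) =
      !![(1 : ℝ), ((j.val : ℝ) + (oddShift ℓ j : ℝ) * (ℓ : ℝ)); 0, (ℓ : ℝ)] := by
  unfold oddRep
  rw [wOdd_coe, Matrix.GeneralLinearGroup.coe_mul, coe_transl, coe_heckeRep_coe]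
  ext i k
  fin_cases i <;> fin_cases k <;> simp [Matrix.mul_apply, Fin.sum_univ_two]

omit [Fact (Nat.Prime ℓ)] in
theorem oddShift_spec (hodd : Odd ℓ) (j : ZMod ℓ) :
    (2 : ℤ) ∣ (j.val : ℤ) + oddShift ℓ j * (ℓ : ℤ) := by
  unfold oddShift
  split_ifs with h
  · obtain ⟨m, hm⟩ := h
    exact ⟨m, by rw [hm]; push_cast; ring⟩
  · rw [Nat.not_even_iff_odd] at h
    obtain ⟨m, hm⟩ := h
    obtain ⟨n, hn⟩ := hodd
    exact ⟨m + n + 1, by rw [hm, hn]; push_cast; ring⟩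

theorem isOddRep_oddRep (hodd : Odd ℓ) (x : OnePoint (ZMod ℓ)) : IsOddRep (oddRep ℓ x) := by
  induction x using OnePoint.rec with
  | infty =>
    obtain ⟨n, hn⟩ := hodd
    refine ⟨ℓ, 0, 0, 1, ⟨n, by rw [hn]; push_cast; ring⟩, dvd_zero _, dvd_zero _,
      by simp, ?_⟩
    rw [coe_oddRep_infty]
    simp
  | coe j =>
    refine ⟨1, (j.val : ℤ) + oddShift ℓ j * (ℓ : ℤ), 0, ℓ, by simp, oddShift_spec hodd j,
      dvd_zero _, ?_, ?_⟩
    · obtain ⟨n, hn⟩ := hodd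
      exact ⟨n, by rw [hn]; push_cast; ring⟩
    · rw [coe_oddRep_coe]
      push_cast
      rfl

variable {M : ℕ}

/-- The odd representatives form a coset system from `Γ₀(M)` to `Γ₀(M)`. -/
theorem oddSystem (hl : ¬ ℓ ∣ M) : IsCosetSystem (ιN M) (ιN M) (oddRep ℓ) := by
  rw [oddRep_funext M ℓ]
  exact twistSystem (heckeSystem hl) (wOdd M ℓ)

/-- Its transfer is the Hecke operator `T_ℓ` of rows S29/S41. -/
theorem oddSystem_transfer {A : Type*} [AddCommGroup A] (hl : ¬ ℓ ∣ M)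
    (φ : Additive (Gamma0 M) →+ A) : (oddSystem hl).transfer φ = heckeTransfer hl φ := by
  rw [heckeTransfer_eq_transfer, ← twistSystem_transfer (heckeSystem hl) (wOdd M ℓ) φ]
  refine AddMonoidHom.ext fun g' => ?_
  obtain ⟨g, rfl⟩ : ∃ g : Gamma0 M, Additive.ofMul g = g' := ⟨Additive.toMul g', rfl⟩
  rw [IsCosetSystem.transfer_apply, IsCosetSystem.transfer_apply]
  refine Finset.sum_congr rfl fun x _ => ?_
  congr 2
  apply (oddSystem hl).coc_eq (j := (twistSystem (heckeSystem hl) (wOdd M ℓ)).act x g)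
  rw [oddRep_eq M ℓ x, oddRep_eq M ℓ]
  exact (twistSystem (heckeSystem hl) (wOdd M ℓ)).spec x g

/-- For `ℓ` odd the cocycle of the odd system preserves the reduction modulo `2`. -/
theorem oddSystem_red2 (hl : ¬ ℓ ∣ M) (hodd : Odd ℓ) (x : OnePoint (ZMod ℓ)) (g : Gamma0 M) :
    red2 (((oddSystem hl).coc x g : Gamma0 M) : SL(2, ℤ)) = red2 (g : SL(2, ℤ)) := by
  have h := (oddSystem hl).spec x g
  rw [ιN_apply, ιN_apply] at h
  exact red2_eq_of_rel (isOddRep_oddRep hodd x) (isOddRep_oddRep hodd _) h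

end Prime

end Fermat.Agent.S59.H316

end
-- ===== PACK-END S59/H316/Odd.lean

-- ===== PACK-BEGIN S59/H316/Sub.lean
section
/-
Row S59, cell LO, leaf LO-SQ at `(p, q) = (3, 2)` — block B-HECKE, part 2 (helper316).

Hecke operators attached to the odd representatives on `Hom(G, A)`, for subgroups
`G ≤ SL(2, ℤ)`, and their compatibility with restriction, corestriction and conjugation.

* `OddSys ℓ G`   : the odd representatives of `T_ℓ` form a coset system from `G` to `G`;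
* `TO ℓ G`       : the operator `T_ℓ` on `Hom(G, A)` (`sysOp`, independent of all choices);
* `OddSys.restrict` : `OddSys ℓ G` passes to the subgroups `K ≤ G` which are unions of fibres of
  the reduction modulo `2`;
* `res_TO`, `cor_TO`, `conj_TO` : compatibilities (the last two for `K = G ∩ Γ(2)`, from
  `MFree.H587.KappaSystem`);
* `conjS` : the conjugation operators `φ ↦ φ ∘ (k ↦ g⁻¹ k g)`; `res_cor` : `res ∘ cor` is the sum
  of the conjugation operators over `G ⧸ K`.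
-/


set_option autoImplicit false
set_option linter.unusedSectionVars false

namespace Fermat.Agent.S59.H316

open CongruenceSubgroup Matrix.SpecialLinearGroup
open Fermat.Agent.S41.Spec Fermat.Agent.S29.H642 Fermat.Agent.S41.H761
open Fermat.Agent.S59.MFree Fermat.Agent.S59.MFree.H587 Fermat.Agent.S59.TW.H653
open P2MW.S_ModularForm_heckeT_slash_eq_self_of_mem_Gamma0.ModularForm.HeckeSlashInvariance
open scoped MatrixGroups

/-! ## Conjugation operators -/

section Conj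

variable {A : Type*} [AddCommGroup A]

/-- Conjugation `k ↦ g⁻¹ k g` on a subgroup `K` normalised by `g`. -/
def conjSHom (K : Subgroup SL(2, ℤ)) (g : SL(2, ℤ)) (hg : ∀ k ∈ K, g⁻¹ * k * g ∈ K) : K →* K where
  toFun k := ⟨g⁻¹ * k * g, hg k k.2⟩
  map_one' := by
    apply Subtype.ext
    simp
  map_mul' a b := by
    apply Subtype.ext
    simp only [Subgroup.coe_mul]
    group

@[simp] theorem conjSHom_coe (K : Subgroup SL(2, ℤ)) (g : SL(2, ℤ))
    (hg : ∀ k ∈ K, g⁻¹ * k * g ∈ K) (k : K) :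
    ((conjSHom K g hg k : K) : SL(2, ℤ)) = g⁻¹ * k * g := rfl

/-- The conjugation operator `(g • φ)(k) = φ (g⁻¹ k g)` on `Hom(K, A)`. -/
def conjS (K : Subgroup SL(2, ℤ)) (g : SL(2, ℤ)) (hg : ∀ k ∈ K, g⁻¹ * k * g ∈ K)
    (φ : Additive K →+ A) : Additive K →+ A :=
  φ.comp (MonoidHom.toAdditive (conjSHom K g hg))

@[simp] theorem conjS_apply (K : Subgroup SL(2, ℤ)) (g : SL(2, ℤ))
    (hg : ∀ k ∈ K, g⁻¹ * k * g ∈ K) (φ : Additive K →+ A) (k : K) :
    conjS K g hg φ (Additive.ofMul k) = φ (Additive.ofMul (conjSHom K g hg k)) := rfl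

theorem conjS_add (K : Subgroup SL(2, ℤ)) (g : SL(2, ℤ)) (hg : ∀ k ∈ K, g⁻¹ * k * g ∈ K)
    (φ ψ : Additive K →+ A) : conjS K g hg (φ + ψ) = conjS K g hg φ + conjS K g hg ψ :=
  AddMonoidHom.add_comp _ _ _

theorem conjS_sub (K : Subgroup SL(2, ℤ)) (g : SL(2, ℤ)) (hg : ∀ k ∈ K, g⁻¹ * k * g ∈ K)
    (φ ψ : Additive K →+ A) : conjS K g hg (φ - ψ) = conjS K g hg φ - conjS K g hg ψ :=
  AddMonoidHom.sub_comp _ _ _

theorem conjS_mul (K : Subgroup SL(2, ℤ)) (g g' : SL(2, ℤ)) (hg : ∀ k ∈ K, g⁻¹ * k * g ∈ K)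
    (hg' : ∀ k ∈ K, g'⁻¹ * k * g' ∈ K) (hgg' : ∀ k ∈ K, (g * g')⁻¹ * k * (g * g') ∈ K)
    (φ : Additive K →+ A) : conjS K g hg (conjS K g' hg' φ) = conjS K (g * g') hgg' φ := by
  refine AddMonoidHom.ext fun k' => ?_
  obtain ⟨k, rfl⟩ : ∃ k : K, Additive.ofMul k = k' := ⟨Additive.toMul k', rfl⟩
  have e : conjSHom K g' hg' (conjSHom K g hg k) = conjSHom K (g * g') hgg' k := by
    apply Subtype.ext
    simp only [conjSHom_coe, mul_inv_rev, mul_assoc]
  show φ (Additive.ofMul (conjSHom K g' hg' (conjSHom K g hg k))) =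
    φ (Additive.ofMul (conjSHom K (g * g') hgg' k))
  rw [e]

/-- Conjugation by an element of `K` is trivial on `Hom(K, A)`. -/
theorem conjS_of_mem (K : Subgroup SL(2, ℤ)) (g : SL(2, ℤ)) (hg : ∀ k ∈ K, g⁻¹ * k * g ∈ K)
    (hgK : g ∈ K) (φ : Additive K →+ A) : conjS K g hg φ = φ := by
  refine AddMonoidHom.ext fun k' => ?_
  obtain ⟨k, rfl⟩ : ∃ k : K, Additive.ofMul k = k' := ⟨Additive.toMul k', rfl⟩
  rw [conjS_apply]
  have e : conjSHom K g hg k = (⟨g, hgK⟩ : K)⁻¹ * k * ⟨g, hgK⟩ := by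
    apply Subtype.ext
    simp
  rw [e]
  simp only [ofMul_mul, ofMul_inv, map_add, map_neg]
  abel

/-- The conjugation operator of `g` only depends on the class of `g` modulo `K`. -/
theorem conjS_congr (K : Subgroup SL(2, ℤ)) (g g' : SL(2, ℤ)) (hg : ∀ k ∈ K, g⁻¹ * k * g ∈ K)
    (hg' : ∀ k ∈ K, g'⁻¹ * k * g' ∈ K) (h : g⁻¹ * g' ∈ K) (φ : Additive K →+ A) :
    conjS K g' hg' φ = conjS K g hg φ := by
  refine AddMonoidHom.ext fun k' => ?_
  obtain ⟨k, rfl⟩ : ∃ k : K, Additive.ofMul k = k' := ⟨Additive.toMul k', rfl⟩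
  rw [conjS_apply, conjS_apply]
  have e : conjSHom K g' hg' k = (⟨g⁻¹ * g', h⟩ : K)⁻¹ * conjSHom K g hg k * ⟨g⁻¹ * g', h⟩ := by
    apply Subtype.ext
    simp only [conjSHom_coe, Subgroup.coe_mul, Subgroup.coe_inv]
    group
  rw [e]
  simp only [ofMul_mul, ofMul_inv, map_add, map_neg]
  abel

/-- Restriction commutes with conjugation. -/
theorem resK_conjS {K K' : Subgroup SL(2, ℤ)} (h : K' ≤ K) (g : SL(2, ℤ))
    (hg : ∀ k ∈ K, g⁻¹ * k * g ∈ K) (hg' : ∀ k ∈ K', g⁻¹ * k * g ∈ K')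
    (φ : Additive K →+ A) : resK h (conjS K g hg φ) = conjS K' g hg' (resK h φ) := rfl

end Conj

/-! ## The odd Hecke operators -/

section Odd

variable {ℓ : ℕ} [Fact ℓ.Prime] {A : Type*} [AddCommGroup A]

/-- The odd representatives of `T_ℓ` form a coset system from `G` to `G`. -/
def OddSys (ℓ : ℕ) (G : Subgroup SL(2, ℤ)) : Prop :=
  IsCosetSystem (ιK G) (ιK G) (oddRep ℓ)

theorem oddSys_Gamma0 {M : ℕ} (hl : ¬ ℓ ∣ M) : OddSys ℓ (Gamma0 M) := oddSystem hl

/-- The cocycle preserves the reduction modulo `2` (`ℓ` odd). -/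
theorem OddSys.red2_coc {G : Subgroup SL(2, ℤ)} (h : OddSys ℓ G) (hodd : Odd ℓ)
    (x : OnePoint (ZMod ℓ)) (g : G) :
    red2 (((IsCosetSystem.coc h x g : G)) : SL(2, ℤ)) = red2 (g : SL(2, ℤ)) := by
  have h1 := IsCosetSystem.spec h x g
  exact red2_eq_of_rel (isOddRep_oddRep hodd x) (isOddRep_oddRep hodd _) h1

/-- `OddSys` passes to the subgroups which are unions of fibres of the reduction modulo `2`. -/
theorem OddSys.restrict {G K : Subgroup SL(2, ℤ)} (h : OddSys ℓ G) (hodd : Odd ℓ) (hKG : K ≤ G)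
    (hK : ∀ g ∈ G, ∀ k ∈ K, red2 g = red2 k → g ∈ K) : OddSys ℓ K where
  inj := ιK_injective K
  exists_mul := by
    intro i k
    have hmem : ((IsCosetSystem.coc h i (Subgroup.inclusion hKG k) : G) : SL(2, ℤ)) ∈ K :=
      hK _ (IsCosetSystem.coc h i (Subgroup.inclusion hKG k)).2 _ k.2
        (h.red2_coc hodd i (Subgroup.inclusion hKG k))
    exact ⟨IsCosetSystem.act h i (Subgroup.inclusion hKG k), ⟨_, hmem⟩,
      IsCosetSystem.spec h i (Subgroup.inclusion hKG k)⟩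
  eq_of_mul := fun i j k e => IsCosetSystem.eq_of_mul h i j (Subgroup.inclusion hKG k) e

theorem OddSys.coc_of_le {G K : Subgroup SL(2, ℤ)} (h : OddSys ℓ G) (h' : OddSys ℓ K)
    (hKG : K ≤ G) (i : OnePoint (ZMod ℓ)) (k : K) :
    IsCosetSystem.coc h i (Subgroup.inclusion hKG k) =
      Subgroup.inclusion hKG (IsCosetSystem.coc h' i k) := by
  apply IsCosetSystem.coc_eq h (j := IsCosetSystem.act h' i k)
  exact IsCosetSystem.spec h' i k

theorem OddSys.act_of_le {G K : Subgroup SL(2, ℤ)} (h : OddSys ℓ G) (h' : OddSys ℓ K)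
    (hKG : K ≤ G) (i : OnePoint (ZMod ℓ)) (k : K) :
    IsCosetSystem.act h i (Subgroup.inclusion hKG k) = IsCosetSystem.act h' i k := by
  apply IsCosetSystem.act_eq h (g := Subgroup.inclusion hKG (IsCosetSystem.coc h' i k))
  exact IsCosetSystem.spec h' i k

/-- **The Hecke operator `T_ℓ` on `Hom(G, A)`** (transfer of the odd representatives). -/
noncomputable def TO (ℓ : ℕ) [Fact ℓ.Prime] (G : Subgroup SL(2, ℤ)) (φ : Additive G →+ A) :
    Additive G →+ A :=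
  sysOp (ιK G) (oddRep ℓ) φ

theorem TO_eq {G : Subgroup SL(2, ℤ)} (h : OddSys ℓ G) (φ : Additive G →+ A) :
    TO ℓ G φ = IsCosetSystem.transfer h φ := sysOp_eq h φ

theorem TO_apply {G : Subgroup SL(2, ℤ)} (h : OddSys ℓ G) (φ : Additive G →+ A) (g : G) :
    TO ℓ G φ (Additive.ofMul g) =
      ∑ x : OnePoint (ZMod ℓ), φ (Additive.ofMul (IsCosetSystem.coc h x g)) := by
  rw [TO_eq h]
  rfl

theorem TO_Gamma0 {M : ℕ} (hl : ¬ ℓ ∣ M) (φ : Additive (Gamma0 M) →+ A) :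
    TO ℓ (Gamma0 M) φ = heckeTransfer hl φ := by
  rw [TO_eq (oddSys_Gamma0 hl)]
  exact oddSystem_transfer hl φ

theorem TO_add {G : Subgroup SL(2, ℤ)} (h : OddSys ℓ G) (φ ψ : Additive G →+ A) :
    TO ℓ G (φ + ψ) = TO ℓ G φ + TO ℓ G ψ := by
  rw [TO_eq h, TO_eq h, TO_eq h]
  exact IsCosetSystem.transfer_add h φ ψ

theorem TO_comp_left {G : Subgroup SL(2, ℤ)} (h : OddSys ℓ G) {B : Type*} [AddCommGroup B]
    (π : A →+ B) (φ : Additive G →+ A) : TO ℓ G (π.comp φ) = π.comp (TO ℓ G φ) := by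
  rw [TO_eq h, TO_eq h]
  exact IsCosetSystem.transfer_comp_left h π φ

/-- `T_ℓ` commutes with restriction. -/
theorem res_TO {G K : Subgroup SL(2, ℤ)} (h : OddSys ℓ G) (h' : OddSys ℓ K) (hKG : K ≤ G)
    (φ : Additive G →+ A) : TO ℓ K (resK hKG φ) = resK hKG (TO ℓ G φ) := by
  refine AddMonoidHom.ext fun k' => ?_
  obtain ⟨k, rfl⟩ : ∃ k : K, Additive.ofMul k = k' := ⟨Additive.toMul k', rfl⟩
  rw [TO_apply h', resK_apply, TO_apply h]
  refine Finset.sum_congr rfl fun x _ => ?_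
  rw [resK_apply, h.coc_of_le h' hKG]

/-- The hypotheses of `MFree.H587.KappaSystem` for `K = G ∩ Γ(2)`. -/
theorem preservesKappa_red2 {G : Subgroup SL(2, ℤ)} (h : OddSys ℓ G) (hodd : Odd ℓ) :
    PreservesKappa h (red2.comp G.subtype) := fun x g => h.red2_coc hodd x g

theorem mem_range_inclusion_red2 {G K : Subgroup SL(2, ℤ)} (hKG : K ≤ G)
    (hK : ∀ g ∈ G, (g ∈ K ↔ red2 g = 1)) (g : G) :
    g ∈ (Subgroup.inclusion hKG).range ↔ (red2.comp G.subtype) g = 1 := by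
  constructor
  · rintro ⟨k, rfl⟩
    exact (hK _ (hKG k.2)).1 k.2
  · intro hg
    exact ⟨⟨g.1, (hK _ g.2).2 hg⟩, rfl⟩

/-- `T_ℓ` commutes with the conjugation by the elements of `G` (`K = G ∩ Γ(2)`). -/
theorem conj_TO {G K : Subgroup SL(2, ℤ)} (h : OddSys ℓ G) (hodd : Odd ℓ) (hKG : K ≤ G)
    (hK : ∀ g ∈ G, (g ∈ K ↔ red2 g = 1)) (g : SL(2, ℤ)) (hgG : g ∈ G)
    (hg : ∀ k ∈ K, g⁻¹ * k * g ∈ K) (φ : Additive K →+ A) :
    TO ℓ K (conjS K g hg φ) = conjS K g hg (TO ℓ K φ) := by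
  have hsys : OddSys ℓ K := restrictSystem h (preservesKappa_red2 h hodd)
    (Subgroup.inclusion hKG) (Subgroup.inclusion_injective _) (mem_range_inclusion_red2 hKG hK)
  rw [TO_eq hsys, TO_eq hsys]
  exact restrict_transfer_conj h (preservesKappa_red2 h hodd)
    (Subgroup.inclusion hKG) (Subgroup.inclusion_injective _) (mem_range_inclusion_red2 hKG hK)
    ⟨g, hgG⟩ (conjSHom K g hg) (fun k => rfl) φ

/-- `T_ℓ` commutes with corestriction (`K = G ∩ Γ(2)`). -/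
theorem cor_TO {G K : Subgroup SL(2, ℤ)} (h : OddSys ℓ G) (hodd : Odd ℓ) (hKG : K ≤ G)
    (hK : ∀ g ∈ G, (g ∈ K ↔ red2 g = 1)) [hfin : (Subgroup.inclusion hKG).range.FiniteIndex]
    (ψ : Additive K →+ A) : coresK hKG (TO ℓ K ψ) = TO ℓ G (coresK hKG ψ) := by
  have hsys : OddSys ℓ K := restrictSystem h (preservesKappa_red2 h hodd)
    (Subgroup.inclusion hKG) (Subgroup.inclusion_injective _) (mem_range_inclusion_red2 hKG hK)
  rw [TO_eq hsys, TO_eq h]
  exact transferAlong_restrict h (preservesKappa_red2 h hodd)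
    (Subgroup.inclusion hKG) (Subgroup.inclusion_injective _) (mem_range_inclusion_red2 hKG hK) ψ

end Odd

/-! ## `res ∘ cor` -/

section ResCor

variable {A : Type*} [AddCommGroup A]

/-- `res ∘ cor = ∑_{q ∈ G ⧸ K} q` for a subgroup `K` normalised by `G`. -/
theorem res_cor {G K : Subgroup SL(2, ℤ)} (hKG : K ≤ G)
    (hnorm : ∀ g ∈ G, ∀ k ∈ K, g⁻¹ * k * g ∈ K)
    [hfin : (Subgroup.inclusion hKG).range.FiniteIndex]
    [Fintype (G ⧸ (Subgroup.inclusion hKG).range)] (ψ : Additive K →+ A) :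
    resK hKG (coresK hKG ψ) =
      ∑ q : G ⧸ (Subgroup.inclusion hKG).range,
        conjS K ((q.out : G) : SL(2, ℤ)) (hnorm _ q.out.2) ψ := by
  have hf := Subgroup.inclusion_injective hKG
  refine AddMonoidHom.ext fun k' => ?_
  obtain ⟨k, rfl⟩ : ∃ k : K, Additive.ofMul k = k' := ⟨Additive.toMul k', rfl⟩
  rw [resK_apply]
  show transferAlong (Subgroup.inclusion hKG) ψ (Additive.ofMul (Subgroup.inclusion hKG k)) = _
  rw [transferAlong_eq (Subgroup.inclusion hKG) hf (MonoidHom.id G) Function.injective_id,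
    IsCosetSystem.transfer_apply]
  have hcoc : ∀ q : G ⧸ (Subgroup.inclusion hKG).range,
      (IsCosetSystem.ofTransfer (Subgroup.inclusion hKG) hf (MonoidHom.id G)
        Function.injective_id).coc q (Subgroup.inclusion hKG k) =
        conjSHom K ((q.out : G) : SL(2, ℤ)) (hnorm _ q.out.2) k := by
    intro q
    apply IsCosetSystem.coc_eq (j := q)
    show (q.out)⁻¹ * Subgroup.inclusion hKG k =
      Subgroup.inclusion hKG (conjSHom K ((q.out : G) : SL(2, ℤ)) (hnorm _ q.out.2) k) *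
        (q.out)⁻¹
    apply Subtype.ext
    simp only [Subgroup.coe_mul, Subgroup.coe_inv, Subgroup.coe_inclusion, conjSHom_coe]
    group
  simp only [hcoc]
  rw [AddMonoidHom.finsetSum_apply]
  rfl

end ResCor

end Fermat.Agent.S59.H316

end
-- ===== PACK-END S59/H316/Sub.lean

-- ===== PACK-BEGIN Ribet/H868/TameSetup.lean
section



/-!
# RIBET rows 37/38, TAME package: the inertia field is a good level with uniformiser `q`
  (helper868)

`P` a valuation subring of `ℚ̄` over the prime `q`, `E = ℚ̄^{I_P}` the inertia field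
(`A2.IF.H429.inertiaField P`), `R_E = P ∩ E`.

* `goodField_inertiaField` : `E` is a good level (`A2.GoodField P E`);
* `irreducible_natCast_inertiaField` : `q` is a uniformiser of `R_E` (the inertia field is
  unramified, `A2.IF.H429.exists_zpow_of_mem_inertiaField`);
* `setting_inertiaField` : the standing hypotheses `A2.Mod.Setting P E M q q` of the MOD leaves.
-/

set_option autoImplicit false
set_option linter.unusedSectionVars false

namespace Fermat.Agent.Ribet.H868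

open Fermat.Agent.A2 Fermat.Agent.A2.IF.H429

variable (P : ValuationSubring Qb) (q : ℕ)

/-- The inertia field is a good level. -/
theorem goodField_inertiaField (hq : q.Prime) (hP : P.LiesOverPrime q) :
    GoodField P (inertiaField P) where
  stable := fun τ hτ e he => by
    rw [(mem_inertiaField_iff P).mp he τ hτ]
    exact he
  dvr := isDiscreteValuationRing_RE_of_pow P q hq hP (inertiaField P) 1 one_pos
    (fun x hx hx0 => by
      obtain ⟨k, hk⟩ := exists_zpow_of_mem_inertiaField P q hq hP x hx hx0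
      refine ⟨k, ?_⟩
      rw [pow_one]
      have hq0 : P.valuation (q : Qb) ≠ 0 := valuation_natCast_ne_zero P q hq
      rw [map_div₀, map_zpow₀] at hk
      exact (div_eq_one_iff_eq (zpow_ne_zero k hq0)).mp hk)
  henselian := henselian_RE P (inertiaField P) le_rfl
  algClosed := isAlgClosed_residueField_RE P (inertiaField P) q hq hP le_rfl
  trivial_mod := fun _ hτ _ _ heP => sub_mem_nonunits_of_inertia P hτ heP
  finite_order := fun τ hτ => ⟨1, one_pos, fun e he => by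
    rw [Function.iterate_one]
    exact (mem_inertiaField_iff P).mp he τ hτ⟩

/-- Every nonzero element of `R_E`, `E` the inertia field, is associated to a power of `q`. -/
theorem associated_natCast_pow_inertiaField (hq : q.Prime) (hP : P.LiesOverPrime q)
    (x : RE P (inertiaField P)) (hx : x ≠ 0) :
    ∃ n : ℕ, Associated x (((q : ℕ) : RE P (inertiaField P)) ^ n) := by
  have hqlt := valuation_natCast_lt_one P q hP
  have hq0 := valuation_natCast_ne_zero P q hq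
  have hqpos : 0 < P.valuation (q : Qb) := zero_lt_iff.mpr hq0
  have hcoe : ∀ n : ℕ, ((((n : ℕ) : RE P (inertiaField P)) : inertiaField P) : Qb) = (n : Qb) := by
    intro n
    simp
  have hxE : ((x : inertiaField P) : Qb) ∈ inertiaField P := (x : inertiaField P).2
  have hx0 : ((x : inertiaField P) : Qb) ≠ 0 := by
    intro h0
    apply hx
    apply Subtype.ext
    apply Subtype.ext
    exact h0
  have hxP : ((x : inertiaField P) : Qb) ∈ P := x.2
  obtain ⟨k, hk⟩ := exists_zpow_of_mem_inertiaField P q hq hP _ hxE hx0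
  rw [map_div₀, map_zpow₀] at hk
  have hk' : P.valuation ((x : inertiaField P) : Qb) = P.valuation (q : Qb) ^ k :=
    (div_eq_one_iff_eq (zpow_ne_zero k hq0)).mp hk
  have hle : P.valuation ((x : inertiaField P) : Qb) ≤ 1 := (P.valuation_le_one_iff _).mpr hxP
  have hk0 : 0 ≤ k := by
    by_contra hneg
    rw [not_le] at hneg
    have h1 : 1 < P.valuation (q : Qb) ^ k := by
      obtain ⟨m, hm⟩ : ∃ m : ℕ, k = -((m : ℤ) + 1) := ⟨(-k - 1).toNat, by omega⟩
      rw [hm, zpow_neg]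
      have h2 : P.valuation (q : Qb) ^ ((m : ℤ) + 1) < 1 := by
        have : P.valuation (q : Qb) ^ ((m : ℤ) + 1) = P.valuation (q : Qb) ^ (m + 1) := by
          exact_mod_cast zpow_natCast (P.valuation (q : Qb)) (m + 1)
        rw [this]
        exact pow_lt_one₀ zero_le hqlt (Nat.succ_ne_zero m)
      have h3 : 0 < P.valuation (q : Qb) ^ ((m : ℤ) + 1) := zpow_pos hqpos _
      exact (one_lt_inv₀ h3).mpr h2
    rw [← hk'] at h1
    exact absurd hle (not_le.mpr h1)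
  obtain ⟨n, rfl⟩ := Int.eq_ofNat_of_zero_le hk0
  rw [zpow_natCast] at hk'
  refine ⟨n, ?_⟩
  let u : Qb := ((x : inertiaField P) : Qb) / (q : Qb) ^ n
  have huv : P.valuation u = 1 := by
    show P.valuation (((x : inertiaField P) : Qb) / (q : Qb) ^ n) = 1
    rw [map_div₀, hk', map_pow]
    exact div_self (pow_ne_zero n hq0)
  have huE : u ∈ inertiaField P := div_mem hxE (pow_mem (natCast_mem (inertiaField P) q) n)
  have huP : u ∈ P := (P.valuation_le_one_iff _).mp huv.le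
  let uR : RE P (inertiaField P) := ⟨⟨u, huE⟩, huP⟩
  have huR : IsUnit uR := by
    rw [← IsLocalRing.notMem_maximalIdeal, mem_maximalIdeal_RE_iff,
      ValuationSubring.mem_nonunits_iff]
    show ¬ P.valuation u < 1
    rw [huv]
    exact lt_irrefl _
  have heq : x = ((q : ℕ) : RE P (inertiaField P)) ^ n * uR := by
    apply Subtype.ext
    apply Subtype.ext
    show ((x : inertiaField P) : Qb)
      = ((((q : ℕ) : RE P (inertiaField P)) : inertiaField P) : Qb) ^ n * u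
    rw [hcoe]
    have hqn : (q : Qb) ^ n ≠ 0 := pow_ne_zero n (by exact_mod_cast hq.ne_zero)
    show ((x : inertiaField P) : Qb) = (q : Qb) ^ n * (((x : inertiaField P) : Qb) / (q : Qb) ^ n)
    field_simp
  rw [heq]
  exact associated_mul_unit_left _ uR huR

/-- `q` is not a unit of `R_E`. -/
theorem not_isUnit_natCast_RE (hP : P.LiesOverPrime q) (E : IntermediateField ℚ Qb) :
    ¬ IsUnit ((q : ℕ) : RE P E) := by
  intro hu
  have hcoe : ((((q : ℕ) : RE P E) : E) : Qb) = (q : Qb) := by simp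
  have h1 : ((q : ℕ) : RE P E) ∈ IsLocalRing.maximalIdeal (RE P E) := by
    rw [mem_maximalIdeal_RE_iff, hcoe]
    exact hP
  exact (IsLocalRing.mem_maximalIdeal _).mp h1 hu

/-- **`q` is a uniformiser of `R_E`** for the inertia field `E`. -/
theorem irreducible_natCast_inertiaField (hq : q.Prime) (hP : P.LiesOverPrime q) :
    Irreducible ((q : ℕ) : RE P (inertiaField P)) := by
  haveI : IsDiscreteValuationRing (RE P (inertiaField P)) :=
    (goodField_inertiaField P q hq hP).dvr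
  have hnu := not_isUnit_natCast_RE P q hP (inertiaField P)
  obtain ⟨ϖ, hϖ⟩ := IsDiscreteValuationRing.exists_irreducible (RE P (inertiaField P))
  obtain ⟨n, hn⟩ := associated_natCast_pow_inertiaField P q hq hP ϖ hϖ.ne_zero
  -- `n = 1`
  have hn1 : n = 1 := by
    rcases Nat.lt_or_ge n 1 with h0 | h1
    · have : n = 0 := by omega
      subst this
      rw [pow_zero] at hn
      exact absurd (hn.symm.isUnit isUnit_one) hϖ.not_isUnit
    · rcases Nat.eq_or_lt_of_le h1 with h | h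
      · exact h.symm
      · exfalso
        obtain ⟨m, rfl⟩ : ∃ m, n = m + 2 := ⟨n - 2, by omega⟩
        obtain ⟨u, hu⟩ := hn.symm
        -- `ϖ = q * (q^(m+1) * u)`
        have e : ϖ = ((q : ℕ) : RE P (inertiaField P)) *
            (((q : ℕ) : RE P (inertiaField P)) ^ (m + 1) * u) := by
          rw [← hu]
          ring
        rcases hϖ.isUnit_or_isUnit e with h2 | h2
        · exact hnu h2
        · have h3 : IsUnit (((q : ℕ) : RE P (inertiaField P)) ^ (m + 1)) :=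
            isUnit_of_mul_isUnit_left h2
          exact hnu ((isUnit_pow_iff (Nat.succ_ne_zero m)).mp h3)
  subst hn1
  rw [pow_one] at hn
  exact hn.irreducible hϖ

/-- The standing hypotheses of the MOD leaves at the inertia field, with `w = q`. -/
theorem setting_inertiaField (M : ℕ) (hq : q.Prime) (hqM : ¬ q ∣ M) (hM : M ≠ 0)
    (hP : P.LiesOverPrime q) :
    Fermat.Agent.A2.Mod.Setting P (inertiaField P) M q
      ((q : ℕ) : RE P (inertiaField P)) where
  q_prime := hq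
  q_not_dvd := hqM
  M_ne_zero := hM
  lies_over := hP
  dvr := (goodField_inertiaField P q hq hP).dvr
  unif := irreducible_natCast_inertiaField P q hq hP

end Fermat.Agent.Ribet.H868

end
-- ===== PACK-END Ribet/H868/TameSetup.lean

-- ===== PACK-BEGIN Ribet/H152/GoodUnique.lean
section
/-
RIBET / WALL-p, leaf NC-IF, part 1 (helper152): uniqueness of the extension of a henselian
valuation, in the form needed for good levels.

`P` a valuation subring of `ℚ̄`, `E ⊆ ℚ̄` an intermediate field such that `R_E = P ∩ E` is a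
henselian local ring (Mathlib's `HenselianLocalRing`: simple roots lift).  Then every automorphism
`σ` of `ℚ̄` fixing `E` pointwise preserves the valuation of `P` (`goodUp_valuation_eq`).

Proof (simple-root Hensel only).  Let `C` be the orbit of `x` under `Gal(ℚ̄/E)`,
`T₀ ⊆ C` the set of conjugates of maximal value, `m = #T₀`.  If `T₀ ≠ C`, the polynomial
`h = ∏_T (X - π_T / b)` (`T` the `m`-subsets of `C`, `π_T = ∏_{c ∈ T} c`, `b = ∑_T π_T`) has
coefficients in `R_E`, and `h ≡ X^(N-1) (X - 1)` modulo the maximal ideal; Hensel gives a root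
`≡ 1` in `R_E`, which must be `π_{T₀} / b`.  So `π_{T₀} / b ∈ E` is fixed by `Gal(ℚ̄/E)`, which
acts transitively on `C`: contradiction.
-/


set_option autoImplicit false
set_option linter.unusedSectionVars false

namespace Fermat.Agent.Ribet.H152

open Polynomial Fermat.Agent.A2 Fermat.Agent.A2.IF.H429
open Fermat.Agent.S55.Bridge Fermat.Agent.S55.Bridge.H594

attribute [local instance] isAlgebraic_Qbar isGalois_Qbar

section Orbit

variable (E : IntermediateField ℚ Qb)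

/-- The (finite) orbit of `x` under the automorphisms fixing `E`. -/
theorem goodUp_exists_orbit (x : Qb) :
    ∃ C : Finset Qb, x ∈ C ∧
      (∀ τ : Qb ≃ₐ[ℚ] Qb, (∀ e ∈ E, τ e = e) → ∀ c ∈ C, τ c ∈ C) ∧
      (∀ c₁ ∈ C, ∀ c₂ ∈ C, ∃ τ : Qb ≃ₐ[ℚ] Qb, (∀ e ∈ E, τ e = e) ∧ τ c₁ = c₂) := by
  classical
  set S : Set Qb := {c | ∃ τ : Qb ≃ₐ[ℚ] Qb, (∀ e ∈ E, τ e = e) ∧ τ x = c} with hS
  have hint : IsIntegral ℚ x := Algebra.IsIntegral.isIntegral x
  have hfin : S.Finite := by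
    refine (Polynomial.rootSet_finite (minpoly ℚ x) Qb).subset ?_
    rintro c ⟨τ, -, rfl⟩
    rw [Polynomial.mem_rootSet]
    refine ⟨minpoly.ne_zero hint, ?_⟩
    have := Polynomial.aeval_algHom_apply (τ : Qb →ₐ[ℚ] Qb) x (minpoly ℚ x)
    rw [minpoly.aeval, map_zero] at this
    exact this
  refine ⟨hfin.toFinset, ?_, ?_, ?_⟩
  · rw [Set.Finite.mem_toFinset]
    exact ⟨1, fun _ _ => rfl, rfl⟩
  · intro τ hτ c hc
    rw [Set.Finite.mem_toFinset] at hc ⊢
    obtain ⟨ρ, hρ, rfl⟩ := hc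
    exact ⟨τ * ρ, fun e he => by rw [AlgEquiv.mul_apply, hρ e he, hτ e he], rfl⟩
  · intro c₁ hc₁ c₂ hc₂
    rw [Set.Finite.mem_toFinset] at hc₁ hc₂
    obtain ⟨ρ₁, hρ₁, rfl⟩ := hc₁
    obtain ⟨ρ₂, hρ₂, rfl⟩ := hc₂
    refine ⟨ρ₂ * ρ₁⁻¹, fun e he => ?_, ?_⟩
    · have h1 : ρ₁⁻¹ e = e := by
        have := hρ₁ e he
        calc ρ₁⁻¹ e = ρ₁⁻¹ (ρ₁ e) := by rw [this]
          _ = (ρ₁⁻¹ * ρ₁) e := rfl
          _ = e := by rw [inv_mul_cancel]; rfl
      rw [AlgEquiv.mul_apply, h1, hρ₂ e he]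
    · calc (ρ₂ * ρ₁⁻¹) (ρ₁ x) = ρ₂ ((ρ₁⁻¹ * ρ₁) x) := rfl
        _ = ρ₂ x := by rw [inv_mul_cancel]; rfl

end Orbit

section Dominant

variable {K : Type*} [Field K] {Γ : Type*} [LinearOrderedCommGroupWithZero Γ]
  (v : Valuation K Γ)

/-- In a finite family with one strictly dominant term, the sum has the value of that term. -/
theorem goodUp_val_sum_dominant {α : Type*} [DecidableEq α] (𝒯 : Finset α) (t₀ : α)
    (ht₀ : t₀ ∈ 𝒯) (f : α → K) (h0 : v (f t₀) ≠ 0)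
    (hlt : ∀ t ∈ 𝒯, t ≠ t₀ → v (f t) < v (f t₀)) :
    v (∑ t ∈ 𝒯, f t) = v (f t₀) := by
  rw [← Finset.add_sum_erase 𝒯 f ht₀]
  apply Valuation.map_add_eq_of_lt_left
  apply Valuation.map_sum_lt v h0
  intro t ht
  exact hlt t (Finset.mem_of_mem_erase ht) (Finset.ne_of_mem_erase ht)

/-- The product over a subset in which every value is `≤ W` and one is `< W`. -/
theorem goodUp_val_prod_lt (T : Finset K) (W : Γ) (hW : W ≠ 0) (hle : ∀ c ∈ T, v c ≤ W)
    (c₁ : K) (hc₁ : c₁ ∈ T) (hlt : v c₁ < W) : v (∏ c ∈ T, c) < W ^ T.card := by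
  classical
  rw [← Finset.mul_prod_erase T (fun c => c) hc₁, map_mul, map_prod]
  have h1 : ∏ c ∈ T.erase c₁, v c ≤ W ^ (T.erase c₁).card :=
    Finset.prod_le_pow_card _ _ _ (fun c hc => hle c (Finset.mem_of_mem_erase hc))
  have h2 : T.card = (T.erase c₁).card + 1 := by
    rw [Finset.card_erase_of_mem hc₁]
    have := Finset.card_pos.mpr ⟨c₁, hc₁⟩
    omega
  rw [h2, pow_succ']
  have hWpos : 0 < W ^ (T.erase c₁).card := zero_lt_iff.mpr (pow_ne_zero _ hW)
  calc v c₁ * ∏ c ∈ T.erase c₁, v c ≤ v c₁ * W ^ (T.erase c₁).card :=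
        mul_le_mul_right h1 _
    _ < W * W ^ (T.erase c₁).card := mul_lt_mul_of_pos_right hlt hWpos

end Dominant

section Hensel

variable (P : ValuationSubring Qb) (E : IntermediateField ℚ Qb)

/-- A polynomial over `ℚ̄` whose coefficients lie in `P` and in `E` is the image of a polynomial
over `R_E`. -/
theorem goodUp_mem_lifts (h : Qb[X]) (hP : ∀ n, h.coeff n ∈ P) (hE : ∀ n, h.coeff n ∈ E) :
    h ∈ Polynomial.lifts ((algebraMap E Qb).comp (P.comap (algebraMap E Qb)).subtype) := by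
  rw [Polynomial.lifts_iff_coeff_lifts]
  intro n
  exact ⟨⟨⟨h.coeff n, hE n⟩, hP n⟩, rfl⟩

/-- Values of the non-dominant factors at `1`. -/
theorem goodUp_val_one_sub_le {r : Qb} (hr : P.valuation r ≤ 1) : P.valuation (1 - r) ≤ 1 := by
  have := P.valuation.map_sub 1 r
  rw [map_one] at this
  exact this.trans (max_le le_rfl hr)

/-- **Hensel core.**  `R_E = P ∩ E` henselian.  If the monic polynomial `∏_t (X - r_t)` has
coefficients in `E`, `∑_t r_t = 1` and all `r_t` but `r_{t₀}` are non-units of `P`, then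
`r_{t₀} ∈ E`. -/
theorem goodUp_dominant_mem {α : Type*} [DecidableEq α]
    [HenselianLocalRing (P.comap (algebraMap E Qb))]
    (𝒯 : Finset α) (t₀ : α) (ht₀ : t₀ ∈ 𝒯) (r : α → Qb)
    (hlt : ∀ t ∈ 𝒯, t ≠ t₀ → P.valuation (r t) < 1)
    (hsum : ∑ t ∈ 𝒯, r t = 1)
    (hE : ∀ n, (∏ t ∈ 𝒯, (X - C (r t))).coeff n ∈ E) :
    r t₀ ∈ E := by
  classical
  set v := P.valuation with hv
  -- the dominant term
  have hrest : v (∑ t ∈ 𝒯.erase t₀, r t) < 1 := by
    apply Valuation.map_sum_lt v one_ne_zero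
    intro t ht
    exact hlt t (Finset.mem_of_mem_erase ht) (Finset.ne_of_mem_erase ht)
  have hr₀ : 1 - r t₀ = ∑ t ∈ 𝒯.erase t₀, r t := by
    rw [← hsum, ← Finset.add_sum_erase 𝒯 r ht₀]
    ring
  have hr₀lt : v (1 - r t₀) < 1 := by rw [hr₀]; exact hrest
  have hr₀1 : v (r t₀) = 1 := by
    have h1 : r t₀ = 1 - (1 - r t₀) := by ring
    rw [h1]
    exact Valuation.map_one_sub_of_lt v hr₀lt
  have hle : ∀ t ∈ 𝒯, v (r t) ≤ 1 := by
    intro t ht
    by_cases h : t = t₀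
    · rw [h, hr₀1]
    · exact (hlt t ht h).le
  have hone : ∀ t ∈ 𝒯, t ≠ t₀ → v (1 - r t) = 1 := fun t ht hne =>
    Valuation.map_one_sub_of_lt v (hlt t ht hne)
  have hone_le : ∀ t ∈ 𝒯, v (1 - r t) ≤ 1 := fun t ht =>
    goodUp_val_one_sub_le P (hle t ht)
  -- the polynomial over `P`
  set h : Qb[X] := ∏ t ∈ 𝒯, (X - C (r t)) with hh
  let rP : α → P := fun t => if ht : r t ∈ P then ⟨r t, ht⟩ else 0
  have hrP : ∀ t ∈ 𝒯, ((rP t : P) : Qb) = r t := by
    intro t ht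
    have : r t ∈ P := (P.valuation_le_one_iff _).mp (hle t ht)
    simp only [rP, dif_pos this]
  have hmap : (∏ t ∈ 𝒯, (X - C (rP t))).map P.subtype = h := by
    rw [Polynomial.map_prod]
    apply Finset.prod_congr rfl
    intro t ht
    rw [Polynomial.map_sub, Polynomial.map_X, Polynomial.map_C]
    congr 2
    exact hrP t ht
  have hP : ∀ n, h.coeff n ∈ P := by
    intro n
    rw [← hmap, Polynomial.coeff_map]
    exact Subtype.property _
  have hmonic : h.Monic := Polynomial.monic_prod_of_monic _ _ (fun t _ => monic_X_sub_C _)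
  set ι : (P.comap (algebraMap E Qb)) →+* Qb :=
    (algebraMap E Qb).comp (P.comap (algebraMap E Qb)).subtype with hι
  obtain ⟨hR, hRmap, -, hRmonic⟩ :=
    Polynomial.lifts_and_natDegree_eq_and_monic (goodUp_mem_lifts P E h hP hE) hmonic
  have hιval : ∀ a : (P.comap (algebraMap E Qb)), ι a = ((a : E) : Qb) := fun _ => rfl
  -- values at `1`
  have heval : h.eval 1 = ∏ t ∈ 𝒯, (1 - r t) := by
    rw [hh, Polynomial.eval_prod]
    apply Finset.prod_congr rfl
    intro t _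
    simp
  have hG1 : v (h.eval 1) < 1 := by
    rw [heval, ← Finset.mul_prod_erase 𝒯 (fun t => 1 - r t) ht₀, map_mul, map_prod]
    have h1 : ∏ t ∈ 𝒯.erase t₀, v (1 - r t) = 1 :=
      Finset.prod_eq_one fun t ht =>
        hone t (Finset.mem_of_mem_erase ht) (Finset.ne_of_mem_erase ht)
    rw [h1, mul_one]
    exact hr₀lt
  have hderiv : (derivative h).eval 1 = ∑ t ∈ 𝒯, ∏ t' ∈ 𝒯.erase t, (1 - r t') := by
    rw [hh, Polynomial.derivative_prod_finset, Polynomial.eval_finsetSum]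
    apply Finset.sum_congr rfl
    intro t _
    rw [Polynomial.derivative_sub, Polynomial.derivative_X, Polynomial.derivative_C, sub_zero,
      mul_one, Polynomial.eval_prod]
    apply Finset.prod_congr rfl
    intro t' _
    simp
  have hG2 : v ((derivative h).eval 1) = 1 := by
    rw [hderiv]
    have hdom : v (∏ t' ∈ 𝒯.erase t₀, (1 - r t')) = 1 := by
      rw [map_prod]
      exact Finset.prod_eq_one fun t ht =>
        hone t (Finset.mem_of_mem_erase ht) (Finset.ne_of_mem_erase ht)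
    rw [goodUp_val_sum_dominant v 𝒯 t₀ ht₀ (fun t => ∏ t' ∈ 𝒯.erase t, (1 - r t'))
      (by rw [hdom]; exact one_ne_zero) ?_]
    · exact hdom
    · intro t ht hne
      rw [hdom]
      have ht₀' : t₀ ∈ 𝒯.erase t := Finset.mem_erase.mpr ⟨fun h => hne h.symm, ht₀⟩
      rw [← Finset.mul_prod_erase (𝒯.erase t) (fun t' => 1 - r t') ht₀', map_mul, map_prod]
      have h1 : ∏ t' ∈ (𝒯.erase t).erase t₀, v (1 - r t') ≤ 1 :=
        Finset.prod_le_one' fun t' ht' =>
          hone_le t' (Finset.mem_of_mem_erase (Finset.mem_of_mem_erase ht'))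
      calc v (1 - r t₀) * ∏ t' ∈ (𝒯.erase t).erase t₀, v (1 - r t')
          ≤ v (1 - r t₀) * 1 := mul_le_mul_right h1 _
        _ = v (1 - r t₀) := mul_one _
        _ < 1 := hr₀lt
  -- Hensel
  have hev : ∀ (q : (P.comap (algebraMap E Qb) : Type)[X]) (a : P.comap (algebraMap E Qb)),
      ι (q.eval a) = (q.map ι).eval (ι a) := fun q a => (Polynomial.eval_map_apply ι a).symm
  have hH1 : hR.eval 1 ∈ IsLocalRing.maximalIdeal (P.comap (algebraMap E Qb)) := by
    rw [mem_maximalIdeal_RE_iff, ValuationSubring.mem_nonunits_iff, ← hιval, hev, hRmap, map_one]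
    exact hG1
  have hH2 : IsUnit ((derivative hR).eval 1) := by
    rw [← IsLocalRing.notMem_maximalIdeal, mem_maximalIdeal_RE_iff,
      ValuationSubring.mem_nonunits_iff, ← hιval, hev, ← Polynomial.derivative_map, hRmap,
      map_one]
    show ¬ v _ < 1
    rw [hG2]
    exact lt_irrefl _
  obtain ⟨a, ha, ha1⟩ := HenselianLocalRing.is_henselian hR hRmonic 1 hH1 hH2
  have haroot : h.eval (ι a) = 0 := by
    rw [← hRmap, ← hev, ha.eq_zero]
    exact map_zero ι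
  have ha1' : v (ι a - 1) < 1 := by
    rw [mem_maximalIdeal_RE_iff, ValuationSubring.mem_nonunits_iff] at ha1
    exact ha1
  have hav : v (ι a) = 1 := by
    have h1 : ι a = 1 + (ι a - 1) := by ring
    rw [h1]
    exact Valuation.map_one_add_of_lt v ha1'
  rw [hh, Polynomial.eval_prod, Finset.prod_eq_zero_iff] at haroot
  obtain ⟨t, ht, hta⟩ := haroot
  have hta' : ι a = r t := by
    simp only [eval_sub, eval_X, eval_C] at hta
    exact sub_eq_zero.mp hta
  have htt : t = t₀ := by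
    by_contra hne
    have := hlt t ht hne
    rw [← hta', hav] at this
    exact lt_irrefl _ this
  rw [← htt, ← hta']
  exact (a : E).2

end Hensel

section Main

variable (P : ValuationSubring Qb) (E : IntermediateField ℚ Qb)

/-- The Galois action on products over subsets. -/
theorem goodUp_map_prod_image (τ : Qb ≃ₐ[ℚ] Qb) (T : Finset Qb) :
    τ (∏ c ∈ T, c) = ∏ c ∈ T.image τ, c := by
  classical
  rw [map_prod, Finset.prod_image (fun a _ b _ h => τ.injective h)]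

/-- An automorphism stabilising `C` permutes the `m`-subsets of `C`. -/
theorem goodUp_image_powersetCard (τ : Qb ≃ₐ[ℚ] Qb) (C : Finset Qb) (hC : ∀ c ∈ C, τ c ∈ C)
    (m : ℕ) : (C.powersetCard m).image (Finset.image τ) = C.powersetCard m := by
  classical
  apply Finset.eq_of_subset_of_card_le
  · intro T hT
    obtain ⟨T', hT', rfl⟩ := Finset.mem_image.mp hT
    rw [Finset.mem_powersetCard] at hT' ⊢
    refine ⟨?_, ?_⟩
    · intro c hc
      obtain ⟨c', hc', rfl⟩ := Finset.mem_image.mp hc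
      exact hC c' (hT'.1 hc')
    · rw [Finset.card_image_of_injective _ τ.injective, hT'.2]
  · rw [Finset.card_image_of_injective _ (Finset.image_injective τ.injective)]

/-- **Uniqueness of the extension of a henselian valuation.**  If `R_E = P ∩ E` is henselian,
every automorphism of `ℚ̄` fixing `E` pointwise preserves the valuation of `P`. -/
theorem goodUp_valuation_eq [HenselianLocalRing (P.comap (algebraMap E Qb))]
    (σ : Qb ≃ₐ[ℚ] Qb) (hσ : ∀ e ∈ E, σ e = e) (x : Qb) :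
    P.valuation (σ x) = P.valuation x := by
  classical
  by_contra hne
  set v := P.valuation with hv
  have hx0 : x ≠ 0 := by
    rintro rfl
    exact hne (by simp)
  obtain ⟨O, hxC, hstab, htrans⟩ := goodUp_exists_orbit E x
  have hC0 : ∀ c ∈ O, c ≠ 0 := by
    intro c hc
    obtain ⟨τ, -, rfl⟩ := htrans x hxC c hc
    intro h0
    exact hx0 (by simpa using h0)
  obtain ⟨c₀, hc₀, hmax⟩ := Finset.exists_max_image O (fun c => v c) ⟨x, hxC⟩
  set W := v c₀ with hWdef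
  have hW : W ≠ 0 := (Valuation.ne_zero_iff v).mpr (hC0 c₀ hc₀)
  -- an element of smaller value
  obtain ⟨c', hc', hc'lt⟩ : ∃ c' ∈ O, v c' < W := by
    by_contra hall
    simp only [not_exists, not_and, not_lt] at hall
    have h1 : v x = W := le_antisymm (hmax x hxC) (hall x hxC)
    have h2 : v (σ x) = W :=
      le_antisymm (hmax _ (hstab σ hσ x hxC)) (hall _ (hstab σ hσ x hxC))
    exact hne (h2.trans h1.symm)
  set T₀ := O.filter (fun c => v c = W) with hT₀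
  set m := T₀.card with hm
  set 𝒯 := O.powersetCard m with h𝒯
  have hT₀𝒯 : T₀ ∈ 𝒯 := Finset.mem_powersetCard.mpr ⟨Finset.filter_subset _ _, rfl⟩
  set π : Finset Qb → Qb := fun T => ∏ c ∈ T, c with hπ
  have hπ₀ : v (π T₀) = W ^ m := by
    simp only [π]
    rw [map_prod, Finset.prod_congr rfl (fun c hc => (Finset.mem_filter.mp hc).2),
      Finset.prod_const]
  have hπlt : ∀ T ∈ 𝒯, T ≠ T₀ → v (π T) < W ^ m := by
    intro T hT hne'
    rw [Finset.mem_powersetCard] at hT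
    obtain ⟨c₁, hc₁, hc₁'⟩ : ∃ c₁ ∈ T, c₁ ∉ T₀ := by
      by_contra hall
      simp only [not_exists, not_and, not_not] at hall
      exact hne' (Finset.eq_of_subset_of_card_le hall (by rw [hT.2]))
    have hlt1 : v c₁ < W := by
      refine lt_of_le_of_ne (hmax c₁ (hT.1 hc₁)) ?_
      intro heq
      exact hc₁' (Finset.mem_filter.mpr ⟨hT.1 hc₁, heq⟩)
    have := goodUp_val_prod_lt v T W hW (fun c hc => hmax c (hT.1 hc)) c₁ hc₁ hlt1
    rwa [hT.2] at this
  have hWm : W ^ m ≠ 0 := pow_ne_zero _ hW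
  set b := ∑ T ∈ 𝒯, π T with hbdef
  have hb : v b = W ^ m := by
    rw [← hπ₀]
    exact goodUp_val_sum_dominant v 𝒯 T₀ hT₀𝒯 π (by rw [hπ₀]; exact hWm)
      (fun T hT hne' => by rw [hπ₀]; exact hπlt T hT hne')
  have hb0 : b ≠ 0 := (Valuation.ne_zero_iff v).mp (by rw [hb]; exact hWm)
  set r : Finset Qb → Qb := fun T => π T / b with hr
  have hrlt : ∀ T ∈ 𝒯, T ≠ T₀ → v (r T) < 1 := by
    intro T hT hne'
    simp only [r]
    rw [map_div₀, hb]
    exact (div_lt_one₀ (zero_lt_iff.mpr hWm)).mpr (hπlt T hT hne')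
  have hr₀ : v (r T₀) = 1 := by
    simp only [r]
    rw [map_div₀, hb, hπ₀]
    exact div_self hWm
  have hsum : ∑ T ∈ 𝒯, r T = 1 := by
    simp only [r]
    rw [← Finset.sum_div]
    exact div_self hb0
  -- equivariance
  have hτπ : ∀ τ : Qb ≃ₐ[ℚ] Qb, ∀ T, τ (π T) = π (T.image τ) :=
    fun τ T => goodUp_map_prod_image τ T
  have hτb : ∀ τ : Qb ≃ₐ[ℚ] Qb, (∀ e ∈ E, τ e = e) → τ b = b := by
    intro τ hτ
    simp only [b]
    rw [map_sum]
    conv_rhs => rw [h𝒯, ← goodUp_image_powersetCard τ O (hstab τ hτ) m]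
    rw [Finset.sum_image (fun a _ b _ h => Finset.image_injective τ.injective h)]
    exact Finset.sum_congr rfl (fun T _ => hτπ τ T)
  have hτr : ∀ τ : Qb ≃ₐ[ℚ] Qb, (∀ e ∈ E, τ e = e) → ∀ T, τ (r T) = r (T.image τ) := by
    intro τ hτ T
    simp only [r]
    rw [map_div₀, hτb τ hτ, hτπ]
  -- coefficients in `E`
  have hE : ∀ n, (∏ T ∈ 𝒯, (X - C (r T))).coeff n ∈ E := by
    intro n
    apply mem_of_fixed E
    intro τ hτ
    have h1 : (∏ T ∈ 𝒯, (X - C (r T))).map (τ : Qb →+* Qb) = ∏ T ∈ 𝒯, (X - C (r T)) := by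
      rw [Polynomial.map_prod]
      conv_rhs => rw [h𝒯, ← goodUp_image_powersetCard τ O (hstab τ hτ) m]
      rw [Finset.prod_image (fun a _ b _ h => Finset.image_injective τ.injective h)]
      apply Finset.prod_congr rfl
      intro T _
      rw [Polynomial.map_sub, Polynomial.map_X, Polynomial.map_C]
      congr 2
      exact hτr τ hτ T
    have h2 := congrArg (fun q => q.coeff n) h1
    simp only [Polynomial.coeff_map] at h2
    exact h2
  have hmem := goodUp_dominant_mem P E 𝒯 T₀ hT₀𝒯 r hrlt hsum hE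
  -- contradiction
  obtain ⟨τ, hτ, hτc⟩ := htrans c₀ hc₀ c' hc'
  have h1 : τ (r T₀) = r T₀ := hτ _ hmem
  rw [hτr τ hτ] at h1
  have h2 : T₀.image τ ∈ 𝒯 := by
    rw [h𝒯, ← goodUp_image_powersetCard τ O (hstab τ hτ) m]
    exact Finset.mem_image_of_mem _ hT₀𝒯
  have h3 : T₀.image τ ≠ T₀ := by
    intro heq
    have : c' ∈ T₀ := by
      rw [← heq, ← hτc]
      exact Finset.mem_image_of_mem _ (Finset.mem_filter.mpr ⟨hc₀, rfl⟩)
    exact absurd (Finset.mem_filter.mp this).2 hc'lt.ne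
  have h4 := hrlt _ h2 h3
  rw [h1, hr₀] at h4
  exact lt_irrefl _ h4

/-- Automorphisms fixing `E` preserve `P` and its non-units (`R_E` henselian). -/
theorem goodUp_map_mem [HenselianLocalRing (P.comap (algebraMap E Qb))]
    (σ : Qb ≃ₐ[ℚ] Qb) (hσ : ∀ e ∈ E, σ e = e) {x : Qb} (hx : x ∈ P) : σ x ∈ P := by
  rw [← P.valuation_le_one_iff] at hx ⊢
  rwa [goodUp_valuation_eq P E σ hσ x]

theorem goodUp_map_mem_nonunits [HenselianLocalRing (P.comap (algebraMap E Qb))]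
    (σ : Qb ≃ₐ[ℚ] Qb) (hσ : ∀ e ∈ E, σ e = e) {x : Qb} (hx : x ∈ P.nonunits) :
    σ x ∈ P.nonunits := by
  rw [ValuationSubring.mem_nonunits_iff] at hx ⊢
  rwa [goodUp_valuation_eq P E σ hσ x]

end Main

end Fermat.Agent.Ribet.H152

end
-- ===== PACK-END Ribet/H152/GoodUnique.lean

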