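import Fermat.Agent.Pack.S59C.E7L3
import Fermat.Agent.Pack.S59C.E4L3
import Fermat.Agent.Pack.S43GC.G0E2L0
import Fermat.Agent.Pack.S59C.E7L1
import Fermat.Agent.Pack.S59C.E3L3
import Fermat.Agent.Pack.S59C.E7L0
import Fermat.Agent.Pack.S43MC.G0E14L1
import Fermat.Agent.Pack.S59C.E6L0
import Fermat.Agent.Pack.S59C.E6L3
import Fermat.Agent.Pack.S59C.E6L2
import Fermat.Agent.Pack.S44C.G0E21L3
import Fermat.Agent.Pack.S59C.E1L1
import Fermat.Agent.Pack.S44C.G0E26L1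
import Fermat.Agent.Pack.S43C.E1L2
import Fermat.Agent.Pack.S43MC.G0E20L1
import Fermat.Agent.Pack.S43MC.G0E12L3
import Fermat.Agent.Pack.S43MC.G0E20L0
import Fermat.Agent.Pack.S44C.G0E24L0

set_option linter.all false

-- ===== PACK-BEGIN S59/H427/CriterionII.lean
section


/-!
# S59 / N1 (helper427): the numerical criterion, module form ("Criterion II", Diamond / DDT)

`𝒪` a DVR with finite residue field, `φ : R ↠ T` with `R` Noetherian local and `T` finite free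
over `𝒪`, `π : T → 𝒪` an augmentation, `M` a `T`-module which is finite free over `𝒪`,
`d = rank_𝒪 M[𝔭] > 0`, `rank_𝒪 M ≤ d · rank_𝒪 T`, `Ω = M ⧸ (M[𝔭] ⊔ M[I])`.

* `card_omegaMod_le` : `#Ω ≤ #(𝒪/η_T)^d` (always, when `η_T ≠ 0`);
* `criterionII` : if `Φ_R` is finite and `(#Φ_R)^d ≤ #Ω`, then `φ` is bijective, `M` is free of
  rank `d` over `T`, `#Φ_R = #(𝒪/η_T)` and `#Ω = (#Φ_R)^d`.
* `numerical_criterion_eta`, `exists_socle_generator_eta` : the ring-theoretic criterion and the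
  Gorenstein property in the vocabulary `etaIdeal π`, `RingHom.ker π`.
-/

set_option autoImplicit false
set_option linter.unusedSectionVars false
set_option linter.unusedVariables false
set_option linter.style.haveILetI false

namespace Fermat.Agent.S59.H427

open IsLocalRing Fermat.Agent.S59.H67

universe u v w x

section Eta

variable {𝒪 : Type u} [CommRing 𝒪] [IsDomain 𝒪] [IsDiscreteValuationRing 𝒪]
variable {R : Type w} [CommRing R] [Algebra 𝒪 R] [IsLocalRing R] [IsNoetherianRing R]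
variable {T : Type v} [CommRing T] [Algebra 𝒪 T] [Module.Free 𝒪 T] [Module.Finite 𝒪 T]

/-- **Wiles–Lenstra numerical criterion** in the vocabulary `etaIdeal`, `RingHom.ker`. -/
theorem numerical_criterion_eta (φ : R →ₐ[𝒪] T) (hφ : Function.Surjective φ) (π : T →ₐ[𝒪] 𝒪)
    [Finite (RingHom.ker (π.comp φ)).Cotangent]
    (hcard : Nat.card (RingHom.ker (π.comp φ)).Cotangent ≤ Nat.card (𝒪 ⧸ etaIdeal π)) :
    Function.Bijective φ ∧
      Nat.card (RingHom.ker (π.comp φ)).Cotangent = Nat.card (𝒪 ⧸ etaIdeal π) := by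
  have hfin : Finite (RingHom.ker ((π.comp φ : R →ₐ[𝒪] 𝒪) : R →+* 𝒪)).Cotangent :=
    ‹Finite (RingHom.ker (π.comp φ)).Cotangent›
  exact numerical_criterion_full φ hφ π hcard

/-- The cotangent space of `T` is a quotient of that of `R`. -/
theorem finite_cotangent_of_surjective (φ : R →ₐ[𝒪] T) (hφ : Function.Surjective φ)
    (π : T →ₐ[𝒪] 𝒪) [Finite (RingHom.ker (π.comp φ)).Cotangent] :
    Finite (RingHom.ker π).Cotangent ∧
      Nat.card (RingHom.ker π).Cotangent ≤ Nat.card (RingHom.ker (π.comp φ)).Cotangent := by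
  set 𝔭R : Ideal R := RingHom.ker (π.comp φ) with h𝔭R
  set 𝔭T : Ideal T := RingHom.ker π with h𝔭T
  have hle : 𝔭R ≤ 𝔭T.comap φ := fun r hr => hr
  let mapCot : 𝔭R.Cotangent →ₗ[𝒪] 𝔭T.Cotangent := Ideal.mapCotangent 𝔭R 𝔭T φ hle
  have hmapCot : ∀ r : 𝔭R, mapCot (𝔭R.toCotangent r) = 𝔭T.toCotangent ⟨φ r, hle r.2⟩ :=
    fun r => Ideal.mapCotangent_toCotangent 𝔭R 𝔭T φ hle r
  have hsurj : Function.Surjective mapCot := by
    intro y
    obtain ⟨⟨t, ht⟩, rfl⟩ := 𝔭T.toCotangent_surjective y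
    obtain ⟨r, rfl⟩ := hφ t
    exact ⟨𝔭R.toCotangent ⟨r, ht⟩, hmapCot _⟩
  exact ⟨Finite.of_surjective _ hsurj, Nat.card_le_card_of_surjective _ hsurj⟩

variable [IsLocalRing T]

/-- **Gorenstein property** from the numerical equality, vocabulary `etaIdeal`. -/
theorem exists_socle_generator_eta (π : T →ₐ[𝒪] 𝒪) [Finite (RingHom.ker π).Cotangent]
    (hcard : Nat.card (RingHom.ker π).Cotangent ≤ Nat.card (𝒪 ⧸ etaIdeal π))
    {ϖ : 𝒪} (hϖ : Irreducible ϖ) :
    ∃ θ : T, (∀ s, π s = 0 → θ * s = 0) ∧ π θ ≠ 0 ∧ etaIdeal π = Ideal.span {π θ} ∧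
      ∀ t : T, (∀ s, π s = 0 → ∃ t', s * t = ϖ • t') →
        ∃ (c : 𝒪) (t' : T), t = c • θ + ϖ • t' := by
  have hfin : Finite (RingHom.ker (π : T →+* 𝒪)).Cotangent :=
    ‹Finite (RingHom.ker π).Cotangent›
  exact exists_socle_generator π hcard hϖ

end Eta

section Module

variable {𝒪 : Type u} [CommRing 𝒪] [IsDomain 𝒪] [IsDiscreteValuationRing 𝒪]
  [Finite (ResidueField 𝒪)]
variable {T : Type v} [CommRing T] [Algebra 𝒪 T] [Module.Free 𝒪 T] [Module.Finite 𝒪 T]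
variable (M : Type x) [AddCommGroup M] [Module 𝒪 M] [Module T M]
  [IsScalarTower 𝒪 T M] [Module.Free 𝒪 M] [Module.Finite 𝒪 M]

/-- A generator of `I = Ann (ker π)` when `η ≠ 0`. -/
theorem exists_ann_generator (π : T →ₐ[𝒪] 𝒪) (hη : etaIdeal π ≠ ⊥) :
    ∃ θ : T, (∀ s, π s = 0 → θ * s = 0) ∧ π θ ≠ 0 ∧ etaIdeal π = Ideal.span {π θ} := by
  obtain ⟨g, hg⟩ := (IsPrincipalIdealRing.principal (etaIdeal π)).principal
  have hg' : etaIdeal π = Ideal.span {g} := hg
  have hgη : g ∈ etaIdeal π := by rw [hg']; exact Ideal.subset_span rfl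
  have hsurj : Function.Surjective π := fun c => ⟨algebraMap 𝒪 T c, π.commutes c⟩
  rw [etaIdeal, Ideal.mem_map_iff_of_surjective _ hsurj] at hgη
  obtain ⟨θ, hθ, rfl⟩ := hgη
  refine ⟨θ, ?_, ?_, hg'⟩
  · intro s hs
    exact (Submodule.mem_annihilator.mp hθ) s (RingHom.mem_ker.mpr hs)
  · intro h0
    apply hη
    rw [hg', h0]
    exact Ideal.span_singleton_eq_bot.mpr rfl

/-- **`#Ω ≤ #(𝒪/η)^d`**. -/
theorem card_omegaMod_le (π : T →ₐ[𝒪] 𝒪) (hη : etaIdeal π ≠ ⊥) :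
    Finite (OmegaMod π M) ∧ Nat.card (OmegaMod π M) ≤
      Nat.card (𝒪 ⧸ etaIdeal π) ^ Module.finrank 𝒪 (augTorsion π M) := by
  obtain ⟨θ, hθ, hθ0, hηθ⟩ := exists_ann_generator π hη
  obtain ⟨h1, h2, -⟩ := card_omegaMod_le_aux π M hθ hθ0 hηθ
  exact ⟨h1, h2⟩

variable {R : Type w} [CommRing R] [Algebra 𝒪 R] [IsLocalRing R] [IsNoetherianRing R]

/-- **Criterion II** (Diamond; Darmon–Diamond–Taylor): the numerical criterion in module form. -/
theorem criterionII (φ : R →ₐ[𝒪] T) (hφ : Function.Surjective φ) (π : T →ₐ[𝒪] 𝒪)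
    [Finite (RingHom.ker (π.comp φ)).Cotangent]
    (hd : 0 < Module.finrank 𝒪 (augTorsion π M))
    (hrank : Module.finrank 𝒪 M ≤ Module.finrank 𝒪 (augTorsion π M) * Module.finrank 𝒪 T)
    (hcard : Nat.card (RingHom.ker (π.comp φ)).Cotangent ^ Module.finrank 𝒪 (augTorsion π M) ≤
      Nat.card (OmegaMod π M)) :
    Function.Bijective φ ∧
      (∃ m : Fin (Module.finrank 𝒪 (augTorsion π M)) → M,
        Function.Bijective (Fintype.linearCombination T m)) ∧
      Nat.card (RingHom.ker (π.comp φ)).Cotangent = Nat.card (𝒪 ⧸ etaIdeal π) ∧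
      Nat.card (OmegaMod π M) =
        Nat.card (RingHom.ker (π.comp φ)).Cotangent ^ Module.finrank 𝒪 (augTorsion π M) := by
  classical
  -- `T` is local
  haveI : Nontrivial T := (π : T →+* 𝒪).domain_nontrivial
  haveI : IsLocalRing T := IsLocalRing.of_surjective' (φ : R →+* T) hφ
  obtain ⟨hfinT, hcardT⟩ := finite_cotangent_of_surjective φ hφ π
  haveI := hfinT
  obtain ⟨hη, -⟩ := Fermat.Agent.S59.H360.card_quot_etaIdeal_le π
  obtain ⟨-, hΩle⟩ := card_omegaMod_le M π hη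
  -- the numerical inequality
  have h1 : Nat.card (RingHom.ker (π.comp φ)).Cotangent ≤ Nat.card (𝒪 ⧸ etaIdeal π) :=
    (Nat.pow_le_pow_iff_left hd.ne').mp (hcard.trans hΩle)
  obtain ⟨hbij, heq⟩ := numerical_criterion_eta φ hφ π h1
  have hΩeq : Nat.card (OmegaMod π M) =
      Nat.card (𝒪 ⧸ etaIdeal π) ^ Module.finrank 𝒪 (augTorsion π M) :=
    le_antisymm hΩle (by rw [← heq]; exact hcard)
  -- Gorenstein
  obtain ⟨ϖ, hϖ⟩ := IsDiscreteValuationRing.exists_irreducible 𝒪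
  obtain ⟨θ, hθ, hθ0, hηθ, hsoc⟩ := exists_socle_generator_eta π (hcardT.trans h1) hϖ
  obtain ⟨-, -, hLθ⟩ := card_omegaMod_le_aux π M hθ hθ0 hηθ
  refine ⟨hbij, ?_, heq, by rw [heq]; exact hΩeq⟩
  exact exists_bijective_linearCombination_of_socle π M hϖ hθ hsoc (hLθ hΩeq) hrank

end Module

end Fermat.Agent.S59.H427

end
-- ===== PACK-END S59/H427/CriterionII.lean

-- ===== PACK-BEGIN S59/H427/NCBridge.lean
section




/-!
# S59 / N1 (helper427): the numerical criterion package in the vocabulary of `S59/NC/Defs.lean`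

The induction invariant of `Fermat.Agent.S59.Arch.RTIso` is
`Finite (NC.Cot (π.comp φ)) ∧ Nat.card (NC.Cot (π.comp φ)) = Nat.card (𝒪 ⧸ NC.congIdeal π)`.

* `congIdeal_eq_etaIdeal` : `NC.congIdeal π = H67.etaIdeal π`.
* `numerical_criterion_full_NC` : the induction step (`#Φ_R ≤ #(𝒪/η_T)` ⇒ `φ` bijective and the
  invariant).
* `card_cot_eq_of_ci_NC` : Tate's formula for a complete intersection.
* `card_cot_comp_eq_of_bijective` : transport of `Φ` along an isomorphism.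
* `numEq_of_ci` : the invariant at the minimal level, from `φ : R ≃ T` and a presentation
  `R = 𝒪⟦X₁,…,Xₙ⟧ / (f₁,…,fₙ)` (the shape of the conclusion of the frozen S57).
* `criterionII_NC` : the module form (Diamond, DDT).
-/

set_option autoImplicit false
set_option linter.unusedSectionVars false
set_option linter.unusedVariables false
set_option linter.style.haveILetI false

namespace Fermat.Agent.S59.H427

open IsLocalRing Fermat.Agent.S59.NC Fermat.Agent.S59.H67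

universe u v w x

section Vocab

variable {𝒪 : Type*} [CommRing 𝒪] {A : Type*} [CommRing A] [Algebra 𝒪 A]

theorem congIdeal_eq_etaIdeal (π : A →ₐ[𝒪] 𝒪) : congIdeal π = etaIdeal π := rfl

end Vocab

section Step

variable {𝒪 : Type u} [CommRing 𝒪] [IsDomain 𝒪] [IsDiscreteValuationRing 𝒪]
variable {R : Type w} [CommRing R] [Algebra 𝒪 R] [IsLocalRing R] [IsNoetherianRing R]
variable {T : Type v} [CommRing T] [Algebra 𝒪 T] [Module.Free 𝒪 T] [Module.Finite 𝒪 T]

/-- **Numerical criterion** (induction step of `RTIso`): if `Φ_R` is finite and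
`#Φ_R ≤ #(𝒪/η_T)`, then `φ` is bijective and `#Φ_R = #(𝒪/η_T)`. -/
theorem numerical_criterion_full_NC (φ : R →ₐ[𝒪] T) (hφ : Function.Surjective φ) (π : T →ₐ[𝒪] 𝒪)
    [Finite (Cot (π.comp φ))]
    (hcard : Nat.card (Cot (π.comp φ)) ≤ Nat.card (𝒪 ⧸ congIdeal π)) :
    Function.Bijective φ ∧ Nat.card (Cot (π.comp φ)) = Nat.card (𝒪 ⧸ congIdeal π) := by
  have hfin : Finite (RingHom.ker ((π.comp φ : R →ₐ[𝒪] 𝒪) : R →+* 𝒪)).Cotangent :=
    ‹Finite (Cot (π.comp φ))›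
  exact numerical_criterion_full φ hφ π hcard

end Step

section Transport

variable {𝒪 : Type*} [CommRing 𝒪]
variable {R : Type*} [CommRing R] [Algebra 𝒪 R]
variable {T : Type*} [CommRing T] [Algebra 𝒪 T]

/-- The map on cotangent spaces induced by an isomorphism is bijective. -/
theorem exists_cotangent_equiv_of_bijective (φ : R →ₐ[𝒪] T) (hφ : Function.Bijective φ)
    (π : T →ₐ[𝒪] 𝒪) :
    ∃ e : (RingHom.ker (π.comp φ)).Cotangent →ₗ[𝒪] (RingHom.ker π).Cotangent,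
      Function.Bijective e := by
  set 𝔭R : Ideal R := RingHom.ker (π.comp φ) with h𝔭R
  set 𝔭T : Ideal T := RingHom.ker π with h𝔭T
  have hle : 𝔭R ≤ 𝔭T.comap φ := fun r hr => hr
  let mapCot : 𝔭R.Cotangent →ₗ[𝒪] 𝔭T.Cotangent := Ideal.mapCotangent 𝔭R 𝔭T φ hle
  have hmapCot : ∀ r : 𝔭R, mapCot (𝔭R.toCotangent r) = 𝔭T.toCotangent ⟨φ r, hle r.2⟩ :=
    fun r => Ideal.mapCotangent_toCotangent 𝔭R 𝔭T φ hle r
  refine ⟨mapCot, ?_, ?_⟩
  · rw [← LinearMap.ker_eq_bot, LinearMap.ker_eq_bot']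
    intro y hy
    obtain ⟨r, rfl⟩ := 𝔭R.toCotangent_surjective y
    rw [hmapCot, Ideal.toCotangent_eq_zero] at hy
    rw [Ideal.toCotangent_eq_zero]
    have hmap : Ideal.map (φ : R →+* T) 𝔭R = 𝔭T := by
      have h1 : 𝔭R = Ideal.comap (φ : R →+* T) 𝔭T := rfl
      rw [h1]
      exact Ideal.map_comap_of_surjective _ hφ.2 _
    have h2 : φ (r : R) ∈ Ideal.map (φ : R →+* T) (𝔭R ^ 2) := by
      rw [Ideal.map_pow, hmap]
      exact hy
    obtain ⟨r', hr', hrr'⟩ := (Ideal.mem_map_iff_of_surjective (φ : R →+* T) hφ.2).mp h2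
    have : r' = (r : R) := hφ.1 hrr'
    rw [← this]
    exact hr'
  · intro y
    obtain ⟨⟨t, ht⟩, rfl⟩ := 𝔭T.toCotangent_surjective y
    obtain ⟨r, rfl⟩ := hφ.2 t
    exact ⟨𝔭R.toCotangent ⟨r, ht⟩, hmapCot _⟩

theorem card_cotangent_comp_eq_of_bijective (φ : R →ₐ[𝒪] T) (hφ : Function.Bijective φ)
    (π : T →ₐ[𝒪] 𝒪) :
    Nat.card (RingHom.ker (π.comp φ)).Cotangent = Nat.card (RingHom.ker π).Cotangent := by
  obtain ⟨e, he⟩ := exists_cotangent_equiv_of_bijective φ hφ π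
  exact Nat.card_eq_of_bijective e he

theorem card_cot_comp_eq_of_bijective (φ : R →ₐ[𝒪] T) (hφ : Function.Bijective φ)
    (π : T →ₐ[𝒪] 𝒪) : Nat.card (Cot (π.comp φ)) = Nat.card (Cot π) :=
  card_cotangent_comp_eq_of_bijective φ hφ π

theorem finite_cot_comp_of_bijective (φ : R →ₐ[𝒪] T) (hφ : Function.Bijective φ)
    (π : T →ₐ[𝒪] 𝒪) [Finite (Cot π)] : Finite (Cot (π.comp φ)) := by
  obtain ⟨e, he⟩ := exists_cotangent_equiv_of_bijective φ hφ π
  have hfin : Finite (RingHom.ker π).Cotangent := ‹Finite (Cot π)›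
  exact (Finite.of_injective e he.1 : Finite (RingHom.ker (π.comp φ)).Cotangent)

theorem finite_cot_of_bijective (φ : R →ₐ[𝒪] T) (hφ : Function.Bijective φ)
    (π : T →ₐ[𝒪] 𝒪) [Finite (Cot (π.comp φ))] : Finite (Cot π) := by
  obtain ⟨e, he⟩ := exists_cotangent_equiv_of_bijective φ hφ π
  have hfin : Finite (RingHom.ker (π.comp φ)).Cotangent := ‹Finite (Cot (π.comp φ))›
  exact (Finite.of_surjective e he.2 : Finite (RingHom.ker π).Cotangent)

end Transport

section Tate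

variable {𝒪 : Type*} [CommRing 𝒪] [IsDomain 𝒪] [IsDiscreteValuationRing 𝒪]
  [IsAdicComplete (maximalIdeal 𝒪) 𝒪] [Finite (ResidueField 𝒪)]
variable {T : Type*} [CommRing T] [IsLocalRing T] [Algebra 𝒪 T] [Module.Finite 𝒪 T]
  [Module.Free 𝒪 T]

/-- **Tate's formula** for complete intersections, `NC` vocabulary. -/
theorem card_cot_eq_of_ci_NC (π : T →ₐ[𝒪] 𝒪) {n : ℕ}
    (ψ : MvPowerSeries (Fin n) 𝒪 →ₐ[𝒪] T) (hψ : Function.Surjective ψ)
    (f : Fin n → MvPowerSeries (Fin n) 𝒪) (hker : RingHom.ker ψ = Ideal.span (Set.range f))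
    [Finite (Cot π)] :
    congIdeal π ≠ ⊥ ∧ Nat.card (Cot π) = Nat.card (𝒪 ⧸ congIdeal π) := by
  have hfin : Finite (RingHom.ker π).Cotangent := ‹Finite (Cot π)›
  exact card_cotangent_eq_of_ci π ψ hψ f hker

variable {R : Type*} [CommRing R] [Algebra 𝒪 R]

/-- **The invariant of `RTIso` at the minimal level**: if `φ : R → T` is bijective and
`R = 𝒪⟦X₁,…,Xₙ⟧ / (f₁,…,fₙ)`, then `#Φ_R = #(𝒪/η_T)` (given that `Φ_T` is finite). -/
theorem numEq_of_ci (φ : R →ₐ[𝒪] T) (hφ : Function.Bijective φ) (π : T →ₐ[𝒪] 𝒪) {n : ℕ}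
    (γ : MvPowerSeries (Fin n) 𝒪 →ₐ[𝒪] R) (hγ : Function.Surjective γ)
    (f : Fin n → MvPowerSeries (Fin n) 𝒪) (hker : RingHom.ker γ = Ideal.span (Set.range f))
    [Finite (Cot π)] :
    Finite (Cot (π.comp φ)) ∧ Nat.card (Cot (π.comp φ)) = Nat.card (𝒪 ⧸ congIdeal π) := by
  have hker' : RingHom.ker (φ.comp γ) = Ideal.span (Set.range f) := by
    rw [← hker]
    ext g
    rw [RingHom.mem_ker, RingHom.mem_ker, AlgHom.comp_apply]
    constructor
    · intro h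
      exact hφ.1 (h.trans (map_zero φ).symm)
    · intro h
      rw [h, map_zero]
  obtain ⟨-, h2⟩ := card_cot_eq_of_ci_NC π (φ.comp γ) (hφ.2.comp hγ) f hker'
  exact ⟨finite_cot_comp_of_bijective φ hφ π, (card_cot_comp_eq_of_bijective φ hφ π).trans h2⟩

end Tate

section ModuleForm

variable {𝒪 : Type u} [CommRing 𝒪] [IsDomain 𝒪] [IsDiscreteValuationRing 𝒪]
  [Finite (ResidueField 𝒪)]
variable {T : Type v} [CommRing T] [Algebra 𝒪 T] [Module.Free 𝒪 T] [Module.Finite 𝒪 T]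
variable (M : Type x) [AddCommGroup M] [Module 𝒪 M] [Module T M]
  [IsScalarTower 𝒪 T M] [Module.Free 𝒪 M] [Module.Finite 𝒪 M]
variable {R : Type w} [CommRing R] [Algebra 𝒪 R] [IsLocalRing R] [IsNoetherianRing R]

/-- **Criterion II** (module form of the numerical criterion), `NC` vocabulary. -/
theorem criterionII_NC (φ : R →ₐ[𝒪] T) (hφ : Function.Surjective φ) (π : T →ₐ[𝒪] 𝒪)
    [Finite (Cot (π.comp φ))]
    (hd : 0 < Module.finrank 𝒪 (augTorsion π M))
    (hrank : Module.finrank 𝒪 M ≤ Module.finrank 𝒪 (augTorsion π M) * Module.finrank 𝒪 T)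
    (hcard : Nat.card (Cot (π.comp φ)) ^ Module.finrank 𝒪 (augTorsion π M) ≤
      Nat.card (OmegaMod π M)) :
    Function.Bijective φ ∧
      (∃ m : Fin (Module.finrank 𝒪 (augTorsion π M)) → M,
        Function.Bijective (Fintype.linearCombination T m)) ∧
      Nat.card (Cot (π.comp φ)) = Nat.card (𝒪 ⧸ congIdeal π) ∧
      Nat.card (OmegaMod π M) =
        Nat.card (Cot (π.comp φ)) ^ Module.finrank 𝒪 (augTorsion π M) := by
  have hfin : Finite (RingHom.ker (π.comp φ)).Cotangent := ‹Finite (Cot (π.comp φ))›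
  exact criterionII M φ hφ π hd hrank hcard

end ModuleForm

end Fermat.Agent.S59.H427

end
-- ===== PACK-END S59/H427/NCBridge.lean

-- ===== PACK-BEGIN S59/H585/StepGram.lean
section


/-!
# S59, cell NM, leaf STEP, part 2 (helper585): the Gram computation

`x' = q P₁ x - a_q P₂ x + P₃ x`.  For cuspidal `x` and `T_q`-eigenclasses `w₁ w₂ w₃` of level `N`
(eigenvalue `a_q`):

    B_{N q²}(x', P₁ w₁ + P₂ w₂ + P₃ w₃) = - c_q · B_N(x, w₁),   c_q = (q - 1)(a_q² - (q + 1)²).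

Inputs: adjunction `H585.adj2` (both stages), HK-3, HK-4 (first stage, `S41.H281.hkStatement`),
`NM.HK2Statement` (second stage).
-/

set_option autoImplicit false

open CongruenceSubgroup
open scoped MatrixGroups

namespace Fermat.Agent.S59.H585

open Fermat.Agent.S59.NM Fermat.Agent.S41.Spec Fermat.Agent.S29.H642 ModularCurve.Period

section Gram

variable {R : Type} [CommRing R] {N q : ℕ}

/-- The adjoint of `ξ = q P₁ - a_q P₂ + P₃`. -/
noncomputable def xiAdj585 (N q : ℕ) (aq : R) (y : Additive (Gamma0 (N * q * q)) →+ R) :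
    Additive (Gamma0 N) →+ R :=
  (q : R) • t₁ N q (t₁ (N * q) q y) - aq • t₂ N q (t₁ (N * q) q y) + t₂ N q (t₂ (N * q) q y)

/-- `ξ x`. -/
def xi585 (N q : ℕ) (aq : R) (x : Additive (Gamma0 N) →+ R) :
    Additive (Gamma0 (N * q * q)) →+ R :=
  (q : R) • P₁ N q x - aq • P₂ N q x + P₃ N q x

theorem isCuspidal_xi585 (aq : R) {x : Additive (Gamma0 N) →+ R} (hx : IsCuspidal x) :
    IsCuspidal (xi585 N q aq x) :=
  isCuspidal_add585 (isCuspidal_sub585 (isCuspidal_smul585 _ (isCuspidal_P₁585 hx))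
    (isCuspidal_smul585 _ (isCuspidal_P₂585 hx))) (isCuspidal_P₃585 hx)

theorem isEigenclass_xi585 {S : Finset ℕ} {a : ℕ → R} (aq : R)
    {x : Additive (Gamma0 N) →+ R} (hx : IsEigenclass N (insert q S) a x) :
    IsEigenclass (N * q * q) (insert q S) a (xi585 N q aq x) :=
  isEigenclass_add585 (isEigenclass_sub585 (isEigenclass_smul585 _ (isEigenclass_P₁585 hx))
    (isEigenclass_smul585 _ (isEigenclass_P₂585 hx))) (isEigenclass_P₃585 hx)

theorem xi585_comp {R' : Type} [CommRing R'] (f : R →+* R') (aq : R)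
    (x : Additive (Gamma0 N) →+ R) :
    f.toAddMonoidHom.comp (xi585 N q aq x) = xi585 N q (f aq) (f.toAddMonoidHom.comp x) := by
  refine AddMonoidHom.ext fun g => ?_
  show f ((q : R) * P₁ N q x g - aq * P₂ N q x g + P₃ N q x g) =
    (q : R') * f (P₁ N q x g) - f aq * f (P₂ N q x g) + f (P₃ N q x g)
  simp only [map_add, map_sub, map_mul, map_natCast]

/-- `ξ x = P₁ (q x) + P₂ (- a_q x) + P₃ x`. -/
theorem xi585_eq (aq : R) (x : Additive (Gamma0 N) →+ R) :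
    xi585 N q aq x = P₁ N q ((q : R) • x) + P₂ N q ((-aq) • x) + P₃ N q x := by
  refine AddMonoidHom.ext fun g => ?_
  show (q : R) * P₁ N q x g - aq * P₂ N q x g + P₃ N q x g =
    (q : R) * P₁ N q x g + (-aq) * P₂ N q x g + P₃ N q x g
  ring

variable [IsDomain R]

/-- Adjunction: `B'(ξ x, y) = B(x, ξ† y)`. -/
theorem pairing_xi585 (hN : N ≠ 0) (hq : q.Prime) (aq : R) {x : Additive (Gamma0 N) →+ R}
    {y : Additive (Gamma0 (N * q * q)) →+ R} (hx : IsCuspidal x) (hy : IsCuspidal y) :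
    maninPairing (Gamma0 (N * q * q)) (xi585 N q aq x) y =
      maninPairing (Gamma0 N) x (xiAdj585 N q aq y) := by
  have hNq : N * q ≠ 0 := Nat.mul_ne_zero hN hq.ne_zero
  have hFI := finiteIndex_Gamma0' hN
  have hFI'' := finiteIndex_Gamma0' (Nat.mul_ne_zero hNq hq.ne_zero)
  have hneg := neg_one_mem_Gamma0' N
  have hneg'' := neg_one_mem_Gamma0' (N * q * q)
  have a1 := (adj2 R N q hN hq).1
  have a2 := (adj2 R (N * q) q hNq hq).1
  have ht1 : IsCuspidal (t₁ (N * q) q y) := isCuspidal_t₁585 hy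
  have ht2 : IsCuspidal (t₂ (N * q) q y) := isCuspidal_t₂585 hy
  have e1 : maninPairing (Gamma0 (N * q * q)) (P₁ N q x) y =
      maninPairing (Gamma0 N) x (t₁ N q (t₁ (N * q) q y)) := by
    rw [P₁, (a2 (r₁ N q x) y (isCuspidal_r₁585 hx) hy).1, (a1 x _ hx ht1).1]
  have e2 : maninPairing (Gamma0 (N * q * q)) (P₂ N q x) y =
      maninPairing (Gamma0 N) x (t₂ N q (t₁ (N * q) q y)) := by
    rw [P₂, (a2 (r₂ N q x) y (isCuspidal_r₂585 hx) hy).1, (a1 x _ hx ht1).2]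
  have e3 : maninPairing (Gamma0 (N * q * q)) (P₃ N q x) y =
      maninPairing (Gamma0 N) x (t₂ N q (t₂ (N * q) q y)) := by
    rw [P₃, (a2 (r₂ N q x) y (isCuspidal_r₂585 hx) hy).2, (a1 x _ hx ht2).2]
  have c1 : IsCuspidal (P₁ N q x) := isCuspidal_P₁585 hx
  have c2 : IsCuspidal (P₂ N q x) := isCuspidal_P₂585 hx
  have c3 : IsCuspidal (P₃ N q x) := isCuspidal_P₃585 hx
  have d1 : IsCuspidal (t₁ N q (t₁ (N * q) q y)) := isCuspidal_t₁585 ht1
  have d2 : IsCuspidal (t₂ N q (t₁ (N * q) q y)) := isCuspidal_t₂585 ht1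
  have d3 : IsCuspidal (t₂ N q (t₂ (N * q) q y)) := isCuspidal_t₂585 ht2
  have hsubL : ∀ {φ φ' ψ : Additive (Gamma0 (N * q * q)) →+ R}, IsCuspidal φ → IsCuspidal φ' →
      IsCuspidal ψ → maninPairing (Gamma0 (N * q * q)) (φ - φ') ψ =
        maninPairing (Gamma0 (N * q * q)) φ ψ - maninPairing (Gamma0 (N * q * q)) φ' ψ := by
    intro φ φ' ψ h h' hψ
    have := maninPairing_add_left hneg'' (isCuspidal_sub585 h h') h' hψ
    rw [sub_add_cancel] at this
    rw [this, add_sub_cancel_right]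
  have hsubR : ∀ {φ ψ ψ' : Additive (Gamma0 N) →+ R}, IsCuspidal φ → IsCuspidal ψ →
      IsCuspidal ψ' → maninPairing (Gamma0 N) φ (ψ - ψ') =
        maninPairing (Gamma0 N) φ ψ - maninPairing (Gamma0 N) φ ψ' := by
    intro φ ψ ψ' h hψ hψ'
    have := maninPairing_add_right hneg h (isCuspidal_sub585 hψ hψ') hψ'
    rw [sub_add_cancel] at this
    rw [this, add_sub_cancel_right]
  unfold xi585 xiAdj585
  rw [maninPairing_add_left hneg'' (isCuspidal_sub585 (isCuspidal_smul585 _ c1)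
      (isCuspidal_smul585 _ c2)) c3 hy,
    hsubL (isCuspidal_smul585 _ c1) (isCuspidal_smul585 _ c2) hy,
    maninPairing_smul_left hneg'' _ c1 hy, maninPairing_smul_left hneg'' _ c2 hy,
    maninPairing_add_right hneg hx (isCuspidal_sub585 (isCuspidal_smul585 _ d1)
      (isCuspidal_smul585 _ d2)) d3,
    hsubR hx (isCuspidal_smul585 _ d1) (isCuspidal_smul585 _ d2),
    maninPairing_smul_right hneg _ hx d1, maninPairing_smul_right hneg _ hx d2, e1, e2, e3]

omit [IsDomain R] in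
/-- The operator identity `ξ† (P₁ w₁ + P₂ w₂ + P₃ w₃) = - c_q w₁` on `T_q`-eigenclasses. -/
theorem xiAdj585_old (hHK2 : HK2Statement) (hN : N ≠ 0) [hq : Fact q.Prime] (hqN : ¬ q ∣ N)
    (aq : R) {w₁ w₂ w₃ : Additive (Gamma0 N) →+ R}
    (h₁ : heckeTransfer hqN w₁ = aq • w₁) (h₂ : heckeTransfer hqN w₂ = aq • w₂)
    (h₃ : heckeTransfer hqN w₃ = aq • w₃) :
    xiAdj585 N q aq (P₁ N q w₁ + P₂ N q w₂ + P₃ N q w₃) =
      (-(((q : R) - 1) * (aq ^ 2 - ((q : R) + 1) ^ 2))) • w₁ := by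
  obtain ⟨-, -, -, -, -, -, hTR, hTRH, -⟩ := Fermat.Agent.S41.H281.hkStatement.{0}
  have hk := hHK2 N q hqN hN R
  -- first stage
  have f11 : ∀ w : Additive (Gamma0 N) →+ R, t₁ N q (r₁ N q w) = ((q : R) + 1) • w := by
    intro w
    rw [(hTR N q hN hq.out hqN R w).1, nsmul_eq_smul585]
    push_cast
    rfl
  have f22 : ∀ w : Additive (Gamma0 N) →+ R, t₂ N q (r₂ N q w) = ((q : R) + 1) • w := by
    intro w
    rw [(hTR N q hN hq.out hqN R w).2, nsmul_eq_smul585]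
    push_cast
    rfl
  have f12 : ∀ w : Additive (Gamma0 N) →+ R, t₁ N q (r₂ N q w) = heckeTransfer hqN w :=
    fun w => (hTRH N q hqN hN R w).1
  have f21 : ∀ w : Additive (Gamma0 N) →+ R, t₂ N q (r₁ N q w) = heckeTransfer hqN w :=
    fun w => (hTRH N q hqN hN R w).2
  -- second stage
  have s11 : ∀ ψ : Additive (Gamma0 (N * q)) →+ R,
      t₁ (N * q) q (r₁ (N * q) q ψ) = (q : R) • ψ := by
    intro ψ
    rw [(hk.2 ψ).1, nsmul_eq_smul585]
  have s22 : ∀ ψ : Additive (Gamma0 (N * q)) →+ R,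
      t₂ (N * q) q (r₂ (N * q) q ψ) = (q : R) • ψ := by
    intro ψ
    rw [(hk.2 ψ).2, nsmul_eq_smul585]
  have s122 : ∀ w : Additive (Gamma0 N) →+ R, t₁ (N * q) q (r₂ (N * q) q (r₂ N q w)) =
      r₂ N q (heckeTransfer hqN w) - r₁ N q w := fun w => (hk.1 w).2.1
  have s211 : ∀ w : Additive (Gamma0 N) →+ R, t₂ (N * q) q (r₁ (N * q) q (r₁ N q w)) =
      r₁ N q (heckeTransfer hqN w) - r₂ N q w := fun w => (hk.1 w).2.2
  have scomm : ∀ w : Additive (Gamma0 N) →+ R,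
      r₁ (N * q) q (r₂ N q w) = r₂ (N * q) q (r₁ N q w) := fun w => ((hk.1 w).1).symm
  -- the nine entries
  have q11 : ∀ w : Additive (Gamma0 N) →+ R, t₁ N q (t₁ (N * q) q (P₁ N q w)) = ((q : R) * ((q : R) + 1)) • w := by
    intro w
    rw [P₁, s11, t₁_smul585, f11, smul_smul]
  have q12 : ∀ w : Additive (Gamma0 N) →+ R, heckeTransfer hqN w = aq • w →
      t₁ N q (t₁ (N * q) q (P₂ N q w)) = ((q : R) * aq) • w := by
    intro w hw
    rw [P₂, s11, t₁_smul585, f12, hw, smul_smul]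
  have q13 : ∀ w : Additive (Gamma0 N) →+ R, heckeTransfer hqN w = aq • w →
      t₁ N q (t₁ (N * q) q (P₃ N q w)) = (aq ^ 2 - ((q : R) + 1)) • w := by
    intro w hw
    rw [P₃, s122, t₁_sub585, f12, f11, hw, heckeTransfer_smul585, hw, smul_smul, ← sub_smul,
      pow_two]
  have q21 : ∀ w : Additive (Gamma0 N) →+ R, heckeTransfer hqN w = aq • w →
      t₂ N q (t₁ (N * q) q (P₁ N q w)) = ((q : R) * aq) • w := by
    intro w hw
    rw [P₁, s11, t₂_smul585, f21, hw, smul_smul]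
  have q22 : ∀ w : Additive (Gamma0 N) →+ R, t₂ N q (t₁ (N * q) q (P₂ N q w)) = ((q : R) * ((q : R) + 1)) • w := by
    intro w
    rw [P₂, s11, t₂_smul585, f22, smul_smul]
  have q23 : ∀ w : Additive (Gamma0 N) →+ R, heckeTransfer hqN w = aq • w →
      t₂ N q (t₁ (N * q) q (P₃ N q w)) = ((q : R) * aq) • w := by
    intro w hw
    rw [P₃, s122, t₂_sub585, f22, f21, hw, smul_smul, ← sub_smul]
    congr 1
    ring
  have q31 : ∀ w : Additive (Gamma0 N) →+ R, heckeTransfer hqN w = aq • w →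
      t₂ N q (t₂ (N * q) q (P₁ N q w)) = (aq ^ 2 - ((q : R) + 1)) • w := by
    intro w hw
    rw [P₁, s211, t₂_sub585, f21, f22, hw, heckeTransfer_smul585, hw, smul_smul, ← sub_smul,
      pow_two]
  have q32 : ∀ w : Additive (Gamma0 N) →+ R, heckeTransfer hqN w = aq • w →
      t₂ N q (t₂ (N * q) q (P₂ N q w)) = ((q : R) * aq) • w := by
    intro w hw
    rw [P₂, scomm, s22, t₂_smul585, f21, hw, smul_smul]
  have q33 : ∀ w : Additive (Gamma0 N) →+ R, t₂ N q (t₂ (N * q) q (P₃ N q w)) = ((q : R) * ((q : R) + 1)) • w := by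
    intro w
    rw [P₃, s22, t₂_smul585, f22, smul_smul]
  unfold xiAdj585
  simp only [t₁_add585, t₂_add585, q11, q12 w₂ h₂, q13 w₃ h₃, q21 w₁ h₁, q22, q23 w₃ h₃,
    q31 w₁ h₁, q32 w₂ h₂, q33]
  refine AddMonoidHom.ext fun g => ?_
  simp only [AddMonoidHom.add_apply, AddMonoidHom.sub_apply, AddMonoidHom.smul_apply,
    smul_eq_mul]
  ring

/-- **The Gram computation.** -/
theorem pairing_xi585_old (hHK2 : HK2Statement) (hN : N ≠ 0) [hq : Fact q.Prime]
    (hqN : ¬ q ∣ N) (aq : R) {x w₁ w₂ w₃ : Additive (Gamma0 N) →+ R} (hx : IsCuspidal x)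
    (c₁ : IsCuspidal w₁) (c₂ : IsCuspidal w₂) (c₃ : IsCuspidal w₃)
    (h₁ : heckeTransfer hqN w₁ = aq • w₁) (h₂ : heckeTransfer hqN w₂ = aq • w₂)
    (h₃ : heckeTransfer hqN w₃ = aq • w₃) :
    maninPairing (Gamma0 (N * q * q)) (xi585 N q aq x)
        (P₁ N q w₁ + P₂ N q w₂ + P₃ N q w₃) =
      -(((q : R) - 1) * (aq ^ 2 - ((q : R) + 1) ^ 2)) * maninPairing (Gamma0 N) x w₁ := by
  have hFI := finiteIndex_Gamma0' hN
  rw [pairing_xi585 hN hq.out aq hx
      (isCuspidal_add585 (isCuspidal_add585 (isCuspidal_P₁585 c₁) (isCuspidal_P₂585 c₂))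
        (isCuspidal_P₃585 c₃)),
    xiAdj585_old hHK2 hN hqN aq h₁ h₂ h₃,
    maninPairing_smul_right (neg_one_mem_Gamma0' N) _ hx c₁]

end Gram

end Fermat.Agent.S59.H585

end
-- ===== PACK-END S59/H585/StepGram.lean

-- ===== PACK-BEGIN S59/H585/StepCore.lean
section



/-!
# S59, cell NM, leaf STEP, part 3 (helper585): the step of the Betti bound

`boundStep_core` : `BettiBound N S a J → BettiBound (N q²) (S ∪ {q}) a ((c_q) J)` over a DVR `𝒪`
of characteristic `0`, from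
* `NM.HK2Statement` (on main: `H202.hk2`), `NM.OldStatement`;
* Ihara's lemma `N → N q²` for the reduction of the system `a` ONLY (hypothesis `hI`), so that
  both `NM.Ihara2Statement` and the curve case (`S41.iharaEigen_main`) plug in.
-/

set_option autoImplicit false

open CongruenceSubgroup IsLocalRing
open scoped MatrixGroups

namespace Fermat.Agent.S59.H585

open Fermat.Agent.S59.NM Fermat.Agent.S41.Spec Fermat.Agent.S29.H642 ModularCurve.Period

section Lift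

/-- A homomorphism with values in the range of an injective additive map lifts. -/
theorem exists_hom_of_range585 {G A B : Type} [AddZeroClass G] [AddCommGroup A]
    [AddCommGroup B] (ι : A →+ B) (hι : Function.Injective ι) (f : G →+ B)
    (h : ∀ g, ∃ c, ι c = f g) : ∃ w : G →+ A, ι.comp w = f := by
  classical
  choose c hc using h
  refine ⟨{ toFun := c, map_zero' := hι ?_, map_add' := fun g g' => hι ?_ }, ?_⟩
  · rw [hc, map_zero, map_zero]
  · rw [map_add, hc, hc, hc, map_add]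
  · exact AddMonoidHom.ext fun g => hc g

variable {𝒪 : Type} [CommRing 𝒪] [IsDomain 𝒪] [IsDiscreteValuationRing 𝒪]

/-- A homomorphism to a DVR which vanishes modulo the maximal ideal is divisible by a
uniformizer. -/
theorem exists_eq_smul_of_residue585 {G : Type} [AddZeroClass G] {ϖ : 𝒪} (hϖ : Irreducible ϖ)
    (w : G →+ 𝒪) (h : (residue 𝒪).toAddMonoidHom.comp w = 0) :
    ∃ w' : G →+ 𝒪, w = ϖ • w' := by
  have hinj : Function.Injective (AddMonoidHom.mulLeft ϖ) := by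
    intro u v huv
    exact mul_left_cancel₀ hϖ.ne_zero huv
  obtain ⟨w', hw'⟩ := exists_hom_of_range585 (AddMonoidHom.mulLeft ϖ) hinj w (fun g => by
    have hg : residue 𝒪 (w g) = 0 := DFunLike.congr_fun h g
    rw [residue_eq_zero_iff, hϖ.maximalIdeal_eq, Ideal.mem_span_singleton] at hg
    obtain ⟨c, hc⟩ := hg
    exact ⟨c, hc.symm⟩)
  exact ⟨w', hw'.symm⟩

/-- Primitive classes are the classes with nonzero reduction. -/
theorem isPrim_iff585 {n : ℕ} (x : Additive (Gamma0 n) →+ 𝒪) :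
    IsPrim x ↔ (residue 𝒪).toAddMonoidHom.comp x ≠ 0 := by
  constructor
  · rintro ⟨γ, hγ⟩ h
    have hg : residue 𝒪 (x (Additive.ofMul γ)) = 0 := DFunLike.congr_fun h _
    rw [residue_eq_zero_iff] at hg
    exact (mem_maximalIdeal _).mp hg hγ
  · intro h
    by_contra hcon
    apply h
    refine AddMonoidHom.ext fun g => ?_
    show residue 𝒪 (x g) = 0
    rw [residue_eq_zero_iff, mem_maximalIdeal]
    intro hu
    exact hcon ⟨Additive.toMul g, hu⟩

end Lift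

section Denominators

variable {𝒪 : Type} [CommRing 𝒪] [IsDomain 𝒪] [IsDiscreteValuationRing 𝒪] [CharZero 𝒪]

/-- Bounded denominators: a cuspidal class with values in the fraction field becomes integral
after multiplication by a power of the uniformizer. -/
theorem exists_pow_smul_integral585 {n : ℕ} (hn : n ≠ 0) {ϖ : 𝒪} (hϖ : Irreducible ϖ)
    {z : Additive (Gamma0 n) →+ FractionRing 𝒪} (hz : IsCuspidal z) :
    ∃ (m : ℕ) (w : Additive (Gamma0 n) →+ 𝒪),
      (algebraMap 𝒪 (FractionRing 𝒪)).toAddMonoidHom.comp w =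
        (algebraMap 𝒪 (FractionRing 𝒪) ϖ ^ m) • z := by
  classical
  haveI := finiteIndex_Gamma0' hn
  set K := FractionRing 𝒪
  set ι : 𝒪 →+* K := algebraMap 𝒪 K with hι
  have hinj : Function.Injective ι := IsFractionRing.injective 𝒪 K
  obtain ⟨κ, _, v, ζ, -, hzv⟩ := exists_lincomb (R := K) hz
  obtain ⟨b, hb⟩ := IsLocalization.exist_integer_multiples_of_finset (nonZeroDivisors 𝒪)
    (Finset.univ.image v)
  have hb0 : (b : 𝒪) ≠ 0 := nonZeroDivisors.coe_ne_zero b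
  obtain ⟨m, u, hu⟩ := IsDiscreteValuationRing.eq_unit_mul_pow_irreducible hb0 hϖ
  have hint : ∀ k, ∃ c : 𝒪, ι c = ι ϖ ^ m * v k := by
    intro k
    obtain ⟨c, hc⟩ := hb (v k) (Finset.mem_image_of_mem v (Finset.mem_univ k))
    refine ⟨(↑u⁻¹ : 𝒪) * c, ?_⟩
    rw [map_mul, hc, Algebra.smul_def, ← mul_assoc, ← map_mul]
    congr 1
    rw [← map_pow, hu, ← mul_assoc, Units.inv_mul, one_mul]
  choose c hc using hint
  refine ⟨m, ?_⟩
  apply exists_hom_of_range585 ι.toAddMonoidHom hinj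
  intro g
  refine ⟨∑ k, c k * ((ζ k g : ℤ) : 𝒪), ?_⟩
  show ι (∑ k, c k * ((ζ k g : ℤ) : 𝒪)) = ι ϖ ^ m * z g
  rw [map_sum, hzv g, Finset.mul_sum]
  refine Finset.sum_congr rfl fun k _ => ?_
  rw [map_mul, hc k, map_intCast, mul_assoc]

end Denominators

section Core

variable {𝒪 : Type} [CommRing 𝒪] [IsDomain 𝒪] [IsDiscreteValuationRing 𝒪] [CharZero 𝒪]

/-- The Ihara hypothesis for the reduction of the system `a`, at `(N, q, S)`. -/
def IharaAt585 (𝒪 : Type) [CommRing 𝒪] [IsLocalRing 𝒪] (N q : ℕ) (S : Finset ℕ) (a : ℕ → 𝒪) :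
    Prop :=
  ∀ z₁ z₂ z₃ : Additive (Gamma0 N) →+ ResidueField 𝒪,
    IsEigenclass N (insert q S) (fun l => residue 𝒪 (a l)) z₁ →
    IsEigenclass N (insert q S) (fun l => residue 𝒪 (a l)) z₂ →
    IsEigenclass N (insert q S) (fun l => residue 𝒪 (a l)) z₃ →
    P₁ N q z₁ + P₂ N q z₂ + P₃ N q z₃ = 0 → z₁ = 0 ∧ z₂ = 0 ∧ z₃ = 0

theorem P_comp585 {A B : Type} [AddCommGroup A] [AddCommGroup B] (π : A →+ B) {N q : ℕ}
    (z₁ z₂ z₃ : Additive (Gamma0 N) →+ A) :
    π.comp (P₁ N q z₁ + P₂ N q z₂ + P₃ N q z₃) =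
      P₁ N q (π.comp z₁) + P₂ N q (π.comp z₂) + P₃ N q (π.comp z₃) := by
  refine AddMonoidHom.ext fun g => ?_
  show π (P₁ N q z₁ g + P₂ N q z₂ g + P₃ N q z₃ g) = _
  rw [map_add, map_add]
  rfl

theorem P_smul585 {R : Type} [CommRing R] (c : R) {N q : ℕ}
    (z₁ z₂ z₃ : Additive (Gamma0 N) →+ R) :
    P₁ N q (c • z₁) + P₂ N q (c • z₂) + P₃ N q (c • z₃) =
      c • (P₁ N q z₁ + P₂ N q z₂ + P₃ N q z₃) := by
  refine AddMonoidHom.ext fun g => ?_
  show c * P₁ N q z₁ g + c * P₂ N q z₂ g + c * P₃ N q z₃ g =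
    c * (P₁ N q z₁ g + P₂ N q z₂ g + P₃ N q z₃ g)
  ring

/-- **Saturation**: if `P₁ z₁ + P₂ z₂ + P₃ z₃` is integral, the eigenclasses `z_i` are
integral (Ihara's lemma). -/
theorem integral_of_old585 {N q : ℕ} (hN : N ≠ 0) {S : Finset ℕ} {a : ℕ → 𝒪}
    (hI : IharaAt585 𝒪 N q S a)
    {z₁ z₂ z₃ : Additive (Gamma0 N) →+ FractionRing 𝒪}
    (h₁ : IsEigenclass N S (fun l => algebraMap 𝒪 (FractionRing 𝒪) (a l)) z₁)
    (h₂ : IsEigenclass N S (fun l => algebraMap 𝒪 (FractionRing 𝒪) (a l)) z₂)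
    (h₃ : IsEigenclass N S (fun l => algebraMap 𝒪 (FractionRing 𝒪) (a l)) z₃)
    {y : Additive (Gamma0 (N * q * q)) →+ 𝒪}
    (hy : (algebraMap 𝒪 (FractionRing 𝒪)).toAddMonoidHom.comp y =
      P₁ N q z₁ + P₂ N q z₂ + P₃ N q z₃) :
    ∃ w₁ w₂ w₃ : Additive (Gamma0 N) →+ 𝒪,
      (algebraMap 𝒪 (FractionRing 𝒪)).toAddMonoidHom.comp w₁ = z₁ ∧
      (algebraMap 𝒪 (FractionRing 𝒪)).toAddMonoidHom.comp w₂ = z₂ ∧
      (algebraMap 𝒪 (FractionRing 𝒪)).toAddMonoidHom.comp w₃ = z₃ := by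
  classical
  obtain ⟨ϖ, hϖ⟩ := IsDiscreteValuationRing.exists_irreducible 𝒪
  set K := FractionRing 𝒪
  set ι : 𝒪 →+* K := algebraMap 𝒪 K with hι
  have hinj : Function.Injective ι := IsFractionRing.injective 𝒪 K
  have hϖK : ι ϖ ≠ 0 := fun h => hϖ.ne_zero (hinj (by rw [h, map_zero]))
  -- the statement with a power of the uniformizer
  have key : ∀ m : ℕ, ∀ w₁ w₂ w₃ : Additive (Gamma0 N) →+ 𝒪,
      ι.toAddMonoidHom.comp w₁ = (ι ϖ ^ m) • z₁ → ι.toAddMonoidHom.comp w₂ = (ι ϖ ^ m) • z₂ →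
      ι.toAddMonoidHom.comp w₃ = (ι ϖ ^ m) • z₃ →
      ∃ w₁ w₂ w₃ : Additive (Gamma0 N) →+ 𝒪,
        ι.toAddMonoidHom.comp w₁ = z₁ ∧ ι.toAddMonoidHom.comp w₂ = z₂ ∧
        ι.toAddMonoidHom.comp w₃ = z₃ := by
    intro m
    induction m with
    | zero =>
      intro w₁ w₂ w₃ e₁ e₂ e₃
      rw [pow_zero, one_smul] at e₁ e₂ e₃
      exact ⟨w₁, w₂, w₃, e₁, e₂, e₃⟩
    | succ m ih =>
      intro w₁ w₂ w₃ e₁ e₂ e₃
      -- the `w_i` are eigenclasses
      have hw : ∀ {w : Additive (Gamma0 N) →+ 𝒪} {z : Additive (Gamma0 N) →+ K},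
          IsEigenclass N S (fun l => ι (a l)) z →
          ι.toAddMonoidHom.comp w = (ι ϖ ^ (m + 1)) • z → IsEigenclass N S a w := by
        intro w z hz e
        apply isEigenclass_of_map585 ι hinj
        rw [e]
        exact isEigenclass_smul585 _ hz
      have hw₁ := hw h₁ e₁
      have hw₂ := hw h₂ e₂
      have hw₃ := hw h₃ e₃
      -- `Σ P_i w_i = ϖ^(m+1) y`
      have hsum : P₁ N q w₁ + P₂ N q w₂ + P₃ N q w₃ = (ϖ ^ (m + 1)) • y := by
        refine AddMonoidHom.ext fun g => hinj ?_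
        have h1 := DFunLike.congr_fun (P_comp585 ι.toAddMonoidHom (N := N) (q := q) w₁ w₂ w₃) g
        rw [e₁, e₂, e₃, P_smul585, ← hy] at h1
        have h2 : ι ((P₁ N q w₁ + P₂ N q w₂ + P₃ N q w₃) g) =
            ι ϖ ^ (m + 1) * ι (y g) := h1
        rw [h2]
        show _ = ι (ϖ ^ (m + 1) * y g)
        rw [map_mul, map_pow]
      -- reduction
      have hred : P₁ N q ((residue 𝒪).toAddMonoidHom.comp w₁) +
          P₂ N q ((residue 𝒪).toAddMonoidHom.comp w₂) +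
          P₃ N q ((residue 𝒪).toAddMonoidHom.comp w₃) = 0 := by
        rw [← P_comp585, hsum]
        refine AddMonoidHom.ext fun g => ?_
        show residue 𝒪 (ϖ ^ (m + 1) * y g) = 0
        rw [residue_eq_zero_iff, hϖ.maximalIdeal_eq, Ideal.mem_span_singleton]
        exact Dvd.dvd.mul_right (dvd_pow_self ϖ (Nat.succ_ne_zero m)) _
      have hS : S ⊆ insert q S := Finset.subset_insert q S
      obtain ⟨r₁0, r₂0, r₃0⟩ := hI _ _ _
        (isEigenclass_map585 (residue 𝒪) (isEigenclass_mono585 hS hw₁)) (isEigenclass_map585 (residue 𝒪) (isEigenclass_mono585 hS hw₂))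
        (isEigenclass_map585 (residue 𝒪) (isEigenclass_mono585 hS hw₃)) hred
      obtain ⟨w₁', hw₁'⟩ := exists_eq_smul_of_residue585 hϖ w₁ r₁0
      obtain ⟨w₂', hw₂'⟩ := exists_eq_smul_of_residue585 hϖ w₂ r₂0
      obtain ⟨w₃', hw₃'⟩ := exists_eq_smul_of_residue585 hϖ w₃ r₃0
      have hdiv : ∀ {w w' : Additive (Gamma0 N) →+ 𝒪} {z : Additive (Gamma0 N) →+ K},
          w = ϖ • w' → ι.toAddMonoidHom.comp w = (ι ϖ ^ (m + 1)) • z →
          ι.toAddMonoidHom.comp w' = (ι ϖ ^ m) • z := by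
        intro w w' z e e'
        refine AddMonoidHom.ext fun g => ?_
        have hg := DFunLike.congr_fun e' g
        have hg' : ι (w g) = ι ϖ ^ (m + 1) * z g := hg
        rw [e] at hg'
        have hg'' : ι (ϖ * w' g) = ι ϖ ^ (m + 1) * z g := hg'
        rw [map_mul, pow_succ', mul_assoc] at hg''
        exact mul_left_cancel₀ hϖK hg''
      exact ih w₁' w₂' w₃' (hdiv hw₁' e₁) (hdiv hw₂' e₂) (hdiv hw₃' e₃)
  -- bounded denominators
  obtain ⟨m₁, v₁, e₁⟩ := exists_pow_smul_integral585 hN hϖ h₁.1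
  obtain ⟨m₂, v₂, e₂⟩ := exists_pow_smul_integral585 hN hϖ h₂.1
  obtain ⟨m₃, v₃, e₃⟩ := exists_pow_smul_integral585 hN hϖ h₃.1
  have hup : ∀ {m : ℕ} {v : Additive (Gamma0 N) →+ 𝒪} {z : Additive (Gamma0 N) →+ K} (k : ℕ),
      ι.toAddMonoidHom.comp v = (ι ϖ ^ m) • z →
      ι.toAddMonoidHom.comp ((ϖ ^ k) • v) = (ι ϖ ^ (m + k)) • z := by
    intro m v z k e
    refine AddMonoidHom.ext fun g => ?_
    have hg : ι (v g) = ι ϖ ^ m * z g := DFunLike.congr_fun e g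
    show ι (ϖ ^ k * v g) = ι ϖ ^ (m + k) * z g
    rw [map_mul, hg, map_pow, pow_add]
    ring
  refine key (m₁ + m₂ + m₃) ((ϖ ^ (m₂ + m₃)) • v₁) ((ϖ ^ (m₁ + m₃)) • v₂)
    ((ϖ ^ (m₁ + m₂)) • v₃) ?_ ?_ ?_
  · rw [hup (m₂ + m₃) e₁, ← add_assoc]
  · rw [hup (m₁ + m₃) e₂]
    congr 2
    omega
  · rw [hup (m₁ + m₂) e₃]
    congr 2
    omega

/-- **BOUND-STEP, core form.** -/
theorem boundStep_core (hHK2 : HK2Statement) (hOld : OldStatement)
    {N q : ℕ} (hN : N ≠ 0) (hq : q.Prime) (hqN : ¬ q ∣ N)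
    {S : Finset ℕ} (hqS : q ∉ S) (hNS : ∀ r : ℕ, r.Prime → r ∣ N → r ∈ S)
    {a : ℕ → 𝒪} (hI : IharaAt585 𝒪 N q S a) {J : Ideal 𝒪}
    (hB : BettiBound N S a J) :
    BettiBound (N * q * q) (insert q S) a (Ideal.span {cq a q} * J) := by
  classical
  haveI : Fact q.Prime := ⟨hq⟩
  obtain ⟨x, hx, hprim, hxJ⟩ := hB
  have hS : S ⊆ insert q S := Finset.subset_insert q S
  set K := FractionRing 𝒪
  set ι : 𝒪 →+* K := algebraMap 𝒪 K with hι
  have hinj : Function.Injective ι := IsFractionRing.injective 𝒪 K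
  refine ⟨xi585 N q (a q) x, isEigenclass_xi585 (a q) (isEigenclass_mono585 hS hx), ?_, ?_⟩
  · -- primitivity
    rw [isPrim_iff585] at hprim ⊢
    intro h0
    apply hprim
    rw [xi585_comp, xi585_eq] at h0
    have hxk := isEigenclass_map585 (residue 𝒪) (isEigenclass_mono585 hS hx)
    exact (hI _ _ _ (isEigenclass_smul585 _ hxk) (isEigenclass_smul585 _ hxk) hxk h0).2.2
  · intro y hy
    -- oldness over the fraction field
    have hx0 : ι.toAddMonoidHom.comp x ≠ 0 := by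
      intro h0
      obtain ⟨γ, hγ⟩ := hprim
      have : ι (x (Additive.ofMul γ)) = 0 := DFunLike.congr_fun h0 _
      rw [map_eq_zero_iff ι hinj] at this
      rw [this] at hγ
      exact not_isUnit_zero hγ
    obtain ⟨z₁, z₂, z₃, h₁, h₂, h₃, hyz⟩ := hOld K N q hN hq hqN S hqS hNS
      (fun l => ι (a l)) ⟨_, hx0, isEigenclass_map585 ι hx⟩ _ (isEigenclass_map585 ι hy)
    obtain ⟨w₁, w₂, w₃, e₁, e₂, e₃⟩ := integral_of_old585 hN hI h₁ h₂ h₃ hyz
    have hw₁ : IsEigenclass N S a w₁ := isEigenclass_of_map585 ι hinj (by rw [e₁]; exact h₁)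
    have hw₂ : IsEigenclass N S a w₂ := isEigenclass_of_map585 ι hinj (by rw [e₂]; exact h₂)
    have hw₃ : IsEigenclass N S a w₃ := isEigenclass_of_map585 ι hinj (by rw [e₃]; exact h₃)
    have hyw : y = P₁ N q w₁ + P₂ N q w₂ + P₃ N q w₃ := by
      refine AddMonoidHom.ext fun g => hinj ?_
      have h1 := DFunLike.congr_fun (P_comp585 ι.toAddMonoidHom (N := N) (q := q) w₁ w₂ w₃) g
      rw [e₁, e₂, e₃, ← hyz] at h1
      exact h1.symm
    rw [hyw, pairing_xi585_old hHK2 hN hqN (a q) hx.1 hw₁.1 hw₂.1 hw₃.1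
      (hw₁.2 q hqN hqS) (hw₂.2 q hqN hqS) (hw₃.2 q hqN hqS)]
    exact Ideal.mul_mem_mul (neg_mem (Ideal.subset_span rfl)) (hxJ w₁ hw₁)

end Core

end Fermat.Agent.S59.H585

end
-- ===== PACK-END S59/H585/StepCore.lean

-- ===== PACK-BEGIN S59/H461/FlatPeu.lean
section









/-!
# S59 / cell LO, leaf FlatPeu (helper461): flat at `p` ⇒ peu ramifié

`flatPeu : Fermat.Agent.S59.H934.FlatPeuStatement`:  for a semistable `W : WeierstrassCurve ℤ`,
`Δ ≠ 0`, `p ∈ {3, 5}`, if the Prelude's `E[p]` is flat at `p` then `p ∣ v_p(Δ)`.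

Proof.  If `p ∤ Δ` then `v_p(Δ) = 0`.  Otherwise the reduction at `p` is multiplicative; assume
`p ∤ v_p(Δ)`.  Let `A` be a place of `ℚ̄` over `p`, `I` its inertia group, `ζ` a primitive `p`-th
root of unity and `𝓗 = {s ∈ I : s ζ = ζ}`.

* `E[p] ∩ E₁ = ⟨t⟩` has order `p` (`exists_generator_mult`), `I` stabilises it and
  `σ x - x ∈ ⟨t⟩` for `σ ∈ I` (`S59.H396.inKer_smul_sub`).
* Flatness gives a Hopf lattice on `E[p]` (`S19.H435`); by (FT) of row S56 inertia acts on `t`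
  trivially or by the cyclotomic character, so `𝓗` fixes `t`; by (FU) there is a unit `B` with
  `s B = ζ ^ n(s) B` on `𝓗`, where `s x₀ = x₀ + n(s) t` for a fixed `x₀ ∈ E[p]`, `x₀ ∉ E₁`.
* The family `X i = x(x₀ + i t) - c` (`c` the rational centre of the node) satisfies
  `s (X i) = X (i + n s)`, `v (X 0) ^ p = v p ^ m` with `p ∤ m` (`val_pow_of_torsion`) and
  `v (X i - X 0) ^ (p-1) ≤ v p * v (X 0) ^ (p-1)` (`val_shift_pow_le`).
* `PeuTres.no_unit_of_family` : contradiction.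
-/

set_option autoImplicit false
set_option linter.unusedSectionVars false
set_option linter.unusedVariables false
set_option linter.style.haveILetI false

namespace Fermat.Agent.S59.H461

open WeierstrassCurve WeierstrassCurve.Affine WeierstrassCurve.Affine.Point
open Fermat.Agent.S05.SameRed (InKer IntegralCoeffs)
open Fermat.Agent.S51.Five (xc xc_some xc_galois_smul)
open Fermat.Agent.S59.H396 Fermat.Agent.S59.H899
open Fermat.Agent.S13.H365
open Fermat.Agent.Ribet.H420 (InTame)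
open Fermat.Agent.S19.H435 (Zl IsHopfLattice)

local notation "Qb" => AlgebraicClosure ℚ
local notation "GalQ" => (AlgebraicClosure ℚ ≃ₐ[ℚ] AlgebraicClosure ℚ)

/-- There is a valuation subring of `ℚ̄` over every prime number. -/
theorem exists_place_h461 (ℓ : ℕ) (hℓ : ℓ.Prime) :
    ∃ A : ValuationSubring Qb, A.LiesOverPrime ℓ := by
  let A₀ : Subring Qb := (algebraMap ℤ Qb).range
  let l₀ : A₀ := ⟨(ℓ : Qb), ⟨(ℓ : ℤ), by simp⟩⟩
  have hI : Ideal.span {l₀} ≠ ⊤ := by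
    intro h
    rw [Ideal.span_singleton_eq_top] at h
    obtain ⟨⟨m, n, rfl⟩, hm⟩ := h.exists_right_inv
    have h1 : ((ℓ : ℤ) : Qb) * ((n : ℤ) : Qb) = 1 := by
      have := congrArg Subtype.val hm
      simpa [l₀] using this
    have h2 : (ℓ : ℤ) * n = 1 := by exact_mod_cast h1
    have h3 : (ℓ : ℤ) ∣ 1 := ⟨n, h2.symm⟩
    have h4 : ℓ ∣ 1 := by exact_mod_cast h3
    exact hℓ.one_lt.ne' (Nat.dvd_one.mp h4)
  obtain ⟨A, -, hA⟩ := Ideal.image_subset_nonunits_valuationSubring _ hI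
  refine ⟨A, ?_⟩
  apply hA
  exact ⟨l₀, Ideal.subset_span rfl, rfl⟩

/-! ### The torsion module -/

/-- `E[p]` of the integral model, as in the Prelude -/
abbrev TorsV (W : WeierstrassCurve ℤ) (p : ℕ) : Type :=
  Submodule.torsionBy ℤ (curveQbar W).Point (p : ℤ)

section tors

variable {W : WeierstrassCurve ℤ} {p : ℕ}

lemma torsV_nsmul_eq_zero (x : TorsV W p) : p • (x : (curveQbar W).Point) = 0 :=
  Fermat.Agent.S59.H127.mem_torsionBy_natCast_iff.mp x.2

lemma torsV_coe_nsmul (n : ℕ) (x : TorsV W p) :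
    ((n • x : TorsV W p) : (curveQbar W).Point) = n • (x : (curveQbar W).Point) :=
  Submodule.coe_smul_of_tower n x

lemma torsV_kill (x : TorsV W p) : p • x = 0 :=
  Subtype.ext (by rw [torsV_coe_nsmul]; exact torsV_nsmul_eq_zero x)

lemma torsV_coe_smul (σ : GalQ) (x : TorsV W p) :
    ((σ • x : TorsV W p) : (curveQbar W).Point) = σ • (x : (curveQbar W).Point) := rfl

lemma torsV_natCast_smul (n : ℕ) (x : TorsV W p) : (n : ZMod p) • x = n • x :=
  Nat.cast_smul_eq_nsmul (ZMod p) n x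

lemma torsV_cast_smul [NeZero p] (c : ZMod p) (x : TorsV W p) : c • x = c.val • x := by
  conv_lhs => rw [← ZMod.natCast_zmod_val c]
  exact Nat.cast_smul_eq_nsmul (ZMod p) c.val x

lemma torsV_smul_zmod (σ : GalQ) (c : ZMod p) (x : TorsV W p) : σ • (c • x) = c • (σ • x) :=
  smul_comm σ c x

lemma torsV_smul_nsmul (σ : GalQ) (n : ℕ) (x : TorsV W p) : σ • (n • x) = n • (σ • x) :=
  smul_comm σ n x

/-- the rational centre of the node is Galois-fixed -/
lemma galois_nodeCentre (W : WeierstrassCurve ℤ) (s : GalQ) :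
    s (nodeCentre (curveQbar W)) = nodeCentre (curveQbar W) := by
  unfold nodeCentre
  rw [curveQbar_b₂, curveQbar_b₄, curveQbar_b₆, curveQbar_c₄]
  have h18 : s (18 : Qb) = 18 := map_ofNat s 18
  rw [map_div₀, map_sub, map_mul, map_mul, h18, map_intCast, map_intCast, map_intCast,
    map_intCast]

end tors

/-! ### The Hopf lattice -/

/-- the Hopf lattice on the Prelude's `E[p]` given by flatness -/
theorem exists_lattice_tors {p : ℕ} [Fact p.Prime] (W : WeierstrassCurve ℤ)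
    (hcard : Nat.card (Submodule.torsionBy ℤ
      ((W.map (Int.castRingHom ℚ))⁄(AlgebraicClosure ℚ)).Point p) = p ^ 2)
    (hker : GaloisFactorsThroughFiniteLevel
      (WeierstrassCurve.Affine.Point.galoisRepModuleEnd (K := AlgebraicClosure ℚ) ℚ
        (W.map (Int.castRingHom ℚ)) p))
    (hflat : (GaloisRepAdic.ofResidualGaloisRep
      ((W.map (Int.castRingHom ℚ)).residualGaloisRepOf p hcard hker)).IsFlatAt p) :
    ∃ Λ : Subalgebra (Zl p) (TorsV W p → Qb),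
      IsHopfLattice p (fun (σ : GalQ) (x : TorsV W p) => σ • x) Λ := by
  haveI : NeZero p := ⟨(Fact.out : p.Prime).ne_zero⟩
  have hfinq : Finite (ZMod p ⧸ (⊥ : Ideal (ZMod p))) :=
    Finite.of_surjective (Ideal.Quotient.mk ⊥) Ideal.Quotient.mk_surjective
  have hM := ((Fermat.Agent.S19.H435.isFlatAt_iff_hopfModel _ p).mp hflat).2 ⊥ hfinq
  obtain ⟨Λ, hΛ⟩ := Fermat.Agent.S19.H435.exists_isHopfLattice_of_hopfModel hM
  let ι : TorsV W p →+ TorsV W p ⧸
      ((⊥ : Ideal (ZMod p)) • (⊤ : Submodule (ZMod p) (TorsV W p))) :=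
    (Submodule.mkQ _).toAddMonoidHom
  have hι : Function.Injective ι := by
    intro x y hxy
    have h1 : x - y ∈ (⊥ : Ideal (ZMod p)) • (⊤ : Submodule (ZMod p) (TorsV W p)) :=
      (Submodule.Quotient.eq _).mp hxy
    rw [Submodule.bot_smul, Submodule.mem_bot, sub_eq_zero] at h1
    exact h1
  exact ⟨_, Fermat.Agent.S19.H435.IsHopfLattice.pullback hΛ ι hι
    (fun (σ : GalQ) (x : TorsV W p) => σ • x) (fun σ x => rfl)⟩

/-! ### The contradiction -/

theorem flatPeu_aux (W : WeierstrassCurve ℤ) {p : ℕ} [hp : Fact p.Prime] (hp2 : p ≠ 2)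
    (hΔ : W.Δ ≠ 0) (hbad : (p : ℤ) ∣ W.Δ) (hc₄ : ¬ (p : ℤ) ∣ W.c₄)
    (hpeu : ¬ (p : ℤ) ∣ ((padicValInt p W.Δ : ℕ) : ℤ))
    (hcard : Nat.card (TorsV W p) = p ^ 2)
    (Λ : Subalgebra (Zl p) (TorsV W p → Qb))
    (hΛ : IsHopfLattice p (fun (σ : GalQ) (x : TorsV W p) => σ • x) Λ) : False := by
  classical
  haveI : NeZero p := ⟨hp.out.ne_zero⟩
  obtain ⟨A, hA⟩ := exists_place_h461 p hp.out
  haveI hfin : Finite (TorsV W p) :=
    Nat.finite_of_card_ne_zero (by rw [hcard]; exact pow_ne_zero 2 hp.out.ne_zero)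
  have hW := integralCoeffs W A
  have hc : A.valuation (curveQbar W).c₄ = 1 := by
    rw [curveQbar_c₄]
    exact val_intCast_eq_one hA hp.out hc₄
  have hΔ' : (curveQbar W).Δ ≠ 0 := by
    rw [curveQbar_Δ]
    exact_mod_cast hΔ
  have hMT := multTorsion_curveQbar hp2 hΔ hbad hc₄ hA
  have hval : ∀ σ ∈ A.inertiaSubgroupIn ℚ, ∀ a : Qb, A.valuation (σ a) = A.valuation a :=
    fun σ hσ a => Fermat.Agent.A2.IF.H429.valuation_map_eq A
      (Fermat.Agent.A2.IF.H429.decomp_of_inertia A hσ) a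
  have hpv : A.valuation (p : Qb) < 1 := A.mem_nonunits_iff.mp hA
  -- the line `E[p] ∩ E₁`
  obtain ⟨t₀, ht0, htp, htker, hgen⟩ := exists_generator_mult W A hp2 hΔ hbad hc₄ hA
  set t : TorsV W p := ⟨t₀, Fermat.Agent.S59.H127.mem_torsionBy_natCast_iff.mpr htp⟩ with ht
  have htne : t ≠ 0 := fun h => ht0 (congrArg Subtype.val h)
  have hline : ∀ x : TorsV W p,
      InKer (curveQbar W) A.valuation (x : (curveQbar W).Point) → ∃ n : ℕ, x = n • t := by
    intro x hx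
    obtain ⟨n, hn⟩ := hgen x (torsV_nsmul_eq_zero x) hx
    exact ⟨n, Subtype.ext (by rw [torsV_coe_nsmul, hn])⟩
  have hmove : ∀ σ ∈ A.inertiaSubgroupIn ℚ, ∀ x : TorsV W p, ∃ n : ℕ, σ • x - x = n • t := by
    intro σ hσ x
    apply hline
    exact inKer_smul_sub (W' := (W.map (Int.castRingHom ℚ)).toAffine) (S := ℚ)
      two_ne_zero hW hc hΔ' hMT σ (fun z hz => inertia_val_sub_lt_one hσ z hz) (hval σ hσ) 1
      (x : (curveQbar W).Point) (by rw [pow_one]; exact torsV_nsmul_eq_zero x)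
  have hstab : ∀ σ ∈ A.inertiaSubgroupIn ℚ, ∃ n : ℕ, σ • t = n • t := by
    intro σ hσ
    apply hline
    exact inKer_smul (W' := (W.map (Int.castRingHom ℚ)).toAffine) (S := ℚ) σ (hval σ hσ) htker
  have hkill : ∀ x : TorsV W p, p • x = 0 := torsV_kill
  -- a primitive `p`-th root of unity
  obtain ⟨ζ, hζ⟩ := HasEnoughRootsOfUnity.exists_primitiveRoot Qb p
  -- (FT): `𝓗` fixes `t`
  have hFT := Fermat.Agent.S56.H66.flatTame p hp2 (TorsV W p) (fun σ x => σ • x) Λ hΛ hkill A hA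
    t htne hstab
  have hfixt : ∀ s ∈ A.inertiaSubgroupIn ℚ, s ζ = ζ → s • t = t := by
    intro s hs hsζ
    rcases hFT with h | h
    · exact h s hs
    · have h1 := h s hs 1 (fun μ hμ => by
        obtain ⟨i, -, rfl⟩ := hζ.eq_pow_of_pow_eq_one hμ
        rw [map_pow, hsζ, pow_one])
      rw [one_smul] at h1
      exact h1
  -- a point outside of the kernel of reduction
  obtain ⟨x₀, hx₀⟩ : ∃ x₀ : TorsV W p,
      ¬ InKer (curveQbar W) A.valuation (x₀ : (curveQbar W).Point) := by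
    by_contra hcon
    have hall : ∀ x : TorsV W p, InKer (curveQbar W) A.valuation (x : (curveQbar W).Point) := by
      intro x
      by_contra h
      exact hcon ⟨x, h⟩
    have hcardK := ncard_inKer_mult W A hp2 hΔ hbad hc₄ hA
    set S : Set (curveQbar W).Point :=
      {T | p • T = 0 ∧ InKer (curveQbar W) A.valuation T} with hS
    have hfinS : S.Finite := Set.finite_of_ncard_pos (by rw [hcardK]; exact hp.out.pos)
    have hsub : Set.range (Subtype.val : TorsV W p → (curveQbar W).Point) ⊆ S := by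
      rintro _ ⟨x, rfl⟩
      exact ⟨torsV_nsmul_eq_zero x, hall x⟩
    have h1 := Set.ncard_le_ncard hsub hfinS
    rw [hcardK, ← Set.image_univ, Set.ncard_image_of_injective _ Subtype.val_injective,
      Set.ncard_univ, hcard] at h1
    have := hp.out.one_lt
    nlinarith
  -- the functional
  obtain ⟨f, hf⟩ := Module.Projective.exists_dual_eq_one (ZMod p) htne
  set ξ : TorsV W p →+ ZMod p := f.toAddMonoidHom with hξ
  have hξt : ξ t = 1 := hf
  have hξn : ∀ n : ℕ, ξ (n • t) = (n : ZMod p) := by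
    intro n
    rw [map_nsmul, hξt, nsmul_one]
  -- (FU): the unit
  obtain ⟨B, hB1, hB⟩ := Fermat.Agent.S56.H664.flatUnit p (TorsV W p) (fun σ x => σ • x) Λ hΛ
    hkill A hA ζ hζ (AddSubgroup.zmultiples t)
    (by
      intro σ hσ hσζ y hy
      obtain ⟨k, rfl⟩ := AddSubgroup.mem_zmultiples_iff.mp hy
      show σ • (k • t) = k • t
      rw [smul_comm σ k t, hfixt σ hσ hσζ])
    (by
      intro σ hσ hσζ y
      obtain ⟨n, hn⟩ := hmove σ hσ y
      show σ • y - y ∈ AddSubgroup.zmultiples t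
      rw [hn]
      exact (AddSubgroup.zmultiples t).nsmul_mem (AddSubgroup.mem_zmultiples t) n)
    ξ x₀
  -- the node
  obtain ⟨M, he⟩ := exists_nodeModel_h461 hp2 hΔ hbad hc₄ hA
  obtain ⟨x₁, y₁, h₁, hx₀eq⟩ : ∃ x₁ y₁, ∃ h₁ : (curveQbar W).Nonsingular x₁ y₁,
      (x₀ : (curveQbar W).Point) = Point.some x₁ y₁ h₁ := by
    rcases hh : (x₀ : (curveQbar W).Point) with _ | ⟨x, y, h⟩
    · exact absurd (by rw [hh]; trivial) hx₀
    · exact ⟨x, y, h, rfl⟩
  have hx₁ : A.valuation x₁ ≤ 1 := by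
    by_contra hcon
    rw [not_le] at hcon
    apply hx₀
    rw [hx₀eq]
    exact hcon
  have hP : p • Point.some x₁ y₁ h₁ = 0 := by
    rw [← hx₀eq]
    exact torsV_nsmul_eq_zero x₀
  obtain ⟨m, hm, hX0⟩ := val_pow_of_torsion hp2 hΔ hbad hc₄ hA hpeu M he h₁ hP hx₁
  -- the family
  set X : ZMod p → Qb := fun i =>
    xc ((x₀ + i • t : TorsV W p) : (curveQbar W).Point) - nodeCentre (curveQbar W) with hXdef
  set nfun : GalQ → ZMod p := fun s => ξ (s • x₀ - x₀) with hndef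
  have hX0eq : X 0 = x₁ - nodeCentre (curveQbar W) := by
    simp only [hXdef, zero_smul, add_zero]
    rw [hx₀eq, xc_some]
  have hXact : ∀ s ∈ {s : GalQ | s ∈ A.inertiaSubgroupIn ℚ ∧ s ζ = ζ}, ∀ i : ZMod p,
      s (X i) = X (i + nfun s) := by
    rintro s ⟨hs, hsζ⟩ i
    obtain ⟨n, hn⟩ := hmove s hs x₀
    have hns : nfun s = (n : ZMod p) := by
      simp only [hndef]
      rw [hn, hξn]
    have hpt : s • (x₀ + i • t) = x₀ + (i + nfun s) • t := by
      rw [smul_add, torsV_smul_zmod, hfixt s hs hsζ, hns, add_smul, torsV_natCast_smul, ← hn]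
      abel
    simp only [hXdef]
    rw [map_sub, galois_nodeCentre, ← xc_galois_smul, ← torsV_coe_smul, hpt]
  have hdiff : ∀ i : ZMod p, A.valuation (X i - X 0) ^ (p - 1) ≤
      A.valuation (p : Qb) * A.valuation (X 0) ^ (p - 1) := by
    intro i
    have e : X i - X 0 = xc (Point.some x₁ y₁ h₁ + ((i • t : TorsV W p) : (curveQbar W).Point))
        - x₁ := by
      rw [hX0eq]
      simp only [hXdef]
      rw [Submodule.coe_add, hx₀eq]
      ring
    rw [e, hX0eq]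
    refine val_shift_pow_le hp2 hΔ hbad hc₄ hA M he h₁ hP hx₁ _ (torsV_nsmul_eq_zero _) ?_
    rw [torsV_cast_smul, torsV_coe_nsmul]
    exact Fermat.Agent.S13.H64.inKer_nsmul hW htker _
  refine no_unit_of_family (A := A) (p := p) (fun s : GalQ => (s : Qb →+* Qb))
    {s : GalQ | s ∈ A.inertiaSubgroupIn ℚ ∧ s ζ = ζ} nfun hpv hζ
    (fun s hs => hs.2) (fun s hs a => hval s hs.1 a) X hXact ?_ hm ?_ hdiff B hB1
    (fun s hs => hB s hs.1 hs.2)
  · intro a ha0 hfix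
    exact Fermat.Agent.Ribet.H420.inTame_of_fixed A hA a ha0
      (fun s hs hroots => hfix s ⟨hs, hroots ζ hζ.pow_eq_one⟩)
  · rw [hX0eq]
    exact hX0

/-- **FlatPeu.**  Flat at `p` implies peu ramifié at `p`. -/
theorem flatPeu : Fermat.Agent.S59.H934.FlatPeuStatement := by
  intro p _ hp35 W hΔ hss _hirr hcard hker hflat
  have hpp : p.Prime := Fact.out
  have hp2 : p ≠ 2 := by
    rcases hp35 with h | h <;> omega
  unfold WeierstrassCurve.IsPeuRamifieeAt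
  rw [WeierstrassCurve.map_Δ, eq_intCast, padicValRat.of_int]
  by_cases hbad : (p : ℤ) ∣ W.Δ
  swap
  · rw [padicValInt.eq_zero_of_not_dvd hbad]
    simp
  have hc₄ := hss p hpp hbad
  by_contra hpeu
  obtain ⟨Λ, hΛ⟩ := exists_lattice_tors W hcard hker hflat
  exact flatPeu_aux W hp2 hΔ hbad hc₄ hpeu hcard Λ hΛ

end Fermat.Agent.S59.H461

end
-- ===== PACK-END S59/H461/FlatPeu.lean

-- ===== PACK-BEGIN S33/H855/TowerModular.lean
section




/-!
# Row S33, leaf (S1⁺): the tower lemma for `J₀(N)` (helper855), UNCONDITIONAL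

`A` a valuation subring of `ℚ̄` over the prime `p`, `I = A.inertiaSubgroupIn ℚ`,
`V∞ = VinfModular`, `V₀ = VzeroModular` the two Gauss valuations of `ℚ̄(X₀(N))` over `A`
(helper553, cell A2; any `N`, any `p`).

* `constRed A hp hA N` : the functions `f` which are (constant) × (element of `1 + 𝔪`) along
  `V∞` and along `V₀` ("constant reductions on both components");
* `splitMin A hp hA N` : the subgroup of `J₀(N)` of the classes `[D]` having a Kummer generator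
  `h ∈ constRed`, `div h = p • D`;
* `aug_le_splitMin` : **(S1⁺)** for every `n`, every class killed by `p` in the subgroup generated
  by the `σ x - x`, `σ ∈ I`, `p ^ (n+1) • x = 0`, lies in `splitMin`.
  (`n = 0` is (S1) of the RIBET wall-`p` board.)

Every subgroup `𝒮` containing `splitMin` therefore satisfies (S1⁺); (S2) for `𝒮` implies (S2) for
`splitMin`.
-/

set_option autoImplicit false
set_option linter.unusedSectionVars false

noncomputable section

namespace Fermat.Agent.S33.H855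

open ModularCurve AlgebraicCurve Fermat.Agent.A2.H129 Fermat.Agent.A2.H553

local notation "Q̄" => AlgebraicClosure ℚ

/-- `v x < 1 ↔ x⁻¹ ∉ V` for `x ≠ 0`. -/
theorem valuation_lt_one_iff_inv_notMem {F : Type*} [Field F] (V : ValuationSubring F) {x : F}
    (hx : x ≠ 0) : V.valuation x < 1 ↔ x⁻¹ ∉ V := by
  rw [← ValuationSubring.valuation_le_one_iff, map_inv₀, not_le]
  have hv : 0 < V.valuation x := zero_lt_iff.mpr ((Valuation.ne_zero_iff _).mpr hx)
  rw [one_lt_inv₀ hv]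

section Modular

variable (A : ValuationSubring Q̄) {p : ℕ} (hp : p ≠ 0) (hA : A.LiesOverPrime p)
  (N : ℕ) [NeZero N]

/-- The functions with constant reductions along `V∞` and `V₀`. -/
def constRed : Set ↥(modularFunctionFieldBar N) :=
  {f | ConstOne (constField (modularFunctionFieldFull N)) (VinfModular A hp hA N) f ∧
       ConstOne (constField (modularFunctionFieldFull N)) (VzeroModular A hp hA N) f}

theorem natCast_eq_algebraMap (m : ℕ) :
    ((m : ℕ) : ↥(modularFunctionFieldBar N)) =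
      algebraMap Q̄ ↥(modularFunctionFieldBar N) (m : Q̄) := by
  rw [map_natCast]

include hp hA in
theorem inv_natCast_notMem : ((p : ℕ) : Q̄)⁻¹ ∉ A := by
  have hp0 : ((p : ℕ) : Q̄) ≠ 0 := by exact_mod_cast hp
  exact (valuation_lt_one_iff_inv_notMem A hp0).mp ((ValuationSubring.mem_nonunits_iff A).mp hA)

theorem valuation_Vinf_natCast_lt_one :
    (VinfModular A hp hA N).valuation ((p : ℕ) : ↥(modularFunctionFieldBar N)) < 1 := by
  have hp0 : ((p : ℕ) : ↥(modularFunctionFieldBar N)) ≠ 0 := by exact_mod_cast hp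
  rw [valuation_lt_one_iff_inv_notMem _ hp0, natCast_eq_algebraMap, ← map_inv₀]
  intro h
  exact inv_natCast_notMem A hp hA ((algebraMap_mem_Vinf_iff _).mp h)

theorem valuation_Vzero_natCast_lt_one :
    (VzeroModular A hp hA N).valuation ((p : ℕ) : ↥(modularFunctionFieldBar N)) < 1 := by
  have hp0 : ((p : ℕ) : ↥(modularFunctionFieldBar N)) ≠ 0 := by exact_mod_cast hp
  rw [valuation_lt_one_iff_inv_notMem _ hp0, natCast_eq_algebraMap, ← map_inv₀]
  intro h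
  exact inv_natCast_notMem A hp hA ((algebraMap_mem_Vzero_iff A hp hA N).mp h)

include hp in
/-- `ℚ̄` is closed under `p`-th roots. -/
theorem constField_root :
    ∀ c ∈ constField (modularFunctionFieldFull N),
      ∃ d ∈ constField (modularFunctionFieldFull N), d ^ p = c := by
  rintro _ ⟨c, rfl⟩
  obtain ⟨d, hd⟩ := IsAlgClosed.exists_pow_nat_eq c (Nat.pos_of_ne_zero hp)
  exact ⟨algebraMap Q̄ _ d, ⟨d, rfl⟩, by rw [← map_pow, hd]⟩

/-- (C1)-(C3) for `constRed`. -/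
theorem towerClass_constRed (hpp : p.Prime) :
    TowerClass (inertiaAut A N) p (constRed A hp hA N) where
  mul_mem f g hf hg := ⟨hf.1.mul hg.1, hf.2.mul hg.2⟩
  inv_mem f hf := ⟨hf.1.inv, hf.2.inv⟩
  const_mem c hc := by
    have h0 : algebraMap Q̄ ↥(modularFunctionFieldBar N) c ≠ 0 := by simpa using hc
    exact ⟨constOne_of_mem ⟨c, rfl⟩ h0, constOne_of_mem ⟨c, rfl⟩ h0⟩
  tau_mem g hg f hf := by
    obtain ⟨σ, hσ, rfl⟩ := hg
    obtain ⟨h1, -, h3, h4⟩ := k2_Vinf_modular A hp hA N hσ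
    obtain ⟨g1, -, g3⟩ := k2_Vzero_modular A hp hA N hσ
    exact ⟨constOne_tauSubOne h4 h1 h3 hf, constOne_tauSubOne h4 g1 g3 hf⟩
  root_mem h k _ hh :=
    ⟨constOne_of_pow hpp (valuation_Vinf_natCast_lt_one A hp hA N) (constField_root hp N) k hh.1,
      constOne_of_pow hpp (valuation_Vzero_natCast_lt_one A hp hA N) (constField_root hp N) k
        hh.2⟩

/-- The classes with a Kummer generator of level `p` with constant reductions along `V∞`, `V₀`. -/
def splitMin : AddSubgroup (JZero N) where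
  carrier := {y | HasGenIn (constRed A hp hA N) p y}
  zero_mem' := by
    refine ⟨0, 1, one_ne_zero, ?_, rfl, fun v => ?_⟩
    · have h1 : (1 : ↥(modularFunctionFieldBar N)) ∈ constField (modularFunctionFieldFull N) :=
        ⟨1, map_one _⟩
      exact ⟨constOne_of_mem h1 one_ne_zero, constOne_of_mem h1 one_ne_zero⟩
    · simp [Place.ord_one]
  add_mem' := by
    rintro _ _ ⟨D, u, hu, huC, rfl, hD⟩ ⟨E, w, hw, hwC, rfl, hE⟩
    refine ⟨D + E, u * w, mul_ne_zero hu hw, ⟨huC.1.mul hwC.1, huC.2.mul hwC.2⟩, rfl,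
      fun v => ?_⟩
    rw [v.ord_mul hu hw, hD, hE]
    simp only [AddSubgroup.coe_add, Finsupp.add_apply]
    ring
  neg_mem' := by
    rintro _ ⟨D, u, hu, huC, rfl, hD⟩
    refine ⟨-D, u⁻¹, inv_ne_zero hu, ⟨huC.1.inv, huC.2.inv⟩, rfl, fun v => ?_⟩
    rw [v.ord_inv, hD]
    simp only [AddSubgroup.coe_neg, Finsupp.neg_apply]
    ring

theorem mem_splitMin {y : JZero N} :
    y ∈ splitMin A hp hA N ↔
      ∃ (D : Divisor.degZero (K := Q̄) (F := ↥(modularFunctionFieldBar N)))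
        (h : ↥(modularFunctionFieldBar N)), h ≠ 0 ∧ h ∈ constRed A hp hA N ∧ Pic0.mk D = y ∧
        ∀ v : Place Q̄ ↥(modularFunctionFieldBar N), v.ord h = (p : ℤ) * (D : Divisor _ _) v :=
  Iff.rfl

/-- **(S1⁺).**  For every `n`: a class killed by `p` in the subgroup generated by the
`σ x - x`, `σ` in the inertia group of `A`, `p ^ (n+1) • x = 0`, lies in `splitMin`. -/
theorem aug_le_splitMin (hpp : p.Prime) (n : ℕ) (y : JZero N)
    (hy : y ∈ AddSubgroup.closure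
      {z : JZero N | ∃ σ ∈ A.inertiaSubgroupIn ℚ, ∃ x : JZero N,
        p ^ (n + 1) • x = 0 ∧ z = σ • x - x})
    (hpy : p • y = 0) : y ∈ splitMin A hp hA N := by
  refine hasGenIn_of_mem_closure_of_torsion (towerClass_constRed A hp hA N hpp)
    (fun u _ hu => exists_const_of_ord_eq_zero N u hu) n y ?_ hpy
  refine AddSubgroup.closure_mono ?_ hy
  rintro _ ⟨σ, hσ, x, hx, rfl⟩
  exact ⟨arithmeticGalois (modularFunctionFieldFull N) σ, ⟨σ, hσ, rfl⟩, x, hx, rfl⟩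

/-- **(S1)** of the wall-`p` board, for `splitMin`. -/
theorem smul_sub_mem_splitMin (hpp : p.Prime) (x : JZero N) (hx : p • x = 0)
    (σ : Q̄ ≃ₐ[ℚ] Q̄) (hσ : σ ∈ A.inertiaSubgroupIn ℚ) :
    σ • x - x ∈ splitMin A hp hA N := by
  refine aug_le_splitMin A hp hA N hpp 0 _
    (AddSubgroup.subset_closure ⟨σ, hσ, x, by simpa using hx, rfl⟩) ?_
  have h := map_nsmul (DistribSMul.toAddMonoidHom (JZero N) σ) p x
  rw [hx, map_zero] at h
  have h' : p • (σ • x) = 0 := h.symm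
  rw [nsmul_sub, h', hx, sub_zero]

end Modular

end Fermat.Agent.S33.H855

end
end
-- ===== PACK-END S33/H855/TowerModular.lean

-- ===== PACK-BEGIN S59/H341/IharaAny.lean
section



/-!
# Row S59, cells NM / NMP (helper341): Ihara's lemma at EVERY prime `q ∤ N` (also `q = p`),
with coefficients in an arbitrary `p`-torsion group

`S41.Spec.IharaEigenStatement` (on main) is stated for `q ≠ p` and `ZMod p`-valued classes.  Its
proof (`H744.iharaEigen_of_neKummer`) uses neither restriction.  Here: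

* `ihara_eigen_torsion` : `A` any abelian group killed by `p`; `φ₁, φ₂ : Γ₀(N) → A` cuspidal,
  `r₁ φ₁ + r₂ φ₂ = 0`, eigen for the `T_l` (`l ∤ N q p` good) with eigenvalues `a_l(W)`  ⇒
  `φ₁ = 0 ∧ φ₂ = 0`, for every prime `q ∤ N` (`q = p` allowed: "Ihara at `p`", cell NMP).
* `IharaEigenAnyStatement`, `iharaEigenAny` : the `ZMod p` form in the exact shape of
  `Spec.IharaEigenStatement`, without `q ≠ p`.
-/

set_option autoImplicit false
set_option linter.unusedSectionVars false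
set_option linter.unusedSimpArgs false
set_option linter.unusedVariables false

namespace Fermat.Agent.S59.H341

open Matrix CongruenceSubgroup ModularCurve.Period Fermat.Agent.S29.H642 Fermat.Agent.S41.H281
  Fermat.Agent.S41.H585 Fermat.Agent.S41.Spec Fermat.Agent.S41.H744
open WeierstrassCurve WeierstrassCurve.Affine WeierstrassCurve.Affine.Point
open scoped MatrixGroups

/-- **Ihara's lemma for eigen-pairs, any prime `q ∤ N`, `p`-torsion coefficients**; the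
eigen-hypothesis is only needed outside a finite set `T` of primes. -/
theorem ihara_eigen_torsion_avoid (E : WeierstrassCurve ℚ) [E.IsElliptic]
    (W : WeierstrassCurve ℤ)
    (hW : W.IsIntegralModelOf E) (p N q : ℕ) (hp : p.Prime) (hp2 : p ≠ 2) (hN0 : N ≠ 0)
    (hq : q.Prime) (hqN : ¬ q ∣ N)
    (hirr : GaloisRepIsIrreducible (K := AlgebraicClosure ℚ) ℚ E p)
    {A : Type*} [AddCommGroup A] (hA : ∀ x : A, p • x = 0) (T : Finset ℕ)
    (φ₁ φ₂ : Additive (Gamma0 N) →+ A) (hc₁ : IsCuspidal φ₁) (hc₂ : IsCuspidal φ₂)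
    (hker : r₁ N q φ₁ + r₂ N q φ₂ = 0)
    (heig : ∀ (l : ℕ) [Fact l.Prime] (hl : ¬ l ∣ N), ¬ l ∣ N * q → W.IsGoodPrimeFor l → l ≠ p →
      l ∉ T → heckeTransfer hl φ₁ = (W.apOfModel l : ℤ) • φ₁) :
    φ₁ = 0 ∧ φ₂ = 0 := by
  have : Fact q.Prime := ⟨hq⟩
  have : Fact p.Prime := ⟨hp⟩
  have hφ₁ : φ₁ = 0 := by
    by_contra hne
    obtain ⟨γ, hγ, hcq⟩ := exists_good_elt hqN φ₁ hc₁.1 hne
    have hc0 : (γ : SL(2, ℤ)) 1 0 ≠ 0 := by
      intro h0
      exact hcq (h0 ▸ dvd_zero _)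
    have hn0 : 0 < ((γ : SL(2, ℤ)) 1 0).natAbs := Int.natAbs_pos.mpr hc0
    have hκ0 : 0 < Nat.totient ((γ : SL(2, ℤ)) 1 0).natAbs := Nat.totient_pos.mpr hn0
    have hm0 : 0 < 2 * Nat.totient ((γ : SL(2, ℤ)) 1 0).natAbs * p *
        ((γ : SL(2, ℤ)) 1 0).natAbs :=
      Nat.mul_pos (Nat.mul_pos (Nat.mul_pos two_pos hκ0) hp.pos) hn0
    obtain ⟨l, hl, hlS, hgood, hlm, hlp, hne', hkum⟩ :=
      Fermat.Agent.S41.H45.neKummer_h45 E W hW p hp hp2 hirr q hq _ hm0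
        ((N * q).primeFactors ∪ T)
    have : Fact l.Prime := ⟨hl⟩
    have hNq0 : N * q ≠ 0 := Nat.mul_ne_zero hN0 hq.ne_zero
    have hlT : l ∉ T := fun h => hlS (Finset.mem_union_right _ h)
    have hlNq : ¬ l ∣ N * q := fun hd =>
      hlS (Finset.mem_union_left _ (Nat.mem_primeFactors.mpr ⟨hl, hd, hNq0⟩))
    have hlN : ¬ l ∣ N := fun hd => hlNq (Dvd.dvd.mul_right hd q)
    have hlq : l ≠ q := fun h => hlNq (h ▸ Dvd.intro_left N rfl)
    have hlp' : l ≠ p := by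
      intro h
      rw [h] at hlp
      have h1 : p ∣ p - 1 := (Nat.modEq_iff_dvd' hp.one_le).mp hlp.symm
      have h2 := Nat.le_of_dvd (Nat.sub_pos_of_lt hp.one_lt) h1
      have := hp.one_lt
      omega
    obtain ⟨Φ, hΦ⟩ := exists_Phi
      (Nat.Coprime.symm ((Nat.Prime.coprime_iff_not_dvd hq).mpr hqN)) φ₁ φ₂ hker
    have hu : Φ (Additive.ofMul (j1 N q (uG N 1))) = 0 := by
      rw [hΦ]; exact hc₁.1 _ (trace_uG 1)
    have hcomp : Φ.comp (MonoidHom.toAdditive (j1 N q)) = φ₁ :=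
      AddMonoidHom.ext fun g => hΦ (Additive.toMul g)
    -- the congruences
    have hcdvd : (γ : SL(2, ℤ)) 1 0 ∣ ((((γ : SL(2, ℤ)) 1 0).natAbs : ℕ) : ℤ) :=
      Int.dvd_natAbs.mpr dvd_rfl
    have hlc : (l : ℤ) ≡ 1 [ZMOD (γ : SL(2, ℤ)) 1 0] := by
      have h1 : l ≡ 1 [MOD ((γ : SL(2, ℤ)) 1 0).natAbs] := hlm.of_dvd (Dvd.intro_left _ rfl)
      have h2 := Int.natCast_modEq_iff.mpr h1
      exact_mod_cast h2.of_dvd hcdvd
    have hκ : (q : ℤ) ^ (2 * Nat.totient ((γ : SL(2, ℤ)) 1 0).natAbs) ≡ 1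
        [ZMOD (γ : SL(2, ℤ)) 1 0] := by
      have hcop : Nat.Coprime q ((γ : SL(2, ℤ)) 1 0).natAbs :=
        (Nat.Prime.coprime_iff_not_dvd hq).mpr fun h => hcq (Int.natCast_dvd.mpr h)
      have h1 := Nat.ModEq.pow_totient hcop
      have h2 : q ^ (2 * Nat.totient ((γ : SL(2, ℤ)) 1 0).natAbs) ≡ 1
          [MOD ((γ : SL(2, ℤ)) 1 0).natAbs] := by
        have := h1.pow 2
        rwa [← pow_mul, one_pow, mul_comm] at this
      have h3 := Int.natCast_modEq_iff.mpr h2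
      exact_mod_cast h3.of_dvd hcdvd
    have hord : p ∣ orderOf ((q : ZMod l) ^ (2 * Nat.totient ((γ : SL(2, ℤ)) 1 0).natAbs)) := by
      refine dvd_orderOf_of_kummer hp hlq ?_ hkum
      have h1 : 2 * Nat.totient ((γ : SL(2, ℤ)) 1 0).natAbs * p *
          ((γ : SL(2, ℤ)) 1 0).natAbs ∣ l - 1 := (Nat.modEq_iff_dvd' hl.one_le).mp hlm.symm
      exact dvd_trans (Dvd.intro _ rfl) h1
    have key := heckeTransfer_apply_eq_two_nsmul p (hp.odd_of_ne_two hp2) hA hlN hlq Φ hu γ _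
      hlc hκ hord
    rw [hcomp, hΦ, heig l hlN hlNq hgood hlp' hlT] at key
    -- `(a_l - 2) φ₁(γ) = 0`, `p φ₁(γ) = 0`, `gcd (a_l - 2, p) = 1`
    have h1 : (W.apOfModel l - 2 : ℤ) • φ₁ (Additive.ofMul γ) = 0 := by
      rw [AddMonoidHom.smul_apply] at key
      rw [sub_smul, key, ← natCast_zsmul]
      simp
    have hpz : (p : ℤ) • φ₁ (Additive.ofMul γ) = 0 := by
      rw [natCast_zsmul]; exact hA _
    have hnd : ¬ (p : ℤ) ∣ W.apOfModel l - 2 := by
      intro hd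
      apply hne'
      have hl1 : (p : ℤ) ∣ (l : ℤ) - 1 := by
        have := (Nat.modEq_iff_dvd' hl.one_le).mp hlp.symm
        have h' : ((p : ℕ) : ℤ) ∣ ((l - 1 : ℕ) : ℤ) := Int.natCast_dvd_natCast.mpr this
        rwa [Nat.cast_sub hl.one_le, Nat.cast_one] at h'
      have : W.apOfModel l - ((l : ℤ) + 1) = (W.apOfModel l - 2) - ((l : ℤ) - 1) := by ring
      rw [this]
      exact dvd_sub hd hl1
    have hcop : IsCoprime (W.apOfModel l - 2 : ℤ) (p : ℤ) :=
      ((Nat.prime_iff_prime_int.mp hp).coprime_iff_not_dvd.mpr hnd).symm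
    obtain ⟨u, v, huv⟩ := hcop
    apply hγ
    have : φ₁ (Additive.ofMul γ) = (1 : ℤ) • φ₁ (Additive.ofMul γ) := (one_smul _ _).symm
    rw [this, ← huv, add_smul, mul_smul, mul_smul, h1, hpz, smul_zero, smul_zero, add_zero]
  refine ⟨hφ₁, ?_⟩
  rw [hφ₁] at hker
  have h0 : r₂ N q φ₂ = 0 := by
    have : r₁ N q (0 : Additive (Gamma0 N) →+ A) = 0 := AddMonoidHom.zero_comp _
    rw [this, zero_add] at hker
    exact hker
  exact eq_zero_of_r₂_eq_zero φ₂ hc₂.1 h0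

/-- **Ihara's lemma for eigen-pairs, any prime `q ∤ N`, `p`-torsion coefficients.** -/
theorem ihara_eigen_torsion (E : WeierstrassCurve ℚ) [E.IsElliptic] (W : WeierstrassCurve ℤ)
    (hW : W.IsIntegralModelOf E) (p N q : ℕ) (hp : p.Prime) (hp2 : p ≠ 2) (hN0 : N ≠ 0)
    (hq : q.Prime) (hqN : ¬ q ∣ N)
    (hirr : GaloisRepIsIrreducible (K := AlgebraicClosure ℚ) ℚ E p)
    {A : Type*} [AddCommGroup A] (hA : ∀ x : A, p • x = 0)
    (φ₁ φ₂ : Additive (Gamma0 N) →+ A) (hc₁ : IsCuspidal φ₁) (hc₂ : IsCuspidal φ₂)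
    (hker : r₁ N q φ₁ + r₂ N q φ₂ = 0)
    (heig : ∀ (l : ℕ) [Fact l.Prime] (hl : ¬ l ∣ N), ¬ l ∣ N * q → W.IsGoodPrimeFor l → l ≠ p →
      heckeTransfer hl φ₁ = (W.apOfModel l : ℤ) • φ₁) :
    φ₁ = 0 ∧ φ₂ = 0 :=
  ihara_eigen_torsion_avoid E W hW p N q hp hp2 hN0 hq hqN hirr hA ∅ φ₁ φ₂ hc₁ hc₂ hker
    (fun l _ hl hl' hgood hlp _ => heig l hl hl' hgood hlp)

/-- `Spec.IharaEigenStatement` without the hypothesis `q ≠ p`. -/
def IharaEigenAnyStatement : Prop :=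
  ∀ (E : WeierstrassCurve ℚ) [E.IsElliptic] (W : WeierstrassCurve ℤ), W.IsIntegralModelOf E →
    ∀ (p N q : ℕ), p.Prime → p ≠ 2 → N ≠ 0 → q.Prime → ¬ q ∣ N →
      GaloisRepIsIrreducible (K := AlgebraicClosure ℚ) ℚ E p →
      ∀ φ₁ φ₂ : Additive (Gamma0 N) →+ ZMod p, IsCuspidal φ₁ → IsCuspidal φ₂ →
        r₁ N q φ₁ + r₂ N q φ₂ = 0 →
        (∀ (l : ℕ) [Fact l.Prime] (hl : ¬ l ∣ N), ¬ l ∣ N * q → W.IsGoodPrimeFor l → l ≠ p →
          heckeTransfer hl φ₁ = ((W.apOfModel l : ℤ) : ZMod p) • φ₁ ∧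
          heckeTransfer hl φ₂ = ((W.apOfModel l : ℤ) : ZMod p) • φ₂) →
        φ₁ = 0 ∧ φ₂ = 0

/-- **Ihara's lemma at every prime `q ∤ N`** (in particular at `q = p`). -/
theorem iharaEigenAny : IharaEigenAnyStatement := by
  intro E _ W hW p N q hp hp2 hN0 hq hqN hirr φ₁ φ₂ hc₁ hc₂ hker heig
  have : Fact p.Prime := ⟨hp⟩
  refine ihara_eigen_torsion E W hW p N q hp hp2 hN0 hq hqN hirr (fun x => ?_) φ₁ φ₂ hc₁ hc₂ hker
    (fun l _ hl hl' hgood hlp => ?_)
  · simp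
  · rw [(heig l hl hl' hgood hlp).1]
    ext g
    simp [AddMonoidHom.smul_apply, zsmul_eq_mul]

end Fermat.Agent.S59.H341

end
-- ===== PACK-END S59/H341/IharaAny.lean

-- ===== PACK-BEGIN S38T/IA/Hecke/GlueB2.lean
section





/-!
# S59 (B2) HECKE-T: MECHANICAL `ty`-generic twin of `Fermat.Agent.S38.IA.Hecke.GlueB2`  (helper3, by script)

Only the `ty`-dependent declarations are twinned (suffix `_T`); the others are imported.
-/

set_option autoImplicit false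

open Polynomial IsLocalRing CongruenceSubgroup
open scoped MatrixGroups

namespace Fermat.Agent.S38.IA.Hecke

variable {ty : Fermat.Agent.S59.Arch.PType}

open Fermat.Agent.S59.Arch Fermat.Agent.S59.TW.H959 Fermat.Agent.S59.TW Fermat.Agent.S59.H765
open Fermat.Agent.S59.TW.H653 Fermat.Agent.S59.TW.Aut
open CuspForm

section Build

variable {p : ℕ}
  {𝒪 : Type} [CommRing 𝒪] [IsDomain 𝒪] [IsDiscreteValuationRing 𝒪]
  [IsAdicComplete (maximalIdeal 𝒪) 𝒪]
  {ρbar : ResidualGaloisRep (ResidueField 𝒪)} {Smin Piv : Finset ℕ}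
  {k r : ℕ} {pv : Fin k → ℕ} {qv : Fin r → ℕ}
  [NeZero (wilesLevel p ty Smin (Smin ∪ Piv ∪ Finset.univ.image qv))]
  {PQ : HeckePkg p 𝒪 ρbar ty Smin (Smin ∪ Piv ∪ Finset.univ.image qv)}
  {α : Fin r → 𝒪} {V : Submodule 𝒪 (XIA_T p ty Smin pv qv 𝒪)} {h : ℕ}
  {a : PQ.T →ₐ[𝒪] Module.End 𝒪 V}

/-- `V` is stable under the diamond operators. -/
theorem diaIA_mem_T (hV : IsIAPart_T PQ α V) (a₁ : ∀ i : Fin k, (ZMod (pv i))ˣ)
    (a₂ : ∀ j : Fin r, (ZMod (qv j))ˣ) {x : XIA_T p ty Smin pv qv 𝒪} (hx : x ∈ V) :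
    diaIA_T p ty Smin pv qv 𝒪 a₁ a₂ x ∈ V := by
  obtain ⟨e, -, he2, he3, -, -, heD, -⟩ := IsLocPart.exists_proj hV
  have h1 := heD (gLift (wilesLevel p ty Smin Smin) (Sum.elim pv qv) (pairU a₁ a₂)) x
  rw [he3 x hx] at h1
  unfold diaIA_T
  rw [← h1]
  exact he2 _

variable [NeZero (MIA_T p ty Smin pv qv)]

/-- The action of `T_Q` commutes with the diamond operators. -/
theorem a_diaIA_T (hV : IsIAPart_T PQ α V) (ha : IsIAAction_T PQ V h a)
    (hsig : ∀ q : ℕ, q.Prime →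
      q ∣ wilesLevel p ty Smin (Smin ∪ Piv ∪ Finset.univ.image qv) →
      q ∈ (↑(Smin ∪ Piv ∪ Finset.univ.image qv) : Set ℕ))
    (hM : ∀ ℓ : ℕ, ℓ.Prime →
      ¬ ℓ ∣ wilesLevel p ty Smin (Smin ∪ Piv ∪ Finset.univ.image qv) →
      ℓ ∉ (↑(Smin ∪ Piv ∪ Finset.univ.image qv) : Set ℕ) → ¬ ℓ ∣ MIA_T p ty Smin pv qv)
    (a₁ : ∀ i : Fin k, (ZMod (pv i))ˣ) (a₂ : ∀ j : Fin r, (ZMod (qv j))ˣ) (t : PQ.T) :
    ∀ v : V, ((a t ⟨diaIA_T p ty Smin pv qv 𝒪 a₁ a₂ v, diaIA_mem_T hV a₁ a₂ v.2⟩ : V) :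
        XIA_T p ty Smin pv qv 𝒪) = diaIA_T p ty Smin pv qv 𝒪 a₁ a₂ ((a t v : V) : XIA_T p ty Smin pv qv 𝒪) := by
  refine pkg_induction PQ hsig
    (fun t => ∀ v : V, ((a t ⟨diaIA_T p ty Smin pv qv 𝒪 a₁ a₂ v, diaIA_mem_T hV a₁ a₂ v.2⟩ : V) :
        XIA_T p ty Smin pv qv 𝒪) = diaIA_T p ty Smin pv qv 𝒪 a₁ a₂ ((a t v : V) : XIA_T p ty Smin pv qv 𝒪))
    ?_ ?_ ?_ ?_ t
  · intro c v
    rw [AlgHom.commutes, Module.algebraMap_end_apply, Module.algebraMap_end_apply,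
      Submodule.coe_smul, Submodule.coe_smul, diaIA_smul_T]
  · intro x y hx hy v
    rw [map_add, LinearMap.add_apply, LinearMap.add_apply, Submodule.coe_add,
      Submodule.coe_add, diaIA_add_T, hx v, hy v]
  · intro x y hx hy v
    rw [map_mul, Module.End.mul_apply, Module.End.mul_apply]
    have h1 : a y ⟨diaIA_T p ty Smin pv qv 𝒪 a₁ a₂ v, diaIA_mem_T hV a₁ a₂ v.2⟩ =
        ⟨diaIA_T p ty Smin pv qv 𝒪 a₁ a₂ ((a y v : V) : XIA_T p ty Smin pv qv 𝒪),
          diaIA_mem_T hV a₁ a₂ (a y v).2⟩ := Subtype.ext (hy v)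
    rw [h1]
    exact hx (a y v)
  · intro ℓ hℓ hℓN hℓS v
    haveI : Fact ℓ.Prime := ⟨hℓ⟩
    have hℓM : ¬ ℓ ∣ MIA_T p ty Smin pv qv := hM ℓ hℓ hℓN hℓS
    rw [ha ℓ hℓ hℓN hℓS, ha ℓ hℓ hℓN hℓS]
    unfold tOpTw tOp diaIA_T
    have h1 := diamondU_TK (A := 𝒪) (isMid_KIA_T p ty Smin pv qv) hℓM
      (gLift (wilesLevel p ty Smin Smin) (Sum.elim pv qv) (pairU a₁ a₂))
      (v : XIA_T p ty Smin pv qv 𝒪)
    rw [show (⟨diamondU (isMid_KIA_T p ty Smin pv qv)
        (gLift (wilesLevel p ty Smin Smin) (Sum.elim pv qv) (pairU a₁ a₂))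
        (v : XIA_T p ty Smin pv qv 𝒪), diaIA_mem_T hV a₁ a₂ v.2⟩ : V).1 =
        diamondU (isMid_KIA_T p ty Smin pv qv)
        (gLift (wilesLevel p ty Smin Smin) (Sum.elim pv qv) (pairU a₁ a₂))
        (v : XIA_T p ty Smin pv qv 𝒪) from rfl]
    rw [h1]
    exact diamondU_comm' p _ _ _ _ _

/-- The inclusion `VMod_T V a → X_K(𝒪)`. -/
noncomputable def VMod_T.toX : VMod_T V a →+ XIA_T p ty Smin pv qv 𝒪 :=
  (V.subtype : V →+ XIA_T p ty Smin pv qv 𝒪)

theorem VMod_T.toX_injective : Function.Injective (VMod_T.toX (V := V) (a := a)) :=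
  fun _ _ h => Subtype.ext h

theorem VMod_T.toX_mem (v : VMod_T V a) : VMod_T.toX v ∈ V := (VMod_T.val v).2

theorem VMod_T.toX_algebraMap_smul (c : 𝒪) (v : VMod_T V a) :
    VMod_T.toX (algebraMap 𝒪 PQ.T c • v) = c • VMod_T.toX v := by
  rw [VMod_T.algebraMap_smul]
  rfl

theorem VMod_T.toX_smul (t : PQ.T) (v : VMod_T V a) :
    VMod_T.toX (t • v) = ((a t (VMod_T.val v) : V) : XIA_T p ty Smin pv qv 𝒪) := rfl

variable (hV : IsIAPart_T PQ α V) (ha : IsIAAction_T PQ V h a)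
  (hsig : ∀ q : ℕ, q.Prime →
    q ∣ wilesLevel p ty Smin (Smin ∪ Piv ∪ Finset.univ.image qv) →
    q ∈ (↑(Smin ∪ Piv ∪ Finset.univ.image qv) : Set ℕ))
  (hM : ∀ ℓ : ℕ, ℓ.Prime →
    ¬ ℓ ∣ wilesLevel p ty Smin (Smin ∪ Piv ∪ Finset.univ.image qv) →
    ℓ ∉ (↑(Smin ∪ Piv ∪ Finset.univ.image qv) : Set ℕ) → ¬ ℓ ∣ MIA_T p ty Smin pv qv)
  (hsurj : Function.Surjective (gRed (wilesLevel p ty Smin Smin) (Sum.elim pv qv)))

/-- The diamond operator of `(a₁, a₂)` as a `T_Q`-linear endomorphism of `VMod_T V a`. -/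
noncomputable def diaEnd_T (a₁ : ∀ i : Fin k, (ZMod (pv i))ˣ) (a₂ : ∀ j : Fin r, (ZMod (qv j))ˣ) :
    Module.End PQ.T (VMod_T V a) where
  toFun v := VMod_T.mk ⟨diaIA_T p ty Smin pv qv 𝒪 a₁ a₂ (VMod_T.toX v), diaIA_mem_T hV a₁ a₂ (VMod_T.toX_mem v)⟩
  map_add' x y := by
    apply VMod_T.toX_injective
    exact diaIA_add_T p Smin pv qv 𝒪 a₁ a₂ _ _
  map_smul' t v := by
    apply VMod_T.toX_injective
    exact (a_diaIA_T hV ha hsig hM a₁ a₂ t (VMod_T.val v)).symm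

theorem toX_diaEnd_T (a₁ : ∀ i : Fin k, (ZMod (pv i))ˣ) (a₂ : ∀ j : Fin r, (ZMod (qv j))ˣ)
    (v : VMod_T V a) :
    VMod_T.toX (diaEnd_T hV ha hsig hM a₁ a₂ v) = diaIA_T p ty Smin pv qv 𝒪 a₁ a₂ (VMod_T.toX v) := rfl

/-- The diamond action of `∏ (ℤ/pv i)ˣ × ∏ (ℤ/qv j)ˣ` on `VMod_T V a`. -/
noncomputable def diaMod_T :
    (∀ i : Fin k, (ZMod (pv i))ˣ) × (∀ j : Fin r, (ZMod (qv j))ˣ) →*
      Module.End PQ.T (VMod_T V a) where
  toFun d := diaEnd_T hV ha hsig hM d.1 d.2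
  map_one' := by
    refine LinearMap.ext fun v => ?_
    apply VMod_T.toX_injective
    rw [toX_diaEnd_T]
    exact diaIA_one_T p Smin pv qv 𝒪 hsurj _
  map_mul' d d' := by
    refine LinearMap.ext fun v => ?_
    apply VMod_T.toX_injective
    rw [Module.End.mul_apply, toX_diaEnd_T, toX_diaEnd_T, toX_diaEnd_T]
    exact diaIA_mul_T p Smin pv qv 𝒪 hsurj _ _ _ _ _

theorem toX_diaMod_T (d : (∀ i : Fin k, (ZMod (pv i))ˣ) × (∀ j : Fin r, (ZMod (qv j))ˣ))
    (v : VMod_T V a) :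
    VMod_T.toX (diaMod_T hV ha hsig hM hsurj d v) = diaIA_T p ty Smin pv qv 𝒪 d.1 d.2 (VMod_T.toX v) := rfl

theorem diaMod_pow₁_T (a₁ : ∀ i : Fin k, (ZMod (pv i))ˣ) :
    diaMod_T hV ha hsig hM hsurj (fun i => a₁ i ^ p ^ padicValNat p (pv i - 1), 1) = 1 := by
  refine LinearMap.ext fun v => ?_
  apply VMod_T.toX_injective
  rw [toX_diaMod_T, Module.End.one_apply]
  have key := diaIA_pow_T p Smin pv qv 𝒪 hsurj a₁ 1 (VMod_T.toX v)
  have h1 : (fun j => (1 : ∀ j : Fin r, (ZMod (qv j))ˣ) j ^ p ^ padicValNat p (qv j - 1)) = 1 := by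
    funext j
    exact one_pow _
  rw [h1] at key
  exact key

theorem diaMod_pow₂_T (a₂ : ∀ j : Fin r, (ZMod (qv j))ˣ) :
    diaMod_T hV ha hsig hM hsurj (1, fun j => a₂ j ^ p ^ padicValNat p (qv j - 1)) = 1 := by
  refine LinearMap.ext fun v => ?_
  apply VMod_T.toX_injective
  rw [toX_diaMod_T, Module.End.one_apply]
  have key := diaIA_pow_T p Smin pv qv 𝒪 hsurj 1 a₂ (VMod_T.toX v)
  have h1 : (fun i => (1 : ∀ i : Fin k, (ZMod (pv i))ˣ) i ^ p ^ padicValNat p (pv i - 1)) = 1 := by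
    funext i
    exact one_pow _
  rw [h1] at key
  exact key

theorem toX_sum_diaMod_T {d : ℕ} {E : Type} [Fintype E]
    (γ : E → (∀ i : Fin k, (ZMod (pv i))ˣ) × (∀ j : Fin r, (ZMod (qv j))ˣ))
    (b : Fin d → V) (c : Fin d → E → 𝒪) :
    VMod_T.toX (∑ i, ∑ e, algebraMap 𝒪 PQ.T (c i e) •
      diaMod_T hV ha hsig hM hsurj (γ e) (VMod_T.mk (b i) : VMod_T V a)) =
      ∑ i, ∑ e, c i e • diaIA_T p ty Smin pv qv 𝒪 (γ e).1 (γ e).2 (b i : XIA_T p ty Smin pv qv 𝒪) := by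
  rw [map_sum]
  refine Finset.sum_congr rfl fun i _ => ?_
  rw [map_sum]
  refine Finset.sum_congr rfl fun e _ => ?_
  rw [VMod_T.toX_algebraMap_smul, toX_diaMod_T]
  rfl

theorem free_of_freeAt_T {d : ℕ} (hfree : IAFreeAt_T V d)
    (g₁ : ∀ i : Fin k, (ZMod (pv i))ˣ) (g₂ : ∀ j : Fin r, (ZMod (qv j))ˣ)
    (hg₁ : ∀ i, orderOf (g₁ i) = pv i - 1) (hg₂ : ∀ j, orderOf (g₂ j) = qv j - 1) :
    ∃ b : Fin d → VMod_T V a, ∀ y : VMod_T V a,
      ∃! c : Fin d → (∀ i : Fin k, Fin (p ^ padicValNat p (pv i - 1))) ×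
          (∀ j : Fin r, Fin (p ^ padicValNat p (qv j - 1))) → 𝒪,
        y = ∑ i, ∑ e, algebraMap 𝒪 PQ.T (c i e) •
          diaMod_T hV ha hsig hM hsurj
            (fun i' => g₁ i' ^ (e.1 i' : ℕ), fun j => g₂ j ^ (e.2 j : ℕ)) (b i) := by
  obtain ⟨b, hb⟩ := hfree g₁ g₂ hg₁ hg₂
  refine ⟨fun i => VMod_T.mk (b i), fun y => ?_⟩
  obtain ⟨c, hc, hcu⟩ := hb (VMod_T.val y)
  refine ⟨c, ?_, ?_⟩
  · apply VMod_T.toX_injective
    rw [toX_sum_diaMod_T hV ha hsig hM hsurj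
      (fun e : (∀ i : Fin k, Fin (p ^ padicValNat p (pv i - 1))) ×
          (∀ j : Fin r, Fin (p ^ padicValNat p (qv j - 1))) =>
        ((fun i' => g₁ i' ^ (e.1 i' : ℕ)), (fun j => g₂ j ^ (e.2 j : ℕ)))) b c]
    exact hc
  · intro c' hc'
    apply hcu
    have h2 := congrArg VMod_T.toX hc'
    rw [toX_sum_diaMod_T hV ha hsig hM hsurj
      (fun e : (∀ i : Fin k, Fin (p ^ padicValNat p (pv i - 1))) ×
          (∀ j : Fin r, Fin (p ^ padicValNat p (qv j - 1))) =>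
        ((fun i' => g₁ i' ^ (e.1 i' : ℕ)), (fun j => g₂ j ^ (e.2 j : ℕ)))) b c'] at h2
    exact h2

include hV in
theorem chiRelIA_le_T (χ : (∀ i : Fin k, (ZMod (pv i))ˣ) →* 𝒪) :
    chiRelIA_T p ty Smin pv qv χ V ≤ V := by
  refine Submodule.span_le.mpr ?_
  rintro w ⟨a₁, y, hy, rfl⟩
  exact V.sub_mem (diaIA_mem_T hV a₁ 1 hy) (V.smul_mem _ hy)

theorem mem_span_of_mem_chiRelIA_T (χ : (∀ i : Fin k, (ZMod (pv i))ˣ) →* 𝒪)
    {x : XIA_T p ty Smin pv qv 𝒪} (hx : x ∈ chiRelIA_T p ty Smin pv qv χ V) :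
    ∀ v : VMod_T V a, VMod_T.toX v = x → v ∈ Submodule.span PQ.T
      {w : VMod_T V a | ∃ (a₁ : ∀ i : Fin k, (ZMod (pv i))ˣ) (y : VMod_T V a),
        w = diaMod_T hV ha hsig hM hsurj (a₁, 1) y - algebraMap 𝒪 PQ.T (χ a₁) • y} := by
  unfold chiRelIA_T at hx
  induction hx using Submodule.span_induction with
  | mem w hw =>
    obtain ⟨a₁, y, hy, rfl⟩ := hw
    intro v hv
    refine Submodule.subset_span ⟨a₁, VMod_T.mk ⟨y, hy⟩, ?_⟩
    apply VMod_T.toX_injective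
    rw [hv, map_sub, VMod_T.toX_algebraMap_smul, toX_diaMod_T]
    rfl
  | zero =>
    intro v hv
    have : v = 0 := VMod_T.toX_injective (by rw [hv, map_zero])
    rw [this]
    exact Submodule.zero_mem _
  | add x y hx hy ihx ihy =>
    intro v hv
    have hxV : x ∈ V := chiRelIA_le_T hV χ hx
    have hyV : y ∈ V := chiRelIA_le_T hV χ hy
    have : v = (VMod_T.mk ⟨x, hxV⟩ : VMod_T V a) + VMod_T.mk ⟨y, hyV⟩ :=
      VMod_T.toX_injective (by rw [hv, map_add]; rfl)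
    rw [this]
    exact Submodule.add_mem _ (ihx _ rfl) (ihy _ rfl)
  | smul c x hx ihx =>
    intro v hv
    have hxV : x ∈ V := chiRelIA_le_T hV χ hx
    have : v = algebraMap 𝒪 PQ.T c • (VMod_T.mk ⟨x, hxV⟩ : VMod_T V a) :=
      VMod_T.toX_injective (by rw [hv, VMod_T.toX_algebraMap_smul]; rfl)
    rw [this]
    exact Submodule.smul_mem _ _ (ihx _ rfl)

/-- **The abstract Betti module of the localisation `V`.** -/
noncomputable def bettiOf_T (d : ℕ) (hfree : IAFreeAt_T V d) (hnu : IANuAt_T PQ V a)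
    (hst : IAStAt_T PQ V a) : IABettiLevel_T Piv pv qv PQ d where
  V := VMod_T V a
  dia := diaMod_T hV ha hsig hM hsurj
  dia_pow₁ := diaMod_pow₁_T hV ha hsig hM hsurj
  dia_pow₂ := diaMod_pow₂_T hV ha hsig hM hsurj
  free := free_of_freeAt_T hV ha hsig hM hsurj hfree
  nu := fun χ hχ t ht v =>
    mem_span_of_mem_chiRelIA_T hV ha hsig hM hsurj χ (hnu χ hχ t ht (VMod_T.val v)) (t • v) rfl
  st := fun q hq P hP φ hφ v => by
    have h1 := mem_span_of_mem_chiRelIA_T hV ha hsig hM hsurj 1 (hst q hq P hP φ hφ (VMod_T.val v))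
      ((PQ.H.ρ.trace φ ^ 2 - ((1 + q : ℕ) : PQ.T) ^ 2) • v) rfl
    have h2 : {w : VMod_T V a | ∃ (a₁ : ∀ i : Fin k, (ZMod (pv i))ˣ) (y : VMod_T V a),
        w = diaMod_T hV ha hsig hM hsurj (a₁, 1) y -
          algebraMap 𝒪 PQ.T ((1 : (∀ i : Fin k, (ZMod (pv i))ˣ) →* 𝒪) a₁) • y} =
        {w : VMod_T V a | ∃ (a₁ : ∀ i : Fin k, (ZMod (pv i))ˣ) (y : VMod_T V a),
          w = diaMod_T hV ha hsig hM hsurj (a₁, 1) y - y} := by
      ext w
      constructor
      · rintro ⟨a₁, y, rfl⟩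
        exact ⟨a₁, y, by rw [MonoidHom.one_apply, map_one, one_smul]⟩
      · rintro ⟨a₁, y, rfl⟩
        exact ⟨a₁, y, by rw [MonoidHom.one_apply, map_one, one_smul]⟩
    rw [h2] at h1
    exact h1

theorem bettiOf_cmp_T (d : ℕ) (hfree : IAFreeAt_T V d) (hnu : IANuAt_T PQ V a)
    (hst : IAStAt_T PQ V a) (hcmp : IACmpAt_T PQ V a) :
    (bettiOf_T hV ha hsig hM hsurj d hfree hnu hst).Cmp := by
  intro j P hP φ hφ σ hσ u hu hcyc a₀ w hw y
  change VMod_T V a at y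
  have h1 := hcmp j P hP φ hφ σ hσ u hu hcyc a₀ w hw (VMod_T.val y)
  constructor
  · rintro ⟨y', hy'⟩
    change VMod_T V a at y'
    obtain ⟨z, hz⟩ := h1.mp ⟨VMod_T.val y', hy'⟩
    refine ⟨(VMod_T.mk z : VMod_T V a), ?_⟩
    apply VMod_T.toX_injective
    exact hz
  · rintro ⟨y', hy'⟩
    change VMod_T V a at y'
    obtain ⟨z, hz⟩ := h1.mpr ⟨VMod_T.val y', congrArg VMod_T.toX hy'⟩
    exact ⟨(VMod_T.mk z : VMod_T V a), hz⟩

end Build

end Fermat.Agent.S38.IA.Hecke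

end
-- ===== PACK-END S38T/IA/Hecke/GlueB2.lean

-- ===== PACK-BEGIN S38T/IA/Hecke/H183/CmpGlueIA.lean
section







/-!
# Row HARD, cell HECKE, layer 4: leaf IA-CMP-GLUE and the glue of the leaf IA-CMP  (helper183)

* `standing` — the arithmetic side conditions of helper3's `GlueB2` (`hsig`, `hM`, `hsurj`) from
  `ResidualHyp`, `IsPivotSet`, `IsTWSet` and the enumeration `pv` of the pivots.
* `iaCmpGlue : IACmpGlueStatement` — `IAFreeAt V d` + `IATptAt` + `IARptAt` ⇒ `IACmpAt`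
  (route TW-ALG: `S59.H314.twCmp_of_pt`, Mathlib only, applied to helper3's `VMod V a` with the
  diamond action of the Taylor–Wiles factor of `diaMod`; the `𝒪[Δ_Q]`-basis is
  `⟨g₁^{e₁}⟩ b_i`; the order of the inertia value is INO, `TW.H123.inertiaOrder`).
* `iaTptAt_of`, `iaRptAt_of` — (T), (R) from the dictionary and the Galois leaves.
* `iaCmp_of_leaves : IAFreeStatement → IADictTStatement → IADictRStatement → IAGalTStatement →
  IAGalRStatement → Hecke.IACmpStatement`.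
-/

set_option autoImplicit false
set_option linter.style.haveILetI false
set_option linter.unusedSectionVars false
set_option linter.unusedVariables false

open Polynomial IsLocalRing CongruenceSubgroup
open scoped MatrixGroups

namespace Fermat.Agent.S38.IA.Hecke.H183

variable {ty : Fermat.Agent.S59.Arch.PType}

open Fermat.Agent.S59.Arch Fermat.Agent.S59.TW.H959 Fermat.Agent.S59.TW Fermat.Agent.S59.H765
open Fermat.Agent.S59.TW.H653 Fermat.Agent.S59.TW.Aut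
open Fermat.Agent.S38.IA Fermat.Agent.S38.IA.Hecke
open CuspForm

/-! ## The standing arithmetic facts -/

section Arith

variable {p : ℕ} {k r : ℕ} {pv : Fin k → ℕ} {qv : Fin r → ℕ} {Smin Piv : Finset ℕ}

theorem sumElim_prime_T (hprimep : ∀ i, (pv i).Prime) (hprimeq : ∀ j, (qv j).Prime) :
    ∀ s, (Sum.elim pv qv s).Prime := by
  rintro (i | j)
  · exact hprimep i
  · exact hprimeq j

theorem sumElim_injective_T (hpv : Function.Injective pv) (hqv : Function.Injective qv)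
    (hdisj : ∀ i j, pv i ≠ qv j) : Function.Injective (Sum.elim pv qv) := by
  rintro (i | j) (i' | j') h
  · exact congrArg Sum.inl (hpv h)
  · exact absurd h (hdisj i j')
  · exact absurd h.symm (hdisj i' j)
  · exact congrArg Sum.inr (hqv h)

theorem sumElim_mem_T (hpvPiv : Finset.univ.image pv = Piv) (s : Fin k ⊕ Fin r) :
    Sum.elim pv qv s ∈ Smin ∪ Piv ∪ Finset.univ.image qv := by
  rcases s with i | j
  · refine Finset.mem_union_left _ (Finset.mem_union_right _ ?_)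
    rw [← hpvPiv]
    exact Finset.mem_image_of_mem pv (Finset.mem_univ i)
  · exact Finset.mem_union_right _ (Finset.mem_image_of_mem qv (Finset.mem_univ j))

theorem not_dvd_MIA_T (hpvPiv : Finset.univ.image pv = Piv) (hprime : ∀ s, (Sum.elim pv qv s).Prime)
    {ℓ : ℕ} (hℓ : ℓ.Prime)
    (hℓN : ¬ ℓ ∣ wilesLevel p ty Smin (Smin ∪ Piv ∪ Finset.univ.image qv))
    (hℓS : ℓ ∉ (↑(Smin ∪ Piv ∪ Finset.univ.image qv) : Set ℕ)) :
    ¬ ℓ ∣ MIA_T p ty Smin pv qv := by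
  intro h
  rcases (Nat.Prime.dvd_mul hℓ).mp h with h1 | h1
  · exact hℓN (h1.trans (wilesLevel_min_dvd p ty Smin _))
  · obtain ⟨s, -, hs⟩ := (Prime.dvd_finsetProd_iff (Nat.Prime.prime hℓ) _).mp h1
    have : ℓ = Sum.elim pv qv s := (Nat.prime_dvd_prime_iff_eq hℓ (hprime s)).mp hs
    apply hℓS
    rw [this]
    exact Finset.mem_coe.mpr (sumElim_mem_T hpvPiv s)

end Arith


/-! ## Re-indexing a basis over `𝒪[Δ₁ × Δ₂]` as a basis over `𝒪[Δ₂]` -/

section Reindex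

variable {𝒪 : Type} [CommRing 𝒪] {T : Type} [CommRing T] [Algebra 𝒪 T]
  {W : Type} [AddCommGroup W] [Module T W]
  {D₁ D₂ : Type} [Monoid D₁] [Monoid D₂]
  {E₁ E₂ : Type} [Fintype E₁] [Fintype E₂]

/-- A basis `dia (γ₁ e₁, γ₂ e₂) (b i)` (`i < d`, `e₁ ∈ E₁`, `e₂ ∈ E₂`) is a basis
`dia (1, γ₂ e₂) (b' i')`, `i' < d' = d · #E₁`, with `b' = dia (γ₁ e₁, 1) (b i)`. -/
theorem exists_basis_snd_T (dia : D₁ × D₂ →* Module.End T W) (γ₁ : E₁ → D₁) (γ₂ : E₂ → D₂)
    {d : ℕ} (b : Fin d → W)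
    (hb : ∀ y : W, ∃! c : Fin d → E₁ × E₂ → 𝒪,
      y = ∑ i, ∑ e, algebraMap 𝒪 T (c i e) • dia (γ₁ e.1, γ₂ e.2) (b i)) :
    ∃ (d' : ℕ) (b' : Fin d' → W), ∀ y : W, ∃! c : Fin d' → E₂ → 𝒪,
      y = ∑ i, ∑ e, algebraMap 𝒪 T (c i e) • dia (1, γ₂ e) (b' i) := by
  classical
  let eqv : Fin d × E₁ ≃ Fin (Fintype.card (Fin d × E₁)) := Fintype.equivFin _
  refine ⟨Fintype.card (Fin d × E₁), fun i' => dia (γ₁ (eqv.symm i').2, 1) (b (eqv.symm i').1), ?_⟩
  -- the dictionary between the two families of coefficients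
  have hsum : ∀ c' : Fin (Fintype.card (Fin d × E₁)) → E₂ → 𝒪,
      (∑ i', ∑ e, algebraMap 𝒪 T (c' i' e) •
        dia (1, γ₂ e) (dia (γ₁ (eqv.symm i').2, 1) (b (eqv.symm i').1))) =
      ∑ i, ∑ e : E₁ × E₂, algebraMap 𝒪 T (c' (eqv (i, e.1)) e.2) •
        dia (γ₁ e.1, γ₂ e.2) (b i) := by
    intro c'
    rw [← Equiv.sum_comp eqv, Fintype.sum_prod_type]
    refine Finset.sum_congr rfl fun i _ => ?_
    rw [Fintype.sum_prod_type]
    refine Finset.sum_congr rfl fun e₁ _ => ?_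
    refine Finset.sum_congr rfl fun e₂ _ => ?_
    rw [Equiv.symm_apply_apply, ← Module.End.mul_apply, ← map_mul, Prod.mk_mul_mk, one_mul,
      mul_one]
  intro y
  obtain ⟨c, hc, hcu⟩ := hb y
  refine ⟨fun i' e₂ => c (eqv.symm i').1 ((eqv.symm i').2, e₂), ?_, ?_⟩
  · show y = _
    rw [hsum]
    simp only [Equiv.symm_apply_apply]
    exact hc
  · intro c' hc'
    have hc'' : y = ∑ i, ∑ e : E₁ × E₂, algebraMap 𝒪 T (c' (eqv (i, e.1)) e.2) •
        dia (γ₁ e.1, γ₂ e.2) (b i) := by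
      rw [← hsum]
      exact hc'
    have h1 := hcu (fun i e => c' (eqv (i, e.1)) e.2) hc''
    funext i' e₂
    have h2 := congrFun (congrFun h1 (eqv.symm i').1) ((eqv.symm i').2, e₂)
    simp only [Prod.mk.eta, Equiv.apply_symm_apply] at h2
    exact h2

end Reindex


/-- The determinant of the representation of a package of any type is cyclotomic. -/
theorem pkg_detCyc_T {p : ℕ} {𝒪 : Type} [CommRing 𝒪] [IsDomain 𝒪] [IsDiscreteValuationRing 𝒪]
    [IsAdicComplete (maximalIdeal 𝒪) 𝒪] {ρbar : ResidualGaloisRep (ResidueField 𝒪)}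
    {Smin Sig : Finset ℕ} [NeZero (wilesLevel p ty Smin Sig)]
    (PQ : HeckePkg p 𝒪 ρbar ty Smin Sig) : PQ.H.ρ.DetIsCyclotomic p := by
  have h1 := PQ.hcond.1
  cases ty <;> exact h1.1

/-! ## IA-CMP-GLUE -/

/-- **IA-CMP-GLUE.** -/
theorem iaCmpGlue_T : IACmpGlueStatement_T (ty := ty) := by
  classical
  intro p hpF 𝒪 _ _ _ _ _ _ ρbar Smin h Piv hPiv k pv hpv hpvPiv n r qv hq _ PQ α V hh a d
    hV ha hfree hT hR
  -- the standing arithmetic facts
  have hprimeq : ∀ j, (qv j).Prime := fun j => (hq.2.1 j).1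
  have hpivmem : ∀ i, pv i ∈ Piv := fun i => by
    rw [← hpvPiv]
    exact Finset.mem_image_of_mem pv (Finset.mem_univ i)
  have hprimep : ∀ i, (pv i).Prime := fun i => (hPiv (pv i) (hpivmem i)).1
  have hprime := sumElim_prime_T hprimep hprimeq
  have hdisj : ∀ i j, pv i ≠ qv j := fun i j e =>
    (hq.2.1 j).2.1 (Finset.mem_union_right _ (e ▸ hpivmem i))
  have hinj := sumElim_injective_T hpv hq.1 hdisj
  have hSigP : ∀ q ∈ Smin ∪ Piv ∪ Finset.univ.image qv, q.Prime := by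
    intro q hq'
    rcases Finset.mem_union.mp hq' with h' | h'
    · rcases Finset.mem_union.mp h' with h'' | h''
      · exact h.hSmin q h''
      · exact (hPiv q h'').1
    · obtain ⟨j, -, rfl⟩ := Finset.mem_image.mp h'
      exact hprimeq j
  have hsub : Smin ⊆ Smin ∪ Piv ∪ Finset.univ.image qv :=
    Finset.subset_union_left.trans Finset.subset_union_left
  have hN₀ : wilesLevel p ty Smin Smin ≠ 0 := wilesLevel_ne_zero hpF.out h.hSmin h.hSmin
  haveI hMIA : NeZero (MIA_T p ty Smin pv qv) := ⟨gLevel_ne_zero _ _ hN₀ hprime⟩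
  have hsurj := gRed_surjective (wilesLevel p ty Smin Smin) (Sum.elim pv qv) hN₀ hinj hprime
  have hsig : ∀ q : ℕ, q.Prime →
      q ∣ wilesLevel p ty Smin (Smin ∪ Piv ∪ Finset.univ.image qv) →
      q ∈ (↑(Smin ∪ Piv ∪ Finset.univ.image qv) : Set ℕ) := fun q hq' hd =>
    Finset.mem_coe.mpr
      (_root_.Fermat.Agent.S59.Arch.mem_of_prime_dvd_wilesLevel hpF.out h.hSmin hSigP h.hpSmin hsub q hq' hd)
  have hM : ∀ ℓ : ℕ, ℓ.Prime →
      ¬ ℓ ∣ wilesLevel p ty Smin (Smin ∪ Piv ∪ Finset.univ.image qv) →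
      ℓ ∉ (↑(Smin ∪ Piv ∪ Finset.univ.image qv) : Set ℕ) → ¬ ℓ ∣ MIA_T p ty Smin pv qv :=
    fun ℓ hℓ hℓN hℓS => not_dvd_MIA_T hpvPiv hprime hℓ hℓN hℓS
  -- the diamond action
  let D := diaMod_T hV ha hsig hM hsurj
  let D₂ : (∀ j : Fin r, (ZMod (qv j))ˣ) →* Module.End PQ.T (VMod_T V a) :=
    D.comp (MonoidHom.inr _ _)
  have hD₂ : ∀ (u : ∀ j : Fin r, (ZMod (qv j))ˣ) (y : VMod_T V a),
      VMod_T.toX (D₂ u y) = diaIA_T p ty Smin pv qv 𝒪 1 u (VMod_T.toX y) := fun u y => rfl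
  have hD₂pow : ∀ (u : ∀ j : Fin r, (ZMod (qv j))ˣ) (i : ℕ) (y : VMod_T V a),
      VMod_T.toX ((D₂ u ^ i) y) = (diaIA_T p ty Smin pv qv 𝒪 1 u)^[i] (VMod_T.toX y) := by
    intro u i
    induction i with
    | zero => intro y; rfl
    | succ i ih =>
      intro y
      rw [pow_succ, Module.End.mul_apply, ih, hD₂, Function.iterate_succ_apply]
  intro j P hP φ hφ σ hσ u hu hcyc a₀ w hw
  -- the order of `w`
  obtain ⟨-, hqv, -⟩ := hq
  obtain ⟨hqprime, hqS, hqdvd⟩ := hqv j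
  have hdet : PQ.H.ρ.DetIsCyclotomic p := pkg_detCyc_T PQ
  have hqSmin : qv j ∉ Smin := fun e => hqS (Finset.mem_union_left _ e)
  have hqp : qv j ≠ p := fun e => hqSmin (e ▸ h.hpSmin)
  have hpq : p ∣ qv j - 1 := dvd_trans (dvd_pow_self p (Nat.succ_ne_zero n)) hqdvd
  have hunr : PQ.H.ρ.residual.IsUnramifiedAt (qv j) := by
    have h1 : ρbar.IsUnramifiedAt (qv j) := by
      by_contra hcon
      exact hqSmin ((h.hmin (qv j) hqprime hqp).mpr hcon)
    obtain ⟨e⟩ := PQ.hres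
    intro B hB τ hτ
    have h2 : (ρbar.baseChangeAlong (ResidueField.map (algebraMap 𝒪 PQ.T))).ρ τ = 1 := by
      letI : Algebra (ResidueField 𝒪) (ResidueField PQ.T) :=
        (ResidueField.map (algebraMap 𝒪 PQ.T)).toAlgebra
      show (ρbar.ρ τ).baseChange (ResidueField PQ.T) = 1
      rw [h1 B hB τ hτ]
      exact LinearMap.baseChange_one _ _
    refine LinearMap.ext fun x => ?_
    apply e.toLinearEquiv.injective
    rw [e.map_apply, h2]
    rfl
  haveI : Finite (ResidueField PQ.T) := IsLocalRing.ResidueField.finite_of_finite (R := 𝒪) ‹_›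
  obtain ⟨w', -, hwp, -⟩ :=
    Fermat.Agent.S59.TW.H123.inertiaOrder p PQ.T hdet.1 PQ.H.ρ hdet (qv j) hqprime hqp hpq hunr
      P hP φ hφ σ hσ a₀ w hw
  -- primitive roots
  have hprimq : ∀ i, ∃ g : (ZMod (qv i))ˣ, orderOf g = qv i - 1 := by
    intro i
    have : Fact (qv i).Prime := ⟨hprimeq i⟩
    have := ZMod.isCyclic_units_prime (hprimeq i)
    obtain ⟨g, hg⟩ := IsCyclic.exists_ofOrder_eq_natCard (α := (ZMod (qv i))ˣ)
    refine ⟨g, ?_⟩
    rw [hg, Nat.card_eq_fintype_card, ZMod.card_units]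
  have hprimp : ∀ i, ∃ g : (ZMod (pv i))ˣ, orderOf g = pv i - 1 := by
    intro i
    have : Fact (pv i).Prime := ⟨hprimep i⟩
    have := ZMod.isCyclic_units_prime (hprimep i)
    obtain ⟨g, hg⟩ := IsCyclic.exists_ofOrder_eq_natCard (α := (ZMod (pv i))ˣ)
    refine ⟨g, ?_⟩
    rw [hg, Nat.card_eq_fintype_card, ZMod.card_units]
  choose g₁ hg₁ using hprimp
  choose g₀ hg₀ using hprimq
  obtain ⟨g₂, hgj, hg₂⟩ : ∃ g : ∀ i : Fin r, (ZMod (qv i))ˣ, g j = u ∧
      ∀ i, orderOf (g i) = qv i - 1 := by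
    refine ⟨Function.update g₀ j u, Function.update_self .., ?_⟩
    intro i
    by_cases h : i = j
    · subst h
      rw [Function.update_self]
      exact hu
    · rw [Function.update_of_ne h]
      exact hg₀ i
  -- the basis over `𝒪[Δ_Piv × Δ_Q]`, then over `𝒪[Δ_Q]`
  obtain ⟨b, hb⟩ := free_of_freeAt_T (a := a) hV ha hsig hM hsurj hfree g₁ g₂ hg₁ hg₂
  obtain ⟨d', b', hb'⟩ := exists_basis_snd_T (𝒪 := 𝒪) D
    (fun e₁ : ∀ i : Fin k, Fin (p ^ padicValNat p (pv i - 1)) => fun i' => g₁ i' ^ (e₁ i' : ℕ))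
    (fun e₂ : ∀ j : Fin r, Fin (p ^ padicValNat p (qv j - 1)) => fun j' => g₂ j' ^ (e₂ j' : ℕ))
    b hb
  have hX : ∀ i, D₂ (Pi.mulSingle i (g₂ i)) ^ (p ^ padicValNat p (qv i - 1)) = 1 := by
    intro i
    rw [← map_pow]
    have h1 : (Pi.mulSingle i (g₂ i) ^ p ^ padicValNat p (qv i - 1) :
        ∀ j : Fin r, (ZMod (qv j))ˣ) =
        fun j => (Pi.mulSingle i (g₂ i) : ∀ j : Fin r, (ZMod (qv j))ˣ) j ^
          p ^ padicValNat p (qv j - 1) := by
      funext i'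
      by_cases h : i' = i
      · subst h
        simp
      · simp [Pi.mulSingle_eq_of_ne h]
    rw [h1]
    exact diaMod_pow₂_T hV ha hsig hM hsurj _
  have hpJ : (p : 𝒪) ∈ Ideal.jacobson (⊥ : Ideal 𝒪) := maximalIdeal_le_jacobson ⊥ h.hp𝒪
  have hpnzd : ∀ c : 𝒪, (p : 𝒪) * c = 0 → c = 0 := by
    intro c hc
    rcases mul_eq_zero.mp hc with h' | h'
    · exact absurd h' (by exact_mod_cast hpF.out.ne_zero)
    · exact h'
  haveI : IsNoetherianRing PQ.T := PQ.isNoetherianRing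
  -- eigenvectors
  have heig : ∀ y : VMod_T V a, y ≠ 0 →
      (∀ s s' : PQ.T, (s * s') • y = 0 → s • y = 0 ∨ s' • y = 0) →
      IAIsEigVec_T PQ V a (VMod_T.val y) := by
    intro y hy hpr
    exact ⟨hy, fun s s' hss' => hpr s s' hss'⟩
  have key := Fermat.Agent.S59.H314.twCmp_of_pt p hpF.out h.hp2 𝒪 hpJ hpnzd PQ.T (VMod_T V a) r
    (fun i => (ZMod (qv i))ˣ) (fun i => padicValNat p (qv i - 1)) D₂ g₂ hX d' b' hb' j w _ hwp
    (by
      intro y hy hpr hfix
      rw [hgj] at hfix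
      exact hT j P hP φ hφ σ hσ u hu hcyc a₀ w hw (VMod_T.val y) (heig y hy hpr)
        (congrArg VMod_T.toX hfix))
    (by
      intro y hy hpr hΦ
      rw [hgj] at hΦ
      refine hR j P hP φ hφ σ hσ u hu hcyc a₀ w hw (VMod_T.val y) (heig y hy hpr) ?_
      have h2 : VMod_T.toX ((∑ i ∈ Finset.range p, D₂ (Pi.mulSingle j u) ^ i) y) = 0 := by
        rw [hΦ]
        rfl
      rw [LinearMap.sum_apply, map_sum] at h2
      rw [← h2]
      refine Finset.sum_congr rfl fun i _ => ?_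
      exact (hD₂pow _ i y).symm)
  rw [hgj] at key
  intro y
  have key' := key (VMod_T.mk y)
  constructor
  · rintro ⟨y', hy'⟩
    obtain ⟨z, hz⟩ := key'.mp ⟨VMod_T.mk y', hy'⟩
    exact ⟨VMod_T.val z, congrArg VMod_T.toX hz⟩
  · rintro ⟨y', hy'⟩
    obtain ⟨z, hz⟩ := key'.mpr ⟨VMod_T.mk y', Subtype.ext hy'⟩
    exact ⟨VMod_T.val z, hz⟩


/-! ## The leaf IA-CMP from its layer-4 leaves -/

/-- **The leaf IA-CMP from its layer-4 leaves.** -/
theorem iaCmp_of_leaves_T (hFree : IAFreeStatement_T) (hDT : IADictTStatement_T)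
    (hDR : IADictRStatement_T) (hGT : ∀ ty, IAGalTStatement_T (ty := ty))
    (hGR : ∀ ty, IAGalRStatement_T (ty := ty)) :
    IACmpStatement_T := by
  intro p hpF hp5 𝒪 _ _ _ _ _ _ ρbar Smin h ty hflat Piv hPiv k pv hpv hpvPiv n r qv hq _ PQ α hα
    V hh a hV hhalf₁ hhalf₂ ha
  obtain ⟨d, hfree⟩ :=
    hFree p hp5 𝒪 ρbar Smin h ty hflat Piv hPiv k pv hpv hpvPiv n r qv hq PQ α hα V hV
  have hsubw : ∀ (w : PQ.T) (y : V), a (w - 1) y = a w y - y := by
    intro w y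
    have h1 : a w = a (w - 1) + 1 := by
      rw [← map_one a, ← map_add, sub_add_cancel]
    rw [h1, LinearMap.add_apply, Module.End.one_apply]
    exact (add_sub_cancel_right (a (w - 1) y) y).symm
  have hT : IATptAt_T PQ V a := by
    intro j P hP φ hφ σ hσ u hu _hcyc a₀ w hw y hy hfix
    obtain ⟨O', _, _, _, _, _, _, emb, hloc, hker, hnew⟩ :=
      hDT p hp5 𝒪 ρbar Smin h ty hflat Piv hPiv k pv hpv hpvPiv n r qv hq PQ α hα V hh a hV
        hhalf₁ hhalf₂ ha j u hu y hy hfix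
    have h1 : emb w = 1 :=
      hGT ty p 𝒪 ρbar Smin h Piv hPiv n r qv hq PQ j P hP φ hφ σ hσ a₀ w hw O' emb hloc hnew
    have h2 : a (w - 1) y = 0 := by
      rw [hker, map_sub, h1, map_one, sub_self]
    have h3 := hsubw w y
    rw [h2] at h3
    exact sub_eq_zero.mp h3.symm
  have hR : IARptAt_T PQ V a := by
    intro j P hP φ hφ σ hσ u hu hcyc a₀ w hw y hy hΦ hwy
    obtain ⟨O', _, _, _, _, _, _, emb, hloc, hker, hnew⟩ :=
      hDR p hp5 𝒪 ρbar Smin h ty hflat Piv hPiv k pv hpv hpvPiv n r qv hq PQ α hα V hh a hV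
        hhalf₁ hhalf₂ ha j u hu y hy hΦ
    have h1 : emb w ≠ 1 :=
      hGR ty p 𝒪 ρbar Smin h Piv hPiv n r qv hq PQ j P hP φ hφ σ hσ u hu hcyc a₀ w hw O' emb
        hloc hnew
    apply h1
    have h2 : a (w - 1) y = 0 := by
      rw [hsubw, hwy]
      exact sub_self y
    have h3 := (hker (w - 1)).mp h2
    rw [map_sub, map_one, sub_eq_zero] at h3
    exact h3
  exact iaCmpGlue_T (ty := ty) p 𝒪 ρbar Smin h Piv hPiv k pv hpv hpvPiv n r qv hq PQ α V hh a d hV ha hfree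
    hT hR

end Fermat.Agent.S38.IA.Hecke.H183

end
-- ===== PACK-END S38T/IA/Hecke/H183/CmpGlueIA.lean

-- ===== PACK-BEGIN Ribet/H376/NormIdC.lean
section
/-
Row 38 (RIBET), WALL-p, W-EIS leaf HECKE-NODE, core part 1 (helper376):
NORM-ID IN ANY CHARACTERISTIC prime to `N ℓ`.

Port of `S37.H157.norm_betaHom_eq_kronNorm` (characteristic `0`) to an arbitrary field `K` in
which the primes dividing `N * ℓ` are invertible: for a prime `ℓ ∤ N`, `F = K(X₀(N))`,
`F' = K(X₀(Nℓ))` (as subfields of `K((q))`),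

* `isSeparable_algIncl` : `F' / F` is separable (it has `ℓ + 1 = [F' : F]` distinct embeddings);
* `finrank_algInclC`    : `[F' : F] = ℓ + 1`;
* `norm_betaHom_eq_kronNormC` : `N_{F'/F}(y(q^ℓ)) = kronNorm ℓ y`.
-/


set_option autoImplicit false
set_option maxHeartbeats 400000
set_option linter.style.haveILetI false
set_option linter.unusedSectionVars false

noncomputable section

namespace Fermat.Agent.Ribet.H376

open ModularCurve HahnSeries Polynomial IntermediateField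
open Fermat.Agent.S28.H626 Fermat.Agent.S37.H157

/-- A finite field extension `E / F` of degree `n` with `n` pairwise distinct ring embeddings
into a field `Ω`, all restricting to the same `ι : F →+* Ω`, is separable. -/
theorem isSeparable_of_embeddings {F E Ω : Type*} [Field F] [Field E] [Field Ω] [Algebra F E]
    [FiniteDimensional F E]
    (ι : F →+* Ω) {n : ℕ} (hn : Module.finrank F E = n) (σ : Fin n → (E →+* Ω))
    (hσ : ∀ i (a : F), σ i (algebraMap F E a) = ι a) (hinj : Function.Injective σ) :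
    Algebra.IsSeparable F E := by
  classical
  letI : Algebra F (AlgebraicClosure Ω) := ((algebraMap Ω (AlgebraicClosure Ω)).comp ι).toAlgebra
  have halg : ∀ a : F, algebraMap F (AlgebraicClosure Ω) a
      = algebraMap Ω (AlgebraicClosure Ω) (ι a) := fun a => rfl
  let τ : Fin n → (E →ₐ[F] AlgebraicClosure Ω) := fun i =>
    { toRingHom := (algebraMap Ω (AlgebraicClosure Ω)).comp (σ i)
      commutes' := fun a => by
        show algebraMap Ω (AlgebraicClosure Ω) (σ i (algebraMap F E a)) = _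
        rw [hσ i a, halg] }
  have hτ : ∀ i (y : E), τ i y = algebraMap Ω (AlgebraicClosure Ω) (σ i y) := fun i y => rfl
  have hτinj : Function.Injective τ := by
    intro i j hij
    apply hinj
    ext y
    have := congrArg (fun f : E →ₐ[F] AlgebraicClosure Ω => f y) hij
    simp only [hτ] at this
    exact (algebraMap Ω (AlgebraicClosure Ω)).injective this
  have h1 : Field.finSepDegree F E = Nat.card (E →ₐ[F] AlgebraicClosure Ω) :=
    Field.finSepDegree_eq_of_isAlgClosed F E (AlgebraicClosure Ω)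
  have h2 : n ≤ Nat.card (E →ₐ[F] AlgebraicClosure Ω) := by
    have := Nat.card_le_card_of_injective τ hτinj
    simpa using this
  have h3 : Field.finSepDegree F E ≤ Module.finrank F E := Field.finSepDegree_le_finrank F E
  exact (Field.finSepDegree_eq_finrank_iff F E).mp (le_antisymm h3 (by rw [hn, h1]; exact h2))

section Discharge

variable (K : Type*) [Field K]

/-- `HasModPolys` over a field in which the primes dividing `M` are invertible. -/
theorem hasModPolysC (M : ℕ) (hchar : ∀ r : ℕ, r.Prime → r ∣ M → (r : K) ≠ 0) :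
    HasModPolys K M :=
  Fermat.Agent.S28.H867.hasModPolys K M
    (fun p hp _ _ => Fermat.Agent.S28.H807.nonempty_modPolyData p hp) hchar

/-- `[K(X₀(Nℓ)) : K(X₀(N))] = ℓ + 1` for a prime `ℓ ∤ N`, the primes dividing `N ℓ` being
invertible in `K`. -/
theorem finrank_algInclC (N ℓ : ℕ) [NeZero N] [NeZero ℓ] (hℓ : ℓ.Prime) (hℓN : ¬ ℓ ∣ N)
    (hchar : ∀ r : ℕ, r.Prime → r ∣ N * ℓ → (r : K) ≠ 0) :
    @Module.finrank ↥(modularFunctionFieldFullC K N)
      ↥(modularFunctionFieldFullC K (N * ℓ)) _ _ (algIncl K N ℓ).toModule = ℓ + 1 := by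
  have h := Fermat.Agent.S28.H988.relfinrank_full_mul_prime K N ℓ (NeZero.ne N) hℓ hchar
  rw [if_neg hℓN, relfinrank_eq_finrank_of_le (full_le_full_mul K N ℓ)] at h
  rw [← h]
  letI := algIncl K N ℓ
  let e : ↥(modularFunctionFieldFullC K (N * ℓ)) ≃ₗ[↥(modularFunctionFieldFullC K N)]
      ↥(extendScalars (full_le_full_mul K N ℓ)) :=
    { toFun := fun x => ⟨x.1, x.2⟩
      invFun := fun y => ⟨y.1, y.2⟩
      map_add' := fun _ _ => rfl
      map_smul' := fun _ _ => rfl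
      left_inv := fun _ => rfl
      right_inv := fun _ => rfl }
  exact e.finrank_eq

end Discharge

section Main

variable {K : Type*} [Field K] {N ℓ : ℕ} [NeZero N] [NeZero ℓ]

/-- `F' / F` is finite. -/
theorem finiteDimensional_algIncl
    (hfin : @Module.finrank ↥(modularFunctionFieldFullC K N)
      ↥(modularFunctionFieldFullC K (N * ℓ)) _ _ (algIncl K N ℓ).toModule = ℓ + 1) :
    @FiniteDimensional ↥(modularFunctionFieldFullC K N)
      ↥(modularFunctionFieldFullC K (N * ℓ)) _ _ (algIncl K N ℓ).toModule := by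
  letI := algIncl K N ℓ
  exact Module.finite_of_finrank_pos (by rw [hfin]; omega)

/-- `F' / F` is separable, in any characteristic prime to `N ℓ`. -/
theorem isSeparable_algIncl_of (hℓ : ℓ.Prime) (hℓN : ¬ ℓ ∣ N)
    (H : HasModPolys K (N * ℓ)) (ζ : Kˣ) (hζ : IsPrimitiveRoot ζ ℓ)
    (hfin : @Module.finrank ↥(modularFunctionFieldFullC K N)
      ↥(modularFunctionFieldFullC K (N * ℓ)) _ _ (algIncl K N ℓ).toModule = ℓ + 1) :
    @Algebra.IsSeparable ↥(modularFunctionFieldFullC K N)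
      ↥(modularFunctionFieldFullC K (N * ℓ)) _ _ (algIncl K N ℓ) := by
  obtain ⟨-, Φ, hΦ⟩ := H ℓ hℓ (Dvd.intro_left N rfl)
  letI := algIncl K N ℓ
  haveI : FiniteDimensional ↥(modularFunctionFieldFullC K N)
      ↥(modularFunctionFieldFullC K (N * ℓ)) := finiteDimensional_algIncl hfin
  exact isSeparable_of_embeddings (baseHom K N ℓ) hfin
    (embFamily hℓ hℓN H hΦ (natDegree_minpoly_jdl hℓ hℓN H hΦ hfin) ζ)
    (fun i a => embFamily_algebraMap hℓ hℓN H hΦ _ ζ hζ.pow_eq_one i a)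
    (embFamily_injective hℓ hℓN H hΦ _ ζ hζ)

/-- **Norm formula, general element** (any characteristic prime to `N ℓ`). -/
theorem norm_eq_swapC {Φ : Polynomial (Polynomial ℤ)} (hℓ : ℓ.Prime) (hℓN : ¬ ℓ ∣ N)
    (H : HasModPolys K (N * ℓ)) (hΦ : IsModPoly ℓ Φ) (ζ : Kˣ) (hζ : IsPrimitiveRoot ζ ℓ)
    (hfin : @Module.finrank ↥(modularFunctionFieldFullC K N)
      ↥(modularFunctionFieldFullC K (N * ℓ)) _ _ (algIncl K N ℓ).toModule = ℓ + 1)
    (x : modularFunctionFieldFullC K (N * ℓ)) :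
    qExpand K ℓ ((@Algebra.norm ↥(modularFunctionFieldFullC K N) _ _ _ (algIncl K N ℓ) x :
        modularFunctionFieldFullC K N) : LaurentSeries K)
      = qExpand K ℓ (x : LaurentSeries K) *
          ∏ b ∈ Finset.range ℓ, twist (ζ ^ b)
            (swapHom hℓ hℓN H hΦ (natDegree_minpoly_jdl hℓ hℓN H hΦ hfin) x) := by
  letI := algIncl K N ℓ
  haveI : FiniteDimensional ↥(modularFunctionFieldFullC K N)
      ↥(modularFunctionFieldFullC K (N * ℓ)) := finiteDimensional_algIncl hfin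
  haveI : Algebra.IsSeparable ↥(modularFunctionFieldFullC K N)
      ↥(modularFunctionFieldFullC K (N * ℓ)) := isSeparable_algIncl_of hℓ hℓN H ζ hζ hfin
  have key := norm_eq_prod_of_embeddings (baseHom K N ℓ) hfin
    (embFamily hℓ hℓN H hΦ (natDegree_minpoly_jdl hℓ hℓN H hΦ hfin) ζ)
    (fun i a => embFamily_algebraMap hℓ hℓN H hΦ _ ζ hζ.pow_eq_one i a)
    (embFamily_injective hℓ hℓN H hΦ _ ζ hζ) x
  rw [baseHom_apply] at key
  rw [key, Fin.prod_univ_castSucc, embFamily_last, mul_comm]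
  congr 1
  simp_rw [embFamily_castSucc]
  exact Fin.prod_univ_eq_prod_range
    (fun b => twist (ζ ^ b) (swapHom hℓ hℓN H hΦ (natDegree_minpoly_jdl hℓ hℓN H hΦ hfin) x)) ℓ

/-- **NORM-ID** (any characteristic prime to `N ℓ`), twisted-product form. -/
theorem norm_betaHomC (hℓ : ℓ.Prime) (hℓN : ¬ ℓ ∣ N)
    (H : HasModPolys K (N * ℓ)) (ζ : Kˣ) (hζ : IsPrimitiveRoot ζ ℓ)
    (hfin : @Module.finrank ↥(modularFunctionFieldFullC K N)
      ↥(modularFunctionFieldFullC K (N * ℓ)) _ _ (algIncl K N ℓ).toModule = ℓ + 1)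
    (y : modularFunctionFieldFullC K N) :
    qExpand K ℓ ((@Algebra.norm ↥(modularFunctionFieldFullC K N) _ _ _ (algIncl K N ℓ)
        (betaHom K N ℓ y) : modularFunctionFieldFullC K N) : LaurentSeries K)
      = qExpand K (ℓ * ℓ) (y : LaurentSeries K) *
          ∏ b ∈ Finset.range ℓ, twist (ζ ^ b) (y : LaurentSeries K) := by
  obtain ⟨-, Φ, hΦ⟩ := H ℓ hℓ (Dvd.intro_left N rfl)
  rw [norm_eq_swapC hℓ hℓN H hΦ ζ hζ hfin, coe_betaHom, qExpand_qExpand]
  simp_rw [swapHom_betaHom]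

/-- **NORM-ID (closed form), any characteristic prime to `N ℓ`.**  For a prime `ℓ ∤ N`, a field
`K` containing a primitive `ℓ`-th root of unity in which the primes dividing `N ℓ` are
invertible, and `y ∈ F = K(j(q^d) : d ∣ N)`:  `N_{F'/F}(y(q^ℓ)) = kronNorm ℓ y`. -/
theorem norm_betaHom_eq_kronNormC (hℓ : ℓ.Prime) (hℓN : ¬ ℓ ∣ N)
    (hchar : ∀ r : ℕ, r.Prime → r ∣ N * ℓ → (r : K) ≠ 0)
    (ζ : Kˣ) (hζ : IsPrimitiveRoot ζ ℓ) (y : modularFunctionFieldFullC K N) :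
    ((@Algebra.norm ↥(modularFunctionFieldFullC K N) _ _ _ (algIncl K N ℓ)
        (betaHom K N ℓ y) : modularFunctionFieldFullC K N) : LaurentSeries K)
      = Fermat.Agent.S37.H400.kronNorm ℓ (y : LaurentSeries K) := by
  apply qExpand_injective (R := K) ℓ
  rw [norm_betaHomC hℓ hℓN (hasModPolysC K (N * ℓ) hchar) ζ hζ
    (finrank_algInclC K N ℓ hℓ hℓN hchar), Fermat.Agent.S37.H400.kronNorm, map_mul,
    qExpand_qExpand, qExpand_det_secMat ζ hζ]

/-- `F' / F` is separable (any characteristic prime to `N ℓ`). -/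
theorem isSeparable_algIncl (hℓ : ℓ.Prime) (hℓN : ¬ ℓ ∣ N)
    (hchar : ∀ r : ℕ, r.Prime → r ∣ N * ℓ → (r : K) ≠ 0)
    (ζ : Kˣ) (hζ : IsPrimitiveRoot ζ ℓ) :
    @Algebra.IsSeparable ↥(modularFunctionFieldFullC K N)
      ↥(modularFunctionFieldFullC K (N * ℓ)) _ _ (algIncl K N ℓ) :=
  isSeparable_algIncl_of hℓ hℓN (hasModPolysC K (N * ℓ) hchar) ζ hζ
    (finrank_algInclC K N ℓ hℓ hℓN hchar)

end Main

end Fermat.Agent.Ribet.H376

end
end
-- ===== PACK-END Ribet/H376/NormIdC.lean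

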