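import Fermat.Agent.Pack.S43GC.G0E22L1
import Fermat.Agent.Pack.S59C.E8L0
import Fermat.Agent.Pack.S59C.E0L2
import Fermat.Agent.Pack.S59C.E1L2
import Fermat.Agent.Pack.S44C.G0E19L1
import Fermat.Agent.Pack.S44C.G0E1L2
import Fermat.Agent.Pack.S44C.G0E21L2
import Fermat.Agent.Pack.S44C.G0E25L3
import Fermat.Agent.Pack.S44C.G0E10L2
import Fermat.Agent.Pack.S44C.G0E16L2
import Fermat.Agent.Pack.S44C.G0E10L0
import Fermat.Agent.Pack.S44C.G0E22L0
import Fermat.Agent.Pack.S44C.G0E24L2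
import Fermat.Agent.Pack.S44C.G0E23L1
import Fermat.Agent.Pack.S44C.G0E6L1
import Fermat.Agent.Pack.S44C.G0E27L3
import Fermat.Agent.Pack.S43MC.G0E25L2
import Fermat.Agent.Pack.S59C.E5L2
import Fermat.Agent.Pack.S44C.G0E20L2
import Fermat.Agent.Pack.S59C.E8L1
import Fermat.Agent.Pack.S44C.G0E5L3
import Fermat.Agent.Pack.S59C.E8L2

set_option linter.all false

-- ===== PACK-BEGIN S55/G/Rec/Tow/FR/AsmInjH481.lean
section
/-
S55 / layer G / block REC / adapter TOW / leaf FR — ASSEMBLY of `injAt` (helper481).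

* `cH2_jRes` (FR-E) : for `W ⊆ W'`, `c^{W'}_{q,g} = c^{W}_{q,g} ∘ (jRes)_*`  (`q ∈ W`);
* `injAt_of I p : OrbitRepsSpec → LocInjSpec → G.ShapiroJSpec → ResTopSpec → ResCoeffNatSpec →
    <the field `injAt` of `TOW.SemiLocalInv p` for `σ = FR.sigma I`>`.
No `sorry`.
-/


set_option autoImplicit false
set_option linter.unusedSectionVars false
set_option linter.style.haveILetI false

open CategoryTheory groupCohomology
open scoped NumberField

noncomputable section

namespace Fermat.Agent.S55.G.Rec.TOW.FR.H481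

open Fermat.Agent.S55 Fermat.Agent.S55.Tow Fermat.Agent.S55.E1.H594 Fermat.Agent.S55.G.Rec
open Fermat.Agent.S55.G.Rec.TOW Fermat.Agent.S55.G.Rec.TOW.FR
open IsDedekindDomain

local notation "Qb" => AlgebraicClosure ℚ
local notation "GQ" => (AlgebraicClosure ℚ ≃ₐ[ℚ] AlgebraicClosure ℚ)

variable {S : Finset Nat.Primes} (M : Level S) (H : Subgroup M.Gal)

/-- **FR-E**: the localisation at `(q, g)` factors through `J_W` for every `W ∋ q`. -/
theorem cH2_jRes {W W' : Finset Nat.Primes} (hW : W ⊆ W') (q : ℕ) [hq : Fact q.Prime]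
    (hqW : (⟨q, hq.out⟩ : Nat.Primes) ∈ W) (g : GQ)
    (z : H2 (T.resSub (G.JRep M.Gal W' M.F) H)) :
    cH2 M H W' q (hW hqW) g z =
      cH2 M H W q hqW g (h2Sub (jResRepHom M.Gal M.F hW) H z) := by
  have h1 := LocDatum.map_comp (A := T.resSub (G.JRep M.Gal W' M.F) H) (cDatum M H W q hqW g)
    (MonoidHom.id ↥H) ((Rep.resFunctor H.subtype).map (jResRepHom M.Gal M.F hW)) z
  refine Eq.trans ?_ h1
  refine congrFun (congrArg DFunLike.coe (LocDatum.map_congr ?_ ?_)) z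
  · rfl
  · apply AddMonoidHom.ext
    intro a
    apply Additive.toMul.injective
    apply Units.ext
    exact (evAlg_asRes M W q hqW hW g _).symm

/-- Over `ℚ` (`H = ⊤`) there is at most one pair above each prime. -/
lemma pair_top_eq (x x' : Pair M (⊤ : Subgroup M.Gal) S) (h : x.1 = x'.1) : x = x' := by
  obtain ⟨q, ⟨g, hg⟩⟩ := x
  obtain ⟨q', ⟨g', hg'⟩⟩ := x'
  have hq : q = q' := h
  subst hq
  haveI : Fact ((q.1 : ℕ).Prime) := ⟨q.1.2⟩
  have hspec := reps_spec (isOpenQ_UH M ⊤) (q.1 : ℕ)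
  obtain ⟨r₀, -, huniq⟩ := hspec g'
  have h1 : g = r₀ := huniq g ⟨hg, g' * g⁻¹, Subgroup.mem_top _, 1, Subgroup.one_mem _, by group⟩
  have h2 : g' = r₀ := huniq g' ⟨hg', 1, Subgroup.one_mem _, 1, Subgroup.one_mem _, by group⟩
  have h3 : g = g' := h1.trans h2.symm
  subst h3
  rfl

/-- **Assembly of `injAt`**: the field `injAt` of `SemiLocalInv p` for `σ = sigma I`. -/
theorem injAt_of (I : LocalInvSystem) (p : ℕ) (hOR : OrbitRepsSpec) (hLI : LocInjSpec)
    (hSh : G.ShapiroJSpec) (hTop : ResTopSpec) (hRCN : ResCoeffNatSpec) :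
    ∀ {S : Finset Nat.Primes} (M : Level S) (r : Nat.Primes)
      (y : groupCohomology (lvlJ M) 2), E1.IsPPrimary p y → IsAt S M.Gal M.F r y →
      sigma I M ⊤ (res2 (lvlJ M) ⊤ y) = 0 → y = 0 := by
  intro S M r y _ hat hσ
  -- the components away from `r` vanish
  have ha : ∀ x : Pair M (⊤ : Subgroup M.Gal) S, x.1.1 ≠ r →
      invPair M ⊤ I x (res2 (lvlJ M) ⊤ y) = 0 := by
    intro x hx
    haveI : Fact ((x.1.1 : ℕ).Prime) := ⟨x.1.1.2⟩
    have hq' : x.1.1 ∈ S.erase r := Finset.mem_erase.2 ⟨hx, x.1.2⟩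
    have h1 := cH2_jRes M ⊤ (Finset.erase_subset r S) (x.1.1 : ℕ) hq' x.2.1
      (res2 (lvlJ M) ⊤ y)
    have h2 : h2Sub (jResRepHom M.Gal M.F (Finset.erase_subset r S)) ⊤ (res2 (lvlJ M) ⊤ y) = 0 :=
      (hRCN M.Gal _ _ (jResRepHom M.Gal M.F (Finset.erase_subset r S)) ⊤ y).trans
        ((congrArg _ hat).trans (map_zero _))
    have h3 : cH2 M ⊤ S (x.1.1 : ℕ) x.1.2 x.2.1 (res2 (lvlJ M) ⊤ y) = 0 :=
      h1.trans ((congrArg _ h2).trans (AddMonoidHom.map_zero _))
    exact (congrArg (I.inv (x.1.1 : ℕ) (locSub (x.1.1 : ℕ) x.2.1 (UH M ⊤))) h3).trans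
      (AddMonoidHom.map_zero _)
  -- hence all components vanish
  have hc : ∀ x : Pair M (⊤ : Subgroup M.Gal) S, invPair M ⊤ I x (res2 (lvlJ M) ⊤ y) = 0 := by
    intro x
    by_cases hx : x.1.1 = r
    · have hs : sigma I M ⊤ (res2 (lvlJ M) ⊤ y) = invPair M ⊤ I x (res2 (lvlJ M) ⊤ y) := by
        rw [sigma_eq_sum_pairs]
        apply finsum_eq_single
        intro x' hx'
        apply ha
        intro hx'r
        exact hx' (pair_top_eq M x' x (Subtype.ext (hx'r.trans hx.symm)))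
      rw [← hs]
      exact hσ
    · exact ha x hx
  have hy' : res2 (lvlJ M) ⊤ y = 0 :=
    eq_zero_of_forall_locMapJ M ⊤ hOR hSh _
      (fun x => locMapJ_eq_zero_of_invPair M ⊤ I hLI x _ (hc x))
  exact (hTop M.Gal (lvlJ M) 2).1 (hy'.trans (map_zero _).symm)

end Fermat.Agent.S55.G.Rec.TOW.FR.H481

end
end
-- ===== PACK-END S55/G/Rec/Tow/FR/AsmInjH481.lean

-- ===== PACK-BEGIN S17/H200/Plext.lean
section







/-!
# G-DIV / PLEXT: a place is determined by its values on the rational functions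

`stmtPLEXT : StmtPLEXT N L` for `L` algebraically closed of characteristic zero.

Route (Riemann–Roch, no structure theory of the local rings):
* `W = L(n ∞) ⊆ L((q))` is finite-dimensional and stable under the coefficientwise action of
  `Aut(L/ℚ)` (which fixes the cusp `∞`), hence spanned by vectors with rational coefficients
  (`le_span_fixed`, `mem_range_of_forall_algEquiv_eq`), i.e. by functions `bcQ u`;
* hence every `f ∈ L(n ∞)` has the same value at `P` and `P'` (both `≠ ∞`);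
* for `n > 2g` a function `f ∈ L(n ∞ - P) ∖ L(n ∞ - P - P')` separates `P ≠ P'`;
* the cusp is recognised by a rational function whose only pole is `∞`.
-/

set_option autoImplicit false

noncomputable section

open AlgebraicCurve ModularCurve

namespace Fermat.Agent.S17.H200

open Fermat.Agent.Lib.RR Fermat.Agent.S17.GDiv Fermat.Agent.S17.H680

variable {N : ℕ} [NeZero N] {L : Type} [Field L] [Algebra ℚ L]

/-! ### Rational Laurent series -/

omit [NeZero N] in
/-- A function in `F_L` all of whose coefficients are rational is of the form `bcQ u`. -/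
theorem exists_bcQ_eq_of_coeff_mem_range {v : LaurentSeries L} (hv : v ∈ FL N L)
    (hc : ∀ m : ℤ, v.coeff m ∈ Set.range (algebraMap ℚ L)) :
    ∃ u : modularFunctionFieldFull N, ((bcQ N L u : FL N L) : LaurentSeries L) = v := by
  have h1 : coeffMap (algebraMap ℚ L) (Fermat.Agent.S29.H32.coeffDown (k := ℚ) v) = v :=
    Fermat.Agent.S29.H32.coeffMap_coeffDown hc
  set y : LaurentSeries ℚ := Fermat.Agent.S29.H32.coeffDown (k := ℚ) v with hy
  have h2 : y ∈ laurentBaseChange ℚ (modularFunctionFieldFull N) := by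
    apply Fermat.Agent.S29.H882.mem_laurentBaseChange_of_coeffMap_mem (algebraMap ℚ L)
    rw [h1]
    exact hv
  have h3 : y ∈ modularFunctionFieldFull N := by
    have hle : laurentBaseChange ℚ (modularFunctionFieldFull N) ≤ modularFunctionFieldFull N := by
      unfold laurentBaseChange
      rw [IntermediateField.adjoin_le_iff]
      rintro _ ⟨z, hz, rfl⟩
      have : coeffEmb ℚ z = z := by
        ext m
        simp
      rw [this]
      exact hz
    exact hle h2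
  exact ⟨⟨y, h3⟩, h1⟩

/-! ### The image of `L(D)` in the Laurent series -/

omit [Algebra ℚ L] in
/-- The coefficientwise scalar multiplication on Laurent series is multiplication by the
constant. -/
theorem hahn_smul_eq (c : L) (v : LaurentSeries L) :
    c • v = algebraMap L (LaurentSeries L) c * v := by
  rw [algebraMap_laurentSeries_eq_single, HahnSeries.single_zero_mul_eq_smul]

omit [NeZero N] in
theorem coe_smul_FL (c : L) (f : FL N L) :
    ((c • f : FL N L) : LaurentSeries L) = c • (f : LaurentSeries L) := by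
  rw [hahn_smul_eq, Algebra.smul_def]
  rfl

/-- The inclusion `F_L → L((q))` as an `L`-linear map (coefficientwise module structure on the
target). -/
def inclL (N : ℕ) (L : Type) [Field L] [Algebra ℚ L] : FL N L →ₗ[L] LaurentSeries L where
  toFun f := (f : LaurentSeries L)
  map_add' _ _ := rfl
  map_smul' c f := by
    show ((c • f : FL N L) : LaurentSeries L) = c • (f : LaurentSeries L)
    exact coe_smul_FL c f

omit [NeZero N] in
@[simp]
theorem inclL_apply (f : FL N L) : inclL N L f = (f : LaurentSeries L) := rfl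

/-- The image of `L(D)` in `L((q))`. -/
def imgL (D : Divisor L (FL N L)) : Submodule L (LaurentSeries L) :=
  (riemannRochSpace D).map (inclL N L)

omit [NeZero N] in
theorem mem_imgL {D : Divisor L (FL N L)} {v : LaurentSeries L} :
    v ∈ imgL D ↔ ∃ f : FL N L, f ∈ riemannRochSpace D ∧ (f : LaurentSeries L) = v := by
  simp only [imgL, Submodule.mem_map, inclL_apply]

section FF1

variable [FF1 L (FL N L)]

omit [NeZero N] in
instance finiteDimensional_imgL (D : Divisor L (FL N L)) : FiniteDimensional L (imgL D) :=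
  Module.Finite.map _ _

/-- `L(n ∞)` is stable under the coefficientwise Galois action. -/
theorem arithmeticGalois_smul_mem_L_cusp (σ : L ≃ₐ[ℚ] L) (n : ℕ) {f : FL N L}
    (hf : f ∈ riemannRochSpace (n • prim (cuspL N L))) :
    arithmeticGalois (modularFunctionFieldFull N) σ • f ∈
      riemannRochSpace (n • prim (cuspL N L)) := by
  have h := smul_mem_L (arithmeticGalois (modularFunctionFieldFull N) σ) hf
  have e : arithmeticGalois (modularFunctionFieldFull N) σ • (n • prim (cuspL N L))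
      = n • prim (cuspL N L) := by
    rw [smul_comm, smul_prim]
    unfold cuspL
    rw [arithmeticGalois_smul_cuspInf]
  rwa [e] at h

variable [IsAlgClosed L]

/-- **Rational span of `L(n ∞)`** in the form of an induction principle: a property of functions
which is stable under `L`-linear combinations and holds for the functions `bcQ u ∈ L(n ∞)` holds
on all of `L(n ∞)`. -/
theorem induction_L_cusp (n : ℕ) (p : FL N L → Prop) (h0 : p 0)
    (hadd : ∀ f g, p f → p g → p (f + g)) (hsmul : ∀ (a : L) f, p f → p (a • f))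
    (hgen : ∀ u : modularFunctionFieldFull N,
      bcQ N L u ∈ riemannRochSpace (n • prim (cuspL N L)) → p (bcQ N L u)) :
    ∀ f ∈ riemannRochSpace (n • prim (cuspL N L)), p f := by
  intro f hf
  set W := imgL (n • prim (cuspL N L)) with hW
  set H : Set (L →+* L) := Set.range fun σ : L ≃ₐ[ℚ] L => (σ : L →+* L) with hH
  have hstab : ∀ σ ∈ H, ∀ v ∈ W, coeffMap σ v ∈ W := by
    rintro _ ⟨σ, rfl⟩ v hv
    obtain ⟨f', hf', rfl⟩ := mem_imgL.mp hv
    exact mem_imgL.mpr ⟨_, arithmeticGalois_smul_mem_L_cusp σ n hf',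
      coe_arithmeticGalois_smul _ σ f'⟩
  have hspan := le_span_fixed W H hstab
  have hfW : (f : LaurentSeries L) ∈ W := mem_imgL.mpr ⟨f, hf, rfl⟩
  have key : ∀ v ∈ Submodule.span L {v | v ∈ W ∧ ∀ σ ∈ H, coeffMap σ v = v},
      ∃ hv : v ∈ FL N L, p ⟨v, hv⟩ := by
    intro v hv
    induction hv using Submodule.span_induction with
    | mem v hv =>
      obtain ⟨hvW, hvfix⟩ := hv
      obtain ⟨f', hf', rfl⟩ := mem_imgL.mp hvW
      have hc : ∀ m : ℤ, (f' : LaurentSeries L).coeff m ∈ Set.range (algebraMap ℚ L) := by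
        intro m
        apply mem_range_of_forall_algEquiv_eq
        intro σ
        have := congrArg (fun z : LaurentSeries L => z.coeff m) (hvfix _ ⟨σ, rfl⟩)
        simpa using this
      obtain ⟨u, hu⟩ := exists_bcQ_eq_of_coeff_mem_range f'.2 hc
      have hu' : bcQ N L u = f' := Subtype.ext hu
      refine ⟨f'.2, ?_⟩
      have := hgen u (by rw [hu']; exact hf')
      rwa [hu'] at this
    | zero => exact ⟨zero_mem _, h0⟩
    | add v w _ _ hv hw =>
      obtain ⟨hv1, hv2⟩ := hv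
      obtain ⟨hw1, hw2⟩ := hw
      exact ⟨add_mem hv1 hw1, hadd _ _ hv2 hw2⟩
    | smul a v _ hv =>
      obtain ⟨hv1, hv2⟩ := hv
      have e : a • v = ((a • (⟨v, hv1⟩ : FL N L) : FL N L) : LaurentSeries L) :=
        (coe_smul_FL a ⟨v, hv1⟩).symm
      refine ⟨e ▸ (a • (⟨v, hv1⟩ : FL N L)).2, ?_⟩
      have := hsmul a _ hv2
      convert this using 1
      exact Subtype.ext e
  obtain ⟨_, h⟩ := key _ (hspan hfW)
  exact h

omit [NeZero N] [FF1 L (FL N L)] [IsAlgClosed L] in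
theorem nsmul_prim_apply_of_ne (n : ℕ) {v P : Place L (FL N L)} (hP : P ≠ v) :
    (n • prim v) P = 0 := by
  rw [Finsupp.smul_apply, prim_apply_of_ne hP, smul_zero]

omit [NeZero N] [FF1 L (FL N L)] [IsAlgClosed L] in
theorem bcQ_inv (u : modularFunctionFieldFull N) : bcQ N L u⁻¹ = (bcQ N L u)⁻¹ := by
  apply Subtype.ext
  rw [IntermediateField.coe_inv, coe_bcQ, coe_bcQ, IntermediateField.coe_inv, map_inv₀]

/-- Every function of `L(n ∞)` has the same value at `P` and `P'`. -/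
theorem exists_common_value {P P' : Place L (FL N L)} (hP : P ≠ cuspL N L)
    (h : ∀ (u : modularFunctionFieldFull N) (c : L),
      HasValue P (bcQ N L u) c → HasValue P' (bcQ N L u) c) (n : ℕ) :
    ∀ f ∈ riemannRochSpace (n • prim (cuspL N L)), ∃ c, HasValue P f c ∧ HasValue P' f c := by
  apply induction_L_cusp n (fun f => ∃ c, HasValue P f c ∧ HasValue P' f c)
  · exact ⟨0, hasValue_zero P, hasValue_zero P'⟩
  · rintro f g ⟨c, hc, hc'⟩ ⟨d, hd, hd'⟩
    exact ⟨c + d, HasValue.add hc hd, HasValue.add hc' hd'⟩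
  · rintro a f ⟨c, hc, hc'⟩
    exact ⟨a * c, HasValue.smul hc a, HasValue.smul hc' a⟩
  · intro u hu
    have := (mem_L_iff.mp hu) P
    rw [nsmul_prim_apply_of_ne n hP, neg_zero] at this
    obtain ⟨c, hc⟩ := exists_hasValue this
    exact ⟨c, hc, h u c hc⟩

/-- If `ℓ(n ∞) ≥ 2`, some rational function of `L(n ∞)` has a pole at the cusp. -/
theorem exists_bcQ_pole (n : ℕ) (hn : 2 ≤ ell (n • prim (cuspL N L))) :
    ∃ u : modularFunctionFieldFull N,
      bcQ N L u ∈ riemannRochSpace (n • prim (cuspL N L)) ∧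
        (cuspL N L).ord (bcQ N L u) < 0 := by
  by_contra hcon
  simp only [not_exists, not_and, not_lt] at hcon
  have hall : ∀ f ∈ riemannRochSpace (n • prim (cuspL N L)),
      f ∈ (cuspL N L).toValuationSubring := by
    apply induction_L_cusp n (fun f => f ∈ (cuspL N L).toValuationSubring)
    · exact zero_mem _
    · intro f g hf hg
      exact add_mem hf hg
    · intro a f hf
      rw [Algebra.smul_def]
      exact mul_mem ((cuspL N L).algebraMap_mem' a) hf
    · intro u hu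
      exact mem_of_ord_nonneg _ (hcon u hu)
  have hle : riemannRochSpace (n • prim (cuspL N L)) ≤
      riemannRochSpace (0 : Divisor L (FL N L)) := by
    intro f hf
    have hf' := hf
    rw [mem_L_iff] at hf ⊢
    intro v
    by_cases hv : v = cuspL N L
    · subst hv
      right
      rw [Finsupp.zero_apply, neg_zero]
      exact ord_nonneg_of_mem _ (hall f hf')
    · have := hf v
      rwa [nsmul_prim_apply_of_ne n hv] at this
  have h1 : ell (n • prim (cuspL N L)) ≤ ell (0 : Divisor L (FL N L)) :=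
    Submodule.finrank_mono hle
  rw [ell_zero] at h1
  omega

omit [NeZero N] [IsAlgClosed L] in
theorem degree_nsmul_cusp (v : Place L (FL N L)) (n : ℕ) :
    Divisor.degree (n • prim v) = n := by
  rw [map_nsmul, degree_prim _ (deg_eq_one _), nsmul_eq_mul, mul_one]

omit [NeZero N] [FF1 L (FL N L)] [IsAlgClosed L] in
theorem sub_prim_apply_self (D : Divisor L (FL N L)) (P : Place L (FL N L)) :
    (D - prim P) P = D P - 1 := by
  rw [Finsupp.sub_apply, prim_apply_self]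

omit [NeZero N] [FF1 L (FL N L)] [IsAlgClosed L] in
theorem sub_prim_apply_of_ne (D : Divisor L (FL N L)) {P v : Place L (FL N L)} (h : v ≠ P) :
    (D - prim P) v = D v := by
  rw [Finsupp.sub_apply, prim_apply_of_ne h, sub_zero]

omit [NeZero N] [FF1 L (FL N L)] [IsAlgClosed L] in
theorem sub_prim_le (D : Divisor L (FL N L)) (P : Place L (FL N L)) : D - prim P ≤ D := by
  rw [Finsupp.le_def]
  intro v
  by_cases hv : v = P
  · subst hv
    rw [sub_prim_apply_self]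
    omega
  · rw [sub_prim_apply_of_ne D hv]

omit [NeZero N] [IsAlgClosed L] in
/-- Riemann–Roch: if `deg D > 2g`, some function of `L(D - P)` is not in `L(D - P - P')`. -/
theorem exists_mem_not_mem (D : Divisor L (FL N L))
    (hD : 2 * (genusFF L (FL N L) : ℤ) < Divisor.degree D) (P P' : Place L (FL N L)) :
    ∃ f ∈ riemannRochSpace (D - prim P), f ∉ riemannRochSpace (D - prim P - prim P') := by
  have hd1 : Divisor.degree (D - prim P) = Divisor.degree D - 1 := by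
    rw [map_sub, degree_prim _ (deg_eq_one _)]
  have hd2 : Divisor.degree (D - prim P - prim P') = Divisor.degree D - 2 := by
    rw [map_sub, hd1, degree_prim _ (deg_eq_one _)]
    ring
  have he1 := ell_eq_of_degree_gt (D := D - prim P) (by rw [hd1]; omega)
  have he2 := ell_eq_of_degree_gt (D := D - prim P - prim P') (by rw [hd2]; omega)
  rw [hd1] at he1
  rw [hd2] at he2
  by_contra hcon
  simp only [not_exists, not_and, not_not] at hcon
  have hle : riemannRochSpace (D - prim P) ≤ riemannRochSpace (D - prim P - prim P') := hcon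
  have h3 : ell (D - prim P) ≤ ell (D - prim P - prim P') := Submodule.finrank_mono hle
  omega

omit [FF1 L (FL N L)] [IsAlgClosed L] in
/-- The cusp case of PLEXT. -/
theorem plext_cusp {P' : Place L (FL N L)}
    (h : ∀ (u : modularFunctionFieldFull N) (c : L),
      HasValue (cuspL N L) (bcQ N L u) c → HasValue P' (bcQ N L u) c)
    {n : ℕ} {u : modularFunctionFieldFull N}
    (huL : bcQ N L u ∈ riemannRochSpace (n • prim (cuspL N L)))
    (hupole : (cuspL N L).ord (bcQ N L u) < 0) : P' = cuspL N L := by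
  have hx0 : bcQ N L u ≠ 0 := ne_zero_of_ord_ne_zero (cuspL N L) (by omega)
  by_contra hP'
  have hv : HasValue (cuspL N L) (bcQ N L u⁻¹) 0 := by
    rw [hasValue_zero_iff, bcQ_inv]
    right
    rw [Place.ord_inv]
    omega
  have hv' := h _ _ hv
  rw [hasValue_zero_iff, bcQ_inv] at hv'
  rcases hv' with h0 | hpos
  · exact hx0 (inv_eq_zero.mp h0)
  · rw [Place.ord_inv] at hpos
    have := (mem_L_iff.mp huL) P'
    rw [nsmul_prim_apply_of_ne n hP', neg_zero] at this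
    rcases this with h0 | h1
    · exact hx0 h0
    · omega

omit [NeZero N] [FF1 L (FL N L)] [IsAlgClosed L] in
/-- A function with a pole at `v` has no value at `v`. -/
theorem not_hasValue_of_ord_neg {v : Place L (FL N L)} {x : FL N L} (hx : v.ord x < 0) (c : L) :
    ¬ HasValue v x c := by
  have hx0 : x ≠ 0 := ne_zero_of_ord_ne_zero v (by omega)
  intro hc
  rcases eq_or_ne c 0 with rfl | hc0
  · rw [hasValue_zero_iff] at hc
    rcases hc with h0 | h1
    · exact hx0 h0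
    · omega
  · have hC : algebraMap L (FL N L) c ≠ 0 := by rwa [Ne, map_eq_zero]
    have hord : v.ord (x - algebraMap L (FL N L) c) = v.ord x := by
      rw [sub_eq_add_neg]
      apply ord_add_eq_of_lt _ hx0 (neg_ne_zero.mpr hC)
      rw [ord_neg, ord_algebraMap]
      exact hx
    rcases hc with h0 | h1
    · rw [sub_eq_zero] at h0
      rw [h0, ord_algebraMap] at hx
      exact lt_irrefl _ hx
    · rw [hord] at h1
      omega

/-- The separation step of PLEXT. -/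
theorem plext_sep {P P' : Place L (FL N L)} (hP : P ≠ cuspL N L) (hP' : P' ≠ cuspL N L)
    (h : ∀ (u : modularFunctionFieldFull N) (c : L),
      HasValue P (bcQ N L u) c → HasValue P' (bcQ N L u) c)
    {n : ℕ} (hn : 2 * (genusFF L (FL N L) : ℤ) < n) : P = P' := by
  by_contra hne
  have hne' : P' ≠ P := fun h' => hne h'.symm
  have hcv := exists_common_value hP h n
  obtain ⟨f, hf1, hf2⟩ := exists_mem_not_mem (n • prim (cuspL N L))
    (by rw [degree_nsmul_cusp]; exact hn) P P'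
  have hfL : f ∈ riemannRochSpace (n • prim (cuspL N L)) := L_mono (sub_prim_le _ P) hf1
  obtain ⟨c, hc, hc'⟩ := hcv f hfL
  have hfP : HasValue P f 0 := by
    rw [hasValue_zero_iff]
    have := (mem_L_iff.mp hf1) P
    rw [sub_prim_apply_self, nsmul_prim_apply_of_ne n hP] at this
    exact this.imp id fun h => by omega
  have hc0 : c = 0 := HasValue.unique hc hfP
  rw [hc0] at hc'
  have hfP' : VanishesAt P' f := hasValue_zero_iff.mp hc'
  apply hf2
  rw [mem_L_iff]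
  intro v
  by_cases hv : v = P'
  · rw [hv, sub_prim_apply_self, sub_prim_apply_of_ne _ hne', nsmul_prim_apply_of_ne n hP']
    exact hfP'.imp id fun h => by omega
  · have := (mem_L_iff.mp hf1) v
    rwa [sub_prim_apply_of_ne _ hv]

/-- **PLEXT**: a place of `F_L` is determined by its values on the functions with rational
`q`-expansion. -/
theorem stmtPLEXT : StmtPLEXT N L := by
  intro P P' h
  obtain ⟨n, hn⟩ : ∃ n : ℕ, n = 2 * genusFF L (FL N L) + 2 := ⟨_, rfl⟩
  have hell := ell_eq_of_degree_gt (D := n • prim (cuspL N L))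
    (by rw [degree_nsmul_cusp]; omega)
  rw [degree_nsmul_cusp] at hell
  have h2 : 2 ≤ ell (n • prim (cuspL N L)) := by omega
  obtain ⟨u, huL, hupole⟩ := exists_bcQ_pole n h2
  by_cases hP : P = cuspL N L
  · rw [hP] at h ⊢
    exact (plext_cusp h huL hupole).symm
  · have hP' : P' ≠ cuspL N L := by
      intro hP'
      obtain ⟨c, -, hc'⟩ := exists_common_value hP h n _ huL
      rw [hP'] at hc'
      exact not_hasValue_of_ord_neg hupole c hc'
    exact plext_sep hP hP' h (n := n) (by omega)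

end FF1

end Fermat.Agent.S17.H200

end
end
-- ===== PACK-END S17/H200/Plext.lean

-- ===== PACK-BEGIN S29/H989/KHAct.lean
section





/-!
# S29 / M4b / K4-HECKE (helper989), part 1: integer matrices of positive determinant acting on `ℍ`

* `KH_glInt M hM : GL (Fin 2) ℝ` for an integer matrix `M` with `0 < det M`;
* `KH_im_le` (height lemma): `im (γ • M • τ) ≤ det M * im τ` for `im τ ≥ 1`, `γ ∈ SL₂(ℤ)`;
* `KH_expGrowth` : for `G ∈ goodRing N`, `τ ↦ G (M • τ)` has at most exponential growth;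
* `KH_act ℓ i` : the Möbius action of the representatives `heckeRep ℓ i` of `DefsM`, with the
  equivariance `KH_act_factor` coming from `IsHeckeFactor`.
-/

set_option autoImplicit false
set_option linter.style.haveILetI false
set_option linter.unusedSectionVars false

noncomputable section

open UpperHalfPlane ModularGroup CongruenceSubgroup
open scoped MatrixGroups Manifold Modular Real

namespace Fermat.Agent.S29.H989

open Fermat.Agent.S24 Fermat.Agent.S24.H648 Fermat.Agent.S29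

/-! ### Integer matrices of positive determinant -/

theorem KH_det_map (M : Matrix (Fin 2) (Fin 2) ℤ) :
    (M.map (Int.cast : ℤ → ℝ)).det = ((M.det : ℤ) : ℝ) := by
  rw [Matrix.det_fin_two, Matrix.det_fin_two]
  simp [Matrix.map_apply]

/-- The element of `GL₂(ℝ)` attached to an integer matrix of positive determinant. -/
def KH_glInt (M : Matrix (Fin 2) (Fin 2) ℤ) (hM : 0 < M.det) : GL (Fin 2) ℝ :=
  Matrix.GeneralLinearGroup.mkOfDetNeZero (M.map (Int.cast : ℤ → ℝ)) (by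
    rw [KH_det_map]
    exact_mod_cast hM.ne')

theorem KH_glInt_val (M : Matrix (Fin 2) (Fin 2) ℤ) (hM : 0 < M.det) :
    (KH_glInt M hM).val = M.map (Int.cast : ℤ → ℝ) := rfl

theorem KH_glInt_apply (M : Matrix (Fin 2) (Fin 2) ℤ) (hM : 0 < M.det) (i j : Fin 2) :
    (KH_glInt M hM) i j = ((M i j : ℤ) : ℝ) := rfl

theorem KH_glInt_det (M : Matrix (Fin 2) (Fin 2) ℤ) (hM : 0 < M.det) :
    (KH_glInt M hM).det.val = ((M.det : ℤ) : ℝ) := by
  rw [Matrix.GeneralLinearGroup.val_det_apply, KH_glInt_val, KH_det_map]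

theorem KH_glInt_det_pos (M : Matrix (Fin 2) (Fin 2) ℤ) (hM : 0 < M.det) :
    0 < (KH_glInt M hM).det.val := by
  rw [KH_glInt_det]
  exact_mod_cast hM

theorem KH_det_mul_pos {M M' : Matrix (Fin 2) (Fin 2) ℤ} (hM : 0 < M.det) (hM' : 0 < M'.det) :
    0 < (M * M').det := by
  rw [Matrix.det_mul]
  exact mul_pos hM hM'

theorem KH_glInt_mul (M M' : Matrix (Fin 2) (Fin 2) ℤ) (hM : 0 < M.det) (hM' : 0 < M'.det) :
    KH_glInt (M * M') (KH_det_mul_pos hM hM') = KH_glInt M hM * KH_glInt M' hM' := by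
  apply Units.ext
  rw [Units.val_mul, KH_glInt_val, KH_glInt_val, KH_glInt_val]
  exact Matrix.map_mul (f := Int.castRingHom ℝ)

theorem KH_glInt_congr {M M' : Matrix (Fin 2) (Fin 2) ℤ} (e : M = M') (hM : 0 < M.det)
    (hM' : 0 < M'.det) : KH_glInt M hM = KH_glInt M' hM' := by
  subst e; rfl

theorem KH_det_SL_pos (γ : SL(2, ℤ)) : 0 < (γ : Matrix (Fin 2) (Fin 2) ℤ).det := by
  rw [γ.det_coe]; exact one_pos

theorem KH_glInt_SL (γ : SL(2, ℤ)) :
    KH_glInt (γ : Matrix (Fin 2) (Fin 2) ℤ) (KH_det_SL_pos γ) = (γ : GL (Fin 2) ℝ) := by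
  apply Units.ext
  ext i j
  rfl

theorem KH_glInt_SL_smul (γ : SL(2, ℤ)) (τ : ℍ) :
    KH_glInt (γ : Matrix (Fin 2) (Fin 2) ℤ) (KH_det_SL_pos γ) • τ = γ • τ := by
  rw [KH_glInt_SL, sl_moeb]

/-- Height lemma, basic form. -/
theorem KH_im_le_aux (M : Matrix (Fin 2) (Fin 2) ℤ) (hM : 0 < M.det) (τ : ℍ) (hτ : 1 ≤ τ.im) :
    (KH_glInt M hM • τ).im ≤ ((M.det : ℤ) : ℝ) * τ.im := by
  rw [UpperHalfPlane.im_smul_eq_div_normSq, KH_glInt_det]
  have hden : denom (KH_glInt M hM) τ = ((M 1 0 : ℤ) : ℂ) * τ + ((M 1 1 : ℤ) : ℂ) := by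
    simp [denom, KH_glInt_apply]
  have hne : denom (KH_glInt M hM) τ ≠ 0 := denom_ne_zero _ τ
  have hge : 1 ≤ Complex.normSq (denom (KH_glInt M hM) τ) := by
    rw [hden] at hne ⊢
    exact one_le_normSq_int_linear _ _ τ hτ hne
  have hdet : (0 : ℝ) < ((M.det : ℤ) : ℝ) := by exact_mod_cast hM
  rw [abs_of_pos hdet]
  have hnn : (0 : ℝ) ≤ ((M.det : ℤ) : ℝ) * τ.im := by
    have := τ.im_pos
    positivity
  exact div_le_self hnn hge

/-- **Height lemma**: an integer matrix of determinant `d > 0` followed by any element of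
`SL₂(ℤ)` maps `{im τ ≥ 1}` into `{im ≤ d · im τ}`. -/
theorem KH_im_le (M : Matrix (Fin 2) (Fin 2) ℤ) (hM : 0 < M.det) (γ : SL(2, ℤ)) (τ : ℍ)
    (hτ : 1 ≤ τ.im) : (γ • (KH_glInt M hM • τ)).im ≤ ((M.det : ℤ) : ℝ) * τ.im := by
  have h1 : γ • (KH_glInt M hM • τ)
      = KH_glInt ((γ : Matrix (Fin 2) (Fin 2) ℤ) * M) (KH_det_mul_pos (KH_det_SL_pos γ) hM) • τ := by
    rw [KH_glInt_mul _ _ (KH_det_SL_pos γ) hM, mul_smul, KH_glInt_SL_smul]
  rw [h1]
  have h2 := KH_im_le_aux _ (KH_det_mul_pos (KH_det_SL_pos γ) hM) τ hτ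
  rwa [Matrix.det_mul, γ.det_coe, one_mul] at h2

/-! ### Growth -/

theorem KH_exp_mono {C C' : ℝ} {m m' : ℕ} (hC : C ≤ C') (hC0 : 0 ≤ C') (hm : m ≤ m') {y : ℝ}
    (hy : 0 ≤ y) : C * Real.exp (2 * π * m * y) ≤ C' * Real.exp (2 * π * m' * y) := by
  have h1 : Real.exp (2 * π * m * y) ≤ Real.exp (2 * π * m' * y) := by
    apply Real.exp_le_exp.mpr
    have : (m : ℝ) ≤ m' := by exact_mod_cast hm
    have hpi := Real.pi_pos
    gcongr
  calc C * Real.exp (2 * π * m * y) ≤ C' * Real.exp (2 * π * m * y) := by gcongr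
    _ ≤ C' * Real.exp (2 * π * m' * y) := by gcongr

variable {N : ℕ} [NeZero N]

/-- A uniform bound on the fundamental domain for all `SL₂(ℤ)`-translates of a good function. -/
theorem KH_fd_bound {G : ℍ → ℂ} (hG : G ∈ goodRing N) :
    ∃ (C : ℝ) (m : ℕ), 0 ≤ C ∧ ∀ (g : SL(2, ℤ)) (w : ℍ), w ∈ 𝒟 →
      ‖G (g • w)‖ ≤ C * Real.exp (2 * π * m * w.im) := by
  classical
  haveI : Finite (SL(2, ℤ) ⧸ Gamma0 N) := inferInstanceAs (Finite (XX N))
  letI : Fintype (SL(2, ℤ) ⧸ Gamma0 N) := Fintype.ofFinite _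
  have hx : ∀ x : SL(2, ℤ) ⧸ Gamma0 N, ∃ (C : ℝ) (m : ℕ), 0 ≤ C ∧ ∀ w : ℍ, w ∈ 𝒟 →
      ‖conj N G x w‖ ≤ C * Real.exp (2 * π * m * w.im) := by
    intro x
    obtain ⟨hmd, C, m, hC⟩ := conj_mem_niceRing hG x
    have hO : conj N G x =O[Filter.comap UpperHalfPlane.im Filter.atTop]
        fun τ : ℍ => Real.exp (2 * π * (m : ℝ) * τ.im) := by
      apply Asymptotics.IsBigO.of_bound C
      rw [Filter.eventually_comap, Filter.eventually_atTop]
      refine ⟨1, fun y hy τ hτy => ?_⟩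
      rw [Real.norm_of_nonneg (Real.exp_pos _).le]
      exact hC τ (by rw [hτy]; exact hy)
    obtain ⟨C', hC'⟩ := exists_bound_fd_of_isBigO_exp hmd.continuous m hO
    refine ⟨|C'|, m, abs_nonneg _, fun w hw => (hC' w hw).trans ?_⟩
    exact KH_exp_mono (le_abs_self _) (abs_nonneg _) le_rfl w.im_pos.le
  choose C m hC0 hC using hx
  refine ⟨∑ x, C x, ∑ x, m x, Finset.sum_nonneg (fun x _ => hC0 x), fun g w hw => ?_⟩
  have h1 : G (g • w) = conj N G ((g⁻¹ : SL(2, ℤ)) : SL(2, ℤ) ⧸ Gamma0 N) w := by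
    rw [conj_mk hG.2.1, inv_inv]
  rw [h1]
  refine (hC _ w hw).trans ?_
  exact KH_exp_mono (Finset.single_le_sum (fun x _ => hC0 x) (Finset.mem_univ _))
    (Finset.sum_nonneg (fun x _ => hC0 x))
    (Finset.single_le_sum (f := m) (fun x _ => Nat.zero_le _) (Finset.mem_univ _)) w.im_pos.le

/-- **Growth**: for a good function `G` and an integer matrix `M` of positive determinant,
`τ ↦ G (M • τ)` has at most exponential growth. -/
theorem KH_expGrowth {G : ℍ → ℂ} (hG : G ∈ goodRing N) (M : Matrix (Fin 2) (Fin 2) ℤ)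
    (hM : 0 < M.det) : ExpGrowth (fun τ => G (KH_glInt M hM • τ)) := by
  obtain ⟨C, m, hC0, hC⟩ := KH_fd_bound hG
  refine ⟨C, m * M.det.toNat, fun τ hτ => ?_⟩
  obtain ⟨γ, hγ⟩ := ModularGroup.exists_smul_mem_fd (KH_glInt M hM • τ)
  have h1 : G (KH_glInt M hM • τ) = G (γ⁻¹ • (γ • (KH_glInt M hM • τ))) := by
    rw [inv_smul_smul]
  show ‖G (KH_glInt M hM • τ)‖ ≤ _
  rw [h1]
  refine (hC γ⁻¹ _ hγ).trans ?_
  have h2 := KH_im_le M hM γ τ hτ
  have h3 : ((m * M.det.toNat : ℕ) : ℝ) = (m : ℝ) * ((M.det : ℤ) : ℝ) := by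
    push_cast
    congr 1
    have : ((M.det.toNat : ℕ) : ℤ) = M.det := Int.toNat_of_nonneg hM.le
    exact_mod_cast this
  apply mul_le_mul_of_nonneg_left _ hC0
  apply Real.exp_le_exp.mpr
  rw [h3]
  have hpi := Real.pi_pos
  have hm0 : (0 : ℝ) ≤ (m : ℝ) := Nat.cast_nonneg m
  calc 2 * π * (m : ℝ) * (γ • (KH_glInt M hM • τ)).im
      ≤ 2 * π * (m : ℝ) * (((M.det : ℤ) : ℝ) * τ.im) := by gcongr
    _ = 2 * π * ((m : ℝ) * ((M.det : ℤ) : ℝ)) * τ.im := by ring

/-- All `SL₂(ℤ)`-translates of `τ ↦ G (M • τ)` have at most exponential growth. -/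
theorem KH_expGrowth_smul {G : ℍ → ℂ} (hG : G ∈ goodRing N) (M : Matrix (Fin 2) (Fin 2) ℤ)
    (hM : 0 < M.det) (g : SL(2, ℤ)) : ExpGrowth (fun τ => G (KH_glInt M hM • (g • τ))) := by
  have h := KH_expGrowth hG (M * (g : Matrix (Fin 2) (Fin 2) ℤ))
    (KH_det_mul_pos hM (KH_det_SL_pos g))
  have e : (fun τ => G (KH_glInt M hM • (g • τ)))
      = fun τ => G (KH_glInt (M * (g : Matrix (Fin 2) (Fin 2) ℤ))
          (KH_det_mul_pos hM (KH_det_SL_pos g)) • τ) := by
    funext τ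
    rw [KH_glInt_mul _ _ hM (KH_det_SL_pos g), mul_smul, KH_glInt_SL_smul]
  rw [e]
  exact h

/-! ### The ring of holomorphic functions with all translates of exponential growth -/

/-- Holomorphic functions on `ℍ` all of whose `SL₂(ℤ)`-translates have at most exponential
growth at `i∞` (no invariance required). -/
def KH_growRing : Subalgebra ℂ (ℍ → ℂ) where
  carrier := {f | MDifferentiable 𝓘(ℂ) 𝓘(ℂ) f ∧ ∀ g : SL(2, ℤ), ExpGrowth (fun τ => f (g • τ))}
  mul_mem' := by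
    rintro f g ⟨h1, h3⟩ ⟨h1', h3'⟩
    exact ⟨h1.mul h1', fun g => (h3 g).mul (h3' g)⟩
  add_mem' := by
    rintro f g ⟨h1, h3⟩ ⟨h1', h3'⟩
    exact ⟨h1.add h1', fun g => (h3 g).add (h3' g)⟩
  algebraMap_mem' := fun c => ⟨mdifferentiable_const, fun _ => expGrowth_const c⟩

theorem KH_mem_growRing {f : ℍ → ℂ} :
    f ∈ KH_growRing ↔ MDifferentiable 𝓘(ℂ) 𝓘(ℂ) f ∧
      ∀ g : SL(2, ℤ), ExpGrowth (fun τ => f (g • τ)) := Iff.rfl

theorem KH_comp_mem_growRing {G : ℍ → ℂ} (hG : G ∈ goodRing N) (M : Matrix (Fin 2) (Fin 2) ℤ)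
    (hM : 0 < M.det) : (fun τ => G (KH_glInt M hM • τ)) ∈ KH_growRing :=
  ⟨H624.mdiff_comp_smul (KH_glInt_det_pos M hM) hG.1, fun g => KH_expGrowth_smul hG M hM g⟩

/-! ### The Hecke representatives -/

theorem KH_det_heckeRep (ℓ : ℕ) (i : Option (Fin ℓ)) : (heckeRep ℓ i).det = (ℓ : ℤ) := by
  cases i <;> simp [heckeRep, Matrix.det_fin_two]

theorem KH_det_heckeRep_pos (ℓ : ℕ) [NeZero ℓ] (i : Option (Fin ℓ)) : 0 < (heckeRep ℓ i).det := by
  rw [KH_det_heckeRep]
  exact_mod_cast Nat.pos_of_ne_zero (NeZero.ne ℓ)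

/-- The Möbius action of the representative `heckeRep ℓ i` on `ℍ`. -/
def KH_act (ℓ : ℕ) [NeZero ℓ] (i : Option (Fin ℓ)) (τ : ℍ) : ℍ :=
  KH_glInt (heckeRep ℓ i) (KH_det_heckeRep_pos ℓ i) • τ

theorem KH_act_none_coe (ℓ : ℕ) [NeZero ℓ] (τ : ℍ) :
    (KH_act ℓ none τ : ℂ) = ((ℓ : ℂ) * τ + ((0 : ℤ) : ℂ)) / ((1 : ℕ) : ℂ) := by
  unfold KH_act
  rw [coe_smul_of_det_pos (KH_glInt_det_pos _ _)]
  simp [num, denom, KH_glInt_apply, heckeRep]

theorem KH_act_some_coe (ℓ : ℕ) [NeZero ℓ] (b : Fin ℓ) (τ : ℍ) :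
    (KH_act ℓ (some b) τ : ℂ) = (((1 : ℕ) : ℂ) * τ + (((b : ℕ) : ℤ) : ℂ)) / (ℓ : ℂ) := by
  unfold KH_act
  rw [coe_smul_of_det_pos (KH_glInt_det_pos _ _)]
  simp [num, denom, KH_glInt_apply, heckeRep]

/-- Equivariance: `αᵢ γ = δ αⱼ` on `ℍ`. -/
theorem KH_act_factor {ℓ : ℕ} [NeZero ℓ] {γ δ : G0 N} {i j : Option (Fin ℓ)}
    (h : IsHeckeFactor ℓ γ i (j, δ)) (τ : ℍ) :
    KH_act ℓ i ((γ : SL(2, ℤ)) • τ) = (δ : SL(2, ℤ)) • KH_act ℓ j τ := by
  unfold KH_act
  rw [← KH_glInt_SL_smul (γ : SL(2, ℤ)), ← KH_glInt_SL_smul (δ : SL(2, ℤ)), ← mul_smul,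
    ← mul_smul, ← KH_glInt_mul, ← KH_glInt_mul]
  congr 1
  exact KH_glInt_congr h _ _

theorem KH_comp_act_mem_growRing {G : ℍ → ℂ} (hG : G ∈ goodRing N) (ℓ : ℕ) [NeZero ℓ]
    (i : Option (Fin ℓ)) : (fun τ => G (KH_act ℓ i τ)) ∈ KH_growRing :=
  KH_comp_mem_growRing hG _ _

theorem KH_mdiff_comp_act {U : ℍ → ℂ} (hU : MDifferentiable 𝓘(ℂ) 𝓘(ℂ) U) (ℓ : ℕ) [NeZero ℓ]
    (i : Option (Fin ℓ)) : MDifferentiable 𝓘(ℂ) 𝓘(ℂ) (fun τ => U (KH_act ℓ i τ)) :=
  H624.mdiff_comp_smul (KH_glInt_det_pos _ _) hU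

/-- Products of holomorphic functions are holomorphic. -/
theorem KH_mdiff_prod {ι : Type*} (s : Finset ι) (F : ι → ℍ → ℂ)
    (hF : ∀ i ∈ s, MDifferentiable 𝓘(ℂ) 𝓘(ℂ) (F i)) :
    MDifferentiable 𝓘(ℂ) 𝓘(ℂ) (fun τ => ∏ i ∈ s, F i τ) := by
  classical
  induction s using Finset.induction_on with
  | empty => simpa using (mdifferentiable_const : MDifferentiable 𝓘(ℂ) 𝓘(ℂ) (fun _ : ℍ => (1 : ℂ)))
  | insert a s ha ih =>
    have h1 := hF a (Finset.mem_insert_self a s)
    have h2 := ih (fun i hi => hF i (Finset.mem_insert_of_mem hi))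
    have e : (fun τ => ∏ i ∈ insert a s, F i τ) = (F a) * (fun τ => ∏ i ∈ s, F i τ) := by
      funext τ
      rw [Finset.prod_insert ha]
      rfl
    rw [e]
    exact h1.mul h2

/-- **Goodness of the Hecke product**: if `G` is good of level `N` then so is
`τ ↦ ∏ᵢ G (αᵢ τ)`. -/
theorem KH_prod_mem_goodRing {ℓ : ℕ} [NeZero ℓ]
    (hfac : ∀ γ : G0 N, ∃ (pm : Equiv.Perm (Option (Fin ℓ))) (δ : Option (Fin ℓ) → G0 N),
      ∀ i, IsHeckeFactor ℓ γ i (pm i, δ i))
    {G : ℍ → ℂ} (hG : G ∈ goodRing N) :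
    (fun τ => ∏ i : Option (Fin ℓ), G (KH_act ℓ i τ)) ∈ goodRing N := by
  have hmem : (∏ i : Option (Fin ℓ), fun τ => G (KH_act ℓ i τ)) ∈ KH_growRing :=
    Subalgebra.prod_mem _ (fun i _ => KH_comp_act_mem_growRing hG ℓ i)
  have e : (∏ i : Option (Fin ℓ), fun τ => G (KH_act ℓ i τ))
      = fun τ => ∏ i : Option (Fin ℓ), G (KH_act ℓ i τ) := by
    funext τ
    rw [Finset.prod_apply]
  rw [e] at hmem
  refine ⟨hmem.1, fun γ hγ τ => ?_, hmem.2⟩
  obtain ⟨pm, δ, hpm⟩ := hfac ⟨γ, hγ⟩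
  have h1 : ∀ i, G (KH_act ℓ i (γ • τ)) = G (KH_act ℓ (pm i) τ) := by
    intro i
    have := KH_act_factor (hpm i) τ
    rw [show ((⟨γ, hγ⟩ : G0 N) : SL(2, ℤ)) = γ from rfl] at this
    rw [this]
    exact hG.2.1 _ (δ i).2 _
  show ∏ i : Option (Fin ℓ), G (KH_act ℓ i (γ • τ)) = ∏ i : Option (Fin ℓ), G (KH_act ℓ i τ)
  rw [Finset.prod_congr rfl (fun i _ => h1 i)]
  exact Equiv.prod_comp pm (fun j => G (KH_act ℓ j τ))

end Fermat.Agent.S29.H989

end

end
-- ===== PACK-END S29/H989/KHAct.lean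

-- ===== PACK-BEGIN S59/Unit3/H461/Unit3Fun.lean
section




/-!
# S59 / leaf UNIT-3 (p = 3 wall), part 2: the function `v = (η η₂ / (η₃ η₆))⁸` (helper461)

`vFun τ = η⁸(τ) η⁸(2τ) / (η⁸(3τ) η⁸(6τ))` is a good function of level `6`
(`S24.H648.goodRing 6`): holomorphic, `Γ₀(6)`-invariant, all translates of exponential growth.
Its cube is `Δ(τ) Δ(2τ) / (Δ(3τ) Δ(6τ))`.
-/

set_option autoImplicit false

noncomputable section

open Complex ModularForm CongruenceSubgroup
open UpperHalfPlane hiding I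
open scoped MatrixGroups Real Manifold

namespace Fermat.Agent.S59.Unit3.H461

open Fermat.Agent.S28.H589 (scaleH scaleH_coe unitFun unitFun')
open Fermat.Agent.S24.H648 (goodRing ExpGrowth)

local notation "Δ" => ModularForm.discriminant

/-! ## The conjugates `γ_d` -/

/-- For `γ = (a, b; d k, D)` the matrix `γ_d = (a, b d; k, D)`, so that `γ_d (d τ) = d (γ τ)`. -/
def gammaD (γ : SL(2, ℤ)) (d : ℕ) (k : ℤ) (hk : γ 1 0 = d * k) : SL(2, ℤ) :=
  ⟨!![γ 0 0, γ 0 1 * d; k, γ 1 1], by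
    rw [Matrix.det_fin_two_of]
    have hdet := γ.det_coe
    rw [Matrix.det_fin_two, hk] at hdet
    linear_combination hdet⟩

theorem gammaD_coe (γ : SL(2, ℤ)) (d : ℕ) (k : ℤ) (hk : γ 1 0 = d * k) :
    (↑(gammaD γ d k hk) : Matrix (Fin 2) (Fin 2) ℤ) = !![γ 0 0, γ 0 1 * d; k, γ 1 1] := rfl

theorem autJ_gammaD (γ : SL(2, ℤ)) (d : ℕ) (hd : 0 < d) (k : ℤ) (hk : γ 1 0 = d * k) (τ : ℍ) :
    autJ (gammaD γ d k hk) (scaleH d hd τ) = autJ γ τ := by
  rw [autJ, autJ, gammaD_coe, scaleH_coe, hk]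
  simp
  ring

theorem gammaD_smul (γ : SL(2, ℤ)) (d : ℕ) (hd : 0 < d) (k : ℤ) (hk : γ 1 0 = d * k) (τ : ℍ) :
    gammaD γ d k hk • scaleH d hd τ = scaleH d hd (γ • τ) := by
  apply UpperHalfPlane.ext
  have h1 := autJ_ne_zero γ τ
  have h2 := autJ_ne_zero (gammaD γ d k hk) (scaleH d hd τ)
  have h3 := autJ_gammaD γ d hd k hk τ
  rw [autJ] at h1 h2
  rw [autJ, autJ, gammaD_coe] at h3
  rw [gammaD_coe] at h2
  rw [scaleH_coe, UpperHalfPlane.coe_specialLinearGroup_apply γ τ,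
    UpperHalfPlane.coe_specialLinearGroup_apply (gammaD γ d k hk) _, gammaD_coe, scaleH_coe]
  simp only [algebraMap_int_eq, Int.coe_castRingHom, Complex.ofReal_intCast]
  simp only [scaleH_coe] at h2 h3
  simp at h2 h3 ⊢
  rw [h3] at h2 ⊢
  field_simp

theorem chi0_gammaD (γ : SL(2, ℤ)) (d : ℕ) (k : ℤ) (hk : γ 1 0 = d * k) :
    chi0 (gammaD γ d k hk) = chiF ((γ 0 0 : ℤ) : ZMod 3) (((γ 0 1 : ℤ) : ZMod 3) * (d : ZMod 3))
      ((k : ℤ) : ZMod 3) ((γ 1 1 : ℤ) : ZMod 3) := by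
  rw [chi0, gammaD_coe]
  simp

/-- The transformation law of `η⁸(d τ)` under `γ` with `d ∣ c`. -/
theorem eta8_scaleH_smul (γ : SL(2, ℤ)) (d : ℕ) (hd : 0 < d) (k : ℤ) (hk : γ 1 0 = d * k)
    (τ : ℍ) :
    eta8 (scaleH d hd (γ • τ)) =
      omegaPow (chi0 (gammaD γ d k hk)) * autJ γ τ ^ 4 * eta8 (scaleH d hd τ) := by
  rw [← gammaD_smul γ d hd k hk τ, eta8_smul, autJ_gammaD]

/-! ## The function `v` -/

/-- `v(τ) = η⁸(τ) η⁸(2τ) / (η⁸(3τ) η⁸(6τ))`. -/
def vFun (τ : ℍ) : ℂ :=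
  eta8 τ * eta8 (scaleH 2 (by norm_num) τ) * (eta8 (scaleH 3 (by norm_num) τ))⁻¹ *
    (eta8 (scaleH 6 (by norm_num) τ))⁻¹

theorem vFun_ne_zero (τ : ℍ) : vFun τ ≠ 0 := by
  unfold vFun
  exact mul_ne_zero (mul_ne_zero (mul_ne_zero (eta8_ne_zero _) (eta8_ne_zero _))
    (inv_ne_zero (eta8_ne_zero _))) (inv_ne_zero (eta8_ne_zero _))

theorem chiF_cancel : ∀ a b c D : ZMod 3,
    chiF a b (6 * c) D + chiF a (b * 2) (3 * c) D =
      chiF a (b * 3) (2 * c) D + chiF a (b * 6) c D := by decide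

theorem mem_Gamma0_six {γ : SL(2, ℤ)} (hγ : γ ∈ Gamma0 6) : ∃ c : ℤ, γ 1 0 = 6 * c := by
  rw [Gamma0_mem] at hγ
  exact (ZMod.intCast_zmod_eq_zero_iff_dvd _ _).mp hγ

/-- **`v` is `Γ₀(6)`-invariant.** -/
theorem vFun_smul (γ : SL(2, ℤ)) (hγ : γ ∈ Gamma0 6) (τ : ℍ) : vFun (γ • τ) = vFun τ := by
  obtain ⟨c, hc⟩ := mem_Gamma0_six hγ
  have hk2 : γ 1 0 = ((2 : ℕ) : ℤ) * (3 * c) := by rw [hc]; push_cast; ring
  have hk3 : γ 1 0 = ((3 : ℕ) : ℤ) * (2 * c) := by rw [hc]; push_cast; ring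
  have hk6 : γ 1 0 = ((6 : ℕ) : ℤ) * c := by rw [hc]; push_cast; ring
  have e1 := eta8_smul γ τ
  have e2 := eta8_scaleH_smul γ 2 (by norm_num) (3 * c) hk2 τ
  have e3 := eta8_scaleH_smul γ 3 (by norm_num) (2 * c) hk3 τ
  have e6 := eta8_scaleH_smul γ 6 (by norm_num) c hk6 τ
  have hJ : autJ γ τ ≠ 0 := autJ_ne_zero γ τ
  have hχ : chi0 γ + chi0 (gammaD γ 2 (3 * c) hk2) =
      chi0 (gammaD γ 3 (2 * c) hk3) + chi0 (gammaD γ 6 c hk6) := by
    rw [chi0_gammaD, chi0_gammaD, chi0_gammaD, chi0]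
    have h := chiF_cancel ((γ 0 0 : ℤ) : ZMod 3) ((γ 0 1 : ℤ) : ZMod 3) ((c : ℤ) : ZMod 3)
      ((γ 1 1 : ℤ) : ZMod 3)
    rw [hc]
    push_cast
    exact h
  have hω : omegaPow (chi0 γ) * omegaPow (chi0 (gammaD γ 2 (3 * c) hk2)) =
      omegaPow (chi0 (gammaD γ 3 (2 * c) hk3)) * omegaPow (chi0 (gammaD γ 6 c hk6)) := by
    rw [← omegaPow_add, ← omegaPow_add, hχ]
  have h3 := omegaPow_ne_zero (chi0 (gammaD γ 3 (2 * c) hk3))
  have h6 := omegaPow_ne_zero (chi0 (gammaD γ 6 c hk6))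
  have n3 := eta8_ne_zero (scaleH 3 (by norm_num) τ)
  have n6 := eta8_ne_zero (scaleH 6 (by norm_num) τ)
  unfold vFun
  rw [e1, e2, e3, e6]
  field_simp
  linear_combination (eta8 τ * eta8 (scaleH 2 (by norm_num) τ)) * hω

theorem scaleH_scaleH (a b : ℕ) (ha : 0 < a) (hb : 0 < b) (τ : ℍ) :
    scaleH a ha (scaleH b hb τ) = scaleH (a * b) (Nat.mul_pos ha hb) τ := by
  apply UpperHalfPlane.ext
  simp only [scaleH_coe]
  push_cast
  ring

/-- `v³ = Δ(τ) Δ(2τ) / (Δ(3τ) Δ(6τ))`. -/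
theorem vFun_pow_three (τ : ℍ) :
    vFun τ ^ 3 = unitFun' 3 (by norm_num) τ *
      unitFun' 3 (by norm_num) (scaleH 2 (by norm_num) τ) := by
  have h6 : scaleH 3 (by norm_num) (scaleH 2 (by norm_num) τ) = scaleH 6 (by norm_num) τ :=
    scaleH_scaleH 3 2 _ _ τ
  rw [unitFun', unitFun', h6, vFun, mul_pow, mul_pow, mul_pow, inv_pow, inv_pow,
    eta8_pow_three, eta8_pow_three, eta8_pow_three, eta8_pow_three]
  ring

/-- `v` is holomorphic. -/
theorem mdifferentiable_vFun : MDifferentiable 𝓘(ℂ) 𝓘(ℂ) vFun := by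
  have hs : ∀ (d : ℕ) (hd : 0 < d),
      MDifferentiable 𝓘(ℂ) 𝓘(ℂ) (fun τ : ℍ => eta8 (scaleH d hd τ)) := fun d hd =>
    Fermat.Agent.S24.H648.mdifferentiable_J_scale mdifferentiable_eta8 d hd (scaleH d hd)
      (fun τ => rfl)
  have h1 := mdifferentiable_eta8.mul (hs 2 (by norm_num))
  have h2 := h1.div (hs 3 (by norm_num)) (fun τ => eta8_ne_zero _)
  have h3 := h2.div (hs 6 (by norm_num)) (fun τ => eta8_ne_zero _)
  have he : vFun = ((eta8 * fun τ : ℍ => eta8 (scaleH 2 (by norm_num) τ)) /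
      fun τ : ℍ => eta8 (scaleH 3 (by norm_num) τ)) /
      fun τ : ℍ => eta8 (scaleH 6 (by norm_num) τ) := by
    funext τ
    simp [vFun, div_eq_mul_inv]
  rw [he]
  exact h3

/-! ## Growth -/

/-- If `U ^ 3` has at most exponential growth, so has `U`. -/
theorem expGrowth_of_cube {U : ℍ → ℂ} (h : ExpGrowth (fun τ => U τ ^ 3)) : ExpGrowth U := by
  obtain ⟨C, m, hC⟩ := h
  refine ⟨1 + |C|, m, fun τ hτ => ?_⟩
  have h1 := hC τ hτ
  rw [norm_pow] at h1
  have hexp : (1 : ℝ) ≤ Real.exp (2 * Real.pi * m * τ.im) := by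
    apply Real.one_le_exp
    have := Real.pi_pos
    have := τ.im_pos
    positivity
  by_cases hle : ‖U τ‖ ≤ 1
  · calc ‖U τ‖ ≤ 1 := hle
      _ ≤ (1 + |C|) * 1 := by have := abs_nonneg C; linarith
      _ ≤ (1 + |C|) * Real.exp (2 * Real.pi * m * τ.im) := by
          apply mul_le_mul_of_nonneg_left hexp
          have := abs_nonneg C; linarith
  · have hgt : 1 ≤ ‖U τ‖ := (not_le.mp hle).le
    have h2 : ‖U τ‖ ≤ ‖U τ‖ ^ 3 := le_self_pow₀ hgt (by norm_num)
    calc ‖U τ‖ ≤ ‖U τ‖ ^ 3 := h2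
      _ ≤ C * Real.exp (2 * Real.pi * m * τ.im) := h1
      _ ≤ (1 + |C|) * Real.exp (2 * Real.pi * m * τ.im) := by
          apply mul_le_mul_of_nonneg_right _ (Real.exp_pos _).le
          have := le_abs_self C; linarith

/-- The integer matrix `(0, -1; d, 0)` of `τ ↦ -1/(d τ)`. -/
def frickeMat (d : ℕ) : Matrix (Fin 2) (Fin 2) ℤ := !![0, -1; (d : ℤ), 0]

theorem frickeMat_det (d : ℕ) : (frickeMat d).det = (d : ℤ) := by
  simp [frickeMat, Matrix.det_fin_two_of]

theorem frickeMat_det_pos (d : ℕ) (hd : 0 < d) : 0 < (frickeMat d).det := by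
  rw [frickeMat_det]
  exact_mod_cast hd

theorem frickeMat_smul (d : ℕ) (hd : 0 < d) (τ : ℍ) :
    Fermat.Agent.S29.H989.KH_glInt (frickeMat d) (frickeMat_det_pos d hd) • τ =
      ModularGroup.S • scaleH d hd τ := by
  apply UpperHalfPlane.ext
  rw [coe_smul_of_det_pos (Fermat.Agent.S29.H989.KH_glInt_det_pos _ _), coe_S_smul, scaleH_coe]
  simp [num, denom, Fermat.Agent.S29.H989.KH_glInt_apply, frickeMat]

theorem unitFun'_eq (p : ℕ) (hp : 0 < p) (τ : ℍ) :
    unitFun' p hp τ = unitFun p hp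
      (Fermat.Agent.S29.H989.KH_glInt (frickeMat p) (frickeMat_det_pos p hp) • τ) := by
  rw [frickeMat_smul p hp, Fermat.Agent.S28.H589.unitFun_S_scaleH]

/-- `unitFun' 3 (d τ) = unitFun 3 (-1/(3 d τ))`. -/
theorem unitFun'_scaleH_eq (p d : ℕ) (hp : 0 < p) (hd : 0 < d) (τ : ℍ) :
    unitFun' p hp (scaleH d hd τ) = unitFun p hp
      (ModularGroup.S • scaleH (p * d) (Nat.mul_pos hp hd) τ) := by
  rw [← scaleH_scaleH p d hp hd τ, Fermat.Agent.S28.H589.unitFun_S_scaleH]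

/-- All translates of `v` have at most exponential growth. -/
theorem expGrowth_vFun_smul (g : SL(2, ℤ)) : ExpGrowth (fun τ => vFun (g • τ)) := by
  apply expGrowth_of_cube
  have hG : unitFun 3 (by norm_num) ∈ goodRing 3 :=
    Fermat.Agent.S28.H589.unitFun_mem_goodRing 3 (by norm_num)
  have h1 := Fermat.Agent.S29.H989.KH_expGrowth_smul hG (frickeMat 3)
    (frickeMat_det_pos 3 (by norm_num)) g
  have h2 := Fermat.Agent.S29.H989.KH_expGrowth_smul hG (frickeMat 6)
    (frickeMat_det_pos 6 (by norm_num)) g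
  have h := h1.mul h2
  have e : (fun τ => vFun (g • τ) ^ 3) =
      (fun τ => unitFun 3 (by norm_num)
        (Fermat.Agent.S29.H989.KH_glInt (frickeMat 3) (frickeMat_det_pos 3 (by norm_num)) •
          (g • τ))) *
      (fun τ => unitFun 3 (by norm_num)
        (Fermat.Agent.S29.H989.KH_glInt (frickeMat 6) (frickeMat_det_pos 6 (by norm_num)) •
          (g • τ))) := by
    funext τ
    rw [Pi.mul_apply, vFun_pow_three, unitFun'_eq, frickeMat_smul 6 (by norm_num),
      unitFun'_scaleH_eq 3 2 (by norm_num) (by norm_num)]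
  rw [e]
  exact h

/-- **`v` is a good function of level `6`.** -/
theorem vFun_mem_goodRing : vFun ∈ goodRing 6 :=
  ⟨mdifferentiable_vFun, fun γ hγ τ => vFun_smul γ hγ τ, fun g => expGrowth_vFun_smul g⟩

end Fermat.Agent.S59.Unit3.H461

end
end
-- ===== PACK-END S59/Unit3/H461/Unit3Fun.lean

-- ===== PACK-BEGIN S59/Unit3/H461/Unit3Exp.lean
section





/-!
# S59 / leaf UNIT-3 (p = 3 wall), part 3: the `q`-expansion of `v` and the function field
(helper461)

`v3L = t⁻² ∏ₙ ((1 - tⁿ)(1 - t²ⁿ) / ((1 - t³ⁿ)(1 - t⁶ⁿ)))⁸ ∈ ℤ((t))` is the `q`-expansion of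
`vFun`; hence (MERO, helper882) it lies in the function field of `X₀(6)` over `ℂ`, and (descent)
over every field `K ⊆ ℂ`.
-/

set_option autoImplicit false

noncomputable section

open Complex ModularForm CongruenceSubgroup ModularCurve HahnSeries
open UpperHalfPlane hiding I
open scoped MatrixGroups Real Manifold

namespace Fermat.Agent.S59.Unit3.H461

open Fermat.Agent.S28.H589 (scaleH scaleH_coe unitFun unitFun' hasTExp_comp_scaleH iotaC)
open Fermat.Agent.S28.H565 (HasTExp HasPExp eulerFun etaProdC etaInvC hasPExp_eulerFun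
  hasPExp_eulerFun_pow_inv eulerFun_ne_zero etaProdC_pow_mul_etaInvC)
open Fermat.Agent.S24.H648 (goodRing ExpGrowth)

local notation "𝕢" => Function.Periodic.qParam

/-! ## The formal series -/

/-- The formal inverse of `∏ (1 - tⁿ)`. -/
def etaInvP : PowerSeries ℤ := dedekindEtaUnitInv * etaProd ^ 23

theorem etaProd_mul_etaInvP : etaProd * etaInvP = 1 := by
  rw [etaInvP]
  calc etaProd * (dedekindEtaUnitInv * etaProd ^ 23)
      = etaProd ^ 24 * dedekindEtaUnitInv := by ring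
    _ = 1 := dedekindEtaUnit_mul_inv

/-- `∏ (1 - tⁿ)⁸`. -/
def e8L : LaurentSeries ℤ := HahnSeries.ofPowerSeries ℤ ℤ (etaProd ^ 8)

/-- `∏ (1 - tⁿ)⁻⁸`. -/
def e8InvL : LaurentSeries ℤ := HahnSeries.ofPowerSeries ℤ ℤ (etaInvP ^ 8)

theorem e8L_mul_e8InvL : e8L * e8InvL = 1 := by
  rw [e8L, e8InvL, ← map_mul, ← mul_pow, etaProd_mul_etaInvP, one_pow, map_one]

/-- **The unit of level `6`**:
`v = t⁻² ∏ₙ ((1 - tⁿ)(1 - t²ⁿ) / ((1 - t³ⁿ)(1 - t⁶ⁿ)))⁸`. -/
def v3L : LaurentSeries ℤ :=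
  HahnSeries.single (-2 : ℤ) (1 : ℤ) * e8L * qExpand ℤ 2 e8L * qExpand ℤ 3 e8InvL *
    qExpand ℤ 6 e8InvL

/-- Its inverse `t² ∏ₙ ((1 - t³ⁿ)(1 - t⁶ⁿ) / ((1 - tⁿ)(1 - t²ⁿ)))⁸`. -/
def v3InvL : LaurentSeries ℤ :=
  HahnSeries.single (2 : ℤ) (1 : ℤ) * e8InvL * qExpand ℤ 2 e8InvL * qExpand ℤ 3 e8L *
    qExpand ℤ 6 e8L

theorem v3L_mul_v3InvL : v3L * v3InvL = 1 := by
  have h1 : HahnSeries.single (-2 : ℤ) (1 : ℤ) * HahnSeries.single (2 : ℤ) (1 : ℤ) = 1 := by
    rw [HahnSeries.single_mul_single]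
    simp
  have h2 : qExpand ℤ 2 e8L * qExpand ℤ 2 e8InvL = 1 := by
    rw [← map_mul, e8L_mul_e8InvL, map_one]
  have h3 : qExpand ℤ 3 e8InvL * qExpand ℤ 3 e8L = 1 := by
    rw [← map_mul, mul_comm, e8L_mul_e8InvL, map_one]
  have h6 : qExpand ℤ 6 e8InvL * qExpand ℤ 6 e8L = 1 := by
    rw [← map_mul, mul_comm, e8L_mul_e8InvL, map_one]
  rw [v3L, v3InvL]
  calc HahnSeries.single (-2 : ℤ) (1 : ℤ) * e8L * qExpand ℤ 2 e8L * qExpand ℤ 3 e8InvL *
        qExpand ℤ 6 e8InvL *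
        (HahnSeries.single (2 : ℤ) (1 : ℤ) * e8InvL * qExpand ℤ 2 e8InvL * qExpand ℤ 3 e8L *
          qExpand ℤ 6 e8L)
      = (HahnSeries.single (-2 : ℤ) (1 : ℤ) * HahnSeries.single (2 : ℤ) (1 : ℤ)) *
          (e8L * e8InvL) * (qExpand ℤ 2 e8L * qExpand ℤ 2 e8InvL) *
          (qExpand ℤ 3 e8InvL * qExpand ℤ 3 e8L) * (qExpand ℤ 6 e8InvL * qExpand ℤ 6 e8L) := by
        ring
    _ = 1 := by rw [h1, e8L_mul_e8InvL, h2, h3, h6]; simp

/-! ## The analytic expansion -/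

/-- The Euler function of `τ`. -/
def eulerT (τ : ℍ) : ℂ := eulerFun (𝕢 1 (τ : ℂ))

theorem eulerT_ne_zero (τ : ℍ) : eulerT τ ≠ 0 :=
  eulerFun_ne_zero (Function.Periodic.norm_qParam_lt_one one_pos τ.im_pos)

theorem eta_eq_eulerT (τ : ℍ) : η (τ : ℂ) = 𝕢 24 (τ : ℂ) * eulerT τ := rfl

theorem eta8_eq (τ : ℍ) : eta8 τ = cexp (2 * π * I * (τ : ℂ) / 3) * eulerT τ ^ 8 := by
  rw [eta8, eta_eq_eulerT, mul_pow]
  congr 1
  simp only [Function.Periodic.qParam]
  rw [← Complex.exp_nat_mul]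
  congr 1
  push_cast
  ring

theorem cexp_scale (d : ℕ) (hd : 0 < d) (τ : ℍ) :
    cexp (2 * π * I * ((scaleH d hd τ : ℍ) : ℂ) / 3) = cexp (2 * π * I * (τ : ℂ) / 3) ^ d := by
  rw [scaleH_coe, ← Complex.exp_nat_mul]
  congr 1
  ring

theorem qParam_eq_cube (τ : ℍ) : 𝕢 1 (τ : ℂ) = cexp (2 * π * I * (τ : ℂ) / 3) ^ 3 := by
  simp only [Function.Periodic.qParam]
  rw [← Complex.exp_nat_mul]
  congr 1
  push_cast
  ring

/-- `v` in terms of the Euler function. -/
theorem vFun_eq (τ : ℍ) :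
    vFun τ = 𝕢 1 (τ : ℂ) ^ (-2 : ℤ) * eulerT τ ^ 8 * eulerT (scaleH 2 (by norm_num) τ) ^ 8 *
      ((eulerT (scaleH 3 (by norm_num) τ) ^ 24)⁻¹ * eulerT (scaleH 3 (by norm_num) τ) ^ 23) ^ 8 *
      ((eulerT (scaleH 6 (by norm_num) τ) ^ 24)⁻¹ * eulerT (scaleH 6 (by norm_num) τ) ^ 23) ^ 8 := by
  have hx : cexp (2 * π * I * (τ : ℂ) / 3) ≠ 0 := Complex.exp_ne_zero _
  have h3 := eulerT_ne_zero (scaleH 3 (by norm_num) τ)
  have h6 := eulerT_ne_zero (scaleH 6 (by norm_num) τ)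
  rw [vFun, eta8_eq, eta8_eq, eta8_eq, eta8_eq, cexp_scale, cexp_scale, cexp_scale,
    qParam_eq_cube, zpow_neg]
  generalize cexp (2 * π * I * (τ : ℂ) / 3) = x at hx ⊢
  field_simp

theorem hasTExp_eulerT_pow : HasTExp 1 (fun τ : ℍ => eulerT τ ^ 8)
    (HahnSeries.ofPowerSeries ℤ ℂ (etaProdC ^ 8)) :=
  (((hasPExp_eulerFun one_pos).pow 8).hasTExp).congr fun _ => rfl

/-- The formal inverse of `etaProdC`. -/
def etaInvPC : PowerSeries ℂ := etaInvC * etaProdC ^ 23

theorem hasTExp_eulerT_inv_pow :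
    HasTExp 1 (fun τ : ℍ => ((eulerT τ ^ 24)⁻¹ * eulerT τ ^ 23) ^ 8)
      (HahnSeries.ofPowerSeries ℤ ℂ (etaInvPC ^ 8)) :=
  (((((hasPExp_eulerFun_pow_inv one_pos).mul ((hasPExp_eulerFun one_pos).pow 23)).pow 8)).hasTExp
    ).congr fun _ => rfl

/-- The series of `v` over `ℂ`, in product form. -/
def v3C : LaurentSeries ℂ :=
  HahnSeries.single (-2 : ℤ) (1 : ℂ) * HahnSeries.ofPowerSeries ℤ ℂ (etaProdC ^ 8) *
    qExpand ℂ 2 (HahnSeries.ofPowerSeries ℤ ℂ (etaProdC ^ 8)) *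
    qExpand ℂ 3 (HahnSeries.ofPowerSeries ℤ ℂ (etaInvPC ^ 8)) *
    qExpand ℂ 6 (HahnSeries.ofPowerSeries ℤ ℂ (etaInvPC ^ 8))

/-- **The `q`-expansion of `v`.** -/
theorem hasTExp_vFun : HasTExp 1 vFun v3C := by
  have hs := HasTExp.single (h := 1) (-2)
  have h1 := hasTExp_eulerT_pow
  have h2 := hasTExp_comp_scaleH 2 (by norm_num) hasTExp_eulerT_pow
  have h3 := hasTExp_comp_scaleH 3 (by norm_num) hasTExp_eulerT_inv_pow
  have h6 := hasTExp_comp_scaleH 6 (by norm_num) hasTExp_eulerT_inv_pow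
  have h := (((hs.mul h1).mul h2).mul h3).mul h6
  rw [v3C]
  refine h.congr fun τ => ?_
  rw [vFun_eq]
  rfl

theorem iotaC_v3L : iotaC v3L = v3C := by
  have hE : PowerSeries.map (Int.castRingHom ℂ) etaInvP = etaInvPC := by
    rw [etaInvP, etaInvPC, map_mul, map_pow]
    rfl
  have h8 : iotaC e8L = HahnSeries.ofPowerSeries ℤ ℂ (etaProdC ^ 8) := by
    rw [e8L, iotaC, coeffMap_ofPowerSeries, map_pow]
    rfl
  have h8i : iotaC e8InvL = HahnSeries.ofPowerSeries ℤ ℂ (etaInvPC ^ 8) := by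
    rw [e8InvL, iotaC, coeffMap_ofPowerSeries, map_pow, hE]
  have hq : ∀ (d : ℕ) [NeZero d] (x : LaurentSeries ℤ),
      iotaC (qExpand ℤ d x) = qExpand ℂ d (iotaC x) := by
    intro d _ x
    rw [iotaC, coeffMap_qExpand]
  rw [v3L, v3C, map_mul, map_mul, map_mul, map_mul, hq, hq, hq, h8, h8i]
  congr 4
  rw [iotaC, coeffMap_single]
  simp

/-- **`v` lies in the function field of `X₀(6)` over `ℂ`.** -/
theorem iotaC_v3L_mem : iotaC v3L ∈ laurentBaseChange ℂ (modularFunctionFieldFull 6) := by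
  rw [iotaC_v3L]
  refine Fermat.Agent.S29.H882.mem_FC_of_hasQExp vFun_mem_goodRing ?_
  refine Fermat.Agent.S24.H708.HasQExp.of_hasSum mdifferentiable_vFun ?_
  intro τ
  have h := hasTExp_vFun τ
  simpa [Fermat.Agent.S24.H708.qh] using h

/-- **`v` lies in the function field of `X₀(6)` over every field with an embedding into `ℂ`.** -/
theorem v3L_mem_of_embedding {K : Type*} [Field K] [Algebra ℚ K] (ι : K →+* ℂ) :
    coeffMap (Int.castRingHom K) v3L ∈ laurentBaseChange K (modularFunctionFieldFull 6) := by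
  refine Fermat.Agent.S29.H882.mem_laurentBaseChange_of_coeffMap_mem ι
    (modularFunctionFieldFull 6) ?_
  rw [coeffMap_coeffMap]
  have e : ι.comp (Int.castRingHom K) = Int.castRingHom ℂ := RingHom.ext_int _ _
  rw [coeffMap_congr e]
  exact iotaC_v3L_mem

end Fermat.Agent.S59.Unit3.H461

end
end
-- ===== PACK-END S59/Unit3/H461/Unit3Exp.lean

-- ===== PACK-BEGIN S59/UnitQR/H464/QRFun.lean
section


/-!
# S59 / cell B1 (WALL-q at `p = 3`), leaf UNIT-QR, part 1: the function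
`v = (η(τ) η(rτ) / (η(qτ) η(qrτ)))⁸`  (helper464; generic twin of helper461's `Unit3Fun`)

For `q, r ≥ 1` prime to `3` with `3 ∣ (q - 1)(r + 1)` (i.e. `q ≡ 1 mod 3` or `r ≡ 2 mod 3`),
`vQR q r τ = η⁸(τ) η⁸(rτ) / (η⁸(qτ) η⁸(qrτ))` is a good function of level `q r`
(`S24.H648.goodRing (q * r)`): holomorphic, `Γ₀(q r)`-invariant, all translates of exponential
growth.  Its cube is `Δ(τ) Δ(rτ) / (Δ(qτ) Δ(qrτ))`.  Its slope at `q` is `8`, prime to `3`.
-/

set_option autoImplicit false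

noncomputable section

open Complex ModularForm CongruenceSubgroup
open UpperHalfPlane hiding I
open scoped MatrixGroups Real Manifold

namespace Fermat.Agent.S59.UnitQR.H464

open Fermat.Agent.S28.H589 (scaleH scaleH_coe unitFun unitFun')
open Fermat.Agent.S24.H648 (goodRing ExpGrowth)
open Fermat.Agent.S59.Unit3.H461

local notation "Δ" => ModularForm.discriminant

/-- The pair `(q, r)` is admissible for the coefficient prime `3`: both are prime to `3` and
`3 ∣ (q - 1)(r + 1)`. -/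
structure QRAdm (q r : ℕ) : Prop where
  q_ne : (q : ZMod 3) ≠ 0
  r_ne : (r : ZMod 3) ≠ 0
  rel : ((q : ZMod 3) - 1) * ((r : ZMod 3) + 1) = 0

theorem QRAdm.of_r {q r : ℕ} (hq : ¬ 3 ∣ q) (hr : r % 3 = 2) : QRAdm q r := by
  refine ⟨?_, ?_, ?_⟩
  · rwa [Ne, ZMod.natCast_eq_zero_iff]
  · rw [Ne, ZMod.natCast_eq_zero_iff]
    omega
  · have h : ((r : ZMod 3) + 1) = 0 := by
      have h1 : ((r + 1 : ℕ) : ZMod 3) = 0 := by
        rw [ZMod.natCast_eq_zero_iff]
        omega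
      exact_mod_cast h1
    rw [h, mul_zero]

theorem QRAdm.of_q {q r : ℕ} (hq : q % 3 = 1) (hr : ¬ 3 ∣ r) : QRAdm q r := by
  refine ⟨?_, ?_, ?_⟩
  · rw [Ne, ZMod.natCast_eq_zero_iff]
    omega
  · rwa [Ne, ZMod.natCast_eq_zero_iff]
  · have h : ((q : ZMod 3) - 1) = 0 := by
      have h1 : ((q : ℕ) : ZMod 3) = ((1 : ℕ) : ZMod 3) := by
        rw [ZMod.natCast_eq_natCast_iff]
        exact hq
      rw [h1]
      simp
    rw [h, zero_mul]

/-! ## The function `v` -/

/-- `v(τ) = η⁸(τ) η⁸(rτ) / (η⁸(qτ) η⁸(qrτ))`. -/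
def vQR (q r : ℕ) (hq : 0 < q) (hr : 0 < r) (τ : ℍ) : ℂ :=
  eta8 τ * eta8 (scaleH r hr τ) * (eta8 (scaleH q hq τ))⁻¹ *
    (eta8 (scaleH (q * r) (Nat.mul_pos hq hr) τ))⁻¹

theorem vQR_ne_zero (q r : ℕ) (hq : 0 < q) (hr : 0 < r) (τ : ℍ) : vQR q r hq hr τ ≠ 0 := by
  unfold vQR
  exact mul_ne_zero (mul_ne_zero (mul_ne_zero (eta8_ne_zero _) (eta8_ne_zero _))
    (inv_ne_zero (eta8_ne_zero _))) (inv_ne_zero (eta8_ne_zero _))

/-- The cancellation of the four multipliers. -/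
theorem chiF_cancel_qr : ∀ a b c d Q R : ZMod 3, Q ≠ 0 → R ≠ 0 → (Q - 1) * (R + 1) = 0 →
    chiF a b (Q * R * c) d + chiF a (b * R) (Q * c) d =
      chiF a (b * Q) (R * c) d + chiF a (b * (Q * R)) c d := by decide

theorem mem_Gamma0_mul {q r : ℕ} {γ : SL(2, ℤ)} (hγ : γ ∈ Gamma0 (q * r)) :
    ∃ c : ℤ, γ 1 0 = (q : ℤ) * (r : ℤ) * c := by
  rw [Gamma0_mem] at hγ
  obtain ⟨c, hc⟩ := (ZMod.intCast_zmod_eq_zero_iff_dvd _ _).mp hγ
  exact ⟨c, by rw [hc]; push_cast; ring⟩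

/-- **`v` is `Γ₀(q r)`-invariant.** -/
theorem vQR_smul {q r : ℕ} (hq : 0 < q) (hr : 0 < r) (h : QRAdm q r)
    (γ : SL(2, ℤ)) (hγ : γ ∈ Gamma0 (q * r)) (τ : ℍ) :
    vQR q r hq hr (γ • τ) = vQR q r hq hr τ := by
  obtain ⟨c, hc⟩ := mem_Gamma0_mul hγ
  have hkr : γ 1 0 = ((r : ℕ) : ℤ) * ((q : ℤ) * c) := by rw [hc]; ring
  have hkq : γ 1 0 = ((q : ℕ) : ℤ) * ((r : ℤ) * c) := by rw [hc]; ring
  have hkqr : γ 1 0 = ((q * r : ℕ) : ℤ) * c := by rw [hc]; push_cast; ring
  have e1 := eta8_smul γ τ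
  have er := eta8_scaleH_smul γ r hr ((q : ℤ) * c) hkr τ
  have eq := eta8_scaleH_smul γ q hq ((r : ℤ) * c) hkq τ
  have eqr := eta8_scaleH_smul γ (q * r) (Nat.mul_pos hq hr) c hkqr τ
  have hJ : autJ γ τ ≠ 0 := autJ_ne_zero γ τ
  have hχ : chi0 γ + chi0 (gammaD γ r ((q : ℤ) * c) hkr) =
      chi0 (gammaD γ q ((r : ℤ) * c) hkq) + chi0 (gammaD γ (q * r) c hkqr) := by
    rw [chi0_gammaD, chi0_gammaD, chi0_gammaD, chi0]
    have h' := chiF_cancel_qr ((γ 0 0 : ℤ) : ZMod 3) ((γ 0 1 : ℤ) : ZMod 3) ((c : ℤ) : ZMod 3)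
      ((γ 1 1 : ℤ) : ZMod 3) (q : ZMod 3) (r : ZMod 3) h.q_ne h.r_ne h.rel
    rw [hc]
    push_cast
    exact h'
  have hω : omegaPow (chi0 γ) * omegaPow (chi0 (gammaD γ r ((q : ℤ) * c) hkr)) =
      omegaPow (chi0 (gammaD γ q ((r : ℤ) * c) hkq)) *
        omegaPow (chi0 (gammaD γ (q * r) c hkqr)) := by
    rw [← omegaPow_add, ← omegaPow_add, hχ]
  have h3 := omegaPow_ne_zero (chi0 (gammaD γ q ((r : ℤ) * c) hkq))
  have h6 := omegaPow_ne_zero (chi0 (gammaD γ (q * r) c hkqr))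
  have n3 := eta8_ne_zero (scaleH q hq τ)
  have n6 := eta8_ne_zero (scaleH (q * r) (Nat.mul_pos hq hr) τ)
  unfold vQR
  rw [e1, er, eq, eqr]
  field_simp
  linear_combination (eta8 τ * eta8 (scaleH r hr τ)) * hω

/-- `v³ = Δ(τ) Δ(rτ) / (Δ(qτ) Δ(qrτ))`. -/
theorem vQR_pow_three (q r : ℕ) (hq : 0 < q) (hr : 0 < r) (τ : ℍ) :
    vQR q r hq hr τ ^ 3 = unitFun' q hq τ * unitFun' q hq (scaleH r hr τ) := by
  have h6 : scaleH q hq (scaleH r hr τ) = scaleH (q * r) (Nat.mul_pos hq hr) τ :=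
    scaleH_scaleH q r _ _ τ
  rw [unitFun', unitFun', h6, vQR, mul_pow, mul_pow, mul_pow, inv_pow, inv_pow,
    eta8_pow_three, eta8_pow_three, eta8_pow_three, eta8_pow_three]
  ring

/-- `v` is holomorphic. -/
theorem mdifferentiable_vQR (q r : ℕ) (hq : 0 < q) (hr : 0 < r) :
    MDifferentiable 𝓘(ℂ) 𝓘(ℂ) (vQR q r hq hr) := by
  have hs : ∀ (d : ℕ) (hd : 0 < d),
      MDifferentiable 𝓘(ℂ) 𝓘(ℂ) (fun τ : ℍ => eta8 (scaleH d hd τ)) := fun d hd =>
    Fermat.Agent.S24.H648.mdifferentiable_J_scale mdifferentiable_eta8 d hd (scaleH d hd)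
      (fun τ => rfl)
  have h1 := mdifferentiable_eta8.mul (hs r hr)
  have h2 := h1.div (hs q hq) (fun τ => eta8_ne_zero _)
  have h3 := h2.div (hs (q * r) (Nat.mul_pos hq hr)) (fun τ => eta8_ne_zero _)
  have he : vQR q r hq hr = ((eta8 * fun τ : ℍ => eta8 (scaleH r hr τ)) /
      fun τ : ℍ => eta8 (scaleH q hq τ)) /
      fun τ : ℍ => eta8 (scaleH (q * r) (Nat.mul_pos hq hr) τ) := by
    funext τ
    simp [vQR, div_eq_mul_inv]
  rw [he]
  exact h3

/-- All translates of `v` have at most exponential growth. -/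
theorem expGrowth_vQR_smul (q r : ℕ) (hq : 0 < q) (hr : 0 < r) (g : SL(2, ℤ)) :
    ExpGrowth (fun τ => vQR q r hq hr (g • τ)) := by
  apply expGrowth_of_cube
  have hqr : 0 < q * r := Nat.mul_pos hq hr
  haveI : NeZero q := ⟨hq.ne'⟩
  have hG : unitFun q hq ∈ goodRing q :=
    Fermat.Agent.S28.H589.unitFun_mem_goodRing q hq
  have h1 := Fermat.Agent.S29.H989.KH_expGrowth_smul hG (frickeMat q)
    (frickeMat_det_pos q hq) g
  have h2 := Fermat.Agent.S29.H989.KH_expGrowth_smul hG (frickeMat (q * r))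
    (frickeMat_det_pos (q * r) hqr) g
  have h := h1.mul h2
  have e : (fun τ => vQR q r hq hr (g • τ) ^ 3) =
      (fun τ => unitFun q hq
        (Fermat.Agent.S29.H989.KH_glInt (frickeMat q) (frickeMat_det_pos q hq) •
          (g • τ))) *
      (fun τ => unitFun q hq
        (Fermat.Agent.S29.H989.KH_glInt (frickeMat (q * r)) (frickeMat_det_pos (q * r) hqr) •
          (g • τ))) := by
    funext τ
    rw [Pi.mul_apply, vQR_pow_three, unitFun'_eq, frickeMat_smul (q * r) hqr,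
      unitFun'_scaleH_eq q r hq hr]
  rw [e]
  exact h

/-- **`v` is a good function of level `q r`.** -/
theorem vQR_mem_goodRing {q r : ℕ} (hq : 0 < q) (hr : 0 < r) (h : QRAdm q r) :
    vQR q r hq hr ∈ goodRing (q * r) :=
  ⟨mdifferentiable_vQR q r hq hr, fun γ hγ τ => vQR_smul hq hr h γ hγ τ,
    fun g => expGrowth_vQR_smul q r hq hr g⟩

end Fermat.Agent.S59.UnitQR.H464

end
end
-- ===== PACK-END S59/UnitQR/H464/QRFun.lean

-- ===== PACK-BEGIN Ribet/H883/R3.lean
section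
/-
RIBET row, piece R3 (helper883, primary liaison): "an eigensystem occurring in `J₀(M)[p]` is the
reduction of a normalized eigenform of level `M`".

`eigenformOfOccurs_of` proves the statement `EigenformOfOccursStatement'` (= the Spec statement
`Spec.EigenformOfOccursStatement` with the congruence asserted for the primes `ℓ ∉ S`, `ℓ ∤ M p`)
from three inputs of other rows:
* `S30.H450.KumPackage M p`     (Kummer dictionary, S29/S30 rows, M4b pieces),
* `KumOntoStatement M p`        (strong ONTO: every `p`-torsion class is a Kummer class of a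
                                  PARABOLIC character; S30 row, helper270/helper109/helper810),
* `ParLiftStatement M p`        (HFree / LIFT: parabolic characters mod `p` lift to `ℤ`;
                                  helper412, S41 block LIFT helper221),
everything else being on main (S21, S29/H642 `periodMap_heckeTLin`, S41/H401 Deligne–Serre,
Lib/Newform/H863 extraction).
-/




set_option autoImplicit false

noncomputable section

namespace Fermat.Agent.Ribet.H883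

open CongruenceSubgroup ModularCurve ModularCurve.Period ModularFormClass
open Fermat.Agent.S29 Fermat.Agent.S29.M4b Fermat.Agent.S30.H450
open scoped MatrixGroups

/-! ### Interface statements -/

/-- (ONTO, strong form) every `p`-torsion class of `J₀(M)(ℚ̄)` is the Kummer class of a
parabolic character `Γ₀(M) → ℤ/p`. -/
def KumOntoStatement (M p : ℕ) [NeZero M] : Prop :=
  ∀ x : JZero M, (p : ℤ) • x = 0 → ∃ c : G0 M → ZMod p, IsParHom c ∧ IsKum M p c x

/-- (HFree / LIFT) every parabolic character mod `p` lifts to an integral parabolic character. -/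
def ParLiftStatement (M p : ℕ) : Prop :=
  ∀ c : G0 M → ZMod p, IsParHom c →
    ∃ c' : G0 M → ℤ, IsParHom c' ∧ ∀ γ : G0 M, ((c' γ : ℤ) : ZMod p) = c γ

/-- R3 with the congruence restricted to the primes not dividing `M p`
(the Kummer dictionary is Hecke-equivariant only at those primes). -/
def EigenformOfOccursStatement' : Prop :=
  ∀ (M p : ℕ) [NeZero M], p.Prime → ∀ (S : Finset ℕ) (a : ℕ → ℤ), Spec.OccursIn M p S a →
    ∃ (g : CuspForm (CongruenceSubgroup.Gamma0 M) 2) (𝔪 : Ideal (integralClosure ℤ ℂ)),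
      g.IsNormalizedEigenform ∧ 𝔪.IsMaximal ∧ (p : integralClosure ℤ ℂ) ∈ 𝔪 ∧
      ∀ ℓ : ℕ, ℓ.Prime → ℓ ∉ S → ¬ ℓ ∣ M * p →
        ∃ b : integralClosure ℤ ℂ, (b : ℂ) = qCoeff g ℓ ∧
          b - ((a ℓ : ℤ) : integralClosure ℤ ℂ) ∈ 𝔪

/-! ### Consequences of the Kummer package -/

section package

variable {M p : ℕ} [NeZero M]

theorem isParHom_zero_h883 {A : Type*} [AddCommGroup A] : IsParHom (0 : G0 M → A) :=
  ⟨fun _ _ => by simp, fun _ _ => rfl, fun _ _ _ _ => rfl⟩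

theorem isKum_zero_h883 (H : KumPackage M p) : IsKum M p (0 : G0 M → ZMod p) 0 := by
  obtain ⟨x₀, hx₀⟩ := H.ex 0 isParHom_zero_h883
  have h2 := H.add 0 0 x₀ x₀ hx₀ hx₀
  rw [add_zero] at h2
  have h3 : x₀ + x₀ = x₀ := H.uniq 0 _ _ h2 hx₀
  have h4 : x₀ = 0 := by
    have := congrArg (fun t => t - x₀) h3
    simpa using this
  rw [h4] at hx₀
  exact hx₀

theorem isKum_nsmul_h883 (H : KumPackage M p) {c : G0 M → ZMod p} {x : JZero M}
    (h : IsKum M p c x) (n : ℕ) : IsKum M p (n • c) (n • x) := by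
  induction n with
  | zero => rw [zero_nsmul, zero_nsmul]; exact isKum_zero_h883 H
  | succ n ih => rw [succ_nsmul, succ_nsmul]; exact H.add _ _ _ _ ih h

/-- The character of a Kummer class is unique. -/
theorem char_unique_h883 [NeZero p] (H : KumPackage M p) {c₁ c₂ : G0 M → ZMod p}
    {y : JZero M} (hy : (p : ℤ) • y = 0) (h₁ : IsKum M p c₁ y) (h₂ : IsKum M p c₂ y) :
    c₁ = c₂ := by
  have hp1 : 1 ≤ p := Nat.one_le_iff_ne_zero.mpr (NeZero.ne p)
  have h3 := H.add _ _ _ _ h₁ (isKum_nsmul_h883 H h₂ (p - 1))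
  have e1 : y + (p - 1) • y = 0 := by
    rw [← succ_nsmul', Nat.sub_add_cancel hp1]
    rw [← natCast_zsmul]
    exact hy
  have e2 : c₁ + (p - 1) • c₂ = c₁ - c₂ := by
    funext γ
    have : ((p - 1 : ℕ) : ZMod p) = -1 := by
      rw [Nat.cast_sub hp1, ZMod.natCast_self, Nat.cast_one, zero_sub]
    show c₁ γ + (p - 1) • c₂ γ = c₁ γ - c₂ γ
    rw [nsmul_eq_mul, this]
    ring
  rw [e1, e2] at h3
  exact sub_eq_zero.mp (H.inj _ h3)

end package

/-! ### The main glue -/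

section glue

variable {M p : ℕ} [NeZero M]

/-- Division by `p` of an integral character all of whose values are divisible by `p`. -/
def divHom (p : ℕ) (ξ : Additive (Gamma0 M) →+ ℤ) (h : ∀ γ, (p : ℤ) ∣ ξ γ) :
    Additive (Gamma0 M) →+ ℤ where
  toFun γ := ξ γ / (p : ℤ)
  map_zero' := by simp
  map_add' γ δ := by
    rw [map_add, Int.add_ediv_of_dvd_left (h γ)]

theorem divHom_apply (p : ℕ) (ξ : Additive (Gamma0 M) →+ ℤ) (h : ∀ γ, (p : ℤ) ∣ ξ γ)
    (γ : Additive (Gamma0 M)) : divHom p ξ h γ = ξ γ / (p : ℤ) := rfl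

theorem nsmul_divHom (p : ℕ) (ξ : Additive (Gamma0 M) →+ ℤ) (h : ∀ γ, (p : ℤ) ∣ ξ γ) :
    p • divHom p ξ h = ξ := by
  refine AddMonoidHom.ext fun γ => ?_
  rw [AddMonoidHom.nsmul_apply, divHom_apply, nsmul_eq_mul]
  exact Int.mul_ediv_cancel' (h γ)

theorem divHom_mem_parZ (p : ℕ) (ξ : Additive (Gamma0 M) →+ ℤ) (h : ∀ γ, (p : ℤ) ∣ ξ γ)
    (hξ : ξ ∈ parZ M) : divHom p ξ h ∈ parZ M := by
  obtain ⟨-, h2, h3⟩ := (mem_parZ M).mp hξ
  refine (mem_parZ M).mpr ⟨funOf_map_mul _, fun γ hγ => ?_, fun γ n hn hγ => ?_⟩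
  · show ξ (Additive.ofMul γ) / (p : ℤ) = 0
    have e1 : ξ (Additive.ofMul γ) = 0 := h2 γ hγ
    rw [e1, Int.zero_ediv]
  · show ξ (Additive.ofMul γ) / (p : ℤ) = 0
    have e1 : ξ (Additive.ofMul γ) = 0 := h3 γ n hn hγ
    rw [e1, Int.zero_ediv]

/-- **R3 at `(M, p)` from the Kummer package, strong ONTO and LIFT.** -/
theorem eigenformOfOccurs_at (hp : p.Prime) (hK : KumPackage M p) (hO : KumOntoStatement M p)
    (hL : ParLiftStatement M p) (S : Finset ℕ) (a : ℕ → ℤ) (hocc : Spec.OccursIn M p S a) :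
    ∃ (g : CuspForm (CongruenceSubgroup.Gamma0 M) 2) (𝔪 : Ideal (integralClosure ℤ ℂ)),
      g.IsNormalizedEigenform ∧ 𝔪.IsMaximal ∧ (p : integralClosure ℤ ℂ) ∈ 𝔪 ∧
      ∀ ℓ : ℕ, ℓ.Prime → ℓ ∉ S → ¬ ℓ ∣ M * p →
        ∃ b : integralClosure ℤ ℂ, (b : ℂ) = qCoeff g ℓ ∧
          b - ((a ℓ : ℤ) : integralClosure ℤ ℂ) ∈ 𝔪 := by
  have : NeZero p := ⟨hp.ne_zero⟩
  have : Fact p.Prime := ⟨hp⟩
  obtain ⟨x, hx0, hpx, hxT⟩ := hocc
  have hpx' : (p : ℤ) • x = 0 := by rw [natCast_zsmul]; exact hpx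
  -- the character of `x`
  obtain ⟨c, hc, hkum⟩ := hO x hpx'
  have hc0 : c ≠ 0 := by
    rintro rfl
    exact hx0 (hK.uniq 0 _ _ hkum (isKum_zero_h883 hK))
  -- `c` is a Hecke eigencharacter mod `p`
  have hceig : ∀ ℓ : ℕ, ℓ.Prime → ℓ ∉ S → ¬ ℓ ∣ M * p →
      heckeCoh M ℓ c = fun γ => ((a ℓ : ℤ) : ZMod p) * c γ := by
    intro ℓ hℓ hℓS hℓMp
    have h1 := hK.hecke ⟨ℓ, hℓ⟩ hℓMp c x hc hkum
    rw [hxT ⟨ℓ, hℓ⟩ hℓS] at h1
    set n : ℕ := ((a ℓ : ℤ) : ZMod p).val with hn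
    have hncast : ((n : ℕ) : ZMod p) = ((a ℓ : ℤ) : ZMod p) := ZMod.natCast_zmod_val _
    have hdvd : (p : ℤ) ∣ a ℓ - n := by
      rw [← ZMod.intCast_zmod_eq_zero_iff_dvd]
      push_cast
      rw [hncast, sub_self]
    have hnx : a ℓ • x = n • x := by
      obtain ⟨k, hk⟩ := hdvd
      have e : a ℓ = (n : ℤ) + k * (p : ℤ) := by linarith
      have e2 : (k * (p : ℤ)) • x = 0 := by rw [mul_smul, hpx', smul_zero]
      rw [e, add_zsmul, e2, add_zero, natCast_zsmul]
    have h2 := isKum_nsmul_h883 hK hkum n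
    rw [← hnx] at h2
    have hy : (p : ℤ) • (a ℓ • x) = 0 := by rw [smul_comm, hpx', smul_zero]
    have h3 := char_unique_h883 hK hy h1 h2
    rw [h3]
    funext γ
    rw [Pi.smul_apply, nsmul_eq_mul, hncast]
  -- lift to `ℤ`
  obtain ⟨c', hc', hcc'⟩ := hL c hc
  set ψ : Additive (Gamma0 M) →+ ℤ := homOf c' hc'.map_mul with hψ
  have hψpar : ψ ∈ parZ M := (mem_parZ M).mpr (by rw [hψ, funOf_homOf]; exact hc')
  have hψc : ∀ γ : G0 M, ((ψ (Additive.ofMul γ) : ℤ) : ZMod p) = c γ := fun γ => hcc' γ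
  have hred : funOf ((Int.castAddHom (ZMod p)).comp ψ) = c := by
    funext γ
    exact hψc γ
  -- the bad set
  let S' : Set ℕ := {l | l ∈ S ∨ l ∣ M * p}
  refine (fun ⟨g, 𝔪, hg, h𝔪, hp𝔪, hcong⟩ => ⟨g, 𝔪, hg, h𝔪, hp𝔪, fun ℓ hℓ hℓS hℓMp =>
    hcong ℓ hℓ (fun h => hℓMp (Dvd.dvd.mul_right h p)) (fun h => h.elim hℓS hℓMp)⟩)
    (exists_eigenform_of_lattice_class (M := M) p S' a (toC M ψ) ⟨ψ, hψpar, rfl⟩ ?_ ?_)
  · -- `y ∉ pK`
    rintro z ⟨ψ', -, rfl⟩ hz
    have hz' : toC M ψ = toC M (p • ψ') := by rw [hz, map_nsmul]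
    have hψ' : ψ = p • ψ' := toC_injective M hz'
    apply hc0
    funext γ
    rw [← hψc γ, hψ', AddMonoidHom.nsmul_apply, nsmul_eq_mul]
    push_cast
    rw [ZMod.natCast_self, zero_mul]
    rfl
  · -- eigen-relation mod `pK`
    intro i hi
    have hiS : i.1 ∉ S := fun h => hi (Or.inl h)
    have hiMp : ¬ i.1 ∣ M * p := fun h => hi (Or.inr h)
    set ξ : Additive (Gamma0 M) →+ ℤ := tOp i ψ - a i.1 • ψ with hξ
    have hξpar : ξ ∈ parZ M :=
      (parZ M).sub_mem (tOp_mem_parZ i hψpar) ((parZ M).zsmul_mem hψpar _)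
    have hξdvd : ∀ γ, (p : ℤ) ∣ ξ γ := by
      intro γ
      rw [← ZMod.intCast_zmod_eq_zero_iff_dvd]
      have e1 : ((tOp i ψ γ : ℤ) : ZMod p) = heckeCoh M i.1 c (Additive.toMul γ) := by
        have := congrFun (funOf_tOp i ((Int.castAddHom (ZMod p)).comp ψ)) (Additive.toMul γ)
        rw [hred, tOp_comp] at this
        exact this
      have e2 : ((ψ γ : ℤ) : ZMod p) = c (Additive.toMul γ) := hψc (Additive.toMul γ)
      rw [hξ, AddMonoidHom.sub_apply, AddMonoidHom.zsmul_apply, smul_eq_mul, Int.cast_sub,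
        Int.cast_mul, e1, e2, hceig i.1 i.2.1 hiS hiMp, sub_self]
    refine ⟨toC M (divHom p ξ hξdvd), ⟨_, divHom_mem_parZ p ξ hξdvd hξpar, rfl⟩, ?_⟩
    rw [← map_nsmul, nsmul_divHom, hξ, map_sub, map_zsmul, tEnd_toC]

/-- **R3 (restricted form) from the three inputs.** -/
theorem eigenformOfOccurs_of
    (hK : ∀ (M p : ℕ) [NeZero M], p.Prime → KumPackage M p)
    (hO : ∀ (M p : ℕ) [NeZero M], p.Prime → KumOntoStatement M p)
    (hL : ∀ (M p : ℕ) [NeZero M], p.Prime → ParLiftStatement M p) :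
    EigenformOfOccursStatement' := by
  intro M p _ hp S a hocc
  exact eigenformOfOccurs_at hp (hK M p hp) (hO M p hp) (hL M p hp) S a hocc

/-- **R3S (`Spec.EigenformOfOccursAwayStatement`, the form of Spec2) from the three inputs.** -/
theorem eigenformOfOccursAway_of_inputs
    (hK : ∀ (M p : ℕ) [NeZero M], p.Prime → KumPackage M p)
    (hO : ∀ (M p : ℕ) [NeZero M], p.Prime → KumOntoStatement M p)
    (hL : ∀ (M p : ℕ) [NeZero M], p.Prime → ParLiftStatement M p) :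
    Spec.EigenformOfOccursAwayStatement := by
  intro M p _ hp S a hS hocc
  obtain ⟨g, 𝔪, hg, hm, hpm, hc⟩ :=
    eigenformOfOccurs_at hp (hK M p hp) (hO M p hp) (hL M p hp) S a hocc
  exact ⟨g, 𝔪, hg, hm, hpm, fun ℓ hℓ hℓS => hc ℓ hℓ hℓS (fun h => hℓS (hS ℓ hℓ h))⟩

end glue

end Fermat.Agent.Ribet.H883

end
end
-- ===== PACK-END Ribet/H883/R3.lean

-- ===== PACK-BEGIN S59/LoSqC/H630/LabOps.lean
section


/-!
# S59 / cell (C) LO-SQ, leaf W-SUB (toric wall), part 1: operations on label data (helper630)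

Vocabulary: `S36.H630.ValAt`, `S36.H630.LabelAt` (main).  Elementwise, Mathlib-only arguments.

* `exists_zeta_pow_of_pow_sub`  : `η ^ m ≡ η' ^ m` modulo a prime `𝔪` ⟹ `η ≡ ζ ^ c η'`;
* `valAt_pow_eq_of_pure`        : the value `η` of a purity datum satisfies `η ^ m ≡ a₀ / s₀`;
* `labelAt_exists3`             : **existence of the labels at a triple point** (NO hypothesis on
  norms): `u ≡ 1` on `V₁, V₂, V₃` + purity at `n` ⟹ `LabelAt … u ζ (kap3 V₁ V₂ a₁ a₂ 0)`;
* `LabelAt.mul630`              : labels are additive in `u`;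
* `LabelAt.congr630`            : the label datum only depends on `ζ ^ κ V`.
-/

set_option autoImplicit false
set_option linter.unusedSectionVars false
set_option linter.style.haveILetI false
set_option maxHeartbeats 1600000

namespace Fermat.Agent.S59.LoSqC.H630

open Fermat.Agent.S36.H630

section Roots

variable {R : Type*} [CommRing R] [IsDomain R]

/-- `η ^ m ≡ η' ^ m` modulo a prime ideal ⟹ `η ≡ ζ ^ c η'` for some `c`. -/
theorem exists_zeta_pow_of_pow_sub (𝔪 : Ideal R) [h𝔪 : 𝔪.IsPrime] {m : ℕ} (hm : 0 < m) {ζ : R}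
    (hζ : IsPrimitiveRoot ζ m) {η η' : R} (h : η ^ m - η' ^ m ∈ 𝔪) :
    ∃ c : ℕ, η - ζ ^ c * η' ∈ 𝔪 := by
  classical
  haveI : NeZero m := ⟨hm.ne'⟩
  have h1 : η ^ m - η' ^ m = ∏ ξ ∈ Polynomial.nthRootsFinset m (1 : R), (η - ξ * η') :=
    hζ.pow_sub_pow_eq_prod_sub_mul η η' hm
  rw [h1] at h
  obtain ⟨ξ, hξ, hmem⟩ := (Ideal.IsPrime.prod_mem_iff (hp := h𝔪)).1 h
  have hξ1 : ξ ^ m = 1 := (Polynomial.mem_nthRootsFinset hm 1).1 hξ
  obtain ⟨c, -, rfl⟩ := hζ.eq_pow_of_pow_eq_one hξ1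
  exact ⟨c, hmem⟩

end Roots

section Ops

variable {R : Type*} [CommRing R] {F : Type*} [Field F] [Algebra R F]
variable {B : Subalgebra R F} {n : Ideal B}

/-- The three-valued colouring `V₁ ↦ a₁`, `V₂ ↦ a₂`, everything else `↦ a₃`. -/
noncomputable def kap3 (V₁ V₂ : ValuationSubring F) (a₁ a₂ a₃ : ℕ) : ValuationSubring F → ℕ :=
  fun V => by
    classical
    exact if V = V₁ then a₁ else if V = V₂ then a₂ else a₃

theorem kap3_one (V₁ V₂ : ValuationSubring F) (a₁ a₂ a₃ : ℕ) : kap3 V₁ V₂ a₁ a₂ a₃ V₁ = a₁ := by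
  simp [kap3]

theorem kap3_two {V₁ V₂ : ValuationSubring F} (h : V₁ ≠ V₂) (a₁ a₂ a₃ : ℕ) :
    kap3 V₁ V₂ a₁ a₂ a₃ V₂ = a₂ := by
  simp [kap3, h.symm]

theorem kap3_three {V₁ V₂ V₃ : ValuationSubring F} (h₁ : V₁ ≠ V₃) (h₂ : V₂ ≠ V₃)
    (a₁ a₂ a₃ : ℕ) : kap3 V₁ V₂ a₁ a₂ a₃ V₃ = a₃ := by
  simp [kap3, h₁.symm, h₂.symm]

/-- The value `η` of a purity datum `u d ^ m s₀ = a₀` along a sheet on which `u ≡ 1` satisfies
`a₀ ≡ η ^ m s₀` modulo `n`. -/
theorem valAt_pow_eq_of_pure [hn : n.IsPrime] {V : ValuationSubring F} (hBV : ChartLe B V)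
    (hth : PassThrough B n V) {m : ℕ} {u d : F} (hu : u - 1 ∈ V.nonunits) {a₀ s₀ : B}
    (hs₀ : s₀ ∉ n) (hpure : u * d ^ m * (s₀ : F) = a₀) {η : R} (hval : ValAt B n V d η) :
    a₀ - algebraMap R B (η ^ m) * s₀ ∈ n := by
  have hdV : d ∈ V := hval.mem hBV hth
  obtain ⟨a, b, hb, hV, hab⟩ := hval.pow hBV hth m
  -- `b a₀ - a s₀` vanishes on `V`
  have h1 : ((b * a₀ - a * s₀ : B) : F) ∈ V.nonunits := by
    have : ((b * a₀ - a * s₀ : B) : F)
        = (s₀ : F) * ((b : F) * d ^ m - a) + (b : F) * (d ^ m * (s₀ : F)) * (u - 1) := by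
      push_cast
      rw [← hpure]
      ring
    rw [this]
    exact vnu_add V (vnu_mul_left V hV (hBV s₀))
      (vnu_mul_left V hu (V.mul_mem _ _ (hBV b) (V.mul_mem _ _ (V.pow_mem hdV m) (hBV s₀))))
  have h2 : b * a₀ - a * s₀ ∈ n := hth _ h1
  have h3 : b * (a₀ - algebraMap R B (η ^ m) * s₀) ∈ n := by
    have : b * (a₀ - algebraMap R B (η ^ m) * s₀)
        = (b * a₀ - a * s₀) + s₀ * (a - algebraMap R B (η ^ m) * b) := by ring
    rw [this]
    exact n.add_mem h2 (n.mul_mem_left _ hab)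
  exact (hn.mem_or_mem h3).resolve_left hb

end Ops

section Exists

variable {R : Type*} [CommRing R] [IsDomain R] [IsLocalRing R]
  {F : Type*} [Field F] [Algebra R F]
variable {B : Subalgebra R F} {n : Ideal B}

/-- a constant in `n` lies in the maximal ideal of `R` -/
theorem mem_maximalIdeal_of_algebraMap_mem (hn : n ≠ ⊤) {r : R} (h : algebraMap R B r ∈ n) :
    r ∈ IsLocalRing.maximalIdeal R := by
  rw [IsLocalRing.mem_maximalIdeal, mem_nonunits_iff]
  intro hu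
  exact hn (n.eq_top_of_isUnit_mem h (hu.map (algebraMap R B)))

/-- **Existence of the labels at a triple point.**  `u ≡ 1` on the three sheets through `n` and a
purity datum at `n` give a label datum with colouring `V₁ ↦ a₁`, `V₂ ↦ a₂`, `V₃ ↦ 0`. -/
theorem labelAt_exists3 [hn : n.IsMaximal]
    (hrat : ∀ c : B, ∃ r : R, c - algebraMap R B r ∈ n)
    (h𝔪n : ∀ r ∈ IsLocalRing.maximalIdeal R, algebraMap R B r ∈ n)
    {V₁ V₂ V₃ : ValuationSubring F} (h₁₂ : V₁ ≠ V₂) (h₁₃ : V₁ ≠ V₃) (h₂₃ : V₂ ≠ V₃)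
    (hB₁ : ChartLe B V₁) (hB₂ : ChartLe B V₂) (hB₃ : ChartLe B V₃)
    (ht₁ : PassThrough B n V₁) (ht₂ : PassThrough B n V₂) (ht₃ : PassThrough B n V₃)
    {m : ℕ} (hm : 0 < m)
    (hn₁ : NormalAlong B V₁ m) (hn₂ : NormalAlong B V₂ m) (hn₃ : NormalAlong B V₃ m)
    {ζ : R} (hζ : IsPrimitiveRoot ζ m)
    {u d : F} (hu₁ : u - 1 ∈ V₁.nonunits) (hu₂ : u - 1 ∈ V₂.nonunits)
    (hu₃ : u - 1 ∈ V₃.nonunits)
    {a₀ s₀ : B} (ha₀ : a₀ ∉ n) (hs₀ : s₀ ∉ n) (hpure : u * d ^ m * (s₀ : F) = a₀) :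
    ∃ a₁ a₂ : ℕ, LabelAt B n {V | V = V₁ ∨ V = V₂ ∨ V = V₃} m u ζ (kap3 V₁ V₂ a₁ a₂ 0) := by
  have hnp : n.IsPrime := hn.isPrime
  have hζ1 : ζ ^ m = 1 := hζ.pow_eq_one
  obtain ⟨η₁, hη₁, hv₁⟩ := exists_valAt_of_pure hrat hB₁ ht₁ hm hn₁ hu₁ ha₀ hs₀ hpure
  obtain ⟨η₂, hη₂, hv₂⟩ := exists_valAt_of_pure hrat hB₂ ht₂ hm hn₂ hu₂ ha₀ hs₀ hpure
  obtain ⟨η₃, hη₃, hv₃⟩ := exists_valAt_of_pure hrat hB₃ ht₃ hm hn₃ hu₃ ha₀ hs₀ hpure
  have e₁ := valAt_pow_eq_of_pure hB₁ ht₁ hu₁ hs₀ hpure hv₁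
  have e₂ := valAt_pow_eq_of_pure hB₂ ht₂ hu₂ hs₀ hpure hv₂
  have e₃ := valAt_pow_eq_of_pure hB₃ ht₃ hu₃ hs₀ hpure hv₃
  -- `η_i ^ m ≡ η₃ ^ m` modulo the maximal ideal of `R`
  have key : ∀ η : R, a₀ - algebraMap R B (η ^ m) * s₀ ∈ n →
      η ^ m - η₃ ^ m ∈ IsLocalRing.maximalIdeal R := by
    intro η e
    apply mem_maximalIdeal_of_algebraMap_mem hnp.ne_top (B := B) (n := n)
    have h3 : algebraMap R B (η ^ m - η₃ ^ m) * s₀ ∈ n := by
      have : algebraMap R B (η ^ m - η₃ ^ m) * s₀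
          = (a₀ - algebraMap R B (η₃ ^ m) * s₀) - (a₀ - algebraMap R B (η ^ m) * s₀) := by
        rw [map_sub]
        ring
      rw [this]
      exact n.sub_mem e₃ e
    exact (hnp.mem_or_mem h3).resolve_right hs₀
  obtain ⟨c₁, hc₁⟩ := exists_zeta_pow_of_pow_sub (IsLocalRing.maximalIdeal R) hm hζ (key η₁ e₁)
  obtain ⟨c₂, hc₂⟩ := exists_zeta_pow_of_pow_sub (IsLocalRing.maximalIdeal R) hm hζ (key η₂ e₂)
  have hd0 : d ≠ 0 := by
    rintro rfl
    exact hv₃.not_nonunits hB₃ ht₃ hη₃ (vnu_zero V₃)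
  refine ⟨(m - 1) * c₁, (m - 1) * c₂, d, a₀, s₀, η₃, hd0, hs₀, hpure, hη₃, ?_⟩
  rintro V (rfl | rfl | rfl) _
  · rw [kap3_one, zeta_pow_sq hm hζ1]
    refine hv₁.congr_const (h𝔪n _ ?_)
    have : η₁ - η₃ * ζ ^ c₁ = η₁ - ζ ^ c₁ * η₃ := by ring
    rw [this]
    exact hc₁
  · rw [kap3_two h₁₂, zeta_pow_sq hm hζ1]
    refine hv₂.congr_const (h𝔪n _ ?_)
    have : η₂ - η₃ * ζ ^ c₂ = η₂ - ζ ^ c₂ * η₃ := by ring
    rw [this]
    exact hc₂
  · rw [kap3_three h₁₃ h₂₃, mul_zero, pow_zero, mul_one]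
    exact hv₃

end Exists

section Mul

variable {R : Type*} [CommRing R] {F : Type*} [Field F] [Algebra R F]
variable {B : Subalgebra R F} {n : Ideal B}

/-- **Labels are additive.** -/
theorem LabelAt.mul630 [hn : n.IsPrime] {𝒱 : Set (ValuationSubring F)}
    (hB : ∀ V ∈ 𝒱, ChartLe B V) {m : ℕ} {u u' : F} {ζ : R}
    {κ κ' : ValuationSubring F → ℕ}
    (h : LabelAt B n 𝒱 m u ζ κ) (h' : LabelAt B n 𝒱 m u' ζ κ') :
    LabelAt B n 𝒱 m (u * u') ζ (fun V => κ V + κ' V) := by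
  obtain ⟨d, a₀, s₀, η₀, hd, hs₀, hpure, hη₀, hval⟩ := h
  obtain ⟨d', a₀', s₀', η₀', hd', hs₀', hpure', hη₀', hval'⟩ := h'
  refine ⟨d * d', a₀ * a₀', s₀ * s₀', η₀ * η₀', mul_ne_zero hd hd', ?_, ?_, ?_, ?_⟩
  · intro hmem
    rcases hn.mem_or_mem hmem with h5 | h5
    · exact hs₀ h5
    · exact hs₀' h5
  · push_cast
    rw [← hpure, ← hpure']
    ring
  · rw [map_mul]
    intro hmem
    rcases hn.mem_or_mem hmem with h5 | h5
    · exact hη₀ h5
    · exact hη₀' h5
  · intro V hV hth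
    have h1 := (hval V hV hth).mul (hB V hV) hth (hval' V hV hth)
    have : η₀ * ζ ^ ((m - 1) * κ V) * (η₀' * ζ ^ ((m - 1) * κ' V))
        = η₀ * η₀' * ζ ^ ((m - 1) * (κ V + κ' V)) := by
      rw [mul_add, pow_add]
      ring
    rw [this] at h1
    exact h1

/-- The label datum only depends on the powers `ζ ^ κ V`. -/
theorem LabelAt.congr630 {𝒱 : Set (ValuationSubring F)} {m : ℕ} {u : F} {ζ : R}
    {κ κ' : ValuationSubring F → ℕ} (h : LabelAt B n 𝒱 m u ζ κ)
    (hκ : ∀ V ∈ 𝒱, ζ ^ κ V = ζ ^ κ' V) : LabelAt B n 𝒱 m u ζ κ' := by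
  obtain ⟨d, a₀, s₀, η₀, hd, hs₀, hpure, hη₀, hval⟩ := h
  refine ⟨d, a₀, s₀, η₀, hd, hs₀, hpure, hη₀, fun V hV hth => ?_⟩
  have h1 := hval V hV hth
  rw [mul_comm (m - 1) (κ V), pow_mul, hκ V hV, ← pow_mul, mul_comm (κ' V) (m - 1)] at h1
  exact h1

end Mul

end Fermat.Agent.S59.LoSqC.H630

end
-- ===== PACK-END S59/LoSqC/H630/LabOps.lean

-- ===== PACK-BEGIN S36/H438/UnitRed.lean
section




/-!
# S36 / R3 leaf HUP: the reduction of the modular unit on the second component  (helper438)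

`u' = Δ(t)/Δ(t^q)`, `D = q¹² Δ(t^q)/Δ(t)`; level `N = q * M'`, Fricke involution `W`,
`V₀ = V∞.comap W`.

* `exists_hasseMod`      : for EVERY prime `q`, `Δ̄^{-(q-1)} = H̄(j̄)` in `𝔽_q((t))`, `H̄ ∈ 𝔽_q[X]`
  (HASSE `Reg.H968.hasse` for `q ≥ 5`; `E₄ ≡ 1 mod q` for `q = 2, 3`);
* `monic_natDegree_of_aeval_eq` : such an `H̄` is monic of degree `q - 1` (leading terms of the
  `t`-expansions);
* `hassePoly q : ℤ[X]`   : a monic lift of degree `q - 1`; `hassePoly_spec`:
  `Δ(t)/Δ(t^q) = H(j) + q · G` in `ℤ((t))`;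
* `fricke_dE_sub_hasse`  : `W (D - H(j_q)) = q · g`, `g` with integral `t`-expansion;
* `dE_sub_hasse_inW`     : `(D - H(j_q)) / q ∈ V₀`  — i.e. `D ≡ H(j_q)` on the component `C₀`;
* `jqE_mem_chartAlg`, `dE_sub_hasse_mem_cut` : chart form (`B = chartAlg x`, `p₀ = IsCut w V₀ B`).
-/

set_option autoImplicit false
set_option synthInstance.maxHeartbeats 400000
set_option maxHeartbeats 1600000

noncomputable section

namespace Fermat.Agent.S36.H438

open ModularCurve HahnSeries Polynomial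
open Fermat.Agent.A2.Mod Fermat.Agent.S28

/-! ## 1. Series level -/

section Series

/-- A Laurent series over `ℤ` vanishing modulo `q` is divisible by `q`. -/
theorem exists_eq_C_mul_of_coeffMap_zmod_eq_zero (q : ℕ) (X : LaurentSeries ℤ)
    (h0 : coeffMap (Int.castRingHom (ZMod q)) X = 0) :
    ∃ G : LaurentSeries ℤ, X = HahnSeries.C (q : ℤ) * G := by
  have hdvd : ∀ k : ℤ, (q : ℤ) ∣ X.coeff k := by
    intro k
    have h1 := congrArg (fun s => s.coeff k) h0
    simp only [coeffMap_coeff, HahnSeries.coeff_zero, eq_intCast] at h1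
    exact (ZMod.intCast_zmod_eq_zero_iff_dvd _ _).mp h1
  refine ⟨X.map (Fermat.Agent.A2.H528.divPrime q), ?_⟩
  ext k
  rw [HahnSeries.C_mul_eq_smul, HahnSeries.coeff_smul, HahnSeries.map_coeff, smul_eq_mul]
  show X.coeff k = (q : ℤ) * (X.coeff k / q)
  rw [Int.mul_ediv_cancel' (hdvd k)]

variable (K : Type*) [CommRing K]

/-- `Δ⁻ⁿ = t⁻ⁿ · (unit power series)ⁿ`. -/
theorem deltaInvL_pow (n : ℕ) :
    deltaInvL K ^ n = HahnSeries.single (-(n : ℤ)) 1 *
      HahnSeries.ofPowerSeries ℤ K ((dedekindEtaUnitInv.map (Int.castRingHom K)) ^ n) := by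
  rw [deltaInvL, mul_pow, HahnSeries.single_pow, one_pow, ← map_pow]
  congr 2
  simp


theorem constantCoeff_etaInv_map :
    PowerSeries.constantCoeff (dedekindEtaUnitInv.map (Int.castRingHom K)) = 1 := by
  rw [← PowerSeries.coeff_zero_eq_constantCoeff, PowerSeries.coeff_map,
    PowerSeries.coeff_zero_eq_constantCoeff, constantCoeff_dedekindEtaUnitInv, map_one]

theorem coeff_deltaInvL_pow_self (n : ℕ) : (deltaInvL K ^ n).coeff (-(n : ℤ)) = 1 := by
  rw [deltaInvL_pow, HahnSeries.coeff_single_mul, one_mul, sub_neg_eq_add, neg_add_cancel,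
    show (0 : ℤ) = ((0 : ℕ) : ℤ) from rfl, HahnSeries.ofPowerSeries_apply_coeff,
    PowerSeries.coeff_zero_eq_constantCoeff, map_pow, constantCoeff_etaInv_map, one_pow]

theorem coeff_deltaInvL_pow_of_lt {n : ℕ} {m : ℤ} (hm : m < -(n : ℤ)) :
    (deltaInvL K ^ n).coeff m = 0 := by
  rw [deltaInvL_pow, HahnSeries.coeff_single_mul, one_mul]
  exact ofPowerSeries_coeff_of_neg _ (by omega)

theorem algebraMap_laurent_eq_single (c : K) :
    algebraMap K (LaurentSeries K) c = HahnSeries.single 0 c := by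
  have h1 : algebraMap K (PowerSeries K) c = PowerSeries.C c := by simp
  rw [HahnSeries.algebraMap_apply', h1, HahnSeries.ofPowerSeries_C]
  rfl

/-- The coefficient of `t^{-m}` in `p(j)` is `p_m`, as soon as `m ≥ deg p`. -/
theorem coeff_aeval_jqModC_of_le (p : Polynomial K) {m : ℕ} (hm : p.natDegree ≤ m) :
    (Polynomial.aeval (jqModC K) p).coeff (-(m : ℤ)) = p.coeff m := by
  rw [Polynomial.aeval_def, Polynomial.eval₂_eq_sum_range, HahnSeries.coeff_sum]
  rcases hm.eq_or_lt with h | h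
  · rw [Finset.sum_eq_single m]
    · rw [algebraMap_laurent_eq_single, HahnSeries.coeff_single_zero_mul,
        coeff_jqModC_pow_self, mul_one]
    · intro i hi him
      have hilt : i < m := by
        have := Finset.mem_range.mp hi
        omega
      rw [algebraMap_laurent_eq_single, HahnSeries.coeff_single_zero_mul,
        coeff_jqModC_pow_of_lt, mul_zero]
      omega
    · intro hn'
      exact absurd (by rw [Finset.mem_range]; omega) hn'
  · rw [Polynomial.coeff_eq_zero_of_natDegree_lt h]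
    refine Finset.sum_eq_zero fun i hi => ?_
    have hilt : i < m := by
      have := Finset.mem_range.mp hi
      omega
    rw [algebraMap_laurent_eq_single, HahnSeries.coeff_single_zero_mul,
      coeff_jqModC_pow_of_lt, mul_zero]
    omega

/-- If `Δ⁻ⁿ = p(j)` then `p` is monic of degree `n`. -/
theorem monic_natDegree_of_aeval_eq [Nontrivial K] (p : Polynomial K) (n : ℕ)
    (h : deltaInvL K ^ n = Polynomial.aeval (jqModC K) p) : p.Monic ∧ p.natDegree = n := by
  have hdeg : p.natDegree = n := by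
    rcases lt_trichotomy p.natDegree n with hlt | heq | hgt
    · exfalso
      have h1 := coeff_aeval_jqModC_of_le K p hlt.le
      rw [← h, coeff_deltaInvL_pow_self, Polynomial.coeff_eq_zero_of_natDegree_lt hlt] at h1
      exact one_ne_zero h1
    · exact heq
    · exfalso
      have h1 := coeff_aeval_jqModC_of_le K p le_rfl
      rw [← h, coeff_deltaInvL_pow_of_lt K (by omega)] at h1
      have hp0 : p ≠ 0 := by
        intro h0
        rw [h0, Polynomial.natDegree_zero] at hgt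
        omega
      exact hp0 (Polynomial.leadingCoeff_eq_zero.mp h1.symm)
  refine ⟨?_, hdeg⟩
  have h1 := coeff_aeval_jqModC_of_le K p hdeg.le
  rw [← h, coeff_deltaInvL_pow_self] at h1
  rw [Polynomial.Monic, Polynomial.leadingCoeff, hdeg]
  exact h1.symm


/-- `E₄ ≡ 1` modulo any commutative ring in which `240 = 0`. -/
theorem eisenstein4_map_eq_one_h438 (h : (240 : K) = 0) :
    PowerSeries.map (Int.castRingHom K) eisenstein4 = 1 := by
  ext n
  rw [PowerSeries.coeff_map, eisenstein4, PowerSeries.coeff_mk, PowerSeries.coeff_one]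
  split_ifs with hn
  · simp
  · rw [map_mul]
    have : (Int.castRingHom K) 240 = 0 := by
      rw [eq_intCast]
      exact_mod_cast h
    rw [this, zero_mul]

/-- `j ≡ Δ⁻¹` modulo any commutative ring in which `240 = 0` (`q = 2, 3, 5`). -/
theorem jqModC_eq_deltaInvL_h438 (h : (240 : K) = 0) : jqModC K = deltaInvL K := by
  unfold jqModC deltaInvL
  have h1 : PowerSeries.map (Int.castRingHom K) jNum =
      PowerSeries.map (Int.castRingHom K) dedekindEtaUnitInv := by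
    rw [jNum, map_mul, map_pow, eisenstein4_map_eq_one_h438 K h, one_pow, one_mul]
  simp only [PowerSeries.map] at h1 ⊢
  rw [h1]

end Series

/-! ## 2. The Hasse polynomial, uniformly in `q` -/

section Hasse

open Fermat.Agent.S36.Reg

variable (q : ℕ) [NeZero q]

/-- **HASSE, all primes**: `Δ̄^{-(q-1)}` is a polynomial in `j̄` over `𝔽_q`. -/
theorem exists_hasseMod (hq : q.Prime) :
    ∃ Hq : Polynomial (ZMod q),
      deltaInvL (ZMod q) ^ (q - 1) = Polynomial.aeval (jqModC (ZMod q)) Hq := by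
  by_cases h5 : 5 ≤ q
  · obtain ⟨f, hf⟩ := Fermat.Agent.S36.Reg.H968.hasse q hq h5
    refine ⟨X ^ (4 * hasseDelta q) * (X - Polynomial.C 1728) ^ (6 * hasseEps q) * f ^ 12, ?_⟩
    rw [hf, map_mul, map_mul, map_pow, map_pow, map_pow, map_sub, Polynomial.aeval_X,
      Polynomial.aeval_C]
    rw [map_ofNat (algebraMap (ZMod q) (LaurentSeries (ZMod q))) 1728]
  · have hq23 : q = 2 ∨ q = 3 := by
      have h2 := hq.two_le
      have hlt : q < 5 := by omega
      interval_cases q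
      · exact Or.inl rfl
      · exact Or.inr rfl
      · exact absurd hq (by decide)
    have h240 : (240 : ZMod q) = 0 := by
      have hdvd : q ∣ 240 := by
        rcases hq23 with rfl | rfl <;> decide
      have := (ZMod.natCast_eq_zero_iff 240 q).2 hdvd
      exact_mod_cast this
    refine ⟨X ^ (q - 1), ?_⟩
    rw [map_pow, Polynomial.aeval_X, jqModC_eq_deltaInvL_h438 (ZMod q) h240]

/-- **The Hasse polynomial exists over `ℤ`**: `H` monic of degree `q - 1` with
`Δ(t)/Δ(t^q) = H(j) + q · G` in `ℤ((t))`. -/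
theorem exists_hassePoly (hq : q.Prime) :
    ∃ H : Polynomial ℤ, H.Monic ∧ H.natDegree = q - 1 ∧
      ∃ G : LaurentSeries ℤ,
        H589.unitL' q = Polynomial.aeval (jqModC ℤ) H + HahnSeries.C (q : ℤ) * G := by
  have : Fact q.Prime := ⟨hq⟩
  obtain ⟨Hq, hHq⟩ := exists_hasseMod q hq
  obtain ⟨hmon, hdeg⟩ := monic_natDegree_of_aeval_eq (ZMod q) Hq (q - 1) hHq
  have hlift : Hq ∈ Polynomial.lifts (Int.castRingHom (ZMod q)) := by
    rw [Polynomial.mem_lifts]
    exact Polynomial.map_surjective _ (ZMod.intCast_surjective) Hq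
  obtain ⟨H, hH, hHdeg, hHmon⟩ := Polynomial.lifts_and_natDegree_eq_and_monic hlift hmon
  refine ⟨H, hHmon, hHdeg.trans hdeg, ?_⟩
  have h0 : coeffMap (Int.castRingHom (ZMod q))
      (H589.unitL' q - Polynomial.aeval (jqModC ℤ) H) = 0 := by
    have h1 : deltaL (ZMod q) * deltaInvL (ZMod q) = 1 := h88_deltaL_mul_deltaInvL (ZMod q)
    have hq1 : deltaInvL (ZMod q) ^ q = deltaInvL (ZMod q) ^ (q - 1) * deltaInvL (ZMod q) := by
      rw [← pow_succ, Nat.sub_add_cancel hq.one_le]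
    rw [map_sub, Fermat.Agent.S36.Reg.H968.coeffMap_aeval, coeffMap_jqModC, hH, ← hHq,
      H589.unitL', map_mul, coeffMap_qExpand, h88_coeffMap_deltaL, h88_coeffMap_deltaInvL,
      Fermat.Agent.A2.H528.qExpand_eq_pow_zmod, hq1]
    linear_combination (deltaInvL (ZMod q) ^ (q - 1)) * h1
  obtain ⟨G, hG⟩ := exists_eq_C_mul_of_coeffMap_zmod_eq_zero q _ h0
  exact ⟨G, by rw [← hG]; ring⟩

/-- **The Hasse polynomial** `H_q ∈ ℤ[X]` (a monic lift of the polynomial `H̄` with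
`Δ̄^{-(q-1)} = H̄(j̄)`; `H̄ = X^{4δ} (X - 1728)^{6ε} f^{12}` for `q ≥ 5`, `H̄ = X^{q-1}` for `q ≤ 3`). -/
def hassePoly (hq : q.Prime) : Polynomial ℤ := (exists_hassePoly q hq).choose

theorem hassePoly_monic (hq : q.Prime) : (hassePoly q hq).Monic :=
  (exists_hassePoly q hq).choose_spec.1

theorem hassePoly_natDegree (hq : q.Prime) : (hassePoly q hq).natDegree = q - 1 :=
  (exists_hassePoly q hq).choose_spec.2.1

/-- The integral remainder `G`: `Δ(t)/Δ(t^q) = H(j) + q · G`. -/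
def hasseRem (hq : q.Prime) : LaurentSeries ℤ := (exists_hassePoly q hq).choose_spec.2.2.choose

theorem hassePoly_spec (hq : q.Prime) :
    H589.unitL' q = Polynomial.aeval (jqModC ℤ) (hassePoly q hq)
      + HahnSeries.C (q : ℤ) * hasseRem q hq :=
  (exists_hassePoly q hq).choose_spec.2.2.choose_spec

/-- Reduction of the Hasse polynomial: `Δ̄^{-(q-1)} = H̄(j̄)` over any ring of characteristic `q`. -/
theorem hassePoly_red (hq : q.Prime) (k : Type*) [CommRing k] [CharP k q] :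
    deltaInvL k ^ (q - 1) =
      Polynomial.aeval (jqModC k) ((hassePoly q hq).map (Int.castRingHom k)) := by
  have : Fact q.Prime := ⟨hq⟩
  have h := congrArg (coeffMap (Int.castRingHom k)) (hassePoly_spec q hq)
  have hqk : coeffMap (Int.castRingHom k) (HahnSeries.C (q : ℤ)) = 0 := by
    ext n
    rw [coeffMap_coeff, HahnSeries.coeff_zero]
    by_cases hn : n = 0
    · subst hn
      rw [HahnSeries.C_apply, HahnSeries.coeff_single_same, eq_intCast, Int.cast_natCast]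
      exact CharP.cast_eq_zero k q
    · rw [HahnSeries.C_apply, HahnSeries.coeff_single_of_ne hn, map_zero]
  rw [map_add, map_mul, hqk, zero_mul, add_zero, Fermat.Agent.S36.Reg.H968.coeffMap_aeval,
    coeffMap_jqModC] at h
  rw [← h]
  have h2 := congrArg (coeffMap (ZMod.castHom (dvd_refl q) k)) (show
    coeffMap (Int.castRingHom (ZMod q)) (H589.unitL' q) = deltaInvL (ZMod q) ^ (q - 1) from by
      have h1 : deltaL (ZMod q) * deltaInvL (ZMod q) = 1 := h88_deltaL_mul_deltaInvL (ZMod q)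
      have hq1 : deltaInvL (ZMod q) ^ q = deltaInvL (ZMod q) ^ (q - 1) * deltaInvL (ZMod q) := by
        rw [← pow_succ, Nat.sub_add_cancel hq.one_le]
      rw [H589.unitL', map_mul, coeffMap_qExpand, h88_coeffMap_deltaL, h88_coeffMap_deltaInvL,
        Fermat.Agent.A2.H528.qExpand_eq_pow_zmod, hq1]
      linear_combination (deltaInvL (ZMod q) ^ (q - 1)) * h1)
  rw [coeffMap_coeffMap, map_pow, h88_coeffMap_deltaInvL] at h2
  rw [← h2]
  exact coeffMap_congr (Subsingleton.elim _ _) _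

end Hasse

/-! ## 3. The congruence `D ≡ H(j_q)` on the second component -/

section FELevel

open Fermat.Agent.A2.Mod.H873

/-- Ring homomorphisms commute with the evaluation of integral polynomials
(for ANY `ℤ`-algebra structures). -/
theorem map_aeval_int {A B : Type*} [CommRing A] [CommRing B] [Algebra ℤ A] [Algebra ℤ B]
    (g : A →+* B) (a : A) (H : Polynomial ℤ) :
    g (Polynomial.aeval a H) = Polynomial.aeval (g a) H := by
  rw [Polynomial.aeval_def, Polynomial.aeval_def, Polynomial.hom_eval₂]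
  congr 1
  exact Subsingleton.elim _ _

variable (P : ValuationSubring Qb) (E : IntermediateField ℚ Qb)

/-- `t`-expansion of `H(j_d)`, `H ∈ ℤ[X]`. -/
theorem coe_aeval_jE (N d : ℕ) [NeZero d] (hd : d ∣ N) (H : Polynomial ℤ) :
    ((Polynomial.aeval (jE E N d hd) H : FE E N) : LaurentSeries E)
      = castE E (qExpand ℤ d (Polynomial.aeval (jqModC ℤ) H)) := by
  have h1 := map_aeval_int (algebraMap (FE E N) (LaurentSeries E)) (jE E N d hd) H
  have h2 := map_aeval_int ((castE E).comp (qExpand ℤ d)) (jqModC ℤ) H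
  have e1 : (algebraMap (FE E N) (LaurentSeries E)) (jE E N d hd)
      = ((castE E).comp (qExpand ℤ d)) (jqModC ℤ) := coe_jE_int E N d hd
  rw [e1] at h1
  exact h1.trans h2.symm

variable (N q M' : ℕ) [NeZero N] [NeZero q] [NeZero M']

/-- `W (H(j_q)) = H(j_{M'})` for the Fricke involution of level `N = q * M'`. -/
theorem fricke_aeval_jE (hN : N = q * M') (hqN : q ∣ N) (hM'N : M' ∣ N)
    (W : FE E N ≃ₐ[E] FE E N) (hW : IsFricke E N W) (H : Polynomial ℤ) :
    W (Polynomial.aeval (jE E N q hqN) H) = Polynomial.aeval (jE E N M' hM'N) H := by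
  have h1 := map_aeval_int (W : FE E N →+* FE E N) (jE E N q hqN) H
  have e1 : (W : FE E N →+* FE E N) (jE E N q hqN) = jE E N M' hM'N :=
    hW.1 q M' hqN hM'N hN.symm
  rw [e1] at h1
  exact h1

/-- **HUP, `t`-expansion form**: `W (D - H(j_q)) = q · G(t^{M'})`, `G ∈ ℤ((t))`. -/
theorem coe_fricke_dE_sub_hasse (hN : N = q * M') (hqN : q ∣ N) (hM'N : M' ∣ N) (hq : q.Prime)
    (W : FE E N ≃ₐ[E] FE E N) (hW : IsFricke E N W) :
    ((W (dE E N q hqN - Polynomial.aeval (jE E N q hqN) (hassePoly q hq)) : FE E N) :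
        LaurentSeries E)
      = castE E (qExpand ℤ M' (HahnSeries.C (q : ℤ) * hasseRem q hq)) := by
  rw [map_sub, fricke_aeval_jE E N q M' hN hqN hM'N W hW]
  show ((W (dE E N q hqN) : FE E N) : LaurentSeries E)
      - ((Polynomial.aeval (jE E N M' hM'N) (hassePoly q hq) : FE E N) : LaurentSeries E) = _
  rw [coe_fricke_dE E N q M' hN hqN W hW, coe_aeval_jE, ← map_sub, ← map_sub]
  congr 2
  rw [hassePoly_spec q hq]
  ring

/-- The quotient `g = W (D - H(j_q)) / q` has the integral `t`-expansion `G(t^{M'})`. -/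
theorem coe_fricke_dE_sub_hasse_div (hN : N = q * M') (hqN : q ∣ N) (hM'N : M' ∣ N)
    (hq : q.Prime) (W : FE E N ≃ₐ[E] FE E N) (hW : IsFricke E N W) :
    ((W ((dE E N q hqN - Polynomial.aeval (jE E N q hqN) (hassePoly q hq))
        * (algebraMap E (FE E N) (q : E))⁻¹) : FE E N) : LaurentSeries E)
      = castE E (qExpand ℤ M' (hasseRem q hq)) := by
  have hq0 : (q : E) ≠ 0 := Nat.cast_ne_zero.mpr (NeZero.ne q)
  have hc0 : algebraMap E (FE E N) (q : E) ≠ 0 :=
    (map_ne_zero_iff _ (algebraMap E (FE E N)).injective).mpr hq0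
  have hcoe : ((algebraMap E (FE E N) (q : E) : FE E N) : LaurentSeries E)
      = castE E (qExpand ℤ M' (HahnSeries.C (q : ℤ))) := by
    show algebraMap E (LaurentSeries E) (q : E) = _
    rw [map_natCast, map_natCast (HahnSeries.C : ℤ →+* LaurentSeries ℤ) q, map_natCast,
      map_natCast]
  have key : (W ((dE E N q hqN - Polynomial.aeval (jE E N q hqN) (hassePoly q hq))
        * (algebraMap E (FE E N) (q : E))⁻¹)) * algebraMap E (FE E N) (q : E)
      = W (dE E N q hqN - Polynomial.aeval (jE E N q hqN) (hassePoly q hq)) := by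
    rw [map_mul, map_inv₀, AlgEquiv.commutes, inv_mul_cancel_right₀ hc0]
  have key2 : ((W ((dE E N q hqN - Polynomial.aeval (jE E N q hqN) (hassePoly q hq))
        * (algebraMap E (FE E N) (q : E))⁻¹) : FE E N) : LaurentSeries E)
        * ((algebraMap E (FE E N) (q : E) : FE E N) : LaurentSeries E)
      = ((W (dE E N q hqN - Polynomial.aeval (jE E N q hqN) (hassePoly q hq)) : FE E N) :
        LaurentSeries E) := congrArg (fun f : FE E N => (f : LaurentSeries E)) key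
  have hR : castE E (qExpand ℤ M' (HahnSeries.C (q : ℤ) * hasseRem q hq))
      = castE E (qExpand ℤ M' (HahnSeries.C (q : ℤ))) * castE E (qExpand ℤ M' (hasseRem q hq)) := by
    rw [map_mul, map_mul]
  rw [coe_fricke_dE_sub_hasse E N q M' hN hqN hM'N hq W hW, hR, hcoe] at key2
  have hne : castE E (qExpand ℤ M' (HahnSeries.C (q : ℤ))) ≠ 0 := by
    rw [← hcoe]
    exact fun h => hc0 (Subtype.ext h)
  refine mul_right_cancel₀ hne ?_
  rw [key2, mul_comm]

/-- **HUP**: `(D - H(j_q)) / q ∈ V₀ = V∞.comap W`: on the second component `C₀` the unit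
`D = q¹² Δ(t^q)/Δ(t)` reduces to `H_q(j̄_q)`, `H_q` monic of degree `q - 1`. -/
theorem dE_sub_hasse_inW (hN : N = q * M') (hqN : q ∣ N) (hM'N : M' ∣ N) (hq : q.Prime)
    {V : ValuationSubring (FE E N)} (W : FE E N ≃ₐ[E] FE E N)
    (hV : IsVinf P E N V) (hW : IsFricke E N W) :
    (dE E N q hqN - Polynomial.aeval (jE E N q hqN) (hassePoly q hq))
        * (algebraMap E (FE E N) (q : E))⁻¹ ∈ V.comap (W : FE E N →+* FE E N) := by
  show W _ ∈ V
  exact mem_vinf_of_coe_eq_castE P E hV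
    (coe_fricke_dE_sub_hasse_div E N q M' hN hqN hM'N hq W hW)

end FELevel

/-! ## 4. Uniformiser and chart forms -/

section ChartForm

open Fermat.Agent.A2.Mod.H873

variable (P : ValuationSubring Qb) (E : IntermediateField ℚ Qb)

/-- `q` lies in the maximal ideal of `R_E` when `P` lies over `q`. -/
theorem natCast_mem_maximalIdeal_h438 {q : ℕ} (hP : P.LiesOverPrime q) :
    (q : RE P E) ∈ IsLocalRing.maximalIdeal (RE P E) := by
  rw [IsLocalRing.mem_maximalIdeal, mem_nonunits_iff]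
  intro hu
  obtain ⟨u, hu⟩ := hu.exists_right_inv
  have h1 : ((q : RE P E) : E) * (u : E) = 1 := by
    have := congrArg (fun z : RE P E => (z : E)) hu
    simpa using this
  have h2 : (q : Qb) * algebraMap E Qb (u : E) = 1 := by
    have := congrArg (algebraMap E Qb) h1
    simpa using this
  have hmem : algebraMap E Qb (u : E) ∈ P := u.2
  have hq : (q : Qb) ∈ P := natCast_mem P q
  have hunit : IsUnit (⟨(q : Qb), hq⟩ : P) := by
    refine IsUnit.of_mul_eq_one (⟨algebraMap E Qb (u : E), hmem⟩ : P) ?_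
    exact Subtype.ext h2
  have h3 : ((⟨(q : Qb), hq⟩ : P) : Qb) ∈ P.nonunits := hP
  rw [ValuationSubring.coe_mem_nonunits_iff, IsLocalRing.mem_maximalIdeal, mem_nonunits_iff] at h3
  exact h3 hunit

/-- In a `Setting` the uniformiser divides `q`. -/
theorem unif_dvd_natCast {M q : ℕ} {w : RE P E} (hS : Setting P E M q w) :
    w ∣ (q : RE P E) := by
  haveI := hS.dvr
  have h := natCast_mem_maximalIdeal_h438 P E hS.lies_over
  rw [hS.unif.maximalIdeal_eq, Ideal.mem_span_singleton] at h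
  exact h

variable (N q M' : ℕ) [NeZero N] [NeZero q] [NeZero M']

/-- **HUP, uniformiser form**: `D - H(j_q) ∈ w · V₀` for every `w ∈ R_E` dividing `q`. -/
theorem dE_sub_hasse_inW_unif (hN : N = q * M') (hqN : q ∣ N) (hM'N : M' ∣ N) (hq : q.Prime)
    (w : RE P E) (hwq : w ∣ (q : RE P E))
    {V : ValuationSubring (FE E N)} (W : FE E N ≃ₐ[E] FE E N)
    (hV : IsVinf P E N V) (hW : IsFricke E N W) :
    InW P E N (V.comap (W : FE E N →+* FE E N)) w
      (dE E N q hqN - Polynomial.aeval (jE E N q hqN) (hassePoly q hq)) := by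
  obtain ⟨r, hr⟩ := hwq
  have hq0 : (q : E) ≠ 0 := Nat.cast_ne_zero.mpr (NeZero.ne q)
  have hqE : (q : E) = (w : E) * (r : E) := by
    have := congrArg (fun z : RE P E => (z : E)) hr
    simpa using this
  have hw0 : (w : E) ≠ 0 := fun h => hq0 (by rw [hqE, h, zero_mul])
  have hr0 : (r : E) ≠ 0 := fun h => hq0 (by rw [hqE, h, mul_zero])
  have h1 := dE_sub_hasse_inW P E N q M' hN hqN hM'N hq W hV hW
  have h2 : cE P E N r ∈ V.comap (W : FE E N →+* FE E N) := by
    show W (cE P E N r) ∈ V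
    rw [cE, AlgEquiv.commutes]
    exact Fermat.Agent.A2.Mod.H378.cE_mem hV r
  have h3 := (V.comap (W : FE E N →+* FE E N)).mul_mem _ _ h1 h2
  have e : (dE E N q hqN - Polynomial.aeval (jE E N q hqN) (hassePoly q hq))
        * (algebraMap E (FE E N) (q : E))⁻¹ * cE P E N r
      = (dE E N q hqN - Polynomial.aeval (jE E N q hqN) (hassePoly q hq))
        * (cE P E N w)⁻¹ := by
    have hcw : cE P E N w ≠ 0 := (map_ne_zero_iff _ (algebraMap E (FE E N)).injective).mpr hw0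
    have hcr : cE P E N r ≠ 0 := (map_ne_zero_iff _ (algebraMap E (FE E N)).injective).mpr hr0
    have hcq : algebraMap E (FE E N) (q : E) = cE P E N w * cE P E N r := by
      rw [cE, cE, ← map_mul, hqE]
    rw [hcq, mul_inv, mul_assoc, mul_assoc, inv_mul_cancel₀ hcr, mul_one]
  rw [e] at h3
  exact h3

variable (M : ℕ) [NeZero M]

/-- `j` and `j_q` lie in the finite chart of `x = j · j_q`. -/
theorem jE_mem_chartAlg (hq : q.Prime) :
    jE E (M * q) 1 (one_dvd _) ∈ chartAlg P E (M * q) (xE E M q) ∧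
      jE E (M * q) q (dvd_mul_left q M) ∈ chartAlg P E (M * q) (xE E M q) := by
  constructor
  · rw [← Fermat.Agent.A2.Mod.H142.mem_chart_iff]
    refine isIntegralElem_of_isIntegral_closure _
      (isIntegral_closure_of_forall_valuationSubring fun V hx => ?_)
    exact (j_mem_of_x_mem E M q hq V hx).1
  · rw [← Fermat.Agent.A2.Mod.H142.mem_chart_iff]
    refine isIntegralElem_of_isIntegral_closure _
      (isIntegral_closure_of_forall_valuationSubring fun V hx => ?_)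
    exact (j_mem_of_x_mem E M q hq V hx).2

/-- `H(j_q)` lies in the finite chart, `H ∈ ℤ[X]`. -/
theorem aeval_jqE_mem_chartAlg (hq : q.Prime) (H : Polynomial ℤ) :
    Polynomial.aeval (jE E (M * q) q (dvd_mul_left q M)) H
      ∈ chartAlg P E (M * q) (xE E M q) := by
  have hj := (jE_mem_chartAlg P E q M hq).2
  have h := map_aeval_int (chartAlg P E (M * q) (xE E M q)).val.toRingHom
    (⟨_, hj⟩ : chartAlg P E (M * q) (xE E M q)) H
  have e : (chartAlg P E (M * q) (xE E M q)).val.toRingHom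
      (⟨_, hj⟩ : chartAlg P E (M * q) (xE E M q)) = jE E (M * q) q (dvd_mul_left q M) := rfl
  rw [e] at h
  rw [← h]
  exact Subtype.mem _

/-- **HUP, chart form** (level `M * q`, `B = chartAlg x`, `p₀` the cut of `V₀ = V∞.comap W`):
`D - H(j_q) ∈ p₀`, i.e. `D ≡ H_q(j_q)` in `B / p₀`. -/
theorem dE_sub_hasse_mem_cut (hq : q.Prime) (w : RE P E) (hwq : w ∣ (q : RE P E))
    {V : ValuationSubring (FE E (M * q))} (W : FE E (M * q) ≃ₐ[E] FE E (M * q))
    (hV : IsVinf P E (M * q) V) (hW : IsFricke E (M * q) W)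
    (p₀ : Ideal (chartAlg P E (M * q) (xE E M q)))
    (hp₀ : IsCut P E (M * q) w (V.comap (W : FE E (M * q) →+* FE E (M * q)))
      (chartAlg P E (M * q) (xE E M q)) p₀) :
    (⟨dE E (M * q) q (dvd_mul_left q M), dE_mem_chartAlg P E M q hq⟩
        - ⟨Polynomial.aeval (jE E (M * q) q (dvd_mul_left q M)) (hassePoly q hq),
            aeval_jqE_mem_chartAlg P E q M hq _⟩ : chartAlg P E (M * q) (xE E M q)) ∈ p₀ := by
  rw [hp₀]
  exact dE_sub_hasse_inW_unif P E (M * q) q M (Nat.mul_comm M q) (dvd_mul_left q M)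
    (dvd_mul_right M q) hq w hwq W hV hW

end ChartForm

end Fermat.Agent.S36.H438

end

end
-- ===== PACK-END S36/H438/UnitRed.lean

-- ===== PACK-BEGIN Ribet/H152/GoodInertia.lean
section
/-
RIBET / WALL-p, leaf NC-IF, part 2 (helper152): every good level contains the inertia field.

`P` a valuation subring of `ℚ̄` over the prime `q`, `E ⊆ ℚ̄` an intermediate field such that
`R_E = P ∩ E` is henselian with algebraically closed residue field (e.g. `A2.GoodField P E`).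
Then `Gal(ℚ̄/E) ⊆ I_P`, i.e. `ℚ̄^{I_P} ⊆ E` (`goodUp_inertiaField_le`,
`inertiaField_le_of_goodField`).  Consequently all lemmas of `A2/IF/H429` with the hypothesis
`inertiaField P ≤ E` apply to EVERY good level.
-/



set_option autoImplicit false
set_option linter.unusedSectionVars false
set_option linter.style.haveILetI false

namespace Fermat.Agent.Ribet.H152

open Polynomial Fermat.Agent.A2 Fermat.Agent.A2.IF.H429
open Fermat.Agent.S55.Bridge Fermat.Agent.S55.Bridge.H594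

attribute [local instance] isAlgebraic_Qbar isGalois_Qbar

variable (P : ValuationSubring Qb) (E : IntermediateField ℚ Qb)

/-- The inclusion `R_E → P` is a local homomorphism. -/
theorem goodUp_isLocalHom_inclRE : IsLocalHom (inclRE P E) := by
  constructor
  intro a ha
  rw [← IsLocalRing.notMem_maximalIdeal, mem_maximalIdeal_RE_iff]
  intro h
  have h1 : inclRE P E a ∈ IsLocalRing.maximalIdeal P := by
    rw [← ValuationSubring.coe_mem_nonunits_iff]
    exact h
  exact (IsLocalRing.mem_maximalIdeal _).mp h1 ha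

/-- If the residue field of `R_E` is algebraically closed, every element of `P` is congruent
modulo the maximal ideal to an element of `R_E`. -/
theorem goodUp_exists_approx (q : ℕ) (hq : q.Prime) (hP : P.LiesOverPrime q)
    [IsAlgClosed (IsLocalRing.ResidueField (P.comap (algebraMap E Qb)))]
    (y : Qb) (hy : y ∈ P) : ∃ a : Qb, a ∈ E ∧ a ∈ P ∧ y - a ∈ P.nonunits := by
  haveI : IsLocalHom (inclRE P E) := goodUp_isLocalHom_inclRE P E
  let φ : IsLocalRing.ResidueField (P.comap (algebraMap E Qb)) →+* IsLocalRing.ResidueField P :=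
    IsLocalRing.ResidueField.map (inclRE P E)
  letI : Algebra (IsLocalRing.ResidueField (P.comap (algebraMap E Qb)))
      (IsLocalRing.ResidueField P) := φ.toAlgebra
  obtain ⟨N, hqN, hN, hyN⟩ := exists_pow_sub_mem_nonunits P q hq hP y hy
  have hN2 : 1 < N := by
    have h1 := Nat.le_of_dvd hN hqN
    have h2 := hq.two_le
    omega
  let y' : P := ⟨y, hy⟩
  set yb : IsLocalRing.ResidueField P := IsLocalRing.residue P y' with hyb
  have hroot : yb ^ N - yb = 0 := by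
    rw [hyb, ← map_pow, ← map_sub, IsLocalRing.residue_eq_zero_iff,
      ← ValuationSubring.coe_mem_nonunits_iff]
    exact hyN
  have hint : IsIntegral (IsLocalRing.ResidueField (P.comap (algebraMap E Qb))) yb := by
    refine ⟨X ^ N - X, monic_X_pow_sub (by rw [degree_X]; exact_mod_cast hN2), ?_⟩
    rw [eval₂_sub, eval₂_pow, eval₂_X]
    exact hroot
  have hdeg := IsAlgClosed.degree_eq_one_of_irreducible
    (IsLocalRing.ResidueField (P.comap (algebraMap E Qb))) (minpoly.irreducible hint)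
  obtain ⟨ab, hab⟩ := minpoly.mem_range_of_degree_eq_one
    (IsLocalRing.ResidueField (P.comap (algebraMap E Qb))) yb hdeg
  obtain ⟨a, rfl⟩ := IsLocalRing.residue_surjective ab
  refine ⟨((a : E) : Qb), (a : E).2, a.2, ?_⟩
  have h1 : IsLocalRing.residue P (inclRE P E a) = yb := by
    rw [← hab]
    rfl
  have h2 : IsLocalRing.residue P (y' - inclRE P E a) = 0 := by
    rw [map_sub, h1]
    exact sub_self _
  rw [IsLocalRing.residue_eq_zero_iff, ← ValuationSubring.coe_mem_nonunits_iff] at h2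
  exact h2

/-- **`Gal(ℚ̄/E) ⊆ I_P`** for `R_E` henselian with algebraically closed residue field. -/
theorem goodUp_mem_inertia (q : ℕ) (hq : q.Prime) (hP : P.LiesOverPrime q)
    [HenselianLocalRing (P.comap (algebraMap E Qb))]
    [IsAlgClosed (IsLocalRing.ResidueField (P.comap (algebraMap E Qb)))]
    (σ : Qb ≃ₐ[ℚ] Qb) (hσ : ∀ e ∈ E, σ e = e) : σ ∈ P.inertiaSubgroupIn ℚ := by
  rw [Fermat.Agent.A2.IF.H9.mem_inertiaSubgroupIn_iff_forall]
  intro y hy
  obtain ⟨a, haE, -, hya⟩ := goodUp_exists_approx P E q hq hP y hy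
  have h1 : σ y - y = σ (y - a) - (y - a) := by
    rw [map_sub, hσ a haE]
    ring
  rw [h1, ValuationSubring.mem_nonunits_iff]
  have h2 : P.valuation (σ (y - a)) < 1 := by
    rw [goodUp_valuation_eq P E σ hσ]
    exact (ValuationSubring.mem_nonunits_iff P).mp hya
  have h3 : P.valuation (y - a) < 1 := (ValuationSubring.mem_nonunits_iff P).mp hya
  exact lt_of_le_of_lt (P.valuation.map_sub _ _) (max_lt h2 h3)

/-- **The inertia field lies in every level with `R_E` henselian and `k_E` algebraically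
closed.** -/
theorem goodUp_inertiaField_le (q : ℕ) (hq : q.Prime) (hP : P.LiesOverPrime q)
    [HenselianLocalRing (P.comap (algebraMap E Qb))]
    [IsAlgClosed (IsLocalRing.ResidueField (P.comap (algebraMap E Qb)))] :
    inertiaField P ≤ E := by
  intro x hx
  apply mem_of_fixed E
  intro σ hσ
  exact (mem_inertiaField_iff P).mp hx σ (goodUp_mem_inertia P E q hq hP σ hσ)

/-- **Every good level contains the inertia field.** -/
theorem inertiaField_le_of_goodField (q : ℕ) (hq : q.Prime) (hP : P.LiesOverPrime q)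
    (hE : GoodField P E) : inertiaField P ≤ E := by
  haveI := hE.henselian
  haveI := hE.algClosed
  exact goodUp_inertiaField_le P E q hq hP

/-- In a good level, the automorphisms fixing the level preserve the valuation. -/
theorem valuation_map_eq_of_goodField (hE : GoodField P E) (σ : Qb ≃ₐ[ℚ] Qb)
    (hσ : ∀ e ∈ E, σ e = e) (x : Qb) : P.valuation (σ x) = P.valuation x := by
  haveI := hE.henselian
  exact goodUp_valuation_eq P E σ hσ x

end Fermat.Agent.Ribet.H152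

end
-- ===== PACK-END Ribet/H152/GoodInertia.lean

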