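import Fermat.Agent.Pack.S59C.E1L3
import Fermat.Agent.Pack.S59C.E0L0
import Fermat.Agent.Pack.S59C.E7L0
import Fermat.Agent.Pack.S43MC.G0E20L3
import Fermat.Agent.Pack.S59C.E1L0
import Fermat.Agent.Pack.S43MC.G0E16L0
import Fermat.Agent.Pack.S44C.G0E6L2
import Fermat.Agent.Pack.S43MC.G0E23L3
import Fermat.Agent.Pack.S43GC.G0E12L1
import Fermat.Agent.Pack.S43MC.G0E22L1
import Fermat.Agent.Pack.S59C.E4L1
import Fermat.Agent.Pack.S43GC.G0E19L3
import Fermat.Agent.Pack.S59C.E5L3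
import Fermat.Agent.Pack.S43GC.G0E15L3
import Fermat.Agent.Pack.S43GC.G0E20L1
import Fermat.Agent.Pack.S43GC.G0E16L3
import Fermat.Agent.Pack.S43GC.G0E11L0
import Fermat.Agent.Pack.S43GC.G0E2L0
import Fermat.Agent.Pack.S43MC.G0E22L3
import Fermat.Agent.Pack.S44C.G0E17L3
import Fermat.Agent.Pack.S59C.E2L1
import Fermat.Agent.Pack.S43MC.G0E9L3
import Fermat.Agent.Pack.S59C.E7L2

set_option linter.all false

-- ===== PACK-BEGIN S58/H94/Top.lean
section








/-!
# Row S58 (architect helper94): the relation-based top glue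

`s58_of : S35Statement → S36Statement → ResidualStatement → CoeffHenselStatement → S58Statement`

(Props of `S58/Spec.lean` and `S58/H94/Spec.lean`).  The coefficient ring is always
`O' = ℤ_[lam]`; the Tate module of `W` is only used through its quadratic relations
(`S58/H94/Compare.lean`), so no determinant, no irreducibility at the auxiliary prime and no
general complete DVR are needed.
-/

set_option autoImplicit false

open Polynomial

namespace Fermat.Agent.S58.H94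

open Fermat.Agent.S58 CuspForm CongruenceSubgroup ModularFormClass

/-- The residue field of `ℤ_[p]` is finite. -/
theorem finite_residueField_padicInt_h94 (p : ℕ) [Fact p.Prime] :
    Finite (IsLocalRing.ResidueField ℤ_[p]) := by
  have : Finite (ZMod p) := inferInstance
  exact Finite.of_equiv (ZMod p) (PadicInt.residueField (p := p)).symm.toEquiv

/-- `p` lies in the maximal ideal of `ℤ_[p]`. -/
theorem natCast_mem_maximalIdeal_padicInt_h94 (p : ℕ) [Fact p.Prime] :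
    (p : ℤ_[p]) ∈ IsLocalRing.maximalIdeal ℤ_[p] := by
  rw [PadicInt.maximalIdeal_eq_span_p]
  exact Ideal.subset_span rfl

section Iota

/-- A ring homomorphism on a subalgebra of `ℂ` restricts to every subring contained in it. -/
noncomputable def iotaOf {R' : Type*} [Semiring R'] (A : Subalgebra ℤ ℂ) (φ : A →+* R')
    (Rg : Subring ℂ) (hle : ∀ x ∈ Rg, x ∈ A) : Rg →+* R' where
  toFun x := φ ⟨x.1, hle x.1 x.2⟩
  map_one' := map_one φ
  map_mul' x y := map_mul φ ⟨x.1, hle x.1 x.2⟩ ⟨y.1, hle y.1 y.2⟩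
  map_zero' := map_zero φ
  map_add' x y := map_add φ ⟨x.1, hle x.1 x.2⟩ ⟨y.1, hle y.1 y.2⟩

theorem iotaOf_injective {R' : Type*} [Semiring R'] (A : Subalgebra ℤ ℂ) (φ : A →+* R')
    (hφ : Function.Injective φ) (Rg : Subring ℂ) (hle : ∀ x ∈ Rg, x ∈ A) :
    Function.Injective (iotaOf A φ Rg hle) := by
  intro x y h
  have h1 : (⟨x.1, hle x.1 x.2⟩ : A) = ⟨y.1, hle y.1 y.2⟩ := hφ h
  exact Subtype.ext (congrArg (fun z : A => (z : ℂ)) h1)

/-- The integers as a subalgebra of `ℂ` map to every ring. -/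
noncomputable def phiInt (R' : Type*) [Ring R'] : (⊥ : Subalgebra ℤ ℂ) →+* R' :=
  (Int.castRingHom R').comp
    (Algebra.botEquivOfInjective (R := ℤ) (A := ℂ) (algebraMap ℤ ℂ).injective_int).toAlgHom.toRingHom

theorem phiInt_injective (R' : Type*) [Ring R'] [CharZero R'] :
    Function.Injective (phiInt R') := by
  intro x y h
  have h1 : (Algebra.botEquivOfInjective (R := ℤ) (A := ℂ) (algebraMap ℤ ℂ).injective_int) x
      = (Algebra.botEquivOfInjective (R := ℤ) (A := ℂ) (algebraMap ℤ ℂ).injective_int) y :=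
    Int.cast_injective (α := R') h
  exact (Algebra.botEquivOfInjective (R := ℤ) (A := ℂ) (algebraMap ℤ ℂ).injective_int).injective h1

theorem intCast_mem_bot_h94 (a : ℤ) : ((a : ℤ) : ℂ) ∈ (⊥ : Subalgebra ℤ ℂ) :=
  Algebra.mem_bot.mpr ⟨a, by simp⟩

/-- Every ring homomorphism from the ring generated by an algebraic integer to a domain of
characteristic zero is injective. -/
theorem injective_of_adjoin_h94 {α : ℂ} (hα : IsIntegral ℤ α) {R' : Type*} [CommRing R']
    [IsDomain R'] [CharZero R'] (φ : Algebra.adjoin ℤ ({α} : Set ℂ) →+* R') :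
    Function.Injective φ := by
  have : Algebra.IsIntegral ℤ (Algebra.adjoin ℤ ({α} : Set ℂ)) :=
    Algebra.IsIntegral.adjoin (fun x hx => by
      rw [Set.mem_singleton_iff] at hx
      rw [hx]
      exact hα)
  rw [injective_iff_map_eq_zero]
  intro x hx
  have hker : (RingHom.ker φ).comap (algebraMap ℤ (Algebra.adjoin ℤ ({α} : Set ℂ))) = ⊥ := by
    rw [eq_bot_iff]
    intro n hn
    rw [Ideal.mem_comap, RingHom.mem_ker] at hn
    have h1 : (n : R') = 0 := by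
      rw [← hn]
      simp
    rw [Ideal.mem_bot]
    exact_mod_cast h1
  have := Ideal.eq_bot_of_comap_eq_bot hker
  have hx' : x ∈ RingHom.ker φ := hx
  rw [this, Ideal.mem_bot] at hx'
  exact hx'

end Iota

/-- **The package at a prime `lam`, from S35.** -/
theorem package35_h94 (h35 : S35Statement)
    (W : WeierstrassCurve ℤ) (hΔ : W.Δ ≠ 0) (hss : W.IsSemistableModel)
    {N M : ℕ} (hN0 : N ≠ 0) (hMN : M ∣ N) [NeZero M]
    (g : CuspForm (Gamma0 M) 2) (hg : g.IsNewform)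
    (hgW : ∀ ℓ : ℕ, ℓ.Prime → ¬ ℓ ∣ N → qCoeff ⇑g ℓ = (W.apOfModel ℓ : ℂ))
    (hbad : ∀ ℓ : ℕ, ℓ.Prime → (ℓ : ℤ) ∣ W.Δ → ℓ ∣ N)
    (lam : ℕ) [Fact lam.Prime] (S' : Finset ℕ) (hlamS' : lam ∈ S')
    (hMS' : ∀ q : ℕ, q.Prime → q ∣ M → q ∈ S')
    (A : Subalgebra ℤ ℂ) (φ : A →+* ℤ_[lam]) (hφ : Function.Injective φ)
    (hA : ∀ ℓ : ℕ, ℓ.Prime → ¬ ℓ ∣ M → ℓ ∉ (↑S' : Set ℕ) → qCoeff ⇑g ℓ ∈ A) :
    (∀ ℓ : ℕ, ℓ.Prime → W.IsGoodPrimeFor ℓ → ℓ ∉ S' → ¬ ℓ ∣ M →
      qCoeff ⇑g ℓ = (W.apOfModel ℓ : ℂ)) ∧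
    (∀ q : ℕ, q.Prime → q ≠ lam → q ∣ M → ¬ q ^ 2 ∣ M → ¬ W.IsGoodPrimeFor q) := by
  classical
  have := finite_residueField_padicInt_h94 lam
  set chig : heckeAlgebra M 2 (↑S' : Set ℕ) →+* ℂ := chigOf hg.1 (↑S' : Set ℕ) with hchigdef
  have hchig : ∀ (ℓ : ℕ) (hℓ : ℓ.Prime) (hℓM : ¬ ℓ ∣ M) (hℓS : ℓ ∉ (↑S' : Set ℕ)),
      chig (heckeAlgebra.T hℓ hℓM hℓS) = qCoeff ⇑g ℓ :=
    fun ℓ hℓ hℓM hℓS => chigOf_T hg.1 _ hℓ hℓM hℓS
  have hle : ∀ x ∈ chig.range, x ∈ A := by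
    intro x hx
    exact chigOf_range_le hg.1 (↑S' : Set ℕ) A.toSubring
      (fun ℓ hℓ hℓM hℓS => hA ℓ hℓ hℓM hℓS)
      (fun q hq hqM => Finset.mem_coe.mpr (hMS' q hq hqM)) hx
  set iota : chig.range →+* ℤ_[lam] := iotaOf A φ chig.range hle with hiotadef
  have hiota : Function.Injective iota := iotaOf_injective A φ hφ chig.range hle
  obtain ⟨O'', j1, j2, j3, j4, j5, j6, j7, j8, j9, hinj, ρ, hρ, hρst⟩ :=
    h35 hg lam S' ℤ_[lam] (natCast_mem_maximalIdeal_padicInt_h94 lam) chig hchig iota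
      hlamS' hMS'
  have hlamO'' : (lam : O'') ∈ IsLocalRing.maximalIdeal O'' :=
    natCast_mem_maximalIdeal_of_isLocalHom (natCast_mem_maximalIdeal_padicInt_h94 lam)
  -- the comparison set
  have hT : ∀ ℓ : ℕ, ℓ.Prime → ℓ ∉ S' ∪ N.primeFactors → ¬ ℓ ∣ N ∧ ¬ ℓ ∣ M ∧
      ℓ ∉ (↑S' : Set ℕ) := by
    intro ℓ hℓ hℓT
    rw [Finset.mem_union, not_or] at hℓT
    have hℓN : ¬ ℓ ∣ N := fun h => hℓT.2 (Nat.mem_primeFactors.mpr ⟨hℓ, h, hN0⟩)
    exact ⟨hℓN, fun h => hℓN (dvd_trans h hMN), fun h => hℓT.1 (Finset.mem_coe.mp h)⟩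
  obtain ⟨cmpF, -⟩ := compare_h94 W hΔ hss lam hlamO'' (S' ∪ N.primeFactors)
    (Finset.mem_union_left _ hlamS')
    (fun ℓ hℓ hd => Finset.mem_union_right _ (Nat.mem_primeFactors.mpr ⟨hℓ, hbad ℓ hℓ hd, hN0⟩))
    ρ (by
      intro ℓ hℓ hℓT A' hA' σ hσ
      obtain ⟨hℓN, hℓM, hℓS⟩ := hT ℓ hℓ hℓT
      rw [hρ ℓ hℓ hℓM hℓS A' hA' σ hσ,
        iota_eq_intCast chig iota _ (W.apOfModel ℓ) ((hchig ℓ hℓ hℓM hℓS).trans (hgW ℓ hℓ hℓN)),
        map_intCast])
  refine ⟨?_, ?_⟩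
  · intro ℓ hℓ hgood hℓS' hℓM
    have hℓlam : ℓ ≠ lam := fun h => hℓS' (h ▸ hlamS')
    have hℓS : ℓ ∉ (↑S' : Set ℕ) := fun h => hℓS' (Finset.mem_coe.mp h)
    obtain ⟨A', σ, hA', hσ⟩ := Fermat.Agent.S54.exists_frobenius ℓ hℓ
    have h1 := hρ ℓ hℓ hℓM hℓS A' hA' σ hσ
    have h3 := cmpF ℓ hℓ hℓlam hgood A' hA' σ hσ _ h1
    have h4 : (iota.comp chig.rangeRestrict) (heckeAlgebra.T hℓ hℓM hℓS)
        = ((W.apOfModel ℓ : ℤ) : ℤ_[lam]) :=
      hinj (by rw [h3, map_intCast])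
    rw [← hchig ℓ hℓ hℓM hℓS]
    exact eq_intCast_of_iota chig iota hiota _ _ h4
  · intro q hq hqlam hqM hq2 hgood
    obtain ⟨A', σ, hA', hσ⟩ := Fermat.Agent.S54.exists_frobenius q hq
    rcases hρst q hq hqlam hqM hq2 A' hA' σ hσ with h1 | h1
    · have h3 := cmpF q hq hqlam hgood A' hA' σ hσ _ h1
      have h4 : (((q : ℤ) + 1 : ℤ) : O'') = ((W.apOfModel q : ℤ) : O'') := by
        rw [← h3]; push_cast; rfl
      exact (Fermat.Agent.S58.H285.pointCount W q hq).1 (Int.cast_injective h4).symm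
    · rw [quad_plus_eq] at h1
      have h3 := cmpF q hq hqlam hgood A' hA' σ hσ _ h1
      have h4 : ((-((q : ℤ) + 1) : ℤ) : O'') = ((W.apOfModel q : ℤ) : O'') := by
        rw [← h3]; push_cast; rfl
      exact (Fermat.Agent.S58.H285.pointCount W q hq).2 (Int.cast_injective h4).symm

/-- **No prime `q ≠ p` with `q² ∥ M`, from S36.** -/
theorem no_sq_h94 (h36 : S36Statement) (hres : ResidualStatement)
    (W : WeierstrassCurve ℤ) (hΔ : W.Δ ≠ 0) (hss : W.IsSemistableModel)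
    {N M : ℕ} (hN0 : N ≠ 0) (hMN : M ∣ N) [NeZero M]
    (g : CuspForm (Gamma0 M) 2) (hg : g.IsNewform)
    (hgW : ∀ ℓ : ℕ, ℓ.Prime → ¬ ℓ ∣ N → qCoeff ⇑g ℓ = (W.apOfModel ℓ : ℂ))
    (hbad : ∀ ℓ : ℕ, ℓ.Prime → (ℓ : ℤ) ∣ W.Δ → ℓ ∣ N)
    (p : ℕ) [Fact p.Prime] (hp2 : p ≠ 2) (hirr : W.ModRepIsIrreducible p)
    (q : ℕ) (hq : q.Prime) (hqp : q ≠ p) : M.factorization q ≠ 2 := by
  classical
  intro hfact
  have := finite_residueField_padicInt_h94 p
  have hM0 : M ≠ 0 := NeZero.ne M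
  set S' : Finset ℕ := insert p N.primeFactors with hS'
  have hpS' : p ∈ S' := Finset.mem_insert_self _ _
  have hMS' : ∀ q : ℕ, q.Prime → q ∣ M → q ∈ S' := fun q hq hqM =>
    Finset.mem_insert_of_mem (Nat.mem_primeFactors.mpr ⟨hq, dvd_trans hqM hMN, hN0⟩)
  have hT : ∀ ℓ : ℕ, ℓ.Prime → ℓ ∉ S' → ¬ ℓ ∣ N ∧ ¬ ℓ ∣ M ∧ ℓ ∉ (↑S' : Set ℕ) ∧ ℓ ≠ p := by
    intro ℓ hℓ hℓT
    have h1 : ℓ ≠ p := fun h => hℓT (h ▸ hpS')
    have hℓN : ¬ ℓ ∣ N := fun h =>
      hℓT (Finset.mem_insert_of_mem (Nat.mem_primeFactors.mpr ⟨hℓ, h, hN0⟩))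
    exact ⟨hℓN, fun h => hℓN (dvd_trans h hMN), fun h => hℓT (Finset.mem_coe.mp h), h1⟩
  set chig : heckeAlgebra M 2 (↑S' : Set ℕ) →+* ℂ := chigOf hg.1 (↑S' : Set ℕ) with hchigdef
  have hchig : ∀ (ℓ : ℕ) (hℓ : ℓ.Prime) (hℓM : ¬ ℓ ∣ M) (hℓS : ℓ ∉ (↑S' : Set ℕ)),
      chig (heckeAlgebra.T hℓ hℓM hℓS) = qCoeff ⇑g ℓ :=
    fun ℓ hℓ hℓM hℓS => chigOf_T hg.1 _ hℓ hℓM hℓS
  have hle : ∀ x ∈ chig.range, x ∈ (⊥ : Subalgebra ℤ ℂ) := by
    intro x hx
    refine chigOf_range_le hg.1 (↑S' : Set ℕ) (⊥ : Subalgebra ℤ ℂ).toSubring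
      (fun ℓ hℓ hℓM hℓS => ?_)
      (fun q hq hqM => Finset.mem_coe.mpr (hMS' q hq hqM)) hx
    have hℓN : ¬ ℓ ∣ N := (hT ℓ hℓ (fun h => hℓS (Finset.mem_coe.mpr h))).1
    rw [hgW ℓ hℓ hℓN]
    exact intCast_mem_bot_h94 _
  set iota : chig.range →+* ℤ_[p] := iotaOf ⊥ (phiInt ℤ_[p]) chig.range hle with hiotadef
  obtain ⟨O'', j1, j2, j3, j4, j5, j6, j7, j8, j9, hinj, ρ, hρ, hρnu⟩ :=
    h36 hg p S' ℤ_[p] (natCast_mem_maximalIdeal_padicInt_h94 p) hp2 chig hchig iota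
      hpS' hMS' (by
        intro O'' _ _ _ _ _ _ _ _ _ _ ρ hρ
        have hpO'' : (p : O'') ∈ IsLocalRing.maximalIdeal O'' :=
          natCast_mem_maximalIdeal_of_isLocalHom (natCast_mem_maximalIdeal_padicInt_h94 p)
        refine hres p hp2 W hΔ hirr O'' hpO'' ρ S' ?_
        intro ℓ hℓ hℓT A' hA' σ hσ
        obtain ⟨hℓN, hℓM, hℓS, hℓp⟩ := hT ℓ hℓ hℓT
        rw [hρ ℓ hℓ hℓp hℓM hℓS A' hA' σ hσ,
          iota_eq_intCast chig iota _ (W.apOfModel ℓ)
            ((hchig ℓ hℓ hℓM hℓS).trans (hgW ℓ hℓ hℓN)), map_intCast])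
  have hpO'' : (p : O'') ∈ IsLocalRing.maximalIdeal O'' :=
    natCast_mem_maximalIdeal_of_isLocalHom (natCast_mem_maximalIdeal_padicInt_h94 p)
  obtain ⟨-, cmpI⟩ := compare_h94 W hΔ hss p hpO'' S' hpS'
    (fun ℓ hℓ hd => Finset.mem_insert_of_mem
      (Nat.mem_primeFactors.mpr ⟨hℓ, hbad ℓ hℓ hd, hN0⟩))
    ρ (by
      intro ℓ hℓ hℓT A' hA' σ hσ
      obtain ⟨hℓN, hℓM, hℓS, -⟩ := hT ℓ hℓ hℓT
      rw [hρ ℓ hℓ hℓM hℓS A' hA' σ hσ,
        iota_eq_intCast chig iota _ (W.apOfModel ℓ) ((hchig ℓ hℓ hℓM hℓS).trans (hgW ℓ hℓ hℓN)),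
        map_intCast])
  exact hρnu q hq hqp hfact (cmpI q hq hqp)

/-- **S58 from S35, S36, RES and COEFF-HENSEL.** -/
theorem s58_of (h35 : S35Statement) (h36 : S36Statement) (hres : ResidualStatement)
    (hcoeff : CoeffHenselStatement) : S58Statement := by
  intro W hss N p _ hp2 hirr hp2N hN hbad hN3
  classical
  have hN0 : N ≠ 0 := by
    rintro rfl
    exact hN3 2 Nat.prime_two (dvd_zero _)
  have : NeZero N := ⟨hN0⟩
  have hΔ : W.Δ ≠ 0 := by
    intro h0
    obtain ⟨ℓ, hℓN, hℓ⟩ := Nat.exists_infinite_primes (N + 1)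
    have h1 := hbad ℓ hℓ (by rw [h0]; exact dvd_zero _)
    have h2 := Nat.le_of_dvd (Nat.pos_of_ne_zero hN0) h1
    omega
  obtain ⟨f, hf, hfa⟩ := hN
  obtain ⟨M, hMN, g, hg, hga⟩ := Fermat.Agent.Lib.Newform.descent N f hf
  have hM0 : M ≠ 0 := fun h => hN0 (by rw [h] at hMN; exact zero_dvd_iff.mp hMN)
  have : NeZero M := ⟨hM0⟩
  have hgW : ∀ ℓ : ℕ, ℓ.Prime → ¬ ℓ ∣ N → qCoeff ⇑g ℓ = (W.apOfModel ℓ : ℂ) :=
    fun ℓ hℓ hℓN => (hga ℓ hℓ hℓN).trans (hfa ℓ hℓ (fun hd => hℓN (hbad ℓ hℓ hd)) hℓN)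
  -- `M` is squarefree
  have hsq : Squarefree M := by
    refine squarefree_of_forall_not_sq_dvd fun q hq hq2 => ?_
    by_cases hqp : q = p
    · subst hqp
      exact hp2N (dvd_trans hq2 hMN)
    · exact no_sq_h94 h36 hres W hΔ hss hN0 hMN g hg hgW hbad p hp2 hirr q hq hqp
        (factorization_eq_two_of_sq_dvd hq hM0 hq2 (fun h3 => hN3 q hq (dvd_trans h3 hMN)))
  -- the primes of `M` are bad
  have hMbad : ∀ q : ℕ, q.Prime → q ∣ M → (q : ℤ) ∣ W.Δ := by
    intro q hq hqM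
    have hq2 : ¬ q ^ 2 ∣ M := by
      intro h
      have := (Nat.squarefree_iff_prime_squarefree.mp hsq) q hq
      exact this (by rwa [← pow_two])
    by_contra hgood
    -- an auxiliary prime `lam ≠ q`
    obtain ⟨lam, hlam, hlamq⟩ : ∃ lam : ℕ, lam.Prime ∧ q ≠ lam := by
      by_cases h2 : q = 2
      · exact ⟨3, by norm_num, by omega⟩
      · exact ⟨2, Nat.prime_two, h2⟩
    have : Fact lam.Prime := ⟨hlam⟩
    have hpk := package35_h94 h35 W hΔ hss hN0 hMN g hg hgW hbad lam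
      (insert lam N.primeFactors) (Finset.mem_insert_self _ _)
      (fun q hq hqM => Finset.mem_insert_of_mem
        (Nat.mem_primeFactors.mpr ⟨hq, dvd_trans hqM hMN, hN0⟩))
      ⊥ (phiInt ℤ_[lam]) (phiInt_injective ℤ_[lam])
      (by
        intro ℓ hℓ _ hℓS
        have hℓN : ¬ ℓ ∣ N := fun h => hℓS (Finset.mem_coe.mpr
          (Finset.mem_insert_of_mem (Nat.mem_primeFactors.mpr ⟨hℓ, h, hN0⟩)))
        rw [hgW ℓ hℓ hℓN]
        exact intCast_mem_bot_h94 _)
    exact hpk.2 q hq hlamq hqM hq2 hgood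
  have hMD : M ∣ W.conductorLevel :=
    dvd_of_squarefree_of_prime_dvd hsq fun q hq hqM =>
      (W.prime_dvd_conductorLevel_iff hΔ hq).mpr (hMbad q hq hqM)
  obtain ⟨g', hg', hg'a⟩ := Fermat.Agent.Lib.Newform.stab M W.conductorLevel hMD g hg.1
  refine ⟨g', hg', fun ℓ hℓ hgood hℓD => ?_⟩
  have hℓM : ¬ ℓ ∣ M := fun h => hℓD (dvd_trans h hMD)
  rw [hg'a ℓ hℓ hℓD]
  by_cases hℓN : ℓ ∣ N
  · -- the coefficient ring `ℤ[a_ℓ(g)]` and an auxiliary prime `lam ≠ ℓ`
    obtain ⟨lam, hlam, hlamℓ, ⟨φ⟩⟩ :=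
      hcoeff (qCoeff ⇑g ℓ) (isIntegral_qCoeff_h94 hg.1 hℓ hℓM) {ℓ}
    have : Fact lam.Prime := hlam
    have hlamℓ' : lam ≠ ℓ := fun h => hlamℓ (Finset.mem_singleton.mpr h)
    have hpk := package35_h94 h35 W hΔ hss hN0 hMN g hg hgW hbad lam
      ((insert lam N.primeFactors).erase ℓ)
      (Finset.mem_erase.mpr ⟨hlamℓ', Finset.mem_insert_self _ _⟩)
      (fun q hq hqM => Finset.mem_erase.mpr ⟨fun h => hℓM (h ▸ hqM),
        Finset.mem_insert_of_mem (Nat.mem_primeFactors.mpr ⟨hq, dvd_trans hqM hMN, hN0⟩)⟩)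
      (Algebra.adjoin ℤ ({qCoeff ⇑g ℓ} : Set ℂ)) φ
      (injective_of_adjoin_h94 (isIntegral_qCoeff_h94 hg.1 hℓ hℓM) φ)
      (by
        intro ℓ' hℓ' _ hℓ'S
        by_cases h : ℓ' = ℓ
        · rw [h]
          exact Algebra.subset_adjoin (Set.mem_singleton _)
        · have hℓ'N : ¬ ℓ' ∣ N := fun hd => hℓ'S (Finset.mem_coe.mpr
            (Finset.mem_erase.mpr ⟨h, Finset.mem_insert_of_mem
              (Nat.mem_primeFactors.mpr ⟨hℓ', hd, hN0⟩)⟩))
          rw [hgW ℓ' hℓ' hℓ'N]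
          exact Subalgebra.intCast_mem _ _)
    exact hpk.1 ℓ hℓ hgood (Finset.notMem_erase _ _) hℓM
  · exact hgW ℓ hℓ hℓN

end Fermat.Agent.S58.H94

end
-- ===== PACK-END S58/H94/Top.lean

-- ===== PACK-BEGIN S59/TW/H709/EsAct.lean
section



/-!
# S59 / cell TW, layer 3 (AUT), piece ES-ACT of MOD0 (helper709)

**The Hecke ring acts on every Hecke-stable submodule of parabolic classes.**

`X = Hom(Γ₀(N), O)`, `O` a domain of characteristic `0`, `S` a set of primes containing the primes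
dividing `N`, `V ⊆ X` an `O`-submodule such that

* every `v ∈ V` is parabolic (`IsParabolicHom`; implied by `S41.Spec.IsCuspidal`, `H653.IsCuspidalK`),
* `V` is stable under the `T_ℓ` (`ℓ ∤ N`, `ℓ ∉ S`), `T_ℓ` = `heckeTransfer` = `H653.TK N (Γ₀(N)) ℓ`.

Then the abstract Hecke ring `heckeAlgebra N 2 S ⊆ End_ℂ S₂(Γ₀(N))` acts on `V`, `T_ℓ ↦ T_ℓ`:
`esAct : heckeAlgebra N 2 S →+* Module.End O V` with `coe_esAct_T` / `coe_esAct_TK`
(Eichler–Shimura: `V ⊆ Hom(Λ, O)`, `Λ` the period lattice, on which the Hecke ring acts by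
transposes; `NM/H709/{Factor,Action}.lean`).

* `exists_esAct`, `exists_esAct_TK` : the existential forms (input `f` of the LOC-ACT lemmas
  `TW.H24.exists_algHom_of_nilp_T`, `TW.H564.exists_heckeLocal_action`).
-/

set_option autoImplicit false

noncomputable section

namespace Fermat.Agent.S59.TW.H709

open CongruenceSubgroup ModularCurve ModularCurve.Period CuspForm
open Fermat.Agent.S30.H709 Fermat.Agent.S41.Spec Fermat.Agent.S29 Fermat.Agent.S29.H642
open Fermat.Agent.S59.NM.H709 Fermat.Agent.S59.TW.H653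
open scoped MatrixGroups

variable {N : ℕ} [NeZero N] {S : Set ℕ}
variable (O : Type) [CommRing O]

/-- `u ↦ u ∘ perCls`, as an `O`-linear map `Hom(Λ, O) → Hom(Γ₀(N), O)`. -/
def toClsLin (N : ℕ) [NeZero N] (O : Type) [CommRing O] :
    (_root_.Fermat.Agent.S30.H709.perLattice N →+ O) →ₗ[O] (Additive (Gamma0 N) →+ O) where
  toFun := toCls
  map_add' := toCls_add
  map_smul' := toCls_smul

@[simp] theorem toClsLin_apply (u : _root_.Fermat.Agent.S30.H709.perLattice N →+ O) : toClsLin N O u = toCls u := rfl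

/-- The submodule of `Hom(Λ, O)` corresponding to `V ⊆ Hom(Γ₀(N), O)`. -/
def preSub (V : Submodule O (Additive (Gamma0 N) →+ O)) : Submodule O (_root_.Fermat.Agent.S30.H709.perLattice N →+ O) :=
  V.comap (toClsLin N O)

theorem mem_preSub {V : Submodule O (Additive (Gamma0 N) →+ O)} {u : _root_.Fermat.Agent.S30.H709.perLattice N →+ O} :
    u ∈ preSub O V ↔ toCls u ∈ V := Iff.rfl

/-- Stability of `V` under the `T_ℓ` implies stability of `preSub V` under the whole Hecke ring. -/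
theorem actHom_mem_preSub (hNS : ∀ q : ℕ, q.Prime → q ∣ N → q ∈ S)
    (V : Submodule O (Additive (Gamma0 N) →+ O))
    (hstab : ∀ (l : ℕ) [Fact l.Prime] (hl : ¬ l ∣ N), l ∉ S → ∀ v ∈ V, heckeTransfer hl v ∈ V)
    (t : heckeAlgebra N 2 S) : ∀ u ∈ preSub O V, actHom O hNS t u ∈ preSub O V := by
  obtain ⟨t, ht⟩ := t
  induction ht using Algebra.adjoin_induction with
  | mem t ht =>
    rcases ht with ⟨l, hl, hlN, hlS, rfl⟩ | ⟨q, hqN, hq, hqS, rfl⟩
    · intro u hu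
      have : Fact l.Prime := ⟨hl⟩
      have h1 := toCls_actHom_T O hNS hlN hlS u
      rw [mem_preSub]
      have h2 : toCls (actHom O hNS (heckeAlgebra.T hl hlN hlS) u) ∈ V := by
        rw [h1]
        exact hstab l hlN hlS _ hu
      exact h2
    · exact absurd (hNS q hq hqN) hqS
  | algebraMap n =>
    intro u hu
    have h1 : (⟨algebraMap ℤ (Module.End ℂ (CuspForm (Gamma0 N) 2)) n,
        Subalgebra.algebraMap_mem _ n⟩ : heckeAlgebra N 2 S) = algebraMap ℤ _ n := rfl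
    rw [h1]
    have h2 : actHom O hNS (algebraMap ℤ (heckeAlgebra N 2 S) n) u = (n : O) • u := by
      rw [eq_intCast, map_intCast]
      refine AddMonoidHom.ext fun x => ?_
      simp
    rw [h2]
    exact Submodule.smul_mem _ _ hu
  | add t s ht hs iht ihs =>
    intro u hu
    have h1 : (⟨t + s, Subalgebra.add_mem _ ht hs⟩ : heckeAlgebra N 2 S) = ⟨t, ht⟩ + ⟨s, hs⟩ := rfl
    rw [h1, map_add, LinearMap.add_apply]
    exact Submodule.add_mem _ (iht u hu) (ihs u hu)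
  | mul t s ht hs iht ihs =>
    intro u hu
    have h1 : (⟨t * s, Subalgebra.mul_mem _ ht hs⟩ : heckeAlgebra N 2 S) = ⟨t, ht⟩ * ⟨s, hs⟩ := rfl
    rw [h1, map_mul, Module.End.mul_apply]
    exact iht _ (ihs u hu)

/-- The restriction of `actHom t` to `preSub V`. -/
def preEnd (hNS : ∀ q : ℕ, q.Prime → q ∣ N → q ∈ S)
    (V : Submodule O (Additive (Gamma0 N) →+ O))
    (hstab : ∀ (l : ℕ) [Fact l.Prime] (hl : ¬ l ∣ N), l ∉ S → ∀ v ∈ V, heckeTransfer hl v ∈ V)
    (t : heckeAlgebra N 2 S) : Module.End O (preSub O V) where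
  toFun u := ⟨actHom O hNS t u.1, actHom_mem_preSub O hNS V hstab t u.1 u.2⟩
  map_add' u v := Subtype.ext (map_add (actHom O hNS t) u.1 v.1)
  map_smul' c u := Subtype.ext (map_smul (actHom O hNS t) c u.1)

theorem coe_preEnd (hNS : ∀ q : ℕ, q.Prime → q ∣ N → q ∈ S)
    (V : Submodule O (Additive (Gamma0 N) →+ O))
    (hstab : ∀ (l : ℕ) [Fact l.Prime] (hl : ¬ l ∣ N), l ∉ S → ∀ v ∈ V, heckeTransfer hl v ∈ V)
    (t : heckeAlgebra N 2 S) (u : preSub O V) :
    ((preEnd O hNS V hstab t u : preSub O V) : _root_.Fermat.Agent.S30.H709.perLattice N →+ O) = actHom O hNS t u.1 := rfl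

theorem preEnd_one (hNS : ∀ q : ℕ, q.Prime → q ∣ N → q ∈ S)
    (V : Submodule O (Additive (Gamma0 N) →+ O))
    (hstab : ∀ (l : ℕ) [Fact l.Prime] (hl : ¬ l ∣ N), l ∉ S → ∀ v ∈ V, heckeTransfer hl v ∈ V) :
    preEnd O hNS V hstab 1 = 1 := by
  refine LinearMap.ext fun u => Subtype.ext ?_
  have h : actHom O hNS (1 : heckeAlgebra N 2 S) = 1 := (actHom O hNS).map_one
  have h2 := congrArg (fun f : Module.End O (_root_.Fermat.Agent.S30.H709.perLattice N →+ O) => f u.1) h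
  exact h2

theorem preEnd_mul (hNS : ∀ q : ℕ, q.Prime → q ∣ N → q ∈ S)
    (V : Submodule O (Additive (Gamma0 N) →+ O))
    (hstab : ∀ (l : ℕ) [Fact l.Prime] (hl : ¬ l ∣ N), l ∉ S → ∀ v ∈ V, heckeTransfer hl v ∈ V)
    (t s : heckeAlgebra N 2 S) :
    preEnd O hNS V hstab (t * s) = preEnd O hNS V hstab t * preEnd O hNS V hstab s := by
  refine LinearMap.ext fun u => Subtype.ext ?_
  have h : actHom O hNS (t * s) = actHom O hNS t * actHom O hNS s := (actHom O hNS).map_mul t s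
  have h2 := congrArg (fun f : Module.End O (_root_.Fermat.Agent.S30.H709.perLattice N →+ O) => f u.1) h
  exact h2

theorem preEnd_zero (hNS : ∀ q : ℕ, q.Prime → q ∣ N → q ∈ S)
    (V : Submodule O (Additive (Gamma0 N) →+ O))
    (hstab : ∀ (l : ℕ) [Fact l.Prime] (hl : ¬ l ∣ N), l ∉ S → ∀ v ∈ V, heckeTransfer hl v ∈ V) :
    preEnd O hNS V hstab 0 = 0 := by
  refine LinearMap.ext fun u => Subtype.ext ?_
  have h : actHom O hNS (0 : heckeAlgebra N 2 S) = 0 := (actHom O hNS).map_zero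
  have h2 := congrArg (fun f : Module.End O (_root_.Fermat.Agent.S30.H709.perLattice N →+ O) => f u.1) h
  exact h2

theorem preEnd_add (hNS : ∀ q : ℕ, q.Prime → q ∣ N → q ∈ S)
    (V : Submodule O (Additive (Gamma0 N) →+ O))
    (hstab : ∀ (l : ℕ) [Fact l.Prime] (hl : ¬ l ∣ N), l ∉ S → ∀ v ∈ V, heckeTransfer hl v ∈ V)
    (t s : heckeAlgebra N 2 S) :
    preEnd O hNS V hstab (t + s) = preEnd O hNS V hstab t + preEnd O hNS V hstab s := by
  refine LinearMap.ext fun u => Subtype.ext ?_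
  have h : actHom O hNS (t + s) = actHom O hNS t + actHom O hNS s := (actHom O hNS).map_add t s
  have h2 := congrArg (fun f : Module.End O (_root_.Fermat.Agent.S30.H709.perLattice N →+ O) => f u.1) h
  exact h2

/-- The Hecke ring acts on `preSub V`. -/
def preAct (hNS : ∀ q : ℕ, q.Prime → q ∣ N → q ∈ S)
    (V : Submodule O (Additive (Gamma0 N) →+ O))
    (hstab : ∀ (l : ℕ) [Fact l.Prime] (hl : ¬ l ∣ N), l ∉ S → ∀ v ∈ V, heckeTransfer hl v ∈ V) :
    heckeAlgebra N 2 S →+* Module.End O (preSub O V) where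
  toFun := preEnd O hNS V hstab
  map_one' := preEnd_one O hNS V hstab
  map_mul' := preEnd_mul O hNS V hstab
  map_zero' := preEnd_zero O hNS V hstab
  map_add' := preEnd_add O hNS V hstab

theorem coe_preAct (hNS : ∀ q : ℕ, q.Prime → q ∣ N → q ∈ S)
    (V : Submodule O (Additive (Gamma0 N) →+ O))
    (hstab : ∀ (l : ℕ) [Fact l.Prime] (hl : ¬ l ∣ N), l ∉ S → ∀ v ∈ V, heckeTransfer hl v ∈ V)
    (t : heckeAlgebra N 2 S) (u : preSub O V) :
    ((preAct O hNS V hstab t u : preSub O V) : _root_.Fermat.Agent.S30.H709.perLattice N →+ O) = actHom O hNS t u.1 := rfl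

variable [IsDomain O] [CharZero O]

/-- `preSub V ≃ V` for a submodule `V` of parabolic classes (Eichler–Shimura). -/
def preEquiv (V : Submodule O (Additive (Gamma0 N) →+ O))
    (hcusp : ∀ v ∈ V, IsParabolicHom (Gamma0 N) v) : preSub O V ≃ₗ[O] V where
  toFun u := ⟨toCls u.1, u.2⟩
  map_add' _ _ := rfl
  map_smul' _ _ := rfl
  invFun v := ⟨ofCls v.1 (hcusp v.1 v.2), by
    rw [mem_preSub, toCls_ofCls]
    exact v.2⟩
  left_inv u := Subtype.ext (ofCls_toCls u.1 (hcusp _ u.2))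
  right_inv v := Subtype.ext (toCls_ofCls v.1 (hcusp v.1 v.2))

theorem coe_preEquiv (V : Submodule O (Additive (Gamma0 N) →+ O))
    (hcusp : ∀ v ∈ V, IsParabolicHom (Gamma0 N) v) (u : preSub O V) :
    ((preEquiv O V hcusp u : V) : Additive (Gamma0 N) →+ O) = toCls u.1 := rfl

theorem toCls_preEquiv_symm (V : Submodule O (Additive (Gamma0 N) →+ O))
    (hcusp : ∀ v ∈ V, IsParabolicHom (Gamma0 N) v) (v : V) :
    toCls ((preEquiv O V hcusp).symm v : preSub O V).1 = v.1 :=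
  toCls_ofCls v.1 (hcusp v.1 v.2)

/-- **ES-ACT.**  The action of the Hecke ring `heckeAlgebra N 2 S` on a Hecke-stable submodule `V`
of parabolic classes of `Hom(Γ₀(N), O)`. -/
def esAct (hNS : ∀ q : ℕ, q.Prime → q ∣ N → q ∈ S)
    (V : Submodule O (Additive (Gamma0 N) →+ O))
    (hcusp : ∀ v ∈ V, IsParabolicHom (Gamma0 N) v)
    (hstab : ∀ (l : ℕ) [Fact l.Prime] (hl : ¬ l ∣ N), l ∉ S → ∀ v ∈ V, heckeTransfer hl v ∈ V) :
    heckeAlgebra N 2 S →+* Module.End O V :=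
  ((preEquiv O V hcusp).conjRingEquiv : Module.End O (preSub O V) →+* Module.End O V).comp
    (preAct O hNS V hstab)

theorem esAct_apply (hNS : ∀ q : ℕ, q.Prime → q ∣ N → q ∈ S)
    (V : Submodule O (Additive (Gamma0 N) →+ O))
    (hcusp : ∀ v ∈ V, IsParabolicHom (Gamma0 N) v)
    (hstab : ∀ (l : ℕ) [Fact l.Prime] (hl : ¬ l ∣ N), l ∉ S → ∀ v ∈ V, heckeTransfer hl v ∈ V)
    (t : heckeAlgebra N 2 S) (v : V) :
    esAct O hNS V hcusp hstab t v =
      preEquiv O V hcusp (preAct O hNS V hstab t ((preEquiv O V hcusp).symm v)) := rfl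

/-- `T_ℓ` acts on `V` as the Hecke transfer. -/
theorem coe_esAct_T (hNS : ∀ q : ℕ, q.Prime → q ∣ N → q ∈ S)
    (V : Submodule O (Additive (Gamma0 N) →+ O))
    (hcusp : ∀ v ∈ V, IsParabolicHom (Gamma0 N) v)
    (hstab : ∀ (l : ℕ) [Fact l.Prime] (hl : ¬ l ∣ N), l ∉ S → ∀ v ∈ V, heckeTransfer hl v ∈ V)
    {l : ℕ} [Fact l.Prime] (hl : l.Prime) (hlN : ¬ l ∣ N) (hlS : l ∉ S) (v : V) :
    ((esAct O hNS V hcusp hstab (heckeAlgebra.T hl hlN hlS) v : V) :
      Additive (Gamma0 N) →+ O) = heckeTransfer hlN (v : Additive (Gamma0 N) →+ O) := by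
  have hh : heckeAlgebra.T (N := N) (k := 2) (S := S) hl hlN hlS =
      heckeAlgebra.T Fact.out hlN hlS := rfl
  rw [esAct_apply, coe_preEquiv, coe_preAct, hh]
  have h1 := toCls_actHom_T O hNS hlN hlS ((preEquiv O V hcusp).symm v : preSub O V).1
  rw [toCls_preEquiv_symm] at h1
  exact h1

/-- `T_ℓ` acts on `V` as `H653.TK N (Γ₀(N)) ℓ`. -/
theorem coe_esAct_TK (hNS : ∀ q : ℕ, q.Prime → q ∣ N → q ∈ S)
    (V : Submodule O (Additive (Gamma0 N) →+ O))
    (hcusp : ∀ v ∈ V, IsParabolicHom (Gamma0 N) v)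
    (hstab : ∀ (l : ℕ) [Fact l.Prime] (hl : ¬ l ∣ N), l ∉ S → ∀ v ∈ V, heckeTransfer hl v ∈ V)
    {l : ℕ} (hl : l.Prime) (hlN : ¬ l ∣ N) (hlS : l ∉ S) (v : V) :
    ((esAct O hNS V hcusp hstab (heckeAlgebra.T hl hlN hlS) v : V) :
      Additive (Gamma0 N) →+ O) =
        @TK N (Gamma0 N) O _ l ⟨hl.ne_zero⟩ (v : Additive (Gamma0 N) →+ O) := by
  have : Fact l.Prime := ⟨hl⟩
  rw [coe_esAct_T O hNS V hcusp hstab hl hlN hlS v]
  exact (TK_Gamma0 hlN _).symm

/-- **ES-ACT**, existential form with `heckeTransfer`. -/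
theorem exists_esAct (hNS : ∀ q : ℕ, q.Prime → q ∣ N → q ∈ S)
    (V : Submodule O (Additive (Gamma0 N) →+ O))
    (hcusp : ∀ v ∈ V, IsParabolicHom (Gamma0 N) v)
    (hstab : ∀ (l : ℕ) [Fact l.Prime] (hl : ¬ l ∣ N), l ∉ S → ∀ v ∈ V, heckeTransfer hl v ∈ V) :
    ∃ Ψ : heckeAlgebra N 2 S →+* Module.End O V,
      ∀ (l : ℕ) [Fact l.Prime] (hl : l.Prime) (hlN : ¬ l ∣ N) (hlS : l ∉ S) (v : V),
        ((Ψ (heckeAlgebra.T hl hlN hlS) v : V) : Additive (Gamma0 N) →+ O) =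
          heckeTransfer hlN (v : Additive (Gamma0 N) →+ O) :=
  ⟨esAct O hNS V hcusp hstab, fun _ _ hl hlN hlS v => coe_esAct_T O hNS V hcusp hstab hl hlN hlS v⟩


/-- **ES-ACT**, existential form in the vocabulary of `TW/H653` and of `TW/Aut/Spec.lean`
(`Aut.tOp N (Gamma0 N) O l hl = @TK N (Gamma0 N) O _ l ⟨hl.ne_zero⟩` by `rfl`); the stability is
asked for `TK`. -/
theorem exists_esAct_TK (hNS : ∀ q : ℕ, q.Prime → q ∣ N → q ∈ S)
    (V : Submodule O (Additive (Gamma0 N) →+ O))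
    (hcusp : ∀ v ∈ V, IsParabolicHom (Gamma0 N) v)
    (hstab : ∀ (l : ℕ) (hl : l.Prime), ¬ l ∣ N → l ∉ S →
      ∀ v ∈ V, @TK N (Gamma0 N) O _ l ⟨hl.ne_zero⟩ v ∈ V) :
    ∃ Ψ : heckeAlgebra N 2 S →+* Module.End O V,
      ∀ (l : ℕ) (hl : l.Prime) (hlN : ¬ l ∣ N) (hlS : l ∉ S) (v : V),
        ((Ψ (heckeAlgebra.T hl hlN hlS) v : V) : Additive (Gamma0 N) →+ O) =
          @TK N (Gamma0 N) O _ l ⟨hl.ne_zero⟩ (v : Additive (Gamma0 N) →+ O) := by
  have hstab' : ∀ (l : ℕ) [Fact l.Prime] (hl : ¬ l ∣ N), l ∉ S →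
      ∀ v ∈ V, heckeTransfer hl v ∈ V := by
    intro l _ hl hlS v hv
    rw [← TK_Gamma0 hl v]
    exact hstab l Fact.out hl hlS v hv
  exact ⟨esAct O hNS V hcusp hstab', fun l hl hlN hlS v =>
    coe_esAct_TK O hNS V hcusp hstab' hl hlN hlS v⟩

end Fermat.Agent.S59.TW.H709

end
end
-- ===== PACK-END S59/TW/H709/EsAct.lean

-- ===== PACK-BEGIN S59/MFree/H779/AuxKer.lean
section



/-!
# Row S59, block M-FREE without (Ell): `T_r` maps `ker (cor)` into `I_D · H` (helper779)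

`Γ₀(M)`, `κ : Γ₀(M) →* D` trivial on `{d ≡ 1 mod M}`, `Γ' = kerSub κ`, `r ∤ M` an auxiliary prime.
Hypothesis (Ell at `r`): the elements of finite order of `Γ₀(M) ∩ Γ₀(r)` lie in `ker κ`
(NOT required for all of `Γ₀(M)`).  Then, for every class `x ∈ H(Γ', O)` (`O` a domain of
characteristic zero) with `cor κ x = 0`:  `T_r x ∈ I_D · H(Γ', O)` (`heckeKer_mem_augSub`).

Proof: `AuxSystem.transfer_mem_aug_of_transferAlong_eq_zero` for the Hecke system of `T_r`, the
index `∞ ∈ ℙ¹(𝔽_r)` (stabiliser `Γ₀(M) ∩ Γ₀(r)`; `Γ₁(M)` acts transitively on `ℙ¹(𝔽_r)`) and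
`MFree.H761.kerCor` at the level of the stabiliser.
-/

set_option autoImplicit false
set_option linter.unusedSectionVars false

namespace Fermat.Agent.S59.MFree.H779

open CongruenceSubgroup Matrix.SpecialLinearGroup
open Fermat.Agent.S41.Spec Fermat.Agent.S29.H642 Fermat.Agent.S41.H761
open Fermat.Agent.S59.MFree.H587 Fermat.Agent.S59.MFree.H941
open P2MW.S_ModularForm_heckeT_slash_eq_self_of_mem_Gamma0.ModularForm.HeckeSlashInvariance
open scoped MatrixGroups

universe u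

/-! ## The action on `ℙ¹(𝔽_r)` -/

section Action

variable {r : ℕ} [Fact r.Prime]

/-- The stabiliser of `∞` is `Γ₀(r)`. -/
theorem hPerm_infty_eq_iff (g : SL(2, ℤ)) :
    hPerm r g (OnePoint.infty : OnePoint (ZMod r)) = OnePoint.infty ↔ g ∈ Gamma0 r := by
  rw [hPerm_apply, OnePoint.smul_infty_eq_self_iff, redMatrix_apply_one_zero, Gamma0_mem]

/-- The matrix `[[1, t], [M, M t + 1]]`. -/
def auxMat (M : ℕ) (t : ℤ) : SL(2, ℤ) :=
  ⟨!![1, t; (M : ℤ), (M : ℤ) * t + 1], by rw [Matrix.det_fin_two_of]; ring⟩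

theorem auxMat_mem_Gamma0 (M : ℕ) (t : ℤ) : auxMat M t ∈ Gamma0 M := by
  rw [Gamma0_mem]
  show (((M : ℤ) : ℤ) : ZMod M) = 0
  simp

theorem auxMat_entry (M : ℕ) (t : ℤ) : ((((auxMat M t) 1 1 : ℤ)) : ZMod M) = 1 := by
  show ((((M : ℤ) * t + 1 : ℤ)) : ZMod M) = 1
  push_cast
  simp

theorem hPerm_auxMat {M : ℕ} (hr : ¬ r ∣ M) (j : ZMod r) :
    hPerm r (auxMat M (((j - (M : ZMod r)⁻¹).val : ℕ) : ℤ)) (OnePoint.infty : OnePoint (ZMod r)) =
      (j : OnePoint (ZMod r)) := by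
  have hM : (M : ZMod r) ≠ 0 := by
    intro h0
    exact hr ((ZMod.natCast_eq_zero_iff M r).mp h0)
  rw [hPerm_apply, OnePoint.smul_infty_eq_ite, redMatrix_apply_one_zero, redMatrix_apply_zero_zero]
  have h10 : ((((auxMat M (((j - (M : ZMod r)⁻¹).val : ℕ) : ℤ)) 1 0 : ℤ)) : ZMod r) = (M : ZMod r) := by
    show ((((M : ℤ) : ℤ)) : ZMod r) = _
    push_cast
    rfl
  have h11 : ((((auxMat M (((j - (M : ZMod r)⁻¹).val : ℕ) : ℤ)) 1 1 : ℤ)) : ZMod r) =
      (M : ZMod r) * (j - (M : ZMod r)⁻¹) + 1 := by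
    show ((((M : ℤ) * (((j - (M : ZMod r)⁻¹).val : ℕ) : ℤ) + 1 : ℤ)) : ZMod r) = _
    push_cast
    rw [ZMod.natCast_zmod_val]
  rw [h10, h11, if_neg hM]
  congr 1
  field_simp
  ring

end Action

/-! ## The theorem -/

section Main

variable {M r : ℕ} [Fact r.Prime] {D : Type} [Group D]
variable (hr : ¬ r ∣ M) (κ : Gamma0 M →* D)
variable (hΓ1 : ∀ γ : Gamma0 M, ((((γ : SL(2, ℤ)) 1 1 : ℤ)) : ZMod M) = 1 → κ γ = 1)

include hr hΓ1 in
/-- `Γ₁(M)`, hence `ker κ`, acts transitively on `ℙ¹(𝔽_r)`. -/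
theorem exists_ker_hPerm (x : OnePoint (ZMod r)) :
    ∃ k : kerSub κ, hPerm r (k : SL(2, ℤ)) (OnePoint.infty : OnePoint (ZMod r)) = x := by
  induction x using OnePoint.rec with
  | infty =>
    refine ⟨1, ?_⟩
    rw [hPerm_infty_eq_iff]
    exact Subgroup.one_mem _
  | coe j =>
    refine ⟨⟨auxMat M (((j - (M : ZMod r)⁻¹).val : ℕ) : ℤ), mem_kerSub.mpr
      ⟨auxMat_mem_Gamma0 M _, hΓ1 _ (auxMat_entry M _)⟩⟩, ?_⟩
    exact hPerm_auxMat hr j

/-- The stabiliser of `∞` in `Γ₀(M)`. -/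
abbrev stab (M r : ℕ) : Subgroup SL(2, ℤ) := Gamma0 M ⊓ Gamma0 r

/-- The inclusion of the stabiliser. -/
def jStab (M r : ℕ) : stab M r →* Gamma0 M := Subgroup.inclusion inf_le_left

theorem jStab_injective (M r : ℕ) : Function.Injective (jStab M r) :=
  Subgroup.inclusion_injective _

theorem jStab_coe (s : stab M r) : ((jStab M r s : Gamma0 M) : SL(2, ℤ)) = (s : SL(2, ℤ)) := rfl

theorem mem_range_jStab (g : Gamma0 M) :
    g ∈ (jStab M r).range ↔ (g : SL(2, ℤ)) ∈ Gamma0 r := by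
  constructor
  · rintro ⟨s, rfl⟩
    exact s.2.2
  · intro hg
    exact ⟨⟨(g : SL(2, ℤ)), ⟨g.2, hg⟩⟩, rfl⟩

/-- The Hecke system of `T_r` on `Γ₀(M)`, normalised. -/
theorem auxSystem : IsCosetSystem (ιN M) (ιN M) (fun x => ιN M (wStd hr x) * heckeRep r x) :=
  twistSystem (heckeSystem hr) (wStd hr)

theorem auxSystem_act (x : OnePoint (ZMod r)) (g : Gamma0 M) :
    (auxSystem hr).act x g = hPerm r (g : SL(2, ℤ)) x :=
  (twistSystem_act (heckeSystem hr) (wStd hr) x g).trans (heckeSystem_act hr x g)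

variable [NeZero M] [Finite D]

include hΓ1 in
/-- **`T_r` maps the kernel of `cor` into `I_D · H(Γ', O)`**, if the elements of finite order of
`Γ₀(M) ∩ Γ₀(r)` lie in `ker κ`. -/
theorem heckeKer_mem_augSub
    (hellr : ∀ g : Gamma0 M, (g : SL(2, ℤ)) ∈ Gamma0 r → IsOfFinOrder g → κ g = 1)
    (O : Type u) [CommRing O] [IsDomain O] [CharZero O]
    (x : Additive (kerSub κ) →+ O) (hx : cor κ x = 0) :
    heckeKer hr κ hΓ1 x ∈ augSub κ O := by
  classical
  have hrne : NeZero r := ⟨(Fact.out : r.Prime).ne_zero⟩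
  -- the data
  set h := auxSystem (M := M) hr with hh
  have hκ : PreservesKappa h κ :=
    preservesKappa_twist hr κ hΓ1 (wStd hr) (r : ZMod M) (isNormalising_wStd hr)
  set f := Subgroup.inclusion (kerSub_le κ) with hf
  have hfinj : Function.Injective f := Subgroup.inclusion_injective _
  have hrange : ∀ g : Gamma0 M, g ∈ f.range ↔ κ g = 1 := mem_range_inclusion_iff κ
  set κ' : stab M r →* D := κ.comp (jStab M r) with hκ'
  set f' := Subgroup.inclusion (kerSub_le κ') with hf'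
  have hf'inj : Function.Injective f' := Subgroup.inclusion_injective _
  have hK' : ∀ s : stab M r, s ∈ f'.range ↔ κ (jStab M r s) = 1 := mem_range_inclusion_iff κ'
  have hS : ∀ g : Gamma0 M, g ∈ (jStab M r).range ↔ h.act OnePoint.infty g = OnePoint.infty := by
    intro g
    rw [mem_range_jStab, hh, auxSystem_act, hPerm_infty_eq_iff]
  have htr : ∀ i : OnePoint (ZMod r), ∃ k : kerSub κ, h.act OnePoint.infty (f k) = i := by
    intro i
    obtain ⟨k, hk⟩ := exists_ker_hPerm hr κ hΓ1 i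
    refine ⟨k, ?_⟩
    rw [hh, auxSystem_act]
    exact hk
  -- KerCor at the level of the stabiliser
  have hnegM : (-1 : SL(2, ℤ)) ∈ Gamma0 M := by
    rw [Gamma0_mem]
    simp
  have hnegr : (-1 : SL(2, ℤ)) ∈ Gamma0 r := by
    rw [Gamma0_mem]
    simp
  have hneg1 : (-1 : SL(2, ℤ)) ∈ stab M r := Subgroup.mem_inf.mpr ⟨hnegM, hnegr⟩
  have hfin1 : IsOfFinOrder (⟨-1, hnegM⟩ : Gamma0 M) := by
    refine isOfFinOrder_iff_pow_eq_one.2 ⟨2, by norm_num, ?_⟩
    apply Subtype.ext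
    simp
  have hneg : (-1 : SL(2, ℤ)) ∈ kerSub κ' :=
    mem_kerSub.mpr ⟨hneg1, hellr ⟨-1, hnegM⟩ hnegr hfin1⟩
  have hell' : ∀ s : stab M r, IsOfFinOrder s → κ' s = 1 := by
    intro s hs
    refine hellr (jStab M r s) s.2.2 ?_
    obtain ⟨n, hn, hsn⟩ := isOfFinOrder_iff_pow_eq_one.mp hs
    refine isOfFinOrder_iff_pow_eq_one.2 ⟨n, hn, ?_⟩
    rw [← map_pow, hsn, map_one]
  have hKC : ∀ ψ : Additive (kerSub κ') →+ O, transferAlong f' ψ = 0 → ψ ∈ augOf f' O := by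
    intro ψ hψ
    have h1 := H761.kerCor.{u} (stab M r) D κ' hneg hell' O ψ
      (H761.isTorsionTrivial_of_charZero ψ) hψ
    unfold augSub at h1
    refine (AddSubgroup.closure_mono ?_) h1
    rintro w ⟨g, y, -, rfl⟩
    exact ⟨g, conjKer κ' g, y, fun k => rfl, rfl⟩
  have key := transfer_mem_aug_of_transferAlong_eq_zero h hκ f hfinj hrange OnePoint.infty
    (jStab M r) hS f' hK' (jStab_injective M r) hf'inj htr hKC x hx
  -- back to `augSub`
  have h2 : augOf f O ≤ augSub κ O := by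
    unfold augOf augSub
    rw [AddSubgroup.closure_le]
    rintro w ⟨g, c, y, hc, rfl⟩
    refine AddSubgroup.subset_closure ⟨g, y, H761.isTorsionTrivial_of_charZero y, ?_⟩
    have hcc : c = conjKer κ g := by
      refine MonoidHom.ext fun k => hfinj ?_
      rw [hc]
      rfl
    rw [hcc]
    rfl
  exact h2 key

end Main

end Fermat.Agent.S59.MFree.H779

end
-- ===== PACK-END S59/MFree/H779/AuxKer.lean

-- ===== PACK-BEGIN S59/MFree/H779/FreeAux.lean
section



/-!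
# Row S59, block M-FREE **without (Ell)**: freeness via an auxiliary prime (helper779)

`MFree.free` (`MFree/Main.lean`) needs hypothesis (Ell): every element of finite order of `Γ₀(M)`
lies in `ker κ`.  For `p = 3` this fails as soon as `Γ₀(M)` has elements of order `3` (all the
prime factors of `M` are `≡ 1 mod 3`, or `3 ∥ M`), because `D` is a `3`-group.

`freeAux` is `MFree.free` with (Ell) replaced by the existence of an auxiliary prime `r ∤ M` with

* (Ell at `r`) every element of finite order of `Γ₀(M) ∩ Γ₀(r)` lies in `ker κ`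
  (automatic for `p = 3` and `r ≡ 2 mod 3`: `EllAux.lean`);
* `T_r` commutes with the projector `e` and is onto on `e H` (true if `T_r` is not in the maximal
  ideal of `e`: by Chebotarev such an `r` exists when `ρ̄` is not induced from `ℚ(√-3)`).

Proof.  `AuxKer.heckeKer_mem_augSub`: `T_r` maps `ker (cor)` into `I_D · H`.  The operator `T_r` is
onto on `e H` and on `cor (e H)`, hence injective on the finitely generated module `cor (e H)`;
so `ker (cor | e H) = T_r (ker (cor | e H)) ⊆ I_D · e H`: this is the control hypothesis of the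
norm criterion.  The rest is the assembly of `H761.freeAbs_of_leaves` / `H587.freeOfAbs`, verbatim.
-/

set_option autoImplicit false
set_option linter.unusedSectionVars false

namespace Fermat.Agent.S59.MFree.H779

open CongruenceSubgroup Matrix.SpecialLinearGroup
open Fermat.Agent.S41.Spec Fermat.Agent.S29.H642 Fermat.Agent.S41.H761
open Fermat.Agent.S59.MFree.H587 Fermat.Agent.S59.MFree.H941 Fermat.Agent.S59.MFree.H761
open P2MW.S_ModularForm_heckeT_slash_eq_self_of_mem_Gamma0.ModularForm.HeckeSlashInvariance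
open scoped MatrixGroups

universe u

/-! ## The abstract form, with the control hypothesis -/

section Abs

/-- **M-FREE, abstract form, with the control hypothesis instead of (Ell).**
Same statement as `MFree.FreeAbsStatement`, with `(∀ g, IsOfFinOrder g → κ g = 1)` replaced by
`hctrl : ker (cor | e H) ⊆ I_D · e H`. -/
theorem freeAbs_of_ctrl (p : ℕ) [Fact p.Prime] (Γ : Subgroup SL(2, ℤ)) [Γ.FiniteIndex]
    (D : Type) [Group D] [Fintype D] (κ : Γ →* D)
    (hκ : Function.Surjective κ) (hcard : ∃ a : ℕ, Fintype.card D = p ^ a)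
    (hneg : (-1 : SL(2, ℤ)) ∈ kerSub κ)
    (O : Type u) [CommRing O] [IsDomain O] [IsDiscreteValuationRing O] [CharZero O]
    (hp : ¬ IsUnit (p : O))
    (e t : (Additive (kerSub κ) →+ O) →ₗ[O] (Additive (kerSub κ) →+ O)) (c : O)
    (he : ∀ x, e (e x) = e x) (het : ∀ x, e (t x) = t (e x))
    (hec : ∀ (g : Γ) x, e (conjAct κ g x) = conjAct κ g (e x))
    (htc : ∀ (g : Γ) x, t (conjAct κ g x) = conjAct κ g (t x))
    (hEis : ∀ x, (∀ g : Γ, conjAct κ g x = x) →
      ∃ y : Additive Γ →+ O, cor κ (t x - c • x) = Fintype.card D • y)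
    (hsurj : ∀ y, e y = y → ∃ x, e x = x ∧ t x - c • x = y)
    (hinj : ∀ x, e x = x → t x - c • x = 0 → x = 0)
    (hctrl : ∀ x, e x = x → cor κ x = 0 → x ∈ augSpan κ e) :
    FreeConclusion κ O e := by
  classical
  have hB := H761.corSurj.{u}
  have hN1 := H57.resCor.{u}
  have hN2 := H57.corRes.{u}
  have hE := H565.normCriterion.{u}
  have hfi := H761.finiteIndex_kerSub κ
  choose s hs using hκ
  have hκsurj : Function.Surjective κ := fun d => ⟨s d, hs d⟩
  have hcardne : Fintype.card D ≠ 0 := Fintype.card_ne_zero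
  -- conjugation by `g` is conjugation by `s (κ g)`
  have hcongr : ∀ (g : Γ) (x : Additive (kerSub κ) →+ O), conjAct κ (s (κ g)) x = conjAct κ g x :=
    fun g x => H57.conjAct_congr57 κ x (hs (κ g)).symm
  -- the norm
  let N : (Additive (kerSub κ) →+ O) →ₗ[O] (Additive (kerSub κ) →+ O) := ∑ d, conjL κ (s d)
  have hN : ∀ x, N x = ∑ d, conjAct κ (s d) x := by
    intro x
    show (∑ d, conjL κ (s d)) x = _
    rw [LinearMap.sum_apply]
    rfl
  have hNres : ∀ x, res κ (cor κ x) = N x := fun x => by rw [hN]; exact hN1 Γ D κ s hs O x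
  have hcor0 : cor κ (0 : Additive (kerSub κ) →+ O) = 0 := by
    have := hN2 Γ D κ hκsurj O (0 : Additive Γ →+ O)
    rw [smul_zero] at this
    exact this
  have hresinj : ∀ y : Additive Γ →+ O, res κ y = 0 → y = 0 := by
    intro y hy
    have h1 := hN2 Γ D κ hκsurj O y
    rw [hy, hcor0] at h1
    exact eq_zero_of_nsmul_eq_zero hcardne h1.symm
  have heN : ∀ x, e (N x) = N (e x) := by
    intro x
    rw [hN, hN, map_sum]
    exact Finset.sum_congr rfl fun d _ => hec _ _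
  have htN : ∀ x, t (N x) = N (t x) := by
    intro x
    rw [hN, hN, map_sum]
    exact Finset.sum_congr rfl fun d _ => htc _ _
  have hcorsurj : ∀ y : Additive Γ →+ O, ∃ x : Additive (kerSub κ) →+ O, cor κ x = y := by
    intro y
    obtain ⟨x, -, hx⟩ := hB Γ D κ hneg O y (isTorsionTrivial_of_charZero y)
    exact ⟨x, hx⟩
  refine ⟨?_, hctrl, hcorsurj⟩
  -- the module `V = e H` and the representation of `D`
  let V : Submodule O (Additive (kerSub κ) →+ O) := LinearMap.range e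
  have hVmem : ∀ x, x ∈ V ↔ e x = x := by
    intro x
    constructor
    · rintro ⟨y, rfl⟩
      exact he y
    · intro h
      exact ⟨x, h⟩
  have hVstab : ∀ (g : Γ), ∀ x ∈ V, conjL κ g x ∈ V := by
    intro g x hx
    rw [hVmem] at hx ⊢
    rw [conjL_apply, hec, hx]
  obtain ⟨hfin, hfree⟩ := finite_free_submodule (O := O) (kerSub κ) V
  let ρ : Representation O D V :=
    { toFun := fun d => (conjL κ (s d)).restrict (hVstab (s d))
      map_one' := by
        apply LinearMap.ext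
        intro x
        apply Subtype.ext
        show conjAct κ (s 1) (x : Additive (kerSub κ) →+ O) = x
        have h1 : κ (s 1) = κ (1 : Γ) := by rw [hs, map_one]
        rw [H57.conjAct_congr57 κ _ h1.symm, conjAct_one]
      map_mul' := by
        intro d d'
        apply LinearMap.ext
        intro x
        apply Subtype.ext
        show conjAct κ (s (d * d')) (x : Additive (kerSub κ) →+ O) =
          conjAct κ (s d) (conjAct κ (s d') (x : Additive (kerSub κ) →+ O))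
        have h1 : κ (s (d * d')) = κ (s d * s d') := by rw [hs, map_mul, hs, hs]
        rw [H57.conjAct_congr57 κ _ h1.symm, conjAct_mul] }
  have hρ : ∀ (d : D) (x : V), ((ρ d x : V) : Additive (kerSub κ) →+ O) = conjAct κ (s d) x :=
    fun _ _ => rfl
  have hsumρ : ∀ x : V, ((∑ d, ρ d x : V) : Additive (kerSub κ) →+ O) = N x := by
    intro x
    rw [hN]
    rw [AddSubmonoidClass.coe_finsetSum]
    rfl
  -- hypothesis (a) of the norm criterion
  have ha : ∀ x : V, (∀ d, ρ d x = x) → ∃ z, x = ∑ d, ρ d z := by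
    intro x hx
    have hxe : e (x : Additive (kerSub κ) →+ O) = x := (hVmem _).mp x.2
    have hxinv : ∀ g : Γ, conjAct κ g (x : Additive (kerSub κ) →+ O) = x := by
      intro g
      rw [← hcongr]
      exact congrArg Subtype.val (hx (κ g))
    obtain ⟨y, hy⟩ := hEis x hxinv
    set w : Additive (kerSub κ) →+ O := t x - c • (x : Additive (kerSub κ) →+ O) with hw
    have hwinv : ∀ g : Γ, conjAct κ g w = w := by
      intro g
      have : conjAct κ g w = conjL κ g w := rfl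
      rw [this, hw, map_sub, map_smul, conjL_apply, conjL_apply, ← htc, hxinv]
    have h1 : res κ (cor κ w) = Fintype.card D • w := by
      rw [hNres, hN, Finset.sum_congr rfl fun d _ => hwinv (s d), Finset.sum_const,
        Finset.card_univ]
    have h2 : Fintype.card D • (w - res κ y) = 0 := by
      rw [smul_sub, ← h1, hy, res_nsmul, sub_self]
    have h3 : w = res κ y := sub_eq_zero.mp (eq_zero_of_nsmul_eq_zero hcardne h2)
    obtain ⟨z, hz⟩ := hcorsurj y
    have h4 : w = N (e z) := by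
      have h5 : e w = w := by
        rw [hw, map_sub, map_smul, het, hxe]
      rw [← h5, h3, ← hz, hNres, heN]
    obtain ⟨z', hz'e, hz'⟩ := hsurj (e z) (he z)
    have h6 : t (x - N z') - c • ((x : Additive (kerSub κ) →+ O) - N z') = 0 := by
      have : t (N z') - c • N z' = N (e z) := by
        rw [htN, ← map_smul, ← map_sub, hz']
      rw [map_sub, smul_sub]
      have h7 : t (x : Additive (kerSub κ) →+ O) - c • (x : Additive (kerSub κ) →+ O) = N (e z) := h4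
      rw [show t (x : Additive (kerSub κ) →+ O) - t (N z') -
        (c • (x : Additive (kerSub κ) →+ O) - c • N z') =
        (t (x : Additive (kerSub κ) →+ O) - c • (x : Additive (kerSub κ) →+ O)) -
          (t (N z') - c • N z') by abel, h7, this, sub_self]
    have h8 : e ((x : Additive (kerSub κ) →+ O) - N z') = x - N z' := by
      rw [map_sub, hxe, heN, hz'e]
    have h9 := hinj _ h8 h6
    refine ⟨⟨z', (hVmem _).mpr hz'e⟩, ?_⟩
    apply Subtype.ext
    rw [hsumρ]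
    exact sub_eq_zero.mp h9
  -- hypothesis (b) of the norm criterion
  have hb : ∀ x : V, ∑ d, ρ d x = 0 → x ∈ Submodule.span O {w : V | ∃ d y, w = ρ d y - y} := by
    intro x hx
    have hxe : e (x : Additive (kerSub κ) →+ O) = x := (hVmem _).mp x.2
    have h1 : N (x : Additive (kerSub κ) →+ O) = 0 := by
      rw [← hsumρ, hx]
      rfl
    have h2 : cor κ (x : Additive (kerSub κ) →+ O) = 0 := hresinj _ (by rw [hNres, h1])
    have h3 := hctrl x hxe h2
    -- transfer to `V`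
    have h4 : augSpan κ e ≤ (Submodule.span O {w : V | ∃ d y, w = ρ d y - y}).map V.subtype := by
      unfold augSpan
      rw [Submodule.span_le]
      rintro _ ⟨g, y, hy, rfl⟩
      refine ⟨ρ (κ g) ⟨y, (hVmem _).mpr hy⟩ - ⟨y, (hVmem _).mpr hy⟩,
        Submodule.subset_span ⟨κ g, ⟨y, (hVmem _).mpr hy⟩, rfl⟩, ?_⟩
      show conjAct κ (s (κ g)) y - y = conjAct κ g y - y
      rw [hcongr]
    obtain ⟨v, hv, hvx⟩ := h4 h3
    have : v = x := Subtype.ext hvx
    rwa [this] at hv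
  obtain ⟨n, b, hli, hspan⟩ := hE p O hp D hcard V ρ ha hb
  refine ⟨n, fun i => (b i : Additive (kerSub κ) →+ O), fun i => (hVmem _).mp (b i).2, ?_⟩
  intro s' hs'
  have hfam : (fun z : D × Fin n => conjAct κ (s' z.1) (b z.2 : Additive (kerSub κ) →+ O)) =
      fun z : D × Fin n => V.subtype (ρ z.1 (b z.2)) := by
    funext z
    show _ = conjAct κ (s z.1) (b z.2 : Additive (kerSub κ) →+ O)
    exact H57.conjAct_congr57 κ _ (by rw [hs, hs'])
  rw [hfam]
  refine ⟨hli.map' V.subtype (Submodule.ker_subtype V), ?_⟩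
  intro x hx
  have h1 : (⟨x, (hVmem x).mpr hx⟩ : V) ∈
      Submodule.span O (Set.range fun z : D × Fin n => ρ z.1 (b z.2)) := by
    rw [hspan]
    trivial
  have h2 := Submodule.mem_map_of_mem (f := V.subtype) h1
  rw [Submodule.map_span, ← Set.range_comp] at h2
  exact h2

end Abs

/-! ## Linear versions of `cor` and of the Hecke transfer -/

section Lin

variable {M l : ℕ} [Fact l.Prime] {D : Type} [Group D] [Fintype D]
variable (O : Type*) [CommRing O]

/-- `cor`, `O`-linear. -/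
noncomputable def corLin (κ : Gamma0 M →* D) :
    (Additive (kerSub κ) →+ O) →ₗ[O] (Additive (Gamma0 M) →+ O) where
  toFun := cor κ
  map_add' := cor_add κ
  map_smul' c x := cor_smul κ c x

@[simp] theorem corLin_apply (κ : Gamma0 M →* D) (x : Additive (kerSub κ) →+ O) :
    corLin O κ x = cor κ x := rfl

/-- The Hecke transfer `T_l` on `Hom(Γ₀(M), O)`, `O`-linear. -/
noncomputable def heckeTransferLin (hl : ¬ l ∣ M) :
    (Additive (Gamma0 M) →+ O) →ₗ[O] (Additive (Gamma0 M) →+ O) where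
  toFun := heckeTransfer hl
  map_add' a b := by
    rw [heckeTransfer_eq_transfer, heckeTransfer_eq_transfer, heckeTransfer_eq_transfer,
      IsCosetSystem.transfer_add]
  map_smul' c x := by
    have h1 : c • x = (AddMonoidHom.mulLeft c).comp x := by
      ext h
      rfl
    have h2 : c • heckeTransfer hl x = (AddMonoidHom.mulLeft c).comp (heckeTransfer hl x) := by
      ext h
      rfl
    rw [RingHom.id_apply, h1, h2, heckeTransfer_comp]

@[simp] theorem heckeTransferLin_apply (hl : ¬ l ∣ M) (y : Additive (Gamma0 M) →+ O) :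
    heckeTransferLin O hl y = heckeTransfer hl y := rfl

end Lin

/-! ## The control hypothesis from the auxiliary prime -/

section Ctrl

variable {M r : ℕ} [Fact r.Prime] {D : Type} [Group D] [Fintype D]
variable (hr : ¬ r ∣ M) (κ : Gamma0 M →* D)
variable (hΓ1 : ∀ γ : Gamma0 M, ((((γ : SL(2, ℤ)) 1 1 : ℤ)) : ZMod M) = 1 → κ γ = 1)

/-- **Control without (Ell).**  If the elements of finite order of `Γ₀(M) ∩ Γ₀(r)` lie in
`ker κ` and `T_r` commutes with the projector `e` and is onto on `e H`, then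
`ker (cor | e H) ⊆ I_D · e H`. -/
theorem ctrl_of_aux [NeZero M]
    (hellr : ∀ g : Gamma0 M, (g : SL(2, ℤ)) ∈ Gamma0 r → IsOfFinOrder g → κ g = 1)
    (O : Type u) [CommRing O] [IsDomain O] [IsPrincipalIdealRing O] [CharZero O]
    (e : (Additive (kerSub κ) →+ O) →ₗ[O] (Additive (kerSub κ) →+ O))
    (he : ∀ x, e (e x) = e x)
    (hec : ∀ (g : Gamma0 M) x, e (conjAct κ g x) = conjAct κ g (e x))
    (her : ∀ x, e (heckeKerLin hr κ hΓ1 O x) = heckeKerLin hr κ hΓ1 O (e x))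
    (hsurjr : ∀ y, e y = y → ∃ x, e x = x ∧ heckeKerLin hr κ hΓ1 O x = y) :
    ∀ x, e x = x → cor κ x = 0 → x ∈ augSpan κ e := by
  intro x hxe hxc
  have hcorT : ∀ z : Additive (kerSub κ) →+ O,
      cor κ (heckeKerLin hr κ hΓ1 O z) = heckeTransfer hr (cor κ z) := fun z =>
    cor_heckeKerOf hr κ hΓ1 (wStd hr) (r : ZMod M) (isNormalising_wStd hr) z
  -- the module `C = cor (e H)`
  let C : Submodule O (Additive (Gamma0 M) →+ O) := (LinearMap.range e).map (corLin O κ)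
  have hfinC : Module.Finite O C := (finite_free_submodule (O := O) (Gamma0 M) C).1
  have hmemC : ∀ z, e z = z → cor κ z ∈ C := fun z hz => ⟨z, ⟨z, hz⟩, rfl⟩
  have hstab : ∀ y ∈ C, heckeTransferLin O hr y ∈ C := by
    rintro _ ⟨z', ⟨z, rfl⟩, rfl⟩
    rw [heckeTransferLin_apply, corLin_apply, ← hcorT]
    exact hmemC _ (by rw [her, he])
  let TC : C →ₗ[O] C := (heckeTransferLin O hr).restrict hstab
  have hTC : ∀ y : C, ((TC y : C) : Additive (Gamma0 M) →+ O) = heckeTransfer hr y := fun _ => rfl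
  have hTCsurj : Function.Surjective TC := by
    rintro ⟨_, z', ⟨z, rfl⟩, rfl⟩
    obtain ⟨x₁, hx₁e, hx₁⟩ := hsurjr (e z) (he z)
    refine ⟨⟨cor κ x₁, hmemC x₁ hx₁e⟩, Subtype.ext ?_⟩
    rw [hTC]
    show heckeTransfer hr (cor κ x₁) = cor κ (e z)
    rw [← hcorT, hx₁]
  have hTCinj : Function.Injective TC :=
    OrzechProperty.injective_of_surjective_endomorphism TC hTCsurj
  -- `x = T_r x₁` with `cor x₁ = 0`
  obtain ⟨x₁, hx₁e, hx₁⟩ := hsurjr x hxe
  have h0 : cor κ x₁ = 0 := by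
    have h1 : TC ⟨cor κ x₁, hmemC x₁ hx₁e⟩ = TC 0 := by
      apply Subtype.ext
      rw [hTC, map_zero]
      show heckeTransfer hr (cor κ x₁) = 0
      rw [← hcorT, hx₁, hxc]
    exact congrArg Subtype.val (hTCinj h1)
  have h2 : heckeKer hr κ hΓ1 x₁ ∈ augSub κ O := heckeKer_mem_augSub hr κ hΓ1 hellr O x₁ h0
  have h3 := e_mem_augSpan κ e he hec h2
  have h4 : heckeKer hr κ hΓ1 x₁ = x := hx₁
  rwa [h4, hxe] at h3

end Ctrl

/-! ## M-FREE with an auxiliary prime -/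

/-- **M-FREE for `Γ₀(M)` with an auxiliary prime `r` instead of (Ell).**
`MFree.FreeStatement` with the hypothesis `(∀ g : Γ₀(M), IsOfFinOrder g → κ g = 1)` replaced by:
`r ∤ M` prime, the elements of finite order of `Γ₀(M) ∩ Γ₀(r)` lie in `ker κ`, and `T_r`
(`H587.heckeKerLin hr κ hΓ1 O`) commutes with `e` and is onto on `e H`. -/
def FreeAuxStatement : Prop :=
  ∀ (p M l r : ℕ) [Fact p.Prime] [Fact l.Prime] [Fact r.Prime] (hl : ¬ l ∣ M) (hr : ¬ r ∣ M),
    M ≠ 0 →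
    ∀ (D : Type) [Group D] [Fintype D] (κ : Gamma0 M →* D),
    Function.Surjective κ → (∃ a : ℕ, Fintype.card D = p ^ a) →
    (∀ g : Gamma0 M, (g : SL(2, ℤ)) ∈ Gamma0 r → IsOfFinOrder g → κ g = 1) →
    ∀ (hΓ1 : ∀ γ : Gamma0 M, ((((γ : SL(2, ℤ)) 1 1 : ℤ)) : ZMod M) = 1 → κ γ = 1)
      (O : Type u) [CommRing O] [IsDomain O] [IsDiscreteValuationRing O] [CharZero O],
      ¬ IsUnit (p : O) →
    ∀ (e t : (Additive (kerSub κ) →+ O) →ₗ[O] (Additive (kerSub κ) →+ O)),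
      (∀ x, e (e x) = e x) → (∀ x, e (t x) = t (e x)) →
      (∀ (g : Gamma0 M) x, e (conjAct κ g x) = conjAct κ g (e x)) →
      (∀ (g : Gamma0 M) x, t (conjAct κ g x) = conjAct κ g (t x)) →
      (∀ x, cor κ (t x) = heckeTransfer hl (cor κ x)) →
      (∀ y, e y = y → ∃ x, e x = x ∧ t x - ((l : O) + 1) • x = y) →
      (∀ x, e x = x → t x - ((l : O) + 1) • x = 0 → x = 0) →
      (∀ x, e (heckeKerLin hr κ hΓ1 O x) = heckeKerLin hr κ hΓ1 O (e x)) →
      (∀ y, e y = y → ∃ x, e x = x ∧ heckeKerLin hr κ hΓ1 O x = y) →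
      FreeConclusion κ O e

/-- **M-FREE with an auxiliary prime**, unconditional. -/
theorem freeAux : FreeAuxStatement.{u} := by
  intro p M l r _ _ _ hl hr hM D _ _ κ hκ hcard hellr hΓ1 O _ _ _ _ hp e t he het hec htc hcor
    hsurj hinj her hsurjr
  have hEis := H941.eisenstein.{u}
  have : NeZero M := ⟨hM⟩
  have hnegM : (-1 : SL(2, ℤ)) ∈ Gamma0 M := by
    rw [Gamma0_mem]
    simp
  have hnegr : (-1 : SL(2, ℤ)) ∈ Gamma0 r := by
    rw [Gamma0_mem]
    simp
  have hfin : IsOfFinOrder (⟨-1, hnegM⟩ : Gamma0 M) := by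
    refine isOfFinOrder_iff_pow_eq_one.2 ⟨2, by norm_num, ?_⟩
    apply Subtype.ext
    simp
  have hneg : (-1 : SL(2, ℤ)) ∈ kerSub κ := mem_kerSub.mpr ⟨hnegM, hellr _ hnegr hfin⟩
  refine freeAbs_of_ctrl p (Gamma0 M) D κ hκ hcard hneg O hp e t ((l : O) + 1) he het hec htc ?_
    hsurj hinj (ctrl_of_aux hr κ hΓ1 hellr O e he hec her hsurjr)
  intro x hx
  -- `|D| ≠ 0` in `O`
  have hD : ((Fintype.card D : ℕ) : O) ≠ 0 := by
    rw [Nat.cast_ne_zero]
    exact Fintype.card_ne_zero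
  -- reduction modulo `|D|`
  let I : Ideal O := Ideal.span {((Fintype.card D : ℕ) : O)}
  let π : O →+ O ⧸ I := (Ideal.Quotient.mk I).toAddMonoidHom
  have hπ : ∀ a : O, π a = 0 → ∃ z : O, a = ((Fintype.card D : ℕ) : O) * z := by
    intro a ha
    have h1 : a ∈ I := Ideal.Quotient.eq_zero_iff_mem.1 ha
    obtain ⟨z, hz⟩ := Ideal.mem_span_singleton'.1 h1
    exact ⟨z, by rw [← hz, mul_comm]⟩
  -- `cor x mod |D|` is trivial on `Γ₁(M)`
  have hθ : ∀ γ : Gamma0 M, ((((γ : SL(2, ℤ)) 1 1 : ℤ)) : ZMod M) = 1 →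
      (π.comp (cor κ x)) (Additive.ofMul γ) = 0 := by
    intro γ hγ
    rw [AddMonoidHom.comp_apply, cor_apply_of_ker_of_invariant κ hκ x hx γ (hΓ1 γ hγ),
      nsmul_eq_mul]
    exact Ideal.Quotient.eq_zero_iff_mem.2
      (Ideal.mul_mem_right _ _ (Ideal.subset_span rfl))
  have hE := hEis M l hl hM (O ⧸ I) (π.comp (cor κ x)) hθ
  rw [heckeTransfer_comp] at hE
  -- the defect has values in `|D| O`
  have hw : ∀ γ : Gamma0 M, ∃ z : O,
      (cor κ (t x - ((l : O) + 1) • x)) (Additive.ofMul γ) = ((Fintype.card D : ℕ) : O) * z := by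
    intro γ
    apply hπ
    rw [cor_sub, cor_smul, hcor, AddMonoidHom.sub_apply, map_sub]
    have h1 := congrArg (fun φ => φ (Additive.ofMul γ)) hE
    simp only [AddMonoidHom.comp_apply, AddMonoidHom.nsmul_apply] at h1
    rw [h1, sub_eq_zero]
    show (l + 1) • π (cor κ x (Additive.ofMul γ)) =
      π (((l : O) + 1) * cor κ x (Additive.ofMul γ))
    rw [← map_nsmul, nsmul_eq_mul, Nat.cast_add, Nat.cast_one]
  exact exists_eq_nsmul_of_forall_dvd (Fintype.card D) hD _ hw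

end Fermat.Agent.S59.MFree.H779

end
-- ===== PACK-END S59/MFree/H779/FreeAux.lean

-- ===== PACK-BEGIN S59/MFree/H779/FreeAux3.lean
section



/-!
# S59 / M-FREE, case (B) (helper779): `p = 3`, auxiliary prime `r ≡ 2 mod 3`

`freeAux3 : FreeAux3Statement`: the statement `MFree.FreeStatement` at `p = 3` WITHOUT the
hypothesis (Ell), given an auxiliary prime `r ∤ M`, `r ≡ 2 mod 3`, such that `T_r`
(`H587.heckeKerLin hr κ hΓ1 O`) commutes with `e` and is onto on `e H`.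
-/

set_option autoImplicit false

namespace Fermat.Agent.S59.MFree.H779

open CongruenceSubgroup Matrix.SpecialLinearGroup
open Fermat.Agent.S41.Spec Fermat.Agent.S29.H642 Fermat.Agent.S59.MFree
open Fermat.Agent.S59.MFree.H587
open scoped MatrixGroups

universe u

/-- `MFree.FreeStatement` at `p = 3` with (Ell) replaced by an auxiliary prime `r ≡ 2 mod 3`. -/
def FreeAux3Statement : Prop :=
  ∀ (M l r : ℕ) [Fact l.Prime] [Fact r.Prime] (hl : ¬ l ∣ M) (hr : ¬ r ∣ M), r % 3 = 2 →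
    M ≠ 0 →
    ∀ (D : Type) [Group D] [Fintype D] (κ : Gamma0 M →* D),
    Function.Surjective κ → (∃ a : ℕ, Fintype.card D = 3 ^ a) →
    ∀ (hΓ1 : ∀ γ : Gamma0 M, ((((γ : SL(2, ℤ)) 1 1 : ℤ)) : ZMod M) = 1 → κ γ = 1)
      (O : Type u) [CommRing O] [IsDomain O] [IsDiscreteValuationRing O] [CharZero O],
      ¬ IsUnit (3 : O) →
    ∀ (e t : (Additive (kerSub κ) →+ O) →ₗ[O] (Additive (kerSub κ) →+ O)),
      (∀ x, e (e x) = e x) → (∀ x, e (t x) = t (e x)) →
      (∀ (g : Gamma0 M) x, e (conjAct κ g x) = conjAct κ g (e x)) →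
      (∀ (g : Gamma0 M) x, t (conjAct κ g x) = conjAct κ g (t x)) →
      (∀ x, cor κ (t x) = heckeTransfer hl (cor κ x)) →
      (∀ y, e y = y → ∃ x, e x = x ∧ t x - ((l : O) + 1) • x = y) →
      (∀ x, e x = x → t x - ((l : O) + 1) • x = 0 → x = 0) →
      (∀ x, e (heckeKerLin hr κ hΓ1 O x) = heckeKerLin hr κ hΓ1 O (e x)) →
      (∀ y, e y = y → ∃ x, e x = x ∧ heckeKerLin hr κ hΓ1 O x = y) →
      FreeConclusion κ O e

/-- **M-FREE at `p = 3` with an auxiliary prime `r ≡ 2 mod 3`**, unconditional. -/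
theorem freeAux3 : FreeAux3Statement.{u} := by
  intro M l r _ _ hl hr hr3 hM D _ _ κ hκ hcard hΓ1 O _ _ _ _ hp e t he het hec htc hcor
    hsurj hinj her hsurjr
  have : Fact (Nat.Prime 3) := ⟨Nat.prime_three⟩
  refine freeAux.{u} 3 M l r hl hr hM D κ hκ hcard
    (fun g hgr hg => ellAux_h779 M r hr3 D κ hcard g hgr hg) hΓ1 O ?_ e t he het hec htc hcor
    hsurj hinj her hsurjr
  simpa using hp

end Fermat.Agent.S59.MFree.H779

end
-- ===== PACK-END S59/MFree/H779/FreeAux3.lean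

-- ===== PACK-BEGIN S55/G/CM/H644/Ord.lean
section



/-!
# S55 / G-CM:ORD — `QuotOrderSpec`  (helper644)

`π : Γ' ↠ Γ`, `Γ` a `p`-group, `C = C'^{ker π}` (via `ι`), `(C', γ)` a class module at `p`.
Then `H²(Γ, C)` contains a class of order (at least) `|Γ|`.

Proof.  `N = ker π`, `P'` a Sylow `p`-subgroup of `Γ'`, `t = [Γ' : P']`, `Y = (|N| t) • γ`.
`res_N Y = 0` (`|N|` kills `H²(N, -)`); `m` prime to `p` kills `H¹(N, C')`; the cochain form of
inflation–restriction up to torsion (helper244) gives a cocycle of `Γ` with values in `C` whose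
inflation is `m • Y`.  Orders are read off on `P'`, where `res γ` has order exactly `|P'|`.
-/

set_option autoImplicit false
set_option linter.unusedSectionVars false

namespace Fermat.Agent.S55.G.CM.H644

open CategoryTheory groupCohomology Rep
open Fermat.Agent.S55 Fermat.Agent.S55.T Fermat.Agent.S55.T.H244 Fermat.Agent.S55.H954

section Descend

variable {k G G' : Type} [CommRing k] [Group G] [Group G']

set_option backward.defeqAttrib.useBackward true in
set_option backward.isDefEq.respectTransparency false in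
/-- **Inflation along a surjection with descent, exactness up to torsion (cochain form).**
If `m` kills `H¹(ker π, C')`, `tr : C → C'` is injective with image the `ker π`-invariants and
`res_{ker π} x = 0`, then `m • x` is inflated from `H²(G, C)`. -/
theorem exists_map_eq_nsmul_of_resMap_eq_zero (π : G' →* G) (hπ : Function.Surjective π)
    (C : Rep.{0} k G) (C' : Rep.{0} k G') (tr : Rep.res π C ⟶ C')
    (htr_inj : Function.Injective tr.hom)
    (htr_surj : ∀ c' : C'.V, (∀ n ∈ π.ker, C'.ρ n c' = c') → ∃ c : C.V, tr.hom c = c')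
    {m : ℕ} (hkill : HOneKilledBy m C'.ρ π.ker)
    (x : groupCohomology C' 2) (hx : (resMap C' π.ker 2).hom x = 0) :
    ∃ z : groupCohomology C 2, (groupCohomology.map π tr 2).hom z = m • x := by
  induction x using H2_induction_on with | @h x =>
  have hx' : H2π (res π.ker.subtype C')
      (mapCocycles₂ π.ker.subtype (𝟙 (res π.ker.subtype C')) x) = 0 := by
    rw [← H2π_comp_map_apply π.ker.subtype]; exact hx
  obtain ⟨(φ : π.ker → C'), hφ⟩ := (H2π_eq_zero_iff _).1 hx'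
  have hcoc : IsTwoCocycle C'.ρ x := (mem_cocycles₂_iff _).1 x.2
  have hφ' : ∀ s t : π.ker, x ((s : G'), (t : G')) = C'.ρ s (φ t) - φ (s * t) + φ s := by
    intro s t
    have := congr_fun hφ (s, t)
    rw [d₁₂_hom_apply] at this
    exact this.symm
  obtain ⟨c, f', hff', hf'coc, i2, i1, i3⟩ :=
    exists_inflated_of_res_coboundary_nsmul C'.ρ π.ker hkill hcoc φ hφ'
  -- equivariance of `tr`
  have htr_eq : ∀ (a : G') (v : C.V), tr.hom (C.ρ (π a) v) = C'.ρ a (tr.hom v) := by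
    intro a v
    exact Rep.hom_comm_apply tr a v
  -- descend `f'` to a cochain of `G` with values in `C`
  have hex : ∀ q : G × G, ∃ v : C.V, ∀ a b : G', π a = q.1 → π b = q.2 →
      tr.hom v = f' (a, b) := by
    rintro ⟨g, h⟩
    obtain ⟨a₀, ha₀⟩ := hπ g
    obtain ⟨b₀, hb₀⟩ := hπ h
    obtain ⟨v, hv⟩ := htr_surj (f' (a₀, b₀)) (fun n hn => i3 n hn a₀ b₀)
    refine ⟨v, fun a b ha hb => ?_⟩
    have hs : a₀⁻¹ * a ∈ π.ker := by
      rw [MonoidHom.mem_ker, map_mul, map_inv, ha₀, ha]; exact inv_mul_cancel g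
    have hs' : b₀⁻¹ * b ∈ π.ker := by
      rw [MonoidHom.mem_ker, map_mul, map_inv, hb₀, hb]; exact inv_mul_cancel h
    have e1 : a = a₀ * (a₀⁻¹ * a) := by group
    have e2 : b = b₀ * (b₀⁻¹ * b) := by group
    rw [hv, e1, e2, i1 _ hs, i2 _ hs']
  choose fbar hfbar using hex
  have hfb : ∀ a b : G', tr.hom (fbar (π a, π b)) = f' (a, b) :=
    fun a b => hfbar (π a, π b) a b rfl rfl
  have hfbar_mem : fbar ∈ cocycles₂ C := by
    rw [mem_cocycles₂_iff]
    intro g h j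
    obtain ⟨a, rfl⟩ := hπ g
    obtain ⟨b, rfl⟩ := hπ h
    obtain ⟨d, rfl⟩ := hπ j
    apply htr_inj
    have e := hf'coc a b d
    rw [map_add, map_add, htr_eq, ← map_mul, ← map_mul, hfb, hfb, hfb, hfb]
    exact e
  refine ⟨H2π _ ⟨fbar, hfbar_mem⟩, ?_⟩
  rw [← map_nsmul]
  erw [H2π_comp_map_apply π]
  rw [H2π_eq_iff]
  refine ⟨-c, ?_⟩
  funext ⟨g, j⟩
  have := congr_fun hff' (g, j)
  rw [d₁₂_hom_apply]
  change _ = tr.hom (fbar (π g, π j)) - (m • x) (g, j)
  have hmx : (m • x) (g, j) = (m • (x : G' × G' → C')) (g, j) := rfl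
  rw [hmx, this, hfb]
  simp only [Pi.add_apply, dOne_apply, Pi.neg_apply, map_neg]
  abel

end Descend

/-- Arithmetic: `a = p^α`, `|P| ∣ n m K t`, `a K = |P| t`, `m, t` prime to `p`  ⟹  `a ∣ n`. -/
lemma dvd_of_card_arith {p a cP K t m n : ℕ} (ha : ∃ α, a = p ^ α)
    (hcP : 0 < cP) (hKa : a * K = cP * t) (hm : m.Coprime p) (ht : t.Coprime p)
    (h : cP ∣ n * m * (K * t)) : a ∣ n := by
  obtain ⟨α, rfl⟩ := ha
  have h1 : cP * p ^ α ∣ cP * (n * (m * t * t)) := by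
    have := mul_dvd_mul_right h (p ^ α)
    have e : n * m * (K * t) * p ^ α = cP * (n * (m * t * t)) := by
      calc n * m * (K * t) * p ^ α = n * m * t * (p ^ α * K) := by ring
        _ = n * m * t * (cP * t) := by rw [hKa]
        _ = cP * (n * (m * t * t)) := by ring
    rwa [e] at this
  have h2 : p ^ α ∣ n * (m * t * t) := Nat.dvd_of_mul_dvd_mul_left hcP h1
  have hcop : (p ^ α).Coprime (m * t * t) := by
    apply Nat.Coprime.pow_left
    exact Nat.Coprime.mul_right (Nat.Coprime.mul_right hm.symm ht.symm) ht.symm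
  exact hcop.dvd_of_dvd_mul_right h2

/-- **G-CM:ORD.** -/
theorem quotOrder : QuotOrderSpec := by
  intro p hp Γ' Γ _ _ _ π hπ hΓ C C' ι hι γ hγ
  have : Fact p.Prime := ⟨hp⟩
  have : Finite Γ := Finite.of_surjective π hπ
  obtain ⟨P⟩ : Nonempty (Sylow p Γ') := inferInstance
  set t := (P : Subgroup Γ').index with ht
  have htcop : t.Coprime p := by
    rw [Nat.coprime_comm, Nat.Prime.coprime_iff_not_dvd hp]
    exact P.not_dvd_index
  obtain ⟨-, hcardP, hgenP⟩ := hγ (P : Subgroup Γ') P.2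
  have hH1 : ∀ Q : Subgroup Γ', IsPGroup p Q →
      Limits.IsZero (groupCohomology (resSub C' Q) 1) := fun Q hQ => (hγ Q hQ).1
  obtain ⟨m, hm, hkill⟩ := exists_coprime_hOneKilledBy C' p hH1 π.ker
  set K := Nat.card π.ker with hK
  set Y : groupCohomology C' 2 := (K * t) • γ with hY
  have hresY : (resMap C' π.ker 2).hom Y = 0 := by
    rw [hY, map_nsmul, mul_nsmul']
    exact H572.cardTorsion ℤ π.ker (resSub C' π.ker) 2 (by norm_num) _
  obtain ⟨z, hz⟩ := exists_map_eq_nsmul_of_resMap_eq_zero π hπ C C' ι hι.1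
    (fun c' hc' => hι.2 c' hc') hkill Y hresY
  refine ⟨z, fun n hn => ?_⟩
  have h1 : n • m • Y = 0 := by rw [← hz, ← map_nsmul, hn, map_zero]
  have h2 : (n * m * (K * t)) • (resMap C' (P : Subgroup Γ') 2).hom γ = 0 := by
    have := congrArg (resMap C' (P : Subgroup Γ') 2).hom h1
    rw [map_nsmul, map_nsmul, hY, map_nsmul, map_zero] at this
    rw [mul_nsmul', mul_nsmul']
    exact this
  have hord : addOrderOf ((resMap C' (P : Subgroup Γ') 2).hom γ) = Nat.card (P : Subgroup Γ') := by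
    rw [← hcardP]
    apply addOrderOf_eq_card_of_forall_mem_zmultiples
    intro x
    obtain ⟨k, hk⟩ := hgenP x
    rw [hk]
    exact AddSubgroup.nsmul_mem_zmultiples _ k
  have h3 : Nat.card (P : Subgroup Γ') ∣ n * m * (K * t) := by
    rw [← hord]; exact addOrderOf_dvd_of_nsmul_eq_zero h2
  have hcard1 : Nat.card (P : Subgroup Γ') * t = Nat.card Γ' := Subgroup.card_mul_index _
  have hcard2 : Nat.card Γ' = Nat.card Γ * K := by
    rw [Subgroup.card_eq_card_quotient_mul_card_subgroup π.ker]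
    congr 1
    exact Nat.card_congr (QuotientGroup.quotientKerEquivOfSurjective π hπ).toEquiv
  exact dvd_of_card_arith (IsPGroup.exists_card_eq hΓ) Nat.card_pos
    (by rw [← hcard2, hcard1]) hm htcop h3

end Fermat.Agent.S55.G.CM.H644

end
-- ===== PACK-END S55/G/CM/H644/Ord.lean

-- ===== PACK-BEGIN S55/PT/ConverseH595.lean
section





/-!
# S55 / layer D : the CONVERSE bridge  `frozen S55 ⇒ Theorem D`   (helper595)

`PT.TheoremDSpec p S` (`Ш²(M) ≃ Dual Ш¹(M′)` in the `PT` vocabulary) is the form of Poitou–Tate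
duality consumed by row S56 (`S56/Euler/Big/H2FH29.lean`, `S56/Euler/H726/Sha2.lean`).
Layer D produces it from the four arithmetic inputs A3, A4, A5–A7, A8 (`theoremD_of_four`).

This file produces it from the FROZEN STATEMENT of S55 itself (any proof of it, e.g. the one of
engine E1), so that the consumers of Theorem D do not depend on input A8 (`CapSpec`):

* `S55At p S`              : the frozen statement of S55 at `(p, S)`, as a `Prop`;
* `theoremD_of_s55At`      : `p ≠ 2 → pPrime p ∈ S → S55At p S → TheoremDSpec p S`;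
* `nonempty_equiv_dual_of_pairing` : a two-sided non-degenerate pairing `W × V → K` with `W`
  finite-dimensional gives `V ≃ₗ Dual W` (linear algebra).
-/

set_option autoImplicit false

noncomputable section

namespace Fermat.Agent.S55.PT.H595

open groupCohomology ExtCitation Module

/-! ### Linear algebra -/

section LinAlg

variable {K V W : Type*} [Field K] [AddCommGroup V] [Module K V] [AddCommGroup W] [Module K W]

/-- A pairing `B : W → V → K` which is non-degenerate on both sides, with `W` finite-dimensional,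
induces an isomorphism `V ≃ₗ Dual W`, `x ↦ B(·, x)`. -/
theorem nonempty_equiv_dual_of_pairing [FiniteDimensional K W] (B : W →ₗ[K] V →ₗ[K] K)
    (h1 : ∀ y, (∀ x, B y x = 0) → y = 0) (h2 : ∀ x, (∀ y, B y x = 0) → x = 0) :
    Nonempty (V ≃ₗ[K] Module.Dual K W) := by
  have hΦ : Function.Injective B.flip := by
    rw [injective_iff_map_eq_zero]
    intro x hx
    exact h2 x (fun y => by simpa using LinearMap.congr_fun hx y)
  have hΨ : Function.Injective B := by
    rw [injective_iff_map_eq_zero]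
    intro y hy
    exact h1 y (fun x => by simpa using LinearMap.congr_fun hy x)
  have : FiniteDimensional K V := FiniteDimensional.of_injective B.flip hΦ
  have e1 : finrank K V ≤ finrank K W := by
    have := LinearMap.finrank_le_finrank_of_injective hΦ
    rwa [Subspace.dual_finrank_eq] at this
  have e2 : finrank K W ≤ finrank K V := by
    have := LinearMap.finrank_le_finrank_of_injective hΨ
    rwa [Subspace.dual_finrank_eq] at this
  have e3 : finrank K V = finrank K (Module.Dual K W) := by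
    rw [Subspace.dual_finrank_eq]
    exact le_antisymm e1 e2
  exact ⟨LinearEquiv.ofBijective B.flip
    ⟨hΦ, (LinearMap.injective_iff_surjective_of_finrank_eq_finrank e3).1 hΦ⟩⟩

end LinAlg

/-! ### The converse bridge -/

variable (p : ℕ) [Fact p.Prime] (S : Finset Nat.Primes)

/-- The frozen statement of S55 at `(p, S)`: conclusion for every `M` satisfying the hypotheses. -/
def S55At : Prop :=
  ∀ (M : Rep (ZMod p) (AlgebraicClosure ℚ ≃ₐ[ℚ] AlgebraicClosure ℚ))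
    [FiniteDimensional (ZMod p) M],
    (∀ m : M, ∃ F : IntermediateField ℚ (AlgebraicClosure ℚ), FiniteDimensional ℚ F ∧
      ∀ s ∈ F.fixingSubgroup, M.ρ s m = m) →
    (∀ q : Nat.Primes, q ∉ S → ∀ A : ValuationSubring (AlgebraicClosure ℚ),
      A.LiesOverPrime (q : ℕ) → ∀ g ∈ A.inertiaSubgroupIn ℚ, M.ρ g = 1) →
    ∃ B : sha₁ S (M.dualTwist (cycloChar p)) →ₗ[ZMod p] sha₂ S M →ₗ[ZMod p] ZMod p,
      (∀ y, (∀ x, B y x = 0) → y = 0) ∧ (∀ x, (∀ y, B y x = 0) → x = 0)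

/-- A uniformly smooth `M` satisfies the two hypotheses of the frozen statement. -/
theorem s55_hyps_of_isUSmooth (M : Rep.{0, 0, 0} (ZMod p) GQ)
    (hM : (globalLevels S).IsUSmooth M) :
    (∀ m : M, ∃ F : IntermediateField ℚ (AlgebraicClosure ℚ), FiniteDimensional ℚ F ∧
      ∀ s ∈ F.fixingSubgroup, M.ρ s m = m) ∧
    (∀ q : Nat.Primes, q ∉ S → ∀ A : ValuationSubring (AlgebraicClosure ℚ),
      A.LiesOverPrime (q : ℕ) → ∀ g ∈ A.inertiaSubgroupIn ℚ, M.ρ g = 1) := by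
  obtain ⟨U, ⟨F, hF, rfl⟩, hU⟩ := hM
  refine ⟨fun m => ⟨F, hF.1, fun s hs => hU s hs m⟩, fun q hq A hA g hg => ?_⟩
  refine LinearMap.ext fun a => ?_
  exact hU g (hF.2 q hq A hA hg) a

/-- The Tate dual of a uniformly smooth module is uniformly smooth (`p ∈ S`). -/
theorem isUSmooth_tdual (hpS : pPrime p ∈ S) (M : Rep.{0, 0, 0} (ZMod p) GQ)
    (hM : (globalLevels S).IsUSmooth M) : (globalLevels S).IsUSmooth (tdual p M) := by
  obtain ⟨V₁, hV₁, hV₁N⟩ := hM
  obtain ⟨V₂, hV₂, hV₂χ⟩ := H723.cycloLevelSpec p S hpS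
  obtain ⟨V, hV, hVle⟩ := (globalLevels S).directed V₁ hV₁ V₂ hV₂
  have hχV : ∀ u ∈ V, cycloChar p u = 1 := fun u hu => hV₂χ u (hVle hu).2
  have hNV : ∀ u ∈ V, M.ρ u = 1 := fun u hu =>
    LinearMap.ext fun a => hV₁N u (hVle hu).1 a
  exact isUSmooth_of_trivial _ hV
    (fun u hu => dualTwist_ρ_eq_one' (cycloChar p) M u (hχV u hu) (hNV u hu))

/-- **Converse bridge.**  Theorem D of layer D follows from the frozen statement of S55
(and the unconditional finiteness A1 of `H¹_S`). -/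
theorem theoremD_of_s55At (hp2 : p ≠ 2) (hpS : pPrime p ∈ S) (h : S55At p S) :
    TheoremDSpec p S := by
  intro M hfd hsm
  have := hfd
  have h2 : (2 : ZMod p) ≠ 0 := Fermat.Agent.S55.Bridge.two_ne_zero_zmod hp2
  obtain ⟨hyp1, hyp2⟩ := s55_hyps_of_isUSmooth p S M hsm
  obtain ⟨B, hB1, hB2⟩ := h M hyp1 hyp2
  -- finiteness of `Ш¹(M′)`
  have hsm' : (globalLevels S).IsUSmooth (tdual p M) := isUSmooth_tdual p S hpS M hsm
  have hH1 : FiniteDimensional (ZMod p) ((globalLevels S).H1 (tdual p M)) :=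
    H593.finGlob p S (tdual p M) inferInstance hsm'
  have hSha1 : FiniteDimensional (ZMod p) ↥(Sha1 (hrl S) (tdual p M)) :=
    FiniteDimensional.finiteDimensional_submodule _
  let e₁ := H724.sha1Equiv S h2 (tdual p M)
  let e₂ := H724.sha2Equiv S M h2
  have : FiniteDimensional (ZMod p) ↥(sha₁ S (M.dualTwist (cycloChar p))) :=
    LinearEquiv.finiteDimensional e₁
  obtain ⟨E⟩ := nonempty_equiv_dual_of_pairing B hB1 hB2
  exact ⟨e₂.trans (E.trans e₁.dualMap)⟩

/-- The frozen statement of S55 (all `p`, `S`, `M`), as a `Prop`: the type of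
`Fermat.Agent.S55.result`. -/
def S55Frozen : Prop :=
  ∀ {p : ℕ} [Fact p.Prime] (_hp2 : p ≠ 2) (S : Finset Nat.Primes) (_hpS : pPrime p ∈ S)
    (M : Rep (ZMod p) (AlgebraicClosure ℚ ≃ₐ[ℚ] AlgebraicClosure ℚ))
    [FiniteDimensional (ZMod p) M]
    (_hsm : ∀ m : M, ∃ F : IntermediateField ℚ (AlgebraicClosure ℚ), FiniteDimensional ℚ F ∧
      ∀ s ∈ F.fixingSubgroup, M.ρ s m = m)
    (_hMur : ∀ q : Nat.Primes, q ∉ S → ∀ A : ValuationSubring (AlgebraicClosure ℚ),
      A.LiesOverPrime (q : ℕ) → ∀ g ∈ A.inertiaSubgroupIn ℚ, M.ρ g = 1),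
    ∃ B : sha₁ S (M.dualTwist (cycloChar p)) →ₗ[ZMod p] sha₂ S M →ₗ[ZMod p] ZMod p,
      (∀ y, (∀ x, B y x = 0) → y = 0) ∧ (∀ x, (∀ y, B y x = 0) → x = 0)

theorem s55At_of_frozen (h : S55Frozen) (hp2 : p ≠ 2) (hpS : pPrime p ∈ S) : S55At p S :=
  fun M _ hsm hMur => h hp2 S hpS M hsm hMur

/-- **Theorem D for every `(p, S)` from the frozen statement of S55.**
Use: `theoremD_of_frozen @Fermat.Agent.S55.result p S hp2 hpS`. -/
theorem theoremD_of_frozen (h : S55Frozen) (hp2 : p ≠ 2) (hpS : pPrime p ∈ S) :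
    TheoremDSpec p S :=
  theoremD_of_s55At p S hp2 hpS (s55At_of_frozen p S h hp2 hpS)

end Fermat.Agent.S55.PT.H595

end

end
-- ===== PACK-END S55/PT/ConverseH595.lean

-- ===== PACK-BEGIN S33/H706/Old.lean
section




/-!
# S33 / piece OLD (helper706)

Architecture: `origin/helper409:coord/S33-helper409.md`, section 3, input (OLD).

* `mem_augClosure_of_killed` : **relative CE for a subgroup killed by `p`.**  `M` carries a Hopf
  lattice over `ℤ_(p)` (NOT assumed killed by `p`), `E ≤ M` is a `G_ℚ`-stable subgroup killed by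
  `p`, `p` odd.  Then `I_aug M ∩ E ≤ I_aug E`.
  (The landed `S56.FO.H6.mem_closure_of_mem_closure` is the case `p • M = 0`.)
* `augClosure_eq_of_killed` : if moreover `E ≤ I_aug M`, then `E = I_aug E`, i.e. the
  `I_P`-coinvariants of `E` vanish.
* `augSub_eq_of_hopfModel` : the same for a `G_ℚ`-module `J` all of whose torsion groups
  `J[p ^ n]` carry Hopf models (the shape of the frozen S19), for a `G_ℚ`-stable subgroup
  `Y ≤ ⋃ₙ I_aug (J[p ^ n]) ∩ J[p]`  (`augTors p J P n = I_aug (J[p ^ n])`, `augSub P Y = I_aug Y`).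
* `oldAug_of_s19 : S19HopfStatement → OldAugJZero` : (OLD) for `J₀(M')`, `p ∤ M'`, from the
  frozen S19 in the landed form `HopfModel p (Tors M' p k) (torsAct M' p k)`.
-/

set_option autoImplicit false
set_option linter.style.haveILetI false
set_option linter.unusedSectionVars false

noncomputable section

namespace Fermat.Agent.S33.H706

open Fermat.Agent.S56

/-- **Relative CE, subgroup killed by `p`.**  For a `G_ℚ`-stable subgroup `E` killed by `p`
(`p` odd) of a module `M` with a Hopf lattice: a point of `E` in the inertia augmentation of `M`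
lies in the inertia augmentation of `E`. -/
theorem mem_augClosure_of_killed {p : ℕ} [Fact p.Prime] (hp2 : p ≠ 2) {M : Type}
    [AddCommGroup M] {act : GQ → M → M} {Λ : Subalgebra (H906.Zp p) (M → Qb)}
    (hΛ : H906.IsHL p act Λ) (P : ValuationSubring Qb)
    (hP : P.LiesOverPrime p) (E : AddSubgroup M) (hE : ∀ (σ : GQ), ∀ x ∈ E, act σ x ∈ E)
    (hpE : ∀ x ∈ E, p • x = 0) {x : M} (hxE : x ∈ E)
    (hx : x ∈ AddSubgroup.closure
      {z : M | ∃ σ ∈ P.inertiaSubgroupIn ℚ, ∃ y : M, z = act σ y - y}) :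
    x ∈ AddSubgroup.closure
      {z : M | ∃ σ ∈ P.inertiaSubgroupIn ℚ, ∃ y ∈ E, z = act σ y - y} := by
  haveI : Finite M := Fermat.Agent.S19.H435.IsHopfLattice.finite hΛ
  -- the pullback lattice on `E`
  set actE : GQ → E → E := fun σ y => ⟨act σ y, hE σ y y.2⟩ with hactE
  have hΛE := Fermat.Agent.S19.H435.IsHopfLattice.pullback hΛ E.subtype
    Subtype.val_injective actE (fun σ y => rfl)
  have hpE' : ∀ y : E, p • y = 0 := fun y => Subtype.ext (by
    rw [AddSubgroup.coe_nsmul, hpE y y.2]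
    rfl)
  have hred : ∀ f ∈ Λ.map (Fermat.Agent.S19.H435.precompAlgHom p E.subtype),
      P.valuation (f ⟨x, hxE⟩ - f 0) < 1 := by
    rintro _ ⟨f, hf, rfl⟩
    exact H906.closure_le_redKer P hΛ hP hx f hf
  have h1 := FO.H6.connEt p hp2 E actE _ hΛE hpE' P hP ⟨x, hxE⟩ hred
  -- push forward to `M`
  have h2 : ∀ y : E, y ∈ AddSubgroup.closure
      {z : E | ∃ σ ∈ P.inertiaSubgroupIn ℚ, ∃ y : E, z = actE σ y - y} →
      (y : M) ∈ AddSubgroup.closure
        {z : M | ∃ σ ∈ P.inertiaSubgroupIn ℚ, ∃ y ∈ E, z = act σ y - y} := by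
    intro y hy
    induction hy using AddSubgroup.closure_induction with
    | mem z hz =>
      obtain ⟨σ, hσ, w, rfl⟩ := hz
      exact AddSubgroup.subset_closure ⟨σ, hσ, w, w.2, rfl⟩
    | zero => exact AddSubgroup.zero_mem _
    | add a b _ _ ha hb => exact AddSubgroup.add_mem _ ha hb
    | neg a _ ha => exact AddSubgroup.neg_mem _ ha
  exact h2 ⟨x, hxE⟩ h1

/-- If `E` (stable, killed by `p`) is contained in the inertia augmentation of `M`, then `E` is
its own inertia augmentation: the `I_P`-coinvariants of `E` vanish. -/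
theorem augClosure_eq_of_killed {p : ℕ} [Fact p.Prime] (hp2 : p ≠ 2) {M : Type}
    [AddCommGroup M] {act : GQ → M → M} {Λ : Subalgebra (H906.Zp p) (M → Qb)}
    (hΛ : H906.IsHL p act Λ) (P : ValuationSubring Qb)
    (hP : P.LiesOverPrime p) (E : AddSubgroup M) (hE : ∀ (σ : GQ), ∀ x ∈ E, act σ x ∈ E)
    (hpE : ∀ x ∈ E, p • x = 0)
    (hEaug : E ≤ AddSubgroup.closure
      {z : M | ∃ σ ∈ P.inertiaSubgroupIn ℚ, ∃ y : M, z = act σ y - y}) :
    AddSubgroup.closure
      {z : M | ∃ σ ∈ P.inertiaSubgroupIn ℚ, ∃ y ∈ E, z = act σ y - y} = E := by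
  refine le_antisymm ?_ fun x hx =>
    mem_augClosure_of_killed hp2 hΛ P hP E hE hpE hx (hEaug hx)
  rw [AddSubgroup.closure_le]
  rintro z ⟨σ, -, y, hy, rfl⟩
  exact E.sub_mem (hE σ y hy) hy


section Torsion

variable {p : ℕ} {J : Type} [AddCommGroup J] [SMul GQ J]

/-- The inertia augmentation (at `P`) of the `p ^ n`-torsion of `J`: the subgroup of `J`
generated by the `σ • w - w`, `σ ∈ I_P`, `p ^ n • w = 0`. -/
def augTors (p : ℕ) (J : Type) [AddCommGroup J] [SMul GQ J] (P : ValuationSubring Qb) (n : ℕ) :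
    AddSubgroup J :=
  AddSubgroup.closure
    {z : J | ∃ σ ∈ P.inertiaSubgroupIn ℚ, ∃ w : J, (p : ℤ) ^ n • w = 0 ∧ z = σ • w - w}

/-- The inertia augmentation (at `P`) of a subgroup `Y` of `J`: the subgroup generated by the
`σ • w - w`, `σ ∈ I_P`, `w ∈ Y`. -/
def augSub (P : ValuationSubring Qb) (Y : AddSubgroup J) : AddSubgroup J :=
  AddSubgroup.closure {z : J | ∃ σ ∈ P.inertiaSubgroupIn ℚ, ∃ w ∈ Y, z = σ • w - w}

theorem augSub_le (P : ValuationSubring Qb) (Y : AddSubgroup J)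
    (hY : ∀ (σ : GQ), ∀ y ∈ Y, σ • y ∈ Y) : augSub P Y ≤ Y := by
  unfold augSub
  rw [AddSubgroup.closure_le]
  rintro z ⟨σ, -, w, hw, rfl⟩
  exact Y.sub_mem (hY σ w hw) hw

theorem augSub_mono (P : ValuationSubring Qb) {Y Y' : AddSubgroup J} (h : Y ≤ Y') :
    augSub P Y ≤ augSub P Y' := by
  unfold augSub
  refine AddSubgroup.closure_mono ?_
  rintro z ⟨σ, hσ, w, hw, rfl⟩
  exact ⟨σ, hσ, w, h hw, rfl⟩

/-- **(OLD), pointwise.**  `J` a `G_ℚ`-module whose torsion group `J[p ^ n]` carries a Hopf model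
(for the restricted action), `p` odd, `P | p`.  If `Y ≤ J` is a `G_ℚ`-stable subgroup killed by
`p` and `y ∈ Y` lies in the inertia augmentation of `J[p ^ n]`, then `y` lies in the inertia
augmentation of `Y`. -/
theorem mem_augSub_of_mem_augTors [Fact p.Prime] (hp2 : p ≠ 2) (n : ℕ)
    (act : GQ → ↥(Submodule.torsionBy ℤ J ((p : ℤ) ^ n)) →
      ↥(Submodule.torsionBy ℤ J ((p : ℤ) ^ n)))
    (hact : ∀ σ m, ((act σ m : ↥(Submodule.torsionBy ℤ J ((p : ℤ) ^ n))) : J) = σ • (m : J))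
    (hJ : Fermat.Agent.S19.HopfModel p ↥(Submodule.torsionBy ℤ J ((p : ℤ) ^ n)) act)
    (P : ValuationSubring Qb) (hP : P.LiesOverPrime p)
    (Y : AddSubgroup J) (hY : ∀ (σ : GQ), ∀ y ∈ Y, σ • y ∈ Y) (hpY : ∀ y ∈ Y, p • y = 0)
    {y : J} (hyY : y ∈ Y) (hy : y ∈ augTors p J P n) : y ∈ augSub P Y := by
  obtain ⟨Λ, hΛ⟩ := Fermat.Agent.S19.H435.exists_isHopfLattice_of_hopfModel hJ
  -- the subgroup `E = Y ∩ J[p ^ n]` of `M = J[p ^ n]`
  let ι : ↥(Submodule.torsionBy ℤ J ((p : ℤ) ^ n)) →+ J :=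
    (Submodule.torsionBy ℤ J ((p : ℤ) ^ n)).subtype.toAddMonoidHom
  let E : AddSubgroup ↥(Submodule.torsionBy ℤ J ((p : ℤ) ^ n)) := Y.comap ι
  have hEmem : ∀ x : ↥(Submodule.torsionBy ℤ J ((p : ℤ) ^ n)), x ∈ E ↔ (x : J) ∈ Y :=
    fun _ => Iff.rfl
  have hE : ∀ (σ : GQ), ∀ x ∈ E, act σ x ∈ E := by
    intro σ x hx
    rw [hEmem, hact]
    exact hY σ _ ((hEmem x).mp hx)
  have hpE : ∀ x ∈ E, p • x = 0 := by
    intro x hx
    apply Subtype.ext
    have h := hpY _ ((hEmem x).mp hx)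
    rw [Submodule.coe_smul_of_tower, h]
    rfl
  -- lift `y` to `M`, inside the augmentation of `M`
  have hlift : ∀ z : J, z ∈ augTors p J P n →
      ∃ x : ↥(Submodule.torsionBy ℤ J ((p : ℤ) ^ n)), (x : J) = z ∧ x ∈ AddSubgroup.closure
        {z : ↥(Submodule.torsionBy ℤ J ((p : ℤ) ^ n)) |
          ∃ σ ∈ P.inertiaSubgroupIn ℚ, ∃ y, z = act σ y - y} := by
    intro z hz
    unfold augTors at hz
    induction hz using AddSubgroup.closure_induction with
    | mem z hz =>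
      obtain ⟨σ, hσ, w, hw, rfl⟩ := hz
      have hwM : w ∈ Submodule.torsionBy ℤ J ((p : ℤ) ^ n) :=
        (Submodule.mem_torsionBy_iff _ _).mpr hw
      refine ⟨act σ ⟨w, hwM⟩ - ⟨w, hwM⟩, ?_, AddSubgroup.subset_closure ⟨σ, hσ, ⟨w, hwM⟩, rfl⟩⟩
      rw [AddSubgroupClass.coe_sub, hact]
    | zero => exact ⟨0, rfl, AddSubgroup.zero_mem _⟩
    | add a b _ _ ha hb =>
      obtain ⟨xa, rfl, hxa⟩ := ha
      obtain ⟨xb, rfl, hxb⟩ := hb
      exact ⟨xa + xb, rfl, AddSubgroup.add_mem _ hxa hxb⟩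
    | neg a _ ha =>
      obtain ⟨xa, rfl, hxa⟩ := ha
      exact ⟨-xa, rfl, AddSubgroup.neg_mem _ hxa⟩
  obtain ⟨x, rfl, hx⟩ := hlift y hy
  have hxE : x ∈ E := (hEmem x).mpr hyY
  have h1 := mem_augClosure_of_killed hp2 hΛ P hP E hE hpE hxE hx
  -- push forward to `J`
  have h2 : ∀ x : ↥(Submodule.torsionBy ℤ J ((p : ℤ) ^ n)), x ∈ AddSubgroup.closure
      {z : ↥(Submodule.torsionBy ℤ J ((p : ℤ) ^ n)) |
        ∃ σ ∈ P.inertiaSubgroupIn ℚ, ∃ y ∈ E, z = act σ y - y} →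
      (x : J) ∈ augSub P Y := by
    intro x hx
    induction hx using AddSubgroup.closure_induction with
    | mem z hz =>
      obtain ⟨σ, hσ, w, hw, rfl⟩ := hz
      refine AddSubgroup.subset_closure ⟨σ, hσ, (w : J), (hEmem w).mp hw, ?_⟩
      rw [AddSubgroupClass.coe_sub, hact]
    | zero => exact AddSubgroup.zero_mem _
    | add a b _ _ ha hb => exact AddSubgroup.add_mem _ ha hb
    | neg a _ ha => exact AddSubgroup.neg_mem _ ha
  exact h2 x h1

/-- **(OLD).**  `J` a `G_ℚ`-module all of whose torsion groups `J[p ^ n]` carry Hopf models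
(frozen S19 shape), `p` odd, `P | p`.  Every `G_ℚ`-stable subgroup
`Y ≤ ⋃ₙ I_aug (J[p ^ n]) ∩ J[p]` is its own inertia augmentation: `Y_I = 0`. -/
theorem augSub_eq_of_hopfModel [Fact p.Prime] (hp2 : p ≠ 2)
    (hJ : ∀ n : ℕ, ∃ act : GQ → ↥(Submodule.torsionBy ℤ J ((p : ℤ) ^ n)) →
        ↥(Submodule.torsionBy ℤ J ((p : ℤ) ^ n)),
      (∀ σ m, ((act σ m : ↥(Submodule.torsionBy ℤ J ((p : ℤ) ^ n))) : J) = σ • (m : J)) ∧
        Fermat.Agent.S19.HopfModel p ↥(Submodule.torsionBy ℤ J ((p : ℤ) ^ n)) act)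
    (P : ValuationSubring Qb) (hP : P.LiesOverPrime p)
    (Y : AddSubgroup J) (hY : ∀ (σ : GQ), ∀ y ∈ Y, σ • y ∈ Y) (hpY : ∀ y ∈ Y, p • y = 0)
    (hYaug : ∀ y ∈ Y, ∃ n : ℕ, y ∈ augTors p J P n) : augSub P Y = Y := by
  refine le_antisymm (augSub_le P Y hY) fun y hy => ?_
  obtain ⟨n, hn⟩ := hYaug y hy
  obtain ⟨act, hact, hmodel⟩ := hJ n
  exact mem_augSub_of_mem_augTors hp2 n act hact hmodel P hP Y hY hpY hy hn

end Torsion

section JZero

open Fermat.Agent.S19 (HopfModel Tors torsAct)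

/-- The frozen S19, in the landed `HopfModel` form (cf. `S19.frozen_of_hopfModel`). -/
def S19HopfStatement : Prop :=
  ∀ (N : ℕ) [NeZero N] (ℓ : ℕ) [Fact ℓ.Prime], ¬ ℓ ∣ N → ∀ k : ℕ,
    HopfModel ℓ (Tors N ℓ k) (torsAct N ℓ k)

/-- **(OLD)** for one level `M'`, from Hopf models on the `p`-power torsion of `J₀(M')`. -/
theorem augSub_eq_jZero {p : ℕ} [Fact p.Prime] (hp2 : p ≠ 2) (M' : ℕ) [NeZero M']
    (hS19 : ∀ k : ℕ, HopfModel p (Tors M' p k) (torsAct M' p k))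
    (P : ValuationSubring _root_.Fermat.Agent.S56.Qb) (hP : P.LiesOverPrime p)
    (Y : AddSubgroup (ModularCurve.JZero M')) (hY : ∀ (σ : GQ), ∀ y ∈ Y, σ • y ∈ Y)
    (hpY : ∀ y ∈ Y, p • y = 0)
    (hYaug : ∀ y ∈ Y, ∃ n : ℕ, y ∈ augTors p (ModularCurve.JZero M') P n) :
    augSub P Y = Y :=
  augSub_eq_of_hopfModel hp2 (fun n => ⟨torsAct M' p n, fun _ _ => rfl, hS19 n⟩) P hP Y hY hpY
    hYaug

/-- **(OLD)**, as a `Prop`: at a level `M'` prime to the odd prime `p`, a `G_ℚ`-stable subgroup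
of `J₀(M')[p]` contained in `⋃ₙ I_aug (J₀(M')[p ^ n])` has trivial `I_P`-coinvariants. -/
def OldAugJZero : Prop :=
  ∀ (p : ℕ) [Fact p.Prime], p ≠ 2 → ∀ (M' : ℕ) [NeZero M'], ¬ p ∣ M' →
    ∀ (P : ValuationSubring _root_.Fermat.Agent.S56.Qb), P.LiesOverPrime p →
    ∀ (Y : AddSubgroup (ModularCurve.JZero M')), (∀ (σ : GQ), ∀ y ∈ Y, σ • y ∈ Y) →
      (∀ y ∈ Y, p • y = 0) →
      (∀ y ∈ Y, ∃ n : ℕ, y ∈ augTors p (ModularCurve.JZero M') P n) →
      augSub P Y = Y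

/-- **(OLD)** from the frozen S19. -/
theorem oldAug_of_s19 (hS19 : S19HopfStatement) : OldAugJZero :=
  fun p _ hp2 M' _ hpM' P hP Y hY hpY hYaug =>
    augSub_eq_jZero hp2 M' (fun k => hS19 M' p hpM' k) P hP Y hY hpY hYaug

end JZero

end Fermat.Agent.S33.H706

end

end
-- ===== PACK-END S33/H706/Old.lean

-- ===== PACK-BEGIN S59/LoSqC/H27/PullAbs.lean
section




/-!
# S59 moonshot, cell (C) LO-SQ, leaf W-PULL (reduction half), part 1 (helper27)

ONE embedding `φ : F' → F` of fields and ONE pair of valuation rings `V | O`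
(`V.comap φ = O`, in the form `hov : ∀ a, φ a ∈ V ↔ a ∈ O` of `S36.H586.over_of_comap`).
Mathlib-only statements, in the vocabulary of the S36 engine (`Eng.UnitAt`, `H586.PU`,
`A2.H12.SplitAt`, `A2.DivisibleDiv`).

* `IsResPow m V g`   : `g = G ^ m · (1 + 𝔪_V)` with `G` a unit of `V`
                        (`g` is a unit of `V` whose residue is an `m`-th power);
                        `isResPow_iff_splitAt` compares with `A2.H12.SplitAt` on units;
* (P1) `over_unitAt`, `over_mem_nonunits` : units and non-units along `φ`;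
* (P2) `over_sub_mem_nonunits`, `over_pu_div` : congruences along `φ`;
* (P3) `isResPow_up` (always), `isResPow_down_res` (residue degree one),
       `isResPow_down_insep` (purely inseparable residue extension of degree `q`, `gcd(q, m) = 1`):
       `m`-th power residues along `φ`, in both directions;
* (LIFT) `exists_lift_res`, `exists_lift_insep` : every unit of `V` is, modulo `1 + 𝔪_V`
       (resp. modulo `m`-th powers and `1 + 𝔪_V`), the image of a unit of `O`;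
* (P4) `divisibleDiv_map` : `m ∣ div g` ⟹ `m ∣ div (φ g)` for an `E`-algebra map `φ`.
-/

set_option autoImplicit false
set_option linter.unusedSectionVars false
set_option linter.unusedVariables false
set_option linter.style.haveILetI false

namespace Fermat.Agent.S59.LoSqC.H27

open Fermat.Agent.S36.Eng Fermat.Agent.S36.H586
open Fermat.Agent.A2.H12 (SplitAt)

/-! ## `m`-th power residues -/

section ResPow

variable {F : Type*} [Field F] {V : ValuationSubring F}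

/-- `g` is a unit of `V` whose residue is the `m`-th power of a unit:
`g ∈ G ^ m · (1 + 𝔪_V)`, `G ∈ Vˣ`. -/
def IsResPow (m : ℕ) (V : ValuationSubring F) (g : F) : Prop :=
  ∃ G : F, V.valuation G = 1 ∧ PU V (g / G ^ m)

theorem IsResPow.val_eq_one {m : ℕ} {g : F} (h : IsResPow m V g) : V.valuation g = 1 := by
  obtain ⟨G, hG, hpu⟩ := h
  have h1 := hpu.val_eq_one
  rw [map_div₀, map_pow, hG, one_pow, div_one] at h1
  exact h1

theorem IsResPow.ne_zero {m : ℕ} {g : F} (h : IsResPow m V g) : g ≠ 0 :=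
  ne_of_val h.val_eq_one

theorem IsResPow.unitAt {m : ℕ} {g : F} (h : IsResPow m V g) : UnitAt V g :=
  unitAt_iff.2 h.val_eq_one

theorem isResPow_of_pu {m : ℕ} {g : F} (h : PU V g) : IsResPow m V g :=
  ⟨1, map_one _, by rw [one_pow, div_one]; exact h⟩

theorem isResPow_one {m : ℕ} : IsResPow m V (1 : F) := isResPow_of_pu PU.one

theorem isResPow_pow {m : ℕ} {G : F} (hG : V.valuation G = 1) : IsResPow m V (G ^ m) :=
  ⟨G, hG, by
    rw [div_self (pow_ne_zero _ (ne_of_val hG))]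
    exact PU.one⟩

theorem IsResPow.mul {m : ℕ} {g h : F} (hg : IsResPow m V g) (hh : IsResPow m V h) :
    IsResPow m V (g * h) := by
  obtain ⟨G, hG, hpu⟩ := hg
  obtain ⟨H, hH, hpv⟩ := hh
  refine ⟨G * H, by rw [map_mul, hG, hH, one_mul], ?_⟩
  have e : g * h / (G * H) ^ m = (g / G ^ m) * (h / H ^ m) := by
    rw [mul_pow]
    field_simp
  rw [e]
  exact hpu.mul hpv

theorem IsResPow.inv {m : ℕ} {g : F} (hg : IsResPow m V g) : IsResPow m V g⁻¹ := by
  obtain ⟨G, hG, hpu⟩ := hg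
  refine ⟨G⁻¹, by rw [map_inv₀, hG, inv_one], ?_⟩
  have e : g⁻¹ / G⁻¹ ^ m = (g / G ^ m)⁻¹ := by
    rw [inv_pow]
    field_simp
  rw [e]
  exact hpu.inv

theorem IsResPow.div {m : ℕ} {g h : F} (hg : IsResPow m V g) (hh : IsResPow m V h) :
    IsResPow m V (g / h) := by
  rw [div_eq_mul_inv]
  exact hg.mul hh.inv

theorem IsResPow.pow {m : ℕ} {g : F} (hg : IsResPow m V g) (n : ℕ) : IsResPow m V (g ^ n) := by
  induction n with
  | zero => rw [pow_zero]; exact isResPow_one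
  | succ n ih => rw [pow_succ]; exact ih.mul hg

theorem IsResPow.zpow {m : ℕ} {g : F} (hg : IsResPow m V g) (n : ℤ) : IsResPow m V (g ^ n) := by
  cases n with
  | ofNat n => rw [Int.ofNat_eq_natCast, zpow_natCast]; exact hg.pow n
  | negSucc n => rw [zpow_negSucc]; exact (hg.pow _).inv

/-- Congruent units have the same residue. -/
theorem IsResPow.congr {m : ℕ} {g h : F} (hg : IsResPow m V g) (hgh : PU V (h / g)) :
    IsResPow m V h := by
  have h0 : g ≠ 0 := hg.ne_zero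
  have e : h = g * (h / g) := by field_simp
  rw [e]
  exact hg.mul (isResPow_of_pu hgh)

/-- `x ^ q` and `m` coprime to `q`: the residue of `x` is an `m`-th power as soon as the one of
`x ^ q` is. -/
theorem isResPow_of_pow_coprime {q m : ℕ} (hm : 0 < m) (hqm : Nat.Coprime q m) {g : F}
    (hg : V.valuation g = 1) (h : IsResPow m V (g ^ q)) : IsResPow m V g := by
  obtain ⟨G, hG, hpu⟩ := h
  obtain ⟨G', hG'0, hpu'⟩ :=
    exists_pu_div_pow_of_coprime hqm (ne_of_val hg) (ne_of_val hG) hpu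
  refine ⟨G', ?_, hpu'⟩
  have h1 := hpu'.val_eq_one
  rw [map_div₀, hg] at h1
  have h2 : V.valuation (G' ^ m) = 1 := by
    have h3 : V.valuation (G' ^ m) ≠ 0 :=
      (Valuation.ne_zero_iff _).2 (pow_ne_zero _ hG'0)
    have h4 : (1 : V.ValueGroup) = V.valuation (G' ^ m) := by
      rw [div_eq_iff h3, one_mul] at h1
      exact h1
    exact h4.symm
  exact val_eq_one_of_pow hm h2

/-- Comparison with `A2.H12.SplitAt` (which contains the junk case `u = 0`): on units of `V` the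
two notions agree. -/
theorem isResPow_iff_splitAt {m : ℕ} (hm : 0 < m) {g : F} (hg : V.valuation g = 1) :
    IsResPow m V g ↔ SplitAt m V g := by
  constructor
  · rintro ⟨G, hG, hpu⟩
    have hGu := unitAt_iff.2 hG
    refine ⟨G, hGu.2.1, hGu.2.2, ?_⟩
    have hGm : V.valuation (G ^ m) = 1 := by rw [map_pow, hG, one_pow]
    exact (ValuationSubring.mem_nonunits_iff V).2 (sub_of_pu_div hGm hpu)
  · rintro ⟨u, hu, hu', hgu⟩
    have hgu' : V.valuation (g - u ^ m) < 1 := (ValuationSubring.mem_nonunits_iff V).1 hgu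
    have hum : V.valuation (u ^ m) = 1 := val_eq_one_of_sub_lt hg hgu'
    have hu1 : V.valuation u = 1 := val_eq_one_of_pow hm hum
    exact ⟨u, hu1, pu_div_of_sub hum hgu'⟩

theorem IsResPow.splitAt {m : ℕ} {g : F} (h : IsResPow m V g) : SplitAt m V g := by
  obtain ⟨G, hG, hpu⟩ := h
  have hGu := unitAt_iff.2 hG
  refine ⟨G, hGu.2.1, hGu.2.2, ?_⟩
  have hGm : V.valuation (G ^ m) = 1 := by rw [map_pow, hG, one_pow]
  exact (ValuationSubring.mem_nonunits_iff V).2 (sub_of_pu_div hGm hpu)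

end ResPow

/-! ## One embedding, one pair `V | O` -/

section One

variable {F' F : Type*} [Field F'] [Field F] {φ : F' →+* F} {O : ValuationSubring F'}
  {V : ValuationSubring F}

/-- (P1) units along `φ`. -/
theorem over_unitAt (hov : ∀ a : F', φ a ∈ V ↔ a ∈ O) (a : F') :
    UnitAt V (φ a) ↔ UnitAt O a := by
  rw [unitAt_iff, unitAt_iff]
  exact over_val_eq_one hov a

/-- (P1) non-units along `φ`. -/
theorem over_mem_nonunits (hov : ∀ a : F', φ a ∈ V ↔ a ∈ O) (a : F') :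
    φ a ∈ V.nonunits ↔ a ∈ O.nonunits := by
  rw [ValuationSubring.mem_nonunits_iff, ValuationSubring.mem_nonunits_iff]
  exact over_val_lt_one hov a

/-- (P2) congruences along `φ`. -/
theorem over_sub_mem_nonunits (hov : ∀ a : F', φ a ∈ V ↔ a ∈ O) (a b : F') :
    φ a - φ b ∈ V.nonunits ↔ a - b ∈ O.nonunits := by
  rw [← map_sub]
  exact over_mem_nonunits hov _

/-- (P2) congruences of units along `φ`, multiplicative form. -/
theorem over_pu_div (hov : ∀ a : F', φ a ∈ V ↔ a ∈ O) (a b : F') :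
    PU V (φ a / φ b) ↔ PU O (a / b) := by
  rw [← map_div₀]
  exact over_pu hov _

/-- (P3, up) an `m`-th power residue stays one. -/
theorem isResPow_up (hov : ∀ a : F', φ a ∈ V ↔ a ∈ O) {m : ℕ} {g : F'}
    (h : IsResPow m O g) : IsResPow m V (φ g) := by
  obtain ⟨G, hG, hpu⟩ := h
  refine ⟨φ G, (over_val_eq_one hov G).2 hG, ?_⟩
  rw [← map_pow, ← map_div₀]
  exact (over_pu hov _).2 hpu

/-- (P3, up) in `SplitAt` form. -/
theorem splitAt_up (hov : ∀ a : F', φ a ∈ V ↔ a ∈ O) {m : ℕ} {g : F'}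
    (h : SplitAt m O g) : SplitAt m V (φ g) := by
  obtain ⟨u, hu, hu', hgu⟩ := h
  refine ⟨φ u, (hov u).2 hu, ?_, ?_⟩
  · rw [← map_inv₀]
    exact (hov _).2 hu'
  · rw [← map_pow, ← map_sub]
    exact (over_mem_nonunits hov _).2 hgu

/-- (LIFT, residue degree one) every unit of `V` is congruent to the image of a unit of `O`. -/
theorem exists_lift_res (hov : ∀ a : F', φ a ∈ V ↔ a ∈ O)
    (hres : ∀ y : F, V.valuation y = 1 → ∃ a : F', V.valuation (y - φ a) < 1)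
    {y : F} (hy : V.valuation y = 1) :
    ∃ a : F', O.valuation a = 1 ∧ PU V (y / φ a) := by
  obtain ⟨a, ha⟩ := hres y hy
  have h1 : V.valuation (φ a) = 1 := val_eq_one_of_sub_lt hy ha
  exact ⟨a, (over_val_eq_one hov a).1 h1, pu_div_of_sub h1 ha⟩

/-- (LIFT, purely inseparable of degree `q`) every unit of `V` is, modulo `m`-th powers of units
(`gcd(q, m) = 1`), congruent to the image of a unit of `O`. -/
theorem exists_lift_insep (hov : ∀ a : F', φ a ∈ V ↔ a ∈ O) {q : ℕ}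
    (hres : ∀ y : F, V.valuation y = 1 → ∃ c : F', V.valuation (y ^ q - φ c) < 1)
    {m : ℕ} (hqm : Nat.Coprime q m) {y : F} (hy : V.valuation y = 1) :
    ∃ (a : F') (G : F), O.valuation a = 1 ∧ V.valuation G = 1 ∧ PU V (y / (φ a * G ^ m)) := by
  obtain ⟨c, hc⟩ := hres y hy
  have hyq : V.valuation (y ^ q) = 1 := by rw [map_pow, hy, one_pow]
  have h1 : V.valuation (φ c) = 1 := val_eq_one_of_sub_lt hyq hc
  have hc1 : O.valuation c = 1 := (over_val_eq_one hov c).1 h1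
  have hpu : PU V (y ^ q / φ c) := pu_div_of_sub h1 hc
  obtain ⟨a, b, hab⟩ := Nat.isCoprime_iff_coprime.2 hqm
  have hy0 : y ≠ 0 := ne_of_val hy
  have hc0 : c ≠ 0 := ne_of_val hc1
  have hφc0 : φ c ≠ 0 := ne_of_val h1
  refine ⟨c ^ a, y ^ b, by rw [map_zpow₀, hc1, one_zpow], by rw [map_zpow₀, hy, one_zpow], ?_⟩
  have e : y / (φ (c ^ a) * (y ^ b) ^ m) = (y ^ q / φ c) ^ a := by
    have hx1 : y = (y ^ q) ^ a * (y ^ b) ^ m := by
      rw [← zpow_natCast y q, ← zpow_natCast (y ^ b) m, ← zpow_mul, ← zpow_mul,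
        ← zpow_add₀ hy0, mul_comm (q : ℤ) a, hab, zpow_one]
    rw [map_zpow₀, div_zpow]
    have h2 : φ c ^ a ≠ 0 := zpow_ne_zero _ hφc0
    have h3 : (y ^ b) ^ m ≠ 0 := pow_ne_zero _ (zpow_ne_zero _ hy0)
    rw [div_eq_div_iff (mul_ne_zero h2 h3) h2]
    calc y * φ c ^ a = ((y ^ q) ^ a * (y ^ b) ^ m) * φ c ^ a := by rw [← hx1]
      _ = (y ^ q) ^ a * (φ c ^ a * (y ^ b) ^ m) := by ring
  rw [e]
  exact hpu.zpow a

/-- (P3, down, residue degree one) `φ g` has an `m`-th power residue at `V` ⟹ so has `g`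
at `O`. -/
theorem isResPow_down_res (hov : ∀ a : F', φ a ∈ V ↔ a ∈ O)
    (hres : ∀ y : F, V.valuation y = 1 → ∃ a : F', V.valuation (y - φ a) < 1)
    {m : ℕ} {g : F'} (h : IsResPow m V (φ g)) : IsResPow m O g := by
  obtain ⟨G, hG, hpu⟩ := h
  obtain ⟨a, ha1, hpa⟩ := exists_lift_res hov hres hG
  have hφa : V.valuation (φ a) = 1 := (over_val_eq_one hov a).2 ha1
  have hG0 : G ≠ 0 := ne_of_val hG
  have hφa0 : φ a ≠ 0 := ne_of_val hφa
  refine ⟨a, ha1, (over_pu hov _).1 ?_⟩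
  have e : φ (g / a ^ m) = (φ g / G ^ m) * (G / φ a) ^ m := by
    rw [map_div₀, map_pow, div_pow]
    field_simp
  rw [e]
  exact hpu.mul (hpa.pow m)

/-- (P3, down, purely inseparable of degree `q`, `gcd(q, m) = 1`). -/
theorem isResPow_down_insep (hov : ∀ a : F', φ a ∈ V ↔ a ∈ O) {q : ℕ}
    (hres : ∀ y : F, V.valuation y = 1 → ∃ c : F', V.valuation (y ^ q - φ c) < 1)
    {m : ℕ} (hm : 0 < m) (hqm : Nat.Coprime q m) {g : F'} (h : IsResPow m V (φ g)) :
    IsResPow m O g := by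
  have hg1 : O.valuation g = 1 := (over_val_eq_one hov g).1 h.val_eq_one
  obtain ⟨G, hG, hpu⟩ := h
  obtain ⟨c, hc⟩ := hres G hG
  have hGq : V.valuation (G ^ q) = 1 := by rw [map_pow, hG, one_pow]
  have hφc : V.valuation (φ c) = 1 := val_eq_one_of_sub_lt hGq hc
  have hc1 : O.valuation c = 1 := (over_val_eq_one hov c).1 hφc
  have hpc : PU V (G ^ q / φ c) := pu_div_of_sub hφc hc
  have hG0 : G ≠ 0 := ne_of_val hG
  have hφc0 : φ c ≠ 0 := ne_of_val hφc
  have h1 : PU O (g ^ q / c ^ m) := by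
    refine (over_pu hov _).1 ?_
    have e : φ (g ^ q / c ^ m) = (φ g / G ^ m) ^ q * (G ^ q / φ c) ^ m := by
      rw [map_div₀, map_pow, map_pow, div_pow, div_pow]
      field_simp
      ring
    rw [e]
    exact (hpu.pow q).mul (hpc.pow m)
  exact isResPow_of_pow_coprime hm hqm hg1 ⟨c, hc1, h1⟩

/-- (P3) `SplitAt` form of the three transfers, on units. -/
theorem splitAt_down_res (hov : ∀ a : F', φ a ∈ V ↔ a ∈ O)
    (hres : ∀ y : F, V.valuation y = 1 → ∃ a : F', V.valuation (y - φ a) < 1)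
    {m : ℕ} (hm : 0 < m) {g : F'} (hg : UnitAt O g) (h : SplitAt m V (φ g)) :
    SplitAt m O g := by
  have hg1 : O.valuation g = 1 := unitAt_iff.1 hg
  have hg2 : V.valuation (φ g) = 1 := (over_val_eq_one hov g).2 hg1
  exact (isResPow_down_res hov hres ((isResPow_iff_splitAt hm hg2).2 h)).splitAt

theorem splitAt_down_insep (hov : ∀ a : F', φ a ∈ V ↔ a ∈ O) {q : ℕ}
    (hres : ∀ y : F, V.valuation y = 1 → ∃ c : F', V.valuation (y ^ q - φ c) < 1)
    {m : ℕ} (hm : 0 < m) (hqm : Nat.Coprime q m) {g : F'} (hg : UnitAt O g)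
    (h : SplitAt m V (φ g)) : SplitAt m O g := by
  have hg1 : O.valuation g = 1 := unitAt_iff.1 hg
  have hg2 : V.valuation (φ g) = 1 := (over_val_eq_one hov g).2 hg1
  exact (isResPow_down_insep hov hres hm hqm ((isResPow_iff_splitAt hm hg2).2 h)).splitAt

end One

/-! ## (P4) `m ∣ div` along an embedding -/

section Div

variable {E F' F : Type*} [Field E] [Field F'] [Field F] [Algebra E F'] [Algebra E F]

/-- A discrete valuation ring has value group `γ ^ ℤ`. -/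
theorem exists_gen_of_dvr (V : ValuationSubring F) [IsDiscreteValuationRing V] :
    ∃ γ : V.ValueGroup, γ ≠ 0 ∧ γ < 1 ∧ ∀ f : F, f ≠ 0 → ∃ k : ℤ, V.valuation f = γ ^ k := by
  obtain ⟨π, hπ⟩ := IsDiscreteValuationRing.exists_irreducible V
  have hπ0 : (π : F) ≠ 0 := fun h => hπ.ne_zero (Subtype.ext h)
  have hγ1 : V.valuation (π : F) < 1 := by
    refine lt_of_le_of_ne ((V.valuation_le_one_iff _).2 π.2) ?_
    intro h1
    exact hπ.not_isUnit ((V.valuation_eq_one_iff π).2 h1)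
  have key : ∀ f : F, f ≠ 0 → f ∈ V → ∃ k : ℤ, V.valuation f = V.valuation (π : F) ^ k := by
    intro f hf hfV
    have hf' : (⟨f, hfV⟩ : V) ≠ 0 := fun h => hf (congrArg Subtype.val h)
    obtain ⟨n, u, hu⟩ := IsDiscreteValuationRing.eq_unit_mul_pow_irreducible hf' hπ
    refine ⟨n, ?_⟩
    have h1 : f = (u : V) * (π : F) ^ n := by
      have := congrArg Subtype.val hu
      simpa using this
    have hu1 : V.valuation ((u : V) : F) = 1 := (V.valuation_eq_one_iff _).1 u.isUnit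
    rw [h1, map_mul, map_pow, hu1, one_mul, zpow_natCast]
  refine ⟨V.valuation (π : F), (Valuation.ne_zero_iff _).2 hπ0, hγ1, ?_⟩
  intro f hf
  rcases V.mem_or_inv_mem f with h | h
  · exact key f hf h
  · obtain ⟨k, hk⟩ := key f⁻¹ (inv_ne_zero hf) h
    refine ⟨-k, ?_⟩
    rw [map_inv₀] at hk
    rw [zpow_neg, ← hk, inv_inv]

/-- (P4) **`m ∣ div g` ⟹ `m ∣ div (φ g)`** for an embedding `φ` of function fields over `E`. -/
theorem divisibleDiv_map (φ : F' →ₐ[E] F) {m : ℕ} {g : F'}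
    (h : Fermat.Agent.A2.DivisibleDiv E m g) : Fermat.Agent.A2.DivisibleDiv E m (φ g) := by
  intro V hV hEV
  haveI := hV
  by_cases hg0 : g = 0
  · subst hg0
    exact ⟨1, 0, one_ne_zero, V.zero_mem, by rw [inv_zero]; exact V.zero_mem, by
      rw [map_zero, zero_mul]⟩
  obtain ⟨γ, hγ0, hγ1, hval⟩ := exists_gen_of_dvr V
  rcases Fermat.Agent.Ribet.H127.comap_trivial_or_dvr_h127 (φ : F' →+* F) V hγ0 hγ1 hval with
    htriv | hdvr
  · have h1 : V.valuation (φ g) = 1 := htriv g hg0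
    have hu := unitAt_iff.2 h1
    exact ⟨1, φ g, one_ne_zero, hu.2.1, hu.2.2, by rw [one_pow, mul_one]⟩
  · obtain ⟨h', u, hh0, hu, hu', hgu⟩ := h (V.comap (φ : F' →+* F)) hdvr (fun e => by
      rw [ValuationSubring.mem_comap]
      show φ (algebraMap E F' e) ∈ V
      rw [φ.commutes]
      exact hEV e)
    refine ⟨φ h', φ u, (map_ne_zero φ).2 hh0, ValuationSubring.mem_comap.1 hu, ?_, ?_⟩
    · rw [← map_inv₀]
      exact ValuationSubring.mem_comap.1 hu'
    · rw [hgu, map_mul, map_pow]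

end Div

end Fermat.Agent.S59.LoSqC.H27

end
-- ===== PACK-END S59/LoSqC/H27/PullAbs.lean

-- ===== PACK-BEGIN S59/LoSqC/H27/SurjEAbs.lean
section



/-!
# S59 moonshot, cell (C) LO-SQ, adapter SURJ-E, abstract core (helper27)

Two distinct discrete valuation subrings `V₁`, `V₂` of a field `F` with a common uniformiser `w`
(the two vertical valuations `V∞`, `V₀` of `F_E(M q)` over an unramified base).

* `exists_approx_ord2`, `exists_approx_res2`, `exists_approx2` : weak approximation at two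
  discrete valuation subrings (prescribed orders / residues of units / arbitrary targets);
* `surj_core` : **normalisation of a Kummer generator**.  If
  `y ≡ w ^ j₁ · g₁ ^ m` at `V₁`, `y ≡ b · w ^ j₂ · g₂ ^ m` at `V₂` (`b` a unit of `V₂`) and the
  slope of `y` vanishes modulo `m` (`m ∣ ord₂ y - ord₁ y`), then there is `G ≠ 0` such that
  `g = y / (w ^ j₁ · G ^ m)` satisfies `g ≡ 1` at `V₁` and `g ≡ b` at `V₂`.
-/

set_option autoImplicit false
set_option linter.unusedSectionVars false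
set_option linter.unusedVariables false
set_option linter.style.haveILetI false

namespace Fermat.Agent.S59.LoSqC.H27

open Fermat.Agent.S36.Eng Fermat.Agent.S36.H586

section Approx2

variable {F : Type*} [Field F]

/-- The family of two valuation subrings. -/
def fam2 (V₁ V₂ : ValuationSubring F) : Fin 2 → ValuationSubring F := ![V₁, V₂]

theorem fam2_inc (V₁ V₂ : ValuationSubring F) [IsDiscreteValuationRing V₁]
    [IsDiscreteValuationRing V₂] (h12 : V₁ ≠ V₂) :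
    ∀ i i' : Fin 2, i ≠ i' → ¬ fam2 V₁ V₂ i ≤ fam2 V₁ V₂ i' := by
  intro i i' hii'
  fin_cases i <;> fin_cases i' <;> simp only [fam2] at *
  · exact absurd rfl hii'
  · exact not_le_of_dvr_ne V₁ V₂ h12
  · exact not_le_of_dvr_ne V₂ V₁ (Ne.symm h12)
  · exact absurd rfl hii'

/-- **Prescribed orders** at two distinct discrete valuation subrings. -/
theorem exists_approx_ord2 (V₁ V₂ : ValuationSubring F) [IsDiscreteValuationRing V₁]
    [IsDiscreteValuationRing V₂] (h12 : V₁ ≠ V₂) {t₁ t₂ : F}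
    (h₁0 : t₁ ≠ 0) (h₁ : t₁ ∈ V₁.nonunits) (hg₁ : ∀ f ∈ V₁.nonunits, f * t₁⁻¹ ∈ V₁)
    (h₂0 : t₂ ≠ 0) (h₂ : t₂ ∈ V₂.nonunits) (hg₂ : ∀ f ∈ V₂.nonunits, f * t₂⁻¹ ∈ V₂)
    (a b : ℤ) : ∃ g : F, g ≠ 0 ∧ IsOrd V₁ t₁ g a ∧ IsOrd V₂ t₂ g b := by
  have hinc := fam2_inc V₁ V₂ h12
  obtain ⟨T₁, hT₁, hT₁'⟩ := Fermat.Agent.S36.H586.Ap.exists_unif_multi (fam2 V₁ V₂) hinc 0
    (τ := t₁) h₁0 (val_lt_one_of_mem_nonunits h₁) (val_le_of_gen h₁0 hg₁)
  obtain ⟨T₂, hT₂, hT₂'⟩ := Fermat.Agent.S36.H586.Ap.exists_unif_multi (fam2 V₁ V₂) hinc 1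
    (τ := t₂) h₂0 (val_lt_one_of_mem_nonunits h₂) (val_le_of_gen h₂0 hg₂)
  have e10 : V₁.valuation T₁ = V₁.valuation t₁ := hT₁
  have e11 : V₂.valuation T₁ = 1 := hT₁' 1 (by decide)
  have e20 : V₁.valuation T₂ = 1 := hT₂' 0 (by decide)
  have e21 : V₂.valuation T₂ = V₂.valuation t₂ := hT₂
  have hT₁0 : T₁ ≠ 0 := ne_of_val e11
  have hT₂0 : T₂ ≠ 0 := ne_of_val e20
  refine ⟨T₁ ^ a * T₂ ^ b, mul_ne_zero (zpow_ne_zero _ hT₁0) (zpow_ne_zero _ hT₂0), ?_, ?_⟩
  · unfold IsOrd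
    rw [map_mul, map_zpow₀, map_zpow₀, e10, e20, one_zpow, mul_one]
  · unfold IsOrd
    rw [map_mul, map_zpow₀, map_zpow₀, e11, e21, one_zpow, one_mul]

/-- **Prescribed residues** (of units) at two distinct discrete valuation subrings. -/
theorem exists_approx_res2 (V₁ V₂ : ValuationSubring F) [IsDiscreteValuationRing V₁]
    [IsDiscreteValuationRing V₂] (h12 : V₁ ≠ V₂) (g₁ g₂ : F)
    (hg₁ : V₁.valuation g₁ = 1) (hg₂ : V₂.valuation g₂ = 1) :
    ∃ g : F, PU V₁ (g / g₁) ∧ PU V₂ (g / g₂) := by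
  have hinc := fam2_inc V₁ V₂ h12
  have m₁ : g₁ ∈ fam2 V₁ V₂ 0 := (ValuationSubring.valuation_le_one_iff V₁ _).1 hg₁.le
  have m₂ : g₂ ∈ fam2 V₁ V₂ 1 := (ValuationSubring.valuation_le_one_iff V₂ _).1 hg₂.le
  obtain ⟨L₁, hL₁, hL₁'⟩ := Fermat.Agent.S36.H586.Ap.exists_lift_multi (fam2 V₁ V₂) hinc 0 m₁
  obtain ⟨L₂, hL₂, hL₂'⟩ := Fermat.Agent.S36.H586.Ap.exists_lift_multi (fam2 V₁ V₂) hinc 1 m₂
  obtain ⟨E₁, hE₁, hE₁'⟩ := Fermat.Agent.S36.H586.Ap.exists_idem_multi (fam2 V₁ V₂) hinc 0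
  obtain ⟨E₂, hE₂, hE₂'⟩ := Fermat.Agent.S36.H586.Ap.exists_idem_multi (fam2 V₁ V₂) hinc 1
  have l10 : V₁.valuation L₁ ≤ 1 := (ValuationSubring.valuation_le_one_iff V₁ _).2 (hL₁ 0)
  have l11 : V₂.valuation L₁ ≤ 1 := (ValuationSubring.valuation_le_one_iff V₂ _).2 (hL₁ 1)
  have l20 : V₁.valuation L₂ ≤ 1 := (ValuationSubring.valuation_le_one_iff V₁ _).2 (hL₂ 0)
  have l21 : V₂.valuation L₂ ≤ 1 := (ValuationSubring.valuation_le_one_iff V₂ _).2 (hL₂ 1)
  have d1 : V₁.valuation (L₁ - g₁) < 1 := hL₁'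
  have d2 : V₂.valuation (L₂ - g₂) < 1 := hL₂'
  have s10 : V₁.valuation (E₁ - 1) < 1 := val_sub_comm_lt hE₁
  have s11 : V₂.valuation E₁ < 1 := hE₁' 1 (by decide)
  have s20 : V₁.valuation E₂ < 1 := hE₂' 0 (by decide)
  have s21 : V₂.valuation (E₂ - 1) < 1 := val_sub_comm_lt hE₂
  refine ⟨E₁ * L₁ + E₂ * L₂, ?_, ?_⟩
  · refine pu_div_of_sub hg₁ ?_
    have e : E₁ * L₁ + E₂ * L₂ - g₁ = ((E₁ - 1) * L₁ + (L₁ - g₁)) + E₂ * L₂ := by ring
    rw [e]
    exact Valuation.map_add_lt _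
      (Valuation.map_add_lt _ (val_mul_lt_one_of_lt_of_le s10 l10) d1)
      (val_mul_lt_one_of_lt_of_le s20 l20)
  · refine pu_div_of_sub hg₂ ?_
    have e : E₁ * L₁ + E₂ * L₂ - g₂ = E₁ * L₁ + ((E₂ - 1) * L₂ + (L₂ - g₂)) := by ring
    rw [e]
    exact Valuation.map_add_lt _ (val_mul_lt_one_of_lt_of_le s11 l11)
      (Valuation.map_add_lt _ (val_mul_lt_one_of_lt_of_le s21 l21) d2)

/-- **Weak approximation** at two distinct discrete valuation subrings, arbitrary nonzero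
targets: `G ∈ P₁ · (1 + 𝔪₁) ∩ P₂ · (1 + 𝔪₂)`. -/
theorem exists_approx2 (V₁ V₂ : ValuationSubring F) [IsDiscreteValuationRing V₁]
    [IsDiscreteValuationRing V₂] (h12 : V₁ ≠ V₂) {t₁ t₂ : F}
    (ht₁ : UnifAt V₁ t₁) (ht₂ : UnifAt V₂ t₂) {P₁ P₂ : F} (hP₁ : P₁ ≠ 0) (hP₂ : P₂ ≠ 0) :
    ∃ G : F, G ≠ 0 ∧ PU V₁ (G / P₁) ∧ PU V₂ (G / P₂) := by
  obtain ⟨a, ha⟩ := exists_isOrd_of_dvr V₁ ht₁.1 ht₁.2.1 ht₁.2.2 P₁ hP₁
  obtain ⟨b, hb⟩ := exists_isOrd_of_dvr V₂ ht₂.1 ht₂.2.1 ht₂.2.2 P₂ hP₂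
  obtain ⟨T, hT0, hTa, hTb⟩ := exists_approx_ord2 V₁ V₂ h12 ht₁.1 ht₁.2.1 ht₁.2.2
    ht₂.1 ht₂.2.1 ht₂.2.2 a b
  have h1 : V₁.valuation (P₁ / T) = 1 := by
    rw [map_div₀, ha, hTa]
    exact div_self (zpow_ne_zero _ (val_ne_zero_of_ne_zero ht₁.1))
  have h2 : V₂.valuation (P₂ / T) = 1 := by
    rw [map_div₀, hb, hTb]
    exact div_self (zpow_ne_zero _ (val_ne_zero_of_ne_zero ht₂.1))
  obtain ⟨L, hL1, hL2⟩ := exists_approx_res2 V₁ V₂ h12 (P₁ / T) (P₂ / T) h1 h2
  have hL0 : L ≠ 0 := by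
    have := hL1.ne_zero
    intro h
    rw [h, zero_div] at this
    exact this rfl
  refine ⟨T * L, mul_ne_zero hT0 hL0, ?_, ?_⟩
  · have e : T * L / P₁ = L / (P₁ / T) := by field_simp
    rw [e]
    exact hL1
  · have e : T * L / P₂ = L / (P₂ / T) := by field_simp
    rw [e]
    exact hL2

end Approx2

section Core

variable {F : Type*} [Field F]

/-- A principal unit has order `0`. -/
theorem isOrd_of_pu_div {V : ValuationSubring F} {w y z : F} {a : ℤ} (hw : w ≠ 0)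
    (hz : IsOrd V w z a) (h : PU V (y / z)) : IsOrd V w y a := by
  have hz0 : z ≠ 0 := hz.ne_zero hw
  have h1 := h.val_eq_one
  rw [map_div₀] at h1
  have hvz : V.valuation z ≠ 0 := (Valuation.ne_zero_iff _).2 hz0
  have h2 : V.valuation y = V.valuation z := by
    rw [div_eq_iff hvz, one_mul] at h1
    exact h1
  unfold IsOrd at *
  rw [h2, hz]

/-- **Normalisation of a Kummer generator at two vertical valuations.** -/
theorem surj_core (V₁ V₂ : ValuationSubring F) [IsDiscreteValuationRing V₁]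
    [IsDiscreteValuationRing V₂] (h12 : V₁ ≠ V₂) {w : F} (hw₁ : UnifAt V₁ w)
    (hw₂ : UnifAt V₂ w) {m : ℕ} (hm : 0 < m) {y b g₁ g₂ : F} {j₁ j₂ : ℤ}
    (hg₁ : g₁ ≠ 0) (hg₂ : g₂ ≠ 0) (hb : V₂.valuation b = 1)
    (h₁ : PU V₁ (y / (w ^ j₁ * g₁ ^ m)))
    (h₂ : PU V₂ (y / (b * (w ^ j₂ * g₂ ^ m))))
    (hslope : ∀ a₁ a₂ : ℤ, IsOrd V₁ w y a₁ → IsOrd V₂ w y a₂ → (m : ℤ) ∣ a₂ - a₁) :
    ∃ G : F, G ≠ 0 ∧ PU V₁ (y / (w ^ j₁ * G ^ m)) ∧ PU V₂ (y / (w ^ j₁ * G ^ m) / b) := by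
  have hw0 : w ≠ 0 := hw₁.1
  have hb0 : b ≠ 0 := ne_of_val hb
  -- the orders of `y`
  obtain ⟨c₁, hc₁⟩ := exists_isOrd_of_dvr V₁ hw₁.1 hw₁.2.1 hw₁.2.2 g₁ hg₁
  obtain ⟨c₂, hc₂⟩ := exists_isOrd_of_dvr V₂ hw₂.1 hw₂.2.1 hw₂.2.2 g₂ hg₂
  have o₁ : IsOrd V₁ w y (j₁ * 1 + m * c₁) :=
    isOrd_of_pu_div hw0 (((IsOrd.self).zpow j₁).mul hw0 (hc₁.pow m)) h₁
  have o₂ : IsOrd V₂ w y (0 + (j₂ * 1 + m * c₂)) :=
    isOrd_of_pu_div hw0
      ((isOrd_zero_of_val hb).mul hw0 (((IsOrd.self).zpow j₂).mul hw0 (hc₂.pow m))) h₂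
  obtain ⟨k, hk⟩ := hslope _ _ o₁ o₂
  -- `j₂ - j₁ = m * t`
  set t : ℤ := k - c₂ + c₁ with ht
  have hj : j₂ = j₁ + m * t := by
    rw [ht]
    linear_combination hk
  -- approximation
  have hP₂ : g₂ * w ^ t ≠ 0 := mul_ne_zero hg₂ (zpow_ne_zero _ hw0)
  obtain ⟨G, hG0, hG₁, hG₂⟩ := exists_approx2 V₁ V₂ h12 hw₁ hw₂ hg₁ hP₂
  have hGm : G ^ m ≠ 0 := pow_ne_zero _ hG0
  have hwj : w ^ j₁ ≠ 0 := zpow_ne_zero _ hw0
  have hwt : w ^ t ≠ 0 := zpow_ne_zero _ hw0
  have hg₁m : g₁ ^ m ≠ 0 := pow_ne_zero _ hg₁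
  have hg₂m : g₂ ^ m ≠ 0 := pow_ne_zero _ hg₂
  refine ⟨G, hG0, ?_, ?_⟩
  · have e : y / (w ^ j₁ * G ^ m) = y / (w ^ j₁ * g₁ ^ m) * ((G / g₁) ^ m)⁻¹ := by
      rw [div_pow]
      field_simp
    rw [e]
    exact h₁.mul (hG₁.pow m).inv
  · have hwj₂ : w ^ j₂ = w ^ j₁ * (w ^ t) ^ m := by
      rw [hj, zpow_add₀ hw0, mul_comm (m : ℤ) t, zpow_mul, zpow_natCast]
    have e : y / (w ^ j₁ * G ^ m) / b =
        y / (b * (w ^ j₂ * g₂ ^ m)) * ((G / (g₂ * w ^ t)) ^ m)⁻¹ := by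
      rw [hwj₂, div_pow, mul_pow]
      have : (w ^ t) ^ m ≠ 0 := pow_ne_zero _ hwt
      field_simp
    rw [e]
    exact h₂.mul (hG₂.pow m).inv

end Core

end Fermat.Agent.S59.LoSqC.H27

end
-- ===== PACK-END S59/LoSqC/H27/SurjEAbs.lean

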