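import Fermat.Agent.Pack.S59C.E8L2
import Fermat.Agent.Pack.S43GC.G0E11L1
import Fermat.Agent.Pack.S59C.E4L0
import Fermat.Agent.Pack.S59C.E7L1
import Fermat.Agent.Pack.S43GC.G0E15L3
import Fermat.Agent.Pack.S59C.E8L3
import Fermat.Agent.Pack.S59C.E1L2
import Fermat.Agent.Pack.S43MC.G0E19L3
import Fermat.Agent.Pack.S43MC.G0E24L2
import Fermat.Agent.Pack.S43MC.G0E21L0
import Fermat.Agent.Pack.S43MC.G0E23L3
import Fermat.Agent.Pack.S43MC.G0E25L1
import Fermat.Agent.Pack.S44C.G0E18L3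
import Fermat.Agent.Pack.S44C.G0E19L0
import Fermat.Agent.Pack.S59C.E6L0
import Fermat.Agent.Pack.S44C.G0E4L1
import Fermat.Agent.Pack.S43GC.G0E9L0
import Fermat.Agent.Pack.S44C.G0E26L1
import Fermat.Agent.Pack.S59C.E4L1
import Fermat.Agent.Pack.S43MC.G0E21L1
import Fermat.Agent.Pack.S43MC.G0E19L1
import Fermat.Agent.Pack.S44C.G0E27L0
import Fermat.Agent.Pack.S44C.G0E17L1
import Fermat.Agent.Pack.S44C.G0E27L3
import Fermat.Agent.Pack.S59C.E1L0
import Fermat.Agent.Pack.S59C.E3L2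
import Fermat.Agent.Pack.S43MC.G0E23L1
import Fermat.Agent.Pack.S43MC.G0E20L0
import Fermat.Agent.Pack.S43MC.G0E24L1
import Fermat.Agent.Pack.S43MC.G0E21L2

set_option linter.all false

-- ===== PACK-BEGIN S59/H585/EtaInd.lean
section



/-!
# S59, cell NM: leaves STEP and ETA-IND (helper585)

* `boundStep_of : HK2Statement → Ihara2Statement → OldStatement → BoundStepStatement`;
* `bettiBound_of_cohCong_ne_bot` : the base of the induction (minimal level);
* `bettiBound_all` : `BettiBound N_Σ Σ (eig χ) (targetIdeal Σ)` for every `Σ ⊇ Smin` (also needed by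
  the cell NMP);
* `etaAbs_of : BoundStepStatement → EtaOfBoundStatement → EtaAbsStatement`.
-/

set_option autoImplicit false

open CongruenceSubgroup IsLocalRing Polynomial
open scoped MatrixGroups

namespace Fermat.Agent.S59.H585

open Fermat.Agent.S59.NM Fermat.Agent.S59.Arch Fermat.Agent.S41.Spec Fermat.Agent.S29.H642
  ModularCurve.Period

/-- **STEP**: the step of the Betti bound from the leaves HK2, IHARA2, OLD. -/
theorem boundStep_of (hHK2 : HK2Statement) (hI : Ihara2Statement) (hOld : OldStatement) :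
    BoundStepStatement := by
  intro p _ hp2 𝒪 _ _ _ _ _ _ hp𝒪 ρbar habs hsplit N N' q hN hN' hq hqN S hpS hqS hNS a ha J hB
  subst hN'
  haveI : CharP (ResidueField 𝒪) p := by
    rw [CharP.charP_iff_prime_eq_zero (Fact.out : p.Prime)]
    have : residue 𝒪 (p : 𝒪) = 0 := (residue_eq_zero_iff _).mpr hp𝒪
    rwa [map_natCast] at this
  have hqp : q ≠ p := fun h => hqS (h ▸ hpS)
  exact boundStep_core hHK2 hOld hN hq hqN hqS hNS
    (fun z₁ z₂ z₃ h₁ h₂ h₃ h0 => hI p hp2 (ResidueField 𝒪) ρbar habs hsplit N q hN hq hqN hqp S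
      hpS (fun l => residue 𝒪 (a l)) ha z₁ z₂ z₃ h₁ h₂ h₃ h0) hB

section Base

variable {𝒪 : Type} [CommRing 𝒪] [IsDomain 𝒪] [IsDiscreteValuationRing 𝒪]

/-- A nonzero class is a power of the uniformizer times a primitive class. -/
theorem exists_prim585 {n : ℕ} {ϖ : 𝒪} (hϖ : Irreducible ϖ) (x : Additive (Gamma0 n) →+ 𝒪)
    (hx : x ≠ 0) : ∃ (m : ℕ) (x₀ : Additive (Gamma0 n) →+ 𝒪), x = (ϖ ^ m) • x₀ ∧ IsPrim x₀ := by
  classical
  obtain ⟨g₀, hg₀⟩ : ∃ g₀, x g₀ ≠ 0 := by
    by_contra hcon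
    push_neg at hcon
    exact hx (AddMonoidHom.ext hcon)
  obtain ⟨k, u, hu⟩ := IsDiscreteValuationRing.eq_unit_mul_pow_irreducible hg₀ hϖ
  clear hx hg₀
  induction k generalizing x u with
  | zero =>
    refine ⟨0, x, by rw [pow_zero, one_smul], ⟨Additive.toMul g₀, ?_⟩⟩
    rw [pow_zero, mul_one] at hu
    show IsUnit (x g₀)
    rw [hu]
    exact u.isUnit
  | succ k ih =>
    by_cases hp : IsPrim x
    · exact ⟨0, x, by rw [pow_zero, one_smul], hp⟩
    · rw [isPrim_iff585, not_not] at hp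
      obtain ⟨x', hx'⟩ := exists_eq_smul_of_residue585 hϖ x hp
      have hu' : x' g₀ = ↑u * ϖ ^ k := by
        have h1 : x g₀ = ϖ * x' g₀ := by rw [hx']; rfl
        rw [h1, pow_succ, ← mul_assoc, mul_comm ϖ] at hu
        exact mul_right_cancel₀ hϖ.ne_zero hu
      obtain ⟨m, x₀, hm, hprim⟩ := ih x' u hu'
      refine ⟨m + 1, x₀, ?_, hprim⟩
      rw [hx', hm, smul_smul, pow_succ']

omit [IsDiscreteValuationRing 𝒪] in
theorem isEigenclass_of_smul585 {n : ℕ} {S : Finset ℕ} {a : ℕ → 𝒪} {c : 𝒪} (hc : c ≠ 0)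
    {x : Additive (Gamma0 n) →+ 𝒪} (h : _root_.Fermat.Agent.S59.NM.IsEigenclass n S a (c • x)) : _root_.Fermat.Agent.S59.NM.IsEigenclass n S a x := by
  refine ⟨⟨fun γ hγ => ?_, fun γ hγ => ?_⟩, fun l _ hl hlS => ?_⟩
  · have := h.1.1 γ hγ
    have h' : c * x (Additive.ofMul γ) = 0 := this
    exact (mul_eq_zero.mp h').resolve_left hc
  · have := h.1.2 γ hγ
    have h' : c * x (Additive.ofMul γ) = 0 := this
    exact (mul_eq_zero.mp h').resolve_left hc
  · have h2 := h.2 l hl hlS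
    rw [heckeTransfer_smul585, smul_comm] at h2
    refine AddMonoidHom.ext fun g => ?_
    have hg : c * heckeTransfer hl x g = c * (a l • x) g := DFunLike.congr_fun h2 g
    exact mul_left_cancel₀ hc hg

/-- **Base of the induction**: if `δ(a) ≠ 0` there is a primitive eigenclass, and the Betti bound
holds with `J = δ(a)`. -/
theorem bettiBound_of_cohCong_ne_bot {n : ℕ} (hn : n ≠ 0) {S : Finset ℕ} {a : ℕ → 𝒪}
    (h : cohCong n S a ≠ ⊥) : BettiBound n S a (cohCong n S a) := by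
  classical
  haveI := finiteIndex_Gamma0' hn
  obtain ⟨ϖ, hϖ⟩ := IsDiscreteValuationRing.exists_irreducible 𝒪
  have hex : ∃ x y : Additive (Gamma0 n) →+ 𝒪, _root_.Fermat.Agent.S59.NM.IsEigenclass n S a x ∧ _root_.Fermat.Agent.S59.NM.IsEigenclass n S a y ∧
      maninPairing (Gamma0 n) x y ≠ 0 := by
    by_contra hcon
    push_neg at hcon
    apply h
    unfold cohCong
    rw [Ideal.span_eq_bot]
    rintro c ⟨x, y, hx, hy, rfl⟩
    exact hcon x y hx hy
  obtain ⟨x, y, hx, hy, hxy⟩ := hex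
  have hx0 : x ≠ 0 := by
    rintro rfl
    exact hxy (maninPairing_zero_left (neg_one_mem_Gamma0' n) hy.1)
  obtain ⟨m, x₀, hm, hprim⟩ := exists_prim585 hϖ x hx0
  have hx₀ : _root_.Fermat.Agent.S59.NM.IsEigenclass n S a x₀ :=
    isEigenclass_of_smul585 (pow_ne_zero m hϖ.ne_zero) (hm ▸ hx)
  exact ⟨x₀, hx₀, hprim, fun y hy => Ideal.subset_span ⟨x₀, y, hx₀, hy, rfl⟩⟩

end Base

section Induction

variable (p : ℕ) [Fact p.Prime]
  (𝒪 : Type) [CommRing 𝒪] [IsDomain 𝒪] [IsDiscreteValuationRing 𝒪]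
  [IsAdicComplete (maximalIdeal 𝒪) 𝒪]

omit [Fact p.Prime] in
theorem wilesLevel_insert585 (t : PType) {Smin Sig : Finset ℕ} (hS : Smin ⊆ Sig)
    {q : ℕ} (hq : q ∉ Sig) :
    wilesLevel p t Smin (insert q Sig) = wilesLevel p t Smin Sig * q * q := by
  have hqm : q ∉ Smin := fun h => hq (hS h)
  have hq' : q ∉ Sig \ Smin := fun h => hq (Finset.mem_sdiff.mp h).1
  unfold wilesLevel
  rw [Finset.insert_sdiff_of_notMem _ hqm, Finset.prod_insert hq']
  ring

omit [Fact p.Prime] [IsAdicComplete (maximalIdeal 𝒪) 𝒪] in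
theorem targetIdeal_insert585 (t : PType) {Smin Sig : Finset ℕ} (hSig : Smin ⊆ Sig) {q : ℕ}
    (hq : q ∉ Sig) (a : ℕ → 𝒪) :
    targetIdeal p 𝒪 t Smin (insert q Sig) a =
      Ideal.span {cq a q} * targetIdeal p 𝒪 t Smin Sig a := by
  classical
  unfold targetIdeal
  have hqm : q ∉ Smin := fun h => hq (hSig h)
  rw [Finset.insert_sdiff_of_notMem _ hqm,
    Finset.prod_insert (fun h => hq (Finset.mem_sdiff.mp h).1)]
  ring

variable {p 𝒪}
variable [Finite (ResidueField 𝒪)] [CharZero 𝒪]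

/-- The system `eig χ` is a Frobenius system of `ρ̄` away from every `Σ ⊇ Smin`. -/
theorem isFrobSystem_eig585 {ρbar : ResidualGaloisRep (ResidueField 𝒪)} {Smin : Finset ℕ}
    (h : ResidualHyp p 𝒪 ρbar Smin) (t : PType)
    [NeZero (wilesLevel p t Smin Smin)]
    (χ : CuspForm.heckeAlgebra (wilesLevel p t Smin Smin) 2 (↑Smin : Set ℕ) →+* 𝒪)
    (hχ : G4.ResFrobCond ρbar ((residue 𝒪).comp χ))
    {Sig : Finset ℕ} (hSig : Smin ⊆ Sig) : IsFrobSystem ρbar Sig (eig χ) := by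
  intro l hl hlS B hB σ hσ
  have hlSmin : l ∉ (↑Smin : Set ℕ) := fun hh => hlS (hSig (Finset.mem_coe.mp hh))
  have hlN : ¬ l ∣ wilesLevel p t Smin Smin := fun hd =>
    hlSmin (Finset.mem_coe.mpr (mem_of_prime_dvd_wilesLevel (Fact.out : p.Prime) h.hSmin h.hSmin
      h.hpSmin (Finset.Subset.refl _) l hl hd))
  rw [eig_eq χ hl hlN hlSmin]
  exact hχ l hl hlN hlSmin B hB σ hσ

/-- **The Betti bound at every level** `N_Σ`, `Σ ⊇ Smin`. -/
theorem bettiBound_all (hStep : BoundStepStatement)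
    {ρbar : ResidualGaloisRep (ResidueField 𝒪)} {Smin : Finset ℕ}
    (h : ResidualHyp p 𝒪 ρbar Smin) (t : PType)
    [NeZero (wilesLevel p t Smin Smin)]
    (χ : CuspForm.heckeAlgebra (wilesLevel p t Smin Smin) 2 (↑Smin : Set ℕ) →+* 𝒪)
    (hχ : G4.ResFrobCond ρbar ((residue 𝒪).comp χ))
    (hδ : cohCong (wilesLevel p t Smin Smin) Smin (eig χ) ≠ ⊥)
    (Sig : Finset ℕ) (hSig : Smin ⊆ Sig) (hSigP : ∀ q ∈ Sig, q.Prime) :
    BettiBound (wilesLevel p t Smin Sig) Sig (eig χ) (targetIdeal p 𝒪 t Smin Sig (eig χ)) := by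
  classical
  have hpr : p.Prime := Fact.out
  have key : ∀ E : Finset ℕ, ∀ Sig : Finset ℕ, Smin ⊆ Sig → (∀ q ∈ Sig, q.Prime) →
      Sig \ Smin = E →
      BettiBound (wilesLevel p t Smin Sig) Sig (eig χ)
        (targetIdeal p 𝒪 t Smin Sig (eig χ)) := by
    intro E
    induction E using Finset.induction_on with
    | empty =>
      intro Sig hSig _ hE
      have hSS : Sig = Smin :=
        Finset.Subset.antisymm (Finset.sdiff_eq_empty_iff_subset.mp hE) hSig
      subst hSS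
      have : targetIdeal p 𝒪 t Sig Sig (eig χ) = cohCong (wilesLevel p t Sig Sig) Sig (eig χ) := by
        unfold targetIdeal
        rw [Finset.sdiff_self, Finset.prod_empty, Ideal.one_eq_top, Ideal.mul_top]
      rw [this]
      exact bettiBound_of_cohCong_ne_bot (NeZero.ne _) hδ
    | insert q E hqE ih =>
      intro Sig hSig hSigP hE
      have hqmem : q ∈ Sig \ Smin := by rw [hE]; exact Finset.mem_insert_self q E
      have hqSig : q ∈ Sig := (Finset.mem_sdiff.mp hqmem).1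
      have hqSmin : q ∉ Smin := (Finset.mem_sdiff.mp hqmem).2
      set Sig' := Sig.erase q with hSig'
      have hq' : q ∉ Sig' := Finset.notMem_erase q Sig
      have hins : insert q Sig' = Sig := Finset.insert_erase hqSig
      have hsub' : Smin ⊆ Sig' := fun r hr =>
        Finset.mem_erase.mpr ⟨fun hrq => hqSmin (hrq ▸ hr), hSig hr⟩
      have hP' : ∀ r ∈ Sig', r.Prime := fun r hr => hSigP r (Finset.mem_of_mem_erase hr)
      have hE' : Sig' \ Smin = E := by
        ext r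
        constructor
        · intro hr
          obtain ⟨hr1, hr2⟩ := Finset.mem_sdiff.mp hr
          have hr3 : r ∈ insert q E := by
            rw [← hE]
            exact Finset.mem_sdiff.mpr ⟨Finset.mem_of_mem_erase hr1, hr2⟩
          rcases Finset.mem_insert.mp hr3 with rfl | hr4
          · exact absurd hr1 hq'
          · exact hr4
        · intro hr
          have hr3 : r ∈ Sig \ Smin := by rw [hE]; exact Finset.mem_insert_of_mem hr
          obtain ⟨hr1, hr2⟩ := Finset.mem_sdiff.mp hr3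
          refine Finset.mem_sdiff.mpr ⟨Finset.mem_erase.mpr ⟨?_, hr1⟩, hr2⟩
          rintro rfl
          exact hqE hr
      have hB := ih Sig' hsub' hP' hE'
      have hq : q.Prime := hSigP q hqSig
      have hN : wilesLevel p t Smin Sig' ≠ 0 := wilesLevel_ne_zero hpr h.hSmin hP'
      have hNS : ∀ r : ℕ, r.Prime → r ∣ wilesLevel p t Smin Sig' → r ∈ Sig' := fun r hr hd =>
        mem_of_prime_dvd_wilesLevel hpr h.hSmin hP' h.hpSmin hsub' r hr hd
      have hqN : ¬ q ∣ wilesLevel p t Smin Sig' := fun hd => hq' (hNS q hq hd)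
      have hstep := hStep p h.hp2 𝒪 h.hp𝒪 ρbar h.habs h.hsplit (wilesLevel p t Smin Sig')
        (wilesLevel p t Smin (insert q Sig')) q hN (wilesLevel_insert585 p t hsub' hq') hq hqN
        Sig' (hsub' h.hpSmin) hq' hNS (eig χ) (isFrobSystem_eig585 h t χ hχ hsub') _ hB
      rw [← targetIdeal_insert585 p 𝒪 t hsub' hq', hins] at hstep
      exact hstep
  exact key (Sig \ Smin) Sig hSig hSigP rfl

/-- **ETA-IND**: `NM.EtaAbsStatement` from the step of the Betti bound and `η ⊆ J`. -/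
theorem etaAbs_of (hStep : BoundStepStatement) (hEta : EtaOfBoundStatement) :
    EtaAbsStatement := by
  intro p _ 𝒪 _ _ _ _ _ _ ρbar Smin h t _ hN χ hχ hδ Sig hSig hSigP hNS hint θ π hπ
  have hpr : p.Prime := Fact.out
  exact hEta p 𝒪 h.hp𝒪 (wilesLevel p t Smin Sig) Sig
    (fun r hr hd => mem_of_prime_dvd_wilesLevel hpr h.hSmin hSigP h.hpSmin hSig r hr hd)
    θ π (eig χ) hπ _ (bettiBound_all hStep h t χ hχ hδ Sig hSig hSigP)

end Induction

end Fermat.Agent.S59.H585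

end
-- ===== PACK-END S59/H585/EtaInd.lean

-- ===== PACK-BEGIN S59/H585/EtaAsm.lean
section



/-!
# S59, cell NM: NM-ETA from its open leaves (helper585)

With HK2 (`H202.hk2`), ADJ2, PERF, BASE on main, the Hecke side of the cell NM is reduced to
three leaves: `NM.Ihara2Statement`, `NM.OldStatement`, `NM.EtaOfBoundStatement`.
-/

set_option autoImplicit false

namespace Fermat.Agent.S59.H585

open Fermat.Agent.S59.NM

/-- **STEP** from IHARA2 and OLD. -/
theorem boundStep_of_leaves (hI : Ihara2Statement) (hOld : OldStatement) : BoundStepStatement :=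
  boundStep_of Fermat.Agent.S59.H202.hk2 hI hOld

/-- **NM-ETA** from IHARA2, OLD and ETAB. -/
theorem etaAbs_of_leaves (hI : Ihara2Statement) (hOld : OldStatement)
    (hEta : EtaOfBoundStatement) : EtaAbsStatement :=
  etaAbs_of (boundStep_of_leaves hI hOld) hEta

end Fermat.Agent.S59.H585

end
-- ===== PACK-END S59/H585/EtaAsm.lean

-- ===== PACK-BEGIN S59/TW/H24/PerfO.lean
section



/-!
# Row S59, cell TW, leaf BRIDGE — part 1: the Manin pairing over a domain of characteristic `0`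
is perfect (helper24)

For `Γ ≤ SL₂(ℤ)` of finite index containing `-1` and a domain `R` of characteristic `0`:

* `pairR` : the Manin pairing as an `R`-bilinear form on the cuspidal classes `cuspSub R Γ R`;
* `exists_pairing_eq_functional` : every `R`-linear functional on the cuspidal classes is
  `m ↦ ⟨m, y⟩` for a cuspidal class `y` (from the integral Poincaré duality
  `H585.intPairing_flip_bijective` and `H585.exists_lincomb`);
* `eq_zero_of_pairing_eq_zero` (over a DVR): the pairing is non-degenerate.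
-/

set_option autoImplicit false

open CongruenceSubgroup IsLocalRing
open scoped MatrixGroups

namespace Fermat.Agent.S59.TW.H24

open Fermat.Agent.S41.Spec Fermat.Agent.S59.NM ModularCurve.Period Fermat.Agent.S59.H585

section PerfO

variable {Γ : Subgroup SL(2, ℤ)} [Γ.FiniteIndex] {R : Type} [CommRing R]

/-- The Manin pairing as a bilinear form on the cuspidal classes with coefficients in `R`. -/
noncomputable def pairR (hneg : (-1 : SL(2, ℤ)) ∈ Γ) :
    cuspSub R Γ R →ₗ[R] cuspSub R Γ R →ₗ[R] R :=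
  LinearMap.mk₂ R (fun x y => maninPairing Γ (x : Additive Γ →+ R) (y : Additive Γ →+ R))
    (fun x x' y => maninPairing_add_left hneg x.2 x'.2 y.2)
    (fun c x y => maninPairing_smul_left hneg c x.2 y.2)
    (fun x y y' => maninPairing_add_right hneg x.2 y.2 y'.2)
    (fun c x y => maninPairing_smul_right hneg c x.2 y.2)

@[simp] theorem pairR_apply (hneg : (-1 : SL(2, ℤ)) ∈ Γ) (x y : cuspSub R Γ R) :
    pairR hneg x y = maninPairing Γ (x : Additive Γ →+ R) (y : Additive Γ →+ R) := rfl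

omit [Γ.FiniteIndex] in
/-- The base change `C_Γ(ℤ) → C_Γ(R)`. -/
noncomputable def castC (R : Type) [CommRing R] (Γ : Subgroup SL(2, ℤ)) :
    cuspSub ℤ Γ ℤ →ₗ[ℤ] cuspSub R Γ R where
  toFun x := ⟨(Int.castRingHom R).toAddMonoidHom.comp (x : Additive Γ →+ ℤ),
    isCuspidalOn_comp _ x.2⟩
  map_add' x y := by
    apply Subtype.ext
    ext g
    simp
  map_smul' c x := by
    apply Subtype.ext
    ext g
    simp

omit [Γ.FiniteIndex] in
theorem castC_apply (x : cuspSub ℤ Γ ℤ) (g : Additive Γ) :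
    ((castC R Γ x : cuspSub R Γ R) : Additive Γ →+ R) g =
      (((x : Additive Γ →+ ℤ) g : ℤ) : R) := rfl

theorem pairR_castC (hneg : (-1 : SL(2, ℤ)) ∈ Γ) (x y : cuspSub ℤ Γ ℤ) :
    pairR hneg (castC R Γ x) (castC R Γ y) = ((intPairing hneg x y : ℤ) : R) :=
  maninPairing_map hneg (Int.castRingHom R) x.2 y.2

variable [IsDomain R] [CharZero R]

/-- The cuspidal classes over `R` are spanned by the integral cuspidal classes. -/
theorem span_castC_eq_top {ι : Type} (β : Module.Basis ι ℤ (cuspSub ℤ Γ ℤ)) :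
    Submodule.span R (Set.range fun i => castC R Γ (β i)) = ⊤ := by
  classical
  rw [eq_top_iff]
  rintro ⟨m, hm⟩ -
  obtain ⟨κ, _, v, z, hz, hmz⟩ := exists_lincomb (R := R) hm
  have hm' : (⟨m, hm⟩ : cuspSub R Γ R) = ∑ k, v k • castC R Γ ⟨z k, hz k⟩ := by
    refine Subtype.ext (AddMonoidHom.ext fun g => ?_)
    rw [Submodule.coe_sum, AddMonoidHom.finset_sum_apply]
    show m g = _
    rw [hmz g]
    rfl
  rw [hm']
  refine Submodule.sum_mem _ fun k _ => Submodule.smul_mem _ _ ?_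
  -- an integral class is a `ℤ`-combination of the basis
  have h1 : (⟨z k, hz k⟩ : cuspSub ℤ Γ ℤ) ∈
      Submodule.span ℤ (Set.range β) := by
    rw [β.span_eq]
    exact Submodule.mem_top
  have h2 : ∀ x ∈ Submodule.span ℤ (Set.range β),
      castC R Γ x ∈ Submodule.span R (Set.range fun i => castC R Γ (β i)) := by
    intro x hx
    induction hx using Submodule.span_induction with
    | mem x hx =>
      obtain ⟨i, rfl⟩ := hx
      exact Submodule.subset_span ⟨i, rfl⟩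
    | zero => rw [map_zero]; exact Submodule.zero_mem _
    | add x y _ _ hx hy => rw [map_add]; exact Submodule.add_mem _ hx hy
    | smul c x _ hx =>
      rw [map_smul]
      have : c • castC R Γ x = (c : R) • castC R Γ x :=
        (Int.cast_smul_eq_zsmul R c _).symm
      rw [this]
      exact Submodule.smul_mem _ _ hx
  exact h2 _ h1

/-- **The Manin pairing over `R` is perfect**: every functional on the cuspidal classes is the
pairing with a cuspidal class. -/
theorem exists_pairing_eq_functional (hneg : (-1 : SL(2, ℤ)) ∈ Γ)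
    (F : cuspSub R Γ R →ₗ[R] R) :
    ∃ y : cuspSub R Γ R, ∀ m : cuspSub R Γ R, pairR hneg m y = F m := by
  classical
  set β := Module.Free.chooseBasis ℤ (cuspSub ℤ Γ ℤ) with hβ
  haveI : Fintype (Module.Free.ChooseBasisIndex ℤ (cuspSub ℤ Γ ℤ)) :=
    Module.Free.ChooseBasisIndex.fintype ℤ _
  -- the dual basis for the pairing
  choose z hz using fun i => (intPairing_flip_bijective hneg).2 (β.coord i)
  have hz' : ∀ i j, intPairing hneg (β j) (z i) = if j = i then 1 else 0 := by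
    intro i j
    have := congrArg (fun f : cuspSub ℤ Γ ℤ →ₗ[ℤ] ℤ => f (β j)) (hz i)
    simp only [LinearMap.flip_apply] at this
    rw [this, Module.Basis.coord_apply, Module.Basis.repr_self, Finsupp.single_apply]
  refine ⟨∑ i, F (castC R Γ (β i)) • castC R Γ (z i), fun m => ?_⟩
  have key : (pairR hneg).flip (∑ i, F (castC R Γ (β i)) • castC R Γ (z i)) = F := by
    refine LinearMap.ext_on (span_castC_eq_top β) ?_
    rintro _ ⟨j, rfl⟩
    show pairR hneg (castC R Γ (β j)) (∑ i, F (castC R Γ (β i)) • castC R Γ (z i)) =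
      F (castC R Γ (β j))
    rw [map_sum]
    simp only [map_smul, smul_eq_mul]
    rw [Finset.sum_eq_single j]
    · rw [pairR_castC, hz', if_pos rfl, Int.cast_one, mul_one]
    · intro i _ hij
      rw [pairR_castC, hz', if_neg (Ne.symm hij), Int.cast_zero, mul_zero]
    · intro h
      exact absurd (Finset.mem_univ j) h
  have := congrArg (fun f : cuspSub R Γ R →ₗ[R] R => f m) key
  simpa using this

end PerfO

section NonDeg

variable {𝒪 : Type} [CommRing 𝒪] [IsDomain 𝒪] [IsDiscreteValuationRing 𝒪] [CharZero 𝒪]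

/-- **The Manin pairing over a DVR of characteristic `0` is non-degenerate.** -/
theorem eq_zero_of_pairing_eq_zero {n : ℕ} (hn : n ≠ 0) {z : Additive (Gamma0 n) →+ 𝒪}
    (hz : IsCuspidal z)
    (h : ∀ m : Additive (Gamma0 n) →+ 𝒪, IsCuspidal m → maninPairing (Gamma0 n) m z = 0) :
    z = 0 := by
  by_contra hz0
  haveI := finiteIndex_Gamma0' hn
  obtain ⟨ϖ, hϖ⟩ := IsDiscreteValuationRing.exists_irreducible 𝒪
  obtain ⟨k, z₀, hzz, hprim⟩ := exists_prim585 hϖ z hz0
  have hz₀ : IsCuspidal z₀ := by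
    refine isCuspidalOn_of_zero_imp hz fun g hg => ?_
    have h1 : z g = ϖ ^ k * z₀ g := by rw [hzz]; rfl
    rw [h1] at hg
    rcases mul_eq_zero.mp hg with h2 | h2
    · exact absurd h2 (pow_ne_zero _ hϖ.ne_zero)
    · exact h2
  obtain ⟨m, hm, hm1⟩ := perf_charZero 𝒪 n hn z₀ hz₀ hprim
  have h3 := h m hm
  rw [maninPairing_skew (neg_one_mem_Gamma0' n) hz hm, neg_eq_zero, hzz,
    maninPairing_smul_left (neg_one_mem_Gamma0' n) _ hz₀ hm, hm1, mul_one] at h3
  exact pow_ne_zero _ hϖ.ne_zero h3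

end NonDeg

end Fermat.Agent.S59.TW.H24

end
-- ===== PACK-END S59/TW/H24/PerfO.lean

-- ===== PACK-BEGIN S59/TW/Aut/H709/Mod0Glue.lean
section






/-!
# S59 / cell TW, layer 3 (AUT): leaf MOD0 from CUSP (helper709)

`mod0_of_cusp : Mod0CuspStatement → Aut.Mod0Statement`, where `Mod0CuspStatement` says that the
localisation `V₀` of `Hom(Γ₀(N₀), 𝒪)` at the maximal ideal of the minimal package consists of
parabolic classes (CUSP: `ρ̄` is irreducible).

Proof: `V₀ = e X` is stable under the `T_ℓ` (`e` commutes with them); by Eichler–Shimura the Hecke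
ring `heckeAlgebra N₀ 2 Smin` acts on `V₀` (`TW.H709.exists_esAct_TK`); the `T_ℓ - c_ℓ` are
nilpotent on `V₀ / 𝔪 V₀` (`IsLocPart.nilp_T`), so the action extends to the localisation `T_min`
(`TW.H24.exists_algHom_of_nilp_T`).

* `mod0_core` : the same for one package, the level `N`, the set `S` and `V` being arbitrary;
* `exists_algHom_of_equiv` : the LOC-ACT lemma of helper24 transported along a linear equivalence
  `ε : M' ≃ V` (Lean: for a submodule `V` of `Hom(Γ, 𝒪)` the instance `Ring (End V)` is not found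
  and the unifier is slow, so we apply LOC-ACT to a coordinate model `M'` of `V`).
-/

set_option autoImplicit false

open Polynomial IsLocalRing CongruenceSubgroup
open scoped MatrixGroups

namespace Fermat.Agent.S59.TW.Aut.H709

open Fermat.Agent.S59.Arch Fermat.Agent.S59.TW.H959 Fermat.Agent.S59.TW.H653
open Fermat.Agent.S59.TW.Aut CuspForm ModularCurve.Period

/-- A localisation `V = e X` is stable under the `T_ℓ`, `ℓ ∤ M`. -/
theorem tK_mem_of_isLocPart {M : ℕ} {K : Subgroup SL(2, ℤ)} {hK : IsMid M K}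
    {𝒪 : Type} [CommRing 𝒪] [IsLocalRing 𝒪] {Tset Uset : Set (ℕ × 𝒪)}
    {V : Submodule 𝒪 (Additive K →+ 𝒪)} (hV : IsLocPart hK Tset Uset V)
    (ℓ : ℕ) (hℓ : ℓ.Prime) (hℓM : ¬ ℓ ∣ M) (v : Additive K →+ 𝒪) (hv : v ∈ V) :
    @TK M K 𝒪 _ ℓ ⟨hℓ.ne_zero⟩ v ∈ V := by
  obtain ⟨e, -, he_mem, he_id, heT, -⟩ := hV.exists_proj
  have : Fact ℓ.Prime := ⟨hℓ⟩
  have h1 := heT ℓ hℓM v
  rw [he_id v hv] at h1
  have h2 := he_mem (TK M K ℓ v)
  rw [h1] at h2
  exact h2

/-! ## Generalities -/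

section Gen

variable {R : Type*} [CommRing R] {X M' : Type*} [AddCommGroup X] [Module R X]
  [AddCommGroup M'] [Module R M']

/-- A linear map maps `I X` into `I M'`. -/
theorem map_mem_smul_top (I : Ideal R) (r : X →ₗ[R] M') {x : X}
    (hx : x ∈ (I • ⊤ : Submodule R X)) : r x ∈ (I • ⊤ : Submodule R M') := by
  refine Submodule.smul_induction_on hx ?_ ?_
  · intro a ha n _
    rw [map_smul]
    exact Submodule.smul_mem_smul ha Submodule.mem_top
  · intro a b ha hb
    rw [map_add]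
    exact Submodule.add_mem _ ha hb

/-- Powers of `φ - c` in `End M'` are iterates of `z ↦ φ z - c z`. -/
theorem pow_sub_algebraMap_apply (φ : Module.End R M') (c : R) (k : ℕ) (y : M') :
    ((φ - algebraMap R (Module.End R M') c) ^ k) y = (fun z => φ z - c • z)^[k] y := by
  rw [Module.End.pow_apply]
  rfl

end Gen

/-! ## LOC-ACT along a linear equivalence -/

section Transport

variable {N : ℕ} [NeZero N] {S : Set ℕ}
  {𝒪 : Type} [CommRing 𝒪] [IsDomain 𝒪] [IsDiscreteValuationRing 𝒪]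
  [IsAdicComplete (maximalIdeal 𝒪) 𝒪] [Fact (HasIntegralStructure N 2)]
  {V : Type*} [AddCommMonoid V] [Module 𝒪 V]
  {M' : Type*} [AddCommGroup M'] [Module 𝒪 M'] [Module.Finite 𝒪 M']

/-- The LOC-ACT lemma (`TW.H24.exists_algHom_of_nilp_T`) for a module `V` with a coordinate model
`ε : M' ≃ V`. -/
theorem exists_algHom_of_equiv (hNS : ∀ q : ℕ, q.Prime → q ∣ N → q ∈ S)
    (θ : heckeAlgebra N 2 S →+* ResidueField 𝒪) (ε : M' ≃ₗ[𝒪] V)
    (Ψ : heckeAlgebra N 2 S →+* Module.End 𝒪 V)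
    (hT : ∀ (ℓ : ℕ) (hℓ : ℓ.Prime) (hℓN : ¬ ℓ ∣ N) (hℓS : ℓ ∉ S),
      ∃ c : 𝒪, residue 𝒪 c = θ (heckeAlgebra.T hℓ hℓN hℓS) ∧ ∃ m : ℕ, ∀ y : M',
        (fun z => ε.symm (Ψ (heckeAlgebra.T hℓ hℓN hℓS) (ε z)) - c • z)^[m] y ∈
          (maximalIdeal 𝒪 • ⊤ : Submodule 𝒪 M')) :
    ∃ a : heckeLocal N S 𝒪 θ →ₐ[𝒪] Module.End 𝒪 V,
      ∀ t, a (heckeLocal.π N S 𝒪 θ t) = Ψ t := by
  let Ψ' : heckeAlgebra N 2 S →+* Module.End 𝒪 M' :=
    (ε.symm.conjRingEquiv : Module.End 𝒪 V →+* Module.End 𝒪 M').comp Ψ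
  have hΨ' : ∀ t (z : M'), Ψ' t z = ε.symm (Ψ t (ε z)) := fun t z => rfl
  obtain ⟨a', ha'⟩ := Fermat.Agent.S59.TW.H24.exists_algHom_of_nilp_T N S 𝒪 θ Ψ' hNS
    (fun ℓ hℓ hℓN hℓS => by
      obtain ⟨c, hc, m, hm⟩ := hT ℓ hℓ hℓN hℓS
      refine ⟨c, hc, m, fun y => ?_⟩
      rw [pow_sub_algebraMap_apply]
      exact hm y)
  refine ⟨((ε.conjAlgEquiv 𝒪 : Module.End 𝒪 M' ≃ₐ[𝒪] Module.End 𝒪 V) :
    Module.End 𝒪 M' →ₐ[𝒪] Module.End 𝒪 V).comp a', fun t => ?_⟩
  refine LinearMap.ext fun v => ?_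
  rw [AlgHom.comp_apply, ha']
  show ε (Ψ' t (ε.symm v)) = Ψ t v
  rw [hΨ', ε.apply_symm_apply, ε.apply_symm_apply]

end Transport

/-! ## The core -/

section Core

variable {N : ℕ} [NeZero N] {S : Set ℕ}
  {𝒪 : Type} [CommRing 𝒪] [IsDomain 𝒪] [IsDiscreteValuationRing 𝒪]
  [IsAdicComplete (maximalIdeal 𝒪) 𝒪] [CharZero 𝒪] [Fact (HasIntegralStructure N 2)]

omit [NeZero N] [IsAdicComplete (maximalIdeal 𝒪) 𝒪] [CharZero 𝒪]
  [Fact (HasIntegralStructure N 2)] in
/-- The nilpotency clause of `IsLocPart`, in a coordinate model `ε : M' ≃ V` of `V`. -/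
theorem iterate_mem_of_isLocPart {M' : Type*} [AddCommGroup M'] [Module 𝒪 M']
    {Tset Uset : Set (ℕ × 𝒪)} (V : Submodule 𝒪 (Additive (Gamma0 N) →+ 𝒪))
    (hV : IsLocPart (isMid_Gamma0 N) Tset Uset V) (ε : M' ≃ₗ[𝒪] V)
    (φ : Module.End 𝒪 V) (ℓ : ℕ) [Fact ℓ.Prime] (c : 𝒪) (hc : (ℓ, c) ∈ Tset)
    (hφ : ∀ v : V, ((φ v : V) : Additive (Gamma0 N) →+ 𝒪) = TK N (Gamma0 N) ℓ v) :
    ∃ m : ℕ, ∀ y : M', (fun z => ε.symm (φ (ε z)) - c • z)^[m] y ∈
      (maximalIdeal 𝒪 • ⊤ : Submodule 𝒪 M') := by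
  obtain ⟨e, -, he_mem, he_id, -⟩ := hV.exists_proj
  obtain ⟨m, hm⟩ := hV.nilp_T ℓ c hc
  refine ⟨m, fun y => ?_⟩
  -- the inclusion `M' → X` and its retraction
  let ι : M' →ₗ[𝒪] (Additive (Gamma0 N) →+ 𝒪) := V.subtype.comp ε.toLinearMap
  let r : (Additive (Gamma0 N) →+ 𝒪) →ₗ[𝒪] M' :=
    ε.symm.toLinearMap.comp (e.codRestrict V he_mem)
  have hι : ∀ z : M', ι z = ((ε z : V) : Additive (Gamma0 N) →+ 𝒪) := fun z => rfl
  have hrι : ∀ z : M', r (ι z) = z := by
    intro z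
    show ε.symm (e.codRestrict V he_mem (ι z)) = z
    have h1 : e.codRestrict V he_mem (ι z) = ε z := Subtype.ext (he_id _ (ε z).2)
    rw [h1, ε.symm_apply_apply]
  have hstep : ∀ z : M', ι (ε.symm (φ (ε z)) - c • z) =
      TK N (Gamma0 N) ℓ (ι z) - c • ι z := by
    intro z
    rw [map_sub, map_smul, hι, ε.apply_symm_apply, hφ]
    rfl
  have hiter : ∀ (k : ℕ) (z : M'), ι ((fun z => ε.symm (φ (ε z)) - c • z)^[k] z) =
      (fun y => TK N (Gamma0 N) ℓ y - c • y)^[k] (ι z) := by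
    intro k
    induction k with
    | zero => intro z; rfl
    | succ k ih =>
      intro z
      rw [Function.iterate_succ_apply, Function.iterate_succ_apply, ih, hstep]
  have h2 := hm (ι y) (ε y).2
  rw [← hiter m y] at h2
  have h3 := map_mem_smul_top (maximalIdeal 𝒪) r h2
  rw [hrι] at h3
  exact h3

/-- **MOD0, core.**  Level `N`, `S ⊇ primes(N)`, `θ` a residual character of the Hecke ring,
`V ⊆ Hom(Γ₀(N), 𝒪)` a localisation (`IsLocPart`) at a set `Tset` containing a lift of `θ(T_ℓ)` for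
every good `ℓ`, consisting of parabolic classes.  Then `heckeLocal N S 𝒪 θ` acts on `V`,
`T_ℓ ↦ T_ℓ`. -/
theorem mod0_core (hNS : ∀ q : ℕ, q.Prime → q ∣ N → q ∈ S)
    (θ : heckeAlgebra N 2 S →+* ResidueField 𝒪) {Tset Uset : Set (ℕ × 𝒪)}
    (hTset : ∀ (ℓ : ℕ) (hℓ : ℓ.Prime) (hℓN : ¬ ℓ ∣ N) (hℓS : ℓ ∉ S),
      ∃ c : 𝒪, residue 𝒪 c = θ (heckeAlgebra.T hℓ hℓN hℓS) ∧ (ℓ, c) ∈ Tset)
    (V : Submodule 𝒪 (Additive (Gamma0 N) →+ 𝒪))
    (hV : IsLocPart (isMid_Gamma0 N) Tset Uset V)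
    (hcusp : ∀ v ∈ V, IsParabolicHom (Gamma0 N) v) :
    ∃ a : heckeLocal N S 𝒪 θ →ₐ[𝒪] Module.End 𝒪 V,
      ∀ (ℓ : ℕ) (hℓ : ℓ.Prime) (hℓN : ¬ ℓ ∣ N) (hℓS : ℓ ∉ S) (v : V),
        ((a (heckeLocal.π N S 𝒪 θ (heckeAlgebra.T hℓ hℓN hℓS)) v : V) :
          Additive (Gamma0 N) →+ 𝒪) = tOp N (Gamma0 N) 𝒪 ℓ hℓ v := by
  have : (Gamma0 N).FiniteIndex := Subgroup.finiteIndex_of_le (isMid_Gamma0 N).ge
  obtain ⟨hfin, hfree⟩ :=
    Fermat.Agent.S59.MFree.H761.finite_free_submodule (O := 𝒪) (Gamma0 N) V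
  obtain ⟨Ψ, hΨ⟩ := Fermat.Agent.S59.TW.H709.exists_esAct_TK 𝒪 hNS V hcusp
    (fun ℓ hℓ hℓN _ v hv => tK_mem_of_isLocPart hV ℓ hℓ hℓN v hv)
  -- a coordinate model of `V`
  let b := Module.Free.chooseBasis 𝒪 V
  let ε : (Module.Free.ChooseBasisIndex 𝒪 V →₀ 𝒪) ≃ₗ[𝒪] V := b.repr.symm
  have hfin' : Module.Finite 𝒪 (Module.Free.ChooseBasisIndex 𝒪 V →₀ 𝒪) :=
    Module.Finite.equiv b.repr
  obtain ⟨a, ha⟩ := exists_algHom_of_equiv hNS θ ε Ψ
    (fun ℓ hℓ hℓN hℓS => by
      obtain ⟨c, hc, hcT⟩ := hTset ℓ hℓ hℓN hℓS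
      have : Fact ℓ.Prime := ⟨hℓ⟩
      exact ⟨c, hc, iterate_mem_of_isLocPart V hV ε (Ψ (heckeAlgebra.T hℓ hℓN hℓS)) ℓ c hcT
        (fun v => hΨ ℓ hℓ hℓN hℓS v)⟩)
  refine ⟨a, fun ℓ hℓ hℓN hℓS v => ?_⟩
  rw [ha]
  exact hΨ ℓ hℓ hℓN hℓS v

end Core

/-- **CUSP at the minimal level**: the localisation `V₀` consists of parabolic classes. -/
def Mod0CuspStatement : Prop :=
  ∀ (p : ℕ) [Fact p.Prime]
    (𝒪 : Type) [CommRing 𝒪] [IsDomain 𝒪] [IsDiscreteValuationRing 𝒪]
    [IsAdicComplete (maximalIdeal 𝒪) 𝒪] [Finite (ResidueField 𝒪)] [CharZero 𝒪]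
    (ρbar : ResidualGaloisRep (ResidueField 𝒪)) (Smin : Finset ℕ)
    (_h : ResidualHyp p 𝒪 ρbar Smin) (t : PType)
    (_ht : (t = .flat ∧ (GaloisRepAdic.ofResidualGaloisRep ρbar).IsFlatAt p) ∨
      (t = .sord ∧ (GaloisRepAdic.ofResidualGaloisRep ρbar).IsStrictOrdinaryAt p ∧
        ¬ (GaloisRepAdic.ofResidualGaloisRep ρbar).IsFlatAt p))
    [NeZero (wilesLevel p t Smin Smin)]
    (P₀ : HeckePkg p 𝒪 ρbar t Smin Smin)
    (V₀ : Submodule 𝒪 (Additive (Gamma0 (wilesLevel p t Smin Smin)) →+ 𝒪)),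
    IsMinPart P₀ V₀ → ∀ v ∈ V₀, IsParabolicHom (Gamma0 (wilesLevel p t Smin Smin)) v

/-- **MOD0 from CUSP.** -/
theorem mod0_of_cusp (hcusp : Mod0CuspStatement) : Mod0Statement := by
  intro p _ 𝒪 _ _ _ _ _ _ ρbar Smin h t ht _ P₀ V₀ hV₀
  have hNS : ∀ q : ℕ, q.Prime → q ∣ wilesLevel p t Smin Smin → q ∈ (↑Smin : Set ℕ) :=
    fun q hq hdvd => Finset.mem_coe.mpr
      (_root_.Fermat.Agent.S59.Arch.mem_of_prime_dvd_wilesLevel (Fact.out : p.Prime) h.hSmin h.hSmin h.hpSmin
        (Finset.Subset.refl _) q hq hdvd)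
  have := P₀.integral
  obtain ⟨a, ha⟩ := mod0_core hNS P₀.θ (Tset := TsetOf P₀) (Uset := ∅)
    (fun ℓ hℓ hℓN hℓS => by
      obtain ⟨c, hc⟩ := residue_surjective (P₀.θ (heckeAlgebra.T hℓ hℓN hℓS))
      exact ⟨c, hc, hℓ, hℓN, hℓS, hc⟩)
    V₀ hV₀ (hcusp p 𝒪 ρbar Smin h t ht P₀ V₀ hV₀)
  refine ⟨a, fun ℓ hℓ hℓN hℓS v => ?_⟩
  rw [P₀.hπ]
  exact ha ℓ hℓ hℓN hℓS v

end Fermat.Agent.S59.TW.Aut.H709

end
-- ===== PACK-END S59/TW/Aut/H709/Mod0Glue.lean

-- ===== PACK-BEGIN S59/MFree/H779/FreeKer.lean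
section


/-!
# S59 / M-FREE (helper779): `MFree.free` for `t = T_l`, all odd `p`, without (Ell) at `p = 3`

* `pow_twelve_h779`, `ellFive_h779`: (Ell) for `5 ≤ p` (torsion of `SL(2,ℤ)` is killed by `12`);
* `freeFive_heckeKer_h779`: `H587.free_heckeKer` with (Ell) discharged, `5 ≤ p`;
* `freeAux3_heckeKer_h779`: the same conclusion at `p = 3`, given an auxiliary prime
  `r ≡ 2 mod 3`, `r ∤ M`, such that `T_r` commutes with `e` and is onto on `e H`.
-/

set_option autoImplicit false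

namespace Fermat.Agent.S59.MFree.H779

open Matrix CongruenceSubgroup Matrix.SpecialLinearGroup
open Fermat.Agent.S41.Spec Fermat.Agent.S29.H642 Fermat.Agent.S59.MFree
open Fermat.Agent.S59.MFree.H587 Fermat.Agent.S41.H952
open scoped MatrixGroups

universe u

/-- An element of finite order of `SL(2,ℤ)` satisfies `g ^ 12 = 1`. -/
theorem pow_twelve_h779 (g : SL(2, ℤ)) (hg : IsOfFinOrder g) : g ^ 12 = 1 := by
  have hb := abs_tr2_le_two hg
  rw [abs_le] at hb
  have hcases : tr2 g = 2 ∨ tr2 g = -2 ∨ tr2 g = 0 ∨ tr2 g = 1 ∨ tr2 g = -1 := by omega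
  have hneg : ((-1 : SL(2, ℤ))) ^ 2 = 1 := by
    rw [pow_two]
    simp
  have h3 : (g ^ 3).1 = g.1 * (g.1 * g.1) := by
    rw [pow_succ', pow_two, Matrix.SpecialLinearGroup.coe_mul, Matrix.SpecialLinearGroup.coe_mul]
  have hcay := cayley g
  rcases hcases with ht | ht | ht | ht | ht
  · rw [eq_one_of_tr2_eq_two hg ht, one_pow]
  · have h1 : -g = 1 := eq_one_of_tr2_eq_two (isOfFinOrder_neg hg) (by rw [tr2_neg, ht]; norm_num)
    have h2 : g = -1 := by rw [← h1, neg_neg]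
    rw [h2, show (12 : ℕ) = 2 * 6 from rfl, pow_mul, hneg, one_pow]
  · have h2 : g ^ 2 = -1 := by
      apply Subtype.ext
      rw [ht, zero_smul, zero_sub] at hcay
      rw [pow_two, Matrix.SpecialLinearGroup.coe_mul, hcay]
      simp [Matrix.SpecialLinearGroup.coe_neg]
    rw [show (12 : ℕ) = 2 * (2 * 3) from rfl, pow_mul, h2, pow_mul, hneg, one_pow]
  · have h2 : g ^ 3 = -1 := by
      apply Subtype.ext
      rw [ht, one_smul] at hcay
      rw [h3, hcay, Matrix.mul_sub, Matrix.mul_one, hcay]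
      simp [Matrix.SpecialLinearGroup.coe_neg]
    rw [show (12 : ℕ) = 3 * (2 * 2) from rfl, pow_mul, h2, pow_mul, hneg, one_pow]
  · have h2 : g ^ 3 = 1 := by
      apply Subtype.ext
      rw [ht] at hcay
      rw [h3, hcay, Matrix.mul_sub, Matrix.mul_one, Matrix.mul_smul, hcay]
      simp only [Matrix.SpecialLinearGroup.coe_one]
      module
    rw [show (12 : ℕ) = 3 * 4 from rfl, pow_mul, h2, one_pow]

/-- **(Ell) for `5 ≤ p`.** -/
theorem ellFive_h779 {Γ : Subgroup SL(2, ℤ)} {D : Type} [Group D] [Fintype D] (κ : Γ →* D)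
    {p : ℕ} (hp : p.Prime) (hp5 : 5 ≤ p) (hcard : ∃ a : ℕ, Fintype.card D = p ^ a)
    (g : Γ) (hg : IsOfFinOrder g) : κ g = 1 := by
  obtain ⟨a, ha⟩ := hcard
  have hg' : IsOfFinOrder (g : SL(2, ℤ)) := Submonoid.isOfFinOrder_coe.2 hg
  have h12 : g ^ 12 = 1 := by
    apply Subtype.ext
    rw [Subgroup.coe_pow, Subgroup.coe_one]
    exact pow_twelve_h779 _ hg'
  have h1 : κ g ^ 12 = 1 := by rw [← map_pow, h12, map_one]
  have h2 : κ g ^ p ^ a = 1 := by rw [← ha]; exact pow_card_eq_one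
  have hcop : Nat.gcd 12 (p ^ a) = 1 := by
    apply Nat.Coprime.pow_right
    have h2' : Nat.Coprime 2 p := by
      rw [Nat.coprime_primes Nat.prime_two hp]
      omega
    have h3' : Nat.Coprime 3 p := by
      rw [Nat.coprime_primes Nat.prime_three hp]
      omega
    have : (12 : ℕ) = 2 * 2 * 3 := rfl
    rw [this]
    exact Nat.Coprime.mul_left (Nat.Coprime.mul_left h2' h2') h3'
  have := pow_gcd_eq_one.2 ⟨h1, h2⟩
  rwa [hcop, pow_one] at this

/-- **M-FREE for `T_l`, `5 ≤ p`**: `H587.free_heckeKer` with (Ell) discharged. -/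
theorem freeFive_heckeKer_h779 (p M l : ℕ) [Fact p.Prime] [Fact l.Prime] (hp5 : 5 ≤ p)
    (hl : ¬ l ∣ M) (hM : M ≠ 0)
    (D : Type) [Group D] [Fintype D] (κ : Gamma0 M →* D)
    (hκ : Function.Surjective κ) (hcard : ∃ a : ℕ, Fintype.card D = p ^ a)
    (hΓ1 : ∀ γ : Gamma0 M, ((((γ : SL(2, ℤ)) 1 1 : ℤ)) : ZMod M) = 1 → κ γ = 1)
    (O : Type u) [CommRing O] [IsDomain O] [IsDiscreteValuationRing O] [CharZero O]
    (hp : ¬ IsUnit (p : O))
    (e : (Additive (kerSub κ) →+ O) →ₗ[O] (Additive (kerSub κ) →+ O))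
    (he : ∀ x, e (e x) = e x)
    (het : ∀ x, e (heckeKerLin hl κ hΓ1 O x) = heckeKerLin hl κ hΓ1 O (e x))
    (hec : ∀ (g : Gamma0 M) x, e (conjAct κ g x) = conjAct κ g (e x))
    (hsurj : ∀ y, e y = y → ∃ x, e x = x ∧ heckeKerLin hl κ hΓ1 O x - ((l : O) + 1) • x = y)
    (hinj : ∀ x, e x = x → heckeKerLin hl κ hΓ1 O x - ((l : O) + 1) • x = 0 → x = 0) :
    FreeConclusion κ O e :=
  free_heckeKer.{u} p M l hl hM D κ hκ hcard
    (fun g hg => ellFive_h779 κ Fact.out hp5 hcard g hg) hΓ1 O hp e he het hec hsurj hinj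

/-- **M-FREE for `T_l` at `p = 3`**, with an auxiliary prime `r ≡ 2 mod 3`. -/
theorem freeAux3_heckeKer_h779 (M l r : ℕ) [Fact l.Prime] [Fact r.Prime]
    (hl : ¬ l ∣ M) (hr : ¬ r ∣ M) (hr3 : r % 3 = 2) (hM : M ≠ 0)
    (D : Type) [Group D] [Fintype D] (κ : Gamma0 M →* D)
    (hκ : Function.Surjective κ) (hcard : ∃ a : ℕ, Fintype.card D = 3 ^ a)
    (hΓ1 : ∀ γ : Gamma0 M, ((((γ : SL(2, ℤ)) 1 1 : ℤ)) : ZMod M) = 1 → κ γ = 1)
    (O : Type u) [CommRing O] [IsDomain O] [IsDiscreteValuationRing O] [CharZero O]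
    (hp : ¬ IsUnit (3 : O))
    (e : (Additive (kerSub κ) →+ O) →ₗ[O] (Additive (kerSub κ) →+ O))
    (he : ∀ x, e (e x) = e x)
    (het : ∀ x, e (heckeKerLin hl κ hΓ1 O x) = heckeKerLin hl κ hΓ1 O (e x))
    (hec : ∀ (g : Gamma0 M) x, e (conjAct κ g x) = conjAct κ g (e x))
    (hsurj : ∀ y, e y = y → ∃ x, e x = x ∧ heckeKerLin hl κ hΓ1 O x - ((l : O) + 1) • x = y)
    (hinj : ∀ x, e x = x → heckeKerLin hl κ hΓ1 O x - ((l : O) + 1) • x = 0 → x = 0)
    (her : ∀ x, e (heckeKerLin hr κ hΓ1 O x) = heckeKerLin hr κ hΓ1 O (e x))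
    (hsurjr : ∀ y, e y = y → ∃ x, e x = x ∧ heckeKerLin hr κ hΓ1 O x = y) :
    FreeConclusion κ O e :=
  freeAux3.{u} M l r hl hr hr3 hM D κ hκ hcard hΓ1 O hp e (heckeKerLin hl κ hΓ1 O) he het hec
    (fun g x => heckeKerOf_conjAct hl κ hΓ1 (wStd hl) (l : ZMod M) (isNormalising_wStd hl) g x)
    (fun x => cor_heckeKerOf hl κ hΓ1 (wStd hl) (l : ZMod M) (isNormalising_wStd hl) x)
    hsurj hinj her hsurjr

end Fermat.Agent.S59.MFree.H779

end
-- ===== PACK-END S59/MFree/H779/FreeKer.lean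

-- ===== PACK-BEGIN S59/TW/Aut/H779/FreeGen.lean
section





/-!
# S59 / cell TW / AUT layer 3, leaf FREE, generic form (helper779)

`free_of_isLocPart_h779`: `N₀ ≠ 0`, `qv : Fin r → ℕ` distinct primes, `K_Q = KQ p N₀ qv`,
`V` a localisation of `X_{K_Q}(𝒪)` (`Aut.IsLocPart`, ANY `Tset`, `Uset`), a non-Eisenstein pair
`(ℓ, c) ∈ Tset` (`ℓ ∤ M_Q`, `c - (ℓ + 1)` a unit), and

* either `5 ≤ p`,
* or `p = 3` and an auxiliary pair `(r', c') ∈ Tset`, `r' ∤ M_Q`, `r' ≡ 2 mod 3`, `c'` a unit.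

Then `V` is free over `𝒪[Δ_Q]`: there is `d` such that for all primitive roots `g_j`, `V` has an
`𝒪`-basis `⟨g^e⟩ b_i` (the conclusion of `Aut.FreeAt`).

Proof: `MFree.H587.free_heckeKer` (`5 ≤ p`) or `MFree.H779.freeAux3` (`p = 3`; hypothesis (Ell)
of `MFree.free` can fail, it is replaced by the auxiliary level `Γ₀(M_Q) ∩ Γ₀(r')`) at
`κ = Aut.kappa`, `e` = the projector of `V`, `t = T_ℓ`.
-/

set_option autoImplicit false

open Polynomial IsLocalRing CongruenceSubgroup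
open scoped MatrixGroups

namespace Fermat.Agent.S59.TW.Aut.H779

open Fermat.Agent.S59.Arch Fermat.Agent.S59.TW.H959 Fermat.Agent.S59.TW
open Fermat.Agent.S59.TW.H653 Fermat.Agent.S59.TW.Aut Fermat.Agent.S59.MFree
open Fermat.Agent.S59.TW.Aut.H762

section LinAlg

variable {𝒪 : Type} [CommRing 𝒪] {X : Type} [AddCommGroup X] [Module 𝒪 X]
  {D E : Type} [Fintype E]

/-- Unique coefficients with respect to a linearly independent family indexed by `D × Fin n`,
re-indexed along a bijection `ε : E → D`. -/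
theorem existsUnique_coeff_h779 {n : ℕ} (F : D × Fin n → X)
    (hli : LinearIndependent 𝒪 F) (ε : E → D) (hε : Function.Bijective ε) (y : X)
    (hy : y ∈ Submodule.span 𝒪 (Set.range F)) :
    ∃! c : Fin n → E → 𝒪, y = ∑ i, ∑ e, c i e • F (ε e, i) := by
  classical
  let φ : Fin n × E → D × Fin n := fun z => (ε z.2, z.1)
  have hφ : Function.Bijective φ := by
    constructor
    · rintro ⟨i, e⟩ ⟨i', e'⟩ h
      have h1 : ε e = ε e' := congrArg Prod.fst h
      have h2 : i = i' := congrArg Prod.snd h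
      rw [hε.1 h1, h2]
    · rintro ⟨d, i⟩
      obtain ⟨e, rfl⟩ := hε.2 d
      exact ⟨(i, e), rfl⟩
  have hG : LinearIndependent 𝒪 (F ∘ φ) := hli.comp φ hφ.1
  have hrange : Set.range (F ∘ φ) = Set.range F := by
    rw [Set.range_comp, hφ.2.range_eq, Set.image_univ]
  have hsum : ∀ c : Fin n → E → 𝒪,
      ∑ i, ∑ e, c i e • F (ε e, i) = ∑ z : Fin n × E, c z.1 z.2 • (F ∘ φ) z := by
    intro c
    rw [Fintype.sum_prod_type]
    rfl
  rw [← hrange] at hy
  obtain ⟨c₀, hc₀⟩ := (Submodule.mem_span_range_iff_exists_fun 𝒪).mp hy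
  refine ⟨fun i e => c₀ (i, e), ?_, ?_⟩
  · show y = ∑ i, ∑ e, c₀ (i, e) • F (ε e, i)
    rw [hsum (fun i e => c₀ (i, e)), ← hc₀]
  · intro c hc
    rw [hsum c, ← hc₀] at hc
    have hzero : ∑ z : Fin n × E, (c z.1 z.2 - c₀ z) • (F ∘ φ) z = 0 := by
      simp only [sub_smul, Finset.sum_sub_distrib]
      rw [← hc, sub_self]
    have := Fintype.linearIndependent_iff.mp hG (fun z => c z.1 z.2 - c₀ z) hzero
    funext i e
    exact sub_eq_zero.mp (this (i, e))

end LinAlg

section Card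

variable (p : ℕ) [hpF : Fact p.Prime] {r : ℕ} (qv : Fin r → ℕ)

/-- `Δ_Q` is a finite `p`-group. -/
theorem card_delta_h779 (hprime : ∀ j, (qv j).Prime) :
    Nat.card (Delta p qv) = p ^ ∑ j, padicValNat p (qv j - 1) := by
  classical
  obtain ⟨g, hg⟩ := exists_primitive_roots qv hprime
  have hbij := epsIdx_bijective p qv hprime g hg
  rw [← Nat.card_eq_of_bijective _ hbij, Nat.card_eq_fintype_card, Fintype.card_pi]
  simp only [Fintype.card_fin]
  exact Finset.prod_pow_eq_pow_sum _ _ _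

end Card

section Generic

variable {p : ℕ} [hpF : Fact p.Prime] (N₀ : ℕ) {r : ℕ} (qv : Fin r → ℕ)
  {𝒪 : Type} [CommRing 𝒪] [IsDomain 𝒪] [IsDiscreteValuationRing 𝒪] [CharZero 𝒪]

/-- **FREE, generic form, all odd `p`.** -/
theorem free_of_isLocPart_h779 (hN₀ : N₀ ≠ 0) (hinj : Function.Injective qv)
    (hprime : ∀ j, (qv j).Prime) (hp𝒪 : ¬ IsUnit (p : 𝒪))
    {Tset Uset : Set (ℕ × 𝒪)} {V : Submodule 𝒪 (Additive (KQ p N₀ qv) →+ 𝒪)}
    (hV : IsLocPart (isMid_KQ p N₀ qv) Tset Uset V)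
    {ℓ : ℕ} (hℓ : ℓ.Prime) (hℓM : ¬ ℓ ∣ bLevel N₀ qv) {c : 𝒪} (hmem : (ℓ, c) ∈ Tset)
    (hu : IsUnit (c - ((ℓ : 𝒪) + 1)))
    (hcase : 5 ≤ p ∨ (p = 3 ∧ ∃ (r' : ℕ) (c' : 𝒪), r'.Prime ∧ ¬ r' ∣ bLevel N₀ qv ∧
      r' % 3 = 2 ∧ (r', c') ∈ Tset ∧ IsUnit c')) :
    ∃ d : ℕ, ∀ (E : Type) [Fintype E] (a : E → ∀ j : Fin r, (ZMod (qv j))ˣ),
      Function.Bijective (fun e => (QuotientGroup.mk (a e) : Delta p qv)) →
      ∃ b : Fin d → V, ∀ y : V, ∃! c : Fin d → E → 𝒪,
        (y : Additive (KQ p N₀ qv) →+ 𝒪) =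
          ∑ i, ∑ e, c i e • diamondU (isMid_KQ p N₀ qv) (liftU N₀ qv (a e))
            (b i : Additive (KQ p N₀ qv) →+ 𝒪) := by
  classical
  have hp : p.Prime := hpF.out
  have hM : NeZero (bLevel N₀ qv) :=
    ⟨Nat.mul_ne_zero hN₀ (Finset.prod_ne_zero_iff.mpr fun j _ => (hprime j).ne_zero)⟩
  have : ∀ j, NeZero (qv j) := fun j => ⟨(hprime j).ne_zero⟩
  have : Fact ℓ.Prime := ⟨hℓ⟩
  have hred := red_surjective N₀ qv hN₀ hinj hprime
  have hκ := kappa_surjective_h762 p N₀ qv hred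
  let _ : Fintype (Delta p qv) := Fintype.ofFinite _
  have hcardN := card_delta_h779 p qv hprime
  have hcard : ∃ a : ℕ, Fintype.card (Delta p qv) = p ^ a :=
    ⟨_, by rw [← Nat.card_eq_fintype_card]; exact hcardN⟩
  have hΓ1 := kappa_trivial_h762 p N₀ qv
  obtain ⟨e, he, heV, hVe, hT, -, hD, -⟩ := hV.exists_proj
  obtain ⟨hsurj, hinj'⟩ := H31.locPart_TK_sub_bij_h31 hV hℓM hmem hu
  have hTK : ∀ (l : ℕ) [Fact l.Prime] (hl : ¬ l ∣ bLevel N₀ qv)
      (x : Additive (kerSub (kappa p N₀ qv)) →+ 𝒪),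
      H587.heckeKerLin hl (kappa p N₀ qv) hΓ1 𝒪 x = TK (bLevel N₀ qv) (KQ p N₀ qv) l x :=
    fun l _ hl x => heckeKer_eq_TK hl (kappa p N₀ qv) hΓ1 x
  have hconj : ∀ (g : Gamma0 (bLevel N₀ qv)) (z : Additive (kerSub (kappa p N₀ qv)) →+ 𝒪),
      conjAct (kappa p N₀ qv) g z =
        diamondU (isMid_KQ p N₀ qv) (dUnit (bLevel N₀ qv) g⁻¹) z := by
    intro g z
    rw [conjAct_eq_diamond (kappa p N₀ qv) hΓ1 g z, diamond_eq_diamondU]
    rfl
  have het : ∀ x, e (H587.heckeKerLin hℓM (kappa p N₀ qv) hΓ1 𝒪 x) =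
      H587.heckeKerLin hℓM (kappa p N₀ qv) hΓ1 𝒪 (e x) := fun x =>
    (congrArg e (hTK ℓ hℓM x)).trans ((hT ℓ hℓM x).trans (hTK ℓ hℓM (e x)).symm)
  have hec : ∀ (g : Gamma0 (bLevel N₀ qv)) x,
      e (conjAct (kappa p N₀ qv) g x) = conjAct (kappa p N₀ qv) g (e x) := fun g x => by
    have h1 := hconj g x
    have h2 := hconj g (e x)
    have h3 := hD (dUnit (bLevel N₀ qv) g⁻¹) x
    exact (congrArg e h1).trans (h3.trans h2.symm)
  have hsurj' : ∀ y : Additive (kerSub (kappa p N₀ qv)) →+ 𝒪, e y = y →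
      ∃ x : Additive (kerSub (kappa p N₀ qv)) →+ 𝒪, e x = x ∧
      H587.heckeKerLin hℓM (kappa p N₀ qv) hΓ1 𝒪 x - ((ℓ : 𝒪) + 1) • x = y := fun y hy => by
    have hyV : y ∈ V := by rw [← hy]; exact heV y
    obtain ⟨x, hxV, hx⟩ := hsurj y hyV
    refine ⟨x, hVe x hxV, ?_⟩
    rw [hTK ℓ hℓM x]
    exact hx
  have hinj'' : ∀ x : Additive (kerSub (kappa p N₀ qv)) →+ 𝒪, e x = x →
      H587.heckeKerLin hℓM (kappa p N₀ qv) hΓ1 𝒪 x - ((ℓ : 𝒪) + 1) • x = 0 → x = 0 :=
    fun x hx h0 => by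
      have hxV : x ∈ V := by rw [← hx]; exact heV x
      rw [hTK ℓ hℓM x] at h0
      exact hinj' x hxV h0
  have hfc : FreeConclusion (kappa p N₀ qv) 𝒪 e := by
    rcases hcase with hp5 | ⟨hp3, r', c', hr', hr'M, hr'3, hmem', hc'⟩
    · exact H779.freeFive_heckeKer_h779 p (bLevel N₀ qv) ℓ hp5 hℓM hM.ne (Delta p qv)
        (kappa p N₀ qv) hκ hcard hΓ1 𝒪 hp𝒪 e he het hec hsurj' hinj''
    · subst hp3
      have : Fact r'.Prime := ⟨hr'⟩
      have hu0 : IsUnit (c' - 0) := by rwa [sub_zero]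
      obtain ⟨hsurjr, -⟩ := H31.locPart_TK_sub_bij_h31 hV hr'M hmem' hu0
      refine H779.freeAux3_heckeKer_h779 (bLevel N₀ qv) ℓ r' hℓM hr'M hr'3 hM.ne (Delta 3 qv)
        (kappa 3 N₀ qv) hκ hcard hΓ1 𝒪 (by simpa using hp𝒪) e he het hec hsurj' hinj''
        (fun x => (congrArg e (hTK r' hr'M x)).trans
          ((hT r' hr'M x).trans (hTK r' hr'M (e x)).symm)) ?_
      intro y hy
      have hyV : y ∈ V := by rw [← hy]; exact heV y
      obtain ⟨x, hxV, hx⟩ := hsurjr y hyV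
      rw [zero_smul, sub_zero] at hx
      exact ⟨x, hVe x hxV, (hTK r' hr'M x).trans hx⟩
  obtain ⟨⟨n, b, hb, hfree⟩, -, -⟩ := hfc
  refine ⟨n, fun E _ a ha => ?_⟩
  choose s hs using hκ
  obtain ⟨hli, hspan⟩ := hfree s hs
  refine ⟨fun i => ⟨b i, by rw [← hb i]; exact heV _⟩, fun y => ?_⟩
  have hε : Function.Bijective
      (fun e' : E => ((QuotientGroup.mk (a e') : Delta p qv))⁻¹) :=
    (Equiv.inv (Delta p qv)).bijective.comp ha
  have key := existsUnique_coeff_h779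
    (fun z : Delta p qv × Fin n => conjAct (kappa p N₀ qv) (s z.1) (b z.2)) hli
    (fun e' : E => ((QuotientGroup.mk (a e') : Delta p qv))⁻¹) hε
    (y : Additive (KQ p N₀ qv) →+ 𝒪) (hspan _ (hVe _ y.2))
  have hrew : ∀ (e' : E) (i : Fin n),
      conjAct (kappa p N₀ qv) (s ((QuotientGroup.mk (a e') : Delta p qv))⁻¹) (b i) =
        diamondU (isMid_KQ p N₀ qv) (liftU N₀ qv (a e')) (b i) :=
    fun e' i => (diamondU_liftU_eq_conjAct_h762 p N₀ qv hred (a e') _ (hs _) (b i)).symm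
  simp only [hrew] at key
  exact key

end Generic

end Fermat.Agent.S59.TW.Aut.H779

end
-- ===== PACK-END S59/TW/Aut/H779/FreeGen.lean

-- ===== PACK-BEGIN S29/H871/Surj.lean
section




/-!
# S29 / E3, part 9: descent of divisor classes with finite orbit

`G` acts semilinearly on `F'/K'` (constant field extension of `F/K`), fixing `F` pointwise, with
`F'^G = F`, and the elements of `K'` with finite orbit lie in `K`.

* `mem_range_bcPlace_of_finite_orbit` : a place of `F'` with finite `G`-orbit is a base change;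
* `exists_bcDiv_sub_principal` : a divisor of degree `0` of `F'` whose class has finite `G`-orbit
  is linearly equivalent to the base change of a divisor of `F`
  (Riemann's inequality: the first `n` with `ℓ(D + n P) ≥ 1` has `ℓ = 1`, so the effective divisor
  in the class of `D + n P` is unique, hence has finite orbit);
* `exists_descent_of_dvd_ord` : **Kummer form**: `f ∈ F'` with `p ∣ div f` and finitely many
  classes `[σ f]` modulo `K'ˣ (F'ˣ)^p` is `ι(f₀) * y ^ p` with `f₀ ∈ F`.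

(helper871)
-/

set_option autoImplicit false
set_option linter.unusedSectionVars false

noncomputable section

namespace Fermat.Agent.S29.H871

open AlgebraicCurve TensorProduct IntermediateField
open Fermat.Agent.S24.H117 (mem_iff_ord_nonneg ord_pow ord_add_eq_of_lt place_ext_of_le
  mem_of_ord_nonneg ord_nonneg_of_mem exists_ord_eq_one ord_div)
open Fermat.Agent.Lib.RR (ell prim)

variable {K F K' F' : Type*} [Field K] [Field F] [Field K'] [Field F']
  [Algebra K F] [Algebra K' F'] [Algebra K K'] [Algebra F F'] [Algebra K F']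
  [IsScalarTower K F F'] [IsScalarTower K K' F']

variable {G : Type*} [Group G] {θ : G →* SemilinearAut K' F'} (hθ : IsDescentAction K F θ)
variable [IsConstExt K F K' F'] [IsAlgClosed K] [CharZero K] [IsAlgClosed K'] [CharZero K']
variable {t : F} (ht : Transcendental K t) [FiniteDimensional K⟮t⟯ F]

section Places

include hθ in
theorem inMax_smul_sub_const (g : G) (w : Place K' F') (f : F) (c : K')
    (h : InMax w (algebraMap F F' f - algebraMap K' F' c)) :
    InMax (θ g • w) (algebraMap F F' f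
      - algebraMap K' F' (SemilinearAut.baseAut (θ g) c)) := by
  have key : (θ g)⁻¹ • (algebraMap F F' f - algebraMap K' F' (SemilinearAut.baseAut (θ g) c))
      = algebraMap F F' f - algebraMap K' F' c := by
    rw [smul_sub, ← map_inv, hθ.fixes, SemilinearAut.smul_algebraMap, map_inv,
      SemilinearAut.baseAut_inv]
    simp
  rcases h with h | h
  · left
    have h2 := congrArg (fun x => θ g • x) key
    simp only [smul_inv_smul] at h2
    rw [h2, h, smul_zero]
  · right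
    rw [ord_smul_place, key]
    exact h

include hθ in
/-- A place of `F'` with finite orbit is a base change. -/
theorem mem_range_bcPlace_of_finite_orbit (w : Place K' F')
    (hw : (Set.range fun g : G => θ g • w).Finite) : w ∈ Set.range (bcPlace K' F' ht) := by
  classical
  have hfd := finiteDimensional_adjoin_algebraMap (K := K) (K' := K') (F' := F') t
  have ht' := transcendental_algebraMap (K' := K') (F' := F') ht
  by_contra hnot
  have hr := rord_eq_zero_of_notMem_range ht hnot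
  have htO : algebraMap F F' t ∈ w.toValuationSubring :=
    _root_.Fermat.Agent.S24.H117.mem_of_ord_nonneg w (hr t).ge
  obtain ⟨c, hc⟩ := isRationalPlace_of_isAlgClosed w ht' _ htO
  have hcm : InMax w (algebraMap F F' t - algebraMap K' F' c) := inMax_of_mem_nonunits hc
  -- the value of `t` at a place
  let val : Place K' F' → K' := fun w' =>
    if h : ∃ c' : K', InMax w' (algebraMap F F' t - algebraMap K' F' c') then h.choose else 0
  have hval : ∀ g : G, val (θ g • w) = SemilinearAut.baseAut (θ g) c := by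
    intro g
    have h1 := inMax_smul_sub_const hθ g w t c hcm
    have hex : ∃ c' : K', InMax (θ g • w) (algebraMap F F' t - algebraMap K' F' c') := ⟨_, h1⟩
    have h2 : InMax (θ g • w) (algebraMap F F' t - algebraMap K' F' (val (θ g • w))) := by
      simp only [val, dif_pos hex]
      exact hex.choose_spec
    have h3 := h1.sub h2
    have heq : algebraMap F F' t - algebraMap K' F' (SemilinearAut.baseAut (θ g) c)
        - (algebraMap F F' t - algebraMap K' F' (val (θ g • w)))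
        = algebraMap K' F' (val (θ g • w) - SemilinearAut.baseAut (θ g) c) := by
      rw [map_sub]; ring
    rw [heq] at h3
    exact sub_eq_zero.mp h3.const_eq_zero
  have hfin : (Set.range fun g : G => SemilinearAut.baseAut (θ g) c).Finite := by
    refine (hw.image val).subset ?_
    rintro _ ⟨g, rfl⟩
    exact ⟨θ g • w, ⟨g, rfl⟩, hval g⟩
  obtain ⟨c₀, rfl⟩ := hθ.finite_orbit c hfin
  have hne : t - algebraMap K F c₀ ≠ 0 := by
    intro h
    rw [sub_eq_zero] at h
    exact ht (h ▸ isAlgebraic_algebraMap c₀)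
  have hmap : algebraMap F F' (t - algebraMap K F c₀)
      = algebraMap F F' t - algebraMap K' F' (algebraMap K K' c₀) := by
    rw [map_sub, ← IsScalarTower.algebraMap_apply, ← IsScalarTower.algebraMap_apply]
  have h0 := hr (t - algebraMap K F c₀)
  rw [rord, hmap] at h0
  rcases hcm with h | h
  · rw [← hmap] at h
    exact hne ((algebraMap F F').injective (by rw [h, map_zero]))
  · omega

/-- A divisor supported on base-changed places is a base change. -/
theorem exists_bcDiv_eq (E : Divisor K' F')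
    (hE : ∀ w ∈ E.support, w ∈ Set.range (bcPlace K' F' ht)) :
    ∃ E₀ : Divisor K F, bcDiv K' F' ht E₀ = E := by
  classical
  refine ⟨Finsupp.comapDomain (bcPlace K' F' ht) E (bcPlace_injective ht).injOn, ?_⟩
  exact Finsupp.mapDomain_comapDomain _ (bcPlace_injective ht) E (fun w hw => hE w hw)

end Places

section Main

open Fermat.Agent.Lib.RR in
include hθ in
/-- **Descent of divisor classes with finite orbit.**  A divisor of degree `0` of `F'` whose class
has finite orbit under `G` is linearly equivalent to the base change of a divisor of `F`. -/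
theorem exists_bcDiv_sub_principal (D' : Divisor K' F') (hdeg : Divisor.degree D' = 0)
    (hfin : ∃ s : Finset G, ∀ g : G, ∃ h ∈ s,
      θ g • D' - θ h • D' ∈ Divisor.principal (K := K') (F := F')) :
    ∃ D₀ : Divisor K F, Divisor.degree D₀ = 0 ∧
      ∃ u : F', u ≠ 0 ∧ ∀ w : Place K' F', bcDiv K' F' ht D₀ w = D' w + w.ord u := by
  classical
  have hfd := finiteDimensional_adjoin_algebraMap (K := K) (K' := K') (F' := F') t
  have ht' := transcendental_algebraMap (K' := K') (F' := F') ht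
  have : FF1 K' F' := H443.ff1_of_isAlgClosed ht'
  obtain ⟨v₀, _⟩ := exists_ord_pos (K := K) ht
  set P := bcPlace K' F' ht v₀ with hP
  -- `n` minimal with `ℓ(D' + n P) ≥ 1`
  have hex : ∃ n : ℕ, 1 ≤ ell (D' + n • prim P) := by
    refine ⟨genusR K' F', ?_⟩
    have h := riemann_inequality (D' + (genusR K' F') • prim P)
    rw [map_add, map_nsmul, degree_prim', hdeg] at h
    simp only [zero_add, nsmul_eq_mul, mul_one] at h
    omega
  set n := Nat.find hex with hn_def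
  have hn : 1 ≤ ell (D' + n • prim P) := Nat.find_spec hex
  have hle : ell (D' + n • prim P) ≤ 1 := by
    rcases Nat.eq_zero_or_pos n with h0 | hpos
    · rw [h0, zero_smul, add_zero]
      have := ell_le_degree_add_one (D := D') (by omega)
      omega
    · obtain ⟨m, hm⟩ := Nat.exists_eq_succ_of_ne_zero hpos.ne'
      have hmin := Nat.find_min hex (m := m) (by omega)
      have := ell_add_prim_le (D' + m • prim P) P
      rw [add_assoc, ← succ_nsmul, ← Nat.succ_eq_add_one, ← hm] at this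
      omega
  have hone : Module.finrank K' (riemannRochSpace (D' + n • prim P)) = 1 := le_antisymm hle hn
  obtain ⟨⟨u, hu⟩, hu0, hspan⟩ := finrank_eq_one_iff'.mp hone
  have hu0' : u ≠ 0 := fun h => hu0 (Subtype.ext h)
  -- the effective divisor
  have hEnn : ∀ w : Place K' F', 0 ≤ D' w + (n • prim P) w + w.ord u := by
    intro w
    have := (mem_L_iff.mp hu w).resolve_left hu0'
    simp only [Finsupp.coe_add, Pi.add_apply] at this
    omega
  -- `P` is fixed
  have hPfix : ∀ g : G, θ g • (n • prim P) = n • prim P := by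
    intro g
    rw [smul_comm, prim, SemilinearAut.smul_single, hP, smul_bcPlace hθ]
  have hPfix' : ∀ (g : G) (w : Place K' F'), (n • prim P) ((θ g)⁻¹ • w) = (n • prim P) w := by
    intro g w
    rw [← SemilinearAut.divisor_smul_apply, hPfix]
  -- invariance of `E` under the stabiliser of the class
  have hstab : ∀ k : G, θ k • D' - D' ∈ Divisor.principal (K := K') (F := F') →
      ∀ w : Place K' F', ((θ k)⁻¹ • w).ord u + D' ((θ k)⁻¹ • w) = w.ord u + D' w := by
    rintro k ⟨y, hy0, hy⟩ w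
    have hku0 : θ k • u ≠ 0 := by
      rw [SemilinearAut.smul_def]; simpa using hu0'
    have hmem : y * (θ k • u) ∈ riemannRochSpace (D' + n • prim P) := by
      rw [mem_L_iff]
      intro w'
      right
      rw [w'.ord_mul hy0 hku0, ← hy w', ord_smul_eq]
      have h1 := hEnn ((θ k)⁻¹ • w')
      rw [hPfix'] at h1
      simp only [Finsupp.coe_add, Pi.add_apply, Finsupp.coe_sub, Pi.sub_apply,
        SemilinearAut.divisor_smul_apply]
      omega
    obtain ⟨c, hc⟩ := hspan ⟨_, hmem⟩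
    have hc' : algebraMap K' F' c * u = y * (θ k • u) := by
      have := congrArg Subtype.val hc
      simpa [Algebra.smul_def] using this
    have hc0 : c ≠ 0 := by
      rintro rfl
      rw [map_zero, zero_mul] at hc'
      exact mul_ne_zero hy0 hku0 hc'.symm
    have hcF : algebraMap K' F' c ≠ 0 := by simpa using hc0
    have h2 : w.ord u = w.ord y + w.ord (θ k • u) := by
      rw [← w.ord_mul hy0 hku0, ← hc', w.ord_mul hcF hu0', Fermat.Agent.S24.FF.ord_algebraMap,
        zero_add]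
    have h3 := hy w
    simp only [Finsupp.coe_sub, Pi.sub_apply, SemilinearAut.divisor_smul_apply] at h3
    rw [ord_smul_eq] at h2
    omega
  -- the effective divisor `E`
  set E : Divisor K' F' := D' + n • prim P + divOf u hu0' with hE
  have hEapp : ∀ w : Place K' F', E w = D' w + (n • prim P) w + w.ord u := by
    intro w
    rw [hE]
    simp only [Finsupp.coe_add, Pi.add_apply, divOf_apply]
  have hEstab : ∀ k : G, θ k • D' - D' ∈ Divisor.principal (K := K') (F := F') →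
      θ k • E = E := by
    intro k hk
    ext w
    rw [SemilinearAut.divisor_smul_apply, hEapp, hEapp, hPfix']
    have := hstab k hk w
    omega
  have hEeq : ∀ g h : G, θ g • D' - θ h • D' ∈ Divisor.principal (K := K') (F := F') →
      θ g • E = θ h • E := by
    intro g h hgh
    have h1 := SemilinearAut.smul_mem_principal (θ h)⁻¹ hgh
    rw [smul_sub, inv_smul_smul, ← mul_smul, ← map_inv, ← map_mul] at h1
    have h2 := hEstab _ h1
    rw [map_mul, mul_smul, map_inv, inv_smul_eq_iff] at h2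
    exact h2
  obtain ⟨s, hs⟩ := hfin
  have horb : ∀ w ∈ E.support, w ∈ Set.range (bcPlace K' F' ht) := by
    intro w hw
    apply mem_range_bcPlace_of_finite_orbit hθ ht
    have hfinite : (⋃ h ∈ s, ((θ h • E).support : Set (Place K' F'))).Finite :=
      s.finite_toSet.biUnion fun h _ => (θ h • E).support.finite_toSet
    refine hfinite.subset ?_
    rintro _ ⟨g, rfl⟩
    obtain ⟨h, hhs, hgh⟩ := hs g
    simp only [Set.mem_iUnion, Finset.mem_coe, Finsupp.mem_support_iff]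
    refine ⟨h, hhs, ?_⟩
    rw [← hEeq g h hgh, SemilinearAut.divisor_smul_apply_smul]
    exact Finsupp.mem_support_iff.mp hw
  obtain ⟨E₀, hE₀⟩ := exists_bcDiv_eq ht E horb
  refine ⟨E₀ - n • Finsupp.single v₀ 1, ?_, u, hu0', fun w => ?_⟩
  · rw [← degree_bcDiv (K' := K') (F' := F') ht, map_sub, hE₀, map_nsmul, bcDiv_single, hE,
      map_sub, map_add, map_add, degree_divOf, hdeg, map_nsmul, map_nsmul]
    simp [prim, hP]
  · rw [map_sub, hE₀, map_nsmul, bcDiv_single, Finsupp.sub_apply, hEapp]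
    simp only [prim, hP]
    ring

end Main

section Kummer

/-- Representatives of the fibres of a map to a finite type. -/
theorem exists_finset_rep {G X : Type*} [Finite X] (χ : G → X) :
    ∃ s : Finset G, ∀ g : G, ∃ h ∈ s, χ g = χ h := by
  classical
  haveI : Fintype (Set.range χ) := Fintype.ofFinite _
  let r : Set.range χ → G := fun x => x.2.choose
  have hr : ∀ x : Set.range χ, χ (r x) = x := fun x => x.2.choose_spec
  refine ⟨Finset.univ.image r, fun g => ⟨r ⟨χ g, g, rfl⟩, ?_, ?_⟩⟩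
  · exact Finset.mem_image_of_mem _ (Finset.mem_univ _)
  · exact (hr ⟨χ g, g, rfl⟩).symm

open Fermat.Agent.Lib.RR in
include hθ ht in
/-- **Descent of Kummer functions.**  Let `f' ∈ F'` have a divisor divisible by `p`, and assume
that the conjugates `σ f'` fall into finitely many classes modulo `K'ˣ (F'ˣ)^p`.  Then
`f' = ι(f) * y ^ p` with `f ∈ F` (whose divisor is again divisible by `p`). -/
theorem exists_descent_of_dvd_ord {p : ℕ} (hp : p ≠ 0) {f' : F'} (hf' : f' ≠ 0)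
    (hdvd : ∀ w : Place K' F', (p : ℤ) ∣ w.ord f')
    (hfin : ∃ s : Finset G, ∀ g : G, ∃ h ∈ s, ∃ u : F', u ≠ 0 ∧
      ∀ w : Place K' F', w.ord (θ g • f') = w.ord (θ h • f') + p * w.ord u) :
    ∃ (f : F) (y : F'), f ≠ 0 ∧ y ≠ 0 ∧ f' = algebraMap F F' f * y ^ p ∧
      ∀ v : Place K F, (p : ℤ) ∣ v.ord f := by
  classical
  have hfd := finiteDimensional_adjoin_algebraMap (K := K) (K' := K') (F' := F') t
  have ht' := transcendental_algebraMap (K' := K') (F' := F') ht
  have : FF1 K' F' := H443.ff1_of_isAlgClosed ht'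
  have hpZ : (p : ℤ) ≠ 0 := by exact_mod_cast hp
  set D' : Divisor K' F' := Finsupp.mapRange (fun k : ℤ => k / (p : ℤ)) (by simp)
    (divOf f' hf') with hD'
  have hD'app : ∀ w : Place K' F', (p : ℤ) * D' w = w.ord f' := by
    intro w
    rw [hD', Finsupp.mapRange_apply, divOf_apply]
    exact Int.mul_ediv_cancel' (hdvd w)
  have hdeg : Divisor.degree D' = 0 := by
    have h1 : p • D' = divOf f' hf' := by
      ext w
      rw [Finsupp.smul_apply, nsmul_eq_mul, hD'app, divOf_apply]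
    have h2 : Divisor.degree (p • D') = 0 := by rw [h1, degree_divOf]
    rw [map_nsmul, nsmul_eq_mul] at h2
    rcases mul_eq_zero.mp h2 with h | h
    · exact absurd h hpZ
    · exact h
  have hfin' : ∃ s : Finset G, ∀ g : G, ∃ h ∈ s,
      θ g • D' - θ h • D' ∈ Divisor.principal (K := K') (F := F') := by
    obtain ⟨s, hs⟩ := hfin
    refine ⟨s, fun g => ?_⟩
    obtain ⟨h, hhs, u, hu0, hu⟩ := hs g
    refine ⟨h, hhs, u, hu0, fun w => ?_⟩
    have h1 := hu w
    rw [ord_smul_eq, ord_smul_eq, ← hD'app, ← hD'app] at h1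
    simp only [Finsupp.coe_sub, Pi.sub_apply, SemilinearAut.divisor_smul_apply]
    have h2 : (p : ℤ) * (D' ((θ g)⁻¹ • w) - D' ((θ h)⁻¹ • w)) = (p : ℤ) * w.ord u := by
      rw [mul_sub]; omega
    exact mul_left_cancel₀ hpZ h2
  obtain ⟨D₀, -, u, hu0, hu⟩ := exists_bcDiv_sub_principal hθ ht D' hdeg hfin'
  have hup0 : u ^ p ≠ 0 := pow_ne_zero _ hu0
  have hx0 : f' * u ^ p ≠ 0 := mul_ne_zero hf' hup0
  have hx : ∀ w : Place K' F', bcDiv K' F' ht (p • D₀) w = w.ord (f' * u ^ p) := by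
    intro w
    rw [map_nsmul, Finsupp.smul_apply, nsmul_eq_mul, hu, w.ord_mul hf' hup0,
      Fermat.Agent.S24.H117.ord_pow,
      mul_add, hD'app]
  obtain ⟨c, f, hc0, hf0, hxf⟩ := exists_algebraMap_of_bcDiv_eq hθ ht hx0 hx
  obtain ⟨c₁, hc₁⟩ := IsAlgClosed.exists_pow_nat_eq c (Nat.pos_of_ne_zero hp)
  have hc₁0 : c₁ ≠ 0 := by
    rintro rfl
    rw [zero_pow hp] at hc₁
    exact hc0 hc₁.symm
  have hc₁F : algebraMap K' F' c₁ ≠ 0 := by simpa using hc₁0
  have hfF : algebraMap F F' f ≠ 0 := by simpa using hf0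
  have hy0 : algebraMap K' F' c₁ / u ≠ 0 := div_ne_zero hc₁F hu0
  have hfy : f' = algebraMap F F' f * (algebraMap K' F' c₁ / u) ^ p := by
    rw [div_pow, ← map_pow, hc₁]
    field_simp
    rw [hxf]
    ring
  refine ⟨f, algebraMap K' F' c₁ / u, hf0, hy0, hfy, fun v => ?_⟩
  have h1 := hdvd (bcPlace K' F' ht v)
  rw [hfy, (bcPlace K' F' ht v).ord_mul hfF (pow_ne_zero _ hy0), ord_bcPlace,
    Fermat.Agent.S24.H117.ord_pow] at h1
  exact (Int.dvd_add_left (dvd_mul_right _ _)).mp h1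

end Kummer

end Fermat.Agent.S29.H871

end
end
-- ===== PACK-END S29/H871/Surj.lean

-- ===== PACK-BEGIN S38/H681/FreeOdd.lean
section





/-!
# FREE for EVERY odd `p`, generic index type (helper681)

`h681_free_of_isLocPart_odd`: `N₀ ≠ 0`, `qq : ι → ℕ` a finite family of distinct primes
(`ι` ANY finite type: `Fin r`, `Fin k ⊕ Fin r`, …), `K = KG p N₀ qq = ker (Γ₀(M) → Δ)`,
`V` a localisation of `X_K(𝒪)` (`Aut.IsLocPart`, ANY `Tset`, `Uset`), a non-Eisenstein pair
`(ℓ, c) ∈ Tset` (`ℓ ∤ M`, `c - (ℓ + 1)` a unit) and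

* either `5 ≤ p`,
* or `p = 3` and an auxiliary pair `(r', c') ∈ Tset`, `r' ∤ M`, `r' ≡ 2 mod 3`, `c'` a unit.

Then `V` is free over `𝒪[Δ]`: there is `d` such that for every family `a : E → ∏ (ℤ/qq s)ˣ`
inducing a bijection `E → Δ`, `V` has an `𝒪`-basis `⟨a e⟩ b_i` (`i < d`, `e ∈ E`).

This is the generic-index form of `S59.TW.Aut.H779.free_of_isLocPart_h779` (which is stated for
`Fin r`-indexed families, `KQ`), and the all-odd-`p` form of the `5 ≤ p` cores used for the leaf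
IA-FREE of row HARD.  Proof: `MFree.H779.freeFive_heckeKer_h779` / `freeAux3_heckeKer_h779`
(both on main, general `κ`) at `κ = gKappa`, `e` = the projector of `V`, `t = T_ℓ`.
-/

set_option autoImplicit false

open Polynomial IsLocalRing CongruenceSubgroup
open scoped MatrixGroups

namespace Fermat.Agent.S38.H681

open Fermat.Agent.S59.TW.H653 Fermat.Agent.S59.TW.Aut Fermat.Agent.S59.MFree
open Fermat.Agent.S38.IA.Hecke

section Dia

variable (p N₀ : ℕ) {ι : Type} [Fintype ι] (qq : ι → ℕ) {A : Type} [AddCommGroup A]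

/-- The diamond operator of an element of `ker (gChi)` is trivial on `X_K`. -/
theorem h681_diamondU_of_gChi [NeZero (gLevel N₀ qq)] {u : (ZMod (gLevel N₀ qq))ˣ}
    (hu : gChi p N₀ qq u = 1) (x : Additive (KG p N₀ qq) →+ A) :
    diamondU (isMid_KG p N₀ qq) u x = x := by
  have h := diamondHom_GammaH (A := A) (M := gLevel N₀ qq) (H := (gChi p N₀ qq).ker)
    (u := u) (MonoidHom.mem_ker.mpr hu)
  have h2 := congrArg (fun f : AddMonoid.End (Additive (GammaH (gLevel N₀ qq)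
    (gChi p N₀ qq).ker) →+ A) => f x) h
  exact h2

/-- The diamond operator of `KG` depends only on the class in `Δ`. -/
theorem h681_diamondU_eq_of_gChi [NeZero (gLevel N₀ qq)] {u u' : (ZMod (gLevel N₀ qq))ˣ}
    (hu : gChi p N₀ qq u = gChi p N₀ qq u') (x : Additive (KG p N₀ qq) →+ A) :
    diamondU (isMid_KG p N₀ qq) u x = diamondU (isMid_KG p N₀ qq) u' x := by
  have h1 : u = u' * (u'⁻¹ * u) := by group
  have h2 : gChi p N₀ qq (u'⁻¹ * u) = 1 := by
    rw [map_mul, map_inv, hu, inv_mul_cancel]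
  rw [h1, diamondU_mul, h681_diamondU_of_gChi p N₀ qq h2]

/-- The diamond operator `⟨a⟩` of `KG` in the vocabulary of block M-FREE. -/
theorem h681_diamondU_gLift_eq_conjAct [NeZero (gLevel N₀ qq)]
    (hsurj : Function.Surjective (gRed N₀ qq))
    (a : ∀ s : ι, (ZMod (qq s))ˣ) (γ : Gamma0 (gLevel N₀ qq))
    (hγ : gKappa p N₀ qq γ = (QuotientGroup.mk a)⁻¹)
    (x : Additive (kerSub (gKappa p N₀ qq)) →+ A) :
    diamondU (isMid_KG p N₀ qq) (gLift N₀ qq a) x = conjAct (gKappa p N₀ qq) γ x := by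
  rw [conjAct_eq_diamond (gKappa p N₀ qq) (h681_gKappa_of_d_eq_one p N₀ qq) γ x]
  rw [diamond_eq_diamondU]
  apply h681_diamondU_eq_of_gChi
  have h1 : gChi p N₀ qq (gLift N₀ qq a) = QuotientGroup.mk a := by
    rw [h681_gChi_apply, gRed_gLift N₀ qq (hsurj a)]
  have h2 : gChi p N₀ qq (dUnit (gLevel N₀ qq) γ⁻¹) = QuotientGroup.mk a := by
    rw [← h681_gKappa_apply, map_inv, hγ]
    exact inv_inv (QuotientGroup.mk a : GDelta p qq)
  exact h1.trans h2.symm

end Dia

section LinAlg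

variable {𝒪 : Type} [CommRing 𝒪] {X : Type} [AddCommGroup X] [Module 𝒪 X]
  {D E : Type} [Fintype E]

/-- Unique coefficients with respect to a linearly independent family indexed by `D × Fin n`,
re-indexed along a bijection `ε : E → D`. -/
theorem h681_existsUnique_coeff {n : ℕ} (F : D × Fin n → X)
    (hli : LinearIndependent 𝒪 F) (ε : E → D) (hε : Function.Bijective ε) (y : X)
    (hy : y ∈ Submodule.span 𝒪 (Set.range F)) :
    ∃! c : Fin n → E → 𝒪, y = ∑ i, ∑ e, c i e • F (ε e, i) := by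
  classical
  let φ : Fin n × E → D × Fin n := fun z => (ε z.2, z.1)
  have hφ : Function.Bijective φ := by
    constructor
    · rintro ⟨i, e⟩ ⟨i', e'⟩ h
      have h1 : ε e = ε e' := congrArg Prod.fst h
      have h2 : i = i' := congrArg Prod.snd h
      rw [hε.1 h1, h2]
    · rintro ⟨d, i⟩
      obtain ⟨e, rfl⟩ := hε.2 d
      exact ⟨(i, e), rfl⟩
  have hG : LinearIndependent 𝒪 (F ∘ φ) := hli.comp φ hφ.1
  have hrange : Set.range (F ∘ φ) = Set.range F := by
    rw [Set.range_comp, hφ.2.range_eq, Set.image_univ]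
  have hsum : ∀ c : Fin n → E → 𝒪,
      ∑ i, ∑ e, c i e • F (ε e, i) = ∑ z : Fin n × E, c z.1 z.2 • (F ∘ φ) z := by
    intro c
    rw [Fintype.sum_prod_type]
    rfl
  rw [← hrange] at hy
  obtain ⟨c₀, hc₀⟩ := (Submodule.mem_span_range_iff_exists_fun 𝒪).mp hy
  refine ⟨fun i e => c₀ (i, e), ?_, ?_⟩
  · show y = ∑ i, ∑ e, c₀ (i, e) • F (ε e, i)
    rw [hsum (fun i e => c₀ (i, e)), ← hc₀]
  · intro c hc
    rw [hsum c, ← hc₀] at hc
    have hzero : ∑ z : Fin n × E, (c z.1 z.2 - c₀ z) • (F ∘ φ) z = 0 := by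
      simp only [sub_smul, Finset.sum_sub_distrib]
      rw [← hc, sub_self]
    have := Fintype.linearIndependent_iff.mp hG (fun z => c z.1 z.2 - c₀ z) hzero
    funext i e
    exact sub_eq_zero.mp (this (i, e))

end LinAlg

section Generic

variable {p : ℕ} [hpF : Fact p.Prime] (N₀ : ℕ) {ι : Type} [Fintype ι] (qq : ι → ℕ)
  {𝒪 : Type} [CommRing 𝒪] [IsDomain 𝒪] [IsDiscreteValuationRing 𝒪] [CharZero 𝒪]

/-- **FREE, generic index type, all odd `p`.** -/
theorem h681_free_of_isLocPart_odd (hN₀ : N₀ ≠ 0) (hinj : Function.Injective qq)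
    (hprime : ∀ s, (qq s).Prime) (hp𝒪 : ¬ IsUnit (p : 𝒪))
    {Tset Uset : Set (ℕ × 𝒪)} {V : Submodule 𝒪 (Additive (KG p N₀ qq) →+ 𝒪)}
    (hV : IsLocPart (isMid_KG p N₀ qq) Tset Uset V)
    {ℓ : ℕ} (hℓ : ℓ.Prime) (hℓM : ¬ ℓ ∣ gLevel N₀ qq) {c : 𝒪} (hmem : (ℓ, c) ∈ Tset)
    (hu : IsUnit (c - ((ℓ : 𝒪) + 1)))
    (hcase : 5 ≤ p ∨ (p = 3 ∧ ∃ (r' : ℕ) (c' : 𝒪), r'.Prime ∧ ¬ r' ∣ gLevel N₀ qq ∧
      r' % 3 = 2 ∧ (r', c') ∈ Tset ∧ IsUnit c')) :
    ∃ d : ℕ, ∀ (E : Type) [Fintype E] (a : E → ∀ s : ι, (ZMod (qq s))ˣ),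
      Function.Bijective (fun e => (QuotientGroup.mk (a e) : GDelta p qq)) →
      ∃ b : Fin d → V, ∀ y : V, ∃! c : Fin d → E → 𝒪,
        (y : Additive (KG p N₀ qq) →+ 𝒪) =
          ∑ i, ∑ e, c i e • diamondU (isMid_KG p N₀ qq) (gLift N₀ qq (a e))
            (b i : Additive (KG p N₀ qq) →+ 𝒪) := by
  classical
  have hM : NeZero (gLevel N₀ qq) := ⟨h681_gLevel_ne_zero N₀ qq hN₀ hprime⟩
  have : Fact ℓ.Prime := ⟨hℓ⟩
  have hred := h681_gRed_surjective N₀ qq hN₀ hinj hprime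
  have hκ := h681_gKappa_surjective p N₀ qq hred
  letI : Fintype (GDelta p qq) := Fintype.ofFinite _
  have hcard : ∃ a : ℕ, Fintype.card (GDelta p qq) = p ^ a := by
    obtain ⟨a, ha⟩ := h681_card_gDelta p qq
    exact ⟨a, by rw [← Nat.card_eq_fintype_card]; exact ha⟩
  have hΓ1 := h681_gKappa_of_d_eq_one p N₀ qq
  obtain ⟨e, he, heV, hVe, hT, -, hD, -⟩ := hV.exists_proj
  obtain ⟨hsurj, hinj'⟩ := Fermat.Agent.S59.TW.Aut.H31.locPart_TK_sub_bij_h31 hV hℓM hmem hu
  have hTK : ∀ (l : ℕ) [Fact l.Prime] (hl : ¬ l ∣ gLevel N₀ qq)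
      (x : Additive (kerSub (gKappa p N₀ qq)) →+ 𝒪),
      H587.heckeKerLin hl (gKappa p N₀ qq) hΓ1 𝒪 x = TK (gLevel N₀ qq) (KG p N₀ qq) l x :=
    fun l _ hl x => heckeKer_eq_TK hl (gKappa p N₀ qq) hΓ1 x
  have hconj : ∀ (g : Gamma0 (gLevel N₀ qq)) (z : Additive (kerSub (gKappa p N₀ qq)) →+ 𝒪),
      conjAct (gKappa p N₀ qq) g z =
        diamondU (isMid_KG p N₀ qq) (dUnit (gLevel N₀ qq) g⁻¹) z := by
    intro g z
    rw [conjAct_eq_diamond (gKappa p N₀ qq) hΓ1 g z, diamond_eq_diamondU]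
    rfl
  have het : ∀ x, e (H587.heckeKerLin hℓM (gKappa p N₀ qq) hΓ1 𝒪 x) =
      H587.heckeKerLin hℓM (gKappa p N₀ qq) hΓ1 𝒪 (e x) := fun x =>
    (congrArg e (hTK ℓ hℓM x)).trans ((hT ℓ hℓM x).trans (hTK ℓ hℓM (e x)).symm)
  have hec : ∀ (g : Gamma0 (gLevel N₀ qq)) x,
      e (conjAct (gKappa p N₀ qq) g x) = conjAct (gKappa p N₀ qq) g (e x) := fun g x => by
    have h1 := hconj g x
    have h2 := hconj g (e x)
    have h3 := hD (dUnit (gLevel N₀ qq) g⁻¹) x
    exact (congrArg e h1).trans (h3.trans h2.symm)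
  have hsurj' : ∀ y : Additive (kerSub (gKappa p N₀ qq)) →+ 𝒪, e y = y →
      ∃ x : Additive (kerSub (gKappa p N₀ qq)) →+ 𝒪, e x = x ∧
      H587.heckeKerLin hℓM (gKappa p N₀ qq) hΓ1 𝒪 x - ((ℓ : 𝒪) + 1) • x = y := fun y hy => by
    have hyV : y ∈ V := by rw [← hy]; exact heV y
    obtain ⟨x, hxV, hx⟩ := hsurj y hyV
    refine ⟨x, hVe x hxV, ?_⟩
    rw [hTK ℓ hℓM x]
    exact hx
  have hinj'' : ∀ x : Additive (kerSub (gKappa p N₀ qq)) →+ 𝒪, e x = x →
      H587.heckeKerLin hℓM (gKappa p N₀ qq) hΓ1 𝒪 x - ((ℓ : 𝒪) + 1) • x = 0 → x = 0 :=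
    fun x hx h0 => by
      have hxV : x ∈ V := by rw [← hx]; exact heV x
      rw [hTK ℓ hℓM x] at h0
      exact hinj' x hxV h0
  have hfc : FreeConclusion (gKappa p N₀ qq) 𝒪 e := by
    rcases hcase with hp5 | ⟨hp3, r', c', hr', hr'M, hr'3, hmem', hc'⟩
    · exact H779.freeFive_heckeKer_h779 p (gLevel N₀ qq) ℓ hp5 hℓM hM.ne (GDelta p qq)
        (gKappa p N₀ qq) hκ hcard hΓ1 𝒪 hp𝒪 e he het hec hsurj' hinj''
    · subst hp3
      have : Fact r'.Prime := ⟨hr'⟩
      have hu0 : IsUnit (c' - 0) := by rwa [sub_zero]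
      obtain ⟨hsurjr, -⟩ :=
        Fermat.Agent.S59.TW.Aut.H31.locPart_TK_sub_bij_h31 hV hr'M hmem' hu0
      refine H779.freeAux3_heckeKer_h779 (gLevel N₀ qq) ℓ r' hℓM hr'M hr'3 hM.ne
        (GDelta 3 qq) (gKappa 3 N₀ qq) hκ hcard hΓ1 𝒪 (by simpa using hp𝒪) e he het hec
        hsurj' hinj''
        (fun x => (congrArg e (hTK r' hr'M x)).trans
          ((hT r' hr'M x).trans (hTK r' hr'M (e x)).symm)) ?_
      intro y hy
      have hyV : y ∈ V := by rw [← hy]; exact heV y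
      obtain ⟨x, hxV, hx⟩ := hsurjr y hyV
      rw [zero_smul, sub_zero] at hx
      exact ⟨x, hVe x hxV, (hTK r' hr'M x).trans hx⟩
  obtain ⟨⟨n, b, hb, hfree⟩, -, -⟩ := hfc
  refine ⟨n, fun E _ a ha => ?_⟩
  choose s hs using hκ
  obtain ⟨hli, hspan⟩ := hfree s hs
  refine ⟨fun i => ⟨b i, by rw [← hb i]; exact heV _⟩, fun y => ?_⟩
  have hε : Function.Bijective
      (fun e' : E => ((QuotientGroup.mk (a e') : GDelta p qq))⁻¹) :=
    (Equiv.inv (GDelta p qq)).bijective.comp ha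
  have key := h681_existsUnique_coeff
    (fun z : GDelta p qq × Fin n => conjAct (gKappa p N₀ qq) (s z.1) (b z.2)) hli
    (fun e' : E => ((QuotientGroup.mk (a e') : GDelta p qq))⁻¹) hε
    (y : Additive (KG p N₀ qq) →+ 𝒪) (hspan _ (hVe _ y.2))
  have hrew : ∀ (e' : E) (i : Fin n),
      conjAct (gKappa p N₀ qq) (s ((QuotientGroup.mk (a e') : GDelta p qq))⁻¹) (b i) =
        diamondU (isMid_KG p N₀ qq) (gLift N₀ qq (a e')) (b i) :=
    fun e' i => (h681_diamondU_gLift_eq_conjAct p N₀ qq hred (a e') _ (hs _) (b i)).symm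
  simp only [hrew] at key
  exact key

end Generic

end Fermat.Agent.S38.H681

end
-- ===== PACK-END S38/H681/FreeOdd.lean

-- ===== PACK-BEGIN S35/H504/Tame.lean
section




/-!
# S35 / piece (T) `TameStatement` (helper504)

Piece (T) of `origin/helper991:coord/S35-helper991.md`: the **tame relation on torsion of `J₀(N)`**.

For a prime `q`, a valuation subring `A` of `ℚ̄` over `q`, `τ` in the inertia group of `A`, a
Frobenius lift `s` at `A`, and `x : JZero N` with `m • x = 0`, `m` prime to `q`: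

  `(s * τ * s⁻¹) • x = τ ^ q • x`,

PROVIDED inertia at `q` acts unipotently on the `m`-torsion (`hU : A2.Target N q m`, the wall A2,
input (U) of S34).

Proof: the permutation representation `π` of `G_ℚ` on the Galois orbit of `x` has finite level
(`S17.H126.stabilizer_open` + normal closure), `π(σ)^m = 1` for `σ` in the inertia group by (U)
(`σ ^ k • y = y + k • (σ • y - y)`), so `S56.H186.tame_frobenius` applies.

* `tame_of_target`      : general `m` prime to `q`;
* `tame_of_target_pow`  : the form (T) of the S35 board (`p`-power torsion, `p ≠ q` prime);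
* `pow_smul_eq_of_target` : `σ ^ k • y = y + k • (σ • y - y)` for `σ` in inertia, `m • y = 0`;
* `pow_torsion_smul_eq_self_of_target` : `σ ^ m • y = y`.
-/

set_option autoImplicit false

noncomputable section

namespace Fermat.Agent.S35.H504

open ModularCurve AlgebraicCurve

/-- `ℚ̄` -/
local notation "Qbar" => AlgebraicClosure ℚ

/-- `G_ℚ` -/
local notation "GQbar" => (AlgebraicClosure ℚ ≃ₐ[ℚ] AlgebraicClosure ℚ)

variable {N : ℕ}

/-- The Galois action commutes with multiplication by integers. -/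
theorem galois_smul_nsmul (g : GQbar) (m : ℕ) (y : JZero N) : g • (m • y) = m • (g • y) :=
  map_nsmul (DistribSMul.toAddMonoidHom (JZero N) g) m y

theorem galois_smul_zero (g : GQbar) : g • (0 : JZero N) = 0 :=
  smul_zero (A := JZero N) g

theorem galois_smul_add (g : GQbar) (a b : JZero N) : g • (a + b) = g • a + g • b :=
  smul_add g a b

theorem galois_smul_sub (g : GQbar) (a b : JZero N) : g • (a - b) = g • a - g • b :=
  smul_sub g a b

theorem galois_mul_smul (g h : GQbar) (a : JZero N) : (g * h) • a = g • (h • a) :=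
  mul_smul g h a

theorem galois_one_smul (a : JZero N) : (1 : GQbar) • a = a :=
  one_smul _ a

/-- The Galois action preserves `m`-torsion. -/
theorem nsmul_galois_smul_eq_zero {m : ℕ} (g : GQbar) {y : JZero N} (hy : m • y = 0) :
    m • (g • y) = 0 := by
  rw [← galois_smul_nsmul g m y, hy, galois_smul_zero]

/-- **Unipotent iteration.**  If `σ • σ • y + y = 2 • σ • y` then
`σ ^ k • y = y + k • (σ • y - y)` for all `k`. -/
theorem pow_smul_eq_of_unipotent (σ : GQbar) (y : JZero N)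
    (h : σ • (σ • y) + y = 2 • (σ • y)) (k : ℕ) :
    (σ ^ k) • y = y + k • (σ • y - y) := by
  -- `σ` fixes `d := σ y - y`
  have hd : σ • (σ • y - y) = σ • y - y := by
    rw [galois_smul_sub]
    have : σ • (σ • y) = 2 • (σ • y) - y := eq_sub_of_add_eq h
    rw [this, two_nsmul]
    abel
  induction k with
  | zero => rw [pow_zero, galois_one_smul, zero_nsmul, add_zero]
  | succ k ih =>
    rw [pow_succ', galois_mul_smul, ih, galois_smul_add, galois_smul_nsmul, hd, succ_nsmul]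
    abel

/-- For `σ` in an inertia group at `q` and `y` of `m`-torsion, under (U):
`σ ^ k • y = y + k • (σ • y - y)`. -/
theorem pow_smul_eq_of_target {q m : ℕ} (hU : Fermat.Agent.A2.Target N q m)
    (A : ValuationSubring Qbar) (hA : A.LiesOverPrime q) {σ : GQbar}
    (hσ : σ ∈ A.inertiaSubgroupIn ℚ) {y : JZero N} (hy : m • y = 0) (k : ℕ) :
    (σ ^ k) • y = y + k • (σ • y - y) :=
  pow_smul_eq_of_unipotent σ y (hU A hA σ hσ y hy) k

/-- Under (U), `σ ^ m` fixes the `m`-torsion, for `σ` in an inertia group at `q`. -/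
theorem pow_torsion_smul_eq_self_of_target {q m : ℕ} (hU : Fermat.Agent.A2.Target N q m)
    (A : ValuationSubring Qbar) (hA : A.LiesOverPrime q) {σ : GQbar}
    (hσ : σ ∈ A.inertiaSubgroupIn ℚ) {y : JZero N} (hy : m • y = 0) :
    (σ ^ m) • y = y := by
  rw [pow_smul_eq_of_target hU A hA hσ hy m, nsmul_sub, hy,
    nsmul_galois_smul_eq_zero σ hy, sub_zero, add_zero]

/-- The permutation representation of `G_ℚ` on the Galois orbit of `x`. -/
def orbitRep (x : JZero N) : GQbar →* Equiv.Perm (MulAction.orbit GQbar x) :=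
  MulAction.toPermHom GQbar (MulAction.orbit GQbar x)

theorem coe_orbitRep_apply (x : JZero N) (σ : GQbar) (y : MulAction.orbit GQbar x) :
    ((orbitRep x σ y : MulAction.orbit GQbar x) : JZero N) = σ • (y : JZero N) :=
  rfl

theorem orbitRep_eq_one_iff (x : JZero N) (σ : GQbar) :
    orbitRep x σ = 1 ↔ ∀ y ∈ MulAction.orbit GQbar x, σ • y = y := by
  constructor
  · intro h y hy
    exact congrArg (fun e : Equiv.Perm (MulAction.orbit GQbar x) =>
      ((e ⟨y, hy⟩ : MulAction.orbit GQbar x) : JZero N)) h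
  · intro h
    ext y
    rw [coe_orbitRep_apply]
    exact h y y.2

/-- The orbit representation has finite level. -/
theorem orbitRep_finiteLevel [NeZero N] (x : JZero N) :
    ∃ E : IntermediateField ℚ Qbar, FiniteDimensional ℚ E ∧
      ∀ σ : GQbar, (∀ a ∈ E, σ a = a) → orbitRep x σ = 1 := by
  obtain ⟨K, hK, hfix⟩ := Fermat.Agent.S17.H126.stabilizer_open N x
  have := hK
  refine ⟨IntermediateField.normalClosure ℚ K Qbar, inferInstance, fun σ hσ => ?_⟩
  rw [orbitRep_eq_one_iff]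
  rintro y ⟨g, rfl⟩
  -- `σ g x = g x` iff `g⁻¹ σ g` fixes `x`
  have hconj : (g⁻¹ * σ * g) • x = x := by
    refine hfix _ fun a ha => ?_
    have hga : g a ∈ IntermediateField.normalClosure ℚ K Qbar := by
      have hle := AlgHom.fieldRange_le_normalClosure
        (((g : Qbar →ₐ[ℚ] Qbar)).comp K.val)
      exact hle ⟨⟨a, ha⟩, rfl⟩
    have := hσ (g a) hga
    show g⁻¹ (σ (g a)) = a
    rw [this]
    exact g.symm_apply_apply a
  show σ • (g • x) = g • x
  calc σ • (g • x) = g • ((g⁻¹ * σ * g) • x) := by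
        rw [galois_mul_smul, galois_mul_smul, ← galois_mul_smul g g⁻¹, mul_inv_cancel,
          galois_one_smul]
    _ = g • x := by rw [hconj]

/-- **(T), general form.**  Under (U) `= A2.Target N q m`, with `m` prime to `q`: a Frobenius
lift `s` at `A ∣ q` conjugates `τ ∈ I_A` to `τ ^ q` on the `m`-torsion of `J₀(N)`. -/
theorem tame_of_target [NeZero N] {q m : ℕ} (hq : q.Prime) (hmq : Nat.Coprime m q)
    (hU : Fermat.Agent.A2.Target N q m)
    (A : ValuationSubring Qbar) (hA : A.LiesOverPrime q)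
    {τ : GQbar} (hτ : τ ∈ A.inertiaSubgroupIn ℚ)
    {s : GQbar} (hs : A.IsFrobeniusAt s q)
    (x : JZero N) (hx : m • x = 0) :
    (s * τ * s⁻¹) • x = (τ ^ q) • x := by
  have htors : ∀ y ∈ MulAction.orbit GQbar x, m • y = 0 := by
    rintro y ⟨g, rfl⟩
    exact nsmul_galois_smul_eq_zero g hx
  have hp : ∀ σ ∈ A.inertiaSubgroupIn ℚ, ∃ a : ℕ, orbitRep x σ ^ (m ^ a) = 1 := by
    intro σ hσ
    refine ⟨1, ?_⟩
    rw [pow_one, ← map_pow, orbitRep_eq_one_iff]
    intro y hy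
    exact pow_torsion_smul_eq_self_of_target hU A hA hσ (htors y hy)
  have key := Fermat.Agent.S56.H186.tame_frobenius A (orbitRep x) hA hq
    (orbitRep_finiteLevel x) hmq hp hs hτ
  rw [← map_pow] at key
  exact congrArg (fun e : Equiv.Perm (MulAction.orbit GQbar x) =>
    ((e ⟨x, MulAction.mem_orbit_self x⟩ : MulAction.orbit GQbar x) : JZero N)) key

/-- **(T), board form** (`origin/helper991:coord/S35-helper991.md` §2 (T)): `p`-power torsion,
`p ≠ q` primes, with (U) for all powers of `p`. -/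
theorem tame_of_target_pow [NeZero N] {q p : ℕ} (hq : q.Prime) (hp : p.Prime) (hpq : p ≠ q)
    (hU : ∀ n : ℕ, Fermat.Agent.A2.Target N q (p ^ n))
    (A : ValuationSubring Qbar) (hA : A.LiesOverPrime q)
    {τ : GQbar} (hτ : τ ∈ A.inertiaSubgroupIn ℚ)
    {s : GQbar} (hs : A.IsFrobeniusAt s q)
    (x : JZero N) (hx : ∃ n : ℕ, p ^ n • x = 0) :
    (s * τ * s⁻¹) • x = (τ ^ q) • x := by
  obtain ⟨n, hn⟩ := hx
  have hcop : Nat.Coprime (p ^ n) q :=
    Nat.Coprime.pow_left n ((Nat.coprime_primes hp hq).2 hpq)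
  exact tame_of_target hq hcop (hU n) A hA hτ hs x hn

end Fermat.Agent.S35.H504

end
end
-- ===== PACK-END S35/H504/Tame.lean

-- ===== PACK-BEGIN S59/H885/LoSqFix.lean
section






/-!
# Row S59, cell LO, leaf LO-SQ: the inputs FIX-W and NE-W of `loSq_of_core` (helper885)

* `fixW   : FixWStatement`     — for a semistable integral model `W` and `q ≠ p`, the inertia
  group at a place over `q` fixes a nonzero vector of `W[p]`: at a good prime inertia acts
  trivially (`S59.H899.inertia_smul_eq_self_of_good`), at a multiplicative prime `(σ - 1) x` is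
  fixed (`S59.H240.inertia_smul_sub_fixed_of_mult`);
* `nonEisW : NonEisWStatement` — `Ribet.H523.exists_prime_not_eisenstein` for the model `W` of
  `W ⊗ ℚ`.
-/

set_option autoImplicit false
set_option linter.style.haveILetI false

open WeierstrassCurve WeierstrassCurve.Affine WeierstrassCurve.Affine.Point
open scoped WeierstrassCurve.Affine

namespace Fermat.Agent.S59.H885

open Fermat.Agent.Ribet Fermat.Agent.Ribet.Spec Fermat.Agent.Ribet.H944.Wall
open Fermat.Agent.S59.H899 Fermat.Agent.S59.H240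

/-- the discriminant of `W ⊗ ℚ` -/
theorem map_Δ_ne_zero885 (W : WeierstrassCurve ℤ) (hΔ : W.Δ ≠ 0) :
    (W.map (Int.castRingHom ℚ)).Δ ≠ 0 := by
  rw [WeierstrassCurve.map_Δ]
  simpa using hΔ

/-- **NE-W.** -/
theorem nonEisW : _root_.Fermat.Agent.S59.H885.NonEisWStatement := by
  intro W p hΔ hp hirr S
  obtain ⟨ℓ, hℓ, hℓS, -, hne⟩ :=
    Fermat.Agent.Ribet.H523.exists_prime_not_eisenstein (W.map (Int.castRingHom ℚ))
      (map_Δ_ne_zero885 W hΔ) W ⟨1, one_smul _ _⟩ p hp hirr S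
  exact ⟨ℓ, hℓ, hℓS, hne⟩

/-- **FIX-W.** -/
theorem fixW : FixWStatement := by
  intro W p q hΔ hW hp hq hqp A hA
  have hEll : ((W.map (Int.castRingHom ℚ))⁄(AlgebraicClosure ℚ)).IsElliptic := by
    constructor
    rw [isUnit_iff_ne_zero]
    show ((W.map (Int.castRingHom ℚ)).map (algebraMap ℚ (AlgebraicClosure ℚ))).Δ ≠ 0
    rw [WeierstrassCurve.map_Δ]
    exact (_root_.map_ne_zero _).mpr (map_Δ_ne_zero885 W hΔ)
  have hcard : Nat.card (WTorsion W p) = p ^ 2 :=
    Fermat.Agent.S59.H127.card_torsion_eq ((W.map (Int.castRingHom ℚ))⁄(AlgebraicClosure ℚ)) p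
  have hfin : Finite (WTorsion W p) :=
    Nat.finite_of_card_ne_zero (by rw [hcard]; exact pow_ne_zero 2 hp.ne_zero)
  have hnt : Nontrivial (WTorsion W p) := by
    have h1 : 1 < Nat.card (WTorsion W p) := by
      rw [hcard]
      have := hp.two_le
      nlinarith
    exact Finite.one_lt_card_iff_nontrivial.mp h1
  obtain ⟨v₀, hv₀⟩ := exists_ne (0 : WTorsion W p)
  have hqp' : ¬ q ∣ p := fun h => hqp ((Nat.prime_dvd_prime_iff_eq hq hp).mp h)
  have hptors : ∀ x : WTorsion W p, p • (x : (curveQbar W).Point) = 0 := by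
    intro x
    have hx := x.2
    rw [Submodule.mem_torsionBy_iff] at hx
    rwa [natCast_zsmul] at hx
  by_cases hall : ∀ σ ∈ A.inertiaSubgroupIn ℚ, ∀ x : WTorsion W p, σ • x = x
  · exact ⟨v₀, hv₀, fun σ hσ => hall σ hσ v₀⟩
  · simp only [not_forall] at hall
    obtain ⟨σ, hσ, x, hx⟩ := hall
    have hbad : (q : ℤ) ∣ W.Δ := by
      by_contra hgood
      exact hx (Subtype.ext
        (inertia_smul_eq_self_of_good W hq hgood hqp' A hA σ hσ x (hptors x)))
    have hc₄ : ¬ (q : ℤ) ∣ W.c₄ := hW q hq hbad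
    refine ⟨σ • x - x, sub_ne_zero.mpr hx, fun τ hτ => ?_⟩
    apply Subtype.ext
    exact inertia_smul_sub_fixed_of_mult W hΔ hq hc₄ hqp' A hA σ τ hσ hτ x (hptors x)

end Fermat.Agent.S59.H885

end
-- ===== PACK-END S59/H885/LoSqFix.lean

-- ===== PACK-BEGIN S36/H803/R3Spec.lean
section




/-!
# S36 / cell REG, route R3 (THICK1 by the squeeze) — CONCRETE interface (R3 owner: helper803)

Level `N = M * q`, `q ∤ M`, vocabulary of `Fermat/Agent/A2/Mod/{Spec,Asm}.lean`:
`B := chartAlg P E (M*q) x` the FINITE chart of `x = j · j_q` over `R_E = P ∩ E`,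
`p₁ = B ∩ w V∞`, `p₂ = B ∩ w V₀` (`IsCut`), nodes = maximal ideals `n ⊇ p₁ + p₂`.

The modular unit pair: `D = q¹² Δ(t^q)/Δ(t)`, `D' = Δ(t)/Δ(t^q)` (`IsD`, `IsD'`; `D D' = q¹²`).

## Leaves (each ONE `Prop`)

* `MuStatement`    (MU)   : `D, D' ∈ B`, `D' ∉ p₁`, `D ∉ p₂`.   PROVED in `R3Asm.lean` (`mu`)
                            from `H438.mu_package` (helper438, main).
* `Deg0Statement`  (DEG0) : the nodes form a finite set `s` and
                            `∑_{n ∈ s} ord_n(D | C₂) = (q - 1) ψ(M)`   (`ordAt p₂ n D`).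
* `GubStatement`   (GUB+GEN) : at a RIGID level `M` (a prime `r ≡ 11 mod 12` divides `M`):
                            `12 · #nodes ≤ (q - 1) ψ(M)`.
* `Th1Statement`   (TH1)  : over an UNRAMIFIED base (`q = ε w`), at a rigid level, both components
                            are locally principal at every node (the model is regular there).

## Assembly (proved in `R3Asm.lean`, sorry-free)

`th1_of_leaves : MU → DEG0 → GUB → TH1` in `R3Asm.lean`, via `th1_of_ssChart` (`Th1Alg.lean`,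
abstract squeeze from `H996.ordLike_le` + `H996.hgen_of_ordLike_eq`).

All leaves carry the A2-MOD sub-assemblies `S1`, `S2`, `S3`, `DegStatement` and the level-`M`
hypothesis `GoodRedHyp` as HYPOTHESES (cite them or not, as convenient).
-/

set_option autoImplicit false
set_option linter.unusedSectionVars false
set_option linter.unusedVariables false
set_option linter.style.haveILetI false
set_option synthInstance.maxHeartbeats 400000
set_option maxHeartbeats 1600000

noncomputable section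

namespace Fermat.Agent.S36.H803

open ModularCurve Fermat.Agent.A2.Mod

/-- `M` is *rigid*: a prime `r ≡ 11 mod 12` divides `M` (no elliptic points on `X₀(M)`,
in any characteristic prime to `M`). -/
def Rigid (M : ℕ) : Prop := ∃ r : ℕ, r.Prime ∧ r % 12 = 11 ∧ r ∣ M

section

variable (P : ValuationSubring Qb) (E : IntermediateField ℚ Qb) (M q : ℕ) [NeZero M] [NeZero q]
  (w : RE P E)

/-- The base is unramified at `q`: `q = ε w` with `ε` a unit of `R_E`. -/
def Unram : Prop := ∃ ε : RE P E, IsUnit ε ∧ ((q : ℕ) : RE P E) = ε * w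

/-- The finite chart of level `M * q` (coordinate `x = j · j_q`). -/
abbrev Bfin : Subalgebra (RE P E) (FE E (M * q)) := chartAlg P E (M * q) (xE E M q)

/-- `D = q¹² Δ(t^q)/Δ(t)`, by its `t`-expansion (the shape of `H438.mu_package`;
`D = H438.dE E (M * q) q _`). -/
def IsD (D : FE E (M * q)) : Prop :=
  (D : LaurentSeries E) =
    Fermat.Agent.S36.H438.castE E (((q : ℕ) : LaurentSeries ℤ) ^ 12 * Fermat.Agent.S28.unitL ℤ q)

/-- `D' = Δ(t)/Δ(t^q)`, by its `t`-expansion (`D' = H438.uE' E (M * q) q _`). -/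
def IsD' (D' : FE E (M * q)) : Prop :=
  (D' : LaurentSeries E) = Fermat.Agent.S36.H438.castE E (Fermat.Agent.S28.H589.unitL' q)

/-- `n` is a node of the finite chart: a maximal ideal on both components. -/
def IsNode (p₁ p₂ n : Ideal (Bfin P E M q)) : Prop := n.IsMaximal ∧ p₁ ≤ n ∧ p₂ ≤ n

/-- `p₁`, `p₂` are the two components of the special fibre of the finite chart
(`p₁` cut out by `V∞`, `p₂` by `V₀ = V∞ ∘ W`). -/
def IsComponents (p₁ p₂ : Ideal (Bfin P E M q)) : Prop :=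
  ∃ (V : ValuationSubring (FE E (M * q))) (W : FE E (M * q) ≃ₐ[E] FE E (M * q)),
    IsVinf P E (M * q) V ∧ IsFricke E (M * q) W ∧
    IsCut P E (M * q) w V (Bfin P E M q) p₁ ∧
    IsCut P E (M * q) w (V.comap (W : FE E (M * q) →+* FE E (M * q))) (Bfin P E M q) p₂

/-- The standing hypotheses of every R3 leaf: the setting, a good level `E` (residue field
algebraically closed), and the A2-MOD outputs at level `M * q`. -/
structure R3Hyp : Prop where
  setting : Setting P E M q w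
  good : Fermat.Agent.A2.GoodField P E
  deg : DegStatement E M q
  s1 : S1Statement P E M q w
  s2 : S2Statement P E M q w
  s3 : S3Statement P E M q w
  vinfM : ∃ VM : ValuationSubring (FE E M), IsVinf P E M VM
  goodRed : GoodRedHyp P E M

/-- **Leaf MU** (modular unit): `D`, `D'` lie in the finite chart, `D'` is a unit along `C∞`
and `D` is a unit along `C₀`. -/
def MuStatement : Prop :=
  R3Hyp P E M q w →
    ∃ D D' : Bfin P E M q, IsD E M q (D : FE E (M * q)) ∧ IsD' E M q (D' : FE E (M * q)) ∧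
      ∀ p₁ p₂ : Ideal (Bfin P E M q), IsComponents P E M q w p₁ p₂ → D' ∉ p₁ ∧ D ∉ p₂

/-- **Leaf DEG0** (degree of the principal divisor of `D̄` on `C₀`): the nodes form a finite set
and `∑_{nodes} ord_n(D | C₀) = (q - 1) ψ(M)`. -/
def Deg0Statement : Prop :=
  R3Hyp P E M q w →
    ∀ D : Bfin P E M q, IsD E M q (D : FE E (M * q)) →
      ∀ p₁ p₂ : Ideal (Bfin P E M q), IsComponents P E M q w p₁ p₂ →
        ∃ s : Finset (Ideal (Bfin P E M q)), (∀ n, n ∈ s ↔ IsNode P E M q p₁ p₂ n) ∧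
          ∑ n ∈ s, ordAt p₂ n D = (((q - 1) * dedekindPsi M : ℕ) : ℕ∞)

/-- **Leaf GUB + GEN** (genus upper bound at a rigid level):
`12 · #nodes ≤ (q - 1) ψ(M)`. -/
def GubStatement : Prop :=
  R3Hyp P E M q w → Rigid M →
    ∀ p₁ p₂ : Ideal (Bfin P E M q), IsComponents P E M q w p₁ p₂ →
      ∀ s : Finset (Ideal (Bfin P E M q)), (∀ n ∈ s, IsNode P E M q p₁ p₂ n) →
        12 * s.card ≤ (q - 1) * dedekindPsi M

/-- **TH1** (thickness one): over an unramified base and at a rigid level, both components of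
the special fibre are locally principal at every node. -/
def Th1Statement : Prop :=
  R3Hyp P E M q w → Unram P E q w → Rigid M →
    ∀ p₁ p₂ : Ideal (Bfin P E M q), IsComponents P E M q w p₁ p₂ →
      ∀ n : Ideal (Bfin P E M q), IsNode P E M q p₁ p₂ n →
        (∃ x₁ ∈ p₁, ∀ a ∈ p₁, ∃ g : Bfin P E M q, g ∉ n ∧ ∃ b, g * a = x₁ * b) ∧
        (∃ x₂ ∈ p₂, ∀ a ∈ p₂, ∃ g : Bfin P E M q, g ∉ n ∧ ∃ b, g * a = x₂ * b)

end

end Fermat.Agent.S36.H803

end

end
-- ===== PACK-END S36/H803/R3Spec.lean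

-- ===== PACK-BEGIN S59/LoSqC/H193/LabelInj.lean
section





/-!
# S59 / cell (C) LO-SQ, leaf LAB (helper193), part 3: LAB-INJ — the label wall in PAIRWISE form

* `labelAt_of_pairwise` : at a closed point `n`, pairwise labels `c W` of `u` for the pairs
  `(V₁, W)`, `W ∈ 𝒱` through `n`, relative to ONE base sheet `V₁` through `n`, with
  `c W + κ W ≡ κ V₁` modulo `m`, give the label datum `H630.LabelAt B n 𝒱 m u ζ κ`
  for the colouring `κ`.
* `exists_pow_eq_of_labels` (**LAB-INJ**) : in the setting of the label wall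
  (`H193.exists_pow_eq_of_base_set`): if `f ≡ 1` on every sheet and the pairwise labels of `f`
  at ALL closed points of the special fibre of both charts are given by ONE colouring `κ`
  ("the labels are constant"), then `f` is an `m`-th power.

So the label map `u ↦ (labels of u at the nodes)` is injective modulo `m`-th powers and
constants.  Everything is for an arbitrary set `𝒱` of sheets (2 sheets at level `Mq`, 3 sheets
at level `Mq²`).
-/

set_option autoImplicit false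
set_option linter.unusedSectionVars false
set_option linter.unusedVariables false
set_option linter.style.haveILetI false

namespace Fermat.Agent.S59.LoSqC.H193

open Fermat.Agent.S36.H630
open Fermat.Agent.S18.H138 (chart)
open Fermat.Agent.A2.H12 (IsSheet)
open Polynomial

universe u

section Pairwise

variable {R : Type*} [CommRing R] {F : Type*} [Field F] [Algebra R F]
variable {B : Subalgebra R F} {n : Ideal B}

/-- **Pairwise labels relative to a base sheet give the label datum of a colouring.** -/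
theorem labelAt_of_pairwise [hn : n.IsMaximal] {m : ℕ} (hm : 0 < m)
    (hroot : ∀ z : F, z ^ m ∈ B → z ∈ B)
    (hrat : ∀ b : B, ∃ r : R, b - algebraMap R B r ∈ n)
    {𝒱 : Set (ValuationSubring F)} (hBV : ∀ V ∈ 𝒱, ChartLe B V)
    {ζ : R} (hζ : ζ ^ m = 1) {u : F} (κ : ValuationSubring F → ℕ)
    {V₁ : ValuationSubring F} (hV₁ : V₁ ∈ 𝒱) (hth₁ : PassThrough B n V₁)
    (h : ∀ W ∈ 𝒱, PassThrough B n W →
      ∃ c : ℕ, IsLabelAt B n V₁ W m ζ u c ∧ c + κ W ≡ κ V₁ [MOD m]) :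
    LabelAt B n 𝒱 m u ζ κ := by
  have hnp : n.IsPrime := hn.isPrime
  -- the datum of the pair `(V₁, V₁)`
  obtain ⟨c₁, ⟨d, η, η', hp, hη, hv, hv', hl⟩, hc₁⟩ := h V₁ hV₁ hth₁
  obtain ⟨hd, a₀, s₀, ha₀, hs₀, hpure⟩ := hp
  have hζk : ∀ k : ℕ, algebraMap R B (ζ ^ k) ∉ n := by
    intro k hmem
    apply hnp.ne_top
    rw [Ideal.eq_top_iff_one]
    have : (1 : B) = algebraMap R B (ζ ^ k) * algebraMap R B (ζ ^ ((m - 1) * k)) := by
      rw [← map_mul, zeta_pow_mul_inv' hm hζ, map_one]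
    rw [this]
    exact n.mul_mem_right _ hmem
  refine ⟨d, a₀, s₀, η * ζ ^ κ V₁, hd, hs₀, hpure, ?_, ?_⟩
  · rw [map_mul]
    intro hmem
    rcases hnp.mem_or_mem hmem with h1 | h1
    · exact hη h1
    · exact hζk _ h1
  · intro W hW hthW
    obtain ⟨c, hlab, hc⟩ := h W hW hthW
    -- the value of `d` along `W`
    obtain ⟨d₁, ξ, ξ', hp₁, hξ, hw, hw', hl₁⟩ := hlab
    obtain ⟨θ, hθ, hθv⟩ := hp₁.exists_ratio hm hroot hrat
      (⟨hd, a₀, s₀, ha₀, hs₀, hpure⟩ : IsPureAt B n m u d)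
    have hx : ValAt B n V₁ d (ξ * θ) := hθv V₁ (hBV V₁ hV₁) hth₁ ξ hw
    have hx' : ValAt B n W d (ξ' * θ) := hθv W (hBV W hW) hthW ξ' hw'
    have h1 := hx.unique (hBV V₁ hV₁) hth₁ hv
    refine hx'.congr_const ?_
    -- `ξ' θ ≡ η ζ ^ c = η ζ ^ (κ V₁) ζ ^ ((m-1) κ W)`
    have hpow : ζ ^ c = ζ ^ κ V₁ * ζ ^ ((m - 1) * κ W) := by
      rw [← pow_add]
      apply zeta_pow_congr hζ
      -- `c ≡ κ V₁ + (m-1) κ W`
      have e1 : κ V₁ + (m - 1) * κ W + κ W = κ V₁ + m * κ W := by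
        calc κ V₁ + (m - 1) * κ W + κ W = κ V₁ + (m - 1 + 1) * κ W := by ring
          _ = κ V₁ + m * κ W := by rw [Nat.sub_add_cancel hm]
      have h2 : κ V₁ + m * κ W ≡ κ V₁ [MOD m] := by
        have := (Nat.modEq_zero_iff_dvd.2 (dvd_mul_right m (κ W))).add_left (κ V₁)
        simp only [add_zero] at this
        exact this
      have h3 : c + κ W ≡ κ V₁ + (m - 1) * κ W + κ W [MOD m] := by
        rw [e1]
        exact hc.trans h2.symm
      exact Nat.ModEq.add_right_cancel' (κ W) h3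
    have : ξ' * θ - η * ζ ^ κ V₁ * ζ ^ ((m - 1) * κ W)
        = (ξ' - ξ * ζ ^ c) * θ + (ξ * θ - η) * ζ ^ c := by
      rw [mul_assoc η, ← hpow]
      ring
    rw [this, map_add, map_mul, map_mul]
    exact n.add_mem (n.mul_mem_right _ hl₁) (n.mul_mem_right _ h1)

end Pairwise

section Root

variable {R : Type*} [CommRing R] {F : Type*} [Field F] [Algebra R F]

/-- a chart is closed under `m`-th roots -/
theorem chart_root_mem' {S : Set F} {m : ℕ} (hm : 0 < m) {z : F} (hz : z ^ m ∈ chart R S) :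
    z ∈ chart R S := by
  rw [Fermat.Agent.S18.H138.mem_chart] at hz ⊢
  exact IsIntegral.of_pow hm hz

end Root

section Wall

variable {R : Type u} [CommRing R] [IsDomain R] [IsDiscreteValuationRing R]
  [HenselianLocalRing R] [IsAlgClosed (IsLocalRing.ResidueField R)] [IsIntegrallyClosed R[X]]
variable (E : Type u) [Field E] [CharZero E] [Algebra R E] [IsFractionRing R E]
variable {F : Type u} [Field F] [Algebra E F] [Algebra R F] [IsScalarTower R E F]

/-- Closed points of the special fibre of a chart: rationality, from `w ∈ n`. -/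
theorem rat_of_mem (w : R) (hw : Irreducible w) (x : F)
    (n : Ideal (chart R ({x} : Set F))) (hn : n.IsMaximal)
    (hwn : algebraMap R (chart R ({x} : Set F)) w ∈ n) (b : chart R ({x} : Set F)) :
    ∃ r : R, b - algebraMap R (chart R ({x} : Set F)) r ∈ n := by
  refine rat_chart x n hn ?_ b
  intro r hr
  have hspan : IsLocalRing.maximalIdeal R = Ideal.span {w} :=
    (hw.maximalIdeal_eq).trans rfl
  rw [hspan, Ideal.mem_span_singleton] at hr
  obtain ⟨t, rfl⟩ := hr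
  rw [map_mul]
  exact n.mul_mem_right _ hwn

include E in
/-- **LAB-INJ: the label wall in pairwise form.**  `𝒱` a set of valuation rings containing all
sheets, each containing `R`, `x` and `x⁻¹`; `V₀` an unramified discrete valuation ring on which
`f ≡ 1`; `κ` a colouring of the sheets.  If at every closed point `𝔫` of the special fibre of the
two charts the pairwise labels of `f` relative to some sheet `V₁` through `𝔫` are
`κ V₁ - κ W`, then `f` is an `m`-th power. -/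
theorem exists_pow_eq_of_labels (w : R) (hw : Irreducible w) (q : ℕ) (hq : q.Prime)
    (hqR : (q : R) ∈ IsLocalRing.maximalIdeal R)
    {x : F} (hx : Transcendental E x)
    (hfin : FiniteDimensional (IntermediateField.adjoin E ({x} : Set F)) F)
    {m : ℕ} (hm : 0 < m) (hqm : ¬ q ∣ m) {ζ : R} (hζ : IsPrimitiveRoot ζ m)
    {f : F} (hf0 : f ≠ 0)
    (𝒱 : Set (ValuationSubring F)) (h𝒱 : ∀ V, IsSheet w x V → V ∈ 𝒱)
    (hR𝒱 : ∀ V ∈ 𝒱, ∀ r : R, algebraMap R F r ∈ V)
    (hx𝒱 : ∀ V ∈ 𝒱, x ∈ V ∧ x⁻¹ ∈ V)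
    (hsplit : ∀ V ∈ 𝒱, f - 1 ∈ V.nonunits)
    (V₀ : ValuationSubring F) (hRV₀ : ∀ r : R, algebraMap R F r ∈ V₀)
    (hwV₀ : algebraMap R F w ∈ V₀.nonunits) (hsplit₀ : f - 1 ∈ V₀.nonunits)
    (hunif : ∀ a ∈ V₀.nonunits, a * (algebraMap R F w)⁻¹ ∈ V₀)
    (hdisc : ∀ g : F, ∃ k : ℕ, g * algebraMap R F w ^ k ∈ V₀)
    (κ : ValuationSubring F → ℕ)
    (hlab_fin : ∀ 𝔫 : Ideal (chart R ({x} : Set F)), 𝔫.IsMaximal →
      algebraMap R (chart R ({x} : Set F)) w ∈ 𝔫 →
      ∃ V₁ ∈ 𝒱, PassThrough (chart R ({x} : Set F)) 𝔫 V₁ ∧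
        ∀ W ∈ 𝒱, PassThrough (chart R ({x} : Set F)) 𝔫 W →
          ∃ c : ℕ, IsLabelAt (chart R ({x} : Set F)) 𝔫 V₁ W m ζ f c ∧
            c + κ W ≡ κ V₁ [MOD m])
    (hlab_inf : ∀ 𝔫 : Ideal (chart R ({x⁻¹} : Set F)), 𝔫.IsMaximal →
      algebraMap R (chart R ({x⁻¹} : Set F)) w ∈ 𝔫 →
      ∃ V₁ ∈ 𝒱, PassThrough (chart R ({x⁻¹} : Set F)) 𝔫 V₁ ∧
        ∀ W ∈ 𝒱, PassThrough (chart R ({x⁻¹} : Set F)) 𝔫 W →
          ∃ c : ℕ, IsLabelAt (chart R ({x⁻¹} : Set F)) 𝔫 V₁ W m ζ f c ∧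
            c + κ W ≡ κ V₁ [MOD m]) :
    ∃ g : F, g ^ m = f := by
  have hinjRE : Function.Injective (algebraMap R E) := IsFractionRing.injective R E
  have hinjRF : Function.Injective (algebraMap R F) := by
    rw [IsScalarTower.algebraMap_eq R E F]
    exact (algebraMap E F).injective.comp hinjRE
  have hwF0 : algebraMap R F w ≠ 0 := fun h => hw.ne_zero (hinjRF (by rw [h, map_zero]))
  have hxR : Transcendental R x := hx.restrictScalars hinjRE
  haveI := hfin
  haveI : FiniteDimensional (Fermat.Agent.S18.H138.baseField R x) F :=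
    Fermat.Agent.A2.H313.finiteDimensional_baseField_of_adjoin E x
  have hζ1 : ζ ^ m = 1 := hζ.pow_eq_one
  -- `m` is invertible in `R`
  obtain ⟨mi, hmi⟩ : ∃ mi : R, (m : R) * mi = 1 := by
    have hu : IsUnit (m : R) := by
      by_contra hnu
      have hmem : (m : R) ∈ IsLocalRing.maximalIdeal R := (IsLocalRing.mem_maximalIdeal _).2 hnu
      have hcop : Nat.Coprime q m := (Nat.Prime.coprime_iff_not_dvd hq).2 hqm
      have h1 : ((Nat.gcd q m : ℕ) : R) ∈ IsLocalRing.maximalIdeal R := by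
        have hb : ((Nat.gcd q m : ℕ) : ℤ) = q * Nat.gcdA q m + m * Nat.gcdB q m :=
          Nat.gcd_eq_gcd_ab q m
        have hc : ((Nat.gcd q m : ℕ) : R) = (q : R) * ((Nat.gcdA q m : ℤ) : R) +
            (m : R) * ((Nat.gcdB q m : ℤ) : R) := by
          have := congrArg (fun z : ℤ => (z : R)) hb
          simpa using this
        rw [hc]
        exact Ideal.add_mem _ (Ideal.mul_mem_right _ _ hqR) (Ideal.mul_mem_right _ _ hmem)
      rw [hcop, Nat.cast_one] at h1
      exact (IsLocalRing.mem_maximalIdeal _).1 h1 isUnit_one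
    obtain ⟨v, hv⟩ := hu
    exact ⟨(v⁻¹ : Rˣ), by rw [← hv, Units.mul_inv]⟩
  have hcl_fin : ∀ V ∈ 𝒱, ChartLe (chart R ({x} : Set F)) V := fun V hV =>
    chartLe_chart (hR𝒱 V hV) (fun s hs => by rw [Set.mem_singleton_iff.1 hs]; exact (hx𝒱 V hV).1)
  have hcl_inf : ∀ V ∈ 𝒱, ChartLe (chart R ({x⁻¹} : Set F)) V := fun V hV =>
    chartLe_chart (hR𝒱 V hV) (fun s hs => by rw [Set.mem_singleton_iff.1 hs]; exact (hx𝒱 V hV).2)
  refine Fermat.Agent.S36.H193.exists_pow_eq_of_base_set E w hw hxR hm hmi hζ hf0 𝒱 h𝒱 hsplit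
    V₀ hRV₀ hwV₀ hsplit₀ ?_ hdisc κ ?_ ?_
  · intro a ha
    refine ⟨a * (algebraMap R F w)⁻¹, hunif a ha, ?_⟩
    rw [mul_comm a, ← mul_assoc, mul_inv_cancel₀ hwF0, one_mul]
  · intro 𝔫 h𝔫 hw𝔫
    haveI := h𝔫
    obtain ⟨V₁, hV₁, hth₁, hlab⟩ := hlab_fin 𝔫 h𝔫 hw𝔫
    refine basePureValuesAt_of_labelAt hcl_fin hm hζ1
      (labelAt_of_pairwise hm (fun z hz => chart_root_mem' hm hz)
        (rat_of_mem w hw x 𝔫 h𝔫 hw𝔫) hcl_fin hζ1 κ hV₁ hth₁ hlab)
  · intro 𝔫 h𝔫 hw𝔫
    haveI := h𝔫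
    obtain ⟨V₁, hV₁, hth₁, hlab⟩ := hlab_inf 𝔫 h𝔫 hw𝔫
    refine basePureValuesAt_of_labelAt hcl_inf hm hζ1
      (labelAt_of_pairwise hm (fun z hz => chart_root_mem' hm hz)
        (rat_of_mem w hw x⁻¹ 𝔫 h𝔫 hw𝔫) hcl_inf hζ1 κ hV₁ hth₁ hlab)

end Wall

end Fermat.Agent.S59.LoSqC.H193

end
-- ===== PACK-END S59/LoSqC/H193/LabelInj.lean

-- ===== PACK-BEGIN S59/LoSqC/H193/LabelConst.lean
section




/-!
# S59 / cell (C) LO-SQ, leaf LAB (helper193), part 4: LAB1-INJ for TWO sheets (level `Mq`)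

Setting of the label wall, with exactly two sheets `V₁ ≠ V₂` (the two components of the special
fibre of the model of `X₀(Mq)`), `V₁` unramified and discrete.  `u ≡ 1` on both sheets, with a
purity datum at every closed point of the special fibre of the two charts.

* `isLabelAt_self`       : purity + normality along `V` ⟹ the label of the pair `(V, V)` is `0`;
* `IsPureAt.of_back`, `IsLabelAt.of_back` : change of chart;
* `exists_passThrough`   : every closed point of the special fibre lies on a sheet;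
* `exists_pow_eq_of_const_labels` (**LAB1-INJ**) : if the labels of `u` at all NODES of the finite
  chart (closed points through which both sheets pass) are equal to one constant `c₀`, and there
  is no node at infinity, then `u` is an `m`-th power.
-/

set_option autoImplicit false
set_option linter.unusedSectionVars false
set_option linter.unusedVariables false
set_option linter.style.haveILetI false

namespace Fermat.Agent.S59.LoSqC.H193

open Fermat.Agent.S36.H630
open Fermat.Agent.S18.H138 (chart)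
open Fermat.Agent.A2.H12 (IsSheet)
open Polynomial

universe u

section Self

variable {R : Type*} [CommRing R] {F : Type*} [Field F] [Algebra R F]
variable {B : Subalgebra R F} {n : Ideal B}

/-- The label of the pair `(V, V)` is `0`. -/
theorem isLabelAt_self [hn : n.IsMaximal] {m : ℕ} (hm : 0 < m)
    (hrat : ∀ b : B, ∃ r : R, b - algebraMap R B r ∈ n)
    {V : ValuationSubring F} (hBV : ChartLe B V) (hth : PassThrough B n V)
    (hnormal : NormalAlong B V m) {ζ : R} {u d : F} (hu : u - 1 ∈ V.nonunits)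
    (hp : IsPureAt B n m u d) : IsLabelAt B n V V m ζ u 0 := by
  obtain ⟨hd, a₀, s₀, ha₀, hs₀, hpure⟩ := hp
  obtain ⟨η, hη, hv⟩ := exists_valAt_of_pure hrat hBV hth hm hnormal hu ha₀ hs₀ hpure
  refine ⟨d, η, η, ⟨hd, a₀, s₀, ha₀, hs₀, hpure⟩, hη, hv, hv, ?_⟩
  rw [pow_zero, mul_one, sub_self, map_zero]
  exact n.zero_mem

end Self

section Back

variable {R : Type*} [CommRing R] {F : Type*} [Field F] [Algebra R F]
variable {B B' : Subalgebra R F} {n' : Ideal B'} {y : F}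
variable (hy : y ∈ B') (hclear : ∀ b : B, ∃ k : ℕ, y ^ k * (b : F) ∈ B')

/-- **A purity datum passes to the other chart.** -/
theorem IsPureAt.of_back [hn' : n'.IsPrime] (hyn : (⟨y, hy⟩ : B') ∉ n') {m : ℕ} {u d : F}
    (h : IsPureAt B (backIdeal B n' y hy hclear) m u d) : IsPureAt B' n' m u d := by
  obtain ⟨hd, a₀, s₀, ha₀, hs₀, hpure⟩ := h
  obtain ⟨k, hka, hks⟩ := exists_clear₂ hy hclear a₀ s₀
  refine ⟨hd, ⟨_, hka⟩, ⟨_, hks⟩, ?_, ?_, ?_⟩
  · intro h1
    exact ha₀ ((mem_backIdeal_iff hy hclear hyn a₀ k hka).2 h1)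
  · intro h1
    exact hs₀ ((mem_backIdeal_iff hy hclear hyn s₀ k hks).2 h1)
  · show u * d ^ m * (y ^ k * (s₀ : F)) = y ^ k * (a₀ : F)
    rw [← hpure]
    ring

/-- **A label passes to the other chart.** -/
theorem IsLabelAt.of_back [hn' : n'.IsPrime] (hyn : (⟨y, hy⟩ : B') ∉ n')
    {V V' : ValuationSubring F} (hyV : y ∈ V) (hyV' : y ∈ V') {m : ℕ} {ζ : R} {u : F} {c : ℕ}
    (h : IsLabelAt B (backIdeal B n' y hy hclear) V V' m ζ u c) :
    IsLabelAt B' n' V V' m ζ u c := by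
  obtain ⟨d, η, η', hp, hη, hv, hv', hl⟩ := h
  refine ⟨d, η, η', hp.of_back hy hclear hyn, ?_, hv.of_back hy hclear hyn hyV,
    hv'.of_back hy hclear hyn hyV', ?_⟩
  · intro h1
    exact hη ((algebraMap_mem_backIdeal_iff hy hclear hyn η).2 h1)
  · exact (algebraMap_mem_backIdeal_iff hy hclear hyn _).1 hl

end Back

section Cover

variable {R : Type u} [CommRing R] [IsDomain R] {F : Type u} [Field F] [Algebra R F]
variable [IsNoetherianRing R] [IsIntegrallyClosed R[X]] [CharZero F]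

/-- **Every closed point of the special fibre of the finite chart lies on a sheet.** -/
theorem exists_passThrough (w : R) (hw : Prime w) {x : F} (hx : Transcendental R x)
    (𝔫 : Ideal (chart R ({x} : Set F))) (h𝔫 : 𝔫.IsPrime)
    (hw𝔫 : algebraMap R (chart R ({x} : Set F)) w ∈ 𝔫) :
    ∃ V : ValuationSubring F, IsSheet w x V ∧ PassThrough (chart R ({x} : Set F)) 𝔫 V := by
  have hle : Ideal.span {algebraMap R (chart R ({x} : Set F)) w} ≤ 𝔫 := by
    rw [Ideal.span_le, Set.singleton_subset_iff]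
    exact hw𝔫
  obtain ⟨p, hp, hp𝔫⟩ := Ideal.exists_minimalPrimes_le hle
  obtain ⟨V, hV, hcentre⟩ := Fermat.Agent.S36.H193.exists_sheet_of_minimal w hw hx p hp
  exact ⟨V, hV, fun c hc => hp𝔫 ((hcentre c).1 hc)⟩

end Cover

section Two

variable {R : Type u} [CommRing R] [IsDomain R] [IsDiscreteValuationRing R]
  [HenselianLocalRing R] [IsAlgClosed (IsLocalRing.ResidueField R)] [IsIntegrallyClosed R[X]]
variable (E : Type u) [Field E] [CharZero E] [Algebra R E] [IsFractionRing R E]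
variable {F : Type u} [Field F] [Algebra E F] [Algebra R F] [IsScalarTower R E F]

include E in
/-- **LAB1-INJ (two sheets).**  If the labels of `u` at all nodes of the finite chart are equal
to one constant `c₀`, then `u` is an `m`-th power. -/
theorem exists_pow_eq_of_const_labels (w : R) (hw : Irreducible w) (q : ℕ) (hq : q.Prime)
    (hqR : (q : R) ∈ IsLocalRing.maximalIdeal R)
    {x : F} (hx : Transcendental E x)
    (hfin : FiniteDimensional (IntermediateField.adjoin E ({x} : Set F)) F)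
    {m : ℕ} (hm : 0 < m) (hqm : ¬ q ∣ m) {ζ : R} (hζ : IsPrimitiveRoot ζ m)
    {u : F} (hu0 : u ≠ 0)
    (V₁ V₂ : ValuationSubring F) (hne : V₁ ≠ V₂)
    (hsheets : ∀ V, IsSheet w x V → V = V₁ ∨ V = V₂)
    (hR₁ : ∀ r : R, algebraMap R F r ∈ V₁) (hR₂ : ∀ r : R, algebraMap R F r ∈ V₂)
    (hx₁ : x ∈ V₁ ∧ x⁻¹ ∈ V₁) (hx₂ : x ∈ V₂ ∧ x⁻¹ ∈ V₂)
    (hu₁ : u - 1 ∈ V₁.nonunits) (hu₂ : u - 1 ∈ V₂.nonunits)
    (hwV₁ : algebraMap R F w ∈ V₁.nonunits)
    (hunif : ∀ a ∈ V₁.nonunits, a * (algebraMap R F w)⁻¹ ∈ V₁)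
    (hdisc : ∀ g : F, ∃ k : ℕ, g * algebraMap R F w ^ k ∈ V₁)
    (hnf₁ : NormalAlong (chart R ({x} : Set F)) V₁ m)
    (hnf₂ : NormalAlong (chart R ({x} : Set F)) V₂ m)
    (hni₁ : NormalAlong (chart R ({x⁻¹} : Set F)) V₁ m)
    (hni₂ : NormalAlong (chart R ({x⁻¹} : Set F)) V₂ m)
    (hcusp : ∀ 𝔫 : Ideal (chart R ({x⁻¹} : Set F)), 𝔫.IsMaximal →
      algebraMap R (chart R ({x⁻¹} : Set F)) w ∈ 𝔫 →
      (⟨x⁻¹, Fermat.Agent.S18.H138.mem_chart_of_mem rfl⟩ : chart R ({x⁻¹} : Set F)) ∈ 𝔫 →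
      ¬ (PassThrough (chart R ({x⁻¹} : Set F)) 𝔫 V₁ ∧
        PassThrough (chart R ({x⁻¹} : Set F)) 𝔫 V₂))
    (hpure_fin : ∀ 𝔫 : Ideal (chart R ({x} : Set F)), 𝔫.IsMaximal →
      algebraMap R (chart R ({x} : Set F)) w ∈ 𝔫 →
      ∃ d : F, IsPureAt (chart R ({x} : Set F)) 𝔫 m u d)
    (hpure_inf : ∀ 𝔫 : Ideal (chart R ({x⁻¹} : Set F)), 𝔫.IsMaximal →
      algebraMap R (chart R ({x⁻¹} : Set F)) w ∈ 𝔫 →
      ∃ d : F, IsPureAt (chart R ({x⁻¹} : Set F)) 𝔫 m u d)
    (c₀ : ℕ)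
    (hlab : ∀ 𝔫 : Ideal (chart R ({x} : Set F)), 𝔫.IsMaximal →
      algebraMap R (chart R ({x} : Set F)) w ∈ 𝔫 →
      PassThrough (chart R ({x} : Set F)) 𝔫 V₁ → PassThrough (chart R ({x} : Set F)) 𝔫 V₂ →
      IsLabelAt (chart R ({x} : Set F)) 𝔫 V₁ V₂ m ζ u c₀) :
    ∃ g : F, g ^ m = u := by
  classical
  have hinjRE : Function.Injective (algebraMap R E) := IsFractionRing.injective R E
  have hinjRF : Function.Injective (algebraMap R F) := by
    rw [IsScalarTower.algebraMap_eq R E F]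
    exact (algebraMap E F).injective.comp hinjRE
  haveI : CharZero F := charZero_of_injective_algebraMap (algebraMap E F).injective
  have hxR : Transcendental R x := hx.restrictScalars hinjRE
  have hx0 : x ≠ 0 := Fermat.Agent.S18.H138.ne_zero_of_transcendental hxR
  have hxRi : Transcendental R x⁻¹ := Fermat.Agent.S18.H138.transcendental_inv hxR
  have hwp : Prime w := hw.prime
  have hζ1 : ζ ^ m = 1 := hζ.pow_eq_one
  set 𝒱 : Set (ValuationSubring F) := {V | V = V₁ ∨ V = V₂} with h𝒱def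
  have hcl_fin₁ : ChartLe (chart R ({x} : Set F)) V₁ :=
    chartLe_chart hR₁ (fun s hs => by rw [Set.mem_singleton_iff.1 hs]; exact hx₁.1)
  have hcl_fin₂ : ChartLe (chart R ({x} : Set F)) V₂ :=
    chartLe_chart hR₂ (fun s hs => by rw [Set.mem_singleton_iff.1 hs]; exact hx₂.1)
  have hcl_inf₁ : ChartLe (chart R ({x⁻¹} : Set F)) V₁ :=
    chartLe_chart hR₁ (fun s hs => by rw [Set.mem_singleton_iff.1 hs]; exact hx₁.2)
  have hcl_inf₂ : ChartLe (chart R ({x⁻¹} : Set F)) V₂ :=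
    chartLe_chart hR₂ (fun s hs => by rw [Set.mem_singleton_iff.1 hs]; exact hx₂.2)
  -- the colouring
  set κ : ValuationSubring F → ℕ := fun V => if V = V₁ then c₀ else 0 with hκ
  have hκ₁ : κ V₁ = c₀ := by simp [hκ]
  have hκ₂ : κ V₂ = 0 := by
    have : V₂ ≠ V₁ := fun h => hne h.symm
    simp [hκ, this]
  -- the local analysis, common to both charts
  have key : ∀ (y : F) (𝔫 : Ideal (chart R ({y} : Set F))), 𝔫.IsMaximal →
      (∀ b : chart R ({y} : Set F), ∃ r : R, b - algebraMap R (chart R ({y} : Set F)) r ∈ 𝔫) →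
      ChartLe (chart R ({y} : Set F)) V₁ → ChartLe (chart R ({y} : Set F)) V₂ →
      NormalAlong (chart R ({y} : Set F)) V₁ m → NormalAlong (chart R ({y} : Set F)) V₂ m →
      (∃ d : F, IsPureAt (chart R ({y} : Set F)) 𝔫 m u d) →
      (PassThrough (chart R ({y} : Set F)) 𝔫 V₁ ∨ PassThrough (chart R ({y} : Set F)) 𝔫 V₂) →
      (PassThrough (chart R ({y} : Set F)) 𝔫 V₁ → PassThrough (chart R ({y} : Set F)) 𝔫 V₂ →
        IsLabelAt (chart R ({y} : Set F)) 𝔫 V₁ V₂ m ζ u c₀) →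
      ∃ V ∈ 𝒱, PassThrough (chart R ({y} : Set F)) 𝔫 V ∧
        ∀ W ∈ 𝒱, PassThrough (chart R ({y} : Set F)) 𝔫 W →
          ∃ c : ℕ, IsLabelAt (chart R ({y} : Set F)) 𝔫 V W m ζ u c ∧ c + κ W ≡ κ V [MOD m] := by
    intro y 𝔫 h𝔫 hrat hB₁ hB₂ hn₁ hn₂ hpur hcov hnode
    haveI := h𝔫
    obtain ⟨d, hd⟩ := hpur
    by_cases h1 : PassThrough (chart R ({y} : Set F)) 𝔫 V₁
    · refine ⟨V₁, Or.inl rfl, h1, ?_⟩
      rintro W (rfl | rfl) hW
      · exact ⟨0, isLabelAt_self hm hrat hB₁ h1 hn₁ hu₁ hd, by rw [zero_add]⟩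
      · refine ⟨c₀, hnode h1 hW, ?_⟩
        rw [hκ₁, hκ₂, add_zero]
    · have h2 : PassThrough (chart R ({y} : Set F)) 𝔫 V₂ := hcov.resolve_left h1
      refine ⟨V₂, Or.inr rfl, h2, ?_⟩
      rintro W (rfl | rfl) hW
      · exact absurd hW h1
      · exact ⟨0, isLabelAt_self hm hrat hB₂ h2 hn₂ hu₂ hd, by rw [zero_add]⟩
  refine exists_pow_eq_of_labels E w hw q hq hqR hx hfin hm hqm hζ hu0 𝒱
    (fun V hV => hsheets V hV) ?_ ?_ ?_ V₁ hR₁ hwV₁ hu₁ hunif hdisc κ ?_ ?_
  · rintro V (rfl | rfl)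
    · exact hR₁
    · exact hR₂
  · rintro V (rfl | rfl)
    · exact hx₁
    · exact hx₂
  · rintro V (rfl | rfl)
    · exact hu₁
    · exact hu₂
  · -- the finite chart
    intro 𝔫 h𝔫 hw𝔫
    haveI := h𝔫
    have hcov : PassThrough (chart R ({x} : Set F)) 𝔫 V₁ ∨
        PassThrough (chart R ({x} : Set F)) 𝔫 V₂ := by
      obtain ⟨V, hV, hth⟩ := exists_passThrough w hwp hxR 𝔫 h𝔫.isPrime hw𝔫
      rcases hsheets V hV with rfl | rfl
      · exact Or.inl hth
      · exact Or.inr hth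
    exact key x 𝔫 h𝔫 (rat_of_mem w hw x 𝔫 h𝔫 hw𝔫) hcl_fin₁ hcl_fin₂ hnf₁ hnf₂
      (hpure_fin 𝔫 h𝔫 hw𝔫) hcov (hlab 𝔫 h𝔫 hw𝔫)
  · -- the chart at infinity
    intro 𝔫' h𝔫' hw𝔫'
    haveI := h𝔫'
    have hn'p : 𝔫'.IsPrime := h𝔫'.isPrime
    have hrat' := rat_of_mem w hw x⁻¹ 𝔫' h𝔫' hw𝔫'
    have h𝔪n' : ∀ r ∈ IsLocalRing.maximalIdeal R,
        algebraMap R (chart R ({x⁻¹} : Set F)) r ∈ 𝔫' := by
      intro r hr
      rw [hw.maximalIdeal_eq, Ideal.mem_span_singleton] at hr
      obtain ⟨t, rfl⟩ := hr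
      rw [map_mul]
      exact 𝔫'.mul_mem_right _ hw𝔫'
    have hcov : PassThrough (chart R ({x⁻¹} : Set F)) 𝔫' V₁ ∨
        PassThrough (chart R ({x⁻¹} : Set F)) 𝔫' V₂ := by
      obtain ⟨V, hV, hth⟩ := exists_passThrough w hwp hxRi 𝔫' hn'p hw𝔫'
      rcases hsheets V ((Fermat.Agent.S36.H193.isSheet_inv_iff w hx0 V).1 hV) with rfl | rfl
      · exact Or.inl hth
      · exact Or.inr hth
    refine key x⁻¹ 𝔫' h𝔫' hrat' hcl_inf₁ hcl_inf₂ hni₁ hni₂ (hpure_inf 𝔫' h𝔫' hw𝔫') hcov ?_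
    intro h1 h2
    have hyB' : x⁻¹ ∈ chart R ({x⁻¹} : Set F) := Fermat.Agent.S18.H138.mem_chart_of_mem rfl
    by_cases hy : (⟨x⁻¹, hyB'⟩ : chart R ({x⁻¹} : Set F)) ∈ 𝔫'
    · exact absurd ⟨h1, h2⟩ (hcusp 𝔫' h𝔫' hw𝔫' hy)
    · have hclear : ∀ b : chart R ({x} : Set F),
          ∃ k : ℕ, x⁻¹ ^ k * (b : F) ∈ chart R ({x⁻¹} : Set F) :=
        fun b => Fermat.Agent.S18.H138.exists_inv_pow_mul_mem_chart hx0 b.2
      have hnmax : (backIdeal (chart R ({x} : Set F)) 𝔫' x⁻¹ hyB' hclear).IsMaximal :=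
        backIdeal_isMaximal hyB' hclear hy h𝔪n' hrat'
      have hwn : algebraMap R (chart R ({x} : Set F)) w
          ∈ backIdeal (chart R ({x} : Set F)) 𝔫' x⁻¹ hyB' hclear :=
        (algebraMap_mem_backIdeal_iff hyB' hclear hy w).2 hw𝔫'
      have hl := hlab _ hnmax hwn (passThrough_back hyB' hclear hy hx₁.2 h1)
        (passThrough_back hyB' hclear hy hx₂.2 h2)
      exact hl.of_back hyB' hclear hy hx₁.2 hx₂.2

end Two

end Fermat.Agent.S59.LoSqC.H193

end
-- ===== PACK-END S59/LoSqC/H193/LabelConst.lean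

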