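import Fermat.Agent.Pack.S59C.E9L3
import Fermat.Agent.Pack.S59C.E4L0
import Fermat.Agent.Pack.S59C.E7L0
import Fermat.Agent.Pack.S59C.E5L2
import Fermat.Agent.Pack.S59C.E6L3
import Fermat.Agent.Pack.S59C.E9L2
import Fermat.Agent.Pack.S59C.E7L3
import Fermat.Agent.Pack.S59C.E6L2
import Fermat.Agent.Pack.S43MC.G0E19L1
import Fermat.Agent.Pack.S59C.E4L2
import Fermat.Agent.Pack.S59C.E0L0
import Fermat.Agent.Pack.S43GC.G0E22L2
import Fermat.Agent.Pack.S43GC.G0E8L0
import Fermat.Agent.Pack.S43MC.G0E26L0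
import Fermat.Agent.Pack.S44C.G0E13L2
import Fermat.Agent.Pack.S44C.G0E27L0
import Fermat.Agent.Pack.S43MC.G0E26L2
import Fermat.Agent.Pack.S43MC.G0E26L1
import Fermat.Agent.Pack.S59C.E1L1
import Fermat.Agent.Pack.S59C.E9L1
import Fermat.Agent.Pack.S43MC.G0E25L2
import Fermat.Agent.Pack.S44C.G0E13L3
import Fermat.Agent.Pack.S43MC.G0E23L0
import Fermat.Agent.Pack.S43MC.G0E24L0
import Fermat.Agent.Pack.S59C.E4L1
import Fermat.Agent.Pack.S43MC.G0E15L1
import Fermat.Agent.Pack.S43MC.G0E11L2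
import Fermat.Agent.Pack.S43MC.G0E19L0
import Fermat.Agent.Pack.S43MC.G0E13L0
import Fermat.Agent.Pack.S43MC.G0E22L3
import Fermat.Agent.Pack.S43MC.G0E21L0
import Fermat.Agent.Pack.S43MC.G0E13L2
import Fermat.Agent.Pack.S43MC.G0E19L3
import Fermat.Agent.Pack.S43MC.G0E11L3
import Fermat.Agent.Pack.S43MC.G0E23L3
import Fermat.Agent.Pack.S44C.G0E20L1

set_option linter.all false

-- ===== PACK-BEGIN S59/H563/OldC.lean
section




/-!
# NM-OLD over `ℂ` (helper563): `OldCStatement`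

Eichler–Shimura (S21) moves eigenclasses to pairs of cusp forms; `oldForms563` decomposes the
forms; `oldPeriod563`, `oldInvolution563` move the decomposition back.
-/

set_option autoImplicit false

open CongruenceSubgroup ModularCurve ModularCurve.Period ModularFormClass
open scoped MatrixGroups

namespace Fermat.Agent.S59.H563

open Fermat.Agent.S59.NM Fermat.Agent.S41.Spec Fermat.Agent.S29.H642
open Fermat.Agent.Lib.Newform Fermat.Agent.Ribet.H883

theorem r₁_add563 (N q : ℕ) (φ ψ : Additive (Gamma0 N) →+ ℂ) :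
    r₁ N q (φ + ψ) = r₁ N q φ + r₁ N q ψ := rfl

theorem r₁_sub563 (N q : ℕ) (φ ψ : Additive (Gamma0 N) →+ ℂ) :
    r₁ N q (φ - ψ) = r₁ N q φ - r₁ N q ψ := rfl

theorem r₁_smul563 (N q : ℕ) (c : ℂ) (φ : Additive (Gamma0 N) →+ ℂ) :
    r₁ N q (c • φ) = c • r₁ N q φ := rfl

theorem r₂_add563 (N q : ℕ) (φ ψ : Additive (Gamma0 N) →+ ℂ) :
    r₂ N q (φ + ψ) = r₂ N q φ + r₂ N q ψ := rfl

theorem r₂_sub563 (N q : ℕ) (φ ψ : Additive (Gamma0 N) →+ ℂ) :
    r₂ N q (φ - ψ) = r₂ N q φ - r₂ N q ψ := rfl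

theorem r₂_smul563 (N q : ℕ) (c : ℂ) (φ : Additive (Gamma0 N) →+ ℂ) :
    r₂ N q (c • φ) = c • r₂ N q φ := rfl

section

variable {N q : ℕ} [NeZero N] [NeZero q]

/-- `P(f at level N q) = r₁ P(f)`. -/
theorem periodMap_levelIncl563 (f : CuspForm (Gamma0 N) 2) :
    periodMap (N * q) (H863.levelIncl (Dvd.intro q rfl) f) = r₁ N q (periodMap N f) :=
  (oldPeriod563 N q f (H863.levelIncl (Dvd.intro q rfl) f)).1 (fun _ => rfl)

/-- `P(f(q τ)) = r₂ P(q⁻¹ f)`. -/
theorem periodMap_degen563 (f : CuspForm (Gamma0 N) 2) :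
    periodMap (N * q) (H863.degen q f) = r₂ N q (periodMap N ((q : ℂ)⁻¹ • f)) := by
  have hq : (q : ℂ) ≠ 0 := Nat.cast_ne_zero.mpr (NeZero.ne q)
  have h := (oldPeriod563 N q f (H863.degen q f)).2 (fun τ => H863.degen_apply q f τ)
  rw [Fermat.Agent.S21.H381.periodMap_smul, r₂_smul563, ← h, smul_smul, inv_mul_cancel₀ hq,
    one_smul]

theorem periodHomPair_levelIncl563 (f₁ f₂ : CuspForm (Gamma0 N) 2) :
    haveI : NeZero (N * q) := ⟨Nat.mul_ne_zero (NeZero.ne N) (NeZero.ne q)⟩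
    periodHomPair (N * q) (H863.levelIncl (Dvd.intro q rfl) f₁,
        H863.levelIncl (Dvd.intro q rfl) f₂) = r₁ N q (periodHomPair N (f₁, f₂)) := by
  haveI : NeZero (N * q) := ⟨Nat.mul_ne_zero (NeZero.ne N) (NeZero.ne q)⟩
  rw [Fermat.Agent.S21.H381.periodHomPair_apply, Fermat.Agent.S21.H381.periodHomPair_apply,
    periodMap_levelIncl563, periodMap_levelIncl563, r₁_add563, r₁_add563, r₁_sub563,
    (oldInvolution563 N q _).1, (oldInvolution563 N q _).1]

theorem periodHomPair_degen563 (f₁ f₂ : CuspForm (Gamma0 N) 2) :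
    haveI : NeZero (N * q) := ⟨Nat.mul_ne_zero (NeZero.ne N) (NeZero.ne q)⟩
    periodHomPair (N * q) (H863.degen q f₁, H863.degen q f₂) =
      r₂ N q (periodHomPair N ((q : ℂ)⁻¹ • f₁, (q : ℂ)⁻¹ • f₂)) := by
  haveI : NeZero (N * q) := ⟨Nat.mul_ne_zero (NeZero.ne N) (NeZero.ne q)⟩
  rw [Fermat.Agent.S21.H381.periodHomPair_apply, Fermat.Agent.S21.H381.periodHomPair_apply,
    periodMap_degen563, periodMap_degen563, r₂_add563, r₂_add563, r₂_sub563,
    (oldInvolution563 N q _).2, (oldInvolution563 N q _).2]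

end

/-- A homomorphism to `ℂ` kills the elements of finite order. -/
theorem map_eq_zero_of_isOfFinOrder563 {n : ℕ} (φ : Additive (Gamma0 n) →+ ℂ) (γ : Gamma0 n)
    (hγ : IsOfFinOrder γ) : φ (Additive.ofMul γ) = 0 := by
  obtain ⟨m, hm, hγm⟩ := isOfFinOrder_iff_pow_eq_one.mp hγ
  have h1 : φ (Additive.ofMul (γ ^ m)) = m • φ (Additive.ofMul γ) := by
    rw [ofMul_pow, map_nsmul]
  rw [hγm] at h1
  have h2 : φ (Additive.ofMul (1 : Gamma0 n)) = 0 := map_zero φ
  rw [h2] at h1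
  have h3 : (m : ℂ) * φ (Additive.ofMul γ) = 0 := by
    rw [← nsmul_eq_mul]; exact h1.symm
  rcases mul_eq_zero.mp h3 with h4 | h4
  · exact absurd (Nat.cast_eq_zero.mp h4) hm.ne'
  · exact h4

/-- The class of a pair of eigenforms is an eigenclass. -/
theorem isEigenclass_periodHomPair563 {N : ℕ} [NeZero N] (S : Finset ℕ) (a : ℕ → ℂ)
    (f₁ f₂ : CuspForm (Gamma0 N) 2)
    (h₁ : ∀ (l : ℕ) (hl : l.Prime) (hlN : ¬ l ∣ N), l ∉ S →
      CuspForm.heckeTLin 2 hl hlN f₁ = a l • f₁)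
    (h₂ : ∀ (l : ℕ) (hl : l.Prime) (hlN : ¬ l ∣ N), l ∉ S →
      CuspForm.heckeTLin 2 hl hlN f₂ = a l • f₂) :
    IsEigenclass N S a (periodHomPair N (f₁, f₂)) := by
  refine ⟨⟨?_, fun γ hγ => map_eq_zero_of_isOfFinOrder563 _ γ hγ⟩, ?_⟩
  · exact Fermat.Agent.S21.H381.range_periodHomPair_le (LinearMap.mem_range_self _ _)
  · intro l _ hl hlS
    have hlp : l.Prime := Fact.out
    rw [heckeTransfer_periodHomPair hlp hl f₁ f₂, h₁ l hlp hl hlS, h₂ l hlp hl hlS,
      ← Prod.smul_mk, map_smul]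

/-- Eigenclasses over `ℂ` come from pairs of eigenforms. -/
theorem exists_pair_of_isEigenclass563 {M : ℕ} [NeZero M] (S : Finset ℕ) (a : ℕ → ℂ)
    (y : Additive (Gamma0 M) →+ ℂ) (hy : IsEigenclass M S a y) :
    ∃ F₁ F₂ : CuspForm (Gamma0 M) 2, periodHomPair M (F₁, F₂) = y ∧
      (∀ (l : ℕ) (hl : l.Prime) (hlN : ¬ l ∣ M), l ∉ S →
        CuspForm.heckeTLin 2 hl hlN F₁ = a l • F₁) ∧
      (∀ (l : ℕ) (hl : l.Prime) (hlN : ¬ l ∣ M), l ∉ S →
        CuspForm.heckeTLin 2 hl hlN F₂ = a l • F₂) := by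
  obtain ⟨hinj, hrange⟩ := Fermat.Agent.S21.main M
  have hyr : y ∈ LinearMap.range (periodHomPair M) := by rw [hrange]; exact hy.1.1
  obtain ⟨⟨F₁, F₂⟩, hpair⟩ := hyr
  have eig : ∀ (l : ℕ) (hl : l.Prime) (hlM : ¬ l ∣ M), l ∉ S →
      CuspForm.heckeTLin 2 hl hlM F₁ = a l • F₁ ∧ CuspForm.heckeTLin 2 hl hlM F₂ = a l • F₂ := by
    intro l hl hlM hlS
    haveI : Fact l.Prime := ⟨hl⟩
    have hTl := hy.2 l hlM hlS
    have e : periodHomPair M
        (CuspForm.heckeTLin 2 hl hlM F₁, CuspForm.heckeTLin 2 hl hlM F₂) =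
        periodHomPair M (a l • (F₁, F₂)) := by
      rw [← heckeTransfer_periodHomPair hl hlM F₁ F₂, hpair, hTl, map_smul, hpair]
    have := hinj e
    rw [Prod.smul_mk, Prod.mk.injEq] at this
    exact this
  exact ⟨F₁, F₂, hpair, fun l hl hlM hlS => (eig l hl hlM hlS).1,
    fun l hl hlM hlS => (eig l hl hlM hlS).2⟩

/-- **OLD over `ℂ`.** -/
theorem oldC563 : OldCStatement := by
  intro N q hN hq hqN S hqS hNS a ⟨x, hx0, hx⟩ y hy
  haveI : NeZero N := ⟨hN⟩
  haveI : NeZero q := ⟨hq.ne_zero⟩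
  haveI : NeZero (N * q) := ⟨Nat.mul_ne_zero hN hq.ne_zero⟩
  haveI : NeZero (N * q * q) := ⟨Nat.mul_ne_zero (Nat.mul_ne_zero hN hq.ne_zero) hq.ne_zero⟩
  -- the system occurs in level `N`
  obtain ⟨G₁, G₂, hG, hG₁, hG₂⟩ := exists_pair_of_isEigenclass563 S a x hx
  have hocc : ∃ G : CuspForm (Gamma0 N) 2, G ≠ 0 ∧
      ∀ (l : ℕ) (hl : l.Prime) (hlN : ¬ l ∣ N), l ∉ S →
        CuspForm.heckeTLin 2 hl hlN G = a l • G := by
    by_cases h1 : G₁ = 0
    · refine ⟨G₂, ?_, hG₂⟩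
      rintro rfl
      apply hx0
      rw [← hG, h1]
      exact map_zero _
    · exact ⟨G₁, h1, hG₁⟩
  -- the forms of level `N q²`
  obtain ⟨F₁, F₂, hF, hF₁, hF₂⟩ := exists_pair_of_isEigenclass563 (insert q S) a y hy
  obtain ⟨u₁, u₂, u₃, hu₁, hu₂, hu₃, hFu⟩ := oldForms563 N q hq hqN S hqS hNS a hocc F₁ hF₁
  obtain ⟨v₁, v₂, v₃, hv₁, hv₂, hv₃, hFv⟩ := oldForms563 N q hq hqN S hqS hNS a hocc F₂ hF₂
  have hqC : (q : ℂ) ≠ 0 := Nat.cast_ne_zero.mpr hq.ne_zero
  -- the decomposition of the forms, as forms of level `N q²`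
  have dec : ∀ (F : CuspForm (Gamma0 (N * q * q)) 2) (w₁ w₂ w₃ : CuspForm (Gamma0 N) 2),
      (∀ τ : UpperHalfPlane, F τ = w₁ τ + w₂ (ModularForm.heckeDiagMatrix q • τ) +
        w₃ (ModularForm.heckeDiagMatrix q • (ModularForm.heckeDiagMatrix q • τ))) →
      F = H863.levelIncl (Dvd.intro q rfl) (H863.levelIncl (Dvd.intro q rfl) w₁) +
        H863.levelIncl (Dvd.intro q rfl) (H863.degen q w₂) +
        H863.degen q (H863.degen q w₃) := by
    intro F w₁ w₂ w₃ h
    apply DFunLike.coe_injective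
    funext τ
    rw [h τ]
    simp only [FunLike.coe_add, Pi.add_apply, H863.coe_levelIncl, H863.degen_apply]
  have hsm : ∀ (c : ℂ) (w : CuspForm (Gamma0 N) 2),
      (∀ (l : ℕ) (hl : l.Prime) (hlN : ¬ l ∣ N), l ∉ S →
        CuspForm.heckeTLin 2 hl hlN w = a l • w) →
      ∀ (l : ℕ) (hl : l.Prime) (hlN : ¬ l ∣ N), l ∉ S →
        CuspForm.heckeTLin 2 hl hlN (c • w) = a l • (c • w) := by
    intro c w hw l hl hlN hlS
    rw [map_smul, hw l hl hlN hlS, smul_comm]
  refine ⟨periodHomPair N (u₁, v₁),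
    periodHomPair N ((q : ℂ)⁻¹ • u₂, (q : ℂ)⁻¹ • v₂),
    periodHomPair N ((q : ℂ)⁻¹ • ((q : ℂ)⁻¹ • u₃), (q : ℂ)⁻¹ • ((q : ℂ)⁻¹ • v₃)),
    isEigenclass_periodHomPair563 S a _ _ hu₁ hv₁,
    isEigenclass_periodHomPair563 S a _ _ (hsm _ _ hu₂) (hsm _ _ hv₂),
    isEigenclass_periodHomPair563 S a _ _ (hsm _ _ (hsm _ _ hu₃)) (hsm _ _ (hsm _ _ hv₃)), ?_⟩
  have t1 : P₁ N q (periodHomPair N (u₁, v₁)) =
      periodHomPair (N * q * q)
        (H863.levelIncl (Dvd.intro q rfl) (H863.levelIncl (Dvd.intro q rfl) u₁),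
          H863.levelIncl (Dvd.intro q rfl) (H863.levelIncl (Dvd.intro q rfl) v₁)) := by
    unfold P₁
    rw [← periodHomPair_levelIncl563 (N := N) (q := q) u₁ v₁,
      ← periodHomPair_levelIncl563 (N := N * q) (q := q)]
  have t2 : P₂ N q (periodHomPair N ((q : ℂ)⁻¹ • u₂, (q : ℂ)⁻¹ • v₂)) =
      periodHomPair (N * q * q)
        (H863.levelIncl (Dvd.intro q rfl) (H863.degen q u₂),
          H863.levelIncl (Dvd.intro q rfl) (H863.degen q v₂)) := by
    unfold P₂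
    rw [← periodHomPair_degen563 (N := N) (q := q) u₂ v₂,
      ← periodHomPair_levelIncl563 (N := N * q) (q := q)]
  have t3 : P₃ N q (periodHomPair N
        ((q : ℂ)⁻¹ • ((q : ℂ)⁻¹ • u₃), (q : ℂ)⁻¹ • ((q : ℂ)⁻¹ • v₃))) =
      periodHomPair (N * q * q)
        (H863.degen q (H863.degen q u₃), H863.degen q (H863.degen q v₃)) := by
    unfold P₃
    rw [← periodHomPair_degen563 (N := N) (q := q) ((q : ℂ)⁻¹ • u₃) ((q : ℂ)⁻¹ • v₃),
      map_smul, map_smul, ← periodHomPair_degen563 (N := N * q) (q := q)]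
  have hsplit : ∀ A₁ B₁ C₁ A₂ B₂ C₂ : CuspForm (Gamma0 (N * q * q)) 2,
      periodHomPair (N * q * q) (A₁ + B₁ + C₁, A₂ + B₂ + C₂) =
        periodHomPair (N * q * q) (A₁, A₂) + periodHomPair (N * q * q) (B₁, B₂) +
          periodHomPair (N * q * q) (C₁, C₂) := by
    intro A₁ B₁ C₁ A₂ B₂ C₂
    have e : ((A₁ + B₁ + C₁, A₂ + B₂ + C₂) :
        CuspForm (Gamma0 (N * q * q)) 2 × CuspForm (Gamma0 (N * q * q)) 2) =
        (A₁, A₂) + (B₁, B₂) + (C₁, C₂) := rfl
    rw [e, map_add, map_add]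
  rw [← hF, dec F₁ u₁ u₂ u₃ hFu, dec F₂ v₁ v₂ v₃ hFv, t1, t2, t3, hsplit]

end Fermat.Agent.S59.H563

end
-- ===== PACK-END S59/H563/OldC.lean

-- ===== PACK-BEGIN S59/H563/Old.lean
section



/-!
# Row S59, cell NM, leaf NM-OLD — CLOSED (helper563; descent by helper63)

`old563 : NM.OldStatement`, VERBATIM: an eigenclass of level `N q²` away from `S ∪ {q}`, for a
system which occurs in level `N`, is `P₁ z₁ + P₂ z₂ + P₃ z₃` with eigenclasses `z_i` of level `N`
away from `S` (coefficients in any field of characteristic `0`).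
-/

set_option autoImplicit false

namespace Fermat.Agent.S59.H563

/-- **NM-OLD.** -/
theorem old563 : Fermat.Agent.S59.NM.OldStatement :=
  Fermat.Agent.S59.H63.oldDescent oldC563

end Fermat.Agent.S59.H563

end
-- ===== PACK-END S59/H563/Old.lean

-- ===== PACK-BEGIN S59/TW/H24/Bridge.lean
section






/-!
# Row S59, cell TW, layer 3 (AUT), leaf BRIDGE of the `Plus` form (helper24)

`bridge_of : Aut.NontrivStatement → Aut.H959.CuspMinStatement → H24.BridgeStatement` and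
`bridge_of_cuspMin : Aut.H959.CuspMinStatement → H24.BridgeStatement` (NONTRIV wired):
for the localisation `V₀` of `X_{Γ₀(N_min)}(𝒪)` at the maximal ideal of the minimal package, with
its action `a₀` of `T_min`: if `V₀` is free over `T_min`, then for the point `pt` of `T_min` defined
by an eigensystem `χ`

    η_{T_min}(pt) = pt (Ann (ker pt)) = δ₀(χ) = NM.cohCong N_min Smin (eig χ).

* `⊇` (`pairing_mem`): helper959's `pairing_mem_congIdeal` (`TW/Aut/H959/Pair.lean`).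
* `⊆` (`point_mem_cohCong`): for `c ∈ Ann (ker pt)` and a `T_min`-basis `b` of `V₀`, `x = c b₀` is
  an eigenclass; the functional `f = pt ∘ (b₀-coordinate)` of `V₀`, extended by the projector `e`
  of `V₀`, is the pairing with a cuspidal class `y` (perfectness of the Manin pairing over `𝒪`,
  `H24.exists_pairing_eq_functional`), which is an eigenclass because the `T_ℓ` are self-adjoint
  and the pairing is non-degenerate; and `⟨x, y⟩ = f (x) = pt (c)`.
-/

set_option autoImplicit false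

open Polynomial IsLocalRing CongruenceSubgroup
open scoped MatrixGroups

namespace Fermat.Agent.S59.TW.H24

open Fermat.Agent.S59.Arch Fermat.Agent.S59.TW.H959 Fermat.Agent.S59.TW.H653
  Fermat.Agent.S59.TW.Aut Fermat.Agent.S59.NM Fermat.Agent.S59.TW.Aut.H959
  Fermat.Agent.S29.H642 Fermat.Agent.S41.Spec Fermat.Agent.S59.H585

section Main

variable {p : ℕ} [hpF : Fact p.Prime]
  {𝒪 : Type} [CommRing 𝒪] [IsDomain 𝒪] [IsDiscreteValuationRing 𝒪]
  [IsAdicComplete (maximalIdeal 𝒪) 𝒪] [CharZero 𝒪]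
  {ρbar : ResidualGaloisRep (ResidueField 𝒪)} {t : PType} {Smin : Finset ℕ}
  [NeZero (wilesLevel p t Smin Smin)]
  (P₀ : HeckePkg p 𝒪 ρbar t Smin Smin)
  (V₀ : Submodule 𝒪 (Additive (Gamma0 (wilesLevel p t Smin Smin)) →+ 𝒪))
  (a₀ : P₀.T →ₐ[𝒪] Module.End 𝒪 V₀)
  (χ : CuspForm.heckeAlgebra (wilesLevel p t Smin Smin) 2 (↑Smin : Set ℕ) →+* 𝒪)
  (pt : P₀.T →ₐ[𝒪] 𝒪)

omit [CharZero 𝒪] in
/-- The eigenvalues of the point `pt` defined by `χ`. -/
theorem eigOf_eq_eig
    (hpt : ∀ x : CuspForm.heckeAlgebra (wilesLevel p t Smin Smin) 2 (↑Smin : Set ℕ),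
      pt (CuspForm.heckeLocal.π (wilesLevel p t Smin Smin) (↑Smin : Set ℕ) 𝒪 P₀.θ x) = χ x)
    {l : ℕ} (hl : l.Prime) (hlN : ¬ l ∣ wilesLevel p t Smin Smin) (hlS : l ∉ Smin) :
    eigOf (wilesLevel p t Smin Smin) (↑Smin : Set ℕ) 𝒪 P₀.θ pt l = eig χ l := by
  have hlS' : l ∉ (↑Smin : Set ℕ) := fun h => hlS (Finset.mem_coe.mp h)
  rw [eigOf_eq _ _ _ _ pt hl hlN hlS', eig_eq χ hl hlN hlS', hpt]

omit [CharZero 𝒪] in
/-- An eigenclass for `eig χ` is an eigenclass for the point `pt`. -/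
theorem isEigen_of_isEigenclass
    (hpt : ∀ x : CuspForm.heckeAlgebra (wilesLevel p t Smin Smin) 2 (↑Smin : Set ℕ),
      pt (CuspForm.heckeLocal.π (wilesLevel p t Smin Smin) (↑Smin : Set ℕ) 𝒪 P₀.θ x) = χ x)
    {x : Additive (Gamma0 (wilesLevel p t Smin Smin)) →+ 𝒪}
    (hx : NM.IsEigenclass (wilesLevel p t Smin Smin) Smin (eig χ) x) :
    IsEigen P₀ pt x := by
  intro l hlF hl hlS
  rw [hx.2 l hl hlS, eigOf_eq_eig P₀ χ pt hpt hlF.out hl hlS]

include hpF in
omit [CharZero 𝒪] in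
/-- **`⊇`**: the pairing of two `χ`-eigenclasses lies in the congruence ideal of `pt`. -/
theorem pairing_mem (h : ResidualHyp p 𝒪 ρbar Smin) (hV₀ : IsMinPart P₀ V₀)
    (ha₀ : IsMinAction P₀ V₀ a₀) (hcusp : ∀ v ∈ V₀, IsCuspidal v)
    (hpt : ∀ x : CuspForm.heckeAlgebra (wilesLevel p t Smin Smin) 2 (↑Smin : Set ℕ),
      pt (CuspForm.heckeLocal.π (wilesLevel p t Smin Smin) (↑Smin : Set ℕ) 𝒪 P₀.θ x) = χ x)
    {d : ℕ} (b : Fin d → ModOf V₀ a₀)
    (hb : Function.Bijective (Fintype.linearCombination P₀.T b)) :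
    cohCong (wilesLevel p t Smin Smin) Smin (eig χ) ≤ NC.congIdeal pt := by
  refine Ideal.span_le.mpr ?_
  rintro c ⟨x, y, hx, hy, rfl⟩
  exact pairing_mem_congIdeal P₀ V₀ a₀ h hV₀ ha₀ hcusp b hb pt hx.1
    (isEigen_of_isEigenclass P₀ χ pt hpt hx) (isEigen_of_isEigenclass P₀ χ pt hpt hy)

/-! ## The coordinate functional -/

section Coord

omit [CharZero 𝒪]

variable {P₀ V₀ a₀}

/-- `ModOf.mk` is additive. -/
theorem modOf_mk_add (v w : V₀) :
    ModOf.mk V₀ a₀ (v + w) = ModOf.mk V₀ a₀ v + ModOf.mk V₀ a₀ w := rfl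

/-- `ModOf.mk` and the scalars of `𝒪`. -/
theorem modOf_mk_smul (r : 𝒪) (v : V₀) :
    ModOf.mk V₀ a₀ (r • v) = algebraMap 𝒪 P₀.T r • ModOf.mk V₀ a₀ v := by
  apply ModOf.val_injective
  rw [ModOf.val_algebraMap_smul, ModOf.val_mk, ModOf.val_mk]

/-- `ModOf.mk` and the action of `T_min`. -/
theorem modOf_mk_act (s : P₀.T) (v : V₀) :
    ModOf.mk V₀ a₀ (a₀ s v) = s • ModOf.mk V₀ a₀ v := by
  apply ModOf.val_injective
  rw [ModOf.val_smul, ModOf.val_mk, ModOf.val_mk]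

/-- The functional `pt ∘ (i-th coordinate)` of `V₀`, for a `T_min`-basis `b` of `V₀`. -/
noncomputable def coordFun {d : ℕ} (b : Fin d → ModOf V₀ a₀)
    (hb : Function.Bijective (Fintype.linearCombination P₀.T b)) (pt : P₀.T →ₐ[𝒪] 𝒪)
    (i : Fin d) : V₀ →ₗ[𝒪] 𝒪 where
  toFun v := pt ((LinearEquiv.ofBijective (Fintype.linearCombination P₀.T b) hb).symm
    (ModOf.mk V₀ a₀ v) i)
  map_add' v w := by
    rw [modOf_mk_add, map_add, Pi.add_apply, map_add]
  map_smul' r v := by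
    rw [modOf_mk_smul, map_smul, Pi.smul_apply, smul_eq_mul, map_mul, AlgHom.commutes]
    rfl

theorem coordFun_act {d : ℕ} (b : Fin d → ModOf V₀ a₀)
    (hb : Function.Bijective (Fintype.linearCombination P₀.T b)) (pt : P₀.T →ₐ[𝒪] 𝒪)
    (i : Fin d) (s : P₀.T) (v : V₀) :
    coordFun b hb pt i (a₀ s v) = pt s * coordFun b hb pt i v := by
  show pt ((LinearEquiv.ofBijective (Fintype.linearCombination P₀.T b) hb).symm
    (ModOf.mk V₀ a₀ (a₀ s v)) i) = pt s * pt ((LinearEquiv.ofBijective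
      (Fintype.linearCombination P₀.T b) hb).symm (ModOf.mk V₀ a₀ v) i)
  rw [modOf_mk_act, map_smul, Pi.smul_apply, smul_eq_mul, map_mul]

theorem coordFun_basis {d : ℕ} (b : Fin d → ModOf V₀ a₀)
    (hb : Function.Bijective (Fintype.linearCombination P₀.T b)) (pt : P₀.T →ₐ[𝒪] 𝒪)
    (i : Fin d) (c : P₀.T) :
    coordFun b hb pt i (ModOf.val V₀ a₀ (c • b i)) = pt c := by
  classical
  show pt ((LinearEquiv.ofBijective (Fintype.linearCombination P₀.T b) hb).symm
    (ModOf.mk V₀ a₀ (ModOf.val V₀ a₀ (c • b i))) i) = pt c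
  rw [ModOf.mk_val, map_smul, Pi.smul_apply, smul_eq_mul]
  have h1 : (LinearEquiv.ofBijective (Fintype.linearCombination P₀.T b) hb).symm (b i) =
      Pi.single i 1 := by
    rw [LinearEquiv.symm_apply_eq, LinearEquiv.ofBijective_apply,
      Fintype.linearCombination_apply_single, one_smul]
  rw [h1, Pi.single_eq_same, mul_one]

end Coord

/-! ## `⊆`: the congruence ideal is generated by pairings of eigenclasses -/

include hpF in
/-- For `c ∈ Ann (ker pt)`, the class `c b_i` is a `χ`-eigenclass. -/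
theorem isEigenclass_smul_basis (ha₀ : IsMinAction P₀ V₀ a₀) (hcusp : ∀ v ∈ V₀, IsCuspidal v)
    (hpt : ∀ x : CuspForm.heckeAlgebra (wilesLevel p t Smin Smin) 2 (↑Smin : Set ℕ),
      pt (CuspForm.heckeLocal.π (wilesLevel p t Smin Smin) (↑Smin : Set ℕ) 𝒪 P₀.θ x) = χ x)
    {c : P₀.T} (hc : c ∈ NC.annAug pt) (m : ModOf V₀ a₀) :
    NM.IsEigenclass (wilesLevel p t Smin Smin) Smin (eig χ)
      ((ModOf.val V₀ a₀ (c • m) : V₀) :
        Additive (Gamma0 (wilesLevel p t Smin Smin)) →+ 𝒪) := by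
  refine ⟨hcusp _ (ModOf.val V₀ a₀ (c • m)).2, ?_⟩
  intro l hlF hl hlS
  have hlS' : l ∉ (↑Smin : Set ℕ) := fun h => hlS (Finset.mem_coe.mp h)
  -- `s c = pt (s) c`
  have hsc : ∀ s : P₀.T, s * c = algebraMap 𝒪 P₀.T (pt s) * c := by
    intro s
    have h1 : s - algebraMap 𝒪 P₀.T (pt s) ∈ NC.augIdeal pt := by
      rw [NC.mem_augIdeal, map_sub, AlgHom.commutes]
      exact sub_self _
    have h2 := (NC.mem_annAug.mp hc) _ h1
    rw [mul_sub, sub_eq_zero] at h2
    rw [mul_comm s c, h2, mul_comm]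
  have hact := act_T P₀ V₀ a₀ ha₀ hlF.out hl hlS' (ModOf.val V₀ a₀ (c • m))
  rw [← hact, ← ModOf.val_smul, smul_smul, hsc, ← smul_smul, ModOf.val_algebraMap_smul,
    Submodule.coe_smul, P₀.hπ, hpt, eig_eq χ hlF.out hl hlS']

include hpF in
/-- **`⊆`**: `pt (c)`, `c ∈ Ann (ker pt)`, is the pairing of two `χ`-eigenclasses. -/
theorem point_mem_cohCong (hV₀ : IsMinPart P₀ V₀)
    (ha₀ : IsMinAction P₀ V₀ a₀) (hcusp : ∀ v ∈ V₀, IsCuspidal v)
    (hpt : ∀ x : CuspForm.heckeAlgebra (wilesLevel p t Smin Smin) 2 (↑Smin : Set ℕ),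
      pt (CuspForm.heckeLocal.π (wilesLevel p t Smin Smin) (↑Smin : Set ℕ) 𝒪 P₀.θ x) = χ x)
    {d : ℕ} (hd : 0 < d) (b : Fin d → ModOf V₀ a₀)
    (hb : Function.Bijective (Fintype.linearCombination P₀.T b))
    {c : P₀.T} (hc : c ∈ NC.annAug pt) :
    pt c ∈ cohCong (wilesLevel p t Smin Smin) Smin (eig χ) := by
  have hN : wilesLevel p t Smin Smin ≠ 0 := NeZero.ne _
  haveI := finiteIndex_Gamma0' hN
  have hneg := neg_one_mem_Gamma0' (wilesLevel p t Smin Smin)
  obtain ⟨e, he1, he2, he3, he4, -, -, -⟩ := hV₀.exists_proj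
  set i₀ : Fin d := ⟨0, hd⟩ with hi₀
  -- the eigenclass `x = c b₀`
  set x : V₀ := ModOf.val V₀ a₀ (c • b i₀) with hx
  have hxE := isEigenclass_smul_basis P₀ V₀ a₀ χ pt ha₀ hcusp hpt hc (b i₀)
  -- the functional
  set f : V₀ →ₗ[𝒪] 𝒪 := coordFun b hb pt i₀ with hf
  set F : cuspSub 𝒪 (Gamma0 (wilesLevel p t Smin Smin)) 𝒪 →ₗ[𝒪] 𝒪 :=
    f ∘ₗ (e.codRestrict V₀ he2) ∘ₗ (cuspSub 𝒪 (Gamma0 (wilesLevel p t Smin Smin)) 𝒪).subtype
    with hF
  obtain ⟨y, hy⟩ := exists_pairing_eq_functional hneg F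
  have hyc : IsCuspidal (y : Additive (Gamma0 (wilesLevel p t Smin Smin)) →+ 𝒪) := y.2
  have hyF : ∀ (m : Additive (Gamma0 (wilesLevel p t Smin Smin)) →+ 𝒪) (hm : IsCuspidal m),
      maninPairing (Gamma0 (wilesLevel p t Smin Smin)) m y = f ⟨e m, he2 m⟩ :=
    fun m hm => hy ⟨m, hm⟩
  -- `y` is an eigenclass
  have hyE : NM.IsEigenclass (wilesLevel p t Smin Smin) Smin (eig χ)
      (y : Additive (Gamma0 (wilesLevel p t Smin Smin)) →+ 𝒪) := by
    refine ⟨hyc, ?_⟩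
    intro l hlF hl hlS
    have hlS' : l ∉ (↑Smin : Set ℕ) := fun h => hlS (Finset.mem_coe.mp h)
    have hTy : IsCuspidal (heckeTransfer hl
        (y : Additive (Gamma0 (wilesLevel p t Smin Smin)) →+ 𝒪)) :=
      isCuspidal_heckeTransfer hl hyc
    have hay : IsCuspidal ((-(eig χ l)) •
        (y : Additive (Gamma0 (wilesLevel p t Smin Smin)) →+ 𝒪)) :=
      (cuspSub 𝒪 (Gamma0 (wilesLevel p t Smin Smin)) 𝒪).smul_mem _ hyc
    have hz : IsCuspidal (heckeTransfer hl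
        (y : Additive (Gamma0 (wilesLevel p t Smin Smin)) →+ 𝒪) + (-(eig χ l)) •
        (y : Additive (Gamma0 (wilesLevel p t Smin Smin)) →+ 𝒪)) :=
      (cuspSub 𝒪 (Gamma0 (wilesLevel p t Smin Smin)) 𝒪).add_mem hTy hay
    have hz0 := eq_zero_of_pairing_eq_zero hN hz (fun m hm => by
      have hTm : IsCuspidal (heckeTransfer hl m) := isCuspidal_heckeTransfer hl hm
      rw [maninPairing_add_right hneg hm hTy hay, maninPairing_smul_right hneg _ hm hyc,
        ← pairing_hecke_dom hl hN m _ hm hyc, hyF _ hTm, hyF _ hm]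
      -- `e (T m) = T (e m) = a₀ (T_l) (e m)`
      have h1 : (⟨e (heckeTransfer hl m), he2 _⟩ : V₀) =
          a₀ (P₀.H.π (CuspForm.heckeAlgebra.T hlF.out hl hlS')) ⟨e m, he2 m⟩ := by
        apply Subtype.ext
        rw [act_T P₀ V₀ a₀ ha₀ hlF.out hl hlS' ⟨e m, he2 m⟩]
        have h2 := he4 l hl m
        rw [TK_Gamma0 hl, TK_Gamma0 hl] at h2
        exact h2
      rw [h1, hf, coordFun_act, P₀.hπ, hpt, eig_eq χ hlF.out hl hlS']
      ring)
    rw [← sub_eq_zero, sub_eq_add_neg, ← neg_smul]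
    exact hz0
  -- the value of the pairing
  have hval : maninPairing (Gamma0 (wilesLevel p t Smin Smin))
      (x : Additive (Gamma0 (wilesLevel p t Smin Smin)) →+ 𝒪) y = pt c := by
    rw [hyF _ hxE.1]
    have h1 : (⟨e (x : Additive (Gamma0 (wilesLevel p t Smin Smin)) →+ 𝒪), he2 _⟩ : V₀) = x :=
      Subtype.ext (he3 _ x.2)
    rw [h1, hf, hx, coordFun_basis]
  rw [← hval]
  exact Ideal.subset_span ⟨_, _, hxE, hyE, rfl⟩

include hpF in
/-- **BRIDGE at `(V₀, a₀)`**: `η_{T_min}(pt) = δ₀(χ)` if `V₀ ≠ 0` is cuspidal and free over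
`T_min`. -/
theorem congIdeal_eq_cohCong (h : ResidualHyp p 𝒪 ρbar Smin) (hV₀ : IsMinPart P₀ V₀)
    (ha₀ : IsMinAction P₀ V₀ a₀) (hcusp : ∀ v ∈ V₀, IsCuspidal v) (hnt : Nontrivial V₀)
    (hpt : ∀ x : CuspForm.heckeAlgebra (wilesLevel p t Smin Smin) 2 (↑Smin : Set ℕ),
      pt (CuspForm.heckeLocal.π (wilesLevel p t Smin Smin) (↑Smin : Set ℕ) 𝒪 P₀.θ x) = χ x)
    (hbasis : ∃ (d : ℕ) (b : Fin d → ModOf V₀ a₀),
      Function.Bijective (Fintype.linearCombination P₀.T b)) :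
    NC.congIdeal pt = cohCong (wilesLevel p t Smin Smin) Smin (eig χ) := by
  obtain ⟨d, b, hb⟩ := hbasis
  have hd : 0 < d := by
    rcases Nat.eq_zero_or_pos d with h0 | h0
    · exfalso
      subst h0
      obtain ⟨v, w, hvw⟩ := hnt
      apply hvw
      have key : ∀ u : V₀, u = 0 := by
        intro u
        obtain ⟨cu, hcu⟩ := hb.2 (ModOf.mk V₀ a₀ u)
        have h1 : cu = 0 := Subsingleton.elim _ _
        rw [h1, map_zero] at hcu
        exact (congrArg (ModOf.val V₀ a₀) hcu).symm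
      rw [key v, key w]
    · exact h0
  refine le_antisymm ?_ (pairing_mem P₀ V₀ a₀ χ pt h hV₀ ha₀ hcusp hpt b hb)
  unfold NC.congIdeal
  rw [Ideal.map_le_iff_le_comap]
  intro c hc
  exact point_mem_cohCong P₀ V₀ a₀ χ pt hV₀ ha₀ hcusp hpt hd b hb hc

end Main

/-- **Leaf BRIDGE of layer 3, `Plus` form**, from NONTRIV (`Aut.NontrivStatement`) and CUSP at the
minimal level (`Aut.H959.CuspMinStatement`). -/
theorem bridge_of (hNon : NontrivStatement) (hCusp : Aut.H959.CuspMinStatement) :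
    BridgeStatement := by
  intro p hpF 𝒪 _ _ _ _ _ _ ρbar Smin hh _ t ht hN P₀ χ _ _ pt hpt V₀ hV₀ a₀ ha₀ hbasis
  exact congIdeal_eq_cohCong P₀ V₀ a₀ χ pt hh hV₀ ha₀
    (hCusp p 𝒪 ρbar Smin hh t ht P₀ V₀ hV₀)
    (hNon p 𝒪 ρbar Smin hh t ht P₀ V₀ hV₀) hpt hbasis

/-- **Leaf BRIDGE, NONTRIV wired** (`Aut.H581.nontriv`): BRIDGE follows from CUSP at the minimal
level. -/
theorem bridge_of_cuspMin (hCusp : Aut.H959.CuspMinStatement) : BridgeStatement :=
  bridge_of Aut.H581.nontriv hCusp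

end Fermat.Agent.S59.TW.H24

end
-- ===== PACK-END S59/TW/H24/Bridge.lean

-- ===== PACK-BEGIN S55/E1/H957/Alg7.lean
section
/-
S55 engine E1, block ALG, leaf ALG7 (helper957): LOCAL IMAGE.
`alg7_of : ALG1Spec → ALG6Spec → ALG7aSpec → ALG7Spec` (exact Spec of `E1/SpecAlg2.lean`).
-/




set_option autoImplicit false

open CategoryTheory

namespace Fermat.Agent.S55.E1.H957

open Fermat.Agent.S55.E1

variable {G D : Type} [Group G] [Group D]

/-- `⟨f ≫ j, x⟩ = j_* ⟨f, x⟩`. -/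
lemma pair_comp {N J C : Rep.{0} ℤ G} (f : homA N J) (j : J ⟶ C) (x : groupCohomology N 1) :
    pair (f ≫ j) x = (T.coeffMap j 2).hom (pair f x) := by
  unfold pair
  rw [show T.coeffMap (f ≫ j) 2 = T.coeffMap f 2 ≫ T.coeffMap j 2 from
    groupCohomology.map_id_comp f j 2]
  rfl

/-- `H¹(G, N)` is killed by `p` if `N` is. -/
lemma nsmul_H1_eq_zero {N : Rep.{0} ℤ G} (p : ℕ) (hN : ∀ n : N.V, p • n = 0)
    (x : groupCohomology N 1) : p • x = 0 := by
  induction x using groupCohomology.H1_induction_on with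
  | h c =>
    rw [← map_nsmul]
    have : p • c = 0 := by
      ext g
      exact hN (c g)
    rw [this, map_zero]

/-- An element killed by two coprime integers is zero. -/
lemma eq_zero_of_coprime_nsmul {A : Type} [AddCommGroup A] {m n : ℕ} (h : Nat.Coprime m n)
    {x : A} (hm : m • x = 0) (hn : n • x = 0) : x = 0 := by
  have h1 : (Nat.gcd m n : ℤ) = m * Nat.gcdA m n + n * Nat.gcdB m n := Nat.gcd_eq_gcd_ab m n
  rw [h] at h1
  have h2 : ((1 : ℕ) : ℤ) • x = 0 := by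
    rw [h1, add_smul, mul_comm, mul_smul, mul_comm (n : ℤ), mul_smul, natCast_zsmul, natCast_zsmul,
      hm, hn, smul_zero, smul_zero, add_zero]
  simpa using h2

/-- **ALG7 (local image)** from ALG1, ALG6, ALG7a. -/
theorem alg7_of (h1 : ALG1Spec) (h6 : ALG6Spec) (h7a : ALG7aSpec) : ALG7Spec := by
  intro p hp G D _ _ _ _ φ hφ N C γ X γX j hNfin hNp hC hX hT hj χ
  obtain ⟨hδbij, hδnat, h6X⟩ := h6 G D φ hφ N
  obtain ⟨hflat, hcompat⟩ := h6X X
  have hsh : Function.Bijective (sh2 φ X) := H173.shapiroHom_bijective hφ 2 X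
  have hV : ∀ x : groupCohomology N 1, p • x = 0 := nsmul_H1_eq_zero p hNp
  have hVD : ∀ x : groupCohomology (Rep.res φ N) 1, p • x = 0 := nsmul_H1_eq_zero p hNp
  constructor
  · intro hχ
    -- Step 1: pointwise lifts of `χ x` to `p`-torsion classes in `H²(G, J)`
    have step1 : ∀ x, ∃ y : groupCohomology (Rep.coind φ X) 2,
        p • y = 0 ∧ (T.coeffMap j 2).hom y = χ x := by
      intro x
      by_cases hx0 : χ x = 0
      · exact ⟨0, by simp, by rw [map_zero, hx0]⟩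
      · have hrx : resAlong φ N 1 x ≠ 0 := fun h => hx0 (hχ x h)
        have hpD : p ∣ Nat.card D := by
          by_contra hnd
          have hcop : Nat.Coprime p (Nat.card D) := (Nat.Prime.coprime_iff_not_dvd hp).2 hnd
          have h1' := T.All.cardTorsion ℤ D (Rep.res φ N) 1 one_pos (resAlong φ N 1 x)
          have h2' := hVD (resAlong φ N 1 x)
          exact hrx (eq_zero_of_coprime_nsmul hcop h2' h1')
        obtain ⟨u₀, hu₀, hpu₀⟩ := (h7a p hp D X γX hX).2 hpD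
        obtain ⟨y₀, hy₀⟩ := hsh.2 u₀
        have hpy₀ : p • y₀ = 0 := hsh.1 (by rw [map_nsmul, hy₀, hpu₀, map_zero])
        have hy₀ne : y₀ ≠ 0 := fun h => hu₀ (by rw [← hy₀, h, map_zero])
        have hw₁ : (T.coeffMap j 2).hom y₀ ≠ 0 := fun h => hy₀ne (hj y₀ hpy₀ h)
        have hpw₁ : p • (T.coeffMap j 2).hom y₀ = 0 := by rw [← map_nsmul, hpy₀, map_zero]
        have hpχ : p • χ x = 0 := by rw [← map_nsmul, hV x, map_zero]
        obtain ⟨n, hn⟩ := (h7a p hp G C γ hC).1 _ _ hpw₁ hpχ hw₁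
        exact ⟨n • y₀, by rw [smul_comm, hpy₀, smul_zero], by rw [map_nsmul, hn]⟩
    choose g₀ hg₀p hg₀ using step1
    have hinj : ∀ y y' : groupCohomology (Rep.coind φ X) 2, p • y = 0 → p • y' = 0 →
        (T.coeffMap j 2).hom y = (T.coeffMap j 2).hom y' → y = y' := by
      intro y y' hy hy' h
      have := hj (y - y') (by rw [smul_sub, hy, hy', sub_zero]) (by rw [map_sub, h, sub_self])
      exact sub_eq_zero.1 this
    let g : groupCohomology N 1 →+ groupCohomology (Rep.coind φ X) 2 :=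
      AddMonoidHom.mk' g₀ (fun a b => hinj _ _ (hg₀p _)
        (by rw [smul_add, hg₀p, hg₀p, add_zero])
        (by rw [hg₀, map_add, map_add, hg₀, hg₀]))
    have hg : ∀ x, g x = g₀ x := fun _ => rfl
    -- Step 2: factor `sh ∘ g` through `res_φ`
    obtain ⟨χ', hχ'⟩ := exists_factor_of_ker_le p hp hV hVD (resAlong φ N 1).toAddMonoidHom
      ((sh2 φ X).toAddMonoidHom.comp g) (by
        intro x hx
        have h0 : g₀ x = 0 :=
          hinj _ _ (hg₀p x) (by simp) (by rw [hg₀ x, map_zero]; exact hχ x hx)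
        show sh2 φ X (g₀ x) = 0
        rw [h0, map_zero])
    -- Step 3: the character `χ_D` of `H²(D, R)`
    let e := AddEquiv.ofBijective (resδ φ N).toAddMonoidHom hδbij
    let χD : groupCohomology (Rep.res φ (stdR N)) 2 →+ groupCohomology X 2 :=
      χ'.comp e.symm.toAddMonoidHom
    -- Step 4: Tate–Nakayama at `p` for `D`
    letI : Fintype D := Fintype.ofFinite D
    obtain ⟨hRfree, hRfin, -⟩ := h1 G N hNfin
    obtain ⟨hsurj, -⟩ := hT p hp D X γX hX (Rep.res φ (stdR N)) hRfree hRfin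
    obtain ⟨f', hf'⟩ := hsurj χD
    obtain ⟨f, hf⟩ := hflat.2 f'
    refine ⟨f, fun x => ?_⟩
    rw [pair_comp, ← hg₀ x]
    congr 1
    apply hsh.1
    rw [hcompat]
    simp only at hf
    rw [hf]
    show (T.coeffMap f' 2).hom (resδ φ N (resAlong φ N 1 x)) = sh2 φ X (g₀ x)
    rw [hf' _ ⟨1, by rw [pow_one, ← map_nsmul, hVD, map_zero]⟩]
    show χ' (e.symm (resδ φ N (resAlong φ N 1 x))) = _
    have h3 : e.symm (resδ φ N (resAlong φ N 1 x)) = resAlong φ N 1 x := e.symm_apply_apply _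
    rw [h3]
    exact hχ' x
  · rintro ⟨f, hf⟩ x hx
    rw [← hf x, pair_comp]
    have h2 : sh2 φ X (pair f x) = 0 := by
      rw [hcompat, hx]
      unfold pairLoc
      rw [map_zero, map_zero]
    have h3 : pair f x = 0 := hsh.1 (by rw [h2, map_zero])
    rw [h3, map_zero]

end Fermat.Agent.S55.E1.H957

end
-- ===== PACK-END S55/E1/H957/Alg7.lean

-- ===== PACK-BEGIN S55/E1/H660/Alg7a.lean
section



/-!
# S55 engine E1, leaf ALG7a (helper660): `p`-torsion of `H²` of a class module at `p`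

`alg7a : Fermat.Agent.S55.E1.ALG7aSpec`.

`P` a Sylow `p`-subgroup of `G`.  `res : H²(G, C) → H²(P, C)` is injective on `p`-torsion
(`T.All.resIndex`), and `H²(P, C)` is cyclic of order `|P|` generated by `res γ`.
* Part 1: the `p`-torsion of a cyclic group is cyclic, killed by `p`: a nonzero element generates.
* Part 2: `p ∣ |P| = addOrderOf (res γ) ∣ d := addOrderOf γ`, `w := (d / p) • γ`.
-/

set_option autoImplicit false
set_option linter.style.haveILetI false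

namespace Fermat.Agent.S55.E1.H660

open Fermat.Agent.S55 Fermat.Agent.S55.E1

section Abstract

variable {B : Type} [AddCommGroup B]

/-- An element killed by two coprime integers is zero. -/
lemma eq_zero_of_coprime_nsmul {A : Type} [AddCommGroup A] {m p : ℕ} (h : Nat.Coprime m p)
    {x : A} (hm : m • x = 0) (hp : p • x = 0) : x = 0 := by
  have h1 : ((m : ℤ).gcd (p : ℤ)) = 1 := by
    simpa [Int.gcd_natCast_natCast] using h
  have h2 := Int.gcd_eq_gcd_ab (m : ℤ) (p : ℤ)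
  rw [h1] at h2
  have hm' : (m : ℤ) • x = 0 := by rw [natCast_zsmul]; exact hm
  have hp' : (p : ℤ) • x = 0 := by rw [natCast_zsmul]; exact hp
  have : (1 : ℤ) • x = 0 := by
    have e : (1 : ℤ) = (m : ℤ) * Int.gcdA m p + (p : ℤ) * Int.gcdB m p := by
      exact_mod_cast h2
    rw [e, add_smul, mul_comm (m : ℤ), mul_comm (p : ℤ), mul_smul, mul_smul, hm', hp',
      smul_zero, smul_zero, add_zero]
  simpa using this

/-- An integer multiple of an element killed by `p > 0` is a natural multiple. -/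
lemma exists_nsmul_of_zsmul {p : ℕ} (hp0 : 0 < p) {x : B} (hx : p • x = 0) (k : ℤ) :
    ∃ n : ℕ, k • x = n • x := by
  refine ⟨(k % (p : ℤ)).toNat, ?_⟩
  have hp' : (p : ℤ) • x = 0 := by rw [natCast_zsmul]; exact hx
  have h1 : 0 ≤ k % (p : ℤ) := Int.emod_nonneg _ (by exact_mod_cast hp0.ne')
  have h2 : ((k % (p : ℤ)).toNat : ℤ) = k % (p : ℤ) := Int.toNat_of_nonneg h1
  rw [← natCast_zsmul, h2]
  conv_lhs => rw [← Int.emod_add_mul_ediv k (p : ℤ)]
  rw [add_smul, mul_smul, smul_comm, hp', smul_zero, add_zero]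

/-- In a cyclic group, the elements killed by a prime `p` are multiples of any nonzero one. -/
lemma exists_nsmul_eq_of_cyclic {p : ℕ} (hp : p.Prime) (g : B) (hg : ∀ y : B, ∃ n : ℕ, y = n • g)
    {x y : B} (hx : p • x = 0) (hy : p • y = 0) (hx0 : x ≠ 0) : ∃ n : ℕ, y = n • x := by
  haveI : IsAddCyclic B := ⟨g, fun y => by
    obtain ⟨n, hn⟩ := hg y
    exact ⟨(n : ℤ), by simp [hn]⟩⟩
  -- the subgroup of elements killed by `p`
  let T : AddSubgroup B := (nsmulAddMonoidHom (α := B) p).ker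
  have hT : ∀ z : B, z ∈ T ↔ p • z = 0 := fun z => by
    simp [T, AddMonoidHom.mem_ker]
  obtain ⟨t, ht⟩ := IsAddCyclic.exists_generator (α := T)
  have hpt : p • (t : B) = 0 := (hT _).1 t.2
  obtain ⟨c, hc⟩ := AddSubgroup.mem_zmultiples_iff.1 (ht ⟨x, (hT x).2 hx⟩)
  obtain ⟨d, hd⟩ := AddSubgroup.mem_zmultiples_iff.1 (ht ⟨y, (hT y).2 hy⟩)
  have hc' : c • (t : B) = x := by
    have := congrArg (fun z : T => (z : B)) hc
    simpa using this
  have hd' : d • (t : B) = y := by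
    have := congrArg (fun z : T => (z : B)) hd
    simpa using this
  have hpt' : (p : ℤ) • (t : B) = 0 := by rw [natCast_zsmul]; exact hpt
  -- `p ∤ c`
  have hpc : ¬ (p : ℤ) ∣ c := by
    rintro ⟨e, rfl⟩
    apply hx0
    rw [← hc', mul_comm, mul_smul, hpt', smul_zero]
  have hcop : IsCoprime c (p : ℤ) := by
    rw [isCoprime_comm]
    exact (Nat.prime_iff_prime_int.1 hp).coprime_iff_not_dvd.2 hpc
  obtain ⟨u, v, huv⟩ := hcop
  -- `t = u • x`
  have htx : (t : B) = u • x := by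
    have : (1 : ℤ) • (t : B) = u • x := by
      rw [← huv, add_smul, mul_smul, mul_smul, hc', hpt', smul_zero, add_zero]
    simpa using this
  obtain ⟨n, hn⟩ := exists_nsmul_of_zsmul hp.pos hx (d * u)
  exact ⟨n, by rw [← hn, mul_smul, ← htx, hd']⟩

/-- A torsion element whose image has order divisible by `p` has a nonzero multiple killed
by `p`. -/
lemma exists_ne_zero_nsmul_eq_zero {A : Type} [AddCommGroup A] {p : ℕ} (hp : p.Prime)
    (r : A →+ B) (γ : A) {N : ℕ} (hN : 0 < N) (hNγ : N • γ = 0)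
    (hdvd : p ∣ addOrderOf (r γ)) : ∃ w : A, w ≠ 0 ∧ p • w = 0 := by
  have hfin : IsOfFinAddOrder γ := isOfFinAddOrder_iff_nsmul_eq_zero.2 ⟨N, hN, hNγ⟩
  have hd0 : 0 < addOrderOf γ := hfin.addOrderOf_pos
  have hpd : p ∣ addOrderOf γ := hdvd.trans (addOrderOf_map_dvd r γ)
  obtain ⟨e, he⟩ := hpd
  have he0 : 0 < e := by
    rcases Nat.eq_zero_or_pos e with h | h
    · rw [h, mul_zero] at he; omega
    · exact h
  refine ⟨e • γ, ?_, ?_⟩
  · intro h0
    have h1 := addOrderOf_dvd_of_nsmul_eq_zero h0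
    have h2 := Nat.le_of_dvd he0 h1
    have h3 : 2 ≤ p := hp.two_le
    rw [he] at h2
    nlinarith
  · rw [← mul_smul, ← he]
    exact addOrderOf_nsmul_eq_zero γ

end Abstract

/-- **ALG7a**: the `p`-torsion of `H²(G, C)` for a class module at `p`. -/
theorem alg7a : ALG7aSpec := by
  intro p hp G _ _ C γ hC
  haveI : Fact p.Prime := ⟨hp⟩
  obtain ⟨P⟩ := (inferInstance : Nonempty (Sylow p G))
  obtain ⟨-, hcard, hgen⟩ := hC (P : Subgroup G) P.isPGroup'
  have hidx : Nat.Coprime (P : Subgroup G).index p := by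
    rw [Nat.coprime_comm]
    exact (Nat.Prime.coprime_iff_not_dvd hp).2 P.not_dvd_index
  have hinj : ∀ x : groupCohomology C 2, p • x = 0 → (T.resMap C (P : Subgroup G) 2).hom x = 0 →
      x = 0 := by
    intro x hpx hx
    exact eq_zero_of_coprime_nsmul hidx
      (T.All.resIndex ℤ G C (P : Subgroup G) 2 (by norm_num) x hx) hpx
  refine ⟨?_, ?_⟩
  · intro w w' hw hw' hw0
    have h1 : (T.resMap C (P : Subgroup G) 2).hom w ≠ 0 := fun h => hw0 (hinj w hw h)
    have h2 : p • (T.resMap C (P : Subgroup G) 2).hom w = 0 := by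
      rw [← map_nsmul, hw, map_zero]
    have h3 : p • (T.resMap C (P : Subgroup G) 2).hom w' = 0 := by
      rw [← map_nsmul, hw', map_zero]
    obtain ⟨n, hn⟩ := exists_nsmul_eq_of_cyclic hp _ hgen h2 h3 h1
    refine ⟨n, ?_⟩
    have h4 : w' - n • w = 0 := by
      apply hinj
      · rw [smul_sub, hw', smul_comm, hw, smul_zero, sub_zero]
      · rw [map_sub, map_nsmul, hn, sub_self]
    exact sub_eq_zero.1 h4
  · intro hpG
    have hNγ : Nat.card G • γ = 0 := T.All.cardTorsion ℤ G C 2 (by norm_num) γ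
    -- `addOrderOf (res γ) = |P|`
    have htop : AddSubgroup.zmultiples ((T.resMap C (P : Subgroup G) 2).hom γ) = ⊤ := by
      rw [eq_top_iff]
      intro y _
      obtain ⟨n, hn⟩ := hgen y
      exact AddSubgroup.mem_zmultiples_iff.2 ⟨(n : ℤ), by simp [hn]⟩
    have hord : addOrderOf ((T.resMap C (P : Subgroup G) 2).hom γ) = Nat.card (P : Subgroup G) := by
      rw [← hcard, ← Nat.card_zmultiples, htop]
      exact Nat.card_congr (AddSubgroup.topEquiv).toEquiv
    have hpP : p ∣ Nat.card (P : Subgroup G) := P.dvd_card_of_dvd_card hpG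
    exact exists_ne_zero_nsmul_eq_zero hp
      ((T.resMap C (P : Subgroup G) 2).hom : groupCohomology C 2 →ₗ[ℤ] _).toAddMonoidHom γ
      Nat.card_pos hNγ (by rw [LinearMap.toAddMonoidHom_coe, hord]; exact hpP)

end Fermat.Agent.S55.E1.H660

end
-- ===== PACK-END S55/E1/H660/Alg7a.lean

-- ===== PACK-BEGIN S55/E1/H957/Alg7Final.lean
section
/-
S55 engine E1, block ALG (helper957): ALG7 unconditional.
`alg7 : ALG7Spec` from `H304.alg1`, `H304.alg6`, `H660.alg7a` (all on main).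
-/





set_option autoImplicit false

namespace Fermat.Agent.S55.E1.H957

open Fermat.Agent.S55.E1

/-- **ALG7 (local image)**, unconditional. -/
theorem alg7 : ALG7Spec := alg7_of H304.alg1 H304.alg6 H660.alg7a

end Fermat.Agent.S55.E1.H957

end
-- ===== PACK-END S55/E1/H957/Alg7Final.lean

-- ===== PACK-BEGIN S59/TW/Aut/H673/DictRAux.lean
section



/-!
# S59 / cell TW, AUT leaf CMP, DICT-R — auxiliary lemmas  (helper673)

* `exists_unit_crt_h673` : Chinese remainder theorem for units, `M = M' · q`, `(M', q) = 1`: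
  a unit `d` modulo `M` with `d ≡ 1 mod M'` and prescribed class modulo `q`;
* `exists_unit_red_h673` : a unit `d` modulo `M_Q` with `d ≡ 1 mod M_Q / q_j` and
  `red d = Pi.mulSingle j u`;
* `factorization_wilesLevel_union_h673` : `q_j² ∥ N_{Smin ∪ Q}`;
* `ringHom_lift_h673` : a ring homomorphism commutes with `FreeAlgebra.lift ℤ`.
-/

set_option autoImplicit false
set_option linter.style.haveILetI false
set_option linter.unusedSectionVars false

open CongruenceSubgroup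
open scoped MatrixGroups

namespace Fermat.Agent.S59.TW.Aut.H673

open Fermat.Agent.S59.Arch Fermat.Agent.S59.TW.H959 Fermat.Agent.S59.TW.H653
open Fermat.Agent.S59.TW.Aut Fermat.Agent.S59.TW.H658

/-- A ring homomorphism commutes with the evaluation of integral noncommutative polynomials. -/
theorem ringHom_lift_h673 {X : Type*} {B C : Type*} [Ring B] [Ring C] (f : B →+* C)
    (β : X → B) (P : FreeAlgebra ℤ X) :
    f (FreeAlgebra.lift ℤ β P) = FreeAlgebra.lift ℤ (fun x => f (β x)) P := by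
  have h : f.toIntAlgHom.comp (FreeAlgebra.lift ℤ β) = FreeAlgebra.lift ℤ (fun x => f (β x)) := by
    apply FreeAlgebra.hom_ext
    funext x
    simp
  rw [← h]
  rfl

/-- **CRT for units.** -/
theorem exists_unit_crt_h673 {M M' q : ℕ} (hq : q.Prime) (hM : M = M' * q)
    (hcop : Nat.Coprime M' q) (u : (ZMod q)ˣ) :
    ∃ d : (ZMod M)ˣ, ZMod.unitsMap (Dvd.intro _ hM.symm : M' ∣ M) d = 1 ∧
      ZMod.unitsMap (Dvd.intro_left _ hM.symm : q ∣ M) d = u := by
  subst hM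
  haveI : NeZero q := ⟨hq.ne_zero⟩
  obtain ⟨k, hk1, hk2⟩ := Nat.chineseRemainder hcop 1 (u : ZMod q).val
  have hc1 : Nat.Coprime k M' := by
    have := hk1.gcd_eq
    rw [Nat.coprime_iff_gcd_eq_one, this]
    exact Nat.gcd_one_left _
  have hc2 : Nat.Coprime k q := by
    have := hk2.gcd_eq
    rw [Nat.coprime_iff_gcd_eq_one, this]
    exact ZMod.val_coe_unit_coprime u
  have hc : Nat.Coprime k (M' * q) := Nat.Coprime.mul_right hc1 hc2
  refine ⟨ZMod.unitOfCoprime k hc, ?_, ?_⟩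
  · apply Units.ext
    rw [ZMod.unitsMap_def, Units.coe_map, ZMod.coe_unitOfCoprime, Units.val_one,
      MonoidHom.coe_coe, map_natCast]
    have := (ZMod.natCast_eq_natCast_iff k 1 M').mpr hk1
    rw [this, Nat.cast_one]
  · apply Units.ext
    rw [ZMod.unitsMap_def, Units.coe_map, ZMod.coe_unitOfCoprime, MonoidHom.coe_coe,
      map_natCast]
    have := (ZMod.natCast_eq_natCast_iff k (u : ZMod q).val q).mpr hk2
    rw [this]
    exact ZMod.natCast_zmod_val _

section Level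

variable (p : ℕ) [Fact p.Prime] (t : PType) (Smin : Finset ℕ) {r : ℕ} (qv : Fin r → ℕ)

/-- A unit `d` modulo `M_Q`, `≡ 1` modulo `M_Q / q_j`, with `red d = Pi.mulSingle j u`. -/
theorem exists_unit_red_h673 (hpS : p ∈ Smin) (hSp : ∀ q ∈ Smin, q.Prime)
    (hqi : Function.Injective qv) (hq : ∀ i, (qv i).Prime ∧ qv i ∉ Smin) (j : Fin r)
    (u : (ZMod (qv j))ˣ) :
    ∃ (M' : ℕ) (hM : bLevel (wilesLevel p t Smin Smin) qv = M' * qv j)
      (d : (ZMod (bLevel (wilesLevel p t Smin Smin) qv))ˣ),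
      ZMod.unitsMap (Dvd.intro _ hM.symm : M' ∣ bLevel (wilesLevel p t Smin Smin) qv) d = 1 ∧
      red (wilesLevel p t Smin Smin) qv d = Pi.mulSingle j u := by
  classical
  obtain ⟨M', hM, hcop⟩ := exists_bLevel_eq p t Smin qv hpS hSp hqi hq j
  obtain ⟨d, hd1, hd2⟩ := exists_unit_crt_h673 (hq j).1 hM hcop u
  refine ⟨M', hM, d, hd1, ?_⟩
  funext i
  by_cases hij : i = j
  · subst hij
    rw [Pi.mulSingle_eq_same, red_apply]
    exact hd2
  · rw [Pi.mulSingle_eq_of_ne hij, red_apply]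
    have hdvd : qv i ∣ M' := by
      have h1 : qv i ∣ M' * qv j := hM ▸ dvd_bLevel _ qv i
      have h2 : Nat.Coprime (qv i) (qv j) :=
        (Nat.coprime_primes (hq i).1 (hq j).1).mpr fun h => hij (hqi h)
      exact h2.dvd_of_dvd_mul_right h1
    have h3 : ZMod.unitsMap (dvd_bLevel (wilesLevel p t Smin Smin) qv i) d =
        ZMod.unitsMap hdvd (ZMod.unitsMap
          (Dvd.intro _ hM.symm : M' ∣ bLevel (wilesLevel p t Smin Smin) qv) d) := by
      rw [← MonoidHom.comp_apply, ZMod.unitsMap_comp]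
    rw [h3, hd1, map_one]

/-- `q_j² ∥ N_{Smin ∪ Q}`. -/
theorem factorization_wilesLevel_union_h673 (hpS : p ∈ Smin) (hSp : ∀ q ∈ Smin, q.Prime)
    (hqi : Function.Injective qv) (hq : ∀ i, (qv i).Prime ∧ qv i ∉ Smin) (j : Fin r)
    (hN₀ : wilesLevel p t Smin Smin ≠ 0) :
    (wilesLevel p t Smin (Smin ∪ Finset.univ.image qv)).factorization (qv j) = 2 := by
  classical
  rw [wilesLevel_union p t Smin qv hqi (fun i => (hq i).2)]
  have hprod : (∏ i, qv i ^ 2) ≠ 0 :=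
    Finset.prod_ne_zero_iff.mpr fun i _ => pow_ne_zero _ (hq i).1.ne_zero
  rw [Nat.factorization_mul hN₀ hprod, Finsupp.add_apply]
  have h1 : (wilesLevel p t Smin Smin).factorization (qv j) = 0 :=
    Nat.factorization_eq_zero_of_not_dvd fun h =>
      (hq j).2 (mem_of_dvd_wilesLevel p t Smin hpS hSp (hq j).1 h)
  rw [h1, zero_add, Nat.factorization_prod (fun i _ => pow_ne_zero _ (hq i).1.ne_zero),
    Finsupp.finsetSum_apply]
  rw [Finset.sum_eq_single j]
  · rw [Nat.factorization_pow, Finsupp.smul_apply, (hq j).1.factorization_self, smul_eq_mul]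
  · intro i _ hij
    rw [Nat.factorization_pow, Finsupp.smul_apply, (hq i).1.factorization,
      Finsupp.single_eq_of_ne (fun h => hij (hqi h.symm)), smul_zero]
  · intro h
    exact absurd (Finset.mem_univ j) h

end Level

end Fermat.Agent.S59.TW.Aut.H673

end
-- ===== PACK-END S59/TW/Aut/H673/DictRAux.lean

-- ===== PACK-BEGIN Ribet/H883/WallInputs.lean
section
/-
RIBET row 38, WALL-p (helper883): the two `W`-form inputs of
`H944.Wall.wallGood_of_filtration` that are pure Galois theory of `W[p]`: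

* `notMultTypeW : Wall.NotMultTypeWStatement`  (NMT-W): an irreducible `W[p]` is not of
  multiplicative type at `p` (`det = χ`, `H403.det_eq_of_apply_root`, and `χ` is ramified at `p`);
* `nonEisW : Wall.NonEisWStatement`            (NE-W): the eigensystem of an irreducible `W[p]`
  is not Eisenstein (`H523.exists_prime_not_eisenstein`).
-/





set_option autoImplicit false

open WeierstrassCurve WeierstrassCurve.Affine WeierstrassCurve.Affine.Point

namespace Fermat.Agent.Ribet.H883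

open Fermat.Agent.Ribet.H944.Wall Fermat.Agent.S55.H414

/-- **(NMT-W)** an irreducible `W[p]` (`p` odd) is not of multiplicative type at `p`. -/
theorem notMultTypeW : NotMultTypeWStatement := by
  intro W p hΔ hp hp2 hirr A hA H
  have : Fact p.Prime := ⟨hp⟩
  obtain ⟨σ, hσ, hne⟩ := Fermat.Agent.Ribet.H403.exists_inertia_cycloPow_ne_one p hp2 A hA
  apply hne
  set c : ℕ := ((cycloPow p σ : (ZMod p)ˣ) : ZMod p).val with hc
  have hroot : ∀ ζ : AlgebraicClosure ℚ, ζ ^ p = 1 → σ ζ = ζ ^ c :=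
    fun ζ hζ => Fermat.Agent.Ribet.H403.apply_root_eq_pow_cycloPow p σ ζ hζ
  have hsc : ∀ x : ETorsion (W.map (Int.castRingHom ℚ)) p, σ • x = c • x := H σ hσ c hroot
  have hdet := Fermat.Agent.Ribet.H403.det_eq_of_apply_root W p hΔ
    (Fermat.Agent.Ribet.H52.exists_nonscalar_of_irreducible_h52 W hΔ p hirr) σ c hroot
  have hΔQ : (W.map (Int.castRingHom ℚ)).Δ ≠ 0 := by
    rw [WeierstrassCurve.map_Δ]
    simpa using hΔ
  have hdim : Module.finrank (ZMod p) (ETorsion (W.map (Int.castRingHom ℚ)) p) = 2 :=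
    Fermat.Agent.Ribet.H403.finrank_tors (W.map (Int.castRingHom ℚ)) hΔQ p
  have hend : galoisRepModuleEnd (S := ℚ) (K := AlgebraicClosure ℚ)
      (W.map (Int.castRingHom ℚ)) p σ
      = (c : ZMod p) •
        (LinearMap.id : ETorsion (W.map (Int.castRingHom ℚ)) p →ₗ[ZMod p] _) := by
    apply LinearMap.ext
    intro x
    rw [galoisRepModuleEnd_apply, hsc x, LinearMap.smul_apply, LinearMap.id_apply,
      Nat.cast_smul_eq_nsmul]
  rw [hend, LinearMap.det_smul, LinearMap.det_id, mul_one, hdim] at hdet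
  have hcu : (c : ZMod p) = ((cycloPow p σ : (ZMod p)ˣ) : ZMod p) := by
    rw [hc, ZMod.natCast_zmod_val]
  have hc0 : (c : ZMod p) ≠ 0 := by
    rw [hcu]
    exact Units.ne_zero _
  have hc1 : (c : ZMod p) = 1 := by
    have h : (c : ZMod p) * (c : ZMod p) = (c : ZMod p) * 1 := by
      rw [mul_one, ← pow_two]
      exact hdet
    exact mul_left_cancel₀ hc0 h
  apply Units.ext
  rw [← hcu, hc1, Units.val_one]

/-- **(NE-W)** the eigensystem of an irreducible `W[p]` is not Eisenstein. -/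
theorem nonEisW : NonEisWStatement := by
  intro W p hΔ hp _ hirr S
  have hΔQ : (W.map (Int.castRingHom ℚ)).Δ ≠ 0 := by
    rw [WeierstrassCurve.map_Δ]
    simpa using hΔ
  obtain ⟨ℓ, hℓ, hℓS, -, hne⟩ :=
    Fermat.Agent.Ribet.H523.exists_prime_not_eisenstein (W.map (Int.castRingHom ℚ)) hΔQ W
      ⟨1, one_smul _ _⟩ p hp hirr S
  exact ⟨ℓ, hℓ, hℓS, hne⟩

end Fermat.Agent.Ribet.H883

end
-- ===== PACK-END Ribet/H883/WallInputs.lean

-- ===== PACK-BEGIN S59/LoSqC/H117/NewA.lean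
section



/-!
# S59 / cell (C) LO-SQ, leaf W-NEW (helper117), part 2: the leaves in `Eng.TripleCtx` form

"STEP-A WITHOUT the power `q² - 1`": for `f ≠ 0` NEW (`N_α f`, `N_β f` constants times `m`-th
powers, `q ∤ m`) in a three-component context `Eng.TripleCtx`:

* `LeafNewMinus`  (`gcd(q + 1, m) = 1`; covers `p ∣ q - 1`):
    `f = w ^ s * G ^ m * u`, `u ≡ 1` on `V₁`, `V₃`, `u` a unit of `V₂` with `u ^ (q - 1) ≡ G₂ ^ m`
    on `V₂`, and `N_α u`, `N_β u` are `m`-th powers.      `h117_leafNewMinus : LeafNewMinus`.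
* `LeafNewPlus`   (`gcd(q - 1, m) = 1`; covers `p ∣ q + 1`; the slope is a HYPOTHESIS, to be
    supplied by W-SLOPE):  slope zero ⟹ `f = w ^ s * G ^ m * u`, `u ≡ 1` on `V₁`, `V₂`, `V₃`,
    norms `m`-th powers = the conclusion of `Alg3.LeafStepA` WITHOUT the power.
                                                          `h117_leafNewPlus : LeafNewPlus`.
* `LeafNewZero`   (no coprimality beyond `q ∤ m`): slope zero ⟹ the conclusion of
    `LeafNewMinus`.                                       `h117_leafNewZero : LeafNewZero`.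
* `LeafSlope`     the SLOPE of a new `f`: orders `≡ t·(1, q-1, 1) + (d, -d, 0)` modulo `m`,
    `(q + 1) d ≡ 0 mod m`.                                `h117_leafSlope : LeafSlope`.

Plumbing = `S36.H586.leafStepA` (on main); cores = `NewCore.lean`.
-/

set_option autoImplicit false
set_option linter.style.haveILetI false
set_option linter.unusedSectionVars false
set_option linter.unusedVariables false
set_option synthInstance.maxHeartbeats 400000
set_option maxHeartbeats 1600000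

noncomputable section

namespace Fermat.Agent.S59.LoSqC.H117

open Fermat.Agent Fermat.Agent.S36.Eng Fermat.Agent.S36.H586
open Fermat.Agent.S18.H138 (chart baseField)
open Fermat.Agent.A2.H12 (IsSheet)

/-! ## The statements -/

/-- The conclusion "`f = w ^ s * G ^ m * u`, `u ≡ 1` on `V₁`, `V₃`, residue of `u ^ (q - 1)` on
`V₂` an `m`-th power, norms of `u` `m`-th powers". -/
def NewForm {R F F' : Type*} [CommRing R] [Field F] [Field F'] [Algebra R F]
    (w : R) (q m : ℕ) (Nα Nβ : F → F') (V₁ V₂ V₃ : ValuationSubring F) (f : F) : Prop :=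
  ∃ (s : ℤ) (G u G₂ : F) (k₁ k₂ : F'), G ≠ 0 ∧
    f = algebraMap R F w ^ s * G ^ m * u ∧
    u - 1 ∈ V₁.nonunits ∧ UnitAt V₂ u ∧ u - 1 ∈ V₃.nonunits ∧
    UnitAt V₂ G₂ ∧ u ^ (q - 1) - G₂ ^ m ∈ V₂.nonunits ∧
    Nα u = k₁ ^ m ∧ Nβ u = k₂ ^ m

/-- Slope zero: `f = w ^ s₀ * g₀ ^ m * (unit of V₁, V₂, V₃)`. -/
def SlopeZero {R F : Type*} [CommRing R] [Field F] [Algebra R F]
    (w : R) (m : ℕ) (V₁ V₂ V₃ : ValuationSubring F) (f : F) : Prop :=
  ∃ (s₀ : ℤ) (g₀ : F), g₀ ≠ 0 ∧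
    UnitAt V₁ (f * (algebraMap R F w ^ s₀)⁻¹ * (g₀ ^ m)⁻¹) ∧
    UnitAt V₂ (f * (algebraMap R F w ^ s₀)⁻¹ * (g₀ ^ m)⁻¹) ∧
    UnitAt V₃ (f * (algebraMap R F w ^ s₀)⁻¹ * (g₀ ^ m)⁻¹)

/-- **Leaf W-NEW, case `gcd(q + 1, m) = 1`.** -/
def LeafNewMinus : Prop :=
  ∀ {R E F F' : Type} [CommRing R] [IsDomain R] [IsDiscreteValuationRing R]
    [HenselianLocalRing R] [IsAlgClosed (IsLocalRing.ResidueField R)]
    [Field E] [CharZero E] [Algebra R E] [IsFractionRing R E]
    [Field F] [Algebra E F] [Algebra R F] [IsScalarTower R E F]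
    [Field F'] [Algebra E F'] [Algebra R F'] [IsScalarTower R E F']
    (w : R) (_ : Irreducible w) (q : ℕ) (_ : q.Prime)
    (_ : (q : R) ∈ IsLocalRing.maximalIdeal R)
    (α β : F' →ₐ[E] F) (x : F) (x' : F')
    (V₁ V₂ V₃ : ValuationSubring F) (V₁' V₂' : ValuationSubring F')
    (_ : TripleCtx w q α β x x' V₁ V₂ V₃ V₁' V₂'),
    ∀ m : ℕ, 0 < m → ¬ q ∣ m → Nat.Coprime (q + 1) m →
      ∀ f : F, f ≠ 0 → S35.G.NormPow α m f → S35.G.NormPow β m f →
        NewForm w q m (S29.H395.normAlong α) (S29.H395.normAlong β) V₁ V₂ V₃ f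

/-- **Leaf W-NEW, slope zero given** (no coprimality beyond `q ∤ m`). -/
def LeafNewZero : Prop :=
  ∀ {R E F F' : Type} [CommRing R] [IsDomain R] [IsDiscreteValuationRing R]
    [HenselianLocalRing R] [IsAlgClosed (IsLocalRing.ResidueField R)]
    [Field E] [CharZero E] [Algebra R E] [IsFractionRing R E]
    [Field F] [Algebra E F] [Algebra R F] [IsScalarTower R E F]
    [Field F'] [Algebra E F'] [Algebra R F'] [IsScalarTower R E F']
    (w : R) (_ : Irreducible w) (q : ℕ) (_ : q.Prime)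
    (_ : (q : R) ∈ IsLocalRing.maximalIdeal R)
    (α β : F' →ₐ[E] F) (x : F) (x' : F')
    (V₁ V₂ V₃ : ValuationSubring F) (V₁' V₂' : ValuationSubring F')
    (_ : TripleCtx w q α β x x' V₁ V₂ V₃ V₁' V₂'),
    ∀ m : ℕ, 0 < m → ¬ q ∣ m →
      ∀ f : F, f ≠ 0 → S35.G.NormPow α m f → S35.G.NormPow β m f →
        _root_.Fermat.Agent.S59.LoSqC.H117.SlopeZero w m V₁ V₂ V₃ f →
        NewForm w q m (S29.H395.normAlong α) (S29.H395.normAlong β) V₁ V₂ V₃ f

/-- **Leaf W-NEW, case `gcd(q - 1, m) = 1`, slope zero given**: the conclusion of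
`Alg3.LeafStepA` WITHOUT the power `q² - 1`. -/
def LeafNewPlus : Prop :=
  ∀ {R E F F' : Type} [CommRing R] [IsDomain R] [IsDiscreteValuationRing R]
    [HenselianLocalRing R] [IsAlgClosed (IsLocalRing.ResidueField R)]
    [Field E] [CharZero E] [Algebra R E] [IsFractionRing R E]
    [Field F] [Algebra E F] [Algebra R F] [IsScalarTower R E F]
    [Field F'] [Algebra E F'] [Algebra R F'] [IsScalarTower R E F']
    (w : R) (_ : Irreducible w) (q : ℕ) (_ : q.Prime)
    (_ : (q : R) ∈ IsLocalRing.maximalIdeal R)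
    (α β : F' →ₐ[E] F) (x : F) (x' : F')
    (V₁ V₂ V₃ : ValuationSubring F) (V₁' V₂' : ValuationSubring F')
    (_ : TripleCtx w q α β x x' V₁ V₂ V₃ V₁' V₂'),
    ∀ m : ℕ, 0 < m → ¬ q ∣ m → Nat.Coprime (q - 1) m →
      ∀ f : F, f ≠ 0 → S35.G.NormPow α m f → S35.G.NormPow β m f →
        _root_.Fermat.Agent.S59.LoSqC.H117.SlopeZero w m V₁ V₂ V₃ f →
        ∃ (s : ℤ) (G u : F) (k₁ k₂ : F'), G ≠ 0 ∧
          f = algebraMap R F w ^ s * G ^ m * u ∧
          u - 1 ∈ V₁.nonunits ∧ u - 1 ∈ V₂.nonunits ∧ u - 1 ∈ V₃.nonunits ∧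
          S29.H395.normAlong α u = k₁ ^ m ∧ S29.H395.normAlong β u = k₂ ^ m

/-- **Leaf SLOPE (valuation part)**: the orders of a new `f` at `V₁`, `V₂`, `V₃` are
`t·(1, q - 1, 1) + (d, -d, 0)` modulo `m`, with `(q + 1) d ≡ 0 mod m`:
`f = w ^ t * g₀ ^ m * f₀` with `f₀` of orders `(d, -d, 0)`. -/
def LeafSlope : Prop :=
  ∀ {R E F F' : Type} [CommRing R] [IsDomain R] [IsDiscreteValuationRing R]
    [HenselianLocalRing R] [IsAlgClosed (IsLocalRing.ResidueField R)]
    [Field E] [CharZero E] [Algebra R E] [IsFractionRing R E]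
    [Field F] [Algebra E F] [Algebra R F] [IsScalarTower R E F]
    [Field F'] [Algebra E F'] [Algebra R F'] [IsScalarTower R E F']
    (w : R) (_ : Irreducible w) (q : ℕ) (_ : q.Prime)
    (_ : (q : R) ∈ IsLocalRing.maximalIdeal R)
    (α β : F' →ₐ[E] F) (x : F) (x' : F')
    (V₁ V₂ V₃ : ValuationSubring F) (V₁' V₂' : ValuationSubring F')
    (_ : TripleCtx w q α β x x' V₁ V₂ V₃ V₁' V₂'),
    ∀ m : ℕ, 0 < m → ¬ q ∣ m →
      ∀ f : F, f ≠ 0 → S35.G.NormPow α m f → S35.G.NormPow β m f →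
        ∀ π : F, UnifAt V₂ π →
        ∃ (t d d₁ : ℤ) (g₀ : F), g₀ ≠ 0 ∧ ((q : ℤ) + 1) * d = m * d₁ ∧
          UnitAt V₁ (f * (algebraMap R F w ^ (t + d))⁻¹ * (g₀ ^ m)⁻¹) ∧
          UnitAt V₂ (f * (algebraMap R F w ^ t)⁻¹ * (π ^ (-d))⁻¹ * (g₀ ^ m)⁻¹) ∧
          UnitAt V₃ (f * (algebraMap R F w ^ t)⁻¹ * (g₀ ^ m)⁻¹)

/-! ## The context package -/

section Pack

variable {R E F F' : Type} [CommRing R] [IsDomain R] [IsDiscreteValuationRing R]
  [HenselianLocalRing R] [IsAlgClosed (IsLocalRing.ResidueField R)]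
  [Field E] [CharZero E] [Algebra R E] [IsFractionRing R E]
  [Field F] [Algebra E F] [Algebra R F] [IsScalarTower R E F]
  [Field F'] [Algebra E F'] [Algebra R F'] [IsScalarTower R E F']

/-- Everything the abstract cores need, from a `TripleCtx`, for a GIVEN uniformiser `π` of
`V₂`. -/
theorem h117_pack (w : R) (hw : Irreducible w) (q : ℕ) (hq : q.Prime)
    (α β : F' →ₐ[E] F) (x : F) (x' : F')
    (V₁ V₂ V₃ : ValuationSubring F) (V₁' V₂' : ValuationSubring F')
    (T : TripleCtx w q α β x x' V₁ V₂ V₃ V₁' V₂') (π : F) (hπ : UnifAt V₂ π) :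
    (α : F' →+* F) (algebraMap R F' w) = algebraMap R F w ∧
    (β : F' →+* F) (algebraMap R F' w) = algebraMap R F w ∧
    NormTable (α : F' →+* F) (S29.H395.normAlong α) q (algebraMap R F' w) π V₁' V₂' V₁ V₂ V₃ ∧
    NormTable (β : F' →+* F) (S29.H395.normAlong β) q (algebraMap R F' w) π V₂' V₁' V₃ V₂ V₁ ∧
    algebraMap R F' w ≠ 0 ∧
    V₁'.valuation (algebraMap R F' w) < 1 ∧ V₂'.valuation (algebraMap R F' w) < 1 ∧
    IsOrd V₂ π (algebraMap R F w) ((q : ℤ) - 1) ∧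
    (∀ y : F, y ≠ 0 → ∃ a : ℤ, IsOrd V₁ (algebraMap R F w) y a) ∧
    (∀ y : F, y ≠ 0 → ∃ a : ℤ, IsOrd V₂ π y a) ∧
    (∀ y : F, y ≠ 0 → ∃ a : ℤ, IsOrd V₃ (algebraMap R F w) y a) ∧
    (∀ y : F', y ≠ 0 → ∃ a : ℤ, IsOrd V₁' (algebraMap R F' w) y a) ∧
    (∀ y : F', y ≠ 0 → ∃ a : ℤ, IsOrd V₂' (algebraMap R F' w) y a) ∧
    (∀ a b c : ℤ, ∃ g : F, IsOrd V₁ (algebraMap R F w) g a ∧ IsOrd V₂ π g b ∧
      IsOrd V₃ (algebraMap R F w) g c) ∧
    (∀ g₁ g₂ g₃ : F, V₁.valuation g₁ = 1 → V₂.valuation g₂ = 1 →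
      V₃.valuation g₃ = 1 → ∃ g : F, PU V₁ (g / g₁) ∧ PU V₂ (g / g₂) ∧ PU V₃ (g / g₃)) := by
  haveI := T.dvr₁
  haveI := T.dvr₂
  haveI := T.dvr₃
  have hq2 : 2 ≤ q := hq.two_le
  -- `w = unit · π ^ (q - 1)` for the GIVEN uniformiser `π`
  have hram : UnitAt V₂ (algebraMap R F w * (π ^ (q - 1))⁻¹) := by
    obtain ⟨π₀, hπ₀, hram₀⟩ := T.ram₂
    -- `π₀ / π` is a unit of `V₂`
    obtain ⟨a, ha⟩ := exists_isOrd_of_unifAt V₂ hπ π₀ hπ₀.1
    obtain ⟨b, hb⟩ := exists_isOrd_of_unifAt V₂ hπ₀ π hπ.1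
    have hπv : V₂.valuation π < 1 := UnifAt.val_lt_one hπ
    have hπ₀v : V₂.valuation π₀ < 1 := UnifAt.val_lt_one hπ₀
    -- both are uniformisers: `v(π₀) = v(π)`
    have h1 : V₂.valuation π₀ ≤ V₂.valuation π := by
      have := hπ.2.2 π₀ hπ₀.2.1
      have h2 := (ValuationSubring.valuation_le_one_iff V₂ _).2 this
      rw [map_mul, map_inv₀] at h2
      have hpos : 0 < V₂.valuation π := zero_lt_iff.2 ((Valuation.ne_zero_iff _).2 hπ.1)
      rwa [← div_eq_mul_inv, div_le_one₀ hpos] at h2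
    have h2 : V₂.valuation π ≤ V₂.valuation π₀ := by
      have := hπ₀.2.2 π hπ.2.1
      have h2 := (ValuationSubring.valuation_le_one_iff V₂ _).2 this
      rw [map_mul, map_inv₀] at h2
      have hpos : 0 < V₂.valuation π₀ := zero_lt_iff.2 ((Valuation.ne_zero_iff _).2 hπ₀.1)
      rwa [← div_eq_mul_inv, div_le_one₀ hpos] at h2
    have heq : V₂.valuation π₀ = V₂.valuation π := le_antisymm h1 h2
    rw [unitAt_iff] at hram₀ ⊢
    rw [map_mul, map_inv₀, map_pow] at hram₀ ⊢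
    rw [← heq]
    exact hram₀
  have hαw : α (algebraMap R F' w) = algebraMap R F w := by
    rw [IsScalarTower.algebraMap_apply R E F', α.commutes,
      ← IsScalarTower.algebraMap_apply R E F]
  have hβw : β (algebraMap R F' w) = algebraMap R F w := by
    rw [IsScalarTower.algebraMap_apply R E F', β.commutes,
      ← IsScalarTower.algebraMap_apply R E F]
  have hαw' : (α : F' →+* F) (algebraMap R F' w) = algebraMap R F w := hαw
  have hβw' : (β : F' →+* F) (algebraMap R F' w) = algebraMap R F w := hβw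
  have hwF0 : algebraMap R F w ≠ 0 := T.unif₁.1
  have hw'0 : algebraMap R F' w ≠ 0 := by
    intro h
    rw [h, map_zero] at hαw
    exact hwF0 hαw.symm
  obtain ⟨s₁, s₂, s₃⟩ := Fermat.Agent.S36.H919.h919_isSheet_of_ctx hq2 T
  haveI : CharZero F := charZero_of_injective_algebraMap (algebraMap E F).injective
  haveI : FiniteDimensional (baseField R x) F :=
    Fermat.Agent.S36.H919.h919_finiteDimensional E T.hfin
  have hinj : Function.Injective (algebraMap R F) := Fermat.Agent.S36.H919.h919_injective E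
  have hxR : Transcendental R x := Fermat.Agent.S36.H919.h919_transcendental E T.hx
  have resα₁ : ∀ y : F, V₁.valuation y = 1 → ∃ a : F', V₁.valuation (y - α a) < 1 :=
    res_lift_of_chart hinj hw.prime hxR s₁ (α : F' →+* F)
      (fun b hb => let ⟨b', _, h⟩ := T.res_α₁ b hb; ⟨b', h⟩)
  have resα₂ : ∀ y : F, V₂.valuation y = 1 → ∃ a : F', V₂.valuation (y - α a) < 1 :=
    res_lift_of_chart hinj hw.prime hxR s₂ (α : F' →+* F)
      (fun b hb => let ⟨b', _, h⟩ := T.res_α₂ b hb; ⟨b', h⟩)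
  have resβ₃ : ∀ y : F, V₃.valuation y = 1 → ∃ a : F', V₃.valuation (y - β a) < 1 :=
    res_lift_of_chart hinj hw.prime hxR s₃ (β : F' →+* F)
      (fun b hb => let ⟨b', _, h⟩ := T.res_β₃ b hb; ⟨b', h⟩)
  have resβ₂ : ∀ y : F, V₂.valuation y = 1 → ∃ a : F', V₂.valuation (y - β a) < 1 :=
    res_lift_of_chart hinj hw.prime hxR s₂ (β : F' →+* F)
      (fun b hb => let ⟨b', _, h⟩ := T.res_β₂ b hb; ⟨b', h⟩)
  have Tα : NormTable (α : F' →+* F) (S29.H395.normAlong α) q (algebraMap R F' w) π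
      V₁' V₂' V₁ V₂ V₃ :=
    normTable_of_fields α q hq.pos (algebraMap R F' w) (algebraMap R F w) π hαw V₁' V₂' V₁ V₂ V₃
      T.unif₁ T.unif₃ hπ hram T.comap_α₁ T.comap_α₂ T.comap_α₃ resα₁ resα₂ (T.nv_α π hπ)
      T.nr_α₁ T.nr_α₂
  have Tβ : NormTable (β : F' →+* F) (S29.H395.normAlong β) q (algebraMap R F' w) π
      V₂' V₁' V₃ V₂ V₁ :=
    normTable_of_fields β q hq.pos (algebraMap R F' w) (algebraMap R F w) π hβw V₂' V₁' V₃ V₂ V₁
      T.unif₃ T.unif₁ hπ hram T.comap_β₃ T.comap_β₂ T.comap_β₁ resβ₃ resβ₂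
      (fun y au ar ai hy hu hr hi => T.nv_β π hπ y ai ar au hy hi hr hu) T.nr_β₁ T.nr_β₂
  have hordFF : ∀ y : F, y ≠ 0 → ∃ a : ℤ, IsOrd V₁ (algebraMap R F w) y a :=
    exists_isOrd_of_unifAt V₁ T.unif₁
  have hordmid : ∀ y : F, y ≠ 0 → ∃ a : ℤ, IsOrd V₂ π y a := exists_isOrd_of_unifAt V₂ hπ
  have hordVV : ∀ y : F, y ≠ 0 → ∃ a : ℤ, IsOrd V₃ (algebraMap R F w) y a :=
    exists_isOrd_of_unifAt V₃ T.unif₃
  have hord1 : ∀ y : F', y ≠ 0 → ∃ a : ℤ, IsOrd V₁' (algebraMap R F' w) y a := by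
    intro y hy
    obtain ⟨a, ha⟩ := hordFF (α y) ((map_ne_zero α).2 hy)
    refine ⟨a, over_isOrd_down (φ := (α : F' →+* F)) Tα.over_u hw'0 y a ?_⟩
    rw [hαw']
    exact ha
  have hord2 : ∀ y : F', y ≠ 0 → ∃ a : ℤ, IsOrd V₂' (algebraMap R F' w) y a := by
    intro y hy
    obtain ⟨a, ha⟩ := hordVV (α y) ((map_ne_zero α).2 hy)
    refine ⟨a, over_isOrd_down (φ := (α : F' →+* F)) Tα.over_i hw'0 y a ?_⟩
    rw [hαw']
    exact ha
  have hw1 : V₁'.valuation (algebraMap R F' w) < 1 := by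
    rw [← over_val_lt_one Tα.over_u, hαw']
    exact UnifAt.val_lt_one T.unif₁
  have hw2 : V₂'.valuation (algebraMap R F' w) < 1 := by
    rw [← over_val_lt_one Tα.over_i, hαw']
    exact UnifAt.val_lt_one T.unif₃
  have hramO : IsOrd V₂ π (algebraMap R F w) ((q : ℤ) - 1) := by
    have h1 : IsOrd V₂ π (algebraMap R F w) ((q - 1 : ℕ) : ℤ) := by
      rw [isOrd_iff_unitAt hπ.1, zpow_natCast]
      exact hram
    have h4 : ((q - 1 : ℕ) : ℤ) = (q : ℤ) - 1 := by
      rw [Nat.cast_sub hq.pos]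
      simp
    rwa [h4] at h1
  have hap_ord : ∀ a b c : ℤ, ∃ g : F, IsOrd V₁ (algebraMap R F w) g a ∧ IsOrd V₂ π g b ∧
      IsOrd V₃ (algebraMap R F w) g c :=
    exists_approx_ord3 V₁ V₂ V₃ T.ne₁₂ T.ne₁₃ T.ne₂₃ T.unif₁.1 T.unif₁.2.1 T.unif₁.2.2
      hπ.1 hπ.2.1 hπ.2.2 T.unif₃.1 T.unif₃.2.1 T.unif₃.2.2
  have hap_res : ∀ g₁ g₂ g₃ : F, V₁.valuation g₁ = 1 → V₂.valuation g₂ = 1 →
      V₃.valuation g₃ = 1 → ∃ g : F, PU V₁ (g / g₁) ∧ PU V₂ (g / g₂) ∧ PU V₃ (g / g₃) :=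
    exists_approx_res3 V₁ V₂ V₃ T.ne₁₂ T.ne₁₃ T.ne₂₃
  exact ⟨hαw', hβw', Tα, Tβ, hw'0, hw1, hw2, hramO, hordFF, hordmid, hordVV, hord1, hord2,
    hap_ord, hap_res⟩

end Pack

/-! ## The leaves -/

/-- **W-NEW, slope zero given.** -/
theorem h117_leafNewZero : LeafNewZero := by
  intro R E F F' _ _ _ _ _ _ _ _ _ _ _ _ _ _ _ _ _ w hw q hq hqR α β x x' V₁ V₂ V₃ V₁' V₂' T
    m hm hqm f hf hNα hNβ hslope
  obtain ⟨π, hπ, -⟩ := T.ram₂
  obtain ⟨hαw, hβw, Tα, Tβ, hw'0, hw1, hw2, hramO, hordFF, hordmid, hordVV, hord1, hord2,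
    hap_ord, hap_res⟩ := h117_pack w hw q hq α β x x' V₁ V₂ V₃ V₁' V₂' T π hπ
  have hNα' := exists_zpow_of_normPow (E := E) w hw q m hq hqR hm hqm
    (S29.H395.normAlong_ne_zero α T.fin_α hf) hNα
  have hNβ' := exists_zpow_of_normPow (E := E) w hw q m hq hqR hm hqm
    (S29.H395.normAlong_ne_zero β T.fin_β hf) hNβ
  obtain ⟨s₀, g₀, hg₀, h1, h2, h3⟩ := hslope
  obtain ⟨G, u, G₂, hG, hfu, hu₁, hu₂, hu₃, hG₂0, hG₂1, hG₂, ⟨k₁, hk₁⟩, ⟨k₂, hk₂⟩⟩ :=
    h117_stepNew (α : F' →+* F) (β : F' →+* F) (S29.H395.normAlong α) (S29.H395.normAlong β)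
      q m hm ((Nat.Prime.coprime_iff_not_dvd hq).2 hqm) (algebraMap R F' w)
      (algebraMap R F w) π hαw hβw V₁' V₂' V₁ V₂ V₃ Tα Tβ hw'0 hw1 hw2 hord1 hord2 hap_res
      f hNα' hNβ' s₀ g₀ hg₀ (unitAt_iff.1 h1) (unitAt_iff.1 h2) (unitAt_iff.1 h3)
  refine ⟨s₀, G, u, G₂, k₁, k₂, hG, hfu, pu_iff.1 hu₁, unitAt_iff.2 hu₂, pu_iff.1 hu₃,
    unitAt_iff.2 hG₂1, ?_, hk₁, hk₂⟩
  rw [← val_lt_one_iff_mem_nonunits]
  exact sub_of_pu_div (by rw [map_pow, hG₂1, one_pow]) hG₂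

/-- **W-NEW, case `gcd(q + 1, m) = 1`.** -/
theorem h117_leafNewMinus : LeafNewMinus := by
  intro R E F F' _ _ _ _ _ _ _ _ _ _ _ _ _ _ _ _ _ w hw q hq hqR α β x x' V₁ V₂ V₃ V₁' V₂' T
    m hm hqm hq1m f hf hNα hNβ
  obtain ⟨π, hπ, -⟩ := T.ram₂
  obtain ⟨hαw, hβw, Tα, Tβ, hw'0, hw1, hw2, hramO, hordFF, hordmid, hordVV, hord1, hord2,
    hap_ord, hap_res⟩ := h117_pack w hw q hq α β x x' V₁ V₂ V₃ V₁' V₂' T π hπ
  have hNα' := exists_zpow_of_normPow (E := E) w hw q m hq hqR hm hqm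
    (S29.H395.normAlong_ne_zero α T.fin_α hf) hNα
  have hNβ' := exists_zpow_of_normPow (E := E) w hw q m hq hqR hm hqm
    (S29.H395.normAlong_ne_zero β T.fin_β hf) hNβ
  obtain ⟨t, g₀, hg₀0, h1, h2, h3⟩ := h117_slopeZero_of_coprime (α : F' →+* F) (β : F' →+* F)
    (S29.H395.normAlong α) (S29.H395.normAlong β) q m hq1m (algebraMap R F' w)
    (algebraMap R F w) π hαw hβw V₁' V₂' V₁ V₂ V₃ Tα Tβ hw'0 hw1 hw2 hπ.1 hramO
    hordFF hordmid hordVV hord1 hord2 hap_ord f hf hNα' hNβ'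
  exact h117_leafNewZero w hw q hq hqR α β x x' V₁ V₂ V₃ V₁' V₂' T m hm hqm f hf hNα hNβ
    ⟨t, g₀, hg₀0, unitAt_iff.2 h1, unitAt_iff.2 h2, unitAt_iff.2 h3⟩

/-- **W-NEW, case `gcd(q - 1, m) = 1`, slope zero given.** -/
theorem h117_leafNewPlus : LeafNewPlus := by
  intro R E F F' _ _ _ _ _ _ _ _ _ _ _ _ _ _ _ _ _ w hw q hq hqR α β x x' V₁ V₂ V₃ V₁' V₂' T
    m hm hqm hq1m f hf hNα hNβ hslope
  obtain ⟨π, hπ, -⟩ := T.ram₂
  obtain ⟨hαw, hβw, Tα, Tβ, hw'0, hw1, hw2, hramO, hordFF, hordmid, hordVV, hord1, hord2,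
    hap_ord, hap_res⟩ := h117_pack w hw q hq α β x x' V₁ V₂ V₃ V₁' V₂' T π hπ
  have hNα' := exists_zpow_of_normPow (E := E) w hw q m hq hqR hm hqm
    (S29.H395.normAlong_ne_zero α T.fin_α hf) hNα
  have hNβ' := exists_zpow_of_normPow (E := E) w hw q m hq hqR hm hqm
    (S29.H395.normAlong_ne_zero β T.fin_β hf) hNβ
  obtain ⟨s₀, g₀, hg₀, h1, h2, h3⟩ := hslope
  obtain ⟨G, u, hG, hfu, hu₁, hu₂, hu₃, ⟨k₁, hk₁⟩, ⟨k₂, hk₂⟩⟩ :=
    h117_stepNew_mid (α : F' →+* F) (β : F' →+* F) (S29.H395.normAlong α)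
      (S29.H395.normAlong β) q m hm ((Nat.Prime.coprime_iff_not_dvd hq).2 hqm) hq1m
      (algebraMap R F' w) (algebraMap R F w) π hαw hβw V₁' V₂' V₁ V₂ V₃ Tα Tβ hw'0 hw1 hw2
      hord1 hord2 hap_res f hNα' hNβ' s₀ g₀ hg₀ (unitAt_iff.1 h1) (unitAt_iff.1 h2)
      (unitAt_iff.1 h3)
  exact ⟨s₀, G, u, k₁, k₂, hG, hfu, pu_iff.1 hu₁, pu_iff.1 hu₂, pu_iff.1 hu₃, hk₁, hk₂⟩

/-- **SLOPE (valuation part).** -/
theorem h117_leafSlope : LeafSlope := by
  intro R E F F' _ _ _ _ _ _ _ _ _ _ _ _ _ _ _ _ _ w hw q hq hqR α β x x' V₁ V₂ V₃ V₁' V₂' T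
    m hm hqm f hf hNα hNβ π hπ
  obtain ⟨hαw, hβw, Tα, Tβ, hw'0, hw1, hw2, hramO, hordFF, hordmid, hordVV, hord1, hord2,
    hap_ord, hap_res⟩ := h117_pack w hw q hq α β x x' V₁ V₂ V₃ V₁' V₂' T π hπ
  have hNα' := exists_zpow_of_normPow (E := E) w hw q m hq hqR hm hqm
    (S29.H395.normAlong_ne_zero α T.fin_α hf) hNα
  have hNβ' := exists_zpow_of_normPow (E := E) w hw q m hq hqR hm hqm
    (S29.H395.normAlong_ne_zero β T.fin_β hf) hNβ
  have hw0 : algebraMap R F w ≠ 0 := T.unif₁.1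
  obtain ⟨aFF, hFF⟩ := hordFF f hf
  obtain ⟨amid, hmid⟩ := hordmid f hf
  obtain ⟨aVV, hVV⟩ := hordVV f hf
  obtain ⟨d₁, e, hd, he⟩ := h117_slope (α : F' →+* F) (β : F' →+* F) (S29.H395.normAlong α)
    (S29.H395.normAlong β) q m (algebraMap R F' w) (algebraMap R F w) π hαw hβw V₁' V₂' V₁ V₂ V₃
    Tα Tβ hw'0 hw1 hw2 hord1 hord2 f hNα' hNβ' hFF hmid hVV
  obtain ⟨g₀, hg₀FF, hg₀mid, hg₀VV⟩ := hap_ord 0 e 0
  have hg₀0 : g₀ ≠ 0 := hg₀FF.ne_zero hw0
  refine ⟨aVV, aFF - aVV, d₁, g₀, hg₀0, hd, ?_, ?_, ?_⟩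
  · rw [unitAt_iff]
    have h1 : IsOrd V₁ (algebraMap R F w)
        (f * (algebraMap R F w ^ (aVV + (aFF - aVV)))⁻¹ * (g₀ ^ m)⁻¹)
        (aFF + -((aVV + (aFF - aVV)) * 1) + -(m * 0)) :=
      (hFF.mul hw0 ((IsOrd.self).zpow _).inv).mul hw0 (hg₀FF.pow m).inv
    refine (h1.congr ?_).val_eq_one
    ring
  · rw [unitAt_iff]
    have h1 : IsOrd V₂ π
        (f * (algebraMap R F w ^ aVV)⁻¹ * (π ^ (-(aFF - aVV)))⁻¹ * (g₀ ^ m)⁻¹)
        (amid + -(aVV * ((q : ℤ) - 1)) + -(-(aFF - aVV) * 1) + -(m * e)) :=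
      ((hmid.mul hπ.1 (hramO.zpow aVV).inv).mul hπ.1 ((IsOrd.self).zpow _).inv).mul hπ.1
        (hg₀mid.pow m).inv
    refine (h1.congr ?_).val_eq_one
    linear_combination he
  · rw [unitAt_iff]
    have h1 : IsOrd V₃ (algebraMap R F w) (f * (algebraMap R F w ^ aVV)⁻¹ * (g₀ ^ m)⁻¹)
        (aVV + -(aVV * 1) + -(m * 0)) :=
      (hVV.mul hw0 ((IsOrd.self).zpow aVV).inv).mul hw0 (hg₀VV.pow m).inv
    refine (h1.congr ?_).val_eq_one
    ring

end Fermat.Agent.S59.LoSqC.H117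

end

end
-- ===== PACK-END S59/LoSqC/H117/NewA.lean

-- ===== PACK-BEGIN S59/LoSqC/H630/LabPull.lean
section


/-!
# S59 / cell (C) LO-SQ, leaf W-SUB (toric wall), part 2: pull-back of label data (helper630)

`F'` (level `q M'`) inside `F` (level `q² M'`) via `algebraMap F' F` (`= α` or `β`, instance
`S36.H630.algebraAlong`); charts `A = chart R {x'}`, `B = chart R {x}`.

* `ValAt.pull630`   : a value along `V.comap` at `n.comap` is a value along `V` at `n`;
* `LabelAt.pull630` : **PULL-LAB** — the label datum of `g` at the point below gives the label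
  datum of the pull-back of `g` at `n`, with colouring `V ↦ κ' (V.comap)`.
-/

set_option autoImplicit false
set_option linter.unusedSectionVars false
set_option linter.style.haveILetI false
set_option maxHeartbeats 1600000

namespace Fermat.Agent.S59.LoSqC.H630

open Fermat.Agent.S36.H630
open Fermat.Agent.S18.H138 (chart mem_chart)

section Pull

variable {R : Type*} [CommRing R] [IsLocalRing R]
variable {F' : Type*} [Field F'] [Algebra R F']
variable {F : Type*} [Field F] [Algebra R F] [Algebra F' F] [IsScalarTower R F' F]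
variable {x : F} {x' : F'}
  (hchart : ∀ b ∈ chart R ({x'} : Set F'), algebraMap F' F b ∈ chart R ({x} : Set F))

theorem chartIncl_coe (a : chart R ({x'} : Set F')) :
    ((chartIncl hchart a : chart R ({x} : Set F)) : F) = algebraMap F' F (a : F') := rfl

theorem chartIncl_algebraMap (r : R) :
    chartIncl hchart (algebraMap R (chart R ({x'} : Set F')) r)
      = algebraMap R (chart R ({x} : Set F)) r := by
  apply Subtype.ext
  show algebraMap F' F (algebraMap R F' r) = algebraMap R F r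
  rw [← IsScalarTower.algebraMap_apply]

/-- the sheet below passes through the point below -/
theorem PassThrough.pull630 {n : Ideal (chart R ({x} : Set F))} {V : ValuationSubring F}
    (hth : PassThrough (chart R ({x} : Set F)) n V) :
    PassThrough (chart R ({x'} : Set F')) (n.comap (chartIncl hchart))
      (V.comap (algebraMap F' F)) := by
  intro c hc
  rw [mem_nonunits_comap_iff] at hc
  exact hth (chartIncl hchart c) hc

include hchart in
/-- the chart below lies in the sheet below -/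
theorem ChartLe.pull630 {V : ValuationSubring F} (hBV : ChartLe (chart R ({x} : Set F)) V) :
    ChartLe (chart R ({x'} : Set F')) (V.comap (algebraMap F' F)) := by
  intro a
  rw [ValuationSubring.mem_comap]
  exact hBV (chartIncl hchart a)

/-- A value along the sheet below at the point below is a value along `V` at `n`. -/
theorem ValAt.pull630 {n : Ideal (chart R ({x} : Set F))} {V : ValuationSubring F}
    {d : F'} {η : R}
    (h : ValAt (chart R ({x'} : Set F')) (n.comap (chartIncl hchart))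
      (V.comap (algebraMap F' F)) d η) :
    ValAt (chart R ({x} : Set F)) n V (algebraMap F' F d) η := by
  obtain ⟨a, b, hb, hV, hab⟩ := h
  refine ⟨chartIncl hchart a, chartIncl hchart b, hb, ?_, ?_⟩
  · rw [mem_nonunits_comap_iff] at hV
    rw [chartIncl_coe, chartIncl_coe, ← map_mul, ← map_sub]
    exact hV
  · have h1 : chartIncl hchart (a - algebraMap R (chart R ({x'} : Set F')) η * b) ∈ n := hab
    rw [map_sub, map_mul, chartIncl_algebraMap] at h1
    exact h1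

/-- **PULL-LAB.**  The label datum of `g` at the point below `n` gives the label datum of the
pull-back of `g` at `n`. -/
theorem LabelAt.pull630 {n : Ideal (chart R ({x} : Set F))}
    {𝒱 : Set (ValuationSubring F)} {𝒱' : Set (ValuationSubring F')}
    (h𝒱 : ∀ V ∈ 𝒱, V.comap (algebraMap F' F) ∈ 𝒱')
    {m : ℕ} {g : F'} {ζ : R} {κ' : ValuationSubring F' → ℕ}
    (h : LabelAt (chart R ({x'} : Set F')) (n.comap (chartIncl hchart)) 𝒱' m g ζ κ') :
    LabelAt (chart R ({x} : Set F)) n 𝒱 m (algebraMap F' F g) ζ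
      (fun V => κ' (V.comap (algebraMap F' F))) := by
  obtain ⟨d, a₀, s₀, η₀, hd, hs₀, hpure, hη₀, hval⟩ := h
  refine ⟨algebraMap F' F d, chartIncl hchart a₀, chartIncl hchart s₀, η₀, ?_, hs₀, ?_, ?_, ?_⟩
  · rwa [Ne, map_eq_zero]
  · rw [chartIncl_coe, chartIncl_coe, ← hpure, map_mul, map_mul, map_pow]
  · intro h1
    apply hη₀
    rw [Ideal.mem_comap, chartIncl_algebraMap]
    exact h1
  · intro V hV hth
    exact ValAt.pull630 hchart (hval _ (h𝒱 V hV) (PassThrough.pull630 hchart hth))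

end Pull

end Fermat.Agent.S59.LoSqC.H630

end
-- ===== PACK-END S59/LoSqC/H630/LabPull.lean

-- ===== PACK-BEGIN S59/LoSqC/H630/ToricWall.lean
section





/-!
# S59 / cell (C) LO-SQ, leaf W-SUB, TORIC half: the toric wall at level `q² M'` (helper630)

Context: `Eng.TripleCtx w q α β x x' V₁ V₂ V₃ V₁' V₂'` (level `q² M'` over level `q M'`, the three
components `V₁, V₂, V₃` of the special fibre, the two components `V₁', V₂'` below).

* `Lab1SurjE E w x' V₁' V₂' m ζ` : the ONLY input from level `q M'` (leaf LAB1-SURJ, E-form):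
  every assignment `lam` of labels to the nodes of the finite chart below is the label vector of a
  function `g` with `m ∣ div g`, `g ≡ 1` on `V₁'` and `V₂'` (label `lam n'` along `V₁'`, `0` along
  `V₂'`; only `ζ ^ label` matters).
* `divisibleDiv_map630` : `m ∣ div g` ⟹ `m ∣ div (φ g)` for an embedding `φ` of function fields.
* `exists_pull_label630` : one side (`α` or `β`): a function below whose pull-back has prescribed
  labels at the points of a set `P` of closed points above which are alone in their fibres.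
* `toricWall630` : **the toric wall.**  `Lab1SurjE` ⟹ every `u ≡ 1` on `V₁, V₂, V₃` with
  `m ∣ div u` is `α g⁻¹ · β g'⁻¹ · h ^ m`, precisely `u * α g * β g' = h ^ m` with `g, g'` from
  level `q M'` (`m ∣ div`, `≡ 1` on `V₁', V₂'`).  NO hypothesis on norms.

Proof of the wall: labels `(a₁, a₂, 0)` of `u` at the triple points (`labelAt_exists3`), `g` with
labels `- a₂` via `α` (colours `V₁, V₂ ↦ V₁'`, `V₃ ↦ V₂'`), `g'` with labels `a₂ - a₁` via `β`
(colours `V₁ ↦ V₁'`, `V₂, V₃ ↦ V₂'`); the product has trivial labels; at the other closed points at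
most one sheet passes; wall `S36.H193.exists_pow_eq_of_three` with the zero colouring.
-/

set_option autoImplicit false
set_option linter.unusedSectionVars false
set_option linter.unusedVariables false
set_option linter.style.haveILetI false
set_option synthInstance.maxHeartbeats 400000
set_option maxHeartbeats 1600000

namespace Fermat.Agent.S59.LoSqC.H630

open Fermat.Agent.S36.H630
open Fermat.Agent.S18.H138 (chart mem_chart)
open Fermat.Agent.S36.H193 (BasePureValuesAt)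
open Fermat.Agent.S36.Eng (TripleCtx)
open Fermat.Agent.A2 (DivisibleDiv)
open AlgebraicCurve

/-! ## `m ∣ div` under products and embeddings -/

section Div

variable {E F' F : Type*} [Field E] [Field F'] [Field F] [Algebra E F'] [Algebra E F]

theorem divisibleDiv_mul630 {m : ℕ} {f g : F} (hf : DivisibleDiv E m f)
    (hg : DivisibleDiv E m g) : DivisibleDiv E m (f * g) := by
  intro V hV hE
  obtain ⟨h₁, u₁, hh₁, hu₁, hu₁', rfl⟩ := hf V hV hE
  obtain ⟨h₂, u₂, hh₂, hu₂, hu₂', rfl⟩ := hg V hV hE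
  refine ⟨h₁ * h₂, u₁ * u₂, mul_ne_zero hh₁ hh₂, V.mul_mem _ _ hu₁ hu₂, ?_, ?_⟩
  · rw [mul_inv]
    exact V.mul_mem _ _ hu₁' hu₂'
  · ring

/-- In a discrete valuation subring every valuation is a power of the valuation of a
uniformiser. -/
theorem exists_val_eq_zpow630 (V : ValuationSubring F) [IsDiscreteValuationRing V] :
    ∃ ϖ : F, ϖ ≠ 0 ∧ V.valuation ϖ < 1 ∧
      ∀ f : F, f ≠ 0 → ∃ k : ℤ, V.valuation f = V.valuation ϖ ^ k := by
  obtain ⟨ϖ, hϖ⟩ := IsDiscreteValuationRing.exists_irreducible V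
  have hϖ0 : (ϖ : F) ≠ 0 := fun h => hϖ.ne_zero (Subtype.ext h)
  have hϖlt : V.valuation (ϖ : F) < 1 := by
    rw [← ValuationSubring.valuation_lt_one_iff]
    exact (IsLocalRing.mem_maximalIdeal _).2 hϖ.not_isUnit
  have key : ∀ z : F, z ≠ 0 → z ∈ V → ∃ n : ℕ, V.valuation z = V.valuation (ϖ : F) ^ n := by
    intro z hz0 hzV
    have hz0' : (⟨z, hzV⟩ : V) ≠ 0 := fun h => hz0 (congrArg Subtype.val h)
    obtain ⟨n, hn⟩ := IsDiscreteValuationRing.associated_pow_irreducible hz0' hϖ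
    obtain ⟨u, hu⟩ := hn
    refine ⟨n, ?_⟩
    have h1 : z * ((u : V) : F) = (ϖ : F) ^ n := by
      have := congrArg Subtype.val hu
      simpa using this
    have h2 : V.valuation (((u : V) : F)) = 1 := ValuationSubring.valuation_unit V u
    have h3 := congrArg V.valuation h1
    rw [map_mul, h2, mul_one, map_pow] at h3
    exact h3
  refine ⟨ϖ, hϖ0, hϖlt, fun f hf => ?_⟩
  rcases V.mem_or_inv_mem f with h | h
  · obtain ⟨n, hn⟩ := key f hf h
    exact ⟨n, by rw [hn, zpow_natCast]⟩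
  · obtain ⟨n, hn⟩ := key f⁻¹ (inv_ne_zero hf) h
    refine ⟨-n, ?_⟩
    rw [map_inv₀] at hn
    rw [zpow_neg, zpow_natCast, ← hn, inv_inv]

/-- **`m ∣ div` is stable under embeddings of function fields.** -/
theorem divisibleDiv_map630 (φ : F' →ₐ[E] F) {m : ℕ} {g : F'} (hg0 : g ≠ 0)
    (hdiv : DivisibleDiv E m g) : DivisibleDiv E m (φ g) := by
  intro V hV hE
  haveI := hV
  obtain ⟨ϖ, hϖ0, hϖlt, hval⟩ := exists_val_eq_zpow630 V
  rcases Fermat.Agent.Ribet.H769.comap_trivial_or_dvr769 V hϖ0 hϖlt hval (φ : F' →+* F)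
    with htriv | hdvr
  · have h1 : V.valuation (φ g) = 1 := htriv g hg0
    refine ⟨1, φ g, one_ne_zero, ?_, ?_, by rw [one_pow, mul_one]⟩
    · exact (V.valuation_le_one_iff _).1 h1.le
    · rw [← ValuationSubring.valuation_le_one_iff, map_inv₀, h1, inv_one]
  · obtain ⟨h, u, hh, hu, hu', hfu⟩ := hdiv (V.comap (φ : F' →+* F)) hdvr (fun e => by
      rw [ValuationSubring.mem_comap]
      have : (φ : F' →+* F) (algebraMap E F' e) = algebraMap E F e := φ.commutes e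
      rw [this]
      exact hE e)
    refine ⟨φ h, φ u, (map_ne_zero φ).2 hh, hu, ?_, ?_⟩
    · have h2 : (φ : F' →+* F) u⁻¹ ∈ V := hu'
      rw [map_inv₀] at h2
      exact h2
    · rw [hfu, map_mul, map_pow]

end Div

/-! ## congruences to `1` -/

section One

variable {K L : Type*} [Field K] [Field L]

theorem mem_nonunits_comap630 (φ : K →+* L) (W : ValuationSubring L) (y : K) :
    y ∈ (W.comap φ).nonunits ↔ φ y ∈ W.nonunits := by
  letI := φ.toAlgebra
  exact mem_nonunits_comap_iff W y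

theorem sub_one_map630 (φ : K →+* L) (W : ValuationSubring L) {y : K}
    (h : y - 1 ∈ (W.comap φ).nonunits) : φ y - 1 ∈ W.nonunits := by
  rw [mem_nonunits_comap630, map_sub, map_one] at h
  exact h

theorem sub_one_mul630 (V : ValuationSubring L) {a b : L} (ha : a - 1 ∈ V.nonunits)
    (hb : b - 1 ∈ V.nonunits) : a * b - 1 ∈ V.nonunits := by
  have hbV : b ∈ V := (unit_of_split hb).2.1
  have : a * b - 1 = (a - 1) * b + (b - 1) := by ring
  rw [this]
  exact vnu_add V (vnu_mul_right V ha hbV) hb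

/-- `ζ ^ a · ζ ^ ((m - 1) a) = 1`. -/
theorem zeta_cancel630 {A : Type*} [CommMonoid A] {ζ : A} {m : ℕ} (hm : 0 < m)
    (hζ : ζ ^ m = 1) (a : ℕ) : ζ ^ a * ζ ^ ((m - 1) * a) = 1 := by
  have h1 : a + (m - 1) * a = m * a := by
    obtain ⟨k, rfl⟩ := Nat.exists_eq_succ_of_ne_zero hm.ne'
    rw [Nat.succ_sub_one, Nat.succ_mul, add_comm]
  rw [← pow_add, h1, pow_mul, hζ, one_pow]

end One

/-! ## The input from level `q M'` -/

/-- **LAB1-SURJ, E-form** (the input of the toric wall from level `q M'`): every assignment `lam`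
of labels to the closed points of the finite chart `chart R {x'}` is realised, at the nodes (the
closed points of the special fibre through which both `V₁'` and `V₂'` pass), by a function `g`
with `m ∣ div g` and `g ≡ 1` on `V₁'`, `V₂'`: label `lam n'` along `V₁'` and `0` along `V₂'`. -/
def Lab1SurjE (E : Type*) [Field E] {R : Type*} [CommRing R] {F' : Type*} [Field F']
    [Algebra R F'] [Algebra E F'] (w : R) (x' : F') (V₁' V₂' : ValuationSubring F') (m : ℕ)
    (ζ : R) : Prop :=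
  ∀ lam : Ideal (chart R ({x'} : Set F')) → ℕ,
    ∃ g : F', g ≠ 0 ∧ DivisibleDiv E m g ∧ g - 1 ∈ V₁'.nonunits ∧ g - 1 ∈ V₂'.nonunits ∧
      ∀ n' : Ideal (chart R ({x'} : Set F')), n'.IsMaximal →
        algebraMap R (chart R ({x'} : Set F')) w ∈ n' →
        PassThrough (chart R ({x'} : Set F')) n' V₁' →
        PassThrough (chart R ({x'} : Set F')) n' V₂' →
        ∃ κ' : ValuationSubring F' → ℕ, ζ ^ κ' V₁' = ζ ^ lam n' ∧ ζ ^ κ' V₂' = 1 ∧
          LabelAt (chart R ({x'} : Set F')) n' {V | V = V₁' ∨ V = V₂'} m g ζ κ'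

/-! ## One side -/

section SideSurj

variable {R : Type*} [CommRing R] [IsLocalRing R]
variable {E : Type*} [Field E]
variable {F' : Type*} [Field F'] [Algebra R F'] [Algebra E F']
variable {F : Type*} [Field F] [Algebra R F] [Algebra F' F] [IsScalarTower R F' F]
variable {x : F} {x' : F'}
  (hchart : ∀ b ∈ chart R ({x'} : Set F'), algebraMap F' F b ∈ chart R ({x} : Set F))

/-- **One side of the toric wall.**  `P` a set of closed points of the chart above, each alone in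
its fibre, lying over nodes of the chart below; `L` an assignment of labels to the points of `P`.
Then there is `g` below whose label datum at the point below `n ∈ P` is `(L n, 0)`; its
pull-back has the colouring `V ↦ κ' (V.comap)` at `n`. -/
theorem exists_pull_label630
    (hint : ∀ b ∈ chart R ({x} : Set F), ∃ p : Polynomial F', p.Monic ∧
      (∀ i, p.coeff i ∈ chart R ({x'} : Set F')) ∧ (p.map (algebraMap F' F)).eval b = 0)
    {w : R} {m : ℕ} {ζ : R} {V' V'' : ValuationSubring F'}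
    (hLab : Lab1SurjE E w x' V' V'' m ζ)
    (P : Ideal (chart R ({x} : Set F)) → Prop)
    (hPmax : ∀ n, P n → n.IsMaximal)
    (hPw : ∀ n, P n → algebraMap R (chart R ({x} : Set F)) w ∈ n)
    (hPuniq : ∀ n n', P n → P n' →
      n.comap (chartIncl hchart) = n'.comap (chartIncl hchart) → n' = n)
    (hPth' : ∀ n, P n →
      PassThrough (chart R ({x'} : Set F')) (n.comap (chartIncl hchart)) V')
    (hPth'' : ∀ n, P n →
      PassThrough (chart R ({x'} : Set F')) (n.comap (chartIncl hchart)) V'')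
    (L : Ideal (chart R ({x} : Set F)) → ℕ) :
    ∃ g : F', g ≠ 0 ∧ DivisibleDiv E m g ∧ g - 1 ∈ V'.nonunits ∧ g - 1 ∈ V''.nonunits ∧
      ∀ n, P n → ∃ κ' : ValuationSubring F' → ℕ, ζ ^ κ' V' = ζ ^ L n ∧ ζ ^ κ' V'' = 1 ∧
        ∀ 𝒱 : Set (ValuationSubring F),
          (∀ V ∈ 𝒱, V.comap (algebraMap F' F) = V' ∨ V.comap (algebraMap F' F) = V'') →
          LabelAt (chart R ({x} : Set F)) n 𝒱 m (algebraMap F' F g) ζ
            (fun V => κ' (V.comap (algebraMap F' F))) := by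
  classical
  have hιint : (chartIncl hchart).IsIntegral := chartIncl_isIntegral hchart hint
  let lam : Ideal (chart R ({x'} : Set F')) → ℕ := fun n' =>
    if h : ∃ n, P n ∧ n.comap (chartIncl hchart) = n' then L h.choose else 0
  obtain ⟨g, hg0, hgdiv, hg', hg'', hglab⟩ := hLab lam
  refine ⟨g, hg0, hgdiv, hg', hg'', fun n hn => ?_⟩
  haveI := hPmax n hn
  have hmax : (n.comap (chartIncl hchart)).IsMaximal :=
    Ideal.isMaximal_comap_of_isIntegral_of_isMaximal' (chartIncl hchart) hιint n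
  have hw' : algebraMap R (chart R ({x'} : Set F')) w ∈ n.comap (chartIncl hchart) := by
    rw [Ideal.mem_comap, chartIncl_algebraMap]
    exact hPw n hn
  obtain ⟨κ', h1, h2, hl⟩ := hglab (n.comap (chartIncl hchart)) hmax hw' (hPth' n hn)
    (hPth'' n hn)
  have hex : ∃ n₀, P n₀ ∧ n₀.comap (chartIncl hchart) = n.comap (chartIncl hchart) :=
    ⟨n, hn, rfl⟩
  have hlam : lam (n.comap (chartIncl hchart)) = L n := by
    show (if h : ∃ n₀, P n₀ ∧ n₀.comap (chartIncl hchart) = n.comap (chartIncl hchart)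
      then L h.choose else 0) = L n
    rw [dif_pos hex]
    congr 1
    exact hPuniq n hex.choose hn hex.choose_spec.1 hex.choose_spec.2.symm
  refine ⟨κ', by rw [h1, hlam], h2, fun 𝒱 h𝒱 => ?_⟩
  exact LabelAt.pull630 hchart (𝒱' := {V | V = V' ∨ V = V''}) (fun V hV => h𝒱 V hV) hl

end SideSurj

/-! ## The wall -/

section Wall

universe u

variable {R E F F' : Type u} [CommRing R] [IsDomain R] [IsDiscreteValuationRing R]
  [HenselianLocalRing R] [IsAlgClosed (IsLocalRing.ResidueField R)]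
  [Field E] [CharZero E] [Algebra R E] [IsFractionRing R E]
  [Field F] [Algebra E F] [Algebra R F] [IsScalarTower R E F]
  [Field F'] [Algebra E F'] [Algebra R F'] [IsScalarTower R E F']
  {w : R} {q : ℕ} {α β : F' →ₐ[E] F} {x : F} {x' : F'}
  {V₁ V₂ V₃ : ValuationSubring F} {V₁' V₂' : ValuationSubring F'}

/-- The label datum at every closed point of the special fibre of the finite chart, from the
label data at the triple points. -/
theorem labelAt_fin_of_triple630 (ctx : TripleCtx w q α β x x' V₁ V₂ V₃ V₁' V₂')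
    (hw : Irreducible w) (hq : q.Prime) {m : ℕ} (hm : 0 < m) {ζ : R} (hζ : ζ ^ m = 1)
    {u : F} (hdiv : DivisibleDiv E m u)
    (hu₁ : u - 1 ∈ V₁.nonunits) (hu₂ : u - 1 ∈ V₂.nonunits) (hu₃ : u - 1 ∈ V₃.nonunits)
    (κ : ValuationSubring F → ℕ)
    (htriple : ∀ n : Ideal (chart R ({x} : Set F)), n.IsMaximal →
      algebraMap R (chart R ({x} : Set F)) w ∈ n →
      PassThrough (chart R ({x} : Set F)) n V₁ → PassThrough (chart R ({x} : Set F)) n V₂ →
      PassThrough (chart R ({x} : Set F)) n V₃ →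
      LabelAt (chart R ({x} : Set F)) n {V | V = V₁ ∨ V = V₂ ∨ V = V₃} m u ζ κ)
    (n : Ideal (chart R ({x} : Set F))) (hn : n.IsMaximal)
    (hwn : algebraMap R (chart R ({x} : Set F)) w ∈ n) :
    LabelAt (chart R ({x} : Set F)) n {V | V = V₁ ∨ V = V₂ ∨ V = V₃} m u ζ κ := by
  haveI := hn
  have h𝔪n := maximalIdeal_map_mem hw hwn
  by_cases htr : (PassThrough (chart R ({x} : Set F)) n V₁ ∧
      PassThrough (chart R ({x} : Set F)) n V₂) ∨
      (PassThrough (chart R ({x} : Set F)) n V₁ ∧ PassThrough (chart R ({x} : Set F)) n V₃) ∨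
      (PassThrough (chart R ({x} : Set F)) n V₂ ∧ PassThrough (chart R ({x} : Set F)) n V₃)
  · obtain ⟨h1, h2, h3⟩ := ctx.incidence n hn htr
    exact htriple n hn hwn h1 h2 h3
  · rw [not_or, not_or] at htr
    have hB₁ : ChartLe (chart R ({x} : Set F)) V₁ := chartLe_chart ctx.base₁
      (fun s hs => by rw [Set.mem_singleton_iff.1 hs]; exact ctx.x_unit₁.2.1)
    have hB₂ : ChartLe (chart R ({x} : Set F)) V₂ := chartLe_chart ctx.base₂
      (fun s hs => by rw [Set.mem_singleton_iff.1 hs]; exact ctx.x_unit₂.2.1)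
    have hB₃ : ChartLe (chart R ({x} : Set F)) V₃ := chartLe_chart ctx.base₃
      (fun s hs => by rw [Set.mem_singleton_iff.1 hs]; exact ctx.x_unit₃.2.1)
    obtain ⟨d, -, a₀, s₀, ha₀, hs₀, hpure⟩ :=
      Fermat.Agent.S36.H987.ctx_pure_fin hw hq ctx n hn hwn hm hdiv (unit_of_split hu₁)
        (unit_of_split hu₂) (unit_of_split hu₃)
    have h := labelAt_of_le_one (rat_chart x n hn h𝔪n) hB₁ hB₂ hB₃ hm
      (normalAlong_of_monic ctx.normal_f₁ hm) (normalAlong_of_monic ctx.normal_f₂ hm)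
      (normalAlong_of_monic ctx.normal_f₃ hm) hζ κ htr.1 htr.2.1 htr.2.2 hu₁ hu₂ hu₃ ha₀ hs₀
      hpure 1
    rwa [pow_one] at h

/-- The label datum at every closed point of the special fibre of the chart at infinity, from the
label data on the finite chart. -/
theorem labelAt_inf_of_fin630 (ctx : TripleCtx w q α β x x' V₁ V₂ V₃ V₁' V₂')
    (hw : Irreducible w) (hq : q.Prime) {m : ℕ} (hm : 0 < m) {ζ : R} (hζ : ζ ^ m = 1)
    {u : F} (hdiv : DivisibleDiv E m u)
    (hu₁ : u - 1 ∈ V₁.nonunits) (hu₂ : u - 1 ∈ V₂.nonunits) (hu₃ : u - 1 ∈ V₃.nonunits)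
    (κ : ValuationSubring F → ℕ)
    (hfin : ∀ n : Ideal (chart R ({x} : Set F)), n.IsMaximal →
      algebraMap R (chart R ({x} : Set F)) w ∈ n →
      LabelAt (chart R ({x} : Set F)) n {V | V = V₁ ∨ V = V₂ ∨ V = V₃} m u ζ κ)
    (n' : Ideal (chart R ({x⁻¹} : Set F))) (hn' : n'.IsMaximal)
    (hwn' : algebraMap R (chart R ({x⁻¹} : Set F)) w ∈ n') :
    LabelAt (chart R ({x⁻¹} : Set F)) n' {V | V = V₁ ∨ V = V₂ ∨ V = V₃} m u ζ κ := by
  haveI := hn'
  have hn'p : n'.IsPrime := hn'.isPrime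
  have h𝔪n' := maximalIdeal_map_mem hw hwn'
  have hrat' := rat_chart x⁻¹ n' hn' h𝔪n'
  have hx0 : x ≠ 0 := ctx.x_unit₁.1
  have hyB' : x⁻¹ ∈ chart R ({x⁻¹} : Set F) := Fermat.Agent.S18.H138.mem_chart_of_mem rfl
  by_cases hy : (⟨x⁻¹, hyB'⟩ : chart R ({x⁻¹} : Set F)) ∈ n'
  · -- a cusp: at most one sheet
    obtain ⟨h12, h13, h23⟩ := ctx.cusp_single n' hn' hwn' hy
    obtain ⟨d, -, a₀, s₀, ha₀, hs₀, hpure⟩ :=
      Fermat.Agent.S36.H987.ctx_pure_cusp hw hq ctx n' hn' hwn' hy hm hdiv (unit_of_split hu₁)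
        (unit_of_split hu₂) (unit_of_split hu₃)
    have hB₁ : ChartLe (chart R ({x⁻¹} : Set F)) V₁ := chartLe_chart ctx.base₁
      (fun s hs => by rw [Set.mem_singleton_iff.1 hs]; exact ctx.x_unit₁.2.2)
    have hB₂ : ChartLe (chart R ({x⁻¹} : Set F)) V₂ := chartLe_chart ctx.base₂
      (fun s hs => by rw [Set.mem_singleton_iff.1 hs]; exact ctx.x_unit₂.2.2)
    have hB₃ : ChartLe (chart R ({x⁻¹} : Set F)) V₃ := chartLe_chart ctx.base₃
      (fun s hs => by rw [Set.mem_singleton_iff.1 hs]; exact ctx.x_unit₃.2.2)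
    have h := labelAt_of_le_one hrat' hB₁ hB₂ hB₃ hm
      (normalAlong_of_monic ctx.normal_i₁ hm) (normalAlong_of_monic ctx.normal_i₂ hm)
      (normalAlong_of_monic ctx.normal_i₃ hm) hζ κ h12 h13 h23 hu₁ hu₂ hu₃ ha₀ hs₀ hpure 1
    rwa [pow_one] at h
  · -- off the cusps: change of chart
    have hclear : ∀ b : chart R ({x} : Set F),
        ∃ k : ℕ, x⁻¹ ^ k * (b : F) ∈ chart R ({x⁻¹} : Set F) :=
      fun b => Fermat.Agent.S18.H138.exists_inv_pow_mul_mem_chart hx0 b.2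
    have hnmax : (backIdeal (chart R ({x} : Set F)) n' x⁻¹ hyB' hclear).IsMaximal :=
      backIdeal_isMaximal hyB' hclear hy h𝔪n' hrat'
    have hwn : algebraMap R (chart R ({x} : Set F)) w
        ∈ backIdeal (chart R ({x} : Set F)) n' x⁻¹ hyB' hclear :=
      (algebraMap_mem_backIdeal_iff hyB' hclear hy w).2 hwn'
    refine LabelAt.of_back hyB' hclear hy ?_ (hfin _ hnmax hwn)
    rintro V (rfl | rfl | rfl)
    · exact ctx.x_unit₁.2.2
    · exact ctx.x_unit₂.2.2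
    · exact ctx.x_unit₃.2.2

/-- **The wall with the zero colouring**: `u ≡ 1` on `V₁, V₂, V₃`, `m ∣ div u`, and trivial labels
at the triple points ⟹ `u` is an `m`-th power. -/
theorem exists_pow_of_triple_labels630 (ctx : TripleCtx w q α β x x' V₁ V₂ V₃ V₁' V₂')
    (hw : Irreducible w) (hq : q.Prime) (hqR : (q : R) ∈ IsLocalRing.maximalIdeal R)
    {m : ℕ} (hm : 0 < m) (hqm : ¬ q ∣ m) {ζ : R} (hζ : IsPrimitiveRoot ζ m)
    {u : F} (hdiv : DivisibleDiv E m u)
    (hu₁ : u - 1 ∈ V₁.nonunits) (hu₂ : u - 1 ∈ V₂.nonunits) (hu₃ : u - 1 ∈ V₃.nonunits)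
    (κ : ValuationSubring F → ℕ)
    (htriple : ∀ n : Ideal (chart R ({x} : Set F)), n.IsMaximal →
      algebraMap R (chart R ({x} : Set F)) w ∈ n →
      PassThrough (chart R ({x} : Set F)) n V₁ → PassThrough (chart R ({x} : Set F)) n V₂ →
      PassThrough (chart R ({x} : Set F)) n V₃ →
      LabelAt (chart R ({x} : Set F)) n {V | V = V₁ ∨ V = V₂ ∨ V = V₃} m u ζ κ) :
    ∃ h : F, h ≠ 0 ∧ h ^ m = u := by
  have hζ1 : ζ ^ m = 1 := hζ.pow_eq_one
  have hu0 : u ≠ 0 := (unit_of_split hu₁).1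
  have hfin := labelAt_fin_of_triple630 ctx hw hq hm hζ1 hdiv hu₁ hu₂ hu₃ κ htriple
  have hinf := labelAt_inf_of_fin630 ctx hw hq hm hζ1 hdiv hu₁ hu₂ hu₃ κ hfin
  haveI := ctx.dvr₁
  have hdisc : ∀ g : F, ∃ k : ℕ, g * algebraMap R F w ^ k ∈ V₁ :=
    Fermat.Agent.S36.Alg3.exists_mul_pow_mem_of_unif V₁ ctx.unif₁.1 ctx.unif₁.2.1 ctx.unif₁.2.2
  obtain ⟨h, hh⟩ := Fermat.Agent.S36.H193.exists_pow_eq_of_three E w hw q hq hqR ctx.hx ctx.hfin
    hm hqm hζ (f := u) hu0 V₁ V₂ V₃ (Fermat.Agent.S36.H987.ctx_sheets hw hq ctx)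
    hu₁ hu₂ hu₃ ctx.base₁ ctx.unif₁.2.1 ctx.unif₁.2.2 hdisc κ
    (fun n hn hwn => by
      haveI := hn
      refine basePureValuesAt_of_labelAt ?_ hm hζ1 (hfin n hn hwn)
      rintro V (rfl | rfl | rfl)
      · exact chartLe_chart ctx.base₁
          (fun s hs => by rw [Set.mem_singleton_iff.1 hs]; exact ctx.x_unit₁.2.1)
      · exact chartLe_chart ctx.base₂
          (fun s hs => by rw [Set.mem_singleton_iff.1 hs]; exact ctx.x_unit₂.2.1)
      · exact chartLe_chart ctx.base₃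
          (fun s hs => by rw [Set.mem_singleton_iff.1 hs]; exact ctx.x_unit₃.2.1))
    (fun n hn hwn => by
      haveI := hn
      refine basePureValuesAt_of_labelAt ?_ hm hζ1 (hinf n hn hwn)
      rintro V (rfl | rfl | rfl)
      · exact chartLe_chart ctx.base₁
          (fun s hs => by rw [Set.mem_singleton_iff.1 hs]; exact ctx.x_unit₁.2.2)
      · exact chartLe_chart ctx.base₂
          (fun s hs => by rw [Set.mem_singleton_iff.1 hs]; exact ctx.x_unit₂.2.2)
      · exact chartLe_chart ctx.base₃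
          (fun s hs => by rw [Set.mem_singleton_iff.1 hs]; exact ctx.x_unit₃.2.2))
  refine ⟨h, ?_, hh⟩
  rintro rfl
  rw [zero_pow hm.ne'] at hh
  exact hu0 hh.symm

/-- **THE TORIC WALL at level `q² M'`.**  Given LAB1-SURJ (E-form) at level `q M'`, every `u ≡ 1`
on `V₁, V₂, V₃` with `m ∣ div u` is old up to `m`-th powers: `u * α g * β g' = h ^ m` with
`g, g'` of level `q M'`, `m ∣ div g, g'`, `g, g' ≡ 1` on `V₁'`, `V₂'`. -/
theorem toricWall630 (ctx : TripleCtx w q α β x x' V₁ V₂ V₃ V₁' V₂')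
    (hw : Irreducible w) (hq : q.Prime) (hqR : (q : R) ∈ IsLocalRing.maximalIdeal R)
    {m : ℕ} (hm : 0 < m) (hqm : ¬ q ∣ m) {ζ : R} (hζ : IsPrimitiveRoot ζ m)
    (hLab : Lab1SurjE E w x' V₁' V₂' m ζ)
    {u : F} (hdiv : DivisibleDiv E m u)
    (hu₁ : u - 1 ∈ V₁.nonunits) (hu₂ : u - 1 ∈ V₂.nonunits) (hu₃ : u - 1 ∈ V₃.nonunits) :
    ∃ (g g' : F') (h : F), g ≠ 0 ∧ g' ≠ 0 ∧ DivisibleDiv E m g ∧ DivisibleDiv E m g' ∧
      g - 1 ∈ V₁'.nonunits ∧ g - 1 ∈ V₂'.nonunits ∧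
      g' - 1 ∈ V₁'.nonunits ∧ g' - 1 ∈ V₂'.nonunits ∧ h ≠ 0 ∧
      u * α g * β g' = h ^ m := by
  classical
  have hζ1 : ζ ^ m = 1 := hζ.pow_eq_one
  have hB₁ : ChartLe (chart R ({x} : Set F)) V₁ := chartLe_chart ctx.base₁
    (fun s hs => by rw [Set.mem_singleton_iff.1 hs]; exact ctx.x_unit₁.2.1)
  have hB₂ : ChartLe (chart R ({x} : Set F)) V₂ := chartLe_chart ctx.base₂
    (fun s hs => by rw [Set.mem_singleton_iff.1 hs]; exact ctx.x_unit₂.2.1)
  have hB₃ : ChartLe (chart R ({x} : Set F)) V₃ := chartLe_chart ctx.base₃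
    (fun s hs => by rw [Set.mem_singleton_iff.1 hs]; exact ctx.x_unit₃.2.1)
  have hB : ∀ V ∈ ({V | V = V₁ ∨ V = V₂ ∨ V = V₃} : Set (ValuationSubring F)),
      ChartLe (chart R ({x} : Set F)) V := by
    rintro V (rfl | rfl | rfl)
    · exact hB₁
    · exact hB₂
    · exact hB₃
  -- the triple points
  let P : Ideal (chart R ({x} : Set F)) → Prop := fun n =>
    n.IsMaximal ∧ algebraMap R (chart R ({x} : Set F)) w ∈ n ∧
      PassThrough (chart R ({x} : Set F)) n V₁ ∧ PassThrough (chart R ({x} : Set F)) n V₂ ∧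
      PassThrough (chart R ({x} : Set F)) n V₃
  -- the labels of `u`
  have hlab : ∀ n, P n → ∃ a₁ a₂ : ℕ,
      LabelAt (chart R ({x} : Set F)) n {V | V = V₁ ∨ V = V₂ ∨ V = V₃} m u ζ
        (kap3 V₁ V₂ a₁ a₂ 0) := by
    rintro n ⟨hn, hwn, h1, h2, h3⟩
    haveI := hn
    have h𝔪n := maximalIdeal_map_mem hw hwn
    obtain ⟨d, -, a₀, s₀, ha₀, hs₀, hpure⟩ :=
      Fermat.Agent.S36.H987.ctx_pure_fin hw hq ctx n hn hwn hm hdiv (unit_of_split hu₁)
        (unit_of_split hu₂) (unit_of_split hu₃)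
    exact labelAt_exists3 (rat_chart x n hn h𝔪n) h𝔪n ctx.ne₁₂ ctx.ne₁₃ ctx.ne₂₃ hB₁ hB₂ hB₃
      h1 h2 h3 hm (normalAlong_of_monic ctx.normal_f₁ hm)
      (normalAlong_of_monic ctx.normal_f₂ hm) (normalAlong_of_monic ctx.normal_f₃ hm) hζ
      hu₁ hu₂ hu₃ ha₀ hs₀ hpure
  choose! A₁ A₂ hA using hlab
  -- the side `α`
  obtain ⟨g, hg0, hgdiv, hg1, hg2, hglab⟩ :
      ∃ g : F', g ≠ 0 ∧ DivisibleDiv E m g ∧ g - 1 ∈ V₁'.nonunits ∧ g - 1 ∈ V₂'.nonunits ∧
        ∀ n, P n → ∃ κ : ValuationSubring F → ℕ, ζ ^ κ V₁ = ζ ^ ((m - 1) * A₂ n) ∧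
          ζ ^ κ V₂ = ζ ^ ((m - 1) * A₂ n) ∧ ζ ^ κ V₃ = 1 ∧
          LabelAt (chart R ({x} : Set F)) n {V | V = V₁ ∨ V = V₂ ∨ V = V₃} m (α g) ζ κ := by
    letI := algebraAlong α
    haveI : IsScalarTower R F' F := isScalarTower_alongR α
    have e₁ : V₁.comap (algebraMap F' F) = V₁' := ctx.comap_α₁
    have e₂ : V₂.comap (algebraMap F' F) = V₁' := ctx.comap_α₂
    have e₃ : V₃.comap (algebraMap F' F) = V₂' := ctx.comap_α₃
    obtain ⟨g, hg0, hgdiv, hg1, hg2, hglab⟩ := exists_pull_label630 (E := E) ctx.chart_α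
      ctx.int_α hLab P (fun n hn => hn.1) (fun n hn => hn.2.1)
      (fun n n' hn hn' h => ctx.unique_α n n' hn.1 hn'.1 ⟨hn.2.2.1, hn.2.2.2.1, hn.2.2.2.2⟩
        (fun b' hb' hb => by
          have h1 : (⟨b', hb'⟩ : chart R ({x'} : Set F')) ∈ n.comap (chartIncl ctx.chart_α) := hb
          rw [h] at h1
          exact h1))
      (fun n hn => by
        have h := PassThrough.pull630 (x' := x') ctx.chart_α hn.2.2.1
        rw [e₁] at h
        exact h)
      (fun n hn => by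
        have h := PassThrough.pull630 (x' := x') ctx.chart_α hn.2.2.2.2
        rw [e₃] at h
        exact h)
      (fun n => (m - 1) * A₂ n)
    refine ⟨g, hg0, hgdiv, hg1, hg2, fun n hn => ?_⟩
    obtain ⟨κ', h1, h2, hl⟩ := hglab n hn
    refine ⟨fun V => κ' (V.comap (algebraMap F' F)), ?_, ?_, ?_, hl _ ?_⟩
    · show ζ ^ κ' (V₁.comap (algebraMap F' F)) = _
      rw [e₁, h1]
    · show ζ ^ κ' (V₂.comap (algebraMap F' F)) = _
      rw [e₂, h1]
    · show ζ ^ κ' (V₃.comap (algebraMap F' F)) = _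
      rw [e₃, h2]
    · rintro V (rfl | rfl | rfl)
      · exact Or.inl e₁
      · exact Or.inl e₂
      · exact Or.inr e₃
  -- the side `β`
  obtain ⟨g', hg'0, hg'div, hg'1, hg'2, hg'lab⟩ :
      ∃ g' : F', g' ≠ 0 ∧ DivisibleDiv E m g' ∧ g' - 1 ∈ V₁'.nonunits ∧
        g' - 1 ∈ V₂'.nonunits ∧
        ∀ n, P n → ∃ κ : ValuationSubring F → ℕ,
          ζ ^ κ V₁ = ζ ^ (A₂ n + (m - 1) * A₁ n) ∧
          ζ ^ κ V₂ = 1 ∧ ζ ^ κ V₃ = 1 ∧
          LabelAt (chart R ({x} : Set F)) n {V | V = V₁ ∨ V = V₂ ∨ V = V₃} m (β g') ζ κ := by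
    letI := algebraAlong β
    haveI : IsScalarTower R F' F := isScalarTower_alongR β
    have e₁ : V₁.comap (algebraMap F' F) = V₁' := ctx.comap_β₁
    have e₂ : V₂.comap (algebraMap F' F) = V₂' := ctx.comap_β₂
    have e₃ : V₃.comap (algebraMap F' F) = V₂' := ctx.comap_β₃
    obtain ⟨g', hg0, hgdiv, hg1, hg2, hglab⟩ := exists_pull_label630 (E := E) ctx.chart_β
      ctx.int_β hLab P (fun n hn => hn.1) (fun n hn => hn.2.1)
      (fun n n' hn hn' h => ctx.unique_β n n' hn.1 hn'.1 ⟨hn.2.2.1, hn.2.2.2.1, hn.2.2.2.2⟩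
        (fun b' hb' hb => by
          have h1 : (⟨b', hb'⟩ : chart R ({x'} : Set F')) ∈ n.comap (chartIncl ctx.chart_β) := hb
          rw [h] at h1
          exact h1))
      (fun n hn => by
        have h := PassThrough.pull630 (x' := x') ctx.chart_β hn.2.2.1
        rw [e₁] at h
        exact h)
      (fun n hn => by
        have h := PassThrough.pull630 (x' := x') ctx.chart_β hn.2.2.2.2
        rw [e₃] at h
        exact h)
      (fun n => A₂ n + (m - 1) * A₁ n)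
    refine ⟨g', hg0, hgdiv, hg1, hg2, fun n hn => ?_⟩
    obtain ⟨κ', h1, h2, hl⟩ := hglab n hn
    refine ⟨fun V => κ' (V.comap (algebraMap F' F)), ?_, ?_, ?_, hl _ ?_⟩
    · show ζ ^ κ' (V₁.comap (algebraMap F' F)) = _
      rw [e₁, h1]
    · show ζ ^ κ' (V₂.comap (algebraMap F' F)) = _
      rw [e₂, h2]
    · show ζ ^ κ' (V₃.comap (algebraMap F' F)) = _
      rw [e₃, h2]
    · rintro V (rfl | rfl | rfl)
      · exact Or.inl e₁
      · exact Or.inr e₂
      · exact Or.inr e₃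
  -- congruences to `1` of the pull-backs
  have hα₁ : α g - 1 ∈ V₁.nonunits :=
    sub_one_map630 (α : F' →+* F) V₁ (by rw [ctx.comap_α₁]; exact hg1)
  have hα₂ : α g - 1 ∈ V₂.nonunits :=
    sub_one_map630 (α : F' →+* F) V₂ (by rw [ctx.comap_α₂]; exact hg1)
  have hα₃ : α g - 1 ∈ V₃.nonunits :=
    sub_one_map630 (α : F' →+* F) V₃ (by rw [ctx.comap_α₃]; exact hg2)
  have hβ₁ : β g' - 1 ∈ V₁.nonunits :=
    sub_one_map630 (β : F' →+* F) V₁ (by rw [ctx.comap_β₁]; exact hg'1)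
  have hβ₂ : β g' - 1 ∈ V₂.nonunits :=
    sub_one_map630 (β : F' →+* F) V₂ (by rw [ctx.comap_β₂]; exact hg'2)
  have hβ₃ : β g' - 1 ∈ V₃.nonunits :=
    sub_one_map630 (β : F' →+* F) V₃ (by rw [ctx.comap_β₃]; exact hg'2)
  have hv₁ : u * α g * β g' - 1 ∈ V₁.nonunits := sub_one_mul630 V₁ (sub_one_mul630 V₁ hu₁ hα₁) hβ₁
  have hv₂ : u * α g * β g' - 1 ∈ V₂.nonunits := sub_one_mul630 V₂ (sub_one_mul630 V₂ hu₂ hα₂) hβ₂
  have hv₃ : u * α g * β g' - 1 ∈ V₃.nonunits := sub_one_mul630 V₃ (sub_one_mul630 V₃ hu₃ hα₃) hβ₃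
  have hvdiv : DivisibleDiv E m (u * α g * β g') :=
    divisibleDiv_mul630 (divisibleDiv_mul630 hdiv (divisibleDiv_map630 α hg0 hgdiv))
      (divisibleDiv_map630 β hg'0 hg'div)
  -- the labels of the product at the triple points are trivial
  have htriple : ∀ n : Ideal (chart R ({x} : Set F)), n.IsMaximal →
      algebraMap R (chart R ({x} : Set F)) w ∈ n →
      PassThrough (chart R ({x} : Set F)) n V₁ → PassThrough (chart R ({x} : Set F)) n V₂ →
      PassThrough (chart R ({x} : Set F)) n V₃ →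
      LabelAt (chart R ({x} : Set F)) n {V | V = V₁ ∨ V = V₂ ∨ V = V₃} m (u * α g * β g') ζ
        (fun _ => 0) := by
    intro n hn hwn h1 h2 h3
    haveI := hn
    haveI : n.IsPrime := hn.isPrime
    have hPn : P n := ⟨hn, hwn, h1, h2, h3⟩
    obtain ⟨κα, a1, a2, a3, hlα⟩ := hglab n hPn
    obtain ⟨κβ, b1, b2, b3, hlβ⟩ := hg'lab n hPn
    have hl := LabelAt.mul630 hB (LabelAt.mul630 hB (hA n hPn) hlα) hlβ
    refine LabelAt.congr630 hl ?_
    rintro V (rfl | rfl | rfl)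
    · show ζ ^ (kap3 V V₂ (A₁ n) (A₂ n) 0 V + κα V + κβ V) = ζ ^ 0
      rw [kap3_one, pow_add, pow_add, a1, b1, pow_add, pow_zero]
      have e1 := zeta_cancel630 hm hζ1 (A₁ n)
      have e2 := zeta_cancel630 hm hζ1 (A₂ n)
      calc ζ ^ A₁ n * ζ ^ ((m - 1) * A₂ n) * (ζ ^ A₂ n * ζ ^ ((m - 1) * A₁ n))
          = (ζ ^ A₁ n * ζ ^ ((m - 1) * A₁ n)) * (ζ ^ A₂ n * ζ ^ ((m - 1) * A₂ n)) := by ring
        _ = 1 := by rw [e1, e2, one_mul]
    · show ζ ^ (kap3 V₁ V (A₁ n) (A₂ n) 0 V + κα V + κβ V) = ζ ^ 0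
      rw [kap3_two ctx.ne₁₂, pow_add, pow_add, a2, b2, pow_zero, mul_one]
      exact zeta_cancel630 hm hζ1 (A₂ n)
    · show ζ ^ (kap3 V₁ V₂ (A₁ n) (A₂ n) 0 V + κα V + κβ V) = ζ ^ 0
      rw [kap3_three ctx.ne₁₃ ctx.ne₂₃, pow_add, pow_add, a3, b3, pow_zero, mul_one, mul_one]
  obtain ⟨h, hh0, hh⟩ := exists_pow_of_triple_labels630 ctx hw hq hqR hm hqm hζ hvdiv hv₁ hv₂ hv₃
    (fun _ => 0) htriple
  exact ⟨g, g', h, hg0, hg'0, hgdiv, hg'div, hg1, hg2, hg'1, hg'2, hh0, hh.symm⟩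

end Wall

end Fermat.Agent.S59.LoSqC.H630

end
-- ===== PACK-END S59/LoSqC/H630/ToricWall.lean

-- ===== PACK-BEGIN S27/H145/CharFree.lean
section
















/-!
# S27 in EVERY characteristic (helper145)

The frozen statement S27 is stated for `CharZero K`, but none of the leaves of row S27 (nor S25,
S26) uses the characteristic.  This file re-runs the top glue of `Fermat/Agent/S27/TopJac.lean`
without the hypothesis `CharZero K`:

* `jacPackage K F : Nonempty (JacPackage K F)` for `K` algebraically closed of ANY characteristic,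
  `IsCurveOver K F`, `Algebra.EssFiniteType K F` (`K`, `F` in one universe);
* `card_torsion K F n hn : Nat.card (Pic0.torsion K F n) = n ^ (2 * genusFF K F)` for every `n`
  invertible in `K`;
* `card_torsion_prime_pow`, `card_torsion_le`, `finite_torsion` : corollaries in the shapes used
  by the consumers (RIBET WALL-q, leaf Q3 / TORS-LIFT: `#Pic⁰(F_k)[p] = p^(2g)`, `k` the residue
  field at `q ≠ p`).

Everything is assembled from results on main; sorry-free.
-/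

set_option autoImplicit false
set_option linter.style.haveILetI false
universe u
open CategoryTheory CategoryTheory.Limits AlgebraicGeometry AlgebraicGeometry.RelPicard
  NeronModelInfra GoodReductionJacobian AlgebraicCurve
open scoped TensorProduct

namespace Fermat.Agent.S27.H145

open Fermat.Agent.S25 Fermat.Agent.S27

noncomputable section

variable (K F : Type u) [Field K] [Field F] [Algebra K F]

/-- **FF-ALG without `CharZero`**: a function field of a curve has a curve chart. -/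
theorem ffChart [IsAlgClosed K] [IsCurveOver K F] [Algebra.EssFiniteType K F] :
    Nonempty (FFChart K F) := by
  obtain ⟨B₀, B₁, B₀₁, _, _, _, _, _, _, _, _, _, _, x, y, e, j₀, j₁, j₀₁, hchart, h₀, h₁,
    hj₀, -, hj₀₁, hfrac, -⟩ := H443.ffalg_of_isCurveOver K F
  refine ⟨{ B₀ := B₀, B₁ := B₁, B₀₁ := B₀₁, x := x, y := y, e := e, isCurveChart := hchart,
            j₀ := j₀, j₁ := j₁, j₀₁ := j₀₁, j₀₁_algebraMap₀ := h₀, j₀₁_algebraMap₁ := h₁,
            isFracMap := ⟨hj₀₁, fun f => ?_⟩ }⟩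
  obtain ⟨a, b, hb, hab⟩ := hfrac f
  refine ⟨algebraMap B₀ B₀₁ a, algebraMap B₀ B₀₁ b, ?_, ?_⟩
  · rw [h₀]
    intro h0
    exact hb (hj₀ (by rw [h0, map_zero]))
  · rw [h₀, h₀]
    exact hab

/-- **MODEL without `CharZero`**: a function field of a curve is the function field of a smooth
proper integral pointed curve with a two-chart presentation. -/
theorem curveModel [IsAlgClosed K] [IsCurveOver K F] [Algebra.EssFiniteType K F] :
    Nonempty (CurveModel K F) := by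
  obtain ⟨X⟩ := ffChart K F
  obtain ⟨C, c, hp, hs, hi, ε, Ch, φ₀, φ₁, φ₀₁, h₀, h₁⟩ :=
    H866.curveScheme K X.B₀ X.B₁ X.B₀₁ X.x X.y X.e X.isCurveChart
  refine ⟨{ C := C, c := c, isProper := hp, smooth := hs, isIntegral := hi, ε := ε, Ch := Ch
            j₀ := X.j₀.comp φ₀.toAlgHom
            j₁ := X.j₁.comp φ₁.toAlgHom
            j₀₁ := X.j₀₁.comp φ₀₁.toAlgHom
            j₀₁_algebraMap₀ := fun b => ?_
            j₀₁_algebraMap₁ := fun b => ?_
            isFracMap := ⟨?_, fun f => ?_⟩ }⟩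
  · show X.j₀₁ (φ₀₁ (algebraMap Ch.B₀ Ch.B₀₁ b)) = X.j₀ (φ₀ b)
    rw [h₀, X.j₀₁_algebraMap₀]
  · show X.j₀₁ (φ₀₁ (algebraMap Ch.B₁ Ch.B₀₁ b)) = X.j₁ (φ₁ b)
    rw [h₁, X.j₀₁_algebraMap₁]
  · exact X.isFracMap.1.comp φ₀₁.injective
  · obtain ⟨a, b, hb, hab⟩ := X.isFracMap.2 f
    refine ⟨φ₀₁.symm a, φ₀₁.symm b, ?_, ?_⟩
    · show X.j₀₁ (φ₀₁ (φ₀₁.symm b)) ≠ 0
      rwa [AlgEquiv.apply_symm_apply]
    · show f * X.j₀₁ (φ₀₁ (φ₀₁.symm b)) = X.j₀₁ (φ₀₁ (φ₀₁.symm a))
      rwa [AlgEquiv.apply_symm_apply, AlgEquiv.apply_symm_apply]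

/-- **JAC without `CharZero`**: the Jacobian package of a function field of a curve over an
algebraically closed field of any characteristic. -/
theorem jacPackage [IsAlgClosed K] [IsCurveOver K F] [Algebra.EssFiniteType K F] :
    Nonempty (JacPackage K F) := by
  obtain ⟨M⟩ := curveModel K F
  obtain ⟨D, ⟨hrep⟩, hsm, hpr, hgc⟩ := Fermat.Agent.S25.result K M.c M.ε
  obtain ⟨L, hcomm, htens⟩ := H386.grp K M.c M.ε M.Ch D hrep
  have hdim := Dim.main_of_tan_d1 K
      (H551.tan_of_chartAt_loc_ptsDictA K (H351.chartAt K) (H351.loc K) (H446.ptsDictA K))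
      M.c M.ε M.Ch D hrep hsm hpr hgc
  obtain ⟨cl, hsurj, hiso, hadd⟩ := H970.picCl K F M
  obtain ⟨ha, hb, hc⟩ := H506.ptsDict K M.c M.ε M.Ch D hrep
  -- the graph of the bijection
  let R : Pic0 K F → SchemeHomOver (specStr K K) D.toBase → Prop := fun x g =>
    ∃ (G : M.GD) (hG0 : G.degree = 0), cl ⟨G, hG0⟩ = x ∧
      Corr M.Ch K (hrep.poincare.pullbackAlong g).L G
  have hR1 : ∀ x, ∃ g, R x g := fun x => by
    obtain ⟨⟨G, hG0⟩, rfl⟩ := hsurj x
    obtain ⟨g, hg⟩ := hb G hG0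
    exact ⟨g, G, hG0, rfl, hg⟩
  have hR2 : ∀ x g g', R x g → R x g' → g = g' := by
    rintro x g g' ⟨G, hG0, hx, hg⟩ ⟨G', hG0', hx', hg'⟩
    exact (hc g g' G G' hg hg').mpr ((hiso ⟨G, hG0⟩ ⟨G', hG0'⟩).mp (hx.trans hx'.symm))
  have hR3 : ∀ g, ∃ x, R x g := fun g => by
    obtain ⟨G, hG0, hg⟩ := ha g
    exact ⟨cl ⟨G, hG0⟩, G, hG0, rfl, hg⟩
  have hR4 : ∀ x x' g, R x g → R x' g → x = x' := by
    rintro x x' g ⟨G, hG0, rfl, hg⟩ ⟨G', hG0', rfl, hg'⟩
    exact (hiso ⟨G, hG0⟩ ⟨G', hG0'⟩).mpr ((hc g g G G' hg hg').mp rfl)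
  choose φ hφ using hR1
  have hφbij : Function.Bijective φ := by
    constructor
    · intro x x' h
      exact hR4 x x' (φ x) (hφ x) (h ▸ hφ x')
    · intro g
      obtain ⟨x, hx⟩ := hR3 g
      exact ⟨x, hR2 x _ _ (hφ x) hx⟩
  have hφadd : ∀ x y, φ (x + y) = L.mul (specStr K K) (φ x) (φ y) := by
    intro x y
    obtain ⟨G, hG0, hx, hg⟩ := hφ x
    obtain ⟨G', hG0', hy, hg'⟩ := hφ y
    obtain ⟨G'', hG''⟩ :=
      H323.tensorExists K (K ⊗[K] M.Ch.B₀) (K ⊗[K] M.Ch.B₁) (K ⊗[K] M.Ch.B₀₁) G G'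
    obtain ⟨hG0'', hcl⟩ := hadd ⟨G, hG0⟩ ⟨G', hG0'⟩ G'' hG''
    have hcorr := htens K (φ x) (φ y) G G' G'' hg hg' hG''
    refine hR2 (x + y) _ _ (hφ (x + y)) ⟨G'', hG0'', ?_, hcorr⟩
    rw [hcl, hx, hy]
  haveI : IsProper D.toBase := hpr
  haveI : GeometricallyConnected D.toBase := hgc
  refine ⟨{ J := D.P, f := D.toBase, law := L, comm := hcomm
            bundle := ⟨hsm, hpr,
              H660.conn K D.toBase ⟨D.zeroSection, D.zeroSection_toBase⟩, ⟨L⟩⟩
            smoothDim := by rw [H267.genus K F M]; exact hdim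
            pts := (Equiv.ofBijective φ hφbij).trans specStrPointEquiv.symm
            pts_add := fun x y => ?_ }⟩
  show specStrPointEquiv.symm (φ (x + y)) =
    L.mul (𝟙 _) (specStrPointEquiv.symm (φ x)) (specStrPointEquiv.symm (φ y))
  rw [hφadd, specStrPointEquiv_symm_mul]

/-- **S27 in every characteristic**: for the function field `F` of a curve over an algebraically
closed field `K` and every `n` invertible in `K`, `#Pic⁰(F)[n] = n ^ (2 g)`. -/
theorem card_torsion [IsAlgClosed K] [IsCurveOver K F] [Algebra.EssFiniteType K F]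
    (n : ℕ) (hn : (n : K) ≠ 0) :
    Nat.card (Pic0.torsion K F n) = n ^ (2 * genusFF K F) := by
  obtain ⟨P⟩ := jacPackage K F
  haveI := P.smoothDim
  have h := Fermat.Agent.S26.result K P.f P.law P.comm P.bundle (genusFF K F) n hn
  rw [Nat.card_congr (P.torsionEquiv n), h]

/-- The prime power form (the shape of the frozen S27), `ℓ ≠ char K`. -/
theorem card_torsion_prime_pow [IsAlgClosed K] [IsCurveOver K F] [Algebra.EssFiniteType K F]
    (ℓ : ℕ) (hℓ : (ℓ : K) ≠ 0) (k : ℕ) :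
    Nat.card (Pic0.torsion K F (ℓ ^ k)) = ℓ ^ (2 * genusFF K F * k) := by
  have hn : ((ℓ ^ k : ℕ) : K) ≠ 0 := by
    rw [Nat.cast_pow]
    exact pow_ne_zero _ hℓ
  rw [card_torsion K F (ℓ ^ k) hn, ← pow_mul]
  congr 1
  ring

/-- The torsion subgroup `Pic⁰(F)[n]` is finite for `n` invertible in `K`. -/
theorem finite_torsion [IsAlgClosed K] [IsCurveOver K F] [Algebra.EssFiniteType K F]
    (n : ℕ) (hn : (n : K) ≠ 0) : Finite (Pic0.torsion K F n) := by
  apply Nat.finite_of_card_ne_zero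
  rw [card_torsion K F n hn]
  have hn0 : n ≠ 0 := by
    rintro rfl
    exact hn Nat.cast_zero
  exact pow_ne_zero _ hn0

/-- The upper bound, in the form asked for by the consumers. -/
theorem card_torsion_le [IsAlgClosed K] [IsCurveOver K F] [Algebra.EssFiniteType K F]
    (n : ℕ) (hn : (n : K) ≠ 0) :
    Nat.card (Pic0.torsion K F n) ≤ n ^ (2 * genusFF K F) :=
  (card_torsion K F n hn).le

end

end Fermat.Agent.S27.H145

end
-- ===== PACK-END S27/H145/CharFree.lean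

-- ===== PACK-BEGIN S59/H807/GubSpec.lean
section



/-!
# S59 moonshot, cell (C) LO-SQ, leaf GUB (helper807) — interface and assembly

Level `M * q`, `q ∤ M`, vocabulary of `S36/H803/R3Spec.lean` (finite chart `Bfin`, components
`p₁ = B ∩ w V∞`, `p₂ = B ∩ w V₀`, nodes = maximal ideals `n ⊇ p₁ + p₂`).

* `Gub4Statement`  : `4 ∣ M`, `5 ≤ q`:  `12 · #nodes ≤ (q - 1) ψ(M)`
                     (`H803.GubStatement` with `Rigid M` replaced by `4 ∣ M ∧ 5 ≤ q`).
* `Ord12Statement` : at every node `n`, `D ∈ p₂ + n ^ 12` (`D = q¹² Δ(t^q)/Δ(t)`): the Hasse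
                     polynomial is a 12-th power up to `j^{4δ} (j - 1728)^{6ε}`, and the level-4
                     structure makes `j` a cube and `j - 1728` a square at the points over
                     `j = 0`, `j = 1728`.
* `gub4_of_deg0_ord12 : H803.Deg0Statement → Ord12Statement → Gub4Statement` (sorry-free).
-/

set_option autoImplicit false
set_option linter.unusedSectionVars false
set_option linter.unusedVariables false
set_option linter.style.haveILetI false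
set_option synthInstance.maxHeartbeats 400000
set_option maxHeartbeats 1600000

noncomputable section

namespace Fermat.Agent.S59.H807

open ModularCurve Fermat.Agent.A2.Mod Fermat.Agent.S36.H803

variable (P : ValuationSubring Qb) (E : IntermediateField ℚ Qb) (M q : ℕ) [NeZero M] [NeZero q]
  (w : RE P E)

/-- **Leaf GUB4**: `12 · #nodes ≤ (q - 1) ψ(M)` for `4 ∣ M`, `5 ≤ q`. -/
def Gub4Statement : Prop :=
  R3Hyp P E M q w → 4 ∣ M → 5 ≤ q →
    ∀ p₁ p₂ : Ideal (Bfin P E M q), IsComponents P E M q w p₁ p₂ →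
      ∀ s : Finset (Ideal (Bfin P E M q)), (∀ n ∈ s, IsNode P E M q p₁ p₂ n) →
        12 * s.card ≤ (q - 1) * dedekindPsi M

/-- **Leaf ORD12**: `D` vanishes to order `≥ 12` along `C₀` at every node. -/
def Ord12Statement : Prop :=
  R3Hyp P E M q w → 4 ∣ M → 5 ≤ q →
    ∀ D : Bfin P E M q, IsD E M q (D : FE E (M * q)) →
      ∀ p₁ p₂ : Ideal (Bfin P E M q), IsComponents P E M q w p₁ p₂ →
        ∀ n : Ideal (Bfin P E M q), IsNode P E M q p₁ p₂ n → D ∈ p₂ ⊔ n ^ 12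

/-- A cut is determined by its valuation ring. -/
theorem isCut_unique807 {N : ℕ} {V : ValuationSubring (FE E N)}
    {B : Subalgebra (RE P E) (FE E N)} {p p' : Ideal B}
    (h : IsCut P E N w V B p) (h' : IsCut P E N w V B p') : p = p' := by
  ext b
  rw [h b, h' b]

/-- The semistable chart with PRESCRIBED components. -/
theorem exists_ssChart_of_components807 (hyp : R3Hyp P E M q w)
    (p₁ p₂ : Ideal (Bfin P E M q)) (hcomp : IsComponents P E M q w p₁ p₂) :
    ∃ c : Fermat.Agent.A2.SSChart w (Bfin P E M q), c.p₁ = p₁ ∧ c.p₂ = p₂ := by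
  obtain ⟨V, W, hV, hW, hc₁, hc₂⟩ := hcomp
  obtain ⟨VM, hVM⟩ := hyp.vinfM
  have hy' : IsCoord E M q (xE E M q) := Or.inl rfl
  have hy : IsCoordPair E M q (jE E M 1 (one_dvd _)) (xE E M q) := Or.inl ⟨rfl, rfl⟩
  have hgood := (hyp.goodRed w VM hyp.setting.unif hVM).1
  obtain ⟨p₁', p₂', hc₁', hc₂', hp₁, hp₂, h₁₂, h₂₁, hinf⟩ :=
    hyp.s1 hyp.setting V W hV hW (xE E M q) hy'
  have e₁ : p₁' = p₁ := isCut_unique807 P E w hc₁' hc₁
  have e₂ : p₂' = p₂ := isCut_unique807 P E w hc₂' hc₂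
  subst e₁ e₂
  obtain ⟨hn₁, hn₂⟩ :=
    hyp.s2 hyp.setting VM V W hVM hV hW _ (xE E M q) hy hgood p₁' p₂' hc₁ hc₂
  have hrad := hyp.s3 hyp.setting VM V W hVM hV hW _ (xE E M q) hy hgood p₁' p₂' hc₁ hc₂
  exact ⟨{ p₁ := p₁'
           p₂ := p₂'
           prime₁ := hp₁
           prime₂ := hp₂
           ne := fun h => h₁₂ (h ▸ le_refl p₁')
           not_le₁₂ := h₁₂
           not_le₂₁ := h₂₁
           inf_eq := hinf
           normal₁ := hn₁
           normal₂ := hn₂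
           transversal := hrad }, rfl, rfl⟩

/-- The chart context of the finite chart. -/
theorem chartCtx_bfin807 (hyp : R3Hyp P E M q w) :
    Fermat.Agent.A2.Alg.ChartCtx E w (xE E M q) (Bfin P E M q) := by
  obtain ⟨hx, hfr, hconst⟩ := hyp.deg hyp.setting.q_prime hyp.setting.q_not_dvd
  have hpos : 0 < Module.finrank (IntermediateField.adjoin E ({xE E M q} : Set (FE E (M * q))))
      (FE E (M * q)) := by
    rw [hfr]
    have h1 := dedekindPsi_pos_of_ne_zero M (NeZero.ne M)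
    positivity
  exact
    { hw := hyp.setting.unif
      hx := hx
      hfin := Module.finite_of_finrank_pos hpos
      hconst := hconst
      hB := fun _ => Iff.rfl }

/-- **Assembly**: `DEG0 + ORD12 ⟹ GUB4`. -/
theorem gub4_of_deg0_ord12 (hDEG : Deg0Statement P E M q w)
    (hORD : Ord12Statement P E M q w) : Gub4Statement P E M q w := by
  intro hyp h4 h5 p₁ p₂ hcomp s hs
  classical
  haveI := hyp.setting.dvr
  obtain ⟨c, rfl, rfl⟩ := exists_ssChart_of_components807 P E M q w hyp p₁ p₂ hcomp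
  obtain ⟨D, D', hD, hD', -, hDB, hD'B, -⟩ :=
    Fermat.Agent.S36.H438.mu_package P E M q hyp.setting.q_prime
  obtain ⟨S, hS, hsum⟩ := hDEG hyp ⟨D, hDB⟩ hD c.p₁ c.p₂ hcomp
  have hB := chartCtx_bfin807 P E M q w hyp
  obtain ⟨hnoeth, hic, hfrac⟩ := Fermat.Agent.A2.Alg.H34.chart_instances' w (xE E M q)
    (Bfin P E M q) hB
  haveI := c.prime₂
  haveI : IsIntegrallyClosed (Bfin P E M q ⧸ c.p₂) := c.normal₂
  have hw : algebraMap (RE P E) (Bfin P E M q) w ∈ c.p₁ ⊓ c.p₂ := by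
    rw [c.inf_eq]
    exact Ideal.mem_span_singleton_self _
  haveI : IsDedekindDomain (Bfin P E M q ⧸ c.p₂) :=
    Fermat.Agent.A2.Alg.H609.isDedekindDomain_quotient_chart w (xE E M q) (Bfin P E M q) hB
      c.p₂ hw.2
  have hsub : s ⊆ S := fun n hn => (hS n).2 (hs n hn)
  have h12 : ∀ n ∈ s, ((12 : ℕ) : ℕ∞) ≤ ordAt c.p₂ n (⟨D, hDB⟩ : Bfin P E M q) := by
    intro n hn
    obtain ⟨hmax, h₁, h₂⟩ := hs n hn
    haveI := hmax
    rw [le_ordAt_iff c.p₂ n h₂]
    exact hORD hyp h4 h5 ⟨D, hDB⟩ hD c.p₁ c.p₂ hcomp n (hs n hn)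
  have hle : ((12 * s.card : ℕ) : ℕ∞) ≤ (((q - 1) * dedekindPsi M : ℕ) : ℕ∞) := by
    rw [← hsum]
    calc ((12 * s.card : ℕ) : ℕ∞) = ∑ n ∈ s, ((12 : ℕ) : ℕ∞) := by
          rw [Finset.sum_const, nsmul_eq_mul]
          push_cast
          ring
      _ ≤ ∑ n ∈ s, ordAt c.p₂ n (⟨D, hDB⟩ : Bfin P E M q) := Finset.sum_le_sum h12
      _ ≤ ∑ n ∈ S, ordAt c.p₂ n (⟨D, hDB⟩ : Bfin P E M q) :=
          Finset.sum_le_sum_of_subset hsub
  exact_mod_cast hle

end Fermat.Agent.S59.H807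

end

end
-- ===== PACK-END S59/H807/GubSpec.lean

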