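import Mathlib
import Fermat.Agent.Pack.S59C.E8L2
import Fermat.Agent.Pack.S43GC.G0E12L3
import Fermat.Agent.Pack.S43MC.G0E20L1
import Fermat.Agent.Pack.S43MC.G0E24L0
import Fermat.Agent.Pack.S59C.E8L0
import Fermat.Agent.Pack.S59C.E3L0
import Fermat.Agent.Pack.S59C.E0L0
import Fermat.Agent.Pack.S44C.G0E27L0
import Fermat.Agent.Pack.S43MC.G0E14L2
import Fermat.Agent.Pack.S44C.G0E25L1
import Fermat.Agent.Pack.S43MC.G0E23L3
import Fermat.Agent.Pack.S44C.G0E18L2
import Fermat.Agent.Pack.S44C.G0E25L2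
import Fermat.Agent.Pack.S44C.G0E25L0
import Fermat.Agent.Pack.S44C.G0E21L2
import Fermat.Agent.Pack.S44C.G0E23L3
import Fermat.Agent.Pack.S44C.G0E26L0
import Fermat.Agent.Pack.S59C.E8L1
import Fermat.Agent.Pack.S43MC.G0E3L1
import Fermat.Agent.Pack.S43MC.G0E14L0
import Fermat.Agent.Pack.S43MC.G0E17L2
import Fermat.Agent.Pack.S43MC.G0E20L2
import Fermat.Agent.Pack.S59C.E7L0
import Fermat.Agent.Pack.S43MC.G0E16L0
import Fermat.Agent.Pack.S44C.G0E2L1
import Fermat.Agent.Pack.S44C.G0E12L2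
import Fermat.Agent.Pack.S44C.G0E15L1
import Fermat.Agent.Pack.S44C.G0E26L3

set_option linter.all false

-- ===== PACK-BEGIN S59/H427/ReducedCot.lean
section


/-!
# S59 / N1 (helper427): the cotangent space of a reduced finite `𝒪`-algebra is finite

Let `𝒪` be a domain and `T` a finite `𝒪`-algebra which is reduced, `π : T →ₐ[𝒪] 𝒪` an
augmentation with kernel `𝔭`.

* `ker_aug_mem_minimalPrimes` : `𝔭` is a minimal prime of `T` (incomparability).
* `exists_notMem_mul_eq_zero_of_mem_minimalPrimes` : in a reduced Noetherian ring, a minimal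
  prime `P` is killed by some `s ∉ P`.
* `exists_ne_zero_smul_mem_sq` : there is `a ≠ 0` in `𝒪` with `a • 𝔭 ⊆ 𝔭²`.
* `finite_cot_of_isReduced` : if `𝒪` is a discrete valuation ring with finite residue field,
  then `Φ_T = 𝔭/𝔭²` is finite.
* `congIdeal_ne_bot_of_isReduced` : the congruence ideal `η_T` is nonzero.
* `numEq_of_ci_of_isReduced` : the numerical equality for a reduced complete intersection
  (no finiteness hypothesis).
-/

set_option autoImplicit false
set_option linter.unusedSectionVars false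
set_option linter.unusedVariables false
set_option linter.style.haveILetI false

namespace Fermat.Agent.S59.H427

open IsLocalRing Fermat.Agent.S59.NC

section MinPrime

variable {T : Type*} [CommRing T] [IsNoetherianRing T] [IsReduced T]

/-- In a reduced Noetherian ring, a minimal prime `P` is annihilated by an element outside
`P`. -/
theorem exists_notMem_mul_eq_zero_of_mem_minimalPrimes {P : Ideal T} (hP : P ∈ minimalPrimes T) :
    ∃ s : T, s ∉ P ∧ ∀ x ∈ P, s * x = 0 := by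
  classical
  have hfin : (minimalPrimes T).Finite := minimalPrimes.finite_of_isNoetherianRing T
  have hPprime : P.IsPrime := hP.1.1
  set F : Finset (Ideal T) := hfin.toFinset.erase P with hF
  have hnot : ¬ F.inf id ≤ P := by
    intro h
    obtain ⟨q, hqF, hqP⟩ := hPprime.inf_le'.mp h
    rw [hF, Finset.mem_erase, Set.Finite.mem_toFinset] at hqF
    have hPq : P ≤ q := hP.2 ⟨hqF.2.1.1, bot_le⟩ hqP
    exact hqF.1 (le_antisymm hqP hPq)
  obtain ⟨s, hsQ, hsP⟩ := SetLike.not_le_iff_exists.mp hnot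
  refine ⟨s, hsP, fun x hx => ?_⟩
  have hmem : s * x ∈ sInf (minimalPrimes T) := by
    rw [Submodule.mem_sInf]
    intro q hq
    by_cases hqP : q = P
    · rw [hqP]; exact Ideal.mul_mem_left P s hx
    · have hqF : q ∈ F := by
        rw [hF, Finset.mem_erase, Set.Finite.mem_toFinset]; exact ⟨hqP, hq⟩
      have hle : F.inf id ≤ q := Finset.inf_le hqF
      exact Ideal.mul_mem_right x q (hle hsQ)
  have hrad : sInf (minimalPrimes T) = ⊥ := by
    unfold minimalPrimes
    rw [Ideal.sInf_minimalPrimes]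
    exact nilradical_eq_zero T
  rw [hrad] at hmem
  exact hmem

end MinPrime

section Aug

variable {𝒪 : Type*} [CommRing 𝒪] [IsDomain 𝒪]
variable {T : Type*} [CommRing T] [Algebra 𝒪 T] [Module.Finite 𝒪 T]

/-- The kernel of an augmentation of a finite algebra over a domain is a minimal prime. -/
theorem ker_aug_mem_minimalPrimes (π : T →ₐ[𝒪] 𝒪) : RingHom.ker π ∈ minimalPrimes T := by
  haveI hprime : (RingHom.ker π).IsPrime := RingHom.ker_isPrime π
  refine ⟨⟨hprime, bot_le⟩, ?_⟩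
  rintro q ⟨hq, -⟩ hle
  by_contra hne
  obtain ⟨x, hxp, hxq⟩ := SetLike.not_le_iff_exists.mp hne
  haveI := hq
  have hlt := Ideal.comap_lt_comap_of_integral_mem_sdiff (R := 𝒪) hle ⟨hxp, hxq⟩
    (Algebra.IsIntegral.isIntegral (R := 𝒪) x)
  have hbot : (RingHom.ker π).comap (algebraMap 𝒪 T) = ⊥ := by
    rw [eq_bot_iff]
    intro a ha
    rw [Ideal.mem_comap, RingHom.mem_ker, AlgHom.commutes] at ha
    simpa using ha
  rw [hbot] at hlt
  exact not_lt_bot hlt

variable [IsNoetherianRing T] [IsReduced T]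

/-- There is `s ∈ Ann 𝔭` with `π s ≠ 0`. -/
theorem exists_annAug_aug_ne_zero (π : T →ₐ[𝒪] 𝒪) :
    ∃ s : T, s ∈ annAug π ∧ π s ≠ 0 := by
  obtain ⟨s, hsP, hs⟩ :=
    exists_notMem_mul_eq_zero_of_mem_minimalPrimes (ker_aug_mem_minimalPrimes π)
  exact ⟨s, mem_annAug.mpr fun y hy => hs y hy, fun h => hsP (RingHom.mem_ker.mpr h)⟩

/-- The congruence ideal of a reduced finite augmented algebra over a domain is nonzero. -/
theorem congIdeal_ne_bot_of_isReduced (π : T →ₐ[𝒪] 𝒪) : congIdeal π ≠ ⊥ := by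
  obtain ⟨s, hs, hπs⟩ := exists_annAug_aug_ne_zero π
  intro h
  have : π s ∈ congIdeal π := mem_congIdeal.mpr ⟨s, hs, rfl⟩
  rw [h, Ideal.mem_bot] at this
  exact hπs this

/-- There is `a ≠ 0` in `𝒪` with `a • 𝔭 ⊆ 𝔭²`. -/
theorem exists_ne_zero_smul_mem_sq (π : T →ₐ[𝒪] 𝒪) :
    ∃ a : 𝒪, a ≠ 0 ∧ ∀ x ∈ RingHom.ker π, a • x ∈ (RingHom.ker π) ^ 2 := by
  obtain ⟨s, hs, hπs⟩ := exists_annAug_aug_ne_zero π
  refine ⟨π s, hπs, fun x hx => ?_⟩
  have h0 : s * x = 0 := mem_annAug.mp hs x hx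
  have h1 : algebraMap 𝒪 T (π s) - s ∈ RingHom.ker π := by
    rw [RingHom.mem_ker, map_sub, AlgHom.commutes]
    simp
  have h2 : π s • x = (algebraMap 𝒪 T (π s) - s) * x := by
    rw [Algebra.smul_def, sub_mul, h0, sub_zero]
  rw [h2, pow_two]
  exact Ideal.mul_mem_mul h1 hx

end Aug

section Finite

variable {𝒪 : Type*} [CommRing 𝒪] [IsDomain 𝒪] [IsDiscreteValuationRing 𝒪]
  [Finite (ResidueField 𝒪)]
variable {T : Type*} [CommRing T] [Algebra 𝒪 T] [Module.Finite 𝒪 T] [IsReduced T]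

/-- The cotangent space at an augmentation of a reduced finite `𝒪`-algebra is finite. -/
theorem finite_cotangent_of_isReduced (π : T →ₐ[𝒪] 𝒪) : Finite (RingHom.ker π).Cotangent := by
  haveI : IsNoetherianRing T := IsNoetherianRing.of_finite 𝒪 T
  obtain ⟨a, ha0, ha⟩ := exists_ne_zero_smul_mem_sq π
  set 𝔭 : Ideal T := RingHom.ker π with h𝔭
  -- `a` kills the cotangent space
  have hkill : ∀ y : 𝔭.Cotangent, a • y = 0 := by
    intro y
    obtain ⟨x, rfl⟩ := 𝔭.toCotangent_surjective y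
    have h1 : a • 𝔭.toCotangent x = 𝔭.toCotangent (a • x) := by
      rw [← algebraMap_smul T a x, ← algebraMap_smul T a (𝔭.toCotangent x), map_smul]
    rw [h1, Ideal.toCotangent_eq_zero]
    exact ha x.1 x.2
  -- the cotangent space is finitely generated over `𝒪`
  haveI hfinp : Module.Finite 𝒪 𝔭 :=
    (inferInstance : Module.Finite 𝒪 (𝔭.restrictScalars 𝒪))
  have hfinC : Module.Finite 𝒪 𝔭.Cotangent :=
    Module.Finite.of_surjective (𝔭.toCotangent.restrictScalars 𝒪) 𝔭.toCotangent_surjective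
  obtain ⟨n, f, hf⟩ := Module.Finite.exists_fin' 𝒪 𝔭.Cotangent
  haveI : Finite (𝒪 ⧸ Ideal.span {a}) := finite_quotient_span_singleton_of_ne_zero ha0
  let g : (Fin n → 𝒪 ⧸ Ideal.span {a}) → 𝔭.Cotangent := fun c => f fun i => (c i).out
  refine Finite.of_surjective g ?_
  intro y
  obtain ⟨v, rfl⟩ := hf y
  refine ⟨fun i => Ideal.Quotient.mk _ (v i), ?_⟩
  have hdiff : ∀ i, ∃ w : 𝒪, (Ideal.Quotient.mk (Ideal.span {a}) (v i)).out - v i = a * w := by
    intro i
    have : (Ideal.Quotient.mk (Ideal.span {a}) (v i)).out - v i ∈ Ideal.span {a} := by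
      rw [← Ideal.Quotient.eq]
      exact Quotient.out_eq _
    obtain ⟨w, hw⟩ := Ideal.mem_span_singleton'.mp this
    exact ⟨w, by rw [← hw, mul_comm]⟩
  choose w hw using hdiff
  have hv : (fun i => (Ideal.Quotient.mk (Ideal.span {a}) (v i)).out) = v + a • w := by
    funext i
    rw [Pi.add_apply, Pi.smul_apply, smul_eq_mul, ← hw i]
    ring
  change f (fun i => (Ideal.Quotient.mk (Ideal.span {a}) (v i)).out) = f v
  rw [hv, map_add, map_smul, hkill, add_zero]

/-- The cotangent space at an augmentation of a reduced finite `𝒪`-algebra is finite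
(`NC` vocabulary). -/
theorem finite_cot_of_isReduced (π : T →ₐ[𝒪] 𝒪) : Finite (Cot π) :=
  finite_cotangent_of_isReduced π

end Finite

section CI

variable {𝒪 : Type*} [CommRing 𝒪] [IsDomain 𝒪] [IsDiscreteValuationRing 𝒪]
  [IsAdicComplete (maximalIdeal 𝒪) 𝒪] [Finite (ResidueField 𝒪)]
variable {T : Type*} [CommRing T] [IsLocalRing T] [Algebra 𝒪 T] [Module.Finite 𝒪 T]
  [Module.Free 𝒪 T] [IsReduced T]
variable {R : Type*} [CommRing R] [Algebra 𝒪 R]

/-- **Numerical equality for a reduced complete intersection**: if `φ : R → T` is bijective,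
`R = 𝒪⟦X₁,…,Xₙ⟧ / (f₁,…,fₙ)` and `T` is reduced, finite and free over `𝒪`, then `Φ_R` is finite
and `#Φ_R = #(𝒪/η_T)`. -/
theorem numEq_of_ci_of_isReduced (φ : R →ₐ[𝒪] T) (hφ : Function.Bijective φ) (π : T →ₐ[𝒪] 𝒪)
    {n : ℕ} (γ : MvPowerSeries (Fin n) 𝒪 →ₐ[𝒪] R) (hγ : Function.Surjective γ)
    (f : Fin n → MvPowerSeries (Fin n) 𝒪) (hker : RingHom.ker γ = Ideal.span (Set.range f)) :
    Finite (Cot (π.comp φ)) ∧ Nat.card (Cot (π.comp φ)) = Nat.card (𝒪 ⧸ congIdeal π) := by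
  haveI : Finite (Cot π) := finite_cot_of_isReduced π
  exact numEq_of_ci φ hφ π γ hγ f hker

end CI

end Fermat.Agent.S59.H427

end
-- ===== PACK-END S59/H427/ReducedCot.lean

-- ===== PACK-BEGIN S59/H427/MinNum.lean
section



/-!
# S59, cell TW, LEAF NUM (helper427): `TW.H959.MinNumStatement`

The numerical equality `#(𝔭/𝔭²) = #(𝒪/η) < ∞` for a reduced complete intersection, VERBATIM in
the shape frozen in `Fermat/Agent/S59/TW/H959/Iface.lean`.

Proof: Tate's formula `card_cotangent_eq_of_ci` (`TateRecenter.lean`), transport along the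
isomorphism `φ` (`NCBridge.lean`), and finiteness of the cotangent space of a reduced finite
`𝒪`-algebra (`ReducedCot.lean`).
-/

set_option autoImplicit false

namespace Fermat.Agent.S59.H427

/-- **LEAF NUM** of cell TW (`TW.H959.MinNumStatement`, verbatim). -/
theorem minNum : Fermat.Agent.S59.TW.H959.MinNumStatement := by
  intro 𝒪 _ _ _ _ _ _ r R _ _ T _ _ _ _ _ _ φ hφ ψ hψ g hker π
  exact numEq_of_ci_of_isReduced φ hφ π ψ hψ g hker

end Fermat.Agent.S59.H427

end
-- ===== PACK-END S59/H427/MinNum.lean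

-- ===== PACK-BEGIN S59/H105/Cross.lean
section



/-!
# Row S59, cell TW, leaf CTRL (helper105): `CrossStatement` from helper719's `UqCrossR`

`cross : CrossStatement` — `U_q'` (`q' ∣ N`) commutes with the four degeneracy maps between the levels
`N` and `N q` (`q ∤ N`), in the `H653.UK` vocabulary.  The geometric content is helper719's
`Uq_r₁, Uq_r₂, Uq_t₁, Uq_t₂` (`S38/H719/UqCross.lean`, `UqCrossR.lean`).
-/

set_option autoImplicit false

namespace Fermat.Agent.S59.H105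

open CongruenceSubgroup
open Fermat.Agent.S29.H642 Fermat.Agent.S41 Fermat.Agent.S41.Spec
open Fermat.Agent.S59.TW.H653 Fermat.Agent.S59.TW.Aut
open scoped MatrixGroups

theorem UK_Gamma0_eq_Uq105 {M q : ℕ} [Fact q.Prime] {A : Type*} [AddCommGroup A] (hq : q ∣ M)
    (ψ : Additive (Gamma0 M) →+ A) : UK (Gamma0 M) q ψ = Uq hq ψ := by
  rw [UK_Gamma0_eq hq]
  rfl

/-- **CROSS**: `U_q'` commutes with `r₁, r₂, t₁, t₂`. -/
theorem cross : CrossStatement := by
  intro N q q' _ _ hqN hq'N A _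
  have hq : q.Prime := Fact.out
  have hq' : q'.Prime := Fact.out
  have hq'' : q' ∣ N * q := Dvd.dvd.mul_right hq'N q
  have hcop : Nat.Coprime q q' := by
    rw [Nat.coprime_primes hq hq']
    rintro rfl
    exact hqN hq'N
  refine ⟨fun φ => ⟨?_, ?_⟩, fun ψ => ⟨?_, ?_⟩⟩
  · rw [UK_Gamma0_eq_Uq105 hq'', UK_Gamma0_eq_Uq105 hq'N]
    exact Fermat.Agent.S38.H719.Uq_r₁ hq'N hq'' φ
  · rw [UK_Gamma0_eq_Uq105 hq'', UK_Gamma0_eq_Uq105 hq'N]
    exact Fermat.Agent.S38.H719.Uq_r₂ hq.ne_zero hcop hq'N hq'' φ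
  · rw [UK_Gamma0_eq_Uq105 hq'', UK_Gamma0_eq_Uq105 hq'N]
    exact Fermat.Agent.S38.H719.Uq_t₁ hq hqN hq'N hq'' ψ
  · rw [UK_Gamma0_eq_Uq105 hq'', UK_Gamma0_eq_Uq105 hq'N]
    exact Fermat.Agent.S38.H719.Uq_t₂ hq.ne_zero hq'N hq'' ψ

end Fermat.Agent.S59.H105

end
-- ===== PACK-END S59/H105/Cross.lean

-- ===== PACK-BEGIN S17/H20/TransStmt.lean
section




/-!
# S17 / G-DIV, piece TRANS (helper20): `Aut(L/K₀)` is transitive on the generic tuples

`stmtTRANS : StmtPLEXT N L → StmtZRAT N L → StmtTRANS N L` for an uncountable algebraically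
closed field `L`.

Proof.  Induction on the number `m` of places already matched.  Let `σ` fix `K₀` with
`σ P_j = Q_j` for `j < m`, put `P' = σ P` (again generic over `K₀`) and let `K₁` be the algebraic
closure in `L` of `K₀(t(Q_j) : j < m)`; it is countable and algebraically closed in `L`, and
`t(P'_m), t(Q_m) ∉ K₁`.  By ZRAT the places `P'_m`, `Q_m` are *generic over `K₁`*: their valuations
are trivial on the field `ratField` of functions defined over `K₁`, so evaluation at them gives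
two embeddings of the countable field `ratField` in `L`.  By EXT (`Ext.lean`) some `τ ∈ Aut(L)`
intertwines them; it fixes `K₁`, and `τ P'_m = Q_m` by PLEXT.  For `j < m` the place `Q_j` is
rational over `K₁` (ZRAT, as `t(Q_j) ∈ K₁`), hence fixed by `τ` (PLEXT).  Replace `σ` by `τ σ`.
-/

set_option autoImplicit false

noncomputable section

open AlgebraicCurve ModularCurve Cardinal
open scoped Pointwise

namespace Fermat.Agent.S17.H20

open Fermat.Agent.Lib.RR Fermat.Agent.S17.GDiv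

section General

variable {K F : Type*} [Field K] [Field F] [Algebra K F]

/-- `f ∈ 𝔪_P` in terms of the evaluation at `P`. -/
theorem vanishes_iff_evAt (P : Place K F) (hP : P.deg = 1) (f : F) :
    (f = 0 ∨ 0 < P.ord f) ↔ ∃ h : f ∈ P.toValuationSubring, evAt P hP ⟨f, h⟩ = 0 := by
  constructor
  · intro h
    have hmem : f ∈ P.toValuationSubring := by
      rcases h with rfl | h
      · exact zero_mem _
      · exact mem_of_ord_nonneg P h.le
    refine ⟨hmem, ?_⟩
    rw [evAt_eq_zero_iff, mem_maximalIdeal_iff]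
    exact h
  · rintro ⟨hmem, h⟩
    rw [evAt_eq_zero_iff, mem_maximalIdeal_iff] at h
    exact h

/-- `f` has the value `c` at `P` in terms of the evaluation at `P`. -/
theorem value_iff_evAt (P : Place K F) (hP : P.deg = 1) (f : F) (c : K) :
    (f - algebraMap K F c = 0 ∨ 0 < P.ord (f - algebraMap K F c)) ↔
      ∃ h : f ∈ P.toValuationSubring, evAt P hP ⟨f, h⟩ = c := by
  rw [vanishes_iff_evAt P hP]
  constructor
  · rintro ⟨hmem, h⟩
    have hf : f ∈ P.toValuationSubring := by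
      have := add_mem hmem (P.algebraMap_mem' c)
      rwa [sub_add_cancel] at this
    refine ⟨hf, ?_⟩
    have e : (⟨f - algebraMap K F c, hmem⟩ : P.toValuationSubring)
        = ⟨f, hf⟩ - algebraMap K P.toValuationSubring c := Subtype.ext rfl
    rw [e, map_sub, evAt_algebraMap, sub_eq_zero] at h
    exact h
  · rintro ⟨hf, h⟩
    have hmem : f - algebraMap K F c ∈ P.toValuationSubring :=
      sub_mem hf (P.algebraMap_mem' c)
    refine ⟨hmem, ?_⟩
    have e : (⟨f - algebraMap K F c, hmem⟩ : P.toValuationSubring)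
        = ⟨f, hf⟩ - algebraMap K P.toValuationSubring c := Subtype.ext rfl
    rw [e, map_sub, evAt_algebraMap, h, sub_self]

/-- Values are transported by semilinear automorphisms. -/
theorem value_smul_iff (g : SemilinearAut K F) (v : Place K F) (f : F) (c : K) :
    (g • f - algebraMap K F (SemilinearAut.baseAut g c) = 0 ∨
        0 < (g • v).ord (g • f - algebraMap K F (SemilinearAut.baseAut g c))) ↔
      (f - algebraMap K F c = 0 ∨ 0 < v.ord (f - algebraMap K F c)) := by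
  have e : g • f - algebraMap K F (SemilinearAut.baseAut g c)
      = g • (f - algebraMap K F c) := by
    rw [smul_sub, SemilinearAut.smul_algebraMap]
  rw [e, SemilinearAut.ord_smul, smul_eq_zero_iff_eq]

end General

section Coeffs

variable {L : Type*} [Field L] [Algebra ℚ L]
variable (F₀ : IntermediateField ℚ (LaurentSeries ℚ))

/-- Functions defined over `K₁` have their `q`-expansion coefficients in `K₁`. -/
theorem coeff_mem_of_mem_ratField (K₁ : Subfield L) {a : laurentBaseChange L F₀}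
    (ha : a ∈ ratField F₀ K₁) (m : ℤ) : (a : LaurentSeries L).coeff m ∈ K₁ := by
  have hle : ratField F₀ K₁ ≤
      ((coeffMap (K₁.subtype : K₁ →+* L)).fieldRange).comap
        (algebraMap (laurentBaseChange L F₀) (LaurentSeries L)) := by
    unfold ratField
    rw [Subfield.closure_le]
    rintro x (⟨c, hc, rfl⟩ | ⟨y, hy, hxy⟩)
    · refine ⟨HahnSeries.single 0 (⟨c, hc⟩ : K₁), ?_⟩
      rw [coeffMap_single]
      exact (algebraMap_laurentSeries_eq_single L c).symm
    · refine ⟨coeffMap ((algebraMap ℚ L).codRestrict K₁ fun q => by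
        rw [eq_ratCast]; exact SubfieldClass.ratCast_mem K₁ q) y, ?_⟩
      rw [coeffMap_coeffMap]
      show _ = (x : LaurentSeries L)
      rw [hxy]
      rfl
  obtain ⟨y, hy⟩ := hle ha
  have e : (a : LaurentSeries L).coeff m = ((y.coeff m : K₁) : L) := by
    have h1 : (a : LaurentSeries L) = coeffMap (K₁.subtype : K₁ →+* L) y := hy.symm
    rw [h1]
    rfl
  rw [e]
  exact (y.coeff m).2

end Coeffs

section Values

variable {N : ℕ} [NeZero N] {L : Type} [Field L] [Algebra ℚ L]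

omit [NeZero N] in
theorem bcQ_mem_ratField (K₁ : Subfield L) (u : modularFunctionFieldFull N) :
    bcQ N L u ∈ ratField (modularFunctionFieldFull N) K₁ :=
  coeffEmb_mem_ratField (modularFunctionFieldFull N) K₁ u.2

omit [NeZero N] in
theorem coeffsIn_of_mem_ratField (K₁ : Subfield L) {a : FL N L}
    (ha : a ∈ ratField (modularFunctionFieldFull N) K₁) : CoeffsIn K₁ a :=
  fun m => coeff_mem_of_mem_ratField (modularFunctionFieldFull N) K₁ ha m

omit [NeZero N] in
theorem smul_bcQ (τ : L ≃ₐ[ℚ] L) (u : modularFunctionFieldFull N) :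
    arithmeticGalois (modularFunctionFieldFull N) τ • bcQ N L u = bcQ N L u := by
  apply Subtype.ext
  rw [coe_arithmeticGalois_smul]
  exact coeffMap_coeffEmb τ _

omit [NeZero N] in
/-- Values of functions with rational `q`-expansion are transported by `Aut(L)`. -/
theorem hasValue_smul_iff (τ : L ≃ₐ[ℚ] L) (P : Place L (FL N L))
    (u : modularFunctionFieldFull N) (c : L) :
    HasValue (arithmeticGalois (modularFunctionFieldFull N) τ • P) (bcQ N L u) (τ c) ↔
      HasValue P (bcQ N L u) c := by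
  have h := value_smul_iff (arithmeticGalois (modularFunctionFieldFull N) τ) P (bcQ N L u) c
  rw [smul_bcQ] at h
  exact h

omit [NeZero N] in
theorem hasValue_smul_iff' (τ : L ≃ₐ[ℚ] L) (P : Place L (FL N L))
    (u : modularFunctionFieldFull N) (c : L) :
    HasValue (arithmeticGalois (modularFunctionFieldFull N) τ • P) (bcQ N L u) c ↔
      HasValue P (bcQ N L u) (τ.symm c) := by
  rw [← hasValue_smul_iff τ P u (τ.symm c), AlgEquiv.apply_symm_apply]

variable [FF1 L (FL N L)]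

omit [NeZero N] in
theorem hasValue_iff_evAt (P : Place L (FL N L)) (f : FL N L) (c : L) :
    HasValue P f c ↔ ∃ h : f ∈ P.toValuationSubring, evAt P (deg_eq_one P) ⟨f, h⟩ = c :=
  value_iff_evAt P (deg_eq_one P) f c

omit [NeZero N] in
theorem hasValue_unique {P : Place L (FL N L)} {f : FL N L} {c c' : L}
    (h : HasValue P f c) (h' : HasValue P f c') : c = c' := by
  obtain ⟨h1, e1⟩ := (hasValue_iff_evAt P f c).mp h
  obtain ⟨h2, e2⟩ := (hasValue_iff_evAt P f c').mp h'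
  rw [← e1, ← e2]

omit [FF1 L (FL N L)] in
theorem hasValue_tval {P : Place L (FL N L)} (hfin : ∃ c : L, HasValue P (tL N L) c) :
    HasValue P (tL N L) (tval P) := by
  unfold tval
  rw [dif_pos hfin]
  exact hfin.choose_spec

theorem tval_smul (τ : L ≃ₐ[ℚ] L) (P : Place L (FL N L))
    (hfin : ∃ c : L, HasValue P (tL N L) c) :
    (∃ c : L, HasValue (arithmeticGalois (modularFunctionFieldFull N) τ • P) (tL N L) c) ∧
      tval (arithmeticGalois (modularFunctionFieldFull N) τ • P) = τ (tval P) := by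
  have h1 : HasValue (arithmeticGalois (modularFunctionFieldFull N) τ • P) (tL N L)
      (τ (tval P)) :=
    (hasValue_smul_iff τ P (jQ N) (tval P)).mpr (hasValue_tval hfin)
  exact ⟨⟨_, h1⟩, hasValue_unique (hasValue_tval ⟨_, h1⟩) h1⟩

end Values

section Generic

variable {L : Type*} [Field L] [Algebra ℚ L]
variable (F₀ : IntermediateField ℚ (LaurentSeries ℚ))

/-- A place is *generic over `K₁`* if its valuation is trivial on the functions defined over
`K₁`. -/
def IsGenericOver (K₁ : Subfield L) (P : Place L (laurentBaseChange L F₀)) : Prop :=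
  ∀ a ∈ ratField F₀ K₁, a ≠ 0 → P.ord a = 0

variable {F₀}

theorem IsGenericOver.mem {K₁ : Subfield L} {P : Place L (laurentBaseChange L F₀)}
    (hP : IsGenericOver F₀ K₁ P) {a : laurentBaseChange L F₀} (ha : a ∈ ratField F₀ K₁) :
    a ∈ P.toValuationSubring := by
  rcases eq_or_ne a 0 with rfl | h0
  · exact zero_mem _
  · exact mem_of_ord_nonneg P (hP a ha h0).ge

/-- The evaluation of the functions defined over `K₁` at a generic place. -/
def evRat {K₁ : Subfield L} {P : Place L (laurentBaseChange L F₀)} (hdeg : P.deg = 1)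
    (hP : IsGenericOver F₀ K₁ P) : ratField F₀ K₁ →+* L :=
  (evAt P hdeg).comp
    ((ratField F₀ K₁).subtype.codRestrict P.toValuationSubring.toSubring fun a => hP.mem a.2)

theorem evRat_apply {K₁ : Subfield L} {P : Place L (laurentBaseChange L F₀)} (hdeg : P.deg = 1)
    (hP : IsGenericOver F₀ K₁ P) (a : ratField F₀ K₁) :
    evRat hdeg hP a = evAt P hdeg ⟨(a : laurentBaseChange L F₀), hP.mem a.2⟩ := rfl

/-- An automorphism of `L` intertwining the evaluations at two generic places fixes `K₁`. -/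
theorem fixes_of_evRat {K₁ : Subfield L} {P Q : Place L (laurentBaseChange L F₀)}
    (hPdeg : P.deg = 1) (hQdeg : Q.deg = 1)
    (hP : IsGenericOver F₀ K₁ P) (hQ : IsGenericOver F₀ K₁ Q) (τ : L ≃ₐ[ℚ] L)
    (hτ : ∀ a : ratField F₀ K₁, τ (evRat hPdeg hP a) = evRat hQdeg hQ a)
    (c : L) (hc : c ∈ K₁) : τ c = c := by
  have h := hτ ⟨algebraMap L _ c, algebraMap_mem_ratField F₀ K₁ hc⟩
  rw [evRat_apply, evRat_apply] at h
  have e1 : evAt P hPdeg ⟨algebraMap L (laurentBaseChange L F₀) c,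
      hP.mem (algebraMap_mem_ratField F₀ K₁ hc)⟩ = c := evAt_algebraMap P hPdeg c
  have e2 : evAt Q hQdeg ⟨algebraMap L (laurentBaseChange L F₀) c,
      hQ.mem (algebraMap_mem_ratField F₀ K₁ hc)⟩ = c := evAt_algebraMap Q hQdeg c
  rw [e1, e2] at h
  exact h

/-- **EXT** applied to the evaluations at two generic places. -/
theorem exists_aut_evRat [IsAlgClosed L] [Uncountable L]
    (K₁ : Subfield L) (hK₁ : (K₁ : Set L).Countable)
    (hF₀ : (F₀ : Set (LaurentSeries ℚ)).Countable)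
    (P Q : Place L (laurentBaseChange L F₀)) (hPdeg : P.deg = 1) (hQdeg : Q.deg = 1)
    (hP : IsGenericOver F₀ K₁ P) (hQ : IsGenericOver F₀ K₁ Q) :
    ∃ τ : L ≃ₐ[ℚ] L, (∀ c ∈ K₁, τ c = c) ∧
      ∀ a : ratField F₀ K₁, τ (evRat hPdeg hP a) = evRat hQdeg hQ a := by
  obtain ⟨τ₀, hτ₀⟩ := exists_ringEquiv_comp_eq (countable_ratField F₀ K₁ hK₁ hF₀)
    Cardinal.aleph0_lt_mk (evRat hPdeg hP) (evRat hQdeg hQ)
  obtain ⟨τ, hτ⟩ : ∃ τ : L ≃ₐ[ℚ] L, ∀ x : L, τ x = τ₀ x :=
    ⟨AlgEquiv.ofRingEquiv (f := τ₀) (fun r => by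
      rw [eq_ratCast]; exact map_ratCast τ₀ r), fun _ => rfl⟩
  have hτ' : ∀ a : ratField F₀ K₁, τ (evRat hPdeg hP a) = evRat hQdeg hQ a := fun a => by
    rw [hτ]; exact hτ₀ a
  exact ⟨τ, fixes_of_evRat hPdeg hQdeg hP hQ τ hτ', hτ'⟩

end Generic

section Pieces

variable {N : ℕ} [NeZero N] {L : Type} [Field L] [Algebra ℚ L]

omit [NeZero N] in
theorem countable_modularFunctionFieldFull :
    ((modularFunctionFieldFull N : IntermediateField ℚ (LaurentSeries ℚ)) :
      Set (LaurentSeries ℚ)).Countable := by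
  have hs : (divisorExpansions N).Countable := by
    have hsub : divisorExpansions N ⊆
        Set.range (fun d : {d : ℕ // NeZero d} => @qExpand ℚ _ d.1 d.2 jq) := by
      rintro x ⟨d, hd, -, rfl⟩
      exact ⟨⟨d, hd⟩, rfl⟩
    exact (Set.countable_range _).mono hsub
  rw [← Set.countable_coe_iff, ← Cardinal.mk_le_aleph0_iff]
  refine (IntermediateField.cardinalMk_adjoin_le ℚ (divisorExpansions N)).trans ?_
  have a1 : #ℚ ≤ ℵ₀ := Cardinal.mk_le_aleph0
  have a2 : #(divisorExpansions N) ≤ ℵ₀ := Cardinal.mk_le_aleph0_iff.mpr hs.to_subtype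
  exact sup_le (sup_le a1 a2) le_rfl

/-- `t - c ≠ 0`. -/
theorem tL_sub_ne_zero (c : L) : tL N L - algebraMap L (FL N L) c ≠ 0 := by
  intro h
  have h1 : ((tL N L - algebraMap L (FL N L) c : FL N L) : LaurentSeries L).coeff (-1) = 0 := by
    rw [h]; rfl
  have h2 : ((tL N L - algebraMap L (FL N L) c : FL N L) : LaurentSeries L)
      = coeffEmb L jq - algebraMap L (LaurentSeries L) c := rfl
  rw [h2, algebraMap_laurentSeries_eq_single, HahnSeries.coeff_sub, coeffEmb_coeff,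
    coeff_jq_neg_one, map_one, HahnSeries.coeff_single_of_ne (by decide), sub_zero] at h1
  exact one_ne_zero h1

variable [FF1 L (FL N L)]

omit [FF1 L (FL N L)] in
/-- (T2) A place at which `t` is finite with value outside `K₁` is generic over `K₁`. -/
theorem isGenericOver_of_tval_notMem (hZRAT : StmtZRAT N L) (K₁ : Subfield L)
    (hK₁ : AlgClosedIn K₁) (P : Place L (FL N L)) (hfin : ∃ c : L, HasValue P (tL N L) c)
    (hnot : tval P ∉ K₁) : IsGenericOver (modularFunctionFieldFull N) K₁ P := by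
  intro a ha _
  by_contra hord
  exact hnot (hZRAT K₁ hK₁ a (coeffsIn_of_mem_ratField K₁ ha) P hord (jQ N) (tval P)
    (hasValue_tval hfin))

omit [FF1 L (FL N L)] in
/-- (T6) A place at which `t` is finite with value in `K₁` is rational over `K₁`. -/
theorem isRationalOver_of_tval_mem (hZRAT : StmtZRAT N L) (K₁ : Subfield L)
    (hK₁ : AlgClosedIn K₁) (P : Place L (FL N L)) (hfin : ∃ c : L, HasValue P (tL N L) c)
    (hmem : tval P ∈ K₁) : IsRationalOver K₁ P := by
  have hv : HasValue P (tL N L) (tval P) := hasValue_tval hfin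
  have hrat : tL N L - algebraMap L (FL N L) (tval P) ∈ ratField (modularFunctionFieldFull N) K₁ :=
    sub_mem (bcQ_mem_ratField K₁ (jQ N)) (algebraMap_mem_ratField _ K₁ hmem)
  refine hZRAT K₁ hK₁ _ (coeffsIn_of_mem_ratField K₁ hrat) P ?_
  rcases hv with h | h
  · exact absurd h (tL_sub_ne_zero (tval P))
  · exact h.ne'

omit [NeZero N] [FF1 L (FL N L)] in
/-- (T5) A place rational over `K₁` is fixed by `Aut(L/K₁)`. -/
theorem smul_eq_self_of_isRationalOver (hPLEXT : StmtPLEXT N L) (K₁ : Subfield L)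
    (τ : L ≃ₐ[ℚ] L) (hfix : ∀ c ∈ K₁, τ c = c) (P : Place L (FL N L))
    (hP : IsRationalOver K₁ P) :
    arithmeticGalois (modularFunctionFieldFull N) τ • P = P := by
  apply hPLEXT
  intro u c h
  have h' : HasValue P (bcQ N L u) (τ.symm c) := (hasValue_smul_iff' τ P u c).mp h
  have hc : τ.symm c ∈ K₁ := hP u _ h'
  have e : τ.symm c = c := by
    have := hfix _ hc
    rw [AlgEquiv.apply_symm_apply] at this
    exact this.symm
  rwa [e] at h'

omit [NeZero N] in
/-- (T4) `Aut(L/K₁)` is transitive on the places generic over `K₁`. -/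
theorem exists_aut_smul_eq_of_isGenericOver [IsAlgClosed L] [Uncountable L]
    (hPLEXT : StmtPLEXT N L) (K₁ : Subfield L) (hK₁ : (K₁ : Set L).Countable)
    (P Q : Place L (FL N L))
    (hP : IsGenericOver (modularFunctionFieldFull N) K₁ P)
    (hQ : IsGenericOver (modularFunctionFieldFull N) K₁ Q) :
    ∃ τ : L ≃ₐ[ℚ] L, (∀ c ∈ K₁, τ c = c) ∧
      arithmeticGalois (modularFunctionFieldFull N) τ • P = Q := by
  obtain ⟨τ, hfix, hτ⟩ := exists_aut_evRat K₁ hK₁ countable_modularFunctionFieldFull P Q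
    (deg_eq_one P) (deg_eq_one Q) hP hQ
  refine ⟨τ, hfix, ?_⟩
  apply hPLEXT
  intro u c h
  have h' : HasValue P (bcQ N L u) (τ.symm c) := (hasValue_smul_iff' τ P u c).mp h
  obtain ⟨hmem, hev⟩ := (hasValue_iff_evAt P _ _).mp h'
  have h2 := hτ ⟨bcQ N L u, bcQ_mem_ratField K₁ u⟩
  rw [evRat_apply, evRat_apply] at h2
  rw [(hasValue_iff_evAt Q _ _)]
  refine ⟨hQ.mem (bcQ_mem_ratField K₁ u), ?_⟩
  rw [← h2]
  have e3 : evAt P (deg_eq_one P) ⟨bcQ N L u, hP.mem (bcQ_mem_ratField K₁ u)⟩ = τ.symm c := hev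
  rw [e3, AlgEquiv.apply_symm_apply]

end Pieces

section Main

variable {N : ℕ} [NeZero N] {L : Type} [Field L] [Algebra ℚ L] [FF1 L (FL N L)]

/-- The image of a generic tuple under `Aut(L/K₀)` is generic. -/
theorem isGenericTuple_smul (K₀ : Subfield L) (τ : L ≃ₐ[ℚ] L) (hfix : ∀ a ∈ K₀, τ a = a)
    {m : ℕ} (P : Fin m → Place L (FL N L)) (hP : IsGenericTuple K₀ P) :
    IsGenericTuple K₀ (fun i => arithmeticGalois (modularFunctionFieldFull N) τ • P i) := by
  refine ⟨fun i => (tval_smul τ (P i) (hP.1 i)).1, ?_⟩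
  have e : (fun i => tval (arithmeticGalois (modularFunctionFieldFull N) τ • P i))
      = fun i => τ (tval (P i)) :=
    funext fun i => (tval_smul τ (P i) (hP.1 i)).2
  rw [e]
  let τ' : L →ₐ[K₀] L := { (τ : L →+* L) with commutes' := fun a => hfix a a.2 }
  exact hP.2.map' (f := τ') τ.injective

/-- The inductive step of TRANS. -/
theorem trans_step [IsAlgClosed L] [Uncountable L]
    (hPLEXT : StmtPLEXT N L) (hZRAT : StmtZRAT N L)
    (K₀ : Subfield L) (hK₀ : (K₀ : Set L).Countable)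
    {g : ℕ} (P Q : Fin g → Place L (FL N L))
    (hP : IsGenericTuple K₀ P) (hQ : IsGenericTuple K₀ Q)
    (m : ℕ) (hm : m < g) (hPQ : ∀ i : Fin g, (i : ℕ) < m → P i = Q i) :
    ∃ τ : L ≃ₐ[ℚ] L, (∀ a ∈ K₀, τ a = a) ∧
      ∀ i : Fin g, (i : ℕ) < m + 1 →
        arithmeticGalois (modularFunctionFieldFull N) τ • P i = Q i := by
  classical
  set s : Set (Fin g) := {j | (j : ℕ) < m} with hs
  set K₁ : Subfield L := algClosureAdjoin K₀ ((fun i => tval (Q i)) '' s) with hK₁def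
  have himg : (fun i => tval (P i)) '' s = (fun i => tval (Q i)) '' s :=
    Set.image_congr fun j hj => by
      show tval (P j) = tval (Q j)
      rw [hPQ j hj]
  have hK₁closed : AlgClosedIn K₁ := algClosedIn_algClosureAdjoin K₀ _
  have hK₁c : (K₁ : Set L).Countable :=
    countable_algClosureAdjoin K₀ _ hK₀ ((Set.to_countable s).image _)
  have hK₀K₁ : K₀ ≤ K₁ := le_algClosureAdjoin K₀ _
  have hmem : ∀ j : Fin g, (j : ℕ) < m → tval (Q j) ∈ K₁ := fun j hj =>
    subset_algClosureAdjoin K₀ _ ⟨j, hj, rfl⟩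
  have hms : (⟨m, hm⟩ : Fin g) ∉ s := fun h => lt_irrefl m h
  have hQm : tval (Q ⟨m, hm⟩) ∉ K₁ :=
    notMem_algClosureAdjoin K₀ (fun i => tval (Q i)) hQ.2 s ⟨m, hm⟩ hms
  have hPm : tval (P ⟨m, hm⟩) ∉ K₁ := by
    rw [hK₁def, ← himg]
    exact notMem_algClosureAdjoin K₀ (fun i => tval (P i)) hP.2 s ⟨m, hm⟩ hms
  obtain ⟨τ, hτfix, hτ⟩ := exists_aut_smul_eq_of_isGenericOver hPLEXT K₁ hK₁c
    (P ⟨m, hm⟩) (Q ⟨m, hm⟩)
    (isGenericOver_of_tval_notMem hZRAT K₁ hK₁closed _ (hP.1 _) hPm)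
    (isGenericOver_of_tval_notMem hZRAT K₁ hK₁closed _ (hQ.1 _) hQm)
  refine ⟨τ, fun a ha => hτfix a (hK₀K₁ ha), fun i hi => ?_⟩
  rcases Nat.lt_succ_iff_lt_or_eq.mp hi with h | h
  · rw [hPQ i h]
    exact smul_eq_self_of_isRationalOver hPLEXT K₁ τ hτfix (Q i)
      (isRationalOver_of_tval_mem hZRAT K₁ hK₁closed (Q i) (hQ.1 i) (hmem i h))
  · have hi' : i = ⟨m, hm⟩ := Fin.ext h
    rw [hi']
    exact hτ

/-- **TRANS.**  `Aut(L/K₀)` acts transitively on the generic tuples. -/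
theorem stmtTRANS [IsAlgClosed L] [Uncountable L]
    (hPLEXT : StmtPLEXT N L) (hZRAT : StmtZRAT N L) : StmtTRANS N L := by
  intro K₀ _ hK₀c P Q hP hQ
  have claim : ∀ m : ℕ, m ≤ gL N L → ∃ σ : L ≃ₐ[ℚ] L, (∀ a ∈ K₀, σ a = a) ∧
      ∀ i : Fin (gL N L), (i : ℕ) < m →
        arithmeticGalois (modularFunctionFieldFull N) σ • P i = Q i := by
    intro m
    induction m with
    | zero =>
      intro _
      exact ⟨1, fun _ _ => rfl, fun i hi => absurd hi (Nat.not_lt_zero _)⟩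
    | succ m ih =>
      intro hm
      obtain ⟨σ, hσ, hσP⟩ := ih (Nat.le_of_succ_le hm)
      obtain ⟨τ, hτ, hτP⟩ := trans_step hPLEXT hZRAT K₀ hK₀c _ Q
        (isGenericTuple_smul K₀ σ hσ P hP) hQ m hm hσP
      refine ⟨τ * σ, fun a ha => ?_, fun i hi => ?_⟩
      · show τ (σ a) = a
        rw [hσ a ha, hτ a ha]
      · rw [map_mul, mul_smul]
        exact hτP i hi
  obtain ⟨σ, hσ, hσP⟩ := claim (gL N L) le_rfl
  exact ⟨σ, hσ, fun i => hσP i i.2⟩

end Main

end Fermat.Agent.S17.H20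

end
end
-- ===== PACK-END S17/H20/TransStmt.lean

-- ===== PACK-BEGIN S36/H160/AuxPull.lean
section
/-
S36 ENGINE / leaf AUX (helper160), part 1: the pullback `π^* : J₀(N) → J₀(N r)` along
`β_r = V_r : F_N → F_{N r}` and its commutation with the degeneracy push-forwards at another
prime `q`:

      π^* ∘ α_{q,*} = α_{q,*} ∘ π^*,      π^* ∘ β_{q,*} = β_{q,*} ∘ π^*        (base change)

together with Galois equivariance of `π^*` and `π^* x = 0 ⇒ [F_{N r} : β_r F_N] • x = 0`.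

Everything is glue over libraries on main: `S37/H818` (base change identity),
`S37/H155/PullAbstract` (`π_* π^* = deg`), `S29/H801` + `Ribet/H801` (the two norm
compatibilities `normCompat_bar`, `normCompat_beta_bar`; `alphaPush`, `betaPush`).
-/




set_option autoImplicit false
set_option linter.style.haveILetI false
set_option linter.unusedSectionVars false

noncomputable section

namespace Fermat.Agent.S36.H160

open AlgebraicCurve ModularCurve
open Fermat.Agent.S37.H818 Fermat.Agent.S29.H801 Fermat.Agent.Ribet.H801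
open Fermat.Agent.Lib.HI Fermat.Agent.S37.H155 Fermat.Agent.S24

/-! ### Abstract part -/

section Abstract

variable {K F F₁ G G₁ : Type*} [Field K] [Field F] [Field F₁] [Field G] [Field G₁]
  [Algebra K F] [Algebra K F₁] [Algebra K G] [Algebra K G₁]

/-- `π^* x = 0 ⇒ deg(π) • x = 0`. -/
theorem nsmul_eq_zero_of_pullback_eq_zero [HasPrincipalDivisors K G] (i : F →ₐ[K] G)
    (hi : i.toRingHom.IsIntegral) (hFI : FundamentalIdentityAlong K i hi)
    (hS : SumRamificationInertiaAlong i hi)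
    (hfin : FiniteAlong K i) (hN : NormFormulaAlong K i hfin)
    (x : Pic0 K F) (hx : pullbackPic0Along i hi hFI x = 0) :
    finrankAlong K i • x = 0 := by
  obtain ⟨D, rfl⟩ := Pic0.mk_surjective x
  rw [pullbackPic0Along_mk, mk_eq_zero_iff, coe_pullbackDegZeroAlong] at hx
  have h1 : (finrankAlong K i : ℤ) • (D : Divisor K F) ∈ Divisor.principal (K := K) (F := F) := by
    rw [← pushforwardAlong_pullbackAlong i hi hS]
    exact Divisor.isPrincipal_pushforwardAlong i hi hfin hN hx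
  have h2 : finrankAlong K i • Pic0.mk D = Pic0.mk (finrankAlong K i • D) := rfl
  rw [h2, mk_eq_zero_iff]
  have h3 : ((finrankAlong K i • D : Divisor.degZero (K := K) (F := F)) : Divisor K F)
      = (finrankAlong K i : ℤ) • (D : Divisor K F) := by
    rw [natCast_zsmul]
    rfl
  rw [h3]
  exact h1

variable (a : F →ₐ[K] F₁) (i : F →ₐ[K] G) (a' : G →ₐ[K] G₁) (i₁ : F₁ →ₐ[K] G₁)
  (ha : a.toRingHom.IsIntegral) (hi : i.toRingHom.IsIntegral)
  (ha' : a'.toRingHom.IsIntegral) (hi₁ : i₁.toRingHom.IsIntegral)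
  (hsq : i₁.comp a = a'.comp i)

variable [HasPrincipalDivisors K G] [HasPrincipalDivisors K G₁] [HasPrincipalDivisors K F₁]

include hsq in
/-- **Base change on `Pic0`**: `i^* ∘ a_* = a'_* ∘ i₁^*`. -/
theorem pullbackPic0Along_pushPic0
    (hfin : FiniteAlong K a) (hN : NormFormulaAlong K a hfin)
    (hfin' : FiniteAlong K a') (hN' : NormFormulaAlong K a' hfin')
    (hFIi : FundamentalIdentityAlong K i hi) (hFIi₁ : FundamentalIdentityAlong K i₁ hi₁)
    (hnorm : NormCompat a i a' i₁) (hLG : HasLocalGenerators a ha) (x : Pic0 K F₁) :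
    pullbackPic0Along i hi hFIi (pushPic0 a ha hfin hN x) =
      pushPic0 a' ha' hfin' hN' (pullbackPic0Along i₁ hi₁ hFIi₁ x) := by
  obtain ⟨D, rfl⟩ := Pic0.mk_surjective x
  rw [pushPic0_mk, pullbackPic0Along_mk, pullbackPic0Along_mk, pushPic0_mk]
  refine congrArg Pic0.mk (Subtype.ext ?_)
  rw [coe_pullbackDegZeroAlong, coe_pushDegZero, coe_pushDegZero, coe_pullbackDegZeroAlong]
  exact pullback_pushforward_eq a i a' i₁ ha hi ha' hi₁ hsq hfin hN hfin' hN' hnorm hLG
    (D : Divisor K F₁)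

end Abstract

/-! ### Transport of `J₀(N)` along an equality of levels -/

section Cast

/-- Transport of `J₀(N)(ℚ̄)` along an equality of levels. -/
def levelCast {N N' : ℕ} [NeZero N] [NeZero N'] (h : N = N') : JZero N ≃+ JZero N' := by
  subst h
  exact AddEquiv.refl _

theorem levelCast_smul {N N' : ℕ} [NeZero N] [NeZero N'] (h : N = N')
    (σ : AlgebraicClosure ℚ ≃ₐ[ℚ] AlgebraicClosure ℚ) (x : JZero N) :
    levelCast h (σ • x) = σ • levelCast h x := by
  subst h
  rfl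

theorem levelCast_heckeOperatorBar {N N' : ℕ} [NeZero N] [NeZero N'] (h : N = N')
    (ℓ : Nat.Primes) (x : JZero N) :
    levelCast h (heckeOperatorBar N ℓ x) = heckeOperatorBar N' ℓ (levelCast h x) := by
  subst h
  rfl

theorem levelCast_symm_apply {N N' : ℕ} [NeZero N] [NeZero N'] (h : N = N') (x : JZero N) :
    levelCast h.symm (levelCast h x) = x := by
  subst h
  rfl

end Cast

/-! ### The pullback along `β_r` -/

section Pull

variable (N r : ℕ) [NeZero N] [NeZero r]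

/-- `π^* : J₀(N) → J₀(N r)`, pullback of divisor classes along `β_r = V_r : F_N → F_{N r}`. -/
def pullB : JZero N →+ JZero (N * r) :=
  haveI := H864.hasPrincipalDivisors_FF (N * r)
  pullbackPic0Along (heckeBetaBar (AlgebraicClosure ℚ) N r) (H864.heckeBetaBarIntegral N r)
    (H864.fundamentalIdentityAlong_beta N r _)

/-- `π^*` is Galois equivariant. -/
theorem pullB_smul (σ : AlgebraicClosure ℚ ≃ₐ[ℚ] AlgebraicClosure ℚ) (x : JZero N) :
    pullB N r (σ • x) = σ • pullB N r x := by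
  haveI := H864.hasPrincipalDivisors_FF (N * r)
  rw [galois_smul_pic0_def, galois_smul_pic0_def]
  exact _root_.Fermat.Agent.S37.H155.pullbackPic0Along_smul _ _ _ (Fermat.Agent.S29.H571.intertwines_heckeBetaBar N r σ) x

theorem sumRamificationInertiaAlong_beta :
    haveI := H864.hasPrincipalDivisors_FF (N * r)
    SumRamificationInertiaAlong (heckeBetaBar (AlgebraicClosure ℚ) N r)
      (H864.heckeBetaBarIntegral N r) := by
  haveI := H864.hasPrincipalDivisors_FF (N * r)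
  unfold SumRamificationInertiaAlong
  letI := algebraAlong (heckeBetaBar (AlgebraicClosure ℚ) N r)
  haveI := isScalarTower_along (heckeBetaBar (AlgebraicClosure ℚ) N r)
  haveI := H864.finiteDimensional_jF N
  haveI := H864.finiteDimensional_beta N r
  haveI : FiniteDimensional (FF N) (FF (N * r)) := H864.finiteAlong_beta N r
  exact H864.sumRamificationInertia (jF N) (H864.transcendental_jF N)
    (heckeBetaBar (AlgebraicClosure ℚ) N r (jF N))
    (H864.transcendental_map _ _ (H864.transcendental_jF N))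

/-- `π^* x = 0 ⇒ (r + 1) • x = 0` for a prime `r ∤ N`. -/
theorem pullB_eq_zero (hr : r.Prime) (hrN : ¬ r ∣ N) (x : JZero N) (hx : pullB N r x = 0) :
    (r + 1) • x = 0 := by
  haveI := H864.hasPrincipalDivisors_FF (N * r)
  have h := nsmul_eq_zero_of_pullback_eq_zero (heckeBetaBar (AlgebraicClosure ℚ) N r)
    (H864.heckeBetaBarIntegral N r) (H864.fundamentalIdentityAlong_beta N r _)
    (sumRamificationInertiaAlong_beta N r) (H864.finiteAlong_beta N r)
    (H864.normFormulaAlong_beta N r _) x hx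
  rwa [Fermat.Agent.S37.H218.finrankAlong_heckeBetaBar_of_not_dvd N r hr hrN] at h

end Pull

/-! ### Base change with the push-forwards at `q` -/

section BaseChange

variable (N q r : ℕ) [NeZero N] [NeZero q] [NeZero r]

/-- `α_{q,*}` at the top level `N q r`, as a push-forward along the retargeted inclusion. -/
def alphaPushTop : JZero (N * q * r) →+ JZero (N * r) :=
  pushPic0 (alphaTo (AlgebraicClosure ℚ) (N * r) q (N * q * r) (Nat.mul_right_comm N r q))
    (alphaTo_integral (AlgebraicClosure ℚ) (Nat.mul_right_comm N r q)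
      (H864.heckeAlphaBarIntegral (N * r) q))
    (alphaTo_finite (AlgebraicClosure ℚ) (Nat.mul_right_comm N r q)
      (H864.finiteAlong_alpha (N * r) q))
    (alphaTo_normFormula (AlgebraicClosure ℚ) (Nat.mul_right_comm N r q)
      (H864.finiteAlong_alpha (N * r) q) (H864.normFormulaAlong_alpha (N * r) q _))

/-- `β_{q,*}` at the top level `N q r`, as a push-forward along the retargeted `V_q`. -/
def betaPushTop : JZero (N * q * r) →+ JZero (N * r) :=
  pushPic0 (betaTo (AlgebraicClosure ℚ) (N * r) q (N * q * r) (Nat.mul_right_comm N r q))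
    (betaTo_integral (AlgebraicClosure ℚ) (Nat.mul_right_comm N r q)
      (H864.heckeBetaBarIntegral (N * r) q))
    (betaTo_finite (AlgebraicClosure ℚ) (Nat.mul_right_comm N r q)
      (H864.finiteAlong_beta (N * r) q))
    (betaTo_normFormula (AlgebraicClosure ℚ) (Nat.mul_right_comm N r q)
      (H864.finiteAlong_beta (N * r) q) (H864.normFormulaAlong_beta (N * r) q _))

theorem pushPic0_alphaTo_eq (M ℓ M' : ℕ) [NeZero M] [NeZero ℓ] [NeZero M'] (h : M * ℓ = M')
    (x : JZero M') :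
    pushPic0 (alphaTo (AlgebraicClosure ℚ) M ℓ M' h)
      (alphaTo_integral (AlgebraicClosure ℚ) h (H864.heckeAlphaBarIntegral M ℓ))
      (alphaTo_finite (AlgebraicClosure ℚ) h (H864.finiteAlong_alpha M ℓ))
      (alphaTo_normFormula (AlgebraicClosure ℚ) h (H864.finiteAlong_alpha M ℓ)
        (H864.normFormulaAlong_alpha M ℓ _)) x
      = alphaPush M ℓ (levelCast h.symm x) := by
  subst h
  rfl

theorem pushPic0_betaTo_eq (M ℓ M' : ℕ) [NeZero M] [NeZero ℓ] [NeZero M'] (h : M * ℓ = M')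
    (x : JZero M') :
    pushPic0 (betaTo (AlgebraicClosure ℚ) M ℓ M' h)
      (betaTo_integral (AlgebraicClosure ℚ) h (H864.heckeBetaBarIntegral M ℓ))
      (betaTo_finite (AlgebraicClosure ℚ) h (H864.finiteAlong_beta M ℓ))
      (betaTo_normFormula (AlgebraicClosure ℚ) h (H864.finiteAlong_beta M ℓ)
        (H864.normFormulaAlong_beta M ℓ _)) x
      = betaPush M ℓ (levelCast h.symm x) := by
  subst h
  rfl

theorem alphaPushTop_eq (x : JZero (N * q * r)) :
    alphaPushTop N q r x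
      = alphaPush (N * r) q (levelCast (Nat.mul_right_comm N r q).symm x) :=
  pushPic0_alphaTo_eq (N * r) q (N * q * r) (Nat.mul_right_comm N r q) x

theorem betaPushTop_eq (x : JZero (N * q * r)) :
    betaPushTop N q r x
      = betaPush (N * r) q (levelCast (Nat.mul_right_comm N r q).symm x) :=
  pushPic0_betaTo_eq (N * r) q (N * q * r) (Nat.mul_right_comm N r q) x

/-- **Base change, `α`**: `π^* (α_{q,*} x) = α_{q,*} (π^* x)`. -/
theorem pullB_alphaPush (hq : q.Prime) (hr : r.Prime) (hne : r ≠ q) (x : JZero (N * q)) :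
    pullB N r (alphaPush N q x) = alphaPushTop N q r (pullB (N * q) r x) := by
  haveI := H864.hasPrincipalDivisors_FF (N * q)
  haveI := H864.hasPrincipalDivisors_FF (N * r)
  haveI := H864.hasPrincipalDivisors_FF (N * q * r)
  exact pullbackPic0Along_pushPic0
    (heckeAlphaBar (AlgebraicClosure ℚ) N q) (heckeBetaBar (AlgebraicClosure ℚ) N r)
    (alphaTo (AlgebraicClosure ℚ) (N * r) q (N * q * r) (Nat.mul_right_comm N r q))
    (heckeBetaBar (AlgebraicClosure ℚ) (N * q) r)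
    (H864.heckeAlphaBarIntegral N q) (H864.heckeBetaBarIntegral N r)
    (alphaTo_integral (AlgebraicClosure ℚ) (Nat.mul_right_comm N r q)
      (H864.heckeAlphaBarIntegral (N * r) q))
    (H864.heckeBetaBarIntegral (N * q) r)
    (rel_sq₂ N q r)
    (H864.finiteAlong_alpha N q) (H864.normFormulaAlong_alpha N q _)
    (alphaTo_finite (AlgebraicClosure ℚ) (Nat.mul_right_comm N r q)
      (H864.finiteAlong_alpha (N * r) q))
    (alphaTo_normFormula (AlgebraicClosure ℚ) (Nat.mul_right_comm N r q)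
      (H864.finiteAlong_alpha (N * r) q) (H864.normFormulaAlong_alpha (N * r) q _))
    (H864.fundamentalIdentityAlong_beta N r _) (H864.fundamentalIdentityAlong_beta (N * q) r _)
    (normCompat_bar_to N q r (N * q * r) hr hq hne (Nat.mul_right_comm N r q) rfl)
    (hasLocalGenerators_of_hasPrincipalDivisors _ _) x

/-- **Base change, `β`**: `π^* (β_{q,*} x) = β_{q,*} (π^* x)`. -/
theorem pullB_betaPush (hq : q.Prime) (hr : r.Prime) (hne : r ≠ q) (x : JZero (N * q)) :
    pullB N r (betaPush N q x) = betaPushTop N q r (pullB (N * q) r x) := by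
  haveI := H864.hasPrincipalDivisors_FF (N * q)
  haveI := H864.hasPrincipalDivisors_FF (N * r)
  haveI := H864.hasPrincipalDivisors_FF (N * q * r)
  exact pullbackPic0Along_pushPic0
    (heckeBetaBar (AlgebraicClosure ℚ) N q) (heckeBetaBar (AlgebraicClosure ℚ) N r)
    (betaTo (AlgebraicClosure ℚ) (N * r) q (N * q * r) (Nat.mul_right_comm N r q))
    (heckeBetaBar (AlgebraicClosure ℚ) (N * q) r)
    (H864.heckeBetaBarIntegral N q) (H864.heckeBetaBarIntegral N r)
    (betaTo_integral (AlgebraicClosure ℚ) (Nat.mul_right_comm N r q)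
      (H864.heckeBetaBarIntegral (N * r) q))
    (H864.heckeBetaBarIntegral (N * q) r)
    (rel_BB N q r)
    (H864.finiteAlong_beta N q) (H864.normFormulaAlong_beta N q _)
    (betaTo_finite (AlgebraicClosure ℚ) (Nat.mul_right_comm N r q)
      (H864.finiteAlong_beta (N * r) q))
    (betaTo_normFormula (AlgebraicClosure ℚ) (Nat.mul_right_comm N r q)
      (H864.finiteAlong_beta (N * r) q) (H864.normFormulaAlong_beta (N * r) q _))
    (H864.fundamentalIdentityAlong_beta N r _) (H864.fundamentalIdentityAlong_beta (N * q) r _)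
    (normCompat_beta_bar N q r hq hr hne)
    (hasLocalGenerators_of_hasPrincipalDivisors _ _) x

end BaseChange

end Fermat.Agent.S36.H160

end

end
-- ===== PACK-END S36/H160/AuxPull.lean

-- ===== PACK-BEGIN A2/Top/H672/WallNoSep.lean
section













/-!
# WALL A2 without `SepCoord` (helper672)

Route S of ALG (`Alg/H34`, `Alg/H754`, `Alg/H609`) never uses the separating-coordinate
hypothesis `SepCoord` of the frozen interface `AlgSSStatement`, so the sub-assembly S4 of MOD is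
not needed for the wall.  This file re-assembles the top of the wall without it:

* `algS`              : ALG (route S) with exactly the hypotheses it uses (no `SepCoord`, no
                        `τ x = x`, no finite order);
* `kummerTarget_perN` : `T1` for one level from `IF` (on main) and a model in the shape of
                        `Mod.exists_model_of_parts`;
* `exists_model_good` : the model at the levels carrying the auxiliary prime, from S2, S3 and
                        GOODRED (L1, L4, L6, L8, L9, L10, S1, Sτ plugged in from main);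
* `kummerTarget_noSep`, `wallNoSep` : `S2 → S3 → GoodRedStatement → Target N q m` for every
                        `q ‖ N`, `q ∤ m` (`D2` plugged in from main).
-/

set_option autoImplicit false
set_option linter.unusedSectionVars false
set_option linter.unusedVariables false
set_option linter.style.haveILetI false
set_option synthInstance.maxHeartbeats 400000
set_option maxHeartbeats 1600000

noncomputable section

namespace Fermat.Agent.A2.Top.H672

open ModularCurve AlgebraicCurve Fermat.Agent.A2 Fermat.Agent.A2.Alg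

section Alg

variable {R E F : Type} [CommRing R] [IsDomain R] [IsDiscreteValuationRing R]
  [HenselianLocalRing R] [IsAlgClosed (IsLocalRing.ResidueField R)]
  [Field E] [CharZero E] [Algebra R E] [IsFractionRing R E]
  [Field F] [Algebra E F] [Algebra R F] [IsScalarTower R E F]

/-- Purity at every closed point of the special fibre (no `SepCoord`). -/
theorem purityS (q m : ℕ) (hq : q.Prime) (hqR : (q : R) ∈ IsLocalRing.maximalIdeal R)
    (hm : 0 < m) (hqm : ¬ q ∣ m)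
    (w : R) (x : F) (B : Subalgebra R F) (hB : ChartCtx E w x B)
    (c : SSChart w B)
    (u : F) (hu : u ≠ 0) (hdiv : DivisibleDiv E m u) (hs : IsSplit B c u)
    (n : Ideal B) (hn : n.IsMaximal) (hwn : algebraMap R B w ∈ n) : PureAt B c m u n := by
  by_cases h1 : c.p₁ ≤ n ∧ c.p₂ ≤ n
  · exact H609.purity_node m hm w x B hB c u hdiv hs n hn.isPrime h1.1 h1.2
  · exact H754.purity_smooth q m hq hqR hm hqm w x B hB c (H34.incomparable_of_ssChart c) u hu
      hdiv hs n hn hwn h1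

/-- **Step II** (no `SepCoord`).  A split Kummer class is fixed by `τ`. -/
theorem stepIIS (q m : ℕ) (hq : q.Prime) (hqR : (q : R) ∈ IsLocalRing.maximalIdeal R)
    (hm : 0 < m) (hqm : ¬ q ∣ m)
    (w : R) (x : F) (Bf Bi : Subalgebra R F)
    (hBf : ChartCtx E w x Bf) (hBi : ChartCtx E w x⁻¹ Bi)
    (cf : SSChart w Bf) (ci : SSChart w Bi)
    (τ : F ≃+* F) (τE : E ≃+* E) (τR : R ≃+* R)
    (hτf : TauCtx w Bf τ τE τR) (hτi : TauCtx w Bi τ τE τR)
    (u : F) (hu : u ≠ 0) (hdiv : DivisibleDiv E m u)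
    (hsf : IsSplit Bf cf u) (hsi : IsSplit Bi ci u) :
    ∃ h : F, h ≠ 0 ∧ τ u = h ^ m * u := by
  have hτu : τ u ≠ 0 := (map_ne_zero τ).2 hu
  have hu' : τ u * u⁻¹ ≠ 0 := mul_ne_zero hτu (inv_ne_zero hu)
  have hdiv' : DivisibleDiv E m (τ u * u⁻¹) :=
    H34.divisibleDiv_mul_inv m _ _ (H34.divisibleDiv_tau τ τE hτf.hτE m u hdiv) hdiv
  have hf : LocallyFactored Bf cf m (τ u * u⁻¹) := fun n hn hwn =>
    H34.localFactor_of_pureAt w Bf cf τ τE τR hτf m u hu n hn.isPrime hwn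
      (purityS q m hq hqR hm hqm w x Bf hBf cf u hu hdiv hsf n hn hwn)
  have hi : LocallyFactored Bi ci m (τ u * u⁻¹) := fun n hn hwn =>
    H34.localFactor_of_pureAt w Bi ci τ τE τR hτi m u hu n hn.isPrime hwn
      (purityS q m hq hqR hm hqm w x⁻¹ Bi hBi ci u hu hdiv hsi n hn hwn)
  obtain ⟨y, hy, hyu⟩ := H34.glue (E := E) q m hq hqR hm hqm w x Bf Bi hBf hBi cf ci
    (H34.incomparable_of_ssChart cf) (H34.incomparable_of_ssChart ci) _ hu' hdiv' hf hi
  refine ⟨y, hy, ?_⟩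
  rw [← hyu, mul_assoc, inv_mul_cancel₀ hu, mul_one]

/-- **ALG, route S**, with exactly the hypotheses it uses. -/
theorem algS (w : R) (hw : Irreducible w) (q m : ℕ) (hq : q.Prime)
    (hqR : (q : R) ∈ IsLocalRing.maximalIdeal R) (hm : 0 < m) (hqm : ¬ q ∣ m)
    (x : F) (hx : Transcendental E x)
    (hfin : FiniteDimensional (IntermediateField.adjoin E ({x} : Set F)) F)
    (hconst : ∀ f : F, IsAlgebraic E f → f ∈ (algebraMap E F).range)
    (Bf Bi : Subalgebra R F)
    (hBf : ∀ f : F, f ∈ Bf ↔ IsIntegral (Algebra.adjoin R ({x} : Set F)) f)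
    (hBi : ∀ f : F, f ∈ Bi ↔ IsIntegral (Algebra.adjoin R ({x⁻¹} : Set F)) f)
    (cf : SSChart w Bf) (ci : SSChart w Bi)
    (τ : F ≃+* F) (τE : E ≃+* E) (τR : R ≃+* R)
    (hτE : ∀ e : E, τ (algebraMap E F e) = algebraMap E F (τE e))
    (hτR : ∀ r : R, τE (algebraMap R E r) = algebraMap R E (τR r))
    (hτf : ∀ b ∈ Bf, ∃ c ∈ Bf, τ b - b = algebraMap R F w * c)
    (hτi : ∀ b ∈ Bi, ∃ c ∈ Bi, τ b - b = algebraMap R F w * c) :
    AlgSSConclusion E m τ := by
  have hCf : ChartCtx E w x Bf := ⟨hw, hx, hfin, hconst, hBf⟩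
  have hCi : ChartCtx E w x⁻¹ Bi := H34.chartCtx_inv w hw x hx hfin hconst Bi hBi
  have hTf : TauCtx w Bf τ τE τR := ⟨hτE, hτR, hτf⟩
  have hTi : TauCtx w Bi τ τE τR := ⟨hτE, hτR, hτi⟩
  intro f hf hdiv
  have hτf0 : τ f ≠ 0 := (map_ne_zero τ).2 hf
  have hu : τ f * f⁻¹ ≠ 0 := mul_ne_zero hτf0 (inv_ne_zero hf)
  have hdivu : DivisibleDiv E m (τ f * f⁻¹) :=
    H34.divisibleDiv_mul_inv m _ _ (H34.divisibleDiv_tau τ τE hτE m f hdiv) hdiv
  obtain ⟨h, hh, hh2⟩ := stepIIS q m hq hqR hm hqm w x Bf Bi hCf hCi cf ci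
    τ τE τR hTf hTi (τ f * f⁻¹) hu hdivu
    (H34.stepI w x Bf hCf cf (H34.incomparable_of_ssChart cf) τ τE τR hTf f hf)
    (H34.stepI w x⁻¹ Bi hCi ci (H34.incomparable_of_ssChart ci) τ τE τR hTi f hf)
  refine ⟨h, hh, ?_⟩
  rw [map_mul, map_inv₀] at hh2
  have h3 : τ (τ f) = h ^ m * (τ f * f⁻¹) * τ f := by
    rw [← hh2, mul_assoc, inv_mul_cancel₀ hτf0, mul_one]
  rw [h3]
  field_simp

end Alg

/-- The shape of the semistable model without `SepCoord` (conclusion of
`Mod.exists_model_of_parts`). -/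
def HasModel (P : ValuationSubring Qb) (E : IntermediateField ℚ Qb) (N : ℕ) : Prop :=
  ∃ (x : FE E N) (Bf Bi : Subalgebra (RE P E) (FE E N)),
    Transcendental E x ∧
    FiniteDimensional (IntermediateField.adjoin E ({x} : Set (FE E N))) (FE E N) ∧
    (∀ f : FE E N, IsAlgebraic E f → f ∈ (algebraMap E (FE E N)).range) ∧
    (∀ f : FE E N, f ∈ Bf ↔
      IsIntegral (Algebra.adjoin (RE P E) ({x} : Set (FE E N))) f) ∧
    (∀ f : FE E N, f ∈ Bi ↔
      IsIntegral (Algebra.adjoin (RE P E) ({x⁻¹} : Set (FE E N))) f) ∧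
    (∀ w : RE P E, Irreducible w → Nonempty (SSChart w Bf)) ∧
    (∀ w : RE P E, Irreducible w → Nonempty (SSChart w Bi)) ∧
    (∀ τ ∈ P.inertiaSubgroupIn ℚ, ∀ τE : E ≃ₐ[ℚ] E,
      (∀ e : E, ((τE e : E) : Qb) = τ (e : Qb)) →
      arithmeticRingAut (modularFunctionFieldFull N) τE x = x) ∧
    (∀ τ ∈ P.inertiaSubgroupIn ℚ, ∀ τE : E ≃ₐ[ℚ] E,
      (∀ e : E, ((τE e : E) : Qb) = τ (e : Qb)) →
      ∀ w : RE P E, Irreducible w → ∀ b ∈ Bf, ∃ c ∈ Bf,
        arithmeticRingAut (modularFunctionFieldFull N) τE b - b =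
          algebraMap (RE P E) (FE E N) w * c) ∧
    (∀ τ ∈ P.inertiaSubgroupIn ℚ, ∀ τE : E ≃ₐ[ℚ] E,
      (∀ e : E, ((τE e : E) : Qb) = τ (e : Qb)) →
      ∀ w : RE P E, Irreducible w → ∀ b ∈ Bi, ∃ c ∈ Bi,
        arithmeticRingAut (modularFunctionFieldFull N) τE b - b =
          algebraMap (RE P E) (FE E N) w * c)

/-- **T1 for one level**, without `SepCoord`: `IF` (main) + a model at the level `N`
⟹ `KummerTarget N q m`. -/
theorem kummerTarget_perN (N q m : ℕ) (hq : q.Prime) (hm : 0 < m) (hqm : ¬ q ∣ m)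
    (hMOD : ∀ (P : ValuationSubring Qb) (E : IntermediateField ℚ Qb),
      P.LiesOverPrime q → GoodField P E → HasModel P E N) :
    KummerTarget N q m := by
  intro P hP τ hτ f hf hdiv
  refine T1.H669.kummer_of_levels (modularFunctionFieldFull N) m τ (fun S => ?_) f hf hdiv
  obtain ⟨E, hSE, hE⟩ := IF.H429.ifStatement q hq P hP S
  refine ⟨E, hSE, hE.res τ hτ, fun e => rfl, fun y hy0 hdd => ?_⟩
  obtain ⟨x, Bf, Bi, hx, hfin, hconst, hBf, hBi, hcf, hci, hτx, hτf, hτi⟩ := hMOD P E hP hE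
  haveI : IsDiscreteValuationRing ↥(RE P E) := hE.dvr
  haveI : HenselianLocalRing ↥(RE P E) := hE.henselian
  haveI : IsAlgClosed (IsLocalRing.ResidueField ↥(RE P E)) := hE.algClosed
  obtain ⟨w, hw⟩ := IsDiscreteValuationRing.exists_irreducible ↥(RE P E)
  obtain ⟨cf⟩ := hcf w hw
  obtain ⟨ci⟩ := hci w hw
  have hconcl : AlgSSConclusion E m
      (arithmeticRingAut (modularFunctionFieldFull N) (hE.res τ hτ)) :=
    algS (R := ↥(RE P E)) (E := E) (F := ↥(FE E N)) w hw q m hq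
      (T1.H669.natCast_mem_maximalIdeal_RE E hP) hm hqm x hx hfin hconst Bf Bi hBf hBi
      cf ci
      (arithmeticRingAut (modularFunctionFieldFull N) (hE.res τ hτ))
      (hE.res τ hτ).toRingEquiv (T1.H669.resR hE τ hτ)
      (fun e => arithmeticRingAut_algebraMap (modularFunctionFieldFull N) (hE.res τ hτ) e)
      (fun r => rfl)
      (hτf τ hτ (hE.res τ hτ) (fun e => rfl) w hw)
      (hτi τ hτ (hE.res τ hτ) (fun e => rfl) w hw)
  exact hconcl y hy0 hdd

/-- The semistable model (without `SepCoord`) at the levels carrying the auxiliary prime, from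
S2, S3 and GOODRED; everything else is plugged in from main. -/
theorem exists_model_good
    (hS2 : ∀ (P : ValuationSubring Qb) (E : IntermediateField ℚ Qb) (M q : ℕ) [NeZero M]
      [NeZero q] (w : RE P E), Mod.S2Statement P E M q w)
    (hS3 : ∀ (P : ValuationSubring Qb) (E : IntermediateField ℚ Qb) (M q : ℕ) [NeZero M]
      [NeZero q] (w : RE P E), Mod.S3Statement P E M q w)
    (hGood : Top.H994.GoodRedStatement)
    (P : ValuationSubring Qb) (E : IntermediateField ℚ Qb) (N q : ℕ)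
    (hq : q.Prime) (hqN : q ∣ N) (hq2 : ¬ q ^ 2 ∣ N) (hN : N ≠ 0)
    (h3 : q = 3 → 2 ∣ N) (h2 : q = 2 → 3 ∣ N)
    (hP : P.LiesOverPrime q) (hE : GoodField P E) : HasModel P E N := by
  obtain ⟨M, hM⟩ := hqN
  have hNM : N = M * q := by rw [hM, mul_comm]
  subst hNM
  have hM0 : M ≠ 0 := fun h => hN (by rw [h, zero_mul])
  haveI : NeZero M := ⟨hM0⟩
  haveI : NeZero q := ⟨hq.ne_zero⟩
  have hqM : ¬ q ∣ M := by
    rintro ⟨c, hc⟩
    exact hq2 ⟨c, by rw [hc]; ring⟩
  have h3' : q = 3 → 2 ∣ M := by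
    intro h
    have h2N := h3 h
    subst h
    exact (Nat.Coprime.dvd_mul_right (by norm_num : Nat.Coprime 2 3)).1 h2N
  have h2' : q = 2 → 3 ∣ M := by
    intro h
    have h3N := h2 h
    subst h
    exact (Nat.Coprime.dvd_mul_right (by norm_num : Nat.Coprime 3 2)).1 h3N
  have hS1 : ∀ w : RE P E, Mod.S1Statement P E M q w := fun w =>
    Mod.H13.s1 (Mod.H553.vzeroNe P E M q w) (Mod.H31.deg E M q) (Mod.H753.indInf P E M q w)
      (Mod.H753.indZero P E M q w)
  exact Mod.exists_model_of_parts P E M q hq hqM hP hE.dvr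
    (Mod.H553.vinfExists P E M hM0 hE.dvr)
    (Mod.H553.vinfExists P E (M * q) hN hE.dvr)
    (Mod.H751.frickeExists E (M * q) hN)
    (Mod.H31.deg E M q) hS1 (hS2 P E M q) (hS3 P E M q)
    (fun w => Mod.H751.stau_of_s1 P E M q w (hS1 w))
    (hGood P E M q hq hqM h3' h2' hP hE)

/-- **The Kummer form of the wall, all `q`, without S4.** -/
theorem kummerTarget_noSep
    (hS2 : ∀ (P : ValuationSubring Qb) (E : IntermediateField ℚ Qb) (M q : ℕ) [NeZero M]
      [NeZero q] (w : RE P E), Mod.S2Statement P E M q w)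
    (hS3 : ∀ (P : ValuationSubring Qb) (E : IntermediateField ℚ Qb) (M q : ℕ) [NeZero M]
      [NeZero q] (w : RE P E), Mod.S3Statement P E M q w)
    (hGood : Top.H994.GoodRedStatement)
    (N q m : ℕ) (hq : q.Prime) (hqN : q ∣ N) (hq2 : ¬ q ^ 2 ∣ N) (hN : N ≠ 0) (hm : 0 < m)
    (hqm : ¬ q ∣ m) : KummerTarget N q m := by
  apply H876.d2Statement N q m hq hqN hq2 hN hm hqm
  apply kummerTarget_perN (Top.H994.auxLevel N q) q m hq hm hqm
  intro P E hP hE
  exact exists_model_good hS2 hS3 hGood P E (Top.H994.auxLevel N q) q hq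
    (hqN.trans (Top.H994.dvd_auxLevel N q)) (Top.H994.not_sq_dvd_auxLevel hq hq2)
    (Top.H994.auxLevel_ne_zero q hN) Top.H994.aux_two_dvd Top.H994.aux_three_dvd hP hE

/-- **The wall A2, all `q`, without S4**: unipotent inertia on `J₀(N)[m]` at every `q ‖ N`,
`q ∤ m`, from S2, S3 and GOODRED only. -/
theorem wallNoSep
    (hS2 : ∀ (P : ValuationSubring Qb) (E : IntermediateField ℚ Qb) (M q : ℕ) [NeZero M]
      [NeZero q] (w : RE P E), Mod.S2Statement P E M q w)
    (hS3 : ∀ (P : ValuationSubring Qb) (E : IntermediateField ℚ Qb) (M q : ℕ) [NeZero M]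
      [NeZero q] (w : RE P E), Mod.S3Statement P E M q w)
    (hGood : Top.H994.GoodRedStatement)
    (N q m : ℕ) (hq : q.Prime) (hqN : q ∣ N) (hq2 : ¬ q ^ 2 ∣ N) (hN : N ≠ 0) (hm : 0 < m)
    (hqm : ¬ q ∣ m) : Target N q m :=
  Fermat.Agent.A2.T0.H669.target_of_kummerTarget N q m hm
    (kummerTarget_noSep hS2 hS3 hGood N q m hq hqN hq2 hN hm hqm)

end Fermat.Agent.A2.Top.H672

end

end
-- ===== PACK-END A2/Top/H672/WallNoSep.lean

-- ===== PACK-BEGIN S59/H316/Groups.lean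
section
/-
Row S59, cell LO, leaf LO-SQ at `(p, q) = (3, 2)` — block B-GRP (helper316).

The groups `K₂(M) = Γ₀(M) ∩ Γ(2)`, `Γ_C(M)` = preimage in `Γ₀(M)` of the subgroup `C₃` of
`SL(2, 𝔽₂) ≅ S₃`, the elements `gU = [[1, 1], [0, 1]]` (a transposition modulo `2`) and
`gS M = [[1, 1], [M, M + 1]]` (a `3`-cycle modulo `2`, `M` odd), the relations of `S₃` for the
conjugation operators on `Hom(K₂(M), A)`, and the hypothesis (Ell) for `Γ_C(M)` when a prime
`r ≡ 2 mod 3` divides `M`.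
-/



set_option autoImplicit false
set_option linter.unusedSectionVars false

namespace Fermat.Agent.S59.H316

open CongruenceSubgroup Matrix.SpecialLinearGroup
open Fermat.Agent.S41.Spec Fermat.Agent.S29.H642 Fermat.Agent.S41.H761
open Fermat.Agent.S59.MFree Fermat.Agent.S59.MFree.H587 Fermat.Agent.S59.TW.H653
open scoped MatrixGroups

/-! ## `SL(2, 𝔽₂)` -/

/-- A `3`-cycle of `SL(2, 𝔽₂)`. -/
def sEl : S2 := ⟨!![1, 1; 1, 0], by decide⟩

/-- A transposition of `SL(2, 𝔽₂)` (in the upper triangular Borel subgroup). -/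
def tEl : S2 := ⟨!![1, 1; 0, 1], by decide⟩

theorem sEl_pow_three : sEl ^ 3 = 1 := by decide

theorem tEl_pow_two : tEl ^ 2 = 1 := by decide

theorem tEl_sEl_tEl : tEl * sEl * tEl = sEl * sEl := by decide

/-- The subgroup `C₃ = {1, s, s²}` of `SL(2, 𝔽₂)`. -/
def C3 : Subgroup S2 where
  carrier := {x | x = 1 ∨ x = sEl ∨ x = sEl * sEl}
  one_mem' := Or.inl rfl
  mul_mem' := by
    intro a b ha hb
    revert ha hb
    revert a b
    decide
  inv_mem' := by
    intro a ha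
    revert ha
    revert a
    decide

theorem mem_C3 {x : S2} : x ∈ C3 ↔ x = 1 ∨ x = sEl ∨ x = sEl * sEl := Iff.rfl

theorem borel_cases : ∀ x : S2, x 1 0 = 0 → x = 1 ∨ x = tEl := by decide

theorem C3_sq_eq_one : ∀ x : S2, x ∈ C3 → x * x = 1 → x = 1 := by
  intro x hx
  revert hx
  rw [mem_C3]
  revert x
  decide

/-! ## The groups -/

/-- `K₂(M) = Γ₀(M) ∩ Γ(2)`. -/
def K2 (M : ℕ) : Subgroup SL(2, ℤ) := Gamma0 M ⊓ Gamma 2

theorem mem_K2 {M : ℕ} {g : SL(2, ℤ)} : g ∈ K2 M ↔ g ∈ Gamma0 M ∧ red2 g = 1 := Iff.rfl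

theorem K2_le_Gamma0 (M : ℕ) : K2 M ≤ Gamma0 M := inf_le_left

theorem K2_iff_Gamma0 (M : ℕ) : ∀ g ∈ Gamma0 M, (g ∈ K2 M ↔ red2 g = 1) :=
  fun _ hg => ⟨fun h => h.2, fun h => ⟨hg, h⟩⟩

/-- `Γ_C(M)`: the elements of `Γ₀(M)` whose reduction modulo `2` lies in `C₃`. -/
def GC (M : ℕ) : Subgroup SL(2, ℤ) := Gamma0 M ⊓ C3.comap red2

theorem mem_GC {M : ℕ} {g : SL(2, ℤ)} : g ∈ GC M ↔ g ∈ Gamma0 M ∧ red2 g ∈ C3 := Iff.rfl

theorem GC_le_Gamma0 (M : ℕ) : GC M ≤ Gamma0 M := inf_le_left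

theorem K2_le_GC (M : ℕ) : K2 M ≤ GC M := fun g hg =>
  ⟨hg.1, by
    show red2 g ∈ C3
    have h2 : red2 g = 1 := hg.2
    rw [h2]
    exact C3.one_mem⟩

theorem K2_iff_GC (M : ℕ) : ∀ g ∈ GC M, (g ∈ K2 M ↔ red2 g = 1) :=
  fun _ hg => ⟨fun h => h.2, fun h => ⟨hg.1, h⟩⟩

theorem dvd_of_mem_Gamma0' {M : ℕ} {g : SL(2, ℤ)} (hg : g ∈ Gamma0 M) : (M : ℤ) ∣ g 1 0 := by
  rw [Gamma0_mem] at hg
  exact (ZMod.intCast_zmod_eq_zero_iff_dvd _ _).mp hg

theorem mem_Gamma0_of_dvd' {M : ℕ} {g : SL(2, ℤ)} (hg : (M : ℤ) ∣ g 1 0) : g ∈ Gamma0 M := by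
  rw [Gamma0_mem]
  exact (ZMod.intCast_zmod_eq_zero_iff_dvd _ _).mpr hg

theorem red2_one_zero_of_even {g : SL(2, ℤ)} (h : (2 : ℤ) ∣ g 1 0) : (red2 g) 1 0 = 0 := by
  rw [red2_apply]
  exact (ZMod.intCast_zmod_eq_zero_iff_dvd _ _).mpr h

theorem even_of_red2_eq_one {g : SL(2, ℤ)} (h : red2 g = 1) : (2 : ℤ) ∣ g 1 0 := by
  have h1 : (red2 g) 1 0 = 0 := by rw [h]; rfl
  rw [red2_apply] at h1
  exact (ZMod.intCast_zmod_eq_zero_iff_dvd _ _).mp h1

/-- `Γ₀(N) ∩ Γ(2) ≤ Γ₀(2N)` for `N` odd. -/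
theorem K2_le_Gamma0_two {N : ℕ} (hN : Odd N) : K2 N ≤ Gamma0 (N * 2) := by
  intro g hg
  apply mem_Gamma0_of_dvd'
  have h1 := dvd_of_mem_Gamma0' hg.1
  have h2 := even_of_red2_eq_one hg.2
  have hcop : IsCoprime (N : ℤ) (2 : ℤ) := by
    obtain ⟨m, hm⟩ := hN
    exact ⟨1, -(m : ℤ), by rw [hm]; push_cast; ring⟩
  push_cast
  exact hcop.mul_dvd h1 h2

theorem Gamma0_two_le (N : ℕ) : Gamma0 (N * 2) ≤ Gamma0 N := by
  intro g hg
  apply mem_Gamma0_of_dvd'
  have h1 := dvd_of_mem_Gamma0' hg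
  push_cast at h1
  exact (Dvd.intro _ rfl).trans h1

theorem K2_iff_Gamma0_two {N : ℕ} : ∀ g ∈ Gamma0 (N * 2), (g ∈ K2 N ↔ red2 g = 1) :=
  fun _ hg => ⟨fun h => h.2, fun h => ⟨Gamma0_two_le N hg, h⟩⟩

/-- The elements of `Γ₀(2N)` reduce to the Borel subgroup `{1, t}`. -/
theorem red2_Gamma0_two {N : ℕ} {g : SL(2, ℤ)} (hg : g ∈ Gamma0 (N * 2)) :
    red2 g = 1 ∨ red2 g = tEl := by
  apply borel_cases
  apply red2_one_zero_of_even
  have h1 := dvd_of_mem_Gamma0' hg
  push_cast at h1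
  exact (Dvd.intro_left _ rfl).trans h1

/-- Normality from the description by the reduction modulo `2`. -/
theorem normal_of_red2 {G K : Subgroup SL(2, ℤ)} (hKG : K ≤ G)
    (hK : ∀ g ∈ G, (g ∈ K ↔ red2 g = 1)) : ∀ g ∈ G, ∀ k ∈ K, g⁻¹ * k * g ∈ K := by
  intro g hg k hk
  have hk1 : red2 k = 1 := (hK k (hKG hk)).1 hk
  rw [hK _ (G.mul_mem (G.mul_mem (G.inv_mem hg) (hKG hk)) hg), map_mul, map_mul, hk1, mul_one,
    map_inv, inv_mul_cancel]

theorem K2_normal (M : ℕ) : ∀ g ∈ Gamma0 M, ∀ k ∈ K2 M, g⁻¹ * k * g ∈ K2 M :=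
  normal_of_red2 (K2_le_Gamma0 M) (K2_iff_Gamma0 M)

/-! ## The elements `gU` and `gS` -/

/-- `gU = [[1, 1], [0, 1]]`. -/
def gU : SL(2, ℤ) := ⟨!![1, 1; 0, 1], by simp [Matrix.det_fin_two_of]⟩

/-- `gS M = [[1, 1], [M, M + 1]]`. -/
def gS (M : ℕ) : SL(2, ℤ) := ⟨!![1, 1; (M : ℤ), (M : ℤ) + 1], by
  rw [Matrix.det_fin_two_of]; ring⟩

theorem gU_mem (M : ℕ) : gU ∈ Gamma0 M := by
  apply mem_Gamma0_of_dvd'
  show (M : ℤ) ∣ (0 : ℤ)
  exact dvd_zero _

theorem gS_mem (M : ℕ) : gS M ∈ Gamma0 M := by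
  apply mem_Gamma0_of_dvd'
  show (M : ℤ) ∣ (M : ℤ)
  exact dvd_refl _

theorem red2_gU : red2 gU = tEl := by
  apply s2_ext <;> rw [red2_apply] <;> simp [gU, tEl]

theorem red2_gS {M : ℕ} (hM : Odd M) : red2 (gS M) = sEl := by
  have h1 : ((M : ℤ) : ZMod 2) = 1 := by
    rw [Int.cast_natCast]
    exact ZMod.natCast_eq_one_iff_odd.mpr hM
  have h2 : (((M : ℤ) + 1 : ℤ) : ZMod 2) = 0 := by
    rw [Int.cast_add, h1]
    decide
  apply s2_ext <;> rw [red2_apply]
  · simp [gS, sEl]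
  · simp [gS, sEl]
  · show (((M : ℤ)) : ZMod 2) = 1
    exact h1
  · show ((((M : ℤ) + 1 : ℤ)) : ZMod 2) = 0
    exact h2

theorem gS_mem_GC {M : ℕ} (hM : Odd M) : gS M ∈ GC M :=
  ⟨gS_mem M, by
    show red2 (gS M) ∈ C3
    rw [red2_gS hM]
    exact Or.inr (Or.inl rfl)⟩

/-! ## The relations of `S₃` on `Hom(K₂(N), A)` -/

section S3

variable {A : Type*} [AddCommGroup A] {N : ℕ}

/-- The conjugation operator of `g ∈ Γ₀(N)` on `Hom(K₂(N), A)`. -/
def conjN (N : ℕ) (g : SL(2, ℤ)) (hg : g ∈ Gamma0 N) (φ : Additive (K2 N) →+ A) :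
    Additive (K2 N) →+ A :=
  conjS (K2 N) g (K2_normal N g hg) φ

theorem conjN_mul (g g' : SL(2, ℤ)) (hg : g ∈ Gamma0 N) (hg' : g' ∈ Gamma0 N)
    (φ : Additive (K2 N) →+ A) :
    conjN N g hg (conjN N g' hg' φ) = conjN N (g * g') ((Gamma0 N).mul_mem hg hg') φ :=
  conjS_mul (K2 N) g g' _ _ _ φ

theorem conjN_congr (g g' : SL(2, ℤ)) (hg : g ∈ Gamma0 N) (hg' : g' ∈ Gamma0 N)
    (h : red2 g = red2 g') (φ : Additive (K2 N) →+ A) : conjN N g' hg' φ = conjN N g hg φ := by
  apply conjS_congr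
  refine ⟨(Gamma0 N).mul_mem ((Gamma0 N).inv_mem hg) hg', ?_⟩
  show red2 (g⁻¹ * g') = 1
  rw [map_mul, map_inv, h, inv_mul_cancel]

theorem conjN_of_red2 (g : SL(2, ℤ)) (hg : g ∈ Gamma0 N) (h : red2 g = 1)
    (φ : Additive (K2 N) →+ A) : conjN N g hg φ = φ :=
  conjS_of_mem (K2 N) g _ ⟨hg, h⟩ φ

/-- `σ³ = 1`. -/
theorem sigma_cube (hN : Odd N) (φ : Additive (K2 N) →+ A) :
    conjN N (gS N) (gS_mem N) (conjN N (gS N) (gS_mem N) (conjN N (gS N) (gS_mem N) φ)) = φ := by
  rw [conjN_mul, conjN_mul]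
  apply conjN_of_red2
  rw [map_mul, map_mul, red2_gS hN]
  decide

/-- `u² = 1`. -/
theorem u_sq (φ : Additive (K2 N) →+ A) :
    conjN N gU (gU_mem N) (conjN N gU (gU_mem N) φ) = φ := by
  rw [conjN_mul]
  apply conjN_of_red2
  rw [map_mul, red2_gU]
  decide

/-- `u σ u = σ²`. -/
theorem u_sigma_u (hN : Odd N) (φ : Additive (K2 N) →+ A) :
    conjN N gU (gU_mem N) (conjN N (gS N) (gS_mem N) (conjN N gU (gU_mem N) φ)) =
      conjN N (gS N) (gS_mem N) (conjN N (gS N) (gS_mem N) φ) := by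
  rw [conjN_mul, conjN_mul, conjN_mul]
  apply conjN_congr
  rw [map_mul, map_mul, map_mul, red2_gS hN, red2_gU]
  decide

end S3

/-! ## (Ell) for `Γ_C(M)` -/

/-- `x² + x + 1` has no root modulo a prime `r ≡ 2 mod 3`. -/
theorem no_root_of_mod_three {r : ℕ} [Fact r.Prime] (hr : r % 3 = 2) (x : ZMod r) :
    x ^ 2 + x + 1 ≠ 0 := by
  intro h
  have h3 : x ^ 3 = 1 := by linear_combination (x - 1) * h
  have hx0 : x ≠ 0 := by
    rintro rfl
    simp at h3
  have hx1 : x ≠ 1 := by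
    rintro rfl
    have h4 : ((3 : ℕ) : ZMod r) = 0 := by
      push_cast
      linear_combination h
    rw [ZMod.natCast_eq_zero_iff] at h4
    have := Nat.le_of_dvd (by norm_num) h4
    have hr2 := (Fact.out : r.Prime).two_le
    interval_cases r <;> omega
  have ho : orderOf x = 3 := orderOf_eq_prime h3 hx1
  have h5 : x ^ (r - 1) = 1 := ZMod.pow_card_sub_one_eq_one hx0
  have h6 := orderOf_dvd_of_pow_eq_one h5
  rw [ho] at h6
  have hr2 := (Fact.out : r.Prime).two_le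
  omega

open Fermat.Agent.S41.H952 in
/-- **(Ell)**: if a prime `r ≡ 2 mod 3` divides `M`, every element of finite order of `Γ_C(M)` is
congruent to `1` modulo `2`. -/
theorem ell_GC {M r : ℕ} [Fact r.Prime] (hr : r % 3 = 2) (hrM : r ∣ M) (g : SL(2, ℤ))
    (hg : g ∈ GC M) (hfin : IsOfFinOrder g) : red2 g = 1 := by
  have hb := abs_tr2_le_two hfin
  rw [abs_le] at hb
  have hc := cayley g
  have hcases : tr2 g = 2 ∨ tr2 g = -2 ∨ tr2 g = 0 ∨ tr2 g = 1 ∨ tr2 g = -1 := by omega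
  have hrc : (r : ℤ) ∣ g 1 0 := (Int.natCast_dvd_natCast.mpr hrM).trans (dvd_of_mem_Gamma0' hg.1)
  have hc10 : ((g 1 0 : ℤ) : ZMod r) = 0 := (ZMod.intCast_zmod_eq_zero_iff_dvd _ _).mpr hrc
  have e11 := congrFun (congrFun hc 1) 1
  simp only [Matrix.mul_apply, Fin.sum_univ_two, Matrix.sub_apply, Matrix.smul_apply,
    Matrix.one_apply_eq, smul_eq_mul] at e11
  rcases hcases with ht | ht | ht | ht | ht
  · rw [eq_one_of_tr2_eq_two hfin ht, map_one]
  · have h1 : -g = 1 := eq_one_of_tr2_eq_two (isOfFinOrder_neg hfin) (by rw [tr2_neg, ht]; norm_num)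
    have h2 : g = -1 := by rw [← h1, neg_neg]
    rw [h2]
    decide
  · -- `g² = -1`
    apply C3_sq_eq_one _ hg.2
    rw [← map_mul]
    have h2 : g * g = -1 := by
      apply Subtype.ext
      rw [Matrix.SpecialLinearGroup.coe_mul]
      show g.1 * g.1 = _
      rw [hc, ht, zero_smul, zero_sub]
      rfl
    rw [h2]
    decide
  · exfalso
    rw [ht, one_mul] at e11
    have e := congrArg (Int.cast : ℤ → ZMod r) e11
    push_cast at e
    have hc10' : ((g.1 1 0 : ℤ) : ZMod r) = 0 := hc10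
    rw [hc10', zero_mul, zero_add] at e
    apply no_root_of_mod_three hr (-((g.1 1 1 : ℤ) : ZMod r))
    linear_combination e
  · exfalso
    rw [ht] at e11
    have e := congrArg (Int.cast : ℤ → ZMod r) e11
    push_cast at e
    have hc10' : ((g.1 1 0 : ℤ) : ZMod r) = 0 := hc10
    rw [hc10', zero_mul, zero_add] at e
    apply no_root_of_mod_three hr (((g.1 1 1 : ℤ) : ZMod r))
    linear_combination e

end Fermat.Agent.S59.H316

end
-- ===== PACK-END S59/H316/Groups.lean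

-- ===== PACK-BEGIN S59/H826/Bridge2.lean
section
/-
Row S59, cell LO, leaf LO-SQ at `(p, q) = (3, 2)` — SOFT route, the bridge
`Γ₀(4N) ≅ Γ(2) ∩ Γ₀(N)` (helper826, on the definitions of helper316).

For `N` odd, conjugation by `δ = diag(2, 1)` is an isomorphism `c : Γ₀(N·2·2) ≃* K₂(N)`
(`S41.Spec.conjDelta (N * 2) 2`, corestricted), and for every odd prime `ℓ ∤ N`
  `TO ℓ (K₂ N) (φ ∘ c⁻¹) = (T_ℓ φ) ∘ c⁻¹`     (`inp826_hecke`)
(the conjugates `δ ρ δ⁻¹` of the odd representatives of `T_ℓ` are `K₂(N)`-translates of the odd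
representatives).  Consequently the operators `TO ℓ (K₂ N)` commute (`TO_K2_comm826`).
These are the fields `inp`, `inp_inj`, `hinp`, `hTT` of `Frame32`.
-/




set_option autoImplicit false
set_option linter.style.haveILetI false
set_option linter.unusedSectionVars false

namespace Fermat.Agent.S59.H826

open CongruenceSubgroup Matrix.SpecialLinearGroup
open Fermat.Agent.S41.Spec Fermat.Agent.S29.H642 Fermat.Agent.S41.H761
open Fermat.Agent.S59.TW.H653 Fermat.Agent.S59.H316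
open ModularForm
open scoped MatrixGroups

/-! ## Pull-back of a coset system along an isomorphism -/

section Pull

variable {𝒢 Γ Δ : Type*} [Group 𝒢] [Group Γ] [Group Δ] {I : Type*} {ι : Γ →* 𝒢} {ρ : I → 𝒢}

theorem comap_isCosetSystem826 (h : IsCosetSystem ι ι ρ) (f : Δ ≃* Γ) :
    IsCosetSystem (ι.comp f.toMonoidHom) (ι.comp f.toMonoidHom) ρ where
  inj := h.inj.comp f.injective
  exists_mul := by
    intro i d
    obtain ⟨j, g, e⟩ := h.exists_mul i (f d)
    refine ⟨j, f.symm g, ?_⟩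
    simpa using e
  eq_of_mul := fun i j d e => h.eq_of_mul i j (f d) e

theorem comap_coc826 (h : IsCosetSystem ι ι ρ) (f : Δ ≃* Γ) (i : I) (d : Δ) :
    (comap_isCosetSystem826 h f).coc i d = f.symm (h.coc i (f d)) := by
  apply (comap_isCosetSystem826 h f).coc_eq (j := h.act i (f d))
  simpa using h.spec i (f d)

theorem comap_transfer826 [Fintype I] {A : Type*} [AddCommGroup A] (h : IsCosetSystem ι ι ρ)
    (f : Δ ≃* Γ) (φ : Additive Δ →+ A) (d : Δ) :
    (comap_isCosetSystem826 h f).transfer φ (Additive.ofMul d) =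
      h.transfer (φ.comp (MonoidHom.toAdditive f.symm.toMonoidHom)) (Additive.ofMul (f d)) := by
  rw [IsCosetSystem.transfer_apply, IsCosetSystem.transfer_apply]
  refine Finset.sum_congr rfl fun i _ => ?_
  rw [comap_coc826 h f]
  rfl

end Pull

/-! ## The isomorphism `c : Γ₀(N·2·2) ≃* K₂(N)` -/

section Iso

variable {N : ℕ}

theorem conjDelta_mem_K2_826 (γ : Gamma0 (N * 2 * 2)) :
    ((conjDelta (N * 2) 2 γ : Gamma0 (N * 2)) : SL(2, ℤ)) ∈ K2 N := by
  have hmem := (conjDelta (N * 2) 2 γ).2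
  rw [K2_iff_Gamma0_two _ hmem]
  rcases red2_Gamma0_two hmem with h | h
  · exact h
  · exfalso
    have h01 : (red2 ((conjDelta (N * 2) 2 γ : Gamma0 (N * 2)) : SL(2, ℤ))) 0 1 = 0 := by
      rw [red2_apply]
      refine (ZMod.intCast_zmod_eq_zero_iff_dvd _ _).mpr ?_
      show ((2 : ℕ) : ℤ) ∣ conjDeltaMatrix 2 (γ : SL(2, ℤ)) 0 1
      simp [conjDeltaMatrix]
    rw [h] at h01
    revert h01
    decide

/-- `c : Γ₀(N·2·2) →* K₂(N)`, `[[a, b], [c, d]] ↦ [[a, 2b], [c/2, d]]`. -/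
def c826 (N : ℕ) : Gamma0 (N * 2 * 2) →* K2 N :=
  ((Gamma0 (N * 2)).subtype.comp (conjDelta (N * 2) 2)).codRestrict (K2 N) conjDelta_mem_K2_826

theorem c826_coe (γ : Gamma0 (N * 2 * 2)) :
    ((c826 N γ : K2 N) : SL(2, ℤ)) = ((conjDelta (N * 2) 2 γ : Gamma0 (N * 2)) : SL(2, ℤ)) := rfl

theorem c826_bijective (hN : Odd N) : Function.Bijective (c826 N) := by
  constructor
  · intro γ γ' h
    apply Fermat.Agent.S41.H105.conjDelta_injective (N * 2) (by norm_num : (2 : ℕ) ≠ 0)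
    apply Subtype.ext
    have := congrArg (fun k : K2 N => (k : SL(2, ℤ))) h
    exact this
  · intro k
    have hk2 : (k : SL(2, ℤ)) ∈ Gamma0 (N * 2) := K2_le_Gamma0_two hN k.2
    have h01 : ((2 : ℕ) : ℤ) ∣ (k : SL(2, ℤ)) 0 1 := by
      have hk1 : red2 (k : SL(2, ℤ)) = 1 := (mem_K2.mp k.2).2
      have h1 : (red2 (k : SL(2, ℤ))) 0 1 = 0 := by rw [hk1]; rfl
      rw [red2_apply] at h1
      exact (ZMod.intCast_zmod_eq_zero_iff_dvd _ _).mp h1
    obtain ⟨γ, hγ⟩ := (Fermat.Agent.S41.H105.mem_range_conjDelta_iff (N * 2)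
      (by norm_num : (2 : ℕ) ≠ 0) ⟨(k : SL(2, ℤ)), hk2⟩).mpr h01
    refine ⟨γ, ?_⟩
    apply Subtype.ext
    rw [c826_coe, hγ]

/-- The isomorphism `Γ₀(N·2·2) ≃* K₂(N)`. -/
noncomputable def e826 (hN : Odd N) : Gamma0 (N * 2 * 2) ≃* K2 N :=
  MulEquiv.ofBijective (c826 N) (c826_bijective hN)

theorem e826_apply (hN : Odd N) (γ : Gamma0 (N * 2 * 2)) : e826 hN γ = c826 N γ := rfl

/-- `δ ι(γ) = ι(c γ) δ`. -/
theorem diag_rel826 (γ : Gamma0 (N * 2 * 2)) :
    heckeDiagMatrix 2 * ιN (N * 2 * 2) γ = ιK (K2 N) (c826 N γ) * heckeDiagMatrix 2 :=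
  diag_rel (N := N * 2) (q := 2) (by norm_num) γ

end Iso

/-! ## Conjugation of the odd representatives by `δ = diag(2, 1)` -/

section Reps

variable {ℓ : ℕ} [Fact ℓ.Prime] {N : ℕ}

/-- The translation by an even `s`, as an element of `K₂(N)`. -/
noncomputable def translK826 (N : ℕ) (s : ℤ) (hs : (2 : ℤ) ∣ s) : K2 N :=
  ⟨(transl N s : SL(2, ℤ)), by
    refine ⟨(transl N s).2, ?_⟩
    obtain ⟨e00, e01, e10, e11⟩ := mkGamma0_apply N 1 s 0 1 (by ring) (dvd_zero _)
    have h1 : red2 ((transl N s : Gamma0 N) : SL(2, ℤ)) = red2 1 := by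
      rw [red2_eq_iff]
      intro i j
      fin_cases i <;> fin_cases j
      · show (2 : ℤ) ∣ ((transl N s : Gamma0 N) : SL(2, ℤ)) 0 0 - (1 : SL(2, ℤ)) 0 0
        unfold transl
        rw [e00]
        simp
      · show (2 : ℤ) ∣ ((transl N s : Gamma0 N) : SL(2, ℤ)) 0 1 - (1 : SL(2, ℤ)) 0 1
        unfold transl
        rw [e01]
        simpa using hs
      · show (2 : ℤ) ∣ ((transl N s : Gamma0 N) : SL(2, ℤ)) 1 0 - (1 : SL(2, ℤ)) 1 0
        unfold transl
        rw [e10]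
        simp
      · show (2 : ℤ) ∣ ((transl N s : Gamma0 N) : SL(2, ℤ)) 1 1 - (1 : SL(2, ℤ)) 1 1
        unfold transl
        rw [e11]
        simp
    rw [map_one] at h1
    exact h1⟩

theorem coe_translK826 (N : ℕ) (s : ℤ) (hs : (2 : ℤ) ∣ s) :
    (ιK (K2 N) (translK826 N s hs) : Matrix (Fin 2) (Fin 2) ℝ) = !![(1 : ℝ), (s : ℝ); 0, 1] :=
  coe_transl (M := N) s

/-- `δ ρ δ⁻¹` is a `K₂(N)`-translate of an odd representative. -/
theorem diag_conj_oddRep826 (hodd : Odd ℓ) (x : OnePoint (ZMod ℓ)) :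
    ∃ (y : OnePoint (ZMod ℓ)) (g : K2 N),
      heckeDiagMatrix 2 * oddRep ℓ x * (heckeDiagMatrix 2)⁻¹ = ιK (K2 N) g * oddRep ℓ y := by
  have hℓ0 : ℓ ≠ 0 := (Fact.out : ℓ.Prime).ne_zero
  haveI : NeZero ℓ := ⟨hℓ0⟩
  induction x using OnePoint.rec with
  | infty =>
    refine ⟨OnePoint.infty, 1, ?_⟩
    rw [map_one, one_mul, mul_inv_eq_iff_eq_mul]
    apply gl_ext <;>
      simp only [coe_mul_apply, coe_oddRep_infty, val_heckeDiagMatrix (by norm_num : (2 : ℕ) ≠ 0),
        Matrix.of_apply, Matrix.cons_val', Matrix.cons_val_zero, Matrix.cons_val_one,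
        Matrix.cons_val_fin_one] <;>
      ring
  | coe j =>
    set t₀ : ℤ := (j.val : ℤ) + oddShift ℓ j * (ℓ : ℤ) with ht₀
    set j' : ZMod ℓ := ((2 * t₀ : ℤ) : ZMod ℓ) with hj'
    set t₁ : ℤ := (j'.val : ℤ) + oddShift ℓ j' * (ℓ : ℤ) with ht₁
    have h1 : ((ℓ : ℕ) : ℤ) ∣ 2 * t₀ - t₁ := by
      rw [← ZMod.intCast_eq_intCast_iff_dvd_sub, ht₁]
      push_cast
      rw [ZMod.natCast_self, mul_zero, add_zero, ZMod.natCast_zmod_val, hj']
      push_cast
      rfl
    obtain ⟨s, hs⟩ := h1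
    have hs2 : (2 : ℤ) ∣ s := by
      have he1 : (2 : ℤ) ∣ t₁ := oddShift_spec hodd j'
      have he2 : (2 : ℤ) ∣ (ℓ : ℤ) * s := by
        rw [← hs]
        exact dvd_sub (dvd_mul_right 2 t₀) he1
      have hcop : IsCoprime (2 : ℤ) (ℓ : ℤ) := by
        obtain ⟨m, hm⟩ := hodd
        exact ⟨-(m : ℤ), 1, by rw [hm]; push_cast; ring⟩
      exact hcop.dvd_of_dvd_mul_left he2
    refine ⟨(j' : OnePoint (ZMod ℓ)), translK826 N s hs2, ?_⟩
    rw [mul_inv_eq_iff_eq_mul]
    have hsR : (2 : ℝ) * (t₀ : ℝ) - (t₁ : ℝ) = (ℓ : ℝ) * (s : ℝ) := by exact_mod_cast hs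
    have ht₀R : (t₀ : ℝ) = (j.val : ℝ) + (oddShift ℓ j : ℝ) * (ℓ : ℝ) := by
      rw [ht₀]; push_cast; ring
    have ht₁R : (t₁ : ℝ) = (j'.val : ℝ) + (oddShift ℓ j' : ℝ) * (ℓ : ℝ) := by
      rw [ht₁]; push_cast; ring
    apply gl_ext <;>
      simp only [coe_mul_apply, coe_oddRep_coe, coe_translK826,
        val_heckeDiagMatrix (by norm_num : (2 : ℕ) ≠ 0),
        Matrix.of_apply, Matrix.cons_val', Matrix.cons_val_zero, Matrix.cons_val_one,
        Matrix.cons_val_fin_one]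
    · ring
    · rw [← ht₀R, ← ht₁R]
      linear_combination hsR
    · ring
    · ring

end Reps

/-! ## The bridge -/

section Bridge

variable {ℓ : ℕ} [Fact ℓ.Prime] {N : ℕ} {A : Type*} [AddCommGroup A]

theorem oddSys_K2_826 (hl : ¬ ℓ ∣ N) (hodd : Odd ℓ) : OddSys ℓ (K2 N) :=
  (oddSys_Gamma0 hl).restrict hodd (K2_le_Gamma0 N)
    (fun g hg k hk h => ⟨hg, by
      have hk1 : red2 k = 1 := (mem_K2.mp hk).2
      show red2 g = 1
      rw [h, hk1]⟩)

/-- `inp : Hom(Γ₀(N·2·2), A) → Hom(K₂(N), A)`, `φ ↦ φ ∘ c⁻¹`. -/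
noncomputable def inp826 (hN : Odd N) (A : Type*) [AddCommGroup A] :
    (Additive (Gamma0 (N * 2 * 2)) →+ A) →+ (Additive (K2 N) →+ A) where
  toFun φ := φ.comp (MonoidHom.toAdditive (e826 hN).symm.toMonoidHom)
  map_zero' := rfl
  map_add' _ _ := rfl

theorem inp826_apply (hN : Odd N) (φ : Additive (Gamma0 (N * 2 * 2)) →+ A) (k : K2 N) :
    inp826 hN A φ (Additive.ofMul k) = φ (Additive.ofMul ((e826 hN).symm k)) := rfl

theorem inp826_injective (hN : Odd N) : Function.Injective (inp826 hN A) := by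
  intro φ ψ h
  refine AddMonoidHom.ext fun γ' => ?_
  obtain ⟨γ, rfl⟩ : ∃ γ : Gamma0 (N * 2 * 2), Additive.ofMul γ = γ' := ⟨Additive.toMul γ', rfl⟩
  have := congrArg (fun f : Additive (K2 N) →+ A => f (Additive.ofMul (e826 hN γ))) h
  simpa [inp826_apply] using this

theorem inp826_surjective (hN : Odd N) : Function.Surjective (inp826 hN A) := by
  intro x
  refine ⟨x.comp (MonoidHom.toAdditive (e826 hN).toMonoidHom), ?_⟩
  refine AddMonoidHom.ext fun k' => ?_
  obtain ⟨k, rfl⟩ : ∃ k : K2 N, Additive.ofMul k = k' := ⟨Additive.toMul k', rfl⟩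
  rw [inp826_apply]
  show x (Additive.ofMul ((e826 hN) ((e826 hN).symm k))) = _
  rw [MulEquiv.apply_symm_apply]

/-- **The bridge**: `inp` intertwines `T_ℓ` at level `N·2·2` with `TO ℓ (K₂ N)`. -/
theorem inp826_hecke (hN : Odd N) (hl4 : ¬ ℓ ∣ N * 2 * 2)
    (φ : Additive (Gamma0 (N * 2 * 2)) →+ A) :
    inp826 hN A (heckeTransfer hl4 φ) = TO ℓ (K2 N) (inp826 hN A φ) := by
  have hl : ¬ ℓ ∣ N := fun h => hl4 (Dvd.dvd.mul_right (Dvd.dvd.mul_right h 2) 2)
  have hℓ2 : ℓ ≠ 2 := by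
    rintro rfl
    exact hl4 (Dvd.intro_left _ rfl)
  have hodd : Odd ℓ := (Fact.out : ℓ.Prime).odd_of_ne_two hℓ2
  have hB : IsCosetSystem (ιN (N * 2 * 2)) (ιN (N * 2 * 2)) (oddRep ℓ) := oddSystem hl4
  have hB' := comap_isCosetSystem826 hB (e826 hN).symm
  have hκ : ∀ k : K2 N, heckeDiagMatrix 2 *
      ((ιN (N * 2 * 2)).comp (e826 hN).symm.toMonoidHom) k = ιK (K2 N) k * heckeDiagMatrix 2 := by
    intro k
    have h := diag_rel826 ((e826 hN).symm k)
    rw [← e826_apply hN, MulEquiv.apply_symm_apply] at h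
    exact h
  have hB'' := hB'.conj (heckeDiagMatrix 2) hκ hκ
  have hA : OddSys ℓ (K2 N) := oddSys_K2_826 hl hodd
  have h1 : hB''.transfer (inp826 hN A φ) = IsCosetSystem.transfer hA (inp826 hN A φ) :=
    IsCosetSystem.transfer_eq_of_le_of_card hB'' hA rfl
      (fun i => diag_conj_oddRep826 hodd i) (inp826 hN A φ)
  have h2 : hB''.transfer (inp826 hN A φ) = hB'.transfer (inp826 hN A φ) :=
    IsCosetSystem.conj_transfer hB' (heckeDiagMatrix 2) hκ hκ (inp826 hN A φ)
  rw [TO_eq hA, ← h1, h2]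
  refine AddMonoidHom.ext fun k' => ?_
  obtain ⟨k, rfl⟩ : ∃ k : K2 N, Additive.ofMul k = k' := ⟨Additive.toMul k', rfl⟩
  have hcomp : (inp826 hN A φ).comp (MonoidHom.toAdditive (e826 hN).symm.symm.toMonoidHom)
      = φ := by
    refine AddMonoidHom.ext fun γ' => ?_
    obtain ⟨γ, rfl⟩ : ∃ γ : Gamma0 (N * 2 * 2), Additive.ofMul γ = γ' :=
      ⟨Additive.toMul γ', rfl⟩
    show φ (Additive.ofMul ((e826 hN).symm ((e826 hN).symm.symm γ))) = φ (Additive.ofMul γ)
    rw [MulEquiv.symm_symm, MulEquiv.symm_apply_apply]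
  rw [comap_transfer826 hB (e826 hN).symm (inp826 hN A φ) k, hcomp, inp826_apply,
    ← oddSystem_transfer hl4 φ]

/-- The operators `TO ℓ (K₂ N)` commute (`N` odd, `ℓ, ℓ'` odd primes not dividing `N`). -/
theorem TO_K2_comm826 (hN : Odd N) {ℓ' : ℕ} [Fact ℓ'.Prime] (hl : ¬ ℓ ∣ N * 2 * 2)
    (hl' : ¬ ℓ' ∣ N * 2 * 2) (x : Additive (K2 N) →+ A) :
    TO ℓ (K2 N) (TO ℓ' (K2 N) x) = TO ℓ' (K2 N) (TO ℓ (K2 N) x) := by
  obtain ⟨φ, rfl⟩ := inp826_surjective hN x
  rw [← inp826_hecke hN hl', ← inp826_hecke hN hl, ← inp826_hecke hN hl, ← inp826_hecke hN hl',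
    Fermat.Agent.S41.H761.heckeComm (N * 2 * 2) ℓ ℓ' hl hl' A φ]

end Bridge

end Fermat.Agent.S59.H826

end
-- ===== PACK-END S59/H826/Bridge2.lean

-- ===== PACK-BEGIN S59/H316/ResCor.lean
section
/-
Row S59, cell LO, leaf LO-SQ at `(p, q) = (3, 2)` — block B-HECKE, part 3 (helper316).

* `res_cor_cyc` : `res ∘ cor = 1 + g₀ + … + g₀^{n-1}` when `G ⧸ K` is cyclic, generated by `g₀`;
* `res_cor_two` (`K₂(N) ≤ Γ₀(2N)`), `res_cor_three` (`K₂(M) ≤ Γ_C(M)`);
* `eisenstein` : `T_ℓ = ℓ + 1` on the classes of `G` which are trivial on `K = G ∩ Γ(2)`;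
* `isTorsionTrivial_K2` : classes on `K₂(M)` with values in a group without `2`-torsion vanish
  on the elements of finite order;
* `kerCor_K2` : `MFree.H761.kerCor` transported to `K₂(M) ≤ Γ_C(M)`;
* `key_lemma` : a `σ`-fixed non-Eisenstein eigenclass of `Hom(K₂(M), k)`, `char k = 3`,
  `r ∣ M` for a prime `r ≡ 2 mod 3`, lies in `(σ - 1) Hom(K₂(M), k)`.
-/



set_option autoImplicit false
set_option linter.unusedSectionVars false

namespace Fermat.Agent.S59.H316

open CongruenceSubgroup Matrix.SpecialLinearGroup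
open Fermat.Agent.S41.Spec Fermat.Agent.S29.H642 Fermat.Agent.S41.H761
open Fermat.Agent.S59.MFree Fermat.Agent.S59.MFree.H587 Fermat.Agent.S59.TW.H653
open scoped MatrixGroups

universe u

section Cyc

variable {A : Type*} [AddCommGroup A]
variable {G K : Subgroup SL(2, ℤ)} (hKG : K ≤ G) (hK : ∀ g ∈ G, (g ∈ K ↔ red2 g = 1))

/-- The conjugation operator of `g ∈ G` on `Hom(K, A)`, `K = G ∩ Γ(2)`. -/
def conjT (g : G) (ψ : Additive K →+ A) : Additive K →+ A :=
  conjS K (g : SL(2, ℤ)) (normal_of_red2 hKG hK _ g.2) ψ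

theorem conjT_congr {g g' : G} (h : red2 (g : SL(2, ℤ)) = red2 (g' : SL(2, ℤ)))
    (ψ : Additive K →+ A) : conjT hKG hK g' ψ = conjT hKG hK g ψ := by
  apply conjS_congr
  rw [hK _ (G.mul_mem (G.inv_mem g.2) g'.2), map_mul, map_inv, h, inv_mul_cancel]

theorem conjT_one (ψ : Additive K →+ A) : conjT hKG hK 1 ψ = ψ :=
  conjS_of_mem K _ _ K.one_mem ψ

theorem conjT_mul (g g' : G) (ψ : Additive K →+ A) :
    conjT hKG hK g (conjT hKG hK g' ψ) = conjT hKG hK (g * g') ψ :=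
  conjS_mul K _ _ _ _ _ ψ

theorem conjT_add (g : G) (φ ψ : Additive K →+ A) :
    conjT hKG hK g (φ + ψ) = conjT hKG hK g φ + conjT hKG hK g ψ := conjS_add _ _ _ _ _

theorem conjT_sub (g : G) (φ ψ : Additive K →+ A) :
    conjT hKG hK g (φ - ψ) = conjT hKG hK g φ - conjT hKG hK g ψ := conjS_sub _ _ _ _ _

theorem conjT_zero (g : G) : conjT hKG hK g (0 : Additive K →+ A) = 0 := by
  have h := conjT_sub hKG hK g (0 : Additive K →+ A) 0
  rwa [sub_self, sub_self] at h

theorem conjT_neg (g : G) (φ : Additive K →+ A) :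
    conjT hKG hK g (-φ) = - conjT hKG hK g φ := by
  have h := conjT_sub hKG hK g 0 φ
  rwa [zero_sub, conjT_zero, zero_sub] at h

include hK in
/-- The bijection `Fin n ≃ G ⧸ K`, `i ↦ g₀ ^ i`, when the image of `G` modulo `2` is cyclic of
order `n`, generated by the image of `g₀`. -/
theorem cyc_bijective (γ : G) (n : ℕ)
    (himg : ∀ g ∈ G, ∃ i < n, red2 g = red2 (γ : SL(2, ℤ)) ^ i)
    (hinj : ∀ i < n, ∀ j < n, red2 (γ : SL(2, ℤ)) ^ i = red2 (γ : SL(2, ℤ)) ^ j → i = j) :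
    Function.Bijective
      (fun i : Fin n => ((γ ^ (i : ℕ) : G) : G ⧸ (Subgroup.inclusion hKG).range)) := by
  have hR : ∀ g : G, g ∈ (Subgroup.inclusion hKG).range ↔ red2 (g : SL(2, ℤ)) = 1 :=
    mem_range_inclusion_red2 hKG hK
  constructor
  · intro i j hij
    have h1 := QuotientGroup.eq.mp hij
    rw [hR] at h1
    simp only [Subgroup.coe_mul, Subgroup.coe_inv, Subgroup.coe_pow, map_mul, map_inv,
      map_pow] at h1
    have h2 : red2 (γ : SL(2, ℤ)) ^ (i : ℕ) = red2 (γ : SL(2, ℤ)) ^ (j : ℕ) :=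
      inv_mul_eq_one.mp h1
    exact Fin.ext (hinj _ i.2 _ j.2 h2)
  · intro q
    induction q using QuotientGroup.induction_on with
    | H g =>
      obtain ⟨i, hi, h⟩ := himg g g.2
      refine ⟨⟨i, hi⟩, ?_⟩
      apply QuotientGroup.eq.mpr
      rw [hR]
      simp only [Subgroup.coe_mul, Subgroup.coe_inv, Subgroup.coe_pow, map_mul, map_inv,
        map_pow]
      rw [h, inv_mul_cancel]

include hK in
theorem finiteIndex_of_cyc (γ : G) (n : ℕ)
    (himg : ∀ g ∈ G, ∃ i < n, red2 g = red2 (γ : SL(2, ℤ)) ^ i)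
    (hinj : ∀ i < n, ∀ j < n, red2 (γ : SL(2, ℤ)) ^ i = red2 (γ : SL(2, ℤ)) ^ j → i = j) :
    (Subgroup.inclusion hKG).range.FiniteIndex := by
  have hfin : Finite (G ⧸ (Subgroup.inclusion hKG).range) :=
    Finite.of_equiv _ (Equiv.ofBijective _ (cyc_bijective hKG hK γ n himg hinj))
  exact Subgroup.finiteIndex_of_finite_quotient

/-- **`res ∘ cor = ∑_{i < n} g₀^i`** when `G ⧸ K` is cyclic of order `n`, generated by `g₀`. -/
theorem res_cor_cyc (γ : G) (n : ℕ)
    (himg : ∀ g ∈ G, ∃ i < n, red2 g = red2 (γ : SL(2, ℤ)) ^ i)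
    (hinj : ∀ i < n, ∀ j < n, red2 (γ : SL(2, ℤ)) ^ i = red2 (γ : SL(2, ℤ)) ^ j → i = j)
    (ψ : Additive K →+ A) :
    resK hKG (coresK hKG ψ) = ∑ i ∈ Finset.range n, conjT hKG hK (γ ^ i) ψ := by
  classical
  have hbij := cyc_bijective hKG hK γ n himg hinj
  let E : Fin n ≃ G ⧸ (Subgroup.inclusion hKG).range := Equiv.ofBijective _ hbij
  letI : Fintype (G ⧸ (Subgroup.inclusion hKG).range) := Fintype.ofEquiv _ E
  haveI : (Subgroup.inclusion hKG).range.FiniteIndex := finiteIndex_of_cyc hKG hK γ n himg hinj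
  have hR : ∀ g : G, g ∈ (Subgroup.inclusion hKG).range ↔ red2 (g : SL(2, ℤ)) = 1 :=
    mem_range_inclusion_red2 hKG hK
  rw [res_cor hKG (normal_of_red2 hKG hK) ψ]
  have e1 : ∀ q : G ⧸ (Subgroup.inclusion hKG).range,
      conjS K ((q.out : G) : SL(2, ℤ)) (normal_of_red2 hKG hK _ q.out.2) ψ =
        conjT hKG hK q.out ψ := fun _ => rfl
  simp only [e1]
  rw [← Equiv.sum_comp E (fun q => conjT hKG hK q.out ψ),
    ← Fin.sum_univ_eq_sum_range (fun i => conjT hKG hK (γ ^ i) ψ) n]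
  refine Finset.sum_congr rfl fun i _ => ?_
  apply conjT_congr
  have h1 : ((E i).out : G ⧸ (Subgroup.inclusion hKG).range) = ((γ ^ (i : ℕ) : G) : _) :=
    QuotientGroup.out_eq' _
  have h2 := QuotientGroup.eq.mp h1
  rw [hR] at h2
  simp only [Subgroup.coe_mul, Subgroup.coe_inv, map_mul, map_inv] at h2
  exact (inv_mul_eq_one.mp h2).symm

end Cyc

/-! ## The two concrete cases -/

section Concrete

variable {A : Type*} [AddCommGroup A]

theorem img_two {N : ℕ} : ∀ g ∈ Gamma0 (N * 2), ∃ i < 2, red2 g = red2 gU ^ i := by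
  intro g hg
  rcases red2_Gamma0_two hg with h | h
  · exact ⟨0, by norm_num, by rw [h, pow_zero]⟩
  · exact ⟨1, by norm_num, by rw [h, pow_one, red2_gU]⟩

theorem inj_two : ∀ i < 2, ∀ j < 2, red2 gU ^ i = red2 gU ^ j → i = j := by
  rw [red2_gU]
  intro i hi j hj
  interval_cases i <;> interval_cases j <;> decide

theorem img_three {M : ℕ} (hM : Odd M) : ∀ g ∈ GC M, ∃ i < 3, red2 g = red2 (gS M) ^ i := by
  intro g hg
  rw [red2_gS hM]
  rcases hg.2 with h | h | h
  · exact ⟨0, by norm_num, by rw [pow_zero]; exact h⟩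
  · exact ⟨1, by norm_num, by rw [pow_one]; exact h⟩
  · exact ⟨2, by norm_num, by rw [pow_two]; exact h⟩

theorem inj_three {M : ℕ} (hM : Odd M) :
    ∀ i < 3, ∀ j < 3, red2 (gS M) ^ i = red2 (gS M) ^ j → i = j := by
  rw [red2_gS hM]
  intro i hi j hj
  interval_cases i <;> interval_cases j <;> decide

theorem finiteIndex_two {N : ℕ} (hN : Odd N) :
    (Subgroup.inclusion (K2_le_Gamma0_two hN)).range.FiniteIndex :=
  finiteIndex_of_cyc (K2_le_Gamma0_two hN) K2_iff_Gamma0_two ⟨gU, gU_mem _⟩ 2 img_two inj_two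

theorem finiteIndex_three {M : ℕ} (hM : Odd M) :
    (Subgroup.inclusion (K2_le_GC M)).range.FiniteIndex :=
  finiteIndex_of_cyc (K2_le_GC M) (K2_iff_GC M) ⟨gS M, gS_mem_GC hM⟩ 3 (img_three hM)
    (inj_three hM)

/-- `res ∘ cor = 1 + u` for `K₂(N) ≤ Γ₀(2N)`. -/
theorem res_cor_two {N : ℕ} (hN : Odd N) (ψ : Additive (K2 N) →+ A) :
    resK (K2_le_Gamma0_two hN) (coresK (K2_le_Gamma0_two hN) ψ) =
      ψ + conjN N gU (gU_mem N) ψ := by
  rw [res_cor_cyc (K2_le_Gamma0_two hN) K2_iff_Gamma0_two ⟨gU, gU_mem _⟩ 2 img_two inj_two ψ,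
    Finset.sum_range_succ, Finset.sum_range_one, pow_zero, pow_one, conjT_one]
  rfl

/-- `res ∘ cor = 1 + σ + σ²` for `K₂(M) ≤ Γ_C(M)`. -/
theorem res_cor_three {M : ℕ} (hM : Odd M) (ψ : Additive (K2 M) →+ A) :
    resK (K2_le_GC M) (coresK (K2_le_GC M) ψ) =
      ψ + conjN M (gS M) (gS_mem M) ψ +
        conjN M (gS M) (gS_mem M) (conjN M (gS M) (gS_mem M) ψ) := by
  rw [res_cor_cyc (K2_le_GC M) (K2_iff_GC M) ⟨gS M, gS_mem_GC hM⟩ 3 (img_three hM)
    (inj_three hM) ψ, Finset.sum_range_succ, Finset.sum_range_succ, Finset.sum_range_one,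
    pow_zero, pow_one, conjT_one, pow_two, ← conjT_mul]
  rfl

end Concrete

end Fermat.Agent.S59.H316

end
-- ===== PACK-END S59/H316/ResCor.lean

-- ===== PACK-BEGIN S59/H316/Key.lean
section
/-
Row S59, cell LO, leaf LO-SQ at `(p, q) = (3, 2)` — block B-HECKE, part 4 (helper316).

The KEY step at the auxiliary level, in the vocabulary of `Frame32` (helper826):

* `eq_one_or_neg_one_of_red2` : the elements of finite order of `Γ(2)` are `± 1`;
* `isTorsionTrivial_K2` : the classes of `Hom(K₂(M), 𝔽₃)` vanish on the elements of finite order;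
* `key_generic` : `H826.key826` transported to a subgroup `K = ker κ`, for the operators `TO`, `conjS`;
* `key_K2` : for `M` odd divisible by a prime `r ≡ 2 mod 3`, a `σ`-fixed eigenclass of
  `T_ℓ` on `Hom(K₂(M), 𝔽₃)` with eigenvalue `≠ ℓ + 1` lies in `(σ - 1) Hom(K₂(M), 𝔽₃)`.
-/



set_option autoImplicit false
set_option linter.unusedSectionVars false
set_option linter.style.haveILetI false

namespace Fermat.Agent.S59.H316

open CongruenceSubgroup Matrix.SpecialLinearGroup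
open Fermat.Agent.S41.Spec Fermat.Agent.S29.H642 Fermat.Agent.S41.H761
open Fermat.Agent.S59.MFree Fermat.Agent.S59.MFree.H587 Fermat.Agent.S59.TW.H653
open Fermat.Agent.S59.MFree.H57 Fermat.Agent.S59.MFree.H761
open scoped MatrixGroups

/-! ## Elements of finite order of `Γ(2)` -/

open Fermat.Agent.S41.H952 in
/-- The elements of finite order of `Γ(2)` are `± 1`. -/
theorem eq_one_or_neg_one_of_red2 {g : SL(2, ℤ)} (hg : red2 g = 1) (hfin : IsOfFinOrder g) :
    g = 1 ∨ g = -1 := by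
  have hb := abs_tr2_le_two hfin
  rw [abs_le] at hb
  have hd := det_entries g
  have h00 : (2 : ℤ) ∣ g 0 0 - 1 := by
    have := (red2_eq_iff g 1).mp (by rw [hg, map_one]) 0 0
    simpa using this
  have h01 : (2 : ℤ) ∣ g 0 1 := by
    have := (red2_eq_iff g 1).mp (by rw [hg, map_one]) 0 1
    simpa using this
  have h10 : (2 : ℤ) ∣ g 1 0 := by
    have := (red2_eq_iff g 1).mp (by rw [hg, map_one]) 1 0
    simpa using this
  have h11 : (2 : ℤ) ∣ g 1 1 - 1 := by
    have := (red2_eq_iff g 1).mp (by rw [hg, map_one]) 1 1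
    simpa using this
  obtain ⟨a, ha⟩ := h00
  obtain ⟨b, hb'⟩ := h01
  obtain ⟨c, hc⟩ := h10
  obtain ⟨d, hd'⟩ := h11
  have ea : g.1 0 0 = 1 + 2 * a := by
    have : g 0 0 - 1 = 2 * a := ha
    linarith
  have ed : g.1 1 1 = 1 + 2 * d := by
    have : g 1 1 - 1 = 2 * d := hd'
    linarith
  have eb : g.1 0 1 = 2 * b := hb'
  have ec : g.1 1 0 = 2 * c := hc
  have key : 2 * (a * d) + a + d = 2 * (b * c) := by
    rw [ea, ed, eb, ec] at hd
    linarith
  have htr : tr2 g = 2 + 2 * a + 2 * d := by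
    unfold tr2
    rw [ea, ed]
    ring
  have hcases : tr2 g = 2 ∨ tr2 g = -2 := by omega
  rcases hcases with ht | ht
  · exact Or.inl (eq_one_of_tr2_eq_two hfin ht)
  · right
    have h1 : -g = 1 := eq_one_of_tr2_eq_two (isOfFinOrder_neg hfin) (by rw [tr2_neg, ht]; norm_num)
    rw [← h1, neg_neg]

/-- The classes of `Hom(K, 𝔽₃)`, `K ≤ Γ(2)`, vanish on the elements of finite order. -/
theorem isTorsionTrivial_of_red2 {K : Subgroup SL(2, ℤ)} (hK : ∀ k ∈ K, red2 k = 1)
    (x : Additive K →+ ZMod 3) : IsTorsionTrivial x := by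
  intro γ hγ
  have hfin : IsOfFinOrder (γ : SL(2, ℤ)) := K.subtype.isOfFinOrder hγ
  have h2 : γ * γ = 1 := by
    apply Subtype.ext
    rw [Subgroup.coe_mul, Subgroup.coe_one]
    rcases eq_one_or_neg_one_of_red2 (hK _ γ.2) hfin with h | h
    · rw [h, mul_one]
    · rw [h, neg_mul_neg, mul_one]
  have h3 : x (Additive.ofMul (γ * γ)) = 0 := by
    rw [h2]
    exact map_zero x
  rw [ofMul_mul, map_add] at h3
  have h4 : (2 : ZMod 3) * x (Additive.ofMul γ) = 0 := by
    rw [two_mul]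
    exact h3
  have h5 : (2 : ZMod 3) * 2 = 1 := by decide
  calc x (Additive.ofMul γ) = (2 * 2) * x (Additive.ofMul γ) := by rw [h5, one_mul]
    _ = 2 * (2 * x (Additive.ofMul γ)) := by ring
    _ = 0 := by rw [h4, mul_zero]

theorem isTorsionTrivial_K2 {M : ℕ} (x : Additive (K2 M) →+ ZMod 3) : IsTorsionTrivial x :=
  isTorsionTrivial_of_red2 (K := K2 M) (fun _ hk => hk.2) x

/-! ## The KEY step for a subgroup `K = ker κ` -/

theorem card_onePoint316 (ℓ : ℕ) [Fact ℓ.Prime] : Fintype.card (OnePoint (ZMod ℓ)) = ℓ + 1 := by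
  have h : Fintype.card (OnePoint (ZMod ℓ)) = Fintype.card (Option (ZMod ℓ)) := rfl
  rw [h, Fintype.card_option, ZMod.card]

section Generic

variable {G K : Subgroup SL(2, ℤ)} [G.FiniteIndex] {D : Type} [Group D] [Fintype D] (κ : G →* D)

/-- `H826.key826` for `K = ker κ`, in terms of `TO` and `conjS`. -/
theorem key_generic (hE : kerSub κ = K) (hκ : Function.Surjective κ) (hD : Fintype.card D = 3)
    (hneg : (-1 : SL(2, ℤ)) ∈ K) (hell : ∀ g : G, IsOfFinOrder g → κ g = 1)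
    {ℓ : ℕ} [Fact ℓ.Prime] (h : OddSys ℓ G) (hp : PreservesKappa h κ)
    (x : Additive K →+ ZMod 3) (hxtt : IsTorsionTrivial x)
    (g₀ : G) (hg₀ : κ g₀ ≠ 1) (hnorm : ∀ k ∈ K, (g₀ : SL(2, ℤ))⁻¹ * k * g₀ ∈ K)
    (hfix : conjS K g₀ hnorm x = x) (a : ZMod 3) (hx : TO ℓ K x = a • x)
    (hac : a ≠ (ℓ : ZMod 3) + 1) :
    ∃ w : Additive K →+ ZMod 3, x = conjS K g₀ hnorm w - w := by
  subst hE
  haveI : Fact (Nat.Prime 3) := ⟨by norm_num⟩
  have hsys : OddSys ℓ (kerSub κ) := restrictSystem h hp (Subgroup.inclusion (kerSub_le κ))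
    (Subgroup.inclusion_injective _) (mem_range_inclusion_iff κ)
  have hfix0 : conjAct κ g₀ x = x := hfix
  -- `x` is fixed by all the diamond operators
  have hpow : ∀ n : ℕ, conjAct κ (g₀ ^ n) x = x := by
    intro n
    induction n with
    | zero => rw [pow_zero, conjAct_one]
    | succ n ih => rw [pow_succ, conjAct_mul, hfix0, ih]
  have hgen : ∀ d : D, ∃ n : ℕ, d = κ g₀ ^ n := by
    intro d
    have h1 : d ∈ Subgroup.zpowers (κ g₀) := by
      rw [zpowers_eq_top_of_prime_card (p := 3) (by rw [Nat.card_eq_fintype_card, hD]) hg₀]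
      exact Subgroup.mem_top d
    obtain ⟨n, hn⟩ := (mem_powers_iff_mem_zpowers.mpr h1)
    exact ⟨n, hn.symm⟩
  have hfixall : ∀ g : G, conjAct κ g x = x := by
    intro g
    obtain ⟨n, hn⟩ := hgen (κ g)
    have h2 : conjAct κ g x = conjAct κ (g₀ ^ n) x :=
      conjAct_congr57 κ x (by rw [map_pow, hn])
    rw [h2, hpow]
  have hx' : (restrictSystem h hp (Subgroup.inclusion (kerSub_le κ))
      (Subgroup.inclusion_injective _) (mem_range_inclusion_iff κ)).transfer x = a • x := by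
    rw [← hx]
    exact (TO_eq hsys x).symm
  have hmem := H826.key826 κ hκ hD hneg hell h hp x hxtt hfixall a hx'
    (by rw [card_onePoint316]; push_cast; exact hac)
  exact H826.exists_conj_sub_of_mem_augSub826 κ hD g₀ hg₀ x hmem

end Generic

/-! ## The concrete case `K₂(M) ≤ Γ_C(M)` -/

instance decC3 : DecidablePred (· ∈ C3) := fun x =>
  decidable_of_iff (x = 1 ∨ x = sEl ∨ x = sEl * sEl) mem_C3.symm

theorem card_C3 : Fintype.card C3 = 3 := by decide

theorem finiteIndex_K2 {M : ℕ} (hM : M ≠ 0) : (K2 M).FiniteIndex := by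
  haveI : NeZero M := ⟨hM⟩
  unfold K2
  infer_instance

theorem finiteIndex_GC {M : ℕ} (hM : M ≠ 0) : (GC M).FiniteIndex := by
  haveI := finiteIndex_K2 hM
  exact Subgroup.finiteIndex_of_le (K2_le_GC M)

/-- The reduction modulo `2` on `Γ_C(M)`, with values in `C₃`. -/
def kap (M : ℕ) : GC M →* C3 := (red2.comp (GC M).subtype).codRestrict C3 (fun g => g.2.2)

theorem kap_coe {M : ℕ} (g : GC M) : ((kap M g : C3) : S2) = red2 (g : SL(2, ℤ)) := rfl

theorem kap_eq_one_iff {M : ℕ} (g : GC M) : kap M g = 1 ↔ red2 (g : SL(2, ℤ)) = 1 := by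
  rw [← kap_coe, ← Subgroup.coe_one C3]
  exact Subtype.ext_iff

theorem kerSub_kap (M : ℕ) : kerSub (kap M) = K2 M := by
  ext g
  rw [mem_kerSub, mem_K2]
  constructor
  · rintro ⟨h, hk⟩
    exact ⟨h.1, (kap_eq_one_iff _).mp hk⟩
  · rintro ⟨h1, h2⟩
    exact ⟨K2_le_GC M ⟨h1, h2⟩, (kap_eq_one_iff _).mpr h2⟩

theorem kap_gS {M : ℕ} (hM : Odd M) : kap M ⟨gS M, gS_mem_GC hM⟩ ≠ 1 := by
  rw [Ne, kap_eq_one_iff]
  show ¬ red2 (gS M) = 1
  rw [red2_gS hM]
  decide

theorem kap_surjective {M : ℕ} (hM : Odd M) : Function.Surjective (kap M) := by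
  haveI : Fact (Nat.Prime 3) := ⟨by norm_num⟩
  intro d
  have h1 : d ∈ Subgroup.zpowers (kap M ⟨gS M, gS_mem_GC hM⟩) := by
    rw [zpowers_eq_top_of_prime_card (p := 3) (by rw [Nat.card_eq_fintype_card, card_C3])
      (kap_gS hM)]
    exact Subgroup.mem_top d
  obtain ⟨n, hn⟩ := Subgroup.mem_zpowers_iff.mp h1
  exact ⟨⟨gS M, gS_mem_GC hM⟩ ^ n, by rw [map_zpow, hn]⟩

/-- **KEY** at the auxiliary level: for `M` odd divisible by a prime `r ≡ 2 mod 3`, a `σ`-fixed
eigenclass of `T_ℓ` (`ℓ ∤ 2M`) on `Hom(K₂(M), 𝔽₃)` with eigenvalue `≠ ℓ + 1` lies in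
`(σ - 1) Hom(K₂(M), 𝔽₃)`. -/
theorem key_K2 {M r : ℕ} (hM : Odd M) [Fact r.Prime] (hr : r % 3 = 2) (hrM : r ∣ M)
    {ℓ : ℕ} [Fact ℓ.Prime] (hodd : Odd ℓ) (hl : ¬ ℓ ∣ M)
    (x : Additive (K2 M) →+ ZMod 3) (hfix : conjN M (gS M) (gS_mem M) x = x)
    (a : ZMod 3) (hx : TO ℓ (K2 M) x = a • x) (hac : a ≠ (ℓ : ZMod 3) + 1) :
    ∃ w : Additive (K2 M) →+ ZMod 3, x = conjN M (gS M) (gS_mem M) w - w := by
  have hM0 : M ≠ 0 := by
    rintro rfl
    exact (Nat.not_odd_iff_even.mpr (by decide)) hM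
  haveI := finiteIndex_GC hM0
  have hG0 : OddSys ℓ (Gamma0 M) := oddSys_Gamma0 hl
  have hGC : OddSys ℓ (GC M) := hG0.restrict hodd (GC_le_Gamma0 M) (by
    intro g hg k hk hgk
    exact ⟨hg, by show red2 g ∈ C3; rw [hgk]; exact hk.2⟩)
  have hp : PreservesKappa hGC (kap M) := by
    intro i g
    apply Subtype.ext
    rw [kap_coe, kap_coe]
    exact hGC.red2_coc hodd i g
  exact key_generic (kap M) (kerSub_kap M) (kap_surjective hM) card_C3
    (mem_K2.mpr ⟨by apply mem_Gamma0_of_dvd'; simp, by decide⟩)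
    (fun g hg => (kap_eq_one_iff g).mpr
      (ell_GC hr hrM _ g.2 ((GC M).subtype.isOfFinOrder hg)))
    hGC hp x (isTorsionTrivial_K2 x) ⟨gS M, gS_mem_GC hM⟩ (kap_gS hM)
    (K2_normal M (gS M) (gS_mem M)) hfix a hx hac

end Fermat.Agent.S59.H316

end
-- ===== PACK-END S59/H316/Key.lean

-- ===== PACK-BEGIN S59/LoSqC/H34/NodePureReg.lean
section






/-!
# Row S59, cell (C) LO-SQ, leaf W-COUNT / NODE-J, part 1 (helper34):
# purity at a REGULAR node of a semistable chart, UNIT-FREE, any exponent `m`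

`B` a noetherian normal domain with fraction field `F`, `w ∈ B`, two components `p₁`, `p₂`
(`p₁ ⊓ p₂ = (w)`, incomparable), `f ∈ Fˣ` horizontally `m`-divisible (`I6.HorDivVal`), with
valuations `v₁`, `v₂` along the two components (`I6.ValAt`) and **slope `0` modulo `m`**:
`m ∣ v₂ - v₁`.

* `divisibleDivisor_of_valAt_h34` : `f · w ^ (-v₁)` has an `m`-divisible divisor at EVERY
  height-one prime of `B` (`S18.H754.DivisibleDivisor`);
* `pure_node_of_principal_h34`    : at a closed point `n ⊇ p₁` where `p₁` is LOCALLY PRINCIPAL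
  (the conclusion of `S36.H803.Th1Statement`, thickness one) `f · w ^ (-v₁) · d ^ m` is a unit of
  `B_n` for some `d ∈ Fˣ`.

No modular unit, no unit pair, no coprimality with `12`: this is the purity input at the
supersingular points for `p = 3` as well.  Proof: `S36.H987.pure_regular_abs987` (regular local
ring of dimension two is factorial).
-/

set_option autoImplicit false
set_option linter.style.haveILetI false
set_option linter.unusedSectionVars false
set_option linter.unusedVariables false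

noncomputable section

namespace Fermat.Agent.S59.LoSqC.H34

open Fermat.Agent.Ribet.H704
open Fermat.Agent.S18.H754 (DivisibleDivisor)
open Fermat.Agent.A2.Alg.H754 (LocU locU_iff_of_valuationSubring)

section Abs

variable {B F : Type*} [CommRing B] [IsDomain B] [Field F] [Algebra B F] [IsFractionRing B F]
variable [IsNoetherianRing B] [IsIntegrallyClosed B]

/-- A vertical height-one prime is one of the two components. -/
theorem eq_component_of_height_one_h34 {w : B} (hw0 : w ≠ 0) (p₁ p₂ : Ideal B)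
    [hp₁ : p₁.IsPrime] [hp₂ : p₂.IsPrime] (hinf : p₁ ⊓ p₂ = Ideal.span {w})
    (𝔭 : Ideal B) [h𝔭 : 𝔭.IsPrime] (hht : 𝔭.height = 1) (hw𝔭 : w ∈ 𝔭) :
    𝔭 = p₁ ∨ 𝔭 = p₂ := by
  have hw₁ : w ∈ p₁ := by
    have : w ∈ p₁ ⊓ p₂ := hinf ▸ Ideal.mem_span_singleton_self w
    exact this.1
  have hw₂ : w ∈ p₂ := by
    have : w ∈ p₁ ⊓ p₂ := hinf ▸ Ideal.mem_span_singleton_self w
    exact this.2
  have hle : p₁ * p₂ ≤ 𝔭 := by
    refine le_trans Ideal.mul_le_inf ?_
    rw [hinf, Ideal.span_le, Set.singleton_subset_iff]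
    exact hw𝔭
  have key : ∀ q : Ideal B, q.IsPrime → w ∈ q → q ≤ 𝔭 → 𝔭 = q := by
    intro q hq hwq hq𝔭
    haveI := hq
    haveI : q.FiniteHeight := Ideal.finiteHeight_of_isNoetherianRing q
    have hq0 : q ≠ ⊥ := by
      intro h0
      rw [h0, Ideal.mem_bot] at hwq
      exact hw0 hwq
    have : q = 𝔭 := by
      refine Ideal.eq_of_le_of_height_le (I := q) (J := 𝔭) hq𝔭 ?_
      rw [hht, Order.one_le_iff_pos, pos_iff_ne_zero, Ne, Ideal.height_eq_zero_iff_eq_bot]
      exact hq0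
    exact this.symm
  rcases (Ideal.IsPrime.mul_le h𝔭).1 hle with h | h
  · exact Or.inl (key p₁ hp₁ hw₁ h)
  · exact Or.inr (key p₂ hp₂ hw₂ h)

/-- **Divisor of a slope-zero function**: `f` horizontally `m`-divisible with valuations `v₁`,
`v₂` along the two components, `m ∣ v₂ - v₁`; then `f · w ^ (-v₁)` has an `m`-divisible divisor
at every height-one prime of `B`. -/
theorem divisibleDivisor_of_valAt_h34 {w : B} (hw0 : w ≠ 0) (p₁ p₂ : Ideal B)
    [hp₁ : p₁.IsPrime] [hp₂ : p₂.IsPrime] (hinf : p₁ ⊓ p₂ = Ideal.span {w})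
    {m : ℕ} (hm : 0 < m) {f : F} (hf : f ≠ 0) (hdiv : I6.HorDivVal F w m f)
    {v₁ v₂ : ℤ} (hv₁ : I6.ValAt F p₁ w f v₁) (hv₂ : I6.ValAt F p₂ w f v₂)
    (hmv : (m : ℤ) ∣ v₂ - v₁) :
    DivisibleDivisor B m (f * (algebraMap B F w) ^ (-v₁)) := by
  classical
  have hinj : Function.Injective (algebraMap B F) := IsFractionRing.injective B F
  have hwF : algebraMap B F w ≠ 0 := fun h => hw0 (hinj (by rw [h, map_zero]))
  intro 𝔭 h𝔭 hht
  haveI := h𝔭
  by_cases hw𝔭 : w ∈ 𝔭
  · rcases eq_component_of_height_one_h34 hw0 p₁ p₂ hinf 𝔭 hht hw𝔭 with rfl | rfl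
    · obtain ⟨a, b, ha, hb, hab⟩ := hv₁
      refine ⟨1, a, b, ha, hb, ?_⟩
      rw [one_pow, mul_one, mul_right_comm, hab, mul_right_comm, ← zpow_add₀ hwF,
        add_neg_cancel, zpow_zero, one_mul]
    · obtain ⟨a, b, ha, hb, hab⟩ := hv₂
      obtain ⟨k, hk⟩ := hmv
      refine ⟨(algebraMap B F w) ^ (-k), a, b, ha, hb, ?_⟩
      have e : f * (algebraMap B F w) ^ (-v₁) * ((algebraMap B F w) ^ (-k)) ^ m *
          algebraMap B F b =
          (f * algebraMap B F b) * ((algebraMap B F w) ^ (-v₁) *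
            ((algebraMap B F w) ^ (-k)) ^ m) := by ring
      rw [e, hab, ← zpow_natCast ((algebraMap B F w) ^ (-k)) m, ← zpow_mul, ← zpow_add₀ hwF,
        mul_right_comm, ← zpow_add₀ hwF]
      have e2 : v₂ + (-v₁ + -k * (m : ℤ)) = 0 := by
        have : v₂ = v₁ + (m : ℤ) * k := by linarith
        rw [this]
        ring
      rw [e2, zpow_zero, one_mul]
  · -- horizontal prime
    obtain ⟨W, hdvr, hW⟩ := Fermat.Agent.S18.H438.exists_dvr_of_height_one (F := F) 𝔭 hht
    have h1𝔭 : (1 : B) ∉ 𝔭 := fun h => h𝔭.ne_top ((Ideal.eq_top_iff_one _).2 h)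
    have hBW : ∀ b : B, algebraMap B F b ∈ W := fun b =>
      (hW _).2 ⟨b, 1, h1𝔭, by rw [map_one, mul_one]⟩
    have hwW : (algebraMap B F w)⁻¹ ∈ W :=
      (hW _).2 ⟨1, w, hw𝔭, by rw [map_one, inv_mul_cancel₀ hwF]⟩
    obtain ⟨h, u₀, hu₀, hu₀', hfh⟩ := hdiv W hdvr hBW hwW
    have hu₀0 : u₀ ≠ 0 := by
      rintro rfl
      rw [zero_mul] at hfh
      exact hf hfh
    have hh0 : h ≠ 0 := by
      rintro rfl
      rw [zero_pow hm.ne', mul_zero] at hfh
      exact hf hfh
    have hU₀ : LocU 𝔭 u₀ := (locU_iff_of_valuationSubring 𝔭 W hW hu₀0).2 ⟨hu₀, hu₀'⟩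
    have hUw : LocU 𝔭 ((algebraMap B F w) ^ (-v₁)) :=
      (LocU.of_notMem (F := F) hw𝔭 h1𝔭).zpow (-v₁)
    obtain ⟨a, s, ha, hs, has⟩ := hU₀.mul hUw
    refine ⟨h⁻¹, a, s, ha, hs, ?_⟩
    rw [← has, hfh, inv_pow]
    have hhm : h ^ m ≠ 0 := pow_ne_zero _ hh0
    field_simp

/-- **Purity at a regular node, abstract form.**  `n` a closed point on `p₁`, `p₁` locally
principal at `n` (generated by `x₁`), `B ⧸ p₁` Dedekind, `f` horizontally `m`-divisible of slope
`0` modulo `m`.  Then `f · w ^ (-v₁) · d ^ m` is a unit at `n` for some `d ∈ Fˣ`. -/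
theorem pure_node_of_principal_h34 {w : B} (hw0 : w ≠ 0) (p₁ p₂ : Ideal B)
    [hp₁ : p₁.IsPrime] [hp₂ : p₂.IsPrime] (hinf : p₁ ⊓ p₂ = Ideal.span {w})
    (hD : IsDedekindDomain (B ⧸ p₁))
    {m : ℕ} (hm : 0 < m) {f : F} (hf : f ≠ 0) (hdiv : I6.HorDivVal F w m f)
    {v₁ v₂ : ℤ} (hv₁ : I6.ValAt F p₁ w f v₁) (hv₂ : I6.ValAt F p₂ w f v₂)
    (hmv : (m : ℤ) ∣ v₂ - v₁)
    (n : Ideal B) (hn : n.IsMaximal) (h₁ : p₁ ≤ n)
    (x₁ : B) (hx₁ : x₁ ∈ p₁) (hgen : ∀ a ∈ p₁, ∃ g : B, g ∉ n ∧ ∃ c : B, g * a = x₁ * c) :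
    ∃ d : F, d ≠ 0 ∧ LocU n (f * (algebraMap B F w) ^ (-v₁) * d ^ m) := by
  have hinj : Function.Injective (algebraMap B F) := IsFractionRing.injective B F
  have hwF : algebraMap B F w ≠ 0 := fun h => hw0 (hinj (by rw [h, map_zero]))
  have hw₁ : w ∈ p₁ := by
    have : w ∈ p₁ ⊓ p₂ := hinf ▸ Ideal.mem_span_singleton_self w
    exact this.1
  have hx₁0 : x₁ ≠ 0 := by
    rintro rfl
    obtain ⟨g, hg, c, hgc⟩ := hgen w hw₁
    rw [zero_mul] at hgc
    rcases mul_eq_zero.1 hgc with h | h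
    · exact hg (h ▸ n.zero_mem)
    · exact hw0 h
  have hu : f * (algebraMap B F w) ^ (-v₁) ≠ 0 := mul_ne_zero hf (zpow_ne_zero _ hwF)
  have hDD := divisibleDivisor_of_valAt_h34 hw0 p₁ p₂ hinf hm hf hdiv hv₁ hv₂ hmv
  exact Fermat.Agent.S36.H987.pure_regular_abs987 x₁ hx₁0 p₁ n hn h₁ hx₁ hgen hD m hm _ hu hDD

end Abs

end Fermat.Agent.S59.LoSqC.H34

end

end
-- ===== PACK-END S59/LoSqC/H34/NodePureReg.lean

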