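import Fermat.Agent.Pack.S43GC.G0E13L2
import Fermat.Agent.Pack.S43MC.G0E10L3
import Fermat.Agent.Pack.S43MC.G0E25L0
import Fermat.Agent.Pack.S43MC.G0E26L2
import Fermat.Agent.Pack.S43MC.G0E12L0
import Fermat.Agent.Pack.S43MC.G0E3L2
import Fermat.Agent.Pack.S59C.E0L1
import Fermat.Agent.Pack.S43MC.G0E19L2
import Fermat.Agent.Pack.S43MC.G0E25L2
import Fermat.Agent.Pack.S59C.E5L3
import Fermat.Agent.Pack.S43GC.G0E11L1
import Fermat.Agent.Pack.S59C.E9L1
import Fermat.Agent.Pack.S44C.G0E6L0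
import Fermat.Agent.Pack.S44C.G0E27L3
import Fermat.Agent.Pack.S59C.E5L0
import Fermat.Agent.Pack.S59C.E4L3
import Fermat.Agent.Pack.S59C.E4L1
import Fermat.Agent.Pack.S59C.E3L3
import Fermat.Agent.Pack.S43C.E0L0
import Fermat.Agent.Pack.S43C.E2L1
import Fermat.Agent.Pack.S44C.G0E10L2
import Fermat.Agent.Pack.S43MC.G0E18L2
import Fermat.Agent.Pack.S59C.E9L0
import Fermat.Agent.Pack.S43MC.G0E23L2
import Fermat.Agent.Pack.S43MC.G0E21L0
import Fermat.Agent.Pack.S44C.G0E9L1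
import Fermat.Agent.Pack.S43MC.G0E18L1
import Fermat.Agent.Pack.S44C.G0E27L1
import Fermat.Agent.Pack.S44C.G0E13L2
import Fermat.Agent.Pack.S43MC.G0E25L1
import Fermat.Agent.Pack.S59C.E0L2
import Fermat.Agent.Pack.S59C.E7L1
import Fermat.Agent.Pack.S44C.G0E18L0
import Fermat.Agent.Pack.S59C.E1L3
import Fermat.Agent.Pack.S59C.E5L1
import Fermat.Agent.Pack.S59C.E8L1
import Fermat.Agent.Pack.S43MC.G0E26L0
import Fermat.Agent.Pack.S59C.E2L1
import Fermat.Agent.Pack.S43MC.G0E23L1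

set_option linter.all false

-- ===== PACK-BEGIN S59/TW/H788/ResGal.lean
section






/-!
# Row S59, cell TW, layer 2: leaf RESG (helper788)

`resGal : Fermat.Agent.S59.TW.ResGalStatement`: a restriction map `res : T_{Σ'} → T_Σ` between two
Hecke packages is a local homomorphism and `ρ_{T_{Σ'}} ⊗_res T_Σ ≅ ρ_{T_Σ}`.

* `isLocalHom_of_finite`: an algebra homomorphism between local algebras over a Noetherian local
  ring `𝒪`, the source finite over `𝒪` and the structure map of the target local, is local.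
* `trace_baseChangeAlong`: `tr (ρ ⊗_φ B)(σ) = φ (tr ρ(σ))`.
* `map_trace_eq_of_frob`: two representations over `T'`, `T` (`φ : T' → T` local, `T` Noetherian)
  whose traces correspond at the Frobenius elements of almost all primes have corresponding traces
  everywhere (Chebotarev + continuity + Krull).
* `resGal`: traces at Frobenius from `charpoly_frob` + `IsRestriction`; oddness from the
  cyclotomic determinant (`G4.H178`), rigidity `H307.isEquiv_of_trace_eq`.
-/

set_option autoImplicit false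
set_option linter.style.haveILetI false

open Polynomial IsLocalRing

namespace Fermat.Agent.S59.TW.H788

open Fermat.Agent.S59.Arch Fermat.Agent.S59.TW.H959 Fermat.Agent.S59.TW

section Local

/-- An algebra homomorphism between local `𝒪`-algebras, the source finite over the Noetherian
local ring `𝒪` and the structure map of the target local, is a local homomorphism. -/
theorem isLocalHom_of_finite {𝒪 T' T : Type*} [CommRing 𝒪] [IsLocalRing 𝒪] [IsNoetherianRing 𝒪]
    [CommRing T'] [IsLocalRing T'] [Algebra 𝒪 T'] [Module.Finite 𝒪 T']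
    [CommRing T] [IsLocalRing T] [Algebra 𝒪 T] [IsLocalHom (algebraMap 𝒪 T)]
    (res : T' →ₐ[𝒪] T) : IsLocalHom (res : T' →+* T) := by
  constructor
  intro a ha
  by_contra hna
  have ham : a ∈ maximalIdeal T' := (IsLocalRing.mem_maximalIdeal a).mpr hna
  obtain ⟨e, he⟩ := Fermat.Agent.S59.H765.exists_maximalIdeal_pow_le_map765 (𝒪 := 𝒪) (T := T')
  have h1 : a ^ e ∈ (maximalIdeal 𝒪).map (algebraMap 𝒪 T') := he (Ideal.pow_mem_pow ham e)
  have h2 : (res : T' →+* T) (a ^ e) ∈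
      ((maximalIdeal 𝒪).map (algebraMap 𝒪 T')).map (res : T' →+* T) :=
    Ideal.mem_map_of_mem _ h1
  rw [Ideal.map_map, res.comp_algebraMap] at h2
  have h4 : (maximalIdeal 𝒪).map (algebraMap 𝒪 T) ≤ maximalIdeal T :=
    ((local_hom_TFAE (algebraMap 𝒪 T)).out 0 2 rfl rfl).mp inferInstance
  have h5 : (res : T' →+* T) a ^ e ∈ maximalIdeal T := by
    rw [← map_pow]; exact h4 h2
  have h6 : (res : T' →+* T) a ∈ maximalIdeal T :=
    Ideal.IsPrime.mem_of_pow_mem inferInstance e h5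
  exact (IsLocalRing.mem_maximalIdeal _).mp h6 ha

end Local

section Trace

variable {T' T : Type} [CommRing T'] [IsLocalRing T'] [CommRing T] [IsLocalRing T]

/-- The trace of a base change. -/
theorem trace_baseChangeAlong (φ : T' →+* T) (hφ : IsLocalHom φ) (ρ : GaloisRepAdic T')
    (σ : GQ) : (ρ.baseChangeAlong φ hφ).trace σ = φ (ρ.trace σ) := by
  letI : Algebra T' T := φ.toAlgebra
  exact LinearMap.trace_baseChange (ρ.ρ σ) T

/-- Traces which correspond at the Frobenius elements of almost all primes correspond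
everywhere. -/
theorem map_trace_eq_of_frob [IsNoetherianRing T] (φ : T' →+* T) (hφ : IsLocalHom φ)
    (ρ' : GaloisRepAdic T') (ρ : GaloisRepAdic T) (F : Finset ℕ)
    (h : ∀ ℓ : ℕ, ℓ.Prime → ℓ ∉ F → ∀ B : ValuationSubring Qb, B.LiesOverPrime ℓ →
      ∀ τ : GQ, B.IsFrobeniusAt τ ℓ → φ (ρ'.trace τ) = ρ.trace τ) (σ : GQ) :
    φ (ρ'.trace σ) = ρ.trace σ := by
  have hmem : φ (ρ'.trace σ) - ρ.trace σ ∈ (⨅ n : ℕ, maximalIdeal T ^ n : Ideal T) := by
    rw [Ideal.mem_iInf]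
    intro n
    obtain ⟨L₁, hL₁, hc₁⟩ := Fermat.Agent.S59.H765.exists_level_trace_sub_mem ρ' n
    obtain ⟨L₂, hL₂, hc₂⟩ := Fermat.Agent.S59.H765.exists_level_trace_sub_mem ρ n
    haveI := hL₁
    haveI := hL₂
    have hL : FiniteDimensional ℚ (L₁ ⊔ L₂ : IntermediateField ℚ Qb) :=
      IntermediateField.finiteDimensional_sup L₁ L₂
    obtain ⟨ℓ, B, τ, hℓ, hℓF, hB, hτ, -, hτσ⟩ :=
      Fermat.Agent.Lib.Cheb.chebotarev (L₁ ⊔ L₂) hL σ F
    have e1 : ρ'.trace τ - ρ'.trace σ ∈ maximalIdeal T' ^ n :=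
      hc₁ σ τ fun x hx => hτσ x ((le_sup_left : L₁ ≤ L₁ ⊔ L₂) hx)
    have e2 : ρ.trace τ - ρ.trace σ ∈ maximalIdeal T ^ n :=
      hc₂ σ τ fun x hx => hτσ x ((le_sup_right : L₂ ≤ L₁ ⊔ L₂) hx)
    have e3 : φ (ρ'.trace τ - ρ'.trace σ) ∈ maximalIdeal T ^ n := by
      have hmap : (maximalIdeal T' ^ n).map φ ≤ maximalIdeal T ^ n := by
        rw [Ideal.map_pow]
        exact Ideal.pow_right_mono (((local_hom_TFAE φ).out 0 2 rfl rfl).mp hφ) n
      exact hmap (Ideal.mem_map_of_mem φ e1)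
    have hsplit : φ (ρ'.trace σ) - ρ.trace σ =
        (ρ.trace τ - ρ.trace σ) - φ (ρ'.trace τ - ρ'.trace σ) := by
      rw [map_sub, h ℓ hℓ hℓF B hB τ hτ]; ring
    rw [hsplit]
    exact Ideal.sub_mem _ e2 e3
  rw [Ideal.iInf_pow_eq_bot_of_isLocalRing _ (Ideal.IsMaximal.ne_top inferInstance)] at hmem
  exact sub_eq_zero.mp (by simpa using hmem)

end Trace

/-- **Leaf RESG** of the Taylor–Wiles layer-2 interface. -/
theorem resGal : ResGalStatement := by
  intro p hpF hp2 𝒪 _ _ _ _ _ _ hp𝒪 ρbar habs t Smin Sig Sig' hSig _ _ P P' res hres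
  have hp : p.Prime := Fact.out
  have hloc : IsLocalHom (res : P'.T →+* P.T) := isLocalHom_of_finite res
  refine ⟨hloc, ?_⟩
  -- the traces correspond
  have htr : ∀ σ : GQ, (res : P'.T →+* P.T) (P'.H.ρ.trace σ) = P.H.ρ.trace σ := by
    refine map_trace_eq_of_frob _ hloc _ _
      ((Sig' ∪ (wilesLevel p t Smin Sig').primeFactors) ∪
        (Sig ∪ (wilesLevel p t Smin Sig).primeFactors)) ?_
    intro ℓ hℓ hℓF B hB τ hτ
    have hℓS' : ℓ ∉ (↑Sig' : Set ℕ) := fun h =>
      hℓF (Finset.mem_union_left _ (Finset.mem_union_left _ (Finset.mem_coe.mp h)))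
    have hℓN' : ¬ ℓ ∣ wilesLevel p t Smin Sig' := fun h =>
      hℓF (Finset.mem_union_left _ (Finset.mem_union_right _
        (Nat.mem_primeFactors.mpr ⟨hℓ, h, NeZero.ne _⟩)))
    have hℓS : ℓ ∉ (↑Sig : Set ℕ) := fun h =>
      hℓF (Finset.mem_union_right _ (Finset.mem_union_left _ (Finset.mem_coe.mp h)))
    have hℓN : ¬ ℓ ∣ wilesLevel p t Smin Sig := fun h =>
      hℓF (Finset.mem_union_right _ (Finset.mem_union_right _
        (Nat.mem_primeFactors.mpr ⟨hℓ, h, NeZero.ne _⟩)))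
    have h1 : P'.H.ρ.trace τ = P'.H.π (CuspForm.heckeAlgebra.T hℓ hℓN' hℓS') :=
      Fermat.Agent.S59.H765.trace_eq_of_charpoly P'.H.ρ.finrank_eq _ _ _
        (P'.H.charpoly_frob ℓ hℓ hℓN' hℓS' B hB τ hτ)
    have h2 : P.H.ρ.trace τ = P.H.π (CuspForm.heckeAlgebra.T hℓ hℓN hℓS) :=
      Fermat.Agent.S59.H765.trace_eq_of_charpoly P.H.ρ.finrank_eq _ _ _
        (P.H.charpoly_frob ℓ hℓ hℓN hℓS B hB τ hτ)
    rw [h1, h2]
    exact hres ℓ hℓ hℓN' hℓS' hℓN hℓS
  -- oddness
  have hpT : (p : P.T) ∈ maximalIdeal P.T := by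
    have h := ((local_hom_TFAE (algebraMap 𝒪 P.T)).out 0 2 rfl rfl).mp inferInstance
      (Ideal.mem_map_of_mem (algebraMap 𝒪 P.T) hp𝒪)
    rwa [map_natCast] at h
  have h2 : IsUnit (2 : P.T) := Fermat.Agent.S59.G4.H307.isUnit_two_of_odd_mem hp hp2 hpT
  have hdet : P.H.ρ.DetIsCyclotomic p := by
    refine Fermat.Agent.S59.H540.detIsCyclotomic_of_frob P.H.ρ p hpT
      (Sig ∪ (wilesLevel p t Smin Sig).primeFactors) ?_
    intro ℓ hℓ hℓF B hB τ hτ
    have hℓS : ℓ ∉ (↑Sig : Set ℕ) := fun h =>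
      hℓF (Finset.mem_union_left _ (Finset.mem_coe.mp h))
    have hℓN : ¬ ℓ ∣ wilesLevel p t Smin Sig := fun h =>
      hℓF (Finset.mem_union_right _ (Nat.mem_primeFactors.mpr ⟨hℓ, h, NeZero.ne _⟩))
    exact Fermat.Agent.S59.H540.det_eq_of_charpoly P.H.ρ.finrank_eq _ _ _
      (P.H.charpoly_frob ℓ hℓ hℓN hℓS B hB τ hτ)
  have hc : P.H.ρ.trace complexConjugation = 0 :=
    Fermat.Agent.S59.G4.H307.trace_eq_zero_of_det_eq_neg_one P.H.ρ complexConjugation
      complexConjugation_mul_self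
      (Fermat.Agent.S59.G4.H178.det_involution_eq_neg_one P.H.ρ p hp2 hdet complexConjugation
        complexConjugation_mul_self Fermat.Agent.S59.G4.H307.complexConjugation_ne_one)
  have hirr : P.H.ρ.residual.IsIrreducible :=
    Fermat.Agent.S59.G4.H307.isIrreducible_of_absIrr _ P.H.residual_absIrr
  have hE : P.H.ρ.IsEquiv (P'.H.ρ.baseChangeAlong (res : P'.T →+* P.T) hloc) :=
    Fermat.Agent.S59.H307.isEquiv_of_trace_eq h2 _ _
      (fun σ => by rw [_root_.Fermat.Agent.S59.TW.H788.trace_baseChangeAlong, htr]) complexConjugation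
      complexConjugation_mul_self hc hirr
  obtain ⟨e⟩ := hE
  exact ⟨e.symm⟩

end Fermat.Agent.S59.TW.H788

end
-- ===== PACK-END S59/TW/H788/ResGal.lean

-- ===== PACK-BEGIN S58/H273/Res.lean
section



/-!
# Row S58, leaf RES (helper273): `residual : Fermat.Agent.S58.ResidualStatement`

VERBATIM the `Prop` of `Fermat/Agent/S58/Spec.lean`, unconditional.  Proof in `Hres.lean`
(`Fermat.Agent.S58.H273.hres`, any Noetherian local coefficient ring):

* odd: `det ρ(Frob_ℓ) = ℓ` ⇒ `det ρ` cyclotomic (`S59.H540`) ⇒ `det ρ(c) = -1` (`S59.G4.H178`);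
* absolutely irreducible: `W[p]` is irreducible and odd, hence absolutely irreducible
  (`AbsIrrOdd.lean`, eigenlines of an involution are rational); its Frobenius characteristic
  polynomials are `X² - a_ℓ X + ℓ` (`Ribet.H52`); Chebotarev + Burnside/Gram (`ResGeneric.lean`,
  generic form of `S59.G4.H109.resStatement2`) transport absolute irreducibility to `ρ.residual`.
-/

set_option autoImplicit false

namespace Fermat.Agent.S58.H273

/-- **Leaf RES.** -/
theorem residual : Fermat.Agent.S58.ResidualStatement := by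
  intro p _ hp2 W hΔ hirr O _ _ _ _ _ _ hpO ρ T hρ
  exact hres W hΔ p hp2 hirr hpO ρ T hρ

end Fermat.Agent.S58.H273

end
-- ===== PACK-END S58/H273/Res.lean

-- ===== PACK-BEGIN S59/TW/H765/ResGal.lean
section






/-!
# Row S59, cell TW, layer 2, leaf RESG (helper765): `TW.ResGalStatement`

A restriction map `res : T_{Σ'} → T_Σ` between two Hecke packages (`T_ℓ ↦ T_ℓ` for the primes `ℓ`
good for both levels) is a local homomorphism and `ρ_{Σ'} ⊗_res T_Σ ≅ ρ_Σ`.

* `isLocalHom_of_finite765` : an `𝒪`-algebra homomorphism from a local ring finite over `𝒪` to a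
  local `𝒪`-algebra with local structure map is local.
* `trace_baseChangeAlong765` : the trace of a base change.
* `map_trace_eq_of_frob765` : if `φ (tr ρ'(Frob_ℓ)) = tr ρ(Frob_ℓ)` for all primes `ℓ` outside a
  finite set, then `φ (tr ρ' σ) = tr ρ σ` for all `σ` (Chebotarev + continuity + Krull).
* `resGal : ResGalStatement`.
-/

set_option autoImplicit false
set_option linter.unusedSectionVars false
set_option linter.unusedVariables false
set_option linter.style.haveILetI false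

namespace Fermat.Agent.S59.TW.H765

open Polynomial IsLocalRing
open Fermat.Agent.S59.Arch Fermat.Agent.S59.TW.H959 Fermat.Agent.S59.TW

section Local

variable {𝒪 : Type*} [CommRing 𝒪] [IsLocalRing 𝒪] [IsNoetherianRing 𝒪]
  {T T' : Type*} [CommRing T] [IsLocalRing T] [CommRing T'] [IsLocalRing T']
  [Algebra 𝒪 T] [Algebra 𝒪 T'] [Module.Finite 𝒪 T'] [IsLocalHom (algebraMap 𝒪 T)]

/-- An `𝒪`-algebra homomorphism from a local ring finite over the Noetherian local ring `𝒪` to a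
local `𝒪`-algebra whose structure map is local is a local homomorphism. -/
theorem isLocalHom_of_finite765 (res : T' →ₐ[𝒪] T) : IsLocalHom (res : T' →+* T) := by
  constructor
  intro x hx
  by_contra hxu
  have hxm : x ∈ maximalIdeal T' := (mem_maximalIdeal x).mpr hxu
  obtain ⟨e, he⟩ := Fermat.Agent.S59.H765.exists_maximalIdeal_pow_le_map765 (𝒪 := 𝒪) (T := T')
  have h1 : x ^ e ∈ (maximalIdeal 𝒪).map (algebraMap 𝒪 T') := he (Ideal.pow_mem_pow hxm e)
  have h2 : (res : T' →+* T) (x ^ e) ∈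
      ((maximalIdeal 𝒪).map (algebraMap 𝒪 T')).map (res : T' →+* T) :=
    Ideal.mem_map_of_mem _ h1
  rw [Ideal.map_map, AlgHom.comp_algebraMap] at h2
  have h4 : (maximalIdeal 𝒪).map (algebraMap 𝒪 T) ≤ maximalIdeal T :=
    Ideal.map_le_iff_le_comap.mpr fun a ha =>
      Ideal.mem_comap.mpr (map_nonunit (algebraMap 𝒪 T) a ha)
  have h5 := h4 h2
  rw [map_pow] at h5
  have h6 : (res : T' →+* T) x ∈ maximalIdeal T :=
    Ideal.IsPrime.mem_of_pow_mem inferInstance e h5
  exact (mem_maximalIdeal _).mp h6 hx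

end Local

section Trace

/-- The trace of a base change. -/
theorem trace_baseChangeAlong765 {A B : Type} [CommRing A] [IsLocalRing A] [CommRing B]
    [IsLocalRing B] (φ : A →+* B) (hφ : IsLocalHom φ) (ρ : GaloisRepAdic A) (σ : GQ) :
    (ρ.baseChangeAlong φ hφ).trace σ = φ (ρ.trace σ) := by
  letI : Algebra A B := φ.toAlgebra
  exact LinearMap.trace_baseChange (ρ.ρ σ) B

variable {A B : Type} [CommRing A] [IsLocalRing A] [CommRing B] [IsLocalRing B]
  [IsNoetherianRing B]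

/-- **Traces are determined by the Frobenius elements**: if a local homomorphism `φ` maps
`tr ρ'(Frob_ℓ)` to `tr ρ(Frob_ℓ)` for all primes `ℓ` outside a finite set, it maps `tr ρ'(σ)` to
`tr ρ(σ)` for every `σ`. -/
theorem map_trace_eq_of_frob765 (φ : A →+* B) (hφ : IsLocalHom φ) (ρ' : GaloisRepAdic A)
    (ρ : GaloisRepAdic B) (F : Finset ℕ)
    (h : ∀ ℓ : ℕ, ℓ.Prime → ℓ ∉ F → ∀ P : ValuationSubring Qb, P.LiesOverPrime ℓ →
      ∀ τ : GQ, P.IsFrobeniusAt τ ℓ → φ (ρ'.trace τ) = ρ.trace τ) (σ : GQ) :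
    φ (ρ'.trace σ) = ρ.trace σ := by
  have hmap : ∀ n : ℕ, ∀ a ∈ maximalIdeal A ^ n, φ a ∈ maximalIdeal B ^ n := by
    intro n a ha
    have h1 : φ a ∈ (maximalIdeal A ^ n).map φ := Ideal.mem_map_of_mem φ ha
    rw [Ideal.map_pow] at h1
    exact Ideal.pow_right_mono (Ideal.map_le_iff_le_comap.mpr fun a ha =>
      Ideal.mem_comap.mpr (haveI := hφ; map_nonunit φ a ha)) n h1
  have hmem : φ (ρ'.trace σ) - ρ.trace σ ∈ ⨅ n : ℕ, maximalIdeal B ^ n := by
    rw [Ideal.mem_iInf]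
    intro n
    obtain ⟨L', hL', hc'⟩ := Fermat.Agent.S59.H765.exists_level_trace_sub_mem ρ' n
    obtain ⟨L, hL, hc⟩ := Fermat.Agent.S59.H765.exists_level_trace_sub_mem ρ n
    haveI : FiniteDimensional ℚ L' := hL'
    haveI : FiniteDimensional ℚ L := hL
    have hE : FiniteDimensional ℚ ↥(L' ⊔ L) := IntermediateField.finiteDimensional_sup L' L
    obtain ⟨ℓ, P, τ, hℓ, hℓF, hP, hτ, -, hτσ⟩ :=
      Fermat.Agent.Lib.Cheb.chebotarev (L' ⊔ L) hE σ F
    have e1 : ρ'.trace τ - ρ'.trace σ ∈ maximalIdeal A ^ n :=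
      hc' σ τ fun x hx => hτσ x ((le_sup_left : L' ≤ L' ⊔ L) hx)
    have e2 : ρ.trace τ - ρ.trace σ ∈ maximalIdeal B ^ n :=
      hc σ τ fun x hx => hτσ x ((le_sup_right : L ≤ L' ⊔ L) hx)
    have e3 : φ (ρ'.trace τ) = ρ.trace τ := h ℓ hℓ hℓF P hP τ hτ
    have e4 : φ (ρ'.trace σ) - ρ.trace σ =
        (ρ.trace τ - ρ.trace σ) - φ (ρ'.trace τ - ρ'.trace σ) := by
      rw [map_sub, e3]; ring
    rw [e4]
    exact Ideal.sub_mem _ e2 (hmap n _ e1)
  rw [Ideal.iInf_pow_eq_bot_of_isLocalRing _ (Ideal.IsMaximal.ne_top inferInstance),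
    Ideal.mem_bot] at hmem
  exact sub_eq_zero.mp hmem

end Trace

/-- **RESG.** -/
theorem resGal : ResGalStatement := by
  intro p _ hp2 𝒪 _ _ _ _ _ _ hp𝒪 ρbar _habs t Smin Sig Sig' _hSig _ _ P P' res hR
  classical
  have hp : p.Prime := Fact.out
  have hres : IsLocalHom (res : P'.T →+* P.T) := isLocalHom_of_finite765 res
  refine ⟨hres, ?_⟩
  -- `p` lies in the maximal ideal of `T`
  have hpT : (p : P.T) ∈ maximalIdeal P.T := by
    have h1 : algebraMap 𝒪 P.T (p : 𝒪) ∈ maximalIdeal P.T :=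
      map_nonunit (algebraMap 𝒪 P.T) _ hp𝒪
    rwa [map_natCast] at h1
  have h2 : IsUnit (2 : P.T) := Fermat.Agent.S59.G4.H307.isUnit_two_of_odd_mem hp hp2 hpT
  -- the determinant of `ρ` is cyclotomic, hence `ρ` is odd
  have hdet : P.H.ρ.DetIsCyclotomic p := by
    refine Fermat.Agent.S59.H540.detIsCyclotomic_of_frob P.H.ρ p hpT
      (Sig ∪ (wilesLevel p t Smin Sig).primeFactors) ?_
    intro ℓ hℓ hℓS B hB σ hσ
    have hℓS' : ℓ ∉ (↑Sig : Set ℕ) := fun h =>
      hℓS (Finset.mem_union_left _ (Finset.mem_coe.mp h))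
    have hℓN : ¬ ℓ ∣ wilesLevel p t Smin Sig := fun h =>
      hℓS (Finset.mem_union_right _ (Nat.mem_primeFactors.mpr ⟨hℓ, h, NeZero.ne _⟩))
    exact Fermat.Agent.S59.H540.det_eq_of_charpoly P.H.ρ.finrank_eq _ _ _
      (P.H.charpoly_frob ℓ hℓ hℓN hℓS' B hB σ hσ)
  obtain ⟨c, hcc, hc1⟩ := Fermat.Agent.S59.H405.exists_involution_Qbar
  have hdetc : LinearMap.det (P.H.ρ.ρ c) = -1 :=
    Fermat.Agent.S59.G4.H178.det_involution_eq_neg_one P.H.ρ p hp2 hdet c hcc hc1
  have htrc : P.H.ρ.trace c = 0 :=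
    Fermat.Agent.S59.G4.H307.trace_eq_zero_of_det_eq_neg_one P.H.ρ c hcc hdetc
  have hirr : P.H.ρ.residual.IsIrreducible :=
    Fermat.Agent.S59.G4.H307.isIrreducible_of_absIrr _ P.H.residual_absIrr
  -- the traces agree
  have htr : ∀ σ : GQ, P.H.ρ.trace σ =
      (P'.H.ρ.baseChangeAlong (res : P'.T →+* P.T) hres).trace σ := by
    intro σ
    rw [trace_baseChangeAlong765]
    symm
    refine map_trace_eq_of_frob765 (res : P'.T →+* P.T) hres P'.H.ρ P.H.ρ
      (Sig ∪ (wilesLevel p t Smin Sig).primeFactors ∪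
        (Sig' ∪ (wilesLevel p t Smin Sig').primeFactors)) ?_ σ
    intro ℓ hℓ hℓF B hB τ hτ
    have hℓS : ℓ ∉ (↑Sig : Set ℕ) := fun h =>
      hℓF (Finset.mem_union_left _ (Finset.mem_union_left _ (Finset.mem_coe.mp h)))
    have hℓN : ¬ ℓ ∣ wilesLevel p t Smin Sig := fun h =>
      hℓF (Finset.mem_union_left _
        (Finset.mem_union_right _ (Nat.mem_primeFactors.mpr ⟨hℓ, h, NeZero.ne _⟩)))
    have hℓS' : ℓ ∉ (↑Sig' : Set ℕ) := fun h =>
      hℓF (Finset.mem_union_right _ (Finset.mem_union_left _ (Finset.mem_coe.mp h)))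
    have hℓN' : ¬ ℓ ∣ wilesLevel p t Smin Sig' := fun h =>
      hℓF (Finset.mem_union_right _
        (Finset.mem_union_right _ (Nat.mem_primeFactors.mpr ⟨hℓ, h, NeZero.ne _⟩)))
    have e' : P'.H.ρ.trace τ = P'.H.π (CuspForm.heckeAlgebra.T hℓ hℓN' hℓS') :=
      Fermat.Agent.S59.H765.trace_eq_of_charpoly P'.H.ρ.finrank_eq _ _ _
        (P'.H.charpoly_frob ℓ hℓ hℓN' hℓS' B hB τ hτ)
    have e : P.H.ρ.trace τ = P.H.π (CuspForm.heckeAlgebra.T hℓ hℓN hℓS) :=
      Fermat.Agent.S59.H765.trace_eq_of_charpoly P.H.ρ.finrank_eq _ _ _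
        (P.H.charpoly_frob ℓ hℓ hℓN hℓS B hB τ hτ)
    rw [e', e]
    exact hR ℓ hℓ hℓN' hℓS' hℓN hℓS
  obtain ⟨E⟩ := Fermat.Agent.S59.H307.isEquiv_of_trace_eq h2 P.H.ρ
    (P'.H.ρ.baseChangeAlong (res : P'.T →+* P.T) hres) htr c hcc htrc hirr
  exact ⟨E.symm⟩

end Fermat.Agent.S59.TW.H765

end
-- ===== PACK-END S59/TW/H765/ResGal.lean

-- ===== PACK-BEGIN S59/TW/H314/GalCore.lean
section






/-!
# Row S59, cell TW, layer 4: Galois half of the leaf CMP — common tools  (helper314)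

* `newPt_trace_transfer` : at a newform point `emb : T_Q → O'` a representation `ρ''` over
  `O'' ⊇ O'` with the Frobenius characteristic polynomials of the newform has the traces of
  `ρ_Q`: `tr ρ''(σ) = emb (tr ρ_Q(σ))` for ALL `σ` (Chebotarev: `H788.map_trace_eq_of_frob`).
* `det_frob_eq` : `det ρ(Frob_q) = q` for a representation with cyclotomic determinant.
* `inertiaValue_data` : the trace formulas behind `IsInertiaValue`.
-/

set_option autoImplicit false
set_option linter.style.haveILetI false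
set_option linter.unusedSectionVars false

open Polynomial IsLocalRing CongruenceSubgroup
open scoped MatrixGroups

namespace Fermat.Agent.S59.TW.H314

open Fermat.Agent.S59.Arch Fermat.Agent.S59.TW.H959 Fermat.Agent.S59.TW.H653
  Fermat.Agent.S59.TW.Aut

section Det

variable {A : Type} [CommRing A] [IsLocalRing A] [IsNoetherianRing A]

/-- `det ρ(Frob_q) = q` for a representation with cyclotomic determinant (`q ≠ p`). -/
theorem det_frob_eq (ρ : GaloisRepAdic A) {p q : ℕ} (hp : p.Prime) (hq : q.Prime) (hqp : q ≠ p)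
    (hdet : ρ.DetIsCyclotomic p) {P : ValuationSubring Qb} (hP : P.LiesOverPrime q) {φ : GQ}
    (hφ : P.IsFrobeniusAt φ q) : LinearMap.det (ρ.ρ φ) = (q : A) := by
  have h1 : ∀ n : ℕ, LinearMap.det (ρ.ρ φ) - (q : A) ∈ maximalIdeal A ^ n := by
    intro n
    have h2 := hdet.2 n φ q (fun μ hμ =>
      Fermat.Agent.Lib.Cheb.H476.isFrobeniusAt_apply_of_pow_eq_one hq hP hφ
        (fun hdvd => hqp ((Nat.prime_dvd_prime_iff_eq hq hp).mp (hq.dvd_of_dvd_pow hdvd))) hμ)
    have h4 : Ideal.span {((p ^ n : ℕ) : A)} ≤ maximalIdeal A ^ n := by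
      rw [Ideal.span_le, Set.singleton_subset_iff, Nat.cast_pow]
      exact Ideal.pow_mem_pow hdet.1 n
    exact h4 h2
  have h5 : LinearMap.det (ρ.ρ φ) - (q : A) ∈ (⨅ n : ℕ, maximalIdeal A ^ n : Ideal A) := by
    rw [Ideal.mem_iInf]
    exact h1
  rw [Ideal.iInf_pow_eq_bot_of_isLocalRing _ (Ideal.IsMaximal.ne_top inferInstance)] at h5
  exact sub_eq_zero.mp (by simpa using h5)

end Det

section Inertia

variable {A : Type} [CommRing A] [IsLocalRing A]

/-- The trace formulas behind `IsInertiaValue`. -/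
theorem inertiaValue_data {ρ : GaloisRepAdic A} {φ σ : GQ} {a₀ w : A}
    (hw : IsInertiaValue ρ φ σ a₀ w) :
    ∃ a b : A, IsUnit (a - b) ∧ ρ.trace φ = a + b ∧ LinearMap.det (ρ.ρ φ) = a * b ∧
      (a - b) * w = ρ.trace (φ * σ) - b * ρ.trace σ := by
  obtain ⟨a, b, -, hu, hchar, hform⟩ := hw
  have hA : Nontrivial A := inferInstance
  have hchar' : LinearMap.charpoly (ρ.ρ φ) = X ^ 2 - C (a + b) * X + C (a * b) := by
    rw [hchar]
    simp only [map_add, map_mul]
    ring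
  refine ⟨a, b, hu, ?_, ?_, hform⟩
  · exact Fermat.Agent.S59.H765.trace_eq_of_charpoly ρ.finrank_eq _ _ _ hchar'
  · exact Fermat.Agent.S59.H540.det_eq_of_charpoly ρ.finrank_eq _ _ _ hchar'

end Inertia

section Transfer

variable {p : ℕ} [hpF : Fact p.Prime]
  {𝒪 : Type} [CommRing 𝒪] [IsDomain 𝒪] [IsDiscreteValuationRing 𝒪]
  [IsAdicComplete (maximalIdeal 𝒪) 𝒪]
  {ρbar : ResidualGaloisRep (ResidueField 𝒪)} {t : PType} {Smin : Finset ℕ}
  {r : ℕ} {qv : Fin r → ℕ}
  [NeZero (wilesLevel p t Smin (Smin ∪ Finset.univ.image qv))]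

include hpF in
/-- the primes dividing `N_Q` lie in `Σ_Q` -/
theorem mem_sigQ_of_dvd (hS : ∀ q ∈ Smin, q.Prime) (hpS : p ∈ Smin)
    (hprime : ∀ j, (qv j).Prime) (q : ℕ) (hq : q.Prime)
    (hqN : q ∣ wilesLevel p t Smin (Smin ∪ Finset.univ.image qv)) :
    q ∈ Smin ∪ Finset.univ.image qv := by
  have hSig : ∀ q ∈ Smin ∪ Finset.univ.image qv, q.Prime := by
    intro q hq
    rcases Finset.mem_union.mp hq with h' | h'
    · exact hS q h'
    · obtain ⟨j, -, rfl⟩ := Finset.mem_image.mp h'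
      exact hprime j
  exact _root_.Fermat.Agent.S59.Arch.mem_of_prime_dvd_wilesLevel hpF.out hS hSig hpS Finset.subset_union_left q hq hqN

include hpF in
/-- **Trace transfer along a newform point.** -/
theorem newPt_trace_transfer (PQ : HeckePkg p 𝒪 ρbar t Smin (Smin ∪ Finset.univ.image qv))
    (hS : ∀ q ∈ Smin, q.Prime) (hpS : p ∈ Smin) (hprime : ∀ j, (qv j).Prime)
    {O' : Type} [CommRing O'] [IsLocalRing O'] (emb : PQ.T →+* O') (hemb : IsLocalHom emb)
    {O'' : Type} [CommRing O''] [IsLocalRing O''] [IsNoetherianRing O''] [Algebra O' O'']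
    [IsLocalHom (algebraMap O' O'')]
    {M : ℕ} [NeZero M] (hMS : ∀ q : ℕ, q.Prime → q ∣ M → q ∈ Smin ∪ Finset.univ.image qv)
    (chig : CuspForm.heckeAlgebra M 2 (↑(Smin ∪ Finset.univ.image qv) : Set ℕ) →+* ℂ)
    (iota : chig.range →+* O')
    (hcompat : ∀ (ℓ : ℕ) (hℓ : ℓ.Prime)
      (hℓN : ¬ ℓ ∣ wilesLevel p t Smin (Smin ∪ Finset.univ.image qv)) (hℓM : ¬ ℓ ∣ M)
      (hℓS : ℓ ∉ (↑(Smin ∪ Finset.univ.image qv) : Set ℕ)),
      iota (chig.rangeRestrict (CuspForm.heckeAlgebra.T hℓ hℓM hℓS)) =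
        emb (PQ.H.π (CuspForm.heckeAlgebra.T hℓ hℓN hℓS)))
    (ρ'' : GaloisRepAdic O'')
    (hρ : ∀ (ℓ : ℕ) (hℓ : ℓ.Prime) (_hℓp : ℓ ≠ p) (hℓM : ¬ ℓ ∣ M)
      (hℓS : ℓ ∉ (↑(Smin ∪ Finset.univ.image qv) : Set ℕ)),
      ∀ A : ValuationSubring (AlgebraicClosure ℚ), A.LiesOverPrime ℓ →
        ∀ σ : AlgebraicClosure ℚ ≃ₐ[ℚ] AlgebraicClosure ℚ, A.IsFrobeniusAt σ ℓ →
          LinearMap.charpoly (ρ''.ρ σ) =
            X ^ 2 - C (algebraMap O' O'' ((iota.comp chig.rangeRestrict)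
              (CuspForm.heckeAlgebra.T hℓ hℓM hℓS))) * X + C ((ℓ : O'')))
    (σ : GQ) : algebraMap O' O'' (emb (PQ.H.ρ.trace σ)) = ρ''.trace σ := by
  have hloc : IsLocalHom ((algebraMap O' O'').comp emb) := by
    haveI := hemb
    exact RingHom.isLocalHom_comp _ _
  refine Fermat.Agent.S59.TW.H788.map_trace_eq_of_frob ((algebraMap O' O'').comp emb) hloc
    PQ.H.ρ ρ'' (Smin ∪ Finset.univ.image qv) ?_ σ
  intro ℓ hℓ hℓF B hB τ hτ
  have hℓS : ℓ ∉ (↑(Smin ∪ Finset.univ.image qv) : Set ℕ) := fun h => hℓF (Finset.mem_coe.mp h)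
  have hℓN : ¬ ℓ ∣ wilesLevel p t Smin (Smin ∪ Finset.univ.image qv) := fun h =>
    hℓF (mem_sigQ_of_dvd hS hpS hprime ℓ hℓ h)
  have hℓM : ¬ ℓ ∣ M := fun h => hℓF (hMS ℓ hℓ h)
  have hℓp : ℓ ≠ p := fun h => hℓF (h ▸ Finset.mem_union_left _ hpS)
  have h1 : PQ.H.ρ.trace τ = PQ.H.π (CuspForm.heckeAlgebra.T hℓ hℓN hℓS) :=
    Fermat.Agent.S59.H765.trace_eq_of_charpoly PQ.H.ρ.finrank_eq _ _ _
      (PQ.H.charpoly_frob ℓ hℓ hℓN hℓS B hB τ hτ)
  have h2 : ρ''.trace τ = algebraMap O' O'' ((iota.comp chig.rangeRestrict)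
      (CuspForm.heckeAlgebra.T hℓ hℓM hℓS)) :=
    Fermat.Agent.S59.H765.trace_eq_of_charpoly ρ''.finrank_eq _ _ _
      (hρ ℓ hℓ hℓp hℓM hℓS B hB τ hτ)
  rw [h2, RingHom.comp_apply, h1, RingHom.comp_apply, hcompat ℓ hℓ hℓN hℓM hℓS]

end Transfer

end Fermat.Agent.S59.TW.H314

end
-- ===== PACK-END S59/TW/H314/GalCore.lean

-- ===== PACK-BEGIN S59/Unit3/H461/Unit3Cube.lean
section



/-!
# S59 / leaf UNIT-3 (p = 3 wall), part 4: the formal cube relation (helper461)

In `ℤ((t))`:  `v3L ^ 3 = u'(t) * u'(t²)` with `u' = unitL' 3 = Δ(t)/Δ(t³)`, and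
`v3InvL ^ 3 = u(t) * u(t²)` with `u = unitL ℤ 3 = Δ(t³)/Δ(t)`.
-/

set_option autoImplicit false

noncomputable section

open ModularCurve HahnSeries

namespace Fermat.Agent.S59.Unit3.H461

open Fermat.Agent.S28 (deltaL deltaInvL unitL)
open Fermat.Agent.S28.H589 (unitL')

/-- `∏ (1 - tⁿ)` as a Laurent series. -/
def e1L : LaurentSeries ℤ := HahnSeries.ofPowerSeries ℤ ℤ etaProd

/-- `∏ (1 - tⁿ)⁻¹` as a Laurent series. -/
def e1InvL : LaurentSeries ℤ := HahnSeries.ofPowerSeries ℤ ℤ etaInvP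

theorem e8L_eq : e8L = e1L ^ 8 := by
  rw [e8L, e1L, map_pow]

theorem e8InvL_eq : e8InvL = e1InvL ^ 8 := by
  rw [e8InvL, e1InvL, map_pow]

theorem e1L_mul_e1InvL : e1L * e1InvL = 1 := by
  rw [e1L, e1InvL, ← map_mul, etaProd_mul_etaInvP, map_one]

theorem dedekindEtaUnitInv_eq : dedekindEtaUnitInv = etaInvP ^ 24 := by
  have h1 : dedekindEtaUnit * etaInvP ^ 24 = 1 := by
    rw [dedekindEtaUnit, ← mul_pow, etaProd_mul_etaInvP, one_pow]
  calc dedekindEtaUnitInv = dedekindEtaUnitInv * (dedekindEtaUnit * etaInvP ^ 24) := by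
        rw [h1, mul_one]
    _ = (dedekindEtaUnit * dedekindEtaUnitInv) * etaInvP ^ 24 := by ring
    _ = etaInvP ^ 24 := by rw [dedekindEtaUnit_mul_inv, one_mul]

theorem map_castInt_id (f : PowerSeries ℤ) : f.map (Int.castRingHom ℤ) = f := by
  ext n
  simp

theorem deltaL_int : deltaL ℤ = HahnSeries.single (1 : ℤ) (1 : ℤ) * e1L ^ 24 := by
  rw [deltaL, map_castInt_id, dedekindEtaUnit, e1L, map_pow]

theorem deltaInvL_int : deltaInvL ℤ = HahnSeries.single (-1 : ℤ) (1 : ℤ) * e1InvL ^ 24 := by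
  rw [deltaInvL, map_castInt_id, dedekindEtaUnitInv_eq, e1InvL, map_pow]

theorem unitL'_three_eq :
    unitL' 3 = HahnSeries.single (-2 : ℤ) (1 : ℤ) * e1L ^ 24 * qExpand ℤ 3 (e1InvL ^ 24) := by
  have hs : HahnSeries.single (1 : ℤ) (1 : ℤ) *
      HahnSeries.single (((3 : ℕ) : ℤ) * (-1 : ℤ)) (1 : ℤ)
      = HahnSeries.single (-2 : ℤ) (1 : ℤ) := by
    rw [HahnSeries.single_mul_single]
    norm_num
  rw [unitL', deltaL_int, deltaInvL_int, map_mul, qExpand_single, ← hs]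
  ring

theorem unitL_three_eq :
    unitL ℤ 3 = HahnSeries.single (2 : ℤ) (1 : ℤ) * e1InvL ^ 24 * qExpand ℤ 3 (e1L ^ 24) := by
  have hs : HahnSeries.single (((3 : ℕ) : ℤ) * (1 : ℤ)) (1 : ℤ) *
      HahnSeries.single (-1 : ℤ) (1 : ℤ)
      = HahnSeries.single (2 : ℤ) (1 : ℤ) := by
    rw [HahnSeries.single_mul_single]
    norm_num
  rw [unitL, deltaL_int, deltaInvL_int, map_mul, qExpand_single, ← hs]
  ring

theorem single_pow_three (k : ℤ) :
    (HahnSeries.single k (1 : ℤ) : LaurentSeries ℤ) ^ 3 = HahnSeries.single (3 * k) (1 : ℤ) := by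
  rw [pow_succ, pow_succ, pow_one, HahnSeries.single_mul_single, HahnSeries.single_mul_single]
  have h : k + k + k = 3 * k := by ring
  rw [h]
  norm_num

/-- **The cube relation**: `v³ = u'(t) · u'(t²)`, `u' = Δ(t)/Δ(t³)`. -/
theorem v3L_pow_three : v3L ^ 3 = unitL' 3 * qExpand ℤ 2 (unitL' 3) := by
  have h6 : qExpand ℤ 2 (qExpand ℤ 3 (e1InvL ^ 24)) = qExpand ℤ 6 (e1InvL ^ 24) := by
    rw [qExpand_qExpand]
  have hs3 : (HahnSeries.single (-2 : ℤ) (1 : ℤ) : LaurentSeries ℤ) ^ 3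
      = HahnSeries.single (-2 : ℤ) (1 : ℤ) *
        HahnSeries.single (((2 : ℕ) : ℤ) * (-2 : ℤ)) (1 : ℤ) := by
    rw [single_pow_three, HahnSeries.single_mul_single]
    norm_num
  rw [unitL'_three_eq, map_mul, map_mul, qExpand_single, h6, v3L, e8L_eq, e8InvL_eq]
  simp only [mul_pow, map_pow, ← pow_mul, hs3]
  ring

/-- **The cube relation for the inverse**: `v⁻³ = u(t) · u(t²)`, `u = Δ(t³)/Δ(t)`. -/
theorem v3InvL_pow_three : v3InvL ^ 3 = unitL ℤ 3 * qExpand ℤ 2 (unitL ℤ 3) := by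
  have h6 : qExpand ℤ 2 (qExpand ℤ 3 (e1L ^ 24)) = qExpand ℤ 6 (e1L ^ 24) := by
    rw [qExpand_qExpand]
  have hs3 : (HahnSeries.single (2 : ℤ) (1 : ℤ) : LaurentSeries ℤ) ^ 3
      = HahnSeries.single (2 : ℤ) (1 : ℤ) *
        HahnSeries.single (((2 : ℕ) : ℤ) * (2 : ℤ)) (1 : ℤ) := by
    rw [single_pow_three, HahnSeries.single_mul_single]
    norm_num
  rw [unitL_three_eq, map_mul, map_mul, qExpand_single, h6, v3InvL, e8L_eq, e8InvL_eq]
  simp only [mul_pow, map_pow, ← pow_mul, hs3]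
  ring

end Fermat.Agent.S59.Unit3.H461

end
end
-- ===== PACK-END S59/Unit3/H461/Unit3Cube.lean

-- ===== PACK-BEGIN S59/Unit3/H461/Unit3Elt.lean
section



/-!
# S59 / leaf UNIT-3 (p = 3 wall), part 5: the elements `v`, `v⁻¹` of `F_{N,E}`, `6 ∣ N`
(helper461)

* `vE E N h6 : FE E N`, `vE' E N h6 : FE E N` : the elements with `t`-expansions `v3L`, `v3InvL`;
* `u2E`, `u2E'` : the elements with expansions `u(t²)`, `u'(t²)`, `u = Δ(t³)/Δ(t)`;
* `vE_pow_three : v³ = u' · u'(t²)`, `vE'_pow_three : v⁻³ = u · u(t²)`;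
* `d3E = 3⁸ v⁻¹`, `d3E_mul_vE : D · D' = 3⁸`;
* `vE_unit_vinf` : `v` is a unit of the Gauss valuation ring `V∞`;
* `d3E_mem_of_j_mem`, `vE_mem_of_j_mem` : `D = 3⁸ v⁻¹` and `D' = v` lie in every valuation subring
  of `F_N` containing `j`; `vE_unit_of_j_mem` : both are units at every place over `E` where `j` is
  finite.
-/

set_option autoImplicit false
set_option synthInstance.maxHeartbeats 400000
set_option maxHeartbeats 1600000

noncomputable section

namespace Fermat.Agent.S59.Unit3.H461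

open ModularCurve HahnSeries Polynomial
open Fermat.Agent.A2.Mod Fermat.Agent.S28
open Fermat.Agent.S36.H438 (castE uE uE' dE)

/-! ## 1. The elements -/

section Elements

variable (E : IntermediateField ℚ Qb)

/-- An embedding of `E` into `ℂ`. -/
def embC : E →+* ℂ := (Fermat.Agent.S24.H997.ιK).comp (algebraMap E Qb)

theorem castE_v3L_mem_six : castE E v3L ∈ FE E 6 := v3L_mem_of_embedding (embC E)

theorem castE_v3L_mem (N : ℕ) [NeZero N] (h6 : 6 ∣ N) : castE E v3L ∈ FE E N :=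
  Fermat.Agent.S36.H438.laurentBaseChange_mono_h438 E (full_degeneracy_le h6)
    (castE_v3L_mem_six E)

theorem castE_v3L_mul_inv : castE E v3L * castE E v3InvL = 1 := by
  rw [← map_mul, v3L_mul_v3InvL, map_one]

theorem castE_v3InvL_eq_inv : castE E v3InvL = (castE E v3L)⁻¹ :=
  eq_inv_of_mul_eq_one_right (castE_v3L_mul_inv E)

theorem castE_v3InvL_mem (N : ℕ) [NeZero N] (h6 : 6 ∣ N) : castE E v3InvL ∈ FE E N := by
  rw [castE_v3InvL_eq_inv]
  exact inv_mem (castE_v3L_mem E N h6)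

/-- `X(t) ∈ F_3 ⟹ X(t²) ∈ F_N`, `6 ∣ N`. -/
theorem castE_qExpand_two_mem {X : LaurentSeries ℤ} (hX : castE E X ∈ FE E 3)
    (N : ℕ) [NeZero N] (h6 : 6 ∣ N) : castE E (qExpand ℤ 2 X) ∈ FE E N := by
  have h1 : castE E (qExpand ℤ 2 X)
      = ((heckeBetaBar E 3 2 ⟨castE E X, hX⟩ : FE E (3 * 2)) : LaurentSeries E) := by
    rw [coe_heckeBetaBar]
    exact coeffMap_qExpand _ 2 X
  rw [h1]
  have h32 : 3 * 2 ∣ N := by simpa using h6
  exact Fermat.Agent.S36.H438.laurentBaseChange_mono_h438 E (full_degeneracy_le h32)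
    (SetLike.coe_mem _)

variable (N : ℕ) [NeZero N] (h6 : 6 ∣ N)

/-- **The unit of level `6`** `v = (η(τ)η(2τ)/(η(3τ)η(6τ)))⁸` as an element of `F_{N,E}`. -/
def vE : FE E N := ⟨castE E v3L, castE_v3L_mem E N h6⟩

/-- Its inverse. -/
def vE' : FE E N := ⟨castE E v3InvL, castE_v3InvL_mem E N h6⟩

/-- `u(t²)`, `u = Δ(t³)/Δ(t)`. -/
def u2E : FE E N :=
  ⟨castE E (qExpand ℤ 2 (unitL ℤ 3)),
    castE_qExpand_two_mem E (Fermat.Agent.S36.H438.castE_unitL_mem_level E 3) N h6⟩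

/-- `u'(t²)`, `u' = Δ(t)/Δ(t³)`. -/
def u2E' : FE E N :=
  ⟨castE E (qExpand ℤ 2 (H589.unitL' 3)),
    castE_qExpand_two_mem E (Fermat.Agent.S36.H438.castE_unitL'_mem E 3 3 dvd_rfl) N h6⟩

@[simp] theorem coe_vE : ((vE E N h6 : FE E N) : LaurentSeries E) = castE E v3L := rfl

@[simp] theorem coe_vE' : ((vE' E N h6 : FE E N) : LaurentSeries E) = castE E v3InvL := rfl

@[simp] theorem coe_u2E :
    ((u2E E N h6 : FE E N) : LaurentSeries E) = castE E (qExpand ℤ 2 (unitL ℤ 3)) := rfl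

@[simp] theorem coe_u2E' :
    ((u2E' E N h6 : FE E N) : LaurentSeries E) = castE E (qExpand ℤ 2 (H589.unitL' 3)) := rfl

theorem vE_mul_vE' : vE E N h6 * vE' E N h6 = 1 :=
  Subtype.ext (castE_v3L_mul_inv E)

theorem vE_ne_zero : vE E N h6 ≠ 0 := fun h => by
  have := vE_mul_vE' E N h6
  rw [h, zero_mul] at this
  exact zero_ne_one this

theorem vE'_ne_zero : vE' E N h6 ≠ 0 := fun h => by
  have := vE_mul_vE' E N h6
  rw [h, mul_zero] at this
  exact zero_ne_one this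

theorem vE'_eq_inv : vE' E N h6 = (vE E N h6)⁻¹ :=
  eq_inv_of_mul_eq_one_right (vE_mul_vE' E N h6)

theorem vE_inv : (vE E N h6)⁻¹ = vE' E N h6 := (vE'_eq_inv E N h6).symm

theorem vE'_inv : (vE' E N h6)⁻¹ = vE E N h6 := by
  rw [vE'_eq_inv, inv_inv]

theorem u2E_mul_u2E' : u2E E N h6 * u2E' E N h6 = 1 := by
  apply Subtype.ext
  show castE E (qExpand ℤ 2 (unitL ℤ 3)) * castE E (qExpand ℤ 2 (H589.unitL' 3)) = 1
  rw [← map_mul, ← map_mul, Fermat.Agent.S36.H438.unitL_mul_unitL', map_one, map_one]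

include h6 in
omit [NeZero N] in
theorem three_dvd_of_six_dvd : 3 ∣ N := Dvd.dvd.trans (by norm_num) h6

include h6 in
omit [NeZero N] in
theorem two_dvd_of_six_dvd : 2 ∣ N := Dvd.dvd.trans (by norm_num) h6

/-- **The cube relation** in `F_{N,E}`: `v³ = u' · u'(t²)`. -/
theorem vE_pow_three :
    vE E N h6 ^ 3 = uE' E N 3 (three_dvd_of_six_dvd N h6) * u2E' E N h6 := by
  apply Subtype.ext
  show (castE E v3L) ^ 3 = castE E (H589.unitL' 3) * castE E (qExpand ℤ 2 (H589.unitL' 3))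
  rw [← map_pow, v3L_pow_three, map_mul]

/-- **The cube relation** for the inverse: `v⁻³ = u · u(t²)`. -/
theorem vE'_pow_three :
    vE' E N h6 ^ 3 = uE E N 3 (three_dvd_of_six_dvd N h6) * u2E E N h6 := by
  apply Subtype.ext
  show (castE E v3InvL) ^ 3 = castE E (unitL ℤ 3) * castE E (qExpand ℤ 2 (unitL ℤ 3))
  rw [← map_pow, v3InvL_pow_three, map_mul]

/-- `D = 3⁸ v⁻¹`. -/
def d3E : FE E N := algebraMap E (FE E N) ((3 : E) ^ 8) * vE' E N h6

theorem coe_d3E :
    ((d3E E N h6 : FE E N) : LaurentSeries E)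
      = castE E ((3 : LaurentSeries ℤ) ^ 8 * v3InvL) := by
  show algebraMap E (LaurentSeries E) ((3 : E) ^ 8) * castE E v3InvL = _
  rw [map_mul, map_pow, map_pow, map_ofNat, map_ofNat]

/-- **The unit pair**: `D · D' = 3⁸`. -/
theorem d3E_mul_vE : d3E E N h6 * vE E N h6 = algebraMap E (FE E N) ((3 : E) ^ 8) := by
  rw [d3E, mul_assoc, mul_comm (vE' E N h6), vE_mul_vE', mul_one]

theorem three_pow_ne_zero (n : ℕ) : ((3 : E) ^ n) ≠ 0 := pow_ne_zero _ (by norm_num)

theorem d3E_ne_zero : d3E E N h6 ≠ 0 :=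
  mul_ne_zero ((map_ne_zero_iff _ (algebraMap E (FE E N)).injective).mpr (three_pow_ne_zero E 8))
    (vE'_ne_zero E N h6)

theorem d3E_inv :
    (d3E E N h6)⁻¹ = algebraMap E (FE E N) ((3 : E) ^ 8)⁻¹ * vE E N h6 := by
  rw [d3E, mul_inv, vE'_inv, map_inv₀]

/-- `D³ = (3¹² u) · (3¹² u(t²))`. -/
theorem d3E_pow_three :
    d3E E N h6 ^ 3 = dE E N 3 (three_dvd_of_six_dvd N h6) *
      (algebraMap E (FE E N) ((3 : E) ^ 12) * u2E E N h6) := by
  rw [d3E, mul_pow, vE'_pow_three, dE, ← map_pow]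
  have h : ((3 : E) ^ 8) ^ 3 = (3 : E) ^ 12 * (3 : E) ^ 12 := by ring
  rw [h, map_mul]
  push_cast
  ring

end Elements

/-! ## 2. `v` is a unit of the Gauss valuation ring `V∞` -/

section Gauss

variable (P : ValuationSubring Qb) (E : IntermediateField ℚ Qb) (N : ℕ) [NeZero N] (h6 : 6 ∣ N)

/-- **UNIT-3 (1)**: `D' = v` is a unit of `V∞`. -/
theorem vE_unit_vinf {V : ValuationSubring (FE E N)} (hV : IsVinf P E N V) :
    vE E N h6 ∈ V ∧ (vE E N h6)⁻¹ ∈ V := by
  refine ⟨Fermat.Agent.S36.H438.mem_vinf_of_coe_eq_castE P E hV (coe_vE E N h6), ?_⟩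
  rw [vE_inv]
  exact Fermat.Agent.S36.H438.mem_vinf_of_coe_eq_castE P E hV (coe_vE' E N h6)

end Gauss

end Fermat.Agent.S59.Unit3.H461

end
end
-- ===== PACK-END S59/Unit3/H461/Unit3Elt.lean

-- ===== PACK-BEGIN S59/LO/H405/PivotTop.lean
section








/-!
# Row S59, cell LO, sub-row LO-IA (helper405): the W-TOP

`pivotW35_of : [closed cells as Props] → S39W35Statement → IACoreFlat35Statement →
  IACoreSord35Statement → LOW.PivotW35Statement`.

`W` semistable, `p ∈ {3, 5}`, `E[p]` irreducible, `L` squarefree, modular, MINIMAL, every prime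
`r ≠ p` of `L` at which `E[p]` is unramified is a pivot.  Claim: there is no such prime.

* `Ram` / `Piv` = the primes `q ≠ p` of `L` at which `E[p]` is ramified / unramified,
  `Smin = {p} ∪ Ram` is the minimal set (`ResUnram`: `E[p]` is unramified outside `pL`);
* `p ∤ L`: `E[p]` is flat (`ResFlat`), `L = ribetLevel p Smin Piv`, IA-core (flat);
* `p ∣ L`, `E[p]` flat: `FlatPeu` + S39 give the level `L / p`, against minimality;
* `p ∣ L`, `E[p]` not flat: `W` is multiplicative at `p` (`CurveRep.flat` + RED), so `ρ̄` is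
  strictly ordinary (`CurveRep.ord` + RED), `L = ribetLevel p Smin Piv * p`, IA-core (sord);
* coefficients: DICT with roots of unity (helper723), `ResidualHyp` (cell GTW), pivots by base
  change of scalars; BACK: helper401's `back401_congr` + (R3'-W).
-/

set_option autoImplicit false
set_option linter.style.haveILetI false
set_option linter.unusedVariables false

open Polynomial IsLocalRing
open scoped WeierstrassCurve.Affine

namespace Fermat.Agent.S59.LO.H405

open Fermat.Agent.S59.Arch Fermat.Agent.S59.Arch.LOW Fermat.Agent.S59.H934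
open Fermat.Agent.S38.IA Fermat.Agent.Ribet.Spec

/-! ## Arithmetic of Ribet's level -/

/-- Removing a pivot divides the level by it. -/
theorem ribetLevel_eq_mul_erase405 (p : ℕ) (Smin : Finset ℕ) {Piv : Finset ℕ} {q : ℕ}
    (hq : q ∈ Piv) : ribetLevel p Smin Piv = q * ribetLevel p Smin (Piv.erase q) := by
  unfold ribetLevel
  rw [← Finset.mul_prod_erase Piv (fun r => r) hq]
  ring

/-- The level after removing a pivot (flat case). -/
theorem ribetLevel_erase_eq_div405 {p L : ℕ} {Smin Piv : Finset ℕ} {q : ℕ} (hq : q ∈ Piv)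
    (hqpos : 0 < q) (h : ribetLevel p Smin Piv = L) :
    ribetLevel p Smin (Piv.erase q) = L / q := by
  symm
  apply Nat.div_eq_of_eq_mul_right hqpos
  rw [← h]
  exact ribetLevel_eq_mul_erase405 p Smin hq

/-- The level after removing a pivot (ordinary case). -/
theorem ribetLevel_erase_mul_eq_div405 {p L : ℕ} {Smin Piv : Finset ℕ} {q : ℕ} (hq : q ∈ Piv)
    (hqpos : 0 < q) (h : ribetLevel p Smin Piv * p = L) :
    ribetLevel p Smin (Piv.erase q) * p = L / q := by
  symm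
  apply Nat.div_eq_of_eq_mul_right hqpos
  rw [← h, ribetLevel_eq_mul_erase405 p Smin hq]
  ring

/-! ## BACK in W-form -/

/-- **BACK-W**: residual modularity in the sense of row S59 gives residual modularity in the
sense of the Prelude. -/
theorem backW405 (hR3' : AlmostAllToWitnessWStatement)
    (p : ℕ) [Fact p.Prime] (hp2 : p ≠ 2) (W : WeierstrassCurve ℤ) (hΔ : W.Δ ≠ 0)
    (hirr : W.ModRepIsIrreducible p)
    (hcard : Nat.card (Submodule.torsionBy ℤ
      ((W.map (Int.castRingHom ℚ))⁄(AlgebraicClosure ℚ)).Point p) = p ^ 2)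
    (hker : GaloisFactorsThroughFiniteLevel
      (WeierstrassCurve.Affine.Point.galoisRepModuleEnd (K := AlgebraicClosure ℚ) ℚ
        (W.map (Int.castRingHom ℚ)) p))
    (𝒪 : Type) [CommRing 𝒪] [IsDomain 𝒪] [IsDiscreteValuationRing 𝒪]
    [IsAdicComplete (maximalIdeal 𝒪) 𝒪]
    (ι : ZMod p →+* ResidueField 𝒪) {M : ℕ} (S : Finset ℕ)
    (h : ResModular 𝒪 (curveResidual p W hcard hker ι) M S) :
    W.IsResiduallyModularOfLevel p M := by
  obtain ⟨hM, θ, hθ⟩ := h
  haveI := hM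
  obtain ⟨f, 𝔪, S', hf, h𝔪, hp𝔪, hcong⟩ :=
    Fermat.Agent.S38.H401.back401_congr p W hΔ hirr hcard hker ι S θ hθ
  exact ⟨f, 𝔪, hR3' W p M hΔ Fact.out hp2 (Nat.pos_of_ne_zero (NeZero.ne M)) hirr f 𝔪 S' hf h𝔪
    hp𝔪 hcong⟩

/-! ## The W-TOP -/

/-- **LO-IA, W-TOP.** -/
theorem pivotW35_of (hDICT : DictStatement) (hGTW : CurveResidualHypStatement)
    (hBC : ResidualBCStatement) (hCR : CurveRepStatement) (hRED : ResidualOfAdicStatement)
    (hCOND : SigmaCondStatement) (hU : ResUnramStatement) (hF : ResFlatStatement)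
    (hFP : FlatPeuStatement) (hR3' : AlmostAllToWitnessWStatement)
    (h39 : S39W35Statement) (hIAf : IACoreFlat35Statement) (hIAs : IACoreSord35Statement) :
    PivotW35Statement := by
  classical
  intro p _ hp W hΔ hW hirr hcard hker L hL hres hmin hpiv r₀ hr₀ hr₀L hr₀p hunr₀
  have hpp : p.Prime := Fact.out
  have hp2 : p ≠ 2 := by rcases hp with rfl | rfl <;> decide
  have hL0 : L ≠ 0 := hL.ne_zero
  haveI hLne : NeZero L := ⟨hL0⟩
  set ρFp : ResidualGaloisRep (ZMod p) :=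
    (W.map (Int.castRingHom ℚ)).residualGaloisRepOf p hcard hker with hρFp
  -- the sets
  set Ram : Finset ℕ := L.primeFactors.filter (fun q => q ≠ p ∧ ¬ ρFp.IsUnramifiedAt q)
    with hRam
  set Piv : Finset ℕ := L.primeFactors.filter (fun q => q ≠ p ∧ ρFp.IsUnramifiedAt q)
    with hPivdef
  set Smin : Finset ℕ := insert p Ram with hSmin
  have hRam_mem : ∀ q : ℕ, q ∈ Ram ↔ (q.Prime ∧ q ∣ L) ∧ q ≠ p ∧ ¬ ρFp.IsUnramifiedAt q := by
    intro q
    rw [hRam, Finset.mem_filter, Nat.mem_primeFactors]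
    constructor
    · rintro ⟨⟨h1, h2, -⟩, h3⟩
      exact ⟨⟨h1, h2⟩, h3⟩
    · rintro ⟨⟨h1, h2⟩, h3⟩
      exact ⟨⟨h1, h2, hL0⟩, h3⟩
  have hPiv_mem : ∀ q : ℕ, q ∈ Piv ↔ (q.Prime ∧ q ∣ L) ∧ q ≠ p ∧ ρFp.IsUnramifiedAt q := by
    intro q
    rw [hPivdef, Finset.mem_filter, Nat.mem_primeFactors]
    constructor
    · rintro ⟨⟨h1, h2, -⟩, h3⟩
      exact ⟨⟨h1, h2⟩, h3⟩
    · rintro ⟨⟨h1, h2⟩, h3⟩
      exact ⟨⟨h1, h2, hL0⟩, h3⟩
  have hpRam : p ∉ Ram := fun h => ((hRam_mem p).mp h).2.1 rfl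
  have hSerase : Smin.erase p = Ram := by
    rw [hSmin, Finset.erase_insert hpRam]
  have hdisj : Disjoint Ram Piv := by
    rw [Finset.disjoint_left]
    intro q h1 h2
    exact ((hRam_mem q).mp h1).2.2 ((hPiv_mem q).mp h2).2.2
  have hpS : p ∈ Smin ∪ Piv := Finset.mem_union_left _ (Finset.mem_insert_self _ _)
  have hSminP : ∀ q ∈ Smin, q.Prime := by
    intro q hq
    rcases Finset.mem_insert.mp hq with rfl | h
    · exact hpp
    · exact ((hRam_mem q).mp h).1.1
  have hPivP : ∀ q ∈ Piv, q.Prime := fun q hq => ((hPiv_mem q).mp hq).1.1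
  have hSP : ∀ q ∈ Smin ∪ Piv, q.Prime := by
    intro q hq
    rcases Finset.mem_union.mp hq with h | h
    · exact hSminP q h
    · exact hPivP q h
  have hNS : ∀ q : ℕ, q.Prime → q ∣ L → q ∈ Smin ∪ Piv := by
    intro q hq hqL
    by_cases hqp : q = p
    · rw [hqp]
      exact hpS
    · by_cases hu : ρFp.IsUnramifiedAt q
      · exact Finset.mem_union_right _ ((hPiv_mem q).mpr ⟨⟨hq, hqL⟩, hqp, hu⟩)
      · exact Finset.mem_union_left _
          (Finset.mem_insert_of_mem ((hRam_mem q).mpr ⟨⟨hq, hqL⟩, hqp, hu⟩))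
  have hminFp : IsMinSet p ρFp Smin := by
    refine ⟨Finset.mem_insert_self _ _, hSminP, fun q hq hqp => ⟨fun h => ?_, fun h => ?_⟩⟩
    · rcases Finset.mem_insert.mp h with rfl | h
      · exact absurd rfl hqp
      · exact ((hRam_mem q).mp h).2.2
    · refine Finset.mem_insert_of_mem ((hRam_mem q).mpr ⟨⟨hq, ?_⟩, hqp, h⟩)
      by_contra hqL
      exact h (hU p hp W hΔ hW hirr hcard hker L hL hres q hq hqp hqL)
  have hne : Piv.Nonempty := ⟨r₀, (hPiv_mem r₀).mpr ⟨⟨hr₀, hr₀L⟩, hr₀p, hunr₀⟩⟩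
  -- the product of the primes of `L` different from `p`
  have hprod : ribetLevel p Smin Piv = ∏ q ∈ Ram ∪ Piv, q := by
    unfold ribetLevel
    rw [hSerase, Finset.prod_union hdisj]
  -- coefficients
  obtain ⟨𝒪, i1, i2, i3, i4, i5, i6, ι, χ, hp𝒪, hsplit, hRF, hroots⟩ :=
    Fermat.Agent.Ribet.H723.Top.dictRoots_of_dict hDICT p hp2 W hΔ hW hirr hcard hker L
      (Smin ∪ Piv) hpS hSP hNS hres (Fermat.Agent.Ribet.H723.Top.pivotOrder Piv)
      (Fermat.Agent.Ribet.H723.Top.pivotOrder_pos Piv hPivP)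
  set ρbar : ResidualGaloisRep (ResidueField 𝒪) := curveResidual p W hcard hker ι with hρbar
  have hBCι := hBC p ρFp (ResidueField 𝒪) ι
  have hminbar : IsMinSet p ρbar Smin := by
    refine ⟨hminFp.1, hminFp.2.1, fun q hq hqp => ?_⟩
    rw [hminFp.2.2 q hq hqp]
    exact not_congr (hBCι.1 q hq).symm
  have hRH : ResidualHyp p 𝒪 ρbar Smin :=
    hGTW p hp W hΔ hW hirr hcard hker 𝒪 hp𝒪 ι hsplit Smin hminbar
  have hPiv : IsPivotSet p ρbar Smin Piv := by
    intro q hq
    obtain ⟨⟨hqP, hqL⟩, hqp, hqu⟩ := (hPiv_mem q).mp hq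
    obtain ⟨hdvd, hsc⟩ := hpiv q hqP hqL hqp hqu
    refine ⟨hqP, ?_, hdvd, ?_⟩
    · intro hmem
      rcases Finset.mem_insert.mp hmem with h | h
      · exact hqp h
      · exact ((hRam_mem q).mp h).2.2 hqu
    · intro A hA φ hφ
      obtain ⟨c, hc⟩ := hsc A hA φ hφ
      exact ⟨ι c, Fermat.Agent.Ribet.H723.Top.baseChangeAlong_rho_of_scalar ι ρFp φ c hc⟩
  have hroots' : ∀ q ∈ Piv, ∀ m : ℕ, p ^ m ∣ q - 1 → ∃ ζ : 𝒪, IsPrimitiveRoot ζ (p ^ m) :=
    Fermat.Agent.Ribet.H723.Top.hroots_of_pivotOrder p Piv hroots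
  have hmodL : ResModular 𝒪 ρbar L (Smin ∪ Piv) := ⟨hLne, _, hRF⟩
  by_cases hpL : p ∣ L
  · -- `p` divides the level
    by_cases hflatFp : (GaloisRepAdic.ofResidualGaloisRep ρFp).IsFlatAt p
    · -- flat: remove `p` by S39, against minimality
      have hfin := hFP p hp W hΔ hW hirr hcard hker hflatFp
      exact hmin p hpp hpL (h39 p hp W hΔ hW hirr hfin L hL hpL hres)
    · -- not flat: strictly ordinary
      have hnflat : ¬ (GaloisRepAdic.ofResidualGaloisRep ρbar).IsFlatAt p :=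
        fun h => hflatFp (hBCι.2.mp h)
      obtain ⟨ρW⟩ := hCR p hp2 W hΔ hW hirr 𝒪 hp𝒪
      have hresW : ρW.ρ.residual.IsEquiv ρbar := by
        have h := ρW.residual
        have hι : ρW.ι = ι := Subsingleton.elim _ _
        rw [hι] at h
        exact h
      set bad : Finset ℕ := W.Δ.natAbs.primeFactors with hbad
      have hbadmem : ∀ q : ℕ, q.Prime → ((q : ℤ) ∣ W.Δ ↔ q ∈ bad) := by
        intro q hq
        rw [hbad, Nat.mem_primeFactors, Int.natCast_dvd]
        constructor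
        · intro h
          exact ⟨hq, h, Int.natAbs_ne_zero.mpr hΔ⟩
        · intro h
          exact h.2.1
      have hunrW : ∀ q : ℕ, q.Prime → q ∉ insert p bad → ρW.ρ.IsUnramifiedAt q := by
        intro q hq hqS
        have hqp : q ≠ p := fun h => hqS (h ▸ Finset.mem_insert_self _ _)
        refine ρW.unram q hq (fun hd => hqS ?_) hqp
        exact Finset.mem_insert_of_mem ((hbadmem q hq).mp hd)
      have hunipW : ∀ q ∈ ({p} : Finset ℕ), q.Prime → q ≠ p →
          ρW.ρ.IsUnipotentOnInertiaAt q := by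
        intro q hq _ hqp
        exact absurd (Finset.mem_singleton.mp hq) hqp
      have hred : ∀ t : PType, sigmaCond 𝒪 p t {p} (insert p bad) ρW.ρ →
          sigmaCond 𝒪 p t {p} (insert p bad) (GaloisRepAdic.ofResidualGaloisRep ρbar) :=
        fun t h => hRED 𝒪 (sigmaCond 𝒪 p t {p} (insert p bad))
          (hCOND p hp2 𝒪 hp𝒪 t {p} (insert p bad)).1 ρW.ρ ρbar hresW h
      have hbadp : ¬ W.IsGoodPrimeFor p := by
        intro hgood
        have hfl : ρW.ρ.IsFlatAt p := ρW.flat hgood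
        have hcf : sigmaCond 𝒪 p .flat {p} (insert p bad) ρW.ρ :=
          ⟨⟨ρW.det, hfl, hunrW⟩, hunipW⟩
        exact hnflat (hred .flat hcf).1.2.1
      have hso : ρW.ρ.IsStrictOrdinaryAt p := ρW.ord hbadp
      have hcs : sigmaCond 𝒪 p .sord {p} (insert p bad) ρW.ρ := ⟨⟨ρW.det, hso, hunrW⟩, hunipW⟩
      have hsobar : (GaloisRepAdic.ofResidualGaloisRep ρbar).IsStrictOrdinaryAt p :=
        (hred .sord hcs).1.2.1
      -- the level
      have hlev : ribetLevel p Smin Piv * p = L := by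
        rw [hprod]
        have hpnot : p ∉ Ram ∪ Piv := by
          intro h
          rcases Finset.mem_union.mp h with h | h
          · exact hpRam h
          · exact ((hPiv_mem p).mp h).2.1 rfl
        have h1 : (∏ q ∈ Ram ∪ Piv, q) * p = ∏ q ∈ insert p (Ram ∪ Piv), q := by
          rw [Finset.prod_insert hpnot, mul_comm]
        rw [h1]
        symm
        apply eq_prod_of_primeDivisors hL
        intro q
        rw [Finset.mem_insert, Finset.mem_union, hRam_mem, hPiv_mem]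
        constructor
        · rintro (rfl | h | h)
          · exact ⟨hpp, hpL⟩
          · exact h.1
          · exact h.1
        · rintro ⟨hq, hqL⟩
          by_cases hqp : q = p
          · exact Or.inl hqp
          · by_cases hu : ρFp.IsUnramifiedAt q
            · exact Or.inr (Or.inr ⟨⟨hq, hqL⟩, hqp, hu⟩)
            · exact Or.inr (Or.inl ⟨⟨hq, hqL⟩, hqp, hu⟩)
      have hmod : ResModular 𝒪 ρbar (ribetLevel p Smin Piv * p) (Smin ∪ Piv) := by
        rw [hlev]
        exact hmodL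
      obtain ⟨q, hq, S', hS'⟩ :=
        hIAs p hp 𝒪 ρbar Smin hRH hsobar hnflat Piv hPiv hne hroots' hmod
      obtain ⟨⟨hqP, hqL⟩, -, -⟩ := (hPiv_mem q).mp hq
      rw [ribetLevel_erase_mul_eq_div405 hq hqP.pos hlev] at hS'
      exact hmin q hqP hqL (backW405 hR3' p hp2 W hΔ hirr hcard hker 𝒪 ι S' hS')
  · -- `p` does not divide the level: flat
    have hflatFp := hF p hp W hΔ hW hirr hcard hker L hL hres hpL
    have hflat : (GaloisRepAdic.ofResidualGaloisRep ρbar).IsFlatAt p := hBCι.2.mpr hflatFp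
    have hlev : ribetLevel p Smin Piv = L := by
      rw [hprod]
      symm
      apply eq_prod_of_primeDivisors hL
      intro q
      rw [Finset.mem_union, hRam_mem, hPiv_mem]
      constructor
      · rintro (h | h)
        · exact h.1
        · exact h.1
      · rintro ⟨hq, hqL⟩
        have hqp : q ≠ p := by
          rintro rfl
          exact hpL hqL
        by_cases hu : ρFp.IsUnramifiedAt q
        · exact Or.inr ⟨⟨hq, hqL⟩, hqp, hu⟩
        · exact Or.inl ⟨⟨hq, hqL⟩, hqp, hu⟩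
    have hmod : ResModular 𝒪 ρbar (ribetLevel p Smin Piv) (Smin ∪ Piv) := by
      rw [hlev]
      exact hmodL
    obtain ⟨q, hq, S', hS'⟩ := hIAf p hp 𝒪 ρbar Smin hRH hflat Piv hPiv hne hroots' hmod
    obtain ⟨⟨hqP, hqL⟩, -, -⟩ := (hPiv_mem q).mp hq
    rw [ribetLevel_erase_eq_div405 hq hqP.pos hlev] at hS'
    exact hmin q hqP hqL (backW405 hR3' p hp2 W hΔ hirr hcard hker 𝒪 ι S' hS')

end Fermat.Agent.S59.LO.H405

end
-- ===== PACK-END S59/LO/H405/PivotTop.lean

-- ===== PACK-BEGIN S59/UnitQR/H464/QRExp.lean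
section



/-!
# S59 / cell B1, leaf UNIT-QR, part 2: the `q`-expansion of `v` and the function field
(helper464; generic twin of helper461's `Unit3Exp`)

`vQRL q r = t^(-m) ∏ₙ ((1 - tⁿ)(1 - t^(rn)) / ((1 - t^(qn))(1 - t^(qrn))))⁸ ∈ ℤ((t))`,
`m = (q - 1)(r + 1)/3`, is the `q`-expansion of `vQR q r`; hence it lies in the function field
of `X₀(q r)` over `ℂ`, and over every field `K ⊆ ℂ`.
-/

set_option autoImplicit false

noncomputable section

open Complex ModularForm CongruenceSubgroup ModularCurve HahnSeries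
open UpperHalfPlane hiding I
open scoped MatrixGroups Real Manifold

namespace Fermat.Agent.S59.UnitQR.H464

open Fermat.Agent.S28.H589 (scaleH scaleH_coe unitFun unitFun' hasTExp_comp_scaleH iotaC)
open Fermat.Agent.S28.H565 (HasTExp HasPExp eulerFun etaProdC etaInvC hasPExp_eulerFun
  hasPExp_eulerFun_pow_inv eulerFun_ne_zero etaProdC_pow_mul_etaInvC)
open Fermat.Agent.S24.H648 (goodRing ExpGrowth)
open Fermat.Agent.S59.Unit3.H461

local notation "𝕢" => Function.Periodic.qParam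

/-! ## The exponent -/

/-- The order of the pole of `v` at `∞`: `m = (q - 1)(r + 1)/3`. -/
def expQR (q r : ℕ) : ℕ := (q - 1) * (r + 1) / 3

theorem three_mul_expQR {q r : ℕ} (hq : 0 < q) (h : QRAdm q r) :
    3 * expQR q r + r + 1 = q * r + q := by
  have hdvd : 3 ∣ (q - 1) * (r + 1) := by
    rw [← ZMod.natCast_eq_zero_iff]
    have h1 : ((q - 1 : ℕ) : ZMod 3) = (q : ZMod 3) - 1 := by
      rw [Nat.cast_sub hq]
      simp
    rw [Nat.cast_mul, h1, Nat.cast_add, Nat.cast_one]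
    exact h.rel
  have h2 : 3 * expQR q r = (q - 1) * (r + 1) := Nat.mul_div_cancel' hdvd
  obtain ⟨k, rfl⟩ : ∃ k, q = k + 1 := ⟨q - 1, by omega⟩
  rw [h2]
  simp only [Nat.add_sub_cancel]
  ring

/-! ## The formal series -/

section Series

variable (q r : ℕ) [NeZero q] [NeZero r]

/-- **The unit of level `q r`**:
`v = t^(-m) ∏ₙ ((1 - tⁿ)(1 - t^(rn)) / ((1 - t^(qn))(1 - t^(qrn))))⁸`. -/
def vQRL : LaurentSeries ℤ :=
  HahnSeries.single (-(expQR q r : ℤ)) (1 : ℤ) * e8L * qExpand ℤ r e8L * qExpand ℤ q e8InvL *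
    qExpand ℤ (q * r) e8InvL

/-- Its inverse. -/
def vQRInvL : LaurentSeries ℤ :=
  HahnSeries.single ((expQR q r : ℤ)) (1 : ℤ) * e8InvL * qExpand ℤ r e8InvL * qExpand ℤ q e8L *
    qExpand ℤ (q * r) e8L

theorem vQRL_mul_vQRInvL : vQRL q r * vQRInvL q r = 1 := by
  have h1 : HahnSeries.single (-(expQR q r : ℤ)) (1 : ℤ) *
      HahnSeries.single ((expQR q r : ℤ)) (1 : ℤ) = 1 := by
    rw [HahnSeries.single_mul_single]
    simp
  have h2 : qExpand ℤ r e8L * qExpand ℤ r e8InvL = 1 := by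
    rw [← map_mul, e8L_mul_e8InvL, map_one]
  have h3 : qExpand ℤ q e8InvL * qExpand ℤ q e8L = 1 := by
    rw [← map_mul, mul_comm e8InvL e8L, e8L_mul_e8InvL, map_one]
  have h6 : qExpand ℤ (q * r) e8InvL * qExpand ℤ (q * r) e8L = 1 := by
    rw [← map_mul, mul_comm e8InvL e8L, e8L_mul_e8InvL, map_one]
  rw [vQRL, vQRInvL]
  calc HahnSeries.single (-(expQR q r : ℤ)) (1 : ℤ) * e8L * qExpand ℤ r e8L *
        qExpand ℤ q e8InvL * qExpand ℤ (q * r) e8InvL *
        (HahnSeries.single ((expQR q r : ℤ)) (1 : ℤ) * e8InvL * qExpand ℤ r e8InvL *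
          qExpand ℤ q e8L * qExpand ℤ (q * r) e8L)
      = (HahnSeries.single (-(expQR q r : ℤ)) (1 : ℤ) *
            HahnSeries.single ((expQR q r : ℤ)) (1 : ℤ)) *
          (e8L * e8InvL) * (qExpand ℤ r e8L * qExpand ℤ r e8InvL) *
          (qExpand ℤ q e8InvL * qExpand ℤ q e8L) *
          (qExpand ℤ (q * r) e8InvL * qExpand ℤ (q * r) e8L) := by
        ring
    _ = 1 := by rw [h1, e8L_mul_e8InvL, h2, h3, h6]; simp

end Series

/-! ## The analytic expansion -/

section Analytic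

variable (q r : ℕ) [NeZero q] [NeZero r]

theorem inv_pow_eight {E : ℂ} (hE : E ≠ 0) : ((E ^ 24)⁻¹ * E ^ 23) ^ 8 = (E ^ 8)⁻¹ := by
  field_simp

/-- `v` in terms of the Euler function. -/
theorem vQR_eq (h : QRAdm q r) (τ : ℍ) :
    vQR q r (NeZero.pos q) (NeZero.pos r) τ =
      𝕢 1 (τ : ℂ) ^ (-(expQR q r : ℤ)) * eulerT τ ^ 8 *
      eulerT (scaleH r (NeZero.pos r) τ) ^ 8 *
      ((eulerT (scaleH q (NeZero.pos q) τ) ^ 24)⁻¹ *
        eulerT (scaleH q (NeZero.pos q) τ) ^ 23) ^ 8 *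
      ((eulerT (scaleH (q * r) (Nat.mul_pos (NeZero.pos q) (NeZero.pos r)) τ) ^ 24)⁻¹ *
        eulerT (scaleH (q * r) (Nat.mul_pos (NeZero.pos q) (NeZero.pos r)) τ) ^ 23) ^ 8 := by
  have hx : cexp (2 * π * I * (τ : ℂ) / 3) ≠ 0 := Complex.exp_ne_zero _
  have h3 := eulerT_ne_zero (scaleH q (NeZero.pos q) τ)
  have h6 := eulerT_ne_zero (scaleH (q * r) (Nat.mul_pos (NeZero.pos q) (NeZero.pos r)) τ)
  have hm := three_mul_expQR (NeZero.pos q) h
  rw [inv_pow_eight h3, inv_pow_eight h6, vQR, eta8_eq, eta8_eq, eta8_eq, eta8_eq, cexp_scale,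
    cexp_scale, cexp_scale, qParam_eq_cube, zpow_neg, zpow_natCast]
  generalize cexp (2 * π * I * (τ : ℂ) / 3) = x at hx ⊢
  generalize eulerT (scaleH q (NeZero.pos q) τ) = Eq at h3 ⊢
  generalize eulerT (scaleH (q * r) (Nat.mul_pos (NeZero.pos q) (NeZero.pos r)) τ) = Eqr at h6 ⊢
  generalize eulerT (scaleH r (NeZero.pos r) τ) = Er
  generalize eulerT τ = E1
  have key : x * x ^ r * (x ^ 3) ^ expQR q r = x ^ q * x ^ (q * r) := by
    rw [← _root_.pow_mul, ← _root_.pow_succ', ← _root_.pow_add, ← _root_.pow_add]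
    congr 1
    omega
  have hxq : x ^ q ≠ 0 := pow_ne_zero _ hx
  have hxqr : x ^ (q * r) ≠ 0 := pow_ne_zero _ hx
  have hx3 : (x ^ 3) ^ expQR q r ≠ 0 := pow_ne_zero _ (pow_ne_zero _ hx)
  have hE8 : Eq ^ 8 ≠ 0 := pow_ne_zero _ h3
  have hE8' : Eqr ^ 8 ≠ 0 := pow_ne_zero _ h6
  rw [mul_inv, mul_inv]
  have e1 : (x ^ q)⁻¹ * (x ^ (q * r))⁻¹ * (x * x ^ r) = ((x ^ 3) ^ expQR q r)⁻¹ := by
    apply eq_inv_of_mul_eq_one_left
    calc (x ^ q)⁻¹ * (x ^ (q * r))⁻¹ * (x * x ^ r) * (x ^ 3) ^ expQR q r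
        = (x ^ q)⁻¹ * (x ^ (q * r))⁻¹ * (x * x ^ r * (x ^ 3) ^ expQR q r) := by ring
      _ = 1 := by
        rw [key, ← mul_inv]
        exact inv_mul_cancel₀ (mul_ne_zero hxq hxqr)
  calc x * E1 ^ 8 * (x ^ r * Er ^ 8) * ((x ^ q)⁻¹ * (Eq ^ 8)⁻¹) * ((x ^ (q * r))⁻¹ * (Eqr ^ 8)⁻¹)
      = ((x ^ q)⁻¹ * (x ^ (q * r))⁻¹ * (x * x ^ r)) * E1 ^ 8 * Er ^ 8 * (Eq ^ 8)⁻¹ *
          (Eqr ^ 8)⁻¹ := by ring
    _ = ((x ^ 3) ^ expQR q r)⁻¹ * E1 ^ 8 * Er ^ 8 * (Eq ^ 8)⁻¹ * (Eqr ^ 8)⁻¹ := by rw [e1]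

/-- The series of `v` over `ℂ`, in product form. -/
def vQRC : LaurentSeries ℂ :=
  HahnSeries.single (-(expQR q r : ℤ)) (1 : ℂ) * HahnSeries.ofPowerSeries ℤ ℂ (etaProdC ^ 8) *
    qExpand ℂ r (HahnSeries.ofPowerSeries ℤ ℂ (etaProdC ^ 8)) *
    qExpand ℂ q (HahnSeries.ofPowerSeries ℤ ℂ (etaInvPC ^ 8)) *
    qExpand ℂ (q * r) (HahnSeries.ofPowerSeries ℤ ℂ (etaInvPC ^ 8))

/-- **The `q`-expansion of `v`.** -/
theorem hasTExp_vQR (h : QRAdm q r) :
    HasTExp 1 (vQR q r (NeZero.pos q) (NeZero.pos r)) (vQRC q r) := by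
  have hs := HasTExp.single (h := 1) (-(expQR q r : ℤ))
  have h1 := hasTExp_eulerT_pow
  have h2 := hasTExp_comp_scaleH r (NeZero.pos r) hasTExp_eulerT_pow
  have h3 := hasTExp_comp_scaleH q (NeZero.pos q) hasTExp_eulerT_inv_pow
  have h6 := hasTExp_comp_scaleH (q * r) (Nat.mul_pos (NeZero.pos q) (NeZero.pos r))
    hasTExp_eulerT_inv_pow
  have h' := (((hs.mul h1).mul h2).mul h3).mul h6
  rw [vQRC]
  refine h'.congr fun τ => ?_
  rw [vQR_eq q r h]
  rfl

theorem iotaC_vQRL : iotaC (vQRL q r) = vQRC q r := by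
  have hE : PowerSeries.map (Int.castRingHom ℂ) etaInvP = etaInvPC := by
    rw [etaInvP, etaInvPC, map_mul, map_pow]
    rfl
  have h8 : iotaC e8L = HahnSeries.ofPowerSeries ℤ ℂ (etaProdC ^ 8) := by
    rw [e8L, iotaC, coeffMap_ofPowerSeries, map_pow]
    rfl
  have h8i : iotaC e8InvL = HahnSeries.ofPowerSeries ℤ ℂ (etaInvPC ^ 8) := by
    rw [e8InvL, iotaC, coeffMap_ofPowerSeries, map_pow, hE]
  have hq : ∀ (d : ℕ) [NeZero d] (x : LaurentSeries ℤ),
      iotaC (qExpand ℤ d x) = qExpand ℂ d (iotaC x) := by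
    intro d _ x
    rw [iotaC, coeffMap_qExpand]
  rw [vQRL, vQRC, map_mul, map_mul, map_mul, map_mul, hq, hq, hq, h8, h8i]
  congr 4
  rw [iotaC, coeffMap_single]
  simp

/-- **`v` lies in the function field of `X₀(q r)` over `ℂ`.** -/
theorem iotaC_vQRL_mem (h : QRAdm q r) :
    iotaC (vQRL q r) ∈ laurentBaseChange ℂ (modularFunctionFieldFull (q * r)) := by
  rw [iotaC_vQRL]
  refine Fermat.Agent.S29.H882.mem_FC_of_hasQExp
    (vQR_mem_goodRing (NeZero.pos q) (NeZero.pos r) h) ?_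
  refine Fermat.Agent.S24.H708.HasQExp.of_hasSum
    (mdifferentiable_vQR q r (NeZero.pos q) (NeZero.pos r)) ?_
  intro τ
  have h' := hasTExp_vQR q r h τ
  simpa [Fermat.Agent.S24.H708.qh] using h'

/-- **`v` lies in the function field of `X₀(q r)` over every field with an embedding into
`ℂ`.** -/
theorem vQRL_mem_of_embedding (h : QRAdm q r) {K : Type*} [Field K] [Algebra ℚ K]
    (ι : K →+* ℂ) :
    coeffMap (Int.castRingHom K) (vQRL q r) ∈
      laurentBaseChange K (modularFunctionFieldFull (q * r)) := by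
  refine Fermat.Agent.S29.H882.mem_laurentBaseChange_of_coeffMap_mem ι
    (modularFunctionFieldFull (q * r)) ?_
  rw [coeffMap_coeffMap]
  have e : ι.comp (Int.castRingHom K) = Int.castRingHom ℂ := RingHom.ext_int _ _
  rw [coeffMap_congr e]
  exact iotaC_vQRL_mem q r h

end Analytic

end Fermat.Agent.S59.UnitQR.H464

end
end
-- ===== PACK-END S59/UnitQR/H464/QRExp.lean

-- ===== PACK-BEGIN S59/UnitQR/H464/QRCube.lean
section



/-!
# S59 / cell B1, leaf UNIT-QR, part 3: the formal cube relation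
(helper464; generic twin of helper461's `Unit3Cube`)

In `ℤ((t))`:  `vQRL ^ 3 = u'(t) * u'(t^r)` with `u' = unitL' q = Δ(t)/Δ(t^q)`, and
`vQRInvL ^ 3 = u(t) * u(t^r)` with `u = unitL ℤ q = Δ(t^q)/Δ(t)`.
-/

set_option autoImplicit false

noncomputable section

open ModularCurve HahnSeries

namespace Fermat.Agent.S59.UnitQR.H464

open Fermat.Agent.S28 (deltaL deltaInvL unitL)
open Fermat.Agent.S28.H589 (unitL')
open Fermat.Agent.S59.Unit3.H461

/-- `qExpand` only depends on the value of the index. -/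
theorem qExpand_congr464 {a b : ℕ} [NeZero a] [NeZero b] (h : a = b) (X : LaurentSeries ℤ) :
    qExpand ℤ a X = qExpand ℤ b X := by
  subst h
  rfl

section Cube

variable (q r : ℕ) [NeZero q] [NeZero r]

theorem qExpand_r_q (X : LaurentSeries ℤ) :
    qExpand ℤ r (qExpand ℤ q X) = qExpand ℤ (q * r) X := by
  rw [qExpand_qExpand]
  exact qExpand_congr464 (Nat.mul_comm r q) X

theorem unitL'_eq464 :
    unitL' q = HahnSeries.single (1 - (q : ℤ)) (1 : ℤ) * e1L ^ 24 *
      qExpand ℤ q (e1InvL ^ 24) := by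
  have hs : HahnSeries.single (1 : ℤ) (1 : ℤ) *
      HahnSeries.single (((q : ℕ) : ℤ) * (-1 : ℤ)) (1 : ℤ)
      = HahnSeries.single (1 - (q : ℤ)) (1 : ℤ) := by
    rw [HahnSeries.single_mul_single, mul_one]
    have e : (1 : ℤ) + ((q : ℕ) : ℤ) * (-1 : ℤ) = 1 - (q : ℤ) := by ring
    rw [e]
  rw [unitL', deltaL_int, deltaInvL_int, map_mul, qExpand_single, ← hs]
  ring

theorem unitL_eq464 :
    unitL ℤ q = HahnSeries.single ((q : ℤ) - 1) (1 : ℤ) * e1InvL ^ 24 *
      qExpand ℤ q (e1L ^ 24) := by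
  have hs : HahnSeries.single (((q : ℕ) : ℤ) * (1 : ℤ)) (1 : ℤ) *
      HahnSeries.single (-1 : ℤ) (1 : ℤ)
      = HahnSeries.single ((q : ℤ) - 1) (1 : ℤ) := by
    rw [HahnSeries.single_mul_single]
    have e : ((q : ℕ) : ℤ) * (1 : ℤ) + (-1 : ℤ) = (q : ℤ) - 1 := by ring
    rw [e, mul_one]
  rw [unitL, deltaL_int, deltaInvL_int, map_mul, qExpand_single, ← hs]
  ring

/-- The exponent identity over `ℤ`. -/
theorem expQR_int {q r : ℕ} (hq : 0 < q) (h : QRAdm q r) :
    (3 : ℤ) * (expQR q r : ℤ) = ((q : ℤ) - 1) + (r : ℤ) * ((q : ℤ) - 1) := by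
  have h1 := three_mul_expQR hq h
  have h2 : ((3 * expQR q r + r + 1 : ℕ) : ℤ) = ((q * r + q : ℕ) : ℤ) := by rw [h1]
  push_cast at h2
  linear_combination h2

/-- **The cube relation**: `v³ = u'(t) · u'(t^r)`, `u' = Δ(t)/Δ(t^q)`. -/
theorem vQRL_pow_three (h : QRAdm q r) :
    vQRL q r ^ 3 = unitL' q * qExpand ℤ r (unitL' q) := by
  have hs3 : (HahnSeries.single (-(expQR q r : ℤ)) (1 : ℤ) : LaurentSeries ℤ) ^ 3
      = HahnSeries.single (1 - (q : ℤ)) (1 : ℤ) *
        HahnSeries.single (((r : ℕ) : ℤ) * (1 - (q : ℤ))) (1 : ℤ) := by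
    rw [single_pow_three, HahnSeries.single_mul_single, mul_one]
    have e : (3 : ℤ) * -(expQR q r : ℤ) = (1 - (q : ℤ)) + ((r : ℕ) : ℤ) * (1 - (q : ℤ)) := by
      have := expQR_int (NeZero.pos q) h
      linear_combination (-1 : ℤ) * this
    rw [e]
  rw [unitL'_eq464, map_mul, map_mul, qExpand_single, qExpand_r_q, vQRL, e8L_eq, e8InvL_eq]
  simp only [mul_pow, map_pow, ← pow_mul, hs3]
  ring

/-- **The cube relation for the inverse**: `v⁻³ = u(t) · u(t^r)`, `u = Δ(t^q)/Δ(t)`. -/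
theorem vQRInvL_pow_three (h : QRAdm q r) :
    vQRInvL q r ^ 3 = unitL ℤ q * qExpand ℤ r (unitL ℤ q) := by
  have hs3 : (HahnSeries.single ((expQR q r : ℤ)) (1 : ℤ) : LaurentSeries ℤ) ^ 3
      = HahnSeries.single ((q : ℤ) - 1) (1 : ℤ) *
        HahnSeries.single (((r : ℕ) : ℤ) * ((q : ℤ) - 1)) (1 : ℤ) := by
    rw [single_pow_three, HahnSeries.single_mul_single, mul_one]
    have e : (3 : ℤ) * (expQR q r : ℤ) = ((q : ℤ) - 1) + ((r : ℕ) : ℤ) * ((q : ℤ) - 1) := by
      have := expQR_int (NeZero.pos q) h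
      linear_combination this
    rw [e]
  rw [unitL_eq464, map_mul, map_mul, qExpand_single, qExpand_r_q, vQRInvL, e8L_eq, e8InvL_eq]
  simp only [mul_pow, map_pow, ← pow_mul, hs3]
  ring

end Cube

end Fermat.Agent.S59.UnitQR.H464

end
end
-- ===== PACK-END S59/UnitQR/H464/QRCube.lean

-- ===== PACK-BEGIN S59/LoSqC/Spec.lean
section







/-!
# S59 moonshot, cell (C) = LO-SQ: frozen interfaces of the NEAT WALL (cell architect helper885)

Board: `coord/S59-LO-C.md` on `origin/helper885`.  OFF-MAIN.  Definitions only (no `sorry`).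

Levels as in row S36: `q ∤ M`, `N = M q` (`q ∥ N`), top level `N q = M q q`.
`F' = F_E(M q)`, `F = F_E(M q q)`, `α = αE`, `β = βE : F' → F`; the objects `V₁' V₂'` (level `M q`),
`V₁ V₂ V₃` (level `M q q`, multiplicities `1, q - 1, 1`) are those of `S36.Mod3.Objs`.

## The chain (top to bottom)

    LoSqNeatStatement      W-form at neat levels                      (consumer: helper826 SqFree35)
      ⇑ glue (helper885: `loSq_of_core` replayed)
    CoreSqNeatStatement    J-form, `q ∥ N`, neat: nonzero `I`-fixed non-Eisenstein eigenclass of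
                           `J₀(N q)[p]`  ⟹  the eigensystem occurs in `J₀(N)[p]`
      ⇑ TOP-CORE (helper301): W0 (`pushA`/`pushB` ≠ 0) + ALG (`H296.exists_eigen_of_add_eigen`)
    NewOldStatement        J-form: a `q`-new `I`-fixed class of `J₀(M q q)[p]`
                           (non-Eisenstein eigen if `p ∣ q + 1`) is `α^* y + β^* y'`
      ⇑ W-DESC (helper876)                      ⇑ W-SLOPE (helper276), only `p ∣ q + 1`
    LevelWallStatement     E-form               SlopeJStatement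
      ⇑ glue (`Skel.lean`, helper885)
    NewUnitsStatement  (ABSTRACT, `TripleCtx`; W-NEW, helper987 / helper117)
    LeafCtx            (`TripleCtx` for ALL `Mod3.Objs`; assembly of the MOD3 leaves on main)
    LeafRealize        (THE MOUNTAIN: every `u` with `p ∣ div u`, unit at `V₁ V₂ V₃`, comes from
                        level `M q`:  `u = c · α g · β g' · h ^ p`, `p ∣ div g`, `p ∣ div g'`)

`LeafRealize` = W-COUNT (level `M q`: reductions and labels are ONTO; TAME-CYC, NODE-REL, GUB,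
count for all `p ^ n`) + W-PULL (reductions / labels of `α g`, `β g'`) + W-SUB (labels at the
triple points are injective = wall `H193.exists_pow_eq_of_three`).  Its internal interfaces are
frozen by the sub-architects (see the board).

Why `LeafRealize` needs no "new": the semiabelian part of the Néron model of `J₀(M q q)` over
`ℤ_q^{ur}` is the image of `J₀(M q)²`; the `q²`-new part is unipotent; "new" is only used to kill
the slope (component group), `NewUnitsStatement`.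
-/

set_option autoImplicit false
set_option linter.style.haveILetI false
set_option linter.unusedSectionVars false
set_option synthInstance.maxHeartbeats 400000
set_option maxHeartbeats 1600000

noncomputable section

namespace Fermat.Agent.S59.LoSqC

open ModularCurve AlgebraicCurve
open Fermat.Agent.S36 Fermat.Agent.S36.Eng
open Fermat.Agent.Ribet.Spec Fermat.Agent.Ribet.H944.Wall

/-! ## E-form vocabulary (generic, Mathlib + `normAlong`) -/

section Vocab

variable {R E F F' : Type*} [CommRing R] [Field E] [Algebra R E]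
  [Field F] [Algebra E F] [Algebra R F] [Field F'] [Algebra E F'] [Algebra R F']

/-- `f = c · G ^ m · u`, `c` a nonzero constant, `u` a unit of `V₁`, `V₂`, `V₃`
("all slopes of `f` vanish mod `m`"). -/
def UnitsForm (E : Type*) [Field E] {F : Type*} [Field F] [Algebra E F] (m : ℕ)
    (V₁ V₂ V₃ : ValuationSubring F) (f : F) : Prop :=
  ∃ (c : E) (G : F), c ≠ 0 ∧ G ≠ 0 ∧
    UnitAt V₁ (f * (algebraMap E F c * G ^ m)⁻¹) ∧
    UnitAt V₂ (f * (algebraMap E F c * G ^ m)⁻¹) ∧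
    UnitAt V₃ (f * (algebraMap E F c * G ^ m)⁻¹)

/-- The slope of `f` vanishes mod `m`:  `v₁ f ≡ v₃ f mod m` (`w` is a uniformiser of `V₁` and of
`V₃`). -/
def SlopeZero (w : R) (m : ℕ) (V₁ V₃ : ValuationSubring F) (f : F) : Prop :=
  ∃ a₁ a₃ : ℤ, UnitAt V₁ (f * (algebraMap R F w ^ a₁)⁻¹) ∧
    UnitAt V₃ (f * (algebraMap R F w ^ a₃)⁻¹) ∧ (m : ℤ) ∣ a₁ - a₃

/-- `u` comes from the lower level:  `u = c · α g · β g' · h ^ m` with `m ∣ div g`, `m ∣ div g'`. -/
def FromBelow (E : Type*) [Field E] {F F' : Type*} [Field F] [Algebra E F] [Field F']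
    [Algebra E F'] (m : ℕ) (α β : F' →ₐ[E] F) (u : F) : Prop :=
  ∃ (c : E) (g g' : F') (h : F), g ≠ 0 ∧ g' ≠ 0 ∧ h ≠ 0 ∧
    A2.DivisibleDiv E m g ∧ A2.DivisibleDiv E m g' ∧
    u = algebraMap E F c * α g * β g' * h ^ m

/-- **REALIZE** for the context `(α, β, V₁, V₂, V₃)` and the exponent `m`. -/
def RealizeAt (E : Type*) [Field E] {F F' : Type*} [Field F] [Algebra E F] [Field F']
    [Algebra E F'] (m : ℕ) (α β : F' →ₐ[E] F) (V₁ V₂ V₃ : ValuationSubring F) : Prop :=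
  ∀ u : F, u ≠ 0 → A2.DivisibleDiv E m u → UnitAt V₁ u → UnitAt V₂ u → UnitAt V₃ u →
    FromBelow E m α β u

end Vocab

/-! ## The abstract leaf -/

/-- **NEW-UNITS (abstract leaf; W-NEW).**  In a three-component context, for `m` prime to `q`:
if the norms of `f ≠ 0` along `α` and `β` are constants times `m`-th powers, and the slope of `f`
vanishes mod `m` (automatic when `gcd (m, q + 1) = 1`), then `f = c · G ^ m · u` with `u` a unit
at `V₁, V₂, V₃`.

Proof: `(a₁, a₂, a₃)` = orders of `f` at `(V₁ | w, V₂ | t, V₃ | w)`; `nv_α`, `nv_β` give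
`a₁ + a₂ ≡ q a₃`, `a₃ + a₂ ≡ q a₁ mod m`, so `(q + 1)(a₁ - a₃) ≡ 0` and, when `m ∣ a₁ - a₃`,
`(a₁, a₂, a₃) ≡ a₃ (1, q - 1, 1)`; `c = w ^ a₃`, `G` by approximation
(`H586.exists_approx_ord3`). -/
def NewUnitsStatement : Prop :=
  ∀ {R E F F' : Type} [CommRing R] [IsDomain R] [IsDiscreteValuationRing R]
    [HenselianLocalRing R] [IsAlgClosed (IsLocalRing.ResidueField R)]
    [Field E] [CharZero E] [Algebra R E] [IsFractionRing R E]
    [Field F] [Algebra E F] [Algebra R F] [IsScalarTower R E F]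
    [Field F'] [Algebra E F'] [Algebra R F'] [IsScalarTower R E F']
    (w : R) (_ : Irreducible w) (q : ℕ) (_ : q.Prime)
    (_ : (q : R) ∈ IsLocalRing.maximalIdeal R)
    (α β : F' →ₐ[E] F) (x : F) (x' : F')
    (V₁ V₂ V₃ : ValuationSubring F) (V₁' V₂' : ValuationSubring F')
    (_ : TripleCtx w q α β x x' V₁ V₂ V₃ V₁' V₂'),
    ∀ m : ℕ, 0 < m → ¬ q ∣ m →
      ∀ f : F, f ≠ 0 → S35.G.NormPow α m f → S35.G.NormPow β m f →
        (¬ Nat.Coprime m (q + 1) → SlopeZero w m V₁ V₃ f) →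
        UnitsForm E m V₁ V₂ V₃ f

/-! ## The modular leaves (E-form; binder prefix `Mod3.Leaf`) -/

/-- **CTX (leaf).**  EVERY system of objects carries the three-component context
(assembly of the MOD3 leaves on main, which are stated for all `Mod3.Objs`). -/
def LeafCtx : Prop :=
  Mod3.Leaf fun P E M q _ _ _ w V₁' V₂' V₁ V₂ V₃ =>
    TripleCtx (R := A2.RE P E) (E := E) w q (A2.Mod.αE E (M * q) q) (A2.Mod.βE E (M * q) q)
      (Mod3.x3E E M q) (A2.Mod.xE E M q) V₁ V₂ V₃ V₁' V₂'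

/-- **REALIZE (leaf; W-COUNT + W-PULL + W-SUB).**  `q` odd, `p` odd, `p ≠ q`, neat level. -/
def LeafRealize : Prop :=
  Mod3.Leaf fun _ E M q _ _ _ _ _ _ V₁ V₂ V₃ =>
    q ≠ 2 → ∀ p : ℕ, p.Prime → p ≠ 2 → p ≠ q →
      RealizeAt E p (A2.Mod.αE E (M * q) q) (A2.Mod.βE E (M * q) q) V₁ V₂ V₃

/-- The body of the level wall at one system of objects. -/
def LevelWallBody {R : Type*} [CommRing R] (E : IntermediateField ℚ A2.Qb) (M q p : ℕ)
    [NeZero M] [NeZero q] [NeZero (M * q)] [Algebra R (A2.Mod.FE E (M * q * q))] (w : R)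
    (V₁ V₃ : ValuationSubring (A2.Mod.FE E (M * q * q))) : Prop :=
  ∀ f : A2.Mod.FE E (M * q * q), f ≠ 0 → A2.DivisibleDiv E p f →
    S35.G.NormPow (A2.Mod.αE E (M * q) q) p f → S35.G.NormPow (A2.Mod.βE E (M * q) q) p f →
    (p ∣ q + 1 → SlopeZero w p V₁ V₃ f) →
    FromBelow E p (A2.Mod.αE E (M * q) q) (A2.Mod.βE E (M * q) q) f

/-- **The level wall at `(P, E, M, q, p)`** (E-form of NEW-OLD): for every uniformiser and every
system of objects. -/
def LevelWallAt (P : ValuationSubring A2.Qb) (E : IntermediateField ℚ A2.Qb) (M q p : ℕ)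
    [NeZero M] [NeZero q] [NeZero (M * q)] : Prop :=
  ∀ w : A2.RE P E, Irreducible w →
    ∀ (V₁' V₂' : ValuationSubring (A2.Mod.FE E (M * q)))
      (V₁ V₂ V₃ : ValuationSubring (A2.Mod.FE E (M * q * q)))
      (W' : A2.Mod.FE E (M * q) ≃ₐ[E] A2.Mod.FE E (M * q))
      (W : A2.Mod.FE E (M * q * q) ≃ₐ[E] A2.Mod.FE E (M * q * q)),
      Mod3.Objs P E M q V₁' V₂' V₁ V₂ V₃ W' W →
      LevelWallBody (R := A2.RE P E) E M q p w V₁ V₃

/-- **The level wall (interface statement).** -/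
def LevelWallStatement : Prop :=
  ∀ (P : ValuationSubring A2.Qb) (E : IntermediateField ℚ A2.Qb) (M q p : ℕ)
    [NeZero M] [NeZero q] [NeZero (M * q)],
    q.Prime → ¬ q ∣ M → P.LiesOverPrime q → Unramified P E q → NeatFor M q → q ≠ 2 →
    p.Prime → p ≠ 2 → p ≠ q → LevelWallAt P E M q p

/-! ## J-form -/

/-- The inertia field `ℚ̄^{I_P}` (`= S36.Eng.inertiaFld P`, definitionally). -/
abbrev inertiaFldC (P : ValuationSubring A2.Qb) : IntermediateField ℚ A2.Qb :=
  IntermediateField.fixedField (P.inertiaSubgroupIn ℚ)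

section JForm

variable (M q : ℕ) [NeZero M] [NeZero q] [NeZero (M * q)]

/-- `α^* : J₀(M q) → J₀(M q q)`. -/
abbrev pullUpA : JZero (M * q) →+ JZero (M * q * q) := S37.H155.pullHom (M * q) q

/-- `β^* : J₀(M q) → J₀(M q q)`. -/
abbrev pullUpB : JZero (M * q) →+ JZero (M * q * q) := S36.H160.pullB (M * q) q

/-- `f ∈ F_E(N)` is an `E`-rational Kummer generator of `x ∈ J₀(N)`: `x = [D]`, `div f = p D`. -/
def IsKummerGenE (E : IntermediateField ℚ A2.Qb) (N p : ℕ) [NeZero N] (f : A2.Mod.FE E N)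
    (x : JZero N) : Prop :=
  f ≠ 0 ∧ ∃ D : Divisor.degZero (K := A2.Qb) (F := modularFunctionFieldBar N),
    Pic0.mk D = x ∧
    ∀ v : Place A2.Qb (modularFunctionFieldBar N),
      v.ord (A2.T1.H669.iota E (modularFunctionFieldFull N) f)
        = (p : ℤ) * (D : Divisor A2.Qb (modularFunctionFieldBar N)) v

/-- **NEW-OLD at one neat level** (J-form). -/
def NewOldAt (p : ℕ) (A : ValuationSubring A2.Qb) : Prop :=
  ∀ x : JZero (M * q * q), p • x = 0 → S35.H155.IsQNew (M * q) q x →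
    (∀ τ ∈ A.inertiaSubgroupIn ℚ, τ • x = x) →
    (p ∣ q + 1 → ∃ (S : Finset ℕ) (a : ℕ → ℤ), NonEisAway p a ∧ EigenAt (M * q * q) S a x) →
    ∃ y y' : JZero (M * q), p • y = 0 ∧ p • y' = 0 ∧ x = pullUpA M q y + pullUpB M q y'

/-- **W-SLOPE at one neat level** (J-form): the slope of an `E`-rational Kummer generator of a
non-Eisenstein eigenclass vanishes mod `p` (`E` = inertia field of `A`).
(`s(T_ℓ x) = (ℓ + 1) s(x)`: every `V_i` has ONE extension to level `M q q ℓ` along `α_ℓ` and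
`β_ℓ`, with `e = 1`, `f = ℓ + 1`.) -/
def SlopeJAt (p : ℕ) (A : ValuationSubring A2.Qb) : Prop :=
  ∀ x : JZero (M * q * q), p • x = 0 →
    ∀ (S : Finset ℕ) (a : ℕ → ℤ), NonEisAway p a → EigenAt (M * q * q) S a x →
    ∀ w : A2.RE A (inertiaFldC A), Irreducible w →
    ∀ (V₁' V₂' : ValuationSubring (A2.Mod.FE (inertiaFldC A) (M * q)))
      (V₁ V₂ V₃ : ValuationSubring (A2.Mod.FE (inertiaFldC A) (M * q * q)))
      (W' : A2.Mod.FE (inertiaFldC A) (M * q) ≃ₐ[inertiaFldC A] A2.Mod.FE (inertiaFldC A) (M * q))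
      (W : A2.Mod.FE (inertiaFldC A) (M * q * q) ≃ₐ[inertiaFldC A]
        A2.Mod.FE (inertiaFldC A) (M * q * q)),
      Mod3.Objs A (inertiaFldC A) M q V₁' V₂' V₁ V₂ V₃ W' W →
      ∀ f : A2.Mod.FE (inertiaFldC A) (M * q * q),
        IsKummerGenE (inertiaFldC A) (M * q * q) p f x →
        SlopeZero (R := A2.RE A (inertiaFldC A)) w p V₁ V₃ f

end JForm

/-- **W-SLOPE (leaf)**, only used when `p ∣ q + 1`. -/
def SlopeJStatement : Prop :=
  ∀ (M q p : ℕ) [NeZero M] [NeZero q] [NeZero (M * q)], q.Prime → ¬ q ∣ M → NeatFor M q →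
    q ≠ 2 → p.Prime → p ≠ 2 → p ≠ q → p ∣ q + 1 →
    ∀ A : ValuationSubring A2.Qb, A.LiesOverPrime q → SlopeJAt M q p A

/-- **W-DESC (leaf), pointwise**: the level wall over the inertia field and the slope leaf give
NEW-OLD (replay of `H36.qNewInertiaAt_of_kummerAt` + `H756.kummerQNewInertiaAt_of_fixedAtC`
with the new conclusion). -/
def DescWStatement : Prop :=
  ∀ (M q p : ℕ) [NeZero M] [NeZero q] [NeZero (M * q)], q.Prime → ¬ q ∣ M → p.Prime → p ≠ 2 →
    p ≠ q →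
    ∀ A : ValuationSubring A2.Qb, A.LiesOverPrime q →
      LevelWallAt A (inertiaFldC A) M q p → (p ∣ q + 1 → SlopeJAt M q p A) → NewOldAt M q p A

/-- **NEW-OLD (interface statement)** at neat levels. -/
def NewOldStatement : Prop :=
  ∀ (M q p : ℕ) [NeZero M] [NeZero q] [NeZero (M * q)], q.Prime → ¬ q ∣ M → NeatFor M q →
    q ≠ 2 → p.Prime → p ≠ 2 → p ≠ q →
    ∀ A : ValuationSubring A2.Qb, A.LiesOverPrime q → NewOldAt M q p A

/-- `N` is neat for the odd prime `q` (`N`-form of `Eng.NeatFor`, `q ∥ N`). -/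
def NeatN (N q : ℕ) : Prop :=
  (∃ r : ℕ, r.Prime ∧ r % 12 = 11 ∧ r ≠ q ∧ r ∣ N) ∧ 4 ∣ N

/-- **CORE-SQ at neat levels** (`H885.CoreSqStatement` with `q` odd and `N` neat; conclusion
`OccursIn`). -/
def CoreSqNeatStatement : Prop :=
  ∀ (N q p : ℕ) [NeZero N] [NeZero q], q.Prime → q ≠ 2 → N.factorization q = 1 → NeatN N q →
    p.Prime → p ≠ 2 → p ≠ q →
    ∀ P : ValuationSubring (AlgebraicClosure ℚ), P.LiesOverPrime q →
    ∀ (S : Finset ℕ) (a : ℕ → ℤ), NonEisAway p a →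
    ∀ x : JZero (N * q), x ≠ 0 → p • x = 0 → EigenAt (N * q) S a x →
      (∀ τ ∈ P.inertiaSubgroupIn ℚ, τ • x = x) →
      ∃ S' : Finset ℕ, S ⊆ S' ∧ OccursIn N p S' a

/-- **LO-SQ at neat levels** (W-form): `H934.LoSqStatement` for `q` odd and `M / q` neat. -/
def LoSqNeatStatement : Prop :=
  ∀ (p : ℕ) [Fact p.Prime] (_hp : p = 3 ∨ p = 5)
    (W : WeierstrassCurve ℤ) (_hΔ : W.Δ ≠ 0) (_hW : W.IsSemistableModel)
    (_hirr : W.ModRepIsIrreducible p)
    (M q : ℕ) (_hM : M ≠ 0) (_hq : q.Prime) (_hqp : q ≠ p) (_hq2 : q ≠ 2)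
    (_hq2M : q ^ 2 ∣ M) (_hq3M : ¬ q ^ 3 ∣ M) (_hneat : NeatN (M / q) q)
    (_hres : W.IsResiduallyModularOfLevel p M),
    W.IsResiduallyModularOfLevel p (M / q)

end Fermat.Agent.S59.LoSqC

end

end
-- ===== PACK-END S59/LoSqC/Spec.lean

-- ===== PACK-BEGIN S59/LoSqC/Skel.lean
section



/-!
# S59 moonshot, cell (C) = LO-SQ: skeleton (cell architect helper885)

Sorry-free glue between the frozen interfaces of `LoSqC/Spec.lean`; the leaves are hypotheses.

* `levelWall_of_leaves : NewUnitsStatement → LeafCtx → LeafRealize → LevelWallStatement`;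
* `newOld_of_leaves    : (UNR) → DescWStatement → LevelWallStatement → SlopeJStatement →
                          NewOldStatement`;
* `loSqNeat_of_coreSqNeat` : the W-form from CORE-SQ at neat levels and the inputs of
  `H885.loSq_of_core` (all theorems on main or in `S59/H885/LoSqFix.lean`).
-/

set_option autoImplicit false
set_option linter.style.haveILetI false
set_option linter.unusedSectionVars false
set_option synthInstance.maxHeartbeats 400000
set_option maxHeartbeats 1600000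

noncomputable section

namespace Fermat.Agent.S59.LoSqC

open ModularCurve AlgebraicCurve
open Fermat.Agent.S36 Fermat.Agent.S36.Eng
open Fermat.Agent.Ribet Fermat.Agent.Ribet.Spec Fermat.Agent.Ribet.H944.Wall

/-! ## E-form -/

section Abs

variable {E F F' : Type*} [Field E] [Field F] [Algebra E F] [Field F'] [Algebra E F']

/-- `m ∣ div f` is stable under division by a nonzero constant times an `m`-th power. -/
theorem divisibleDiv_mul_inv_const_pow {m : ℕ} {f : F} (hf : A2.DivisibleDiv E m f) {c : E}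
    (hc : c ≠ 0) {G : F} (hG : G ≠ 0) :
    A2.DivisibleDiv E m (f * (algebraMap E F c * G ^ m)⁻¹) := by
  intro V hV hE
  obtain ⟨h, u, hh, hu, hu', e⟩ := hf V hV hE
  have hcF : algebraMap E F c ≠ 0 := (_root_.map_ne_zero _).mpr hc
  refine ⟨h * G⁻¹, u * algebraMap E F c⁻¹, mul_ne_zero hh (inv_ne_zero hG),
    V.mul_mem _ _ hu (hE _), ?_, ?_⟩
  · rw [mul_inv, ← map_inv₀, inv_inv]
    exact V.mul_mem _ _ hu' (hE _)
  · rw [e, mul_pow, inv_pow, map_inv₀]
    field_simp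

/-- The glue of the level wall, in a fixed context. -/
theorem fromBelow_of_unitsForm {m : ℕ} {α β : F' →ₐ[E] F} {V₁ V₂ V₃ : ValuationSubring F}
    (hR : RealizeAt E m α β V₁ V₂ V₃) {f : F} (hf : f ≠ 0) (hdiv : A2.DivisibleDiv E m f)
    (hU : UnitsForm E m V₁ V₂ V₃ f) : FromBelow E m α β f := by
  obtain ⟨c, G, hc, hG, h1, h2, h3⟩ := hU
  have hcF : algebraMap E F c ≠ 0 := (_root_.map_ne_zero _).mpr hc
  have hcG : algebraMap E F c * G ^ m ≠ 0 := mul_ne_zero hcF (pow_ne_zero _ hG)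
  obtain ⟨c', g, g', h, hg, hg', hh, hdg, hdg', e⟩ :=
    hR _ (mul_ne_zero hf (inv_ne_zero hcG)) (divisibleDiv_mul_inv_const_pow hdiv hc hG) h1 h2 h3
  refine ⟨c * c', g, g', h * G, hg, hg', mul_ne_zero hh hG, hdg, hdg', ?_⟩
  have e' : f = f * (algebraMap E F c * G ^ m)⁻¹ * (algebraMap E F c * G ^ m) := by
    field_simp
  rw [e', e, map_mul, mul_pow]
  ring

end Abs

/-- **Skeleton, E-form.**  NEW-UNITS + CTX + REALIZE ⟹ the level wall. -/
theorem levelWall_of_leaves (hNU : NewUnitsStatement) (hCtx : LeafCtx) (hRe : LeafRealize) :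
    LevelWallStatement := by
  intro P E M q p _ _ _ hq hqM hP hE hneat hq2 hp hp2 hpq w hw V₁' V₂' V₁ V₂ V₃ W' W hO
    f hf hdiv hα hβ hslope
  haveI : IsDiscreteValuationRing ↥(A2.RE P E) := hE.1.dvr
  haveI : HenselianLocalRing ↥(A2.RE P E) := hE.1.henselian
  haveI : IsAlgClosed (IsLocalRing.ResidueField ↥(A2.RE P E)) := hE.1.algClosed
  have hS : Mod3.Std P E M q w :=
    { q_prime := hq, q_not_dvd := hqM, lies_over := hP, unram := hE, neat := hneat, unif := hw }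
  have hctx := hCtx P E M q w hS V₁' V₂' V₁ V₂ V₃ W' W hO
  have hqp : ¬ q ∣ p := fun hd => hpq ((Nat.prime_dvd_prime_iff_eq hq hp).1 hd).symm
  have hU : UnitsForm E p V₁ V₂ V₃ f :=
    hNU (R := ↥(A2.RE P E)) (E := E) (F := ↥(A2.Mod.FE E (M * q * q)))
      (F' := ↥(A2.Mod.FE E (M * q))) w hw q hq (natCast_mem_maximalIdeal_RE E hP)
      (A2.Mod.αE E (M * q) q) (A2.Mod.βE E (M * q) q) (Mod3.x3E E M q) (A2.Mod.xE E M q)
      V₁ V₂ V₃ V₁' V₂' hctx p hp.pos hqp f hf hα hβ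
      (fun hnc => hslope (by
        by_contra hnd
        exact hnc ((Nat.Prime.coprime_iff_not_dvd hp).2 hnd)))
  exact fromBelow_of_unitsForm (hRe P E M q w hS V₁' V₂' V₁ V₂ V₃ W' W hO hq2 p hp hp2 hpq)
    hf hdiv hU

/-! ## J-form -/

/-- **Skeleton, J-form.**  (UNR) + W-DESC + level wall + W-SLOPE ⟹ NEW-OLD at neat levels. -/
theorem newOld_of_leaves
    (hUNR : ∀ q : ℕ, q.Prime → ∀ P : ValuationSubring A2.Qb, P.LiesOverPrime q →
      Unramified P (inertiaFldC P) q)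
    (hDesc : DescWStatement) (hLW : LevelWallStatement) (hSl : SlopeJStatement) :
    NewOldStatement := by
  intro M q p _ _ _ hq hqM hneat hq2 hp hp2 hpq A hA
  exact hDesc M q p hq hqM hp hp2 hpq A hA
    (hLW A (inertiaFldC A) M q p hq hqM hA (hUNR q hq A hA) hneat hq2 hp hp2 hpq)
    (fun hd => hSl M q p hq hqM hneat hq2 hp hp2 hpq hd A hA)

/-! ## W-form -/

/-- **LO-SQ at neat levels from CORE-SQ at neat levels** (replay of `H885.loSq_of_core`). -/
theorem loSqNeat_of_coreSqNeat (hE : EmbedWStatement) (hPl : PlacesStatement)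
    (hFix : H885.FixWStatement) (hNE : H885.NonEisWStatement)
    (hR3 : EigenformOfOccursAwayStatement) (hR3' : AlmostAllToWitnessWStatement)
    (hCore : CoreSqNeatStatement) : LoSqNeatStatement := by
  intro p _ hp35 W hΔ hW hirr M q hM hq hqp hq2 hq2M hq3M hneat hres
  have hp : p.Prime := Fact.out
  have hp2 : p ≠ 2 := by
    rcases hp35 with h | h <;> omega
  have hqM : q ∣ M := dvd_trans (dvd_pow_self q two_ne_zero) hq2M
  have hfac : (M / q).factorization q = 1 :=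
    H885.factorization_div_eq_one885 hM hq hq2M hq3M
  have hMN : M = M / q * q := (Nat.div_mul_cancel hqM).symm
  have hN0 : M / q ≠ 0 := Fermat.Agent.S59.H934.div_ne_zero_of_dvd hM hqM
  haveI : NeZero M := ⟨hM⟩
  haveI : NeZero (M / q) := ⟨hN0⟩
  haveI : NeZero q := ⟨hq.ne_zero⟩
  obtain ⟨f, 𝔪, hwit⟩ := hres
  obtain ⟨S, ι, hinj, hgal, hT⟩ := hE W p M hΔ hp hp2 hirr f 𝔪 hwit
  obtain ⟨A, hA, -⟩ := hPl q hq
  obtain ⟨v, hv0, hvfix⟩ := hFix W p q hΔ hW hp hq hqp A hA
  obtain ⟨e, heG, heT⟩ := H885.exists_levelCast885 M (M / q * q) hMN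
  have hpv : p • ι v = 0 := by
    rw [← map_nsmul]
    have h0 : p • v = 0 := by
      apply Subtype.ext
      have hv := v.2
      rw [Submodule.mem_torsionBy_iff, natCast_zsmul] at hv
      simpa using hv
    rw [h0, _root_.map_zero]
  obtain ⟨S', hSS', hocc⟩ :=
    hCore (M / q) q p hq hq2 hfac hneat hp hp2 (Ne.symm hqp) A hA S _ (hNE W p hΔ hp hirr)
      (e (ι v))
      (by
        intro h
        have h1 : ι v = 0 := e.injective (by rw [h, _root_.map_zero])
        exact hv0 (hinj (by rw [h1, _root_.map_zero])))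
      (by rw [← map_nsmul, hpv, _root_.map_zero])
      (by
        intro ℓ hℓ
        rw [← heT, hT ℓ hℓ v, map_zsmul])
      (by
        intro τ hτ
        rw [← heG, ← hgal, hvfix τ hτ])
  have hlow : Lowered (M / q) p S (fun ℓ => W.apOfModel ℓ) := ⟨S', hSS', Or.inl hocc⟩
  obtain ⟨S'', g, 𝔪', hg, hmax, hpm, hc⟩ := eigenAway_of_lowered hR3 hp hlow
  exact ⟨g, 𝔪', hR3' W p (M / q) hΔ hp hp2 (Nat.pos_of_ne_zero hN0) hirr g 𝔪' _ hg hmax hpm hc⟩

end Fermat.Agent.S59.LoSqC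

end

end
-- ===== PACK-END S59/LoSqC/Skel.lean

-- ===== PACK-BEGIN S17/H197/TorsionFinite.lean
section
/-
S17 / piece G-TORS (helper197): the `n`-torsion of `J₀(N)(ℚ̄)` is finite, in the EXACT shape of
`Fermat.Agent.S17.Skel.torsion_finite` (row-lead helper17's skeleton), for every `N ≠ 0`, `n ≠ 0`.

Proof: adapter on top of the landed S30 piece FIN (helper810, `S30/H810/Fin.lean`):
`{x : JZero N | n • x = 0}.Finite` (analytic route: Kummer character of `Γ₀(N)`, reverse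
dictionary places ↔ points of `ℍ`, `n`-th roots on `ℍ`, completeness of the modular function
field).
-/


set_option autoImplicit false

namespace Fermat.Agent.S17.H197

open ModularCurve AlgebraicCurve

/-- **G-TORS.** The `n`-torsion of `J₀(N)(ℚ̄) = Pic⁰(ℚ̄(X₀(N)))` is finite. -/
theorem torsion_finite (N : ℕ) [NeZero N] (n : ℕ) (hn : n ≠ 0) :
    Finite (Pic0.torsion (AlgebraicClosure ℚ) (modularFunctionFieldBar N) n) := by
  have : NeZero n := ⟨hn⟩
  have h : {x : JZero N | n • x = 0}.Finite := Fermat.Agent.S30.H810.torsion_finite N n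
  have hset : ((Pic0.torsion (AlgebraicClosure ℚ) (modularFunctionFieldBar N) n :
      AddSubgroup (Pic0 (AlgebraicClosure ℚ) (modularFunctionFieldBar N))) :
        Set (Pic0 (AlgebraicClosure ℚ) (modularFunctionFieldBar N)))
      ⊆ {x : JZero N | n • x = 0} := by
    intro x hx
    have hx' : ((n : ℤ)) • x = 0 := Pic0.mem_torsion.mp hx
    show n • x = 0
    rw [← natCast_zsmul]
    exact hx'
  exact (h.subset hset).to_subtype

/-- The same for the torsion subgroup written with `ℕ`-multiples. -/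
theorem torsion_finite' (N : ℕ) [NeZero N] (n : ℕ) (hn : n ≠ 0) :
    {x : JZero N | n • x = 0}.Finite := by
  have : NeZero n := ⟨hn⟩
  exact Fermat.Agent.S30.H810.torsion_finite N n

end Fermat.Agent.S17.H197

end
-- ===== PACK-END S17/H197/TorsionFinite.lean

-- ===== PACK-BEGIN S59/LoSqC/H301/CoreNeat.lean
section






/-!
# S59 moonshot, cell (C) LO-SQ, leaf TOP-CORE (helper301)

The J-level assembly of board v1 (`origin/helper885:coord/S59-LO-C.md`, §1):

    CoreSq at level `N q`  ⇐  (W0) + NEW-OLD + ALG.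

* (W0)     if `pushA x ≠ 0` or `pushB x ≠ 0`, the push-forward is an eigenclass of level `N`
           (`S35.H155.pushA_heckeOperatorBar`);
* NEW-OLD  a `q`-new, inertia-fixed eigenclass `x` of level `N q` is OLD: `x = pa y + pb y'`
           (the wall; HYPOTHESIS here, `NewOldAt`);
* ALG      an eigenclass in the image of `J₀(N)[p]² → J₀(N q)` has its eigensystem in
           `J₀(N)[p]` (`H296.exists_eigen_of_add_eigen`, helper296; Hecke operators commute:
           `S29.heckeOperatorsCommuteBar`; `J₀(N)[p]` is finite: `S17.H197.torsion_finite'`).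

Everything is GENERIC in the two pull-backs `pa pb : J₀(N) → J₀(N q)` (any additive maps which are
Hecke-equivariant off a finite set `S₀`: `IsPullPair`) and in the neatness predicate, so the
theorems apply to whatever shape of NEW-OLD is frozen in `S59/LoSqC/Spec.lean`.

Conclusion: `Ribet.H944.Wall.Lowered N p S a` (the shape consumed by `H885.loSq_of_core`).
-/

set_option autoImplicit false
set_option linter.style.haveILetI false

open ModularCurve AlgebraicCurve

namespace Fermat.Agent.S59.LoSqC.H301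

open Fermat.Agent.Ribet Fermat.Agent.Ribet.Spec Fermat.Agent.Ribet.H944.Wall
open Fermat.Agent.S35.H155 (pushA pushB IsQNew pushA_heckeOperatorBar pushB_heckeOperatorBar)

/-- A pair of additive maps `J₀(N) → J₀(N q)` which commute with `T_ℓ` for `ℓ ∉ S₀`
(in the application: the two degeneracy pull-backs `α^*`, `β^*`). -/
structure IsPullPair (N q : ℕ) [NeZero N] [NeZero q] (S₀ : Finset ℕ)
    (pa pb : JZero N →+ JZero (N * q)) : Prop where
  hecke_left : ∀ ℓ : Nat.Primes, (ℓ : ℕ) ∉ S₀ → ∀ y : JZero N,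
    pa (heckeOperatorBar N ℓ y) = heckeOperatorBar (N * q) ℓ (pa y)
  hecke_right : ∀ ℓ : Nat.Primes, (ℓ : ℕ) ∉ S₀ → ∀ y : JZero N,
    pb (heckeOperatorBar N ℓ y) = heckeOperatorBar (N * q) ℓ (pb y)

/-- **NEW-OLD** at one level, one place, one eigensystem: a `p`-torsion, `q`-new, inertia-fixed
eigenclass of level `N q` is a sum of two pull-backs of `p`-torsion classes of level `N`. -/
def NewOldAt (N q p : ℕ) [NeZero N] [NeZero q] (P : ValuationSubring (AlgebraicClosure ℚ))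
    (S : Finset ℕ) (a : ℕ → ℤ) (pa pb : JZero N →+ JZero (N * q)) : Prop :=
  ∀ x : JZero (N * q), p • x = 0 → IsQNew N q x →
    (∀ τ ∈ P.inertiaSubgroupIn ℚ, τ • x = x) → EigenAt (N * q) S a x →
    ∃ y y' : JZero N, p • y = 0 ∧ p • y' = 0 ∧ x = pa y + pb y'

/-- `J₀(N)[p]` is finite, in the vocabulary of `H296`. -/
theorem finite_torsionSub (N : ℕ) [NeZero N] {p : ℕ} (hp : p ≠ 0) :
    Finite (Fermat.Agent.S59.H296.torsionSub (JZero N) p) := by
  have h : {x : JZero N | p • x = 0}.Finite := Fermat.Agent.S17.H197.torsion_finite' N p hp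
  have hset : ((Fermat.Agent.S59.H296.torsionSub (JZero N) p : AddSubgroup (JZero N)) :
      Set (JZero N)) ⊆ {x : JZero N | p • x = 0} := fun x hx =>
    Fermat.Agent.S59.H296.mem_torsionSub.mp hx
  exact (h.subset hset).to_subtype

/-- **(W0)** a class of level `N q` which is not `q`-new pushes forward to an eigenclass of
level `N`. -/
theorem occursIn_of_not_isQNew {N q p : ℕ} [NeZero N] [NeZero q] (hq : q.Prime)
    {S : Finset ℕ} {a : ℕ → ℤ} {x : JZero (N * q)} (hpx : p • x = 0)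
    (heig : EigenAt (N * q) S a x) (hnew : ¬ IsQNew N q x) :
    OccursIn N p (insert q S) a := by
  have h : pushA N q x ≠ 0 ∨ pushB N q x ≠ 0 := by
    by_contra hcon
    rw [not_or, not_not, not_not] at hcon
    exact hnew ⟨hcon.1, hcon.2⟩
  rcases h with h | h
  · refine ⟨pushA N q x, h, ?_, fun ℓ hℓ => ?_⟩
    · rw [← map_nsmul, hpx, map_zero]
    · rw [Finset.mem_insert, not_or] at hℓ
      rw [← pushA_heckeOperatorBar N q hq ℓ hℓ.1, heig ℓ hℓ.2, map_zsmul]
  · refine ⟨pushB N q x, h, ?_, fun ℓ hℓ => ?_⟩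
    · rw [← map_nsmul, hpx, map_zero]
    · rw [Finset.mem_insert, not_or] at hℓ
      rw [← pushB_heckeOperatorBar N q hq ℓ hℓ.1, heig ℓ hℓ.2, map_zsmul]

/-- **ALG**, J-form: a nonzero eigenclass `x = pa y + pb y'` of level `N q` with `p y = p y' = 0`
has its eigensystem in `J₀(N)[p]`. -/
theorem occursIn_of_old {N q p : ℕ} [NeZero N] [NeZero q] (hp : p ≠ 0)
    {S S₀ : Finset ℕ} {a : ℕ → ℤ} {pa pb : JZero N →+ JZero (N * q)}
    (hpull : IsPullPair N q S₀ pa pb) {x : JZero (N * q)} (hx : x ≠ 0)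
    (heig : EigenAt (N * q) S a x) {y y' : JZero N} (hy : p • y = 0) (hy' : p • y' = 0)
    (hxy : x = pa y + pb y') : OccursIn N p (S ∪ S₀) a := by
  haveI : Finite (Fermat.Agent.S59.H296.torsionSub (JZero N) p) := finite_torsionSub N hp
  have hc : HeckeOperatorsCommuteBar N := Fermat.Agent.S29.heckeOperatorsCommuteBar N
  obtain ⟨h, hh0, hph, hheig⟩ :=
    Fermat.Agent.S59.H296.exists_eigen_of_add_eigen (ι := {ℓ : Nat.Primes // (ℓ : ℕ) ∉ S ∪ S₀})
      (J := JZero N) (V := JZero (N * q)) p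
      (fun i => (heckeOperatorBar N i.1).toAddMonoidHom)
      (fun i => (heckeOperatorBar (N * q) i.1).toAddMonoidHom)
      (fun i j z => by
        have := LinearMap.congr_fun (hc i.1 j.1) z
        simp only [Module.End.mul_apply] at this
        exact this)
      pa pb
      (fun i z => hpull.hecke_left i.1 (fun h' => i.2 (Finset.mem_union_right _ h')) z)
      (fun i z => hpull.hecke_right i.1 (fun h' => i.2 (Finset.mem_union_right _ h')) z)
      (fun i => a i.1) hx hy hy' hxy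
      (fun i => heig i.1 (fun h' => i.2 (Finset.mem_union_left _ h')))
  exact ⟨h, hh0, hph, fun ℓ hℓ => hheig ⟨ℓ, hℓ⟩⟩

/-- **TOP-CORE at one level**: (W0) + NEW-OLD + ALG ⟹ the eigensystem is lowered to level `N`. -/
theorem lowered_of_newOldAt {N q p : ℕ} [NeZero N] [NeZero q] (hq : q.Prime) (hp : p ≠ 0)
    (P : ValuationSubring (AlgebraicClosure ℚ)) {S S₀ : Finset ℕ} {a : ℕ → ℤ}
    {pa pb : JZero N →+ JZero (N * q)} (hpull : IsPullPair N q S₀ pa pb)
    (hNO : _root_.Fermat.Agent.S59.LoSqC.H301.NewOldAt N q p P S a pa pb)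
    {x : JZero (N * q)} (hx : x ≠ 0) (hpx : p • x = 0) (heig : EigenAt (N * q) S a x)
    (hfix : ∀ τ ∈ P.inertiaSubgroupIn ℚ, τ • x = x) : Lowered N p S a := by
  by_cases hnew : IsQNew N q x
  · obtain ⟨y, y', hy, hy', hxy⟩ := hNO x hpx hnew hfix heig
    exact ⟨S ∪ S₀, Finset.subset_union_left,
      Or.inl (occursIn_of_old hp hpull hx heig hy hy' hxy)⟩
  · exact ⟨insert q S, Finset.subset_insert q S,
      Or.inl (occursIn_of_not_isQNew hq hpx heig hnew)⟩

/-! ## Statement level -/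

/-- **NEW-OLD** at all levels satisfying `Neat` (e.g. `Eng.NeatFor`), local shape: existence of
a pull pair with `NewOldAt` for every place over `q` and every non-Eisenstein eigensystem. -/
def NewOldStatement (Neat : ℕ → ℕ → Prop) : Prop :=
  ∀ (N q p : ℕ) [NeZero N] [NeZero q], q.Prime → N.factorization q = 1 → p.Prime → p ≠ 2 →
    p ≠ q → Neat N q →
    ∃ (S₀ : Finset ℕ) (pa pb : JZero N →+ JZero (N * q)), IsPullPair N q S₀ pa pb ∧
      ∀ P : ValuationSubring (AlgebraicClosure ℚ), P.LiesOverPrime q →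
        ∀ (S : Finset ℕ) (a : ℕ → ℤ), NonEisAway p a → _root_.Fermat.Agent.S59.LoSqC.H301.NewOldAt N q p P S a pa pb

/-- **CORE-SQ at the levels satisfying `Neat`** (`H885.CoreSqStatement` with the extra
hypothesis `Neat N q`; for `Neat := fun _ _ => True` it is `H885.CoreSqStatement` verbatim). -/
def CoreSqNeatStatement (Neat : ℕ → ℕ → Prop) : Prop :=
  ∀ (N q p : ℕ) [NeZero N] [NeZero q], q.Prime → N.factorization q = 1 → p.Prime → p ≠ 2 →
    p ≠ q → Neat N q →
    ∀ P : ValuationSubring (AlgebraicClosure ℚ), P.LiesOverPrime q →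
    ∀ (S : Finset ℕ) (a : ℕ → ℤ), NonEisAway p a →
    ∀ x : JZero (N * q), x ≠ 0 → p • x = 0 → EigenAt (N * q) S a x →
      (∀ τ ∈ P.inertiaSubgroupIn ℚ, τ • x = x) → Lowered N p S a

/-- **TOP-CORE.** -/
theorem coreSqNeat_of_newOld (Neat : ℕ → ℕ → Prop) (h : _root_.Fermat.Agent.S59.LoSqC.H301.NewOldStatement Neat) :
    _root_.Fermat.Agent.S59.LoSqC.H301.CoreSqNeatStatement Neat := by
  intro N q p _ _ hq hfac hp hp2 hpq hneat P hP S a ha x hx hpx heig hfix
  obtain ⟨S₀, pa, pb, hpull, hNO⟩ := h N q p hq hfac hp hp2 hpq hneat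
  exact lowered_of_newOldAt hq hp.ne_zero P hpull (hNO P hP S a ha) hx hpx heig hfix

end Fermat.Agent.S59.LoSqC.H301

end
-- ===== PACK-END S59/LoSqC/H301/CoreNeat.lean

-- ===== PACK-BEGIN S59/H826/Form32.lean
section
/-
Row S59, cell LO, leaf LO-SQ at `(p, q) = (3, 2)` — SOFT route, outer leaf FORM32 (helper826).

`form32_826 : Bdry826Statement → Form32Statement` — at an EVEN level `M`, a mod-`3` Betti
eigenclass with the eigenvalues of an irreducible `W[3]` is the reduction of an eigenform.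

Same route as helper719's `S38.H719.formOf` (Frey form, `p ≥ 5`; off-main), with the torsion
step replaced by `S59.MFree.H779.pow_four_eq_one_of_gamma0_h779` at `r = 2`
(`Γ₀(M) ⊆ Γ₀(2)` has no elements of order `3`):
* `S41.H45.ne_h45` : a good prime `ℓ₀ ∉ {2, 3}`, `ℓ₀ ≡ 1 mod M`, with `3 ∤ a_ℓ₀ - (ℓ₀ + 1)`;
* BDRY at `ℓ₀` : the class vanishes on the elements of trace `± 2`;
* `Lib.HFree.H412.exists_lift_isParHom` : lift to an integral parabolic class;
* `Ribet.H883.exists_eigenform_of_lattice_class` : Deligne–Serre on the lattice + S21.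
-/





set_option autoImplicit false
set_option linter.style.haveILetI false

noncomputable section

namespace Fermat.Agent.S59.H826

open CongruenceSubgroup Matrix.SpecialLinearGroup
open Fermat.Agent.S29 Fermat.Agent.Ribet.H883
open scoped MatrixGroups

/-- A prime `ℓ ≡ 1 mod M` does not divide `M`. -/
theorem not_dvd_of_modEq_one826 {M ℓ : ℕ} (hℓ : ℓ.Prime) (h : ℓ ≡ 1 [MOD M]) : ¬ ℓ ∣ M := by
  intro hd
  have h1 : ℓ ≡ 1 [MOD ℓ] := h.of_dvd hd
  have h2 : ℓ ∣ 1 := by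
    have := (Nat.modEq_iff_dvd' hℓ.one_lt.le).mp h1.symm
    exact (Nat.dvd_sub_iff_right hℓ.one_lt.le (dvd_refl ℓ)).mp this
  exact hℓ.one_lt.ne' (Nat.dvd_one.mp h2)

/-- **Step 1 of FORM32.**  At an even level, a mod-`3` class which is an eigenvector of ONE
`T_ℓ₀`, `ℓ₀ ≡ 1 mod M`, with a non-Eisenstein eigenvalue is parabolic (given BDRY) and
torsion-trivial. -/
theorem isParHom_of_nonEis826 (hB : Bdry826Statement) (M : ℕ) (hM : M ≠ 0) (h2M : 2 ∣ M)
    (ℓ₀ : ℕ) [Fact ℓ₀.Prime] (hℓ₀M : ¬ ℓ₀ ∣ M) (hℓ₀2 : ℓ₀ ≠ 2) (hℓ₀1 : ℓ₀ ≡ 1 [MOD M])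
    (a₀ : ℤ) (ha₀ : ¬ ((3 : ℕ) : ℤ) ∣ a₀ - ((ℓ₀ : ℤ) + 1))
    (y : Additive (Gamma0 M) →+ ZMod 3)
    (hy : H642.heckeTransfer hℓ₀M y = ((a₀ : ℤ) : ZMod 3) • y) :
    IsParHom (funOf y) := by
  refine ⟨funOf_map_mul y, fun γ hγ => ?_, fun γ n hn hγ => ?_⟩
  · -- parabolic elements
    have htr : ((γ : SL(2, ℤ)) : Matrix (Fin 2) (Fin 2) ℤ).trace ^ 2 = 4 := by
      have : ((γ : SL(2, ℤ)) : Matrix (Fin 2) (Fin 2) ℤ).trace = 2 ∨
          ((γ : SL(2, ℤ)) : Matrix (Fin 2) (Fin 2) ℤ).trace = -2 := hγ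
      rcases this with h | h <;> rw [h] <;> norm_num
    have h1 := hB M ℓ₀ hℓ₀M hM hℓ₀2 hℓ₀1 (ZMod 3) y γ htr
    rw [hy] at h1
    have h2 : ((a₀ : ℤ) : ZMod 3) * y (Additive.ofMul γ)
        = ((ℓ₀ + 1 : ℕ) : ZMod 3) * y (Additive.ofMul γ) := by
      rw [← nsmul_eq_mul, ← h1]
      rfl
    have h3 : (((a₀ - ((ℓ₀ : ℤ) + 1) : ℤ)) : ZMod 3) * y (Additive.ofMul γ) = 0 := by
      push_cast
      push_cast at h2
      linear_combination h2
    have h4 : (((a₀ - ((ℓ₀ : ℤ) + 1) : ℤ)) : ZMod 3) ≠ 0 := by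
      intro h
      exact ha₀ ((ZMod.intCast_zmod_eq_zero_iff_dvd _ _).mp h)
    exact (mul_eq_zero.mp h3).resolve_left h4
  · -- torsion elements: `γ ^ 4 = 1` in `Γ₀(2)`
    have hfin : IsOfFinOrder (γ : SL(2, ℤ)) := by
      refine isOfFinOrder_iff_pow_eq_one.mpr ⟨n, hn, ?_⟩
      have := congrArg (fun g : Gamma0 M => (g : SL(2, ℤ))) hγ
      simpa using this
    haveI : Fact (Nat.Prime 2) := ⟨Nat.prime_two⟩
    have hγ2 : (γ : SL(2, ℤ)) ∈ Gamma0 2 := by
      have hγM := γ.2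
      rw [Gamma0_mem] at hγM ⊢
      have hd : ((M : ℕ) : ℤ) ∣ ((γ : SL(2, ℤ)) 1 0 : ℤ) :=
        (ZMod.intCast_zmod_eq_zero_iff_dvd _ M).mp hγM
      exact (ZMod.intCast_zmod_eq_zero_iff_dvd _ 2).mpr
        (dvd_trans (by exact_mod_cast h2M) hd)
    have h4 : γ ^ 4 = 1 := by
      apply Subtype.ext
      have := Fermat.Agent.S59.MFree.H779.pow_four_eq_one_of_gamma0_h779 2 (by norm_num)
        (γ : SL(2, ℤ)) hγ2 hfin
      simpa using this
    have h1 : (4 : ℕ) • y (Additive.ofMul γ) = 0 := by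
      rw [← map_nsmul, ← ofMul_pow, h4, ofMul_one, map_zero]
    rw [nsmul_eq_mul] at h1
    have h41 : ((4 : ℕ) : ZMod 3) = 1 := by decide
    rw [h41, one_mul] at h1
    exact h1

/-- **Step 2 of FORM32** (copy of helper719's `S38.H719.exists_eigenform_of_parHom`).  A nonzero
parabolic torsion-trivial mod-`p` eigenclass (for the `T_ℓ`, `ℓ ∤ M`, `good ℓ`) is the reduction
of a normalised eigenform of level `M`. -/
theorem exists_eigenform_of_parHom826 (p : ℕ) [Fact p.Prime] (M : ℕ) [NeZero M]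
    (good : ℕ → Prop) (a : ℕ → ℤ) (y : Additive (Gamma0 M) →+ ZMod p) (hy0 : y ≠ 0)
    (hpar : IsParHom (funOf y))
    (hyT : ∀ (ℓ : ℕ) [Fact ℓ.Prime] (hℓ : ¬ ℓ ∣ M), good ℓ →
      H642.heckeTransfer hℓ y = ((a ℓ : ℤ) : ZMod p) • y) :
    ∃ (g : CuspForm (Gamma0 M) 2) (𝔪 : Ideal (integralClosure ℤ ℂ)),
      g.IsNormalizedEigenform ∧ 𝔪.IsMaximal ∧ (p : integralClosure ℤ ℂ) ∈ 𝔪 ∧
      ∀ ℓ : ℕ, ℓ.Prime → ¬ ℓ ∣ M → good ℓ →
        ∃ b : integralClosure ℤ ℂ, (b : ℂ) = ModularFormClass.qCoeff g ℓ ∧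
          b - ((a ℓ : ℤ) : integralClosure ℤ ℂ) ∈ 𝔪 := by
  have hp : p.Prime := Fact.out
  have : NeZero p := ⟨hp.ne_zero⟩
  -- lift to `ℤ`
  obtain ⟨c', hc', hcc'⟩ := Fermat.Agent.Lib.HFree.H412.exists_lift_isParHom M p (funOf y) hpar
  set ψ : Additive (Gamma0 M) →+ ℤ := homOf c' hc'.map_mul with hψ
  have hψpar : ψ ∈ parZ M := (mem_parZ M).mpr (by rw [hψ, funOf_homOf]; exact hc')
  have hψc : ∀ γ : G0 M, ((ψ (Additive.ofMul γ) : ℤ) : ZMod p) = y (Additive.ofMul γ) :=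
    fun γ => hcc' γ
  have hred : (Int.castAddHom (ZMod p)).comp ψ = y := by
    refine AddMonoidHom.ext fun γ => ?_
    exact hψc (Additive.toMul γ)
  let S' : Set ℕ := {l | ¬ good l}
  refine (fun ⟨g, 𝔪, hg, h𝔪, hp𝔪, hcong⟩ => ⟨g, 𝔪, hg, h𝔪, hp𝔪, fun ℓ hℓ hℓM hgood =>
    hcong ℓ hℓ hℓM (fun h => h hgood)⟩)
    (exists_eigenform_of_lattice_class (M := M) p S' a (toC M ψ) ⟨ψ, hψpar, rfl⟩ ?_ ?_)
  · -- `y ∉ pK`
    rintro z ⟨ψ', -, rfl⟩ hz
    have hz' : toC M ψ = toC M (p • ψ') := by rw [hz, map_nsmul]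
    have hψ' : ψ = p • ψ' := toC_injective M hz'
    apply hy0
    refine AddMonoidHom.ext fun γ => ?_
    have := hψc (Additive.toMul γ)
    rw [hψ', AddMonoidHom.nsmul_apply, nsmul_eq_mul] at this
    push_cast at this
    rw [ZMod.natCast_self, zero_mul] at this
    exact this.symm
  · -- eigen-relation mod `pK`
    intro i hi
    have higood : good i.1 := not_not.mp hi
    have : Fact i.1.Prime := ⟨i.2.1⟩
    set ξ : Additive (Gamma0 M) →+ ℤ := tOp i ψ - a i.1 • ψ with hξ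
    have hξpar : ξ ∈ parZ M :=
      (parZ M).sub_mem (tOp_mem_parZ i hψpar) ((parZ M).zsmul_mem hψpar _)
    have hξdvd : ∀ γ, (p : ℤ) ∣ ξ γ := by
      intro γ
      rw [← ZMod.intCast_zmod_eq_zero_iff_dvd]
      have e1 : ((tOp i ψ γ : ℤ) : ZMod p) = ((a i.1 : ℤ) : ZMod p) * y γ := by
        have h1 := tOp_comp i (Int.castAddHom (ZMod p)) ψ
        rw [hred] at h1
        have h2 : tOp i y = ((a i.1 : ℤ) : ZMod p) • y := hyT i.1 i.2.2 higood
        rw [h2] at h1
        have h3 := congrArg (fun φ : Additive (Gamma0 M) →+ ZMod p => φ γ) h1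
        simp only [AddMonoidHom.smul_apply, AddMonoidHom.coe_comp, Function.comp_apply,
          Int.coe_castAddHom, smul_eq_mul] at h3
        exact h3.symm
      have e2 : ((ψ γ : ℤ) : ZMod p) = y γ := hψc (Additive.toMul γ)
      rw [hξ, AddMonoidHom.sub_apply, AddMonoidHom.zsmul_apply, smul_eq_mul, Int.cast_sub,
        Int.cast_mul, e1, e2, sub_self]
    refine ⟨toC M (divHom p ξ hξdvd), ⟨_, divHom_mem_parZ p ξ hξdvd hξpar, rfl⟩, ?_⟩
    rw [← map_nsmul, nsmul_divHom, hξ, map_sub, map_zsmul, tEnd_toC]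

/-- **FORM32**, given BDRY. -/
theorem form32_826 (hB : Bdry826Statement) : Form32Statement := by
  intro W hΔ hirr M hM h2M hocc
  obtain ⟨y, hy0, hyT⟩ := hocc
  haveI : Fact (Nat.Prime 3) := ⟨by norm_num⟩
  haveI : NeZero M := ⟨hM⟩
  haveI := isElliptic_map826 W hΔ
  obtain ⟨ℓ₀, hℓ₀, hℓ₀S, hℓ₀good, hℓ₀1, hℓ₀ne⟩ :=
    Fermat.Agent.S41.H45.ne_h45 (W.map (Int.castRingHom ℚ)) W (isIntegralModelOf_self826 W) 3
      (by norm_num) (by norm_num) hirr M (Nat.pos_of_ne_zero hM) {2, 3}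
  haveI : Fact ℓ₀.Prime := ⟨hℓ₀⟩
  have hℓ₀2 : ℓ₀ ≠ 2 := fun h => hℓ₀S (by rw [h]; simp)
  have hℓ₀p : ℓ₀ ≠ 3 := fun h => hℓ₀S (by rw [h]; simp)
  have hℓ₀M : ¬ ℓ₀ ∣ M := not_dvd_of_modEq_one826 hℓ₀ hℓ₀1
  have hpar : IsParHom (funOf y) :=
    isParHom_of_nonEis826 hB M hM h2M ℓ₀ hℓ₀M hℓ₀2 hℓ₀1 (W.apOfModel ℓ₀) hℓ₀ne y
      (hyT ℓ₀ hℓ₀M ⟨hℓ₀good, hℓ₀p⟩)
  obtain ⟨g, 𝔪, hg, h𝔪, hp𝔪, hcong⟩ :=
    exists_eigenform_of_parHom826 3 M (fun ℓ => W.IsGoodPrimeFor ℓ ∧ ℓ ≠ 3)
      (fun ℓ => W.apOfModel ℓ) y hy0 hpar hyT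
  exact ⟨g, 𝔪, hg, h𝔪, hp𝔪, fun ℓ hℓ hgood hℓM hℓp => hcong ℓ hℓ hℓM ⟨hgood, hℓp⟩⟩

end Fermat.Agent.S59.H826

end
end
-- ===== PACK-END S59/H826/Form32.lean

-- ===== PACK-BEGIN S59/H826/LoSq32.lean
section
/-
Row S59, cell LO, leaf LO-SQ at `(p, q) = (3, 2)` — SOFT route, final glue (helper826).

`loSq32_826 : Frame32Statement → LoSq32Statement`, and the same in the shape of
`H934.LoSqStatement` at `p = 3`, `q = 2` (`loSq_three_two826`).

Open input: `Frame32Statement` = B-GRP + B-HECKE (helper316 + helper826, in progress).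
Closed: OCC-W, NE32, CHEB32, FORM32 (BDRY = `S59.TW.H653.Bdry.bdry_h653`, helper653, on main),
CORE, KEY, `Frame ⟹ BETTI32`.
-/





set_option autoImplicit false

namespace Fermat.Agent.S59.H826

/-- **BDRY** (helper653, on main). -/
theorem bdry826 : Bdry826Statement := Fermat.Agent.S59.TW.H653.Bdry.bdry_h653

/-- **FORM32**, unconditional. -/
theorem form32 : Form32Statement := form32_826 bdry826

/-- **LO-SQ at `(3, 2)`**, given the frames. -/
theorem loSq32_826 (hF : Frame32Statement) : LoSq32Statement :=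
  loSq32_of_leaves occW826 form32 cheb32_826 ne32_826 (betti32_of_frame hF)

/-- The same, in the shape of `H934.LoSqStatement` at `p = 3`, `q = 2`. -/
theorem loSq_three_two826 (hF : Frame32Statement)
    (W : WeierstrassCurve ℤ) (hΔ : W.Δ ≠ 0) (hW : W.IsSemistableModel)
    (hirr : W.ModRepIsIrreducible 3)
    (M : ℕ) (hM : M ≠ 0)
    (hM3 : ∀ r : ℕ, r.Prime → r ≠ 3 → ¬ r ^ 3 ∣ M)
    (hq2 : 2 ^ 2 ∣ M)
    (hres : W.IsResiduallyModularOfLevel 3 M) :
    W.IsResiduallyModularOfLevel 3 (M / 2) :=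
  loSq32_826 hF W hΔ hW hirr M hM (hM3 2 Nat.prime_two (by norm_num)) hq2 hres

end Fermat.Agent.S59.H826

end
-- ===== PACK-END S59/H826/LoSq32.lean

-- ===== PACK-BEGIN S59/H116/LoSqEasyAux.lean
section




/-!
# Row S59, cell (C) LO-SQ — EASY half, characteristic-zero glue, auxiliary lemmas (helper116)

* `charpoly_eq_of_sub_one_sq116` : over a field, an endomorphism `T` of a plane with
  `(T - 1)² = 0` has characteristic polynomial `(X - 1)²`.
* `wRes_charpoly_inertia116` : for a semistable integral model `W` (`Δ ≠ 0`) and primes `q ≠ p`,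
  every element of an inertia group at `q` has characteristic polynomial `(X - 1)²` on `W[p]`
  (the Prelude's `residualGaloisRepOf`, in the form `S58.H273.wRes`).
-/

set_option autoImplicit false
set_option linter.unusedSectionVars false
set_option linter.style.haveILetI false

open Polynomial IsLocalRing

namespace Fermat.Agent.S59.H116

/-- Over a field, an endomorphism `T` of a plane with `(T - 1)² = 0` has characteristic
polynomial `(X - 1)²`. -/
theorem charpoly_eq_of_sub_one_sq116 {k : Type*} [Field k] {V : Type*} [AddCommGroup V]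
    [Module k V] [Module.Finite k V] (hV : Module.finrank k V = 2) (T : Module.End k V)
    (h : (T - 1) * (T - 1) = 0) : LinearMap.charpoly T = (X - 1) ^ 2 := by
  classical
  have hch := Fermat.Agent.S58.H273.charpoly_eq_of_finrank_two hV T
  -- Cayley–Hamilton
  have hCH : T * T - (LinearMap.trace k V T) • T + (LinearMap.det T) • (1 : Module.End k V) = 0 := by
    have := LinearMap.aeval_self_charpoly T
    rw [hch] at this
    simp only [map_add, map_sub, map_mul, aeval_X, aeval_C, Algebra.algebraMap_eq_smul_one,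
      smul_mul_assoc, one_mul, pow_two] at this
    exact this
  -- the relation `T² = 2 T - 1`
  have hsq : T * T = (2 : k) • T - 1 := by
    have h1 : (T - 1) * (T - 1) = T * T - (2 : k) • T + 1 := by
      rw [two_smul]
      noncomm_ring
    rw [h1] at h
    have h2 : T * T = (2 : k) • T - 1 + (T * T - (2 : k) • T + 1) := by abel
    rw [h2, h, add_zero]
  -- `(tr - 2) T = (det - 1) 1`
  have hrel : (LinearMap.trace k V T - 2) • T = (LinearMap.det T - 1) • (1 : Module.End k V) := by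
    have h3 : (LinearMap.trace k V T - 2) • T - (LinearMap.det T - 1) • (1 : Module.End k V)
        = -(T * T - (LinearMap.trace k V T) • T + (LinearMap.det T) • (1 : Module.End k V))
          + (T * T - ((2 : k) • T - 1)) := by
      rw [sub_smul, sub_smul, one_smul]
      abel
    rw [hCH, hsq, sub_self, neg_zero, add_zero] at h3
    exact sub_eq_zero.mp h3
  -- a nonzero vector
  let b : Module.Basis (Fin 2) k V := Module.finBasisOfFinrankEq k V hV
  have hb0 : b 0 ≠ 0 := b.ne_zero 0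
  have hone : ∀ a : k, a • (1 : Module.End k V) = 0 → a = 0 := by
    intro a ha
    have := congrArg (fun f : Module.End k V => f (b 0)) ha
    simp only [LinearMap.smul_apply, Module.End.one_apply, LinearMap.zero_apply] at this
    exact (smul_eq_zero.mp this).resolve_right hb0
  have htr : LinearMap.trace k V T = 2 := by
    by_contra hne
    have hc : LinearMap.trace k V T - 2 ≠ 0 := sub_ne_zero.mpr hne
    -- `T` is a scalar
    have hT : T = ((LinearMap.trace k V T - 2)⁻¹ * (LinearMap.det T - 1)) • (1 : Module.End k V) := by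
      rw [mul_smul, ← hrel, smul_smul, inv_mul_cancel₀ hc, one_smul]
    set e : k := (LinearMap.trace k V T - 2)⁻¹ * (LinearMap.det T - 1) with he
    have h4 : ((e - 1) * (e - 1)) • (1 : Module.End k V) = 0 := by
      have : (T - 1) * (T - 1) = ((e - 1) * (e - 1)) • (1 : Module.End k V) := by
        rw [hT]
        have : e • (1 : Module.End k V) - 1 = (e - 1) • (1 : Module.End k V) := by
          rw [sub_smul, one_smul]
        rw [this, smul_mul_smul_comm, mul_one]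
      rw [← this, h]
    have h5 : (e - 1) * (e - 1) = 0 := hone _ h4
    have h6 : e = 1 := by
      rcases mul_self_eq_zero.mp h5 with h7
      exact sub_eq_zero.mp h7
    apply hne
    rw [hT, h6, one_smul, LinearMap.trace_one, hV]
    norm_num
  have hdet : LinearMap.det T = 1 := by
    rw [htr, sub_self, zero_smul] at hrel
    exact sub_eq_zero.mp (hone _ hrel.symm)
  rw [hch, htr, hdet]
  simp only [map_ofNat, map_one]
  ring

/-- **Inertia at `q ≠ p` is unipotent on `W[p]`** (`W` semistable), in characteristic-polynomial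
form. -/
theorem wRes_charpoly_inertia116 (W : WeierstrassCurve ℤ) (hΔ : W.Δ ≠ 0)
    (hss : W.IsSemistableModel) (p : ℕ) [Fact p.Prime] {q : ℕ} (hq : q.Prime) (hqp : q ≠ p)
    (A : ValuationSubring (AlgebraicClosure ℚ)) (hA : A.LiesOverPrime q)
    (σ : AlgebraicClosure ℚ ≃ₐ[ℚ] AlgebraicClosure ℚ) (hσ : σ ∈ A.inertiaSubgroupIn ℚ) :
    LinearMap.charpoly ((Fermat.Agent.S58.H273.wRes W hΔ p).ρ σ) = (X - 1) ^ 2 := by
  have h := Fermat.Agent.S59.H577.sub_one_sq_rho577 W p hΔ hss hq hqp A hA σ hσ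
  exact charpoly_eq_of_sub_one_sq116 (Fermat.Agent.S58.H273.wRes W hΔ p).finrank_eq _ h

end Fermat.Agent.S59.H116

end
-- ===== PACK-END S59/H116/LoSqEasyAux.lean

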