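import Mathlib
import Fermat.Agent.Pack.S59C.E6L2
import Fermat.Agent.Pack.S59C.E0L0
import Fermat.Agent.Pack.S59C.E7L2
import Fermat.Agent.Pack.S43MC.G0E24L0
import Fermat.Agent.Pack.S44C.G0E21L3
import Fermat.Agent.Pack.S43MC.G0E21L3
import Fermat.Agent.Pack.S59C.E4L0
import Fermat.Agent.Pack.S43GC.G0E21L0
import Fermat.Agent.Pack.S43GC.G0E21L1
import Fermat.Agent.Pack.S43GC.G0E22L1
import Fermat.Agent.Pack.S59C.E8L3
import Fermat.Agent.Pack.S43MC.G0E15L0
import Fermat.Agent.Pack.S59C.E0L3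
import Fermat.Agent.Pack.S43MC.G0E6L2
import Fermat.Agent.Pack.S43MC.G0E25L2
import Fermat.Agent.Pack.S43GC.G0E15L0
import Fermat.Agent.Pack.S59C.E8L0
import Fermat.Agent.Pack.S59C.E2L0
import Fermat.Agent.Pack.S44C.G0E17L0
import Fermat.Agent.Pack.S44C.G0E1L3
import Fermat.Agent.Pack.S43MC.G0E18L0
import Fermat.Agent.Pack.S44C.G0E21L2
import Fermat.Agent.Pack.S59C.E0L2
import Fermat.Agent.Pack.S44C.G0E26L2
import Fermat.Agent.Pack.S44C.G0E26L0
import Fermat.Agent.Pack.S44C.G0E23L0
import Fermat.Agent.Pack.S43MC.G0E25L0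
import Fermat.Agent.Pack.S44C.G0E20L2
import Fermat.Agent.Pack.S44C.G0E23L3
import Fermat.Agent.Pack.S59C.E8L1

set_option linter.all false

-- ===== PACK-BEGIN S59/H563/OldStruct.lean
section







/-!
# NM-OLD, forms side (helper563): structure of the good eigenspaces

`f₀` a Prelude-newform of level `N₀`, `a l = a_l(f₀)` for the primes `l ∉ S'` (`S'` finite).
For every level `C` all of whose primes are in `S'`, the space of the cusp forms of level `C`
which are eigenvectors of the `T_l`, `l ∉ S'`, with eigenvalues `a l`, is contained in the span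
of the forms `f₀(d τ)`, `d N₀ ∣ C`  (`struct563`).

Proof: induction on `C`; `crossLevel` (no form if `N₀ ∤ C`), the main lemma in `D`-form
(`h - a₁(h) f₀` is old), semisimplicity (`OldSS`) and the lifting lemma (`OldLift`).
-/

set_option autoImplicit false

open CongruenceSubgroup ModularFormClass ModularForm UpperHalfPlane

namespace Fermat.Agent.S59.H563

open Fermat.Agent.Lib.Newform

/-- A good eigenvector with `a_1 = 0` has `a_n = 0` for all `n` whose prime factors are good. -/
theorem qCoeff_eq_zero_of_good563 {C : ℕ} (h : CuspForm (Gamma0 C) 2) (a : ℕ → ℂ)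
    (P : ℕ → Prop) (heig : ∀ ℓ : ℕ, ℓ.Prime → P ℓ → heckeT 2 ℓ ⇑h = a ℓ • ⇑h)
    (h1 : qCoeff ⇑h 1 = 0) :
    ∀ n : ℕ, (∀ ℓ : ℕ, ℓ.Prime → ℓ ∣ n → P ℓ) → qCoeff ⇑h n = 0 := by
  intro n
  induction n using Nat.strong_induction_on with
  | _ n ih =>
    intro hgood
    rcases Nat.eq_zero_or_pos n with rfl | hn
    · exact H683.qCoeff_zero_cusp 2 h
    rcases Nat.eq_or_lt_of_le (Nat.succ_le_of_lt hn) with h' | h'
    · rw [← h']; exact h1
    · have hn1 : n ≠ 1 := by omega
      obtain ⟨p, hp, hpn⟩ := Nat.exists_prime_and_dvd hn1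
      have hPp : P p := hgood p hp hpn
      obtain ⟨m, rfl⟩ := hpn
      have hm : 0 < m := Nat.pos_of_ne_zero (by rintro rfl; simp at hn)
      have hlt : m < p * m := by
        have := hp.one_lt
        nlinarith
      have hmgood : ∀ ℓ : ℕ, ℓ.Prime → ℓ ∣ m → P ℓ := fun ℓ hℓ hℓm =>
        hgood ℓ hℓ (hℓm.mul_left p)
      have := H683.coeff_of_heckeT_eq h hp (a p) (heig p hp hPp) m
      rw [ih m hlt hmgood, mul_zero] at this
      rw [mul_comm p m]
      by_cases hpm : p ∣ m
      · have hdiv : ∀ ℓ : ℕ, ℓ.Prime → ℓ ∣ m / p → P ℓ := fun ℓ hℓ hℓm =>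
          hmgood ℓ hℓ (hℓm.trans (Nat.div_dvd_of_dvd hpm))
        rw [if_pos hpm, ih (m / p) (lt_of_le_of_lt (Nat.div_le_self m p) hlt) hdiv, mul_zero,
          add_zero] at this
        exact this
      · rw [if_neg hpm, add_zero] at this
        exact this

theorem heckeDiag_smul_smul563 {d e : ℕ} (hd : d ≠ 0) (he : e ≠ 0) (τ : ℍ) :
    heckeDiagMatrix d • (heckeDiagMatrix e • τ) = heckeDiagMatrix (d * e) • τ := by
  apply UpperHalfPlane.ext
  rw [coe_heckeDiagMatrix_smul hd, coe_heckeDiagMatrix_smul he,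
    coe_heckeDiagMatrix_smul (Nat.mul_ne_zero hd he)]
  push_cast
  ring

section Struct

variable {N₀ : ℕ} (f₀ : CuspForm (Gamma0 N₀) 2)

/-- The span of the forms `f₀(d τ)`, `d N₀ ∣ C`, of level `C`. -/
def oldSpan563 (C : ℕ) : Submodule ℂ (CuspForm (Gamma0 C) 2) :=
  Submodule.span ℂ {g | ∃ d : ℕ, d ≠ 0 ∧ d * N₀ ∣ C ∧ ∀ τ : ℍ, g τ = f₀ (heckeDiagMatrix d • τ)}

/-- `B_p` maps the span of level `C / p` into the span of level `C`. -/
theorem oldMap_mem_oldSpan563 (C : ℕ) (p : C.primeFactors)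
    (g : CuspForm (Gamma0 (C / p.1)) 2) (hg : g ∈ oldSpan563 f₀ (C / p.1)) :
    H443.oldMap C p g ∈ oldSpan563 f₀ C := by
  have hp := Nat.mem_primeFactors.mp p.2
  have hmap : Submodule.map (H443.oldMap C p) (oldSpan563 f₀ (C / p.1)) ≤ oldSpan563 f₀ C := by
    unfold oldSpan563
    rw [Submodule.map_span]
    apply Submodule.span_mono
    rintro _ ⟨g, ⟨d, hd, hdvd, hgd⟩, rfl⟩
    refine ⟨d * p.1, Nat.mul_ne_zero hd hp.1.ne_zero, ?_, fun τ => ?_⟩
    · have h1 : d * N₀ * p.1 ∣ C / p.1 * p.1 := Nat.mul_dvd_mul hdvd dvd_rfl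
      rw [Nat.div_mul_cancel hp.2.1] at h1
      rw [mul_right_comm]
      exact h1
    · rw [H443.oldMap_apply, hgd, heckeDiag_smul_smul563 hd hp.1.ne_zero]
  exact hmap (Submodule.mem_map_of_mem hg)

/-- The sum of the maps `B_p`, `p ∣ C`. -/
noncomputable def oldSum563 (C : ℕ) :
    ((p : C.primeFactors) → CuspForm (Gamma0 (C / p.1)) 2) →ₗ[ℂ] CuspForm (Gamma0 C) 2 :=
  ∑ p : C.primeFactors, (H443.oldMap C p).comp (LinearMap.proj p)

theorem oldSum563_apply (C : ℕ) (v : (p : C.primeFactors) → CuspForm (Gamma0 (C / p.1)) 2) :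
    oldSum563 C v = ∑ p : C.primeFactors, H443.oldMap C p (v p) := by
  simp [oldSum563, LinearMap.sum_apply]

/-- The diagonal action of `T_l` on the source of the old space. -/
noncomputable def oldSrcT563 (C : ℕ) {l : ℕ} (hl : l.Prime) (hlC : ¬ l ∣ C) :
    Module.End ℂ ((p : C.primeFactors) → CuspForm (Gamma0 (C / p.1)) 2) :=
  LinearMap.pi fun p =>
    (CuspForm.heckeTLin 2 hl (fun hd => hlC (hd.trans (H443.div_dvd_of_mem C p)))).comp (LinearMap.proj p)

theorem oldSrcT563_apply (C : ℕ) {l : ℕ} (hl : l.Prime) (hlC : ¬ l ∣ C)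
    (v : (p : C.primeFactors) → CuspForm (Gamma0 (C / p.1)) 2) (p : C.primeFactors) :
    oldSrcT563 C hl hlC v p =
      CuspForm.heckeTLin 2 hl (fun hd => hlC (hd.trans (H443.div_dvd_of_mem C p))) (v p) := rfl

/-- A form with vanishing coefficients prime to the level is in the range of `oldSum563`. -/
theorem exists_oldSum563_eq (C : ℕ) [NeZero C] (h : CuspForm (Gamma0 C) 2)
    (hh : ∀ n : ℕ, n.Coprime C → qCoeff h n = 0) :
    ∃ v : (p : C.primeFactors) → CuspForm (Gamma0 (C / p.1)) 2, oldSum563 C v = h := by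
  obtain ⟨g, hg⟩ := Fermat.Agent.Lib.Newform.H803.mainLemma C 2 h hh
  refine ⟨fun p => g p.1, ?_⟩
  rw [oldSum563_apply]
  apply DFunLike.coe_injective
  funext τ
  have h1 : (⇑(∑ p : C.primeFactors, H443.oldMap C p (g p.1)) : ℍ → ℂ) τ =
      ∑ p : C.primeFactors, (H443.oldMap C p (g p.1)) τ := by
    have hgen : ∀ s : Finset C.primeFactors,
        (⇑(∑ p ∈ s, H443.oldMap C p (g p.1)) : ℍ → ℂ) τ =
          ∑ p ∈ s, (H443.oldMap C p (g p.1)) τ := by
      intro s
      classical
      induction s using Finset.induction_on with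
      | empty => simp
      | insert a s ha ih =>
        rw [Finset.sum_insert ha, Finset.sum_insert ha, FunLike.coe_add, Pi.add_apply, ih]
    exact hgen Finset.univ
  rw [h1, hg τ, ← Finset.sum_coe_sort C.primeFactors
    (fun p => (g p) (ModularForm.heckeDiagMatrix p • τ))]
  exact Finset.sum_congr rfl (fun p _ => H443.oldMap_apply C p (g p.1) τ)

variable [NeZero N₀]

/-- **Structure of the good eigenspaces.** -/
theorem struct563 (hf₀ : f₀.IsNewform) (S' : Finset ℕ) (a : ℕ → ℂ)
    (ha : ∀ l : ℕ, l.Prime → l ∉ S' → qCoeff f₀ l = a l) :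
    ∀ (C : ℕ) (hC0 : C ≠ 0), (∀ p : ℕ, p.Prime → p ∣ C → p ∈ S') →
      ∀ h : CuspForm (Gamma0 C) 2,
        (∀ (l : ℕ) (hl : l.Prime) (hlC : ¬ l ∣ C), l ∉ S' → CuspForm.heckeTLin 2 hl hlC h = a l • h) →
        h ∈ oldSpan563 f₀ C := by
  intro C
  induction C using Nat.strong_induction_on with
  | _ C ih =>
    intro hC0 hCS h hh
    haveI : NeZero C := ⟨hC0⟩
    have hgoodC : ∀ l : ℕ, l.Prime → l ∉ S' → ¬ l ∣ C := fun l hl hlS hd => hlS (hCS l hl hd)
    by_cases hdvd : N₀ ∣ C
    · -- the form `f₀` at level `C`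
      have h1dvd : 1 * N₀ ∣ C := by rwa [one_mul]
      set f₀C : CuspForm (Gamma0 C) 2 := H863.raiseLin (d := 1) h1dvd f₀ with hf₀C
      have hf₀Cmem : f₀C ∈ oldSpan563 f₀ C :=
        Submodule.subset_span ⟨1, one_ne_zero, h1dvd, fun τ => H863.raiseLin_apply h1dvd f₀ τ⟩
      have hf₀Ceig : ∀ (l : ℕ) (hl : l.Prime) (hlC : ¬ l ∣ C), l ∉ S' →
          CuspForm.heckeTLin 2 hl hlC f₀C = a l • f₀C := by
        intro l hl hlC hlS
        rw [hf₀C, H443.heckeTLin_raiseLin h1dvd hl hlC f₀,
          H683.heckeTLin_eq_of_eigenform hf₀.1 hl, map_smul, ha l hl hlS]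
      have hf₀C1 : qCoeff f₀C 1 = 1 := by
        rw [hf₀C, H863.qCoeff_raiseLin h1dvd f₀ 1, if_pos (dvd_refl 1), Nat.div_one]
        exact hf₀.1.qCoeff_one
      -- `h' = h - a₁(h) f₀`
      set h' : CuspForm (Gamma0 C) 2 := h - qCoeff h 1 • f₀C with hh'
      have hh'eig : ∀ (l : ℕ) (hl : l.Prime) (hlC : ¬ l ∣ C), l ∉ S' →
          CuspForm.heckeTLin 2 hl hlC h' = a l • h' := by
        intro l hl hlC hlS
        rw [hh', map_sub, map_smul, hh l hl hlC hlS, hf₀Ceig l hl hlC hlS, smul_sub,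
          smul_comm]
      have hh'1 : qCoeff h' 1 = 0 := by
        have := (H683.coeffLin C 2 1).map_sub h (qCoeff h 1 • f₀C)
        rw [map_smul] at this
        simp only [H683.coeffLin_apply, smul_eq_mul] at this
        rw [hh', this, hf₀C1, mul_one, sub_self]
      -- vanishing of the good coefficients
      have hvan : ∀ n : ℕ, (∀ l : ℕ, l.Prime → l ∣ n → l ∉ S') → qCoeff h' n = 0 := by
        refine qCoeff_eq_zero_of_good563 h' a (fun l => l ∉ S') ?_ hh'1
        intro l hl hlS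
        have := congrArg (fun F : CuspForm (Gamma0 C) 2 => (⇑F : ℍ → ℂ))
          (hh'eig l hl (hgoodC l hl hlS) hlS)
        simpa [CuspForm.coe_heckeTLin_apply] using this
      classical
      set D : ℕ := ∏ p ∈ S'.filter Nat.Prime, p with hD
      have hDpos : 0 < D := by
        rw [hD]
        exact Finset.prod_pos (fun p hp => (Finset.mem_filter.mp hp).2.pos)
      have hvanD : ∀ n : ℕ, n.Coprime D → qCoeff h' n = 0 := by
        intro n hn
        apply hvan
        intro l hl hln hlS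
        have hlD : l ∣ D := by
          rw [hD]
          exact Finset.dvd_prod_of_mem _ (Finset.mem_filter.mpr ⟨hlS, hl⟩)
        have := Nat.dvd_gcd hln hlD
        rw [hn] at this
        exact hl.one_lt.ne' (Nat.dvd_one.mp this)
      have hcop := H743.qCoeff_eq_zero_of_coprime_level 2 C D hDpos h' hvanD
      obtain ⟨v, hv⟩ := exists_oldSum563_eq C h' hcop
      -- lifting
      have hM0 : ∀ p : C.primeFactors, NeZero (C / p.1) := fun p =>
        ⟨fun h0 => hC0 (Nat.eq_zero_of_zero_dvd (h0 ▸ H443.div_dvd_of_mem C p))⟩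
      have hfd : ∀ p : C.primeFactors, FiniteDimensional ℂ (CuspForm (Gamma0 (C / p.1)) 2) :=
        fun p =>
          haveI := hM0 p
          H683.finiteDimensional_cuspForm (C / p.1) 2
      let J : Type := {l : ℕ // l.Prime ∧ l ∉ S'}
      let Sop : J → Module.End ℂ ((p : C.primeFactors) → CuspForm (Gamma0 (C / p.1)) 2) :=
        fun j => oldSrcT563 C j.2.1 (hgoodC j.1 j.2.1 j.2.2)
      let Top : J → Module.End ℂ (CuspForm (Gamma0 C) 2) :=
        fun j => CuspForm.heckeTLin 2 j.2.1 (hgoodC j.1 j.2.1 j.2.2)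
      have hcomm : ∀ i j, Commute (Sop i) (Sop j) := by
        intro i j
        apply LinearMap.ext
        intro w
        funext p
        have := congrArg (fun F : Module.End ℂ (CuspForm (Gamma0 (C / p.1)) 2) => F (w p))
          (CuspForm.heckeTLin_comm 2 i.2.1
            (fun hd => hgoodC i.1 i.2.1 i.2.2 (hd.trans (H443.div_dvd_of_mem C p)))
            j.2.1 (fun hd => hgoodC j.1 j.2.1 j.2.2 (hd.trans (H443.div_dvd_of_mem C p))))
        simpa [Sop, oldSrcT563_apply, Module.End.mul_apply] using this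
      have hequiv : ∀ j w, oldSum563 C (Sop j w) = Top j (oldSum563 C w) := by
        intro j w
        rw [oldSum563_apply, oldSum563_apply, map_sum]
        refine Finset.sum_congr rfl (fun p _ => ?_)
        show H443.oldMap C p (CuspForm.heckeTLin 2 j.2.1
            (fun hd => hgoodC j.1 j.2.1 j.2.2 (hd.trans (H443.div_dvd_of_mem C p))) (w p)) =
          CuspForm.heckeTLin 2 j.2.1 (hgoodC j.1 j.2.1 j.2.2) (H443.oldMap C p (w p))
        exact H443.heckeTLin_oldMap C p j.2.1 (hgoodC j.1 j.2.1 j.2.2) (w p)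
      have hss : ∀ j w, Sop j (Sop j w - a j.1 • w) = a j.1 • (Sop j w - a j.1 • w) →
          Sop j w = a j.1 • w := by
        intro j w hw
        funext p
        haveI := hM0 p
        have hlp : ¬ j.1 ∣ C / p.1 :=
          fun hd => hgoodC j.1 j.2.1 j.2.2 (hd.trans (H443.div_dvd_of_mem C p))
        have hp : CuspForm.heckeTLin 2 j.2.1 hlp
            (CuspForm.heckeTLin 2 j.2.1 hlp (w p) - a j.1 • w p) =
            a j.1 • (CuspForm.heckeTLin 2 j.2.1 hlp (w p) - a j.1 • w p) := congrFun hw p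
        exact heckeTLin_semisimple563 j.1 j.2.1 hlp (a j.1) (w p) hp
      have hveig : ∀ j, Top j (oldSum563 C v) = a j.1 • oldSum563 C v := by
        intro j
        rw [hv]
        exact hh'eig j.1 j.2.1 _ j.2.2
      have := hfd
      obtain ⟨e, heig, hΦe⟩ := oldLift_core563 Sop Top (oldSum563 C) hcomm hequiv
        (fun j => a j.1) hss v hveig
      -- induction hypothesis
      have hemem : ∀ p : C.primeFactors, e p ∈ oldSpan563 f₀ (C / p.1) := by
        intro p
        have hp := Nat.mem_primeFactors.mp p.2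
        refine ih (C / p.1) (Nat.div_lt_self (Nat.pos_of_ne_zero hC0) hp.1.one_lt)
          (hM0 p).ne (fun r hr hrd => hCS r hr (hrd.trans (H443.div_dvd_of_mem C p))) (e p) ?_
        intro l hl hlC hlS
        exact congrFun (heig ⟨l, hl, hlS⟩) p
      have hh'mem : h' ∈ oldSpan563 f₀ C := by
        rw [← hv, ← hΦe, oldSum563_apply]
        exact Submodule.sum_mem _ (fun p _ => oldMap_mem_oldSpan563 f₀ C p (e p) (hemem p))
      have : h = h' + qCoeff h 1 • f₀C := by rw [hh']; abel
      rw [this]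
      exact Submodule.add_mem _ hh'mem (Submodule.smul_mem _ _ hf₀Cmem)
    · -- no form at all
      by_contra hne
      have hh0 : h ≠ 0 := by
        rintro rfl
        exact hne (Submodule.zero_mem _)
      obtain ⟨g, hg, hgl⟩ := H863.exists_normalizedEigenform_of_eigenvector (S' : Set ℕ) a h hh0
        (fun l hl hlC hlS => hh l hl hlC (by simpa using hlS))
      exact hdvd (H958.X.crossLevel N₀ C f₀ g hf₀ hg S' (fun l hl hlS =>
        (ha l hl hlS).trans (hgl l hl (hgoodC l hl hlS) (by simpa using hlS)).symm))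

end Struct

end Fermat.Agent.S59.H563

end
-- ===== PACK-END S59/H563/OldStruct.lean

-- ===== PACK-BEGIN S59/H563/OldForms.lean
section




/-!
# NM-OLD, forms side (helper563): `OldFormsStatement`

An eigenform of level `N q²` away from `S ∪ {q}` whose system of eigenvalues occurs in level `N`
(away from `S ⊇ primes(N)`, `q ∉ S`) is `h₁(τ) + h₂(q τ) + h₃(q² τ)` with eigenforms `h_i` of
level `N` away from `S`.
-/

set_option autoImplicit false

open CongruenceSubgroup ModularFormClass ModularForm UpperHalfPlane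

namespace Fermat.Agent.S59.H563

open Fermat.Agent.Lib.Newform

section

variable {N₀ : ℕ} [NeZero N₀] (f₀ : CuspForm (Gamma0 N₀) 2)

/-- The raised forms `f₀(d τ)` of level `N` are good eigenvectors. -/
theorem raise_eigen563 (hf₀ : f₀.IsNormalizedEigenform) (S : Finset ℕ) (a : ℕ → ℂ)
    (ha : ∀ l : ℕ, l.Prime → l ∉ S → qCoeff f₀ l = a l) {N d : ℕ} [NeZero d]
    (hd : d * N₀ ∣ N) (l : ℕ) (hl : l.Prime) (hlN : ¬ l ∣ N) (hlS : l ∉ S) :
    CuspForm.heckeTLin 2 hl hlN (H863.raiseLin hd f₀) = a l • H863.raiseLin hd f₀ := by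
  rw [H443.heckeTLin_raiseLin hd hl hlN f₀, H683.heckeTLin_eq_of_eigenform hf₀ hl, map_smul,
    ha l hl hlS]

end

/-- The forms of level `N q²` of the shape `h₁(τ) + h₂(q τ) + h₃(q² τ)`. -/
def triple563 (N q : ℕ) (S : Finset ℕ) (a : ℕ → ℂ) :
    Submodule ℂ (CuspForm (Gamma0 (N * q * q)) 2) where
  carrier := {F | ∃ h₁ h₂ h₃ : CuspForm (Gamma0 N) 2,
    (∀ (l : ℕ) (hl : l.Prime) (hlN : ¬ l ∣ N), l ∉ S →
      CuspForm.heckeTLin 2 hl hlN h₁ = a l • h₁) ∧
    (∀ (l : ℕ) (hl : l.Prime) (hlN : ¬ l ∣ N), l ∉ S →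
      CuspForm.heckeTLin 2 hl hlN h₂ = a l • h₂) ∧
    (∀ (l : ℕ) (hl : l.Prime) (hlN : ¬ l ∣ N), l ∉ S →
      CuspForm.heckeTLin 2 hl hlN h₃ = a l • h₃) ∧
    ∀ τ : ℍ, F τ = h₁ τ + h₂ (heckeDiagMatrix q • τ) +
      h₃ (heckeDiagMatrix q • (heckeDiagMatrix q • τ))}
  zero_mem' := ⟨0, 0, 0, fun l hl hlN _ => by simp, fun l hl hlN _ => by simp,
    fun l hl hlN _ => by simp, fun τ => by simp⟩
  add_mem' := by
    rintro F F' ⟨h₁, h₂, h₃, e₁, e₂, e₃, hF⟩ ⟨h₁', h₂', h₃', e₁', e₂', e₃', hF'⟩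
    refine ⟨h₁ + h₁', h₂ + h₂', h₃ + h₃', ?_, ?_, ?_, fun τ => ?_⟩
    · intro l hl hlN hlS
      rw [map_add, e₁ l hl hlN hlS, e₁' l hl hlN hlS, smul_add]
    · intro l hl hlN hlS
      rw [map_add, e₂ l hl hlN hlS, e₂' l hl hlN hlS, smul_add]
    · intro l hl hlN hlS
      rw [map_add, e₃ l hl hlN hlS, e₃' l hl hlN hlS, smul_add]
    · simp only [CuspForm.coe_add, Pi.add_apply]
      rw [hF τ, hF' τ]
      ring
  smul_mem' := by
    rintro c F ⟨h₁, h₂, h₃, e₁, e₂, e₃, hF⟩
    refine ⟨c • h₁, c • h₂, c • h₃, ?_, ?_, ?_, fun τ => ?_⟩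
    · intro l hl hlN hlS
      rw [map_smul, e₁ l hl hlN hlS, smul_comm]
    · intro l hl hlN hlS
      rw [map_smul, e₂ l hl hlN hlS, smul_comm]
    · intro l hl hlN hlS
      rw [map_smul, e₃ l hl hlN hlS, smul_comm]
    · simp only [CuspForm.IsGLPos.coe_smul, Pi.smul_apply, smul_eq_mul]
      rw [hF τ]
      ring

/-- **OLD-FORMS.** -/
theorem oldForms563 : OldFormsStatement := by
  intro N q _ _ _ hq hqN S hqS hNS a ⟨G, hG0, hGeig⟩ F hF
  have hN0 : N ≠ 0 := NeZero.ne N
  have hq0 : q ≠ 0 := hq.ne_zero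
  -- the newform
  obtain ⟨g, hg, hgl⟩ := H863.exists_normalizedEigenform_of_eigenvector (S : Set ℕ) a G hG0
    (fun l hl hlN hlS => hGeig l hl hlN (by simpa using hlS))
  obtain ⟨N₀, hN₀N, f₀, hf₀, hf₀g⟩ := H958.descent N g hg
  haveI : NeZero N₀ := ⟨fun h0 => hN0 (Nat.eq_zero_of_zero_dvd (h0 ▸ hN₀N))⟩
  have hgoodN : ∀ l : ℕ, l.Prime → l ∉ S → ¬ l ∣ N := fun l hl hlS hd => hlS (hNS l hl hd)
  have ha : ∀ l : ℕ, l.Prime → l ∉ S → qCoeff f₀ l = a l := by
    intro l hl hlS
    rw [hf₀g l hl (hgoodN l hl hlS)]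
    exact hgl l hl (hgoodN l hl hlS) (by simpa using hlS)
  have ha' : ∀ l : ℕ, l.Prime → l ∉ insert q S → qCoeff f₀ l = a l := fun l hl hlS =>
    ha l hl (fun h => hlS (Finset.mem_insert_of_mem h))
  have hprimes : ∀ p : ℕ, p.Prime → p ∣ N * q * q → p ∈ insert q S := by
    intro p hp hpd
    rcases (Nat.Prime.dvd_mul hp).mp hpd with h1 | h1
    · rcases (Nat.Prime.dvd_mul hp).mp h1 with h2 | h2
      · exact Finset.mem_insert_of_mem (hNS p hp h2)
      · rw [(Nat.prime_dvd_prime_iff_eq hp hq).mp h2]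
        exact Finset.mem_insert_self _ _
    · rw [(Nat.prime_dvd_prime_iff_eq hp hq).mp h1]
      exact Finset.mem_insert_self _ _
  have hmem := struct563 f₀ hf₀ (insert q S) a ha' (N * q * q) (NeZero.ne _) hprimes F hF
  -- the span is contained in the triples
  have hqN₀ : ¬ q ∣ N₀ := fun h => hqN (h.trans hN₀N)
  have hcop : Nat.Coprime q N₀ := (Nat.Prime.coprime_iff_not_dvd hq).mpr hqN₀
  have hle : oldSpan563 f₀ (N * q * q) ≤ triple563 N q S a := by
    unfold oldSpan563
    apply Submodule.span_le.mpr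
    rintro g' ⟨d, hd0, hdvd, hgd⟩
    -- a divisor prime to `q`
    have key : ∀ e : ℕ, e ≠ 0 → ¬ q ∣ e → ∀ m : ℕ, e * N₀ ∣ N * m → (∀ r : ℕ, r.Prime → r ∣ m → r = q) →
        e * N₀ ∣ N := by
      intro e he hqe m hm hmq
      have hc : Nat.Coprime (e * N₀) m := by
        apply Nat.coprime_of_dvd
        intro r hr hre hrm
        have := hmq r hr hrm
        subst this
        rcases (Nat.Prime.dvd_mul hr).mp hre with h1 | h1
        · exact hqe h1
        · exact hqN₀ h1
      exact hc.dvd_of_dvd_mul_right hm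
    by_cases hqd : q ∣ d
    · obtain ⟨d₁, rfl⟩ := hqd
      have hd₁0 : d₁ ≠ 0 := fun h => hd0 (by rw [h, mul_zero])
      have hdvd₁ : d₁ * N₀ ∣ N * q := by
        have : q * (d₁ * N₀) ∣ q * (N * q) := by
          rw [← mul_assoc, show q * (N * q) = N * q * q by ring]
          exact hdvd
        exact (Nat.mul_dvd_mul_iff_left hq.pos).mp this
      by_cases hqd₁ : q ∣ d₁
      · obtain ⟨d₂, rfl⟩ := hqd₁
        have hd₂0 : d₂ ≠ 0 := fun h => hd₁0 (by rw [h, mul_zero])
        have hdvd₂ : d₂ * N₀ ∣ N := by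
          have : q * (d₂ * N₀) ∣ q * N := by
            rw [← mul_assoc, mul_comm q N]
            exact hdvd₁
          exact (Nat.mul_dvd_mul_iff_left hq.pos).mp this
        haveI : NeZero d₂ := ⟨hd₂0⟩
        refine ⟨0, 0, H863.raiseLin hdvd₂ f₀, fun l hl hlN _ => by simp,
          fun l hl hlN _ => by simp,
          fun l hl hlN hlS => raise_eigen563 f₀ hf₀.1 S a ha hdvd₂ l hl hlN hlS, fun τ => ?_⟩
        rw [hgd τ, H863.raiseLin_apply hdvd₂ f₀, heckeDiag_smul_smul563 hd₂0 hq0,
          heckeDiag_smul_smul563 (Nat.mul_ne_zero hd₂0 hq0) hq0]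
        simp only [CuspForm.coe_zero, Pi.zero_apply, zero_add]
        congr 2
        ring_nf
      · have hdvd₂ : d₁ * N₀ ∣ N := key d₁ hd₁0 hqd₁ q hdvd₁
          (fun r hr hrq => (Nat.prime_dvd_prime_iff_eq hr hq).mp hrq)
        haveI : NeZero d₁ := ⟨hd₁0⟩
        refine ⟨0, H863.raiseLin hdvd₂ f₀, 0, fun l hl hlN _ => by simp,
          fun l hl hlN hlS => raise_eigen563 f₀ hf₀.1 S a ha hdvd₂ l hl hlN hlS,
          fun l hl hlN _ => by simp, fun τ => ?_⟩
        rw [hgd τ, H863.raiseLin_apply hdvd₂ f₀, heckeDiag_smul_smul563 hd₁0 hq0]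
        simp only [CuspForm.coe_zero, Pi.zero_apply, zero_add, add_zero]
        congr 2
        ring_nf
    · have hdvd₂ : d * N₀ ∣ N := key d hd0 hqd (q * q) (by rwa [← mul_assoc])
        (fun r hr hrq => by
          rcases (Nat.Prime.dvd_mul hr).mp hrq with h | h <;>
            exact (Nat.prime_dvd_prime_iff_eq hr hq).mp h)
      haveI : NeZero d := ⟨hd0⟩
      refine ⟨H863.raiseLin hdvd₂ f₀, 0, 0,
        fun l hl hlN hlS => raise_eigen563 f₀ hf₀.1 S a ha hdvd₂ l hl hlN hlS,
        fun l hl hlN _ => by simp, fun l hl hlN _ => by simp, fun τ => ?_⟩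
      rw [hgd τ, H863.raiseLin_apply hdvd₂ f₀]
      simp only [CuspForm.coe_zero, Pi.zero_apply, add_zero]
  exact hle hmem

end Fermat.Agent.S59.H563

end
-- ===== PACK-END S59/H563/OldForms.lean

-- ===== PACK-BEGIN S55/G/Rec/Tow/FR/OrbitRepsH841.lean
section
/-
S55 / layer G / block REC / adapter TOW / leaf FR-B (subtask 659, helper841).

`orbitReps : FR.OrbitRepsSpec` : every place `𝔪` of `M` above `W` is `H`-conjugate to
`placeOf q g` for a UNIQUE pair `(q, g)`, `q ∈ W`, `g ∈ reps (UH M H) q`.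

Steps:
* `exists_algEquiv_comp_eq` (Mathlib only): two ring homomorphisms into a normal extension `E/K`
  with the same maximal kernel differ by an element of `Gal(E/K)`;
* `placeOf_mul_left`, `placeOf_mul_loc` : `placeOf (u g) = ū • placeOf g`, `placeOf (g d) = placeOf g`
  for `d ∈ D_q`;
* `primeOf_placeOf` : `placeOf q g` lies above `q`;
* `exists_of_placeOf_eq` : `placeOf q a = placeOf q b ⇒ b ∈ M.U · a · D_q`.
-/



set_option autoImplicit false
set_option linter.unusedSectionVars false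
set_option linter.style.haveILetI false

open CategoryTheory groupCohomology
open scoped NumberField TensorProduct

noncomputable section

namespace Fermat.Agent.S55.G.Rec.TOW.FR.H841

open Fermat.Agent.S55 Fermat.Agent.S55.Tow Fermat.Agent.S55.E1.H594 Fermat.Agent.S55.G.Rec
open Fermat.Agent.S55.G.Rec.TOW.FR Fermat.Agent.S55.G.PL0H713 Fermat.Agent.S55.G.LocH897
open IsDedekindDomain

local notation "Qb" => AlgebraicClosure ℚ
local notation "GQ" => (AlgebraicClosure ℚ ≃ₐ[ℚ] AlgebraicClosure ℚ)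

/-! ## 1. A general extension lemma (Mathlib only) -/

/-- Two ring homomorphisms `f g : A → E` into a normal extension `E/K` with `ker f` maximal and
contained in `ker g`, both restricting to the structure map on suitable lifts of `K`, differ by
an element of `Gal(E/K)`. -/
theorem exists_algEquiv_comp_eq {K E A : Type*} [Field K] [Field E] [Algebra K E] [Normal K E]
    [CommRing A] (f g : A →+* E) (hmax : (RingHom.ker f).IsMaximal)
    (hker : ∀ r, f r = 0 → g r = 0)
    (hK : ∀ y : K, ∃ r : A, f r = algebraMap K E y ∧ g r = algebraMap K E y) :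
    ∃ τ : E ≃ₐ[K] E, ∀ r, τ (f r) = g r := by
  classical
  letI : Field (A ⧸ RingHom.ker f) := Ideal.Quotient.field _
  let fb : (A ⧸ RingHom.ker f) →+* E := Ideal.Quotient.lift _ f (fun r hr => hr)
  let gb : (A ⧸ RingHom.ker f) →+* E := Ideal.Quotient.lift _ g (fun r hr => hker r hr)
  have hfb : ∀ r, fb (Ideal.Quotient.mk _ r) = f r := fun r => Ideal.Quotient.lift_mk _ _ _
  have hgb : ∀ r, gb (Ideal.Quotient.mk _ r) = g r := fun r => Ideal.Quotient.lift_mk _ _ _
  have hinj : Function.Injective fb := fb.injective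
  have hmem : ∀ y : K, algebraMap K E y ∈ fb.range := by
    intro y
    obtain ⟨r, hr, -⟩ := hK y
    exact ⟨Ideal.Quotient.mk _ r, (hfb r).trans hr⟩
  let e : (A ⧸ RingHom.ker f) ≃+* fb.range := RingEquiv.ofBijective fb.rangeRestrict
    ⟨fun x y h => hinj (congrArg Subtype.val h), fb.rangeRestrict_surjective⟩
  let j : K →+* (A ⧸ RingHom.ker f) :=
    (e.symm : fb.range →+* (A ⧸ RingHom.ker f)).comp ((algebraMap K E).codRestrict fb.range hmem)
  have hj : ∀ y, fb (j y) = algebraMap K E y := by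
    intro y
    have h1 : e (j y) = (algebraMap K E).codRestrict fb.range hmem y := by
      show e (e.symm _) = _
      rw [RingEquiv.apply_symm_apply]
    exact congrArg Subtype.val h1
  have hgj : ∀ y, gb (j y) = algebraMap K E y := by
    intro y
    obtain ⟨r, hr, hr'⟩ := hK y
    have h1 : j y = Ideal.Quotient.mk _ r := hinj ((hj y).trans ((hfb r).trans hr).symm)
    rw [h1, hgb, hr']
  letI algK : Algebra K (A ⧸ RingHom.ker f) := j.toAlgebra
  letI algE : Algebra (A ⧸ RingHom.ker f) E := fb.toAlgebra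
  haveI : IsScalarTower K (A ⧸ RingHom.ker f) E :=
    IsScalarTower.of_algebraMap_eq (fun y => (hj y).symm)
  let ϕ : (A ⧸ RingHom.ker f) →ₐ[K] E := { gb with commutes' := fun y => hgj y }
  let τ₀ : E →ₐ[K] E := ϕ.liftNormal E
  refine ⟨AlgEquiv.ofBijective τ₀ (AlgHom.normal_bijective K E E τ₀), fun r => ?_⟩
  have h := ϕ.liftNormal_commutes E (Ideal.Quotient.mk _ r)
  have h1 : algebraMap (A ⧸ RingHom.ker f) E (Ideal.Quotient.mk _ r) = f r := hfb r
  have h2 : ϕ (Ideal.Quotient.mk _ r) = g r := hgb r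
  rw [h1, h2] at h
  exact h

/-! ## 2. The places `placeOf q g` -/

section Place

variable {S : Finset Nat.Primes} (M : Level S) (W : Finset Nat.Primes) (q : ℕ)
  [hq : Fact q.Prime] (hqW : (⟨q, hq.out⟩ : Nat.Primes) ∈ W)

/-- `placeOf q (u g) = ū • placeOf q g`. -/
theorem placeOf_mul_left (u g : GQ) :
    placeOf M W q hqW (u * g) =
      G.sPlaceSMul W M.Gal (QuotientGroup.mk u : M.Gal) (placeOf M W q hqW g) := by
  refine MaximalSpectrum.ext (Ideal.ext fun a => ?_)
  rw [G.mem_sPlaceSMul_iff, mem_placeOf, mem_placeOf, evAlg_mul_left]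
  rfl

/-- `ev_{q, g d} = τ⁻¹ ∘ ev_{q, g}` for `d = loc τ`. -/
theorem evAlg_mul_loc (g : GQ) (τ : PadicAlgCl q ≃ₐ[ℚ_[q]] PadicAlgCl q) (a : G.AS W M.F) :
    evAlg M W q hqW (g * localGaloisToGlobal q τ) a = τ⁻¹ (evAlg M W q hqW g a) := by
  have h1 : g * localGaloisToGlobal q τ = (g * localGaloisToGlobal q τ * g⁻¹) * g := by group
  have h2 : (g * localGaloisToGlobal q τ * g⁻¹)⁻¹ = g * localGaloisToGlobal q τ⁻¹ * g⁻¹ := by
    rw [map_inv]; group
  rw [h1, evAlg_mul_left, h2, evAlg_equivariant]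

/-- `placeOf q (g d) = placeOf q g` for `d ∈ D_q`. -/
theorem placeOf_mul_loc (g : GQ) (τ : PadicAlgCl q ≃ₐ[ℚ_[q]] PadicAlgCl q) :
    placeOf M W q hqW (g * localGaloisToGlobal q τ) = placeOf M W q hqW g := by
  refine MaximalSpectrum.ext (Ideal.ext fun a => ?_)
  rw [mem_placeOf, mem_placeOf, evAlg_mul_loc]
  exact (map_eq_zero_iff _ (τ⁻¹ : PadicAlgCl q ≃ₐ[ℚ_[q]] PadicAlgCl q).injective)

/-- `placeOf q g` lies above `q`. -/
theorem primeOf_placeOf (g : GQ) :
    primeOf W M.F (placeOf M W q hqW g) = ⟨⟨q, hq.out⟩, hqW⟩ := by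
  by_contra hne
  have h1 := ofQS_single_primeOf W M.F (placeOf M W q hqW g)
  have h2 : (G.asIncl W M.F (single W (primeOf W M.F (placeOf M W q hqW g)) 1) : G.AS W M.F) ∈
      (placeOf M W q hqW g).asIdeal := by
    rw [mem_placeOf, evAlg_asIncl]
    have h3 := single_apply_ne W (primeOf W M.F (placeOf M W q hqW g)) ⟨⟨q, hq.out⟩, hqW⟩
      (fun h => hne h.symm) 1
    have h4 : (single W (primeOf W M.F (placeOf M W q hqW g)) 1 : G.QS W) ⟨⟨q, hq.out⟩, hqW⟩ = 0 :=
      h3
    rw [h4, map_zero]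
  have h5 : G.LocField.ofQS W (placeOf M W q hqW g)
      (single W (primeOf W M.F (placeOf M W q hqW g)) 1) = 0 :=
    (G.LocField.mk_eq_zero_iff W _ _).2 h2
  rw [h5] at h1
  exact zero_ne_one h1

/-- **Key lemma.**  `placeOf q a = placeOf q b ⇒ b ∈ M.U · a · D_q`. -/
theorem exists_of_placeOf_eq (a b : GQ) (h : placeOf M W q hqW a = placeOf M W q hqW b) :
    ∃ m ∈ M.U, ∃ d ∈ (localGaloisToGlobal q).range, b = m * a * d := by
  haveI : Normal ℚ_[q] (PadicAlgCl q) := IsAlgClosure.normal ℚ_[q] (PadicAlgCl q)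
  have hmax : (RingHom.ker (evAlg M W q hqW a : G.AS W M.F →+* PadicAlgCl q)).IsMaximal :=
    (placeOf M W q hqW a).isMaximal
  have hker : ∀ r, (evAlg M W q hqW a : G.AS W M.F →+* PadicAlgCl q) r = 0 →
      (evAlg M W q hqW b : G.AS W M.F →+* PadicAlgCl q) r = 0 := by
    intro r hr
    have h1 : r ∈ (placeOf M W q hqW a).asIdeal := (mem_placeOf M W q hqW a r).2 hr
    rw [h] at h1
    exact (mem_placeOf M W q hqW b r).1 h1
  have hK : ∀ y : ℚ_[q], ∃ r : G.AS W M.F,
      (evAlg M W q hqW a : G.AS W M.F →+* PadicAlgCl q) r = algebraMap ℚ_[q] (PadicAlgCl q) y ∧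
      (evAlg M W q hqW b : G.AS W M.F →+* PadicAlgCl q) r = algebraMap ℚ_[q] (PadicAlgCl q) y := by
    intro y
    have hy : (single W ⟨⟨q, hq.out⟩, hqW⟩ y : G.QS W) ⟨⟨q, hq.out⟩, hqW⟩ = y :=
      single_apply_same W ⟨⟨q, hq.out⟩, hqW⟩ y
    refine ⟨G.asIncl W M.F (single W ⟨⟨q, hq.out⟩, hqW⟩ y), ?_, ?_⟩
    · show evAlg M W q hqW a _ = _
      rw [evAlg_asIncl, hy]
    · show evAlg M W q hqW b _ = _
      rw [evAlg_asIncl, hy]
  obtain ⟨τ, hτ⟩ := exists_algEquiv_comp_eq (K := ℚ_[q])
    (evAlg M W q hqW a : G.AS W M.F →+* PadicAlgCl q)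
    (evAlg M W q hqW b : G.AS W M.F →+* PadicAlgCl q) hmax hker hK
  -- `b * loc τ * a⁻¹` fixes `M.F`
  have hfix : b * localGaloisToGlobal q τ * a⁻¹ ∈ M.U := by
    show _ ∈ M.F.fixingSubgroup
    rw [IntermediateField.mem_fixingSubgroup_iff]
    intro x hx
    have h1 := hτ (G.asDiag W M.F ⟨x, hx⟩)
    have h2 : (evAlg M W q hqW a : G.AS W M.F →+* PadicAlgCl q) (G.asDiag W M.F ⟨x, hx⟩) =
        padicEmbedding q (a⁻¹ x) := evAlg_asDiag M W q hqW a ⟨x, hx⟩
    have h3 : (evAlg M W q hqW b : G.AS W M.F →+* PadicAlgCl q) (G.asDiag W M.F ⟨x, hx⟩) =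
        padicEmbedding q (b⁻¹ x) := evAlg_asDiag M W q hqW b ⟨x, hx⟩
    rw [h2, h3, ← padicEmbedding_localGaloisToGlobal] at h1
    have h4 : localGaloisToGlobal q τ (a⁻¹ x) = b⁻¹ x := (padicEmbedding q).injective h1
    show (b * localGaloisToGlobal q τ * a⁻¹) x = x
    rw [AlgEquiv.mul_apply, AlgEquiv.mul_apply, h4]
    exact AlgEquiv.apply_symm_apply b x
  refine ⟨b * localGaloisToGlobal q τ * a⁻¹, hfix, localGaloisToGlobal q τ⁻¹, ⟨τ⁻¹, rfl⟩, ?_⟩
  rw [map_inv]
  group

end Place

/-! ## 3. The leaf -/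

/-- The action of `H` on places is the restriction of the action of `M.Gal`. -/
theorem sPlaceSMul_subgroup {S : Finset Nat.Primes} (M : Level S) (H : Subgroup M.Gal)
    (W : Finset Nat.Primes) (h : ↥H) (𝔪 : G.SPlace W M.F) :
    G.sPlaceSMul W ↥H h 𝔪 = G.sPlaceSMul W M.Gal (h : M.Gal) 𝔪 := by
  refine MaximalSpectrum.ext (Ideal.ext fun a => ?_)
  rw [G.mem_sPlaceSMul_iff, G.mem_sPlaceSMul_iff]
  have : G.asAut W ↥H M.F h⁻¹ a = G.asAut W M.Gal M.F (h : M.Gal)⁻¹ a := by
    induction a using TensorProduct.induction_on with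
    | zero => simp
    | add a b ha hb => simp only [map_add, ha, hb]
    | tmul x y => rw [G.asAut_tmul, G.asAut_tmul]; rfl
  rw [this]

/-- **FR-B.** -/
theorem orbitReps : OrbitRepsSpec := by
  intro S M H W 𝔪
  classical
  -- the prime below `𝔪`
  set q₀ : W := primeOf W M.F 𝔪 with hq₀
  haveI hqf : Fact ((q₀.1 : ℕ).Prime) := ⟨q₀.1.2⟩
  have hq₀W : (⟨(q₀.1 : ℕ), hqf.out⟩ : Nat.Primes) ∈ W := q₀.2
  have hq₀eq : (⟨⟨(q₀.1 : ℕ), hqf.out⟩, hq₀W⟩ : W) = q₀ := rfl
  have hfixQ : ∀ x : M.F, (∀ g : M.Gal, g • x = x) → ∃ c : ℚ, algebraMap ℚ M.F c = x :=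
    fun x hx => (level_isGaloisGroup M).isInvariant.isInvariant x hx
  -- existence
  have hP1 : primeOf W M.F (placeOf M W (q₀.1 : ℕ) hq₀W 1) = primeOf W M.F 𝔪 :=
    primeOf_placeOf M W (q₀.1 : ℕ) hq₀W 1
  obtain ⟨γ, hγ⟩ := exists_sPlaceSMul_eq W M.Gal M.F hfixQ (placeOf M W (q₀.1 : ℕ) hq₀W 1) 𝔪 hP1
  obtain ⟨u, rfl⟩ := QuotientGroup.mk_surjective γ
  have hu : placeOf M W (q₀.1 : ℕ) hq₀W u = 𝔪 := by
    rw [← hγ, ← placeOf_mul_left, mul_one]
  have hR := reps_spec (isOpenQ_UH M H) (q₀.1 : ℕ)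
  obtain ⟨r, ⟨hrR, v, hv, d, ⟨τ, rfl⟩, hvrd⟩, -⟩ := hR u
  have hr𝔪 : G.sPlaceSMul W M.Gal (QuotientGroup.mk v : M.Gal) (placeOf M W (q₀.1 : ℕ) hq₀W r) =
      𝔪 := by
    rw [← placeOf_mul_left, ← placeOf_mul_loc M W (q₀.1 : ℕ) hq₀W (v * r) τ, ← hvrd, hu]
  refine ⟨⟨q₀, ⟨r, hrR⟩⟩, ⟨⟨QuotientGroup.mk v, hv⟩, ?_⟩, ?_⟩
  · show G.sPlaceSMul W ↥H ⟨QuotientGroup.mk v, hv⟩ (placeOf M W (q₀.1 : ℕ) hq₀W r) = 𝔪
    rw [sPlaceSMul_subgroup]
    exact hr𝔪
  -- uniqueness
  rintro ⟨q', ⟨r', hr'R⟩⟩ ⟨h', hh'⟩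
  haveI hqf' : Fact ((q'.1 : ℕ).Prime) := ⟨q'.1.2⟩
  have hh'' : G.sPlaceSMul W ↥H h' (placeOf M W (q'.1 : ℕ) q'.2 r') = 𝔪 := hh'
  have hq' : q' = q₀ := by
    have h1 := primeOf_sPlaceSMul W ↥H M.F h' (placeOf M W (q'.1 : ℕ) q'.2 r')
    rw [hh''] at h1
    have h2 := primeOf_placeOf M W (q'.1 : ℕ) q'.2 r'
    exact (h1.trans h2).symm
  subst hq'
  have hrr' : r' = r := by
    obtain ⟨v', hv'⟩ := QuotientGroup.mk_surjective (h' : M.Gal)
    have hv'U : v' ∈ UH M H := by
      rw [mem_UH, hv']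
      exact h'.2
    have h2 : placeOf M W (q₀.1 : ℕ) hq₀W (v' * r') = 𝔪 := by
      rw [placeOf_mul_left, hv', ← sPlaceSMul_subgroup]
      exact hh''
    have h3 : placeOf M W (q₀.1 : ℕ) hq₀W (v * r) = 𝔪 := by
      rw [placeOf_mul_left]
      exact hr𝔪
    obtain ⟨m, hm, d', hd', hmd⟩ :=
      exists_of_placeOf_eq M W (q₀.1 : ℕ) hq₀W (v * r) (v' * r') (h3.trans h2.symm)
    -- `r' = (v'⁻¹ m v) r d'`
    have h4 : r' = (v'⁻¹ * m * v) * r * d' := by
      have : v'⁻¹ * (v' * r') = v'⁻¹ * (m * (v * r) * d') := by rw [hmd]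
      rw [inv_mul_cancel_left] at this
      rw [this]
      group
    have h5 : v'⁻¹ * m * v ∈ UH M H :=
      (UH M H).mul_mem ((UH M H).mul_mem ((UH M H).inv_mem hv'U) (U_le_UH M H hm)) hv
    obtain ⟨r₀, -, huniq⟩ := hR r'
    have e1 : r' = r₀ :=
      huniq r' ⟨hr'R, 1, (UH M H).one_mem, 1, Subgroup.one_mem _, by group⟩
    have e2 : r = r₀ := huniq r ⟨hrR, _, h5, d', hd', h4⟩
    rw [e1, e2]
  subst hrr'
  rfl

end Fermat.Agent.S55.G.Rec.TOW.FR.H841

end
end
-- ===== PACK-END S55/G/Rec/Tow/FR/OrbitRepsH841.lean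

-- ===== PACK-BEGIN S56/Euler/Big/H2FS55H595.lean
section



/-!
# Row S56 / BASE-BIG — leaf H2F without input A8   (helper595)

`h2Formula_of_s55 : S55Frozen → Surj2Glob → Surj2Loc → Inv → H2FormulaSpec p S`:
the `H²` formula from the FROZEN STATEMENT of S55 (type of `Fermat.Agent.S55.result`) and the
inputs A3, A4, A5–A7 — input A8 (`CapSpec`) is NOT needed: Theorem D comes from
`S55.PT.H595.theoremD_of_frozen` (converse bridge).

Also `theoremD_all_of_s55` : Theorem D for all `T ⊇ S`, the hypothesis of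
`Euler.H726.exists_sha2_ind_eq_bot`.
-/

set_option autoImplicit false

noncomputable section

namespace Fermat.Agent.S56.Euler.H595

open Fermat.Agent.S56 Fermat.Agent.S55.PT ExtCitation Module

variable (p : ℕ) [Fact p.Prime] (S : Finset Nat.Primes)

/-- **Leaf H2F from S55 + A3 + A4 + A5–A7** (no A8). -/
theorem h2Formula_of_s55 (hS55 : Fermat.Agent.S55.PT.H595.S55Frozen)
    (hSurjG : Surj2GlobSpec p S) (hSurjL : Surj2LocSpec p S) (hInv : InvSpec p S) :
    H2FormulaSpec p S := by
  intro hp2 hpS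
  have hD : TheoremDSpec p S := Fermat.Agent.S55.PT.H595.theoremD_of_frozen p S hS55 hp2 hpS
  obtain ⟨inv, hrec, hTLI, hTGI⟩ := hInv
  have hrec' : IsRecip (hrl S) (cycloChar p) inv := hrec
  have hTopL : TopLocSpec inv :=
    H299.topLocDev p S H113.lesMidSpec H724.localNormalCofinal H724.localFiniteIndex inv hTLI
      hSurjL
  have hTopG : TopGlobSpec inv hrec' :=
    H123.topGlobDev p S H113.lesMidSpec H724.globalNormalCofinal H724.localNormalCofinal
      H724.globalFiniteIndex hpS inv hrec' hTopL hTGI hSurjG hSurjL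
  exact H29.h2Formula_of p S (H593.finGlob p S) hD inv hrec' hTopL hTopG hp2 hpS

/-- Theorem D for all sets `T ⊇ S` (`p ∈ S`), from the frozen statement of S55. -/
theorem theoremD_all_of_s55 (hS55 : Fermat.Agent.S55.PT.H595.S55Frozen) (hp2 : p ≠ 2)
    (hpS : pPrime p ∈ S) : ∀ T : Finset Nat.Primes, S ⊆ T → TheoremDSpec p T :=
  fun T hT => Fermat.Agent.S55.PT.H595.theoremD_of_frozen p T hS55 hp2 (hT hpS)

end Fermat.Agent.S56.Euler.H595

end

end
-- ===== PACK-END S56/Euler/Big/H2FS55H595.lean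

-- ===== PACK-BEGIN S33/Top.lean
section
/-
Row S33 (ordinary at `p`, `p ‖ N`), TOP GLUE — assembly (helper409).

`s33_of_pieces` : the frozen statement S33 from ORD-EIG (`Spec.lean`) and the pieces REL, EMB, RED
of row S32 and `S59.G4.PointsStatement` (all four proved on main).

Proof.  `T` is reduced (RED), so it has a strict finite family of local `p`-adic points `P_i`
(POINTS).  At each point: an eigenmodule `E_i` with the ordinary identities (ORD-EIG) on which
every `g` satisfies the characteristic polynomial of `H.ρ g` (REL), hence a strict semilinear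
equivariant map `φ_i : V → E_i.M` (EMB; `T[G] → End V` is onto, `S31.H202`).  Strictness of the
points and of the `φ_i` and Krull's intersection theorem give: `φ_i v = 0` for all `i` implies
`v = 0`.  So the ordinary identities hold on `V`, with `c = det ρ(σ₀)` (the determinant is
cyclotomic, `S59.H540`).  Choose `σ₀` in inertia acting non-trivially on `μ_p` (`S56.H656`):
`c₀ - 1` is a unit and `L := range (ρ σ₀ - 1) = ker (ρ σ₀ - c₀)` is the line (`Alg.lean`).
-/






set_option autoImplicit false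
set_option linter.style.haveILetI false

noncomputable section

namespace Fermat.Agent.S33

open IsLocalRing Fermat.Agent.S31 Fermat.Agent.S59

section Aux

variable {T : Type} [CommRing T]

/-- Coordinates of an element of `J V`. -/
theorem repr_mem_of_mem_smul_top_s33 {V : Type} [AddCommGroup V] [Module T V] {ι : Type}
    (b : Module.Basis ι T V) (J : Ideal T) (v : V) (h : v ∈ J • (⊤ : Submodule T V)) (i : ι) :
    b.repr v i ∈ J := by
  refine Submodule.smul_induction_on h ?_ ?_
  · intro r hr w _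
    rw [map_smul, Finsupp.smul_apply, smul_eq_mul]
    exact Ideal.mul_mem_right _ _ hr
  · intro x y hx hy
    rw [map_add, Finsupp.add_apply]
    exact Ideal.add_mem _ hx hy

/-- The image of a cyclotomic value under a ring homomorphism is a cyclotomic value. -/
theorem IsCycVal.map {p : ℕ} {A : Type} [CommRing A] {σ : GQ} {c : T} (h : IsCycVal p σ c)
    (ψ : T →+* A) : IsCycVal p σ (ψ c) := by
  intro n a ha
  have h1 := h n a ha
  rw [Ideal.mem_span_singleton] at h1 ⊢
  obtain ⟨d, hd⟩ := h1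
  refine ⟨ψ d, ?_⟩
  rw [← map_natCast ψ a, ← map_sub, hd, map_mul, map_natCast]

end Aux

section Asm

open Fermat.Agent.S30.H990 (AdicEigenModule)

set_option maxHeartbeats 1600000 in
/-- **S33 from the pieces.** -/
theorem s33_of_pieces (hEig : OrdEigenStatement) (hRel : Fermat.Agent.S32.RelStatement)
    (hEmb : Fermat.Agent.S32.EmbedStatement) (hRed : Fermat.Agent.S32.RedStatement)
    (hPts : G4.PointsStatement) : S33Statement := by
  intro p N _ S 𝒪 _ _ _ _ θ T _ _ _ _ _ _ _ _ _ _ hp hp2 hp𝒪 hN hNS H hres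
  have : Fact p.Prime := ⟨hp⟩
  have hpS : p ∈ S := hNS p hp hN.1
  have : IsReduced T := hRed N S hNS 𝒪 θ T H
  obtain ⟨F, hstrict, hloc⟩ := hPts p 𝒪 hp𝒪 T
  have hspan := H202.span_range_rho_eq_top H.ρ H.residual_absIrr
  -- `p` lies in the maximal ideal of `T`
  have hpT : (p : T) ∈ maximalIdeal T := by
    rw [mem_maximalIdeal, mem_nonunits_iff]
    intro hu
    have h1 : (p : T) = algebraMap 𝒪 T (p : 𝒪) := by rw [map_natCast]
    rw [h1] at hu
    have h2 : IsUnit (p : 𝒪) := isUnit_of_map_unit (algebraMap 𝒪 T) _ hu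
    exact (mem_nonunits_iff.mp ((mem_maximalIdeal _).mp hp𝒪)) h2
  have hdetc : H.ρ.DetIsCyclotomic p :=
    Fermat.Agent.S59.H540.heckeGaloisRepDatum_detIsCyclotomic S H p hpT
  have hcyc : ∀ σ : _root_.Fermat.Agent.S31.GQ, IsCycVal p σ (LinearMap.det (H.ρ.ρ σ)) :=
    fun σ n a ha => hdetc.2 n σ a ha
  -- the data at the points
  have hpt : ∀ i : Fin F.length, ∃ (E : AdicEigenModule p N S (F.get i).O
      ((F.get i).χ.comp H.π)) (φ : H.ρ.V →+ E.M) (k : ℕ), IsOrdMod p E.ρ ∧
      (∀ (t : T) (v : H.ρ.V), φ (t • v) = (F.get i).χ t • φ v) ∧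
      (∀ (g : _root_.Fermat.Agent.S31.GQ) (v : H.ρ.V), φ (H.ρ.ρ g v) = E.ρ g (φ v)) ∧
      ∀ (m : ℕ) (v : H.ρ.V),
        φ v ∈ (maximalIdeal (F.get i).O ^ (m + k)) • (⊤ : Submodule (F.get i).O E.M) →
          v ∈ (Ideal.comap (F.get i).χ (maximalIdeal (F.get i).O ^ m)) •
            (⊤ : Submodule T H.ρ.V) := by
    intro i
    have hmem : F.get i ∈ F := List.get_mem F i
    obtain ⟨E, hE⟩ := hEig p hp2 N S hN hNS 𝒪 hp𝒪 θ T H hres (F.get i) (hloc _ hmem)
    have hrel := hRel p N S hpS hNS 𝒪 θ T H (F.get i) (hloc _ hmem) E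
    have h2 : (2 : (F.get i).O) ≠ 0 := two_ne_zero
    obtain ⟨φ, hsemi, heq, k, hk⟩ := hEmb T H.ρ hspan (F.get i).O h2 (F.get i).χ E.M E.ρ hrel
    exact ⟨E, φ, k, hE, hsemi, heq, hk⟩
  choose E φ k hord hsemi heq hstr using hpt
  -- joint injectivity of the `φ i`
  have hinj : ∀ v : H.ρ.V, (∀ i, φ i v = 0) → v = 0 := by
    intro v hv
    let b := Module.Free.chooseBasis T H.ρ.V
    have hzero : ∀ c, b.repr v c = 0 := by
      intro c
      have hmem : ∀ n, b.repr v c ∈ maximalIdeal T ^ n := by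
        intro n
        obtain ⟨n', hn'⟩ := hstrict n
        refine hn' _ fun P hP => ?_
        obtain ⟨i, rfl⟩ := List.mem_iff_get.mp hP
        have h1 : φ i v ∈ (maximalIdeal (F.get i).O ^ (n' + k i)) •
            (⊤ : Submodule (F.get i).O (E i).M) := by
          rw [hv i]; exact zero_mem _
        exact repr_mem_of_mem_smul_top_s33 b _ v (hstr i n' v h1) c
      have hbot : (⨅ n, maximalIdeal T ^ n) = ⊥ :=
        Ideal.iInf_pow_eq_bot_of_isLocalRing (maximalIdeal T) Ideal.IsPrime.ne_top'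
      have : b.repr v c ∈ (⨅ n, maximalIdeal T ^ n) := by
        rw [Ideal.mem_iInf]; exact hmem
      rw [hbot] at this
      exact this
    have : b.repr v = 0 := Finsupp.ext hzero
    exact b.repr.map_eq_zero_iff.mp this
  -- transfer of the action of `ρ σ - c`
  have htr : ∀ (i : Fin F.length) (g : _root_.Fermat.Agent.S31.GQ) (c : T) (v : H.ρ.V),
      φ i ((H.ρ.ρ g - c • 1) v) = (E i).ρ g (φ i v) - (F.get i).χ c • φ i v := by
    intro i g c v
    calc φ i ((H.ρ.ρ g - c • 1) v) = φ i (H.ρ.ρ g v - c • v) := rfl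
      _ = φ i (H.ρ.ρ g v) - φ i (c • v) := map_sub (φ i) _ _
      _ = (E i).ρ g (φ i v) - (F.get i).χ c • φ i v :=
          congrArg₂ (· - ·) (heq i g v) (hsemi i c v)
  have htr1 : ∀ (i : Fin F.length) (g : _root_.Fermat.Agent.S31.GQ) (v : H.ρ.V),
      φ i ((H.ρ.ρ g - 1) v) = (E i).ρ g (φ i v) - φ i v := by
    intro i g v
    calc φ i ((H.ρ.ρ g - 1) v) = φ i (H.ρ.ρ g v - v) := rfl
      _ = φ i (H.ρ.ρ g v) - φ i v := map_sub (φ i) _ _
      _ = (E i).ρ g (φ i v) - φ i v := congrArg (· - φ i v) (heq i g v)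
  -- the ordinary identities on `V`
  have hO2 : ∀ P : ValuationSubring Qb, P.LiesOverPrime p →
      ∀ σ₀ ∈ P.inertiaSubgroupIn ℚ, ∀ σ ∈ P.inertiaSubgroupIn ℚ,
        (H.ρ.ρ σ₀ - LinearMap.det (H.ρ.ρ σ₀) • 1) * (H.ρ.ρ σ - 1) = 0 := by
    intro P hP σ₀ hσ₀ σ hσ
    refine LinearMap.ext fun v => ?_
    rw [LinearMap.zero_apply]
    apply hinj
    intro i
    have key := congrArg (fun f : Module.End (F.get i).O (E i).M => f (φ i v))
      ((hord i P hP σ₀ hσ₀ _ ((hcyc σ₀).map (F.get i).χ)).1 σ hσ)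
    have e1 : ((H.ρ.ρ σ₀ - LinearMap.det (H.ρ.ρ σ₀) • 1) * (H.ρ.ρ σ - 1)) v
        = (H.ρ.ρ σ₀ - LinearMap.det (H.ρ.ρ σ₀) • 1) ((H.ρ.ρ σ - 1) v) := rfl
    rw [e1, htr i σ₀ _ _, htr1 i σ v]
    exact key
  have hO3 : ∀ P : ValuationSubring Qb, P.LiesOverPrime p →
      ∀ σ₀ ∈ P.inertiaSubgroupIn ℚ, ∀ τ ∈ P.decompositionSubgroup ℚ,
        (H.ρ.ρ σ₀ - LinearMap.det (H.ρ.ρ σ₀) • 1) * H.ρ.ρ τ * (H.ρ.ρ σ₀ - 1) = 0 := by
    intro P hP σ₀ hσ₀ τ hτ
    refine LinearMap.ext fun v => ?_
    rw [LinearMap.zero_apply]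
    apply hinj
    intro i
    have key := congrArg (fun f : Module.End (F.get i).O (E i).M => f (φ i v))
      ((hord i P hP σ₀ hσ₀ _ ((hcyc σ₀).map (F.get i).χ)).2 τ hτ)
    have e1 : ((H.ρ.ρ σ₀ - LinearMap.det (H.ρ.ρ σ₀) • 1) * H.ρ.ρ τ * (H.ρ.ρ σ₀ - 1)) v
        = (H.ρ.ρ σ₀ - LinearMap.det (H.ρ.ρ σ₀) • 1) (H.ρ.ρ τ ((H.ρ.ρ σ₀ - 1) v)) := rfl
    rw [e1, htr i σ₀ _ _, heq i τ _, htr1 i σ₀ v]
    exact key
  -- the line
  intro P hP
  obtain ⟨σ₀, hσ₀, a, ha, ha1⟩ :=
    Fermat.Agent.S56.H656.exists_inertia_isCycExp_ne_one hp hp2 (ZMod p) P hP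
  set f₀ : Module.End T H.ρ.V := H.ρ.ρ σ₀ with hf₀
  set c₀ : T := LinearMap.det f₀ with hc₀
  -- `c₀` is a unit
  have hc₀u : IsUnit c₀ := by
    refine IsUnit.of_mul_eq_one (LinearMap.det (H.ρ.ρ σ₀⁻¹)) ?_
    rw [hc₀, hf₀, ← map_mul, ← map_mul, mul_inv_cancel, map_one, map_one]
  -- `c₀ - 1` is a unit
  have hu : IsUnit (c₀ - 1) := by
    have h1 : c₀ - (a : T) ∈ maximalIdeal T := by
      have h2 := hcyc σ₀ 1 a (fun μ hμ => ha μ (by rwa [pow_one] at hμ))
      rw [pow_one] at h2
      exact (Ideal.span_le.mpr (Set.singleton_subset_iff.mpr hpT)) h2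
    have h3 : IsUnit ((a : T) - 1) := by
      -- `a - 1` is prime to `p`
      have hcop : IsCoprime ((a : ℤ) - 1) (p : ℤ) := by
        rw [isCoprime_comm]
        refine (Prime.coprime_iff_not_dvd (Nat.prime_iff_prime_int.mp hp)).mpr ?_
        intro hdvd
        apply ha1
        have h4 : (((a : ℤ) - 1 : ℤ) : ZMod p) = 0 :=
          (ZMod.intCast_zmod_eq_zero_iff_dvd _ p).mpr hdvd
        push_cast at h4
        exact sub_eq_zero.mp h4
      obtain ⟨x, y, hxy⟩ := hcop
      have h5 : (x : T) * ((a : T) - 1) + (y : T) * (p : T) = 1 := by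
        have := congrArg (Int.cast : ℤ → T) hxy
        push_cast at this
        exact this
      by_contra hnu
      have h6 : (a : T) - 1 ∈ maximalIdeal T := (mem_maximalIdeal _).mpr hnu
      have h7 : (1 : T) ∈ maximalIdeal T := by
        rw [← h5]
        exact Ideal.add_mem _ (Ideal.mul_mem_left _ _ h6) (Ideal.mul_mem_left _ _ hpT)
      exact (Ideal.ne_top_iff_one _).mp (maximalIdeal.isMaximal T).ne_top h7
    by_contra hnu
    have h6 : c₀ - 1 ∈ maximalIdeal T := (mem_maximalIdeal _).mpr hnu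
    have h7 : (a : T) - 1 ∈ maximalIdeal T := by
      have : (a : T) - 1 = (c₀ - 1) - (c₀ - (a : T)) := by ring
      rw [this]
      exact Ideal.sub_mem _ h6 h1
    exact ((mem_maximalIdeal _).mp h7) h3
  obtain ⟨b, hb1, hb2⟩ := exists_ordinary_line H.ρ.finrank_eq f₀ c₀ rfl hc₀u hu
    (hO2 P hP σ₀ hσ₀ σ₀ hσ₀)
  refine ⟨T ∙ b 0, ⟨b, rfl⟩, ?_, ?_⟩
  · intro τ hτ v hv
    rw [hb1] at hv
    obtain ⟨w, rfl⟩ := hv
    rw [hb2, LinearMap.mem_ker]
    have := congrArg (fun f : Module.End T H.ρ.V => f w) (hO3 P hP σ₀ hσ₀ τ hτ)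
    simpa [Module.End.mul_apply] using this
  · intro σ hσ v
    rw [hb2, LinearMap.mem_ker]
    have := congrArg (fun f : Module.End T H.ρ.V => f v) (hO2 P hP σ₀ hσ₀ σ hσ)
    simpa [Module.End.mul_apply] using this

end Asm

end Fermat.Agent.S33

end
end
-- ===== PACK-END S33/Top.lean

-- ===== PACK-BEGIN S59/NMP/H296/LocalPlus.lean
section


/-!
# S59 / NMP-LGC, leaf MAXUNR, piece LOCAL-ABS⁺ (helper296)

`A3.H799.LocalStatement` (local coordinates on a finite inertia-stable subgroup `T ⊆ Pic0`) with a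
TRACKED CLAUSE: the coordinates are constant modulo `𝔪_V` on the kernel of reduction,

    x ∈ T,  x ∈ 𝓡.kerRed   ⟹   Ψ x i - Ψ 0 i ∈ 𝔪_V      for all `i`.

The coordinates are the ones of `A3/H799/Asm.lean` (helper799): class indicators modulo the kernel
of reduction and chart coordinates (with values in `𝔪_V`) on each class; the clause is read off.

* `LocalPlusStatement`  : the statement;
* `local_of_chart_plus_h296` : CHART + KER-I + LIFTI ⟹ `LocalPlusStatement`;
* `localPlus_h296`      : `LocalPlusStatement`, unconditional (same leaves as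
  `A3.H255.localStatement`).
-/

set_option autoImplicit false

noncomputable section

open AlgebraicCurve

namespace Fermat.Agent.S59.NMP.H296

open Fermat.Agent.A3 Fermat.Agent.A3.H799

universe u₁ u₂ u₃ u₄

variable {K : Type u₁} {F : Type u₂} {k : Type u₃} {Fk : Type u₄}
  [Field K] [Field F] [Algebra K F] [Field k] [Field Fk] [Algebra k Fk]

/-- **LOCAL-ABS⁺**: `A3.H799.LocalStatement` together with the clause "the coordinates are
constant modulo `𝔪_V` on the kernel of reduction". -/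
def LocalPlusStatement (K F k Fk : Type*) [Field K] [Field F] [Algebra K F]
    [Field k] [Field Fk] [Algebra k Fk] [IsAlgClosed K] [IsAlgClosed k] [CharZero K] : Prop :=
  ∀ (𝓡 : GoodRed K F k Fk),
    (∀ a b : K, a ∈ 𝓡.V.nonunits → b ≠ 0 → ∃ n : ℕ, a ^ n / b ∈ 𝓡.V) →
    ∀ (T : AddSubgroup (Pic0 K F)) [Finite T]
      (hT : ∀ g ∈ 𝓡.I, ∀ x ∈ T, g • x ∈ T),
      ∃ (ι : Type) (_ : Finite ι) (Ψ : T → ι → K),
        Function.Injective Ψ ∧ (∀ x i, Ψ x i ∈ 𝓡.V) ∧
        (∀ (g : SemilinearAut K F) (hg : g ∈ 𝓡.I) (x : T) (i : ι),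
          Ψ ⟨g • (x : Pic0 K F), hT g hg x x.2⟩ i = SemilinearAut.baseAut g (Ψ x i)) ∧
        (∀ i, (fun p : T × T => Ψ (p.1 + p.2) i) ∈
          Algebra.adjoin 𝓡.V ({f | ∃ j, f = fun p : T × T => Ψ p.1 j} ∪
            {f | ∃ j, f = fun p : T × T => Ψ p.2 j})) ∧
        ∀ x : T, (x : Pic0 K F) ∈ 𝓡.kerRed → ∀ i, Ψ x i - Ψ 0 i ∈ 𝓡.V.nonunits

theorem sub_mem_nonunits_h296 (V : ValuationSubring K) {a b : K} (ha : a ∈ V.nonunits)
    (hb : b ∈ V.nonunits) : a - b ∈ V.nonunits := by
  rw [ValuationSubring.mem_nonunits_iff] at ha hb ⊢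
  exact lt_of_le_of_lt (Valuation.map_sub _ a b) (max_lt ha hb)

theorem zero_mem_nonunits'_h296 (V : ValuationSubring K) : (0 : K) ∈ V.nonunits := by
  rw [ValuationSubring.mem_nonunits_iff, map_zero]
  exact zero_lt_one

theorem coe_maximalIdeal_mem_nonunits_h296 (V : ValuationSubring K)
    (a : IsLocalRing.maximalIdeal V) : (((a : IsLocalRing.maximalIdeal V) : V) : K) ∈ V.nonunits :=
  ValuationSubring.coe_mem_nonunits_iff.mpr a.2

section Clause

variable {𝓡 : GoodRed K F k Fk} {T : AddSubgroup (Pic0 K F)} {n : ℕ}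
  (z : 𝓡.kerRed → Fin n → IsLocalRing.maximalIdeal 𝓡.V) (yt : T ⧸ tKer 𝓡 T → Pic0 K F)
  (hmem : ∀ (x : T) (c : T ⧸ tKer 𝓡 T), (QuotientAddGroup.mk x : T ⧸ tKer 𝓡 T) = c →
    (x : Pic0 K F) - yt c ∈ 𝓡.kerRed)

open Classical in
/-- **The clause for the coordinates `psi₀`.** -/
theorem psi₀_sub_zero_mem_nonunits_h296 (x : T) (hx : (x : Pic0 K F) ∈ 𝓡.kerRed)
    (j : (T ⧸ tKer 𝓡 T) ⊕ (T ⧸ tKer 𝓡 T) × Fin n) :
    psi₀ z yt hmem x j - psi₀ z yt hmem 0 j ∈ 𝓡.V.nonunits := by
  have hmk : (QuotientAddGroup.mk x : T ⧸ tKer 𝓡 T) = QuotientAddGroup.mk (0 : T) := by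
    rw [mk_eq_mk_iff, AddSubgroup.coe_zero, sub_zero]
    exact hx
  rcases j with c | ⟨c, i⟩
  · rw [psi₀_inl, psi₀_inl, hmk, sub_self]
    exact zero_mem_nonunits'_h296 𝓡.V
  · by_cases h : (QuotientAddGroup.mk x : T ⧸ tKer 𝓡 T) = c
    · have h0 : (QuotientAddGroup.mk (0 : T) : T ⧸ tKer 𝓡 T) = c := by rw [← hmk, h]
      rw [psi₀_inr_pos z yt hmem x c i h, psi₀_inr_pos z yt hmem 0 c i h0]
      exact sub_mem_nonunits_h296 𝓡.V (coe_maximalIdeal_mem_nonunits_h296 𝓡.V _)
        (coe_maximalIdeal_mem_nonunits_h296 𝓡.V _)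
    · have h0 : ¬ (QuotientAddGroup.mk (0 : T) : T ⧸ tKer 𝓡 T) = c := by rw [← hmk]; exact h
      rw [psi₀_inr_neg z yt hmem x c i h, psi₀_inr_neg z yt hmem 0 c i h0, sub_self]
      exact zero_mem_nonunits'_h296 𝓡.V

end Clause

section Main

variable [IsAlgClosed K] [IsAlgClosed k] [CharZero K]

/-- **Assembly with the clause.**  CHART + KER-I + LIFTI ⟹ `LocalPlusStatement`
(the proof of `A3.H799.local_of_chart`, with one more field). -/
theorem local_of_chart_plus_h296 (hchart : ChartStatement.{u₁, u₂, u₃, u₄, u₂} K F k Fk)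
    (hker : KerInertiaStatement K F k Fk) (hlift : LiftiStatement K F k Fk) :
    LocalPlusStatement K F k Fk := by
  classical
  intro 𝓡 _ T _ hT
  obtain ⟨n, z, hzinj, hzeq, hzadd⟩ := hchart 𝓡
  have hl : ∀ c : T ⧸ tKer 𝓡 T, ∃ y : Pic0 K F, (∀ g ∈ 𝓡.I, g • y = y) ∧
      ((Quotient.out c : T) : Pic0 K F) - y ∈ 𝓡.kerRed := fun c => hlift 𝓡 _
  choose yt hyI hyJ using hl
  have hmem : ∀ (x : T) (c : T ⧸ tKer 𝓡 T), (QuotientAddGroup.mk x : T ⧸ tKer 𝓡 T) = c →
      (x : Pic0 K F) - yt c ∈ 𝓡.kerRed := by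
    intro x c h
    have h1 := sub_out_mem x c h
    have h2 : (x : Pic0 K F) - yt c = ((x : Pic0 K F) - ((Quotient.out c : T) : Pic0 K F)) +
        (((Quotient.out c : T) : Pic0 K F) - yt c) := by abel
    rw [h2]
    exact add_mem h1 (hyJ c)
  -- the index type
  haveI : Finite (T ⧸ tKer 𝓡 T) := inferInstance
  haveI : Finite ((T ⧸ tKer 𝓡 T) ⊕ (T ⧸ tKer 𝓡 T) × Fin n) := inferInstance
  obtain ⟨m, ⟨e⟩⟩ := Finite.exists_equiv_fin ((T ⧸ tKer 𝓡 T) ⊕ (T ⧸ tKer 𝓡 T) × Fin n)
  refine ⟨Fin m, inferInstance, fun x i => psi₀ z yt hmem x (e.symm i), ?_, ?_, ?_, ?_, ?_⟩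
  · intro x x' h
    apply psi₀_injective z yt hmem hzinj
    funext j
    have := congrFun h (e j)
    simpa using this
  · intro x i
    exact psi₀_mem z yt hmem x _
  · intro g hg x i
    exact psi₀_smul z yt hmem (hker 𝓡) hyI hzeq g hg x _ _
  · intro i
    have := psi₀_add_mem z yt hmem (fun Λ a b => hzadd (T × T) Λ a b) (e.symm i)
    refine Algebra.adjoin_mono ?_ this
    rintro f (⟨j, rfl⟩ | ⟨j, rfl⟩)
    · left
      exact ⟨e j, by simp⟩
    · right
      exact ⟨e j, by simp⟩
  · intro x hx i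
    exact psi₀_sub_zero_mem_nonunits_h296 z yt hmem x hx (e.symm i)

/-- **LOCAL-ABS⁺ from DET.** -/
theorem localPlus_of_det_h296 (hdet : DetStatement K F k Fk) : LocalPlusStatement K F k Fk :=
  local_of_chart_plus_h296 (chartStatement_of_det hdet) H555.kerInertiaStatement
    (H555.liftiStatement_of_disc (H75.discStatement K F k Fk) H555.discEquivStatement)

end Main

end Fermat.Agent.S59.NMP.H296

namespace Fermat.Agent.S59.NMP.H296

universe v₁ v₂ v₃ v₄

/-- **LOCAL-ABS⁺**, unconditional. -/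
theorem localPlus_h296 {K : Type v₁} {F : Type v₂} {k : Type v₃} {Fk : Type v₄}
    [Field K] [Field F] [Algebra K F] [Field k] [Field Fk] [Algebra k Fk]
    [IsAlgClosed K] [IsAlgClosed k] [CharZero K] : LocalPlusStatement K F k Fk :=
  localPlus_of_det_h296 Fermat.Agent.A3.H255.Det.detStatement

end Fermat.Agent.S59.NMP.H296

end
end
-- ===== PACK-END S59/NMP/H296/LocalPlus.lean

-- ===== PACK-BEGIN S17/H711/DerB.lean
section





/-!
# S17 / G-DIV, piece DER-b (helper711): places of generic type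

`stmtDERb : H797.StmtDERb N L` (exact shape of `H797/DerDefs.lean`, hypothesis `[FF1 L (FL N L)]`
only), by INSTANTIATION of helper800's abstract local statement `H800.GenericSetup`
(`S17/H800/DerLocal.lean`) with `K₁ = ℚ`, `F₁ =` the image of the rational function field
`ℚ(X₀(N))` in `F_L`, `x = t = j`:

* `isAlgebraic_of_mem_F1` : `F₁` is algebraic over `ℚ(t)` (from the degree bound of S24,
  `Deg457.algDeg_of_mem_field` over `ℚ` + `hyp_complex_card`);
* `evT_injective` : `t` is transcendental over `ℚ`;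
* `exists_frac` : `F_L = Frac (L · F₁)`;
* `tL_notMem_range` : `t` is not constant;
* `genericSetup` : the structure `GenericSetup P (DL d) F₁ t` at every place `P` of generic type.
-/

set_option autoImplicit false
set_option linter.unusedSectionVars false
set_option linter.style.haveILetI false

noncomputable section

open AlgebraicCurve ModularCurve Polynomial

namespace Fermat.Agent.S17.H711

open Fermat.Agent.Lib.RR Fermat.Agent.S17.GDiv Fermat.Agent.S17.H797 Fermat.Agent.S17.H800

section Setup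

variable (N : ℕ) [NeZero N] (L : Type) [Field L] [Algebra ℚ L]

/-- The `ℚ`-algebra structure of `F_L` (through `L`). -/
@[reducible] def algQ : Algebra ℚ (FL N L) :=
  ((algebraMap L (FL N L)).comp (algebraMap ℚ L)).toAlgebra

attribute [local instance] algQ

theorem isScalarTower_algQ :
    @IsScalarTower ℚ L (FL N L) _ _ (algQ N L).toSMul :=
  IsScalarTower.of_algebraMap_eq (fun _ => rfl)

attribute [local instance] isScalarTower_algQ

/-- `bcQ` as a ring homomorphism. -/
def bcQHom : modularFunctionFieldFull N →+* FL N L where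
  toFun := bcQ N L
  map_one' := Subtype.ext (map_one (coeffEmb L))
  map_mul' _ _ := Subtype.ext (map_mul (coeffEmb L) _ _)
  map_zero' := Subtype.ext (map_zero (coeffEmb L))
  map_add' _ _ := Subtype.ext (map_add (coeffEmb L) _ _)

@[simp] theorem bcQHom_apply (u : modularFunctionFieldFull N) : bcQHom N L u = bcQ N L u := rfl

/-- The image of the rational function field in `F_L`, as an intermediate field over `ℚ`. -/
def F1 : IntermediateField ℚ (FL N L) := ((bcQHom N L).toRatAlgHom).fieldRange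

theorem mem_F1 {h : FL N L} : h ∈ F1 N L ↔ ∃ u : modularFunctionFieldFull N, bcQ N L u = h := by
  rw [F1, AlgHom.mem_fieldRange]
  rfl

theorem bcQ_mem_F1 (u : modularFunctionFieldFull N) : bcQ N L u ∈ F1 N L :=
  (mem_F1 N L).2 ⟨u, rfl⟩

/-- `t` is not a constant. -/
theorem tL_notMem_range : tL N L ∉ Set.range (algebraMap L (FL N L)) := by
  rintro ⟨c, hc⟩
  have h1 : ((algebraMap L (FL N L) c : FL N L) : LaurentSeries L).coeff (-1)
      = ((tL N L : FL N L) : LaurentSeries L).coeff (-1) := by rw [hc]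
  have h2 : ((algebraMap L (FL N L) c : FL N L) : LaurentSeries L)
      = algebraMap L (LaurentSeries L) c := rfl
  rw [h2, algebraMap_laurentSeries_eq_single] at h1
  have h3 : ((tL N L : FL N L) : LaurentSeries L) = coeffEmb L jq := rfl
  rw [h3, coeffEmb_coeff, coeff_jq_neg_one, map_one,
    HahnSeries.coeff_single_of_ne (by norm_num)] at h1
  exact zero_ne_one h1

/-- evaluation of rational polynomials at `t`, as a ring homomorphism -/
def evT : ℚ[X] →+* FL N L := (aeval (R := ℚ) (tL N L)).toRingHom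

theorem evT_X : evT N L X = tL N L := by
  simp [evT]

open Fermat.Agent.S24.Deg457 in
theorem val_comp_evT :
    ((FL N L).val.toRingHom).comp (evT N L) =
      (coeffMap (algebraMap ℚ L)).comp (evJ (JK ℚ)) := by
  refine Polynomial.ringHom_ext' (Subsingleton.elim _ _) ?_
  show ((evT N L X : FL N L) : LaurentSeries L) = coeffMap (algebraMap ℚ L) (aeval (JK ℚ) X)
  rw [evT_X, aeval_X, JK, coeffMap_coeffEmb']
  rfl

open Fermat.Agent.S24.Deg457 in
/-- Every function with rational `q`-expansion satisfies a nonzero polynomial relation over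
`ℚ[t]`. -/
theorem exists_relation (u : modularFunctionFieldFull N) :
    ∃ Q : ℚ[X][X], Q ≠ 0 ∧ Q.eval₂ (evT N L) (bcQ N L u) = 0 := by
  have hx : coeffEmb ℚ (u : LaurentSeries ℚ) ∈ laurentBaseChange ℚ (modularFunctionFieldFull N) :=
    coeffEmb_mem_laurentBaseChange ℚ u.2
  obtain ⟨Q, hQ0, -, hQ⟩ := algDeg_of_mem_field (N := N) (algebraMap ℚ ℂ) (hyp_complex_card N) hx
  refine ⟨Q, hQ0, ?_⟩
  have h1 := congrArg (coeffMap (algebraMap ℚ L)) hQ
  rw [Polynomial.hom_eval₂, map_zero, coeffMap_coeffEmb', ← val_comp_evT N L] at h1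
  apply Subtype.ext
  show (FL N L).val.toRingHom (Q.eval₂ (evT N L) (bcQ N L u)) = 0
  rw [Polynomial.hom_eval₂]
  exact h1

open Fermat.Agent.S24.Deg457 in
/-- `t` is transcendental over `ℚ`. -/
theorem evT_injective : Function.Injective (evT N L) := by
  rw [injective_iff_map_eq_zero]
  intro p hp
  by_contra hp0
  have h1 : (p.map (algebraMap ℚ L)) ≠ 0 := by
    rwa [Ne, Polynomial.map_eq_zero]
  have h2 := aeval_JK_ne_zero L h1
  apply h2
  have h3 := congrArg ((FL N L).val.toRingHom) hp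
  rw [map_zero] at h3
  rw [← h3, aeval_def, Polynomial.eval₂_map]
  show _ = ((FL N L).val.toRingHom).comp (evT N L) p
  have : ((FL N L).val.toRingHom).comp (evT N L)
      = Polynomial.eval₂RingHom ((algebraMap L (LaurentSeries L)).comp (algebraMap ℚ L)) (JK L) := by
    refine Polynomial.ringHom_ext' (Subsingleton.elim _ _) ?_
    show ((evT N L X : FL N L) : LaurentSeries L) = Polynomial.eval₂ _ (JK L) X
    rw [evT_X, Polynomial.eval₂_X]
    rfl
  rw [this]
  rfl

/-- Every element of the image of the rational function field is algebraic over `ℚ(t)`. -/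
theorem isAlgebraic_of_mem_F1 {h : FL N L} (hh : h ∈ F1 N L) :
    IsAlgebraic (IntermediateField.adjoin ℚ {tL N L}) h := by
  obtain ⟨u, rfl⟩ := (mem_F1 N L).1 hh
  obtain ⟨Q, hQ0, hQ⟩ := exists_relation N L u
  let tE : IntermediateField.adjoin ℚ {tL N L} :=
    ⟨tL N L, IntermediateField.mem_adjoin_simple_self ℚ (tL N L)⟩
  let ψ : ℚ[X] →+* IntermediateField.adjoin ℚ {tL N L} := (aeval (R := ℚ) tE).toRingHom
  have hcomp : (algebraMap (IntermediateField.adjoin ℚ {tL N L}) (FL N L)).comp ψ = evT N L := by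
    refine Polynomial.ringHom_ext' (Subsingleton.elim _ _) ?_
    show algebraMap (IntermediateField.adjoin ℚ {tL N L}) (FL N L) (ψ X) = evT N L X
    rw [evT_X]
    simp [ψ, tE]
  have hψ : Function.Injective ψ := by
    have h1 : Function.Injective
        ((algebraMap (IntermediateField.adjoin ℚ {tL N L}) (FL N L)).comp ψ) := by
      rw [hcomp]
      exact evT_injective N L
    intro a b hab
    exact h1 (by simp only [RingHom.comp_apply, hab])
  refine ⟨Q.map ψ, ?_, ?_⟩
  · rwa [Ne, ← Polynomial.map_zero ψ, (Polynomial.map_injective ψ hψ).eq_iff]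
  · rw [aeval_def, Polynomial.eval₂_map, hcomp]
    exact hQ

/-- `F_L` is the fraction field of `L · F₁`. -/
theorem exists_frac (f : FL N L) :
    ∃ g ∈ Algebra.adjoin L (F1 N L : Set (FL N L)),
      ∃ h ∈ Algebra.adjoin L (F1 N L : Set (FL N L)), h ≠ 0 ∧ f * h = g := by
  have hf : (f : LaurentSeries L) ∈ IntermediateField.adjoin L
      (⇑(coeffEmb L) '' ((modularFunctionFieldFull N : IntermediateField ℚ (LaurentSeries ℚ)) :
        Set (LaurentSeries ℚ))) := f.2
  rw [IntermediateField.mem_adjoin_iff_div] at hf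
  obtain ⟨r, hr, s, hs, hfrs⟩ := hf
  have hle : Algebra.adjoin L
      (⇑(coeffEmb L) '' ((modularFunctionFieldFull N : IntermediateField ℚ (LaurentSeries ℚ)) :
        Set (LaurentSeries ℚ))) ≤
      (Algebra.adjoin L (F1 N L : Set (FL N L))).map (FL N L).val := by
    refine Algebra.adjoin_le ?_
    rintro _ ⟨y, hy, rfl⟩
    exact ⟨bcQ N L ⟨y, hy⟩, Algebra.subset_adjoin (bcQ_mem_F1 N L _), rfl⟩
  obtain ⟨r', hr', rfl⟩ := hle hr
  obtain ⟨s', hs', rfl⟩ := hle hs
  by_cases hs0 : s' = 0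
  · refine ⟨0, Subalgebra.zero_mem _, 1, Subalgebra.one_mem _, one_ne_zero, ?_⟩
    rw [mul_one]
    apply Subtype.ext
    rw [hfrs, hs0]
    simp
  · refine ⟨r', hr', s', hs', hs0, ?_⟩
    apply Subtype.ext
    have hs0' : ((FL N L).val s' : LaurentSeries L) ≠ 0 := by
      intro h
      exact hs0 (Subtype.ext h)
    show (f : LaurentSeries L) * (FL N L).val s' = (FL N L).val r'
    rw [hfrs]
    exact div_mul_cancel₀ _ hs0'

end Setup

section Main

variable {N : ℕ} [NeZero N] {L : Type} [Field L] [Algebra ℚ L]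

attribute [local instance] algQ isScalarTower_algQ

/-- The hypotheses of helper800's abstract local statement hold at a place of generic type of
`F_L`. -/
theorem genericSetup [FF1 L (FL N L)] (d : Derivation ℚ L L) (P : Place L (FL N L))
    (hP : ¬ IsConstType P) :
    GenericSetup (K1 := ℚ) P (DL d) (F1 N L) (tL N L) where
  deg_one := deg_eq_one P
  isDer := ⟨fun f g => DL_mul d f g⟩
  der_F1 := by
    intro h hh
    obtain ⟨u, rfl⟩ := (mem_F1 N L).1 hh
    exact DL_bcQ d u
  der_const := fun c => ⟨d c, DL_algebraMap d c⟩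
  generic := by
    intro h hh _
    obtain ⟨u, rfl⟩ := (mem_F1 N L).1 hh
    by_contra hne
    exact hP ⟨u, hne⟩
  x_mem := bcQ_mem_F1 N L (jQ N)
  x_nonconst := tL_notMem_range N L
  algebraic := fun _ hh => isAlgebraic_of_mem_F1 N L hh
  frac := exists_frac N L

/-- **DER-b**: places of generic type. -/
theorem stmtDERb [FF1 L (FL N L)] : StmtDERb N L := by
  intro d P hP
  have H := genericSetup d P hP
  obtain ⟨a, ha, hu0⟩ := H.exists_value
  refine ⟨⟨a, ha⟩, fun h => ?_⟩
  by_cases hD : DL d h = 0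
  · exact Or.inl hD
  refine Or.inr ?_
  have hh0 : h ≠ 0 := by
    rintro rfl
    exact hD (map_zero _)
  refine ⟨H.ord_sub_one_le_ord_der hh0 hD, fun hord => ?_, fun hval => ?_⟩
  · exact ord_nonneg_of_mem P (H.der_mem_of_ord_eq_zero hh0 hord)
  · have hda : d a = 0 := hval a ha
    refine (H.derLocalData ha hu0).ord_le_ord_der ?_ hh0 hD
    have ht : DL d (tL N L) = 0 := DL_bcQ d (jQ N)
    rw [map_sub, ht, DL_algebraMap, hda, map_zero, sub_zero]

end Main

end Fermat.Agent.S17.H711

end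
end
-- ===== PACK-END S17/H711/DerB.lean

-- ===== PACK-BEGIN S17/H830/NSRat.lean
section



/-!
# S17 / G-DIV, piece NS (helper830), part 2: rationality of places

For the function field `F_L = FL N L` of `GDiv/Defs.lean`:

* `galois_smul_bcQ`, `HasValue.galois_smul`, `hasValue_bcQ_smul` : the coefficientwise Galois action
  and values;
* `hasValue_tval`, `tval_eq` : the `t`-value;
* `exists_aut_add` : if `K₁` is algebraically closed in `L` and `c ∉ K₁`, some automorphism of `L`
  fixing `K₁` maps `c` to `c + n`;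
* **ALGVAL** `isRationalOver_of_tval_mem` : if `K₁` is algebraically closed in `L` and contains the
  `t`-value of `Q`, then `Q` is rational over `K₁` (all finite values at `Q` of functions with
  rational `q`-expansion lie in `K₁`).  Proof by automorphisms: otherwise `t - t(Q)` (or `t`) would
  have infinitely many zeros (poles).
-/

set_option autoImplicit false

noncomputable section

open AlgebraicCurve ModularCurve

namespace Fermat.Agent.S17.H830

open Fermat.Agent.Lib.RR Fermat.Agent.S17.GDiv Fermat.Agent.S17.H680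

section Modular

variable {N : ℕ} [NeZero N] {L : Type} [Field L] [Algebra ℚ L]

omit [NeZero N] in
theorem hasValue_iff {P : Place L (FL N L)} {f : FL N L} {c : L} :
    HasValue P f c ↔ HasVal P f c := Iff.rfl

omit [NeZero N] in
/-- Functions with rational `q`-expansion are fixed by the Galois action. -/
theorem galois_smul_bcQ (σ : L ≃ₐ[ℚ] L) (u : modularFunctionFieldFull N) :
    arithmeticGalois (modularFunctionFieldFull N) σ • bcQ N L u = bcQ N L u := by
  apply Subtype.ext
  rw [coe_arithmeticGalois_smul, coe_bcQ, coeffMap_coeffEmb]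

omit [NeZero N] in
theorem galois_smul_algebraMap (σ : L ≃ₐ[ℚ] L) (c : L) :
    arithmeticGalois (modularFunctionFieldFull N) σ • algebraMap L (FL N L) c
      = algebraMap L (FL N L) (σ c) :=
  SemilinearAut.smul_algebraMap _ c

omit [NeZero N] in
theorem HasValue.galois_smul (σ : L ≃ₐ[ℚ] L) {P : Place L (FL N L)} {f : FL N L} {c : L}
    (h : HasValue P f c) :
    HasValue (arithmeticGalois (modularFunctionFieldFull N) σ • P)
      (arithmeticGalois (modularFunctionFieldFull N) σ • f) (σ c) :=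
  HasVal.smul (arithmeticGalois (modularFunctionFieldFull N) σ) h

omit [NeZero N] in
theorem hasValue_bcQ_smul (σ : L ≃ₐ[ℚ] L) {P : Place L (FL N L)}
    {u : modularFunctionFieldFull N} {c : L} (h : HasValue P (bcQ N L u) c) :
    HasValue (arithmeticGalois (modularFunctionFieldFull N) σ • P) (bcQ N L u) (σ c) := by
  have := HasValue.galois_smul σ h
  rwa [galois_smul_bcQ] at this

theorem galois_smul_tL (σ : L ≃ₐ[ℚ] L) :
    arithmeticGalois (modularFunctionFieldFull N) σ • tL N L = tL N L :=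
  galois_smul_bcQ σ _

theorem hasValue_tL_smul (σ : L ≃ₐ[ℚ] L) {P : Place L (FL N L)} {c : L}
    (h : HasValue P (tL N L) c) :
    HasValue (arithmeticGalois (modularFunctionFieldFull N) σ • P) (tL N L) (σ c) :=
  hasValue_bcQ_smul σ h

/-! ### The `t`-value -/

theorem hasValue_tval {P : Place L (FL N L)} (h : ∃ c : L, HasValue P (tL N L) c) :
    HasValue P (tL N L) (tval P) := by
  classical
  unfold tval
  rw [dif_pos h]
  exact h.choose_spec

theorem tval_eq {P : Place L (FL N L)} {c : L} (h : HasValue P (tL N L) c) : tval P = c :=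
  HasVal.unique (hasValue_tval ⟨c, h⟩) h

theorem tval_of_not {P : Place L (FL N L)} (h : ¬ ∃ c : L, HasValue P (tL N L) c) :
    tval P = 0 := by
  classical
  unfold tval
  rw [dif_neg h]

theorem tval_smul (σ : L ≃ₐ[ℚ] L) {P : Place L (FL N L)}
    (h : ∃ c : L, HasValue P (tL N L) c) :
    tval (arithmeticGalois (modularFunctionFieldFull N) σ • P) = σ (tval P) :=
  tval_eq (hasValue_tL_smul σ (hasValue_tval h))

/-- `t` is not a constant. -/
theorem tL_sub_ne_zero (c : L) : tL N L - algebraMap L (FL N L) c ≠ 0 := by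
  intro h
  have h1 : (tL N L : LaurentSeries L) = algebraMap L (LaurentSeries L) c := by
    have := congrArg (fun x : FL N L => (x : LaurentSeries L)) (sub_eq_zero.mp h)
    exact this
  have h2 : (coeffEmb L jq).order < 0 := by
    have h : (coeffEmb L jq).order ≤ -1 :=
      HahnSeries.order_le_of_coeff_ne_zero (by
        rw [coeffEmb_coeff, coeff_jq_neg_one, map_one]; exact one_ne_zero)
    omega
  have h3 : ((tL N L : FL N L) : LaurentSeries L) = coeffEmb L jq := rfl
  rw [h3] at h1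
  rw [h1, order_algebraMap_laurent] at h2
  exact lt_irrefl _ h2

theorem tL_ne_zero : tL N L ≠ 0 := by
  have := tL_sub_ne_zero (N := N) (L := L) 0
  rwa [map_zero, sub_zero] at this

/-! ### Automorphisms -/

/-- If `K₁` is algebraically closed in the algebraically closed field `L` and `c ∉ K₁`, then
some automorphism of `L` fixing `K₁` maps `c` to `c + n`. -/
theorem exists_aut_add [IsAlgClosed L] (K₁ : Subfield L) (hK₁ : AlgClosedIn K₁) {c : L}
    (hc : c ∉ K₁) (n : ℕ) :
    ∃ σ : L ≃ₐ[ℚ] L, (∀ a ∈ K₁, σ a = a) ∧ σ c = c + n := by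
  have htr : Transcendental K₁ c := fun halg => hc (hK₁ c halg)
  obtain ⟨σ, hσ⟩ := Fermat.Agent.S29.H32.exists_algEquiv_apply_eq_add (k := K₁) c htr (n : K₁)
  refine ⟨AlgEquiv.ofRingEquiv (f := σ.toRingEquiv) (fun r => ?_), fun a ha => ?_, ?_⟩
  · rw [eq_ratCast (algebraMap ℚ L) r]
    exact map_ratCast σ r
  · exact σ.commutes ⟨a, ha⟩
  · show σ c = c + n
    rw [hσ]
    simp

end Modular

section Rational

variable {N : ℕ} [NeZero N] {L : Type} [Field L] [Algebra ℚ L] [IsAlgClosed L]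
  [FF1 L (FL N L)]

/-- **ALGVAL**.  If `K₁` is algebraically closed in `L` and contains the `t`-value of `Q`, then
the place `Q` is rational over `K₁`. -/
theorem isRationalOver_of_tval_mem (K₁ : Subfield L) (hK₁ : AlgClosedIn K₁)
    (Q : Place L (FL N L)) (hQ : tval Q ∈ K₁) : IsRationalOver K₁ Q := by
  intro u c hc
  by_contra hcK
  have : CharZero L := algebraRat.charZero L
  -- a function `f ≠ 0`, fixed by `Aut(L/K₁)`, with `ord_Q f ≠ 0`
  obtain ⟨f, hf0, hfix, hord⟩ : ∃ f : FL N L, f ≠ 0 ∧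
      (∀ σ : L ≃ₐ[ℚ] L, (∀ a ∈ K₁, σ a = a) →
        arithmeticGalois (modularFunctionFieldFull N) σ • f = f) ∧ Q.ord f ≠ 0 := by
    by_cases ht : ∃ c : L, HasValue Q (tL N L) c
    · refine ⟨tL N L - algebraMap L (FL N L) (tval Q), tL_sub_ne_zero _, fun σ hσ => ?_, ?_⟩
      · rw [smul_sub, galois_smul_tL, galois_smul_algebraMap, hσ _ hQ]
      · have h := hasValue_tval ht
        rcases h with h | h
        · exact absurd h (tL_sub_ne_zero _)
        · exact h.ne'
    · refine ⟨tL N L, tL_ne_zero, fun σ _ => galois_smul_tL σ, ?_⟩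
      intro h0
      exact ht (exists_hasVal Q (deg_eq_one Q) h0.ge)
  -- the automorphisms
  choose σ hσ1 hσ2 using fun n : ℕ => exists_aut_add K₁ hK₁ hcK n
  let Pn : ℕ → Place L (FL N L) := fun n =>
    arithmeticGalois (modularFunctionFieldFull N) (σ n) • Q
  have hval : ∀ n, HasValue (Pn n) (bcQ N L u) (c + n) := by
    intro n
    have := hasValue_bcQ_smul (σ n) hc
    rwa [hσ2 n] at this
  have hinj : Function.Injective Pn := by
    intro n m hnm
    have h1 := hval n
    rw [hnm] at h1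
    have h2 : c + (n : L) = c + (m : L) := HasVal.unique h1 (hval m)
    exact_mod_cast add_left_cancel h2
  have hordn : ∀ n, (Pn n).ord f ≠ 0 := by
    intro n
    have h := SemilinearAut.ord_smul (arithmeticGalois (modularFunctionFieldFull N) (σ n)) Q f
    rw [hfix (σ n) (hσ1 n)] at h
    show (arithmeticGalois (modularFunctionFieldFull N) (σ n) • Q).ord f ≠ 0
    rw [h]
    exact hord
  have hfin := finite_setOf_ord_ne_zero (K := L) hf0
  exact Set.infinite_range_of_injective hinj (hfin.subset (by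
    rintro _ ⟨n, rfl⟩
    exact hordn n))

end Rational

end Fermat.Agent.S17.H830

end
end
-- ===== PACK-END S17/H830/NSRat.lean

-- ===== PACK-BEGIN S17/H830/NSAbs.lean
section




/-!
# S17 / G-DIV, piece NS (helper830), part 4: the abstract counting argument

General function field `F / K` with `FF1 K F`, semilinear automorphisms:

* `smul_divisor_eq_of_forall` : a divisor all of whose places are fixed is fixed;
* `ell_sub_prim_add_one_of_orbit` : if `D` is fixed by automorphisms `g n` which move `P` to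
  pairwise different places, `D P = 0` and `ℓ(D) ≥ 1`, then `ℓ(D - P) = ℓ(D) - 1`;
* `nsDiv W P i = W - P_0 - … - P_{i-1}` and `ell_sumPrim_eq_one` : if every step drops the
  dimension by one (starting from a canonical divisor `W`), then `ℓ(P_0 + … + P_{g-1}) = 1`.
-/

set_option autoImplicit false

noncomputable section

open AlgebraicCurve

namespace Fermat.Agent.S17.H830

open Fermat.Agent.Lib.RR

section Abstract

variable {K F : Type*} [Field K] [Field F] [Algebra K F]

/-- A divisor all of whose places are fixed is fixed. -/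
theorem smul_divisor_eq_of_forall (g : SemilinearAut K F) {D : Divisor K F}
    (h : ∀ v ∈ D.support, g • v = v) : g • D = D := by
  rw [SemilinearAut.divisor_smul_def]
  have h1 : Finsupp.mapDomain (g • ·) D = Finsupp.mapDomain id D :=
    Finsupp.mapDomain_congr (fun v hv => h v hv)
  rw [h1, Finsupp.mapDomain_id]

theorem prim_nonneg (P : Place K F) : (0 : Divisor K F) ≤ prim P := by
  intro v
  by_cases hv : v = P
  · subst hv
    rw [prim_apply_self]
    exact zero_le_one
  · rw [prim_apply_of_ne hv]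
    exact le_rfl

/-- A space `L(D)` of positive dimension contains a nonzero function. -/
theorem exists_ne_zero_of_ell_pos {D : Divisor K F} (h : 1 ≤ ell D) :
    ∃ f ∈ riemannRochSpace D, f ≠ 0 := by
  by_contra hcon
  have hbot : riemannRochSpace D = ⊥ := by
    rw [Submodule.eq_bot_iff]
    intro f hf
    by_contra hf0
    exact hcon ⟨f, hf, hf0⟩
  have h0 : ell D = 0 := by
    unfold ell
    rw [hbot]
    exact finrank_bot K F
  omega

variable [FF1 K F]

/-- **The step.**  If `D` is fixed by automorphisms `g n` moving `P` to pairwise different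
places, `D P = 0` and `ℓ(D) ≥ 1`, then `ℓ(D - P) + 1 = ℓ(D)`. -/
theorem ell_sub_prim_add_one_of_orbit (D : Divisor K F) (P : Place K F) (hDP : D P = 0)
    (hℓ : 1 ≤ ell D) (g : ℕ → SemilinearAut K F) (hgD : ∀ n, g n • D = D)
    (hinj : Function.Injective fun n => g n • P) :
    ell (D - prim P) + 1 = ell D := by
  classical
  have h1 : ell D ≤ ell (D - prim P) + 1 := by
    have := ell_add_prim_le (D - prim P) P
    rwa [sub_add_cancel] at this
  have hle : D - prim P ≤ D := sub_le_self D (prim_nonneg P)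
  have h2 : ell (D - prim P) ≤ ell D := ell_mono hle
  by_contra hne
  have heq : ell (D - prim P) = ell D := by omega
  have hLeq : riemannRochSpace (D - prim P) = riemannRochSpace D :=
    Submodule.eq_of_le_of_finrank_eq (L_mono hle) heq
  obtain ⟨f, hfD, hf0⟩ := exists_ne_zero_of_ell_pos hℓ
  have hgD' : ∀ n, (g n)⁻¹ • D = D := by
    intro n
    rw [inv_smul_eq_iff]
    exact (hgD n).symm
  have hord : ∀ n, (g n • P).ord f ≠ 0 := by
    intro n
    have hmem : (g n)⁻¹ • f ∈ riemannRochSpace (D - prim P) := by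
      rw [hLeq]
      have := Fermat.Agent.S17.H680.smul_mem_L (g n)⁻¹ hfD
      rwa [hgD' n] at this
    have hne0 : (g n)⁻¹ • f ≠ 0 := Fermat.Agent.S17.H680.smul_ne_zero (g n)⁻¹ hf0
    have h3 := (mem_L_iff.mp hmem P).resolve_left hne0
    have h4 : (D - prim P) P = -1 := by
      rw [Finsupp.sub_apply, hDP, prim_apply_self, zero_sub]
    rw [h4] at h3
    have h5 := SemilinearAut.ord_smul (g n) P ((g n)⁻¹ • f)
    rw [smul_inv_smul] at h5
    rw [h5]
    omega
  have hfin := finite_setOf_ord_ne_zero (K := K) hf0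
  exact Set.infinite_range_of_injective hinj (hfin.subset (by
    rintro _ ⟨n, rfl⟩
    exact hord n))

end Abstract

section NsDiv

variable {K F : Type*} [Field K] [Field F] [Algebra K F]

/-- The divisor `W - P_0 - … - P_{i-1}`. -/
def nsDiv {g : ℕ} (W : Divisor K F) (P : Fin g → Place K F) (i : ℕ) : Divisor K F :=
  W - ∑ j ∈ Finset.univ.filter (fun j : Fin g => j.val < i), prim (P j)

theorem nsDiv_zero {g : ℕ} (W : Divisor K F) (P : Fin g → Place K F) :
    nsDiv W P 0 = W := by
  simp [nsDiv]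

theorem nsDiv_succ {g : ℕ} (W : Divisor K F) (P : Fin g → Place K F) (i : ℕ)
    (hi : i < g) : nsDiv W P (i + 1) = nsDiv W P i - prim (P ⟨i, hi⟩) := by
  classical
  have hfilter : Finset.univ.filter (fun j : Fin g => j.val < i + 1)
      = insert (⟨i, hi⟩ : Fin g) (Finset.univ.filter (fun j : Fin g => j.val < i)) := by
    ext j
    simp only [Finset.mem_filter, Finset.mem_univ, true_and, Finset.mem_insert, Fin.ext_iff]
    omega
  have hnot : (⟨i, hi⟩ : Fin g) ∉ Finset.univ.filter (fun j : Fin g => j.val < i) := by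
    simp
  rw [nsDiv, nsDiv, hfilter, Finset.sum_insert hnot]
  abel

theorem nsDiv_self {g : ℕ} (W : Divisor K F) (P : Fin g → Place K F) :
    nsDiv W P g = W - ∑ j, prim (P j) := by
  have hfilter : Finset.univ.filter (fun j : Fin g => j.val < g) = Finset.univ := by
    ext j
    simp
  rw [nsDiv, hfilter]

/-- The support of `nsDiv W P i` consists of places of `supp W` and the `P j`, `j < i`. -/
theorem mem_support_nsDiv {g : ℕ} {W : Divisor K F} {P : Fin g → Place K F}
    {i : ℕ} {v : Place K F} (hv : v ∈ (nsDiv W P i).support) :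
    v ∈ W.support ∨ ∃ j : Fin g, j.val < i ∧ v = P j := by
  classical
  by_contra hcon
  rw [not_or, not_exists] at hcon
  obtain ⟨h1, h2⟩ := hcon
  apply Finsupp.mem_support_iff.mp hv
  have hW : W v = 0 := by
    by_contra h
    exact h1 (Finsupp.mem_support_iff.mpr h)
  rw [nsDiv, Finsupp.sub_apply, hW, Finsupp.finsetSum_apply, zero_sub, neg_eq_zero]
  apply Finset.sum_eq_zero
  intro j hj
  have hj' : j.val < i := (Finset.mem_filter.mp hj).2
  have hne : v ≠ P j := fun h => h2 j ⟨hj', h⟩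
  exact prim_apply_of_ne hne

/-- If every step drops the dimension, then `ℓ(W - ΣP) = 0` (`ℓ(W) = g`). -/
theorem ell_nsDiv_add {g : ℕ} (W : Divisor K F) (hW : ell W = g) (P : Fin g → Place K F)
    (hstep : ∀ (i : ℕ) (hi : i < g), 1 ≤ ell (nsDiv W P i) →
      ell (nsDiv W P i - prim (P ⟨i, hi⟩)) + 1 = ell (nsDiv W P i)) :
    ∀ i : ℕ, i ≤ g → ell (nsDiv W P i) + i = g := by
  intro i
  induction i with
  | zero =>
    intro _
    rw [nsDiv_zero, hW]
    rfl
  | succ i ih =>
    intro hi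
    have hi' : i < g := hi
    have ih' := ih hi'.le
    have h1 : 1 ≤ ell (nsDiv W P i) := by omega
    have h2 := hstep i hi' h1
    rw [nsDiv_succ W P i hi']
    omega

variable [FF1 K F]

/-- **Abstract NS.**  `W` canonical, every step drops the dimension ⟹ `ℓ(ΣP) = 1`. -/
theorem ell_sumPrim_eq_one {g : ℕ} (W : Divisor K F) (hW : ell W = g)
    (hRR : ∀ D : Divisor K F,
      (ell D : ℤ) = Divisor.degree D + 1 - (g : ℤ) + ell (W - D))
    (P : Fin g → Place K F)
    (hstep : ∀ (i : ℕ) (hi : i < g), 1 ≤ ell (nsDiv W P i) →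
      ell (nsDiv W P i - prim (P ⟨i, hi⟩)) + 1 = ell (nsDiv W P i)) :
    ell (∑ j, prim (P j)) = 1 := by
  have h0 : ell (W - ∑ j, prim (P j)) = 0 := by
    have := ell_nsDiv_add W hW P hstep g le_rfl
    rw [nsDiv_self] at this
    omega
  have hdeg : Divisor.degree (∑ j, prim (P j)) = (g : ℤ) := by
    simp [map_sum, degree_prim _ (deg_eq_one _)]
  have h1 := hRR (∑ j, prim (P j))
  rw [h0, hdeg] at h1
  have h2 : (ell (∑ j, prim (P j)) : ℤ) = 1 := by
    rw [h1]
    push_cast
    ring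
  exact_mod_cast h2

end NsDiv

end Fermat.Agent.S17.H830

end
end
-- ===== PACK-END S17/H830/NSAbs.lean

-- ===== PACK-BEGIN S17/H830/NSMain.lean
section




/-!
# S17 / G-DIV, piece NS (helper830): generic points are non-special

`stmtNS : StmtPLEXT N L → StmtNS N L` (exact frozen shape of `GDiv/Defs.lean`).

Proof.  `W` a canonical divisor (Riemann–Roch), `K₀ :=` the algebraic closure in `L` of
`K(t(Q) : Q ∈ supp W)`; it is countable, algebraically closed in `L`, and `W` is rational over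
`K₀` (ALGVAL).  For a tuple `P` generic over `K₀` put `D_i := W - P_0 - … - P_{i-1}` and
`K_i :=` the algebraic closure of `K₀(t(P_j) : j < i)`.  `D_i` is rational over `K_i`, hence fixed
by `Aut(L/K_i)` (PLEXT), while `t(P_i)` is transcendental over `K_i`, so the orbit of `P_i` under
`Aut(L/K_i)` is infinite.  If `ℓ(D_i - P_i) = ℓ(D_i) ≥ 1`, a nonzero `f ∈ L(D_i)` vanishes on the
whole orbit: impossible.  Hence `ℓ(D_i) = g - i`, `ℓ(W - ΣP_i) = 0` and `ℓ(ΣP_i) = 1`.
-/

set_option autoImplicit false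

noncomputable section

open AlgebraicCurve ModularCurve

namespace Fermat.Agent.S17.H830

open Fermat.Agent.Lib.RR Fermat.Agent.S17.GDiv Fermat.Agent.S17.H680

section Fix

variable {N : ℕ} [NeZero N] {L : Type} [Field L] [Algebra ℚ L]

omit [NeZero N] in
/-- A place rational over `K₁` is fixed by the automorphisms fixing `K₁` (from PLEXT). -/
theorem galois_smul_eq_of_rational (hPLEXT : StmtPLEXT N L) {K₁ : Subfield L}
    {P : Place L (FL N L)} (hP : IsRationalOver K₁ P) (σ : L ≃ₐ[ℚ] L)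
    (hσ : ∀ a ∈ K₁, σ a = a) :
    arithmeticGalois (modularFunctionFieldFull N) σ • P = P := by
  symm
  apply hPLEXT
  intro u c hc
  have h := hasValue_bcQ_smul σ hc
  rwa [hσ c (hP u c hc)] at h

omit [NeZero N] in
theorem galois_smul_divisor_eq (hPLEXT : StmtPLEXT N L) {K₁ : Subfield L}
    {D : Divisor L (FL N L)} (hD : DivRationalOver K₁ D) (σ : L ≃ₐ[ℚ] L)
    (hσ : ∀ a ∈ K₁, σ a = a) :
    arithmeticGalois (modularFunctionFieldFull N) σ • D = D :=
  smul_divisor_eq_of_forall _ fun v hv => galois_smul_eq_of_rational hPLEXT (hD v hv) σ hσ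

end Fix

section Step

variable {N : ℕ} [NeZero N] {L : Type} [Field L] [Algebra ℚ L] [IsAlgClosed L]
  [FF1 L (FL N L)]

/-- **The step.**  If `D` is rational over `K'` (algebraically closed in `L`), `ℓ(D) ≥ 1` and the
`t`-value of `P` does not lie in `K'`, then `ℓ(D - P) = ℓ(D) - 1`. -/
theorem ell_sub_prim_add_one (hPLEXT : StmtPLEXT N L) (K' : Subfield L) (hK' : AlgClosedIn K')
    (D : Divisor L (FL N L)) (hD : DivRationalOver K' D) (P : Place L (FL N L))
    (hP : ∃ c : L, HasValue P (tL N L) c) (hτ : tval P ∉ K') (hℓ : 1 ≤ ell D) :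
    ell (D - prim P) + 1 = ell D := by
  classical
  have : CharZero L := algebraRat.charZero L
  -- `P` is not in the support of `D`
  have hDP : D P = 0 := by
    by_contra h
    have hmem : P ∈ D.support := Finsupp.mem_support_iff.mpr h
    exact hτ (hD P hmem (jQ N) (tval P) (hasValue_tval hP))
  -- the automorphisms
  choose σ hσ1 hσ2 using fun n : ℕ => exists_aut_add K' hK' hτ n
  refine ell_sub_prim_add_one_of_orbit D P hDP hℓ
    (fun n => arithmeticGalois (modularFunctionFieldFull N) (σ n))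
    (fun n => galois_smul_divisor_eq hPLEXT hD (σ n) (hσ1 n)) ?_
  have htv : ∀ n : ℕ, tval (arithmeticGalois (modularFunctionFieldFull N) (σ n) • P)
      = tval P + n := by
    intro n
    rw [tval_smul (σ n) hP, hσ2 n]
  intro n m hnm
  have h3 : tval P + (n : L) = tval P + (m : L) := by
    rw [← htv n, ← htv m]
    exact congrArg tval hnm
  exact_mod_cast add_left_cancel h3

end Step

section Main

variable {N : ℕ} [NeZero N] {L : Type} [Field L] [Algebra ℚ L] [IsAlgClosed L]
  [FF1 L (FL N L)]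

/-- **NS** (generic points are non-special), from PLEXT. -/
theorem stmtNS (hPLEXT : StmtPLEXT N L) : StmtNS N L := by
  classical
  intro K hK
  obtain ⟨W, -, hellW, hRR⟩ := riemann_roch (K := L) (F := FL N L)
  rw [genusFF_eq_genusR] at hellW
  simp only [genusFF_eq_genusR] at hRR
  have hT : (tval '' (W.support : Set (Place L (FL N L)))).Countable :=
    (W.support.finite_toSet.image _).countable
  refine ⟨aclo K (tval '' (W.support : Set (Place L (FL N L)))), le_aclo K _,
    aclo_algClosed K _, countable_aclo hK hT, ?_⟩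
  intro P hP
  have hW : DivRationalOver (aclo K (tval '' (W.support : Set (Place L (FL N L))))) W :=
    fun Q hQ => isRationalOver_of_tval_mem _ (aclo_algClosed K _) Q
      (subset_aclo K _ ⟨Q, hQ, rfl⟩)
  refine ell_sumPrim_eq_one W hellW hRR P ?_
  intro i hi h1
  have hK'a : AlgClosedIn (aclo (aclo K (tval '' (W.support : Set (Place L (FL N L)))))
      ((fun j => tval (P j)) '' {j : Fin (gL N L) | j.val < i})) := aclo_algClosed _ _
  have hDrat : DivRationalOver (aclo (aclo K (tval '' (W.support : Set (Place L (FL N L)))))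
      ((fun j => tval (P j)) '' {j : Fin (gL N L) | j.val < i})) (nsDiv W P i) := by
    intro v hv
    rcases mem_support_nsDiv hv with h | ⟨j, hj, rfl⟩
    · exact fun u c hc => le_aclo _ _ (hW v h u c hc)
    · exact isRationalOver_of_tval_mem _ hK'a (P j) (subset_aclo _ _ ⟨j, hj, rfl⟩)
  have hτ : tval (P ⟨i, hi⟩) ∉ aclo (aclo K (tval '' (W.support : Set (Place L (FL N L)))))
      ((fun j => tval (P j)) '' {j : Fin (gL N L) | j.val < i}) :=
    not_mem_aclo_of_algebraicIndependent hP.2 (s := {j : Fin (gL N L) | j.val < i})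
      (i := ⟨i, hi⟩) (fun h => lt_irrefl i h)
  exact ell_sub_prim_add_one hPLEXT _ hK'a (nsDiv W P i) hDrat (P ⟨i, hi⟩) (hP.1 ⟨i, hi⟩) hτ h1

end Main

end Fermat.Agent.S17.H830

end
end
-- ===== PACK-END S17/H830/NSMain.lean

-- ===== PACK-BEGIN S17/H560/GenStab.lean
section



/-!
# S17 / G-DIV, algebraic line: piece GENSTAB (helper560)

`stmtGENSTAB : StmtRIG N L → StmtCUSPRAT N L → StmtZRAT N L → StmtGENSTAB N L`

The set of generic classes over `K₀` is stable under `n •` (`n ≠ 0`) and under translation by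
classes of `K₀`-rational divisors.

Proof (`coord/S17-GDIV.md` v2, origin/helper797).  Let `ξ = cls P`, `P` generic over `K₀`,
`ℓ(ΣP_i) = 1`, and `z = n ξ` or `z = [B] + ξ`.  `E_z := minRep z` (`m ≤ g` points), `S := supp E_z`,
`K₁ :=` the relative algebraic closure in `L` of `K₀(tval Q : Q ∈ S)`.  By ZRAT all `Q ∈ S` are
rational over `K₁`; RIG gives that `minRep ξ = ΣP_i` is rational over `K₁`, so `tval P_i ∈ K₁`.
Steinitz exchange (Mathlib's algebraic-independence matroid): `g` independent elements in the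
algebraic closure of `K₀(≤ g elements)` force `#S = g`, all multiplicities `1`, `t` finite on `S`
and the `tval Q`, `Q ∈ S`, algebraically independent over `K₀`.  Hence `z = cls Q ∈ Gen K₀`.

Mathlib-only parts: `steinitz560`, `relClosure560`.
-/

set_option autoImplicit false

noncomputable section

open AlgebraicCurve ModularCurve

namespace Fermat.Agent.S17.H560

open Fermat.Agent.Lib.RR Fermat.Agent.S17.H680 Fermat.Agent.S17.GDiv

section Steinitz

open AlgebraicIndependent

variable {L : Type*} [Field L]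

/-- **Steinitz exchange**, in the form needed: if `g` elements, algebraically independent over
`K₀`, are algebraic over `K₀(T(S))` with `#S ≤ g`, then `#S = g`, `T` is injective on `S` and
the `T s`, `s ∈ S`, are algebraically independent over `K₀`. -/
theorem steinitz560 (K₀ : Subfield L) {ι σ : Type*} [Fintype ι]
    (x : ι → L) (hx : AlgebraicIndependent K₀ x)
    (S : Finset σ) (T : σ → L) (hcard : S.card ≤ Fintype.card ι)
    (hxT : ∀ i, IsAlgebraic (Algebra.adjoin K₀ (T '' (S : Set σ))) (x i)) :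
    S.card = Fintype.card ι ∧ Set.InjOn T (S : Set σ) ∧
      AlgebraicIndependent K₀ (fun s : S => T s) := by
  classical
  set M := matroid K₀ L with hM
  have hI : M.Indep (Set.range x) := matroid_indep_iff.mpr hx.to_subtype_range
  have hsub : Set.range x ⊆ M.closure (T '' (S : Set σ)) := by
    rintro _ ⟨i, rfl⟩
    rw [hM, matroid_closure_eq, SetLike.mem_coe, Subalgebra.mem_algebraicClosure]
    exact hxT i
  have h1 : (Set.range x).encard ≤ M.eRk (T '' (S : Set σ)) := by
    have := hI.encard_le_eRk_of_subset hsub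
    rwa [Matroid.eRk_closure_eq] at this
  have h2 : M.eRk (T '' (S : Set σ)) ≤ (T '' (S : Set σ)).encard := M.eRk_le_encard _
  have h3 : (T '' (S : Set σ)).encard ≤ (S : Set σ).encard := Set.encard_image_le _ _
  have h4 : (S : Set σ).encard = S.card := Set.encard_coe_eq_coe_finsetCard S
  have h5 : (Set.range x).encard = Fintype.card ι := by
    rw [← Set.image_univ, hx.injective.injOn.encard_image, Set.encard_univ,
      ENat.card_eq_coe_fintype_card]
  have h6 : ((S.card : ℕ) : ℕ∞) ≤ (Fintype.card ι : ℕ∞) := by exact_mod_cast hcard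
  have e1 : (S : Set σ).encard = (Set.range x).encard := by
    apply le_antisymm
    · rw [h4, h5]; exact h6
    · exact h1.trans (h2.trans h3)
  have e2 : (T '' (S : Set σ)).encard = (S : Set σ).encard := by
    apply le_antisymm h3
    rw [e1]; exact h1.trans h2
  have e3 : M.eRk (T '' (S : Set σ)) = (T '' (S : Set σ)).encard := by
    apply le_antisymm h2
    rw [e2, e1]; exact h1
  have hinj : Set.InjOn T (S : Set σ) := S.finite_toSet.injOn_of_encard_image_eq e2
  have hind : M.Indep (T '' (S : Set σ)) :=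
    (Matroid.indep_iff_eRk_eq_encard_of_finite (S.finite_toSet.image T)).mpr e3
  refine ⟨?_, hinj, ?_⟩
  · have := e1
    rw [h4, h5] at this
    exact_mod_cast this
  · have hind' : AlgebraicIndependent K₀ (fun a : (T '' (S : Set σ)) => (a : L)) :=
      matroid_indep_iff.mp hind
    let f : S → ↥(T '' (S : Set σ)) := fun s => ⟨T s, Set.mem_image_of_mem T s.2⟩
    have hf : Function.Injective f := by
      intro a b hab
      apply Subtype.ext
      exact hinj a.2 b.2 (congrArg Subtype.val hab)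
    exact hind'.comp f hf

end Steinitz


section RelClosure

variable {L : Type*} [Field L]

/-- The relative algebraic closure in `L` of `K₀(s)`, as a subfield of `L`. -/
def relClosure560 (K₀ : Subfield L) (s : Set L) : Subfield L where
  carrier := {a | IsAlgebraic (Algebra.adjoin K₀ s) a}
  mul_mem' := fun ha hb => IsAlgebraic.mul ha hb
  one_mem' := isAlgebraic_one
  add_mem' := fun ha hb => IsAlgebraic.add ha hb
  zero_mem' := isAlgebraic_zero
  neg_mem' := fun ha => IsAlgebraic.neg ha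
  inv_mem' := fun _ ha => IsAlgebraic.inv ha

theorem mem_relClosure560 {K₀ : Subfield L} {s : Set L} {a : L} :
    a ∈ relClosure560 K₀ s ↔ IsAlgebraic (Algebra.adjoin K₀ s) a := Iff.rfl

theorem le_relClosure560 (K₀ : Subfield L) (s : Set L) : K₀ ≤ relClosure560 K₀ s := by
  intro a ha
  rw [mem_relClosure560]
  exact isAlgebraic_algebraMap
    (⟨a, (Algebra.adjoin K₀ s).algebraMap_mem ⟨a, ha⟩⟩ : Algebra.adjoin K₀ s)

theorem subset_relClosure560 (K₀ : Subfield L) (s : Set L) :
    s ⊆ (relClosure560 K₀ s : Set L) := by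
  intro a ha
  exact isAlgebraic_algebraMap (⟨a, Algebra.subset_adjoin ha⟩ : Algebra.adjoin K₀ s)

theorem relClosure560_closed (K₀ : Subfield L) (s : Set L) (x : L)
    (hx : IsAlgebraic (relClosure560 K₀ s) x) : x ∈ relClosure560 K₀ s := by
  rw [mem_relClosure560]
  set A' := Subalgebra.algebraicClosure (Algebra.adjoin K₀ s) L with hA'
  have hmem : ∀ a : L, a ∈ relClosure560 K₀ s ↔ a ∈ A' := fun a => by
    rw [mem_relClosure560, hA', Subalgebra.mem_algebraicClosure]
  let f : relClosure560 K₀ s ≃+* A' :=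
    { toFun := fun a => ⟨a.1, (hmem a.1).mp a.2⟩
      invFun := fun a => ⟨a.1, (hmem a.1).mpr a.2⟩
      left_inv := fun _ => rfl
      right_inv := fun _ => rfl
      map_mul' := fun _ _ => rfl
      map_add' := fun _ _ => rfl }
  have h1 : IsAlgebraic A' x := by
    have := (isAlgebraic_ringHom_iff_of_comp_eq (R := relClosure560 K₀ s) (S := A') (A := L)
      (B := L) f (RingHom.id L) Function.injective_id (by ext a; rfl) (a := x)).mpr hx
    simpa using this
  exact h1.restrictScalars (Algebra.adjoin K₀ s)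

end RelClosure


section Laurent

variable (N : ℕ) [NeZero N] (L : Type) [Field L] [Algebra ℚ L]

theorem coe_tL560 : ((tL N L : FL N L) : LaurentSeries L) = coeffEmb L jq := rfl

theorem coe_tL_sub560 (c : L) :
    ((tL N L - algebraMap L (FL N L) c : FL N L) : LaurentSeries L)
      = coeffEmb L jq - algebraMap L (LaurentSeries L) c := rfl

theorem coeff_tL_sub560 (c : L) (m : ℤ) :
    ((tL N L - algebraMap L (FL N L) c : FL N L) : LaurentSeries L).coeff m
      = algebraMap ℚ L (jq.coeff m) - if m = 0 then c else 0 := by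
  rw [coe_tL_sub560, HahnSeries.coeff_sub, coeffEmb_coeff, algebraMap_laurentSeries_eq_single]
  by_cases hm : m = 0
  · subst hm; simp
  · rw [HahnSeries.coeff_single_of_ne hm, if_neg hm]

theorem order_tL_sub_neg560 (c : L) :
    ((tL N L - algebraMap L (FL N L) c : FL N L) : LaurentSeries L).order < 0 := by
  have h : ((tL N L - algebraMap L (FL N L) c : FL N L) : LaurentSeries L).order ≤ -1 :=
    HahnSeries.order_le_of_coeff_ne_zero (by
      rw [coeff_tL_sub560, coeff_jq_neg_one, map_one, if_neg (by norm_num), sub_zero]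
      exact one_ne_zero)
  omega

theorem tL_sub_ne_zero560 (c : L) : tL N L - algebraMap L (FL N L) c ≠ 0 := by
  intro h
  have := order_tL_sub_neg560 N L c
  rw [h] at this
  simp at this

theorem tL_ne_zero560 : tL N L ≠ 0 := by
  have := tL_sub_ne_zero560 N L 0
  simpa using this

theorem coeffsIn_tL_sub560 (K₁ : Subfield L) {c : L} (hc : c ∈ K₁) :
    CoeffsIn K₁ (tL N L - algebraMap L (FL N L) c) := by
  intro m
  rw [coeff_tL_sub560]
  apply K₁.sub_mem
  · rw [eq_ratCast]; exact SubfieldClass.ratCast_mem K₁ _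
  · split_ifs
    · exact hc
    · exact K₁.zero_mem

theorem coeffsIn_tL560 (K₁ : Subfield L) : CoeffsIn K₁ (tL N L) := by
  have := coeffsIn_tL_sub560 N L K₁ K₁.zero_mem
  simpa using this

end Laurent

section Places

variable {N : ℕ} [NeZero N] {L : Type} [Field L] [Algebra ℚ L] [FF1 L (FL N L)]

omit [FF1 L (FL N L)] in
/-- `t = j` has a pole at the cusp. -/
theorem not_hasValue_cusp560 (c : L) : ¬ HasValue (cuspL N L) (tL N L) c := by
  rintro (h | h)
  · exact tL_sub_ne_zero560 N L c h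
  · have hmem : tL N L - algebraMap L (FL N L) c ∈ (cuspL N L).toValuationSubring :=
      mem_of_ord_nonneg _ h.le
    have h0 : 0 ≤ ((tL N L - algebraMap L (FL N L) c : FL N L) : LaurentSeries L).order :=
      (mem_cuspInf (modularFunctionFieldFull N) (exists_order_neg N L) _).mp hmem
    have := order_tL_sub_neg560 N L c
    omega

omit [FF1 L (FL N L)] in
theorem hasValue_tval560 {P : Place L (FL N L)} (h : ∃ c : L, HasValue P (tL N L) c) :
    HasValue P (tL N L) (tval P) := by
  classical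
  unfold tval
  rw [dif_pos h]
  exact h.choose_spec

omit [FF1 L (FL N L)] in
theorem tval_eq_zero560 {P : Place L (FL N L)} (h : ¬ ∃ c : L, HasValue P (tL N L) c) :
    tval P = 0 := by
  classical
  unfold tval
  rw [dif_neg h]

theorem ord_tL_neg560 {P : Place L (FL N L)} (h : ¬ ∃ c : L, HasValue P (tL N L) c) :
    P.ord (tL N L) < 0 := by
  by_contra hn
  push Not at hn
  obtain ⟨c, hc⟩ := exists_const_sub P (deg_eq_one P) hn
  exact h ⟨c, hc⟩

end Places


section Rational

variable {N : ℕ} [NeZero N] {L : Type} [Field L] [Algebra ℚ L] [FF1 L (FL N L)]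

/-- With ZRAT: a place whose `t`-value lies in `K₁` is rational over `K₁`. -/
theorem isRationalOver_of_tval_mem560 (hZRAT : StmtZRAT N L) {K₁ : Subfield L}
    (hK₁ : AlgClosedIn K₁) {P : Place L (FL N L)} (h : tval P ∈ K₁) : IsRationalOver K₁ P := by
  by_cases hfin : ∃ c : L, HasValue P (tL N L) c
  · refine hZRAT K₁ hK₁ _ (coeffsIn_tL_sub560 N L K₁ h) P ?_
    rcases hasValue_tval560 hfin with h0 | hpos
    · exact absurd h0 (tL_sub_ne_zero560 N L _)
    · exact hpos.ne'
  · exact hZRAT K₁ hK₁ _ (coeffsIn_tL560 N L K₁) P (ord_tL_neg560 hfin).ne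

omit [FF1 L (FL N L)] in
theorem tval_mem_of_isRationalOver560 {K₁ : Subfield L} {P : Place L (FL N L)}
    (h : IsRationalOver K₁ P) : tval P ∈ K₁ := by
  by_cases hfin : ∃ c : L, HasValue P (tL N L) c
  · exact h (jQ N) (tval P) (hasValue_tval560 hfin)
  · rw [tval_eq_zero560 hfin]; exact K₁.zero_mem

end Rational

section MinRep

variable {N : ℕ} [NeZero N] {L : Type} [Field L] [Algebra ℚ L] [FF1 L (FL N L)]

omit [NeZero N] [FF1 L (FL N L)] in
theorem sumPl_apply560 {m : ℕ} (P : Fin m → Place L (FL N L)) (v : Place L (FL N L)) :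
    sumPl P v = ∑ i, prim (P i) v := by
  simp [sumPl, Finsupp.finsetSum_apply]

omit [NeZero N] [FF1 L (FL N L)] in
theorem sumPl_nonneg560 {m : ℕ} (P : Fin m → Place L (FL N L)) : 0 ≤ sumPl P := by
  rw [Finsupp.le_def]
  intro v
  rw [sumPl_apply560]
  refine Finset.sum_nonneg fun i _ => ?_
  by_cases h : v = P i
  · subst h; simp
  · rw [prim_apply_of_ne h]

omit [NeZero N] [FF1 L (FL N L)] in
theorem sumPl_apply_pos560 {m : ℕ} (P : Fin m → Place L (FL N L)) (i : Fin m) :
    0 < sumPl P (P i) := by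
  rw [sumPl_apply560]
  have h1 : prim (P i) (P i) ≤ ∑ j, prim (P j) (P i) :=
    Finset.single_le_sum (f := fun j => prim (P j) (P i)) (fun j _ => by
      by_cases h : P i = P j
      · rw [h]; simp
      · rw [prim_apply_of_ne h]) (Finset.mem_univ i)
  rw [prim_apply_self] at h1
  omega

omit [NeZero N] [FF1 L (FL N L)] in
theorem sumPl_apply_eq_zero560 {m : ℕ} (P : Fin m → Place L (FL N L)) (v : Place L (FL N L))
    (hv : ∀ i, P i ≠ v) : sumPl P v = 0 := by
  rw [sumPl_apply560]
  exact Finset.sum_eq_zero fun i _ => prim_apply_of_ne (fun h => hv i h.symm)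

/-- The minimal representative of a generic non-special class is the generic divisor itself. -/
theorem minRep_cls560 {K₀ : Subfield L} {P : Fin (gL N L) → Place L (FL N L)}
    (hP : IsGenericTuple K₀ P) (hell : ell (sumPl P) = 1) :
    minDeg (cuspL N L) (cls P) = gL N L ∧ minRep (cuspL N L) (cls P) = sumPl P := by
  set x := cls P with hx
  set m' := minDeg (cuspL N L) x with hm'
  set E' := minRep (cuspL N L) x with hE'
  have hle : m' ≤ gL N L := minDeg_le_genus (cuspL N L) x
  have h1 : Pic0.mk (minDiv (cuspL N L) x)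
      = Pic0.mk ⟨sumPl P - (gL N L) • prim (cuspL N L), degree_sumPl_sub P⟩ :=
    mk_minDiv (cuspL N L) x
  obtain ⟨h, hh, e⟩ := mk_eq_mk_iff'.mp h1
  have e1 : sumPl P - (gL N L) • prim (cuspL N L)
      = E' - m' • prim (cuspL N L) + divOf h hh := e
  have e2 : sumPl P = E' + (gL N L - m') • prim (cuspL N L) + divOf h hh := by
    have : ((gL N L - m' : ℕ) • prim (cuspL N L) : Divisor L (FL N L))
        = (gL N L) • prim (cuspL N L) - m' • prim (cuspL N L) := by
      rw [sub_nsmul _ hle, sub_eq_add_neg]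
    rw [this]
    have := e1
    rw [sub_eq_iff_eq_add] at this
    rw [this]; abel
  have hE'' : 0 ≤ E' + (gL N L - m') • prim (cuspL N L) := by
    apply add_nonneg (minRep_nonneg _ _)
    apply nsmul_nonneg
    rw [Finsupp.le_def]
    intro v
    by_cases hv : v = cuspL N L
    · subst hv; simp
    · rw [prim_apply_of_ne hv]; simp
  have hinv : h⁻¹ ∈ riemannRochSpace (sumPl P) := by
    rw [mem_L_iff_nonneg (inv_ne_zero hh), divOf_inv h hh, e2]
    simpa using hE''
  have hone : (1 : FL N L) ∈ riemannRochSpace (sumPl P) := by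
    rw [mem_L_iff_nonneg one_ne_zero]
    have : divOf (K := L) (1 : FL N L) one_ne_zero = 0 := by
      ext v; simp [divOf_apply]
    rw [this, add_zero]
    exact sumPl_nonneg560 P
  have hdiv : divOf (K := L) h hh = 0 := by
    have := divOf_eq_of_ell_eq_one hell (inv_ne_zero hh) one_ne_zero hinv hone
    rw [divOf_inv] at this
    have h0 : divOf (K := L) (1 : FL N L) one_ne_zero = 0 := by
      ext v; simp [divOf_apply]
    rw [h0, neg_eq_zero] at this
    exact this
  rw [hdiv, add_zero] at e2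
  have hcusp : ∀ i, P i ≠ cuspL N L := by
    intro i hi
    obtain ⟨c, hc⟩ := hP.1 i
    rw [hi] at hc
    exact not_hasValue_cusp560 c hc
  have e3 := congrArg (fun D : Divisor L (FL N L) => D (cuspL N L)) e2
  simp only [Finsupp.add_apply, Finsupp.smul_apply, prim_apply_self] at e3
  rw [sumPl_apply_eq_zero560 P _ hcusp, hE', minRep_apply_infty] at e3
  have hm : m' = gL N L := by
    have : ((gL N L - m' : ℕ) : ℤ) = 0 := by
      have := e3
      simp at this
      omega
    omega
  refine ⟨hm, ?_⟩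
  rw [e2, hm]
  simp

end MinRep


section Main

variable {N : ℕ} [NeZero N] {L : Type} [Field L] [Algebra ℚ L] [FF1 L (FL N L)]

omit [NeZero N] in
/-- A nonnegative divisor has at most `deg` points in its support; in case of equality all
multiplicities are `1`. -/
theorem card_support_le_degree560 {E : Divisor L (FL N L)} (hE : 0 ≤ E) :
    (E.support.card : ℤ) ≤ Divisor.degree E ∧
      ((E.support.card : ℤ) = Divisor.degree E → ∀ v ∈ E.support, E v = 1) := by
  have hpos : ∀ v ∈ E.support, 1 ≤ E v := by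
    intro v hv
    have h0 : (0 : ℤ) ≤ E v := by simpa using Finsupp.le_def.mp hE v
    have h1 : E v ≠ 0 := Finsupp.mem_support_iff.mp hv
    omega
  have hdeg : Divisor.degree E = ∑ v ∈ E.support, E v := by
    rw [degree_eq_sum]
    refine Finset.sum_congr rfl fun v _ => ?_
    rw [deg_eq_one v]; simp
  have hcard : (E.support.card : ℤ) = ∑ _v ∈ E.support, (1 : ℤ) := by simp
  constructor
  · rw [hdeg, hcard]
    exact Finset.sum_le_sum hpos
  · intro h v hv
    rw [hdeg, hcard] at h
    have h2 : ∑ v ∈ E.support, (E v - 1) = 0 := by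
      rw [Finset.sum_sub_distrib, ← h, sub_self]
    have h3 := (Finset.sum_eq_zero_iff_of_nonneg (fun w hw => by
      have := hpos w hw; omega)).mp h2 v hv
    omega

omit [NeZero N] [FF1 L (FL N L)] in
/-- A divisor all of whose multiplicities are `1` is the sum of the places of its support. -/
theorem eq_sum_prim_of_apply_eq_one560 {E : Divisor L (FL N L)}
    (h : ∀ v ∈ E.support, E v = 1) : E = ∑ v ∈ E.support, prim v := by
  conv_lhs => rw [← Finsupp.sum_single E]
  rw [Finsupp.sum]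
  refine Finset.sum_congr rfl fun v hv => ?_
  rw [h v hv]
  rfl

omit [NeZero N] [FF1 L (FL N L)] in
theorem divRationalOver_zero560 (K₁ : Subfield L) :
    DivRationalOver K₁ (0 : Divisor L (FL N L)) := by
  intro P hP
  simp at hP

/-- **The core of GENSTAB.**  If `n • ξ = z - [B₀]` with `ξ` generic (and non-special) over `K₀`,
`n ≠ 0`, `B₀` rational over `K₀`, then `z` is generic over `K₀`. -/
theorem mem_Gen_of560 (hRIG : StmtRIG N L) (hCUSP : StmtCUSPRAT N L) (hZRAT : StmtZRAT N L)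
    {K₀ : Subfield L} {P : Fin (gL N L) → Place L (FL N L)} (hP : IsGenericTuple K₀ P)
    (hell : ell (sumPl P) = 1) (z : Pic0 L (FL N L)) (n : ℕ) (hn : n ≠ 0)
    (B₀ : Divisor.degZero (K := L) (F := FL N L))
    (hB₀ : DivRationalOver K₀ (B₀ : Divisor L (FL N L)))
    (hz : n • cls P = z - Pic0.mk B₀) : z ∈ Gen N L K₀ := by
  classical
  set E := minRep (cuspL N L) z with hE
  set S := E.support with hS
  set K₁ := relClosure560 K₀ ((fun Q : Place L (FL N L) => tval Q) '' (S : Set _)) with hK₁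
  have hK₁c : AlgClosedIn K₁ := relClosure560_closed K₀ _
  have hK₀₁ : K₀ ≤ K₁ := le_relClosure560 K₀ _
  -- the points of `E` are rational over `K₁`
  have hSrat : ∀ Q ∈ S, IsRationalOver K₁ Q := fun Q hQ =>
    isRationalOver_of_tval_mem560 hZRAT hK₁c
      (subset_relClosure560 K₀ _ (Set.mem_image_of_mem _ (Finset.mem_coe.mpr hQ)))
  -- the divisor `B' = E - m ∞ - B₀`
  have hB' : DivRationalOver K₁
      ((minDiv (cuspL N L) z - B₀ : Divisor.degZero (K := L) (F := FL N L)) :
        Divisor L (FL N L)) := by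
    intro Q hQ
    rw [AddSubgroup.coe_sub, coe_minDiv, Finsupp.mem_support_iff] at hQ
    by_cases h1 : Q ∈ S
    · exact hSrat Q h1
    by_cases h2 : Q = cuspL N L
    · rw [h2]; exact hCUSP K₁
    by_cases h3 : Q ∈ (B₀ : Divisor L (FL N L)).support
    · exact fun u c hc => hK₀₁ (hB₀ Q h3 u c hc)
    · exfalso
      apply hQ
      have e1 : E Q = 0 := by
        rw [hS, Finsupp.mem_support_iff, not_not] at h1
        exact h1
      have e3 : (B₀ : Divisor L (FL N L)) Q = 0 := by
        rw [Finsupp.mem_support_iff, not_not] at h3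
        exact h3
      rw [Finsupp.sub_apply, Finsupp.sub_apply, Finsupp.smul_apply, prim_apply_of_ne h2, e3,
        ← hE, e1]
      simp
  have hmk : n • cls P = Pic0.mk (minDiv (cuspL N L) z - B₀) := by
    have : Pic0.mk (minDiv (cuspL N L) z - B₀)
        = Pic0.mk (minDiv (cuspL N L) z) - Pic0.mk B₀ := rfl
    rw [this, mk_minDiv, hz]
  have hrat := hRIG K₁ hK₁c (cls P) n hn _ hB' hmk
  obtain ⟨-, hmr⟩ := minRep_cls560 hP hell
  rw [hmr] at hrat
  have hPi : ∀ i, tval (P i) ∈ K₁ := fun i =>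
    tval_mem_of_isRationalOver560
      (hrat (P i) (Finsupp.mem_support_iff.mpr (sumPl_apply_pos560 P i).ne'))
  -- Steinitz
  have hEnn : 0 ≤ E := minRep_nonneg _ _
  obtain ⟨hc1, hc2⟩ := card_support_le_degree560 hEnn
  have hdegE : Divisor.degree E = minDeg (cuspL N L) z := degree_minRep _ _
  have hmle : minDeg (cuspL N L) z ≤ gL N L := minDeg_le_genus _ _
  have hcard : S.card ≤ Fintype.card (Fin (gL N L)) := by
    rw [Fintype.card_fin]
    have : (S.card : ℤ) ≤ (gL N L : ℤ) := by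
      rw [hdegE] at hc1
      exact hc1.trans (by exact_mod_cast hmle)
    exact_mod_cast this
  obtain ⟨hScard, -, hind⟩ := steinitz560 K₀ (fun i => tval (P i)) hP.2 S
    (fun Q : Place L (FL N L) => tval Q) hcard (fun i => mem_relClosure560.mp (hPi i))
  rw [Fintype.card_fin] at hScard
  have hmg : minDeg (cuspL N L) z = gL N L := by
    have h1 : (S.card : ℤ) ≤ (minDeg (cuspL N L) z : ℤ) := by rw [← hdegE]; exact hc1
    rw [hScard] at h1
    have : gL N L ≤ minDeg (cuspL N L) z := by exact_mod_cast h1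
    omega
  have hmult : ∀ v ∈ S, E v = 1 := hc2 (by rw [hdegE, hmg, hScard])
  -- `t` is finite on `S`
  have hfin : ∀ Q ∈ S, ∃ c : L, HasValue Q (tL N L) c := by
    intro Q hQ
    by_contra hnf
    have h0 : tval Q = 0 := tval_eq_zero560 hnf
    have htr : Transcendental K₀ (tval Q) := hind.transcendental ⟨Q, hQ⟩
    rw [h0] at htr
    exact htr isAlgebraic_zero
  -- enumerate `S`
  let e : Fin (gL N L) ≃ S := (Finset.equivFinOfCardEq hScard).symm
  refine ⟨fun i => (e i).1, ⟨fun i => hfin _ (e i).2, hind.comp e e.injective⟩, ?_⟩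
  have hsum : sumPl (fun i => ((e i).1 : Place L (FL N L))) = E := by
    rw [eq_sum_prim_of_apply_eq_one560 hmult, sumPl]
    rw [← Finset.sum_coe_sort S (fun v => prim v)]
    exact Equiv.sum_comp e (fun s : S => prim (s : Place L (FL N L)))
  rw [← mk_minDiv (cuspL N L) z, cls]
  congr 1
  apply Subtype.ext
  rw [coe_minDiv]
  show minRep (cuspL N L) z - minDeg (cuspL N L) z • prim (cuspL N L)
    = sumPl (fun i => ((e i).1 : Place L (FL N L))) - (gL N L) • prim (cuspL N L)
  rw [hsum, hmg]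

/-- **GENSTAB**: the set of generic classes over `K₀` is stable under `n •` and under translation
by classes rational over `K₀` (from RIG, CUSPRAT and ZRAT). -/
theorem stmtGENSTAB (hRIG : StmtRIG N L) (hCUSP : StmtCUSPRAT N L) (hZRAT : StmtZRAT N L) :
    StmtGENSTAB N L := by
  intro K₀ _ hns ξ hξ
  obtain ⟨P, hP, rfl⟩ := hξ
  have hell := hns P hP
  refine ⟨fun n hn => ?_, fun B hB => ?_⟩
  · refine mem_Gen_of560 hRIG hCUSP hZRAT hP hell (n • cls P) n hn 0 ?_ ?_
    · exact divRationalOver_zero560 K₀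
    · simp
  · refine mem_Gen_of560 hRIG hCUSP hZRAT hP hell (Pic0.mk B + cls P) 1 one_ne_zero B hB ?_
    rw [one_nsmul]; abel

end Main

end Fermat.Agent.S17.H560

end
end
-- ===== PACK-END S17/H560/GenStab.lean

-- ===== PACK-BEGIN A2/Mod/H372/S3Final.lean
section








/-!
# A2 / MODASM sub-assembly S3 (ordinary double points), UNCONDITIONAL (helper372)

`s3 : S3Statement P E M q w` (VERBATIM `A2/Mod/Asm.lean`), from `s3_of_leaves` with the leaves
L4, L5 (`H553`), L7 (`H900`), L8 (`H816`), L11 (`H378`), L12 (`H96`) and the sub-assembly S2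
(`H142.s2`) taken from main.
-/

set_option autoImplicit false
set_option synthInstance.maxHeartbeats 400000
set_option maxHeartbeats 1600000

namespace Fermat.Agent.A2.Mod.H372

/-- **MODASM sub-assembly S3** (`(p∞ ⊔ p₀).IsRadical`: the two components of the special fibre
meet in ordinary double points). -/
theorem s3 (P : ValuationSubring _root_.Fermat.Agent.A2.Mod.Qb) (E : IntermediateField ℚ _root_.Fermat.Agent.A2.Mod.Qb) (M q : ℕ) [NeZero M]
    [NeZero q] (w : _root_.Fermat.Agent.A2.Mod.RE P E) : S3Statement P E M q w :=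
  s3_of_leaves P E M q w (H553.frickeExists E) (H553.frickeCompat E M q)
    (H900.frickeStable P E M q w) (H816.deg E M q) (H378.resInf P E M q w)
    (H96.kron P E M q w) (H142.s2 P E M q w)

end Fermat.Agent.A2.Mod.H372

end
-- ===== PACK-END A2/Mod/H372/S3Final.lean

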