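import Mathlib
import Fermat.Prelude.Def_ModularCurve_ArithmeticGalois
import Fermat.Agent.Pack.S59C.E4L1
import Fermat.Agent.Pack.S43GC.G0E13L2
import Fermat.Agent.Pack.S43MC.G0E26L1
import Fermat.Agent.Pack.S59C.E1L3
import Fermat.Agent.Pack.S59C.E4L3
import Fermat.Agent.Pack.S59C.E3L0
import Fermat.Agent.Pack.S43MC.G0E24L2
import Fermat.Agent.Pack.S43MC.G0E26L0
import Fermat.Agent.Pack.S43MC.G0E20L2
import Fermat.Agent.Pack.S44C.G0E27L3
import Fermat.Agent.Pack.S59C.E9L2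
import Fermat.Agent.Pack.S44C.G0E1L2
import Fermat.Agent.Pack.S44C.G0E1L3
import Fermat.Agent.Pack.S59C.E8L0
import Fermat.Agent.Pack.S59C.E0L1
import Fermat.Agent.Pack.S59C.E2L3
import Fermat.Agent.Pack.S44C.G0E24L2
import Fermat.Agent.Pack.S43MC.G0E26L3
import Fermat.Agent.Pack.S43C.E1L3
import Fermat.Agent.Pack.S59C.E6L3
import Fermat.Agent.Pack.S43C.E1L2
import Fermat.Agent.Pack.S43MC.G0E20L0
import Fermat.Agent.Pack.S43C.E1L1
import Fermat.Agent.Pack.S59C.E9L1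
import Fermat.Agent.Pack.S59C.E9L0

set_option linter.all false

-- ===== PACK-BEGIN S59/Arch/AsmNMLemmas.lean
section






/-!
# Row S59, cell NM — lemmas for the assembly `Arch.nonMinStepPlusH_of_leaves` (helper239)

* `card_quot_le_of_le239`, `ideal_eq_of_le_of_card_le239`, `finite_quot_of_ne_bot239`,
  `card_quot_span_mul_ideal239` : cardinalities of quotients of a DVR with finite residue field;
* `exists_restriction239` : the restriction map `T_{Σ'} → T_Σ` between two Hecke packages whose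
  residual characters are related by `H765.oldRestrict` (general `Σ ⊆ Σ'`).
-/

set_option autoImplicit false

open Polynomial IsLocalRing

namespace Fermat.Agent.S59.Arch

open Fermat.Agent.S59.TW Fermat.Agent.S59.TW.H959 Fermat.Agent.S59.H765 CuspForm

section Card

variable {𝒪 : Type} [CommRing 𝒪]

/-- `#(𝒪/J) ≤ #(𝒪/I)` for `I ≤ J`, `𝒪/I` finite. -/
theorem card_quot_le_of_le239 {I J : Ideal 𝒪} (hIJ : I ≤ J) [Finite (𝒪 ⧸ I)] :
    Nat.card (𝒪 ⧸ J) ≤ Nat.card (𝒪 ⧸ I) :=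
  Nat.card_le_card_of_surjective _ (Ideal.Quotient.factor_surjective hIJ)

/-- `I ≤ J`, `𝒪/I` finite and `#(𝒪/I) ≤ #(𝒪/J)` imply `I = J`. -/
theorem ideal_eq_of_le_of_card_le239 {I J : Ideal 𝒪} (hIJ : I ≤ J) [Finite (𝒪 ⧸ I)]
    (hcard : Nat.card (𝒪 ⧸ I) ≤ Nat.card (𝒪 ⧸ J)) : I = J := by
  refine le_antisymm hIJ ?_
  haveI : Finite (𝒪 ⧸ J) := Finite.of_surjective _ (Ideal.Quotient.factor_surjective hIJ)
  have hbij : Function.Bijective (Ideal.Quotient.factor hIJ) := by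
    rw [Nat.bijective_iff_surjective_and_card]
    exact ⟨Ideal.Quotient.factor_surjective hIJ,
      le_antisymm hcard (card_quot_le_of_le239 hIJ)⟩
  intro x hx
  have h1 : Ideal.Quotient.factor hIJ (Ideal.Quotient.mk I x) = 0 := by
    rw [Ideal.Quotient.factor_mk]
    exact Ideal.Quotient.eq_zero_iff_mem.mpr hx
  have h2 : Ideal.Quotient.mk I x = 0 := hbij.1 (by rw [h1, map_zero])
  exact Ideal.Quotient.eq_zero_iff_mem.mp h2

variable [IsDomain 𝒪] [IsDiscreteValuationRing 𝒪]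

/-- In a DVR with finite residue field, `𝒪/I` is finite for `I ≠ ⊥`. -/
theorem finite_quot_of_ne_bot239 [Finite (ResidueField 𝒪)] {I : Ideal 𝒪} (hI : I ≠ ⊥) :
    Finite (𝒪 ⧸ I) := by
  obtain ⟨d, rfl⟩ := (IsPrincipalIdealRing.principal I).principal
  have hd : d ≠ 0 := by
    rintro rfl
    apply hI
    simp
  exact Fermat.Agent.S59.H427.finite_quotient_span_singleton_of_ne_zero hd

/-- `#(𝒪/(c)·J) = #(𝒪/(c)) · #(𝒪/J)` for `c ≠ 0`. -/
theorem card_quot_span_mul_ideal239 {c : 𝒪} (hc : c ≠ 0) (J : Ideal 𝒪) :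
    Nat.card (𝒪 ⧸ (Ideal.span {c} * J)) =
      Nat.card (𝒪 ⧸ Ideal.span {c}) * Nat.card (𝒪 ⧸ J) := by
  obtain ⟨d, rfl⟩ := (IsPrincipalIdealRing.principal J).principal
  have h := Fermat.Agent.S59.H360.card_quot_span_mul c d hc
  rw [show Ideal.span {c} * Submodule.span 𝒪 {d} = Ideal.span {c * d} from
    Ideal.span_singleton_mul_span_singleton c d]
  exact h

end Card

section Res

variable {p : ℕ}
  {𝒪 : Type} [CommRing 𝒪] [IsDomain 𝒪] [IsDiscreteValuationRing 𝒪]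
  [IsAdicComplete (maximalIdeal 𝒪) 𝒪]
  {ρbar : ResidualGaloisRep (ResidueField 𝒪)} {t : PType} {Smin Sig Sig' : Finset ℕ}

/-- The restriction map `T_{Σ'} → T_Σ` of a package whose residual character is
`θ ∘ oldRestrict`: it is `H765.resLocal`, hence onto. -/
theorem exists_restriction239
    [NeZero (wilesLevel p t Smin Sig)] [NeZero (wilesLevel p t Smin Sig')]
    (hp : LevelPair (wilesLevel p t Smin Sig) (wilesLevel p t Smin Sig')
      (↑Sig : Set ℕ) (↑Sig' : Set ℕ))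
    (hNS : ∀ q : ℕ, q.Prime → q ∣ wilesLevel p t Smin Sig → q ∈ Sig)
    (P : HeckePkg p 𝒪 ρbar t Smin Sig) (P' : HeckePkg p 𝒪 ρbar t Smin Sig')
    (hθ : P'.θ = P.θ.comp (oldRestrict hp)) :
    ∃ res : P'.T →ₐ[𝒪] P.T, IsRestriction P P' res ∧ Function.Surjective res := by
  haveI := P.integral
  obtain ⟨int, θ, i1, i2, i3, i4, i5, i6, H, hπ, hres, hcond⟩ := P'
  dsimp only at hθ
  subst hθ
  haveI := int
  refine ⟨resLocal hp 𝒪 P.θ, ?_, resLocal_surjective_of_datum hp 𝒪 P.θ hNS P.H P.hπ⟩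
  intro ℓ hℓ hℓN' hℓS' hℓN hℓS
  show resLocal hp 𝒪 P.θ (H.π _) = P.H.π _
  rw [hπ, P.hπ]
  exact resLocal_T hp 𝒪 P.θ hℓ hℓN' hℓS' hℓN hℓS

end Res

end Fermat.Agent.S59.Arch

end
-- ===== PACK-END S59/Arch/AsmNMLemmas.lean

-- ===== PACK-BEGIN S59/NMP/Spec.lean
section



/-!
# Row S59, cell NMP (flat `→` ordinary at `p`) — frozen interface (sub-architect helper583)

Board: `coord/S59-NMP.md`.  Goal of the cell: `Arch.NonMinPStatement`
(`RTIso .flat Smin Σ → RTIso .ord Smin Σ`), resp. its module form `NMP⁺` once the invariant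
`RTIsoPlus` of the cell NM is frozen.  Definitions only.

Notation: `N = wilesLevel p .flat Smin Σ` (prime to `p`), `N' = wilesLevel p .ord Smin Σ = N p`,
`T = heckeLocal N Σ 𝒪 θ`, `θ' = θ ∘ oldRestrict`, `T' = heckeLocal N' Σ 𝒪 θ'`,
`res = H765.resLocal : T' →ₐ[𝒪] T` (on main, surjective), `R = R_Σ^{flat}`, `R' = R_Σ^{ord}`.

Leaves (each a `Prop`; a leaf is DONE when `theorem foo : FooStatement` is on main):

* `OrdDatumStatement` (DATUM)  the Hecke–Galois datum `H'` on `T'`, of type `.ord`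
      (G4 + frozen S31, S33, S34 + determinant), and `ρ_{T'} ⊗_res T ≅ ρ_T` (Carayol rigidity).
* `SelStatement`      (SEL)    `#Φ_{R'}(x ∘ β) ≤ #Φ_R(x) · #(𝒪/(α² − 1))`, `α` = Frobenius on the
      unramified quotient of `ρ_x` at `p` (Wiles, Prop. 1.9 (iii)).
* `EtaStatement`      (ETA)    `#(𝒪/η_{T'}(π ∘ res)) ≥ #(𝒪/η_T(π)) · #(𝒪/(α² − 1))` and `α² ≠ 1`
      (Wiles, Ch. 2: Ihara's lemma at `p` + local–global compatibility at `p`).  RING FORM: true,
      but the Ihara route proves it only together with multiplicity one at the level `Σ`;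
      see `coord/S59-NMP.md` §3 for the module form (leaves IH, LGC).
* `RedTStatement`     (RED-T)  a deformation condition satisfied over `T` is satisfied by `ρ̄`.

Glue (`NMP/Glue.lean`): `nonMinP_of : S53 → S54 → SigmaCond → RED-T → DATUM → SEL → ETA →
Arch.NonMinPStatement`.
-/

set_option autoImplicit false

open Polynomial IsLocalRing

namespace Fermat.Agent.S59.NMP

open CuspForm Fermat.Agent.S59.Arch Fermat.Agent.S59.H765

/-- **The unramified Frobenius eigenvalue at `p`.**  `ρ` is ordinary at some place `P` over `p`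
with line `L`, and every Frobenius element at `P` acts on the unramified quotient `V/L` by the
scalar `α`. -/
def UnrFrobAt {A : Type} [CommRing A] [IsLocalRing A] (ρ : GaloisRepAdic A) (p : ℕ) (α : A) :
    Prop :=
  ∃ P : ValuationSubring (AlgebraicClosure ℚ), P.LiesOverPrime p ∧
    ∃ L : Submodule A ρ.V,
      (∃ b : Module.Basis (Fin 2) A ρ.V, L = A ∙ b 0) ∧
      (∀ σ ∈ P.decompositionSubgroup ℚ, ∀ v ∈ L, ρ.ρ σ v ∈ L) ∧
      (∀ σ ∈ P.inertiaSubgroupIn ℚ, ∀ v : ρ.V, ρ.ρ σ v - v ∈ L) ∧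
      (∀ σ : AlgebraicClosure ℚ ≃ₐ[ℚ] AlgebraicClosure ℚ, P.IsFrobeniusAt σ p →
        ∀ v : ρ.V, ρ.ρ σ v - α • v ∈ L)

/-- **RED-T.**  A deformation condition satisfied by a representation over a complete Noetherian
local `𝒪`-algebra `T` (with residue field `k`) is satisfied by (any model of) its residual
representation.  (`Arch.ResidualOfAdicStatement` is the case `T = 𝒪`; same proof.) -/
def RedTStatement : Prop :=
  ∀ (𝒪 : Type) [CommRing 𝒪] [IsDomain 𝒪] [IsDiscreteValuationRing 𝒪]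
    [IsAdicComplete (maximalIdeal 𝒪) 𝒪]
    (𝒟 : ∀ ⦃A : Type⦄ [CommRing A] [IsLocalRing A] [Algebra 𝒪 A], GaloisRepAdic A → Prop)
    (_h𝒟 : GaloisRep.IsDeformationCondition 𝒪 𝒟)
    (T : Type) [CommRing T] [IsLocalRing T] [IsNoetherianRing T]
    [IsAdicComplete (maximalIdeal T) T] [Algebra 𝒪 T] [IsLocalHom (algebraMap 𝒪 T)]
    (_hT : Function.Surjective (residue T ∘ algebraMap 𝒪 T))
    (ρ : GaloisRepAdic T) (ρbar : ResidualGaloisRep (ResidueField 𝒪)),
    ρ.residual.IsEquiv (ρbar.baseChangeAlong (ResidueField.map (algebraMap 𝒪 T))) → 𝒟 ρ →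
      𝒟 (GaloisRepAdic.ofResidualGaloisRep ρbar)

/-- **SEL** (the Selmer step at `p`).  `D`, `D'` universal deformation rings of type flat,
resp. ordinary; `β : R' → R` the canonical map; `x` an `𝒪`-point of `R` with finite cotangent
space; `α` the unramified Frobenius eigenvalue of `ρ_x` at `p`, `α² ≠ 1`.  Then the cotangent
space of `R'` at `x ∘ β` is finite and
`#Φ_{R'} ≤ #Φ_R · #(𝒪/(α² − 1))`.

[`Hom_𝒪(Φ, 𝒪/ϖⁿ)` = deformations of `ρ_x mod ϖⁿ` to `(𝒪/ϖⁿ)[ε]`; an ordinary deformation is an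
extension of `χ̃` (unramified) by `ε_cyc χ̃⁻¹`; the valuation component of its Kummer class lies in
`(𝒪/ϖⁿ)[α² − 1]` and vanishes iff the deformation is flat.] -/
def SelStatement : Prop :=
  ∀ (p : ℕ) [Fact p.Prime]
    (𝒪 : Type) [CommRing 𝒪] [IsDomain 𝒪] [IsDiscreteValuationRing 𝒪]
    [IsAdicComplete (maximalIdeal 𝒪) 𝒪] [Finite (ResidueField 𝒪)] [CharZero 𝒪]
    (ρbar : ResidualGaloisRep (ResidueField 𝒪)) (Smin : Finset ℕ)
    (_h : ResidualHyp p 𝒪 ρbar Smin) (Sig : Finset ℕ)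
    (_hSig : Smin ⊆ Sig) (_hSigP : ∀ q ∈ Sig, q.Prime)
    (_hord : (GaloisRepAdic.ofResidualGaloisRep ρbar).IsOrdinaryAt p)
    (D : GaloisRep.DeformationRingData 𝒪 ρbar (sigmaCond 𝒪 p .flat Smin Sig))
    (D' : GaloisRep.DeformationRingData 𝒪 ρbar (sigmaCond 𝒪 p .ord Smin Sig))
    (β : D'.R →ₐ[𝒪] D.R) (hβ : IsLocalHom (β : D'.R →+* D.R))
    (_hβρ : (D'.ρ.baseChangeAlong (β : D'.R →+* D.R) hβ).IsEquiv D.ρ)
    (x : D.R →ₐ[𝒪] 𝒪) (hx : IsLocalHom (x : D.R →+* 𝒪)) (α : 𝒪)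
    (_hα : UnrFrobAt (D.ρ.baseChangeAlong (x : D.R →+* 𝒪) hx) p α) (_hα1 : α ^ 2 ≠ 1)
    (_hfin : Finite (NC.Cot x)),
    Finite (NC.Cot (x.comp β)) ∧
      Nat.card (NC.Cot (x.comp β)) ≤
        Nat.card (NC.Cot x) * Nat.card (𝒪 ⧸ Ideal.span {α ^ 2 - 1})

/-- **DATUM** (the Hecke side at the level `N p`).  Given the data of `RTIso .flat` (level `N`
prime to `p`), the ring `T' = heckeLocal (N p) Σ 𝒪 (θ ∘ oldRestrict)` carries a Hecke–Galois
datum `H'` of type `.ord` with residual representation `ρ̄`, and `ρ_{T'} ⊗_res T ≅ ρ_T`.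

[instances: `S59.H7`, S23; `H'`: layer G4 (`G4.g4_of`, non-Eisenstein by `H765.nonEisenstein_comp`);
type: frozen S31 (unramified), S33 (ordinary, `p ∥ N p`), S34 (unipotent at `q ∥ N p`), determinant
by Chebotarev; compatibility: equal Frobenius traces (`H765.resLocal_T`) + Chebotarev +
`S59.H307.isEquiv_of_trace_eq`.] -/
def OrdDatumStatement : Prop :=
  ∀ (p : ℕ) [Fact p.Prime]
    (𝒪 : Type) [CommRing 𝒪] [IsDomain 𝒪] [IsDiscreteValuationRing 𝒪]
    [IsAdicComplete (maximalIdeal 𝒪) 𝒪] [Finite (ResidueField 𝒪)] [CharZero 𝒪]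
    (ρbar : ResidualGaloisRep (ResidueField 𝒪)) (Smin : Finset ℕ)
    (_h : ResidualHyp p 𝒪 ρbar Smin) (Sig : Finset ℕ)
    (hSig : Smin ⊆ Sig) (hSigP : ∀ q ∈ Sig, q.Prime) (hpSig : p ∈ Sig)
    (_hord : (GaloisRepAdic.ofResidualGaloisRep ρbar).IsOrdinaryAt p)
    [NeZero (wilesLevel p .flat Smin Sig)]
    [Fact (HasIntegralStructure (wilesLevel p .flat Smin Sig) 2)]
    (θ : heckeAlgebra (wilesLevel p .flat Smin Sig) 2 (↑Sig : Set ℕ) →+* ResidueField 𝒪)
    [IsLocalRing (heckeLocal (wilesLevel p .flat Smin Sig) (↑Sig : Set ℕ) 𝒪 θ)]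
    [IsNoetherianRing (heckeLocal (wilesLevel p .flat Smin Sig) (↑Sig : Set ℕ) 𝒪 θ)]
    [IsAdicComplete (maximalIdeal (heckeLocal (wilesLevel p .flat Smin Sig) (↑Sig : Set ℕ) 𝒪 θ))
      (heckeLocal (wilesLevel p .flat Smin Sig) (↑Sig : Set ℕ) 𝒪 θ)]
    [IsLocalHom (algebraMap 𝒪 (heckeLocal (wilesLevel p .flat Smin Sig) (↑Sig : Set ℕ) 𝒪 θ))]
    [Module.Finite 𝒪 (heckeLocal (wilesLevel p .flat Smin Sig) (↑Sig : Set ℕ) 𝒪 θ)]
    [Module.Free 𝒪 (heckeLocal (wilesLevel p .flat Smin Sig) (↑Sig : Set ℕ) 𝒪 θ)]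
    (H : HeckeGaloisRepDatum (wilesLevel p .flat Smin Sig) (↑Sig : Set ℕ) 𝒪 θ
      (heckeLocal (wilesLevel p .flat Smin Sig) (↑Sig : Set ℕ) 𝒪 θ))
    (_hπ : H.π = heckeLocal.π (wilesLevel p .flat Smin Sig) (↑Sig : Set ℕ) 𝒪 θ)
    (_hres : H.ρ.residual.IsEquiv (ρbar.baseChangeAlong (ResidueField.map (algebraMap 𝒪
      (heckeLocal (wilesLevel p .flat Smin Sig) (↑Sig : Set ℕ) 𝒪 θ)))))
    (_hcond : sigmaCond 𝒪 p .flat Smin Sig H.ρ),
    ∃ (_ : NeZero (wilesLevel p .ord Smin Sig))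
      (_ : Fact (HasIntegralStructure (wilesLevel p .ord Smin Sig) 2))
      (_ : IsLocalRing (heckeLocal (wilesLevel p .ord Smin Sig) (↑Sig : Set ℕ) 𝒪
        (θ.comp (oldRestrict (levelPair_flat_ord p hSig hSigP hpSig)))))
      (_ : IsNoetherianRing (heckeLocal (wilesLevel p .ord Smin Sig) (↑Sig : Set ℕ) 𝒪
        (θ.comp (oldRestrict (levelPair_flat_ord p hSig hSigP hpSig)))))
      (_ : IsAdicComplete
        (maximalIdeal (heckeLocal (wilesLevel p .ord Smin Sig) (↑Sig : Set ℕ) 𝒪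
          (θ.comp (oldRestrict (levelPair_flat_ord p hSig hSigP hpSig)))))
        (heckeLocal (wilesLevel p .ord Smin Sig) (↑Sig : Set ℕ) 𝒪
          (θ.comp (oldRestrict (levelPair_flat_ord p hSig hSigP hpSig)))))
      (_ : IsLocalHom (algebraMap 𝒪 (heckeLocal (wilesLevel p .ord Smin Sig) (↑Sig : Set ℕ) 𝒪
        (θ.comp (oldRestrict (levelPair_flat_ord p hSig hSigP hpSig))))))
      (_ : Module.Finite 𝒪 (heckeLocal (wilesLevel p .ord Smin Sig) (↑Sig : Set ℕ) 𝒪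
        (θ.comp (oldRestrict (levelPair_flat_ord p hSig hSigP hpSig)))))
      (_ : Module.Free 𝒪 (heckeLocal (wilesLevel p .ord Smin Sig) (↑Sig : Set ℕ) 𝒪
        (θ.comp (oldRestrict (levelPair_flat_ord p hSig hSigP hpSig)))))
      (H' : HeckeGaloisRepDatum (wilesLevel p .ord Smin Sig) (↑Sig : Set ℕ) 𝒪
        (θ.comp (oldRestrict (levelPair_flat_ord p hSig hSigP hpSig)))
        (heckeLocal (wilesLevel p .ord Smin Sig) (↑Sig : Set ℕ) 𝒪
          (θ.comp (oldRestrict (levelPair_flat_ord p hSig hSigP hpSig))))),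
      H'.π = heckeLocal.π (wilesLevel p .ord Smin Sig) (↑Sig : Set ℕ) 𝒪
        (θ.comp (oldRestrict (levelPair_flat_ord p hSig hSigP hpSig))) ∧
      H'.ρ.residual.IsEquiv (ρbar.baseChangeAlong (ResidueField.map (algebraMap 𝒪
        (heckeLocal (wilesLevel p .ord Smin Sig) (↑Sig : Set ℕ) 𝒪
          (θ.comp (oldRestrict (levelPair_flat_ord p hSig hSigP hpSig))))))) ∧
      sigmaCond 𝒪 p .ord Smin Sig H'.ρ ∧
      ∃ hres : IsLocalHom
          ((resLocal (levelPair_flat_ord p hSig hSigP hpSig) 𝒪 θ :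
            heckeLocal (wilesLevel p .ord Smin Sig) (↑Sig : Set ℕ) 𝒪
              (θ.comp (oldRestrict (levelPair_flat_ord p hSig hSigP hpSig))) →ₐ[𝒪]
            heckeLocal (wilesLevel p .flat Smin Sig) (↑Sig : Set ℕ) 𝒪 θ) :
            heckeLocal (wilesLevel p .ord Smin Sig) (↑Sig : Set ℕ) 𝒪
              (θ.comp (oldRestrict (levelPair_flat_ord p hSig hSigP hpSig))) →+*
            heckeLocal (wilesLevel p .flat Smin Sig) (↑Sig : Set ℕ) 𝒪 θ),
        (H'.ρ.baseChangeAlong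
          ((resLocal (levelPair_flat_ord p hSig hSigP hpSig) 𝒪 θ :
            heckeLocal (wilesLevel p .ord Smin Sig) (↑Sig : Set ℕ) 𝒪
              (θ.comp (oldRestrict (levelPair_flat_ord p hSig hSigP hpSig))) →ₐ[𝒪]
            heckeLocal (wilesLevel p .flat Smin Sig) (↑Sig : Set ℕ) 𝒪 θ) :
            heckeLocal (wilesLevel p .ord Smin Sig) (↑Sig : Set ℕ) 𝒪
              (θ.comp (oldRestrict (levelPair_flat_ord p hSig hSigP hpSig))) →+*
            heckeLocal (wilesLevel p .flat Smin Sig) (↑Sig : Set ℕ) 𝒪 θ) hres).IsEquiv H.ρ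

/-- **ETA** (the Hecke step at `p`, ring form).  In the situation of DATUM, for an `𝒪`-point
`π` of `T` at which the numerical equality of `RTIso .flat` holds, and the unramified Frobenius
eigenvalue `α` of `ρ_π` at `p`:  `α² ≠ 1`  and
`#(𝒪/η_T(π)) · #(𝒪/(α² − 1)) ≤ #(𝒪/η_{T'}(π ∘ res))`.

[Wiles, Ch. 2 (2.24): `η_{T'} ⊆ (a_p² − (p+1)²) η_T` by Ihara's lemma at `p` and the adjoint
degeneracy maps, `a_p² − (p+1)² = (α² − 1)(1 − p²/α²)` by `a_p = α + p/α`
(Eichler–Shimura at `p`); `α² ≠ 1` since `T'` is reduced.] -/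
def EtaStatement : Prop :=
  ∀ (p : ℕ) [Fact p.Prime]
    (𝒪 : Type) [CommRing 𝒪] [IsDomain 𝒪] [IsDiscreteValuationRing 𝒪]
    [IsAdicComplete (maximalIdeal 𝒪) 𝒪] [Finite (ResidueField 𝒪)] [CharZero 𝒪]
    (ρbar : ResidualGaloisRep (ResidueField 𝒪)) (Smin : Finset ℕ)
    (_h : ResidualHyp p 𝒪 ρbar Smin) (Sig : Finset ℕ)
    (hSig : Smin ⊆ Sig) (hSigP : ∀ q ∈ Sig, q.Prime) (hpSig : p ∈ Sig)
    (_hord : (GaloisRepAdic.ofResidualGaloisRep ρbar).IsOrdinaryAt p)
    [NeZero (wilesLevel p .flat Smin Sig)]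
    [Fact (HasIntegralStructure (wilesLevel p .flat Smin Sig) 2)]
    [NeZero (wilesLevel p .ord Smin Sig)]
    [Fact (HasIntegralStructure (wilesLevel p .ord Smin Sig) 2)]
    (θ : heckeAlgebra (wilesLevel p .flat Smin Sig) 2 (↑Sig : Set ℕ) →+* ResidueField 𝒪)
    [IsLocalRing (heckeLocal (wilesLevel p .flat Smin Sig) (↑Sig : Set ℕ) 𝒪 θ)]
    [IsNoetherianRing (heckeLocal (wilesLevel p .flat Smin Sig) (↑Sig : Set ℕ) 𝒪 θ)]
    [IsAdicComplete (maximalIdeal (heckeLocal (wilesLevel p .flat Smin Sig) (↑Sig : Set ℕ) 𝒪 θ))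
      (heckeLocal (wilesLevel p .flat Smin Sig) (↑Sig : Set ℕ) 𝒪 θ)]
    [IsLocalHom (algebraMap 𝒪 (heckeLocal (wilesLevel p .flat Smin Sig) (↑Sig : Set ℕ) 𝒪 θ))]
    [Module.Finite 𝒪 (heckeLocal (wilesLevel p .flat Smin Sig) (↑Sig : Set ℕ) 𝒪 θ)]
    [Module.Free 𝒪 (heckeLocal (wilesLevel p .flat Smin Sig) (↑Sig : Set ℕ) 𝒪 θ)]
    (H : HeckeGaloisRepDatum (wilesLevel p .flat Smin Sig) (↑Sig : Set ℕ) 𝒪 θ
      (heckeLocal (wilesLevel p .flat Smin Sig) (↑Sig : Set ℕ) 𝒪 θ))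
    (_hπ : H.π = heckeLocal.π (wilesLevel p .flat Smin Sig) (↑Sig : Set ℕ) 𝒪 θ)
    (_hres : H.ρ.residual.IsEquiv (ρbar.baseChangeAlong (ResidueField.map (algebraMap 𝒪
      (heckeLocal (wilesLevel p .flat Smin Sig) (↑Sig : Set ℕ) 𝒪 θ)))))
    (_hcond : sigmaCond 𝒪 p .flat Smin Sig H.ρ)
    (π : heckeLocal (wilesLevel p .flat Smin Sig) (↑Sig : Set ℕ) 𝒪 θ →ₐ[𝒪] 𝒪)
    (hπloc : IsLocalHom
      (π : heckeLocal (wilesLevel p .flat Smin Sig) (↑Sig : Set ℕ) 𝒪 θ →+* 𝒪))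
    (_hfin : Finite (NC.Cot π))
    (_hnum : Nat.card (NC.Cot π) = Nat.card (𝒪 ⧸ NC.congIdeal π))
    (α : 𝒪)
    (_hα : UnrFrobAt (H.ρ.baseChangeAlong
      (π : heckeLocal (wilesLevel p .flat Smin Sig) (↑Sig : Set ℕ) 𝒪 θ →+* 𝒪) hπloc) p α),
    α ^ 2 ≠ 1 ∧
      Nat.card (𝒪 ⧸ NC.congIdeal π) * Nat.card (𝒪 ⧸ Ideal.span {α ^ 2 - 1}) ≤
        Nat.card (𝒪 ⧸ NC.congIdeal
          (π.comp (resLocal (levelPair_flat_ord p hSig hSigP hpSig) 𝒪 θ)))

end Fermat.Agent.S59.NMP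

end
-- ===== PACK-END S59/NMP/Spec.lean

-- ===== PACK-BEGIN S59/TW/H347/TwistHyp.lean
section




/-!
# S59 / cell TW (helper347): the concrete twist hypothesis `H658.TwistHyp`

`H658.TwistHyp K N' u` (every character `χ` trivial on `K` has a `TwistDatum` with
`psiL(ℓ) = χ(u ℓ)`) is the hypothesis of the dictionaries "Betti point → twisted nebentypus
eigenvector" (helper561 `exists_twisted_eigenvector`) and exposes the twist `twistL 2 ψ L` which
`H54.twistL_anemic_exists_newform` consumes.  On main only the weaker `EmbHyp` was constructed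
(`H658.embHyp_of_odd`).  Here:

* `twistHyp_of_odd_h347` : `TwistHyp K N' (fun ℓ => uCls M ℓ ^ m)` under the hypotheses of
  `H658.embHyp_of_odd` (Taylor–Wiles shape: `Qs` distinct primes `q ∥ M`, `K ⊇ Γ₀(M) ∩ Γ₁(∏ Qs)`,
  `γ^(2m+1) ∈ K` for `γ ∈ Γ₀(M)`, `M · ∏ Qs ∣ N'`), from `H564.exists_psi`;
* `twistHyp_KQ_h347` : the instance `K = K_Q`, `N' = wilesLevel p t Smin (Smin ∪ Q)`,
  `u ℓ = uOf M ℓ ^ h`, `IsHalf p qv h`;
* `exists_twistDatum_of_odd_h347` : the datum itself, with `L ⊆ Qs` and `∏_{q ∈ L} ψ_q(d) = χ(d)^m`;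
* `twistDatum_L_subset_h347` : the list of ANY twist datum of a character trivial on `K` lies
  in `Qs`;
* `mem_twistDatum_L_h347`, `mem_twistDatum_L_KQ_h347`, `mem_twistDatum_L_liftU_h347` : if
  `χ` is non-trivial at `q₀` (for example `χ(⟨u⟩_j) ≠ 1` for the diamond operator of `Aut.diaQ`)
  then `q₀ ∈ D.L` for ANY twist datum `D` of `χ` — the hypothesis `hq₀` of TW-NS
  (`H54.twistL_anemic_exists_newform`; `hψ` is `D.ψ_ne`).
-/

set_option autoImplicit false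
set_option linter.unusedSectionVars false
set_option linter.style.haveILetI false

noncomputable section

namespace Fermat.Agent.S59.TW.H347

open CongruenceSubgroup ModularForm
open Matrix.SpecialLinearGroup
open Fermat.Agent.S59.Arch Fermat.Agent.S59.TW.H653 Fermat.Agent.S59.TW.H658
  Fermat.Agent.S59.TW.Aut
open scoped MatrixGroups

variable {M : ℕ} [NeZero M] {K : Subgroup SL(2, ℤ)} [K.FiniteIndex]

/-- A character trivial on `K ⊇ Γ₀(M) ∩ Γ₁(∏ Qs)` is trivial on the units `≡ 1 mod ∏ Qs`. -/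
theorem trivial_of_trivOn_h347 (Qs : List ℕ) (hnd : Qs.Nodup)
    (hQs : ∀ q ∈ Qs, q.Prime ∧ ∃ M' : ℕ, M = M' * q ∧ Nat.Coprime M' q)
    (hK1 : ∀ γ ∈ Gamma0 M, ((Qs.prod : ℕ) : ℤ) ∣ γ 1 1 - 1 → γ ∈ K)
    (χ : DirichletCharacter ℂ M) (hχ : TrivOn K χ)
    (d : ℤ) (hd : ((Qs.prod : ℕ) : ℤ) ∣ d - 1) (hu : IsUnit ((d : ℤ) : ZMod M)) :
    χ ((d : ℤ) : ZMod M) = 1 := by
  have hQM : ((Qs.prod : ℕ) : ℤ) ∣ (M : ℤ) :=
    H564.list_prod_dvd_of_primes Qs hnd (fun q hq => (hQs q hq).1) _ (fun q hq => by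
      obtain ⟨-, M', hM, -⟩ := hQs q hq
      exact Int.natCast_dvd_natCast.mpr ⟨M', by rw [hM, mul_comm]⟩)
  obtain ⟨v, hv⟩ := hu
  obtain ⟨g, hg⟩ := dUnit_surjective (M := M) v
  have h1 : ((((g : SL(2, ℤ)) 1 1 : ℤ)) : ZMod M) = ((d : ℤ) : ZMod M) := by
    rw [← coe_dUnit, hg, hv]
  have h2 : (M : ℤ) ∣ (g : SL(2, ℤ)) 1 1 - d := by
    rw [← ZMod.intCast_zmod_eq_zero_iff_dvd]
    push_cast
    rw [h1, sub_self]
  have h3 : ((Qs.prod : ℕ) : ℤ) ∣ (g : SL(2, ℤ)) 1 1 - 1 := by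
    have := dvd_add (hQM.trans h2) hd
    rwa [sub_add_sub_cancel] at this
  have h4 := hχ g (hK1 _ g.2 h3)
  rw [hg, hv] at h4
  exact h4

/-- A character trivial on `K ∋ γ^(2m+1)` (`γ ∈ Γ₀(M)`) has order dividing `2 m + 1`. -/
theorem pow_eq_one_of_trivOn_h347 (m : ℕ) (hK2 : ∀ γ ∈ Gamma0 M, γ ^ (2 * m + 1) ∈ K)
    (χ : DirichletCharacter ℂ M) (hχ : TrivOn K χ) : χ ^ (2 * m + 1) = 1 := by
  ext v
  rw [MulChar.pow_apply_coe, MulChar.one_apply_coe, ← map_pow, ← Units.val_pow_eq_pow_val]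
  obtain ⟨g, rfl⟩ := dUnit_surjective (M := M) v
  rw [← map_pow]
  exact hχ (g ^ (2 * m + 1)) (hK2 _ g.2)

theorem isUnit_intCast_of_isCoprime_h347 {N' : ℕ} (hMN : M ∣ N') {d : ℤ}
    (hd : IsCoprime d (N' : ℤ)) : IsUnit ((d : ℤ) : ZMod M) := by
  rw [ZMod.coe_int_isUnit_iff_isCoprime]
  exact (hd.of_isCoprime_of_dvd_right (Int.natCast_dvd_natCast.mpr hMN)).symm

/-- **The twist datum of a character trivial on `K`** (Taylor–Wiles shape), with its explicit
description: the list `L` is the ramified part of `Qs` and `ψ q = (χ_q)^m`. -/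
theorem exists_twistDatum_of_odd_h347 (Qs : List ℕ) (hnd : Qs.Nodup)
    (hQs : ∀ q ∈ Qs, q.Prime ∧ ∃ M' : ℕ, M = M' * q ∧ Nat.Coprime M' q)
    (hK1 : ∀ γ ∈ Gamma0 M, ((Qs.prod : ℕ) : ℤ) ∣ γ 1 1 - 1 → γ ∈ K)
    (m : ℕ) (hK2 : ∀ γ ∈ Gamma0 M, γ ^ (2 * m + 1) ∈ K)
    {N' : ℕ} (hN' : M * Qs.prod ∣ N')
    (χ : DirichletCharacter ℂ M) (hχ : TrivOn K χ) :
    ∃ D : TwistDatum M N' χ,
      (∀ q ∈ D.L, q ∈ Qs) ∧
      (∀ ℓ : ℕ, Nat.Coprime ℓ M → H564.psiL D.ψ D.L ℓ = χ ((ℓ : ℕ) : ZMod M) ^ m) ∧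
      (∀ d : ℤ, IsUnit ((d : ℤ) : ZMod M) →
        (D.L.map fun q => D.ψ q ((d : ℤ) : ZMod q)).prod = χ ((d : ℤ) : ZMod M) ^ m) := by
  have hMN : M ∣ N' := (Dvd.intro _ rfl).trans hN'
  have hε := trivial_of_trivOn_h347 Qs hnd hQs hK1 χ hχ
  have hm := pow_eq_one_of_trivOn_h347 m hK2 χ hχ
  obtain ⟨L, ψ, hLnd, hLQ, hLdvd, hψne, hram, htriv, hpsi⟩ :=
    H564.exists_psi χ Qs hnd hQs
      (H564.periodic_of_trivial Qs hnd (fun q hq => (hQs q hq).1) χ hε) m hm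
  refine ⟨⟨ψ, L, hLnd, fun q hq => hQs q (hLQ q hq), hψne, hram,
    (Nat.mul_dvd_mul_left M hLdvd).trans hN', fun d hd => ?_⟩, hLQ, fun ℓ hℓ => ?_, hpsi⟩
  · rw [H564.chiL_apply]
    exact htriv d (isUnit_intCast_of_isCoprime_h347 hMN hd)
  · have h1 := hpsi (ℓ : ℤ) (by
      rw [Int.cast_natCast]
      exact (ZMod.isUnit_iff_coprime ℓ M).mpr hℓ)
    simp only [Int.cast_natCast] at h1
    exact h1

/-- **The concrete twist hypothesis** (Taylor–Wiles shape): `TwistHyp` under the hypotheses of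
`H658.embHyp_of_odd`. -/
theorem twistHyp_of_odd_h347 (hK : IsMid M K) (Qs : List ℕ) (hnd : Qs.Nodup)
    (hQs : ∀ q ∈ Qs, q.Prime ∧ ∃ M' : ℕ, M = M' * q ∧ Nat.Coprime M' q)
    (hK1 : ∀ γ ∈ Gamma0 M, ((Qs.prod : ℕ) : ℤ) ∣ γ 1 1 - 1 → γ ∈ K)
    (m : ℕ) (hK2 : ∀ γ ∈ Gamma0 M, γ ^ (2 * m + 1) ∈ K)
    {N' : ℕ} (hN' : M * Qs.prod ∣ N') :
    TwistHyp K N' (fun ℓ => uCls M ℓ ^ m) where
  dvd := (Dvd.intro _ rfl).trans hN'
  neg := (embHyp_of_odd hK Qs hnd hQs hK1 m hK2 hN').neg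
  twist := fun χ hχ => by
    obtain ⟨D, -, hD, -⟩ := exists_twistDatum_of_odd_h347 Qs hnd hQs hK1 m hK2 hN' χ hχ
    refine ⟨D, fun ℓ hℓ hℓN => ?_⟩
    have hcop : Nat.Coprime ℓ M := (Nat.Prime.coprime_iff_not_dvd hℓ).mpr
      fun h => hℓN (h.trans ((Dvd.intro _ rfl).trans hN'))
    rw [hD ℓ hcop, Units.val_pow_eq_pow_val, map_pow, coe_uCls hcop]

/-! ## The list of a twist datum -/

/-- `d ≡ 1` modulo `q` as an element of `ZMod q`. -/
theorem intCast_eq_one_of_dvd_h347 {q : ℕ} {d : ℤ} (h : (q : ℤ) ∣ d - 1) :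
    ((d : ℤ) : ZMod q) = 1 := by
  have h1 := (ZMod.intCast_zmod_eq_zero_iff_dvd (d - 1) q).mpr h
  push_cast at h1
  exact sub_eq_zero.mp h1

/-- A unit modulo `M` is prime to `N'` if `M` and `N'` have the same prime factors. -/
theorem isCoprime_of_isUnit_h347 {N' : ℕ} (hrad : ∀ q : ℕ, q.Prime → q ∣ N' → q ∣ M) {d : ℤ}
    (hd : IsUnit ((d : ℤ) : ZMod M)) : IsCoprime d (N' : ℤ) := by
  rw [ZMod.coe_int_isUnit_iff_isCoprime] at hd
  rw [Int.isCoprime_iff_gcd_eq_one]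
  by_contra hne
  obtain ⟨q, hq, hqd⟩ := Nat.exists_prime_and_dvd hne
  have h1 : (q : ℤ) ∣ d := Int.natCast_dvd.mpr ((hqd.trans (Int.gcd_dvd_natAbs_left d N')))
  have h2 : q ∣ N' := by
    have := hqd.trans (Int.gcd_dvd_natAbs_right d (N' : ℤ))
    rwa [Int.natAbs_natCast] at this
  have h3 : (q : ℤ) ∣ (M : ℤ) := Int.natCast_dvd_natCast.mpr (hrad q hq h2)
  have h4 : IsUnit (q : ℤ) := hd.isUnit_of_dvd' h3 h1
  rw [Int.isUnit_iff] at h4
  rcases h4 with h4 | h4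
  · exact hq.one_lt.ne' (by exact_mod_cast h4)
  · omega

/-- **The list of ANY twist datum of a character trivial on `K` lies in `Qs`** (Taylor–Wiles
shape: `K ⊇ Γ₀(M) ∩ Γ₁(∏ Qs)`): such a character is unramified outside `Qs`. -/
theorem twistDatum_L_subset_h347 (Qs : List ℕ) (hnd : Qs.Nodup)
    (hQs : ∀ q ∈ Qs, q.Prime ∧ ∃ M' : ℕ, M = M' * q ∧ Nat.Coprime M' q)
    (hK1 : ∀ γ ∈ Gamma0 M, ((Qs.prod : ℕ) : ℤ) ∣ γ 1 1 - 1 → γ ∈ K)
    {N' : ℕ} {χ : DirichletCharacter ℂ M} (hχ : TrivOn K χ) (D : TwistDatum M N' χ) :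
    ∀ q ∈ D.L, q ∈ Qs := by
  intro q hq
  by_contra hqQ
  obtain ⟨hqp, M', hM, hcop⟩ := D.prime q hq
  obtain ⟨d, hd1, hdq, hne⟩ := D.ram q hq M' hcop
  -- `∏ Qs ∣ M'`
  have hQM' : ((Qs.prod : ℕ) : ℤ) ∣ (M' : ℤ) :=
    H564.list_prod_dvd_of_primes Qs hnd (fun q' hq' => (hQs q' hq').1) _ (fun q' hq' => by
      obtain ⟨hq'p, M'', hM'', -⟩ := hQs q' hq'
      have h1 : q' ∣ M' * q := ⟨M'', by rw [← hM, hM'', mul_comm]⟩
      rcases (Nat.Prime.dvd_mul hq'p).mp h1 with h | h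
      · exact Int.natCast_dvd_natCast.mpr h
      · exact absurd ((Nat.prime_dvd_prime_iff_eq hq'p hqp).mp h ▸ hq') hqQ)
  -- `d` is a unit modulo `M`
  have hdM : IsUnit ((d : ℤ) : ZMod M) := by
    rw [ZMod.coe_int_isUnit_iff_isCoprime, hM]
    push_cast
    rw [ZMod.coe_int_isUnit_iff_isCoprime] at hdq
    refine IsCoprime.mul_left ?_ hdq
    obtain ⟨c, hc⟩ := hd1
    exact ⟨-c, 1, by rw [one_mul]; linear_combination hc⟩
  exact hne (trivial_of_trivOn_h347 Qs hnd hQs hK1 χ hχ d (hQM'.trans hd1) hdM)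

/-- **Membership in the list of a twist datum.**  If `χ(d) ≠ 1` for a unit `d` which is `≡ 1`
modulo every `q ∈ Qs` other than `q₀`, then `q₀` belongs to the list of ANY twist datum of `χ`
(so that TW-NS applies at `q₀`). -/
theorem mem_twistDatum_L_h347 (Qs : List ℕ) (hnd : Qs.Nodup)
    (hQs : ∀ q ∈ Qs, q.Prime ∧ ∃ M' : ℕ, M = M' * q ∧ Nat.Coprime M' q)
    (hK1 : ∀ γ ∈ Gamma0 M, ((Qs.prod : ℕ) : ℤ) ∣ γ 1 1 - 1 → γ ∈ K)
    {N' : ℕ} (hrad : ∀ q : ℕ, q.Prime → q ∣ N' → q ∣ M)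
    {χ : DirichletCharacter ℂ M} (hχ : TrivOn K χ) (D : TwistDatum M N' χ)
    {q₀ : ℕ} {d : ℤ} (hd : IsUnit ((d : ℤ) : ZMod M))
    (h1 : ∀ q ∈ Qs, q ≠ q₀ → (q : ℤ) ∣ d - 1) (hne : χ ((d : ℤ) : ZMod M) ≠ 1) :
    q₀ ∈ D.L := by
  by_contra hq
  have h2 := D.triv d (isCoprime_of_isUnit_h347 hrad hd)
  rw [H564.chiL_apply] at h2
  have h3 : (D.L.map fun q => D.ψ q ((d : ℤ) : ZMod q) ^ 2).prod = 1 := by
    apply List.prod_eq_one
    intro x hx
    obtain ⟨q, hqL, rfl⟩ := List.mem_map.mp hx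
    have hqQ := twistDatum_L_subset_h347 Qs hnd hQs hK1 hχ D q hqL
    rw [intCast_eq_one_of_dvd_h347 (h1 q hqQ fun h => hq (h ▸ hqL)), map_one, one_pow]
  rw [h3, mul_one] at h2
  exact hne h2

section KQ

variable (p : ℕ) [Fact p.Prime] (t : PType) (Smin : Finset ℕ) {r : ℕ} (qv : Fin r → ℕ)

/-- **The twist hypothesis at the Taylor–Wiles level `K_Q`**, for `N' = N_{Smin ∪ Q}` and
`u ℓ = ⟨ℓ⟩^h`, `IsHalf p qv h`. -/
theorem twistHyp_KQ_h347 (hpS : p ∈ Smin) (hSp : ∀ q ∈ Smin, q.Prime)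
    (hqi : Function.Injective qv) (hq : ∀ i, (qv i).Prime ∧ qv i ∉ Smin)
    [NeZero (bLevel (wilesLevel p t Smin Smin) qv)]
    {h : ℕ} (hh : IsHalf p qv h) :
    TwistHyp (KQ p (wilesLevel p t Smin Smin) qv)
      (wilesLevel p t Smin (Smin ∪ Finset.univ.image qv))
      (fun ℓ => uOf (bLevel (wilesLevel p t Smin Smin) qv) ℓ ^ h) := by
  haveI : (KQ p (wilesLevel p t Smin Smin) qv).FiniteIndex :=
    H564.finiteIndex_of_Gamma1_le (isMid_KQ p (wilesLevel p t Smin Smin) qv).ge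
  exact twistHyp_of_odd_h347 (isMid_KQ p (wilesLevel p t Smin Smin) qv) (List.ofFn qv)
    (List.nodup_ofFn.mpr hqi)
    (fun q hq' => by
      obtain ⟨j, rfl⟩ := (List.mem_ofFn' _ _).mp hq'
      exact ⟨(hq j).1, exists_bLevel_eq p t Smin qv hpS hSp hqi hq j⟩)
    (fun γ hγ hd => mem_KQ_of_dvd p _ qv hγ hd) h
    (fun γ hγ => pow_mem_KQ p _ qv hh hγ)
    (bLevel_mul_prod_dvd p t Smin qv hqi fun i => (hq i).2)


/-- `N_{Smin ∪ Q}` and `M_Q` have the same prime factors. -/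
theorem dvd_bLevel_of_dvd_wilesLevel_h347 (hqi : Function.Injective qv)
    (hq : ∀ i, (qv i).Prime ∧ qv i ∉ Smin) {q : ℕ} (hqp : q.Prime)
    (hdvd : q ∣ wilesLevel p t Smin (Smin ∪ Finset.univ.image qv)) :
    q ∣ bLevel (wilesLevel p t Smin Smin) qv := by
  rw [wilesLevel_union p t Smin qv hqi (fun i => (hq i).2)] at hdvd
  rcases (Nat.Prime.dvd_mul hqp).mp hdvd with h | h
  · exact h.trans (self_dvd_bLevel _ qv)
  · obtain ⟨j, -, hj⟩ := (Prime.dvd_finsetProd_iff hqp.prime _).mp h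
    exact (hqp.dvd_of_dvd_pow hj).trans (dvd_bLevel _ qv j)

/-- **Membership in the list of a twist datum at the level `K_Q`.**  If `χ(v) ≠ 1` for a unit
`v` modulo `M_Q` which is trivial at every Taylor–Wiles prime other than `q_j`, then `q_j`
belongs to the list of ANY twist datum of `χ`. -/
theorem mem_twistDatum_L_KQ_h347 (hpS : p ∈ Smin) (hSp : ∀ q ∈ Smin, q.Prime)
    (hqi : Function.Injective qv) (hq : ∀ i, (qv i).Prime ∧ qv i ∉ Smin)
    [NeZero (bLevel (wilesLevel p t Smin Smin) qv)]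
    {χ : DirichletCharacter ℂ (bLevel (wilesLevel p t Smin Smin) qv)}
    (hχ : TrivOn (KQ p (wilesLevel p t Smin Smin) qv) χ)
    (D : TwistDatum (bLevel (wilesLevel p t Smin Smin) qv)
      (wilesLevel p t Smin (Smin ∪ Finset.univ.image qv)) χ)
    (j : Fin r) (v : (ZMod (bLevel (wilesLevel p t Smin Smin) qv))ˣ)
    (hv : ∀ i, i ≠ j → red (wilesLevel p t Smin Smin) qv v i = 1)
    (hne : χ ((v : (ZMod (bLevel (wilesLevel p t Smin Smin) qv))ˣ) :
      ZMod (bLevel (wilesLevel p t Smin Smin) qv)) ≠ 1) :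
    qv j ∈ D.L := by
  haveI : (KQ p (wilesLevel p t Smin Smin) qv).FiniteIndex :=
    H564.finiteIndex_of_Gamma1_le (isMid_KQ p (wilesLevel p t Smin Smin) qv).ge
  obtain ⟨d, hd⟩ := ZMod.intCast_surjective
    ((v : (ZMod (bLevel (wilesLevel p t Smin Smin) qv))ˣ) :
      ZMod (bLevel (wilesLevel p t Smin Smin) qv))
  refine mem_twistDatum_L_h347 (K := KQ p (wilesLevel p t Smin Smin) qv) (List.ofFn qv)
    (List.nodup_ofFn.mpr hqi)
    (fun q hq' => by
      obtain ⟨j, rfl⟩ := (List.mem_ofFn' _ _).mp hq'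
      exact ⟨(hq j).1, exists_bLevel_eq p t Smin qv hpS hSp hqi hq j⟩)
    (fun γ hγ hd => mem_KQ_of_dvd p _ qv hγ hd)
    (fun q hqp hqd => dvd_bLevel_of_dvd_wilesLevel_h347 p t Smin qv hqi hq hqp hqd)
    hχ D (d := d) (hd ▸ v.isUnit) ?_ (hd ▸ hne)
  intro q hq' hqj
  obtain ⟨i, rfl⟩ := (List.mem_ofFn' _ _).mp hq'
  have hij : i ≠ j := fun h => hqj (h ▸ rfl)
  have h1 := congrArg (fun w : (ZMod (qv i))ˣ => (w : ZMod (qv i))) (hv i hij)
  simp only [red_apply, ZMod.unitsMap_def, Units.coe_map, MonoidHom.coe_coe, Units.val_one]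
    at h1
  rw [← hd, map_intCast] at h1
  have h2 : (((d - 1 : ℤ)) : ZMod (qv i)) = 0 := by
    push_cast
    rw [h1, sub_self]
  exact (ZMod.intCast_zmod_eq_zero_iff_dvd _ _).mp h2

/-- The same for the diamond operator `⟨u⟩_j` of `Aut.diaQ`: if `χ(⟨u⟩_j) ≠ 1` then `q_j`
belongs to the list of ANY twist datum of `χ`. -/
theorem mem_twistDatum_L_liftU_h347 (hpS : p ∈ Smin) (hSp : ∀ q ∈ Smin, q.Prime)
    (hqi : Function.Injective qv) (hq : ∀ i, (qv i).Prime ∧ qv i ∉ Smin)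
    [NeZero (bLevel (wilesLevel p t Smin Smin) qv)]
    {χ : DirichletCharacter ℂ (bLevel (wilesLevel p t Smin Smin) qv)}
    (hχ : TrivOn (KQ p (wilesLevel p t Smin Smin) qv) χ)
    (D : TwistDatum (bLevel (wilesLevel p t Smin Smin) qv)
      (wilesLevel p t Smin (Smin ∪ Finset.univ.image qv)) χ)
    (j : Fin r) (u : (ZMod (qv j))ˣ)
    (hne : χ ((liftU (wilesLevel p t Smin Smin) qv (Pi.mulSingle j u) :
        (ZMod (bLevel (wilesLevel p t Smin Smin) qv))ˣ) :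
      ZMod (bLevel (wilesLevel p t Smin Smin) qv)) ≠ 1) :
    qv j ∈ D.L := by
  have hN₀ : wilesLevel p t Smin Smin ≠ 0 := fun h =>
    NeZero.ne (bLevel (wilesLevel p t Smin Smin) qv) (by rw [bLevel, h, zero_mul])
  refine mem_twistDatum_L_KQ_h347 p t Smin qv hpS hSp hqi hq hχ D j _ (fun i hij => ?_) hne
  rw [red_liftU _ qv (red_surjective _ qv hN₀ hqi (fun i => (hq i).1) _),
    Pi.mulSingle_eq_of_ne hij]

end KQ

end Fermat.Agent.S59.TW.H347

end
end
-- ===== PACK-END S59/TW/H347/TwistHyp.lean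

-- ===== PACK-BEGIN S15/H337/HeckeAll.lean
section




/-!
# Row S15, DESC tower COUNT (helper337): the Kummer dictionary is Hecke-equivariant at EVERY
prime `ℓ ∤ N`

`isKum_hecke_all` : `IsKum N m c x → IsKum N m (heckeCoh N ℓ c) (heckeOperatorBar N ℓ x)` for every
prime `ℓ ∤ N` and every modulus `m ≠ 0` — INCLUDING `ℓ ∣ m`.  The landed
`S29.H395.isKum_hecke_of_normId` (helper395) is stated for `ℓ ∤ N m`, but its proof only uses
`ℓ ∤ N`; this file repeats that proof verbatim under the weaker hypothesis.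
Needed for COUNT: the Eisenstein part `eis p S r` of `J₀(p)[r]` involves `T_r` when `r ∉ S`.
-/

set_option autoImplicit false
set_option linter.style.haveILetI false

noncomputable section

open ModularCurve AlgebraicCurve CongruenceSubgroup UpperHalfPlane
open scoped MatrixGroups Manifold Real

namespace Fermat.Agent.S15.H337

open Fermat.Agent.S24 Fermat.Agent.S29 Fermat.Agent.S29.M4b Fermat.Agent.S37.H400
open Fermat.Agent.S29.H395

/-- **PIECE `K4-HECKE` at every prime `ℓ ∤ N`** (proof of helper395, hypothesis weakened). -/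
theorem isKum_hecke_transfer_all (N : ℕ) [NeZero N] (p : ℕ) [NeZero p] (ℓ : Nat.Primes)
    (hℓN : ¬ (ℓ : ℕ) ∣ N) {c c' : G0 N → ZMod p} (hcc' : IsTransfer N (ℓ : ℕ) c c')
    {x : JZero N} (h : IsKum N p c x) : IsKum N p c' (heckeOperatorBar N ℓ x) := by
  haveI : NeZero (ℓ : ℕ) := ⟨ℓ.2.ne_zero⟩
  haveI : Fact (ℓ : ℕ).Prime := ⟨ℓ.2⟩
  have hnorm : H222.NormId N (ℓ : ℕ) := Fermat.Agent.S29.M4b.H395.normId_H222 N (ℓ : ℕ) ℓ.2 hℓN
  obtain ⟨f, t, U, ht, hx, hU, hR⟩ := h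
  obtain ⟨hα, hβ, hP, hfin, hFI, hN⟩ := heckeInputsAlong_bar N (ℓ : ℕ) ℓ.2
  haveI := hP
  -- the new data
  set α := heckeAlphaBar (AlgebraicClosure ℚ) N (ℓ : ℕ) with hαdef
  set β := heckeBetaBar (AlgebraicClosure ℚ) N (ℓ : ℕ) with hβdef
  have hT : heckeOperatorBar N ℓ x = Pic0.correspondence β α hβ hα hFI hfin hN x := by
    rw [heckeOperatorBar_apply, heckeOperatorAlong_eq hα hβ hFI hfin hN]
    rfl
  have hx' := hx.correspondence β α hβ hα hFI hfin hN
  rw [← hT] at hx'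
  have ht' : H455.normAlong α (β t) ≠ 0 :=
    H455.normAlong_ne_zero α hfin ((map_ne_zero β).mpr ht)
  have hmul : H455.normAlong α (β f) * H455.normAlong α (β t) ^ p
      = H222.heckeNorm N (ℓ : ℕ) (f * t ^ p) := by
    rw [← H455.normAlong_pow, ← H455.normAlong_mul, ← map_pow, ← map_mul]
    rfl
  -- the analytic side
  have hgood : (fun τ => heckeProd (ℓ : ℕ) U τ ^ p) ∈ H648.goodRing N := by
    rw [← heckeProd_pow_fun]
    exact heckeProd_mem_goodRing hℓN hR.1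
  have hq : H708.qexpFun 1 (fun τ => heckeProd (ℓ : ℕ) U τ ^ p)
      = coeffMap Deg457.iotaC
          ((((H455.normAlong α (β f) * H455.normAlong α (β t) ^ p : FF N)) : FF N) :
            LaurentSeries Kbar) := by
    rw [← heckeProd_pow_fun, qexpFun_heckeProd hℓN hR.1, hR.2, ← coeffMap_kronNorm, hmul]
    exact congrArg _ (hnorm (f * t ^ p)).symm
  have hne : (H455.normAlong α (β f) * H455.normAlong α (β t) ^ p : FF N) ≠ 0 :=
    mul_ne_zero hx'.ne_zero (pow_ne_zero _ ht')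
  refine ⟨H455.normAlong α (β f), H455.normAlong α (β t), heckeProd (ℓ : ℕ) U, ht', hx',
    ⟨mdiff_heckeProd hU.mdiff, ?_, hasChar_heckeProd N p hℓN hcc' hU.hasChar, hgood⟩,
    ⟨hgood, hq⟩⟩
  -- non-vanishing
  by_contra hzero
  push Not at hzero
  have hp0 : p ≠ 0 := NeZero.ne p
  have h0 : (fun τ => heckeProd (ℓ : ℕ) U τ ^ p) = 0 := by
    funext τ
    rw [hzero τ]
    simp [hp0]
  have h1 := (H882.hasQExp_of_mem_goodRing hgood)
  have h2 : H708.qexpFun 1 (fun τ => heckeProd (ℓ : ℕ) U τ ^ p) = 0 :=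
    h1.eq_zero_iff.mpr h0
  rw [hq] at h2
  have hinj : Function.Injective (coeffMap Deg457.iotaC) :=
    inf_coeffMap_injective Deg457.iotaC.injective
  have h3 : (((H455.normAlong α (β f) * H455.normAlong α (β t) ^ p : FF N)) :
      LaurentSeries Kbar) = 0 := hinj (by rw [h2, map_zero])
  exact hne (by exact_mod_cast h3)

/-- **The Kummer dictionary is Hecke-equivariant at every prime `ℓ ∤ N`.** -/
theorem isKum_hecke_all (N : ℕ) [NeZero N] (m : ℕ) [NeZero m] (ℓ : Nat.Primes)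
    (hℓN : ¬ (ℓ : ℕ) ∣ N) {c : G0 N → ZMod m} {x : JZero N} (h : IsKum N m c x) :
    IsKum N m (heckeCoh N ℓ c) (heckeOperatorBar N ℓ x) :=
  isKum_hecke_transfer_all N m ℓ hℓN
    (Fermat.Agent.S30.H450.isTransfer_heckeCoh_h450 ℓ.2 hℓN c) h

end Fermat.Agent.S15.H337

end
end
-- ===== PACK-END S15/H337/HeckeAll.lean

-- ===== PACK-BEGIN S29/H871/Concrete.lean
section





/-!
# S29 / E3, part 10: the concrete constant field extension `F_k ⊆ F_Ω` of Laurent base changes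

For `k ⊆ Ω` algebraically closed of characteristic zero and `F₀ ≤ ℚ((q))`:
`laurentBaseChange Ω F₀` is the constant field extension of `laurentBaseChange k F₀`
(`isConstExt_lbc`), and `Aut(Ω/k)`, acting on coefficients, is a descent action
(`isDescentAction_lbc`).  Consequence (`exists_descent_laurent`): descent of Kummer functions, in a
form free of auxiliary instances.

(helper871)
-/

set_option autoImplicit false
set_option linter.unusedSectionVars false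

noncomputable section

namespace Fermat.Agent.S29.H871

open AlgebraicCurve TensorProduct IntermediateField ModularCurve HahnSeries

variable {k Ω : Type*} [Field k] [Field Ω] [Algebra k Ω] [Algebra ℚ k] [Algebra ℚ Ω]
  [IsScalarTower ℚ k Ω]
variable (F₀ : IntermediateField ℚ (LaurentSeries ℚ))

/-- Coefficientwise base change `F_k → F_Ω`. -/
def lbcMap : laurentBaseChange k F₀ →+* laurentBaseChange Ω F₀ where
  toFun x := ⟨coeffMap (algebraMap k Ω) x, H32.coeffMap_mem_laurentBaseChange_of_mem F₀ x.2⟩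
  map_one' := Subtype.ext (map_one _)
  map_mul' x y := Subtype.ext (map_mul _ _ _)
  map_zero' := Subtype.ext (map_zero _)
  map_add' x y := Subtype.ext (map_add _ _ _)

@[simp]
theorem coe_lbcMap (x : laurentBaseChange k F₀) :
    ((lbcMap (Ω := Ω) F₀ x : laurentBaseChange Ω F₀) : LaurentSeries Ω)
      = coeffMap (algebraMap k Ω) (x : LaurentSeries k) := rfl

/-- The algebra structure `F_k → F_Ω` (to be used as a local instance). -/
@[reducible] def lbcAlgebra : Algebra (laurentBaseChange k F₀) (laurentBaseChange Ω F₀) :=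
  (lbcMap F₀).toAlgebra

/-- The algebra structure `k → F_Ω` (to be used as a local instance). -/
@[reducible] def lbcAlgebraBase : Algebra k (laurentBaseChange Ω F₀) :=
  ((algebraMap Ω (laurentBaseChange Ω F₀)).comp (algebraMap k Ω)).toAlgebra

attribute [local instance] lbcAlgebra lbcAlgebraBase

theorem lbc_algebraMap_apply (x : laurentBaseChange k F₀) :
    algebraMap (laurentBaseChange k F₀) (laurentBaseChange Ω F₀) x = lbcMap F₀ x := rfl

theorem lbc_isScalarTower₁ :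
    IsScalarTower k (laurentBaseChange k F₀) (laurentBaseChange Ω F₀) :=
  IsScalarTower.of_algebraMap_eq fun c => by
    apply Subtype.ext
    show algebraMap Ω (LaurentSeries Ω) (algebraMap k Ω c)
      = coeffMap (algebraMap k Ω) (algebraMap k (LaurentSeries k) c)
    rw [H32.coeffMap_algebraMap_up]

theorem lbc_isScalarTower₂ : IsScalarTower k Ω (laurentBaseChange Ω F₀) :=
  IsScalarTower.of_algebraMap_eq fun _ => rfl

attribute [local instance] lbc_isScalarTower₁ lbc_isScalarTower₂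

section ConstExt

theorem coe_mulMapF_sum {I : Type*} (β : I → Ω) (g : I →₀ laurentBaseChange k F₀) :
    ((mulMapF k (laurentBaseChange k F₀) Ω (laurentBaseChange Ω F₀)
        (g.sum fun i m => m ⊗ₜ[k] β i) : laurentBaseChange Ω F₀) : LaurentSeries Ω)
      = H32.comb β (g.mapRange (Subtype.val) rfl) := by
  classical
  induction g using Finsupp.induction with
  | zero => simp [H32.comb_zero]
  | single_add i y g hi hy ih =>
    rw [Finsupp.sum_add_index' (by intro j; simp) (by intro j a b; simp [add_tmul]),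
      map_add, Finsupp.mapRange_add (by intro a b; rfl), H32.comb_add,
      Finsupp.sum_single_index (by simp), Finsupp.mapRange_single, H32.comb_single]
    rw [IntermediateField.coe_add, ih, mulMapF_tmul]
    congr 1
    rw [mul_comm]
    rfl

theorem isConstExt_lbc : IsConstExt k (laurentBaseChange k F₀) Ω (laurentBaseChange Ω F₀) := by
  classical
  let β := Module.Basis.ofVectorSpace k Ω
  refine ⟨?_, ?_⟩
  · rw [injective_iff_map_eq_zero]
    intro x hx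
    obtain ⟨g, rfl⟩ := (TensorProduct.equivFinsuppOfBasisRight β).symm.surjective x
    rw [TensorProduct.equivFinsuppOfBasisRight_symm_apply] at hx ⊢
    have h1 := congrArg (Subtype.val) hx
    rw [coe_mulMapF_sum] at h1
    have h2 := H32.eq_zero_of_comb_eq_zero β.linearIndependent _ h1
    have h3 : g = 0 := by
      refine Finsupp.ext fun i => ?_
      have := DFunLike.congr_fun h2 i
      simpa using this
    rw [h3]
    simp
  · intro z
    have hz : (z : LaurentSeries Ω) ∈ IntermediateField.adjoin Ω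
        (⇑(coeffEmb Ω) '' (F₀ : Set (LaurentSeries ℚ))) := z.2
    obtain ⟨r, hr, s, hs, hzrs⟩ := IntermediateField.mem_adjoin_iff_div.mp hz
    have key : ∀ a ∈ Algebra.adjoin Ω (⇑(coeffEmb Ω) '' (F₀ : Set (LaurentSeries ℚ))),
        ∃ x : laurentBaseChange k F₀ ⊗[k] Ω,
          ((mulMapF k (laurentBaseChange k F₀) Ω (laurentBaseChange Ω F₀) x :
            laurentBaseChange Ω F₀) : LaurentSeries Ω) = a := by
      intro a ha
      obtain ⟨g, hg, rfl⟩ := H32.exists_comb_of_mem_span F₀ β ha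
      let g' : Module.Basis.ofVectorSpaceIndex k Ω →₀ laurentBaseChange k F₀ :=
        Finsupp.onFinset g.support (fun i => ⟨g i, hg i⟩) (by
          intro i hi
          rw [Finsupp.mem_support_iff]
          intro h0
          exact hi (Subtype.ext h0))
      refine ⟨g'.sum fun i m => m ⊗ₜ[k] β i, ?_⟩
      rw [coe_mulMapF_sum]
      congr 1
      ext i : 1
      simp [g']
    obtain ⟨x, hx⟩ := key r hr
    obtain ⟨y, hy⟩ := key s hs
    by_cases hs0 : s = 0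
    · refine ⟨0, 1, by simp, ?_⟩
      have : z = 0 := Subtype.ext (by rw [hzrs, hs0, div_zero]; rfl)
      rw [this]; simp
    · refine ⟨x, y, ?_, ?_⟩
      · intro h0
        apply hs0
        rw [← hy, h0]; rfl
      · apply Subtype.ext
        rw [IntermediateField.coe_mul, hx, hy, hzrs]
        field_simp

end ConstExt

section Action

/-- `Aut(Ω/k)` acting on the coefficients of `F_Ω`. -/
def lbcAction : (Ω ≃ₐ[k] Ω) →* SemilinearAut Ω (laurentBaseChange Ω F₀) :=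
  (arithmeticGalois F₀).comp (AlgEquiv.restrictScalarsHom ℚ)

theorem coe_lbcAction_smul (σ : Ω ≃ₐ[k] Ω) (x : laurentBaseChange Ω F₀) :
    ((lbcAction F₀ σ • x : laurentBaseChange Ω F₀) : LaurentSeries Ω)
      = coeffMap ((σ : Ω ≃+* Ω) : Ω →+* Ω) (x : LaurentSeries Ω) := rfl

theorem baseAut_lbcAction (σ : Ω ≃ₐ[k] Ω) (c : Ω) :
    SemilinearAut.baseAut (lbcAction F₀ σ) c = σ c := rfl

theorem isDescentAction_lbc [IsAlgClosed k] [IsAlgClosed Ω] :
    IsDescentAction k (laurentBaseChange k F₀) (lbcAction (k := k) (Ω := Ω) F₀) where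
  fixes σ f := by
    apply Subtype.ext
    rw [coe_lbcAction_smul]
    show coeffMap _ (coeffMap (algebraMap k Ω) (f : LaurentSeries k)) = coeffMap _ _
    rw [coeffMap_coeffMap]
    exact coeffMap_congr (RingHom.ext fun c => σ.commutes c) _
  fixed x hx := by
    have hcoeff : ∀ n, (x : LaurentSeries Ω).coeff n ∈ Set.range (algebraMap k Ω) := by
      intro n
      apply H32.mem_range_of_finite_orbit
      refine (Set.finite_singleton ((x : LaurentSeries Ω).coeff n)).subset ?_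
      rintro _ ⟨σ, rfl⟩
      have h := congrArg (fun y : laurentBaseChange Ω F₀ => (y : LaurentSeries Ω).coeff n) (hx σ)
      simp only [coe_lbcAction_smul, coeffMap_coeff] at h
      exact h
    obtain ⟨y, hy, hyx⟩ := H32.exists_of_coeff_mem_range F₀ x.2 hcoeff
    exact ⟨⟨y, hy⟩, Subtype.ext hyx⟩
  finite_orbit c h := by
    obtain ⟨a, ha⟩ := H32.mem_range_of_finite_orbit c h
    exact ⟨a, ha⟩

end Action

end Fermat.Agent.S29.H871

end
end
-- ===== PACK-END S29/H871/Concrete.lean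

-- ===== PACK-BEGIN S17/H871/BC.lean
section



/-!
# S17 / G-DIV, piece BC: base change of classes `J₀(N)(ℚ̄) → Pic⁰(F_L)`

`stmtBC : StmtBC N L` for every algebraically closed field `L ⊇ ℚ̄`: the homomorphism
`β = bcPic0` (constant field extension of divisor classes, `S29/H871`) is injective, its values
are represented by `ℚ̄`-rational divisors, and every class with `ℚ̄`-rational minimal
representative lies in its image.

Adapter over the library `Fermat.Agent.S29.H871` (abstract constant field extensions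
`IsConstExt` / `IsDescentAction`, instantiated for Laurent base changes in `Concrete.lean`):
* `bcPlace`, `ord_bcPlace` : base change of places;
* `exists_bcPlace_eq` : a place of `F_L` which is nontrivial on `F_ℚ̄` is a base change;
* `bcPic0_injective`.

(helper871)
-/

set_option autoImplicit false
set_option linter.unusedSectionVars false

noncomputable section

namespace Fermat.Agent.S17.H871

open AlgebraicCurve ModularCurve IntermediateField
open Fermat.Agent.Lib.RR Fermat.Agent.S17.H680 Fermat.Agent.S17.GDiv Fermat.Agent.S24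

section

variable (N : ℕ) [NeZero N] (L : Type) [Field L] [Algebra ℚ L] [Algebra Qb L]

/-- The tower `ℚ ⊆ ℚ̄ ⊆ L` is automatically compatible. -/
theorem isScalarTower_rat : IsScalarTower ℚ Qb L :=
  IsScalarTower.of_algebraMap_eq fun q => by
    have h : algebraMap ℚ L = (algebraMap Qb L).comp (algebraMap ℚ Qb) := Subsingleton.elim _ _
    exact congrFun (congrArg DFunLike.coe h) q

/-- `L` has characteristic zero. -/
theorem charZero_of_algebraRat : CharZero L := algebraRat.charZero L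

end

section Main

variable (N : ℕ) [NeZero N] (L : Type) [Field L] [Algebra ℚ L] [Algebra Qb L] [IsAlgClosed L]

attribute [local instance] Fermat.Agent.S29.H871.lbcAlgebra Fermat.Agent.S29.H871.lbcAlgebraBase
  Fermat.Agent.S29.H871.lbc_isScalarTower₁ Fermat.Agent.S29.H871.lbc_isScalarTower₂
  Fermat.Agent.S29.H871.isConstExt_lbc isScalarTower_rat charZero_of_algebraRat

/-- Base change of the function with rational `q`-expansion `u` to `ℚ̄`. -/
def bcQb (u : modularFunctionFieldFull N) : FF N :=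
  ⟨coeffEmb Qb (u : LaurentSeries ℚ), coeffEmb_mem_laurentBaseChange Qb u.2⟩

theorem algebraMap_bcQb (u : modularFunctionFieldFull N) :
    algebraMap (FF N) (FL N L) (bcQb N u) = bcQ N L u := by
  apply Subtype.ext
  show coeffMap (algebraMap Qb L) (coeffEmb Qb (u : LaurentSeries ℚ))
    = coeffEmb L (u : LaurentSeries ℚ)
  exact Fermat.Agent.S29.H32.coeffMap_coeffEmb_up _

theorem algebraMap_jF : algebraMap (FF N) (FL N L) (jF N) = tL N L :=
  algebraMap_bcQb N L (jQ N)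

theorem algebraMap_const (c : Qb) :
    algebraMap (FF N) (FL N L) (algebraMap Qb (FF N) c)
      = algebraMap L (FL N L) (algebraMap Qb L c) := by
  rw [← IsScalarTower.algebraMap_apply Qb (FF N) (FL N L),
    IsScalarTower.algebraMap_apply Qb L (FL N L)]


open Fermat.Agent.S29.H871 in
/-- Base-changed places are rational over `ℚ̄`. -/
theorem isRationalOver_bcPlace [FiniteDimensional Qb⟮jF N⟯ (FF N)]
    (ht : Transcendental Qb (jF N)) (v : Place Qb (FF N)) :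
    IsRationalOver (kL L) (bcPlace L (FL N L) ht v) := by
  intro u c hc
  set P := bcPlace L (FL N L) ht v with hP
  have hc' : InMax P (bcQ N L u - algebraMap L (FL N L) c) := hc
  -- `bcQ u` is integral at `P`
  have h1 : bcQ N L u ∈ P.toValuationSubring := by
    have h2 : bcQ N L u - algebraMap L (FL N L) c ∈ P.toValuationSubring := by
      rcases hc' with h | h
      · rw [h]; exact zero_mem _
      · exact FF.mem_of_ord_nonneg P h.le
    have h3 := add_mem h2 (P.algebraMap_mem' c)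
    rwa [sub_add_cancel] at h3
  -- hence so is its model over `ℚ̄`
  have h4 : bcQb N u ∈ v.toValuationSubring := by
    apply FF.mem_of_ord_nonneg
    rw [← ord_bcPlace (K' := L) (F' := FL N L) ht v, algebraMap_bcQb]
    exact FF.ord_nonneg_of_mem P h1
  obtain ⟨a, ha⟩ := FF.exists_const_sub_mem_nonunits v ht h4
  have h5 : InMax P (bcQ N L u - algebraMap L (FL N L) (algebraMap Qb L a)) := by
    rw [← algebraMap_bcQb, ← algebraMap_const, ← map_sub]
    by_cases h0 : bcQb N u - algebraMap Qb (FF N) a = 0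
    · left; rw [h0, map_zero]
    · right
      rw [hP, ord_bcPlace]
      exact (FF.ord_pos_iff_mem_nonunits v h0).mpr ha
  have h6 : InMax P (algebraMap L (FL N L) (algebraMap Qb L a - c)) := by
    have := hc'.sub h5
    rwa [sub_sub_sub_cancel_left, ← map_sub] at this
  have h7 := h6.const_eq_zero
  exact ⟨a, sub_eq_zero.mp h7⟩

open Fermat.Agent.S29.H871 in
/-- A place of `F_L` that is rational over `ℚ̄` is a base change. -/
theorem exists_bcPlace_eq_of_isRationalOver [FiniteDimensional Qb⟮jF N⟯ (FF N)]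
    (ht : Transcendental Qb (jF N)) {P : Place L (FL N L)} (hP : IsRationalOver (kL L) P) :
    ∃ v : Place Qb (FF N), bcPlace L (FL N L) ht v = P := by
  apply exists_bcPlace_eq ht P
  by_cases hneg : P.ord (tL N L) < 0
  · refine ⟨jF N, ?_⟩
    show P.ord (algebraMap (FF N) (FL N L) (jF N)) ≠ 0
    rw [algebraMap_jF]
    omega
  · have hmem : tL N L ∈ P.toValuationSubring := FF.mem_of_ord_nonneg P (not_lt.mp hneg)
    have ht' := transcendental_algebraMap (K' := L) (F' := FL N L) ht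
    have hfd := finiteDimensional_adjoin_algebraMap (K := Qb) (K' := L) (F' := FL N L) (jF N)
    rw [algebraMap_jF] at ht' hfd
    obtain ⟨c, hc⟩ := FF.exists_const_sub_mem_nonunits P ht' hmem
    have hval : HasValue P (bcQ N L (jQ N)) c := inMax_of_mem_nonunits hc
    obtain ⟨c₀, rfl⟩ := hP (jQ N) c hval
    refine ⟨jF N - algebraMap Qb (FF N) c₀, ?_⟩
    have hne : jF N - algebraMap Qb (FF N) c₀ ≠ 0 := by
      intro h0
      apply ht
      rw [sub_eq_zero.mp h0]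
      exact isAlgebraic_algebraMap c₀
    have himg : algebraMap (FF N) (FL N L) (jF N - algebraMap Qb (FF N) c₀)
        = tL N L - algebraMap L (FL N L) (algebraMap Qb L c₀) := by
      rw [map_sub, algebraMap_jF, algebraMap_const]
    have hne' : tL N L - algebraMap L (FL N L) (algebraMap Qb L c₀) ≠ 0 := by
      rw [← himg]
      exact fun h => hne ((algebraMap (FF N) (FL N L)).injective (by rw [h, map_zero]))
    show P.ord (algebraMap (FF N) (FL N L) (jF N - algebraMap Qb (FF N) c₀)) ≠ 0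
    rw [himg]
    have := (FF.ord_pos_iff_mem_nonunits P hne').mpr hc
    omega

open Fermat.Agent.S29.H871 in
/-- The cusp `∞` of `F_L` is a base change. -/
theorem exists_bcPlace_eq_cuspL [FiniteDimensional Qb⟮jF N⟯ (FF N)]
    (ht : Transcendental Qb (jF N)) :
    ∃ v : Place Qb (FF N), bcPlace L (FL N L) ht v = cuspL N L := by
  apply exists_bcPlace_eq ht (cuspL N L)
  refine ⟨jF N, ?_⟩
  show (cuspL N L).ord (algebraMap (FF N) (FL N L) (jF N)) ≠ 0
  rw [algebraMap_jF]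
  intro h0
  have hmem : tL N L ∈ (cuspL N L).toValuationSubring :=
    FF.mem_of_ord_nonneg _ (le_of_eq h0.symm)
  have h1 : 0 ≤ ((tL N L : FL N L) : LaurentSeries L).order :=
    (mem_cuspInf (modularFunctionFieldFull N) (exists_order_neg N L) (tL N L)).mp hmem
  have h2 : (coeffEmb L jq).order ≤ -1 :=
    HahnSeries.order_le_of_coeff_ne_zero (by
      rw [coeffEmb_coeff, coeff_jq_neg_one, map_one]; exact one_ne_zero)
  have h3 : ((tL N L : FL N L) : LaurentSeries L) = coeffEmb L jq := rfl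
  rw [h3] at h1
  omega

open Fermat.Agent.S29.H871 in
/-- **G-DIV, piece BC.**  Base change of divisor classes `J₀(N)(ℚ̄) → Pic⁰(F_L)` is injective,
its values are represented by `ℚ̄`-rational divisors, and every class with `ℚ̄`-rational minimal
representative is a base change. -/
theorem stmtBC [FF1 L (FL N L)] : StmtBC N L := by
  classical
  have hfd : FiniteDimensional Qb⟮jF N⟯ (FF N) := Fermat.Agent.Lib.RR.H804.finiteDimensional_jF N
  have ht : Transcendental Qb (jF N) := Fermat.Agent.Lib.RR.H804.transcendental_jF N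
  refine ⟨bcPic0 L (FL N L) ht,
    bcPic0_injective (isDescentAction_lbc (k := Qb) (Ω := L) (modularFunctionFieldFull N)) ht,
    ?_, ?_⟩
  · intro x
    obtain ⟨D, rfl⟩ := Pic0.mk_surjective x
    refine ⟨bcDegZero L (FL N L) ht D, ?_, bcPic0_mk ht D⟩
    intro P hP
    rw [coe_bcDegZero] at hP
    have hP' : P ∈ ((D : Divisor Qb (FF N)).support).image (bcPlace L (FL N L) ht) :=
      Finsupp.mapDomain_support hP
    obtain ⟨v, -, rfl⟩ := Finset.mem_image.mp hP'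
    exact isRationalOver_bcPlace N L ht v
  · intro y hy
    have hsupp : ∀ w ∈ (minDiv (cuspL N L) y : Divisor L (FL N L)).support,
        w ∈ Set.range (bcPlace L (FL N L) ht) := by
      intro w hw
      by_cases hwc : w = cuspL N L
      · rw [hwc]; exact exists_bcPlace_eq_cuspL N L ht
      · apply exists_bcPlace_eq_of_isRationalOver N L ht
        apply hy
        rw [Finsupp.mem_support_iff] at hw ⊢
        intro h0
        apply hw
        rw [coe_minDiv, Finsupp.sub_apply, h0, Finsupp.smul_apply, prim,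
          Finsupp.single_apply, if_neg (Ne.symm hwc)]
        simp
    obtain ⟨E₀, hE₀⟩ := exists_bcDiv_eq ht _ hsupp
    have hdeg : E₀ ∈ Divisor.degZero (K := Qb) (F := FF N) := by
      rw [Divisor.mem_degZero, ← degree_bcDiv (K' := L) (F' := FL N L) ht, hE₀]
      exact (minDiv (cuspL N L) y).2
    refine ⟨Pic0.mk ⟨E₀, hdeg⟩, ?_⟩
    rw [bcPic0_mk]
    conv_rhs => rw [← mk_minDiv (cuspL N L) y]
    congr 1
    exact Subtype.ext hE₀

end Main

end Fermat.Agent.S17.H871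

end
end
-- ===== PACK-END S17/H871/BC.lean

-- ===== PACK-BEGIN S17/H770/DerA.lean
section







/-!
# S17 / G-DIV, piece DER-a (helper770): places of constant type

`stmtDERa : H797.StmtDERa N L` : at a place `P` of `F_L` on which some function with rational
`q`-expansion has a zero or a pole, the coefficientwise derivation `D` satisfies
`ord_P (D h) ≥ ord_P h`.

Proof.  `P` is the base change of a place `v` of `F_{ℚ̄}` (helper871's dichotomy), so every
`h ∈ O_P` is a quotient `μ(x)/μ(s)` with `x, s ∈ O_v ⊗ L` and `μ(s)` a unit at `P`.  `D` kills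
`F_{ℚ̄}` (derivations kill algebraic numbers), hence maps the image of `μ` into itself.  So
`D (O_P) ⊆ O_P` (`dIntegral_of_approx`); `P` is a zero or pole of a `D`-constant function, hence
`D (𝔪_P) ⊆ 𝔪_P` (`dStable_of_der_eq_zero`), and `ord_le_ord_der_of_dStable` concludes.
-/

set_option autoImplicit false
set_option linter.unusedSectionVars false
set_option linter.style.haveILetI false

noncomputable section

open AlgebraicCurve ModularCurve TensorProduct IntermediateField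

namespace Fermat.Agent.S17.H770

open Fermat.Agent.Lib.RR Fermat.Agent.S17.GDiv Fermat.Agent.S17.H797 Fermat.Agent.S29.H871

/-- Characteristic `0`: a derivation kills the algebraic numbers. -/
theorem derivation_eq_zero_of_isAlgebraic {L : Type*} [Field L] [Algebra ℚ L]
    (d : Derivation ℚ L L) {x : L} (hx : IsAlgebraic ℚ x) : d x = 0 := by
  have hint : IsIntegral ℚ x := hx.isIntegral
  have hsep : (minpoly ℚ x).Separable := (minpoly.irreducible hint).separable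
  have h0 : Polynomial.aeval x (minpoly ℚ x) = 0 := minpoly.aeval ℚ x
  have h1 := congrArg d h0
  rw [Derivation.map_aeval, map_zero, smul_eq_mul] at h1
  have h2 : Polynomial.aeval x (Polynomial.derivative (minpoly ℚ x)) ≠ 0 :=
    hsep.aeval_derivative_ne_zero h0
  exact (mul_eq_zero.1 h1).resolve_left h2

section Main

variable (N : ℕ) [NeZero N] (L : Type) [Field L] [Algebra ℚ L] [Algebra Qb L]
  [IsScalarTower ℚ Qb L] [IsAlgClosed L]

attribute [local instance] lbcAlgebra lbcAlgebraBase lbc_isScalarTower₁ lbc_isScalarTower₂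

/-- The base change `F_{ℚ̄} → F_L` of a function with rational `q`-expansion. -/
theorem algebraMap_bcQ_bar (u : modularFunctionFieldFull N) :
    algebraMap (modularFunctionFieldBar N) (FL N L)
      ⟨coeffEmb Qb (u : LaurentSeries ℚ), coeffEmb_mem_laurentBaseChange Qb u.2⟩ = bcQ N L u := by
  apply Subtype.ext
  show coeffMap (algebraMap Qb L) (coeffEmb Qb (u : LaurentSeries ℚ)) = coeffEmb L _
  rw [coeffEmb, coeffMap_coeffMap, coeffEmb]
  exact coeffMap_congr (IsScalarTower.algebraMap_eq ℚ Qb L).symm _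

/-- The coefficientwise derivation kills `F_{ℚ̄}`. -/
theorem fieldDer_algebraMap_bar (d : Derivation ℚ L L) (a : modularFunctionFieldBar N) :
    fieldDer d (modularFunctionFieldFull N) (algebraMap (modularFunctionFieldBar N) (FL N L) a)
      = 0 := by
  rw [fieldDer_eq_zero_iff]
  intro m
  show d ((coeffMap (algebraMap Qb L) (a : LaurentSeries Qb)).coeff m) = 0
  rw [coeffMap_coeff]
  have halg : Algebra.IsAlgebraic ℚ Qb := AlgebraicClosure.isAlgebraic ℚ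
  exact derivation_eq_zero_of_isAlgebraic d
    ((halg.isAlgebraic ((a : LaurentSeries Qb).coeff m)).algebraMap)

/-- The coefficientwise derivation maps the image of `O_v ⊗ L` into itself. -/
theorem exists_fieldDer_muA (d : Derivation ℚ L L) (v : Place Qb (modularFunctionFieldBar N))
    (x : v.toValuationSubring ⊗[Qb] L) :
    ∃ y : v.toValuationSubring ⊗[Qb] L,
      fieldDer d (modularFunctionFieldFull N) (muA L (FL N L) v x) = muA L (FL N L) v y := by
  induction x using TensorProduct.induction_on with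
  | zero => exact ⟨0, by simp⟩
  | tmul a c =>
    refine ⟨a ⊗ₜ[Qb] d c, ?_⟩
    rw [muA_tmul, muA_tmul, Derivation.leibniz, fieldDer_algebraMap_bar, fieldDer_algebraMap,
      smul_zero, add_zero, smul_eq_mul]
  | add x y hx hy =>
    obtain ⟨x', hx'⟩ := hx
    obtain ⟨y', hy'⟩ := hy
    exact ⟨x' + y', by rw [map_add, map_add, map_add, hx', hy']⟩

/-- **DER-a**, with a chosen embedding `ℚ̄ → L`. -/
theorem stmtDERa_of_algebra : StmtDERa N L := by
  intro d P hP h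
  classical
  have hchar : CharZero (FL N L) :=
    charZero_of_injective_algebraMap (algebraMap ℚ (FL N L)).injective
  have hce : IsConstExt Qb (modularFunctionFieldBar N) L (FL N L) :=
    isConstExt_lbc (modularFunctionFieldFull N)
  have ht := Fermat.Agent.Lib.RR.H804.transcendental_jF N
  have hfin := Fermat.Agent.Lib.RR.H804.finiteDimensional_jF N
  obtain ⟨u, hu⟩ := hP
  -- `P` is a base change
  obtain ⟨v, rfl⟩ := exists_bcPlace_eq (K' := L) (F' := FL N L) ht P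
    ⟨⟨coeffEmb Qb (u : LaurentSeries ℚ), coeffEmb_mem_laurentBaseChange Qb u.2⟩, by
      show (P.ord (algebraMap (modularFunctionFieldBar N) (FL N L) _)) ≠ 0
      rw [algebraMap_bcQ_bar]
      exact hu⟩
  set P := bcPlace L (FL N L) ht v with hPdef
  have hrat : IsRationalPlace v := isRationalPlace_all ht v
  have h1 : ∀ f ∈ v.toValuationSubring,
      0 ≤ P.ord (algebraMap (modularFunctionFieldBar N) (FL N L) f) := by
    intro f hf
    rw [hPdef, ord_bcPlace]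
    exact ord_nonneg_of_mem v hf
  obtain ⟨π, hπ⟩ := IsDiscreteValuationRing.exists_irreducible v.toValuationSubring
  have h2 : 0 < P.ord (algebraMap (modularFunctionFieldBar N) (FL N L) (π : _)) := by
    rw [hPdef, ord_bcPlace, v.ord_coe_irreducible hπ]
    norm_num
  set D := fieldDer d (modularFunctionFieldFull N) with hD
  -- `D (O_P) ⊆ O_P`
  have hint : DIntegral D P := by
    refine dIntegral_of_approx D P (Set.range (muA L (FL N L) v)) ?_ ?_
    · rintro a ⟨x, rfl⟩ -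
      obtain ⟨y, hy⟩ := exists_fieldDer_muA N L d v x
      rw [hD, hy]
      exact ord_nonneg_of_mem P (muA_mem_of_le P h1 y)
    · intro f hf
      have hfmem : f ∈ P.toValuationSubring := mem_of_ord_nonneg P hf
      obtain ⟨x, s, hs, hxs⟩ : IsIntegralBC L (FL N L) hrat f := hfmem
      have hs0 : muA L (FL N L) v s ≠ 0 := muA_ne_zero (eps_ne_zero_ne_zero hrat hs)
      refine ⟨_, ⟨x, rfl⟩, _, ⟨s, rfl⟩, hs0,
        ord_muA_eq_zero_of_eps_ne_zero hrat P h1 hπ h2 hs,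
        ord_nonneg_of_mem P (muA_mem_of_le P h1 x), ?_⟩
      rw [← hxs]
      field_simp
  -- `D (𝔪_P) ⊆ 𝔪_P`
  have hst : DStable D P :=
    dStable_of_der_eq_zero D P hint (f := bcQ N L u)
      (fieldDer_coeffEmb d (modularFunctionFieldFull N) u.2) hu
  have hDL : DL d h = D h := rfl
  rw [hDL]
  rcases eq_or_ne h 0 with rfl | h0
  · left
    exact map_zero D
  · exact ord_le_ord_der_of_dStable D P hst h0

end Main

/-- **DER-a** (exact shape of `H797/DerDefs.lean`): at a place of constant type the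
coefficientwise derivation does not lower the order. -/
theorem stmtDERa (N : ℕ) [NeZero N] (L : Type) [Field L] [Algebra ℚ L] [IsAlgClosed L] :
    StmtDERa N L := by
  haveI halg : Algebra.IsAlgebraic ℚ Qb := AlgebraicClosure.isAlgebraic ℚ
  let φ : Qb →ₐ[ℚ] L := IsAlgClosed.lift
  letI : Algebra Qb L := φ.toRingHom.toAlgebra
  haveI : IsScalarTower ℚ Qb L := IsScalarTower.of_algebraMap_eq fun r => (φ.commutes r).symm
  exact stmtDERa_of_algebra N L

end Fermat.Agent.S17.H770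

end
end
-- ===== PACK-END S17/H770/DerA.lean

-- ===== PACK-BEGIN S59/Unit3/H461/UnitPairGen.lean
section


/-!
# S59 / leaf UNIT-3, part 8: from a unit PACKAGE to the unit PAIR in cut form, GENERIC
(helper461)

`PkgAt P E M q N₀ X₀` : the format of `S36.H438.mu_package` (exponent `12`, `X₀ = Δ(t)/Δ(t^q)`)
and of `S59.Unit3.H461.mu3_package` (`q = 3`, exponent `8`, `X₀ = v3L`), restricted to what the
walls use: `D, D'` in the finite chart of `x = j · j_q`, `D · D' = q ^ N₀`, `D'` a unit of `V∞`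
with `t`-expansion `X₀`, `D` a unit of `V₀ = V∞.comap W`.

`exists_unitPair_cut_of_pkg` : the pair in CUT form with the ramification index `e` REMEMBERED
(`q ~ w ^ e`): `D₁ · D₁' = w ^ (N₀ e)`, `D₁ ∉ p₁`, `D₁' ∉ p₂`, `D₁ = X₀` as a `t`-series.
This is the body of `Ribet.H912.UnitPairAt` (generic TAME) and, with `e` computed at the tame
level, of `Ribet.H712.Frame.UnitPairAt` (generic WILD frame).
Same proof as `Ribet.H464.exists_unitPair_cut_exp464` (which is the case `N₀ = 12`).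
-/

set_option autoImplicit false
set_option synthInstance.maxHeartbeats 400000
set_option maxHeartbeats 1600000
set_option linter.unusedSectionVars false

noncomputable section

namespace Fermat.Agent.S59.Unit3.H461

open ModularCurve HahnSeries
open Fermat.Agent.A2.Mod

variable {P : ValuationSubring Qb} {E : IntermediateField ℚ Qb}

section Pair

variable {M q : ℕ} [NeZero M] [NeZero q]

/-- **A unit package** of exponent `N₀` with expansion `X₀` at level `M * q` over `E`. -/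
def PkgAt (P : ValuationSubring Qb) (E : IntermediateField ℚ Qb) (M q : ℕ) [NeZero M]
    [NeZero q] (N₀ : ℕ) (X₀ : LaurentSeries ℤ) : Prop :=
  ∃ D D' : FE E (M * q),
    (D' : LaurentSeries E) = Fermat.Agent.S36.H438.castE E X₀ ∧
    D * D' = algebraMap E (FE E (M * q)) ((q : E) ^ N₀) ∧
    D ∈ chartAlg P E (M * q) (xE E M q) ∧
    D' ∈ chartAlg P E (M * q) (xE E M q) ∧
    (∀ V : ValuationSubring (FE E (M * q)), IsVinf P E (M * q) V → D' ∈ V ∧ D'⁻¹ ∈ V) ∧
    (∀ (V : ValuationSubring (FE E (M * q))) (W : FE E (M * q) ≃ₐ[E] FE E (M * q)),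
      IsVinf P E (M * q) V → IsFricke E (M * q) W →
        D ∈ V.comap (W : FE E (M * q) →+* FE E (M * q)) ∧
        D⁻¹ ∈ V.comap (W : FE E (M * q) →+* FE E (M * q)))

/-- The package of main: exponent `12`, expansion `Δ(t)/Δ(t^q)`. -/
theorem pkgAt_delta (hq : q.Prime) :
    PkgAt P E M q 12 (Fermat.Agent.S28.H589.unitL' q) := by
  obtain ⟨D, D', -, hexp, hmul, hD, hD', hVu, hV0u, -⟩ :=
    Fermat.Agent.S36.H438.mu_package P E M q hq
  exact ⟨D, D', hexp, hmul, hD, hD', hVu, hV0u⟩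

/-- The pair `D₁ = X₀`, `D₁' = q ^ N₀ / X₀` of a package: `D₁ ∉ w V∞`, `D₁' ∉ w V₀`. -/
theorem unitPair_of_pkg {N₀ : ℕ} {X₀ : LaurentSeries ℤ} (hpkg : PkgAt P E M q N₀ X₀)
    {w : RE P E} (hS : Setting P E M q w)
    {V : ValuationSubring (FE E (M * q))} {W : FE E (M * q) ≃ₐ[E] FE E (M * q)}
    (hV : IsVinf P E (M * q) V) (hW : IsFricke E (M * q) W) :
    ∃ D D' : FE E (M * q),
      D ∈ chartAlg P E (M * q) (xE E M q) ∧ D' ∈ chartAlg P E (M * q) (xE E M q) ∧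
      D * D' = cE P E (M * q) ((q : RE P E) ^ N₀) ∧
      ¬ InW P E (M * q) V w D ∧
      ¬ InW P E (M * q) (V.comap (W : FE E (M * q) →+* FE E (M * q))) w D' ∧
      (D : LaurentSeries E) = Fermat.Agent.S36.H438.castE E X₀ := by
  obtain ⟨D', D, hexp, hmul, hD', hD, hVu, hV0u⟩ := hpkg
  have hc0 : algebraMap E (FE E (M * q)) ((q : E) ^ N₀) ≠ 0 := by
    rw [Ne, map_eq_zero]
    exact pow_ne_zero N₀ (Nat.cast_ne_zero.mpr (NeZero.ne q))
  have hD0 : D ≠ 0 := by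
    rintro rfl
    rw [mul_zero] at hmul
    exact hc0 hmul.symm
  have hD'0 : D' ≠ 0 := by
    rintro rfl
    rw [zero_mul] at hmul
    exact hc0 hmul.symm
  refine ⟨D, D', hD, hD', ?_, ?_, ?_, hexp⟩
  · rw [mul_comm D D', hmul, cE]
    congr 1
  · exact Fermat.Agent.Ribet.H873.not_inW_of_inv_mem873
      (Fermat.Agent.Ribet.H873.cE_inv_not_mem873 hS.dvr hS.unif hV) hD0 (hVu V hV).2
  · exact Fermat.Agent.Ribet.H873.not_inW_of_inv_mem873
      (Fermat.Agent.Ribet.H873.cE_inv_not_mem_comap873 hS.dvr hS.unif hV W) hD'0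
      (hV0u V W hV hW).2

/-- **Normalised, with expansion.**  `q ε = w ^ e` in `R_E`: elements `D, D'` of the chart
`B = chartAlg x` with `D · D' = w ^ (N₀ e)`, `D ∉ w V∞`, `D' ∉ w V₀`, and `D = X₀`. -/
theorem exists_unitPair_of_pkg {N₀ : ℕ} {X₀ : LaurentSeries ℤ} (hpkg : PkgAt P E M q N₀ X₀)
    {w : RE P E} (hS : Setting P E M q w)
    {V : ValuationSubring (FE E (M * q))} {W : FE E (M * q) ≃ₐ[E] FE E (M * q)}
    (hV : IsVinf P E (M * q) V) (hW : IsFricke E (M * q) W) :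
    ∃ (e : ℕ) (D D' : chartAlg P E (M * q) (xE E M q)), 0 < e ∧
      Associated ((q : ℕ) : RE P E) (w ^ e) ∧
      D * D' = algebraMap (RE P E) (chartAlg P E (M * q) (xE E M q)) w ^ (N₀ * e) ∧
      ¬ InW P E (M * q) V w (D : FE E (M * q)) ∧
      ¬ InW P E (M * q) (V.comap (W : FE E (M * q) →+* FE E (M * q))) w
        (D' : FE E (M * q)) ∧
      (((D : FE E (M * q)) : FE E (M * q)) : LaurentSeries E) =
        Fermat.Agent.S36.H438.castE E X₀ := by
  haveI := hS.dvr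
  obtain ⟨D₀, D₀', hD, hD', hmul, hDV, hD'V, hexp⟩ := unitPair_of_pkg hpkg hS hV hW
  have hq0 : ((q : ℕ) : RE P E) ≠ 0 := Nat.cast_ne_zero.mpr (NeZero.ne q)
  obtain ⟨e, he⟩ := IsDiscreteValuationRing.associated_pow_irreducible hq0 hS.unif
  have he0 : 0 < e := by
    rcases Nat.eq_zero_or_pos e with h0 | h0
    · exfalso
      rw [h0, pow_zero] at he
      exact Fermat.Agent.Ribet.H873.not_isUnit_natCast873 hS.lies_over
        (he.symm.isUnit_iff.mp isUnit_one)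
    · exact h0
  obtain ⟨ε, hε⟩ := he
  set B := chartAlg P E (M * q) (xE E M q) with hB
  refine ⟨e, ⟨D₀, hD⟩, algebraMap (RE P E) B ((ε : RE P E) ^ N₀) * ⟨D₀', hD'⟩,
    he0, ⟨ε, hε⟩, ?_, hDV, ?_, hexp⟩
  · apply Subtype.ext
    show D₀ * (algebraMap (RE P E) (FE E (M * q)) ((ε : RE P E) ^ N₀) * D₀') =
      (algebraMap (RE P E) (FE E (M * q)) w) ^ (N₀ * e)
    have hcE : cE P E (M * q) ((q : RE P E) ^ N₀) =
        algebraMap (RE P E) (FE E (M * q)) ((q : RE P E) ^ N₀) := rfl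
    rw [mul_left_comm, hmul, hcE, ← map_mul, ← map_pow]
    congr 1
    rw [pow_mul', ← hε]
    ring
  · intro h
    apply hD'V
    have hεV : algebraMap (RE P E) (FE E (M * q)) (((ε⁻¹ : (RE P E)ˣ) : RE P E) ^ N₀) ∈
        V.comap (W : FE E (M * q) →+* FE E (M * q)) := by
      rw [ValuationSubring.mem_comap]
      have h1 : (W : FE E (M * q) →+* FE E (M * q))
          (algebraMap (RE P E) (FE E (M * q)) (((ε⁻¹ : (RE P E)ˣ) : RE P E) ^ N₀)) =
          algebraMap E (FE E (M * q)) ((((ε⁻¹ : (RE P E)ˣ) : RE P E) ^ N₀ : RE P E) : E) :=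
        W.commutes _
      rw [h1]
      exact (Fermat.Agent.A2.Mod.H708.algebraMap_mem_iff_of_isVinf hV _).mpr (Subtype.mem _)
    have h2 := (V.comap (W : FE E (M * q) →+* FE E (M * q))).mul_mem _ _ hεV h
    have h3 : algebraMap (RE P E) (FE E (M * q)) (((ε⁻¹ : (RE P E)ˣ) : RE P E) ^ N₀) *
        (((algebraMap (RE P E) B ((ε : RE P E) ^ N₀) * ⟨D₀', hD'⟩ : B) : FE E (M * q)) *
          (cE P E (M * q) w)⁻¹) = D₀' * (cE P E (M * q) w)⁻¹ := by
      have h4 : algebraMap (RE P E) (FE E (M * q)) (((ε⁻¹ : (RE P E)ˣ) : RE P E) ^ N₀) *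
          algebraMap (RE P E) (FE E (M * q)) ((ε : RE P E) ^ N₀) = 1 := by
        rw [← map_mul, ← mul_pow, Units.inv_mul, one_pow, map_one]
      show algebraMap (RE P E) (FE E (M * q)) (((ε⁻¹ : (RE P E)ˣ) : RE P E) ^ N₀) *
        ((algebraMap (RE P E) (FE E (M * q)) ((ε : RE P E) ^ N₀) * D₀') *
          (cE P E (M * q) w)⁻¹) = _
      rw [← mul_assoc, ← mul_assoc, h4, one_mul]
    rw [h3] at h2
    exact h2

/-- **Cut form, with expansion and ramification index** (= the body of `Ribet.H912.UnitPairAt`):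
`D ∉ p₁`, `D' ∉ p₂` for the components `p₁ = B ∩ w V∞`, `p₂ = B ∩ w V₀` (`A2.Mod.IsCut`). -/
theorem exists_unitPair_cut_of_pkg {N₀ : ℕ} {X₀ : LaurentSeries ℤ}
    (hpkg : PkgAt P E M q N₀ X₀) {w : RE P E} (hS : Setting P E M q w)
    {V : ValuationSubring (FE E (M * q))} {W : FE E (M * q) ≃ₐ[E] FE E (M * q)}
    (hV : IsVinf P E (M * q) V) (hW : IsFricke E (M * q) W)
    (p₁ p₂ : Ideal (chartAlg P E (M * q) (xE E M q)))
    (hc₁ : IsCut P E (M * q) w V (chartAlg P E (M * q) (xE E M q)) p₁)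
    (hc₂ : IsCut P E (M * q) w (V.comap (W : FE E (M * q) →+* FE E (M * q)))
      (chartAlg P E (M * q) (xE E M q)) p₂) :
    ∃ (e : ℕ) (D D' : chartAlg P E (M * q) (xE E M q)), 0 < e ∧
      Associated ((q : ℕ) : RE P E) (w ^ e) ∧
      D * D' = algebraMap (RE P E) (chartAlg P E (M * q) (xE E M q)) w ^ (N₀ * e) ∧
      D ∉ p₁ ∧ D' ∉ p₂ ∧
      (((D : FE E (M * q)) : FE E (M * q)) : LaurentSeries E) =
        Fermat.Agent.S36.H438.castE E X₀ := by
  obtain ⟨e, D, D', he, hass, hmul, hD, hD', hexp⟩ := exists_unitPair_of_pkg hpkg hS hV hW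
  exact ⟨e, D, D', he, hass, hmul, fun h => hD ((hc₁ D).mp h), fun h => hD' ((hc₂ D').mp h),
    hexp⟩

/-- Exponents of an irreducible are determined up to association. -/
theorem pow_eq_of_associated_h461 {R : Type*} [CommRing R] [IsDomain R]
    [IsDiscreteValuationRing R] {w a : R} (hw : Irreducible w) {e e' : ℕ}
    (h : Associated a (w ^ e)) (h' : Associated a (w ^ e')) : e = e' := by
  obtain ⟨u, hu⟩ := h.symm.trans h'
  have h1 : (u : R) * w ^ e = ((1 : Rˣ) : R) * w ^ e' := by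
    rw [Units.val_one, one_mul, mul_comm]
    exact hu
  exact IsDiscreteValuationRing.unit_mul_pow_congr_pow hw hw u 1 e e' h1

/-- **Cut form at a level of known ramification index** `e₀` (`q ~ w ^ e₀`; e.g. the tame level
`ℚ(ζ_q)`: `e₀ = q - 1`), exponent `Nn = N₀ e₀` prime to `m` as soon as `N₀` and `e₀` are
(= the body of `Ribet.H712.Frame.UnitPairAt`, fields `N, D, D'` of `H704.CoreOut.WildFrame`). -/
theorem exists_unitPair_ram_of_pkg {N₀ : ℕ} {X₀ : LaurentSeries ℤ}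
    (hpkg : PkgAt P E M q N₀ X₀) {w : RE P E} (hS : Setting P E M q w) {e₀ : ℕ}
    (hram : Associated ((q : ℕ) : RE P E) (w ^ e₀))
    {V : ValuationSubring (FE E (M * q))} {W : FE E (M * q) ≃ₐ[E] FE E (M * q)}
    (hV : IsVinf P E (M * q) V) (hW : IsFricke E (M * q) W)
    (p₁ p₂ : Ideal (chartAlg P E (M * q) (xE E M q)))
    (hc₁ : IsCut P E (M * q) w V (chartAlg P E (M * q) (xE E M q)) p₁)
    (hc₂ : IsCut P E (M * q) w (V.comap (W : FE E (M * q) →+* FE E (M * q)))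
      (chartAlg P E (M * q) (xE E M q)) p₂) :
    ∃ (D D' : chartAlg P E (M * q) (xE E M q)),
      D * D' = algebraMap (RE P E) (chartAlg P E (M * q) (xE E M q)) w ^ (N₀ * e₀) ∧
      D ∉ p₁ ∧ D' ∉ p₂ ∧
      (((D : FE E (M * q)) : FE E (M * q)) : LaurentSeries E) =
        Fermat.Agent.S36.H438.castE E X₀ := by
  haveI := hS.dvr
  obtain ⟨e, D, D', -, hass, hmul, hD, hD', hexp⟩ :=
    exists_unitPair_cut_of_pkg hpkg hS hV hW p₁ p₂ hc₁ hc₂
  have he : e = e₀ := pow_eq_of_associated_h461 hS.unif hass hram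
  subst he
  exact ⟨D, D', hmul, hD, hD', hexp⟩

end Pair

end Fermat.Agent.S59.Unit3.H461

end
end
-- ===== PACK-END S59/Unit3/H461/UnitPairGen.lean

-- ===== PACK-BEGIN S38/H201/StepAGen.lean
section







/-!
# HARD / HECKE, IA-ST step (a), generic form (helper201)

Level `N`, `Γ₁(N) ≤ K ≤ Γ₀(N)`, a prime `q ∤ N`, `K_q = K ⊓ Γ₀(N q)`, `𝒪` a complete discrete
valuation ring.

* `t₁K_mem_locPart201`, `t₂K_mem_locPart201` : the transfers `t₁, t₂ : X_{K_q}(𝒪) → X_K(𝒪)` map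
  the localisation of `X_{K_q}(𝒪)` at an eigen-system into the localisation of `X_K(𝒪)` at the
  same eigen-system (NAT1 of helper105 + `TK_t₁K`, …, `UK_t₂K`);
* `UK_UK_of_locZero201` : if the localisation at level `K` vanishes, then `U_q² = ⟨σ⟩` on the
  localisation at level `K_q` (`σ ∈ Γ₀(N q)` with lower right entry `≡ q mod N`)
  (`H719.UK_UK_K_of_new`);
* `UK_UK_of_locZero_cast201` : the same for a group `K₁` and a level `M₁` which are only
  propositionally equal to `K_q` and `N q`.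
-/

set_option autoImplicit false

namespace Fermat.Agent.S38.H201

open IsLocalRing CongruenceSubgroup
open Fermat.Agent.S41.Spec Fermat.Agent.S59.TW.H653 Fermat.Agent.S59.TW.Aut
open Fermat.Agent.S59.TW.H201
open scoped MatrixGroups

section

variable {𝒪 : Type} [CommRing 𝒪] [IsDomain 𝒪] [IsDiscreteValuationRing 𝒪]
  [IsAdicComplete (maximalIdeal 𝒪) 𝒪]
variable {N q : ℕ} {K : Subgroup SL(2, ℤ)}

theorem not_dvd_of_not_dvd_mul201 {a : ℕ} (h : ¬ a ∣ N * q) : ¬ a ∣ N :=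
  fun h' => h (dvd_mul_of_dvd_left h' q)

/-- An `𝒪`-linear map `f : X_{K_q}(𝒪) → X_K(𝒪)` commuting with the `T_ℓ` (`ℓ ∤ N q`) and the
`U_{q'}` (`q' ∣ N`) maps localisations into localisations. -/
theorem map_mem_locPart201 (hN : N ≠ 0) (hK : IsMid N K)
    {Tset Uset : Set (ℕ × 𝒪)} {V : Submodule 𝒪 (Additive (Kq N q K) →+ 𝒪)}
    (hV : IsLocPart (isMid_Kq hK q) Tset Uset V)
    {Ts Us : Set (ℕ × 𝒪)} {W : Submodule 𝒪 (Additive K →+ 𝒪)}
    (hW : IsLocPart hK Ts Us W) (hTs : Ts ⊆ Tset) (hUs : Us ⊆ Uset)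
    (hT : ∀ x ∈ Ts, x.1.Prime ∧ ¬ x.1 ∣ N * q) (hU : ∀ x ∈ Us, x.1.Prime ∧ x.1 ∣ N)
    (f : (Additive (Kq N q K) →+ 𝒪) →ₗ[𝒪] (Additive K →+ 𝒪))
    (hfT : ∀ (ℓ : ℕ) [Fact ℓ.Prime], ¬ ℓ ∣ N * q → ∀ ψ : Additive (Kq N q K) →+ 𝒪,
      f (TK (N * q) (Kq N q K) ℓ ψ) = TK N K ℓ (f ψ))
    (hfU : ∀ (q' : ℕ) [Fact q'.Prime], q' ∣ N → ∀ ψ : Additive (Kq N q K) →+ 𝒪,
      f (UK (Kq N q K) q' ψ) = UK K q' (f ψ)) :
    ∀ x ∈ V, f x ∈ W := by
  have hU₁ : ∀ x ∈ Us, x.1.Prime ∧ x.1 ∣ N * q :=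
    fun x hx => ⟨(hU x hx).1, dvd_mul_of_dvd_left (hU x hx).2 q⟩
  have hT₂ : ∀ x ∈ Ts, x.1.Prime ∧ ¬ x.1 ∣ N :=
    fun x hx => ⟨(hT x hx).1, not_dvd_of_not_dvd_mul201 (hT x hx).2⟩
  refine Fermat.Agent.S59.H105.nat_of_isLocPart hN (isMid_Kq hK q) hK hV hW hTs hUs hT hU₁
    hT₂ hU f ?_
  intro i x
  rcases i with i | i
  · have : Fact i.1.1.Prime := ⟨(hT i.1 i.2).1⟩
    show f (TK (N * q) (Kq N q K) i.1.1 x - i.1.2 • x) = TK N K i.1.1 (f x) - i.1.2 • f x
    rw [map_sub, map_smul, hfT i.1.1 (hT i.1 i.2).2]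
  · have : Fact i.1.1.Prime := ⟨(hU i.1 i.2).1⟩
    show f (UK (Kq N q K) i.1.1 x - i.1.2 • x) = UK K i.1.1 (f x) - i.1.2 • f x
    rw [map_sub, map_smul, hfU i.1.1 (hU i.1 i.2).2]

/-- `t₁` maps the localisation at level `K_q` into the localisation at level `K`. -/
theorem t₁K_mem_locPart201 (hN : N ≠ 0) (hq : q.Prime) (hqN : ¬ q ∣ N) (hK : IsMid N K)
    {Tset Uset : Set (ℕ × 𝒪)} {V : Submodule 𝒪 (Additive (Kq N q K) →+ 𝒪)}
    (hV : IsLocPart (isMid_Kq hK q) Tset Uset V)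
    {Ts Us : Set (ℕ × 𝒪)} {W : Submodule 𝒪 (Additive K →+ 𝒪)}
    (hW : IsLocPart hK Ts Us W) (hTs : Ts ⊆ Tset) (hUs : Us ⊆ Uset)
    (hT : ∀ x ∈ Ts, x.1.Prime ∧ ¬ x.1 ∣ N * q) (hU : ∀ x ∈ Us, x.1.Prime ∧ x.1 ∣ N) :
    ∀ x ∈ V, t₁K N q K x ∈ W :=
  map_mem_locPart201 hN hK hV hW hTs hUs hT hU (t₁KL 𝒪 𝒪 N q K)
    (fun _ _ hℓ ψ => (TK_t₁K hK hN hq hqN hℓ ψ).symm)
    (fun _ _ hq' ψ => (UK_t₁K hK hN hq hqN hq' ψ).symm)

/-- `t₂` maps the localisation at level `K_q` into the localisation at level `K`. -/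
theorem t₂K_mem_locPart201 (hN : N ≠ 0) (hq : q.Prime) (hqN : ¬ q ∣ N) (hK : IsMid N K)
    {Tset Uset : Set (ℕ × 𝒪)} {V : Submodule 𝒪 (Additive (Kq N q K) →+ 𝒪)}
    (hV : IsLocPart (isMid_Kq hK q) Tset Uset V)
    {Ts Us : Set (ℕ × 𝒪)} {W : Submodule 𝒪 (Additive K →+ 𝒪)}
    (hW : IsLocPart hK Ts Us W) (hTs : Ts ⊆ Tset) (hUs : Us ⊆ Uset)
    (hT : ∀ x ∈ Ts, x.1.Prime ∧ ¬ x.1 ∣ N * q) (hU : ∀ x ∈ Us, x.1.Prime ∧ x.1 ∣ N) :
    ∀ x ∈ V, t₂K hK q x ∈ W :=
  map_mem_locPart201 hN hK hV hW hTs hUs hT hU (t₂KL 𝒪 𝒪 hK q)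
    (fun _ _ hℓ ψ => (TK_t₂K hK hN hq hqN hℓ ψ).symm)
    (fun _ _ hq' ψ => (UK_t₂K hK hN hq hqN hq' ψ).symm)

/-- **Step (a).**  If every localisation of `X_K(𝒪)` at `(Ts, Us)` vanishes, then `U_q² = ⟨σ⟩`
on every localisation of `X_{K_q}(𝒪)` at an eigen-system containing `(Ts, Us)`. -/
theorem UK_UK_of_locZero201 [Fact q.Prime] (hN : N ≠ 0) (hqN : ¬ q ∣ N) (hK : IsMid N K)
    {Tset Uset : Set (ℕ × 𝒪)} {V : Submodule 𝒪 (Additive (Kq N q K) →+ 𝒪)}
    (hV : IsLocPart (isMid_Kq hK q) Tset Uset V)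
    {Ts Us : Set (ℕ × 𝒪)} (hTs : Ts ⊆ Tset) (hUs : Us ⊆ Uset)
    (hT : ∀ x ∈ Ts, x.1.Prime ∧ ¬ x.1 ∣ N * q) (hU : ∀ x ∈ Us, x.1.Prime ∧ x.1 ∣ N)
    (hzero : ∀ W : Submodule 𝒪 (Additive K →+ 𝒪), IsLocPart hK Ts Us W → W = ⊥)
    (σ : Gamma0 (N * q))
    (hσ : ((dUnit N (incl N q σ) : (ZMod N)ˣ) : ZMod N) = (q : ZMod N)) :
    ∀ x ∈ V, UK (Kq N q K) q (UK (Kq N q K) q x) = diamond (isMid_Kq hK q) σ x := by
  intro x hx
  have hq : q.Prime := Fact.out
  have hT₂ : ∀ x ∈ Ts, x.1.Prime ∧ ¬ x.1 ∣ N :=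
    fun x hx => ⟨(hT x hx).1, not_dvd_of_not_dvd_mul201 (hT x hx).2⟩
  obtain ⟨W, hW⟩ := Fermat.Agent.S59.TW.Aut.H511.idem 𝒪 N hN K hK Ts Us hT₂ hU
  have hW0 : W = ⊥ := hzero W hW
  have h₁ : t₁K N q K x = 0 := by
    have := t₁K_mem_locPart201 hN hq hqN hK hV hW hTs hUs hT hU x hx
    rw [hW0] at this
    exact (Submodule.mem_bot 𝒪).mp this
  have h₂ : t₂K hK q x = 0 := by
    have := t₂K_mem_locPart201 hN hq hqN hK hV hW hTs hUs hT hU x hx
    rw [hW0] at this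
    exact (Submodule.mem_bot 𝒪).mp this
  exact Fermat.Agent.S38.H719.UK_UK_K_of_new hK hN hqN σ hσ x h₁ h₂

/-- **Step (a), transported.**  The same for a level `M₁ = N q` and a group `K₁ = K_q`
(propositional equalities). -/
theorem UK_UK_of_locZero_cast201 [Fact q.Prime] (hN : N ≠ 0) (hqN : ¬ q ∣ N)
    (hK : IsMid N K)
    {M₁ : ℕ} {K₁ : Subgroup SL(2, ℤ)} (hK₁ : IsMid M₁ K₁) (hM : M₁ = N * q)
    (hKK : K₁ = Kq N q K)
    {Tset Uset : Set (ℕ × 𝒪)} {V : Submodule 𝒪 (Additive K₁ →+ 𝒪)}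
    (hV : IsLocPart hK₁ Tset Uset V)
    {Ts Us : Set (ℕ × 𝒪)} (hTs : Ts ⊆ Tset) (hUs : Us ⊆ Uset)
    (hT : ∀ x ∈ Ts, x.1.Prime ∧ ¬ x.1 ∣ N * q) (hU : ∀ x ∈ Us, x.1.Prime ∧ x.1 ∣ N)
    (hzero : ∀ W : Submodule 𝒪 (Additive K →+ 𝒪), IsLocPart hK Ts Us W → W = ⊥)
    (σ : Gamma0 M₁)
    (hσ : ((((σ : SL(2, ℤ)) 1 1 : ℤ)) : ZMod N) = (q : ZMod N)) :
    ∀ x ∈ V, UK K₁ q (UK K₁ q x) = diamond hK₁ σ x := by
  subst hM
  subst hKK
  refine UK_UK_of_locZero201 hN hqN hK hV hTs hUs hT hU hzero σ ?_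
  rw [coe_dUnit]
  exact hσ

end

end Fermat.Agent.S38.H201

end
-- ===== PACK-END S38/H201/StepAGen.lean

-- ===== PACK-BEGIN S38/H201/StepA.lean
section





/-!
# HARD / HECKE, IA-ST step (a) in the vocabulary of `Hecke/Spec3.lean`, `Hecke/Spec4.lean`
(helper201)

`L = ribetLevel p Smin Piv`, `q ∈ Piv` a pivot, `L' = ribetLevel p Smin (Piv.erase q)`, `qv` the
Taylor–Wiles set, `K₁ = KG p L qv = Γ₀(L) ∩ Γ_H(Q)`, `K' = KG p L' qv`.

* `iaStepA : IAMinZeroStatement → IAStepAStatement` : under IA-MINZERO (the localisation at level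
  `K'` vanishes), `U_q² = ⟨σ⟩` on the localisation `V₁` of `X_{K₁}(𝒪)` at the eigen-system
  `(TsetOf PQ, UsetOf qv α)`, for every `σ ∈ Γ₀(L ∏ qv)` with lower right entry `≡ q` modulo
  every Taylor–Wiles prime.
* `iaStepA_diamondU` : the same with `diamondU w`, `w ≡ q` modulo every Taylor–Wiles prime.
-/

set_option autoImplicit false

open Polynomial IsLocalRing CongruenceSubgroup
open scoped MatrixGroups

namespace Fermat.Agent.S38.H201

open Fermat.Agent.S59.Arch Fermat.Agent.S59.TW.H959 Fermat.Agent.S59.TW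
open Fermat.Agent.S59.TW.H653 Fermat.Agent.S59.TW.Aut Fermat.Agent.S59.TW.H201
open Fermat.Agent.S41.Spec
open Fermat.Agent.S38.IA Fermat.Agent.S38.IA.Hecke

/-! ## Levels -/

section Level

variable (p : ℕ) {ι : Type} [Fintype ι] (qq : ι → ℕ)

theorem gLevel_mul201 (N₀ q : ℕ) : gLevel (N₀ * q) qq = gLevel N₀ qq * q := by
  unfold gLevel
  ring

theorem ribetLevel_erase201 (Smin : Finset ℕ) {Piv : Finset ℕ} {q : ℕ} (hq : q ∈ Piv) :
    ribetLevel p Smin Piv = ribetLevel p Smin (Piv.erase q) * q := by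
  unfold ribetLevel
  rw [← Finset.mul_prod_erase Piv (fun x => x) hq]
  ring

/-- The lower right entry modulo `qq s`, through `gRed`. -/
theorem coe_gRed_dUnit201 (N₀ : ℕ) (g : Gamma0 (gLevel N₀ qq)) (s : ι) :
    ((gRed N₀ qq (dUnit (gLevel N₀ qq) g) s : (ZMod (qq s))ˣ) : ZMod (qq s)) =
      ((((g : SL(2, ℤ)) 1 1 : ℤ)) : ZMod (qq s)) := by
  rw [gRed_apply, ZMod.unitsMap_def, Units.coe_map, coe_dUnit]
  simp only [MonoidHom.coe_coe, map_intCast]

/-- Membership in `KG p N₀ qq = Γ₀(N₀) ∩ Γ_H(qq)`. -/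
theorem mem_KG_iff201 (N₀ : ℕ) (g : SL(2, ℤ)) :
    g ∈ KG p N₀ qq ↔ g ∈ Gamma0 (gLevel N₀ qq) ∧
      ∀ s, ∃ v : (ZMod (qq s))ˣ,
        ((v ^ (p ^ padicValNat p (qq s - 1)) : (ZMod (qq s))ˣ) : ZMod (qq s)) =
          (((g 1 1 : ℤ)) : ZMod (qq s)) := by
  unfold KG
  rw [mem_GammaH]
  constructor
  · rintro ⟨hg, hmem⟩
    refine ⟨hg, fun s => ?_⟩
    rw [MonoidHom.mem_ker, gChi_apply, QuotientGroup.mk'_apply, QuotientGroup.eq_one_iff] at hmem
    obtain ⟨v, hv⟩ := (Subgroup.mem_pi _).mp hmem s (Set.mem_univ s)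
    refine ⟨v, ?_⟩
    have h1 := coe_gRed_dUnit201 qq N₀ ⟨g, hg⟩ s
    rw [← h1, ← hv]
    rfl
  · rintro ⟨hg, hall⟩
    refine ⟨hg, ?_⟩
    rw [MonoidHom.mem_ker, gChi_apply, QuotientGroup.mk'_apply, QuotientGroup.eq_one_iff]
    refine (Subgroup.mem_pi _).mpr fun s _ => ?_
    obtain ⟨v, hv⟩ := hall s
    refine ⟨v, ?_⟩
    apply Units.ext
    rw [coe_gRed_dUnit201 qq N₀ ⟨g, hg⟩ s, ← hv]
    rfl

/-- `Γ₀(N₀ q) ∩ Γ_H(qq) = (Γ₀(N₀) ∩ Γ_H(qq)) ⊓ Γ₀(N₀ ∏ qq · q)`. -/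
theorem KG_mul_eq_Kq201 (N₀ q : ℕ) :
    KG p (N₀ * q) qq = Kq (gLevel N₀ qq) q (KG p N₀ qq) := by
  ext g
  rw [mem_Kq, mem_KG_iff201, mem_KG_iff201, gLevel_mul201]
  constructor
  · rintro ⟨h1, h2⟩
    exact ⟨⟨gamma0_mul_le _ _ h1, h2⟩, h1⟩
  · rintro ⟨⟨_, h2⟩, h1⟩
    exact ⟨h1, h2⟩

/-- The prime divisors of `ribetLevel p Smin Piv · ∏ qq`. -/
theorem mem_of_prime_dvd_gLevel201 {Smin Piv : Finset ℕ} (hSmin : ∀ x ∈ Smin, x.Prime)
    (hPiv : ∀ x ∈ Piv, x.Prime) (hqq : ∀ s, (qq s).Prime) {ℓ : ℕ} (hℓ : ℓ.Prime)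
    (h : ℓ ∣ gLevel (ribetLevel p Smin Piv) qq) :
    ℓ ∈ Smin ∨ ℓ ∈ Piv ∨ ∃ s, ℓ = qq s := by
  unfold gLevel ribetLevel at h
  rcases (Nat.Prime.dvd_mul hℓ).mp h with h1 | h1
  · rcases (Nat.Prime.dvd_mul hℓ).mp h1 with h2 | h2
    · obtain ⟨x, hx, hdx⟩ := (Prime.dvd_finsetProd_iff hℓ.prime _).mp h2
      have hx' : x ∈ Smin := Finset.mem_of_mem_erase hx
      exact Or.inl (((Nat.prime_dvd_prime_iff_eq hℓ (hSmin x hx')).mp hdx) ▸ hx')
    · obtain ⟨x, hx, hdx⟩ := (Prime.dvd_finsetProd_iff hℓ.prime _).mp h2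
      exact Or.inr (Or.inl (((Nat.prime_dvd_prime_iff_eq hℓ (hPiv x hx)).mp hdx) ▸ hx))
  · obtain ⟨s, _, hds⟩ := (Prime.dvd_finsetProd_iff hℓ.prime _).mp h1
    exact Or.inr (Or.inr ⟨s, (Nat.prime_dvd_prime_iff_eq hℓ (hqq s)).mp hds⟩)

theorem ribetLevel_ne_zero201 {Smin Piv : Finset ℕ} (hSmin : ∀ x ∈ Smin, x.Prime)
    (hPiv : ∀ x ∈ Piv, x.Prime) : ribetLevel p Smin Piv ≠ 0 := by
  unfold ribetLevel
  refine Nat.mul_ne_zero ?_ ?_
  · exact Finset.prod_ne_zero_iff.mpr fun x hx => (hSmin x (Finset.mem_of_mem_erase hx)).ne_zero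
  · exact Finset.prod_ne_zero_iff.mpr fun x hx => (hPiv x hx).ne_zero

end Level

/-! ## The statement -/

/-- **IA-ST, step (a).**  `U_q² = ⟨σ⟩` on the localisation `V₁` of `X_{K₁}(𝒪)`,
`K₁ = Γ₀(L) ∩ Γ_H(Q)`, `L = ribetLevel p Smin Piv`, for every pivot `q` and every `σ ∈ Γ₀(L ∏ qv)`
with lower right entry `≡ q` modulo every Taylor–Wiles prime. -/
def IAStepAStatement : Prop :=
  ∀ (p : ℕ) [Fact p.Prime] (_hp5 : 5 ≤ p)
    (𝒪 : Type) [CommRing 𝒪] [IsDomain 𝒪] [IsDiscreteValuationRing 𝒪]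
    [IsAdicComplete (maximalIdeal 𝒪) 𝒪] [Finite (ResidueField 𝒪)] [CharZero 𝒪]
    (ρbar : ResidualGaloisRep (ResidueField 𝒪)) (Smin : Finset ℕ)
    (_h : ResidualHyp p 𝒪 ρbar Smin)
    (_hflat : (GaloisRepAdic.ofResidualGaloisRep ρbar).IsFlatAt p)
    (Piv : Finset ℕ) (_hPiv : IsPivotSet p ρbar Smin Piv)
    (_hmin : ∀ q ∈ Piv, ∀ S : Finset ℕ,
      ¬ ResModular 𝒪 ρbar (ribetLevel p Smin (Piv.erase q)) S)
    (n r : ℕ) (qv : Fin r → ℕ) (_hq : IsTWSet p ρbar (Smin ∪ Piv) n qv)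
    [NeZero (wilesLevel p .flat Smin (Smin ∪ Piv ∪ Finset.univ.image qv))]
    (PQ : HeckePkg p 𝒪 ρbar .flat Smin (Smin ∪ Piv ∪ Finset.univ.image qv))
    (α : Fin r → 𝒪) (_hα : IsFrobLift ρbar qv α)
    (q : ℕ) [Fact q.Prime] (_hqP : q ∈ Piv)
    (V₁ : Submodule 𝒪 (Additive (KG p (ribetLevel p Smin Piv) qv) →+ 𝒪)),
    IsLocPart (isMid_KG p (ribetLevel p Smin Piv) qv) (TsetOf PQ) (UsetOf qv α) V₁ →
      ∀ σ : Gamma0 (gLevel (ribetLevel p Smin Piv) qv),
        (∀ j, ((((σ : SL(2, ℤ)) 1 1 : ℤ)) : ZMod (qv j)) = (q : ZMod (qv j))) →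
        ∀ x ∈ V₁,
          UK (KG p (ribetLevel p Smin Piv) qv) q
            (UK (KG p (ribetLevel p Smin Piv) qv) q x) =
          diamond (isMid_KG p (ribetLevel p Smin Piv) qv) σ x

/-! ## The proof -/

section Proof

variable {p : ℕ} {Smin Piv : Finset ℕ} {r : ℕ} {qv : Fin r → ℕ}

/-- A pivot does not divide the level `L' ∏ qv`. -/
theorem pivot_not_dvd201 (hSmin : ∀ x ∈ Smin, x.Prime) (hPiv : ∀ x ∈ Piv, x.Prime ∧ x ∉ Smin)
    (hqv : ∀ j, (qv j).Prime ∧ qv j ∉ Smin ∪ Piv) {q : ℕ} (hqP : q ∈ Piv) :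
    ¬ q ∣ gLevel (ribetLevel p Smin (Piv.erase q)) qv := by
  intro h
  rcases mem_of_prime_dvd_gLevel201 p qv hSmin
    (fun x hx => (hPiv x (Finset.mem_of_mem_erase hx)).1) (fun j => (hqv j).1)
    (hPiv q hqP).1 h with h1 | h1 | ⟨j, h1⟩
  · exact (hPiv q hqP).2 h1
  · exact (Finset.notMem_erase q Piv) h1
  · exact (hqv j).2 (h1 ▸ Finset.mem_union_right Smin hqP)

end Proof

/-- **IA-ST, step (a)**, from IA-MINZERO. -/
theorem iaStepA (hmz : IAMinZeroStatement) : IAStepAStatement := by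
  intro p _ hp5 𝒪 _ _ _ _ _ _ ρbar Smin h hflat Piv hPiv hmin n r qv hq _ PQ α hα q _ hqP V₁
    hV₁ σ hσ x hx
  have hqprime : q.Prime := Fact.out
  have hSmin : ∀ x ∈ Smin, x.Prime := h.hSmin
  have hPiv' : ∀ x ∈ Piv, x.Prime ∧ x ∉ Smin := fun x hx => ⟨(hPiv x hx).1, (hPiv x hx).2.1⟩
  have hqv : ∀ j, (qv j).Prime ∧ qv j ∉ Smin ∪ Piv :=
    fun j => ⟨(hq.2.1 j).1, (hq.2.1 j).2.1⟩
  have hL'0 : ribetLevel p Smin (Piv.erase q) ≠ 0 :=
    ribetLevel_ne_zero201 p hSmin (fun x hx => (hPiv' x (Finset.mem_of_mem_erase hx)).1)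
  have hN : gLevel (ribetLevel p Smin (Piv.erase q)) qv ≠ 0 :=
    gLevel_ne_zero _ qv hL'0 (fun j => (hqv j).1)
  have hqN : ¬ q ∣ gLevel (ribetLevel p Smin (Piv.erase q)) qv :=
    pivot_not_dvd201 hSmin hPiv' hqv hqP
  have hM : gLevel (ribetLevel p Smin Piv) qv =
      gLevel (ribetLevel p Smin (Piv.erase q)) qv * q := by
    rw [ribetLevel_erase201 p Smin hqP, gLevel_mul201]
  have hKK : KG p (ribetLevel p Smin Piv) qv =
      Kq (gLevel (ribetLevel p Smin (Piv.erase q)) qv) q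
        (KG p (ribetLevel p Smin (Piv.erase q)) qv) := by
    rw [ribetLevel_erase201 p Smin hqP]
    exact KG_mul_eq_Kq201 p qv _ q
  -- the eigen-system
  have hT : ∀ y ∈ TsetOf PQ,
      y.1.Prime ∧ ¬ y.1 ∣ gLevel (ribetLevel p Smin (Piv.erase q)) qv * q := by
    rintro y ⟨hℓ, _, hℓS, _⟩
    refine ⟨hℓ, fun hd => hℓS ?_⟩
    rw [← hM] at hd
    rcases mem_of_prime_dvd_gLevel201 p qv hSmin (fun x hx => (hPiv' x hx).1)
      (fun j => (hqv j).1) hℓ hd with h1 | h1 | ⟨j, h1⟩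
    · exact Finset.mem_coe.mpr
        (Finset.mem_union_left _ (Finset.mem_union_left _ h1))
    · exact Finset.mem_coe.mpr
        (Finset.mem_union_left _ (Finset.mem_union_right _ h1))
    · exact Finset.mem_coe.mpr
        (Finset.mem_union_right _ (Finset.mem_image.mpr ⟨j, Finset.mem_univ j, h1.symm⟩))
  have hU : ∀ y ∈ UsetOf qv α,
      y.1.Prime ∧ y.1 ∣ gLevel (ribetLevel p Smin (Piv.erase q)) qv := by
    rintro y ⟨j, rfl⟩
    exact ⟨(hqv j).1, dvd_gLevel _ qv j⟩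
  have hzero := hmz p hp5 𝒪 ρbar Smin h hflat Piv hPiv hmin n r qv hq PQ α hα q hqP
  -- a reference element with lower right entry `≡ q` modulo `L' ∏ qv`
  have hne : NeZero (gLevel (ribetLevel p Smin Piv) qv) :=
    ⟨by rw [hM]; exact Nat.mul_ne_zero hN hqprime.ne_zero⟩
  obtain ⟨σ₁, hσ₁⟩ : ∃ σ₁ : Gamma0 (gLevel (ribetLevel p Smin Piv) qv),
      ((((σ₁ : SL(2, ℤ)) 1 1 : ℤ)) : ZMod (gLevel (ribetLevel p Smin (Piv.erase q)) qv)) =
        (q : ZMod (gLevel (ribetLevel p Smin (Piv.erase q)) qv)) := by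
    have hdvd : gLevel (ribetLevel p Smin (Piv.erase q)) qv ∣
        gLevel (ribetLevel p Smin Piv) qv := ⟨q, hM⟩
    have hcop : Nat.Coprime q (gLevel (ribetLevel p Smin (Piv.erase q)) qv) :=
      hqprime.coprime_iff_not_dvd.mpr hqN
    obtain ⟨u, hu⟩ := ZMod.unitsMap_surjective hdvd (ZMod.unitOfCoprime q hcop)
    obtain ⟨σ₁, hσ₁⟩ := dUnit_surjective (M := gLevel (ribetLevel p Smin Piv) qv) u
    refine ⟨σ₁, ?_⟩
    have h1 := congrArg (fun v : (ZMod (gLevel (ribetLevel p Smin (Piv.erase q)) qv))ˣ =>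
      (v : ZMod (gLevel (ribetLevel p Smin (Piv.erase q)) qv))) hu
    simp only [ZMod.coe_unitOfCoprime] at h1
    rw [← h1, ← hσ₁, ZMod.unitsMap_def, Units.coe_map, coe_dUnit]
    simp only [MonoidHom.coe_coe, map_intCast]
  have key := UK_UK_of_locZero_cast201 hN hqN (isMid_KG p _ qv) (isMid_KG p _ qv) hM hKK hV₁
    (Set.Subset.refl _) (Set.Subset.refl _) hT hU hzero σ₁ hσ₁ x hx
  rw [key]
  -- compare the diamonds
  rw [diamond_eq_diamondU, diamond_eq_diamondU]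
  apply diamondU_eq_of_gChi
  apply gChi_eq_of_gRed
  funext j
  apply Units.ext
  rw [coe_gRed_dUnit201, coe_gRed_dUnit201, hσ j]
  have hdj : qv j ∣ gLevel (ribetLevel p Smin (Piv.erase q)) qv := dvd_gLevel _ qv j
  have h2 := congrArg (ZMod.castHom hdj (ZMod (qv j))) hσ₁
  simpa using h2

/-! ## Consumer forms -/

section Consumer

variable {p : ℕ} [Fact p.Prime]
  {𝒪 : Type} [CommRing 𝒪] [IsDomain 𝒪] [IsDiscreteValuationRing 𝒪]
  [IsAdicComplete (maximalIdeal 𝒪) 𝒪] [Finite (ResidueField 𝒪)] [CharZero 𝒪]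
  {ρbar : ResidualGaloisRep (ResidueField 𝒪)} {Smin Piv : Finset ℕ} {n r : ℕ} {qv : Fin r → ℕ}
  [NeZero (wilesLevel p .flat Smin (Smin ∪ Piv ∪ Finset.univ.image qv))]

/-- **Step (a), `diamondU` form**: `U_q² = ⟨w⟩` on `V₁` for every unit `w` of `ℤ/(L ∏ qv)` with
`w ≡ q` modulo every Taylor–Wiles prime. -/
theorem iaStepA_diamondU (hA : IAStepAStatement) (hp5 : 5 ≤ p)
    (h : ResidualHyp p 𝒪 ρbar Smin)
    (hflat : (GaloisRepAdic.ofResidualGaloisRep ρbar).IsFlatAt p)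
    (hPiv : IsPivotSet p ρbar Smin Piv)
    (hmin : ∀ q ∈ Piv, ∀ S : Finset ℕ,
      ¬ ResModular 𝒪 ρbar (ribetLevel p Smin (Piv.erase q)) S)
    (hq : IsTWSet p ρbar (Smin ∪ Piv) n qv)
    (PQ : HeckePkg p 𝒪 ρbar .flat Smin (Smin ∪ Piv ∪ Finset.univ.image qv))
    (α : Fin r → 𝒪) (hα : IsFrobLift ρbar qv α)
    (q : ℕ) [Fact q.Prime] (hqP : q ∈ Piv)
    {V₁ : Submodule 𝒪 (Additive (KG p (ribetLevel p Smin Piv) qv) →+ 𝒪)}
    (hV₁ : IsLocPart (isMid_KG p (ribetLevel p Smin Piv) qv) (TsetOf PQ) (UsetOf qv α) V₁)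
    (w : (ZMod (gLevel (ribetLevel p Smin Piv) qv))ˣ)
    (hw : ∀ j, ((gRed (ribetLevel p Smin Piv) qv w j : (ZMod (qv j))ˣ) : ZMod (qv j)) =
      (q : ZMod (qv j))) :
    ∀ x ∈ V₁,
      UK (KG p (ribetLevel p Smin Piv) qv) q (UK (KG p (ribetLevel p Smin Piv) qv) q x) =
        diamondU (isMid_KG p (ribetLevel p Smin Piv) qv) w x := by
  intro x hx
  have hne : NeZero (gLevel (ribetLevel p Smin Piv) qv) :=
    ⟨gLevel_ne_zero _ qv
      (ribetLevel_ne_zero201 p h.hSmin (fun y hy => (hPiv y hy).1))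
      (fun j => (hq.2.1 j).1)⟩
  obtain ⟨σ, hσ⟩ := dUnit_surjective (M := gLevel (ribetLevel p Smin Piv) qv) w
  rw [diamondU_eq _ hσ]
  refine hA p hp5 𝒪 ρbar Smin h hflat Piv hPiv hmin n r qv hq PQ α hα q hqP V₁ hV₁ σ ?_ x hx
  intro j
  rw [← coe_gRed_dUnit201, hσ, hw j]

omit [Fact p.Prime] in
/-- `w ^ (2 h + 1)` is trivial in `Δ_Q` if `h` is a half. -/
theorem gChi_pow_half201 (N₀ : ℕ) {h : ℕ} (hh : IsHalf p qv h)
    (w : (ZMod (gLevel N₀ qv))ˣ) : gChi p N₀ qv (w ^ (2 * h + 1)) = 1 := by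
  rw [gChi_apply, QuotientGroup.mk'_apply, QuotientGroup.eq_one_iff]
  refine (Subgroup.mem_pi _).mpr fun j _ => ?_
  obtain ⟨k, hk⟩ := hh j
  refine ⟨gRed N₀ qv w j ^ k, ?_⟩
  show (gRed N₀ qv w j ^ k) ^ (p ^ padicValNat p (qv j - 1)) = gRed N₀ qv (w ^ (2 * h + 1)) j
  rw [map_pow, Pi.pow_apply, hk, ← pow_mul, mul_comm]

/-- **Step (a), twisted form**: `(⟨w⟩^h U_q)² = 1` on `V₁`, for a half `h`
(`p^{m_j} ∣ 2 h + 1`). -/
theorem iaStepA_twist (hA : IAStepAStatement) (hp5 : 5 ≤ p)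
    (h : ResidualHyp p 𝒪 ρbar Smin)
    (hflat : (GaloisRepAdic.ofResidualGaloisRep ρbar).IsFlatAt p)
    (hPiv : IsPivotSet p ρbar Smin Piv)
    (hmin : ∀ q ∈ Piv, ∀ S : Finset ℕ,
      ¬ ResModular 𝒪 ρbar (ribetLevel p Smin (Piv.erase q)) S)
    (hq : IsTWSet p ρbar (Smin ∪ Piv) n qv)
    (PQ : HeckePkg p 𝒪 ρbar .flat Smin (Smin ∪ Piv ∪ Finset.univ.image qv))
    (α : Fin r → 𝒪) (hα : IsFrobLift ρbar qv α)
    (q : ℕ) [Fact q.Prime] (hqP : q ∈ Piv)
    {V₁ : Submodule 𝒪 (Additive (KG p (ribetLevel p Smin Piv) qv) →+ 𝒪)}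
    (hV₁ : IsLocPart (isMid_KG p (ribetLevel p Smin Piv) qv) (TsetOf PQ) (UsetOf qv α) V₁)
    (w : (ZMod (gLevel (ribetLevel p Smin Piv) qv))ˣ)
    (hw : ∀ j, ((gRed (ribetLevel p Smin Piv) qv w j : (ZMod (qv j))ˣ) : ZMod (qv j)) =
      (q : ZMod (qv j)))
    {e : ℕ} (he : IsHalf p qv e) :
    ∀ x ∈ V₁,
      diamondU (isMid_KG p (ribetLevel p Smin Piv) qv) (w ^ e)
        (UK (KG p (ribetLevel p Smin Piv) qv) q
          (diamondU (isMid_KG p (ribetLevel p Smin Piv) qv) (w ^ e)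
            (UK (KG p (ribetLevel p Smin Piv) qv) q x))) = x := by
  intro x hx
  have hne : NeZero (gLevel (ribetLevel p Smin Piv) qv) :=
    ⟨gLevel_ne_zero _ qv
      (ribetLevel_ne_zero201 p h.hSmin (fun y hy => (hPiv y hy).1))
      (fun j => (hq.2.1 j).1)⟩
  have hqM : q ∣ gLevel (ribetLevel p Smin Piv) qv := by
    refine Dvd.dvd.mul_right ?_ _
    unfold ribetLevel
    exact Dvd.dvd.mul_left (Finset.dvd_prod_of_mem (fun y => y) hqP) _
  rw [diamondU_UK (isMid_KG p (ribetLevel p Smin Piv) qv) hqM,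
    iaStepA_diamondU hA hp5 h hflat hPiv hmin hq PQ α hα q hqP hV₁ w hw x hx,
    ← diamondU_mul, ← diamondU_mul]
  have h1 : w ^ e * w ^ e * w = w ^ (2 * e + 1) := by
    rw [← pow_add, ← pow_succ]
    congr 1
    ring
  rw [h1]
  exact diamondU_of_gChi p _ qv (gChi_pow_half201 _ he w) x

end Consumer

end Fermat.Agent.S38.H201

end
-- ===== PACK-END S38/H201/StepA.lean

-- ===== PACK-BEGIN S59/LoSqC/H987/LeafNew.lean
section



/-!
# S59 / cell (C) LO-SQ, leaf W-NEW in `Eng.TripleCtx` form (helper987)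

STEP-A of the S36 engine WITHOUT the power `q² - 1` (needed when `p ∣ q² - 1`).

Context = the binders of `S36.Alg3.LeafStepA` verbatim.  For `f ≠ 0` with
`S35.G.NormPow α m f`, `S35.G.NormPow β m f` (`q ∤ m`) and slope zero (`SlopeZero`):

    f = w ^ s * G ^ m * u,   u ≡ 1 on V₁ and V₃,   u a unit at V₂,
    u ^ (q - 1) ≡ (α k₁) ^ m ≡ (β k₂) ^ m on V₂,
    N_α u = k₁ ^ m,  N_β u = k₂ ^ m,   k₁, k₂ units at V₁', V₂'.

* `WNewStatement`        : the Prop (slope zero as a hypothesis);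
* `WNewCoprimeStatement` : the same without slope hypothesis, for `gcd(q + 1, m) = 1`;
* `WSlopeFormStatement`  : the slope form (no hypothesis): `f = w ^ s * G ^ m * u`, orders of `u`
  equal to `(d, -d, 0)` at `(V₁ | w, V₂ | π, V₃ | w)`, `m ∣ (q + 1) d`;
* `wNew`, `wNewCoprime`, `wSlopeForm` : the proofs.
-/

set_option autoImplicit false
set_option linter.style.haveILetI false
set_option linter.unusedSectionVars false
set_option linter.unusedVariables false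
set_option synthInstance.maxHeartbeats 400000
set_option maxHeartbeats 1600000

noncomputable section

namespace Fermat.Agent.S59.LoSqC.H987

open Fermat.Agent.S36.Eng
open Fermat.Agent.S36.H586
open Fermat.Agent.S18.H138 (chart baseField)
open Fermat.Agent.A2.H12 (IsSheet)
open Fermat.Agent

/-- The slope of `f` between `V₁` and `V₃` vanishes modulo `m`: the orders of `f` along `V₁` and
`V₃` (both with uniformiser `w`) are congruent modulo `m`. -/
def SlopeZero {F : Type*} [Field F] (w : F) (m : ℕ) (V₁ V₃ : ValuationSubring F) (f : F) :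
    Prop :=
  ∀ a₁ a₃ : ℤ, V₁.valuation f = V₁.valuation w ^ a₁ → V₃.valuation f = V₃.valuation w ^ a₃ →
    (m : ℤ) ∣ a₁ - a₃

/-- **Leaf W-NEW** (slope zero as a hypothesis). -/
def WNewStatement : Prop :=
  ∀ {R E F F' : Type} [CommRing R] [IsDomain R] [IsDiscreteValuationRing R]
    [HenselianLocalRing R] [IsAlgClosed (IsLocalRing.ResidueField R)]
    [Field E] [CharZero E] [Algebra R E] [IsFractionRing R E]
    [Field F] [Algebra E F] [Algebra R F] [IsScalarTower R E F]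
    [Field F'] [Algebra E F'] [Algebra R F'] [IsScalarTower R E F']
    (w : R) (_ : Irreducible w) (q : ℕ) (_ : q.Prime)
    (_ : (q : R) ∈ IsLocalRing.maximalIdeal R)
    (α β : F' →ₐ[E] F) (x : F) (x' : F')
    (V₁ V₂ V₃ : ValuationSubring F) (V₁' V₂' : ValuationSubring F')
    (_ : TripleCtx w q α β x x' V₁ V₂ V₃ V₁' V₂'),
    ∀ m : ℕ, 0 < m → ¬ q ∣ m →
      ∀ f : F, f ≠ 0 → S35.G.NormPow α m f → S35.G.NormPow β m f →
        _root_.Fermat.Agent.S59.LoSqC.H987.SlopeZero (algebraMap R F w) m V₁ V₃ f →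
        ∃ (s : ℤ) (G u : F) (k₁ k₂ : F'), G ≠ 0 ∧
          f = algebraMap R F w ^ s * G ^ m * u ∧
          u - 1 ∈ V₁.nonunits ∧ u - 1 ∈ V₃.nonunits ∧ V₂.valuation u = 1 ∧
          u ^ (q - 1) / (α k₁) ^ m - 1 ∈ V₂.nonunits ∧
          u ^ (q - 1) / (β k₂) ^ m - 1 ∈ V₂.nonunits ∧
          V₁'.valuation k₁ = 1 ∧ V₂'.valuation k₁ = 1 ∧
          V₁'.valuation k₂ = 1 ∧ V₂'.valuation k₂ = 1 ∧
          S29.H395.normAlong α u = k₁ ^ m ∧ S29.H395.normAlong β u = k₂ ^ m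

/-- **Leaf W-NEW** for `gcd(q + 1, m) = 1` (no slope hypothesis). -/
def WNewCoprimeStatement : Prop :=
  ∀ {R E F F' : Type} [CommRing R] [IsDomain R] [IsDiscreteValuationRing R]
    [HenselianLocalRing R] [IsAlgClosed (IsLocalRing.ResidueField R)]
    [Field E] [CharZero E] [Algebra R E] [IsFractionRing R E]
    [Field F] [Algebra E F] [Algebra R F] [IsScalarTower R E F]
    [Field F'] [Algebra E F'] [Algebra R F'] [IsScalarTower R E F']
    (w : R) (_ : Irreducible w) (q : ℕ) (_ : q.Prime)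
    (_ : (q : R) ∈ IsLocalRing.maximalIdeal R)
    (α β : F' →ₐ[E] F) (x : F) (x' : F')
    (V₁ V₂ V₃ : ValuationSubring F) (V₁' V₂' : ValuationSubring F')
    (_ : TripleCtx w q α β x x' V₁ V₂ V₃ V₁' V₂'),
    ∀ m : ℕ, 0 < m → ¬ q ∣ m → Nat.Coprime (q + 1) m →
      ∀ f : F, f ≠ 0 → S35.G.NormPow α m f → S35.G.NormPow β m f →
        ∃ (s : ℤ) (G u : F) (k₁ k₂ : F'), G ≠ 0 ∧
          f = algebraMap R F w ^ s * G ^ m * u ∧
          u - 1 ∈ V₁.nonunits ∧ u - 1 ∈ V₃.nonunits ∧ V₂.valuation u = 1 ∧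
          u ^ (q - 1) / (α k₁) ^ m - 1 ∈ V₂.nonunits ∧
          u ^ (q - 1) / (β k₂) ^ m - 1 ∈ V₂.nonunits ∧
          V₁'.valuation k₁ = 1 ∧ V₂'.valuation k₁ = 1 ∧
          V₁'.valuation k₂ = 1 ∧ V₂'.valuation k₂ = 1 ∧
          S29.H395.normAlong α u = k₁ ^ m ∧ S29.H395.normAlong β u = k₂ ^ m

/-- **Slope form** of W-NEW (no hypothesis on the slope): `f = w ^ s * G ^ m * u` where the
orders of `u` at `(V₁ | w, V₂ | π, V₃ | w)` are `(d, -d, 0)` and `m ∣ (q + 1) d`; `π` is ANY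
uniformiser of `V₂`. -/
def WSlopeFormStatement : Prop :=
  ∀ {R E F F' : Type} [CommRing R] [IsDomain R] [IsDiscreteValuationRing R]
    [HenselianLocalRing R] [IsAlgClosed (IsLocalRing.ResidueField R)]
    [Field E] [CharZero E] [Algebra R E] [IsFractionRing R E]
    [Field F] [Algebra E F] [Algebra R F] [IsScalarTower R E F]
    [Field F'] [Algebra E F'] [Algebra R F'] [IsScalarTower R E F']
    (w : R) (_ : Irreducible w) (q : ℕ) (_ : q.Prime)
    (_ : (q : R) ∈ IsLocalRing.maximalIdeal R)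
    (α β : F' →ₐ[E] F) (x : F) (x' : F')
    (V₁ V₂ V₃ : ValuationSubring F) (V₁' V₂' : ValuationSubring F')
    (_ : TripleCtx w q α β x x' V₁ V₂ V₃ V₁' V₂'),
    ∀ m : ℕ, 0 < m → ¬ q ∣ m →
      ∀ f : F, f ≠ 0 → S35.G.NormPow α m f → S35.G.NormPow β m f →
        ∃ (π : F) (s d : ℤ) (G u : F), UnifAt V₂ π ∧ G ≠ 0 ∧
          f = algebraMap R F w ^ s * G ^ m * u ∧
          (m : ℤ) ∣ ((q : ℤ) + 1) * d ∧
          V₁.valuation f = V₁.valuation (algebraMap R F w) ^ (s + d) ∧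
          V₃.valuation f = V₃.valuation (algebraMap R F w) ^ s ∧
          V₁.valuation u = V₁.valuation (algebraMap R F w) ^ d ∧
          V₂.valuation u = V₂.valuation π ^ (-d) ∧
          V₃.valuation u = 1

/-! ## From `TripleCtx` to the abstract norm calculus -/

/-- The abstract context of `StepAB.lean` / `StepNew.lean`, bundled. -/
structure AbsCtx {F' F : Type*} [Field F'] [Field F] (α β : F' →+* F) (Nα Nβ : F → F')
    (q : ℕ) (w' : F') (w π : F) (V1 V2 : ValuationSubring F')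
    (VFF Vmid VVV : ValuationSubring F) : Prop where
  hαw : α w' = w
  hβw : β w' = w
  Tα : NormTable α Nα q w' π V1 V2 VFF Vmid VVV
  Tβ : NormTable β Nβ q w' π V2 V1 VVV Vmid VFF
  hw'0 : w' ≠ 0
  hw1 : V1.valuation w' < 1
  hw2 : V2.valuation w' < 1
  hπ0 : π ≠ 0
  hram : IsOrd Vmid π w ((q : ℤ) - 1)
  hordFF : ∀ y : F, y ≠ 0 → ∃ a : ℤ, IsOrd VFF w y a
  hordmid : ∀ y : F, y ≠ 0 → ∃ a : ℤ, IsOrd Vmid π y a
  hordVV : ∀ y : F, y ≠ 0 → ∃ a : ℤ, IsOrd VVV w y a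
  hord1 : ∀ y : F', y ≠ 0 → ∃ a : ℤ, IsOrd V1 w' y a
  hord2 : ∀ y : F', y ≠ 0 → ∃ a : ℤ, IsOrd V2 w' y a
  hap_ord : ∀ a b c : ℤ, ∃ g : F, IsOrd VFF w g a ∧ IsOrd Vmid π g b ∧ IsOrd VVV w g c
  hap_res : ∀ g₁ g₂ g₃ : F, VFF.valuation g₁ = 1 → Vmid.valuation g₂ = 1 →
    VVV.valuation g₃ = 1 → ∃ g : F, PU VFF (g / g₁) ∧ PU Vmid (g / g₂) ∧ PU VVV (g / g₃)

section Setup

variable {R E F F' : Type} [CommRing R] [IsDomain R] [IsDiscreteValuationRing R]
  [HenselianLocalRing R] [IsAlgClosed (IsLocalRing.ResidueField R)]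
  [Field E] [CharZero E] [Algebra R E] [IsFractionRing R E]
  [Field F] [Algebra E F] [Algebra R F] [IsScalarTower R E F]
  [Field F'] [Algebra E F'] [Algebra R F'] [IsScalarTower R E F']

/-- The abstract norm calculus of a three-component context (the set-up of
`S36.H586.leafStepA`, for EVERY uniformiser `π` of `V₂`). -/
theorem absCtx_of_ctx (w : R) (hw : Irreducible w) (q : ℕ) (hq : q.Prime)
    (hqR : (q : R) ∈ IsLocalRing.maximalIdeal R)
    (α β : F' →ₐ[E] F) (x : F) (x' : F')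
    (V₁ V₂ V₃ : ValuationSubring F) (V₁' V₂' : ValuationSubring F')
    (T : TripleCtx w q α β x x' V₁ V₂ V₃ V₁' V₂') :
    ∃ π : F, UnifAt V₂ π ∧
      AbsCtx (α : F' →+* F) (β : F' →+* F) (S29.H395.normAlong α) (S29.H395.normAlong β) q
        (algebraMap R F' w) (algebraMap R F w) π V₁' V₂' V₁ V₂ V₃ := by
  haveI := T.dvr₁
  haveI := T.dvr₂
  haveI := T.dvr₃
  have hq2 : 2 ≤ q := hq.two_le
  obtain ⟨π, hπ, hram⟩ := T.ram₂
  have hαw : α (algebraMap R F' w) = algebraMap R F w := by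
    rw [IsScalarTower.algebraMap_apply R E F', α.commutes,
      ← IsScalarTower.algebraMap_apply R E F]
  have hβw : β (algebraMap R F' w) = algebraMap R F w := by
    rw [IsScalarTower.algebraMap_apply R E F', β.commutes,
      ← IsScalarTower.algebraMap_apply R E F]
  have hαw' : (α : F' →+* F) (algebraMap R F' w) = algebraMap R F w := hαw
  have hβw' : (β : F' →+* F) (algebraMap R F' w) = algebraMap R F w := hβw
  have hwF0 : algebraMap R F w ≠ 0 := T.unif₁.1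
  have hw'0 : algebraMap R F' w ≠ 0 := by
    intro h
    rw [h, map_zero] at hαw
    exact hwF0 hαw.symm
  obtain ⟨s₁, s₂, s₃⟩ := Fermat.Agent.S36.H919.h919_isSheet_of_ctx hq2 T
  haveI : CharZero F := charZero_of_injective_algebraMap (algebraMap E F).injective
  haveI : FiniteDimensional (baseField R x) F :=
    Fermat.Agent.S36.H919.h919_finiteDimensional E T.hfin
  have hinj : Function.Injective (algebraMap R F) := Fermat.Agent.S36.H919.h919_injective E
  have hxR : Transcendental R x := Fermat.Agent.S36.H919.h919_transcendental E T.hx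
  have resα₁ : ∀ y : F, V₁.valuation y = 1 → ∃ a : F', V₁.valuation (y - α a) < 1 :=
    res_lift_of_chart hinj hw.prime hxR s₁ (α : F' →+* F)
      (fun b hb => let ⟨b', _, h⟩ := T.res_α₁ b hb; ⟨b', h⟩)
  have resα₂ : ∀ y : F, V₂.valuation y = 1 → ∃ a : F', V₂.valuation (y - α a) < 1 :=
    res_lift_of_chart hinj hw.prime hxR s₂ (α : F' →+* F)
      (fun b hb => let ⟨b', _, h⟩ := T.res_α₂ b hb; ⟨b', h⟩)
  have resβ₃ : ∀ y : F, V₃.valuation y = 1 → ∃ a : F', V₃.valuation (y - β a) < 1 :=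
    res_lift_of_chart hinj hw.prime hxR s₃ (β : F' →+* F)
      (fun b hb => let ⟨b', _, h⟩ := T.res_β₃ b hb; ⟨b', h⟩)
  have resβ₂ : ∀ y : F, V₂.valuation y = 1 → ∃ a : F', V₂.valuation (y - β a) < 1 :=
    res_lift_of_chart hinj hw.prime hxR s₂ (β : F' →+* F)
      (fun b hb => let ⟨b', _, h⟩ := T.res_β₂ b hb; ⟨b', h⟩)
  have Tα : NormTable (α : F' →+* F) (S29.H395.normAlong α) q (algebraMap R F' w) π
      V₁' V₂' V₁ V₂ V₃ :=
    normTable_of_fields α q hq.pos (algebraMap R F' w) (algebraMap R F w) π hαw V₁' V₂' V₁ V₂ V₃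
      T.unif₁ T.unif₃ hπ hram T.comap_α₁ T.comap_α₂ T.comap_α₃ resα₁ resα₂ (T.nv_α π hπ)
      T.nr_α₁ T.nr_α₂
  have Tβ : NormTable (β : F' →+* F) (S29.H395.normAlong β) q (algebraMap R F' w) π
      V₂' V₁' V₃ V₂ V₁ :=
    normTable_of_fields β q hq.pos (algebraMap R F' w) (algebraMap R F w) π hβw V₂' V₁' V₃ V₂ V₁
      T.unif₃ T.unif₁ hπ hram T.comap_β₃ T.comap_β₂ T.comap_β₁ resβ₃ resβ₂
      (fun y au ar ai hy hu hr hi => T.nv_β π hπ y ai ar au hy hi hr hu) T.nr_β₁ T.nr_β₂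
  have hordFF : ∀ y : F, y ≠ 0 → ∃ a : ℤ, IsOrd V₁ (algebraMap R F w) y a :=
    exists_isOrd_of_unifAt V₁ T.unif₁
  have hordmid : ∀ y : F, y ≠ 0 → ∃ a : ℤ, IsOrd V₂ π y a := exists_isOrd_of_unifAt V₂ hπ
  have hordVV : ∀ y : F, y ≠ 0 → ∃ a : ℤ, IsOrd V₃ (algebraMap R F w) y a :=
    exists_isOrd_of_unifAt V₃ T.unif₃
  have hord1 : ∀ y : F', y ≠ 0 → ∃ a : ℤ, IsOrd V₁' (algebraMap R F' w) y a := by
    intro y hy
    obtain ⟨a, ha⟩ := hordFF (α y) ((map_ne_zero α).2 hy)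
    refine ⟨a, over_isOrd_down (φ := (α : F' →+* F)) Tα.over_u hw'0 y a ?_⟩
    rw [hαw']
    exact ha
  have hord2 : ∀ y : F', y ≠ 0 → ∃ a : ℤ, IsOrd V₂' (algebraMap R F' w) y a := by
    intro y hy
    obtain ⟨a, ha⟩ := hordVV (α y) ((map_ne_zero α).2 hy)
    refine ⟨a, over_isOrd_down (φ := (α : F' →+* F)) Tα.over_i hw'0 y a ?_⟩
    rw [hαw']
    exact ha
  have hw1 : V₁'.valuation (algebraMap R F' w) < 1 := by
    rw [← over_val_lt_one Tα.over_u, hαw']
    exact UnifAt.val_lt_one T.unif₁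
  have hw2 : V₂'.valuation (algebraMap R F' w) < 1 := by
    rw [← over_val_lt_one Tα.over_i, hαw']
    exact UnifAt.val_lt_one T.unif₃
  have hramO : IsOrd V₂ π (algebraMap R F w) ((q : ℤ) - 1) := by
    have h1 : IsOrd V₂ π (algebraMap R F w) ((q - 1 : ℕ) : ℤ) := by
      rw [isOrd_iff_unitAt hπ.1, zpow_natCast]
      exact hram
    have h4 : ((q - 1 : ℕ) : ℤ) = (q : ℤ) - 1 := by
      rw [Nat.cast_sub hq.pos]
      simp
    rwa [h4] at h1
  have hap_ord : ∀ a b c : ℤ, ∃ g : F, IsOrd V₁ (algebraMap R F w) g a ∧ IsOrd V₂ π g b ∧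
      IsOrd V₃ (algebraMap R F w) g c :=
    exists_approx_ord3 V₁ V₂ V₃ T.ne₁₂ T.ne₁₃ T.ne₂₃ T.unif₁.1 T.unif₁.2.1 T.unif₁.2.2
      hπ.1 hπ.2.1 hπ.2.2 T.unif₃.1 T.unif₃.2.1 T.unif₃.2.2
  have hap_res : ∀ g₁ g₂ g₃ : F, V₁.valuation g₁ = 1 → V₂.valuation g₂ = 1 →
      V₃.valuation g₃ = 1 → ∃ g : F, PU V₁ (g / g₁) ∧ PU V₂ (g / g₂) ∧ PU V₃ (g / g₃) :=
    exists_approx_res3 V₁ V₂ V₃ T.ne₁₂ T.ne₁₃ T.ne₂₃
  exact ⟨π, hπ, ⟨hαw', hβw', Tα, Tβ, hw'0, hw1, hw2, hπ.1, hramO, hordFF, hordmid, hordVV,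
    hord1, hord2, hap_ord, hap_res⟩⟩

end Setup

/-! ## The leaves -/

/-- **Slope form** of W-NEW, verbatim. -/
theorem wSlopeForm : WSlopeFormStatement := by
  intro R E F F' _ _ _ _ _ _ _ _ _ _ _ _ _ _ _ _ _ w hw q hq hqR α β x x' V₁ V₂ V₃ V₁' V₂' T
    m hm hqm f hf hNα hNβ
  obtain ⟨π, hπ, A⟩ := absCtx_of_ctx w hw q hq hqR α β x x' V₁ V₂ V₃ V₁' V₂' T
  have hNα' := exists_zpow_of_normPow (E := E) w hw q m hq hqR hm hqm
    (S29.H395.normAlong_ne_zero α T.fin_α hf) hNα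
  have hNβ' := exists_zpow_of_normPow (E := E) w hw q m hq hqR hm hqm
    (S29.H395.normAlong_ne_zero β T.fin_β hf) hNβ
  obtain ⟨s, d, G, u, hG, hfu, hd, hf1, hf3, hu1, hu2, hu3⟩ :=
    stepNew_slope (α : F' →+* F) (β : F' →+* F) (S29.H395.normAlong α) (S29.H395.normAlong β)
      q m (algebraMap R F' w) (algebraMap R F w) π A.hαw A.hβw V₁' V₂' V₁ V₂ V₃ A.Tα A.Tβ
      A.hw'0 A.hw1 A.hw2 A.hπ0 A.hram A.hordFF A.hordmid A.hordVV A.hord1 A.hord2 A.hap_ord
      f hf hNα' hNβ'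
  exact ⟨π, s, d, G, u, hπ, hG, hfu, hd, hf1, hf3, hu1, hu2, hu3.val_eq_one⟩

/-- **Leaf W-NEW**, verbatim. -/
theorem wNew : WNewStatement := by
  intro R E F F' _ _ _ _ _ _ _ _ _ _ _ _ _ _ _ _ _ w hw q hq hqR α β x x' V₁ V₂ V₃ V₁' V₂' T
    m hm hqm f hf hNα hNβ hslope
  obtain ⟨π, hπ, A⟩ := absCtx_of_ctx w hw q hq hqR α β x x' V₁ V₂ V₃ V₁' V₂' T
  have hNα' := exists_zpow_of_normPow (E := E) w hw q m hq hqR hm hqm
    (S29.H395.normAlong_ne_zero α T.fin_α hf) hNα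
  have hNβ' := exists_zpow_of_normPow (E := E) w hw q m hq hqR hm hqm
    (S29.H395.normAlong_ne_zero β T.fin_β hf) hNβ
  obtain ⟨s, G, u, k₁, k₂, hG, hfu, hu1, hu3, hu2, hm1, hm2, h11, h12, h21, h22, hN1, hN2⟩ :=
    stepNew (α : F' →+* F) (β : F' →+* F) (S29.H395.normAlong α) (S29.H395.normAlong β)
      q m hm ((Nat.Prime.coprime_iff_not_dvd hq).2 hqm)
      (algebraMap R F' w) (algebraMap R F w) π A.hαw A.hβw V₁' V₂' V₁ V₂ V₃ A.Tα A.Tβ
      A.hw'0 A.hw1 A.hw2 A.hπ0 A.hram A.hordFF A.hordmid A.hordVV A.hord1 A.hord2 A.hap_ord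
      A.hap_res f hf hNα' hNβ' hslope
  exact ⟨s, G, u, k₁, k₂, hG, hfu, pu_iff.1 hu1, pu_iff.1 hu3, hu2, pu_iff.1 hm1,
    pu_iff.1 hm2, h11, h12, h21, h22, hN1, hN2⟩

/-- The slope vanishes for `gcd(q + 1, m) = 1`. -/
theorem slopeZero_of_coprime {R E F F' : Type} [CommRing R] [IsDomain R]
    [IsDiscreteValuationRing R]
    [HenselianLocalRing R] [IsAlgClosed (IsLocalRing.ResidueField R)]
    [Field E] [CharZero E] [Algebra R E] [IsFractionRing R E]
    [Field F] [Algebra E F] [Algebra R F] [IsScalarTower R E F]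
    [Field F'] [Algebra E F'] [Algebra R F'] [IsScalarTower R E F']
    (w : R) (hw : Irreducible w) (q : ℕ) (hq : q.Prime)
    (hqR : (q : R) ∈ IsLocalRing.maximalIdeal R)
    (α β : F' →ₐ[E] F) (x : F) (x' : F')
    (V₁ V₂ V₃ : ValuationSubring F) (V₁' V₂' : ValuationSubring F')
    (T : TripleCtx w q α β x x' V₁ V₂ V₃ V₁' V₂')
    (m : ℕ) (hm : 0 < m) (hqm : ¬ q ∣ m) (hqm1 : Nat.Coprime (q + 1) m)
    (f : F) (hf : f ≠ 0) (hNα : S35.G.NormPow α m f) (hNβ : S35.G.NormPow β m f) :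
    _root_.Fermat.Agent.S59.LoSqC.H987.SlopeZero (algebraMap R F w) m V₁ V₃ f := by
  obtain ⟨π, hπ, A⟩ := absCtx_of_ctx w hw q hq hqR α β x x' V₁ V₂ V₃ V₁' V₂' T
  have hNα' := exists_zpow_of_normPow (E := E) w hw q m hq hqR hm hqm
    (S29.H395.normAlong_ne_zero α T.fin_α hf) hNα
  have hNβ' := exists_zpow_of_normPow (E := E) w hw q m hq hqR hm hqm
    (S29.H395.normAlong_ne_zero β T.fin_β hf) hNβ
  exact slope_of_coprime (α : F' →+* F) (β : F' →+* F) (S29.H395.normAlong α)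
    (S29.H395.normAlong β) q m hqm1 (algebraMap R F' w) (algebraMap R F w) π A.hαw A.hβw
    V₁' V₂' V₁ V₂ V₃ A.Tα A.Tβ A.hw'0 A.hw1 A.hw2 A.hordmid A.hord1 A.hord2 f hf hNα' hNβ'

/-- **Leaf W-NEW** for `gcd(q + 1, m) = 1`, verbatim. -/
theorem wNewCoprime : WNewCoprimeStatement := by
  intro R E F F' _ _ _ _ _ _ _ _ _ _ _ _ _ _ _ _ _ w hw q hq hqR α β x x' V₁ V₂ V₃ V₁' V₂' T
    m hm hqm hqm1 f hf hNα hNβ
  exact wNew w hw q hq hqR α β x x' V₁ V₂ V₃ V₁' V₂' T m hm hqm f hf hNα hNβ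
    (slopeZero_of_coprime w hw q hq hqR α β x x' V₁ V₂ V₃ V₁' V₂' T m hm hqm hqm1 f hf hNα hNβ)

end Fermat.Agent.S59.LoSqC.H987

end

end
-- ===== PACK-END S59/LoSqC/H987/LeafNew.lean

-- ===== PACK-BEGIN S59/LoSqC/H550/Ord12Abs.lean
section


/-!
# S59 moonshot, cell (C) LO-SQ, leaf GUB4 / ORD12 — the abstract half (helper550)

* `aeval_jqModC_eq_zero550` : `p(j) = 0` in `K((t))` forces `p = 0` (`j` is transcendental).
* `exists_hasse_lift550` : for a prime `q ≥ 5` the Hasse polynomial has an integral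
  factorisation `H = X^{4δ} (X - 1728)^{6ε} F¹² + q G` in `ℤ[X]`.
* `mem_sup_pow_twelve550` : the ideal-theoretic core.  In a commutative ring `B` with a prime
  ideal `n ⊇ p`:  `D ∈ n`, `D ≡ H(j) mod p`, `q ∈ p`,
  `H(j) = j^{4δ} (j - 1728)^{6ε} F¹² + q G`, `j v = g³`, `(j - 1728) v = h²`, `v` a unit
  `⟹ D ∈ p ⊔ n¹²`.
-/

set_option autoImplicit false

noncomputable section

namespace Fermat.Agent.S59.LoSqC.H550

open ModularCurve Polynomial
open Fermat.Agent.S28 Fermat.Agent.S36.H438 Fermat.Agent.S36.Reg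

/-- `j` is transcendental: `p(j) = 0` in `K((t))` forces `p = 0`. -/
theorem aeval_jqModC_eq_zero550 (K : Type*) [CommRing K] (p : Polynomial K)
    (h : Polynomial.aeval (jqModC K) p = 0) : p = 0 := by
  by_contra hp
  have h1 := coeff_aeval_jqModC_of_le K p (le_refl p.natDegree)
  rw [h, HahnSeries.coeff_zero] at h1
  exact hp (Polynomial.leadingCoeff_eq_zero.mp h1.symm)

/-- An integral polynomial vanishing modulo `q` is divisible by `q`. -/
theorem exists_eq_C_mul_of_map_eq_zero550 (q : ℕ) (Z : Polynomial ℤ)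
    (h : Z.map (Int.castRingHom (ZMod q)) = 0) : ∃ G : Polynomial ℤ, Z = C (q : ℤ) * G := by
  have hdvd : C (q : ℤ) ∣ Z := by
    rw [Polynomial.C_dvd_iff_dvd_coeff]
    intro i
    have h1 := congrArg (fun s => s.coeff i) h
    simp only [Polynomial.coeff_map, Polynomial.coeff_zero, eq_intCast] at h1
    exact (ZMod.intCast_zmod_eq_zero_iff_dvd _ _).mp h1
  exact hdvd

/-- **The integral Hasse factorisation**: `H = X^{4δ} (X - 1728)^{6ε} F¹² + q G` in `ℤ[X]`. -/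
theorem exists_hasse_lift550 (q : ℕ) [NeZero q] (hq : q.Prime) (h5 : 5 ≤ q) :
    ∃ F G : Polynomial ℤ,
      hassePoly q hq = X ^ (4 * hasseDelta q) * (X - C 1728) ^ (6 * hasseEps q) * F ^ 12
        + C (q : ℤ) * G := by
  have hfact : Fact q.Prime := ⟨hq⟩
  obtain ⟨f, hf⟩ := Fermat.Agent.S36.Reg.H968.hasse q hq h5
  obtain ⟨F, hF⟩ := Polynomial.map_surjective (Int.castRingHom (ZMod q))
    (ZMod.intCast_surjective) f
  have hred := hassePoly_red q hq (ZMod q)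
  set Z : Polynomial ℤ :=
    hassePoly q hq - X ^ (4 * hasseDelta q) * (X - C 1728) ^ (6 * hasseEps q) * F ^ 12 with hZ
  have hZ0 : Z.map (Int.castRingHom (ZMod q)) = 0 := by
    apply aeval_jqModC_eq_zero550
    rw [hZ, Polynomial.map_sub, Polynomial.map_mul, Polynomial.map_mul, Polynomial.map_pow,
      Polynomial.map_pow, Polynomial.map_pow, Polynomial.map_sub, Polynomial.map_X,
      Polynomial.map_C, hF, map_sub, map_mul, map_mul, map_pow, map_pow, map_pow, map_sub,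
      Polynomial.aeval_X, Polynomial.aeval_C, ← hred, hf]
    have e : (algebraMap (ZMod q) (LaurentSeries (ZMod q)))
        ((Int.castRingHom (ZMod q)) 1728) = 1728 := by
      rw [map_ofNat, map_ofNat]
    rw [e, sub_self]
  obtain ⟨G, hG⟩ := exists_eq_C_mul_of_map_eq_zero550 q Z hZ0
  refine ⟨F, G, ?_⟩
  rw [← hG, hZ]
  ring

/-- **The ideal-theoretic core of ORD12.** -/
theorem mem_sup_pow_twelve550 {B : Type*} [CommRing B] (p n : Ideal B) [hn : n.IsPrime]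
    (hpn : p ≤ n) (δ ε : ℕ)
    (D Hj j F G g h u v qB : B)
    (hDn : D ∈ n) (hDH : D - Hj ∈ p) (hq : qB ∈ p)
    (hH : Hj = j ^ (4 * δ) * (j - 1728) ^ (6 * ε) * F ^ 12 + qB * G)
    (huv : u * v = 1) (hj : j * v = g ^ 3) (hj' : (j - 1728) * v = h ^ 2) :
    D ∈ p ⊔ n ^ 12 := by
  set T : B := j ^ (4 * δ) * (j - 1728) ^ (6 * ε) * F ^ 12 with hT
  have hD : D = (D - Hj + qB * G) + T := by rw [hH]; ring
  have hTn : T ∈ n := by
    have h1 : T = D - (D - Hj + qB * G) := by rw [hH]; ring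
    rw [h1]
    exact n.sub_mem hDn (n.add_mem (hpn hDH) (hpn (p.mul_mem_right _ hq)))
  have hju : j = u * g ^ 3 := by
    rw [← hj]
    linear_combination (-j) * huv
  have hju' : j - 1728 = u * h ^ 2 := by
    rw [← hj']
    linear_combination (-(j - 1728)) * huv
  have hT12 : T ∈ n ^ 12 := by
    rcases hn.mem_or_mem hTn with h1 | h1
    · rcases hn.mem_or_mem h1 with h2 | h2
      · -- `j ^ (4 δ) ∈ n`
        have hjn : j ∈ n := hn.mem_of_pow_mem _ h2
        have hgn : g ∈ n := by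
          have : g ^ 3 ∈ n := by rw [← hj]; exact n.mul_mem_right _ hjn
          exact hn.mem_of_pow_mem _ this
        have hδ : δ ≠ 0 := by
          rintro rfl
          rw [mul_zero, pow_zero] at h2
          exact hn.ne_top ((Ideal.eq_top_iff_one n).mpr h2)
        obtain ⟨d, rfl⟩ := Nat.exists_eq_succ_of_ne_zero hδ
        have e : T = (g ^ 12) * (u ^ 4 * j ^ (4 * d) * (j - 1728) ^ (6 * ε) * F ^ 12) := by
          rw [hT]
          have : j ^ (4 * (d + 1)) = j ^ (4 * d) * (u * g ^ 3) ^ 4 := by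
            rw [← hju]; ring
          rw [this]; ring
        rw [e]
        exact Ideal.mul_mem_right _ _ (Ideal.pow_mem_pow hgn 12)
      · -- `(j - 1728) ^ (6 ε) ∈ n`
        have hjn : j - 1728 ∈ n := hn.mem_of_pow_mem _ h2
        have hhn : h ∈ n := by
          have : h ^ 2 ∈ n := by rw [← hj']; exact n.mul_mem_right _ hjn
          exact hn.mem_of_pow_mem _ this
        have hε : ε ≠ 0 := by
          rintro rfl
          rw [mul_zero, pow_zero] at h2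
          exact hn.ne_top ((Ideal.eq_top_iff_one n).mpr h2)
        obtain ⟨d, rfl⟩ := Nat.exists_eq_succ_of_ne_zero hε
        have e : T = (h ^ 12) * (u ^ 6 * j ^ (4 * δ) * (j - 1728) ^ (6 * d) * F ^ 12) := by
          rw [hT]
          have : (j - 1728) ^ (6 * (d + 1)) = (j - 1728) ^ (6 * d) * (u * h ^ 2) ^ 6 := by
            rw [← hju']; ring
          rw [this]; ring
        rw [e]
        exact Ideal.mul_mem_right _ _ (Ideal.pow_mem_pow hhn 12)
    · -- `F ^ 12 ∈ n`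
      have hFn : F ∈ n := hn.mem_of_pow_mem _ h1
      rw [hT]
      exact Ideal.mul_mem_left _ _ (Ideal.pow_mem_pow hFn 12)
  rw [hD]
  exact Ideal.add_mem _
    (Ideal.mem_sup_left (p.add_mem hDH (p.mul_mem_right _ hq)))
    (Ideal.mem_sup_right hT12)

end Fermat.Agent.S59.LoSqC.H550

end

end
-- ===== PACK-END S59/LoSqC/H550/Ord12Abs.lean

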