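import Fermat.Agent.Pack.S43MC.G0E26L3
import Fermat.Agent.Pack.S43MC.G0E24L2
import Fermat.Agent.Pack.S59C.E5L1
import Fermat.Agent.Pack.S43MC.G0E26L2
import Fermat.Agent.Pack.S43MC.G0E26L1
import Fermat.Agent.Pack.S44C.G0E13L2
import Fermat.Agent.Pack.S44C.G0E10L2
import Fermat.Agent.Pack.S59C.E4L3
import Fermat.Agent.Pack.S43MC.G0E3L2
import Fermat.Agent.Pack.S43MC.G0E20L3
import Fermat.Agent.Pack.S43MC.G0E12L1
import Fermat.Agent.Pack.S43MC.G0E16L0
import Fermat.Agent.Pack.S44C.G0E6L2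
import Fermat.Agent.Pack.S59C.E5L2
import Fermat.Agent.Pack.S59C.E7L2
import Fermat.Agent.Pack.S59C.E9L0
import Fermat.Agent.Pack.S43MC.G0E14L1
import Fermat.Agent.Pack.S59C.E9L2
import Fermat.Agent.Pack.S43MC.G0E18L2
import Fermat.Agent.Pack.S59C.E5L0
import Fermat.Agent.Pack.S44C.G0E17L0
import Fermat.Agent.Pack.S44C.G0E25L2
import Fermat.Agent.Pack.S44C.G0E23L0
import Fermat.Agent.Pack.S44C.G0E20L2
import Fermat.Agent.Pack.S44C.G0E20L0
import Fermat.Agent.Pack.S43MC.G0E25L1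
import Fermat.Agent.Pack.S44C.G0E25L1
import Fermat.Agent.Pack.S44C.G0E24L1

set_option linter.all false

-- ===== PACK-BEGIN S59/H105/CorNat.lean
section



/-!
# Row S59, cell TW, leaf CTRL (helper105): `cor` and `res` respect the localisations

For `K_Q ≤ Γ₀(M_Q)`: if `V` is the localisation of `X_{K_Q}(𝒪)` and `W` the localisation of
`X_{Γ₀(M_Q)}(𝒪)` at the same generators, then `cor V ⊆ W` and `res W ⊆ V` (the hypotheses `hcor`,
`hres` of helper762's `cor_ctrl_locPart_h762`).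
-/

set_option autoImplicit false

namespace Fermat.Agent.S59.H105

open IsLocalRing CongruenceSubgroup
open Fermat.Agent.S29.H642 Fermat.Agent.S41 Fermat.Agent.S41.Spec
open Fermat.Agent.S59.TW.H653 Fermat.Agent.S59.TW.Aut
open scoped MatrixGroups

section Lin

variable (𝒪 : Type) [CommRing 𝒪] {K K' : Subgroup SL(2, ℤ)}

/-- `coresK` as a linear map. -/
noncomputable def coresKL (h : K' ≤ K) : (Additive K' →+ 𝒪) →ₗ[𝒪] (Additive K →+ 𝒪) where
  toFun := coresK h
  map_add' φ ψ := H581.transferAlong_add (Subgroup.inclusion h) φ ψ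
  map_smul' c φ := by
    rw [smul_eq_coeffSmul_comp]
    exact H581.transferAlong_comp (Subgroup.inclusion h) (coeffSmul 𝒪 𝒪 c) φ

/-- `resK` as a linear map. -/
def resKL (h : K' ≤ K) : (Additive K →+ 𝒪) →ₗ[𝒪] (Additive K' →+ 𝒪) where
  toFun := resK h
  map_add' _ _ := rfl
  map_smul' _ _ := rfl

@[simp] theorem coresKL_apply (h : K' ≤ K) (φ : Additive K' →+ 𝒪) :
    coresKL 𝒪 h φ = coresK h φ := rfl

@[simp] theorem resKL_apply (h : K' ≤ K) (φ : Additive K →+ 𝒪) :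
    resKL 𝒪 h φ = resK h φ := rfl

end Lin

section

variable {𝒪 : Type} [CommRing 𝒪] [IsDomain 𝒪] [IsDiscreteValuationRing 𝒪]
  [IsAdicComplete (maximalIdeal 𝒪) 𝒪]

/-- `cor V ⊆ W` and `res W ⊆ V`. -/
theorem cor_res_mem_of_isLocPart (p N₀ : ℕ) {r : ℕ} (qv : Fin r → ℕ)
    (hM : bLevel N₀ qv ≠ 0) {Tset Uset : Set (ℕ × 𝒪)}
    (hT : ∀ x ∈ Tset, x.1.Prime ∧ ¬ x.1 ∣ bLevel N₀ qv)
    (hU : ∀ x ∈ Uset, x.1.Prime ∧ x.1 ∣ bLevel N₀ qv)
    {V : Submodule 𝒪 (Additive (KQ p N₀ qv) →+ 𝒪)}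
    (hV : IsLocPart (isMid_KQ p N₀ qv) Tset Uset V)
    {W : Submodule 𝒪 (Additive (Gamma0 (bLevel N₀ qv)) →+ 𝒪)}
    (hW : IsLocPart (isMid_Gamma0 (bLevel N₀ qv)) Tset Uset W) :
    (∀ x ∈ V, coresK (isMid_KQ p N₀ qv).le x ∈ W) ∧
      (∀ y ∈ W, resK (isMid_KQ p N₀ qv).le y ∈ V) := by
  constructor
  · refine nat_of_isLocPart hM (isMid_KQ p N₀ qv) (isMid_Gamma0 _) hV hW subset_rfl subset_rfl
      hT hU hT hU (coresKL 𝒪 (isMid_KQ p N₀ qv).le) ?_
    rintro (i | i) x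
    · haveI : Fact i.1.1.Prime := ⟨(hT i.1 i.2).1⟩
      show coresK _ (TK _ _ i.1.1 x - i.1.2 • x) = TK _ _ i.1.1 (coresK _ x) - i.1.2 • coresK _ x
      rw [← H762.coresK_TK_h762 p N₀ qv (hT i.1 i.2).2 x]
      exact ((coresKL 𝒪 (isMid_KQ p N₀ qv).le).map_sub _ _).trans
        (congrArg _ ((coresKL 𝒪 (isMid_KQ p N₀ qv).le).map_smul _ _))
    · haveI : Fact i.1.1.Prime := ⟨(hU i.1 i.2).1⟩
      show coresK _ (UK _ i.1.1 x - i.1.2 • x) = UK _ i.1.1 (coresK _ x) - i.1.2 • coresK _ x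
      rw [← H762.coresK_UK_h762 p N₀ qv (hU i.1 i.2).2 x]
      exact ((coresKL 𝒪 (isMid_KQ p N₀ qv).le).map_sub _ _).trans
        (congrArg _ ((coresKL 𝒪 (isMid_KQ p N₀ qv).le).map_smul _ _))
  · refine nat_of_isLocPart hM (isMid_Gamma0 _) (isMid_KQ p N₀ qv) hW hV subset_rfl subset_rfl
      hT hU hT hU (resKL 𝒪 (isMid_KQ p N₀ qv).le) ?_
    rintro (i | i) x
    · haveI : Fact i.1.1.Prime := ⟨(hT i.1 i.2).1⟩
      show resK _ (TK _ _ i.1.1 x - i.1.2 • x) = TK _ _ i.1.1 (resK _ x) - i.1.2 • resK _ x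
      rw [resK_TK (isMid_Gamma0 _) (isMid_KQ p N₀ qv) _ (hT i.1 i.2).2 x]
      rfl
    · haveI : Fact i.1.1.Prime := ⟨(hU i.1 i.2).1⟩
      show resK _ (UK _ i.1.1 x - i.1.2 • x) = UK _ i.1.1 (resK _ x) - i.1.2 • resK _ x
      rw [resK_UK (isMid_Gamma0 _) (isMid_KQ p N₀ qv) _ (hU i.1 i.2).2 x]
      rfl

end

end Fermat.Agent.S59.H105

end
-- ===== PACK-END S59/H105/CorNat.lean

-- ===== PACK-BEGIN S33/H92/LevelBridge.lean
section



/-!
# S33 — the level bridge (the `p = 3` gap of the wall at `p`)  — helper92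

The wall at `p` (clause (S2) of `S33.OrdFilStatement`) needs the semistable model `A2.ModSSData`
at level `N = p M'` with `q = p`.  For `p = 3` the A2 block produces it only when `2 ∣ N`
(`A2.Top.H994.ModSSGoodStatement`), and the A2 descent to odd levels (norm of degree `3`) is not
available for `3`-torsion.  This file removes the problem at the level of **(K)**:

* `keyAt_of_injOn`        : (K) descends along any equivariant additive map which is injective on
                            `p`-torsion (abstract, Mathlib + `KeyCore` only);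
* `keyAt_of_keyAt_mul`    : `KeyAt I p J₀(N q) → KeyAt I p J₀(N)` for every prime `q ≠ p`
                            (pull-back `A3.H319.levelPull`, injective on torsion prime to `q` by
                            `A3.H319.eq_zero_of_levelPull_eq_zero`, which is on main);
* `OrdFilReadyStatement`  : `S33.OrdFilStatement` restricted to READY levels (`p = 3 → 2 ∣ M'`);
* `keyStatement_of_ready` : `OrdFilReadyStatement → OldAugStatement → KeyStatement`.

So the wall only has to deliver (S2) at levels `p M'` with `2 ∣ M'` when `p = 3`.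
-/

set_option autoImplicit false
set_option linter.style.haveILetI false

namespace Fermat.Agent.S33.H92

open Fermat.Agent.S33 Fermat.Agent.S31

/-! ### Abstract transfer -/

section Abstract

variable {G : Type*} [Group G] {J J' : Type*} [AddCommGroup J] [AddCommGroup J']
  [DistribMulAction G J] [DistribMulAction G J']

/-- **Transfer of (K)** along an equivariant additive map which is injective on `p`-torsion. -/
theorem keyAt_of_injOn (f : J →+ J') (hf : ∀ (σ : G) (x : J), f (σ • x) = σ • f x)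
    (I : Subgroup G) (p : ℕ) (hinj : ∀ x : J, p • x = 0 → f x = 0 → x = 0)
    (hK : KeyAt I p J') : KeyAt I p J := by
  intro Y hYG hY y hy
  have hY' : Y.map f ≤ Fermat.Agent.S33.iAug I (Y.map f) := by
    refine hK (Y.map f) ?_ ?_
    · rintro σ _ ⟨z, hz, rfl⟩
      exact ⟨σ • z, hYG σ z hz, hf σ z⟩
    · rintro _ ⟨z, hz, rfl⟩
      exact (Fermat.Agent.S33.H270.spec_inSPlus_iff I p _).mpr
        (((Fermat.Agent.S33.H270.spec_inSPlus_iff I p _).mp (hY z hz)).map f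
          (fun σ _ x => hf σ x))
  obtain ⟨w, hw, hwy⟩ := Fermat.Agent.S33.H270.exists_mem_iAug_of_mem_iAug_map f
    (fun σ _ x => hf σ x) (hY' (AddSubgroup.mem_map_of_mem f hy))
  have hwY : w ∈ Y := Fermat.Agent.S33.H270.iAug_le_self (fun σ _ z hz => hYG σ z hz) hw
  have h0 : y - w = 0 :=
    hinj (y - w) (by rw [smul_sub, (hY y hy).1, (hY w hwY).1, sub_zero])
      (by rw [map_sub, hwy, sub_self])
  rw [sub_eq_zero] at h0
  rw [h0]
  exact hw

end Abstract

/-! ### The level bridge for `J₀` -/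

open ModularCurve

/-- **Level bridge.**  (K) at level `N q` implies (K) at level `N`, for every auxiliary prime
`q ≠ p` (no condition on `N`). -/
theorem keyAt_of_keyAt_mul {p : ℕ} (hp : p.Prime) (N : ℕ) [NeZero N] {q : ℕ} [NeZero q]
    (hq : q.Prime) (hqp : q ≠ p) (I : Subgroup GQ) (hK : KeyAt I p (JZero (N * q))) :
    KeyAt I p (JZero N) := by
  haveI : NeZero p := ⟨hp.ne_zero⟩
  refine keyAt_of_injOn (Fermat.Agent.A3.H319.levelPull N q)
    (fun σ x => Fermat.Agent.A3.H319.levelPull_smul N q σ x) I p (fun x hx h0 => ?_) hK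
  refine Fermat.Agent.A3.H319.eq_zero_of_levelPull_eq_zero N q hq p
    ((Nat.coprime_primes hq hp).mpr hqp) ?_ h0
  rw [natCast_zsmul]
  exact hx

/-! ### READY levels -/

/-- **NEW at READY levels**: `S33.OrdFilStatement` with the extra hypothesis `p = 3 → 2 ∣ M'`
(the levels at which `A2.Top.H994.ModSSGoodStatement` provides the semistable model at
`q = p`). -/
def OrdFilReadyStatement : Prop :=
  ∀ (p M' : ℕ) [NeZero M'] [NeZero (p * M')], p.Prime → p ≠ 2 → ¬ p ∣ M' → (p = 3 → 2 ∣ M') →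
    ∃ (α β : ModularCurve.JZero (p * M') →+ ModularCurve.JZero M'),
      (∀ (σ : GQ) (x : ModularCurve.JZero (p * M')), α (σ • x) = σ • α x) ∧
      (∀ (σ : GQ) (x : ModularCurve.JZero (p * M')), β (σ • x) = σ • β x) ∧
      ∀ A : ValuationSubring Qb, A.LiesOverPrime p →
        ∃ 𝒮 : Set (ModularCurve.JZero (p * M')),
          (∀ x : ModularCurve.JZero (p * M'), InSPlus (A.inertiaSubgroupIn ℚ) p x → x ∈ 𝒮) ∧
          (∀ x ∈ 𝒮, p • x = 0 → α x = 0 → β x = 0 →
            ∀ σ ∈ A.inertiaSubgroupIn ℚ, ∀ c : ℕ,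
              (∀ ζ : Qb, ζ ^ p = 1 → σ ζ = ζ ^ c) → σ • x = c • x)

/-- The full statement implies the READY one. -/
theorem ordFilReady_of_ordFil (h : OrdFilStatement) : OrdFilReadyStatement :=
  fun p M' _ _ hp hp2 hpM' _ => h p M' hp hp2 hpM'

/-- **(K) at a READY level** (the proof of `H270.keyStatement`, level by level). -/
theorem keyAt_of_ready (hNEW : OrdFilReadyStatement) (hOLD : OldAugStatement)
    {p : ℕ} (hp : p.Prime) (hp2 : p ≠ 2) (N : ℕ) [NeZero N] (hN : p ∣ N) (hN2 : ¬ p ^ 2 ∣ N)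
    (hr : p = 3 → 2 ∣ N) (P : ValuationSubring Qb) (hP : P.LiesOverPrime p) :
    KeyAt (P.inertiaSubgroupIn ℚ) p (JZero N) := by
  obtain ⟨M', rfl⟩ := hN
  have hM' : M' ≠ 0 := by
    rintro rfl
    exact NeZero.ne (p * 0) (mul_zero p)
  haveI : NeZero M' := ⟨hM'⟩
  have hpM' : ¬ p ∣ M' := by
    rintro ⟨k, rfl⟩
    exact hN2 ⟨k, by ring⟩
  have hr' : p = 3 → 2 ∣ M' := by
    intro h3
    have h2 : 2 ∣ p * M' := hr h3
    subst h3
    exact (Nat.Coprime.dvd_of_dvd_mul_left (by decide) h2)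
  obtain ⟨α, β, hα, hβ, hfil⟩ := hNEW p M' hp hp2 hpM' hr'
  obtain ⟨𝒮, hS1, hS2⟩ := hfil P hP
  obtain ⟨σ₀, hσ₀, c₀, d, hc₀, hcd⟩ :=
    Fermat.Agent.S33.H270.exists_inertia_scalar_spec hp hp2 P hP
  intro Y hYG hY
  rw [Fermat.Agent.S33.H270.spec_iAug_eq]
  refine Fermat.Agent.S33.H270.key_of (I := P.inertiaSubgroupIn ℚ) (p := p) α β hα hβ hσ₀ hcd 𝒮
    (fun x hx => hS1 x hx) (fun x hx hpx hαx hβx => hS2 x hx hpx hαx hβx σ₀ hσ₀ c₀ hc₀)
    (fun Y' hY'G hY' => hOLD p M' hp hp2 hpM' P hP Y' hY'G hY') Y hYG hY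

/-- **KEY from the wall at READY levels.** -/
theorem keyStatement_of_ready (hNEW : OrdFilReadyStatement) (hOLD : OldAugStatement) :
    KeyStatement := by
  intro p N _ hp hp2 hN hN2 P hP
  by_cases hr : p = 3 → 2 ∣ N
  · exact keyAt_of_ready hNEW hOLD hp hp2 N hN hN2 hr P hP
  · -- `p = 3`, `N` odd: go up to level `N * 2`
    refine keyAt_of_keyAt_mul hp N Nat.prime_two (Ne.symm hp2) _ ?_
    refine keyAt_of_ready hNEW hOLD hp hp2 (N * 2) (hN.mul_right 2) ?_
      (fun _ => dvd_mul_left 2 N) P hP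
    intro h
    apply hN2
    have hcop : Nat.Coprime (p ^ 2) 2 :=
      Nat.Coprime.pow_left 2 ((Nat.coprime_primes hp Nat.prime_two).mpr hp2)
    exact hcop.dvd_of_dvd_mul_right h

end Fermat.Agent.S33.H92

end
-- ===== PACK-END S33/H92/LevelBridge.lean

-- ===== PACK-BEGIN S59/LOQ/H213/Spec.lean
section





/-!
# Row S59, cell LO, sub-row LO-Q (Mazur's principle in W-form at `p ∈ {3, 5}`)
  — frozen target, W-form core and glue (sub-architect helper213)

Target of the sub-row: `S59.Arch.LOW.MazurW35Statement` (frozen by helper239).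

## The ONE geometric leaf
`TargetsW35Statement`: the three targets `Q2For / Q3For / Q4For` of the wall at `q`
(`Ribet/H158/WallQSpec.lean`, VERBATIM vocabulary) at `p ∈ {3, 5}`, for EVERY prime `q ≠ p`
(`q = 2` included) and EVERY level `M'` prime to `q` (`p ∣ M'` allowed, no good-level hypothesis).
The targets only speak about `J₀(q M')`; nothing about curves.

## Proved here (no new mathematics: W-form copy of `H158.WallQ.lowered_of_targetsQ` and of
`H723.lowered_of_targetsQ_plus`)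
* `involution_pm_oneW`        : Schur for an involution of an irreducible `W[p]`;
* `lowered_of_targetsQ_W`     : the core of the wall at `q`, W-form, sharp exclusion;
* `mazurW35_of_targets`       : BLR-W + NE-W + R3S + R3'-W + PL + DETF-W + DIM-W + targets
                                ⇒ `MazurW35Statement`.
-/

set_option autoImplicit false
set_option linter.style.haveILetI false

open WeierstrassCurve WeierstrassCurve.Affine WeierstrassCurve.Affine.Point
open CuspForm ModularFormClass UpperHalfPlane ModularCurve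

namespace Fermat.Agent.S59.LOQ.H213

open Fermat.Agent.Ribet Fermat.Agent.Ribet.Spec Fermat.Agent.Ribet.H944.Wall
open Fermat.Agent.Ribet.H801 Fermat.Agent.Ribet.H158.WallQ
open Fermat.Agent.S59.Arch.LOW

/-! ## The leaf -/

/-- **LO-Q, the geometric leaf**: the three targets of the wall at `q` for `p ∈ {3, 5}`, every
prime `q ≠ p` and every level `M'` prime to `q`. -/
def TargetsW35Statement : Prop :=
  ∀ (p q M' : ℕ) [NeZero M'] [NeZero q] [NeZero (q * M')], p.Prime → (p = 3 ∨ p = 5) →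
    q.Prime → q ≠ p → ¬ q ∣ M' →
    ∀ A : ValuationSubring (AlgebraicClosure ℚ), A.LiesOverPrime q →
      ∃ 𝓕 𝒮 : AddSubgroup (JZero (q * M')),
        Q2For p q M' A 𝒮 ∧ Q3For p q M' 𝓕 𝒮 ∧ Q4For p q M' A 𝓕

/-- (DETF-W) `det ρ̄(Frob_q) = q` on an irreducible `W[p]` (on main: `H823.h823_detFrobW`). -/
def DetFrobWStatement : Prop :=
  ∀ (W : WeierstrassCurve ℤ) (p : ℕ), W.Δ ≠ 0 → p.Prime → W.ModRepIsIrreducible p →
    ∀ q : ℕ, q.Prime → q ≠ p →
    ∀ A : ValuationSubring (AlgebraicClosure ℚ), A.LiesOverPrime q →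
    ∀ φ : GQ, A.IsFrobeniusAt φ q →
      LinearMap.det (galoisRepModuleEnd (S := ℚ) (K := AlgebraicClosure ℚ)
        (W.map (Int.castRingHom ℚ)) p φ) = (q : ZMod p)

/-- (DIM-W) `W[p]` has rank two (on main: `H823.h823_finrankW`). -/
def TorsionRankWStatement : Prop :=
  ∀ (W : WeierstrassCurve ℤ) (p : ℕ), W.Δ ≠ 0 → p.Prime →
    Module.finrank (ZMod p) (WTorsion W p) = 2

/-! ## W-form core -/

theorem wTorsion_nsmul (W : WeierstrassCurve ℤ) (p : ℕ) (x : WTorsion W p) : p • x = 0 := by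
  apply Subtype.ext
  have h := x.2
  rw [Submodule.mem_torsionBy_iff] at h
  rw [Submodule.coe_smul_of_tower, ZeroMemClass.coe_zero, ← h, Nat.cast_smul_eq_nsmul]

/-- Schur-type lemma: a linear involution of an irreducible `W[p]` commuting with Galois is
`± 1`. -/
theorem involution_pm_oneW (W : WeierstrassCurve ℤ) (p : ℕ)
    (hirr : W.ModRepIsIrreducible p)
    (U : WTorsion W p →ₗ[ZMod p] WTorsion W p)
    (hUG : ∀ (σ : GQ) (x : WTorsion W p), U (σ • x) = σ • U x)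
    (hUU : ∀ x, U (U x) = x) : (∀ x, U x = x) ∨ (∀ x, U x = -x) := by
  let Vp : Submodule (ZMod p) (WTorsion W p) := LinearMap.ker (U - LinearMap.id)
  have hVp : ∀ x, x ∈ Vp ↔ U x = x := fun x => by
    simp only [Vp, LinearMap.mem_ker, LinearMap.sub_apply, LinearMap.id_apply, sub_eq_zero]
  have hsp : IsGaloisStable ℚ Vp := fun σ x hx => by
    rw [hVp] at hx ⊢
    rw [hUG, hx]
  rcases hirr.2 Vp hsp with hp | hp
  · right
    intro x
    have h1 : x + U x ∈ Vp := by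
      rw [hVp, map_add, hUU, add_comm]
    rw [hp, Submodule.mem_bot] at h1
    exact eq_neg_of_add_eq_zero_right h1
  · left
    intro x
    exact (hVp x).1 (hp ▸ Submodule.mem_top)

section Core

variable {p q M' : ℕ} [NeZero M'] [NeZero q] [NeZero (q * M')]

/-- **Core of the wall at `q`, W-form, sharp exclusion**: from the three targets at a place `A`
with a Frobenius `φ` such that `q ≢ 1 mod p` or `φ` is not a scalar on `W[p]`. -/
theorem lowered_of_targetsQ_W (W : WeierstrassCurve ℤ) (hp : p.Prime) (hq : q.Prime)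
    (hqp : q ≠ p) (hirr : W.ModRepIsIrreducible p)
    (hdim : Module.finrank (ZMod p) (WTorsion W p) = 2)
    {A : ValuationSubring (AlgebraicClosure ℚ)} {φ : GQ} (hφ : A.IsFrobeniusAt φ q)
    (hdet : LinearMap.det (galoisRepModuleEnd (S := ℚ) (K := AlgebraicClosure ℚ)
      (W.map (Int.castRingHom ℚ)) p φ) = (q : ZMod p))
    (hfixE : ∀ σ ∈ A.inertiaSubgroupIn ℚ, ∀ x : WTorsion W p, σ • x = x)
    (hq1 : ¬ p ∣ q - 1 ∨ ∀ c : ℤ, ∃ x : WTorsion W p, φ • x ≠ c • x)
    {𝓕 𝒮 : AddSubgroup (JZero (q * M'))}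
    (h2 : Q2For p q M' A 𝒮) (h3 : Q3For p q M' 𝓕 𝒮) (h4 : Q4For p q M' A 𝓕)
    {S : Finset ℕ} (hNE : NonEisAway p (fun ℓ => W.apOfModel ℓ))
    (hemb : WEmbedsIn W p (q * M') S) : Lowered M' p S (fun ℓ => W.apOfModel ℓ) := by
  haveI : Fact p.Prime := ⟨hp⟩
  obtain ⟨ι, hinj, hgal, hT⟩ := hemb
  have hp_tors : ∀ x, p • ι x = 0 := fun x => by
    rw [← map_nsmul, wTorsion_nsmul, _root_.map_zero]
  have hfix : ∀ σ ∈ A.inertiaSubgroupIn ℚ, ∀ x, σ • ι x = ι x := fun σ hσ x => by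
    rw [← hgal]
    exact congrArg ι (hfixE σ hσ x)
  have hdeg := isDegPair_alphaL_betaL q M' hq
  -- (W0) not new: the eigensystem occurs at level `M'` through `α_*` or `β_*`
  by_cases h : ∃ x, alphaL q M' (ι x) ≠ 0 ∨ betaL q M' (ι x) ≠ 0
  · refine ⟨S ∪ {q}, Finset.subset_union_left, Or.inl ?_⟩
    obtain ⟨x, hx | hx⟩ := h
    · refine ⟨alphaL q M' (ι x), hx, ?_, fun ℓ hℓ => ?_⟩
      · rw [← map_nsmul, hp_tors, _root_.map_zero]
      · rw [Finset.mem_union, not_or] at hℓ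
        rw [← hdeg.hecke_left ℓ hℓ.2, hT ℓ hℓ.1, map_zsmul]
    · refine ⟨betaL q M' (ι x), hx, ?_, fun ℓ hℓ => ?_⟩
      · rw [← map_nsmul, hp_tors, _root_.map_zero]
      · rw [Finset.mem_union, not_or] at hℓ
        rw [← hdeg.hecke_right ℓ hℓ.2, hT ℓ hℓ.1, map_zsmul]
  have hnew : ∀ x, IsNewTorsQ p q M' (ι x) := by
    intro x
    refine ⟨hp_tors x, ?_, ?_⟩
    · by_contra hx
      exact h ⟨x, Or.inl hx⟩
    · by_contra hx
      exact h ⟨x, Or.inr hx⟩
  have heig : ∀ x, EigenAt (q * M') S (fun ℓ => W.apOfModel ℓ) (ι x) :=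
    fun x ℓ hℓ => hT ℓ hℓ x
  -- (Q4) the image lies in the finite part
  have hF : ∀ x, ι x ∈ 𝓕 := fun x =>
    h4 S _ hNE (ι x) (hnew x) (heig x) (fun σ hσ => hfix σ hσ x)
  -- (Q3) if the image is not in the split part we are done
  by_cases hS : ∃ x, ι x ∉ 𝒮
  · obtain ⟨x, hx⟩ := hS
    exact h3 S _ (ι x) (hF x) hx (hnew x) (heig x)
  -- (Q2) otherwise Frobenius is the scalar `± q` on `W[p]`: contradiction
  exfalso
  have hι𝒮 : ∀ x, ι x ∈ 𝒮 := by
    intro x
    by_contra hx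
    exact hS ⟨x, hx⟩
  obtain ⟨u, huG, huu, hφu⟩ := h2
  have hcopq : IsCoprime (q : ℤ) (p : ℤ) := by
    rw [isCoprime_comm]
    refine (Nat.prime_iff_prime_int.mp hp).coprime_iff_not_dvd.2 ?_
    intro h'
    have h'' : p ∣ q := by exact_mod_cast h'
    exact hqp ((Nat.prime_dvd_prime_iff_eq hp hq).1 h'').symm
  obtain ⟨d, e, hde⟩ := hcopq
  have hu : ∀ x, u (ι x) = ι (d • (φ • x)) := by
    intro x
    have h1 : φ • ι x = q • u (ι x) := hφu φ hφ (ι x) (hι𝒮 x) (hnew x)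
    have h2' : p • u (ι x) = 0 := by rw [← map_nsmul, hp_tors, _root_.map_zero]
    calc u (ι x) = d • (q • u (ι x)) := (bezout_zsmul_nsmul _ p q d e hde h2').symm
      _ = d • (φ • ι x) := by rw [h1]
      _ = ι (d • (φ • x)) := by rw [map_zsmul, hgal]
  -- the involution on `W[p]`
  let U : WTorsion W p →ₗ[ZMod p] WTorsion W p :=
    (d : ZMod p) • galoisRepModuleEnd (S := ℚ) (K := AlgebraicClosure ℚ)
      (W.map (Int.castRingHom ℚ)) p φ
  have hUdef : ∀ x, U x = d • (φ • x) := fun x => by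
    show (d : ZMod p) • (φ • x) = d • (φ • x)
    exact Int.cast_smul_eq_zsmul (ZMod p) d (φ • x)
  have hιU : ∀ x, ι (U x) = u (ι x) := fun x => by rw [hUdef, hu]
  have hUG : ∀ (σ : GQ) (x : WTorsion W p), U (σ • x) = σ • U x := fun σ x => by
    apply hinj
    rw [hιU, hgal, huG, hgal, hιU]
  have hUU : ∀ x, U (U x) = x := fun x => by
    apply hinj
    rw [hιU, hιU, huu _ (hι𝒮 x) (hnew x)]
  have hφU : ∀ x : WTorsion W p, φ • x = (q : ℤ) • U x := fun x => by
    rw [hUdef, natCast_zsmul]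
    have h3' : d • (q • (φ • x)) = φ • x :=
      bezout_zsmul_nsmul _ p q d e hde (wTorsion_nsmul W p _)
    rw [smul_comm] at h3'
    exact h3'.symm
  -- `φ` is the scalar `ε q`, `ε = ± 1`
  have hscal : ∃ ε : ℤ, ε ^ 2 = 1 ∧ ∀ x : WTorsion W p, φ • x = (ε * q) • x := by
    rcases involution_pm_oneW W p hirr U hUG hUU with hU | hU
    · exact ⟨1, by norm_num, fun x => by rw [hφU, hU, one_mul]⟩
    · refine ⟨-1, by norm_num, fun x => ?_⟩
      rw [hφU, hU, smul_neg, neg_one_mul]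
      exact (_root_.neg_smul _ _).symm
  obtain ⟨ε, hε, hφε⟩ := hscal
  rcases hq1 with hq1 | hns
  · -- `det φ = (ε q)² = q²`, but `det φ = q`: so `p ∣ q - 1`
    have e : galoisRepModuleEnd (S := ℚ) (K := AlgebraicClosure ℚ)
        (W.map (Int.castRingHom ℚ)) p φ
        = ((ε * q : ℤ) : ZMod p) • (LinearMap.id : WTorsion W p →ₗ[ZMod p] WTorsion W p) := by
      ext x
      rw [galoisRepModuleEnd_apply, hφε]
      simp only [LinearMap.smul_apply, LinearMap.id_coe, id_eq]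
      rw [Int.cast_smul_eq_zsmul]
    have hε' : ((ε : ℤ) : ZMod p) ^ 2 = 1 := by
      have := congrArg (Int.cast : ℤ → ZMod p) hε
      simpa using this
    have hd : LinearMap.det (galoisRepModuleEnd (S := ℚ) (K := AlgebraicClosure ℚ)
        (W.map (Int.castRingHom ℚ)) p φ) = (q : ZMod p) ^ 2 := by
      rw [e, LinearMap.det_smul, hdim, LinearMap.det_id, mul_one]
      push_cast
      rw [mul_pow, hε', one_mul]
    have hdet' : (q : ZMod p) = (q : ZMod p) ^ 2 := hdet.symm.trans hd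
    have hq0 : (q : ZMod p) ≠ 0 := by
      intro h'
      rw [ZMod.natCast_eq_zero_iff] at h'
      exact hqp ((Nat.prime_dvd_prime_iff_eq hp hq).1 h').symm
    have hq1' : (q : ZMod p) = 1 := by
      have : (q : ZMod p) * ((q : ZMod p) - 1) = 0 := by
        rw [mul_sub, mul_one, ← pow_two, ← hdet', sub_self]
      rcases mul_eq_zero.1 this with h' | h'
      · exact absurd h' hq0
      · exact sub_eq_zero.1 h'
    apply hq1
    have : ((q - 1 : ℕ) : ZMod p) = 0 := by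
      rw [Nat.cast_sub hq.one_le, hq1']
      simp
    exact (ZMod.natCast_eq_zero_iff _ _).1 this
  · obtain ⟨x, hx⟩ := hns (ε * q)
    exact hx (hφε x)

end Core

/-! ## The dictionary with `residualGaloisRepOf` -/

section Dict

variable {p : ℕ} [Fact p.Prime] (W : WeierstrassCurve ℤ)
    (hcard : Nat.card (Submodule.torsionBy ℤ
      ((W.map (Int.castRingHom ℚ))⁄(AlgebraicClosure ℚ)).Point p) = p ^ 2)
    (hker : GaloisFactorsThroughFiniteLevel
      (WeierstrassCurve.Affine.Point.galoisRepModuleEnd (K := AlgebraicClosure ℚ) ℚ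
        (W.map (Int.castRingHom ℚ)) p))

/-- Unramified at `q` in the sense of the Prelude ⇒ inertia fixes `W[p]` pointwise. -/
theorem fix_of_isUnramifiedAt {q : ℕ}
    (hunr : ((W.map (Int.castRingHom ℚ)).residualGaloisRepOf p hcard hker).IsUnramifiedAt q)
    (A : ValuationSubring (AlgebraicClosure ℚ)) (hA : A.LiesOverPrime q) :
    ∀ σ ∈ A.inertiaSubgroupIn ℚ, ∀ x : WTorsion W p, σ • x = x := by
  intro σ hσ x
  have h := hunr A hA σ hσ
  have h' := LinearMap.congr_fun h x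
  exact h'

/-- Not a pivot ⇒ `q ≢ 1 mod p`, or some Frobenius at `q` is not an integer scalar on `W[p]`. -/
theorem exclusion_of_not_isPivotAt {q : ℕ}
    (hnp : ¬ IsPivotAt p ((W.map (Int.castRingHom ℚ)).residualGaloisRepOf p hcard hker) q) :
    ¬ p ∣ q - 1 ∨ ∃ (A : ValuationSubring (AlgebraicClosure ℚ)) (φ : GQ),
      A.LiesOverPrime q ∧ A.IsFrobeniusAt φ q ∧ ∀ c : ℤ, ∃ x : WTorsion W p, φ • x ≠ c • x := by
  by_cases h1 : p ∣ q - 1
  · right
    by_contra hcon
    apply hnp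
    refine ⟨h1, ?_⟩
    intro P hP φ hφ
    by_contra hsc
    apply hcon
    refine ⟨P, φ, hP, hφ, fun c => ?_⟩
    by_contra hx
    push Not at hx
    apply hsc
    refine ⟨(c : ZMod p), ?_⟩
    change galoisRepModuleEnd (S := ℚ) (K := AlgebraicClosure ℚ)
        (W.map (Int.castRingHom ℚ)) p φ
      = (c : ZMod p) • (1 : Module.End (ZMod p) (WTorsion W p))
    ext x
    have := hx x
    rw [galoisRepModuleEnd_apply, LinearMap.smul_apply, Module.End.one_apply, this,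
      Int.cast_smul_eq_zsmul]
  · exact Or.inl h1

end Dict

/-! ## The glue -/

/-- **LO-Q from its leaf**: BLR-W + NE-W + R3S + R3'-W + PL + DETF-W + DIM-W + the three targets
at `p ∈ {3, 5}` ⇒ `MazurW35Statement`. -/
theorem mazurW35_of_targets (hE : EmbedWStatement) (hNE : NonEisWStatement)
    (hR3 : EigenformOfOccursAwayStatement) (hR3' : AlmostAllToWitnessWStatement)
    (hPl : PlacesStatement) (hDet : DetFrobWStatement) (hDim : TorsionRankWStatement)
    (hT : TargetsW35Statement) : MazurW35Statement := by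
  intro p _ hp35 W hΔ hW hirr hcard hker M q hM hq hqp hqM hunr hnp hres
  have hp : p.Prime := Fact.out
  have hp2 : p ≠ 2 := by rcases hp35 with h | h <;> omega
  obtain ⟨M', rfl⟩ := hqM
  have hM0 : q * M' ≠ 0 := hM.ne_zero
  have hM'pos : 0 < M' := by
    rcases Nat.eq_zero_or_pos M' with h0 | h0
    · subst h0; simp at hM0
    · exact h0
  rw [Nat.mul_div_cancel_left M' hq.pos]
  have hqM' : ¬ q ∣ M' := by
    rintro ⟨k, rfl⟩
    have h2 : q * q ∣ q * (q * k) := ⟨k, by ring⟩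
    exact hq.not_isUnit (hM q h2)
  haveI : NeZero M' := ⟨hM'pos.ne'⟩
  haveI : NeZero q := ⟨hq.ne_zero⟩
  haveI : NeZero (q * M') := ⟨hM0⟩
  obtain ⟨f, 𝔪, hwit⟩ := hres
  obtain ⟨S, hemb⟩ := hE W p (q * M') hΔ hp hp2 hirr f 𝔪 hwit
  have hNE' : NonEisAway p (fun ℓ => W.apOfModel ℓ) := hNE W p hΔ hp hp2 hirr
  have hlow : Lowered M' p S (fun ℓ => W.apOfModel ℓ) := by
    rcases exclusion_of_not_isPivotAt W hcard hker hnp with hq1 | ⟨A, φ, hA, hφ, hns⟩
    · obtain ⟨A, hA, φ, hφ⟩ := hPl q hq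
      obtain ⟨𝓕, 𝒮, h2, h3, h4⟩ := hT p q M' hp hp35 hq hqp hqM' A hA
      exact lowered_of_targetsQ_W W hp hq hqp hirr (hDim W p hΔ hp) hφ
        (hDet W p hΔ hp hirr q hq hqp A hA φ hφ) (fix_of_isUnramifiedAt W hcard hker hunr A hA)
        (Or.inl hq1) h2 h3 h4 hNE' hemb
    · obtain ⟨𝓕, 𝒮, h2, h3, h4⟩ := hT p q M' hp hp35 hq hqp hqM' A hA
      exact lowered_of_targetsQ_W W hp hq hqp hirr (hDim W p hΔ hp) hφ
        (hDet W p hΔ hp hirr q hq hqp A hA φ hφ) (fix_of_isUnramifiedAt W hcard hker hunr A hA)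
        (Or.inr hns) h2 h3 h4 hNE' hemb
  obtain ⟨S', g, 𝔪', hg, hmax, hpm, hc⟩ := eigenAway_of_lowered hR3 hp hlow
  exact ⟨g, 𝔪', hR3' W p M' hΔ hp hp2 hM'pos hirr g 𝔪' _ hg hmax hpm hc⟩

end Fermat.Agent.S59.LOQ.H213

end
-- ===== PACK-END S59/LOQ/H213/Spec.lean

-- ===== PACK-BEGIN S59/LO/H646/UnpadCore.lean
section








/-!
# Row S59, cell LO (moonshot), W-form AUX-PRIME GLUE, part 1 (helper646): PAD and UNPAD

Prelude language only (`W.IsResiduallyModularOfLevel p M`), every odd prime `p`.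

* `resMod_pad646` (PAD): `M ∣ C`, `C ≠ 0`: residually modular of level `M` ⇒ of level `C`
  (`Lib.Newform.stab`).
* `unpad_of_s35_646` (UNPAD): `r ≠ p` a prime of good reduction of `W`, `r ∤ M`, which is NOT a
  level-raising prime (`a_r(W)² ≢ (r + 1)² mod p`): residually modular of level `r M` ⇒ of level
  `M`.  Inputs: the frozen S35 as a `Prop` and (R3'-W) `AlmostAllToWitnessWStatement`.

Proof of UNPAD.  `f` of level `r M`, `𝔪 ∋ p`; `Lib.Newform.descent` gives a newform `g₀` of a level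
`M₀ ∣ r M` with the eigenvalues of `f` away from `r M`.
* `r ∤ M₀`: then `M₀ ∣ M`, `stab` raises `g₀` to level `M` and (R3'-W) upgrades the congruence
  (known away from `r M p Δ`) to all good primes `ℓ ∤ M p` (this includes `ℓ = r`).
* `r ∣ M₀` (so `r ∥ M₀`): take a `p`-adic point `P` of the coefficient ring `chig.range` centred
  at the prime below `𝔪` (`H401.dict_exists_point_of_pts`, `S31.H262.pts_of_reduced`); the
  representation `ρ` of S35 over `O'' ⊇ P.O` has residual Frobenius characteristic polynomials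
  `X² - a_ℓ(W) X + ℓ` outside a finite set, hence (Chebotarev, `H273.charpoly_residual_eq_of_frob`)
  `charpoly ρ̄(g) = charpoly W[p](g)` for EVERY `g`; at a Frobenius `φ` at `r` the left side is
  `X² ∓ (r + 1) X + r` (S35) and the right side is `X² - a_r(W) X + r`: so `p ∣ a_r(W) ∓ (r + 1)`.
-/

set_option autoImplicit false
set_option linter.style.haveILetI false

open Polynomial IsLocalRing CuspForm CongruenceSubgroup ModularFormClass

namespace Fermat.Agent.S59.LO.H646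

/-! ## PAD -/

/-- **PAD.**  Residual modularity of level `M` gives residual modularity of every level
`C ≠ 0` divisible by `M`. -/
theorem resMod_pad646 (W : WeierstrassCurve ℤ) (p : ℕ) {M C : ℕ} (hC : C ≠ 0) (hMC : M ∣ C)
    (hres : W.IsResiduallyModularOfLevel p M) : W.IsResiduallyModularOfLevel p C := by
  obtain ⟨f, 𝔪, hf, h𝔪, hp𝔪, hcong⟩ := hres
  haveI : NeZero C := ⟨hC⟩
  obtain ⟨g', hg', hcoef⟩ := Fermat.Agent.Lib.Newform.stab M C hMC f hf
  refine ⟨g', 𝔪, hg', h𝔪, hp𝔪, fun ℓ hℓ hgood hℓC hℓp => ?_⟩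
  have hℓM : ¬ ℓ ∣ M := fun h => hℓC (h.trans hMC)
  obtain ⟨a, ha, ham⟩ := hcong ℓ hℓ hgood hℓM hℓp
  exact ⟨a, by rw [ha, hcoef ℓ hℓ hℓC], ham⟩

/-! ## Reduction of a subring of `ℤ̄` -/

/-- The inclusion of a subring of `ℂ` consisting of algebraic integers into `ℤ̄`. -/
noncomputable def inclOf646 (R : Subring ℂ) (hR : ∀ x ∈ R, x ∈ integralClosure ℤ ℂ) :
    R →+* integralClosure ℤ ℂ where
  toFun x := ⟨x.1, hR x.1 x.2⟩
  map_one' := rfl
  map_mul' _ _ := rfl
  map_zero' := rfl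
  map_add' _ _ := rfl

theorem inclOf646_coe (R : Subring ℂ) (hR : ∀ x ∈ R, x ∈ integralClosure ℤ ℂ) (x : R) :
    ((inclOf646 R hR x : integralClosure ℤ ℂ) : ℂ) = (x : ℂ) := rfl

/-- Coefficient `1` of `X² - b X + c`. -/
theorem coeff_one_quad646 {K : Type*} [CommRing K] (b c : K) :
    (X ^ 2 - C b * X + C c : K[X]).coeff 1 = -b := by
  simp [coeff_X_pow, coeff_C]

/-- Coefficient `1` of `X² + b X + c`. -/
theorem coeff_one_quad646' {K : Type*} [CommRing K] (b c : K) :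
    (X ^ 2 + C b * X + C c : K[X]).coeff 1 = b := by
  simp [coeff_X_pow, coeff_C]

/-- Base change of `X² - b X + c`. -/
theorem map_quad646 {A B : Type*} [CommRing A] [CommRing B] (f : A →+* B) (b c : A) :
    (X ^ 2 - C b * X + C c : A[X]).map f = X ^ 2 - C (f b) * X + C (f c) := by
  simp only [Polynomial.map_add, Polynomial.map_sub, Polynomial.map_mul, Polynomial.map_pow,
    Polynomial.map_X, Polynomial.map_C]

/-- Base change of `X² + b X + c`. -/
theorem map_quad646' {A B : Type*} [CommRing A] [CommRing B] (f : A →+* B) (b c : A) :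
    (X ^ 2 + C b * X + C c : A[X]).map f = X ^ 2 + C (f b) * X + C (f c) := by
  simp only [Polynomial.map_add, Polynomial.map_mul, Polynomial.map_pow,
    Polynomial.map_X, Polynomial.map_C]

/-! ## UNPAD -/

/-- **UNPAD from S35.**  A prime `r ≠ p` of good reduction of `W` with `r ∤ M` and
`a_r(W)² ≢ (r + 1)² mod p` can be removed from the level `r M`. -/
theorem unpad_of_s35_646 (h35 : Fermat.Agent.S58.S35Statement)
    (hAA : Fermat.Agent.Ribet.Spec.AlmostAllToWitnessWStatement)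
    (p : ℕ) [Fact p.Prime] (hp2 : p ≠ 2) (W : WeierstrassCurve ℤ) (hΔ : W.Δ ≠ 0)
    (hirr : W.ModRepIsIrreducible p) (M r : ℕ) (hM : 0 < M) (hr : r.Prime) (hrp : r ≠ p)
    (hrM : ¬ r ∣ M) (hgood : W.IsGoodPrimeFor r)
    (hne : ¬ (p : ℤ) ∣ W.apOfModel r ^ 2 - ((r : ℤ) + 1) ^ 2)
    (hres : W.IsResiduallyModularOfLevel p (r * M)) :
    W.IsResiduallyModularOfLevel p M := by
  classical
  have hp : p.Prime := Fact.out
  obtain ⟨f, 𝔪, hf, h𝔪, hp𝔪, hcong⟩ := hres
  have hrM0 : r * M ≠ 0 := Nat.mul_ne_zero hr.ne_zero hM.ne'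
  haveI : NeZero (r * M) := ⟨hrM0⟩
  haveI : NeZero M := ⟨hM.ne'⟩
  obtain ⟨M₀, hM₀, g₀, hg₀, hcoef⟩ := Fermat.Agent.Lib.Newform.descent (r * M) f hf
  have hM₀0 : M₀ ≠ 0 := by
    rintro rfl
    exact hrM0 (zero_dvd_iff.mp hM₀)
  haveI : NeZero M₀ := ⟨hM₀0⟩
  -- the comparison set
  set S' : Finset ℕ := (r * M * p).primeFactors ∪ W.Δ.natAbs.primeFactors with hS'
  have hrMp0 : r * M * p ≠ 0 := Nat.mul_ne_zero hrM0 hp.ne_zero
  have hS'mem : ∀ ℓ : ℕ, ℓ.Prime → ℓ ∉ S' →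
      ¬ ℓ ∣ r * M ∧ ℓ ≠ p ∧ W.IsGoodPrimeFor ℓ := by
    intro ℓ hℓ hℓS
    rw [hS', Finset.mem_union, not_or] at hℓS
    refine ⟨fun h => hℓS.1 (Nat.mem_primeFactors.mpr ⟨hℓ, h.mul_right p, hrMp0⟩),
      fun h => hℓS.1 (Nat.mem_primeFactors.mpr ⟨hℓ, h ▸ dvd_mul_left ℓ (r * M), hrMp0⟩), ?_⟩
    intro hdvd
    apply hℓS.2
    rw [Nat.mem_primeFactors]
    exact ⟨hℓ, Int.natCast_dvd.mp hdvd, by simpa using hΔ⟩
  by_cases hrM₀ : r ∣ M₀
  · -- `r ∥ M₀`: impossible
    exfalso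
    have hr2 : ¬ r ^ 2 ∣ M₀ := by
      intro h
      have h1 : r * r ∣ r * M := by
        rw [← pow_two]
        exact h.trans hM₀
      exact hrM ((Nat.mul_dvd_mul_iff_left hr.pos).mp h1)
    have hpS' : p ∈ S' := by
      rw [hS']
      refine Finset.mem_union_left _ (Nat.mem_primeFactors.mpr ⟨hp, dvd_mul_left p _, hrMp0⟩)
    have hMS' : ∀ q : ℕ, q.Prime → q ∣ M₀ → q ∈ S' := by
      intro q hq hqM₀
      rw [hS']
      exact Finset.mem_union_left _
        (Nat.mem_primeFactors.mpr ⟨hq, (hqM₀.trans hM₀).mul_right p, hrMp0⟩)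
    set chig : heckeAlgebra M₀ 2 (↑S' : Set ℕ) →+* ℂ :=
      Fermat.Agent.S58.H94.chigOf hg₀.1 (↑S' : Set ℕ) with hchigdef
    have hchig : ∀ (ℓ : ℕ) (hℓ : ℓ.Prime) (hℓM : ¬ ℓ ∣ M₀) (hℓS : ℓ ∉ (↑S' : Set ℕ)),
        chig (heckeAlgebra.T hℓ hℓM hℓS) = qCoeff ⇑g₀ ℓ :=
      fun ℓ hℓ hℓM hℓS => Fermat.Agent.S58.H94.chigOf_T hg₀.1 _ hℓ hℓM hℓS
    -- the coefficient ring
    have hfin : Module.Finite ℤ (heckeAlgebra M₀ 2 (↑S' : Set ℕ)) :=
      Fermat.Agent.S22.result M₀ 2 _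
    have hint : ∀ x ∈ chig.range, x ∈ integralClosure ℤ ℂ := by
      rintro x ⟨t, rfl⟩
      have ht : IsIntegral ℤ t := Algebra.IsIntegral.isIntegral t
      exact ht.map chig.toIntAlgHom
    haveI : Module.Finite ℤ chig.range :=
      Module.Finite.of_surjective (chig.rangeRestrict.toIntAlgHom.toLinearMap)
        chig.rangeRestrict_surjective
    have hPTS : Fermat.Agent.S31.PTS p chig.range :=
      Fermat.Agent.S31.H262.pts_of_reduced p hp chig.range
    -- the prime of `chig.range` below `𝔪`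
    haveI : 𝔪.IsMaximal := h𝔪
    let θ : chig.range →+* (integralClosure ℤ ℂ ⧸ 𝔪) :=
      (Ideal.Quotient.mk 𝔪).comp (inclOf646 chig.range hint)
    haveI : (RingHom.ker θ).IsPrime := RingHom.ker_isPrime θ
    have hpker : ((p : ℕ) : chig.range) ∈ RingHom.ker θ := by
      rw [RingHom.mem_ker, map_natCast, ← map_natCast (Ideal.Quotient.mk 𝔪)]
      exact Ideal.Quotient.eq_zero_iff_mem.mpr hp𝔪
    obtain ⟨P, hP⟩ := Fermat.Agent.S59.H401.dict_exists_point_of_pts hPTS (RingHom.ker θ) hpker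
    -- the representation of S35
    obtain ⟨O'', j1, j2, j3, j4, j5, j6, j7, j8, j9, hinj, ρ, hρ, hbad⟩ :=
      h35 hg₀ p S' P.O P.hp chig hchig P.χ hpS' hMS'
    have hpO'' : (p : O'') ∈ maximalIdeal O'' :=
      Fermat.Agent.S58.H273.natCast_mem_maximalIdeal_of_isLocalHom p P.hp
    haveI hchar : CharP (ResidueField O'') p :=
      Fermat.Agent.S58.H273.charP_residueField p hpO''
    let ι : ZMod p →+* ResidueField O'' := ZMod.castHom (dvd_refl p) (ResidueField O'')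
    -- residual Frobenius characteristic polynomials
    have hall := Fermat.Agent.S58.H273.charpoly_residual_eq_of_frob
      (Fermat.Agent.S58.H273.wRes W hΔ p) ι ρ S' (by
        intro ℓ hℓ hℓS B hB σ hσ
        obtain ⟨hℓrM, hℓp, hℓgood⟩ := hS'mem ℓ hℓ hℓS
        have hℓM₀ : ¬ ℓ ∣ M₀ := fun h => hℓrM (h.trans hM₀)
        have hℓS'' : ℓ ∉ (↑S' : Set ℕ) := fun h => hℓS (Finset.mem_coe.mp h)
        -- the key congruence
        obtain ⟨b, hb, hbm⟩ := hcong ℓ hℓ hℓgood hℓrM hℓp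
        have hT : chig (heckeAlgebra.T hℓ hℓM₀ hℓS'') = (b : ℂ) := by
          rw [hchig, hcoef ℓ hℓ hℓrM, hb]
        have hker : chig.rangeRestrict (heckeAlgebra.T hℓ hℓM₀ hℓS'')
            - ((W.apOfModel ℓ : ℤ) : chig.range) ∈ RingHom.ker θ := by
          rw [RingHom.mem_ker, map_sub, map_intCast]
          have h1 : θ (chig.rangeRestrict (heckeAlgebra.T hℓ hℓM₀ hℓS''))
              = Ideal.Quotient.mk 𝔪 b := by
            show Ideal.Quotient.mk 𝔪 (inclOf646 chig.range hint _) = _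
            congr 1
            exact Subtype.ext hT
          rw [h1, ← map_intCast (Ideal.Quotient.mk 𝔪), ← map_sub]
          exact Ideal.Quotient.eq_zero_iff_mem.mpr hbm
        have h2 := hP _ hker
        have h3 : algebraMap P.O O'' (P.χ (chig.rangeRestrict (heckeAlgebra.T hℓ hℓM₀ hℓS'')
            - ((W.apOfModel ℓ : ℤ) : chig.range))) ∈ maximalIdeal O'' := by
          rw [mem_maximalIdeal, mem_nonunits_iff] at h2 ⊢
          exact fun hu => h2 (isUnit_of_map_unit (algebraMap P.O O'') _ hu)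
        have h4 : residue O'' (algebraMap P.O O''
            (P.χ (chig.rangeRestrict (heckeAlgebra.T hℓ hℓM₀ hℓS''))))
            = ((W.apOfModel ℓ : ℤ) : ResidueField O'') := by
          have := (residue_eq_zero_iff _).mpr h3
          rw [map_sub, map_sub, map_sub, map_intCast, map_intCast, map_intCast,
            sub_eq_zero] at this
          exact this
        rw [hρ ℓ hℓ hℓM₀ hℓS'' B hB σ hσ,
          Fermat.Agent.S58.H273.wRes_charpoly_frob W hΔ p hp2 hirr ℓ hℓ hℓp hℓgood B hB σ hσ]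
        rw [map_quad646, map_quad646, RingHom.comp_apply, h4, map_intCast ι, map_natCast ι,
          map_natCast (residue O'')])
    -- a Frobenius at `r`
    obtain ⟨A, φ, hA, hφ⟩ := Fermat.Agent.S54.exists_frobenius r hr
    have h1 := hall φ
    have h2 : LinearMap.charpoly (ρ.residual.ρ φ)
        = (LinearMap.charpoly (ρ.ρ φ)).map (residue O'') :=
      LinearMap.charpoly_baseChange (ρ.ρ φ) (ResidueField O'')
    rw [h2, Fermat.Agent.S58.H273.wRes_charpoly_frob W hΔ p hp2 hirr r hr hrp hgood A hA φ hφ]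
      at h1
    have hcast : ∀ n : ℤ, ((n : ℤ) : ResidueField O'') = 0 → (p : ℤ) ∣ n := fun n hn =>
      (CharP.intCast_eq_zero_iff (ResidueField O'') p n).mp hn
    apply hne
    have hfac : W.apOfModel r ^ 2 - ((r : ℤ) + 1) ^ 2
        = (W.apOfModel r - ((r : ℤ) + 1)) * (W.apOfModel r + ((r : ℤ) + 1)) := by ring
    rw [hfac]
    rcases hbad r hr hrp hrM₀ hr2 A hA φ hφ with hc | hc
    · rw [hc, map_quad646, map_quad646] at h1
      have h5 := congrArg (fun q : (ResidueField O'')[X] => q.coeff 1) h1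
      simp only [coeff_one_quad646] at h5
      rw [map_add, map_one, map_natCast, map_intCast] at h5
      apply Dvd.dvd.mul_right
      apply hcast
      push_cast
      rw [sub_eq_zero]
      exact (neg_injective h5).symm
    · rw [hc, map_quad646', map_quad646] at h1
      have h5 := congrArg (fun q : (ResidueField O'')[X] => q.coeff 1) h1
      simp only [coeff_one_quad646, coeff_one_quad646'] at h5
      rw [map_add, map_one, map_natCast, map_intCast] at h5
      apply Dvd.dvd.mul_left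
      apply hcast
      push_cast
      rw [h5, add_neg_cancel]
  · -- `r ∤ M₀`: the newform has level dividing `M`
    have hcop : Nat.Coprime M₀ r := ((Nat.Prime.coprime_iff_not_dvd hr).mpr hrM₀).symm
    have hM₀M : M₀ ∣ M := hcop.dvd_of_dvd_mul_left hM₀
    obtain ⟨g', hg', hcoef'⟩ := Fermat.Agent.Lib.Newform.stab M₀ M hM₀M g₀ hg₀.1
    have hw := hAA W p M hΔ hp hp2 hM hirr g' 𝔪 S' hg' h𝔪 hp𝔪 (fun ℓ hℓ hℓS => by
      obtain ⟨hℓrM, hℓp, hℓgood⟩ := hS'mem ℓ hℓ hℓS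
      have hℓM : ¬ ℓ ∣ M := fun h => hℓrM (h.mul_left r)
      obtain ⟨a, ha, ham⟩ := hcong ℓ hℓ hℓgood hℓrM hℓp
      exact ⟨a, by rw [ha, hcoef' ℓ hℓ hℓM, hcoef ℓ hℓ hℓrM], ham⟩)
    exact ⟨g', 𝔪, hw⟩

end Fermat.Agent.S59.LO.H646

end
-- ===== PACK-END S59/LO/H646/UnpadCore.lean

-- ===== PACK-BEGIN S59/TW/Aut/H186/AuxPrimeW.lean
section




/-!
# S59, level optimisation at `p = 3`: the auxiliary prime in `W`-form (helper186)

`exists_aux3_W_h186`: for a semistable integral Weierstrass curve `W` with irreducible `W[3]` and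
every finite set `S` of primes there is a prime `r ∉ S`, `r ≡ 2 mod 3`, of good reduction for `W`,
with `3 ∤ a_r(W)`.  (So `a_r(W)² - (r + 1)² ≡ a_r(W)² ≢ 0 mod 3`: the prime `r` can be added to the
level — `Γ₀(M r)` is then free of elliptic elements of order `3` — and removed again.)

Proof: `H186.exists_prime_trace_ne_zero_h186` (Chebotarev + the index-two irreducibility `hTW`)
for `ρ̄ = W[3]` over `𝔽₃`, `hTW` from `H405.gtw`, Frobenius characteristic polynomials from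
`S58.H273.wRes_charpoly_frob`.

`exists_aux3_W_sq_h186` is the same statement in the shape `¬ 3 ∣ a_r² - (r + 1)²`.
-/

set_option autoImplicit false
set_option linter.style.haveILetI false

open Polynomial

namespace Fermat.Agent.S59.TW.Aut.H186

open WeierstrassCurve

/-- The finite set of primes of bad reduction of `W`. -/
noncomputable def badSet_h186 (W : WeierstrassCurve ℤ) : Finset ℕ := W.Δ.natAbs.primeFactors

theorem good_of_notMem_badSet_h186 (W : WeierstrassCurve ℤ) (hΔ : W.Δ ≠ 0) {ℓ : ℕ}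
    (hℓ : ℓ.Prime) (h : ℓ ∉ badSet_h186 W) : W.IsGoodPrimeFor ℓ := by
  intro hd
  apply h
  unfold badSet_h186
  rw [Nat.mem_primeFactors]
  refine ⟨hℓ, ?_, fun h0 => hΔ (Int.natAbs_eq_zero.mp h0)⟩
  exact Int.natCast_dvd.mp hd

/-- **The auxiliary prime at `p = 3`, `W`-form.** -/
theorem exists_aux3_W_h186 (W : WeierstrassCurve ℤ) (hΔ : W.Δ ≠ 0) (hW : W.IsSemistableModel)
    (hirr : W.ModRepIsIrreducible 3) (S : Finset ℕ) :
    ∃ r : ℕ, r.Prime ∧ r ∉ S ∧ r % 3 = 2 ∧ W.IsGoodPrimeFor r ∧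
      ¬ (3 : ℤ) ∣ W.apOfModel r := by
  classical
  have : Fact (Nat.Prime 3) := ⟨Nat.prime_three⟩
  have hcard := Fermat.Agent.S58.H273.wRes_hcard W hΔ 3
  have hker := Fermat.Agent.S58.H273.wRes_hker W hΔ 3
  -- the residual representation over `𝔽₃`, in the shape of `H405.gtw`
  obtain ⟨ρbar, hρ⟩ : ∃ ρbar : ResidualGaloisRep (ZMod 3), ρbar =
      ((W.map (Int.castRingHom ℚ)).residualGaloisRepOf 3 hcard hker).baseChangeAlong
        (RingHom.id (ZMod 3)) := ⟨_, rfl⟩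
  have hTW : ∀ (K : Type) [Field K] [Algebra (ZMod 3) K]
      (G : Subgroup (AlgebraicClosure ℚ ≃ₐ[ℚ] AlgebraicClosure ℚ)), G.index = 2 →
      ∀ V : Submodule K (ρbar.baseChange K).V,
        (∀ σ ∈ G, ∀ x ∈ V, (ρbar.baseChange K).ρ σ x ∈ V) → V = ⊥ ∨ V = ⊤ := by
    intro K _ _ G hG V hV
    exact Fermat.Agent.S59.H405.gtw 3 (Or.inl rfl) W hΔ hW hirr hcard hker (ZMod 3)
      (RingHom.id (ZMod 3)) ρbar ⟨by rw [hρ]; exact ResidualGaloisRep.Equiv.refl _⟩ K G hG V hV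
  have hchar : ∀ (l : ℕ), l.Prime → l ∉ S ∪ insert 3 (badSet_h186 W) →
      ∀ B : ValuationSubring (AlgebraicClosure ℚ), B.LiesOverPrime l →
        ∀ σ : AlgebraicClosure ℚ ≃ₐ[ℚ] AlgebraicClosure ℚ, B.IsFrobeniusAt σ l →
          LinearMap.charpoly (ρbar.ρ σ) =
            X ^ 2 - C (((W.apOfModel l : ℤ) : ZMod 3)) * X + C ((l : ZMod 3)) := by
    intro l hl hlS B hB σ hσ
    simp only [Finset.mem_union, Finset.mem_insert, not_or] at hlS
    obtain ⟨-, hl3, hlbad⟩ := hlS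
    have hgood := good_of_notMem_badSet_h186 W hΔ hl hlbad
    have h0 := Fermat.Agent.S58.H273.wRes_charpoly_frob W hΔ 3 (by decide) hirr l hl hl3 hgood
      B hB σ hσ
    have h0' : LinearMap.charpoly
        (((W.map (Int.castRingHom ℚ)).residualGaloisRepOf 3 hcard hker).ρ σ) =
        X ^ 2 - C (((W.apOfModel l : ℤ) : ZMod 3)) * X + C ((l : ZMod 3)) := h0
    letI : Algebra (ZMod 3) (ZMod 3) := (RingHom.id (ZMod 3)).toAlgebra
    have hbc : LinearMap.charpoly (ρbar.ρ σ) = (LinearMap.charpoly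
        (((W.map (Int.castRingHom ℚ)).residualGaloisRepOf 3 hcard hker).ρ σ)).map
          (algebraMap (ZMod 3) (ZMod 3)) := by
      rw [hρ]
      exact LinearMap.charpoly_baseChange
        (((W.map (Int.castRingHom ℚ)).residualGaloisRepOf 3 hcard hker).ρ σ) (ZMod 3)
    have hid : (algebraMap (ZMod 3) (ZMod 3)) = RingHom.id (ZMod 3) := rfl
    rw [hbc, hid, Polynomial.map_id, h0']
  obtain ⟨r, hr, hrS, hr3, har⟩ := exists_prime_trace_ne_zero_h186 ρbar hTW
    (S ∪ insert 3 (badSet_h186 W)) (fun l => ((W.apOfModel l : ℤ) : ZMod 3)) hchar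
  simp only [Finset.mem_union, Finset.mem_insert, not_or] at hrS
  obtain ⟨hrS, -, hrbad⟩ := hrS
  refine ⟨r, hr, hrS, hr3, good_of_notMem_badSet_h186 W hΔ hr hrbad, fun hd => har ?_⟩
  exact (ZMod.intCast_zmod_eq_zero_iff_dvd (W.apOfModel r) 3).mpr hd

/-- The same prime, in the shape used by the removal of an auxiliary prime:
`3 ∤ a_r(W)² - (r + 1)²`. -/
theorem exists_aux3_W_sq_h186 (W : WeierstrassCurve ℤ) (hΔ : W.Δ ≠ 0)
    (hW : W.IsSemistableModel) (hirr : W.ModRepIsIrreducible 3) (S : Finset ℕ) :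
    ∃ r : ℕ, r.Prime ∧ r ∉ S ∧ r ≠ 3 ∧ r % 3 = 2 ∧ W.IsGoodPrimeFor r ∧
      ¬ (3 : ℤ) ∣ W.apOfModel r ^ 2 - ((r : ℤ) + 1) ^ 2 := by
  obtain ⟨r, hr, hrS, hr3, hgood, ha⟩ := exists_aux3_W_h186 W hΔ hW hirr S
  refine ⟨r, hr, hrS, fun h => by rw [h] at hr3; omega, hr3, hgood, fun hd => ha ?_⟩
  have h1n : (3 : ℕ) ∣ r + 1 := by omega
  have h1 : (3 : ℤ) ∣ (r : ℤ) + 1 := by exact_mod_cast h1n
  have h2 : (3 : ℤ) ∣ W.apOfModel r ^ 2 := by
    have h3 : (3 : ℤ) ∣ ((r : ℤ) + 1) ^ 2 := Dvd.dvd.pow h1 two_ne_zero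
    have := dvd_add hd h3
    rwa [sub_add_cancel] at this
  exact Int.Prime.dvd_pow' (by norm_num : Nat.Prime 3) h2

end Fermat.Agent.S59.TW.Aut.H186

end
-- ===== PACK-END S59/TW/Aut/H186/AuxPrimeW.lean

-- ===== PACK-BEGIN S59/H316/Natural.lean
section
/-
Row S59, cell LO, leaf LO-SQ at `(p, q) = (3, 2)` — block B-HECKE, part 5 (helper316).

Naturality of the transfer.

* `transferAlong_conj` : the transfer along an injective homomorphism `f : K' →* K` of subgroups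
  of `SL(2, ℤ)` commutes with conjugation operators which are compatible with `f`;
* `IsCosetSystem.push` : a coset system for `(ι ∘ e, ι ∘ e)` with `e` onto is a coset system for
  `(ι, ι)`, with the same transfer (`push_transfer`).
-/


set_option autoImplicit false
set_option linter.unusedSectionVars false
set_option linter.style.haveILetI false

namespace Fermat.Agent.S59.H316

open CongruenceSubgroup Matrix.SpecialLinearGroup
open Fermat.Agent.S41.Spec Fermat.Agent.S29.H642 Fermat.Agent.S41.H761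
open Fermat.Agent.S59.MFree Fermat.Agent.S59.MFree.H587 Fermat.Agent.S59.TW.H653
open scoped MatrixGroups

section Conj

variable {A : Type*} [AddCommGroup A]

/-- **Naturality of the transfer under conjugation.** -/
theorem transferAlong_conj {K' K : Subgroup SL(2, ℤ)} (f : K' →* K) (hf : Function.Injective f)
    [hfin : f.range.FiniteIndex] (g' g : SL(2, ℤ))
    (hg' : ∀ k ∈ K', g'⁻¹ * k * g' ∈ K') (hg : ∀ k ∈ K, g⁻¹ * k * g ∈ K)
    (hsurj : ∀ k : K', ∃ m : K', conjSHom K' g' hg' m = k)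
    (hcompat : ∀ k : K', ((f (conjSHom K' g' hg' k) : K) : SL(2, ℤ)) = g⁻¹ * (f k : K) * g)
    (w : Additive K' →+ A) :
    transferAlong f (conjS K' g' hg' w) = conjS K g hg (transferAlong f w) := by
  classical
  letI : Fintype (K ⧸ f.range) := f.range.fintypeQuotientOfFiniteIndex
  have hι : Function.Injective K.subtype := K.subtype_injective
  have hs_cor := IsCosetSystem.ofTransfer f hf K.subtype hι
  have hd' : ∀ k : K', g⁻¹ * (K.subtype.comp f) k =
      (K.subtype.comp f) (conjSHom K' g' hg' k) * g⁻¹ := by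
    intro k
    show g⁻¹ * ((f k : K) : SL(2, ℤ)) = ((f (conjSHom K' g' hg' k) : K) : SL(2, ℤ)) * g⁻¹
    rw [hcompat k]
    group
  have hs_σ' := IsCosetSystem.single (ι := K.subtype.comp f) (ι' := K.subtype.comp f)
    (hι.comp hf) (conjSHom K' g' hg') g⁻¹ hd'
  have hd : ∀ k : K, g⁻¹ * K.subtype k = K.subtype (conjSHom K g hg k) * g⁻¹ := by
    intro k
    show g⁻¹ * (k : SL(2, ℤ)) = (g⁻¹ * k * g) * g⁻¹
    group
  have hs_σ := IsCosetSystem.single (ι := K.subtype) (ι' := K.subtype) hι (conjSHom K g hg) g⁻¹ hd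
  -- the range of `f` is stable under the conjugation by `g`
  have hstab : ∀ k : K', ∃ m : K', g * ((f k : K) : SL(2, ℤ)) * g⁻¹ = ((f m : K) : SL(2, ℤ)) := by
    intro k
    obtain ⟨m, hm⟩ := hsurj k
    refine ⟨m, ?_⟩
    rw [← hm, hcompat m]
    group
  have hquot : ∀ (q q' : K ⧸ f.range) (k : K'),
      ((q.out : K) : SL(2, ℤ))⁻¹ = ((f k : K) : SL(2, ℤ)) * ((q'.out : K) : SL(2, ℤ))⁻¹ →
      q = q' := by
    intro q q' k e
    have e1 : (q.out)⁻¹ * q'.out = f k := by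
      apply Subtype.ext
      rw [Subgroup.coe_mul, Subgroup.coe_inv, e]
      group
    have e2 : ((q.out : K) : K ⧸ f.range) = ((q'.out : K) : K ⧸ f.range) :=
      QuotientGroup.eq.mpr (by rw [e1]; exact ⟨k, rfl⟩)
    rwa [QuotientGroup.out_eq', QuotientGroup.out_eq'] at e2
  have hP₁ := hs_σ'.prod hs_cor (by
    intro i i' q q' k e
    refine ⟨rfl, ?_⟩
    obtain ⟨m, hm⟩ := hstab k
    apply hquot q q' m
    rw [← hm]
    have e' : g⁻¹ * ((q.out : K) : SL(2, ℤ))⁻¹ =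
        ((f k : K) : SL(2, ℤ)) * (g⁻¹ * ((q'.out : K) : SL(2, ℤ))⁻¹) := e
    calc ((q.out : K) : SL(2, ℤ))⁻¹ = g * (g⁻¹ * ((q.out : K) : SL(2, ℤ))⁻¹) := by group
      _ = g * (((f k : K) : SL(2, ℤ)) * (g⁻¹ * ((q'.out : K) : SL(2, ℤ))⁻¹)) := by rw [e']
      _ = g * ((f k : K) : SL(2, ℤ)) * g⁻¹ * ((q'.out : K) : SL(2, ℤ))⁻¹ := by group)
  have hP₂ := hs_cor.prod hs_σ (by
    intro q q' i i' k e
    refine ⟨?_, rfl⟩
    apply hquot q q' k
    have e' : ((q.out : K) : SL(2, ℤ))⁻¹ * g⁻¹ =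
        ((f k : K) : SL(2, ℤ)) * (((q'.out : K) : SL(2, ℤ))⁻¹ * g⁻¹) := e
    calc ((q.out : K) : SL(2, ℤ))⁻¹ = (((q.out : K) : SL(2, ℤ))⁻¹ * g⁻¹) * g := by group
      _ = (((f k : K) : SL(2, ℤ)) * (((q'.out : K) : SL(2, ℤ))⁻¹ * g⁻¹)) * g := by rw [e']
      _ = ((f k : K) : SL(2, ℤ)) * ((q'.out : K) : SL(2, ℤ))⁻¹ := by group)
  have hcmp : hP₁.transfer w = hP₂.transfer w := by
    refine IsCosetSystem.transfer_eq_of_le_of_card hP₁ hP₂ ?_ ?_ w
    · rw [Fintype.card_prod, Fintype.card_prod, mul_comm]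
    · rintro ⟨-, q⟩
      -- `y = g⁻¹ q.out⁻¹ g ∈ K`
      let y : K := conjSHom K g hg (q.out)⁻¹
      obtain ⟨m, hm⟩ : ∃ m : K', (((y⁻¹ : K) : K ⧸ f.range).out : K) = y⁻¹ * f m := by
        have h1 : ((((y⁻¹ : K) : K ⧸ f.range).out : K) : K ⧸ f.range) = ((y⁻¹ : K) : _) :=
          QuotientGroup.out_eq' _
        have h2 := QuotientGroup.eq.mp h1
        obtain ⟨m, hm⟩ := h2
        refine ⟨m⁻¹, ?_⟩
        rw [map_inv, hm]
        group
      refine ⟨(((y⁻¹ : K) : K ⧸ f.range), ()), m, ?_⟩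
      show g⁻¹ * ((q.out : K) : SL(2, ℤ))⁻¹ =
        ((f m : K) : SL(2, ℤ)) * (((((y⁻¹ : K) : K ⧸ f.range).out : K) : SL(2, ℤ))⁻¹ * g⁻¹)
      rw [hm]
      have hy : (y : SL(2, ℤ)) = g⁻¹ * ((q.out : K) : SL(2, ℤ))⁻¹ * g := rfl
      simp only [Subgroup.coe_mul, Subgroup.coe_inv, hy]
      group
  rw [transferAlong_eq f hf K.subtype hι, transferAlong_eq f hf K.subtype hι]
  have e1 : conjS K' g' hg' w = hs_σ'.transfer w :=
    (IsCosetSystem.single_transfer (ι := K.subtype.comp f) (ι' := K.subtype.comp f)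
      (hι.comp hf) (conjSHom K' g' hg') g⁻¹ hd' w).symm
  have e2 : ∀ φ : Additive K →+ A, conjS K g hg φ = hs_σ.transfer φ := fun φ =>
    (IsCosetSystem.single_transfer (ι := K.subtype) (ι' := K.subtype) hι (conjSHom K g hg)
      g⁻¹ hd φ).symm
  rw [e1, e2, IsCosetSystem.transfer_comp hs_σ' hs_cor hP₁ w,
    IsCosetSystem.transfer_comp hs_cor hs_σ hP₂ w]
  exact hcmp

end Conj

end Fermat.Agent.S59.H316

end
-- ===== PACK-END S59/H316/Natural.lean

-- ===== PACK-BEGIN S59/H316/Level.lean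
section
/-
Row S59, cell LO, leaf LO-SQ at `(p, q) = (3, 2)` — block B-HECKE, part 6 (helper316).

The auxiliary level: `K = K₂(N)`, `K' = K₂(N r)` for an odd prime `r ∤ N`.

* `cdK N r : K₂(N r) →* K₂(N)` : the conjugation by `diag(r, 1)`;
* `alphaK = res`, `betaK = transfer along cdK`;
* `beta_alpha` : `β ∘ α = T_r`;
* `beta_sigma`, `alpha_sigma`, `alpha_TO`.
-/



set_option autoImplicit false
set_option linter.unusedSectionVars false
set_option linter.style.haveILetI false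

namespace Fermat.Agent.S59.H316

open CongruenceSubgroup Matrix.SpecialLinearGroup
open Fermat.Agent.S41.Spec Fermat.Agent.S29.H642 Fermat.Agent.S41.H761
open Fermat.Agent.S59.MFree Fermat.Agent.S59.MFree.H587 Fermat.Agent.S59.TW.H653
open P2MW.S_ModularForm_heckeT_slash_eq_self_of_mem_Gamma0.ModularForm.HeckeSlashInvariance
open scoped MatrixGroups

/-! ## Elements of `K₂(N)` -/

theorem red2_eq_one_iff (g : SL(2, ℤ)) :
    red2 g = 1 ↔ (2 : ℤ) ∣ g 0 0 - 1 ∧ (2 : ℤ) ∣ g 0 1 ∧ (2 : ℤ) ∣ g 1 0 ∧ (2 : ℤ) ∣ g 1 1 - 1 := by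
  rw [← map_one red2, red2_eq_iff]
  constructor
  · intro h
    refine ⟨?_, ?_, ?_, ?_⟩
    · simpa using h 0 0
    · simpa using h 0 1
    · simpa using h 1 0
    · simpa using h 1 1
  · rintro ⟨h00, h01, h10, h11⟩ i j
    fin_cases i <;> fin_cases j
    · simpa using h00
    · simpa using h01
    · simpa using h10
    · simpa using h11

theorem mem_K2_iff {N : ℕ} (g : SL(2, ℤ)) :
    g ∈ K2 N ↔ (N : ℤ) ∣ g 1 0 ∧ (2 : ℤ) ∣ g 0 0 - 1 ∧ (2 : ℤ) ∣ g 0 1 ∧ (2 : ℤ) ∣ g 1 0 ∧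
      (2 : ℤ) ∣ g 1 1 - 1 := by
  rw [mem_K2, red2_eq_one_iff]
  constructor
  · rintro ⟨h1, h2⟩
    exact ⟨dvd_of_mem_Gamma0' h1, h2⟩
  · rintro ⟨h1, h2⟩
    exact ⟨mem_Gamma0_of_dvd' h1, h2⟩

/-- Construction of an element of `K₂(N)` from its entries. -/
def mkK2 (N : ℕ) (a b c d : ℤ) (hdet : a * d - b * c = 1) (hc : (N : ℤ) ∣ c)
    (ha : (2 : ℤ) ∣ a - 1) (hb : (2 : ℤ) ∣ b) (hc2 : (2 : ℤ) ∣ c) (hd : (2 : ℤ) ∣ d - 1) : K2 N :=
  ⟨Fermat.Agent.S41.H952.mkSL a b c d hdet, by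
    rw [mem_K2_iff]
    refine ⟨?_, ?_, ?_, ?_, ?_⟩ <;> simpa [Fermat.Agent.S41.H952.mkSL]⟩

theorem mkK2_apply (N : ℕ) (a b c d : ℤ) (hdet : a * d - b * c = 1) (hc : (N : ℤ) ∣ c)
    (ha : (2 : ℤ) ∣ a - 1) (hb : (2 : ℤ) ∣ b) (hc2 : (2 : ℤ) ∣ c) (hd : (2 : ℤ) ∣ d - 1) :
    ((mkK2 N a b c d hdet hc ha hb hc2 hd : K2 N) : SL(2, ℤ)) 0 0 = a ∧
    ((mkK2 N a b c d hdet hc ha hb hc2 hd : K2 N) : SL(2, ℤ)) 0 1 = b ∧
    ((mkK2 N a b c d hdet hc ha hb hc2 hd : K2 N) : SL(2, ℤ)) 1 0 = c ∧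
    ((mkK2 N a b c d hdet hc ha hb hc2 hd : K2 N) : SL(2, ℤ)) 1 1 = d := by
  simp [mkK2, Fermat.Agent.S41.H952.mkSL]

theorem coe_ιK_apply {K : Subgroup SL(2, ℤ)} (g : K) (i j : Fin 2) :
    ((ιK K g : GL (Fin 2) ℝ) : Matrix (Fin 2) (Fin 2) ℝ) i j = (((g : SL(2, ℤ)) i j : ℤ) : ℝ) :=
  coe_mapGL_apply _ i j

/-! ## The conjugation by `diag(r, 1)` -/

section CD

variable {N r : ℕ}

theorem K2_mul_le (N r : ℕ) : K2 (N * r) ≤ K2 N :=
  fun _ hg => ⟨gamma0_mul_le N r hg.1, hg.2⟩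

/-- `c_δ` preserves the reduction modulo `2` (`r` odd). -/
theorem red2_conjDelta (hr : Odd r) (γ : Gamma0 (N * r)) :
    red2 ((conjDelta N r γ : Gamma0 N) : SL(2, ℤ)) = red2 (γ : SL(2, ℤ)) := by
  obtain ⟨c00, c01, c10, c11⟩ := conjDelta_apply_entries γ
  obtain ⟨m, hm⟩ := hr
  have hm' : (r : ℤ) = 2 * m + 1 := by exact_mod_cast hm
  rw [red2_eq_iff]
  intro i j
  fin_cases i <;> fin_cases j
  · exact ⟨0, by simp only [Fin.zero_eta, Fin.isValue]; rw [c00]; ring⟩
  · exact ⟨m * (γ : SL(2, ℤ)) 0 1, by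
      simp only [Fin.zero_eta, Fin.mk_one, Fin.isValue]; rw [c01, hm']; ring⟩
  · exact ⟨- m * ((conjDelta N r γ : Gamma0 N) : SL(2, ℤ)) 1 0, by
      simp only [Fin.zero_eta, Fin.mk_one, Fin.isValue]; rw [← c10, hm']; ring⟩
  · exact ⟨0, by simp only [Fin.mk_one, Fin.isValue]; rw [c11]; ring⟩

/-- The conjugation by `diag(r, 1)`, `K₂(N r) →* K₂(N)` (`r` odd). -/
def cdK (N r : ℕ) (hr : Odd r) : K2 (N * r) →* K2 N :=
  ((Gamma0 N).subtype.comp
    ((conjDelta N r).comp (Subgroup.inclusion (K2_le_Gamma0 (N * r))))).codRestrict (K2 N)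
    (fun k => ⟨(conjDelta N r (Subgroup.inclusion (K2_le_Gamma0 (N * r)) k)).2, by
      show red2 _ = 1
      have h1 : red2 (k : SL(2, ℤ)) = 1 := k.2.2
      rw [← h1]
      exact red2_conjDelta hr _⟩)

theorem cdK_coe (hr : Odd r) (k : K2 (N * r)) :
    ((cdK N r hr k : K2 N) : SL(2, ℤ)) =
      ((conjDelta N r ⟨k.1, k.2.1⟩ : Gamma0 N) : SL(2, ℤ)) := rfl

theorem cdK_injective (hr : Odd r) : Function.Injective (cdK N r hr) := by
  intro k k' h
  have hr0 : r ≠ 0 := by rintro rfl; exact (Nat.not_odd_iff_even.mpr (by decide)) hr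
  have h1 : conjDelta N r ⟨k.1, k.2.1⟩ = conjDelta N r ⟨k'.1, k'.2.1⟩ := by
    apply Subtype.ext
    rw [← cdK_coe hr k, ← cdK_coe hr k', h]
  have h2 := Fermat.Agent.S41.H105.conjDelta_injective N hr0 h1
  apply Subtype.ext
  exact congrArg (fun γ : Gamma0 (N * r) => (γ : SL(2, ℤ))) h2

theorem mem_range_cdK_iff (hr : Odd r) (k : K2 N) :
    k ∈ (cdK N r hr).range ↔ (r : ℤ) ∣ (k : SL(2, ℤ)) 0 1 := by
  have hr0 : r ≠ 0 := by rintro rfl; exact (Nat.not_odd_iff_even.mpr (by decide)) hr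
  constructor
  · rintro ⟨k', rfl⟩
    rw [cdK_coe]
    exact (Fermat.Agent.S41.H105.mem_range_conjDelta_iff N hr0 _).mp ⟨_, rfl⟩
  · intro h
    obtain ⟨γ, hγ⟩ := (Fermat.Agent.S41.H105.mem_range_conjDelta_iff N hr0 ⟨k.1, k.2.1⟩).mpr h
    have h2 : red2 (γ : SL(2, ℤ)) = 1 := by
      rw [← red2_conjDelta hr γ, hγ]
      exact k.2.2
    refine ⟨⟨γ.1, ⟨γ.2, h2⟩⟩, ?_⟩
    apply Subtype.ext
    rw [cdK_coe]
    exact congrArg (fun γ : Gamma0 N => (γ : SL(2, ℤ))) hγ

theorem finiteIndex_range_cdK (hr : Odd r) : (cdK N r hr).range.FiniteIndex := by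
  have hr0 : r ≠ 0 := by rintro rfl; exact (Nat.not_odd_iff_even.mpr (by decide)) hr
  haveI : NeZero r := ⟨hr0⟩
  have hle : (Gamma r).subgroupOf (K2 N) ≤ (cdK N r hr).range := by
    intro k hk
    rw [mem_range_cdK_iff]
    have h1 : (k : SL(2, ℤ)) ∈ Gamma r := hk
    rw [Gamma_mem] at h1
    exact (ZMod.intCast_zmod_eq_zero_iff_dvd _ _).mp h1.2.1
  exact Subgroup.finiteIndex_of_le hle

end CD

/-! ## `α` and `β` -/

section AlphaBeta

variable {N r : ℕ} {A : Type*} [AddCommGroup A]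

/-- `α`: the restriction from `K₂(N)` to `K₂(N r)`. -/
def alphaK (N r : ℕ) (x : Additive (K2 N) →+ A) : Additive (K2 (N * r)) →+ A :=
  resK (K2_mul_le N r) x

/-- `β`: the transfer along the conjugation by `diag(r, 1)`. -/
noncomputable def betaK (N r : ℕ) (hr : Odd r) (w : Additive (K2 (N * r)) →+ A) :
    Additive (K2 N) →+ A :=
  transferAlong (cdK N r hr) w

theorem oddSys_K2 {M ℓ : ℕ} [Fact ℓ.Prime] (hl : ¬ ℓ ∣ M) (hodd : Odd ℓ) : OddSys ℓ (K2 M) :=
  (oddSys_Gamma0 hl).restrict hodd (K2_le_Gamma0 M) (fun g hg k hk hgk =>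
    ⟨hg, by
      show red2 g = 1
      rw [hgk]
      exact hk.2⟩)

/-- `α σ = σ' α`. -/
theorem alpha_sigma (hN : Odd N) (hr : Odd r) (x : Additive (K2 N) →+ A) :
    alphaK N r (conjN N (gS N) (gS_mem N) x) =
      conjN (N * r) (gS (N * r)) (gS_mem (N * r)) (alphaK N r x) := by
  have h1 : conjN N (gS N) (gS_mem N) x =
      conjN N (gS (N * r)) (gamma0_mul_le N r (gS_mem (N * r))) x := by
    apply conjN_congr
    rw [red2_gS hN, red2_gS (hN.mul hr)]
  rw [h1]
  rfl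

/-- `α T_ℓ = T_ℓ α`. -/
theorem alpha_TO {ℓ : ℕ} [Fact ℓ.Prime] (hl : ¬ ℓ ∣ N * r) (hodd : Odd ℓ)
    (x : Additive (K2 N) →+ A) :
    alphaK N r (TO ℓ (K2 N) x) = TO ℓ (K2 (N * r)) (alphaK N r x) :=
  (res_TO (oddSys_K2 (fun h => hl (Dvd.dvd.mul_right h r)) hodd) (oddSys_K2 hl hodd)
    (K2_mul_le N r) x).symm

/-- `β σ' = σ β`. -/
theorem beta_sigma (hN : Odd N) (hr : Odd r) (w : Additive (K2 (N * r)) →+ A) :
    betaK N r hr (conjN (N * r) (gS (N * r)) (gS_mem (N * r)) w) =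
      conjN N (gS N) (gS_mem N) (betaK N r hr w) := by
  haveI := finiteIndex_range_cdK (N := N) hr
  set g' : Gamma0 (N * r) := ⟨gS (N * r), gS_mem (N * r)⟩ with hg'
  have hgmem : ((conjDelta N r g' : Gamma0 N) : SL(2, ℤ)) ∈ Gamma0 N := (conjDelta N r g').2
  have hred : red2 ((conjDelta N r g' : Gamma0 N) : SL(2, ℤ)) = red2 (gS N) := by
    rw [red2_conjDelta hr, red2_gS hN]
    exact red2_gS (hN.mul hr)
  have h1 := transferAlong_conj (cdK N r hr) (cdK_injective hr) (gS (N * r))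
    ((conjDelta N r g' : Gamma0 N) : SL(2, ℤ)) (K2_normal (N * r) _ (gS_mem (N * r)))
    (K2_normal N _ hgmem) (by
      intro k
      have hmem : (gS (N * r)) * (k : SL(2, ℤ)) * (gS (N * r))⁻¹ ∈ K2 (N * r) := by
        have := K2_normal (N * r) (gS (N * r))⁻¹ ((Gamma0 (N * r)).inv_mem (gS_mem (N * r)))
          k k.2
        rwa [inv_inv] at this
      refine ⟨⟨_, hmem⟩, ?_⟩
      apply Subtype.ext
      simp only [conjSHom_coe]
      group) (by
      intro k
      rw [cdK_coe, cdK_coe]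
      have e : (⟨((conjSHom (K2 (N * r)) (gS (N * r))
          (K2_normal (N * r) _ (gS_mem (N * r))) k : K2 (N * r)) : SL(2, ℤ)),
          (conjSHom (K2 (N * r)) (gS (N * r))
            (K2_normal (N * r) _ (gS_mem (N * r))) k).2.1⟩ : Gamma0 (N * r)) =
          g'⁻¹ * ⟨k.1, k.2.1⟩ * g' := rfl
      rw [e, map_mul, map_mul, map_inv]
      rfl) w
  have h2 : ∀ φ : Additive (K2 N) →+ A,
      conjS (K2 N) ((conjDelta N r g' : Gamma0 N) : SL(2, ℤ)) (K2_normal N _ hgmem) φ =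
        conjN N (gS N) (gS_mem N) φ := fun φ =>
    conjN_congr (gS N) _ (gS_mem N) hgmem hred.symm φ
  rw [← h2]
  exact h1

/-- Every coset `D K` is a coset of the product system of `β α`. -/
theorem exists_out_rel [Fact r.Prime] (hr : Odd r) (k₁ : K2 N) :
    ∃ (q : K2 N ⧸ (cdK N r hr).range) (k₂ : K2 N),
      heckeRep r ((0 : ZMod r) : OnePoint (ZMod r)) * ιK (K2 N) k₁ =
        ιK (K2 N) k₂ * (heckeRep r ((0 : ZMod r) : OnePoint (ZMod r)) * ιK (K2 N) (q.out)⁻¹) := by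
  obtain ⟨m, hm⟩ : ∃ m : K2 (N * r),
      (((k₁⁻¹ : K2 N) : K2 N ⧸ (cdK N r hr).range).out : K2 N) = k₁⁻¹ * cdK N r hr m := by
    have h1 : ((((k₁⁻¹ : K2 N) : K2 N ⧸ (cdK N r hr).range).out : K2 N) :
        K2 N ⧸ (cdK N r hr).range) = ((k₁⁻¹ : K2 N) : _) := QuotientGroup.out_eq' _
    have h2 := QuotientGroup.eq.mp h1
    obtain ⟨m, hm⟩ := h2
    refine ⟨m⁻¹, ?_⟩
    rw [map_inv, hm]
    group
  refine ⟨((k₁⁻¹ : K2 N) : K2 N ⧸ (cdK N r hr).range),
    Subgroup.inclusion (K2_mul_le N r) m, ?_⟩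
  have hrel : heckeRep r ((0 : ZMod r) : OnePoint (ZMod r)) *
      ((ιK (K2 N)).comp (cdK N r hr)) m =
      ιK (K2 N) (Subgroup.inclusion (K2_mul_le N r) m) *
        heckeRep r ((0 : ZMod r) : OnePoint (ZMod r)) := r1_rel ⟨m.1, m.2.1⟩
  have e1 : k₁ = cdK N r hr m * (((k₁⁻¹ : K2 N) : K2 N ⧸ (cdK N r hr).range).out)⁻¹ := by
    rw [hm]
    group
  conv_lhs => rw [e1]
  rw [map_mul, ← mul_assoc, ← mul_assoc]
  congr 1

/-- Every odd representative of `T_r` lies in `K D K`. -/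
theorem exists_oddRep_rel [Fact r.Prime] (hr : Odd r) (hrN : ¬ r ∣ N) (j : OnePoint (ZMod r)) :
    ∃ k k₁ : K2 N, oddRep r j =
      ιK (K2 N) k * (heckeRep r ((0 : ZMod r) : OnePoint (ZMod r)) * ιK (K2 N) k₁) := by
  induction j using OnePoint.rec with
  | infty =>
    have hcop : IsCoprime (r : ℤ) ((4 * N : ℕ) : ℤ) := by
      rw [Int.isCoprime_iff_gcd_eq_one, Int.gcd_natCast_natCast]
      apply (Fact.out : r.Prime).coprime_iff_not_dvd.mpr
      intro h
      rcases (Nat.Prime.dvd_mul (Fact.out : r.Prime)).mp h with h' | h'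
      · have h2 : r ∣ 2 := by
          have : r ∣ 2 ^ 2 := by simpa using h'
          exact (Fact.out : r.Prime).dvd_of_dvd_pow this
        have h3 := (Nat.prime_dvd_prime_iff_eq (Fact.out : r.Prime) Nat.prime_two).mp h2
        rw [h3] at hr
        exact (Nat.not_odd_iff_even.mpr (by decide)) hr
      · exact hrN h'
    obtain ⟨u, v, huv⟩ := hcop
    push_cast at huv
    obtain ⟨m, hm⟩ := hr
    have hm' : (r : ℤ) = 2 * m + 1 := by exact_mod_cast hm
    -- `u r + 4 N v = 1`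
    let k₀ : K2 N := mkK2 N (r * u) (-2 * v) (2 * N) 1 (by linear_combination huv)
      ⟨2, by ring⟩ ⟨-2 * N * v, by linear_combination huv⟩ ⟨-v, by ring⟩ ⟨N, by ring⟩
      ⟨0, by ring⟩
    let k : K2 N := mkK2 N u (-2 * v) (2 * N) r (by linear_combination huv)
      ⟨2, by ring⟩ ⟨-2 * N * v - m * u, by rw [hm'] at huv; linear_combination huv⟩
      ⟨-v, by ring⟩ ⟨N, by ring⟩ ⟨m, by rw [hm']; ring⟩
    refine ⟨k⁻¹, k₀, ?_⟩
    rw [map_inv, eq_inv_mul_iff_mul_eq]
    obtain ⟨a00, a01, a10, a11⟩ := mkK2_apply N (r * u) (-2 * v) (2 * N) 1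
      (by linear_combination huv)
      ⟨2, by ring⟩ ⟨-2 * N * v, by linear_combination huv⟩ ⟨-v, by ring⟩ ⟨N, by ring⟩
      ⟨0, by ring⟩
    obtain ⟨b00, b01, b10, b11⟩ := mkK2_apply N u (-2 * v) (2 * N) r (by linear_combination huv)
      ⟨2, by ring⟩ ⟨-2 * N * v - m * u, by rw [hm'] at huv; linear_combination huv⟩
      ⟨-v, by ring⟩ ⟨N, by ring⟩ ⟨m, by rw [hm']; ring⟩
    apply gl_ext <;>
      simp only [coe_mul_apply, coe_ιK_apply, coe_oddRep_infty, coe_heckeRep_coe, ZMod.val_zero,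
        Matrix.of_apply, Matrix.cons_val', Matrix.cons_val_zero, Matrix.cons_val_one,
        Matrix.cons_val_fin_one, k, k₀, a00, a01, a10, a11, b00, b01, b10, b11] <;>
      push_cast <;> ring
  | coe j =>
    let T : K2 N := mkK2 N 1 ((j.val : ℤ) + oddShift r j * (r : ℤ)) 0 1 (by ring) (dvd_zero _)
      ⟨0, by ring⟩ (oddShift_spec hr j) (dvd_zero _) ⟨0, by ring⟩
    refine ⟨1, T, ?_⟩
    rw [map_one, one_mul]
    obtain ⟨a00, a01, a10, a11⟩ := mkK2_apply N 1 ((j.val : ℤ) + oddShift r j * (r : ℤ)) 0 1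
      (by ring) (dvd_zero _) ⟨0, by ring⟩ (oddShift_spec hr j) (dvd_zero _) ⟨0, by ring⟩
    apply gl_ext <;>
      simp only [coe_mul_apply, coe_ιK_apply, coe_oddRep_coe, coe_heckeRep_coe, ZMod.val_zero,
        Matrix.of_apply, Matrix.cons_val', Matrix.cons_val_zero, Matrix.cons_val_one,
        Matrix.cons_val_fin_one, T, a00, a01, a10, a11] <;>
      push_cast <;> ring

/-- **`β α = T_r`.** -/
theorem beta_alpha [Fact r.Prime] (hr : Odd r) (hrN : ¬ r ∣ N) (x : Additive (K2 N) →+ A) :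
    betaK N r hr (alphaK N r x) = TO r (K2 N) x := by
  classical
  haveI := finiteIndex_range_cdK (N := N) hr
  letI : Fintype (K2 N ⧸ (cdK N r hr).range) := (cdK N r hr).range.fintypeQuotientOfFiniteIndex
  have hinj := cdK_injective (N := N) hr
  have hOdd : OddSys r (K2 N) := oddSys_K2 hrN hr
  have hrel : ∀ k' : K2 (N * r), heckeRep r ((0 : ZMod r) : OnePoint (ZMod r)) *
      ((ιK (K2 N)).comp (cdK N r hr)) k' =
      ιK (K2 N) (Subgroup.inclusion (K2_mul_le N r) k') *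
        heckeRep r ((0 : ZMod r) : OnePoint (ZMod r)) := fun k' => r1_rel ⟨k'.1, k'.2.1⟩
  have hs1 := IsCosetSystem.single (ι := ιK (K2 N)) (ι' := (ιK (K2 N)).comp (cdK N r hr))
    (ιK_injective _) (Subgroup.inclusion (K2_mul_le N r))
    (heckeRep r ((0 : ZMod r) : OnePoint (ZMod r))) hrel
  have hs2 := IsCosetSystem.ofTransfer (cdK N r hr) hinj (ιK (K2 N)) (ιK_injective _)
  have hprod := hs1.prod hs2 (by
    intro _ _ q q' k e
    refine ⟨rfl, ?_⟩
    have e2 : heckeRep r ((0 : ZMod r) : OnePoint (ZMod r)) *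
        ιK (K2 N) ((q.out)⁻¹ * q'.out) =
        ιK (K2 N) k * heckeRep r ((0 : ZMod r) : OnePoint (ZMod r)) := by
      rw [map_mul, ← mul_assoc, e, mul_assoc, mul_assoc, ← map_mul, inv_mul_cancel, map_one,
        mul_one]
    have e01 := congrArg (fun M : GL (Fin 2) ℝ => (M : Matrix (Fin 2) (Fin 2) ℝ) 0 1) e2
    simp only [coe_mul_apply, coe_ιK_apply, coe_heckeRep_coe, ZMod.val_zero, Matrix.of_apply,
      Matrix.cons_val', Matrix.cons_val_zero, Matrix.cons_val_one, Matrix.cons_val_fin_one,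
      zero_mul, one_mul, zero_add, mul_zero, add_zero, Nat.cast_zero] at e01
    have e01' : (((q.out)⁻¹ * q'.out : K2 N) : SL(2, ℤ)) 0 1 = (k : SL(2, ℤ)) 0 1 * r := by
      exact_mod_cast e01
    have hmem : (q.out)⁻¹ * q'.out ∈ (cdK N r hr).range :=
      (mem_range_cdK_iff hr _).mpr ⟨(k : SL(2, ℤ)) 0 1, by rw [e01', mul_comm]⟩
    have h3 := QuotientGroup.eq.mpr hmem
    rwa [QuotientGroup.out_eq', QuotientGroup.out_eq'] at h3)
  show transferAlong (cdK N r hr) (alphaK N r x) = _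
  rw [transferAlong_eq (cdK N r hr) hinj (ιK (K2 N)) (ιK_injective _)]
  have hr1 : alphaK N r x = hs1.transfer x :=
    (IsCosetSystem.single_transfer (ι := ιK (K2 N)) (ι' := (ιK (K2 N)).comp (cdK N r hr))
      (ιK_injective _) (Subgroup.inclusion (K2_mul_le N r))
      (heckeRep r ((0 : ZMod r) : OnePoint (ZMod r))) hrel x).symm
  rw [hr1, IsCosetSystem.transfer_comp hs1 hs2 hprod, TO_eq hOdd]
  symm
  refine IsCosetSystem.transfer_eq_of_le hOdd hprod (fun j => ?_) (fun z z' => ?_) x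
  · obtain ⟨k, k₁, hk⟩ := exists_oddRep_rel (N := N) hr hrN j
    obtain ⟨q, k₂, hq⟩ := exists_out_rel (N := N) hr k₁
    refine ⟨((), q), k * k₂, ?_⟩
    rw [hk, hq, map_mul, mul_assoc]
  · refine ⟨z.2.out * (z'.2.out)⁻¹, ?_⟩
    apply hprod.act_eq (g := 1)
    show heckeRep r ((0 : ZMod r) : OnePoint (ZMod r)) * ιK (K2 N) (z.2.out)⁻¹ *
        ιK (K2 N) (z.2.out * (z'.2.out)⁻¹) =
      ιK (K2 N) 1 * (heckeRep r ((0 : ZMod r) : OnePoint (ZMod r)) * ιK (K2 N) (z'.2.out)⁻¹)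
    rw [map_one, one_mul, mul_assoc, ← map_mul, inv_mul_cancel_left]

end AlphaBeta

end Fermat.Agent.S59.H316

end
-- ===== PACK-END S59/H316/Level.lean

-- ===== PACK-BEGIN S59/LoSqC/H193/LabelCount.lean
section



/-!
# S59 / cell (C) LO-SQ, leaf LAB (helper193), part 5: THE LABEL MAP and LAB1-COUNT (two sheets)

Setting of `LabelConst.lean` (two sheets `V₁ ≠ V₂`, `V₁` unramified and discrete, both components
normal, no node at infinity), `Σ` the finite set of the nodes of the finite chart.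

* `card_quot_le_of_labels` (Mathlib only) : a group `G` with a homomorphism
  `lab : G → (ι → ZMod m)` such that "`lab g` constant ⟹ `g ∈ P`" satisfies
  `#(G ⧸ P) ≤ m ^ (#ι - 1)`.
* `isPrimitiveRoot_resAt` : `ζ` has exact order `m` modulo every closed point.
* `TwoCtx` : the standing hypotheses, bundled.
* `splitPure` : the group of the functions `u ≡ 1` on `V₁`, `V₂` with a purity datum at every closed
  point of the special fibre of both charts (the normalised Kummer generators of the toric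
  classes).
* `labFun`, `labFun_spec`, `labFun_mul` : THE LABEL MAP `splitPure → (Σ → ZMod m)`:
  `IsLabelAt … 𝔫 V₁ V₂ m ζ u c ↔ (c : ZMod m) = labFun u 𝔫`; additive.
* `exists_pow_of_labFun_const` : constant labels ⟹ `m`-th power  (**LAB1-INJ**).
* `card_splitPure_le` : `#(splitPure ⧸ m-th powers) ≤ m ^ (#Σ - 1)`  (**LAB1-COUNT**).
-/

set_option autoImplicit false
set_option linter.unusedSectionVars false
set_option linter.unusedVariables false
set_option linter.style.haveILetI false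

namespace Fermat.Agent.S59.LoSqC.H193

open Fermat.Agent.S36.H630
open Fermat.Agent.S18.H138 (chart)
open Fermat.Agent.A2.H12 (IsSheet)
open Polynomial

universe u

section Abstract

/-- **The abstract count.** -/
theorem card_quot_le_of_labels {G : Type*} [CommGroup G] (P : Subgroup G) {ι : Type*}
    [Fintype ι] (m : ℕ) [NeZero m] (lab : G →* Multiplicative (ι → ZMod m))
    (h : ∀ g : G, (∃ c : ZMod m, ∀ i, Multiplicative.toAdd (lab g) i = c) → g ∈ P) :
    Nat.card (G ⧸ P) ≤ m ^ (Fintype.card ι - 1) := by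
  classical
  rcases isEmpty_or_nonempty ι with hι | ⟨⟨i₀⟩⟩
  · -- no node: `P = ⊤`
    have hP : P = ⊤ := by
      rw [eq_top_iff]
      intro g _
      exact h g ⟨0, fun i => (hι.false i).elim⟩
    subst hP
    have : Nat.card (G ⧸ (⊤ : Subgroup G)) = 1 := by
      rw [Nat.card_eq_one_iff_unique]
      exact ⟨QuotientGroup.subsingleton_quotient_top, ⟨1⟩⟩
    rw [this]
    exact Nat.one_le_pow _ _ (Nat.pos_of_ne_zero (NeZero.ne m))
  · -- normalise at `i₀`
    let ι' := {i : ι // i ≠ i₀}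
    let φ : G →* Multiplicative (ι' → ZMod m) :=
      { toFun := fun g => Multiplicative.ofAdd
          (fun i : ι' => Multiplicative.toAdd (lab g) i.1 - Multiplicative.toAdd (lab g) i₀)
        map_one' := by
          apply congrArg Multiplicative.ofAdd
          funext i
          simp
        map_mul' := by
          intro a b
          rw [← ofAdd_add]
          apply congrArg Multiplicative.ofAdd
          funext i
          simp only [map_mul, toAdd_mul, Pi.add_apply]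
          ring }
    have hker : φ.ker ≤ P := by
      intro g hg
      rw [MonoidHom.mem_ker] at hg
      refine h g ⟨Multiplicative.toAdd (lab g) i₀, fun i => ?_⟩
      by_cases hi : i = i₀
      · rw [hi]
      · have h1 := congrFun (congrArg Multiplicative.toAdd hg) ⟨i, hi⟩
        simp only [φ, MonoidHom.coe_mk, OneHom.coe_mk, toAdd_ofAdd, toAdd_one,
          Pi.zero_apply] at h1
        exact sub_eq_zero.1 h1
    -- `G ⧸ ker φ` is finite, of cardinality `≤ m ^ #ι'`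
    have hinj : Function.Injective (QuotientGroup.kerLift φ) := QuotientGroup.kerLift_injective φ
    haveI : Finite (Multiplicative (ι' → ZMod m)) := inferInstance
    haveI : Finite (G ⧸ φ.ker) := Finite.of_injective _ hinj
    have h1 : Nat.card (G ⧸ φ.ker) ≤ Nat.card (Multiplicative (ι' → ZMod m)) :=
      Nat.card_le_card_of_injective _ hinj
    have h2 : Nat.card (Multiplicative (ι' → ZMod m)) = m ^ (Fintype.card ι - 1) := by
      rw [Nat.card_eq_fintype_card]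
      have : Fintype.card (Multiplicative (ι' → ZMod m)) = Fintype.card (ι' → ZMod m) :=
        Fintype.card_congr Multiplicative.toAdd
      have hc : Fintype.card ι' = Fintype.card ι - 1 := by
        show Fintype.card {i : ι // i ≠ i₀} = Fintype.card ι - 1
        rw [Fintype.card_subtype_compl (fun i => i = i₀)]
        simp
      rw [this, Fintype.card_fun, ZMod.card, hc]
    -- `G ⧸ ker φ → G ⧸ P` is onto
    have hsurj : Function.Surjective (QuotientGroup.map φ.ker P (MonoidHom.id G) hker) := by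
      intro y
      obtain ⟨g, rfl⟩ := QuotientGroup.mk_surjective y
      exact ⟨QuotientGroup.mk g, rfl⟩
    have h3 : Nat.card (G ⧸ P) ≤ Nat.card (G ⧸ φ.ker) :=
      Nat.card_le_card_of_surjective _ hsurj
    exact h3.trans (h1.trans h2.le)

end Abstract

section Prim

variable {R : Type*} [CommRing R] {F : Type*} [Field F] [Algebra R F]
variable {B : Subalgebra R F}

/-- **`ζ` has exact order `m` modulo a closed point.** -/
theorem isPrimitiveRoot_resAt (hinjR : Function.Injective (algebraMap R F))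
    (n : Ideal B) [hn : n.IsMaximal] {m : ℕ} (hm : 0 < m) {mi : R} (hmi : (m : R) * mi = 1)
    {ζ : R} (hζ : IsPrimitiveRoot ζ m) : IsPrimitiveRoot (resAt n ζ) m := by
  have hζ1 : ζ ^ m = 1 := hζ.pow_eq_one
  refine IsPrimitiveRoot.mk_of_lt _ hm ?_ ?_
  · rw [← resAt_pow, hζ1, resAt_one]
  · intro l hl hlm h1
    have hne : ζ ^ l ≠ ζ ^ 0 := by
      rw [pow_zero]
      exact hζ.pow_ne_one_of_pos_of_lt hl.ne' hlm
    have hu : IsUnit (ζ ^ l - ζ ^ 0) := isUnit_zeta_pow_sub (Z := F) hinjR hm hmi hζ1 hne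
    have hu' : IsUnit (Ideal.Quotient.mk n (algebraMap R B (ζ ^ l - ζ ^ 0))) :=
      (hu.map (algebraMap R B)).map (Ideal.Quotient.mk n)
    have h0 : Ideal.Quotient.mk n (algebraMap R B (ζ ^ l - ζ ^ 0)) = 0 := by
      rw [map_sub, map_sub, sub_eq_zero]
      have e1 : Ideal.Quotient.mk n (algebraMap R B (ζ ^ l)) = resAt n ζ ^ l := by
        rw [← resAt_pow]
      rw [e1, h1, pow_zero, map_one, map_one]
    rw [h0] at hu'
    have hnt : Nontrivial (B ⧸ n) := Ideal.Quotient.nontrivial_iff.2 hn.ne_top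
    exact not_isUnit_zero hu'

end Prim

section Two

variable {R : Type u} [CommRing R] [IsDomain R] [IsDiscreteValuationRing R]
  [HenselianLocalRing R] [IsAlgClosed (IsLocalRing.ResidueField R)] [IsIntegrallyClosed R[X]]
variable (E : Type u) [Field E] [CharZero E] [Algebra R E] [IsFractionRing R E]
variable {F : Type u} [Field F] [Algebra E F] [Algebra R F] [IsScalarTower R E F]

/-- `𝔫` is a closed point of the special fibre of the chart `B`. -/
def IsClosedPt (w : R) (B : Subalgebra R F) (𝔫 : Ideal B) : Prop :=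
  𝔫.IsMaximal ∧ algebraMap R B w ∈ 𝔫

/-- `𝔫` is a node: a closed point of the special fibre through which both sheets pass. -/
def IsNodePt (w : R) (B : Subalgebra R F) (V₁ V₂ : ValuationSubring F) (𝔫 : Ideal B) : Prop :=
  IsClosedPt w B 𝔫 ∧ PassThrough B 𝔫 V₁ ∧ PassThrough B 𝔫 V₂

/-- **The standing hypotheses of LAB1** (two sheets), bundled. -/
structure TwoCtx (w : R) (q : ℕ) (x : F) (m : ℕ) (ζ : R) (V₁ V₂ : ValuationSubring F) :
    Prop where
  hw : Irreducible w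
  hq : q.Prime
  hqR : (q : R) ∈ IsLocalRing.maximalIdeal R
  hx : Transcendental E x
  hfin : FiniteDimensional (IntermediateField.adjoin E ({x} : Set F)) F
  hm : 0 < m
  hqm : ¬ q ∣ m
  hζ : IsPrimitiveRoot ζ m
  hne : V₁ ≠ V₂
  hsheets : ∀ V, IsSheet w x V → V = V₁ ∨ V = V₂
  hR₁ : ∀ r : R, algebraMap R F r ∈ V₁
  hR₂ : ∀ r : R, algebraMap R F r ∈ V₂
  hx₁ : x ∈ V₁ ∧ x⁻¹ ∈ V₁
  hx₂ : x ∈ V₂ ∧ x⁻¹ ∈ V₂
  hwV₁ : algebraMap R F w ∈ V₁.nonunits
  hunif : ∀ a ∈ V₁.nonunits, a * (algebraMap R F w)⁻¹ ∈ V₁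
  hdisc : ∀ g : F, ∃ k : ℕ, g * algebraMap R F w ^ k ∈ V₁
  hnf₁ : NormalAlong (chart R ({x} : Set F)) V₁ m
  hnf₂ : NormalAlong (chart R ({x} : Set F)) V₂ m
  hni₁ : NormalAlong (chart R ({x⁻¹} : Set F)) V₁ m
  hni₂ : NormalAlong (chart R ({x⁻¹} : Set F)) V₂ m
  hcusp : ∀ 𝔫 : Ideal (chart R ({x⁻¹} : Set F)), 𝔫.IsMaximal →
    algebraMap R (chart R ({x⁻¹} : Set F)) w ∈ 𝔫 →
    (⟨x⁻¹, Fermat.Agent.S18.H138.mem_chart_of_mem rfl⟩ : chart R ({x⁻¹} : Set F)) ∈ 𝔫 →
    ¬ (PassThrough (chart R ({x⁻¹} : Set F)) 𝔫 V₁ ∧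
      PassThrough (chart R ({x⁻¹} : Set F)) 𝔫 V₂)

/-- `u ≡ 1` on both sheets, with a purity datum at every closed point of the special fibre of
both charts. -/
def IsSplitPure (w : R) (x : F) (m : ℕ) (V₁ V₂ : ValuationSubring F) (u : F) : Prop :=
  u - 1 ∈ V₁.nonunits ∧ u - 1 ∈ V₂.nonunits ∧
  (∀ 𝔫 : Ideal (chart R ({x} : Set F)), IsClosedPt w (chart R ({x} : Set F)) 𝔫 →
    ∃ d : F, IsPureAt (chart R ({x} : Set F)) 𝔫 m u d) ∧
  (∀ 𝔫 : Ideal (chart R ({x⁻¹} : Set F)), IsClosedPt w (chart R ({x⁻¹} : Set F)) 𝔫 →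
    ∃ d : F, IsPureAt (chart R ({x⁻¹} : Set F)) 𝔫 m u d)

theorem IsSplitPure.one (w : R) (x : F) (m : ℕ) (V₁ V₂ : ValuationSubring F) :
    IsSplitPure w x m V₁ V₂ (1 : F) := by
  refine ⟨?_, ?_, ?_, ?_⟩
  · rw [sub_self]; exact vnu_zero V₁
  · rw [sub_self]; exact vnu_zero V₂
  · intro 𝔫 h𝔫
    exact ⟨1, IsPureAt.one h𝔫.1.ne_top m⟩
  · intro 𝔫 h𝔫
    exact ⟨1, IsPureAt.one h𝔫.1.ne_top m⟩

theorem split_mul {V : ValuationSubring F} {u u' : F} (h : u - 1 ∈ V.nonunits)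
    (h' : u' - 1 ∈ V.nonunits) : u * u' - 1 ∈ V.nonunits := by
  have hu : u ∈ V := by
    have : u = (u - 1) + 1 := by ring
    rw [this]
    exact V.add_mem _ _ (vnu_mem V h) V.one_mem
  have : u * u' - 1 = u * (u' - 1) + (u - 1) := by ring
  rw [this]
  exact vnu_add V (vnu_mul_left V h' hu) h

theorem split_inv {V : ValuationSubring F} {u : F} (h : u - 1 ∈ V.nonunits) :
    u⁻¹ - 1 ∈ V.nonunits := by
  have huV : u ∈ V ∧ u ∉ V.nonunits := vnu_unit_of_sub V h V.one_mem (vnu_one_not V)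
  have hu0 : u ≠ 0 := by
    rintro rfl
    exact huV.2 (vnu_zero V)
  have : u⁻¹ - 1 = -(u⁻¹ * (u - 1)) := by
    field_simp
    ring
  rw [this]
  exact vnu_neg V (vnu_mul_left V h (vnu_inv_mem V huV.1 huV.2))

theorem IsSplitPure.mul {w : R} {x : F} {m : ℕ} {V₁ V₂ : ValuationSubring F} {u u' : F}
    (h : IsSplitPure w x m V₁ V₂ u) (h' : IsSplitPure w x m V₁ V₂ u') :
    IsSplitPure w x m V₁ V₂ (u * u') := by
  refine ⟨split_mul h.1 h'.1, split_mul h.2.1 h'.2.1, ?_, ?_⟩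
  · intro 𝔫 h𝔫
    haveI := h𝔫.1.isPrime
    obtain ⟨d, hd⟩ := h.2.2.1 𝔫 h𝔫
    obtain ⟨d', hd'⟩ := h'.2.2.1 𝔫 h𝔫
    exact ⟨d * d', hd.mul hd'⟩
  · intro 𝔫 h𝔫
    haveI := h𝔫.1.isPrime
    obtain ⟨d, hd⟩ := h.2.2.2 𝔫 h𝔫
    obtain ⟨d', hd'⟩ := h'.2.2.2 𝔫 h𝔫
    exact ⟨d * d', hd.mul hd'⟩

theorem IsSplitPure.inv {w : R} {x : F} {m : ℕ} {V₁ V₂ : ValuationSubring F} {u : F}
    (h : IsSplitPure w x m V₁ V₂ u) : IsSplitPure w x m V₁ V₂ u⁻¹ := by
  refine ⟨split_inv h.1, split_inv h.2.1, ?_, ?_⟩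
  · intro 𝔫 h𝔫
    haveI := h𝔫.1.isPrime
    obtain ⟨d, hd⟩ := h.2.2.1 𝔫 h𝔫
    exact ⟨d⁻¹, hd.inv⟩
  · intro 𝔫 h𝔫
    haveI := h𝔫.1.isPrime
    obtain ⟨d, hd⟩ := h.2.2.2 𝔫 h𝔫
    exact ⟨d⁻¹, hd.inv⟩

/-- **The group of the split functions with purity data.** -/
def splitPure (w : R) (x : F) (m : ℕ) (V₁ V₂ : ValuationSubring F) : Subgroup Fˣ where
  carrier := {u | IsSplitPure w x m V₁ V₂ (u : F)}
  one_mem' := by
    show IsSplitPure w x m V₁ V₂ ((1 : Fˣ) : F)
    rw [Units.val_one]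
    exact IsSplitPure.one w x m V₁ V₂
  mul_mem' := by
    intro a b ha hb
    show IsSplitPure w x m V₁ V₂ ((a * b : Fˣ) : F)
    rw [Units.val_mul]
    exact IsSplitPure.mul ha hb
  inv_mem' := by
    intro a ha
    show IsSplitPure w x m V₁ V₂ ((a⁻¹ : Fˣ) : F)
    rw [Units.val_inv_eq_inv_val]
    exact IsSplitPure.inv ha

/-- The subgroup of the `m`-th powers of `Fˣ`. -/
def powSubgroup (F : Type u) [Field F] (m : ℕ) : Subgroup Fˣ :=
  (powMonoidHom m : Fˣ →* Fˣ).range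

end Two

end Fermat.Agent.S59.LoSqC.H193

end
-- ===== PACK-END S59/LoSqC/H193/LabelCount.lean

-- ===== PACK-BEGIN S59/LoSqC/H193/LabelMap.lean
section


/-!
# S59 / cell (C) LO-SQ, leaf LAB (helper193), part 6: THE LABEL MAP at level `Mq` and LAB1-COUNT

Setting: `TwoCtx E w q x m ζ V₁ V₂` (`LabelCount.lean`), `Σ` a finite set which is exactly the set
of the nodes of the finite chart (`IsNodePt`).

* `TwoCtx.exists_label` : a split function with purity data has a label `c < m` at every node;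
* `labHom`              : **the label map** `splitPure →* (Σ → ZMod m)` (a homomorphism);
* `labHom_spec`         : `IsLabelAt … 𝔫 V₁ V₂ m ζ u c ↔ (c : ZMod m) = labHom u 𝔫`;
* `mem_powSubgroup_of_labHom_const` : constant labels ⟹ `m`-th power  (**LAB1-INJ**);
* `card_splitPure_le`   : `#(splitPure ⧸ m-th powers) ≤ m ^ (#Σ - 1)`   (**LAB1-COUNT**).
-/

set_option autoImplicit false
set_option linter.unusedSectionVars false
set_option linter.unusedVariables false
set_option linter.style.haveILetI false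

namespace Fermat.Agent.S59.LoSqC.H193

open Fermat.Agent.S36.H630
open Fermat.Agent.S18.H138 (chart)
open Fermat.Agent.A2.H12 (IsSheet)
open Polynomial

universe u

section Two

variable {R : Type u} [CommRing R] [IsDomain R] [IsDiscreteValuationRing R]
  [HenselianLocalRing R] [IsAlgClosed (IsLocalRing.ResidueField R)] [IsIntegrallyClosed R[X]]
variable (E : Type u) [Field E] [CharZero E] [Algebra R E] [IsFractionRing R E]
variable {F : Type u} [Field F] [Algebra E F] [Algebra R F] [IsScalarTower R E F]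
variable {w : R} {q : ℕ} {x : F} {m : ℕ} {ζ : R} {V₁ V₂ : ValuationSubring F}

/-- `m` is invertible in `R`. -/
theorem exists_inv_of_not_dvd (hq : q.Prime) (hqR : (q : R) ∈ IsLocalRing.maximalIdeal R)
    (hqm : ¬ q ∣ m) : ∃ mi : R, (m : R) * mi = 1 := by
  have hu : IsUnit (m : R) := by
    by_contra hnu
    have hmem : (m : R) ∈ IsLocalRing.maximalIdeal R := (IsLocalRing.mem_maximalIdeal _).2 hnu
    have hcop : Nat.Coprime q m := (Nat.Prime.coprime_iff_not_dvd hq).2 hqm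
    have h1 : ((Nat.gcd q m : ℕ) : R) ∈ IsLocalRing.maximalIdeal R := by
      have hb : ((Nat.gcd q m : ℕ) : ℤ) = q * Nat.gcdA q m + m * Nat.gcdB q m :=
        Nat.gcd_eq_gcd_ab q m
      have hc : ((Nat.gcd q m : ℕ) : R) = (q : R) * ((Nat.gcdA q m : ℤ) : R) +
          (m : R) * ((Nat.gcdB q m : ℤ) : R) := by
        have := congrArg (fun z : ℤ => (z : R)) hb
        simpa using this
      rw [hc]
      exact Ideal.add_mem _ (Ideal.mul_mem_right _ _ hqR) (Ideal.mul_mem_right _ _ hmem)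
    rw [hcop, Nat.cast_one] at h1
    exact (IsLocalRing.mem_maximalIdeal _).1 h1 isUnit_one
  obtain ⟨v, hv⟩ := hu
  exact ⟨(v⁻¹ : Rˣ), by rw [← hv, Units.mul_inv]⟩

include E in
theorem TwoCtx.injRF (ctx : TwoCtx E w q x m ζ V₁ V₂) :
    Function.Injective (algebraMap R F) := by
  have hinjRE : Function.Injective (algebraMap R E) := IsFractionRing.injective R E
  rw [IsScalarTower.algebraMap_eq R E F]
  exact (algebraMap E F).injective.comp hinjRE

include E in
/-- `ζ` has exact order `m` at every closed point of the finite chart. -/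
theorem TwoCtx.prim (ctx : TwoCtx E w q x m ζ V₁ V₂) (𝔫 : Ideal (chart R ({x} : Set F)))
    [𝔫.IsMaximal] : IsPrimitiveRoot (resAt 𝔫 ζ) m := by
  obtain ⟨mi, hmi⟩ : ∃ mi : R, (m : R) * mi = 1 := exists_inv_of_not_dvd ctx.hq ctx.hqR ctx.hqm
  exact isPrimitiveRoot_resAt (ctx.injRF E) 𝔫 ctx.hm hmi ctx.hζ

include E in
theorem TwoCtx.chartLe₁ (ctx : TwoCtx E w q x m ζ V₁ V₂) :
    ChartLe (chart R ({x} : Set F)) V₁ :=
  chartLe_chart ctx.hR₁ (fun s hs => by rw [Set.mem_singleton_iff.1 hs]; exact ctx.hx₁.1)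

include E in
theorem TwoCtx.chartLe₂ (ctx : TwoCtx E w q x m ζ V₁ V₂) :
    ChartLe (chart R ({x} : Set F)) V₂ :=
  chartLe_chart ctx.hR₂ (fun s hs => by rw [Set.mem_singleton_iff.1 hs]; exact ctx.hx₂.1)

include E in
/-- **Existence of the label at a node.** -/
theorem TwoCtx.exists_label (ctx : TwoCtx E w q x m ζ V₁ V₂) {u : F}
    (hu : IsSplitPure w x m V₁ V₂ u) {𝔫 : Ideal (chart R ({x} : Set F))}
    (h𝔫 : IsNodePt w (chart R ({x} : Set F)) V₁ V₂ 𝔫) :
    ∃ c : ℕ, c < m ∧ IsLabelAt (chart R ({x} : Set F)) 𝔫 V₁ V₂ m ζ u c := by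
  haveI := h𝔫.1.1
  obtain ⟨d, hd⟩ := hu.2.2.1 𝔫 h𝔫.1
  exact exists_isLabelAt ctx.hm (rat_of_mem w ctx.hw x 𝔫 h𝔫.1.1 h𝔫.1.2)
    (ctx.chartLe₁ E) h𝔫.2.1 (ctx.chartLe₂ E) h𝔫.2.2 ctx.hnf₁ ctx.hnf₂ (ctx.prim E 𝔫)
    hu.1 hu.2.1 hd

section Map

variable (Sg : Finset (Ideal (chart R ({x} : Set F))))

include E in
/-- Uniqueness of the label at a node, in `ZMod m`. -/
theorem TwoCtx.label_unique (ctx : TwoCtx E w q x m ζ V₁ V₂) {u : F}
    {𝔫 : Ideal (chart R ({x} : Set F))} (h𝔫 : IsNodePt w (chart R ({x} : Set F)) V₁ V₂ 𝔫)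
    {c c' : ℕ} (h : IsLabelAt (chart R ({x} : Set F)) 𝔫 V₁ V₂ m ζ u c)
    (h' : IsLabelAt (chart R ({x} : Set F)) 𝔫 V₁ V₂ m ζ u c') :
    (c : ZMod m) = (c' : ZMod m) := by
  haveI := h𝔫.1.1
  rw [ZMod.natCast_eq_natCast_iff]
  exact h.unique ctx.hm (fun z hz => chart_root_mem' ctx.hm hz)
    (rat_of_mem w ctx.hw x 𝔫 h𝔫.1.1 h𝔫.1.2) (ctx.chartLe₁ E) h𝔫.2.1 (ctx.chartLe₂ E) h𝔫.2.2
    (ctx.prim E 𝔫) h'

/-- **The label of a split function at a node** (a choice; see `labFun_spec`). -/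
noncomputable def labFun (ctx : TwoCtx E w q x m ζ V₁ V₂)
    (hSg : ∀ 𝔫 ∈ Sg, IsNodePt w (chart R ({x} : Set F)) V₁ V₂ 𝔫)
    (u : splitPure w x m V₁ V₂) (𝔫 : Sg) : ZMod m :=
  ((Classical.choose (ctx.exists_label E u.2 (hSg 𝔫.1 𝔫.2)) : ℕ) : ZMod m)

theorem labFun_isLabelAt (ctx : TwoCtx E w q x m ζ V₁ V₂)
    (hSg : ∀ 𝔫 ∈ Sg, IsNodePt w (chart R ({x} : Set F)) V₁ V₂ 𝔫)
    (u : splitPure w x m V₁ V₂) (𝔫 : Sg) :
    IsLabelAt (chart R ({x} : Set F)) 𝔫.1 V₁ V₂ m ζ ((u : Fˣ) : F)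
      (Classical.choose (ctx.exists_label E u.2 (hSg 𝔫.1 𝔫.2))) :=
  (Classical.choose_spec (ctx.exists_label E u.2 (hSg 𝔫.1 𝔫.2))).2

/-- **Characterisation of the label map.** -/
theorem labFun_spec (ctx : TwoCtx E w q x m ζ V₁ V₂)
    (hSg : ∀ 𝔫 ∈ Sg, IsNodePt w (chart R ({x} : Set F)) V₁ V₂ 𝔫)
    (u : splitPure w x m V₁ V₂) (𝔫 : Sg) (c : ℕ) :
    IsLabelAt (chart R ({x} : Set F)) 𝔫.1 V₁ V₂ m ζ ((u : Fˣ) : F) c ↔
      (c : ZMod m) = labFun E Sg ctx hSg u 𝔫 := by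
  constructor
  · intro h
    exact ctx.label_unique E (hSg 𝔫.1 𝔫.2) h (labFun_isLabelAt E Sg ctx hSg u 𝔫)
  · intro h
    refine (labFun_isLabelAt E Sg ctx hSg u 𝔫).congr ctx.hζ.pow_eq_one ?_
    rw [← ZMod.natCast_eq_natCast_iff]
    exact h.symm

/-- **Additivity of the label map.** -/
theorem labFun_mul (ctx : TwoCtx E w q x m ζ V₁ V₂)
    (hSg : ∀ 𝔫 ∈ Sg, IsNodePt w (chart R ({x} : Set F)) V₁ V₂ 𝔫)
    (u u' : splitPure w x m V₁ V₂) (𝔫 : Sg) :
    labFun E Sg ctx hSg (u * u') 𝔫 = labFun E Sg ctx hSg u 𝔫 + labFun E Sg ctx hSg u' 𝔫 := by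
  have h𝔫 := hSg 𝔫.1 𝔫.2
  haveI := h𝔫.1.1
  haveI : 𝔫.1.IsPrime := h𝔫.1.1.isPrime
  have h1 := labFun_isLabelAt E Sg ctx hSg u 𝔫
  have h2 := labFun_isLabelAt E Sg ctx hSg u' 𝔫
  have h3 := h1.mul (ctx.chartLe₁ E) h𝔫.2.1 (ctx.chartLe₂ E) h𝔫.2.2 h2
  have h4 : (((u : Fˣ) : F) * ((u' : Fˣ) : F)) = (((u * u' : splitPure w x m V₁ V₂) : Fˣ) : F) := by
    simp
  rw [h4] at h3
  have h5 := (labFun_spec E Sg ctx hSg (u * u') 𝔫 _).1 h3
  rw [← h5, Nat.cast_add]
  rfl

/-- **The label map**, as a homomorphism. -/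
noncomputable def labHom (ctx : TwoCtx E w q x m ζ V₁ V₂)
    (hSg : ∀ 𝔫 ∈ Sg, IsNodePt w (chart R ({x} : Set F)) V₁ V₂ 𝔫) :
    splitPure w x m V₁ V₂ →* Multiplicative (Sg → ZMod m) :=
  MonoidHom.mk' (fun u => Multiplicative.ofAdd (labFun E Sg ctx hSg u)) (by
    intro a b
    rw [← ofAdd_add]
    apply congrArg Multiplicative.ofAdd
    funext 𝔫
    exact labFun_mul E Sg ctx hSg a b 𝔫)

theorem labHom_apply (ctx : TwoCtx E w q x m ζ V₁ V₂)
    (hSg : ∀ 𝔫 ∈ Sg, IsNodePt w (chart R ({x} : Set F)) V₁ V₂ 𝔫)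
    (u : splitPure w x m V₁ V₂) (𝔫 : Sg) :
    Multiplicative.toAdd (labHom E Sg ctx hSg u) 𝔫 = labFun E Sg ctx hSg u 𝔫 := rfl

/-- **LAB1-INJ**: a split function whose labels at the nodes are constant is an `m`-th power. -/
theorem mem_powSubgroup_of_labFun_const (ctx : TwoCtx E w q x m ζ V₁ V₂)
    (hSg : ∀ 𝔫 ∈ Sg, IsNodePt w (chart R ({x} : Set F)) V₁ V₂ 𝔫)
    (hall : ∀ 𝔫, IsNodePt w (chart R ({x} : Set F)) V₁ V₂ 𝔫 → 𝔫 ∈ Sg)
    (u : splitPure w x m V₁ V₂) (c₀ : ZMod m) (hc : ∀ 𝔫 : Sg, labFun E Sg ctx hSg u 𝔫 = c₀) :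
    (u : Fˣ) ∈ powSubgroup F m := by
  haveI : NeZero m := ⟨ctx.hm.ne'⟩
  have hu := u.2
  have hlab : ∀ 𝔫 : Ideal (chart R ({x} : Set F)), 𝔫.IsMaximal →
      algebraMap R (chart R ({x} : Set F)) w ∈ 𝔫 →
      PassThrough (chart R ({x} : Set F)) 𝔫 V₁ → PassThrough (chart R ({x} : Set F)) 𝔫 V₂ →
      IsLabelAt (chart R ({x} : Set F)) 𝔫 V₁ V₂ m ζ ((u : Fˣ) : F) c₀.val := by
    intro 𝔫 h1 h2 h3 h4
    have hmem : 𝔫 ∈ Sg := hall 𝔫 ⟨⟨h1, h2⟩, h3, h4⟩
    refine (labFun_spec E Sg ctx hSg u ⟨𝔫, hmem⟩ c₀.val).2 ?_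
    rw [hc ⟨𝔫, hmem⟩, ZMod.natCast_zmod_val]
  obtain ⟨g, hg⟩ := exists_pow_eq_of_const_labels E w ctx.hw q ctx.hq ctx.hqR ctx.hx ctx.hfin
    ctx.hm ctx.hqm ctx.hζ (Units.ne_zero (u : Fˣ)) V₁ V₂ ctx.hne ctx.hsheets ctx.hR₁ ctx.hR₂
    ctx.hx₁ ctx.hx₂ hu.1 hu.2.1 ctx.hwV₁ ctx.hunif ctx.hdisc ctx.hnf₁ ctx.hnf₂ ctx.hni₁ ctx.hni₂
    ctx.hcusp (fun 𝔫 h1 h2 => hu.2.2.1 𝔫 ⟨h1, h2⟩) (fun 𝔫 h1 h2 => hu.2.2.2 𝔫 ⟨h1, h2⟩)
    c₀.val hlab
  have hg0 : g ≠ 0 := by
    rintro rfl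
    rw [zero_pow ctx.hm.ne'] at hg
    exact Units.ne_zero (u : Fˣ) hg.symm
  refine ⟨Units.mk0 g hg0, ?_⟩
  apply Units.ext
  simp only [powMonoidHom_apply, Units.val_pow_eq_pow_val, Units.val_mk0]
  exact hg

/-- **LAB1-COUNT**: the split functions with purity data, modulo `m`-th powers, form a group of
order at most `m ^ (#Σ - 1)`, `Σ` = the set of the nodes. -/
theorem card_splitPure_le (ctx : TwoCtx E w q x m ζ V₁ V₂)
    (hSg : ∀ 𝔫 ∈ Sg, IsNodePt w (chart R ({x} : Set F)) V₁ V₂ 𝔫)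
    (hall : ∀ 𝔫, IsNodePt w (chart R ({x} : Set F)) V₁ V₂ 𝔫 → 𝔫 ∈ Sg) :
    Nat.card (splitPure w x m V₁ V₂ ⧸ (powSubgroup F m).subgroupOf (splitPure w x m V₁ V₂))
      ≤ m ^ (Sg.card - 1) := by
  haveI : NeZero m := ⟨ctx.hm.ne'⟩
  have h := card_quot_le_of_labels ((powSubgroup F m).subgroupOf (splitPure w x m V₁ V₂)) m
    (labHom E Sg ctx hSg) (by
      rintro u ⟨c₀, hc⟩
      rw [Subgroup.mem_subgroupOf]
      exact mem_powSubgroup_of_labFun_const E Sg ctx hSg hall u c₀ hc)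
  rwa [Fintype.card_coe] at h

end Map

end Two

end Fermat.Agent.S59.LoSqC.H193

end
-- ===== PACK-END S59/LoSqC/H193/LabelMap.lean

-- ===== PACK-BEGIN S36/H803/R3Asm.lean
section




/-!
# S36 / cell REG, route R3 — the ASSEMBLY `MU + DEG0 + GUB ⟹ TH1` (helper803)

`mu : MuStatement` (from `H438.mu_package`) and
`th1_of_leaves : Deg0Statement → GubStatement → Th1Statement`, sorry-free.
-/

set_option autoImplicit false
set_option linter.unusedSectionVars false
set_option linter.unusedVariables false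
set_option linter.style.haveILetI false
set_option synthInstance.maxHeartbeats 400000
set_option maxHeartbeats 1600000

noncomputable section

namespace Fermat.Agent.S36.H803

open ModularCurve Fermat.Agent.A2.Mod

variable (P : ValuationSubring Qb) (E : IntermediateField ℚ Qb) (M q : ℕ) [NeZero M] [NeZero q]
  (w : RE P E)

/-- A cut is determined by its valuation ring. -/
theorem isCut_unique {N : ℕ} {V : ValuationSubring (FE E N)}
    {B : Subalgebra (RE P E) (FE E N)} {p p' : Ideal B}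
    (h : IsCut P E N w V B p) (h' : IsCut P E N w V B p') : p = p' := by
  ext b
  rw [h b, h' b]

/-- The semistable chart with PRESCRIBED components. -/
theorem exists_ssChart_of_components (hyp : R3Hyp P E M q w)
    (p₁ p₂ : Ideal (Bfin P E M q)) (hcomp : IsComponents P E M q w p₁ p₂) :
    ∃ c : Fermat.Agent.A2.SSChart w (Bfin P E M q), c.p₁ = p₁ ∧ c.p₂ = p₂ := by
  obtain ⟨V, W, hV, hW, hc₁, hc₂⟩ := hcomp
  obtain ⟨VM, hVM⟩ := hyp.vinfM
  have hy' : IsCoord E M q (xE E M q) := Or.inl rfl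
  have hy : IsCoordPair E M q (jE E M 1 (one_dvd _)) (xE E M q) := Or.inl ⟨rfl, rfl⟩
  have hgood := (hyp.goodRed w VM hyp.setting.unif hVM).1
  obtain ⟨p₁', p₂', hc₁', hc₂', hp₁, hp₂, h₁₂, h₂₁, hinf⟩ :=
    hyp.s1 hyp.setting V W hV hW (xE E M q) hy'
  have e₁ : p₁' = p₁ := isCut_unique P E w hc₁' hc₁
  have e₂ : p₂' = p₂ := isCut_unique P E w hc₂' hc₂
  subst e₁ e₂
  obtain ⟨hn₁, hn₂⟩ :=
    hyp.s2 hyp.setting VM V W hVM hV hW _ (xE E M q) hy hgood p₁' p₂' hc₁ hc₂
  have hrad := hyp.s3 hyp.setting VM V W hVM hV hW _ (xE E M q) hy hgood p₁' p₂' hc₁ hc₂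
  exact ⟨{ p₁ := p₁'
           p₂ := p₂'
           prime₁ := hp₁
           prime₂ := hp₂
           ne := fun h => h₁₂ (h ▸ le_refl p₁')
           not_le₁₂ := h₁₂
           not_le₂₁ := h₂₁
           inf_eq := hinf
           normal₁ := hn₁
           normal₂ := hn₂
           transversal := hrad }, rfl, rfl⟩

/-- The chart context of the finite chart. -/
theorem chartCtx_bfin (hyp : R3Hyp P E M q w) :
    Fermat.Agent.A2.Alg.ChartCtx E w (xE E M q) (Bfin P E M q) := by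
  obtain ⟨hx, hfr, hconst⟩ := hyp.deg hyp.setting.q_prime hyp.setting.q_not_dvd
  have hpos : 0 < Module.finrank (IntermediateField.adjoin E ({xE E M q} : Set (FE E (M * q))))
      (FE E (M * q)) := by
    rw [hfr]
    have h1 := dedekindPsi_pos_of_ne_zero M (NeZero.ne M)
    positivity
  exact
    { hw := hyp.setting.unif
      hx := hx
      hfin := Module.finite_of_finrank_pos hpos
      hconst := hconst
      hB := fun _ => Iff.rfl }

/-- `D * D' = q ^ 12` in the chart. -/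
theorem mul_eq_of_isD {D D' : Bfin P E M q} (hD : IsD E M q (D : FE E (M * q)))
    (hD' : IsD' E M q (D' : FE E (M * q))) :
    D * D' = algebraMap (RE P E) (Bfin P E M q) (((q : ℕ) : RE P E) ^ 12) := by
  apply Subtype.ext
  apply Subtype.ext
  show ((D : FE E (M * q)) : LaurentSeries E) * ((D' : FE E (M * q)) : LaurentSeries E) = _
  rw [hD, hD', ← map_mul, mul_assoc, Fermat.Agent.S36.H438.unitL_mul_unitL', mul_one,
    map_pow, map_natCast]
  have h1 : (((algebraMap (RE P E) (Bfin P E M q) (((q : ℕ) : RE P E) ^ 12) : Bfin P E M q) :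
      FE E (M * q)) : LaurentSeries E)
      = algebraMap E (LaurentSeries E) ((((q : ℕ) : RE P E) ^ 12 : RE P E) : E) := rfl
  rw [h1]
  push_cast
  rfl

/-- `w⁻¹ ∉ V∞`. -/
theorem inv_cE_notMem (hyp : R3Hyp P E M q w) {V : ValuationSubring (FE E (M * q))}
    (hV : IsVinf P E (M * q) V) : (cE P E (M * q) w)⁻¹ ∉ V := by
  haveI := hyp.setting.dvr
  intro h
  have h1 : (cE P E (M * q) w)⁻¹ = algebraMap E (FE E (M * q)) ((w : E)⁻¹) := by
    rw [cE, map_inv₀]
  rw [h1, Fermat.Agent.A2.Mod.H708.algebraMap_mem_iff_of_isVinf hV] at h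
  -- `w` is then a unit of `R_E`
  have hw0 : (w : E) ≠ 0 := fun h0 => hyp.setting.unif.ne_zero (Subtype.ext h0)
  apply hyp.setting.unif.not_isUnit
  refine IsUnit.of_mul_eq_one ⟨(w : E)⁻¹, h⟩ ?_
  exact Subtype.ext (mul_inv_cancel₀ hw0)

/-- **Leaf MU**, from `H438.mu_package`. -/
theorem mu : MuStatement P E M q w := by
  intro hyp
  obtain ⟨D, D', hD, hD', -, hDB, hD'B, hinf, hzero, -⟩ :=
    Fermat.Agent.S36.H438.mu_package P E M q hyp.setting.q_prime
  refine ⟨⟨D, hDB⟩, ⟨D', hD'B⟩, hD, hD', ?_⟩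
  rintro p₁ p₂ ⟨V, W, hV, hW, hc₁, hc₂⟩
  constructor
  · intro hmem
    have h1 : InW P E (M * q) V w D' := (hc₁ ⟨D', hD'B⟩).1 hmem
    have h2 := V.mul_mem _ _ (hinf V hV).2 h1
    have hD'0 : D' ≠ 0 := by
      rintro rfl
      have := (hinf V hV).2
      rw [inv_zero] at this
      have h3 : InW P E (M * q) V w (0 : FE E (M * q)) := h1
      -- `D' = 0` contradicts `D * D' = q ^ 12 ≠ 0`; use the expansion instead
      have h4 := hD'
      have h5 : Fermat.Agent.S36.H438.castE E (Fermat.Agent.S28.unitL ℤ q) *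
          Fermat.Agent.S36.H438.castE E (Fermat.Agent.S28.H589.unitL' q) = 1 :=
        Fermat.Agent.S36.H438.castE_mul_castE' E q
      rw [← h4] at h5
      simp at h5
    unfold InW at h1
    rw [← mul_assoc, inv_mul_cancel₀ hD'0, one_mul] at h2
    exact inv_cE_notMem P E M q w hyp hV h2
  · intro hmem
    have h1 : InW P E (M * q) (V.comap (W : FE E (M * q) →+* FE E (M * q))) w D :=
      (hc₂ ⟨D, hDB⟩).1 hmem
    have hz := hzero V W hV hW
    have hD0 : D ≠ 0 := by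
      have hDe : D = Fermat.Agent.S36.H438.dE E (M * q) q (dvd_mul_left q M) := by
        apply Subtype.ext
        rw [Fermat.Agent.S36.H438.coe_dE]
        exact hD
      rw [hDe]
      exact Fermat.Agent.S36.H438.dE_ne_zero E (M * q) q (dvd_mul_left q M)
    have h2 := (V.comap (W : FE E (M * q) →+* FE E (M * q))).mul_mem _ _ hz.2 h1
    rw [← mul_assoc, inv_mul_cancel₀ hD0, one_mul] at h2
    have h3 : (W : FE E (M * q) →+* FE E (M * q)) (cE P E (M * q) w)⁻¹ ∈ V := h2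
    have h4 : (W : FE E (M * q) →+* FE E (M * q)) (cE P E (M * q) w)⁻¹
        = (cE P E (M * q) w)⁻¹ := by
      rw [map_inv₀]
      congr 1
      exact W.commutes _
    rw [h4] at h3
    exact inv_cE_notMem P E M q w hyp hV h3

/-- **R3 assembly**: `MU + DEG0 + GUB ⟹ TH1`. -/
theorem th1_of_leaves' (hMU : MuStatement P E M q w) (hDEG : Deg0Statement P E M q w)
    (hGUB : GubStatement P E M q w) : Th1Statement P E M q w := by
  intro hyp hunr hrig p₁ p₂ hcomp n hn
  haveI := hyp.setting.dvr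
  obtain ⟨c, rfl, rfl⟩ := exists_ssChart_of_components P E M q w hyp p₁ p₂ hcomp
  obtain ⟨D, D', hD, hD', hmu⟩ := hMU hyp
  obtain ⟨hD'₁, hD₂⟩ := hmu c.p₁ c.p₂ hcomp
  obtain ⟨s, hs, hsum⟩ := hDEG hyp D hD c.p₁ c.p₂ hcomp
  have hcount := hGUB hyp hrig c.p₁ c.p₂ hcomp s (fun n hn => (hs n).1 hn)
  obtain ⟨ε, hε, hq⟩ := hunr
  have hpair : ChartUnitPair w (Bfin P E M q) c D D' 12 :=
    { pos := by norm_num
      eq := ⟨algebraMap (RE P E) (Bfin P E M q) (ε ^ 12), (hε.pow 12).map _, by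
        rw [mul_eq_of_isD P E M q hD hD', hq, mul_pow, map_mul, map_pow, map_pow]⟩
      notMem₁ := hD'₁
      notMem₂ := hD₂ }
  exact th1_of_ssChart w (xE E M q) (Bfin P E M q) (chartCtx_bfin P E M q w hyp) c D D' 12 hpair s
    (fun n hn => (hs n).1 hn) _ hsum hcount n ((hs n).2 hn)

/-- **R3 assembly**: `DEG0 + GUB ⟹ TH1` (MU is `mu`). -/
theorem th1_of_leaves (hDEG : Deg0Statement P E M q w) (hGUB : GubStatement P E M q w) :
    Th1Statement P E M q w :=
  th1_of_leaves' P E M q w (mu P E M q w) hDEG hGUB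

end Fermat.Agent.S36.H803

end

end
-- ===== PACK-END S36/H803/R3Asm.lean

-- ===== PACK-BEGIN S59/H139/GubRank.lean
section









/-!
# S59 / cell (C) LO-SQ / W-COUNT / GUB — the RANK half on `C₀` (helper139)

Level `M * q`, finite chart `B = Bfin`, `p₂ = B ∩ w V₀` (`V₀ = V∞ ∘ W`), `j_q ∈ B`.

* `finrank_jE_one` : `[F_M : E(j)] = ψ(M)`;
* `exists_dep`     : any `ψ(M) + 1` elements of `F_M` are dependent over `E[j]`;
* `exists_normalise` : Gauss normalisation of a family of polynomials over the fraction field of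
  a valuation ring;
* `rank_zero`      : any `ψ(M) + 1` elements of `B` are dependent over `R[j_q]` modulo `p₂`, with
  a coefficient equal to `1` (residue degree one on `C₀`: L5, L7, L11, and `β j = j_q`);
* `transc_zero`    : `j_q` is transcendental modulo `p₂` (L3 for the polar element `W j_q = j_M`).
-/

set_option autoImplicit false
set_option linter.unusedSectionVars false
set_option linter.unusedVariables false
set_option linter.style.haveILetI false
set_option synthInstance.maxHeartbeats 400000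
set_option maxHeartbeats 1600000

noncomputable section

namespace Fermat.Agent.S59.H139.GubRank

open ModularCurve Fermat.Agent.A2.Mod Fermat.Agent.S36.H803 Polynomial IntermediateField

section Level

variable (E : IntermediateField ℚ Qb) (M : ℕ) [NeZero M]

/-- `[F_M : E(j)] = ψ(M)`. -/
theorem finrank_jE_one :
    Module.finrank (adjoin E ({jE E M 1 (one_dvd _)} : Set (FE E M))) (FE E M)
      = dedekindPsi M := by
  have hchar : ∀ p : ℕ, p.Prime → p ∣ M → ((p : ℕ) : E) ≠ 0 :=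
    fun p hp _ => Nat.cast_ne_zero.mpr hp.ne_zero
  have h1 : adjoin E {jE E M 1 (one_dvd _)}
      = (adjoin E {((jE E M 1 (one_dvd _) : FE E M) : LaurentSeries E)}).comap
          (FE E M).val := by
    have h0 : (adjoin E {jE E M 1 (one_dvd _)}).map (FE E M).val
        = adjoin E {((jE E M 1 (one_dvd _) : FE E M) : LaurentSeries E)} := by
      rw [adjoin_map, Set.image_singleton]
      rfl
    rw [← h0, comap_map]
  rw [h1, finrank_comap, fieldRange_val, H31.coe_jE, qExpand_one_apply, H31.FE_eq_fullC]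
  exact H31.relfinrank_j_fullC E M (NeZero.ne M) hchar

open scoped IntermediateField.algebraAdjoinAdjoin in
/-- Any `ψ(M) + 1` elements of `F_M` are linearly dependent over `E[j]`. -/
theorem exists_dep (g : Fin (dedekindPsi M + 1) → FE E M) :
    ∃ a : Fin (dedekindPsi M + 1) → Polynomial E,
      (∃ i, a i ≠ 0) ∧ ∑ i, aeval (jE E M 1 (one_dvd _)) (a i) * g i = 0 := by
  classical
  have hfr := finrank_jE_one E M
  have hpos : 0 < Module.finrank (adjoin E ({jE E M 1 (one_dvd _)} : Set (FE E M)))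
      (FE E M) := by
    rw [hfr]
    exact dedekindPsi_pos_of_ne_zero M (NeZero.ne M)
  haveI : FiniteDimensional (adjoin E ({jE E M 1 (one_dvd _)} : Set (FE E M))) (FE E M) :=
    Module.finite_of_finrank_pos hpos
  have hnli : ¬ LinearIndependent (adjoin E ({jE E M 1 (one_dvd _)} : Set (FE E M))) g := by
    intro hli
    have := hli.fintype_card_le_finrank
    rw [hfr, Fintype.card_fin] at this
    omega
  have hnli' : ¬ LinearIndependent
      (Algebra.adjoin E ({jE E M 1 (one_dvd _)} : Set (FE E M))) g := by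
    rwa [LinearIndependent.iff_fractionRing
      (Algebra.adjoin E ({jE E M 1 (one_dvd _)} : Set (FE E M)))
      (adjoin E ({jE E M 1 (one_dvd _)} : Set (FE E M)))]
  obtain ⟨c, hsum, i₀, hi₀⟩ := Fintype.not_linearIndependent_iff.mp hnli'
  have hc : ∀ i, ∃ a : Polynomial E, aeval (jE E M 1 (one_dvd _)) a = (c i : FE E M) := by
    intro i
    have h1 := (c i).2
    have h2 : (c i : FE E M) ∈ (aeval (R := E) (jE E M 1 (one_dvd _))).range := by
      rw [← Algebra.adjoin_singleton_eq_range_aeval]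
      exact h1
    exact (AlgHom.mem_range _).mp h2
  choose a ha using hc
  refine ⟨a, ⟨i₀, ?_⟩, ?_⟩
  · intro h0
    apply hi₀
    apply Subtype.ext
    rw [← ha i₀, h0, map_zero]
    rfl
  · rw [← hsum]
    refine Finset.sum_congr rfl fun i _ => ?_
    rw [ha i]
    rfl

end Level

section Normalise

/-- **Gauss normalisation.**  A family of polynomials over the fraction field `K` of a valuation
ring `R`, not all zero, can be scaled to a family over `R` with a coefficient equal to `1`. -/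
theorem exists_normalise {K : Type*} [Field K] (R : ValuationSubring K) {n : ℕ}
    (a : Fin n → Polynomial K) (h : ∃ i, a i ≠ 0) :
    ∃ (e₀ : K) (a' : Fin n → Polynomial R), e₀ ≠ 0 ∧
      (∀ i, (a' i).map R.subtype = C e₀⁻¹ * a i) ∧ ∃ i l, (a' i).coeff l = 1 := by
  classical
  obtain ⟨i₁, hi₁⟩ := h
  obtain ⟨D, hD⟩ : ∃ D : ℕ, ∀ i, (a i).natDegree ≤ D :=
    ⟨Finset.univ.sup (fun i => (a i).natDegree),
      fun i => Finset.le_sup (f := fun i => (a i).natDegree) (Finset.mem_univ i)⟩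
  obtain ⟨e, he⟩ : ∃ e : Fin n × Fin (D + 1) → K, ∀ t, e t = (a t.1).coeff t.2 := ⟨_, fun _ => rfl⟩
  obtain ⟨t₀, -, hmax⟩ := Finset.exists_max_image Finset.univ (fun t => R.valuation (e t))
    ⟨(i₁, 0), Finset.mem_univ _⟩
  have ht₁ : e (i₁, ⟨(a i₁).natDegree, Nat.lt_succ_of_le (hD i₁)⟩) ≠ 0 := by
    rw [he]
    show (a i₁).coeff (a i₁).natDegree ≠ 0
    rw [Polynomial.coeff_natDegree]
    exact Polynomial.leadingCoeff_ne_zero.mpr hi₁
  have he₀ : e t₀ ≠ 0 := by
    intro h0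
    have := hmax _ (Finset.mem_univ (i₁, ⟨(a i₁).natDegree, Nat.lt_succ_of_le (hD i₁)⟩))
    rw [h0, map_zero] at this
    exact ht₁ ((_root_.map_eq_zero _).mp (le_antisymm this zero_le))
  have hv₀ : R.valuation (e t₀) ≠ 0 := (_root_.map_ne_zero _).mpr he₀
  have hmem : ∀ i l, (a i).coeff l / e t₀ ∈ R := by
    intro i l
    by_cases hl : l < D + 1
    · have := hmax (i, ⟨l, hl⟩) (Finset.mem_univ _)
      rw [he] at this
      rw [← R.valuation_le_one_iff, map_div₀]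
      exact (div_le_one₀ (zero_lt_iff.mpr hv₀)).mpr this
    · have : (a i).coeff l = 0 :=
        Polynomial.coeff_eq_zero_of_natDegree_lt (by have := hD i; omega)
      rw [this, zero_div]
      exact R.zero_mem
  obtain ⟨a', ha'⟩ : ∃ a' : Fin n → Polynomial R, ∀ i, a' i =
      ∑ l : Fin (D + 1), Polynomial.monomial (l : ℕ) (⟨(a i).coeff l / e t₀, hmem i l⟩ : R) :=
    ⟨_, fun _ => rfl⟩
  have hcoeff : ∀ i l, (a' i).coeff l = (⟨(a i).coeff l / e t₀, hmem i l⟩ : R) := by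
    intro i l
    rw [ha', Polynomial.finsetSum_coeff]
    by_cases hl : l < D + 1
    · rw [Finset.sum_eq_single (⟨l, hl⟩ : Fin (D + 1))]
      · rw [Polynomial.coeff_monomial, if_pos rfl]
      · intro l' _ hne
        rw [Polynomial.coeff_monomial, if_neg]
        intro h
        exact hne (Fin.ext h)
      · intro h
        exact absurd (Finset.mem_univ _) h
    · have h0 : (a i).coeff l = 0 :=
        Polynomial.coeff_eq_zero_of_natDegree_lt (by have := hD i; omega)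
      rw [Finset.sum_eq_zero]
      · apply Subtype.ext
        show (0 : K) = (a i).coeff l / e t₀
        rw [h0, zero_div]
      · intro l' _
        rw [Polynomial.coeff_monomial, if_neg]
        intro h
        exact hl (h ▸ l'.2)
  refine ⟨e t₀, a', he₀, fun i => ?_, t₀.1, t₀.2, ?_⟩
  · ext l
    rw [Polynomial.coeff_map, hcoeff, Polynomial.coeff_C_mul]
    show (a i).coeff l / e t₀ = (e t₀)⁻¹ * (a i).coeff l
    rw [div_eq_inv_mul]
  · rw [hcoeff]
    apply Subtype.ext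
    show (a t₀.1).coeff t₀.2 / e t₀ = 1
    rw [← he, div_self he₀]

end Normalise

section Zero

variable (P : ValuationSubring Qb) (E : IntermediateField ℚ Qb) (M q : ℕ) [NeZero M] [NeZero q]
  (w : RE P E)

/-- `InW` is closed under finite sums. -/
theorem inW_sum {N : ℕ} {V : ValuationSubring (FE E N)} {ι : Type*} (s : Finset ι)
    (f : ι → FE E N) (h : ∀ i ∈ s, InW P E N V w (f i)) : InW P E N V w (∑ i ∈ s, f i) := by
  unfold InW at h ⊢
  rw [Finset.sum_mul]
  exact sum_mem h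

/-- **RANK on `C₀`.**  Any `ψ(M) + 1` elements of the finite chart are linearly dependent over
`R[j_q]` modulo `p₂`, with a coefficient equal to `1`. -/
theorem rank_zero (hyp : R3Hyp P E M q w) (p₁ p₂ : Ideal (Bfin P E M q))
    (hcomp : IsComponents P E M q w p₁ p₂) (jq : Bfin P E M q)
    (hjq : (jq : FE E (M * q)) = jE E (M * q) q (dvd_mul_left q M))
    (f : Fin (dedekindPsi M + 1) → Bfin P E M q) :
    ∃ c : Fin (dedekindPsi M + 1) → Polynomial (RE P E),
      (∃ i l, (c i).coeff l = 1) ∧ ∑ i, aeval jq (c i) * f i ∈ p₂ := by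
  classical
  have hS := hyp.setting
  haveI := hS.dvr
  obtain ⟨V, W, hV, hW, hc₁, hc₂⟩ := hcomp
  obtain ⟨VM, hVM⟩ := hyp.vinfM
  have hN : M * q ≠ 0 := Nat.mul_ne_zero hS.M_ne_zero hS.q_prime.ne_zero
  haveI : NeZero (M * q) := ⟨hN⟩
  have hL2 := H553.vinfBasic P E w (M * q) hN hS.dvr hS.unif V hV
  have hWM := H751.isFricke_frickeE E M
  have hL5 := H751.frickeCompat E M q (H751.frickeE E M) W hWM hW
  have hL7 := H900.frickeStable P E M q w
  have hL11 := H378.resInf P E M q w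
  have hover := H13.isOver_comap hV W
  have hWjq : W (jE E (M * q) q (dvd_mul_left q M)) = jE E (M * q) M (dvd_mul_right M q) :=
    hW.1 q M (dvd_mul_left q M) (dvd_mul_right M q) (mul_comm q M)
  have hWj : W (jE E (M * q) 1 (one_dvd _)) = jE E (M * q) (M * q) dvd_rfl :=
    hW.1 1 (M * q) (one_dvd _) dvd_rfl (one_mul _)
  have hxV₀ : xE E M q ∈ V.comap (W : FE E (M * q) →+* FE E (M * q)) := by
    rw [ValuationSubring.mem_comap]
    show W (xE E M q) ∈ V
    rw [xE, map_mul, hWj, hWjq]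
    exact V.mul_mem _ _ (hL2.2.2 (M * q) dvd_rfl).1 (hL2.2.2 M (dvd_mul_right M q)).1
  have hBV₀ : ∀ b : Bfin P E M q,
      (b : FE E (M * q)) ∈ V.comap (W : FE E (M * q) →+* FE E (M * q)) := fun b =>
    H372.mem_of_isIntegralElem _ (algebraMap (RE P E) (FE E (M * q))) (xE E M q)
      (fun r => hover.mem r) hxV₀ (H372.mem_chartAlg_iff.mp b.2)
  -- residue degree one on `C₀`
  have hres : ∀ f ∈ V.comap (W : FE E (M * q) →+* FE E (M * q)), ∃ g ∈ VM,
      InW P E (M * q) (V.comap (W : FE E (M * q) →+* FE E (M * q))) w (f - βE E M q g) := by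
    intro f hf
    rw [ValuationSubring.mem_comap] at hf
    obtain ⟨g', hg', h⟩ := hL11 hS VM V hVM hV (W f) hf
    refine ⟨H751.frickeE E M g', hL7 hS VM (H751.frickeE E M) hVM hWM g' hg', ?_⟩
    rw [H142.inW_comap_iff, map_sub, (hL5 _).2, hWM.2]
    exact h
  choose g hgV hg using fun i => hres (f i : FE E (M * q)) (hBV₀ (f i))
  obtain ⟨a, ha0, hasum⟩ := exists_dep E M g
  obtain ⟨e₀, a', he₀, hmap, hone⟩ := exists_normalise (RE P E) a ha0
  refine ⟨a', hone, ?_⟩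
  rw [hc₂]
  have hβj : βE E M q (jE E M 1 (one_dvd _)) = jE E (M * q) q (dvd_mul_left q M) := by
    rw [H751.beta_jE E M q 1 (one_dvd M)]
    exact H751.jE_congr E (M * q) (mul_one q) _ _
  have hev : ∀ i, ((aeval jq (a' i) : Bfin P E M q) : FE E (M * q)) =
      algebraMap E (FE E (M * q)) e₀⁻¹ *
        βE E M q (aeval (jE E M 1 (one_dvd _)) (a i)) := by
    intro i
    rw [Polynomial.aeval_subalgebra_coe, hjq, ← Polynomial.aeval_algHom_apply, hβj]
    have h1 : aeval (jE E (M * q) q (dvd_mul_left q M)) (a' i)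
        = aeval (jE E (M * q) q (dvd_mul_left q M)) ((a' i).map (RE P E).subtype) := by
      rw [Polynomial.aeval_def, Polynomial.aeval_def, Polynomial.eval₂_map]
      rfl
    rw [h1, hmap, map_mul, Polynomial.aeval_C]
  have h0 : ∑ i, ((aeval jq (a' i) : Bfin P E M q) : FE E (M * q)) * βE E M q (g i) = 0 := by
    calc ∑ i, ((aeval jq (a' i) : Bfin P E M q) : FE E (M * q)) * βE E M q (g i)
        = algebraMap E (FE E (M * q)) e₀⁻¹ *
            βE E M q (∑ i, aeval (jE E M 1 (one_dvd _)) (a i) * g i) := by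
          rw [map_sum, Finset.mul_sum]
          refine Finset.sum_congr rfl fun i _ => ?_
          rw [hev i, map_mul, mul_assoc]
      _ = 0 := by rw [hasum, map_zero, mul_zero]
  have hcoe : ((∑ i, aeval jq (a' i) * f i : Bfin P E M q) : FE E (M * q)) =
      ∑ i, ((f i : FE E (M * q)) - βE E M q (g i)) *
        ((aeval jq (a' i) : Bfin P E M q) : FE E (M * q)) := by
    have h2 : ∑ i, ((f i : FE E (M * q)) - βE E M q (g i)) *
        ((aeval jq (a' i) : Bfin P E M q) : FE E (M * q))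
        = ∑ i, ((aeval jq (a' i) : Bfin P E M q) : FE E (M * q)) * (f i : FE E (M * q))
          - ∑ i, ((aeval jq (a' i) : Bfin P E M q) : FE E (M * q)) * βE E M q (g i) := by
      rw [← Finset.sum_sub_distrib]
      refine Finset.sum_congr rfl fun i _ => ?_
      ring
    rw [h2, h0, sub_zero]
    push_cast
    rfl
  rw [hcoe]
  refine inW_sum P E w _ _ fun i _ => ?_
  exact H142.inW_mul_right (hg i) (hBV₀ _)

/-- **Transcendence of `j_q` on `C₀`.**  A polynomial over `R` whose value at `j_q` lies in `p₂`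
vanishes modulo the maximal ideal. -/
theorem transc_zero (hyp : R3Hyp P E M q w) (p₁ p₂ : Ideal (Bfin P E M q))
    (hcomp : IsComponents P E M q w p₁ p₂) (jq : Bfin P E M q)
    (hjq : (jq : FE E (M * q)) = jE E (M * q) q (dvd_mul_left q M))
    (a : Polynomial (RE P E)) (ha : aeval jq a ∈ p₂) :
    a.map (IsLocalRing.residue (RE P E)) = 0 := by
  have hS := hyp.setting
  haveI := hS.dvr
  obtain ⟨V, W, hV, hW, hc₁, hc₂⟩ := hcomp
  have hN : M * q ≠ 0 := Nat.mul_ne_zero hS.M_ne_zero hS.q_prime.ne_zero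
  haveI : NeZero (M * q) := ⟨hN⟩
  have hL2 := H553.vinfBasic P E w (M * q) hN hS.dvr hS.unif V hV
  have hU0 := H142.isUnif_comap W hL2.1
  have hWjq : W (jE E (M * q) q (dvd_mul_left q M)) = jE E (M * q) M (dvd_mul_right M q) :=
    hW.1 q M (dvd_mul_left q M) (dvd_mul_right M q) (mul_comm q M)
  have hpolar : H13.IsPolar E (M * q) (W (jE E (M * q) q (dvd_mul_left q M))) M := by
    rw [hWjq]
    exact H13.isPolar_jE M (dvd_mul_right M q)
  have htr : Transcendental E (W (jE E (M * q) q (dvd_mul_left q M))) := by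
    rw [hWjq]
    exact Fermat.Agent.S36.H153.transcendental_jE' (M * q) M (dvd_mul_right M q)
  have hG : Fermat.Agent.A2.H489.IsGaussOver (RE P E)
      (V.comap (W : FE E (M * q) →+* FE E (M * q))) (jE E (M * q) q (dvd_mul_left q M)) :=
    H13.isGaussOver_comap hV W
      (H13.isGaussOver_of_polar hV hS.unif hN (Nat.pos_of_ne_zero hS.M_ne_zero) hpolar
        (H13.transcendental_RE htr))
  apply hG.prim a
  rw [← H13.inW_iff_mem_nonunits hU0]
  have := (hc₂ _).mp ha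
  rwa [Polynomial.aeval_subalgebra_coe, hjq] at this

end Zero

end Fermat.Agent.S59.H139.GubRank

end

end
-- ===== PACK-END S59/H139/GubRank.lean

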