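import Mathlib
import Fermat.Agent.Pack.S59C.E10L1
import Fermat.Agent.Pack.S59C.E7L2
import Fermat.Agent.Pack.S43MC.G0E26L2
import Fermat.Agent.Pack.S59C.E10L2
import Fermat.Agent.Pack.S59C.E9L3
import Fermat.Agent.Pack.S59C.E8L0
import Fermat.Agent.Pack.S59C.E9L1
import Fermat.Agent.Pack.S59C.E9L0
import Fermat.Agent.Pack.S59C.E6L1
import Fermat.Agent.Pack.S44C.G0E27L0
import Fermat.Agent.Pack.S44C.G0E28L1
import Fermat.Agent.Pack.S44C.G0E16L0
import Fermat.Agent.Pack.S44C.G0E10L2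
import Fermat.Agent.Pack.S59C.E6L2
import Fermat.Agent.Pack.S59C.E7L0
import Fermat.Agent.Pack.S43MC.G0E27L3
import Fermat.Agent.Pack.S43MC.G0E26L1
import Fermat.Agent.Pack.S59C.E10L3
import Fermat.Agent.Pack.S43MC.G0E10L2
import Fermat.Agent.Pack.S59C.E10L0
import Fermat.Agent.Pack.S59C.E8L3
import Fermat.Agent.Pack.S59C.E2L1
import Fermat.Agent.Pack.S43MC.G0E23L0
import Fermat.Agent.Pack.S43MC.G0E7L2
import Fermat.Agent.Pack.S44C.G0E26L0
import Fermat.Agent.Pack.S59C.E1L0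

set_option linter.all false

-- ===== PACK-BEGIN S59/TW/H314/GalT.lean
section


/-!
# Row S59, cell TW, layer 4: leaf GAL-T  (helper314)

`galT : S30Statement → S35Statement → GalTStatement`: at a newform point `emb : T_Q → O'` of a
level `M` with `q_j² ∤ M` the inertia value at `q_j` is `1`.

* `q_j ∤ M`: the representation `ρ''` of the frozen S30 (level `M`, character `iota ∘ chig`) is
  unramified at `q_j` and has the traces of `ρ_Q` (`newPt_trace_transfer`), so
  `(a - b) w = tr ρ''(φ σ) - b tr ρ''(σ) = (a + b) - 2 b = a - b`.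
* `q_j ∥ M`: by the frozen S35, `tr ρ''(φ) = ± (q_j + 1)`, and `det ρ_Q(φ) = q_j`, so
  `(a - b)² = (q_j - 1)²` is not a unit: contradiction with `IsInertiaValue`.
-/

set_option autoImplicit false
set_option linter.style.haveILetI false

open Polynomial IsLocalRing CongruenceSubgroup
open scoped MatrixGroups

namespace Fermat.Agent.S59.TW.H314

open Fermat.Agent.S59.Arch Fermat.Agent.S59.TW.H959 Fermat.Agent.S59.TW.H653
  Fermat.Agent.S59.TW.Aut

/-- **GAL-T.** -/
theorem galT (h30 : Fermat.Agent.S31.S30Statement) (h35 : Fermat.Agent.S58.S35Statement) :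
    GalTStatement := by
  intro p hpF 𝒪 _ _ _ _ _ _ ρbar Smin h t _ n r qv hq _ PQ j P hP φ hφ σ hσ a₀ w hw
    O' _ _ _ _ _ _ emb hemb hnew
  obtain ⟨M, hM0, g, hg, hM2, hMS, chig, iota, hchig, hcompat⟩ := hnew
  have hprime : ∀ j, (qv j).Prime := fun j => (hq.2.1 j).1
  obtain ⟨hqprime, hqS, hqdvd⟩ := hq.2.1 j
  have hqp : qv j ≠ p := fun e => hqS (e ▸ h.hpSmin)
  have hpq : p ∣ qv j - 1 := dvd_trans (dvd_pow_self p (Nat.succ_ne_zero n)) hqdvd
  have hpS : p ∈ Smin ∪ Finset.univ.image qv := Finset.mem_union_left _ h.hpSmin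
  have hdetQ : PQ.H.ρ.DetIsCyclotomic p := by
    have h1 := PQ.hcond.1
    cases t <;> exact h1.1
  -- `p` is in the maximal ideal of `O'`
  have hpO' : (p : O') ∈ maximalIdeal O' := by
    rw [mem_maximalIdeal, mem_nonunits_iff]
    intro hu
    have h1 : IsUnit (emb (p : PQ.T)) := by rwa [map_natCast]
    haveI := hemb
    have h2 : IsUnit (p : PQ.T) := isUnit_of_map_unit emb _ h1
    exact hdetQ.1 h2
  obtain ⟨a, b, hu, htr, hdet, hform⟩ := inertiaValue_data hw
  by_cases hqM : qv j ∣ M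
  · -- `q_j ∥ M`: impossible
    exfalso
    obtain ⟨O'', _, _, _, _, _, _, _, _, _, hinj, ρ'', hρ, hbad⟩ :=
      h35 hg p (Smin ∪ Finset.univ.image qv) O' hpO' chig hchig iota hpS hMS
    have htrans := newPt_trace_transfer PQ h.hSmin h.hpSmin hprime emb hemb hMS chig iota hcompat
      ρ'' (fun ℓ hℓ _ hℓM hℓS => hρ ℓ hℓ hℓM hℓS)
    have hpO'' : (p : O'') ∈ maximalIdeal O'' := by
      rw [mem_maximalIdeal, mem_nonunits_iff]
      intro hu
      have h1 : IsUnit (algebraMap O' O'' (p : O')) := by rwa [map_natCast]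
      exact hpO' (isUnit_of_map_unit (algebraMap O' O'') _ h1)
    -- the trace of `ρ''(φ)`
    have hc : ρ''.trace φ = ((qv j : O'') + 1) ∨ ρ''.trace φ = -((qv j : O'') + 1) := by
      rcases hbad (qv j) hqprime hqp hqM hM2 P hP φ hφ with hc | hc
      · left
        exact Fermat.Agent.S59.H765.trace_eq_of_charpoly ρ''.finrank_eq _ _ _ hc
      · right
        refine Fermat.Agent.S59.H765.trace_eq_of_charpoly ρ''.finrank_eq _ _ (qv j : O'') ?_
        rw [hc, map_neg, neg_mul, sub_neg_eq_add]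
    have hsum : algebraMap O' O'' (emb a) + algebraMap O' O'' (emb b) = ρ''.trace φ := by
      rw [← htrans φ, htr, map_add, map_add]
    have hprod : algebraMap O' O'' (emb a) * algebraMap O' O'' (emb b) = (qv j : O'') := by
      rw [← map_mul, ← map_mul, ← hdet,
        det_frob_eq PQ.H.ρ hpF.out hqprime hqp hdetQ hP hφ, map_natCast, map_natCast]
    have hsq : (algebraMap O' O'' (emb (a - b))) ^ 2 = ((qv j : O'') - 1) ^ 2 := by
      have h1 : (algebraMap O' O'' (emb (a - b))) ^ 2 =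
          (algebraMap O' O'' (emb a) + algebraMap O' O'' (emb b)) ^ 2 -
            4 * (algebraMap O' O'' (emb a) * algebraMap O' O'' (emb b)) := by
        rw [map_sub, map_sub]
        ring
      rw [h1, hsum, hprod]
      rcases hc with hc | hc <;> rw [hc] <;> ring
    have hunit : IsUnit ((algebraMap O' O'' (emb (a - b))) ^ 2) :=
      ((hu.map emb).map (algebraMap O' O'')).pow 2
    have hmem : ((qv j : O'') - 1) ^ 2 ∈ maximalIdeal O'' := by
      obtain ⟨k, hk⟩ := hpq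
      have h1 : ((qv j : O'') - 1) = (p : O'') * (k : O'') := by
        have h2 : qv j = p * k + 1 := by
          have := hqprime.one_lt
          omega
        rw [h2]
        push_cast
        ring
      rw [h1, sq]
      exact Ideal.mul_mem_right _ _ (Ideal.mul_mem_right _ _ hpO'')
    rw [hsq] at hunit
    exact hmem hunit
  · -- `q_j ∤ M`: unramified
    obtain ⟨O'', _, _, _, _, _, _, _, _, _, hinj, ρ'', hρ, hunr⟩ :=
      h30 p M (Smin ∪ Finset.univ.image qv) hpS hMS O' hpO' (iota.comp chig.rangeRestrict)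
    have htrans := newPt_trace_transfer PQ h.hSmin h.hpSmin hprime emb hemb hMS chig iota hcompat
      ρ'' (fun ℓ hℓ _ hℓM hℓS => hρ ℓ hℓ hℓM hℓS)
    have hσ1 : ρ''.ρ σ = 1 := hunr (qv j) hqprime hqM hqp P hP σ hσ
    have h1 : ρ''.trace (φ * σ) = ρ''.trace φ := by
      unfold GaloisRepAdic.trace
      rw [map_mul, hσ1, mul_one]
    have h2 : ρ''.trace σ = 2 := by
      unfold GaloisRepAdic.trace
      rw [hσ1, LinearMap.trace_one, ρ''.finrank_eq]
      norm_num
    have h3 : algebraMap O' O'' (emb (a - b)) * algebraMap O' O'' (emb w) =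
        algebraMap O' O'' (emb (a - b)) := by
      rw [← map_mul, ← map_mul, hform, map_sub, map_sub, map_mul, map_mul, htrans, htrans, h1,
        h2, ← htrans φ, htr, map_add, map_add, map_sub, map_sub]
      ring
    have hunit : IsUnit (algebraMap O' O'' (emb (a - b))) := (hu.map emb).map (algebraMap O' O'')
    have h4 : algebraMap O' O'' (emb w) = 1 := by
      have := hunit.mul_left_cancel (b := algebraMap O' O'' (emb w)) (c := 1)
        (by rw [h3, mul_one])
      exact this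
    apply hinj
    rw [h4, map_one]

end Fermat.Agent.S59.TW.H314

end
-- ===== PACK-END S59/TW/H314/GalT.lean

-- ===== PACK-BEGIN S59/TW/H314/CmpWire.lean
section




/-!
# Row S59, cell TW, layer 3 leaf CMP: the wiring  (helper314)

`cmp_of_dict`: the leaf `Aut.CmpStatement` from the leaf FREE, the two automorphic dictionary
leaves DICT-T / DICT-R (`CmpSpec.lean`) and the frozen statements S30, S35, S36
(GAL-T: `GalT.lean`; GAL-R: `TW/H788/GalR.lean`, helper788).
-/

set_option autoImplicit false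

namespace Fermat.Agent.S59.TW.H314

open Fermat.Agent.S59.TW.Aut

/-- **Leaf CMP from FREE + DICT-T + DICT-R + S30 + S35 + S36.** -/
theorem cmp_of_dict (free : FreeQStatement) (dT : DictTStatement) (dR : DictRStatement)
    (h30 : Fermat.Agent.S31.S30Statement) (h35 : Fermat.Agent.S58.S35Statement)
    (h36 : Fermat.Agent.S58.S36Statement) : CmpStatement :=
  cmp_of_leaves free dT dR (galT h30 h35) (Fermat.Agent.S59.TW.H788.galR788 h36)

end Fermat.Agent.S59.TW.H314

end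
-- ===== PACK-END S59/TW/H314/CmpWire.lean

-- ===== PACK-BEGIN S17/H871/ZRat.lean
section


/-!
# S17 / G-DIV, pieces ZRAT and CUSPRAT (and the standing facts about `F_L`)

For every algebraically closed field `L` of characteristic zero:
* `transcendental_tL`, `finiteDimensional_tL`, `ff1_FL` : `t = j` is transcendental over `L`,
  `F_L` is finite over `L(t)`, and `F_L` satisfies the standing hypotheses `FF1` of `Lib/RR`;
* `stmtZRAT : StmtZRAT N L` : the zeros and poles of a function with coefficients in a subfield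
  `K₁`, algebraically closed in `L`, are rational over `K₁`;
* `stmtCUSPRAT : StmtCUSPRAT N L`.

Method for ZRAT: `F_L` is the constant field extension of `F_{K₁}` (`S29/H871`), a function with
coefficients in `K₁` comes from `F_{K₁}` (`S29/H32`), a place of `F_L` which is nontrivial on
`F_{K₁}` is a base change (`exists_bcPlace_eq`), and base-changed places are rational.

(helper871)
-/

set_option autoImplicit false
set_option linter.unusedSectionVars false

noncomputable section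

namespace Fermat.Agent.S17.H871

open AlgebraicCurve ModularCurve IntermediateField
open Fermat.Agent.Lib.RR Fermat.Agent.S17.H680 Fermat.Agent.S17.GDiv Fermat.Agent.S24

section Tower

variable (k L : Type) [Field k] [Field L] [Algebra ℚ k] [Algebra ℚ L] [Algebra k L]

/-- The tower `ℚ ⊆ k ⊆ L` is automatically compatible. -/
theorem isScalarTower_rat_gen : IsScalarTower ℚ k L :=
  IsScalarTower.of_algebraMap_eq fun q => by
    have h : algebraMap ℚ L = (algebraMap k L).comp (algebraMap ℚ k) := Subsingleton.elim _ _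
    exact congrFun (congrArg DFunLike.coe h) q

/-- A `ℚ`-algebra which is a field has characteristic zero. -/
theorem charZero_gen (L : Type) [Field L] [Algebra ℚ L] : CharZero L := algebraRat.charZero L

end Tower

section Generic

variable (N : ℕ) [NeZero N] (k L : Type) [Field k] [Field L] [Algebra ℚ k] [Algebra ℚ L]
  [Algebra k L] [IsAlgClosed k] [IsAlgClosed L]

attribute [local instance] Fermat.Agent.S29.H871.lbcAlgebra Fermat.Agent.S29.H871.lbcAlgebraBase
  Fermat.Agent.S29.H871.lbc_isScalarTower₁ Fermat.Agent.S29.H871.lbc_isScalarTower₂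
  Fermat.Agent.S29.H871.isConstExt_lbc isScalarTower_rat_gen charZero_gen

theorem algebraMap_bcQ_gen (u : modularFunctionFieldFull N) :
    algebraMap (FL N k) (FL N L) (bcQ N k u) = bcQ N L u := by
  apply Subtype.ext
  show coeffMap (algebraMap k L) (coeffEmb k (u : LaurentSeries ℚ))
    = coeffEmb L (u : LaurentSeries ℚ)
  exact Fermat.Agent.S29.H32.coeffMap_coeffEmb_up _

theorem algebraMap_tL_gen : algebraMap (FL N k) (FL N L) (tL N k) = tL N L :=
  algebraMap_bcQ_gen N k L (jQ N)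

theorem algebraMap_const_gen (c : k) :
    algebraMap (FL N k) (FL N L) (algebraMap k (FL N k) c)
      = algebraMap L (FL N L) (algebraMap k L c) := by
  rw [← IsScalarTower.algebraMap_apply k (FL N k) (FL N L),
    IsScalarTower.algebraMap_apply k L (FL N L)]

open Fermat.Agent.S29.H871 in
/-- Base-changed places are rational over the image of `k`. -/
theorem isRationalOver_bcPlace_gen [FiniteDimensional k⟮tL N k⟯ (FL N k)]
    (ht : Transcendental k (tL N k)) (v : Place k (FL N k)) :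
    IsRationalOver (algebraMap k L).fieldRange (bcPlace L (FL N L) ht v) := by
  intro u c hc
  set P := bcPlace L (FL N L) ht v with hP
  have hc' : InMax P (bcQ N L u - algebraMap L (FL N L) c) := hc
  have h1 : bcQ N L u ∈ P.toValuationSubring := by
    have h2 : bcQ N L u - algebraMap L (FL N L) c ∈ P.toValuationSubring := by
      rcases hc' with h | h
      · rw [h]; exact zero_mem _
      · exact FF.mem_of_ord_nonneg P h.le
    have h3 := add_mem h2 (P.algebraMap_mem' c)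
    rwa [sub_add_cancel] at h3
  have h4 : bcQ N k u ∈ v.toValuationSubring := by
    apply FF.mem_of_ord_nonneg
    rw [← ord_bcPlace (K' := L) (F' := FL N L) ht v, algebraMap_bcQ_gen]
    exact FF.ord_nonneg_of_mem P h1
  obtain ⟨a, ha⟩ := FF.exists_const_sub_mem_nonunits v ht h4
  have h5 : InMax P (bcQ N L u - algebraMap L (FL N L) (algebraMap k L a)) := by
    rw [← algebraMap_bcQ_gen N k L, ← algebraMap_const_gen, ← map_sub]
    by_cases h0 : bcQ N k u - algebraMap k (FL N k) a = 0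
    · left; rw [h0, map_zero]
    · right
      rw [hP, ord_bcPlace]
      exact (FF.ord_pos_iff_mem_nonunits v h0).mpr ha
  have h6 : InMax P (algebraMap L (FL N L) (algebraMap k L a - c)) := by
    have := hc'.sub h5
    rwa [sub_sub_sub_cancel_left, ← map_sub] at this
  have h7 := h6.const_eq_zero
  exact ⟨a, sub_eq_zero.mp h7⟩

open Fermat.Agent.S29.H871 in
/-- The zeros and poles of a function coming from `F_k` are rational over the image of `k`. -/
theorem isRationalOver_of_ord_ne_zero [FiniteDimensional k⟮tL N k⟯ (FL N k)]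
    (ht : Transcendental k (tL N k)) (f₀ : FL N k) {P : Place L (FL N L)}
    (hP : P.ord (algebraMap (FL N k) (FL N L) f₀) ≠ 0) :
    IsRationalOver (algebraMap k L).fieldRange P := by
  obtain ⟨v, rfl⟩ := exists_bcPlace_eq ht P ⟨f₀, hP⟩
  exact isRationalOver_bcPlace_gen N k L ht v

end Generic

section Standing

variable (N : ℕ) [NeZero N] (L : Type) [Field L] [Algebra ℚ L] [IsAlgClosed L]

attribute [local instance] Fermat.Agent.S29.H871.lbcAlgebra Fermat.Agent.S29.H871.lbcAlgebraBase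
  Fermat.Agent.S29.H871.lbc_isScalarTower₁ Fermat.Agent.S29.H871.lbc_isScalarTower₂
  Fermat.Agent.S29.H871.isConstExt_lbc isScalarTower_rat_gen charZero_gen

theorem isAlgebraic_Qb : @Algebra.IsAlgebraic ℚ Qb _ _ (inferInstance : Algebra ℚ Qb) := by
  have h : (inferInstance : Algebra ℚ Qb) =
      (AlgebraicClosure.instAlgebra ℚ : Algebra ℚ (AlgebraicClosure ℚ)) := Subsingleton.elim _ _
  rw [h]
  infer_instance

/-- An embedding `ℚ̄ → L`. -/
@[reducible] def algebraQb : Algebra Qb L :=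
  have : CharZero L := charZero_gen L
  have := isAlgebraic_Qb
  ((IsAlgClosed.lift : Qb →ₐ[ℚ] L) : Qb →+* L).toAlgebra

open Fermat.Agent.S29.H871 in
/-- `t = j` is transcendental over `L`. -/
theorem transcendental_tL : Transcendental L (tL N L) := by
  let _ := algebraQb L
  have hfd : FiniteDimensional Qb⟮jF N⟯ (FF N) := Fermat.Agent.Lib.RR.H804.finiteDimensional_jF N
  have h := transcendental_algebraMap (K' := L) (F' := FL N L)
    (Fermat.Agent.Lib.RR.H804.transcendental_jF N)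
  rwa [algebraMap_jF] at h

open Fermat.Agent.S29.H871 in
/-- `F_L` is finite over `L(t)`. -/
theorem finiteDimensional_tL : FiniteDimensional L⟮tL N L⟯ (FL N L) := by
  let _ := algebraQb L
  have hfd : FiniteDimensional Qb⟮jF N⟯ (FF N) := Fermat.Agent.Lib.RR.H804.finiteDimensional_jF N
  have h := finiteDimensional_adjoin_algebraMap (K := Qb) (K' := L) (F' := FL N L) (jF N)
  rwa [algebraMap_jF] at h

/-- `F_L` satisfies the standing hypotheses of `Lib/RR`, for every algebraically closed field `L`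
of characteristic zero. -/
theorem ff1_FL : FF1 L (FL N L) :=
  have := finiteDimensional_tL N L
  Fermat.Agent.Lib.RR.H804.ff1 (transcendental_tL N L)

end Standing

section ZRat

variable (N : ℕ) [NeZero N] (L : Type) [Field L] [Algebra ℚ L] [IsAlgClosed L]

/-- A subfield which is algebraically closed in an algebraically closed field is algebraically
closed. -/
theorem isAlgClosed_of_algClosedIn {K₁ : Subfield L} (hK₁ : AlgClosedIn K₁) : IsAlgClosed K₁ := by
  apply IsAlgClosed.of_exists_root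
  intro p hp hirr
  have hdeg : (p.map (algebraMap K₁ L)).degree ≠ 0 := by
    rw [Polynomial.degree_map]
    exact (Polynomial.degree_pos_of_irreducible hirr).ne'
  obtain ⟨x, hx⟩ := IsAlgClosed.exists_root (p.map (algebraMap K₁ L)) hdeg
  have hx' : Polynomial.aeval x p = 0 := by
    rwa [Polynomial.IsRoot, Polynomial.eval_map_algebraMap] at hx
  have hxK : x ∈ K₁ := hK₁ x ⟨p, hirr.ne_zero, hx'⟩
  refine ⟨⟨x, hxK⟩, ?_⟩
  have h2 : Polynomial.aeval ((algebraMap K₁ L) ⟨x, hxK⟩) p = 0 := hx'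
  rw [Polynomial.aeval_algebraMap_apply] at h2
  have h3 : Polynomial.aeval (⟨x, hxK⟩ : K₁) p = 0 :=
    (algebraMap K₁ L).injective (by rw [h2, map_zero])
  rwa [Polynomial.coe_aeval_eq_eval] at h3

/-- **G-DIV, piece ZRAT.**  The zeros and poles of a function with coefficients in `K₁` are
rational over `K₁`. -/
theorem stmtZRAT : StmtZRAT N L := by
  intro K₁ hK₁ f hf P hP
  have hac : IsAlgClosed K₁ := isAlgClosed_of_algClosedIn L hK₁
  have hcz : CharZero L := charZero_gen L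
  let _ : Algebra ℚ K₁ := DivisionRing.toRatAlgebra
  have hst : IsScalarTower ℚ K₁ L := isScalarTower_rat_gen K₁ L
  have hfd := finiteDimensional_tL N K₁
  have ht := transcendental_tL N K₁
  have hcoeff : ∀ n, (f : LaurentSeries L).coeff n ∈ Set.range (algebraMap K₁ L) :=
    fun n => ⟨⟨_, hf n⟩, rfl⟩
  obtain ⟨y, hy, hyf⟩ :=
    Fermat.Agent.S29.H32.exists_of_coeff_mem_range (modularFunctionFieldFull N) f.2 hcoeff
  have hfy : @algebraMap (FL N K₁) (FL N L) _ _
      (Fermat.Agent.S29.H871.lbcAlgebra (modularFunctionFieldFull N)) ⟨y, hy⟩ = f :=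
    Subtype.ext hyf
  have hrange : (algebraMap K₁ L).fieldRange = K₁ := by
    ext x
    constructor
    · rintro ⟨a, rfl⟩; exact a.2
    · intro hx; exact ⟨⟨x, hx⟩, rfl⟩
  have key := isRationalOver_of_ord_ne_zero N K₁ L ht ⟨y, hy⟩ (P := P) (by rw [hfy]; exact hP)
  rwa [hrange] at key

end ZRat

section CuspRat

variable (N : ℕ) [NeZero N] (L : Type) [Field L] [Algebra ℚ L]

/-- **G-DIV, piece CUSPRAT.**  The cusp `∞` is rational over every subfield: the value of a
function with rational `q`-expansion at `∞` is its constant term. -/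
theorem stmtCUSPRAT : StmtCUSPRAT N L := by
  intro K₁ u c hc
  set f : FL N L := bcQ N L u - algebraMap L (FL N L) c with hf
  have hcoeff : (f : LaurentSeries L).coeff 0 = 0 := by
    rcases hc with h | h
    · have h' : f = 0 := h
      rw [h']; rfl
    · have h' : 0 < (cuspL N L).ord f := h
      have h0 : f ≠ 0 := by
        intro h0; rw [h0, (cuspL N L).ord_zero] at h'; exact lt_irrefl _ h'
      have h1 : ¬ f⁻¹ ∈ (cuspL N L).toValuationSubring := by
        intro hmem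
        have := FF.ord_nonneg_of_mem _ hmem
        rw [(cuspL N L).ord_inv] at this
        omega
      have h2 : ¬ 0 ≤ ((f⁻¹ : FL N L) : LaurentSeries L).order := fun h2 =>
        h1 ((mem_cuspInf (modularFunctionFieldFull N) (exists_order_neg N L) f⁻¹).mpr h2)
      have hf0 : (f : LaurentSeries L) ≠ 0 := fun h => h0 (Subtype.ext h)
      have h3 : (f : LaurentSeries L).order + ((f⁻¹ : FL N L) : LaurentSeries L).order = 0 := by
        have hinv0 : ((f⁻¹ : FL N L) : LaurentSeries L) ≠ 0 := fun h =>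
          inv_ne_zero h0 (Subtype.ext h)
        rw [← HahnSeries.order_mul hf0 hinv0]
        have : (f : LaurentSeries L) * ((f⁻¹ : FL N L) : LaurentSeries L) = 1 := by
          have := congrArg (Subtype.val) (mul_inv_cancel₀ h0)
          simpa using this
        rw [this, HahnSeries.order_one]
      exact HahnSeries.coeff_eq_zero_of_lt_order (by omega)
  have hval : (f : LaurentSeries L).coeff 0 = algebraMap ℚ L ((u : LaurentSeries ℚ).coeff 0) - c := by
    show (coeffEmb L (u : LaurentSeries ℚ) - algebraMap L (LaurentSeries L) c).coeff 0 = _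
    rw [HahnSeries.coeff_sub, coeffEmb_coeff, algebraMap_laurentSeries_eq_single,
      HahnSeries.coeff_single_same]
  rw [hval, sub_eq_zero] at hcoeff
  rw [← hcoeff, eq_ratCast]
  exact SubfieldClass.ratCast_mem K₁ _

end CuspRat

end Fermat.Agent.S17.H871

end
end
-- ===== PACK-END S17/H871/ZRat.lean

-- ===== PACK-BEGIN S17/H711/Der.lean
section




/-!
# S17 / G-DIV, piece DER (helper711): assembly

`stmtDER : GDiv.StmtDER N L` for every algebraically closed field `L` of characteristic zero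
(exact shape of `GDiv/Defs.lean`), from

* `H770.stmtDERa` (helper770, places of constant type),
* `H711.stmtDERb` (places of generic type, instantiation of helper800's `GenericSetup`),
* `H797.stmtDER_of` (helper797).
-/

set_option autoImplicit false

namespace Fermat.Agent.S17.H711

open Fermat.Agent.Lib.RR Fermat.Agent.S17.GDiv

/-- **DER**. -/
theorem stmtDER (N : ℕ) [NeZero N] (L : Type) [Field L] [Algebra ℚ L] [IsAlgClosed L]
    [FF1 L (FL N L)] : StmtDER N L :=
  Fermat.Agent.S17.H797.stmtDER_of (Fermat.Agent.S17.H770.stmtDERa N L) stmtDERb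

end Fermat.Agent.S17.H711

end
-- ===== PACK-END S17/H711/Der.lean

-- ===== PACK-BEGIN S17/GDiv/Final.lean
section











/-!
# S17 / tower G-DIV: `J₀(N)(ℚ̄)` is divisible  (architect helper797)

`divisible : ∀ x : JZero N, ∃ y, n • y = x` for every `n ≠ 0`, UNCONDITIONALLY.

Instantiation of `GDiv.divisible_of` at `L = ℂ` with one copy of every piece of route v2.1:

| piece | file | owner |
|---|---|---|
| BC, ZRAT, CUSPRAT, `ff1_FL` | `S17/H871/{BC,ZRat}.lean` | helper871 |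
| DEREX, DPRES | `S17/H770/DerStmt.lean` | helper770 |
| DER (= DER-a + DER-b) | `S17/H711/Der.lean` | helper770, helper711, helper800 |
| CORE, RIG | `S17/H917/CoreRig.lean` | helper917 |
| PLEXT | `S17/H200/Plext.lean` | helper200 |
| NS | `S17/H830/NSMain.lean` | helper830 |
| GEN | `S17/H137/Gen.lean` | helper137 |
| GENSTAB | `S17/H560/GenStab.lean` | helper560 |
| TRANS | `S17/H20/TransStmt.lean` | helper20 |
-/

set_option autoImplicit false
set_option linter.style.haveILetI false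

noncomputable section

namespace Fermat.Agent.S17.GDiv

open AlgebraicCurve ModularCurve Fermat.Agent.Lib.RR

/-- The chosen embedding `ℚ̄ → ℂ`. -/
def embQbC : Qb →+* ℂ :=
  letI : Algebra ℚ (AlgebraicClosure ℚ) := AlgebraicClosure.instAlgebra ℚ
  haveI : Algebra.IsAlgebraic ℚ (AlgebraicClosure ℚ) := AlgebraicClosure.isAlgebraic ℚ
  ((IsAlgClosed.lift : AlgebraicClosure ℚ →ₐ[ℚ] ℂ) : AlgebraicClosure ℚ →+* ℂ)

/-- The `ℚ̄`-algebra structure of `ℂ` used in the instantiation. -/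
@[reducible] def algQbC : Algebra Qb ℂ := embQbC.toAlgebra

/-- `ℚ̄` is countable. -/
theorem countable_Qb : Countable Qb := by
  letI : Algebra ℚ (AlgebraicClosure ℚ) := AlgebraicClosure.instAlgebra ℚ
  haveI : Algebra.IsAlgebraic ℚ (AlgebraicClosure ℚ) := AlgebraicClosure.isAlgebraic ℚ
  have h := Algebra.IsAlgebraic.cardinalMk_le_max ℚ (AlgebraicClosure ℚ)
  rw [Cardinal.mk_eq_aleph0 ℚ, max_self] at h
  exact Cardinal.mk_le_aleph0_iff.mp h

/-- `ℂ` is uncountable. -/
theorem uncountable_complex : Uncountable ℂ := by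
  rw [← Cardinal.aleph0_lt_mk_iff, Cardinal.mk_complex]
  exact Cardinal.aleph0_lt_continuum

section Abstract

variable (L : Type) [Field L] [Algebra Qb L]

/-- The image of `ℚ̄` in `L` is countable. -/
theorem countable_kL : ((kL L : Subfield L) : Set L).Countable := by
  haveI := countable_Qb
  have : ((kL L : Subfield L) : Set L) = Set.range (algebraMap Qb L) := by
    ext x
    simp [kL]
  rw [this]
  exact Set.countable_range _

/-- The image of `ℚ̄` in `L` is algebraically closed in `L`. -/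
theorem algClosedIn_kL : AlgClosedIn (kL L) := by
  intro x hx
  have hx' : IsAlgebraic Qb x :=
    IsAlgebraic.of_ringHom_of_comp_eq (R := Qb) (S := kL L) (A := L) (B := L)
      (algebraMap Qb L).rangeRestrictField (RingHom.id L) (a := x) hx
      (algebraMap Qb L).rangeRestrictField_bijective.2 Function.injective_id
      (by ext y; rfl)
  have hint : IsIntegral Qb x := hx'.isIntegral
  obtain ⟨z, hz⟩ := minpoly.mem_range_of_degree_eq_one Qb x
    (IsAlgClosed.degree_eq_one_of_irreducible Qb (minpoly.irreducible hint))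
  exact ⟨z, hz⟩

end Abstract

/-- **G-DIV over any uncountable algebraically closed field of characteristic zero receiving
`ℚ̄`** (all pieces instantiated). -/
theorem divisible_over (N : ℕ) [NeZero N] (L : Type) [Field L] [Algebra ℚ L] [Algebra Qb L]
    [IsAlgClosed L] [Uncountable L] (n : ℕ) (hn : n ≠ 0) (x : JZero N) :
    ∃ y : JZero N, n • y = x := by
  haveI : FF1 L (FL N L) := Fermat.Agent.S17.H871.ff1_FL N L
  have hZRAT : StmtZRAT N L := Fermat.Agent.S17.H871.stmtZRAT N L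
  have hCUSP : StmtCUSPRAT N L := Fermat.Agent.S17.H871.stmtCUSPRAT N L
  have hBC : StmtBC N L := Fermat.Agent.S17.H871.stmtBC N L
  have hDER : StmtDER N L := Fermat.Agent.S17.H711.stmtDER N L
  have hDEREX : StmtDEREX L := Fermat.Agent.S17.H770.stmtDEREX L
  have hDPRES : StmtDPRES N L := Fermat.Agent.S17.H770.stmtDPRES N L
  have hCORE : StmtCORE N L := Fermat.Agent.S17.H917.stmtCORE hDER hDEREX hDPRES
  have hRIG : StmtRIG N L := Fermat.Agent.S17.H917.stmtRIG hCORE hZRAT hCUSP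
  have hPLEXT : StmtPLEXT N L := Fermat.Agent.S17.H200.stmtPLEXT
  have hNS : StmtNS N L := Fermat.Agent.S17.H830.stmtNS hPLEXT
  have hGEN : StmtGEN N L := Fermat.Agent.S17.H137.stmtGEN N L
  have hSTAB : StmtGENSTAB N L := Fermat.Agent.S17.H560.stmtGENSTAB hRIG hCUSP hZRAT
  have hTRANS : StmtTRANS N L := Fermat.Agent.S17.H20.stmtTRANS hPLEXT hZRAT
  exact divisible_of N L (countable_kL L) (algClosedIn_kL L) hBC hRIG hNS hGEN hSTAB hTRANS
    n hn x

/-- **G-DIV**: the group `J₀(N)(ℚ̄)` is divisible. -/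
theorem divisible (N : ℕ) [NeZero N] (n : ℕ) (hn : n ≠ 0) (x : JZero N) :
    ∃ y : JZero N, n • y = x := by
  letI : Algebra Qb ℂ := algQbC
  haveI : Uncountable ℂ := uncountable_complex
  exact divisible_over N ℂ n hn x

end Fermat.Agent.S17.GDiv

end
end
-- ===== PACK-END S17/GDiv/Final.lean

-- ===== PACK-BEGIN Ribet/H109/ElocPeuW.lean
section





/-!
# Row 38 / S39, W-form: ELOC-ord for a curve with multiplicative reduction, `p ∣ v_p(Δ)`
(helper109)

`W` an integral Weierstrass curve, `p` odd, `p ∣ Δ`, `p ∤ c₄` (multiplicative reduction at `p`),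
`p ∣ v_p(Δ)` (`IsPeuRamifieeAt`), `W[p]` irreducible, `A` a valuation ring of `ℚ̄` over `p` with
ordinary inertia action.  Then `H944.Wall.ELOCOrdAt`: the line `⟨t⟩` with inertia acting by `χ`,
trivial action on the quotient, and the peu ramifiée subgroup acts trivially.

This is helper52's ELOC-Frey (`H52.frey_elocOrdAt_h52`) for an arbitrary curve: the roots of the
2-division cubic are no longer rational (`PeuRoots.lean`), inertia may swap the two node roots
(`PeuNode.lean`).  `π = p ^ (v_p(Δ) / p)`.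

* `elocOrdAt_mult_h109`  : the multiplicative case.
* `elocOrdPeu : ELOCOrdPeuStatement` : good or multiplicative-peu, irreducible form.
-/

set_option autoImplicit false
set_option linter.unusedSectionVars false
set_option linter.unusedVariables false
set_option linter.style.haveILetI false

open WeierstrassCurve WeierstrassCurve.Affine WeierstrassCurve.Affine.Point

namespace Fermat.Agent.Ribet.H109.Peu

open Fermat.Agent.S05 Fermat.Agent.S05.SameRed Fermat.Agent.S05.Assemble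
open Fermat.Agent.S13.H64 (nodeTorsion_of_c3c)
open Fermat.Agent.Ribet.Spec Fermat.Agent.Ribet.H944.Wall Fermat.Agent.Ribet.H375
open Fermat.Agent.Ribet.H52

/-- **(ELOC-ord, peu ramifiée form)**: `W` semistable at `p` with `p ∣ v_p(Δ)` (good reduction
or multiplicative reduction with `p ∣ v_p(Δ)`), `W[p]` irreducible, ordinary inertia action:
line + peu. -/
def ELOCOrdPeuStatement : Prop :=
  ∀ (W : WeierstrassCurve ℤ) (p : ℕ), W.Δ ≠ 0 → p.Prime → p ≠ 2 →
    ((p : ℤ) ∣ W.Δ → ¬ (p : ℤ) ∣ W.c₄) →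
    (W.map (Int.castRingHom ℚ)).IsPeuRamifieeAt p p →
    W.ModRepIsIrreducible p →
    ∀ A : ValuationSubring (AlgebraicClosure ℚ), A.LiesOverPrime p →
    OrdinaryInertiaAt (W.map (Int.castRingHom ℚ)) p A →
    ELOCOrdAt (W.map (Int.castRingHom ℚ)) p A

section coeffs

variable (W : WeierstrassCurve ℤ)

theorem baseChange_Δ_h109 :
    ((W.map (Int.castRingHom ℚ))⁄Qb).Δ = ((W.Δ : ℤ) : Qb) := by
  show ((W.map (Int.castRingHom ℚ)).map (algebraMap ℚ Qb)).Δ = _
  rw [WeierstrassCurve.map_Δ, WeierstrassCurve.map_Δ]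
  simp

theorem baseChange_c₄_h109 :
    ((W.map (Int.castRingHom ℚ))⁄Qb).c₄ = ((W.c₄ : ℤ) : Qb) := by
  show ((W.map (Int.castRingHom ℚ)).map (algebraMap ℚ Qb)).c₄ = _
  rw [WeierstrassCurve.map_c₄, WeierstrassCurve.map_c₄]
  simp

end coeffs

section sigma

variable (E : WeierstrassCurve ℚ) (σ : Qb ≃ₐ[ℚ] Qb)

theorem sigma_a₁_h109 : (σ : Qb →+* Qb) (E⁄Qb).a₁ = (E⁄Qb).a₁ := by
  show σ (algebraMap ℚ Qb E.a₁) = algebraMap ℚ Qb E.a₁
  exact σ.commutes _

theorem sigma_a₃_h109 : (σ : Qb →+* Qb) (E⁄Qb).a₃ = (E⁄Qb).a₃ := by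
  show σ (algebraMap ℚ Qb E.a₃) = algebraMap ℚ Qb E.a₃
  exact σ.commutes _

theorem sigma_b₂_h109 : (σ : Qb →+* Qb) (E⁄Qb).b₂ = (E⁄Qb).b₂ := by
  have h : (E⁄Qb).b₂ = algebraMap ℚ Qb E.b₂ := WeierstrassCurve.map_b₂ E (algebraMap ℚ Qb)
  rw [h]
  exact σ.commutes _

theorem sigma_b₄_h109 : (σ : Qb →+* Qb) (E⁄Qb).b₄ = (E⁄Qb).b₄ := by
  have h : (E⁄Qb).b₄ = algebraMap ℚ Qb E.b₄ := WeierstrassCurve.map_b₄ E (algebraMap ℚ Qb)
  rw [h]
  exact σ.commutes _

theorem sigma_b₆_h109 : (σ : Qb →+* Qb) (E⁄Qb).b₆ = (E⁄Qb).b₆ := by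
  have h : (E⁄Qb).b₆ = algebraMap ℚ Qb E.b₆ := WeierstrassCurve.map_b₆ E (algebraMap ℚ Qb)
  rw [h]
  exact σ.commutes _

end sigma

/-- `v(Δ) = v(p ^ k) ^ p` when `p ∣ v_p(Δ)`. -/
theorem exists_pi_h109 (W : WeierstrassCurve ℤ) (hΔ : W.Δ ≠ 0) {p : ℕ} (hp : p.Prime)
    (hfin : (W.map (Int.castRingHom ℚ)).IsPeuRamifieeAt p p)
    (A : ValuationSubring Qb) (hA : A.LiesOverPrime p) :
    ∃ k : ℕ, A.valuation (((p ^ k : ℕ) : ℚ) : Qb) ^ p = A.valuation ((W.Δ : ℤ) : Qb) := by
  haveI : Fact p.Prime := ⟨hp⟩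
  unfold WeierstrassCurve.IsPeuRamifieeAt at hfin
  rw [WeierstrassCurve.map_Δ] at hfin
  have h1 : padicValRat p ((Int.castRingHom ℚ) W.Δ) = (padicValInt p W.Δ : ℤ) := by
    show padicValRat p ((W.Δ : ℤ) : ℚ) = _
    exact padicValRat.of_int
  rw [h1] at hfin
  have hfin' : p ∣ padicValInt p W.Δ := by exact_mod_cast hfin
  obtain ⟨k, hk⟩ := hfin'
  set m := padicValInt p W.Δ with hm
  have hdvd : (p : ℤ) ^ m ∣ W.Δ := (padicValInt_dvd_iff m W.Δ).mpr (Or.inr le_rfl)
  obtain ⟨u, hu⟩ := hdvd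
  have hpu : ¬ (p : ℤ) ∣ u := by
    rintro ⟨w, rfl⟩
    have h2 : (p : ℤ) ^ (m + 1) ∣ W.Δ := ⟨w, by rw [hu]; ring⟩
    rcases (padicValInt_dvd_iff (m + 1) W.Δ).mp h2 with h | h
    · exact hΔ h
    · omega
  refine ⟨k, ?_⟩
  have hvu : A.valuation ((u : ℤ) : Qb) = 1 := val_int_eq_one hA hp hpu
  rw [hu]
  push_cast
  rw [map_mul, hvu, mul_one, map_pow, map_pow, ← pow_mul, hk, mul_comm]

/-- **ELOC-ord, multiplicative reduction with `p ∣ v_p(Δ)`.** -/
theorem elocOrdAt_mult_h109 (W : WeierstrassCurve ℤ) (p : ℕ) (hΔ : W.Δ ≠ 0) (hp : p.Prime)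
    (hp2 : p ≠ 2) (hmult : (p : ℤ) ∣ W.Δ) (hc₄ : ¬ (p : ℤ) ∣ W.c₄)
    (hfin : (W.map (Int.castRingHom ℚ)).IsPeuRamifieeAt p p)
    (hirr : W.ModRepIsIrreducible p)
    (A : ValuationSubring Qb) (hA : A.LiesOverPrime p)
    (hO : OrdinaryInertiaAt (W.map (Int.castRingHom ℚ)) p A) :
    ELOCOrdAt (W.map (Int.castRingHom ℚ)) p A := by
  classical
  haveI : Fact p.Prime := ⟨hp⟩
  set E : WeierstrassCurve ℚ := W.map (Int.castRingHom ℚ) with hE
  have hΔQ : E.Δ ≠ 0 := by
    rw [hE, WeierstrassCurve.map_Δ]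
    simpa using hΔ
  have hW : IntegralCoeffs (E⁄Qb) A.valuation := Fermat.Agent.Ribet.H109.integralCoeffs_h109 W A
  have h2 : A.valuation (2 : Qb) = 1 := val_two_eq_one hA hp hp2
  have hodd : Odd p := hp.odd_of_ne_two hp2
  -- the node roots
  have hΔb : (E⁄Qb).Δ = ((W.Δ : ℤ) : Qb) := baseChange_Δ_h109 W
  have hc₄b : (E⁄Qb).c₄ = ((W.c₄ : ℤ) : Qb) := baseChange_c₄_h109 W
  have hΔb0 : (E⁄Qb).Δ ≠ 0 := by
    rw [hΔb]
    exact_mod_cast hΔ
  have hΔlt : A.valuation (E⁄Qb).Δ < 1 := by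
    rw [hΔb]; exact val_int_lt_one hA hmult
  have hc₄1 : A.valuation (E⁄Qb).c₄ = 1 := by
    rw [hc₄b]; exact val_int_eq_one hA hp hc₄
  obtain ⟨e₁, α, β, hr, he₁, hα, hβ, hα0, hαΔ⟩ :=
    exists_node_roots_h109 hW h2 hΔb0 hΔlt hc₄1
  obtain ⟨k, hk⟩ := exists_pi_h109 W hΔ hp hfin A hA
  set π : Qb := (((p ^ k : ℕ) : ℚ) : Qb) with hπdef
  have hπ0 : π ≠ 0 := by
    rw [hπdef]
    have : ((p ^ k : ℕ) : ℚ) ≠ 0 := by exact_mod_cast (pow_pos hp.pos k).ne'
    exact_mod_cast this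
  have hπ : A.valuation π ^ p = A.valuation α ^ 2 := by
    rw [hαΔ, hΔb]; exact hk
  have hC3 : NodeTorsion (E⁄Qb) A.valuation e₁ α p := nodeTorsion_of_c3c h2 hr hα0 hα hβ hodd
  refine elocOrdAt_core_h52 hΔQ hp hp2 hA hW ?_ ?_ ?_ ?_
  · -- det = χ
    intro σ hσ c hc
    have hns := Fermat.Agent.Ribet.H109.nonscalar_of_irreducible_h109 E hΔQ p hirr
    exact Fermat.Agent.Ribet.H403.det_eq_of_apply_root W p hΔ hns σ c hc
  · -- same reduction
    intro σ hσ x hx
    obtain ⟨Q, hQ⟩ := x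
    have hP : p • Q = 0 := by
      have := (Submodule.mem_torsionBy_iff _ _).mp hQ
      rwa [natCast_zsmul] at this
    rcases Q with _ | ⟨x₀, y₀, h₀⟩
    · exact absurd trivial hx
    · have hx₀ : A.valuation x₀ ≤ 1 := not_lt.mp hx
      have h' : (E⁄Qb).Nonsingular ((σ : Qb →+* Qb) x₀) ((σ : Qb →+* Qb) y₀) :=
        (WeierstrassCurve.Affine.baseChange_nonsingular E σ.toAlgHom.injective x₀ y₀).mpr h₀
      have hsmul : σ • Point.some x₀ y₀ h₀ =
          Point.some ((σ : Qb →+* Qb) x₀) ((σ : Qb →+* Qb) y₀) h' := rfl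
      show InKer (E⁄Qb) A.valuation (σ • Point.some x₀ y₀ h₀ - Point.some x₀ y₀ h₀)
      rw [hsmul]
      refine inKer_sub_of_node_sym_h109 hW h2 (σ : Qb →+* Qb) (inertia_res A hσ)
        (sigma_a₁_h109 E σ) (sigma_a₃_h109 E σ) (sigma_b₂_h109 E σ) (sigma_b₄_h109 E σ)
        (sigma_b₆_h109 E σ) hodd hr he₁ hα hβ hπ0 ?_ hπ hC3 h₀ h' hP hx₀
      show σ (algebraMap ℚ Qb ((p ^ k : ℕ) : ℚ)) = algebraMap ℚ Qb ((p ^ k : ℕ) : ℚ)
      exact σ.commutes _
  · -- rationality of `v η`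
    intro x hx
    have hPx : p • (x : (E⁄Qb).Point) = 0 := by
      have := (Submodule.mem_torsionBy_iff _ _).mp x.2
      rwa [natCast_zsmul] at this
    have hx' : ¬ InKer (E⁄Qb) A.valuation (x : (E⁄Qb).Point) := hx
    rcases hxc : (x : (E⁄Qb).Point) with _ | ⟨x₀, y₀, h₀⟩
    · rw [hxc] at hx'
      exact absurd trivial hx'
    · rw [hxc] at hx' hPx
      obtain ⟨j, hj⟩ := val_eta_of_node_h52 hW h2 hodd hr he₁ hα hβ hπ hC3 h₀ hPx
        (not_lt.mp hx')
      refine ⟨((p ^ k : ℕ) : ℚ) ^ j, pow_ne_zero _ (by exact_mod_cast (pow_pos hp.pos k).ne'), ?_⟩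
      rw [etaC_some_h52, hj]
      congr 1
      rw [map_pow]
      rfl
  · exact exists_integral_of_ordinary_h52 W hΔ hp hp2 A hA hW hO

/-- **ELOC-ord, peu ramifiée form**: unconditional. -/
theorem elocOrdPeu : ELOCOrdPeuStatement := by
  intro W p hΔ hp hp2 hsemi hfin hirr A hA hO
  by_cases hgood : (p : ℤ) ∣ W.Δ
  · exact elocOrdAt_mult_h109 W p hΔ hp hp2 hgood (hsemi hgood) hfin hirr A hA hO
  · exact Fermat.Agent.Ribet.H375.elocOrdGoodIrr W p hΔ hp hp2 hgood hirr A hA hO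

end Fermat.Agent.Ribet.H109.Peu

end
-- ===== PACK-END Ribet/H109/ElocPeuW.lean

-- ===== PACK-BEGIN Ribet/H109/S39Chain.lean
section





/-!
# Row 38, the S39 line (W-form, peu ramifiée): wall and top glue  (helper109)

Frozen S39 is an input of S59 (`S59.H934.levelOpt_of`).  Its chain is the chain of S40
(`H944.Wall.S40_of_wall`, `H375.wallGood_of_atPFiltration`) with "good reduction at `p`" replaced
by "semistable at `p` and `p ∣ v_p(Δ)`"; the only new input is ELOC-ord for multiplicative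
reduction, `Peu.elocOrdPeu` (`ElocPeuW.lean`).

* `WallPeuStatement` : the wall for S39, conclusion `Lowered`.
* `wallPeuAt_of_filtrationFor` : pointwise, from the filtration package at ONE `(p, M')`.
* `wallPeu_of_atPFiltration : AtPFiltrationStatement → WallPeuStatement`.
* `S39At p M'` : frozen S39 at the level `p * M'`;  `s39At_of_wallAt`, `S39_of_forall_at`.
* `S39_of_wall : EmbedW → WallPeu → R3S → R3'-W → S39Statement`.

NOTE: S39 (and S40) need the wall at ALL odd `p`, in particular `p = 3`; the S44 line of the row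
needs `p ≥ 5` only.  The pointwise forms allow to feed the levels one by one.
-/

set_option autoImplicit false
set_option linter.style.haveILetI false

open WeierstrassCurve WeierstrassCurve.Affine WeierstrassCurve.Affine.Point
open CuspForm ModularFormClass UpperHalfPlane ModularCurve

namespace Fermat.Agent.Ribet.H109.Peu

open Fermat.Agent.Ribet.Spec Fermat.Agent.Ribet.H944.Wall

/-- The wall for S39 at one level `(p, M')`. -/
def WallPeuAt (p M' : ℕ) [NeZero M'] [NeZero (p * M')] : Prop :=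
  ∀ (W : WeierstrassCurve ℤ), W.Δ ≠ 0 →
    ((p : ℤ) ∣ W.Δ → ¬ (p : ℤ) ∣ W.c₄) →
    (W.map (Int.castRingHom ℚ)).IsPeuRamifieeAt p p → W.ModRepIsIrreducible p →
    ∀ S : Finset ℕ, EEmbedsIn (W.map (Int.castRingHom ℚ)) p (p * M') S (fun ℓ => W.apOfModel ℓ) →
      Lowered M' p S (fun ℓ => W.apOfModel ℓ)

/-- The wall for S39 (semistable at `p`, `p ∣ v_p(Δ)`), conclusion `Lowered`. -/
def WallPeuStatement : Prop :=
  ∀ (p M' : ℕ) [NeZero M'] [NeZero (p * M')], p.Prime → p ≠ 2 → ¬ p ∣ M' → WallPeuAt p M'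

/-- **The S39 wall at `(p, M')` from the filtration package at `(p, M')`.** -/
theorem wallPeuAt_of_filtrationFor {p M' : ℕ} [NeZero M'] [NeZero (p * M')] (hp : p.Prime)
    (hp2 : p ≠ 2) (hF : AtPFiltrationFor p M') : WallPeuAt p M' := by
  intro W hΔ hsemi hfin hirr S hemb
  obtain ⟨A, hA, -⟩ := Fermat.Agent.Ribet.H584.places p hp
  exact lowered_of_filtrationFor hF hA
    (fun hH => elocOrdPeu W p hΔ hp hp2 hsemi hfin hirr A hA hH)
    (Fermat.Agent.Ribet.H104.notMultTypeW W p hΔ hp hp2 hirr A hA)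
    (Fermat.Agent.Ribet.H104.nonEisW W p hΔ hp hp2 hirr) hemb

/-- **The S39 wall from the filtration package alone.** -/
theorem wallPeu_of_atPFiltration (hF : AtPFiltrationStatement) : WallPeuStatement :=
  fun p M' _ _ hp hp2 hpM' => wallPeuAt_of_filtrationFor hp hp2 (hF p M' hp hp2 hpM')

/-- Frozen S39 at the level `p * M'`. -/
def S39At (p M' : ℕ) : Prop :=
  ∀ (W : WeierstrassCurve ℤ), W.Δ ≠ 0 →
    ((p : ℤ) ∣ W.Δ → ¬ (p : ℤ) ∣ W.c₄) → W.ModRepIsIrreducible p →
    (W.map (Int.castRingHom ℚ)).IsPeuRamifieeAt p p →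
    W.IsResiduallyModularOfLevel p (p * M') → W.IsResiduallyModularOfLevel p M'

/-- **S39 at `(p, M')` from the wall at `(p, M')`**: `BLR-W + WALL + R3S + R3'-W`. -/
theorem s39At_of_wallAt (hE : EmbedWStatement) (hR3 : EigenformOfOccursAwayStatement)
    (hR3' : AlmostAllToWitnessWStatement) {p M' : ℕ} [NeZero M'] [NeZero (p * M')]
    (hp : p.Prime) (hp2 : p ≠ 2) (hWall : WallPeuAt p M') : S39At p M' := by
  intro W hΔ hsemi hirr hfin hmod
  obtain ⟨f, 𝔪, hwit⟩ := hmod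
  obtain ⟨S, hemb⟩ := hE W p (p * M') hΔ hp hp2 hirr f 𝔪 hwit
  obtain ⟨S', g, 𝔪', hg, hmax, hpm, hc⟩ :=
    eigenAway_of_lowered hR3 hp (hWall W hΔ hsemi hfin hirr S hemb)
  exact ⟨g, 𝔪', hR3' W p M' hΔ hp hp2 (Nat.pos_of_ne_zero (NeZero.ne M')) hirr g 𝔪' _ hg hmax
    hpm hc⟩

/-- Frozen S39 from its levels. -/
theorem S39_of_forall_at
    (h : ∀ (p M' : ℕ), p.Prime → p ≠ 2 → 0 < M' → ¬ p ∣ M' → S39At p M') : S39Statement := by
  intro W hΔ p hp hp2 hsemi hirr hfin M hM hpM hp2M hmod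
  obtain ⟨M', rfl⟩ := hpM
  have hM'pos : 0 < M' := by
    rcases Nat.eq_zero_or_pos M' with h0 | h0
    · subst h0; simp at hM
    · exact h0
  rw [Nat.mul_div_cancel_left M' hp.pos]
  have hpM' : ¬ p ∣ M' := by
    rintro ⟨k, rfl⟩
    exact hp2M ⟨k, by ring⟩
  exact h p M' hp hp2 hM'pos hpM' W hΔ hsemi hirr hfin hmod

/-- **S39 from the wall in `Lowered` form**: `BLR-W + WALL + R3S + R3'-W ⇒ S39`. -/
theorem S39_of_wall (hE : EmbedWStatement) (hWall : WallPeuStatement)
    (hR3 : EigenformOfOccursAwayStatement) (hR3' : AlmostAllToWitnessWStatement) :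
    S39Statement :=
  S39_of_forall_at fun p M' hp hp2 hM' hpM' =>
    haveI : NeZero M' := ⟨hM'.ne'⟩
    haveI : NeZero (p * M') := ⟨(Nat.mul_pos hp.pos hM').ne'⟩
    s39At_of_wallAt hE hR3 hR3' hp hp2 (hWall p M' hp hp2 hpM')

end Fermat.Agent.Ribet.H109.Peu

end
-- ===== PACK-END Ribet/H109/S39Chain.lean

-- ===== PACK-BEGIN S38T/IA/Hecke/H183/GalRIA.lean
section




/-!
# Row HARD, cell HECKE, layer 4: the leaf IA-GAL-R  (helper183, on helper788's general core)

* `galRSig_of : S36Statement → GalRSigStatement` — GAL-R for a package of ANY type `Σ`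
  (`S59.TW.H788.galR_datum788`).
* `iaGalR_of : S36Statement → IAGalRStatement` — the leaf IA-GAL-R of `CmpSpecIA.lean`
  (`Σ = Smin ∪ Piv ∪ Q`).
-/

set_option autoImplicit false
set_option linter.style.haveILetI false
set_option linter.unusedVariables false

open Polynomial IsLocalRing CongruenceSubgroup
open scoped MatrixGroups

namespace Fermat.Agent.S38.IA.Hecke.H183

variable {ty : Fermat.Agent.S59.Arch.PType}

open Fermat.Agent.S59.Arch Fermat.Agent.S59.TW.H959 Fermat.Agent.S59.TW Fermat.Agent.S59.H765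
open Fermat.Agent.S59.TW.H653 Fermat.Agent.S59.TW.Aut
open Fermat.Agent.S38.IA Fermat.Agent.S38.IA.Hecke
open CuspForm

/-- **GAL-R for a package of any type `Σ`**, from the frozen S36. -/
theorem galRSig_of_T (h36 : Fermat.Agent.S58.S36Statement) : GalRSigStatement_T := by
  intro p hpF 𝒪 _ _ _ _ _ _ ρbar Smin h t Sig hSig hSminSig _ PQ q hq hqSig hqS hpq hdist
    P hP φ hφ σ hσ u hu hcyc a₀ w hw O' _ _ _ _ _ _ emb hemb hnew
  classical
  obtain ⟨M, hM0, g, hg, hfact, hMS, chig, iota, hchig, hcompat⟩ := hnew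
  haveI := hM0
  have hp : p.Prime := hpF.out
  have hqp : q ≠ p := fun e => hqS (e ▸ h.hpSmin)
  have hunr : PQ.H.ρ.residual.IsUnramifiedAt q := by
    have h1 : ρbar.IsUnramifiedAt q := by
      by_contra hcon
      exact hqS ((h.hmin q hq hqp).mpr hcon)
    obtain ⟨e⟩ := PQ.hres
    intro B hB τ hτ
    have h2 : (ρbar.baseChangeAlong (ResidueField.map (algebraMap 𝒪 PQ.T))).ρ τ = 1 := by
      letI : Algebra (ResidueField 𝒪) (ResidueField PQ.T) :=
        (ResidueField.map (algebraMap 𝒪 PQ.T)).toAlgebra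
      show (ρbar.ρ τ).baseChange (ResidueField PQ.T) = 1
      rw [h1 B hB τ hτ]
      exact LinearMap.baseChange_one _ _
    refine LinearMap.ext fun x => ?_
    apply e.toLinearEquiv.injective
    rw [e.map_apply, h2]
    rfl
  have hNS : ∀ q' : ℕ, q'.Prime → q' ∣ wilesLevel p t Smin Sig → q' ∈ Sig := fun q' hq' hqd =>
    _root_.Fermat.Agent.S59.Arch.mem_of_prime_dvd_wilesLevel hp h.hSmin hSig h.hpSmin hSminSig q' hq' hqd
  exact Fermat.Agent.S59.TW.H788.galR_datum788 h36 p h.hp2 𝒪 h.hp𝒪 (wilesLevel p t Smin Sig) Sig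
    (hSminSig h.hpSmin) hNS PQ.θ PQ.T PQ.H q hq hpq hunr P hP φ hφ σ hσ u hu hcyc a₀ w hw
    O' emb hemb M g hg hfact hMS chig hchig iota hcompat

/-- **IA-GAL-R** (leaf of `CmpSpecIA.lean`), from the frozen S36. -/
theorem iaGalR_of_T (h36 : Fermat.Agent.S58.S36Statement) : IAGalRStatement_T (ty := ty) :=
  iaGalR_of_sig_T (galRSig_of_T h36)

end Fermat.Agent.S38.IA.Hecke.H183

end
-- ===== PACK-END S38T/IA/Hecke/H183/GalRIA.lean

-- ===== PACK-BEGIN S59/LoSqC/H586/Alg3C.lean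
section


/-!
# S59 / cell (C) LO-SQ, EASY half — ALG3 with its EXPLICIT constant (helper586)

`Eng.Alg3Statement` (main) hides the constant of the S36 engine behind `∃ C`.  The proof
`Alg3.alg3_of_leaves` uses `C = (q² - 1) * ((q - 1) * (q + 1))`; this file exposes it:

    alg3C : Alg3CStatement        -- `f ^ alg3Const q = c * h ^ m`,  alg3Const q = (q² − 1)·((q − 1)(q + 1))
    alg3Const_coprime : p.Prime → ¬ p ∣ q ^ 2 - 1 → (alg3Const q).Coprime p

Same leaves as on main (`H586.leafStepA`, `H79.leafSheets`, `H630.leafPure`, wall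
`H193.exists_pow_eq_of_three`); OFF-MAIN (S59 moonshot).
-/

set_option autoImplicit false
set_option linter.style.haveILetI false
set_option linter.unusedSectionVars false
set_option linter.unusedVariables false
set_option synthInstance.maxHeartbeats 400000
set_option maxHeartbeats 1600000

noncomputable section

namespace Fermat.Agent.S59.LoSqC.H586

open Fermat.Agent.S36.Eng
open Fermat.Agent.S36.Alg3
open Fermat.Agent

/-- The explicit constant of the S36 engine at `q`. -/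
def alg3Const (q : ℕ) : ℕ := (q ^ 2 - 1) * ((q - 1) * (q + 1))

theorem alg3Const_eq (q : ℕ) : alg3Const q = (q ^ 2 - 1) * ((q - 1) * (q + 1)) := rfl

theorem alg3Const_eq_sq (q : ℕ) : alg3Const q = (q ^ 2 - 1) ^ 2 := by
  unfold alg3Const
  have h : (q - 1) * (q + 1) = q ^ 2 - 1 := by
    rcases Nat.eq_zero_or_pos q with h0 | h0
    · subst h0; simp
    · obtain ⟨k, rfl⟩ : ∃ k, q = k + 1 := ⟨q - 1, by omega⟩
      have : (k + 1) ^ 2 = k * (k + 2) + 1 := by ring
      rw [this]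
      simp
  rw [h]
  ring

theorem alg3Const_pos {q : ℕ} (hq : 2 ≤ q) : 0 < alg3Const q := by
  rw [alg3Const_eq_sq]
  have : 4 ≤ q ^ 2 := by nlinarith
  have h1 : 0 < q ^ 2 - 1 := by omega
  positivity

/-- The constant is prime to `p` as soon as `p ∤ q² − 1`. -/
theorem alg3Const_coprime {p q : ℕ} (hp : p.Prime) (h : ¬ p ∣ q ^ 2 - 1) :
    (alg3Const q).Coprime p := by
  rw [alg3Const_eq_sq]
  exact Nat.Coprime.pow_left 2 ((Nat.Prime.coprime_iff_not_dvd hp).2 h).symm

theorem not_dvd_alg3Const {p q : ℕ} (hp : p.Prime) (h : ¬ p ∣ q ^ 2 - 1) :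
    ¬ p ∣ alg3Const q := by
  rw [alg3Const_eq_sq]
  exact fun h' => h (hp.dvd_of_dvd_pow h')

/-- `Eng.Alg3Statement` with the constant exposed. -/
def Alg3CStatement : Prop :=
  ∀ {R E F F' : Type} [CommRing R] [IsDomain R] [IsDiscreteValuationRing R]
    [HenselianLocalRing R] [IsAlgClosed (IsLocalRing.ResidueField R)]
    [Field E] [CharZero E] [Algebra R E] [IsFractionRing R E]
    [Field F] [Algebra E F] [Algebra R F] [IsScalarTower R E F]
    [Field F'] [Algebra E F'] [Algebra R F'] [IsScalarTower R E F']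
    (w : R) (_ : Irreducible w) (q : ℕ) (_ : q.Prime)
    (_ : (q : R) ∈ IsLocalRing.maximalIdeal R)
    (α β : F' →ₐ[E] F) (x : F) (x' : F')
    (V₁ V₂ V₃ : ValuationSubring F) (V₁' V₂' : ValuationSubring F')
    (_ : TripleCtx w q α β x x' V₁ V₂ V₃ V₁' V₂'),
    ∀ m : ℕ, 0 < m → ¬ q ∣ m →
      ∀ f : F, f ≠ 0 → A2.DivisibleDiv E m f →
        S35.G.NormPow α m f → S35.G.NormPow β m f →
        ∃ (c : E) (h : F), h ≠ 0 ∧ f ^ alg3Const q = algebraMap E F c * h ^ m

/-- **ALG3 with explicit constant, from the three leaves** (replay of `Alg3.alg3_of_leaves`). -/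
theorem alg3C_of_leaves (hA : LeafStepA) (hS : LeafSheets) (hP : LeafPure) : Alg3CStatement := by
  intro R E F F' _ _ _ _ _ _ _ _ _ _ _ _ _ _ _ _ _ w hw q hq hqR α β x x' V₁ V₂ V₃ V₁' V₂' T
  intro m hm hqm f hf hdiv hNα hNβ
  obtain ⟨s, G, u, k₁, k₂, hG, hfu, hu₁, hu₂, hu₃, hk₁, hk₂⟩ :=
    hA w hw q hq hqR α β x x' V₁ V₂ V₃ V₁' V₂' T m hm hqm f hf hNα hNβ
  have hu0 : u ≠ 0 := ne_zero_of_sub_one_mem_nonunits hu₁
  have hinjRE : Function.Injective (algebraMap R E) := IsFractionRing.injective R E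
  have hwE : algebraMap R E w ≠ 0 := fun h => hw.ne_zero (hinjRE (by rw [h, map_zero]))
  have hwF : algebraMap R F w = algebraMap E F (algebraMap R E w) :=
    IsScalarTower.algebraMap_apply R E F w
  have hfu' : f ^ (q ^ 2 - 1) = algebraMap E F (algebraMap R E w ^ s) * G ^ m * u := by
    rw [hfu, hwF, map_zpow₀]
  have hdivu : A2.DivisibleDiv E m u :=
    divisibleDiv_of_eq (zpow_ne_zero _ hwE) hG hdiv hfu'
  obtain ⟨ζ, hζ⟩ := Fermat.Agent.A2.Alg.H348.exists_primitiveRoot (R := R) q m hq hqR hm hqm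
  obtain ⟨κ, hfin, hinf⟩ := hP w hw q hq hqR α β x x' V₁ V₂ V₃ V₁' V₂' T m hm hqm ζ hζ u hu0
    hdivu hu₁ hu₂ hu₃ k₁ k₂ hk₁ hk₂
  haveI := T.dvr₁
  have hdisc : ∀ g : F, ∃ k : ℕ, g * algebraMap R F w ^ k ∈ V₁ :=
    exists_mul_pow_mem_of_unif V₁ T.unif₁.1 T.unif₁.2.1 T.unif₁.2.2
  obtain ⟨g, hg⟩ := S36.H193.exists_pow_eq_of_three E w hw q hq hqR T.hx T.hfin hm hqm hζ
    (f := u ^ ((q - 1) * (q + 1))) (pow_ne_zero _ hu0) V₁ V₂ V₃
    (hS w hw q hq hqR α β x x' V₁ V₂ V₃ V₁' V₂' T)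
    (sub_one_mem_nonunits_pow hu₁ _) (sub_one_mem_nonunits_pow hu₂ _)
    (sub_one_mem_nonunits_pow hu₃ _) T.base₁ T.unif₁.2.1 T.unif₁.2.2 hdisc κ hfin hinf
  have hg0 : g ≠ 0 := by
    rintro rfl
    rw [zero_pow hm.ne'] at hg
    exact pow_ne_zero _ hu0 hg.symm
  refine ⟨(algebraMap R E w ^ s) ^ ((q - 1) * (q + 1)), G ^ ((q - 1) * (q + 1)) * g,
    mul_ne_zero (pow_ne_zero _ hG) hg0, ?_⟩
  rw [alg3Const_eq, pow_mul, hfu', mul_pow, mul_pow, ← hg, map_pow, mul_pow, ← pow_mul, ← pow_mul,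
    mul_comm m ((q - 1) * (q + 1))]
  ring

/-- **ALG3 with explicit constant**, unconditionally. -/
theorem alg3C : Alg3CStatement :=
  alg3C_of_leaves S36.H586.leafStepA S36.H79.leafSheets S36.H630.leafPure

/-- The explicit form implies the frozen one. -/
theorem alg3Statement_of_alg3C (h : Alg3CStatement) : Alg3Statement := by
  intro R E F F' _ _ _ _ _ _ _ _ _ _ _ _ _ _ _ _ _ w hw q hq hqR α β x x' V₁ V₂ V₃ V₁' V₂' T
  exact ⟨alg3Const q, alg3Const_pos hq.two_le,
    h w hw q hq hqR α β x x' V₁ V₂ V₃ V₁' V₂' T⟩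

end Fermat.Agent.S59.LoSqC.H586

end

end
-- ===== PACK-END S59/LoSqC/H586/Alg3C.lean

-- ===== PACK-BEGIN S59/H826/Final32.lean
section
/-
Row S59, cell LO, leaf LO-SQ at `(p, q) = (3, 2)` — SOFT route: the frames exist, hence
LO-SQ at `(3, 2)` UNCONDITIONALLY (helper826 + helper316).

`frame32 : Frame32Statement` is assembled from
* helper316 (`S59/H316/`): `K2`, `TO`, `conjN`, the `S₃`-relations, `conj_TO`, `cor_TO`,
  `res_cor_two`, `alphaK`, `betaK`, `alpha_sigma`, `alpha_TO`, `beta_sigma`, `beta_alpha`, `key_K2`;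
* helper826 (`S59/H826/Bridge2.lean`): `inp826`, `inp826_hecke`, `TO_K2_comm826`.

`loSq32 : LoSq32Statement`, `loSq_three_two : ` LO-SQ in the shape of `H934.LoSqStatement` at
`p = 3`, `q = 2`.
-/





set_option autoImplicit false
set_option linter.style.haveILetI false

namespace Fermat.Agent.S59.H826

open CongruenceSubgroup Matrix.SpecialLinearGroup
open Fermat.Agent.S41.Spec Fermat.Agent.S29.H642 Fermat.Agent.S41.H761
open Fermat.Agent.S59.TW.H653 Fermat.Agent.S59.H316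
open scoped MatrixGroups

section Ops

variable {A : Type*} [AddCommGroup A]

theorem odd_of_not_dvd_mul_two826 {l M : ℕ} (hl : l.Prime) (h : ¬ l ∣ M * 2) : Odd l :=
  hl.odd_of_ne_two (by
    rintro rfl
    exact h (Dvd.intro_left _ rfl))

/-- `T_ℓ` on `Hom(K₂(M), A)` as an additive map (`0` unless `ℓ` is a prime not dividing `2M`). -/
noncomputable def TOhom826 (l M : ℕ) (A : Type*) [AddCommGroup A] :
    (Additive (K2 M) →+ A) →+ (Additive (K2 M) →+ A) :=
  open scoped Classical in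
  if h : l.Prime ∧ ¬ l ∣ M * 2 then
    haveI : Fact l.Prime := ⟨h.1⟩
    AddMonoidHom.mk' (TO l (K2 M))
      (TO_add (oddSys_K2 (fun hd => h.2 (Dvd.dvd.mul_right hd 2))
        (odd_of_not_dvd_mul_two826 h.1 h.2)))
  else 0

theorem TOhom826_apply {l M : ℕ} [Fact l.Prime] (h2 : ¬ l ∣ M * 2)
    (x : Additive (K2 M) →+ A) : TOhom826 l M A x = TO l (K2 M) x := by
  unfold TOhom826
  rw [dif_pos ⟨Fact.out, h2⟩]
  rfl

/-- conjugation by `g ∈ Γ₀(M)` as an additive map -/
def conjHom826 (M : ℕ) (g : SL(2, ℤ)) (hg : g ∈ Gamma0 M) (A : Type*) [AddCommGroup A] :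
    (Additive (K2 M) →+ A) →+ (Additive (K2 M) →+ A) :=
  AddMonoidHom.mk' (conjN M g hg) (fun x y => conjS_add (K2 M) g _ x y)

theorem conjHom826_apply (M : ℕ) (g : SL(2, ℤ)) (hg : g ∈ Gamma0 M)
    (x : Additive (K2 M) →+ A) : conjHom826 M g hg A x = conjN M g hg x := rfl

end Ops

theorem not_dvd_of_six826 {l N : ℕ} (h : ¬ l ∣ 6 * N) :
    ¬ l ∣ N * 2 * 2 ∧ ¬ l ∣ N * 2 ∧ ¬ l ∣ N ∨ ¬ l.Prime := by
  by_cases hl : l.Prime
  · left
    obtain ⟨h4, h2, -⟩ := not_dvd_of_not_dvd_six826 hl h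
    refine ⟨fun hd => h4 (by rwa [show 4 * N = N * 2 * 2 by ring]),
      fun hd => h2 (by rwa [show 2 * N = N * 2 by ring]),
      fun hd => h (Dvd.dvd.mul_left hd 6)⟩
  · exact Or.inr hl

/-- **The frames exist.** -/
theorem frame32 : Frame32Statement := by
  intro N r hN0 hN2 hrp hr6 hr3
  have hN : Odd N := Nat.odd_iff.mpr (by omega)
  haveI : Fact r.Prime := ⟨hrp⟩
  have hrN : ¬ r ∣ N := fun h => hr6 (Dvd.dvd.mul_left h 6)
  have hr2 : r ≠ 2 := by
    rintro rfl
    exact hr6 (Dvd.dvd.mul_right ⟨3, by norm_num⟩ N)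
  have hr : Odd r := hrp.odd_of_ne_two hr2
  have hNr : Odd (N * r) := hN.mul hr
  have hrN2 : ¬ r ∣ N * 2 := by
    intro h
    rcases (Nat.Prime.dvd_mul hrp).mp h with h' | h'
    · exact hrN h'
    · exact hr2 ((Nat.prime_dvd_prime_iff_eq hrp Nat.prime_two).mp h')
  -- primes not dividing `6 N` / `6 N r`
  have hP : ∀ l : ℕ, l.Prime → ¬ l ∣ 6 * N → ¬ l ∣ N * 2 * 2 ∧ ¬ l ∣ N * 2 ∧ ¬ l ∣ N := by
    intro l hl h
    rcases not_dvd_of_six826 h with h' | h'
    · exact h'
    · exact absurd hl h'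
  have hP' : ∀ l : ℕ, l.Prime → ¬ l ∣ 6 * N * r →
      ¬ l ∣ N * 2 ∧ ¬ l ∣ N * r * 2 ∧ ¬ l ∣ N * r := by
    intro l hl h
    have h6 : ¬ l ∣ 6 * N := fun hd => h (Dvd.dvd.mul_right hd r)
    have hlr : ¬ l ∣ r := fun hd => h (Dvd.dvd.mul_left hd (6 * N))
    obtain ⟨-, h2, h1⟩ := hP l hl h6
    have hl2 : ¬ l ∣ 2 := fun hd => h2 (Dvd.dvd.mul_left hd N)
    refine ⟨h2, ?_, ?_⟩
    · intro hd
      rcases (Nat.Prime.dvd_mul hl).mp hd with h' | h'
      · rcases (Nat.Prime.dvd_mul hl).mp h' with h'' | h''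
        · exact h1 h''
        · exact hlr h''
      · exact hl2 h'
    · intro hd
      rcases (Nat.Prime.dvd_mul hl).mp hd with h'' | h''
      · exact h1 h''
      · exact hlr h''
  haveI := finiteIndex_two hN
  refine ⟨{
    K := K2 N
    K' := K2 (N * r)
    fin := finiteIndex_K2 hN0
    T := fun l => TOhom826 l N (ZMod 3)
    σ := conjHom826 N (gS N) (gS_mem N) (ZMod 3)
    u := conjHom826 N gU (gU_mem N) (ZMod 3)
    hσ := fun x => sigma_cube hN x
    hu := fun x => u_sq x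
    huσ := fun x => u_sigma_u hN x
    hTT := ?_
    hTσ := ?_
    hTu := ?_
    inp := inp826 hN (ZMod 3)
    inp_inj := inp826_injective hN
    hinp := ?_
    out := AddMonoidHom.mk' (coresK (K2_le_Gamma0_two hN))
      (fun x y => Fermat.Agent.S41.H581.transferAlong_add _ x y)
    hout := ?_
    hout0 := ?_
    T' := fun l => TOhom826 l (N * r) (ZMod 3)
    σ' := conjHom826 (N * r) (gS (N * r)) (gS_mem (N * r)) (ZMod 3)
    α := AddMonoidHom.mk' (alphaK N r) (fun _ _ => rfl)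
    β := AddMonoidHom.mk' (betaK N r hr)
      (fun x y => Fermat.Agent.S41.H581.transferAlong_add _ x y)
    hβσ := fun w => beta_sigma hN hr w
    hασ := fun x => alpha_sigma hN hr x
    hβα := ?_
    hαT := ?_
    key := ?_ }⟩
  · -- hTT
    intro l l' hl hl6 hl' hl'6 x
    haveI : Fact l.Prime := ⟨hl⟩
    haveI : Fact l'.Prime := ⟨hl'⟩
    obtain ⟨h4, h2, -⟩ := hP l hl hl6
    obtain ⟨h4', h2', -⟩ := hP l' hl' hl'6
    rw [TOhom826_apply h2, TOhom826_apply h2', TOhom826_apply h2, TOhom826_apply h2']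
    exact TO_K2_comm826 hN h4 h4' x
  · -- hTσ
    intro l hl hl6 x
    haveI : Fact l.Prime := ⟨hl⟩
    obtain ⟨-, h2, h1⟩ := hP l hl hl6
    rw [TOhom826_apply h2, TOhom826_apply h2]
    exact conj_TO (oddSys_Gamma0 h1) (odd_of_not_dvd_mul_two826 hl h2) (K2_le_Gamma0 N)
      (K2_iff_Gamma0 N) (gS N) (gS_mem N) (K2_normal N _ (gS_mem N)) x
  · -- hTu
    intro l hl hl6 x
    haveI : Fact l.Prime := ⟨hl⟩
    obtain ⟨-, h2, h1⟩ := hP l hl hl6
    rw [TOhom826_apply h2, TOhom826_apply h2]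
    exact conj_TO (oddSys_Gamma0 h1) (odd_of_not_dvd_mul_two826 hl h2) (K2_le_Gamma0 N)
      (K2_iff_Gamma0 N) gU (gU_mem N) (K2_normal N _ (gU_mem N)) x
  · -- hinp
    intro l _ hl4 _ y
    have h2 : ¬ l ∣ N * 2 := fun hd => hl4 (Dvd.dvd.mul_right hd 2)
    rw [TOhom826_apply h2]
    exact inp826_hecke hN hl4 y
  · -- hout
    intro l hlF hl2 _ z
    rw [TOhom826_apply hl2]
    show coresK (K2_le_Gamma0_two hN) (TO l (K2 N) z) =
      heckeTransfer hl2 (coresK (K2_le_Gamma0_two hN) z)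
    rw [← TO_Gamma0 hl2]
    exact cor_TO (oddSys_Gamma0 hl2) (odd_of_not_dvd_mul_two826 hlF.out hl2)
      (K2_le_Gamma0_two hN) K2_iff_Gamma0_two z
  · -- hout0
    intro z huz hz
    have h1 := res_cor_two hN z
    have hz' : coresK (K2_le_Gamma0_two hN) z = 0 := hz
    have hu' : conjN N gU (gU_mem N) z = z := huz
    rw [hz', hu'] at h1
    have h2 : z + z = 0 := by
      rw [← h1]
      rfl
    refine AddMonoidHom.ext fun k => ?_
    have h3 : z k + z k = 0 := by
      have := congrArg (fun f : Additive (K2 N) →+ ZMod 3 => f k) h2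
      simpa using this
    have hdec : ∀ a : ZMod 3, a + a = 0 → a = 0 := by decide
    exact hdec _ h3
  · -- hβα
    intro x
    rw [TOhom826_apply hrN2]
    exact beta_alpha hr hrN x
  · -- hαT
    intro l hl hl6 x
    haveI : Fact l.Prime := ⟨hl⟩
    obtain ⟨h2, h2r, h1r⟩ := hP' l hl hl6
    rw [TOhom826_apply h2, TOhom826_apply h2r]
    exact alpha_TO h1r (odd_of_not_dvd_mul_two826 hl h2) x
  · -- key
    intro l hl hl6 c hc x' hfix hx
    haveI : Fact l.Prime := ⟨hl⟩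
    obtain ⟨h2, h2r, h1r⟩ := hP' l hl hl6
    rw [TOhom826_apply h2r] at hx
    exact key_K2 hNr hr3 (Dvd.intro_left N rfl) (odd_of_not_dvd_mul_two826 hl h2) h1r x' hfix c
      hx hc

/-- **LO-SQ at `(p, q) = (3, 2)`**, unconditional. -/
theorem loSq32 : LoSq32Statement := loSq32_826 frame32

/-- **LO-SQ at `(p, q) = (3, 2)`** in the shape of `H934.LoSqStatement`: for a semistable `W`
with irreducible `W[3]`, residually modular of a level `M` with `4 ∣ M`, `8 ∤ M`, the level can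
be divided by `2`. -/
theorem loSq_three_two (W : WeierstrassCurve ℤ) (hΔ : W.Δ ≠ 0) (hW : W.IsSemistableModel)
    (hirr : W.ModRepIsIrreducible 3) (M : ℕ) (hM : M ≠ 0)
    (hM3 : ∀ r : ℕ, r.Prime → r ≠ 3 → ¬ r ^ 3 ∣ M) (hq2 : 2 ^ 2 ∣ M)
    (hres : W.IsResiduallyModularOfLevel 3 M) :
    W.IsResiduallyModularOfLevel 3 (M / 2) :=
  loSq_three_two826 frame32 W hΔ hW hirr M hM hM3 hq2 hres

end Fermat.Agent.S59.H826

end
-- ===== PACK-END S59/H826/Final32.lean

-- ===== PACK-BEGIN S59/LoSqC/H630/Adapters.lean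
section


/-!
# S59 / cell (C) LO-SQ, leaf W-SUB, TORIC half: adapters (helper630)

* `toricWallE630` : the toric wall in the shape of the body of `H987.ToricWallE`
  (`u = α g * β g' * h ^ m`);
* `toricFromBelow630` : the toric wall in the shape of the body of `LoSqC.FromBelow`
  (`u = c * α g * β g' * h ^ m`, `g, g', h ≠ 0`);
* `labelAt_of_pair630` : a label `c` for the ordered pair of sheets `(V, V')` in the sense of
  the body of `H193.IsLabelAt` (values `η`, `η'` of one purity datum along `V`, `V'`,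
  `η' ≡ η ζ ^ c`) gives a label datum `H630.LabelAt` with colouring `V ↦ c`, `V' ↦ 0`;
* `lab1SurjE_of_pair630` : `Lab1SurjE` from surjectivity of the labels in the pair form.
-/

set_option autoImplicit false
set_option linter.unusedSectionVars false
set_option linter.unusedVariables false
set_option linter.style.haveILetI false
set_option synthInstance.maxHeartbeats 400000
set_option maxHeartbeats 1600000

namespace Fermat.Agent.S59.LoSqC.H630

open Fermat.Agent.S36.H630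
open Fermat.Agent.S18.H138 (chart mem_chart)
open Fermat.Agent.S36.Eng (TripleCtx)
open Fermat.Agent.A2 (DivisibleDiv)
open AlgebraicCurve

section Div

variable {E F : Type*} [Field E] [Field F] [Algebra E F]

theorem divisibleDiv_inv630 {m : ℕ} {f : F} (hf : DivisibleDiv E m f) :
    DivisibleDiv E m f⁻¹ := by
  intro V hV hE
  obtain ⟨h₁, u₁, hh₁, hu₁, hu₁', rfl⟩ := hf V hV hE
  refine ⟨h₁⁻¹, u₁⁻¹, inv_ne_zero hh₁, hu₁', ?_, ?_⟩
  · rw [inv_inv]
    exact hu₁
  · rw [mul_inv, inv_pow]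

end Div

section Shapes

universe u

variable {R E F F' : Type u} [CommRing R] [IsDomain R] [IsDiscreteValuationRing R]
  [HenselianLocalRing R] [IsAlgClosed (IsLocalRing.ResidueField R)]
  [Field E] [CharZero E] [Algebra R E] [IsFractionRing R E]
  [Field F] [Algebra E F] [Algebra R F] [IsScalarTower R E F]
  [Field F'] [Algebra E F'] [Algebra R F'] [IsScalarTower R E F']
  {w : R} {q : ℕ} {α β : F' →ₐ[E] F} {x : F} {x' : F'}
  {V₁ V₂ V₃ : ValuationSubring F} {V₁' V₂' : ValuationSubring F'}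

/-- **The toric wall**, shape `u = c * α g * β g' * h ^ m` with everything nonzero
(body of `LoSqC.FromBelow`, `c = 1`), keeping `g, g' ≡ 1` on `V₁'`, `V₂'`. -/
theorem toricFromBelow630 (ctx : TripleCtx w q α β x x' V₁ V₂ V₃ V₁' V₂')
    (hw : Irreducible w) (hq : q.Prime) (hqR : (q : R) ∈ IsLocalRing.maximalIdeal R)
    {m : ℕ} (hm : 0 < m) (hqm : ¬ q ∣ m) {ζ : R} (hζ : IsPrimitiveRoot ζ m)
    (hLab : Lab1SurjE E w x' V₁' V₂' m ζ)
    {u : F} (hdiv : DivisibleDiv E m u)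
    (hu₁ : u - 1 ∈ V₁.nonunits) (hu₂ : u - 1 ∈ V₂.nonunits) (hu₃ : u - 1 ∈ V₃.nonunits) :
    ∃ (c : E) (g g' : F') (h : F), g ≠ 0 ∧ g' ≠ 0 ∧ h ≠ 0 ∧
      DivisibleDiv E m g ∧ DivisibleDiv E m g' ∧
      u = algebraMap E F c * α g * β g' * h ^ m := by
  obtain ⟨g, g', h, hg0, hg'0, hgd, hg'd, -, -, -, -, hh0, hh⟩ :=
    toricWall630 ctx hw hq hqR hm hqm hζ hLab hdiv hu₁ hu₂ hu₃
  refine ⟨1, g⁻¹, g'⁻¹, h, inv_ne_zero hg0, inv_ne_zero hg'0, hh0, divisibleDiv_inv630 hgd,
    divisibleDiv_inv630 hg'd, ?_⟩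
  have hA0 : α g ≠ 0 := (map_ne_zero α).2 hg0
  have hB0 : β g' ≠ 0 := (map_ne_zero β).2 hg'0
  rw [map_one, one_mul, map_inv₀, map_inv₀, ← hh]
  field_simp

/-- **The toric wall**, shape of the body of `H987.ToricWallE`. -/
theorem toricWallE630 (ctx : TripleCtx w q α β x x' V₁ V₂ V₃ V₁' V₂')
    (hw : Irreducible w) (hq : q.Prime) (hqR : (q : R) ∈ IsLocalRing.maximalIdeal R)
    {m : ℕ} (hm : 0 < m) (hqm : ¬ q ∣ m) {ζ : R} (hζ : IsPrimitiveRoot ζ m)
    (hLab : Lab1SurjE E w x' V₁' V₂' m ζ) :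
    ∀ u : F, DivisibleDiv E m u → u - 1 ∈ V₁.nonunits → u - 1 ∈ V₂.nonunits →
      u - 1 ∈ V₃.nonunits →
      ∃ (g g' : F') (h : F), DivisibleDiv E m g ∧ DivisibleDiv E m g' ∧
        u = α g * β g' * h ^ m := by
  intro u hdiv hu₁ hu₂ hu₃
  obtain ⟨g₀, g₀', h₀, hg0, hg'0, hgd₀, hg'd₀, -, -, -, -, hh0, hh₀⟩ :=
    toricWall630 ctx hw hq hqR hm hqm hζ hLab hdiv hu₁ hu₂ hu₃
  refine ⟨g₀⁻¹, g₀'⁻¹, h₀, divisibleDiv_inv630 hgd₀, divisibleDiv_inv630 hg'd₀, ?_⟩
  have hA0 : α g₀ ≠ 0 := (map_ne_zero α).2 hg0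
  have hB0 : β g₀' ≠ 0 := (map_ne_zero β).2 hg'0
  rw [map_inv₀, map_inv₀, ← hh₀]
  field_simp

end Shapes

section Pair

variable {R : Type*} [CommRing R] {F : Type*} [Field F] [Algebra R F]
variable {B : Subalgebra R F} {n : Ideal B}

/-- **From the pair form of a label to the colouring form.**  One purity datum `d` of `u` at `n`
with values `η` along `V` and `η'` along `V'`, `η' ≡ η ζ ^ c` modulo `n` (body of
`H193.IsLabelAt B n V V' m ζ u c`), gives `LabelAt` with the colouring `V ↦ c`, `V' ↦ 0`. -/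
theorem labelAt_of_pair630 [hn : n.IsPrime] {V V' : ValuationSubring F} (hVV' : V ≠ V')
    {m : ℕ} (hm : 0 < m) {ζ : R} (hζ : ζ ^ m = 1) {u : F} {c : ℕ}
    (h : ∃ (d : F) (η η' : R),
      (d ≠ 0 ∧ ∃ a₀ s₀ : B, a₀ ∉ n ∧ s₀ ∉ n ∧ u * d ^ m * (s₀ : F) = a₀) ∧
      algebraMap R B η ∉ n ∧ ValAt B n V d η ∧ ValAt B n V' d η' ∧
      algebraMap R B (η' - η * ζ ^ c) ∈ n) :
    ∃ κ' : ValuationSubring F → ℕ, ζ ^ κ' V = ζ ^ c ∧ ζ ^ κ' V' = 1 ∧
      LabelAt B n {W | W = V ∨ W = V'} m u ζ κ' := by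
  classical
  obtain ⟨d, η, η', ⟨hd, a₀, s₀, ha₀, hs₀, hp⟩, hη, hv, hv', hl⟩ := h
  have hζu : IsUnit ζ := IsUnit.of_pow_eq_one hζ hm.ne'
  have hζc : algebraMap R B (ζ ^ c) ∉ n := by
    intro hmem
    exact hn.ne_top (n.eq_top_of_isUnit_mem hmem ((hζu.pow c).map (algebraMap R B)))
  have hη' : algebraMap R B η' ∉ n := by
    intro hmem
    have h1 : algebraMap R B (η * ζ ^ c) ∈ n := by
      have : algebraMap R B (η * ζ ^ c) = algebraMap R B η' - algebraMap R B (η' - η * ζ ^ c) := by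
        rw [map_sub]
        ring
      rw [this]
      exact n.sub_mem hmem hl
    rw [map_mul] at h1
    rcases hn.mem_or_mem h1 with h2 | h2
    · exact hη h2
    · exact hζc h2
  refine ⟨fun W => if W = V then c else 0, by simp, by simp [hVV'.symm], d, a₀, s₀, η', hd, hs₀,
    hp, hη', ?_⟩
  rintro W (rfl | rfl) hth
  · simp only [if_true]
    refine hv.congr_const ?_
    have e : η - η' * ζ ^ ((m - 1) * c) = -((η' - η * ζ ^ c) * ζ ^ ((m - 1) * c)) := by
      have h1 : ζ ^ c * ζ ^ ((m - 1) * c) = 1 := zeta_cancel630 hm hζ c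
      have : η - η' * ζ ^ ((m - 1) * c)
          = -((η' - η * ζ ^ c) * ζ ^ ((m - 1) * c)) + η * (1 - ζ ^ c * ζ ^ ((m - 1) * c)) := by
        ring
      rw [this, h1, sub_self, mul_zero, add_zero]
    rw [e, map_neg, map_mul]
    exact n.neg_mem (n.mul_mem_right _ hl)
  · simp only [if_neg hVV'.symm, mul_zero, pow_zero, mul_one]
    exact hv'

end Pair

section Surj

variable {R : Type*} [CommRing R] {E : Type*} [Field E] {F' : Type*} [Field F']
  [Algebra R F'] [Algebra E F']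

/-- **`Lab1SurjE` from surjectivity of the labels in the pair form** (`H193.IsLabelAt`). -/
theorem lab1SurjE_of_pair630 {w : R} {x' : F'} {V₁' V₂' : ValuationSubring F'}
    (hne : V₁' ≠ V₂') {m : ℕ} (hm : 0 < m) {ζ : R} (hζ : ζ ^ m = 1)
    (hsurj : ∀ lam : Ideal (chart R ({x'} : Set F')) → ℕ,
      ∃ g : F', g ≠ 0 ∧ DivisibleDiv E m g ∧ g - 1 ∈ V₁'.nonunits ∧ g - 1 ∈ V₂'.nonunits ∧
        ∀ n' : Ideal (chart R ({x'} : Set F')), n'.IsMaximal →
          algebraMap R (chart R ({x'} : Set F')) w ∈ n' →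
          PassThrough (chart R ({x'} : Set F')) n' V₁' →
          PassThrough (chart R ({x'} : Set F')) n' V₂' →
          ∃ (d : F') (η η' : R),
            (d ≠ 0 ∧ ∃ a₀ s₀ : chart R ({x'} : Set F'), a₀ ∉ n' ∧ s₀ ∉ n' ∧
              g * d ^ m * (s₀ : F') = a₀) ∧
            algebraMap R (chart R ({x'} : Set F')) η ∉ n' ∧
            ValAt (chart R ({x'} : Set F')) n' V₁' d η ∧
            ValAt (chart R ({x'} : Set F')) n' V₂' d η' ∧
            algebraMap R (chart R ({x'} : Set F')) (η' - η * ζ ^ lam n') ∈ n') :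
    Lab1SurjE E w x' V₁' V₂' m ζ := by
  intro lam
  obtain ⟨g, hg0, hgd, hg1, hg2, hlab⟩ := hsurj lam
  refine ⟨g, hg0, hgd, hg1, hg2, fun n' hn' hwn' h1 h2 => ?_⟩
  haveI : n'.IsPrime := hn'.isPrime
  exact labelAt_of_pair630 hne hm hζ (hlab n' hn' hwn' h1 h2)

end Surj

end Fermat.Agent.S59.LoSqC.H630

end
-- ===== PACK-END S59/LoSqC/H630/Adapters.lean

-- ===== PACK-BEGIN S59/LoSqC/H27/PullCtx.lean
section



/-!
# S59 moonshot, cell (C) LO-SQ, leaf W-PULL (reduction half), part 2 (helper27)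

The REDUCTION TABLE of the two degeneracy maps `α, β : F' → F` of a three-component context
`Eng.TripleCtx w q α β x x' V₁ V₂ V₃ V₁' V₂'` (binders of `Eng.Alg3Statement`):

    via α :  V₁ | V₁' (f = 1)    V₂ | V₁' (f = 1)    V₃ | V₂' (f = q, purely inseparable)
    via β :  V₃ | V₂' (f = 1)    V₂ | V₂' (f = 1)    V₁ | V₁' (f = q, purely inseparable)

so that for `g ∈ F'` with reductions `(r∞, r₀)` on `(V₁', V₂')`

    α g  has reductions  (r∞, r∞, φ r₀)  on  (V₁, V₂, V₃),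
    β g  has reductions  (φ r∞, r₀, r₀)  on  (V₁, V₂, V₃)       (φ = Frobenius, bijective on
                                                                  classes modulo `m`-th powers).

* `normTables_of_ctx`      : the two `H586.NormTable`s of the context (exported; inside
                             `H586.leafStepA` on main they are local);
* `unitAt_α₁ … unitAt_β₃`  : (P1) units;
* `congr_α₁ … congr_β₃`    : (P2) congruences modulo the maximal ideals;
* `isResPow_α₁ … isResPow_β₃` : (P3) `m`-th power residues, as EQUIVALENCES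
                             (`gcd(q, m) = 1` only at the two purely inseparable pairs);
* `exists_lift_α₁ …`       : (LIFT) every unit of `V_i` comes from a unit of `V_j'`
                             (modulo `m`-th powers at the purely inseparable pairs);
* `divisibleDiv_α`, `divisibleDiv_β` : (P4);
* `pull_sub_raw`           : the LINEAR ALGEBRA of the subtraction step: for a unit `u` of
                             `V₁, V₂, V₃` there are units `y, t, z` of level `q M'` such that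
                             `u / (α g · β g')` has `m`-th power residues at `V₁, V₂, V₃`
                             for ALL `g ~ (1, z)`, `g' ~ (y, t)`; `y = 1` if `u ≡ 1` on `V₁`.
-/

set_option autoImplicit false
set_option linter.unusedSectionVars false
set_option linter.unusedVariables false
set_option linter.style.haveILetI false
set_option synthInstance.maxHeartbeats 400000
set_option maxHeartbeats 1600000

noncomputable section

namespace Fermat.Agent.S59.LoSqC.H27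

open Fermat.Agent.S36.Eng Fermat.Agent.S36.H586
open Fermat.Agent.S18.H138 (chart baseField)
open Fermat.Agent.A2.H12 (IsSheet SplitAt)

universe u

section Ctx

variable {R : Type u} [CommRing R] [IsDomain R] [IsDiscreteValuationRing R]
  [HenselianLocalRing R] [IsAlgClosed (IsLocalRing.ResidueField R)]
variable {E : Type u} [Field E] [CharZero E] [Algebra R E] [IsFractionRing R E]
variable {F : Type u} [Field F] [Algebra E F] [Algebra R F] [IsScalarTower R E F]
variable {F' : Type u} [Field F'] [Algebra E F'] [Algebra R F'] [IsScalarTower R E F']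
variable {w : R} {q : ℕ} {α β : F' →ₐ[E] F} {x : F} {x' : F'}
variable {V₁ V₂ V₃ : ValuationSubring F} {V₁' V₂' : ValuationSubring F'}

/-! ### lying over -/

theorem ov_α₁ (T : TripleCtx w q α β x x' V₁ V₂ V₃ V₁' V₂') :
    ∀ a : F', (α : F' →+* F) a ∈ V₁ ↔ a ∈ V₁' := over_of_comap T.comap_α₁

theorem ov_α₂ (T : TripleCtx w q α β x x' V₁ V₂ V₃ V₁' V₂') :
    ∀ a : F', (α : F' →+* F) a ∈ V₂ ↔ a ∈ V₁' := over_of_comap T.comap_α₂

theorem ov_α₃ (T : TripleCtx w q α β x x' V₁ V₂ V₃ V₁' V₂') :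
    ∀ a : F', (α : F' →+* F) a ∈ V₃ ↔ a ∈ V₂' := over_of_comap T.comap_α₃

theorem ov_β₁ (T : TripleCtx w q α β x x' V₁ V₂ V₃ V₁' V₂') :
    ∀ a : F', (β : F' →+* F) a ∈ V₁ ↔ a ∈ V₁' := over_of_comap T.comap_β₁

theorem ov_β₂ (T : TripleCtx w q α β x x' V₁ V₂ V₃ V₁' V₂') :
    ∀ a : F', (β : F' →+* F) a ∈ V₂ ↔ a ∈ V₂' := over_of_comap T.comap_β₂

theorem ov_β₃ (T : TripleCtx w q α β x x' V₁ V₂ V₃ V₁' V₂') :
    ∀ a : F', (β : F' →+* F) a ∈ V₃ ↔ a ∈ V₂' := over_of_comap T.comap_β₃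

/-! ### (P1) units -/

theorem unitAt_α₁ (T : TripleCtx w q α β x x' V₁ V₂ V₃ V₁' V₂') (g : F') :
    UnitAt V₁ (α g) ↔ UnitAt V₁' g := over_unitAt (ov_α₁ T) g

theorem unitAt_α₂ (T : TripleCtx w q α β x x' V₁ V₂ V₃ V₁' V₂') (g : F') :
    UnitAt V₂ (α g) ↔ UnitAt V₁' g := over_unitAt (ov_α₂ T) g

theorem unitAt_α₃ (T : TripleCtx w q α β x x' V₁ V₂ V₃ V₁' V₂') (g : F') :
    UnitAt V₃ (α g) ↔ UnitAt V₂' g := over_unitAt (ov_α₃ T) g

theorem unitAt_β₁ (T : TripleCtx w q α β x x' V₁ V₂ V₃ V₁' V₂') (g : F') :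
    UnitAt V₁ (β g) ↔ UnitAt V₁' g := over_unitAt (ov_β₁ T) g

theorem unitAt_β₂ (T : TripleCtx w q α β x x' V₁ V₂ V₃ V₁' V₂') (g : F') :
    UnitAt V₂ (β g) ↔ UnitAt V₂' g := over_unitAt (ov_β₂ T) g

theorem unitAt_β₃ (T : TripleCtx w q α β x x' V₁ V₂ V₃ V₁' V₂') (g : F') :
    UnitAt V₃ (β g) ↔ UnitAt V₂' g := over_unitAt (ov_β₃ T) g

/-! ### (P2) congruences -/

theorem congr_α₁ (T : TripleCtx w q α β x x' V₁ V₂ V₃ V₁' V₂') (g h : F') :
    α g - α h ∈ V₁.nonunits ↔ g - h ∈ V₁'.nonunits := over_sub_mem_nonunits (ov_α₁ T) g h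

theorem congr_α₂ (T : TripleCtx w q α β x x' V₁ V₂ V₃ V₁' V₂') (g h : F') :
    α g - α h ∈ V₂.nonunits ↔ g - h ∈ V₁'.nonunits := over_sub_mem_nonunits (ov_α₂ T) g h

theorem congr_α₃ (T : TripleCtx w q α β x x' V₁ V₂ V₃ V₁' V₂') (g h : F') :
    α g - α h ∈ V₃.nonunits ↔ g - h ∈ V₂'.nonunits := over_sub_mem_nonunits (ov_α₃ T) g h

theorem congr_β₁ (T : TripleCtx w q α β x x' V₁ V₂ V₃ V₁' V₂') (g h : F') :
    β g - β h ∈ V₁.nonunits ↔ g - h ∈ V₁'.nonunits := over_sub_mem_nonunits (ov_β₁ T) g h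

theorem congr_β₂ (T : TripleCtx w q α β x x' V₁ V₂ V₃ V₁' V₂') (g h : F') :
    β g - β h ∈ V₂.nonunits ↔ g - h ∈ V₂'.nonunits := over_sub_mem_nonunits (ov_β₂ T) g h

theorem congr_β₃ (T : TripleCtx w q α β x x' V₁ V₂ V₃ V₁' V₂') (g h : F') :
    β g - β h ∈ V₃.nonunits ↔ g - h ∈ V₂'.nonunits := over_sub_mem_nonunits (ov_β₃ T) g h

/-! ### residue lifts (valuation form) -/

/-- The four residue-degree-one lifts and the two purely inseparable ones, in valuation form. -/
theorem res_lifts_of_ctx (hw : Irreducible w) (hq : 2 ≤ q)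
    (T : TripleCtx w q α β x x' V₁ V₂ V₃ V₁' V₂') :
    (∀ y : F, V₁.valuation y = 1 → ∃ a : F', V₁.valuation (y - (α : F' →+* F) a) < 1) ∧
    (∀ y : F, V₂.valuation y = 1 → ∃ a : F', V₂.valuation (y - (α : F' →+* F) a) < 1) ∧
    (∀ y : F, V₃.valuation y = 1 → ∃ c : F', V₃.valuation (y ^ q - (α : F' →+* F) c) < 1) ∧
    (∀ y : F, V₁.valuation y = 1 → ∃ c : F', V₁.valuation (y ^ q - (β : F' →+* F) c) < 1) ∧
    (∀ y : F, V₂.valuation y = 1 → ∃ a : F', V₂.valuation (y - (β : F' →+* F) a) < 1) ∧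
    (∀ y : F, V₃.valuation y = 1 → ∃ a : F', V₃.valuation (y - (β : F' →+* F) a) < 1) := by
  obtain ⟨s₁, s₂, s₃⟩ := Fermat.Agent.S36.H919.h919_isSheet_of_ctx hq T
  haveI : CharZero F := charZero_of_injective_algebraMap (algebraMap E F).injective
  haveI : FiniteDimensional (baseField R x) F :=
    Fermat.Agent.S36.H919.h919_finiteDimensional E T.hfin
  have hinj : Function.Injective (algebraMap R F) := Fermat.Agent.S36.H919.h919_injective E
  have hxR : Transcendental R x := Fermat.Agent.S36.H919.h919_transcendental E T.hx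
  refine ⟨?_, ?_, ?_, ?_, ?_, ?_⟩
  · exact res_lift_of_chart hinj hw.prime hxR s₁ (α : F' →+* F)
      (fun b hb => let ⟨b', _, h⟩ := T.res_α₁ b hb; ⟨b', h⟩)
  · exact res_lift_of_chart hinj hw.prime hxR s₂ (α : F' →+* F)
      (fun b hb => let ⟨b', _, h⟩ := T.res_α₂ b hb; ⟨b', h⟩)
  · intro y hy
    refine ⟨S29.H395.normAlong α y, ?_⟩
    have h := T.nr_α₂ y (unitAt_iff.2 hy)
    rw [← Valuation.map_neg, neg_sub]
    exact (ValuationSubring.mem_nonunits_iff V₃).1 h
  · intro y hy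
    refine ⟨S29.H395.normAlong β y, ?_⟩
    have h := T.nr_β₂ y (unitAt_iff.2 hy)
    rw [← Valuation.map_neg, neg_sub]
    exact (ValuationSubring.mem_nonunits_iff V₁).1 h
  · exact res_lift_of_chart hinj hw.prime hxR s₂ (β : F' →+* F)
      (fun b hb => let ⟨b', _, h⟩ := T.res_β₂ b hb; ⟨b', h⟩)
  · exact res_lift_of_chart hinj hw.prime hxR s₃ (β : F' →+* F)
      (fun b hb => let ⟨b', _, h⟩ := T.res_β₃ b hb; ⟨b', h⟩)

/-- **The two norm tables of a three-component context** (as in `H586.leafStepA`). -/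
theorem normTables_of_ctx (hw : Irreducible w) (hq : q.Prime)
    (T : TripleCtx w q α β x x' V₁ V₂ V₃ V₁' V₂') :
    ∃ π : F, UnifAt V₂ π ∧ UnitAt V₂ (algebraMap R F w * (π ^ (q - 1))⁻¹) ∧
      NormTable (α : F' →+* F) (S29.H395.normAlong α) q (algebraMap R F' w) π
        V₁' V₂' V₁ V₂ V₃ ∧
      NormTable (β : F' →+* F) (S29.H395.normAlong β) q (algebraMap R F' w) π
        V₂' V₁' V₃ V₂ V₁ := by
  haveI := T.dvr₁
  haveI := T.dvr₂
  haveI := T.dvr₃
  obtain ⟨π, hπ, hram⟩ := T.ram₂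
  obtain ⟨rα₁, rα₂, -, -, rβ₂, rβ₃⟩ := res_lifts_of_ctx hw hq.two_le T
  have hαw : α (algebraMap R F' w) = algebraMap R F w := by
    rw [IsScalarTower.algebraMap_apply R E F', α.commutes,
      ← IsScalarTower.algebraMap_apply R E F]
  have hβw : β (algebraMap R F' w) = algebraMap R F w := by
    rw [IsScalarTower.algebraMap_apply R E F', β.commutes,
      ← IsScalarTower.algebraMap_apply R E F]
  refine ⟨π, hπ, hram, ?_, ?_⟩
  · exact normTable_of_fields α q hq.pos (algebraMap R F' w) (algebraMap R F w) π hαw V₁' V₂'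
      V₁ V₂ V₃ T.unif₁ T.unif₃ hπ hram T.comap_α₁ T.comap_α₂ T.comap_α₃ rα₁ rα₂ (T.nv_α π hπ)
      T.nr_α₁ T.nr_α₂
  · exact normTable_of_fields β q hq.pos (algebraMap R F' w) (algebraMap R F w) π hβw V₂' V₁'
      V₃ V₂ V₁ T.unif₃ T.unif₁ hπ hram T.comap_β₃ T.comap_β₂ T.comap_β₁ rβ₃ rβ₂
      (fun y au ar ai hy hu hr hi => T.nv_β π hπ y ai ar au hy hi hr hu) T.nr_β₁ T.nr_β₂

/-! ### (P3) `m`-th power residues -/

theorem isResPow_α₁ (hw : Irreducible w) (hq : 2 ≤ q)
    (T : TripleCtx w q α β x x' V₁ V₂ V₃ V₁' V₂') (m : ℕ) (g : F') :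
    IsResPow m V₁ (α g) ↔ IsResPow m V₁' g :=
  ⟨isResPow_down_res (φ := (α : F' →+* F)) (ov_α₁ T) (res_lifts_of_ctx hw hq T).1,
    isResPow_up (φ := (α : F' →+* F)) (ov_α₁ T)⟩

theorem isResPow_α₂ (hw : Irreducible w) (hq : 2 ≤ q)
    (T : TripleCtx w q α β x x' V₁ V₂ V₃ V₁' V₂') (m : ℕ) (g : F') :
    IsResPow m V₂ (α g) ↔ IsResPow m V₁' g :=
  ⟨isResPow_down_res (φ := (α : F' →+* F)) (ov_α₂ T) (res_lifts_of_ctx hw hq T).2.1,
    isResPow_up (φ := (α : F' →+* F)) (ov_α₂ T)⟩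

theorem isResPow_α₃ (hw : Irreducible w) (hq : 2 ≤ q)
    (T : TripleCtx w q α β x x' V₁ V₂ V₃ V₁' V₂') {m : ℕ} (hm : 0 < m)
    (hqm : Nat.Coprime q m) (g : F') :
    IsResPow m V₃ (α g) ↔ IsResPow m V₂' g :=
  ⟨isResPow_down_insep (φ := (α : F' →+* F)) (ov_α₃ T) (res_lifts_of_ctx hw hq T).2.2.1 hm hqm,
    isResPow_up (φ := (α : F' →+* F)) (ov_α₃ T)⟩

theorem isResPow_β₁ (hw : Irreducible w) (hq : 2 ≤ q)
    (T : TripleCtx w q α β x x' V₁ V₂ V₃ V₁' V₂') {m : ℕ} (hm : 0 < m)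
    (hqm : Nat.Coprime q m) (g : F') :
    IsResPow m V₁ (β g) ↔ IsResPow m V₁' g :=
  ⟨isResPow_down_insep (φ := (β : F' →+* F)) (ov_β₁ T) (res_lifts_of_ctx hw hq T).2.2.2.1
      hm hqm,
    isResPow_up (φ := (β : F' →+* F)) (ov_β₁ T)⟩

theorem isResPow_β₂ (hw : Irreducible w) (hq : 2 ≤ q)
    (T : TripleCtx w q α β x x' V₁ V₂ V₃ V₁' V₂') (m : ℕ) (g : F') :
    IsResPow m V₂ (β g) ↔ IsResPow m V₂' g :=
  ⟨isResPow_down_res (φ := (β : F' →+* F)) (ov_β₂ T) (res_lifts_of_ctx hw hq T).2.2.2.2.1,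
    isResPow_up (φ := (β : F' →+* F)) (ov_β₂ T)⟩

theorem isResPow_β₃ (hw : Irreducible w) (hq : 2 ≤ q)
    (T : TripleCtx w q α β x x' V₁ V₂ V₃ V₁' V₂') (m : ℕ) (g : F') :
    IsResPow m V₃ (β g) ↔ IsResPow m V₂' g :=
  ⟨isResPow_down_res (φ := (β : F' →+* F)) (ov_β₃ T) (res_lifts_of_ctx hw hq T).2.2.2.2.2,
    isResPow_up (φ := (β : F' →+* F)) (ov_β₃ T)⟩

/-! ### (LIFT) -/

theorem exists_lift_α₁ (hw : Irreducible w) (hq : 2 ≤ q)
    (T : TripleCtx w q α β x x' V₁ V₂ V₃ V₁' V₂') {y : F} (hy : UnitAt V₁ y) :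
    ∃ a : F', UnitAt V₁' a ∧ y / α a - 1 ∈ V₁.nonunits := by
  obtain ⟨a, ha, hpu⟩ := exists_lift_res (φ := (α : F' →+* F)) (ov_α₁ T)
    (res_lifts_of_ctx hw hq T).1 (unitAt_iff.1 hy)
  exact ⟨a, unitAt_iff.2 ha, pu_iff.1 hpu⟩

theorem exists_lift_α₂ (hw : Irreducible w) (hq : 2 ≤ q)
    (T : TripleCtx w q α β x x' V₁ V₂ V₃ V₁' V₂') {y : F} (hy : UnitAt V₂ y) :
    ∃ a : F', UnitAt V₁' a ∧ y / α a - 1 ∈ V₂.nonunits := by
  obtain ⟨a, ha, hpu⟩ := exists_lift_res (φ := (α : F' →+* F)) (ov_α₂ T)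
    (res_lifts_of_ctx hw hq T).2.1 (unitAt_iff.1 hy)
  exact ⟨a, unitAt_iff.2 ha, pu_iff.1 hpu⟩

theorem exists_lift_α₃ (hw : Irreducible w) (hq : 2 ≤ q)
    (T : TripleCtx w q α β x x' V₁ V₂ V₃ V₁' V₂') {m : ℕ} (hqm : Nat.Coprime q m)
    {y : F} (hy : UnitAt V₃ y) :
    ∃ (a : F') (G : F), UnitAt V₂' a ∧ UnitAt V₃ G ∧ y / (α a * G ^ m) - 1 ∈ V₃.nonunits := by
  obtain ⟨a, G, ha, hG, hpu⟩ := exists_lift_insep (φ := (α : F' →+* F)) (ov_α₃ T)
    (res_lifts_of_ctx hw hq T).2.2.1 hqm (unitAt_iff.1 hy)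
  exact ⟨a, G, unitAt_iff.2 ha, unitAt_iff.2 hG, pu_iff.1 hpu⟩

theorem exists_lift_β₁ (hw : Irreducible w) (hq : 2 ≤ q)
    (T : TripleCtx w q α β x x' V₁ V₂ V₃ V₁' V₂') {m : ℕ} (hqm : Nat.Coprime q m)
    {y : F} (hy : UnitAt V₁ y) :
    ∃ (a : F') (G : F), UnitAt V₁' a ∧ UnitAt V₁ G ∧ y / (β a * G ^ m) - 1 ∈ V₁.nonunits := by
  obtain ⟨a, G, ha, hG, hpu⟩ := exists_lift_insep (φ := (β : F' →+* F)) (ov_β₁ T)
    (res_lifts_of_ctx hw hq T).2.2.2.1 hqm (unitAt_iff.1 hy)
  exact ⟨a, G, unitAt_iff.2 ha, unitAt_iff.2 hG, pu_iff.1 hpu⟩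

theorem exists_lift_β₂ (hw : Irreducible w) (hq : 2 ≤ q)
    (T : TripleCtx w q α β x x' V₁ V₂ V₃ V₁' V₂') {y : F} (hy : UnitAt V₂ y) :
    ∃ a : F', UnitAt V₂' a ∧ y / β a - 1 ∈ V₂.nonunits := by
  obtain ⟨a, ha, hpu⟩ := exists_lift_res (φ := (β : F' →+* F)) (ov_β₂ T)
    (res_lifts_of_ctx hw hq T).2.2.2.2.1 (unitAt_iff.1 hy)
  exact ⟨a, unitAt_iff.2 ha, pu_iff.1 hpu⟩

theorem exists_lift_β₃ (hw : Irreducible w) (hq : 2 ≤ q)
    (T : TripleCtx w q α β x x' V₁ V₂ V₃ V₁' V₂') {y : F} (hy : UnitAt V₃ y) :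
    ∃ a : F', UnitAt V₂' a ∧ y / β a - 1 ∈ V₃.nonunits := by
  obtain ⟨a, ha, hpu⟩ := exists_lift_res (φ := (β : F' →+* F)) (ov_β₃ T)
    (res_lifts_of_ctx hw hq T).2.2.2.2.2 (unitAt_iff.1 hy)
  exact ⟨a, unitAt_iff.2 ha, pu_iff.1 hpu⟩

/-! ### (P4) -/

theorem divisibleDiv_α {m : ℕ} {g : F'} (h : Fermat.Agent.A2.DivisibleDiv E m g) :
    Fermat.Agent.A2.DivisibleDiv E m (α g) := divisibleDiv_map α h

theorem divisibleDiv_β {m : ℕ} {g : F'} (h : Fermat.Agent.A2.DivisibleDiv E m g) :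
    Fermat.Agent.A2.DivisibleDiv E m (β g) := divisibleDiv_map β h

/-! ### the linear algebra of the subtraction step -/

/-- **The reduction table is onto** (raw form, no divisibility).  For a unit `u` of
`V₁, V₂, V₃` and `m` prime to `q` there are units `y` of `V₁'` and `t, z` of `V₂'` such that for
ALL `g, g' ∈ F'` with reductions `g ~ (1, z)`, `g' ~ (y, t)` modulo `m`-th powers on
`(V₁', V₂')` the quotient `u / (α g · β g')` has `m`-th power residues at `V₁`, `V₂`, `V₃`.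
If `u` has an `m`-th power residue at `V₁` one can take `y = 1`. -/
theorem pull_sub_raw (hw : Irreducible w) (hq : 2 ≤ q)
    (T : TripleCtx w q α β x x' V₁ V₂ V₃ V₁' V₂') {m : ℕ} (hm : 0 < m)
    (hqm : Nat.Coprime q m) {u : F} (hu₁ : UnitAt V₁ u) (hu₂ : UnitAt V₂ u)
    (hu₃ : UnitAt V₃ u) :
    ∃ y t z : F', UnitAt V₁' y ∧ UnitAt V₂' t ∧ UnitAt V₂' z ∧
      (IsResPow m V₁ u → y = 1) ∧
      ∀ g g' : F', IsResPow m V₁' g → IsResPow m V₂' (g / z) →
        IsResPow m V₁' (g' / y) → IsResPow m V₂' (g' / t) →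
        IsResPow m V₁ (u / (α g * β g')) ∧ IsResPow m V₂ (u / (α g * β g')) ∧
          IsResPow m V₃ (u / (α g * β g')) := by
  classical
  -- `t`: the residue of `u` at `V₂`, read at `V₂'` through `β`
  obtain ⟨t, ht, hput⟩ := exists_lift_res (φ := (β : F' →+* F)) (ov_β₂ T)
    (res_lifts_of_ctx hw hq T).2.2.2.2.1 (unitAt_iff.1 hu₂)
  -- `y`: the residue of `u` at `V₁`, read at `V₁'` through `β` (purely inseparable)
  have hy : ∃ y : F', V₁'.valuation y = 1 ∧ IsResPow m V₁ (u / (β : F' →+* F) y) ∧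
      (IsResPow m V₁ u → y = 1) := by
    by_cases h1 : IsResPow m V₁ u
    · refine ⟨1, map_one _, ?_, fun _ => rfl⟩
      rw [map_one, div_one]
      exact h1
    · obtain ⟨y, G, hy1, hG, hpu⟩ := exists_lift_insep (φ := (β : F' →+* F)) (ov_β₁ T)
        (res_lifts_of_ctx hw hq T).2.2.2.1 hqm (unitAt_iff.1 hu₁)
      refine ⟨y, hy1, ⟨G, hG, ?_⟩, fun h => absurd h h1⟩
      have hβy : V₁.valuation ((β : F' →+* F) y) = 1 := (over_val_eq_one (ov_β₁ T) y).2 hy1
      have e : u / (β : F' →+* F) y / G ^ m = u / ((β : F' →+* F) y * G ^ m) := by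
        rw [div_div]
      rw [e]
      exact hpu
  obtain ⟨y, hy1, hyres, hyone⟩ := hy
  -- `z`: the residue of `u / β t` at `V₃`, read at `V₂'` through `α` (purely inseparable)
  have hβt₃ : V₃.valuation ((β : F' →+* F) t) = 1 := (over_val_eq_one (ov_β₃ T) t).2 ht
  have hut₃ : V₃.valuation (u / (β : F' →+* F) t) = 1 := by
    rw [map_div₀, unitAt_iff.1 hu₃, hβt₃, div_one]
  obtain ⟨z, G, hz1, hG, hpuz⟩ := exists_lift_insep (φ := (α : F' →+* F)) (ov_α₃ T)
    (res_lifts_of_ctx hw hq T).2.2.1 hqm hut₃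
  refine ⟨y, t, z, unitAt_iff.2 hy1, unitAt_iff.2 ht, unitAt_iff.2 hz1, hyone, ?_⟩
  intro g g' hg₁ hg₂ hg'₁ hg'₂
  -- nonvanishing
  have hy0 : y ≠ 0 := ne_of_val hy1
  have ht0 : t ≠ 0 := ne_of_val ht
  have hz0 : z ≠ 0 := ne_of_val hz1
  have hg0 : g ≠ 0 := hg₁.ne_zero
  have hg'0 : g' ≠ 0 := by
    intro h
    have := hg'₁.ne_zero
    rw [h, zero_div] at this
    exact this rfl
  have hαg0 : (α : F' →+* F) g ≠ 0 := (map_ne_zero _).2 hg0
  have hβg'0 : (β : F' →+* F) g' ≠ 0 := (map_ne_zero _).2 hg'0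
  have hβy0 : (β : F' →+* F) y ≠ 0 := (map_ne_zero _).2 hy0
  have hβt0 : (β : F' →+* F) t ≠ 0 := (map_ne_zero _).2 ht0
  have hαz0 : (α : F' →+* F) z ≠ 0 := (map_ne_zero _).2 hz0
  have hu0 : u ≠ 0 := hu₁.1
  refine ⟨?_, ?_, ?_⟩
  · -- at `V₁`: `α g ~ 1`, `β g' ~ β y ~ u`
    have a1 : IsResPow m V₁ ((α : F' →+* F) g) := isResPow_up (ov_α₁ T) hg₁
    have a2 : IsResPow m V₁ ((β : F' →+* F) (g' / y)) := isResPow_up (ov_β₁ T) hg'₁
    have e : u / (α g * β g') =
        (u / (β : F' →+* F) y) / ((α : F' →+* F) g * (β : F' →+* F) (g' / y)) := by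
      rw [map_div₀]
      show u / ((α : F' →+* F) g * (β : F' →+* F) g') = _
      field_simp
    rw [e]
    exact hyres.div (a1.mul a2)
  · -- at `V₂`: `α g ~ 1`, `β g' ~ β t ≡ u`
    have a1 : IsResPow m V₂ ((α : F' →+* F) g) := isResPow_up (ov_α₂ T) hg₁
    have a2 : IsResPow m V₂ ((β : F' →+* F) (g' / t)) := isResPow_up (ov_β₂ T) hg'₂
    have a3 : IsResPow m V₂ (u / (β : F' →+* F) t) := isResPow_of_pu hput
    have e : u / (α g * β g') =
        (u / (β : F' →+* F) t) / ((α : F' →+* F) g * (β : F' →+* F) (g' / t)) := by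
      rw [map_div₀]
      show u / ((α : F' →+* F) g * (β : F' →+* F) g') = _
      field_simp
    rw [e]
    exact a3.div (a1.mul a2)
  · -- at `V₃`: `α g ~ α z ~ u / β t`, `β g' ~ β t`
    have a1 : IsResPow m V₃ ((α : F' →+* F) (g / z)) := isResPow_up (ov_α₃ T) hg₂
    have a2 : IsResPow m V₃ ((β : F' →+* F) (g' / t)) := isResPow_up (ov_β₃ T) hg'₂
    have a3 : IsResPow m V₃ (u / (β : F' →+* F) t / (α : F' →+* F) z) := by
      refine ⟨G, hG, ?_⟩
      have e : u / (β : F' →+* F) t / (α : F' →+* F) z / G ^ m =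
          u / (β : F' →+* F) t / ((α : F' →+* F) z * G ^ m) := by
        rw [div_div]
      rw [e]
      exact hpuz
    have e : u / (α g * β g') =
        (u / (β : F' →+* F) t / (α : F' →+* F) z) /
          ((α : F' →+* F) (g / z) * (β : F' →+* F) (g' / t)) := by
      rw [map_div₀, map_div₀]
      show u / ((α : F' →+* F) g * (β : F' →+* F) g') = _
      field_simp
    rw [e]
    exact a3.div (a1.mul a2)

end Ctx

end Fermat.Agent.S59.LoSqC.H27

end

end
-- ===== PACK-END S59/LoSqC/H27/PullCtx.lean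

-- ===== PACK-BEGIN S59/LoSqC/H27/SurjECtx.lean
section




/-!
# S59 moonshot, cell (C) LO-SQ, adapter SURJ-E: the facts of level `M q` contained in a
three-component context (helper27)

For `Eng.TripleCtx w q α β x x' V₁ V₂ V₃ V₁' V₂'`:

* `ctx_unif₁'`, `ctx_unif₂'` : `w` is a uniformiser of `V₁'` and of `V₂'`;
* `ctx_dvr₁'`, `ctx_dvr₂'`   : `V₁'`, `V₂'` are discrete valuation rings;
* `ctx_ne'`                  : `V₁' ≠ V₂'`
  (`nv_α` at an element of orders `(1, 0, 0)` at `(V₁, V₂, V₃)`).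
-/

set_option autoImplicit false
set_option linter.unusedSectionVars false
set_option linter.unusedVariables false
set_option linter.style.haveILetI false
set_option synthInstance.maxHeartbeats 400000
set_option maxHeartbeats 1600000

noncomputable section

namespace Fermat.Agent.S59.LoSqC.H27

open Fermat.Agent.S36.Eng Fermat.Agent.S36.H586

section Comap

variable {K L : Type*} [Field K] [Field L]

/-- The restriction of a discrete valuation ring along a field embedding is a discrete valuation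
ring as soon as it has a nonzero non-unit. -/
theorem dvr_comap27 (φ : K →+* L) (B : ValuationSubring L) [IsDiscreteValuationRing B]
    {t : K} (ht0 : t ≠ 0) (ht : φ t ∈ B.nonunits) : IsDiscreteValuationRing (B.comap φ) := by
  obtain ⟨γ, hγ0, hγ1, hval⟩ := exists_gen_of_dvr B
  rcases Fermat.Agent.Ribet.H127.comap_trivial_or_dvr_h127 φ B hγ0 hγ1 hval with h | h
  · exfalso
    have h1 := h t ht0
    have h2 : B.valuation (φ t) < 1 := (ValuationSubring.mem_nonunits_iff B).1 ht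
    rw [h1] at h2
    exact lt_irrefl _ h2
  · exact h

/-- A uniformiser upstairs which comes from downstairs is a uniformiser downstairs. -/
theorem unifAt_comap27 (φ : K →+* L) (B : ValuationSubring L) {t : K}
    (h : UnifAt B (φ t)) : UnifAt (B.comap φ) t := by
  have hov : ∀ a : K, φ a ∈ B ↔ a ∈ B.comap φ := fun a => Iff.rfl
  refine ⟨fun h0 => h.1 (by rw [h0, map_zero]), (over_mem_nonunits hov t).1 h.2.1, fun f hf => ?_⟩
  rw [← hov, map_mul, map_inv₀]
  exact h.2.2 _ ((over_mem_nonunits hov f).2 hf)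

end Comap

universe u

section Ctx

variable {R : Type u} [CommRing R] [IsDomain R] [IsDiscreteValuationRing R]
  [HenselianLocalRing R] [IsAlgClosed (IsLocalRing.ResidueField R)]
variable {E : Type u} [Field E] [CharZero E] [Algebra R E] [IsFractionRing R E]
variable {F : Type u} [Field F] [Algebra E F] [Algebra R F] [IsScalarTower R E F]
variable {F' : Type u} [Field F'] [Algebra E F'] [Algebra R F'] [IsScalarTower R E F']
variable {w : R} {q : ℕ} {α β : F' →ₐ[E] F} {x : F} {x' : F'}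
variable {V₁ V₂ V₃ : ValuationSubring F} {V₁' V₂' : ValuationSubring F'}

omit [IsDomain R] [IsDiscreteValuationRing R] [HenselianLocalRing R]
  [IsAlgClosed (IsLocalRing.ResidueField R)] [CharZero E] [IsFractionRing R E] in
theorem map_base27 (φ : F' →ₐ[E] F) (r : R) :
    (φ : F' →+* F) (algebraMap R F' r) = algebraMap R F r := by
  show φ (algebraMap R F' r) = algebraMap R F r
  rw [IsScalarTower.algebraMap_apply R E F', φ.commutes, ← IsScalarTower.algebraMap_apply R E F]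

/-- `w` is a uniformiser of `V₁'`. -/
theorem ctx_unif₁' (T : TripleCtx w q α β x x' V₁ V₂ V₃ V₁' V₂') :
    UnifAt V₁' (algebraMap R F' w) := by
  rw [← T.comap_α₁]
  apply unifAt_comap27
  rw [map_base27]
  exact T.unif₁

/-- `w` is a uniformiser of `V₂'`. -/
theorem ctx_unif₂' (T : TripleCtx w q α β x x' V₁ V₂ V₃ V₁' V₂') :
    UnifAt V₂' (algebraMap R F' w) := by
  rw [← T.comap_β₃]
  apply unifAt_comap27
  rw [map_base27]
  exact T.unif₃

/-- `V₁'` is a discrete valuation ring. -/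
theorem ctx_dvr₁' (T : TripleCtx w q α β x x' V₁ V₂ V₃ V₁' V₂') :
    IsDiscreteValuationRing V₁' := by
  haveI := T.dvr₁
  have h := ctx_unif₁' T
  rw [← T.comap_α₁]
  refine dvr_comap27 (α : F' →+* F) V₁ h.1 ?_
  rw [map_base27]
  exact T.unif₁.2.1

/-- `V₂'` is a discrete valuation ring. -/
theorem ctx_dvr₂' (T : TripleCtx w q α β x x' V₁ V₂ V₃ V₁' V₂') :
    IsDiscreteValuationRing V₂' := by
  haveI := T.dvr₃
  have h := ctx_unif₂' T
  rw [← T.comap_β₃]
  refine dvr_comap27 (β : F' →+* F) V₃ h.1 ?_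
  rw [map_base27]
  exact T.unif₃.2.1

/-- `IsOrd` ⟹ the unit form of the orders used in `TripleCtx.nv_α`. -/
theorem unitAt_of_isOrd27 {K : Type*} [Field K] {V : ValuationSubring K} {t y : K} {a : ℤ}
    (ht : t ≠ 0) (h : IsOrd V t y a) : UnitAt V (y * (t ^ a)⁻¹) := by
  rw [unitAt_iff, map_mul, map_inv₀, map_zpow₀]
  unfold IsOrd at h
  rw [h]
  exact mul_inv_cancel₀ (zpow_ne_zero _ ((Valuation.ne_zero_iff _).2 ht))

/-- **`V₁' ≠ V₂'`.** -/
theorem ctx_ne' (T : TripleCtx w q α β x x' V₁ V₂ V₃ V₁' V₂') : V₁' ≠ V₂' := by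
  intro h12
  haveI := T.dvr₁
  haveI := T.dvr₂
  haveI := T.dvr₃
  obtain ⟨t, ht, -⟩ := T.ram₂
  obtain ⟨y, hy₁, hy₂, hy₃⟩ := exists_approx_ord3 V₁ V₂ V₃ T.ne₁₂ T.ne₁₃ T.ne₂₃
    T.unif₁.1 T.unif₁.2.1 T.unif₁.2.2 ht.1 ht.2.1 ht.2.2 T.unif₃.1 T.unif₃.2.1 T.unif₃.2.2 1 0 0
  have hy0 : y ≠ 0 := hy₁.ne_zero T.unif₁.1
  obtain ⟨h1, h2⟩ := T.nv_α t ht y 1 0 0 hy0 (unitAt_of_isOrd27 T.unif₁.1 hy₁)
    (unitAt_of_isOrd27 ht.1 hy₂) (unitAt_of_isOrd27 T.unif₃.1 hy₃)
  rw [← h12] at h2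
  have e1 := unitAt_iff.1 h1
  have e2 := unitAt_iff.1 h2
  rw [mul_zero, zpow_zero, inv_one, mul_one] at e2
  rw [map_mul, e2, one_mul, map_inv₀, add_zero, zpow_one, inv_eq_one] at e1
  have hU := ctx_unif₁' T
  have h3 : V₁'.valuation (algebraMap R F' w) < 1 :=
    (ValuationSubring.mem_nonunits_iff V₁').1 hU.2.1
  rw [e1] at h3
  exact lt_irrefl _ h3

end Ctx

end Fermat.Agent.S59.LoSqC.H27

end

end
-- ===== PACK-END S59/LoSqC/H27/SurjECtx.lean

-- ===== PACK-BEGIN S59/LoSqC/H550/Ord12.lean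
section






/-!
# S59 moonshot, cell (C) LO-SQ, leaf GUB4 / ORD12 (helper550, independent 2nd owner)

`ord12_h550 : H807.Ord12Statement P E M q w` VERBATIM (interface of helper807,
`S59/H807/GubSpec.lean`):  level `M * q`, `4 ∣ M`, `5 ≤ q`; at every node `n` of the finite chart
`B` of `x = j · j_q` the modular unit `D = q¹² Δ(t^q)/Δ(t)` lies in `p₂ + n¹²`.

Proof.  `D ∈ p₁ ⊆ n` (`D = q¹² · unit` along `C∞`), `D ≡ H(j_q) mod p₂`
(`H438.dE_sub_hasse_mem_cut`), `H = X^{4δ} (X - 1728)^{6ε} F¹² + q G` (`exists_hasse_lift550`),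
and `j_q = u g³`, `j_q - 1728 = u h²` with `u = (τ⁴ (τ + 16))⁻¹ ∈ B`, `τ = β(t₄)`
(`H994.jE_mul_t4E` transported by `β`; `τ`, `τ + 16` are units of `B` since `2⁻¹ ∈ R_E`).
Then `mem_sup_pow_twelve550`.
-/

set_option autoImplicit false
set_option linter.unusedSectionVars false
set_option linter.unusedVariables false
set_option linter.style.haveILetI false
set_option synthInstance.maxHeartbeats 400000
set_option maxHeartbeats 1600000

noncomputable section

namespace Fermat.Agent.S59.LoSqC.H550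

open ModularCurve Polynomial
open Fermat.Agent.A2.Mod Fermat.Agent.S36.H803 Fermat.Agent.S36.H438 Fermat.Agent.S36.H994
open Fermat.Agent.S36.Reg

/-- `q ∈ 𝔪_V`, `q` odd ⟹ `2⁻¹ ∈ V`. -/
theorem two_inv_mem550 {L : Type*} [Field L] [CharZero L] (V : ValuationSubring L) {q : ℕ}
    (hq : ((q : ℕ) : L) ∈ V.nonunits) (hodd : q % 2 = 1) : (2 : L)⁻¹ ∈ V := by
  rw [ValuationSubring.mem_nonunits_iff] at hq
  have h2V : V.valuation (2 : L) ≤ 1 :=
    (ValuationSubring.valuation_le_one_iff V _).mpr (by exact_mod_cast natCast_mem V 2)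
  have hkV : V.valuation ((q / 2 : ℕ) : L) ≤ 1 :=
    (ValuationSubring.valuation_le_one_iff V _).mpr (natCast_mem V _)
  have h1 : (1 : L) = ((q : ℕ) : L) - 2 * ((q / 2 : ℕ) : L) := by
    have h := Nat.div_add_mod q 2
    rw [hodd] at h
    have h' : ((q : ℕ) : L) = 2 * ((q / 2 : ℕ) : L) + 1 := by
      conv_lhs => rw [← h]
      push_cast
      ring
    rw [h']
    ring
  have hge : ¬ V.valuation (2 : L) < 1 := by
    intro hlt
    have h3 : V.valuation (2 * ((q / 2 : ℕ) : L)) < 1 := by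
      rw [map_mul]
      calc V.valuation (2 : L) * V.valuation ((q / 2 : ℕ) : L)
          ≤ V.valuation (2 : L) * 1 := mul_le_mul_right hkV _
        _ = V.valuation (2 : L) := mul_one _
        _ < 1 := hlt
    have h4 : V.valuation (1 : L) < 1 := by
      rw [h1]
      exact lt_of_le_of_lt (Valuation.map_sub _ _ _) (max_lt hq h3)
    rw [map_one] at h4
    exact lt_irrefl _ h4
  have h2eq : V.valuation (2 : L) = 1 := le_antisymm h2V (not_lt.mp hge)
  rw [← ValuationSubring.valuation_le_one_iff, map_inv₀, h2eq, inv_one]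

variable (P : ValuationSubring Qb) (E : IntermediateField ℚ Qb) (M q : ℕ) [NeZero M] [NeZero q]
  (w : RE P E)

/-- `2⁻¹` lies in the finite chart when `q` is odd. -/
theorem two_inv_mem_bfin550 (hlies : P.LiesOverPrime q) (hodd : q % 2 = 1) :
    (2 : FE E (M * q))⁻¹ ∈ Bfin P E M q := by
  have hP : (2 : Qb)⁻¹ ∈ P := two_inv_mem550 P hlies hodd
  have hE : ((2 : E))⁻¹ ∈ RE P E := by
    show algebraMap E Qb ((2 : E))⁻¹ ∈ P
    rw [map_inv₀, map_ofNat]
    exact hP
  have h := Subalgebra.algebraMap_mem (Bfin P E M q) (⟨(2 : E)⁻¹, hE⟩ : RE P E)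
  have e : algebraMap (RE P E) (FE E (M * q)) (⟨(2 : E)⁻¹, hE⟩ : RE P E)
      = (2 : FE E (M * q))⁻¹ := by
    show algebraMap E (FE E (M * q)) ((2 : E)⁻¹) = _
    rw [map_inv₀, map_ofNat]
  rwa [e] at h

/-- `β(j) = j_q`. -/
theorem βE_jE_one550 :
    βE E M q (jE E M 1 (one_dvd _)) = jE E (M * q) q (dvd_mul_left q M) := by
  apply Subtype.ext
  show qExpand (↥E) q (coeffEmb (↥E) (qExpand ℚ 1 jq)) = coeffEmb (↥E) (qExpand ℚ q jq)
  rw [qExpand_one_apply, coeffEmb, ← coeffMap_qExpand]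

/-- The level-4 relation for `j_q`: `j_q τ⁴ (τ + 16) = (τ² + 256 τ + 4096)³`, `τ = β(t₄)`. -/
theorem jq_mul_tau550 (h4 : 4 ∣ M) :
    jE E (M * q) q (dvd_mul_left q M)
        * ((βE E M q (t4E E M h4)) ^ 4 * (βE E M q (t4E E M h4) + 16))
      = ((βE E M q (t4E E M h4)) ^ 2 + 256 * βE E M q (t4E E M h4) + 4096) ^ 3 := by
  have h := congrArg (βE E M q) (jE_mul_t4E E M h4)
  simp only [map_mul, map_pow, map_add, map_ofNat] at h
  rw [βE_jE_one550] at h
  exact h

/-- `(j_q - 1728) τ⁴ (τ + 16) = ((τ + 32) (τ² - 512 τ - 8192))²`. -/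
theorem jq_sub_mul_tau550 (h4 : 4 ∣ M) :
    (jE E (M * q) q (dvd_mul_left q M) - 1728)
        * ((βE E M q (t4E E M h4)) ^ 4 * (βE E M q (t4E E M h4) + 16))
      = ((βE E M q (t4E E M h4) + 32)
          * ((βE E M q (t4E E M h4)) ^ 2 - 512 * βE E M q (t4E E M h4) - 8192)) ^ 2 := by
  have h := congrArg (βE E M q) (jE_sub_1728_mul_t4E E M h4)
  simp only [map_mul, map_pow, map_add, map_sub, map_ofNat] at h
  rw [βE_jE_one550] at h
  rw [h]
  ring

/-- `q ∈ w · V'` for every valuation ring `V'` containing the constants of `R_E`. -/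
theorem natCast_inW550 (hwq : w ∣ (q : RE P E)) (hw0 : (w : E) ≠ 0)
    (V' : ValuationSubring (FE E (M * q)))
    (hV' : ∀ r : RE P E, cE P E (M * q) r ∈ V') :
    InW P E (M * q) V' w ((q : ℕ) : FE E (M * q)) := by
  obtain ⟨r, hr⟩ := hwq
  have hqE : (q : E) = (w : E) * (r : E) := by
    have := congrArg (fun z : RE P E => (z : E)) hr
    simpa using this
  have hcw : cE P E (M * q) w ≠ 0 :=
    (map_ne_zero_iff _ (algebraMap E (FE E (M * q))).injective).mpr hw0
  have hcq : ((q : ℕ) : FE E (M * q)) = cE P E (M * q) w * cE P E (M * q) r := by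
    rw [cE, cE, ← map_mul, ← hqE, map_natCast]
  show ((q : ℕ) : FE E (M * q)) * (cE P E (M * q) w)⁻¹ ∈ V'
  rw [hcq, mul_comm (cE P E (M * q) w), mul_assoc, mul_inv_cancel₀ hcw, mul_one]
  exact hV' r

/-- **ORD12**, VERBATIM. -/
theorem ord12_h550 : Fermat.Agent.S59.H807.Ord12Statement P E M q w := by
  intro hyp h4 h5 D hD p₁ p₂ hcomp n hnode
  obtain ⟨V, W, hV, hW, hc₁, hc₂⟩ := hcomp
  obtain ⟨hmax, hp1n, hp2n⟩ := hnode
  have hq : q.Prime := hyp.setting.q_prime
  have hwq : w ∣ (q : RE P E) := unif_dvd_natCast P E hyp.setting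
  have hw0 : (w : E) ≠ 0 := Fermat.Agent.A2.Mod.H378.w_ne_zero hyp.setting
  haveI hnp : n.IsPrime := hmax.isPrime
  -- `q` is odd
  have hodd : q % 2 = 1 := by
    rcases hq.eq_two_or_odd with h | h
    · omega
    · exact h
  -- the elements of the chart
  have hjqB := (jE_mem_chartAlg P E q M hq).2
  have h2B := two_inv_mem_bfin550 P E M q hyp.setting.lies_over hodd
  have hrel := jq_mul_tau550 E M q h4
  have hrel' := jq_sub_mul_tau550 E M q h4
  have hτB : βE E M q (t4E E M h4) ∈ Bfin P E M q :=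
    mem_chart_of_rel4 (R := RE P E) ({xE E M q} : Set (FE E (M * q))) hjqB hrel
  have hτi : (βE E M q (t4E E M h4))⁻¹ ∈ Bfin P E M q :=
    inv_mem_of_rel4 (Bfin P E M q) hjqB hτB h2B hrel
  have hτi' : (βE E M q (t4E E M h4) + 16)⁻¹ ∈ Bfin P E M q :=
    add_inv_mem_of_rel4 (Bfin P E M q) hjqB hτB h2B hrel
  have hτ0 : βE E M q (t4E E M h4) ≠ 0 := ne_zero_of_rel4 hrel
  have hτ0' : βE E M q (t4E E M h4) + 16 ≠ 0 := add_ne_zero_of_rel4 hrel
  set jqB : Bfin P E M q := ⟨_, hjqB⟩ with hjqBdef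
  set τB : Bfin P E M q := ⟨_, hτB⟩ with hτBdef
  set τiB : Bfin P E M q := ⟨_, hτi⟩ with hτiBdef
  set τiB' : Bfin P E M q := ⟨_, hτi'⟩ with hτiBdef'
  -- the integral Hasse factorisation
  obtain ⟨F, G, hFG⟩ := exists_hasse_lift550 q hq h5
  -- `D = dE`
  have hDB : D = ⟨dE E (M * q) q (dvd_mul_left q M), dE_mem_chartAlg P E M q hq⟩ := by
    apply Subtype.ext
    apply Subtype.ext
    exact hD.trans (coe_dE E (M * q) q (dvd_mul_left q M)).symm
  -- `H(j_q)` in the chart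
  have hHB : (⟨Polynomial.aeval (jE E (M * q) q (dvd_mul_left q M)) (hassePoly q hq),
      aeval_jqE_mem_chartAlg P E q M hq _⟩ : Bfin P E M q)
      = Polynomial.aeval jqB (hassePoly q hq) := by
    apply Subtype.ext
    exact (map_aeval_int (Bfin P E M q).val.toRingHom jqB (hassePoly q hq)).symm
  have hcut := dE_sub_hasse_mem_cut P E q M hq w hwq W hV hW p₂ hc₂
  rw [← hDB, hHB] at hcut
  -- `q ∈ p₂`
  have hqp₂ : ((q : ℕ) : Bfin P E M q) ∈ p₂ := by
    rw [hc₂]
    refine natCast_inW550 P E M q w hwq hw0 _ (fun r => ?_)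
    show W (cE P E (M * q) r) ∈ V
    rw [cE, AlgEquiv.commutes]
    exact Fermat.Agent.A2.Mod.H378.cE_mem hV r
  -- `D ∈ p₁`
  have hDp₁ : D ∈ p₁ := by
    rw [hc₁, hDB]
    have h1 := natCast_inW550 P E M q w hwq hw0 V (fun r => Fermat.Agent.A2.Mod.H378.cE_mem hV r)
    have h2 : ((q : ℕ) : FE E (M * q)) ^ 11 * uE E (M * q) q (dvd_mul_left q M) ∈ V :=
      V.mul_mem _ _ (pow_mem (natCast_mem V q) 11)
        (uE_mem_vinf P E (M * q) q (dvd_mul_left q M) hV)
    have h3 := V.mul_mem _ _ h1 h2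
    show dE E (M * q) q (dvd_mul_left q M) * (cE P E (M * q) w)⁻¹ ∈ V
    have e : dE E (M * q) q (dvd_mul_left q M) * (cE P E (M * q) w)⁻¹
        = ((q : ℕ) : FE E (M * q)) * (cE P E (M * q) w)⁻¹
          * (((q : ℕ) : FE E (M * q)) ^ 11 * uE E (M * q) q (dvd_mul_left q M)) := by
      rw [dE, map_pow, map_natCast]
      ring
    rw [e]
    exact h3
  refine mem_sup_pow_twelve550 p₂ n hp2n (hasseDelta q) (hasseEps q) D
    (Polynomial.aeval jqB (hassePoly q hq)) jqB (Polynomial.aeval jqB F)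
    (Polynomial.aeval jqB G)
    (τB ^ 2 + 256 * τB + 4096) ((τB + 32) * (τB ^ 2 - 512 * τB - 8192))
    (τiB ^ 4 * τiB') (τB ^ 4 * (τB + 16)) ((q : ℕ) : Bfin P E M q)
    (hp1n hDp₁) hcut hqp₂ ?_ ?_ ?_ ?_
  · rw [hFG]
    simp only [map_add, map_mul, map_pow, map_sub, Polynomial.aeval_X, map_ofNat, map_natCast]
  · apply Subtype.ext
    show ((βE E M q (t4E E M h4))⁻¹ ^ 4 * (βE E M q (t4E E M h4) + 16)⁻¹)
      * ((βE E M q (t4E E M h4)) ^ 4 * (βE E M q (t4E E M h4) + 16)) = 1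
    field_simp
  · apply Subtype.ext
    exact hrel
  · apply Subtype.ext
    exact hrel'

end Fermat.Agent.S59.LoSqC.H550

end

end
-- ===== PACK-END S59/LoSqC/H550/Ord12.lean

-- ===== PACK-BEGIN S59/H139/GubFibre.lean
section





/-!
# S59 / cell (C) LO-SQ / W-COUNT / GUB — the FIBRE bound on `C₀` and `ORD12 ⟹ GUB4` (helper139)

* `fibre_le` : `D ≡ H(j_q) mod p₂`, `H ∈ R[X]` of degree `≤ m` modulo `w` and nonzero modulo `w`;
  if `D ∈ p₂ + n ^ e` for every `n` in a finite set `s` of maximal ideals over `p₂`, then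
  `#s · e ≤ ψ(M) · m`  (abstract bound `GubCore.card_mul_le_quot` + `GubRank.rank_zero`,
  `GubRank.transc_zero`, `B ⧸ p₂` Dedekind).
* `gub4_of_ord12 : H807.Ord12Statement → H807.Gub4Statement` : the node count from ORD12 alone
  (`D = q¹² Δ(t^q)/Δ(t) ≡ H_q(j_q) mod p₂`, `H_q` the Hasse polynomial, monic of degree `q - 1`;
  `H438.dE_sub_hasse_mem_cut`).  No degree-of-divisor input (DEG0) is used.
-/

set_option autoImplicit false
set_option linter.unusedSectionVars false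
set_option linter.unusedVariables false
set_option linter.style.haveILetI false
set_option synthInstance.maxHeartbeats 400000
set_option maxHeartbeats 1600000

noncomputable section

namespace Fermat.Agent.S59.H139.GubFibre

open ModularCurve Fermat.Agent.A2.Mod Fermat.Agent.S36.H803 Polynomial

variable (P : ValuationSubring Qb) (E : IntermediateField ℚ Qb) (M q : ℕ) [NeZero M] [NeZero q]
  (w : RE P E)

/-- **FIBRE bound on `C₀`.** -/
theorem fibre_le (hyp : R3Hyp P E M q w) (p₁ p₂ : Ideal (Bfin P E M q))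
    (hcomp : IsComponents P E M q w p₁ p₂) (jq : Bfin P E M q)
    (hjq : (jq : FE E (M * q)) = jE E (M * q) q (dvd_mul_left q M))
    (D : Bfin P E M q) (H : Polynomial (RE P E)) (m e : ℕ)
    (hH : ∃ l, ¬ w ∣ H.coeff l) (hm : ∀ l, m < l → w ∣ H.coeff l)
    (hD : D - aeval jq H ∈ p₂) (s : Finset (Ideal (Bfin P E M q)))
    (hs : ∀ n ∈ s, n.IsMaximal ∧ p₂ ≤ n ∧ D ∈ p₂ ⊔ n ^ e) :
    s.card * e ≤ dedekindPsi M * m := by
  classical
  have hS := hyp.setting
  haveI := hS.dvr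
  obtain ⟨c, hc1, hc2⟩ :=
    Fermat.Agent.S59.H807.exists_ssChart_of_components807 P E M q w hyp p₁ p₂ hcomp
  subst hc1 hc2
  have hB := Fermat.Agent.S59.H807.chartCtx_bfin807 P E M q w hyp
  obtain ⟨hnoeth, hic, hfrac⟩ := Fermat.Agent.A2.Alg.H34.chart_instances' w (xE E M q)
    (Bfin P E M q) hB
  haveI := c.prime₂
  haveI : IsIntegrallyClosed (Bfin P E M q ⧸ c.p₂) := c.normal₂
  have hw : algebraMap (RE P E) (Bfin P E M q) w ∈ c.p₁ ⊓ c.p₂ := by
    rw [c.inf_eq]
    exact Ideal.mem_span_singleton_self _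
  have hded : IsDedekindDomain (Bfin P E M q ⧸ c.p₂) :=
    Fermat.Agent.A2.Alg.H609.isDedekindDomain_quotient_chart w (xE E M q) (Bfin P E M q) hB
      c.p₂ hw.2
  have hmem : ∀ r : RE P E, r ∈ IsLocalRing.maximalIdeal (RE P E) ↔ w ∣ r := by
    intro r
    rw [hS.unif.maximalIdeal_eq, Ideal.mem_span_singleton]
  have hle : IsLocalRing.maximalIdeal (RE P E) ≤
      c.p₂.comap (algebraMap (RE P E) (Bfin P E M q)) := by
    intro r hr
    obtain ⟨r', rfl⟩ := (hmem r).mp hr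
    rw [Ideal.mem_comap, map_mul]
    exact c.p₂.mul_mem_right _ hw.2
  have hT : ∀ a : Polynomial (RE P E), aeval jq a ∈ c.p₂ →
      ∀ l, a.coeff l ∈ IsLocalRing.maximalIdeal (RE P E) := by
    intro a ha l
    have h0 := GubRank.transc_zero P E M q w hyp c.p₁ c.p₂ hcomp jq hjq a ha
    have h1 := congrArg (fun p => Polynomial.coeff p l) h0
    simp only [Polynomial.coeff_map, Polynomial.coeff_zero] at h1
    exact (IsLocalRing.residue_eq_zero_iff _).mp h1
  have hrank : ∀ f : Fin (dedekindPsi M + 1) → Bfin P E M q,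
      ∃ c' : Fin (dedekindPsi M + 1) → Polynomial (RE P E),
        (∃ i l, (c' i).coeff l ∉ IsLocalRing.maximalIdeal (RE P E)) ∧
          ∑ i, aeval jq (c' i) * f i ∈ c.p₂ := by
    intro f
    obtain ⟨c', ⟨i, l, hil⟩, hsum⟩ :=
      GubRank.rank_zero P E M q w hyp c.p₁ c.p₂ hcomp jq hjq f
    refine ⟨c', ⟨i, l, ?_⟩, hsum⟩
    rw [hil]
    exact fun h1 => (IsLocalRing.maximalIdeal.isMaximal (RE P E)).ne_top
      ((Ideal.eq_top_iff_one _).mpr h1)
  have hs' : ∀ n ∈ s, n.IsMaximal ∧ c.p₂ ≤ n ∧ aeval jq H ∈ c.p₂ ⊔ n ^ e := by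
    intro n hn
    obtain ⟨h1, h2, h3⟩ := hs n hn
    refine ⟨h1, h2, ?_⟩
    have : aeval jq H = D - (D - aeval jq H) := by ring
    rw [this]
    exact sub_mem h3 (Ideal.mem_sup_left hD)
  exact GubCore.card_mul_le_quot (IsLocalRing.maximalIdeal (RE P E)) c.p₂ hle hded jq hT
    (dedekindPsi M) hrank H
    (by obtain ⟨l, hl⟩ := hH; exact ⟨l, fun h => hl ((hmem _).mp h)⟩) m
    (fun l hl => (hmem _).mpr (hm l hl)) e s hs'

/-- **`ORD12 ⟹ GUB4`** (no DEG0). -/
theorem gub4_of_ord12 (hORD : Fermat.Agent.S59.H807.Ord12Statement P E M q w) :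
    Fermat.Agent.S59.H807.Gub4Statement P E M q w := by
  intro hyp h4 h5 p₁ p₂ hcomp s hs
  classical
  have hS := hyp.setting
  have hq := hS.q_prime
  haveI := hS.dvr
  obtain ⟨jq, hjq⟩ : ∃ jq : Bfin P E M q,
      (jq : FE E (M * q)) = jE E (M * q) q (dvd_mul_left q M) :=
    ⟨⟨_, (Fermat.Agent.S36.H438.jE_mem_chartAlg P E q M hq).2⟩, rfl⟩
  obtain ⟨D, hDdef⟩ : ∃ D : Bfin P E M q,
      D = (⟨Fermat.Agent.S36.H438.dE E (M * q) q (dvd_mul_left q M),
        Fermat.Agent.S36.H438.dE_mem_chartAlg P E M q hq⟩ : Bfin P E M q) := ⟨_, rfl⟩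
  have hD : IsD E M q (D : FE E (M * q)) := by
    rw [hDdef]
    exact Fermat.Agent.S36.H438.coe_dE E (M * q) q (dvd_mul_left q M)
  obtain ⟨H, hH⟩ : ∃ H : Polynomial (RE P E),
      H = (Fermat.Agent.S36.H438.hassePoly q hq).map (algebraMap ℤ (RE P E)) := ⟨_, rfl⟩
  have hmonic : H.Monic := by
    rw [hH]
    exact (Fermat.Agent.S36.H438.hassePoly_monic q hq).map _
  have hdeg : H.natDegree = q - 1 := by
    rw [hH, (Fermat.Agent.S36.H438.hassePoly_monic q hq).natDegree_map,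
      Fermat.Agent.S36.H438.hassePoly_natDegree]
  have hcomp' := hcomp
  obtain ⟨V, W, hV, hW, hc₁, hc₂⟩ := hcomp
  have hcut := Fermat.Agent.S36.H438.dE_sub_hasse_mem_cut P E q M hq w
    (Fermat.Agent.S36.H438.unif_dvd_natCast P E hS) W hV hW p₂ hc₂
  have hDH : D - aeval jq H ∈ p₂ := by
    have e : D - aeval jq H =
        (⟨Fermat.Agent.S36.H438.dE E (M * q) q (dvd_mul_left q M),
            Fermat.Agent.S36.H438.dE_mem_chartAlg P E M q hq⟩
          - ⟨Polynomial.aeval (jE E (M * q) q (dvd_mul_left q M))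
              (Fermat.Agent.S36.H438.hassePoly q hq),
              Fermat.Agent.S36.H438.aeval_jqE_mem_chartAlg P E q M hq _⟩ :
            chartAlg P E (M * q) (xE E M q)) := by
      apply Subtype.ext
      rw [hDdef]
      show ((⟨_, _⟩ : Bfin P E M q) : FE E (M * q)) - ((aeval jq H : Bfin P E M q) : FE E (M * q))
        = _
      rw [Polynomial.aeval_subalgebra_coe, hjq, hH, Polynomial.aeval_map_algebraMap]
      rfl
    rw [e]
    exact hcut
  have hs12 : ∀ n ∈ s, n.IsMaximal ∧ p₂ ≤ n ∧ D ∈ p₂ ⊔ n ^ 12 := fun n hn =>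
    ⟨(hs n hn).1, (hs n hn).2.2, hORD hyp h4 h5 D hD p₁ p₂ hcomp' n (hs n hn)⟩
  have hmain := fibre_le P E M q w hyp p₁ p₂ hcomp' jq hjq D H (q - 1) 12
    ⟨q - 1, by
      rw [← hdeg, Polynomial.coeff_natDegree, hmonic.leadingCoeff]
      exact fun h => hS.unif.not_isUnit (isUnit_of_dvd_one h)⟩
    (fun l hl => by
      rw [Polynomial.coeff_eq_zero_of_natDegree_lt (by rw [hdeg]; exact hl)]
      exact dvd_zero _)
    hDH s hs12
  rw [mul_comm 12, mul_comm (q - 1)]
  exact hmain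

end Fermat.Agent.S59.H139.GubFibre

end

end
-- ===== PACK-END S59/H139/GubFibre.lean

-- ===== PACK-BEGIN S59/H139/Gub4.lean
section



/-!
# S59 / cell (C) LO-SQ / W-COUNT — leaf GUB4 CLOSED (helper139)

`gub4 : H807.Gub4Statement P E M q w` (VERBATIM, unconditional):
for `4 ∣ M`, `5 ≤ q`, `12 · #nodes ≤ (q - 1) ψ(M)` at level `M q`.

`gub4 = GubFibre.gub4_of_ord12 (H550.ord12_h550)`:
ORD12 (helper550: `D ∈ p₂ + n ^ 12` at every node) + the fibre bound on `C₀` (this seat).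
-/

set_option autoImplicit false

noncomputable section

namespace Fermat.Agent.S59.H139.Gub4

open ModularCurve Fermat.Agent.A2.Mod Fermat.Agent.S36.H803

variable (P : ValuationSubring Qb) (E : IntermediateField ℚ Qb) (M q : ℕ) [NeZero M] [NeZero q]
  (w : RE P E)

/-- **Leaf GUB4**, VERBATIM, unconditional. -/
theorem gub4 : Fermat.Agent.S59.H807.Gub4Statement P E M q w :=
  Fermat.Agent.S59.H139.GubFibre.gub4_of_ord12 P E M q w
    (Fermat.Agent.S59.LoSqC.H550.ord12_h550 P E M q w)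

/-- GUB4 unfolded: the node count. -/
theorem nodes_le (hyp : R3Hyp P E M q w) (h4 : 4 ∣ M) (h5 : 5 ≤ q)
    (p₁ p₂ : Ideal (Bfin P E M q)) (hcomp : IsComponents P E M q w p₁ p₂)
    (s : Finset (Ideal (Bfin P E M q))) (hs : ∀ n ∈ s, IsNode P E M q p₁ p₂ n) :
    12 * s.card ≤ (q - 1) * dedekindPsi M :=
  gub4 P E M q w hyp h4 h5 p₁ p₂ hcomp s hs

/-- The nodes of the finite chart form a FINITE set, and `12 · #nodes ≤ (q - 1) ψ(M)`. -/
theorem exists_finset_nodes (hyp : R3Hyp P E M q w) (h4 : 4 ∣ M) (h5 : 5 ≤ q)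
    (p₁ p₂ : Ideal (Bfin P E M q)) (hcomp : IsComponents P E M q w p₁ p₂) :
    ∃ s : Finset (Ideal (Bfin P E M q)), (∀ n, n ∈ s ↔ IsNode P E M q p₁ p₂ n) ∧
      12 * s.card ≤ (q - 1) * dedekindPsi M := by
  classical
  have hfin : {n : Ideal (Bfin P E M q) | IsNode P E M q p₁ p₂ n}.Finite := by
    by_contra hinf
    obtain ⟨t, ht, hcard⟩ :=
      Set.Infinite.exists_subset_card_eq hinf ((q - 1) * dedekindPsi M + 1)
    have := nodes_le P E M q w hyp h4 h5 p₁ p₂ hcomp t (fun n hn => ht hn)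
    rw [hcard] at this
    omega
  refine ⟨hfin.toFinset, fun n => ?_, ?_⟩
  · rw [Set.Finite.mem_toFinset]
    rfl
  · exact nodes_le P E M q w hyp h4 h5 p₁ p₂ hcomp _
      (fun n hn => (Set.Finite.mem_toFinset hfin).mp hn)

end Fermat.Agent.S59.H139.Gub4

end

end
-- ===== PACK-END S59/H139/Gub4.lean

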