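import Fermat.Prelude.Def_ModularCurve_HeckeModule
import Fermat.Prelude.Def_ModularCurve_ReductionModL
import Fermat.Agent.Pack.S59C.E10L2
import Fermat.Agent.Pack.S43MC.G0E26L1
import Fermat.Agent.Pack.S43MC.G0E10L2
import Fermat.Agent.Pack.S43GC.G0E11L1
import Fermat.Agent.Pack.S59C.E4L0
import Fermat.Agent.Pack.S59C.E9L0
import Fermat.Agent.Pack.S43GC.G0E7L1
import Fermat.Agent.Pack.S59C.E4L1
import Fermat.Agent.Pack.S59C.E8L2
import Fermat.Agent.Pack.S59C.E4L3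
import Fermat.Agent.Pack.S59C.E1L3
import Fermat.Agent.Pack.S43MC.G0E20L1
import Fermat.Agent.Pack.S43GC.G0E7L0
import Fermat.Agent.Pack.S59C.E9L2
import Fermat.Agent.Pack.S59C.E1L0
import Fermat.Agent.Pack.S43MC.G0E26L3
import Fermat.Agent.Pack.S44C.G0E28L0
import Fermat.Agent.Pack.S44C.G0E20L2
import Fermat.Agent.Pack.S44C.G0E27L0
import Fermat.Agent.Pack.S59C.E6L2
import Fermat.Agent.Pack.S59C.E7L0
import Fermat.Agent.Pack.S43C.E2L2
import Fermat.Agent.Pack.S59C.E10L3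
import Fermat.Agent.Pack.S59C.E2L2
import Fermat.Agent.Pack.S44C.G0E26L1
import Fermat.Agent.Pack.S43MC.G0E2L1
import Fermat.Agent.Pack.S44C.G0E4L1

set_option linter.all false

-- ===== PACK-BEGIN S59/Arch/AsmNM.lean
section









/-!
# Row S59, cell NM — THE ASSEMBLY of the step `Σ → Σ ∪ {q}` in `Plus` form (architect helper239)

    nonMinStepPlusH_of_leaves :
      S53 → S54 → COND → RED-T → RED → RFD → PKG → RESG → SEL → ETA → Arch.NonMinStepPlusHStatement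

Leaves (Props on main): `Arch.S53Statement`, `Arch.S54Statement` (frozen S53, S54),
`Arch.SigmaCondStatement` (CLOSED `H659.sigmaCondStatement`), `NMP.RedTStatement` (CLOSED
`NMP.H437.redT`), `G4.RedStatement` (CLOSED `G4.H547.red`), `Arch.ResFrobOfDatumStatement` (RFD),
`TW.PkgStatement` (PKG), `TW.ResGalStatement` (CLOSED `TW.H788.resGal`), `NM.SelStatement` (SEL),
`NM.EtaAbsStatement` (ETA).

Proof (board `coord/S59.md` v5 §2): package `P'` of type `Σ' = Σ ∪ {q}` over `θ' = θ ∘ oldRestrict`,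
restriction `res : T' ↠ T`, `π' = π ∘ res`; Galois square `res ∘ φ' = φ ∘ β`; SEL bounds `#Φ_{R'}`
by `#Φ_R · #(𝒪/c_q)`; ETA gives `η' ⊆ (c_q) · η`; `T'` reduced gives `η' ≠ 0`, so `c_q ≠ 0`;
numerical criterion; equality of the cardinalities gives `η' = (c_q) · η`.
-/

set_option autoImplicit false

open Polynomial IsLocalRing

namespace Fermat.Agent.S59.Arch

open Fermat.Agent.S59.NM Fermat.Agent.S59.TW Fermat.Agent.S59.TW.H959 Fermat.Agent.S59.H765
open CuspForm Fermat.Agent.S53.H113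

/-- `sigmaCond` is monotone in `Σ`. -/
theorem sigmaCond_mono239 {𝒪 : Type} [CommRing 𝒪] {p : ℕ} {t : PType}
    {Smin Sig Sig' : Finset ℕ} (hSig : Sig ⊆ Sig') {A : Type} [CommRing A] [IsLocalRing A]
    [Algebra 𝒪 A] {ρ : GaloisRepAdic A} (hρ : sigmaCond 𝒪 p t Smin Sig ρ) :
    sigmaCond 𝒪 p t Smin Sig' ρ := by
  refine ⟨?_, hρ.2⟩
  have h1 := hρ.1
  cases t with
  | flat => exact ⟨h1.1, h1.2.1, fun q hq hqS => h1.2.2 q hq (fun h => hqS (hSig h))⟩
  | sord => exact ⟨h1.1, h1.2.1, fun q hq hqS => h1.2.2 q hq (fun h => hqS (hSig h))⟩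
  | ord => exact ⟨h1.1, h1.2.1, fun q hq hqS => h1.2.2 q hq (fun h => hqS (hSig h))⟩

/-- **ASSEMBLY of cell NM** (`Plus` form). -/
theorem nonMinStepPlusH_of_leaves (h53 : S53Statement) (h54 : S54Statement)
    (hCOND : SigmaCondStatement) (hREDT : Fermat.Agent.S59.NMP.RedTStatement)
    (hRED : G4.RedStatement) (hRFD : ResFrobOfDatumStatement) (hPKG : PkgStatement)
    (hRESG : ResGalStatement) (hSEL : SelStatement) (hETA : EtaAbsStatement) :
    NonMinStepPlusHStatement := by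
  intro p _ 𝒪 _ _ _ _ _ _ ρbar Smin hRH _ t ht hNmin χ hχ Sig hSig hSigP q hq hqS hplus
  classical
  have hpp : p.Prime := Fact.out
  have hpSig : p ∈ Sig := hSig hRH.hpSmin
  have htord : t ≠ .ord := by
    rcases ht with ⟨rfl, -⟩ | ⟨rfl, -⟩ <;> simp
  have hSig' : Smin ⊆ insert q Sig := hSig.trans (Finset.subset_insert q Sig)
  have hSigP' : ∀ r ∈ insert q Sig, r.Prime := by
    intro r hr
    rcases Finset.mem_insert.mp hr with rfl | h
    · exact hq
    · exact hSigP r h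
  obtain ⟨hN, P, π, hπ, hη, hcl⟩ := exists_pkg_of_rtIsoPlus hplus
  haveI hN' : NeZero (wilesLevel p t Smin (insert q Sig)) :=
    ⟨wilesLevel_ne_zero hpp hRH.hSmin hSigP'⟩
  have hNS : ∀ r : ℕ, r.Prime → r ∣ wilesLevel p t Smin Sig → r ∈ Sig :=
    fun r hr hd => prime_dvd_wilesLevel p t hSig hSigP hpSig hr hd
  have hNS' : ∀ r : ℕ, r.Prime → r ∣ wilesLevel p t Smin (insert q Sig) → r ∈ insert q Sig :=
    fun r hr hd => prime_dvd_wilesLevel p t hSig' hSigP' (Finset.mem_insert_of_mem hpSig) hr hd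
  have hNSc : ∀ r : ℕ, r.Prime → r ∣ wilesLevel p t Smin Sig → r ∈ (↑Sig : Set ℕ) :=
    fun r hr hd => Finset.mem_coe.mpr (hNS r hr hd)
  have hNSc' : ∀ r : ℕ, r.Prime → r ∣ wilesLevel p t Smin (insert q Sig) →
      r ∈ (↑(insert q Sig) : Set ℕ) :=
    fun r hr hd => Finset.mem_coe.mpr (hNS' r hr hd)
  -- the package of type `Σ'`
  have hθ : G4.ResFrobCond ρbar P.θ :=
    hRFD (wilesLevel p t Smin Sig) (↑Sig : Set ℕ) 𝒪 ρbar P.θ P.T P.H P.hres
  have hLP := levelPair_insert p t hSig hSigP hpSig hq hqS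
  have hθ' : G4.ResFrobCond ρbar (P.θ.comp (oldRestrict hLP)) := resFrobCond_comp hLP hθ
  obtain ⟨P', hP'θ⟩ := hPKG p 𝒪 ρbar Smin hRH t ht (insert q Sig) hSig' hSigP'
    (P.θ.comp (oldRestrict hLP)) hθ'
  obtain ⟨res, hres, -⟩ := exists_restriction239 hLP hNS P P' hP'θ
  obtain ⟨hresloc, hcompat⟩ := hRESG p hRH.hp2 𝒪 hRH.hp𝒪 ρbar hRH.habs t Smin Sig
    (insert q Sig) (Finset.subset_insert q Sig) P P' res hres
  -- the point
  have hπ' : ∀ (l : ℕ) (hl : l.Prime) (hlN : ¬ l ∣ wilesLevel p t Smin (insert q Sig))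
      (hlS : l ∉ (↑(insert q Sig) : Set ℕ)),
      (π.comp res) (CuspForm.heckeLocal.π (wilesLevel p t Smin (insert q Sig))
        (↑(insert q Sig) : Set ℕ) 𝒪 P'.θ (CuspForm.heckeAlgebra.T hl hlN hlS)) = eig χ l := by
    intro l hl hlN' hlS'
    have hlN : ¬ l ∣ wilesLevel p t Smin Sig := fun hd => hlN' (hd.trans hLP.dvd)
    have hlS : l ∉ (↑Sig : Set ℕ) := fun hs => hlS' (hLP.sub hs)
    have h1 := hres l hl hlN' hlS' hlN hlS
    rw [P'.hπ, P.hπ] at h1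
    rw [AlgHom.comp_apply, h1]
    exact hπ l hl hlN hlS
  -- reducedness, congruence ideals
  haveI : IsReduced P.T := hRED _ _ hNSc 𝒪 P.θ
  haveI : IsReduced P'.T := hRED _ _ hNSc' 𝒪 P'.θ
  have hηne : NC.congIdeal π ≠ ⊥ := Fermat.Agent.S59.H427.congIdeal_ne_bot_of_isReduced π
  have hη'ne : NC.congIdeal (π.comp res) ≠ ⊥ :=
    Fermat.Agent.S59.H427.congIdeal_ne_bot_of_isReduced (π.comp res)
  have hδ : cohCong (wilesLevel p t Smin Smin) Smin (eig χ) ≠ ⊥ := by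
    intro h0
    apply hηne
    rw [hη]
    unfold targetIdeal
    rw [h0, Ideal.bot_mul]
  have hle' : NC.congIdeal (π.comp res) ≤
      Ideal.span {cq (eig χ) q} * targetIdeal p 𝒪 t Smin Sig (eig χ) := by
    rw [← targetIdeal_insert p 𝒪 t hSig hqS]
    exact hETA p 𝒪 ρbar Smin hRH t htord hNmin χ hχ hδ (insert q Sig) hSig' hSigP' hN'
      P'.integral P'.θ (π.comp res) hπ'
  have hcq : cq (eig χ) q ≠ 0 := by
    intro h0
    apply hη'ne
    rw [h0, Ideal.span_singleton_zero, Ideal.bot_mul] at hle'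
    exact le_bot_iff.mp hle'
  haveI : Finite (𝒪 ⧸ NC.congIdeal (π.comp res)) := finite_quot_of_ne_bot239 hη'ne
  -- the step for one compatible `φ'`
  have step : ∀ (D' : GaloisRep.DeformationRingData 𝒪 ρbar
      (sigmaCond 𝒪 p t Smin (insert q Sig))) (φ' : D'.R →ₐ[𝒪] P'.T),
      (∃ hφ : IsLocalHom (φ' : D'.R →+* P'.T),
        (D'.ρ.baseChangeAlong (φ' : D'.R →+* P'.T) hφ).IsEquiv P'.H.ρ) →
      Function.Bijective φ' ∧ Finite (NC.Cot ((π.comp res).comp φ')) ∧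
        Nat.card (NC.Cot ((π.comp res).comp φ')) =
          Nat.card (𝒪 ⧸ NC.congIdeal (π.comp res)) ∧
        NC.congIdeal (π.comp res) = targetIdeal p 𝒪 t Smin (insert q Sig) (eig χ) := by
    rintro D' φ' ⟨hφ'loc, hφ'e⟩
    -- the ring of type `Σ` and `φ : R ≅ T`
    have hcS1 := hCOND p hRH.hp2 𝒪 hRH.hp𝒪 t Smin Sig
    have hbar : sigmaCond 𝒪 p t Smin Sig (GaloisRepAdic.ofResidualGaloisRep ρbar) :=
      hREDT 𝒪 _ hcS1.1 _ P.H.residue_surjective P.H.ρ ρbar P.hres P.hcond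
    obtain ⟨D⟩ := h53 𝒪 ρbar _ hRH.habs hcS1.1 hbar (hcS1.2 ρbar)
    obtain ⟨φ, -, hφ, hφe⟩ := h54 D P.H hNSc P.hcond P.hres
    obtain ⟨-, hfin, hnum⟩ := hcl D φ ⟨hφ, hφe⟩
    -- the square
    obtain ⟨β, hβ, hβe, hsq⟩ := Fermat.Agent.S59.NMP.exists_square D D'
      (sigmaCond_mono239 (Finset.subset_insert q Sig) D.isOfType) P.H.residue_surjective P.H.ρ
      P'.H.ρ (sigmaCond_mono239 (Finset.subset_insert q Sig) P.hcond) P.hres res hresloc
      hcompat φ hφ hφe φ' hφ'loc hφ'e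
    have hφ's : Function.Surjective φ' :=
      Fermat.Agent.S59.NMP.surjective_of_compatible h54 D' P'.H hNSc' P'.hcond P'.hres φ'
        ⟨hφ'loc, hφ'e⟩
    -- the points
    have hOloc : IsLocalHom (algebraMap 𝒪 𝒪) := ⟨fun _ ha => ha⟩
    have hOsurj : Function.Surjective (residue 𝒪 ∘ algebraMap 𝒪 𝒪) := fun x => by
      obtain ⟨y, rfl⟩ := IsLocalRing.residue_surjective x
      exact ⟨y, rfl⟩
    have hπloc : IsLocalHom (π : P.T →+* 𝒪) := isLocalHom_algHom (𝒪 := 𝒪) hOloc hOsurj π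
    have hxloc : IsLocalHom ((π.comp φ : D.R →ₐ[𝒪] 𝒪) : D.R →+* 𝒪) :=
      isLocalHom_algHom (𝒪 := 𝒪) hOloc hOsurj _
    have hx'loc : IsLocalHom (((π.comp res).comp φ' : D'.R →ₐ[𝒪] 𝒪) : D'.R →+* 𝒪) :=
      isLocalHom_algHom (𝒪 := 𝒪) hOloc hOsurj _
    have hcomp : (π.comp res).comp φ' = (π.comp φ).comp β := by
      rw [AlgHom.comp_assoc, hsq, AlgHom.comp_assoc]
    have hxe : (D.ρ.baseChangeAlong ((π.comp φ : D.R →ₐ[𝒪] 𝒪) : D.R →+* 𝒪) hxloc).IsEquiv
        (P.H.ρ.baseChangeAlong (π : P.T →+* 𝒪) hπloc) := by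
      have h1 := baseChangeAlong_comp_isEquiv' (φ : D.R →+* P.T) hφ (π : P.T →+* 𝒪) hπloc
        ((π.comp φ : D.R →ₐ[𝒪] 𝒪) : D.R →+* 𝒪) hxloc rfl D.ρ
      exact isEquiv_trans (isEquiv_symm h1) (isEquiv_baseChangeAlong _ hπloc hφe)
    have hxx' : (D'.ρ.baseChangeAlong
        (((π.comp res).comp φ' : D'.R →ₐ[𝒪] 𝒪) : D'.R →+* 𝒪) hx'loc).IsEquiv
        (D.ρ.baseChangeAlong ((π.comp φ : D.R →ₐ[𝒪] 𝒪) : D.R →+* 𝒪) hxloc) := by
      have h0 : ((π.comp φ : D.R →ₐ[𝒪] 𝒪) : D.R →+* 𝒪).comp (β : D'.R →+* D.R) =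
          (((π.comp res).comp φ' : D'.R →ₐ[𝒪] 𝒪) : D'.R →+* 𝒪) := by
        rw [hcomp]
        rfl
      have h1 := baseChangeAlong_comp_isEquiv' (β : D'.R →+* D.R) hβ
        ((π.comp φ : D.R →ₐ[𝒪] 𝒪) : D.R →+* 𝒪) hxloc
        (((π.comp res).comp φ' : D'.R →ₐ[𝒪] 𝒪) : D'.R →+* 𝒪) hx'loc h0 D'.ρ
      exact isEquiv_trans (isEquiv_symm h1) (isEquiv_baseChangeAlong _ hxloc hβe)
    -- Frobenius at `q`
    have hqN : ¬ q ∣ wilesLevel p t Smin Sig := fun hd => hqS (hNS q hq hd)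
    have hqSc : q ∉ (↑Sig : Set ℕ) := fun h => hqS (Finset.mem_coe.mp h)
    have haq : ∀ B : ValuationSubring Fermat.Agent.S31.Qb, B.LiesOverPrime q →
        ∀ σ : Fermat.Agent.S31.GQ, B.IsFrobeniusAt σ q →
          LinearMap.charpoly ((D.ρ.baseChangeAlong
            ((π.comp φ : D.R →ₐ[𝒪] 𝒪) : D.R →+* 𝒪) hxloc).ρ σ) =
            X ^ 2 - C (eig χ q) * X + C ((q : 𝒪)) := by
      intro B hB σ hσ
      have hT := hπ q hq hqN hqSc
      rw [charpoly_eq_of_isEquiv hxe σ, charpoly_baseChangeAlong,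
        P.H.charpoly_frob q hq hqN hqSc B hB σ hσ, P.hπ, Polynomial.map_add,
        Polynomial.map_sub, Polynomial.map_mul, Polynomial.map_pow, Polynomial.map_X,
        Polynomial.map_C, Polynomial.map_C, RingHom.coe_coe, hT, map_natCast]
    -- SEL
    obtain ⟨hfin', hsel⟩ := hSEL p 𝒪 ρbar Smin hRH t htord Sig hSig hSigP q hq hqS D D'
      (π.comp φ) ((π.comp res).comp φ') hxloc hx'loc hxx' (eig χ q) haq hcq hfin
    -- the numerical criterion
    have hcalc : Nat.card (NC.Cot ((π.comp res).comp φ')) ≤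
        Nat.card (𝒪 ⧸ (Ideal.span {cq (eig χ) q} * targetIdeal p 𝒪 t Smin Sig (eig χ))) :=
      calc Nat.card (NC.Cot ((π.comp res).comp φ'))
          ≤ Nat.card (NC.Cot (π.comp φ)) * Nat.card (𝒪 ⧸ Ideal.span {cq (eig χ) q}) := hsel
        _ = Nat.card (𝒪 ⧸ Ideal.span {cq (eig χ) q}) *
              Nat.card (𝒪 ⧸ targetIdeal p 𝒪 t Smin Sig (eig χ)) := by
            rw [hnum, hη, mul_comm]
        _ = Nat.card (𝒪 ⧸ (Ideal.span {cq (eig χ) q} *
              targetIdeal p 𝒪 t Smin Sig (eig χ))) :=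
            (card_quot_span_mul_ideal239 hcq _).symm
    have hle : Nat.card (NC.Cot ((π.comp res).comp φ')) ≤
        Nat.card (𝒪 ⧸ NC.congIdeal (π.comp res)) :=
      hcalc.trans (card_quot_le_of_le239 hle')
    haveI := hfin'
    obtain ⟨h1, h2⟩ :=
      Fermat.Agent.S59.H427.numerical_criterion_full_NC φ' hφ's (π.comp res) hle
    refine ⟨h1, hfin', h2, ?_⟩
    rw [targetIdeal_insert p 𝒪 t hSig hqS]
    refine ideal_eq_of_le_of_card_le239 hle' ?_
    rw [← h2]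
    exact hcalc
  -- a compatible `φ'` exists
  have hcS2 := hCOND p hRH.hp2 𝒪 hRH.hp𝒪 t Smin (insert q Sig)
  have hbar' : sigmaCond 𝒪 p t Smin (insert q Sig) (GaloisRepAdic.ofResidualGaloisRep ρbar) :=
    hREDT 𝒪 _ hcS2.1 _ P'.H.residue_surjective P'.H.ρ ρbar P'.hres P'.hcond
  obtain ⟨D'₀⟩ := h53 𝒪 ρbar _ hRH.habs hcS2.1 hbar' (hcS2.2 ρbar)
  obtain ⟨φ'₀, -, hφ'₀⟩ := h54 D'₀ P'.H hNSc' P'.hcond P'.hres
  have hη' := (step D'₀ φ'₀ hφ'₀).2.2.2
  exact rtIsoPlus_of_pkg P' (eig χ) (π.comp res) hπ' hη'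
    (fun D' φ' h => ⟨(step D' φ' h).1, (step D' φ' h).2.1, (step D' φ' h).2.2.1⟩)

end Fermat.Agent.S59.Arch

end
-- ===== PACK-END S59/Arch/AsmNM.lean

-- ===== PACK-BEGIN S59/NMP/SpecP.lean
section



/-!
# Row S59, cell NMP — `Plus` form of the interface (sub-architect helper583, board v3)

Target (architect's ruling v5, `Arch/SpecPlus.lean`): `Arch.NonMinPPlusHStatement`

    RTIsoPlus .flat Smin Σ (eig χ)  →  RTIso .ord Smin Σ       (+ `CurveCase`, `ρ̄` flat and ordinary).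

The Galois-side leaves `SelStatement`, `OrdDatumStatement` of `NMP/Spec.lean` are unchanged.
The Hecke side is

* `EtaPStatement` (ETA-P): `η_T(π) = targetIdeal` (the invariant of `RTIsoPlus`) implies
  `α² ≠ 1` and `#(𝒪/η_T(π)) · #(𝒪/(α² − 1)) ≤ #(𝒪/η_{T'}(π ∘ res))`,

and ETA-P follows (`NMP/GlueP.lean`, `etaP_of_leaves`) from the leaves

* `NM.EtaOfBoundStatement`  (ETAB, leaf of cell NM, used at the level `N p`);
* `BettiTargetStatement`    (BB): the Betti bound `BettiBound N_Σ Σ a targetIdeal` of the flat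
  level (the induction of cell NM: base + `NM.BoundStepStatement`);
* `BoundStepPStatement`     (STEP-P): `BettiBound N S a J ⇒ BettiBound (N p) S a ((a_p² − (p+1)²) J)`
  (Ihara's lemma at `p`, the Gram matrix `[[p+1, T_p], [T_p, p+1]]`, old classes at `p`);
* `LgcStatement`            (LGC): `α · T_p x = (α² + p) x` on the eigenclasses of level `N`
  (Eichler–Shimura at `p`: `a_p = α + p/α`, `α` the unramified Frobenius eigenvalue of `ρ_π`).
-/

set_option autoImplicit false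

open Polynomial IsLocalRing CongruenceSubgroup
open scoped MatrixGroups

namespace Fermat.Agent.S59.NMP

open CuspForm Fermat.Agent.S59.Arch Fermat.Agent.S59.H765 Fermat.Agent.S41.Spec
  Fermat.Agent.S29.H642

/-- **ETA-P** (the Hecke step at `p`, `Plus` form).  In the situation of DATUM, let `π` be the
`𝒪`-point of `T` of `RTIsoPlus .flat` (eigenvalues `eig χ`, `η_T(π) = δ₀ ∏ c_q`) and `α` the
unramified Frobenius eigenvalue of `ρ_π` at `p`.  Then `α² ≠ 1` and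
`#(𝒪/η_T(π)) · #(𝒪/(α² − 1)) ≤ #(𝒪/η_{T'}(π ∘ res))`. -/
def EtaPStatement : Prop :=
  ∀ (p : ℕ) [Fact p.Prime]
    (𝒪 : Type) [CommRing 𝒪] [IsDomain 𝒪] [IsDiscreteValuationRing 𝒪]
    [IsAdicComplete (maximalIdeal 𝒪) 𝒪] [Finite (ResidueField 𝒪)] [CharZero 𝒪]
    (ρbar : ResidualGaloisRep (ResidueField 𝒪)) (Smin : Finset ℕ)
    (_h : ResidualHyp p 𝒪 ρbar Smin) (_hc : CurveCase p ρbar)
    (_hN : NeZero (wilesLevel p .flat Smin Smin))
    (χ : heckeAlgebra (wilesLevel p .flat Smin Smin) 2 (↑Smin : Set ℕ) →+* 𝒪)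
    (_hχ : G4.ResFrobCond ρbar ((residue 𝒪).comp χ))
    (Sig : Finset ℕ)
    (hSig : Smin ⊆ Sig) (hSigP : ∀ q ∈ Sig, q.Prime) (hpSig : p ∈ Sig)
    (_hflat : (GaloisRepAdic.ofResidualGaloisRep ρbar).IsFlatAt p)
    (_hord : (GaloisRepAdic.ofResidualGaloisRep ρbar).IsOrdinaryAt p)
    [NeZero (wilesLevel p .flat Smin Sig)]
    [Fact (HasIntegralStructure (wilesLevel p .flat Smin Sig) 2)]
    [NeZero (wilesLevel p .ord Smin Sig)]
    [Fact (HasIntegralStructure (wilesLevel p .ord Smin Sig) 2)]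
    (θ : heckeAlgebra (wilesLevel p .flat Smin Sig) 2 (↑Sig : Set ℕ) →+* ResidueField 𝒪)
    [IsLocalRing (heckeLocal (wilesLevel p .flat Smin Sig) (↑Sig : Set ℕ) 𝒪 θ)]
    [IsNoetherianRing (heckeLocal (wilesLevel p .flat Smin Sig) (↑Sig : Set ℕ) 𝒪 θ)]
    [IsAdicComplete (maximalIdeal (heckeLocal (wilesLevel p .flat Smin Sig) (↑Sig : Set ℕ) 𝒪 θ))
      (heckeLocal (wilesLevel p .flat Smin Sig) (↑Sig : Set ℕ) 𝒪 θ)]
    [IsLocalHom (algebraMap 𝒪 (heckeLocal (wilesLevel p .flat Smin Sig) (↑Sig : Set ℕ) 𝒪 θ))]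
    [Module.Finite 𝒪 (heckeLocal (wilesLevel p .flat Smin Sig) (↑Sig : Set ℕ) 𝒪 θ)]
    [Module.Free 𝒪 (heckeLocal (wilesLevel p .flat Smin Sig) (↑Sig : Set ℕ) 𝒪 θ)]
    [IsLocalRing (heckeLocal (wilesLevel p .ord Smin Sig) (↑Sig : Set ℕ) 𝒪
      (θ.comp (oldRestrict (levelPair_flat_ord p hSig hSigP hpSig))))]
    [IsNoetherianRing (heckeLocal (wilesLevel p .ord Smin Sig) (↑Sig : Set ℕ) 𝒪
      (θ.comp (oldRestrict (levelPair_flat_ord p hSig hSigP hpSig))))]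
    [IsAdicComplete
      (maximalIdeal (heckeLocal (wilesLevel p .ord Smin Sig) (↑Sig : Set ℕ) 𝒪
        (θ.comp (oldRestrict (levelPair_flat_ord p hSig hSigP hpSig)))))
      (heckeLocal (wilesLevel p .ord Smin Sig) (↑Sig : Set ℕ) 𝒪
        (θ.comp (oldRestrict (levelPair_flat_ord p hSig hSigP hpSig))))]
    [IsLocalHom (algebraMap 𝒪 (heckeLocal (wilesLevel p .ord Smin Sig) (↑Sig : Set ℕ) 𝒪
      (θ.comp (oldRestrict (levelPair_flat_ord p hSig hSigP hpSig)))))]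
    [Module.Finite 𝒪 (heckeLocal (wilesLevel p .ord Smin Sig) (↑Sig : Set ℕ) 𝒪
      (θ.comp (oldRestrict (levelPair_flat_ord p hSig hSigP hpSig))))]
    [Module.Free 𝒪 (heckeLocal (wilesLevel p .ord Smin Sig) (↑Sig : Set ℕ) 𝒪
      (θ.comp (oldRestrict (levelPair_flat_ord p hSig hSigP hpSig))))]
    (H : HeckeGaloisRepDatum (wilesLevel p .flat Smin Sig) (↑Sig : Set ℕ) 𝒪 θ
      (heckeLocal (wilesLevel p .flat Smin Sig) (↑Sig : Set ℕ) 𝒪 θ))
    (_hπ : H.π = heckeLocal.π (wilesLevel p .flat Smin Sig) (↑Sig : Set ℕ) 𝒪 θ)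
    (_hres : H.ρ.residual.IsEquiv (ρbar.baseChangeAlong (ResidueField.map (algebraMap 𝒪
      (heckeLocal (wilesLevel p .flat Smin Sig) (↑Sig : Set ℕ) 𝒪 θ)))))
    (_hcond : sigmaCond 𝒪 p .flat Smin Sig H.ρ)
    (π : heckeLocal (wilesLevel p .flat Smin Sig) (↑Sig : Set ℕ) 𝒪 θ →ₐ[𝒪] 𝒪)
    (hπloc : IsLocalHom
      (π : heckeLocal (wilesLevel p .flat Smin Sig) (↑Sig : Set ℕ) 𝒪 θ →+* 𝒪))
    (_hπa : ∀ (l : ℕ) (hl : l.Prime) (hlN : ¬ l ∣ wilesLevel p .flat Smin Sig)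
      (hlS : l ∉ (↑Sig : Set ℕ)),
      π (heckeLocal.π (wilesLevel p .flat Smin Sig) (↑Sig : Set ℕ) 𝒪 θ
        (heckeAlgebra.T hl hlN hlS)) = NM.eig χ l)
    (_hη : NC.congIdeal π = NM.targetIdeal p 𝒪 .flat Smin Sig (NM.eig χ))
    (α : 𝒪)
    (_hα : UnrFrobAt (H.ρ.baseChangeAlong
      (π : heckeLocal (wilesLevel p .flat Smin Sig) (↑Sig : Set ℕ) 𝒪 θ →+* 𝒪) hπloc) p α),
    α ^ 2 ≠ 1 ∧
      Nat.card (𝒪 ⧸ NC.congIdeal π) * Nat.card (𝒪 ⧸ Ideal.span {α ^ 2 - 1}) ≤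
        Nat.card (𝒪 ⧸ NC.congIdeal
          (π.comp (resLocal (levelPair_flat_ord p hSig hSigP hpSig) 𝒪 θ)))

/-! ## Leaves of ETA-P -/

/-- **BB** (the Betti bound of the flat level).  If the target ideal
`δ₀(χ) ∏_{q ∈ Σ ∖ Smin} (c_q)` is nonzero, there is a primitive `eig χ`-eigenclass of level `N_Σ`
all of whose Manin pairings with eigenclasses lie in the target ideal.
[Induction on `Σ ∖ Smin`: base `δ₀ ≠ 0` (a primitive eigenclass of level `N_min` exists and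
`B(x, y) ∈ δ₀` by definition), step `NM.BoundStepStatement`.  This is the first half of the proof
of `NM.EtaAbsStatement`.] -/
def BettiTargetStatement : Prop :=
  ∀ (p : ℕ) [Fact p.Prime]
    (𝒪 : Type) [CommRing 𝒪] [IsDomain 𝒪] [IsDiscreteValuationRing 𝒪]
    [IsAdicComplete (maximalIdeal 𝒪) 𝒪] [Finite (ResidueField 𝒪)] [CharZero 𝒪]
    (ρbar : ResidualGaloisRep (ResidueField 𝒪)) (Smin : Finset ℕ)
    (_h : ResidualHyp p 𝒪 ρbar Smin) (_hc : CurveCase p ρbar)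
    (_hN : NeZero (wilesLevel p .flat Smin Smin))
    (χ : heckeAlgebra (wilesLevel p .flat Smin Smin) 2 (↑Smin : Set ℕ) →+* 𝒪)
    (_hχ : G4.ResFrobCond ρbar ((residue 𝒪).comp χ))
    (Sig : Finset ℕ) (_hSig : Smin ⊆ Sig) (_hSigP : ∀ q ∈ Sig, q.Prime)
    (_hflat : (GaloisRepAdic.ofResidualGaloisRep ρbar).IsFlatAt p),
    NM.targetIdeal p 𝒪 .flat Smin Sig (NM.eig χ) ≠ ⊥ →
      NM.BettiBound (wilesLevel p .flat Smin Sig) Sig (NM.eig χ)
        (NM.targetIdeal p 𝒪 .flat Smin Sig (NM.eig χ))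

/-- **STEP-P** (the Betti step at `p`).  `N` prime to `p`, `S` = `{p}` ∪ the primes dividing `N`,
`a` a non-Eisenstein system (Frobenius traces of `ρ̄`), and `T_p = a_p` on the `a`-eigenclasses
of level `N`.  Then
`BettiBound N S a J ⇒ BettiBound (N p) S a ((a_p² − (p + 1)²) J)`.

[`x' := (p + 1) r₁ x − a_p r₂ x`.  Primitive: Ihara's lemma at `p` (`r₁ ⊕ r₂` is injective mod `ϖ`
on the eigenclasses; `S59.H341.ihara_eigen_torsion` in the curve case) and `p + 1` is a unit.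
An eigenclass `y` of level `N p` away from `S ∋ p` is OLD: `y = r₁ z₁ + r₂ z₂` over the fraction
field (the newform of `a` has level dividing `N`), `z_i` integral by Ihara; then
`B(x', y) = B(x, ((p + 1) t₁ − a_p t₂) y) = ((p + 1)² − a_p²) B(x, z₁)` by adjunction
(`NM.Adj2Statement`) and HK-3, HK-4 (`t₁ r₁ = p + 1 = t₂ r₂`, `t₁ r₂ = T_p = t₂ r₁`).] -/
def BoundStepPStatement : Prop :=
  ∀ (p : ℕ) [Fact p.Prime] (_hp2 : p ≠ 2)
    (𝒪 : Type) [CommRing 𝒪] [IsDomain 𝒪] [IsDiscreteValuationRing 𝒪]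
    [IsAdicComplete (maximalIdeal 𝒪) 𝒪] [Finite (ResidueField 𝒪)] [CharZero 𝒪]
    (_hp𝒪 : (p : 𝒪) ∈ maximalIdeal 𝒪)
    (ρbar : ResidualGaloisRep (ResidueField 𝒪)) (_habs : ρbar.IsAbsolutelyIrreducible)
    (_hsplit : ∀ σ : AlgebraicClosure ℚ ≃ₐ[ℚ] AlgebraicClosure ℚ,
      ∃ α β : ResidueField 𝒪, LinearMap.charpoly (ρbar.ρ σ) = (X - C α) * (X - C β))
    (_hc : CurveCase p ρbar)
    (N : ℕ) (_hN : N ≠ 0) (hpN : ¬ p ∣ N)
    (S : Finset ℕ) (_hpS : p ∈ S) (_hSP : ∀ r ∈ S, r.Prime)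
    (_hNS : ∀ r : ℕ, r.Prime → r ∣ N → r ∈ S) (_hSN : ∀ r ∈ S, r ≠ p → r ∣ N)
    (a : ℕ → 𝒪) (_ha : NM.IsFrobSystem ρbar S a) (ap : 𝒪)
    (_hap : ∀ x : Additive (Gamma0 N) →+ 𝒪, NM.IsEigenclass N S a x →
      heckeTransfer hpN x = ap • x)
    (J : Ideal 𝒪),
    NM.BettiBound N S a J →
      NM.BettiBound (N * p) S a (Ideal.span {ap ^ 2 - ((p : 𝒪) + 1) ^ 2} * J)

/-- **LGC** (Eichler–Shimura at `p`).  `H` the Hecke–Galois datum of the flat level `N` (prime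
to `p`), `π` an `𝒪`-point of `T` of eigenvalues `a`, `α` the unramified Frobenius eigenvalue of
`ρ_π = H.ρ ⊗_π 𝒪` at `p`.  Then `T_p` acts on every `a`-eigenclass `x` of level `N` by
`a_p = α + p/α`:   `α · T_p x = (α² + p) · x`.

[Reduction of `J₀(N)` at `p ∤ N`: on the special fibre `T_p = F + V`, `V = p/F`; the unramified
quotient of `ρ_π` is the image of the `π`-part of the `p`-adic Tate module in the Tate module of
the special fibre, on which `Frob_p = F`, hence `α² − a_p α + p = 0`.  Strong multiplicity one: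
`T_p` is a scalar on the eigenclasses.] -/
def LgcStatement : Prop :=
  ∀ (p : ℕ) [Fact p.Prime]
    (𝒪 : Type) [CommRing 𝒪] [IsDomain 𝒪] [IsDiscreteValuationRing 𝒪]
    [IsAdicComplete (maximalIdeal 𝒪) 𝒪] [Finite (ResidueField 𝒪)] [CharZero 𝒪]
    (ρbar : ResidualGaloisRep (ResidueField 𝒪)) (Smin : Finset ℕ)
    (_h : ResidualHyp p 𝒪 ρbar Smin) (_hc : CurveCase p ρbar)
    (Sig : Finset ℕ)
    (_hSig : Smin ⊆ Sig) (_hSigP : ∀ q ∈ Sig, q.Prime) (_hpSig : p ∈ Sig)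
    (_hflat : (GaloisRepAdic.ofResidualGaloisRep ρbar).IsFlatAt p)
    (_hord : (GaloisRepAdic.ofResidualGaloisRep ρbar).IsOrdinaryAt p)
    [NeZero (wilesLevel p .flat Smin Sig)]
    [Fact (HasIntegralStructure (wilesLevel p .flat Smin Sig) 2)]
    (θ : heckeAlgebra (wilesLevel p .flat Smin Sig) 2 (↑Sig : Set ℕ) →+* ResidueField 𝒪)
    [IsLocalRing (heckeLocal (wilesLevel p .flat Smin Sig) (↑Sig : Set ℕ) 𝒪 θ)]
    [IsNoetherianRing (heckeLocal (wilesLevel p .flat Smin Sig) (↑Sig : Set ℕ) 𝒪 θ)]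
    [IsAdicComplete (maximalIdeal (heckeLocal (wilesLevel p .flat Smin Sig) (↑Sig : Set ℕ) 𝒪 θ))
      (heckeLocal (wilesLevel p .flat Smin Sig) (↑Sig : Set ℕ) 𝒪 θ)]
    [IsLocalHom (algebraMap 𝒪 (heckeLocal (wilesLevel p .flat Smin Sig) (↑Sig : Set ℕ) 𝒪 θ))]
    [Module.Finite 𝒪 (heckeLocal (wilesLevel p .flat Smin Sig) (↑Sig : Set ℕ) 𝒪 θ)]
    [Module.Free 𝒪 (heckeLocal (wilesLevel p .flat Smin Sig) (↑Sig : Set ℕ) 𝒪 θ)]
    (H : HeckeGaloisRepDatum (wilesLevel p .flat Smin Sig) (↑Sig : Set ℕ) 𝒪 θ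
      (heckeLocal (wilesLevel p .flat Smin Sig) (↑Sig : Set ℕ) 𝒪 θ))
    (_hπ : H.π = heckeLocal.π (wilesLevel p .flat Smin Sig) (↑Sig : Set ℕ) 𝒪 θ)
    (_hres : H.ρ.residual.IsEquiv (ρbar.baseChangeAlong (ResidueField.map (algebraMap 𝒪
      (heckeLocal (wilesLevel p .flat Smin Sig) (↑Sig : Set ℕ) 𝒪 θ)))))
    (_hcond : sigmaCond 𝒪 p .flat Smin Sig H.ρ)
    (π : heckeLocal (wilesLevel p .flat Smin Sig) (↑Sig : Set ℕ) 𝒪 θ →ₐ[𝒪] 𝒪)
    (hπloc : IsLocalHom
      (π : heckeLocal (wilesLevel p .flat Smin Sig) (↑Sig : Set ℕ) 𝒪 θ →+* 𝒪))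
    (a : ℕ → 𝒪)
    (_hπa : ∀ (l : ℕ) (hl : l.Prime) (hlN : ¬ l ∣ wilesLevel p .flat Smin Sig)
      (hlS : l ∉ (↑Sig : Set ℕ)),
      π (heckeLocal.π (wilesLevel p .flat Smin Sig) (↑Sig : Set ℕ) 𝒪 θ
        (heckeAlgebra.T hl hlN hlS)) = a l)
    (α : 𝒪)
    (_hα : UnrFrobAt (H.ρ.baseChangeAlong
      (π : heckeLocal (wilesLevel p .flat Smin Sig) (↑Sig : Set ℕ) 𝒪 θ →+* 𝒪) hπloc) p α)
    (hpN : ¬ p ∣ wilesLevel p .flat Smin Sig)
    (x : Additive (Gamma0 (wilesLevel p .flat Smin Sig)) →+ 𝒪),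
    NM.IsEigenclass (wilesLevel p .flat Smin Sig) Sig a x →
      α • heckeTransfer hpN x = (α ^ 2 + (p : 𝒪)) • x

end Fermat.Agent.S59.NMP

end
-- ===== PACK-END S59/NMP/SpecP.lean

-- ===== PACK-BEGIN S59/NMP/EtaP.lean
section









/-!
# Row S59, cell NMP — ETA-P from its leaves (helper583)

`etaP_of_leaves : NM.EtaOfBoundStatement → BettiTargetStatement → BoundStepPStatement →
LgcStatement → EtaPStatement`.
-/

set_option autoImplicit false

open Polynomial IsLocalRing CongruenceSubgroup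
open scoped MatrixGroups

namespace Fermat.Agent.S59.NMP

open CuspForm Fermat.Agent.S59.Arch Fermat.Agent.S59.H765 Fermat.Agent.S41.Spec
  Fermat.Agent.S29.H642

/-- The unramified Frobenius eigenvalue is a unit. -/
theorem UnrFrobAt.isUnit {A : Type} [CommRing A] [IsLocalRing A] {ρ : GaloisRepAdic A} {p : ℕ}
    (hp : p.Prime) {α : A} (h : UnrFrobAt ρ p α) : IsUnit α := by
  obtain ⟨P, hP, L, ⟨b, rfl⟩, hD, -, hF⟩ := h
  obtain ⟨σ, hσ⟩ := Fermat.Agent.Lib.Cheb.H643.exists_isFrobeniusAt p hp P hP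
  have hσD : σ ∈ P.decompositionSubgroup ℚ := hσ.mem_decompositionSubgroup
  have hcoord : ∀ v ∈ Submodule.span A {b 0}, b.repr v 1 = 0 := by
    intro v hv
    obtain ⟨r, rfl⟩ := Submodule.mem_span_singleton.mp hv
    simp
  set w : ρ.V := ρ.ρ σ⁻¹ (b 1) with hw
  have hσw : ρ.ρ σ w = b 1 := by
    rw [hw, ← Module.End.mul_apply, ← map_mul, mul_inv_cancel, map_one, Module.End.one_apply]
  -- `ρ σ w - α w ∈ L`
  have h1 := hcoord _ (hF σ hσ w)
  rw [hσw, map_sub, map_smul] at h1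
  simp only [Module.Basis.repr_self, Finsupp.sub_apply, Finsupp.single_eq_same,
    Finsupp.smul_apply, smul_eq_mul] at h1
  exact IsUnit.of_mul_eq_one (b.repr w 1) (by rw [sub_eq_zero] at h1; exact h1.symm)

/-- `p ∤ N_Σ^{flat}`. -/
theorem not_dvd_wilesLevel_flat {p : ℕ} (hp : p.Prime) {Smin Sig : Finset ℕ}
    (hSigP : ∀ q ∈ Sig, q.Prime) (hSig : Smin ⊆ Sig) (hpS : p ∈ Smin) :
    ¬ p ∣ wilesLevel p .flat Smin Sig := by
  classical
  intro hd
  rw [wilesLevel_eq] at hd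
  simp only [pFactor, mul_one] at hd
  rcases (Nat.Prime.dvd_mul hp).mp hd with h1 | h2
  · obtain ⟨q, hq, hpq⟩ := (Prime.dvd_finsetProd_iff hp.prime _).mp h1
    have hqp : q.Prime := hSigP q (hSig (Finset.mem_of_mem_erase hq))
    have : p = q := (Nat.prime_dvd_prime_iff_eq hp hqp).mp hpq
    exact (Finset.ne_of_mem_erase hq) this.symm
  · obtain ⟨q, hq, hpq⟩ := (Prime.dvd_finsetProd_iff hp.prime _).mp h2
    have hqp : q.Prime := hSigP q (Finset.mem_sdiff.mp hq).1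
    have hpq' : p ∣ q := hp.dvd_of_dvd_pow hpq
    have : p = q := (Nat.prime_dvd_prime_iff_eq hp hqp).mp hpq'
    subst this
    exact (Finset.mem_sdiff.mp hq).2 hpS

/-- The primes of `Σ ∖ {p}` divide `N_Σ^{flat}`. -/
theorem dvd_wilesLevel_flat_of_mem {p : ℕ} {Smin Sig : Finset ℕ} (hSig : Smin ⊆ Sig)
    {r : ℕ} (hr : r ∈ Sig) (hrp : r ≠ p) : r ∣ wilesLevel p .flat Smin Sig := by
  classical
  rw [wilesLevel_eq]
  simp only [pFactor, mul_one]
  by_cases h : r ∈ Smin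
  · exact Dvd.dvd.mul_right
      (Finset.dvd_prod_of_mem (fun q => q) (Finset.mem_erase.mpr ⟨hrp, h⟩)) _
  · exact Dvd.dvd.mul_left
      ((dvd_pow_self r two_ne_zero).trans
        (Finset.dvd_prod_of_mem (fun q => q ^ 2) (Finset.mem_sdiff.mpr ⟨hr, h⟩))) _

/-- `N_Σ^{ord} = N_Σ^{flat} · p`. -/
theorem wilesLevel_ord_eq (p : ℕ) (Smin Sig : Finset ℕ) :
    wilesLevel p .ord Smin Sig = wilesLevel p .flat Smin Sig * p := by
  rw [wilesLevel_eq, wilesLevel_eq]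
  simp only [pFactor, mul_one]

/-- The eigenvalues of `χ` form a Frobenius system of `ρ̄` away from `Σ`. -/
theorem isFrobSystem_eig {p : ℕ} [Fact p.Prime]
    {𝒪 : Type} [CommRing 𝒪] [IsDomain 𝒪] [IsDiscreteValuationRing 𝒪]
    [IsAdicComplete (maximalIdeal 𝒪) 𝒪]
    {ρbar : ResidualGaloisRep (ResidueField 𝒪)} {Smin Sig : Finset ℕ}
    (hRH : ResidualHyp p 𝒪 ρbar Smin) (hSig : Smin ⊆ Sig)
    [NeZero (wilesLevel p .flat Smin Smin)]
    (χ : heckeAlgebra (wilesLevel p .flat Smin Smin) 2 (↑Smin : Set ℕ) →+* 𝒪)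
    (hχ : G4.ResFrobCond ρbar ((residue 𝒪).comp χ)) :
    NM.IsFrobSystem ρbar Sig (NM.eig χ) := by
  intro l hl hlS B hB σ hσ
  have hlSmin : l ∉ (↑Smin : Set ℕ) := fun h => hlS (hSig (Finset.mem_coe.mp h))
  have hlN : ¬ l ∣ wilesLevel p .flat Smin Smin := fun hd =>
    hlSmin (Finset.mem_coe.mpr
      (prime_dvd_wilesLevel p .flat (Finset.Subset.refl Smin) hRH.hSmin hRH.hpSmin hl hd))
  rw [NM.eig_eq χ hl hlN hlSmin]
  exact hχ l hl hlN hlSmin B hB σ hσ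

set_option maxHeartbeats 1600000 in
/-- **ETA-P from its leaves.** -/
theorem etaP_of_leaves (hETAB : NM.EtaOfBoundStatement) (hBB : BettiTargetStatement)
    (hSTEP : BoundStepPStatement) (hLGC : LgcStatement) : EtaPStatement := by
  intro p _ 𝒪 _ _ _ _ _ _ ρbar Smin hRH hc hNmin χ hχ Sig hSig hSigP hpSig hflat hord
    _ _ _ _ θ _ _ _ _ _ _ _ _ _ _ _ _ H hHπ hHres hHcond π hπloc hπa hη α hα
  classical
  have hpp : p.Prime := Fact.out
  have hNS : ∀ q : ℕ, q.Prime → q ∣ wilesLevel p .flat Smin Sig → q ∈ (↑Sig : Set ℕ) :=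
    fun q hq hd => Finset.mem_coe.mpr (prime_dvd_wilesLevel p .flat hSig hSigP hpSig hq hd)
  have hNS' : ∀ q : ℕ, q.Prime → q ∣ wilesLevel p .ord Smin Sig → q ∈ (↑Sig : Set ℕ) :=
    fun q hq hd => Finset.mem_coe.mpr (prime_dvd_wilesLevel p .ord hSig hSigP hpSig hq hd)
  have hpN : ¬ p ∣ wilesLevel p .flat Smin Sig :=
    not_dvd_wilesLevel_flat hpp hSigP hSig hRH.hpSmin
  -- the two congruence ideals are nonzero
  have hred : IsReduced (heckeLocal (wilesLevel p .flat Smin Sig) (↑Sig : Set ℕ) 𝒪 θ) :=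
    G4.H547.red _ _ hNS 𝒪 θ
  have hred' : IsReduced (heckeLocal (wilesLevel p .ord Smin Sig) (↑Sig : Set ℕ) 𝒪
      (θ.comp (oldRestrict (levelPair_flat_ord p hSig hSigP hpSig)))) :=
    G4.H547.red _ _ hNS' 𝒪 _
  have hηne : NC.congIdeal π ≠ ⊥ := Fermat.Agent.S59.H427.congIdeal_ne_bot_of_isReduced π
  set π' : heckeLocal (wilesLevel p .ord Smin Sig) (↑Sig : Set ℕ) 𝒪
      (θ.comp (oldRestrict (levelPair_flat_ord p hSig hSigP hpSig))) →ₐ[𝒪] 𝒪 :=
    π.comp (resLocal (levelPair_flat_ord p hSig hSigP hpSig) 𝒪 θ) with hπ'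
  have hη'ne : NC.congIdeal π' ≠ ⊥ := Fermat.Agent.S59.H427.congIdeal_ne_bot_of_isReduced π'
  -- `α` is a unit, `a_p := α⁻¹ (α² + p)`
  obtain ⟨u, hu⟩ := hα.isUnit hpp
  set ap : 𝒪 := (↑u⁻¹ : 𝒪) * (α ^ 2 + (p : 𝒪)) with hap
  have huα : (↑u⁻¹ : 𝒪) * α = 1 := by rw [← hu, Units.inv_mul]
  have hTp : ∀ x : Additive (Gamma0 (wilesLevel p .flat Smin Sig)) →+ 𝒪,
      NM.IsEigenclass (wilesLevel p .flat Smin Sig) Sig (NM.eig χ) x →
        heckeTransfer hpN x = ap • x := by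
    intro x hx
    have h1 := hLGC p 𝒪 ρbar Smin hRH hc Sig hSig hSigP hpSig hflat hord θ H hHπ hHres hHcond
      π hπloc (NM.eig χ) hπa α hα hpN x hx
    calc heckeTransfer hpN x = ((↑u⁻¹ : 𝒪) * α) • heckeTransfer hpN x := by
          rw [huα, one_smul]
      _ = (↑u⁻¹ : 𝒪) • (α • heckeTransfer hpN x) := by rw [mul_smul]
      _ = (↑u⁻¹ : 𝒪) • ((α ^ 2 + (p : 𝒪)) • x) := by rw [h1]
      _ = ap • x := by rw [smul_smul]
  -- the Betti bound at the level `N p`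
  have hJne : NM.targetIdeal p 𝒪 .flat Smin Sig (NM.eig χ) ≠ ⊥ := hη ▸ hηne
  have hbb := hBB p 𝒪 ρbar Smin hRH hc hNmin χ hχ Sig hSig hSigP hflat hJne
  have hfs : NM.IsFrobSystem ρbar Sig (NM.eig χ) := isFrobSystem_eig hRH hSig χ hχ
  have hstep := hSTEP p hRH.hp2 𝒪 hRH.hp𝒪 ρbar hRH.habs hRH.hsplit hc
    (wilesLevel p .flat Smin Sig) (NeZero.ne _) hpN Sig hpSig hSigP
    (fun r hr hd => Finset.mem_coe.mp (hNS r hr hd))
    (fun r hr hrp => dvd_wilesLevel_flat_of_mem hSig hr hrp)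
    (NM.eig χ) hfs ap hTp _ hbb
  rw [← wilesLevel_ord_eq p Smin Sig, ← hη] at hstep
  -- the eigenvalues of `π'`
  have hπ'a : ∀ (l : ℕ) (hl : l.Prime) (hlN : ¬ l ∣ wilesLevel p .ord Smin Sig)
      (hlS : l ∉ (↑Sig : Set ℕ)),
      π' (heckeLocal.π (wilesLevel p .ord Smin Sig) (↑Sig : Set ℕ) 𝒪
        (θ.comp (oldRestrict (levelPair_flat_ord p hSig hSigP hpSig)))
        (heckeAlgebra.T hl hlN hlS)) = NM.eig χ l := by
    intro l hl hlN hlS
    have hlN0 : ¬ l ∣ wilesLevel p .flat Smin Sig := fun hd =>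
      hlN ((wilesLevel_ord_eq p Smin Sig) ▸ Dvd.dvd.mul_right hd p)
    rw [hπ', AlgHom.comp_apply,
      resLocal_T (levelPair_flat_ord p hSig hSigP hpSig) 𝒪 θ hl hlN hlS hlN0 hlS]
    exact hπa l hl hlN0 hlS
  have hle : NC.congIdeal π' ≤
      Ideal.span {ap ^ 2 - ((p : 𝒪) + 1) ^ 2} * NC.congIdeal π :=
    hETAB p 𝒪 hRH.hp𝒪 (wilesLevel p .ord Smin Sig) Sig
      (fun r hr hd => Finset.mem_coe.mp (hNS' r hr hd)) _ π' (NM.eig χ) hπ'a _ hstep
  -- numerics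
  have hα2 : IsUnit (α ^ 2 - (p : 𝒪) ^ 2) := by
    rw [← IsLocalRing.notMem_maximalIdeal]
    intro hmem
    have h2 : α ^ 2 ∈ maximalIdeal 𝒪 := by
      have := Ideal.add_mem _ hmem (Ideal.pow_mem_of_mem _ hRH.hp𝒪 2 two_pos)
      rwa [sub_add_cancel] at this
    exact (IsLocalRing.notMem_maximalIdeal.mpr ((hu ▸ u.isUnit : IsUnit α).pow 2)) h2
  have hc : ap ^ 2 - ((p : 𝒪) + 1) ^ 2 =
      ((↑u⁻¹ : 𝒪) ^ 2 * (α ^ 2 - (p : 𝒪) ^ 2)) * (α ^ 2 - 1) := by
    have h1 : ap ^ 2 - ((p : 𝒪) + 1) ^ 2 =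
        ap ^ 2 - ((p : 𝒪) + 1) ^ 2 * ((↑u⁻¹ : 𝒪) * α) ^ 2 := by
      rw [huα, one_pow, mul_one]
    rw [h1, hap]
    ring
  have hunit : IsUnit ((↑u⁻¹ : 𝒪) ^ 2 * (α ^ 2 - (p : 𝒪) ^ 2)) :=
    ((u⁻¹).isUnit.pow 2).mul hα2
  have hspan : Ideal.span {ap ^ 2 - ((p : 𝒪) + 1) ^ 2} = Ideal.span {α ^ 2 - 1} := by
    rw [hc]
    exact Ideal.span_singleton_mul_left_unit hunit _
  rw [hspan] at hle
  obtain ⟨e, he⟩ : ∃ e : 𝒪, NC.congIdeal π = Ideal.span {e} :=
    ⟨_, (IsPrincipalIdealRing.principal (NC.congIdeal π)).span_singleton_generator.symm⟩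
  obtain ⟨d, hd⟩ : ∃ d : 𝒪, NC.congIdeal π' = Ideal.span {d} :=
    ⟨_, (IsPrincipalIdealRing.principal (NC.congIdeal π')).span_singleton_generator.symm⟩
  have he0 : e ≠ 0 := by
    rintro rfl
    exact hηne (he.trans (Ideal.span_singleton_eq_bot.mpr rfl))
  have hd0 : d ≠ 0 := by
    rintro rfl
    exact hη'ne (hd.trans (Ideal.span_singleton_eq_bot.mpr rfl))
  rw [he, Ideal.span_singleton_mul_span_singleton] at hle
  have hα1 : α ^ 2 - 1 ≠ 0 := by
    intro h0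
    rw [h0, zero_mul, hd, Ideal.span_singleton_le_span_singleton] at hle
    exact hd0 (zero_dvd_iff.mp hle)
  refine ⟨fun h => hα1 (by rw [h, sub_self]), ?_⟩
  rw [he, mul_comm, ← Fermat.Agent.S59.H360.card_quot_span_mul _ _ hα1]
  have : Finite (𝒪 ⧸ NC.congIdeal π') := by
    rw [hd]
    exact Fermat.Agent.S59.H427.finite_quotient_span_singleton_of_ne_zero hd0
  exact Nat.card_le_card_of_surjective _ (Ideal.Quotient.factor_surjective hle)

end Fermat.Agent.S59.NMP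

end
-- ===== PACK-END S59/NMP/EtaP.lean

-- ===== PACK-BEGIN S59/H585/BettiTarget.lean
section



/-!
# S59, cell NMP, leaf BB (helper585): the Betti bound of the flat level

`bettiTarget_of : NM.BoundStepStatement → NMP.BettiTargetStatement` — the induction of the cell NM
(`H585.bettiBound_all`), in the frozen shape of `NMP/SpecP.lean`.
-/

set_option autoImplicit false

open IsLocalRing

namespace Fermat.Agent.S59.H585

open Fermat.Agent.S59.NM Fermat.Agent.S59.Arch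

/-- **BB** from the step of the Betti bound. -/
theorem bettiTarget_of (hStep : BoundStepStatement) :
    Fermat.Agent.S59.NMP.BettiTargetStatement := by
  intro p _ 𝒪 _ _ _ _ _ _ ρbar Smin h _ hN χ hχ Sig hSig hSigP _ hne
  refine bettiBound_all hStep h .flat χ hχ ?_ Sig hSig hSigP
  intro h0
  apply hne
  unfold targetIdeal
  rw [h0, Ideal.bot_mul]

/-- **BB** from IHARA2 and OLD (`H202.hk2` plugged in by `boundStep_of`). -/
theorem bettiTarget_of_leaves (hHK2 : HK2Statement) (hI : Ihara2Statement)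
    (hOld : OldStatement) : Fermat.Agent.S59.NMP.BettiTargetStatement :=
  bettiTarget_of (boundStep_of hHK2 hI hOld)

end Fermat.Agent.S59.H585

end
-- ===== PACK-END S59/H585/BettiTarget.lean

-- ===== PACK-BEGIN S59/NMP/H437/RedT.lean
section



/-!
# Row S59, cell NMP, leaf RED-T (subtask 737) — helper437

`redT : NMP.RedTStatement`, VERBATIM: a deformation condition satisfied by a representation over
a complete Noetherian local `𝒪`-algebra `T` is satisfied by (any model of) its residual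
representation.  The proof is `redT_core` of `RedTCore.lean` (imports only `S53/Dict`).
-/

set_option autoImplicit false

open IsLocalRing

namespace Fermat.Agent.S59.NMP.H437

/-- **RED-T** (frozen leaf of `S59/NMP/Spec.lean`). -/
theorem redT : Fermat.Agent.S59.NMP.RedTStatement := by
  intro 𝒪 _ _ _ _ 𝒟 h𝒟 T _ _ _ _ _ _ hT ρ ρbar hres hD
  exact redT_core 𝒪 𝒟 h𝒟 T hT ρ ρbar hres hD

end Fermat.Agent.S59.NMP.H437

end
-- ===== PACK-END S59/NMP/H437/RedT.lean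

-- ===== PACK-BEGIN S59/H105/Iter.lean
section


/-!
# Row S59, cell TW, leaf CTRL (helper105): iteration of the one-prime step

`iter_chain` : `N₀ ≠ 0`, `V₀` the localisation of `X_{Γ₀(N₀)}(𝒪)` at `Tset₀` (no `U`-conditions);
`q_0, …, q_{r-1}` distinct primes not dividing `N₀`, units of `𝒪`, with `(q_j, c_j) ∈ Tset₀`,
`α_j + β_j ≡ c_j`, `α_j β_j ≡ q_j`, `α_j ≢ β_j`, `α_j² ≢ 1`, `β_j² ≢ 1`.  Then for the localisation
`W` of `X_{Γ₀(N₀ ∏ q_j)}(𝒪)` at `Tset₀` away from the `q_j` and `U_{q_j} - α_j`, there is a linear map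
`f : X_{Γ₀(N₀ ∏ q_j)}(𝒪) → X_{Γ₀(N₀)}(𝒪)` (the composite of the transfers `t₂`) commuting with the
`T_ℓ`, `ℓ ∤ N₀ ∏ q_j`, and inducing a bijection `W → V₀`.
-/

set_option autoImplicit false

namespace Fermat.Agent.S59.H105

open IsLocalRing CongruenceSubgroup
open Fermat.Agent.S29.H642 Fermat.Agent.S41 Fermat.Agent.S41.Spec
open Fermat.Agent.S59.TW.H653 Fermat.Agent.S59.TW.Aut
open scoped MatrixGroups

/-- `t₂` commutes with `T_ℓ` (vocabulary `Aut.tOp`). -/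
theorem tOp_t₂ (𝒪 : Type) [CommRing 𝒪] {N q : ℕ} (hNq : N * q ≠ 0) (ℓ : ℕ) (hℓ : ℓ.Prime)
    (hℓN : ¬ ℓ ∣ N) (hℓNq : ¬ ℓ ∣ N * q) (ψ : Additive (Gamma0 (N * q)) →+ 𝒪) :
    t₂ N q (tOp (N * q) (Gamma0 (N * q)) 𝒪 ℓ hℓ ψ) = tOp N (Gamma0 N) 𝒪 ℓ hℓ (t₂ N q ψ) := by
  haveI : Fact ℓ.Prime := ⟨hℓ⟩
  show t₂ N q (TK (N * q) (Gamma0 (N * q)) ℓ ψ) = TK N (Gamma0 N) ℓ (t₂ N q ψ)
  rw [TK_Gamma0 hℓN, TK_Gamma0 hℓNq, (H761.heckeTransferComm N q ℓ hℓN hℓNq hNq 𝒪 ψ).2]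

/-- `Tset₀` away from the primes `qv j`. -/
def TsetAway {𝒪 : Type} (Tset₀ : Set (ℕ × 𝒪)) {r : ℕ} (qv : Fin r → ℕ) : Set (ℕ × 𝒪) :=
  {x | x ∈ Tset₀ ∧ ∀ j, x.1 ≠ qv j}

theorem tsetAway_succ {𝒪 : Type} (Tset₀ : Set (ℕ × 𝒪)) {r : ℕ} (qv : Fin (r + 1) → ℕ) :
    TsetAway Tset₀ qv =
      {x | x ∈ TsetAway Tset₀ (fun j : Fin r => qv j.castSucc) ∧ x.1 ≠ qv (Fin.last r)} := by
  ext x
  constructor
  · rintro ⟨h0, h⟩
    exact ⟨⟨h0, fun j => h j.castSucc⟩, h (Fin.last r)⟩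
  · rintro ⟨⟨h0, h⟩, hl⟩
    exact ⟨h0, fun j => Fin.lastCases hl h j⟩

theorem usetOf_succ {𝒪 : Type} {r : ℕ} (qv : Fin (r + 1) → ℕ) (α : Fin (r + 1) → 𝒪) :
    UsetOf qv α =
      UsetOf (fun j : Fin r => qv j.castSucc) (fun j : Fin r => α j.castSucc) ∪
        {(qv (Fin.last r), α (Fin.last r))} := by
  ext x
  constructor
  · rintro ⟨j, rfl⟩
    induction j using Fin.lastCases with
    | last => exact Or.inr rfl
    | cast j => exact Or.inl ⟨j, rfl⟩
  · rintro (⟨j, rfl⟩ | h)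
    · exact ⟨j.castSucc, rfl⟩
    · rw [Set.mem_singleton_iff] at h
      exact ⟨Fin.last r, h⟩

theorem not_dvd_mul_prod {N₀ ℓ : ℕ} (hℓ : ℓ.Prime) (hN : ¬ ℓ ∣ N₀) {r : ℕ} (qv : Fin r → ℕ)
    (hprime : ∀ j, (qv j).Prime) (hne : ∀ j, ℓ ≠ qv j) : ¬ ℓ ∣ N₀ * ∏ j, qv j := by
  intro h
  rcases (Nat.Prime.dvd_mul hℓ).mp h with h | h
  · exact hN h
  · obtain ⟨j, _, hj⟩ := (Prime.dvd_finsetProd_iff hℓ.prime _).mp h
    exact hne j ((Nat.prime_dvd_prime_iff_eq hℓ (hprime j)).mp hj)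

section

variable {𝒪 : Type} [CommRing 𝒪] [IsDomain 𝒪] [IsDiscreteValuationRing 𝒪]
  [IsAdicComplete (maximalIdeal 𝒪) 𝒪] [Finite (ResidueField 𝒪)]

/-- **The chain of transfers.** -/
theorem iter_chain (idem : IdemStatement) (hcross : CrossStatement) {N₀ : ℕ} (hN₀ : N₀ ≠ 0)
    {Tset₀ : Set (ℕ × 𝒪)} (hT₀ : ∀ x ∈ Tset₀, x.1.Prime ∧ ¬ x.1 ∣ N₀)
    {V₀ : Submodule 𝒪 (Additive (Gamma0 N₀) →+ 𝒪)}
    (hV₀ : IsLocPart (isMid_Gamma0 N₀) Tset₀ ∅ V₀) :
    ∀ (r : ℕ) (qv : Fin r → ℕ) (α β c : Fin r → 𝒪),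
      Function.Injective qv → (∀ j, (qv j).Prime) → (∀ j, ¬ qv j ∣ N₀) →
      (∀ j, IsUnit ((qv j : ℕ) : 𝒪)) → (∀ j, (qv j, c j) ∈ Tset₀) →
      (∀ j c', (qv j, c') ∈ Tset₀ → c' - c j ∈ maximalIdeal 𝒪) →
      (∀ j, α j + β j - c j ∈ maximalIdeal 𝒪) →
      (∀ j, α j * β j - ((qv j : ℕ) : 𝒪) ∈ maximalIdeal 𝒪) →
      (∀ j, IsUnit (α j - β j)) → (∀ j, IsUnit (1 - α j ^ 2)) → (∀ j, IsUnit (1 - β j ^ 2)) →
      ∀ (M : ℕ), M = N₀ * ∏ j, qv j →
      ∀ W : Submodule 𝒪 (Additive (Gamma0 M) →+ 𝒪),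
        IsLocPart (isMid_Gamma0 M) (TsetAway Tset₀ qv) (UsetOf qv α) W →
        ∃ f : (Additive (Gamma0 M) →+ 𝒪) →ₗ[𝒪] (Additive (Gamma0 N₀) →+ 𝒪),
          (∀ y ∈ W, f y ∈ V₀) ∧ (∀ y ∈ W, f y = 0 → y = 0) ∧ (∀ x ∈ V₀, ∃ y ∈ W, f y = x) ∧
          ∀ (ℓ : ℕ) (hℓ : ℓ.Prime), ¬ ℓ ∣ M → ∀ y,
            f (tOp M (Gamma0 M) 𝒪 ℓ hℓ y) = tOp N₀ (Gamma0 N₀) 𝒪 ℓ hℓ (f y) := by
  intro r
  induction r with
  | zero =>
    intro qv α β c _ _ _ _ _ _ _ _ _ _ _ M hM W hW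
    have hM' : M = N₀ := by simpa using hM
    subst hM'
    have hTs : TsetAway Tset₀ qv = Tset₀ := by
      ext x
      exact ⟨fun h => h.1, fun h => ⟨h, fun j => j.elim0⟩⟩
    have hUs : UsetOf qv α = ∅ := by
      ext x
      constructor
      · rintro ⟨j, _⟩
        exact j.elim0
      · intro h
        exact absurd h (Set.notMem_empty x)
    rw [hTs, hUs] at hW
    have hWV : W = V₀ := isLocPart_unique hN₀ _ hW hV₀ hT₀ (fun x hx => absurd hx (Set.notMem_empty x))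
    subst hWV
    exact ⟨LinearMap.id, fun y hy => hy, fun y _ h => h, fun x hx => ⟨x, hx, rfl⟩,
      fun ℓ hℓ _ y => rfl⟩
  | succ r ih =>
    intro qv α β c hinj hprime hqN hqu hcT hcq hsum hprod hαβ hα hβ M hM W hW
    have hM2 : M = (N₀ * ∏ j : Fin r, qv j.castSucc) * qv (Fin.last r) := by
      rw [hM, Fin.prod_univ_castSucc, mul_assoc]
    subst hM2
    haveI : Fact (qv (Fin.last r)).Prime := ⟨hprime _⟩
    have hM'0 : N₀ * ∏ j : Fin r, qv j.castSucc ≠ 0 :=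
      Nat.mul_ne_zero hN₀ (Finset.prod_ne_zero_iff.mpr fun j _ => (hprime _).ne_zero)
    have hqM' : ¬ qv (Fin.last r) ∣ N₀ * ∏ j : Fin r, qv j.castSucc :=
      not_dvd_mul_prod (hprime _) (hqN _) _ (fun j => hprime _) (fun j h =>
        absurd (hinj h) (Fin.castSucc_lt_last j).ne')
    have hT' : ∀ x ∈ TsetAway Tset₀ (fun j : Fin r => qv j.castSucc),
        x.1.Prime ∧ ¬ x.1 ∣ N₀ * ∏ j : Fin r, qv j.castSucc := fun x hx =>
      ⟨(hT₀ x hx.1).1, not_dvd_mul_prod (hT₀ x hx.1).1 (hT₀ x hx.1).2 _ (fun j => hprime _) hx.2⟩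
    have hU' : ∀ x ∈ UsetOf (fun j : Fin r => qv j.castSucc) (fun j : Fin r => α j.castSucc),
        x.1.Prime ∧ x.1 ∣ N₀ * ∏ j : Fin r, qv j.castSucc := by
      rintro x ⟨j, rfl⟩
      exact ⟨hprime _, Dvd.dvd.mul_left
        (Finset.dvd_prod_of_mem (fun j : Fin r => qv j.castSucc) (Finset.mem_univ j)) N₀⟩
    obtain ⟨V', hV'⟩ := idem 𝒪 _ hM'0 (Gamma0 _) (isMid_Gamma0 _) _ _ hT' hU'
    obtain ⟨f', hf1, hf2, hf3, hf4⟩ := ih (fun j => qv j.castSucc) (fun j => α j.castSucc)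
      (fun j => β j.castSucc) (fun j => c j.castSucc)
      (fun i j h => Fin.castSucc_injective _ (hinj h)) (fun j => hprime _) (fun j => hqN _)
      (fun j => hqu _) (fun j => hcT _) (fun j => hcq _) (fun j => hsum _) (fun j => hprod _)
      (fun j => hαβ _) (fun j => hα _) (fun j => hβ _) _ rfl V' hV'
    rw [tsetAway_succ, usetOf_succ] at hW
    obtain ⟨g1, g2, g3⟩ := one_step idem hcross hM'0 hqM' (hqu _) hT' hU'
      (c := c (Fin.last r)) (α := α (Fin.last r)) (β := β (Fin.last r))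
      ⟨hcT _, fun j h => absurd (hinj h) (Fin.castSucc_lt_last j).ne'⟩
      (fun c' h => hcq _ c' h.1) (hsum _) (hprod _) (hαβ _) (hα _) (hβ _) hV' hW
    refine ⟨f' ∘ₗ t₂L 𝒪 𝒪 _ _, ?_, ?_, ?_, ?_⟩
    · intro y hy
      exact hf1 _ (g1 y hy)
    · intro y hy h
      exact g2 y hy (hf2 _ (g1 y hy) h)
    · intro x hx
      obtain ⟨y', hy', e'⟩ := hf3 x hx
      obtain ⟨y, hy, e⟩ := g3 y' hy'
      exact ⟨y, hy, by rw [LinearMap.comp_apply, t₂L_apply, e, e']⟩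
    · intro ℓ hℓ hℓM y
      have hℓM' : ¬ ℓ ∣ N₀ * ∏ j : Fin r, qv j.castSucc := fun h => hℓM (Dvd.dvd.mul_right h _)
      rw [LinearMap.comp_apply, LinearMap.comp_apply, t₂L_apply, t₂L_apply,
        tOp_t₂ 𝒪 (Nat.mul_ne_zero hM'0 (hprime _).ne_zero) ℓ hℓ hℓM' hℓM, hf4 ℓ hℓ hℓM']

end

end Fermat.Agent.S59.H105

end
-- ===== PACK-END S59/H105/Iter.lean

-- ===== PACK-BEGIN S33/H862/SplitAdapter.lean
section




/-!
# S33 / RIBET wall-`p` — the adapter `splitMin ≤ splitPart` (helper862)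

`S33.H855.splitMin A hp hA N` (valuation form: classes with a Kummer generator which is
`constant × (1 + 𝔪)` at both Gauss rings `VinfModular`, `VzeroModular` of `A2/H553`) is contained in
`Ribet.H884.splitPart p M' A` (`t`-expansion form: classes with a Kummer generator whose two
reductions are `PDivSeries` and `SplitSeries`), `N = p * M'`.

Proof: a function `f = c · (1 + m)`, `v∞(m) < 1`, has the reduction `1` on `C∞`
(`isRedInf_one_of_constOne`: normal form `f · U₂ = c · U₁` with `Ū₁ = Ū₂`), the same for `w_N f`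
on `C₀`; the constant series `1` is `PDivSeries` and `SplitSeries`.

Consequence: every statement of the form `∀ x ∈ splitPart, …` (e.g. `Ribet.H884.S2Statement`,
`Wall.S2For`) restricts to `splitMin`, for which (S1⁺) is `S33.H855.aug_le_splitMin`.
-/

set_option autoImplicit false
set_option linter.unusedSectionVars false
set_option linter.style.haveILetI false
set_option synthInstance.maxHeartbeats 400000
set_option maxHeartbeats 1000000

noncomputable section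

namespace Fermat.Agent.S33.H862

open AlgebraicCurve ModularCurve HahnSeries
open Fermat.Agent.S24 Fermat.Agent.A2.H708 Fermat.Agent.A2.H528 Fermat.Agent.A2.H129
open Fermat.Agent.Ribet.H884

section Red

variable {N : ℕ} [NeZero N] (A : ValuationSubring Kbar) {p : ℕ} (hp : p ≠ 0)
  (hA : A.LiesOverPrime p)

/-- The Gauss valuation ring of `A2/H553` is the one of `A2/H708`. -/
theorem vinfModular_eq_gaussInf :
    Fermat.Agent.A2.H553.VinfModular A hp hA N =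
      gaussInf A (modularFunctionFieldFull N) (intGen_full N)
        (attainsMax_Qbar hp hA (modularFunctionFieldFull N)) :=
  Fermat.Agent.A2.H553.Vinf_eq_gaussInf _ _ _

/-- A function in `1 + 𝔪_{V∞}` has a normal form `g · U₂ = U₁` with `Ū₁ = Ū₂ ≠ 0`. -/
theorem exists_normal_form_of_oneAddNonunits {g : FF N}
    (hg : OneAddNonunits (Fermat.Agent.A2.H553.VinfModular A hp hA N) g) :
    ∃ U₁ U₂ : LaurentSeries A, red A U₁ ≠ 0 ∧ red A U₂ ≠ 0 ∧
      (g : LaurentSeries Kbar) * incl A U₂ = incl A U₁ ∧ red A U₂ = red A U₁ := by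
  rw [vinfModular_eq_gaussInf A hp hA] at hg
  have hgen := intGen_full N
  have hmax := attainsMax_Qbar (A := A) hp hA (modularFunctionFieldFull N)
  have hg1 : (gaussInf A (modularFunctionFieldFull N) hgen hmax).valuation (g - 1) < 1 := hg
  -- `v(g) = 1`
  have hvg : (gaussInf A (modularFunctionFieldFull N) hgen hmax).valuation g = 1 := by
    have h := Valuation.map_add_eq_of_lt_left
      (gaussInf A (modularFunctionFieldFull N) hgen hmax).valuation
      (show (gaussInf A (modularFunctionFieldFull N) hgen hmax).valuation (g - 1) <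
        (gaussInf A (modularFunctionFieldFull N) hgen hmax).valuation (1 : FF N) by
          rw [map_one]; exact hg1)
    rw [map_one] at h
    have e : (1 : FF N) + (g - 1) = g := by ring
    rw [e] at h
    exact h
  have hg0 : g ≠ 0 := by
    rintro rfl
    rw [map_zero] at hvg
    exact zero_ne_one hvg
  have hg0' : (g : LaurentSeries Kbar) ≠ 0 := fun h => hg0 (Subtype.ext h)
  obtain ⟨c, U₁, U₂, hc, h₁, h₂, hm₁, hm₂, he⟩ :=
    exists_normal_form (A := A) hgen hmax g.2 hg0'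
  have hle : A.valuation c ≤ 1 :=
    (valuation_le_one_iff_of_normal_form hgen hmax h₁ h₂ hm₂ he).mp (le_of_eq hvg)
  have hnlt : ¬ A.valuation c < 1 := fun hlt =>
    absurd ((valuation_lt_one_iff_of_normal_form hgen hmax hc h₁ h₂ hm₁ he).mpr hlt)
      (by rw [hvg]; exact lt_irrefl _)
  have hcA : c ∈ A := (A.valuation_le_one_iff c).mp hle
  have hres : IsLocalRing.residue A (⟨c, hcA⟩ : A) ≠ 0 := by
    intro h0
    rw [IsLocalRing.residue_eq_zero_iff] at h0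
    exact hnlt ((A.valuation_lt_one_iff _).mp h0)
  -- absorb the unit constant into `U₁`
  have he' : (g : LaurentSeries Kbar) * incl A U₂ = incl A (cstA A ⟨c, hcA⟩ * U₁) := by
    rw [map_mul, incl_cstA]
    exact he
  have h₁' : red A (cstA A ⟨c, hcA⟩ * U₁) ≠ 0 := by
    rw [map_mul, red_cstA]
    refine mul_ne_zero ?_ h₁
    exact HahnSeries.single_ne_zero hres
  refine ⟨cstA A ⟨c, hcA⟩ * U₁, U₂, h₁', h₂, he', ?_⟩
  -- the difference has reduction `0`
  by_contra hne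
  have hD0 : red A (cstA A ⟨c, hcA⟩ * U₁ - U₂) ≠ 0 := by
    rw [map_sub]
    intro h0
    exact hne (sub_eq_zero.mp h0).symm
  have hcoe : (((g - 1 : FF N)) : LaurentSeries Kbar) = (g : LaurentSeries Kbar) - 1 := rfl
  have heD : (((g - 1 : FF N)) : LaurentSeries Kbar) * incl A U₂ =
      cst (1 : Kbar) * incl A (cstA A ⟨c, hcA⟩ * U₁ - U₂) := by
    rw [hcoe, cst_one, one_mul, map_sub, ← he']
    ring
  have hmD : incl A (cstA A ⟨c, hcA⟩ * U₁ - U₂) ∈
      laurentBaseChange Kbar (modularFunctionFieldFull N) := by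
    have h1 : incl A (cstA A ⟨c, hcA⟩ * U₁ - U₂) =
        (((g - 1 : FF N)) : LaurentSeries Kbar) * incl A U₂ := by
      rw [heD, cst_one, one_mul]
    rw [h1]
    exact mul_mem (g - 1).2 hm₂
  have hlt1 := (valuation_lt_one_iff_of_normal_form hgen hmax one_ne_zero hD0 h₂ hmD heD).mp hg1
  rw [map_one] at hlt1
  exact lt_irrefl _ hlt1

/-- **Reduction `1` on `C∞`**: a function which is `constant × (1 + 𝔪)` at `V∞` has the
reduction `1`. -/
theorem isRedInf_one_of_constOne {f : FF N}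
    (hf : Fermat.Agent.S33.H855.ConstOne
      (Fermat.Agent.A2.H553.constField (modularFunctionFieldFull N))
      (Fermat.Agent.A2.H553.VinfModular A hp hA N) f) :
    IsRedInf N A f 1 := by
  obtain ⟨c, ⟨c₀, rfl⟩, hc, hone⟩ := hf
  have hc₀ : c₀ ≠ 0 := by
    rintro rfl
    exact hc (map_zero _)
  obtain ⟨U₁, U₂, h₁, h₂, he, hr⟩ := exists_normal_form_of_oneAddNonunits A hp hA hone
  refine ⟨c₀, U₁, U₂, hc₀, h₁, h₂, ?_, by rw [one_mul]; exact hr⟩
  have hcoe : ((f * (algebraMap Kbar (FF N) c₀)⁻¹ : FF N) : LaurentSeries Kbar) =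
      (f : LaurentSeries Kbar) * (cst c₀)⁻¹ := by
    rw [IntermediateField.coe_mul, IntermediateField.coe_inv]
    rfl
  have he2 : (f : LaurentSeries Kbar) * (cst c₀)⁻¹ * incl A U₂ = incl A U₁ := by
    rw [← hcoe]
    exact he
  calc (f : LaurentSeries Kbar) * incl A U₂
      = cst c₀ * ((f : LaurentSeries Kbar) * (cst c₀)⁻¹ * incl A U₂) := by
        have hne := cst_ne_zero hc₀
        field_simp
    _ = cst c₀ * incl A U₁ := by rw [he2]

/-- `constant × (1 + 𝔪)` at `V₀` for `f` is `constant × (1 + 𝔪)` at `V∞` for `w_N f`. -/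
theorem constOne_wF_of_constOne_Vzero {f : FF N}
    (hf : Fermat.Agent.S33.H855.ConstOne
      (Fermat.Agent.A2.H553.constField (modularFunctionFieldFull N))
      (Fermat.Agent.A2.H553.VzeroModular A hp hA N) f) :
    Fermat.Agent.S33.H855.ConstOne
      (Fermat.Agent.A2.H553.constField (modularFunctionFieldFull N))
      (Fermat.Agent.A2.H553.VinfModular A hp hA N) (wF N f) := by
  obtain ⟨c, hcK, hc, hone⟩ := hf
  refine ⟨c, hcK, hc, ?_⟩
  have h1 : (Fermat.Agent.A2.H553.VzeroModular A hp hA N).valuation (f * c⁻¹ - 1) < 1 := hone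
  rw [Fermat.Agent.A2.H553.VzeroModular_eq_comapAut,
    Fermat.Agent.A2.H553.valuation_comapAut_lt_one_iff] at h1
  have h2 : (wF N).toRingEquiv (f * c⁻¹ - 1) = wF N f * c⁻¹ - 1 := by
    show wF N (f * c⁻¹ - 1) = wF N f * c⁻¹ - 1
    rw [map_sub, map_mul, map_inv₀, map_one, Fermat.Agent.A2.H553.wF_const N hcK]
  rw [h2] at h1
  exact h1

/-- **Reduction `1` on `C₀`.** -/
theorem isRedZero_one_of_constOne {f : FF N}
    (hf : Fermat.Agent.S33.H855.ConstOne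
      (Fermat.Agent.A2.H553.constField (modularFunctionFieldFull N))
      (Fermat.Agent.A2.H553.VzeroModular A hp hA N) f) :
    IsRedZero N A f 1 :=
  isRedInf_one_of_constOne A hp hA (constOne_wF_of_constOne_Vzero A hp hA hf)

end Red

section Series

/-- The constant series `1` has all orders divisible by `p`. -/
theorem pDivSeries_one (p M' : ℕ) (k : Type) [Field k] :
    PDivSeries p M' (1 : LaurentSeries k) :=
  ⟨1, rfl, one_ne_zero, fun Q => by rw [Place.ord_one]; exact dvd_zero _⟩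

/-- The constant series `1` lies in `k((t^p))`. -/
theorem splitSeries_one (p : ℕ) (k : Type) [Field k] :
    SplitSeries p (1 : LaurentSeries k) := by
  intro n hn
  have hn0 : n ≠ 0 := by
    rintro rfl
    exact hn (dvd_zero _)
  rw [HahnSeries.coeff_one, if_neg hn0]

end Series

section Main

variable (p M' : ℕ) [NeZero (p * M')] (A : ValuationSubring Kbar) (hp : p ≠ 0)
  (hA : A.LiesOverPrime p)

/-- A function with constant reductions on both components is `SplitGen`. -/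
theorem splitGen_of_constRed {f : FF (p * M')}
    (hf : f ∈ Fermat.Agent.S33.H855.constRed A hp hA (p * M')) : SplitGen p M' A f :=
  ⟨1, 1, isRedInf_one_of_constOne A hp hA hf.1, isRedZero_one_of_constOne A hp hA hf.2,
    _root_.Fermat.Agent.S33.H862.pDivSeries_one p M' _, _root_.Fermat.Agent.S33.H862.pDivSeries_one p M' _, _root_.Fermat.Agent.S33.H862.splitSeries_one p _, _root_.Fermat.Agent.S33.H862.splitSeries_one p _⟩

/-- `splitMin ⊆ splitSet`. -/
theorem mem_splitSet_of_mem_splitMin {y : JZero (p * M')}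
    (hy : y ∈ Fermat.Agent.S33.H855.splitMin A hp hA (p * M')) : y ∈ splitSet p M' A := by
  obtain ⟨D, h, hh0, hhC, hD, hord⟩ := hy
  exact ⟨h, ⟨hh0, D, hD, hord⟩, splitGen_of_constRed p M' A hp hA hhC⟩

/-- **The adapter**: `splitMin ≤ splitPart`. -/
theorem splitMin_le_splitPart :
    Fermat.Agent.S33.H855.splitMin A hp hA (p * M') ≤ splitPart p M' A :=
  fun _ hy => AddSubgroup.subset_closure (mem_splitSet_of_mem_splitMin p M' A hp hA hy)

/-- `splitMin ≤ finPart`. -/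
theorem splitMin_le_finPart :
    Fermat.Agent.S33.H855.splitMin A hp hA (p * M') ≤ finPart p M' A :=
  (splitMin_le_splitPart p M' A hp hA).trans (splitPart_le_finPart p M' A)

end Main

end Fermat.Agent.S33.H862

end

end
-- ===== PACK-END S33/H862/SplitAdapter.lean

-- ===== PACK-BEGIN S33/H862/OrdFil.lean
section




/-!
# S33, leaf NEW — `OrdFilStatement` from the RIBET leaf (S2) (helper862)

`ordFil_of_s2 : Ribet.H884.S2Statement → S33.OrdFilStatement` (VERBATIM `S33/Spec2.lean`):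

* `α, β` := `Ribet.H801.alphaL`, `betaL` (W-DEG, on main);
* `𝒮` := `S33.H855.splitMin` (classes with a Kummer generator with constant reductions);
* (S1⁺) = `S33.H855.aug_le_splitMin` (on main, unconditional);
* (S2) for `splitMin` = restriction of (S2) for `splitPart` along the adapter
  `S33.H862.splitMin_le_splitPart`.

So S33 needs from the wall at `p` EXACTLY `Ribet.H884.S2Statement`, with no change of its shape.
Also `ordFil_of_s2For` for any family of subgroups `𝒮 ⊇ splitMin` satisfying `Wall.S2For`.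
-/

set_option autoImplicit false
set_option linter.unusedSectionVars false
set_option linter.style.haveILetI false
set_option synthInstance.maxHeartbeats 400000
set_option maxHeartbeats 1000000

noncomputable section

namespace Fermat.Agent.S33.H862

open ModularCurve
open Fermat.Agent.Ribet.H884 Fermat.Agent.Ribet.H944.Wall Fermat.Agent.Ribet.H801

/-- (S1⁺) for `splitMin`, in the shape of `S33.OrdFilStatement`. -/
theorem mem_splitMin_of_inSPlus {p : ℕ} (hp : p.Prime) (N : ℕ) [NeZero N]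
    (A : ValuationSubring (AlgebraicClosure ℚ)) (hA : A.LiesOverPrime p) (x : JZero N)
    (hx : Fermat.Agent.S33.InSPlus (A.inertiaSubgroupIn ℚ) p x) :
    x ∈ Fermat.Agent.S33.H855.splitMin A hp.ne_zero hA N := by
  obtain ⟨hpx, n, hn⟩ := hx
  refine Fermat.Agent.S33.H855.aug_le_splitMin A hp.ne_zero hA N hp n x ?_ hpx
  refine AddSubgroup.closure_mono ?_ hn
  rintro z ⟨σ, hσ, y, hy, rfl⟩
  refine ⟨σ, hσ, y, ?_, rfl⟩
  have hy' : p ^ n • y = 0 := hy
  rw [pow_succ, mul_nsmul, hy', nsmul_zero]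

/-- **NEW** from (S2) for any subgroups containing `splitMin`. -/
theorem ordFil_of_s2For
    (𝒮 : ∀ (p M' : ℕ) [NeZero (p * M')] (_ : ValuationSubring (AlgebraicClosure ℚ)),
      AddSubgroup (JZero (p * M')))
    (hle : ∀ (p M' : ℕ) [NeZero (p * M')] (hp : p.Prime)
      (A : ValuationSubring (AlgebraicClosure ℚ)) (hA : A.LiesOverPrime p),
      Fermat.Agent.S33.H855.splitMin A hp.ne_zero hA (p * M') ≤ 𝒮 p M' A)
    (h2 : ∀ (p M' : ℕ) [NeZero M'] [NeZero p] [NeZero (p * M')], p.Prime → p ≠ 2 → ¬ p ∣ M' →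
      ∀ A : ValuationSubring (AlgebraicClosure ℚ), A.LiesOverPrime p →
        S2For p M' A (𝒮 p M' A)) :
    Fermat.Agent.S33.OrdFilStatement := by
  intro p M' _ _ hp hp2 hpM
  haveI : NeZero p := ⟨hp.ne_zero⟩
  refine ⟨alphaL p M', betaL p M', alphaL_smul p M', betaL_smul p M', fun A hA => ?_⟩
  refine ⟨(Fermat.Agent.S33.H855.splitMin A hp.ne_zero hA (p * M') : Set (JZero (p * M'))),
    fun x hx => mem_splitMin_of_inSPlus hp (p * M') A hA x hx, ?_⟩
  intro x hx hpx hα hβ σ hσ c hc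
  exact h2 p M' hp hp2 hpM A hA x (hle p M' hp A hA hx) ⟨hpx, hα, hβ⟩ σ hσ c hc

/-- **NEW** (`S33.OrdFilStatement`) from the RIBET leaf (S2) (`Ribet.H884.S2Statement`). -/
theorem ordFil_of_s2 (h2 : S2Statement) : Fermat.Agent.S33.OrdFilStatement :=
  ordFil_of_s2For (fun p M' _ A => splitPart p M' A)
    (fun p M' _ hp A hA => splitMin_le_splitPart p M' A hp.ne_zero hA)
    (fun p M' _ _ _ hp hp2 hpM A hA => h2 p M' hp hp2 hpM A hA)

end Fermat.Agent.S33.H862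

end

end
-- ===== PACK-END S33/H862/OrdFil.lean

-- ===== PACK-BEGIN S59/NMP/H341/StepP.lean
section




/-!
# S59, cell NMP, leaf STEP-P (helper341): the step of the Betti bound at `p`

`boundStepP_core` : `BettiBound N S a J → BettiBound (N p) S a ((a_p² − (p + 1)²) J)` over a DVR
`𝒪` of characteristic `0` with `p ∈ 𝔪`, from

* `NM.OldStatement` (leaf OLD of cell NM, used at `q = p`, `S ∖ {p}`) and `NM.HK2Statement`
  (on main: `H202.hk2`): an eigenclass of level `N p` away from `S ∋ p` is `p`-old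
  (`oldP_of_old`);
* Ihara's lemma at `p` for the reduction of the system `a` (hypothesis `IharaAtP`; the curve
  case is `Fermat.Agent.S59.H341.ihara_eigen_torsion`).

`x' := (p + 1) r₁ x − a_p r₂ x`;  `B(x', r₁ w₁ + r₂ w₂) = −(a_p² − (p + 1)²) B(x, w₁)`.
-/

set_option autoImplicit false

open CongruenceSubgroup IsLocalRing
open scoped MatrixGroups

namespace Fermat.Agent.S59.NMP.H341

open Fermat.Agent.S59.NM Fermat.Agent.S41.Spec Fermat.Agent.S29.H642 ModularCurve.Period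
  Fermat.Agent.S59.H585

/-! ## 1. Eigenclasses and the degeneracy maps of the first stage -/

section Eigen

variable {R : Type} [CommRing R] {N q : ℕ}

/-- `r₁` maps eigenclasses of level `N` to eigenclasses of level `N q` (same `S`). -/
theorem isEigenclass_r₁P {S : Finset ℕ} {a : ℕ → R} {x : Additive (Gamma0 N) →+ R}
    (hx : IsEigenclass N S a x) : IsEigenclass (N * q) S a (r₁ N q x) :=
  ⟨isCuspidal_r₁585 hx.1, fun l _ hl hlS => by
    rw [heckeTransfer_r₁585, hx.2 l (not_dvd_of_not_dvd_mul585 hl) hlS, r₁_smul585]⟩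

/-- `r₂` maps eigenclasses of level `N` to eigenclasses of level `N q` (same `S`). -/
theorem isEigenclass_r₂P {S : Finset ℕ} {a : ℕ → R} {x : Additive (Gamma0 N) →+ R}
    (hx : IsEigenclass N S a x) : IsEigenclass (N * q) S a (r₂ N q x) :=
  ⟨isCuspidal_r₂585 hx.1, fun l _ hl hlS => by
    rw [heckeTransfer_r₂585, hx.2 l (not_dvd_of_not_dvd_mul585 hl) hlS, r₂_smul585]⟩

/-- Eigenclasses only depend on the eigenvalues outside `S`. -/
theorem isEigenclass_congrP {n : ℕ} {S : Finset ℕ} {a a' : ℕ → R}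
    (h : ∀ l, l.Prime → l ∉ S → a l = a' l) {x : Additive (Gamma0 n) →+ R}
    (hx : IsEigenclass n S a x) : IsEigenclass n S a' x :=
  ⟨hx.1, fun l hl hln hlS => by rw [hx.2 l hln hlS, h l hl.out hlS]⟩

/-- The class `x' = (p + 1) r₁ x − a_p r₂ x`. -/
def xiP (N p : ℕ) (ap : R) (x : Additive (Gamma0 N) →+ R) : Additive (Gamma0 (N * p)) →+ R :=
  ((p : R) + 1) • r₁ N p x - ap • r₂ N p x

theorem isEigenclass_xiP {S : Finset ℕ} {a : ℕ → R} (ap : R) {x : Additive (Gamma0 N) →+ R}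
    (hx : IsEigenclass N S a x) : IsEigenclass (N * q) S a (xiP N q ap x) :=
  isEigenclass_sub585 (isEigenclass_smul585 _ (isEigenclass_r₁P hx))
    (isEigenclass_smul585 _ (isEigenclass_r₂P hx))

theorem xiP_comp {R' : Type} [CommRing R'] (f : R →+* R') (ap : R)
    (x : Additive (Gamma0 N) →+ R) :
    f.toAddMonoidHom.comp (xiP N q ap x) = xiP N q (f ap) (f.toAddMonoidHom.comp x) := by
  refine AddMonoidHom.ext fun g => ?_
  show f (((q : R) + 1) * r₁ N q x g - ap * r₂ N q x g) =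
    ((q : R') + 1) * f (r₁ N q x g) - f ap * f (r₂ N q x g)
  simp only [map_add, map_sub, map_mul, map_natCast, map_one]

/-- `x' = r₁ ((p + 1) x) + r₂ (− a_p x)`. -/
theorem xiP_eq (ap : R) (x : Additive (Gamma0 N) →+ R) :
    xiP N q ap x = r₁ N q (((q : R) + 1) • x) + r₂ N q ((-ap) • x) := by
  refine AddMonoidHom.ext fun g => ?_
  show ((q : R) + 1) * r₁ N q x g - ap * r₂ N q x g =
    ((q : R) + 1) * r₁ N q x g + (-ap) * r₂ N q x g
  ring

end Eigen

/-! ## 2. The Gram computation -/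

section Gram

variable {R : Type} [CommRing R] {N p : ℕ}

/-- `t₁ (r₁ w₁ + r₂ w₂) = (p + 1) w₁ + a_p w₂` and `t₂ (r₁ w₁ + r₂ w₂) = a_p w₁ + (p + 1) w₂`
on `T_p`-eigenclasses. -/
theorem t_oldP (hN : N ≠ 0) [hp : Fact p.Prime] (hpN : ¬ p ∣ N) (ap : R)
    {w₁ w₂ : Additive (Gamma0 N) →+ R}
    (h₁ : heckeTransfer hpN w₁ = ap • w₁) (h₂ : heckeTransfer hpN w₂ = ap • w₂) :
    t₁ N p (r₁ N p w₁ + r₂ N p w₂) = ((p : R) + 1) • w₁ + ap • w₂ ∧
    t₂ N p (r₁ N p w₁ + r₂ N p w₂) = ap • w₁ + ((p : R) + 1) • w₂ := by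
  obtain ⟨-, -, -, -, -, -, hTR, hTRH, -⟩ := Fermat.Agent.S41.H281.hkStatement.{0}
  have f11 : ∀ w : Additive (Gamma0 N) →+ R, t₁ N p (r₁ N p w) = ((p : R) + 1) • w := by
    intro w
    rw [(hTR N p hN hp.out hpN R w).1, nsmul_eq_smul585]
    push_cast
    rfl
  have f22 : ∀ w : Additive (Gamma0 N) →+ R, t₂ N p (r₂ N p w) = ((p : R) + 1) • w := by
    intro w
    rw [(hTR N p hN hp.out hpN R w).2, nsmul_eq_smul585]
    push_cast
    rfl
  have f12 : ∀ w : Additive (Gamma0 N) →+ R, t₁ N p (r₂ N p w) = heckeTransfer hpN w :=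
    fun w => (hTRH N p hpN hN R w).1
  have f21 : ∀ w : Additive (Gamma0 N) →+ R, t₂ N p (r₁ N p w) = heckeTransfer hpN w :=
    fun w => (hTRH N p hpN hN R w).2
  constructor
  · rw [t₁_add585, f11, f12, h₂]
  · rw [t₂_add585, f21, f22, h₁]

variable [IsDomain R]

/-- **The Gram computation at `p`.** -/
theorem pairing_xiP_old (hN : N ≠ 0) [hp : Fact p.Prime] (hpN : ¬ p ∣ N) (ap : R)
    {x w₁ w₂ : Additive (Gamma0 N) →+ R} (hx : IsCuspidal x)
    (c₁ : IsCuspidal w₁) (c₂ : IsCuspidal w₂)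
    (h₁ : heckeTransfer hpN w₁ = ap • w₁) (h₂ : heckeTransfer hpN w₂ = ap • w₂) :
    maninPairing (Gamma0 (N * p)) (xiP N p ap x) (r₁ N p w₁ + r₂ N p w₂) =
      -(ap ^ 2 - ((p : R) + 1) ^ 2) * maninPairing (Gamma0 N) x w₁ := by
  have hNp : N * p ≠ 0 := Nat.mul_ne_zero hN hp.out.ne_zero
  have hFI := finiteIndex_Gamma0' hN
  have hFI' := finiteIndex_Gamma0' hNp
  have hneg := neg_one_mem_Gamma0' N
  have hneg' := neg_one_mem_Gamma0' (N * p)
  have a1 := (adj2 R N p hN hp.out).1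
  have hy : IsCuspidal (r₁ N p w₁ + r₂ N p w₂) :=
    isCuspidal_add585 (isCuspidal_r₁585 c₁) (isCuspidal_r₂585 c₂)
  have hr1 : IsCuspidal (r₁ N p x) := isCuspidal_r₁585 hx
  have hr2 : IsCuspidal (r₂ N p x) := isCuspidal_r₂585 hx
  obtain ⟨e1, e2⟩ := t_oldP hN hpN ap h₁ h₂
  have hsubL : ∀ {φ φ' ψ : Additive (Gamma0 (N * p)) →+ R}, IsCuspidal φ → IsCuspidal φ' →
      IsCuspidal ψ → maninPairing (Gamma0 (N * p)) (φ - φ') ψ =
        maninPairing (Gamma0 (N * p)) φ ψ - maninPairing (Gamma0 (N * p)) φ' ψ := by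
    intro φ φ' ψ h h' hψ
    have := maninPairing_add_left hneg' (isCuspidal_sub585 h h') h' hψ
    rw [sub_add_cancel] at this
    rw [this, add_sub_cancel_right]
  unfold xiP
  rw [hsubL (isCuspidal_smul585 _ hr1) (isCuspidal_smul585 _ hr2) hy,
    maninPairing_smul_left hneg' _ hr1 hy, maninPairing_smul_left hneg' _ hr2 hy,
    (a1 x _ hx hy).1, (a1 x _ hx hy).2, e1, e2,
    maninPairing_add_right hneg hx (isCuspidal_smul585 _ c₁) (isCuspidal_smul585 _ c₂),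
    maninPairing_add_right hneg hx (isCuspidal_smul585 _ c₁) (isCuspidal_smul585 _ c₂),
    maninPairing_smul_right hneg _ hx c₁, maninPairing_smul_right hneg _ hx c₂,
    maninPairing_smul_right hneg _ hx c₁, maninPairing_smul_right hneg _ hx c₂]
  ring

end Gram

/-! ## 3. Eigenclasses of level `N p` away from `S ∋ p` are `p`-old -/

section Old

variable {K : Type} [Field K] [CharZero K]

/-- **OLD at `p`** from the leaf OLD of cell NM (applied to `r₁' y` of level `N p²`, `q = p`,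
`S ∖ {p}`) and HK2: `y = r₁ w₁ + r₂ w₂` with `T_p`-eigenclasses `w_i` of level `N`. -/
theorem oldP_of_old (hOld : OldStatement) (hHK2 : HK2Statement) {N p : ℕ} (hN : N ≠ 0)
    [hp : Fact p.Prime] (hpN : ¬ p ∣ N) {S : Finset ℕ} (hpS : p ∈ S)
    (hNS : ∀ r : ℕ, r.Prime → r ∣ N → r ∈ S) {a : ℕ → K} (ap : K)
    {x₀ : Additive (Gamma0 N) →+ K} (hx₀ : x₀ ≠ 0) (hx₀e : IsEigenclass N S a x₀)
    (hx₀p : heckeTransfer hpN x₀ = ap • x₀)
    {y : Additive (Gamma0 (N * p)) →+ K} (hy : IsEigenclass (N * p) S a y) :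
    ∃ w₁ w₂ : Additive (Gamma0 N) →+ K, IsEigenclass N S a w₁ ∧ IsEigenclass N S a w₂ ∧
      heckeTransfer hpN w₁ = ap • w₁ ∧ heckeTransfer hpN w₂ = ap • w₂ ∧
      y = r₁ N p w₁ + r₂ N p w₂ := by
  classical
  have hpS' : p ∉ S.erase p := Finset.notMem_erase p S
  have hins : insert p (S.erase p) = S := Finset.insert_erase hpS
  have hNS' : ∀ r : ℕ, r.Prime → r ∣ N → r ∈ S.erase p := fun r hr hrN =>
    Finset.mem_erase.mpr ⟨fun h => hpN (h ▸ hrN), hNS r hr hrN⟩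
  have ha'p : Function.update a p ap p = ap := Function.update_self ..
  have ha'l : ∀ l, l ≠ p → Function.update a p ap l = a l :=
    fun l hl => Function.update_of_ne hl ..
  have hlS : ∀ l, l ∉ S → l ≠ p := fun l hl h => hl (h ▸ hpS)
  -- `x₀` is an eigenclass away from `S ∖ {p}`
  have hx₀' : IsEigenclass N (S.erase p) (Function.update a p ap) x₀ := by
    refine ⟨hx₀e.1, fun l _ hl hlS' => ?_⟩
    by_cases hlp : l = p
    · subst hlp
      rw [ha'p]
      exact hx₀p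
    · rw [ha'l l hlp]
      exact hx₀e.2 l hl (fun h => hlS' (Finset.mem_erase.mpr ⟨hlp, h⟩))
  -- `r₁' y` is an eigenclass of level `N p²`
  have hy' : IsEigenclass (N * p) (insert p (S.erase p)) (Function.update a p ap) y := by
    rw [hins]
    exact isEigenclass_congrP (fun l _ hl => (ha'l l (hlS l hl)).symm) hy
  have hY : IsEigenclass (N * p * p) (insert p (S.erase p)) (Function.update a p ap)
      (r₁ (N * p) p y) := isEigenclass_r₁P hy'
  obtain ⟨z₁, z₂, z₃, h₁, h₂, h₃, hyz⟩ := hOld K N p hN hp.out hpN (S.erase p) hpS' hNS'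
    (Function.update a p ap) ⟨x₀, hx₀, hx₀'⟩ _ hY
  have hk := hHK2 N p hpN hN K
  have hT₃ : heckeTransfer hpN z₃ = ap • z₃ := by
    have := h₃.2 p hpN hpS'
    rwa [ha'p] at this
  -- apply `t₁'`
  have key : (p : K) • y = (p : K) • r₁ N p z₁ + (p : K) • r₂ N p z₂ +
      (r₂ N p (ap • z₃) - r₁ N p z₃) := by
    have e := congrArg (t₁ (N * p) p) hyz
    rw [t₁_add585, t₁_add585, (hk.2 y).1, P₁, P₂, P₃, (hk.2 _).1, (hk.2 _).1, (hk.1 z₃).2.1,
      hT₃, nsmul_eq_smul585, nsmul_eq_smul585, nsmul_eq_smul585] at e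
    exact e
  have hp0 : (p : K) ≠ 0 := Nat.cast_ne_zero.mpr hp.out.ne_zero
  have hw₁' : IsEigenclass N (S.erase p) (Function.update a p ap) (z₁ - (p : K)⁻¹ • z₃) :=
    isEigenclass_sub585 h₁ (isEigenclass_smul585 _ h₃)
  have hw₂' : IsEigenclass N (S.erase p) (Function.update a p ap)
      (z₂ + ((p : K)⁻¹ * ap) • z₃) :=
    isEigenclass_add585 h₂ (isEigenclass_smul585 _ h₃)
  have hback : ∀ {w : Additive (Gamma0 N) →+ K},
      IsEigenclass N (S.erase p) (Function.update a p ap) w → IsEigenclass N S a w := fun hw =>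
    isEigenclass_congrP (fun l _ hl => ha'l l (hlS l hl))
      (isEigenclass_mono585 (Finset.erase_subset p S) hw)
  have hTp : ∀ {w : Additive (Gamma0 N) →+ K},
      IsEigenclass N (S.erase p) (Function.update a p ap) w →
        heckeTransfer hpN w = ap • w := fun hw => by
    have := hw.2 p hpN hpS'
    rwa [ha'p] at this
  refine ⟨_, _, hback hw₁', hback hw₂', hTp hw₁', hTp hw₂', ?_⟩
  refine AddMonoidHom.ext fun g => ?_
  have hg := DFunLike.congr_fun key g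
  have hg' : (p : K) * y g = (p : K) * r₁ N p z₁ g + (p : K) * r₂ N p z₂ g +
      (ap * r₂ N p z₃ g - r₁ N p z₃ g) := hg
  show y g = (r₁ N p z₁ g - (p : K)⁻¹ * r₁ N p z₃ g) +
    (r₂ N p z₂ g + ((p : K)⁻¹ * ap) * r₂ N p z₃ g)
  field_simp
  linear_combination hg'

end Old

/-! ## 4. Saturation (Ihara's lemma at `p`) -/

section Core

variable {𝒪 : Type} [CommRing 𝒪] [IsDomain 𝒪] [IsDiscreteValuationRing 𝒪] [CharZero 𝒪]

/-- The Ihara hypothesis at `p` for the reduction of the system `a`: `r₁ ⊕ r₂` is injective on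
the eigenclasses of level `N` with coefficients in the residue field. -/
def IharaAtP (𝒪 : Type) [CommRing 𝒪] [IsLocalRing 𝒪] (N p : ℕ) (S : Finset ℕ) (a : ℕ → 𝒪) :
    Prop :=
  ∀ z₁ z₂ : Additive (Gamma0 N) →+ ResidueField 𝒪,
    IsEigenclass N S (fun l => residue 𝒪 (a l)) z₁ →
    IsEigenclass N S (fun l => residue 𝒪 (a l)) z₂ →
    r₁ N p z₁ + r₂ N p z₂ = 0 → z₁ = 0 ∧ z₂ = 0

theorem r_compP {A B : Type} [AddCommGroup A] [AddCommGroup B] (π : A →+ B) {N p : ℕ}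
    (z₁ z₂ : Additive (Gamma0 N) →+ A) :
    π.comp (r₁ N p z₁ + r₂ N p z₂) = r₁ N p (π.comp z₁) + r₂ N p (π.comp z₂) := by
  refine AddMonoidHom.ext fun g => ?_
  show π (r₁ N p z₁ g + r₂ N p z₂ g) = _
  rw [map_add]
  rfl

theorem r_smulP {R : Type} [CommRing R] (c : R) {N p : ℕ} (z₁ z₂ : Additive (Gamma0 N) →+ R) :
    r₁ N p (c • z₁) + r₂ N p (c • z₂) = c • (r₁ N p z₁ + r₂ N p z₂) := by
  refine AddMonoidHom.ext fun g => ?_
  show c * r₁ N p z₁ g + c * r₂ N p z₂ g = c * (r₁ N p z₁ g + r₂ N p z₂ g)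
  ring

/-- **Saturation at `p`**: if `r₁ z₁ + r₂ z₂` is integral, the eigenclasses `z_i` are integral
(Ihara's lemma at `p`). -/
theorem integral_of_oldP {N p : ℕ} (hN : N ≠ 0) {S : Finset ℕ} {a : ℕ → 𝒪}
    (hI : IharaAtP 𝒪 N p S a)
    {z₁ z₂ : Additive (Gamma0 N) →+ FractionRing 𝒪}
    (h₁ : IsEigenclass N S (fun l => algebraMap 𝒪 (FractionRing 𝒪) (a l)) z₁)
    (h₂ : IsEigenclass N S (fun l => algebraMap 𝒪 (FractionRing 𝒪) (a l)) z₂)
    {y : Additive (Gamma0 (N * p)) →+ 𝒪}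
    (hy : (algebraMap 𝒪 (FractionRing 𝒪)).toAddMonoidHom.comp y = r₁ N p z₁ + r₂ N p z₂) :
    ∃ w₁ w₂ : Additive (Gamma0 N) →+ 𝒪,
      (algebraMap 𝒪 (FractionRing 𝒪)).toAddMonoidHom.comp w₁ = z₁ ∧
      (algebraMap 𝒪 (FractionRing 𝒪)).toAddMonoidHom.comp w₂ = z₂ := by
  classical
  obtain ⟨ϖ, hϖ⟩ := IsDiscreteValuationRing.exists_irreducible 𝒪
  set K := FractionRing 𝒪
  set ι : 𝒪 →+* K := algebraMap 𝒪 K with hι
  have hinj : Function.Injective ι := IsFractionRing.injective 𝒪 K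
  have hϖK : ι ϖ ≠ 0 := fun h => hϖ.ne_zero (hinj (by rw [h, map_zero]))
  have key : ∀ m : ℕ, ∀ w₁ w₂ : Additive (Gamma0 N) →+ 𝒪,
      ι.toAddMonoidHom.comp w₁ = (ι ϖ ^ m) • z₁ → ι.toAddMonoidHom.comp w₂ = (ι ϖ ^ m) • z₂ →
      ∃ w₁ w₂ : Additive (Gamma0 N) →+ 𝒪,
        ι.toAddMonoidHom.comp w₁ = z₁ ∧ ι.toAddMonoidHom.comp w₂ = z₂ := by
    intro m
    induction m with
    | zero =>
      intro w₁ w₂ e₁ e₂
      rw [pow_zero, one_smul] at e₁ e₂
      exact ⟨w₁, w₂, e₁, e₂⟩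
    | succ m ih =>
      intro w₁ w₂ e₁ e₂
      have hw : ∀ {w : Additive (Gamma0 N) →+ 𝒪} {z : Additive (Gamma0 N) →+ K},
          IsEigenclass N S (fun l => ι (a l)) z →
          ι.toAddMonoidHom.comp w = (ι ϖ ^ (m + 1)) • z → IsEigenclass N S a w := by
        intro w z hz e
        apply isEigenclass_of_map585 ι hinj
        rw [e]
        exact isEigenclass_smul585 _ hz
      have hw₁ := hw h₁ e₁
      have hw₂ := hw h₂ e₂
      have hsum : r₁ N p w₁ + r₂ N p w₂ = (ϖ ^ (m + 1)) • y := by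
        refine AddMonoidHom.ext fun g => hinj ?_
        have h1 := DFunLike.congr_fun (r_compP ι.toAddMonoidHom (N := N) (p := p) w₁ w₂) g
        rw [e₁, e₂, r_smulP, ← hy] at h1
        have h2 : ι ((r₁ N p w₁ + r₂ N p w₂) g) = ι ϖ ^ (m + 1) * ι (y g) := h1
        rw [h2]
        show _ = ι (ϖ ^ (m + 1) * y g)
        rw [map_mul, map_pow]
      have hred : r₁ N p ((residue 𝒪).toAddMonoidHom.comp w₁) +
          r₂ N p ((residue 𝒪).toAddMonoidHom.comp w₂) = 0 := by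
        rw [← r_compP, hsum]
        refine AddMonoidHom.ext fun g => ?_
        show residue 𝒪 (ϖ ^ (m + 1) * y g) = 0
        rw [residue_eq_zero_iff, hϖ.maximalIdeal_eq, Ideal.mem_span_singleton]
        exact Dvd.dvd.mul_right (dvd_pow_self ϖ (Nat.succ_ne_zero m)) _
      obtain ⟨r₁0, r₂0⟩ := hI _ _ (isEigenclass_map585 (residue 𝒪) hw₁)
        (isEigenclass_map585 (residue 𝒪) hw₂) hred
      obtain ⟨w₁', hw₁'⟩ := exists_eq_smul_of_residue585 hϖ w₁ r₁0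
      obtain ⟨w₂', hw₂'⟩ := exists_eq_smul_of_residue585 hϖ w₂ r₂0
      have hdiv : ∀ {w w' : Additive (Gamma0 N) →+ 𝒪} {z : Additive (Gamma0 N) →+ K},
          w = ϖ • w' → ι.toAddMonoidHom.comp w = (ι ϖ ^ (m + 1)) • z →
          ι.toAddMonoidHom.comp w' = (ι ϖ ^ m) • z := by
        intro w w' z e e'
        refine AddMonoidHom.ext fun g => ?_
        have hg := DFunLike.congr_fun e' g
        have hg' : ι (w g) = ι ϖ ^ (m + 1) * z g := hg
        rw [e] at hg'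
        have hg'' : ι (ϖ * w' g) = ι ϖ ^ (m + 1) * z g := hg'
        rw [map_mul, pow_succ', mul_assoc] at hg''
        exact mul_left_cancel₀ hϖK hg''
      exact ih w₁' w₂' (hdiv hw₁' e₁) (hdiv hw₂' e₂)
  obtain ⟨m₁, v₁, e₁⟩ := exists_pow_smul_integral585 hN hϖ h₁.1
  obtain ⟨m₂, v₂, e₂⟩ := exists_pow_smul_integral585 hN hϖ h₂.1
  have hup : ∀ {m : ℕ} {v : Additive (Gamma0 N) →+ 𝒪} {z : Additive (Gamma0 N) →+ K} (k : ℕ),
      ι.toAddMonoidHom.comp v = (ι ϖ ^ m) • z →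
      ι.toAddMonoidHom.comp ((ϖ ^ k) • v) = (ι ϖ ^ (m + k)) • z := by
    intro m v z k e
    refine AddMonoidHom.ext fun g => ?_
    have hg : ι (v g) = ι ϖ ^ m * z g := DFunLike.congr_fun e g
    show ι (ϖ ^ k * v g) = ι ϖ ^ (m + k) * z g
    rw [map_mul, hg, map_pow, pow_add]
    ring
  refine key (m₁ + m₂) ((ϖ ^ m₂) • v₁) ((ϖ ^ m₁) • v₂) ?_ ?_
  · rw [hup m₂ e₁]
  · rw [hup m₁ e₂, add_comm]

/-- **STEP-P, core form.** -/
theorem boundStepP_core (hHK2 : HK2Statement) (hOld : OldStatement)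
    {N p : ℕ} (hN : N ≠ 0) [hp : Fact p.Prime] (hpN : ¬ p ∣ N)
    (hp𝒪 : (p : 𝒪) ∈ maximalIdeal 𝒪)
    {S : Finset ℕ} (hpS : p ∈ S) (hNS : ∀ r : ℕ, r.Prime → r ∣ N → r ∈ S)
    {a : ℕ → 𝒪} (hI : IharaAtP 𝒪 N p S a) (ap : 𝒪)
    (hap : ∀ x : Additive (Gamma0 N) →+ 𝒪, IsEigenclass N S a x →
      heckeTransfer hpN x = ap • x)
    {J : Ideal 𝒪} (hB : BettiBound N S a J) :
    BettiBound (N * p) S a (Ideal.span {ap ^ 2 - ((p : 𝒪) + 1) ^ 2} * J) := by
  classical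
  obtain ⟨x, hx, hprim, hxJ⟩ := hB
  set K := FractionRing 𝒪
  set ι : 𝒪 →+* K := algebraMap 𝒪 K with hι
  have hinj : Function.Injective ι := IsFractionRing.injective 𝒪 K
  refine ⟨xiP N p ap x, isEigenclass_xiP ap hx, ?_, ?_⟩
  · -- primitivity
    rw [isPrim_iff585] at hprim ⊢
    intro h0
    apply hprim
    rw [xiP_comp, xiP_eq] at h0
    have hxk := isEigenclass_map585 (residue 𝒪) hx
    have h1 := (hI _ _ (isEigenclass_smul585 _ hxk) (isEigenclass_smul585 _ hxk) h0).1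
    have hpk : ((p : ℕ) : ResidueField 𝒪) = 0 := by
      rw [← map_natCast (residue 𝒪)]
      exact (residue_eq_zero_iff _).mpr hp𝒪
    rw [hpk, zero_add, one_smul] at h1
    exact h1
  · intro y hy
    have hx0 : ι.toAddMonoidHom.comp x ≠ 0 := by
      intro h0
      obtain ⟨γ, hγ⟩ := hprim
      have : ι (x (Additive.ofMul γ)) = 0 := DFunLike.congr_fun h0 _
      rw [map_eq_zero_iff ι hinj] at this
      rw [this] at hγ
      exact not_isUnit_zero hγ
    have hxp : heckeTransfer hpN (ι.toAddMonoidHom.comp x) =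
        ι ap • ι.toAddMonoidHom.comp x := by
      rw [heckeTransfer_comp, hap x hx]
      refine AddMonoidHom.ext fun g => ?_
      show ι (ap * x g) = ι ap * ι (x g)
      rw [map_mul]
    obtain ⟨z₁, z₂, h₁, h₂, -, -, hyz⟩ := oldP_of_old hOld hHK2 hN hpN hpS hNS (ι ap) hx0
      (isEigenclass_map585 ι hx) hxp (isEigenclass_map585 ι hy)
    obtain ⟨w₁, w₂, e₁, e₂⟩ := integral_of_oldP hN hI h₁ h₂ hyz
    have hw₁ : IsEigenclass N S a w₁ := isEigenclass_of_map585 ι hinj (by rw [e₁]; exact h₁)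
    have hw₂ : IsEigenclass N S a w₂ := isEigenclass_of_map585 ι hinj (by rw [e₂]; exact h₂)
    have hyw : y = r₁ N p w₁ + r₂ N p w₂ := by
      refine AddMonoidHom.ext fun g => hinj ?_
      have h1 := DFunLike.congr_fun (r_compP ι.toAddMonoidHom (N := N) (p := p) w₁ w₂) g
      rw [e₁, e₂, ← hyz] at h1
      exact h1.symm
    rw [hyw, pairing_xiP_old hN hpN ap hx.1 hw₁.1 hw₂.1 (hap w₁ hw₁) (hap w₂ hw₂)]
    exact Ideal.mul_mem_mul (neg_mem (Ideal.subset_span rfl)) (hxJ w₁ hw₁)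

end Core

end Fermat.Agent.S59.NMP.H341

end
-- ===== PACK-END S59/NMP/H341/StepP.lean

-- ===== PACK-BEGIN S59/NMP/H135/LgcSpec.lean
section





/-!
# Row S59, cell NMP, leaf LGC (Eichler–Shimura at `p`) — FROZEN sub-interface (helper135)

Target: `NMP.LgcStatement` (`S59/NMP/SpecP.lean`, helper583):  `α • T_p x = (α² + p) • x` on the
`a`-eigenclasses `x` of level `N` (`p ∤ N`), `α` the unramified Frobenius eigenvalue of `ρ_π`.

    LgcStatement   ⇐  LgcEigStatement + LgcBettiStatement              [`lgc_of_eig_betti`, proved]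
    LgcEigStatement ⇐ LgcCoreStatement  (+ BLR for the datum `H`)     (leaf EIG, algebra)
    LgcCoreStatement ⇐ MaxUnrGoodStatement + ES at `ℓ = p` (main: `S37.H697.reductionModL_relation`)
                        + dévissage `p → pⁿ` (S17 divisibility) + level `2N` for `p = 3`
    MaxUnrGoodStatement                                              (leaf MAXUNR, geometry)

* **MAXUNR** `MaxUnrGoodStatement`: at a good level `M`, a point of `J₀(M)[p]` killed by the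
  reduction map at `A ∣ p` lies in the augmentation subgroup `iAug I_A J₀(M)[p]`.
* **CORE** `LgcCoreStatement`: for every Frobenius element `σ` at `A ∣ p` and `x ∈ J₀(N)[pⁿ]`,
  `σ² x - T_p σ x + p x ∈ iAug I_A J₀(N)[pⁿ]`.
* `IsEigenHom N Sig a f`: `f : Frac 𝒪 →+ J₀(N)` kills `𝒪` and `T_ℓ (f x) = f (a_ℓ x)` for the
  primes `ℓ ∤ N`, `ℓ ∉ Sig` (the points of the Tate eigenmodule of row S30, `S30/H529`:
  `seqOfHom p f n = (o ↦ f (o / pⁿ))`).
* `ScalarAtP N Sig a p α`: `T_p (f (α x)) = f ((α² + p) x)` for every eigen-hom `f`.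
* **EIG** `LgcEigStatement`: in the situation of `NMP.LgcStatement`, `ScalarAtP` holds.
  [CORE on the Tate eigenmodule `W`; BLR algebra map `Ψ : End V_ρ → End W`; `P` = projection of
  `V_ρ` onto `V_ρ/L` along `L`: `Ψ(P)` kills `augSpan_I W ⊆ Ψ({n | im n ⊆ L}) W`,
  `P ρ(σ) = α P`, `T_p` commutes with `Ψ`, `End V · P · End V = End V`.]
* **BETTI** `LgcBettiStatement`: `ScalarAtP` implies the Betti statement.
  [`f_ϑ (z) = κ (γ ↦ ϑ (x γ · z))`, `ϑ` a character of `Frac 𝒪 / 𝒪`, `κ` the Kummer map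
  (`S15.H111.chi`, Hecke-equivariant at ALL `ℓ ∤ N`); `κ` injective and the `ϑ` separate.]
-/

set_option autoImplicit false

open Polynomial IsLocalRing CongruenceSubgroup
open scoped MatrixGroups

noncomputable section

namespace Fermat.Agent.S59.NMP.H135

open CuspForm ModularCurve Fermat.Agent.S59.Arch Fermat.Agent.S59.H765 Fermat.Agent.S41.Spec
  Fermat.Agent.S29.H642

/-- `Gal(ℚ̄/ℚ)`. -/
abbrev GQ135 : Type := AlgebraicClosure ℚ ≃ₐ[ℚ] AlgebraicClosure ℚ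

/-! ## Geometry -/

/-- **MAXUNR** at good levels (`p ≥ 5`, or `p = 3` and `2 ∣ M`): the kernel of reduction on
`J₀(M)[p]` is contained in the inertia augmentation. -/
def MaxUnrGoodStatement : Prop :=
  ∀ (p M : ℕ) [NeZero M], p.Prime → p ≠ 2 → ¬ p ∣ M → (5 ≤ p ∨ (p = 3 ∧ 2 ∣ M)) →
    ∀ A : ValuationSubring (AlgebraicClosure ℚ), A.LiesOverPrime p →
      ∀ x : JZero M, p • x = 0 → reductionModL A M x = 0 →
        x ∈ Fermat.Agent.S33.iAug (A.inertiaSubgroupIn ℚ)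
          (Fermat.Agent.S33.torsSub (JZero M) p)

/-- **CORE**: Eichler–Shimura at `p` modulo the inertia augmentation, on `J₀(N)[pⁿ]`. -/
def LgcCoreStatement : Prop :=
  ∀ (p N : ℕ) [NeZero N] (hp : p.Prime), p ≠ 2 → ¬ p ∣ N →
    ∀ A : ValuationSubring (AlgebraicClosure ℚ), A.LiesOverPrime p →
      ∀ σ : GQ135, A.IsFrobeniusAt σ p →
        ∀ (n : ℕ) (x : JZero N), p ^ n • x = 0 →
          σ • σ • x - heckeOperatorBar N ⟨p, hp⟩ (σ • x) + p • x ∈
            Fermat.Agent.S33.iAug (A.inertiaSubgroupIn ℚ)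
              (Fermat.Agent.S33.torsSub (JZero N) (p ^ n))

/-! ## Eigen-homs -/

/-- `f : Frac 𝒪 →+ J₀(N)` kills `𝒪` and is an eigenvector of the `T_ℓ`, `ℓ ∤ N`, `ℓ ∉ Sig`,
with eigenvalues `a ℓ` (for the `𝒪`-structure `(b • f) x = f (b x)`). -/
def IsEigenHom (N : ℕ) [NeZero N] (Sig : Finset ℕ) {𝒪 : Type} [CommRing 𝒪] (a : ℕ → 𝒪)
    (f : FractionRing 𝒪 →+ JZero N) : Prop :=
  (∀ r : 𝒪, f (algebraMap 𝒪 (FractionRing 𝒪) r) = 0) ∧
    ∀ ℓ : Nat.Primes, ¬ (ℓ : ℕ) ∣ N → (ℓ : ℕ) ∉ Sig → ∀ x : FractionRing 𝒪,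
      heckeOperatorBar N ℓ (f x) = f (algebraMap 𝒪 (FractionRing 𝒪) (a ℓ) * x)

/-- `T_p` acts on the eigen-homs by the scalar `(α² + p)/α`. -/
def ScalarAtP (N : ℕ) [NeZero N] (Sig : Finset ℕ) {𝒪 : Type} [CommRing 𝒪] (a : ℕ → 𝒪)
    (p : ℕ) [Fact p.Prime] (α : 𝒪) : Prop :=
  ∀ f : FractionRing 𝒪 →+ JZero N, IsEigenHom N Sig a f → ∀ x : FractionRing 𝒪,
    heckeOperatorBar N ⟨p, Fact.out⟩ (f (algebraMap 𝒪 (FractionRing 𝒪) α * x)) =
      f (algebraMap 𝒪 (FractionRing 𝒪) (α ^ 2 + (p : 𝒪)) * x)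

/-! ## The two leaves above CORE -/

/-- **EIG**: in the situation of `NMP.LgcStatement` (binders verbatim), `T_p` acts on the
eigen-homs of level `N` by `(α² + p)/α`. -/
def LgcEigStatement : Prop :=
  ∀ (p : ℕ) [Fact p.Prime]
    (𝒪 : Type) [CommRing 𝒪] [IsDomain 𝒪] [IsDiscreteValuationRing 𝒪]
    [IsAdicComplete (maximalIdeal 𝒪) 𝒪] [Finite (ResidueField 𝒪)] [CharZero 𝒪]
    (ρbar : ResidualGaloisRep (ResidueField 𝒪)) (Smin : Finset ℕ)
    (_h : ResidualHyp p 𝒪 ρbar Smin) (_hc : CurveCase p ρbar)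
    (Sig : Finset ℕ)
    (_hSig : Smin ⊆ Sig) (_hSigP : ∀ q ∈ Sig, q.Prime) (_hpSig : p ∈ Sig)
    (_hflat : (GaloisRepAdic.ofResidualGaloisRep ρbar).IsFlatAt p)
    (_hord : (GaloisRepAdic.ofResidualGaloisRep ρbar).IsOrdinaryAt p)
    [NeZero (wilesLevel p .flat Smin Sig)]
    [Fact (HasIntegralStructure (wilesLevel p .flat Smin Sig) 2)]
    (θ : heckeAlgebra (wilesLevel p .flat Smin Sig) 2 (↑Sig : Set ℕ) →+* ResidueField 𝒪)
    [IsLocalRing (heckeLocal (wilesLevel p .flat Smin Sig) (↑Sig : Set ℕ) 𝒪 θ)]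
    [IsNoetherianRing (heckeLocal (wilesLevel p .flat Smin Sig) (↑Sig : Set ℕ) 𝒪 θ)]
    [IsAdicComplete (maximalIdeal (heckeLocal (wilesLevel p .flat Smin Sig) (↑Sig : Set ℕ) 𝒪 θ))
      (heckeLocal (wilesLevel p .flat Smin Sig) (↑Sig : Set ℕ) 𝒪 θ)]
    [IsLocalHom (algebraMap 𝒪 (heckeLocal (wilesLevel p .flat Smin Sig) (↑Sig : Set ℕ) 𝒪 θ))]
    [Module.Finite 𝒪 (heckeLocal (wilesLevel p .flat Smin Sig) (↑Sig : Set ℕ) 𝒪 θ)]
    [Module.Free 𝒪 (heckeLocal (wilesLevel p .flat Smin Sig) (↑Sig : Set ℕ) 𝒪 θ)]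
    (H : HeckeGaloisRepDatum (wilesLevel p .flat Smin Sig) (↑Sig : Set ℕ) 𝒪 θ
      (heckeLocal (wilesLevel p .flat Smin Sig) (↑Sig : Set ℕ) 𝒪 θ))
    (_hπ : H.π = heckeLocal.π (wilesLevel p .flat Smin Sig) (↑Sig : Set ℕ) 𝒪 θ)
    (_hres : H.ρ.residual.IsEquiv (ρbar.baseChangeAlong (ResidueField.map (algebraMap 𝒪
      (heckeLocal (wilesLevel p .flat Smin Sig) (↑Sig : Set ℕ) 𝒪 θ)))))
    (_hcond : sigmaCond 𝒪 p .flat Smin Sig H.ρ)
    (π : heckeLocal (wilesLevel p .flat Smin Sig) (↑Sig : Set ℕ) 𝒪 θ →ₐ[𝒪] 𝒪)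
    (hπloc : IsLocalHom
      (π : heckeLocal (wilesLevel p .flat Smin Sig) (↑Sig : Set ℕ) 𝒪 θ →+* 𝒪))
    (a : ℕ → 𝒪)
    (_hπa : ∀ (l : ℕ) (hl : l.Prime) (hlN : ¬ l ∣ wilesLevel p .flat Smin Sig)
      (hlS : l ∉ (↑Sig : Set ℕ)),
      π (heckeLocal.π (wilesLevel p .flat Smin Sig) (↑Sig : Set ℕ) 𝒪 θ
        (heckeAlgebra.T hl hlN hlS)) = a l)
    (α : 𝒪)
    (_hα : UnrFrobAt (H.ρ.baseChangeAlong
      (π : heckeLocal (wilesLevel p .flat Smin Sig) (↑Sig : Set ℕ) 𝒪 θ →+* 𝒪) hπloc) p α)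
    (_hpN : ¬ p ∣ wilesLevel p .flat Smin Sig),
    ScalarAtP (wilesLevel p .flat Smin Sig) Sig a p α

/-- **BETTI**: the scalar on the eigen-homs is the scalar on the Betti eigenclasses. -/
def LgcBettiStatement : Prop :=
  ∀ (p : ℕ) [Fact p.Prime]
    (𝒪 : Type) [CommRing 𝒪] [IsDomain 𝒪] [IsDiscreteValuationRing 𝒪]
    [IsAdicComplete (maximalIdeal 𝒪) 𝒪] [Finite (ResidueField 𝒪)] [CharZero 𝒪]
    (_hp𝒪 : (p : 𝒪) ∈ maximalIdeal 𝒪)
    (N : ℕ) [NeZero N] (hpN : ¬ p ∣ N) (Sig : Finset ℕ) (a : ℕ → 𝒪) (α : 𝒪),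
    ScalarAtP N Sig a p α →
      ∀ x : Additive (Gamma0 N) →+ 𝒪, NM.IsEigenclass N Sig a x →
        α • heckeTransfer hpN x = (α ^ 2 + (p : 𝒪)) • x

/-! ## Glue -/

/-- **LGC from EIG and BETTI.** -/
theorem lgc_of_eig_betti (hE : LgcEigStatement) (hB : LgcBettiStatement) : LgcStatement := by
  intro p _ 𝒪 _ _ _ _ _ _ ρbar Smin h hc Sig hSig hSigP hpSig hflat hord _ _ θ _ _ _ _ _ _
    H hπ hres hcond π hπloc a hπa α hα hpN x hx
  exact hB p 𝒪 h.hp𝒪 (wilesLevel p .flat Smin Sig) hpN Sig a α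
    (hE p 𝒪 ρbar Smin h hc Sig hSig hSigP hpSig hflat hord θ H hπ hres hcond π hπloc a hπa α hα
      hpN) x hx

end Fermat.Agent.S59.NMP.H135

end

end
-- ===== PACK-END S59/NMP/H135/LgcSpec.lean

-- ===== PACK-BEGIN S38T/IA/Hecke/H183/GalTIA.lean
section




/-!
# Row HARD, cell HECKE, layer 4: the leaf IA-GAL-T  (helper183, on helper494's general core)

* `galTSig_of : G4Statement → S34Shape494 → S30Statement → (∀ M, HasIntegralStructure M 2) →
    GalTSigStatement` — GAL-T for a package of ANY type `Σ`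
  (`S59.TW.H494.inertiaValue_eq_one_of_sq_not_dvd494`).
* `iaGalT_of : … → IAGalTStatement` — the leaf IA-GAL-T of `CmpSpecIA.lean`
  (`Σ = Smin ∪ Piv ∪ Q`).
-/

set_option autoImplicit false
set_option linter.style.haveILetI false
set_option linter.unusedVariables false

open Polynomial IsLocalRing CongruenceSubgroup
open scoped MatrixGroups

namespace Fermat.Agent.S38.IA.Hecke.H183

variable {ty : Fermat.Agent.S59.Arch.PType}

open Fermat.Agent.S59.Arch Fermat.Agent.S59.TW.H959 Fermat.Agent.S59.TW Fermat.Agent.S59.H765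
open Fermat.Agent.S59.TW.H653 Fermat.Agent.S59.TW.Aut
open Fermat.Agent.S38.IA Fermat.Agent.S38.IA.Hecke
open CuspForm

/-- **GAL-T for a package of any type `Σ`.** -/
theorem galTSig_of_T (hG4 : Fermat.Agent.S59.G4.G4Statement)
    (h34 : Fermat.Agent.S59.TW.H494.S34Shape494)
    (h30 : Fermat.Agent.S31.S30Statement)
    (hIS : ∀ (M : ℕ) [NeZero M], CuspForm.HasIntegralStructure M 2) : GalTSigStatement_T := by
  intro p hpF 𝒪 _ _ _ _ _ _ ρbar Smin h t Sig hSig hSminSig _ PQ q hq hqSig hqS hpq hdist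
    P hP φ hφ σ hσ a₀ w hw O' _ _ _ _ _ _ emb hemb hnew
  classical
  obtain ⟨M, hM, g, -, hc, hMS, chig, iota, -, hcompat⟩ := hnew
  haveI : NeZero M := hM
  have hp : p.Prime := hpF.out
  have hqp : q ≠ p := fun h' => hqS (h' ▸ h.hpSmin)
  have hpSig : p ∈ Sig := hSminSig h.hpSmin
  have hN₀ : ∀ q' : ℕ, q'.Prime → q' ∣ wilesLevel p t Smin Sig → q' ∈ Sig := fun q' hq' hqd =>
    _root_.Fermat.Agent.S59.Arch.mem_of_prime_dvd_wilesLevel hp h.hSmin hSig h.hpSmin hSminSig q' hq' hqd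
  -- `p` is in the maximal ideal of `O'`
  have hpT : (p : PQ.T) ∈ maximalIdeal PQ.T := by
    rw [IsLocalRing.mem_maximalIdeal]
    intro hu
    have h1 : IsUnit (algebraMap 𝒪 PQ.T (p : 𝒪)) := by rwa [map_natCast]
    exact (IsLocalRing.mem_maximalIdeal _).mp h.hp𝒪 (isUnit_of_map_unit (algebraMap 𝒪 PQ.T) _ h1)
  have hpO' : (p : O') ∈ maximalIdeal O' := by
    rw [IsLocalRing.mem_maximalIdeal]
    intro hu
    have h1 : IsUnit (emb (p : PQ.T)) := by rwa [map_natCast]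
    exact (IsLocalRing.mem_maximalIdeal _).mp hpT (hemb.map_nonunit _ h1)
  have hcompat' : ∀ (ℓ : ℕ) (hℓ : ℓ.Prime)
      (hℓN₀ : ¬ ℓ ∣ wilesLevel p t Smin Sig)
      (hℓS₀ : ℓ ∉ (↑Sig : Set ℕ))
      (hℓN' : ¬ ℓ ∣ M) (hℓS' : ℓ ∉ (↑Sig : Set ℕ)),
      emb (PQ.H.π (heckeAlgebra.T hℓ hℓN₀ hℓS₀)) =
        (iota.comp chig.rangeRestrict) (heckeAlgebra.T hℓ hℓN' hℓS') :=
    fun ℓ hℓ hℓN₀ hℓS₀ hℓN' hℓS' => (hcompat ℓ hℓ hℓN₀ hℓN' hℓS').symm
  exact Fermat.Agent.S59.TW.H494.inertiaValue_eq_one_of_sq_not_dvd494 hG4 h34 h30 hIS p h.hp2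
    hpO' PQ.H emb hemb hpSig hMS (Finset.Subset.refl _) hN₀ (iota.comp chig.rangeRestrict)
    hcompat' q hq hqp hc P hP φ σ hφ hσ a₀ w hw

/-- **IA-GAL-T** (leaf of `CmpSpecIA.lean`). -/
theorem iaGalT_of_T (hG4 : Fermat.Agent.S59.G4.G4Statement)
    (h34 : Fermat.Agent.S59.TW.H494.S34Shape494)
    (h30 : Fermat.Agent.S31.S30Statement)
    (hIS : ∀ (M : ℕ) [NeZero M], CuspForm.HasIntegralStructure M 2) : IAGalTStatement_T (ty := ty) :=
  iaGalT_of_sig_T (galTSig_of_T hG4 h34 h30 hIS)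

end Fermat.Agent.S38.IA.Hecke.H183

end
-- ===== PACK-END S38T/IA/Hecke/H183/GalTIA.lean

-- ===== PACK-BEGIN S59/LOQ/H213/Cells.lean
section


/-!
# Row S59, sub-row LO-Q: the CELLS of `TargetsW35Statement` (sub-architect helper213)

`TargetsW35Statement` (the only open leaf of LO-Q, `Spec.lean`) split by cases.  Every cell is a
restriction of `TargetsW35Statement` (so every cell is TRUE), stated with the pointwise Prop
`TargetsAt p q M'`.  Glue `targetsW35_of_cells` proved here.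

| cell | case | state of main |
|---|---|---|
| `T5GoodStatement`  | `p = 5`, `7 ≤ q` or `q = 3 ∧ 2 ∣ M'` | `H158.WallQ.wallQTargetsGood` (adapter) |
| `T5TwoStatement`   | `p = 5`, `q = 2`, `3 ∣ M'`          | generic lemmas take `HasAux M' 2`   |
| `T5Desc3Statement` | `p = 5`, `q = 3`, `2 ∤ M'`          | Q3 done (`H343.q3All`); Q2, Q4 open |
| `T5Desc2Statement` | `p = 5`, `q = 2`, `3 ∤ M'`          | open                                |
| `T3NeatStatement`  | `p = 3`, `q ≠ 3`, `HasAux`, neat    | CORE-OUT needs a unit of exponent prime to 3 |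
| `T3RestStatement`  | `p = 3`, the other levels           | open (descent)                      |
-/

set_option autoImplicit false

namespace Fermat.Agent.S59.LOQ.H213

open ModularCurve
open Fermat.Agent.Ribet Fermat.Agent.Ribet.Spec Fermat.Agent.Ribet.H158.WallQ

/-- The three targets of the wall at `q` at ONE level `(p, q, M')`, every place over `q`. -/
def TargetsAt (p q M' : ℕ) [NeZero M'] [NeZero q] [NeZero (q * M')] : Prop :=
  ∀ A : ValuationSubring (AlgebraicClosure ℚ), A.LiesOverPrime q →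
    ∃ 𝓕 𝒮 : AddSubgroup (JZero (q * M')),
      Q2For p q M' A 𝒮 ∧ Q3For p q M' 𝓕 𝒮 ∧ Q4For p q M' A 𝓕

/-- `p = 3`: the level `q M'` is NEAT at `q` (no node of thickness divisible by `3`): `j = 0` is
ordinary in characteristic `q`, or `M'` has a prime `r ≡ 2 mod 3`, `r ≠ q`. -/
def Neat3 (q M' : ℕ) : Prop :=
  q % 3 = 1 ∨ ∃ r : ℕ, r.Prime ∧ r % 3 = 2 ∧ r ≠ q ∧ r ∣ M'

/-- **T5-GOOD**: `p = 5`, good levels of main. -/
def T5GoodStatement : Prop :=
  ∀ (q M' : ℕ) [NeZero M'] [NeZero q] [NeZero (q * M')], q.Prime → q ≠ 5 → ¬ q ∣ M' →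
    (7 ≤ q ∨ (q = 3 ∧ 2 ∣ M')) → TargetsAt 5 q M'

/-- **T5-TWO**: `p = 5`, `q = 2`, `3 ∣ M'`. -/
def T5TwoStatement : Prop :=
  ∀ (M' : ℕ) [NeZero M'] [NeZero (2 * M')], ¬ 2 ∣ M' → 3 ∣ M' → TargetsAt 5 2 M'

/-- **T5-DESC3**: `p = 5`, `q = 3`, `M'` odd. -/
def T5Desc3Statement : Prop :=
  ∀ (M' : ℕ) [NeZero M'] [NeZero (3 * M')], ¬ 3 ∣ M' → ¬ 2 ∣ M' → TargetsAt 5 3 M'

/-- **T5-DESC2**: `p = 5`, `q = 2`, `3 ∤ M'`. -/
def T5Desc2Statement : Prop :=
  ∀ (M' : ℕ) [NeZero M'] [NeZero (2 * M')], ¬ 2 ∣ M' → ¬ 3 ∣ M' → TargetsAt 5 2 M'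

/-- **T3-NEAT**: `p = 3`, `q ≠ 3`, at the levels with the auxiliary prime for `q`
(`q = 2 → 3 ∣ M'`) which are neat at `q`. -/
def T3NeatStatement : Prop :=
  ∀ (q M' : ℕ) [NeZero M'] [NeZero q] [NeZero (q * M')], q.Prime → q ≠ 3 → ¬ q ∣ M' →
    (q = 2 → 3 ∣ M') → Neat3 q M' → TargetsAt 3 q M'

/-- **T3-REST**: `p = 3`, the remaining levels (`q = 2` with `3 ∤ M'`, or not neat at `q`). -/
def T3RestStatement : Prop :=
  ∀ (q M' : ℕ) [NeZero M'] [NeZero q] [NeZero (q * M')], q.Prime → q ≠ 3 → ¬ q ∣ M' →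
    ¬ ((q = 2 → 3 ∣ M') ∧ Neat3 q M') → TargetsAt 3 q M'

/-- A prime `q ∉ {2, 3, 5}` is `≥ 7`. -/
theorem seven_le_of_prime {q : ℕ} (hq : q.Prime) (h2 : q ≠ 2) (h3 : q ≠ 3) (h5 : q ≠ 5) :
    7 ≤ q := by
  by_contra h
  have hq7 : q < 7 := by omega
  have h2q := hq.two_le
  interval_cases q
  · exact h2 rfl
  · exact h3 rfl
  · exact absurd hq (by decide)
  · exact h5 rfl
  · exact absurd hq (by decide)

/-- **LO-Q: the leaf from its cells.** -/
theorem targetsW35_of_cells (h5g : T5GoodStatement) (h5t : T5TwoStatement)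
    (h53 : T5Desc3Statement) (h52 : T5Desc2Statement) (h3n : T3NeatStatement)
    (h3r : T3RestStatement) : TargetsW35Statement := by
  intro p q M' _ _ _ hp hp35 hq hqp hqM A hA
  rcases hp35 with rfl | rfl
  · by_cases hn : (q = 2 → 3 ∣ M') ∧ Neat3 q M'
    · exact h3n q M' hq hqp hqM hn.1 hn.2 A hA
    · exact h3r q M' hq hqp hqM hn A hA
  · by_cases h2 : q = 2
    · subst h2
      by_cases h3M : 3 ∣ M'
      · exact h5t M' hqM h3M A hA
      · exact h52 M' hqM h3M A hA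
    · by_cases h3 : q = 3
      · subst h3
        by_cases h2M : 2 ∣ M'
        · exact h5g 3 M' hq hqp hqM (Or.inr ⟨rfl, h2M⟩) A hA
        · exact h53 M' hqM h2M A hA
      · exact h5g q M' hq hqp hqM (Or.inl (seven_le_of_prime hq h2 h3 hqp)) A hA

/-- **LO-Q from its cells and the row inputs.** -/
theorem mazurW35_of_cells (hE : EmbedWStatement)
    (hNE : Fermat.Agent.Ribet.H944.Wall.NonEisWStatement)
    (hR3 : EigenformOfOccursAwayStatement) (hR3' : AlmostAllToWitnessWStatement)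
    (hPl : PlacesStatement) (hDet : DetFrobWStatement) (hDim : TorsionRankWStatement)
    (h5g : T5GoodStatement) (h5t : T5TwoStatement) (h53 : T5Desc3Statement)
    (h52 : T5Desc2Statement) (h3n : T3NeatStatement) (h3r : T3RestStatement) :
    Fermat.Agent.S59.Arch.LOW.MazurW35Statement :=
  mazurW35_of_targets hE hNE hR3 hR3' hPl hDet hDim
    (targetsW35_of_cells h5g h5t h53 h52 h3n h3r)

end Fermat.Agent.S59.LOQ.H213

end
-- ===== PACK-END S59/LOQ/H213/Cells.lean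

-- ===== PACK-BEGIN Ribet/H223/HeckeGaussRed.lean
section




/-!
# Row 38, WALL-p, leaf M6a (helper223), official vocabulary of `Ribet/H884/SlopeSpec.lean`

The reductions `IsRedInf` (on `C∞`) and `IsRedZero` (on `C₀`) are compatible with the two
degeneracy maps `α_ℓ = heckeAlphaBar`, `β_ℓ = heckeBetaBar : FF N → FF (N ℓ)`, for EVERY `ℓ ≠ 0`
(also `ℓ ∣ N`, also `ℓ = p`), every level `N` and every valuation subring `A` of `ℚ̄`:

* `isRedInf_alpha`  : `IsRedInf N A f r → IsRedInf (N ℓ) A (α f) r`;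
* `isRedInf_beta`   : `IsRedInf N A f r → IsRedInf (N ℓ) A (β f) (r(t^ℓ))`;
* `isRedZero_alpha` : `IsRedZero N A f r → IsRedZero (N ℓ) A (α f) (r(t^ℓ))`;
* `isRedZero_beta`  : `IsRedZero N A f r → IsRedZero (N ℓ) A (β f) r`;
* `isRedInf_of_alpha`, `isRedInf_of_beta` : the converses (a reduction of `α f` is a reduction of
  `f`; a reduction of `β f` of the form `s(t^ℓ)` comes from the reduction `s` of `f`);
* `isRedInf_congr` : `IsRedInf` only depends on the `t`-expansion.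

(On `C∞` the map `α` is the identity on `t`-expansions and `β` is `t ↦ t^ℓ`; on `C₀` the roles are
exchanged by the Fricke involutions, `w_{Nℓ} ∘ α = β ∘ w_N`, `w_{Nℓ} ∘ β = α ∘ w_N`.)
-/

set_option autoImplicit false
set_option linter.unusedSectionVars false
set_option synthInstance.maxHeartbeats 400000
set_option maxHeartbeats 1000000

noncomputable section

namespace Fermat.Agent.Ribet.H223.M6a

open AlgebraicCurve ModularCurve HahnSeries
open Fermat.Agent.S24 Fermat.Agent.A2.H708 Fermat.Agent.A2.H528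
open Fermat.Agent.Ribet.H884

variable {N : ℕ} [NeZero N] {ℓ : ℕ} [NeZero ℓ] {A : ValuationSubring Kbar}

/-- `IsRedInf` only depends on the `t`-expansion (the level plays no role). -/
theorem isRedInf_congr {N' : ℕ} [NeZero N'] {f : FF N} {f' : FF N'}
    (h : (f' : LaurentSeries Kbar) = (f : LaurentSeries Kbar)) {r : LaurentSeries (kA A)}
    (hr : IsRedInf N A f r) : IsRedInf N' A f' r := by
  obtain ⟨c, U₁, U₂, hc, h₁, h₂, he, hred⟩ := hr
  exact ⟨c, U₁, U₂, hc, h₁, h₂, by rw [h]; exact he, hred⟩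

/-- **(M6a)** `red∞ (α f) = red∞ f`. -/
theorem isRedInf_alpha {f : FF N} {r : LaurentSeries (kA A)} (hr : IsRedInf N A f r) :
    IsRedInf (N * ℓ) A (heckeAlphaBar Kbar N ℓ f) r :=
  isRedInf_congr (coe_heckeAlphaBar N ℓ f) hr

/-- converse of `isRedInf_alpha`. -/
theorem isRedInf_of_alpha {f : FF N} {r : LaurentSeries (kA A)}
    (hr : IsRedInf (N * ℓ) A (heckeAlphaBar Kbar N ℓ f) r) : IsRedInf N A f r :=
  isRedInf_congr (coe_heckeAlphaBar N ℓ f).symm hr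

/-- series form of `isRedInf_beta`. -/
theorem isRedInf_qExpand {N' : ℕ} [NeZero N'] {f : FF N} {f' : FF N'}
    (h : (f' : LaurentSeries Kbar) = qExpand Kbar ℓ (f : LaurentSeries Kbar))
    {r : LaurentSeries (kA A)} (hr : IsRedInf N A f r) :
    IsRedInf N' A f' (qExpand (kA A) ℓ r) := by
  obtain ⟨c, U₁, U₂, hc, h₁, h₂, he, hred⟩ := hr
  refine ⟨c, qExpand A ℓ U₁, qExpand A ℓ U₂, hc, red_qExpand_ne_zero A ℓ h₁,
    red_qExpand_ne_zero A ℓ h₂, ?_, ?_⟩
  · rw [h, incl_qExpand, incl_qExpand, ← map_mul, he, map_mul, qExpand_cst]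
  · rw [red_qExpand, red_qExpand, ← map_mul, hred]

/-- **(M6a)** `red∞ (β f) = (red∞ f)(t^ℓ)`. -/
theorem isRedInf_beta {f : FF N} {r : LaurentSeries (kA A)} (hr : IsRedInf N A f r) :
    IsRedInf (N * ℓ) A (heckeBetaBar Kbar N ℓ f) (qExpand (kA A) ℓ r) :=
  isRedInf_qExpand (coe_heckeBetaBar N ℓ f) hr

/-- **(M6a)** `red₀ (β f) = red₀ f`  (`w_{Nℓ} ∘ β = α ∘ w_N`). -/
theorem isRedZero_beta {f : FF N} {r : LaurentSeries (kA A)} (hr : IsRedZero N A f r) :
    IsRedZero (N * ℓ) A (heckeBetaBar Kbar N ℓ f) r := by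
  have : NeZero (N * ℓ) := ⟨mul_ne_zero (NeZero.ne N) (NeZero.ne ℓ)⟩
  unfold IsRedZero at hr ⊢
  rw [Fermat.Agent.A2.H612.wF_heckeBetaBar]
  exact isRedInf_alpha hr

/-- **(M6a)** `red₀ (α f) = (red₀ f)(t^ℓ)`  (`w_{Nℓ} ∘ α = β ∘ w_N`). -/
theorem isRedZero_alpha {f : FF N} {r : LaurentSeries (kA A)} (hr : IsRedZero N A f r) :
    IsRedZero (N * ℓ) A (heckeAlphaBar Kbar N ℓ f) (qExpand (kA A) ℓ r) := by
  have : NeZero (N * ℓ) := ⟨mul_ne_zero (NeZero.ne N) (NeZero.ne ℓ)⟩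
  unfold IsRedZero at hr ⊢
  rw [Fermat.Agent.A2.H612.wF_heckeAlphaBar]
  exact isRedInf_beta hr

/-- A reduction of `f(t^ℓ)` of the form `s(t^ℓ)` comes from the reduction `s` of `f`. -/
theorem isRedInf_of_qExpand {N' : ℕ} [NeZero N'] {f : FF N} {f' : FF N'}
    (h : (f' : LaurentSeries Kbar) = qExpand Kbar ℓ (f : LaurentSeries Kbar))
    {p : ℕ} (hp0 : p ≠ 0) (hA : (p : Kbar) ∈ A.nonunits)
    {s : LaurentSeries (kA A)} (hr : IsRedInf N' A f' (qExpand (kA A) ℓ s)) :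
    ∃ c : kA A, c ≠ 0 ∧ IsRedInf N A f (HahnSeries.C c * s) := by
  have hf'0 : (f' : LaurentSeries Kbar) ≠ 0 := by
    obtain ⟨c, U₁, U₂, hc, h₁, h₂, he, -⟩ := hr
    intro h0
    rw [h0, zero_mul] at he
    rcases mul_eq_zero.mp he.symm with h' | h'
    · exact cst_ne_zero hc h'
    · exact incl_ne_zero A (ne_zero_of_red_ne_zero A h₁) h'
  have hf0 : (f : LaurentSeries Kbar) ≠ 0 := by
    intro h0
    rw [h0, map_zero] at h
    exact hf'0 h
  -- a normal form of `f`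
  obtain ⟨c, U₁, U₂, hc, h₁, h₂, -, -, he⟩ :=
    exists_normal_form (A := A) (intGen_full N)
      (attainsMax_Qbar hp0 hA (modularFunctionFieldFull N)) f.2 hf0
  have hr₀ : IsRedInf N A f (red A U₁ / red A U₂) :=
    ⟨c, U₁, U₂, hc, h₁, h₂, he, div_mul_cancel₀ _ h₂⟩
  have hr₁ : IsRedInf N' A f' (qExpand (kA A) ℓ (red A U₁ / red A U₂)) :=
    isRedInf_qExpand h hr₀
  -- compare the two reductions of `f'`
  obtain ⟨d, V₁, V₂, hd, k₁, k₂, he', hred'⟩ := hr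
  obtain ⟨d', W₁, W₂, hd', l₁, l₂, he'', hred''⟩ := hr₁
  -- `d · V₁ · W₂ = d' · W₁ · V₂`
  have hcross : cst d * incl A (V₁ * W₂) = cst d' * incl A (W₁ * V₂) := by
    rw [map_mul, map_mul]
    calc cst d * (incl A V₁ * incl A W₂) = (cst d * incl A V₁) * incl A W₂ := by ring
      _ = ((f' : LaurentSeries Kbar) * incl A V₂) * incl A W₂ := by rw [he']
      _ = ((f' : LaurentSeries Kbar) * incl A W₂) * incl A V₂ := by ring
      _ = (cst d' * incl A W₁) * incl A V₂ := by rw [he'']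
      _ = cst d' * (incl A W₁ * incl A V₂) := by ring
  have hP₁ : red A (V₁ * W₂) ≠ 0 := by rw [map_mul]; exact mul_ne_zero k₁ l₂
  have hP₂ : red A (W₁ * V₂) ≠ 0 := by rw [map_mul]; exact mul_ne_zero l₁ k₂
  -- the constant `e = d / d'` is a unit of `A`
  have hcross' : cst (d / d') * incl A (V₁ * W₂) = incl A (W₁ * V₂) := by
    have : cst (d / d') = cst d'⁻¹ * cst d := by rw [← cst_mul, div_eq_inv_mul]
    rw [this, mul_assoc, hcross, ← mul_assoc, cst_inv_mul_cst hd', one_mul]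
  have hcross'' : cst (d' / d) * incl A (W₁ * V₂) = incl A (V₁ * W₂) := by
    have : cst (d' / d) = cst d⁻¹ * cst d' := by rw [← cst_mul, div_eq_inv_mul]
    rw [this, mul_assoc, ← hcross, ← mul_assoc, cst_inv_mul_cst hd, one_mul]
  have he₁ : d / d' ∈ A := mem_of_cst_mul_prim A hP₁ hcross'
  have he₂ : d' / d ∈ A := mem_of_cst_mul_prim A hP₂ hcross''
  set e : A := ⟨d / d', he₁⟩ with hedef
  have hredc : red A (cstA A e * (V₁ * W₂)) = red A (W₁ * V₂) := by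
    congr 1
    apply incl_injective A
    rw [map_mul, incl_cstA]
    exact hcross'
  have hres0 : IsLocalRing.residue A e ≠ 0 := by
    intro h0
    apply hP₂
    rw [← hredc, map_mul, red_cstA, h0]
    simp
  -- the relation between the two reductions
  have hrel : HahnSeries.C (IsLocalRing.residue A e) * qExpand (kA A) ℓ s =
      qExpand (kA A) ℓ (red A U₁ / red A U₂) := by
    have h1 : HahnSeries.C (IsLocalRing.residue A e) * (red A V₁ * red A W₂) =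
        red A W₁ * red A V₂ := by
      calc HahnSeries.C (IsLocalRing.residue A e) * (red A V₁ * red A W₂)
          = red A (cstA A e) * red A (V₁ * W₂) := by
            rw [red_cstA, map_mul]
            rfl
        _ = red A (cstA A e * (V₁ * W₂)) := (map_mul _ _ _).symm
        _ = red A (W₁ * V₂) := hredc
        _ = red A W₁ * red A V₂ := map_mul _ _ _
    have h2 : (HahnSeries.C (IsLocalRing.residue A e) * qExpand (kA A) ℓ s) *
        (red A V₂ * red A W₂) =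
        qExpand (kA A) ℓ (red A U₁ / red A U₂) * (red A V₂ * red A W₂) := by
      calc (HahnSeries.C (IsLocalRing.residue A e) * qExpand (kA A) ℓ s) *
            (red A V₂ * red A W₂)
          = HahnSeries.C (IsLocalRing.residue A e) *
              ((qExpand (kA A) ℓ s * red A V₂) * red A W₂) := by ring
        _ = HahnSeries.C (IsLocalRing.residue A e) * (red A V₁ * red A W₂) := by rw [hred']
        _ = red A W₁ * red A V₂ := h1
        _ = (qExpand (kA A) ℓ (red A U₁ / red A U₂) * red A W₂) * red A V₂ := by rw [hred'']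
        _ = qExpand (kA A) ℓ (red A U₁ / red A U₂) * (red A V₂ * red A W₂) := by ring
    exact mul_right_cancel₀ (mul_ne_zero k₂ l₂) h2
  have hrel' : qExpand (kA A) ℓ (HahnSeries.C (IsLocalRing.residue A e) * s) =
      qExpand (kA A) ℓ (red A U₁ / red A U₂) := by
    rw [map_mul, qExpand_C]
    exact hrel
  have hs : HahnSeries.C (IsLocalRing.residue A e) * s = red A U₁ / red A U₂ :=
    qExpand_injective ℓ hrel'
  exact ⟨IsLocalRing.residue A e, hres0, by rw [hs]; exact hr₀⟩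

/-- converse of `isRedInf_beta`, up to a nonzero constant. -/
theorem isRedInf_of_beta {f : FF N} {p : ℕ} (hp0 : p ≠ 0) (hA : (p : Kbar) ∈ A.nonunits)
    {s : LaurentSeries (kA A)}
    (hr : IsRedInf (N * ℓ) A (heckeBetaBar Kbar N ℓ f) (qExpand (kA A) ℓ s)) :
    ∃ c : kA A, c ≠ 0 ∧ IsRedInf N A f (HahnSeries.C c * s) :=
  isRedInf_of_qExpand (coe_heckeBetaBar N ℓ f) hp0 hA hr

end Fermat.Agent.Ribet.H223.M6a

end
end
-- ===== PACK-END Ribet/H223/HeckeGaussRed.lean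

-- ===== PACK-BEGIN S59/LoSqC/H193/LabelSurj.lean
section




/-!
# S59 / cell (C) LO-SQ, leaf LAB (helper193), part 7: LAB1-SURJ in E-form FROM THE COUNT

Setting of `LabelMap.lean`: `TwoCtx E w q x m ζ V₁ V₂` (level `M q`, two sheets), `Σ` the finite
set of ALL the nodes of the finite chart.

* `splitDiv E w x m V₁ V₂ : Subgroup Fˣ` : the split functions with purity data AND `m ∣ div`
  (the normalised `E`-rational Kummer generators of the toric classes);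
* `exists_labels_of_card_le` (Mathlib only) : a label homomorphism `lab : G → (ι → ZMod m)` with
  "constant labels ⟹ `P`" and `m ^ (#ι - 1) ≤ #(G ⧸ P)` is ONTO modulo constants;
* `TwoCtx.exists_const` : the constant label vectors are labels of `m`-th powers
  (weak approximation for the two sheets);
* `Lab1SurjAt` : the consumer shape (VERBATIM the body of `H630.Lab1SurjE` of helper630's toric
  wall `toricWall630`);
* `lab1SurjAt_of_surj` : "labels onto modulo constants on `splitDiv`" ⟹ `Lab1SurjAt`;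
* **`lab1SurjAt_of_card`** : `m ^ (#Σ - 1) ≤ #(splitDiv ⧸ m-th powers)` ⟹ `Lab1SurjAt`.

So the ONLY input of LAB1-SURJ (E-form) from the count is the lower bound
`m ^ (#Σ - 1) ≤ #(splitDiv ⧸ m-th powers)` (`= #` toric part of `J₀(M q)[m]`, by DESC).
Together with `card_splitPure_le` the count is an equality.
-/

set_option autoImplicit false
set_option linter.unusedSectionVars false
set_option linter.unusedVariables false
set_option linter.style.haveILetI false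

namespace Fermat.Agent.S59.LoSqC.H193

open Fermat.Agent.S36.H630
open Fermat.Agent.S18.H138 (chart)
open Fermat.Agent.A2.H12 (IsSheet)
open Fermat.Agent.A2 (DivisibleDiv)
open Polynomial

universe u

section Abstract

/-- **The abstract surjectivity.**  If "constant labels ⟹ `P`" and the quotient `G ⧸ P` has at
least `m ^ (#ι - 1)` elements, then every vector is a label vector up to a constant. -/
theorem exists_labels_of_card_le {G : Type*} [CommGroup G] (P : Subgroup G) {ι : Type*}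
    [Fintype ι] (m : ℕ) [NeZero m] (lab : G →* Multiplicative (ι → ZMod m))
    (h : ∀ g : G, (∃ c : ZMod m, ∀ i, Multiplicative.toAdd (lab g) i = c) → g ∈ P)
    (hcard : m ^ (Fintype.card ι - 1) ≤ Nat.card (G ⧸ P)) (t : ι → ZMod m) :
    ∃ (g : G) (c₀ : ZMod m), ∀ i, Multiplicative.toAdd (lab g) i = t i + c₀ := by
  classical
  rcases isEmpty_or_nonempty ι with hι | ⟨⟨i₀⟩⟩
  · exact ⟨1, 0, fun i => (hι.false i).elim⟩
  · let ι' := {i : ι // i ≠ i₀}
    let φ : G →* Multiplicative (ι' → ZMod m) :=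
      { toFun := fun g => Multiplicative.ofAdd
          (fun i : ι' => Multiplicative.toAdd (lab g) i.1 - Multiplicative.toAdd (lab g) i₀)
        map_one' := by
          apply congrArg Multiplicative.ofAdd
          funext i
          simp
        map_mul' := by
          intro a b
          rw [← ofAdd_add]
          apply congrArg Multiplicative.ofAdd
          funext i
          simp only [map_mul, toAdd_mul, Pi.add_apply]
          ring }
    have hker : φ.ker ≤ P := by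
      intro g hg
      rw [MonoidHom.mem_ker] at hg
      refine h g ⟨Multiplicative.toAdd (lab g) i₀, fun i => ?_⟩
      by_cases hi : i = i₀
      · rw [hi]
      · have h1 := congrFun (congrArg Multiplicative.toAdd hg) ⟨i, hi⟩
        simp only [φ, MonoidHom.coe_mk, OneHom.coe_mk, toAdd_ofAdd, toAdd_one,
          Pi.zero_apply] at h1
        exact sub_eq_zero.1 h1
    have hinj : Function.Injective (QuotientGroup.kerLift φ) := QuotientGroup.kerLift_injective φ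
    haveI : Finite (Multiplicative (ι' → ZMod m)) := inferInstance
    haveI : Finite (G ⧸ φ.ker) := Finite.of_injective _ hinj
    have h2 : Nat.card (Multiplicative (ι' → ZMod m)) = m ^ (Fintype.card ι - 1) := by
      rw [Nat.card_eq_fintype_card]
      have : Fintype.card (Multiplicative (ι' → ZMod m)) = Fintype.card (ι' → ZMod m) :=
        Fintype.card_congr Multiplicative.toAdd
      have hc : Fintype.card ι' = Fintype.card ι - 1 := by
        show Fintype.card {i : ι // i ≠ i₀} = Fintype.card ι - 1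
        rw [Fintype.card_subtype_compl (fun i => i = i₀)]
        simp
      rw [this, Fintype.card_fun, ZMod.card, hc]
    have hsurj : Function.Surjective (QuotientGroup.map φ.ker P (MonoidHom.id G) hker) := by
      intro y
      obtain ⟨g, rfl⟩ := QuotientGroup.mk_surjective y
      exact ⟨QuotientGroup.mk g, rfl⟩
    have h3 : Nat.card (G ⧸ P) ≤ Nat.card (G ⧸ φ.ker) :=
      Nat.card_le_card_of_surjective _ hsurj
    have hle : Nat.card (Multiplicative (ι' → ZMod m)) ≤ Nat.card (G ⧸ φ.ker) := by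
      rw [h2]
      exact hcard.trans h3
    have hbij : Function.Bijective (QuotientGroup.kerLift φ) :=
      hinj.bijective_of_nat_card_le hle
    obtain ⟨y, hy⟩ := hbij.2 (Multiplicative.ofAdd fun i : ι' => t i.1 - t i₀)
    obtain ⟨g, rfl⟩ := QuotientGroup.mk_surjective y
    have hy' : φ g = Multiplicative.ofAdd fun i : ι' => t i.1 - t i₀ := hy
    refine ⟨g, Multiplicative.toAdd (lab g) i₀ - t i₀, fun i => ?_⟩
    by_cases hi : i = i₀
    · rw [hi]
      ring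
    · have h1 := congrFun (congrArg Multiplicative.toAdd hy') ⟨i, hi⟩
      simp only [φ, MonoidHom.coe_mk, OneHom.coe_mk, toAdd_ofAdd] at h1
      have h4 : Multiplicative.toAdd (lab g) i =
          (Multiplicative.toAdd (lab g) i - Multiplicative.toAdd (lab g) i₀) +
            Multiplicative.toAdd (lab g) i₀ := by ring
      rw [h4, h1]
      ring

end Abstract

section Div

variable (E : Type*) [Field E] {F : Type*} [Field F] [Algebra E F]

theorem divisibleDiv_one193 (m : ℕ) : DivisibleDiv E m (1 : F) := by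
  intro V _ _
  exact ⟨1, 1, one_ne_zero, V.one_mem, by rw [inv_one]; exact V.one_mem, by simp⟩

theorem divisibleDiv_mul193 {m : ℕ} {f g : F} (hf : DivisibleDiv E m f)
    (hg : DivisibleDiv E m g) : DivisibleDiv E m (f * g) := by
  intro V hV hE
  obtain ⟨h₁, u₁, hh₁, hu₁, hu₁', rfl⟩ := hf V hV hE
  obtain ⟨h₂, u₂, hh₂, hu₂, hu₂', rfl⟩ := hg V hV hE
  refine ⟨h₁ * h₂, u₁ * u₂, mul_ne_zero hh₁ hh₂, V.mul_mem _ _ hu₁ hu₂, ?_, ?_⟩
  · rw [mul_inv]
    exact V.mul_mem _ _ hu₁' hu₂'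
  · ring

theorem divisibleDiv_inv193 {m : ℕ} {f : F} (hf : DivisibleDiv E m f) :
    DivisibleDiv E m f⁻¹ := by
  intro V hV hE
  obtain ⟨h₁, u₁, hh₁, hu₁, hu₁', rfl⟩ := hf V hV hE
  refine ⟨h₁⁻¹, u₁⁻¹, inv_ne_zero hh₁, hu₁', ?_, ?_⟩
  · rw [inv_inv]
    exact hu₁
  · rw [mul_inv, inv_pow]

theorem divisibleDiv_pow_self193 (m : ℕ) {g : F} (hg : g ≠ 0) : DivisibleDiv E m (g ^ m) := by
  intro V _ _
  exact ⟨g, 1, hg, V.one_mem, by rw [inv_one]; exact V.one_mem, by simp⟩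

end Div

section Pow

variable {F : Type*} [Field F]

/-- `h ≡ a` with `a ^ m = 1` gives `h ^ m ≡ 1`. -/
theorem pow_sub_one_mem193 (V : ValuationSubring F) {h a : F} (ha : a ∈ V)
    (hha : h - a ∈ V.nonunits) {m : ℕ} (ham : a ^ m = 1) : h ^ m - 1 ∈ V.nonunits := by
  have hh : h ∈ V := by
    have : h = (h - a) + a := by ring
    rw [this]
    exact V.add_mem _ _ (vnu_mem V hha) ha
  have hsum : (∑ i ∈ Finset.range m, h ^ i * a ^ (m - 1 - i)) ∈ V := by
    apply sum_mem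
    intro i _
    exact V.mul_mem _ _ (pow_mem hh i) (pow_mem ha _)
  have e : h ^ m - 1 = (∑ i ∈ Finset.range m, h ^ i * a ^ (m - 1 - i)) * (h - a) := by
    rw [geom_sum₂_mul, ham]
  rw [e]
  exact vnu_mul_left V hha hsum

end Pow

section Two

variable {R : Type u} [CommRing R] [IsDomain R] [IsDiscreteValuationRing R]
  [HenselianLocalRing R] [IsAlgClosed (IsLocalRing.ResidueField R)] [IsIntegrallyClosed R[X]]
variable (E : Type u) [Field E] [CharZero E] [Algebra R E] [IsFractionRing R E]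
variable {F : Type u} [Field F] [Algebra E F] [Algebra R F] [IsScalarTower R E F]
variable {w : R} {q : ℕ} {x : F} {m : ℕ} {ζ : R} {V₁ V₂ : ValuationSubring F}

/-- **The normalised `E`-rational Kummer generators of the toric classes**: split, with purity
data, and `m ∣ div`. -/
def splitDiv (w : R) (x : F) (m : ℕ) (V₁ V₂ : ValuationSubring F) : Subgroup Fˣ where
  carrier := {u | IsSplitPure w x m V₁ V₂ (u : F) ∧ DivisibleDiv E m (u : F)}
  one_mem' := by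
    show IsSplitPure w x m V₁ V₂ ((1 : Fˣ) : F) ∧ DivisibleDiv E m ((1 : Fˣ) : F)
    rw [Units.val_one]
    exact ⟨IsSplitPure.one w x m V₁ V₂, divisibleDiv_one193 E m⟩
  mul_mem' := by
    intro a b ha hb
    show IsSplitPure w x m V₁ V₂ ((a * b : Fˣ) : F) ∧ DivisibleDiv E m ((a * b : Fˣ) : F)
    rw [Units.val_mul]
    exact ⟨IsSplitPure.mul ha.1 hb.1, divisibleDiv_mul193 E ha.2 hb.2⟩
  inv_mem' := by
    intro a ha
    show IsSplitPure w x m V₁ V₂ ((a⁻¹ : Fˣ) : F) ∧ DivisibleDiv E m ((a⁻¹ : Fˣ) : F)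
    rw [Units.val_inv_eq_inv_val]
    exact ⟨IsSplitPure.inv ha.1, divisibleDiv_inv193 E ha.2⟩

theorem mem_splitDiv {u : Fˣ} :
    u ∈ splitDiv E w x m V₁ V₂ ↔ IsSplitPure w x m V₁ V₂ (u : F) ∧ DivisibleDiv E m (u : F) :=
  Iff.rfl

theorem splitDiv_le : splitDiv E w x m V₁ V₂ ≤ splitPure w x m V₁ V₂ := fun _ hu => hu.1

/-- A global `m`-th power `h ^ m` with `h ≡ ζ ^ a` on `V₁` and `h ≡ ζ ^ a'` on `V₂` is split with
purity data. -/
theorem isSplitPure_pow {h : F} (hh : h ≠ 0) (hm : 0 < m) (hζ : ζ ^ m = 1)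
    (hR₁ : ∀ r : R, algebraMap R F r ∈ V₁) (hR₂ : ∀ r : R, algebraMap R F r ∈ V₂) {a a' : ℕ}
    (h₁ : h - algebraMap R F (ζ ^ a) ∈ V₁.nonunits)
    (h₂ : h - algebraMap R F (ζ ^ a') ∈ V₂.nonunits) :
    IsSplitPure w x m V₁ V₂ (h ^ m) := by
  have e : ∀ k : ℕ, (algebraMap R F (ζ ^ k)) ^ m = 1 := by
    intro k
    rw [← map_pow, ← pow_mul, mul_comm, pow_mul, hζ, one_pow, map_one]
  refine ⟨pow_sub_one_mem193 V₁ (hR₁ _) h₁ (e a), pow_sub_one_mem193 V₂ (hR₂ _) h₂ (e a'), ?_, ?_⟩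
  · intro 𝔫 h𝔫
    exact ⟨h⁻¹, IsPureAt.of_pow h𝔫.1.ne_top m hh⟩
  · intro 𝔫 h𝔫
    exact ⟨h⁻¹, IsPureAt.of_pow h𝔫.1.ne_top m hh⟩

include E in
/-- **The constant label vectors are labels of `m`-th powers.** -/
theorem TwoCtx.exists_const (ctx : TwoCtx E w q x m ζ V₁ V₂) (hinc₁ : ¬ V₁ ≤ V₂)
    (hinc₂ : ¬ V₂ ≤ V₁) (k : ℕ) :
    ∃ u : Fˣ, u ∈ splitDiv E w x m V₁ V₂ ∧
      ∀ 𝔫 : Ideal (chart R ({x} : Set F)), IsNodePt w (chart R ({x} : Set F)) V₁ V₂ 𝔫 →
        IsLabelAt (chart R ({x} : Set F)) 𝔫 V₁ V₂ m ζ (u : F) k := by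
  have hb : algebraMap R F (ζ ^ k) - 1 ∈ V₁ := sub_mem (ctx.hR₁ _) V₁.one_mem
  obtain ⟨g, -, hg₁, hg₂⟩ := Fermat.Agent.S35.H253.exists_approx hinc₁ hinc₂ hb
  have h₁ : (1 + g) - algebraMap R F (ζ ^ k) ∈ V₁.nonunits := by
    have e : (1 + g) - algebraMap R F (ζ ^ k) = g - (algebraMap R F (ζ ^ k) - 1) := by ring
    rw [e]
    exact hg₁
  have h₂ : (1 + g) - algebraMap R F (ζ ^ 0) ∈ V₂.nonunits := by
    have e : (1 + g) - algebraMap R F (ζ ^ 0) = g := by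
      rw [pow_zero, map_one]
      ring
    rw [e]
    exact hg₂
  have hh : (1 + g) ≠ 0 := by
    intro h0
    rw [h0, zero_sub, pow_zero, map_one] at h₂
    exact vnu_one_not V₂ (by simpa using vnu_neg V₂ h₂)
  have hpow0 : (1 + g) ^ m ≠ 0 := pow_ne_zero _ hh
  refine ⟨Units.mk0 ((1 + g) ^ m) hpow0, ⟨?_, ?_⟩, ?_⟩
  · show IsSplitPure w x m V₁ V₂ ((1 + g) ^ m)
    exact isSplitPure_pow hh ctx.hm ctx.hζ.pow_eq_one ctx.hR₁ ctx.hR₂ h₁ h₂
  · show DivisibleDiv E m ((1 + g) ^ m)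
    exact divisibleDiv_pow_self193 E m hh
  · intro 𝔫 h𝔫
    haveI := h𝔫.1.1
    haveI : 𝔫.IsPrime := h𝔫.1.1.isPrime
    show IsLabelAt (chart R ({x} : Set F)) 𝔫 V₁ V₂ m ζ ((1 + g) ^ m) k
    exact IsLabelAt.of_pow (ctx.chartLe₁ E) h𝔫.2.1 (ctx.chartLe₂ E) h𝔫.2.2 ctx.hm
      ctx.hζ.pow_eq_one hh h₁ h₂ (by rw [add_zero])

/-- **The consumer shape of LAB1-SURJ, E-form** (VERBATIM the body of helper630's
`H630.Lab1SurjE`, the only input of the toric wall `toricWall630` from level `M q`). -/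
def Lab1SurjAt (E : Type*) [Field E] {R : Type*} [CommRing R] {F' : Type*} [Field F']
    [Algebra R F'] [Algebra E F'] (w : R) (x' : F') (V₁' V₂' : ValuationSubring F') (m : ℕ)
    (ζ : R) : Prop :=
  ∀ lam : Ideal (chart R ({x'} : Set F')) → ℕ,
    ∃ g : F', g ≠ 0 ∧ DivisibleDiv E m g ∧ g - 1 ∈ V₁'.nonunits ∧ g - 1 ∈ V₂'.nonunits ∧
      ∀ n' : Ideal (chart R ({x'} : Set F')), n'.IsMaximal →
        algebraMap R (chart R ({x'} : Set F')) w ∈ n' →
        PassThrough (chart R ({x'} : Set F')) n' V₁' →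
        PassThrough (chart R ({x'} : Set F')) n' V₂' →
        ∃ κ' : ValuationSubring F' → ℕ, ζ ^ κ' V₁' = ζ ^ lam n' ∧ ζ ^ κ' V₂' = 1 ∧
          LabelAt (chart R ({x'} : Set F')) n' {V | V = V₁' ∨ V = V₂'} m g ζ κ'

section Map

variable (Sg : Finset (Ideal (chart R ({x} : Set F))))

include E in
/-- From a label of `u` for the pair `(V₁, V₂)` to the label datum of the colouring
`(V₁ ↦ c, V₂ ↦ 0)`. -/
theorem TwoCtx.labelAt_of_isLabelAt (ctx : TwoCtx E w q x m ζ V₁ V₂) {u : F}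
    (hu : IsSplitPure w x m V₁ V₂ u) {𝔫 : Ideal (chart R ({x} : Set F))}
    (h𝔫 : IsNodePt w (chart R ({x} : Set F)) V₁ V₂ 𝔫) {c : ℕ}
    (hc : IsLabelAt (chart R ({x} : Set F)) 𝔫 V₁ V₂ m ζ u c) :
    ∃ κ' : ValuationSubring F → ℕ, ζ ^ κ' V₁ = ζ ^ c ∧ ζ ^ κ' V₂ = 1 ∧
      LabelAt (chart R ({x} : Set F)) 𝔫 {V | V = V₁ ∨ V = V₂} m u ζ κ' := by
  classical
  haveI := h𝔫.1.1
  have hne : V₂ ≠ V₁ := fun h => ctx.hne h.symm
  refine ⟨fun V => if V = V₁ then c else 0, ?_, ?_, ?_⟩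
  · show ζ ^ (if V₁ = V₁ then c else 0) = ζ ^ c
    rw [if_pos rfl]
  · show ζ ^ (if V₂ = V₁ then c else 0) = 1
    rw [if_neg hne, pow_zero]
  refine labelAt_of_pairwise ctx.hm (fun z hz => chart_root_mem' ctx.hm hz)
    (rat_of_mem w ctx.hw x 𝔫 h𝔫.1.1 h𝔫.1.2) ?_ ctx.hζ.pow_eq_one _
    (show V₁ ∈ {V | V = V₁ ∨ V = V₂} from Or.inl rfl) h𝔫.2.1 ?_
  · rintro V (rfl | rfl)
    · exact ctx.chartLe₁ E
    · exact ctx.chartLe₂ E
  · rintro W (rfl | rfl) hW
    · obtain ⟨d, hd⟩ := hu.2.2.1 𝔫 h𝔫.1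
      refine ⟨0, isLabelAt_self ctx.hm (rat_of_mem w ctx.hw x 𝔫 h𝔫.1.1 h𝔫.1.2)
        (ctx.chartLe₁ E) h𝔫.2.1 ctx.hnf₁ hu.1 hd, ?_⟩
      rw [zero_add]
    · refine ⟨c, hc, ?_⟩
      show c + (if W = V₁ then c else 0) ≡ (if V₁ = V₁ then c else 0) [MOD m]
      rw [if_neg hne, if_pos rfl, add_zero]

include E in
/-- **LAB1-SURJ (E-form) from surjectivity modulo constants.** -/
theorem lab1SurjAt_of_surj (ctx : TwoCtx E w q x m ζ V₁ V₂) (hinc₁ : ¬ V₁ ≤ V₂)
    (hinc₂ : ¬ V₂ ≤ V₁)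
    (hSg : ∀ 𝔫 ∈ Sg, IsNodePt w (chart R ({x} : Set F)) V₁ V₂ 𝔫)
    (hall : ∀ 𝔫, IsNodePt w (chart R ({x} : Set F)) V₁ V₂ 𝔫 → 𝔫 ∈ Sg)
    (hsurj : ∀ t : Sg → ZMod m, ∃ (u : splitPure w x m V₁ V₂) (c₀ : ZMod m),
      (u : Fˣ) ∈ splitDiv E w x m V₁ V₂ ∧ ∀ 𝔫 : Sg, labFun E Sg ctx hSg u 𝔫 = t 𝔫 + c₀) :
    Lab1SurjAt E w x V₁ V₂ m ζ := by
  haveI : NeZero m := ⟨ctx.hm.ne'⟩
  intro lam
  obtain ⟨u, c₀, huD, hu⟩ := hsurj (fun 𝔫 => (lam 𝔫.1 : ZMod m))
  obtain ⟨u₀, hu₀, hlab₀⟩ := ctx.exists_const E hinc₁ hinc₂ (-c₀).val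
  have hprod : IsSplitPure w x m V₁ V₂ (((u : Fˣ) : F) * (u₀ : F)) := IsSplitPure.mul u.2 hu₀.1
  refine ⟨((u : Fˣ) : F) * (u₀ : F), mul_ne_zero (Units.ne_zero _) (Units.ne_zero _),
    divisibleDiv_mul193 E huD.2 hu₀.2, hprod.1, hprod.2.1, ?_⟩
  intro 𝔫 h1 h2 h3 h4
  have h𝔫 : IsNodePt w (chart R ({x} : Set F)) V₁ V₂ 𝔫 := ⟨⟨h1, h2⟩, h3, h4⟩
  have hmem : 𝔫 ∈ Sg := hall 𝔫 h𝔫
  haveI : 𝔫.IsPrime := h1.isPrime
  -- the label of `u`
  have hl : IsLabelAt (chart R ({x} : Set F)) 𝔫 V₁ V₂ m ζ ((u : Fˣ) : F)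
      (labFun E Sg ctx hSg u ⟨𝔫, hmem⟩).val :=
    (labFun_spec E Sg ctx hSg u ⟨𝔫, hmem⟩ _).2 (by rw [ZMod.natCast_zmod_val])
  have hl₀ := hlab₀ 𝔫 h𝔫
  have hmul := hl.mul (ctx.chartLe₁ E) h3 (ctx.chartLe₂ E) h4 hl₀
  have hcongr : IsLabelAt (chart R ({x} : Set F)) 𝔫 V₁ V₂ m ζ (((u : Fˣ) : F) * (u₀ : F))
      (lam 𝔫) := by
    refine hmul.congr ctx.hζ.pow_eq_one ?_
    rw [← ZMod.natCast_eq_natCast_iff]
    push_cast
    rw [ZMod.natCast_zmod_val, ZMod.natCast_zmod_val, hu ⟨𝔫, hmem⟩]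
    ring
  exact ctx.labelAt_of_isLabelAt E hprod h𝔫 hcongr

include E in
/-- **LAB1-SURJ (E-form) FROM THE COUNT**: if the normalised `E`-rational Kummer generators of
the toric classes, modulo `m`-th powers, are at least `m ^ (#Σ - 1)`, then every label vector is
realised. -/
theorem lab1SurjAt_of_card (ctx : TwoCtx E w q x m ζ V₁ V₂) (hinc₁ : ¬ V₁ ≤ V₂)
    (hinc₂ : ¬ V₂ ≤ V₁)
    (hSg : ∀ 𝔫 ∈ Sg, IsNodePt w (chart R ({x} : Set F)) V₁ V₂ 𝔫)
    (hall : ∀ 𝔫, IsNodePt w (chart R ({x} : Set F)) V₁ V₂ 𝔫 → 𝔫 ∈ Sg)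
    (hcard : m ^ (Sg.card - 1) ≤
      Nat.card (splitDiv E w x m V₁ V₂ ⧸ (powSubgroup F m).subgroupOf (splitDiv E w x m V₁ V₂))) :
    Lab1SurjAt E w x V₁ V₂ m ζ := by
  haveI : NeZero m := ⟨ctx.hm.ne'⟩
  refine lab1SurjAt_of_surj E Sg ctx hinc₁ hinc₂ hSg hall (fun t => ?_)
  have hcard' : m ^ (Fintype.card Sg - 1) ≤
      Nat.card (splitDiv E w x m V₁ V₂ ⧸
        (powSubgroup F m).subgroupOf (splitDiv E w x m V₁ V₂)) := by
    rwa [Fintype.card_coe]
  obtain ⟨g, c₀, hg⟩ := exists_labels_of_card_le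
    ((powSubgroup F m).subgroupOf (splitDiv E w x m V₁ V₂)) m
    ((labHom E Sg ctx hSg).comp (Subgroup.inclusion (splitDiv_le E)))
    (by
      rintro u ⟨c, hc⟩
      rw [Subgroup.mem_subgroupOf]
      exact mem_powSubgroup_of_labFun_const E Sg ctx hSg hall
        (Subgroup.inclusion (splitDiv_le E) u) c hc)
    hcard' t
  exact ⟨Subgroup.inclusion (splitDiv_le E) g, c₀, g.2, hg⟩

end Map

end Two

end Fermat.Agent.S59.LoSqC.H193

end
-- ===== PACK-END S59/LoSqC/H193/LabelSurj.lean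

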