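import Fermat.Agent.Pack.S43GC.G0E15L3
import Fermat.Agent.Pack.S43MC.G0E27L2
import Fermat.Agent.Pack.S43MC.G0E20L3
import Fermat.Agent.Pack.S59C.E5L2
import Fermat.Agent.Pack.S59C.E10L0
import Fermat.Agent.Pack.S59C.E3L2
import Fermat.Agent.Pack.S59C.E6L1
import Fermat.Agent.Pack.S59C.E6L0
import Fermat.Agent.Pack.S59C.E10L2
import Fermat.Agent.Pack.S43MC.G0E4L0
import Fermat.Agent.Pack.S43GC.G0E2L0
import Fermat.Agent.Pack.S43GC.G0E20L3
import Fermat.Agent.Pack.S43GC.G0E7L0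
import Fermat.Agent.Pack.S59C.E4L2
import Fermat.Agent.Pack.S59C.E2L3
import Fermat.Agent.Pack.S43GC.G0E7L1
import Fermat.Agent.Pack.S43GC.G0E19L2
import Fermat.Agent.Pack.S59C.E6L2
import Fermat.Agent.Pack.S59C.E8L0
import Fermat.Agent.Pack.S59C.E1L2
import Fermat.Agent.Pack.S59C.E0L1
import Fermat.Agent.Pack.S59C.E3L3
import Fermat.Agent.Pack.S43MC.G0E18L3
import Fermat.Agent.Pack.S43MC.G0E17L1
import Fermat.Agent.Pack.S59C.E10L1
import Fermat.Agent.Pack.S59C.E9L0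
import Fermat.Agent.Pack.S43MC.G0E24L0
import Fermat.Agent.Pack.S44C.G0E20L2
import Fermat.Agent.Pack.S44C.G0E28L2
import Fermat.Agent.Pack.S59C.E2L1
import Fermat.Agent.Pack.S44C.G0E4L1
import Fermat.Agent.Pack.S44C.G0E13L3
import Fermat.Agent.Pack.S44C.G0E13L1
import Fermat.Agent.Pack.S44C.G0E12L1
import Fermat.Agent.Pack.S44C.G0E21L3
import Fermat.Agent.Pack.S44C.G0E24L0
import Fermat.Agent.Pack.S43MC.G0E22L1
import Fermat.Agent.Pack.S44C.G0E28L0
import Fermat.Agent.Pack.S59C.E1L1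
import Fermat.Agent.Pack.S44C.G0E24L1
import Fermat.Agent.Pack.S44C.G0E7L1
import Fermat.Agent.Pack.S44C.G0E23L2

set_option linter.all false

-- ===== PACK-BEGIN S59/TW/Aut/H186/AuxPrimePkg.lean
section





/-!
# Row S59, cell TW, layer 3 (AUT), leaf FREE: the auxiliary primes, package form (helper186)

For a Hecke package `P : HeckePkg p 𝒪 ρ̄ t Smin Σ` under `ResidualHyp` and a finite set `S'`:

* `resFrobCond_pkg_h186`  : `G4.ResFrobCond ρ̄ P.θ` (leaf RFD at the package);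
* `exists_nonEis_pkg_h186` / `exists_nonEis_tset_h186` (case (A)): a prime `ℓ ∉ S'`, good for `P`,
  `ℓ ≡ 1 mod m` (any `m ≥ 1`) and `mod p`, with `θ(T_ℓ) ≠ ℓ + 1`; in `TsetOf` form:
  `(ℓ, c) ∈ TsetOf P` with `c - (ℓ + 1)` a unit of `𝒪` (wrapper of `H424.nePrimeK_h424`);
* `exists_aux3_pkg_h186` / `exists_aux3_tset_h186` (case (B), `p = 3`): a prime `r ∉ S'`, good for
  `P`, `r ≡ 2 mod 3`, with `θ(T_r) ≠ 0`; in `TsetOf` form: `(r, c) ∈ TsetOf P` with `c` a unit.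
-/

set_option autoImplicit false

open Polynomial IsLocalRing

namespace Fermat.Agent.S59.TW.Aut.H186

open Fermat.Agent.S59.Arch Fermat.Agent.S59.TW.H959 Fermat.Agent.S59.TW.Aut

section Pkg

variable {p : ℕ} [Fact p.Prime]
  {𝒪 : Type} [CommRing 𝒪] [IsDomain 𝒪] [IsDiscreteValuationRing 𝒪]
  [IsAdicComplete (maximalIdeal 𝒪) 𝒪]
  {ρbar : ResidualGaloisRep (ResidueField 𝒪)} {t : PType} {Smin Sig : Finset ℕ}
  [NeZero (wilesLevel p t Smin Sig)]

omit [Fact p.Prime] in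
/-- The residual character of a package is the Frobenius character of `ρ̄`. -/
theorem resFrobCond_pkg_h186 (P : HeckePkg p 𝒪 ρbar t Smin Sig) :
    G4.ResFrobCond ρbar P.θ :=
  Fermat.Agent.S59.H686.resFrobOfDatum (wilesLevel p t Smin Sig) (↑Sig : Set ℕ) 𝒪 ρbar P.θ
    P.T P.H P.hres

/-- The Frobenius traces of a package, as a function on `ℕ`. -/
noncomputable def aOf_h186 (P : HeckePkg p 𝒪 ρbar t Smin Sig) (ℓ : ℕ) : ResidueField 𝒪 :=
  open scoped Classical in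
  if h : ℓ.Prime ∧ ¬ ℓ ∣ wilesLevel p t Smin Sig ∧ ℓ ∉ (↑Sig : Set ℕ) then
    P.θ (CuspForm.heckeAlgebra.T h.1 h.2.1 h.2.2)
  else 0

omit [Fact p.Prime] in
theorem aOf_eq_h186 (P : HeckePkg p 𝒪 ρbar t Smin Sig) {ℓ : ℕ} (hℓ : ℓ.Prime)
    (hℓN : ¬ ℓ ∣ wilesLevel p t Smin Sig) (hℓS : ℓ ∉ (↑Sig : Set ℕ)) :
    aOf_h186 P ℓ = P.θ (CuspForm.heckeAlgebra.T hℓ hℓN hℓS) := by
  unfold aOf_h186
  rw [dif_pos ⟨hℓ, hℓN, hℓS⟩]

/-- The exceptional set of a package, enlarged by `S'`. -/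
noncomputable def excSet_h186 (p : ℕ) (t : PType) (Smin Sig S' : Finset ℕ) : Finset ℕ :=
  Sig ∪ (wilesLevel p t Smin Sig).primeFactors ∪ S'

omit [Fact p.Prime] in
theorem good_of_notMem_excSet_h186 {S' : Finset ℕ} {ℓ : ℕ} (hℓ : ℓ.Prime)
    (h : ℓ ∉ excSet_h186 p t Smin Sig S') :
    ¬ ℓ ∣ wilesLevel p t Smin Sig ∧ ℓ ∉ (↑Sig : Set ℕ) ∧ ℓ ∉ S' := by
  unfold excSet_h186 at h
  simp only [Finset.mem_union, not_or] at h
  obtain ⟨⟨h1, h2⟩, h3⟩ := h
  refine ⟨fun hd => h2 (Nat.mem_primeFactors.mpr ⟨hℓ, hd, NeZero.ne _⟩), ?_, h3⟩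
  exact fun hs => h1 (Finset.mem_coe.mp hs)

omit [Fact p.Prime] in
theorem charpoly_aOf_h186 (P : HeckePkg p 𝒪 ρbar t Smin Sig) (S' : Finset ℕ) :
    ∀ (l : ℕ), l.Prime → l ∉ excSet_h186 p t Smin Sig S' →
      ∀ B : ValuationSubring (AlgebraicClosure ℚ), B.LiesOverPrime l →
        ∀ σ : AlgebraicClosure ℚ ≃ₐ[ℚ] AlgebraicClosure ℚ, B.IsFrobeniusAt σ l →
          LinearMap.charpoly (ρbar.ρ σ) =
            X ^ 2 - C (aOf_h186 P l) * X + C ((l : ResidueField 𝒪)) := by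
  intro l hl hlS B hB σ hσ
  obtain ⟨hlN, hlSig, -⟩ := good_of_notMem_excSet_h186 hl hlS
  rw [aOf_eq_h186 P hl hlN hlSig]
  exact resFrobCond_pkg_h186 P l hl hlN hlSig B hB σ hσ

omit [IsAdicComplete (maximalIdeal 𝒪) 𝒪] in
theorem charP_residue_h186 (hp𝒪 : (p : 𝒪) ∈ maximalIdeal 𝒪) : CharP (ResidueField 𝒪) p := by
  have hp : p.Prime := Fact.out
  apply (CharP.charP_iff_prime_eq_zero hp).mpr
  have : residue 𝒪 (p : 𝒪) = 0 := (residue_eq_zero_iff _).mpr hp𝒪
  rwa [map_natCast] at this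

/-- **Case (A): a non-Eisenstein prime**, good for the package, outside `S'`, `≡ 1` modulo any
given `m ≥ 1` (and modulo `p`). -/
theorem exists_nonEis_pkg_h186 [Finite (ResidueField 𝒪)] (hRH : ResidualHyp p 𝒪 ρbar Smin)
    (hSig : Smin ⊆ Sig) (P : HeckePkg p 𝒪 ρbar t Smin Sig) (S' : Finset ℕ) (m : ℕ)
    (hm : 0 < m) :
    ∃ (ℓ : ℕ) (hℓ : ℓ.Prime) (hℓN : ¬ ℓ ∣ wilesLevel p t Smin Sig) (hℓS : ℓ ∉ (↑Sig : Set ℕ)),
      ℓ ∉ S' ∧ ℓ ≡ 1 [MOD m] ∧ ℓ ≡ 1 [MOD p] ∧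
      P.θ (CuspForm.heckeAlgebra.T hℓ hℓN hℓS) ≠ (ℓ : ResidueField 𝒪) + 1 := by
  have hp : p.Prime := Fact.out
  have hchar : CharP (ResidueField 𝒪) p := charP_residue_h186 hRH.hp𝒪
  obtain ⟨q, hq, hqp⟩ : ∃ q : ℕ, q.Prime ∧ q ≠ p := by
    by_cases h : p = 2
    · exact ⟨3, Nat.prime_three, by omega⟩
    · exact ⟨2, Nat.prime_two, fun h' => h h'.symm⟩
  have hpS : p ∈ excSet_h186 p t Smin Sig S' := by
    unfold excSet_h186
    exact Finset.mem_union_left _ (Finset.mem_union_left _ (hSig hRH.hpSmin))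
  obtain ⟨ℓ, hℓ, hℓS, -, hℓm, hℓp, hne, -⟩ :=
    Fermat.Agent.S59.H424.nePrimeK_h424 p hRH.hp2 (ResidueField 𝒪) ρbar hRH.habs hRH.hsplit
      (excSet_h186 p t Smin Sig S') hpS (aOf_h186 P) (charpoly_aOf_h186 P S') q hq hqp m
      hm ∅
  obtain ⟨hℓN, hℓSig, hℓS'⟩ := good_of_notMem_excSet_h186 hℓ hℓS
  refine ⟨ℓ, hℓ, hℓN, hℓSig, hℓS', hℓm, hℓp, ?_⟩
  rw [← aOf_eq_h186 P hℓ hℓN hℓSig]
  exact hne

/-- **Case (A), `TsetOf` form**: `(ℓ, c) ∈ TsetOf P`, `ℓ ∉ S'`, `ℓ ≡ 1 mod m`, `c - (ℓ + 1)` a unit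
of `𝒪`. -/
theorem exists_nonEis_tset_h186 [Finite (ResidueField 𝒪)] (hRH : ResidualHyp p 𝒪 ρbar Smin)
    (hSig : Smin ⊆ Sig) (P : HeckePkg p 𝒪 ρbar t Smin Sig) (S' : Finset ℕ) (m : ℕ)
    (hm : 0 < m) :
    ∃ (ℓ : ℕ) (c : 𝒪), (ℓ, c) ∈ TsetOf P ∧ ℓ.Prime ∧ ¬ ℓ ∣ wilesLevel p t Smin Sig ∧
      ℓ ∉ Sig ∧ ℓ ∉ S' ∧ ℓ ≡ 1 [MOD m] ∧ ℓ ≡ 1 [MOD p] ∧ IsUnit (c - ((ℓ : 𝒪) + 1)) := by
  obtain ⟨ℓ, hℓ, hℓN, hℓS, hℓS', hℓm, hℓp, hne⟩ := exists_nonEis_pkg_h186 hRH hSig P S' m hm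
  obtain ⟨c, hc⟩ := residue_surjective (P.θ (CuspForm.heckeAlgebra.T hℓ hℓN hℓS))
  refine ⟨ℓ, c, ⟨hℓ, hℓN, hℓS, hc⟩, hℓ, hℓN, fun h => hℓS (Finset.mem_coe.mpr h), hℓS', hℓm,
    hℓp, ?_⟩
  rw [← notMem_maximalIdeal, ← residue_eq_zero_iff, map_sub, map_add, map_natCast, map_one, hc,
    sub_eq_zero]
  exact hne

/-- **Case (B): the auxiliary prime at `p = 3`**, good for the package, outside `S'`. -/
theorem exists_aux3_pkg_h186 (hp3 : p = 3) (hRH : ResidualHyp p 𝒪 ρbar Smin)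
    (P : HeckePkg p 𝒪 ρbar t Smin Sig) (S' : Finset ℕ) :
    ∃ (r : ℕ) (hr : r.Prime) (hrN : ¬ r ∣ wilesLevel p t Smin Sig) (hrS : r ∉ (↑Sig : Set ℕ)),
      r ∉ S' ∧ r % 3 = 2 ∧ P.θ (CuspForm.heckeAlgebra.T hr hrN hrS) ≠ 0 := by
  have hchar : CharP (ResidueField 𝒪) 3 := by
    have := charP_residue_h186 (p := p) hRH.hp𝒪
    rwa [hp3] at this
  obtain ⟨r, hr, hrS, hr3, hne⟩ :=
    exists_prime_trace_ne_zero_h186 ρbar hRH.hTW (excSet_h186 p t Smin Sig S') (aOf_h186 P)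
      (charpoly_aOf_h186 P S')
  obtain ⟨hrN, hrSig, hrS'⟩ := good_of_notMem_excSet_h186 hr hrS
  refine ⟨r, hr, hrN, hrSig, hrS', hr3, ?_⟩
  rw [← aOf_eq_h186 P hr hrN hrSig]
  exact hne

/-- **Case (B), `TsetOf` form**: `(r, c) ∈ TsetOf P`, `r ∉ S'`, `r ≡ 2 mod 3`, `c` a unit. -/
theorem exists_aux3_tset_h186 (hp3 : p = 3) (hRH : ResidualHyp p 𝒪 ρbar Smin)
    (P : HeckePkg p 𝒪 ρbar t Smin Sig) (S' : Finset ℕ) :
    ∃ (r : ℕ) (c : 𝒪), (r, c) ∈ TsetOf P ∧ r.Prime ∧ ¬ r ∣ wilesLevel p t Smin Sig ∧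
      r ∉ Sig ∧ r ∉ S' ∧ r % 3 = 2 ∧ IsUnit c := by
  obtain ⟨r, hr, hrN, hrS, hrS', hr3, hne⟩ := exists_aux3_pkg_h186 hp3 hRH P S'
  obtain ⟨c, hc⟩ := residue_surjective (P.θ (CuspForm.heckeAlgebra.T hr hrN hrS))
  refine ⟨r, c, ⟨hr, hrN, hrS, hc⟩, hr, hrN, fun h => hrS (Finset.mem_coe.mpr h), hrS', hr3, ?_⟩
  rw [← notMem_maximalIdeal, ← residue_eq_zero_iff, hc]
  exact hne

end Pkg

end Fermat.Agent.S59.TW.Aut.H186


end
-- ===== PACK-END S59/TW/Aut/H186/AuxPrimePkg.lean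

-- ===== PACK-BEGIN S55/E1/H957/Alg8Final.lean
section
/-
S55 engine E1, block ALG (helper957, sub-architect ALG6–8): ALG6, ALG7, ALG7a, ALG8 unconditional.
`alg8 : ALG8Spec` from `H353.alg8_of`, `H114.alg5`, `H957.alg7`, `H660.alg7a` (all on main).
One import for the consumers of block ALG6–8.
-/




set_option autoImplicit false

namespace Fermat.Agent.S55.E1.H957

open Fermat.Agent.S55.E1

/-- **ALG6**, unconditional (helper304). -/
theorem alg6 : ALG6Spec := H304.alg6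

/-- **ALG7a**, unconditional (helper660). -/
theorem alg7a : ALG7aSpec := H660.alg7a

/-- **ALG8 (count)**, unconditional. -/
theorem alg8 : ALG8Spec := H353.alg8_of H114.alg5 alg7 alg7a

end Fermat.Agent.S55.E1.H957

end
-- ===== PACK-END S55/E1/H957/Alg8Final.lean

-- ===== PACK-BEGIN S55/E1/H957/Lim3Abs.lean
section
/-
S55 engine E1 (helper957): LIM3 in ABSTRACT one-step form — the consumer side of ALG8.

For a finite group `G`, `N`, `C` and local data `φ_i : D_i ↪ G`, `j_i : J_i → C`: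
* `locSub j = Σ_i j_i ∘ A(J_i) + res Bc(C) ≤ A(C)`, `TQ j = A(C) ⧸ locSub j` (the group `T_F`);
* `card_TQ` : `T` is finite and `|T| = |Ш¹_fin|` (from ALG8);
For a change of group `π : G' →* G`, `ν : N' ≅ res_π N`, `ι : res_π C ⟶ C'`, `ιJ_i : res_π J_i ⟶ J'_i`
with `ι ∘ j_i = j'_i ∘ ιJ_i` (GD7a):
* `trA_mem_locSub`, `trT : TQ j →+ TQ j'` (the transition map of the system `T`);
* `isLocTriv_inf` : inflation preserves local triviality;
* `trT_injective` : `tr` is injective on `T` if `inf_ι` is injective on `H²(G, C)[p]` (GD8).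
-/




set_option autoImplicit false
set_option linter.style.haveILetI false

open CategoryTheory

namespace Fermat.Agent.S55.E1.H957

open Fermat.Agent.S55.E1

noncomputable section

/-! ## The group `T` -/

section T

variable {G : Type} [Group G] {ι : Type} [Fintype ι] {N C : Rep.{0} ℤ G}
  {J : ι → Rep.{0} ℤ G}

/-- `Σ_i j_i ∘ A(J_i) + res Bc(C)` as a subgroup of `A(C) = Hom_G(R, C)`. -/
def locSub (j : ∀ i, J i ⟶ C) : AddSubgroup (homA N C) :=
  (resBA N C).range ⊔ ⨆ i, (H353.compJ (N := N) (j i)).range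

lemma mem_locSub (j : ∀ i, J i ⟶ C) (f : homA N C) : f ∈ locSub j ↔ IsLocSum j f :=
  (H353.isLocSum_iff j f).symm

/-- `T = A(C) ⧸ (Σ_i j_i ∘ A(J_i) + res Bc(C))`. -/
abbrev TQ (j : ∀ i, J i ⟶ C) : Type := homA N C ⧸ locSub (N := N) j

end T

/-! ## The count -/

section Count

variable {G : Type} [Group G] {ι : Type} [Fintype ι] {Dc : ι → Type} [∀ i, Group (Dc i)]

/-- The pairing restricted to `Ш¹_fin`: `f ↦ ⟨f, ·⟩|_Ш`. -/
def pairSha (φ : ∀ i, Dc i →* G) (N C : Rep.{0} ℤ G) :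
    homA N C →+ (shaFin φ N →+ groupCohomology C 2) where
  toFun f := (H353.pairHom N C f).comp (shaFin φ N).subtype
  map_zero' := by
    ext x
    simp
  map_add' f g := by
    ext x
    simp

omit [Fintype ι] in
lemma pairSha_apply (φ : ∀ i, Dc i →* G) (N C : Rep.{0} ℤ G) (f : homA N C)
    (x : shaFin φ N) : pairSha φ N C f x = pair f x.1 := rfl

/-- **`|T| = |Ш¹_fin|`** from the three conclusions of ALG8. -/
theorem card_TQ_of {p : ℕ} (hp : p.Prime) (φ : ∀ i, Dc i →* G) {N C : Rep.{0} ℤ G}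
    (hNp : ∀ n : N.V, p • n = 0)
    (X : ∀ i, Rep.{0} ℤ (Dc i)) (j : ∀ i, Rep.coind (φ i) (X i) ⟶ C)
    (ha : ∀ f : homA N C, (∀ x, IsLocTriv φ N x → pair f x = 0) ↔ IsLocSum j f)
    (hb : ∀ χ : groupCohomology N 1 →+ groupCohomology C 2,
      ∃ f : homA N C, ∀ x, IsLocTriv φ N x → pair f x = χ x)
    (hfin : Finite (shaFin φ N))
    (hcard : Nat.card (shaFin φ N →+ groupCohomology C 2) = Nat.card (shaFin φ N)) :
    Finite (TQ (N := N) j) ∧ Nat.card (TQ (N := N) j) = Nat.card (shaFin φ N) := by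
  have hV : ∀ x : groupCohomology N 1, p • x = 0 := nsmul_H1_eq_zero p hNp
  have hSha : ∀ x : shaFin φ N, p • x = 0 := fun x => Subtype.ext (hV x.1)
  -- surjectivity of `pairSha`
  have hsurj : Function.Surjective (pairSha φ N C) := by
    intro χ
    obtain ⟨χ', hχ'⟩ := exists_factor_of_ker_le p hp hSha hV (shaFin φ N).subtype χ (by
      intro x hx
      have : x = 0 := Subtype.ext hx
      rw [this, map_zero])
    obtain ⟨f, hf⟩ := hb χ'
    refine ⟨f, ?_⟩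
    ext x
    rw [pairSha_apply, hf x.1 x.2]
    exact hχ' x
  -- kernel of `pairSha`
  have hker : (pairSha φ N C).ker = locSub (N := N) j := by
    ext f
    rw [AddMonoidHom.mem_ker, mem_locSub, ← ha f]
    constructor
    · intro h x hx
      have := DFunLike.congr_fun h (⟨x, hx⟩ : shaFin φ N)
      exact this
    · intro h
      ext x
      exact h x.1 x.2
  have e1 : (homA N C ⧸ (pairSha φ N C).ker) ≃+ (shaFin φ N →+ groupCohomology C 2) :=
    QuotientAddGroup.quotientKerEquivOfSurjective _ hsurj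
  have e2 : TQ (N := N) j ≃+ (homA N C ⧸ (pairSha φ N C).ker) :=
    QuotientAddGroup.quotientAddEquivOfEq hker.symm
  have e := e2.trans e1
  have hfin' : Finite (shaFin φ N →+ groupCohomology C 2) := by
    apply Nat.finite_of_card_ne_zero
    rw [hcard]
    exact Nat.card_ne_zero.2 ⟨⟨0⟩, hfin⟩
  refine ⟨Finite.of_equiv _ e.symm.toEquiv, ?_⟩
  rw [Nat.card_congr e.toEquiv, hcard]

/-- **`|T| = |Ш¹_fin|`** (LIM3, first half), under the hypotheses of ALG8. -/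
theorem card_TQ (p : ℕ) (hp : p.Prime) (G : Type) [Group G] [Fintype G] (N C : Rep.{0} ℤ G)
    (γ : groupCohomology C 2) (hNfin : Finite N.V) (hNp : ∀ n : N.V, p • n = 0)
    (hC : IsClassModuleAt p C γ) (hT : TateNakayamaAtSpec)
    (H : Subgroup G) [H.Normal] [Fintype H] (hH : ∀ h ∈ H, ∀ n : N.V, N.ρ h n = n)
    (hnorm : NormInP p H C)
    (ι : Type) [Fintype ι] (Dc : ι → Type) [∀ i, Group (Dc i)] [∀ i, Finite (Dc i)]
    (φ : ∀ i, Dc i →* G) (hφ : ∀ i, Function.Injective (φ i))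
    (X : ∀ i, Rep.{0} ℤ (Dc i)) (γX : ∀ i, groupCohomology (X i) 2)
    (j : ∀ i, Rep.coind (φ i) (X i) ⟶ C)
    (hX : ∀ i, IsClassModuleAt p (X i) (γX i))
    (hj : ∀ i, ∀ y : groupCohomology (Rep.coind (φ i) (X i)) 2,
      p • y = 0 → (T.coeffMap (j i) 2).hom y = 0 → y = 0) :
    Finite (TQ (N := N) j) ∧ Nat.card (TQ (N := N) j) = Nat.card (shaFin φ N) := by
  obtain ⟨ha, hb, hfin, hcard⟩ :=
    alg8 p hp G N C γ hNfin hNp hC hT H hH hnorm ι Dc φ hφ X γX j hX hj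
  exact card_TQ_of hp φ hNp X j ha hb hfin hcard

end Count

/-! ## Transition maps -/

section Tr

variable {G G' : Type} [Group G] [Group G'] (π : G' →* G)
variable {N : Rep.{0} ℤ G} {N' : Rep.{0} ℤ G'} (ν : N' ⟶ Rep.res π N)
variable {C : Rep.{0} ℤ G} {C' : Rep.{0} ℤ G'} (ι₀ : Rep.res π C ⟶ C')
variable {ι : Type} [Fintype ι] {J : ι → Rep.{0} ℤ G} {J' : ι → Rep.{0} ℤ G'}
variable (j : ∀ i, J i ⟶ C) (j' : ∀ i, J' i ⟶ C') (ιJ : ∀ i, Rep.res π (J i) ⟶ J' i)

omit [Fintype ι] in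
/-- `tr (f ≫ j_i) = tr f ≫ j'_i` if `ι ∘ j_i = j'_i ∘ ιJ_i`. -/
lemma trA_comp (i : ι) (hsq : (Rep.resFunctor π).map (j i) ≫ ι₀ = ιJ i ≫ j' i)
    (f : homA N (J i)) : trA π ν ι₀ (f ≫ j i) = trA π ν (ιJ i) f ≫ j' i := by
  change trR π ν ≫ (Rep.resFunctor π).map (f ≫ j i) ≫ ι₀ =
    (trR π ν ≫ (Rep.resFunctor π).map f ≫ ιJ i) ≫ j' i
  rw [Functor.map_comp, Category.assoc, Category.assoc, Category.assoc, hsq]

/-- `tr` maps local sums to local sums. -/
lemma trA_isLocSum (hsq : ∀ i, (Rep.resFunctor π).map (j i) ≫ ι₀ = ιJ i ≫ j' i)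
    {f : homA N C} (hf : IsLocSum j f) : IsLocSum j' (trA π ν ι₀ f) := by
  obtain ⟨fJ, h, rfl⟩ := hf
  refine ⟨fun i => trA π ν (ιJ i) (fJ i), trB π ν ι₀ h, ?_⟩
  rw [map_add, map_sum, trA_resBA]
  congr 1
  exact Finset.sum_congr rfl (fun i _ => trA_comp π ν ι₀ j j' ιJ i (hsq i) (fJ i))

lemma trA_mem_locSub (hsq : ∀ i, (Rep.resFunctor π).map (j i) ≫ ι₀ = ιJ i ≫ j' i) :
    locSub (N := N) j ≤ (locSub (N := N') j').comap (trA π ν ι₀) := fun f hf =>
  (mem_locSub j' _).2 (trA_isLocSum π ν ι₀ j j' ιJ hsq ((mem_locSub j f).1 hf))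

/-- The transition map `tr : T → T'` induced by `f ↦ ι ∘ f ∘ ρ`. -/
def trT (hsq : ∀ i, (Rep.resFunctor π).map (j i) ≫ ι₀ = ιJ i ≫ j' i) :
    TQ (N := N) j →+ TQ (N := N') j' :=
  QuotientAddGroup.map _ _ (trA π ν ι₀) (trA_mem_locSub π ν ι₀ j j' ιJ hsq)

lemma trT_mk (hsq : ∀ i, (Rep.resFunctor π).map (j i) ≫ ι₀ = ιJ i ≫ j' i) (f : homA N C) :
    trT π ν ι₀ j j' ιJ hsq (QuotientAddGroup.mk f) = QuotientAddGroup.mk (trA π ν ι₀ f) := rfl

omit [Fintype ι] in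
/-- The compatibility square `ι ∘ j_i = j'_i ∘ ιJ_i` from its elementwise form (GD7a). -/
lemma sq_of_apply (i : ι)
    (h : ∀ x : (J i).V, ι₀.hom ((j i).hom x) = (j' i).hom ((ιJ i).hom x)) :
    (Rep.resFunctor π).map (j i) ≫ ι₀ = ιJ i ≫ j' i :=
  repHom_ext_tr (fun x => h x)

end Tr

/-! ## Functoriality of the transition maps -/

section TrTr

variable {G G' G'' : Type} [Group G] [Group G'] [Group G''] (π : G' →* G) (π' : G'' →* G')
variable {N : Rep.{0} ℤ G} {N' : Rep.{0} ℤ G'} {N'' : Rep.{0} ℤ G''}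
variable (ν : N' ⟶ Rep.res π N) (ν' : N'' ⟶ Rep.res π' N') (ν'' : N'' ⟶ Rep.res (π.comp π') N)
variable {C : Rep.{0} ℤ G} {C' : Rep.{0} ℤ G'} {C'' : Rep.{0} ℤ G''}
variable (ι₀ : Rep.res π C ⟶ C') (ι₀' : Rep.res π' C' ⟶ C'') (ι₀'' : Rep.res (π.comp π') C ⟶ C'')

/-- `tr ∘ tr = tr` on `A`. -/
lemma trA_trA (hν : ∀ n : N''.V, ν''.hom n = ν.hom (ν'.hom n))
    (hι : ∀ c : C.V, ι₀''.hom c = ι₀'.hom (ι₀.hom c)) (f : homA N C) :
    trA π' ν' ι₀' (trA π ν ι₀ f) = trA (π.comp π') ν'' ι₀'' f := by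
  apply repHom_ext_tr
  intro r
  rw [trA_hom_apply, trA_hom_apply, trA_hom_apply, hι,
    H793.trR_comp_apply π π' ν ν' ν'' hν r]

variable {ι : Type} [Fintype ι] {J : ι → Rep.{0} ℤ G} {J' : ι → Rep.{0} ℤ G'}
  {J'' : ι → Rep.{0} ℤ G''}
variable (j : ∀ i, J i ⟶ C) (j' : ∀ i, J' i ⟶ C') (j'' : ∀ i, J'' i ⟶ C'')
  (ιJ : ∀ i, Rep.res π (J i) ⟶ J' i) (ιJ' : ∀ i, Rep.res π' (J' i) ⟶ J'' i)
  (ιJ'' : ∀ i, Rep.res (π.comp π') (J i) ⟶ J'' i)

/-- `tr ∘ tr = tr` on `T`. -/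
theorem trT_trT (hν : ∀ n : N''.V, ν''.hom n = ν.hom (ν'.hom n))
    (hι : ∀ c : C.V, ι₀''.hom c = ι₀'.hom (ι₀.hom c))
    (hsq : ∀ i, (Rep.resFunctor π).map (j i) ≫ ι₀ = ιJ i ≫ j' i)
    (hsq' : ∀ i, (Rep.resFunctor π').map (j' i) ≫ ι₀' = ιJ' i ≫ j'' i)
    (hsq'' : ∀ i, (Rep.resFunctor (π.comp π')).map (j i) ≫ ι₀'' = ιJ'' i ≫ j'' i)
    (t : TQ (N := N) j) :
    trT π' ν' ι₀' j' j'' ιJ' hsq' (trT π ν ι₀ j j' ιJ hsq t) =
      trT (π.comp π') ν'' ι₀'' j j'' ιJ'' hsq'' t := by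
  induction t using QuotientAddGroup.induction_on with
  | H f =>
    rw [trT_mk, trT_mk, trT_mk, trA_trA π π' ν ν' ν'' ι₀ ι₀' ι₀'' hν hι f]

end TrTr

section InfGeneric

variable {k G G' D D' : Type} [CommRing k] [Group G] [Group G'] [Group D] [Group D']
  (π : G' →* G) {N : Rep.{0} k G} {N' : Rep.{0} k G'} (μ : Rep.res π N ⟶ N')
  (φ : D →* G) (φ' : D' →* G') (πD : D' →* D)

/-- `μ : res_π N ⟶ N'` as a morphism along `D' → D`. -/
def alongDec (hsq : ∀ d, φ (πD d) = π (φ' d)) :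
    Rep.res πD (Rep.res φ N) ⟶ Rep.res φ' N' :=
  Rep.ofHom (ρ := ((N.ρ.comp φ).comp πD)) (σ := (N'.ρ.comp φ'))
    ⟨μ.hom.toLinearMap, fun d => by
      ext n
      have h := Rep.hom_comm_apply μ (φ' d) n
      change μ.hom (N.ρ (φ (πD d)) n) = N'.ρ (φ' d) (μ.hom n)
      rw [hsq d]
      exact h⟩

/-- Restriction to `D'` of an inflated class is the inflation of its restriction to `D`. -/
theorem res_inf_eq (hsq : ∀ d, φ (πD d) = π (φ' d)) (n : ℕ) (x : groupCohomology N n) :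
    (groupCohomology.map φ' (𝟙 (Rep.res φ' N')) n).hom ((groupCohomology.map π μ n).hom x) =
      (groupCohomology.map πD (alongDec π μ φ φ' πD hsq) n).hom
        ((groupCohomology.map φ (𝟙 (Rep.res φ N)) n).hom x) := by
  have h1 := groupCohomology.map_comp (k := k) π φ' μ (𝟙 (Rep.res φ' N')) n
  have h2 := groupCohomology.map_comp (k := k) φ πD (𝟙 (Rep.res φ N))
    (alongDec π μ φ φ' πD hsq) n
  have h3 : groupCohomology.map (π.comp φ')
      ((Rep.resFunctor φ').map μ ≫ 𝟙 (Rep.res φ' N')) n =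
      groupCohomology.map (φ.comp πD)
        ((Rep.resFunctor πD).map (𝟙 (Rep.res φ N)) ≫ alongDec π μ φ φ' πD hsq) n :=
    groupCohomology.map_congr (MonoidHom.ext fun d => (hsq d).symm) (by rfl) n
  exact congrArg (fun t => t.hom x) (h1.symm.trans (h3.trans h2))

end InfGeneric

section Inj

variable {G G' : Type} [Group G] [Group G'] (π : G' →* G)
variable {N : Rep.{0} ℤ G} {N' : Rep.{0} ℤ G'} (ν : N' ≅ Rep.res π N)
variable {ι : Type} {Dc : ι → Type} [∀ i, Group (Dc i)] {Dc' : ι → Type} [∀ i, Group (Dc' i)]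
  (φ : ∀ i, Dc i →* G) (φ' : ∀ i, Dc' i →* G')

/-- **Inflation preserves local triviality** (`D'_i → D_i` compatible with `G' → G`). -/
theorem isLocTriv_inf (πD : ∀ i, Dc' i →* Dc i) (hsq : ∀ i d, φ i (πD i d) = π (φ' i d))
    (x : groupCohomology N 1) (hx : IsLocTriv φ N x) :
    IsLocTriv φ' N' ((groupCohomology.map π ν.inv 1).hom x) := by
  intro i
  have h4 := res_inf_eq π ν.inv (φ i) (φ' i) (πD i) (hsq i) 1 x
  have h5 : (groupCohomology.map (φ i) (𝟙 (Rep.res (φ i) N)) 1).hom x = 0 := hx i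
  rw [h5, map_zero] at h4
  exact h4

variable {C : Rep.{0} ℤ G} {C' : Rep.{0} ℤ G'} (ι₀ : Rep.res π C ⟶ C')
variable [Fintype ι] {J : ι → Rep.{0} ℤ G} {J' : ι → Rep.{0} ℤ G'}
variable (j : ∀ i, J i ⟶ C) (j' : ∀ i, J' i ⟶ C') (ιJ : ∀ i, Rep.res π (J i) ⟶ J' i)

/-- **`tr : T → T'` is injective** (LIM3, second half): if `inf_ι` is injective on
`H²(G, C)[p]` (GD8), inflation preserves `Ш¹_fin`, and the pairing criterion ALG8(a) holds for
`G` (⇒) and `G'` (⇐). -/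
theorem trT_injective {p : ℕ} (hNp : ∀ n : N.V, p • n = 0)
    (hsq : ∀ i, (Rep.resFunctor π).map (j i) ≫ ι₀ = ιJ i ≫ j' i)
    (ha : ∀ f : homA N C, (∀ x, IsLocTriv φ N x → pair f x = 0) → IsLocSum j f)
    (ha' : ∀ f' : homA N' C', IsLocSum j' f' → ∀ y, IsLocTriv φ' N' y → pair f' y = 0)
    (hinf : ∀ x, IsLocTriv φ N x → IsLocTriv φ' N' ((groupCohomology.map π ν.inv 1).hom x))
    (hgd8 : ∀ z : groupCohomology C 2, p • z = 0 → infCoeff π ι₀ 2 z = 0 → z = 0) :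
    Function.Injective (trT π ν.hom ι₀ j j' ιJ hsq) := by
  rw [injective_iff_map_eq_zero]
  intro t
  induction t using QuotientAddGroup.induction_on with
  | H f =>
    intro h
    rw [trT_mk, QuotientAddGroup.eq_zero_iff, mem_locSub] at h
    rw [QuotientAddGroup.eq_zero_iff, mem_locSub]
    apply ha
    intro x hx
    have h1 := ha' _ h _ (hinf x hx)
    rw [H245.alg10Pair G G' π N N' ν C C' ι₀ f x] at h1
    have hp0 : p • pair f x = 0 := by
      unfold pair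
      rw [← map_nsmul, ← map_nsmul, nsmul_H1_eq_zero p hNp x, map_zero, map_zero]
    exact hgd8 _ hp0 h1

end Inj

end

end Fermat.Agent.S55.E1.H957

end
-- ===== PACK-END S55/E1/H957/Lim3Abs.lean

-- ===== PACK-BEGIN S59/NMP/H134/SelSpec.lean
section




/-!
# Row S59, cell NMP, leaf SEL (subtask 739) — second-level interface (sub-architect helper134)

Goal: `NMP.SelStatement` (`#Φ_{R'}(x ∘ β) ≤ #Φ_R(x) · #(𝒪/(α² − 1))`, `R` flat, `R'` ordinary).

Route (no duality, no cohomology groups): there is ONE element `v ∈ R'` ("the valuation of the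
Kummer class of the universal ordinary deformation") with

* `(z² − 1) · v = 0`, `z` = the scalar by which a Frobenius at `P | p` acts on `V / L`;
* every finite level `R' / I` with `v ∈ I` is peu ramifié at `P`, hence has a Hopf model;

so `R' / (v)` carries a FLAT deformation, `R → R' / (v)` exists by universality, and the kernel of
`Φ_{R'} → Φ_R` is generated by the class of `v`, which is killed by `α² − 1`.

Leaves (each a `Prop`; DONE when `theorem foo : FooStatement` is on main):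

* `ValFinStatement`  (VALFIN)   finite level Kummer theory at `p`: for `J` of finite index there is
      `v` with `(z² − 1) v ∈ J` and `v ∈ I ⟹ IsPeuMod I` for all `I ⊇ J`.
      [Hilbert 90 on `I_P` (`S59.H649.hilbert90_subgroup`) gives a Kummer generator `y_ξ` of
      `τ ↦ ζ ^ ξ (C_τ)` for every additive character `ξ : A/J → ℤ/pⁿ`; `y_ξ ^ pⁿ` is inertia-fixed,
      so its valuation is `v(p) ^ k(ξ)` (`S56.H460.unrVal`); `ξ ↦ k(ξ) mod pⁿ` is additive, hence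
      `k(ξ) = ξ(v)` (finite duality); conjugation by `σ ∈ D_P` (`S59.H649.kummer_core_h649`-type
      computation, `σ` preserves the valuation) gives `k(ξ ∘ z⁻²) = k(ξ)`.]
* `PeuHopfStatement` (PEUHOPF)  ordinary line + cyclotomic determinant + `IsPeuMod I` ⟹ Hopf
      model of `V / I V`.  [Port of `S59.H566.{PeuCoord, PeuFlat}` from `p` to `pⁿ`:
      `Ψ_{(v₀, ξ)}(m) = ζ ^ ξ(m − v₀) · B(v₀, ξ)` on `v₀ + L`, `0` elsewhere.]

Proved by helper134 (files `NMP/H134/*.lean`):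
`locVal_of_valFin : ValFinStatement → LocValStatement` (compactness) and
`sel_of_leaves : ValFinStatement → PeuHopfStatement → NMP.SelStatement` (deformation theory).

Definitions only.
-/

set_option autoImplicit false

open IsLocalRing

namespace Fermat.Agent.S59.NMP.H134

open Fermat.Agent.S59.H649 (Qb GQ IsOrdLineAt)

/-- **Peu ramifié at the finite level `I`** (Kummer form, on ALL of the inertia group): for some
`n` with `pⁿ ∈ I` and some primitive `pⁿ`-th root of unity `ζ`, every cocycle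
`σ ↦ ζ ^ ξ (σ m − m)` (`m ∈ V / I V`, `ξ : V / I V → ℤ/pⁿ` additive) of `I_P` is the Kummer
cocycle `σ ↦ σ B / B` of a `P`-unit `B`. -/
def IsPeuMod {A : Type} [CommRing A] [IsLocalRing A] (p : ℕ) (ρ : GaloisRepAdic A)
    (P : ValuationSubring Qb) (I : Ideal A) : Prop :=
  ∃ (n : ℕ) (ζ : Qb), IsPrimitiveRoot ζ (p ^ n) ∧ ((p ^ n : ℕ) : A) ∈ I ∧
    ∀ (ξ : (ρ.V ⧸ (I • (⊤ : Submodule A ρ.V))) →+ ZMod (p ^ n))
      (m : ρ.V ⧸ (I • (⊤ : Submodule A ρ.V))),
      ∃ B : Qb, P.valuation B = 1 ∧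
        ∀ σ ∈ P.inertiaSubgroupIn ℚ, σ B = ζ ^ (ξ (ρ.levelAction I σ m - m)).val * B

/-- **PEUHOPF.**  A finite level of an ordinary representation with cyclotomic determinant which
is peu ramifié at ONE place `P | p` has a Hopf model (finite flat group scheme over `ℤ_(p)`). -/
def PeuHopfStatement : Prop :=
  ∀ (p : ℕ) [Fact p.Prime], p ≠ 2 →
    ∀ (A : Type) [CommRing A] [IsLocalRing A] [Finite (ResidueField A)] (ρ : GaloisRepAdic A),
      ρ.DetIsCyclotomic p →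
      ∀ P : ValuationSubring Qb, P.LiesOverPrime p →
      ∀ L : Submodule A ρ.V, IsOrdLineAt ρ P L →
      ∀ I : Ideal A, Finite (A ⧸ I) → IsPeuMod p ρ P I →
        Fermat.Agent.S19.HopfModel p (ρ.V ⧸ (I • (⊤ : Submodule A ρ.V)))
          (fun σ m => ρ.levelAction I σ m)

/-- **VALFIN.**  Finite level form of "the valuation of the Kummer class": `σ ∈ D_P` acts on
`V / L` by `z`; for every ideal `J` of finite index there is `v` with `(z² − 1) v ∈ J` such that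
every level `I ⊇ J` containing `v` is peu ramifié at `P`. -/
def ValFinStatement : Prop :=
  ∀ (p : ℕ) [Fact p.Prime], p ≠ 2 →
    ∀ (A : Type) [CommRing A] [IsLocalRing A] [Finite (ResidueField A)] (ρ : GaloisRepAdic A),
      ρ.DetIsCyclotomic p →
      ∀ P : ValuationSubring Qb, P.LiesOverPrime p →
      ∀ L : Submodule A ρ.V, IsOrdLineAt ρ P L →
      ∀ σ ∈ P.decompositionSubgroup ℚ, ∀ z : A, (∀ w : ρ.V, ρ.ρ σ w - z • w ∈ L) →
      ∀ J : Ideal A, Finite (A ⧸ J) →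
        ∃ v : A, (z ^ 2 - 1) * v ∈ J ∧
          ∀ I : Ideal A, J ≤ I → v ∈ I → IsPeuMod p ρ P I

/-- **LOCVAL** (`= VALFIN` + compactness).  Over a complete noetherian local ring there is one
`v` with `(z² − 1) v = 0` such that every finite level containing `v` is peu ramifié. -/
def LocValStatement : Prop :=
  ∀ (p : ℕ) [Fact p.Prime], p ≠ 2 →
    ∀ (A : Type) [CommRing A] [IsLocalRing A] [IsNoetherianRing A]
      [IsAdicComplete (maximalIdeal A) A] [Finite (ResidueField A)] (ρ : GaloisRepAdic A),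
      ρ.DetIsCyclotomic p →
      ∀ P : ValuationSubring Qb, P.LiesOverPrime p →
      ∀ L : Submodule A ρ.V, IsOrdLineAt ρ P L →
      ∀ σ ∈ P.decompositionSubgroup ℚ, ∀ z : A, (∀ w : ρ.V, ρ.ρ σ w - z • w ∈ L) →
        ∃ v : A, (z ^ 2 - 1) * v = 0 ∧
          ∀ I : Ideal A, Finite (A ⧸ I) → v ∈ I → IsPeuMod p ρ P I

/-- **LOCFLAT** (`= LOCVAL` + PEUHOPF): the quotient by `v` is flat at `p`. -/
def LocFlatStatement : Prop :=
  ∀ (p : ℕ) [Fact p.Prime], p ≠ 2 →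
    ∀ (A : Type) [CommRing A] [IsLocalRing A] [IsNoetherianRing A]
      [IsAdicComplete (maximalIdeal A) A] [Finite (ResidueField A)] (ρ : GaloisRepAdic A),
      ρ.DetIsCyclotomic p →
      ∀ P : ValuationSubring Qb, P.LiesOverPrime p →
      ∀ L : Submodule A ρ.V, IsOrdLineAt ρ P L →
      ∀ σ ∈ P.decompositionSubgroup ℚ, ∀ z : A, (∀ w : ρ.V, ρ.ρ σ w - z • w ∈ L) →
        ∃ v : A, (z ^ 2 - 1) * v = 0 ∧
          ∀ (B : Type) [CommRing B] [IsLocalRing B] (f : A →+* B) (hf : IsLocalHom f),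
            Function.Surjective f → f v = 0 → (ρ.baseChangeAlong f hf).IsFlatAt p

end Fermat.Agent.S59.NMP.H134

end
-- ===== PACK-END S59/NMP/H134/SelSpec.lean

-- ===== PACK-BEGIN S59/NMP/H254/SelGlue.lean
section






/-!
# Row S59, cell NMP, leaf SEL (helper254): the deformation-theoretic glue

`sel_of_locFlat : NMP.H134.LocFlatStatement → NMP.SelStatement`.

Ring side, no duality: `R'` the universal ordinary ring, `R` the universal flat ring,
`β : R' → R` compatible.  `β` is surjective (`NM.H254.surjective_of_compatible`); LOCFLAT gives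
`v ∈ R'` with `(z² - 1) v = 0` (`z` = scalar of a Frobenius on the unramified quotient) such
that the universal ordinary deformation is flat modulo `v`, hence `ker β ≤ (v)`
(`NM.H254.ker_le_of_cond`); the ordinary line is unique, so `x (β z) = α`; the class of `v`
generates the kernel of `Φ_{R'} → Φ_R` and is killed by `α² - 1`
(`NM.H254.card_cot_le_of_cond_principal`).
-/

set_option autoImplicit false
set_option linter.style.haveILetI false
set_option linter.unusedSectionVars false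
set_option linter.unusedVariables false

noncomputable section

namespace Fermat.Agent.S59.NMP.H254

open IsLocalRing GaloisRep Fermat.Agent.S53 Fermat.Agent.S59.Arch Fermat.Agent.S59.H649
  Fermat.Agent.S59.NM.H254

/-- **NMP-SEL from LOCFLAT.** -/
theorem sel_of_locFlat (hLF : Fermat.Agent.S59.NMP.H134.LocFlatStatement) :
    Fermat.Agent.S59.NMP.SelStatement := by
  intro p _ 𝒪 _ _ _ _ _ _ ρbar Smin h Sig hSig hSigP hord D D' β hβ hβρ x hx α hα hα1 hfin
  have hp : p.Prime := Fact.out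
  have hp2 := h.hp2
  have h𝒟 := Fermat.Agent.S59.H659.isDeformationCondition_sigmaCond 𝒪 p hp hp2 .flat Smin Sig
  have h𝒟' := Fermat.Agent.S59.H659.isDeformationCondition_sigmaCond 𝒪 p hp hp2 .ord Smin Sig
  obtain ⟨P, hP, L₂, hb₂, hD₂, hI₂, hF₂⟩ := hα
  have hL₂ : IsOrdLineAt (D.ρ.baseChangeAlong (x : D.R →+* 𝒪) hx) P L₂ := ⟨hb₂, hD₂, hI₂⟩
  have hcond' : sigmaCond 𝒪 p .ord Smin Sig D'.ρ := D'.isOfType
  have hdet' : D'.ρ.DetIsCyclotomic p := hcond'.1.1
  have hord' : D'.ρ.IsOrdinaryAt p := hcond'.1.2.1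
  obtain ⟨L', hb', hD', hI'⟩ := hord' P hP
  have hL' : IsOrdLineAt D'.ρ P L' := ⟨hb', hD', hI'⟩
  obtain ⟨σ, hσ⟩ := Fermat.Agent.Lib.Cheb.H643.exists_isFrobeniusAt p hp P hP
  have hσD := hσ.mem_decompositionSubgroup
  obtain ⟨z, hz⟩ := exists_quotient_scalar hL' hσD
  haveI : Finite (ResidueField D'.R) :=
    Finite.of_surjective _ (residueField_map_bijective D'.instIsLocalHom D'.residue_surjective).2
  obtain ⟨v, hzv, hflat⟩ := hLF p hp2 D'.R D'.ρ hdet' P hP L' hL' σ hσD z hz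
  -- `x (β z) = α`
  have hx' : IsLocalHom ((x.comp β : D'.R →ₐ[𝒪] 𝒪) : D'.R →+* 𝒪) :=
    H113.isLocalHom_algHom (⟨fun a ha => ha⟩ : IsLocalHom (algebraMap 𝒪 𝒪))
      (fun y => by
        obtain ⟨a, ha⟩ := residue_surjective y
        exact ⟨a, ha⟩) _
  obtain ⟨L₁, hL₁, hz₁⟩ := exists_ordLine_baseChange _ hx' hL' hz
  have e : (D'.ρ.baseChangeAlong ((x.comp β : D'.R →ₐ[𝒪] 𝒪) : D'.R →+* 𝒪) hx').IsEquiv
      (D.ρ.baseChangeAlong (x : D.R →+* 𝒪) hx) :=
    H113.isEquiv_trans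
      (H113.isEquiv_symm (H113.baseChangeAlong_comp_isEquiv' (β : D'.R →+* D.R) hβ
        (x : D.R →+* 𝒪) hx _ hx' rfl D'.ρ))
      (H113.isEquiv_baseChangeAlong (x : D.R →+* 𝒪) hx hβρ)
  obtain ⟨L₂', hL₂', hz₂'⟩ := exists_ordLine_of_isEquiv e hL₁ hz₁
  have hcond : sigmaCond 𝒪 p .flat Smin Sig D.ρ := D.isOfType
  have hdet₂ : (D.ρ.baseChangeAlong (x : D.R →+* 𝒪) hx).DetIsCyclotomic p :=
    Fermat.Agent.S56.H966.detIsCyclotomic_baseChangeAlong _ hx hcond.1.1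
  have hzα : (x.comp β) z = α :=
    quotient_scalar_unique hp hp2 hdet₂ hP hL₂' hL₂ hz₂' (hF₂ σ hσ)
  have hval : (x.comp β) (z ^ 2 - 1) = α ^ 2 - 1 := by
    rw [map_sub, map_pow, map_one, hzα]
  have hu : (x.comp β) (z ^ 2 - 1) ≠ 0 := by
    rw [hval]
    exact sub_ne_zero.mpr hα1
  haveI := hfin
  have key := card_cot_le_of_cond_principal h𝒟 h𝒟' D D' β hβ hβρ x v (z ^ 2 - 1) hzv hu
    (fun hloc hmk => by
      haveI := hloc
      have hmk0 : Ideal.Quotient.mk (Ideal.span {v}) v = 0 :=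
        Ideal.Quotient.eq_zero_iff_mem.mpr (Ideal.subset_span rfl)
      have hfl := hflat (D'.R ⧸ Ideal.span {v}) (Ideal.Quotient.mk (Ideal.span {v})) hmk
        Ideal.Quotient.mk_surjective hmk0
      exact ⟨⟨Fermat.Agent.S56.H966.detIsCyclotomic_baseChangeAlong _ hmk hdet', hfl,
        fun q hq hqS => Fermat.Agent.S56.H966.isUnramifiedAt_baseChangeAlong _ hmk
          (hcond'.1.2.2 q hq hqS)⟩,
        fun q hqS hq hqp => Fermat.Agent.S56.H966.isUnipotentOnInertiaAt_baseChangeAlong _ hmk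
          (hcond'.2 q hqS hq hqp)⟩)
  rw [hval] at key
  exact key

end Fermat.Agent.S59.NMP.H254

end
end
-- ===== PACK-END S59/NMP/H254/SelGlue.lean

-- ===== PACK-BEGIN S59/NMP/H254/Compact.lean
section



/-!
# Row S59, cell NMP, leaf SEL — compactness: `VALFIN ⟹ LOCVAL` (helper254)

`exists_forall_good_h254`: over a complete Noetherian local ring `A` with finite residue field,
a decreasing family of properties `Good k` of elements of `A`, where `Good k` depends only on the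
class modulo `𝔪 ^ k` and is satisfiable for every `k`, is simultaneously satisfiable
(König's lemma on the finite sets `A ⧸ 𝔪 ^ k` + completeness).

`locVal_of_valFin : NMP.H134.ValFinStatement → NMP.H134.LocValStatement`.
-/

set_option autoImplicit false
set_option linter.style.haveILetI false
set_option linter.unusedSectionVars false
set_option linter.unusedVariables false

open IsLocalRing

namespace Fermat.Agent.S59.NMP.H254

section Konig

variable {A : Type} [CommRing A] [IsLocalRing A] [IsNoetherianRing A]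
  [Finite (ResidueField A)]

theorem finite_quotient_maximalIdeal_pow_h254 (k : ℕ) : Finite (A ⧸ maximalIdeal A ^ k) := by
  haveI : Finite (A ⧸ maximalIdeal A) := ‹Finite (ResidueField A)›
  exact Ideal.finite_quotient_pow (IsNoetherian.noetherian (maximalIdeal A)) k

theorem good_of_le_h254 {Good : ℕ → A → Prop} (hmono : ∀ k v, Good (k + 1) v → Good k v)
    {k j : ℕ} (h : k ≤ j) {v : A} (hv : Good j v) : Good k v := by
  induction j, h using Nat.le_induction with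
  | base => exact hv
  | succ j _ ih => exact ih (hmono j v hv)

/-- The persistent elements at level `k`: those which are congruent modulo `𝔪 ^ k` to a good
element of every higher level. -/
def Pers (Good : ℕ → A → Prop) (k : ℕ) (v : A) : Prop :=
  ∀ j, k ≤ j → ∃ v' : A, Good j v' ∧ v' - v ∈ maximalIdeal A ^ k

/-- **König step.**  A persistent element of level `k` is congruent modulo `𝔪 ^ k` to a
persistent element of level `k + 1`. -/
theorem exists_pers_succ_h254 {Good : ℕ → A → Prop}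
    (hmono : ∀ k v, Good (k + 1) v → Good k v) {k : ℕ} {v : A} (hv : Pers Good k v) :
    ∃ v' : A, Pers Good (k + 1) v' ∧ v' - v ∈ maximalIdeal A ^ k := by
  classical
  by_contra hcon
  have hcon' : ∀ v' : A, v' - v ∈ maximalIdeal A ^ k →
      ∃ j, k + 1 ≤ j ∧ ∀ u : A, Good j u → u - v' ∉ maximalIdeal A ^ (k + 1) := by
    intro v' hv'
    by_contra h
    apply hcon
    refine ⟨v', fun j hj => ?_, hv'⟩
    by_contra h2
    apply h
    refine ⟨j, hj, fun u hu hmem => h2 ⟨u, hu, hmem⟩⟩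
  haveI : Finite (A ⧸ maximalIdeal A ^ (k + 1)) := finite_quotient_maximalIdeal_pow_h254 (k + 1)
  letI : Fintype (A ⧸ maximalIdeal A ^ (k + 1)) := Fintype.ofFinite _
  let rep : A ⧸ maximalIdeal A ^ (k + 1) → A := fun c => Quotient.out c
  have hrep : ∀ c, Ideal.Quotient.mk (maximalIdeal A ^ (k + 1)) (rep c) = c := fun c =>
    Quotient.out_eq c
  let J : A ⧸ maximalIdeal A ^ (k + 1) → ℕ := fun c =>
    if h : rep c - v ∈ maximalIdeal A ^ k then (hcon' (rep c) h).choose else 0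
  let jmax : ℕ := (Finset.univ.sup J) ⊔ k
  obtain ⟨u, hu, huv⟩ := hv jmax le_sup_right
  set c := Ideal.Quotient.mk (maximalIdeal A ^ (k + 1)) u with hc
  have h1 : rep c - u ∈ maximalIdeal A ^ (k + 1) := by
    rw [← Ideal.Quotient.eq, hrep c]
  have h2 : rep c - v ∈ maximalIdeal A ^ k := by
    have : rep c - v = (rep c - u) + (u - v) := by ring
    rw [this]
    exact Ideal.add_mem _ (Ideal.pow_le_pow_right (Nat.le_succ k) h1) huv
  have hJ : J c = (hcon' (rep c) h2).choose := dif_pos h2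
  obtain ⟨-, hbad⟩ := (hcon' (rep c) h2).choose_spec
  have hle : J c ≤ jmax := le_sup_of_le_left (Finset.le_sup (f := J) (Finset.mem_univ c))
  have hgood : Good (J c) u := good_of_le_h254 hmono hle hu
  rw [hJ] at hgood
  apply hbad u hgood
  have : u - rep c = -(rep c - u) := by ring
  rw [this]
  exact Ideal.neg_mem_iff _ |>.mpr h1

/-- **Compactness.**  A decreasing family of properties `Good k`, each depending only on the
class modulo `𝔪 ^ k` and satisfiable, is simultaneously satisfiable. -/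
theorem exists_forall_good_h254 [IsAdicComplete (maximalIdeal A) A] {Good : ℕ → A → Prop}
    (hmono : ∀ k v, Good (k + 1) v → Good k v)
    (hcongr : ∀ k v v', v - v' ∈ maximalIdeal A ^ k → Good k v → Good k v')
    (hex : ∀ k, ∃ v, Good k v) : ∃ v : A, ∀ k, Good k v := by
  classical
  have h0 : Pers Good 0 (0 : A) := by
    intro j _
    obtain ⟨v, hv⟩ := hex j
    exact ⟨v, hv, by rw [pow_zero, Ideal.one_eq_top]; exact Submodule.mem_top⟩
  -- the sequence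
  let F : ∀ k : ℕ, {v : A // Pers Good k v} := fun k =>
    Nat.rec (motive := fun k => {v : A // Pers Good k v}) ⟨0, h0⟩
      (fun k w => ⟨(exists_pers_succ_h254 hmono w.2).choose,
        (exists_pers_succ_h254 hmono w.2).choose_spec.1⟩) k
  have hF : ∀ k, ((F (k + 1) : A) - (F k : A)) ∈ maximalIdeal A ^ k := fun k =>
    (exists_pers_succ_h254 hmono (F k).2).choose_spec.2
  have hcauchy : ∀ {m n : ℕ}, m ≤ n → ((F n : A) - (F m : A)) ∈ maximalIdeal A ^ m := by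
    intro m n hmn
    induction n, hmn using Nat.le_induction with
    | base => rw [sub_self]; exact Ideal.zero_mem _
    | succ n hmn ih =>
      have : (F (n + 1) : A) - (F m : A) = ((F (n + 1) : A) - (F n : A)) + ((F n : A) - F m) := by
        ring
      rw [this]
      exact Ideal.add_mem _ (Ideal.pow_le_pow_right hmn (hF n)) ih
  obtain ⟨L, hL⟩ := IsPrecomplete.prec (I := maximalIdeal A) (M := A) inferInstance
    (f := fun k => (F k : A)) (fun {m n} hmn => by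
      rw [SModEq.sub_mem, smul_eq_mul, Ideal.mul_top]
      have := hcauchy hmn
      have h2 : (F m : A) - (F n : A) = -((F n : A) - (F m : A)) := by ring
      rw [h2]
      exact (Ideal.neg_mem_iff _).mpr this)
  refine ⟨L, fun k => ?_⟩
  obtain ⟨v', hv', hv'F⟩ := (F k).2 k le_rfl
  refine hcongr k v' L ?_ hv'
  have h1 : (F k : A) - L ∈ maximalIdeal A ^ k := by
    have := hL k
    rwa [SModEq.sub_mem, smul_eq_mul, Ideal.mul_top] at this
  have : v' - L = (v' - (F k : A)) + ((F k : A) - L) := by ring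
  rw [this]
  exact Ideal.add_mem _ hv'F h1

end Konig

/-- **LOCVAL from VALFIN** (compactness). -/
theorem locVal_of_valFin (h : Fermat.Agent.S59.NMP.H134.ValFinStatement) :
    Fermat.Agent.S59.NMP.H134.LocValStatement := by
  intro p _ hp2 A _ _ _ _ _ ρ hdet P hP L hL σ hσ z hz
  classical
  let Good : ℕ → A → Prop := fun k v =>
    (z ^ 2 - 1) * v ∈ maximalIdeal A ^ k ∧
      ∀ I : Ideal A, maximalIdeal A ^ k ≤ I → v ∈ I →
        Fermat.Agent.S59.NMP.H134.IsPeuMod p ρ P I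
  have hmono : ∀ k v, Good (k + 1) v → Good k v := by
    intro k v hv
    exact ⟨Ideal.pow_le_pow_right (Nat.le_succ k) hv.1, fun I hI hvI =>
      hv.2 I ((Ideal.pow_le_pow_right (Nat.le_succ k)).trans hI) hvI⟩
  have hcongr : ∀ k v v', v - v' ∈ maximalIdeal A ^ k → Good k v → Good k v' := by
    intro k v v' hvv' hv
    refine ⟨?_, fun I hI hv'I => hv.2 I hI ?_⟩
    · have : (z ^ 2 - 1) * v' = (z ^ 2 - 1) * v - (z ^ 2 - 1) * (v - v') := by ring
      rw [this]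
      exact Ideal.sub_mem _ hv.1 (Ideal.mul_mem_left _ _ hvv')
    · have : v = v' + (v - v') := by ring
      rw [this]
      exact Ideal.add_mem _ hv'I (hI hvv')
  have hex : ∀ k, ∃ v, Good k v := by
    intro k
    haveI : Finite (A ⧸ maximalIdeal A ^ k) := finite_quotient_maximalIdeal_pow_h254 k
    obtain ⟨v, hv1, hv2⟩ := h p hp2 A ρ hdet P hP L hL σ hσ z hz (maximalIdeal A ^ k) inferInstance
    exact ⟨v, hv1, hv2⟩
  obtain ⟨v, hv⟩ := exists_forall_good_h254 hmono hcongr hex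
  refine ⟨v, ?_, fun I hIfin hvI => ?_⟩
  · have hmem : ∀ k : ℕ, (z ^ 2 - 1) * v ∈ maximalIdeal A ^ k := fun k => (hv k).1
    have hH : IsHausdorff (maximalIdeal A) A := inferInstance
    refine hH.haus _ (fun k => ?_)
    rw [SModEq.zero, smul_eq_mul, Ideal.mul_top]
    exact hmem k
  · haveI := hIfin
    by_cases hI : I = ⊤
    · refine (hv 0).2 I ?_ hvI
      rw [hI]
      exact le_top
    · obtain ⟨N, hN⟩ := Fermat.Agent.S59.NMP.H649.exists_maximalIdeal_pow_le_h649 I hI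
      exact (hv N).2 I hN hvI

end Fermat.Agent.S59.NMP.H254

end
-- ===== PACK-END S59/NMP/H254/Compact.lean

-- ===== PACK-BEGIN S59/NMP/H254/LocFlat.lean
section




/-!
# Row S59, cell NMP, leaf SEL — `LOCVAL + PEUHOPF ⟹ LOCFLAT` (helper254)

`locFlat_of : NMP.H134.LocValStatement → NMP.H134.PeuHopfStatement → NMP.H134.LocFlatStatement`:
the quotient of `ρ` by the Kummer valuation element `v` is flat at `p`, because each of its
finite levels is (the base change of) a finite level `I ∋ v` of `ρ`, which is peu ramifié, hence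
has a Hopf model.
-/

set_option autoImplicit false
set_option linter.style.haveILetI false
set_option linter.unusedSectionVars false
set_option linter.unusedVariables false

open IsLocalRing

namespace Fermat.Agent.S59.NMP.H254

/-- **LOCFLAT from LOCVAL and PEUHOPF.** -/
theorem locFlat_of (hV : Fermat.Agent.S59.NMP.H134.LocValStatement)
    (hH : Fermat.Agent.S59.NMP.H134.PeuHopfStatement) :
    Fermat.Agent.S59.NMP.H134.LocFlatStatement := by
  intro p _ hp2 A _ _ _ _ _ ρ hdet P hP L hL σ hσ z hz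
  obtain ⟨v, hv0, hvpeu⟩ := hV p hp2 A ρ hdet P hP L hL σ hσ z hz
  refine ⟨v, hv0, ?_⟩
  intro B _ _ f hf hfsurj hfv
  rw [Fermat.Agent.S59.H779.isFlatAt_iff_flatLevel]
  have hresB : Finite (ResidueField B) := by
    haveI : IsLocalHom f := hf
    refine Finite.of_surjective (ResidueField.map f) ?_
    intro y
    obtain ⟨b, rfl⟩ := IsLocalRing.residue_surjective y
    obtain ⟨a, rfl⟩ := hfsurj b
    exact ⟨IsLocalRing.residue A a, ResidueField.map_residue f a⟩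
  refine ⟨hresB, ?_⟩
  intro Ibar hIbar
  haveI := hIbar
  have hfin : Finite (A ⧸ Ibar.comap f) :=
    Finite.of_injective (Ideal.quotientMap Ibar f le_rfl) (Ideal.quotientMap_injective)
  have hvI : v ∈ Ibar.comap f := by
    rw [Ideal.mem_comap, hfv]
    exact Ibar.zero_mem
  have hlev : Fermat.Agent.S59.H779.FlatLevel p ρ (Ibar.comap f) :=
    hH p hp2 A ρ hdet P hP L hL _ hfin (hvpeu _ hfin hvI)
  exact Fermat.Agent.S59.H779.FlatLevel.baseChange (Fermat.Agent.S59.H659.hopfSubquot_closed p)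
    (Fermat.Agent.S59.H659.hopfProd_closed p) f hf hlev

end Fermat.Agent.S59.NMP.H254

end
-- ===== PACK-END S59/NMP/H254/LocFlat.lean

-- ===== PACK-BEGIN S59/NMP/H649/ValFin.lean
section





/-!
# Row S59, cell NMP, leaf SEL, sub-leaf VALFIN (helper649)

`valFin : NMP.H134.ValFinStatement`: for an ordinary representation `ρ` over a local ring `A` with
cyclotomic determinant, `σ ∈ D_P` acting on `V / L` by `z`, and an ideal `J` of finite index,
there is `v ∈ A` with `(z² − 1) v ∈ J` such that every level `I ⊇ J` containing `v` is peu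
ramifié at `P`.

`v` = the valuation component (`ValComp.lean`) of the family of Kummer characters
`τ ↦ Λ (C_τ)`, `Λ` a character of `A / J`, `C` the upper right matrix entry; `(X − a Z) v ∈ J` by
the Kummer computation `S59.H649.kummer_core_h649` (conjugation by `σ` preserves the valuation),
and `X Z = det ≡ a` modulo `pⁿ`.
-/

set_option autoImplicit false
set_option linter.style.haveILetI false
set_option linter.unusedSectionVars false
set_option linter.unusedVariables false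

open scoped TensorProduct

namespace Fermat.Agent.S59.NMP.H649

open Fermat.Agent.S59.H649 IsLocalRing

attribute [local instance] Fermat.Agent.S55.Bridge.isGalois_Qbar

section Matrix

variable {A : Type*} [CommRing A] {V : Type*} [AddCommGroup V] [Module A V]
  (b : Module.Basis (Fin 2) A V)

/-- `g m - m` for an ordinary element acting trivially on the quotient -/
theorem apply_sub_eq_h649 {g : V →ₗ[A] V} (hg : g (b 0) ∈ Submodule.span A {b 0})
    (hZ : cZ b g = 1) (m : V) :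
    g m - m = ((cX b g - 1) * b.repr m 0 + cC b g * b.repr m 1) • b 0 := by
  have hm := b.sum_repr m
  rw [Fin.sum_univ_two] at hm
  have h1 : g m = b.repr m 0 • (cX b g • b 0) + b.repr m 1 • (cC b g • b 0 + b 1) := by
    conv_lhs => rw [← hm]
    rw [map_add, map_smul, map_smul, apply_b0 b hg, apply_b1 b g, hZ, one_smul]
  rw [h1]
  have h3 : ∀ α β : A, α • (cX b g • b 0) + β • (cC b g • b 0 + b 1) - (α • b 0 + β • b 1) =
      ((cX b g - 1) * α + cC b g * β) • b 0 := by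
    intro α β
    module
  have h4 := h3 (b.repr m 0) (b.repr m 1)
  rw [hm] at h4
  exact h4

end Matrix

/-- **Core of VALFIN**: the valuation component at the level `J`. -/
theorem valFin_core_h649 {p : ℕ} [Fact p.Prime] {A : Type} [CommRing A] [IsLocalRing A]
    (ρ : GaloisRepAdic A) (hdet : ρ.DetIsCyclotomic p) (P : ValuationSubring Qb)
    (hP : P.LiesOverPrime p)
    (b : Module.Basis (Fin 2) A ρ.V) (hL : IsOrdLineAt ρ P (Submodule.span A {b 0}))
    (J : Ideal A) [Finite (A ⧸ J)] (hJ : J ≠ ⊤)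
    (n : ℕ) (hn : 0 < n) (hpn : ((p ^ n : ℕ) : A) ∈ J) (ζ : Qb)
    (hζ : IsPrimitiveRoot ζ (p ^ n)) :
    ∃ v : A,
      (∀ σ ∈ P.decompositionSubgroup ℚ, (cZ b (ρ.ρ σ) ^ 2 - 1) * v ∈ J) ∧
      (∀ Λ : Multiplicative (A ⧸ J) →* Qbˣ,
        Λ (Multiplicative.ofAdd (Ideal.Quotient.mk J v)) = 1 →
        ∃ B : Qb, P.valuation B = 1 ∧ ∀ τ ∈ P.inertiaSubgroupIn ℚ,
          τ B = ((Λ (Multiplicative.ofAdd (Ideal.Quotient.mk J (cC b (ρ.ρ τ)))) : Qbˣ) : Qb)
            * B) := by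
  classical
  have hp : p.Prime := Fact.out
  haveI : NeZero p := ⟨hp.ne_zero⟩
  haveI : NeZero (p ^ n) := ⟨pow_ne_zero _ hp.ne_zero⟩
  obtain ⟨N, hN⟩ := exists_maximalIdeal_pow_le_h649 J hJ
  -- the ordinary matrices
  have hstab : ∀ τ ∈ P.decompositionSubgroup ℚ, ρ.ρ τ (b 0) ∈ Submodule.span A {b 0} :=
    fun τ hτ => hL.stable τ hτ _ (Submodule.mem_span_singleton_self _)
  have hID : ∀ γ ∈ P.inertiaSubgroupIn ℚ, γ ∈ P.decompositionSubgroup ℚ :=
    fun γ hγ => Fermat.Agent.A2.IF.H429.decomp_of_inertia P hγ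
  have hZ1 : ∀ γ ∈ P.inertiaSubgroupIn ℚ, cZ b (ρ.ρ γ) = 1 :=
    fun γ hγ => cZ_eq_one b (hL.inertia γ hγ (b 1))
  have hXdet : ∀ γ ∈ P.inertiaSubgroupIn ℚ, LinearMap.det (ρ.ρ γ) = cX b (ρ.ρ γ) := by
    intro γ hγ
    rw [det_eq_mul b (hstab γ (hID γ hγ)), hZ1 γ hγ, mul_one]
  let mk : A →+* A ⧸ J := Ideal.Quotient.mk J
  have hmk0 : ∀ t : A, mk t = 0 ↔ t ∈ J := fun t => Ideal.Quotient.eq_zero_iff_mem
  have hex : ∀ γ : GQ, ∃ e : ℕ, ∀ μ : Qb, μ ^ p ^ n = 1 → γ μ = μ ^ e :=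
    fun γ => exists_cycExp_h649 (p ^ n) γ
  choose e he using hex
  have hm : (((p ^ n : ℕ) : ℕ) : A ⧸ J) = 0 := by
    have := (hmk0 _).mpr hpn
    rwa [map_natCast] at this
  have hX : ∀ γ ∈ P.inertiaSubgroupIn ℚ, ∀ a' : ℕ, (∀ μ : Qb, μ ^ p ^ n = 1 → γ μ = μ ^ a') →
      mk (cX b (ρ.ρ γ)) = (a' : A ⧸ J) := by
    intro γ hγ a' ha'
    have h1 := hdet.2 n γ a' ha'
    rw [hXdet γ hγ] at h1
    have h2 : cX b (ρ.ρ γ) - (a' : A) ∈ J :=
      (Ideal.span_singleton_le_iff_mem (I := J)).mpr hpn h1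
    have h3 := (hmk0 _).mpr h2
    rw [map_sub, map_natCast, sub_eq_zero] at h3
    exact h3
  let c : GQ → A ⧸ J := fun γ => mk (cC b (ρ.ρ γ))
  have hc : ∀ γ ∈ P.inertiaSubgroupIn ℚ, ∀ γ' ∈ P.inertiaSubgroupIn ℚ,
      c (γ * γ') = (e γ : A ⧸ J) * c γ' + c γ := by
    intro γ hγ γ' hγ'
    show mk (cC b (ρ.ρ (γ * γ'))) = (e γ : A ⧸ J) * mk (cC b (ρ.ρ γ')) + mk (cC b (ρ.ρ γ))
    rw [map_mul, cC_mul b (hstab γ (hID γ hγ)), hZ1 γ' hγ', mul_one, map_add, map_mul,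
      hX γ hγ (e γ) (he γ)]
  obtain ⟨E, hEfin, hE⟩ := ρ.isAdicContinuous N
  haveI : FiniteDimensional ℚ E := hEfin
  have hlev : ∀ τ ∈ P.inertiaSubgroupIn ℚ, (∀ x ∈ E, τ x = x) → c τ = 0 := by
    intro τ _ hτ
    show mk (cC b (ρ.ρ τ)) = 0
    rw [hmk0]
    apply hN
    have h1 := repr_mem_of_mem_smul_top b _ (hE τ hτ (b 1)) 0
    rw [map_sub, Finsupp.sub_apply, Module.Basis.repr_self, Finsupp.single_apply,
      if_neg (by decide), sub_zero] at h1
    exact h1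
  -- characters as functions
  have hf0 : ∀ Λ : Multiplicative (A ⧸ J) →* Qbˣ,
      ((Λ (Multiplicative.ofAdd (0 : A ⧸ J)) : Qbˣ) : Qb) = 1 := by
    intro Λ
    rw [ofAdd_zero, map_one, Units.val_one]
  have hfadd : ∀ (Λ : Multiplicative (A ⧸ J) →* Qbˣ) (s t : A ⧸ J),
      ((Λ (Multiplicative.ofAdd (s + t)) : Qbˣ) : Qb) =
        ((Λ (Multiplicative.ofAdd s) : Qbˣ) : Qb) * ((Λ (Multiplicative.ofAdd t) : Qbˣ) : Qb) := by
    intro Λ s t
    rw [ofAdd_add, map_mul, Units.val_mul]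
  have hG : ∀ g : A ⧸ J, (p ^ n) • g = 0 := fun g => by
    rw [nsmul_eq_mul, hm, zero_mul]
  have hgen : ∀ Λ : Multiplicative (A ⧸ J) →* Qbˣ, ∃ y : Qb, IsGen P c Λ y := by
    intro Λ
    obtain ⟨y, hy0, hy⟩ := exists_kummer_gen_h649 (K := ℚ) (Ω := Qb) (P.inertiaSubgroupIn ℚ)
      (R := A ⧸ J) (p ^ n) hm e he c hc E hlev
      (fun t => ((Λ (Multiplicative.ofAdd t) : Qbˣ) : Qb)) (hf0 Λ) (hfadd Λ)
    exact ⟨y, hy0, hy⟩
  obtain ⟨vbar, hv⟩ := exists_valuation_component hp hP n ζ hζ hG c hgen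
  obtain ⟨v, rfl⟩ := Ideal.Quotient.mk_surjective vbar
  refine ⟨v, fun σ hσ => ?_, fun Λ hΛ => (hv Λ).mp hΛ⟩
  -- the relation `(z² - 1) v ∈ J`
  have ha := he σ
  have hconj : ∀ γ ∈ P.inertiaSubgroupIn ℚ, σ * γ * σ⁻¹ ∈ P.inertiaSubgroupIn ℚ :=
    fun γ hγ => conj_mem_inertiaIn_h649 P hσ hγ
  have hcj : ∀ γ ∈ P.inertiaSubgroupIn ℚ,
      mk (cZ b (ρ.ρ σ)) * c (σ * γ * σ⁻¹) =
        mk (cX b (ρ.ρ σ)) * c γ + (1 - (e γ : A ⧸ J)) * mk (cC b (ρ.ρ σ)) := by
    intro γ hγ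
    have hγ' := hconj γ hγ
    have h1 : ρ.ρ (σ * γ * σ⁻¹) * ρ.ρ σ = ρ.ρ σ * ρ.ρ γ := by
      rw [← map_mul, ← map_mul]
      congr 1
      group
    have h2 := congrArg (cC b) h1
    rw [cC_mul b (hstab _ (hID _ hγ')), cC_mul b (hstab σ hσ), hZ1 γ hγ, mul_one] at h2
    have h3 := congrArg mk h2
    rw [RingHom.map_add, RingHom.map_add, RingHom.map_mul, RingHom.map_mul,
      RingHom.map_mul] at h3
    have hcyc : ∀ μ : Qb, μ ^ p ^ n = 1 → (σ * γ * σ⁻¹) μ = μ ^ (e γ) := by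
      intro μ hμ
      have hμ' : (σ⁻¹ μ) ^ p ^ n = 1 := by rw [← map_pow, hμ, map_one]
      show σ (γ (σ⁻¹ μ)) = μ ^ (e γ)
      rw [he γ _ hμ', map_pow]
      congr 1
      show σ (σ.symm μ) = μ
      exact σ.apply_symm_apply μ
    rw [hX _ hγ' (e γ) hcyc] at h3
    show mk (cZ b (ρ.ρ σ)) * mk (cC b (ρ.ρ (σ * γ * σ⁻¹))) =
      mk (cX b (ρ.ρ σ)) * mk (cC b (ρ.ρ γ)) + (1 - (e γ : A ⧸ J)) * mk (cC b (ρ.ρ σ))
    linear_combination h3
  set d : A := cX b (ρ.ρ σ) - ((e σ : ℕ) : A) * cZ b (ρ.ρ σ) with hd_def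
  have hdv : d * v ∈ J := by
    rw [← hmk0]
    have hsep : ∀ Λ : Multiplicative (A ⧸ J) →* Qbˣ,
        Λ (Multiplicative.ofAdd (mk (d * v))) = Λ (Multiplicative.ofAdd (0 : A ⧸ J)) := by
      intro Λ
      rw [ofAdd_zero, map_one]
      -- the character `Λ (d ·)`
      let Λd : Multiplicative (A ⧸ J) →* Qbˣ :=
        Λ.comp (AddMonoidHom.toMultiplicative (AddMonoidHom.mulLeft (mk d)))
      have hΛd : ∀ t : A ⧸ J, Λd (Multiplicative.ofAdd t) = Λ (Multiplicative.ofAdd (mk d * t)) :=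
        fun t => rfl
      have hdΛ : ∀ t : A ⧸ J,
          ((Λ (Multiplicative.ofAdd
            ((mk (cX b (ρ.ρ σ)) - ((e σ : ℕ) : A ⧸ J) * mk (cZ b (ρ.ρ σ))) * t)) : Qbˣ) : Qb) =
          ((Λd (Multiplicative.ofAdd t) : Qbˣ) : Qb) := by
        intro t
        rw [hΛd, hd_def, RingHom.map_sub, RingHom.map_mul, map_natCast]
      obtain ⟨y, hy0, hW⟩ := kummer_core_h649 (K := ℚ) (Ω := Qb) (P.inertiaSubgroupIn ℚ) σ
        hconj (R := A ⧸ J) (p ^ n) (e σ) hm ha e he c (mk (cX b (ρ.ρ σ)))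
        (mk (cZ b (ρ.ρ σ))) (mk (cC b (ρ.ρ σ))) hc E hlev hcj
        (fun t => ((Λ (Multiplicative.ofAdd t) : Qbˣ) : Qb))
        (fun t => ((Λd (Multiplicative.ofAdd t) : Qbˣ) : Qb)) (hf0 Λ) (hfadd Λ) hdΛ
      have hvW : P.valuation ((σ⁻¹ y / y) ^ (e σ) *
          ((Λ (Multiplicative.ofAdd (mk (cC b (ρ.ρ σ)))) : Qbˣ) : Qb)) = 1 := by
        have h1 : P.valuation (σ⁻¹ y) = P.valuation y :=
          Fermat.Agent.A2.IF.H429.valuation_map_eq P (inv_mem hσ) y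
        have h2 : P.valuation y ≠ 0 := (Valuation.ne_zero_iff _).mpr hy0
        have h3 : P.valuation ((Λ (Multiplicative.ofAdd (mk (cC b (ρ.ρ σ)))) : Qbˣ) : Qb) = 1 :=
          valuation_eq_one_of_pow_h649 P (pow_ne_zero n hp.ne_zero)
            (charFun_pow_eq_one (fun t => ((Λ (Multiplicative.ofAdd t) : Qbˣ) : Qb))
              (hf0 Λ) (hfadd Λ) hm _)
        rw [map_mul, map_pow, map_div₀, h1, div_self h2, one_pow, one_mul, h3]
      have h4 := (hv Λd).mpr ⟨_, hvW, hW⟩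
      rw [hΛd, ← map_mul] at h4
      exact h4
    have h5 := (CommGroup.forall_apply_eq_apply_iff (G := Multiplicative (A ⧸ J))
      (M := Qb)).mp hsep
    exact Multiplicative.ofAdd.injective h5
  -- `X Z ≡ a`, `a` a unit
  have hdetσ : cX b (ρ.ρ σ) * cZ b (ρ.ρ σ) - ((e σ : ℕ) : A) ∈ J := by
    have h1 := hdet.2 n σ (e σ) ha
    rw [det_eq_mul b (hstab σ hσ)] at h1
    exact (Ideal.span_singleton_le_iff_mem (I := J)).mpr hpn h1
  have hcop : (e σ).Coprime p := by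
    have h1 : IsPrimitiveRoot (σ ζ) (p ^ n) := hζ.map_of_injective σ.injective
    rw [ha ζ hζ.pow_eq_one] at h1
    have h2 := (hζ.pow_iff_coprime (pow_pos hp.pos n) (e σ)).mp h1
    exact (Nat.coprime_pow_right_iff hn _ _).mp h2
  obtain ⟨u, hu⟩ := isUnit_natCast_of_coprime_h649 (A := A) hdet.1 hcop
  have h6 : ((e σ : ℕ) : A) * ((cZ b (ρ.ρ σ) ^ 2 - 1) * v) ∈ J := by
    have e1 : ((e σ : ℕ) : A) * ((cZ b (ρ.ρ σ) ^ 2 - 1) * v) =
        (cX b (ρ.ρ σ) * cZ b (ρ.ρ σ) - ((e σ : ℕ) : A)) * v - cZ b (ρ.ρ σ) * (d * v) := by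
      rw [hd_def]
      ring
    rw [e1]
    exact J.sub_mem (J.mul_mem_right _ hdetσ) (J.mul_mem_left _ hdv)
  rw [← hu] at h6
  have := J.mul_mem_left (↑u⁻¹ : A) h6
  rwa [← mul_assoc, Units.inv_mul, one_mul] at this

/-- **Peu ramifié at the level `I`** from the vanishing of the characters at `v`. -/
theorem isPeuMod_of_char_h649 {p : ℕ} [Fact p.Prime] {A : Type} [CommRing A] [IsLocalRing A]
    (ρ : GaloisRepAdic A) (hdet : ρ.DetIsCyclotomic p) (P : ValuationSubring Qb)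
    (b : Module.Basis (Fin 2) A ρ.V) (hL : IsOrdLineAt ρ P (Submodule.span A {b 0}))
    (J : Ideal A) (n : ℕ) (hpn : ((p ^ n : ℕ) : A) ∈ J) (ζ : Qb)
    (hζ : IsPrimitiveRoot ζ (p ^ n)) (v : A)
    (hv : ∀ Λ : Multiplicative (A ⧸ J) →* Qbˣ,
      Λ (Multiplicative.ofAdd (Ideal.Quotient.mk J v)) = 1 →
      ∃ B : Qb, P.valuation B = 1 ∧ ∀ τ ∈ P.inertiaSubgroupIn ℚ,
        τ B = ((Λ (Multiplicative.ofAdd (Ideal.Quotient.mk J (cC b (ρ.ρ τ)))) : Qbˣ) : Qb) * B)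
    (I : Ideal A) (hJI : J ≤ I) (hvI : v ∈ I) :
    Fermat.Agent.S59.NMP.H134.IsPeuMod p ρ P I := by
  classical
  have hp : p.Prime := Fact.out
  haveI : NeZero p := ⟨hp.ne_zero⟩
  haveI : NeZero (p ^ n) := ⟨pow_ne_zero _ hp.ne_zero⟩
  refine ⟨n, ζ, hζ, hJI hpn, fun ξ m => ?_⟩
  obtain ⟨m₀, rfl⟩ := Submodule.Quotient.mk_surjective _ m
  -- the ordinary matrices
  have hstab : ∀ τ ∈ P.decompositionSubgroup ℚ, ρ.ρ τ (b 0) ∈ Submodule.span A {b 0} :=
    fun τ hτ => hL.stable τ hτ _ (Submodule.mem_span_singleton_self _)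
  have hID : ∀ γ ∈ P.inertiaSubgroupIn ℚ, γ ∈ P.decompositionSubgroup ℚ :=
    fun γ hγ => Fermat.Agent.A2.IF.H429.decomp_of_inertia P hγ
  have hZ1 : ∀ γ ∈ P.inertiaSubgroupIn ℚ, cZ b (ρ.ρ γ) = 1 :=
    fun γ hγ => cZ_eq_one b (hL.inertia γ hγ (b 1))
  have hXdet : ∀ γ ∈ P.inertiaSubgroupIn ℚ, LinearMap.det (ρ.ρ γ) = cX b (ρ.ρ γ) := by
    intro γ hγ
    rw [det_eq_mul b (hstab γ (hID γ hγ)), hZ1 γ hγ, mul_one]
  -- the root of unity as a unit, and the character of `ℤ/pⁿ`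
  have hζ0 : ζ ≠ 0 := hζ.ne_zero (pow_ne_zero n hp.ne_zero)
  let ζu : Qbˣ := Units.mk0 ζ hζ0
  have hζu1 : ζu ^ p ^ n = 1 := by
    apply Units.ext
    rw [Units.val_pow_eq_pow_val]
    exact hζ.pow_eq_one
  let χ : Multiplicative (ZMod (p ^ n)) →* Qbˣ := zmodChar_h649 ζu hζu1
  have hχ : ∀ x : ZMod (p ^ n), ((χ (Multiplicative.ofAdd x) : Qbˣ) : Qb) = ζ ^ x.val := by
    intro x
    show ((ζu ^ x.val : Qbˣ) : Qb) = ζ ^ x.val
    rw [Units.val_pow_eq_pow_val]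
    rfl
  have hχpow : ∀ x : ZMod (p ^ n), ((χ (Multiplicative.ofAdd x) : Qbˣ) : Qb) ^ p ^ n = 1 := by
    intro x
    rw [hχ, ← pow_mul, mul_comm, pow_mul, hζ.pow_eq_one, one_pow]
  -- the additive functional `t ↦ ξ (t b₀)`
  let ℓ₀ : A →+ ZMod (p ^ n) :=
    { toFun := fun t => ξ (Submodule.Quotient.mk (t • b 0))
      map_zero' := by rw [zero_smul, Submodule.Quotient.mk_zero, map_zero]
      map_add' := fun s t => by rw [add_smul, Submodule.Quotient.mk_add, map_add] }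
  have hℓ₀ : ∀ t : A, ℓ₀ t = ξ (Submodule.Quotient.mk (t • b 0)) := fun t => rfl
  have hℓ₀I : ∀ t ∈ I, ℓ₀ t = 0 := by
    intro t ht
    rw [hℓ₀]
    have : (Submodule.Quotient.mk (t • b 0) : ρ.V ⧸ (I • (⊤ : Submodule A ρ.V))) = 0 :=
      (Submodule.Quotient.mk_eq_zero _).mpr (Submodule.smul_mem_smul ht Submodule.mem_top)
    rw [this, map_zero]
  let mkA : A →+ A ⧸ J := (Ideal.Quotient.mk J).toAddMonoidHom
  have hmkA : ∀ t : A, mkA t = Ideal.Quotient.mk J t := fun t => rfl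
  have hsurj : Function.Surjective mkA := Ideal.Quotient.mk_surjective
  have hker : mkA.ker ≤ ℓ₀.ker := by
    intro t ht
    rw [AddMonoidHom.mem_ker] at ht ⊢
    exact hℓ₀I t (hJI (Ideal.Quotient.eq_zero_iff_mem.mp ht))
  let ℓ : A ⧸ J →+ ZMod (p ^ n) := AddMonoidHom.liftOfSurjective mkA hsurj ⟨ℓ₀, hker⟩
  have hℓ : ∀ t : A, ℓ (Ideal.Quotient.mk J t) = ℓ₀ t := fun t =>
    AddMonoidHom.liftOfRightInverse_comp_apply _ _ _ ⟨ℓ₀, hker⟩ t
  -- coordinates of `m₀`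
  set α : A := b.repr m₀ 0 with hα
  set β : A := b.repr m₀ 1 with hβ
  let Λβ : Multiplicative (A ⧸ J) →* Qbˣ :=
    χ.comp (AddMonoidHom.toMultiplicative
      (ℓ.comp (AddMonoidHom.mulLeft (Ideal.Quotient.mk J β))))
  have hΛβ : ∀ t : A, Λβ (Multiplicative.ofAdd (Ideal.Quotient.mk J t)) =
      χ (Multiplicative.ofAdd (ℓ₀ (β * t))) := by
    intro t
    show χ (Multiplicative.ofAdd (ℓ (Ideal.Quotient.mk J β * Ideal.Quotient.mk J t))) = _
    rw [← map_mul, hℓ]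
  have hΛβv : Λβ (Multiplicative.ofAdd (Ideal.Quotient.mk J v)) = 1 := by
    rw [hΛβ, hℓ₀I _ (I.mul_mem_left β hvI), ofAdd_zero, map_one]
  obtain ⟨B', hB', hτ'⟩ := hv Λβ hΛβv
  -- the root of unity `μ`
  set μ : Qb := ((χ (Multiplicative.ofAdd (ℓ₀ α)) : Qbˣ) : Qb) with hμ
  have hμ0 : μ ≠ 0 := Units.ne_zero _
  have hμpow : μ ^ p ^ n = 1 := hχpow _
  refine ⟨μ * B', ?_, fun τ hτ => ?_⟩
  · rw [map_mul, hB', mul_one]
    exact valuation_eq_one_of_pow_h649 P (pow_ne_zero n hp.ne_zero) hμpow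
  · obtain ⟨e, he⟩ := exists_cycExp_h649 (p ^ n) τ
    have hXe : cX b (ρ.ρ τ) - (e : A) ∈ I := by
      have h1 := hdet.2 n τ e he
      rw [hXdet τ hτ] at h1
      exact hJI ((Ideal.span_singleton_le_iff_mem (I := J)).mpr hpn h1)
    -- the value of the exponent
    have hval : ξ (ρ.levelAction I τ (Submodule.Quotient.mk m₀) - Submodule.Quotient.mk m₀) =
        e • ℓ₀ α - ℓ₀ α + ℓ₀ (β * cC b (ρ.ρ τ)) := by
      have h1 : ρ.levelAction I τ (Submodule.Quotient.mk m₀) =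
          Submodule.Quotient.mk (ρ.ρ τ m₀) := rfl
      rw [h1, ← Submodule.Quotient.mk_sub, apply_sub_eq_h649 b (hstab τ (hID τ hτ)) (hZ1 τ hτ),
        ← hℓ₀]
      have h2 : (cX b (ρ.ρ τ) - 1) * α + cC b (ρ.ρ τ) * β =
          (cX b (ρ.ρ τ) - (e : A)) * α + (e • α - α + β * cC b (ρ.ρ τ)) := by
        rw [nsmul_eq_mul]
        ring
      rw [h2, map_add, hℓ₀I _ (I.mul_mem_right α hXe), zero_add, map_add, map_sub, map_nsmul]
    rw [hval, map_mul, hτ' τ hτ, he μ hμpow]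
    have h3 : Λβ (Multiplicative.ofAdd (Ideal.Quotient.mk J (cC b (ρ.ρ τ)))) =
        χ (Multiplicative.ofAdd (ℓ₀ (β * cC b (ρ.ρ τ)))) := hΛβ _
    rw [h3, ← hχ]
    have h4 : χ (Multiplicative.ofAdd (e • ℓ₀ α - ℓ₀ α + ℓ₀ (β * cC b (ρ.ρ τ)))) =
        χ (Multiplicative.ofAdd (ℓ₀ α)) ^ e * (χ (Multiplicative.ofAdd (ℓ₀ α)))⁻¹ *
          χ (Multiplicative.ofAdd (ℓ₀ (β * cC b (ρ.ρ τ)))) := by
      rw [ofAdd_add, ofAdd_sub, ofAdd_nsmul, map_mul, map_div, map_pow, div_eq_mul_inv]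
    rw [h4, Units.val_mul, Units.val_mul, Units.val_pow_eq_pow_val, Units.val_inv_eq_inv_val,
      ← hμ]
    field_simp

/-- **VALFIN.** -/
theorem valFin : Fermat.Agent.S59.NMP.H134.ValFinStatement := by
  intro p _ hp2 A _ _ _ ρ hdet P hP L hL σ hσ z hz J hJfin
  haveI := hJfin
  obtain ⟨b, rfl⟩ := hL.basis
  by_cases hJtop : J = ⊤
  · refine ⟨0, by rw [mul_zero]; exact J.zero_mem, fun I hJI _ => ?_⟩
    refine ⟨0, 1, by rw [pow_zero]; exact IsPrimitiveRoot.one, ?_, fun ξ m => ?_⟩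
    · rw [hJtop] at hJI
      exact hJI Submodule.mem_top
    · exact ⟨1, map_one _, fun τ _ => by rw [map_one, one_pow, one_mul]⟩
  · have hp : p.Prime := Fact.out
    obtain ⟨n, hn, hpn⟩ := exists_natCast_pow_mem_h649 hdet.1 J
    haveI : NeZero ((p ^ n : ℕ) : ℚ) := ⟨Nat.cast_ne_zero.mpr (pow_ne_zero n hp.ne_zero)⟩
    obtain ⟨ζ, hζ⟩ := HasEnoughRootsOfUnity.exists_primitiveRoot Qb (p ^ n)
    obtain ⟨v, hv1, hv2⟩ := valFin_core_h649 ρ hdet P hP b hL J hJtop n hn hpn ζ hζ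
    have hz' : z = cZ b (ρ.ρ σ) := by
      have h := repr_one_of_mem_span b (hz (b 1))
      rw [map_sub, map_smul, Finsupp.sub_apply, Finsupp.smul_apply, Module.Basis.repr_self,
        Finsupp.single_eq_same, smul_eq_mul, mul_one, sub_eq_zero] at h
      exact h.symm
    refine ⟨v, by rw [hz']; exact hv1 σ hσ, fun I hJI hvI => ?_⟩
    exact isPeuMod_of_char_h649 ρ hdet P b hL J n hpn ζ hζ v hv2 I hJI hvI

end Fermat.Agent.S59.NMP.H649

end
-- ===== PACK-END S59/NMP/H649/ValFin.lean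

-- ===== PACK-BEGIN S59/NMP/H601/PeuHopf.lean
section



/-!
# Row S59, cell NMP, leaf SEL, sub-leaf PEUHOPF — CLOSED (helper601)

`peuHopf : NMP.H134.PeuHopfStatement` (verbatim): a finite level of an ordinary representation
with cyclotomic determinant which is peu ramifié at one place `P | p` (Kummer form on the whole
inertia group) has a Hopf model.  Adapter over `Fermat.Agent.S59.H601.peuLevel`.
-/

set_option autoImplicit false

namespace Fermat.Agent.S59.NMP.H601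

/-- **PEUHOPF.** -/
theorem peuHopf : Fermat.Agent.S59.NMP.H134.PeuHopfStatement := by
  intro p _ _ A _ _ _ ρ hdet P hP L hL I hfin hpeu
  obtain ⟨n, ζ, hζ, hn, h⟩ := hpeu
  exact Fermat.Agent.S59.H601.peuLevel p A ρ hdet P hP L hL I hfin n ζ hζ hn h

end Fermat.Agent.S59.NMP.H601

end
-- ===== PACK-END S59/NMP/H601/PeuHopf.lean

-- ===== PACK-BEGIN S59/NMP/H587/BettiSpec.lean
section


/-!
# S59 / cell NMP, leaf LGC — the interface between the Betti side and the Tate side (helper587)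

`NMP.LgcStatement` (`NMP/SpecP.lean`) is a statement on Betti eigenclasses of level `N` (prime to
`p`) for a system of eigenvalues away from `Σ ∋ p`.  The bridge BETTI
(`NMP/H587/Betti.lean`, `lgc_of_char`) reduces it to the following statement on characters of the
Hecke algebra **containing `T_p`**:

* `LgcCharStatement` (LGC-CHAR): `p` odd, `p ∤ N`, `S` a finite set of primes containing the primes
  dividing `N` and NOT containing `p`; `𝒪` a complete discrete valuation ring of characteristic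
  zero and residue characteristic `p`, with finite residue field; `χ : heckeAlgebra N 2 S →+* 𝒪`;
  `ρ` a FULL representation over `𝒪` (`𝒪[G_ℚ] → End V` onto; e.g. `ρ` residually absolutely
  irreducible, `S31.H202.span_range_rho_eq_top`) with
  `charpoly ρ(Frob_ℓ) = X² - χ(T_ℓ) X + ℓ` for the primes `ℓ ∉ S ∪ {p}`; `α` the unramified
  Frobenius eigenvalue of `ρ` at `p` (`NMP.UnrFrobAt`).  Then `α² - χ(T_p) α + p = 0`.
  (`ρ.DetIsCyclotomic p` follows from the characteristic polynomials: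
  `S59.H540.detIsCyclotomic_of_charpoly_frob`.)

[Tate side: the Tate eigenmodule of `χ` (family `T_ℓ`, `ℓ ∉ S`, INCLUDING `T_p`) is nonzero since
`χ` occurs in the parabolic cohomology (`S30.H709.exists_parEigen`) and the Kummer dictionary is
Hecke-equivariant at every prime `ℓ ∤ N` (`S15.H337.isKum_hecke_all`); Eichler–Shimura at `p` on
its inertia coinvariants.]
-/

set_option autoImplicit false

open Polynomial IsLocalRing

namespace Fermat.Agent.S59.NMP.H587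

open Fermat.Agent.S59.NMP

/-- **LGC-CHAR**: local–global compatibility at `p` for an eigencharacter of the Hecke algebra of
level `N` (prime to `p`) containing `T_p`. -/
def LgcCharStatement : Prop :=
  ∀ (p : ℕ) [Fact p.Prime] (_hp2 : p ≠ 2) (N : ℕ) [NeZero N] (hpN : ¬ p ∣ N) (S : Finset ℕ)
    (hpS : p ∉ (↑S : Set ℕ)) (_hNS : ∀ q : ℕ, q.Prime → q ∣ N → q ∈ (↑S : Set ℕ))
    (𝒪 : Type) [CommRing 𝒪] [IsDomain 𝒪] [IsDiscreteValuationRing 𝒪]
    [IsAdicComplete (maximalIdeal 𝒪) 𝒪] [Finite (ResidueField 𝒪)] [CharZero 𝒪]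
    (_hp𝒪 : (p : 𝒪) ∈ maximalIdeal 𝒪)
    (χ : CuspForm.heckeAlgebra N 2 (↑S : Set ℕ) →+* 𝒪)
    (ρ : GaloisRepAdic 𝒪) (_hspan : Submodule.span 𝒪 (Set.range ρ.ρ) = ⊤)
    (_hρ : ∀ (ℓ : ℕ) (hℓ : ℓ.Prime) (hℓN : ¬ ℓ ∣ N) (hℓS : ℓ ∉ (↑S : Set ℕ)), ℓ ≠ p →
      ∀ A : ValuationSubring (AlgebraicClosure ℚ), A.LiesOverPrime ℓ →
        ∀ σ : AlgebraicClosure ℚ ≃ₐ[ℚ] AlgebraicClosure ℚ, A.IsFrobeniusAt σ ℓ →
          LinearMap.charpoly (ρ.ρ σ) =
            X ^ 2 - C (χ (CuspForm.heckeAlgebra.T hℓ hℓN hℓS)) * X + C ((ℓ : 𝒪)))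
    (α : 𝒪) (_hα : UnrFrobAt ρ p α),
    α ^ 2 - χ (CuspForm.heckeAlgebra.T (Fact.out : p.Prime) hpN hpS) * α + (p : 𝒪) = 0

end Fermat.Agent.S59.NMP.H587

end
-- ===== PACK-END S59/NMP/H587/BettiSpec.lean

-- ===== PACK-BEGIN S59/NMP/H587/UnrBC.lean
section


/-!
# S59 / cell NMP, leaf LGC, bridge BETTI (helper587) — `UnrFrobAt` and base change

`UnrFrobAt ρ p α → UnrFrobAt (ρ ⊗_φ B) p (φ α)` for a local homomorphism `φ : A → B`.
-/

set_option autoImplicit false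
set_option linter.style.haveILetI false

open IsLocalRing TensorProduct

namespace Fermat.Agent.S59.NMP.H587

open Fermat.Agent.S59.NMP

/-- The linear algebra behind `unrFrobAt_baseChangeAlong`: a line `L = A ∙ b 0` of a free module
`V` of rank two and its base change `B ∙ (1 ⊗ b 0)`. -/
theorem exists_line_baseChange {A B V : Type*} [CommRing A] [CommRing B] [Algebra A B]
    [AddCommGroup V] [Module A V] (L : Submodule A V) (b : Module.Basis (Fin 2) A V)
    (hb : L = A ∙ b 0) :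
    ∃ L' : Submodule B (B ⊗[A] V),
      (∃ b' : Module.Basis (Fin 2) B (B ⊗[A] V), L' = B ∙ b' 0) ∧
      (∀ f : V →ₗ[A] V, (∀ v ∈ L, f v ∈ L) → ∀ w ∈ L', f.baseChange B w ∈ L') ∧
      (∀ f : V →ₗ[A] V, (∀ v : V, f v - v ∈ L) →
        ∀ w : B ⊗[A] V, f.baseChange B w - w ∈ L') ∧
      (∀ (f : V →ₗ[A] V) (a : A), (∀ v : V, f v - a • v ∈ L) →
        ∀ w : B ⊗[A] V, f.baseChange B w - algebraMap A B a • w ∈ L') := by
  let b' : Module.Basis (Fin 2) B (B ⊗[A] V) := b.baseChange B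
  have hb'0 : b' 0 = (1 : B) ⊗ₜ[A] b 0 := Module.Basis.baseChange_apply B b 0
  have hmem : ∀ (c : B) (v : V), v ∈ L →
      c ⊗ₜ[A] v ∈ (B ∙ ((1 : B) ⊗ₜ[A] b 0) : Submodule B (B ⊗[A] V)) := by
    intro c v hv
    rw [hb] at hv
    obtain ⟨a, rfl⟩ := Submodule.mem_span_singleton.mp hv
    rw [Submodule.mem_span_singleton]
    refine ⟨c * algebraMap A B a, ?_⟩
    rw [TensorProduct.smul_tmul', smul_eq_mul, mul_one, TensorProduct.tmul_smul,
      TensorProduct.smul_tmul', Algebra.smul_def, mul_comm]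
  have hb0L : b 0 ∈ L := by
    rw [hb]
    exact Submodule.mem_span_singleton_self _
  have hscal : ∀ (f : V →ₗ[A] V) (a : A), (∀ v : V, f v - a • v ∈ L) →
      ∀ w : B ⊗[A] V, f.baseChange B w - algebraMap A B a • w ∈
        (B ∙ ((1 : B) ⊗ₜ[A] b 0) : Submodule B (B ⊗[A] V)) := by
    intro f a hf w
    induction w using TensorProduct.induction_on with
    | zero =>
      rw [LinearMap.map_zero, smul_zero, sub_zero]
      exact Submodule.zero_mem _
    | tmul c v =>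
      have h1 : algebraMap A B a • (c ⊗ₜ[A] v) = c ⊗ₜ[A] (a • v) := by
        rw [TensorProduct.smul_tmul', smul_eq_mul, TensorProduct.tmul_smul,
          TensorProduct.smul_tmul', Algebra.smul_def]
      rw [LinearMap.baseChange_tmul, h1, ← TensorProduct.tmul_sub]
      exact hmem c _ (hf v)
    | add x y hx hy =>
      rw [LinearMap.map_add, smul_add, add_sub_add_comm]
      exact Submodule.add_mem _ hx hy
  refine ⟨B ∙ b' 0, ⟨b', rfl⟩, ?_, ?_, ?_⟩
  · intro f hf w hw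
    rw [hb'0] at hw ⊢
    obtain ⟨c, rfl⟩ := Submodule.mem_span_singleton.mp hw
    rw [LinearMap.map_smul]
    refine Submodule.smul_mem _ _ ?_
    rw [LinearMap.baseChange_tmul]
    exact hmem 1 _ (hf _ hb0L)
  · intro f hf w
    rw [hb'0]
    have := hscal f 1 (fun v => by rw [one_smul]; exact hf v) w
    rwa [map_one, one_smul] at this
  · intro f a hf w
    rw [hb'0]
    exact hscal f a hf w

variable {A : Type} [CommRing A] [IsLocalRing A] {B : Type} [CommRing B] [IsLocalRing B]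

/-- **Base change of the unramified Frobenius eigenvalue.** -/
theorem unrFrobAt_baseChangeAlong (φ : A →+* B) (hφ : IsLocalHom φ) {ρ : GaloisRepAdic A} {p : ℕ}
    {α : A} (h : UnrFrobAt ρ p α) : UnrFrobAt (ρ.baseChangeAlong φ hφ) p (φ α) := by
  letI : Algebra A B := φ.toAlgebra
  obtain ⟨P, hP, L, ⟨b, hb⟩, hD, hI, hF⟩ := h
  obtain ⟨L', hL', hst, hin, hsc⟩ := exists_line_baseChange (B := B) L b hb
  refine ⟨P, hP, L', hL', ?_, ?_, ?_⟩
  · intro σ hσ v hv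
    exact hst (ρ.ρ σ) (hD σ hσ) v hv
  · intro σ hσ v
    exact hin (ρ.ρ σ) (hI σ hσ) v
  · intro σ hσ v
    exact hsc (ρ.ρ σ) α (hF σ hσ) v

end Fermat.Agent.S59.NMP.H587

end
-- ===== PACK-END S59/NMP/H587/UnrBC.lean

-- ===== PACK-BEGIN S59/NMP/H587/BettiCore.lean
section









/-!
# S59 / cell NMP, leaf LGC, bridge BETTI (helper587) — the core

`betti_bridge`: LGC-CHAR (`LgcCharStatement`) implies, for every full representation `ρ` over `𝒪`
with Frobenius characteristic polynomials `X² - a_ℓ X + ℓ` (`ℓ ∉ Σ`) and unramified Frobenius eigenvalue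
`α` at `p ∈ Σ`, `p ∤ N`:  `α · T_p x = (α² + p) · x` on every Betti `a`-eigenclass `x` of level `N`.

Proof.  `T_p` lies in the Hecke algebra `𝕋' = heckeAlgebra N 2 (Σ ∖ {p})`, which is reduced and
finite over `ℤ`; so `T_p` is a root of a monic `R ∈ ℤ[X]`, squarefree over `ℚ` (`SqfreeAnn`).  Over
the ring of integers `𝒪'` of the splitting field, `R = ∏ (X - b)` with distinct `b` (`DvrExt`).
`𝕋'` acts on `W = Hom(Λ, 𝒪')` (`NM.H709.actHom`), the `a`-eigenclasses form a `T_p`-stable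
submodule `Y`, and an eigenvector of `T_p` in `Y` with eigenvalue `c` is a joint eigenvector of
`𝕋'`, i.e. a character `χ'` with `χ'(T_p) = c` (`BettiChar`); LGC-CHAR for `χ'` and `ρ ⊗ 𝒪'`
(`UnrBC`) gives `α c = α² + p`.  Conclude by `EigenLin`.
-/

set_option autoImplicit false
set_option linter.style.haveILetI false
set_option linter.unusedSectionVars false

noncomputable section

open Polynomial IsLocalRing CongruenceSubgroup ModularCurve ModularCurve.Period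

namespace Fermat.Agent.S59.NMP.H587

open CuspForm Fermat.Agent.S30.H709 Fermat.Agent.S59.NM.H709 Fermat.Agent.S41.Spec
  Fermat.Agent.S29.H642 Fermat.Agent.S59.NMP Fermat.Agent.S59

section Stable

variable {N : ℕ} [NeZero N] {S : Set ℕ} (O : Type) [CommRing O]
  (hNS : ∀ q : ℕ, q.Prime → q ∣ N → q ∈ S)

/-- The joint eigenspace of the `T_ℓ`, `ℓ ∉ S ∪ {p}`, in `Hom(Λ, O)`, for the eigenvalues `e`. -/
def eigSub (p : ℕ) (e : ℕ → O) : Submodule O (perLattice N →+ O) where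
  carrier := {u | ∀ (ℓ : ℕ) (hℓ : ℓ.Prime) (hℓN : ¬ ℓ ∣ N) (hℓS : ℓ ∉ S), ℓ ≠ p →
    actHom O hNS (heckeAlgebra.T hℓ hℓN hℓS) u = e ℓ • u}
  zero_mem' := by
    intro ℓ hℓ hℓN hℓS _
    rw [map_zero, smul_zero]
  add_mem' := by
    intro u v hu hv ℓ hℓ hℓN hℓS hℓp
    rw [map_add, hu ℓ hℓ hℓN hℓS hℓp, hv ℓ hℓ hℓN hℓS hℓp, smul_add]
  smul_mem' := by
    intro c u hu ℓ hℓ hℓN hℓS hℓp
    rw [map_smul, hu ℓ hℓ hℓN hℓS hℓp, smul_comm]

theorem mem_eigSub {p : ℕ} {e : ℕ → O} {u : perLattice N →+ O} :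
    u ∈ eigSub O hNS p e ↔ ∀ (ℓ : ℕ) (hℓ : ℓ.Prime) (hℓN : ¬ ℓ ∣ N) (hℓS : ℓ ∉ S), ℓ ≠ p →
      actHom O hNS (heckeAlgebra.T hℓ hℓN hℓS) u = e ℓ • u := Iff.rfl

/-- The joint eigenspace is stable under the whole Hecke algebra. -/
theorem actHom_mem_eigSub {p : ℕ} {e : ℕ → O} (t : heckeAlgebra N 2 S) {u : perLattice N →+ O}
    (hu : u ∈ eigSub O hNS p e) : actHom O hNS t u ∈ eigSub O hNS p e := by
  intro ℓ hℓ hℓN hℓS hℓp
  rw [← Module.End.mul_apply, ← map_mul, mul_comm, map_mul, Module.End.mul_apply,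
    hu ℓ hℓ hℓN hℓS hℓp, map_smul]

end Stable

/-- The action of the Hecke algebra on `Hom(Λ, O)`, as a `ℤ`-algebra homomorphism. -/
def actAlgHom {N : ℕ} [NeZero N] {S : Set ℕ} (O : Type) [CommRing O]
    (hNS : ∀ q : ℕ, q.Prime → q ∣ N → q ∈ S) :
    heckeAlgebra N 2 S →ₐ[ℤ] Module.End O (perLattice N →+ O) :=
  { actHom O hNS with
    commutes' := fun r => by
      show actHom O hNS (algebraMap ℤ _ r) = algebraMap ℤ _ r
      rw [eq_intCast (algebraMap ℤ (heckeAlgebra N 2 S)) r, map_intCast]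
      refine LinearMap.ext fun u => ?_
      rw [Module.algebraMap_end_apply]
      refine AddMonoidHom.ext fun x => ?_
      simp }

theorem actAlgHom_apply {N : ℕ} [NeZero N] {S : Set ℕ} (O : Type) [CommRing O]
    (hNS : ∀ q : ℕ, q.Prime → q ∣ N → q ∈ S) (t : heckeAlgebra N 2 S) :
    actAlgHom O hNS t = actHom O hNS t := rfl

/-- A polynomial relation in the Hecke algebra holds for the action on `Hom(Λ, O)`. -/
theorem aeval_actHom_eq_zero {N : ℕ} [NeZero N] {S : Set ℕ} (O : Type) [CommRing O]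
    (hNS : ∀ q : ℕ, q.Prime → q ∣ N → q ∈ S) (t : heckeAlgebra N 2 S) (R : ℤ[X])
    (hR : aeval t R = 0) :
    aeval (actHom O hNS t) (R.map (Int.castRingHom O)) = 0 := by
  have h1 : aeval (actHom O hNS t) (R.map (Int.castRingHom O)) = aeval (actHom O hNS t) R := by
    rw [← algebraMap_int_eq, aeval_map_algebraMap]
  rw [h1]
  have h2 := Polynomial.aeval_algHom_apply (actAlgHom O hNS) t R
  rw [hR, map_zero, actAlgHom_apply] at h2
  exact h2

/-- Characteristic polynomials commute with base change. -/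
theorem charpoly_baseChangeAlong_h587 {A B : Type} [CommRing A] [IsLocalRing A] [CommRing B]
    [IsLocalRing B] (φ : A →+* B) (hφ : IsLocalHom φ) (ρ : GaloisRepAdic A)
    (σ : AlgebraicClosure ℚ ≃ₐ[ℚ] AlgebraicClosure ℚ) :
    LinearMap.charpoly ((ρ.baseChangeAlong φ hφ).ρ σ) = (LinearMap.charpoly (ρ.ρ σ)).map φ := by
  letI : Algebra A B := φ.toAlgebra
  exact LinearMap.charpoly_baseChange (ρ.ρ σ) B

/-- The eigenvalue identity on the `T_p`-eigenvectors of the joint eigenspace. -/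
theorem eigen_of_char (hchar : LgcCharStatement)
    (p : ℕ) [Fact p.Prime] (hp2 : p ≠ 2)
    (𝒪 : Type) [CommRing 𝒪] [IsDomain 𝒪] [IsDiscreteValuationRing 𝒪]
    [IsAdicComplete (maximalIdeal 𝒪) 𝒪] [Finite (ResidueField 𝒪)] [CharZero 𝒪]
    (𝒪' : Type) [CommRing 𝒪'] [IsDomain 𝒪'] [IsDiscreteValuationRing 𝒪']
    [IsAdicComplete (maximalIdeal 𝒪') 𝒪'] [Finite (ResidueField 𝒪')] [CharZero 𝒪']
    (ι : 𝒪 →+* 𝒪') (hlh : IsLocalHom ι)
    (hp𝒪' : (p : 𝒪') ∈ maximalIdeal 𝒪')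
    (N : ℕ) [NeZero N] (hpN : ¬ p ∣ N) (Sig S' : Finset ℕ) (hS' : S' = Sig.erase p)
    (hNS' : ∀ q : ℕ, q.Prime → q ∣ N → q ∈ (↑S' : Set ℕ)) (hpS' : p ∉ (↑S' : Set ℕ))
    (ρ : GaloisRepAdic 𝒪) (hspan : Submodule.span 𝒪 (Set.range ρ.ρ) = ⊤) (a : ℕ → 𝒪)
    (hρ : ∀ (ℓ : ℕ), ℓ.Prime → ¬ ℓ ∣ N → ℓ ∉ Sig →
      ∀ A : ValuationSubring (AlgebraicClosure ℚ), A.LiesOverPrime ℓ →
        ∀ σ : AlgebraicClosure ℚ ≃ₐ[ℚ] AlgebraicClosure ℚ, A.IsFrobeniusAt σ ℓ →
          LinearMap.charpoly (ρ.ρ σ) = X ^ 2 - C (a ℓ) * X + C ((ℓ : 𝒪)))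
    (α : 𝒪) (hα : UnrFrobAt ρ p α)
    (c : 𝒪') (v : perLattice N →+ 𝒪') (hv : v ∈ eigSub 𝒪' hNS' p (fun ℓ => ι (a ℓ)))
    (hv0 : v ≠ 0)
    (hTv : actHom 𝒪' hNS' (heckeAlgebra.T (Fact.out : p.Prime) hpN hpS') v = c • v) :
    ι α * c = ι α ^ 2 + (p : 𝒪') := by
  classical
  have hp : p.Prime := Fact.out
  have hSig_of : ∀ ℓ : ℕ, ℓ ∉ (↑S' : Set ℕ) → ℓ ≠ p → ℓ ∉ Sig := by
    intro ℓ hℓ hℓp hmem
    refine hℓ ?_
    rw [hS']
    exact Finset.mem_coe.mpr (Finset.mem_erase.mpr ⟨hℓp, hmem⟩)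
  obtain ⟨e, he⟩ : ∃ e : ℕ → 𝒪', ∀ ℓ, e ℓ = if ℓ = p then c else ι (a ℓ) := ⟨_, fun _ => rfl⟩
  have hep : e p = c := by rw [he, if_pos rfl]
  have hene : ∀ ℓ, ℓ ≠ p → e ℓ = ι (a ℓ) := fun ℓ h => by rw [he, if_neg h]
  have hev : ∀ (ℓ : ℕ) (hℓ : ℓ.Prime) (hℓN : ¬ ℓ ∣ N) (hℓS : ℓ ∉ (↑S' : Set ℕ)),
      actHom 𝒪' hNS' (heckeAlgebra.T hℓ hℓN hℓS) v = e ℓ • v := by
    intro ℓ hℓ hℓN hℓS
    by_cases hℓp : ℓ = p
    · subst hℓp
      rw [hep]
      exact hTv
    · rw [hene ℓ hℓp]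
      exact hv ℓ hℓ hℓN hℓS hℓp
  obtain ⟨χ, -, hχ⟩ := exists_char_of_eigen hNS' v hv0 e hev
  have hχp : χ (heckeAlgebra.T hp hpN hpS') = c := by
    rw [hχ p hp hpN hpS', hep]
  have hρ' : ∀ (ℓ : ℕ) (hℓ : ℓ.Prime) (hℓN : ¬ ℓ ∣ N) (hℓS : ℓ ∉ (↑S' : Set ℕ)), ℓ ≠ p →
      ∀ A : ValuationSubring (AlgebraicClosure ℚ), A.LiesOverPrime ℓ →
        ∀ σ : AlgebraicClosure ℚ ≃ₐ[ℚ] AlgebraicClosure ℚ, A.IsFrobeniusAt σ ℓ →
          LinearMap.charpoly ((ρ.baseChangeAlong ι hlh).ρ σ) =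
            X ^ 2 - C (χ (heckeAlgebra.T hℓ hℓN hℓS)) * X + C ((ℓ : 𝒪')) := by
    intro ℓ hℓ hℓN hℓS hℓp A hA σ hσ
    rw [charpoly_baseChangeAlong_h587, hρ ℓ hℓ hℓN (hSig_of ℓ hℓS hℓp) A hA σ hσ,
      hχ ℓ hℓ hℓN hℓS, hene ℓ hℓp]
    simp
  have hmain := hchar p hp2 N hpN S' hpS' hNS' 𝒪' hp𝒪' χ (ρ.baseChangeAlong ι hlh)
    (span_range_baseChangeAlong ι hlh ρ hspan) hρ'
    (ι α) (unrFrobAt_baseChangeAlong ι hlh hα)
  rw [hχp] at hmain
  linear_combination -hmain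

/-- **The bridge BETTI, core form.** -/
theorem betti_bridge (hchar : LgcCharStatement)
    (p : ℕ) [Fact p.Prime] (hp2 : p ≠ 2)
    (𝒪 : Type) [CommRing 𝒪] [IsDomain 𝒪] [IsDiscreteValuationRing 𝒪]
    [IsAdicComplete (maximalIdeal 𝒪) 𝒪] [Finite (ResidueField 𝒪)] [CharZero 𝒪]
    (hp𝒪 : (p : 𝒪) ∈ maximalIdeal 𝒪)
    (N : ℕ) [NeZero N] (hpN : ¬ p ∣ N) (Sig : Finset ℕ)
    (hNS : ∀ q : ℕ, q.Prime → q ∣ N → q ∈ Sig)
    (ρ : GaloisRepAdic 𝒪) (hspan : Submodule.span 𝒪 (Set.range ρ.ρ) = ⊤) (a : ℕ → 𝒪)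
    (hρ : ∀ (ℓ : ℕ), ℓ.Prime → ¬ ℓ ∣ N → ℓ ∉ Sig →
      ∀ A : ValuationSubring (AlgebraicClosure ℚ), A.LiesOverPrime ℓ →
        ∀ σ : AlgebraicClosure ℚ ≃ₐ[ℚ] AlgebraicClosure ℚ, A.IsFrobeniusAt σ ℓ →
          LinearMap.charpoly (ρ.ρ σ) = X ^ 2 - C (a ℓ) * X + C ((ℓ : 𝒪)))
    (α : 𝒪) (hα : UnrFrobAt ρ p α)
    (x : Additive (Gamma0 N) →+ 𝒪) (hx : NM.IsEigenclass N Sig a x) :
    α • heckeTransfer hpN x = (α ^ 2 + (p : 𝒪)) • x := by
  classical
  have hp : p.Prime := Fact.out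
  -- the Hecke algebra containing `T_p`
  obtain ⟨S', hS'⟩ : ∃ S' : Finset ℕ, S' = Sig.erase p := ⟨_, rfl⟩
  have hpS' : p ∉ (↑S' : Set ℕ) := by
    rw [Finset.mem_coe, hS']
    exact Finset.notMem_erase p Sig
  have hNS' : ∀ q : ℕ, q.Prime → q ∣ N → q ∈ (↑S' : Set ℕ) := by
    intro q hq hqN
    rw [Finset.mem_coe, hS', Finset.mem_erase]
    exact ⟨fun h => hpN (h ▸ hqN), hNS q hq hqN⟩
  have hSig_of : ∀ ℓ : ℕ, ℓ ∉ (↑S' : Set ℕ) → ℓ ≠ p → ℓ ∉ Sig := by
    intro ℓ hℓ hℓp hmem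
    refine hℓ ?_
    rw [hS']
    exact Finset.mem_coe.mpr (Finset.mem_erase.mpr ⟨hℓp, hmem⟩)
  obtain ⟨t, ht⟩ : ∃ t : heckeAlgebra N 2 (↑S' : Set ℕ), t = heckeAlgebra.T hp hpN hpS' :=
    ⟨_, rfl⟩
  -- a squarefree annihilating polynomial
  haveI : IsReduced (heckeAlgebra N 2 (↑S' : Set ℕ)) :=
    Fermat.Agent.S31.H862.heckeAlgebra_isReduced N _ hNS'
  haveI : Module.Finite ℤ (heckeAlgebra N 2 (↑S' : Set ℕ)) := Fermat.Agent.S22.result N 2 _
  obtain ⟨R, hRm, hRsq, hRt⟩ :=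
    exists_monic_squarefree_aeval_eq_zero t (Algebra.IsIntegral.isIntegral t)
  -- the ring of integers of the splitting field
  obtain ⟨𝒪', _, _, _, _, _, _, _, _, hlh, hinj, s, hs, hRs⟩ := exists_dvr_rootPoly 𝒪 R hRm hRsq
  obtain ⟨ι, hι⟩ : ∃ ι : 𝒪 →+* 𝒪', ι = algebraMap 𝒪 𝒪' := ⟨_, rfl⟩
  rw [← hι] at hlh hinj
  have hp𝒪' : (p : 𝒪') ∈ maximalIdeal 𝒪' := by
    have h1 : ι (p : 𝒪) = (p : 𝒪') := map_natCast ι p
    rw [← h1]
    exact map_nonunit ι _ hp𝒪
  have hp0 : (p : 𝒪') ≠ 0 := by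
    exact_mod_cast hp.ne_zero
  -- the operator `T_p` on `W = Hom(Λ, 𝒪')` and the eigenspace `Y`
  obtain ⟨T, hT⟩ : ∃ T : Module.End 𝒪' (perLattice N →+ 𝒪'), T = actHom 𝒪' hNS' t := ⟨_, rfl⟩
  obtain ⟨Y, hY⟩ : ∃ Y : Submodule 𝒪' (perLattice N →+ 𝒪'),
      Y = eigSub 𝒪' hNS' p (fun ℓ => ι (a ℓ)) := ⟨_, rfl⟩
  have hTY : ∀ v ∈ Y, T v ∈ Y := by
    intro v hv
    rw [hY] at hv ⊢
    rw [hT]
    exact actHom_mem_eigSub 𝒪' hNS' t hv
  have hTs : aeval T (rootPoly s) = 0 := by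
    rw [← hRs, hT]
    exact aeval_actHom_eq_zero 𝒪' hNS' t R hRt
  -- the class `x` over `𝒪'`
  obtain ⟨x', hx'⟩ : ∃ x' : Additive (Gamma0 N) →+ 𝒪', x' = ι.toAddMonoidHom.comp x := ⟨_, rfl⟩
  have hx'par : IsParabolicHom (Gamma0 N) x' := by
    intro γ hγ
    rw [hx', AddMonoidHom.comp_apply, hx.1.1 γ hγ, map_zero]
  obtain ⟨u, hu⟩ : ∃ u : perLattice N →+ 𝒪', u = ofCls x' hx'par := ⟨_, rfl⟩
  have htu : toCls u = x' := by
    rw [hu]
    exact toCls_ofCls x' hx'par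
  have huY : u ∈ Y := by
    rw [hY]
    intro ℓ hℓ hℓN hℓS hℓp
    haveI : Fact ℓ.Prime := ⟨hℓ⟩
    apply toCls_injective
    rw [toCls_actHom_T 𝒪' hNS' hℓN hℓS u, htu, toCls_smul, htu, hx', heckeTransfer_comp,
      hx.2 ℓ hℓN (hSig_of ℓ hℓS hℓp)]
    refine AddMonoidHom.ext fun γ => ?_
    simp
  -- the eigenvalues of `T_p` on `Y`
  have H : ∀ (c : 𝒪') (v : perLattice N →+ 𝒪'), v ∈ Y → v ≠ 0 → T v = c • v →
      ι α * c = ι α ^ 2 + (p : 𝒪') := by
    intro c v hv hv0 hTv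
    rw [hY] at hv
    rw [hT, ht] at hTv
    exact eigen_of_char hchar p hp2 𝒪 𝒪' ι hlh hp𝒪' N hpN Sig S' hS' hNS' hpS' ρ hspan a hρ α
      hα c v hv hv0 hTv
  have hαβ : ι α = 0 → ι α ^ 2 + (p : 𝒪') ≠ 0 := by
    intro h0
    rw [h0]
    simpa using hp0
  have hfin := smul_apply_eq_of_aeval_prod T Y hTY (ι α) (ι α ^ 2 + (p : 𝒪')) hαβ H s hs huY
    (by rw [hTs]; rfl)
  -- back to the classes
  have hcls : ι α • heckeTransfer hpN x' = (ι α ^ 2 + (p : 𝒪')) • x' := by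
    have h1 := congrArg toCls hfin
    rw [toCls_smul, toCls_smul, hT, ht, toCls_actHom_T 𝒪' hNS' hpN hpS' u, htu] at h1
    exact h1
  refine AddMonoidHom.ext fun γ => ?_
  apply hinj
  have h2 := DFunLike.congr_fun hcls γ
  rw [hx', heckeTransfer_comp] at h2
  simpa using h2

end Fermat.Agent.S59.NMP.H587

end
end
-- ===== PACK-END S59/NMP/H587/BettiCore.lean

-- ===== PACK-BEGIN S59/UnitQR/H464/QRElt.lean
section



/-!
# S59 / cell B1, leaf UNIT-QR, part 4: the elements `v`, `v⁻¹` of `F_{N,E}`, `q r ∣ N`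
(helper464; generic twin of helper461's `Unit3Elt`)

* `vQE E q r h N hN : FE E N`, `vQE'` : the elements with `t`-expansions `vQRL q r`, `vQRInvL q r`;
* `uRE`, `uRE'` : the elements with expansions `u(t^r)`, `u'(t^r)`, `u = Δ(t^q)/Δ(t)`;
* `vQE_pow_three : v³ = u' · u'(t^r)`, `vQE'_pow_three : v⁻³ = u · u(t^r)`;
* `dQE = q⁸ v⁻¹`, `dQE_mul_vQE : D · D' = q⁸`;
* `vQE_unit_vinf` : `v` is a unit of the Gauss valuation ring `V∞`.
-/

set_option autoImplicit false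
set_option synthInstance.maxHeartbeats 400000
set_option maxHeartbeats 1600000

noncomputable section

namespace Fermat.Agent.S59.UnitQR.H464

open ModularCurve HahnSeries Polynomial
open Fermat.Agent.A2.Mod Fermat.Agent.S28
open Fermat.Agent.S36.H438 (castE uE uE' dE)
open Fermat.Agent.S59.Unit3.H461 (embC)

/-! ## 1. The elements -/

section Elements

variable (E : IntermediateField ℚ Qb) (q r : ℕ) [NeZero q] [NeZero r] (h : QRAdm q r)

include h in
theorem castE_vQRL_mem_level : castE E (vQRL q r) ∈ FE E (q * r) :=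
  vQRL_mem_of_embedding q r h (embC E)

include h in
theorem castE_vQRL_mem (N : ℕ) [NeZero N] (hN : q * r ∣ N) : castE E (vQRL q r) ∈ FE E N :=
  Fermat.Agent.S36.H438.laurentBaseChange_mono_h438 E (full_degeneracy_le hN)
    (castE_vQRL_mem_level E q r h)

theorem castE_vQRL_mul_inv : castE E (vQRL q r) * castE E (vQRInvL q r) = 1 := by
  rw [← map_mul, vQRL_mul_vQRInvL, map_one]

theorem castE_vQRInvL_eq_inv : castE E (vQRInvL q r) = (castE E (vQRL q r))⁻¹ :=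
  eq_inv_of_mul_eq_one_right (castE_vQRL_mul_inv E q r)

include h in
theorem castE_vQRInvL_mem (N : ℕ) [NeZero N] (hN : q * r ∣ N) :
    castE E (vQRInvL q r) ∈ FE E N := by
  rw [castE_vQRInvL_eq_inv]
  exact inv_mem (castE_vQRL_mem E q r h N hN)

/-- `X(t) ∈ F_q ⟹ X(t^r) ∈ F_N`, `q r ∣ N`. -/
theorem castE_qExpand_r_mem {X : LaurentSeries ℤ} (hX : castE E X ∈ FE E q)
    (N : ℕ) [NeZero N] (hN : q * r ∣ N) : castE E (qExpand ℤ r X) ∈ FE E N := by
  have h1 : castE E (qExpand ℤ r X)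
      = ((heckeBetaBar E q r ⟨castE E X, hX⟩ : FE E (q * r)) : LaurentSeries E) := by
    rw [coe_heckeBetaBar]
    exact coeffMap_qExpand _ r X
  rw [h1]
  exact Fermat.Agent.S36.H438.laurentBaseChange_mono_h438 E (full_degeneracy_le hN)
    (SetLike.coe_mem _)

variable (N : ℕ) [NeZero N] (hN : q * r ∣ N)

/-- **The unit of level `q r`** `v = (η(τ)η(rτ)/(η(qτ)η(qrτ)))⁸` as an element of `F_{N,E}`. -/
def vQE : FE E N := ⟨castE E (vQRL q r), castE_vQRL_mem E q r h N hN⟩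

/-- Its inverse. -/
def vQE' : FE E N := ⟨castE E (vQRInvL q r), castE_vQRInvL_mem E q r h N hN⟩

/-- `u(t^r)`, `u = Δ(t^q)/Δ(t)`. -/
def uRE : FE E N :=
  ⟨castE E (qExpand ℤ r (unitL ℤ q)),
    castE_qExpand_r_mem E q r (Fermat.Agent.S36.H438.castE_unitL_mem_level E q) N hN⟩

/-- `u'(t^r)`, `u' = Δ(t)/Δ(t^q)`. -/
def uRE' : FE E N :=
  ⟨castE E (qExpand ℤ r (H589.unitL' q)),
    castE_qExpand_r_mem E q r (Fermat.Agent.S36.H438.castE_unitL'_mem E q q dvd_rfl) N hN⟩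

@[simp] theorem coe_vQE :
    ((vQE E q r h N hN : FE E N) : LaurentSeries E) = castE E (vQRL q r) := rfl

@[simp] theorem coe_vQE' :
    ((vQE' E q r h N hN : FE E N) : LaurentSeries E) = castE E (vQRInvL q r) := rfl

@[simp] theorem coe_uRE :
    ((uRE E q r N hN : FE E N) : LaurentSeries E) = castE E (qExpand ℤ r (unitL ℤ q)) := rfl

@[simp] theorem coe_uRE' :
    ((uRE' E q r N hN : FE E N) : LaurentSeries E)
      = castE E (qExpand ℤ r (H589.unitL' q)) := rfl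

theorem vQE_mul_vQE' : vQE E q r h N hN * vQE' E q r h N hN = 1 :=
  Subtype.ext (castE_vQRL_mul_inv E q r)

theorem vQE_ne_zero : vQE E q r h N hN ≠ 0 := fun h0 => by
  have := vQE_mul_vQE' E q r h N hN
  rw [h0, zero_mul] at this
  exact zero_ne_one this

theorem vQE'_ne_zero : vQE' E q r h N hN ≠ 0 := fun h0 => by
  have := vQE_mul_vQE' E q r h N hN
  rw [h0, mul_zero] at this
  exact zero_ne_one this

theorem vQE'_eq_inv : vQE' E q r h N hN = (vQE E q r h N hN)⁻¹ :=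
  eq_inv_of_mul_eq_one_right (vQE_mul_vQE' E q r h N hN)

theorem vQE_inv : (vQE E q r h N hN)⁻¹ = vQE' E q r h N hN := (vQE'_eq_inv E q r h N hN).symm

theorem vQE'_inv : (vQE' E q r h N hN)⁻¹ = vQE E q r h N hN := by
  rw [vQE'_eq_inv, inv_inv]

theorem uRE_mul_uRE' : uRE E q r N hN * uRE' E q r N hN = 1 := by
  apply Subtype.ext
  show castE E (qExpand ℤ r (unitL ℤ q)) * castE E (qExpand ℤ r (H589.unitL' q)) = 1
  rw [← map_mul, ← map_mul, Fermat.Agent.S36.H438.unitL_mul_unitL', map_one, map_one]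

include hN in
omit [NeZero q] [NeZero r] [NeZero N] in
theorem q_dvd_of_mul_dvd : q ∣ N := Dvd.dvd.trans (dvd_mul_right q r) hN

include hN in
omit [NeZero q] [NeZero r] [NeZero N] in
theorem r_dvd_of_mul_dvd : r ∣ N := Dvd.dvd.trans (dvd_mul_left r q) hN

/-- **The cube relation** in `F_{N,E}`: `v³ = u' · u'(t^r)`. -/
theorem vQE_pow_three :
    vQE E q r h N hN ^ 3 = uE' E N q (q_dvd_of_mul_dvd q r N hN) * uRE' E q r N hN := by
  apply Subtype.ext
  show (castE E (vQRL q r)) ^ 3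
    = castE E (H589.unitL' q) * castE E (qExpand ℤ r (H589.unitL' q))
  rw [← map_pow, vQRL_pow_three q r h, map_mul]

/-- **The cube relation** for the inverse: `v⁻³ = u · u(t^r)`. -/
theorem vQE'_pow_three :
    vQE' E q r h N hN ^ 3 = uE E N q (q_dvd_of_mul_dvd q r N hN) * uRE E q r N hN := by
  apply Subtype.ext
  show (castE E (vQRInvL q r)) ^ 3 = castE E (unitL ℤ q) * castE E (qExpand ℤ r (unitL ℤ q))
  rw [← map_pow, vQRInvL_pow_three q r h, map_mul]

/-- `D = q⁸ v⁻¹`. -/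
def dQE : FE E N := algebraMap E (FE E N) ((q : E) ^ 8) * vQE' E q r h N hN

theorem coe_dQE :
    ((dQE E q r h N hN : FE E N) : LaurentSeries E)
      = castE E ((q : LaurentSeries ℤ) ^ 8 * vQRInvL q r) := by
  show algebraMap E (LaurentSeries E) ((q : E) ^ 8) * castE E (vQRInvL q r) = _
  rw [map_mul, map_pow, map_pow, map_natCast, map_natCast]

/-- **The unit pair**: `D · D' = q⁸`. -/
theorem dQE_mul_vQE :
    dQE E q r h N hN * vQE E q r h N hN = algebraMap E (FE E N) ((q : E) ^ 8) := by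
  rw [dQE, mul_assoc, mul_comm (vQE' E q r h N hN), vQE_mul_vQE', mul_one]

omit [NeZero r] in
theorem q_pow_ne_zero (n : ℕ) : ((q : E) ^ n) ≠ 0 :=
  pow_ne_zero _ (Nat.cast_ne_zero.mpr (NeZero.ne q))

theorem dQE_ne_zero : dQE E q r h N hN ≠ 0 :=
  mul_ne_zero ((map_ne_zero_iff _ (algebraMap E (FE E N)).injective).mpr (q_pow_ne_zero E q 8))
    (vQE'_ne_zero E q r h N hN)

theorem dQE_inv :
    (dQE E q r h N hN)⁻¹ = algebraMap E (FE E N) ((q : E) ^ 8)⁻¹ * vQE E q r h N hN := by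
  rw [dQE, mul_inv, vQE'_inv, map_inv₀]

/-- `D³ = (q¹² u) · (q¹² u(t^r))`. -/
theorem dQE_pow_three :
    dQE E q r h N hN ^ 3 = dE E N q (q_dvd_of_mul_dvd q r N hN) *
      (algebraMap E (FE E N) ((q : E) ^ 12) * uRE E q r N hN) := by
  rw [dQE, mul_pow, vQE'_pow_three, dE, ← map_pow]
  have h' : ((q : E) ^ 8) ^ 3 = (q : E) ^ 12 * (q : E) ^ 12 := by ring
  rw [h', map_mul]
  ring

end Elements

/-! ## 2. `v` is a unit of the Gauss valuation ring `V∞` -/

section Gauss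

variable (P : ValuationSubring Qb) (E : IntermediateField ℚ Qb) (q r : ℕ) [NeZero q] [NeZero r]
  (h : QRAdm q r) (N : ℕ) [NeZero N] (hN : q * r ∣ N)

/-- **UNIT-QR (1)**: `D' = v` is a unit of `V∞`. -/
theorem vQE_unit_vinf {V : ValuationSubring (FE E N)} (hV : IsVinf P E N V) :
    vQE E q r h N hN ∈ V ∧ (vQE E q r h N hN)⁻¹ ∈ V := by
  refine ⟨Fermat.Agent.S36.H438.mem_vinf_of_coe_eq_castE P E hV (coe_vQE E q r h N hN), ?_⟩
  rw [vQE_inv]
  exact Fermat.Agent.S36.H438.mem_vinf_of_coe_eq_castE P E hV (coe_vQE' E q r h N hN)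

end Gauss

end Fermat.Agent.S59.UnitQR.H464

end
end
-- ===== PACK-END S59/UnitQR/H464/QRElt.lean

-- ===== PACK-BEGIN A2/Top/H672/WallS3.lean
section





/-!
# WALL A2 from S3 alone (helper672)

`wall_of_s3` : `S3Statement` (ordinary double points, all `P E M q w`) ⟹ `Target N q m` for every
`q ‖ N`, `q ∤ m`.  Everything else is plugged in from main: ALG route S (`WallNoSep.algS`, no
`SepCoord`, so S4 is not needed), IF (`IF.H429`), D2 (`H876`), T0/T1 (`H669`), L1–L11, S1 (`H13`),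
S2 (`Mod.H994.s2_of_resInf` + `Mod.H378.resInf`), Sτ (`H751`), GOODRED (`Top.H216`).
-/

set_option autoImplicit false
set_option linter.unusedSectionVars false
set_option synthInstance.maxHeartbeats 400000
set_option maxHeartbeats 1600000

namespace Fermat.Agent.A2.Top.H672

open Fermat.Agent.A2

/-- **The Kummer form of the wall A2 from S3 alone.** -/
theorem kummerTarget_of_s3
    (hS3 : ∀ (P : ValuationSubring Qb) (E : IntermediateField ℚ Qb) (M q : ℕ) [NeZero M]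
      [NeZero q] (w : RE P E), Mod.S3Statement P E M q w)
    (N q m : ℕ) (hq : q.Prime) (hqN : q ∣ N) (hq2 : ¬ q ^ 2 ∣ N) (hN : N ≠ 0) (hm : 0 < m)
    (hqm : ¬ q ∣ m) : KummerTarget N q m :=
  kummerTarget_noSep
    (fun P E M q _ _ w => Mod.H994.s2_of_resInf P E M q w (Mod.H378.resInf P E M q w))
    hS3 Top.H216.goodRedStatement N q m hq hqN hq2 hN hm hqm

/-- **The wall A2 from S3 alone.** -/
theorem wall_of_s3
    (hS3 : ∀ (P : ValuationSubring Qb) (E : IntermediateField ℚ Qb) (M q : ℕ) [NeZero M]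
      [NeZero q] (w : RE P E), Mod.S3Statement P E M q w)
    (N q m : ℕ) (hq : q.Prime) (hqN : q ∣ N) (hq2 : ¬ q ^ 2 ∣ N) (hN : N ≠ 0) (hm : 0 < m)
    (hqm : ¬ q ∣ m) : Target N q m :=
  wallNoSep
    (fun P E M q _ _ w => Mod.H994.s2_of_resInf P E M q w (Mod.H378.resInf P E M q w))
    hS3 Top.H216.goodRedStatement N q m hq hqN hq2 hN hm hqm

end Fermat.Agent.A2.Top.H672

end
-- ===== PACK-END A2/Top/H672/WallS3.lean

-- ===== PACK-BEGIN S59/LoSqC/H987/RedSub.lean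
section




/-!
# S59 / cell (C) LO-SQ, leaf W-SUB, reduction half, in `Eng.TripleCtx` form (helper987)

* `divisibleDiv_map_987` : `m ∣ div g` ⟹ `m ∣ div (φ g)` for an `E`-embedding `φ : F' → F`
  (pull-back of divisors; no finiteness needed).
* `redPair` : for `u ≡ 1` on `V₁`, `V₃`, `u` a unit at `V₂` (output of `wNew`) there are
  `b c : F'`, units at `V₂'`, with `u ≡ β b` on `V₂` and `α c · (β b) ^ q ≡ 1` on `V₃`.
* `redSub` : for `g g' : F'`, `≡ 1` on `V₁'`, with `g' ≡ b · h ^ m`, `g ≡ c ^ q' · h' ^ m` on `V₂'`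
  (`q q' = 1 + j m`) there is `G ≠ 0` with `u / (α g · β g' · G ^ m) ≡ 1` on `V₁, V₂, V₃`; if
  moreover `m ∣ div u, g, g'` then `m ∣ div` of the quotient.
* `RSurjAt`, `redSub_of_surj` : the same with `g`, `g'` produced by surjectivity of the
  reductions at level `M q` in the form `(0, *)`.
-/

set_option autoImplicit false
set_option linter.style.haveILetI false
set_option linter.unusedSectionVars false
set_option linter.unusedVariables false
set_option synthInstance.maxHeartbeats 400000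
set_option maxHeartbeats 1600000

noncomputable section

namespace Fermat.Agent.S59.LoSqC.H987

open Fermat.Agent.S36.Eng
open Fermat.Agent.S36.H586
open Fermat.Agent

/-! ## Pull-back of `DivisibleDiv` -/

section Pull

variable {F : Type*} [Field F]

/-- A discrete valuation subring has value group generated by the value of a uniformiser. -/
theorem exists_val_zpow_987 (V : ValuationSubring F) [IsDiscreteValuationRing V] :
    ∃ t : F, t ≠ 0 ∧ V.valuation t < 1 ∧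
      ∀ f : F, f ≠ 0 → ∃ k : ℤ, V.valuation f = V.valuation t ^ k := by
  obtain ⟨ϖ, hϖ⟩ := IsDiscreteValuationRing.exists_irreducible V
  have ht0 : (ϖ : F) ≠ 0 := fun h => hϖ.ne_zero (Subtype.ext h)
  have htlt : V.valuation (ϖ : F) < 1 := by
    rw [← ValuationSubring.valuation_lt_one_iff]
    exact (IsLocalRing.mem_maximalIdeal _).2 hϖ.not_isUnit
  refine ⟨(ϖ : F), ht0, htlt, ?_⟩
  have key : ∀ z : F, z ≠ 0 → z ∈ V → ∃ n : ℕ, V.valuation z = V.valuation (ϖ : F) ^ n := by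
    intro z hz0 hzV
    have hz0' : (⟨z, hzV⟩ : V) ≠ 0 := fun h => hz0 (congrArg Subtype.val h)
    obtain ⟨n, hn⟩ := IsDiscreteValuationRing.associated_pow_irreducible hz0' hϖ
    obtain ⟨u, hu⟩ := hn
    refine ⟨n, ?_⟩
    have h1 : z * ((u : V) : F) = (ϖ : F) ^ n := by
      have := congrArg Subtype.val hu
      simpa using this
    have h2 : V.valuation (((u : V) : F)) = 1 := ValuationSubring.valuation_unit V u
    have h3 := congrArg V.valuation h1
    rw [map_mul, h2, mul_one, map_pow] at h3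
    exact h3
  intro f hf
  rcases V.mem_or_inv_mem f with h | h
  · obtain ⟨n, hn⟩ := key f hf h
    exact ⟨n, by rw [hn, zpow_natCast]⟩
  · obtain ⟨n, hn⟩ := key f⁻¹ (inv_ne_zero hf) h
    refine ⟨-n, ?_⟩
    rw [map_inv₀] at hn
    rw [zpow_neg, zpow_natCast, ← hn, inv_inv]

variable {E F' : Type*} [Field E] [Field F'] [Algebra E F'] [Algebra E F]

/-- `m ∣ div g` ⟹ `m ∣ div (φ g)`. -/
theorem divisibleDiv_map_987 (φ : F' →ₐ[E] F) (m : ℕ) {g : F'} (hg0 : g ≠ 0)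
    (hg : A2.DivisibleDiv E m g) : A2.DivisibleDiv E m (φ g) := by
  intro V hV hEV
  haveI := hV
  obtain ⟨t, ht0, htlt, hval⟩ := exists_val_zpow_987 V
  have hγ0 : V.valuation t ≠ 0 := (Valuation.ne_zero_iff _).2 ht0
  rcases Fermat.Agent.Ribet.H127.comap_trivial_or_dvr_h127 (φ : F' →+* F) V hγ0 htlt hval with
    htriv | hdvr
  · have h1 : V.valuation (φ g) = 1 := htriv g hg0
    refine ⟨1, φ g, one_ne_zero, ?_, ?_, by rw [one_pow, mul_one]⟩
    · exact (ValuationSubring.valuation_le_one_iff V _).1 h1.le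
    · refine (ValuationSubring.valuation_le_one_iff V _).1 ?_
      rw [map_inv₀, h1, inv_one]
  · have hE' : ∀ e : E, algebraMap E F' e ∈ V.comap (φ : F' →+* F) := by
      intro e
      rw [ValuationSubring.mem_comap]
      have : (φ : F' →+* F) (algebraMap E F' e) = algebraMap E F e := φ.commutes e
      rw [this]
      exact hEV e
    obtain ⟨h, u, hh0, hu, hu', hgu⟩ := hg (V.comap (φ : F' →+* F)) hdvr hE'
    refine ⟨φ h, φ u, (map_ne_zero φ).2 hh0, ?_, ?_, ?_⟩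
    · exact (ValuationSubring.mem_comap).1 hu
    · have := (ValuationSubring.mem_comap).1 hu'
      rwa [show (φ : F' →+* F) u⁻¹ = (φ u)⁻¹ from map_inv₀ φ u] at this
    · rw [hgu, map_mul, map_pow]

/-- `DivisibleDiv` of a quotient `u / (a · a' · G ^ m)`. -/
theorem divisibleDiv_quot_987 (m : ℕ) {u a a' G : F} (hG : G ≠ 0)
    (hu : A2.DivisibleDiv E m u) (ha : A2.DivisibleDiv E m a) (ha' : A2.DivisibleDiv E m a') :
    A2.DivisibleDiv E m (u / (a * a' * G ^ m)) := by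
  intro V hV hEV
  obtain ⟨h₁, u₁, hh₁, hu₁, hu₁', e₁⟩ := hu V hV hEV
  obtain ⟨h₂, u₂, hh₂, hu₂, hu₂', e₂⟩ := ha V hV hEV
  obtain ⟨h₃, u₃, hh₃, hu₃, hu₃', e₃⟩ := ha' V hV hEV
  refine ⟨h₁ * h₂⁻¹ * h₃⁻¹ * G⁻¹, u₁ * u₂⁻¹ * u₃⁻¹,
    mul_ne_zero (mul_ne_zero (mul_ne_zero hh₁ (inv_ne_zero hh₂)) (inv_ne_zero hh₃))
      (inv_ne_zero hG), ?_, ?_, ?_⟩
  · exact V.mul_mem _ _ (V.mul_mem _ _ hu₁ hu₂') hu₃'
  · have e : (u₁ * u₂⁻¹ * u₃⁻¹)⁻¹ = u₁⁻¹ * u₂ * u₃ := by
      rw [mul_inv, mul_inv, inv_inv, inv_inv]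
    rw [e]
    exact V.mul_mem _ _ (V.mul_mem _ _ hu₁' hu₂) hu₃
  · rw [e₁, e₂, e₃, mul_pow, mul_pow, mul_pow, inv_pow, inv_pow, inv_pow]
    by_cases hu₂0 : u₂ = 0
    · simp [hu₂0]
    by_cases hu₃0 : u₃ = 0
    · simp [hu₃0]
    have : h₂ ^ m ≠ 0 := pow_ne_zero _ hh₂
    have : h₃ ^ m ≠ 0 := pow_ne_zero _ hh₃
    have : G ^ m ≠ 0 := pow_ne_zero _ hG
    field_simp

end Pull

/-! ## The reduction half of W-SUB -/

section RedSub

variable {R E F F' : Type} [CommRing R] [IsDomain R] [IsDiscreteValuationRing R]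
  [HenselianLocalRing R] [IsAlgClosed (IsLocalRing.ResidueField R)]
  [Field E] [CharZero E] [Algebra R E] [IsFractionRing R E]
  [Field F] [Algebra E F] [Algebra R F] [IsScalarTower R E F]
  [Field F'] [Algebra E F'] [Algebra R F'] [IsScalarTower R E F']

/-- The residues to be realised at level `M q`: `u ≡ β b` on `V₂`, `α c · (β b) ^ q ≡ 1` on
`V₃`. -/
theorem redPair (w : R) (hw : Irreducible w) (q : ℕ) (hq : q.Prime)
    (hqR : (q : R) ∈ IsLocalRing.maximalIdeal R)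
    (α β : F' →ₐ[E] F) (x : F) (x' : F')
    (V₁ V₂ V₃ : ValuationSubring F) (V₁' V₂' : ValuationSubring F')
    (T : TripleCtx w q α β x x' V₁ V₂ V₃ V₁' V₂')
    (u : F) (hu₂ : V₂.valuation u = 1) :
    ∃ b c : F', V₂'.valuation b = 1 ∧ V₂'.valuation c = 1 ∧
      u / β b - 1 ∈ V₂.nonunits ∧ α c * (β b) ^ q - 1 ∈ V₃.nonunits := by
  obtain ⟨π, hπ, A⟩ := absCtx_of_ctx w hw q hq hqR α β x x' V₁ V₂ V₃ V₁' V₂' T
  obtain ⟨b, c, hb, hc, h1, h2⟩ := exists_red_pair (α : F' →+* F) (β : F' →+* F)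
    (S29.H395.normAlong α) (S29.H395.normAlong β) q (algebraMap R F' w) π V₁' V₂' V₁ V₂ V₃
    A.Tα A.Tβ u hu₂
  exact ⟨b, c, hb, hc, pu_iff.1 h1, pu_iff.1 h2⟩

/-- **W-SUB, reduction half.**  Old classes with trivial reduction on `V₁'` and the reductions
`b`, `c ^ q'` on `V₂'` kill the reductions of `u`. -/
theorem redSub (w : R) (hw : Irreducible w) (q : ℕ) (hq : q.Prime)
    (hqR : (q : R) ∈ IsLocalRing.maximalIdeal R)
    (α β : F' →ₐ[E] F) (x : F) (x' : F')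
    (V₁ V₂ V₃ : ValuationSubring F) (V₁' V₂' : ValuationSubring F')
    (T : TripleCtx w q α β x x' V₁ V₂ V₃ V₁' V₂') (m : ℕ)
    (u : F) (hu₁ : u - 1 ∈ V₁.nonunits) (hu₃ : u - 1 ∈ V₃.nonunits)
    (b c : F') (hb : V₂'.valuation b = 1)
    (hub : u / β b - 1 ∈ V₂.nonunits) (hcb : α c * (β b) ^ q - 1 ∈ V₃.nonunits)
    (q' j : ℕ) (hqq : q * q' = 1 + j * m)
    (g g' h h' : F') (hg₁ : g - 1 ∈ V₁'.nonunits) (hg'₁ : g' - 1 ∈ V₁'.nonunits)
    (hh : V₂'.valuation h = 1) (hh' : V₂'.valuation h' = 1)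
    (hg' : g' / (b * h ^ m) - 1 ∈ V₂'.nonunits)
    (hg : g / (c ^ q' * h' ^ m) - 1 ∈ V₂'.nonunits) :
    ∃ G : F, G ≠ 0 ∧ u / (α g * β g' * G ^ m) - 1 ∈ V₁.nonunits ∧
      u / (α g * β g' * G ^ m) - 1 ∈ V₂.nonunits ∧
      u / (α g * β g' * G ^ m) - 1 ∈ V₃.nonunits ∧
      (A2.DivisibleDiv E m u → A2.DivisibleDiv E m g → A2.DivisibleDiv E m g' →
        A2.DivisibleDiv E m (u / (α g * β g' * G ^ m))) := by
  obtain ⟨π, hπ, A⟩ := absCtx_of_ctx w hw q hq hqR α β x x' V₁ V₂ V₃ V₁' V₂' T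
  obtain ⟨G, hG0, h1, h2, h3⟩ := redSub_core (α : F' →+* F) (β : F' →+* F)
    (S29.H395.normAlong α) (S29.H395.normAlong β) q m (algebraMap R F' w) π V₁' V₂' V₁ V₂ V₃
    A.Tα A.Tβ A.hap_res u (pu_iff.2 hu₁) (pu_iff.2 hu₃) b c hb (pu_iff.2 hub) (pu_iff.2 hcb)
    q' j hqq g g' h h' (pu_iff.2 hg₁) (pu_iff.2 hg'₁) hh hh' (pu_iff.2 hg') (pu_iff.2 hg)
  refine ⟨G, hG0, pu_iff.1 h1, pu_iff.1 h2, pu_iff.1 h3, ?_⟩
  intro hdu hdg hdg'
  have hg0 : g ≠ 0 := (pu_iff.2 hg₁ : PU V₁' g).ne_zero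
  have hg'0 : g' ≠ 0 := (pu_iff.2 hg'₁ : PU V₁' g').ne_zero
  exact divisibleDiv_quot_987 m hG0 hdu (divisibleDiv_map_987 α m hg0 hdg)
    (divisibleDiv_map_987 β m hg'0 hdg')

/-- Surjectivity of the reductions at level `M q` in the form `(0, *)`, for ONE residue `b`:
there is `g` with `m ∣ div g`, `g ≡ 1` on `V₁'` and `g ≡ b · h ^ m` on `V₂'`. -/
def RSurjAt {E F' : Type*} [Field E] [Field F'] [Algebra E F'] (m : ℕ)
    (V₁' V₂' : ValuationSubring F') (b : F') : Prop :=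
  ∃ g h : F', A2.DivisibleDiv E m g ∧ g - 1 ∈ V₁'.nonunits ∧ V₂'.valuation h = 1 ∧
    g / (b * h ^ m) - 1 ∈ V₂'.nonunits

/-- **W-SUB, reduction half, with surjectivity.**  If the two residues `b`, `c ^ q'` of
`redPair` are realised at level `M q` (`RSurjAt`), then `u = α g · β g' · G ^ m · u'` with
`u' ≡ 1` on `V₁, V₂, V₃` and `m ∣ div g, g', u'`. -/
theorem redSub_of_surj (w : R) (hw : Irreducible w) (q : ℕ) (hq : q.Prime)
    (hqR : (q : R) ∈ IsLocalRing.maximalIdeal R)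
    (α β : F' →ₐ[E] F) (x : F) (x' : F')
    (V₁ V₂ V₃ : ValuationSubring F) (V₁' V₂' : ValuationSubring F')
    (T : TripleCtx w q α β x x' V₁ V₂ V₃ V₁' V₂') (m : ℕ)
    (u : F) (hdu : A2.DivisibleDiv E m u)
    (hu₁ : u - 1 ∈ V₁.nonunits) (hu₃ : u - 1 ∈ V₃.nonunits)
    (b c : F') (hb : V₂'.valuation b = 1)
    (hub : u / β b - 1 ∈ V₂.nonunits) (hcb : α c * (β b) ^ q - 1 ∈ V₃.nonunits)
    (q' j : ℕ) (hqq : q * q' = 1 + j * m)
    (hSb : RSurjAt (E := E) m V₁' V₂' b) (hSc : RSurjAt (E := E) m V₁' V₂' (c ^ q')) :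
    ∃ (g g' : F') (G u' : F), G ≠ 0 ∧ A2.DivisibleDiv E m g ∧ A2.DivisibleDiv E m g' ∧
      A2.DivisibleDiv E m u' ∧ u = α g * β g' * G ^ m * u' ∧
      u' - 1 ∈ V₁.nonunits ∧ u' - 1 ∈ V₂.nonunits ∧ u' - 1 ∈ V₃.nonunits := by
  obtain ⟨g', h, hdg', hg'₁, hh, hg'⟩ := hSb
  obtain ⟨g, h', hdg, hg₁, hh', hg⟩ := hSc
  obtain ⟨G, hG0, h1, h2, h3, hd⟩ := redSub w hw q hq hqR α β x x' V₁ V₂ V₃ V₁' V₂' T m u
    hu₁ hu₃ b c hb hub hcb q' j hqq g g' h h' hg₁ hg'₁ hh hh' hg' hg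
  have hg0 : g ≠ 0 := (pu_iff.2 hg₁ : PU V₁' g).ne_zero
  have hg'0 : g' ≠ 0 := (pu_iff.2 hg'₁ : PU V₁' g').ne_zero
  refine ⟨g, g', G, u / (α g * β g' * G ^ m), hG0, hdg, hdg', hd hdu hdg hdg', ?_, h1, h2, h3⟩
  have hA0 : α g ≠ 0 := (map_ne_zero α).2 hg0
  have hA'0 : β g' ≠ 0 := (map_ne_zero β).2 hg'0
  have hGm0 : G ^ m ≠ 0 := pow_ne_zero _ hG0
  field_simp

end RedSub

end Fermat.Agent.S59.LoSqC.H987

end

end
-- ===== PACK-END S59/LoSqC/H987/RedSub.lean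

-- ===== PACK-BEGIN Ribet/H868/TameDescent.lean
section









/-!
# RIBET rows 37/38, TAME package: descent of the Kummer generator to the inertia field
  (helper868)

`A` a valuation subring of `ℚ̄`, `I = A.inertiaSubgroupIn ℚ`, `E = ℚ̄^I` the inertia field
(`A2.IF.H429.inertiaField A`).  An `m`-torsion class `x ∈ J₀(N)(ℚ̄)` fixed by `I` has a Kummer
generator defined over `E`:

* `exists_fixed_kummerGen` : `∃ y ∈ F_{N,E}ˣ`, `IsKummerGen N m (ι y) x` and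
  `A2.DivisibleDiv E m y`.

Inputs: `S36.H756.exists_fixed_kummer_rep` (Hilbert 90 on Kummer cocycles),
`S36.H756.exists_iota_eq_of_fixed` (fixed functions descend), `A2.T1.H669.divisibleDiv_of_ord`.
Also `IsKummerGen.const_mul868` (a constant multiple of a Kummer generator is one).
-/

set_option autoImplicit false
set_option synthInstance.maxHeartbeats 400000
set_option maxHeartbeats 1000000
set_option linter.unusedSectionVars false
set_option linter.style.haveILetI false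

noncomputable section

namespace Fermat.Agent.Ribet.H868

open AlgebraicCurve ModularCurve HahnSeries
open Fermat.Agent.S24 Fermat.Agent.Ribet.H884
open Fermat.Agent.A2.T1.H669 (iota)
open Fermat.Agent.A2.IF.H429 (inertiaField)

variable (N : ℕ) [NeZero N]

/-- A constant multiple of a Kummer generator is a Kummer generator. -/
theorem IsKummerGen.const_mul868 {m : ℕ} {f : FF N} {x : JZero N} (h : IsKummerGen N m f x)
    {c : Kbar} (hc : c ≠ 0) : IsKummerGen N m (algebraMap Kbar (FF N) c * f) x := by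
  obtain ⟨hf, D, hD, hord⟩ := h
  have hcK : algebraMap Kbar (FF N) c ≠ 0 := by simpa using hc
  refine ⟨mul_ne_zero hcK hf, D, hD, fun v => ?_⟩
  rw [v.ord_mul hcK hf, Fermat.Agent.S36.H756.ord_const_eq_zero, zero_add, hord]

/-- **Descent to the inertia field** (the inertia field written as a fixed field). -/
theorem exists_fixed_kummerGen_aux (m : ℕ) (A : ValuationSubring Kbar) (x : JZero N)
    (hx : m • x = 0) (hfix : ∀ σ ∈ A.inertiaSubgroupIn ℚ, σ • x = x) :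
    ∃ y : laurentBaseChange (IntermediateField.fixedField (A.inertiaSubgroupIn ℚ))
        (modularFunctionFieldFull N),
      y ≠ 0 ∧ IsKummerGen N m (iota (IntermediateField.fixedField (A.inertiaSubgroupIn ℚ))
        (modularFunctionFieldFull N) y) x ∧
      Fermat.Agent.A2.DivisibleDiv (IntermediateField.fixedField (A.inertiaSubgroupIn ℚ)) m y := by
  haveI : HasPrincipalDivisors Kbar (laurentBaseChange Kbar (modularFunctionFieldFull N)) :=
    Fermat.Agent.S37.H868.hpd_bar Kbar N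
  have hconst : Fermat.Agent.S36.H756.ConstOfOrdZero Kbar
      (laurentBaseChange Kbar (modularFunctionFieldFull N)) := by
    intro u hu h
    obtain ⟨c, hc⟩ := Fermat.Agent.S18.H504.constOfOrdZero_modularFunctionFieldBar N u hu h
    exact ⟨c, hc.symm⟩
  obtain ⟨D, f, hf, hDx, hord, hfixed⟩ :=
    Fermat.Agent.S36.H756.exists_fixed_kummer_rep (F₀ := modularFunctionFieldFull N) hconst
      (A.inertiaSubgroupIn ℚ) m x hx hfix
  obtain ⟨y, hy⟩ := Fermat.Agent.S36.H756.exists_iota_eq_of_fixed (A.inertiaSubgroupIn ℚ) f hfixed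
  have hy0 : y ≠ 0 := by
    rintro rfl
    rw [map_zero] at hy
    exact hf hy.symm
  refine ⟨y, hy0, ⟨by rw [hy]; exact hf, D, hDx, fun v => by rw [hy]; exact hord v⟩, ?_⟩
  refine Fermat.Agent.A2.T1.H669.divisibleDiv_of_ord (IntermediateField.fixedField
    (A.inertiaSubgroupIn ℚ)) (modularFunctionFieldFull N) m y hy0 fun v => ?_
  rw [hy, hord v]
  exact dvd_mul_right _ _

/-- **Descent to the inertia field.** -/
theorem exists_fixed_kummerGen (m : ℕ) (A : ValuationSubring Kbar) (x : JZero N)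
    (hx : m • x = 0) (hfix : ∀ σ ∈ A.inertiaSubgroupIn ℚ, σ • x = x) :
    ∃ y : laurentBaseChange (inertiaField A) (modularFunctionFieldFull N),
      y ≠ 0 ∧ IsKummerGen N m (iota (inertiaField A) (modularFunctionFieldFull N) y) x ∧
      Fermat.Agent.A2.DivisibleDiv (inertiaField A) m y :=
  exists_fixed_kummerGen_aux N m A x hx hfix

end Fermat.Agent.Ribet.H868

end

end
-- ===== PACK-END Ribet/H868/TameDescent.lean

-- ===== PACK-BEGIN S27/H145/Modular.lean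
section






/-!
# Torsion of the Jacobians of the modular curves, in every characteristic (helper145)

S27 (characteristic-free form, `CharFree.lean`) applied to the modular function fields:

* `isCurveOver_fullC k N hchar`, `essFiniteType_fullC k N hchar` : the hypotheses of S27 for
  `F_k = modularFunctionFieldFullC k N`, `k` algebraically closed of ANY characteristic in which
  the primes dividing `N` are invertible;
* `card_torsion_fullC k N hchar n hn` :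
  `#Pic⁰(F_k)[n] = n ^ (2 * genusFF k F_k)` for `n` invertible in `k`
  (`Pic0 k F_k` is the Prelude's `JZeroC k N`);
* `isCurveOver_bar N`, `essFiniteType_bar N`, `card_torsion_bar N n hn` : the same over `ℚ̄`
  (`Pic0 ℚ̄ (modularFunctionFieldBar N)` is the Prelude's `JZero N`);
* `card_torsion_JZero N n hn : Nat.card {x : JZero N // n • x = 0} = n ^ (2 g)`.

Consumers: RIBET WALL-q, leaf Q3 / TORS-LIFT (surjectivity of the specialisation map on
`p`-torsion by counting).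
-/

set_option autoImplicit false
universe u

open AlgebraicCurve ModularCurve IntermediateField

namespace Fermat.Agent.S27.H145

noncomputable section

/-! ## Characteristic `q` (and `0`): the fields `modularFunctionFieldFullC k N` -/

section FullC

variable (k : Type u) [Field k] [IsAlgClosed k] (N : ℕ) [NeZero N]

/-- `j`, as an element of `F_k`. -/
abbrev jFullC : modularFunctionFieldFullC k N := ⟨jqModC k, jqModC_mem_full k N⟩

/-- `F_k / k(j)` is separable, in every characteristic. -/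
theorem isSeparable_fullC (hchar : ∀ p : ℕ, p.Prime → p ∣ N → (p : k) ≠ 0) :
    Algebra.IsSeparable k⟮jFullC k N⟯ (modularFunctionFieldFullC k N) := by
  have hfin : FiniteDimensional k⟮jFullC k N⟯ (modularFunctionFieldFullC k N) :=
    Fermat.Agent.S18.H739.finiteDimensional_adjoin_jC k N hchar
  have halg : Algebra.IsAlgebraic k⟮jFullC k N⟯ (modularFunctionFieldFullC k N) :=
    Algebra.IsAlgebraic.of_finite _ _
  obtain ⟨p, hp⟩ := CharP.exists k
  rcases CharP.char_is_prime_or_zero k p with hpp | rfl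
  · have : Fact p.Prime := ⟨hpp⟩
    exact Fermat.Agent.S18.H264.algebra_isSeparable_full k p N
  · have : CharZero k := CharP.charP_to_charZero k
    have : CharZero k⟮jFullC k N⟯ :=
      charZero_of_injective_algebraMap (algebraMap k k⟮jFullC k N⟯).injective
    exact Algebra.IsAlgebraic.isSeparable_of_perfectField

/-- The modular function field over `k` is a curve in the sense of the Prelude. -/
theorem isCurveOver_fullC (hchar : ∀ p : ℕ, p.Prime → p ∣ N → (p : k) ≠ 0) :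
    IsCurveOver k (modularFunctionFieldFullC k N) := by
  have hfin : FiniteDimensional k⟮jFullC k N⟯ (modularFunctionFieldFullC k N) :=
    Fermat.Agent.S18.H739.finiteDimensional_adjoin_jC k N hchar
  have hsep := isSeparable_fullC k N hchar
  exact isCurveOver_of_ff1 (Fermat.Agent.S18.H383.ff1_fullC k N hchar) (jFullC k N)
    (Fermat.Agent.S18.H739.transcendental_jC k N)

/-- The modular function field over `k` is essentially of finite type. -/
theorem essFiniteType_fullC (hchar : ∀ p : ℕ, p.Prime → p ∣ N → (p : k) ≠ 0) :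
    Algebra.EssFiniteType k (modularFunctionFieldFullC k N) := by
  have hfin : FiniteDimensional k⟮jFullC k N⟯ (modularFunctionFieldFullC k N) :=
    Fermat.Agent.S18.H739.finiteDimensional_adjoin_jC k N hchar
  exact essFiniteType_of_finite (K := k) (jFullC k N)

/-- **Torsion of `Pic⁰(X₀(N)_k)`**, `k` algebraically closed of any characteristic prime to `N`,
`n` invertible in `k`: `#Pic⁰(F_k)[n] = n ^ (2 g(F_k))`. -/
theorem card_torsion_fullC (hchar : ∀ p : ℕ, p.Prime → p ∣ N → (p : k) ≠ 0)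
    (n : ℕ) (hn : (n : k) ≠ 0) :
    Nat.card (Pic0.torsion k (modularFunctionFieldFullC k N) n) =
      n ^ (2 * genusFF k (modularFunctionFieldFullC k N)) := by
  have h1 := isCurveOver_fullC k N hchar
  have h2 := essFiniteType_fullC k N hchar
  exact card_torsion k (modularFunctionFieldFullC k N) n hn

/-- The torsion subgroup `Pic⁰(F_k)[n]` is finite. -/
theorem finite_torsion_fullC (hchar : ∀ p : ℕ, p.Prime → p ∣ N → (p : k) ≠ 0)
    (n : ℕ) (hn : (n : k) ≠ 0) :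
    Finite (Pic0.torsion k (modularFunctionFieldFullC k N) n) := by
  have h1 := isCurveOver_fullC k N hchar
  have h2 := essFiniteType_fullC k N hchar
  exact finite_torsion k (modularFunctionFieldFullC k N) n hn

end FullC

/-! ## Characteristic `0`: `J₀(N) = Pic⁰(ℚ̄(X₀(N)))` -/

section Bar

variable (N : ℕ) [NeZero N]

/-- `ℚ̄(X₀(N))` is a curve in the sense of the Prelude. -/
theorem isCurveOver_bar : IsCurveOver (AlgebraicClosure ℚ) (modularFunctionFieldBar N) :=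
  (isCurveOver_of_ff1_charZero
    (Fermat.Agent.Lib.RR.H864.ff1_modularFunctionFieldBar N)).1

/-- `ℚ̄(X₀(N))` is essentially of finite type over `ℚ̄`. -/
theorem essFiniteType_bar :
    Algebra.EssFiniteType (AlgebraicClosure ℚ) (modularFunctionFieldBar N) :=
  (isCurveOver_of_ff1_charZero
    (Fermat.Agent.Lib.RR.H864.ff1_modularFunctionFieldBar N)).2

/-- **Torsion of `J₀(N)`**: `#J₀(N)[n] = n ^ (2 g)`, `g = genusFF ℚ̄ ℚ̄(X₀(N))`. -/
theorem card_torsion_bar (n : ℕ) (hn : n ≠ 0) :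
    Nat.card (Pic0.torsion (AlgebraicClosure ℚ) (modularFunctionFieldBar N) n) =
      n ^ (2 * genusFF (AlgebraicClosure ℚ) (modularFunctionFieldBar N)) := by
  have h1 := isCurveOver_bar N
  have h2 := essFiniteType_bar N
  exact card_torsion (AlgebraicClosure ℚ) (modularFunctionFieldBar N) n
    (Nat.cast_ne_zero.2 hn)

/-- The same, as a statement on `{x : J₀(N) // n • x = 0}`. -/
theorem card_torsion_JZero (n : ℕ) (hn : n ≠ 0) :
    Nat.card {x : JZero N // n • x = 0} =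
      n ^ (2 * genusFF (AlgebraicClosure ℚ) (modularFunctionFieldBar N)) := by
  rw [← card_torsion_bar N n hn]
  refine Nat.card_congr (Equiv.subtypeEquivRight fun x => ?_)
  rw [Pic0.mem_torsion, natCast_zsmul]

/-- `J₀(N)[n]` is finite (`n ≠ 0`). -/
theorem finite_torsion_JZero (n : ℕ) (hn : n ≠ 0) : Finite {x : JZero N // n • x = 0} := by
  apply Nat.finite_of_card_ne_zero
  rw [card_torsion_JZero N n hn]
  exact pow_ne_zero _ hn

end Bar

end

end Fermat.Agent.S27.H145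

end
-- ===== PACK-END S27/H145/Modular.lean

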