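import Fermat.Prelude.Def_ModularCurve_HeckeModule
import Fermat.Agent.Pack.S59C.E10L2
import Fermat.Agent.Pack.S59C.E4L0
import Fermat.Agent.Pack.S59C.E8L2
import Fermat.Agent.Pack.S43GC.G0E19L2
import Fermat.Agent.Pack.S59C.E1L2
import Fermat.Agent.Pack.S43MC.G0E14L0
import Fermat.Agent.Pack.S59C.E8L3
import Fermat.Agent.Pack.S59C.E10L1
import Fermat.Agent.Pack.S43MC.G0E26L1
import Fermat.Agent.Pack.S43MC.G0E17L1
import Fermat.Agent.Pack.S43MC.G0E20L1
import Fermat.Agent.Pack.S43MC.G0E17L3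
import Fermat.Agent.Pack.S59C.E5L1
import Fermat.Agent.Pack.S43MC.G0E12L0
import Fermat.Agent.Pack.S43MC.G0E27L2
import Fermat.Agent.Pack.S59C.E3L3
import Fermat.Agent.Pack.S43GC.G0E11L1
import Fermat.Agent.Pack.S59C.E1L0
import Fermat.Agent.Pack.S43MC.G0E26L2
import Fermat.Agent.Pack.S44C.G0E19L1
import Fermat.Agent.Pack.S43MC.G0E27L1
import Fermat.Agent.Pack.S59C.E10L0
import Fermat.Agent.Pack.S59C.E10L3

set_option linter.all false

-- ===== PACK-BEGIN S59/NMP/Glue.lean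
section






/-!
# Row S59, cell NMP — the glue (helper583)

`nonMinP_of : S53 → S54 → SigmaCond → RED-T → DATUM → SEL → ETA → Arch.NonMinPStatement`.

Also (reusable): `baseChangeAlong_id_isEquiv`, `UnrFrobAt.of_isEquiv`, `exists_unrFrobAt`
(an ordinary representation has an unramified Frobenius eigenvalue), and the Galois half
`galois_half` of the step, which does not use the Hecke-side numerics (so that it serves the
module form `NMP⁺` as well).
-/

set_option autoImplicit false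

open Polynomial IsLocalRing

namespace Fermat.Agent.S59.NMP

open CuspForm Fermat.Agent.S59.Arch Fermat.Agent.S59.H765 Fermat.Agent.S53.H113
open Fermat.Agent.S53

/-! ### Small dictionary lemmas -/

section Dict

variable {A : Type} [CommRing A] [IsLocalRing A]

/-- Base change along the identity. -/
theorem baseChangeAlong_id_isEquiv (ρ : GaloisRepAdic A) (h : IsLocalHom (RingHom.id A)) :
    (ρ.baseChangeAlong (RingHom.id A) h).IsEquiv ρ := by
  obtain ⟨r, hr, he⟩ := exists_toAdic ρ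
  have h1 := isEquiv_baseChangeAlong (RingHom.id A) h he
  have h2 := baseChangeAlong_toAdic (RingHom.id A) h r hr
  have h3 : ∀ (r' : Fermat.Agent.S53.GQ →* M2 A) (_ : r' = r) (hr' : MatCont r'),
      (toAdic r' hr').IsEquiv (toAdic r hr) := by
    rintro _ rfl _
    exact isEquiv_refl _
  exact isEquiv_trans (isEquiv_trans (isEquiv_trans h1 h2) (h3 _ (mapRep_id r) _))
    (isEquiv_symm he)

/-- Base change along a bijective map can be undone. -/
theorem isEquiv_of_baseChangeAlong_bijective {B : Type} [CommRing B] [IsLocalRing B]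
    (φ : A →+* B) (hφ : IsLocalHom φ) (ψ : B →+* A) (hψ : IsLocalHom ψ)
    (hψφ : ψ.comp φ = RingHom.id A) (ρ : GaloisRepAdic A) :
    ((ρ.baseChangeAlong φ hφ).baseChangeAlong ψ hψ).IsEquiv ρ := by
  have hid : IsLocalHom (RingHom.id A) := ⟨fun _ ha => ha⟩
  exact isEquiv_trans (baseChangeAlong_comp_isEquiv' φ hφ ψ hψ (RingHom.id A) hid hψφ ρ)
    (baseChangeAlong_id_isEquiv ρ hid)

/-- `UnrFrobAt` is invariant under equivalence. -/
theorem UnrFrobAt.of_isEquiv {ρ₁ ρ₂ : GaloisRepAdic A} (he : ρ₁.IsEquiv ρ₂) {p : ℕ} {α : A}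
    (h : UnrFrobAt ρ₁ p α) : UnrFrobAt ρ₂ p α := by
  obtain ⟨e⟩ := he
  obtain ⟨P, hP, L, ⟨b, rfl⟩, hD, hI, hF⟩ := h
  have hmem : ∀ {u : ρ₁.V}, u ∈ Submodule.span A {b 0} →
      e.toLinearEquiv u ∈ Submodule.span A {e.toLinearEquiv (b 0)} := by
    intro u hu
    obtain ⟨a, rfl⟩ := Submodule.mem_span_singleton.mp hu
    rw [map_smul]
    exact Submodule.smul_mem _ _ (Submodule.mem_span_singleton_self _)
  refine ⟨P, hP, Submodule.span A {e.toLinearEquiv (b 0)}, ⟨b.map e.toLinearEquiv, ?_⟩, ?_, ?_, ?_⟩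
  · rw [Module.Basis.map_apply]
  · intro σ hσ v hv
    obtain ⟨a, rfl⟩ := Submodule.mem_span_singleton.mp hv
    rw [map_smul, ← e.map_apply]
    exact Submodule.smul_mem _ _ (hmem (hD σ hσ _ (Submodule.mem_span_singleton_self _)))
  · intro σ hσ w
    have := hmem (hI σ hσ (e.toLinearEquiv.symm w))
    rwa [map_sub, e.map_apply, LinearEquiv.apply_symm_apply] at this
  · intro σ hσ w
    have := hmem (hF σ hσ (e.toLinearEquiv.symm w))
    rwa [map_sub, e.map_apply, map_smul, LinearEquiv.apply_symm_apply] at this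

/-- An ordinary representation has an unramified Frobenius eigenvalue at `p`. -/
theorem exists_unrFrobAt {ρ : GaloisRepAdic A} {p : ℕ} (hp : p.Prime) (h : ρ.IsOrdinaryAt p) :
    ∃ α : A, UnrFrobAt ρ p α := by
  obtain ⟨P, τ, hP, hτ⟩ := Fermat.Agent.S54.exists_frobenius p hp
  obtain ⟨L, ⟨b, rfl⟩, hD, hI⟩ := h P hP
  have hτD : τ ∈ P.decompositionSubgroup ℚ := hτ.mem_decompositionSubgroup
  -- the scalar by which `τ` acts on `V/L`
  set α : A := b.repr (ρ.ρ τ (b 1)) 1 with hα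
  have hb0 : b 0 ∈ Submodule.span A {b 0} := Submodule.mem_span_singleton_self _
  have key : ∀ v : ρ.V, ρ.ρ τ v - α • v ∈ Submodule.span A {b 0} := by
    intro v
    have hv : v = b.repr v 0 • b 0 + b.repr v 1 • b 1 := by
      conv_lhs => rw [← b.sum_repr v]
      rw [Fin.sum_univ_two]
    have h1 : ρ.ρ τ (b 1) - α • b 1 ∈ Submodule.span A {b 0} := by
      have h2 : ρ.ρ τ (b 1) = b.repr (ρ.ρ τ (b 1)) 0 • b 0 + α • b 1 := by
        conv_lhs => rw [← b.sum_repr (ρ.ρ τ (b 1))]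
        rw [Fin.sum_univ_two]
      rw [h2, add_sub_cancel_right]
      exact Submodule.smul_mem _ _ hb0
    have h0 : ρ.ρ τ (b 0) - α • b 0 ∈ Submodule.span A {b 0} :=
      Submodule.sub_mem _ (hD τ hτD _ hb0) (Submodule.smul_mem _ _ hb0)
    have : ρ.ρ τ v - α • v =
        b.repr v 0 • (ρ.ρ τ (b 0) - α • b 0) + b.repr v 1 • (ρ.ρ τ (b 1) - α • b 1) := by
      conv_lhs => rw [hv]
      simp only [map_add, map_smul, smul_add, smul_sub, smul_smul]
      rw [mul_comm α (b.repr v 0), mul_comm α (b.repr v 1)]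
      abel
    rw [this]
    exact Submodule.add_mem _ (Submodule.smul_mem _ _ h0) (Submodule.smul_mem _ _ h1)
  refine ⟨α, P, hP, Submodule.span A {b 0}, ⟨b, rfl⟩, hD, hI, ?_⟩
  intro σ hσ v
  have hι := Fermat.Agent.Lib.Cheb.H956.mul_inv_mem_inertiaSubgroupIn hτ hσ
  have h1 := hI (σ * τ⁻¹) hι (ρ.ρ τ v)
  have h2 : ρ.ρ (σ * τ⁻¹) (ρ.ρ τ v) = ρ.ρ σ v := by
    rw [← Module.End.mul_apply, ← map_mul, inv_mul_cancel_right]
  rw [h2] at h1
  have := Submodule.add_mem _ h1 (key v)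
  rwa [sub_add_sub_cancel] at this

end Dict

end Fermat.Agent.S59.NMP

namespace Fermat.Agent.S59.NMP

open CuspForm Fermat.Agent.S59.Arch Fermat.Agent.S59.H765 Fermat.Agent.S53.H113
open Fermat.Agent.S53

/-- `sigmaCond .flat` + ordinary `⇒` `sigmaCond .ord`. -/
theorem sigmaCond_ord_of_flat {𝒪 : Type} [CommRing 𝒪] {p : ℕ} {Smin Sig : Finset ℕ}
    {A : Type} [CommRing A] [IsLocalRing A] [Algebra 𝒪 A] {ρ : GaloisRepAdic A}
    (h : sigmaCond 𝒪 p .flat Smin Sig ρ) (hord : ρ.IsOrdinaryAt p) :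
    sigmaCond 𝒪 p .ord Smin Sig ρ :=
  ⟨⟨h.1.1, hord, h.1.2.2⟩, h.2⟩

/-- **GLUE of the cell NMP** (ring form): the frozen `Arch.NonMinPStatement` from the leaves. -/
theorem nonMinP_of (h53 : S53Statement) (h54 : S54Statement) (hCOND : SigmaCondStatement)
    (hREDT : RedTStatement) (hDAT : OrdDatumStatement) (hSEL : SelStatement)
    (hETA : EtaStatement) : NonMinPStatement := by
  intro p _ 𝒪 _ _ _ _ _ _ ρbar Smin hRH Sig hSig hSigP hord hRT
  classical
  have hpp : p.Prime := Fact.out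
  have hpSig : p ∈ Sig := hSig hRH.hpSmin
  obtain ⟨hN, hint, θ, i1, i2, i3, i4, i5, i6, H, hHπ, hHres, hHcond, hiso⟩ := hRT
  obtain ⟨hN', hint', j1, j2, j3, j4, j5, j6, H', hH'π, hH'res, hH'cond, hresloc, hcompat⟩ :=
    hDAT p 𝒪 ρbar Smin hRH Sig hSig hSigP hpSig hord θ H hHπ hHres hHcond
  refine ⟨hN', hint', θ.comp (oldRestrict (levelPair_flat_ord p hSig hSigP hpSig)),
    j1, j2, j3, j4, j5, j6, H', hH'π, hH'res, hH'cond, ?_⟩
  intro D' φ' hφ'
  -- the flat deformation ring and `φ : R ≃ T`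
  have hcfl := hCOND p hRH.hp2 𝒪 hRH.hp𝒪 .flat Smin Sig
  have hbar : sigmaCond 𝒪 p .flat Smin Sig (GaloisRepAdic.ofResidualGaloisRep ρbar) :=
    hREDT 𝒪 _ hcfl.1 _ H.residue_surjective H.ρ ρbar hHres hHcond
  obtain ⟨D⟩ := h53 𝒪 ρbar _ hRH.habs hcfl.1 hbar (hcfl.2 ρbar)
  have hNS : ∀ q : ℕ, q.Prime → q ∣ wilesLevel p .flat Smin Sig → q ∈ (↑Sig : Set ℕ) :=
    fun q hq hd => Finset.mem_coe.mpr (prime_dvd_wilesLevel p .flat hSig hSigP hpSig hq hd)
  have hNS' : ∀ q : ℕ, q.Prime → q ∣ wilesLevel p .ord Smin Sig → q ∈ (↑Sig : Set ℕ) :=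
    fun q hq hd => Finset.mem_coe.mpr (prime_dvd_wilesLevel p .ord hSig hSigP hpSig hq hd)
  obtain ⟨φ, hφs, hφ, hφe⟩ := h54 D H hNS hHcond hHres
  obtain ⟨hbij, π, hfin, hnum⟩ := hiso D φ ⟨hφ, hφe⟩
  -- ordinarity at the flat level
  have hHord : H.ρ.IsOrdinaryAt p :=
    Fermat.Agent.S59.H659.isOrdinaryAt_of_isEquiv hcompat (Fermat.Agent.S59.H659.isOrdinaryAt_baseChangeAlong _ hresloc hH'cond.1.2.1)
  have hHcond' : sigmaCond 𝒪 p .ord Smin Sig H.ρ := sigmaCond_ord_of_flat hHcond hHord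
  let e : D.R ≃ₐ[𝒪] heckeLocal (wilesLevel p .flat Smin Sig) (↑Sig : Set ℕ) 𝒪 θ :=
    AlgEquiv.ofBijective φ hbij
  have hψ : IsLocalHom ((e.symm : heckeLocal (wilesLevel p .flat Smin Sig) (↑Sig : Set ℕ) 𝒪 θ
      →ₐ[𝒪] D.R) : heckeLocal (wilesLevel p .flat Smin Sig) (↑Sig : Set ℕ) 𝒪 θ →+* D.R) :=
    isLocalHom_algHom D.instIsLocalHom D.residue_surjective _
  have hψφ : ((e.symm : heckeLocal (wilesLevel p .flat Smin Sig) (↑Sig : Set ℕ) 𝒪 θ
      →ₐ[𝒪] D.R) : heckeLocal (wilesLevel p .flat Smin Sig) (↑Sig : Set ℕ) 𝒪 θ →+* D.R).comp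
      (φ : D.R →+* heckeLocal (wilesLevel p .flat Smin Sig) (↑Sig : Set ℕ) 𝒪 θ) =
      RingHom.id D.R := by
    ext x
    exact e.symm_apply_apply x
  have hDord : D.ρ.IsOrdinaryAt p := by
    have h1 := isEquiv_of_baseChangeAlong_bijective
      (φ : D.R →+* heckeLocal (wilesLevel p .flat Smin Sig) (↑Sig : Set ℕ) 𝒪 θ) hφ _ hψ hψφ D.ρ
    have h2 := isEquiv_baseChangeAlong _ hψ hφe
    exact Fermat.Agent.S59.H659.isOrdinaryAt_of_isEquiv (isEquiv_trans (isEquiv_symm h2) h1)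
      (Fermat.Agent.S59.H659.isOrdinaryAt_baseChangeAlong _ hψ hHord)
  have hDcond' : sigmaCond 𝒪 p .ord Smin Sig D.ρ := sigmaCond_ord_of_flat D.isOfType hDord
  -- the square
  obtain ⟨hφ'loc, hφ'e⟩ := hφ'
  obtain ⟨β, hβ, hβe, hsq⟩ := exists_square D D' hDcond' H.residue_surjective H.ρ H'.ρ hHcond'
    hHres (resLocal (levelPair_flat_ord p hSig hSigP hpSig) 𝒪 θ) hresloc hcompat φ hφ hφe
    φ' hφ'loc hφ'e
  have hφ's : Function.Surjective φ' :=
    surjective_of_compatible h54 D' H' hNS' hH'cond hH'res φ' ⟨hφ'loc, hφ'e⟩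
  -- the point and the unramified Frobenius eigenvalue
  have hπloc : IsLocalHom
      (π : heckeLocal (wilesLevel p .flat Smin Sig) (↑Sig : Set ℕ) 𝒪 θ →+* 𝒪) :=
    isLocalHom_algHom (𝒪 := 𝒪) ⟨fun _ ha => ha⟩
      (fun x => by
        obtain ⟨y, rfl⟩ := IsLocalRing.residue_surjective x
        exact ⟨y, rfl⟩) π
  have hxloc : IsLocalHom ((π.comp φ : D.R →ₐ[𝒪] 𝒪) : D.R →+* 𝒪) :=
    isLocalHom_algHom (𝒪 := 𝒪) ⟨fun _ ha => ha⟩
      (fun x => by
        obtain ⟨y, rfl⟩ := IsLocalRing.residue_surjective x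
        exact ⟨y, rfl⟩) _
  have hxe : (D.ρ.baseChangeAlong ((π.comp φ : D.R →ₐ[𝒪] 𝒪) : D.R →+* 𝒪) hxloc).IsEquiv
      (H.ρ.baseChangeAlong
        (π : heckeLocal (wilesLevel p .flat Smin Sig) (↑Sig : Set ℕ) 𝒪 θ →+* 𝒪) hπloc) := by
    have h1 := baseChangeAlong_comp_isEquiv'
      (φ : D.R →+* heckeLocal (wilesLevel p .flat Smin Sig) (↑Sig : Set ℕ) 𝒪 θ) hφ
      (π : heckeLocal (wilesLevel p .flat Smin Sig) (↑Sig : Set ℕ) 𝒪 θ →+* 𝒪) hπloc
      ((π.comp φ : D.R →ₐ[𝒪] 𝒪) : D.R →+* 𝒪) hxloc rfl D.ρ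
    exact isEquiv_trans (isEquiv_symm h1) (isEquiv_baseChangeAlong _ hπloc hφe)
  obtain ⟨α, hα⟩ := exists_unrFrobAt hpp (Fermat.Agent.S59.H659.isOrdinaryAt_baseChangeAlong _ hxloc hDord)
  -- Hecke side
  have : Finite (NC.Cot (π.comp φ)) := hfin
  have hfinT : Finite (NC.Cot π) := Fermat.Agent.S59.H427.finite_cot_of_bijective φ hbij π
  have hnumT : Nat.card (NC.Cot π) = Nat.card (𝒪 ⧸ NC.congIdeal π) := by
    rw [← Fermat.Agent.S59.H427.card_cot_comp_eq_of_bijective φ hbij π]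
    exact hnum
  obtain ⟨hα1, hη⟩ := hETA p 𝒪 ρbar Smin hRH Sig hSig hSigP hpSig hord θ H hHπ hHres hHcond
    π hπloc hfinT hnumT α (hα.of_isEquiv hxe)
  -- Galois side
  obtain ⟨hfin', hsel⟩ := hSEL p 𝒪 ρbar Smin hRH Sig hSig hSigP hord D D' β hβ hβe
    (π.comp φ) hxloc α hα hα1 hfin
  -- the numerical criterion
  set π' : heckeLocal (wilesLevel p .ord Smin Sig) (↑Sig : Set ℕ) 𝒪
      (θ.comp (oldRestrict (levelPair_flat_ord p hSig hSigP hpSig))) →ₐ[𝒪] 𝒪 :=
    π.comp (resLocal (levelPair_flat_ord p hSig hSigP hpSig) 𝒪 θ) with hπ'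
  have hcomp : π'.comp φ' = (π.comp φ).comp β := by
    rw [hπ', AlgHom.comp_assoc, hsq, AlgHom.comp_assoc]
  rw [← hcomp] at hfin' hsel
  have hle : Nat.card (NC.Cot (π'.comp φ')) ≤ Nat.card (𝒪 ⧸ NC.congIdeal π') :=
    calc Nat.card (NC.Cot (π'.comp φ'))
        ≤ Nat.card (NC.Cot (π.comp φ)) * Nat.card (𝒪 ⧸ Ideal.span {α ^ 2 - 1}) := hsel
      _ = Nat.card (𝒪 ⧸ NC.congIdeal π) * Nat.card (𝒪 ⧸ Ideal.span {α ^ 2 - 1}) := by rw [hnum]
      _ ≤ Nat.card (𝒪 ⧸ NC.congIdeal π') := hη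
  obtain ⟨h1, h2⟩ := Fermat.Agent.S59.H427.numerical_criterion_full_NC φ' hφ's π' hle
  exact ⟨h1, π', hfin', h2⟩

end Fermat.Agent.S59.NMP

end
-- ===== PACK-END S59/NMP/Glue.lean

-- ===== PACK-BEGIN S59/NMP/Spec2.lean
section



/-!
# Row S59, cell NMP — module form of the interface (sub-architect helper583)

Target (architect's v3, `Arch/SpecRT2.lean`): `Arch.NonMinPMStatement`
(`RTIsoM .flat Smin Σ → RTIso .ord Smin Σ`, with the extra hypotheses `CurveCase`, `ρ̄` flat).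

The Galois-side leaves `SelStatement`, `OrdDatumStatement` of `NMP/Spec.lean` are unchanged.
The Hecke-side leaf becomes

* `EtaMStatement` (ETA-M) = `EtaStatement` with the module invariant `PairInv … (η_T)²` of the
  level `N` (and `CurveCase`, flatness of `ρ̄`) as additional hypotheses.

Glue (`NMP/GlueM.lean`): `nonMinPM_of : S53 → S54 → SigmaCond → DATUM → SEL → ETA-M →
Arch.NonMinPMStatement`.  Decomposition of ETA-M (leaves IH-p, CONG, LGC): `coord/S59-NMP.md` §3.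
-/

set_option autoImplicit false

open Polynomial IsLocalRing

namespace Fermat.Agent.S59.NMP

open CuspForm Fermat.Agent.S59.Arch Fermat.Agent.S59.H765

/-- **ETA-M** (the Hecke step at `p`, module form).  In the situation of DATUM, let `π` be an
`𝒪`-point of `T` at which the invariant of `RTIsoM .flat` holds (`#Φ_T = #(𝒪/η_T)` and the Gram
determinants of the eigenlattices `L × L^†` of level `N` lie in `η_T²`), and `α` the unramified
Frobenius eigenvalue of `ρ_π` at `p`.  Then `α² ≠ 1` and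
`#(𝒪/η_T(π)) · #(𝒪/(α² − 1)) ≤ #(𝒪/η_{T'}(π ∘ res))`. -/
def EtaMStatement : Prop :=
  ∀ (p : ℕ) [Fact p.Prime]
    (𝒪 : Type) [CommRing 𝒪] [IsDomain 𝒪] [IsDiscreteValuationRing 𝒪]
    [IsAdicComplete (maximalIdeal 𝒪) 𝒪] [Finite (ResidueField 𝒪)] [CharZero 𝒪]
    (ρbar : ResidualGaloisRep (ResidueField 𝒪)) (Smin : Finset ℕ)
    (_h : ResidualHyp p 𝒪 ρbar Smin) (_hc : CurveCase p ρbar) (Sig : Finset ℕ)
    (hSig : Smin ⊆ Sig) (hSigP : ∀ q ∈ Sig, q.Prime) (hpSig : p ∈ Sig)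
    (_hflat : (GaloisRepAdic.ofResidualGaloisRep ρbar).IsFlatAt p)
    (_hord : (GaloisRepAdic.ofResidualGaloisRep ρbar).IsOrdinaryAt p)
    [NeZero (wilesLevel p .flat Smin Sig)]
    [Fact (HasIntegralStructure (wilesLevel p .flat Smin Sig) 2)]
    [NeZero (wilesLevel p .ord Smin Sig)]
    [Fact (HasIntegralStructure (wilesLevel p .ord Smin Sig) 2)]
    (θ : heckeAlgebra (wilesLevel p .flat Smin Sig) 2 (↑Sig : Set ℕ) →+* ResidueField 𝒪)
    [IsLocalRing (heckeLocal (wilesLevel p .flat Smin Sig) (↑Sig : Set ℕ) 𝒪 θ)]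
    [IsNoetherianRing (heckeLocal (wilesLevel p .flat Smin Sig) (↑Sig : Set ℕ) 𝒪 θ)]
    [IsAdicComplete (maximalIdeal (heckeLocal (wilesLevel p .flat Smin Sig) (↑Sig : Set ℕ) 𝒪 θ))
      (heckeLocal (wilesLevel p .flat Smin Sig) (↑Sig : Set ℕ) 𝒪 θ)]
    [IsLocalHom (algebraMap 𝒪 (heckeLocal (wilesLevel p .flat Smin Sig) (↑Sig : Set ℕ) 𝒪 θ))]
    [Module.Finite 𝒪 (heckeLocal (wilesLevel p .flat Smin Sig) (↑Sig : Set ℕ) 𝒪 θ)]
    [Module.Free 𝒪 (heckeLocal (wilesLevel p .flat Smin Sig) (↑Sig : Set ℕ) 𝒪 θ)]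
    (H : HeckeGaloisRepDatum (wilesLevel p .flat Smin Sig) (↑Sig : Set ℕ) 𝒪 θ
      (heckeLocal (wilesLevel p .flat Smin Sig) (↑Sig : Set ℕ) 𝒪 θ))
    (_hπ : H.π = heckeLocal.π (wilesLevel p .flat Smin Sig) (↑Sig : Set ℕ) 𝒪 θ)
    (_hres : H.ρ.residual.IsEquiv (ρbar.baseChangeAlong (ResidueField.map (algebraMap 𝒪
      (heckeLocal (wilesLevel p .flat Smin Sig) (↑Sig : Set ℕ) 𝒪 θ)))))
    (_hcond : sigmaCond 𝒪 p .flat Smin Sig H.ρ)
    (π : heckeLocal (wilesLevel p .flat Smin Sig) (↑Sig : Set ℕ) 𝒪 θ →ₐ[𝒪] 𝒪)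
    (hπloc : IsLocalHom
      (π : heckeLocal (wilesLevel p .flat Smin Sig) (↑Sig : Set ℕ) 𝒪 θ →+* 𝒪))
    (_hfin : Finite (NC.Cot π))
    (_hnum : Nat.card (NC.Cot π) = Nat.card (𝒪 ⧸ NC.congIdeal π))
    (_hpair : PairInv (wilesLevel p .flat Smin Sig) Sig Smin
      (eigOf (wilesLevel p .flat Smin Sig) (↑Sig : Set ℕ) 𝒪 θ π) (NC.congIdeal π ^ 2))
    (α : 𝒪)
    (_hα : UnrFrobAt (H.ρ.baseChangeAlong
      (π : heckeLocal (wilesLevel p .flat Smin Sig) (↑Sig : Set ℕ) 𝒪 θ →+* 𝒪) hπloc) p α),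
    α ^ 2 ≠ 1 ∧
      Nat.card (𝒪 ⧸ NC.congIdeal π) * Nat.card (𝒪 ⧸ Ideal.span {α ^ 2 - 1}) ≤
        Nat.card (𝒪 ⧸ NC.congIdeal
          (π.comp (resLocal (levelPair_flat_ord p hSig hSigP hpSig) 𝒪 θ)))

end Fermat.Agent.S59.NMP

end
-- ===== PACK-END S59/NMP/Spec2.lean

-- ===== PACK-BEGIN S59/NMP/GlueM.lean
section



/-!
# Row S59, cell NMP — the glue, module form (helper583)

* `step_core` : the step at `p` for ONE flat deformation ring `D` with `φ : R ≃ T`, a point `π`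
  with `Φ_R(π ∘ φ)` finite, and the Hecke-side inequality as a hypothesis.
* `nonMinPM_of : S53 → S54 → SigmaCond → DATUM → SEL → ETA-M → Arch.NonMinPMStatement`.
-/

set_option autoImplicit false

open Polynomial IsLocalRing

namespace Fermat.Agent.S59.NMP

open CuspForm Fermat.Agent.S59.Arch Fermat.Agent.S59.H765 Fermat.Agent.S53.H113
open Fermat.Agent.S53

/-- `ρ̄` is of type `.flat`. -/
theorem sigmaCond_flat_residual {p : ℕ} [Fact p.Prime]
    {𝒪 : Type} [CommRing 𝒪] [IsDomain 𝒪] [IsDiscreteValuationRing 𝒪]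
    [IsAdicComplete (maximalIdeal 𝒪) 𝒪]
    {ρbar : ResidualGaloisRep (ResidueField 𝒪)} {Smin Sig : Finset ℕ}
    (hRH : ResidualHyp p 𝒪 ρbar Smin) (hSig : Smin ⊆ Sig)
    (hflat : (GaloisRepAdic.ofResidualGaloisRep ρbar).IsFlatAt p) :
    sigmaCond 𝒪 p .flat Smin Sig (GaloisRepAdic.ofResidualGaloisRep ρbar) := by
  refine ⟨⟨hRH.hdet, hflat, fun q hq hqS => ?_⟩, hRH.hunip⟩
  have hqp : q ≠ p := by
    rintro rfl
    exact hqS (hSig hRH.hpSmin)
  have hqm : q ∉ Smin := fun h => hqS (hSig h)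
  have hunr : ρbar.IsUnramifiedAt q := by
    by_contra hn
    exact hqm ((hRH.hmin q hq hqp).mpr hn)
  intro P hP σ hσ
  exact hunr P hP σ hσ

section Core

variable (p : ℕ) [Fact p.Prime]
  (𝒪 : Type) [CommRing 𝒪] [IsDomain 𝒪] [IsDiscreteValuationRing 𝒪]
  [IsAdicComplete (maximalIdeal 𝒪) 𝒪] [Finite (ResidueField 𝒪)] [CharZero 𝒪]
  (ρbar : ResidualGaloisRep (ResidueField 𝒪)) (Smin : Finset ℕ)
  (hRH : ResidualHyp p 𝒪 ρbar Smin) (Sig : Finset ℕ)
  (hSig : Smin ⊆ Sig) (hSigP : ∀ q ∈ Sig, q.Prime) (hpSig : p ∈ Sig)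
  (hord : (GaloisRepAdic.ofResidualGaloisRep ρbar).IsOrdinaryAt p)
  [NeZero (wilesLevel p .flat Smin Sig)]
  [Fact (HasIntegralStructure (wilesLevel p .flat Smin Sig) 2)]
  [NeZero (wilesLevel p .ord Smin Sig)]
  [Fact (HasIntegralStructure (wilesLevel p .ord Smin Sig) 2)]
  (θ : heckeAlgebra (wilesLevel p .flat Smin Sig) 2 (↑Sig : Set ℕ) →+* ResidueField 𝒪)
  [IsLocalRing (heckeLocal (wilesLevel p .flat Smin Sig) (↑Sig : Set ℕ) 𝒪 θ)]
  [IsNoetherianRing (heckeLocal (wilesLevel p .flat Smin Sig) (↑Sig : Set ℕ) 𝒪 θ)]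
  [IsAdicComplete (maximalIdeal (heckeLocal (wilesLevel p .flat Smin Sig) (↑Sig : Set ℕ) 𝒪 θ))
    (heckeLocal (wilesLevel p .flat Smin Sig) (↑Sig : Set ℕ) 𝒪 θ)]
  [IsLocalHom (algebraMap 𝒪 (heckeLocal (wilesLevel p .flat Smin Sig) (↑Sig : Set ℕ) 𝒪 θ))]
  [Module.Finite 𝒪 (heckeLocal (wilesLevel p .flat Smin Sig) (↑Sig : Set ℕ) 𝒪 θ)]
  [Module.Free 𝒪 (heckeLocal (wilesLevel p .flat Smin Sig) (↑Sig : Set ℕ) 𝒪 θ)]
  (H : HeckeGaloisRepDatum (wilesLevel p .flat Smin Sig) (↑Sig : Set ℕ) 𝒪 θ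
    (heckeLocal (wilesLevel p .flat Smin Sig) (↑Sig : Set ℕ) 𝒪 θ))
  (hHres : H.ρ.residual.IsEquiv (ρbar.baseChangeAlong (ResidueField.map (algebraMap 𝒪
    (heckeLocal (wilesLevel p .flat Smin Sig) (↑Sig : Set ℕ) 𝒪 θ)))))
  (hHcond : sigmaCond 𝒪 p .flat Smin Sig H.ρ)
  [IsLocalRing (heckeLocal (wilesLevel p .ord Smin Sig) (↑Sig : Set ℕ) 𝒪
    (θ.comp (oldRestrict (levelPair_flat_ord p hSig hSigP hpSig))))]
  [IsNoetherianRing (heckeLocal (wilesLevel p .ord Smin Sig) (↑Sig : Set ℕ) 𝒪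
    (θ.comp (oldRestrict (levelPair_flat_ord p hSig hSigP hpSig))))]
  [IsAdicComplete
    (maximalIdeal (heckeLocal (wilesLevel p .ord Smin Sig) (↑Sig : Set ℕ) 𝒪
      (θ.comp (oldRestrict (levelPair_flat_ord p hSig hSigP hpSig)))))
    (heckeLocal (wilesLevel p .ord Smin Sig) (↑Sig : Set ℕ) 𝒪
      (θ.comp (oldRestrict (levelPair_flat_ord p hSig hSigP hpSig))))]
  [IsLocalHom (algebraMap 𝒪 (heckeLocal (wilesLevel p .ord Smin Sig) (↑Sig : Set ℕ) 𝒪
    (θ.comp (oldRestrict (levelPair_flat_ord p hSig hSigP hpSig)))))]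
  [Module.Finite 𝒪 (heckeLocal (wilesLevel p .ord Smin Sig) (↑Sig : Set ℕ) 𝒪
    (θ.comp (oldRestrict (levelPair_flat_ord p hSig hSigP hpSig))))]
  [Module.Free 𝒪 (heckeLocal (wilesLevel p .ord Smin Sig) (↑Sig : Set ℕ) 𝒪
    (θ.comp (oldRestrict (levelPair_flat_ord p hSig hSigP hpSig))))]
  (H' : HeckeGaloisRepDatum (wilesLevel p .ord Smin Sig) (↑Sig : Set ℕ) 𝒪
    (θ.comp (oldRestrict (levelPair_flat_ord p hSig hSigP hpSig)))
    (heckeLocal (wilesLevel p .ord Smin Sig) (↑Sig : Set ℕ) 𝒪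
      (θ.comp (oldRestrict (levelPair_flat_ord p hSig hSigP hpSig)))))
  (hH'res : H'.ρ.residual.IsEquiv (ρbar.baseChangeAlong (ResidueField.map (algebraMap 𝒪
    (heckeLocal (wilesLevel p .ord Smin Sig) (↑Sig : Set ℕ) 𝒪
      (θ.comp (oldRestrict (levelPair_flat_ord p hSig hSigP hpSig))))))))
  (hH'cond : sigmaCond 𝒪 p .ord Smin Sig H'.ρ)
  (hresloc : IsLocalHom
    ((resLocal (levelPair_flat_ord p hSig hSigP hpSig) 𝒪 θ :
      heckeLocal (wilesLevel p .ord Smin Sig) (↑Sig : Set ℕ) 𝒪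
        (θ.comp (oldRestrict (levelPair_flat_ord p hSig hSigP hpSig))) →ₐ[𝒪]
      heckeLocal (wilesLevel p .flat Smin Sig) (↑Sig : Set ℕ) 𝒪 θ) :
      heckeLocal (wilesLevel p .ord Smin Sig) (↑Sig : Set ℕ) 𝒪
        (θ.comp (oldRestrict (levelPair_flat_ord p hSig hSigP hpSig))) →+*
      heckeLocal (wilesLevel p .flat Smin Sig) (↑Sig : Set ℕ) 𝒪 θ))
  (hcompat : (H'.ρ.baseChangeAlong
    ((resLocal (levelPair_flat_ord p hSig hSigP hpSig) 𝒪 θ :
      heckeLocal (wilesLevel p .ord Smin Sig) (↑Sig : Set ℕ) 𝒪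
        (θ.comp (oldRestrict (levelPair_flat_ord p hSig hSigP hpSig))) →ₐ[𝒪]
      heckeLocal (wilesLevel p .flat Smin Sig) (↑Sig : Set ℕ) 𝒪 θ) :
      heckeLocal (wilesLevel p .ord Smin Sig) (↑Sig : Set ℕ) 𝒪
        (θ.comp (oldRestrict (levelPair_flat_ord p hSig hSigP hpSig))) →+*
      heckeLocal (wilesLevel p .flat Smin Sig) (↑Sig : Set ℕ) 𝒪 θ) hresloc).IsEquiv H.ρ)

set_option maxHeartbeats 1600000 in
include hRH hSigP hord hHres hHcond hH'res hH'cond hcompat in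
/-- **The step at `p`, core.**  Flat level: a universal ring `D` with a compatible BIJECTIVE
`φ : R → T` and an `𝒪`-point `π` of `T` with `Φ_R(π ∘ φ)` finite.  Hecke-side input `hη`: for the
unramified Frobenius eigenvalue `α` of `ρ_π`, `α² ≠ 1` and
`#Φ_R(π ∘ φ) · #(𝒪/(α² − 1)) ≤ #(𝒪/η_{T'}(π ∘ res))`.  Conclusion: every compatible
`φ' : R' → T'` is bijective and the numerical equality holds at `π ∘ res`. -/
theorem step_core (h54 : S54Statement) (hSEL : SelStatement)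
    (D : GaloisRep.DeformationRingData 𝒪 ρbar (sigmaCond 𝒪 p .flat Smin Sig))
    (φ : D.R →ₐ[𝒪] heckeLocal (wilesLevel p .flat Smin Sig) (↑Sig : Set ℕ) 𝒪 θ)
    (hφ : IsLocalHom
      (φ : D.R →+* heckeLocal (wilesLevel p .flat Smin Sig) (↑Sig : Set ℕ) 𝒪 θ))
    (hφe : (D.ρ.baseChangeAlong
      (φ : D.R →+* heckeLocal (wilesLevel p .flat Smin Sig) (↑Sig : Set ℕ) 𝒪 θ) hφ).IsEquiv H.ρ)
    (hbij : Function.Bijective φ)
    (π : heckeLocal (wilesLevel p .flat Smin Sig) (↑Sig : Set ℕ) 𝒪 θ →ₐ[𝒪] 𝒪)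
    (hfin : Finite (NC.Cot (π.comp φ)))
    (hη : ∀ (hπloc : IsLocalHom
        (π : heckeLocal (wilesLevel p .flat Smin Sig) (↑Sig : Set ℕ) 𝒪 θ →+* 𝒪)) (α : 𝒪),
      UnrFrobAt (H.ρ.baseChangeAlong
        (π : heckeLocal (wilesLevel p .flat Smin Sig) (↑Sig : Set ℕ) 𝒪 θ →+* 𝒪) hπloc) p α →
      α ^ 2 ≠ 1 ∧
        Nat.card (NC.Cot (π.comp φ)) * Nat.card (𝒪 ⧸ Ideal.span {α ^ 2 - 1}) ≤
          Nat.card (𝒪 ⧸ NC.congIdeal
            (π.comp (resLocal (levelPair_flat_ord p hSig hSigP hpSig) 𝒪 θ))))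
    (D' : GaloisRep.DeformationRingData 𝒪 ρbar (sigmaCond 𝒪 p .ord Smin Sig))
    (φ' : D'.R →ₐ[𝒪] heckeLocal (wilesLevel p .ord Smin Sig) (↑Sig : Set ℕ) 𝒪
      (θ.comp (oldRestrict (levelPair_flat_ord p hSig hSigP hpSig))))
    (hφ' : ∃ hφ' : IsLocalHom (φ' : D'.R →+* heckeLocal (wilesLevel p .ord Smin Sig)
        (↑Sig : Set ℕ) 𝒪 (θ.comp (oldRestrict (levelPair_flat_ord p hSig hSigP hpSig)))),
      (D'.ρ.baseChangeAlong (φ' : D'.R →+* heckeLocal (wilesLevel p .ord Smin Sig)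
        (↑Sig : Set ℕ) 𝒪 (θ.comp (oldRestrict (levelPair_flat_ord p hSig hSigP hpSig))))
        hφ').IsEquiv H'.ρ) :
    Function.Bijective φ' ∧
      Finite (NC.Cot ((π.comp (resLocal (levelPair_flat_ord p hSig hSigP hpSig) 𝒪 θ)).comp φ')) ∧
      Nat.card (NC.Cot ((π.comp (resLocal (levelPair_flat_ord p hSig hSigP hpSig) 𝒪 θ)).comp φ')) =
        Nat.card (𝒪 ⧸ NC.congIdeal
          (π.comp (resLocal (levelPair_flat_ord p hSig hSigP hpSig) 𝒪 θ))) := by
  classical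
  have hpp : p.Prime := Fact.out
  have hNS' : ∀ q : ℕ, q.Prime → q ∣ wilesLevel p .ord Smin Sig → q ∈ (↑Sig : Set ℕ) :=
    fun q hq hd => Finset.mem_coe.mpr (prime_dvd_wilesLevel p .ord hSig hSigP hpSig hq hd)
  -- ordinarity at the flat level
  have hHord : H.ρ.IsOrdinaryAt p :=
    Fermat.Agent.S59.H659.isOrdinaryAt_of_isEquiv hcompat
      (Fermat.Agent.S59.H659.isOrdinaryAt_baseChangeAlong _ hresloc hH'cond.1.2.1)
  have hHcond' : sigmaCond 𝒪 p .ord Smin Sig H.ρ := sigmaCond_ord_of_flat hHcond hHord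
  let e : D.R ≃ₐ[𝒪] heckeLocal (wilesLevel p .flat Smin Sig) (↑Sig : Set ℕ) 𝒪 θ :=
    AlgEquiv.ofBijective φ hbij
  have hψ : IsLocalHom ((e.symm : heckeLocal (wilesLevel p .flat Smin Sig) (↑Sig : Set ℕ) 𝒪 θ
      →ₐ[𝒪] D.R) : heckeLocal (wilesLevel p .flat Smin Sig) (↑Sig : Set ℕ) 𝒪 θ →+* D.R) :=
    isLocalHom_algHom D.instIsLocalHom D.residue_surjective _
  have hψφ : ((e.symm : heckeLocal (wilesLevel p .flat Smin Sig) (↑Sig : Set ℕ) 𝒪 θ
      →ₐ[𝒪] D.R) : heckeLocal (wilesLevel p .flat Smin Sig) (↑Sig : Set ℕ) 𝒪 θ →+* D.R).comp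
      (φ : D.R →+* heckeLocal (wilesLevel p .flat Smin Sig) (↑Sig : Set ℕ) 𝒪 θ) =
      RingHom.id D.R := by
    ext x
    exact e.symm_apply_apply x
  have hDord : D.ρ.IsOrdinaryAt p := by
    have h1 := isEquiv_of_baseChangeAlong_bijective
      (φ : D.R →+* heckeLocal (wilesLevel p .flat Smin Sig) (↑Sig : Set ℕ) 𝒪 θ) hφ _ hψ hψφ D.ρ
    have h2 := isEquiv_baseChangeAlong _ hψ hφe
    exact Fermat.Agent.S59.H659.isOrdinaryAt_of_isEquiv
      (isEquiv_trans (H113.isEquiv_symm h2) h1)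
      (Fermat.Agent.S59.H659.isOrdinaryAt_baseChangeAlong _ hψ hHord)
  have hDcond' : sigmaCond 𝒪 p .ord Smin Sig D.ρ := sigmaCond_ord_of_flat D.isOfType hDord
  -- the square
  obtain ⟨hφ'loc, hφ'e⟩ := hφ'
  obtain ⟨β, hβ, hβe, hsq⟩ := exists_square D D' hDcond' H.residue_surjective H.ρ H'.ρ hHcond'
    hHres (resLocal (levelPair_flat_ord p hSig hSigP hpSig) 𝒪 θ) hresloc hcompat φ hφ hφe
    φ' hφ'loc hφ'e
  have hφ's : Function.Surjective φ' :=
    surjective_of_compatible h54 D' H' hNS' hH'cond hH'res φ' ⟨hφ'loc, hφ'e⟩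
  -- the point and the unramified Frobenius eigenvalue
  have hπloc : IsLocalHom
      (π : heckeLocal (wilesLevel p .flat Smin Sig) (↑Sig : Set ℕ) 𝒪 θ →+* 𝒪) :=
    isLocalHom_algHom (𝒪 := 𝒪) ⟨fun _ ha => ha⟩
      (fun x => by
        obtain ⟨y, rfl⟩ := IsLocalRing.residue_surjective x
        exact ⟨y, rfl⟩) π
  have hxloc : IsLocalHom ((π.comp φ : D.R →ₐ[𝒪] 𝒪) : D.R →+* 𝒪) :=
    isLocalHom_algHom (𝒪 := 𝒪) ⟨fun _ ha => ha⟩
      (fun x => by
        obtain ⟨y, rfl⟩ := IsLocalRing.residue_surjective x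
        exact ⟨y, rfl⟩) _
  have hxe : (D.ρ.baseChangeAlong ((π.comp φ : D.R →ₐ[𝒪] 𝒪) : D.R →+* 𝒪) hxloc).IsEquiv
      (H.ρ.baseChangeAlong
        (π : heckeLocal (wilesLevel p .flat Smin Sig) (↑Sig : Set ℕ) 𝒪 θ →+* 𝒪) hπloc) := by
    have h1 := baseChangeAlong_comp_isEquiv'
      (φ : D.R →+* heckeLocal (wilesLevel p .flat Smin Sig) (↑Sig : Set ℕ) 𝒪 θ) hφ
      (π : heckeLocal (wilesLevel p .flat Smin Sig) (↑Sig : Set ℕ) 𝒪 θ →+* 𝒪) hπloc
      ((π.comp φ : D.R →ₐ[𝒪] 𝒪) : D.R →+* 𝒪) hxloc rfl D.ρ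
    exact isEquiv_trans (H113.isEquiv_symm h1) (isEquiv_baseChangeAlong _ hπloc hφe)
  obtain ⟨α, hα⟩ := exists_unrFrobAt hpp
    (Fermat.Agent.S59.H659.isOrdinaryAt_baseChangeAlong _ hxloc hDord)
  -- Hecke side
  obtain ⟨hα1, hηα⟩ := hη hπloc α (hα.of_isEquiv hxe)
  -- Galois side
  obtain ⟨hfin', hsel⟩ := hSEL p 𝒪 ρbar Smin hRH Sig hSig hSigP hord D D' β hβ hβe
    (π.comp φ) hxloc α hα hα1 hfin
  -- the numerical criterion
  set π' : heckeLocal (wilesLevel p .ord Smin Sig) (↑Sig : Set ℕ) 𝒪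
      (θ.comp (oldRestrict (levelPair_flat_ord p hSig hSigP hpSig))) →ₐ[𝒪] 𝒪 :=
    π.comp (resLocal (levelPair_flat_ord p hSig hSigP hpSig) 𝒪 θ) with hπ'
  have hcomp : π'.comp φ' = (π.comp φ).comp β := by
    rw [hπ', AlgHom.comp_assoc, hsq, AlgHom.comp_assoc]
  rw [← hcomp] at hfin' hsel
  have hle : Nat.card (NC.Cot (π'.comp φ')) ≤ Nat.card (𝒪 ⧸ NC.congIdeal π') :=
    hsel.trans hηα
  obtain ⟨h1, h2⟩ := Fermat.Agent.S59.H427.numerical_criterion_full_NC φ' hφ's π' hle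
  exact ⟨h1, hfin', h2⟩

end Core

/-- **GLUE of the cell NMP, module form**: the architect's target `Arch.NonMinPMStatement` from
the leaves DATUM, SEL, ETA-M. -/
theorem nonMinPM_of (h53 : S53Statement) (h54 : S54Statement) (hCOND : SigmaCondStatement)
    (hDAT : OrdDatumStatement) (hSEL : SelStatement) (hETA : EtaMStatement) :
    NonMinPMStatement := by
  intro p _ 𝒪 _ _ _ _ _ _ ρbar Smin hRH hc Sig hSig hSigP hflat hord hRT
  classical
  have hpSig : p ∈ Sig := hSig hRH.hpSmin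
  obtain ⟨hN, hint, θ, i1, i2, i3, i4, i5, i6, H, hHπ, hHres, hHcond, hiso⟩ := hRT
  obtain ⟨hN', hint', j1, j2, j3, j4, j5, j6, H', hH'π, hH'res, hH'cond, hresloc, hcompat⟩ :=
    hDAT p 𝒪 ρbar Smin hRH Sig hSig hSigP hpSig hord θ H hHπ hHres hHcond
  refine ⟨hN', hint', θ.comp (oldRestrict (levelPair_flat_ord p hSig hSigP hpSig)),
    j1, j2, j3, j4, j5, j6, H', hH'π, hH'res, hH'cond, ?_⟩
  intro D' φ' hφ'
  -- the flat deformation ring and `φ : R ≃ T`
  have hcfl := hCOND p hRH.hp2 𝒪 hRH.hp𝒪 .flat Smin Sig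
  obtain ⟨D⟩ := h53 𝒪 ρbar _ hRH.habs hcfl.1 (sigmaCond_flat_residual hRH hSig hflat)
    (hcfl.2 ρbar)
  have hNS : ∀ q : ℕ, q.Prime → q ∣ wilesLevel p .flat Smin Sig → q ∈ (↑Sig : Set ℕ) :=
    fun q hq hd => Finset.mem_coe.mpr (prime_dvd_wilesLevel p .flat hSig hSigP hpSig hq hd)
  obtain ⟨φ, -, hφ, hφe⟩ := h54 D H hNS hHcond hHres
  obtain ⟨hbij, π, hfin, hnum, hpair⟩ := hiso D φ ⟨hφ, hφe⟩
  have hfin0 : Finite (NC.Cot (π.comp φ)) := hfin
  have hfinT : Finite (NC.Cot π) := Fermat.Agent.S59.H427.finite_cot_of_bijective φ hbij π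
  have hnumT : Nat.card (NC.Cot π) = Nat.card (𝒪 ⧸ NC.congIdeal π) := by
    rw [← Fermat.Agent.S59.H427.card_cot_comp_eq_of_bijective φ hbij π]
    exact hnum
  obtain ⟨h1, h2, h3⟩ := step_core p 𝒪 ρbar Smin hRH Sig hSig hSigP hpSig hord θ H hHres hHcond
    H' hH'res hH'cond hresloc hcompat h54 hSEL D φ hφ hφe hbij π hfin
    (fun hπloc α hα => by
      obtain ⟨hα1, hle⟩ := hETA p 𝒪 ρbar Smin hRH hc Sig hSig hSigP hpSig hflat hord θ H hHπ
        hHres hHcond π hπloc hfinT hnumT hpair α hα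
      refine ⟨hα1, ?_⟩
      rw [hnum]
      exact hle)
    D' φ' hφ'
  exact ⟨h1, _, h2, h3⟩

end Fermat.Agent.S59.NMP

end
-- ===== PACK-END S59/NMP/GlueM.lean

-- ===== PACK-BEGIN S58/H94/Final.lean
section




/-!
# Row S58 (architect helper94): S58 from the frozen statements S35 and S36 alone

`s58_of_S35_S36 : S35Statement → S36Statement → S58Statement`

All leaves are closed on main: RES (`S58.H273.residual`, helper273), COEFF-HENSEL
(`S58.H292.exists_prime_ringHom_adjoin`, helper292), COUNT (`S58.H285.pointCount`, helper285).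
The final file `Fermat/Agent/S58.lean` is
`s58_of_S35_S36 (@Fermat.Agent.S35.result) (@Fermat.Agent.S36.result) W hss N p ...`.
-/

set_option autoImplicit false

namespace Fermat.Agent.S58.H94

open Fermat.Agent.S58

/-- Leaf COEFF-HENSEL, closed (helper292, from `S48.H368.exists_padicInt_hom`). -/
theorem coeffHensel_h94 : CoeffHenselStatement := by
  intro α hα B
  obtain ⟨lam, hlam, hB, ι, -⟩ := Fermat.Agent.S58.H292.exists_prime_ringHom_adjoin α hα B
  exact ⟨lam, hlam, hB, ⟨ι⟩⟩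

/-- **S58 from the frozen statements S35 and S36.** -/
theorem s58_of_S35_S36 (h35 : S35Statement) (h36 : S36Statement) : S58Statement :=
  s58_of h35 h36 Fermat.Agent.S58.H273.residual coeffHensel_h94

end Fermat.Agent.S58.H94

end
-- ===== PACK-END S58/H94/Final.lean

-- ===== PACK-BEGIN S59/TW/AsmCore.lean
section


/-!
# Row S59, cell TW, layer 2: the core of the assembly (helper24)

`hasTWModule_of_leaves` : the Taylor–Wiles module `H959.HasTWModule P₀ M₀ n qv` at ONE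
Taylor–Wiles set from the leaves RESG, INX, INO, CYC, ALG, for a GIVEN minimal package `P₀` and a
GIVEN module `M₀`, the package `P_Q` (over the residual character `θ₀ ∘ oldRestrict`) and the
automorphic module with its comparison (`AutLevel`, `AutLevel.Cmp`) being hypotheses.
Every form of the Hecke side (`HeckeSideStatement`, its module forms) follows by wrapping.
-/

set_option autoImplicit false

open Polynomial IsLocalRing

namespace Fermat.Agent.S59.TW

open Fermat.Agent.S59.Arch Fermat.Agent.S59.TW.H959 Fermat.Agent.S59.H765 CuspForm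

/-- **The Taylor–Wiles module at one Taylor–Wiles set**, from the leaves: given the minimal
package `P₀`, the module `M₀`, the package `P_Q` over the residual character
`θ₀ ∘ oldRestrict`, and the automorphic module with its comparison for every restriction map. -/
theorem hasTWModule_of_leaves (hRes : ResGalStatement)
    (hInx : InertiaExistsStatement) (hIno : InertiaOrderStatement)
    (hCyc : CycloSurjStatement) (hAlg : AlgStatement)
    {p : ℕ} [hpF : Fact p.Prime]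
    {𝒪 : Type} [CommRing 𝒪] [IsDomain 𝒪] [IsDiscreteValuationRing 𝒪]
    [IsAdicComplete (maximalIdeal 𝒪) 𝒪] [Finite (ResidueField 𝒪)] [CharZero 𝒪]
    {ρbar : ResidualGaloisRep (ResidueField 𝒪)} {Smin : Finset ℕ}
    (h : ResidualHyp p 𝒪 ρbar Smin) {t : PType}
    [NeZero (wilesLevel p t Smin Smin)]
    (P₀ : HeckePkg p 𝒪 ρbar t Smin Smin)
    (M₀ : Type) [AddCommGroup M₀] [Module P₀.T M₀]
    {n r : ℕ} {qv : Fin r → ℕ} (hq : IsTWSet p ρbar Smin n qv)
    (hPkg : ∀ [NeZero (wilesLevel p t Smin (Smin ∪ Finset.univ.image qv))]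
      (θ : heckeAlgebra (wilesLevel p t Smin (Smin ∪ Finset.univ.image qv)) 2
        (↑(Smin ∪ Finset.univ.image qv) : Set ℕ) →+* ResidueField 𝒪),
      G4.ResFrobCond ρbar θ →
      ∃ P : HeckePkg p 𝒪 ρbar t Smin (Smin ∪ Finset.univ.image qv), P.θ = θ)
    (hθ₀ : G4.ResFrobCond ρbar P₀.θ)
    (hA : ∀ [NeZero (wilesLevel p t Smin (Smin ∪ Finset.univ.image qv))]
      (PQ : HeckePkg p 𝒪 ρbar t Smin (Smin ∪ Finset.univ.image qv))
      (res : PQ.T →ₐ[𝒪] P₀.T) (_hres : IsRestriction P₀ PQ res),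
      ∃ A : AutLevel P₀ M₀ qv PQ res, A.Cmp) :
    HasTWModule P₀ M₀ n qv := by
  obtain ⟨-, hqv, hfrob⟩ := id hq
  -- the level `Q`
  have hQP : ∀ q ∈ Finset.univ.image qv, q.Prime := by
    intro q hq'
    obtain ⟨j, -, rfl⟩ := Finset.mem_image.mp hq'
    exact (hqv j).1
  have hSigP : ∀ q ∈ Smin ∪ Finset.univ.image qv, q.Prime := by
    intro q hq'
    rcases Finset.mem_union.mp hq' with h' | h'
    · exact h.hSmin q h'
    · exact hQP q h'
  have hNQ : NeZero (wilesLevel p t Smin (Smin ∪ Finset.univ.image qv)) :=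
    ⟨wilesLevel_ne_zero hpF.out h.hSmin hSigP⟩
  have hp := levelPairTW p t h.hSmin hQP h.hpSmin
  have hθQ : G4.ResFrobCond ρbar (P₀.θ.comp (oldRestrict hp)) := resFrobCond_comp hp hθ₀
  obtain ⟨PQ, hθPQ⟩ := hPkg (P₀.θ.comp (oldRestrict hp)) hθQ
  obtain ⟨res, hIsRes⟩ := exists_restriction hp P₀ PQ hθPQ
  obtain ⟨hloc, hequiv⟩ := hRes p h.hp2 𝒪 h.hp𝒪 ρbar h.habs t Smin Smin
    (Smin ∪ Finset.univ.image qv) Finset.subset_union_left P₀ PQ res hIsRes
  obtain ⟨A, hCmp⟩ := hA PQ res hIsRes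
  -- primitive roots, places, Frobenius and inertia elements, eigenvalues
  choose g hgord hggen using fun j => exists_primitive_root_units (hqv j).1
  choose Pv φv hPv hφv using fun j => Fermat.Agent.S54.exists_frobenius (qv j) (hqv j).1
  choose σv hσv hcyc using fun j => hCyc (qv j) (hqv j).1 (Pv j) (hPv j) (g j)
  choose α β hαβ hchar using fun j => hfrob j (Pv j) (hPv j) (φv j) (hφv j)
  choose αv hαv using fun j => residue_surjective (α j)
  -- inertia values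
  have hcharT : ∀ j, LinearMap.charpoly (PQ.H.ρ.residual.ρ (φv j)) =
      (X - C (residue PQ.T (algebraMap 𝒪 PQ.T (αv j)))) *
        (X - C (ResidueField.map (algebraMap 𝒪 PQ.T) (β j))) := by
    intro j
    rw [charpoly_eq_of_residual_isEquiv PQ.hres, charpoly_residual_baseChangeAlong, hchar j,
      Polynomial.map_mul, Polynomial.map_sub, Polynomial.map_sub, Polynomial.map_X,
      Polynomial.map_C, Polynomial.map_C, ← hαv j, ResidueField.map_residue]
  have hne : ∀ j, residue PQ.T (algebraMap 𝒪 PQ.T (αv j)) ≠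
      ResidueField.map (algebraMap 𝒪 PQ.T) (β j) := by
    intro j hj
    rw [← ResidueField.map_residue, hαv j] at hj
    exact hαβ j ((ResidueField.map (algebraMap 𝒪 PQ.T)).injective hj)
  choose w hw using fun j => hInx PQ.T PQ.H.ρ (φv j) (σv j) (algebraMap 𝒪 PQ.T (αv j))
    (ResidueField.map (algebraMap 𝒪 PQ.T) (β j)) (hne j) (hcharT j)
  -- the order of the inertia values
  haveI : Finite (ResidueField PQ.T) := by
    refine Finite.of_surjective (ResidueField.map (algebraMap 𝒪 PQ.T)) ?_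
    intro x
    obtain ⟨y, hy⟩ := PQ.H.residue_surjective x
    exact ⟨residue 𝒪 y, by rw [ResidueField.map_residue]; exact hy⟩
  have hpT : (p : PQ.T) ∈ maximalIdeal PQ.T := by
    have h1 := h.hp𝒪
    rw [mem_maximalIdeal, mem_nonunits_iff] at h1 ⊢
    intro hu
    apply h1
    have : IsUnit (algebraMap 𝒪 PQ.T (p : 𝒪)) := by rwa [map_natCast]
    exact IsLocalHom.map_nonunit _ this
  have hdet : PQ.H.ρ.DetIsCyclotomic p := by
    have h1 := PQ.hcond.1
    cases t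
    · exact h1.1
    · exact h1.1
    · exact h1.1
  have hqp : ∀ j, qv j ≠ p := by
    intro j hj
    exact (hqv j).2.1 (hj ▸ h.hpSmin)
  have hunr : ∀ j, PQ.H.ρ.residual.IsUnramifiedAt (qv j) := by
    intro j
    refine isUnramifiedAt_of_residual_isEquiv' PQ.hres
      (isUnramifiedAt_residual_baseChangeAlong _ ?_)
    by_contra hcon
    exact (hqv j).2.1 ((h.hmin (qv j) (hqv j).1 (hqp j)).mpr hcon)
  have hpq : ∀ j, p ∣ qv j - 1 := fun j =>
    Dvd.dvd.trans (dvd_pow_self p (Nat.succ_ne_zero n)) (hqv j).2.2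
  have hord : ∀ j, w j ^ (p ^ padicValNat p (qv j - 1)) = 1 := by
    intro j
    obtain ⟨w', -, h2, -⟩ := hIno p PQ.T hpT PQ.H.ρ hdet (qv j) (hqv j).1 (hqp j) (hpq j)
      (hunr j) (Pv j) (hPv j) (φv j) (hφv j) (σv j) (hσv j) _ (w j) (hw j)
    exact h2
  -- the comparison
  have hrange : ∀ (j : Fin r) (y : A.MQ),
      (∃ y' : A.MQ, y = w j • y' - y') ↔ ∃ y' : A.MQ, y = A.dia (Pi.mulSingle j (g j)) y' - y' :=
    fun j => hCmp j (Pv j) (hPv j) (φv j) (hφv j) (σv j) (hσv j) (g j) (hgord j) (hcyc j) _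
      (w j) (hw j)
  -- the basis
  have hn : ∀ j, n ≤ padicValNat p (qv j - 1) := by
    intro j
    have h0 : qv j - 1 ≠ 0 := Nat.sub_ne_zero_of_lt (hqv j).1.one_lt
    exact (Nat.le_succ n).trans ((padicValNat_dvd_iff_le h0).mp (hqv j).2.2)
  have hX : ∀ j, A.dia (Pi.mulSingle j (g j)) ^ (p ^ padicValNat p (qv j - 1)) = 1 := by
    intro j
    rw [← map_pow, ← A.dia_pow (Pi.mulSingle j (g j))]
    congr 1
    funext i
    by_cases hij : i = j
    · subst hij
      simp only [Pi.pow_apply, Pi.mulSingle_eq_same]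
    · simp only [Pi.pow_apply, Pi.mulSingle_eq_of_ne hij, one_pow]
  have hpJ : (p : 𝒪) ∈ Ideal.jacobson (⊥ : Ideal 𝒪) := by
    rw [IsLocalRing.jacobson_eq_maximalIdeal ⊥ bot_ne_top]
    exact h.hp𝒪
  obtain ⟨d, b, hb⟩ := A.free g hgord
  have hgrb : IsGroupRingBasis 𝒪 (p ^ n) w b :=
    hAlg p hpF.out h.hp2 𝒪 hpJ PQ.T A.MQ r (fun j => (ZMod (qv j))ˣ)
      (fun j => padicValNat p (qv j - 1)) n hn A.dia g hX d b hb w hord hrange
  -- the kernel
  have hker : ∀ x : A.MQ, A.π x = 0 ↔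
      x ∈ Ideal.span (Set.range fun i => w i - 1) • (⊤ : Submodule PQ.T A.MQ) :=
    fun x => (A.ker_π x).trans (ker_eq_of_range_eq A.dia g hggen w hrange x)
  exact ⟨hNQ, PQ, res, hloc, A.MQ, inferInstance, inferInstance, A.π, Pv, φv, σv, αv, w, d, b,
    hequiv, A.π_smul, A.π_surjective, hker, fun i => ⟨hPv i, hφv i, hσv i, hw i⟩, hgrb⟩

end Fermat.Agent.S59.TW

end
-- ===== PACK-END S59/TW/AsmCore.lean

-- ===== PACK-BEGIN S59/TW/WireCore.lean
section






/-!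
# Row S59, cell TW, layer 2: the core of the assembly with the closed leaves wired (helper24)

RESG (`TW.H765.resGal`), INX (`TW.H427.inertiaExists`), INO (`TW.H123.inertiaOrder`) and CYC
(`TW.H59.cycloSurj`) are on main.  What remains of `H959.HasTWModule P₀ M₀ n qv`:

* ALG (`AlgStatement`, Mathlib only),
* the package `P_Q` over the residual character `θ₀ ∘ oldRestrict` (PKG),
* the automorphic module `AutLevel P₀ M₀ qv PQ res` with `AutLevel.Cmp` (AUT).
-/

set_option autoImplicit false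

open Polynomial IsLocalRing

namespace Fermat.Agent.S59.TW

open Fermat.Agent.S59.Arch Fermat.Agent.S59.TW.H959 CuspForm

/-- **The Taylor–Wiles module at one Taylor–Wiles set** from ALG, PKG (at the level `Q`) and AUT
(at the set `Q`). -/
theorem hasTWModule_of (hAlg : AlgStatement)
    {p : ℕ} [Fact p.Prime]
    {𝒪 : Type} [CommRing 𝒪] [IsDomain 𝒪] [IsDiscreteValuationRing 𝒪]
    [IsAdicComplete (maximalIdeal 𝒪) 𝒪] [Finite (ResidueField 𝒪)] [CharZero 𝒪]
    {ρbar : ResidualGaloisRep (ResidueField 𝒪)} {Smin : Finset ℕ}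
    (h : ResidualHyp p 𝒪 ρbar Smin) {t : PType}
    [NeZero (wilesLevel p t Smin Smin)]
    (P₀ : HeckePkg p 𝒪 ρbar t Smin Smin)
    (M₀ : Type) [AddCommGroup M₀] [Module P₀.T M₀]
    {n r : ℕ} {qv : Fin r → ℕ} (hq : IsTWSet p ρbar Smin n qv)
    (hPkg : ∀ [NeZero (wilesLevel p t Smin (Smin ∪ Finset.univ.image qv))]
      (θ : heckeAlgebra (wilesLevel p t Smin (Smin ∪ Finset.univ.image qv)) 2
        (↑(Smin ∪ Finset.univ.image qv) : Set ℕ) →+* ResidueField 𝒪),
      G4.ResFrobCond ρbar θ →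
      ∃ P : HeckePkg p 𝒪 ρbar t Smin (Smin ∪ Finset.univ.image qv), P.θ = θ)
    (hθ₀ : G4.ResFrobCond ρbar P₀.θ)
    (hA : ∀ [NeZero (wilesLevel p t Smin (Smin ∪ Finset.univ.image qv))]
      (PQ : HeckePkg p 𝒪 ρbar t Smin (Smin ∪ Finset.univ.image qv))
      (res : PQ.T →ₐ[𝒪] P₀.T) (_hres : IsRestriction P₀ PQ res),
      ∃ A : AutLevel P₀ M₀ qv PQ res, A.Cmp) :
    HasTWModule P₀ M₀ n qv :=
  hasTWModule_of_leaves H765.resGal H427.inertiaExists H123.inertiaOrder H59.cycloSurj hAlg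
    h P₀ M₀ hq hPkg hθ₀ hA

end Fermat.Agent.S59.TW

end
-- ===== PACK-END S59/TW/WireCore.lean

-- ===== PACK-BEGIN S33/EigB.lean
section
/-
Row S33 — piece EIG-B (helper409): `geoEigenStatement_of_key : KeyStatement → GeoEigenStatement`.

The adic eigenmodule of row S30 (Tate eigenmodule `M` of `X = Hom_ℤ(𝒪, J)`, `J = J₀(N)(ℚ̄)`,
`S30/H529/HomTate.lean`) satisfies GEO at `I = I_P` as soon as (K) holds for `(G_ℚ, I, J)`:

if `p ^ c M ≤ A := augSpan`, evaluate the `c`-th component at representatives `o_i` of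
`𝒪 / p ^ (c + 1)`: `e : M → Fin r → J`, equivariant, with kernel `p ^ (c + 1) M`.
`Y := e (p ^ c M)` is `G_ℚ`-stable with coordinates in `𝒮⁺`, so `Y = I_aug Y` (`keyAt_pi`);
hence `p ^ c m - p ^ c a' ∈ p ^ (c + 1) M` with `a' ∈ A`, i.e. `m ∈ A + p M`.

Template: `Fermat/Agent/S32/EigChain.lean` (helper32).
-/





set_option autoImplicit false
set_option linter.style.haveILetI false

noncomputable section

namespace Fermat.Agent.S33

open IsLocalRing Fermat.Agent.S30 Fermat.Agent.S31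

/-! ### Representatives modulo a nonzero element of a DVR with finite residue field -/

section Reps

variable {O : Type} [CommRing O] [IsDomain O] [IsDiscreteValuationRing O]
  [Finite (ResidueField O)]

theorem exists_reps_mod_s33 {x : O} (hx : x ≠ 0) :
    ∃ (r : ℕ) (o : Fin r → O), ∀ b : O, ∃ i : Fin r, ∃ d : O, b = o i + x * d := by
  obtain ⟨n, hn⟩ := H529.exists_pow_maximalIdeal_le_span hx
  have h1 : Finite (O ⧸ maximalIdeal O ^ n) := by
    have : Finite (O ⧸ maximalIdeal O) := (inferInstance : Finite (ResidueField O))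
    exact Ideal.finite_quotient_pow (IsNoetherian.noetherian _) n
  have h2 : Finite (O ⧸ Ideal.span {x}) :=
    Finite.of_surjective (Ideal.Quotient.factor hn) (Ideal.Quotient.factor_surjective hn)
  let e := Finite.equivFin (O ⧸ Ideal.span {x})
  refine ⟨Nat.card (O ⧸ Ideal.span {x}),
    fun i => Function.surjInv Ideal.Quotient.mk_surjective (e.symm i), fun b => ?_⟩
  refine ⟨e (Ideal.Quotient.mk _ b), ?_⟩
  have h3 : Ideal.Quotient.mk (Ideal.span {x})
      (Function.surjInv Ideal.Quotient.mk_surjective (e.symm (e (Ideal.Quotient.mk _ b)))) =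
      Ideal.Quotient.mk _ b :=
    (Function.surjInv_eq Ideal.Quotient.mk_surjective _).trans (e.symm_apply_apply _)
  have h4 : b - Function.surjInv Ideal.Quotient.mk_surjective
      (e.symm (e (Ideal.Quotient.mk (Ideal.span {x}) b))) ∈ Ideal.span {x} := by
    rw [← Ideal.Quotient.eq_zero_iff_mem, map_sub, h3, sub_self]
  obtain ⟨d, hd⟩ := Ideal.mem_span_singleton'.mp h4
  exact ⟨d, by rw [mul_comm, hd]; ring⟩

end Reps

/-! ### GEO for the Tate eigenmodule of `Hom_ℤ(𝒪, J)` -/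

section GeoHom

variable (p : ℕ)
variable (O : Type) [CommRing O] [IsDomain O] [IsDiscreteValuationRing O]
  [Finite (ResidueField O)] [CharZero O]
variable (J : Type) [AddCommGroup J] [DistribMulAction GQ J]
variable {ι : Type} (t : ι → J →+ J) (a : ι → O)

/-- **The Tate eigenmodule of `Hom_ℤ(𝒪, J)` satisfies GEO at `I`** if (K) holds for `(I, J)`. -/
theorem homEigen_geoAt [Fact p.Prime] (hpO : (p : O) ∈ maximalIdeal O)
    (hρ : ∀ (σ : GQ) (i : ι) (h : H529.PreHom O J),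
      H529.preHomRep O J σ (H529.PreHom.post (t i) h)
        = H529.PreHom.post (t i) (H529.preHomRep O J σ h))
    (I : Subgroup GQ) (hKey : KeyAt I p J) :
    GeoAt (H529.tateRep (ϖ := (p : O)) (t := fun i => H529.PreHom.post (t i)) (a := a)
      (H529.preHomRep O J) hρ) I := by
  intro a₀ ha₀ hall
  have hp0 : (p : O) ≠ 0 := by
    exact_mod_cast (Fact.out : p.Prime).ne_zero
  -- abbreviations
  set ρ := H529.tateRep (ϖ := (p : O)) (t := fun i => H529.PreHom.post (t i)) (a := a)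
      (H529.preHomRep O J) hρ with hρdef
  -- `p ^ c M ≤ A`
  obtain ⟨c, d, hcd⟩ := H529.exists_dvd_pow_of_mem_maximalIdeal hpO ha₀
  have hpc : ∀ m : ↥(H529.tateEigen (p : O) (fun i => H529.PreHom.post (t i)) a),
      (p : O) ^ c • m ∈ augSpan ρ I := by
    intro m
    rw [hcd, mul_comm, mul_smul]
    exact Submodule.smul_mem _ _ (hall m)
  obtain ⟨r, o, ho⟩ := exists_reps_mod_s33 (pow_ne_zero (c + 1) hp0)
  -- evaluation of the `c`-th component at the representatives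
  let e : ↥(H529.tateEigen (p : O) (fun i => H529.PreHom.post (t i)) a) →+ (Fin r → J) :=
    { toFun := fun v i => H529.PreHom.toHom ((v : ℕ → H529.PreHom O J) c) (o i)
      map_zero' := by
        funext i
        rfl
      map_add' := by
        intro v w
        funext i
        rfl }
  have he : ∀ v i, e v i = H529.PreHom.toHom ((v : ℕ → H529.PreHom O J) c) (o i) :=
    fun _ _ => rfl
  have heq : ∀ (σ : GQ) v, e (ρ σ v) = σ • e v := by
    intro σ v
    funext i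
    rfl
  -- the kernel of `e`
  have hker : ∀ v, e v = 0 → ∃ w : ↥(H529.tateEigen (p : O)
      (fun i => H529.PreHom.post (t i)) a), v = (p : O) ^ (c + 1) • w := by
    intro v hv
    have hvi : ∀ i, H529.PreHom.toHom ((v : ℕ → H529.PreHom O J) c) (o i) = 0 := by
      intro i
      rw [← he, hv]
      rfl
    have h0 : (v : ℕ → H529.PreHom O J) c = 0 := by
      apply H529.PreHom.ext
      intro x
      obtain ⟨i, d', hd'⟩ := ho x
      have h1 : H529.PreHom.toHom ((v : ℕ → H529.PreHom O J) c) ((p : O) ^ (c + 1) * d') = 0 := by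
        rw [← H529.PreHom.smul_apply, H529.tate_pow_succ_smul v.2 c]
        rfl
      rw [hd', map_add, hvi i, h1, add_zero]
      rfl
    have hlt : ∀ m, m < c + 1 → (v : ℕ → H529.PreHom O J) m = 0 := by
      intro m hm
      obtain ⟨k, rfl⟩ : ∃ k, c = m + k := ⟨c - m, by omega⟩
      rw [← H529.tate_pow_smul v.2 k m, h0, smul_zero]
    obtain ⟨w, hw, hvw⟩ := H529.tate_exists_eq_pow_smul v.2 (c + 1) hlt
    refine ⟨⟨w, hw⟩, ?_⟩
    apply Subtype.ext
    rw [hvw]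
    rfl
  -- values of the `c`-th component are killed by `p ^ (c + 1)`
  have hval : ∀ (v : ↥(H529.tateEigen (p : O) (fun i => H529.PreHom.post (t i)) a)) (x : O),
      H529.PreHom.toHom ((v : ℕ → H529.PreHom O J) c) x ∈ torsSub J (p ^ (c + 1)) := by
    intro v x
    rw [mem_torsSub, ← H529.PreHom.natCast_pow_smul_apply, H529.tate_pow_succ_smul v.2 c]
    rfl
  -- elements of `A` have `c`-th component with values in `I_aug J[p ^ (c + 1)]`
  have haug : ∀ v : ↥(H529.tateEigen (p : O) (fun i => H529.PreHom.post (t i)) a),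
      v ∈ augSpan ρ I → ∀ x : O,
        H529.PreHom.toHom ((v : ℕ → H529.PreHom O J) c) x
          ∈ iAug I (torsSub J (p ^ (c + 1))) := by
    intro v hv
    unfold augSpan at hv
    induction hv using Submodule.span_induction with
    | mem z hz =>
      obtain ⟨σ, hσ, m, rfl⟩ := hz
      intro x
      exact smul_sub_mem_iAug hσ (hval m x)
    | zero =>
      intro x
      exact AddSubgroup.zero_mem _
    | add z w _ _ hz hw =>
      intro x
      exact AddSubgroup.add_mem _ (hz x) (hw x)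
    | smul b z _ hz =>
      intro x
      exact hz (b * x)
  -- the subgroup `Y = e (p ^ c M)`
  let φ : ↥(H529.tateEigen (p : O) (fun i => H529.PreHom.post (t i)) a) →+ (Fin r → J) :=
    e.comp (DistribSMul.toAddMonoidHom _ ((p : O) ^ c))
  have hφ : ∀ v, φ v = e ((p : O) ^ c • v) := fun _ => rfl
  have hφeq : ∀ (σ : GQ) v, φ (ρ σ v) = σ • φ v := by
    intro σ v
    rw [hφ, hφ, ← map_smul, heq]
  have hYG : ∀ (σ : GQ), ∀ y ∈ φ.range, σ • y ∈ φ.range := by
    rintro σ _ ⟨v, rfl⟩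
    exact ⟨ρ σ v, hφeq σ v⟩
  have hYS : ∀ y ∈ φ.range, ∀ i, InSPlus I p (y i) := by
    rintro _ ⟨v, rfl⟩ i
    refine ⟨?_, c + 1, ?_⟩
    · rw [hφ, he, ← H529.PreHom.natCast_smul_apply]
      have h1 : (p : O) • (((p : O) ^ c • v : ↥(H529.tateEigen (p : O)
          (fun i => H529.PreHom.post (t i)) a)) : ℕ → H529.PreHom O J) c
          = (p : O) ^ (c + 1) • (v : ℕ → H529.PreHom O J) c := by
        rw [pow_succ', mul_smul]
        rfl
      rw [h1, H529.tate_pow_succ_smul v.2 c]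
      rfl
    · rw [hφ, he]
      exact haug _ (hpc v) (o i)
  have hYkey : φ.range ≤ iAug I φ.range := keyAt_pi hKey r φ.range hYG hYS
  -- lifting the augmentation of `Y`
  have hlift : ∀ y ∈ iAug I φ.range, ∃ v ∈ augSpan ρ I, φ v = y := by
    intro y hy
    unfold iAug at hy
    induction hy using AddSubgroup.closure_induction with
    | mem z hz =>
      obtain ⟨σ, hσ, y', ⟨v', rfl⟩, rfl⟩ := hz
      refine ⟨ρ σ v' - v', Submodule.subset_span ⟨σ, hσ, v', rfl⟩, ?_⟩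
      rw [map_sub, hφeq]
    | zero => exact ⟨0, Submodule.zero_mem _, map_zero φ⟩
    | add z w _ _ hz hw =>
      obtain ⟨v, hv, rfl⟩ := hz
      obtain ⟨v', hv', rfl⟩ := hw
      exact ⟨v + v', Submodule.add_mem _ hv hv', map_add φ v v'⟩
    | neg z _ hz =>
      obtain ⟨v, hv, rfl⟩ := hz
      exact ⟨-v, Submodule.neg_mem _ hv, map_neg φ v⟩
  -- conclusion
  rw [eq_top_iff]
  intro m _
  obtain ⟨v, hv, hvm⟩ := hlift (φ m) (hYkey ⟨m, rfl⟩)
  have h0 : e ((p : O) ^ c • (m - v)) = 0 := by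
    rw [← hφ, map_sub, hvm, sub_self]
  obtain ⟨w, hw⟩ := hker _ h0
  have h1 : m - v = (p : O) • w := by
    have h2 : (p : O) ^ c • (m - v - (p : O) • w) = 0 := by
      rw [smul_sub, hw, pow_succ, mul_smul, sub_self]
    have h3 : (m - v - (p : O) • w : ↥(H529.tateEigen (p : O)
        (fun i => H529.PreHom.post (t i)) a)) = 0 := by
      apply Subtype.ext
      funext n
      have h4 := H529.tate_pow_smul (m - v - (p : O) • w).2 c n
      have h5 := congrFun (congrArg Subtype.val h2) (n + c)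
      rw [← h4]
      exact h5
    exact sub_eq_zero.mp h3
  have h6 : m = v + (p : O) • w := by
    rw [← h1]; abel
  rw [h6]
  exact Submodule.add_mem_sup hv (Submodule.smul_mem_smul hpO Submodule.mem_top)

end GeoHom

/-! ### The eigenmodule attached to an eigen-homomorphism `Frac 𝒪 / 𝒪 → J`, with GEO -/

section MainHom

/-- `S30.H529.adicModule_of_torsion` (piece 1 of the adic module layer of row S30) with the
additional conclusion GEO at every subgroup `I` for which (K) holds.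
(Copy of `S32.exists_flat_homEigenmodule`, helper32, with the last conclusion replaced.) -/
theorem exists_geo_homEigenmodule
    {p : ℕ} (hp : p.Prime)
    {O : Type} [CommRing O] [IsDomain O] [IsDiscreteValuationRing O]
    [IsAdicComplete (IsLocalRing.maximalIdeal O) O] [Finite (IsLocalRing.ResidueField O)]
    [CharZero O] (hpO : (p : O) ∈ IsLocalRing.maximalIdeal O)
    {J : Type} [AddCommGroup J] [DistribMulAction GQ J]
    (hsm : ∀ x : J, ∃ L : IntermediateField ℚ (AlgebraicClosure ℚ), FiniteDimensional ℚ L ∧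
      ∀ σ : GQ, (∀ y ∈ L, σ y = y) → σ • x = x)
    (hfin : {x : J | p • x = 0}.Finite)
    {ι : Type} (t : ι → J →+ J) (ht : ∀ i (σ : GQ) (x : J), σ • t i x = t i (σ • x))
    (a : ι → O)
    (f : FractionRing O →+ J) (hf0 : ∀ r : O, f (algebraMap O (FractionRing O) r) = 0)
    (hf : f ≠ 0)
    (hfe : ∀ i x, t i (f x) = f (algebraMap O (FractionRing O) (a i) * x)) :
    ∃ (M : Type) (_ : AddCommGroup M) (_ : Module O M) (_ : Module.Free O M)
      (_ : Module.Finite O M) (ρ : GQ →* Module.End O M),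
      Nontrivial M ∧ GaloisActionIsAdicContinuous O ρ ∧
      (∀ σ : GQ, (∀ x : J, (∃ n : ℕ, p ^ n • x = 0) → σ • x = x) → ρ σ = 1) ∧
      (∀ (i : ι) (n : ℕ) (σ : GQ),
        (∀ x : J, (∃ k : ℕ, p ^ k • x = 0) → σ • σ • x - t i (σ • x) + n • x = 0) →
        ρ σ * ρ σ - a i • ρ σ + (n : O) • (1 : Module.End O M) = 0) ∧
      ∀ I : Subgroup GQ, KeyAt I p J → GeoAt ρ I := by
  have : Fact p.Prime := ⟨hp⟩
  have hϖ0 : (p : O) ≠ 0 := by exact_mod_cast hp.ne_zero
  have hpL : algebraMap O (FractionRing O) (p : O) ≠ 0 := by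
    intro h
    exact hϖ0 ((IsFractionRing.injective O (FractionRing O)) (by rw [h, map_zero]))
  -- operators
  set t' : ι → H529.PreHom O J →ₗ[O] H529.PreHom O J := fun i => H529.PreHom.post (t i) with ht'
  have hρ : ∀ (σ : GQ) (i : ι) (h : H529.PreHom O J),
      H529.preHomRep O J σ (t' i h) = t' i (H529.preHomRep O J σ h) := by
    intro σ i h
    apply H529.PreHom.ext
    intro x
    simp only [ht', H529.preHomRep_apply, H529.PreHom.post_apply]
    exact ht i σ _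
  -- finiteness
  have hX : ∃ Y : Submodule O (H529.PreHom O J), Y.FG ∧
      ∀ h : H529.PreHom O J, (p : O) • h = 0 → h ∈ Y := by
    have hfinX := H529.preHom_torsion_finite (O := O) (J := J) p hϖ0 hfin
    exact ⟨Submodule.span O {h : H529.PreHom O J | (p : O) • h = 0},
      Submodule.fg_span hfinX, fun h hh => Submodule.subset_span hh⟩
  have hfree := H529.tateEigen_free (t := t') (a := a) hpO hϖ0 hX
  have hfinite := H529.tateEigen_finite (t := t') (a := a) hpO hϖ0 hX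
  -- torsion values
  have hval : ∀ (k : ℕ) (h : H529.PreHom O J), (p : O) ^ k • h = 0 →
      ∀ x : O, p ^ k • H529.PreHom.toHom h x = 0 := by
    intro k h hh x
    rw [← H529.PreHom.natCast_pow_smul_apply, hh]
    rfl
  refine ⟨H529.tateEigen (p : O) t' a, inferInstance, inferInstance, hfree, hfinite,
    H529.tateRep (H529.preHomRep O J) hρ, ?_, ?_, ?_, ?_,
    fun I hKey => homEigen_geoAt p O J t a hpO hρ I hKey⟩
  · -- nontrivial
    have hmem : H529.seqOfHom p f ∈ H529.tateEigen (p : O) t' a := by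
      refine ⟨?_, ?_, ?_⟩
      · apply H529.PreHom.ext
        intro x
        rw [H529.PreHom.smul_apply, H529.seqOfHom_apply,
          (algebraMap O (FractionRing O)).map_mul]
        have : algebraMap O (FractionRing O) (p : O) * algebraMap O (FractionRing O) x
            * (algebraMap O (FractionRing O) (p : O) ^ (0 + 1))⁻¹
            = algebraMap O (FractionRing O) x := by
          field_simp
          ring
        rw [this, hf0]
        rfl
      · intro n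
        apply H529.PreHom.ext
        intro x
        rw [H529.PreHom.smul_apply, H529.seqOfHom_apply, H529.seqOfHom_apply,
          (algebraMap O (FractionRing O)).map_mul]
        congr 1
        field_simp
        ring
      · intro i n
        apply H529.PreHom.ext
        intro x
        rw [H529.PreHom.smul_apply, H529.seqOfHom_apply]
        simp only [ht', H529.PreHom.post_apply]
        rw [H529.seqOfHom_apply, hfe, (algebraMap O (FractionRing O)).map_mul, mul_assoc]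
    have hne : H529.seqOfHom p f ≠ 0 := by
      intro h0
      apply hf
      apply AddMonoidHom.ext
      intro y
      obtain ⟨x, s, hs, rfl⟩ := IsFractionRing.div_surjective (A := O) y
      have hs0 : s ≠ 0 := nonZeroDivisors.ne_zero hs
      obtain ⟨k, c, hc⟩ := H529.exists_dvd_pow_of_mem_maximalIdeal hpO hs0
      have h1 := congrArg (fun h => H529.PreHom.toHom h (x * c * (p : O))) (congrFun h0 k)
      simp only [H529.seqOfHom_apply] at h1
      have hsL : algebraMap O (FractionRing O) s ≠ 0 := by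
        intro h
        exact hs0 ((IsFractionRing.injective O (FractionRing O)) (by rw [h, map_zero]))
      have h2 : algebraMap O (FractionRing O) (x * c * (p : O))
          * (algebraMap O (FractionRing O) (p : O) ^ (k + 1))⁻¹
          = algebraMap O (FractionRing O) x / algebraMap O (FractionRing O) s := by
        have h3 : algebraMap O (FractionRing O) (p : O) ^ k
            = algebraMap O (FractionRing O) s * algebraMap O (FractionRing O) c := by
          rw [← map_pow, hc, map_mul]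
        rw [pow_succ, h3, (algebraMap O (FractionRing O)).map_mul,
          (algebraMap O (FractionRing O)).map_mul]
        have hcL : algebraMap O (FractionRing O) c ≠ 0 := by
          intro h
          rw [h, mul_zero] at h3
          exact hpL (pow_eq_zero_iff (by
            intro hk
            subst hk
            simp at h3) |>.mp h3)
        field_simp
      rw [h2] at h1
      rw [h1]
      rfl
    refine ⟨⟨⟨H529.seqOfHom p f, hmem⟩, 0, ?_⟩⟩
    intro h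
    exact hne (congrArg Subtype.val h)
  · -- continuity
    intro n
    obtain ⟨L, hL, hLfix⟩ := H529.exists_common_level {x : J | p ^ n • x = 0}
      (H529.finite_torsion_pow J p hfin n) (fun x _ => hsm x)
    refine ⟨L, hL, fun σ hσ m => ?_⟩
    apply H529.tateRep_sub_mem (H529.preHomRep O J) hρ hpO n σ
    intro h hh
    apply H529.PreHom.ext
    intro x
    rw [H529.preHomRep_apply]
    exact hLfix σ hσ _ (hval n h hh x)
  · -- trivial action
    intro σ hσ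
    apply H529.tateRep_eq_one
    rintro h ⟨k, hh⟩
    apply H529.PreHom.ext
    intro x
    rw [H529.preHomRep_apply]
    exact hσ _ ⟨k, hval k h hh x⟩
  · -- quadratic relations
    intro i n σ hσ
    apply H529.tateRep_quadratic
    rintro h ⟨k, hh⟩
    apply H529.PreHom.ext
    intro x
    have h1 := hσ (H529.PreHom.toHom h x) ⟨k, hval k h hh x⟩
    simp only [ht', H529.PreHom.toHom_add, H529.PreHom.toHom_sub, AddMonoidHom.add_apply,
      AddMonoidHom.sub_apply, H529.preHomRep_apply, H529.PreHom.post_apply,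
      H529.PreHom.natCast_smul_apply, H529.PreHom.toHom_zero, AddMonoidHom.zero_apply]
    exact h1

end MainHom

/-! ### GEO-EIG from (K) and the inputs of the adic module layer of row S30 -/

section Chain

open Fermat.Agent.S30.H990 (AdicEigenModule)
open Fermat.Agent.S30.H330

/-- **PIECE EIG-B** from (K) and the inputs (K'), (F), (T) of the adic module layer of row S30
(all three are theorems on main, see `EigBFinal.lean`). -/
theorem geoEigenStatement_of_chain (hKey : KeyStatement)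
    (hK : ∀ (N : ℕ) [NeZero N] (p : ℕ) [Fact p.Prime], KummerInjStatement N p)
    (hF : ∀ (N : ℕ) [NeZero N] (p : ℕ) [Fact p.Prime], FinStatement N p)
    (hT : ∀ (N : ℕ) [NeZero N] (p : ℕ) [Fact p.Prime], TorsionRelations N p) :
    GeoEigenStatement := by
  intro p _ hp2 N _ S hN hNS 𝒪' _ _ _ _ _ _ hp𝒪' χ
  classical
  have hp : p.Prime := Fact.out
  have hpS : p ∈ S := hNS p hp hN.1
  obtain ⟨f, hf0, hf, hfe⟩ :=
    exists_eigenHom_of_inj hpS hNS hp𝒪' χ (hK N p) (parEigenStatement hNS χ)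
  have hSm := Fermat.Agent.S30.H990.smoothStatement N
  have hGH := Fermat.Agent.S30.H990.galoisHeckeStatement N
  obtain ⟨M, j1, j2, j3, j4, ρ, hnt, hcont, hunr, hquad, hgeo⟩ :=
    exists_geo_homEigenmodule (O := 𝒪') hp hp𝒪' (J := ModularCurve.JZero N)
      (fun x => hSm x) (hF N p)
      (ι := {ℓ : Nat.Primes // (ℓ : ℕ) ∉ S})
      (fun i => (ModularCurve.heckeOperatorBar N i.1).toAddMonoidHom)
      (fun i σ x => hGH σ i.1 x)
      (fun i => eigenvalue χ (i.1 : ℕ)) f hf0 hf (fun i x => hfe i.1 i.2 x)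
  have hdvd : ∀ q : ℕ, q.Prime → ¬ q ∣ N → q ≠ p → ¬ q ∣ N * p := by
    intro q hq hqN hqp hdiv
    rcases (Nat.Prime.dvd_mul hq).1 hdiv with h1 | h1
    · exact hqN h1
    · exact hqp ((Nat.prime_dvd_prime_iff_eq hq hp).1 h1)
  exact ⟨{ M := M
           ρ := ρ
           cont := hcont
           unram := fun q hq hqN hqp P hP σ hσ =>
             hunr σ fun x hx => (hT N p q hq (hdvd q hq hqN hqp) P hP).1 σ hσ x hx
           frob := fun ℓ hℓ hℓN hℓS A hA σ hσ => by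
             have hℓS' : ℓ ∉ S := fun hmem => hℓS (Finset.mem_coe.mpr hmem)
             have hℓp : ℓ ≠ p := fun h => hℓS' (h ▸ hpS)
             have h1 := hquad ⟨⟨ℓ, hℓ⟩, hℓS'⟩ ℓ σ
               fun x hx => (hT N p ℓ hℓ (hdvd ℓ hℓ hℓN hℓp) A hA).2 σ hσ x hx
             have h2 : eigenvalue χ ℓ = χ (CuspForm.heckeAlgebra.T hℓ hℓN hℓS) := by
               unfold eigenvalue
               rw [dif_pos ⟨hℓ, hℓN, hℓS⟩]
             rw [← h2]
             exact h1 },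
    fun P hP => hgeo _ (hKey p N hp hp2 hN.1 hN.2 P hP)⟩

end Chain

end Fermat.Agent.S33

end
end
-- ===== PACK-END S33/EigB.lean

-- ===== PACK-BEGIN S59/NMP/H935/Shapes.lean
section


/-!
# Row S59, cell NMP, leaf DATUM (helper935): the frozen inputs as `Prop`s

`OrdDatumStatement` is proved in `OrdDatum.lean` from the frozen statements S31, S34 (shapes below,
verbatim), S33 (`Fermat.Agent.S33.S33Statement` has the same shape; restated here to keep the
import closure small) and `G4.G4Statement`.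
-/

set_option autoImplicit false

open Polynomial IsLocalRing

namespace Fermat.Agent.S59.NMP.H935

/-- The frozen statement S31 (unramified outside `S`), as a `Prop`. -/
def S31Shape : Prop :=
  ∀ {p : ℕ} {N : ℕ} [NeZero N] {S : Finset ℕ}
    {𝒪 : Type} [CommRing 𝒪] [IsDomain 𝒪] [IsDiscreteValuationRing 𝒪]
    [IsAdicComplete (maximalIdeal 𝒪) 𝒪]
    {θ : CuspForm.heckeAlgebra N 2 (↑S : Set ℕ) →+* ResidueField 𝒪}
    {T : Type} [CommRing T] [IsLocalRing T] [IsNoetherianRing T]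
    [IsAdicComplete (maximalIdeal T) T] [Algebra 𝒪 T] [IsLocalHom (algebraMap 𝒪 T)]
    [Module.Finite 𝒪 T] [Module.Free 𝒪 T],
    p.Prime → (p : 𝒪) ∈ maximalIdeal 𝒪 → p ∈ S →
    (∀ q : ℕ, q.Prime → q ∣ N → q ∈ S) →
    ∀ (H : CuspForm.HeckeGaloisRepDatum N (↑S : Set ℕ) 𝒪 θ T) (q : ℕ), q.Prime → q ∉ S →
      H.ρ.IsUnramifiedAt q

/-- The frozen statement S33 (ordinary at `p ∥ N`), as a `Prop`. -/
def S33Shape : Prop :=
  ∀ {p : ℕ} {N : ℕ} [NeZero N] {S : Finset ℕ}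
    {𝒪 : Type} [CommRing 𝒪] [IsDomain 𝒪] [IsDiscreteValuationRing 𝒪]
    [IsAdicComplete (maximalIdeal 𝒪) 𝒪]
    {θ : CuspForm.heckeAlgebra N 2 (↑S : Set ℕ) →+* ResidueField 𝒪}
    {T : Type} [CommRing T] [IsLocalRing T] [IsNoetherianRing T]
    [IsAdicComplete (maximalIdeal T) T] [Algebra 𝒪 T] [IsLocalHom (algebraMap 𝒪 T)]
    [Module.Finite 𝒪 T] [Module.Free 𝒪 T]
    [Finite (ResidueField 𝒪)] [CharZero 𝒪],
    p.Prime → p ≠ 2 → (p : 𝒪) ∈ maximalIdeal 𝒪 → (p ∣ N ∧ ¬ p ^ 2 ∣ N) →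
    (∀ q : ℕ, q.Prime → q ∣ N → q ∈ S) →
    ∀ H : CuspForm.HeckeGaloisRepDatum N (↑S : Set ℕ) 𝒪 θ T,
      (GaloisRepAdic.ofResidualGaloisRep H.ρ.residual).IsOrdinaryAt p → H.ρ.IsOrdinaryAt p

/-- The frozen statement S34 (unipotent inertia at `q ∥ N`, `q ≠ p`), as a `Prop`. -/
def S34Shape : Prop :=
  ∀ {𝒪 : Type} [CommRing 𝒪] [IsDomain 𝒪] [IsDiscreteValuationRing 𝒪]
    [IsAdicComplete (maximalIdeal 𝒪) 𝒪] [Finite (ResidueField 𝒪)] [CharZero 𝒪]
    {p : ℕ}, p.Prime → (p : 𝒪) ∈ maximalIdeal 𝒪 →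
    ∀ {N : ℕ} [NeZero N] {S : Finset ℕ}, p ∈ S → (∀ q : ℕ, q.Prime → q ∣ N → q ∈ S) →
    ∀ {θ : CuspForm.heckeAlgebra N 2 (↑S : Set ℕ) →+* ResidueField 𝒪}
    {T : Type} [CommRing T] [IsLocalRing T] [IsNoetherianRing T]
    [IsAdicComplete (maximalIdeal T) T] [Algebra 𝒪 T] [IsLocalHom (algebraMap 𝒪 T)]
    [Module.Finite 𝒪 T] [Module.Free 𝒪 T]
    (H : CuspForm.HeckeGaloisRepDatum N (↑S : Set ℕ) 𝒪 θ T)
    (q : ℕ), q.Prime → q ≠ p → q ∣ N → ¬ q ^ 2 ∣ N →
    H.ρ.IsUnipotentOnInertiaAt q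

end Fermat.Agent.S59.NMP.H935

end
-- ===== PACK-END S59/NMP/H935/Shapes.lean

-- ===== PACK-BEGIN S59/NMP/H935/OrdDatum.lean
section










/-!
# Row S59, cell NMP, leaf DATUM (helper935)

`ordDatum_of : G4.G4Statement → S31Shape → S33Shape → S34Shape → NMP.OrdDatumStatement`.

* `datum_residual_isEquiv` (**RESEQ**, general): the residual representation of ANY Hecke–Galois
  datum over `T` whose residual character `θ` is the Frobenius character of `ρ̄` is `ρ̄ ⊗ k(T)`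
  (`p` odd; Chebotarev `S58.H273.charpoly_residual_eq_of_frob` + Brauer–Nesbitt `ResBN`).
* `sigmaCond_ord_of`: the datum at the level `N_Σ p` is of type `.ord` (frozen S31, S33, S34 as
  hypotheses + determinant `H540`).
* `rig_of_datum` (**RIG**, `p` odd): `ρ_{T'} ⊗_res T ≅ ρ_T` for a `LevelPair`.
-/

set_option autoImplicit false
set_option linter.unusedSectionVars false
set_option linter.style.haveILetI false

open Polynomial IsLocalRing

namespace Fermat.Agent.S59.NMP.H935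

open CuspForm Fermat.Agent.S59.Arch Fermat.Agent.S59.H765

section Datum

variable {N : ℕ} [NeZero N] {S : Finset ℕ}
  {𝒪 : Type} [CommRing 𝒪] [IsDomain 𝒪] [IsDiscreteValuationRing 𝒪]
  [IsAdicComplete (maximalIdeal 𝒪) 𝒪]
  {θ : heckeAlgebra N 2 (↑S : Set ℕ) →+* ResidueField 𝒪}
  {T : Type} [CommRing T] [IsLocalRing T] [IsNoetherianRing T]
  [IsAdicComplete (maximalIdeal T) T] [Algebra 𝒪 T] [IsLocalHom (algebraMap 𝒪 T)]
  [Module.Finite 𝒪 T] [Module.Free 𝒪 T]

omit [IsDomain 𝒪] [IsDiscreteValuationRing 𝒪] [IsAdicComplete (maximalIdeal 𝒪) 𝒪]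
  [IsNoetherianRing T] [IsAdicComplete (maximalIdeal T) T] [Module.Finite 𝒪 T]
  [Module.Free 𝒪 T] in
/-- `p ∈ 𝔪_𝒪` implies `p ∈ 𝔪_T`. -/
theorem natCast_mem_maximalIdeal_h935 [IsLocalRing 𝒪] {p : ℕ} (hp𝒪 : (p : 𝒪) ∈ maximalIdeal 𝒪) :
    (p : T) ∈ maximalIdeal T := by
  have h := ((local_hom_TFAE (algebraMap 𝒪 T)).out 0 2 rfl rfl).mp inferInstance
    (Ideal.mem_map_of_mem (algebraMap 𝒪 T) hp𝒪)
  rwa [map_natCast] at h

/-- The representation of a Hecke–Galois datum is odd (`p` odd): trace `0` at complex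
conjugation. -/
theorem datum_trace_complexConjugation (p : ℕ) [Fact p.Prime] (hp2 : p ≠ 2)
    (hpT : (p : T) ∈ maximalIdeal T) (H : HeckeGaloisRepDatum N (↑S : Set ℕ) 𝒪 θ T) :
    H.ρ.trace complexConjugation = 0 :=
  Fermat.Agent.S59.G4.H307.trace_eq_zero_of_det_eq_neg_one H.ρ complexConjugation
    complexConjugation_mul_self
    (Fermat.Agent.S59.G4.H178.det_involution_eq_neg_one H.ρ p hp2
      (Fermat.Agent.S59.H540.heckeGaloisRepDatum_detIsCyclotomic S H p hpT) complexConjugation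
      complexConjugation_mul_self Fermat.Agent.S59.G4.H307.complexConjugation_ne_one)

/-- **RESEQ.**  The residual representation of a Hecke–Galois datum whose residual character is
the Frobenius character of `ρ̄` is `ρ̄ ⊗ k(T)`. -/
theorem datum_residual_isEquiv (p : ℕ) [Fact p.Prime] (hp2 : p ≠ 2)
    (hpT : (p : T) ∈ maximalIdeal T) (H : HeckeGaloisRepDatum N (↑S : Set ℕ) 𝒪 θ T)
    (ρbar : ResidualGaloisRep (ResidueField 𝒪)) (hθ : G4.ResFrobCond ρbar θ) :
    H.ρ.residual.IsEquiv (ρbar.baseChangeAlong (ResidueField.map (algebraMap 𝒪 T))) := by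
  classical
  have hp : p.Prime := Fact.out
  have hcp : ∀ g : AlgebraicClosure ℚ ≃ₐ[ℚ] AlgebraicClosure ℚ,
      LinearMap.charpoly (H.ρ.residual.ρ g) =
        (LinearMap.charpoly (ρbar.ρ g)).map (ResidueField.map (algebraMap 𝒪 T)) := by
    refine Fermat.Agent.S58.H273.charpoly_residual_eq_of_frob ρbar
      (ResidueField.map (algebraMap 𝒪 T)) H.ρ (S ∪ N.primeFactors) ?_
    intro ℓ hℓ hℓF B hB σ hσ
    have hℓS : ℓ ∉ (↑S : Set ℕ) := fun h => hℓF (Finset.mem_union_left _ (Finset.mem_coe.mp h))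
    have hℓN : ¬ ℓ ∣ N := fun h =>
      hℓF (Finset.mem_union_right _ (Nat.mem_primeFactors.mpr ⟨hℓ, h, NeZero.ne N⟩))
    rw [H.charpoly_frob ℓ hℓ hℓN hℓS B hB σ hσ, hθ ℓ hℓ hℓN hℓS B hB σ hσ]
    simp only [Polynomial.map_sub, Polynomial.map_add, Polynomial.map_mul, Polynomial.map_pow,
      Polynomial.map_X, Polynomial.map_C, map_natCast, Polynomial.map_natCast, H.residue_π]
  have h2T : IsUnit (2 : T) := Fermat.Agent.S59.G4.H307.isUnit_two_of_odd_mem hp hp2 hpT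
  have h2 : (2 : ResidueField T) ≠ 0 := by
    have h := h2T.map (residue T)
    rw [map_ofNat] at h
    exact h.ne_zero
  have hc : LinearMap.trace (ResidueField T) H.ρ.residual.V
      (H.ρ.residual.ρ complexConjugation) = 0 := by
    have h1 : LinearMap.trace T H.ρ.V (H.ρ.ρ complexConjugation) = 0 :=
      datum_trace_complexConjugation p hp2 hpT H
    have h3 : LinearMap.trace (ResidueField T) H.ρ.residual.V
        (H.ρ.residual.ρ complexConjugation) =
        algebraMap T (ResidueField T) (LinearMap.trace T H.ρ.V (H.ρ.ρ complexConjugation)) :=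
      LinearMap.trace_baseChange (H.ρ.ρ complexConjugation) (ResidueField T)
    rw [h3, h1, map_zero]
  refine residual_isEquiv_of_charpoly_eq h2 _ _ (fun σ => ?_) complexConjugation
    complexConjugation_mul_self hc
    (Fermat.Agent.S59.G4.H307.isIrreducible_of_absIrr _ H.residual_absIrr)
  rw [hcp σ, Fermat.Agent.S59.H686.rfd_charpoly_baseChangeAlong]

end Datum

/-- The datum at the level `N_Σ p` is of type `.ord`. -/
theorem sigmaCond_ord_of (h31 : S31Shape) (h33 : S33Shape) (h34 : S34Shape)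
    (p : ℕ) [Fact p.Prime]
    (𝒪 : Type) [CommRing 𝒪] [IsDomain 𝒪] [IsDiscreteValuationRing 𝒪]
    [IsAdicComplete (maximalIdeal 𝒪) 𝒪] [Finite (ResidueField 𝒪)] [CharZero 𝒪]
    (ρbar : ResidualGaloisRep (ResidueField 𝒪)) (Smin : Finset ℕ)
    (h : ResidualHyp p 𝒪 ρbar Smin) (Sig : Finset ℕ)
    (hSig : Smin ⊆ Sig) (hSigP : ∀ q ∈ Sig, q.Prime) (hpSig : p ∈ Sig)
    (hord : (GaloisRepAdic.ofResidualGaloisRep ρbar).IsOrdinaryAt p)
    [NeZero (wilesLevel p .ord Smin Sig)]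
    {θ' : heckeAlgebra (wilesLevel p .ord Smin Sig) 2 (↑Sig : Set ℕ) →+* ResidueField 𝒪}
    {T' : Type} [CommRing T'] [IsLocalRing T'] [IsNoetherianRing T']
    [IsAdicComplete (maximalIdeal T') T'] [Algebra 𝒪 T'] [IsLocalHom (algebraMap 𝒪 T')]
    [Module.Finite 𝒪 T'] [Module.Free 𝒪 T']
    (H' : HeckeGaloisRepDatum (wilesLevel p .ord Smin Sig) (↑Sig : Set ℕ) 𝒪 θ' T')
    (hres' : H'.ρ.residual.IsEquiv
      (ρbar.baseChangeAlong (ResidueField.map (algebraMap 𝒪 T')))) :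
    sigmaCond 𝒪 p .ord Smin Sig H'.ρ := by
  have hp : p.Prime := Fact.out
  have hNS' : ∀ q : ℕ, q.Prime → q ∣ wilesLevel p .ord Smin Sig → q ∈ Sig :=
    fun q hq hd => prime_dvd_wilesLevel p .ord hSig hSigP hpSig hq hd
  have hpT' : (p : T') ∈ maximalIdeal T' := natCast_mem_maximalIdeal_h935 h.hp𝒪
  have hne : wilesLevel p .ord Smin Sig ≠ 0 := wilesLevel_ne_zero hp h.hSmin hSigP
  refine ⟨⟨Fermat.Agent.S59.H540.heckeGaloisRepDatum_detIsCyclotomic Sig H' p hpT', ?_, ?_⟩, ?_⟩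
  · -- ordinary at `p` (frozen S33)
    refine h33 hp h.hp2 h.hp𝒪
      ⟨dvd_wilesLevel_of_ne_flat hp (fun hh => PType.noConfusion hh),
        not_sq_dvd_wilesLevel hp h.hSmin hSigP h.hpSmin⟩ hNS' H' ?_
    have hι : IsLocalHom (ResidueField.map (algebraMap 𝒪 T')) := inferInstance
    have h1 := Fermat.Agent.S59.H659.isOrdinaryAt_baseChangeAlong
      (ResidueField.map (algebraMap 𝒪 T')) hι hord
    have h2 := Fermat.Agent.S59.H659.isOrdinaryAt_of_isEquiv
      ⟨(Fermat.Agent.S59.NMP.H437.ofResidualBaseChange437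
        (ResidueField.map (algebraMap 𝒪 T')) hι ρbar).symm⟩ h1
    obtain ⟨e⟩ := hres'
    exact Fermat.Agent.S59.H659.isOrdinaryAt_of_isEquiv
      ⟨(Fermat.Agent.S59.NMP.H437.ofResidualEquiv437 e).symm⟩ h2
  · -- unramified outside `Σ` (frozen S31)
    intro q hq hqS
    exact h31 hp h.hp𝒪 hpSig hNS' H' q hq hqS
  · -- unipotent inertia at `q ∈ Smin`, `q ≠ p` (frozen S34)
    intro q hqS hq hqp
    refine h34 hp h.hp𝒪 hpSig hNS' H' q hq hqp
      (dvd_wilesLevel_of_mem hp h.hSmin hSigP q (hSig hqS) hqp) ?_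
    intro hd
    have h2 := (hq.pow_dvd_iff_le_factorization hne).mp hd
    rw [factorization_wilesLevel hp h.hSmin hSigP] at h2
    have h1 : q ∈ Smin.erase p := Finset.mem_erase.mpr ⟨hqp, hqS⟩
    have h3 : q ∉ Sig \ Smin := fun hh => (Finset.mem_sdiff.mp hh).2 hqS
    have h4 : ¬ (PType.ord ≠ PType.flat ∧ q = p) := fun hh => hqp hh.2
    rw [if_pos h1, if_neg h3, if_neg h4] at h2
    omega

/-- **RIG** (`p` odd).  For a `LevelPair` and data `H`, `H'` with the canonical Hecke structures,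
`res = H765.resLocal` is local and `ρ_{T'} ⊗_res T ≅ ρ_T`. -/
theorem rig_of_datum (p : ℕ) [Fact p.Prime] (hp2 : p ≠ 2)
    {N N' : ℕ} [NeZero N] [NeZero N'] {S S' : Finset ℕ}
    (hpair : LevelPair N N' (↑S : Set ℕ) (↑S' : Set ℕ))
    (𝒪 : Type) [CommRing 𝒪] [IsDomain 𝒪] [IsDiscreteValuationRing 𝒪]
    [IsAdicComplete (maximalIdeal 𝒪) 𝒪] (hp𝒪 : (p : 𝒪) ∈ maximalIdeal 𝒪)
    [Fact (HasIntegralStructure N 2)] [Fact (HasIntegralStructure N' 2)]
    (θ : heckeAlgebra N 2 (↑S : Set ℕ) →+* ResidueField 𝒪)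
    (H : HeckeGaloisRepDatum N (↑S : Set ℕ) 𝒪 θ (heckeLocal N (↑S : Set ℕ) 𝒪 θ))
    (hH : H.π = heckeLocal.π N (↑S : Set ℕ) 𝒪 θ)
    (H' : HeckeGaloisRepDatum N' (↑S' : Set ℕ) 𝒪 (θ.comp (oldRestrict hpair))
      (heckeLocal N' (↑S' : Set ℕ) 𝒪 (θ.comp (oldRestrict hpair))))
    (hH' : H'.π = heckeLocal.π N' (↑S' : Set ℕ) 𝒪 (θ.comp (oldRestrict hpair))) :
    ∃ hres : IsLocalHom
        ((resLocal hpair 𝒪 θ :
          heckeLocal N' (↑S' : Set ℕ) 𝒪 (θ.comp (oldRestrict hpair)) →ₐ[𝒪]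
            heckeLocal N (↑S : Set ℕ) 𝒪 θ) :
          heckeLocal N' (↑S' : Set ℕ) 𝒪 (θ.comp (oldRestrict hpair)) →+*
            heckeLocal N (↑S : Set ℕ) 𝒪 θ),
      (H'.ρ.baseChangeAlong
        ((resLocal hpair 𝒪 θ :
          heckeLocal N' (↑S' : Set ℕ) 𝒪 (θ.comp (oldRestrict hpair)) →ₐ[𝒪]
            heckeLocal N (↑S : Set ℕ) 𝒪 θ) :
          heckeLocal N' (↑S' : Set ℕ) 𝒪 (θ.comp (oldRestrict hpair)) →+*
            heckeLocal N (↑S : Set ℕ) 𝒪 θ) hres).IsEquiv H.ρ := by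
  classical
  have hp : p.Prime := Fact.out
  have hloc : IsLocalHom
      ((resLocal hpair 𝒪 θ :
        heckeLocal N' (↑S' : Set ℕ) 𝒪 (θ.comp (oldRestrict hpair)) →ₐ[𝒪]
          heckeLocal N (↑S : Set ℕ) 𝒪 θ) :
        heckeLocal N' (↑S' : Set ℕ) 𝒪 (θ.comp (oldRestrict hpair)) →+*
          heckeLocal N (↑S : Set ℕ) 𝒪 θ) :=
    Fermat.Agent.S59.TW.H788.isLocalHom_of_finite (resLocal hpair 𝒪 θ)
  refine ⟨hloc, ?_⟩
  have htr : ∀ σ : AlgebraicClosure ℚ ≃ₐ[ℚ] AlgebraicClosure ℚ,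
      ((resLocal hpair 𝒪 θ :
        heckeLocal N' (↑S' : Set ℕ) 𝒪 (θ.comp (oldRestrict hpair)) →ₐ[𝒪]
          heckeLocal N (↑S : Set ℕ) 𝒪 θ) :
        heckeLocal N' (↑S' : Set ℕ) 𝒪 (θ.comp (oldRestrict hpair)) →+*
          heckeLocal N (↑S : Set ℕ) 𝒪 θ) (H'.ρ.trace σ) = H.ρ.trace σ := by
    refine Fermat.Agent.S59.TW.H788.map_trace_eq_of_frob _ hloc _ _ (S' ∪ N'.primeFactors) ?_
    intro ℓ hℓ hℓF B hB τ hτ
    have hℓS' : ℓ ∉ (↑S' : Set ℕ) := fun h =>
      hℓF (Finset.mem_union_left _ (Finset.mem_coe.mp h))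
    have hℓN' : ¬ ℓ ∣ N' := fun h =>
      hℓF (Finset.mem_union_right _ (Nat.mem_primeFactors.mpr ⟨hℓ, h, NeZero.ne N'⟩))
    have hℓN : ¬ ℓ ∣ N := fun h => hℓN' (h.trans hpair.dvd)
    have hℓS : ℓ ∉ (↑S : Set ℕ) := fun h => hℓS' (hpair.sub h)
    have h1 : H'.ρ.trace τ = H'.π (heckeAlgebra.T hℓ hℓN' hℓS') :=
      trace_eq_of_charpoly H'.ρ.finrank_eq _ _ _ (H'.charpoly_frob ℓ hℓ hℓN' hℓS' B hB τ hτ)
    have h2 : H.ρ.trace τ = H.π (heckeAlgebra.T hℓ hℓN hℓS) :=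
      trace_eq_of_charpoly H.ρ.finrank_eq _ _ _ (H.charpoly_frob ℓ hℓ hℓN hℓS B hB τ hτ)
    rw [h1, h2, hH, hH']
    exact resLocal_T hpair 𝒪 θ hℓ hℓN' hℓS' hℓN hℓS
  have hpT : (p : heckeLocal N (↑S : Set ℕ) 𝒪 θ) ∈ maximalIdeal (heckeLocal N (↑S : Set ℕ) 𝒪 θ) :=
    natCast_mem_maximalIdeal_h935 hp𝒪
  have h2 : IsUnit (2 : heckeLocal N (↑S : Set ℕ) 𝒪 θ) :=
    Fermat.Agent.S59.G4.H307.isUnit_two_of_odd_mem hp hp2 hpT
  have hc : H.ρ.trace complexConjugation = 0 := datum_trace_complexConjugation p hp2 hpT H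
  have hirr : H.ρ.residual.IsIrreducible :=
    Fermat.Agent.S59.G4.H307.isIrreducible_of_absIrr _ H.residual_absIrr
  obtain ⟨e⟩ := Fermat.Agent.S59.H307.isEquiv_of_trace_eq h2 H.ρ (H'.ρ.baseChangeAlong _ hloc)
    (fun σ => by rw [Fermat.Agent.S59.TW.H788.trace_baseChangeAlong, htr]) complexConjugation
    complexConjugation_mul_self hc hirr
  exact ⟨e.symm⟩

/-- **LEAF DATUM** of the cell NMP, from G4 and the frozen statements S31, S33, S34. -/
theorem ordDatum_of (hG4 : Fermat.Agent.S59.G4.G4Statement) (h31 : S31Shape) (h33 : S33Shape)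
    (h34 : S34Shape) : OrdDatumStatement := by
  intro p _ 𝒪 _ _ _ _ _ _ ρbar Smin h Sig hSig hSigP hpSig hord _ _ θ _ _ _ _ _ _ H hπ hres hcond
  have hp : p.Prime := Fact.out
  haveI hN' : NeZero (wilesLevel p .ord Smin Sig) := ⟨wilesLevel_ne_zero hp h.hSmin hSigP⟩
  haveI hI' : Fact (HasIntegralStructure (wilesLevel p .ord Smin Sig) 2) :=
    ⟨Fermat.Agent.S23.result _⟩
  have hθ : Fermat.Agent.S59.G4.ResFrobCond ρbar θ :=
    Fermat.Agent.S59.H686.resFrobOfDatum _ _ 𝒪 ρbar θ _ H hres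
  have hθ' : Fermat.Agent.S59.G4.ResFrobCond ρbar
      (θ.comp (oldRestrict (levelPair_flat_ord p hSig hSigP hpSig))) :=
    resFrobCond_comp _ hθ
  have hNS' : ∀ q : ℕ, q.Prime → q ∣ wilesLevel p .ord Smin Sig → q ∈ Sig :=
    fun q hq hd => prime_dvd_wilesLevel p .ord hSig hSigP hpSig hq hd
  obtain ⟨H', hH'⟩ := hG4 p h.hp2 (wilesLevel p .ord Smin Sig) Sig hpSig hNS' 𝒪 h.hp𝒪
    (θ.comp (oldRestrict (levelPair_flat_ord p hSig hSigP hpSig))) ⟨ρbar, h.habs, hθ'⟩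
  have hres' := datum_residual_isEquiv p h.hp2 (natCast_mem_maximalIdeal_h935 h.hp𝒪) H' ρbar hθ'
  exact ⟨hN', hI', inferInstance, inferInstance, inferInstance, inferInstance, inferInstance,
    inferInstance, H', hH', hres',
    sigmaCond_ord_of h31 h33 h34 p 𝒪 ρbar Smin h Sig hSig hSigP hpSig hord H' hres',
    rig_of_datum p h.hp2 (levelPair_flat_ord p hSig hSigP hpSig) 𝒪 h.hp𝒪 θ H hπ H' hH'⟩

end Fermat.Agent.S59.NMP.H935

end
-- ===== PACK-END S59/NMP/H935/OrdDatum.lean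

-- ===== PACK-BEGIN S59/TW/Aut/H673/D561New.lean
section



-- Vendored VERBATIM (namespace renamed) by helper673 from helper561's off-main
-- `Fermat/Agent/S38/H561/DictNew.lean` (origin/helper561), on top of helper81's vendored copies
-- `S59/TW/H81/D561/*`, so that the S59 leaf DICT-R is self-contained on main.
-- All credit for this file: helper561.

/-!
# Row HARD, cell HECKE, leaf DICT (helper561): Betti point → newform with `q² ∥ level`

Part 3 of the dictionary.  The twisted eigenvector of `exists_twisted_eigenvector` is fed to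
TW-NS (helper54, `twistL_anemic_exists_newform`):

* `mem_L_of_chiZ_ne_one`, `mem_L_of_unit` : a prime `q ∥ M` at which the nebentypus `χ` is
  nontrivial (`χ d ≠ 1` for some `d ≡ 1 mod M / q`) is one of the twisting primes of ANY twist
  datum of `χ`;
* `exists_newform_of_occurs` : if `vals` occurs integrally in the parabolic classes of `K`, and
  `vals (⟨d⟩) ≠ 1` for some `d ≡ 1 mod M / q`, `q² ∥ N'`, then there are a newform `g` of a
  level `M₁ ∣ N'` with `q² ∥ M₁` and eigenvalues `c` with `a_ℓ(g) = c (T_ℓ)` such that every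
  integral polynomial relation between the `c j` holds for the `vals j`;
* `exists_newform_ringHom_of_occurs` : the same with a ring homomorphism `L : R₀ →+* R`,
  `R₀ ⊆ ℂ` a subring containing the `a_ℓ(g)`, `L (a_ℓ g) = vals (T_ℓ)`: this is the shape of
  the hypotheses of helper107 `carriesAt_of_lam107` / `carriesAt_of_subring107`.
-/

set_option autoImplicit false
set_option linter.unusedSectionVars false
set_option linter.unusedVariables false
set_option linter.style.haveILetI false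

noncomputable section

namespace Fermat.Agent.S59.TW.Aut.H673.D561

open Fermat.Agent.S59.TW.H81.D561

open CongruenceSubgroup ModularForm ModularCurve ModularCurve.Period
open UpperHalfPlane hiding I
open Matrix.SpecialLinearGroup Fermat.Agent.Lib.Newform.H803
open Fermat.Agent.S59.TW.H653 Fermat.Agent.S59.TW.H564 Fermat.Agent.S59.TW.H658
open scoped Manifold MatrixGroups ModularForm

section Mem

variable {M N' : ℕ} {χ : DirichletCharacter ℂ M}

/-- A prime `q ∥ M` at which `χ` is nontrivial is one of the twisting primes (integer form). -/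
theorem mem_L_of_chiZ_ne_one (D : TwistDatum M N' χ) {q M' : ℕ} (hq : q.Prime)
    (hM : M = M' * q) (z : ℤ) (hz : IsCoprime z (N' : ℤ)) (hz1 : (M' : ℤ) ∣ z - 1)
    (hχ : chiZ χ z ≠ 1) : q ∈ D.L := by
  by_contra hqL
  apply hχ
  have h := D.triv z hz
  rw [chiL_apply] at h
  have hprod : (D.L.map fun q' => D.ψ q' ((z : ℤ) : ZMod q') ^ 2).prod = 1 := by
    apply List.prod_eq_one
    intro x hx
    obtain ⟨q', hq', rfl⟩ := List.mem_map.mp hx
    obtain ⟨hq'p, M'', hM'', hcop⟩ := D.prime q' hq'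
    have hne : q' ≠ q := fun h => hqL (h ▸ hq')
    have hdvd : q' ∣ M' := by
      have h1 : q' ∣ M' * q := ⟨M'', by rw [← hM, hM'', mul_comm]⟩
      rcases (Nat.Prime.dvd_mul hq'p).mp h1 with h | h
      · exact h
      · exact absurd ((Nat.prime_dvd_prime_iff_eq hq'p hq).mp h) hne
    have h1 : ((z : ℤ) : ZMod q') = 1 := by
      have h2 : (q' : ℤ) ∣ z - 1 := (Int.natCast_dvd_natCast.mpr hdvd).trans hz1
      have h3 := (ZMod.intCast_zmod_eq_zero_iff_dvd (z - 1) q').mpr h2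
      push_cast at h3
      exact sub_eq_zero.mp h3
    rw [h1, map_one, one_pow]
  rwa [hprod, mul_one] at h

/-- A prime `q ∥ M` at which `χ` is nontrivial is one of the twisting primes (unit form). -/
theorem mem_L_of_unit [NeZero M] [NeZero N'] (D : TwistDatum M N' χ) (hMN : M ∣ N') {q M' : ℕ}
    (hq : q.Prime) (hM : M = M' * q) (d : (ZMod M)ˣ)
    (hd : ZMod.unitsMap (Dvd.intro _ hM.symm : M' ∣ M) d = 1)
    (hχ : χ (d : ZMod M) ≠ 1) : q ∈ D.L := by
  obtain ⟨d', hd'⟩ := ZMod.unitsMap_surjective hMN d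
  have hM'0 : M' ≠ 0 := by
    rintro rfl
    exact NeZero.ne M (by rw [hM, zero_mul])
  haveI : NeZero M' := ⟨hM'0⟩
  have hzM : (((d' : ZMod N').val : ℤ) : ZMod M) = (d : ZMod M) := by
    rw [Int.cast_natCast, ZMod.natCast_val, ← hd', ZMod.unitsMap_def, Units.coe_map]
    rfl
  refine mem_L_of_chiZ_ne_one D hq hM ((d' : ZMod N').val : ℤ) ?_ ?_ ?_
  · exact Nat.isCoprime_iff_coprime.mpr (ZMod.val_coe_unit_coprime d')
  · rw [← ZMod.intCast_zmod_eq_zero_iff_dvd]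
    push_cast
    rw [sub_eq_zero]
    have h2 := congrArg (fun e : (ZMod M')ˣ => (e : ZMod M')) hd
    simp only [ZMod.unitsMap_def, Units.coe_map, Units.val_one] at h2
    have h3 : (((d' : ZMod N').val : ℕ) : ZMod M) = (d : ZMod M) := by
      rw [← hzM, Int.cast_natCast]
    rw [← h3] at h2
    have h4 := map_natCast (ZMod.castHom (Dvd.intro _ hM.symm : M' ∣ M) (ZMod M'))
      (d' : ZMod N').val
    exact h4.symm.trans h2
  · rw [chiZ_apply, hzM]
    exact hχ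

end Mem

section Main

variable {M : ℕ} {K : Subgroup SL(2, ℤ)} [NeZero M] [K.FiniteIndex]

/-- The eigensystem `ℓ ↦ c (T_ℓ)` as a function on `ℕ` (junk value `0`). -/
def lamOf {N' : ℕ} {S : Set ℕ} (c : OpIdx N' S M → ℂ) (ℓ : ℕ) : ℂ := by
  classical
  exact if h : ℓ.Prime ∧ ¬ ℓ ∣ N' ∧ ℓ ∉ S then c (Sum.inl ⟨ℓ, h⟩) else 0

theorem lamOf_apply {N' : ℕ} {S : Set ℕ} (c : OpIdx N' S M → ℂ) (i : GoodPrime N' S) :
    lamOf c i.1 = c (Sum.inl i) := by
  rw [lamOf, dif_pos i.2]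

/-- **DICT, part 3: Betti point → newform with `q² ∥ level`.**
`vals` occurs integrally in the parabolic classes of `K` and the diamond operator of some
`d ≡ 1 mod M / q` has `vals`-value `≠ 1`; `q² ∥ N'`.  Then there are a newform `g` of a level
`M₁ ∣ N'`, `q² ∥ M₁`, and eigenvalues `c`, `a_ℓ(g) = c (T_ℓ)`, such that every integral
polynomial relation between the `c j` holds for the `vals j`. -/
theorem exists_newform_of_occurs (hK : IsMid M K) {N' : ℕ} [NeZero N'] {u : ℕ → (ZMod M)ˣ}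
    (H : TwistHyp K N' u) {S : Set ℕ}
    {R : Type*} [CommRing R] [IsDomain R] (vals : OpIdx N' S M → R)
    (hocc : ∀ P : FreeAlgebra ℤ (OpIdx N' S M),
      (∀ y : Additive K →+ ℤ, IsParabolicHom K y →
        FreeAlgebra.lift ℤ (opB hK ℤ H.dvd u) P y = 0) →
      FreeAlgebra.lift ℤ vals P = 0)
    {q M' : ℕ} (hq : q.Prime) (hM : M = M' * q) (hv : N'.factorization q = 2)
    (d : (ZMod M)ˣ) (hd : ZMod.unitsMap (Dvd.intro _ hM.symm : M' ∣ M) d = 1)
    (hvd : vals (Sum.inr d) ≠ 1) :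
    ∃ c : OpIdx N' S M → ℂ,
      (∀ P : FreeAlgebra ℤ (OpIdx N' S M),
        FreeAlgebra.lift ℤ c P = 0 → FreeAlgebra.lift ℤ vals P = 0) ∧
      ∃ (M₁ : ℕ) (_ : NeZero M₁) (g : CuspForm (Gamma0 M₁) 2), g.IsNewform ∧ M₁ ∣ N' ∧
        M₁.factorization q = 2 ∧
        ∀ i : GoodPrime N' S, ModularFormClass.qCoeff g i.1 = c (Sum.inl i) := by
  obtain ⟨c, χ, hχK, D, F, hF0, hχc, hpsi, hne, heig, hker⟩ :=
    exists_twisted_eigenvector hK H vals hocc
  refine ⟨c, hker, ?_⟩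
  -- `χ d ≠ 1`
  have hχd : χ (d : ZMod M) ≠ 1 := by
    intro h1
    apply hvd
    have h2 := hker (FreeAlgebra.ι ℤ (Sum.inr d) - 1) (by
      rw [map_sub, map_one, FreeAlgebra.lift_ι_apply, ← hχc d, h1, sub_self])
    rw [map_sub, map_one, FreeAlgebra.lift_ι_apply] at h2
    exact sub_eq_zero.mp h2
  have hqL : q ∈ D.L := mem_L_of_unit D H.dvd hq hM d hd hχd
  obtain ⟨M₁, hM₁, g, hg, hdvd, hfac, hcoef⟩ :=
    Fermat.Agent.S59.TW.H54.twistL_anemic_exists_newform D.ψ D.L D.prime (isCharMod_chiZ χ)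
      D.dvd D.triv (f := (F : ℍ → ℂ)) F.2.2 hqL (D.ψ_ne q hqL) hv (nebTwist D F)
      (coe_nebTwist D F) hne S (lamOf c)
      (fun ℓ hℓ hℓN hℓS => by
        rw [heig ⟨ℓ, hℓ, hℓN, hℓS⟩, ← lamOf_apply c ⟨ℓ, hℓ, hℓN, hℓS⟩])
  refine ⟨M₁, hM₁, g, hg, hdvd, hfac, fun i => ?_⟩
  rw [hcoef i.1 i.2.1 i.2.2.1 i.2.2.2, lamOf_apply]

/-- **DICT, part 3, ring homomorphism form.**  Same hypotheses; the conclusion gives the newform
`g`, a subring `R₀ ⊆ ℂ` containing the `a_ℓ(g)` (`ℓ` good) and a ring homomorphism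
`L : R₀ →+* R` with `L (a_ℓ g) = vals (T_ℓ)`. -/
theorem exists_newform_ringHom_of_occurs (hK : IsMid M K) {N' : ℕ} [NeZero N']
    {u : ℕ → (ZMod M)ˣ} (H : TwistHyp K N' u) {S : Set ℕ}
    {R : Type*} [CommRing R] [IsDomain R] (vals : OpIdx N' S M → R)
    (hocc : ∀ P : FreeAlgebra ℤ (OpIdx N' S M),
      (∀ y : Additive K →+ ℤ, IsParabolicHom K y →
        FreeAlgebra.lift ℤ (opB hK ℤ H.dvd u) P y = 0) →
      FreeAlgebra.lift ℤ vals P = 0)
    {q M' : ℕ} (hq : q.Prime) (hM : M = M' * q) (hv : N'.factorization q = 2)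
    (d : (ZMod M)ˣ) (hd : ZMod.unitsMap (Dvd.intro _ hM.symm : M' ∣ M) d = 1)
    (hvd : vals (Sum.inr d) ≠ 1) :
    ∃ (M₁ : ℕ) (_ : NeZero M₁) (g : CuspForm (Gamma0 M₁) 2) (_ : g.IsNewform)
      (R₀ : Subring ℂ) (hR : ∀ i : GoodPrime N' S, ModularFormClass.qCoeff g i.1 ∈ R₀)
      (L : R₀ →+* R),
      M₁ ∣ N' ∧ M₁.factorization q = 2 ∧
      ∀ i : GoodPrime N' S, L ⟨ModularFormClass.qCoeff g i.1, hR i⟩ = vals (Sum.inl i) := by
  obtain ⟨c, hker, M₁, hM₁, g, hg, hdvd, hfac, hcoef⟩ :=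
    exists_newform_of_occurs hK H vals hocc hq hM hv d hd hvd
  obtain ⟨L, hL⟩ := exists_ringHom_of_ker_le c vals hker
  have hR : ∀ i : GoodPrime N' S,
      ModularFormClass.qCoeff g i.1 ∈ ((FreeAlgebra.lift ℤ c).range.toSubring) := fun i =>
    ⟨FreeAlgebra.ι ℤ (Sum.inl i), by rw [hcoef i]; exact FreeAlgebra.lift_ι_apply _ _⟩
  refine ⟨M₁, hM₁, g, hg, (FreeAlgebra.lift ℤ c).range.toSubring, hR, L, hdvd, hfac, fun i => ?_⟩
  have h1 := hL (FreeAlgebra.ι ℤ (Sum.inl i))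
  have h2 : FreeAlgebra.lift ℤ vals (FreeAlgebra.ι ℤ (Sum.inl i)) = vals (Sum.inl i) :=
    FreeAlgebra.lift_ι_apply _ _
  rw [← h2, ← h1]
  congr 1
  apply Subtype.ext
  show ModularFormClass.qCoeff g i.1 = FreeAlgebra.lift ℤ c (FreeAlgebra.ι ℤ (Sum.inl i))
  rw [hcoef i, FreeAlgebra.lift_ι_apply]

end Main

end Fermat.Agent.S59.TW.Aut.H673.D561

end

end
-- ===== PACK-END S59/TW/Aut/H673/D561New.lean

-- ===== PACK-BEGIN S59/Unit3/H461/Unit3Hor.lean
section


/-!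
# S59 / leaf UNIT-3 (p = 3 wall), part 6: horizontal part (helper461)

`D = 3⁸ v⁻¹` and `D' = v` lie in every valuation subring of `F_N` (`6 ∣ N`) containing `j`;
they lie in the finite chart of the coordinate `x = j · j_3` at level `M * 3`, `2 ∣ M`.
Route: the cube relations `D³ = (3¹² u)(3¹² u(t²))`, `D'³ = u' · u'(t²)`, the integrality
relations of `3¹² u` over `ℤ[j]` and of `u'` over `ℤ[j_3]` (helper589 / helper438), transported
by `t ↦ t²`, the modular equations of levels `2` and `3`, and integral closedness of valuation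
rings.
-/

set_option autoImplicit false
set_option synthInstance.maxHeartbeats 400000
set_option maxHeartbeats 1600000

noncomputable section

namespace Fermat.Agent.S59.Unit3.H461

open ModularCurve HahnSeries Polynomial
open Fermat.Agent.A2.Mod Fermat.Agent.S28 Fermat.Agent.A2.Mod.H873
open Fermat.Agent.S36.H438 (castE uE uE' dE)

/-! ## 1. Abstract -/

theorem mem_of_pow_three_mem {K : Type*} [Field K] (V : ValuationSubring K) {x : K}
    (h : x ^ 3 ∈ V) : x ∈ V := by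
  by_contra hx
  have hx0 : x ≠ 0 := fun h0 => hx (h0 ▸ V.zero_mem)
  have hinv : x⁻¹ ∈ V := (V.mem_or_inv_mem x).resolve_left hx
  have h1 : x = x ^ 3 * x⁻¹ * x⁻¹ := by
    field_simp
  exact hx (h1 ▸ V.mul_mem _ _ (V.mul_mem _ _ h hinv) hinv)

/-! ## 2. Transport of the integral relations by `t ↦ t²` -/

theorem qExpand_two_eval₂ (Φ : Polynomial (Polynomial ℤ)) (A B : LaurentSeries ℤ)
    (h : Φ.eval₂ (evalAt B) A = 0) :
    Φ.eval₂ (evalAt (qExpand ℤ 2 B)) (qExpand ℤ 2 A) = 0 := by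
  have h2 := Polynomial.hom_eval₂ Φ (evalAt B) (qExpand ℤ 2) A
  rw [h, map_zero, Fermat.Agent.S28.H145.qExpand_comp_evalAt] at h2
  exact h2.symm

theorem qExpand_two_three (X : LaurentSeries ℤ) :
    qExpand ℤ 2 (qExpand ℤ 3 X) = qExpand ℤ 6 X := by
  rw [qExpand_qExpand]

/-- The two integrality relations of the unit pair of level `3`, at `t²`. -/
theorem exists_unitPoly_two :
    ∃ Ψ : Polynomial (Polynomial ℤ), Ψ.Monic ∧
      Ψ.eval₂ (evalAt (qExpand ℤ 2 (jqModC ℤ)))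
        ((3 : LaurentSeries ℤ) ^ 12 * qExpand ℤ 2 (unitL ℤ 3)) = 0 ∧
      Ψ.eval₂ (evalAt (qExpand ℤ 6 (jqModC ℤ))) (qExpand ℤ 2 (H589.unitL' 3)) = 0 := by
  obtain ⟨Ψ, hΨ, h1, h2⟩ := Fermat.Agent.S36.H438.exists_unitPoly_both 3 Nat.prime_three
  refine ⟨Ψ, hΨ, ?_, ?_⟩
  · have h := qExpand_two_eval₂ Ψ _ _ h1
    rw [map_mul, map_pow, map_natCast] at h
    exact_mod_cast h
  · have h := qExpand_two_eval₂ Ψ _ _ h2
    rwa [qExpand_two_three] at h

/-! ## 3. In `F_{N,E}` -/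

section Horizontal

variable (E : IntermediateField ℚ Qb) (N : ℕ) [NeZero N] (h6 : 6 ∣ N)

/-- `3¹² u(t²)`. -/
def d2E : FE E N := algebraMap E (FE E N) ((3 : E) ^ 12) * u2E E N h6

theorem coe_d2E :
    ((d2E E N h6 : FE E N) : LaurentSeries E)
      = castE E ((3 : LaurentSeries ℤ) ^ 12 * qExpand ℤ 2 (unitL ℤ 3)) := by
  show algebraMap E (LaurentSeries E) ((3 : E) ^ 12) * castE E (qExpand ℤ 2 (unitL ℤ 3)) = _
  rw [map_mul, map_pow, map_pow, map_ofNat, map_ofNat]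

theorem d3E_pow_three' :
    d3E E N h6 ^ 3 = dE E N 3 (three_dvd_of_six_dvd N h6) * d2E E N h6 :=
  d3E_pow_three E N h6

theorem exists_unitPoly_two_FE :
    ∃ Ψ : Polynomial (Polynomial ℤ), Ψ.Monic ∧
      Ψ.eval₂ (Polynomial.aeval (R := ℤ) (jE E N 2 (two_dvd_of_six_dvd N h6))).toRingHom
        (d2E E N h6) = 0 ∧
      Ψ.eval₂ (Polynomial.aeval (R := ℤ) (jE E N 6 h6)).toRingHom (u2E' E N h6) = 0 := by
  obtain ⟨Ψ, hΨ, h1, h2⟩ := exists_unitPoly_two
  refine ⟨Ψ, hΨ, ?_, ?_⟩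
  · exact eval₂_eq_zero_of_int E N Ψ _ _ _ _ (coe_d2E E N h6) (coe_jE_int E N 2 _) h1
  · exact eval₂_eq_zero_of_int E N Ψ _ _ _ _ (coe_u2E' E N h6) (coe_jE_int E N 6 h6) h2

theorem d2E_mem_of_j2_mem (V : ValuationSubring (FE E N))
    (hj : jE E N 2 (two_dvd_of_six_dvd N h6) ∈ V) : d2E E N h6 ∈ V := by
  obtain ⟨Ψ, hΨ, h1, -⟩ := exists_unitPoly_two_FE E N h6
  exact mem_valuationSubring_of_monic_eval Ψ hΨ h1 V hj

theorem u2E'_mem_of_j6_mem (V : ValuationSubring (FE E N)) (hj : jE E N 6 h6 ∈ V) :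
    u2E' E N h6 ∈ V := by
  obtain ⟨Ψ, hΨ, -, h2⟩ := exists_unitPoly_two_FE E N h6
  exact mem_valuationSubring_of_monic_eval Ψ hΨ h2 V hj

/-- `j_2 ∈ V → j_6 ∈ V` (modular equation of level `3` at `t²`). -/
theorem j6_mem_of_j2_mem (V : ValuationSubring (FE E N))
    (hj : jE E N 2 (two_dvd_of_six_dvd N h6) ∈ V) : jE E N 6 h6 ∈ V := by
  obtain ⟨D⟩ := Fermat.Agent.S28.H807.nonempty_modPolyData 3 Nat.prime_three
  have h0 := qExpand_two_eval₂ D.Φ _ _ D.eval_jp
  rw [qExpand_two_three] at h0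
  have h1 : D.Φ.eval₂ (Polynomial.aeval (R := ℤ) (jE E N 2 (two_dvd_of_six_dvd N h6))).toRingHom
      (jE E N 6 h6) = 0 :=
    eval₂_eq_zero_of_int E N D.Φ _ _ _ _ (coe_jE_int E N 6 h6) (coe_jE_int E N 2 _) h0
  exact mem_valuationSubring_of_monic_eval D.Φ D.monic h1 V hj

/-- `j ∈ V` implies `j_2, j_3, j_6 ∈ V`. -/
theorem j_all_mem_of_j_mem (V : ValuationSubring (FE E N))
    (hj : jE E N 1 (one_dvd N) ∈ V) :
    jE E N 2 (two_dvd_of_six_dvd N h6) ∈ V ∧ jE E N 3 (three_dvd_of_six_dvd N h6) ∈ V ∧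
      jE E N 6 h6 ∈ V := by
  have h2 := (Fermat.Agent.S36.H438.j_mem_iff_jq_mem E N 2 (two_dvd_of_six_dvd N h6)
    Nat.prime_two V).mp hj
  have h3 := (Fermat.Agent.S36.H438.j_mem_iff_jq_mem E N 3 (three_dvd_of_six_dvd N h6)
    Nat.prime_three V).mp hj
  exact ⟨h2, h3, j6_mem_of_j2_mem E N h6 V h2⟩

/-- **UNIT-3 (3a)**: `D = 3⁸ v⁻¹` lies in every valuation subring containing `j`. -/
theorem d3E_mem_of_j_mem (V : ValuationSubring (FE E N))
    (hj : jE E N 1 (one_dvd N) ∈ V) : d3E E N h6 ∈ V := by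
  obtain ⟨h2, -, -⟩ := j_all_mem_of_j_mem E N h6 V hj
  apply mem_of_pow_three_mem V
  rw [d3E_pow_three']
  exact V.mul_mem _ _
    (Fermat.Agent.S36.H438.dE_mem_of_j_mem E N 3 _ Nat.prime_three V hj)
    (d2E_mem_of_j2_mem E N h6 V h2)

/-- **UNIT-3 (3b)**: `D' = v` lies in every valuation subring containing `j`. -/
theorem vE_mem_of_j_mem (V : ValuationSubring (FE E N))
    (hj : jE E N 1 (one_dvd N) ∈ V) : vE E N h6 ∈ V := by
  obtain ⟨-, h3, h6'⟩ := j_all_mem_of_j_mem E N h6 V hj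
  apply mem_of_pow_three_mem V
  rw [vE_pow_three]
  exact V.mul_mem _ _
    (Fermat.Agent.S36.H438.uE'_mem_of_jq_mem E N 3 _ Nat.prime_three V h3)
    (u2E'_mem_of_j6_mem E N h6 V h6')

/-- **UNIT-3 (3)**: at a place `V ⊇ E` of `F_N` where `j` is finite, `D` and `D'` are units
(no zeros or poles of `v` outside the cusps). -/
theorem pair_unit_of_j_mem (V : ValuationSubring (FE E N))
    (hE : ∀ e : E, algebraMap E (FE E N) e ∈ V) (hj : jE E N 1 (one_dvd N) ∈ V) :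
    (d3E E N h6 ∈ V ∧ (d3E E N h6)⁻¹ ∈ V) ∧ (vE E N h6 ∈ V ∧ (vE E N h6)⁻¹ ∈ V) := by
  have hD := d3E_mem_of_j_mem E N h6 V hj
  have hv := vE_mem_of_j_mem E N h6 V hj
  refine ⟨⟨hD, ?_⟩, ⟨hv, ?_⟩⟩
  · rw [d3E_inv]
    exact V.mul_mem _ _ (hE _) hv
  · have h1 := V.mul_mem _ _ (hE ((3 : E) ^ 8)⁻¹) hD
    rwa [d3E, ← mul_assoc, ← map_mul, inv_mul_cancel₀ (three_pow_ne_zero E 8), map_one, one_mul,
      ← vE_inv] at h1

end Horizontal

/-! ## 4. The finite chart of `x = j · j_3` at level `M * 3`, `2 ∣ M` -/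

section Chart

variable (P : ValuationSubring Qb) (E : IntermediateField ℚ Qb) (M : ℕ) [NeZero M] (h2 : 2 ∣ M)

include h2 in
omit [NeZero M] in
theorem six_dvd_mul_three : 6 ∣ M * 3 := by
  obtain ⟨k, rfl⟩ := h2
  exact ⟨k, by ring⟩

/-- **UNIT-3 (3c)**: `D = 3⁸ v⁻¹` lies in the finite chart of the coordinate `x = j · j_3`. -/
theorem d3E_mem_chartAlg :
    d3E E (M * 3) (six_dvd_mul_three M h2) ∈ chartAlg P E (M * 3) (xE E M 3) := by
  rw [← Fermat.Agent.A2.Mod.H142.mem_chart_iff]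
  refine isIntegralElem_of_isIntegral_closure _
    (isIntegral_closure_of_forall_valuationSubring fun V hx => ?_)
  exact d3E_mem_of_j_mem E (M * 3) _ V
    (Fermat.Agent.S36.H438.j_mem_of_x_mem E M 3 Nat.prime_three V hx).1

/-- **UNIT-3 (3d)**: `D' = v` lies in the finite chart of the coordinate `x = j · j_3`. -/
theorem vE_mem_chartAlg :
    vE E (M * 3) (six_dvd_mul_three M h2) ∈ chartAlg P E (M * 3) (xE E M 3) := by
  rw [← Fermat.Agent.A2.Mod.H142.mem_chart_iff]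
  refine isIntegralElem_of_isIntegral_closure _
    (isIntegral_closure_of_forall_valuationSubring fun V hx => ?_)
  exact vE_mem_of_j_mem E (M * 3) _ V
    (Fermat.Agent.S36.H438.j_mem_of_x_mem E M 3 Nat.prime_three V hx).1

end Chart

end Fermat.Agent.S59.Unit3.H461

end
end
-- ===== PACK-END S59/Unit3/H461/Unit3Hor.lean

-- ===== PACK-BEGIN S59/Unit3/H461/Unit3Pkg.lean
section


/-!
# S59 / leaf UNIT-3 (p = 3 wall), part 7: the Fricke side and the package (helper461)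

* `coe_fricke_d2E` : `W (3¹² u(t²)) = u'(t^m)` at level `N = 3 * m * 2`;
* `d3E_unit_vzero` : `D = 3⁸ v⁻¹` is a unit of `V₀ = V∞.comap W` (any level `N`, `6 ∣ N`);
* `mu3_package` : the unit pair `D = 3⁸ v⁻¹`, `D' = v` at level `M * 3`, `2 ∣ M`, in the format
  of `S36.H438.mu_package` with the exponent `12` replaced by `8` (`3 ∤ 8`);
* `castK_v3InvL_eq_sq` : in characteristic `3`, `v⁻¹ = (t ∏ (1 - tⁿ)⁸ (1 - t²ⁿ)⁸)²`.
-/

set_option autoImplicit false
set_option synthInstance.maxHeartbeats 400000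
set_option maxHeartbeats 1600000

noncomputable section

namespace Fermat.Agent.S59.Unit3.H461

open ModularCurve HahnSeries Polynomial
open Fermat.Agent.A2.Mod Fermat.Agent.S28 Fermat.Agent.A2.Mod.H873
open Fermat.Agent.S36.H438 (castE uE uE' dE)

/-! ## 1. The Fricke involution -/

section Fricke

variable (P : ValuationSubring Qb) (E : IntermediateField ℚ Qb)

theorem castE_qExpand_unitL'_mul (m : ℕ) [NeZero m] :
    castE E (qExpand ℤ m (H589.unitL' 3)) * castE E (qExpand ℤ m (unitL ℤ 3)) = 1 := by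
  rw [← map_mul, ← map_mul, mul_comm, Fermat.Agent.S36.H438.unitL_mul_unitL', map_one, map_one]

/-- `3¹² u(t²) = β (3¹² u)`, `β : F_{3m} → F_{3m·2}`. -/
theorem d2E_eq_beta (m : ℕ) [NeZero m] (h6 : 6 ∣ 3 * m * 2) :
    d2E E (3 * m * 2) h6 = βE E (3 * m) 2 (dE E (3 * m) 3 (dvd_mul_right 3 m)) := by
  apply Subtype.ext
  rw [coe_d2E, coe_heckeBetaBar, Fermat.Agent.S36.H438.coe_dE]
  have hX : (3 : LaurentSeries ℤ) ^ 12 * qExpand ℤ 2 (unitL ℤ 3)
      = qExpand ℤ 2 (((3 : ℕ) : LaurentSeries ℤ) ^ 12 * unitL ℤ 3) := by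
    rw [map_mul, map_pow, map_natCast]
    norm_num
  rw [hX]
  exact coeffMap_qExpand _ 2 _

/-- `W (3¹² u(t²)) = u'(t^m)` in `t`-expansions, level `N = 3 * m * 2`. -/
theorem coe_fricke_d2E (m : ℕ) [NeZero m] (h6 : 6 ∣ 3 * m * 2)
    (W : FE E (3 * m * 2) ≃ₐ[E] FE E (3 * m * 2)) (hW : IsFricke E (3 * m * 2) W) :
    ((W (d2E E (3 * m * 2) h6) : FE E (3 * m * 2)) : LaurentSeries E)
      = castE E (qExpand ℤ m (H589.unitL' 3)) := by
  have h := (Fermat.Agent.A2.Mod.H751.frickeCompat E (3 * m) 2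
    (Fermat.Agent.A2.Mod.H751.frickeE E (3 * m)) W
    (Fermat.Agent.A2.Mod.H751.isFricke_frickeE E (3 * m)) hW
    (dE E (3 * m) 3 (dvd_mul_right 3 m))).2
  rw [d2E_eq_beta, h, coe_heckeAlphaBar]
  exact Fermat.Agent.S36.H438.coe_fricke_dE E (3 * m) 3 m rfl (dvd_mul_right 3 m)
    (Fermat.Agent.A2.Mod.H751.frickeE E (3 * m))
    (Fermat.Agent.A2.Mod.H751.isFricke_frickeE E (3 * m))

/-- `3¹² u(t²)` is a unit of `V₀ = V∞.comap W`, level `N = 3 * m * 2`. -/
theorem d2E_unit_vzero (m : ℕ) [NeZero m] (h6 : 6 ∣ 3 * m * 2)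
    {V : ValuationSubring (FE E (3 * m * 2))}
    (W : FE E (3 * m * 2) ≃ₐ[E] FE E (3 * m * 2)) (hV : IsVinf P E (3 * m * 2) V)
    (hW : IsFricke E (3 * m * 2) W) :
    W (d2E E (3 * m * 2) h6) ∈ V ∧ W (d2E E (3 * m * 2) h6)⁻¹ ∈ V := by
  have hc := coe_fricke_d2E E m h6 W hW
  refine ⟨Fermat.Agent.S36.H438.mem_vinf_of_coe_eq_castE P E hV hc, ?_⟩
  rw [map_inv₀]
  refine Fermat.Agent.S36.H438.mem_vinf_of_coe_eq_castE P E hV
    (X := qExpand ℤ m (unitL ℤ 3)) ?_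
  rw [IntermediateField.coe_inv, hc]
  exact inv_eq_of_mul_eq_one_right (castE_qExpand_unitL'_mul E m)

/-- **UNIT-3 (2)**: `D = 3⁸ v⁻¹` is a unit of `V₀ = V∞.comap W`, any level `N` with `6 ∣ N`. -/
theorem d3E_unit_vzero (N : ℕ) [NeZero N] (h6 : 6 ∣ N) {V : ValuationSubring (FE E N)}
    (W : FE E N ≃ₐ[E] FE E N) (hV : IsVinf P E N V) (hW : IsFricke E N W) :
    d3E E N h6 ∈ V.comap (W : FE E N →+* FE E N) ∧
      (d3E E N h6)⁻¹ ∈ V.comap (W : FE E N →+* FE E N) := by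
  obtain ⟨m, rfl⟩ : ∃ m, N = 3 * m * 2 := by
    obtain ⟨k, hk⟩ := h6
    exact ⟨k, by omega⟩
  have hm : NeZero m := ⟨by
    rintro rfl
    exact NeZero.ne (3 * 0 * 2) (by norm_num)⟩
  have h1 := Fermat.Agent.S36.H438.dE_unit_vzero P E (3 * m * 2) 3 (m * 2) (by ring)
    (three_dvd_of_six_dvd _ h6) W hV hW
  have h1a : W (dE E (3 * m * 2) 3 (three_dvd_of_six_dvd _ h6)) ∈ V := h1.1
  have h1b : W (dE E (3 * m * 2) 3 (three_dvd_of_six_dvd _ h6))⁻¹ ∈ V := h1.2
  obtain ⟨h2a, h2b⟩ := d2E_unit_vzero P E m h6 W hV hW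
  constructor
  · show W _ ∈ V
    apply mem_of_pow_three_mem V
    rw [← map_pow, d3E_pow_three', map_mul]
    exact V.mul_mem _ _ h1a h2a
  · show W _ ∈ V
    apply mem_of_pow_three_mem V
    rw [← map_pow, inv_pow, d3E_pow_three', mul_inv, map_mul]
    exact V.mul_mem _ _ h1b h2b

end Fricke

/-! ## 2. The package -/

section Package

variable (P : ValuationSubring Qb) (E : IntermediateField ℚ Qb)

/-- **Leaf UNIT-3, packaged at level `M * 3`, `2 ∣ M`** (the analogue of `S36.H438.mu_package`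
for `q = 3` with the exponent `12` replaced by `8`, which is prime to `3`):
the unit pair `D = 3⁸ v⁻¹`, `D' = v`, `v = (η(τ)η(2τ)/(η(3τ)η(6τ)))⁸`, of the finite chart
`B = chartAlg x`, `x = j · j_3`:  `D · D' = 3⁸`, `D' ∈ (V∞)ˣ`, `D ∈ (V₀)ˣ` for `V₀ = V∞.comap W`,
and at every place `V ⊇ E` of `F_{M·3}` with `j ∈ V` both are units. -/
theorem mu3_package (M : ℕ) [NeZero M] (h2 : 2 ∣ M) :
    ∃ D D' : FE E (M * 3),
      (D : LaurentSeries E) = castE E ((3 : LaurentSeries ℤ) ^ 8 * v3InvL) ∧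
      (D' : LaurentSeries E) = castE E v3L ∧
      D * D' = algebraMap E (FE E (M * 3)) ((3 : E) ^ 8) ∧
      D ∈ chartAlg P E (M * 3) (xE E M 3) ∧
      D' ∈ chartAlg P E (M * 3) (xE E M 3) ∧
      (∀ V : ValuationSubring (FE E (M * 3)), IsVinf P E (M * 3) V → D' ∈ V ∧ D'⁻¹ ∈ V) ∧
      (∀ (V : ValuationSubring (FE E (M * 3))) (W : FE E (M * 3) ≃ₐ[E] FE E (M * 3)),
        IsVinf P E (M * 3) V → IsFricke E (M * 3) W →
          D ∈ V.comap (W : FE E (M * 3) →+* FE E (M * 3)) ∧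
          D⁻¹ ∈ V.comap (W : FE E (M * 3) →+* FE E (M * 3))) ∧
      (∀ V : ValuationSubring (FE E (M * 3)), (∀ e : E, algebraMap E (FE E (M * 3)) e ∈ V) →
        jE E (M * 3) 1 (one_dvd _) ∈ V → (D ∈ V ∧ D⁻¹ ∈ V) ∧ (D' ∈ V ∧ D'⁻¹ ∈ V)) :=
  have h6 : 6 ∣ M * 3 := six_dvd_mul_three M h2
  ⟨d3E E (M * 3) h6, vE E (M * 3) h6, coe_d3E E (M * 3) h6, coe_vE E (M * 3) h6,
    d3E_mul_vE E (M * 3) h6, d3E_mem_chartAlg P E M h2, vE_mem_chartAlg P E M h2,
    fun _ hV => vE_unit_vinf P E (M * 3) h6 hV,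
    fun _ W hV hW => d3E_unit_vzero P E (M * 3) h6 W hV hW,
    fun V hE hj => pair_unit_of_j_mem E (M * 3) h6 V hE hj⟩

end Package

/-! ## 3. Reduction modulo `3` -/

section Reduction

/-- The weight-`8` cusp form of level `2`: `t ∏ (1 - tⁿ)⁸ (1 - t²ⁿ)⁸`. -/
def f8L : LaurentSeries ℤ := HahnSeries.single (1 : ℤ) (1 : ℤ) * e8L * qExpand ℤ 2 e8L

/-- Over `ZMod 3`: `v⁻¹ = f₈²`. -/
theorem v3InvL_zmod_eq_sq :
    coeffMap (Int.castRingHom (ZMod 3)) v3InvL
      = coeffMap (Int.castRingHom (ZMod 3)) f8L ^ 2 := by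
  have hp3 : Fact (Nat.Prime 3) := ⟨Nat.prime_three⟩
  have hq3 : ∀ X : LaurentSeries ℤ, coeffMap (Int.castRingHom (ZMod 3)) (qExpand ℤ 3 X)
      = coeffMap (Int.castRingHom (ZMod 3)) X ^ 3 := by
    intro X
    rw [coeffMap_qExpand, Fermat.Agent.A2.H528.qExpand_eq_pow_zmod]
  have h6 : qExpand ℤ 6 e8L = qExpand ℤ 3 (qExpand ℤ 2 e8L) := by
    rw [qExpand_qExpand]
  have hs : (HahnSeries.single (2 : ℤ) (1 : ℤ) : LaurentSeries ℤ)
      = HahnSeries.single (1 : ℤ) (1 : ℤ) ^ 2 := by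
    rw [pow_two, HahnSeries.single_mul_single]
    norm_num
  have hinv : coeffMap (Int.castRingHom (ZMod 3)) e8L *
      coeffMap (Int.castRingHom (ZMod 3)) e8InvL = 1 := by
    rw [← map_mul, e8L_mul_e8InvL, map_one]
  have hinv2 : coeffMap (Int.castRingHom (ZMod 3)) (qExpand ℤ 2 e8L) *
      coeffMap (Int.castRingHom (ZMod 3)) (qExpand ℤ 2 e8InvL) = 1 := by
    rw [← map_mul, ← map_mul, e8L_mul_e8InvL, map_one, map_one]
  rw [v3InvL, f8L, h6, hs]
  simp only [map_mul, map_pow, hq3]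
  generalize coeffMap (Int.castRingHom (ZMod 3)) e8L = a at hinv ⊢
  generalize coeffMap (Int.castRingHom (ZMod 3)) e8InvL = a' at hinv ⊢
  generalize coeffMap (Int.castRingHom (ZMod 3)) (qExpand ℤ 2 e8L) = b at hinv2 ⊢
  generalize coeffMap (Int.castRingHom (ZMod 3)) (qExpand ℤ 2 e8InvL) = b' at hinv2 ⊢
  generalize coeffMap (Int.castRingHom (ZMod 3)) (HahnSeries.single (1 : ℤ) (1 : ℤ)) = s
  calc s ^ 2 * a' * b' * a ^ 3 * b ^ 3
      = s ^ 2 * a ^ 2 * b ^ 2 * (a * a') * (b * b') := by ring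
    _ = (s * a * b) ^ 2 := by rw [hinv, hinv2]; ring

/-- **In characteristic `3`** (any coefficient ring `k`): `v⁻¹ = f₈²`,
`f₈ = t ∏ (1 - tⁿ)⁸ (1 - t²ⁿ)⁸`. -/
theorem castK_v3InvL_eq_sq (k : Type*) [CommRing k] [CharP k 3] :
    coeffMap (Int.castRingHom k) v3InvL = coeffMap (Int.castRingHom k) f8L ^ 2 := by
  have h := congrArg (coeffMap (ZMod.castHom (dvd_refl 3) k)) v3InvL_zmod_eq_sq
  rw [map_pow, coeffMap_coeffMap, coeffMap_coeffMap] at h
  have e : (ZMod.castHom (dvd_refl 3) k).comp (Int.castRingHom (ZMod 3)) = Int.castRingHom k :=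
    RingHom.ext_int _ _
  rwa [coeffMap_congr e, coeffMap_congr e] at h

end Reduction

end Fermat.Agent.S59.Unit3.H461

end
end
-- ===== PACK-END S59/Unit3/H461/Unit3Pkg.lean

-- ===== PACK-BEGIN S59/LoSqC/H117/NewUnits.lean
section



/-!
# S59 / cell (C) LO-SQ: the abstract leaf `NewUnitsStatement` (W-NEW), VERBATIM (helper117)

`h117_newUnits : Fermat.Agent.S59.LoSqC.NewUnitsStatement` (frozen in `LoSqC/Spec.lean`,
cell architect helper885).

Proof: orders `(a₁, a₂, a₃)` of `f` at `(V₁ | w, V₂ | π, V₃ | w)`; the norm tables of `α`, `β`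
(`h117_slope`) give `(q + 1)(a₁ - a₃) ≡ 0` and `a₂ ≡ (q - 1) a₃ - (a₁ - a₃) mod m`; if
`gcd(m, q + 1) = 1` or the slope hypothesis holds then `m ∣ a₁ - a₃`, and
`c = w ^ a₃`, `G` of orders `((a₁ - a₃)/m, e - (a₁ - a₃)/m, 0)` by approximation.
-/

set_option autoImplicit false
set_option linter.style.haveILetI false
set_option linter.unusedSectionVars false
set_option linter.unusedVariables false
set_option synthInstance.maxHeartbeats 400000
set_option maxHeartbeats 1600000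

noncomputable section

namespace Fermat.Agent.S59.LoSqC.H117

open Fermat.Agent Fermat.Agent.S36.Eng Fermat.Agent.S36.H586

/-- **NEW-UNITS**, the frozen abstract leaf of cell (C), verbatim. -/
theorem h117_newUnits : Fermat.Agent.S59.LoSqC.NewUnitsStatement := by
  intro R E F F' _ _ _ _ _ _ _ _ _ _ _ _ _ _ _ _ _ w hw q hq hqR α β x x' V₁ V₂ V₃ V₁' V₂' T
    m hm hqm f hf hNα hNβ hslope
  obtain ⟨π, hπ, -⟩ := T.ram₂
  obtain ⟨hαw, hβw, Tα, Tβ, hw'0, hw1, hw2, hramO, hordFF, hordmid, hordVV, hord1, hord2,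
    hap_ord, hap_res⟩ := h117_pack w hw q hq α β x x' V₁ V₂ V₃ V₁' V₂' T π hπ
  have hNα' := exists_zpow_of_normPow (E := E) w hw q m hq hqR hm hqm
    (S29.H395.normAlong_ne_zero α T.fin_α hf) hNα
  have hNβ' := exists_zpow_of_normPow (E := E) w hw q m hq hqR hm hqm
    (S29.H395.normAlong_ne_zero β T.fin_β hf) hNβ
  have hw0 : algebraMap R F w ≠ 0 := T.unif₁.1
  have hπ0 : π ≠ 0 := hπ.1
  obtain ⟨aFF, hFF⟩ := hordFF f hf
  obtain ⟨amid, hmid⟩ := hordmid f hf
  obtain ⟨aVV, hVV⟩ := hordVV f hf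
  obtain ⟨d₁, e, hd, he⟩ := h117_slope (α : F' →+* F) (β : F' →+* F) (S29.H395.normAlong α)
    (S29.H395.normAlong β) q m (algebraMap R F' w) (algebraMap R F w) π hαw hβw V₁' V₂' V₁ V₂ V₃
    Tα Tβ hw'0 hw1 hw2 hord1 hord2 f hNα' hNβ' hFF hmid hVV
  -- `m ∣ a₁ - a₃`
  have hdvd : (m : ℤ) ∣ aFF - aVV := by
    by_cases hcop : Nat.Coprime m (q + 1)
    · have h1 : (m : ℤ) ∣ ((q : ℤ) + 1) * (aFF - aVV) := ⟨d₁, hd⟩
      have hcop' : IsCoprime (m : ℤ) ((q : ℤ) + 1) := by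
        have := Nat.isCoprime_iff_coprime.2 hcop
        simpa using this
      exact hcop'.dvd_of_dvd_mul_left h1
    · obtain ⟨a₁, a₃, h1, h3, hdv⟩ := hslope hcop
      have e1 : aFF = a₁ :=
        IsOrd.unique hw0 (UnifAt.val_lt_one T.unif₁) hFF ((isOrd_iff_unitAt hw0 f a₁).2 h1)
      have e3 : aVV = a₃ :=
        IsOrd.unique hw0 (UnifAt.val_lt_one T.unif₃) hVV ((isOrd_iff_unitAt hw0 f a₃).2 h3)
      rw [e1, e3]
      exact hdv
  obtain ⟨c, hc⟩ := hdvd
  obtain ⟨g₀, hg₀FF, hg₀mid, hg₀VV⟩ := hap_ord c (e - c) 0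
  have hg₀0 : g₀ ≠ 0 := hg₀FF.ne_zero hw0
  have hwE0 : algebraMap R E w ≠ 0 := by
    intro h
    apply hw0
    rw [IsScalarTower.algebraMap_apply R E F, h, map_zero]
  have hcE : algebraMap E F (algebraMap R E w ^ aVV) = algebraMap R F w ^ aVV := by
    rw [map_zpow₀, ← IsScalarTower.algebraMap_apply R E F]
  have key : f * (algebraMap E F (algebraMap R E w ^ aVV) * g₀ ^ m)⁻¹
      = f * (algebraMap R F w ^ aVV)⁻¹ * (g₀ ^ m)⁻¹ := by
    rw [hcE, mul_inv, mul_assoc]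
  refine ⟨algebraMap R E w ^ aVV, g₀, zpow_ne_zero _ hwE0, hg₀0, ?_, ?_, ?_⟩
  · rw [key, unitAt_iff]
    have h1 : IsOrd V₁ (algebraMap R F w) (f * (algebraMap R F w ^ aVV)⁻¹ * (g₀ ^ m)⁻¹)
        (aFF + -(aVV * 1) + -(m * c)) :=
      (hFF.mul hw0 ((IsOrd.self).zpow aVV).inv).mul hw0 (hg₀FF.pow m).inv
    refine (h1.congr ?_).val_eq_one
    linear_combination hc
  · rw [key, unitAt_iff]
    have h1 : IsOrd V₂ π (f * (algebraMap R F w ^ aVV)⁻¹ * (g₀ ^ m)⁻¹)
        (amid + -(aVV * ((q : ℤ) - 1)) + -(m * (e - c))) :=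
      (hmid.mul hπ0 (hramO.zpow aVV).inv).mul hπ0 (hg₀mid.pow m).inv
    refine (h1.congr ?_).val_eq_one
    linear_combination he - hc
  · rw [key, unitAt_iff]
    have h1 : IsOrd V₃ (algebraMap R F w) (f * (algebraMap R F w ^ aVV)⁻¹ * (g₀ ^ m)⁻¹)
        (aVV + -(aVV * 1) + -(m * 0)) :=
      (hVV.mul hw0 ((IsOrd.self).zpow aVV).inv).mul hw0 (hg₀VV.pow m).inv
    refine (h1.congr ?_).val_eq_one
    ring

end Fermat.Agent.S59.LoSqC.H117

end

end
-- ===== PACK-END S59/LoSqC/H117/NewUnits.lean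

-- ===== PACK-BEGIN S59/LoSqC/H987/NewUnits.lean
section



/-!
# S59 / cell (C) LO-SQ: leaf NEW-UNITS, VERBATIM (helper987)

`newUnits : LoSqC.NewUnitsStatement` (frozen in `LoSqC/Spec.lean`, cell architect helper885),
from `H987.wNew` (STEP-A without the power `q² - 1`).
-/

set_option autoImplicit false
set_option linter.style.haveILetI false
set_option linter.unusedSectionVars false
set_option linter.unusedVariables false
set_option synthInstance.maxHeartbeats 400000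
set_option maxHeartbeats 1600000

noncomputable section

namespace Fermat.Agent.S59.LoSqC.H987

open Fermat.Agent.S36.Eng
open Fermat.Agent.S36.H586
open Fermat.Agent

section Aux

variable {F : Type*} [Field F]

/-- The frozen `LoSqC.SlopeZero` (existential form) gives the `H987.SlopeZero` (universal
form). -/
theorem slopeZero_of_frozen {R : Type*} [CommRing R] [Algebra R F] (w : R) (m : ℕ)
    {V₁ V₃ : ValuationSubring F} (hw₁ : V₁.valuation (algebraMap R F w) < 1)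
    (hw₃ : V₃.valuation (algebraMap R F w) < 1) (hw0 : algebraMap R F w ≠ 0) {f : F}
    (h : LoSqC.SlopeZero w m V₁ V₃ f) : _root_.Fermat.Agent.S59.LoSqC.H987.SlopeZero (algebraMap R F w) m V₁ V₃ f := by
  obtain ⟨a₁, a₃, h1, h3, hd⟩ := h
  intro b₁ b₃ hb₁ hb₃
  have e1 : b₁ = a₁ :=
    IsOrd.unique hw0 hw₁ (show IsOrd V₁ (algebraMap R F w) f b₁ from hb₁)
      ((isOrd_iff_unitAt hw0 f a₁).2 h1)
  have e3 : b₃ = a₃ :=
    IsOrd.unique hw0 hw₃ (show IsOrd V₃ (algebraMap R F w) f b₃ from hb₃)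
      ((isOrd_iff_unitAt hw0 f a₃).2 h3)
  rw [e1, e3]
  exact hd

theorem unitAt_of_val_one {V : ValuationSubring F} {u : F} (h : V.valuation u = 1) :
    UnitAt V u := unitAt_iff.2 h

end Aux

/-- **Leaf NEW-UNITS**, verbatim. -/
theorem newUnits : LoSqC.NewUnitsStatement := by
  intro R E F F' _ _ _ _ _ _ _ _ _ _ _ _ _ _ _ _ _ w hw q hq hqR α β x x' V₁ V₂ V₃ V₁' V₂' T
    m hm hqm f hf hNα hNβ hslope
  have hw0 : algebraMap R F w ≠ 0 := T.unif₁.1
  have hslope' : _root_.Fermat.Agent.S59.LoSqC.H987.SlopeZero (algebraMap R F w) m V₁ V₃ f := by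
    by_cases hc : Nat.Coprime m (q + 1)
    · exact slopeZero_of_coprime w hw q hq hqR α β x x' V₁ V₂ V₃ V₁' V₂' T m hm hqm hc.symm
        f hf hNα hNβ
    · exact slopeZero_of_frozen w m (UnifAt.val_lt_one T.unif₁) (UnifAt.val_lt_one T.unif₃) hw0
        (hslope hc)
  obtain ⟨s, G, u, k₁, k₂, hG, hfu, hu₁, hu₃, hu₂, -, -, -, -, -, -, -, -⟩ :=
    wNew w hw q hq hqR α β x x' V₁ V₂ V₃ V₁' V₂' T m hm hqm f hf hNα hNβ hslope'
  have hwE0 : algebraMap R E w ≠ 0 := by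
    intro h0
    apply hw0
    rw [IsScalarTower.algebraMap_apply R E F, h0, map_zero]
  have hcF : algebraMap E F (algebraMap R E w ^ s) = algebraMap R F w ^ s := by
    rw [map_zpow₀, ← IsScalarTower.algebraMap_apply R E F]
  have hu0 : u ≠ 0 := (pu_iff.2 hu₁ : PU V₁ u).ne_zero
  have hwz : algebraMap R F w ^ s ≠ 0 := zpow_ne_zero _ hw0
  have hGm : G ^ m ≠ 0 := pow_ne_zero _ hG
  have e : f * (algebraMap E F (algebraMap R E w ^ s) * G ^ m)⁻¹ = u := by
    rw [hcF, hfu]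
    field_simp
  refine ⟨algebraMap R E w ^ s, G, zpow_ne_zero _ hwE0, hG, ?_, ?_, ?_⟩
  · rw [e]
    exact unitAt_of_val_one (pu_iff.2 hu₁ : PU V₁ u).val_eq_one
  · rw [e]
    exact unitAt_of_val_one hu₂
  · rw [e]
    exact unitAt_of_val_one (pu_iff.2 hu₃ : PU V₃ u).val_eq_one

end Fermat.Agent.S59.LoSqC.H987

end

end
-- ===== PACK-END S59/LoSqC/H987/NewUnits.lean

-- ===== PACK-BEGIN S59/LoSqC/H456/Th1Ord12.lean
section



/-!
# S59 moonshot, cell (C) LO-SQ: TH1 at level `M q` from ORD12 (helper456, OFF-MAIN)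

Level `M * q`, `q ∤ M`, vocabulary of `S36/H803/R3Spec.lean` (finite chart `Bfin`, components
`p₁`, `p₂`, nodes).  The leaves NODE-REL / NODE-PURE / SURJ-E of cell (C) consume the conclusion
of `H803.Th1Statement` (both components are locally principal at every node: the model of level
`M q` is REGULAR at the nodes) as a hypothesis.  Here it is PRODUCED from the leaf ORD12 of the
GUB owner (`H807.Ord12Statement`: `D ∈ p₂ + n ^ 12` at every node, `D = q¹² Δ(t^q)/Δ(t)`):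

* local upper bound `ord_n(D | C₀) ≤ 12` (`H803.ordAt_le_of_ssChart`, unit pair `D D' = q¹²`),
* ORD12 gives `12 ≤ ord_n(D | C₀)`,
* equality ⟹ locally principal (`H803.th1_of_ssChart` applied to the ONE-POINT set `{n}`).

No DEG0, no GUB, no genus, no rigidity is used.

* `Th1At4Statement`   : TH1 with `Rigid M` replaced by `4 ∣ M ∧ 5 ≤ q`.
* `th1At4_of_ord12`   : `H807.Ord12Statement → Th1At4Statement`.
* `ordAt_eq_twelve_of_ord12` : `ord_n(D | C₀) = 12` at every node.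
* `twelve_mul_card_nodes_of_ord12` : with DEG0, `12 · #nodes = (q - 1) ψ(M)` (EXACT node count).
-/

set_option autoImplicit false
set_option linter.unusedSectionVars false
set_option linter.unusedVariables false
set_option linter.style.haveILetI false
set_option synthInstance.maxHeartbeats 400000
set_option maxHeartbeats 1600000

noncomputable section

namespace Fermat.Agent.S59.LoSqC.H456

open ModularCurve Fermat.Agent.A2.Mod Fermat.Agent.S36.H803 Fermat.Agent.S59.H807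

variable (P : ValuationSubring Qb) (E : IntermediateField ℚ Qb) (M q : ℕ) [NeZero M] [NeZero q]
  (w : RE P E)

/-- **TH1 at `4 ∣ M`, `5 ≤ q`** (thickness one at the nodes of the level `M q`): over an
unramified base both components of the special fibre are locally principal at every node. -/
def Th1At4Statement : Prop :=
  R3Hyp P E M q w → Unram P E q w → 4 ∣ M → 5 ≤ q →
    ∀ p₁ p₂ : Ideal (Bfin P E M q), IsComponents P E M q w p₁ p₂ →
      ∀ n : Ideal (Bfin P E M q), IsNode P E M q p₁ p₂ n →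
        (∃ x₁ ∈ p₁, ∀ a ∈ p₁, ∃ g : Bfin P E M q, g ∉ n ∧ ∃ b, g * a = x₁ * b) ∧
        (∃ x₂ ∈ p₂, ∀ a ∈ p₂, ∃ g : Bfin P E M q, g ∉ n ∧ ∃ b, g * a = x₂ * b)

/-- The unit pair `(D, D')` of exponent `12` on the semistable chart, over an unramified base. -/
theorem chartUnitPair_of_unram (hyp : R3Hyp P E M q w) (hunr : Unram P E q w)
    (c : Fermat.Agent.A2.SSChart w (Bfin P E M q))
    (hcomp : IsComponents P E M q w c.p₁ c.p₂)
    (D D' : Bfin P E M q) (hD : IsD E M q (D : FE E (M * q)))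
    (hD' : IsD' E M q (D' : FE E (M * q)))
    (hmu : ∀ p₁ p₂ : Ideal (Bfin P E M q), IsComponents P E M q w p₁ p₂ → D' ∉ p₁ ∧ D ∉ p₂) :
    ChartUnitPair w (Bfin P E M q) c D D' 12 := by
  obtain ⟨hD'₁, hD₂⟩ := hmu c.p₁ c.p₂ hcomp
  obtain ⟨ε, hε, hq⟩ := hunr
  exact
    { pos := by norm_num
      eq := ⟨algebraMap (RE P E) (Bfin P E M q) (ε ^ 12), (hε.pow 12).map _, by
        rw [mul_eq_of_isD P E M q hD hD', hq, mul_pow, map_mul, map_pow, map_pow]⟩
      notMem₁ := hD'₁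
      notMem₂ := hD₂ }

/-- **`ord_n(D | C₀) = 12`** at every node, from ORD12 and the local upper bound. -/
theorem ordAt_eq_twelve_of_ord12 (hORD : Ord12Statement P E M q w)
    (hyp : R3Hyp P E M q w) (hunr : Unram P E q w) (h4 : 4 ∣ M) (h5 : 5 ≤ q)
    (D : Bfin P E M q) (hD : IsD E M q (D : FE E (M * q)))
    (p₁ p₂ : Ideal (Bfin P E M q)) (hcomp : IsComponents P E M q w p₁ p₂)
    (n : Ideal (Bfin P E M q)) (hn : IsNode P E M q p₁ p₂ n) :
    ordAt p₂ n D = ((12 : ℕ) : ℕ∞) := by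
  classical
  haveI := hyp.setting.dvr
  obtain ⟨c, rfl, rfl⟩ := exists_ssChart_of_components P E M q w hyp p₁ p₂ hcomp
  obtain ⟨D₀, D', hD₀, hD', hmu⟩ := mu P E M q w hyp
  -- `D` is determined by its expansion
  have hDD : D = D₀ := by
    apply Subtype.ext
    apply Subtype.ext
    show ((D : FE E (M * q)) : LaurentSeries E) = ((D₀ : FE E (M * q)) : LaurentSeries E)
    rw [hD, hD₀]
  subst hDD
  have hpair := chartUnitPair_of_unram P E M q w hyp hunr c hcomp D D' hD hD' hmu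
  have hB := chartCtx_bfin P E M q w hyp
  obtain ⟨hmax, h₁, h₂⟩ := hn
  have hle : ordAt c.p₂ n D ≤ ((12 : ℕ) : ℕ∞) :=
    ordAt_le_of_ssChart w (xE E M q) (Bfin P E M q) hB c D D' 12 hpair n hmax h₁ h₂
  have hge : ((12 : ℕ) : ℕ∞) ≤ ordAt c.p₂ n D := by
    obtain ⟨hnoeth, hic, hfrac⟩ := Fermat.Agent.A2.Alg.H34.chart_instances' w (xE E M q)
      (Bfin P E M q) hB
    haveI := c.prime₂
    haveI : IsIntegrallyClosed (Bfin P E M q ⧸ c.p₂) := c.normal₂
    have hw : algebraMap (RE P E) (Bfin P E M q) w ∈ c.p₁ ⊓ c.p₂ := by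
      rw [c.inf_eq]
      exact Ideal.mem_span_singleton_self _
    haveI : IsDedekindDomain (Bfin P E M q ⧸ c.p₂) :=
      Fermat.Agent.A2.Alg.H609.isDedekindDomain_quotient_chart w (xE E M q) (Bfin P E M q) hB
        c.p₂ hw.2
    haveI := hmax
    rw [le_ordAt_iff c.p₂ n h₂]
    exact hORD hyp h4 h5 D hD c.p₁ c.p₂ hcomp n ⟨hmax, h₁, h₂⟩
  exact le_antisymm hle hge

/-- **TH1 from ORD12**: at `4 ∣ M`, `5 ≤ q`, over an unramified base, the model of level `M q`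
is regular at every node. -/
theorem th1At4_of_ord12 (hORD : Ord12Statement P E M q w) : Th1At4Statement P E M q w := by
  intro hyp hunr h4 h5 p₁ p₂ hcomp n hn
  classical
  haveI := hyp.setting.dvr
  obtain ⟨D, D', hD, hD', hmu⟩ := mu P E M q w hyp
  have heq := ordAt_eq_twelve_of_ord12 P E M q w hORD hyp hunr h4 h5 D hD p₁ p₂ hcomp n hn
  obtain ⟨c, rfl, rfl⟩ := exists_ssChart_of_components P E M q w hyp p₁ p₂ hcomp
  have hpair := chartUnitPair_of_unram P E M q w hyp hunr c hcomp D D' hD hD' hmu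
  have hB := chartCtx_bfin P E M q w hyp
  obtain ⟨hmax, h₁, h₂⟩ := hn
  refine th1_of_ssChart w (xE E M q) (Bfin P E M q) hB c D D' 12 hpair {n} ?_ 12 ?_ ?_ n
    (Finset.mem_singleton_self n)
  · intro n' hn'
    rw [Finset.mem_singleton.1 hn']
    exact ⟨hmax, h₁, h₂⟩
  · rw [Finset.sum_singleton]
    exact heq
  · simp

/-- **Exact node count**: with DEG0 and ORD12, `12 · #nodes = (q - 1) ψ(M)`. -/
theorem twelve_mul_card_nodes_of_ord12 (hDEG : Deg0Statement P E M q w)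
    (hORD : Ord12Statement P E M q w)
    (hyp : R3Hyp P E M q w) (hunr : Unram P E q w) (h4 : 4 ∣ M) (h5 : 5 ≤ q)
    (p₁ p₂ : Ideal (Bfin P E M q)) (hcomp : IsComponents P E M q w p₁ p₂) :
    ∃ s : Finset (Ideal (Bfin P E M q)), (∀ n, n ∈ s ↔ IsNode P E M q p₁ p₂ n) ∧
      12 * s.card = (q - 1) * dedekindPsi M := by
  classical
  obtain ⟨D, D', hD, hD', hmu⟩ := mu P E M q w hyp
  obtain ⟨s, hs, hsum⟩ := hDEG hyp D hD p₁ p₂ hcomp
  refine ⟨s, hs, ?_⟩
  have h12 : ∀ n ∈ s, ordAt p₂ n D = ((12 : ℕ) : ℕ∞) := fun n hn =>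
    ordAt_eq_twelve_of_ord12 P E M q w hORD hyp hunr h4 h5 D hD p₁ p₂ hcomp n ((hs n).1 hn)
  have hsum' : ∑ n ∈ s, ordAt p₂ n D = ((12 * s.card : ℕ) : ℕ∞) := by
    rw [Finset.sum_congr rfl h12, Finset.sum_const, nsmul_eq_mul]
    push_cast
    ring
  rw [hsum'] at hsum
  exact_mod_cast hsum

end Fermat.Agent.S59.LoSqC.H456

end

end
-- ===== PACK-END S59/LoSqC/H456/Th1Ord12.lean

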