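import Fermat.Agent.Pack.S43MC.G0E27L2
import Fermat.Agent.Pack.S43MC.G0E21L1
import Fermat.Agent.Pack.S59C.E9L2
import Fermat.Agent.Pack.S59C.E6L2
import Fermat.Agent.Pack.S59C.E11L1
import Fermat.Agent.Pack.S43GC.G0E11L1
import Fermat.Agent.Pack.S59C.E3L2
import Fermat.Agent.Pack.S43MC.G0E21L2
import Fermat.Agent.Pack.S59C.E10L0
import Fermat.Agent.Pack.S43MC.G0E19L2
import Fermat.Agent.Pack.S59C.E10L2
import Fermat.Agent.Pack.S43MC.G0E27L3
import Fermat.Agent.Pack.S43MC.G0E20L3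
import Fermat.Agent.Pack.S59C.E11L2
import Fermat.Agent.Pack.S59C.E5L1
import Fermat.Agent.Pack.S43C.E2L3
import Fermat.Agent.Pack.S43C.E3L0
import Fermat.Agent.Pack.S43MC.G0E24L2
import Fermat.Agent.Pack.S59C.E9L0
import Fermat.Agent.Pack.S43MC.G0E23L2
import Fermat.Agent.Pack.S43MC.G0E27L1
import Fermat.Agent.Pack.S43MC.G0E26L1
import Fermat.Agent.Pack.S59C.E0L0
import Fermat.Agent.Pack.S59C.E11L0
import Fermat.Agent.Pack.S43MC.G0E27L0
import Fermat.Agent.Pack.S43MC.G0E24L1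
import Fermat.Agent.Pack.S43MC.G0E24L3
import Fermat.Agent.Pack.S43MC.G0E20L0
import Fermat.Agent.Pack.S43MC.G0E18L1
import Fermat.Agent.Pack.S44C.G0E19L2
import Fermat.Agent.Pack.S44C.G0E28L2
import Fermat.Agent.Pack.S43MC.G0E26L0
import Fermat.Agent.Pack.S59C.E11L3

set_option linter.all false

-- ===== PACK-BEGIN S59/TW/Aut/H511/Cusp.lean
section





/-!
# Row S59, cell TW, layer 3 (AUT): the leaves CUSP-MIN and MOD0 (assembler helper511)

Glue of pieces on main: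

* `H31.exists_auxPrime_h31` (helper31): a non-Eisenstein prime `ℓ ≡ 1` modulo the level in the
  eigen-system of a package;
* `H324.isLocPart_cuspidal'` (helper324): a localisation `IsLocPart` at an eigen-system containing
  such a pair consists of cuspidal classes;
* `H709.mod0_of_cusp` (helper709): MOD0 from CUSP.

Results:

* `locPart_cuspidalK` : every localisation at an eigen-system containing the one of a package is
  cuspidal (all levels `K`);
* `cuspMin : H959.CuspMinStatement`, `mod0Cusp : H709.Mod0CuspStatement`;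
* `mod0 : Aut.Mod0Statement` — the leaf MOD0 of layer 3 is CLOSED;
* `qPart_cuspidalK`, `qPart_parabolic` : the localisation `V` at the level `Q` is cuspidal
  (input `hpar` of `H658.exists_heckeAction_isQPart`, for MODQ).
-/

set_option autoImplicit false

open Polynomial IsLocalRing CongruenceSubgroup
open scoped MatrixGroups

namespace Fermat.Agent.S59.TW.Aut.H511

open Fermat.Agent.S59.Arch Fermat.Agent.S59.TW.H959 Fermat.Agent.S59.TW.H653
open Fermat.Agent.S59.TW.Aut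
open Fermat.Agent.S29.H642 Fermat.Agent.S41.Spec ModularCurve.Period

variable {p : ℕ} [Fact p.Prime]
  {𝒪 : Type} [CommRing 𝒪] [IsDomain 𝒪] [IsDiscreteValuationRing 𝒪]
  [IsAdicComplete (maximalIdeal 𝒪) 𝒪] [Finite (ResidueField 𝒪)] [CharZero 𝒪]
  {ρbar : ResidualGaloisRep (ResidueField 𝒪)} {t : PType} {Smin : Finset ℕ}

/-- **CUSP, general form.**  A localisation of `X_K(𝒪)` at an eigen-system containing the one of
a Hecke package consists of cuspidal classes. -/
theorem locPart_cuspidalK (h : ResidualHyp p 𝒪 ρbar Smin) {Sig : Finset ℕ}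
    [NeZero (wilesLevel p t Smin Sig)] (P : HeckePkg p 𝒪 ρbar t Smin Sig)
    {M : ℕ} (hM : M ≠ 0) {K : Subgroup SL(2, ℤ)} {hK : IsMid M K}
    {Tset Uset : Set (ℕ × 𝒪)} (hT : TsetOf P ⊆ Tset)
    {V : Submodule 𝒪 (Additive K →+ 𝒪)} (hV : IsLocPart hK Tset Uset V) :
    ∀ v ∈ V, IsCuspidalK v := by
  have : NeZero M := ⟨hM⟩
  obtain ⟨ℓ, hℓF, c, hmem, hndvd, -, -, hℓM, -, hu, -, -⟩ :=
    H31.exists_auxPrime_h31 h P hM hT hV 1 Nat.one_pos ∅
  exact H324.isLocPart_cuspidal' hK hV hndvd hℓM (hT hmem) hu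

/-- The localisation at the minimal level is cuspidal. -/
theorem minPart_cuspidalK (h : ResidualHyp p 𝒪 ρbar Smin)
    [NeZero (wilesLevel p t Smin Smin)] (P₀ : HeckePkg p 𝒪 ρbar t Smin Smin)
    {V₀ : Submodule 𝒪 (Additive (Gamma0 (wilesLevel p t Smin Smin)) →+ 𝒪)}
    (hV : IsMinPart P₀ V₀) : ∀ v ∈ V₀, IsCuspidalK v :=
  locPart_cuspidalK h P₀ (NeZero.ne _) (le_refl _) hV

/-- The localisation at the level `Q` is cuspidal. -/
theorem qPart_cuspidalK (h : ResidualHyp p 𝒪 ρbar Smin) {r : ℕ} {qv : Fin r → ℕ}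
    [NeZero (wilesLevel p t Smin (Smin ∪ Finset.univ.image qv))]
    (PQ : HeckePkg p 𝒪 ρbar t Smin (Smin ∪ Finset.univ.image qv))
    (hM : bLevel (wilesLevel p t Smin Smin) qv ≠ 0) {α : Fin r → 𝒪}
    {V : Submodule 𝒪 (XQ p t Smin qv 𝒪)} (hV : IsQPart PQ α V) :
    ∀ v ∈ V, IsCuspidalK v :=
  locPart_cuspidalK h PQ hM (le_refl _) hV

/-- The localisation at the level `Q` consists of parabolic classes. -/
theorem qPart_parabolic (h : ResidualHyp p 𝒪 ρbar Smin) {r : ℕ} {qv : Fin r → ℕ}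
    [NeZero (wilesLevel p t Smin (Smin ∪ Finset.univ.image qv))]
    (PQ : HeckePkg p 𝒪 ρbar t Smin (Smin ∪ Finset.univ.image qv))
    (hM : bLevel (wilesLevel p t Smin Smin) qv ≠ 0) {α : Fin r → 𝒪}
    {V : Submodule 𝒪 (XQ p t Smin qv 𝒪)} (hV : IsQPart PQ α V) :
    ∀ v ∈ V, IsParabolicHom (KQ p (wilesLevel p t Smin Smin) qv) v :=
  fun v hv => (qPart_cuspidalK h PQ hM hV v hv).1

/-- **Leaf CUSP-MIN** (helper959's statement). -/
theorem cuspMin : H959.CuspMinStatement :=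
  fun _ _ _ _ _ _ _ _ _ _ _ h _ _ _ P₀ _ hV₀ v hv => minPart_cuspidalK h P₀ hV₀ v hv

/-- **CUSP at the minimal level, parabolic form** (helper709's statement). -/
theorem mod0Cusp : H709.Mod0CuspStatement :=
  fun _ _ _ _ _ _ _ _ _ _ _ h _ _ _ P₀ _ hV₀ v hv => (minPart_cuspidalK h P₀ hV₀ v hv).1

/-- **Leaf MOD0 of layer 3 is closed.** -/
theorem mod0 : Mod0Statement := H709.mod0_of_cusp mod0Cusp

end Fermat.Agent.S59.TW.Aut.H511

end
-- ===== PACK-END S59/TW/Aut/H511/Cusp.lean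

-- ===== PACK-BEGIN S59/TW/Aut/H779/FreeQ.lean
section





/-!
# S59 / cell TW / AUT layer 3: leaf FREE (helper779)

`freeQ_h779 : Fermat.Agent.S59.TW.Aut.FreeQStatement` (VERBATIM), for every odd `p`:

* `5 ≤ p`: `MFree.free` with (Ell) from the torsion of `SL(2,ℤ)`;
* `p = 3`: (Ell) can fail (`Γ₀(M_Q)` may contain elements of order `3` outside `K_Q`); the
  auxiliary prime `r ≡ 2 mod 3` with `θ(T_r) ≠ 0` (`H186.exists_aux3_tset_h186`) and the control
  at the auxiliary level `Γ₀(M_Q) ∩ Γ₀(r)` (`MFree.H779.heckeKer_mem_augSub`) replace it.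

The non-Eisenstein prime `ℓ` is `H31.exists_nonEis_mem_TsetOf`.
-/

set_option autoImplicit false

open Polynomial IsLocalRing CongruenceSubgroup
open scoped MatrixGroups

namespace Fermat.Agent.S59.TW.Aut.H779

open Fermat.Agent.S59.Arch Fermat.Agent.S59.TW.H959 Fermat.Agent.S59.TW
open Fermat.Agent.S59.TW.H653 Fermat.Agent.S59.TW.Aut Fermat.Agent.S59.MFree
open Fermat.Agent.S59.TW.Aut.H762

/-- **FREE**, verbatim. -/
theorem freeQ_h779 : FreeQStatement := by
  intro p _ 𝒪 _ _ _ _ _ _ ρbar Smin h t _ _ P₀ n r qv hq _ PQ res _ α _ V hV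
  classical
  have hp : p.Prime := Fact.out
  have hN₀ : wilesLevel p t Smin Smin ≠ 0 := wilesLevel_ne_zero hp h.hSmin h.hSmin
  have hprime : ∀ j, (qv j).Prime := fun j => (hq.2.1 j).1
  have hinj : Function.Injective qv := hq.1
  have hM : bLevel (wilesLevel p t Smin Smin) qv ≠ 0 :=
    Nat.mul_ne_zero hN₀ (Finset.prod_ne_zero_iff.mpr fun j _ => (hprime j).ne_zero)
  obtain ⟨ℓ, c, hmem, hℓ, hℓS', -, -, hu⟩ :=
    H31.exists_nonEis_mem_TsetOf h PQ 1 one_pos
      (bLevel (wilesLevel p t Smin Smin) qv).primeFactors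
  have hℓM : ¬ ℓ ∣ bLevel (wilesLevel p t Smin Smin) qv :=
    fun hd => hℓS' (Nat.mem_primeFactors.mpr ⟨hℓ, hd, hM⟩)
  have hp𝒪 : ¬ IsUnit (p : 𝒪) := (mem_maximalIdeal _).mp h.hp𝒪
  have hcase : 5 ≤ p ∨ (p = 3 ∧ ∃ (r' : ℕ) (c' : 𝒪), r'.Prime ∧
      ¬ r' ∣ bLevel (wilesLevel p t Smin Smin) qv ∧ r' % 3 = 2 ∧
      (r', c') ∈ TsetOf PQ ∧ IsUnit c') := by
    by_cases hp3 : p = 3
    · right
      refine ⟨hp3, ?_⟩
      obtain ⟨r', c', hmem', hr', -, -, hr'S', hr'3, hc'⟩ :=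
        H186.exists_aux3_tset_h186 hp3 h PQ
          (bLevel (wilesLevel p t Smin Smin) qv).primeFactors
      exact ⟨r', c', hr', fun hd => hr'S' (Nat.mem_primeFactors.mpr ⟨hr', hd, hM⟩), hr'3,
        hmem', hc'⟩
    · left
      have h2 := h.hp2
      have h2le := hp.two_le
      by_contra hlt
      have hp4 : p = 4 := by omega
      rw [hp4] at hp
      exact absurd hp (by decide)
  obtain ⟨d, hd⟩ := free_of_isLocPart_h779 (wilesLevel p t Smin Smin) qv hN₀ hinj hprime hp𝒪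
    hV hℓ hℓM hmem hu hcase
  intro g hg
  obtain ⟨b, hb⟩ := hd (∀ j : Fin r, Fin (p ^ padicValNat p (qv j - 1)))
    (fun e j => g j ^ (e j : ℕ)) (epsIdx_bijective p qv hprime g hg)
  exact ⟨d, b, hb⟩

end Fermat.Agent.S59.TW.Aut.H779

end
-- ===== PACK-END S59/TW/Aut/H779/FreeQ.lean

-- ===== PACK-BEGIN S59/TW/Aut/H673/DictR.lean
section









/-!
# S59 / cell TW, AUT leaf CMP, layer 4 leaf DICT-R  (helper673)

`dictR : H314.DictRStatement` (VERBATIM, `TW/H314/CmpSpec.lean`): an eigenvector `y` of `T_Q` in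
`V ⊆ X_{K_Q}(𝒪)` killed by `1 + ⟨u⟩_j + … + ⟨u⟩_j^(p-1)` is a newform point of a level `M` with
`q_j² ∥ M`.

Assembly of
* FRONT (`front_abs_ev`, helper673): the Betti point `ev : T_Q ⊗ 𝒪[∏ (ℤ/q_j)ˣ] → 𝒪'` of `y`,
  `𝒪'` a complete discrete valuation ring, killing every element acting by zero on `V`;
* PAR (`H564.isParabolic_of_pkg`): `V` consists of parabolic classes;
* the change of coefficients `ℤ → 𝒪` (`H658.hom_induction_of_torsionFree`);
* the concrete twist hypothesis at `K_Q` (`H347.twistHyp_KQ_h347`);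
* DICT (`D561.exists_newform_ringHom_of_occurs`, helper561; vendored in `D561New.lean` and
  `S59/TW/H81/D561`): Betti point → newform `g`,
  `q_j² ∥` level, with a ring homomorphism `L (a_ℓ g) = x (T_ℓ)` [Eichler–Shimura for `K_Q`,
  nebentypus decomposition, twist, TW-NS of helper54];
* the eigen-character of `g` (`S58.H94.chigOf`).
-/

set_option autoImplicit false
set_option linter.style.haveILetI false
set_option linter.unusedSectionVars false
set_option linter.unusedVariables false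
set_option maxSynthPendingDepth 3

open Polynomial IsLocalRing CongruenceSubgroup
open scoped MatrixGroups TensorProduct

namespace Fermat.Agent.S59.TW.Aut.H673

open Fermat.Agent.S59.Arch Fermat.Agent.S59.TW.H959 Fermat.Agent.S59.TW.H653
open Fermat.Agent.S59.TW.Aut Fermat.Agent.S59.TW.H658 Fermat.Agent.S59.TW.H314
open Fermat.Agent.S59.TW.H81.D561 Fermat.Agent.S59.TW.Aut.H673.D561 ModularCurve.Period

section

variable {p : ℕ} [hpF : Fact p.Prime]
  {𝒪 : Type} [CommRing 𝒪] [IsDomain 𝒪] [IsDiscreteValuationRing 𝒪]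
  [IsAdicComplete (maximalIdeal 𝒪) 𝒪] [Finite (ResidueField 𝒪)] [CharZero 𝒪]
  {ρbar : ResidualGaloisRep (ResidueField 𝒪)} {t : PType} {Smin : Finset ℕ}
  [NeZero (wilesLevel p t Smin Smin)]
  {r : ℕ} {qv : Fin r → ℕ}
  [NeZero (wilesLevel p t Smin (Smin ∪ Finset.univ.image qv))]
  (PQ : HeckePkg p 𝒪 ρbar t Smin (Smin ∪ Finset.univ.image qv)) (α : Fin r → 𝒪)
  (V : Submodule 𝒪 (XQ p t Smin qv 𝒪)) (h : ℕ) (a : PQ.T →ₐ[𝒪] Module.End 𝒪 V)

/-- The operators on `V`: `a (T_ℓ)` and the diamond operators. -/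
noncomputable def opV (hinj : Function.Injective qv) (hprime : ∀ j, (qv j).Prime)
    (hV : IsQPart PQ α V) :
    OpIdx (wilesLevel p t Smin (Smin ∪ Finset.univ.image qv))
      (↑(Smin ∪ Finset.univ.image qv) : Set ℕ) (bLevel (wilesLevel p t Smin Smin) qv) →
      Module.End 𝒪 V
  | Sum.inl i => a (PQ.H.π (CuspForm.heckeAlgebra.T i.2.1 i.2.2.1 i.2.2.2))
  | Sum.inr d => diaHom PQ α V hinj hprime hV (red (wilesLevel p t Smin Smin) qv d)

/-- The operators in `T_Q ⊗ 𝒪[∏ (ℤ/q_j)ˣ]`. -/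
noncomputable def opT :
    OpIdx (wilesLevel p t Smin (Smin ∪ Finset.univ.image qv))
      (↑(Smin ∪ Finset.univ.image qv) : Set ℕ) (bLevel (wilesLevel p t Smin Smin) qv) →
      PQ.T ⊗[𝒪] MonoidAlgebra 𝒪 (∀ j : Fin r, (ZMod (qv j))ˣ)
  | Sum.inl i => (PQ.H.π (CuspForm.heckeAlgebra.T i.2.1 i.2.2.1 i.2.2.2)) ⊗ₜ[𝒪] 1
  | Sum.inr d => (1 : PQ.T) ⊗ₜ[𝒪]
      MonoidAlgebra.of 𝒪 (∀ j : Fin r, (ZMod (qv j))ˣ) (red (wilesLevel p t Smin Smin) qv d)

/-- The sum of the iterates of the diamond operator, on `V` and on `X_{K_Q}(𝒪)`. -/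
theorem coe_sum_pow_diaHom (hinj : Function.Injective qv) (hprime : ∀ j, (qv j).Prime)
    (hV : IsQPart PQ α V) (g : ∀ j : Fin r, (ZMod (qv j))ˣ) (n : ℕ) (y : V) :
    (((∑ k ∈ Finset.range n, diaHom PQ α V hinj hprime hV g ^ k) y : V) :
        XQ p t Smin qv 𝒪) =
      ∑ k ∈ Finset.range n, (diaQ p t Smin qv 𝒪 g)^[k] (y : XQ p t Smin qv 𝒪) := by
  rw [LinearMap.sum_apply, AddSubmonoidClass.coe_finsetSum]
  refine Finset.sum_congr rfl fun k _ => ?_
  rw [Module.End.pow_apply]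
  have hsc : Function.Semiconj (fun v : V => (v : XQ p t Smin qv 𝒪))
      (diaHom PQ α V hinj hprime hV g) (diaQ p t Smin qv 𝒪 g) := fun v => rfl
  exact (hsc.iterate_right k).eq y

include hpF in
/-- The operators on `V` are the restrictions of the operators `opB` on `X_{K_Q}(𝒪)`. -/
theorem coe_opV (hinj : Function.Injective qv) (hprime : ∀ j, (qv j).Prime)
    [NeZero (bLevel (wilesLevel p t Smin Smin) qv)]
    (hV : IsQPart PQ α V) (ha : IsQAction PQ V h a)
    (hMN : bLevel (wilesLevel p t Smin Smin) qv ∣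
      wilesLevel p t Smin (Smin ∪ Finset.univ.image qv))
    (j : OpIdx (wilesLevel p t Smin (Smin ∪ Finset.univ.image qv))
      (↑(Smin ∪ Finset.univ.image qv) : Set ℕ) (bLevel (wilesLevel p t Smin Smin) qv))
    (v : V) :
    ((opV PQ α V a hinj hprime hV j v : V) : XQ p t Smin qv 𝒪) =
      opB (isMid_KQ p (wilesLevel p t Smin Smin) qv) 𝒪 hMN
        (fun ℓ => uOf (bLevel (wilesLevel p t Smin Smin) qv) ℓ ^ h) j
        (v : XQ p t Smin qv 𝒪) := by
  rcases j with i | d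
  · exact ha i.1 i.2.1 i.2.2.1 i.2.2.2 v
  · show diaQ p t Smin qv 𝒪 (red (wilesLevel p t Smin Smin) qv d) (v : XQ p t Smin qv 𝒪) =
      diamondU (isMid_KQ p (wilesLevel p t Smin Smin) qv) d (v : XQ p t Smin qv 𝒪)
    unfold diaQ
    exact diamondU_eq_of_chi p (wilesLevel p t Smin Smin) qv
      (chi_eq_of_red p (wilesLevel p t Smin Smin) qv
        (red_liftU (wilesLevel p t Smin Smin) qv ⟨d, rfl⟩)) _

end

/-- **DICT-R.** -/
theorem dictR : DictRStatement := by
  intro p _ 𝒪 _ _ _ _ _ _ ρbar Smin hRH t _ht _ n r qv hq _ PQ α _hα V h a hV hh ha j u hu y hy hΦ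
  classical
  have hp : p.Prime := Fact.out
  obtain ⟨hqi, hq', -⟩ := hq
  have hq2 : ∀ i, (qv i).Prime ∧ qv i ∉ Smin := fun i => ⟨(hq' i).1, (hq' i).2.1⟩
  have hprime : ∀ i, (qv i).Prime := fun i => (hq' i).1
  have hNS : ∀ q : ℕ, q.Prime →
      q ∣ wilesLevel p t Smin (Smin ∪ Finset.univ.image qv) →
      q ∈ ((Smin ∪ Finset.univ.image qv : Finset ℕ) : Set ℕ) := fun q hqp hqd =>
    mem_of_dvd_wilesLevel_union p t Smin qv hRH.hpSmin hRH.hSmin hqi hq2 hqp hqd
  haveI : NeZero (bLevel (wilesLevel p t Smin Smin) qv) :=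
    ⟨bLevel_ne_zero p t Smin qv hRH.hSmin hprime⟩
  have hMN : bLevel (wilesLevel p t Smin Smin) qv ∣
      wilesLevel p t Smin (Smin ∪ Finset.univ.image qv) :=
    (Dvd.intro _ rfl).trans (bLevel_mul_prod_dvd p t Smin qv hqi fun i => (hq2 i).2)
  have hpSig : p ∈ Smin ∪ Finset.univ.image qv := Finset.mem_union_left _ hRH.hpSmin
  haveI : (KQ p (wilesLevel p t Smin Smin) qv).FiniteIndex :=
    Fermat.Agent.S59.TW.H564.finiteIndex_of_Gamma1_le (isMid_KQ p (wilesLevel p t Smin Smin) qv).ge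
  haveI := fg_of_finiteIndex (KQ p (wilesLevel p t Smin Smin) qv)
  -- PAR
  have hpar : ∀ v ∈ V, IsParabolicHom (KQ p (wilesLevel p t Smin Smin) qv) v :=
    Fermat.Agent.S59.TW.H564.isParabolic_of_pkg hRH hpSig PQ
      (fun q hqp hqd => Finset.mem_coe.mp (hNS q hqp hqd))
      (isMid_KQ p (wilesLevel p t Smin Smin) qv) hMN hV
  -- the twist hypothesis
  have H := Fermat.Agent.S59.TW.H347.twistHyp_KQ_h347 p t Smin qv hRH.hpSmin hRH.hSmin hqi hq2 hh
  -- FRONT
  have hcomm : ∀ (s : PQ.T) (g : ∀ j : Fin r, (ZMod (qv j))ˣ),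
      Commute (a s) (diaHom PQ α V hqi hprime hV g) := by
    intro s g
    refine LinearMap.ext fun v => ?_
    rw [Module.End.mul_apply, Module.End.mul_apply, diaHom_apply]
    exact (diaV_comm PQ α V h a hRH.hSmin hRH.hpSmin hprime hV ha g s v).symm
  have hΦ' : (∑ k ∈ Finset.range p, diaHom PQ α V hqi hprime hV (Pi.mulSingle j u) ^ k) y = 0 := by
    apply Subtype.ext
    rw [coe_sum_pow_diaHom, hΦ]
    rfl
  obtain ⟨𝒪', i1, i2, i3, i4, i5, i6, i7, ev, hloc, hinj', hx, hker, hχ, hrel⟩ :=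
    front_abs_ev 𝒪 PQ.T (∀ j : Fin r, (ZMod (qv j))ˣ) V (torsionFree_h673 V) a
      (diaHom PQ α V hqi hprime hV) hcomm y hy.1 hy.2 (Pi.mulSingle j u) p hΦ'
  -- the system of values
  set vals : OpIdx (wilesLevel p t Smin (Smin ∪ Finset.univ.image qv))
      (↑(Smin ∪ Finset.univ.image qv) : Set ℕ) (bLevel (wilesLevel p t Smin Smin) qv) → 𝒪' :=
    fun i => ev (opT PQ i) with hvals
  -- it occurs in the parabolic classes
  have hocc : ∀ P : FreeAlgebra ℤ (OpIdx (wilesLevel p t Smin (Smin ∪ Finset.univ.image qv))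
      (↑(Smin ∪ Finset.univ.image qv) : Set ℕ) (bLevel (wilesLevel p t Smin Smin) qv)),
      (∀ y : Additive (KQ p (wilesLevel p t Smin Smin) qv) →+ ℤ,
        IsParabolicHom (KQ p (wilesLevel p t Smin Smin) qv) y →
        FreeAlgebra.lift ℤ (opB (isMid_KQ p (wilesLevel p t Smin Smin) qv) ℤ H.dvd
          (fun ℓ => uOf (bLevel (wilesLevel p t Smin Smin) qv) ℓ ^ h)) P y = 0) →
      FreeAlgebra.lift ℤ vals P = 0 := by
    intro P hP
    -- coefficients `𝒪`
    have h𝒪 : ∀ y : Additive (KQ p (wilesLevel p t Smin Smin) qv) →+ 𝒪,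
        IsParabolicHom (KQ p (wilesLevel p t Smin Smin) qv) y →
        FreeAlgebra.lift ℤ (opB (isMid_KQ p (wilesLevel p t Smin Smin) qv) 𝒪 H.dvd
          (fun ℓ => uOf (bLevel (wilesLevel p t Smin Smin) qv) ℓ ^ h)) P y = 0 := by
      intro y hy
      refine hom_induction_of_torsionFree (parSet (KQ p (wilesLevel p t Smin Smin) qv))
        (fun y => FreeAlgebra.lift ℤ (opB (isMid_KQ p (wilesLevel p t Smin Smin) qv) 𝒪 H.dvd
          (fun ℓ => uOf (bLevel (wilesLevel p t Smin Smin) qv) ℓ ^ h)) P y = 0)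
        ?_ (map_zero _) ?_ y hy
      · intro φ ψ hφ hψ
        rw [map_add, hφ, hψ, add_zero]
      · intro ψ c hψ
        have h1 := lift_intertwine
          (opB (isMid_KQ p (wilesLevel p t Smin Smin) qv) ℤ H.dvd
            (fun ℓ => uOf (bLevel (wilesLevel p t Smin Smin) qv) ℓ ^ h))
          (opB (isMid_KQ p (wilesLevel p t Smin Smin) qv) 𝒪 H.dvd
            (fun ℓ => uOf (bLevel (wilesLevel p t Smin Smin) qv) ℓ ^ h))
          (compAdd _ (zmultiplesHom 𝒪 c))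
          (fun i m => (opB_comp (isMid_KQ p (wilesLevel p t Smin Smin) qv) H.dvd _ i
            (zmultiplesHom 𝒪 c) m).symm) P ψ
        simp only [compAdd_apply] at h1
        rw [← h1, hP ψ hψ]
        exact AddMonoidHom.comp_zero _
    -- the operator on `V`
    have hV0 : FreeAlgebra.lift ℤ (opV PQ α V a hqi hprime hV) P = 0 := by
      refine LinearMap.ext fun v => Subtype.ext ?_
      have h1 := lift_intertwine
        (fun i => endToInt 𝒪 V (opV PQ α V a hqi hprime hV i))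
        (opB (isMid_KQ p (wilesLevel p t Smin Smin) qv) 𝒪 H.dvd
          (fun ℓ => uOf (bLevel (wilesLevel p t Smin Smin) qv) ℓ ^ h))
        V.subtype.toAddMonoidHom
        (fun i m => coe_opV PQ α V h a hqi hprime hV ha H.dvd i m) P v
      rw [lift_endToInt] at h1
      exact h1.trans (h𝒪 _ (hpar _ v.2))
    -- transfer to the point
    have h2 : thetaH673 a (diaHom PQ α V hqi hprime hV) hcomm
        (FreeAlgebra.lift ℤ (opT PQ) P) = 0 := by
      have h3 := ringHom_lift_h673 (thetaH673 a (diaHom PQ α V hqi hprime hV) hcomm).toRingHom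
        (opT PQ) P
      have h4 : (fun i => (thetaH673 a (diaHom PQ α V hqi hprime hV) hcomm).toRingHom
          (opT PQ i)) = opV PQ α V a hqi hprime hV := by
        funext i
        rcases i with i | d
        · show thetaH673 a (diaHom PQ α V hqi hprime hV) hcomm (_ ⊗ₜ[𝒪] 1) = _
          rw [← Algebra.TensorProduct.includeLeft_apply (R := 𝒪) (S := 𝒪), thetaH673_left]
          rfl
        · show thetaH673 a (diaHom PQ α V hqi hprime hV) hcomm (1 ⊗ₜ[𝒪] _) = _
          rw [thetaH673_right]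
          rfl
      rw [h4, hV0] at h3
      exact h3
    have h5 : ev (FreeAlgebra.lift ℤ (opT PQ) P) = FreeAlgebra.lift ℤ vals P :=
      ringHom_lift_h673 ev.toRingHom (opT PQ) P
    exact h5.symm.trans (hrel _ h2)
  -- the unit `d`
  obtain ⟨M', hM, d, hd1, hd2⟩ :=
    exists_unit_red_h673 p t Smin qv hRH.hpSmin hRH.hSmin hqi hq2 j u
  have hvd : vals (Sum.inr d) ≠ 1 := by
    intro h1
    have h2 : ev ((1 : PQ.T) ⊗ₜ[𝒪]
        MonoidAlgebra.of 𝒪 (∀ j : Fin r, (ZMod (qv j))ˣ) (Pi.mulSingle j u)) = 1 := by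
      rw [← hd2]
      exact h1
    rw [h2] at hχ
    simp only [one_pow, Finset.sum_const, Finset.card_range, nsmul_eq_mul, mul_one] at hχ
    exact hp.ne_zero (Nat.cast_eq_zero.mp hχ)
  have hv := factorization_wilesLevel_union_h673 p t Smin qv hRH.hpSmin hRH.hSmin hqi hq2 j
    (NeZero.ne _)
  -- DICT
  obtain ⟨M₁, hM₁, g, hg, R₀, hR, L, hdvd, hfac, hL⟩ :=
    exists_newform_ringHom_of_occurs (isMid_KQ p (wilesLevel p t Smin Smin) qv) H vals hocc
      (hprime j) hM hv d hd1 hvd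
  -- packaging
  have hMS : ∀ q : ℕ, q.Prime → q ∣ M₁ → q ∈ Smin ∪ Finset.univ.image qv :=
    fun q hqp hqd => Finset.mem_coe.mp (hNS q hqp (hqd.trans hdvd))
  have hh' := hg.isNormalizedEigenform
  have hgood : ∀ ℓ : ℕ, ℓ.Prime → ℓ ∉ (↑(Smin ∪ Finset.univ.image qv) : Set ℕ) →
      ℓ.Prime ∧ ¬ ℓ ∣ wilesLevel p t Smin (Smin ∪ Finset.univ.image qv) ∧
        ℓ ∉ (↑(Smin ∪ Finset.univ.image qv) : Set ℕ) :=
    fun ℓ hℓ hℓS => ⟨hℓ, fun h => hℓS (hNS ℓ hℓ h), hℓS⟩
  have hle : (Fermat.Agent.S58.H94.chigOf hh'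
      (↑(Smin ∪ Finset.univ.image qv) : Set ℕ)).range ≤ R₀ :=
    Fermat.Agent.S58.H94.chigOf_range_le hh' _ R₀
      (fun ℓ hℓ _ hℓS => hR ⟨ℓ, hgood ℓ hℓ hℓS⟩)
      (fun q hqp hqd => Finset.mem_coe.mpr (hMS q hqp hqd))
  refine ⟨𝒪', i1, i2, i3, i4, i5, i6,
    (ev.comp (Algebra.TensorProduct.includeLeft :
      PQ.T →ₐ[𝒪] PQ.T ⊗[𝒪] MonoidAlgebra 𝒪 (∀ j : Fin r, (ZMod (qv j))ˣ))).toRingHom,
    hx, fun s => (hker s).symm, M₁, hM₁, g, hg, hfac, hMS,
    Fermat.Agent.S58.H94.chigOf hh' _, L.comp (Subring.inclusion hle),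
    fun ℓ hℓ hℓM hℓS => Fermat.Agent.S58.H94.chigOf_T hh' _ hℓ hℓM hℓS, ?_⟩
  intro ℓ hℓ hℓN hℓM hℓS
  have h1 := hL ⟨ℓ, hℓ, hℓN, hℓS⟩
  rw [RingHom.comp_apply]
  refine Eq.trans ?_ h1
  congr 1
  apply Subtype.ext
  show Fermat.Agent.S58.H94.chigOf hh' _ (CuspForm.heckeAlgebra.T hℓ hℓM hℓS) = _
  rw [Fermat.Agent.S58.H94.chigOf_T]

/-- `dictR` has the type of the leaf DICT-R, verbatim. -/
example : Fermat.Agent.S59.TW.H314.DictRStatement := dictR

end Fermat.Agent.S59.TW.Aut.H673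

end
-- ===== PACK-END S59/TW/Aut/H673/DictR.lean

-- ===== PACK-BEGIN S59/NMP/H587/BettiGen.lean
section


/-!
# S59 / cell NMP, leaf LGC, route CHAR (helper587) — the Betti bridge without representations

`betti_of_eigen`: let `x : Γ₀(N) → 𝒪` be a Betti eigenclass of the system `a` away from `Σ ∋ p`
(`p ∤ N`), and let `α ∈ 𝒪`.  Suppose that for every finite extension `𝒪'` of `𝒪` (complete
discrete valuation ring, `ι : 𝒪 → 𝒪'` local and injective) and every NONZERO eigenclass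
`y : Γ₀(N) → 𝒪'` of the system `ι ∘ a` which is moreover an eigenvector of `T_p`, `T_p y = c y`,
one has `ι α · c = ι α² + p`.  Then `α · T_p x = (α² + p) · x`.

(`T_p` is a root of a squarefree monic integral polynomial on the eigenclasses, hence
diagonalisable over the ring of integers of a splitting field.  This is `betti_bridge` with the
inner claim as a hypothesis.)
-/

set_option autoImplicit false
set_option linter.style.haveILetI false
set_option linter.unusedSectionVars false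

noncomputable section

open Polynomial IsLocalRing CongruenceSubgroup ModularCurve ModularCurve.Period

namespace Fermat.Agent.S59.NMP.H587

open CuspForm Fermat.Agent.S30.H709 Fermat.Agent.S59.NM.H709 Fermat.Agent.S41.Spec
  Fermat.Agent.S29.H642 Fermat.Agent.S59.NMP Fermat.Agent.S59

/-- **The Betti bridge, general form.** -/
theorem betti_of_eigen
    (p : ℕ) [Fact p.Prime]
    (𝒪 : Type) [CommRing 𝒪] [IsDomain 𝒪] [IsDiscreteValuationRing 𝒪]
    [IsAdicComplete (maximalIdeal 𝒪) 𝒪] [Finite (ResidueField 𝒪)] [CharZero 𝒪]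
    (N : ℕ) [NeZero N] (hpN : ¬ p ∣ N) (Sig : Finset ℕ) (hpSig : p ∈ Sig)
    (hNS : ∀ q : ℕ, q.Prime → q ∣ N → q ∈ Sig)
    (a : ℕ → 𝒪) (α : 𝒪)
    (hinner : ∀ (𝒪' : Type) [CommRing 𝒪'] [IsDomain 𝒪'] [IsDiscreteValuationRing 𝒪']
      [IsAdicComplete (maximalIdeal 𝒪') 𝒪'] [Finite (ResidueField 𝒪')] [CharZero 𝒪']
      (ι : 𝒪 →+* 𝒪') (_ : IsLocalHom ι) (_ : Function.Injective ι) (c : 𝒪')
      (y : Additive (Gamma0 N) →+ 𝒪'), y ≠ 0 →
      NM.IsEigenclass N Sig (fun ℓ => ι (a ℓ)) y → heckeTransfer hpN y = c • y →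
      ι α * c = ι α ^ 2 + (p : 𝒪'))
    (x : Additive (Gamma0 N) →+ 𝒪) (hx : NM.IsEigenclass N Sig a x) :
    α • heckeTransfer hpN x = (α ^ 2 + (p : 𝒪)) • x := by
  classical
  have hp : p.Prime := Fact.out
  -- the Hecke algebra containing `T_p`
  obtain ⟨S', hS'⟩ : ∃ S' : Finset ℕ, S' = Sig.erase p := ⟨_, rfl⟩
  have hpS' : p ∉ (↑S' : Set ℕ) := by
    rw [Finset.mem_coe, hS']
    exact Finset.notMem_erase p Sig
  have hNS' : ∀ q : ℕ, q.Prime → q ∣ N → q ∈ (↑S' : Set ℕ) := by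
    intro q hq hqN
    rw [Finset.mem_coe, hS', Finset.mem_erase]
    exact ⟨fun h => hpN (h ▸ hqN), hNS q hq hqN⟩
  have hSig_of : ∀ ℓ : ℕ, ℓ ∉ (↑S' : Set ℕ) → ℓ ≠ p → ℓ ∉ Sig := by
    intro ℓ hℓ hℓp hmem
    refine hℓ ?_
    rw [hS']
    exact Finset.mem_coe.mpr (Finset.mem_erase.mpr ⟨hℓp, hmem⟩)
  have hS'_of : ∀ ℓ : ℕ, ℓ ∉ Sig → ℓ ∉ (↑S' : Set ℕ) ∧ ℓ ≠ p := by
    intro ℓ hℓ
    refine ⟨fun hmem => hℓ ?_, fun h => hℓ ?_⟩
    · rw [Finset.mem_coe, hS'] at hmem
      exact Finset.mem_of_mem_erase hmem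
    · rw [h]
      exact hpSig
  obtain ⟨t, ht⟩ : ∃ t : heckeAlgebra N 2 (↑S' : Set ℕ), t = heckeAlgebra.T hp hpN hpS' :=
    ⟨_, rfl⟩
  -- a squarefree annihilating polynomial
  haveI : IsReduced (heckeAlgebra N 2 (↑S' : Set ℕ)) :=
    Fermat.Agent.S31.H862.heckeAlgebra_isReduced N _ hNS'
  haveI : Module.Finite ℤ (heckeAlgebra N 2 (↑S' : Set ℕ)) := Fermat.Agent.S22.result N 2 _
  obtain ⟨R, hRm, hRsq, hRt⟩ :=
    exists_monic_squarefree_aeval_eq_zero t (Algebra.IsIntegral.isIntegral t)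
  -- the ring of integers of the splitting field
  obtain ⟨𝒪', _, _, _, _, _, _, _, _, hlh, hinj, s, hs, hRs⟩ := exists_dvr_rootPoly 𝒪 R hRm hRsq
  obtain ⟨ι, hι⟩ : ∃ ι : 𝒪 →+* 𝒪', ι = algebraMap 𝒪 𝒪' := ⟨_, rfl⟩
  rw [← hι] at hlh hinj
  have hp0 : (p : 𝒪') ≠ 0 := by
    exact_mod_cast hp.ne_zero
  -- the operator `T_p` on `W = Hom(Λ, 𝒪')` and the eigenspace `Y`
  obtain ⟨T, hT⟩ : ∃ T : Module.End 𝒪' (perLattice N →+ 𝒪'), T = actHom 𝒪' hNS' t := ⟨_, rfl⟩
  obtain ⟨Y, hY⟩ : ∃ Y : Submodule 𝒪' (perLattice N →+ 𝒪'),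
      Y = eigSub 𝒪' hNS' p (fun ℓ => ι (a ℓ)) := ⟨_, rfl⟩
  have hTY : ∀ v ∈ Y, T v ∈ Y := by
    intro v hv
    rw [hY] at hv ⊢
    rw [hT]
    exact actHom_mem_eigSub 𝒪' hNS' t hv
  have hTs : aeval T (rootPoly s) = 0 := by
    rw [← hRs, hT]
    exact aeval_actHom_eq_zero 𝒪' hNS' t R hRt
  -- the class `x` over `𝒪'`
  obtain ⟨x', hx'⟩ : ∃ x' : Additive (Gamma0 N) →+ 𝒪', x' = ι.toAddMonoidHom.comp x := ⟨_, rfl⟩
  have hx'par : IsParabolicHom (Gamma0 N) x' := by
    intro γ hγ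
    rw [hx', AddMonoidHom.comp_apply, hx.1.1 γ hγ, map_zero]
  obtain ⟨u, hu⟩ : ∃ u : perLattice N →+ 𝒪', u = ofCls x' hx'par := ⟨_, rfl⟩
  have htu : toCls u = x' := by
    rw [hu]
    exact toCls_ofCls x' hx'par
  have huY : u ∈ Y := by
    rw [hY]
    intro ℓ hℓ hℓN hℓS hℓp
    haveI : Fact ℓ.Prime := ⟨hℓ⟩
    apply toCls_injective
    rw [toCls_actHom_T 𝒪' hNS' hℓN hℓS u, htu, toCls_smul, htu, hx', heckeTransfer_comp,
      hx.2 ℓ hℓN (hSig_of ℓ hℓS hℓp)]
    refine AddMonoidHom.ext fun γ => ?_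
    simp
  -- the eigenvalues of `T_p` on `Y`
  have H : ∀ (c : 𝒪') (v : perLattice N →+ 𝒪'), v ∈ Y → v ≠ 0 → T v = c • v →
      ι α * c = ι α ^ 2 + (p : 𝒪') := by
    intro c v hv hv0 hTv
    rw [hY] at hv
    rw [hT, ht] at hTv
    refine hinner 𝒪' ι hlh hinj c (toCls v) (fun h0 => hv0 (toCls_injective ?_))
      ⟨isCuspidal_toCls v, ?_⟩ ?_
    · rw [h0, toCls_zero]
    · intro ℓ _ hℓN hℓS
      have h1 := hv ℓ Fact.out hℓN (hS'_of ℓ hℓS).1 (hS'_of ℓ hℓS).2
      have h2 := congrArg toCls h1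
      rw [toCls_actHom_T 𝒪' hNS' hℓN (hS'_of ℓ hℓS).1 v, toCls_smul] at h2
      exact h2
    · have h2 := congrArg toCls hTv
      rw [toCls_actHom_T 𝒪' hNS' hpN hpS' v, toCls_smul] at h2
      exact h2
  have hαβ : ι α = 0 → ι α ^ 2 + (p : 𝒪') ≠ 0 := by
    intro h0
    rw [h0]
    simpa using hp0
  have hfin := smul_apply_eq_of_aeval_prod T Y hTY (ι α) (ι α ^ 2 + (p : 𝒪')) hαβ H s hs huY
    (by rw [hTs]; rfl)
  -- back to the classes
  have hcls : ι α • heckeTransfer hpN x' = (ι α ^ 2 + (p : 𝒪')) • x' := by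
    have h1 := congrArg toCls hfin
    rw [toCls_smul, toCls_smul, hT, ht, toCls_actHom_T 𝒪' hNS' hpN hpS' u, htu] at h1
    exact h1
  refine AddMonoidHom.ext fun γ => ?_
  apply hinj
  have h2 := DFunLike.congr_fun hcls γ
  rw [hx', heckeTransfer_comp] at h2
  simpa using h2

end Fermat.Agent.S59.NMP.H587

end
end
-- ===== PACK-END S59/NMP/H587/BettiGen.lean

-- ===== PACK-BEGIN S38T/H354/ChiAut.lean
section



/-!
# Row S59 (B2) HECKE-T, GLUE A, part 1: `ty`-generic twin of `S38/H354/ChiAut.lean` (helper354)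

MECHANICAL TWIN in the convention of helper3 (`S38T/IA/Spec.lean`): module `S38.X -> S38T.X`, SAME
namespace, every twinned declaration has the suffix `_T`; the text is the text of
`S38/H354/ChiAut.lean` with `.flat` replaced by `ty : PType` and `IAAutLevel` by `IAAutLevel_T`
(frozen spec `S38T/IA/Hecke/Spec.lean` @166e8dc9f).  The `ty`-independent lemmas
(`exists_nat_pow_of_mem_zpowers`, `mulSingle_pow_eq`, and the whole `χ`-part algebra of
`ChiPart`/`ChiGen`/`ChiChar`) are the HARD ones, imported.  No hypothesis on `p` beyond primality.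

* `iaAutLevelOfChi_T` : the `χ`-part `V ⧸ chiRel (rhoL dia) (chiT T χ)` of a Betti level is an
  `IAAutLevel_T Piv qv PQ lam d`;
* `iaAutLevelOfChi_cmp_T` : the comparison `Cmp` descends to the `χ`-part;
* `exists_iaAutLevel_cyc_T` : the same with `D₁ = ∏_{i < k} (ℤ/pv i)ˣ` and the character built from
  a primitive `p`-th root of unity `ζ`.
-/

set_option autoImplicit false
set_option linter.unusedSectionVars false
set_option linter.style.haveILetI false

open Polynomial IsLocalRing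

namespace Fermat.Agent.S38.H354

open Fermat.Agent.S59.Arch Fermat.Agent.S59.TW.H959 Fermat.Agent.S59.TW
open Fermat.Agent.S38.IA Fermat.Agent.S38.IA.Hecke

section General

variable {p : ℕ}
  {𝒪 : Type} [CommRing 𝒪] [IsDomain 𝒪] [IsDiscreteValuationRing 𝒪]
  [IsAdicComplete (maximalIdeal 𝒪) 𝒪]
  {ρbar : ResidualGaloisRep (ResidueField 𝒪)} {ty : PType} {Smin : Finset ℕ}
  {Piv : Finset ℕ} {r : ℕ} {qv : Fin r → ℕ}
  [NeZero (wilesLevel p ty Smin (Smin ∪ Piv ∪ Finset.univ.image qv))]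
  (PQ : HeckePkg p 𝒪 ρbar ty Smin (Smin ∪ Piv ∪ Finset.univ.image qv))
  (V : Type) [AddCommGroup V] [Module PQ.T V]
  {D₁ : Type} [Monoid D₁] {E₁ : Type} [Fintype E₁] (γ₁ : E₁ → D₁)
  (dia : D₁ × (∀ j : Fin r, (ZMod (qv j))ˣ) →* Module.End PQ.T V)
  (χ : D₁ →* 𝒪) (lam : 𝒪) (d : ℕ)

/-- **The `χ`-part of a Betti level is an automorphic Ihara-avoidance level.** -/
noncomputable def iaAutLevelOfChi_T
    (dia_pow : ∀ a : ∀ j : Fin r, (ZMod (qv j))ˣ,
      dia (1, fun j => a j ^ p ^ padicValNat p (qv j - 1)) = 1)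
    (hσ : ∀ (a : D₁) (e₁ : E₁), ∃ e₁' : E₁,
      dia (a * γ₁ e₁, 1) = dia (γ₁ e₁', 1) ∧ χ (a * γ₁ e₁) = χ (γ₁ e₁'))
    (e₀ : E₁) (h1 : dia (γ₁ e₀, 1) = 1) (h1χ : χ (γ₁ e₀) = 1)
    (free : ∀ g : ∀ j : Fin r, (ZMod (qv j))ˣ, (∀ j, orderOf (g j) = qv j - 1) →
      ∃ b : Fin d → V, ∀ y : V,
        ∃! c : Fin d → E₁ × (∀ j : Fin r, Fin (p ^ padicValNat p (qv j - 1))) → 𝒪,
          y = ∑ i, ∑ e, algebraMap 𝒪 PQ.T (c i e) •
            dia (γ₁ e.1, fun j => g j ^ (e.2 j : ℕ)) (b i))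
    (hχ : ∀ a, ∃ c : 𝒪, χ a - 1 = lam * c)
    (hnu : ∀ t : PQ.T,
      (∀ (𝒪' : Type) [CommRing 𝒪'] [IsDomain 𝒪'] [IsDiscreteValuationRing 𝒪'] [CharZero 𝒪']
          [Algebra 𝒪 𝒪'] (x : PQ.T →ₐ[𝒪] 𝒪') (hx : IsLocalHom (x : PQ.T →+* 𝒪')),
          (∀ q ∈ Piv,
            ¬ (PQ.H.ρ.baseChangeAlong (x : PQ.T →+* 𝒪') hx).IsUnipotentOnInertiaAt q) →
          x t = 0) →
      ∀ m : V ⧸ chiRel (rhoL dia) (chiT PQ.T χ), t • m = 0)
    (hst : ∀ q ∈ Piv, ∀ P : ValuationSubring (AlgebraicClosure ℚ), P.LiesOverPrime q →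
      ∀ φ : AlgebraicClosure ℚ ≃ₐ[ℚ] AlgebraicClosure ℚ, P.IsFrobeniusAt φ q →
        ∀ x : V, (PQ.H.ρ.trace φ ^ 2 - ((1 + q : ℕ) : PQ.T) ^ 2) • x ∈
          chiRel (rhoL dia) (1 : D₁ →* PQ.T)) :
    IAAutLevel_T Piv qv PQ lam d where
  MQ := V ⧸ chiRel (rhoL dia) (chiT PQ.T χ)
  instAddCommGroup := inferInstance
  instModule := inferInstance
  dia := chiRho dia (chiT PQ.T χ)
  dia_pow a := chiRho_eq_one dia (chiT PQ.T χ) _ (dia_pow a)
  free g hg := by
    obtain ⟨b, hb⟩ := free g hg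
    letI : Module 𝒪 V := Module.compHom V (algebraMap 𝒪 PQ.T)
    haveI : IsScalarTower 𝒪 PQ.T V := IsScalarTower.of_algebraMap_smul fun _ _ => rfl
    obtain ⟨B, hB⟩ := exists_basis_of_existsUnique (O := 𝒪) (T := PQ.T)
      (E := E₁ × (∀ j : Fin r, Fin (p ^ padicValNat p (qv j - 1)))) (ι := Fin d)
      (fun z => dia (γ₁ z.1.1, fun j => g j ^ (z.1.2 j : ℕ)) (b z.2)) hb
    refine ⟨fun i => Submodule.Quotient.mk (b i), fun y => ?_⟩
    exact chiQ_existsUnique dia χ γ₁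
      (fun e : ∀ j : Fin r, Fin (p ^ padicValNat p (qv j - 1)) => fun j => g j ^ (e j : ℕ))
      b B hB hσ e₀ h1 h1χ y
  supp_nu := hnu
  st q hq P hP φ hφ m := chiQ_st (rhoL dia) χ lam hχ _ (hst q hq P hP φ hφ) m

/-- **The comparison `Cmp` descends to the `χ`-part.** -/
theorem iaAutLevelOfChi_cmp_T
    (dia_pow : ∀ a : ∀ j : Fin r, (ZMod (qv j))ˣ,
      dia (1, fun j => a j ^ p ^ padicValNat p (qv j - 1)) = 1)
    (hσ : ∀ (a : D₁) (e₁ : E₁), ∃ e₁' : E₁,
      dia (a * γ₁ e₁, 1) = dia (γ₁ e₁', 1) ∧ χ (a * γ₁ e₁) = χ (γ₁ e₁'))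
    (e₀ : E₁) (h1 : dia (γ₁ e₀, 1) = 1) (h1χ : χ (γ₁ e₀) = 1)
    (free : ∀ g : ∀ j : Fin r, (ZMod (qv j))ˣ, (∀ j, orderOf (g j) = qv j - 1) →
      ∃ b : Fin d → V, ∀ y : V,
        ∃! c : Fin d → E₁ × (∀ j : Fin r, Fin (p ^ padicValNat p (qv j - 1))) → 𝒪,
          y = ∑ i, ∑ e, algebraMap 𝒪 PQ.T (c i e) •
            dia (γ₁ e.1, fun j => g j ^ (e.2 j : ℕ)) (b i))
    (hχ : ∀ a, ∃ c : 𝒪, χ a - 1 = lam * c)
    (hnu : ∀ t : PQ.T,
      (∀ (𝒪' : Type) [CommRing 𝒪'] [IsDomain 𝒪'] [IsDiscreteValuationRing 𝒪'] [CharZero 𝒪']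
          [Algebra 𝒪 𝒪'] (x : PQ.T →ₐ[𝒪] 𝒪') (hx : IsLocalHom (x : PQ.T →+* 𝒪')),
          (∀ q ∈ Piv,
            ¬ (PQ.H.ρ.baseChangeAlong (x : PQ.T →+* 𝒪') hx).IsUnipotentOnInertiaAt q) →
          x t = 0) →
      ∀ m : V ⧸ chiRel (rhoL dia) (chiT PQ.T χ), t • m = 0)
    (hst : ∀ q ∈ Piv, ∀ P : ValuationSubring (AlgebraicClosure ℚ), P.LiesOverPrime q →
      ∀ φ : AlgebraicClosure ℚ ≃ₐ[ℚ] AlgebraicClosure ℚ, P.IsFrobeniusAt φ q →
        ∀ x : V, (PQ.H.ρ.trace φ ^ 2 - ((1 + q : ℕ) : PQ.T) ^ 2) • x ∈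
          chiRel (rhoL dia) (1 : D₁ →* PQ.T))
    (hcmp : ∀ (j : Fin r) (P : ValuationSubring Qb), P.LiesOverPrime (qv j) →
      ∀ φ : GQ, P.IsFrobeniusAt φ (qv j) →
      ∀ σ ∈ P.inertiaSubgroupIn ℚ, ∀ a : (ZMod (qv j))ˣ, orderOf a = qv j - 1 →
        CycloAt (qv j) σ (a : ZMod (qv j)).val →
        ∀ a₀ w : PQ.T, IsInertiaValue PQ.H.ρ φ σ a₀ w →
          ∀ y : V, (∃ y' : V, y = w • y' - y') ↔
            ∃ y' : V, y = dia (1, Pi.mulSingle j a) y' - y') :
    (iaAutLevelOfChi_T PQ V γ₁ dia χ lam d dia_pow hσ e₀ h1 h1χ free hχ hnu hst).Cmp := by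
  intro j P hP φ hφ σ hσ' a ha hcyc a₀ w hw y
  exact chiQ_range dia (chiT PQ.T χ) w (Pi.mulSingle j a)
    (hcmp j P hP φ hφ σ hσ' a ha hcyc a₀ w hw) y

end General

/-! ## The pivot group `∏ (ℤ/pv i)ˣ`, exponent basis, character built from `ζ` -/

section Cyc

variable {p : ℕ}
  {𝒪 : Type} [CommRing 𝒪] [IsDomain 𝒪] [IsDiscreteValuationRing 𝒪]
  [IsAdicComplete (maximalIdeal 𝒪) 𝒪]
  {ρbar : ResidualGaloisRep (ResidueField 𝒪)} {ty : PType} {Smin : Finset ℕ}
  {Piv : Finset ℕ} {r : ℕ} {qv : Fin r → ℕ}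
  [NeZero (wilesLevel p ty Smin (Smin ∪ Piv ∪ Finset.univ.image qv))]
  (PQ : HeckePkg p 𝒪 ρbar ty Smin (Smin ∪ Piv ∪ Finset.univ.image qv))
  (V : Type) [AddCommGroup V] [Module PQ.T V]
  {k : ℕ} (pv : Fin k → ℕ)
  (dia : (∀ i : Fin k, (ZMod (pv i))ˣ) × (∀ j : Fin r, (ZMod (qv j))ˣ) →* Module.End PQ.T V)
  (d : ℕ)

/-- **`IAAutLevel_T` with `Cmp` from the Betti level** with pivot group `∏ (ℤ/pv i)ˣ`:
the conclusion of `IA.Hecke.IAAutStatement_T` at one Taylor–Wiles set. -/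
theorem exists_iaAutLevel_cyc_T (hp : p.Prime) (ζ : 𝒪) (hζ : IsPrimitiveRoot ζ p)
    (hpv : ∀ i, (pv i).Prime) (hdvd : ∀ i, p ∣ pv i - 1)
    (dia_pow₁ : ∀ a : ∀ i : Fin k, (ZMod (pv i))ˣ,
      dia (fun i => a i ^ p ^ padicValNat p (pv i - 1), 1) = 1)
    (dia_pow : ∀ a : ∀ j : Fin r, (ZMod (qv j))ˣ,
      dia (1, fun j => a j ^ p ^ padicValNat p (qv j - 1)) = 1)
    (free : ∀ (g₁ : ∀ i : Fin k, (ZMod (pv i))ˣ) (g : ∀ j : Fin r, (ZMod (qv j))ˣ),
      (∀ i, orderOf (g₁ i) = pv i - 1) → (∀ j, orderOf (g j) = qv j - 1) →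
      ∃ b : Fin d → V, ∀ y : V,
        ∃! c : Fin d → (∀ i : Fin k, Fin (p ^ padicValNat p (pv i - 1))) ×
            (∀ j : Fin r, Fin (p ^ padicValNat p (qv j - 1))) → 𝒪,
          y = ∑ i, ∑ e, algebraMap 𝒪 PQ.T (c i e) •
            dia (fun i => g₁ i ^ (e.1 i : ℕ), fun j => g j ^ (e.2 j : ℕ)) (b i))
    (hnu : ∀ χ : (∀ i : Fin k, (ZMod (pv i))ˣ) →* 𝒪, (∀ a, χ a ^ p = 1) →
      (∀ (i : Fin k) (g : (ZMod (pv i))ˣ), orderOf g = pv i - 1 → χ (Pi.mulSingle i g) ≠ 1) →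
      ∀ t : PQ.T,
      (∀ (𝒪' : Type) [CommRing 𝒪'] [IsDomain 𝒪'] [IsDiscreteValuationRing 𝒪'] [CharZero 𝒪']
          [Algebra 𝒪 𝒪'] (x : PQ.T →ₐ[𝒪] 𝒪') (hx : IsLocalHom (x : PQ.T →+* 𝒪')),
          (∀ q ∈ Piv,
            ¬ (PQ.H.ρ.baseChangeAlong (x : PQ.T →+* 𝒪') hx).IsUnipotentOnInertiaAt q) →
          x t = 0) →
      ∀ m : V ⧸ chiRel (rhoL dia) (chiT PQ.T χ), t • m = 0)
    (hst : ∀ q ∈ Piv, ∀ P : ValuationSubring (AlgebraicClosure ℚ), P.LiesOverPrime q →
      ∀ φ : AlgebraicClosure ℚ ≃ₐ[ℚ] AlgebraicClosure ℚ, P.IsFrobeniusAt φ q →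
        ∀ x : V, (PQ.H.ρ.trace φ ^ 2 - ((1 + q : ℕ) : PQ.T) ^ 2) • x ∈
          chiRel (rhoL dia) (1 : (∀ i : Fin k, (ZMod (pv i))ˣ) →* PQ.T))
    (hcmp : ∀ (j : Fin r) (P : ValuationSubring Qb), P.LiesOverPrime (qv j) →
      ∀ φ : GQ, P.IsFrobeniusAt φ (qv j) →
      ∀ σ ∈ P.inertiaSubgroupIn ℚ, ∀ a : (ZMod (qv j))ˣ, orderOf a = qv j - 1 →
        CycloAt (qv j) σ (a : ZMod (qv j)).val →
        ∀ a₀ w : PQ.T, IsInertiaValue PQ.H.ρ φ σ a₀ w →
          ∀ y : V, (∃ y' : V, y = w • y' - y') ↔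
            ∃ y' : V, y = dia (1, Pi.mulSingle j a) y' - y') :
    ∃ A : IAAutLevel_T Piv qv PQ (ζ - 1) d, A.Cmp := by
  classical
  obtain ⟨χ, hχp, hχ1, hχg⟩ := exists_pivot_character hp hζ pv hpv hdvd
  -- primitive roots at the pivots and at the Taylor–Wiles primes
  choose g₁ hg₁ord hg₁gen using fun i => exists_primitive_root_units (hpv i)
  have hM : ∀ i, 0 < p ^ padicValNat p (pv i - 1) := fun i => pow_pos hp.pos _
  have hm1 : ∀ i, padicValNat p (pv i - 1) ≠ 0 := by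
    intro i
    haveI : Fact p.Prime := ⟨hp⟩
    have h0 : pv i - 1 ≠ 0 := Nat.sub_ne_zero_of_lt (hpv i).one_lt
    have : 1 ≤ padicValNat p (pv i - 1) :=
      (padicValNat_dvd_iff_le h0).mp (by rw [pow_one]; exact hdvd i)
    omega
  let F : (∀ i : Fin k, (ZMod (pv i))ˣ) →* Module.End PQ.T V × 𝒪 := (rhoL dia).prod χ
  have hF : ∀ i, F (Pi.mulSingle i (g₁ i)) ^ (p ^ padicValNat p (pv i - 1)) = 1 := by
    intro i
    refine Prod.ext ?_ ?_
    · change dia (Pi.mulSingle i (g₁ i), 1) ^ (p ^ padicValNat p (pv i - 1)) = 1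
      rw [← map_pow, Prod.pow_mk, one_pow,
        mulSingle_pow_eq pv i (g₁ i) (fun i => p ^ padicValNat p (pv i - 1))]
      exact dia_pow₁ _
    · change χ (Pi.mulSingle i (g₁ i)) ^ (p ^ padicValNat p (pv i - 1)) = 1
      obtain ⟨m', hm'⟩ := Nat.exists_eq_succ_of_ne_zero (hm1 i)
      rw [hm', pow_succ', pow_mul, hχp, one_pow]
  have hgen : ∀ (i : Fin k) (a : (ZMod (pv i))ˣ), ∃ s : ℕ, a = g₁ i ^ s := by
    intro i a
    haveI : NeZero (pv i) := ⟨(hpv i).ne_zero⟩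
    exact exists_nat_pow_of_mem_zpowers (hg₁gen i) a
  have hσ : ∀ (a : ∀ i : Fin k, (ZMod (pv i))ˣ)
      (e₁ : ∀ i : Fin k, Fin (p ^ padicValNat p (pv i - 1))),
      ∃ e₁' : ∀ i : Fin k, Fin (p ^ padicValNat p (pv i - 1)),
        dia (a * (fun i => g₁ i ^ (e₁ i : ℕ)), 1) = dia ((fun i => g₁ i ^ (e₁' i : ℕ)), 1) ∧
          χ (a * fun i => g₁ i ^ (e₁ i : ℕ)) = χ (fun i => g₁ i ^ (e₁' i : ℕ)) := by
    intro a e₁
    obtain ⟨e₁', he⟩ := exists_exp_translate F g₁ (fun i => p ^ padicValNat p (pv i - 1)) hM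
      hgen hF a e₁
    exact ⟨e₁', congrArg Prod.fst he, congrArg Prod.snd he⟩
  have hone : (fun i : Fin k => g₁ i ^ ((⟨0, hM i⟩ : Fin (p ^ padicValNat p (pv i - 1))) : ℕ)) =
      1 := by
    funext i
    exact pow_zero _
  have h1 : dia ((fun i : Fin k =>
      g₁ i ^ ((⟨0, hM i⟩ : Fin (p ^ padicValNat p (pv i - 1))) : ℕ)), 1) = 1 := by
    rw [hone]
    exact map_one dia
  have h1χ : χ (fun i : Fin k =>
      g₁ i ^ ((⟨0, hM i⟩ : Fin (p ^ padicValNat p (pv i - 1))) : ℕ)) = 1 := by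
    rw [hone]
    exact map_one χ
  exact ⟨iaAutLevelOfChi_T PQ V (fun e : ∀ i : Fin k, Fin (p ^ padicValNat p (pv i - 1)) =>
      fun i => g₁ i ^ (e i : ℕ)) dia χ (ζ - 1) d dia_pow hσ (fun i => ⟨0, hM i⟩) h1 h1χ
      (fun g hg => free g₁ g hg₁ord hg) hχ1 (hnu χ hχp hχg) hst,
    iaAutLevelOfChi_cmp_T PQ V _ dia χ (ζ - 1) d dia_pow hσ (fun i => ⟨0, hM i⟩) h1 h1χ
      (fun g hg => free g₁ g hg₁ord hg) hχ1 (hnu χ hχp hχg) hst hcmp⟩

end Cyc

end Fermat.Agent.S38.H354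

end
-- ===== PACK-END S38T/H354/ChiAut.lean

-- ===== PACK-BEGIN S38T/H354/GlueA.lean
section




/-!
# Row S59 (B2) HECKE-T, GLUE A: `IABettiStatement_T → IAAut5Statement_T` (helper354)

MECHANICAL TWIN, in the convention of helper3 (`S38T/IA/Spec.lean`), of the official glue A of row
HARD (`S38/H354/GlueA.lean`): module `S38.X -> S38T.X`, SAME namespace, suffix `_T`.  The frozen
Props are those of `S38T/IA/Hecke/Spec3.lean` @166e8dc9f (`3 ≤ p`, `ty : PType`,
`IsPTypeAt p ρbar ty`, `ribetLevelT`).  Pure algebra (the `χ`-part): neither `3 ≤ p` nor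
`IsPTypeAt` is used; the `ty`-independent lemmas (`chiRel_one_eq_span`, `exists_enum`) are the HARD
ones, imported.

* `iaAutLevel_of_bettiLevel_T` : `B : IABettiLevel_T Piv pv qv PQ d`, `B.Cmp`, `ζ` a primitive
  `p`-th root of unity, `pv i` primes `≡ 1 mod p` ⟹ `∃ A : IAAutLevel_T Piv qv PQ (ζ - 1) d, A.Cmp`;
* `iaAut5_of_betti_T : IABettiStatement_T → IAAut5Statement_T` (VERBATIM `S38T/IA/Hecke/Spec3`).
-/

set_option autoImplicit false
set_option linter.unusedSectionVars false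
set_option linter.style.haveILetI false

open Polynomial IsLocalRing

namespace Fermat.Agent.S38.H354

open Fermat.Agent.S59.Arch Fermat.Agent.S59.TW.H959 Fermat.Agent.S59.TW Fermat.Agent.S59.H765
open Fermat.Agent.S38.IA Fermat.Agent.S38.IA.Hecke

section Level

variable {p : ℕ}
  {𝒪 : Type} [CommRing 𝒪] [IsDomain 𝒪] [IsDiscreteValuationRing 𝒪]
  [IsAdicComplete (maximalIdeal 𝒪) 𝒪]
  {ρbar : ResidualGaloisRep (ResidueField 𝒪)} {ty : PType} {Smin : Finset ℕ}
  {Piv : Finset ℕ} {k : ℕ} {pv : Fin k → ℕ} {r : ℕ} {qv : Fin r → ℕ}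
  [NeZero (wilesLevel p ty Smin (Smin ∪ Piv ∪ Finset.univ.image qv))]
  {PQ : HeckePkg p 𝒪 ρbar ty Smin (Smin ∪ Piv ∪ Finset.univ.image qv)} {d : ℕ}

/-- **Glue A at one Taylor–Wiles set**, `ty`-generic: the `χ`-part of an abstract Betti module is
an automorphic Ihara-avoidance module. -/
theorem iaAutLevel_of_bettiLevel_T (B : IABettiLevel_T Piv pv qv PQ d) (hB : B.Cmp)
    (hp : p.Prime) (ζ : 𝒪) (hζ : IsPrimitiveRoot ζ p)
    (hpv : ∀ i, (pv i).Prime) (hdvd : ∀ i, p ∣ pv i - 1) :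
    ∃ A : IAAutLevel_T Piv qv PQ (ζ - 1) d, A.Cmp := by
  refine exists_iaAutLevel_cyc_T PQ B.V pv B.dia d hp ζ hζ hpv hdvd B.dia_pow₁ B.dia_pow₂ B.free
    ?_ ?_ hB
  · intro χ hχp hχg t ht m
    have hpiv : IsPivChar p pv χ := by
      refine ⟨hχp, fun i => ?_⟩
      obtain ⟨g, hg, -⟩ := exists_primitive_root_units (hpv i)
      exact ⟨g, hχg i g hg⟩
    induction m using Submodule.Quotient.induction_on with
    | H v =>
      rw [← Submodule.Quotient.mk_smul, Submodule.Quotient.mk_eq_zero]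
      exact B.nu χ hpiv t ht v
  · intro q hq P hP φ hφ x
    rw [chiRel_one_eq_span]
    exact B.st q hq P hP φ hφ x

end Level

/-- **GLUE A, `ty`-generic** (VERBATIM `S38T/IA/Hecke/Spec3.lean`): the abstract Betti module gives
the automorphic module of Ihara avoidance. -/
theorem iaAut5_of_betti_T (h : IABettiStatement_T) : IAAut5Statement_T := by
  intro p hpF hp5 𝒪 _ _ _ _ _ _ ρbar Smin hh ty hflat ζ hζ Piv hPiv _ θ₀ hθ₀ hmin
  obtain ⟨k, pv, hpvinj, hpvPiv⟩ := exists_enum Piv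
  have hmem : ∀ i, pv i ∈ Piv := by
    intro i
    rw [← hpvPiv]
    exact Finset.mem_image_of_mem pv (Finset.mem_univ i)
  have hpv : ∀ i, (pv i).Prime := fun i => (hPiv (pv i) (hmem i)).1
  have hdvd : ∀ i, p ∣ pv i - 1 := fun i => (hPiv (pv i) (hmem i)).2.2.1
  obtain ⟨d, hd, hB⟩ := h p hp5 𝒪 ρbar Smin hh ty hflat Piv hPiv θ₀ hθ₀ hmin k pv hpvinj hpvPiv
  refine ⟨d, hd, ?_⟩
  intro n r qv hq _ hp PQ hθ
  obtain ⟨B, hBcmp⟩ := hB n r qv hq hp PQ hθ
  exact iaAutLevel_of_bettiLevel_T B hBcmp hpF.out ζ hζ hpv hdvd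

end Fermat.Agent.S38.H354

end
-- ===== PACK-END S38T/H354/GlueA.lean

-- ===== PACK-BEGIN S59/H672/NeatPull.lean
section






/-!
# Row S59, cell (B1) WALL-q in W-form: the leaf NEAT-PULL (helper672)

`π^* : J₀(q M') → J₀(q (M' a))`, the pull-back of divisor classes along the inclusion
`F(q M') ⊆ F(q M' a)` (`a` an auxiliary prime, `a ≠ q`, `a ∤ q M'`), in the level convention of
the wall at `q` (`H158.WallQ`), with its properties:

* `neatPull_smul`        : Galois equivariance;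
* `neatPull_hecke`       : `π^* T_ℓ = T_ℓ π^*` for every prime `ℓ ≠ a`;
* `neatPull_eigenAt`     : `EigenAt (q M') S c x → EigenAt (q (M' a)) (insert a S) c (π^* x)`;
* `neatPull_alphaL`, `neatPull_betaL` : base change with the degeneracy push-forwards at `q`;
* `neatPull_isNewTorsQ`  : `π^*` preserves `IsNewTorsQ`;
* `neatPull_inj`         : `π^*` is injective on `m`-torsion, `gcd (m, a + 1) = 1`;
* `neatPush`, `neatPush_neatPull` : the push-forward `π_*`, Galois equivariant, `π_* π^* = a + 1`.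
-/

set_option autoImplicit false
set_option linter.style.haveILetI false
set_option linter.unusedSectionVars false
set_option synthInstance.maxHeartbeats 400000
set_option maxHeartbeats 1000000

noncomputable section

namespace Fermat.Agent.S59.H672.NeatPull

open AlgebraicCurve ModularCurve
open Fermat.Agent.S37.H818 (pullbackPic0Along)
open Fermat.Agent.Ribet.H801 (alphaL betaL alphaPush betaPush jzeroCast)
open Fermat.Agent.Ribet.H158.WallQ (IsNewTorsQ)
open Fermat.Agent.Ribet.H944.Wall (EigenAt)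

/-! ### Pull-backs along inclusions and level casts -/

section Cast

theorem jzeroCast_trans672 {N N' N'' : ℕ} [NeZero N] [NeZero N'] [NeZero N''] (h : N = N')
    (h' : N' = N'') (x : JZero N) : jzeroCast h' (jzeroCast h x) = jzeroCast (h.trans h') x := by
  subst h
  subst h'
  rfl

theorem jzeroCast_symm672 {N N' : ℕ} [NeZero N] [NeZero N'] (h : N = N') (x : JZero N) :
    jzeroCast h.symm (jzeroCast h x) = x := by
  subst h
  rfl

/-- Two "inclusions" (identity on expansions) between function fields whose levels are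
propositionally equal induce the same pull-back on `J₀`, up to the level casts. -/
theorem pullback_cast672 {N N' N₁ N₁' : ℕ} [NeZero N] [NeZero N'] [NeZero N₁] [NeZero N₁']
    (h₀ : N = N') (h₁ : N₁ = N₁')
    (i : modularFunctionFieldBar N →ₐ[AlgebraicClosure ℚ] modularFunctionFieldBar N₁)
    (i' : modularFunctionFieldBar N' →ₐ[AlgebraicClosure ℚ] modularFunctionFieldBar N₁')
    (hcoe : ∀ x, ((i x : modularFunctionFieldBar N₁) : LaurentSeries (AlgebraicClosure ℚ))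
      = (x : LaurentSeries (AlgebraicClosure ℚ)))
    (hcoe' : ∀ x, ((i' x : modularFunctionFieldBar N₁') : LaurentSeries (AlgebraicClosure ℚ))
      = (x : LaurentSeries (AlgebraicClosure ℚ)))
    [HasPrincipalDivisors (AlgebraicClosure ℚ) (modularFunctionFieldBar N₁)]
    [HasPrincipalDivisors (AlgebraicClosure ℚ) (modularFunctionFieldBar N₁')]
    (hi : i.toRingHom.IsIntegral) (hFI : FundamentalIdentityAlong (AlgebraicClosure ℚ) i hi)
    (hi' : i'.toRingHom.IsIntegral) (hFI' : FundamentalIdentityAlong (AlgebraicClosure ℚ) i' hi')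
    (x : JZero N) :
    pullbackPic0Along i' hi' hFI' (jzeroCast h₀ x) = jzeroCast h₁ (pullbackPic0Along i hi hFI x) := by
  subst h₀
  subst h₁
  have hii : i = i' := AlgHom.ext fun y => Subtype.ext ((hcoe y).trans (hcoe' y).symm)
  subst hii
  rfl

end Cast

section Def

variable (q M' a : ℕ) [NeZero q] [NeZero M'] [NeZero a] [NeZero (q * M')]
  [NeZero (q * (M' * a))]

/-- **NEAT-PULL**: `π^* : J₀(q M') → J₀(q (M' a))`. -/
def neatPull : JZero (q * M') →+ JZero (q * (M' * a)) :=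
  (jzeroCast (Nat.mul_assoc q M' a)).toAddMonoidHom.comp
    (Fermat.Agent.S37.H155.pullHom (q * M') a)

theorem neatPull_apply (x : JZero (q * M')) :
    neatPull q M' a x = jzeroCast (Nat.mul_assoc q M' a)
      (Fermat.Agent.S37.H155.pullHom (q * M') a x) :=
  rfl

/-- `π^*` in terms of the pull-back `S35.H155.pullTop` (levels `M' q`, `M' a q`). -/
theorem neatPull_eq_pullTop (x : JZero (q * M')) :
    neatPull q M' a x = jzeroCast (Nat.mul_comm (M' * a) q)
      (Fermat.Agent.S35.H155.pullTop M' a q (jzeroCast (Nat.mul_comm q M') x)) := by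
  rw [neatPull_apply]
  have h := pullback_cast672 (Nat.mul_comm q M') (show q * M' * a = M' * a * q by ring)
    (heckeAlphaBar (AlgebraicClosure ℚ) (q * M') a) (Fermat.Agent.S35.H155.iT M' a q)
    (fun y => coe_heckeAlphaBar (q * M') a y) (fun y => Fermat.Agent.S37.H155.coe_iTop M' a q y)
    (Fermat.Agent.Lib.FF398.heckeAlphaBarIntegral (q * M') a)
    (Fermat.Agent.Lib.FF398.fundamentalIdentityAlong_alpha (q * M') a)
    (Fermat.Agent.S35.H155.iT_integral M' a q)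
    (Fermat.Agent.S35.H155.fundamentalIdentityAlong_iT M' a q) x
  have h' : Fermat.Agent.S35.H155.pullTop M' a q (jzeroCast (Nat.mul_comm q M') x)
      = jzeroCast (show q * M' * a = M' * a * q by ring)
        (Fermat.Agent.S37.H155.pullHom (q * M') a x) := h
  rw [h', jzeroCast_trans672]

/-- `π^*` is Galois equivariant. -/
theorem neatPull_smul (σ : AlgebraicClosure ℚ ≃ₐ[ℚ] AlgebraicClosure ℚ) (x : JZero (q * M')) :
    neatPull q M' a (σ • x) = σ • neatPull q M' a x := by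
  rw [neatPull_apply, neatPull_apply, Fermat.Agent.S37.H155.pullHom_galois,
    Fermat.Agent.Ribet.H801.jzeroCast_smul]

/-- **INJ** (coprime case): `π^*` is injective on `m`-torsion when `gcd (m, a + 1) = 1`. -/
theorem neatPull_inj (ha : a.Prime) (haN : ¬ a ∣ q * M') (m : ℕ) (hcop : Nat.Coprime m (a + 1))
    (x : JZero (q * M')) (hm : m • x = 0) (hx : neatPull q M' a x = 0) : x = 0 := by
  rw [neatPull_apply] at hx
  have h1 : Fermat.Agent.S37.H155.pullHom (q * M') a x = 0 :=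
    (jzeroCast (Nat.mul_assoc q M' a)).injective (hx.trans (map_zero _).symm)
  exact Fermat.Agent.S37.H155.pullHom_inj_torsion (q * M') a ha haN m hcop x hm h1

/-- `π^* T_ℓ = T_ℓ π^*` for every prime `ℓ ≠ a`. -/
theorem neatPull_hecke (ha : a.Prime) (ℓ : Nat.Primes) (hne : a ≠ (ℓ : ℕ))
    (x : JZero (q * M')) :
    neatPull q M' a (heckeOperatorBar (q * M') ℓ x)
      = heckeOperatorBar (q * (M' * a)) ℓ (neatPull q M' a x) := by
  haveI : NeZero (ℓ : ℕ) := ⟨ℓ.2.ne_zero⟩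
  rw [neatPull_apply, neatPull_apply, ← Fermat.Agent.Ribet.H801.jzeroCast_heckeOperatorBar,
    heckeOperatorBar_apply, heckeOperatorBar_apply,
    Fermat.Agent.S37.H155.pullHom_hecke (q * M') a (ℓ : ℕ) ℓ.2 ha hne]

/-- `π^*` preserves Hecke eigenclasses (the auxiliary prime joins the exceptional set). -/
theorem neatPull_eigenAt (ha : a.Prime) {S : Finset ℕ} {c : ℕ → ℤ} {x : JZero (q * M')}
    (hx : EigenAt (q * M') S c x) :
    EigenAt (q * (M' * a)) (insert a S) c (neatPull q M' a x) := by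
  intro ℓ hℓ
  have hℓa : a ≠ (ℓ : ℕ) := fun h => hℓ (h ▸ Finset.mem_insert_self _ _)
  have hℓS : (ℓ : ℕ) ∉ S := fun h => hℓ (Finset.mem_insert_of_mem h)
  rw [← neatPull_hecke q M' a ha ℓ hℓa, hx ℓ hℓS, map_zsmul]

/-! ### Base change with the degeneracy push-forwards at `q` -/

theorem alphaPush_eq_pushA672 (N r : ℕ) [NeZero N] [NeZero r] (y : JZero (N * r)) :
    alphaPush N r y = Fermat.Agent.S35.H155.pushA N r y := by
  obtain ⟨D, rfl⟩ := Pic0.mk_surjective y
  rfl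

theorem betaPush_eq_pushB672 (N r : ℕ) [NeZero N] [NeZero r] (y : JZero (N * r)) :
    betaPush N r y = Fermat.Agent.S35.H155.pushB N r y := by
  obtain ⟨D, rfl⟩ := Pic0.mk_surjective y
  rfl

/-- **Base change, `α`**: `α_{q,*} (π^* x) = π_{M'}^* (α_{q,*} x)`. -/
theorem neatPull_alphaL (hq : q.Prime) (ha : a.Prime) (hne : a ≠ q) (x : JZero (q * M')) :
    alphaL q (M' * a) (neatPull q M' a x)
      = Fermat.Agent.A2.H155.pullHom M' a (alphaL q M' x) := by
  rw [Fermat.Agent.Ribet.H801.alphaL_apply, Fermat.Agent.Ribet.H801.alphaL_apply,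
    neatPull_eq_pullTop, jzeroCast_trans672, alphaPush_eq_pushA672, alphaPush_eq_pushA672]
  exact Fermat.Agent.S35.H155.pushA_pullTop M' a q hq ha hne _

/-- **Base change, `β`**: `β_{q,*} (π^* x) = π_{M'}^* (β_{q,*} x)`. -/
theorem neatPull_betaL (hq : q.Prime) (hqM : ¬ q ∣ M') (hqa : ¬ q ∣ M' * a)
    (x : JZero (q * M')) :
    betaL q (M' * a) (neatPull q M' a x)
      = Fermat.Agent.A2.H155.pullHom M' a (betaL q M' x) := by
  rw [Fermat.Agent.Ribet.H801.betaL_apply, Fermat.Agent.Ribet.H801.betaL_apply,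
    neatPull_eq_pullTop, jzeroCast_trans672, betaPush_eq_pushB672, betaPush_eq_pushB672]
  exact Fermat.Agent.S35.H155.pushB_pullTop M' a q hq hqM hqa _

/-- `π^*` preserves the `q`-new `p`-torsion classes. -/
theorem neatPull_isNewTorsQ (p : ℕ) (hq : q.Prime) (ha : a.Prime) (hne : a ≠ q)
    (hqM : ¬ q ∣ M') {x : JZero (q * M')} (hx : IsNewTorsQ p q M' x) :
    IsNewTorsQ p q (M' * a) (neatPull q M' a x) := by
  obtain ⟨h1, h2, h3⟩ := hx
  have hqa : ¬ q ∣ M' * a := by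
    intro h
    rcases (Nat.Prime.dvd_mul hq).mp h with h | h
    · exact hqM h
    · exact hne ((Nat.prime_dvd_prime_iff_eq hq ha).mp h).symm
  refine ⟨?_, ?_, ?_⟩
  · rw [← map_nsmul, h1, map_zero]
  · rw [neatPull_alphaL q M' a hq ha hne, h2, map_zero]
  · rw [neatPull_betaL q M' a hq hqM hqa, h3, map_zero]

/-! ### The push-forward `π_*` -/

/-- `π_* π^* = a + 1` on `J₀(N)`, for the inclusion `F(N) ⊆ F(N a)`, `a ∤ N` prime. -/
theorem alphaPush_pullHom672 (N r : ℕ) [NeZero N] [NeZero r] (hr : r.Prime) (hrN : ¬ r ∣ N)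
    (x : JZero N) :
    alphaPush N r (Fermat.Agent.S37.H155.pullHom N r x) = (r + 1) • x := by
  obtain ⟨D, rfl⟩ := Pic0.mk_surjective x
  have h1 : alphaPush N r (Fermat.Agent.S37.H155.pullHom N r (Pic0.mk D))
      = Pic0.mk (Fermat.Agent.Ribet.H801.pushDegZero (heckeAlphaBar (AlgebraicClosure ℚ) N r)
          (Fermat.Agent.Lib.HI.H864.heckeAlphaBarIntegral N r)
          (Fermat.Agent.S37.H818.pullbackDegZeroAlong (heckeAlphaBar (AlgebraicClosure ℚ) N r)
            (Fermat.Agent.Lib.FF398.heckeAlphaBarIntegral N r)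
            (Fermat.Agent.Lib.FF398.fundamentalIdentityAlong_alpha N r) D)) := rfl
  rw [h1]
  have h2 : (r + 1) • Pic0.mk D = Pic0.mk ((r + 1) • D) := rfl
  rw [h2]
  refine congrArg Pic0.mk (Subtype.ext ?_)
  have h3 := Fermat.Agent.S37.H155.pushforwardAlong_pullbackAlong
    (heckeAlphaBar (AlgebraicClosure ℚ) N r) (Fermat.Agent.Lib.FF398.heckeAlphaBarIntegral N r)
    (Fermat.Agent.S37.H155.sumRamificationInertiaAlong_alpha N r)
    (D : Divisor (AlgebraicClosure ℚ) (modularFunctionFieldBar N))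
  rw [Fermat.Agent.Lib.X0Deg.finrankAlong_heckeAlphaBar_of_not_dvd N r hr hrN] at h3
  have h4 : (((r + 1) • D : Divisor.degZero (K := AlgebraicClosure ℚ)
      (F := modularFunctionFieldBar N)) : Divisor (AlgebraicClosure ℚ) (modularFunctionFieldBar N))
      = (((r + 1 : ℕ) : ℤ)) • (D : Divisor (AlgebraicClosure ℚ) (modularFunctionFieldBar N)) := by
    rw [natCast_zsmul]
    rfl
  exact h3.trans h4.symm

/-- The push-forward `π_* : J₀(q (M' a)) → J₀(q M')`. -/
def neatPush : JZero (q * (M' * a)) →+ JZero (q * M') :=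
  (alphaPush (q * M') a).comp (jzeroCast (Nat.mul_assoc q M' a).symm).toAddMonoidHom

theorem neatPush_apply (y : JZero (q * (M' * a))) :
    neatPush q M' a y = alphaPush (q * M') a (jzeroCast (Nat.mul_assoc q M' a).symm y) :=
  rfl

/-- `π_*` is Galois equivariant. -/
theorem neatPush_smul (σ : AlgebraicClosure ℚ ≃ₐ[ℚ] AlgebraicClosure ℚ)
    (y : JZero (q * (M' * a))) :
    neatPush q M' a (σ • y) = σ • neatPush q M' a y := by
  rw [neatPush_apply, neatPush_apply, Fermat.Agent.Ribet.H801.jzeroCast_smul,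
    Fermat.Agent.Ribet.H801.alphaPush_smul]

/-- `π_* T_ℓ = T_ℓ π_*` for every prime `ℓ ≠ a`. -/
theorem neatPush_hecke (ha : a.Prime) (ℓ : Nat.Primes) (hne : (ℓ : ℕ) ≠ a)
    (y : JZero (q * (M' * a))) :
    neatPush q M' a (heckeOperatorBar (q * (M' * a)) ℓ y)
      = heckeOperatorBar (q * M') ℓ (neatPush q M' a y) := by
  rw [neatPush_apply, neatPush_apply, Fermat.Agent.Ribet.H801.jzeroCast_heckeOperatorBar,
    Fermat.Agent.Ribet.H801.alphaPush_heckeOperatorBar (q * M') a ha ℓ hne]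

/-- **`π_* π^* = a + 1`**. -/
theorem neatPush_neatPull (ha : a.Prime) (haN : ¬ a ∣ q * M') (x : JZero (q * M')) :
    neatPush q M' a (neatPull q M' a x) = (a + 1) • x := by
  rw [neatPush_apply, neatPull_apply, jzeroCast_symm672]
  exact alphaPush_pullHom672 (q * M') a ha haN x

/-! ### Compatibility with the Atkin–Lehner involution `w_q` -/

/-- `wPushTo` and level casts. -/
theorem wPushTo_cast672 {M p N N' : ℕ} [NeZero M] [NeZero p] [NeZero N] [NeZero N']
    (h : N = N') (h₁ : M * p = N) (h₂ : M * p = N') (hp : p.Prime) (hpM : ¬ p ∣ M)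
    (y : JZero N) :
    Fermat.Agent.Ribet.H801.wPushTo M p N' h₂ hp hpM (jzeroCast h y)
      = jzeroCast h (Fermat.Agent.Ribet.H801.wPushTo M p N h₁ hp hpM y) := by
  subst h
  rfl

/-- **Base change for `w_q`**, levels `M' q` and `M' q a`:
`π^* (w_q x) = w_q (π^* x)` for the pull-back along `F(M' q) ⊆ F(M' q a)`. -/
theorem pullHom_wPush672 (hq : q.Prime) (ha : a.Prime) (hne : a ≠ q) (hqM : ¬ q ∣ M')
    (z : JZero (M' * q)) :
    Fermat.Agent.S37.H155.pullHom (M' * q) a (Fermat.Agent.Ribet.H801.wPush M' q hq hqM z)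
      = Fermat.Agent.Ribet.H801.wPushTo (M' * a) q (M' * q * a) (Nat.mul_right_comm M' a q) hq
          (Fermat.Agent.Ribet.H801.not_dvd_mul_of_ne M' q a hq ha hne hqM)
          (Fermat.Agent.S37.H155.pullHom (M' * q) a z) := by
  haveI := Fermat.Agent.Lib.HI.H864.hasPrincipalDivisors_FF (M' * q)
  haveI := Fermat.Agent.Lib.HI.H864.hasPrincipalDivisors_FF (M' * q * a)
  have hc : M' * a * q = M' * q * a := Nat.mul_right_comm M' a q
  have hqMa := Fermat.Agent.Ribet.H801.not_dvd_mul_of_ne M' q a hq ha hne hqM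
  exact Fermat.Agent.S36.H160.pullbackPic0Along_pushPic0
    (Fermat.Agent.Ribet.H801.swapHom M' q hq hqM)
    (heckeAlphaBar (AlgebraicClosure ℚ) (M' * q) a)
    (Fermat.Agent.Ribet.H801.swapTo (M' * a) q (M' * q * a) hc hq hqMa)
    (heckeAlphaBar (AlgebraicClosure ℚ) (M' * q) a)
    (Fermat.Agent.Ribet.H801.swapHom_integral hq hqM)
    (Fermat.Agent.Lib.FF398.heckeAlphaBarIntegral (M' * q) a)
    (Fermat.Agent.Ribet.H801.swapTo_integral hc hq hqMa)
    (Fermat.Agent.Lib.FF398.heckeAlphaBarIntegral (M' * q) a)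
    (Fermat.Agent.Ribet.H801.swap_sq_alpha M' q a hq ha hne hqM)
    (Fermat.Agent.Ribet.H801.swapHom_finite hq hqM)
    (Fermat.Agent.Ribet.H801.swapHom_normFormula hq hqM _)
    (Fermat.Agent.Ribet.H801.swapTo_finite hc hq hqMa)
    (Fermat.Agent.Ribet.H801.swapTo_normFormula hc hq hqMa _)
    (Fermat.Agent.Lib.FF398.fundamentalIdentityAlong_alpha (M' * q) a)
    (Fermat.Agent.Lib.FF398.fundamentalIdentityAlong_alpha (M' * q) a)
    (Fermat.Agent.Ribet.H801.normCompat_of_bijective _ _ _ _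
      (Fermat.Agent.Ribet.H801.swapHom_bijective hq hqM)
      (Fermat.Agent.Ribet.H801.swapTo_bijective hc hq hqMa)
      (Fermat.Agent.Ribet.H801.swap_sq_alpha M' q a hq ha hne hqM))
    (Fermat.Agent.S29.H801.hasLocalGenerators_of_hasPrincipalDivisors _ _) z

/-- `pullHom` and the level cast `M' q = q M'`. -/
theorem pullHom_cast672 (y : JZero (M' * q)) :
    Fermat.Agent.S37.H155.pullHom (q * M') a (jzeroCast (Nat.mul_comm M' q) y)
      = jzeroCast (show M' * q * a = q * M' * a by rw [Nat.mul_comm M' q])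
          (Fermat.Agent.S37.H155.pullHom (M' * q) a y) :=
  pullback_cast672 (Nat.mul_comm M' q) (show M' * q * a = q * M' * a by rw [Nat.mul_comm M' q])
    (heckeAlphaBar (AlgebraicClosure ℚ) (M' * q) a) (heckeAlphaBar (AlgebraicClosure ℚ) (q * M') a)
    (fun y => coe_heckeAlphaBar (M' * q) a y) (fun y => coe_heckeAlphaBar (q * M') a y)
    (Fermat.Agent.Lib.FF398.heckeAlphaBarIntegral (M' * q) a)
    (Fermat.Agent.Lib.FF398.fundamentalIdentityAlong_alpha (M' * q) a)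
    (Fermat.Agent.Lib.FF398.heckeAlphaBarIntegral (q * M') a)
    (Fermat.Agent.Lib.FF398.fundamentalIdentityAlong_alpha (q * M') a) y

/-- **`π^*` commutes with the Atkin–Lehner involution `w_q`** (wall convention). -/
theorem neatPull_wL (hq : q.Prime) (ha : a.Prime) (hne : a ≠ q) (hqM : ¬ q ∣ M')
    (hqMa : ¬ q ∣ M' * a) (x : JZero (q * M')) :
    neatPull q M' a (Fermat.Agent.Ribet.H801.wL q M' hq hqM x)
      = Fermat.Agent.Ribet.H801.wL q (M' * a) hq hqMa (neatPull q M' a x) := by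
  obtain ⟨z, rfl⟩ : ∃ z : JZero (M' * q), jzeroCast (Nat.mul_comm M' q) z = x :=
    ⟨jzeroCast (Nat.mul_comm M' q).symm x, jzeroCast_symm672 (Nat.mul_comm M' q).symm x⟩
  have h1 : Fermat.Agent.Ribet.H801.wL q M' hq hqM (jzeroCast (Nat.mul_comm M' q) z)
      = jzeroCast (Nat.mul_comm M' q) (Fermat.Agent.Ribet.H801.wPush M' q hq hqM z) := by
    rw [Fermat.Agent.Ribet.H801.wL_apply, jzeroCast_symm672]
  have h2 : ∀ y : JZero (M' * q), neatPull q M' a (jzeroCast (Nat.mul_comm M' q) y)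
      = jzeroCast (show M' * q * a = q * (M' * a) by ring)
          (Fermat.Agent.S37.H155.pullHom (M' * q) a y) := by
    intro y
    rw [neatPull_apply, pullHom_cast672, jzeroCast_trans672]
  rw [h1, h2, h2, pullHom_wPush672 q M' a hq ha hne hqM]
  exact (wPushTo_cast672 (show M' * q * a = q * (M' * a) by ring)
    (Nat.mul_right_comm M' a q) (Nat.mul_comm (M' * a) q) hq hqMa _).symm

end Def

end Fermat.Agent.S59.H672.NeatPull

end

end
-- ===== PACK-END S59/H672/NeatPull.lean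

-- ===== PACK-BEGIN S59/H158/NeatGlue.lean
section



/-!
# S59 moonshot, cell B1 (WALL-q in W-form): NEAT-GLUE  (helper158)

The leaves of the wall at `q` (FROB-AL `H818`, CORE-OUT-q `H912`, CUSP-q `H644`) are proved at the
levels `(q, N')` with `S35.G.HasAux N' q` (`q = 3 → 2 ∣ N'`, `q = 2 → 3 ∣ N'`).  In the Frey form
the remaining levels were vacuous (`OddVacuous`); in the W-form they are not.  This file is the
abstract descent of the three targets from a level `(q, N')` (think `N' = r M'`, `r` the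
auxiliary prime) to the level `(q, M')`, along a pull-back `π : J₀(q M') → J₀(q N')`:

    targets_of_neatPull :
      (π additive, Galois-equivariant, Hecke-equivariant off `S₀`, maps `q`-new `p`-torsion to
       `q`-new `p`-torsion, injective on `p`-torsion, commutes with `w_q`)
      → (π x ∈ 𝓕' → x ∈ 𝓕 on `p`-torsion) → (x ∈ 𝒮 → π x ∈ 𝒮')
      → FROB-AL at `(q, N')` on `𝒮'` (explicit form, `u = - w_q`)
      → `Q4For p q N' A 𝓕'`
      → `Q3For p q M' 𝓕 𝒮`
      → `Q2For p q M' A 𝒮 ∧ Q3For p q M' 𝓕 𝒮 ∧ Q4For p q M' A 𝓕`.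

The choice `𝓕 := 𝓕'.comap π`, `𝒮 := 𝒮'.comap π` makes the two comparison hypotheses trivial
(`targets_of_neatPull_comap`); the choice `𝓕 = finPartQ`, `𝒮 = splitPartQ` at level `M'` needs the
descent of finiteness (degree of `π` prime to `p`).

No Frey package, no condition on `p` or `q` beyond primality of `q`.
-/

set_option autoImplicit false
set_option linter.style.haveILetI false

open ModularCurve

namespace Fermat.Agent.S59.H158.Neat

open Fermat.Agent.Ribet Fermat.Agent.Ribet.Spec Fermat.Agent.Ribet.H944.Wall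
open Fermat.Agent.Ribet.H158.WallQ Fermat.Agent.Ribet.H801

variable {p q M' N' : ℕ} [NeZero M'] [NeZero q] [NeZero (q * M')] [NeZero N'] [NeZero (q * N')]

/-- **The pull-back package** along `X₀(q N') → X₀(q M')` (`N' = r M'`). -/
structure NeatPull (p q M' N' : ℕ) [NeZero M'] [NeZero q] [NeZero (q * M')] [NeZero N']
    [NeZero (q * N')] (hq : q.Prime) (hqM : ¬ q ∣ M') (hqN : ¬ q ∣ N')
    (S₀ : Finset ℕ) (π : JZero (q * M') →+ JZero (q * N')) : Prop where
  /-- `π` commutes with `G_ℚ`. -/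
  galois : ∀ (σ : GQ) (x : JZero (q * M')), π (σ • x) = σ • π x
  /-- `π` commutes with the Hecke operators off `S₀`, on `p`-torsion. -/
  hecke : ∀ ℓ : Nat.Primes, (ℓ : ℕ) ∉ S₀ → ∀ x : JZero (q * M'), p • x = 0 →
    π (heckeOperatorBar (q * M') ℓ x) = heckeOperatorBar (q * N') ℓ (π x)
  /-- `π` maps `q`-new `p`-torsion to `q`-new `p`-torsion (base change for `α_*`, `β_*`). -/
  new : ∀ x : JZero (q * M'), IsNewTorsQ p q M' x → IsNewTorsQ p q N' (π x)
  /-- `π` is injective on `p`-torsion. -/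
  inj : ∀ x : JZero (q * M'), p • x = 0 → π x = 0 → x = 0
  /-- `π` commutes with the Atkin–Lehner involution `w_q`. -/
  atkin : ∀ x : JZero (q * M'), π (wL q M' hq hqM x) = wL q N' hq hqN (π x)

/-- **FROB-AL, explicit form** on a subgroup `𝒮` at level `(q, M')`: every Frobenius at `A` is
`q · (- w_q)` on the new part of `𝒮`. -/
def FrobALOn (p q M' : ℕ) [NeZero M'] [NeZero q] [NeZero (q * M')] (hq : q.Prime)
    (hqM : ¬ q ∣ M') (A : ValuationSubring (AlgebraicClosure ℚ))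
    (𝒮 : AddSubgroup (JZero (q * M'))) : Prop :=
  ∀ φ : GQ, A.IsFrobeniusAt φ q → ∀ x ∈ 𝒮, IsNewTorsQ p q M' x →
    φ • x = q • (-(wL q M' hq hqM x))

/-- The explicit form implies `Q2For` (with `u = - w_q`). -/
theorem q2For_of_frobALOn (hq : q.Prime) (hqM : ¬ q ∣ M')
    {A : ValuationSubring (AlgebraicClosure ℚ)} {𝒮 : AddSubgroup (JZero (q * M'))}
    (h : FrobALOn p q M' hq hqM A 𝒮) : Q2For p q M' A 𝒮 := by
  refine ⟨-((wL q M' hq hqM : JZero (q * M') ≃+ JZero (q * M')) :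
      JZero (q * M') →+ JZero (q * M')), ?_, ?_, ?_⟩
  · intro σ x
    show -(wL q M' hq hqM (σ • x)) = σ • (-(wL q M' hq hqM x))
    rw [wL_smul, smul_neg]
  · intro x _ _
    show -(wL q M' hq hqM (-(wL q M' hq hqM x))) = x
    rw [map_neg, neg_neg, wL_wL]
  · intro φ hφ x hx hnew
    exact h φ hφ x hx hnew

/-- `p • (-y) = -(p • y)`. -/
theorem neg_nsmul_aux158 {X : Type*} [AddCommGroup X] (n : ℕ) (y : X) : -(n • y) = n • (-y) :=
  (smul_neg n y).symm

section Descent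

variable {hq : q.Prime} {hqM : ¬ q ∣ M'} {hqN : ¬ q ∣ N'} {S₀ : Finset ℕ}
  {π : JZero (q * M') →+ JZero (q * N')}

/-- `π` preserves eigenclasses (off `S ∪ S₀`). -/
theorem NeatPull.eigenAt (hπ : NeatPull p q M' N' hq hqM hqN S₀ π) {S : Finset ℕ} {a : ℕ → ℤ}
    {x : JZero (q * M')} (hpx : p • x = 0) (hx : EigenAt (q * M') S a x) :
    EigenAt (q * N') (S ∪ S₀) a (π x) := by
  intro ℓ hℓ
  rw [Finset.mem_union, not_or] at hℓ
  rw [← hπ.hecke ℓ hℓ.2 x hpx, hx ℓ hℓ.1, map_zsmul]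

/-- **FROB-AL descends** along an injective pull-back commuting with `w_q`. -/
theorem frobALOn_of_neatPull (hπ : NeatPull p q M' N' hq hqM hqN S₀ π)
    {A : ValuationSubring (AlgebraicClosure ℚ)}
    {𝒮 : AddSubgroup (JZero (q * M'))} {𝒮' : AddSubgroup (JZero (q * N'))}
    (hS : ∀ x ∈ 𝒮, π x ∈ 𝒮') (h : FrobALOn p q N' hq hqN A 𝒮') :
    FrobALOn p q M' hq hqM A 𝒮 := by
  intro φ hφ x hx hnew
  have h1 : φ • π x = q • (-(wL q N' hq hqN (π x))) := h φ hφ (π x) (hS x hx) (hπ.new x hnew)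
  have hp : p • (φ • x - q • (-(wL q M' hq hqM x))) = 0 := by
    have hpx : p • x = 0 := hnew.1
    have e1 : p • (φ • x) = 0 := by
      rw [smul_comm p φ x, hpx, smul_zero]
    have e2 : p • (q • (-(wL q M' hq hqM x))) = 0 := by
      rw [smul_comm p q, ← neg_nsmul_aux158, ← map_nsmul, hpx, map_zero, neg_zero, smul_zero]
    rw [nsmul_sub, e1, e2, sub_zero]
  have hz : π (φ • x - q • (-(wL q M' hq hqM x))) = 0 := by
    rw [map_sub, hπ.galois, map_nsmul, map_neg, hπ.atkin, h1, sub_self]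
  exact sub_eq_zero.1 (hπ.inj _ hp hz)

/-- **TAME descends**: `Q4For` at `(q, N')` gives `Q4For` at `(q, M')` for every `𝓕` which
contains the `p`-torsion classes whose pull-back lies in `𝓕'`. -/
theorem q4For_of_neatPull (hπ : NeatPull p q M' N' hq hqM hqN S₀ π)
    {A : ValuationSubring (AlgebraicClosure ℚ)}
    {𝓕 : AddSubgroup (JZero (q * M'))} {𝓕' : AddSubgroup (JZero (q * N'))}
    (hF : ∀ x : JZero (q * M'), p • x = 0 → π x ∈ 𝓕' → x ∈ 𝓕) (h : Q4For p q N' A 𝓕') :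
    Q4For p q M' A 𝓕 := by
  intro S a hNE x hnew heig hfix
  refine hF x hnew.1 (h (S ∪ S₀) a hNE (π x) (hπ.new x hnew) (hπ.eigenAt hnew.1 heig) ?_)
  intro σ hσ
  rw [← hπ.galois, hfix σ hσ]

/-- **NEAT-GLUE**: the three targets at `(q, M')` from FROB-AL and TAME at `(q, N')`, the
pull-back package and RED at `(q, M')`. -/
theorem targets_of_neatPull (hπ : NeatPull p q M' N' hq hqM hqN S₀ π)
    {A : ValuationSubring (AlgebraicClosure ℚ)}
    {𝓕 𝒮 : AddSubgroup (JZero (q * M'))} {𝓕' 𝒮' : AddSubgroup (JZero (q * N'))}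
    (hF : ∀ x : JZero (q * M'), p • x = 0 → π x ∈ 𝓕' → x ∈ 𝓕)
    (hS : ∀ x ∈ 𝒮, π x ∈ 𝒮')
    (h2 : FrobALOn p q N' hq hqN A 𝒮') (h4 : Q4For p q N' A 𝓕')
    (h3 : Q3For p q M' 𝓕 𝒮) :
    Q2For p q M' A 𝒮 ∧ Q3For p q M' 𝓕 𝒮 ∧ Q4For p q M' A 𝓕 :=
  ⟨q2For_of_frobALOn hq hqM (frobALOn_of_neatPull hπ hS h2), h3, q4For_of_neatPull hπ hF h4⟩

/-- **NEAT-GLUE, pre-image form**: with `𝓕 := π⁻¹ 𝓕'`, `𝒮 := π⁻¹ 𝒮'` the comparison hypotheses
are trivial; what remains is RED for the pre-images. -/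
theorem targets_of_neatPull_comap (hπ : NeatPull p q M' N' hq hqM hqN S₀ π)
    {A : ValuationSubring (AlgebraicClosure ℚ)} {𝓕' 𝒮' : AddSubgroup (JZero (q * N'))}
    (h2 : FrobALOn p q N' hq hqN A 𝒮') (h4 : Q4For p q N' A 𝓕')
    (h3 : Q3For p q M' (𝓕'.comap π) (𝒮'.comap π)) :
    ∃ 𝓕 𝒮 : AddSubgroup (JZero (q * M')),
      Q2For p q M' A 𝒮 ∧ Q3For p q M' 𝓕 𝒮 ∧ Q4For p q M' A 𝓕 :=
  ⟨𝓕'.comap π, 𝒮'.comap π,
    targets_of_neatPull hπ (fun _ _ h => h) (fun _ h => h) h2 h4 h3⟩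

end Descent

end Fermat.Agent.S59.H158.Neat

end
-- ===== PACK-END S59/H158/NeatGlue.lean

-- ===== PACK-BEGIN S59/H672/NeatPullInst.lean
section



/-!
# Row S59, cell (B1): the leaf NEAT-PULL, instance of `H158.Neat.NeatPull` (helper672)

`neatPullR q r M' : J₀(q M') →+ J₀(q (r M'))` is the pull-back of divisor classes along the
inclusion `F(q M') ⊆ F(q r M')` (the degeneracy map `α_r`), in the level convention of
`H158.Neat.NeatPackageAt`.

    isNeatPull : p, q, r primes, r ≠ q, q ∤ M', r ∤ q M', gcd (r + 1, p) = 1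
      → H158.Neat.NeatPull p q M' (r * M') hq hqM hqN {r} (neatPullR q r M')

(`galois`, `hecke` off `{r}`, `new`, `inj`, `atkin`), UNCONDITIONAL.
-/

set_option autoImplicit false
set_option linter.style.haveILetI false
set_option linter.unusedSectionVars false
set_option synthInstance.maxHeartbeats 400000
set_option maxHeartbeats 1000000

noncomputable section

namespace Fermat.Agent.S59.H672.NeatPull

open AlgebraicCurve ModularCurve
open Fermat.Agent.Ribet.H801 (alphaL betaL jzeroCast wL)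
open Fermat.Agent.Ribet.H158.WallQ (IsNewTorsQ)
open Fermat.Agent.Ribet.H944.Wall (EigenAt)

section Casts

variable {q N N' : ℕ} [NeZero q] [NeZero N] [NeZero N'] [NeZero (q * N)] [NeZero (q * N')]

theorem alphaL_cast672 (h : N = N') (y : JZero (q * N)) :
    alphaL q N' (jzeroCast (congrArg (q * ·) h) y) = jzeroCast h (alphaL q N y) := by
  subst h
  rfl

theorem betaL_cast672 (h : N = N') (y : JZero (q * N)) :
    betaL q N' (jzeroCast (congrArg (q * ·) h) y) = jzeroCast h (betaL q N y) := by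
  subst h
  rfl

theorem isNewTorsQ_cast672 (p : ℕ) (h : N = N') {y : JZero (q * N)}
    (hy : IsNewTorsQ p q N y) : IsNewTorsQ p q N' (jzeroCast (congrArg (q * ·) h) y) := by
  subst h
  exact hy

theorem wL_cast672 (h : N = N') (hq : q.Prime) (hqN : ¬ q ∣ N) (hqN' : ¬ q ∣ N')
    (y : JZero (q * N)) :
    wL q N' hq hqN' (jzeroCast (congrArg (q * ·) h) y)
      = jzeroCast (congrArg (q * ·) h) (wL q N hq hqN y) := by
  subst h
  rfl

end Casts

section Inst

variable (q r M' : ℕ) [NeZero q] [NeZero r] [NeZero M'] [NeZero (q * M')] [NeZero (r * M')]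
  [NeZero (q * (r * M'))]

/-- **NEAT-PULL** in the level convention of `H158.Neat`: `π^* : J₀(q M') → J₀(q (r M'))`. -/
def neatPullR : JZero (q * M') →+ JZero (q * (r * M')) :=
  (jzeroCast (congrArg (q * ·) (Nat.mul_comm M' r))).toAddMonoidHom.comp (neatPull q M' r)

theorem neatPullR_apply (x : JZero (q * M')) :
    neatPullR q r M' x = jzeroCast (congrArg (q * ·) (Nat.mul_comm M' r)) (neatPull q M' r x) :=
  rfl

/-- **The leaf NEAT-PULL**: `neatPullR` satisfies `H158.Neat.NeatPull` with `S₀ = {r}`. -/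
theorem isNeatPull (p : ℕ) (hq : q.Prime) (hqM : ¬ q ∣ M') (hqN : ¬ q ∣ r * M')
    (hr : r.Prime) (hrq : r ≠ q) (hrM : ¬ r ∣ M') (hcop : Nat.Coprime (r + 1) p) :
    Fermat.Agent.S59.H158.Neat.NeatPull p q M' (r * M') hq hqM hqN {r} (neatPullR q r M') where
  galois := by
    intro σ x
    rw [neatPullR_apply, neatPullR_apply, neatPull_smul,
      Fermat.Agent.Ribet.H801.jzeroCast_smul]
  hecke := by
    intro ℓ hℓ x _
    have hne : r ≠ (ℓ : ℕ) := fun h => hℓ (Finset.mem_singleton.2 h.symm)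
    rw [neatPullR_apply, neatPullR_apply, neatPull_hecke q M' r hr ℓ hne,
      Fermat.Agent.Ribet.H801.jzeroCast_heckeOperatorBar]
  new := by
    intro x hx
    rw [neatPullR_apply]
    exact isNewTorsQ_cast672 p (Nat.mul_comm M' r) (neatPull_isNewTorsQ q M' r p hq hr hrq hqM hx)
  inj := by
    intro x hpx hx
    have hrN : ¬ r ∣ q * M' := by
      intro h
      rcases (Nat.Prime.dvd_mul hr).mp h with h | h
      · exact hrq ((Nat.prime_dvd_prime_iff_eq hr hq).mp h)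
      · exact hrM h
    rw [neatPullR_apply] at hx
    have h1 : neatPull q M' r x = 0 :=
      (jzeroCast (congrArg (q * ·) (Nat.mul_comm M' r))).injective (hx.trans (map_zero _).symm)
    exact neatPull_inj q M' r hr hrN p hcop.symm x hpx h1
  atkin := by
    intro x
    have hqMr : ¬ q ∣ M' * r := by rwa [Nat.mul_comm]
    rw [neatPullR_apply, neatPullR_apply, neatPull_wL q M' r hq hr hrq hqM hqMr,
      wL_cast672 (Nat.mul_comm M' r) hq hqMr hqN]

end Inst

end Fermat.Agent.S59.H672.NeatPull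

end

end
-- ===== PACK-END S59/H672/NeatPullInst.lean

-- ===== PACK-BEGIN S59/LoSqC/H987/CondW.lean
section




/-!
# S59 / cell (C) LO-SQ (helper987): `CondW` from purity, and the E-form level wall

* `centre_isMaximal_987` : for a sheet `V` and a valuation subring `W < V` containing the chart
  `B = chart R {x}`, the centre `B ∩ 𝔪_W` is a closed point of the special fibre.
* `condW_unit` : in a three-component context, `m ∣ div u` and `u` a unit at `V₁, V₂, V₃` give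
  `CondW R m Vᵢ u` (purity `H987.ctx_pure_fin / ctx_pure_cusp` at the centre of `W`).
* `condW_pair` : `CondW R m V₂' b` and `CondW R m V₂' (c ^ q')` for the residues of `redPair`.
* `levelWall_of` : the E-form level wall
  `f = w ^ s * α g * β g' * h ^ m`, `m ∣ div g, g'`, for `f` with `m ∣ div f`, `NormPow α m f`,
  `NormPow β m f`, slope zero — from R-SURJ1-E (reductions at level `M q`, form `(0, *)`) and the
  toric wall.
-/

set_option autoImplicit false
set_option linter.style.haveILetI false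
set_option linter.unusedSectionVars false
set_option linter.unusedVariables false
set_option synthInstance.maxHeartbeats 400000
set_option maxHeartbeats 1600000

noncomputable section

namespace Fermat.Agent.S59.LoSqC.H987

open Fermat.Agent.S36.Eng
open Fermat.Agent.S36.H586
open Fermat.Agent.A2.H12 (IsSheet)
open Fermat.Agent.S18.H138 (chart baseField)
open Fermat.Agent.S36.H193 (centreW mem_centreW sheet_chart_le)
open Fermat.Agent

/-! ## The centre of a valuation subring below a sheet -/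

section Centre

variable {R E F : Type} [CommRing R] [IsDomain R] [IsDiscreteValuationRing R]
  [Field E] [CharZero E] [Algebra R E] [IsFractionRing R E]
  [Field F] [Algebra E F] [Algebra R F] [IsScalarTower R E F]

omit [IsDomain R] [IsDiscreteValuationRing R] in
theorem chart_le_of_mem_987 (W : ValuationSubring F) (hRW : ∀ r : R, algebraMap R F r ∈ W)
    {x : F} (hx : x ∈ W) : ∀ c ∈ chart R ({x} : Set F), c ∈ W := by
  intro c hc
  refine Fermat.Agent.A2.H12.mem_of_isIntegral_of_le W (Algebra.adjoin R ({x} : Set F)) ?_ hc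
  intro a ha
  induction ha using Algebra.adjoin_induction with
  | mem y hy =>
    rw [Set.mem_singleton_iff] at hy
    rw [hy]
    exact hx
  | algebraMap r => exact hRW r
  | add y z _ _ hy hz => exact W.add_mem _ _ hy hz
  | mul y z _ _ hy hz => exact W.mul_mem _ _ hy hz

include E in
/-- The centre on the chart of a valuation subring strictly below a sheet is a closed point of
the special fibre. -/
theorem centre_isMaximal_987 (w : R) (hw : Irreducible w) {x : F} (hx : Transcendental R x)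
    [FiniteDimensional (baseField R x) F]
    {V : ValuationSubring F} (hV : IsSheet w x V) (W : ValuationSubring F) (hWV : W ≤ V)
    (hne : W ≠ V) (hBW : ∀ c ∈ chart R ({x} : Set F), c ∈ W) :
    (centreW W (chart R ({x} : Set F)) hBW).IsMaximal ∧
      algebraMap R (chart R ({x} : Set F)) w ∈ centreW W (chart R ({x} : Set F)) hBW := by
  classical
  haveI : CharZero F := charZero_of_injective_algebraMap (algebraMap E F).injective
  obtain ⟨hN, hIC, hFr⟩ := Fermat.Agent.S18.H394.chart_instances (R := R) hx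
  haveI := hN
  haveI := hIC
  haveI := hFr
  have hinjR : Function.Injective (algebraMap R F) :=
    Fermat.Agent.A2.Alg.H754.algebraMap_base_injective (E := E) (F := F)
  have hinjB : Function.Injective (algebraMap R (chart R ({x} : Set F))) :=
    Fermat.Agent.A2.Alg.H754.algebraMap_chart_injective (E := E) (chart R ({x} : Set F))
  have hwB0 : algebraMap R (chart R ({x} : Set F)) w ≠ 0 :=
    fun h0 => hw.ne_zero (hinjB (by rw [h0, map_zero]))
  have hBV : ∀ c ∈ (chart R ({x} : Set F)), c ∈ V := sheet_chart_le hV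
  set p : Ideal (chart R ({x} : Set F)) := centreW V (chart R ({x} : Set F)) hBV with hp
  set n : Ideal (chart R ({x} : Set F)) := centreW W (chart R ({x} : Set F)) hBW with hn
  haveI hpp : p.IsPrime := inferInstance
  haveI hnp : n.IsPrime := inferInstance
  have hwp : algebraMap R (chart R ({x} : Set F)) w ∈ p :=
    (mem_centreW V (chart R ({x} : Set F)) hBV _).2 hV.2.2.1
  have hp0 : p ≠ ⊥ := by
    intro h0
    rw [h0, Ideal.mem_bot] at hwp
    exact hwB0 hwp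
  have hnu : V.nonunits ≤ W.nonunits := ValuationSubring.nonunits_le_nonunits.2 hWV
  have hle : p ≤ n := by
    intro b hb
    exact (mem_centreW W _ hBW b).2 (hnu ((mem_centreW V _ hBV b).1 hb))
  have hlt : p < n := by
    refine lt_of_le_of_ne hle ?_
    intro heq
    apply hne
    refine le_antisymm hWV ?_
    intro z hz
    obtain ⟨a, s, hs, hzas⟩ := (Fermat.Agent.S36.H193.sheet_mem_iff hinjR hw.prime hx hV z).1 hz
    have hsW : (s : F) ∈ W := hBW s s.2
    have hsn : (s : F) ∉ W.nonunits := by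
      intro h
      have h1 : s ∈ n := (mem_centreW W _ hBW s).2 h
      rw [← heq] at h1
      exact hs ((mem_centreW V _ hBV s).1 h1)
    have hsinv : (s : F)⁻¹ ∈ W := by
      by_contra h
      exact hsn ((ValuationSubring.mem_nonunits_iff_or W).2 (Or.inr h))
    rw [hzas]
    exact W.mul_mem _ _ (hBW a a.2) hsinv
  haveI := Fermat.Agent.S18.H138.isNoetherianRing_adjoin_singleton (R := R) hx
  letI : Algebra (Algebra.adjoin R ({x} : Set F)) (chart R ({x} : Set F)) :=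
    inferInstanceAs (Algebra (Algebra.adjoin R ({x} : Set F))
      (integralClosure (Algebra.adjoin R ({x} : Set F)) F))
  haveI : Algebra.IsIntegral (Algebra.adjoin R ({x} : Set F)) (chart R ({x} : Set F)) :=
    inferInstanceAs (Algebra.IsIntegral (Algebra.adjoin R ({x} : Set F))
      (integralClosure (Algebra.adjoin R ({x} : Set F)) F))
  exact ⟨Fermat.Agent.A2.Alg.H754.isMaximal_of_lt_of_ne_bot
    (A₀ := Algebra.adjoin R ({x} : Set F))
    (Fermat.Agent.A2.Alg.H754.ringKrullDim_adjoin_le x hx) p n hp0 hlt, hle hwp⟩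

end Centre

/-! ## `CondW` from purity -/

section Unit

variable {R E F F' : Type} [CommRing R] [IsDomain R] [IsDiscreteValuationRing R]
  [Field E] [CharZero E] [Algebra R E] [IsFractionRing R E]
  [Field F] [Algebra E F] [Algebra R F] [IsScalarTower R E F]
  [Field F'] [Algebra E F'] [Algebra R F']
variable {w : R} {q : ℕ} {α β : F' →ₐ[E] F} {x : F} {x' : F'}
  {V₁ V₂ V₃ : ValuationSubring F} {V₁' V₂' : ValuationSubring F'}

/-- From a purity datum at the centre of `W` to the local shape `u = v * h ^ m`. -/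
theorem condW_of_datum_987 {B : Subalgebra R F} {V W : ValuationSubring F} (hWV : W ≤ V)
    (hBW : ∀ c ∈ B, c ∈ W) {m : ℕ} (hm : 0 < m) {u : F} (hu : UnitAt V u)
    (h : ∃ d : F, d ≠ 0 ∧ ∃ a₀ s₀ : B, a₀ ∉ centreW W B hBW ∧ s₀ ∉ centreW W B hBW ∧
      u * d ^ m * (s₀ : F) = a₀) :
    ∃ h v : F, V.valuation h = 1 ∧ v ∈ W ∧ v⁻¹ ∈ W ∧ V.valuation (u / (v * h ^ m) - 1) < 1 := by
  obtain ⟨d, hd0, a₀, s₀, ha₀, hs₀, hpure⟩ := h
  have haW : (a₀ : F) ∈ W := hBW a₀ a₀.2
  have hsW : (s₀ : F) ∈ W := hBW s₀ s₀.2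
  have han : (a₀ : F) ∉ W.nonunits := fun h => ha₀ ((mem_centreW W B hBW a₀).2 h)
  have hsn : (s₀ : F) ∉ W.nonunits := fun h => hs₀ ((mem_centreW W B hBW s₀).2 h)
  have hainv : (a₀ : F)⁻¹ ∈ W := by
    by_contra h
    exact han ((ValuationSubring.mem_nonunits_iff_or W).2 (Or.inr h))
  have hsinv : (s₀ : F)⁻¹ ∈ W := by
    by_contra h
    exact hsn ((ValuationSubring.mem_nonunits_iff_or W).2 (Or.inr h))
  have ha0 : (a₀ : F) ≠ 0 := fun h =>
    han ((ValuationSubring.mem_nonunits_iff_or W).2 (Or.inl h))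
  have hs0 : (s₀ : F) ≠ 0 := fun h =>
    hsn ((ValuationSubring.mem_nonunits_iff_or W).2 (Or.inl h))
  have hv0 : (a₀ : F) * (s₀ : F)⁻¹ ≠ 0 := mul_ne_zero ha0 (inv_ne_zero hs0)
  have hvW : (a₀ : F) * (s₀ : F)⁻¹ ∈ W := W.mul_mem _ _ haW hsinv
  have hvW' : ((a₀ : F) * (s₀ : F)⁻¹)⁻¹ ∈ W := by
    rw [mul_inv, inv_inv]
    exact W.mul_mem _ _ hainv hsW
  have hv1 : V.valuation ((a₀ : F) * (s₀ : F)⁻¹) = 1 :=
    val_eq_one_of_unit_le hWV hv0 hvW hvW'
  have hu1 : V.valuation u = 1 :=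
    val_eq_one_of_unit_le (le_refl V) hu.1 hu.2.1 hu.2.2
  have hdm0 : d ^ m ≠ 0 := pow_ne_zero _ hd0
  have e : u = (a₀ : F) * (s₀ : F)⁻¹ * (d⁻¹) ^ m := by
    rw [inv_pow]
    field_simp
    rw [← hpure]
    ring
  refine ⟨d⁻¹, (a₀ : F) * (s₀ : F)⁻¹, ?_, hvW, hvW', ?_⟩
  · apply val_pow_eq_one hm
    have h1 := congrArg V.valuation e
    rw [hu1, map_mul, hv1, one_mul] at h1
    exact h1.symm
  · have e2 : u / ((a₀ : F) * (s₀ : F)⁻¹ * (d⁻¹) ^ m) - 1 = 0 := by
      rw [← e, div_self hu.1, sub_self]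
    rw [e2, map_zero]
    exact zero_lt_one

/-- **`CondW` from purity**: `m ∣ div u` and `u` a unit of `V₁, V₂, V₃` ⟹ the residue of `u`
along each `Vᵢ` has `m`-divisible divisor. -/
theorem condW_unit (hw : Irreducible w) (hq : q.Prime)
    (ctx : TripleCtx w q α β x x' V₁ V₂ V₃ V₁' V₂')
    {m : ℕ} (hm : 0 < m) {u : F} (hdiv : A2.DivisibleDiv E m u)
    (hu₁ : UnitAt V₁ u) (hu₂ : UnitAt V₂ u) (hu₃ : UnitAt V₃ u)
    (V : ValuationSubring F) (hV : V = V₁ ∨ V = V₂ ∨ V = V₃) : CondW R m V u := by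
  have hsheet : IsSheet w x V := by
    rcases hV with rfl | rfl | rfl
    · exact Fermat.Agent.S36.H987.ctx_isSheet₁ ctx
    · exact Fermat.Agent.S36.H987.ctx_isSheet₂ hq ctx
    · exact Fermat.Agent.S36.H987.ctx_isSheet₃ ctx
  have huV : UnitAt V u := by
    rcases hV with rfl | rfl | rfl
    · exact hu₁
    · exact hu₂
    · exact hu₃
  intro W hWV hRW
  by_cases hne : W = V
  · subst hne
    refine ⟨1, u, map_one _, huV.2.1, huV.2.2, ?_⟩
    rw [one_pow, mul_one, div_self huV.1, sub_self, map_zero]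
    exact zero_lt_one
  have hxR : Transcendental R x := Fermat.Agent.A2.Alg.H754.transcendental_base ctx.hx
  have hx0 : x ≠ 0 := ctx.x_unit₁.1
  by_cases hxW : x ∈ W
  · -- the finite chart
    haveI := Fermat.Agent.A2.Alg.H754.finiteDimensional_baseField (R := R) x ctx.hfin
    have hBW := chart_le_of_mem_987 W hRW hxW
    obtain ⟨hmax, hwn⟩ := centre_isMaximal_987 (E := E) w hw hxR hsheet W hWV hne hBW
    exact condW_of_datum_987 hWV hBW hm huV
      (Fermat.Agent.S36.H987.ctx_pure_fin hw hq ctx _ hmax hwn hm hdiv hu₁ hu₂ hu₃)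
  · -- the chart at infinity, at a cusp
    have hxiW : x⁻¹ ∈ W := (W.mem_or_inv_mem x).resolve_left hxW
    have hxin : x⁻¹ ∈ W.nonunits := by
      rw [ValuationSubring.mem_nonunits_iff_or]
      right
      rwa [inv_inv]
    have hxiR : Transcendental R x⁻¹ := Fermat.Agent.S18.H138.transcendental_inv hxR
    have hfini := Fermat.Agent.S36.H987.finiteDimensional_adjoin_inv987 ctx.hfin
    haveI := Fermat.Agent.A2.Alg.H754.finiteDimensional_baseField (R := R) x⁻¹ hfini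
    have hsheet' : IsSheet w x⁻¹ V := (Fermat.Agent.S36.H193.isSheet_inv_iff w hx0 V).2 hsheet
    have hBW := chart_le_of_mem_987 W hRW hxiW
    obtain ⟨hmax, hwn⟩ := centre_isMaximal_987 (E := E) w hw hxiR hsheet' W hWV hne hBW
    have hxn : (⟨x⁻¹, Fermat.Agent.S18.H138.mem_chart_of_mem rfl⟩ : chart R ({x⁻¹} : Set F)) ∈
        centreW W (chart R ({x⁻¹} : Set F)) hBW :=
      (mem_centreW W _ hBW _).2 hxin
    exact condW_of_datum_987 hWV hBW hm huV
      (Fermat.Agent.S36.H987.ctx_pure_cusp hw hq ctx _ hmax hwn hxn hm hdiv hu₁ hu₂ hu₃)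

end Unit

end Fermat.Agent.S59.LoSqC.H987

end

end
-- ===== PACK-END S59/LoSqC/H987/CondW.lean

-- ===== PACK-BEGIN S59/LoSqC/H987/LevelWall.lean
section


/-!
# S59 / cell (C) LO-SQ (helper987): the E-form LEVEL WALL from R-SURJ1-E and the toric wall

Context = binders of `S36.Alg3.LeafStepA` (`Eng.TripleCtx`).

* `condW_pair` : for the residues `b`, `c` of `redPair` (`u ≡ β b` on `V₂`,
  `α c · (β b) ^ q ≡ 1` on `V₃`), `CondW R m V₂' b` and `CondW R m V₂' (c ^ q')`.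
* `RSurj1E`   : R-SURJ1 in E-form, shape `(0, *)`:
  every unit `b` of `V₂'` whose residue has `m`-divisible divisor (`CondW R m V₂' b`) is, up to
  `m`-th powers, the residue on `V₂'` of some `g` with `m ∣ div g` and `g ≡ 1` on `V₁'`.
* `ToricWallE` : the toric wall: every `u ≡ 1` on `V₁, V₂, V₃` with `m ∣ div u` is
  `α g · β g' · h ^ m` with `m ∣ div g, g'`.
* `LevelWallE` : for `f ≠ 0`, `m ∣ div f`, `NormPow α m f`, `NormPow β m f`, slope zero:
  `f = w ^ s * α g * β g' * h ^ m` with `m ∣ div g, g'`.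
* **`levelWall_of`** : `RSurj1E → ToricWallE → LevelWallE`.
-/

set_option autoImplicit false
set_option linter.style.haveILetI false
set_option linter.unusedSectionVars false
set_option linter.unusedVariables false
set_option synthInstance.maxHeartbeats 400000
set_option maxHeartbeats 1600000

noncomputable section

namespace Fermat.Agent.S59.LoSqC.H987

open Fermat.Agent.S36.Eng
open Fermat.Agent.S36.H586
open Fermat.Agent

section Defs

variable {R E F F' : Type} [CommRing R] [Field E] [Field F] [Algebra E F] [Algebra R F]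
  [Field F'] [Algebra E F'] [Algebra R F']

/-- **R-SURJ1 in E-form**, shape `(0, *)`. -/
def RSurj1E (R E : Type) {F' : Type} [CommRing R] [Field E] [Field F'] [Algebra E F']
    [Algebra R F'] (m : ℕ) (V₁' V₂' : ValuationSubring F') : Prop :=
  ∀ b : F', V₂'.valuation b = 1 → CondW R m V₂' b → RSurjAt (E := E) m V₁' V₂' b

/-- **The toric wall** at level `M q²` in E-form. -/
def ToricWallE (E : Type) {F F' : Type} [Field E] [Field F] [Algebra E F] [Field F']
    [Algebra E F'] (m : ℕ) (α β : F' →ₐ[E] F) (V₁ V₂ V₃ : ValuationSubring F) : Prop :=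
  ∀ u : F, A2.DivisibleDiv E m u → u - 1 ∈ V₁.nonunits → u - 1 ∈ V₂.nonunits →
    u - 1 ∈ V₃.nonunits →
    ∃ (g g' : F') (h : F), A2.DivisibleDiv E m g ∧ A2.DivisibleDiv E m g' ∧
      u = α g * β g' * h ^ m

/-- **The level wall** in E-form. -/
def LevelWallE (R E : Type) {F F' : Type} [CommRing R] [Field E] [Field F] [Algebra E F]
    [Algebra R F] [Field F'] [Algebra E F'] (w : R) (m : ℕ) (α β : F' →ₐ[E] F)
    (V₁ V₃ : ValuationSubring F) : Prop :=
  ∀ f : F, f ≠ 0 → A2.DivisibleDiv E m f → S35.G.NormPow α m f → S35.G.NormPow β m f →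
    _root_.Fermat.Agent.S59.LoSqC.H987.SlopeZero (algebraMap R F w) m V₁ V₃ f →
    ∃ (s : ℤ) (g g' : F') (h : F), g ≠ 0 ∧ g' ≠ 0 ∧ h ≠ 0 ∧ A2.DivisibleDiv E m g ∧
      A2.DivisibleDiv E m g' ∧ f = algebraMap R F w ^ s * α g * β g' * h ^ m

end Defs

section Main

variable {R E F F' : Type} [CommRing R] [IsDomain R] [IsDiscreteValuationRing R]
  [HenselianLocalRing R] [IsAlgClosed (IsLocalRing.ResidueField R)]
  [Field E] [CharZero E] [Algebra R E] [IsFractionRing R E]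
  [Field F] [Algebra E F] [Algebra R F] [IsScalarTower R E F]
  [Field F'] [Algebra E F'] [Algebra R F'] [IsScalarTower R E F']

theorem unitAt_of_val_987 {V : ValuationSubring F} {u : F} (h : V.valuation u = 1) :
    UnitAt V u := by
  refine ⟨?_, (vs_val_le_one_iff V _).1 h.le, (vs_val_le_one_iff V _).1 ?_⟩
  · rintro rfl
    rw [map_zero] at h
    exact zero_ne_one h
  · rw [map_inv₀, h, inv_one]

theorem val_of_sub_one_987 {V : ValuationSubring F} {u : F} (h : u - 1 ∈ V.nonunits) :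
    V.valuation u = 1 :=
  (pu_iff.2 h : PU V u).val_eq_one

/-- The prime `q` lies in the maximal ideal of `V₃`. -/
theorem natCast_lt_one_987 (w : R) (hw : Irreducible w) (q : ℕ)
    (hqR : (q : R) ∈ IsLocalRing.maximalIdeal R) {V : ValuationSubring F}
    (hbase : ∀ r : R, algebraMap R F r ∈ V) (hwV : algebraMap R F w ∈ V.nonunits) :
    V.valuation (q : F) < 1 := by
  rw [hw.maximalIdeal_eq, Ideal.mem_span_singleton] at hqR
  obtain ⟨r, hr⟩ := hqR
  have e : (q : F) = algebraMap R F w * algebraMap R F r := by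
    rw [← map_mul, ← hr, map_natCast]
  rw [e, map_mul]
  have h1 : V.valuation (algebraMap R F w) < 1 := (ValuationSubring.mem_nonunits_iff V).1 hwV
  have h2 : V.valuation (algebraMap R F r) ≤ 1 := (vs_val_le_one_iff V _).2 (hbase r)
  exact mul_lt_one_of_nonneg_of_lt_one_left zero_le h1 h2

/-- Frobenius is additive modulo `𝔪_V` when `q ∈ 𝔪_V`. -/
theorem add_pow_sub_lt_987 {q : ℕ} (hq : q.Prime) {V : ValuationSubring F}
    (hqV : V.valuation (q : F) < 1) (y y' : F) (hy : y ∈ V) (hy' : y' ∈ V) :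
    V.valuation ((y + y') ^ q - y ^ q - y' ^ q) < 1 := by
  obtain ⟨r, hr⟩ := exists_add_pow_prime_eq hq (⟨y, hy⟩ : V) (⟨y', hy'⟩ : V)
  have h1 := congrArg V.subtype hr
  simp only [map_add, map_pow, map_mul, map_natCast] at h1
  change (y + y') ^ q = y ^ q + y' ^ q + (q : F) * y * y' * (r : F) at h1
  have e : (y + y') ^ q - y ^ q - y' ^ q = (q : F) * (y * y' * (r : F)) := by
    rw [h1]
    ring
  rw [e, map_mul]
  have h2 : V.valuation (y * y' * (r : F)) ≤ 1 :=
    (vs_val_le_one_iff V _).2 (V.mul_mem _ _ (V.mul_mem _ _ hy hy') r.2)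
  exact mul_lt_one_of_nonneg_of_lt_one_left zero_le hqV h2

/-- **`CondW` for the residues of `redPair`.** -/
theorem condW_pair (w : R) (hw : Irreducible w) (q : ℕ) (hq : q.Prime)
    (hqR : (q : R) ∈ IsLocalRing.maximalIdeal R)
    (α β : F' →ₐ[E] F) (x : F) (x' : F')
    (V₁ V₂ V₃ : ValuationSubring F) (V₁' V₂' : ValuationSubring F')
    (T : TripleCtx w q α β x x' V₁ V₂ V₃ V₁' V₂') {m : ℕ} (hm : 0 < m)
    (u : F) (hdu : A2.DivisibleDiv E m u)
    (hu₁ : u - 1 ∈ V₁.nonunits) (hu₂ : V₂.valuation u = 1) (hu₃ : u - 1 ∈ V₃.nonunits)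
    (b c : F') (hb : V₂'.valuation b = 1)
    (hub : u / β b - 1 ∈ V₂.nonunits) (hcb : α c * (β b) ^ q - 1 ∈ V₃.nonunits) (q' : ℕ) :
    CondW R m V₂' b ∧ CondW R m V₂' (c ^ q') := by
  obtain ⟨π, hπ, A⟩ := absCtx_of_ctx w hw q hq hqR α β x x' V₁ V₂ V₃ V₁' V₂' T
  have hαR : ∀ r : R, (α : F' →+* F) (algebraMap R F' r) = algebraMap R F r := by
    intro r
    change α (algebraMap R F' r) = algebraMap R F r
    rw [IsScalarTower.algebraMap_apply R E F', α.commutes,
      ← IsScalarTower.algebraMap_apply R E F]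
  have hβR : ∀ r : R, (β : F' →+* F) (algebraMap R F' r) = algebraMap R F r := by
    intro r
    change β (algebraMap R F' r) = algebraMap R F r
    rw [IsScalarTower.algebraMap_apply R E F', β.commutes,
      ← IsScalarTower.algebraMap_apply R E F]
  -- (C1) purity
  have hU₁ : UnitAt V₁ u := unitAt_of_val_987 (val_of_sub_one_987 hu₁)
  have hU₂ : UnitAt V₂ u := unitAt_of_val_987 hu₂
  have hU₃ : UnitAt V₃ u := unitAt_of_val_987 (val_of_sub_one_987 hu₃)
  have c1 : CondW R m V₂ u :=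
    condW_unit hw hq T hm hdu hU₁ hU₂ hU₃ V₂ (Or.inr (Or.inl rfl))
  -- (C2) down to `V₂'` along `β` (residue degree one)
  have hβb2 : V₂.valuation ((β : F' →+* F) b) = 1 := val_eq_one_up A.Tβ.over_r hb
  have hub' : V₂.valuation (u ^ 1 - (β : F' →+* F) b) < 1 := by
    rw [pow_one]
    exact sub_lt_of_div_sub_one hβb2 ((ValuationSubring.mem_nonunits_iff V₂).1 hub)
  have c2 : CondW R m V₂' b :=
    condW_down m (β : F' →+* F) hβR V₂ V₂' 1 Nat.one_pos A.Tβ.over_r
      (fun y hy => by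
        obtain ⟨a, ha⟩ := A.Tβ.res_r y hy
        exact ⟨a, by rw [pow_one]; exact ha⟩)
      (fun y y' _ _ => by
        have e : (y + y') ^ 1 - y ^ 1 - y' ^ 1 = 0 := by ring
        rw [e, map_zero]
        exact zero_lt_one)
      hu₂ hub' c1
  -- (C3) up to `V₃` along `β`
  have c3 : CondW R m V₃ ((β : F' →+* F) b) := condW_up m (β : F' →+* F) hβR V₃ V₂' A.Tβ.over_u c2
  have hβb3 : V₃.valuation ((β : F' →+* F) b) = 1 := val_eq_one_up A.Tβ.over_u hb
  have c4 : CondW R m V₃ ((β : F' →+* F) b)⁻¹ := condW_inv m hβb3 c3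
  -- (C4) down to `V₂'` along `α` (purely inseparable)
  have hqV₃ : V₃.valuation (q : F) < 1 :=
    natCast_lt_one_987 w hw q hqR T.base₃ T.unif₃.2.1
  have hβb0 : (β : F' →+* F) b ≠ 0 := by
    intro h0
    rw [h0, map_zero] at hβb3
    exact zero_ne_one hβb3
  have hcb1 : V₃.valuation ((α : F' →+* F) c * ((β : F' →+* F) b) ^ q - 1) < 1 :=
    (ValuationSubring.mem_nonunits_iff V₃).1 hcb
  have hcb' : V₃.valuation (((β : F' →+* F) b)⁻¹ ^ q - (α : F' →+* F) c) < 1 := by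
    have e : ((β : F' →+* F) b)⁻¹ ^ q - (α : F' →+* F) c =
        -(((α : F' →+* F) c * ((β : F' →+* F) b) ^ q - 1) * (((β : F' →+* F) b) ^ q)⁻¹) := by
      rw [inv_pow]
      have : ((β : F' →+* F) b) ^ q ≠ 0 := pow_ne_zero _ hβb0
      field_simp
      ring
    rw [e, Valuation.map_neg, map_mul, map_inv₀, map_pow, hβb3, one_pow, inv_one, mul_one]
    exact hcb1
  have c5 : CondW R m V₂' c :=
    condW_down m (α : F' →+* F) hαR V₃ V₂' q hq.pos A.Tα.over_i A.Tα.res_i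
      (fun y y' hy hy' => add_pow_sub_lt_987 hq hqV₃ y y' hy hy')
      (by rw [map_inv₀, hβb3, inv_one]) hcb' c4
  have hc1 : V₂'.valuation c = 1 := by
    apply val_eq_one_down A.Tα.over_i
    have h1 : V₃.valuation (((β : F' →+* F) b)⁻¹ ^ q) = 1 := by
      rw [map_pow, map_inv₀, hβb3, inv_one, one_pow]
    exact val_eq_one_of_sub_lt' h1 (val_sub_lt_symm hcb')
  exact ⟨c2, condW_pow m hc1 c5 q'⟩

/-- An inverse of `q` modulo `m`. -/
theorem exists_inv_mod_987 {q m : ℕ} (hq : 0 < q) (hm : 0 < m) (hqm : Nat.Coprime q m) :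
    ∃ q' j : ℕ, q * q' = 1 + j * m := by
  rcases Nat.lt_or_ge 1 m with h | h
  · obtain ⟨q', -, hq'⟩ := Nat.exists_mul_mod_eq_one_of_coprime hqm h
    refine ⟨q', q * q' / m, ?_⟩
    have := Nat.div_add_mod (q * q') m
    rw [hq'] at this
    rw [mul_comm (q * q' / m) m, add_comm]
    exact this.symm
  · have hm1 : m = 1 := le_antisymm h hm
    subst hm1
    refine ⟨1, q - 1, ?_⟩
    omega

/-- `DivisibleDiv` of `f / (w ^ s * G ^ m)`. -/
theorem divisibleDiv_of_eq_987 (w : R) {m : ℕ} {f G u : F} {s : ℤ} (hG : G ≠ 0)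
    (hw0 : algebraMap R F w ≠ 0)
    (hfu : f = algebraMap R F w ^ s * G ^ m * u) (hf : A2.DivisibleDiv E m f) :
    A2.DivisibleDiv E m u := by
  intro V hV hEV
  obtain ⟨h, v, hh, hv, hv', e⟩ := hf V hV hEV
  have hwE : algebraMap R F w = algebraMap E F (algebraMap R E w) :=
    IsScalarTower.algebraMap_apply R E F w
  have hwV : algebraMap R F w ∈ V := by rw [hwE]; exact hEV _
  have hwV' : (algebraMap R F w)⁻¹ ∈ V := by
    rw [hwE, ← map_inv₀]
    exact hEV _
  have hzV : ∀ n : ℤ, (algebraMap R F w) ^ n ∈ V := by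
    intro n
    cases n with
    | ofNat n => rw [Int.ofNat_eq_natCast, zpow_natCast]; exact pow_mem hwV n
    | negSucc n => rw [zpow_negSucc, ← inv_pow]; exact pow_mem hwV' _
  refine ⟨h * G⁻¹, v * (algebraMap R F w ^ s)⁻¹, mul_ne_zero hh (inv_ne_zero hG), ?_, ?_, ?_⟩
  · rw [← zpow_neg]
    exact V.mul_mem _ _ hv (hzV _)
  · rw [mul_inv, inv_inv]
    exact V.mul_mem _ _ hv' (hzV _)
  · have h1 : algebraMap R F w ^ s ≠ 0 := zpow_ne_zero _ hw0
    have h2 : G ^ m ≠ 0 := pow_ne_zero _ hG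
    have e2 : u = f * (algebraMap R F w ^ s)⁻¹ * (G ^ m)⁻¹ := by
      rw [hfu]
      field_simp
    rw [e2, e, mul_pow, inv_pow]
    ring

/-- `DivisibleDiv` of a product. -/
theorem divisibleDiv_mul_987 {E F : Type*} [Field E] [Field F] [Algebra E F] (m : ℕ) {f g : F}
    (hf : A2.DivisibleDiv E m f) (hg : A2.DivisibleDiv E m g) : A2.DivisibleDiv E m (f * g) := by
  intro V hV hE
  obtain ⟨h₁, u₁, hh₁, hu₁, hu₁', e₁⟩ := hf V hV hE
  obtain ⟨h₂, u₂, hh₂, hu₂, hu₂', e₂⟩ := hg V hV hE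
  refine ⟨h₁ * h₂, u₁ * u₂, mul_ne_zero hh₁ hh₂, V.mul_mem _ _ hu₁ hu₂, ?_, ?_⟩
  · rw [mul_inv]
    exact V.mul_mem _ _ hu₁' hu₂'
  · rw [e₁, e₂, mul_pow]
    ring

/-- **The E-form level wall** from R-SURJ1-E (shape `(0, *)`) and the toric wall. -/
theorem levelWall_of (w : R) (hw : Irreducible w) (q : ℕ) (hq : q.Prime)
    (hqR : (q : R) ∈ IsLocalRing.maximalIdeal R)
    (α β : F' →ₐ[E] F) (x : F) (x' : F')
    (V₁ V₂ V₃ : ValuationSubring F) (V₁' V₂' : ValuationSubring F')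
    (T : TripleCtx w q α β x x' V₁ V₂ V₃ V₁' V₂') (m : ℕ) (hm : 0 < m) (hqm : ¬ q ∣ m)
    (hR : RSurj1E R E m V₁' V₂') (hT : ToricWallE E m α β V₁ V₂ V₃) :
    LevelWallE R E w m α β V₁ V₃ := by
  intro f hf hdf hNα hNβ hslope
  obtain ⟨s, G, u, k₁, k₂, hG, hfu, hu₁, hu₃, hu₂, -, -, -, -, -, -, -, -⟩ :=
    wNew w hw q hq hqR α β x x' V₁ V₂ V₃ V₁' V₂' T m hm hqm f hf hNα hNβ hslope
  have hw0 : algebraMap R F w ≠ 0 := T.unif₁.1
  have hdu : A2.DivisibleDiv E m u := divisibleDiv_of_eq_987 (E := E) w hG hw0 hfu hdf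
  obtain ⟨b, c, hb, hc, hub, hcb⟩ :=
    redPair w hw q hq hqR α β x x' V₁ V₂ V₃ V₁' V₂' T u hu₂
  obtain ⟨q', j, hqq⟩ := exists_inv_mod_987 hq.pos hm ((Nat.Prime.coprime_iff_not_dvd hq).2 hqm)
  obtain ⟨hCb, hCc⟩ := condW_pair w hw q hq hqR α β x x' V₁ V₂ V₃ V₁' V₂' T hm u hdu hu₁ hu₂
    hu₃ b c hb hub hcb q'
  have hcq : V₂'.valuation (c ^ q') = 1 := by rw [map_pow, hc, one_pow]
  obtain ⟨g₁, g₁', G₁, u', hG₁, hdg₁, hdg₁', hdu', huu', h1, h2, h3⟩ :=
    redSub_of_surj w hw q hq hqR α β x x' V₁ V₂ V₃ V₁' V₂' T m u hdu hu₁ hu₃ b c hb hub hcb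
      q' j hqq (hR b hb hCb) (hR (c ^ q') hcq hCc)
  obtain ⟨g₂, g₂', h, hdg₂, hdg₂', hu'⟩ := hT u' hdu' h1 h2 h3
  have hu'0 : u' ≠ 0 := (pu_iff.2 h1 : PU V₁ u').ne_zero
  have hg₂ : g₂ ≠ 0 := by
    rintro rfl
    rw [map_zero, zero_mul, zero_mul] at hu'
    exact hu'0 hu'
  have hg₂' : g₂' ≠ 0 := by
    rintro rfl
    rw [map_zero, mul_zero, zero_mul] at hu'
    exact hu'0 hu'
  have hh : h ≠ 0 := by
    rintro rfl
    rw [zero_pow hm.ne', mul_zero] at hu'
    exact hu'0 hu'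
  have hu0 : u ≠ 0 := (pu_iff.2 hu₁ : PU V₁ u).ne_zero
  have hg₁0 : g₁ ≠ 0 := by
    rintro rfl
    rw [map_zero, zero_mul, zero_mul, zero_mul] at huu'
    exact hu0 huu'
  have hg₁'0 : g₁' ≠ 0 := by
    rintro rfl
    rw [map_zero, mul_zero, zero_mul, zero_mul] at huu'
    exact hu0 huu'
  refine ⟨s, g₁ * g₂, g₁' * g₂', G * G₁ * h, mul_ne_zero hg₁0 hg₂, mul_ne_zero hg₁'0 hg₂',
    mul_ne_zero (mul_ne_zero hG hG₁) hh, ?_, ?_, ?_⟩
  · exact divisibleDiv_mul_987 m hdg₁ hdg₂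
  · exact divisibleDiv_mul_987 m hdg₁' hdg₂'
  · rw [hfu, huu', hu', map_mul, map_mul, mul_pow, mul_pow]
    ring

end Main

end Fermat.Agent.S59.LoSqC.H987

end

end
-- ===== PACK-END S59/LoSqC/H987/LevelWall.lean

-- ===== PACK-BEGIN S59/LoSqC/H193/TwoCtxLeaf.lean
section









/-!
# S59 / cell (C) LO-SQ, leaf LAB (helper193), part 8: THE CONCRETE `TwoCtx` AT LEVEL `M q`

Objects of `S36.Mod3.Objs` at level `M q` (`q ∤ M`, neat): `R = R_E = P ∩ E` over an unramified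
good level `E`, `F' = F_E(M q)`, `x' = j j_q = A2.Mod.xE E M q`, `V₁' = V∞` (`A2.Mod.IsVinf`),
`V₂' = V₀ = V∞ ∘ W'` (`W'` the Fricke involution).

* `normalAlong_level_inf` : normality of the two components in the chart AT INFINITY
  (`Eng.NormalAlong (chart R {x'⁻¹})`; the finite chart is `S36.Mod3.H189.normalAlong_level`);
* `not_le_level`          : `V∞` and `V₀` are incomparable;
* **`twoCtx_level`**      : `TwoCtx E w q x' m ζ V∞ V₀` for every `m` prime to `q` and every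
  primitive `m`-th root of unity `ζ ∈ R`, UNCONDITIONAL (all inputs are on main:
  A2 S1/S2/S3 + good reduction at level `M`, `H27.sheets_low`, `H153.hnode_level_q`).

Hence the label calculus of `LabelMap.lean` / `LabelSurj.lean` applies verbatim to the concrete
level-`M q` objects of the wall.
-/

set_option autoImplicit false
set_option linter.style.haveILetI false
set_option linter.unusedSectionVars false
set_option linter.unusedVariables false
set_option synthInstance.maxHeartbeats 400000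
set_option maxHeartbeats 1600000

noncomputable section

namespace Fermat.Agent.S59.LoSqC.H193

open ModularCurve Polynomial
open Fermat.Agent.S18.H138 (chart baseField)
open Fermat.Agent

section Level

variable {P : ValuationSubring A2.Qb} {E : IntermediateField ℚ A2.Qb} {M q : ℕ}
  [NeZero M] [NeZero q] [NeZero (M * q)]

theorem xE_ne_zero193 (hq : q.Prime) (hqM : ¬ q ∣ M) : A2.Mod.xE E M q ≠ 0 := by
  intro h0
  have htr := S36.Mod3.H189.transcendental_xE (E := E) hq hqM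
  rw [h0] at htr
  exact htr (isAlgebraic_zero)

/-- **Normality of the two components of level `M q` in the chart at infinity.** -/
theorem normalAlong_level_inf {w : A2.RE P E} (hS : S36.Mod3.Std P E M q w)
    {V : ValuationSubring (A2.Mod.FE E (M * q))} (hV : A2.Mod.IsVinf P E (M * q) V)
    {W : A2.Mod.FE E (M * q) ≃ₐ[E] A2.Mod.FE E (M * q)} (hW : A2.Mod.IsFricke E (M * q) W) :
    S36.Eng.NormalAlong
        (chart (A2.RE P E) ({(A2.Mod.xE E M q)⁻¹} : Set (A2.Mod.FE E (M * q)))) V ∧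
      S36.Eng.NormalAlong
        (chart (A2.RE P E) ({(A2.Mod.xE E M q)⁻¹} : Set (A2.Mod.FE E (M * q))))
        (V.comap (W : A2.Mod.FE E (M * q) →+* A2.Mod.FE E (M * q))) := by
  have hSet := S36.Mod3.H189.setting_of_std hS
  haveI : IsDiscreteValuationRing (A2.RE P E) := hS.unram.1.dvr
  have hAux := hS.neat.hasAux
  obtain ⟨VM, hVM⟩ := A2.Mod.H553.vinfExists P E M hSet.M_ne_zero hSet.dvr
  obtain ⟨-, hg₂⟩ := A2.Mod.H216.goodRedHyp_of_dvr P E M hSet.q_prime hSet.q_not_dvd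
    hAux.1 hAux.2 hSet.lies_over hSet.dvr w VM hSet.unif hVM
  obtain ⟨ci, hci⟩ := S35.G.H862.exists_chart_cutBy hSet (S35.G.H862.s1 P E M q w)
    (A2.Mod.H142.s2 P E M q w) (S35.G.H862.s3 P E M q w) VM V W hVM hV hW _ _
    (Or.inr ⟨rfl, rfl⟩) hg₂
  have hu : A2.H48.IsUnif V (A2.Mod.cE P E (M * q) w) :=
    (A2.Mod.H553.vinfBasic P E w (M * q) (NeZero.ne _) hSet.dvr hSet.unif V hV).1
  have hu' := A2.Mod.H13.isUnif_comap hu W
  have htr : Transcendental E (A2.Mod.xE E M q) :=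
    S36.Mod3.H189.transcendental_xE hS.q_prime hS.q_not_dvd
  have htri : Transcendental E (A2.Mod.xE E M q)⁻¹ := S24.FF.transcendental_inv htr
  have hx0 : A2.Mod.xE E M q ≠ 0 := xE_ne_zero193 hS.q_prime hS.q_not_dvd
  haveI : FiniteDimensional (IntermediateField.adjoin E
      ({(A2.Mod.xE E M q)⁻¹} : Set (A2.Mod.FE E (M * q)))) (A2.Mod.FE E (M * q)) :=
    S36.Mod3.H933.finiteDimensional_of_transcendental E (M * q) (NeZero.ne _) _ htri
  haveI : FiniteDimensional (baseField (A2.RE P E) (A2.Mod.xE E M q)⁻¹) (A2.Mod.FE E (M * q)) :=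
    A2.H643.finiteDimensional_baseField_of_adjoin (E := E) _
  have hinj : Function.Injective (algebraMap (A2.RE P E) (A2.Mod.FE E (M * q))) := by
    intro a b hab
    have h1 : algebraMap E (A2.Mod.FE E (M * q)) (a : E) =
        algebraMap E (A2.Mod.FE E (M * q)) (b : E) := hab
    exact Subtype.ext ((algebraMap E (A2.Mod.FE E (M * q))).injective h1)
  have hwp : Prime w := hS.unif.prime
  have htrR : Transcendental (A2.RE P E) (A2.Mod.xE E M q)⁻¹ :=
    A2.Mod.H13.transcendental_RE htri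
  have hs₁ : A2.H12.IsSheet w (A2.Mod.xE E M q)⁻¹ V :=
    (S36.H193.isSheet_inv_iff w hx0 V).2 (S36.Mod3.H189.isSheet_vinf hS hV)
  have hs₂ : A2.H12.IsSheet w (A2.Mod.xE E M q)⁻¹
      (V.comap (W : A2.Mod.FE E (M * q) →+* A2.Mod.FE E (M * q))) :=
    (S36.H193.isSheet_inv_iff w hx0 _).2 (S36.Mod3.H189.isSheet_vzero hS hV hW)
  have key : S36.Eng.NormalAlong (A2.Mod.chartAlg P E (M * q) (A2.Mod.xE E M q)⁻¹) V ∧
      S36.Eng.NormalAlong (A2.Mod.chartAlg P E (M * q) (A2.Mod.xE E M q)⁻¹)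
        (V.comap (W : A2.Mod.FE E (M * q) →+* A2.Mod.FE E (M * q))) := by
    constructor
    · refine @S36.Mod3.H189.normalAlong_of_closed _ _ _ _ _
        (A2.Mod.chartAlg P E (M * q) (A2.Mod.xE E M q)⁻¹)
        V ci.p₁ ci.prime₁ ci.normal₁ hci.le₁ (fun b => ?_) (fun y hy => ?_)
      · rw [hci.cut₁]
        exact A2.Mod.H13.inW_iff_mem_nonunits hu _
      · exact (S36.H193.sheet_mem_iff hinj hwp htrR hs₁ y).1 hy
    · refine @S36.Mod3.H189.normalAlong_of_closed _ _ _ _ _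
        (A2.Mod.chartAlg P E (M * q) (A2.Mod.xE E M q)⁻¹)
        _ ci.p₂ ci.prime₂ ci.normal₂ hci.le₂ (fun b => ?_) (fun y hy => ?_)
      · rw [hci.cut₂]
        exact A2.Mod.H13.inW_iff_mem_nonunits hu' _
      · exact (S36.H193.sheet_mem_iff hinj hwp htrR hs₂ y).1 hy
  exact key

/-- `V∞` and `V₀` of level `M q` are incomparable. -/
theorem not_le_level {w : A2.RE P E} (hS : S36.Mod3.Std P E M q w)
    {V : ValuationSubring (A2.Mod.FE E (M * q))} (hV : A2.Mod.IsVinf P E (M * q) V)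
    {W : A2.Mod.FE E (M * q) ≃ₐ[E] A2.Mod.FE E (M * q)} (hW : A2.Mod.IsFricke E (M * q) W) :
    ¬ V ≤ V.comap (W : A2.Mod.FE E (M * q) →+* A2.Mod.FE E (M * q)) ∧
      ¬ V.comap (W : A2.Mod.FE E (M * q) →+* A2.Mod.FE E (M * q)) ≤ V := by
  have hSet := S36.Mod3.H189.setting_of_std hS
  haveI : IsDiscreteValuationRing (A2.RE P E) := hS.unram.1.dvr
  have hu : A2.H48.IsUnif V (A2.Mod.cE P E (M * q) w) :=
    (A2.Mod.H553.vinfBasic P E w (M * q) (NeZero.ne _) hSet.dvr hSet.unif V hV).1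
  have hu' := A2.Mod.H13.isUnif_comap hu W
  have hne : V.comap (W : A2.Mod.FE E (M * q) →+* A2.Mod.FE E (M * q)) ≠ V :=
    A2.Mod.H553.vzeroNe P E M q w hSet V W hV hW
  exact ⟨A2.H48.not_le_of_ne hu hu' (Ne.symm hne), A2.H48.not_le_of_ne hu' hu hne⟩

/-- **The concrete two-sheet context at level `M q`.** -/
theorem twoCtx_level [hH : HenselianLocalRing (A2.RE P E)] {w : A2.RE P E}
    (hS : S36.Mod3.Std P E M q w)
    {V : ValuationSubring (A2.Mod.FE E (M * q))} (hV : A2.Mod.IsVinf P E (M * q) V)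
    {W : A2.Mod.FE E (M * q) ≃ₐ[E] A2.Mod.FE E (M * q)} (hW : A2.Mod.IsFricke E (M * q) W)
    {m : ℕ} (hm : 0 < m) (hqm : ¬ q ∣ m) {ζ : A2.RE P E} (hζ : IsPrimitiveRoot ζ m) :
    TwoCtx (R := A2.RE P E) E w q (A2.Mod.xE E M q) m ζ V
      (V.comap (W : A2.Mod.FE E (M * q) →+* A2.Mod.FE E (M * q))) := by
  have hSet := S36.Mod3.H189.setting_of_std hS
  haveI : IsDiscreteValuationRing (A2.RE P E) := hS.unram.1.dvr
  have hu : A2.H48.IsUnif V (A2.Mod.cE P E (M * q) w) :=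
    (A2.Mod.H553.vinfBasic P E w (M * q) (NeZero.ne _) hSet.dvr hSet.unif V hV).1
  have htr : Transcendental E (A2.Mod.xE E M q) :=
    S36.Mod3.H189.transcendental_xE hS.q_prime hS.q_not_dvd
  have hs₁ := S36.Mod3.H189.isSheet_vinf hS hV
  have hs₂ := S36.Mod3.H189.isSheet_vzero hS hV hW
  have hX : ∃ i, ¬ w ∣ (X : Polynomial (A2.RE P E)).coeff i :=
    ⟨1, by
      rw [coeff_X_one]
      exact fun h => hS.unif.not_isUnit (isUnit_of_dvd_one h)⟩
  have hnf := S36.Mod3.H189.normalAlong_level hS hV hW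
  have hni := normalAlong_level_inf hS hV hW
  exact
    { hw := hS.unif
      hq := hS.q_prime
      hqR := S36.Eng.natCast_mem_maximalIdeal_RE E hS.lies_over
      hx := htr
      hfin := S36.Mod3.H933.finiteDimensional_of_transcendental E (M * q) (NeZero.ne _) _ htr
      hm := hm
      hqm := hqm
      hζ := hζ
      hne := fun h => A2.Mod.H553.vzeroNe P E M q w hSet V W hV hW h.symm
      hsheets := S36.Mod3.H27.sheets_low hSet hV hW
      hR₁ := hs₁.1
      hR₂ := hs₂.1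
      hx₁ := ⟨hs₁.2.1, by
        have := hs₁.2.2.2 X hX
        rwa [aeval_X] at this⟩
      hx₂ := ⟨hs₂.2.1, by
        have := hs₂.2.2.2 X hX
        rwa [aeval_X] at this⟩
      hwV₁ := hs₁.2.2.1
      hunif := by
        intro a ha
        rcases (ValuationSubring.mem_nonunits_iff_or (A := V)).1 ha with h0 | hinv
        · rw [h0, zero_mul]
          exact V.zero_mem
        · exact hu.gen a (V.nonunits_subset ha) hinv
      hdisc := by
        intro g
        obtain ⟨k, hk⟩ := S36.H972.arch_vinf hS.unif hV g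
        refine ⟨k, ?_⟩
        have e : g * algebraMap (A2.RE P E) (A2.Mod.FE E (M * q)) w ^ k =
            A2.Mod.cE P E (M * q) w ^ k * g := mul_comm _ _
        rw [e]
        exact hk
      hnf₁ := S36.H630.normalAlong_of_monic hnf.1 hm
      hnf₂ := S36.H630.normalAlong_of_monic hnf.2 hm
      hni₁ := S36.H630.normalAlong_of_monic hni.1 hm
      hni₂ := S36.H630.normalAlong_of_monic hni.2 hm
      hcusp := by
        intro 𝔫 hmax hw𝔫 hx𝔫 hpass
        exact S36.H153.hnode_level_q w hSet V W hV hW 𝔫 hmax.isPrime hpass.1 hpass.2 _ rfl hx𝔫 }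

end Level

end Fermat.Agent.S59.LoSqC.H193

end

end
-- ===== PACK-END S59/LoSqC/H193/TwoCtxLeaf.lean

-- ===== PACK-BEGIN S59/LoSqC/H456/R3Std.lean
section




/-!
# S59 moonshot, cell (C) LO-SQ: the standing hypotheses `R3Hyp` + `Unram` of the level-`M q` leaves
are PRODUCED from the standard binder `Mod3.Std` (helper456, OFF-MAIN)

The R3-vocabulary leaves at level `M q` (GUB4 / ORD12 `H807`, DEG0 `H803`, TH1, NODE-REL chart
form) are stated under `H803.R3Hyp P E M q w` (and `H803.Unram P E q w`); no producer of `R3Hyp`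
existed.  Here, from main only:

* `r3Hyp_of_setting` : `Setting` + `GoodField` + `HasAux M q` ⟹ `R3Hyp`
  (`S35.G.H862.s1/s3`, `H142.s2`, `H31.deg`, `H553.vinfExists`, `H216.goodRedHyp_of_dvr`);
* `r3Hyp_of_std`, `unram_of_std` : from `Mod3.Std P E M q w` (the binder of every MOD3 leaf);
* `four_dvd_of_std` : `q ≠ 2 → 4 ∣ M`;
* `th1_of_std` : ORD12 ⟹ both components of the level `M q` are locally principal at every node,
  in the `Mod3.Std` binder (`5 ≤ q`).
-/

set_option autoImplicit false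
set_option linter.unusedSectionVars false
set_option linter.unusedVariables false
set_option linter.style.haveILetI false
set_option synthInstance.maxHeartbeats 400000
set_option maxHeartbeats 1600000

noncomputable section

namespace Fermat.Agent.S59.LoSqC.H456

open ModularCurve Fermat.Agent.A2.Mod Fermat.Agent.S36.H803 Fermat.Agent.S59.H807
open Fermat.Agent.S36 Fermat.Agent.S36.Mod3

variable (P : ValuationSubring Qb) (E : IntermediateField ℚ Qb) (M q : ℕ) [NeZero M] [NeZero q]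
  (w : RE P E)

/-- **`R3Hyp` from the setting**: all A2-MOD outputs at level `M q` are theorems on main. -/
theorem r3Hyp_of_setting (hS : Setting P E M q w) (hG : Fermat.Agent.A2.GoodField P E)
    (hAux : Fermat.Agent.S35.G.HasAux M q) : R3Hyp P E M q w :=
  { setting := hS
    good := hG
    deg := H31.deg E M q
    s1 := Fermat.Agent.S35.G.H862.s1 P E M q w
    s2 := H142.s2 P E M q w
    s3 := Fermat.Agent.S35.G.H862.s3 P E M q w
    vinfM := H553.vinfExists P E M hS.M_ne_zero hS.dvr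
    goodRed := H216.goodRedHyp_of_dvr P E M hS.q_prime hS.q_not_dvd hAux.1 hAux.2
      hS.lies_over hS.dvr }

variable [NeZero (M * q)]

/-- The setting of a standard binder. -/
theorem setting_of_std (hStd : Std P E M q w) : Setting P E M q w :=
  ⟨hStd.q_prime, hStd.q_not_dvd, NeZero.ne M, hStd.lies_over, hStd.unram.1.dvr, hStd.unif⟩

/-- **`R3Hyp` from `Mod3.Std`.** -/
theorem r3Hyp_of_std (hStd : Std P E M q w) : R3Hyp P E M q w :=
  r3Hyp_of_setting P E M q w (setting_of_std P E M q w hStd) hStd.unram.1 hStd.neat.hasAux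

/-- **`H803.Unram` from `Mod3.Std`**: `q = ε w` with `ε` a unit of `R_E`. -/
theorem unram_of_std (hStd : Std P E M q w) : Unram P E q w := by
  have hS := setting_of_std P E M q w hStd
  obtain ⟨u, hu⟩ := Fermat.Agent.S36.Mod3.H370.unram_of_std370 (Fermat.Agent.S36.H370.SettingQ.of_setting hS) hStd.unram
  refine ⟨(u : RE P E), u.isUnit, ?_⟩
  apply Subtype.ext
  have h1 : (((q : ℕ) : RE P E) : E) = ((q : ℕ) : E) := by
    simp
  rw [h1, hu]
  push_cast
  ring

/-- `q` odd ⟹ `4 ∣ M` at a neat level. -/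
theorem four_dvd_of_std (hStd : Std P E M q w) (hq2 : q ≠ 2) : 4 ∣ M := hStd.neat.2.1 hq2

/-- **TH1 in the standard binder**: ORD12 ⟹ at a neat level `M q`, `5 ≤ q`, over an unramified
good level, both components are locally principal at every node of the finite chart. -/
theorem th1_of_std (hORD : Ord12Statement P E M q w) (hStd : Std P E M q w) (h5 : 5 ≤ q)
    (p₁ p₂ : Ideal (Bfin P E M q)) (hcomp : IsComponents P E M q w p₁ p₂)
    (n : Ideal (Bfin P E M q)) (hn : IsNode P E M q p₁ p₂ n) :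
    (∃ x₁ ∈ p₁, ∀ a ∈ p₁, ∃ g : Bfin P E M q, g ∉ n ∧ ∃ b, g * a = x₁ * b) ∧
    (∃ x₂ ∈ p₂, ∀ a ∈ p₂, ∃ g : Bfin P E M q, g ∉ n ∧ ∃ b, g * a = x₂ * b) :=
  th1At4_of_ord12 P E M q w hORD (r3Hyp_of_std P E M q w hStd) (unram_of_std P E M q w hStd)
    (four_dvd_of_std P E M q w hStd (by omega)) h5 p₁ p₂ hcomp n hn

/-! ## The `Eng` vocabulary (`Through`, `PrincipalAt`) at level `M q` -/

open Fermat.Agent.S36.Eng in
/-- The components cut out by `V∞` and `V₀ = V∞ ∘ W` exist, and `p = B ∩ 𝔪_V` for both. -/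
theorem exists_components_of_std (hStd : Std P E M q w)
    (V : ValuationSubring (FE E (M * q))) (W : FE E (M * q) ≃ₐ[E] FE E (M * q))
    (hV : IsVinf P E (M * q) V) (hW : IsFricke E (M * q) W) :
    ∃ p₁ p₂ : Ideal (Bfin P E M q), IsComponents P E M q w p₁ p₂ ∧
      (∀ b : Bfin P E M q, b ∈ p₁ ↔ (b : FE E (M * q)) ∈ V.nonunits) ∧
      (∀ b : Bfin P E M q, b ∈ p₂ ↔
        (b : FE E (M * q)) ∈ (V.comap (W : FE E (M * q) →+* FE E (M * q))).nonunits) := by
  have hS := setting_of_std P E M q w hStd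
  haveI := hS.dvr
  obtain ⟨p₁, p₂, hc₁, hc₂, -⟩ :=
    Fermat.Agent.S35.G.H862.s1 P E M q w hS V W hV hW (xE E M q) (Or.inl rfl)
  have hu : Fermat.Agent.A2.H48.IsUnif V (cE P E (M * q) w) :=
    (H553.vinfBasic P E w (M * q) (NeZero.ne _) hS.dvr hS.unif V hV).1
  have hu₂ := H13.isUnif_comap hu W
  refine ⟨p₁, p₂, ⟨V, W, hV, hW, hc₁, hc₂⟩, fun b => ?_, fun b => ?_⟩
  · rw [hc₁ b, H13.inW_iff_mem_nonunits hu]
  · rw [hc₂ b, H13.inW_iff_mem_nonunits hu₂]

open Fermat.Agent.S36.Eng in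
/-- **Regularity of the level `M q` at the nodes, `Eng` vocabulary**: ORD12 ⟹ at a neat level,
`5 ≤ q`, at every closed point `𝔪` of the finite chart through which BOTH components pass, both
components are locally principal (`Eng.PrincipalAt`): the level-`M q` analogue of
`TripleCtx.regular_f`. -/
theorem principalAt_of_std (hORD : Ord12Statement P E M q w) (hStd : Std P E M q w) (h5 : 5 ≤ q)
    (V : ValuationSubring (FE E (M * q))) (W : FE E (M * q) ≃ₐ[E] FE E (M * q))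
    (hV : IsVinf P E (M * q) V) (hW : IsFricke E (M * q) W)
    (𝔪 : Ideal (Bfin P E M q)) (h𝔪 : 𝔪.IsMaximal)
    (h₁ : Through (Bfin P E M q) 𝔪 V)
    (h₂ : Through (Bfin P E M q) 𝔪 (V.comap (W : FE E (M * q) →+* FE E (M * q)))) :
    PrincipalAt (Bfin P E M q) 𝔪 V ∧
      PrincipalAt (Bfin P E M q) 𝔪 (V.comap (W : FE E (M * q) →+* FE E (M * q))) := by
  obtain ⟨p₁, p₂, hcomp, hp₁, hp₂⟩ := exists_components_of_std P E M q w hStd V W hV hW
  have hn : IsNode P E M q p₁ p₂ 𝔪 :=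
    ⟨h𝔪, fun b hb => h₁ b ((hp₁ b).1 hb), fun b hb => h₂ b ((hp₂ b).1 hb)⟩
  obtain ⟨⟨x₁, hx₁, hg₁⟩, ⟨x₂, hx₂, hg₂⟩⟩ := th1_of_std P E M q w hORD hStd h5 p₁ p₂ hcomp 𝔪 hn
  refine ⟨⟨x₁, (hp₁ x₁).1 hx₁, fun a ha => ?_⟩, ⟨x₂, (hp₂ x₂).1 hx₂, fun a ha => ?_⟩⟩
  · obtain ⟨g, hg, b, hb⟩ := hg₁ a ((hp₁ a).2 ha)
    exact ⟨g, b, hg, hb⟩
  · obtain ⟨g, hg, b, hb⟩ := hg₂ a ((hp₂ a).2 ha)
    exact ⟨g, b, hg, hb⟩

open Fermat.Agent.S36.Eng Fermat.Agent.S18.H138 in
/-- The same on `S18.H138.chart R {x'}` (the chart `Bf'` of `Eng.TripleCtx`, `x' = xE`). -/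
theorem principalAt_chart_of_std (hORD : Ord12Statement P E M q w) (hStd : Std P E M q w)
    (h5 : 5 ≤ q)
    (V : ValuationSubring (FE E (M * q))) (W : FE E (M * q) ≃ₐ[E] FE E (M * q))
    (hV : IsVinf P E (M * q) V) (hW : IsFricke E (M * q) W)
    (𝔪 : Ideal (_root_.Fermat.Agent.S18.H138.chart (RE P E) ({xE E M q} : Set (FE E (M * q))))) (h𝔪 : 𝔪.IsMaximal)
    (h₁ : Through (_root_.Fermat.Agent.S18.H138.chart (RE P E) ({xE E M q} : Set (FE E (M * q)))) 𝔪 V)
    (h₂ : Through (_root_.Fermat.Agent.S18.H138.chart (RE P E) ({xE E M q} : Set (FE E (M * q)))) 𝔪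
      (V.comap (W : FE E (M * q) →+* FE E (M * q)))) :
    PrincipalAt (_root_.Fermat.Agent.S18.H138.chart (RE P E) ({xE E M q} : Set (FE E (M * q)))) 𝔪 V ∧
      PrincipalAt (_root_.Fermat.Agent.S18.H138.chart (RE P E) ({xE E M q} : Set (FE E (M * q)))) 𝔪
        (V.comap (W : FE E (M * q) →+* FE E (M * q))) :=
  principalAt_of_std P E M q w hORD hStd h5 V W hV hW 𝔪 h𝔪 h₁ h₂

end Fermat.Agent.S59.LoSqC.H456

end

end
-- ===== PACK-END S59/LoSqC/H456/R3Std.lean

-- ===== PACK-BEGIN S59/LoSqC/H456/Th1Closed.lean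
section



/-!
# S59 moonshot, cell (C) LO-SQ: TH1 at level `M q`, UNCONDITIONAL (helper456, OFF-MAIN)

ORD12 is closed by helper550 (`H550.ord12_h550 : H807.Ord12Statement`); plugged into
`Th1Ord12.lean` / `R3Std.lean`:

* `th1At4`            : `Th1At4Statement P E M q w`
                        (`R3Hyp → Unram → 4 ∣ M → 5 ≤ q →` conclusion of `H803.Th1Statement`);
* `th1_std`           : the same in the binder `Mod3.Std` (neat level, `5 ≤ q`);
* `principalAt_std`   : `Eng.PrincipalAt` of both components at every node of `Bfin`;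
* `principalAt_chart_std` : the same on `S18.H138.chart R {xE}` (the chart `Bf'` of `TripleCtx`);
* `ordAt_eq_twelve`   : `ord_n(D | C₀) = 12` at every node;
* `twelve_mul_card_nodes` : DEG0 ⟹ `12 · #nodes = (q - 1) ψ(M)`.
-/

set_option autoImplicit false
set_option linter.unusedSectionVars false
set_option linter.unusedVariables false
set_option linter.style.haveILetI false
set_option synthInstance.maxHeartbeats 400000
set_option maxHeartbeats 1600000

noncomputable section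

namespace Fermat.Agent.S59.LoSqC.H456

open ModularCurve Fermat.Agent.A2.Mod Fermat.Agent.S36.H803 Fermat.Agent.S59.H807
open Fermat.Agent.S36 Fermat.Agent.S36.Mod3

variable (P : ValuationSubring Qb) (E : IntermediateField ℚ Qb) (M q : ℕ) [NeZero M] [NeZero q]
  (w : RE P E)

/-- **TH1 at `4 ∣ M`, `5 ≤ q`**, unconditional. -/
theorem th1At4 : Th1At4Statement P E M q w :=
  th1At4_of_ord12 P E M q w (Fermat.Agent.S59.LoSqC.H550.ord12_h550 P E M q w)

/-- `ord_n(D | C₀) = 12` at every node, unconditional. -/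
theorem ordAt_eq_twelve (hyp : R3Hyp P E M q w) (hunr : Unram P E q w) (h4 : 4 ∣ M) (h5 : 5 ≤ q)
    (D : Bfin P E M q) (hD : IsD E M q (D : FE E (M * q)))
    (p₁ p₂ : Ideal (Bfin P E M q)) (hcomp : IsComponents P E M q w p₁ p₂)
    (n : Ideal (Bfin P E M q)) (hn : IsNode P E M q p₁ p₂ n) :
    ordAt p₂ n D = ((12 : ℕ) : ℕ∞) :=
  ordAt_eq_twelve_of_ord12 P E M q w (Fermat.Agent.S59.LoSqC.H550.ord12_h550 P E M q w)
    hyp hunr h4 h5 D hD p₁ p₂ hcomp n hn

/-- DEG0 ⟹ exact node count `12 · #nodes = (q - 1) ψ(M)`. -/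
theorem twelve_mul_card_nodes (hDEG : Deg0Statement P E M q w)
    (hyp : R3Hyp P E M q w) (hunr : Unram P E q w) (h4 : 4 ∣ M) (h5 : 5 ≤ q)
    (p₁ p₂ : Ideal (Bfin P E M q)) (hcomp : IsComponents P E M q w p₁ p₂) :
    ∃ s : Finset (Ideal (Bfin P E M q)), (∀ n, n ∈ s ↔ IsNode P E M q p₁ p₂ n) ∧
      12 * s.card = (q - 1) * dedekindPsi M :=
  twelve_mul_card_nodes_of_ord12 P E M q w hDEG
    (Fermat.Agent.S59.LoSqC.H550.ord12_h550 P E M q w) hyp hunr h4 h5 p₁ p₂ hcomp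

variable [NeZero (M * q)]

/-- **TH1 in the standard binder**, unconditional. -/
theorem th1_std (hStd : Std P E M q w) (h5 : 5 ≤ q)
    (p₁ p₂ : Ideal (Bfin P E M q)) (hcomp : IsComponents P E M q w p₁ p₂)
    (n : Ideal (Bfin P E M q)) (hn : IsNode P E M q p₁ p₂ n) :
    (∃ x₁ ∈ p₁, ∀ a ∈ p₁, ∃ g : Bfin P E M q, g ∉ n ∧ ∃ b, g * a = x₁ * b) ∧
    (∃ x₂ ∈ p₂, ∀ a ∈ p₂, ∃ g : Bfin P E M q, g ∉ n ∧ ∃ b, g * a = x₂ * b) :=
  th1_of_std P E M q w (Fermat.Agent.S59.LoSqC.H550.ord12_h550 P E M q w) hStd h5 p₁ p₂ hcomp n hn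

open Fermat.Agent.S36.Eng in
/-- **Regularity at the nodes of the level `M q`**, `Eng` vocabulary, unconditional. -/
theorem principalAt_std (hStd : Std P E M q w) (h5 : 5 ≤ q)
    (V : ValuationSubring (FE E (M * q))) (W : FE E (M * q) ≃ₐ[E] FE E (M * q))
    (hV : IsVinf P E (M * q) V) (hW : IsFricke E (M * q) W)
    (𝔪 : Ideal (Bfin P E M q)) (h𝔪 : 𝔪.IsMaximal)
    (h₁ : Through (Bfin P E M q) 𝔪 V)
    (h₂ : Through (Bfin P E M q) 𝔪 (V.comap (W : FE E (M * q) →+* FE E (M * q)))) :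
    PrincipalAt (Bfin P E M q) 𝔪 V ∧
      PrincipalAt (Bfin P E M q) 𝔪 (V.comap (W : FE E (M * q) →+* FE E (M * q))) :=
  principalAt_of_std P E M q w (Fermat.Agent.S59.LoSqC.H550.ord12_h550 P E M q w) hStd h5
    V W hV hW 𝔪 h𝔪 h₁ h₂

open Fermat.Agent.S36.Eng Fermat.Agent.S18.H138 in
/-- The same on `S18.H138.chart R {x'}`, `x' = xE` (the chart `Bf'` of `Eng.TripleCtx`). -/
theorem principalAt_chart_std (hStd : Std P E M q w) (h5 : 5 ≤ q)
    (V : ValuationSubring (FE E (M * q))) (W : FE E (M * q) ≃ₐ[E] FE E (M * q))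
    (hV : IsVinf P E (M * q) V) (hW : IsFricke E (M * q) W)
    (𝔪 : Ideal (_root_.Fermat.Agent.S18.H138.chart (RE P E) ({xE E M q} : Set (FE E (M * q))))) (h𝔪 : 𝔪.IsMaximal)
    (h₁ : Through (_root_.Fermat.Agent.S18.H138.chart (RE P E) ({xE E M q} : Set (FE E (M * q)))) 𝔪 V)
    (h₂ : Through (_root_.Fermat.Agent.S18.H138.chart (RE P E) ({xE E M q} : Set (FE E (M * q)))) 𝔪
      (V.comap (W : FE E (M * q) →+* FE E (M * q)))) :
    PrincipalAt (_root_.Fermat.Agent.S18.H138.chart (RE P E) ({xE E M q} : Set (FE E (M * q)))) 𝔪 V ∧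
      PrincipalAt (_root_.Fermat.Agent.S18.H138.chart (RE P E) ({xE E M q} : Set (FE E (M * q)))) 𝔪
        (V.comap (W : FE E (M * q) →+* FE E (M * q))) :=
  principalAt_chart_of_std P E M q w (Fermat.Agent.S59.LoSqC.H550.ord12_h550 P E M q w) hStd h5
    V W hV hW 𝔪 h𝔪 h₁ h₂

end Fermat.Agent.S59.LoSqC.H456

end

end
-- ===== PACK-END S59/LoSqC/H456/Th1Closed.lean

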