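import Fermat.Agent.Pack.S59C.E11L2
import Fermat.Agent.Pack.S59C.E11L0
import Fermat.Agent.Pack.S43MC.G0E22L0
import Fermat.Agent.Pack.S43MC.G0E27L3
import Fermat.Agent.Pack.S59C.E6L1
import Fermat.Agent.Pack.S43MC.G0E26L0
import Fermat.Agent.Pack.S43MC.G0E27L2
import Fermat.Agent.Pack.S43MC.G0E20L0
import Fermat.Agent.Pack.S59C.E9L0
import Fermat.Agent.Pack.S59C.E10L3
import Fermat.Agent.Pack.S44C.G0E29L1
import Fermat.Agent.Pack.S59C.E5L1
import Fermat.Agent.Pack.S43MC.G0E26L1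
import Fermat.Agent.Pack.S43C.E2L1
import Fermat.Agent.Pack.S59C.E7L0
import Fermat.Agent.Pack.S59C.E6L2
import Fermat.Agent.Pack.S43C.E3L0
import Fermat.Agent.Pack.S43C.E0L2
import Fermat.Agent.Pack.S43C.E2L3
import Fermat.Agent.Pack.S43C.E0L1
import Fermat.Agent.Pack.S43MC.G0E20L1
import Fermat.Agent.Pack.S43GC.G0E4L1
import Fermat.Agent.Pack.S43C.E2L0
import Fermat.Agent.Pack.S59C.E9L2
import Fermat.Agent.Pack.S59C.E11L1

set_option linter.all false

-- ===== PACK-BEGIN S59/NMP/GlueP.lean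
section



/-!
# Row S59, cell NMP — the glue, `Plus` form (helper583)

* `nonMinPPlusH_of : S53 → S54 → SigmaCond → DATUM → SEL → ETA-P → Arch.NonMinPPlusHStatement`
  (the architect's target, board v5).
-/

set_option autoImplicit false

open Polynomial IsLocalRing

namespace Fermat.Agent.S59.NMP

open CuspForm Fermat.Agent.S59.Arch Fermat.Agent.S59.H765 Fermat.Agent.S53.H113
open Fermat.Agent.S53

/-- **GLUE of the cell NMP, `Plus` form**: the architect's target `Arch.NonMinPPlusHStatement`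
from the leaves DATUM, SEL, ETA-P. -/
theorem nonMinPPlusH_of (h53 : S53Statement) (h54 : S54Statement) (hCOND : SigmaCondStatement)
    (hDAT : OrdDatumStatement) (hSEL : SelStatement) (hETA : EtaPStatement) :
    NonMinPPlusHStatement := by
  intro p _ 𝒪 _ _ _ _ _ _ ρbar Smin hRH hc hNmin χ hχ Sig hSig hSigP hflat hord hRT
  classical
  have hpSig : p ∈ Sig := hSig hRH.hpSmin
  obtain ⟨hN, hint, θ, i1, i2, i3, i4, i5, i6, H, hHπ, hHres, hHcond, π, hπa, hη, hiso⟩ := hRT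
  obtain ⟨hN', hint', j1, j2, j3, j4, j5, j6, H', hH'π, hH'res, hH'cond, hresloc, hcompat⟩ :=
    hDAT p 𝒪 ρbar Smin hRH Sig hSig hSigP hpSig hord θ H hHπ hHres hHcond
  refine ⟨hN', hint', θ.comp (oldRestrict (levelPair_flat_ord p hSig hSigP hpSig)),
    j1, j2, j3, j4, j5, j6, H', hH'π, hH'res, hH'cond, ?_⟩
  intro D' φ' hφ'
  -- the flat deformation ring and `φ : R ≃ T`
  have hcfl := hCOND p hRH.hp2 𝒪 hRH.hp𝒪 .flat Smin Sig
  obtain ⟨D⟩ := h53 𝒪 ρbar _ hRH.habs hcfl.1 (sigmaCond_flat_residual hRH hSig hflat)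
    (hcfl.2 ρbar)
  have hNS : ∀ q : ℕ, q.Prime → q ∣ wilesLevel p .flat Smin Sig → q ∈ (↑Sig : Set ℕ) :=
    fun q hq hd => Finset.mem_coe.mpr (prime_dvd_wilesLevel p .flat hSig hSigP hpSig hq hd)
  obtain ⟨φ, -, hφ, hφe⟩ := h54 D H hNS hHcond hHres
  obtain ⟨hbij, hfin, hnum⟩ := hiso D φ ⟨hφ, hφe⟩
  obtain ⟨h1, h2, h3⟩ := step_core p 𝒪 ρbar Smin hRH Sig hSig hSigP hpSig hord θ H hHres hHcond
    H' hH'res hH'cond hresloc hcompat h54 hSEL D φ hφ hφe hbij π hfin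
    (fun hπloc α hα => by
      obtain ⟨hα1, hle⟩ := hETA p 𝒪 ρbar Smin hRH hc hNmin χ hχ Sig hSig hSigP hpSig hflat hord
        θ H hHπ hHres hHcond π hπloc hπa hη α hα
      refine ⟨hα1, ?_⟩
      rw [hnum]
      exact hle)
    D' φ' hφ'
  exact ⟨h1, _, h2, h3⟩

end Fermat.Agent.S59.NMP

end
-- ===== PACK-END S59/NMP/GlueP.lean

-- ===== PACK-BEGIN S59/NMP/Top.lean
section



/-!
# Row S59, cell NMP — the cell from its leaves (helper583)

`nonMinPPlusH_of_leaves` : the architect's target `Arch.NonMinPPlusHStatement` (board v5) from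

* the inputs `S53Statement`, `S54Statement`, `SigmaCondStatement` (all on main);
* the Galois-side leaves DATUM (`OrdDatumStatement`), SEL (`SelStatement`);
* the Hecke-side leaves ETAB (`NM.EtaOfBoundStatement`, leaf of cell NM), BB
  (`BettiTargetStatement`), STEP-P (`BoundStepPStatement`), LGC (`LgcStatement`).
-/

set_option autoImplicit false

namespace Fermat.Agent.S59.NMP

open Fermat.Agent.S59.Arch

/-- **The cell NMP from its leaves.** -/
theorem nonMinPPlusH_of_leaves (h53 : S53Statement) (h54 : S54Statement)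
    (hCOND : SigmaCondStatement) (hDAT : OrdDatumStatement) (hSEL : SelStatement)
    (hETAB : NM.EtaOfBoundStatement) (hBB : BettiTargetStatement)
    (hSTEP : BoundStepPStatement) (hLGC : LgcStatement) : NonMinPPlusHStatement :=
  _root_.Fermat.Agent.S59.NMP.nonMinPPlusH_of h53 h54 hCOND hDAT hSEL (etaP_of_leaves hETAB hBB hSTEP hLGC)

end Fermat.Agent.S59.NMP

end
-- ===== PACK-END S59/NMP/Top.lean

-- ===== PACK-BEGIN S59/TW/Aut/H564/ModQ.lean
section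





/-!
# Row S59 / row 37, cell TW, layer 3 (AUT), leaf MODQ (helper564 + helper658)

`modQ : Aut.ModQStatement` (VERBATIM, `TW/Aut/Spec.lean`): the Hecke ring `T_Q` of the package
`P_Q` acts on the localisation `V ⊆ X_{K_Q}(𝒪)` through the twisted operators `⟨ℓ⟩^h T_ℓ`,
`h = (p^(∑ v_p(q_j - 1)) - 1) / 2`.

Assembly of
* PAR (`H564.isParabolic_of_pkg`): `V` consists of parabolic classes
  [RFD `H155` + non-Eisenstein prime `H424` + CUSP-LOC `H324`];
* MODQ-RING (`H658.exists_heckeAction_isQPart`): the ring homomorphism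
  `Ψ : heckeAlgebra N' 2 (Smin ∪ Q) →+* End_𝒪 V`, `T_ℓ ↦ ⟨ℓ⟩^h T_ℓ`
  [Eichler–Shimura for `K_Q` + nebentypus decomposition + twisting `H564.twistL`];
* GENNIL + LOCACT (`H564.exists_locAction`): `Ψ` extends to the localisation
  `heckeLocal N' (Smin ∪ Q) 𝒪 θ = P_Q.T`.
-/

set_option autoImplicit false
set_option linter.unusedSectionVars false
set_option linter.style.haveILetI false
set_option maxSynthPendingDepth 3

open Polynomial IsLocalRing CongruenceSubgroup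
open scoped MatrixGroups

namespace Fermat.Agent.S59.TW.Aut.H564

open Fermat.Agent.S59.Arch Fermat.Agent.S59.TW.H959 Fermat.Agent.S59.TW.H653
  Fermat.Agent.S59.TW.Aut

/-- **MODQ.** -/
theorem modQ : ModQStatement := by
  intro p _ 𝒪 _ _ _ _ _ _ ρbar Smin hRH t _ _ P₀ n r qv hq _ PQ res _ α _ V hV
  have hp : p.Prime := Fact.out
  obtain ⟨hqi, hq', -⟩ := hq
  have hq2 : ∀ i, (qv i).Prime ∧ qv i ∉ Smin := fun i => ⟨(hq' i).1, (hq' i).2.1⟩
  have hNS : ∀ q : ℕ, q.Prime →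
      q ∣ wilesLevel p t Smin (Smin ∪ Finset.univ.image qv) →
      q ∈ ((Smin ∪ Finset.univ.image qv : Finset ℕ) : Set ℕ) := fun q hqp hqd =>
    Fermat.Agent.S59.TW.H658.mem_of_dvd_wilesLevel_union p t Smin qv hRH.hpSmin hRH.hSmin hqi hq2
      hqp hqd
  haveI : NeZero (bLevel (wilesLevel p t Smin Smin) qv) :=
    ⟨Fermat.Agent.S59.TW.H658.bLevel_ne_zero p t Smin qv hRH.hSmin fun i => (hq2 i).1⟩
  have hMN : bLevel (wilesLevel p t Smin Smin) qv ∣
      wilesLevel p t Smin (Smin ∪ Finset.univ.image qv) :=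
    (Dvd.intro _ rfl).trans
      (Fermat.Agent.S59.TW.H658.bLevel_mul_prod_dvd p t Smin qv hqi fun i => (hq2 i).2)
  have hpSig : p ∈ Smin ∪ Finset.univ.image qv := Finset.mem_union_left _ hRH.hpSmin
  -- PAR
  have hpar : ∀ v ∈ V, ModularCurve.Period.IsParabolicHom
      (KQ p (wilesLevel p t Smin Smin) qv) v :=
    Fermat.Agent.S59.TW.H564.isParabolic_of_pkg hRH hpSig PQ
      (fun q hqp hqd => Finset.mem_coe.mp (hNS q hqp hqd))
      (isMid_KQ p (wilesLevel p t Smin Smin) qv) hMN hV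
  -- MODQ-RING
  have hh : IsHalf p qv (Fermat.Agent.S59.TW.H564.hhalf p qv) :=
    Fermat.Agent.S59.TW.H564.isHalf_hhalf qv hp hRH.hp2
  obtain ⟨Ψ, hΨ⟩ := Fermat.Agent.S59.TW.H658.exists_heckeAction_isQPart p t Smin qv hRH.hpSmin
    hRH.hSmin hqi hq2 PQ α hh V hV hpar
  -- GENNIL + LOCACT
  haveI : Fact (CuspForm.HasIntegralStructure
      (wilesLevel p t Smin (Smin ∪ Finset.univ.image qv)) 2) := PQ.integral
  obtain ⟨a, ha⟩ := Fermat.Agent.S59.TW.H564.exists_locAction (θ := PQ.θ)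
    (isMid_KQ p (wilesLevel p t Smin Smin) qv) hp hRH.hp2 hRH.hp𝒪 hMN hNS hV
    (fun ℓ hℓ hℓN hℓS c hc => ⟨hℓ, hℓN, hℓS, hc⟩)
    (fun ℓ => uOf (bLevel (wilesLevel p t Smin Smin) qv) ℓ ^
      Fermat.Agent.S59.TW.H564.hhalf p qv)
    (Fermat.Agent.S59.TW.H564.kexp p qv)
    (fun ℓ x => Fermat.Agent.S59.TW.H564.diamondU_pow_eq p (wilesLevel p t Smin Smin) qv _ x)
    Ψ (fun ℓ _ hℓN hℓS v => hΨ ℓ Fact.out hℓN hℓS v)
  refine ⟨Fermat.Agent.S59.TW.H564.hhalf p qv, a, hh, ?_⟩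
  intro ℓ hℓ hℓN hℓS v
  rw [PQ.hπ, ha]
  exact hΨ ℓ hℓ hℓN hℓS v

end Fermat.Agent.S59.TW.Aut.H564

end
-- ===== PACK-END S59/TW/Aut/H564/ModQ.lean

-- ===== PACK-BEGIN S59/H105/Dict.lean
section




/-!
# Row S59, cell TW, leaf CTRL (helper105): the Galois dictionary for the chain of transfers

From a Taylor–Wiles set `qv`, Frobenius lifts `α` and the Hecke packages `P₀`, `P_Q`:

* `theta_eq_of_pkg` : the residual characters of two packages agree at the common good primes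
  (both are traces of Frobenius of `ρ̄`);
* `tsetOf_Q_eq` : `TsetOf P_Q = TsetAway (TsetOf P₀) qv`;
* `frob_data` : `q_j ∤ N₀`, `q_j ∈ 𝒪ˣ`, and lifts `β_j`, `c_j` with `(q_j, c_j) ∈ TsetOf P₀`,
  `α_j + β_j ≡ c_j`, `α_j β_j ≡ q_j`, `α_j - β_j`, `1 - α_j²`, `1 - β_j²` units.
-/

set_option autoImplicit false

namespace Fermat.Agent.S59.H105

open Polynomial IsLocalRing CongruenceSubgroup
open Fermat.Agent.S59.Arch Fermat.Agent.S59.TW Fermat.Agent.S59.TW.H959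
open Fermat.Agent.S59.TW.H653 Fermat.Agent.S59.TW.Aut
open scoped MatrixGroups

section Poly

variable {k : Type*} [Field k]

theorem coeffs_of_split {a b s d : k}
    (h : (X - C a) * (X - C b) = X ^ 2 - C s * X + C d) : a + b = s ∧ a * b = d := by
  have h1 : (X - C a) * (X - C b) = X ^ 2 - C (a + b) * X + C (a * b) := by
    simp only [map_add, map_mul]
    ring
  rw [h1] at h
  have c1 := congrArg (fun f => Polynomial.coeff f 1) h
  have c0 := congrArg (fun f => Polynomial.coeff f 0) h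
  simp only [coeff_add, coeff_sub, coeff_X_pow, coeff_C_mul, coeff_X_one,
    coeff_X_zero, coeff_C, mul_one, mul_zero] at c1 c0
  norm_num at c1 c0
  exact ⟨by linear_combination (-1 : k) * c1, by linear_combination c0⟩

theorem coeff_of_quad_eq {s s' d d' : k}
    (h : X ^ 2 - C s * X + C d = X ^ 2 - C s' * X + C d') : s = s' := by
  have c1 := congrArg (fun f => Polynomial.coeff f 1) h
  simp only [coeff_add, coeff_sub, coeff_X_pow, coeff_C_mul, coeff_X_one, coeff_C, mul_one] at c1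
  norm_num at c1
  linear_combination c1

end Poly

section

variable {p : ℕ}
  {𝒪 : Type} [CommRing 𝒪] [IsDomain 𝒪] [IsDiscreteValuationRing 𝒪]
  [IsAdicComplete (maximalIdeal 𝒪) 𝒪]
  {ρbar : ResidualGaloisRep (ResidueField 𝒪)} {t : PType} {Smin : Finset ℕ}

/-- The residual characters of two packages agree at the common good primes. -/
theorem theta_eq_of_pkg {Sig Sig' : Finset ℕ} [NeZero (wilesLevel p t Smin Sig)]
    [NeZero (wilesLevel p t Smin Sig')] (P : HeckePkg p 𝒪 ρbar t Smin Sig)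
    (P' : HeckePkg p 𝒪 ρbar t Smin Sig') {ℓ : ℕ} (hℓ : ℓ.Prime)
    (hℓN : ¬ ℓ ∣ wilesLevel p t Smin Sig) (hℓS : ℓ ∉ (↑Sig : Set ℕ))
    (hℓN' : ¬ ℓ ∣ wilesLevel p t Smin Sig') (hℓS' : ℓ ∉ (↑Sig' : Set ℕ)) :
    P.θ (CuspForm.heckeAlgebra.T hℓ hℓN hℓS) = P'.θ (CuspForm.heckeAlgebra.T hℓ hℓN' hℓS') := by
  obtain ⟨B, σ, hB, hσ⟩ := Fermat.Agent.S54.exists_frobenius ℓ hℓ
  have e1 := H31.resFrobCond_of_pkg P ℓ hℓ hℓN hℓS B hB σ hσ
  have e2 := H31.resFrobCond_of_pkg P' ℓ hℓ hℓN' hℓS' B hB σ hσ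
  exact coeff_of_quad_eq (e1.symm.trans e2)

variable [Fact p.Prime]

/-- `TsetOf P_Q` is `TsetOf P₀` away from the Taylor–Wiles primes. -/
theorem tsetOf_Q_eq (h : ResidualHyp p 𝒪 ρbar Smin) {n r : ℕ} {qv : Fin r → ℕ}
    (hq : IsTWSet p ρbar Smin n qv) [NeZero (wilesLevel p t Smin Smin)]
    [NeZero (wilesLevel p t Smin (Smin ∪ Finset.univ.image qv))]
    (P₀ : HeckePkg p 𝒪 ρbar t Smin Smin)
    (PQ : HeckePkg p 𝒪 ρbar t Smin (Smin ∪ Finset.univ.image qv)) :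
    TsetOf PQ = TsetAway (TsetOf P₀) qv := by
  have hp : p.Prime := Fact.out
  ext ⟨ℓ, c⟩
  constructor
  · rintro ⟨hℓ, hℓN, hℓS, hres⟩
    have hℓN₀ : ¬ ℓ ∣ wilesLevel p t Smin Smin := fun h' =>
      hℓN (h'.trans (wilesLevel_min_dvd p t Smin _))
    have hℓS₀ : ℓ ∉ (↑Smin : Set ℕ) := fun h' =>
      hℓS (Finset.mem_coe.mpr (Finset.mem_union_left _ (Finset.mem_coe.mp h')))
    refine ⟨⟨hℓ, hℓN₀, hℓS₀, ?_⟩, ?_⟩
    · exact hres.trans (theta_eq_of_pkg PQ P₀ hℓ hℓN hℓS hℓN₀ hℓS₀)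
    · intro j e
      apply hℓS
      rw [Finset.mem_coe, Finset.mem_union]
      exact Or.inr (Finset.mem_image.mpr ⟨j, Finset.mem_univ _, e.symm⟩)
  · rintro ⟨⟨hℓ, hℓN₀, hℓS₀, hres⟩, hne⟩
    have hℓS : ℓ ∉ (↑(Smin ∪ Finset.univ.image qv) : Set ℕ) := by
      intro h'
      rcases Finset.mem_union.mp (Finset.mem_coe.mp h') with h1 | h1
      · exact hℓS₀ (Finset.mem_coe.mpr h1)
      · obtain ⟨j, -, hj⟩ := Finset.mem_image.mp h1
        exact hne j hj.symm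
    have hSig : ∀ q ∈ Smin ∪ Finset.univ.image qv, q.Prime := by
      intro q hq'
      rcases Finset.mem_union.mp hq' with h1 | h1
      · exact h.hSmin q h1
      · obtain ⟨j, -, hj⟩ := Finset.mem_image.mp h1
        rw [← hj]
        exact (hq.2.1 j).1
    have hℓN : ¬ ℓ ∣ wilesLevel p t Smin (Smin ∪ Finset.univ.image qv) := fun h' =>
      hℓS (Finset.mem_coe.mpr (_root_.Fermat.Agent.S59.Arch.mem_of_prime_dvd_wilesLevel hp h.hSmin hSig h.hpSmin
        Finset.subset_union_left ℓ hℓ h'))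
    exact ⟨hℓ, hℓN, hℓS, hres.trans (theta_eq_of_pkg P₀ PQ hℓ hℓN₀ hℓS₀ hℓN hℓS)⟩

/-- The arithmetic of the Taylor–Wiles primes and the Frobenius lifts. -/
theorem frob_data (h : ResidualHyp p 𝒪 ρbar Smin) {n r : ℕ} {qv : Fin r → ℕ}
    (hq : IsTWSet p ρbar Smin n qv) [NeZero (wilesLevel p t Smin Smin)]
    (P₀ : HeckePkg p 𝒪 ρbar t Smin Smin) (α : Fin r → 𝒪) (hα : IsFrobLift ρbar qv α) :
    (∀ j, ¬ qv j ∣ wilesLevel p t Smin Smin) ∧ (∀ j, IsUnit ((qv j : ℕ) : 𝒪)) ∧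
    ∃ β c : Fin r → 𝒪, (∀ j, (qv j, c j) ∈ TsetOf P₀) ∧
      (∀ j c', (qv j, c') ∈ TsetOf P₀ → c' - c j ∈ maximalIdeal 𝒪) ∧
      (∀ j, α j + β j - c j ∈ maximalIdeal 𝒪) ∧
      (∀ j, α j * β j - ((qv j : ℕ) : 𝒪) ∈ maximalIdeal 𝒪) ∧
      (∀ j, IsUnit (α j - β j)) ∧ (∀ j, IsUnit (1 - α j ^ 2)) ∧ (∀ j, IsUnit (1 - β j ^ 2)) := by
  have hp : p.Prime := Fact.out
  haveI : CharP (ResidueField 𝒪) p := H31.charP_residueField_h31 h.hp𝒪
  have hqN : ∀ j, ¬ qv j ∣ wilesLevel p t Smin Smin := fun j h' =>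
    (hq.2.1 j).2.1 (_root_.Fermat.Agent.S59.Arch.mem_of_prime_dvd_wilesLevel hp h.hSmin h.hSmin h.hpSmin subset_rfl (qv j)
      (hq.2.1 j).1 h')
  have hqS : ∀ j, qv j ∉ (↑Smin : Set ℕ) := fun j h' => (hq.2.1 j).2.1 (Finset.mem_coe.mp h')
  have hq1 : ∀ j, ((qv j : ℕ) : ResidueField 𝒪) = 1 := by
    intro j
    have h1 : p ∣ qv j - 1 := (dvd_pow_self p (Nat.succ_ne_zero n)).trans (hq.2.1 j).2.2
    have h2 : ((qv j - 1 : ℕ) : ResidueField 𝒪) = 0 := (CharP.cast_eq_zero_iff _ p _).mpr h1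
    have h3 : qv j = (qv j - 1) + 1 := (Nat.sub_add_cancel (hq.2.1 j).1.one_lt.le).symm
    rw [h3, Nat.cast_add, h2, zero_add, Nat.cast_one]
  have hunit : ∀ x : 𝒪, residue 𝒪 x ≠ 0 → IsUnit x := by
    intro x hx
    by_contra hcon
    exact hx ((residue_eq_zero_iff x).mpr ((mem_maximalIdeal x).mpr hcon))
  have hmem : ∀ x : 𝒪, residue 𝒪 x = 0 → x ∈ maximalIdeal 𝒪 := fun x hx =>
    (residue_eq_zero_iff x).mp hx
  refine ⟨hqN, ?_, ?_⟩
  · intro j
    apply hunit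
    rw [map_natCast, hq1]
    exact one_ne_zero
  have key : ∀ j, ∃ β c : 𝒪, (qv j, c) ∈ TsetOf P₀ ∧
      (∀ c', (qv j, c') ∈ TsetOf P₀ → c' - c ∈ maximalIdeal 𝒪) ∧
      (α j + β - c ∈ maximalIdeal 𝒪) ∧ (α j * β - ((qv j : ℕ) : 𝒪) ∈ maximalIdeal 𝒪) ∧
      IsUnit (α j - β) ∧ IsUnit (1 - α j ^ 2) ∧ IsUnit (1 - β ^ 2) := by
    intro j
    obtain ⟨B, φ, βbar, hB, hφ, hne, hchar⟩ := hα j
    have e := H31.resFrobCond_of_pkg P₀ (qv j) (hq.2.1 j).1 (hqN j) (hqS j) B hB φ hφ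
    obtain ⟨hs, hd⟩ := coeffs_of_split (hchar.symm.trans e)
    rw [hq1] at hd
    obtain ⟨β, hβ⟩ := residue_surjective βbar
    obtain ⟨c, hc⟩ := residue_surjective
      (P₀.θ (CuspForm.heckeAlgebra.T (hq.2.1 j).1 (hqN j) (hqS j)))
    have ha0 : residue 𝒪 (α j) ≠ 0 := by
      intro h0
      rw [h0, zero_mul] at hd
      exact zero_ne_one hd
    have hb0 : βbar ≠ 0 := by
      intro h0
      rw [h0, mul_zero] at hd
      exact zero_ne_one hd
    refine ⟨β, c, ⟨(hq.2.1 j).1, hqN j, hqS j, hc⟩, ?_, ?_, ?_, ?_, ?_, ?_⟩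
    · rintro c' ⟨_, _, _, hc'⟩
      apply hmem
      rw [map_sub, hc', hc, sub_self]
    · apply hmem
      rw [map_sub, map_add, hβ, hc, hs, sub_self]
    · apply hmem
      rw [map_sub, map_mul, hβ, map_natCast, hq1, hd, sub_self]
    · apply hunit
      rw [map_sub, hβ]
      exact sub_ne_zero.mpr hne
    · apply hunit
      rw [map_sub, map_one, map_pow]
      intro h0
      have h1 : residue 𝒪 (α j) ^ 2 = residue 𝒪 (α j) * βbar := by
        rw [hd]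
        exact (sub_eq_zero.mp h0).symm
      rw [pow_two] at h1
      exact hne (mul_left_cancel₀ ha0 h1)
    · apply hunit
      rw [map_sub, map_one, map_pow, hβ]
      intro h0
      have h1 : βbar ^ 2 = residue 𝒪 (α j) * βbar := by
        rw [hd]
        exact (sub_eq_zero.mp h0).symm
      rw [pow_two] at h1
      exact hne (mul_right_cancel₀ hb0 h1).symm
  choose β c hk using key
  exact ⟨β, c, fun j => (hk j).1, fun j => (hk j).2.1, fun j => (hk j).2.2.1,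
    fun j => (hk j).2.2.2.1, fun j => (hk j).2.2.2.2.1, fun j => (hk j).2.2.2.2.2.1,
    fun j => (hk j).2.2.2.2.2.2⟩

end

end Fermat.Agent.S59.H105

end
-- ===== PACK-END S59/H105/Dict.lean

-- ===== PACK-BEGIN S59/H105/Ctrl.lean
section





/-!
# Row S59, cell TW, AUT layer 3, leaf CTRL (helper105)

`ctrl_of_free : Aut.FreeQStatement → Aut.CtrlStatement`.

`π : V → V₀` is the composite of

* the corestriction `cor : V → W` (helper762, `cor_ctrl_locPart_h762`: onto, kernel `I_Δ V`, from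
  `FreeAt V`), `W` = the localisation of `X_{Γ₀(M_Q)}(𝒪)` at `(θ, U_{q_j} - α_j)`
  (`cor V ⊆ W`, `res W ⊆ V`: `cor_res_mem_of_isLocPart`);
* the chain of transfers `t₂ : W ≅ V₀` (`iter_chain`; one-prime step `one_step`; the cross-level
  commutation `cross` is helper719's).
-/

set_option autoImplicit false

namespace Fermat.Agent.S59.H105

open IsLocalRing CongruenceSubgroup
open Fermat.Agent.S59.Arch Fermat.Agent.S59.TW Fermat.Agent.S59.TW.H959
open Fermat.Agent.S59.TW.H653 Fermat.Agent.S59.TW.Aut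
open scoped MatrixGroups

/-- **CTRL** from **FREE**. -/
theorem ctrl_of_free (hfree : FreeQStatement) : CtrlStatement := by
  intro p _ 𝒪 _ _ _ _ _ _ ρbar Smin h t ht _ P₀ n r qv hq _ PQ res hres α hα V₀ V hV₀ hV
  have hN₀ : wilesLevel p t Smin Smin ≠ 0 := NeZero.ne _
  have hinj : Function.Injective qv := hq.1
  have hprime : ∀ j, (qv j).Prime := fun j => (hq.2.1 j).1
  obtain ⟨hqN, hqu, β, c, hcT, hcq, hsum, hprod, hαβ, hα1, hβ1⟩ := frob_data h hq P₀ α hα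
  have hM : bLevel (wilesLevel p t Smin Smin) qv ≠ 0 :=
    Nat.mul_ne_zero hN₀ (Finset.prod_ne_zero_iff.mpr fun j _ => (hprime j).ne_zero)
  have hT₀ : ∀ x ∈ TsetOf P₀, x.1.Prime ∧ ¬ x.1 ∣ wilesLevel p t Smin Smin :=
    fun x hx => ⟨hx.1, hx.2.1⟩
  have hTQ : ∀ x ∈ TsetOf PQ, x.1.Prime ∧ ¬ x.1 ∣ bLevel (wilesLevel p t Smin Smin) qv := by
    rintro x ⟨h1, h2, h3, _⟩
    exact ⟨h1, not_dvd_bLevel h1 hprime h2 h3⟩
  have hUQ : ∀ x ∈ UsetOf qv α, x.1.Prime ∧ x.1 ∣ bLevel (wilesLevel p t Smin Smin) qv := by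
    rintro x ⟨j, rfl⟩
    exact ⟨hprime j, dvd_bLevel _ qv j⟩
  obtain ⟨W, hW⟩ := H511.idem 𝒪 _ hM (Gamma0 _) (isMid_Gamma0 _) (TsetOf PQ) (UsetOf qv α)
    hTQ hUQ
  obtain ⟨hcor, hres'⟩ := cor_res_mem_of_isLocPart p _ qv hM hTQ hUQ hV hW
  obtain ⟨cc, hc1, hc2, hc3⟩ := H762.cor_ctrl_locPart_h762 t Smin qv hprime hinj 𝒪 V hV W
    (hfree p 𝒪 ρbar Smin h t ht P₀ n r qv hq PQ res hres α hα V hV) hcor hres'
  have hW' := hW
  rw [tsetOf_Q_eq h hq P₀ PQ] at hW'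
  obtain ⟨f, f1, f2, f3, f4⟩ := iter_chain H511.idem cross hN₀ hT₀ hV₀ r qv α β c hinj hprime
    hqN hqu hcT hcq hsum hprod hαβ hα1 hβ1 (bLevel _ qv) rfl W hW'
  let fW : W →ₗ[𝒪] V₀ := (f.domRestrict W).codRestrict V₀ (fun y => f1 y y.2)
  refine ⟨fW ∘ₗ cc, ?_, ?_, ?_⟩
  · intro x
    obtain ⟨y, hy, e⟩ := f3 x x.2
    obtain ⟨v, hv⟩ := hc1 ⟨y, hy⟩
    refine ⟨v, ?_⟩
    apply Subtype.ext
    show f ((cc v : W) : _) = x
    rw [hv]
    exact e
  · intro ℓ hℓ hℓM v v' hvv'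
    show f ((cc v' : W) : _) = tOp _ _ 𝒪 ℓ hℓ (f ((cc v : W) : _))
    rw [H762.cor_ctrl_tOp_h762 (p := p) (wilesLevel p t Smin Smin) qv 𝒪 V W cc hc2 ℓ hℓ hℓM v v'
      hvv', f4 ℓ hℓ hℓM]
  · intro y
    rw [← hc3 y]
    constructor
    · intro e
      have e' : f ((cc y : W) : _) = 0 := congrArg Subtype.val e
      exact Subtype.ext (f2 _ (cc y).2 e')
    · intro e
      show fW (cc y) = 0
      rw [e, map_zero]

end Fermat.Agent.S59.H105

end
-- ===== PACK-END S59/H105/Ctrl.lean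

-- ===== PACK-BEGIN S33/H92/ReadyChain.lean
section



/-!
# S33 — the chain from the wall at READY levels (helper92)

`Ribet.H884.S2Statement` cannot be produced by the wall at the levels `3 M'` with `M'` odd
(no semistable model `A2.ModSSData` at `q = 3` there).  This file states the READY form of (S2)
and wires it to (K):

* `S2ReadyStatement`        : `Ribet.H884.S2Statement` with the extra hypothesis `p = 3 → 2 ∣ M'`;
* `s2Ready_of_s2`           : the full statement implies the READY one;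
* `ordFilReady_of_s2Ready`  : `S2ReadyStatement → OrdFilReadyStatement`
                              (the proof of `S33.H862.ordFil_of_s2`, level by level);
* `keyStatement_of_s2Ready` : `S2ReadyStatement → OldAugStatement → KeyStatement`.
-/

set_option autoImplicit false
set_option linter.unusedSectionVars false
set_option linter.style.haveILetI false
set_option synthInstance.maxHeartbeats 400000
set_option maxHeartbeats 1000000

noncomputable section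

namespace Fermat.Agent.S33.H92

open ModularCurve
open Fermat.Agent.Ribet.H884 Fermat.Agent.Ribet.H944.Wall Fermat.Agent.Ribet.H801

/-- **(S2) at READY levels**: `Ribet.H884.S2Statement` with the extra hypothesis
`p = 3 → 2 ∣ M'`. -/
def S2ReadyStatement : Prop :=
  ∀ (p M' : ℕ) [NeZero M'] [NeZero p] [NeZero (p * M')], p.Prime → p ≠ 2 → ¬ p ∣ M' →
    (p = 3 → 2 ∣ M') →
    ∀ A : ValuationSubring (AlgebraicClosure ℚ), A.LiesOverPrime p →
      S2For p M' A (splitPart p M' A)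

/-- The full (S2) implies the READY one. -/
theorem s2Ready_of_s2 (h : S2Statement) : S2ReadyStatement :=
  fun p M' _ _ _ hp hp2 hpM _ A hA => h p M' hp hp2 hpM A hA

/-- **NEW at READY levels** from (S2) at READY levels. -/
theorem ordFilReady_of_s2Ready (h2 : S2ReadyStatement) : OrdFilReadyStatement := by
  intro p M' _ _ hp hp2 hpM hr
  haveI : NeZero p := ⟨hp.ne_zero⟩
  refine ⟨alphaL p M', betaL p M', alphaL_smul p M', betaL_smul p M', fun A hA => ?_⟩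
  refine ⟨(Fermat.Agent.S33.H855.splitMin A hp.ne_zero hA (p * M') : Set (JZero (p * M'))),
    fun x hx => Fermat.Agent.S33.H862.mem_splitMin_of_inSPlus hp (p * M') A hA x hx, ?_⟩
  intro x hx hpx hα hβ σ hσ c hc
  exact h2 p M' hp hp2 hpM hr A hA x
    (Fermat.Agent.S33.H862.splitMin_le_splitPart p M' A hp.ne_zero hA hx) ⟨hpx, hα, hβ⟩ σ hσ c hc

/-- **KEY from (S2) at READY levels.** -/
theorem keyStatement_of_s2Ready (h2 : S2ReadyStatement)
    (hOLD : Fermat.Agent.S33.OldAugStatement) : Fermat.Agent.S33.KeyStatement :=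
  keyStatement_of_ready (ordFilReady_of_s2Ready h2) hOLD

end Fermat.Agent.S33.H92

end

end
-- ===== PACK-END S33/H92/ReadyChain.lean

-- ===== PACK-BEGIN S33/H849/S2Ready.lean
section



/-!
# S33 — the wall at `p` at READY levels (helper849): glue between the (S2)-chain of row 38 and
the level bridge of S33

Situation on main:

* `Ribet.H220.s2Five_of_chain : SL → NC → DK → S2FiveStatement` delivers (S2) only for `p ≥ 5`
  (the leaf `DeepKummerStatement` carries `5 ≤ p`);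
* `S33.H862.ordFil_of_s2` asks for the FULL `Ribet.H884.S2Statement` (all odd `p`, all `M'`),
  which the wall cannot deliver at `p = 3`, `M'` odd (no semistable model at `q = 3` unless
  `2 ∣ M'`);
* `S33.H92.keyStatement_of_ready` only needs `OrdFilReadyStatement`
  (`OrdFilStatement` at the levels with `p = 3 → 2 ∣ M'`).

* `S33.H92.keyStatement_of_s2Ready` (`S33/H92/ReadyChain.lean`) reduces S33 to
  `S33.H92.S2ReadyStatement` ((S2) at READY levels) and OLD.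

This file closes the remaining gap, on the side of the (S2)-chain:

* `DeepKummerReadyStatement` : the leaf DK of `Ribet/H220/S2Spec.lean` with the hypothesis
  `5 ≤ p` replaced by `p ≠ 2` and `p = 3 → 2 ∣ M'` (everything else VERBATIM);
* `kummerChiFor_of_chain_ready`,
  `s2Ready_of_chain : SL → NC → DKReady → S33.H92.S2ReadyStatement`;
* `keyStatement_of_chain    : SL → NC → DKReady → OldAugStatement → KeyStatement`;
* comparison lemmas `deepKummer_of_ready`, `s2Five_of_s2Ready`, `s2Ready_of_five_of_three`.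
-/

set_option autoImplicit false
set_option linter.style.haveILetI false
set_option synthInstance.maxHeartbeats 400000
set_option maxHeartbeats 1000000

noncomputable section

namespace Fermat.Agent.S33.H849

open AlgebraicCurve ModularCurve
open Fermat.Agent.S24 Fermat.Agent.A2.H708 Fermat.Agent.A2.H528
open Fermat.Agent.S29.H395 Fermat.Agent.S29.H801
open Fermat.Agent.Ribet.Spec Fermat.Agent.Ribet.H944.Wall Fermat.Agent.Ribet.H884
open Fermat.Agent.Ribet.H801 Fermat.Agent.Ribet.H912 Fermat.Agent.Ribet.H220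
open Fermat.Agent.S33.H92 (S2ReadyStatement)

/-! ## The READY forms -/

/-- **DK at READY levels.**  The leaf `Ribet.H220.DeepKummerStatement` with `5 ≤ p` replaced by
`p ≠ 2` and `p = 3 → 2 ∣ M'` (the levels at which the semistable model at `q = p` exists). -/
def DeepKummerReadyStatement : Prop :=
  ∀ (p M' : ℕ) [NeZero M'] [NeZero p] [NeZero (p * M')] (hp : p.Prime), p ≠ 2 →
    (p = 3 → 2 ∣ M') → ¬ p ∣ M' →
    ∀ (A : ValuationSubring Kbar) (hA : A.LiesOverPrime p),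
    ∀ σ ∈ A.inertiaSubgroupIn ℚ, ∀ c : ℕ, CycloAt p σ c →
    ∀ f : FF (p * M'), f ≠ 0 → (∀ v : Place Kbar (FF (p * M')), (p : ℤ) ∣ v.ord f) →
      Deep (Vinf (p * M') A hp.ne_zero hA) p (cF (p * M') ((p : Kbar) ^ 2)) f →
      Deep (Vzero (p * M') A hp.ne_zero hA) p (cF (p * M') ((p : Kbar) ^ 2)) f →
      ∃ (y : FF (p * M')) (a : Kbar), a ≠ 0 ∧ y ≠ 0 ∧
        arithmeticRingAut (modularFunctionFieldFull (p * M')) σ f =
          algebraMap Kbar (FF (p * M')) a * y ^ p * f ^ c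

/-! ## Comparison with the forms on main -/

/-- The READY form of DK implies the `p ≥ 5` form of `Ribet/H220/S2Spec.lean`. -/
theorem deepKummer_of_ready (h : DeepKummerReadyStatement) : DeepKummerStatement := by
  intro p M' _ _ _ hp hp5 hpM A hA σ hσ c hc f hf0 hord hI hZ
  exact h p M' hp (by omega) (by omega) hpM A hA σ hσ c hc f hf0 hord hI hZ

/-- The READY form implies the `p ≥ 5` form. -/
theorem s2Five_of_s2Ready (h : S2ReadyStatement) : S2FiveStatement :=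
  fun p M' _ _ _ hp hp5 hpM A hA => h p M' hp (by omega) hpM (by omega) A hA

/-- The READY form from the `p ≥ 5` form and the case `p = 3`, `2 ∣ M'`. -/
theorem s2Ready_of_five_of_three (h5 : S2FiveStatement)
    (h3 : ∀ (M' : ℕ) [NeZero M'] [NeZero 3] [NeZero (3 * M')], ¬ 3 ∣ M' → 2 ∣ M' →
      ∀ A : ValuationSubring Kbar, A.LiesOverPrime 3 → S2For 3 M' A (splitPart 3 M' A)) :
    S2ReadyStatement := by
  intro p M' _ _ _ hp hp2 hpM hr A hA
  by_cases hp3 : p = 3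
  · subst hp3
    exact h3 M' hpM (hr rfl) A hA
  · have hp5 : 5 ≤ p := by
      rcases Nat.lt_or_ge p 5 with h | h
      · exfalso
        have h2 := hp.two_le
        interval_cases p
        · exact hp2 rfl
        · exact hp3 rfl
        · exact absurd hp (by decide)
      · exact h
    exact h5 p M' hp hp5 hpM A hA

/-! ## The chain at READY levels -/

/-- **The chain at READY levels.**  SL + NC + DK(READY) give the Kummer form of (S2) for
`𝒮 = splitPart` at every odd `p`, with `2 ∣ M'` if `p = 3`.  (The proof of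
`Ribet.H220.kummerChiFor_of_chain`; only DK sees the prime.) -/
theorem kummerChiFor_of_chain_ready (hSL : SplitLiftStatement) (hNC : NormContrStatement)
    (hDK : DeepKummerReadyStatement)
    (p M' : ℕ) [NeZero M'] [NeZero p] [NeZero (p * M')] (hp : p.Prime) (hp2 : p ≠ 2)
    (hr : p = 3 → 2 ∣ M')
    (hpM : ¬ p ∣ M') (A : ValuationSubring Kbar) (hA : A.LiesOverPrime p) :
    KummerChiFor p M' A (splitPart p M' A) := by
  intro x hx hnew σ hσ c hc
  -- a Kummer generator with split reductions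
  obtain ⟨f, hfK, hfS⟩ := splitClosed p M' hp hpM A hA x hx
  obtain ⟨hf0, D, hDx, hord⟩ := id hfK
  obtain ⟨-, hα, hβ⟩ := hnew
  rw [← hDx] at hα hβ
  -- both norms are `p`-th powers
  obtain ⟨g₁, -, h₁⟩ :=
    (alphaL_mk_eq_zero_iff p M' hp.ne_zero D hf0 (fun w => (hord w).symm)).1 hα
  obtain ⟨g₂, -, h₂⟩ :=
    (betaL_mk_eq_zero_iff p M' hp.ne_zero D hf0 (fun w => (hord w).symm)).1 hβ
  -- depth one, with constants
  obtain ⟨⟨ϖ₁, hϖ₁0, hϖ₁, hd₁⟩, ⟨ϖ₂, hϖ₂0, hϖ₂, hd₂⟩⟩ := hSL p M' hp hpM A hA f hf0 hfS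
  -- a common depth dividing `p`
  have hpA : (p : Kbar) ∈ A.nonunits := hA
  have hp0 : (p : Kbar) ≠ 0 := by exact_mod_cast hp.ne_zero
  obtain ⟨d, hd0, hd, ⟨x₁, hx₁, e₁⟩, ⟨x₂, hx₂, e₂⟩⟩ :=
    exists_common_divisor A hϖ₁0 hϖ₂0 hϖ₁ hϖ₂
  obtain ⟨ϖ, hϖ0, hϖ, ⟨y₁, hy₁, e₃⟩, ⟨e, he, hpe⟩⟩ :=
    exists_common_divisor A hd0 hp0 hd hpA
  have hI : DeepC Kbar (Vinf (p * M') A hp.ne_zero hA) p (cF (p * M') ϖ) f := by
    refine hd₁.mono (a := cF (p * M') (y₁ * x₁))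
      (cF_mem_Vinf (p * M') A hp.ne_zero hA (mul_mem hy₁ hx₁)) ?_
    rw [cF, cF, cF, ← map_mul, e₁, e₃]
    congr 1
    ring
  have hZ : DeepC Kbar (Vzero (p * M') A hp.ne_zero hA) p (cF (p * M') ϖ) f := by
    refine hd₂.mono (a := cF (p * M') (y₁ * x₂))
      (cF_mem_Vzero (p * M') A hp.ne_zero hA (mul_mem hy₁ hx₂)) ?_
    rw [cF, cF, cF, ← map_mul, e₂, e₃]
    congr 1
    ring
  -- norm contraction
  have hnc := hNC p M' hp hp2 hpM A hA f g₁ g₂ hf0 h₁ h₂ ϖ hϖ0 hϖ ⟨e, he, hpe⟩ hI hZ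
  -- rank one: `ϖ ^ n ∈ p² A`
  have hp20 : (p : Kbar) ^ 2 ≠ 0 := pow_ne_zero 2 hp0
  obtain ⟨n, hn⟩ := Fermat.Agent.A3.H675.harch A isAlgebraic_int_Kbar hp hpA ϖ
    ((p : Kbar) ^ 2) hϖ hp20
  have hpow : cF (p * M') ϖ ^ n =
      cF (p * M') ((p : Kbar) ^ 2) * cF (p * M') (ϖ ^ n / (p : Kbar) ^ 2) := by
    rw [cF, cF, cF, ← map_pow, ← map_mul]
    congr 1
    field_simp
  obtain ⟨hnI, hnZ⟩ := hnc n
  have hI' := hnI.mono (cF_mem_Vinf (p * M') A hp.ne_zero hA hn) hpow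
  have hZ' := hnZ.mono (cF_mem_Vzero (p * M') A hp.ne_zero hA hn) hpow
  -- deep Kummer classes are `χ`-eigen
  obtain ⟨y, a, ha0, hy0, hrel⟩ := hDK p M' hp hp2 hr hpM A hA σ hσ c hc f hf0
    (fun v => ⟨(D : Divisor Kbar (FF (p * M'))) v, hord v⟩) hI' hZ'
  exact ⟨f, y, a, hfK, ha0, hy0, hrel⟩

/-- **(S2) at READY levels** from the three leaves (DK in its READY form). -/
theorem s2Ready_of_chain (hSL : SplitLiftStatement) (hNC : NormContrStatement)
    (hDK : DeepKummerReadyStatement) : S2ReadyStatement := by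
  intro p M' _ _ _ hp hp2 hpM hr A hA
  exact s2For_of_kummerChi p M' A _
    (kummerChiFor_of_chain_ready hSL hNC hDK p M' hp hp2 hr hpM A hA)

/-! ## S33: the wall at READY levels -/

/-- **KEY of S33** from the three leaves of the (S2)-chain (DK in its READY form) and OLD. -/
theorem keyStatement_of_chain (hSL : SplitLiftStatement) (hNC : NormContrStatement)
    (hDK : DeepKummerReadyStatement) (hOLD : Fermat.Agent.S33.OldAugStatement) :
    Fermat.Agent.S33.KeyStatement :=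
  Fermat.Agent.S33.H92.keyStatement_of_s2Ready (s2Ready_of_chain hSL hNC hDK) hOLD

end Fermat.Agent.S33.H849

end

end
-- ===== PACK-END S33/H849/S2Ready.lean

-- ===== PACK-BEGIN S38T/IA/Hecke/Asm.lean
section






/-!
# S59 (B2) HECKE-T: MECHANICAL `ty`-generic twin of `Fermat.Agent.S38.IA.Hecke.Asm`  (helper3, by script)

Only the `ty`-dependent declarations are twinned (suffix `_T`); the others are imported.
-/

set_option autoImplicit false

open Polynomial IsLocalRing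

namespace Fermat.Agent.S38.IA.Hecke

variable {ty : Fermat.Agent.S59.Arch.PType}

open Fermat.Agent.S59.Arch Fermat.Agent.S59.TW.H959 Fermat.Agent.S59.TW Fermat.Agent.S59.H765
open CuspForm

/-- Ribet's level `L = ∏_{Smin ∖ p} q · ∏_{Piv} q` and Wiles's level of type
`Smin ∪ Piv ∪ Q` form a level pair (`Piv` disjoint from `Smin`). -/
theorem levelPairIA_T (p : ℕ) {Smin Piv Q : Finset ℕ}
    (hSminP : ∀ q ∈ Smin, q.Prime) (hPivP : ∀ q ∈ Piv, q.Prime) (hQP : ∀ q ∈ Q, q.Prime)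
    (hdisj : ∀ q ∈ Piv, q ∉ Smin) (hpS : p ∈ Smin) :
    LevelPair (ribetLevelT p ty Smin Piv) (wilesLevel p ty Smin (Smin ∪ Piv ∪ Q))
      (↑(Smin ∪ Piv) : Set ℕ) (↑(Smin ∪ Piv ∪ Q) : Set ℕ) where
  dvd := by
    rw [wilesLevel_eq, ribetLevelT_eq_pFactor]
    unfold ribetLevel
    refine Nat.mul_dvd_mul (Nat.mul_dvd_mul dvd_rfl ?_) dvd_rfl
    have hsub : Piv ⊆ (Smin ∪ Piv ∪ Q) \ Smin := by
      intro q hq
      exact Finset.mem_sdiff.mpr
        ⟨Finset.mem_union_left _ (Finset.mem_union_right _ hq), hdisj q hq⟩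
    exact (Finset.prod_dvd_prod_of_dvd _ _ fun q _ => dvd_pow_self q two_ne_zero).trans
      (Finset.prod_dvd_prod_of_subset _ _ _ hsub)
  sub := by
    intro x hx
    exact Finset.mem_coe.mpr (Finset.mem_union_left _ (Finset.mem_coe.mp hx))
  hU := by
    intro ℓ hℓ hd hℓS
    refine absurd (Finset.mem_coe.mpr (prime_dvd_wilesLevel p ty
      (Finset.subset_union_left.trans Finset.subset_union_left) ?_
      (Finset.mem_union_left _ (Finset.mem_union_left _ hpS)) hℓ hd)) hℓS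
    intro q hq
    rcases Finset.mem_union.mp hq with h | h
    · rcases Finset.mem_union.mp h with h' | h'
      · exact hSminP q h'
      · exact hPivP q h'
    · exact hQP q h

/-- **Layer 2 of the cell HECKE of row HARD**: `IA.IAHeckeStatement_T` from its leaves. -/
theorem iaHecke_of_leaves_T (hPkg : PkgStatement) (hAut : IAAutStatement_T)
    (hInx : InertiaExistsStatement) (hIno : InertiaOrderStatement)
    (hCyc : CycloSurjStatement) (hAlg : AlgStatement) : IAHeckeStatement_T := by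
  intro p hpF 𝒪 _ _ _ _ _ _ ρbar Smin h ty hflat ζ hζ Piv hPiv hmod hmin
  obtain ⟨hL, θ₀, hθ₀⟩ := hmod
  haveI := hL
  obtain ⟨d, hd, hA⟩ := hAut p 𝒪 ρbar Smin h ty hflat ζ hζ Piv hPiv θ₀ hθ₀ hmin
  refine ⟨d, hd, ?_⟩
  intro n r qv hq
  obtain ⟨-, hqv, hfrob⟩ := id hq
  have hPivP : ∀ q ∈ Piv, q.Prime := fun q hq' => (hPiv q hq').1
  have hdisj : ∀ q ∈ Piv, q ∉ Smin := fun q hq' => (hPiv q hq').2.1
  -- the level `Q`
  have hQP : ∀ q ∈ Finset.univ.image qv, q.Prime := by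
    intro q hq'
    obtain ⟨j, -, rfl⟩ := Finset.mem_image.mp hq'
    exact (hqv j).1
  have hSigP : ∀ q ∈ Smin ∪ Piv ∪ Finset.univ.image qv, q.Prime := by
    intro q hq'
    rcases Finset.mem_union.mp hq' with h' | h'
    · rcases Finset.mem_union.mp h' with h'' | h''
      · exact h.hSmin q h''
      · exact hPivP q h''
    · exact hQP q h'
  have hsub : Smin ⊆ Smin ∪ Piv ∪ Finset.univ.image qv :=
    Finset.subset_union_left.trans Finset.subset_union_left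
  have hNQ : NeZero (wilesLevel p ty Smin (Smin ∪ Piv ∪ Finset.univ.image qv)) :=
    ⟨wilesLevel_ne_zero hpF.out h.hSmin hSigP⟩
  have hp := levelPairIA_T (ty := ty) p h.hSmin hPivP hQP hdisj h.hpSmin
  have hθQ : Fermat.Agent.S59.G4.ResFrobCond ρbar (θ₀.comp (oldRestrict hp)) :=
    resFrobCond_comp hp hθ₀
  obtain ⟨PQ, hθPQ⟩ := hPkg p 𝒪 ρbar Smin h ty hflat (Smin ∪ Piv ∪ Finset.univ.image qv)
    hsub hSigP (θ₀.comp (oldRestrict hp)) hθQ
  obtain ⟨A, hCmp⟩ := hA n r qv hq hp PQ hθPQ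
  -- primitive roots, places, Frobenius and inertia elements, eigenvalues
  choose g hgord hggen using fun j => exists_primitive_root_units (hqv j).1
  choose Pv φv hPv hφv using fun j => Fermat.Agent.S54.exists_frobenius (qv j) (hqv j).1
  choose σv hσv hcyc using fun j => hCyc (qv j) (hqv j).1 (Pv j) (hPv j) (g j)
  choose α β hαβ hchar using fun j => hfrob j (Pv j) (hPv j) (φv j) (hφv j)
  choose αv hαv using fun j => residue_surjective (α j)
  -- inertia values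
  have hcharT : ∀ j, LinearMap.charpoly (PQ.H.ρ.residual.ρ (φv j)) =
      (X - C (residue PQ.T (algebraMap 𝒪 PQ.T (αv j)))) *
        (X - C (ResidueField.map (algebraMap 𝒪 PQ.T) (β j))) := by
    intro j
    rw [charpoly_eq_of_residual_isEquiv PQ.hres, charpoly_residual_baseChangeAlong, hchar j,
      Polynomial.map_mul, Polynomial.map_sub, Polynomial.map_sub, Polynomial.map_X,
      Polynomial.map_C, Polynomial.map_C, ← hαv j, ResidueField.map_residue]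
  have hne : ∀ j, residue PQ.T (algebraMap 𝒪 PQ.T (αv j)) ≠
      ResidueField.map (algebraMap 𝒪 PQ.T) (β j) := by
    intro j hj
    rw [← ResidueField.map_residue, hαv j] at hj
    exact hαβ j ((ResidueField.map (algebraMap 𝒪 PQ.T)).injective hj)
  choose w hw using fun j => hInx PQ.T PQ.H.ρ (φv j) (σv j) (algebraMap 𝒪 PQ.T (αv j))
    (ResidueField.map (algebraMap 𝒪 PQ.T) (β j)) (hne j) (hcharT j)
  -- the order of the inertia values
  haveI : Finite (ResidueField PQ.T) := by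
    refine Finite.of_surjective (ResidueField.map (algebraMap 𝒪 PQ.T)) ?_
    intro x
    obtain ⟨y, hy⟩ := PQ.H.residue_surjective x
    exact ⟨residue 𝒪 y, by rw [ResidueField.map_residue]; exact hy⟩
  have hpT : (p : PQ.T) ∈ maximalIdeal PQ.T := by
    have h1 := h.hp𝒪
    rw [mem_maximalIdeal, mem_nonunits_iff] at h1 ⊢
    intro hu
    apply h1
    have : IsUnit (algebraMap 𝒪 PQ.T (p : 𝒪)) := by rwa [map_natCast]
    exact IsLocalHom.map_nonunit _ this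
  have hdet : PQ.H.ρ.DetIsCyclotomic p := by
    have h1 := PQ.hcond.1
    cases ty
    · exact h1.1
    · exact h1.1
    · exact h1.1
  have hqS : ∀ j, qv j ∉ Smin := fun j hj => (hqv j).2.1 (Finset.mem_union_left _ hj)
  have hqp : ∀ j, qv j ≠ p := by
    intro j hj
    exact hqS j (hj ▸ h.hpSmin)
  have hunr : ∀ j, PQ.H.ρ.residual.IsUnramifiedAt (qv j) := by
    intro j
    refine isUnramifiedAt_of_residual_isEquiv' PQ.hres
      (isUnramifiedAt_residual_baseChangeAlong _ ?_)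
    by_contra hcon
    exact hqS j ((h.hmin (qv j) (hqv j).1 (hqp j)).mpr hcon)
  have hpq : ∀ j, p ∣ qv j - 1 := fun j =>
    Dvd.dvd.trans (dvd_pow_self p (Nat.succ_ne_zero n)) (hqv j).2.2
  have hord : ∀ j, w j ^ (p ^ padicValNat p (qv j - 1)) = 1 := by
    intro j
    obtain ⟨w', -, h2, -⟩ := hIno p PQ.T hpT PQ.H.ρ hdet (qv j) (hqv j).1 (hqp j) (hpq j)
      (hunr j) (Pv j) (hPv j) (φv j) (hφv j) (σv j) (hσv j) _ (w j) (hw j)
    exact h2
  -- the comparison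
  have hrange : ∀ (j : Fin r) (y : A.MQ),
      (∃ y' : A.MQ, y = w j • y' - y') ↔ ∃ y' : A.MQ, y = A.dia (Pi.mulSingle j (g j)) y' - y' :=
    fun j => hCmp j (Pv j) (hPv j) (φv j) (hφv j) (σv j) (hσv j) (g j) (hgord j) (hcyc j) _
      (w j) (hw j)
  -- the basis
  have hn : ∀ j, n ≤ padicValNat p (qv j - 1) := by
    intro j
    have h0 : qv j - 1 ≠ 0 := Nat.sub_ne_zero_of_lt (hqv j).1.one_lt
    exact (Nat.le_succ n).trans ((padicValNat_dvd_iff_le h0).mp (hqv j).2.2)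
  have hX : ∀ j, A.dia (Pi.mulSingle j (g j)) ^ (p ^ padicValNat p (qv j - 1)) = 1 := by
    intro j
    rw [← map_pow, ← A.dia_pow (Pi.mulSingle j (g j))]
    congr 1
    funext i
    by_cases hij : i = j
    · subst hij
      simp only [Pi.pow_apply, Pi.mulSingle_eq_same]
    · simp only [Pi.pow_apply, Pi.mulSingle_eq_of_ne hij, one_pow]
  have hpJ : (p : 𝒪) ∈ Ideal.jacobson (⊥ : Ideal 𝒪) := by
    rw [IsLocalRing.jacobson_eq_maximalIdeal ⊥ bot_ne_top]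
    exact h.hp𝒪
  obtain ⟨b, hb⟩ := A.free g hgord
  have hgrb : IsGroupRingBasis 𝒪 (p ^ n) w b :=
    hAlg p hpF.out h.hp2 𝒪 hpJ PQ.T A.MQ r (fun j => (ZMod (qv j))ˣ)
      (fun j => padicValNat p (qv j - 1)) n hn A.dia g hX d b hb w hord hrange
  exact ⟨hNQ, PQ, A.MQ, inferInstance, inferInstance, w, b, hgrb,
    fun i => sub_one_mem_maximalIdeal_of_pow_eq_one hpF.out hpT (hord i), A.supp_nu, A.st⟩

end Fermat.Agent.S38.IA.Hecke

end
-- ===== PACK-END S38T/IA/Hecke/Asm.lean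

-- ===== PACK-BEGIN S38T/IA/Hecke/Asm5.lean
section






/-!
# S59 (B2) HECKE-T: MECHANICAL `ty`-generic twin of `Fermat.Agent.S38.IA.Hecke.Asm5`  (helper3, by script)

Only the `ty`-dependent declarations are twinned (suffix `_T`); the others are imported.
-/

set_option autoImplicit false

open Polynomial IsLocalRing

namespace Fermat.Agent.S38.IA.Hecke

variable {ty : Fermat.Agent.S59.Arch.PType}

open Fermat.Agent.S59.Arch Fermat.Agent.S59.TW.H959 Fermat.Agent.S59.TW Fermat.Agent.S59.H765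
open CuspForm

/-- `IA.IAHeckeStatement_T` implies its restriction to `5 ≤ p`. -/
theorem iaHecke5_of_iaHecke_T (h : IAHeckeStatement_T) : IAHecke5Statement_T :=
  fun p _ _ 𝒪 _ _ _ _ _ _ ρbar Smin hh ty hflat ζ hζ Piv hPiv hmod hmin =>
    h p 𝒪 ρbar Smin hh ty hflat ζ hζ Piv hPiv hmod hmin

/-- **Layer 2 of the cell HECKE of row HARD, `5 ≤ p`**: `IAHecke5Statement_T` from its leaves. -/
theorem iaHecke5_of_leaves_T (hPkg : PkgStatement) (hAut : IAAut5Statement_T)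
    (hInx : InertiaExistsStatement) (hIno : InertiaOrderStatement)
    (hCyc : CycloSurjStatement) (hAlg : AlgStatement) : IAHecke5Statement_T := by
  intro p hpF hp5 𝒪 _ _ _ _ _ _ ρbar Smin h ty hflat ζ hζ Piv hPiv hmod hmin
  obtain ⟨hL, θ₀, hθ₀⟩ := hmod
  haveI := hL
  obtain ⟨d, hd, hA⟩ := hAut p hp5 𝒪 ρbar Smin h ty hflat ζ hζ Piv hPiv θ₀ hθ₀ hmin
  refine ⟨d, hd, ?_⟩
  intro n r qv hq
  obtain ⟨-, hqv, hfrob⟩ := id hq
  have hPivP : ∀ q ∈ Piv, q.Prime := fun q hq' => (hPiv q hq').1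
  have hdisj : ∀ q ∈ Piv, q ∉ Smin := fun q hq' => (hPiv q hq').2.1
  -- the level `Q`
  have hQP : ∀ q ∈ Finset.univ.image qv, q.Prime := by
    intro q hq'
    obtain ⟨j, -, rfl⟩ := Finset.mem_image.mp hq'
    exact (hqv j).1
  have hSigP : ∀ q ∈ Smin ∪ Piv ∪ Finset.univ.image qv, q.Prime := by
    intro q hq'
    rcases Finset.mem_union.mp hq' with h' | h'
    · rcases Finset.mem_union.mp h' with h'' | h''
      · exact h.hSmin q h''
      · exact hPivP q h''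
    · exact hQP q h'
  have hsub : Smin ⊆ Smin ∪ Piv ∪ Finset.univ.image qv :=
    Finset.subset_union_left.trans Finset.subset_union_left
  have hNQ : NeZero (wilesLevel p ty Smin (Smin ∪ Piv ∪ Finset.univ.image qv)) :=
    ⟨wilesLevel_ne_zero hpF.out h.hSmin hSigP⟩
  have hp := levelPairIA_T (ty := ty) p h.hSmin hPivP hQP hdisj h.hpSmin
  have hθQ : Fermat.Agent.S59.G4.ResFrobCond ρbar (θ₀.comp (oldRestrict hp)) :=
    resFrobCond_comp hp hθ₀
  obtain ⟨PQ, hθPQ⟩ := hPkg p 𝒪 ρbar Smin h ty hflat (Smin ∪ Piv ∪ Finset.univ.image qv)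
    hsub hSigP (θ₀.comp (oldRestrict hp)) hθQ
  obtain ⟨A, hCmp⟩ := hA n r qv hq hp PQ hθPQ
  -- primitive roots, places, Frobenius and inertia elements, eigenvalues
  choose g hgord hggen using fun j => exists_primitive_root_units (hqv j).1
  choose Pv φv hPv hφv using fun j => Fermat.Agent.S54.exists_frobenius (qv j) (hqv j).1
  choose σv hσv hcyc using fun j => hCyc (qv j) (hqv j).1 (Pv j) (hPv j) (g j)
  choose α β hαβ hchar using fun j => hfrob j (Pv j) (hPv j) (φv j) (hφv j)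
  choose αv hαv using fun j => residue_surjective (α j)
  -- inertia values
  have hcharT : ∀ j, LinearMap.charpoly (PQ.H.ρ.residual.ρ (φv j)) =
      (X - C (residue PQ.T (algebraMap 𝒪 PQ.T (αv j)))) *
        (X - C (ResidueField.map (algebraMap 𝒪 PQ.T) (β j))) := by
    intro j
    rw [charpoly_eq_of_residual_isEquiv PQ.hres, charpoly_residual_baseChangeAlong, hchar j,
      Polynomial.map_mul, Polynomial.map_sub, Polynomial.map_sub, Polynomial.map_X,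
      Polynomial.map_C, Polynomial.map_C, ← hαv j, ResidueField.map_residue]
  have hne : ∀ j, residue PQ.T (algebraMap 𝒪 PQ.T (αv j)) ≠
      ResidueField.map (algebraMap 𝒪 PQ.T) (β j) := by
    intro j hj
    rw [← ResidueField.map_residue, hαv j] at hj
    exact hαβ j ((ResidueField.map (algebraMap 𝒪 PQ.T)).injective hj)
  choose w hw using fun j => hInx PQ.T PQ.H.ρ (φv j) (σv j) (algebraMap 𝒪 PQ.T (αv j))
    (ResidueField.map (algebraMap 𝒪 PQ.T) (β j)) (hne j) (hcharT j)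
  -- the order of the inertia values
  haveI : Finite (ResidueField PQ.T) := by
    refine Finite.of_surjective (ResidueField.map (algebraMap 𝒪 PQ.T)) ?_
    intro x
    obtain ⟨y, hy⟩ := PQ.H.residue_surjective x
    exact ⟨residue 𝒪 y, by rw [ResidueField.map_residue]; exact hy⟩
  have hpT : (p : PQ.T) ∈ maximalIdeal PQ.T := by
    have h1 := h.hp𝒪
    rw [mem_maximalIdeal, mem_nonunits_iff] at h1 ⊢
    intro hu
    apply h1
    have : IsUnit (algebraMap 𝒪 PQ.T (p : 𝒪)) := by rwa [map_natCast]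
    exact IsLocalHom.map_nonunit _ this
  have hdet : PQ.H.ρ.DetIsCyclotomic p := by
    have h1 := PQ.hcond.1
    cases ty
    · exact h1.1
    · exact h1.1
    · exact h1.1
  have hqS : ∀ j, qv j ∉ Smin := fun j hj => (hqv j).2.1 (Finset.mem_union_left _ hj)
  have hqp : ∀ j, qv j ≠ p := by
    intro j hj
    exact hqS j (hj ▸ h.hpSmin)
  have hunr : ∀ j, PQ.H.ρ.residual.IsUnramifiedAt (qv j) := by
    intro j
    refine isUnramifiedAt_of_residual_isEquiv' PQ.hres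
      (isUnramifiedAt_residual_baseChangeAlong _ ?_)
    by_contra hcon
    exact hqS j ((h.hmin (qv j) (hqv j).1 (hqp j)).mpr hcon)
  have hpq : ∀ j, p ∣ qv j - 1 := fun j =>
    Dvd.dvd.trans (dvd_pow_self p (Nat.succ_ne_zero n)) (hqv j).2.2
  have hord : ∀ j, w j ^ (p ^ padicValNat p (qv j - 1)) = 1 := by
    intro j
    obtain ⟨w', -, h2, -⟩ := hIno p PQ.T hpT PQ.H.ρ hdet (qv j) (hqv j).1 (hqp j) (hpq j)
      (hunr j) (Pv j) (hPv j) (φv j) (hφv j) (σv j) (hσv j) _ (w j) (hw j)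
    exact h2
  -- the comparison
  have hrange : ∀ (j : Fin r) (y : A.MQ),
      (∃ y' : A.MQ, y = w j • y' - y') ↔ ∃ y' : A.MQ, y = A.dia (Pi.mulSingle j (g j)) y' - y' :=
    fun j => hCmp j (Pv j) (hPv j) (φv j) (hφv j) (σv j) (hσv j) (g j) (hgord j) (hcyc j) _
      (w j) (hw j)
  -- the basis
  have hn : ∀ j, n ≤ padicValNat p (qv j - 1) := by
    intro j
    have h0 : qv j - 1 ≠ 0 := Nat.sub_ne_zero_of_lt (hqv j).1.one_lt
    exact (Nat.le_succ n).trans ((padicValNat_dvd_iff_le h0).mp (hqv j).2.2)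
  have hX : ∀ j, A.dia (Pi.mulSingle j (g j)) ^ (p ^ padicValNat p (qv j - 1)) = 1 := by
    intro j
    rw [← map_pow, ← A.dia_pow (Pi.mulSingle j (g j))]
    congr 1
    funext i
    by_cases hij : i = j
    · subst hij
      simp only [Pi.pow_apply, Pi.mulSingle_eq_same]
    · simp only [Pi.pow_apply, Pi.mulSingle_eq_of_ne hij, one_pow]
  have hpJ : (p : 𝒪) ∈ Ideal.jacobson (⊥ : Ideal 𝒪) := by
    rw [IsLocalRing.jacobson_eq_maximalIdeal ⊥ bot_ne_top]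
    exact h.hp𝒪
  obtain ⟨b, hb⟩ := A.free g hgord
  have hgrb : IsGroupRingBasis 𝒪 (p ^ n) w b :=
    hAlg p hpF.out h.hp2 𝒪 hpJ PQ.T A.MQ r (fun j => (ZMod (qv j))ˣ)
      (fun j => padicValNat p (qv j - 1)) n hn A.dia g hX d b hb w hord hrange
  exact ⟨hNQ, PQ, A.MQ, inferInstance, inferInstance, w, b, hgrb,
    fun i => sub_one_mem_maximalIdeal_of_pow_eq_one hpF.out hpT (hord i), A.supp_nu, A.st⟩

end Fermat.Agent.S38.IA.Hecke

end
-- ===== PACK-END S38T/IA/Hecke/Asm5.lean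

-- ===== PACK-BEGIN S38/H473/KillGen.lean
section






/-!
# Row S59 (moonshot), cell (B2) — the KILL glue of Ihara avoidance, GENERIC  (helper473)

The glue `IAFree → IANuPt → IANu`, `IAFree → IAStPt → IASt` of row HARD (`PtGlue.lean`) is
stated in the vocabulary of `Hecke/Spec3.lean`, which is hard-wired to the type `.flat` and
carries `5 ≤ p` as a binder.  Neither is used: here is the same proof for

* ANY type `t : PType` and ANY set `Sig` (`PQ : HeckePkg p 𝒪 ρbar t Smin Sig`),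
* ANY base level `N₀` (`K = KG p N₀ (Sum.elim pv qv) = Γ₀(N₀) ∩ Γ_H(pv ∪ qv)`),
* ANY sets `Tset`, `Uset` of the localisation `V`,
* ANY prime `p` (no `5 ≤ p`, not even `p ≠ 2`).

Objects (all reducible to the expanded vocabulary `diamondU (isMid_KG ..) (gLift ..)
(pairU a₁ a₂)`, so that any frozen `t`-generic twin of the Spec3 objects matches by `rfl`; for
`N₀ = wilesLevel p .flat Smin Smin` they ARE the Spec3 objects, see `KillGenTest.lean`):
`XG`, `diaG`, `chiRelG`, `FreeAtG`.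

Main results:
* `diaG_mem`, `a_diaG`, `diaLinG`, `VModG` : the generic twins of the pieces of glue B
  (`GlueB1/B2/B3`, helper3);
* `chiRelG_saturated` : `V / chiRelG χ V` has no `𝒪`-torsion (from the basis of FREE);
* `kill_gen` : an element of `T_Q` vanishing at every local `p`-adic point through the
  annihilator of `V / chiRelG χ V` maps `V` into `chiRelG χ V`;
* `kill_gen_expanded` : the same with NO definition of this file in the statement.
-/

set_option autoImplicit false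
set_option linter.unusedSectionVars false
set_option linter.style.haveILetI false

open Polynomial IsLocalRing CongruenceSubgroup
open scoped MatrixGroups

namespace Fermat.Agent.S38.H473.Gen

open Fermat.Agent.S59.Arch Fermat.Agent.S59.TW.H959 Fermat.Agent.S59.TW Fermat.Agent.S59.H765
open Fermat.Agent.S59.TW.H653 Fermat.Agent.S59.TW.Aut
open Fermat.Agent.S38.IA Fermat.Agent.S38.IA.Hecke
open Fermat.Agent.S38.H473
open CuspForm

/-! ## The objects -/

section Obj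

variable (p N₀ : ℕ) {k r : ℕ} (pv : Fin k → ℕ) (qv : Fin r → ℕ)

/-- The Betti module `X_K(𝒪) = Hom(K, 𝒪)`, `K = Γ₀(N₀) ∩ Γ_H(pv ∪ qv)`. -/
abbrev XG (𝒪 : Type) [CommRing 𝒪] : Type := Additive (KG p N₀ (Sum.elim pv qv)) →+ 𝒪

/-- The plain diamond operator of `(a₁, a₂) ∈ ∏ (ℤ/pv i)ˣ × ∏ (ℤ/qv j)ˣ` on `X_K(𝒪)`. -/
noncomputable def diaG (𝒪 : Type) [CommRing 𝒪] (a₁ : ∀ i : Fin k, (ZMod (pv i))ˣ)
    (a₂ : ∀ j : Fin r, (ZMod (qv j))ˣ) (x : XG p N₀ pv qv 𝒪) : XG p N₀ pv qv 𝒪 :=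
  diamondU (isMid_KG p N₀ (Sum.elim pv qv)) (gLift N₀ (Sum.elim pv qv) (pairU a₁ a₂)) x

/-- The `χ`-relations in `V`: the `𝒪`-span of the `⟨a₁⟩ y - χ(a₁) y`, `y ∈ V`. -/
noncomputable def chiRelG {𝒪 : Type} [CommRing 𝒪] (χ : (∀ i : Fin k, (ZMod (pv i))ˣ) →* 𝒪)
    (V : Submodule 𝒪 (XG p N₀ pv qv 𝒪)) : Submodule 𝒪 (XG p N₀ pv qv 𝒪) :=
  Submodule.span 𝒪 {w | ∃ (a₁ : ∀ i : Fin k, (ZMod (pv i))ˣ) (y : XG p N₀ pv qv 𝒪),
    y ∈ V ∧ w = diaG p N₀ pv qv 𝒪 a₁ 1 y - χ a₁ • y}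

/-- **FREE at `V`, rank `d`** (shape of `IAFreeAt`). -/
def FreeAtG {𝒪 : Type} [CommRing 𝒪] (V : Submodule 𝒪 (XG p N₀ pv qv 𝒪)) (d : ℕ) : Prop :=
  ∀ (g₁ : ∀ i : Fin k, (ZMod (pv i))ˣ) (g₂ : ∀ j : Fin r, (ZMod (qv j))ˣ),
    (∀ i, orderOf (g₁ i) = pv i - 1) → (∀ j, orderOf (g₂ j) = qv j - 1) →
    ∃ b : Fin d → V, ∀ y : V,
      ∃! c : Fin d → (∀ i : Fin k, Fin (p ^ padicValNat p (pv i - 1))) ×
          (∀ j : Fin r, Fin (p ^ padicValNat p (qv j - 1))) → 𝒪,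
        (y : XG p N₀ pv qv 𝒪) =
          ∑ i, ∑ e, c i e • diaG p N₀ pv qv 𝒪 (fun i' => g₁ i' ^ (e.1 i' : ℕ))
            (fun j => g₂ j ^ (e.2 j : ℕ)) (b i)

end Obj

/-! ## The diamond operators (twin of `GlueB1`) -/

section Dia

variable (p N₀ : ℕ) {k r : ℕ} (pv : Fin k → ℕ) (qv : Fin r → ℕ)
  (𝒪 : Type) [CommRing 𝒪]

theorem diaG_add (a₁ : ∀ i : Fin k, (ZMod (pv i))ˣ) (a₂ : ∀ j : Fin r, (ZMod (qv j))ˣ)
    (x y : XG p N₀ pv qv 𝒪) :
    diaG p N₀ pv qv 𝒪 a₁ a₂ (x + y) =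
      diaG p N₀ pv qv 𝒪 a₁ a₂ x + diaG p N₀ pv qv 𝒪 a₁ a₂ y := rfl

theorem diaG_smul (a₁ : ∀ i : Fin k, (ZMod (pv i))ˣ) (a₂ : ∀ j : Fin r, (ZMod (qv j))ˣ)
    (c : 𝒪) (x : XG p N₀ pv qv 𝒪) :
    diaG p N₀ pv qv 𝒪 a₁ a₂ (c • x) = c • diaG p N₀ pv qv 𝒪 a₁ a₂ x := rfl

variable [NeZero (gLevel N₀ (Sum.elim pv qv))]
  (hsurj : Function.Surjective (gRed N₀ (Sum.elim pv qv)))

include hsurj in
theorem diaG_one (x : XG p N₀ pv qv 𝒪) : diaG p N₀ pv qv 𝒪 1 1 x = x := by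
  unfold diaG
  rw [pairU_one]
  exact diamondU_gLift_one p _ _ hsurj x

include hsurj in
theorem diaG_mul (a₁ b₁ : ∀ i : Fin k, (ZMod (pv i))ˣ) (a₂ b₂ : ∀ j : Fin r, (ZMod (qv j))ˣ)
    (x : XG p N₀ pv qv 𝒪) :
    diaG p N₀ pv qv 𝒪 (a₁ * b₁) (a₂ * b₂) x =
      diaG p N₀ pv qv 𝒪 a₁ a₂ (diaG p N₀ pv qv 𝒪 b₁ b₂ x) := by
  unfold diaG
  rw [pairU_mul]
  exact diamondU_gLift_mul p _ _ hsurj _ _ x

include hsurj in
theorem diaG_pow (a₁ : ∀ i : Fin k, (ZMod (pv i))ˣ) (a₂ : ∀ j : Fin r, (ZMod (qv j))ˣ)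
    (x : XG p N₀ pv qv 𝒪) :
    diaG p N₀ pv qv 𝒪 (fun i => a₁ i ^ p ^ padicValNat p (pv i - 1))
      (fun j => a₂ j ^ p ^ padicValNat p (qv j - 1)) x = x := by
  unfold diaG
  exact diamondU_gLift_of_mem p _ _ hsurj (pairU_mem_gPowSub p a₁ a₂) x

end Dia

/-! ## `V` as a module over a ring acting on it (twin of `VMod`) -/

section Mod

variable {𝒪 : Type} [CommRing 𝒪] {X : Type} [AddCommGroup X] [Module 𝒪 X]
  {T : Type} [CommRing T] [Algebra 𝒪 T]

/-- `V` with the action of `T` through `a`. -/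
def VModG (V : Submodule 𝒪 X) (_a : T →ₐ[𝒪] Module.End 𝒪 V) : Type := V

variable {V : Submodule 𝒪 X} {a : T →ₐ[𝒪] Module.End 𝒪 V}

noncomputable instance : AddCommGroup (VModG V a) := inferInstanceAs (AddCommGroup V)

noncomputable instance : Module T (VModG V a) :=
  Module.compHom V (a : T →+* Module.End 𝒪 V)

/-- The identification `VModG V a = V`. -/
noncomputable def VModG.mk (v : V) : VModG V a := v

/-- The identification `VModG V a = V`. -/
noncomputable def VModG.val (v : VModG V a) : V := v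

theorem VModG.smul_def (t : T) (v : VModG V a) : t • v = VModG.mk (a t (VModG.val v)) := rfl

theorem VModG.algebraMap_smul (c : 𝒪) (v : VModG V a) :
    algebraMap 𝒪 T c • v = VModG.mk (c • VModG.val v) := by
  rw [VModG.smul_def, AlgHom.commutes]
  rfl

end Mod

/-! ## The glue -/

section Glue

variable {p : ℕ} [hpF : Fact p.Prime]
  {𝒪 : Type} [CommRing 𝒪] [IsDomain 𝒪] [IsDiscreteValuationRing 𝒪]
  [IsAdicComplete (maximalIdeal 𝒪) 𝒪]
  {ρbar : ResidualGaloisRep (ResidueField 𝒪)} {t : PType} {Smin Sig : Finset ℕ}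
  {N₀ : ℕ} {k r : ℕ} {pv : Fin k → ℕ} {qv : Fin r → ℕ}
  [NeZero (wilesLevel p t Smin Sig)]
  {PQ : HeckePkg p 𝒪 ρbar t Smin Sig}
  {Tset Uset : Set (ℕ × 𝒪)} {V : Submodule 𝒪 (XG p N₀ pv qv 𝒪)} {h : ℕ}
  {a : PQ.T →ₐ[𝒪] Module.End 𝒪 V}
  [NeZero (gLevel N₀ (Sum.elim pv qv))]
  (hV : IsLocPart (isMid_KG p N₀ (Sum.elim pv qv)) Tset Uset V)
  (hsurj : Function.Surjective (gRed N₀ (Sum.elim pv qv)))

/-- `V` is stable under the diamond operators. -/
theorem diaG_mem (hV : IsLocPart (isMid_KG p N₀ (Sum.elim pv qv)) Tset Uset V)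
    (a₁ : ∀ i : Fin k, (ZMod (pv i))ˣ)
    (a₂ : ∀ j : Fin r, (ZMod (qv j))ˣ) {x : XG p N₀ pv qv 𝒪} (hx : x ∈ V) :
    diaG p N₀ pv qv 𝒪 a₁ a₂ x ∈ V := by
  obtain ⟨e, -, he2, he3, -, -, heD, -⟩ := IsLocPart.exists_proj hV
  have h1 := heD (gLift N₀ (Sum.elim pv qv) (pairU a₁ a₂)) x
  rw [he3 x hx] at h1
  unfold diaG
  rw [← h1]
  exact he2 _

/-- The action of `T_Q` commutes with the diamond operators. -/
theorem a_diaG (hV : IsLocPart (isMid_KG p N₀ (Sum.elim pv qv)) Tset Uset V)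
    (ha : ActsBy PQ V a (tOpTw (isMid_KG p N₀ (Sum.elim pv qv)) 𝒪 h))
    (hsig : ∀ q : ℕ, q.Prime → q ∣ wilesLevel p t Smin Sig → q ∈ (↑Sig : Set ℕ))
    (hM : ∀ ℓ : ℕ, ℓ.Prime → ¬ ℓ ∣ wilesLevel p t Smin Sig → ℓ ∉ (↑Sig : Set ℕ) →
      ¬ ℓ ∣ gLevel N₀ (Sum.elim pv qv))
    (a₁ : ∀ i : Fin k, (ZMod (pv i))ˣ) (a₂ : ∀ j : Fin r, (ZMod (qv j))ˣ) (s : PQ.T) :
    ∀ v : V, ((a s ⟨diaG p N₀ pv qv 𝒪 a₁ a₂ v, diaG_mem hV a₁ a₂ v.2⟩ : V) :
        XG p N₀ pv qv 𝒪) = diaG p N₀ pv qv 𝒪 a₁ a₂ ((a s v : V) : XG p N₀ pv qv 𝒪) := by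
  refine pkg_induction PQ hsig
    (fun s => ∀ v : V, ((a s ⟨diaG p N₀ pv qv 𝒪 a₁ a₂ v, diaG_mem hV a₁ a₂ v.2⟩ : V) :
        XG p N₀ pv qv 𝒪) = diaG p N₀ pv qv 𝒪 a₁ a₂ ((a s v : V) : XG p N₀ pv qv 𝒪))
    ?_ ?_ ?_ ?_ s
  · intro c v
    rw [AlgHom.commutes, Module.algebraMap_end_apply, Module.algebraMap_end_apply,
      Submodule.coe_smul, Submodule.coe_smul, diaG_smul]
  · intro x y hx hy v
    rw [map_add, LinearMap.add_apply, LinearMap.add_apply, Submodule.coe_add,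
      Submodule.coe_add, diaG_add, hx v, hy v]
  · intro x y hx hy v
    rw [map_mul, Module.End.mul_apply, Module.End.mul_apply]
    have h1 : a y ⟨diaG p N₀ pv qv 𝒪 a₁ a₂ v, diaG_mem hV a₁ a₂ v.2⟩ =
        ⟨diaG p N₀ pv qv 𝒪 a₁ a₂ ((a y v : V) : XG p N₀ pv qv 𝒪),
          diaG_mem hV a₁ a₂ (a y v).2⟩ := Subtype.ext (hy v)
    rw [h1]
    exact hx (a y v)
  · intro ℓ hℓ hℓN hℓS v
    haveI : Fact ℓ.Prime := ⟨hℓ⟩
    have hℓM : ¬ ℓ ∣ gLevel N₀ (Sum.elim pv qv) := hM ℓ hℓ hℓN hℓS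
    rw [ha ℓ hℓ hℓN hℓS, ha ℓ hℓ hℓN hℓS]
    unfold tOpTw tOp diaG
    have h1 := diamondU_TK (A := 𝒪) (isMid_KG p N₀ (Sum.elim pv qv)) hℓM
      (gLift N₀ (Sum.elim pv qv) (pairU a₁ a₂))
      (v : XG p N₀ pv qv 𝒪)
    rw [show (⟨diamondU (isMid_KG p N₀ (Sum.elim pv qv))
        (gLift N₀ (Sum.elim pv qv) (pairU a₁ a₂))
        (v : XG p N₀ pv qv 𝒪), diaG_mem hV a₁ a₂ v.2⟩ : V).1 =
        diamondU (isMid_KG p N₀ (Sum.elim pv qv))
        (gLift N₀ (Sum.elim pv qv) (pairU a₁ a₂))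
        (v : XG p N₀ pv qv 𝒪) from rfl]
    rw [h1]
    exact diamondU_comm' p _ _ _ _ _

/-- The diamond action on `V`, `𝒪`-linearly. -/
noncomputable def diaLinG :
    (∀ i : Fin k, (ZMod (pv i))ˣ) × (∀ j : Fin r, (ZMod (qv j))ˣ) →* Module.End 𝒪 V where
  toFun d :=
    { toFun := fun v => ⟨diaG p N₀ pv qv 𝒪 d.1 d.2 v, diaG_mem hV d.1 d.2 v.2⟩
      map_add' := fun x y => Subtype.ext (diaG_add p N₀ pv qv 𝒪 d.1 d.2 _ _)
      map_smul' := fun c x => Subtype.ext (diaG_smul p N₀ pv qv 𝒪 d.1 d.2 c _) }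
  map_one' := by
    refine LinearMap.ext fun v => Subtype.ext ?_
    exact diaG_one p N₀ pv qv 𝒪 hsurj _
  map_mul' d d' := by
    refine LinearMap.ext fun v => Subtype.ext ?_
    exact diaG_mul p N₀ pv qv 𝒪 hsurj _ _ _ _ _

theorem coe_diaLinG (d : (∀ i : Fin k, (ZMod (pv i))ˣ) × (∀ j : Fin r, (ZMod (qv j))ˣ))
    (v : V) :
    ((diaLinG hV hsurj d v : V) : XG p N₀ pv qv 𝒪) = diaG p N₀ pv qv 𝒪 d.1 d.2 v := rfl

/-- The diamond action of the pivot group `∏ (ℤ/pv i)ˣ` on `V`. -/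
noncomputable def diaPivG : (∀ i : Fin k, (ZMod (pv i))ˣ) →* Module.End 𝒪 V :=
  (diaLinG hV hsurj).comp (MonoidHom.inl _ _)

theorem coe_diaPivG (a₁ : ∀ i : Fin k, (ZMod (pv i))ˣ) (v : V) :
    ((diaPivG hV hsurj a₁ v : V) : XG p N₀ pv qv 𝒪) = diaG p N₀ pv qv 𝒪 a₁ 1 v := rfl

/-- `chiRelG χ V` is the image of the `χ`-relations of the pivot action on `V`. -/
theorem chiRelG_eq_map (χ : (∀ i : Fin k, (ZMod (pv i))ˣ) →* 𝒪) :
    chiRelG p N₀ pv qv χ V =
      (chiRelSpan (V := V) (diaPivG hV hsurj) χ).map V.subtype := by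
  unfold chiRelG chiRelSpan
  rw [Submodule.map_span]
  congr 1
  ext w
  constructor
  · rintro ⟨a₁, y, hy, rfl⟩
    exact ⟨diaPivG hV hsurj a₁ ⟨y, hy⟩ - χ a₁ • ⟨y, hy⟩, ⟨a₁, ⟨y, hy⟩, rfl⟩, rfl⟩
  · rintro ⟨_, ⟨a₁, y, rfl⟩, rfl⟩
    exact ⟨a₁, y, y.2, rfl⟩

theorem mem_chiRelG_iff (χ : (∀ i : Fin k, (ZMod (pv i))ˣ) →* 𝒪) (v : V) :
    (v : XG p N₀ pv qv 𝒪) ∈ chiRelG p N₀ pv qv χ V ↔
      v ∈ chiRelSpan (diaPivG hV hsurj) χ := by
  rw [chiRelG_eq_map hV hsurj χ, Submodule.mem_map]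
  constructor
  · rintro ⟨v', hv', e⟩
    have : v' = v := Subtype.ext e
    rw [← this]
    exact hv'
  · intro hv
    exact ⟨v, hv, rfl⟩

/-! ### The action of `T_Q` preserves the `χ`-relations -/

section Comm

variable (ha : ActsBy PQ V a (tOpTw (isMid_KG p N₀ (Sum.elim pv qv)) 𝒪 h))
  (hsig : ∀ q : ℕ, q.Prime → q ∣ wilesLevel p t Smin Sig → q ∈ (↑Sig : Set ℕ))
  (hM : ∀ ℓ : ℕ, ℓ.Prime → ¬ ℓ ∣ wilesLevel p t Smin Sig → ℓ ∉ (↑Sig : Set ℕ) →
    ¬ ℓ ∣ gLevel N₀ (Sum.elim pv qv))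

include ha hsig hM in
theorem a_diaPivG (s : PQ.T) (a₁ : ∀ i : Fin k, (ZMod (pv i))ˣ) (v : V) :
    a s (diaPivG hV hsurj a₁ v) = diaPivG hV hsurj a₁ (a s v) :=
  Subtype.ext (a_diaG hV ha hsig hM a₁ 1 s v)

include ha hsig hM in
/-- The action of `T_Q` preserves the `χ`-relations. -/
theorem a_mem_chiRelSpanG (χ : (∀ i : Fin k, (ZMod (pv i))ˣ) →* 𝒪) (s : PQ.T) (v : V)
    (h0 : v ∈ chiRelSpan (V := V) (diaPivG hV hsurj) χ) :
    a s v ∈ chiRelSpan (V := V) (diaPivG hV hsurj) χ := by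
  have hf : ∀ (a₁ : ∀ i : Fin k, (ZMod (pv i))ˣ) (y : V),
      a s (diaPivG hV hsurj a₁ y) = diaPivG hV hsurj a₁ (a s y) := by
    intro a₁ y
    exact a_diaPivG hV hsurj ha hsig hM s a₁ y
  have key := @map_mem_chiRelSpan 𝒪 _ V _ _ _ _ (diaPivG hV hsurj) χ (a s)
  exact key hf h0

/-- The `χ`-relations as a `T_Q`-submodule of `VModG V a`. -/
noncomputable def relSubG (χ : (∀ i : Fin k, (ZMod (pv i))ˣ) →* 𝒪) :
    Submodule PQ.T (VModG V a) where
  carrier := {v | VModG.val v ∈ chiRelSpan (V := V) (diaPivG hV hsurj) χ}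
  add_mem' := by
    intro x y hx hy
    have h1 : VModG.val x + VModG.val y ∈ chiRelSpan (V := V) (diaPivG hV hsurj) χ :=
      Submodule.add_mem _ hx hy
    exact h1
  zero_mem' := by
    have h1 : (0 : V) ∈ chiRelSpan (V := V) (diaPivG hV hsurj) χ := Submodule.zero_mem _
    exact h1
  smul_mem' := by
    intro s v hv
    have h0 : VModG.val v ∈ chiRelSpan (V := V) (diaPivG hV hsurj) χ := hv
    have h1 := a_mem_chiRelSpanG hV hsurj ha hsig hM χ s (VModG.val v) h0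
    show VModG.val (s • v) ∈ chiRelSpan (V := V) (diaPivG hV hsurj) χ
    rw [VModG.smul_def]
    exact h1

theorem mem_relSubG (χ : (∀ i : Fin k, (ZMod (pv i))ˣ) →* 𝒪) (v : VModG V a) :
    v ∈ relSubG hV hsurj ha hsig hM χ ↔
      VModG.val v ∈ chiRelSpan (V := V) (diaPivG hV hsurj) χ := Iff.rfl

end Comm

/-! ### Saturation of `chiRelG χ V` in `V` -/

section Sat

theorem diaPivG_pow (c : ∀ i : Fin k, (ZMod (pv i))ˣ) :
    diaPivG hV hsurj (fun i => c i ^ p ^ padicValNat p (pv i - 1)) = 1 := by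
  refine LinearMap.ext fun v => Subtype.ext ?_
  rw [coe_diaPivG]
  have key := diaG_pow p N₀ pv qv 𝒪 hsurj c 1 (v : XG p N₀ pv qv 𝒪)
  have h1 : (fun j => (1 : ∀ j : Fin r, (ZMod (qv j))ˣ) j ^ p ^ padicValNat p (qv j - 1)) = 1 := by
    funext j
    exact one_pow _
  rw [h1] at key
  exact key

/-- The sum over `(Fin d × E₂) × E₁` is the sum over `Fin d × (E₁ × E₂)`. -/
theorem coe_sum_reindexG {d : ℕ} (g₁ : ∀ i : Fin k, (ZMod (pv i))ˣ)
    (g₂ : ∀ j : Fin r, (ZMod (qv j))ˣ) (b : Fin d → V)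
    (c' : Fin d × (∀ j : Fin r, Fin (p ^ padicValNat p (qv j - 1))) →
      (∀ i : Fin k, Fin (p ^ padicValNat p (pv i - 1))) → 𝒪) :
    ((∑ j : Fin d × (∀ j : Fin r, Fin (p ^ padicValNat p (qv j - 1))),
        ∑ e : (∀ i : Fin k, Fin (p ^ padicValNat p (pv i - 1))),
          c' j e • diaPivG hV hsurj (fun i => g₁ i ^ (e i : ℕ))
            (diaLinG hV hsurj (1, fun j' => g₂ j' ^ (j.2 j' : ℕ)) (b j.1)) : V) :
        XG p N₀ pv qv 𝒪) =
      ∑ i : Fin d, ∑ e : (∀ i : Fin k, Fin (p ^ padicValNat p (pv i - 1))) ×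
          (∀ j : Fin r, Fin (p ^ padicValNat p (qv j - 1))),
        c' (i, e.2) e.1 • diaG p N₀ pv qv 𝒪 (fun i' => g₁ i' ^ (e.1 i' : ℕ))
          (fun j => g₂ j ^ (e.2 j : ℕ)) (b i) := by
  rw [Submodule.coe_sum, Fintype.sum_prod_type]
  refine Finset.sum_congr rfl fun i _ => ?_
  rw [Fintype.sum_prod_type, Finset.sum_comm]
  refine Finset.sum_congr rfl fun e₂ _ => ?_
  rw [Submodule.coe_sum]
  refine Finset.sum_congr rfl fun e₁ _ => ?_
  rw [Submodule.coe_smul]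
  congr 1
  show diaG p N₀ pv qv 𝒪 (fun i => g₁ i ^ (e₁ i : ℕ)) 1
      (diaG p N₀ pv qv 𝒪 1 (fun j' => g₂ j' ^ (e₂ j' : ℕ)) (b i)) = _
  rw [← diaG_mul p N₀ pv qv 𝒪 hsurj, mul_one, one_mul]

include hpF in
/-- **`V / chiRelG χ V` has no `𝒪`-torsion** (from the basis of FREE). -/
theorem chiRelG_saturated (hpvP : ∀ i, (pv i).Prime) (hpvd : ∀ i, p ∣ pv i - 1)
    (hqvP : ∀ j, (qv j).Prime) {d : ℕ} (hfree : FreeAtG p N₀ pv qv V d)
    (χ : (∀ i : Fin k, (ZMod (pv i))ˣ) →* 𝒪) (hχ : ∀ a₁, χ a₁ ^ p = 1)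
    {l : 𝒪} (hl : l ≠ 0) {v : V}
    (hv : l • v ∈ chiRelSpan (V := V) (diaPivG hV hsurj) χ) :
    v ∈ chiRelSpan (V := V) (diaPivG hV hsurj) χ := by
  haveI : ∀ i, NeZero (pv i) := fun i => ⟨(hpvP i).ne_zero⟩
  haveI : ∀ j, NeZero (qv j) := fun j => ⟨(hqvP j).ne_zero⟩
  choose g₁ hg₁ hgen₁ using fun i => exists_primitive_root_units (hpvP i)
  choose g₂ hg₂ _ using fun j => exists_primitive_root_units (hqvP j)
  have hm₁ : ∀ i, 0 < p ^ padicValNat p (pv i - 1) := fun i => pow_pos hpF.out.pos _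
  have hm1 : ∀ i, 1 ≤ padicValNat p (pv i - 1) := fun i =>
    one_le_padicValNat_of_dvd (Nat.sub_ne_zero_of_lt (hpvP i).one_lt) (hpvd i)
  obtain ⟨b, hb⟩ := hfree g₁ g₂ hg₁ hg₂
  refine mem_chiRelSpan_of_smul_mem
    (E := (∀ i : Fin k, Fin (p ^ padicValNat p (pv i - 1))))
    (J := Fin d × (∀ j : Fin r, Fin (p ^ padicValNat p (qv j - 1))))
    (γ := fun e i => g₁ i ^ (e i : ℕ))
    (b := fun j => diaLinG hV hsurj (1, fun j' => g₂ j' ^ (j.2 j' : ℕ)) (b j.1))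
    (comboMap_bijective_of_existsUnique ?_) ?_ hl hv
  · -- the basis
    intro y
    obtain ⟨c, hc, hcu⟩ := hb y
    refine ⟨fun j e => c j.1 (e, j.2), ?_, ?_⟩
    · apply Subtype.ext
      rw [coe_sum_reindexG hV hsurj g₁ g₂ b]
      exact hc
    · intro c' hc'
      have h1 := congrArg Subtype.val hc'
      rw [coe_sum_reindexG hV hsurj g₁ g₂ b] at h1
      have h2 := hcu (fun i e => c' (i, e.2) e.1) h1
      funext j e
      rw [← h2]
  · -- the exponents are permuted, compatibly with `χ`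
    intro a₁ e
    choose e₁ c₁ h₁ using fun i => exists_translate (hgen₁ i) (hm₁ i) (a₁ i) (e i)
    have h3 : a₁ * (fun i => g₁ i ^ (e i : ℕ)) =
        (fun i => g₁ i ^ (e₁ i : ℕ)) * fun i => c₁ i ^ p ^ padicValNat p (pv i - 1) :=
      funext h₁
    refine ⟨e₁, ?_, ?_⟩
    · rw [h3, map_mul, diaPivG_pow hV hsurj c₁, mul_one]
    · have h5 : (fun i => c₁ i ^ p ^ padicValNat p (pv i - 1)) =
          (fun i => c₁ i ^ p ^ (padicValNat p (pv i - 1) - 1)) ^ p := by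
        funext i
        rw [Pi.pow_apply, ← pow_mul, ← pow_succ, Nat.sub_add_cancel (hm1 i)]
      rw [h3, map_mul, h5, map_pow, hχ, mul_one]

end Sat

/-! ### From the points to the module -/

section Kill

variable [Finite (ResidueField 𝒪)] [CharZero 𝒪]
  (ha : ActsBy PQ V a (tOpTw (isMid_KG p N₀ (Sum.elim pv qv)) 𝒪 h))
  (hsig : ∀ q : ℕ, q.Prime → q ∣ wilesLevel p t Smin Sig → q ∈ (↑Sig : Set ℕ))
  (hM : ∀ ℓ : ℕ, ℓ.Prime → ¬ ℓ ∣ wilesLevel p t Smin Sig → ℓ ∉ (↑Sig : Set ℕ) →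
    ¬ ℓ ∣ gLevel N₀ (Sum.elim pv qv))

include hpF hV hsurj ha hsig hM in
/-- **KILL for `V / chiRelG χ V`, generic.**  An element of `T_Q` vanishing at every local
`p`-adic point through the annihilator of `V / chiRelG χ V` maps `V` into `chiRelG χ V`. -/
theorem kill_gen (hp𝒪 : (p : 𝒪) ∈ maximalIdeal 𝒪)
    (hpvP : ∀ i, (pv i).Prime) (hpvd : ∀ i, p ∣ pv i - 1)
    (hqvP : ∀ j, (qv j).Prime) {d : ℕ} (hfree : FreeAtG p N₀ pv qv V d)
    (χ : (∀ i : Fin k, (ZMod (pv i))ˣ) →* 𝒪) (hχ : ∀ a₁, χ a₁ ^ p = 1) (s : PQ.T)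
    (hs : ∀ P : Fermat.Agent.S31.PadicPoint p PQ.T, IsLocalHom P.χ →
      (∀ s' : PQ.T,
        (∀ v : V, ((a s' v : V) : XG p N₀ pv qv 𝒪) ∈ chiRelG p N₀ pv qv χ V) →
        P.χ s' = 0) → P.χ s = 0) :
    ∀ v : V, ((a s v : V) : XG p N₀ pv qv 𝒪) ∈ chiRelG p N₀ pv qv χ V := by
  haveI : IsReduced PQ.T := Fermat.Agent.S59.G4.H547.red _ _ hsig 𝒪 PQ.θ
  -- no `𝒪`-torsion
  have htf : ∀ l : 𝒪, l ≠ 0 → ∀ m : VModG V a ⧸ relSubG hV hsurj ha hsig hM χ,
      algebraMap 𝒪 PQ.T l • m = 0 → m = 0 := by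
    intro l hl m hm
    obtain ⟨v, rfl⟩ := Submodule.Quotient.mk_surjective _ m
    rw [← Submodule.Quotient.mk_smul, Submodule.Quotient.mk_eq_zero, mem_relSubG,
      VModG.algebraMap_smul] at hm
    rw [Submodule.Quotient.mk_eq_zero, mem_relSubG]
    exact chiRelG_saturated hV hsurj hpvP hpvd hqvP hfree χ hχ hl hm
  -- the annihilator
  have hann : ∀ s' : PQ.T,
      (∀ v : V, ((a s' v : V) : XG p N₀ pv qv 𝒪) ∈ chiRelG p N₀ pv qv χ V) →
      ∀ m : VModG V a ⧸ relSubG hV hsurj ha hsig hM χ, s' • m = 0 := by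
    intro s' hs' m
    obtain ⟨v, rfl⟩ := Submodule.Quotient.mk_surjective _ m
    rw [← Submodule.Quotient.mk_smul, Submodule.Quotient.mk_eq_zero, mem_relSubG,
      VModG.smul_def]
    exact (mem_chiRelG_iff hV hsurj χ _).mp (hs' (VModG.val v))
  have key := Fermat.Agent.S38.H113.kill p hp𝒪 htf s
    (fun P hP hP' => hs P hP (fun s' hs' => hP' s' (hann s' hs')))
  intro v
  have h1 := key (Submodule.Quotient.mk (VModG.mk v))
  rw [← Submodule.Quotient.mk_smul, Submodule.Quotient.mk_eq_zero, mem_relSubG,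
    VModG.smul_def] at h1
  exact (mem_chiRelG_iff hV hsurj χ _).mpr h1

end Kill

end Glue

end Fermat.Agent.S38.H473.Gen

end
-- ===== PACK-END S38/H473/KillGen.lean

-- ===== PACK-BEGIN S38/H473/KillT.lean
section


/-!
# Row S59 (moonshot), cell (B2) — IA-NU / IA-ST from their pointwise forms, ANY type `t`
# (helper473)

On top of `KillGen.lean` (generic KILL): the glue `FREE → NU-pt → NU`, `FREE → ST-pt → ST` at
`(V, a)`, for ANY type `t : PType`, ANY base level, with NO `5 ≤ p`.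

* `ThroughAnnG`, `NuPtAtG`, `StPtAtG` : the pointwise statements (twins of `ThroughAnn`,
  `IANuPtAt`, `IAStPtAt` of `PtSpec.lean`);
* `NuAtG`, `StAtG` : the module statements (twins of `IANuAt`, `IAStAt` of `Hecke/Spec3.lean`);
* `nuAtG_of_pt`, `stAtG_of_pt` : the glue, generic (any `Sig`, any `N₀`, any `Tset`, `Uset`);
* `basic_factsT` : the standing facts at `N₀ = wilesLevel p t Smin Smin`,
  `Sig = Smin ∪ Piv ∪ Q`, for every `t`;
* `nuT_of_pt`, `stT_of_pt` : the glue at these levels, from `ResidualHyp`, `IsPivotSet`,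
  `IsTWSet` (the binders of the leaves of layer 3), for every `t`.
-/

set_option autoImplicit false
set_option linter.unusedSectionVars false
set_option linter.style.haveILetI false

open Polynomial IsLocalRing CongruenceSubgroup
open scoped MatrixGroups

namespace Fermat.Agent.S38.H473.Gen

open Fermat.Agent.S59.Arch Fermat.Agent.S59.TW.H959 Fermat.Agent.S59.TW Fermat.Agent.S59.H765
open Fermat.Agent.S59.TW.H653 Fermat.Agent.S59.TW.Aut
open Fermat.Agent.S38.IA Fermat.Agent.S38.IA.Hecke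
open Fermat.Agent.S38.H473
open CuspForm

/-! ## The statements at `(V, a)` -/

section At

variable {p : ℕ}
  {𝒪 : Type} [CommRing 𝒪] [IsDomain 𝒪] [IsDiscreteValuationRing 𝒪]
  [IsAdicComplete (maximalIdeal 𝒪) 𝒪]
  {ρbar : ResidualGaloisRep (ResidueField 𝒪)} {t : PType} {Smin Sig : Finset ℕ}
  {N₀ : ℕ} {k r : ℕ} {pv : Fin k → ℕ} {qv : Fin r → ℕ}
  [NeZero (wilesLevel p t Smin Sig)]

/-- The point `x` of `T_Q` is through the annihilator of `V / chiRelG χ V`. -/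
def ThroughAnnG (PQ : HeckePkg p 𝒪 ρbar t Smin Sig)
    (V : Submodule 𝒪 (XG p N₀ pv qv 𝒪)) (a : PQ.T →ₐ[𝒪] Module.End 𝒪 V)
    (χ : (∀ i : Fin k, (ZMod (pv i))ˣ) →* 𝒪) {R : Type} [CommRing R] (x : PQ.T →+* R) : Prop :=
  ∀ s : PQ.T, (∀ v : V, ((a s v : V) : XG p N₀ pv qv 𝒪) ∈ chiRelG p N₀ pv qv χ V) →
    x s = 0

/-- **NU at `(V, a)`, pointwise** (twin of `IANuPtAt`). -/
def NuPtAtG (Piv : Finset ℕ) (PQ : HeckePkg p 𝒪 ρbar t Smin Sig)
    (V : Submodule 𝒪 (XG p N₀ pv qv 𝒪)) (a : PQ.T →ₐ[𝒪] Module.End 𝒪 V) : Prop :=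
  ∀ χ : (∀ i : Fin k, (ZMod (pv i))ˣ) →* 𝒪, IsPivChar p pv χ →
    ∀ (P : Fermat.Agent.S31.PadicPoint p PQ.T) (hP : IsLocalHom P.χ),
      ThroughAnnG PQ V a χ P.χ →
      ∀ q ∈ Piv, ¬ (PQ.H.ρ.baseChangeAlong P.χ hP).IsUnipotentOnInertiaAt q

/-- **ST at `(V, a)`, pointwise** (twin of `IAStPtAt`). -/
def StPtAtG (Piv : Finset ℕ) (PQ : HeckePkg p 𝒪 ρbar t Smin Sig)
    (V : Submodule 𝒪 (XG p N₀ pv qv 𝒪)) (a : PQ.T →ₐ[𝒪] Module.End 𝒪 V) : Prop :=
  ∀ (P : Fermat.Agent.S31.PadicPoint p PQ.T), IsLocalHom P.χ →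
    ThroughAnnG PQ V a 1 P.χ →
    ∀ q ∈ Piv, ∀ Pl : ValuationSubring (AlgebraicClosure ℚ), Pl.LiesOverPrime q →
      ∀ φ : AlgebraicClosure ℚ ≃ₐ[ℚ] AlgebraicClosure ℚ, Pl.IsFrobeniusAt φ q →
        P.χ (PQ.H.ρ.trace φ ^ 2 - ((1 + q : ℕ) : PQ.T) ^ 2) = 0

/-- **NU at `(V, a)`** (twin of `IANuAt`). -/
def NuAtG (Piv : Finset ℕ) (PQ : HeckePkg p 𝒪 ρbar t Smin Sig)
    (V : Submodule 𝒪 (XG p N₀ pv qv 𝒪)) (a : PQ.T →ₐ[𝒪] Module.End 𝒪 V) : Prop :=
  ∀ χ : (∀ i : Fin k, (ZMod (pv i))ˣ) →* 𝒪, IsPivChar p pv χ →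
    ∀ s : PQ.T,
      (∀ (𝒪' : Type) [CommRing 𝒪'] [IsDomain 𝒪'] [IsDiscreteValuationRing 𝒪'] [CharZero 𝒪']
          [Algebra 𝒪 𝒪'] (x : PQ.T →ₐ[𝒪] 𝒪') (hx : IsLocalHom (x : PQ.T →+* 𝒪')),
          (∀ q ∈ Piv,
            ¬ (PQ.H.ρ.baseChangeAlong (x : PQ.T →+* 𝒪') hx).IsUnipotentOnInertiaAt q) →
          x s = 0) →
      ∀ v : V, ((a s v : V) : XG p N₀ pv qv 𝒪) ∈ chiRelG p N₀ pv qv χ V

/-- **ST at `(V, a)`** (twin of `IAStAt`). -/
def StAtG (Piv : Finset ℕ) (PQ : HeckePkg p 𝒪 ρbar t Smin Sig)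
    (V : Submodule 𝒪 (XG p N₀ pv qv 𝒪)) (a : PQ.T →ₐ[𝒪] Module.End 𝒪 V) : Prop :=
  ∀ q ∈ Piv, ∀ P : ValuationSubring (AlgebraicClosure ℚ), P.LiesOverPrime q →
    ∀ φ : AlgebraicClosure ℚ ≃ₐ[ℚ] AlgebraicClosure ℚ, P.IsFrobeniusAt φ q →
      ∀ v : V, ((a (PQ.H.ρ.trace φ ^ 2 - ((1 + q : ℕ) : PQ.T) ^ 2) v : V) :
        XG p N₀ pv qv 𝒪) ∈ chiRelG p N₀ pv qv 1 V

end At

/-! ## The glue at `(V, a)`, generic -/

section GlueAt

variable {p : ℕ} [hpF : Fact p.Prime]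
  {𝒪 : Type} [CommRing 𝒪] [IsDomain 𝒪] [IsDiscreteValuationRing 𝒪]
  [IsAdicComplete (maximalIdeal 𝒪) 𝒪] [Finite (ResidueField 𝒪)] [CharZero 𝒪]
  {ρbar : ResidualGaloisRep (ResidueField 𝒪)} {t : PType} {Smin Sig : Finset ℕ}
  {N₀ : ℕ} {k r : ℕ} {pv : Fin k → ℕ} {qv : Fin r → ℕ}
  [NeZero (wilesLevel p t Smin Sig)]
  {PQ : HeckePkg p 𝒪 ρbar t Smin Sig}
  {Tset Uset : Set (ℕ × 𝒪)} {V : Submodule 𝒪 (XG p N₀ pv qv 𝒪)} {h : ℕ}
  {a : PQ.T →ₐ[𝒪] Module.End 𝒪 V}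
  [NeZero (gLevel N₀ (Sum.elim pv qv))]
  (hV : IsLocPart (isMid_KG p N₀ (Sum.elim pv qv)) Tset Uset V)
  (hsurj : Function.Surjective (gRed N₀ (Sum.elim pv qv)))
  (ha : ActsBy PQ V a (tOpTw (isMid_KG p N₀ (Sum.elim pv qv)) 𝒪 h))
  (hsig : ∀ q : ℕ, q.Prime → q ∣ wilesLevel p t Smin Sig → q ∈ (↑Sig : Set ℕ))
  (hM : ∀ ℓ : ℕ, ℓ.Prime → ¬ ℓ ∣ wilesLevel p t Smin Sig → ℓ ∉ (↑Sig : Set ℕ) →
    ¬ ℓ ∣ gLevel N₀ (Sum.elim pv qv))
  (hp𝒪 : (p : 𝒪) ∈ maximalIdeal 𝒪)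
  (hpvP : ∀ i, (pv i).Prime) (hpvd : ∀ i, p ∣ pv i - 1) (hqvP : ∀ j, (qv j).Prime)

include hpF hV hsurj ha hsig hM hp𝒪 hpvP hpvd hqvP in
/-- **NU from its pointwise form**, generic. -/
theorem nuAtG_of_pt {d : ℕ} (hfree : FreeAtG p N₀ pv qv V d) (Piv : Finset ℕ)
    (hpt : NuPtAtG Piv PQ V a) : NuAtG Piv PQ V a := by
  intro χ hχ s hs
  refine kill_gen hV hsurj ha hsig hM hp𝒪 hpvP hpvd hqvP hfree χ hχ.1 s ?_
  intro P hP hthrough
  letI : Algebra 𝒪 P.O := (P.χ.comp (algebraMap 𝒪 PQ.T)).toAlgebra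
  let x : PQ.T →ₐ[𝒪] P.O := { P.χ with commutes' := fun _ => rfl }
  exact hs P.O x hP (hpt χ hχ P hP hthrough)

include hpF hV hsurj ha hsig hM hp𝒪 hpvP hpvd hqvP in
/-- **ST from its pointwise form**, generic. -/
theorem stAtG_of_pt {d : ℕ} (hfree : FreeAtG p N₀ pv qv V d) (Piv : Finset ℕ)
    (hpt : StPtAtG Piv PQ V a) : StAtG Piv PQ V a := by
  intro q hqP Pl hPl φ hφ
  refine kill_gen hV hsurj ha hsig hM hp𝒪 hpvP hpvd hqvP hfree 1
    (fun _ => by rw [MonoidHom.one_apply, one_pow]) _ ?_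
  intro P hP hthrough
  exact hpt P hP hthrough q hqP Pl hPl φ hφ

end GlueAt

/-! ## The standing facts, any type `t` -/

section Facts

variable {p : ℕ} [hpF : Fact p.Prime]
  {𝒪 : Type} [CommRing 𝒪] [IsDomain 𝒪] [IsDiscreteValuationRing 𝒪]
  [IsAdicComplete (maximalIdeal 𝒪) 𝒪]
  {ρbar : ResidualGaloisRep (ResidueField 𝒪)} {Smin Piv : Finset ℕ}
  {k r : ℕ} {pv : Fin k → ℕ} {qv : Fin r → ℕ}

include hpF in
/-- The primes, the Chinese remainder theorem and the levels, for every type `t`. -/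
theorem basic_factsT (t : PType) (h : ResidualHyp p 𝒪 ρbar Smin)
    (hPiv : IsPivotSet p ρbar Smin Piv)
    (hpv : Function.Injective pv) (hpvPiv : Finset.univ.image pv = Piv)
    {n : ℕ} (hq : IsTWSet p ρbar (Smin ∪ Piv) n qv) :
    (∀ i, (pv i).Prime) ∧ (∀ i, p ∣ pv i - 1) ∧ (∀ j, (qv j).Prime) ∧
      Function.Surjective (gRed (wilesLevel p t Smin Smin) (Sum.elim pv qv)) ∧
      gLevel (wilesLevel p t Smin Smin) (Sum.elim pv qv) ≠ 0 ∧
      (∀ q : ℕ, q.Prime →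
        q ∣ wilesLevel p t Smin (Smin ∪ Piv ∪ Finset.univ.image qv) →
        q ∈ (↑(Smin ∪ Piv ∪ Finset.univ.image qv) : Set ℕ)) ∧
      (∀ ℓ : ℕ, ℓ.Prime →
        ¬ ℓ ∣ wilesLevel p t Smin (Smin ∪ Piv ∪ Finset.univ.image qv) →
        ℓ ∉ (↑(Smin ∪ Piv ∪ Finset.univ.image qv) : Set ℕ) →
        ¬ ℓ ∣ gLevel (wilesLevel p t Smin Smin) (Sum.elim pv qv)) := by
  obtain ⟨hqinj, hqv, -⟩ := id hq
  have hpvMem : ∀ i, pv i ∈ Piv := fun i => by
    rw [← hpvPiv]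
    exact Finset.mem_image_of_mem pv (Finset.mem_univ i)
  have hpvP : ∀ i, (pv i).Prime := fun i => (hPiv (pv i) (hpvMem i)).1
  have hpvd : ∀ i, p ∣ pv i - 1 := fun i => (hPiv (pv i) (hpvMem i)).2.2.1
  have hqvP : ∀ j, (qv j).Prime := fun j => (hqv j).1
  have hPivP : ∀ q ∈ Piv, q.Prime := fun q hq' => (hPiv q hq').1
  have hQP : ∀ q ∈ Finset.univ.image qv, q.Prime := by
    intro q hq'
    obtain ⟨j, -, rfl⟩ := Finset.mem_image.mp hq'
    exact hqvP j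
  have hSigP : ∀ q ∈ Smin ∪ Piv ∪ Finset.univ.image qv, q.Prime := by
    intro q hq'
    rcases Finset.mem_union.mp hq' with h' | h'
    · rcases Finset.mem_union.mp h' with h'' | h''
      · exact h.hSmin q h''
      · exact hPivP q h''
    · exact hQP q h'
  have hsub : Smin ⊆ Smin ∪ Piv ∪ Finset.univ.image qv :=
    Finset.subset_union_left.trans Finset.subset_union_left
  have hpvSig : ∀ i, pv i ∈ Smin ∪ Piv ∪ Finset.univ.image qv := fun i =>
    Finset.mem_union_left _ (Finset.mem_union_right _ (hpvMem i))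
  have hqvSig : ∀ j, qv j ∈ Smin ∪ Piv ∪ Finset.univ.image qv := fun j =>
    Finset.mem_union_right _ (Finset.mem_image_of_mem qv (Finset.mem_univ j))
  have hprime : ∀ s, (Sum.elim pv qv s).Prime := by
    intro s
    cases s with
    | inl i => exact hpvP i
    | inr j => exact hqvP j
  have hinj : Function.Injective (Sum.elim pv qv) := by
    intro s s' hss
    cases s with
    | inl i =>
      cases s' with
      | inl i' => exact congrArg Sum.inl (hpv hss)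
      | inr j' =>
        exfalso
        have h1 : pv i = qv j' := hss
        exact (hqv j').2.1 (Finset.mem_union_right _ (h1 ▸ hpvMem i))
    | inr j =>
      cases s' with
      | inl i' =>
        exfalso
        have h1 : qv j = pv i' := hss
        exact (hqv j).2.1 (Finset.mem_union_right _ (h1.symm ▸ hpvMem i'))
      | inr j' => exact congrArg Sum.inr (hqinj hss)
  have hN₀ : wilesLevel p t Smin Smin ≠ 0 := wilesLevel_ne_zero hpF.out h.hSmin h.hSmin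
  refine ⟨hpvP, hpvd, hqvP, gRed_surjective _ _ hN₀ hinj hprime,
    gLevel_ne_zero _ _ hN₀ hprime, ?_, ?_⟩
  · intro q hq' hd'
    exact Finset.mem_coe.mpr
      (Fermat.Agent.S59.Arch.mem_of_prime_dvd_wilesLevel hpF.out h.hSmin hSigP h.hpSmin hsub
        q hq' hd')
  · intro ℓ hℓ _ hℓS hdvd
    apply hℓS
    rcases (Nat.Prime.dvd_mul hℓ).mp hdvd with h1 | h1
    · exact Finset.mem_coe.mpr (hsub (Fermat.Agent.S59.Arch.mem_of_prime_dvd_wilesLevel
        hpF.out h.hSmin h.hSmin h.hpSmin (Finset.Subset.refl _) ℓ hℓ h1))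
    · obtain ⟨s, -, hs⟩ := (Prime.dvd_finsetProd_iff hℓ.prime _).mp h1
      have h2 : ℓ = Sum.elim pv qv s := (Nat.prime_dvd_prime_iff_eq hℓ (hprime s)).mp hs
      rw [h2]
      cases s with
      | inl i => exact Finset.mem_coe.mpr (hpvSig i)
      | inr j => exact Finset.mem_coe.mpr (hqvSig j)

end Facts

/-! ## The glue at the levels of Ihara avoidance, any type `t` -/

section T

variable (p : ℕ) [hpF : Fact p.Prime]
  (𝒪 : Type) [CommRing 𝒪] [IsDomain 𝒪] [IsDiscreteValuationRing 𝒪]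
  [IsAdicComplete (maximalIdeal 𝒪) 𝒪] [Finite (ResidueField 𝒪)] [CharZero 𝒪]
  (ρbar : ResidualGaloisRep (ResidueField 𝒪)) (Smin : Finset ℕ)
  (h : ResidualHyp p 𝒪 ρbar Smin) (t : PType)
  (Piv : Finset ℕ) (hPiv : IsPivotSet p ρbar Smin Piv)
  (k : ℕ) (pv : Fin k → ℕ) (hpv : Function.Injective pv)
  (hpvPiv : Finset.univ.image pv = Piv)
  (n r : ℕ) (qv : Fin r → ℕ) (hq : IsTWSet p ρbar (Smin ∪ Piv) n qv)
  [NeZero (wilesLevel p t Smin (Smin ∪ Piv ∪ Finset.univ.image qv))]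
  (PQ : HeckePkg p 𝒪 ρbar t Smin (Smin ∪ Piv ∪ Finset.univ.image qv))
  (Tset Uset : Set (ℕ × 𝒪))
  (V : Submodule 𝒪 (XG p (wilesLevel p t Smin Smin) pv qv 𝒪)) (hh : ℕ)
  (a : PQ.T →ₐ[𝒪] Module.End 𝒪 V)
  (hV : IsLocPart (isMid_KG p (wilesLevel p t Smin Smin) (Sum.elim pv qv)) Tset Uset V)
  (ha : ActsBy PQ V a (tOpTw (isMid_KG p (wilesLevel p t Smin Smin) (Sum.elim pv qv)) 𝒪 hh))
  (d : ℕ) (hfree : FreeAtG p (wilesLevel p t Smin Smin) pv qv V d)

include hpF h hPiv hpv hpvPiv hq hV ha hfree in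
/-- **IA-NU from its pointwise form, any type `t`, any odd `p`.** -/
theorem nuT_of_pt (hpt : NuPtAtG Piv PQ V a) : NuAtG Piv PQ V a := by
  obtain ⟨hpvP, hpvd, hqvP, hsurj, hMne, hsig, hM⟩ := basic_factsT t h hPiv hpv hpvPiv hq
  haveI : NeZero (gLevel (wilesLevel p t Smin Smin) (Sum.elim pv qv)) := ⟨hMne⟩
  exact nuAtG_of_pt hV hsurj ha hsig hM h.hp𝒪 hpvP hpvd hqvP hfree Piv hpt

include hpF h hPiv hpv hpvPiv hq hV ha hfree in
/-- **IA-ST from its pointwise form, any type `t`, any odd `p`.** -/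
theorem stT_of_pt (hpt : StPtAtG Piv PQ V a) : StAtG Piv PQ V a := by
  obtain ⟨hpvP, hpvd, hqvP, hsurj, hMne, hsig, hM⟩ := basic_factsT t h hPiv hpv hpvPiv hq
  haveI : NeZero (gLevel (wilesLevel p t Smin Smin) (Sum.elim pv qv)) := ⟨hMne⟩
  exact stAtG_of_pt hV hsurj ha hsig hM h.hp𝒪 hpvP hpvd hqvP hfree Piv hpt

end T

end Fermat.Agent.S38.H473.Gen

end
-- ===== PACK-END S38/H473/KillT.lean

-- ===== PACK-BEGIN S38/H509/IAFreeOdd.lean
section





/-!
# IA-FREE for all odd `p` (helper509): the core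

`free_of_locPart_odd_h509`: as `free_of_locPart_h509` (any finite index type `ι`, any base level
`N₀`, any `Tset`, `Uset`), with `5 ≤ p` replaced by

* either `5 ≤ p`,
* or `p = 3` and an auxiliary prime `r' ∤ M`, `r' ≡ 2 mod 3`, with `T_{r'}` surjective on `V`
  (helper779's `MFree.H779.freeAux3_heckeKer_h779`: hypothesis (Ell) can fail at `p = 3`, it is
  replaced by the auxiliary level `Γ₀(M) ∩ Γ₀(r')`).

`free_of_locPart_tset_h509`: the same with the hypotheses in the form of pairs of `Tset`: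
a non-Eisenstein pair `(ℓ, c)`, `c - (ℓ + 1)` a unit, and for `p = 3` a pair `(r', c')`, `c'` a unit.
-/

set_option autoImplicit false
set_option linter.style.haveILetI false

open CongruenceSubgroup
open scoped MatrixGroups

namespace Fermat.Agent.S38.H509

open Fermat.Agent.S59.TW.H653 Fermat.Agent.S59.MFree Fermat.Agent.S38.IA.Hecke
open Fermat.Agent.S59.TW.Aut

/-! ## The core -/

section Core

variable (p : ℕ) [hp : Fact p.Prime] (N₀ : ℕ) {ι : Type} [Fintype ι] [DecidableEq ι]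
  (qq : ι → ℕ)
  (𝒪 : Type) [CommRing 𝒪] [IsDomain 𝒪] [IsDiscreteValuationRing 𝒪] [CharZero 𝒪]

/-- **IA-FREE, core, all odd `p`.**  The localisation `V` of `X_K(𝒪)`, `K = Γ₀(N₀) ∩ Γ_H(qq)`, is free over
`𝒪[Δ]`: it has an `𝒪`-basis `⟨g^e⟩ b_i`. -/
theorem free_of_locPart_odd_h509 (hp𝒪 : ¬ IsUnit (p : 𝒪)) (hN₀ : N₀ ≠ 0)
    (hprime : ∀ s, (qq s).Prime) (hinj : Function.Injective qq)
    {Tset Uset : Set (ℕ × 𝒪)} {V : Submodule 𝒪 (Additive (KG p N₀ qq) →+ 𝒪)}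
    (hV : IsLocPart (isMid_KG p N₀ qq) Tset Uset V)
    (ℓ : ℕ) [Fact ℓ.Prime] (hℓ : ¬ ℓ ∣ gLevel N₀ qq)
    (hsurj : ∀ y ∈ V, ∃ x ∈ V,
      TK (gLevel N₀ qq) (KG p N₀ qq) ℓ x - ((ℓ : 𝒪) + 1) • x = y)
    (hinj' : ∀ x ∈ V, TK (gLevel N₀ qq) (KG p N₀ qq) ℓ x - ((ℓ : 𝒪) + 1) • x = 0 → x = 0)
    (hcase : 5 ≤ p ∨ (p = 3 ∧ ∃ (r' : ℕ) (hr' : r'.Prime), ¬ r' ∣ gLevel N₀ qq ∧ r' % 3 = 2 ∧
      ∀ y ∈ V, ∃ x ∈ V, tOp (gLevel N₀ qq) (KG p N₀ qq) 𝒪 r' hr' x = y)) :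
    ∃ (d : ℕ) (b : Fin d → V), ∀ g : ∀ s : ι, (ZMod (qq s))ˣ,
      (∀ s, orderOf (g s) = qq s - 1) → ∀ y : V,
        ∃! c : Fin d → (∀ s : ι, Fin (p ^ padicValNat p (qq s - 1))) → 𝒪,
          (y : Additive (KG p N₀ qq) →+ 𝒪) =
            ∑ i, ∑ e, c i e • diamondU (isMid_KG p N₀ qq)
              (gLift N₀ qq (fun s => g s ^ (e s : ℕ))) (b i : Additive (KG p N₀ qq) →+ 𝒪) := by
  classical
  have hM : NeZero (gLevel N₀ qq) := neZero_gLevel_h509 N₀ qq hN₀ hprime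
  have hred := gRed_surjective_h509 N₀ qq hN₀ hinj hprime
  have hfinD : Finite (GDelta p qq) := finite_gDelta_h509 p qq hprime
  letI : Fintype (GDelta p qq) := Fintype.ofFinite _
  have hκ : Function.Surjective (gKappa p N₀ qq) := gKappa_surjective_h509 p N₀ qq hred
  have hcard : ∃ a : ℕ, Fintype.card (GDelta p qq) = p ^ a := by
    obtain ⟨a, ha⟩ := card_gDelta_h509 p qq hprime
    exact ⟨a, by rw [← Nat.card_eq_fintype_card]; exact ha⟩
  have hΓ1 := gKappa_trivial_h509 p N₀ qq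
  obtain ⟨e, he, heV, hVe, hT, -, hD, -⟩ := hV.exists_proj
  have hmemV : ∀ x : Additive (KG p N₀ qq) →+ 𝒪, e x = x → x ∈ V := fun x hx => by
    rw [← hx]; exact heV x
  have hTK : ∀ x : Additive (kerSub (gKappa p N₀ qq)) →+ 𝒪,
      H587.heckeKerLin hℓ (gKappa p N₀ qq) hΓ1 𝒪 x =
        TK (gLevel N₀ qq) (KG p N₀ qq) ℓ x := fun x =>
    heckeKer_eq_TK hℓ (gKappa p N₀ qq) hΓ1 x
  have hconj : ∀ (γ : Gamma0 (gLevel N₀ qq)) (x : Additive (kerSub (gKappa p N₀ qq)) →+ 𝒪),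
      conjAct (gKappa p N₀ qq) γ x =
        diamondU (isMid_KG p N₀ qq) (dUnit (gLevel N₀ qq) γ⁻¹) x := fun γ x => by
    rw [conjAct_eq_diamond (gKappa p N₀ qq) hΓ1 γ x, diamond_eq_diamondU]
    rfl
  have het : ∀ x, e (H587.heckeKerLin hℓ (gKappa p N₀ qq) hΓ1 𝒪 x) =
      H587.heckeKerLin hℓ (gKappa p N₀ qq) hΓ1 𝒪 (e x) := fun x => by
    rw [hTK, hTK]; exact hT ℓ hℓ x
  have hec : ∀ (γ : Gamma0 (gLevel N₀ qq)) x,
      e (conjAct (gKappa p N₀ qq) γ x) = conjAct (gKappa p N₀ qq) γ (e x) := fun γ x => by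
    rw [hconj, hconj]; exact hD _ x
  have hsurj'' : ∀ y : Additive (kerSub (gKappa p N₀ qq)) →+ 𝒪, e y = y →
      ∃ x : Additive (kerSub (gKappa p N₀ qq)) →+ 𝒪, e x = x ∧
        H587.heckeKerLin hℓ (gKappa p N₀ qq) hΓ1 𝒪 x - ((ℓ : 𝒪) + 1) • x = y := fun y hy => by
    obtain ⟨x, hx, hxy⟩ := hsurj y (hmemV y hy)
    exact ⟨x, hVe x hx, by rw [hTK]; exact hxy⟩
  have hinj'' : ∀ x : Additive (kerSub (gKappa p N₀ qq)) →+ 𝒪, e x = x →
      H587.heckeKerLin hℓ (gKappa p N₀ qq) hΓ1 𝒪 x - ((ℓ : 𝒪) + 1) • x = 0 → x = 0 :=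
    fun x hx h0 => hinj' x (hmemV x hx) (by rw [← hTK]; exact h0)
  have hfree : FreeConclusion (gKappa p N₀ qq) 𝒪 e := by
    rcases hcase with hp5 | ⟨hp3, r', hr', hr'M, hr'3, hsurjr⟩
    · exact H587.free_heckeKer p (gLevel N₀ qq) ℓ hℓ (NeZero.ne _) (GDelta p qq)
        (gKappa p N₀ qq) hκ hcard (gKappa_ell_h509 p N₀ qq hp5 hprime) hΓ1 𝒪 hp𝒪 e he het hec
        hsurj'' hinj''
    · subst hp3
      haveI : Fact r'.Prime := ⟨hr'⟩
      have hTKr : ∀ x : Additive (kerSub (gKappa 3 N₀ qq)) →+ 𝒪,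
          H587.heckeKerLin hr'M (gKappa 3 N₀ qq) hΓ1 𝒪 x =
            TK (gLevel N₀ qq) (KG 3 N₀ qq) r' x := fun x =>
        heckeKer_eq_TK hr'M (gKappa 3 N₀ qq) hΓ1 x
      refine H779.freeAux3_heckeKer_h779 (gLevel N₀ qq) ℓ r' hℓ hr'M hr'3 (NeZero.ne _)
        (GDelta 3 qq) (gKappa 3 N₀ qq) hκ hcard hΓ1 𝒪 (by simpa using hp𝒪) e he het hec
        hsurj'' hinj'' (fun x => by rw [hTKr, hTKr]; exact hT r' hr'M x) ?_
      intro y hy
      obtain ⟨x, hx, hxy⟩ := hsurjr y (hmemV y hy)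
      exact ⟨x, hVe x hx, (hTKr x).trans hxy⟩
  obtain ⟨⟨n, b, hb, hbasis⟩, -, -⟩ := hfree
  refine ⟨n, fun i => ⟨b i, hmemV _ (hb i)⟩, ?_⟩
  intro g hg y
  -- a section of `κ`
  obtain ⟨s, hs⟩ : ∃ s : GDelta p qq → Gamma0 (gLevel N₀ qq), ∀ d, gKappa p N₀ qq (s d) = d :=
    ⟨Function.surjInv hκ, Function.surjInv_eq hκ⟩
  obtain ⟨hli, hspan⟩ := hbasis s hs
  -- the exponents
  let εe : (∀ s : ι, Fin (p ^ padicValNat p (qq s - 1))) ≃ GDelta p qq :=
    (Equiv.ofBijective _ (gEps_bijective_h509 p qq hprime g hg)).trans (Equiv.inv _)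
  have hε : ∀ e', εe e' = (QuotientGroup.mk (fun s => g s ^ (e' s : ℕ)) : GDelta p qq)⁻¹ :=
    fun _ => rfl
  have hy : (y : Additive (KG p N₀ qq) →+ 𝒪) ∈ Submodule.span 𝒪
      (Set.range fun z : GDelta p qq × Fin n => conjAct (gKappa p N₀ qq) (s z.1) (b z.2)) :=
    hspan _ (hVe _ y.2)
  have key := existsUnique_of_li_span_h509
    (fun z : GDelta p qq × Fin n => conjAct (gKappa p N₀ qq) (s z.1) (b z.2)) hli εe _ hy
  have hdia : ∀ (i : Fin n) (e' : ∀ s : ι, Fin (p ^ padicValNat p (qq s - 1))),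
      conjAct (gKappa p N₀ qq) (s (εe e')) (b i) =
        diamondU (isMid_KG p N₀ qq) (gLift N₀ qq (fun s => g s ^ (e' s : ℕ))) (b i) := by
    intro i e'
    exact (diamondU_gLift_eq_conjAct_h509 p N₀ qq hred (fun s => g s ^ (e' s : ℕ))
      (s (εe e')) (by rw [hs, hε]) (b i)).symm
  simp only [hdia] at key
  exact key

end Core

/-! ## The package form -/

section Pkg

open Fermat.Agent.S59.Arch Fermat.Agent.S59.TW.H959 Fermat.Agent.S59.TW IsLocalRing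

variable {p : ℕ} [hp : Fact p.Prime]
  {𝒪 : Type} [CommRing 𝒪] [IsDomain 𝒪] [IsDiscreteValuationRing 𝒪]
  [IsAdicComplete (maximalIdeal 𝒪) 𝒪] [Finite (ResidueField 𝒪)] [CharZero 𝒪]
  {ρbar : ResidualGaloisRep (ResidueField 𝒪)} {Smin : Finset ℕ}

/-- **IA-FREE, all odd `p`, any package, any base level.**  `P` a Hecke package (any type `t`,
any `Σ`), `N₀ ≠ 0` any base level, `qq : ι → ℕ` distinct primes, `K = Γ₀(N₀) ∩ Γ_H(qq)`,
`V` the localisation of `X_K(𝒪)` at `(TsetOf P, Uset)` (any `Uset`): `V` has an `𝒪`-basis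
`⟨g^e⟩ b_i`. -/
theorem free_of_pkg_h509 (h : ResidualHyp p 𝒪 ρbar Smin) {t : PType} {Sig : Finset ℕ}
    [NeZero (wilesLevel p t Smin Sig)] (P : HeckePkg p 𝒪 ρbar t Smin Sig)
    (N₀ : ℕ) (hN₀ : N₀ ≠ 0) {ι : Type} [Fintype ι] [DecidableEq ι] (qq : ι → ℕ)
    (hprime : ∀ s, (qq s).Prime) (hinj : Function.Injective qq)
    {Uset : Set (ℕ × 𝒪)} {V : Submodule 𝒪 (Additive (KG p N₀ qq) →+ 𝒪)}
    (hV : IsLocPart (isMid_KG p N₀ qq) (TsetOf P) Uset V) :
    ∃ (d : ℕ) (b : Fin d → V), ∀ g : ∀ s : ι, (ZMod (qq s))ˣ,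
      (∀ s, orderOf (g s) = qq s - 1) → ∀ y : V,
        ∃! c : Fin d → (∀ s : ι, Fin (p ^ padicValNat p (qq s - 1))) → 𝒪,
          (y : Additive (KG p N₀ qq) →+ 𝒪) =
            ∑ i, ∑ e, c i e • diamondU (isMid_KG p N₀ qq)
              (gLift N₀ qq (fun s => g s ^ (e s : ℕ))) (b i : Additive (KG p N₀ qq) →+ 𝒪) := by
  classical
  have hpp : p.Prime := hp.out
  have hM : NeZero (gLevel N₀ qq) := neZero_gLevel_h509 N₀ qq hN₀ hprime
  have hp𝒪 : ¬ IsUnit (p : 𝒪) := (mem_maximalIdeal _).mp h.hp𝒪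
  obtain ⟨ℓ, c, hmem, hℓ, hℓS', -, -, hu⟩ :=
    H31.exists_nonEis_mem_TsetOf h P 1 one_pos (gLevel N₀ qq).primeFactors
  have hℓM : ¬ ℓ ∣ gLevel N₀ qq :=
    fun hd => hℓS' (Nat.mem_primeFactors.mpr ⟨hℓ, hd, hM.ne⟩)
  haveI : Fact ℓ.Prime := ⟨hℓ⟩
  obtain ⟨hsurj, hinj'⟩ := H31.locPart_TK_sub_bij_h31 hV hℓM hmem hu
  refine free_of_locPart_odd_h509 p N₀ qq 𝒪 hp𝒪 hN₀ hprime hinj hV ℓ hℓM hsurj hinj' ?_
  by_cases hp3 : p = 3
  · right
    refine ⟨hp3, ?_⟩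
    obtain ⟨r', c', hmem', hr', -, -, hr'S', hr'3, hc'⟩ :=
      H186.exists_aux3_tset_h186 hp3 h P (gLevel N₀ qq).primeFactors
    have hr'M : ¬ r' ∣ gLevel N₀ qq :=
      fun hd => hr'S' (Nat.mem_primeFactors.mpr ⟨hr', hd, hM.ne⟩)
    refine ⟨r', hr', hr'M, hr'3, ?_⟩
    haveI : Fact r'.Prime := ⟨hr'⟩
    have hu0 : IsUnit (c' - 0) := by rwa [sub_zero]
    obtain ⟨hsurjr, -⟩ := H31.locPart_TK_sub_bij_h31 hV hr'M hmem' hu0
    intro y hy
    obtain ⟨x, hxV, hx⟩ := hsurjr y hy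
    rw [zero_smul, sub_zero] at hx
    exact ⟨x, hxV, hx⟩
  · left
    have h2 := h.hp2
    have h2le := hpp.two_le
    by_contra hlt
    have hp4 : p = 4 := by omega
    rw [hp4] at hpp
    exact absurd hpp (by decide)

end Pkg

end Fermat.Agent.S38.H509

end
-- ===== PACK-END S38/H509/IAFreeOdd.lean

-- ===== PACK-BEGIN S59/LOQ/H849/NeatCells.lean
section



/-!
# Row S59, cell LO-Q (B1): `MazurW35` from the NEAT cells + PAD / UNPAD / CHEB-3   (helper849)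

On top of helper213's board (`LOQ/H213/{Spec,Cells}.lean`).  The cell `T3RestStatement` (targets at
`p = 3` at the levels which are not neat at `q`: descent of degree `r + 1 ≡ 0 mod 3`) is REPLACED by

* `T3Desc2NeatStatement` : targets at `p = 3`, `q = 2`, `3 ∤ M'`, `M'` neat at `2`
  (descent of degree `4` from the level `3 M'`: the twin of `T5Desc2Statement`), and
* the statement-level inputs `PadStatement`, `UnpadStatement`, `Cheb3Statement` of `NeatGlue.lean`.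

    mazurWAt_of_targetsAt : the glue of `H213.mazurW35_of_targets` at ONE level `(p, q, M')`
    mazurW35Neat_of_cells : T5Good → T5Two → T5Desc3 → T5Desc2 → T3Neat → T3Desc2Neat →
                            MazurW35NeatStatement
    mazurW35_of_cells_pad : the same + Pad + Unpad + Cheb3 → LOW.MazurW35Statement
-/

set_option autoImplicit false

open WeierstrassCurve WeierstrassCurve.Affine WeierstrassCurve.Affine.Point
open CuspForm ModularFormClass UpperHalfPlane ModularCurve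

namespace Fermat.Agent.S59.LOQ.H849

open Fermat.Agent.Ribet Fermat.Agent.Ribet.Spec Fermat.Agent.Ribet.H944.Wall
open Fermat.Agent.Ribet.H801 Fermat.Agent.Ribet.H158.WallQ
open Fermat.Agent.S59.Arch.LOW
open Fermat.Agent.S59.LOQ.H213 (TargetsAt DetFrobWStatement TorsionRankWStatement
  lowered_of_targetsQ_W fix_of_isUnramifiedAt exclusion_of_not_isPivotAt T5GoodStatement
  T5TwoStatement T5Desc3Statement T5Desc2Statement T3NeatStatement seven_le_of_prime)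

/-- **T3-DESC2-NEAT**: `p = 3`, `q = 2`, `3 ∤ M'`, `M'` neat at `2` (a prime `r ≡ 2 mod 3`,
`r ≠ 2`, divides `M'`). -/
def T3Desc2NeatStatement : Prop :=
  ∀ (M' : ℕ) [NeZero M'] [NeZero (2 * M')], ¬ 2 ∣ M' → ¬ 3 ∣ M' →
    Fermat.Agent.S59.LOQ.H213.Neat3 2 M' → TargetsAt 3 2 M'

/-- **The glue of LO-Q at ONE level**: the three targets at `(p, q, M')` give Mazur's principle
at the level `q M'`. -/
theorem mazurWAt_of_targetsAt (hE : EmbedWStatement) (hNE : NonEisWStatement)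
    (hR3 : EigenformOfOccursAwayStatement) (hR3' : AlmostAllToWitnessWStatement)
    (hPl : PlacesStatement) (hDet : DetFrobWStatement) (hDim : TorsionRankWStatement)
    (p : ℕ) [Fact p.Prime] (hp2 : p ≠ 2)
    (W : WeierstrassCurve ℤ) (hΔ : W.Δ ≠ 0)
    (hirr : W.ModRepIsIrreducible p)
    (hcard : Nat.card (Submodule.torsionBy ℤ
      ((W.map (Int.castRingHom ℚ))⁄(AlgebraicClosure ℚ)).Point p) = p ^ 2)
    (hker : GaloisFactorsThroughFiniteLevel
      (WeierstrassCurve.Affine.Point.galoisRepModuleEnd (K := AlgebraicClosure ℚ) ℚ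
        (W.map (Int.castRingHom ℚ)) p))
    (q M' : ℕ) [NeZero M'] [NeZero q] [NeZero (q * M')] (hq : q.Prime) (hqp : q ≠ p)
    (hunr : ((W.map (Int.castRingHom ℚ)).residualGaloisRepOf p hcard hker).IsUnramifiedAt q)
    (hnp : ¬ IsPivotAt p ((W.map (Int.castRingHom ℚ)).residualGaloisRepOf p hcard hker) q)
    (hres : W.IsResiduallyModularOfLevel p (q * M'))
    (hT : TargetsAt p q M') :
    W.IsResiduallyModularOfLevel p M' := by
  have hp : p.Prime := Fact.out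
  have hM'pos : 0 < M' := Nat.pos_of_ne_zero (NeZero.ne M')
  obtain ⟨f, 𝔪, hwit⟩ := hres
  obtain ⟨S, hemb⟩ := hE W p (q * M') hΔ hp hp2 hirr f 𝔪 hwit
  have hNE' : NonEisAway p (fun ℓ => W.apOfModel ℓ) := hNE W p hΔ hp hp2 hirr
  have hlow : Lowered M' p S (fun ℓ => W.apOfModel ℓ) := by
    rcases exclusion_of_not_isPivotAt W hcard hker hnp with hq1 | ⟨A, φ, hA, hφ, hns⟩
    · obtain ⟨A, hA, φ, hφ⟩ := hPl q hq
      obtain ⟨𝓕, 𝒮, h2, h3, h4⟩ := hT A hA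
      exact lowered_of_targetsQ_W W hp hq hqp hirr (hDim W p hΔ hp) hφ
        (hDet W p hΔ hp hirr q hq hqp A hA φ hφ) (fix_of_isUnramifiedAt W hcard hker hunr A hA)
        (Or.inl hq1) h2 h3 h4 hNE' hemb
    · obtain ⟨𝓕, 𝒮, h2, h3, h4⟩ := hT A hA
      exact lowered_of_targetsQ_W W hp hq hqp hirr (hDim W p hΔ hp) hφ
        (hDet W p hΔ hp hirr q hq hqp A hA φ hφ) (fix_of_isUnramifiedAt W hcard hker hunr A hA)
        (Or.inr hns) h2 h3 h4 hNE' hemb
  obtain ⟨S', g, 𝔪', hg, hmax, hpm, hc⟩ := eigenAway_of_lowered hR3 hp hlow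
  exact ⟨g, 𝔪', hR3' W p M' hΔ hp hp2 hM'pos hirr g 𝔪' _ hg hmax hpm hc⟩

/-- Neatness of the level `q M'` at `q` in the two vocabularies. -/
theorem neat3_h213_of_neat3 {q M' : ℕ} (hq : q.Prime) (h : _root_.Fermat.Agent.S59.LOQ.H849.Neat3 3 q (q * M')) :
    Fermat.Agent.S59.LOQ.H213.Neat3 q M' := by
  rcases h rfl with h1 | ⟨r, hr, hrM, hrq, hr2⟩
  · exact Or.inl h1
  · refine Or.inr ⟨r, hr, hr2, hrq, ?_⟩
    rcases (Nat.Prime.dvd_mul hr).mp hrM with h' | h'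
    · exact absurd ((Nat.prime_dvd_prime_iff_eq hr hq).mp h') hrq
    · exact h'

/-- **The targets at the NEAT levels from the cells.** -/
theorem targetsAt_of_cells_neat (h5g : T5GoodStatement) (h5t : T5TwoStatement)
    (h53 : T5Desc3Statement) (h52 : T5Desc2Statement) (h3n : T3NeatStatement)
    (h3d : T3Desc2NeatStatement)
    (p q M' : ℕ) [NeZero M'] [NeZero q] [NeZero (q * M')] (hp35 : p = 3 ∨ p = 5)
    (hq : q.Prime) (hqp : q ≠ p) (hqM : ¬ q ∣ M') (hneat : _root_.Fermat.Agent.S59.LOQ.H849.Neat3 p q (q * M')) :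
    TargetsAt p q M' := by
  rcases hp35 with rfl | rfl
  · have hn : Fermat.Agent.S59.LOQ.H213.Neat3 q M' := neat3_h213_of_neat3 hq hneat
    by_cases h2 : q = 2 → 3 ∣ M'
    · exact h3n q M' hq hqp hqM h2 hn
    · have hq2 : q = 2 := by
        by_contra h
        exact h2 (fun h' => absurd h' h)
      subst hq2
      have h3M : ¬ 3 ∣ M' := fun h => h2 (fun _ => h)
      exact h3d M' hqM h3M hn
  · by_cases h2 : q = 2
    · subst h2
      by_cases h3M : 3 ∣ M'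
      · exact h5t M' hqM h3M
      · exact h52 M' hqM h3M
    · by_cases h3 : q = 3
      · subst h3
        by_cases h2M : 2 ∣ M'
        · exact h5g 3 M' hq hqp hqM (Or.inr ⟨rfl, h2M⟩)
        · exact h53 M' hqM h2M
      · exact h5g q M' hq hqp hqM (Or.inl (seven_le_of_prime hq h2 h3 hqp))

/-- **Mazur's principle in W-form at the NEAT levels, from the cells and the row inputs.** -/
theorem mazurW35Neat_of_cells (hE : EmbedWStatement) (hNE : NonEisWStatement)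
    (hR3 : EigenformOfOccursAwayStatement) (hR3' : AlmostAllToWitnessWStatement)
    (hPl : PlacesStatement) (hDet : DetFrobWStatement) (hDim : TorsionRankWStatement)
    (h5g : T5GoodStatement) (h5t : T5TwoStatement) (h53 : T5Desc3Statement)
    (h52 : T5Desc2Statement) (h3n : T3NeatStatement) (h3d : T3Desc2NeatStatement) :
    MazurW35NeatStatement := by
  intro p _ hp35 W hΔ hW hirr hcard hker M q hM hq hqp hqM hunr hnp hres hneat
  have hp2 : p ≠ 2 := by rcases hp35 with h | h <;> omega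
  obtain ⟨M', rfl⟩ := hqM
  have hM0 : q * M' ≠ 0 := hM.ne_zero
  have hM'0 : M' ≠ 0 := by
    rintro rfl
    simp at hM0
  rw [Nat.mul_div_cancel_left M' hq.pos]
  have hqM' : ¬ q ∣ M' := by
    rintro ⟨k, rfl⟩
    have h2 : q * q ∣ q * (q * k) := ⟨k, by ring⟩
    exact hq.not_isUnit (hM q h2)
  haveI : NeZero M' := ⟨hM'0⟩
  haveI : NeZero q := ⟨hq.ne_zero⟩
  haveI : NeZero (q * M') := ⟨hM0⟩
  exact mazurWAt_of_targetsAt hE hNE hR3 hR3' hPl hDet hDim p hp2 W hΔ hirr hcard hker q M' hq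
    hqp hunr hnp hres
    (targetsAt_of_cells_neat h5g h5t h53 h52 h3n h3d p q M' hp35 hq hqp hqM' hneat)

/-- **LO-Q from the NEAT cells, PAD, UNPAD and CHEB-3** (no cell `T3Rest`). -/
theorem mazurW35_of_cells_pad (hE : EmbedWStatement) (hNE : NonEisWStatement)
    (hR3 : EigenformOfOccursAwayStatement) (hR3' : AlmostAllToWitnessWStatement)
    (hPl : PlacesStatement) (hDet : DetFrobWStatement) (hDim : TorsionRankWStatement)
    (h5g : T5GoodStatement) (h5t : T5TwoStatement) (h53 : T5Desc3Statement)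
    (h52 : T5Desc2Statement) (h3n : T3NeatStatement) (h3d : T3Desc2NeatStatement)
    (hPad : PadStatement) (hUnpad : UnpadStatement) (hCheb : Cheb3Statement) :
    MazurW35Statement :=
  mazurW35_of_neat
    (mazurW35Neat_of_cells hE hNE hR3 hR3' hPl hDet hDim h5g h5t h53 h52 h3n h3d)
    hPad hUnpad hCheb

end Fermat.Agent.S59.LOQ.H849

end
-- ===== PACK-END S59/LOQ/H849/NeatCells.lean

-- ===== PACK-BEGIN S59/UnitQR/H464/QRHor.lean
section



/-!
# S59 / cell B1, leaf UNIT-QR, part 5: horizontal part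
(helper464; generic twin of helper461's `Unit3Hor`)

`D = q⁸ v⁻¹` and `D' = v` lie in every valuation subring of `F_N` (`q r ∣ N`) containing `j`;
they lie in the finite chart of the coordinate `x = j · j_q` at level `M * q`, `r ∣ M`.
Here `q` is prime and `r` is prime or `1`.
-/

set_option autoImplicit false
set_option synthInstance.maxHeartbeats 400000
set_option maxHeartbeats 1600000

noncomputable section

namespace Fermat.Agent.S59.UnitQR.H464

open ModularCurve HahnSeries Polynomial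
open Fermat.Agent.A2.Mod Fermat.Agent.S28 Fermat.Agent.A2.Mod.H873
open Fermat.Agent.S36.H438 (castE uE uE' dE)
open Fermat.Agent.S59.Unit3.H461 (mem_of_pow_three_mem)

/-! ## 1. Transport of the integral relations by `t ↦ t^r` -/

theorem qExpand_r_eval₂ (r : ℕ) [NeZero r] (Φ : Polynomial (Polynomial ℤ))
    (A B : LaurentSeries ℤ) (h : Φ.eval₂ (evalAt B) A = 0) :
    Φ.eval₂ (evalAt (qExpand ℤ r B)) (qExpand ℤ r A) = 0 := by
  have h2 := Polynomial.hom_eval₂ Φ (evalAt B) (qExpand ℤ r) A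
  rw [h, map_zero, Fermat.Agent.S28.H145.qExpand_comp_evalAt] at h2
  exact h2.symm

/-- The two integrality relations of the unit pair of level `q`, at `t^r`. -/
theorem exists_unitPoly_r (q r : ℕ) [NeZero q] [NeZero r] (hq : q.Prime) :
    ∃ Ψ : Polynomial (Polynomial ℤ), Ψ.Monic ∧
      Ψ.eval₂ (evalAt (qExpand ℤ r (jqModC ℤ)))
        ((q : LaurentSeries ℤ) ^ 12 * qExpand ℤ r (unitL ℤ q)) = 0 ∧
      Ψ.eval₂ (evalAt (qExpand ℤ (q * r) (jqModC ℤ))) (qExpand ℤ r (H589.unitL' q)) = 0 := by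
  obtain ⟨Ψ, hΨ, h1, h2⟩ := Fermat.Agent.S36.H438.exists_unitPoly_both q hq
  refine ⟨Ψ, hΨ, ?_, ?_⟩
  · have h := qExpand_r_eval₂ r Ψ _ _ h1
    rw [map_mul, map_pow, map_natCast] at h
    exact h
  · have h := qExpand_r_eval₂ r Ψ _ _ h2
    rwa [qExpand_r_q] at h

/-! ## 2. In `F_{N,E}` -/

section Horizontal

variable (E : IntermediateField ℚ Qb) (q r : ℕ) [NeZero q] [NeZero r] (h : QRAdm q r)
  (N : ℕ) [NeZero N] (hN : q * r ∣ N)

/-- `q¹² u(t^r)`. -/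
def dRE : FE E N := algebraMap E (FE E N) ((q : E) ^ 12) * uRE E q r N hN

theorem coe_dRE :
    ((dRE E q r N hN : FE E N) : LaurentSeries E)
      = castE E ((q : LaurentSeries ℤ) ^ 12 * qExpand ℤ r (unitL ℤ q)) := by
  show algebraMap E (LaurentSeries E) ((q : E) ^ 12) * castE E (qExpand ℤ r (unitL ℤ q)) = _
  rw [map_mul, map_pow, map_pow, map_natCast, map_natCast]

theorem dQE_pow_three' :
    dQE E q r h N hN ^ 3 = dE E N q (q_dvd_of_mul_dvd q r N hN) * dRE E q r N hN :=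
  dQE_pow_three E q r h N hN

theorem exists_unitPoly_r_FE (hq : q.Prime) :
    ∃ Ψ : Polynomial (Polynomial ℤ), Ψ.Monic ∧
      Ψ.eval₂ (Polynomial.aeval (R := ℤ) (jE E N r (r_dvd_of_mul_dvd q r N hN))).toRingHom
        (dRE E q r N hN) = 0 ∧
      Ψ.eval₂ (Polynomial.aeval (R := ℤ) (jE E N (q * r) hN)).toRingHom
        (uRE' E q r N hN) = 0 := by
  obtain ⟨Ψ, hΨ, h1, h2⟩ := exists_unitPoly_r q r hq
  refine ⟨Ψ, hΨ, ?_, ?_⟩
  · exact eval₂_eq_zero_of_int E N Ψ _ _ _ _ (coe_dRE E q r N hN) (coe_jE_int E N r _) h1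
  · exact eval₂_eq_zero_of_int E N Ψ _ _ _ _ (coe_uRE' E q r N hN) (coe_jE_int E N (q * r) hN) h2

theorem dRE_mem_of_jr_mem (hq : q.Prime) (V : ValuationSubring (FE E N))
    (hj : jE E N r (r_dvd_of_mul_dvd q r N hN) ∈ V) : dRE E q r N hN ∈ V := by
  obtain ⟨Ψ, hΨ, h1, -⟩ := exists_unitPoly_r_FE E q r N hN hq
  exact mem_valuationSubring_of_monic_eval Ψ hΨ h1 V hj

theorem uRE'_mem_of_jqr_mem (hq : q.Prime) (V : ValuationSubring (FE E N))
    (hj : jE E N (q * r) hN ∈ V) : uRE' E q r N hN ∈ V := by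
  obtain ⟨Ψ, hΨ, -, h2⟩ := exists_unitPoly_r_FE E q r N hN hq
  exact mem_valuationSubring_of_monic_eval Ψ hΨ h2 V hj

/-- `j_r ∈ V → j_{qr} ∈ V` (modular equation of level `q` at `t^r`). -/
theorem jqr_mem_of_jr_mem (hq : q.Prime) (V : ValuationSubring (FE E N))
    (hj : jE E N r (r_dvd_of_mul_dvd q r N hN) ∈ V) : jE E N (q * r) hN ∈ V := by
  obtain ⟨D⟩ := Fermat.Agent.S28.H807.nonempty_modPolyData q hq
  have h0 := qExpand_r_eval₂ r D.Φ _ _ D.eval_jp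
  rw [qExpand_r_q] at h0
  have h1 : D.Φ.eval₂ (Polynomial.aeval (R := ℤ)
      (jE E N r (r_dvd_of_mul_dvd q r N hN))).toRingHom (jE E N (q * r) hN) = 0 :=
    eval₂_eq_zero_of_int E N D.Φ _ _ _ _ (coe_jE_int E N (q * r) hN) (coe_jE_int E N r _) h0
  exact mem_valuationSubring_of_monic_eval D.Φ D.monic h1 V hj

/-- `j ∈ V → j_r ∈ V` for `r` prime or `r = 1`. -/
theorem jr_mem_of_j_mem (hr : r.Prime ∨ r = 1) (V : ValuationSubring (FE E N))
    (hj : jE E N 1 (one_dvd N) ∈ V) : jE E N r (r_dvd_of_mul_dvd q r N hN) ∈ V := by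
  rcases hr with hr | hr
  · exact (Fermat.Agent.S36.H438.j_mem_iff_jq_mem E N r (r_dvd_of_mul_dvd q r N hN) hr V).mp hj
  · subst hr
    exact hj

/-- `j ∈ V` implies `j_r, j_q, j_{qr} ∈ V`. -/
theorem j_all_mem_of_j_mem (hq : q.Prime) (hr : r.Prime ∨ r = 1)
    (V : ValuationSubring (FE E N)) (hj : jE E N 1 (one_dvd N) ∈ V) :
    jE E N r (r_dvd_of_mul_dvd q r N hN) ∈ V ∧ jE E N q (q_dvd_of_mul_dvd q r N hN) ∈ V ∧
      jE E N (q * r) hN ∈ V := by
  have h2 := jr_mem_of_j_mem E q r N hN hr V hj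
  have h3 := (Fermat.Agent.S36.H438.j_mem_iff_jq_mem E N q (q_dvd_of_mul_dvd q r N hN)
    hq V).mp hj
  exact ⟨h2, h3, jqr_mem_of_jr_mem E q r N hN hq V h2⟩

/-- **UNIT-QR (3a)**: `D = q⁸ v⁻¹` lies in every valuation subring containing `j`. -/
theorem dQE_mem_of_j_mem (hq : q.Prime) (hr : r.Prime ∨ r = 1) (V : ValuationSubring (FE E N))
    (hj : jE E N 1 (one_dvd N) ∈ V) : dQE E q r h N hN ∈ V := by
  obtain ⟨h2, -, -⟩ := _root_.Fermat.Agent.S59.UnitQR.H464.j_all_mem_of_j_mem E q r N hN hq hr V hj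
  apply mem_of_pow_three_mem V
  rw [dQE_pow_three']
  exact V.mul_mem _ _
    (Fermat.Agent.S36.H438.dE_mem_of_j_mem E N q _ hq V hj)
    (dRE_mem_of_jr_mem E q r N hN hq V h2)

/-- **UNIT-QR (3b)**: `D' = v` lies in every valuation subring containing `j`. -/
theorem vQE_mem_of_j_mem (hq : q.Prime) (hr : r.Prime ∨ r = 1) (V : ValuationSubring (FE E N))
    (hj : jE E N 1 (one_dvd N) ∈ V) : vQE E q r h N hN ∈ V := by
  obtain ⟨-, h3, h6'⟩ := _root_.Fermat.Agent.S59.UnitQR.H464.j_all_mem_of_j_mem E q r N hN hq hr V hj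
  apply mem_of_pow_three_mem V
  rw [vQE_pow_three]
  exact V.mul_mem _ _
    (Fermat.Agent.S36.H438.uE'_mem_of_jq_mem E N q _ hq V h3)
    (uRE'_mem_of_jqr_mem E q r N hN hq V h6')

/-- **UNIT-QR (3)**: at a place `V ⊇ E` of `F_N` where `j` is finite, `D` and `D'` are units
(no zeros or poles of `v` outside the cusps). -/
theorem pair_unit_of_j_mem464 (hq : q.Prime) (hr : r.Prime ∨ r = 1)
    (V : ValuationSubring (FE E N))
    (hE : ∀ e : E, algebraMap E (FE E N) e ∈ V) (hj : jE E N 1 (one_dvd N) ∈ V) :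
    (dQE E q r h N hN ∈ V ∧ (dQE E q r h N hN)⁻¹ ∈ V) ∧
      (vQE E q r h N hN ∈ V ∧ (vQE E q r h N hN)⁻¹ ∈ V) := by
  have hD := dQE_mem_of_j_mem E q r h N hN hq hr V hj
  have hv := vQE_mem_of_j_mem E q r h N hN hq hr V hj
  refine ⟨⟨hD, ?_⟩, ⟨hv, ?_⟩⟩
  · rw [dQE_inv]
    exact V.mul_mem _ _ (hE _) hv
  · have h1 := V.mul_mem _ _ (hE ((q : E) ^ 8)⁻¹) hD
    rwa [dQE, ← mul_assoc, ← map_mul, inv_mul_cancel₀ (q_pow_ne_zero E q 8), map_one, one_mul,
      ← vQE_inv] at h1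

end Horizontal

/-! ## 3. The finite chart of `x = j · j_q` at level `M * q`, `r ∣ M` -/

section Chart

variable (P : ValuationSubring Qb) (E : IntermediateField ℚ Qb) (q r : ℕ) [NeZero q] [NeZero r]
  (h : QRAdm q r) (M : ℕ) [NeZero M] (hrM : r ∣ M)

include hrM in
omit [NeZero q] [NeZero r] [NeZero M] in
theorem qr_dvd_mul : q * r ∣ M * q := by
  obtain ⟨k, rfl⟩ := hrM
  exact ⟨k, by ring⟩

/-- **UNIT-QR (3c)**: `D = q⁸ v⁻¹` lies in the finite chart of the coordinate `x = j · j_q`. -/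
theorem dQE_mem_chartAlg (hq : q.Prime) (hr : r.Prime ∨ r = 1) :
    dQE E q r h (M * q) (qr_dvd_mul q r M hrM) ∈ chartAlg P E (M * q) (xE E M q) := by
  rw [← Fermat.Agent.A2.Mod.H142.mem_chart_iff]
  refine isIntegralElem_of_isIntegral_closure _
    (isIntegral_closure_of_forall_valuationSubring fun V hx => ?_)
  exact dQE_mem_of_j_mem E q r h (M * q) _ hq hr V
    (Fermat.Agent.S36.H438.j_mem_of_x_mem E M q hq V hx).1

/-- **UNIT-QR (3d)**: `D' = v` lies in the finite chart of the coordinate `x = j · j_q`. -/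
theorem vQE_mem_chartAlg (hq : q.Prime) (hr : r.Prime ∨ r = 1) :
    vQE E q r h (M * q) (qr_dvd_mul q r M hrM) ∈ chartAlg P E (M * q) (xE E M q) := by
  rw [← Fermat.Agent.A2.Mod.H142.mem_chart_iff]
  refine isIntegralElem_of_isIntegral_closure _
    (isIntegral_closure_of_forall_valuationSubring fun V hx => ?_)
  exact vQE_mem_of_j_mem E q r h (M * q) _ hq hr V
    (Fermat.Agent.S36.H438.j_mem_of_x_mem E M q hq V hx).1

end Chart

end Fermat.Agent.S59.UnitQR.H464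

end
end
-- ===== PACK-END S59/UnitQR/H464/QRHor.lean

-- ===== PACK-BEGIN S59/UnitQR/H464/QRPkg.lean
section



/-!
# S59 / cell B1, leaf UNIT-QR, part 6: the Fricke side and the package
(helper464; generic twin of helper461's `Unit3Pkg`)

* `coe_fricke_dRE` : `W (q¹² u(t^r)) = u'(t^m)` at level `N = q * m * r`;
* `dQE_unit_vzero` : `D = q⁸ v⁻¹` is a unit of `V₀ = V∞.comap W` (any level `N`, `q r ∣ N`);
* `muQR_package` : the unit pair `D = q⁸ v⁻¹`, `D' = v`, `v = (η(τ)η(rτ)/(η(qτ)η(qrτ)))⁸`, at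
  level `M * q`, `r ∣ M`, in the format of `S36.H438.mu_package` with the exponent `12` replaced
  by `8` (`3 ∤ 8`).  Hypotheses: `q` prime, `r` prime or `1`, `3 ∤ q r`, `3 ∣ (q - 1)(r + 1)`.
-/

set_option autoImplicit false
set_option synthInstance.maxHeartbeats 400000
set_option maxHeartbeats 1600000

noncomputable section

namespace Fermat.Agent.S59.UnitQR.H464

open ModularCurve HahnSeries Polynomial
open Fermat.Agent.A2.Mod Fermat.Agent.S28 Fermat.Agent.A2.Mod.H873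
open Fermat.Agent.S36.H438 (castE uE uE' dE)
open Fermat.Agent.S59.Unit3.H461 (mem_of_pow_three_mem)

/-! ## 1. The Fricke involution -/

section Fricke

variable (P : ValuationSubring Qb) (E : IntermediateField ℚ Qb) (q r : ℕ) [NeZero q] [NeZero r]

omit [NeZero r] in
theorem castE_qExpand_unitL'_mul464 (m : ℕ) [NeZero m] :
    castE E (qExpand ℤ m (H589.unitL' q)) * castE E (qExpand ℤ m (unitL ℤ q)) = 1 := by
  rw [← map_mul, ← map_mul, mul_comm, Fermat.Agent.S36.H438.unitL_mul_unitL', map_one, map_one]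

/-- `q¹² u(t^r) = β (q¹² u)`, `β : F_{qm} → F_{qm·r}`. -/
theorem dRE_eq_beta (m : ℕ) [NeZero m] (hN : q * r ∣ q * m * r) :
    dRE E q r (q * m * r) hN = βE E (q * m) r (dE E (q * m) q (dvd_mul_right q m)) := by
  apply Subtype.ext
  rw [coe_dRE, coe_heckeBetaBar, Fermat.Agent.S36.H438.coe_dE]
  have hX : (q : LaurentSeries ℤ) ^ 12 * qExpand ℤ r (unitL ℤ q)
      = qExpand ℤ r (((q : ℕ) : LaurentSeries ℤ) ^ 12 * unitL ℤ q) := by
    rw [map_mul, map_pow, map_natCast]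
  rw [hX]
  exact coeffMap_qExpand _ r _

/-- `W (q¹² u(t^r)) = u'(t^m)` in `t`-expansions, level `N = q * m * r`. -/
theorem coe_fricke_dRE (m : ℕ) [NeZero m] (hN : q * r ∣ q * m * r)
    (W : FE E (q * m * r) ≃ₐ[E] FE E (q * m * r)) (hW : IsFricke E (q * m * r) W) :
    ((W (dRE E q r (q * m * r) hN) : FE E (q * m * r)) : LaurentSeries E)
      = castE E (qExpand ℤ m (H589.unitL' q)) := by
  have h := (Fermat.Agent.A2.Mod.H751.frickeCompat E (q * m) r
    (Fermat.Agent.A2.Mod.H751.frickeE E (q * m)) W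
    (Fermat.Agent.A2.Mod.H751.isFricke_frickeE E (q * m)) hW
    (dE E (q * m) q (dvd_mul_right q m))).2
  rw [dRE_eq_beta, h, coe_heckeAlphaBar]
  exact Fermat.Agent.S36.H438.coe_fricke_dE E (q * m) q m rfl (dvd_mul_right q m)
    (Fermat.Agent.A2.Mod.H751.frickeE E (q * m))
    (Fermat.Agent.A2.Mod.H751.isFricke_frickeE E (q * m))

/-- `q¹² u(t^r)` is a unit of `V₀ = V∞.comap W`, level `N = q * m * r`. -/
theorem dRE_unit_vzero (m : ℕ) [NeZero m] (hN : q * r ∣ q * m * r)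
    {V : ValuationSubring (FE E (q * m * r))}
    (W : FE E (q * m * r) ≃ₐ[E] FE E (q * m * r)) (hV : IsVinf P E (q * m * r) V)
    (hW : IsFricke E (q * m * r) W) :
    W (dRE E q r (q * m * r) hN) ∈ V ∧ W (dRE E q r (q * m * r) hN)⁻¹ ∈ V := by
  have hc := coe_fricke_dRE E q r m hN W hW
  refine ⟨Fermat.Agent.S36.H438.mem_vinf_of_coe_eq_castE P E hV hc, ?_⟩
  rw [map_inv₀]
  refine Fermat.Agent.S36.H438.mem_vinf_of_coe_eq_castE P E hV
    (X := qExpand ℤ m (unitL ℤ q)) ?_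
  rw [IntermediateField.coe_inv, hc]
  exact inv_eq_of_mul_eq_one_right (castE_qExpand_unitL'_mul464 E q m)

/-- **UNIT-QR (2)**: `D = q⁸ v⁻¹` is a unit of `V₀ = V∞.comap W`, any level `N` with
`q r ∣ N`. -/
theorem dQE_unit_vzero (h : QRAdm q r) (N : ℕ) [NeZero N] (hN : q * r ∣ N)
    {V : ValuationSubring (FE E N)}
    (W : FE E N ≃ₐ[E] FE E N) (hV : IsVinf P E N V) (hW : IsFricke E N W) :
    dQE E q r h N hN ∈ V.comap (W : FE E N →+* FE E N) ∧
      (dQE E q r h N hN)⁻¹ ∈ V.comap (W : FE E N →+* FE E N) := by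
  obtain ⟨m, rfl⟩ : ∃ m, N = q * m * r := by
    obtain ⟨k, hk⟩ := hN
    exact ⟨k, by rw [hk]; ring⟩
  have hm : NeZero m := ⟨by
    rintro rfl
    exact NeZero.ne (q * 0 * r) (by simp)⟩
  have h1 := Fermat.Agent.S36.H438.dE_unit_vzero P E (q * m * r) q (m * r) (by ring)
    (q_dvd_of_mul_dvd q r _ hN) W hV hW
  have h1a : W (dE E (q * m * r) q (q_dvd_of_mul_dvd q r _ hN)) ∈ V := h1.1
  have h1b : W (dE E (q * m * r) q (q_dvd_of_mul_dvd q r _ hN))⁻¹ ∈ V := h1.2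
  obtain ⟨h2a, h2b⟩ := dRE_unit_vzero P E q r m hN W hV hW
  constructor
  · show W _ ∈ V
    apply mem_of_pow_three_mem V
    rw [← map_pow, dQE_pow_three', map_mul]
    exact V.mul_mem _ _ h1a h2a
  · show W _ ∈ V
    apply mem_of_pow_three_mem V
    rw [← map_pow, inv_pow, dQE_pow_three', mul_inv, map_mul]
    exact V.mul_mem _ _ h1b h2b

end Fricke

/-! ## 2. The package -/

section Package

variable (P : ValuationSubring Qb) (E : IntermediateField ℚ Qb)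

/-- **Leaf UNIT-QR, packaged at level `M * q`, `r ∣ M`** (the analogue of `S36.H438.mu_package`
with the exponent `12` replaced by `8`, which is prime to `3`): the unit pair `D = q⁸ v⁻¹`,
`D' = v`, `v = (η(τ)η(rτ)/(η(qτ)η(qrτ)))⁸`, of the finite chart `B = chartAlg x`, `x = j · j_q`:
`D · D' = q⁸`, `D' ∈ (V∞)ˣ`, `D ∈ (V₀)ˣ` for `V₀ = V∞.comap W`, and at every place `V ⊇ E` of
`F_{M·q}` with `j ∈ V` both are units. -/
theorem muQR_package (q r : ℕ) [NeZero q] [NeZero r] (hq : q.Prime) (hr : r.Prime ∨ r = 1)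
    (h : QRAdm q r) (M : ℕ) [NeZero M] (hrM : r ∣ M) :
    ∃ D D' : FE E (M * q),
      (D : LaurentSeries E) = castE E ((q : LaurentSeries ℤ) ^ 8 * vQRInvL q r) ∧
      (D' : LaurentSeries E) = castE E (vQRL q r) ∧
      D * D' = algebraMap E (FE E (M * q)) ((q : E) ^ 8) ∧
      D ∈ chartAlg P E (M * q) (xE E M q) ∧
      D' ∈ chartAlg P E (M * q) (xE E M q) ∧
      (∀ V : ValuationSubring (FE E (M * q)), IsVinf P E (M * q) V → D' ∈ V ∧ D'⁻¹ ∈ V) ∧
      (∀ (V : ValuationSubring (FE E (M * q))) (W : FE E (M * q) ≃ₐ[E] FE E (M * q)),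
        IsVinf P E (M * q) V → IsFricke E (M * q) W →
          D ∈ V.comap (W : FE E (M * q) →+* FE E (M * q)) ∧
          D⁻¹ ∈ V.comap (W : FE E (M * q) →+* FE E (M * q))) ∧
      (∀ V : ValuationSubring (FE E (M * q)), (∀ e : E, algebraMap E (FE E (M * q)) e ∈ V) →
        jE E (M * q) 1 (one_dvd _) ∈ V → (D ∈ V ∧ D⁻¹ ∈ V) ∧ (D' ∈ V ∧ D'⁻¹ ∈ V)) :=
  have hN : q * r ∣ M * q := qr_dvd_mul q r M hrM
  ⟨dQE E q r h (M * q) hN, vQE E q r h (M * q) hN, coe_dQE E q r h (M * q) hN,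
    coe_vQE E q r h (M * q) hN, dQE_mul_vQE E q r h (M * q) hN,
    dQE_mem_chartAlg P E q r h M hrM hq hr, vQE_mem_chartAlg P E q r h M hrM hq hr,
    fun _ hV => vQE_unit_vinf P E q r h (M * q) hN hV,
    fun _ W hV hW => dQE_unit_vzero P E q r h (M * q) hN W hV hW,
    fun V hE hj => pair_unit_of_j_mem464 E q r h (M * q) hN hq hr V hE hj⟩

/-- The package for an auxiliary prime `r ≡ 2 mod 3` of the level (`q ≠ 3` any prime). -/
theorem muQR_package_aux (q r : ℕ) [NeZero q] [NeZero r] (hq : q.Prime) (hq3 : q ≠ 3)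
    (hr : r.Prime) (hr2 : r % 3 = 2) (M : ℕ) [NeZero M] (hrM : r ∣ M) :
    ∃ D D' : FE E (M * q),
      (D : LaurentSeries E) = castE E ((q : LaurentSeries ℤ) ^ 8 * vQRInvL q r) ∧
      (D' : LaurentSeries E) = castE E (vQRL q r) ∧
      D * D' = algebraMap E (FE E (M * q)) ((q : E) ^ 8) ∧
      D ∈ chartAlg P E (M * q) (xE E M q) ∧
      D' ∈ chartAlg P E (M * q) (xE E M q) ∧
      (∀ V : ValuationSubring (FE E (M * q)), IsVinf P E (M * q) V → D' ∈ V ∧ D'⁻¹ ∈ V) ∧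
      (∀ (V : ValuationSubring (FE E (M * q))) (W : FE E (M * q) ≃ₐ[E] FE E (M * q)),
        IsVinf P E (M * q) V → IsFricke E (M * q) W →
          D ∈ V.comap (W : FE E (M * q) →+* FE E (M * q)) ∧
          D⁻¹ ∈ V.comap (W : FE E (M * q) →+* FE E (M * q))) ∧
      (∀ V : ValuationSubring (FE E (M * q)), (∀ e : E, algebraMap E (FE E (M * q)) e ∈ V) →
        jE E (M * q) 1 (one_dvd _) ∈ V → (D ∈ V ∧ D⁻¹ ∈ V) ∧ (D' ∈ V ∧ D'⁻¹ ∈ V)) := by
  have hq3' : ¬ 3 ∣ q := fun hd =>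
    hq3 ((Nat.prime_dvd_prime_iff_eq Nat.prime_three hq).mp hd).symm
  exact muQR_package P E q r hq (Or.inl hr) (QRAdm.of_r hq3' hr2) M hrM

/-- The package for a prime `q ≡ 1 mod 3` without auxiliary prime (`r = 1`,
`v = (η(τ)/η(qτ))¹⁶`). -/
theorem muQR_package_one (q : ℕ) [NeZero q] (hq : q.Prime) (hq1 : q % 3 = 1)
    (M : ℕ) [NeZero M] :
    ∃ D D' : FE E (M * q),
      (D : LaurentSeries E) = castE E ((q : LaurentSeries ℤ) ^ 8 * vQRInvL q 1) ∧
      (D' : LaurentSeries E) = castE E (vQRL q 1) ∧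
      D * D' = algebraMap E (FE E (M * q)) ((q : E) ^ 8) ∧
      D ∈ chartAlg P E (M * q) (xE E M q) ∧
      D' ∈ chartAlg P E (M * q) (xE E M q) ∧
      (∀ V : ValuationSubring (FE E (M * q)), IsVinf P E (M * q) V → D' ∈ V ∧ D'⁻¹ ∈ V) ∧
      (∀ (V : ValuationSubring (FE E (M * q))) (W : FE E (M * q) ≃ₐ[E] FE E (M * q)),
        IsVinf P E (M * q) V → IsFricke E (M * q) W →
          D ∈ V.comap (W : FE E (M * q) →+* FE E (M * q)) ∧
          D⁻¹ ∈ V.comap (W : FE E (M * q) →+* FE E (M * q))) ∧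
      (∀ V : ValuationSubring (FE E (M * q)), (∀ e : E, algebraMap E (FE E (M * q)) e ∈ V) →
        jE E (M * q) 1 (one_dvd _) ∈ V → (D ∈ V ∧ D⁻¹ ∈ V) ∧ (D' ∈ V ∧ D'⁻¹ ∈ V)) :=
  muQR_package P E q 1 hq (Or.inr rfl) (QRAdm.of_q hq1 (by norm_num)) M (one_dvd M)

end Package

end Fermat.Agent.S59.UnitQR.H464

end
end
-- ===== PACK-END S59/UnitQR/H464/QRPkg.lean

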