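import Fermat.Agent.Pack.S59C.E5L3
import Fermat.Agent.Pack.S59C.E11L2
import Fermat.Agent.Pack.S43MC.G0E18L0
import Fermat.Agent.Pack.S59C.E7L3
import Fermat.Agent.Pack.S59C.E6L3
import Fermat.Agent.Pack.S43GC.G0E13L3
import Fermat.Agent.Pack.S59C.E4L2
import Fermat.Agent.Pack.S59C.E9L0
import Fermat.Agent.Pack.S43GC.G0E20L3
import Fermat.Agent.Pack.S43MC.G0E20L1
import Fermat.Agent.Pack.S43GC.G0E19L3
import Fermat.Agent.Pack.S43GC.G0E5L1
import Fermat.Agent.Pack.S43MC.G0E17L3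
import Fermat.Agent.Pack.S59C.E3L2
import Fermat.Agent.Pack.S43MC.G0E6L2
import Fermat.Agent.Pack.S43MC.G0E25L2
import Fermat.Agent.Pack.S43GC.G0E13L0
import Fermat.Agent.Pack.S44C.G0E12L2
import Fermat.Agent.Pack.S59C.E10L2
import Fermat.Agent.Pack.S59C.E9L2
import Fermat.Agent.Pack.S43MC.G0E27L2
import Fermat.Agent.Pack.S59C.E11L1
import Fermat.Agent.Pack.S43GC.G0E11L1
import Fermat.Agent.Pack.S43C.E2L2
import Fermat.Agent.Pack.S43C.E1L0
import Fermat.Agent.Pack.S59C.E11L0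
import Fermat.Agent.Pack.S43MC.G0E20L0
import Fermat.Agent.Pack.S59C.E6L2
import Fermat.Agent.Pack.S59C.E8L2
import Fermat.Agent.Pack.S59C.E11L3
import Fermat.Agent.Pack.S59C.E9L3
import Fermat.Agent.Pack.S43C.E1L3
import Fermat.Agent.Pack.S44C.G0E27L1
import Fermat.Agent.Pack.S44C.G0E15L0
import Fermat.Agent.Pack.S44C.G0E25L2
import Fermat.Agent.Pack.S44C.G0E14L0
import Fermat.Agent.Pack.S44C.G0E15L3
import Fermat.Agent.Pack.S44C.G0E28L0
import Fermat.Agent.Pack.S43MC.G0E16L3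
import Fermat.Agent.Pack.S44C.G0E3L1
import Fermat.Agent.Pack.S43MC.G0E17L1
import Fermat.Agent.Pack.S44C.G0E26L0
import Fermat.Agent.Pack.S59C.E7L2
import Fermat.Agent.Pack.S44C.G0E29L0

set_option linter.all false

-- ===== PACK-BEGIN S59/TW/AsmPlus.lean
section




/-!
# Row S59, cell TW, layer 2, `Plus` form: the assembly (helper24)

* `heckeSidePlus_of_leaves : PkgPlusStatement → ResGalStatement → AutPlusStatement →
  InertiaExistsStatement → InertiaOrderStatement → CycloSurjStatement → AlgStatement →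
  Arch.HeckeSidePlusStatement`;
* `heckeSidePlus_of : PkgPlusStatement → AutPlusStatement → Arch.HeckeSidePlusStatement`
  (RESG, INX, INO, CYC, ALG are closed on main and wired).

So the Hecke side of the cell TW is reduced to PKG (package at the levels `Smin ∪ Q`; ⇐ rows
S31–S34 + TW-STRICT) and AUT-PLUS (layer 3, `TW/Aut/`).
-/

set_option autoImplicit false

open Polynomial IsLocalRing

namespace Fermat.Agent.S59.TW

open Fermat.Agent.S59.Arch Fermat.Agent.S59.TW.H959 Fermat.Agent.S59.NM CuspForm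

/-- **Layer 2 of the cell TW, `Plus` form.** -/
theorem heckeSidePlus_of_leaves (hPkg : PkgPlusStatement) (hRes : ResGalStatement)
    (hAut : AutPlusStatement) (hInx : InertiaExistsStatement) (hIno : InertiaOrderStatement)
    (hCyc : CycloSurjStatement) (hAlg : AlgStatement) : HeckeSidePlusStatement := by
  intro p hpF 𝒪 _ _ _ _ _ _ ρbar Smin h hc t ht hN χ hχ
  haveI := hN
  obtain ⟨P₀, hθ₀⟩ := hPkg p 𝒪 ρbar Smin h hc t ht Smin (Finset.Subset.refl _) h.hSmin
    ((residue 𝒪).comp χ) hχ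
  obtain ⟨pt, hpt⟩ := P₀.H.exists_point χ (fun x => by rw [hθ₀]; rfl)
  have hpt' : ∀ x : heckeAlgebra (wilesLevel p t Smin Smin) 2 (↑Smin : Set ℕ),
      pt (heckeLocal.π (wilesLevel p t Smin Smin) (↑Smin : Set ℕ) 𝒪 P₀.θ x) = χ x := by
    intro x
    rw [← P₀.hπ]
    exact hpt x
  obtain ⟨M₀, i1, i2, i3, hbridge, hA⟩ := hAut p 𝒪 ρbar Smin h hc t ht P₀ χ hχ hθ₀ pt hpt'
  refine ⟨P₀, pt, M₀, i1, i2, i3, ?_, hbridge, ?_⟩
  · intro l hl hlN hlS
    rw [hpt', eig_eq χ hl hlN hlS]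
  intro n r qv hq
  have hSigP : ∀ q ∈ Smin ∪ Finset.univ.image qv, q.Prime := by
    intro q hq'
    rcases Finset.mem_union.mp hq' with h' | h'
    · exact h.hSmin q h'
    · obtain ⟨j, -, rfl⟩ := Finset.mem_image.mp h'
      exact (hq.2.1 j).1
  exact hasTWModule_of_leaves hRes hInx hIno hCyc hAlg h P₀ M₀ hq
    (fun θ hθ => hPkg p 𝒪 ρbar Smin h hc t ht _ Finset.subset_union_left hSigP θ hθ)
    (by rw [hθ₀]; exact hχ)
    (fun PQ res hres => hA n r qv hq PQ res hres)

/-- **Layer 2 of the cell TW, `Plus` form, closed leaves wired**: the Hecke side follows from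
PKG and AUT-PLUS. -/
theorem heckeSidePlus_of (hPkg : PkgPlusStatement) (hAut : AutPlusStatement) :
    HeckeSidePlusStatement :=
  heckeSidePlus_of_leaves hPkg H765.resGal hAut H427.inertiaExists H123.inertiaOrder
    H59.cycloSurj H95.alg

end Fermat.Agent.S59.TW

end
-- ===== PACK-END S59/TW/AsmPlus.lean

-- ===== PACK-BEGIN S59/TW/H959/WirePlus.lean
section











/-!
# Row S59, cell TW: the wiring of the closed leaves in `Plus` form, Layers 1 + 2 + 3 (helper959)

Board v5: the target of the cell TW is `Arch.MinRTPlusHStatement`.  All leaves of Layer 1 except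
S56 (frozen statement, on main as `Fermat.Agent.S56.result`) are closed; Layer 2 (helper24,
`TW/AsmPlus.lean`) reduces the Hecke side to PKG and AUT-PLUS; Layer 3 (helper24,
`TW/H24/AutPlus.lean`) reduces AUT-PLUS to the eight leaves IDEM, MOD0, NONTRIV, MODQ, FREE,
CTRL, CMP, BRIDGE.  Hence

* `minRTPlusH_of : S56Statement → TW.PkgPlusStatement → TW.AutPlusStatement →
    Arch.MinRTPlusHStatement`;
* `minRTPlusH_of_aut : S56Statement → TW.PkgPlusStatement → (the eight leaves of Layer 3) →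
    Arch.MinRTPlusHStatement`.

(`S56Statement` is the frozen S56 verbatim, `TW/H959/Glue.lean`; the final assembly plugs in
`Fermat.Agent.S56.result`.  It is kept as a hypothesis here to keep the closure small.)
-/

set_option autoImplicit false

namespace Fermat.Agent.S59.TW.H959

open Fermat.Agent.S59 Fermat.Agent.S59.Arch

/-- **Cell TW, `Plus` form**, from S56, PKG and AUT-PLUS. -/
theorem minRTPlusH_of (h56 : S56Statement) (hPkg : TW.PkgPlusStatement)
    (hAut : TW.AutPlusStatement) : Arch.MinRTPlusHStatement :=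
  minRTPlusH_of_leaves (twPrimes_of_S56 h56) Fermat.Agent.S53.result H659.sigmaCondStatement
    @Fermat.Agent.S54.result TW.H123.defRingRes TW.H206.weierstrass H427.minNum G4.H547.red
    (TW.heckeSidePlus_of hPkg hAut)

/-- **Cell TW, `Plus` form**, from S56, PKG and the eight leaves of Layer 3. -/
theorem minRTPlusH_of_aut (h56 : S56Statement) (hPkg : TW.PkgPlusStatement)
    (hIdem : TW.Aut.IdemStatement) (hMod0 : TW.Aut.Mod0Statement)
    (hNon : TW.Aut.NontrivStatement) (hModQ : TW.Aut.ModQStatement)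
    (hFree : TW.Aut.FreeQStatement) (hCtrl : TW.Aut.CtrlStatement)
    (hCmp : TW.Aut.CmpStatement) (hBridge : TW.H24.BridgeStatement) :
    Arch.MinRTPlusHStatement :=
  _root_.Fermat.Agent.S59.TW.H959.minRTPlusH_of h56 hPkg
    (TW.H24.autPlus_of_leaves hIdem hMod0 hNon hModQ hFree hCtrl hCmp hBridge)

end Fermat.Agent.S59.TW.H959

end
-- ===== PACK-END S59/TW/H959/WirePlus.lean

-- ===== PACK-BEGIN S59/NMP/H590/GeoRel.lean
section
/-
Row S59, cell NMP, leaf LGC (Eichler–Shimura at `p`), piece EIG — GEO-REL (helper590).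

Generalisation of `S33.homEigen_geoAt` (helper409): on the Tate eigenmodule `M` of
`X = Hom_ℤ(𝒪, J)` for a family of operators `t i` with eigenvalues `a i`, let `F = ρ frob` and
`E = F² - a i₀ F + p`.  If (K) holds for `(I, J)` and

    CORE :  `frob² x - t i₀ (frob x) + p x ∈ I_aug J[p ^ n]`   for all `x ∈ J[p ^ n]`,

then  `a₀ ≠ 0`, `a₀ M ⊆ I_aug M + E M`  ⟹  `I_aug M + 𝔪 M = M`.

(For `J = J₀(N)`, `p ∤ N`, `I = I_P`, `frob` a Frobenius element at `P`, `t i₀ = T_p`: (K) is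
`S33.OldAugStatement` (on main) and CORE is the Eichler–Shimura relation at `p` modulo the
inertia augmentation, i.e. `S37` at `ℓ = p` + MAXUNR.)
-/


set_option autoImplicit false
set_option linter.style.haveILetI false

noncomputable section

namespace Fermat.Agent.S59.NMP.H590

open IsLocalRing Fermat.Agent.S30 Fermat.Agent.S31 Fermat.Agent.S33

/-- **GEO-REL** for a linear action over a local ring, relative to an endomorphism `E`: if
`I_aug M + E M` contains `a M` for some `a ≠ 0`, then `I_aug M` generates `M` modulo the maximal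
ideal. -/
def GeoRelAt {A M : Type} [CommRing A] [IsLocalRing A] [AddCommGroup M] [Module A M]
    (ρ : GQ →* Module.End A M) (I : Subgroup GQ) (E : Module.End A M) : Prop :=
  ∀ a : A, a ≠ 0 → (∀ m : M, a • m ∈ augSpan ρ I ⊔ LinearMap.range E) →
    augSpan ρ I ⊔ (maximalIdeal A) • (⊤ : Submodule A M) = ⊤

/-- `GeoRelAt` for `E = 0` is `S33.GeoAt`. -/
theorem geoAt_of_geoRelAt_zero {A M : Type} [CommRing A] [IsLocalRing A] [AddCommGroup M]
    [Module A M] (ρ : GQ →* Module.End A M) (I : Subgroup GQ)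
    (h : GeoRelAt ρ I (0 : Module.End A M)) : GeoAt ρ I := by
  intro a ha hall
  exact h a ha fun m => Submodule.mem_sup_left (hall m)

section GeoHom

variable (p : ℕ)
variable (O : Type) [CommRing O] [IsDomain O] [IsDiscreteValuationRing O]
  [Finite (ResidueField O)] [CharZero O]
variable (J : Type) [AddCommGroup J] [DistribMulAction GQ J]
variable {ι : Type} (t : ι → J →+ J) (a : ι → O)

/-- **The Tate eigenmodule of `Hom_ℤ(𝒪, J)` satisfies GEO-REL at `(I, frob, i₀)`** if (K) holds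
for `(I, J)` and the relation `frob² - t i₀ frob + p` maps `J[p ^ n]` into `I_aug J[p ^ n]`. -/
theorem homEigen_geoRelAt [Fact p.Prime] (hpO : (p : O) ∈ maximalIdeal O)
    (hρ : ∀ (σ : GQ) (i : ι) (h : H529.PreHom O J),
      H529.preHomRep O J σ (H529.PreHom.post (t i) h)
        = H529.PreHom.post (t i) (H529.preHomRep O J σ h))
    (I : Subgroup GQ) (hKey : KeyAt I p J) (frob : GQ) (i₀ : ι)
    (hcore : ∀ (n : ℕ) (x : J), x ∈ torsSub J (p ^ n) →
      frob • frob • x - t i₀ (frob • x) + p • x ∈ iAug I (torsSub J (p ^ n))) :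
    GeoRelAt (H529.tateRep (ϖ := (p : O)) (t := fun i => H529.PreHom.post (t i)) (a := a)
      (H529.preHomRep O J) hρ) I
      (H529.tateRep (ϖ := (p : O)) (t := fun i => H529.PreHom.post (t i)) (a := a)
          (H529.preHomRep O J) hρ frob *
        H529.tateRep (ϖ := (p : O)) (t := fun i => H529.PreHom.post (t i)) (a := a)
          (H529.preHomRep O J) hρ frob -
        a i₀ • H529.tateRep (ϖ := (p : O)) (t := fun i => H529.PreHom.post (t i)) (a := a)
          (H529.preHomRep O J) hρ frob +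
        (p : O) • (1 : Module.End O
          ↥(H529.tateEigen (p : O) (fun i => H529.PreHom.post (t i)) a))) := by
  intro a₀ ha₀ hall
  have hp0 : (p : O) ≠ 0 := by
    exact_mod_cast (Fact.out : p.Prime).ne_zero
  -- abbreviations
  set ρ := H529.tateRep (ϖ := (p : O)) (t := fun i => H529.PreHom.post (t i)) (a := a)
      (H529.preHomRep O J) hρ with hρdef
  set E : Module.End O ↥(H529.tateEigen (p : O) (fun i => H529.PreHom.post (t i)) a) :=
    ρ frob * ρ frob - a i₀ • ρ frob + (p : O) • 1 with hE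
  -- `p ^ c M ≤ A + E M`
  obtain ⟨c, d, hcd⟩ := H529.exists_dvd_pow_of_mem_maximalIdeal hpO ha₀
  have hpc : ∀ m : ↥(H529.tateEigen (p : O) (fun i => H529.PreHom.post (t i)) a),
      (p : O) ^ c • m ∈ augSpan ρ I ⊔ LinearMap.range E := by
    intro m
    rw [hcd, mul_comm, mul_smul]
    exact Submodule.smul_mem _ _ (hall m)
  obtain ⟨r, o, ho⟩ := exists_reps_mod_s33 (pow_ne_zero (c + 1) hp0)
  -- evaluation of the `c`-th component at the representatives
  let e : ↥(H529.tateEigen (p : O) (fun i => H529.PreHom.post (t i)) a) →+ (Fin r → J) :=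
    { toFun := fun v i => H529.PreHom.toHom ((v : ℕ → H529.PreHom O J) c) (o i)
      map_zero' := by
        funext i
        rfl
      map_add' := by
        intro v w
        funext i
        rfl }
  have he : ∀ v i, e v i = H529.PreHom.toHom ((v : ℕ → H529.PreHom O J) c) (o i) :=
    fun _ _ => rfl
  have heq : ∀ (σ : GQ) v, e (ρ σ v) = σ • e v := by
    intro σ v
    funext i
    rfl
  -- the kernel of `e`
  have hker : ∀ v, e v = 0 → ∃ w : ↥(H529.tateEigen (p : O)
      (fun i => H529.PreHom.post (t i)) a), v = (p : O) ^ (c + 1) • w := by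
    intro v hv
    have hvi : ∀ i, H529.PreHom.toHom ((v : ℕ → H529.PreHom O J) c) (o i) = 0 := by
      intro i
      rw [← he, hv]
      rfl
    have h0 : (v : ℕ → H529.PreHom O J) c = 0 := by
      apply H529.PreHom.ext
      intro x
      obtain ⟨i, d', hd'⟩ := ho x
      have h1 : H529.PreHom.toHom ((v : ℕ → H529.PreHom O J) c) ((p : O) ^ (c + 1) * d') = 0 := by
        rw [← H529.PreHom.smul_apply, H529.tate_pow_succ_smul v.2 c]
        rfl
      rw [hd', map_add, hvi i, h1, add_zero]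
      rfl
    have hlt : ∀ m, m < c + 1 → (v : ℕ → H529.PreHom O J) m = 0 := by
      intro m hm
      obtain ⟨k, rfl⟩ : ∃ k, c = m + k := ⟨c - m, by omega⟩
      rw [← H529.tate_pow_smul v.2 k m, h0, smul_zero]
    obtain ⟨w, hw, hvw⟩ := H529.tate_exists_eq_pow_smul v.2 (c + 1) hlt
    refine ⟨⟨w, hw⟩, ?_⟩
    apply Subtype.ext
    rw [hvw]
    rfl
  -- values of the `c`-th component are killed by `p ^ (c + 1)`
  have hval : ∀ (v : ↥(H529.tateEigen (p : O) (fun i => H529.PreHom.post (t i)) a)) (x : O),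
      H529.PreHom.toHom ((v : ℕ → H529.PreHom O J) c) x ∈ torsSub J (p ^ (c + 1)) := by
    intro v x
    rw [mem_torsSub, ← H529.PreHom.natCast_pow_smul_apply, H529.tate_pow_succ_smul v.2 c]
    rfl
  -- elements of `A` have `c`-th component with values in `I_aug J[p ^ (c + 1)]`
  have haug : ∀ v : ↥(H529.tateEigen (p : O) (fun i => H529.PreHom.post (t i)) a),
      v ∈ augSpan ρ I → ∀ x : O,
        H529.PreHom.toHom ((v : ℕ → H529.PreHom O J) c) x
          ∈ iAug I (torsSub J (p ^ (c + 1))) := by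
    intro v hv
    unfold augSpan at hv
    induction hv using Submodule.span_induction with
    | mem z hz =>
      obtain ⟨σ, hσ, m, rfl⟩ := hz
      intro x
      exact smul_sub_mem_iAug hσ (hval m x)
    | zero =>
      intro x
      exact AddSubgroup.zero_mem _
    | add z w _ _ hz hw =>
      intro x
      exact AddSubgroup.add_mem _ (hz x) (hw x)
    | smul b z _ hz =>
      intro x
      exact hz (b * x)
  -- elements of `E M` have `c`-th component with values in `I_aug J[p ^ (c + 1)]` (CORE)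
  have hrel : ∀ (m : ↥(H529.tateEigen (p : O) (fun i => H529.PreHom.post (t i)) a)) (x : O),
      H529.PreHom.toHom (((E m : ↥(H529.tateEigen (p : O)
          (fun i => H529.PreHom.post (t i)) a)) : ℕ → H529.PreHom O J) c) x
        ∈ iAug I (torsSub J (p ^ (c + 1))) := by
    intro m x
    have h1 : H529.PreHom.toHom (((E m : ↥(H529.tateEigen (p : O)
          (fun i => H529.PreHom.post (t i)) a)) : ℕ → H529.PreHom O J) c) x
        = frob • frob • H529.PreHom.toHom ((m : ℕ → H529.PreHom O J) c) x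
          - t i₀ (frob • H529.PreHom.toHom ((m : ℕ → H529.PreHom O J) c) x)
          + p • H529.PreHom.toHom ((m : ℕ → H529.PreHom O J) c) x := by
      have h2 : H529.PreHom.toHom ((a i₀ • ((ρ frob m : ↥(H529.tateEigen (p : O)
          (fun i => H529.PreHom.post (t i)) a)) : ℕ → H529.PreHom O J) c)) x
          = t i₀ (frob • H529.PreHom.toHom ((m : ℕ → H529.PreHom O J) c) x) := by
        rw [← (ρ frob m).2.2.2 i₀ c]
        rfl
      have h3 : H529.PreHom.toHom (((p : O)) • ((m : ℕ → H529.PreHom O J) c)) x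
          = p • H529.PreHom.toHom ((m : ℕ → H529.PreHom O J) c) x :=
        H529.PreHom.natCast_smul_apply p _ x
      rw [← h2, ← h3]
      rfl
    rw [h1]
    exact hcore (c + 1) _ (hval m x)
  have haugS : ∀ v : ↥(H529.tateEigen (p : O) (fun i => H529.PreHom.post (t i)) a),
      v ∈ augSpan ρ I ⊔ LinearMap.range E → ∀ x : O,
        H529.PreHom.toHom ((v : ℕ → H529.PreHom O J) c) x
          ∈ iAug I (torsSub J (p ^ (c + 1))) := by
    intro v hv x
    obtain ⟨v₁, hv₁, v₂, ⟨m, rfl⟩, rfl⟩ := Submodule.mem_sup.mp hv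
    exact AddSubgroup.add_mem _ (haug v₁ hv₁ x) (hrel m x)
  -- the subgroup `Y = e (p ^ c M)`
  let φ : ↥(H529.tateEigen (p : O) (fun i => H529.PreHom.post (t i)) a) →+ (Fin r → J) :=
    e.comp (DistribSMul.toAddMonoidHom _ ((p : O) ^ c))
  have hφ : ∀ v, φ v = e ((p : O) ^ c • v) := fun _ => rfl
  have hφeq : ∀ (σ : GQ) v, φ (ρ σ v) = σ • φ v := by
    intro σ v
    rw [hφ, hφ, ← map_smul, heq]
  have hYG : ∀ (σ : GQ), ∀ y ∈ φ.range, σ • y ∈ φ.range := by
    rintro σ _ ⟨v, rfl⟩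
    exact ⟨ρ σ v, hφeq σ v⟩
  have hYS : ∀ y ∈ φ.range, ∀ i, InSPlus I p (y i) := by
    rintro _ ⟨v, rfl⟩ i
    refine ⟨?_, c + 1, ?_⟩
    · rw [hφ, he, ← H529.PreHom.natCast_smul_apply]
      have h1 : (p : O) • (((p : O) ^ c • v : ↥(H529.tateEigen (p : O)
          (fun i => H529.PreHom.post (t i)) a)) : ℕ → H529.PreHom O J) c
          = (p : O) ^ (c + 1) • (v : ℕ → H529.PreHom O J) c := by
        rw [pow_succ', mul_smul]
        rfl
      rw [h1, H529.tate_pow_succ_smul v.2 c]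
      rfl
    · rw [hφ, he]
      exact haugS _ (hpc v) (o i)
  have hYkey : φ.range ≤ iAug I φ.range := keyAt_pi hKey r φ.range hYG hYS
  -- lifting the augmentation of `Y`
  have hlift : ∀ y ∈ iAug I φ.range, ∃ v ∈ augSpan ρ I, φ v = y := by
    intro y hy
    unfold iAug at hy
    induction hy using AddSubgroup.closure_induction with
    | mem z hz =>
      obtain ⟨σ, hσ, y', ⟨v', rfl⟩, rfl⟩ := hz
      refine ⟨ρ σ v' - v', Submodule.subset_span ⟨σ, hσ, v', rfl⟩, ?_⟩
      rw [map_sub, hφeq]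
    | zero => exact ⟨0, Submodule.zero_mem _, map_zero φ⟩
    | add z w _ _ hz hw =>
      obtain ⟨v, hv, rfl⟩ := hz
      obtain ⟨v', hv', rfl⟩ := hw
      exact ⟨v + v', Submodule.add_mem _ hv hv', map_add φ v v'⟩
    | neg z _ hz =>
      obtain ⟨v, hv, rfl⟩ := hz
      exact ⟨-v, Submodule.neg_mem _ hv, map_neg φ v⟩
  -- conclusion
  rw [eq_top_iff]
  intro m _
  obtain ⟨v, hv, hvm⟩ := hlift (φ m) (hYkey ⟨m, rfl⟩)
  have h0 : e ((p : O) ^ c • (m - v)) = 0 := by
    rw [← hφ, map_sub, hvm, sub_self]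
  obtain ⟨w, hw⟩ := hker _ h0
  have h1 : m - v = (p : O) • w := by
    have h2 : (p : O) ^ c • (m - v - (p : O) • w) = 0 := by
      rw [smul_sub, hw, pow_succ, mul_smul, sub_self]
    have h3 : (m - v - (p : O) • w : ↥(H529.tateEigen (p : O)
        (fun i => H529.PreHom.post (t i)) a)) = 0 := by
      apply Subtype.ext
      funext n
      have h4 := H529.tate_pow_smul (m - v - (p : O) • w).2 c n
      have h5 := congrFun (congrArg Subtype.val h2) (n + c)
      rw [← h4]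
      exact h5
    exact sub_eq_zero.mp h3
  have h6 : m = v + (p : O) • w := by
    rw [← h1]; abel
  rw [h6]
  exact Submodule.add_mem_sup hv (Submodule.smul_mem_smul hpO Submodule.mem_top)

end GeoHom

end Fermat.Agent.S59.NMP.H590

end

end
-- ===== PACK-END S59/NMP/H590/GeoRel.lean

-- ===== PACK-BEGIN S59/NMP/H135/EigDatumC.lean
section
/-
Row S59, cell NMP, leaf LGC, piece EIG in the datum form: REALIZER-FREE copy (helper135) of
`S59/NMP/H590/EigDatum.lean` (helper590, whose proofs are copied verbatim).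

`H590/EigDatum.lean` imports `S33/H692/OrdEigen.lean`, hence `S32/H692/RelCore.lean` and
`S31/H982/TracePow.lean`, one of the modules which realise `S31.powTr.eq_def`; the rest of the
closure of S59 (G4, S31, S34) contains another one (`S31/H22/PowTr.lean`), and a closure with both
is rejected by the kernel checker (`coord/CI-realized-collisions-helper475.md`).  This copy takes
REL from the realizer-free chain `S59/TW/H659/Clean/Rel.lean` (`rel659`) instead.
-/










set_option autoImplicit false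
set_option linter.style.haveILetI false

noncomputable section

namespace Fermat.Agent.S59.NMP.H135.Clean

open Fermat.Agent.S59.NMP.H590

open IsLocalRing TensorProduct Fermat.Agent.S31 Fermat.Agent.S33

/-! ### Base change of the span of the image -/

/-- If the image of `r` spans `End_A V` (`V` free of rank two), the image of its base change spans
`End_B (B ⊗ V)`. -/
theorem span_range_baseChange_eq_top {A B : Type*} [CommRing A] [CommRing B] [Algebra A B]
    {V : Type*} [AddCommGroup V] [Module A V] (b : Module.Basis (Fin 2) A V)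
    {G : Type*} (r : G → Module.End A V) (h : Submodule.span A (Set.range r) = ⊤) :
    Submodule.span B (Set.range fun g => (r g).baseChange B) = ⊤ := by
  classical
  have h1 : ∀ f : Module.End A V,
      f.baseChange B ∈ Submodule.span B (Set.range fun g => (r g).baseChange B) := by
    intro f
    have hf : f ∈ Submodule.span A (Set.range r) := by
      rw [h]
      exact Submodule.mem_top
    induction hf using Submodule.span_induction with
    | mem x hx =>
      obtain ⟨g, rfl⟩ := hx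
      exact Submodule.subset_span ⟨g, rfl⟩
    | zero =>
      rw [LinearMap.baseChange_zero]
      exact zero_mem _
    | add x y _ _ hx hy =>
      rw [LinearMap.baseChange_add]
      exact add_mem hx hy
    | smul a x _ hx =>
      rw [LinearMap.baseChange_smul, ← algebraMap_smul B a (x.baseChange B)]
      exact Submodule.smul_mem _ _ hx
  rw [eq_top_iff]
  intro g _
  have hE : ∀ i j : Fin 2, LinearMap.toMatrix (Algebra.TensorProduct.basis B b)
      (Algebra.TensorProduct.basis B b)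
      (LinearMap.baseChange B (Matrix.toLin b b (Matrix.single i j (1 : A))))
      = Matrix.single i j (1 : B) := by
    intro i j
    rw [LinearMap.toMatrix_baseChange, LinearMap.toMatrix_toLin, Matrix.map_single, map_one]
  have hg : g = ∑ i, ∑ j, (LinearMap.toMatrix (Algebra.TensorProduct.basis B b)
      (Algebra.TensorProduct.basis B b) g i j) •
      (LinearMap.baseChange B (Matrix.toLin b b (Matrix.single i j (1 : A)))) := by
    apply (LinearMap.toMatrix (Algebra.TensorProduct.basis B b)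
      (Algebra.TensorProduct.basis B b)).injective
    rw [map_sum]
    conv_lhs => rw [Matrix.matrix_eq_sum_single (LinearMap.toMatrix
      (Algebra.TensorProduct.basis B b) (Algebra.TensorProduct.basis B b) g)]
    refine Finset.sum_congr rfl fun i _ => ?_
    rw [map_sum]
    refine Finset.sum_congr rfl fun j _ => ?_
    rw [map_smul, hE, Matrix.smul_single, smul_eq_mul, mul_one]
  rw [hg]
  exact Submodule.sum_mem _ fun i _ => Submodule.sum_mem _ fun j _ =>
    Submodule.smul_mem _ _ (h1 _)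

section BaseChange

variable {A B : Type} [CommRing A] [IsLocalRing A] [CommRing B] [IsLocalRing B]

/-- Trace of a base change. -/
theorem trace_baseChangeAlong590 (f : A →+* B) (hf : IsLocalHom f) (ρ : GaloisRepAdic A)
    (σ : GQ) :
    LinearMap.trace B (ρ.baseChangeAlong f hf).V ((ρ.baseChangeAlong f hf).ρ σ)
      = f (LinearMap.trace A ρ.V (ρ.ρ σ)) := by
  letI : Algebra A B := f.toAlgebra
  exact LinearMap.trace_baseChange (ρ.ρ σ) B

/-- Determinant of a base change. -/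
theorem det_baseChangeAlong590 (f : A →+* B) (hf : IsLocalHom f) (ρ : GaloisRepAdic A)
    (σ : GQ) :
    LinearMap.det ((ρ.baseChangeAlong f hf).ρ σ) = f (LinearMap.det (ρ.ρ σ)) := by
  letI : Algebra A B := f.toAlgebra
  exact LinearMap.det_baseChange (ρ.ρ σ)

/-- The image of a base change spans the endomorphism ring if the image of the representation
does. -/
theorem span_range_baseChangeAlong590 (f : A →+* B) (hf : IsLocalHom f) (ρ : GaloisRepAdic A)
    (h : Submodule.span A (Set.range ρ.ρ) = ⊤) :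
    Submodule.span B (Set.range (ρ.baseChangeAlong f hf).ρ) = ⊤ := by
  letI : Algebra A B := f.toAlgebra
  exact span_range_baseChange_eq_top (Module.finBasisOfFinrankEq A ρ.V ρ.finrank_eq)
    (fun g => ρ.ρ g) h

/-- **DETI.**  If `det ρ` is cyclotomic (`p` odd), some element of the inertia group at a place
over `p` has determinant `≠ 1`, after any specialisation to a local ring of residue
characteristic `p`. -/
theorem exists_inertia_det_ne_one590 (ρ : GaloisRepAdic A) {p : ℕ} (hp : p.Prime) (hp2 : p ≠ 2)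
    (hdet : ρ.DetIsCyclotomic p) (f : A →+* B) (hpB : (p : B) ∈ maximalIdeal B)
    (P : ValuationSubring (AlgebraicClosure ℚ)) (hP : P.LiesOverPrime p) :
    ∃ τ ∈ P.inertiaSubgroupIn ℚ, f (LinearMap.det (ρ.ρ τ)) ≠ 1 := by
  obtain ⟨τ, hτ, hne⟩ := Fermat.Agent.S59.H659.exists_inertia_cycExp_ne_one p hp hp2 P hP
  obtain ⟨c, hc⟩ := Fermat.Agent.S59.H659.exists_isCycExp p hp.ne_zero τ
  refine ⟨τ, hτ, fun h1 => hne c hc ?_⟩
  have h2 := hdet.2 1 τ c (fun μ hμ => hc μ (by rwa [pow_one] at hμ))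
  rw [pow_one, Ideal.mem_span_singleton] at h2
  obtain ⟨d, hd⟩ := h2
  have h3 : (1 : B) - (c : B) = (p : B) * f d := by
    have := congrArg f hd
    rwa [map_sub, h1, map_natCast, map_mul, map_natCast] at this
  have h4 : (1 : B) - (c : B) ∈ maximalIdeal B := by
    rw [h3]
    exact Ideal.mul_mem_right _ _ hpB
  have hp0 : ((p : ℕ) : ResidueField B) = 0 := by
    rw [← map_natCast (residue B)]
    exact (residue_eq_zero_iff _).mpr hpB
  haveI : CharP (ResidueField B) p := (CharP.charP_iff_prime_eq_zero hp).mpr hp0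
  have h5 : ((c : ℕ) : ResidueField B) = ((1 : ℕ) : ResidueField B) := by
    have := (residue_eq_zero_iff _).mpr h4
    rw [map_sub, map_one, map_natCast, sub_eq_zero] at this
    rw [Nat.cast_one]
    exact this.symm
  exact (CharP.natCast_eq_natCast (ResidueField B) p).mp h5

end BaseChange

/-! ### The root theorem for a datum -/

/-- `2` is a unit in a local ring of odd residue characteristic. -/
theorem isUnit_two_of_odd_mem135 {p : ℕ} (hp : p.Prime) (hp2 : p ≠ 2) {A : Type} [CommRing A]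
    [IsLocalRing A] (hpA : (p : A) ∈ maximalIdeal A) : IsUnit (2 : A) := by
  by_contra hnu
  have h2 : (2 : A) ∈ maximalIdeal A := (mem_maximalIdeal _).mpr hnu
  have hodd : Odd p := hp.odd_of_ne_two hp2
  obtain ⟨k, hk⟩ := hodd
  have h1 : (1 : A) = (p : A) - 2 * (k : A) := by
    rw [hk]
    push_cast
    ring
  have : (1 : A) ∈ maximalIdeal A := by
    rw [h1]
    exact Ideal.sub_mem _ hpA (Ideal.mul_mem_right _ _ h2)
  exact (Ideal.ne_top_iff_one _).mp (maximalIdeal.isMaximal A).ne_top this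


/-- **EIG, datum form.**  See the header. -/
theorem root_of_eigenModule (p : ℕ) [Fact p.Prime] (hp2 : p ≠ 2) (N : ℕ) [NeZero N]
    (S : Finset ℕ) (hpS : p ∈ S) (hNS : ∀ q : ℕ, q.Prime → q ∣ N → q ∈ S)
    (𝒪 : Type) [CommRing 𝒪] [IsDomain 𝒪] [IsDiscreteValuationRing 𝒪]
    [IsAdicComplete (maximalIdeal 𝒪) 𝒪]
    (θ : CuspForm.heckeAlgebra N 2 (↑S : Set ℕ) →+* ResidueField 𝒪)
    (T : Type) [CommRing T] [IsLocalRing T] [IsNoetherianRing T]
    [IsAdicComplete (maximalIdeal T) T] [Algebra 𝒪 T] [IsLocalHom (algebraMap 𝒪 T)]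
    [Module.Finite 𝒪 T] [Module.Free 𝒪 T]
    (H : CuspForm.HeckeGaloisRepDatum N (↑S : Set ℕ) 𝒪 θ T)
    (P : PadicPoint p T) (hloc : IsLocalHom P.χ)
    (α : P.O) (hα : UnrFrobAt (H.ρ.baseChangeAlong P.χ hloc) p α)
    (E : Fermat.Agent.S30.H990.AdicEigenModule p N S P.O (P.χ.comp H.π)) (a : P.O)
    (hgeo : ∀ Pl : ValuationSubring Qb, Pl.LiesOverPrime p →
      ∀ φ : GQ, Pl.IsFrobeniusAt φ p →
        GeoRelAt E.ρ (Pl.inertiaSubgroupIn ℚ) (esEnd (E.ρ φ) a p)) :
    α ^ 2 - a * α + (p : P.O) = 0 := by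
  have hp : p.Prime := Fact.out
  obtain ⟨Pl, hPl, L, ⟨b, rfl⟩, hD, hI, hF⟩ := hα
  obtain ⟨φ, hφ⟩ := Fermat.Agent.S37.H99.exists_isFrobeniusAt p hp Pl hPl
  have hspanT := Fermat.Agent.S31.H202.span_range_rho_eq_top H.ρ H.residual_absIrr
  have hspan := span_range_baseChangeAlong590 P.χ hloc H.ρ hspanT
  have hrel0 := Fermat.Agent.S59.TW.H659.Clean.rel659 p N S hpS hNS 𝒪 θ T H P hloc E
  have hrel : ∀ g : GQ, E.ρ g * E.ρ g
      - (LinearMap.trace P.O (H.ρ.baseChangeAlong P.χ hloc).V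
          ((H.ρ.baseChangeAlong P.χ hloc).ρ g)) • E.ρ g
      + (LinearMap.det ((H.ρ.baseChangeAlong P.χ hloc).ρ g)) • (1 : Module.End P.O E.M) = 0 := by
    intro g
    rw [trace_baseChangeAlong590, det_baseChangeAlong590]
    exact hrel0 g
  have h2u : IsUnit (2 : P.O) := isUnit_two_of_odd_mem135 hp hp2 P.hp
  have hpT : (p : T) ∈ maximalIdeal T := by
    rw [mem_maximalIdeal, mem_nonunits_iff]
    intro hu
    have h1 : IsUnit (P.χ (p : T)) := hu.map P.χ
    rw [map_natCast] at h1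
    exact (mem_nonunits_iff.mp ((mem_maximalIdeal _).mp P.hp)) h1
  have hdetc : H.ρ.DetIsCyclotomic p :=
    Fermat.Agent.S59.H540.heckeGaloisRepDatum_detIsCyclotomic S H p hpT
  obtain ⟨τ, hτ, hτdet⟩ := exists_inertia_det_ne_one590 H.ρ hp hp2 hdetc P.χ P.hp Pl hPl
  have hτdet' : LinearMap.det ((H.ρ.baseChangeAlong P.χ hloc).ρ τ) ≠ 1 := by
    rw [det_baseChangeAlong590]
    exact hτdet
  exact root_of_line (H.ρ.baseChangeAlong P.χ hloc) p α a Pl b hD hI hF hφ hτ hτdet' E.ρ hspan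
    h2u hrel (hgeo Pl hPl φ hφ)

end Fermat.Agent.S59.NMP.H135.Clean

end

end
-- ===== PACK-END S59/NMP/H135/EigDatumC.lean

-- ===== PACK-BEGIN S59/NMP/H590/EigModule.lean
section
/-
Row S59, cell NMP, leaf LGC (Eichler–Shimura at `p`), piece EIG — the eigenmodule (helper590).

* `exists_geoRel_homEigenmodule` : `S33.exists_geo_homEigenmodule` (helper409) with the additional
  conclusion GEO-REL (`homEigen_geoRelAt`).
* `exists_eigenModule_geoRel` : for `J₀(N)`, `p ∤ N`, an eigen-homomorphism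
  `f : Frac 𝒪' / 𝒪' → J₀(N)` for a character `χ` of the Hecke algebra away from `S ∋ p` AND for
  `T_p` (eigenvalue `b`), and CORE (`(φ² - T_p φ + p) J[pⁿ] ⊆ I_aug J[pⁿ]`), give an adic
  eigenmodule of `χ` satisfying GEO-REL for `F² - b F + p` at every place over `p`.
-/



set_option autoImplicit false
set_option linter.style.haveILetI false

noncomputable section

namespace Fermat.Agent.S59.NMP.H590

open IsLocalRing Fermat.Agent.S30 Fermat.Agent.S31 Fermat.Agent.S33

/-! ### The eigenmodule attached to an eigen-homomorphism, with GEO and GEO-REL -/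

section MainHom

/-- `S33.exists_geo_homEigenmodule` with the additional conclusion GEO-REL at every `(I, frob, i₀)`
for which (K) and CORE hold.  (Copy of the proof of helper409/helper32, last conclusion added.) -/
theorem exists_geoRel_homEigenmodule
    {p : ℕ} (hp : p.Prime)
    {O : Type} [CommRing O] [IsDomain O] [IsDiscreteValuationRing O]
    [IsAdicComplete (IsLocalRing.maximalIdeal O) O] [Finite (IsLocalRing.ResidueField O)]
    [CharZero O] (hpO : (p : O) ∈ IsLocalRing.maximalIdeal O)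
    {J : Type} [AddCommGroup J] [DistribMulAction GQ J]
    (hsm : ∀ x : J, ∃ L : IntermediateField ℚ (AlgebraicClosure ℚ), FiniteDimensional ℚ L ∧
      ∀ σ : GQ, (∀ y ∈ L, σ y = y) → σ • x = x)
    (hfin : {x : J | p • x = 0}.Finite)
    {ι : Type} (t : ι → J →+ J) (ht : ∀ i (σ : GQ) (x : J), σ • t i x = t i (σ • x))
    (a : ι → O)
    (f : FractionRing O →+ J) (hf0 : ∀ r : O, f (algebraMap O (FractionRing O) r) = 0)
    (hf : f ≠ 0)
    (hfe : ∀ i x, t i (f x) = f (algebraMap O (FractionRing O) (a i) * x)) :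
    ∃ (M : Type) (_ : AddCommGroup M) (_ : Module O M) (_ : Module.Free O M)
      (_ : Module.Finite O M) (ρ : GQ →* Module.End O M),
      Nontrivial M ∧ GaloisActionIsAdicContinuous O ρ ∧
      (∀ σ : GQ, (∀ x : J, (∃ n : ℕ, p ^ n • x = 0) → σ • x = x) → ρ σ = 1) ∧
      (∀ (i : ι) (n : ℕ) (σ : GQ),
        (∀ x : J, (∃ k : ℕ, p ^ k • x = 0) → σ • σ • x - t i (σ • x) + n • x = 0) →
        ρ σ * ρ σ - a i • ρ σ + (n : O) • (1 : Module.End O M) = 0) ∧
      (∀ I : Subgroup GQ, KeyAt I p J → GeoAt ρ I) ∧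
      ∀ (I : Subgroup GQ) (frob : GQ) (i₀ : ι), KeyAt I p J →
        (∀ (n : ℕ) (x : J), x ∈ torsSub J (p ^ n) →
          frob • frob • x - t i₀ (frob • x) + p • x ∈ iAug I (torsSub J (p ^ n))) →
        GeoRelAt ρ I (esEnd (ρ frob) (a i₀) p) := by
  have : Fact p.Prime := ⟨hp⟩
  have hϖ0 : (p : O) ≠ 0 := by exact_mod_cast hp.ne_zero
  have hpL : algebraMap O (FractionRing O) (p : O) ≠ 0 := by
    intro h
    exact hϖ0 ((IsFractionRing.injective O (FractionRing O)) (by rw [h, map_zero]))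
  -- operators
  set t' : ι → H529.PreHom O J →ₗ[O] H529.PreHom O J := fun i => H529.PreHom.post (t i) with ht'
  have hρ : ∀ (σ : GQ) (i : ι) (h : H529.PreHom O J),
      H529.preHomRep O J σ (t' i h) = t' i (H529.preHomRep O J σ h) := by
    intro σ i h
    apply H529.PreHom.ext
    intro x
    simp only [ht', H529.preHomRep_apply, H529.PreHom.post_apply]
    exact ht i σ _
  -- finiteness
  have hX : ∃ Y : Submodule O (H529.PreHom O J), Y.FG ∧
      ∀ h : H529.PreHom O J, (p : O) • h = 0 → h ∈ Y := by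
    have hfinX := H529.preHom_torsion_finite (O := O) (J := J) p hϖ0 hfin
    exact ⟨Submodule.span O {h : H529.PreHom O J | (p : O) • h = 0},
      Submodule.fg_span hfinX, fun h hh => Submodule.subset_span hh⟩
  have hfree := H529.tateEigen_free (t := t') (a := a) hpO hϖ0 hX
  have hfinite := H529.tateEigen_finite (t := t') (a := a) hpO hϖ0 hX
  -- torsion values
  have hval : ∀ (k : ℕ) (h : H529.PreHom O J), (p : O) ^ k • h = 0 →
      ∀ x : O, p ^ k • H529.PreHom.toHom h x = 0 := by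
    intro k h hh x
    rw [← H529.PreHom.natCast_pow_smul_apply, hh]
    rfl
  refine ⟨H529.tateEigen (p : O) t' a, inferInstance, inferInstance, hfree, hfinite,
    H529.tateRep (H529.preHomRep O J) hρ, ?_, ?_, ?_, ?_,
    fun I hKey => homEigen_geoAt p O J t a hpO hρ I hKey,
    fun I frob i₀ hKey hcore => homEigen_geoRelAt p O J t a hpO hρ I hKey frob i₀ hcore⟩
  · -- nontrivial
    have hmem : H529.seqOfHom p f ∈ H529.tateEigen (p : O) t' a := by
      refine ⟨?_, ?_, ?_⟩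
      · apply H529.PreHom.ext
        intro x
        rw [H529.PreHom.smul_apply, H529.seqOfHom_apply,
          (algebraMap O (FractionRing O)).map_mul]
        have : algebraMap O (FractionRing O) (p : O) * algebraMap O (FractionRing O) x
            * (algebraMap O (FractionRing O) (p : O) ^ (0 + 1))⁻¹
            = algebraMap O (FractionRing O) x := by
          field_simp
          ring
        rw [this, hf0]
        rfl
      · intro n
        apply H529.PreHom.ext
        intro x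
        rw [H529.PreHom.smul_apply, H529.seqOfHom_apply, H529.seqOfHom_apply,
          (algebraMap O (FractionRing O)).map_mul]
        congr 1
        field_simp
        ring
      · intro i n
        apply H529.PreHom.ext
        intro x
        rw [H529.PreHom.smul_apply, H529.seqOfHom_apply]
        simp only [ht', H529.PreHom.post_apply]
        rw [H529.seqOfHom_apply, hfe, (algebraMap O (FractionRing O)).map_mul, mul_assoc]
    have hne : H529.seqOfHom p f ≠ 0 := by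
      intro h0
      apply hf
      apply AddMonoidHom.ext
      intro y
      obtain ⟨x, s, hs, rfl⟩ := IsFractionRing.div_surjective (A := O) y
      have hs0 : s ≠ 0 := nonZeroDivisors.ne_zero hs
      obtain ⟨k, c, hc⟩ := H529.exists_dvd_pow_of_mem_maximalIdeal hpO hs0
      have h1 := congrArg (fun h => H529.PreHom.toHom h (x * c * (p : O))) (congrFun h0 k)
      simp only [H529.seqOfHom_apply] at h1
      have hsL : algebraMap O (FractionRing O) s ≠ 0 := by
        intro h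
        exact hs0 ((IsFractionRing.injective O (FractionRing O)) (by rw [h, map_zero]))
      have h2 : algebraMap O (FractionRing O) (x * c * (p : O))
          * (algebraMap O (FractionRing O) (p : O) ^ (k + 1))⁻¹
          = algebraMap O (FractionRing O) x / algebraMap O (FractionRing O) s := by
        have h3 : algebraMap O (FractionRing O) (p : O) ^ k
            = algebraMap O (FractionRing O) s * algebraMap O (FractionRing O) c := by
          rw [← map_pow, hc, map_mul]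
        rw [pow_succ, h3, (algebraMap O (FractionRing O)).map_mul,
          (algebraMap O (FractionRing O)).map_mul]
        have hcL : algebraMap O (FractionRing O) c ≠ 0 := by
          intro h
          rw [h, mul_zero] at h3
          exact hpL (pow_eq_zero_iff (by
            intro hk
            subst hk
            simp at h3) |>.mp h3)
        field_simp
      rw [h2] at h1
      rw [h1]
      rfl
    refine ⟨⟨⟨H529.seqOfHom p f, hmem⟩, 0, ?_⟩⟩
    intro h
    exact hne (congrArg Subtype.val h)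
  · -- continuity
    intro n
    obtain ⟨L, hL, hLfix⟩ := H529.exists_common_level {x : J | p ^ n • x = 0}
      (H529.finite_torsion_pow J p hfin n) (fun x _ => hsm x)
    refine ⟨L, hL, fun σ hσ m => ?_⟩
    apply H529.tateRep_sub_mem (H529.preHomRep O J) hρ hpO n σ
    intro h hh
    apply H529.PreHom.ext
    intro x
    rw [H529.preHomRep_apply]
    exact hLfix σ hσ _ (hval n h hh x)
  · -- trivial action
    intro σ hσ
    apply H529.tateRep_eq_one
    rintro h ⟨k, hh⟩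
    apply H529.PreHom.ext
    intro x
    rw [H529.preHomRep_apply]
    exact hσ _ ⟨k, hval k h hh x⟩
  · -- quadratic relations
    intro i n σ hσ
    apply H529.tateRep_quadratic
    rintro h ⟨k, hh⟩
    apply H529.PreHom.ext
    intro x
    have h1 := hσ (H529.PreHom.toHom h x) ⟨k, hval k h hh x⟩
    simp only [ht', H529.PreHom.toHom_add, H529.PreHom.toHom_sub, AddMonoidHom.add_apply,
      AddMonoidHom.sub_apply, H529.preHomRep_apply, H529.PreHom.post_apply,
      H529.PreHom.natCast_smul_apply, H529.PreHom.toHom_zero, AddMonoidHom.zero_apply]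
    exact h1

end MainHom

/-! ### The eigenmodule of `J₀(N)` for a system including `T_p`, with GEO-REL at `p` -/

section Chain

open Fermat.Agent.S30.H990 (AdicEigenModule)
open Fermat.Agent.S30.H330

/-- **CORE at `(N, p)`** (Eichler–Shimura at `p` modulo the inertia augmentation): for every
place `Pl ∣ p` and every Frobenius element `φ` at `Pl`,
`(φ² - T_p φ + p) J₀(N)[pⁿ] ⊆ I_aug J₀(N)[pⁿ]`  (`I = I_{Pl}`). -/
def CoreAt (N : ℕ) [NeZero N] (p : ℕ) [Fact p.Prime] : Prop :=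
  ∀ Pl : ValuationSubring Qb, Pl.LiesOverPrime p → ∀ φ : _root_.Fermat.Agent.S31.GQ, Pl.IsFrobeniusAt φ p →
    ∀ (n : ℕ) (x : ModularCurve.JZero N), x ∈ torsSub (ModularCurve.JZero N) (p ^ n) →
      φ • φ • x - ModularCurve.heckeOperatorBar N ⟨p, Fact.out⟩ (φ • x) + p • x
        ∈ iAug (Pl.inertiaSubgroupIn ℚ) (torsSub (ModularCurve.JZero N) (p ^ n))

/-- **The eigenmodule with GEO-REL at `p`.**  `p ∤ N` odd, `χ` a character of the Hecke algebra
away from `S ∋ p`, `b` a candidate eigenvalue of `T_p`, `f` a nonzero eigen-homomorphism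
`Frac 𝒪' / 𝒪' → J₀(N)` for `(χ, b)`.  Under CORE there is an adic eigenmodule of `χ` satisfying
GEO-REL for `F² - b F + p` at every place over `p`.
(`hOLD`, `hF`, `hT` are theorems on main, see `EigFinal.lean`.) -/
theorem exists_eigenModule_geoRel (hOLD : OldAugStatement)
    (hF : ∀ (N : ℕ) [NeZero N] (p : ℕ) [Fact p.Prime], FinStatement N p)
    (hT : ∀ (N : ℕ) [NeZero N] (p : ℕ) [Fact p.Prime], TorsionRelations N p)
    (p : ℕ) [Fact p.Prime] (hp2 : p ≠ 2) (N : ℕ) [NeZero N] (hpN : ¬ p ∣ N)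
    (S : Finset ℕ) (hpS : p ∈ S)
    (𝒪' : Type) [CommRing 𝒪'] [IsDomain 𝒪'] [IsDiscreteValuationRing 𝒪']
    [IsAdicComplete (maximalIdeal 𝒪') 𝒪'] [Finite (ResidueField 𝒪')]
    [CharZero 𝒪'] (hp𝒪' : (p : 𝒪') ∈ maximalIdeal 𝒪')
    (χ : CuspForm.heckeAlgebra N 2 (↑S : Set ℕ) →+* 𝒪') (b : 𝒪')
    (f : FractionRing 𝒪' →+ ModularCurve.JZero N)
    (hf0 : ∀ r : 𝒪', f (algebraMap 𝒪' (FractionRing 𝒪') r) = 0) (hf : f ≠ 0)
    (hfe : ∀ (ℓ : Nat.Primes), (ℓ : ℕ) ∉ S → ∀ x,
      ModularCurve.heckeOperatorBar N ℓ (f x)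
        = f (algebraMap 𝒪' (FractionRing 𝒪') (eigenvalue χ ℓ) * x))
    (hfp : ∀ x, ModularCurve.heckeOperatorBar N ⟨p, Fact.out⟩ (f x)
      = f (algebraMap 𝒪' (FractionRing 𝒪') b * x))
    (hcore : CoreAt N p) :
    ∃ E : AdicEigenModule p N S 𝒪' χ, ∀ Pl : ValuationSubring Qb, Pl.LiesOverPrime p →
      ∀ φ : _root_.Fermat.Agent.S31.GQ, Pl.IsFrobeniusAt φ p →
        GeoRelAt E.ρ (Pl.inertiaSubgroupIn ℚ) (esEnd (E.ρ φ) b p) := by
  classical
  have hp : p.Prime := Fact.out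
  have hSm := Fermat.Agent.S30.H990.smoothStatement N
  have hGH := Fermat.Agent.S30.H990.galoisHeckeStatement N
  -- the operators: `none ↦ T_p`, `some ℓ ↦ T_ℓ`
  let t : Option {ℓ : Nat.Primes // (ℓ : ℕ) ∉ S} →
      ModularCurve.JZero N →+ ModularCurve.JZero N := fun i =>
    Option.rec (ModularCurve.heckeOperatorBar N ⟨p, Fact.out⟩).toAddMonoidHom
      (fun j => (ModularCurve.heckeOperatorBar N j.1).toAddMonoidHom) i
  let a : Option {ℓ : Nat.Primes // (ℓ : ℕ) ∉ S} → 𝒪' := fun i =>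
    Option.rec b (fun j => eigenvalue χ (j.1 : ℕ)) i
  have ht : ∀ i (σ : _root_.Fermat.Agent.S31.GQ) (x : ModularCurve.JZero N), σ • t i x = t i (σ • x) := by
    intro i σ x
    cases i with
    | none => exact hGH σ _ x
    | some j => exact hGH σ j.1 x
  have hfe' : ∀ i x, t i (f x) = f (algebraMap 𝒪' (FractionRing 𝒪') (a i) * x) := by
    intro i x
    cases i with
    | none => exact hfp x
    | some j => exact hfe j.1 j.2 x
  obtain ⟨M, j1, j2, j3, j4, ρ, hnt, hcont, hunr, hquad, -, hgeoRel⟩ :=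
    exists_geoRel_homEigenmodule (O := 𝒪') hp hp𝒪' (J := ModularCurve.JZero N)
      (fun x => hSm x) (hF N p) t ht a f hf0 hf hfe'
  have hdvd : ∀ q : ℕ, q.Prime → ¬ q ∣ N → q ≠ p → ¬ q ∣ N * p := by
    intro q hq hqN hqp hdiv
    rcases (Nat.Prime.dvd_mul hq).1 hdiv with h1 | h1
    · exact hqN h1
    · exact hqp ((Nat.prime_dvd_prime_iff_eq hq hp).1 h1)
  refine ⟨{ M := M
            ρ := ρ
            cont := hcont
            unram := fun q hq hqN hqp P hP σ hσ =>
              hunr σ fun x hx => (hT N p q hq (hdvd q hq hqN hqp) P hP).1 σ hσ x hx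
            frob := fun ℓ hℓ hℓN hℓS A hA σ hσ => by
              have hℓS' : ℓ ∉ S := fun hmem => hℓS (Finset.mem_coe.mpr hmem)
              have hℓp : ℓ ≠ p := fun h => hℓS' (h ▸ hpS)
              have h1 := hquad (some ⟨⟨ℓ, hℓ⟩, hℓS'⟩) ℓ σ
                fun x hx => (hT N p ℓ hℓ (hdvd ℓ hℓ hℓN hℓp) A hA).2 σ hσ x hx
              have h2 : eigenvalue χ ℓ = χ (CuspForm.heckeAlgebra.T hℓ hℓN hℓS) := by
                unfold eigenvalue
                rw [dif_pos ⟨hℓ, hℓN, hℓS⟩]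
              rw [← h2]
              exact h1 }, ?_⟩
  intro Pl hPl φ hφ
  exact hgeoRel (Pl.inertiaSubgroupIn ℚ) φ none (hOLD p N hp hp2 hpN Pl hPl) (hcore Pl hPl φ hφ)

end Chain

end Fermat.Agent.S59.NMP.H590

end

end
-- ===== PACK-END S59/NMP/H590/EigModule.lean

-- ===== PACK-BEGIN S59/Unit3/H461/Unit3Pair.lean
section



/-!
# S59 / leaf UNIT-3, part 9: the unit PAIR at `p = 3` in cut form (helper461)

* `pkgAt_three`      : `mu3_package` as a `PkgAt P E M 3 8 v3L` (`2 ∣ M`);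
* `unitPairAt_three` : VERBATIM the body of `Ribet.H912.UnitPairAt A M 3 8 v3L` (generic TAME of
                       helper912): at every level `E`, uniformiser `w`, cuts `p₁`, `p₂`:
                       `D · D' = w ^ (8 e)`, `3 ~ w ^ e`, `D ∉ p₁`, `D' ∉ p₂`, `D = v3L`;
* `unit3_bar`        : the unit over `ℚ̄`: `DQ ∈ F(3 M)`, `DQ = v3InvL`, `DQ ≠ 0`,
                       `DQ · castE E v3L = 1` for every `E` (inputs `DQ, hDQ0, hDQ` of
                       `Ribet.H912.tameCoreGen`).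
-/

set_option autoImplicit false
set_option synthInstance.maxHeartbeats 400000
set_option maxHeartbeats 1600000
set_option linter.unusedSectionVars false

noncomputable section

namespace Fermat.Agent.S59.Unit3.H461

open ModularCurve HahnSeries
open Fermat.Agent.A2.Mod

/-- `mu3_package` as a package of exponent `8` with expansion `v3L`. -/
theorem pkgAt_three (P : ValuationSubring Qb) (E : IntermediateField ℚ Qb) (M : ℕ) [NeZero M]
    (h2 : 2 ∣ M) : PkgAt P E M 3 8 v3L := by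
  obtain ⟨D, D', -, hexp, hmul, hD, hD', hVu, hV0u, -⟩ := mu3_package P E M h2
  refine ⟨D, D', hexp, ?_, hD, hD', hVu, hV0u⟩
  rw [hmul]
  norm_num

/-- **The unit pair at `p = 3`, exponent `8`** (`3 ∤ 8`), level `M * 3`, `2 ∣ M`:
VERBATIM the body of `Ribet.H912.UnitPairAt A M 3 8 v3L`. -/
theorem unitPairAt_three (A : ValuationSubring Qb) (M : ℕ) [NeZero M] (h2 : 2 ∣ M) :
    ∀ (E : IntermediateField ℚ Qb) (w : RE A E), Setting A E M 3 w → Fermat.Agent.A2.GoodField A E →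
      ∀ (V : ValuationSubring (FE E (M * 3)))
        (W : FE E (M * 3) ≃ₐ[E] FE E (M * 3)),
        IsVinf A E (M * 3) V → IsFricke E (M * 3) W →
        ∀ p₁ p₂ : Ideal (chartAlg A E (M * 3) (xE E M 3)),
          IsCut A E (M * 3) w V (chartAlg A E (M * 3) (xE E M 3)) p₁ →
          IsCut A E (M * 3) w (V.comap (W : FE E (M * 3) →+* FE E (M * 3)))
            (chartAlg A E (M * 3) (xE E M 3)) p₂ →
          ∃ (e : ℕ) (D D' : chartAlg A E (M * 3) (xE E M 3)), 0 < e ∧
            Associated ((3 : ℕ) : RE A E) (w ^ e) ∧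
            D * D' = algebraMap (RE A E) (chartAlg A E (M * 3) (xE E M 3)) w ^
              (8 * e) ∧
            D ∉ p₁ ∧ D' ∉ p₂ ∧
            (((D : FE E (M * 3)) : FE E (M * 3)) : LaurentSeries E) =
              Fermat.Agent.S36.H438.castE E v3L := by
  intro E w hS _ V W hV hW p₁ p₂ hc₁ hc₂
  exact exists_unitPair_cut_of_pkg (pkgAt_three A E M h2) hS hV hW p₁ p₂ hc₁ hc₂

/-- The same at a level of known ramification index `e₀` (`3 ~ w ^ e₀`): exponent `8 e₀`. -/
theorem unitPairAt_three_ram (A : ValuationSubring Qb) (E : IntermediateField ℚ Qb) (M : ℕ)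
    [NeZero M] (h2 : 2 ∣ M) {w : RE A E} (hS : Setting A E M 3 w) {e₀ : ℕ}
    (hram : Associated ((3 : ℕ) : RE A E) (w ^ e₀))
    {V : ValuationSubring (FE E (M * 3))} {W : FE E (M * 3) ≃ₐ[E] FE E (M * 3)}
    (hV : IsVinf A E (M * 3) V) (hW : IsFricke E (M * 3) W)
    (p₁ p₂ : Ideal (chartAlg A E (M * 3) (xE E M 3)))
    (hc₁ : IsCut A E (M * 3) w V (chartAlg A E (M * 3) (xE E M 3)) p₁)
    (hc₂ : IsCut A E (M * 3) w (V.comap (W : FE E (M * 3) →+* FE E (M * 3)))
      (chartAlg A E (M * 3) (xE E M 3)) p₂) :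
    ∃ (D D' : chartAlg A E (M * 3) (xE E M 3)),
      D * D' = algebraMap (RE A E) (chartAlg A E (M * 3) (xE E M 3)) w ^ (8 * e₀) ∧
      D ∉ p₁ ∧ D' ∉ p₂ ∧
      (((D : FE E (M * 3)) : FE E (M * 3)) : LaurentSeries E) =
        Fermat.Agent.S36.H438.castE E v3L :=
  exists_unitPair_ram_of_pkg (pkgAt_three A E M h2) hS hram hV hW p₁ p₂ hc₁ hc₂

/-! ## The unit over `ℚ̄` -/

theorem coeffMap_bar_v3_mul :
    coeffMap (Int.castRingHom Qb) v3InvL * coeffMap (Int.castRingHom Qb) v3L = 1 := by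
  rw [← map_mul, mul_comm, v3L_mul_v3InvL, map_one]

theorem v3L_bar_mem (N : ℕ) [NeZero N] (h6 : 6 ∣ N) :
    coeffMap (Int.castRingHom Qb) v3L ∈ laurentBaseChange Qb (modularFunctionFieldFull N) :=
  Fermat.Agent.S36.H438.laurentBaseChange_mono_h438 Qb (full_degeneracy_le h6)
    (v3L_mem_of_embedding (K := Qb) Fermat.Agent.S24.H997.ιK)

theorem v3InvL_bar_mem (N : ℕ) [NeZero N] (h6 : 6 ∣ N) :
    coeffMap (Int.castRingHom Qb) v3InvL ∈ laurentBaseChange Qb (modularFunctionFieldFull N) := by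
  have h : coeffMap (Int.castRingHom Qb) v3InvL = (coeffMap (Int.castRingHom Qb) v3L)⁻¹ :=
    eq_inv_of_mul_eq_one_left coeffMap_bar_v3_mul
  rw [h]
  exact inv_mem (v3L_bar_mem N h6)

/-- **The unit over `ℚ̄`** (inputs `DQ`, `hDQ0`, `hDQ` of `Ribet.H912.tameCoreGen` with
`X₀ = v3L`): `DQ = v⁻¹ ∈ F(N)`, `6 ∣ N`. -/
theorem unit3_bar (N : ℕ) [NeZero N] (h6 : 6 ∣ N) :
    ∃ DQ : laurentBaseChange Qb (modularFunctionFieldFull N),
      (DQ : LaurentSeries Qb) = coeffMap (Int.castRingHom Qb) v3InvL ∧ DQ ≠ 0 ∧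
      ∀ E : IntermediateField ℚ Qb, (DQ : LaurentSeries Qb) *
        coeffMap (algebraMap E Qb) (Fermat.Agent.S36.H438.castE E v3L) = 1 := by
  refine ⟨⟨coeffMap (Int.castRingHom Qb) v3InvL, v3InvL_bar_mem N h6⟩, rfl, ?_, ?_⟩
  · intro h
    have h1 := congrArg Subtype.val h
    have h2 := coeffMap_bar_v3_mul
    rw [show coeffMap (Int.castRingHom Qb) v3InvL = 0 from h1, zero_mul] at h2
    exact zero_ne_one h2
  · intro E
    rw [Fermat.Agent.S36.H438.coeffMap_castE]
    exact coeffMap_bar_v3_mul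

end Fermat.Agent.S59.Unit3.H461

end
end
-- ===== PACK-END S59/Unit3/H461/Unit3Pair.lean

-- ===== PACK-BEGIN S38/H681/IAFreeOdd.lean
section





/-!
# IA-FREE for EVERY odd `p` (incl. `p = 3`), every type `t` (helper681)

Cell (B2) of the S59 end-game (Ihara avoidance at `p = 3` and `t = sord`): the leaf IA-FREE of
`S38/IA/Hecke/Spec3.lean` does NOT need `5 ≤ p`.

* `h681_free_of_pkg` (GENERIC: any type `t`, any `Sig`, any package `P`, any base level `N₀ ≠ 0`,
  any finite family `qq : ι → ℕ` of distinct primes, any `Uset`): a localisation `V` of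
  `X_{KG p N₀ qq}(𝒪)` at `(TsetOf P, Uset)` is free over `𝒪[Δ]`.  The non-Eisenstein prime is
  `H31.exists_nonEis_mem_TsetOf`, the auxiliary prime `r ≡ 2 mod 3` at `p = 3` is
  `H186.exists_aux3_tset_h186` (both on main, both for every `t`, `Sig`).
* `iaFreeAt_odd_h681`: the binders of `IAFreeStatement` WITHOUT `5 ≤ p`; conclusion
  `∃ d, IAFreeAt V d` (the family `Sum.elim pv qv`).
* `iaFree_h681 : IAFreeStatement` (VERBATIM; spare copy of the official `H916.iaFree_h916`).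
-/

set_option autoImplicit false

open Polynomial IsLocalRing CongruenceSubgroup
open scoped MatrixGroups

namespace Fermat.Agent.S38.H681

open Fermat.Agent.S59.Arch Fermat.Agent.S59.TW.H959 Fermat.Agent.S59.TW
open Fermat.Agent.S59.TW.H653 Fermat.Agent.S59.TW.Aut
open Fermat.Agent.S38.IA Fermat.Agent.S38.IA.Hecke

section Pkg

variable {p : ℕ} [hpF : Fact p.Prime]
  {𝒪 : Type} [CommRing 𝒪] [IsDomain 𝒪] [IsDiscreteValuationRing 𝒪]
  [IsAdicComplete (maximalIdeal 𝒪) 𝒪] [Finite (ResidueField 𝒪)] [CharZero 𝒪]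
  {ρbar : ResidualGaloisRep (ResidueField 𝒪)} {Smin : Finset ℕ} {t : PType}

/-- **FREE at a package, generic form, all odd `p`, all types `t`.** -/
theorem h681_free_of_pkg (h : ResidualHyp p 𝒪 ρbar Smin) {Sig : Finset ℕ}
    [NeZero (wilesLevel p t Smin Sig)] (P : HeckePkg p 𝒪 ρbar t Smin Sig)
    (N₀ : ℕ) {ι : Type} [Fintype ι] (qq : ι → ℕ)
    (hN₀ : N₀ ≠ 0) (hinj : Function.Injective qq) (hprime : ∀ s, (qq s).Prime)
    {Uset : Set (ℕ × 𝒪)} {V : Submodule 𝒪 (Additive (KG p N₀ qq) →+ 𝒪)}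
    (hV : IsLocPart (isMid_KG p N₀ qq) (TsetOf P) Uset V) :
    ∃ d : ℕ, ∀ (E : Type) [Fintype E] (a : E → ∀ s : ι, (ZMod (qq s))ˣ),
      Function.Bijective (fun e => (QuotientGroup.mk (a e) : GDelta p qq)) →
      ∃ b : Fin d → V, ∀ y : V, ∃! c : Fin d → E → 𝒪,
        (y : Additive (KG p N₀ qq) →+ 𝒪) =
          ∑ i, ∑ e, c i e • diamondU (isMid_KG p N₀ qq) (gLift N₀ qq (a e))
            (b i : Additive (KG p N₀ qq) →+ 𝒪) := by
  classical
  have hp : p.Prime := hpF.out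
  have hM : gLevel N₀ qq ≠ 0 := h681_gLevel_ne_zero N₀ qq hN₀ hprime
  obtain ⟨ℓ, c, hmem, hℓ, hℓS', -, -, hu⟩ :=
    Fermat.Agent.S59.TW.Aut.H31.exists_nonEis_mem_TsetOf h P 1 one_pos
      (gLevel N₀ qq).primeFactors
  have hℓM : ¬ ℓ ∣ gLevel N₀ qq :=
    fun hd => hℓS' (Nat.mem_primeFactors.mpr ⟨hℓ, hd, hM⟩)
  have hp𝒪 : ¬ IsUnit (p : 𝒪) := (mem_maximalIdeal _).mp h.hp𝒪
  have hcase : 5 ≤ p ∨ (p = 3 ∧ ∃ (r' : ℕ) (c' : 𝒪), r'.Prime ∧
      ¬ r' ∣ gLevel N₀ qq ∧ r' % 3 = 2 ∧ (r', c') ∈ TsetOf P ∧ IsUnit c') := by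
    by_cases hp3 : p = 3
    · right
      refine ⟨hp3, ?_⟩
      obtain ⟨r', c', hmem', hr', -, -, hr'S', hr'3, hc'⟩ :=
        Fermat.Agent.S59.TW.Aut.H186.exists_aux3_tset_h186 hp3 h P
          (gLevel N₀ qq).primeFactors
      exact ⟨r', c', hr', fun hd => hr'S' (Nat.mem_primeFactors.mpr ⟨hr', hd, hM⟩), hr'3,
        hmem', hc'⟩
    · left
      have h2 := h.hp2
      have h2le := hp.two_le
      by_contra hlt
      have hp4 : p = 4 := by omega
      rw [hp4] at hp
      exact absurd hp (by decide)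
  exact h681_free_of_isLocPart_odd N₀ qq hN₀ hinj hprime hp𝒪 hV hℓ hℓM hmem hu hcase

end Pkg

/-- The family `Sum.elim pv qv` of the pivots and the Taylor–Wiles primes consists of primes. -/
theorem h681_prime_sumElim {k : Type} [Field k] {p : ℕ} {ρbar : ResidualGaloisRep k}
    {Smin Piv : Finset ℕ} (hPiv : IsPivotSet p ρbar Smin Piv)
    {K r : ℕ} {pv : Fin K → ℕ} (hpvPiv : Finset.univ.image pv = Piv)
    {n : ℕ} {qv : Fin r → ℕ} (hq : IsTWSet p ρbar (Smin ∪ Piv) n qv) :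
    ∀ s, (Sum.elim pv qv s).Prime := by
  rintro (i | j)
  · exact (hPiv (pv i) (by rw [← hpvPiv]; exact Finset.mem_image_of_mem pv (Finset.mem_univ i))).1
  · exact (hq.2.1 j).1

/-- The family `Sum.elim pv qv` of the pivots and the Taylor–Wiles primes is injective. -/
theorem h681_injective_sumElim {k : Type} [Field k] {p : ℕ} {ρbar : ResidualGaloisRep k}
    {Smin Piv : Finset ℕ}
    {K r : ℕ} {pv : Fin K → ℕ} (hpv : Function.Injective pv)
    (hpvPiv : Finset.univ.image pv = Piv)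
    {n : ℕ} {qv : Fin r → ℕ} (hq : IsTWSet p ρbar (Smin ∪ Piv) n qv) :
    Function.Injective (Sum.elim pv qv) := by
  have hpvmem : ∀ i, pv i ∈ Piv := fun i => by
    rw [← hpvPiv]
    exact Finset.mem_image_of_mem pv (Finset.mem_univ i)
  rintro (i | j) (i' | j') hh
  · exact congrArg Sum.inl (hpv hh)
  · exfalso
    have h1 : qv j' ∉ Smin ∪ Piv := (hq.2.1 j').2.1
    apply h1
    rw [Finset.mem_union]
    right
    have h2 : pv i = qv j' := hh
    rw [← h2]
    exact hpvmem i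
  · exfalso
    have h1 : qv j ∉ Smin ∪ Piv := (hq.2.1 j).2.1
    apply h1
    rw [Finset.mem_union]
    right
    have h2 : qv j = pv i' := hh
    rw [h2]
    exact hpvmem i'
  · exact congrArg Sum.inr (hq.1 hh)

/-- **IA-FREE without `5 ≤ p`**: the binders of `IAFreeStatement` minus `_hp5`. -/
theorem iaFreeAt_odd_h681 (p : ℕ) [Fact p.Prime]
    (𝒪 : Type) [CommRing 𝒪] [IsDomain 𝒪] [IsDiscreteValuationRing 𝒪]
    [IsAdicComplete (maximalIdeal 𝒪) 𝒪] [Finite (ResidueField 𝒪)] [CharZero 𝒪]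
    (ρbar : ResidualGaloisRep (ResidueField 𝒪)) (Smin : Finset ℕ)
    (h : ResidualHyp p 𝒪 ρbar Smin)
    (Piv : Finset ℕ) (hPiv : IsPivotSet p ρbar Smin Piv)
    (k : ℕ) (pv : Fin k → ℕ) (hpv : Function.Injective pv)
    (hpvPiv : Finset.univ.image pv = Piv)
    (n r : ℕ) (qv : Fin r → ℕ) (hq : IsTWSet p ρbar (Smin ∪ Piv) n qv)
    [NeZero (wilesLevel p .flat Smin (Smin ∪ Piv ∪ Finset.univ.image qv))]
    (PQ : HeckePkg p 𝒪 ρbar .flat Smin (Smin ∪ Piv ∪ Finset.univ.image qv))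
    (α : Fin r → 𝒪)
    (V : Submodule 𝒪 (XIA p Smin pv qv 𝒪)) (hV : IsIAPart PQ α V) :
    ∃ d : ℕ, IAFreeAt V d := by
  classical
  have hp : p.Prime := Fact.out
  have hN₀ : wilesLevel p .flat Smin Smin ≠ 0 := wilesLevel_ne_zero hp h.hSmin h.hSmin
  have hprime := h681_prime_sumElim hPiv hpvPiv hq
  have hinj := h681_injective_sumElim hpv hpvPiv hq
  obtain ⟨d, hd⟩ := h681_free_of_pkg h PQ (wilesLevel p .flat Smin Smin) (Sum.elim pv qv)
    hN₀ hinj hprime hV
  refine ⟨d, fun g₁ g₂ hg₁ hg₂ => ?_⟩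
  have hg : ∀ s, orderOf (pairU g₁ g₂ s) = Sum.elim pv qv s - 1 := by
    rintro (i | j)
    · exact hg₁ i
    · exact hg₂ j
  let ψ := (Equiv.sumPiEquivProdPi
    (fun s : Fin k ⊕ Fin r => Fin (p ^ padicValNat p (Sum.elim pv qv s - 1)))).symm
  have hbij : Function.Bijective (fun e : (∀ i : Fin k, Fin (p ^ padicValNat p (pv i - 1))) ×
      (∀ j : Fin r, Fin (p ^ padicValNat p (qv j - 1))) =>
      (QuotientGroup.mk (pairU (fun i => g₁ i ^ (e.1 i : ℕ)) (fun j => g₂ j ^ (e.2 j : ℕ))) :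
        GDelta p (Sum.elim pv qv))) := by
    have h1 := (h681_gEpsIdx_bijective p (Sum.elim pv qv) hprime (pairU g₁ g₂) hg).comp
      ψ.bijective
    have h2 : (gEpsIdx p (Sum.elim pv qv) (pairU g₁ g₂)) ∘ ψ =
        (fun e : (∀ i : Fin k, Fin (p ^ padicValNat p (pv i - 1))) ×
          (∀ j : Fin r, Fin (p ^ padicValNat p (qv j - 1))) =>
          (QuotientGroup.mk (pairU (fun i => g₁ i ^ (e.1 i : ℕ))
            (fun j => g₂ j ^ (e.2 j : ℕ))) : GDelta p (Sum.elim pv qv))) := by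
      funext e
      show (QuotientGroup.mk (fun s => pairU g₁ g₂ s ^ ((ψ e s : Fin _) : ℕ)) :
        GDelta p (Sum.elim pv qv)) = _
      congr 1
      funext s
      rcases s with i | j <;> rfl
    rw [← h2]
    exact h1
  exact hd _ _ hbij

/-- **IA-FREE**, verbatim (spare copy; official = `H916.iaFree_h916`). -/
theorem iaFree_h681 : IAFreeStatement := by
  intro p _ _hp5 𝒪 _ _ _ _ _ _ ρbar Smin h _hflat Piv hPiv k pv hpv hpvPiv n r qv hq _ PQ α _hα
    V hV
  exact iaFreeAt_odd_h681 p 𝒪 ρbar Smin h Piv hPiv k pv hpv hpvPiv n r qv hq PQ α V hV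

example : Fermat.Agent.S38.IA.Hecke.IAFreeStatement := iaFree_h681

end Fermat.Agent.S38.H681

end
-- ===== PACK-END S38/H681/IAFreeOdd.lean

-- ===== PACK-BEGIN S38/H483/IAChain.lean
section






/-!
# Row HARD, cell HECKE, layer 3, leaf IA-CTRL: the chain and the leaf (helper483)

* `iaChain483 : IAChainStatement` : the localisation `W` of `X_{Γ₀(M)}(𝒪)`,
  `M = N_min ∏ pv ∏ qv = L ∏ qv`, at `(T_ℓ - c_ℓ (ℓ ∉ Σ_Q), U_{q_j} - α_j)` is isomorphic to the
  localisation `V₀` of `X_{Γ₀(L)}(𝒪)` at `θ₀`.  Proof: helper105's `iter_chain` (iteration of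
  `one_step`) at the base level `L = ribetLevel p Smin Piv`; the hypotheses at the Taylor–Wiles
  primes (`α + β ≡ θ₀(T_q)`, `α β ≡ q`, `α ≢ β`, `α², β² ≢ 1`) come from `IsFrobLift`,
  `ResFrobCond` and `q ≡ 1 mod p`.
* `iaCtrl483 : IAFreeStatement → IACtrlStatement` (`Aut.H511.idem` plugged).
-/

set_option autoImplicit false

open Polynomial IsLocalRing CongruenceSubgroup
open scoped MatrixGroups

namespace Fermat.Agent.S38.H483

open Fermat.Agent.S59.Arch Fermat.Agent.S59.TW.H959 Fermat.Agent.S59.TW Fermat.Agent.S59.H765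
open Fermat.Agent.S59.TW.H653 Fermat.Agent.S59.TW.Aut Fermat.Agent.S59.H105
open Fermat.Agent.S38.IA Fermat.Agent.S38.IA.Hecke
open CuspForm

/-! ## Elementary lemmas -/

/-- The coefficients of a split monic quadratic. -/
theorem coeffs_of_split483 {k : Type} [Field k] {a b t q : k}
    (h : (X - C a) * (X - C b) = X ^ 2 - C t * X + C q) : t = a + b ∧ q = a * b := by
  have e : (X - C a) * (X - C b) = X ^ 2 - C (a + b) * X + C (a * b) := by
    rw [C_add, C_mul]
    ring
  rw [e] at h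
  have h0 := congrArg (fun f : k[X] => f.coeff 0) h
  have h1 := congrArg (fun f : k[X] => f.coeff 1) h
  simp only [coeff_add, coeff_sub, coeff_X_pow, coeff_C_mul, coeff_X_zero, coeff_C_zero,
    coeff_X_one, coeff_C_succ] at h0 h1
  norm_num at h0 h1
  refine ⟨?_, h0.symm⟩
  have h2 := congrArg Neg.neg h1
  simp only [neg_add_rev, neg_neg] at h2
  exact h2.symm

/-- `q ≡ 1` modulo `p^(n+1)` and `p ∈ 𝔪` give `q = 1` in the residue field. -/
theorem natCast_residue_eq_one483 {𝒪 : Type} [CommRing 𝒪] [IsLocalRing 𝒪] {p n q : ℕ}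
    (hp𝒪 : (p : 𝒪) ∈ maximalIdeal 𝒪) (hq0 : 0 < q) (hdvd : p ^ (n + 1) ∣ q - 1) :
    ((q : ℕ) : ResidueField 𝒪) = 1 := by
  obtain ⟨m, hm⟩ := hdvd
  have hq : q = p ^ (n + 1) * m + 1 := by omega
  have hp0 : ((p : ℕ) : ResidueField 𝒪) = 0 := by
    have := (residue_eq_zero_iff (p : 𝒪)).mpr hp𝒪
    rwa [map_natCast] at this
  rw [hq]
  push_cast
  rw [hp0, pow_succ, mul_zero, zero_mul, zero_add]

/-- An element whose residue is nonzero is a unit. -/
theorem isUnit_of_residue_ne_zero483 {𝒪 : Type} [CommRing 𝒪] [IsLocalRing 𝒪] {x : 𝒪}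
    (h : residue 𝒪 x ≠ 0) : IsUnit x := by
  by_contra hx
  exact h ((residue_eq_zero_iff x).mpr ((mem_maximalIdeal x).mpr hx))

/-- The Betti level is `L ∏ qv`. -/
theorem MIA_eq483 (p : ℕ) (Smin Piv : Finset ℕ) {k r : ℕ} (pv : Fin k → ℕ) (qv : Fin r → ℕ)
    (hpv : Function.Injective pv) (hpvPiv : Finset.univ.image pv = Piv) :
    MIA p Smin pv qv = ribetLevel p Smin Piv * ∏ j, qv j := by
  unfold MIA gLevel ribetLevel wilesLevel
  rw [Fintype.prod_sum_type, Finset.sdiff_self, Finset.prod_empty, mul_one, mul_one,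
    ← hpvPiv, Finset.prod_image (fun a _ b _ h => hpv h)]
  simp only [Sum.elim_inl, Sum.elim_inr]
  rw [mul_assoc]

/-! ## The chain -/

theorem iaChain483 : IAChainStatement := by
  intro p _ _ 𝒪 _ _ _ _ _ _ ρbar Smin h _ Piv hPiv hL θ₀ hθ₀ k pv hpv hpvPiv n r qv hq _
    hp PQ hθ α hα V₀ W hV₀ hW
  classical
  have hPivP : ∀ q ∈ Piv, q.Prime := fun q hq' => (hPiv q hq').1
  have hqvP : ∀ j, (qv j).Prime := fun j => (hq.2.1 j).1
  have hqvS : ∀ j, qv j ∉ (↑(Smin ∪ Piv) : Set ℕ) := fun j => by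
    rw [Finset.mem_coe]
    exact (hq.2.1 j).2.1
  have hqvL : ∀ j, ¬ qv j ∣ ribetLevel p Smin Piv := fun j hdvd =>
    hqvS j (mem_of_dvd_ribetLevel483 h.hSmin hPivP (hqvP j) hdvd)
  have hqk : ∀ j, ((qv j : ℕ) : ResidueField 𝒪) = 1 := fun j =>
    natCast_residue_eq_one483 h.hp𝒪 (hqvP j).pos (hq.2.1 j).2.2
  -- the data at the Taylor–Wiles primes
  have hdata : ∀ j, ∃ β c : 𝒪,
      residue 𝒪 c = θ₀ (heckeAlgebra.T (hqvP j) (hqvL j) (hqvS j)) ∧
      α j + β - c ∈ maximalIdeal 𝒪 ∧ α j * β - ((qv j : ℕ) : 𝒪) ∈ maximalIdeal 𝒪 ∧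
      IsUnit (α j - β) ∧ IsUnit (1 - α j ^ 2) ∧ IsUnit (1 - β ^ 2) := by
    intro j
    obtain ⟨P, φ, βb, hP, hφ, hne, hcp⟩ := hα j
    have hcp' := hθ₀ (qv j) (hqvP j) (hqvL j) (hqvS j) P hP φ hφ
    rw [hcp] at hcp'
    obtain ⟨ht, hqab⟩ := coeffs_of_split483 hcp'
    rw [hqk j] at hqab
    obtain ⟨β, hβ⟩ := residue_surjective βb
    obtain ⟨c, hc⟩ := residue_surjective (θ₀ (heckeAlgebra.T (hqvP j) (hqvL j) (hqvS j)))
    have hab : residue 𝒪 (α j) * βb = 1 := hqab.symm
    have ha0 : residue 𝒪 (α j) ≠ 0 := fun h0 => by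
      rw [h0, zero_mul] at hab
      exact zero_ne_one hab
    have hb0 : βb ≠ 0 := fun h0 => by
      rw [h0, mul_zero] at hab
      exact zero_ne_one hab
    refine ⟨β, c, hc, ?_, ?_, ?_, ?_, ?_⟩
    · rw [← residue_eq_zero_iff, map_sub, map_add, hβ, hc, ht, sub_self]
    · rw [← residue_eq_zero_iff, map_sub, map_mul, hβ, map_natCast, hqk j, hab, sub_self]
    · apply isUnit_of_residue_ne_zero483
      rw [map_sub, hβ]
      exact sub_ne_zero.mpr hne
    · apply isUnit_of_residue_ne_zero483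
      rw [map_sub, map_one, map_pow]
      intro h0
      have h1 : residue 𝒪 (α j) ^ 2 = residue 𝒪 (α j) * βb := by
        rw [hab]
        exact (sub_eq_zero.mp h0).symm
      rw [pow_two] at h1
      exact hne (mul_left_cancel₀ ha0 h1)
    · apply isUnit_of_residue_ne_zero483
      rw [map_sub, map_one, map_pow, hβ]
      intro h0
      have h1 : βb ^ 2 = residue 𝒪 (α j) * βb := by
        rw [hab]
        exact (sub_eq_zero.mp h0).symm
      rw [pow_two] at h1
      exact hne (mul_right_cancel₀ hb0 h1).symm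
  choose β c hc hsum hprod hαβ hα2 hβ2 using hdata
  -- the eigen-system of `θ₀`
  have hT₀ : ∀ x ∈ TsetOfθ θ₀, x.1.Prime ∧ ¬ x.1 ∣ ribetLevel p Smin Piv := by
    rintro x ⟨hℓ, hℓN, -, -⟩
    exact ⟨hℓ, hℓN⟩
  have hcT : ∀ j, (qv j, c j) ∈ TsetOfθ θ₀ := fun j => ⟨hqvP j, hqvL j, hqvS j, hc j⟩
  have hcq : ∀ j c', (qv j, c') ∈ TsetOfθ θ₀ → c' - c j ∈ maximalIdeal 𝒪 := by
    rintro j c' ⟨h1, h2, h3, h4⟩
    rw [← residue_eq_zero_iff, map_sub, h4, hc j, sub_self]
  have hqu : ∀ j, IsUnit ((qv j : ℕ) : 𝒪) := fun j => by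
    apply isUnit_of_residue_ne_zero483
    rw [map_natCast, hqk j]
    exact one_ne_zero
  -- the two eigen-systems at the top level agree
  have hTset : TsetOf PQ = TsetAway (TsetOfθ θ₀) qv := by
    ext x
    constructor
    · rintro ⟨hℓ, hℓN', hℓS', hres⟩
      have hℓS : x.1 ∉ (↑(Smin ∪ Piv) : Set ℕ) := fun hmem => hℓS' (by
        rw [Finset.mem_coe] at hmem ⊢
        exact Finset.mem_union_left _ hmem)
      have hℓN : ¬ x.1 ∣ ribetLevel p Smin Piv := fun hdvd =>
        hℓS (mem_of_dvd_ribetLevel483 h.hSmin hPivP hℓ hdvd)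
      refine ⟨⟨hℓ, hℓN, hℓS, ?_⟩, fun j hj => hℓS' ?_⟩
      · rw [hres, hθ, RingHom.comp_apply, oldRestrict_T hp hℓ hℓN' hℓS' hℓN hℓS]
      · rw [Finset.mem_coe, hj]
        exact Finset.mem_union_right _ (Finset.mem_image_of_mem qv (Finset.mem_univ j))
    · rintro ⟨⟨hℓ, hℓN, hℓS, hres⟩, hne⟩
      have hℓS' : x.1 ∉ (↑(Smin ∪ Piv ∪ Finset.univ.image qv) : Set ℕ) := by
        rw [Finset.mem_coe, Finset.mem_union]
        rintro (hmem | hmem)
        · exact hℓS (Finset.mem_coe.mpr hmem)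
        · obtain ⟨j, -, hj⟩ := Finset.mem_image.mp hmem
          exact hne j hj.symm
      have hℓN' : ¬ x.1 ∣ wilesLevel p .flat Smin (Smin ∪ Piv ∪ Finset.univ.image qv) :=
        fun hdvd => hℓN (hp.hU x.1 hℓ hdvd hℓS')
      refine ⟨hℓ, hℓN', hℓS', ?_⟩
      rw [hres, hθ, RingHom.comp_apply, oldRestrict_T hp hℓ hℓN' hℓS' hℓN hℓS]
  rw [hTset] at hW
  -- the chain
  obtain ⟨f, hf1, hf2, hf3, -⟩ := iter_chain Fermat.Agent.S59.TW.Aut.H511.idem cross
    (NeZero.ne (ribetLevel p Smin Piv)) hT₀ hV₀ r qv α β c hq.1 hqvP hqvL hqu hcT hcq hsum hprod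
    hαβ hα2 hβ2 (MIA p Smin pv qv) (MIA_eq483 p Smin Piv pv qv hpv hpvPiv) W hW
  refine ⟨LinearMap.codRestrict V₀ (f.comp W.subtype) (fun w => hf1 w w.2), ?_, ?_⟩
  · intro w w' hww
    have h1 : f ((w : Additive (Gamma0 (MIA p Smin pv qv)) →+ 𝒪) - w') = 0 := by
      have := congrArg Subtype.val hww
      simp only [LinearMap.codRestrict_apply, LinearMap.comp_apply, Submodule.subtype_apply] at this
      rw [map_sub, this, sub_self]
    have h2 := hf2 _ (W.sub_mem w.2 w'.2) h1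
    exact Subtype.ext (sub_eq_zero.mp h2)
  · rintro ⟨x, hx⟩
    obtain ⟨y, hy, e⟩ := hf3 x hx
    exact ⟨⟨y, hy⟩, Subtype.ext e⟩

/-- **IA-CTRL**, given IA-FREE. -/
theorem iaCtrl483 (hfree : IAFreeStatement) : IACtrlStatement :=
  iaCtrl_of_chain483 Fermat.Agent.S59.TW.Aut.H511.idem hfree iaChain483

end Fermat.Agent.S38.H483

end
-- ===== PACK-END S38/H483/IAChain.lean

-- ===== PACK-BEGIN S38/H483/CtrlGen.lean
section


/-!
# Leaf IA-CTRL, GENERIC form: any base level, any type `t`, every `p`  (helper483)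

The proof of `iaCtrl : IACtrlStatement` (`IACtrl.lean`, `IAChain.lean`) with the base level
`N₀` (`= wilesLevel p .flat Smin Smin` there), Ribet's level `L` (`= ribetLevel p Smin Piv`) and
the eigen-systems as PARAMETERS, for the twins of the leaf at `t = .sord` and `p = 3`
(row S59, cell LO-IA).  Nothing here uses `5 ≤ p` or flatness.

* `tw_data483` : the data `(β_j, c_j)` at the Taylor–Wiles primes, from `IsFrobLift` and
  `ResFrobCond`, at ANY level `L` and ANY set `S`;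
* `tsetOf_eq_tsetAway483` : `TsetOf PQ = TsetAway (TsetOfθ θ₀) qv` for a package `PQ` of ANY type
  `t` with `θ_Q = θ₀ ∘ oldRestrict`;
* `ctrl_core483` : `π : V ↠ V₀` with kernel the augmentation submodule of
  `Δ_Piv × Δ_Q`, for `V` the localisation of `X_K(𝒪)`, `K = KG p N₀ (Sum.elim pv qv)`, free in the
  shape of `IAFreeAt`, and `V₀` the localisation of `X_{Γ₀(L)}(𝒪)`, `N₀ ∏ pv ∏ qv = L ∏ qv`.
-/

set_option autoImplicit false
set_option linter.unusedSectionVars false
set_option linter.style.haveILetI false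

open Polynomial IsLocalRing CongruenceSubgroup
open scoped MatrixGroups

namespace Fermat.Agent.S38.H483

open Fermat.Agent.S59.Arch Fermat.Agent.S59.TW.H959 Fermat.Agent.S59.TW Fermat.Agent.S59.H765
open Fermat.Agent.S59.TW.H653 Fermat.Agent.S59.TW.Aut Fermat.Agent.S59.MFree
open Fermat.Agent.S59.TW.Aut.H762 Fermat.Agent.S59.H105
open Fermat.Agent.S38.IA Fermat.Agent.S38.IA.Hecke
open CuspForm

section Data

variable {𝒪 : Type} [CommRing 𝒪] [IsDomain 𝒪] [IsDiscreteValuationRing 𝒪]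
  [IsAdicComplete (maximalIdeal 𝒪) 𝒪]

/-- **The data at the Taylor–Wiles primes**, at any level `L` and any set `S`. -/
theorem tw_data483 {ρbar : ResidualGaloisRep (ResidueField 𝒪)} {L : ℕ} [NeZero L] {S : Set ℕ}
    (θ₀ : CuspForm.heckeAlgebra L 2 S →+* ResidueField 𝒪)
    (hθ₀ : Fermat.Agent.S59.G4.ResFrobCond ρbar θ₀)
    {r : ℕ} (qv : Fin r → ℕ) (α : Fin r → 𝒪) (hα : IsFrobLift ρbar qv α)
    (hqvP : ∀ j, (qv j).Prime) (hqvL : ∀ j, ¬ qv j ∣ L) (hqvS : ∀ j, qv j ∉ S)
    (hqk : ∀ j, ((qv j : ℕ) : ResidueField 𝒪) = 1) :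
    ∃ β c : Fin r → 𝒪,
      (∀ j, residue 𝒪 (c j) = θ₀ (heckeAlgebra.T (hqvP j) (hqvL j) (hqvS j))) ∧
      (∀ j, α j + β j - c j ∈ maximalIdeal 𝒪) ∧
      (∀ j, α j * β j - ((qv j : ℕ) : 𝒪) ∈ maximalIdeal 𝒪) ∧
      (∀ j, IsUnit (α j - β j)) ∧ (∀ j, IsUnit (1 - α j ^ 2)) ∧ (∀ j, IsUnit (1 - β j ^ 2)) ∧
      (∀ j, IsUnit ((qv j : ℕ) : 𝒪)) := by
  have hdata : ∀ j, ∃ β c : 𝒪,
      residue 𝒪 c = θ₀ (heckeAlgebra.T (hqvP j) (hqvL j) (hqvS j)) ∧
      α j + β - c ∈ maximalIdeal 𝒪 ∧ α j * β - ((qv j : ℕ) : 𝒪) ∈ maximalIdeal 𝒪 ∧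
      IsUnit (α j - β) ∧ IsUnit (1 - α j ^ 2) ∧ IsUnit (1 - β ^ 2) := by
    intro j
    obtain ⟨P, φ, βb, hP, hφ, hne, hcp⟩ := hα j
    have hcp' := hθ₀ (qv j) (hqvP j) (hqvL j) (hqvS j) P hP φ hφ
    rw [hcp] at hcp'
    obtain ⟨ht, hqab⟩ := coeffs_of_split483 hcp'
    rw [hqk j] at hqab
    obtain ⟨β, hβ⟩ := residue_surjective βb
    obtain ⟨c, hc⟩ := residue_surjective (θ₀ (heckeAlgebra.T (hqvP j) (hqvL j) (hqvS j)))
    have hab : residue 𝒪 (α j) * βb = 1 := hqab.symm
    have ha0 : residue 𝒪 (α j) ≠ 0 := fun h0 => by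
      rw [h0, zero_mul] at hab
      exact zero_ne_one hab
    have hb0 : βb ≠ 0 := fun h0 => by
      rw [h0, mul_zero] at hab
      exact zero_ne_one hab
    refine ⟨β, c, hc, ?_, ?_, ?_, ?_, ?_⟩
    · rw [← residue_eq_zero_iff, map_sub, map_add, hβ, hc, ht, sub_self]
    · rw [← residue_eq_zero_iff, map_sub, map_mul, hβ, map_natCast, hqk j, hab, sub_self]
    · apply isUnit_of_residue_ne_zero483
      rw [map_sub, hβ]
      exact sub_ne_zero.mpr hne
    · apply isUnit_of_residue_ne_zero483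
      rw [map_sub, map_one, map_pow]
      intro h0
      have h1 : residue 𝒪 (α j) ^ 2 = residue 𝒪 (α j) * βb := by
        rw [hab]
        exact (sub_eq_zero.mp h0).symm
      rw [pow_two] at h1
      exact hne (mul_left_cancel₀ ha0 h1)
    · apply isUnit_of_residue_ne_zero483
      rw [map_sub, map_one, map_pow, hβ]
      intro h0
      have h1 : βb ^ 2 = residue 𝒪 (α j) * βb := by
        rw [hab]
        exact (sub_eq_zero.mp h0).symm
      rw [pow_two] at h1
      exact hne (mul_right_cancel₀ hb0 h1).symm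
  choose β c hc hsum hprod hαβ hα2 hβ2 using hdata
  refine ⟨β, c, hc, hsum, hprod, hαβ, hα2, hβ2, fun j => ?_⟩
  apply isUnit_of_residue_ne_zero483
  rw [map_natCast, hqk j]
  exact one_ne_zero

/-- **The eigen-system of a package of any type `t` at the top level**, in terms of the
eigen-system `θ₀` at the base level: `TsetOf PQ = TsetAway (TsetOfθ θ₀) qv`. -/
theorem tsetOf_eq_tsetAway483 {p : ℕ} {ρbar : ResidualGaloisRep (ResidueField 𝒪)} {t : PType}
    {Smin S₀ : Finset ℕ} {r : ℕ} (qv : Fin r → ℕ)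
    [NeZero (wilesLevel p t Smin (S₀ ∪ Finset.univ.image qv))]
    (PQ : HeckePkg p 𝒪 ρbar t Smin (S₀ ∪ Finset.univ.image qv))
    {L : ℕ} [NeZero L]
    (θ₀ : CuspForm.heckeAlgebra L 2 (↑S₀ : Set ℕ) →+* ResidueField 𝒪)
    (hLS : ∀ ℓ : ℕ, ℓ.Prime → ℓ ∣ L → ℓ ∈ (↑S₀ : Set ℕ))
    (hp : LevelPair L (wilesLevel p t Smin (S₀ ∪ Finset.univ.image qv))
      (↑S₀ : Set ℕ) (↑(S₀ ∪ Finset.univ.image qv) : Set ℕ))
    (hθ : PQ.θ = θ₀.comp (oldRestrict hp)) :
    TsetOf PQ = TsetAway (TsetOfθ θ₀) qv := by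
  ext x
  constructor
  · rintro ⟨hℓ, hℓN', hℓS', hres⟩
    have hℓS : x.1 ∉ (↑S₀ : Set ℕ) := fun hmem => hℓS' (by
      rw [Finset.mem_coe] at hmem ⊢
      exact Finset.mem_union_left _ hmem)
    have hℓN : ¬ x.1 ∣ L := fun hdvd => hℓS (hLS x.1 hℓ hdvd)
    refine ⟨⟨hℓ, hℓN, hℓS, ?_⟩, fun j hj => hℓS' ?_⟩
    · rw [hres, hθ, RingHom.comp_apply, oldRestrict_T hp hℓ hℓN' hℓS' hℓN hℓS]
    · rw [Finset.mem_coe, hj]
      exact Finset.mem_union_right _ (Finset.mem_image_of_mem qv (Finset.mem_univ j))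
  · rintro ⟨⟨hℓ, hℓN, hℓS, hres⟩, hne⟩
    have hℓS' : x.1 ∉ (↑(S₀ ∪ Finset.univ.image qv) : Set ℕ) := by
      rw [Finset.mem_coe, Finset.mem_union]
      rintro (hmem | hmem)
      · exact hℓS (Finset.mem_coe.mpr hmem)
      · obtain ⟨j, -, hj⟩ := Finset.mem_image.mp hmem
        exact hne j hj.symm
    have hℓN' : ¬ x.1 ∣ wilesLevel p t Smin (S₀ ∪ Finset.univ.image qv) :=
      fun hdvd => hℓN (hp.hU x.1 hℓ hdvd hℓS')
    refine ⟨hℓ, hℓN', hℓS', ?_⟩
    rw [hres, hθ, RingHom.comp_apply, oldRestrict_T hp hℓ hℓN' hℓS' hℓN hℓS]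

end Data

section Core

variable {p : ℕ} [hp : Fact p.Prime]
  {𝒪 : Type} [CommRing 𝒪] [IsDomain 𝒪] [IsDiscreteValuationRing 𝒪]
  [IsAdicComplete (maximalIdeal 𝒪) 𝒪] [Finite (ResidueField 𝒪)] [CharZero 𝒪]

/-- **IA-CTRL, generic core.** -/
theorem ctrl_core483 (N₀ : ℕ) [hN₀ : NeZero N₀] {k r : ℕ} (pv : Fin k → ℕ) (qv : Fin r → ℕ)
    (hpvP : ∀ i, (pv i).Prime) (hqvP : ∀ j, (qv j).Prime)
    (hpv : Function.Injective pv) (hqv : Function.Injective qv) (hdisj : ∀ i j, pv i ≠ qv j)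
    (L : ℕ) (hL0 : L ≠ 0) (hML : gLevel N₀ (Sum.elim pv qv) = L * ∏ j, qv j)
    {Tset₀ : Set (ℕ × 𝒪)} (hT₀ : ∀ x ∈ Tset₀, x.1.Prime ∧ ¬ x.1 ∣ L)
    {V₀ : Submodule 𝒪 (Additive (Gamma0 L) →+ 𝒪)}
    (hV₀ : IsLocPart (isMid_Gamma0 L) Tset₀ ∅ V₀)
    (α β c : Fin r → 𝒪) (hqvL : ∀ j, ¬ qv j ∣ L)
    (hqu : ∀ j, IsUnit ((qv j : ℕ) : 𝒪)) (hcT : ∀ j, (qv j, c j) ∈ Tset₀)
    (hcq : ∀ j c', (qv j, c') ∈ Tset₀ → c' - c j ∈ maximalIdeal 𝒪)
    (hsum : ∀ j, α j + β j - c j ∈ maximalIdeal 𝒪)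
    (hprod : ∀ j, α j * β j - ((qv j : ℕ) : 𝒪) ∈ maximalIdeal 𝒪)
    (hαβ : ∀ j, IsUnit (α j - β j)) (hα2 : ∀ j, IsUnit (1 - α j ^ 2))
    (hβ2 : ∀ j, IsUnit (1 - β j ^ 2))
    {Tset : Set (ℕ × 𝒪)} (hTset : Tset = TsetAway Tset₀ qv)
    (hT : ∀ x ∈ Tset, x.1.Prime ∧ ¬ x.1 ∣ gLevel N₀ (Sum.elim pv qv))
    {V : Submodule 𝒪 (Additive (KG p N₀ (Sum.elim pv qv)) →+ 𝒪)}
    (hV : IsLocPart (isMid_KG p N₀ (Sum.elim pv qv)) Tset (UsetOf qv α) V)
    (hfree : ∃ d : ℕ, ∀ (g₁ : ∀ i : Fin k, (ZMod (pv i))ˣ) (g₂ : ∀ j : Fin r, (ZMod (qv j))ˣ),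
      (∀ i, orderOf (g₁ i) = pv i - 1) → (∀ j, orderOf (g₂ j) = qv j - 1) →
      ∃ b : Fin d → V, ∀ y : V,
        ∃! c : Fin d → (∀ i : Fin k, Fin (p ^ padicValNat p (pv i - 1))) ×
            (∀ j : Fin r, Fin (p ^ padicValNat p (qv j - 1))) → 𝒪,
          (y : Additive (KG p N₀ (Sum.elim pv qv)) →+ 𝒪) =
            ∑ i, ∑ e, c i e • diamondU (isMid_KG p N₀ (Sum.elim pv qv))
              (gLift N₀ (Sum.elim pv qv) (pairU (pv := pv) (qv := qv)
                (fun i' => g₁ i' ^ (e.1 i' : ℕ)) (fun j => g₂ j ^ (e.2 j : ℕ)))) (b i)) :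
    ∃ π : V →ₗ[𝒪] V₀, Function.Surjective π ∧
      ∀ y : V, π y = 0 ↔
        y ∈ AddSubgroup.closure {z : V | ∃ (a₁ : ∀ i : Fin k, (ZMod (pv i))ˣ)
          (a₂ : ∀ j : Fin r, (ZMod (qv j))ˣ) (y' : V),
          (z : Additive (KG p N₀ (Sum.elim pv qv)) →+ 𝒪) =
            diamondU (isMid_KG p N₀ (Sum.elim pv qv))
              (gLift N₀ (Sum.elim pv qv) (pairU (pv := pv) (qv := qv) a₁ a₂))
              (y' : Additive (KG p N₀ (Sum.elim pv qv)) →+ 𝒪) -
            (y' : Additive (KG p N₀ (Sum.elim pv qv)) →+ 𝒪)} := by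
  classical
  have hprime := sumElim_prime483 hpvP hqvP
  have hinj := sumElim_injective483 hpv hqv hdisj
  have hM : gLevel N₀ (Sum.elim pv qv) ≠ 0 :=
    gLevel_ne_zero N₀ (Sum.elim pv qv) (NeZero.ne _) hprime
  have hU : ∀ x ∈ UsetOf qv α, x.1.Prime ∧ x.1 ∣ gLevel N₀ (Sum.elim pv qv) := by
    rintro x ⟨j, rfl⟩
    exact ⟨hqvP j, dvd_gLevel N₀ (Sum.elim pv qv) (.inr j)⟩
  -- the localisation at the `Γ₀`-level
  obtain ⟨W, hW⟩ := Fermat.Agent.S59.TW.Aut.H511.idem 𝒪 (gLevel N₀ (Sum.elim pv qv)) hM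
    (Gamma0 (gLevel N₀ (Sum.elim pv qv))) (isMid_Gamma0 _) Tset (UsetOf qv α) hT hU
  have hcor := nat_cor_G483 p N₀ (Sum.elim pv qv) hM hT hU hV hW
  have hres := nat_res_G483 p N₀ (Sum.elim pv qv) hM hT hU hV hW
  -- freeness
  obtain ⟨d, hd⟩ := hfree
  obtain ⟨g₁, hg₁⟩ := exists_primitive_roots483 pv hpvP
  obtain ⟨g₂, hg₂⟩ := exists_primitive_roots483 qv hqvP
  obtain ⟨b, hb⟩ := hd g₁ g₂ hg₁ hg₂
  -- COR
  obtain ⟨c', hcsurj, -, hcker⟩ := cor_ctrl_G483 (p := p) N₀
    (Sum.elim pv qv) hprime hinj 𝒪 V W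
    (fun a x hx => hV.diamondU_mem _ hx)
    (fun e : (∀ i : Fin k, Fin (p ^ padicValNat p (pv i - 1))) ×
        (∀ j : Fin r, Fin (p ^ padicValNat p (qv j - 1))) =>
      pairU (pv := pv) (qv := qv) (fun i => g₁ i ^ (e.1 i : ℕ)) (fun j => g₂ j ^ (e.2 j : ℕ)))
    (pairEps_bijective483 p hpvP hqvP g₁ g₂ hg₁ hg₂) b hb hcor hres
  -- CHAIN
  have hW' : IsLocPart (isMid_Gamma0 (gLevel N₀ (Sum.elim pv qv))) (TsetAway Tset₀ qv)
      (UsetOf qv α) W := hTset ▸ hW
  obtain ⟨f, hf1, hf2, hf3, -⟩ := iter_chain Fermat.Agent.S59.TW.Aut.H511.idem cross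
    hL0 hT₀ hV₀ r qv α β c hqv hqvP hqvL hqu hcT hcq hsum hprod
    hαβ hα2 hβ2 (gLevel N₀ (Sum.elim pv qv)) hML W hW'
  let f' : W →ₗ[𝒪] V₀ := LinearMap.codRestrict V₀ (f.comp W.subtype) (fun w => hf1 w w.2)
  have hf'inj : Function.Injective f' := by
    intro w w' hww
    have h1 : f ((w : Additive (Gamma0 (gLevel N₀ (Sum.elim pv qv))) →+ 𝒪) - w') = 0 := by
      have := congrArg Subtype.val hww
      simp only [f', LinearMap.codRestrict_apply, LinearMap.comp_apply,
        Submodule.subtype_apply] at this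
      rw [map_sub, this, sub_self]
    have h2 := hf2 _ (W.sub_mem w.2 w'.2) h1
    exact Subtype.ext (sub_eq_zero.mp h2)
  have hf'surj : Function.Surjective f' := by
    rintro ⟨x, hx⟩
    obtain ⟨y, hy, e⟩ := hf3 x hx
    exact ⟨⟨y, hy⟩, Subtype.ext e⟩
  refine ⟨f'.comp c', hf'surj.comp hcsurj, fun y => ?_⟩
  have h1 : (f'.comp c') y = 0 ↔ c' y = 0 := by
    rw [LinearMap.comp_apply]
    constructor
    · intro h0
      exact hf'inj (by rw [h0, map_zero])
    · intro h0
      rw [h0, map_zero]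
  rw [h1, hcker y]
  have hset : {z : V | ∃ (a : ∀ s : Fin k ⊕ Fin r, (ZMod (Sum.elim pv qv s))ˣ) (y' : V),
        (z : Additive (KG p N₀ (Sum.elim pv qv)) →+ 𝒪) =
          diamondU (isMid_KG p N₀ (Sum.elim pv qv))
            (gLift N₀ (Sum.elim pv qv) a)
            (y' : Additive (KG p N₀ (Sum.elim pv qv)) →+ 𝒪) -
            (y' : Additive (KG p N₀ (Sum.elim pv qv)) →+ 𝒪)} =
      {z : V | ∃ (a₁ : ∀ i : Fin k, (ZMod (pv i))ˣ) (a₂ : ∀ j : Fin r, (ZMod (qv j))ˣ) (y' : V),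
        (z : Additive (KG p N₀ (Sum.elim pv qv)) →+ 𝒪) =
          diamondU (isMid_KG p N₀ (Sum.elim pv qv))
            (gLift N₀ (Sum.elim pv qv) (pairU (pv := pv) (qv := qv) a₁ a₂))
            (y' : Additive (KG p N₀ (Sum.elim pv qv)) →+ 𝒪) -
            (y' : Additive (KG p N₀ (Sum.elim pv qv)) →+ 𝒪)} := by
    ext z
    constructor
    · rintro ⟨a, y', hz⟩
      refine ⟨fun i => a (.inl i), fun j => a (.inr j), y', ?_⟩
      rw [hz, pairU_eta483 a]
    · rintro ⟨a₁, a₂, y', hz⟩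
      exact ⟨pairU a₁ a₂, y', hz⟩
  rw [hset]

end Core

/-! ## Nontriviality, generic form -/

/-- **IA-NONTRIV, generic core**: the localisation of `X_{Γ₀(N)}(𝒪)` at a character of the Hecke
algebra of level `N` is free of positive rank (any `N`, any `S ⊇ primes(N)`). -/
theorem rank_pos_of_isLocPart483 {N : ℕ} [NeZero N] {S : Set ℕ}
    (hNS : ∀ q : ℕ, q.Prime → q ∣ N → q ∈ S)
    {𝒪 : Type} [CommRing 𝒪] [IsDomain 𝒪] [IsDiscreteValuationRing 𝒪]
    (θ : CuspForm.heckeAlgebra N 2 S →+* ResidueField 𝒪)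
    (V₀ : Submodule 𝒪 (Additive (Gamma0 N) →+ 𝒪))
    (hV₀ : IsLocPart (isMid_Gamma0 N) (TsetOfθ θ) ∅ V₀) :
    ∃ d : ℕ, 0 < d ∧ Nonempty (Module.Basis (Fin d) 𝒪 V₀) := by
  classical
  have hnt : Nontrivial V₀ := nontrivial_of_isLocPart483 hNS θ V₀ hV₀
  have hfi : (Gamma0 N).FiniteIndex := Subgroup.finiteIndex_of_le (isMid_Gamma0 N).ge
  obtain ⟨hfin, hfree⟩ :=
    Fermat.Agent.S59.MFree.H761.finite_free_submodule (O := 𝒪) (Gamma0 N) V₀
  let b := Module.Free.chooseBasis 𝒪 V₀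
  let ι := Module.Free.ChooseBasisIndex 𝒪 V₀
  have hne : Nonempty ι := by
    by_contra hempty
    rw [not_nonempty_iff] at hempty
    have hsub : Subsingleton V₀ := by
      refine ⟨fun a c => ?_⟩
      apply b.repr.injective
      ext i
      exact (hempty.false i).elim
    exact not_subsingleton V₀ hsub
  exact ⟨Fintype.card ι, Fintype.card_pos, ⟨b.reindex (Fintype.equivFin ι)⟩⟩

end Fermat.Agent.S38.H483

end
-- ===== PACK-END S38/H483/CtrlGen.lean

-- ===== PACK-BEGIN S38T/IA/Hecke/H183/CmpWireIA.lean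
section





/-!
# Row HARD, cell HECKE, layer 4: the leaf IA-CMP, wired  (helper183)

`iaCmp_of_dict : IAFreeStatement → IADictTStatement → IADictRStatement →
    G4Statement → S34Shape494 → S30Statement → (∀ M, HasIntegralStructure M 2) → S36Statement →
    Hecke.IACmpStatement`

(= `iaCmp_of_leaves` + `iaGalT_of` [helper494's general GAL-T] + `iaGalR_of` [helper788's general
GAL-R]).  The Galois half of IA-CMP is closed; what is left is IA-FREE and the automorphic
dictionary IA-DICT-T, IA-DICT-R.  The hypotheses `G4Statement`, `S34Shape494`, `S30Statement`,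
`HasIntegralStructure` are theorems on main (`S59.H294.g4_294`, `S34.result`, `S30.result`,
`S23.result`); `S36Statement` is the frozen S36.
-/

set_option autoImplicit false

open Polynomial IsLocalRing CongruenceSubgroup
open scoped MatrixGroups

namespace Fermat.Agent.S38.IA.Hecke.H183

variable {ty : Fermat.Agent.S59.Arch.PType}

open Fermat.Agent.S38.IA Fermat.Agent.S38.IA.Hecke

/-- **The leaf IA-CMP from IA-FREE and the dictionary.** -/
theorem iaCmp_of_dict_T (hFree : IAFreeStatement_T) (hDT : IADictTStatement_T)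
    (hDR : IADictRStatement_T)
    (hG4 : Fermat.Agent.S59.G4.G4Statement)
    (h34 : Fermat.Agent.S59.TW.H494.S34Shape494)
    (h30 : Fermat.Agent.S31.S30Statement)
    (hIS : ∀ (M : ℕ) [NeZero M], CuspForm.HasIntegralStructure M 2)
    (h36 : Fermat.Agent.S58.S36Statement) : IACmpStatement_T :=
  iaCmp_of_leaves_T hFree hDT hDR (fun _ => iaGalT_of_T hG4 h34 h30 hIS) (fun _ => iaGalR_of_T h36)

end Fermat.Agent.S38.IA.Hecke.H183

end
-- ===== PACK-END S38T/IA/Hecke/H183/CmpWireIA.lean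

-- ===== PACK-BEGIN A2/Top/H672/Target.lean
section



/-!
# WALL A2, CLOSED (helper672, assembly only)

`target` : for every prime `q` with `q ‖ N` and every `m > 0` prime to `q`, every element `τ` of an
inertia group at `q` satisfies `(τ - 1)² = 0` on `J₀(N)[m]` (`Fermat.Agent.A2.Target N q m`,
`Fermat/Agent/A2/Spec.lean`), UNCONDITIONALLY.

Assembly: `wall_of_s3` (`WallS3.lean`) with S3 = `Mod.H372.s3`.  Pieces (all on main):
ALG route S (`Alg/H34`, `Alg/H754`, `Alg/H609`; no `SepCoord`), IF (`IF/H429`), D2 (`H876`),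
T0/T1 (`T0/H669`, `T1/H669`), MOD leaves L1–L14, S1 (`Mod/H13`), S2 (`Mod/H994`), S3
(`Mod/H372`), Sτ (`Mod/H751`), GOODRED (`Mod/H216`, `Mod/H189`).
-/

set_option autoImplicit false

namespace Fermat.Agent.A2.Top.H672

open Fermat.Agent.A2

/-- **The Kummer form of the wall A2**, unconditional. -/
theorem kummerTarget (N q m : ℕ) (hq : q.Prime) (hqN : q ∣ N) (hq2 : ¬ q ^ 2 ∣ N) (hN : N ≠ 0)
    (hm : 0 < m) (hqm : ¬ q ∣ m) : KummerTarget N q m :=
  kummerTarget_of_s3 (fun P E M q _ _ w => Mod.H372.s3 P E M q w) N q m hq hqN hq2 hN hm hqm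

/-- **The wall A2**, unconditional: unipotent inertia on `J₀(N)[m]` at every `q ‖ N`, `q ∤ m`. -/
theorem target (N q m : ℕ) (hq : q.Prime) (hqN : q ∣ N) (hq2 : ¬ q ^ 2 ∣ N) (hN : N ≠ 0)
    (hm : 0 < m) (hqm : ¬ q ∣ m) : Target N q m :=
  wall_of_s3 (fun P E M q _ _ w => Mod.H372.s3 P E M q w) N q m hq hqN hq2 hN hm hqm

end Fermat.Agent.A2.Top.H672

end
-- ===== PACK-END A2/Top/H672/Target.lean

-- ===== PACK-BEGIN S59/LoSqC/H319/TameCyc.lean
section





/-!
# S59 moonshot, cell (C) LO-SQ, leaf W-COUNT, sub-leaf TAME-CYC (helper319)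

`q ‖ N`, `p ≠ q` primes, `P` a place of `ℚ̄` over `q`, `(φ, σ)` a tame pair at `P`
(`S38.IA.Gal.IsTamePair`: `σ ∈ I_P` moves the `p`-th roots of `q`).  Then the inertia group
`I_P` acts on `J₀(N)[p ^ n]` through the cyclic group generated by `σ`:

* `tameCyc_point`   : for `x` with `p ^ n • x = 0` and `τ ∈ I_P` there is `j` with
  `τ • x = σ ^ j • x`;
* `tameCyc`         : the same with ONE `j` for all of `J₀(N)[p ^ n]`;
* `fixed_of_sigma_fixed` : `σ • x = x ⟹ τ • x = x` for all `τ ∈ I_P`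
  (so `J₀(N)[p ^ n]^{I_P} = ker (σ - 1)`);
* `sub_mem_zmultiples` : `τ • x - x ∈ ℤ • (σ • x - x)`;
* `tame_rel` : `(φ σ φ⁻¹) • x = σ ^ q • x`.

Inputs: the wall A2 (`A2.Top.H672.target`: unipotent inertia on `J₀(N)[m]`), the orbit
representation of row S35 (`S35.H504`), LOC-GEN of row HARD (`S38.IA.Gal.locGenInertia`),
finiteness of torsion (`S30.H810.torsion_finite`).  The forms `*_of_target` take the wall as a
hypothesis (usable at any level where unipotency is known).
-/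

set_option autoImplicit false
set_option linter.style.haveILetI false

noncomputable section

namespace Fermat.Agent.S59.LoSqC.H319

open ModularCurve AlgebraicCurve
open Fermat.Agent.S56 Fermat.Agent.S38.IA.Gal Fermat.Agent.S35.H504

variable {N : ℕ}

/-- The orbit representation has `p`-power exponent on inertia, under the wall A2. -/
theorem pPowOnInertia_orbitRep {q p n : ℕ} (hU : Fermat.Agent.A2.Target N q (p ^ n))
    (P : ValuationSubring Qb) (hP : P.LiesOverPrime q) (x : JZero N) (hx : p ^ n • x = 0) :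
    PPowOnInertia p P (orbitRep x) := by
  intro τ hτ
  refine ⟨n, ?_⟩
  rw [← map_pow, orbitRep_eq_one_iff]
  rintro y ⟨g, rfl⟩
  exact pow_torsion_smul_eq_self_of_target hU P hP hτ (nsmul_galois_smul_eq_zero g hx)

/-- **TAME-CYC, pointwise, from the wall.** -/
theorem tameCyc_point_of_target [NeZero N] {q p n : ℕ} (hq : q.Prime) (hp : p.Prime)
    (hpq : p ≠ q) (hU : Fermat.Agent.A2.Target N q (p ^ n))
    (P : ValuationSubring Qb) (hP : P.LiesOverPrime q) {φ σ : GQ} (h : IsTamePair p q P φ σ)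
    {τ : GQ} (hτ : τ ∈ P.inertiaSubgroupIn ℚ) (x : JZero N) (hx : p ^ n • x = 0) :
    ∃ j : ℕ, τ • x = (σ ^ j) • x := by
  obtain ⟨j, hj⟩ := locGenInertia p q hp hq hpq P hP φ σ h _ (orbitRep x)
    (orbitRep_finiteLevel x) (pPowOnInertia_orbitRep hU P hP x hx) τ hτ
  refine ⟨j, ?_⟩
  rw [← map_pow] at hj
  exact congrArg (fun e : Equiv.Perm (MulAction.orbit GQ x) =>
    ((e ⟨x, MulAction.mem_orbit_self x⟩ : MulAction.orbit GQ x) : JZero N)) hj

/-- The tame relation on `J₀(N)[p ^ n]`, from the wall. -/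
theorem tame_rel_of_target [NeZero N] {q p n : ℕ} (hq : q.Prime) (hp : p.Prime)
    (hpq : p ≠ q) (hU : Fermat.Agent.A2.Target N q (p ^ n))
    (P : ValuationSubring Qb) (hP : P.LiesOverPrime q) {φ σ : GQ} (h : IsTamePair p q P φ σ)
    (x : JZero N) (hx : p ^ n • x = 0) :
    (φ * σ * φ⁻¹) • x = (σ ^ q) • x := by
  have hj := locGenRel p q hp hq hpq P hP φ σ h _ (orbitRep x)
    (orbitRep_finiteLevel x) (pPowOnInertia_orbitRep hU P hP x hx)
  rw [← map_pow] at hj
  exact congrArg (fun e : Equiv.Perm (MulAction.orbit GQ x) =>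
    ((e ⟨x, MulAction.mem_orbit_self x⟩ : MulAction.orbit GQ x) : JZero N)) hj

/-- `σ • x = x ⟹ σ ^ j • x = x`. -/
theorem pow_smul_eq_self {σ : GQ} {x : JZero N} (h : σ • x = x) (j : ℕ) : (σ ^ j) • x = x := by
  induction j with
  | zero => rw [pow_zero, galois_one_smul]
  | succ j ih => rw [pow_succ, galois_mul_smul, h, ih]

/-- **The inertia invariants are the invariants of the tame generator**, from the wall. -/
theorem fixed_of_sigma_fixed_of_target [NeZero N] {q p n : ℕ} (hq : q.Prime) (hp : p.Prime)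
    (hpq : p ≠ q) (hU : Fermat.Agent.A2.Target N q (p ^ n))
    (P : ValuationSubring Qb) (hP : P.LiesOverPrime q) {φ σ : GQ} (h : IsTamePair p q P φ σ)
    (x : JZero N) (hx : p ^ n • x = 0) (hσ : σ • x = x) :
    ∀ τ ∈ P.inertiaSubgroupIn ℚ, τ • x = x := by
  intro τ hτ
  obtain ⟨j, hj⟩ := tameCyc_point_of_target hq hp hpq hU P hP h hτ x hx
  rw [hj, pow_smul_eq_self hσ]

/-- `τ • x - x` is a multiple of `σ • x - x`, from the wall. -/
theorem sub_mem_zmultiples_of_target [NeZero N] {q p n : ℕ} (hq : q.Prime) (hp : p.Prime)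
    (hpq : p ≠ q) (hU : Fermat.Agent.A2.Target N q (p ^ n))
    (P : ValuationSubring Qb) (hP : P.LiesOverPrime q) {φ σ : GQ} (h : IsTamePair p q P φ σ)
    {τ : GQ} (hτ : τ ∈ P.inertiaSubgroupIn ℚ) (x : JZero N) (hx : p ^ n • x = 0) :
    ∃ j : ℕ, τ • x - x = j • (σ • x - x) := by
  obtain ⟨j, hj⟩ := tameCyc_point_of_target hq hp hpq hU P hP h hτ x hx
  refine ⟨j, ?_⟩
  rw [hj, pow_smul_eq_of_target hU P hP h.mem hx j]
  abel

/-! ## Unconditional forms at `q ‖ N` -/

/-- **TAME-CYC, pointwise.** -/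
theorem tameCyc_point [NeZero N] {q p : ℕ} (hq : q.Prime) (hqN : q ∣ N) (hq2 : ¬ q ^ 2 ∣ N)
    (hp : p.Prime) (hpq : p ≠ q) (n : ℕ)
    (P : ValuationSubring Qb) (hP : P.LiesOverPrime q) {φ σ : GQ} (h : IsTamePair p q P φ σ)
    {τ : GQ} (hτ : τ ∈ P.inertiaSubgroupIn ℚ) (x : JZero N) (hx : p ^ n • x = 0) :
    ∃ j : ℕ, τ • x = (σ ^ j) • x := by
  have hqpn : ¬ q ∣ p ^ n := fun hd =>
    hpq ((Nat.prime_dvd_prime_iff_eq hq hp).mp (hq.dvd_of_dvd_pow hd)).symm
  exact tameCyc_point_of_target hq hp hpq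
    (Fermat.Agent.A2.Top.H672.target N q (p ^ n) hq hqN hq2 (NeZero.ne N)
      (pow_pos hp.pos n) hqpn) P hP h hτ x hx

/-- **`J₀(N)[p ^ n]^{I_P} = ker (σ - 1)`.** -/
theorem fixed_of_sigma_fixed [NeZero N] {q p : ℕ} (hq : q.Prime) (hqN : q ∣ N)
    (hq2 : ¬ q ^ 2 ∣ N) (hp : p.Prime) (hpq : p ≠ q) (n : ℕ)
    (P : ValuationSubring Qb) (hP : P.LiesOverPrime q) {φ σ : GQ} (h : IsTamePair p q P φ σ)
    (x : JZero N) (hx : p ^ n • x = 0) (hσ : σ • x = x) :
    ∀ τ ∈ P.inertiaSubgroupIn ℚ, τ • x = x := by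
  have hqpn : ¬ q ∣ p ^ n := fun hd =>
    hpq ((Nat.prime_dvd_prime_iff_eq hq hp).mp (hq.dvd_of_dvd_pow hd)).symm
  exact fixed_of_sigma_fixed_of_target hq hp hpq
    (Fermat.Agent.A2.Top.H672.target N q (p ^ n) hq hqN hq2 (NeZero.ne N)
      (pow_pos hp.pos n) hqpn) P hP h x hx hσ

/-- `τ • x - x ∈ ℕ • (σ • x - x)`. -/
theorem sub_mem_zmultiples [NeZero N] {q p : ℕ} (hq : q.Prime) (hqN : q ∣ N)
    (hq2 : ¬ q ^ 2 ∣ N) (hp : p.Prime) (hpq : p ≠ q) (n : ℕ)
    (P : ValuationSubring Qb) (hP : P.LiesOverPrime q) {φ σ : GQ} (h : IsTamePair p q P φ σ)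
    {τ : GQ} (hτ : τ ∈ P.inertiaSubgroupIn ℚ) (x : JZero N) (hx : p ^ n • x = 0) :
    ∃ j : ℕ, τ • x - x = j • (σ • x - x) := by
  have hqpn : ¬ q ∣ p ^ n := fun hd =>
    hpq ((Nat.prime_dvd_prime_iff_eq hq hp).mp (hq.dvd_of_dvd_pow hd)).symm
  exact sub_mem_zmultiples_of_target hq hp hpq
    (Fermat.Agent.A2.Top.H672.target N q (p ^ n) hq hqN hq2 (NeZero.ne N)
      (pow_pos hp.pos n) hqpn) P hP h hτ x hx

/-- The tame relation on `J₀(N)[p ^ n]`. -/
theorem tame_rel [NeZero N] {q p : ℕ} (hq : q.Prime) (hqN : q ∣ N)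
    (hq2 : ¬ q ^ 2 ∣ N) (hp : p.Prime) (hpq : p ≠ q) (n : ℕ)
    (P : ValuationSubring Qb) (hP : P.LiesOverPrime q) {φ σ : GQ} (h : IsTamePair p q P φ σ)
    (x : JZero N) (hx : p ^ n • x = 0) :
    (φ * σ * φ⁻¹) • x = (σ ^ q) • x := by
  have hqpn : ¬ q ∣ p ^ n := fun hd =>
    hpq ((Nat.prime_dvd_prime_iff_eq hq hp).mp (hq.dvd_of_dvd_pow hd)).symm
  exact tame_rel_of_target hq hp hpq
    (Fermat.Agent.A2.Top.H672.target N q (p ^ n) hq hqN hq2 (NeZero.ne N)
      (pow_pos hp.pos n) hqpn) P hP h x hx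

/-! ## The uniform form: one exponent for all of `J₀(N)[p ^ n]` -/

/-- The `m`-torsion of `J₀(N)` as a Galois-stable subset. -/
def torsSub (N m : ℕ) : SubMulAction GQ (JZero N) where
  carrier := {x : JZero N | m • x = 0}
  smul_mem' g _ hx := nsmul_galois_smul_eq_zero g hx

theorem mem_torsSub {m : ℕ} {x : JZero N} : x ∈ torsSub N m ↔ m • x = 0 := Iff.rfl

/-- The permutation representation of `G_ℚ` on `J₀(N)[m]`. -/
def torsRep (N m : ℕ) : GQ →* Equiv.Perm (torsSub N m) :=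
  MulAction.toPermHom GQ (torsSub N m)

theorem coe_torsRep_apply {m : ℕ} (σ : GQ) (y : torsSub N m) :
    ((torsRep N m σ y : torsSub N m) : JZero N) = σ • (y : JZero N) :=
  rfl

theorem torsRep_eq_one_iff {m : ℕ} (σ : GQ) :
    torsRep N m σ = 1 ↔ ∀ y : JZero N, m • y = 0 → σ • y = y := by
  constructor
  · intro h y hy
    exact congrArg (fun e : Equiv.Perm (torsSub N m) =>
      ((e ⟨y, hy⟩ : torsSub N m) : JZero N)) h
  · intro h
    ext y
    rw [coe_torsRep_apply]
    exact h y y.2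

/-- The representation on `J₀(N)[m]` has finite level. -/
theorem torsRep_finiteLevel [NeZero N] (m : ℕ) [NeZero m] :
    H794.FiniteLevel (torsRep N m) := by
  classical
  haveI : Finite (torsSub N m) :=
    (Fermat.Agent.S30.H810.torsion_finite (N := N) m).to_subtype
  choose E hE hfix using fun x : torsSub N m => orbitRep_finiteLevel (x : JZero N)
  haveI : ∀ x, FiniteDimensional ℚ (E x) := hE
  refine ⟨⨆ x, E x, IntermediateField.finiteDimensional_iSup_of_finite, fun τ hτ => ?_⟩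
  rw [torsRep_eq_one_iff]
  intro y hy
  have h1 : orbitRep y τ = 1 :=
    hfix ⟨y, hy⟩ τ fun a ha => hτ a ((le_iSup E ⟨y, hy⟩ : E ⟨y, hy⟩ ≤ ⨆ x, E x) ha)
  exact (orbitRep_eq_one_iff y τ).mp h1 y (MulAction.mem_orbit_self y)

/-- **TAME-CYC, uniform, from the wall.** -/
theorem tameCyc_of_target [NeZero N] {q p n : ℕ} (hq : q.Prime) (hp : p.Prime)
    (hpq : p ≠ q) (hU : Fermat.Agent.A2.Target N q (p ^ n))
    (P : ValuationSubring Qb) (hP : P.LiesOverPrime q) {φ σ : GQ} (h : IsTamePair p q P φ σ)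
    {τ : GQ} (hτ : τ ∈ P.inertiaSubgroupIn ℚ) :
    ∃ j : ℕ, ∀ x : JZero N, p ^ n • x = 0 → τ • x = (σ ^ j) • x := by
  haveI : NeZero (p ^ n) := ⟨pow_ne_zero n hp.ne_zero⟩
  have hpow : PPowOnInertia p P (torsRep N (p ^ n)) := by
    intro τ' hτ'
    refine ⟨n, ?_⟩
    rw [← map_pow, torsRep_eq_one_iff]
    intro y hy
    exact pow_torsion_smul_eq_self_of_target hU P hP hτ' hy
  obtain ⟨j, hj⟩ := locGenInertia p q hp hq hpq P hP φ σ h _ (torsRep N (p ^ n))
    (torsRep_finiteLevel (p ^ n)) hpow τ hτ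
  refine ⟨j, fun x hx => ?_⟩
  rw [← map_pow] at hj
  exact congrArg (fun e : Equiv.Perm (torsSub N (p ^ n)) =>
    ((e ⟨x, hx⟩ : torsSub N (p ^ n)) : JZero N)) hj

/-- **TAME-CYC, uniform**: `I_P` acts on `J₀(N)[p ^ n]` through the cyclic group generated by the
tame generator `σ`. -/
theorem tameCyc [NeZero N] {q p : ℕ} (hq : q.Prime) (hqN : q ∣ N) (hq2 : ¬ q ^ 2 ∣ N)
    (hp : p.Prime) (hpq : p ≠ q) (n : ℕ)
    (P : ValuationSubring Qb) (hP : P.LiesOverPrime q) {φ σ : GQ} (h : IsTamePair p q P φ σ)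
    {τ : GQ} (hτ : τ ∈ P.inertiaSubgroupIn ℚ) :
    ∃ j : ℕ, ∀ x : JZero N, p ^ n • x = 0 → τ • x = (σ ^ j) • x := by
  have hqpn : ¬ q ∣ p ^ n := fun hd =>
    hpq ((Nat.prime_dvd_prime_iff_eq hq hp).mp (hq.dvd_of_dvd_pow hd)).symm
  exact tameCyc_of_target hq hp hpq
    (Fermat.Agent.A2.Top.H672.target N q (p ^ n) hq hqN hq2 (NeZero.ne N)
      (pow_pos hp.pos n) hqpn) P hP h hτ

/-- Tame pairs exist (`S38.IA.Gal.locGenExists`), so the statements above are never vacuous. -/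
theorem exists_tamePair {q p : ℕ} (hq : q.Prime) (hp : p.Prime) (hpq : p ≠ q)
    (P : ValuationSubring Qb) (hP : P.LiesOverPrime q) :
    ∃ φ σ : GQ, IsTamePair p q P φ σ :=
  locGenExists p q hp hq hpq P hP

end Fermat.Agent.S59.LoSqC.H319

end
end
-- ===== PACK-END S59/LoSqC/H319/TameCyc.lean

-- ===== PACK-BEGIN S59/LoSqC/H305/SlopeKron.lean
section










/-!
# S59 moonshot, cell (C) LO-SQ, leaf W-SLOPE — part 1: the Hecke norm at level `E` and the Gauss
# valuation  (helper305, OFF-MAIN)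

`E ⊆ ℚ̄` an intermediate field, `P` a valuation subring of `ℚ̄`, `R = R_E = P ∩ E`,
`F_E(N) = A2.Mod.FE E N ⊆ E((t))`, `V∞` the Gauss valuation ring (`A2.Mod.IsVinf`).

* `heckeNormE E N ℓ y = Nm_α (β y)` : the function-level Hecke operator `T_ℓ` over `E`;
* `iota_heckeNormE305` : it commutes with `E ⊆ ℚ̄` (`S35.H858.iota_normAlong_alpha`);
* `coe_heckeNormE305`  : its `t`-expansion is the formal Kronecker norm
                         (`S37.H157.node_normid` + injectivity of `coeffMap`);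
* `heckeNormE_mem_vinf305` : **`y ∈ V∞ ⟹ T_ℓ y ∈ V∞`** (`ℓ` a unit of `P`);
* `heckeNormE_unitAt305`   : `y` a unit of `V∞` ⟹ `T_ℓ y` a unit of `V∞`.
-/

set_option autoImplicit false
set_option linter.style.haveILetI false
set_option linter.unusedSectionVars false
set_option synthInstance.maxHeartbeats 400000
set_option maxHeartbeats 1600000

noncomputable section

namespace Fermat.Agent.S59.LoSqC.H305

open ModularCurve AlgebraicCurve HahnSeries
open Fermat.Agent.A2.Mod
open Fermat.Agent.A2.T1.H669 (iota)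

variable (E : IntermediateField ℚ _root_.Fermat.Agent.A2.Mod.Qb) (N ℓ : ℕ) [NeZero N] [NeZero ℓ]

/-- **The function-level Hecke operator over `E`**: `Nm_α (β y)`. -/
def heckeNormE (y : FE E N) : FE E N :=
  Fermat.Agent.S29.H395.normAlong (heckeAlphaBar E N ℓ) (heckeBetaBar E N ℓ y)

/-- The Hecke norm commutes with `E ⊆ ℚ̄`. -/
theorem iota_heckeNormE305 (y : FE E N) :
    iota E (modularFunctionFieldFull N) (heckeNormE E N ℓ y) =
      Fermat.Agent.S29.H222.heckeNorm N ℓ (iota E (modularFunctionFieldFull N) y) := by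
  unfold heckeNormE
  rw [Fermat.Agent.S35.H858.iota_normAlong_alpha E N ℓ
    (Fermat.Agent.S29.H812.finiteAlong_heckeAlphaBar N ℓ), Fermat.Agent.S35.H858.iota_heckeBetaBar]
  rfl

/-- The `t`-expansion of the Hecke norm over `E` is the formal Kronecker norm. -/
theorem coe_heckeNormE305 (hℓ : ℓ.Prime) (hℓN : ¬ ℓ ∣ N) (y : FE E N) :
    ((heckeNormE E N ℓ y : FE E N) : LaurentSeries E) =
      Fermat.Agent.S37.H400.kronNorm ℓ (y : LaurentSeries E) := by
  have h1 := congrArg Subtype.val (iota_heckeNormE305 E N ℓ y)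
  have h2 := Fermat.Agent.S37.H157.node_normid N ℓ hℓ hℓN (iota E _ y)
  apply Fermat.Agent.S18.H602.coeffMap_injective (algebraMap E _root_.Fermat.Agent.A2.Mod.Qb) (algebraMap E _root_.Fermat.Agent.A2.Mod.Qb).injective
  rw [Fermat.Agent.S37.H400.coeffMap_kronNorm]
  exact h1.trans h2

/-- The Kronecker norm preserves the function field over `E`. -/
theorem kronNorm_mem_FE305 (hℓ : ℓ.Prime) (hℓN : ¬ ℓ ∣ N) {z : LaurentSeries E}
    (hz : z ∈ FE E N) : Fermat.Agent.S37.H400.kronNorm ℓ z ∈ FE E N := by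
  have := coe_heckeNormE305 E N ℓ hℓ hℓN ⟨z, hz⟩
  rw [← this]
  exact (heckeNormE E N ℓ ⟨z, hz⟩).2

theorem heckeNormE_mul305 (y z : FE E N) :
    heckeNormE E N ℓ (y * z) = heckeNormE E N ℓ y * heckeNormE E N ℓ z := by
  unfold heckeNormE Fermat.Agent.S29.H395.normAlong
  rw [map_mul, map_mul]

theorem heckeNormE_one305 : heckeNormE E N ℓ (1 : FE E N) = 1 := by
  unfold heckeNormE Fermat.Agent.S29.H395.normAlong
  rw [map_one, map_one]

theorem heckeNormE_ne_zero305 {y : FE E N} (hy : y ≠ 0) : heckeNormE E N ℓ y ≠ 0 := by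
  intro h
  have h1 := iota_heckeNormE305 E N ℓ y
  rw [h, map_zero] at h1
  have h2 : iota E (modularFunctionFieldFull N) y ≠ 0 :=
    Fermat.Agent.A2.T1.H669.iota_ne_zero E _ hy
  have h3 : Fermat.Agent.S29.H222.heckeNorm N ℓ (iota E (modularFunctionFieldFull N) y) ≠ 0 := by
    unfold Fermat.Agent.S29.H222.heckeNorm
    exact Fermat.Agent.S29.H395.normAlong_ne_zero _
      (Fermat.Agent.S29.H812.finiteAlong_heckeAlphaBar N ℓ)
      ((map_ne_zero_iff _ (heckeBetaBar _root_.Fermat.Agent.A2.Mod.Qb N ℓ).injective).2 h2)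
  exact h3 h1.symm

/-! ## The Kronecker norm does not vanish -/

/-- Over a field in which `ℓ ≠ 0`, the Kronecker norm of a nonzero series is nonzero. -/
theorem kronNorm_ne_zero_field305 {k : Type*} [Field k] (hℓk : ((ℓ : ℕ) : k) ≠ 0)
    {h : LaurentSeries k} (h0 : h ≠ 0) : Fermat.Agent.S37.H400.kronNorm ℓ h ≠ 0 := by
  have hinj := Fermat.Agent.S18.H602.coeffMap_injective (algebraMap k (AlgebraicClosure k))
    (algebraMap k (AlgebraicClosure k)).injective
  haveI : NeZero ((ℓ : ℕ) : AlgebraicClosure k) := ⟨by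
    have := (map_ne_zero (algebraMap k (AlgebraicClosure k))).2 hℓk
    rwa [map_natCast] at this⟩
  obtain ⟨ζ, hζ⟩ := HasEnoughRootsOfUnity.exists_primitiveRoot (AlgebraicClosure k) ℓ
  intro hz
  have h1 : coeffMap (algebraMap k (AlgebraicClosure k)) h ≠ 0 := by
    intro e
    exact h0 (hinj (by rw [e, map_zero]))
  apply Fermat.Agent.Ribet.H376.kronNorm_ne_zero ℓ hζ h1
  rw [← Fermat.Agent.S37.H400.coeffMap_kronNorm, hz, map_zero]

/-! ## Stability of the Gauss valuation ring -/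

variable (P : ValuationSubring _root_.Fermat.Agent.A2.Mod.Qb)

/-- **`T_ℓ` preserves the Gauss valuation ring `V∞`** (any level `N`, `ℓ ∤ N`, `ℓ` different from
the residue characteristic `q`). -/
theorem heckeNormE_mem_vinf305 {q : ℕ} (hq : q.Prime) (hP : P.LiesOverPrime q)
    (hℓ : ℓ.Prime) (hℓq : ℓ ≠ q) (hℓN : ¬ ℓ ∣ N)
    {V : ValuationSubring (FE E N)} (hV : IsVinf P E N V) {y : FE E N} (hy : y ∈ V) :
    heckeNormE E N ℓ y ∈ V := by
  rw [hV] at hy ⊢
  obtain ⟨U₁, U₂, h2, hm, he⟩ := hy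
  have hℓk : ((ℓ : ℕ) : IsLocalRing.ResidueField (RE P E)) ≠ 0 :=
    Fermat.Agent.S18.H9.resChar E (RE P E) q ℓ hq hℓ
      (Fermat.Agent.S35.G.H516.natCast_mem_nonunits_RE P E hP) hℓq
  have hred : Fermat.Agent.A2.H708.red (RE P E) (Fermat.Agent.S37.H400.kronNorm ℓ U₂) =
      Fermat.Agent.S37.H400.kronNorm ℓ (Fermat.Agent.A2.H708.red (RE P E) U₂) :=
    Fermat.Agent.S37.H400.coeffMap_kronNorm _ ℓ U₂
  have hincl : ∀ U : LaurentSeries (RE P E),
      Fermat.Agent.A2.H708.incl (RE P E) (Fermat.Agent.S37.H400.kronNorm ℓ U) =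
        Fermat.Agent.S37.H400.kronNorm ℓ (Fermat.Agent.A2.H708.incl (RE P E) U) :=
    fun U => Fermat.Agent.S37.H400.coeffMap_kronNorm _ ℓ U
  refine ⟨Fermat.Agent.S37.H400.kronNorm ℓ U₁, Fermat.Agent.S37.H400.kronNorm ℓ U₂, ?_, ?_, ?_⟩
  · rw [hred]
    exact kronNorm_ne_zero_field305 ℓ hℓk h2
  · rw [hincl]
    exact kronNorm_mem_FE305 E N ℓ hℓ hℓN hm
  · rw [coe_heckeNormE305 E N ℓ hℓ hℓN, hincl, hincl,
      ← Fermat.Agent.S37.H400.kronNorm_mul, he]

/-! ## Units and orders -/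

theorem heckeNormE_zero305 : heckeNormE E N ℓ (0 : FE E N) = 0 := by
  by_contra h
  have h1 := iota_heckeNormE305 E N ℓ (0 : FE E N)
  rw [map_zero] at h1
  have h2 : Fermat.Agent.S29.H222.heckeNorm N ℓ (0 : modularFunctionFieldBar N) = 0 := by
    unfold Fermat.Agent.S29.H222.heckeNorm
    rw [map_zero]
    letI := algebraAlong (heckeAlphaBar _root_.Fermat.Agent.A2.Mod.Qb N ℓ)
    haveI : Module.Finite (modularFunctionFieldBar N) (modularFunctionFieldBar (N * ℓ)) :=
      Fermat.Agent.S29.H812.finiteAlong_heckeAlphaBar N ℓ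
    exact Algebra.norm_zero
  rw [h2] at h1
  exact h ((map_eq_zero_iff _ (Fermat.Agent.A2.T1.H669.iota_injective E _)).1 h1)

/-- `T_ℓ` as a monoid-with-zero homomorphism of the function field over `E`. -/
def heckeNormEHom : FE E N →*₀ FE E N where
  toFun := heckeNormE E N ℓ
  map_zero' := heckeNormE_zero305 E N ℓ
  map_one' := heckeNormE_one305 E N ℓ
  map_mul' := heckeNormE_mul305 E N ℓ

theorem heckeNormEHom_apply (y : FE E N) : heckeNormEHom E N ℓ y = heckeNormE E N ℓ y := rfl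

/-- `T_ℓ` of a constant `c` is `c ^ (ℓ + 1)`. -/
theorem heckeNormE_const305 (hℓ : ℓ.Prime) (hℓN : ¬ ℓ ∣ N) (c : E) :
    heckeNormE E N ℓ (algebraMap E (FE E N) c) = algebraMap E (FE E N) (c ^ (ℓ + 1)) := by
  apply Subtype.ext
  rw [coe_heckeNormE305 E N ℓ hℓ hℓN]
  show Fermat.Agent.S37.H400.kronNorm ℓ (algebraMap E (LaurentSeries E) c) =
    algebraMap E (LaurentSeries E) (c ^ (ℓ + 1))
  rw [Fermat.Agent.S18.H602.algebraMap_eq_C, Fermat.Agent.S18.H602.algebraMap_eq_C,
    Fermat.Agent.Ribet.H376.kronNorm_C]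

open Fermat.Agent.S36.Eng (UnitAt)

/-- `T_ℓ` preserves the units of `V∞`. -/
theorem heckeNormE_unitAt305 {q : ℕ} (hq : q.Prime) (hP : P.LiesOverPrime q)
    (hℓ : ℓ.Prime) (hℓq : ℓ ≠ q) (hℓN : ¬ ℓ ∣ N)
    {V : ValuationSubring (FE E N)} (hV : IsVinf P E N V) {y : FE E N} (hy : UnitAt V y) :
    UnitAt V (heckeNormE E N ℓ y) := by
  obtain ⟨h0, h1, h2⟩ := hy
  refine ⟨heckeNormE_ne_zero305 E N ℓ h0, heckeNormE_mem_vinf305 E N ℓ P hq hP hℓ hℓq hℓN hV h1, ?_⟩
  have h3 := heckeNormE_mem_vinf305 E N ℓ P hq hP hℓ hℓq hℓN hV h2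
  rwa [← heckeNormEHom_apply, map_inv₀] at h3

/-- **Orders along `V∞` are multiplied by `ℓ + 1`.** -/
theorem heckeNormE_order305 {q : ℕ} (hq : q.Prime) (hP : P.LiesOverPrime q)
    (hℓ : ℓ.Prime) (hℓq : ℓ ≠ q) (hℓN : ¬ ℓ ∣ N)
    {V : ValuationSubring (FE E N)} (hV : IsVinf P E N V) (w : E) (y : FE E N) (a : ℤ)
    (hy : UnitAt V (y * (algebraMap E (FE E N) w ^ a)⁻¹)) :
    UnitAt V (heckeNormE E N ℓ y * (algebraMap E (FE E N) w ^ (((ℓ : ℤ) + 1) * a))⁻¹) := by
  have h1 := heckeNormE_unitAt305 E N ℓ P hq hP hℓ hℓq hℓN hV hy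
  rw [← heckeNormEHom_apply, map_mul, map_inv₀, map_zpow₀, heckeNormEHom_apply,
    heckeNormEHom_apply, heckeNormE_const305 E N ℓ hℓ hℓN, map_pow, ← zpow_natCast,
    ← zpow_mul] at h1
  have e : ((ℓ + 1 : ℕ) : ℤ) * a = ((ℓ : ℤ) + 1) * a := by push_cast; ring
  rwa [e] at h1

end Fermat.Agent.S59.LoSqC.H305

end

end
-- ===== PACK-END S59/LoSqC/H305/SlopeKron.lean

-- ===== PACK-BEGIN S59/LoSqC/H305/SlopeFricke.lean
section




/-!
# S59 moonshot, cell (C) LO-SQ, leaf W-SLOPE — part 2: the Fricke involution and the valuation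
# `V₀ = V∞ ∘ W`  (helper305, OFF-MAIN)

* `fricke_heckeNormE305` : `W (T_ℓ y) = T_ℓ (W y)` for every Fricke involution `W` of level `E`
                           (`H376.wF_heckeNorm` over `ℚ̄` + `Mod.H553.iota_wE`);
* `heckeNormE_order_zero305` : orders along `V₀ = V∞.comap W` are multiplied by `ℓ + 1`.
-/

set_option autoImplicit false
set_option linter.style.haveILetI false
set_option linter.unusedSectionVars false
set_option synthInstance.maxHeartbeats 400000
set_option maxHeartbeats 1600000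

noncomputable section

namespace Fermat.Agent.S59.LoSqC.H305

open ModularCurve AlgebraicCurve HahnSeries
open Fermat.Agent.A2.Mod
open Fermat.Agent.A2.T1.H669 (iota)
open Fermat.Agent.S36.Eng (UnitAt)

variable (E : IntermediateField ℚ _root_.Fermat.Agent.A2.Mod.Qb) (N ℓ : ℕ) [NeZero N] [NeZero ℓ]

/-- Every Fricke involution of level `E` induces `H528.wF` over `ℚ̄`. -/
theorem iota_fricke305 {W : FE E N ≃ₐ[E] FE E N} (hW : IsFricke E N W) (z : FE E N) :
    iota E (modularFunctionFieldFull N) (W z) =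
      Fermat.Agent.A2.H528.wF N (iota E (modularFunctionFieldFull N) z) := by
  rw [Fermat.Agent.A2.Mod.H553.isFricke_unique E (NeZero.ne N) hW
    (Fermat.Agent.A2.Mod.H553.isFricke_wE E N)]
  exact Fermat.Agent.A2.Mod.H553.iota_wE E N z

/-- **The Fricke involution commutes with the Hecke norm** (level `E`). -/
theorem fricke_heckeNormE305 (hℓ : ℓ.Prime) (hℓN : ¬ ℓ ∣ N) {W : FE E N ≃ₐ[E] FE E N}
    (hW : IsFricke E N W) (y : FE E N) :
    W (heckeNormE E N ℓ y) = heckeNormE E N ℓ (W y) := by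
  apply Fermat.Agent.A2.T1.H669.iota_injective E (modularFunctionFieldFull N)
  rw [iota_fricke305 E N hW, iota_heckeNormE305, iota_heckeNormE305, iota_fricke305 E N hW,
    Fermat.Agent.Ribet.H376.wF_heckeNorm hℓ hℓN]

variable (P : ValuationSubring _root_.Fermat.Agent.A2.Mod.Qb)

theorem unitAt_comap305 {V : ValuationSubring (FE E N)} (W : FE E N ≃ₐ[E] FE E N) (z : FE E N) :
    UnitAt (V.comap (W : FE E N →+* FE E N)) z ↔ UnitAt V (W z) := by
  unfold UnitAt
  rw [ValuationSubring.mem_comap, ValuationSubring.mem_comap]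
  constructor
  · rintro ⟨h0, h1, h2⟩
    refine ⟨(map_ne_zero_iff _ W.injective).2 h0, h1, ?_⟩
    have : W z⁻¹ = (W z)⁻¹ := map_inv₀ W z
    rw [← this]
    exact h2
  · rintro ⟨h0, h1, h2⟩
    refine ⟨(map_ne_zero_iff _ W.injective).1 h0, h1, ?_⟩
    have : W z⁻¹ = (W z)⁻¹ := map_inv₀ W z
    show W z⁻¹ ∈ V
    rw [this]
    exact h2

/-- **Orders along `V₀ = V∞ ∘ W` are multiplied by `ℓ + 1`.** -/
theorem heckeNormE_order_zero305 {q : ℕ} (hq : q.Prime) (hP : P.LiesOverPrime q)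
    (hℓ : ℓ.Prime) (hℓq : ℓ ≠ q) (hℓN : ¬ ℓ ∣ N)
    {V : ValuationSubring (FE E N)} (hV : IsVinf P E N V)
    {W : FE E N ≃ₐ[E] FE E N} (hW : IsFricke E N W) (w : E) (y : FE E N) (a : ℤ)
    (hy : UnitAt (V.comap (W : FE E N →+* FE E N)) (y * (algebraMap E (FE E N) w ^ a)⁻¹)) :
    UnitAt (V.comap (W : FE E N →+* FE E N))
      (heckeNormE E N ℓ y * (algebraMap E (FE E N) w ^ (((ℓ : ℤ) + 1) * a))⁻¹) := by
  rw [unitAt_comap305] at hy ⊢
  rw [map_mul, map_inv₀, map_zpow₀, AlgEquiv.commutes] at hy ⊢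
  rw [fricke_heckeNormE305 E N ℓ hℓ hℓN hW]
  exact heckeNormE_order305 E N ℓ P hq hP hℓ hℓq hℓN hV w (W y) a hy

end Fermat.Agent.S59.LoSqC.H305

end

end
-- ===== PACK-END S59/LoSqC/H305/SlopeFricke.lean

-- ===== PACK-BEGIN S59/H826/SqFree35Plug.lean
section
/-
Row S59, cell LO, sub-cell (C): the end-to-end form of (C) with `(3, 2)` plugged (helper826).

`sqFree35_of_neat_plugged : LoSqNeatStatement → LoSq52Statement → SqFree35Statement` and
`levelOpt_of_neat_plugged`.  Open inputs of (C) after this file: the wall at `q²` for odd `q` at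
neat levels (`LoSqNeatStatement`) and the easy half at `(5, 2)` (`LoSq52Statement`).
-/



set_option autoImplicit false

namespace Fermat.Agent.S59.H826

open Fermat.Agent.S59.Arch Fermat.Agent.S59.H934 Fermat.Agent.S59.Arch.LOW

/-- **(C) from the wall at neat levels and the easy half at `(5, 2)`**; `(3, 2)` is plugged. -/
theorem sqFree35_of_neat_plugged (hNeat : LoSqNeatStatement) (h52 : LoSq52Statement) :
    SqFree35Statement :=
  sqFree35_of_neat hNeat loSq32 h52

/-- **The cell LO** from the wall at neat levels, the easy half at `(5, 2)` and the cells (A),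
(B1), (B2). -/
theorem levelOpt_of_neat_plugged (hNeat : LoSqNeatStatement) (h52 : LoSq52Statement)
    (hMz : MazurW35Statement) (hPv : PivotW35Statement) (h39 : S39W35Statement)
    (hFP : FlatPeuStatement) (hU : ResUnramStatement) (hF : ResFlatStatement) :
    LevelOptStatement :=
  levelOpt_of_neat hNeat loSq32 h52 hMz hPv h39 hFP hU hF

end Fermat.Agent.S59.H826

end
-- ===== PACK-END S59/H826/SqFree35Plug.lean

-- ===== PACK-BEGIN Ribet/H997/DictDesc.lean
section




/-!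
# Row 38, WALL-p, S2 leaf DICT — level-`E` dictionary (helper997)

`E` a level with `R_E = A ∩ E` a discrete valuation ring, `V` the Gauss valuation ring of
`F_{N,E}` (`A2.Mod.IsVinf`), `w` a uniformiser of `R_E`.

* `exists_zpow_val`      : every `z ≠ 0` of `F_{N,E}` has `v_V z = v_V w ^ a`, `a : ℤ`;
* `sub_one_mem_nonunits_of_red` : if the series of `z` over `ℚ̄` is `U₁ / U₂` with `U₁, U₂`
  `A`-integral, primitive, with THE SAME reduction, then `z - 1 ∈ 𝔪_V`
  (descent of "reduction `1`" from `ℚ̄` to the level `E`);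
* `iotaN_fricke`         : every Fricke involution of level `E` induces `H528.wF` over `ℚ̄`.
-/

set_option autoImplicit false
set_option linter.unusedSectionVars false
set_option linter.style.haveILetI false
set_option synthInstance.maxHeartbeats 400000
set_option maxHeartbeats 1600000

noncomputable section

namespace Fermat.Agent.Ribet.H997

open AlgebraicCurve ModularCurve HahnSeries
open Fermat.Agent.S24 Fermat.Agent.A2.H708 Fermat.Agent.A2.H528
open Fermat.Agent.A2 Fermat.Agent.A2.Mod Fermat.Agent.S18.H602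

section Level

variable {A : ValuationSubring Kbar} {E : IntermediateField ℚ Kbar} {N : ℕ}

/-- A normal form with constant `1` gives a unit of `V`. -/
theorem val_eq_one_of_normal_form {V : ValuationSubring (Mod.FE E N)}
    (hV : Mod.IsVinf A E N V) (u : Mod.FE E N) {T₁ T₂ : LaurentSeries (Mod.RE A E)}
    (t₁ : red (Mod.RE A E) T₁ ≠ 0) (t₂ : red (Mod.RE A E) T₂ ≠ 0)
    (hm₁ : incl (Mod.RE A E) T₁ ∈ laurentBaseChange E (modularFunctionFieldFull N))
    (hm₂ : incl (Mod.RE A E) T₂ ∈ laurentBaseChange E (modularFunctionFieldFull N))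
    (he : (u : LaurentSeries E) * incl (Mod.RE A E) T₂ = incl (Mod.RE A E) T₁) :
    V.valuation u = 1 := by
  have hT₁0 : incl (Mod.RE A E) T₁ ≠ 0 :=
    incl_ne_zero (Mod.RE A E) (ne_zero_of_red_ne_zero (Mod.RE A E) t₁)
  have hu0 : (u : LaurentSeries E) ≠ 0 := by
    intro h0
    rw [h0, zero_mul] at he
    exact hT₁0 he.symm
  have hu0' : u ≠ 0 := fun h => hu0 (by rw [h]; rfl)
  have huV : u ∈ V := (hV u).mpr ⟨T₁, T₂, t₂, hm₂, he⟩
  have hinv : ((u⁻¹ : Mod.FE E N) : LaurentSeries E) * incl (Mod.RE A E) T₁ =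
      incl (Mod.RE A E) T₂ := by
    rw [IntermediateField.coe_inv, ← he]
    field_simp
  have huVi : u⁻¹ ∈ V := (hV u⁻¹).mpr ⟨T₂, T₁, t₁, hm₁, hinv⟩
  exact (val_eq_one_iff V u).2 ⟨hu0', huV, huVi⟩

/-- Units of `R_E` are units of `V`. -/
theorem val_algebraMap_unit {V : ValuationSubring (Mod.FE E N)}
    (hV : Mod.IsVinf A E N V) (hN : N ≠ 0) (hdvr : IsDiscreteValuationRing (Mod.RE A E))
    {w : Mod.RE A E} (hw : Irreducible w) (ε : (Mod.RE A E)ˣ) :
    V.valuation (algebraMap E (Mod.FE E N) ((ε : Mod.RE A E) : E)) = 1 := by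
  obtain ⟨-, hL, -⟩ := Mod.H553.vinfBasic A E w N hN hdvr hw V hV
  refine (val_eq_one_iff V _).2 ⟨?_, (hL _).2 (ε : Mod.RE A E).2, ?_⟩
  · rw [Ne, map_eq_zero]
    intro h0
    exact ε.ne_zero (Subtype.ext h0)
  · rw [← map_inv₀]
    have h1 : (((ε : Mod.RE A E) : E))⁻¹ = (((ε⁻¹ : (Mod.RE A E)ˣ) : Mod.RE A E) : E) := by
      have h2 : (((ε : Mod.RE A E) : E)) * (((ε⁻¹ : (Mod.RE A E)ˣ) : Mod.RE A E) : E) = 1 := by
        exact congrArg (fun r : Mod.RE A E => (r : E)) ε.mul_inv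
      exact inv_eq_of_mul_eq_one_right h2
    rw [h1]
    exact (hL _).2 ((ε⁻¹ : (Mod.RE A E)ˣ) : Mod.RE A E).2

/-- The valuation of a nonzero constant is a power of the valuation of `w`. -/
theorem exists_zpow_val_const {V : ValuationSubring (Mod.FE E N)}
    (hV : Mod.IsVinf A E N V) (hN : N ≠ 0) (hdvr : IsDiscreteValuationRing (Mod.RE A E))
    {w : Mod.RE A E} (hw : Irreducible w) (c : E) (hc : c ≠ 0) :
    ∃ a : ℤ, V.valuation (algebraMap E (Mod.FE E N) c) =
      V.valuation (Mod.cE A E N w) ^ a := by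
  haveI := hdvr
  have key : ∀ r : Mod.RE A E, r ≠ 0 → ∃ n : ℕ,
      V.valuation (algebraMap E (Mod.FE E N) (r : E)) = V.valuation (Mod.cE A E N w) ^ n := by
    intro r hr
    obtain ⟨n, ε, hε⟩ := IsDiscreteValuationRing.eq_unit_mul_pow_irreducible hr hw
    refine ⟨n, ?_⟩
    have h1 : (r : E) = ((ε : Mod.RE A E) : E) * (w : E) ^ n := by
      have := congrArg (fun r : Mod.RE A E => (r : E)) hε
      simpa using this
    rw [h1, map_mul, map_pow, map_mul, map_pow, val_algebraMap_unit hV hN hdvr hw ε, one_mul]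
    rfl
  rcases (Mod.RE A E).mem_or_inv_mem c with h | h
  · obtain ⟨n, hn⟩ := key ⟨c, h⟩ (fun h0 => hc (congrArg Subtype.val h0))
    exact ⟨n, by rw [zpow_natCast]; exact hn⟩
  · obtain ⟨n, hn⟩ := key ⟨c⁻¹, h⟩
      (fun h0 => inv_ne_zero hc (congrArg Subtype.val h0))
    refine ⟨-(n : ℤ), ?_⟩
    have h1 : V.valuation (algebraMap E (Mod.FE E N) c⁻¹) =
        V.valuation (Mod.cE A E N w) ^ n := hn
    rw [map_inv₀, map_inv₀] at h1
    rw [zpow_neg, zpow_natCast, ← h1, inv_inv]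

/-- **Discreteness of the Gauss valuation.** -/
theorem exists_zpow_val {V : ValuationSubring (Mod.FE E N)}
    (hV : Mod.IsVinf A E N V) (hN : N ≠ 0) (hdvr : IsDiscreteValuationRing (Mod.RE A E))
    {w : Mod.RE A E} (hw : Irreducible w) (z : Mod.FE E N) (hz : z ≠ 0) :
    ∃ a : ℤ, V.valuation z = V.valuation (Mod.cE A E N w) ^ a := by
  haveI := hdvr
  have hz0 : (z : LaurentSeries E) ≠ 0 := fun h => hz (Subtype.ext h)
  obtain ⟨c, T₁, T₂, hc, t₁, t₂, hm₁, hm₂, he⟩ :=
    exists_normal_form (A := Mod.RE A E) (intGen_full N)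
      (attainsMax_of_isNoetherianRing (Mod.RE A E) (modularFunctionFieldFull N)) z.2 hz0
  set u : Mod.FE E N := z * (algebraMap E (Mod.FE E N) c)⁻¹ with hu
  have hu_coe : (u : LaurentSeries E) = (z : LaurentSeries E) * (cst c)⁻¹ := by
    rw [hu, IntermediateField.coe_mul, IntermediateField.coe_inv]
    rfl
  have hu_ser : (u : LaurentSeries E) * incl (Mod.RE A E) T₂ = incl (Mod.RE A E) T₁ := by
    rw [hu_coe, mul_right_comm, he, mul_right_comm, mul_inv_cancel₀ (cst_ne_zero hc), one_mul]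
  have h1 := val_eq_one_of_normal_form hV u t₁ t₂ hm₁ hm₂ hu_ser
  obtain ⟨a, ha⟩ := exists_zpow_val_const hV hN hdvr hw c hc
  refine ⟨a, ?_⟩
  have hc0 : algebraMap E (Mod.FE E N) c ≠ 0 := by
    rwa [Ne, map_eq_zero]
  have hzu : z = u * algebraMap E (Mod.FE E N) c := by
    rw [hu, mul_assoc, inv_mul_cancel₀ hc0, mul_one]
  rw [hzu, map_mul, h1, one_mul, ha]

/-- **Descent of "reduction `1`".**  If over `ℚ̄` the series of `z ∈ F_{N,E}` is a quotient of
two `A`-integral primitive series with the same reduction, then `z ∈ 1 + 𝔪_V`. -/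
theorem sub_one_mem_nonunits_of_red {V : ValuationSubring (Mod.FE E N)}
    (hV : Mod.IsVinf A E N V) (hdvr : IsDiscreteValuationRing (Mod.RE A E))
    (z : Mod.FE E N) {U₁ U₂ : LaurentSeries A} (h₂ : red A U₂ ≠ 0)
    (h12 : red A U₁ = red A U₂)
    (he : coeffMap (algebraMap E Kbar) (z : LaurentSeries E) * incl A U₂ = incl A U₁) :
    z - 1 ∈ V.nonunits := by
  haveI := hdvr
  have h₁ : red A U₁ ≠ 0 := h12 ▸ h₂
  have hz0 : (z : LaurentSeries E) ≠ 0 := by
    intro h0
    rw [h0, map_zero, zero_mul] at he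
    exact incl_ne_zero A (ne_zero_of_red_ne_zero A h₁) he.symm
  obtain ⟨c, T₁, T₂, hc, t₁, t₂, hm₁, hm₂, hT⟩ :=
    exists_normal_form (A := Mod.RE A E) (intGen_full N)
      (attainsMax_of_isNoetherianRing (Mod.RE A E) (modularFunctionFieldFull N)) z.2 hz0
  -- the normal form over `ℚ̄`
  have hTK : coeffMap (algebraMap E Kbar) (z : LaurentSeries E) * incl A (upA A E T₂) =
      cst (algebraMap E Kbar c) * incl A (upA A E T₁) := by
    have := congrArg (coeffMap (algebraMap E Kbar)) hT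
    rw [map_mul, map_mul, coeffMap_algebraMap', ← incl_upA, ← incl_upA] at this
    exact this
  have t₁A := red_upA_ne_zero E t₁
  have t₂A := red_upA_ne_zero E t₂
  set x := coeffMap (algebraMap E Kbar) (z : LaurentSeries E) with hx
  set cK : Kbar := algebraMap E Kbar c with hcK
  have hcK0 : cK ≠ 0 := by
    rw [hcK, Ne, map_eq_zero_iff _ (algebraMap E Kbar).injective]
    exact hc
  -- cross-multiplication: `U₁ · T₂ = c · T₁ · U₂`
  have hcross : cst cK * incl A (upA A E T₁ * U₂) = incl A (U₁ * upA A E T₂) := by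
    rw [map_mul, map_mul, ← mul_assoc, ← hTK, ← he]
    ring
  have hcross' : cst cK⁻¹ * incl A (U₁ * upA A E T₂) = incl A (upA A E T₁ * U₂) := by
    rw [← hcross, ← mul_assoc, cst_inv_mul_cst hcK0, one_mul]
  have hp1 : red A (upA A E T₁ * U₂) ≠ 0 := by rw [map_mul]; exact mul_ne_zero t₁A h₂
  have hp2 : red A (U₁ * upA A E T₂) ≠ 0 := by rw [map_mul]; exact mul_ne_zero h₁ t₂A
  have hcA : cK ∈ A := mem_of_cst_mul_prim A hp1 hcross
  have hciA : cK⁻¹ ∈ A := mem_of_cst_mul_prim A hp2 hcross'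
  -- the constant as a unit of `R_E`
  have hcR : c ∈ Mod.RE A E := hcA
  have hciR : c⁻¹ ∈ Mod.RE A E := by
    show algebraMap E Kbar c⁻¹ ∈ A
    rw [map_inv₀]
    exact hciA
  set cR : Mod.RE A E := ⟨c, hcR⟩ with hcR_def
  -- `S = c T₁ - T₂` has zero reduction
  set S : LaurentSeries (Mod.RE A E) := cstA (Mod.RE A E) cR * T₁ - T₂ with hS
  have hSeq : ((z - 1 : Mod.FE E N) : LaurentSeries E) * incl (Mod.RE A E) T₂ =
      incl (Mod.RE A E) S := by
    have h1 : ((z - 1 : Mod.FE E N) : LaurentSeries E) = (z : LaurentSeries E) - 1 := rfl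
    rw [h1, sub_mul, one_mul, hT, hS, map_sub, map_mul, incl_cstA]
  have hSA : red A (upA A E S) = 0 := by
    have e1 : upA A E S = cstA A (toA' A E cR) * upA A E T₁ - upA A E T₂ := by
      rw [hS, map_sub, map_mul, upA_cstA]
    have e2 : incl A (cstA A (toA' A E cR) * (upA A E T₁ * U₂)) = incl A (U₁ * upA A E T₂) := by
      rw [map_mul (incl A), incl_cstA]
      exact hcross
    have e3 := congrArg (red A) (incl_injective A e2)
    rw [map_mul, map_mul, map_mul, h12] at e3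
    have e4 : (red A (cstA A (toA' A E cR)) * red A (upA A E T₁) - red A (upA A E T₂)) *
        red A U₂ = 0 := by
      rw [sub_mul, mul_assoc, e3]
      ring
    rw [e1, map_sub, map_mul]
    rcases mul_eq_zero.mp e4 with h | h
    · exact h
    · exact absurd h h₂
  have hS0 : red (Mod.RE A E) S = 0 := (red_upA_eq_zero_iff E S).mp hSA
  -- membership
  have hmem : z - 1 ∈ V := (hV (z - 1)).mpr ⟨S, T₂, t₂, hm₂, hSeq⟩
  rw [ValuationSubring.mem_nonunits_iff_or]
  by_cases hz1 : z - 1 = 0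
  · exact Or.inl hz1
  · right
    intro hinv
    obtain ⟨W₁, W₂, hW₂, -, heW⟩ := (hV (z - 1)⁻¹).mp hinv
    have hz1' : ((z - 1 : Mod.FE E N) : LaurentSeries E) ≠ 0 := fun h => hz1 (Subtype.ext h)
    have e1 : incl (Mod.RE A E) (W₂ * T₂) = incl (Mod.RE A E) (W₁ * S) := by
      rw [map_mul, map_mul, ← hSeq, ← heW, IntermediateField.coe_inv]
      field_simp
    have e2 := congrArg (red (Mod.RE A E)) (incl_injective (Mod.RE A E) e1)
    rw [map_mul, map_mul, hS0, mul_zero] at e2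
    rcases mul_eq_zero.mp e2 with h | h
    · exact hW₂ h
    · exact t₂ h

end Level

section Fricke

variable {E : IntermediateField ℚ Kbar} {N : ℕ} [NeZero N]

/-- Every Fricke involution of level `E` induces `H528.wF` over `ℚ̄`. -/
theorem iotaN_fricke {W : Mod.FE E N ≃ₐ[E] Mod.FE E N} (hW : Mod.IsFricke E N W)
    (z : Mod.FE E N) :
    Mod.H553.iotaN E N (W z) = wF N (Mod.H553.iotaN E N z) := by
  rw [Mod.H553.isFricke_unique E (NeZero.ne N) hW (Mod.H553.isFricke_wE E N)]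
  exact Mod.H553.iota_wE E N z

end Fricke

end Fermat.Agent.Ribet.H997

end

end
-- ===== PACK-END Ribet/H997/DictDesc.lean

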