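import Fermat.Agent.Pack.S43MC.G0E14L1
import Fermat.Agent.Pack.S43MC.G0E26L3
import Fermat.Agent.Pack.S43MC.G0E20L1
import Fermat.Agent.Pack.S43MC.G0E12L3
import Fermat.Agent.Pack.S43MC.G0E25L2
import Fermat.Agent.Pack.S43MC.G0E25L1
import Fermat.Agent.Pack.S43GC.G0E19L2
import Fermat.Agent.Pack.S43MC.G0E26L2
import Fermat.Agent.Pack.S44C.G0E26L3
import Fermat.Agent.Pack.S44C.G0E18L3
import Fermat.Agent.Pack.S43MC.G0E28L1
import Fermat.Agent.Pack.S43MC.G0E26L1
import Fermat.Agent.Pack.S44C.G0E27L2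
import Fermat.Agent.Pack.S44C.G0E25L3
import Fermat.Agent.Pack.S43MC.G0E7L1
import Fermat.Agent.Pack.S43MC.G0E10L3
import Fermat.Agent.Pack.S43MC.G0E3L2
import Fermat.Agent.Pack.S59C.E9L3
import Fermat.Agent.Pack.S43MC.G0E27L1
import Fermat.Agent.Pack.S43C.E3L0
import Fermat.Agent.Pack.S43C.E2L2
import Fermat.Agent.Pack.S43C.E1L2
import Fermat.Agent.Pack.S43MC.G0E27L3
import Fermat.Agent.Pack.S43C.E1L3
import Fermat.Agent.Pack.S59C.E12L1
import Fermat.Agent.Pack.S59C.E7L1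
import Fermat.Agent.Pack.S59C.E7L3
import Fermat.Agent.Pack.S44C.G0E29L0
import Fermat.Agent.Pack.S44C.G0E28L0
import Fermat.Agent.Pack.S59C.E8L2
import Fermat.Agent.Pack.S59C.E6L2
import Fermat.Agent.Pack.S59C.E7L2
import Fermat.Agent.Pack.S59C.E1L3
import Fermat.Agent.Pack.S43MC.G0E17L1
import Fermat.Agent.Pack.S43MC.G0E28L3
import Fermat.Agent.Pack.S59C.E12L2
import Fermat.Agent.Pack.S44C.G0E29L1
import Fermat.Agent.Pack.S44C.G0E28L2
import Fermat.Agent.Pack.S44C.G0E25L1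
import Fermat.Agent.Pack.S44C.G0E20L0
import Fermat.Agent.Pack.S44C.G0E20L1
import Fermat.Agent.Pack.S59C.E12L3
import Fermat.Agent.Pack.S43MC.G0E28L0
import Fermat.Agent.Pack.S59C.E11L3
import Fermat.Agent.Pack.S59C.E10L3

set_option linter.all false

-- ===== PACK-BEGIN S59/H294/ResFlat.lean
section




















/-!
# Row S59, cell LO, leaf ResFlat (helper294)

`resFlat_of : Arch.DictStatement → H934.ResFlatStatement`: if a semistable `W` with `E[p]`
irreducible is residually modular of squarefree level `M` prime to `p`, then `E[p]` is flat at `p`.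

Chain (everything on main except cell DICT):
* DICT gives `𝒪`, `ι : 𝔽_p → k`, `χ : 𝕋 → 𝒪` whose reduction `θ` is the Frobenius character of
  `E[p] ⊗ k`;
* `θ` is non-Eisenstein (`absIrr_baseChangeAlong294`), so layer G4 (`g4_294`) gives a Hecke–Galois
  datum `H` on `T = heckeLocal`;
* row S32 on the realizer-free chain (`TW.H659.Clean.s32Statement_clean659`): `H.ρ` is flat
  at `p`;
* Brauer–Nesbitt (`datum_residual_isEquiv294`): `H.ρ.residual ≅ E[p] ⊗ k_T`;
* `E[p] ↪ E[p] ⊗ k_T ≅ H.ρ.residual`, and Hopf models pass to subquotients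
  (`H659.hopfSubquot_closed`).
-/

set_option autoImplicit false
set_option linter.style.haveILetI false

open Polynomial IsLocalRing
open scoped TensorProduct WeierstrassCurve.Affine

namespace Fermat.Agent.S59.H294

open Fermat.Agent.S59 Fermat.Agent.S59.Arch

/-- **Layer G4, assembled** (all pieces are on main).  The row-S30 input is taken from the plain
chain top (`S30.Chain.result_of_T`), not from the statement module. -/
theorem g4_294 : G4.G4Statement :=
  G4.g4_of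
    (fun p _ N _ S hpS hNS 𝒪' _ _ _ _ _ _ hp𝒪' χ =>
      Fermat.Agent.S30.Chain.result_of_T
        (Fermat.Agent.S30.H694.torsionRelations_of_nodes
          (fun M _ _ _ hℓM A hA => Fermat.Agent.S18.Mod.H216.node_mod M hℓM A hA)
          (fun M => Fermat.Agent.S18.H438.node_alg M))
        p N S hpS hNS 𝒪' hp𝒪' χ)
    G4.H547.red G4.H109.points G4.H532.traceFn
    G4.H109.resStatement2

/-- **Row S32** (a Hecke–Galois datum of level `N`, `p ∤ N`, `p` odd, is flat at `p`), taken from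
the realizer-free plain chain `TW.H659.Clean.s32Statement_clean659` (helper659), not from the
statement module `S32.lean` nor from `S32/OfS19.lean`: their closure contains
`S31/H982/TracePow.lean`, which collides (`powTr.eq_def`) with `S31/H22/PowTr.lean` of layer G4. -/
theorem s32_294 {p : ℕ} {N : ℕ} [NeZero N] {S : Finset ℕ}
    {𝒪 : Type} [CommRing 𝒪] [IsDomain 𝒪] [IsDiscreteValuationRing 𝒪]
    [IsAdicComplete (IsLocalRing.maximalIdeal 𝒪) 𝒪]
    {θ : CuspForm.heckeAlgebra N 2 (↑S : Set ℕ) →+* IsLocalRing.ResidueField 𝒪}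
    {T : Type} [CommRing T] [IsLocalRing T] [IsNoetherianRing T]
    [IsAdicComplete (IsLocalRing.maximalIdeal T) T] [Algebra 𝒪 T] [IsLocalHom (algebraMap 𝒪 T)]
    [Module.Finite 𝒪 T] [Module.Free 𝒪 T]
    [Finite (IsLocalRing.ResidueField 𝒪)] [CharZero 𝒪]
    (hp : p.Prime) (hp2 : p ≠ 2) (hp𝒪 : (p : 𝒪) ∈ IsLocalRing.maximalIdeal 𝒪) (hpN : ¬ p ∣ N)
    (hpS : p ∈ S) (hNS : ∀ q : ℕ, q.Prime → q ∣ N → q ∈ S)
    (H : CuspForm.HeckeGaloisRepDatum N (↑S : Set ℕ) 𝒪 θ T) :
    H.ρ.IsFlatAt p :=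
  Fermat.Agent.S59.TW.H659.Clean.s32Statement_clean659 hp hp2 hp𝒪 hpN hpS hNS H

/-- **ResFlat from the datum**: the core of the leaf, for any coefficient data as provided by
cell DICT. -/
theorem resFlat_of_dict294 (p : ℕ) [Fact p.Prime] (hp2 : p ≠ 2)
    (W : WeierstrassCurve ℤ) (hΔ : W.Δ ≠ 0) (hirr : W.ModRepIsIrreducible p)
    (hcard : Nat.card (Submodule.torsionBy ℤ
      ((W.map (Int.castRingHom ℚ))⁄(AlgebraicClosure ℚ)).Point p) = p ^ 2)
    (hker : GaloisFactorsThroughFiniteLevel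
      (WeierstrassCurve.Affine.Point.galoisRepModuleEnd (K := AlgebraicClosure ℚ) ℚ
        (W.map (Int.castRingHom ℚ)) p))
    (M : ℕ) [NeZero M] (hpM : ¬ p ∣ M) (S : Finset ℕ) (hpS : p ∈ S)
    (hNS : ∀ q : ℕ, q.Prime → q ∣ M → q ∈ S)
    (𝒪 : Type) [CommRing 𝒪] [IsDomain 𝒪] [IsDiscreteValuationRing 𝒪]
    [IsAdicComplete (maximalIdeal 𝒪) 𝒪] [Finite (ResidueField 𝒪)] [CharZero 𝒪]
    (hp𝒪 : (p : 𝒪) ∈ maximalIdeal 𝒪)
    (ι : ZMod p →+* ResidueField 𝒪)
    (χ : CuspForm.heckeAlgebra M 2 (↑S : Set ℕ) →+* 𝒪)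
    (hRF : G4.ResFrobCond (curveResidual p W hcard hker ι) ((residue 𝒪).comp χ)) :
    (GaloisRepAdic.ofResidualGaloisRep
      ((W.map (Int.castRingHom ℚ)).residualGaloisRepOf p hcard hker)).IsFlatAt p := by
  classical
  have hp : p.Prime := Fact.out
  -- the residual representation and its oddness
  set ρE : ResidualGaloisRep (ZMod p) :=
    (W.map (Int.castRingHom ℚ)).residualGaloisRepOf p hcard hker with hρE
  have hirrE : ρE.IsIrreducible := Fermat.Agent.S58.H273.wRes_isIrreducible W hΔ p hirr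
  have hdetE : LinearMap.det (ρE.ρ complexConjugation) = -1 :=
    Fermat.Agent.S58.H273.wRes_det_involution W hΔ p hp2 hirr _
      complexConjugation_mul_self
      Fermat.Agent.S59.G4.H307.complexConjugation_ne_one
  have h2p : (2 : ZMod p) ≠ 0 := Fermat.Agent.S58.H273.two_ne_zero_zmod p hp2
  set ρk : ResidualGaloisRep (ResidueField 𝒪) := curveResidual p W hcard hker ι with hρk
  have habs : ρk.IsAbsolutelyIrreducible :=
    absIrr_baseChangeAlong294 ι h2p ρE hirrE _
      complexConjugation_mul_self hdetE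
  have hirrk : ρk.IsIrreducible := Fermat.Agent.S59.G4.H307.isIrreducible_of_absIrr ρk habs
  have h2k : (2 : ResidueField 𝒪) ≠ 0 := by
    intro h
    apply h2p
    apply ι.injective
    rw [map_ofNat, h, map_zero]
  have hdetk : LinearMap.det (ρk.ρ complexConjugation) = -1 := by
    have h1 := det_baseChangeAlong294 ι ρE complexConjugation
    rw [hdetE, map_neg, map_one] at h1
    exact h1
  -- the datum
  have hθ : G4.NonEisenstein ((residue 𝒪).comp χ) := ⟨ρk, habs, hRF⟩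
  haveI : Fact (CuspForm.HasIntegralStructure M 2) :=
    ⟨Fermat.Agent.S23.Cap.hasIntegralStructure M 2⟩
  obtain ⟨H, -⟩ := g4_294 p hp2 M S hpS hNS 𝒪 hp𝒪 ((residue 𝒪).comp χ) hθ
  have hflat : H.ρ.IsFlatAt p := s32_294 hp hp2 hp𝒪 hpM hpS hNS H
  -- Brauer–Nesbitt
  obtain ⟨e⟩ := datum_residual_isEquiv294 Fermat.Agent.Lib.Cheb.chebotarev H h2k ρk hRF hirrk
    complexConjugation
    complexConjugation_mul_self hdetk
  -- the embedding
  obtain ⟨i1, hi1, hi1σ⟩ : ∃ i : ρE.V →+ ρk.V, Function.Injective i ∧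
      ∀ (σ : AlgebraicClosure ℚ ≃ₐ[ℚ] AlgebraicClosure ℚ) (v : ρE.V),
        i (ρE.ρ σ v) = ρk.ρ σ (i v) := exists_embedding_baseChangeAlong294 ι ρE
  obtain ⟨i2, hi2, hi2σ⟩ := exists_embedding_baseChangeAlong294
    (ResidueField.map (algebraMap 𝒪 (CuspForm.heckeLocal M (↑S : Set ℕ) 𝒪 ((residue 𝒪).comp χ))))
    ρk
  have hSub := Fermat.Agent.S59.H659.hopfSubquot_closed p
  refine isFlatAt_ofResidual_of_embedding294 hSub H.ρ hflat ρE
    ((e.symm.toLinearEquiv.toLinearMap.toAddMonoidHom.comp i2).comp i1) ?_ ?_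
  · exact (e.symm.toLinearEquiv.injective.comp hi2).comp hi1
  · intro σ v
    show e.symm.toLinearEquiv (i2 (i1 (ρE.ρ σ v)))
      = H.ρ.residual.ρ σ (e.symm.toLinearEquiv (i2 (i1 v)))
    rw [hi1σ, hi2σ, e.symm.map_apply]

/-- **ResFlat** (leaf of cell LO) from cell DICT. -/
theorem resFlat_of (hDict : DictStatement) : Fermat.Agent.S59.H934.ResFlatStatement := by
  intro p _ hp W hΔ hW hirr hcard hker M hM hres hpM
  have hpr : p.Prime := Fact.out
  have hp2 : p ≠ 2 := by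
    rcases hp with rfl | rfl <;> decide
  haveI : NeZero M := ⟨hM.ne_zero⟩
  have hpS : p ∈ insert p M.primeFactors := Finset.mem_insert_self _ _
  have hS : ∀ q ∈ insert p M.primeFactors, q.Prime := by
    intro q hq
    rcases Finset.mem_insert.mp hq with rfl | h
    · exact hpr
    · exact Nat.prime_of_mem_primeFactors h
  have hNS : ∀ q : ℕ, q.Prime → q ∣ M → q ∈ insert p M.primeFactors := fun q hq hqM =>
    Finset.mem_insert_of_mem (Nat.mem_primeFactors.mpr ⟨hq, hqM, hM.ne_zero⟩)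
  obtain ⟨𝒪, _, _, _, _, _, _, ι, χ, hp𝒪, -, hRF⟩ :=
    hDict p hp2 W hΔ hW hirr hcard hker M (insert p M.primeFactors) hpS hS hNS hres
  exact resFlat_of_dict294 p hp2 W hΔ hirr hcard hker M hpM (insert p M.primeFactors) hpS hNS
    𝒪 hp𝒪 ι χ hRF

end Fermat.Agent.S59.H294

end
-- ===== PACK-END S59/H294/ResFlat.lean

-- ===== PACK-BEGIN S59/NMP/H296/MaxUnrA.lean
section




/-!
# S59 / NMP-LGC, leaf MAXUNR, piece GR-LINK (helper296)

Local coordinates on the torsion `J₀(N)[ℓ^e]` at a good level, at a GIVEN valuation ring `V ∣ ℓ`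
(`ℓ ∤ N`), with the tracked clause in terms of the Prelude reduction map:

    reductionModL V N x = 0   ⟹   Ψ x i - Ψ 0 i ∈ 𝔪_V.

The `GoodRed` datum is `A3.H739.goodRedOfLeaves` for the place map `r` of `A3.H615.GrRed.redLeaf`;
on torsion classes the reduction map does not depend on the place map
(`S37.Core.reductionPic0Along_eq_of_nsmul_eq_zero`), so the kernel of `reductionModL` inside the
torsion is the kernel of reduction `𝓡.kerRed` of the datum.
-/

set_option autoImplicit false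
set_option synthInstance.maxHeartbeats 400000

noncomputable section

namespace Fermat.Agent.S59.NMP.H296

open ModularCurve AlgebraicCurve HahnSeries IsLocalRing
open Fermat.Agent.S19 (GalQ IsInertiaAt GoodLevel Tors torsAct LocalCoordDatum)
open Fermat.Agent.S19.H979 (torsSubgroup torsEquiv smul_mem_torsSubgroup rankOneStatement)
open Fermat.Agent.S37.Red (Qb FN kA FNk)
open Fermat.Agent.A3.H739

/-- On a torsion class, vanishing of the Prelude reduction map gives a divisor whose reduction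
(along ANY place reduction map `r`) is principal. -/
theorem exists_div_of_reductionModL_eq_zero_h296 {N : ℕ} [NeZero N] {V : ValuationSubring _root_.Fermat.Agent.S37.Red.Qb}
    (hin : ReductionInputsModL V N)
    (r : Place _root_.Fermat.Agent.S37.Red.Qb (FN N) → Place (kA V) (FNk V N)) (hr : IsPlaceReductionModL V N r)
    {m : ℕ} (hm : m ≠ 0) (x : JZero N) (hmx : m • x = 0) (hx : reductionModL V N x = 0) :
    ∃ D : Divisor.degZero (K := _root_.Fermat.Agent.S37.Red.Qb) (F := FN N), Pic0.mk D = x ∧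
      Finsupp.mapDomain r (D : Divisor _root_.Fermat.Agent.S37.Red.Qb (FN N)) ∈
        Divisor.principal (K := kA V) (F := FNk V N) := by
  have hgen : PrincipalGeneratedByIntegral V (residue V) N := hin.choose_spec.2
  have h1 : reductionPic0Along r hr hgen x = 0 := by
    have h2 : reductionModL V N x = reductionPic0Along hin.choose hin.choose_spec.1 hgen x := by
      show reductionAlong V (residue V) N x = _
      rw [reductionAlong_eq hin]
    rw [Fermat.Agent.S37.Core.reductionPic0Along_eq_of_nsmul_eq_zero hr hin.choose_spec.1 hgen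
      hm hmx, ← h2, hx]
  obtain ⟨D, rfl⟩ := Pic0.mk_surjective x
  refine ⟨D, rfl, ?_⟩
  rw [reductionPic0Along_mk] at h1
  have h3 := (QuotientAddGroup.eq_zero_iff _).1 h1
  rw [AddSubgroup.mem_addSubgroupOf, coe_reductionDegZeroAlong] at h3
  exact h3

/-- **GR-LINK, abstract form.**  Local coordinates on `J₀(N)[ℓ^e]` from ANY `GoodRed` datum of
`X₀(N)`, constant modulo `𝔪_V` on every set of classes of the kernel of reduction. -/
theorem localCoord_of_goodRed_h296 (N : ℕ) [NeZero N] (ℓ : ℕ) [Fact ℓ.Prime] (e : ℕ)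
    [hfin : Finite (Tors N ℓ e)] {k : Type} [Field k] [IsAlgClosed k] {Fk : Type} [Field Fk]
    [Algebra k Fk] (𝓡 : Fermat.Agent.A3.H799.GoodRed _root_.Fermat.Agent.S37.Red.Qb (FN N) k Fk)
    (hℓ : (ℓ : _root_.Fermat.Agent.S37.Red.Qb) ∈ 𝓡.V.nonunits)
    (hI : ∀ σ : GalQ, IsInertiaAt 𝓡.V σ →
      arithmeticGalois (modularFunctionFieldFull N) σ ∈ 𝓡.I)
    (K₀ : Set (Tors N ℓ e))
    (hK₀ : ∀ x ∈ K₀, ((x : Tors N ℓ e) : Pic0 _root_.Fermat.Agent.S37.Red.Qb (FN N)) ∈ 𝓡.kerRed) :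
    ∃ L : LocalCoordDatum ℓ (Tors N ℓ e) (torsAct N ℓ e), L.V = 𝓡.V ∧
      ∀ x ∈ K₀, ∀ i, L.Ψ x i - L.Ψ 0 i ∈ 𝓡.V.nonunits := by
  have hrank : ∀ a b : _root_.Fermat.Agent.S37.Red.Qb, a ∈ 𝓡.V.nonunits → b ≠ 0 → ∃ n : ℕ, a ^ n / b ∈ 𝓡.V :=
    rankOneStatement ℓ 𝓡.V hℓ
  haveI : Finite (torsSubgroup N ℓ e) := Finite.of_equiv _ (torsEquiv N ℓ e).toEquiv
  have hT : ∀ g ∈ 𝓡.I, ∀ x ∈ torsSubgroup N ℓ e, g • x ∈ torsSubgroup N ℓ e :=
    fun g _ x hx => smul_mem_torsSubgroup N ℓ e g x hx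
  obtain ⟨ι, hι, Ψ, hinj, hint, heq, hadd, hcl⟩ :=
    localPlus_h296 (K := _root_.Fermat.Agent.S37.Red.Qb) (F := FN N) (k := k) (Fk := Fk) 𝓡 hrank
      (torsSubgroup N ℓ e) hT
  refine ⟨{ V := 𝓡.V
            ell_mem := hℓ
            ι := ι
            fin := hι
            Ψ := fun m => Ψ (torsEquiv N ℓ e m)
            inj := fun m m' h => (torsEquiv N ℓ e).injective (hinj h)
            integral := fun m i => hint _ i
            equivariant := ?_
            add_mem := ?_ }, rfl, ?_⟩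
  · intro σ hσ m i
    exact heq (arithmeticGalois (modularFunctionFieldFull N) σ) (hI σ hσ) (torsEquiv N ℓ e m) i
  · intro i
    -- pull back along `torsEquiv × torsEquiv`
    let φ : (torsSubgroup N ℓ e × torsSubgroup N ℓ e → _root_.Fermat.Agent.S37.Red.Qb) →ₐ[𝓡.V]
        (Tors N ℓ e × Tors N ℓ e → _root_.Fermat.Agent.S37.Red.Qb) :=
      { toFun := fun G p => G (torsEquiv N ℓ e p.1, torsEquiv N ℓ e p.2)
        map_one' := rfl
        map_mul' := fun _ _ => rfl
        map_zero' := rfl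
        map_add' := fun _ _ => rfl
        commutes' := fun _ => rfl }
    have h1 := Subalgebra.mem_map.2 ⟨_, hadd i, (rfl : φ _ = φ _)⟩
    rw [AlgHom.map_adjoin] at h1
    have h2 : (fun p : Tors N ℓ e × Tors N ℓ e => Ψ (torsEquiv N ℓ e (p.1 + p.2)) i) =
        φ (fun p : torsSubgroup N ℓ e × torsSubgroup N ℓ e => Ψ (p.1 + p.2) i) := by
      funext p
      show Ψ (torsEquiv N ℓ e (p.1 + p.2)) i = Ψ (torsEquiv N ℓ e p.1 + torsEquiv N ℓ e p.2) i
      rw [map_add]
    rw [h2]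
    refine Algebra.adjoin_mono ?_ h1
    rintro _ ⟨g, (⟨j, rfl⟩ | ⟨j, rfl⟩), rfl⟩
    · exact Or.inl ⟨j, rfl⟩
    · exact Or.inr ⟨j, rfl⟩
  · intro x hx i
    have h0 := hcl (torsEquiv N ℓ e x) (hK₀ x hx) i
    rw [← map_zero (torsEquiv N ℓ e)] at h0
    exact h0

/-- The torsion hypothesis in `ℕ`-form. -/
theorem pow_nsmul_eq_zero_h296 (N ℓ e : ℕ) (x : Tors N ℓ e) :
    (ℓ ^ e) • (x : JZero N) = 0 := by
  have h := (Submodule.mem_torsionBy_iff _ _).1 x.2
  rw [← natCast_zsmul]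
  push_cast
  exact h

end Fermat.Agent.S59.NMP.H296

end
end
-- ===== PACK-END S59/NMP/H296/MaxUnrA.lean

-- ===== PACK-BEGIN S38/H47/NuGen.lean
section






/-!
# (NU) at a point, GENERIC form: any type `t`, any odd `p`, any base level, any family
(helper47)

`nuPt_gen` is the core of `IANu.iaNuPt` (leaf IA-NU of the cell HECKE of row HARD), stated in
EXPANDED vocabulary so that it applies to every variant of the specification (`t = .flat` or
`.sord`, `p = 3`, other base levels, other index types):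

* `qq : ι → ℕ` a finite family of distinct primes prime to `N₀`, `M = gLevel N₀ qq`,
  `K = KG p N₀ qq`, `h` half for the family (`IsHalfG p qq h`);
* `PQ : HeckePkg p 𝒪 ρ̄ t Smin Σ` a Hecke package of ANY type `t` and ANY `Σ ⊇ Smin`, whose level
  is `N' = gLevel N₀ qq · ∏ qq s` (`hlev`);
* `V ⊆ X_K(𝒪)` a localised part (`IsLocPart` for `TsetOf PQ` and ANY `Uset`), with an action
  `a` of `PQ.T` through `⟨ℓ⟩^h T_ℓ` (`ActsBy … (tOpTw … h)`);
* diamond indices `lift g ∈ ∏ (ℤ/qq s)ˣ` (`g : G`, ANY type) and scalars `χ g ∈ 𝒪`, with some `g₀`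
  supported at `s₀` (`lift g₀ s = 1` for `s ≠ s₀`) and `χ g₀ ≠ 1`;
* `P` a local `p`-adic point of `PQ.T` through the annihilator of `V` modulo the relations
  `⟨lift g⟩ y - χ g • y` (`g : G`, `y ∈ V`).

Then `ρ_P` is NOT unipotent on inertia at `qq s₀`.  No hypothesis `5 ≤ p`, no `.flat`.
-/

set_option autoImplicit false
set_option linter.unusedSectionVars false
set_option linter.unusedVariables false
set_option linter.style.haveILetI false

open Polynomial IsLocalRing CongruenceSubgroup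
open scoped MatrixGroups

namespace Fermat.Agent.S38.H47

open Fermat.Agent.S59.Arch Fermat.Agent.S59.TW.H959 Fermat.Agent.S59.TW Fermat.Agent.S59.H765
open Fermat.Agent.S59.TW.H653 Fermat.Agent.S59.TW.Aut Fermat.Agent.S59.TW.H658
open Fermat.Agent.S38.IA Fermat.Agent.S38.IA.Hecke
open CuspForm

/-- A ring homomorphism from a discrete valuation ring of residue characteristic `p` to a domain
of characteristic `0` is injective. -/
theorem injective_of_dvr_gen_h47 {A R : Type*} [CommRing A] [IsDomain A]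
    [IsDiscreteValuationRing A] [CommRing R] [IsDomain R] [CharZero R] {p : ℕ} (hp0 : p ≠ 0)
    (hp : (p : A) ∈ maximalIdeal A) (f : A →+* R) : Function.Injective f := by
  rw [RingHom.injective_iff_ker_eq_bot]
  by_contra hne
  have hprime : (RingHom.ker f).IsPrime := RingHom.ker_isPrime f
  have hmax : (RingHom.ker f).IsMaximal := hprime.isMaximal hne
  have h1 : RingHom.ker f = maximalIdeal A := IsLocalRing.eq_maximalIdeal hmax
  have hpk : (p : A) ∈ RingHom.ker f := h1 ▸ hp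
  rw [RingHom.mem_ker, map_natCast] at hpk
  exact hp0 (Nat.cast_eq_zero.mp hpk)

/-- `v_{qq s₀}(N₀ ∏ qq s²) = 2`. -/
theorem factorization_gLevel_mul_prod {N₀ : ℕ} {ι : Type} [Fintype ι] (qq : ι → ℕ)
    (hN₀ : N₀ ≠ 0) (hinj : Function.Injective qq) (hprime : ∀ s, (qq s).Prime)
    (hcop : ∀ s, Nat.Coprime N₀ (qq s)) (s₀ : ι) :
    (gLevel N₀ qq * ∏ s, qq s).factorization (qq s₀) = 2 := by
  classical
  have hP0 : (∏ s, qq s) ≠ 0 := Finset.prod_ne_zero_iff.mpr fun s _ => (hprime s).ne_zero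
  have e : gLevel N₀ qq * ∏ s, qq s = N₀ * ∏ s, (qq s) ^ 2 := by
    rw [gLevel, Finset.prod_pow]
    ring
  rw [e]
  have hP2 : (∏ s, (qq s) ^ 2) ≠ 0 :=
    Finset.prod_ne_zero_iff.mpr fun s _ => pow_ne_zero _ (hprime s).ne_zero
  rw [Nat.factorization_mul hN₀ hP2, Finsupp.add_apply]
  have h0 : N₀.factorization (qq s₀) = 0 := by
    rw [Nat.factorization_eq_zero_iff]
    right; left
    exact fun hd => (Nat.Prime.coprime_iff_not_dvd (hprime s₀)).mp (hcop s₀).symm hd
  rw [h0, zero_add, Nat.factorization_prod (fun s _ => pow_ne_zero _ (hprime s).ne_zero),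
    Finset.sum_apply']
  rw [Finset.sum_eq_single s₀]
  · rw [Nat.factorization_pow, Finsupp.smul_apply, (hprime s₀).factorization_self, smul_eq_mul,
      mul_one]
  · intro s _ hs
    rw [Nat.factorization_pow, Finsupp.smul_apply, smul_eq_mul, mul_eq_zero]
    right
    rw [Nat.factorization_eq_zero_iff]
    right; left
    intro hd
    exact hs (hinj ((Nat.prime_dvd_prime_iff_eq (hprime s₀) (hprime s)).mp hd).symm)
  · intro h
    exact absurd (Finset.mem_univ _) h

section Gen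

variable {p : ℕ} [hpF : Fact p.Prime]
  {𝒪 : Type} [CommRing 𝒪] [IsDomain 𝒪] [IsDiscreteValuationRing 𝒪]
  [IsAdicComplete (maximalIdeal 𝒪) 𝒪] [Finite (ResidueField 𝒪)] [CharZero 𝒪]
  {ρbar : ResidualGaloisRep (ResidueField 𝒪)} {Smin : Finset ℕ}

/-- **(NU) at a point, generic form.** -/
theorem nuPt_gen (h36 : Fermat.Agent.S58.S36Statement)
    (hR : ResidualHyp p 𝒪 ρbar Smin) (t : PType) {Sig : Finset ℕ} (hsub : Smin ⊆ Sig)
    (hSigP : ∀ q ∈ Sig, q.Prime) [NeZero (wilesLevel p t Smin Sig)]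
    (PQ : HeckePkg p 𝒪 ρbar t Smin Sig)
    (N₀ : ℕ) {ι : Type} [Fintype ι] (qq : ι → ℕ)
    (hN₀ : N₀ ≠ 0) (hinj : Function.Injective qq) (hprime : ∀ s, (qq s).Prime)
    (hcop : ∀ s, Nat.Coprime N₀ (qq s))
    (hlev : gLevel N₀ qq * ∏ s, qq s = wilesLevel p t Smin Sig)
    {h : ℕ} (hh : IsHalfG p qq h)
    {Uset : Set (ℕ × 𝒪)} {V : Submodule 𝒪 (Additive (KG p N₀ qq) →+ 𝒪)}
    (hV : IsLocPart (isMid_KG p N₀ qq) (TsetOf PQ) Uset V)
    (a : PQ.T →ₐ[𝒪] Module.End 𝒪 V)
    (ha : ActsBy PQ V a (tOpTw (isMid_KG p N₀ qq) 𝒪 h))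
    {G : Type} (lift : G → ∀ s : ι, (ZMod (qq s))ˣ) (χ : G → 𝒪)
    (s₀ : ι) (hs₀ : qq s₀ ≠ p) (g₀ : G) (hχ : χ g₀ ≠ 1)
    (hg₀ : ∀ s, lift g₀ s ≠ 1 → s = s₀)
    (P : Fermat.Agent.S31.PadicPoint p PQ.T) (hP : IsLocalHom P.χ)
    (hthrough : ∀ t' : PQ.T,
      (∀ v : V, ((a t' v : V) : Additive (KG p N₀ qq) →+ 𝒪) ∈
        Submodule.span 𝒪 {w | ∃ (g : G) (y : Additive (KG p N₀ qq) →+ 𝒪), y ∈ V ∧
          w = diamondU (isMid_KG p N₀ qq) (gLift N₀ qq (lift g)) y - χ g • y}) →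
      P.χ t' = 0) :
    ¬ (PQ.H.ρ.baseChangeAlong P.χ hP).IsUnipotentOnInertiaAt (qq s₀) := by
  classical
  have hMne : gLevel N₀ qq ≠ 0 := gLevel_ne_zero N₀ qq hN₀ hprime
  haveI : NeZero (gLevel N₀ qq) := ⟨hMne⟩
  have hsurj : Function.Surjective (gRed N₀ qq) := gRed_surjective N₀ qq hN₀ hinj hprime
  have hK : IsMid (gLevel N₀ qq) (KG p N₀ qq) := isMid_KG p N₀ qq
  haveI : (KG p N₀ qq).FiniteIndex :=
    Fermat.Agent.S59.TW.H564.finiteIndex_of_Gamma1_le (M := gLevel N₀ qq) hK.ge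
  have hH : TwistHyp (KG p N₀ qq) (wilesLevel p t Smin Sig)
      (fun ℓ => uOf (gLevel N₀ qq) ℓ ^ h) :=
    twistHyp_KG p N₀ qq hinj hprime hcop hh (dvd_of_eq hlev)
  have hsig : ∀ q : ℕ, q.Prime → q ∣ wilesLevel p t Smin Sig → q ∈ (↑Sig : Set ℕ) :=
    fun q hq hd => Finset.mem_coe.mpr
      (_root_.Fermat.Agent.S59.Arch.mem_of_prime_dvd_wilesLevel hpF.out hR.hSmin hSigP hR.hpSmin hsub q hq hd)
  -- the nice lifts of the diamond indices
  choose dv hdv hdv1 using fun g : G => exists_niceLift N₀ qq hN₀ hinj hprime hcop (lift g)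
  have hdia : ∀ (g : G) (y : Additive (KG p N₀ qq) →+ 𝒪),
      diamondU hK (dv g) y = diamondU hK (gLift N₀ qq (lift g)) y := fun g y =>
    diamondU_eq_gLift p N₀ qq hsurj (hdv g) y
  -- parabolic classes
  have hpar : ∀ v ∈ V, ModularCurve.Period.IsParabolicHom (KG p N₀ qq) v :=
    Fermat.Agent.S59.TW.H324.isLocPart_parabolic_of_pkg p 𝒪 ρbar Smin hR t Sig hsub hSigP PQ
      hMne hK hV
  have hVd : ∀ (g : G), ∀ v ∈ V, diamondU hK (dv g) v ∈ V := by
    intro g v hv
    obtain ⟨e, -, he2, he3, -, -, heD, -⟩ := IsLocPart.exists_proj hV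
    have h1 := heD (dv g) v
    rw [he3 v hv] at h1
    rw [← h1]
    exact he2 _
  -- the point as an `𝒪`-algebra homomorphism
  letI : Algebra 𝒪 P.O := (P.χ.comp (algebraMap 𝒪 PQ.T)).toAlgebra
  let x : PQ.T →ₐ[𝒪] P.O := { P.χ with commutes' := fun _ => rfl }
  have hxinj : Function.Injective (algebraMap 𝒪 P.O) :=
    injective_of_dvr_gen_h47 hpF.out.ne_zero hR.hp𝒪 _
  -- SUPP-REL
  have hle : Fermat.Agent.S38.H227.chiRel hK dv χ V ≤
      Submodule.span 𝒪 {w | ∃ (g : G) (y : Additive (KG p N₀ qq) →+ 𝒪), y ∈ V ∧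
          w = diamondU (isMid_KG p N₀ qq) (gLift N₀ qq (lift g)) y - χ g • y} := by
    unfold Fermat.Agent.S38.H227.chiRel
    refine Submodule.span_le.mpr ?_
    rintro w ⟨g, y, hy, rfl⟩
    refine Submodule.subset_span ⟨g, y, hy, ?_⟩
    rw [hdia g y]
  have hrel := Fermat.Agent.S38.H227.suppRel hK hH.dvd
    (fun ℓ => uOf (gLevel N₀ qq) ℓ ^ h) (↑Sig : Set ℕ) dv χ V hpar hVd
    a (fun i => PQ.H.π (CuspForm.heckeAlgebra.T i.2.1 i.2.2.1 i.2.2.2))
    (fun i v => ha i.1 i.2.1 i.2.2.1 i.2.2.2 v) x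
    (fun t' ht => hthrough t' (fun v => hle (ht v)))
  have hε : algebraMap 𝒪 P.O (χ g₀) ≠ 1 := by
    intro h1
    apply hχ
    apply hxinj
    rw [h1, map_one]
  have hNM : ∀ r' : ℕ, r'.Prime → r' ∣ wilesLevel p t Smin Sig → r' ∣ gLevel N₀ qq := by
    intro r' hr hrN
    rw [← hlev] at hrN
    rcases (Nat.Prime.dvd_mul hr).mp hrN with h1 | h1
    · exact h1
    · obtain ⟨s, -, hs⟩ := (Prime.dvd_finsetProd_iff hr.prime _).mp h1
      exact hs.trans (dvd_gLevel _ _ s)
  have hdvq : ∀ q : ℕ, q.Prime → q ∣ gLevel N₀ qq → q ≠ qq s₀ →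
      (((((dv g₀ : (ZMod (gLevel N₀ qq))ˣ) : ZMod (gLevel N₀ qq)).val : ℕ) : ℤ) : ZMod q) = 1 := by
    intro q hqP hqM hqne
    refine cast_niceLift_of_prime N₀ qq hprime (hdv g₀) (hdv1 g₀) hqP hqM ?_
    intro s hne hqs
    rw [hg₀ s hne] at hqs
    exact hqne hqs
  have hvfac : (wilesLevel p t Smin Sig).factorization (qq s₀) = 2 := by
    rw [← hlev]
    exact factorization_gLevel_mul_prod qq hN₀ hinj hprime hcop s₀
  -- the dictionary
  obtain ⟨chiF, j, M₁, hM₁, g, hj, hg, hM₁N, hM₁v, hgF⟩ :=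
    Fermat.Agent.S38.H227.nuNew hK hH (↑Sig : Set ℕ) hsig hNM dv
      (P.χ.comp PQ.H.π) (fun g => algebraMap 𝒪 P.O (χ g)) hrel hvfac g₀ hε hdvq
  haveI := hM₁
  have hNS : ∀ q : ℕ, q.Prime → q ∣ wilesLevel p t Smin Sig → q ∈ Sig := fun q hqP hqd =>
    Finset.mem_coe.mp (hsig q hqP hqd)
  exact not_isUnipotentOnInertiaAt_of_char h36 PQ.H p hR.hp2 (hsub hR.hpSmin) hNS P.hp P.χ hP
    chiF j hj hg (fun q hqP hqd => hNS q hqP (hqd.trans hM₁N)) hgF (hprime s₀) hs₀ hM₁v

end Gen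

end Fermat.Agent.S38.H47

end
-- ===== PACK-END S38/H47/NuGen.lean

-- ===== PACK-BEGIN S38/H47/NuGenIA.lean
section



/-!
# (NU) at a point for the combined family (pivots, Taylor–Wiles primes), ANY type `t`, ANY odd `p`
(helper47)

* `nuPt_IA_t` : the instance of `nuPt_gen` at `qq = Sum.elim pv qv`, `N₀ = wilesLevel p t Smin Smin`,
  `Σ = Smin ∪ Piv ∪ Q`, in EXPANDED vocabulary (`KG p N₀ (Sum.elim pv qv)`,
  `diamondU (isMid_KG …) (gLift … (pairU a₁ 1))`): the `t`-twin of `H473.IANuPtAt`, without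
  `5 ≤ p` and without `.flat`.
* `iaNuPt_of_gen` : for `t = .flat` it is `H473.IANuPtStatement` (second proof of
  `IANu.iaNuPt`; shows that the expanded vocabulary matches `Spec3` definitionally).
-/

set_option autoImplicit false
set_option linter.unusedSectionVars false
set_option linter.unusedVariables false
set_option linter.style.haveILetI false

open Polynomial IsLocalRing CongruenceSubgroup
open scoped MatrixGroups

namespace Fermat.Agent.S38.H47

open Fermat.Agent.S59.Arch Fermat.Agent.S59.TW.H959 Fermat.Agent.S59.TW Fermat.Agent.S59.H765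
open Fermat.Agent.S59.TW.H653 Fermat.Agent.S59.TW.Aut Fermat.Agent.S59.TW.H658
open Fermat.Agent.S38.IA Fermat.Agent.S38.IA.Hecke
open CuspForm

section IAt

variable {p : ℕ} [hpF : Fact p.Prime]
  {𝒪 : Type} [CommRing 𝒪] [IsDomain 𝒪] [IsDiscreteValuationRing 𝒪]
  [IsAdicComplete (maximalIdeal 𝒪) 𝒪] [Finite (ResidueField 𝒪)] [CharZero 𝒪]
  {ρbar : ResidualGaloisRep (ResidueField 𝒪)} {Smin : Finset ℕ}

/-- **(NU) at a point for the combined family, any type `t`, any odd `p`.** -/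
theorem nuPt_IA_t (h36 : Fermat.Agent.S58.S36Statement)
    (hR : ResidualHyp p 𝒪 ρbar Smin) (t : PType)
    {Piv : Finset ℕ} (hPiv : IsPivotSet p ρbar Smin Piv)
    {k : ℕ} {pv : Fin k → ℕ} (hpv : Function.Injective pv)
    (hpvPiv : Finset.univ.image pv = Piv)
    {n r : ℕ} {qv : Fin r → ℕ} (hq : IsTWSet p ρbar (Smin ∪ Piv) n qv)
    [NeZero (wilesLevel p t Smin (Smin ∪ Piv ∪ Finset.univ.image qv))]
    (PQ : HeckePkg p 𝒪 ρbar t Smin (Smin ∪ Piv ∪ Finset.univ.image qv))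
    {Uset : Set (ℕ × 𝒪)}
    {V : Submodule 𝒪 (Additive (KG p (wilesLevel p t Smin Smin) (Sum.elim pv qv)) →+ 𝒪)}
    (hV : IsLocPart (isMid_KG p (wilesLevel p t Smin Smin) (Sum.elim pv qv)) (TsetOf PQ) Uset V)
    {h : ℕ} (hh₁ : IsHalf p pv h) (hh₂ : IsHalf p qv h)
    (a : PQ.T →ₐ[𝒪] Module.End 𝒪 V)
    (ha : ActsBy PQ V a (tOpTw (isMid_KG p (wilesLevel p t Smin Smin) (Sum.elim pv qv)) 𝒪 h))
    (χ : (∀ i : Fin k, (ZMod (pv i))ˣ) →* 𝒪) (hχ : ∀ i : Fin k, ∃ u, χ (Pi.mulSingle i u) ≠ 1)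
    (P : Fermat.Agent.S31.PadicPoint p PQ.T) (hP : IsLocalHom P.χ)
    (hthrough : ∀ t' : PQ.T,
      (∀ v : V, ((a t' v : V) :
          Additive (KG p (wilesLevel p t Smin Smin) (Sum.elim pv qv)) →+ 𝒪) ∈
        Submodule.span 𝒪 {w | ∃ (a₁ : ∀ i : Fin k, (ZMod (pv i))ˣ)
            (y : Additive (KG p (wilesLevel p t Smin Smin) (Sum.elim pv qv)) →+ 𝒪), y ∈ V ∧
          w = diamondU (isMid_KG p (wilesLevel p t Smin Smin) (Sum.elim pv qv))
              (gLift (wilesLevel p t Smin Smin) (Sum.elim pv qv)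
                (pairU a₁ (1 : ∀ j : Fin r, (ZMod (qv j))ˣ))) y - χ a₁ • y}) →
      P.χ t' = 0) :
    ∀ q ∈ Piv, ¬ (PQ.H.ρ.baseChangeAlong P.χ hP).IsUnipotentOnInertiaAt q := by
  classical
  subst hpvPiv
  intro q hqPiv
  obtain ⟨i, -, rfl⟩ := Finset.mem_image.mp hqPiv
  have hpvMem : ∀ i, pv i ∈ Finset.univ.image pv := fun i =>
    Finset.mem_image_of_mem pv (Finset.mem_univ i)
  have hpvP : ∀ i, (pv i).Prime := fun i => (hPiv (pv i) (hpvMem i)).1
  have hqvP : ∀ j, (qv j).Prime := fun j => (hq.2.1 j).1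
  have hpvS : ∀ i, pv i ∉ Smin := fun i => (hPiv (pv i) (hpvMem i)).2.1
  have hqvS : ∀ j, qv j ∉ Smin := fun j hj => (hq.2.1 j).2.1 (Finset.mem_union_left _ hj)
  have hdisj : ∀ i j, pv i ≠ qv j := fun i j hij =>
    (hq.2.1 j).2.1 (Finset.mem_union_right _ (hij ▸ hpvMem i))
  have hinj : Function.Injective (Sum.elim pv qv) := elim_injective pv qv hpv hq.1 hdisj
  have hprime : ∀ s, (Sum.elim pv qv s).Prime := by
    rintro (i | j)
    · exact hpvP i
    · exact hqvP j
  have hN₀ : wilesLevel p t Smin Smin ≠ 0 := wilesLevel_ne_zero hpF.out hR.hSmin hR.hSmin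
  have hcop : ∀ s, Nat.Coprime (wilesLevel p t Smin Smin) (Sum.elim pv qv s) := by
    rintro (i | j)
    · exact coprime_wilesLevel p t Smin hR.hpSmin hR.hSmin (hpvP i) (hpvS i)
    · exact coprime_wilesLevel p t Smin hR.hpSmin hR.hSmin (hqvP j) (hqvS j)
  have hsub : Smin ⊆ Smin ∪ Finset.univ.image pv ∪ Finset.univ.image qv :=
    Finset.subset_union_left.trans Finset.subset_union_left
  have hSigP : ∀ q ∈ Smin ∪ Finset.univ.image pv ∪ Finset.univ.image qv, q.Prime := by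
    intro q hq'
    rcases Finset.mem_union.mp hq' with h' | h'
    · rcases Finset.mem_union.mp h' with h'' | h''
      · exact hR.hSmin q h''
      · exact (hPiv q h'').1
    · obtain ⟨j, -, rfl⟩ := Finset.mem_image.mp h'
      exact hqvP j
  obtain ⟨u₀, hu₀⟩ := hχ i
  refine nuPt_gen h36 hR t hsub hSigP PQ (wilesLevel p t Smin Smin) (Sum.elim pv qv) hN₀ hinj
    hprime hcop (gLevel_mul_prod_IA p Smin pv qv t hpv hq.1 hdisj hpvS hqvS)
    (isHalfG_elim p pv qv hh₁ hh₂) hV a ha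
    (fun a₁ : (∀ i : Fin k, (ZMod (pv i))ˣ) => pairU a₁ (1 : ∀ j : Fin r, (ZMod (qv j))ˣ))
    (fun a₁ => χ a₁) (Sum.inl i) (fun hqp : pv i = p => hpvS i (hqp ▸ hR.hpSmin)) (Pi.mulSingle i u₀) hu₀ ?_
    P hP hthrough
  rintro (i' | j) hne
  · by_cases hii : i' = i
    · rw [hii]
    · exfalso
      apply hne
      show (Pi.mulSingle i u₀ : ∀ i : Fin k, (ZMod (pv i))ˣ) i' = 1
      exact Pi.mulSingle_eq_of_ne (M := fun i => (ZMod (pv i))ˣ) hii u₀
  · exact absurd rfl hne

end IAt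

/-- **IA-NU, pointwise** (`t = .flat`), as an instance of the generic form. -/
theorem iaNuPt_of_gen (h36 : Fermat.Agent.S58.S36Statement) :
    Fermat.Agent.S38.H473.IANuPtStatement := by
  intro p hpF hp5 𝒪 _ _ _ _ _ _ ρbar Smin hR hflat Piv hPiv k pv hpv hpvPiv n r qv hq hNQ PQ α hα
    V h a hV hhalf₁ hhalf₂ ha χ hχ P hP hthrough
  exact nuPt_IA_t h36 hR .flat hPiv hpv hpvPiv hq PQ hV hhalf₁ hhalf₂ a ha χ hχ.2 P hP hthrough

end Fermat.Agent.S38.H47

end
-- ===== PACK-END S38/H47/NuGenIA.lean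

-- ===== PACK-BEGIN S38T/H473/PtGlueGen.lean
section



/-!
# Row S59 (B2), HECKE-T, leaves IA-NU / IA-ST: from points to the module, ANY type  (helper473)

The `ty`-generic twin of the glue of row HARD (`S38/H473/PtGlue.lean`), against the frozen
HECKE-T specs of helper3 (`S38T/IA/Hecke/Spec3.lean`, `S38T/H473/PtSpec.lean`):

* `iaNu_of_pt_T473 : IAFreeStatement_T → IANuPtStatement_T → IANuStatement_T`,
* `iaSt_of_pt_T473 : IAFreeStatement_T → IAStPtStatement_T → IAStStatement_T`   (VERBATIM).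

Proof: the generic KILL of `S38/H473/KillGen.lean`, `KillT.lean` (any type, any base level); the
objects `XIA_T`, `diaIA_T`, `chiRelIA_T`, `IAFreeAt_T`, `IANuPtAt_T`, ... of the frozen specs are
the generic objects `XG`, `diaG`, `chiRelG`, `FreeAtG`, `NuPtAtG`, ... at
`N₀ = wilesLevel p ty Smin Smin` by `rfl`.  No twin of `GlueB1/B2/B3` is needed.
-/

set_option autoImplicit false
set_option linter.unusedSectionVars false

open Polynomial IsLocalRing CongruenceSubgroup
open scoped MatrixGroups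

namespace Fermat.Agent.S38.H473.Gen

open Fermat.Agent.S59.Arch Fermat.Agent.S59.TW.H959 Fermat.Agent.S59.TW Fermat.Agent.S59.H765
open Fermat.Agent.S59.TW.H653 Fermat.Agent.S59.TW.Aut
open Fermat.Agent.S38.IA Fermat.Agent.S38.IA.Hecke
open Fermat.Agent.S38.H473
open CuspForm

section Rfl

variable (p : ℕ) (ty : PType) (Smin : Finset ℕ) {k r : ℕ} (pv : Fin k → ℕ) (qv : Fin r → ℕ)
  (𝒪 : Type) [CommRing 𝒪]

theorem diaIA_T_eq_diaG (a₁ : ∀ i : Fin k, (ZMod (pv i))ˣ) (a₂ : ∀ j : Fin r, (ZMod (qv j))ˣ)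
    (x : XIA_T p ty Smin pv qv 𝒪) :
    diaIA_T p ty Smin pv qv 𝒪 a₁ a₂ x = diaG p (wilesLevel p ty Smin Smin) pv qv 𝒪 a₁ a₂ x :=
  rfl

theorem chiRelIA_T_eq_chiRelG (χ : (∀ i : Fin k, (ZMod (pv i))ˣ) →* 𝒪)
    (V : Submodule 𝒪 (XIA_T p ty Smin pv qv 𝒪)) :
    chiRelIA_T p ty Smin pv qv χ V = chiRelG p (wilesLevel p ty Smin Smin) pv qv χ V := rfl

theorem iaFreeAt_T_iff_freeAtG (V : Submodule 𝒪 (XIA_T p ty Smin pv qv 𝒪)) (d : ℕ) :
    IAFreeAt_T V d ↔ FreeAtG p (wilesLevel p ty Smin Smin) pv qv V d := Iff.rfl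

end Rfl

/-- **IA-NU from its pointwise form, any type** (with IA-FREE). -/
theorem iaNu_of_pt_T473 (hFree : IAFreeStatement_T) (hPt : IANuPtStatement_T) :
    IANuStatement_T := by
  intro p hpF hp3 𝒪 _ _ _ _ _ _ ρbar Smin h ty hty Piv hPiv k pv hpv hpvPiv n r qv hq hNQ PQ α hα
    V hh a hV hhalf₁ hhalf₂ ha
  obtain ⟨d, hfree⟩ := hFree p hp3 𝒪 ρbar Smin h ty hty Piv hPiv k pv hpv hpvPiv
    n r qv hq PQ α hα V hV
  have hpt := hPt p hp3 𝒪 ρbar Smin h ty hty Piv hPiv k pv hpv hpvPiv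
    n r qv hq PQ α hα V hh a hV hhalf₁ hhalf₂ ha
  exact nuT_of_pt p 𝒪 ρbar Smin h ty Piv hPiv k pv hpv hpvPiv n r qv hq PQ
    (TsetOf PQ) (UsetOf qv α) V hh a hV ha d hfree hpt

/-- **IA-ST from its pointwise form, any type** (with IA-FREE). -/
theorem iaSt_of_pt_T473 (hFree : IAFreeStatement_T) (hPt : IAStPtStatement_T) :
    IAStStatement_T := by
  intro p hpF hp3 𝒪 _ _ _ _ _ _ ρbar Smin h ty hty Piv hPiv hmin k pv hpv hpvPiv n r qv hq hNQ
    PQ α hα V hh a hV hhalf₁ hhalf₂ ha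
  obtain ⟨d, hfree⟩ := hFree p hp3 𝒪 ρbar Smin h ty hty Piv hPiv k pv hpv hpvPiv
    n r qv hq PQ α hα V hV
  have hpt := hPt p hp3 𝒪 ρbar Smin h ty hty Piv hPiv hmin k pv hpv hpvPiv
    n r qv hq PQ α hα V hh a hV hhalf₁ hhalf₂ ha
  exact stT_of_pt p 𝒪 ρbar Smin h ty Piv hPiv k pv hpv hpvPiv n r qv hq PQ
    (TsetOf PQ) (UsetOf qv α) V hh a hV ha d hfree hpt

end Fermat.Agent.S38.H473.Gen

end
-- ===== PACK-END S38T/H473/PtGlueGen.lean

-- ===== PACK-BEGIN S38T/H47/IANu.lean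
section




/-!
# S59 (B2), cell HECKE-T, leaf IA-NU at the frozen `t`-generic specs  (helper47)

* `iaNuPt_T : S58.S36Statement → H473.IANuPtStatement_T` : the point-level form of IA-NU for
  every type `ty : PType` and every odd `p` (`S38T/H473/PtSpec.lean`), VERBATIM;
* `iaNu_T : S58.S36Statement → IAFreeStatement_T → IANuStatement_T` : the leaf IA-NU of
  `S38T/IA/Hecke/Spec3.lean`, VERBATIM (kill glue: helper473 `iaNu_of_pt_T473`).

Both are instances of the generic theorem `nuPt_gen` (`S38/H47/NuGen.lean`): no `5 ≤ p`, no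
`.flat`.
-/

set_option autoImplicit false
set_option linter.unusedVariables false

open Polynomial IsLocalRing CongruenceSubgroup
open scoped MatrixGroups

namespace Fermat.Agent.S38.H47

open Fermat.Agent.S59.Arch Fermat.Agent.S59.TW.H959 Fermat.Agent.S59.TW Fermat.Agent.S59.H765
open Fermat.Agent.S59.TW.H653 Fermat.Agent.S59.TW.Aut
open Fermat.Agent.S38.IA Fermat.Agent.S38.IA.Hecke

/-- **IA-NU, pointwise, for every type `ty` and every odd `p`**, from the frozen S36. -/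
theorem iaNuPt_T (h36 : Fermat.Agent.S58.S36Statement) :
    Fermat.Agent.S38.H473.IANuPtStatement_T := by
  intro p hpF hp3 𝒪 _ _ _ _ _ _ ρbar Smin hR ty hty Piv hPiv k pv hpv hpvPiv n r qv hq hNQ PQ α hα
    V h a hV hhalf₁ hhalf₂ ha χ hχ P hP hthrough
  exact nuPt_IA_t h36 hR ty hPiv hpv hpvPiv hq PQ hV hhalf₁ hhalf₂ a ha χ hχ.2 P hP hthrough

/-- **IA-NU for every type `ty` and every odd `p`**, from the frozen S36 and IA-FREE. -/
theorem iaNu_T (h36 : Fermat.Agent.S58.S36Statement) (hFree : IAFreeStatement_T) :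
    IANuStatement_T :=
  Fermat.Agent.S38.H473.Gen.iaNu_of_pt_T473 hFree (iaNuPt_T h36)

end Fermat.Agent.S38.H47

end
-- ===== PACK-END S38T/H47/IANu.lean

-- ===== PACK-BEGIN S38T/H473/PtAdaptGen.lean
section



/-!
# Row S59 (B2), HECKE-T, leaves IA-NU / IA-ST: adapter to the point-level Props of helper953,
# ANY type  (helper473)

The `ty`-generic twin of `S38/H473/PtAdapt.lean`, against the frozen HECKE-T specs of helper3
(`S38T/H953/NuPtSpec.lean`):

    iaNuPt_of_953_T473 : H953.IANuPtStatement953_T → IANuPtStatement_T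
    iaStPt_of_953_T473 : H953.IAStPtStatement953_T → IAStPtStatement_T
    iaNu_of_pt953_T473 : IAFreeStatement_T → H953.IANuPtStatement953_T → IANuStatement_T
    iaSt_of_pt953_T473 : IAFreeStatement_T → H953.IAStPtStatement953_T → IAStStatement_T.
-/

set_option autoImplicit false
set_option linter.style.haveILetI false
set_option linter.unusedSectionVars false

open Polynomial IsLocalRing CongruenceSubgroup
open scoped MatrixGroups

namespace Fermat.Agent.S38.H473.Gen

open Fermat.Agent.S59.Arch Fermat.Agent.S59.TW.H959 Fermat.Agent.S59.TW Fermat.Agent.S59.H765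
open Fermat.Agent.S59.TW.H653 Fermat.Agent.S59.TW.Aut
open Fermat.Agent.S38.IA Fermat.Agent.S38.IA.Hecke
open Fermat.Agent.S38.H473
open CuspForm

section At

variable {p : ℕ} {ty : PType}
  {𝒪 : Type} [CommRing 𝒪] [IsDomain 𝒪] [IsDiscreteValuationRing 𝒪]
  [IsAdicComplete (maximalIdeal 𝒪) 𝒪]
  {ρbar : ResidualGaloisRep (ResidueField 𝒪)} {Smin : Finset ℕ}
  {Piv : Finset ℕ} {k r : ℕ} {pv : Fin k → ℕ} {qv : Fin r → ℕ}
  [NeZero (wilesLevel p ty Smin (Smin ∪ Piv ∪ Finset.univ.image qv))]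
  {PQ : HeckePkg p 𝒪 ρbar ty Smin (Smin ∪ Piv ∪ Finset.univ.image qv)}
  {V : Submodule 𝒪 (XIA_T p ty Smin pv qv 𝒪)} {a : PQ.T →ₐ[𝒪] Module.End 𝒪 V}

theorem iaNuPtAt_of_953_T473 (h : Fermat.Agent.S38.H953.IANuPtAt953_T PQ V a) :
    IANuPtAt_T PQ V a := by
  intro χ hχ P hP hthrough
  letI : Algebra 𝒪 P.O := (P.χ.comp (algebraMap 𝒪 PQ.T)).toAlgebra
  let x : PQ.T →ₐ[𝒪] P.O := { P.χ with commutes' := fun _ => rfl }
  exact h χ hχ P.O x hP P.hp hthrough

theorem iaStPtAt_of_953_T473 (h : Fermat.Agent.S38.H953.IAStPtAt953_T PQ V a) :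
    IAStPtAt_T PQ V a := by
  intro P hP hthrough
  letI : Algebra 𝒪 P.O := (P.χ.comp (algebraMap 𝒪 PQ.T)).toAlgebra
  let x : PQ.T →ₐ[𝒪] P.O := { P.χ with commutes' := fun _ => rfl }
  exact h P.O x hP P.hp hthrough

end At

theorem iaNuPt_of_953_T473 (h : Fermat.Agent.S38.H953.IANuPtStatement953_T) :
    IANuPtStatement_T :=
  fun p _ hp3 𝒪 _ _ _ _ _ _ ρbar Smin hh ty hty Piv hPiv k pv hpv hpvPiv n r qv hq _ PQ α hα V
      h' a hV h₁ h₂ ha =>
    iaNuPtAt_of_953_T473 (h p hp3 𝒪 ρbar Smin hh ty hty Piv hPiv k pv hpv hpvPiv n r qv hq PQ α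
      hα V h' a hV h₁ h₂ ha)

theorem iaStPt_of_953_T473 (h : Fermat.Agent.S38.H953.IAStPtStatement953_T) :
    IAStPtStatement_T :=
  fun p _ hp3 𝒪 _ _ _ _ _ _ ρbar Smin hh ty hty Piv hPiv hmin k pv hpv hpvPiv n r qv hq _ PQ α
      hα V h' a hV h₁ h₂ ha =>
    iaStPtAt_of_953_T473 (h p hp3 𝒪 ρbar Smin hh ty hty Piv hPiv hmin k pv hpv hpvPiv n r qv hq
      PQ α hα V h' a hV h₁ h₂ ha)

/-- **IA-NU from the point-level Prop of helper953, any type.** -/
theorem iaNu_of_pt953_T473 (hFree : IAFreeStatement_T)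
    (hPt : Fermat.Agent.S38.H953.IANuPtStatement953_T) : IANuStatement_T :=
  iaNu_of_pt_T473 hFree (iaNuPt_of_953_T473 hPt)

/-- **IA-ST from the point-level Prop of helper953, any type.** -/
theorem iaSt_of_pt953_T473 (hFree : IAFreeStatement_T)
    (hPt : Fermat.Agent.S38.H953.IAStPtStatement953_T) : IAStStatement_T :=
  iaSt_of_pt_T473 hFree (iaStPt_of_953_T473 hPt)

end Fermat.Agent.S38.H473.Gen

end
-- ===== PACK-END S38T/H473/PtAdaptGen.lean

-- ===== PACK-BEGIN Ribet/H376/HeckeNode.lean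
section
/-
Row 38 (RIBET), WALL-p, W-EIS leaf HECKE-NODE (`H884/EisSpec.lean`): ASSEMBLY  (helper376).

`heckeNodeGen_of_pdivKnorm : PDivKnormStatement → H884.HeckeNodeGenStatement`, where the core

* `PDivKnormStatement` : for `k` algebraically closed of characteristic `p`, `ℓ ≠ p` prime,
  `p ∤ M`, `ℓ ∤ M`:  `PDivFin p M r → PDivFin p M (kronNorm ℓ r)`

is the characteristic-`p` statement "the function-level Hecke operator at level `M` preserves
`p`-divisibility of the orders away from the cusps".  The reductions of `g` are `kronNorm ℓ rᵢ`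
by `H376.isRedInf_heckeNorm'` / `H376.isRedZero_heckeNorm` (M6a).
-/




set_option autoImplicit false
set_option maxHeartbeats 400000
set_option linter.style.haveILetI false

noncomputable section

namespace Fermat.Agent.Ribet.H376

open HahnSeries ModularCurve AlgebraicCurve
open Fermat.Agent.S24 Fermat.Agent.S37 Fermat.Agent.A2.H708 Fermat.Agent.A2.H528
open Fermat.Agent.Ribet.H884

/-- **PDIV-KNORM** (characteristic-`p` core of HECKE-NODE): the formal Kronecker norm at `ℓ`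
preserves "`r ∈ k(X₀(M))ˣ` with `p ∣ ord_Q r` at every non-cuspidal place". -/
def PDivKnormStatement : Prop :=
  ∀ (k : Type) [Field k] [IsAlgClosed k] (p M ℓ : ℕ) [NeZero M] [NeZero ℓ] [CharP k p],
    p.Prime → ℓ.Prime → ℓ ≠ p → ¬ p ∣ M → ¬ ℓ ∣ M →
    ∀ r : LaurentSeries k, PDivFin p M r → PDivFin p M (H400.kronNorm ℓ r)

/-- **HECKE-NODE from PDIV-KNORM.** -/
theorem heckeNodeGen_of_pdivKnorm (hcore : PDivKnormStatement) : HeckeNodeGenStatement := by
  intro p M' _ _ _ hp hpM A hA ℓ _ hℓN f g hg hNG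
  obtain ⟨r₁, r₂, h1, h2, h3, h4⟩ := hNG
  obtain ⟨hAC, hCh⟩ := Fermat.Agent.Ribet.H939.resField p hp A hA
  haveI := hAC
  haveI := hCh
  have hℓ : (ℓ : ℕ).Prime := ℓ.2
  have hℓp : (ℓ : ℕ) ≠ p := fun h => hℓN (h ▸ dvd_mul_right _ _)
  have hℓM : ¬ (ℓ : ℕ) ∣ M' := fun h => hℓN (h.mul_left p)
  have hℓk : ((ℓ : ℕ) : kA A) ≠ 0 := by
    intro h0
    have h5 := (CharP.cast_eq_zero_iff (kA A) p (ℓ : ℕ)).mp h0
    exact hℓp ((Nat.prime_dvd_prime_iff_eq hp hℓ).mp h5).symm
  haveI : NeZero ((ℓ : ℕ) : kA A) := ⟨hℓk⟩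
  obtain ⟨ζ, hζ⟩ := HasEnoughRootsOfUnity.exists_primitiveRoot (kA A) (ℓ : ℕ)
  have hgN : g = S29.H222.heckeNorm (p * M') (ℓ : ℕ) f := by
    apply Subtype.ext
    rw [hg]
    exact (S37.H157.node_normid (p * M') (ℓ : ℕ) hℓ hℓN f).symm
  refine ⟨H400.kronNorm (ℓ : ℕ) r₁, H400.kronNorm (ℓ : ℕ) r₂, ?_, ?_, ?_, ?_⟩
  · rw [hgN]
    exact isRedInf_heckeNorm' (p * M') (ℓ : ℕ) hℓ hℓN A h1
  · rw [hgN]
    exact isRedZero_heckeNorm hℓ hℓN A hζ h2
  · exact hcore (kA A) p M' (ℓ : ℕ) hp hℓ hℓp hpM hℓM r₁ h3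
  · exact hcore (kA A) p M' (ℓ : ℕ) hp hℓ hℓp hpM hℓM r₂ h4

end Fermat.Agent.Ribet.H376

end
end
-- ===== PACK-END Ribet/H376/HeckeNode.lean

-- ===== PACK-BEGIN Ribet/H376/PDivKnorm.lean
section
/-
Row 38 (RIBET), WALL-p, W-EIS leaf HECKE-NODE (`H884/EisSpec.lean`), CLOSED  (helper376).

* `pdivKnorm    : PDivKnormStatement`        (the characteristic-`p` core: the function-level Hecke
  operator `kronNorm ℓ` at level `M` preserves `p`-divisibility of orders away from the cusps);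
* `heckeNodeGen : H884.HeckeNodeGenStatement` (VERBATIM, unconditional).

Proof of the core: `kronNorm ℓ h = N_{F'/F}(β h)` (`NormIdC`, any characteristic prime to `M ℓ`),
`F'/F` finite separable, local norm formula `ord_Q N(g) = ∑_{w | Q} ord_w g` (`Lib/FFSep280`),
`ord_w (β h) = e · ord_{w|β} h`, and `β` maps non-cuspidal places to non-cuspidal places because
`j(q^ℓ)` is integral over `ℤ[j]` (modular polynomial `Φ_ℓ`, monic).
-/





set_option autoImplicit false
set_option maxHeartbeats 400000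
set_option linter.style.haveILetI false
set_option linter.unusedSectionVars false

noncomputable section

namespace Fermat.Agent.Ribet.H376

open AlgebraicCurve IntermediateField ModularCurve HahnSeries
open Fermat.Agent.S28.H626 Fermat.Agent.S37.H157

section Modular

variable (k : Type*) [Field k] (M ℓ : ℕ) [NeZero M] [NeZero ℓ]

/-- `α : F → F'`, the inclusion, as a `k`-algebra homomorphism. -/
def alphaAlg : ↥(modularFunctionFieldFullC k M) →ₐ[k] ↥(modularFunctionFieldFullC k (M * ℓ)) :=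
  IntermediateField.inclusion (full_le_full_mul k M ℓ)

/-- `β : F → F'`, `y ↦ y(q^ℓ)`, as a `k`-algebra homomorphism. -/
def betaAlg : ↥(modularFunctionFieldFullC k M) →ₐ[k] ↥(modularFunctionFieldFullC k (M * ℓ)) where
  __ := betaHom k M ℓ
  commutes' c := by
    apply Subtype.ext
    show qExpand k ℓ (algebraMap k (LaurentSeries k) c) = algebraMap k (LaurentSeries k) c
    rw [algebraMap_laurentSeries_eq_single, qExpand_single, mul_zero]

theorem betaAlg_apply (y : modularFunctionFieldFullC k M) :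
    betaAlg k M ℓ y = betaHom k M ℓ y := rfl

theorem coe_betaAlg (y : modularFunctionFieldFullC k M) :
    ((betaAlg k M ℓ y : modularFunctionFieldFullC k (M * ℓ)) : LaurentSeries k)
      = qExpand k ℓ (y : LaurentSeries k) := rfl

theorem isScalarTower_algIncl :
    @IsScalarTower k ↥(modularFunctionFieldFullC k M) ↥(modularFunctionFieldFullC k (M * ℓ))
      _ (algIncl k M ℓ).toSMul _ :=
  isScalarTower_along (alphaAlg k M ℓ)

end Modular

section Finite

variable {K F F' : Type*} [Field K] [Field F] [Field F'] [Algebra K F] [Algebra K F']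

/-- A `K`-embedding of function fields of one variable is finite (any characteristic; the proof
of `Lib.FF398.finiteAlong_of_functionField` does not use characteristic zero). -/
theorem finiteAlong_of_functionFieldC (φ : F →ₐ[K] F') (j : F) (hj : Transcendental K j)
    (j' : F') (hj' : Transcendental K j') [FiniteDimensional K⟮j'⟯ F'] :
    FiniteAlong K φ := by
  letI := algebraAlong φ
  show Module.Finite F F'
  have hy : Transcendental K (φ j) := by
    intro h
    exact hj ((isAlgebraic_algHom_iff φ φ.injective).mp h)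
  haveI : FiniteDimensional K⟮φ j⟯ F' :=
    Fermat.Agent.S24.FF.finiteDimensional_adjoin_of_transcendental hj' hy
  obtain ⟨S, hS⟩ := (Module.finite_def (R := K⟮φ j⟯) (M := F')).mp inferInstance
  refine Module.finite_def.mpr ⟨S, ?_⟩
  have hle : K⟮φ j⟯ ≤ φ.fieldRange := by
    rw [adjoin_le_iff]
    rintro _ rfl
    exact ⟨j, rfl⟩
  have key : ∀ x : F', x ∈ Submodule.span K⟮φ j⟯ (S : Set F') →
      x ∈ Submodule.span F (S : Set F') := by
    intro x hx
    induction hx using Submodule.span_induction with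
    | mem x hx => exact Submodule.subset_span hx
    | zero => exact zero_mem _
    | add x y _ _ hx hy => exact add_mem hx hy
    | smul e x _ hx =>
      obtain ⟨f, hf⟩ := hle e.2
      have : e • x = f • x := by
        rw [Algebra.smul_def, Algebra.smul_def]
        show (e : F') * x = φ f * x
        rw [← hf]
        rfl
      rw [this]
      exact Submodule.smul_mem _ _ hx
  rw [eq_top_iff]
  intro x _
  exact key x (by rw [hS]; trivial)

theorem isIntegral_of_functionFieldC (φ : F →ₐ[K] F') (j : F) (hj : Transcendental K j)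
    (j' : F') (hj' : Transcendental K j') [FiniteDimensional K⟮j'⟯ F'] :
    φ.toRingHom.IsIntegral := by
  have hfin : FiniteAlong K φ := finiteAlong_of_functionFieldC φ j hj j' hj'
  letI := algebraAlong φ
  haveI : Module.Finite F F' := hfin
  exact fun x => Algebra.IsIntegral.isIntegral (R := F) x

end Finite

section Cusp

variable {k : Type*} [Field k] {M ℓ : ℕ} [NeZero M] [NeZero ℓ]

/-- `j` as an element of the level-`M ℓ` field is the image of `j` under the inclusion. -/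
theorem algebraMap_algIncl_jIn :
    @algebraMap _ _ _ _ (algIncl k M ℓ) (jIn k M) = jIn k (M * ℓ) :=
  Subtype.ext (coe_algebraMap_algIncl _)

/-- `Φ_ℓ(j, j(q^ℓ)) = 0` in the level-`M ℓ` field. -/
theorem ev2_jIn_betaAlg {Φ : Polynomial (Polynomial ℤ)} (hΦ : IsModPoly ℓ Φ) :
    ev2 Φ (jIn k (M * ℓ)) (betaAlg k M ℓ (jIn k M)) = 0 := by
  have hinj : Function.Injective
      (algebraMap ↥(modularFunctionFieldFullC k (M * ℓ)) (LaurentSeries k)) :=
    (algebraMap ↥(modularFunctionFieldFullC k (M * ℓ)) (LaurentSeries k)).injective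
  apply hinj
  rw [map_ev2, map_zero]
  show ev2 Φ (jqModC k) (qExpand k ℓ (jqModC k)) = 0
  have := ev2_jd_up (k := k) hΦ 1
  rwa [jd_one, jd_congr k (one_mul ℓ)] at this

/-- **Non-cuspidal places go to non-cuspidal places**: if `j` is regular at a place `w` of the
level-`M ℓ` field, then so is `j(q^ℓ)` (integrality over `ℤ[j]`). -/
theorem betaAlg_jIn_mem {Φ : Polynomial (Polynomial ℤ)} (hΦ : IsModPoly ℓ Φ)
    (w : Place k ↥(modularFunctionFieldFullC k (M * ℓ)))
    (hw : jIn k (M * ℓ) ∈ w.toValuationSubring) :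
    betaAlg k M ℓ (jIn k M) ∈ w.toValuationSubring := by
  set O := w.toValuationSubring with hO
  let x : O := ⟨jIn k (M * ℓ), hw⟩
  have hint : IsIntegral O (betaAlg k M ℓ (jIn k M)) := by
    refine ⟨spec Φ x, spec_monic hΦ.monic x, ?_⟩
    rw [Polynomial.eval₂_eq_eval_map, map_spec, eval_spec]
    exact ev2_jIn_betaAlg hΦ
  obtain ⟨y, hy⟩ := (IsIntegrallyClosed.isIntegral_iff
    (R := O) (K := ↥(modularFunctionFieldFullC k (M * ℓ)))).mp hint
  rw [← hy]
  exact y.2

end Cusp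

section Core

open Fermat.Agent.Ribet.H884

/-- **PDIV-KNORM**: the characteristic-`p` core of HECKE-NODE. -/
theorem pdivKnorm : PDivKnormStatement := by
  intro k _ _ p M ℓ _ _ _ hp hℓ hℓp hpM hℓM r hr
  obtain ⟨h, hhr, h0, hdiv⟩ := hr
  -- the primes dividing `M ℓ` are invertible in `k`
  have hchar : ∀ q : ℕ, q.Prime → q ∣ M * ℓ → (q : k) ≠ 0 := by
    intro q hq hqd hq0
    have h1 : p ∣ q := (CharP.cast_eq_zero_iff k p q).mp hq0
    have h2 : p = q := (Nat.prime_dvd_prime_iff_eq hp hq).mp h1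
    subst h2
    rcases (Nat.Prime.dvd_mul hp).mp hqd with h3 | h3
    · exact hpM h3
    · exact hℓp ((Nat.prime_dvd_prime_iff_eq hp hℓ).mp h3).symm
  have hℓk : ((ℓ : ℕ) : k) ≠ 0 := hchar ℓ hℓ (Dvd.intro_left M rfl)
  haveI : NeZero ((ℓ : ℕ) : k) := ⟨hℓk⟩
  obtain ⟨ζ, hζ⟩ := exists_primitiveRoot_unit k ℓ hℓ.ne_zero
  obtain ⟨-, Φ, hΦ⟩ := hasModPolysC k (M * ℓ) hchar ℓ hℓ (Dvd.intro_left M rfl)
  -- the extension `F' / F`
  letI := algIncl k M ℓ
  haveI : IsScalarTower k ↥(modularFunctionFieldFullC k M)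
      ↥(modularFunctionFieldFullC k (M * ℓ)) := isScalarTower_algIncl k M ℓ
  haveI : FiniteDimensional ↥(modularFunctionFieldFullC k M)
      ↥(modularFunctionFieldFullC k (M * ℓ)) :=
    finiteDimensional_algIncl (finrank_algInclC k M ℓ hℓ hℓM hchar)
  haveI : Algebra.IsSeparable ↥(modularFunctionFieldFullC k M)
      ↥(modularFunctionFieldFullC k (M * ℓ)) := isSeparable_algIncl hℓ hℓM hchar ζ hζ
  -- `F'` is a function field of one variable
  obtain ⟨hx', hfin'⟩ := Fermat.Agent.S18.H65.modFinite' k (M * ℓ) hchar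
  haveI := hfin'
  have hj : Transcendental k (jIn k M) :=
    Fermat.Agent.S18.H65.transcendental_subtype _ _
      (Fermat.Agent.S18.H65.transcendental_jqModC k)
  have hβ : (betaAlg k M ℓ).toRingHom.IsIntegral :=
    isIntegral_of_functionFieldC (betaAlg k M ℓ) (jIn k M) hj _ hx'
  -- the norm
  refine ⟨Algebra.norm ↥(modularFunctionFieldFullC k M) (betaAlg k M ℓ h), ?_, ?_, ?_⟩
  · rw [← hhr]
    exact norm_betaHom_eq_kronNormC hℓ hℓM hchar ζ hζ h
  · rw [Ne, Algebra.norm_eq_zero_iff]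
    exact fun hz => h0 ((map_eq_zero (betaAlg k M ℓ)).mp hz)
  · intro Q hQ
    refine dvd_ord_norm_of_dvd hx' (betaAlg k M ℓ) hβ (jIn k M) ?_ (p : ℤ) h0 hdiv Q hQ
    intro w hw
    rw [algebraMap_algIncl_jIn] at hw
    exact betaAlg_jIn_mem hΦ w hw

/-- **HECKE-NODE** (`H884.HeckeNodeGenStatement`, verbatim, unconditional). -/
theorem heckeNodeGen : HeckeNodeGenStatement :=
  heckeNodeGen_of_pdivKnorm pdivKnorm

end Core

end Fermat.Agent.Ribet.H376

end
end
-- ===== PACK-END Ribet/H376/PDivKnorm.lean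

-- ===== PACK-BEGIN Ribet/H732/FinDownAlpha.lean
section
/-
S59 moonshot, cell B1 (WALL-q in W-form), leaf FIN-DOWN of the NEAT package (helper732),
part 1: PDIV-DOWN along the inclusion `α : k(X₀(M)) → k(X₀(Mℓ))`.

`k` algebraically closed, the primes dividing `M ℓ` invertible in `k`, `ℓ ∤ M` prime,
`gcd (ℓ + 1, p) = 1`.  If `h ∈ k(X₀(M))` has `p ∣ ord_w h` at every place `w` of `k(X₀(Mℓ))`,
then `p ∣ ord_Q h` at every place `Q` of `k(X₀(M))`:
`(ℓ + 1) · ord_Q h = ord_Q (N h) = ∑_{w | Q} ord_w h` (local norm formula, `Lib/FFSep280`).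
-/


set_option autoImplicit false
set_option maxHeartbeats 400000
set_option linter.style.haveILetI false
set_option linter.unusedSectionVars false

noncomputable section

namespace Fermat.Agent.Ribet.H732.FinDown

open AlgebraicCurve IntermediateField ModularCurve HahnSeries
open Fermat.Agent.S28.H626 Fermat.Agent.S37.H157 Fermat.Agent.Ribet.H376
open Fermat.Agent.Ribet.H884

section Abstract

variable {K F F' : Type*} [Field K] [Field F] [Field F'] [Algebra K F] [Algebra K F']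
  [Algebra F F'] [IsScalarTower K F F'] [FiniteDimensional F F'] [Algebra.IsSeparable F F']
  [IsAlgClosed K]

/-- **PDIV-DOWN, abstract form**: divisibility of all orders by `p` descends along a finite
separable extension of degree prime to `p`. -/
theorem dvd_ord_of_dvd_ord_algebraMap732 {x' : F'} (hx' : Transcendental K x')
    [FiniteDimensional K⟮x'⟯ F'] (p : ℕ)
    (hcop : Nat.Coprime (Module.finrank F F') p) {h : F} (h0 : h ≠ 0)
    (hdiv : ∀ w : Place K F', (p : ℤ) ∣ w.ord (algebraMap F F' h)) (Q : Place K F) :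
    (p : ℤ) ∣ Q.ord h := by
  classical
  haveI : HasPrincipalDivisors K F' :=
    Fermat.Agent.Lib.RR.H560.hasPrincipalDivisors (K := K) x' hx'
  have hh : algebraMap F F' h ≠ 0 := fun hz => h0 ((map_eq_zero (algebraMap F F')).mp hz)
  have hsum := Fermat.Agent.Lib.FFSep280.sum_ord_eq_ord_norm_of_isAlgClosed hx' Q (Q.fiber F')
    (fun w => Place.mem_fiber) (algebraMap F F' h) hh
  rw [Algebra.norm_algebraMap, Fermat.Agent.Lib.RR.ord_pow] at hsum
  have h1 : (p : ℤ) ∣ (Module.finrank F F' : ℤ) * Q.ord h := by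
    rw [← hsum]
    exact Finset.dvd_sum fun w _ => hdiv w
  have h2 : IsCoprime (p : ℤ) (Module.finrank F F' : ℤ) :=
    (Nat.isCoprime_iff_coprime.mpr hcop).symm
  exact h2.dvd_of_dvd_mul_left h1

end Abstract

section Modular

variable {k : Type} [Field k] [IsAlgClosed k] {p M ℓ : ℕ} [NeZero M] [NeZero ℓ]

/-- **PDIV-DOWN along `α`** for the modular function fields. -/
theorem dvd_ord_down_alpha732 (hℓ : ℓ.Prime) (hℓM : ¬ ℓ ∣ M)
    (hchar : ∀ r : ℕ, r.Prime → r ∣ M * ℓ → ((r : ℕ) : k) ≠ 0)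
    (hcop : Nat.Coprime (ℓ + 1) p) {h : modularFunctionFieldFullC k M} (h0 : h ≠ 0)
    (hdiv : ∀ w : Place k (modularFunctionFieldFullC k (M * ℓ)),
      (p : ℤ) ∣ w.ord (alphaAlg k M ℓ h))
    (Q : Place k (modularFunctionFieldFullC k M)) : (p : ℤ) ∣ Q.ord h := by
  have hℓk : ((ℓ : ℕ) : k) ≠ 0 := hchar ℓ hℓ (Dvd.intro_left M rfl)
  haveI : NeZero ((ℓ : ℕ) : k) := ⟨hℓk⟩
  obtain ⟨ζ, hζ⟩ := exists_primitiveRoot_unit k ℓ hℓ.ne_zero
  letI := algIncl k M ℓ
  haveI : IsScalarTower k ↥(modularFunctionFieldFullC k M)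
      ↥(modularFunctionFieldFullC k (M * ℓ)) := isScalarTower_algIncl k M ℓ
  have hfr := finrank_algInclC k M ℓ hℓ hℓM hchar
  haveI : FiniteDimensional ↥(modularFunctionFieldFullC k M)
      ↥(modularFunctionFieldFullC k (M * ℓ)) := finiteDimensional_algIncl hfr
  haveI : Algebra.IsSeparable ↥(modularFunctionFieldFullC k M)
      ↥(modularFunctionFieldFullC k (M * ℓ)) := isSeparable_algIncl hℓ hℓM hchar ζ hζ
  obtain ⟨hx', hfin'⟩ := Fermat.Agent.S18.H65.modFinite' k (M * ℓ) hchar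
  haveI := hfin'
  refine dvd_ord_of_dvd_ord_algebraMap732 hx' p (by rw [hfr]; exact hcop) h0 ?_ Q
  intro w
  exact hdiv w

/-- **PDIV-DOWN along `α`, series form**: a `PDivSeries` of level `M ℓ` which lies in
`k(X₀(M))` is a `PDivSeries` of level `M`. -/
theorem pDivSeries_down_alpha732 (hℓ : ℓ.Prime) (hℓM : ¬ ℓ ∣ M)
    (hchar : ∀ r : ℕ, r.Prime → r ∣ M * ℓ → ((r : ℕ) : k) ≠ 0)
    (hcop : Nat.Coprime (ℓ + 1) p) {r : LaurentSeries k}
    (hr : PDivSeries p (M * ℓ) r) (hmem : r ∈ modularFunctionFieldFullC k M) :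
    PDivSeries p M r := by
  obtain ⟨h', hh', h0', hdiv'⟩ := hr
  have e : alphaAlg k M ℓ ⟨r, hmem⟩ = h' := by
    apply Subtype.ext
    rw [hh']
    rfl
  refine ⟨⟨r, hmem⟩, rfl, ?_, ?_⟩
  · intro hz
    apply h0'
    rw [← e, hz, map_zero]
  · intro Q
    refine dvd_ord_down_alpha732 hℓ hℓM hchar hcop ?_ ?_ Q
    · intro hz
      apply h0'
      rw [← e, hz, map_zero]
    · intro w
      rw [e]
      exact hdiv' w

end Modular

end Fermat.Agent.Ribet.H732.FinDown

end

end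
-- ===== PACK-END Ribet/H732/FinDownAlpha.lean

-- ===== PACK-BEGIN S59/UnitQR/H464/QRPair.lean
section



/-!
# S59 / cell B1, leaf UNIT-QR, part 7: the unit pair in the charts of `A2/Mod` (INST-B form)
(helper464; twin of `Ribet/H873/UnitPair.lean` + `Ribet/H464/UnitPairExp.lean`)

* `exists_unitPair_of_package464` : ABSTRACT.  From a package `D · D' = q ^ k`, `D, D' ∈ B`,
  `D' ∈ (V∞)ˣ`, `D ∈ (V₀)ˣ`, `D' = castE X`, the normalised pair `D · D' = w ^ (k e)`
  (`q ~ w ^ e`), `D ∉ w V∞`, `D' ∉ w V₀`, with the expansion of `D` remembered (any exponent `k`,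
  any integral series `X`);
* `exists_unitPair_cut_of_package464` : the same with `D ∉ p₁`, `D' ∉ p₂` (`A2.Mod.IsCut`);
* `exists_unitPair_cutQR` : for the unit `v = (η(τ)η(rτ)/(η(qτ)η(qrτ)))⁸` (exponent `8 e`);
* `exists_unitPair_unramQR` : at an unramified level (`q ~ w`): exponent `8`, prime to `3`.
-/

set_option autoImplicit false
set_option synthInstance.maxHeartbeats 400000
set_option maxHeartbeats 1600000
set_option linter.unusedSectionVars false

noncomputable section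

namespace Fermat.Agent.S59.UnitQR.H464

open ModularCurve HahnSeries
open Fermat.Agent.A2.Mod Fermat.Agent.S28
open Fermat.Agent.S36.H438 (castE)

variable {P : ValuationSubring Qb} {E : IntermediateField ℚ Qb}

section Pair

variable {M q : ℕ} [NeZero M] [NeZero q]

/-- **INST-B, abstract, normalised, with expansion.** -/
theorem exists_unitPair_of_package464 {k : ℕ} {X : LaurentSeries ℤ} {w : RE P E}
    (hS : Setting P E M q w)
    {V : ValuationSubring (FE E (M * q))} {W : FE E (M * q) ≃ₐ[E] FE E (M * q)}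
    (hV : IsVinf P E (M * q) V) (hW : IsFricke E (M * q) W)
    (hpkg : ∃ D D' : FE E (M * q),
      (D' : LaurentSeries E) = castE E X ∧
      D * D' = algebraMap E (FE E (M * q)) ((q : E) ^ k) ∧
      D ∈ chartAlg P E (M * q) (xE E M q) ∧
      D' ∈ chartAlg P E (M * q) (xE E M q) ∧
      (∀ V : ValuationSubring (FE E (M * q)), IsVinf P E (M * q) V → D' ∈ V ∧ D'⁻¹ ∈ V) ∧
      (∀ (V : ValuationSubring (FE E (M * q))) (W : FE E (M * q) ≃ₐ[E] FE E (M * q)),
        IsVinf P E (M * q) V → IsFricke E (M * q) W →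
          D ∈ V.comap (W : FE E (M * q) →+* FE E (M * q)) ∧
          D⁻¹ ∈ V.comap (W : FE E (M * q) →+* FE E (M * q)))) :
    ∃ (e : ℕ) (D D' : chartAlg P E (M * q) (xE E M q)), 0 < e ∧
      Associated ((q : ℕ) : RE P E) (w ^ e) ∧
      D * D' = algebraMap (RE P E) (chartAlg P E (M * q) (xE E M q)) w ^ (k * e) ∧
      ¬ InW P E (M * q) V w (D : FE E (M * q)) ∧
      ¬ InW P E (M * q) (V.comap (W : FE E (M * q) →+* FE E (M * q))) w
        (D' : FE E (M * q)) ∧
      (((D : FE E (M * q)) : FE E (M * q)) : LaurentSeries E) = castE E X := by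
  haveI := hS.dvr
  obtain ⟨D₀', D₀, hexp, hmul, hD', hD, hVu, hV0u⟩ := hpkg
  have hc0 : algebraMap E (FE E (M * q)) ((q : E) ^ k) ≠ 0 := by
    rw [Ne, map_eq_zero]
    exact pow_ne_zero k (Nat.cast_ne_zero.mpr (NeZero.ne q))
  have hD0 : D₀ ≠ 0 := by
    rintro rfl
    rw [mul_zero] at hmul
    exact hc0 hmul.symm
  have hD'0 : D₀' ≠ 0 := by
    rintro rfl
    rw [zero_mul] at hmul
    exact hc0 hmul.symm
  have hmul' : D₀ * D₀' = cE P E (M * q) ((q : RE P E) ^ k) := by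
    rw [mul_comm D₀ D₀', hmul, cE]
    congr 1
  have hDV : ¬ InW P E (M * q) V w D₀ :=
    Fermat.Agent.Ribet.H873.not_inW_of_inv_mem873
      (Fermat.Agent.Ribet.H873.cE_inv_not_mem873 hS.dvr hS.unif hV) hD0 (hVu V hV).2
  have hD'V : ¬ InW P E (M * q) (V.comap (W : FE E (M * q) →+* FE E (M * q))) w D₀' :=
    Fermat.Agent.Ribet.H873.not_inW_of_inv_mem873
      (Fermat.Agent.Ribet.H873.cE_inv_not_mem_comap873 hS.dvr hS.unif hV W) hD'0
      (hV0u V W hV hW).2
  have hq0 : ((q : ℕ) : RE P E) ≠ 0 := Nat.cast_ne_zero.mpr (NeZero.ne q)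
  obtain ⟨e, he⟩ := IsDiscreteValuationRing.associated_pow_irreducible hq0 hS.unif
  have he0 : 0 < e := by
    rcases Nat.eq_zero_or_pos e with h0 | h0
    · exfalso
      rw [h0, pow_zero] at he
      exact Fermat.Agent.Ribet.H873.not_isUnit_natCast873 hS.lies_over
        (he.symm.isUnit_iff.mp isUnit_one)
    · exact h0
  obtain ⟨ε, hε⟩ := he
  set B := chartAlg P E (M * q) (xE E M q) with hB
  refine ⟨e, ⟨D₀, hD⟩, algebraMap (RE P E) B ((ε : RE P E) ^ k) * ⟨D₀', hD'⟩,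
    he0, ⟨ε, hε⟩, ?_, hDV, ?_, hexp⟩
  · apply Subtype.ext
    show D₀ * (algebraMap (RE P E) (FE E (M * q)) ((ε : RE P E) ^ k) * D₀') =
      (algebraMap (RE P E) (FE E (M * q)) w) ^ (k * e)
    have hcE : cE P E (M * q) ((q : RE P E) ^ k) =
        algebraMap (RE P E) (FE E (M * q)) ((q : RE P E) ^ k) := rfl
    rw [mul_left_comm, hmul', hcE, ← map_mul, ← map_pow]
    congr 1
    rw [pow_mul', ← hε]
    ring
  · intro h
    apply hD'V
    have hεV : algebraMap (RE P E) (FE E (M * q)) (((ε⁻¹ : (RE P E)ˣ) : RE P E) ^ k) ∈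
        V.comap (W : FE E (M * q) →+* FE E (M * q)) := by
      rw [ValuationSubring.mem_comap]
      have h1 : (W : FE E (M * q) →+* FE E (M * q))
          (algebraMap (RE P E) (FE E (M * q)) (((ε⁻¹ : (RE P E)ˣ) : RE P E) ^ k)) =
          algebraMap E (FE E (M * q)) ((((ε⁻¹ : (RE P E)ˣ) : RE P E) ^ k : RE P E) : E) :=
        W.commutes _
      rw [h1]
      exact (Fermat.Agent.A2.Mod.H708.algebraMap_mem_iff_of_isVinf hV _).mpr (Subtype.mem _)
    have h2 := (V.comap (W : FE E (M * q) →+* FE E (M * q))).mul_mem _ _ hεV h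
    have h3 : algebraMap (RE P E) (FE E (M * q)) (((ε⁻¹ : (RE P E)ˣ) : RE P E) ^ k) *
        (((algebraMap (RE P E) B ((ε : RE P E) ^ k) * ⟨D₀', hD'⟩ : B) : FE E (M * q)) *
          (cE P E (M * q) w)⁻¹) = D₀' * (cE P E (M * q) w)⁻¹ := by
      have h4 : algebraMap (RE P E) (FE E (M * q)) (((ε⁻¹ : (RE P E)ˣ) : RE P E) ^ k) *
          algebraMap (RE P E) (FE E (M * q)) ((ε : RE P E) ^ k) = 1 := by
        rw [← map_mul, ← mul_pow, Units.inv_mul, one_pow, map_one]
      show algebraMap (RE P E) (FE E (M * q)) (((ε⁻¹ : (RE P E)ˣ) : RE P E) ^ k) *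
        ((algebraMap (RE P E) (FE E (M * q)) ((ε : RE P E) ^ k) * D₀') *
          (cE P E (M * q) w)⁻¹) = _
      rw [← mul_assoc, ← mul_assoc, h4, one_mul]
    rw [h3] at h2
    exact h2

/-- **INST-B, abstract, cut form, with expansion.** -/
theorem exists_unitPair_cut_of_package464 {k : ℕ} {X : LaurentSeries ℤ} {w : RE P E}
    (hS : Setting P E M q w)
    {V : ValuationSubring (FE E (M * q))} {W : FE E (M * q) ≃ₐ[E] FE E (M * q)}
    (hV : IsVinf P E (M * q) V) (hW : IsFricke E (M * q) W)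
    (hpkg : ∃ D D' : FE E (M * q),
      (D' : LaurentSeries E) = castE E X ∧
      D * D' = algebraMap E (FE E (M * q)) ((q : E) ^ k) ∧
      D ∈ chartAlg P E (M * q) (xE E M q) ∧
      D' ∈ chartAlg P E (M * q) (xE E M q) ∧
      (∀ V : ValuationSubring (FE E (M * q)), IsVinf P E (M * q) V → D' ∈ V ∧ D'⁻¹ ∈ V) ∧
      (∀ (V : ValuationSubring (FE E (M * q))) (W : FE E (M * q) ≃ₐ[E] FE E (M * q)),
        IsVinf P E (M * q) V → IsFricke E (M * q) W →
          D ∈ V.comap (W : FE E (M * q) →+* FE E (M * q)) ∧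
          D⁻¹ ∈ V.comap (W : FE E (M * q) →+* FE E (M * q))))
    (p₁ p₂ : Ideal (chartAlg P E (M * q) (xE E M q)))
    (hc₁ : IsCut P E (M * q) w V (chartAlg P E (M * q) (xE E M q)) p₁)
    (hc₂ : IsCut P E (M * q) w (V.comap (W : FE E (M * q) →+* FE E (M * q)))
      (chartAlg P E (M * q) (xE E M q)) p₂) :
    ∃ (e : ℕ) (D D' : chartAlg P E (M * q) (xE E M q)), 0 < e ∧
      Associated ((q : ℕ) : RE P E) (w ^ e) ∧
      D * D' = algebraMap (RE P E) (chartAlg P E (M * q) (xE E M q)) w ^ (k * e) ∧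
      D ∉ p₁ ∧ D' ∉ p₂ ∧
      (((D : FE E (M * q)) : FE E (M * q)) : LaurentSeries E) = castE E X := by
  obtain ⟨e, D, D', he, hass, hmul, hD, hD', hexp⟩ :=
    exists_unitPair_of_package464 hS hV hW hpkg
  exact ⟨e, D, D', he, hass, hmul, fun h => hD ((hc₁ D).mp h), fun h => hD' ((hc₂ D').mp h),
    hexp⟩

variable {r : ℕ} [NeZero r]

/-- The package of `muQR_package`, in the shape consumed above. -/
theorem muQR_package_short (hq : q.Prime) (hr : r.Prime ∨ r = 1) (h : QRAdm q r)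
    (hrM : r ∣ M) :
    ∃ D D' : FE E (M * q),
      (D' : LaurentSeries E) = castE E (vQRL q r) ∧
      D * D' = algebraMap E (FE E (M * q)) ((q : E) ^ 8) ∧
      D ∈ chartAlg P E (M * q) (xE E M q) ∧
      D' ∈ chartAlg P E (M * q) (xE E M q) ∧
      (∀ V : ValuationSubring (FE E (M * q)), IsVinf P E (M * q) V → D' ∈ V ∧ D'⁻¹ ∈ V) ∧
      (∀ (V : ValuationSubring (FE E (M * q))) (W : FE E (M * q) ≃ₐ[E] FE E (M * q)),
        IsVinf P E (M * q) V → IsFricke E (M * q) W →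
          D ∈ V.comap (W : FE E (M * q) →+* FE E (M * q)) ∧
          D⁻¹ ∈ V.comap (W : FE E (M * q) →+* FE E (M * q))) := by
  obtain ⟨D, D', -, h2, h3, h4, h5, h6, h7, -⟩ := muQR_package P E q r hq hr h M hrM
  exact ⟨D, D', h2, h3, h4, h5, h6, h7⟩

/-- **INST-B for the unit `v = (η(τ)η(rτ)/(η(qτ)η(qrτ)))⁸`, cut form, with expansion**:
`D · D' = w ^ (8 e)`, `q ~ w ^ e`, `D ∉ p₁`, `D' ∉ p₂`, `D = v`. -/
theorem exists_unitPair_cutQR {w : RE P E} (hS : Setting P E M q w)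
    (hr : r.Prime ∨ r = 1) (h : QRAdm q r) (hrM : r ∣ M)
    {V : ValuationSubring (FE E (M * q))} {W : FE E (M * q) ≃ₐ[E] FE E (M * q)}
    (hV : IsVinf P E (M * q) V) (hW : IsFricke E (M * q) W)
    (p₁ p₂ : Ideal (chartAlg P E (M * q) (xE E M q)))
    (hc₁ : IsCut P E (M * q) w V (chartAlg P E (M * q) (xE E M q)) p₁)
    (hc₂ : IsCut P E (M * q) w (V.comap (W : FE E (M * q) →+* FE E (M * q)))
      (chartAlg P E (M * q) (xE E M q)) p₂) :
    ∃ (e : ℕ) (D D' : chartAlg P E (M * q) (xE E M q)), 0 < e ∧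
      Associated ((q : ℕ) : RE P E) (w ^ e) ∧
      D * D' = algebraMap (RE P E) (chartAlg P E (M * q) (xE E M q)) w ^ (8 * e) ∧
      D ∉ p₁ ∧ D' ∉ p₂ ∧
      (((D : FE E (M * q)) : FE E (M * q)) : LaurentSeries E) = castE E (vQRL q r) :=
  exists_unitPair_cut_of_package464 hS hV hW (muQR_package_short hS.q_prime hr h hrM)
    p₁ p₂ hc₁ hc₂

/-- `8` is prime to every power of `3`. -/
theorem coprime_eight_three_pow (n : ℕ) : Nat.Coprime 8 (3 ^ n) :=
  Nat.Coprime.pow_right n (by norm_num)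

/-- **INST-B at an UNRAMIFIED level** (`q ~ w`): the unit pair of exponent `8`, prime to `3`,
with `D = v = (η(τ)η(rτ)/(η(qτ)η(qrτ)))⁸`. -/
theorem exists_unitPair_unramQR {w : RE P E} (hS : Setting P E M q w)
    (hram : Associated ((q : ℕ) : RE P E) w)
    (hr : r.Prime ∨ r = 1) (h : QRAdm q r) (hrM : r ∣ M)
    {V : ValuationSubring (FE E (M * q))} {W : FE E (M * q) ≃ₐ[E] FE E (M * q)}
    (hV : IsVinf P E (M * q) V) (hW : IsFricke E (M * q) W)
    (p₁ p₂ : Ideal (chartAlg P E (M * q) (xE E M q)))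
    (hc₁ : IsCut P E (M * q) w V (chartAlg P E (M * q) (xE E M q)) p₁)
    (hc₂ : IsCut P E (M * q) w (V.comap (W : FE E (M * q) →+* FE E (M * q)))
      (chartAlg P E (M * q) (xE E M q)) p₂) :
    ∃ (D D' : chartAlg P E (M * q) (xE E M q)),
      (∀ n : ℕ, Nat.Coprime 8 (3 ^ n)) ∧
      D * D' = algebraMap (RE P E) (chartAlg P E (M * q) (xE E M q)) w ^ 8 ∧
      D ∉ p₁ ∧ D' ∉ p₂ ∧
      (((D : FE E (M * q)) : FE E (M * q)) : LaurentSeries E) = castE E (vQRL q r) := by
  haveI := hS.dvr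
  obtain ⟨e, D, D', -, hass, hmul, hD, hD', hexp⟩ :=
    exists_unitPair_cutQR hS hr h hrM hV hW p₁ p₂ hc₁ hc₂
  have hram' : Associated ((q : ℕ) : RE P E) (w ^ 1) := by rwa [pow_one]
  have he : e = 1 := Fermat.Agent.Ribet.H464.pow_eq_of_associated464 hS.unif hass hram'
  subst he
  exact ⟨D, D', coprime_eight_three_pow, by rwa [mul_one] at hmul, hD, hD', hexp⟩

end Pair

end Fermat.Agent.S59.UnitQR.H464

end
end
-- ===== PACK-END S59/UnitQR/H464/QRPair.lean

-- ===== PACK-BEGIN S59/LoSqC/H140/CountNum.lean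
section





/-!
# Row S59, cell (C) LO-SQ, wall leaf W-COUNT, sub-leaf **COUNT-NUM** (helper140)

The NUMERIC inputs of the all-`n` count at level `q M` (`q ∤ M`, `M` neat), J-form, for the
abstract counts (`count_family505`, `countTower`, ...):

* `card_torsion_jZero_pow140`  : `#J₀(N)(ℚ̄)[p^n] = p^(2 g n)`, `g = genusFF ℚ̄ ℚ̄(X₀(N))`;
* `card_torsion_jZeroC_pow140` : `#Pic⁰(k(X₀(M)))[p^n] = p^(2 g₀ n)`, `k` the residue field of a
  place `A` of `ℚ̄` over `q ∤ M p`, `g₀ = genusFF k k(X₀(M))`;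
* `card_torsion_pair_pow140`   : the same for pairs, `p^(4 g₀ n)`;
* `genus_relation140`          : `12 (g + 1) = (q - 1) ψ(M) + 24 g₀` at rigid good levels
  (`g = g(qM)`, `g₀` = genus of the reduction of `X₀(M)` = `g(M)`);
* `count_num140`               : `12 s ≤ (q - 1) ψ(M)` (the shape of GUB) `⟹ 4 g₀ + 2 s ≤ 2 g + 2`,
  i.e. `a + 2 h ≤ c` with `a = 4 g₀`, `h = s - 1`, `c = 2 g`;
* `countNum140`, `countNum_neat140` : everything packaged (levels `q * M` and `M * q`).

Everything is a combination of theorems on main: `Ribet.H937.natCard_torsion_jZero`,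
`natCard_torsion_jZeroC`, `genusFF_eq_residue`, `Lib.RR.H80.genusFF_modular_eq_genusFormula`
(S24) and `S36.H29.genus_rigid_nat` (S20 numerics).
-/

set_option autoImplicit false

noncomputable section

namespace Fermat.Agent.S59.LoSqC.H140

open AlgebraicCurve ModularCurve

/-- `ℚ̄`. -/
local notation "Qb140" => AlgebraicClosure ℚ

/-- The genus of `X₀(N)` over `ℚ̄` (adelic genus of the function field). -/
abbrev gBar140 (N : ℕ) : ℕ := genusFF Qb140 (modularFunctionFieldBar N)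

/-- The genus of the reduction of `X₀(M)` at the place `A`. -/
abbrev gRes140 (A : ValuationSubring Qb140) (M : ℕ) : ℕ :=
  genusFF (IsLocalRing.ResidueField A)
    (modularFunctionFieldFullC (IsLocalRing.ResidueField A) M)

/-! ## Torsion counts for all exponents `p ^ n` -/

/-- `#J₀(N)(ℚ̄)[p^n] = p^(2 g n)`. -/
theorem card_torsion_jZero_pow140 (N : ℕ) [NeZero N] {p : ℕ} (hp : p ≠ 0) (n : ℕ) :
    Nat.card (Pic0.torsion Qb140 (modularFunctionFieldBar N) (p ^ n)) =
      p ^ (2 * gBar140 N * n) := by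
  rw [Fermat.Agent.Ribet.H937.natCard_torsion_jZero N (p ^ n) (pow_ne_zero n hp), ← pow_mul]
  congr 1
  ring

/-- `#Pic⁰(k(X₀(M)))[p^n] = p^(2 g₀ n)` for `q ∤ M p`. -/
theorem card_torsion_jZeroC_pow140 (M : ℕ) [NeZero M] {q : ℕ} [Fact q.Prime] (hqM : ¬ q ∣ M)
    (A : ValuationSubring Qb140) (hA : A.LiesOverPrime q) {p : ℕ} (hqp : ¬ q ∣ p) (n : ℕ) :
    Nat.card (Pic0.torsion (IsLocalRing.ResidueField A)
        (modularFunctionFieldFullC (IsLocalRing.ResidueField A) M) (p ^ n)) =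
      p ^ (2 * gRes140 A M * n) := by
  have hq : q.Prime := Fact.out
  rw [Fermat.Agent.Ribet.H937.natCard_torsion_jZeroC M hqM A hA (p ^ n)
    (fun h => hqp (hq.dvd_of_dvd_pow h)), ← pow_mul]
  congr 1
  ring

/-- Cardinality of a product of two subgroups. -/
theorem natCard_prod140 {G H : Type*} [AddGroup G] [AddGroup H] (S : AddSubgroup G)
    (T : AddSubgroup H) : Nat.card (S.prod T) = Nat.card S * Nat.card T := by
  rw [Nat.card_congr (AddSubgroup.prodEquiv S T).toEquiv, Nat.card_prod]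

/-- The pairs of `p^n`-torsion classes of the reduction: `p^(4 g₀ n)`. -/
theorem card_torsion_pair_pow140 (M : ℕ) [NeZero M] {q : ℕ} [Fact q.Prime] (hqM : ¬ q ∣ M)
    (A : ValuationSubring Qb140) (hA : A.LiesOverPrime q) {p : ℕ} (hqp : ¬ q ∣ p) (n : ℕ) :
    Nat.card ((Pic0.torsion (IsLocalRing.ResidueField A)
        (modularFunctionFieldFullC (IsLocalRing.ResidueField A) M) (p ^ n)).prod
      (Pic0.torsion (IsLocalRing.ResidueField A)
        (modularFunctionFieldFullC (IsLocalRing.ResidueField A) M) (p ^ n))) =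
      p ^ (4 * gRes140 A M * n) := by
  rw [natCard_prod140, card_torsion_jZeroC_pow140 M hqM A hA hqp n, ← pow_add]
  congr 1
  ring

/-- Membership in the product of the torsion subgroups, elementwise. -/
theorem mem_torsion_pair_iff140 {K F : Type*} [Field K] [Field F] [Algebra K F] {m : ℕ}
    {z : Pic0 K F × Pic0 K F} :
    z ∈ (Pic0.torsion K F m).prod (Pic0.torsion K F m) ↔ m • z.1 = 0 ∧ m • z.2 = 0 := by
  rw [AddSubgroup.mem_prod, Pic0.mem_torsion, Pic0.mem_torsion, natCast_zsmul, natCast_zsmul]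

/-! ## The genus relation -/

/-- The genus does not see the order of the factors of the level. -/
theorem gBar_mul_comm140 (M q : ℕ) : gBar140 (M * q) = gBar140 (q * M) :=
  congrArg gBar140 (Nat.mul_comm M q)

/-- The genus of the reduction of `X₀(M)` at a good place is the classical genus. -/
theorem gRes_eq_genusFormula140 (M : ℕ) [NeZero M] {q : ℕ} [Fact q.Prime] (hqM : ¬ q ∣ M)
    (hgood : Fermat.Agent.S37.Core.GoodLevel M q)
    (A : ValuationSubring Qb140) (hA : A.LiesOverPrime q) :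
    ((gRes140 A M : ℕ) : ℚ) = genusFormula M := by
  rw [← Fermat.Agent.Lib.RR.H80.genusFF_modular_eq_genusFormula M]
  exact congrArg (fun x : ℕ => (x : ℚ))
    (Fermat.Agent.Ribet.H937.genusFF_eq_residue M hqM hgood A hA).symm

/-- **GENUS RELATION**: `12 (g(qM) + 1) = (q - 1) ψ(M) + 24 g₀` at rigid good levels. -/
theorem genus_relation140 {M q r : ℕ} [NeZero M] [NeZero (q * M)] [Fact q.Prime]
    (hqM : ¬ q ∣ M) (hr : r.Prime) (hr12 : r % 12 = 11) (hrM : r ∣ M)
    (hgood : Fermat.Agent.S37.Core.GoodLevel M q)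
    (A : ValuationSubring Qb140) (hA : A.LiesOverPrime q) :
    12 * (gBar140 (q * M) + 1) = (q - 1) * dedekindPsi M + 24 * gRes140 A M :=
  Fermat.Agent.S36.H29.genus_rigid_nat (NeZero.ne M) Fact.out hqM hr hr12 hrM
    (Fermat.Agent.Lib.RR.H80.genusFF_modular_eq_genusFormula (q * M))
    (gRes_eq_genusFormula140 M hqM hgood A hA)

/-- **COUNT-NUM**, arithmetic core: the node bound `12 s ≤ (q - 1) ψ(M)` gives the exponent
inequality of the count, `4 g₀ + 2 s ≤ 2 g + 2`. -/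
theorem count_num140 {M q r : ℕ} [NeZero M] [NeZero (q * M)] [Fact q.Prime]
    (hqM : ¬ q ∣ M) (hr : r.Prime) (hr12 : r % 12 = 11) (hrM : r ∣ M)
    (hgood : Fermat.Agent.S37.Core.GoodLevel M q)
    (A : ValuationSubring Qb140) (hA : A.LiesOverPrime q)
    {s : ℕ} (hs : 12 * s ≤ (q - 1) * dedekindPsi M) :
    4 * gRes140 A M + 2 * s ≤ 2 * gBar140 (q * M) + 2 := by
  have h := genus_relation140 hqM hr hr12 hrM hgood A hA
  omega

/-- The same with `h = s - 1` (truncated subtraction): `a + 2 h ≤ c`. -/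
theorem count_num_sub140 {M q r : ℕ} [NeZero M] [NeZero (q * M)] [Fact q.Prime]
    (hqM : ¬ q ∣ M) (hr : r.Prime) (hr12 : r % 12 = 11) (hrM : r ∣ M)
    (hgood : Fermat.Agent.S37.Core.GoodLevel M q)
    (A : ValuationSubring Qb140) (hA : A.LiesOverPrime q)
    {s : ℕ} (hs1 : 1 ≤ s) (hs : 12 * s ≤ (q - 1) * dedekindPsi M) :
    4 * gRes140 A M + 2 * (s - 1) ≤ 2 * gBar140 (q * M) := by
  have h := count_num140 hqM hr hr12 hrM hgood A hA hs
  omega

/-! ## Neat levels -/

/-- A neat level is a good level. -/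
theorem goodLevel_of_neatFor140 {M q : ℕ} (hq : q.Prime)
    (h : Fermat.Agent.S36.Eng.NeatFor M q) : Fermat.Agent.S37.Core.GoodLevel M q := by
  obtain ⟨-, h4, h9⟩ := h
  by_cases h2 : q = 2
  · exact Or.inr (Or.inr ⟨h2, Dvd.dvd.trans (by norm_num) (h9 h2)⟩)
  · by_cases h3 : q = 3
    · exact Or.inr (Or.inl ⟨h3, Dvd.dvd.trans (by norm_num) (h4 h2)⟩)
    · left
      have h2' := hq.two_le
      by_contra hlt
      have hq4 : q = 4 := by omega
      rw [hq4] at hq
      exact absurd hq (by norm_num)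

/-! ## The package -/

/-- **COUNT-NUM**, packaged at the level `q * M` (WALL-q convention): rigid good level. -/
theorem countNum140 (M q r : ℕ) [NeZero M] [NeZero (q * M)] (hq : q.Prime) (hqM : ¬ q ∣ M)
    (hr : r.Prime) (hr12 : r % 12 = 11) (hrM : r ∣ M)
    (hgood : Fermat.Agent.S37.Core.GoodLevel M q)
    (A : ValuationSubring Qb140) (hA : A.LiesOverPrime q) (p : ℕ) (hp : p ≠ 0)
    (hqp : ¬ q ∣ p) :
    (∀ n : ℕ, Nat.card (Pic0.torsion Qb140 (modularFunctionFieldBar (q * M)) (p ^ n)) =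
        p ^ (2 * gBar140 (q * M) * n)) ∧
    (∀ n : ℕ, Nat.card (Pic0.torsion (IsLocalRing.ResidueField A)
        (modularFunctionFieldFullC (IsLocalRing.ResidueField A) M) (p ^ n)) =
        p ^ (2 * gRes140 A M * n)) ∧
    (∀ n : ℕ, Nat.card ((Pic0.torsion (IsLocalRing.ResidueField A)
        (modularFunctionFieldFullC (IsLocalRing.ResidueField A) M) (p ^ n)).prod
      (Pic0.torsion (IsLocalRing.ResidueField A)
        (modularFunctionFieldFullC (IsLocalRing.ResidueField A) M) (p ^ n))) =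
        p ^ (4 * gRes140 A M * n)) ∧
    12 * (gBar140 (q * M) + 1) = (q - 1) * dedekindPsi M + 24 * gRes140 A M ∧
    (∀ s : ℕ, 12 * s ≤ (q - 1) * dedekindPsi M →
      4 * gRes140 A M + 2 * s ≤ 2 * gBar140 (q * M) + 2) ∧
    (∀ s : ℕ, 1 ≤ s → 12 * s ≤ (q - 1) * dedekindPsi M →
      4 * gRes140 A M + 2 * (s - 1) ≤ 2 * gBar140 (q * M)) := by
  have : Fact q.Prime := ⟨hq⟩
  exact ⟨fun n => card_torsion_jZero_pow140 (q * M) hp n,
    fun n => card_torsion_jZeroC_pow140 M hqM A hA hqp n,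
    fun n => card_torsion_pair_pow140 M hqM A hA hqp n,
    genus_relation140 hqM hr hr12 hrM hgood A hA,
    fun _ hs => count_num140 hqM hr hr12 hrM hgood A hA hs,
    fun _ hs1 hs => count_num_sub140 hqM hr hr12 hrM hgood A hA hs1 hs⟩

/-- **COUNT-NUM** at NEAT levels (`S36.Eng.NeatFor M q`), level `q * M`. -/
theorem countNum_neat140 (M q : ℕ) [NeZero M] [NeZero (q * M)] (hq : q.Prime) (hqM : ¬ q ∣ M)
    (hneat : Fermat.Agent.S36.Eng.NeatFor M q)
    (A : ValuationSubring Qb140) (hA : A.LiesOverPrime q) (p : ℕ) (hp : p ≠ 0)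
    (hqp : ¬ q ∣ p) :
    (∀ n : ℕ, Nat.card (Pic0.torsion Qb140 (modularFunctionFieldBar (q * M)) (p ^ n)) =
        p ^ (2 * gBar140 (q * M) * n)) ∧
    (∀ n : ℕ, Nat.card (Pic0.torsion (IsLocalRing.ResidueField A)
        (modularFunctionFieldFullC (IsLocalRing.ResidueField A) M) (p ^ n)) =
        p ^ (2 * gRes140 A M * n)) ∧
    (∀ n : ℕ, Nat.card ((Pic0.torsion (IsLocalRing.ResidueField A)
        (modularFunctionFieldFullC (IsLocalRing.ResidueField A) M) (p ^ n)).prod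
      (Pic0.torsion (IsLocalRing.ResidueField A)
        (modularFunctionFieldFullC (IsLocalRing.ResidueField A) M) (p ^ n))) =
        p ^ (4 * gRes140 A M * n)) ∧
    12 * (gBar140 (q * M) + 1) = (q - 1) * dedekindPsi M + 24 * gRes140 A M ∧
    (∀ s : ℕ, 12 * s ≤ (q - 1) * dedekindPsi M →
      4 * gRes140 A M + 2 * s ≤ 2 * gBar140 (q * M) + 2) ∧
    (∀ s : ℕ, 1 ≤ s → 12 * s ≤ (q - 1) * dedekindPsi M →
      4 * gRes140 A M + 2 * (s - 1) ≤ 2 * gBar140 (q * M)) := by
  obtain ⟨r, hr, hr12, -, hrM⟩ := hneat.1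
  exact countNum140 M q r hq hqM hr hr12 hrM (goodLevel_of_neatFor140 hq hneat) A hA p hp hqp

/-- The torsion count at the level `M * q` (S36 convention). -/
theorem card_torsion_jZero_pow_comm140 (M q : ℕ) [NeZero (M * q)] {p : ℕ} (hp : p ≠ 0)
    (n : ℕ) :
    Nat.card (Pic0.torsion Qb140 (modularFunctionFieldBar (M * q)) (p ^ n)) =
      p ^ (2 * gBar140 (q * M) * n) := by
  rw [card_torsion_jZero_pow140 (M * q) hp n, gBar_mul_comm140]

end Fermat.Agent.S59.LoSqC.H140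

end
end
-- ===== PACK-END S59/LoSqC/H140/CountNum.lean

-- ===== PACK-BEGIN S36/Mod3/Top.lean
section



/-!
# S36 / MOD3 — `Eng.Model3Statement` (helper928, integrator)

`Mod3.model3 : Eng.Model3Statement`, UNCONDITIONAL: the three-component model of `X₀(M q²)` over
an unramified good level.  Assembly of the leaves of `Mod3/Spec.lean`, all proved on main:

* OBJ, VAL, TABLE, VT : helper370 (on helper972's Eisenstein splitting, helper83);
* FF, FIN : helper439;  SHEET : helper985;  QEP : helper27;  NORMAL : helper756;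
* NV, NR : helper657 (helper253);  CHART : helper189;  INC, UNIQ : helper153;
* REG : `q = 2` helper890 (`t₉`), `q` odd helper27 / helper878 / helper994 (`t₄`) with (R-U)
  helper356, (R-RES) helper775 / helper922; the cusps (`regular_i`) helper276 + helper96.
-/

set_option autoImplicit false

namespace Fermat.Agent.S36.Mod3

/-- **MOD3**: the interface statement `Eng.Model3Statement`. -/
theorem model3 : Eng.Model3Statement :=
  H928.model3_of_cuspCong H96.leafCuspCong96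

end Fermat.Agent.S36.Mod3

end
-- ===== PACK-END S36/Mod3/Top.lean

-- ===== PACK-BEGIN Ribet/H997/Dict.lean
section









/-!
# Row 38, WALL-p, S2 leaf DICT (helper997)

`dictFor : H103.S2.DictFor p M' A (H884.splitPart p M' A)` for `p ∤ M'`, `A` over `p`
(and `2 ∣ M'` if `p = 3`, `3 ∣ M'` if `p = 2`; no condition for `p ≥ 5`): the classes of the split
part are split-reduction classes.

Route: `x ∈ 𝒮` has a Kummer generator `f` with `SplitGen` (`H884.mem_splitSet_of_mem_splitPart`);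
on both components `f = g ^ p · u` with `u` of reduction `1` (`H573.splitGen_lift`); descend
`f`, the two `g` and `p`-th roots of the two constants to a good level `E`
(`T1.H669.exists_finset_descent`, `IF.H429.exists_goodField`); there the congruences hold at the
Gauss valuation rings `V∞`, `V₀ = V∞ ∘ W` (`DictDesc.sub_one_mem_nonunits_of_red`); normalise the
valuations by a global `p`-th power (`DictVal.exists_gSplitV_pair_of_unit`) and make the residues
constant by weak approximation (`S35.H433.exists_constV_of_gSplitV`); on the standard model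
(`A2.Mod`, coordinate `j · j_p`) this is `IsSplit` on both charts (`S35.H433.isSplit_of_constV`),
hence `RedPowAt` (with `g = 1`) and `PureAt` everywhere (`A2.Alg.H609.pureAt_of_isSplit`).
-/

set_option autoImplicit false
set_option linter.unusedSectionVars false
set_option linter.style.haveILetI false
set_option synthInstance.maxHeartbeats 400000
set_option maxHeartbeats 1600000

noncomputable section

namespace Fermat.Agent.Ribet.H997

open AlgebraicCurve ModularCurve HahnSeries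
open Fermat.Agent.S24 Fermat.Agent.A2.H708 Fermat.Agent.A2.H528
open Fermat.Agent.A2 Fermat.Agent.A2.Alg Fermat.Agent.S18.H602
open Fermat.Agent.Ribet.H884 Fermat.Agent.Ribet.H103.S2

/-! ## Gauss valuation rings satisfy `ValCtx` -/

section Gauss

variable {R F : Type*} [CommRing R] [IsLocalRing R] [Field F] [Algebra R F]

open Polynomial in
/-- A valuation ring inducing the Gauss valuation on `R[x]` satisfies `S35.H433.ValCtx`. -/
theorem valCtx_of_gauss {w : R} (hw : w ∈ IsLocalRing.maximalIdeal R)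
    (hw0 : algebraMap R F w ≠ 0) {x : F}
    {V : ValuationSubring F} (h : Fermat.Agent.A2.H489.IsGaussOver R V x) :
    Fermat.Agent.S35.H433.ValCtx w x V := by
  have hunit : ∀ P : R[X], P.map (IsLocalRing.residue R) ≠ 0 → (aeval x P)⁻¹ ∈ V := by
    intro P hP
    have h2 : aeval x P ∉ V.nonunits := fun hn => hP (h.prim P hn)
    rw [ValuationSubring.mem_nonunits_iff_or] at h2
    push Not at h2
    exact h2.2
  have hX : (X : R[X]).map (IsLocalRing.residue R) ≠ 0 := by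
    rw [Polynomial.map_X]
    exact X_ne_zero
  have hxi : x⁻¹ ∈ V := by
    have := hunit X hX
    rwa [aeval_X] at this
  refine ⟨h.isOver.mem, h.mem, hxi, ?_, ?_, ?_⟩
  · intro hwi
    have h1 := h.isOver.nonunit w hw
    rw [ValuationSubring.mem_nonunits_iff_or] at h1
    rcases h1 with h1 | h1
    · exact hw0 h1
    · exact h1 hwi
  · intro r
    have hP : (X - Polynomial.C r : R[X]).map (IsLocalRing.residue R) ≠ 0 := by
      rw [Polynomial.map_sub, Polynomial.map_X, Polynomial.map_C]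
      exact Polynomial.X_sub_C_ne_zero _
    have := hunit (X - Polynomial.C r) hP
    rwa [map_sub, aeval_X, aeval_C] at this
  · intro r
    have hP : (1 - Polynomial.C r * X : R[X]).map (IsLocalRing.residue R) ≠ 0 := by
      intro h0
      have := congrArg (fun p => Polynomial.coeff p 0) h0
      simp at this
    have h1 := hunit (1 - Polynomial.C r * X) hP
    rw [map_sub, map_one, map_mul, aeval_X, aeval_C] at h1
    have hx0 : x ≠ 0 := by
      intro h0
      have h2 : aeval x (X : R[X]) ∈ V.nonunits := by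
        rw [aeval_X, h0]
        exact V.mem_nonunits_iff.2 (by simp)
      exact hX (h.prim X h2)
    have e : (x⁻¹ - algebraMap R F r)⁻¹ = x * (1 - algebraMap R F r * x)⁻¹ := by
      have h3 : x⁻¹ - algebraMap R F r = (1 - algebraMap R F r * x) * x⁻¹ := by
        field_simp
      rw [h3, mul_inv, inv_inv, mul_comm]
    rw [e]
    exact V.mul_mem _ _ h.mem h1

end Gauss

/-! ## Kummer generators modulo `p`-th powers -/

section Kummer

variable {N : ℕ} [NeZero N] {p : ℕ}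

/-- Dividing a Kummer generator by a `p`-th power does not change the class. -/
theorem isKummerGen_mul_inv_pow {f h : FF N} {x : JZero N} (hf : IsKummerGen N p f x)
    (hh : h ≠ 0) : IsKummerGen N p (f * (h ^ p)⁻¹) x := by
  obtain ⟨hf0, D, hD, hord⟩ := hf
  obtain ⟨Dh, hDh, hdeg⟩ :=
    (Fermat.Agent.Lib.HI.H864.hasPrincipalDivisors_FF N).exists_divisor h hh
  set Dh0 : Divisor.degZero (K := Kbar) (F := FF N) := ⟨Dh, hdeg⟩ with hDh0
  refine ⟨mul_ne_zero hf0 (inv_ne_zero (pow_ne_zero _ hh)), D - Dh0, ?_, fun v => ?_⟩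
  · rw [← hD]
    show (QuotientAddGroup.mk (D - Dh0) : Pic0 Kbar (FF N)) = QuotientAddGroup.mk D
    rw [QuotientAddGroup.eq]
    refine AddSubgroup.mem_addSubgroupOf.mpr ⟨h, hh, fun v => ?_⟩
    simp only [AddSubgroup.coe_add, AddSubgroup.coe_neg, AddSubgroup.coe_sub, Finsupp.add_apply,
      Finsupp.neg_apply, Finsupp.sub_apply, hDh0]
    rw [← hDh v]
    ring
  · rw [Place.ord_mul v hf0 (inv_ne_zero (pow_ne_zero _ hh)), Place.ord_inv, ← zpow_natCast,
      Place.ord_zpow, hord]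
    simp only [AddSubgroup.coe_sub, Finsupp.sub_apply, hDh0]
    rw [hDh v]
    ring

end Kummer

/-! ## The standard model -/

section Model

variable (A : ValuationSubring Kbar) (E : IntermediateField ℚ Kbar) (M q : ℕ) [NeZero M]
  [NeZero q]

/-- **The standard semistable model** of level `M * q` over a good level, with coordinate
`x = j · j_q` (`A2.Mod.modSSData_of_parts` with the coordinate kept). -/
theorem exists_modSSData (hq : q.Prime) (hqM : ¬ q ∣ M) (h3 : q = 3 → 2 ∣ M)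
    (h2 : q = 2 → 3 ∣ M) (hA : A.LiesOverPrime q) (hdvr : IsDiscreteValuationRing (Mod.RE A E)) :
    ∃ D : ModSSData A E (M * q), D.x = Mod.xE E M q := by
  haveI := hdvr
  have hN : M * q ≠ 0 := mul_ne_zero (NeZero.ne M) hq.ne_zero
  obtain ⟨VM, hVM⟩ := Mod.H553.vinfExists A E M (NeZero.ne M) hdvr
  obtain ⟨V, hV⟩ := Mod.H553.vinfExists A E (M * q) hN hdvr
  obtain ⟨W, hW⟩ := Mod.H751.frickeExists E (M * q) hN
  obtain ⟨hx, hfr, hconst⟩ := Mod.H31.deg E M q hq hqM
  have hS : ∀ w : Mod.RE A E, Irreducible w → Mod.Setting A E M q w := fun w hw =>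
    { q_prime := hq
      q_not_dvd := hqM
      M_ne_zero := NeZero.ne M
      lies_over := hA
      dvr := hdvr
      unif := hw }
  have hgood : Mod.GoodRedHyp A E M := Mod.H216.goodRedHyp_of_dvr A E M hq hqM h3 h2 hA hdvr
  have hS1 := fun w => Fermat.Agent.S35.G.H862.s1 A E M q w
  have hS2 := fun w => Mod.H142.s2 A E M q w
  have hS3 := fun w => Fermat.Agent.S35.G.H862.s3 A E M q w
  have hSτ := fun w => Mod.H751.stau_of_s1 A E M q w (hS1 w)
  obtain ⟨w₀, hw₀⟩ := IsDiscreteValuationRing.exists_irreducible (Mod.RE A E)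
  have hpos : 0 < Module.finrank (IntermediateField.adjoin E ({Mod.xE E M q} : Set (Mod.FE E (M * q))))
      (Mod.FE E (M * q)) := by
    rw [hfr]
    have h1 := Mod.dedekindPsi_pos_of_ne_zero M (NeZero.ne M)
    positivity
  have hfin : FiniteDimensional (IntermediateField.adjoin E ({Mod.xE E M q} : Set (Mod.FE E (M * q))))
      (Mod.FE E (M * q)) := Module.finite_of_finrank_pos hpos
  have hg₀ := hgood w₀ VM hw₀ hVM
  have hsep := Mod.H732.s4 A E M q w₀ (hS w₀ hw₀) VM hVM hg₀.1 hg₀.2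
  exact ⟨{ x := Mod.xE E M q
           hx := hx
           hfin := hfin
           hconst := hconst
           Bf := Mod.chartAlg A E (M * q) (Mod.xE E M q)
           Bi := Mod.chartAlg A E (M * q) (Mod.xE E M q)⁻¹
           hBf := fun _ => Iff.rfl
           hBi := fun _ => Iff.rfl
           cf := fun w hw => Mod.nonempty_ssChart A E M q w (hS w hw) (hS1 w) (hS2 w) (hS3 w)
             VM V W hVM hV hW _ _ (Or.inl ⟨rfl, rfl⟩) (hgood w VM hw hVM).1
           ci := fun w hw => Mod.nonempty_ssChart A E M q w (hS w hw) (hS1 w) (hS2 w) (hS3 w)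
             VM V W hVM hV hW _ _ (Or.inr ⟨rfl, rfl⟩) (hgood w VM hw hVM).2
           sf := hsep.1
           si := hsep.2
           hτx := fun hE τ hτ => ((hSτ w₀) (hS w₀ hw₀) τ (hE.res τ hτ) hτ (fun _ => rfl)).1
           hτf := fun hE τ hτ w hw b hb =>
             ((hSτ w) (hS w hw) τ (hE.res τ hτ) hτ (fun _ => rfl)).2 _ (Or.inl rfl) b hb
           hτi := fun hE τ hτ w hw b hb =>
             ((hSτ w) (hS w hw) τ (hE.res τ hτ) hτ (fun _ => rfl)).2 _ (Or.inr rfl) b hb }, rfl⟩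

end Model

/-! ## The dictionary -/

/-- `H103.S2.SplitRedClass` at a general level `N` (`p ∣ N`); for `N = p * M'` it is
`H103.S2.SplitRedClass p M' A x` by definition. -/
def SplitRedClassAt (p N : ℕ) [NeZero p] (hpN : p ∣ N) (A : ValuationSubring Kbar)
    (x : JZero N) : Prop :=
  ∃ (E : IntermediateField ℚ Kbar) (_ : GoodField A E) (D : ModSSData A E N)
    (w : A2.RE A E) (y : A2.FE E N) (cf : SSChart w D.Bf) (ci : SSChart w D.Bi),
    D.x = stdCoord E N p hpN ∧ Irreducible w ∧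
    IsKummerFn N p x (T1.H669.iota E (modularFunctionFieldFull N) y) ∧
    RedPowAt D.Bf cf.p₁ p y ∧ RedPowAt D.Bf cf.p₂ p y ∧
    RedPowAt D.Bi ci.p₁ p y ∧ RedPowAt D.Bi ci.p₂ p y ∧
    (∀ n : Ideal D.Bf, n.IsMaximal → algebraMap (A2.RE A E) D.Bf w ∈ n → PureAt D.Bf cf p y n) ∧
    (∀ n : Ideal D.Bi, n.IsMaximal → algebraMap (A2.RE A E) D.Bi w ∈ n → PureAt D.Bi ci p y n)

theorem splitRedClass_iff (p M' : ℕ) [NeZero p] (A : ValuationSubring Kbar)
    (x : JZero (p * M')) :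
    SplitRedClass p M' A x ↔ SplitRedClassAt p (p * M') (dvd_mul_right p M') A x :=
  Iff.rfl

section Core

variable {p M' : ℕ} [NeZero M'] [NeZero p] {A : ValuationSubring Kbar}

/-- The series of `ι (y / (γ G) ^ p)`. -/
theorem coe_iota_div_pow {N : ℕ} (E : IntermediateField ℚ Kbar) (y G : Mod.FE E N) (e : E)
    (f g : FF N) (c : Kbar)
    (hy : T1.H669.iota E (modularFunctionFieldFull N) y = f)
    (hG : T1.H669.iota E (modularFunctionFieldFull N) G = g)
    (he : (algebraMap E Kbar e) ^ p = c) (_hc : c ≠ 0) (_hg : g ≠ 0) :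
    coeffMap (algebraMap E Kbar)
        ((y * ((algebraMap E (Mod.FE E N) e * G) ^ p)⁻¹ : Mod.FE E N) : LaurentSeries E) =
      ((f * (g ^ p)⁻¹ : FF N) : LaurentSeries Kbar) * (cst c)⁻¹ := by
  have h1 : T1.H669.iota E (modularFunctionFieldFull N)
      (y * ((algebraMap E (Mod.FE E N) e * G) ^ p)⁻¹) =
      f * (g ^ p)⁻¹ * (algebraMap Kbar (FF N) c)⁻¹ := by
    rw [map_mul, map_inv₀, map_pow, map_mul, hy, hG, T1.H669.iota_algebraMap, mul_pow,
      ← map_pow, he, mul_inv, mul_assoc, mul_comm (algebraMap Kbar _ c)⁻¹]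
  have h2 := congrArg (fun z : FF N => (z : LaurentSeries Kbar)) h1
  exact h2

/-- **DICT, core.**  A class with a Kummer generator which on both components is a `p`-th power
times a function of reduction `1` is a split-reduction class (level `N = M' * p`). -/
theorem splitRedClassAt_of_lift (hp : p.Prime) (hpM : ¬ p ∣ M')
    (h3 : p = 3 → 2 ∣ M') (h2 : p = 2 → 3 ∣ M') (hA : A.LiesOverPrime p)
    (N : ℕ) [NeZero N] (hN : N = M' * p) (hpN : p ∣ N) (x : JZero N) (f : FF N)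
    (hf : IsKummerGen N p f x)
    (hinf : ∃ g : FF N, g ≠ 0 ∧ IsRedInf N A (f * (g ^ p)⁻¹) 1)
    (hzer : ∃ g : FF N, g ≠ 0 ∧ IsRedZero N A (f * (g ^ p)⁻¹) 1) :
    SplitRedClassAt p N hpN A x := by
  classical
  subst hN
  obtain ⟨g₁, hg₁, c₁, U₁, U₂, hc₁, hU₁, hU₂, heU, hrU⟩ := hinf
  obtain ⟨g₂, hg₂, c₂, T₁, T₂, hc₂, hT₁, hT₂, heT, hrT⟩ := hzer
  rw [one_mul] at hrU hrT
  obtain ⟨γ₁, hγ₁⟩ := IsAlgClosed.exists_pow_nat_eq c₁ hp.pos
  obtain ⟨γ₂, hγ₂⟩ := IsAlgClosed.exists_pow_nat_eq c₂ hp.pos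
  -- descent to a good level
  obtain ⟨Sf, hSf⟩ := T1.H669.exists_finset_descent (modularFunctionFieldFull (M' * p)) f
  obtain ⟨S₁, hS₁⟩ := T1.H669.exists_finset_descent (modularFunctionFieldFull (M' * p)) g₁
  obtain ⟨S₂, hS₂⟩ := T1.H669.exists_finset_descent (modularFunctionFieldFull (M' * p)) g₂
  obtain ⟨E, hSE, hE⟩ := IF.H429.exists_goodField p hp A hA (Sf ∪ S₁ ∪ S₂ ∪ {γ₁, γ₂})
  obtain ⟨y, hy⟩ := hSf E (fun s hs => hSE s (by simp [hs]))
  obtain ⟨G₁, hG₁⟩ := hS₁ E (fun s hs => hSE s (by simp [hs]))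
  obtain ⟨G₂, hG₂⟩ := hS₂ E (fun s hs => hSE s (by simp [hs]))
  have hγ₁E : γ₁ ∈ E := hSE γ₁ (by simp)
  have hγ₂E : γ₂ ∈ E := hSE γ₂ (by simp)
  haveI hdvr : IsDiscreteValuationRing (Mod.RE A E) := hE.dvr
  haveI : HenselianLocalRing (Mod.RE A E) := hE.henselian
  haveI : IsAlgClosed (IsLocalRing.ResidueField (Mod.RE A E)) := hE.algClosed
  obtain ⟨w, hw⟩ := IsDiscreteValuationRing.exists_irreducible (Mod.RE A E)
  have hL0 : M' * p ≠ 0 := Nat.mul_ne_zero (NeZero.ne M') hp.ne_zero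
  have hSet : Mod.Setting A E M' p w := ⟨hp, hpM, NeZero.ne M', hA, hdvr, hw⟩
  obtain ⟨V, hV⟩ := Mod.H553.vinfExists A E (M' * p) hL0 hdvr
  obtain ⟨W, hW⟩ := Mod.H751.frickeExists E (M' * p) hL0
  set V₀ : ValuationSubring (Mod.FE E (M' * p)) :=
    V.comap (W : Mod.FE E (M' * p) →+* Mod.FE E (M' * p)) with hV₀
  have hu : H48.IsUnif V (Mod.cE A E (M' * p) w) :=
    (Mod.H553.vinfBasic A E w (M' * p) hL0 hdvr hw V hV).1
  have hu₀ : H48.IsUnif V₀ (Mod.cE A E (M' * p) w) := Mod.H13.isUnif_comap hu W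
  have hne : V ≠ V₀ := fun h =>
    Mod.H553.vzeroNe (P := A) (E := E) (M := M') (q := p) w hSet V W hV hW h.symm
  -- the `p`-th roots at level `E`
  set e₁ : E := ⟨γ₁, hγ₁E⟩ with he₁
  set e₂ : E := ⟨γ₂, hγ₂E⟩ with he₂
  set P₁ : Mod.FE E (M' * p) := algebraMap E (Mod.FE E (M' * p)) e₁ * G₁ with hP₁
  set P₂ : Mod.FE E (M' * p) := algebraMap E (Mod.FE E (M' * p)) e₂ * G₂ with hP₂
  have hγ₁0 : γ₁ ≠ 0 := by
    rintro rfl
    rw [zero_pow hp.ne_zero] at hγ₁
    exact hc₁ hγ₁.symm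
  have hγ₂0 : γ₂ ≠ 0 := by
    rintro rfl
    rw [zero_pow hp.ne_zero] at hγ₂
    exact hc₂ hγ₂.symm
  have hG₁0 : G₁ ≠ 0 := by
    rintro rfl
    rw [map_zero] at hG₁
    exact hg₁ hG₁.symm
  have hG₂0 : G₂ ≠ 0 := by
    rintro rfl
    rw [map_zero] at hG₂
    exact hg₂ hG₂.symm
  have he₁0 : algebraMap E (Mod.FE E (M' * p)) e₁ ≠ 0 := by
    rw [Ne, map_eq_zero]
    exact fun h => hγ₁0 (congrArg Subtype.val h)
  have he₂0 : algebraMap E (Mod.FE E (M' * p)) e₂ ≠ 0 := by
    rw [Ne, map_eq_zero]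
    exact fun h => hγ₂0 (congrArg Subtype.val h)
  have hP₁0 : P₁ ≠ 0 := mul_ne_zero he₁0 hG₁0
  have hP₂0 : P₂ ≠ 0 := mul_ne_zero he₂0 hG₂0
  -- the congruence at `V∞`
  have hz₁ : y * (P₁ ^ p)⁻¹ - 1 ∈ V.nonunits := by
    refine sub_one_mem_nonunits_of_red hV hdvr _ hU₂ hrU.symm ?_
    rw [hP₁, coe_iota_div_pow E y G₁ e₁ f g₁ c₁ hy hG₁ hγ₁ hc₁ hg₁, mul_right_comm, heU,
      mul_right_comm, mul_inv_cancel₀ (cst_ne_zero hc₁), one_mul]
  -- the congruence at `V₀`
  have hz₂ : y * (P₂ ^ p)⁻¹ - 1 ∈ V₀.nonunits := by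
    rw [hV₀, Mod.H13.mem_nonunits_comap]
    have hW1 : (W : Mod.FE E (M' * p) →+* Mod.FE E (M' * p)) (y * (P₂ ^ p)⁻¹ - 1) =
        W (y * (P₂ ^ p)⁻¹) - 1 := by
      rw [map_sub, map_one]
      rfl
    rw [hW1]
    refine sub_one_mem_nonunits_of_red hV hdvr _ hT₂ hrT.symm ?_
    have h1 : coeffMap (algebraMap E Kbar)
        ((W (y * (P₂ ^ p)⁻¹) : Mod.FE E (M' * p)) : LaurentSeries E) =
        ((wF (M' * p) (f * (g₂ ^ p)⁻¹) : FF (M' * p)) : LaurentSeries Kbar) * (cst c₂)⁻¹ := by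
      have h3 : Mod.H553.iotaN E (M' * p) (y * (P₂ ^ p)⁻¹) =
          f * (g₂ ^ p)⁻¹ * (algebraMap Kbar (FF (M' * p)) c₂)⁻¹ := by
        apply Subtype.ext
        exact coe_iota_div_pow E y G₂ e₂ f g₂ c₂ hy hG₂ hγ₂ hc₂ hg₂
      have h4 : wF (M' * p) (f * (g₂ ^ p)⁻¹ * (algebraMap Kbar (FF (M' * p)) c₂)⁻¹) =
          wF (M' * p) (f * (g₂ ^ p)⁻¹) * (algebraMap Kbar (FF (M' * p)) c₂)⁻¹ := by
        rw [map_mul (wF (M' * p)), map_inv₀ (wF (M' * p)), AlgEquiv.commutes]
      have h2 : Mod.H553.iotaN E (M' * p) (W (y * (P₂ ^ p)⁻¹)) =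
          wF (M' * p) (f * (g₂ ^ p)⁻¹) * (algebraMap Kbar (FF (M' * p)) c₂)⁻¹ :=
        (iotaN_fricke hW _).trans ((congrArg (wF (M' * p)) h3).trans h4)
      exact congrArg (fun z : FF (M' * p) => (z : LaurentSeries Kbar)) h2
    rw [h1, mul_right_comm, heT, mul_right_comm, mul_inv_cancel₀ (cst_ne_zero hc₂), one_mul]
  -- discrete valuations of the roots
  obtain ⟨a, ha⟩ := exists_zpow_val hV hL0 hdvr hw P₁ hP₁0
  have hWP₂0 : W P₂ ≠ 0 := (map_ne_zero W).2 hP₂0
  obtain ⟨b, hb⟩ := exists_zpow_val hV hL0 hdvr hw (W P₂) hWP₂0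
  have hϖ0 : V.valuation (Mod.cE A E (M' * p) w) ≠ 0 := hu.val_ne_zero
  have ha' : V.valuation (P₁ * (Mod.cE A E (M' * p) w ^ a)⁻¹) = 1 := by
    rw [map_mul, map_inv₀, map_zpow₀, ha]
    exact mul_inv_cancel₀ (zpow_ne_zero _ hϖ0)
  have hb' : V₀.valuation (P₂ * (Mod.cE A E (M' * p) w ^ b)⁻¹) = 1 := by
    rw [hV₀, val_comap_eq_one_iff]
    have hWc : W (Mod.cE A E (M' * p) w) = Mod.cE A E (M' * p) w := W.commutes _
    have e : (W : Mod.FE E (M' * p) →+* Mod.FE E (M' * p))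
        (P₂ * (Mod.cE A E (M' * p) w ^ b)⁻¹) = W P₂ * (Mod.cE A E (M' * p) w ^ b)⁻¹ := by
      show W (P₂ * (Mod.cE A E (M' * p) w ^ b)⁻¹) = _
      rw [map_mul, map_inv₀, map_zpow₀, hWc]
    rw [e, map_mul, map_inv₀, map_zpow₀, hb]
    exact mul_inv_cancel₀ (zpow_ne_zero _ hϖ0)
  obtain ⟨H, hH0, hgs₁, hgs₂⟩ :=
    exists_gSplitV_pair_of_unit (Mod.RE A E) hu hu₀ hne p a b ha' hb' hz₁ hz₂
  -- the model
  obtain ⟨D, hDx⟩ := exists_modSSData A E M' p hp hpM h3 h2 hA hdvr
  obtain ⟨cf⟩ := D.cf w hw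
  obtain ⟨ci⟩ := D.ci w hw
  have hCf : ChartCtx E w D.x D.Bf := ⟨hw, D.hx, D.hfin, D.hconst, D.hBf⟩
  have hCi : ChartCtx E w D.x⁻¹ D.Bi :=
    Alg.H34.chartCtx_inv w hw D.x D.hx D.hfin D.hconst D.Bi D.hBi
  have hwm : w ∈ IsLocalRing.maximalIdeal (Mod.RE A E) :=
    (IsLocalRing.mem_maximalIdeal w).2 hw.not_isUnit
  have hw0 : algebraMap (Mod.RE A E) (Mod.FE E (M' * p)) w ≠ 0 := by
    intro h0
    have h1 : algebraMap E (Mod.FE E (M' * p)) (w : E) = 0 := h0
    rw [map_eq_zero] at h1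
    exact hw.ne_zero (Subtype.ext h1)
  have hxtr : Transcendental E (Mod.xE E M' p) := hDx ▸ D.hx
  have hc₁ : Fermat.Agent.S35.H433.ValCtx w D.x V := by
    rw [hDx]
    exact valCtx_of_gauss hwm hw0 (Mod.H13.isGaussOver_xE hw hV hxtr)
  have hc₂ : Fermat.Agent.S35.H433.ValCtx w D.x V₀ := by
    rw [hDx]
    exact valCtx_of_gauss hwm hw0 (Mod.H13.isGaussOver_comap_xE hw hV hW hxtr)
  obtain ⟨G, hG0, hcv₁, hcv₂⟩ :=
    Fermat.Agent.S35.H433.exists_constV_of_gSplitV w D.x D.Bf hCf cf V V₀ hc₁ hc₂ hne hgs₁ hgs₂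
  set y' : Mod.FE E (M' * p) := y * (H ^ p)⁻¹ * (G ^ p)⁻¹ with hy'
  have hsf : IsSplit D.Bf cf y' :=
    Fermat.Agent.S35.H433.isSplit_of_constV w D.x D.Bf hCf cf V V₀ hc₁ hc₂ hne hcv₁ hcv₂
  have hsi : IsSplit D.Bi ci y' :=
    Fermat.Agent.S35.H433.isSplit_of_constV w D.x⁻¹ D.Bi hCi ci V V₀ hc₁.inv hc₂.inv hne
      hcv₁ hcv₂
  -- the Kummer function
  have hHG0 : T1.H669.iota E (modularFunctionFieldFull (M' * p)) (H * G) ≠ 0 :=
    T1.H669.iota_ne_zero E _ (mul_ne_zero hH0 hG0)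
  have hK : IsKummerGen (M' * p) p
      (T1.H669.iota E (modularFunctionFieldFull (M' * p)) y') x := by
    have e : T1.H669.iota E (modularFunctionFieldFull (M' * p)) y' =
        f * ((T1.H669.iota E (modularFunctionFieldFull (M' * p)) (H * G)) ^ p)⁻¹ := by
      rw [hy', map_mul, map_mul, map_inv₀, map_inv₀, map_pow, map_pow, hy, map_mul, mul_pow,
        mul_inv, mul_assoc]
    rw [e]
    exact isKummerGen_mul_inv_pow hf hHG0
  have hy'0 : y' ≠ 0 := by
    rintro h0
    rw [h0, map_zero] at hK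
    exact hK.1 rfl
  have hdiv : DivisibleDiv E p y' := by
    obtain ⟨-, Dv, -, hord⟩ := hK
    exact T1.H669.divisibleDiv_of_ord E (modularFunctionFieldFull (M' * p)) p y' hy'0
      (fun v => ⟨_, hord v⟩)
  have hred : ∀ {B : Subalgebra (Mod.RE A E) (Mod.FE E (M' * p))} {𝔭 : Ideal B},
      ConstAt B 𝔭 y' → RedPowAt B 𝔭 p y' := by
    intro B 𝔭 h
    refine ⟨1, one_ne_zero, ?_⟩
    rw [one_pow, mul_one]
    exact h
  refine ⟨E, hE, D, w, y', cf, ci, ?_, hw, hK, hred hsf.1, hred hsf.2, hred hsi.1, hred hsi.2,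
    ?_, ?_⟩
  · rw [hDx]
    rfl
  · intro n hn hwn
    exact Alg.H609.pureAt_of_isSplit p hp.pos w D.x D.Bf hCf cf y' hdiv hsf n hn.isPrime hwn
  · intro n hn hwn
    exact Alg.H609.pureAt_of_isSplit p hp.pos w D.x⁻¹ D.Bi hCi ci y' hdiv hsi n hn.isPrime hwn

end Core

/-- **Leaf DICT** of `Ribet/H103/S2Spec.lean`: the classes of the split part are split-reduction
classes.  (`p ≥ 5`: no condition on `M'`; `p = 3`: `2 ∣ M'`; `p = 2`: `3 ∣ M'`.) -/
theorem dictFor (p M' : ℕ) [NeZero M'] [NeZero p] [NeZero (p * M')] (hp : p.Prime)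
    (hpM : ¬ p ∣ M') (h3 : p = 3 → 2 ∣ M') (h2 : p = 2 → 3 ∣ M')
    (A : ValuationSubring Kbar) (hA : A.LiesOverPrime p) :
    DictFor p M' A (splitPart p M' A) := by
  intro x hx _
  obtain ⟨f, hf, hs⟩ := Fermat.Agent.Ribet.H884.mem_splitSet_of_mem_splitPart hx
  obtain ⟨hinf, hzer⟩ := Fermat.Agent.Ribet.H573.splitGen_lift hp hpM hA hs
  exact splitRedClassAt_of_lift hp hpM h3 h2 hA (p * M') (Nat.mul_comm p M')
    (dvd_mul_right p M') x f hf hinf hzer

/-- **Leaf DICT for `p ≥ 5`.** -/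
theorem dictFor_five (p M' : ℕ) [NeZero M'] [NeZero p] [NeZero (p * M')] (hp : p.Prime)
    (h5 : 5 ≤ p) (hpM : ¬ p ∣ M') (A : ValuationSubring Kbar) (hA : A.LiesOverPrime p) :
    DictFor p M' A (splitPart p M' A) :=
  dictFor p M' hp hpM (fun h => by omega) (fun h => by omega) A hA

end Fermat.Agent.Ribet.H997

end

end
-- ===== PACK-END Ribet/H997/Dict.lean

-- ===== PACK-BEGIN S59/LoSqC/H835/SplitPure.lean
section



/-!
# S59 / cell (C) LO-SQ, leaf SPLIT-E (helper835), part 1: PURE-SPLIT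

Objects of `S36.Mod3.Objs` at level `M q` (`q ∤ M`, neat): `R = R_E = P ∩ E`, `F' = F_E(M q)`,
`x' = j j_q = A2.Mod.xE E M q`, `V₁' = V∞`, `V₂' = V₀ = V∞ ∘ W'`.

* `isPureAt_of_pureAt835` : an `A2.Alg.PureAt` datum is an `H193.IsPureAt` datum;
* **`isSplitPure_level835`** : for every `m > 0` and every `u ∈ F'` with `m ∣ div u`
  (`A2.DivisibleDiv E m u`), `u ≡ 1` along `V∞` and along `V₀`:
  `H193.IsSplitPure w x' m V∞ V₀ u`, i.e. `u` has a purity datum at EVERY closed point of the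
  special fibre of both charts.  (`A2.Alg.H609.pureAt_of_isSplit` on the standard semistable model
  `A2.Mod`; no hypothesis on the residue characteristic versus `m`.)
* `mem_splitDiv_level835` : the same, as membership in `H193.splitDiv`.
-/

set_option autoImplicit false
set_option linter.style.haveILetI false
set_option linter.unusedSectionVars false
set_option linter.unusedVariables false
set_option synthInstance.maxHeartbeats 400000
set_option maxHeartbeats 1600000

noncomputable section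

namespace Fermat.Agent.S59.LoSqC.H835

open ModularCurve Polynomial
open Fermat.Agent.S18.H138 (chart)
open Fermat.Agent

section Abs

variable {R : Type*} [CommRing R] {F : Type*} [Field F] [Algebra R F]

/-- An `A2.Alg.PureAt` datum is an `H193.IsPureAt` datum. -/
theorem isPureAt_of_pureAt835 {w : R} {B : Subalgebra R F} {c : A2.SSChart w B} {m : ℕ} {u : F}
    {n : Ideal B} (h : A2.Alg.PureAt B c m u n) : ∃ d : F, H193.IsPureAt B n m u d := by
  obtain ⟨d, hd, ⟨a, b, ha, hb, hab⟩, -, -⟩ := h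
  exact ⟨d, hd, a, b, ha, hb, hab⟩

end Abs

section Level

variable {P : ValuationSubring A2.Qb} {E : IntermediateField ℚ A2.Qb} {M q : ℕ}
  [NeZero M] [NeZero q] [NeZero (M * q)]

/-- **PURE-SPLIT at level `M q`.** -/
theorem isSplitPure_level835 {w : A2.RE P E}
    (hS : S36.Mod3.Std P E M q w)
    {V : ValuationSubring (A2.Mod.FE E (M * q))} (hV : A2.Mod.IsVinf P E (M * q) V)
    {W : A2.Mod.FE E (M * q) ≃ₐ[E] A2.Mod.FE E (M * q)} (hW : A2.Mod.IsFricke E (M * q) W)
    {m : ℕ} (hm : 0 < m) {u : A2.Mod.FE E (M * q)} (hdiv : A2.DivisibleDiv E m u)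
    (h₁ : u - 1 ∈ V.nonunits)
    (h₂ : u - 1 ∈ (V.comap (W : A2.Mod.FE E (M * q) →+* A2.Mod.FE E (M * q))).nonunits) :
    H193.IsSplitPure (R := A2.RE P E) w (A2.Mod.xE E M q) m V
      (V.comap (W : A2.Mod.FE E (M * q) →+* A2.Mod.FE E (M * q))) u := by
  have hSet := S36.Mod3.H189.setting_of_std hS
  haveI hdvr : IsDiscreteValuationRing (A2.RE P E) := hS.unram.1.dvr
  haveI : HenselianLocalRing (A2.RE P E) := hS.unram.1.henselian
  haveI : IsAlgClosed (IsLocalRing.ResidueField (A2.RE P E)) := hS.unram.1.algClosed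
  have hAux := hS.neat.hasAux
  have hw := hS.unif
  obtain ⟨D, hDx⟩ := Ribet.H997.exists_modSSData P E M q hS.q_prime hS.q_not_dvd hAux.1 hAux.2
    hS.lies_over hdvr
  obtain ⟨cf⟩ := D.cf w hw
  obtain ⟨ci⟩ := D.ci w hw
  have hCf : A2.Alg.ChartCtx E w D.x D.Bf := ⟨hw, D.hx, D.hfin, D.hconst, D.hBf⟩
  have hCi : A2.Alg.ChartCtx E w D.x⁻¹ D.Bi :=
    A2.Alg.H34.chartCtx_inv w hw D.x D.hx D.hfin D.hconst D.Bi D.hBi
  have hwm : w ∈ IsLocalRing.maximalIdeal (A2.RE P E) :=
    (IsLocalRing.mem_maximalIdeal w).2 hw.not_isUnit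
  have hw0 : algebraMap (A2.RE P E) (A2.Mod.FE E (M * q)) w ≠ 0 := by
    intro h0
    have h1 : algebraMap E (A2.Mod.FE E (M * q)) (w : E) = 0 := h0
    rw [map_eq_zero] at h1
    exact hw.ne_zero (Subtype.ext h1)
  have hxtr : Transcendental E (A2.Mod.xE E M q) := hDx ▸ D.hx
  have hne : V ≠ V.comap (W : A2.Mod.FE E (M * q) →+* A2.Mod.FE E (M * q)) := fun h =>
    A2.Mod.H553.vzeroNe P E M q w hSet V W hV hW h.symm
  have hc₁ : S35.H433.ValCtx w D.x V := by
    rw [hDx]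
    exact Ribet.H997.valCtx_of_gauss hwm hw0 (A2.Mod.H13.isGaussOver_xE hw hV hxtr)
  have hc₂ : S35.H433.ValCtx w D.x
      (V.comap (W : A2.Mod.FE E (M * q) →+* A2.Mod.FE E (M * q))) := by
    rw [hDx]
    exact Ribet.H997.valCtx_of_gauss hwm hw0 (A2.Mod.H13.isGaussOver_comap_xE hw hV hW hxtr)
  have hcv₁ : S35.H433.ConstV (A2.RE P E) V u := ⟨1, isUnit_one, by rwa [map_one]⟩
  have hcv₂ : S35.H433.ConstV (A2.RE P E)
      (V.comap (W : A2.Mod.FE E (M * q) →+* A2.Mod.FE E (M * q))) u :=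
    ⟨1, isUnit_one, by rwa [map_one]⟩
  have hsf : A2.Alg.IsSplit D.Bf cf u :=
    S35.H433.isSplit_of_constV w D.x D.Bf hCf cf V _ hc₁ hc₂ hne hcv₁ hcv₂
  have hsi : A2.Alg.IsSplit D.Bi ci u :=
    S35.H433.isSplit_of_constV w D.x⁻¹ D.Bi hCi ci V _ hc₁.inv hc₂.inv hne hcv₁ hcv₂
  have hBf : D.Bf = chart (A2.RE P E) ({A2.Mod.xE E M q} : Set (A2.Mod.FE E (M * q))) := by
    apply SetLike.ext
    intro f
    rw [D.hBf, hDx]
    exact Iff.rfl
  have hBi : D.Bi = chart (A2.RE P E) ({(A2.Mod.xE E M q)⁻¹} : Set (A2.Mod.FE E (M * q))) := by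
    apply SetLike.ext
    intro f
    rw [D.hBi, hDx]
    exact Iff.rfl
  have pf : ∀ n : Ideal D.Bf, n.IsMaximal → algebraMap (A2.RE P E) D.Bf w ∈ n →
      ∃ d, H193.IsPureAt D.Bf n m u d := fun n hn hwn =>
    isPureAt_of_pureAt835
      (A2.Alg.H609.pureAt_of_isSplit m hm w D.x D.Bf hCf cf u hdiv hsf n hn.isPrime hwn)
  have pi : ∀ n : Ideal D.Bi, n.IsMaximal → algebraMap (A2.RE P E) D.Bi w ∈ n →
      ∃ d, H193.IsPureAt D.Bi n m u d := fun n hn hwn =>
    isPureAt_of_pureAt835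
      (A2.Alg.H609.pureAt_of_isSplit m hm w D.x⁻¹ D.Bi hCi ci u hdiv hsi n hn.isPrime hwn)
  refine ⟨h₁, h₂, ?_, ?_⟩
  · rw [← hBf]
    exact fun n hn => pf n hn.1 hn.2
  · rw [← hBi]
    exact fun n hn => pi n hn.1 hn.2

/-- PURE-SPLIT as membership in `H193.splitDiv`. -/
theorem mem_splitDiv_level835 [IsDiscreteValuationRing (A2.RE P E)]
    [HenselianLocalRing (A2.RE P E)]
    [IsAlgClosed (IsLocalRing.ResidueField (A2.RE P E))] {w : A2.RE P E}
    (hS : S36.Mod3.Std P E M q w)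
    {V : ValuationSubring (A2.Mod.FE E (M * q))} (hV : A2.Mod.IsVinf P E (M * q) V)
    {W : A2.Mod.FE E (M * q) ≃ₐ[E] A2.Mod.FE E (M * q)} (hW : A2.Mod.IsFricke E (M * q) W)
    {m : ℕ} (hm : 0 < m) {u : (A2.Mod.FE E (M * q))ˣ}
    (hdiv : A2.DivisibleDiv E m (u : A2.Mod.FE E (M * q)))
    (h₁ : (u : A2.Mod.FE E (M * q)) - 1 ∈ V.nonunits)
    (h₂ : (u : A2.Mod.FE E (M * q)) - 1 ∈
      (V.comap (W : A2.Mod.FE E (M * q) →+* A2.Mod.FE E (M * q))).nonunits) :
    u ∈ H193.splitDiv (R := A2.RE P E) E w (A2.Mod.xE E M q) m V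
      (V.comap (W : A2.Mod.FE E (M * q) →+* A2.Mod.FE E (M * q))) :=
  ⟨isSplitPure_level835 hS hV hW hm hdiv h₁ h₂, hdiv⟩

end Level

end Fermat.Agent.S59.LoSqC.H835

end

end
-- ===== PACK-END S59/LoSqC/H835/SplitPure.lean

-- ===== PACK-BEGIN Ribet/H698/RedMapSpec.lean
section


/-!
# Row 37, WALL-q, leaf RED-MAP (`H158.WallQ.RedMapStatement`): frozen sub-leaves
  (sub-architect helper698)

`N = q·M'`, `q ∤ M'`, `A` a valuation subring of `ℚ̄` over `q`, `k = kA A`, torsion order `m`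
prime to `q` (`m = p ^ n` in the application), `F_k = modularFunctionFieldFullC k M'`.

The map `β : 𝓕 → J₀(M') × J₀(M')` of RED-MAP is defined through the relation
"`x` lifts to `z` on the `∞`-component" (resp. on the `0`-component):

  `LiftsInf m q M' A x z`  :=  `x` has a Kummer generator `f` (level `qM'`), `z` has a Kummer
     generator `g` (level `M'`), with reductions `r` of `f` and `s` of `g` on the `∞`-component
     such that `r / s = c · h ^ m`, `c ∈ kˣ`, `h ∈ F_kˣ`;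
  `LiftsZero m q M' A x z` :=  the same with `r` a reduction of `w_N f` (`IsRedZero`).

No `Pic⁰(F_k)` appears in the interface: only the landed vocabulary `IsKummerGen`, `IsRedInf`,
`PDivSeries`, `PPowSeries`.

## Leaves (all at the level `M'`, good reduction at `q`; prove VERBATIM)
| leaf | Prop | content |
|---|---|---|
| KUMMER-RED  | `KummerRedStatement`  | the reduction of a Kummer generator of level `M'` is `PDivSeries` |
| GR-SURJ-K   | `GRSurjKStatement`    | every `PDivSeries m M' r` is `c · s · h ^ m`, `s` the reduction of a Kummer generator of some `z ∈ J₀(M')` (torsion lifts to characteristic `0`) |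
| GR-INJ-K    | `GRInjKStatement`     | a class of `J₀(M')` with a Kummer generator whose reduction is `c · h ^ m` is `0` (S18) |
| KNORM-FIELD | `KnormFieldStatement` | the formal Kronecker norm preserves `F_k` |

Glue (PROVED in `RedMapGlue.lean`): the four leaves ⟹ `H158.WallQ.RedMapStatement`
(hence `Q3Statement` by `H158.WallQ.q3_of_redMap`).
-/

set_option autoImplicit false
set_option synthInstance.maxHeartbeats 400000
set_option maxHeartbeats 1000000

noncomputable section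

namespace Fermat.Agent.Ribet.H698.RedMap

open AlgebraicCurve ModularCurve HahnSeries
open Fermat.Agent.S24 Fermat.Agent.A2.H708 Fermat.Agent.A2.H528
open Fermat.Agent.Ribet.Spec Fermat.Agent.Ribet.H944.Wall Fermat.Agent.Ribet.H884
open Fermat.Agent.Ribet.H158.WallQ
open Fermat.Agent.S37.H400

/-! ## The lifting relations -/

section Rel

variable (m q M' : ℕ) [NeZero M'] [NeZero (q * M')] (A : ValuationSubring Kbar)

/-- `x ∈ J₀(qM')` lifts to `z ∈ J₀(M')` on the `∞`-component. -/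
def LiftsInf (x : JZero (q * M')) (z : JZero M') : Prop :=
  ∃ (f : FF (q * M')) (g : FF M') (r s : LaurentSeries (kA A)),
    IsKummerGen (q * M') m f x ∧ IsKummerGen M' m g z ∧
    IsRedInf (q * M') A f r ∧ IsRedInf M' A g s ∧ PPowSeries m M' (r * s⁻¹)

/-- `x ∈ J₀(qM')` lifts to `z ∈ J₀(M')` on the `0`-component. -/
def LiftsZero (x : JZero (q * M')) (z : JZero M') : Prop :=
  ∃ (f : FF (q * M')) (g : FF M') (r s : LaurentSeries (kA A)),
    IsKummerGen (q * M') m f x ∧ IsKummerGen M' m g z ∧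
    IsRedZero (q * M') A f r ∧ IsRedInf M' A g s ∧ PPowSeries m M' (r * s⁻¹)

end Rel

/-! ## Leaves -/

/-- **KUMMER-RED** (good reduction at `q ∤ M'`): the reduction of a Kummer generator of level
`M'` lies in `F_k` and has `m`-divisible orders at all places
(`div (red g) = red_* (div g) = m · red_* E`). -/
def KummerRedStatement : Prop :=
  ∀ (m q M' : ℕ) [NeZero M'], q.Prime → q ≠ 2 → ¬ q ∣ M' →
    ∀ A : ValuationSubring Kbar, A.LiesOverPrime q →
    ∀ (z : JZero M') (g : FF M') (s : LaurentSeries (kA A)),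
      IsKummerGen M' m g z → IsRedInf M' A g s → PDivSeries m M' s

/-- **GR-SURJ-K** (torsion lifts to characteristic `0`, Kummer form): every `r ∈ F_k` with
`m ∣ div r` is, up to a constant and an `m`-th power of `F_k`, the reduction of a Kummer
generator of a class of `J₀(M')`.  (`reductionModL` is onto `Pic⁰(F_k)[m]`, `m` prime to `q`.) -/
def GRSurjKStatement : Prop :=
  ∀ (m q M' : ℕ) [NeZero M'], q.Prime → q ≠ 2 → ¬ q ∣ M' → 0 < m → Nat.Coprime m q →
    ∀ A : ValuationSubring Kbar, A.LiesOverPrime q →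
    ∀ r : LaurentSeries (kA A), PDivSeries m M' r →
      ∃ (z : JZero M') (g : FF M') (s : LaurentSeries (kA A)),
        IsKummerGen M' m g z ∧ IsRedInf M' A g s ∧ PPowSeries m M' (r * s⁻¹)

/-- **GR-INJ-K** (S18 in Kummer form): a class of `J₀(M')` with a Kummer generator whose
reduction is a constant times an `m`-th power of `F_k` is `0` (`m` prime to `q`). -/
def GRInjKStatement : Prop :=
  ∀ (m q M' : ℕ) [NeZero M'], q.Prime → q ≠ 2 → ¬ q ∣ M' → 0 < m → Nat.Coprime m q →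
    ∀ A : ValuationSubring Kbar, A.LiesOverPrime q →
    ∀ (z : JZero M') (g : FF M') (s : LaurentSeries (kA A)),
      IsKummerGen M' m g z → IsRedInf M' A g s → PPowSeries m M' s → z = 0

/-- **KNORM-FIELD**: the formal Kronecker norm `kronNorm ℓ` (`ℓ ∤ q M'`) maps
`F_k = k(X₀(M'))` into itself. -/
def KnormFieldStatement : Prop :=
  ∀ (q M' : ℕ) [NeZero M'], q.Prime → ¬ q ∣ M' →
    ∀ A : ValuationSubring Kbar, A.LiesOverPrime q →
    ∀ (ℓ : ℕ) [NeZero ℓ], ℓ.Prime → ¬ ℓ ∣ q * M' →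
    ∀ h : modularFunctionFieldFullC (kA A) M',
      kronNorm ℓ (h : LaurentSeries (kA A)) ∈ modularFunctionFieldFullC (kA A) M'

end Fermat.Agent.Ribet.H698.RedMap

end

end
-- ===== PACK-END Ribet/H698/RedMapSpec.lean

-- ===== PACK-BEGIN S59/LoSqC/H865/NodeDict.lean
section





/-!
# S59 moonshot, cell (C) LO-SQ, W-COUNT: leaf NODE-DICT (helper865, OFF-MAIN)

The label calculus of helper193 / helper630 at level `M q` (`H193.lab1SurjAt_of_card`,
`H193.card_splitPure_le`, `H630.lab1SurjE_of_family630`) takes as INPUT a finite set `Sg` of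
ideals of `chart R {x'}` (`x' = A2.Mod.xE E M q`) which is EXACTLY the set of the nodes
(`H193.IsNodePt`: closed points of the special fibre through which both sheets `V∞`, `V₀` pass).
The node count GUB4 (helper139 + helper807 + helper550, `H139.Gub4.exists_finset_nodes`) is stated
in the R3 vocabulary (`H803.IsNode p₁ p₂ n` on `Bfin`, `p₁ p₂` the two cuts).

* `isNodePt_iff_isNode865`   : the dictionary `H193.IsNodePt ↔ H803.IsNode`;
* **`exists_nodes865`**      : for `Mod3.Std`, `5 ≤ q`: the finite set `Sg` of ALL nodes, with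
                               `12 · #Sg ≤ (q - 1) ψ(M)`;
* **`exists_nodes_count865`** : the same with the exponent inequality of the count
                               (helper140 `count_num140`): `4 g₀ + 2 (#Sg - 1) ≤ 2 g(q M)`,
                               i.e. `a + 2 h ≤ c` of `H505.count_family505` with `h = #Sg - 1`.
-/

set_option autoImplicit false
set_option linter.unusedSectionVars false
set_option linter.unusedVariables false
set_option linter.style.haveILetI false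
set_option synthInstance.maxHeartbeats 400000
set_option maxHeartbeats 1600000

noncomputable section

namespace Fermat.Agent.S59.LoSqC.H865

open ModularCurve Fermat.Agent.A2.Mod Fermat.Agent.S36.H803
open Fermat.Agent.S18.H138 (chart)
open Fermat.Agent

variable (P : ValuationSubring Qb) (E : IntermediateField ℚ Qb) (M q : ℕ) [NeZero M] [NeZero q]
  [NeZero (M * q)] (w : RE P E)

/-- **The dictionary** between the nodes of the label calculus (`H193.IsNodePt`) and the nodes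
of the R3 vocabulary (`H803.IsNode`), given the two cuts in `nonunits` form
(`H456.exists_components_of_std`). -/
theorem isNodePt_iff_isNode865
    (V₁ V₂ : ValuationSubring (FE E (M * q)))
    (hw₁ : algebraMap (RE P E) (FE E (M * q)) w ∈ V₁.nonunits)
    (p₁ p₂ : Ideal (Bfin P E M q))
    (hp₁ : ∀ b : Bfin P E M q, b ∈ p₁ ↔ (b : FE E (M * q)) ∈ V₁.nonunits)
    (hp₂ : ∀ b : Bfin P E M q, b ∈ p₂ ↔ (b : FE E (M * q)) ∈ V₂.nonunits)
    (n : Ideal (Bfin P E M q)) :
    H193.IsNodePt w (Bfin P E M q) V₁ V₂ n ↔ IsNode P E M q p₁ p₂ n := by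
  constructor
  · rintro ⟨⟨hmax, -⟩, h₁, h₂⟩
    exact ⟨hmax, fun b hb => h₁ b ((hp₁ b).1 hb), fun b hb => h₂ b ((hp₂ b).1 hb)⟩
  · rintro ⟨hmax, h₁, h₂⟩
    refine ⟨⟨hmax, ?_⟩, fun b hb => h₁ ((hp₁ b).2 hb), fun b hb => h₂ ((hp₂ b).2 hb)⟩
    exact h₁ ((hp₁ _).2 hw₁)

/-- **NODE-DICT.**  At a neat level `M q`, `5 ≤ q`, over an unramified good level: the nodes of
the finite chart (in the sense of the label calculus) form a finite set `Sg`, and
`12 · #Sg ≤ (q - 1) ψ(M)`. -/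
theorem exists_nodes865 (hStd : S36.Mod3.Std P E M q w) (h5 : 5 ≤ q)
    (V : ValuationSubring (FE E (M * q))) (W : FE E (M * q) ≃ₐ[E] FE E (M * q))
    (hV : IsVinf P E (M * q) V) (hW : IsFricke E (M * q) W) :
    ∃ Sg : Finset (Ideal (_root_.Fermat.Agent.S18.H138.chart (RE P E) ({xE E M q} : Set (FE E (M * q))))),
      (∀ n, n ∈ Sg ↔ H193.IsNodePt w (_root_.Fermat.Agent.S18.H138.chart (RE P E) ({xE E M q} : Set (FE E (M * q)))) V
        (V.comap (W : FE E (M * q) →+* FE E (M * q))) n) ∧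
      12 * Sg.card ≤ (q - 1) * dedekindPsi M := by
  have hS := H456.setting_of_std P E M q w hStd
  haveI := hS.dvr
  obtain ⟨p₁, p₂, hcomp, hp₁, hp₂⟩ := H456.exists_components_of_std P E M q w hStd V W hV hW
  obtain ⟨s, hs, hcard⟩ := Fermat.Agent.S59.H139.Gub4.exists_finset_nodes P E M q w
    (H456.r3Hyp_of_std P E M q w hStd) (H456.four_dvd_of_std P E M q w hStd (by omega)) h5
    p₁ p₂ hcomp
  have hu : Fermat.Agent.A2.H48.IsUnif V (cE P E (M * q) w) :=
    (H553.vinfBasic P E w (M * q) (NeZero.ne _) hS.dvr hS.unif V hV).1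
  have hw₁ : algebraMap (RE P E) (FE E (M * q)) w ∈ V.nonunits := by
    rw [ValuationSubring.mem_nonunits_iff]
    exact hu.val_lt_one
  have key : ∃ Sg : Finset (Ideal (Bfin P E M q)),
      (∀ n, n ∈ Sg ↔ H193.IsNodePt w (Bfin P E M q) V
        (V.comap (W : FE E (M * q) →+* FE E (M * q))) n) ∧
      12 * Sg.card ≤ (q - 1) * dedekindPsi M :=
    ⟨s, fun n => (hs n).trans (isNodePt_iff_isNode865 P E M q w V _ hw₁ p₁ p₂ hp₁ hp₂ n).symm,
      hcard⟩
  exact key

/-- **NODE-DICT with the exponent inequality of the count**: `a + 2 h ≤ c` with `a = 4 g₀`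
(`g₀` the genus of the reduction of `X₀(M)` at `A`), `h = #Sg - 1`, `c = 2 g(q M)`. -/
theorem exists_nodes_count865 (hStd : S36.Mod3.Std P E M q w) (h5 : 5 ≤ q)
    (V : ValuationSubring (FE E (M * q))) (W : FE E (M * q) ≃ₐ[E] FE E (M * q))
    (hV : IsVinf P E (M * q) V) (hW : IsFricke E (M * q) W)
    (A : ValuationSubring Qb) (hA : A.LiesOverPrime q) :
    ∃ Sg : Finset (Ideal (_root_.Fermat.Agent.S18.H138.chart (RE P E) ({xE E M q} : Set (FE E (M * q))))),
      (∀ n, n ∈ Sg ↔ H193.IsNodePt w (_root_.Fermat.Agent.S18.H138.chart (RE P E) ({xE E M q} : Set (FE E (M * q)))) V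
        (V.comap (W : FE E (M * q) →+* FE E (M * q))) n) ∧
      12 * Sg.card ≤ (q - 1) * dedekindPsi M ∧
      4 * H140.gRes140 A M + 2 * (Sg.card - 1) ≤ 2 * H140.gBar140 (M * q) := by
  obtain ⟨Sg, hSg, hcard⟩ := exists_nodes865 P E M q w hStd h5 V W hV hW
  refine ⟨Sg, hSg, hcard, ?_⟩
  haveI : NeZero (q * M) := ⟨by rw [Nat.mul_comm]; exact NeZero.ne _⟩
  haveI : Fact q.Prime := ⟨hStd.q_prime⟩
  obtain ⟨r, hr, hr12, -, hrM⟩ := hStd.neat.1
  have hgood := H140.goodLevel_of_neatFor140 hStd.q_prime hStd.neat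
  have hrel := H140.genus_relation140 hStd.q_not_dvd hr hr12 hrM hgood A hA
  have hψ : 0 < dedekindPsi M := dedekindPsi_pos_of_ne_zero M (NeZero.ne M)
  have hq4 : 4 ≤ (q - 1) * dedekindPsi M := by
    calc 4 = 4 * 1 := by norm_num
      _ ≤ (q - 1) * dedekindPsi M := Nat.mul_le_mul (by omega) hψ
  rw [H140.gBar_mul_comm140]
  omega

end Fermat.Agent.S59.LoSqC.H865

end

end
-- ===== PACK-END S59/LoSqC/H865/NodeDict.lean

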