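import Fermat.Agent.Pack.S59C.E9L2
import Fermat.Agent.Pack.S59C.E11L0
import Fermat.Agent.Pack.S59C.E7L3
import Fermat.Agent.Pack.S43MC.G0E19L3
import Fermat.Agent.Pack.S59C.E8L0
import Fermat.Agent.Pack.S43GC.G0E14L0
import Fermat.Agent.Pack.S59C.E6L0
import Fermat.Agent.Pack.S59C.E0L0
import Fermat.Agent.Pack.S59C.E11L1
import Fermat.Agent.Pack.S43GC.G0E13L0
import Fermat.Agent.Pack.S43GC.G0E14L3
import Fermat.Agent.Pack.S43GC.G0E8L0
import Fermat.Agent.Pack.S43GC.G0E12L3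
import Fermat.Agent.Pack.S59C.E5L3
import Fermat.Agent.Pack.S43GC.G0E10L3
import Fermat.Agent.Pack.S59C.E6L2
import Fermat.Agent.Pack.S59C.E7L1
import Fermat.Agent.Pack.S59C.E6L1
import Fermat.Agent.Pack.S59C.E7L2
import Fermat.Agent.Pack.S59C.E8L2
import Fermat.Agent.Pack.S43MC.G0E25L3
import Fermat.Agent.Pack.S44C.G0E6L2
import Fermat.Agent.Pack.S59C.E10L0
import Fermat.Agent.Pack.S43MC.G0E26L1
import Fermat.Agent.Pack.S43C.E2L3
import Fermat.Agent.Pack.S59C.E7L0
import Fermat.Agent.Pack.S44C.G0E28L0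
import Fermat.Agent.Pack.S43MC.G0E27L1
import Fermat.Agent.Pack.S59C.E2L1
import Fermat.Agent.Pack.S44C.G0E12L1
import Fermat.Agent.Pack.S43MC.G0E27L3
import Fermat.Agent.Pack.S44C.G0E24L1
import Fermat.Agent.Pack.S59C.E10L1
import Fermat.Agent.Pack.S59C.E11L3

set_option linter.all false

-- ===== PACK-BEGIN S59/H585/EtaFinal.lean
section






/-!
# S59, cell NM: the Hecke side NM-ETA from the single open leaf OLD (helper585)

On main: HK2 (`H202.hk2`), ADJ2 / PERF / BASE / STEP / ETA-IND (`H585`), IHARA2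
(`H161.ihara2_of_ne` + `H950.nePrimeK`), ETAB (`NM.H709.etaOfBound`).  Hence

* `ihara2          : NM.Ihara2Statement`      (unconditional);
* `boundStep_of_old : NM.OldStatement → NM.BoundStepStatement`;
* `etaAbs_of_old    : NM.OldStatement → NM.EtaAbsStatement`;
* `bettiTarget_of_old : NM.OldStatement → NMP.BettiTargetStatement`.
-/

set_option autoImplicit false

namespace Fermat.Agent.S59.H585

open Fermat.Agent.S59.NM

/-- **IHARA2**, unconditional. -/
theorem ihara2 : Ihara2Statement :=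
  Fermat.Agent.S59.H161.ihara2_of_ne
    (fun p _ hp2 k _ _ _ ρbar habs hsplit S hpS a ha q hq hqp m hm S' =>
      Fermat.Agent.S59.H950.nePrimeK p hp2 k ρbar habs hsplit S hpS a ha q hq hqp m hm S')

/-- **STEP** from OLD. -/
theorem boundStep_of_old (hOld : OldStatement) : BoundStepStatement :=
  boundStep_of_leaves ihara2 hOld

/-- **NM-ETA** from OLD. -/
theorem etaAbs_of_old (hOld : OldStatement) : EtaAbsStatement :=
  etaAbs_of_leaves ihara2 hOld Fermat.Agent.S59.NM.H709.etaOfBound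

/-- **BB** (cell NMP) from OLD. -/
theorem bettiTarget_of_old (hOld : OldStatement) :
    Fermat.Agent.S59.NMP.BettiTargetStatement :=
  bettiTarget_of (boundStep_of_old hOld)

end Fermat.Agent.S59.H585

end
-- ===== PACK-END S59/H585/EtaFinal.lean

-- ===== PACK-BEGIN S55/E1/Lim/Sys.lean
section
/-
S55 engine E1 — block LIM: THE FOUR SYSTEMS over the tower (definitions, sorry-free).
Sub-architect E1-LIM: helper474.  Blueprint: coord/S55-E1.md §4, coord/S55-E1-LIM.md.
Namespace `Fermat.Agent.S55.E1.Lim`.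

For a context `c : Ctx S p` (tower datum `D`, module `M`, `N = M^∨(1)`, base level trivialising
`M` and `N`) and levels `L ≥ c.base`:
* `c.NL L = toInt (coeff N L)`, `c.ML L = toInt (coeff M L)` (helper603's conventions),
  `c.ν h : N_{L'} ⟶ Res N_L`;
* `c.sysT`  : `T_F  = A_F(C) / (Σ_q j_q A_F(J_q) + res Bc_F(C))`   (= `H957.TQ`, `H957.trT`);
* `c.sysT1` : `T'_F = A_F(C') / im A_F(J)`;
* `c.sysK`  : `K_F  = ker (𝔈²_F(E) → 𝔈²_F(J))`;
* `c.sysSh` : `Ш²_F = {x ∈ H²(G_F, M) | infl x ∈ sha₂ S M}`, with `c.shι : Ш²_F → sha₂ S M`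
  and `c.sh_isColim`.
-/







set_option autoImplicit false

open CategoryTheory CategoryTheory.Limits groupCohomology ExtCitation

namespace Fermat.Agent.S55.E1.Lim

open Fermat.Agent.S55.Tow Fermat.Agent.S55.E1

noncomputable section

/-! ## Coefficient modules at finite level -/

section Coeff

variable {S : Finset Nat.Primes} {K : Type} [Field K] (A : Rep.{0, 0, 0} K GQ)

/-- `A^{U_F}` as a `ℤ[Gal(F/ℚ)]`-module. -/
abbrev cf (L : Level S) : Rep.{0} ℤ L.Gal := H603.toInt (H603.coeff A L)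

/-- The inclusion `A^{U_F} ⊆ A^{U_{F'}}`, as a morphism `Res (cf A L) ⟶ cf A L'`. -/
def cfμ {L L' : Level S} (h : L ≤ L') : Rep.res (Level.proj h) (cf A L) ⟶ cf A L' :=
  H603.toIntHom (Level.proj h) (H603.transHom A h)

/-- The underlying element of `A`. -/
def cfVal {L : Level S} (a : (cf A L).V) : A.V := (a : H603.coeff A L).1

lemma cfVal_injective {L : Level S} : Function.Injective (cfVal A (L := L)) :=
  Subtype.val_injective

/-- Constructor of elements of `cf A L` when `U_F` acts trivially. -/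
def cfMk {L : Level S} (hL : ∀ s ∈ L.U, ∀ a : A, A.ρ s a = a) (a : A.V) : (cf A L).V :=
  H603.toCoeff A L hL a

@[simp] lemma cfVal_cfMk {L : Level S} (hL : ∀ s ∈ L.U, ∀ a : A, A.ρ s a = a) (a : A.V) :
    cfVal A (cfMk A hL a) = a := rfl

@[simp] lemma cfVal_cfμ {L L' : Level S} (h : L ≤ L') (a : (cf A L).V) :
    cfVal A ((cfμ A h).hom a) = cfVal A a := rfl

lemma cfVal_ρ {L : Level S} (g : GQ) (a : (cf A L).V) :
    cfVal A ((cf A L).ρ (QuotientGroup.mk g) a) = A.ρ g (cfVal A a) := rfl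

/-- The identity of `A` as a morphism `cf A L' ⟶ Res (cf A L)` (`F` trivialising `A`). -/
def cfν {L L' : Level S} (h : L ≤ L') (hL : ∀ s ∈ L.U, ∀ a : A, A.ρ s a = a) :
    cf A L' ⟶ Rep.res (Level.proj h) (cf A L) :=
  Rep.ofHom ⟨(AddMonoidHom.mk' (fun a' : (cf A L').V => cfMk A hL (cfVal A a'))
      (fun _ _ => rfl)).toIntLinearMap, fun g => by
    induction g using QuotientGroup.induction_on with
    | H g => exact LinearMap.ext fun a' => rfl⟩

@[simp] lemma cfVal_cfν {L L' : Level S} (h : L ≤ L') (hL : ∀ s ∈ L.U, ∀ a : A, A.ρ s a = a)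
    (a' : (cf A L').V) : cfVal A ((cfν A h hL).hom a') = cfVal A a' := rfl

/-- `cfν` and `cfμ` are inverse isomorphisms. -/
def cfIso {L L' : Level S} (h : L ≤ L') (hL : ∀ s ∈ L.U, ∀ a : A, A.ρ s a = a) :
    cf A L' ≅ Rep.res (Level.proj h) (cf A L) where
  hom := cfν A h hL
  inv := cfμ A h
  hom_inv_id := by
    apply Rep.hom_ext
    apply DFunLike.ext
    intro x
    exact cfVal_injective A rfl
  inv_hom_id := by
    apply Rep.hom_ext
    apply DFunLike.ext
    intro x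
    exact cfVal_injective A rfl

end Coeff

/-! ## Compatibility of the diagonal with the transition maps -/

section Diag

variable {S : Finset Nat.Primes}

lemma proj_trans_apply {L L' L'' : Level S} (h : L ≤ L') (h' : L' ≤ L'') (g : L''.Gal) :
    Level.proj (h.trans h') g = Level.proj h (Level.proj h' g) := by
  induction g using QuotientGroup.induction_on with
  | H g => rfl

lemma trJ_diag {L L' : Level S} (h : L ≤ L') (q : Nat.Primes) (x : L.units.V) :
    (Level.trJ h q).hom ((L.diag q).hom x) = (L'.diag q).hom ((Level.trUnits h).hom x) := by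
  apply L'.J_ext q
  intro g'
  have h1 : L'.units.ρ g' ((Level.trUnits h).hom x) =
      (Level.trUnits h).hom (L.units.ρ (Level.proj h g') x) :=
    (Rep.hom_comm_apply (Level.trUnits h) g' x).symm
  show Level.inclLoc h q (L.embFun q (L.units.ρ (Level.proj h g') x)) =
    L'.embFun q (L'.units.ρ g' ((Level.trUnits h).hom x))
  rw [h1]
  apply L'.locCoe_injective q
  rfl

lemma trJtot_diagTot {L L' : Level S} (h : L ≤ L') (e : (sUnits L).V) :
    (trJtot h).hom ((diagTot L).hom e) = (diagTot L').hom ((trS h).hom e) := by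
  apply piRep_ext
  intro q
  exact trJ_diag h q.1 ((sIncl L).hom e)

end Diag

/-! ## The context -/

/-- The data needed to define the systems of the engine. -/
structure Ctx (S : Finset Nat.Primes) (p : ℕ) [Fact p.Prime] where
  /-- the tower datum -/
  D : TowerDatum S
  /-- the module `M = N'` (whose `Ш²` is computed) -/
  M : Rep.{0, 0, 0} (ZMod p) GQ
  /-- the base level -/
  base : Level S
  /-- GD7a -/
  h7 : TrCompat D
  /-- GD7b -/
  h7b : ∀ {L L' L'' : Level S} (h : L ≤ L') (h' : L' ≤ L'') (c : (D.C L).V),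
    (D.tr h').hom ((D.tr h).hom c) = (D.tr (h.trans h')).hom c
  /-- GD4 -/
  h4 : KerDiag D
  /-- the base level trivialises `M` -/
  hM : ∀ s ∈ base.U, ∀ m : M, M.ρ s m = m
  /-- the base level trivialises `N = M^∨(1)` -/
  hN : ∀ s ∈ base.U, ∀ n : M.dualTwist (cycloChar p), (M.dualTwist (cycloChar p)).ρ s n = n

namespace Ctx

variable {S : Finset Nat.Primes} {p : ℕ} [Fact p.Prime] (c : Ctx S p)

/-- `N = M^∨(1)`. -/
abbrev N : Rep.{0, 0, 0} (ZMod p) GQ := c.M.dualTwist (cycloChar p)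

/-- The index set: levels above the base level. -/
def Idx : Type := {L : Level S // c.base ≤ L}

instance : Preorder c.Idx := Subtype.preorder _

instance : Nonempty c.Idx := ⟨⟨c.base, le_rfl⟩⟩

instance : IsDirected c.Idx (· ≤ ·) :=
  ⟨fun L L' => by
    obtain ⟨L'', h1, h2⟩ := exists_ge_ge L.1 L'.1
    exact ⟨⟨L'', L.2.trans h1⟩, h1, h2⟩⟩

lemma hN_at (L : c.Idx) : ∀ s ∈ L.1.U, ∀ n : c.N, c.N.ρ s n = n :=
  fun s hs n => c.hN s (Level.U_anti L.2 hs) n

lemma hM_at (L : c.Idx) : ∀ s ∈ L.1.U, ∀ m : c.M, c.M.ρ s m = m :=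
  fun s hs m => c.hM s (Level.U_anti L.2 hs) m

/-- `N` at level `L`, as a `ℤ[Gal(F/ℚ)]`-module. -/
abbrev NL (L : c.Idx) : Rep.{0} ℤ L.1.Gal := cf c.N L.1

/-- `M` at level `L`, as a `ℤ[Gal(F/ℚ)]`-module. -/
abbrev ML (L : c.Idx) : Rep.{0} ℤ L.1.Gal := cf c.M L.1

/-- The projection `Gal(F'/ℚ) → Gal(F/ℚ)`. -/
abbrev π {L L' : c.Idx} (h : L ≤ L') : L'.1.Gal →* L.1.Gal := Level.proj (S := S) h

/-- `ν : N_{L'} ⟶ Res N_L` (the identity of `N`). -/
def ν {L L' : c.Idx} (h : L ≤ L') : c.NL L' ⟶ Rep.res (c.π h) (c.NL L) :=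
  cfν c.N (S := S) h (c.hN_at L)

/-- `ν` as an isomorphism. -/
def νIso {L L' : c.Idx} (h : L ≤ L') : c.NL L' ≅ Rep.res (c.π h) (c.NL L) :=
  cfIso c.N (S := S) h (c.hN_at L)

lemma π_trans {L L' L'' : c.Idx} (h : L ≤ L') (h' : L' ≤ L'') (g : L''.1.Gal) :
    c.π (h.trans h') g = c.π h (c.π h' g) := proj_trans_apply _ _ g

lemma ν_trans {L L' L'' : c.Idx} (h : L ≤ L') (h' : L' ≤ L'') (n : (c.NL L'').V) :
    (c.ν (h.trans h')).hom n = (c.ν h).hom ((c.ν h').hom n) := rfl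

/-- The family `j_q : J_q(F) ⟶ C(F)`, `q ∈ S`. -/
abbrev jS (L : c.Idx) (q : S) : L.1.J q.1 ⟶ c.D.C L.1 := c.D.j L.1 q.1

lemma sq {L L' : c.Idx} (h : L ≤ L') (q : S) :
    (Rep.resFunctor (c.π h)).map (c.jS L q) ≫ c.D.tr h = Level.trJ h q.1 ≫ c.jS L' q :=
  H957.sq_of_apply (c.π h) (c.D.tr h) (c.jS L) (c.jS L') (fun q => Level.trJ h q.1) q
    (fun x => c.h7 h q.1 q.2 x)

/-! ### The system `T` -/

/-- `T_F = A_F(C) / (Σ_q j_q A_F(J_q) + res Bc_F(C))`. -/
abbrev TObj (L : c.Idx) : Type := H957.TQ (N := c.NL L) (c.jS L)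

/-- The transition maps of `T`. -/
def trT {L L' : c.Idx} (h : L ≤ L') : c.TObj L →+ c.TObj L' :=
  H957.trT (c.π h) (c.ν h) (c.D.tr h) (c.jS L) (c.jS L') (fun q => Level.trJ h q.1) (c.sq h)

lemma trT_mk {L L' : c.Idx} (h : L ≤ L') (f : homA (c.NL L) (c.D.C L.1)) :
    c.trT h (QuotientAddGroup.mk f) = QuotientAddGroup.mk (trA (c.π h) (c.ν h) (c.D.tr h) f) :=
  rfl

/-- The system `T`. -/
def sysT : AddSys c.Idx where
  obj := c.TObj
  grp := fun _ => inferInstance
  tr := fun h => c.trT h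
  tr_tr := fun {L L' L''} h h' t => by
    induction t using QuotientAddGroup.induction_on with
    | H f =>
      rw [trT_mk, trT_mk, trT_mk]
      congr 1
      exact trA_comp (c.π h) (c.π h') (c.π (h.trans h')) (c.ν h) (c.ν h') (c.ν (h.trans h'))
        (c.D.tr h) (c.D.tr h') (c.D.tr (h.trans h')) (c.π_trans h h') (c.ν_trans h h')
        (fun x => (c.h7b h h' x).symm) f

/-! ### The system `T'` -/

/-- `im (A_F(J) → A_F(C'))`. -/
abbrev T1Sub (L : c.Idx) : AddSubgroup (homA (c.NL L) (C1 c.D L.1)) :=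
  (Preadditive.rightComp (stdR (c.NL L)) (jC1 c.D L.1)).range

/-- `T'_F = A_F(C') / im A_F(J)`. -/
abbrev T1Obj (L : c.Idx) : Type := homA (c.NL L) (C1 c.D L.1) ⧸ c.T1Sub L

lemma trA_mem_T1Sub {L L' : c.Idx} (h : L ≤ L') :
    c.T1Sub L ≤ (c.T1Sub L').comap (trA (c.π h) (c.ν h) (trC1 c.h7 h)) := by
  rintro _ ⟨u, rfl⟩
  refine ⟨trA (c.π h) (c.ν h) (trJtot h) u, ?_⟩
  exact (trA_natural (c.π h) (c.ν h) (jC1 c.D L.1) (jC1 c.D L'.1) (trJtot h) (trC1 c.h7 h)
    (fun x => trC1_jC1 c.h7 h x) u).symm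

/-- The transition maps of `T'`. -/
def trT1 {L L' : c.Idx} (h : L ≤ L') : c.T1Obj L →+ c.T1Obj L' :=
  QuotientAddGroup.map _ _ (trA (c.π h) (c.ν h) (trC1 c.h7 h)) (c.trA_mem_T1Sub h)

lemma trT1_mk {L L' : c.Idx} (h : L ≤ L') (f : homA (c.NL L) (C1 c.D L.1)) :
    c.trT1 h (QuotientAddGroup.mk f) =
      QuotientAddGroup.mk (trA (c.π h) (c.ν h) (trC1 c.h7 h) f) := rfl

lemma trC1_trans {L L' L'' : c.Idx} (h : L ≤ L') (h' : L' ≤ L'') (x : (C1 c.D L.1).V) :
    (trC1 c.h7 (h.trans h')).hom x = (trC1 c.h7 h').hom ((trC1 c.h7 h).hom x) := by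
  apply inclC1_injective c.D L''.1
  rw [inclC1_trC1, inclC1_trC1, inclC1_trC1]
  exact (c.h7b h h' _).symm

/-- The system `T'`. -/
def sysT1 : AddSys c.Idx where
  obj := c.T1Obj
  grp := fun _ => inferInstance
  tr := fun h => c.trT1 h
  tr_tr := fun {L L' L''} h h' t => by
    induction t using QuotientAddGroup.induction_on with
    | H f =>
      rw [trT1_mk, trT1_mk, trT1_mk]
      congr 1
      exact trA_comp (c.π h) (c.π h') (c.π (h.trans h')) (c.ν h) (c.ν h') (c.ν (h.trans h'))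
        (trC1 c.h7 h) (trC1 c.h7 h') (trC1 c.h7 (h.trans h')) (c.π_trans h h') (c.ν_trans h h')
        (c.trC1_trans h h') f

/-! ### The system `K` -/

/-- `K_F = ker (𝔈²_F(E) → 𝔈²_F(J))`. -/
abbrev KSub (L : c.Idx) : AddSubgroup (E2 (c.NL L) (sUnits L.1)) :=
  (H354.ihomH1Map (stdR (c.NL L)) (diagTot L.1)).hom.toAddMonoidHom.ker

/-- `K_F` as a type. -/
abbrev KObj (L : c.Idx) : Type := c.KSub L

lemma trE2_mem_KSub {L L' : c.Idx} (h : L ≤ L') (y : E2 (c.NL L) (sUnits L.1))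
    (hy : y ∈ c.KSub L) : trE2 (c.π h) (c.ν h) (trS h) y ∈ c.KSub L' := by
  have h1 := trE2_natural (c.π h) (c.ν h) (diagTot L.1) (diagTot L'.1) (trS h) (trJtot h)
    (fun e => trJtot_diagTot h e) y
  show (H354.ihomH1Map (stdR (c.NL L')) (diagTot L'.1)).hom (trE2 (c.π h) (c.ν h) (trS h) y) = 0
  rw [← h1]
  have h2 : (H354.ihomH1Map (stdR (c.NL L)) (diagTot L.1)).hom y = 0 := hy
  rw [h2, map_zero]

/-- The transition maps of `K`. -/
def trK {L L' : c.Idx} (h : L ≤ L') : c.KObj L →+ c.KObj L' where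
  toFun y := ⟨trE2 (c.π h) (c.ν h) (trS h) y.1, c.trE2_mem_KSub h y.1 y.2⟩
  map_zero' := Subtype.ext (map_zero _)
  map_add' := fun x y => Subtype.ext (map_add _ _ _)

lemma trK_val {L L' : c.Idx} (h : L ≤ L') (y : c.KObj L) :
    (c.trK h y).1 = trE2 (c.π h) (c.ν h) (trS h) y.1 := rfl

lemma trS_trans {L L' L'' : c.Idx} (h : L ≤ L') (h' : L' ≤ L'') (x : (sUnits L.1).V) :
    (trS (h.trans h')).hom x = (trS h').hom ((trS h).hom x) := rfl

/-- The system `K`. -/
def sysK : AddSys c.Idx where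
  obj := c.KObj
  grp := fun _ => inferInstance
  tr := fun h => c.trK h
  tr_tr := fun {L L' L''} h h' y => by
    apply Subtype.ext
    rw [trK_val, trK_val, trK_val]
    exact trE2_comp (c.π h) (c.π h') (c.π (h.trans h')) (c.ν h) (c.ν h') (c.ν (h.trans h'))
      (trS h) (trS h') (trS (h.trans h')) (c.π_trans h h') (c.ν_trans h h')
      (c.trS_trans h h') y.1

/-! ### The system `Ш²` and its colimit -/

/-- `Ш²_F = {x ∈ H²(Gal(F/ℚ), M) | infl x ∈ sha₂ S M}` (coefficients over `𝔽_p`). -/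
abbrev ShSub (L : c.Idx) : Submodule (ZMod p) (H2 (H603.coeff c.M L.1)) :=
  (sha₂ S c.M).comap (H603.infl₂ c.M L.1)

/-- `Ш²_F` as a type. -/
abbrev ShObj (L : c.Idx) : Type := c.ShSub L

lemma tr₂_mem_ShSub {L L' : c.Idx} (h : L ≤ L') (x : H2 (H603.coeff c.M L.1))
    (hx : x ∈ c.ShSub L) : H603.tr₂ c.M (S := S) h x ∈ c.ShSub L' := by
  show H603.infl₂ c.M L'.1 (H603.tr₂ c.M (S := S) h x) ∈ sha₂ S c.M
  rw [H603.infl₂_tr₂]
  exact hx

/-- The transition maps of `Ш²`. -/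
def trSh {L L' : c.Idx} (h : L ≤ L') : c.ShObj L →+ c.ShObj L' where
  toFun x := ⟨H603.tr₂ c.M (S := S) h x.1, c.tr₂_mem_ShSub h x.1 x.2⟩
  map_zero' := Subtype.ext (map_zero _)
  map_add' := fun x y => Subtype.ext (map_add _ _ _)

lemma trSh_val {L L' : c.Idx} (h : L ≤ L') (x : c.ShObj L) :
    (c.trSh h x).1 = H603.tr₂ c.M (S := S) h x.1 := rfl

/-- The system `Ш²`. -/
def sysSh : AddSys c.Idx where
  obj := c.ShObj
  grp := fun _ => inferInstance
  tr := fun h => c.trSh h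
  tr_tr := fun {L L' L''} h h' x => by
    apply Subtype.ext
    rw [trSh_val, trSh_val, trSh_val]
    exact H603.tr₂_tr₂ c.M (S := S) h h' x.1

/-- The map `Ш²_F → sha₂ S M`. -/
def shι (L : c.Idx) : c.sysSh.obj L →+ sha₂ S c.M where
  toFun x := ⟨H603.infl₂ c.M L.1 x.1, x.2⟩
  map_zero' := Subtype.ext (map_zero _)
  map_add' := fun x y => Subtype.ext (map_add _ _ _)

lemma shι_val (L : c.Idx) (x : c.sysSh.obj L) : (c.shι L x).1 = H603.infl₂ c.M L.1 x.1 := rfl

/-- **`sha₂ S M` is the colimit of the `Ш²_F`** (helper603's `exists_infl₂_eq`,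
`exists_tr₂_eq_zero`, `infl₂_tr₂`). -/
theorem sh_isColim : AddSys.IsColim c.sysSh (sha₂ S c.M) c.shι where
  compat := fun {L L'} h x => Subtype.ext (H603.infl₂_tr₂ c.M (S := S) h x.1)
  surj := fun y => by
    obtain ⟨L, hL, x, hx⟩ := H603.exists_infl₂_eq c.M c.base c.hM y.1
    refine ⟨⟨L, hL⟩, ⟨x, ?_⟩, Subtype.ext hx⟩
    show H603.infl₂ c.M L x ∈ sha₂ S c.M
    rw [hx]
    exact y.2
  sep := fun L x hx => by
    have h0 : H603.infl₂ c.M L.1 x.1 = 0 := congrArg Subtype.val hx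
    obtain ⟨L', h, hL'⟩ := H603.exists_tr₂_eq_zero c.M L.1 (c.hM_at L) x.1 h0
    exact ⟨⟨L', L.2.trans h⟩, h, Subtype.ext hL'⟩

end Ctx

end

end Fermat.Agent.S55.E1.Lim

end
-- ===== PACK-END S55/E1/Lim/Sys.lean

-- ===== PACK-BEGIN S55/E1/SpecLim.lean
section
/-
S55 engine E1 — block LIM: CONSUMER SPECS and the ENGINE.
Sub-architect E1-LIM: helper474.  Blueprint: coord/S55-E1.md §4, coord/S55-E1-LIM.md.  All proofs complete.

Objects: `E1/Lim/Obj.lean`; systems `c.sysSh, c.sysK, c.sysT1, c.sysT` over the levels above the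
base level of a context `c : Lim.Ctx S p`: `E1/Lim/Sys.lean` (where `sha₂ S M = colim Ш²_F` is
proved, `Ctx.sh_isColim`).  Abstract counting argument: `E1/LimAbs.lean` (`card_colim_eq`).

LEAVES (each a `Prop`; producers prove `theorem limN : LIMnSpec`):
* `LIMBaseSpec` : a level trivialising `M` and `N = M^∨(1)` and containing `μ_p` exists;
* `LIM4Spec`    : `|Ш¹_F(N)| = |sha₁ S N|` for all large `F`           (helper603 + adapter);
* `LIM1Spec`    : `∂ : T' → K` level-wise bijective morphism of systems (ALG3 + ALG10-∂);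
* `LIM2Spec`    : `T' → T` eventually injective and surjective           (GD5, GD5b, ALG2);
* `LIM3Spec`    : `|T_F| = |sha₁ S N|`, `tr : T_F → T_F'` injective      (ALG8, ALG10P, GD8);
* `LIM5Spec`    : `e : Ш² → K` eventually injective and surjective       (ALG9, 9a, 10E, 11, GD9, L).
ENGINE: `engineSpecFin_of : LIMBaseSpec → LIM4Spec → LIM1Spec → LIM2Spec → LIM3Spec → LIM5Spec →
  EngineSpecFin`.
-/



set_option autoImplicit false

open CategoryTheory CategoryTheory.Limits groupCohomology ExtCitation Module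

namespace Fermat.Agent.S55.E1.Lim

open Fermat.Agent.S55.Tow Fermat.Agent.S55.E1

noncomputable section

variable {S : Finset Nat.Primes} {p : ℕ} [Fact p.Prime]

/-- The decomposition maps `Gal(F_q/ℚ_q) → Gal(F/ℚ)`, `q ∈ S`. -/
abbrev decS (L : Level S) (q : S) : L.Dec q.1 →* L.Gal := L.decHom q.1

/-- The finite-level `Ш¹_F(N) = ⋂_{q ∈ S} ker (H¹(Gal(F/ℚ), N) → H¹(Gal(F_q/ℚ_q), N))`. -/
abbrev Ctx.sha1L (c : Ctx S p) (L : c.Idx) : AddSubgroup (groupCohomology (c.NL L) 1) :=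
  shaFin (decS L.1) (c.NL L)

/-- The standing hypotheses on a context: all inputs of the engine, at a base level which is
large enough (GD6 for some `F₀ ⊆ base`, LIM4 above `base`). -/
structure Ctx.Good (c : Ctx S p) : Prop where
  hp2 : p ≠ 2
  hpS : pPrime p ∈ S
  good : c.D.IsGoodFin p
  adm : IsAdmissible S c.M
  fin : Module.Finite (ZMod p) c.M
  mu : c.base.HasMu p
  tn : TateNakayamaAtSpec
  loc : LocalSpec p
  div : SUnitsDivSpec S p
  h1fin : H1FiniteSpec S p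
  /-- GD6: the norm-kill hypothesis holds above the base level, relative to some `F₀`. -/
  norm : ∃ (L₀ : Level S) (h₀ : L₀ ≤ c.base), L₀.HasMu p ∧
    (∀ s ∈ L₀.U, ∀ n : c.N, c.N.ρ s n = n) ∧
    ∀ (L : Level S) (h : c.base ≤ L),
      @NormInP p L.Gal _ (Level.relGal (h₀.trans h)) (Fintype.ofFinite _) (c.D.C L)
  /-- LIM4: above the base level `Ш¹_F(N)` has the cardinality of `sha₁ S N`. -/
  sha1 : ∀ L : c.Idx, Nat.card (c.sha1L L) = Nat.card (sha₁ S c.N)
  /-- `sha₁ S N` is finite. -/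
  sha1fin : Finite (sha₁ S c.N)

/-! ## The leaves -/

/-- **LIM-BASE.** A level trivialising `M` and `N = M^∨(1)` and containing `μ_p`. -/
def LIMBaseSpec : Prop :=
  ∀ (p : ℕ) [Fact p.Prime], p ≠ 2 → ∀ (S : Finset Nat.Primes), pPrime p ∈ S →
    ∀ (M : Rep.{0, 0, 0} (ZMod p) GQ) [FiniteDimensional (ZMod p) M], IsAdmissible S M →
    ∃ L₀ : Level S, L₀.HasMu p ∧ (∀ s ∈ L₀.U, ∀ m : M, M.ρ s m = m) ∧
      (∀ s ∈ L₀.U, ∀ n : M.dualTwist (cycloChar p), (M.dualTwist (cycloChar p)).ρ s n = n)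

/-- **LIM4.** `|Ш¹_F(N)| = |sha₁ S N|` for all large levels `F`, and `sha₁ S N` is finite
(`N` any finite-dimensional `𝔽_p`-representation trivialised by a level; `p` odd). -/
def LIM4Spec : Prop :=
  ∀ (p : ℕ) [Fact p.Prime], p ≠ 2 → ∀ (S : Finset Nat.Primes), pPrime p ∈ S →
    H1FiniteSpec S p →
    ∀ (N : Rep.{0, 0, 0} (ZMod p) GQ) [FiniteDimensional (ZMod p) N] (L₀ : Level S),
    (∀ s ∈ L₀.U, ∀ n : N, N.ρ s n = n) →
    Finite (sha₁ S N) ∧
    ∃ L₁ : Level S, L₀ ≤ L₁ ∧ ∀ L : Level S, L₁ ≤ L →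
      Nat.card (shaFin (decS L) (cf N L)) = Nat.card (sha₁ S N)

/-- **LIM1.** `∂ : T'_F → K_F` is a level-wise bijective morphism of systems. -/
def LIM1Spec : Prop :=
  ∀ (p : ℕ) [Fact p.Prime] (S : Finset Nat.Primes) (c : Ctx S p), c.Good →
    ∃ d : AddSys.Hom c.sysT1 c.sysK, d.LevelBij

/-- **LIM2 (capitulation).** `T'_F → T_F` (induced by `C'(F) ⊆ C(F)`) is eventually injective
and eventually surjective. -/
def LIM2Spec : Prop :=
  ∀ (p : ℕ) [Fact p.Prime] (S : Finset Nat.Primes) (c : Ctx S p), c.Good →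
    ∃ cc : AddSys.Hom c.sysT1 c.sysT, cc.EvInj ∧ cc.EvSurj

/-- **LIM3.** `|T_F| = |sha₁ S N|` and the transition maps of `T` are injective. -/
def LIM3Spec : Prop :=
  ∀ (p : ℕ) [Fact p.Prime] (S : Finset Nat.Primes) (c : Ctx S p), c.Good →
    (∀ L : c.Idx, Nat.card (c.sysT.obj L) = Nat.card (sha₁ S c.N)) ∧
    (∀ {L L' : c.Idx} (h : L ≤ L'), Function.Injective (c.sysT.tr h))

/-- **LIM5.** There is a morphism of systems `e : Ш²_F → K_F` (edge map composed with the
biduality `M ≅ Hom_ℤ(N, E(F))`) which is eventually injective and eventually surjective. -/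
def LIM5Spec : Prop :=
  ∀ (p : ℕ) [Fact p.Prime] (S : Finset Nat.Primes) (c : Ctx S p), c.Good →
    ∃ e : AddSys.Hom c.sysSh c.sysK, e.EvInj ∧ e.EvSurj

/-! ## The engine -/

/-- The counting statement for a good context. -/
theorem card_sha₂_eq (h1 : LIM1Spec) (h2 : LIM2Spec) (h3 : LIM3Spec) (h5 : LIM5Spec)
    (c : Ctx S p) (hc : c.Good) :
    Finite (sha₂ S c.M) ∧ Nat.card (sha₂ S c.M) = Nat.card (sha₁ S c.N) := by
  obtain ⟨d, hd⟩ := h1 p S c hc
  obtain ⟨cc, hcc1, hcc2⟩ := h2 p S c hc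
  obtain ⟨hcard, hinj⟩ := h3 p S c hc
  obtain ⟨e, he1, he2⟩ := h5 p S c hc
  have := hc.sha1fin
  have hs : 0 < Nat.card (sha₁ S c.N) := Nat.card_pos
  exact card_colim_eq (hX := c.sh_isColim) (e := e) (d := d) (c := cc) (hd := hd)
    (he_inj := he1) (he_surj := he2) (hc_inj := hcc1) (hc_surj := hcc2)
    (hT_inj := fun {i j} h => hinj h) (s := Nat.card (sha₁ S c.N)) (hs := hs)
    (hT_card := hcard)

/-- From cardinalities to `DimEq`. -/
theorem dimEq_of_card (M : Rep.{0, 0, 0} (ZMod p) GQ)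
    (h1 : Finite (sha₁ S (M.dualTwist (cycloChar p)))) (h2 : Finite (sha₂ S M))
    (h : Nat.card (sha₂ S M) = Nat.card (sha₁ S (M.dualTwist (cycloChar p)))) :
    DimEq S M := by
  have f1 : Module.Finite (ZMod p) (sha₁ S (M.dualTwist (cycloChar p))) := Module.Finite.of_finite
  have f2 : Module.Finite (ZMod p) (sha₂ S M) := Module.Finite.of_finite
  refine ⟨f1, f2, ?_⟩
  have e1 := Module.natCard_eq_pow_finrank (K := ZMod p)
    (V := sha₁ S (M.dualTwist (cycloChar p)))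
  have e2 := Module.natCard_eq_pow_finrank (K := ZMod p) (V := sha₂ S M)
  rw [Nat.card_zmod] at e1 e2
  have hp : 1 < p := (Fact.out : p.Prime).one_lt
  exact Nat.pow_right_injective hp (by
    show p ^ _ = p ^ _
    rw [← e1, ← e2, h])

/-- **THE ENGINE E1** (block LIM assembled): `EngineSpecFin` from the six leaves. -/
theorem engineSpecFin_of (hB : LIMBaseSpec) (h4 : LIM4Spec) (h1 : LIM1Spec) (h2 : LIM2Spec)
    (h3 : LIM3Spec) (h5 : LIM5Spec) : EngineSpecFin := by
  intro p _ hp2 S hpS hT hG hL hU hF M _ hM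
  obtain ⟨D, hD⟩ := hG
  obtain ⟨L₀, hμ, hM₀, hN₀⟩ := hB p hp2 S hpS M hM
  obtain ⟨L₁, h01, hnorm⟩ := hD.good.gd6 L₀ hμ
  have : FiniteDimensional (ZMod p) (M.dualTwist (cycloChar p)) :=
    inferInstanceAs (FiniteDimensional (ZMod p) (Module.Dual (ZMod p) M))
  obtain ⟨hfin, L₂, h02, hcard⟩ := h4 p hp2 S hpS hF (M.dualTwist (cycloChar p)) L₀ hN₀
  obtain ⟨Lb, hb1, hb2⟩ := exists_ge_ge L₁ L₂
  have h0b : L₀ ≤ Lb := h01.trans hb1
  let c : Ctx S p :=
    { D := D
      M := M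
      base := Lb
      h7 := hD.good.gd7a
      h7b := hD.good.gd7b
      h4 := hD.good.gd4
      hM := fun s hs m => hM₀ s (Level.U_anti h0b hs) m
      hN := fun s hs n => hN₀ s (Level.U_anti h0b hs) n }
  have hc : c.Good :=
    { hp2 := hp2
      hpS := hpS
      good := hD
      adm := hM
      fin := inferInstance
      mu := hμ.mono h0b
      tn := hT
      loc := hL
      div := hU
      h1fin := hF
      norm := ⟨L₀, h0b, hμ, hN₀, fun L h => hnorm L (h0b.trans h) (hb1.trans h)⟩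
      sha1 := fun L => hcard L.1 (hb2.trans L.2)
      sha1fin := hfin }
  obtain ⟨hfin2, hcard2⟩ := card_sha₂_eq h1 h2 h3 h5 c hc
  exact dimEq_of_card M hfin hfin2 hcard2

end

end Fermat.Agent.S55.E1.Lim

end
-- ===== PACK-END S55/E1/SpecLim.lean

-- ===== PACK-BEGIN S55/E1/H719/Lim1Sys.lean
section




/-!
# S55 engine E1, block LIM, leaves LIM-SES and LIM1 — helper719

* `ses_shortExact` (LIM-SES): `0 → E(F) → J(F) → C'(F) → 0` (`Lim.ses h4 L`) is short exact
  (from GD4 = `KerDiag`, injectivity of the diagonal, `S ≠ ∅`);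
* `dT : AddSys.Hom c.sysT1 c.sysK` (LIM1): the boundary maps `∂ : T'_F → K_F` of ALG3
  (`H354.stdBdryEquiv`), compatible with the transition maps (`H354.trE2_stdBdry`);
* `dT_levelBij` : `∂` is a level-wise bijection.
-/

set_option autoImplicit false

open CategoryTheory CategoryTheory.Limits

namespace Fermat.Agent.S55.E1.H719

open Fermat.Agent.S55.Tow Fermat.Agent.S55.E1 Fermat.Agent.S55.E1.Lim

noncomputable section

/-! ## LIM-SES -/

section Ses

variable {S : Finset Nat.Primes}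

lemma embQbar_inj (q : Nat.Primes) : Function.Injective (embQbar q) := by
  intro x y hxy
  apply Additive.toMul.injective
  have h := congrArg Additive.toMul hxy
  exact Units.map_injective (f := (padicEmbedding (q : ℕ)).toRingHom.toMonoidHom)
    (padicEmbedding (q : ℕ)).toRingHom.injective h

lemma embFun_inj (L : Level S) (q : Nat.Primes) : Function.Injective (L.embFun q) := by
  intro x y hxy
  apply L.unitsCoe_injective
  apply embQbar_inj q
  rw [← L.locCoe_embFun, ← L.locCoe_embFun, hxy]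

lemma diag_inj (L : Level S) (q : Nat.Primes) : Function.Injective (L.diag q).hom := by
  intro x y hxy
  apply embFun_inj L q
  have h := congrArg (fun f => L.Jeval q f 1) hxy
  simp only [Level.Jeval_diag, map_one] at h
  exact h

/-- The diagonal `E(F) → J(F)` is injective (`S ≠ ∅`). -/
lemma diagTot_injective (hS : S.Nonempty) (L : Level S) :
    Function.Injective (diagTot L).hom := by
  obtain ⟨q, hq⟩ := hS
  intro x y hxy
  apply sIncl_injective L
  apply diag_inj L q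
  exact congrArg (fun z : (Jtot L).V => piTo z ⟨q, hq⟩) hxy

variable {D : TowerDatum S}

/-- Exactness at `J(F)`: the kernel of `J(F) → C'(F)` is the diagonal image of `E(F)`. -/
lemma exists_diagTot_eq (hS : S.Nonempty) (h4 : KerDiag D) (L : Level S) (x : (Jtot L).V)
    (hx : (jC1 D L).hom x = 0) : ∃ e : (sUnits L).V, (diagTot L).hom e = x := by
  have hx0 : ∀ g : L.Gal, (jTot D L).hom ((Jtot L).ρ g x) = 0 := by
    intro g
    rw [Rep.hom_comm_apply]
    have h1 : (jTot D L).hom x = (inclC1 D L).hom ((jC1 D L).hom x) := rfl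
    rw [h1, hx, map_zero, map_zero]
  have key : ∀ g : L.Gal, ∃ e : L.units.V, L.IsSUnit e ∧
      ∀ q : S, piTo ((Jtot L).ρ g x) q = (L.diag q.1).hom e :=
    fun g => (h4 L (fun q => piTo ((Jtot L).ρ g x) q)).1 (hx0 g)
  obtain ⟨q₀, hq₀⟩ := hS
  obtain ⟨e, -, he⟩ := key 1
  have he' : ∀ q : S, piTo x q = (L.diag q.1).hom e := by
    intro q
    have := he q
    rwa [map_one] at this
  have hmem : e ∈ sUnitsAdd L := by
    intro g
    obtain ⟨e', he'S, he'eq⟩ := key g
    have h2 : piTo ((Jtot L).ρ g x) ⟨q₀, hq₀⟩ = (L.J q₀).ρ g (piTo x ⟨q₀, hq₀⟩) := rfl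
    have h3 : (L.J q₀).ρ g ((L.diag q₀).hom e) = (L.diag q₀).hom (L.units.ρ g e) :=
      (Rep.hom_comm_apply (L.diag q₀) g e).symm
    have h1 : (L.diag q₀).hom e' = (L.diag q₀).hom (L.units.ρ g e) :=
      (he'eq ⟨q₀, hq₀⟩).symm.trans (h2.trans ((congrArg _ (he' ⟨q₀, hq₀⟩)).trans h3))
    have h5 : e' = L.units.ρ g e := diag_inj L q₀ h1
    exact h5 ▸ he'S
  refine ⟨subMk e hmem, ?_⟩
  refine piRep_ext (fun q => ?_)
  exact (he' q).symm

/-- **LIM-SES**: `0 → E(F) → J(F) → C'(F) → 0` is short exact. -/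
theorem ses_shortExact (hS : S.Nonempty) (h4 : KerDiag D) (L : Level S) :
    (ses h4 L).ShortExact :=
  (T.H719.rep_shortExact_iff (ses h4 L)).2
    ⟨diagTot_injective hS L, jC1_surjective D L, exists_diagTot_eq hS h4 L⟩

end Ses

/-! ## LIM1 -/

section Lim1

variable {S : Finset Nat.Primes} {p : ℕ} [Fact p.Prime] (c : Ctx S p)

/-- `R_F` is `ℤ`-projective (ALG1). -/
lemma projective_stdR (hfin : ∀ L : c.Idx, Finite (c.NL L).V) (L : c.Idx) :
    @Module.Projective ℤ _ (stdR (c.NL L)).V _ (stdR (c.NL L)).hV2 := by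
  obtain ⟨hfree, -, -⟩ := H304.alg1 L.1.Gal (c.NL L) (hfin L)
  exact @Module.Projective.of_free ℤ _ (stdR (c.NL L)).V _ (stdR (c.NL L)).hV2 hfree

/-- The boundary map `∂_F : T'_F → K_F`. -/
def dApp (hS : S.Nonempty) (hfin : ∀ L : c.Idx, Finite (c.NL L).V) (L : c.Idx) :
    c.T1Obj L ≃+ c.KObj L :=
  H354.stdBdryEquiv (c.NL L) (projective_stdR c hfin L) (ses_shortExact hS c.h4 L.1)

lemma dApp_mk (hS : S.Nonempty) (hfin : ∀ L : c.Idx, Finite (c.NL L).V) (L : c.Idx)
    (f'' : homA (c.NL L) (C1 c.D L.1)) :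
    ((dApp c hS hfin L (QuotientAddGroup.mk f'') : c.KObj L) : E2 (c.NL L) (sUnits L.1)) =
      H354.stdBdry (c.NL L) (projective_stdR c hfin L) (ses_shortExact hS c.h4 L.1) f'' := rfl

/-- **LIM1: the morphism of systems `∂ : T' → K`.** -/
def dT (hS : S.Nonempty) (hfin : ∀ L : c.Idx, Finite (c.NL L).V) :
    AddSys.Hom c.sysT1 c.sysK where
  app := fun L => (dApp c hS hfin L).toAddMonoidHom
  comm := fun {L L'} h x => by
    induction x using QuotientAddGroup.induction_on with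
    | H f'' =>
      apply Subtype.ext
      change ((dApp c hS hfin L' (QuotientAddGroup.mk
          (trA (c.π h) (c.ν h) (trC1 c.h7 h) f'')) : c.KObj L') :
          E2 (c.NL L') (sUnits L'.1)) =
        trE2 (c.π h) (c.ν h) (trS h)
          ((dApp c hS hfin L (QuotientAddGroup.mk f'') : c.KObj L) : E2 (c.NL L) (sUnits L.1))
      rw [dApp_mk, dApp_mk]
      exact (H354.trE2_stdBdry (c.π h) (c.ν h) (S := ses c.h4 L.1) (S' := ses c.h4 L'.1)
        (trS h) (trJtot h) (trC1 c.h7 h)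
        (projective_stdR c hfin L) (projective_stdR c hfin L')
        (ses_shortExact hS c.h4 L.1) (ses_shortExact hS c.h4 L'.1)
        (fun x => (trJtot_diagTot h x).symm) (fun x => (trC1_jC1 c.h7 h x).symm) f'').symm

/-- **LIM1: `∂ : T' → K` is a level-wise bijection.** -/
theorem dT_levelBij (hS : S.Nonempty) (hfin : ∀ L : c.Idx, Finite (c.NL L).V) :
    (dT c hS hfin).LevelBij :=
  fun L => (dApp c hS hfin L).bijective

end Lim1

end

end Fermat.Agent.S55.E1.H719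

end
-- ===== PACK-END S55/E1/H719/Lim1Sys.lean

-- ===== PACK-BEGIN S55/E1/H719/Lim2Fin.lean
section





/-!
# S55 engine E1, block LIM, leaf LIM2 in the vocabulary of `E1/Lim/Obj.lean` — helper719

`C'(F) = Lim.C1 D L = im (J(F) → C(F))`, `T_F = H957.TQ j`, `T'_F = A_F(C') / (A_F(J) ≫ jC1)`.
The map `c : T'_F → T_F` is induced by `f' ↦ f' ≫ inclC1`.

* `lim2_evInj`  (eventual injectivity of `c`): if `f' ≫ inclC1 ∈ Σ_q j_q ∘ A(J_q) + res Bc(C)`
  then for all large `F'`: `tr f' = g ≫ jC1` for some `g ∈ A_{F'}(J)`;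
* `lim2_evSurj` (eventual surjectivity of `c`, needs GD5b = `IsGoodFin.gd5b`): for `f ∈ A_F(C)`,
  for all large `F'` there are `f' ∈ A_{F'}(C')`, `h' ∈ Bc_{F'}(C)` with
  `f' ≫ inclC1 = tr f + res h'`;  `lim2_evSurj_TQ` : the same in `T_{F'} = TQ`.
-/

set_option autoImplicit false

open CategoryTheory CategoryTheory.Limits

namespace Fermat.Agent.S55.E1.H719

open Fermat.Agent.S55.Tow Fermat.Agent.S55.E1 Fermat.Agent.S55.E1.Lim

noncomputable section

variable {S : Finset Nat.Primes} {D : TowerDatum S}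

/-- GD7a in the form of `Lim/Obj.lean`. -/
lemma trCompat_of_isGoodMu {p : ℕ} (hD : D.IsGoodMu p) : TrCompat D :=
  fun h q hq x => hD.gd7a h q hq x

/-- GD5b (Datum3) is the hypothesis of `lim2_coker`. -/
lemma torsionModLocal_of_isGoodFin {p : ℕ} (hD : D.IsGoodFin p) : TorsionModLocal D :=
  hD.gd5b

/-- `tr` commutes with `inclC1`. -/
lemma trA_comp_inclC1 (h7 : TrCompat D) {L L' : Level S} (h : L ≤ L')
    {N : Rep.{0} ℤ L.Gal} {N' : Rep.{0} ℤ L'.Gal} (ν : N' ⟶ Rep.res (Level.proj h) N)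
    (f' : homA N (C1 D L)) :
    trA (Level.proj h) ν (trC1 h7 h) f' ≫ inclC1 D L' =
      trA (Level.proj h) ν (D.tr h) (f' ≫ inclC1 D L) := by
  apply repHom_ext_tr
  intro r
  rfl

/-- `Σ_q f_q ≫ j_q = piLift f ≫ jTot`. -/
lemma sum_comp_j_eq (L : Level S) {N : Rep.{0} ℤ L.Gal} (fJ : ∀ q : S, homA N (L.J q.1)) :
    ∑ q : S, fJ q ≫ D.j L q.1 = piLift fJ ≫ jTot D L := by
  apply repHom_ext_tr
  intro r
  rw [sum_hom_apply]
  rfl

/-- **LIM2, eventual injectivity of `c : T'_F → T_F`.** -/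
theorem lim2_evInj [IsDirected (Level S) (· ≤ ·)] {p : ℕ} (hD : D.IsGoodMu p) {L : Level S}
    (N : Rep.{0} ℤ L.Gal) [Finite N.V] (hpN : ∀ n : N.V, p • n = 0) (f' : homA N (C1 D L))
    (hf' : IsLocSum (fun q : S => D.j L q.1) (f' ≫ inclC1 D L)) :
    ∃ L₁ : Level S, L ≤ L₁ ∧ ∀ (L' : Level S) (h : L ≤ L'), L₁ ≤ L' →
      ∀ (N' : Rep.{0} ℤ L'.Gal) (ν : N' ⟶ Rep.res (Level.proj h) N),
        ∃ g : homA N' (Jtot L'),
          trA (Level.proj h) ν (trC1 (trCompat_of_isGoodMu hD) h) f' = g ≫ jC1 D L' := by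
  obtain ⟨fJ, hB, hfeq⟩ := hf'
  have hloc : ∀ r : (stdR N).V,
      D.IsLocalSum L ((∑ q : S, fJ q ≫ D.j L q.1 + resBA N (D.C L) hB).hom r) := by
    intro r
    rw [← hfeq]
    exact (mem_C1Add D L _).1 (subVal_mem (f'.hom r))
  obtain ⟨L₁, hL₁, hker⟩ := lim2_ker_A D hD N hpN fJ hB hloc
  refine ⟨L₁, hL₁, fun L' h h' N' ν => ?_⟩
  obtain ⟨fJ', hfJ'⟩ := hker L' h h' N' ν
  refine ⟨piLift fJ', ?_⟩
  have h1 : trA (Level.proj h) ν (trC1 (trCompat_of_isGoodMu hD) h) f' ≫ inclC1 D L' =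
      (piLift fJ' ≫ jC1 D L') ≫ inclC1 D L' := by
    rw [trA_comp_inclC1, hfeq, hfJ', sum_comp_j_eq]
    apply repHom_ext_tr
    intro r
    rfl
  apply repHom_ext_tr
  intro r
  apply inclC1_injective D L'
  exact congrArg (fun t : stdR N' ⟶ D.C L' => t.hom r) h1

/-- **LIM2, eventual surjectivity of `c : T'_F → T_F`** (uses GD5b). -/
theorem lim2_evSurj [IsDirected (Level S) (· ≤ ·)] {p : ℕ} (hp : p.Prime) (hD : D.IsGoodFin p)
    {L : Level S} (N : Rep.{0} ℤ L.Gal) [Finite N.V] (hpN : ∀ n : N.V, p • n = 0)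
    (f : homA N (D.C L)) :
    ∃ L₁ : Level S, L ≤ L₁ ∧ ∀ (L' : Level S) (h : L ≤ L'), L₁ ≤ L' →
      ∀ (N' : Rep.{0} ℤ L'.Gal) (ν : N' ⟶ Rep.res (Level.proj h) N),
        ∃ (f' : homA N' (C1 D L')) (hB' : homB N' (D.C L')),
          f' ≫ inclC1 D L' = trA (Level.proj h) ν (D.tr h) f + resBA N' (D.C L') hB' := by
  obtain ⟨w, hB, hw, L₁, hL₁, hval⟩ :=
    lim2_coker D hp hD.good (torsionModLocal_of_isGoodFin hD) N hpN f
  refine ⟨L₁, hL₁, fun L' h h' N' ν => ?_⟩
  refine ⟨subLift (C1Add D L') (C1Add_stable D L') (trA (Level.proj h) ν (D.tr h) (w • f))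
    (fun r' => (mem_C1Add D L' _).2 (hval L' h h' N' ν r')), trB (Level.proj h) ν (D.tr h) hB, ?_⟩
  have h1 : subLift (C1Add D L') (C1Add_stable D L') (trA (Level.proj h) ν (D.tr h) (w • f))
      (fun r' => (mem_C1Add D L' _).2 (hval L' h h' N' ν r')) ≫ inclC1 D L' =
      trA (Level.proj h) ν (D.tr h) (w • f) := by
    apply repHom_ext_tr
    intro r
    rfl
  refine h1.trans ?_
  rw [hw, map_add, trA_resBA]

/-- **LIM2, eventual surjectivity, in `T_{F'} = TQ`.** -/
theorem lim2_evSurj_TQ [IsDirected (Level S) (· ≤ ·)] {p : ℕ} (hp : p.Prime)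
    (hD : D.IsGoodFin p) {L : Level S} (N : Rep.{0} ℤ L.Gal) [Finite N.V]
    (hpN : ∀ n : N.V, p • n = 0) (f : homA N (D.C L)) :
    ∃ L₁ : Level S, L ≤ L₁ ∧ ∀ (L' : Level S) (h : L ≤ L'), L₁ ≤ L' →
      ∀ (N' : Rep.{0} ℤ L'.Gal) (ν : N' ⟶ Rep.res (Level.proj h) N),
        ∃ f' : homA N' (C1 D L'),
          (QuotientAddGroup.mk (f' ≫ inclC1 D L') :
            H957.TQ (N := N') (fun q : S => D.j L' q.1)) =
          QuotientAddGroup.mk (trA (Level.proj h) ν (D.tr h) f) := by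
  obtain ⟨L₁, hL₁, hsurj⟩ := lim2_evSurj hp hD N hpN f
  refine ⟨L₁, hL₁, fun L' h h' N' ν => ?_⟩
  obtain ⟨f', hB', hf'⟩ := hsurj L' h h' N' ν
  refine ⟨f', ?_⟩
  rw [hf', QuotientAddGroup.mk_add, add_eq_left, QuotientAddGroup.eq_zero_iff]
  exact AddSubgroup.mem_sup_left ⟨hB', rfl⟩

/-- **LIM2, eventual injectivity, hypothesis in `T_F = TQ`.** -/
theorem lim2_evInj_TQ [IsDirected (Level S) (· ≤ ·)] {p : ℕ} (hD : D.IsGoodMu p) {L : Level S}
    (N : Rep.{0} ℤ L.Gal) [Finite N.V] (hpN : ∀ n : N.V, p • n = 0) (f' : homA N (C1 D L))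
    (hf' : (QuotientAddGroup.mk (f' ≫ inclC1 D L) :
      H957.TQ (N := N) (fun q : S => D.j L q.1)) = 0) :
    ∃ L₁ : Level S, L ≤ L₁ ∧ ∀ (L' : Level S) (h : L ≤ L'), L₁ ≤ L' →
      ∀ (N' : Rep.{0} ℤ L'.Gal) (ν : N' ⟶ Rep.res (Level.proj h) N),
        ∃ g : homA N' (Jtot L'),
          trA (Level.proj h) ν (trC1 (trCompat_of_isGoodMu hD) h) f' = g ≫ jC1 D L' :=
  lim2_evInj hD N hpN f'
    ((H957.mem_locSub _ _).1 ((QuotientAddGroup.eq_zero_iff _).1 hf'))

end

end Fermat.Agent.S55.E1.H719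

end
-- ===== PACK-END S55/E1/H719/Lim2Fin.lean

-- ===== PACK-BEGIN S55/E1/H719/Lim2Sys.lean
section



/-!
# S55 engine E1, block LIM, leaf LIM2 on the systems of `E1/Lim/Sys.lean` — helper719

The morphism of systems `c : T' → T` (`Ctx.sysT1 → Ctx.sysT`), induced by
`f' ↦ f' ≫ inclC1 : A_F(C') → A_F(C)`, and **LIM2**:

* `cT_evInj`  : `c` is eventually injective  (GD5, GD7: `IsGoodMu`);
* `cT_evSurj` : `c` is eventually surjective (GD5 + GD5b: `IsGoodFin`).
-/

set_option autoImplicit false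

open CategoryTheory CategoryTheory.Limits

namespace Fermat.Agent.S55.E1.H719

open Fermat.Agent.S55.Tow Fermat.Agent.S55.E1 Fermat.Agent.S55.E1.Lim

noncomputable section

variable {S : Finset Nat.Primes} {p : ℕ} [Fact p.Prime] (c : Ctx S p)

/-- `N_L` is killed by `p`. -/
lemma nsmul_NL_eq_zero (L : c.Idx) (n : (c.NL L).V) : p • n = 0 :=
  ZModModule.char_nsmul_eq_zero (G := (H603.coeff c.N L.1).V) p n

/-- `N_L` is finite if `N` is. -/
lemma finite_NL [Finite c.N.V] (L : c.Idx) : Finite (c.NL L).V :=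
  Finite.of_injective (cfVal c.N (L := L.1)) (cfVal_injective c.N)

/-- Composition with `inclC1` as an additive map `A_F(C') → A_F(C)`. -/
def inclA (L : c.Idx) : homA (c.NL L) (C1 c.D L.1) →+ homA (c.NL L) (c.D.C L.1) :=
  Preadditive.rightComp (stdR (c.NL L)) (inclC1 c.D L.1)

lemma inclA_apply (L : c.Idx) (f' : homA (c.NL L) (C1 c.D L.1)) :
    inclA c L f' = f' ≫ inclC1 c.D L.1 := rfl

lemma inclA_mem_locSub (L : c.Idx) :
    c.T1Sub L ≤ (H957.locSub (N := c.NL L) (c.jS L)).comap (inclA c L) := by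
  rintro _ ⟨g, rfl⟩
  rw [AddSubgroup.mem_comap, H957.mem_locSub]
  refine ⟨fun q => g ≫ piProj (fun q : S => L.1.J q.1) q, 0, ?_⟩
  rw [map_zero, add_zero]
  apply repHom_ext_tr
  intro r
  rw [sum_hom_apply]
  rfl

/-- The map `c_F : T'_F → T_F`. -/
def cApp (L : c.Idx) : c.T1Obj L →+ c.TObj L :=
  QuotientAddGroup.map _ _ (inclA c L) (inclA_mem_locSub c L)

lemma cApp_mk (L : c.Idx) (f' : homA (c.NL L) (C1 c.D L.1)) :
    cApp c L (QuotientAddGroup.mk f') = QuotientAddGroup.mk (f' ≫ inclC1 c.D L.1) := rfl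

/-- **The morphism of systems `c : T' → T`.** -/
def cT : AddSys.Hom c.sysT1 c.sysT where
  app := cApp c
  comm := fun {L L'} h x => by
    induction x using QuotientAddGroup.induction_on with
    | H f' =>
      change cApp c L' (c.trT1 h (QuotientAddGroup.mk f')) =
        c.trT h (cApp c L (QuotientAddGroup.mk f'))
      rw [Ctx.trT1_mk, cApp_mk, cApp_mk, Ctx.trT_mk, trA_comp_inclC1]

/-- **LIM2 (kernel part): `c : T' → T` is eventually injective.** -/
theorem cT_evInj (hD : c.D.IsGoodMu p) (hfin : ∀ L : c.Idx, Finite (c.NL L).V) :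
    (cT c).EvInj := by
  intro L x hx
  induction x using QuotientAddGroup.induction_on with
  | H f' =>
    have := hfin L
    have hx' : (QuotientAddGroup.mk (f' ≫ inclC1 c.D L.1) :
        H957.TQ (N := c.NL L) (fun q : S => c.D.j L.1 q.1)) = 0 := hx
    obtain ⟨L₁, hL₁, hev⟩ :=
      lim2_evInj_TQ hD (c.NL L) (nsmul_NL_eq_zero c L) f' hx'
    refine ⟨⟨L₁, L.2.trans hL₁⟩, hL₁, ?_⟩
    obtain ⟨g, hg⟩ := hev L₁ hL₁ le_rfl (c.NL ⟨L₁, L.2.trans hL₁⟩)
      (c.ν (L := L) (L' := ⟨L₁, L.2.trans hL₁⟩) hL₁)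
    exact (QuotientAddGroup.eq_zero_iff
      (trA (Level.proj hL₁) (c.ν (L := L) (L' := ⟨L₁, L.2.trans hL₁⟩) hL₁)
        (trC1 c.h7 hL₁) f')).2 ⟨g, hg.symm⟩

/-- **LIM2 (cokernel part): `c : T' → T` is eventually surjective** (uses GD5b). -/
theorem cT_evSurj (hD : c.D.IsGoodFin p) (hfin : ∀ L : c.Idx, Finite (c.NL L).V) :
    (cT c).EvSurj := by
  intro L y
  induction y using QuotientAddGroup.induction_on with
  | H f =>
    have := hfin L
    obtain ⟨L₁, hL₁, hev⟩ :=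
      lim2_evSurj_TQ (Fact.out : p.Prime) hD (c.NL L) (nsmul_NL_eq_zero c L) f
    refine ⟨⟨L₁, L.2.trans hL₁⟩, hL₁, ?_⟩
    obtain ⟨f', hf'⟩ := hev L₁ hL₁ le_rfl (c.NL ⟨L₁, L.2.trans hL₁⟩)
      (c.ν (L := L) (L' := ⟨L₁, L.2.trans hL₁⟩) hL₁)
    exact ⟨QuotientAddGroup.mk f', hf'⟩

end

end Fermat.Agent.S55.E1.H719

end
-- ===== PACK-END S55/E1/H719/Lim2Sys.lean

-- ===== PACK-BEGIN S55/E1/H957/Lim3Sys.lean
section
/-
S55 engine E1 (helper957): LIM3 + LIM4-glue ON THE SYSTEM `c.sysT` of `E1/Lim/Sys.lean`.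

For a context `c : Lim.Ctx S p` whose base level is HIGH (`Ctx.IsHigh`: above a level `L₀ ⊇ μ_p`
trivialising `N`, and above the level `L₁` of GD6 for `L₀`):
* `sysT_card`         : `T_L` is finite and `|T_L| = |Ш¹_fin(L)|`, `Ш¹_fin(L) = shaFin (decHom) N_L`;
* `sysT_tr_injective` : the transition maps of `c.sysT` are injective;
* `card_shaFin_eq`    : `|shaFin (decHom) (toInt (coeff A L))| = |H603.sha1Fin A L|` (coefficients
                        `ℤ` versus `K`);
* `sysT_card_eq`      : `|T_L| = |sha₁ S N|` if moreover `|sha1Fin N L| = |sha₁ S N|` above the base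
                        (LIM4, `H603.exists_level_forall_card_sha1Fin_eq`);
* `exists_isHigh`     : every level lies below a level `L₂` such that every context with base
                        `≥ L₂` is high and satisfies the hypothesis of `sysT_card_eq`.
These are the hypotheses `hT_card`, `hT_inj` of `E1.card_colim_eq` with `s = |sha₁ S N|`.
-/





set_option autoImplicit false
set_option linter.style.haveILetI false

open CategoryTheory groupCohomology ExtCitation

namespace Fermat.Agent.S55.E1.H957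

open Fermat.Agent.S55.E1 Fermat.Agent.S55.Tow Fermat.Agent.S55.E1.Lim

noncomputable section

/-! ## Coefficients `ℤ` versus `K`: the finite-level `Ш¹` -/

section Bridge

variable {S : Finset Nat.Primes} {K : Type} [Field K] (A : Rep.{0, 0, 0} K GQ)

/-- `Ш¹_fin` with `ℤ`-coefficients corresponds to `H603.sha1Fin` under `H603.H1IntEquiv`. -/
theorem mem_shaFin_iff (L : Level S) (x : groupCohomology (cf A L) 1) :
    x ∈ shaFin (fun q : S => L.decHom q.1) (cf A L) ↔
      H603.H1IntEquiv (H603.coeff A L) x ∈ H603.sha1Fin A L := by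
  simp only [H603.sha1Fin, Submodule.mem_iInf, LinearMap.mem_ker]
  refine forall_congr' fun q => ?_
  have h1 := H603.H1IntEquiv_map (A := H603.coeff A L)
    (B := Rep.res (L.decHom q.1) (H603.coeff A L))
    (L.decHom q.1) (𝟙 (Rep.res (L.decHom q.1) (H603.coeff A L))) x
  have h2 : H603.toIntHom (L.decHom q.1) (𝟙 (Rep.res (L.decHom q.1) (H603.coeff A L))) =
      𝟙 (Rep.res (L.decHom q.1) (cf A L)) := by
    apply Rep.hom_ext
    apply DFunLike.ext
    intro a
    rfl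
  have key : H603.H1IntEquiv (Rep.res (L.decHom q.1) (H603.coeff A L))
      ((groupCohomology.map (L.decHom q.1) (𝟙 (Rep.res (L.decHom q.1) (cf A L))) 1).hom x) =
      (groupCohomology.map (L.decHom q.1)
        (𝟙 (Rep.res (L.decHom q.1) (H603.coeff A L))) 1).hom
        (H603.H1IntEquiv (H603.coeff A L) x) :=
    (congrArg (fun φ => H603.H1IntEquiv (Rep.res (L.decHom q.1) (H603.coeff A L))
      ((groupCohomology.map (L.decHom q.1) φ 1).hom x)) h2).symm.trans h1
  constructor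
  · intro hx
    have hx' : (groupCohomology.map (L.decHom q.1) (𝟙 (Rep.res (L.decHom q.1) (cf A L))) 1).hom x
        = 0 := hx
    exact key.symm.trans ((congrArg
      (H603.H1IntEquiv (Rep.res (L.decHom q.1) (H603.coeff A L))) hx').trans (map_zero _))
  · intro hx
    have hx' : (groupCohomology.map (L.decHom q.1)
      (𝟙 (Rep.res (L.decHom q.1) (H603.coeff A L))) 1).hom
        (H603.H1IntEquiv (H603.coeff A L) x) = 0 := hx
    exact (H603.H1IntEquiv (Rep.res (L.decHom q.1) (H603.coeff A L))).injective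
      ((key.trans hx').trans (map_zero _).symm)

/-- `|Ш¹_fin|` does not depend on the coefficient ring. -/
theorem card_shaFin_eq (L : Level S) :
    Nat.card (shaFin (fun q : S => L.decHom q.1) (cf A L)) = Nat.card (H603.sha1Fin A L) := by
  refine Nat.card_congr
    { toFun := fun x => ⟨H603.H1IntEquiv (H603.coeff A L) x.1, (_root_.Fermat.Agent.S55.E1.H957.mem_shaFin_iff A L x.1).1 x.2⟩
      invFun := fun y => ⟨(H603.H1IntEquiv (H603.coeff A L)).symm y.1,
        (_root_.Fermat.Agent.S55.E1.H957.mem_shaFin_iff A L _).2 (by rw [AddEquiv.apply_symm_apply]; exact y.2)⟩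
      left_inv := fun x => Subtype.ext (AddEquiv.symm_apply_apply _ _)
      right_inv := fun y => Subtype.ext (AddEquiv.apply_symm_apply _ _) }

end Bridge

/-! ## LIM3 on `c.sysT` -/

section Sys

variable {S : Finset Nat.Primes} {p : ℕ} [Fact p.Prime] (c : Ctx S p)

/-- The base level of `c` is HIGH over `L₀`: `L₀ ⊇ μ_p` trivialises `N`, `L₀ ≤ c.base`, and for
all `L ≥ c.base` the norms from `Gal(L/L₀)` on `C(L)` are `p`-th multiples of invariants
(the conclusion of GD6 for `L₀`). -/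
structure IsHighOver (L₀ : Level S) : Prop where
  le : L₀ ≤ c.base
  hμ : L₀.HasMu p
  triv : ∀ s ∈ L₀.U, ∀ n : c.N, c.N.ρ s n = n
  norm : ∀ (L : Level S) (h : L₀ ≤ L), c.base ≤ L →
    @NormInP p L.Gal _ (Level.relGal h) (Fintype.ofFinite _) (c.D.C L)

variable {c}

/-- `N_L` is killed by `p`. -/
lemma nsmul_NL (L : c.Idx) (n : (c.NL L).V) : p • n = 0 :=
  ZModModule.char_nsmul_eq_zero (G := (H603.coeff c.N L.1).V) p n

/-- `N_L` is finite if `N` is. -/
lemma finite_NL_of [Finite c.N.V] (L : c.Idx) : Finite (c.NL L).V :=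
  Finite.of_injective (cfVal c.N (L := L.1)) (cfVal_injective c.N)

/-- `Gal(L/L₀)` acts trivially on `N_L`. -/
lemma relGal_triv_NL {L₀ : Level S} (hh : IsHighOver c L₀) (L : c.Idx) :
    ∀ g ∈ Level.relGal (hh.le.trans L.2), ∀ n : (c.NL L).V, (c.NL L).ρ g n = n := by
  intro g
  induction g using QuotientGroup.induction_on with
  | H s =>
    intro hg n
    have hs : s ∈ L₀.U := by
      have h1 : Level.proj (hh.le.trans L.2) (QuotientGroup.mk s) = 1 := hg
      rw [Level.proj_mk, QuotientGroup.eq_one_iff] at h1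
      exact h1
    apply cfVal_injective c.N
    rw [cfVal_ρ]
    exact hh.triv s hs _

/-- The conclusions of ALG8 at every level of a high context. -/
theorem alg8_sys (hD : c.D.IsGoodMu p) (hT : TateNakayamaAtSpec) (hLoc : LocalSpec p)
    [Finite c.N.V] {L₀ : Level S} (hh : IsHighOver c L₀) (L : c.Idx) :
    (∀ f : homA (c.NL L) (c.D.C L.1),
      (∀ x, IsLocTriv (fun q : S => L.1.decHom q.1) (c.NL L) x → pair f x = 0) ↔
        IsLocSum (c.jS L) f) ∧
    (∀ χ : groupCohomology (c.NL L) 1 →+ groupCohomology (c.D.C L.1) 2,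
      ∃ f : homA (c.NL L) (c.D.C L.1),
        ∀ x, IsLocTriv (fun q : S => L.1.decHom q.1) (c.NL L) x → pair f x = χ x) ∧
    Finite (shaFin (fun q : S => L.1.decHom q.1) (c.NL L)) ∧
    Nat.card (shaFin (fun q : S => L.1.decHom q.1) (c.NL L) →+ groupCohomology (c.D.C L.1) 2) =
      Nat.card (shaFin (fun q : S => L.1.decHom q.1) (c.NL L)) := by
  letI : Fintype L.1.Gal := Fintype.ofFinite _
  haveI : (Level.relGal (hh.le.trans L.2)).Normal := MonoidHom.normal_ker _
  have hμ : L.1.HasMu p := hh.hμ.mono (hh.le.trans L.2)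
  choose γX hγX using fun q : S => hLoc.1 S L.1 q.1
  exact @alg8 p (Fact.out : p.Prime) L.1.Gal _ _ (c.NL L) (c.D.C L.1) (c.D.γ L.1)
    (finite_NL_of L) (nsmul_NL L) (hD.gd1 L.1 hμ) hT
    (Level.relGal (hh.le.trans L.2)) _ (Fintype.ofFinite _) (relGal_triv_NL hh L)
    (hh.norm L.1 (hh.le.trans L.2) L.2)
    S _ (fun q => L.1.Dec q.1) _ _ (fun q => L.1.decHom q.1)
    (fun q => L.1.decHom_injective q.1)
    (fun q => L.1.locUnits q.1) γX (c.jS L) hγX
    (fun q y => hD.gd3 L.1 hμ q.1 q.2 y)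

/-- **LIM3 (count)**: `T_L` is finite and `|T_L| = |Ш¹_fin(L)|`, at every level of a high
context. -/
theorem sysT_card (hD : c.D.IsGoodMu p) (hT : TateNakayamaAtSpec) (hLoc : LocalSpec p)
    [Finite c.N.V] {L₀ : Level S} (hh : IsHighOver c L₀) (L : c.Idx) :
    Finite (c.sysT.obj L) ∧
      Nat.card (c.sysT.obj L) = Nat.card (shaFin (fun q : S => L.1.decHom q.1) (c.NL L)) := by
  obtain ⟨ha, hb, hfin, hcard⟩ := alg8_sys hD hT hLoc hh L
  exact card_TQ_of (Fact.out : p.Prime) (fun q : S => L.1.decHom q.1) (nsmul_NL L)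
    (fun q : S => L.1.locUnits q.1) (c.jS L) ha hb hfin hcard

/-- **LIM3 (injectivity)**: the transition maps of `c.sysT` are injective, for a high
context. -/
theorem sysT_tr_injective (hD : c.D.IsGoodMu p) (hT : TateNakayamaAtSpec) (hLoc : LocalSpec p)
    [Finite c.N.V] {L₀ : Level S} (hh : IsHighOver c L₀) {L L' : c.Idx} (h : L ≤ L') :
    Function.Injective (c.sysT.tr h) := by
  obtain ⟨ha, -, -, -⟩ := alg8_sys hD hT hLoc hh L
  obtain ⟨ha', -, -, -⟩ := alg8_sys hD hT hLoc hh L'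
  have hμ : L.1.HasMu p := hh.hμ.mono (hh.le.trans L.2)
  exact trT_injective (c.π h) (c.νIso h) (fun q : S => L.1.decHom q.1)
    (fun q : S => L'.1.decHom q.1) (c.D.tr h) (c.jS L) (c.jS L')
    (fun q : S => Level.trJ h q.1) (nsmul_NL L) (c.sq h)
    (fun f hf => (ha f).1 hf) (fun f' hf' => (ha' f').2 hf')
    (isLocTriv_inf (c.π h) (c.νIso h) (fun q : S => L.1.decHom q.1)
      (fun q : S => L'.1.decHom q.1) (fun q : S => Level.projDec h q.1)
      (fun q d => (Level.proj_decHom h q.1 d).symm))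
    (fun z hz hz0 => hD.gd8 h hμ z hz hz0)

/-- **LIM3 + LIM4**: `|T_L| = |sha₁ S N|` at every level of a high context above the level of
LIM4. -/
theorem sysT_card_eq (hD : c.D.IsGoodMu p) (hT : TateNakayamaAtSpec) (hLoc : LocalSpec p)
    [Finite c.N.V] {L₀ : Level S} (hh : IsHighOver c L₀)
    (hsha : ∀ L : Level S, c.base ≤ L →
      Nat.card (H603.sha1Fin c.N L) = Nat.card (sha₁ S c.N)) (L : c.Idx) :
    Nat.card (c.sysT.obj L) = Nat.card (sha₁ S c.N) :=
  ((sysT_card hD hT hLoc hh L).2.trans (_root_.Fermat.Agent.S55.E1.H957.card_shaFin_eq c.N L.1)).trans (hsha L.1 L.2)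

end Sys

/-! ## Existence of high levels -/

section High

variable {S : Finset Nat.Primes} {p : ℕ} [Fact p.Prime]

/-- **GD6 + LIM4**: above every level `L₀ ⊇ μ_p` trivialising `N` there is a level `L₂` such that
for all `L ≥ L₂` the norm condition of GD6 holds and `|Ш¹_fin(L)| = |sha₁ S N|`. -/
theorem exists_high_level {D : TowerDatum S} (hD : D.IsGoodMu p)
    (N : Rep.{0, 0, 0} (ZMod p) GQ) (h2 : (2 : ZMod p) ≠ 0) [Finite (sha₁ S N)]
    (L₀ : Level S) (hμ : L₀.HasMu p) (hN : ∀ s ∈ L₀.U, ∀ n : N, N.ρ s n = n) :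
    ∃ L₂ : Level S, L₀ ≤ L₂ ∧
      (∀ (L : Level S) (h : L₀ ≤ L), L₂ ≤ L →
        @NormInP p L.Gal _ (Level.relGal h) (Fintype.ofFinite _) (D.C L)) ∧
      (∀ L : Level S, L₂ ≤ L → Nat.card (H603.sha1Fin N L) = Nat.card (sha₁ S N)) := by
  obtain ⟨L₁, h01, hnorm⟩ := hD.gd6 L₀ hμ
  obtain ⟨L₂, h12, hsha⟩ := H603.exists_level_forall_card_sha1Fin_eq N h2 L₁
    (fun s hs n => hN s (Level.U_anti h01 hs) n)
  exact ⟨L₂, h01.trans h12, fun L h hL => hnorm L h (h12.trans hL), hsha⟩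

/-- A context over a good datum whose base level is above `L₂` of `exists_high_level` is high. -/
theorem isHighOver_of (c : Ctx S p) {L₀ : Level S} (hle : L₀ ≤ c.base) (hμ : L₀.HasMu p)
    (hN : ∀ s ∈ L₀.U, ∀ n : c.N, c.N.ρ s n = n)
    (hnorm : ∀ (L : Level S) (h : L₀ ≤ L), c.base ≤ L →
      @NormInP p L.Gal _ (Level.relGal h) (Fintype.ofFinite _) (c.D.C L)) :
    IsHighOver c L₀ :=
  ⟨hle, hμ, hN, hnorm⟩

/-- The context over a datum good above `μ_p`, a module `M` and a base level trivialising `M`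
and `N = M^∨(1)`. -/
def ctxAt {D : TowerDatum S} (hD : D.IsGoodMu p) (M : Rep.{0, 0, 0} (ZMod p) GQ)
    (base : Level S) (hM : ∀ s ∈ base.U, ∀ m : M, M.ρ s m = m)
    (hN : ∀ s ∈ base.U, ∀ n : M.dualTwist (cycloChar p), (M.dualTwist (cycloChar p)).ρ s n = n) :
    Ctx S p where
  D := D
  M := M
  base := base
  h7 := fun h q hq x => hD.gd7a h q hq x
  h7b := fun h h' x => hD.gd7b h h' x
  h4 := hD.gd4
  hM := hM
  hN := hN

/-- **LIM3 + LIM4 + GD6, final form**: above every level `L₀ ⊇ μ_p` trivialising `N` there is a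
level `L₂` such that for every base level `≥ L₂` (trivialising `M`) the system `T` of the
context `ctxAt` has constant cardinality `|sha₁ S N|` and injective transition maps
(the hypotheses `hT_card`, `hT_inj` of `E1.card_colim_eq`). -/
theorem exists_level_sysT {D : TowerDatum S} (hD : D.IsGoodMu p) (hT : TateNakayamaAtSpec)
    (hLoc : LocalSpec p) (M : Rep.{0, 0, 0} (ZMod p) GQ) (h2 : (2 : ZMod p) ≠ 0)
    [Finite (M.dualTwist (cycloChar p)).V] [Finite (sha₁ S (M.dualTwist (cycloChar p)))]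
    (L₀ : Level S) (hμ : L₀.HasMu p)
    (hN : ∀ s ∈ L₀.U, ∀ n : M.dualTwist (cycloChar p),
      (M.dualTwist (cycloChar p)).ρ s n = n) :
    ∃ L₂ : Level S, L₀ ≤ L₂ ∧ ∀ (base : Level S), L₂ ≤ base →
      ∀ (hM' : ∀ s ∈ base.U, ∀ m : M, M.ρ s m = m)
      (hN' : ∀ s ∈ base.U, ∀ n : M.dualTwist (cycloChar p),
        (M.dualTwist (cycloChar p)).ρ s n = n),
      (∀ L : (ctxAt hD M base hM' hN').Idx,
        Nat.card ((ctxAt hD M base hM' hN').sysT.obj L) =
          Nat.card (sha₁ S (M.dualTwist (cycloChar p)))) ∧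
      (∀ {L L' : (ctxAt hD M base hM' hN').Idx} (h : L ≤ L'),
        Function.Injective ((ctxAt hD M base hM' hN').sysT.tr h)) := by
  obtain ⟨L₂, h02, hnorm, hsha⟩ :=
    exists_high_level hD (M.dualTwist (cycloChar p)) h2 L₀ hμ hN
  refine ⟨L₂, h02, fun base hb hM' hN' => ?_⟩
  have hh : IsHighOver (ctxAt hD M base hM' hN') L₀ :=
    ⟨h02.trans hb, hμ, hN, fun L h hL => hnorm L h (hb.trans hL)⟩
  haveI : Finite (ctxAt hD M base hM' hN').N.V :=
    (inferInstance : Finite (M.dualTwist (cycloChar p)).V)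
  exact ⟨fun L => sysT_card_eq (c := ctxAt hD M base hM' hN') hD hT hLoc hh
      (fun L hL => hsha L (hb.trans hL)) L,
    fun {L L'} h => sysT_tr_injective (c := ctxAt hD M base hM' hN') hD hT hLoc hh h⟩

end High

end

end Fermat.Agent.S55.E1.H957

end
-- ===== PACK-END S55/E1/H957/Lim3Sys.lean

-- ===== PACK-BEGIN S55/E1/H603/Lim5Defs.lean
section
/-
S55 / engine E1 / block LIM, leaf LIM5 (helper603): DEFINITIONS of the morphism `e : Ш² → K`
on helper474's systems (`E1/Lim/Sys.lean`), and the four statements from which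
`∃ e : AddSys.Hom c.sysSh c.sysK, e.EvInj ∧ e.EvSurj` follows (`lim5_of_specs`).

* `edgeFun N X : H²(G, Hom_ℤ(N, X)) →+ 𝔈²(X)` : the edge map as a function (ALG9),
  `isEdge_edgeFun`, `edgeFun_eq`, `edgeFun_tr` (ALG10Edge);
* `cfEquiv`, `theta c hμ L : M_L ⟶ Hom_ℤ(N_L, E(F))` (helper295's `evalHom` on the `cf` models),
  `theta_bijective`, `thetaH2`, `thetaH2_bijective`;
* `eFun c hμ L : H²(Gal(F/ℚ), M^{U_F}) →+ 𝔈²_F(E)`;
* `Lim5iSpec`, `Lim5iiSpec`, `Lim5iiiSpec`, `Lim5CompatSpec`, `lim5_of_specs`.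
No sorry.
-/






set_option autoImplicit false

open CategoryTheory CategoryTheory.Limits groupCohomology ExtCitation

namespace Fermat.Agent.S55.E1.H603

open Fermat.Agent.S55.E1 Fermat.Agent.S55.Tow Fermat.Agent.S55.E1.Lim

noncomputable section

/-! ### The edge map as a function -/

section Edge

variable {G G' : Type} [Group G] [Finite G] [Group G'] [Finite G']

/-- `δ' : H¹(G, 𝔹) ≃ H²(G, Hom_ℤ(N, X))` (ALG9). -/
def edgeδEquiv (N X : Rep.{0} ℤ G) :
    groupCohomology (edgeB N X) 1 ≃+ groupCohomology ((Rep.ihom N).obj X) 2 :=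
  AddEquiv.ofBijective (edgeδ N X).toAddMonoidHom (H895.Final.alg9 G N X)

theorem edgeδEquiv_apply (N X : Rep.{0} ℤ G) (b : groupCohomology (edgeB N X) 1) :
    edgeδEquiv N X b = edgeδ N X b := rfl

/-- The edge map `e = incl_* ∘ δ'⁻¹ : H²(G, Hom_ℤ(N, X)) → 𝔈²(X)`. -/
def edgeFun (N X : Rep.{0} ℤ G) : groupCohomology ((Rep.ihom N).obj X) 2 →+ E2 N X :=
  (edgeIncl N X).toAddMonoidHom.comp (edgeδEquiv N X).symm.toAddMonoidHom

theorem isEdge_edgeFun {N X : Rep.{0} ℤ G} (x : groupCohomology ((Rep.ihom N).obj X) 2) :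
    IsEdge x (edgeFun N X x) :=
  ⟨(edgeδEquiv N X).symm x, (edgeδEquiv N X).apply_symm_apply x, rfl⟩

theorem edgeFun_eq {N X : Rep.{0} ℤ G} {x : groupCohomology ((Rep.ihom N).obj X) 2}
    {y : E2 N X} (h : IsEdge x y) : edgeFun N X x = y :=
  isEdge_unique H895.Final.alg9 (isEdge_edgeFun x) h

theorem isEdge_iff {N X : Rep.{0} ℤ G} {x : groupCohomology ((Rep.ihom N).obj X) 2}
    {y : E2 N X} : IsEdge x y ↔ edgeFun N X x = y :=
  ⟨edgeFun_eq, fun h => h ▸ isEdge_edgeFun x⟩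

/-- The edge map commutes with the transition maps (ALG10Edge). -/
theorem edgeFun_tr (π : G' →* G) {N : Rep.{0} ℤ G} {N' : Rep.{0} ℤ G'} (ν : N' ⟶ Rep.res π N)
    {X : Rep.{0} ℤ G} {X' : Rep.{0} ℤ G'} (ι : Rep.res π X ⟶ X')
    (x : groupCohomology ((Rep.ihom N).obj X) 2) :
    edgeFun N' X' ((groupCohomology.map π (trIhom π ν ι) 2).hom x) =
      trE2 π ν ι (edgeFun N X x) :=
  edgeFun_eq (isEdge_tr_of H895.Final.alg10Edge π ν ι (isEdge_edgeFun x))

end Edge

/-! ### The bidual isomorphism on the `cf` models -/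

section Theta

variable {S : Finset Nat.Primes}

/-- `(A^{U_F})` is all of `A` when `U_F` acts trivially. -/
def cfEquiv {K : Type} [Field K] (A : Rep.{0, 0, 0} K GQ) (L : Level S)
    (hA : ∀ s ∈ L.U, ∀ a : A, A.ρ s a = a) : (cf A L).V ≃+ A.V where
  toFun := cfVal A
  invFun := cfMk A hA
  left_inv _ := cfVal_injective A rfl
  right_inv _ := rfl
  map_add' _ _ := rfl

@[simp] theorem cfEquiv_apply {K : Type} [Field K] (A : Rep.{0, 0, 0} K GQ) (L : Level S)
    (hA : ∀ s ∈ L.U, ∀ a : A, A.ρ s a = a) (a : (cf A L).V) :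
    cfEquiv A L hA a = cfVal A a := rfl

variable {p : ℕ} [Fact p.Prime] (c : Ctx S p) (hμ : c.base.HasMu p)

include hμ in
theorem hasMu_at (L : c.Idx) : L.1.HasMu p := hμ.mono L.2

theorem evalCompat_cf (L : c.Idx) :
    H295.EvalCompat (c.ML L) (c.NL L) (sUnits L.1) c.M (cfEquiv c.M L.1 (c.hM_at L))
      (cfEquiv c.N L.1 (c.hN_at L)) (H295.muToSUnits L.1 (hasMu_at c hμ L)) := by
  intro γ
  induction γ using QuotientGroup.induction_on with
  | H σ =>
    exact ⟨σ, fun a => rfl, fun b => rfl,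
      fun t => H295.muToSUnits_equivariant L.1 (hasMu_at c hμ L) σ t⟩

/-- `Θ_F : M_F ⟶ Hom_ℤ(N_F, E(F))`, `m ↦ (f ↦ ⟨m, f⟩ ∈ μ_p ⊂ E(F))`. -/
def theta (L : c.Idx) : c.ML L ⟶ (Rep.ihom (c.NL L)).obj (sUnits L.1) :=
  H295.evalHom (evalCompat_cf c hμ L)

theorem theta_bijective [FiniteDimensional (ZMod p) c.M] (L : c.Idx) :
    Function.Bijective (theta c hμ L).hom :=
  H295.evalHom_bijective _ (H295.muToSUnits_injective L.1 (hasMu_at c hμ L))
    (H295.exists_muToSUnits_eq L.1 (hasMu_at c hμ L))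

/-- `Θ_F` on `H²`: `H²(Gal(F/ℚ), M^{U_F}) → H²(Gal(F/ℚ), Hom_ℤ(N_F, E(F)))`. -/
def thetaH2 (L : c.Idx) :
    H2 (coeff c.M L.1) →+ groupCohomology ((Rep.ihom (c.NL L)).obj (sUnits L.1)) 2 :=
  ((groupCohomology.map (MonoidHom.id L.1.Gal) (theta c hμ L) 2).hom.toAddMonoidHom).comp
    (H2IntEquiv (coeff c.M L.1)).symm.toAddMonoidHom

theorem thetaH2_bijective [FiniteDimensional (ZMod p) c.M] (L : c.Idx) :
    Function.Bijective (thetaH2 c hμ L) :=
  (map_bijective_of_bijective (theta c hμ L) (theta_bijective c hμ L) 2).comp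
    (H2IntEquiv (coeff c.M L.1)).symm.bijective

/-- `e_F : H²(Gal(F/ℚ), M^{U_F}) → 𝔈²_F(E)`. -/
def eFun (L : c.Idx) : H2 (coeff c.M L.1) →+ E2 (c.NL L) (sUnits L.1) :=
  (edgeFun (c.NL L) (sUnits L.1)).comp (thetaH2 c hμ L)

theorem isEdge_eFun (L : c.Idx) (x : H2 (coeff c.M L.1)) :
    IsEdge (thetaH2 c hμ L x) (eFun c hμ L x) := isEdge_edgeFun _

/-! ### The four statements of LIM5 -/

/-- **LIM5 (i).** `Ш²_F = e_F⁻¹(K_F)`. -/
def Lim5iSpec : Prop :=
  ∀ (L : c.Idx) (x : H2 (coeff c.M L.1)), x ∈ c.ShSub L ↔ eFun c hμ L x ∈ c.KSub L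

/-- **LIM5 (ii).** `e_F(x) = 0 ⇒ x` dies at a higher level. -/
def Lim5iiSpec : Prop :=
  ∀ (L : c.Idx) (x : H2 (coeff c.M L.1)), eFun c hμ L x = 0 →
    ∃ (L' : c.Idx) (h : L ≤ L'), tr₂ c.M (S := S) h x = 0

/-- **LIM5 (iii).** Every `y ∈ 𝔈²_F(E)` lies in the image of `e` at a higher level. -/
def Lim5iiiSpec : Prop :=
  ∀ (L : c.Idx) (y : E2 (c.NL L) (sUnits L.1)),
    ∃ (L' : c.Idx) (h : L ≤ L') (x' : H2 (coeff c.M L'.1)),
      eFun c hμ L' x' = trE2 (c.π h) (c.ν h) (trS h) y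

/-- **LIM5 (compatibility).** `e` commutes with the transition maps. -/
def Lim5CompatSpec : Prop :=
  ∀ {L L' : c.Idx} (h : L ≤ L') (x : H2 (coeff c.M L.1)),
    eFun c hμ L' (tr₂ c.M (S := S) h x) = trE2 (c.π h) (c.ν h) (trS h) (eFun c hμ L x)

/-- **LIM5, assembly.** -/
theorem lim5_of_specs (h1 : Lim5iSpec c hμ) (h2 : Lim5iiSpec c hμ) (h3 : Lim5iiiSpec c hμ)
    (h4 : Lim5CompatSpec c hμ) :
    ∃ e : AddSys.Hom c.sysSh c.sysK, e.EvInj ∧ e.EvSurj := by
  let app : ∀ L : c.Idx, c.sysSh.obj L →+ c.sysK.obj L := fun L =>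
    { toFun := fun x => ⟨eFun c hμ L x.1, (h1 L x.1).1 x.2⟩
      map_zero' := Subtype.ext (map_zero (eFun c hμ L))
      map_add' := fun x y => Subtype.ext (map_add (eFun c hμ L) x.1 y.1) }
  refine ⟨⟨app, fun {L L'} h x => Subtype.ext (h4 h x.1)⟩, ?_, ?_⟩
  · intro L x hx
    have hx0 : eFun c hμ L x.1 = 0 := congrArg Subtype.val hx
    obtain ⟨L', h, hL'⟩ := h2 L x.1 hx0
    exact ⟨L', h, Subtype.ext hL'⟩
  · intro L y
    obtain ⟨L', h, x', hx'⟩ := h3 L y.1
    have hK : eFun c hμ L' x' ∈ c.KSub L' := by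
      rw [hx']
      exact c.trE2_mem_KSub h y.1 y.2
    exact ⟨L', h, ⟨x', (h1 L' x').2 hK⟩, Subtype.ext hx'⟩

end Theta

end

end Fermat.Agent.S55.E1.H603

end
-- ===== PACK-END S55/E1/H603/Lim5Defs.lean

-- ===== PACK-BEGIN S55/E1/H719/Lim5K.lean
section



/-!
# S55 engine E1, block LIM, leaf LIM5-K — helper719

`K_F = ker (𝔈²_F(E) → 𝔈²_F(J))` in local terms: for `y ∈ 𝔈²_F(E)`,

  `y ∈ K_F  ↔  ∀ q ∈ S, tr_q y = 0` in `𝔈²_{D_q}(N|_{D_q}, F_qˣ)`,

where `tr_q = trE2 (decHom q) 𝟙 (E(F) → F_qˣ)` is the transition map along the decomposition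
group for the standard presentations.

* `ihomH1Map_piLift_eq_zero_iff` : `H¹(G, Hom(R, ∏ A_i)) → ∏ H¹(G, Hom(R, A_i))` is injective
  (cocycle level; any index type);
* `sEmb L q : Res (sUnits L) ⟶ L.locUnits q`, `flat_diag`;
* `mem_KSub_iff`, `mem_KSub_iff_sEmb`.
-/

set_option autoImplicit false

open CategoryTheory CategoryTheory.Limits groupCohomology

namespace Fermat.Agent.S55.E1.H719

open Fermat.Agent.S55.Tow Fermat.Agent.S55.E1 Fermat.Agent.S55.E1.Lim
open Fermat.Agent.S55.T.H719 (ihomLin ihomMk)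

noncomputable section

/-! ## `H¹(G, Hom(R, -))` and products -/

section Ext

variable {k : Type} [CommRing k] {G : Type} [Group G]

/-- Extensionality for elements of `Hom_k(R, X)` (stated for general `k`, so that the module
structures are those of the representations). -/
lemma ihom_ext_apply {R X : Rep.{0} k G} {φ ψ : ((Rep.ihom R).obj X).V}
    (h : ∀ r : R.V, ihomLin φ r = ihomLin ψ r) : φ = ψ :=
  LinearMap.ext h

end Ext

section Pi

variable {G : Type} [Group G] {ι : Type}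

lemma piLift_comp_piProj {A : ι → Rep.{0} ℤ G} {X : Rep.{0} ℤ G} (f : ∀ i, X ⟶ A i) (i : ι) :
    piLift f ≫ piProj A i = f i := by
  apply Rep.hom_ext
  apply DFunLike.ext
  intro x
  rfl

/-- A class of `H¹(G, Hom(R, X))` dies in `H¹(G, Hom(R, ∏ A_i))` iff it dies in every
`H¹(G, Hom(R, A_i))`. -/
theorem ihomH1Map_piLift_eq_zero_iff (R : Rep.{0} ℤ G) {A : ι → Rep.{0} ℤ G} {X : Rep.{0} ℤ G}
    (f : ∀ i, X ⟶ A i) (y : H1 ((Rep.ihom R).obj X)) :
    (H354.ihomH1Map R (piLift f)).hom y = 0 ↔ ∀ i, (H354.ihomH1Map R (f i)).hom y = 0 := by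
  constructor
  · intro h i
    have h1 : H354.ihomH1Map R (f i) =
        H354.ihomH1Map R (piLift f) ≫ H354.ihomH1Map R (piProj A i) := by
      unfold H354.ihomH1Map
      rw [← groupCohomology.map_id_comp, ← Functor.map_comp, piLift_comp_piProj]
    rw [h1]
    show (H354.ihomH1Map R (piProj A i)).hom ((H354.ihomH1Map R (piLift f)).hom y) = 0
    rw [h, map_zero]
  · induction y using H1_induction_on with
    | h c =>
      intro h
      have h' : ∀ i, ∃ φ : ((Rep.ihom R).obj (A i)).V, ∀ (g : G) (r : R.V),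
          (A i).ρ g (ihomLin φ (R.ρ g⁻¹ r)) - ihomLin φ r = (f i).hom (ihomLin (c g) r) := by
        intro i
        have h0 := h i
        rw [H354.ihomH1Map_H1π, H1π_eq_zero_iff] at h0
        obtain ⟨φ, hφ⟩ := h0
        refine ⟨φ, fun g r => ?_⟩
        have := congrFun hφ g
        rw [d₀₁_hom_apply] at this
        exact congrArg (fun x => ihomLin x r) this
      choose φ hφ using h'
      rw [H354.ihomH1Map_H1π, H1π_eq_zero_iff]
      let Φ₀ : R.V →+ (piRep A).V :=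
        { toFun := fun r => piOf (fun i => ihomLin (φ i) r)
          map_zero' := piRep_ext fun i => map_zero (ihomLin (φ i))
          map_add' := fun r s => piRep_ext fun i => map_add (ihomLin (φ i)) r s }
      refine ⟨ihomMk (linOfAdd (A := R) (B := piRep A) Φ₀), ?_⟩
      funext g
      rw [d₀₁_hom_apply]
      refine ihom_ext_apply (fun r => ?_)
      refine piRep_ext (fun i => ?_)
      exact hφ i g r

end Pi

/-! ## The local criterion for `K_F` -/

section K

variable {S : Finset Nat.Primes}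

/-- `E(F) → F_qˣ` as a morphism of `Gal(F_q/ℚ_q)`-modules. -/
def sEmb (L : Level S) (q : Nat.Primes) : Rep.res (L.decHom q) (sUnits L) ⟶ L.locUnits q :=
  (Rep.resFunctor (L.decHom q)).map (sIncl L) ≫ L.emb q

lemma sEmb_apply (L : Level S) (q : Nat.Primes) (e : (sUnits L).V) :
    (sEmb L q).hom e = L.embFun q ((sIncl L).hom e) := rfl

/-- The diagonal `E(F) → J_q(F) = Coind F_qˣ`. -/
def sDiag (L : Level S) (q : Nat.Primes) : sUnits L ⟶ Rep.coind (L.decHom q) (L.locUnits q) :=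
  sIncl L ≫ L.diag q

/-- `(E(F) → J_q(F))^♭ = (E(F) → F_qˣ)`. -/
lemma flat_diag (L : Level S) (q : Nat.Primes) :
    flat (L.decHom q) (sDiag L q) = sEmb L q := by
  apply Rep.hom_ext
  apply DFunLike.ext
  intro e
  show L.embFun q (L.units.ρ 1 ((sIncl L).hom e)) = L.embFun q ((sIncl L).hom e)
  rw [map_one]
  rfl

variable {p : ℕ} [Fact p.Prime] (c : Ctx S p)

/-- **LIM5-K.** `y ∈ K_F` iff `tr_q y = 0` in `𝔈²_{D_q}(N|_{D_q}, F_qˣ)` for all `q ∈ S`. -/
theorem mem_KSub_iff (L : c.Idx) (y : E2 (c.NL L) (sUnits L.1)) :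
    y ∈ c.KSub L ↔ ∀ q : S, trE2 (L.1.decHom q.1) (𝟙 (Rep.res (L.1.decHom q.1) (c.NL L)))
      (flat (L.1.decHom q.1) (sDiag L.1 q.1)) y = 0 := by
  have h1 : y ∈ c.KSub L ↔
      (H354.ihomH1Map (stdR (c.NL L)) (piLift (fun q : S => sDiag L.1 q.1))).hom y = 0 :=
    Iff.rfl
  rw [h1, ihomH1Map_piLift_eq_zero_iff]
  refine forall_congr' fun q => ?_
  exact H423.E2_dies_iff_trE2 (c.NL L) (L.1.decHom_injective q.1) (sDiag L.1 q.1) y

/-- **LIM5-K**, in terms of `sEmb`. -/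
theorem mem_KSub_iff_sEmb (L : c.Idx) (y : E2 (c.NL L) (sUnits L.1)) :
    y ∈ c.KSub L ↔ ∀ q : S, trE2 (L.1.decHom q.1) (𝟙 (Rep.res (L.1.decHom q.1) (c.NL L)))
      (sEmb L.1 q.1) y = 0 := by
  rw [mem_KSub_iff]
  refine forall_congr' fun q => ?_
  rw [flat_diag]

end K

end

end Fermat.Agent.S55.E1.H719

end
-- ===== PACK-END S55/E1/H719/Lim5K.lean

-- ===== PACK-BEGIN S59/NMP/H254/SelTop.lean
section






/-!
# Row S59, cell NMP, leaf SEL — CLOSED (assembly, helper254)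

`selP : NMP.SelStatement`, unconditional:

    VALFIN   `NMP.H649.valFin`        (helper649)   finite-level Kummer valuation element
    LOCVAL   `locVal_of_valFin`       (Compact.lean)  compactness
    PEUHOPF  `NMP.H601.peuHopf`       (helper601)   peu ramifié level ⟹ Hopf model
    LOCFLAT  `locFlat_of`             (LocFlat.lean)
    glue     `sel_of_locFlat`         (SelGlue.lean)  deformation theory + count
-/

set_option autoImplicit false

namespace Fermat.Agent.S59.NMP.H254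

/-- `LOCVAL`, unconditional. -/
theorem locVal : Fermat.Agent.S59.NMP.H134.LocValStatement :=
  locVal_of_valFin Fermat.Agent.S59.NMP.H649.valFin

/-- `LOCFLAT`, unconditional. -/
theorem locFlat : Fermat.Agent.S59.NMP.H134.LocFlatStatement :=
  locFlat_of locVal Fermat.Agent.S59.NMP.H601.peuHopf

/-- **Leaf SEL of the cell NMP**, unconditional. -/
theorem selP : Fermat.Agent.S59.NMP.SelStatement :=
  sel_of_locFlat locFlat

end Fermat.Agent.S59.NMP.H254

end
-- ===== PACK-END S59/NMP/H254/SelTop.lean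

-- ===== PACK-BEGIN S59/NMP/H341/StepPCurve.lean
section





/-!
# S59, cell NMP, leaf STEP-P (helper341): the curve case

* `eig_of_curve` : in the curve case the Frobenius system of `ρ̄ = E[p] ⊗ k` is `a_l(W)` at the
  good primes `l ≥ 5`, `l ∉ S`.
* `iharaAtP_of_curve` : Ihara's lemma at `p` (`IharaAtP`) in the curve case, from
  `Fermat.Agent.S59.H341.ihara_eigen_torsion_avoid`.
* `boundStepP_of_old` : `NM.OldStatement → NMP.BoundStepPStatement`
  (HK2 is `H202.hk2`, on main).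
-/

set_option autoImplicit false

open CongruenceSubgroup IsLocalRing Polynomial
open WeierstrassCurve WeierstrassCurve.Affine WeierstrassCurve.Affine.Point
open scoped MatrixGroups

namespace Fermat.Agent.S59.NMP.H341

open Fermat.Agent.S59.NM Fermat.Agent.S41.Spec Fermat.Agent.S29.H642 ModularCurve.Period
  Fermat.Agent.S59.H585 Fermat.Agent.S59.Arch

/-- In the curve case, the Frobenius traces of `ρ̄` at the good primes `l ≥ 5` outside `S` are
the `a_l(W)`. -/
theorem eig_of_curve {p : ℕ} [Fact p.Prime] {k : Type} [Field k]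
    (W : WeierstrassCurve ℤ) (hΔ : W.Δ ≠ 0) (hirr : W.ModRepIsIrreducible p)
    (hcard : Nat.card (Submodule.torsionBy ℤ
      ((W.map (Int.castRingHom ℚ))⁄(AlgebraicClosure ℚ)).Point p) = p ^ 2)
    (hker : GaloisFactorsThroughFiniteLevel
      (WeierstrassCurve.Affine.Point.galoisRepModuleEnd (K := AlgebraicClosure ℚ) ℚ
        (W.map (Int.castRingHom ℚ)) p))
    (ι : ZMod p →+* k) (S : Finset ℕ) (a : ℕ → k)
    (ha : ∀ (l : ℕ), l.Prime → l ∉ S →
      ∀ B : ValuationSubring Fermat.Agent.S31.Qb, B.LiesOverPrime l →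
        ∀ σ : Fermat.Agent.S31.GQ, B.IsFrobeniusAt σ l →
          LinearMap.charpoly ((curveResidual p W hcard hker ι).ρ σ) =
            X ^ 2 - C (a l) * X + C ((l : k)))
    {l : ℕ} (hl : l.Prime) (hlS : l ∉ S) (h5 : 5 ≤ l) (hgood : W.IsGoodPrimeFor l)
    (hlp : l ≠ p) : a l = ((W.apOfModel l : ℤ) : k) := by
  obtain ⟨A, σ, hA, hσ⟩ := Fermat.Agent.S54.exists_frobenius l hl
  have h1 := ha l hl hlS A hA σ hσ
  have h2 := Fermat.Agent.S59.H401.dict_charpoly_good W hΔ p hirr hcard hker l hl h5 hgood hlp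
    A hA σ hσ
  have h3 : LinearMap.charpoly ((curveResidual p W hcard hker ι).ρ σ) =
      (LinearMap.charpoly
        (((W.map (Int.castRingHom ℚ)).residualGaloisRepOf p hcard hker).ρ σ)).map ι := by
    let _ : Algebra (ZMod p) k := ι.toAlgebra
    exact LinearMap.charpoly_baseChange
      (((W.map (Int.castRingHom ℚ)).residualGaloisRepOf p hcard hker).ρ σ) k
  rw [h3, h2] at h1
  have h4 := congrArg (fun P : k[X] => P.coeff 1) h1
  simp only [Polynomial.map_add, Polynomial.map_sub, Polynomial.map_mul, Polynomial.map_pow,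
    Polynomial.map_X, map_intCast, map_natCast] at h4
  simp [coeff_X_pow, coeff_C] at h4
  exact h4.symm

/-- **Ihara's lemma at `p` in the curve case.** -/
theorem iharaAtP_of_curve {p : ℕ} [hp : Fact p.Prime] (hp2 : p ≠ 2)
    {𝒪 : Type} [CommRing 𝒪] [IsLocalRing 𝒪] (hp𝒪 : (p : 𝒪) ∈ maximalIdeal 𝒪)
    {ρbar : ResidualGaloisRep (ResidueField 𝒪)} (hc : CurveCase p ρbar)
    {N : ℕ} (hN : N ≠ 0) (hpN : ¬ p ∣ N) {S : Finset ℕ}
    (hSN : ∀ r ∈ S, r ≠ p → r ∣ N) {a : ℕ → 𝒪} (ha : IsFrobSystem ρbar S a) :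
    IharaAtP 𝒪 N p S a := by
  intro z₁ z₂ h₁ h₂ hker
  obtain ⟨-, W, hΔ, -, hirr, hcard, hkerW, ι, rfl⟩ := hc
  have : (W.map (Int.castRingHom ℚ)).IsElliptic := by
    refine ⟨isUnit_iff_ne_zero.mpr ?_⟩
    rw [WeierstrassCurve.map_Δ]
    simpa using hΔ
  have hW : W.IsIntegralModelOf (W.map (Int.castRingHom ℚ)) := ⟨1, one_smul _ _⟩
  have hpk : ((p : ℕ) : ResidueField 𝒪) = 0 := by
    rw [← map_natCast (residue 𝒪)]
    exact (residue_eq_zero_iff _).mpr hp𝒪
  refine Fermat.Agent.S59.H341.ihara_eigen_torsion_avoid (W.map (Int.castRingHom ℚ)) W hW p N p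
    hp.out hp2 hN hp.out hpN hirr (A := ResidueField 𝒪) (fun x => ?_) {2, 3} z₁ z₂ h₁.1 h₂.1 hker
    (fun l _ hl hlNp hgood hlp hlT => ?_)
  · rw [nsmul_eq_mul, hpk, zero_mul]
  · have hlprime : l.Prime := Fact.out
    have hlS : l ∉ S := by
      intro h
      exact hl (hSN l h hlp)
    have h5 : 5 ≤ l := by
      simp only [Finset.mem_insert, Finset.mem_singleton, not_or] at hlT
      exact Fermat.Agent.S59.H401.dict_five_le hlprime hlT.1 hlT.2
    have he := eig_of_curve W hΔ hirr hcard hkerW ι S (fun l => residue 𝒪 (a l)) ha hlprime hlS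
      h5 hgood hlp
    rw [h₁.2 l hl hlS]
    refine AddMonoidHom.ext fun g => ?_
    show residue 𝒪 (a l) * z₁ g = (W.apOfModel l : ℤ) • z₁ g
    rw [he, zsmul_eq_mul]

/-- **STEP-P** from the leaf OLD of cell NM. -/
theorem boundStepP_of_old (hOld : OldStatement) : BoundStepPStatement := by
  intro p _ hp2 𝒪 _ _ _ _ _ _ hp𝒪 ρbar _ _ hc N hN hpN S hpS _ hNS hSN a ha ap hap J hB
  exact boundStepP_core Fermat.Agent.S59.H202.hk2 hOld hN hpN hp𝒪 hpS hNS
    (iharaAtP_of_curve hp2 hp𝒪 hc hN hpN hSN ha) ap hap hB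

end Fermat.Agent.S59.NMP.H341

end
-- ===== PACK-END S59/NMP/H341/StepPCurve.lean

-- ===== PACK-BEGIN S59/NMP/H341/StepPFinal.lean
section



/-!
# S59, cell NMP, leaf STEP-P (helper341): `NMP.BoundStepPStatement`, unconditional

`boundStepP : NMP.BoundStepPStatement` = `boundStepP_of_old` applied to `H563.old563`
(`NM.OldStatement`, helper563 + helper63).
-/

set_option autoImplicit false

namespace Fermat.Agent.S59.NMP.H341

/-- **STEP-P**: `BettiBound N S a J ⇒ BettiBound (N p) S a ((a_p² − (p + 1)²) J)`. -/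
theorem boundStepP : Fermat.Agent.S59.NMP.BoundStepPStatement :=
  boundStepP_of_old Fermat.Agent.S59.H563.old563

end Fermat.Agent.S59.NMP.H341

end
-- ===== PACK-END S59/NMP/H341/StepPFinal.lean

-- ===== PACK-BEGIN S38T/IA/Hecke/GlueB3.lean
section






/-!
# S59 (B2) HECKE-T: MECHANICAL `ty`-generic twin of `Fermat.Agent.S38.IA.Hecke.GlueB3`  (helper3, by script)

Only the `ty`-dependent declarations are twinned (suffix `_T`); the others are imported.
-/

set_option autoImplicit false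

open Polynomial IsLocalRing CongruenceSubgroup
open scoped MatrixGroups

namespace Fermat.Agent.S38.IA.Hecke

variable {ty : Fermat.Agent.S59.Arch.PType}

open Fermat.Agent.S59.Arch Fermat.Agent.S59.TW.H959 Fermat.Agent.S59.TW Fermat.Agent.S59.H765
open Fermat.Agent.S59.TW.H653 Fermat.Agent.S59.TW.Aut
open CuspForm

section Exp

end Exp

section Rank

variable {p : ℕ} [hpF : Fact p.Prime]
  {𝒪 : Type} [CommRing 𝒪] [IsDomain 𝒪] [IsDiscreteValuationRing 𝒪]
  [IsAdicComplete (maximalIdeal 𝒪) 𝒪]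
  {ρbar : ResidualGaloisRep (ResidueField 𝒪)} {Smin Piv : Finset ℕ}
  {k r : ℕ} {pv : Fin k → ℕ} {qv : Fin r → ℕ}
  [NeZero (wilesLevel p ty Smin (Smin ∪ Piv ∪ Finset.univ.image qv))]
  {PQ : HeckePkg p 𝒪 ρbar ty Smin (Smin ∪ Piv ∪ Finset.univ.image qv)}
  {α : Fin r → 𝒪} {V : Submodule 𝒪 (XIA_T p ty Smin pv qv 𝒪)}
  [NeZero (MIA_T p ty Smin pv qv)]
  (hV : IsIAPart_T PQ α V)
  (hsurj : Function.Surjective (gRed (wilesLevel p ty Smin Smin) (Sum.elim pv qv)))

/-- The diamond action on `V`, `𝒪`-linearly. -/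
noncomputable def diaLin_T :
    (∀ i : Fin k, (ZMod (pv i))ˣ) × (∀ j : Fin r, (ZMod (qv j))ˣ) →* Module.End 𝒪 V where
  toFun d :=
    { toFun := fun v => ⟨diaIA_T p ty Smin pv qv 𝒪 d.1 d.2 v, diaIA_mem_T hV d.1 d.2 v.2⟩
      map_add' := fun x y => Subtype.ext (diaIA_add_T p Smin pv qv 𝒪 d.1 d.2 _ _)
      map_smul' := fun c x => Subtype.ext (diaIA_smul_T p Smin pv qv 𝒪 d.1 d.2 c _) }
  map_one' := by
    refine LinearMap.ext fun v => Subtype.ext ?_
    exact diaIA_one_T p Smin pv qv 𝒪 hsurj _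
  map_mul' d d' := by
    refine LinearMap.ext fun v => Subtype.ext ?_
    exact diaIA_mul_T p Smin pv qv 𝒪 hsurj _ _ _ _ _

theorem coe_diaLin_T (d : (∀ i : Fin k, (ZMod (pv i))ˣ) × (∀ j : Fin r, (ZMod (qv j))ˣ)) (v : V) :
    ((diaLin_T hV hsurj d v : V) : XIA_T p ty Smin pv qv 𝒪) = diaIA_T p ty Smin pv qv 𝒪 d.1 d.2 v := rfl

include hV hsurj in
/-- **The rank of `V` over `𝒪[Δ_Piv × Δ_Q]` is the rank of `V₀`.** -/
theorem rank_eq_of_ctrl_T (hRank : IARankStatement) (hpvP : ∀ i, (pv i).Prime)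
    (hqvP : ∀ j, (qv j).Prime) {d' : ℕ} (hfree : IAFreeAt_T V d')
    {V₀ : Submodule 𝒪 (Additive (Gamma0 (ribetLevelT p ty Smin Piv)) →+ 𝒪)}
    (hctrl : IACtrlAt_T V₀ V) {d : ℕ} (B₀ : Module.Basis (Fin d) 𝒪 V₀) : d' = d := by
  haveI : ∀ i, NeZero (pv i) := fun i => ⟨(hpvP i).ne_zero⟩
  haveI : ∀ j, NeZero (qv j) := fun j => ⟨(hqvP j).ne_zero⟩
  choose g₁ hg₁ hgen₁ using fun i => exists_primitive_root_units (hpvP i)
  choose g₂ hg₂ hgen₂ using fun j => exists_primitive_root_units (hqvP j)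
  have hm₁ : ∀ i, 0 < p ^ padicValNat p (pv i - 1) := fun i => pow_pos hpF.out.pos _
  have hm₂ : ∀ j, 0 < p ^ padicValNat p (qv j - 1) := fun j => pow_pos hpF.out.pos _
  obtain ⟨b, hb⟩ := hfree g₁ g₂ hg₁ hg₂
  obtain ⟨π, hπs, hπk⟩ := hctrl
  refine hRank 𝒪 V V₀ ((∀ i : Fin k, (ZMod (pv i))ˣ) × (∀ j : Fin r, (ZMod (qv j))ˣ))
    (diaLin_T hV hsurj)
    ((∀ i : Fin k, Fin (p ^ padicValNat p (pv i - 1))) ×
      (∀ j : Fin r, Fin (p ^ padicValNat p (qv j - 1))))
    (fun e => (fun i => g₁ i ^ (e.1 i : ℕ), fun j => g₂ j ^ (e.2 j : ℕ)))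
    ?_ ?_ d' b ?_ π hπs ?_ d ⟨B₀⟩
  · -- the exponents are permuted
    intro a e
    choose e₁ c₁ h₁ using fun i => exists_translate (hgen₁ i) (hm₁ i) (a.1 i) (e.1 i)
    choose e₂ c₂ h₂ using fun j => exists_translate (hgen₂ j) (hm₂ j) (a.2 j) (e.2 j)
    refine ⟨(e₁, e₂), ?_⟩
    have h3 : a * ((fun i => g₁ i ^ (e.1 i : ℕ)), (fun j => g₂ j ^ (e.2 j : ℕ))) =
        ((fun i => g₁ i ^ (e₁ i : ℕ)), (fun j => g₂ j ^ (e₂ j : ℕ))) *
          ((fun i => c₁ i ^ p ^ padicValNat p (pv i - 1)),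
            (fun j => c₂ j ^ p ^ padicValNat p (qv j - 1))) :=
      Prod.ext (funext h₁) (funext h₂)
    have h4 : diaLin_T hV hsurj ((fun i => c₁ i ^ p ^ padicValNat p (pv i - 1)),
        (fun j => c₂ j ^ p ^ padicValNat p (qv j - 1))) = 1 := by
      refine LinearMap.ext fun v => Subtype.ext ?_
      exact diaIA_pow_T p Smin pv qv 𝒪 hsurj c₁ c₂ _
    rw [h3, map_mul, h4, mul_one]
  · -- the identity
    refine ⟨(fun i => ⟨0, hm₁ i⟩, fun j => ⟨0, hm₂ j⟩), ?_⟩
    have h3 : (((fun i => g₁ i ^ ((⟨0, hm₁ i⟩ : Fin (p ^ padicValNat p (pv i - 1))) : ℕ)),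
        (fun j => g₂ j ^ ((⟨0, hm₂ j⟩ : Fin (p ^ padicValNat p (qv j - 1))) : ℕ))) :
        (∀ i : Fin k, (ZMod (pv i))ˣ) × (∀ j : Fin r, (ZMod (qv j))ˣ)) = 1 :=
      Prod.ext (funext fun i => pow_zero _) (funext fun j => pow_zero _)
    rw [h3, map_one]
  · -- the basis
    intro y
    obtain ⟨c, hc, hcu⟩ := hb y
    have key : ∀ c' : Fin d' → (∀ i : Fin k, Fin (p ^ padicValNat p (pv i - 1))) ×
        (∀ j : Fin r, Fin (p ^ padicValNat p (qv j - 1))) → 𝒪,
        (y = ∑ i, ∑ e, c' i e • diaLin_T hV hsurj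
          ((fun i' => g₁ i' ^ (e.1 i' : ℕ)), (fun j => g₂ j ^ (e.2 j : ℕ))) (b i)) ↔
        ((y : XIA_T p ty Smin pv qv 𝒪) = ∑ i, ∑ e, c' i e • diaIA_T p ty Smin pv qv 𝒪
          (fun i' => g₁ i' ^ (e.1 i' : ℕ)) (fun j => g₂ j ^ (e.2 j : ℕ)) (b i)) := by
      intro c'
      rw [Subtype.ext_iff, Submodule.coe_sum]
      have : ∀ i : Fin d', ((∑ e, c' i e • diaLin_T hV hsurj
          ((fun i' => g₁ i' ^ (e.1 i' : ℕ)), (fun j => g₂ j ^ (e.2 j : ℕ))) (b i) : V) :
          XIA_T p ty Smin pv qv 𝒪) = ∑ e, c' i e • diaIA_T p ty Smin pv qv 𝒪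
          (fun i' => g₁ i' ^ (e.1 i' : ℕ)) (fun j => g₂ j ^ (e.2 j : ℕ)) (b i) := by
        intro i
        rw [Submodule.coe_sum]
        rfl
      simp only [this]
    exact ⟨c, (key c).mpr hc, fun c' hc' => hcu c' ((key c').mp hc')⟩
  · -- the kernel
    intro y
    rw [hπk y]
    have hset : {z : V | ∃ (a₁ : ∀ i : Fin k, (ZMod (pv i))ˣ)
        (a₂ : ∀ j : Fin r, (ZMod (qv j))ˣ) (y' : V),
        (z : XIA_T p ty Smin pv qv 𝒪) = diaIA_T p ty Smin pv qv 𝒪 a₁ a₂ y' - y'} =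
        {z : V | ∃ (a : (∀ i : Fin k, (ZMod (pv i))ˣ) × (∀ j : Fin r, (ZMod (qv j))ˣ))
          (y' : V), z = diaLin_T hV hsurj a y' - y'} := by
      ext z
      constructor
      · rintro ⟨a₁, a₂, y', h⟩
        exact ⟨(a₁, a₂), y', Subtype.ext h⟩
      · rintro ⟨a, y', h⟩
        exact ⟨a.1, a.2, y', congrArg Subtype.val h⟩
    rw [hset]

end Rank

/-- **Glue B of layer 3 of the cell HECKE**: the abstract Betti module from the concrete
leaves. -/
theorem iaBetti_of_leaves_T (hIdem : IdemStatement) (hNon : IANontrivStatement_T)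
    (hMod : IAModStatement_T) (hFree : IAFreeStatement_T) (hCtrl : IACtrlStatement_T)
    (hRank : IARankStatement) (hCmp : IACmpStatement_T) (hNu : IANuStatement_T)
    (hSt : IAStStatement_T) : IABettiStatement_T := by
  intro p hpF hp5 𝒪 _ _ _ _ _ _ ρbar Smin h ty hflat Piv hPiv hL θ₀ hθ₀ hmin k pv hpv hpvPiv
  -- the module at the level `L`
  obtain ⟨V₀, hV₀⟩ := hIdem 𝒪 (ribetLevelT p ty Smin Piv) (NeZero.ne _)
    (Gamma0 (ribetLevelT p ty Smin Piv)) (isMid_Gamma0 _) (TsetOfθ θ₀) ∅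
    (fun x hx => by
      obtain ⟨hℓ, hℓN, -, -⟩ := hx
      exact ⟨hℓ, hℓN⟩)
    (fun x hx => absurd hx (Set.notMem_empty x))
  obtain ⟨d, hd, ⟨B₀⟩⟩ := hNon p hp5 𝒪 ρbar Smin h ty hflat Piv hPiv θ₀ hθ₀ V₀ hV₀
  refine ⟨d, hd, ?_⟩
  intro n r qv hq hNQ hp PQ hθ
  obtain ⟨hqinj, hqv, hfrob⟩ := id hq
  -- the primes
  have hpvMem : ∀ i, pv i ∈ Piv := fun i => by
    rw [← hpvPiv]
    exact Finset.mem_image_of_mem pv (Finset.mem_univ i)
  have hpvP : ∀ i, (pv i).Prime := fun i => (hPiv (pv i) (hpvMem i)).1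
  have hqvP : ∀ j, (qv j).Prime := fun j => (hqv j).1
  have hPivP : ∀ q ∈ Piv, q.Prime := fun q hq' => (hPiv q hq').1
  have hQP : ∀ q ∈ Finset.univ.image qv, q.Prime := by
    intro q hq'
    obtain ⟨j, -, rfl⟩ := Finset.mem_image.mp hq'
    exact hqvP j
  have hSigP : ∀ q ∈ Smin ∪ Piv ∪ Finset.univ.image qv, q.Prime := by
    intro q hq'
    rcases Finset.mem_union.mp hq' with h' | h'
    · rcases Finset.mem_union.mp h' with h'' | h''
      · exact h.hSmin q h''
      · exact hPivP q h''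
    · exact hQP q h'
  have hsub : Smin ⊆ Smin ∪ Piv ∪ Finset.univ.image qv :=
    Finset.subset_union_left.trans Finset.subset_union_left
  have hpvSig : ∀ i, pv i ∈ Smin ∪ Piv ∪ Finset.univ.image qv := fun i =>
    Finset.mem_union_left _ (Finset.mem_union_right _ (hpvMem i))
  have hqvSig : ∀ j, qv j ∈ Smin ∪ Piv ∪ Finset.univ.image qv := fun j =>
    Finset.mem_union_right _ (Finset.mem_image_of_mem qv (Finset.mem_univ j))
  -- the combined family
  have hprime : ∀ s, (Sum.elim pv qv s).Prime := by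
    intro s
    cases s with
    | inl i => exact hpvP i
    | inr j => exact hqvP j
  have hinj : Function.Injective (Sum.elim pv qv) := by
    intro s s' hss
    cases s with
    | inl i =>
      cases s' with
      | inl i' => exact congrArg Sum.inl (hpv hss)
      | inr j' =>
        exfalso
        have h1 : pv i = qv j' := hss
        exact (hqv j').2.1 (Finset.mem_union_right _ (h1 ▸ hpvMem i))
    | inr j =>
      cases s' with
      | inl i' =>
        exfalso
        have h1 : qv j = pv i' := hss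
        exact (hqv j).2.1 (Finset.mem_union_right _ (h1.symm ▸ hpvMem i'))
      | inr j' => exact congrArg Sum.inr (hqinj hss)
  have hN₀ : wilesLevel p ty Smin Smin ≠ 0 := wilesLevel_ne_zero hpF.out h.hSmin h.hSmin
  have hsurj : Function.Surjective (gRed (wilesLevel p ty Smin Smin) (Sum.elim pv qv)) :=
    gRed_surjective _ _ hN₀ hinj hprime
  haveI hMne : NeZero (MIA_T p ty Smin pv qv) := ⟨gLevel_ne_zero _ _ hN₀ hprime⟩
  have hsig : ∀ q : ℕ, q.Prime →
      q ∣ wilesLevel p ty Smin (Smin ∪ Piv ∪ Finset.univ.image qv) →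
      q ∈ (↑(Smin ∪ Piv ∪ Finset.univ.image qv) : Set ℕ) := fun q hq' hd' =>
    Finset.mem_coe.mpr (_root_.Fermat.Agent.S59.Arch.mem_of_prime_dvd_wilesLevel hpF.out h.hSmin hSigP h.hpSmin hsub q hq' hd')
  have hM : ∀ ℓ : ℕ, ℓ.Prime →
      ¬ ℓ ∣ wilesLevel p ty Smin (Smin ∪ Piv ∪ Finset.univ.image qv) →
      ℓ ∉ (↑(Smin ∪ Piv ∪ Finset.univ.image qv) : Set ℕ) → ¬ ℓ ∣ MIA_T p ty Smin pv qv := by
    intro ℓ hℓ _ hℓS hdvd
    apply hℓS
    rcases (Nat.Prime.dvd_mul hℓ).mp hdvd with h1 | h1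
    · exact Finset.mem_coe.mpr (hsub (_root_.Fermat.Agent.S59.Arch.mem_of_prime_dvd_wilesLevel hpF.out h.hSmin h.hSmin
        h.hpSmin (Finset.Subset.refl _) ℓ hℓ h1))
    · obtain ⟨s, -, hs⟩ := (Prime.dvd_finsetProd_iff hℓ.prime _).mp h1
      have h2 : ℓ = Sum.elim pv qv s := (Nat.prime_dvd_prime_iff_eq hℓ (hprime s)).mp hs
      rw [h2]
      cases s with
      | inl i => exact Finset.mem_coe.mpr (hpvSig i)
      | inr j => exact Finset.mem_coe.mpr (hqvSig j)
  -- the Frobenius lifts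
  choose Pv φv hPv hφv using fun j => Fermat.Agent.S54.exists_frobenius (qv j) (hqvP j)
  choose α₀ β hαβ hchar using fun j => hfrob j (Pv j) (hPv j) (φv j) (hφv j)
  choose α hα using fun j => residue_surjective (α₀ j)
  have hαL : IsFrobLift ρbar qv α := by
    intro j
    refine ⟨Pv j, φv j, β j, hPv j, hφv j, ?_, ?_⟩
    · rw [hα j]
      exact hαβ j
    · rw [hα j]
      exact hchar j
  -- the module at the level `Q`
  obtain ⟨V, hV⟩ := hIdem 𝒪 (MIA_T p ty Smin pv qv) hMne.out (KIA_T p ty Smin pv qv)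
    (isMid_KIA_T p ty Smin pv qv) (TsetOf PQ) (UsetOf qv α)
    (fun x hx => by
      obtain ⟨hℓ, hℓN, hℓS, -⟩ := hx
      exact ⟨hℓ, hM _ hℓ hℓN hℓS⟩)
    (fun x hx => by
      obtain ⟨j, rfl⟩ := hx
      exact ⟨hqvP j, dvd_gLevel _ (Sum.elim pv qv) (Sum.inr j)⟩)
  have hVp : IsIAPart_T PQ α V := hV
  obtain ⟨hh, a, hhalf₁, hhalf₂, ha⟩ := hMod p hp5 𝒪 ρbar Smin h ty hflat Piv hPiv k pv hpv hpvPiv
    n r qv hq PQ α hαL V hVp
  obtain ⟨d', hfree⟩ := hFree p hp5 𝒪 ρbar Smin h ty hflat Piv hPiv k pv hpv hpvPiv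
    n r qv hq PQ α hαL V hVp
  have hctrl := hCtrl p hp5 𝒪 ρbar Smin h ty hflat Piv hPiv θ₀ hθ₀ k pv hpv hpvPiv
    n r qv hq hp PQ hθ α hαL V₀ V hV₀ hVp
  have hdd : d' = d := rank_eq_of_ctrl_T hVp hsurj hRank hpvP hqvP hfree hctrl B₀
  subst hdd
  have hnu := hNu p hp5 𝒪 ρbar Smin h ty hflat Piv hPiv k pv hpv hpvPiv
    n r qv hq PQ α hαL V hh a hVp hhalf₁ hhalf₂ ha
  have hst := hSt p hp5 𝒪 ρbar Smin h ty hflat Piv hPiv hmin k pv hpv hpvPiv
    n r qv hq PQ α hαL V hh a hVp hhalf₁ hhalf₂ ha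
  have hcmp := hCmp p hp5 𝒪 ρbar Smin h ty hflat Piv hPiv k pv hpv hpvPiv
    n r qv hq PQ α hαL V hh a hVp hhalf₁ hhalf₂ ha
  exact ⟨bettiOf_T hVp ha hsig hM hsurj d' hfree hnu hst,
    bettiOf_cmp_T hVp ha hsig hM hsurj d' hfree hnu hst hcmp⟩

end Fermat.Agent.S38.IA.Hecke

end
-- ===== PACK-END S38T/IA/Hecke/GlueB3.lean

-- ===== PACK-BEGIN S59/LoSqC/H216/Tau.lean
section



/-!
# S59 moonshot, cell (C) LO-SQ, W-COUNT sub-leaf **TAU**  (helper216)

Level `N` arbitrary (`N = M q` in the cell), `A` a valuation subring of `ℚ̄` over a prime `q`,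
`I = A.inertiaSubgroupIn ℚ`, exponent `m` ARBITRARY (`m = p ^ n` in the cell; no primality, no
coprimality is used).

**TAU**: for `x ∈ J₀(N)[m]` and `τ ∈ I`, the class `τ x - x` has a Kummer generator (exponent `m`)
whose reductions on the `∞`-component and on the `0`-component are both the constant series `1`;
so `(τ - 1) J₀(N)[m]` lies in the toric (split) part, whatever normal form the cell freezes for it.

Proof: replay of `Ribet.H884.s1` (wall-p), which is generic in the level, in the place and in the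
exponent: `exists_isKummerGen`, `isKummerGen_galSubOne`, `isRedInf_galSubOne`,
`isRedZero_galSubOne`.

* `tauGen_h216`            : generator form, any `N`, any `m`;
* `tauGen_pow_h216`        : the same with the reductions written as `C c * h ^ m`, `c = 1`, `h = 1`;
* `tau_mem_splitSetQ_h216` / `tau_mem_splitPartQ_h216` : for prime exponent `p`, level `q M'`:
  `τ x - x ∈ H158.WallQ.splitPartQ p q M' A` (vocabulary of WALL-q on main);
* `tau_sub_tau_h216`       : `(τ - 1)` of a class is killed by `m` (bookkeeping for COUNT1).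
-/

set_option autoImplicit false
set_option synthInstance.maxHeartbeats 400000
set_option maxHeartbeats 1000000
set_option linter.unusedSectionVars false

noncomputable section

namespace Fermat.Agent.S59.LoSqC.H216

open AlgebraicCurve ModularCurve HahnSeries
open Fermat.Agent.S24 Fermat.Agent.A2.H708 Fermat.Agent.A2.H528 Fermat.Agent.A2.H129
open Fermat.Agent.Ribet.Spec Fermat.Agent.Ribet.H944.Wall Fermat.Agent.Ribet.H884

/-- **TAU, generator form.**  `τ x - x` has a Kummer generator of exponent `m` with both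
reductions equal to `1`. -/
theorem tauGen_h216 {N : ℕ} [NeZero N] {q : ℕ} (hq0 : q ≠ 0) {A : ValuationSubring Kbar}
    (hA : A.LiesOverPrime q) (m : ℕ) (x : JZero N) (hx : m • x = 0)
    {τ : Kbar ≃ₐ[ℚ] Kbar} (hτ : τ ∈ A.inertiaSubgroupIn ℚ) :
    ∃ u : FF N, IsKummerGen N m u (τ • x - x) ∧ IsRedInf N A u 1 ∧ IsRedZero N A u 1 := by
  obtain ⟨f, hf⟩ := exists_isKummerGen (N := N) m x hx
  exact ⟨gal N τ f * f⁻¹, isKummerGen_galSubOne m τ hf,
    isRedInf_galSubOne hq0 hA hτ hf.1, isRedZero_galSubOne hq0 hA hτ hf.1⟩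

/-- The constant series `1` is (a constant times) an `m`-th power in `F_k = k(X₀(M'))`. -/
theorem one_eq_C_mul_pow_h216 (m M' : ℕ) {k : Type} [Field k] :
    ∃ (c : k) (h : modularFunctionFieldFullC k M'), c ≠ 0 ∧ h ≠ 0 ∧
      (1 : LaurentSeries k) = HahnSeries.C c * (h : LaurentSeries k) ^ m := by
  refine ⟨1, 1, one_ne_zero, one_ne_zero, ?_⟩
  simp

/-- **TAU, power form.**  The two reductions of the generator are `C c * h ^ m` with `h ∈ F_k`. -/
theorem tauGen_pow_h216 {N : ℕ} [NeZero N] {q : ℕ} (hq0 : q ≠ 0) {A : ValuationSubring Kbar}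
    (hA : A.LiesOverPrime q) (m M' : ℕ) (x : JZero N) (hx : m • x = 0)
    {τ : Kbar ≃ₐ[ℚ] Kbar} (hτ : τ ∈ A.inertiaSubgroupIn ℚ) :
    ∃ (u : FF N) (r₁ r₂ : LaurentSeries (kA A)), IsKummerGen N m u (τ • x - x) ∧
      IsRedInf N A u r₁ ∧ IsRedZero N A u r₂ ∧
      (∃ (c : kA A) (h : modularFunctionFieldFullC (kA A) M'), c ≠ 0 ∧ h ≠ 0 ∧
        r₁ = HahnSeries.C c * (h : LaurentSeries (kA A)) ^ m) ∧
      (∃ (c : kA A) (h : modularFunctionFieldFullC (kA A) M'), c ≠ 0 ∧ h ≠ 0 ∧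
        r₂ = HahnSeries.C c * (h : LaurentSeries (kA A)) ^ m) := by
  obtain ⟨u, hu, h1, h2⟩ := tauGen_h216 hq0 hA m x hx hτ
  exact ⟨u, 1, 1, hu, h1, h2, one_eq_C_mul_pow_h216 m M', one_eq_C_mul_pow_h216 m M'⟩

section WallQ

open Fermat.Agent.Ribet.H158.WallQ

variable (p q M' : ℕ) [NeZero (q * M')]

/-- **TAU in WALL-q vocabulary** (prime exponent): `τ x - x ∈ splitSetQ`. -/
theorem tau_mem_splitSetQ_h216 (hq0 : q ≠ 0) {A : ValuationSubring Kbar}
    (hA : A.LiesOverPrime q) (x : JZero (q * M')) (hx : p • x = 0)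
    {τ : Kbar ≃ₐ[ℚ] Kbar} (hτ : τ ∈ A.inertiaSubgroupIn ℚ) :
    τ • x - x ∈ splitSetQ p q M' A := by
  obtain ⟨u, hu, h1, h2⟩ := tauGen_h216 (N := q * M') hq0 hA p x hx hτ
  exact ⟨u, hu, 1, 1, h1, h2, one_eq_C_mul_pow_h216 p M', one_eq_C_mul_pow_h216 p M'⟩

/-- **TAU in WALL-q vocabulary**: `(τ - 1) J₀(qM')[p] ⊆ 𝒮 = splitPartQ`. -/
theorem tau_mem_splitPartQ_h216 (hq0 : q ≠ 0) {A : ValuationSubring Kbar}
    (hA : A.LiesOverPrime q) (x : JZero (q * M')) (hx : p • x = 0)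
    {τ : Kbar ≃ₐ[ℚ] Kbar} (hτ : τ ∈ A.inertiaSubgroupIn ℚ) :
    τ • x - x ∈ splitPartQ p q M' A :=
  AddSubgroup.subset_closure (tau_mem_splitSetQ_h216 p q M' hq0 hA x hx hτ)

end WallQ

end Fermat.Agent.S59.LoSqC.H216

end

end
-- ===== PACK-END S59/LoSqC/H216/Tau.lean

-- ===== PACK-BEGIN S59/LoSqC/H876/DescOld.lean
section





/-!
# S59 moonshot, cell (C) LO-SQ, leaf W-DESC, part 2 (helper876): the converse of T2, and the
descended Kummer generator of a NEW inertia-fixed class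

`E ⊆ ℚ̄` an intermediate field, `F_E = laurentBaseChange E F₀`, `F̄ = laurentBaseChange ℚ̄ F₀`,
`ι = A2.T1.H669.iota E F₀`.

* `ord_eq_of_valuation876`        : for a place `v` of `F̄` with uniformiser `π`:
                                     `v.valuation f = (v.valuation π) ^ (ord_v f)`.
* `dvd_ord_iota_of_divisibleDiv876` (**T2 converse**): `A2.DivisibleDiv E m g` (on the discrete
  valuation rings of `F_E / E`) implies `m ∣ ord_v (ι g)` at every place `v` of `F̄ / ℚ̄`.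
  (`B = v ∩ F_E` is trivial or a discrete valuation ring: `Ribet.H127`.)
* `WallRep876 N q m P x y₀`       : the function `y₀ ∈ F_E(N q)` (over the inertia field
  `E = ℚ̄^{I_P}`) REPRESENTS the class `x ∈ J₀(N q)`: `x = [D]`, `m D = div (ι y₀)`.
* `exists_wallRep876`             : every `m`-torsion class `x ∈ J₀(N q)` which is `q`-new and
  fixed by `I_P` has a representative `y₀ ≠ 0` with `DivisibleDiv E m y₀` whose norms along `α`
  and `β` are constants times `m`-th powers (the hypotheses of the S36 engine `Eng.LevelInertiaAt`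
  and of the wall).  Replay of `S36.H36.qNewInertiaAt_of_kummerAt` +
  `S36.H756.kummerQNewInertiaAt_of_fixedAtC` with the representative kept.
-/

set_option autoImplicit false
set_option linter.style.haveILetI false
set_option linter.unusedSectionVars false
set_option synthInstance.maxHeartbeats 400000
set_option maxHeartbeats 1600000

noncomputable section

namespace Fermat.Agent.S59.LoSqC.H876

open AlgebraicCurve ModularCurve IntermediateField
open Fermat.Agent.A2.T1.H669 (iota Qb)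
open Fermat.Agent.S29.H395 (normAlong)

section Val

variable {K F : Type*} [Field K] [Field F] [Algebra K F]

/-- The valuation of the valuation subring of a place, in terms of `ord`. -/
theorem valuation_eq_zpow_ord876 (v : Place K F) {π : v.toValuationSubring} (hπ : Irreducible π)
    {f : F} (hf : f ≠ 0) :
    v.toValuationSubring.valuation f
      = v.toValuationSubring.valuation (π : F) ^ (v.ord f) := by
  obtain ⟨u, hu⟩ := v.exists_unit_mul_zpow hf hπ
  conv_lhs => rw [hu]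
  rw [map_mul, map_zpow₀, ValuationSubring.valuation_unit, one_mul]

theorem valuation_irreducible_lt_one876 (v : Place K F) {π : v.toValuationSubring}
    (hπ : Irreducible π) : v.toValuationSubring.valuation (π : F) < 1 := by
  have h1 : ¬ IsUnit π := hπ.not_isUnit
  exact (ValuationSubring.valuation_lt_one_iff v.toValuationSubring π).1
    (by rwa [IsLocalRing.mem_maximalIdeal, mem_nonunits_iff])

end Val

section Converse

variable (E : IntermediateField ℚ Qb) (F₀ : IntermediateField ℚ (LaurentSeries ℚ))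

/-- **T2, converse.**  Divisibility of the divisor on the discrete valuation rings of `F_E / E`
implies divisibility at every place of `F̄ / ℚ̄`. -/
theorem dvd_ord_iota_of_divisibleDiv876 (m : ℕ) (g : ↥(laurentBaseChange E F₀)) (hg : g ≠ 0)
    (hdiv : Fermat.Agent.A2.DivisibleDiv E m g)
    (v : Place Qb ↥(laurentBaseChange Qb F₀)) : (m : ℤ) ∣ v.ord (iota E F₀ g) := by
  letI := Fermat.Agent.A2.T1.H669.algFEFbar E F₀
  obtain ⟨π, hπ⟩ := IsDiscreteValuationRing.exists_irreducible v.toValuationSubring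
  have hπ0 : (π : ↥(laurentBaseChange Qb F₀)) ≠ 0 := fun h => hπ.ne_zero (Subtype.ext h)
  set γ := v.toValuationSubring.valuation (π : ↥(laurentBaseChange Qb F₀)) with hγ
  have hγ0 : γ ≠ 0 := (Valuation.ne_zero_iff _).mpr hπ0
  have hγ1 : γ < 1 := valuation_irreducible_lt_one876 v hπ
  have hval : ∀ f : ↥(laurentBaseChange Qb F₀), f ≠ 0 →
      ∃ k : ℤ, v.toValuationSubring.valuation f = γ ^ k :=
    fun f hf => ⟨v.ord f, valuation_eq_zpow_ord876 v hπ hf⟩
  have hEB : ∀ e : E, algebraMap ↥(laurentBaseChange E F₀) ↥(laurentBaseChange Qb F₀)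
      (algebraMap E ↥(laurentBaseChange E F₀) e) ∈ v.toValuationSubring := by
    intro e
    have h1 : algebraMap ↥(laurentBaseChange E F₀) ↥(laurentBaseChange Qb F₀)
        (algebraMap E ↥(laurentBaseChange E F₀) e)
        = algebraMap Qb ↥(laurentBaseChange Qb F₀) (algebraMap E Qb e) :=
      Fermat.Agent.A2.T1.H669.iota_algebraMap E F₀ e
    rw [h1]
    exact v.algebraMap_mem' _
  obtain ⟨k, hk⟩ := Fermat.Agent.Ribet.H127.val_pow_of_divisibleDiv_h127
    (E₂ := E) (K₂ := ↥(laurentBaseChange E F₀)) (L₂ := ↥(laurentBaseChange Qb F₀))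
    v.toValuationSubring hγ0 hγ1 hval hEB hg hdiv
  have hιg : iota E F₀ g ≠ 0 := Fermat.Agent.A2.T1.H669.iota_ne_zero E F₀ hg
  have h2 : v.toValuationSubring.valuation (iota E F₀ g) = γ ^ (v.ord (iota E F₀ g)) :=
    valuation_eq_zpow_ord876 v hπ hιg
  have h3 : γ ^ (v.ord (iota E F₀ g)) = γ ^ ((m : ℤ) * k) := by
    rw [← h2]
    exact hk
  have hinj := zpow_right_injective₀ (zero_lt_iff.mpr hγ0) hγ1.ne h3
  exact ⟨k, hinj⟩

end Converse

/-! ## The descended Kummer generator -/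

section Rep

/-- **Representation.**  The function `y ∈ F_E(N)` represents the class `x ∈ J₀(N)` at the
exponent `m`:  `x = [D]` with `m D = div (ι y)`. -/
def WallRep876 (E : IntermediateField ℚ Qb) (N m : ℕ) [NeZero N] (x : JZero N)
    (y : ↥(laurentBaseChange E (modularFunctionFieldFull N))) : Prop :=
  ∃ D : Divisor.degZero (K := Qb) (F := modularFunctionFieldBar N), Pic0.mk D = x ∧
    ∀ v : Place Qb (modularFunctionFieldBar N),
      v.ord (iota E (modularFunctionFieldFull N) y)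
        = (m : ℤ) * (D : Divisor Qb (modularFunctionFieldBar N)) v

/-- A represented class is `m`-torsion. -/
theorem WallRep876.nsmul_eq_zero {E : IntermediateField ℚ Qb} {N m : ℕ} [NeZero N]
    {x : JZero N} {y : ↥(laurentBaseChange E (modularFunctionFieldFull N))}
    (h : WallRep876 E N m x y) (hy : y ≠ 0) : m • x = 0 := by
  obtain ⟨D, rfl, hD⟩ := h
  have h0 : m • Pic0.mk D = Pic0.mk (m • D) := rfl
  rw [h0]
  refine (QuotientAddGroup.eq_zero_iff (m • D)).2 ?_
  rw [AddSubgroup.mem_addSubgroupOf]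
  refine ⟨iota E (modularFunctionFieldFull N) y,
    Fermat.Agent.A2.T1.H669.iota_ne_zero E _ hy, fun w => ?_⟩
  rw [hD w]
  simp only [AddSubgroup.coe_nsmul, Finsupp.smul_apply, nsmul_eq_mul]

/-- A representative has `m ∣ div` over `E`. -/
theorem WallRep876.divisibleDiv {E : IntermediateField ℚ Qb} {N m : ℕ} [NeZero N]
    {x : JZero N} {y : ↥(laurentBaseChange E (modularFunctionFieldFull N))}
    (h : WallRep876 E N m x y) (hy : y ≠ 0) : Fermat.Agent.A2.DivisibleDiv E m y := by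
  obtain ⟨D, -, hD⟩ := h
  exact Fermat.Agent.A2.T1.H669.divisibleDiv_of_ord E (modularFunctionFieldFull N) m y hy
    fun v => ⟨_, hD v⟩

variable (N q m : ℕ) [NeZero N] [NeZero q]

/-- **The descended Kummer generator of a NEW inertia-fixed class** (`E = ℚ̄^{I_P}`). -/
theorem exists_wallRep876 (hm : 0 < m) (P : ValuationSubring Qb) (x : JZero (N * q))
    (hx : m • x = 0) (hnew : Fermat.Agent.S35.H155.IsQNew N q x)
    (hfix : ∀ τ ∈ P.inertiaSubgroupIn ℚ, τ • x = x) :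
    ∃ y₀ : ↥(laurentBaseChange (fixedField (P.inertiaSubgroupIn ℚ))
        (modularFunctionFieldFull (N * q))),
      y₀ ≠ 0 ∧ WallRep876 (fixedField (P.inertiaSubgroupIn ℚ)) (N * q) m x y₀ ∧
      Fermat.Agent.A2.DivisibleDiv (fixedField (P.inertiaSubgroupIn ℚ)) m y₀ ∧
      (∃ (c : fixedField (P.inertiaSubgroupIn ℚ))
        (h : ↥(laurentBaseChange (fixedField (P.inertiaSubgroupIn ℚ))
          (modularFunctionFieldFull N))), c ≠ 0 ∧ h ≠ 0 ∧
        normAlong (heckeAlphaBar (fixedField (P.inertiaSubgroupIn ℚ)) N q) y₀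
          = algebraMap (fixedField (P.inertiaSubgroupIn ℚ)) _ c * h ^ m) ∧
      (∃ (c : fixedField (P.inertiaSubgroupIn ℚ))
        (h : ↥(laurentBaseChange (fixedField (P.inertiaSubgroupIn ℚ))
          (modularFunctionFieldFull N))), c ≠ 0 ∧ h ≠ 0 ∧
        normAlong (heckeBetaBar (fixedField (P.inertiaSubgroupIn ℚ)) N q) y₀
          = algebraMap (fixedField (P.inertiaSubgroupIn ℚ)) _ c * h ^ m) := by
  classical
  haveI : NeZero (N * q) := ⟨Nat.mul_ne_zero (NeZero.ne N) (NeZero.ne q)⟩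
  haveI hPD : HasPrincipalDivisors Qb ↥(modularFunctionFieldBar (N * q)) :=
    Fermat.Agent.Lib.RR.H864.hasPrincipalDivisors_modularFunctionFieldBar (N * q)
  have hconst : Fermat.Agent.S36.H756.ConstOfOrdZero Qb ↥(modularFunctionFieldBar (N * q)) := by
    intro u hu h
    obtain ⟨c, hc⟩ :=
      Fermat.Agent.S18.H144.constOfOrdZero_modularFunctionFieldBar (N * q) u hu h
    exact ⟨c, hc.symm⟩
  -- 1. DESC: a fixed Kummer generator
  obtain ⟨D, f, hf0, hDx, hfD, hffix⟩ :=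
    Fermat.Agent.S36.H756.exists_fixed_kummer_rep (F₀ := modularFunctionFieldFull (N * q))
      hconst (P.inertiaSubgroupIn ℚ) m x hx hfix
  obtain ⟨y₀, hy₀⟩ := Fermat.Agent.S36.H756.exists_iota_eq_of_fixed
    (P.inertiaSubgroupIn ℚ) f hffix
  have hy₀0 : y₀ ≠ 0 := by
    rintro rfl
    rw [map_zero] at hy₀
    exact hf0 hy₀.symm
  have hrep : WallRep876 (fixedField (P.inertiaSubgroupIn ℚ)) (N * q) m x y₀ :=
    ⟨D, hDx, fun v => by rw [hy₀]; exact hfD v⟩
  refine ⟨y₀, hy₀0, hrep, hrep.divisibleDiv hy₀0, ?_⟩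
  -- 2. the norms over `ℚ̄`
  subst hDx
  rw [Fermat.Agent.S35.H155.isQNew_mk_iff] at hnew
  obtain ⟨⟨a, ha, haD⟩, ⟨b, hb, hbD⟩⟩ := hnew
  have hfD'' : ∀ w : Place Qb (modularFunctionFieldBar (N * q)),
      ((m : ℤ) • (D : Divisor Qb (modularFunctionFieldBar (N * q)))) w = w.ord f := by
    intro w
    rw [Finsupp.smul_apply, smul_eq_mul, hfD w]
  have hF := Fermat.Agent.S29.H812.exists_coord_modular N
  have hα := Fermat.Agent.Lib.FF398.heckeAlphaBarIntegral N q
  have hβ := Fermat.Agent.Lib.FF398.heckeBetaBarIntegral N q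
  have hfinα := Fermat.Agent.S29.H812.finiteAlong_heckeAlphaBar N q
  have hfinβ := Fermat.Agent.S29.H812.finiteAlong_heckeBetaBar N q
  have hNα := Fermat.Agent.S29.H812.normFormulaAlong hF (heckeAlphaBar Qb N q) hfinα
  have hNβ := Fermat.Agent.S29.H812.normFormulaAlong hF (heckeBetaBar Qb N q) hfinβ
  have hordα : ∀ v : Place Qb (modularFunctionFieldBar N),
      v.ord (normAlong (heckeAlphaBar Qb N q) f) = (m : ℤ) * v.ord a := by
    intro v
    rw [← Fermat.Agent.S29.H395.pushforwardAlong_apply_eq_ord (heckeAlphaBar Qb N q) hα hfinα hNα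
      hf0 hfD'' v, map_zsmul, Finsupp.smul_apply, smul_eq_mul, haD v]
  have hordβ : ∀ v : Place Qb (modularFunctionFieldBar N),
      v.ord (normAlong (heckeBetaBar Qb N q) f) = (m : ℤ) * v.ord b := by
    intro v
    rw [← Fermat.Agent.S29.H395.pushforwardAlong_apply_eq_ord (heckeBetaBar Qb N q) hβ hfinβ hNβ
      hf0 hfD'' v, map_zsmul, Finsupp.smul_apply, smul_eq_mul, hbD v]
  obtain ⟨hA, hA0, eA⟩ := Fermat.Agent.S35.H909.exists_pow_eq_of_ord N m hm
    (Fermat.Agent.S29.H395.normAlong_ne_zero _ hfinα hf0) ha hordα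
  obtain ⟨hB, hB0, eB⟩ := Fermat.Agent.S35.H909.exists_pow_eq_of_ord N m hm
    (Fermat.Agent.S29.H395.normAlong_ne_zero _ hfinβ hf0) hb hordβ
  -- 3. descent of the norms
  constructor
  · refine Fermat.Agent.S36.H756.descend_const_mul_pow (P.inertiaSubgroupIn ℚ) hm _ 1 hA
      one_ne_zero hA0 ?_
    rw [Fermat.Agent.S35.H858.iota_normAlong_alpha (fixedField (P.inertiaSubgroupIn ℚ)) N q
      hfinα y₀, hy₀, eA, map_one, one_mul]
  · refine Fermat.Agent.S36.H756.descend_const_mul_pow (P.inertiaSubgroupIn ℚ) hm _ 1 hB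
      one_ne_zero hB0 ?_
    rw [Fermat.Agent.S35.H858.iota_normAlong_beta (fixedField (P.inertiaSubgroupIn ℚ)) N q
      hfinβ y₀, hy₀, eB, map_one, one_mul]

end Rep

end Fermat.Agent.S59.LoSqC.H876

end
end
-- ===== PACK-END S59/LoSqC/H876/DescOld.lean

-- ===== PACK-BEGIN S59/LoSqC/H433/WallSplit.lean
section



/-!
# S59 moonshot, cell (C) LO-SQ: the level wall by CASE SPLIT `p ∣ q² - 1` (helper433)

The frozen leaf `LoSqC.LeafRealize` (`Spec.lean` of helper885) is stated for ALL odd `q`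
(including `q = 3`) and all odd primes `p ≠ q`.  Its interior (W-COUNT: GUB4 / ORD12 / TH1-4) is
only available for `5 ≤ q`.  This file shows that NOTHING above `LeafRealize` has to change:

* `LeafRealizeHard` : `LeafRealize` with the two extra hypotheses `5 ≤ q` and `p ∣ q ^ 2 - 1`
  (the hard case; for odd primes `p`, `q` the second implies the first);
* `levelWall_of_leaves_hard :
     NewUnitsStatement → LeafCtx → LeafRealizeHard → LevelWallStatement` (VERBATIM target):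
  - `p ∣ q² - 1` : the skeleton of helper885 (`NewUnits` + `RealizeAt`);
  - `p ∤ q² - 1` : the S36 engine with its explicit constant (`H586.alg3C`, helper586):
    `f ^ C = c · h ^ p` with `C = (q² - 1)²` prime to `p`, hence `f = c' · h' ^ p`, which is
    `FromBelow` with `g = g' = 1`.

Sorry-free; OFF-MAIN (S59 moonshot).
-/

set_option autoImplicit false
set_option linter.style.haveILetI false
set_option linter.unusedSectionVars false
set_option linter.unusedVariables false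
set_option synthInstance.maxHeartbeats 400000
set_option maxHeartbeats 1600000

noncomputable section

namespace Fermat.Agent.S59.LoSqC.H433

open ModularCurve AlgebraicCurve
open Fermat.Agent.S36 Fermat.Agent.S36.Eng
open Fermat.Agent.S59.LoSqC

/-! ## Arithmetic -/

/-- For odd primes `p`, `q`: `p ∣ q² - 1` forces `5 ≤ q`. -/
theorem five_le_of_dvd_sq_sub_one433 {p q : ℕ} (hp : p.Prime) (hp2 : p ≠ 2) (hq : q.Prime)
    (hq2 : q ≠ 2) (h : p ∣ q ^ 2 - 1) : 5 ≤ q := by
  by_contra hlt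
  rw [not_le] at hlt
  have h2 : 2 ≤ q := hq.two_le
  have hq3 : q = 3 := by
    interval_cases q
    · exact absurd rfl hq2
    · rfl
    · exact absurd hq (by norm_num)
  subst hq3
  have h8 : p ∣ 2 ^ 3 := by
    have : (3 : ℕ) ^ 2 - 1 = 2 ^ 3 := by norm_num
    rw [this] at h
    exact h
  have := (Nat.prime_dvd_prime_iff_eq hp Nat.prime_two).1 (hp.dvd_of_dvd_pow h8)
  exact hp2 this

/-! ## The hard leaf -/

/-- **REALIZE, hard case only** (`5 ≤ q`, `p ∣ q² - 1`): the leaf the W-COUNT / W-PULL / W-SUB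
interior has to deliver. -/
def LeafRealizeHard : Prop :=
  Mod3.Leaf fun _ E M q _ _ _ _ _ _ V₁ V₂ V₃ =>
    5 ≤ q → ∀ p : ℕ, p.Prime → p ≠ 2 → p ≠ q → p ∣ q ^ 2 - 1 →
      RealizeAt E p (A2.Mod.αE E (M * q) q) (A2.Mod.βE E (M * q) q) V₁ V₂ V₃

/-- The frozen leaf implies the hard leaf. -/
theorem leafRealizeHard_of_leafRealize433 (h : LeafRealize) : LeafRealizeHard := by
  intro P E M q _ _ _ w hS V₁' V₂' V₁ V₂ V₃ W' W hO h5 p hp hp2 hpq _
  exact h P E M q w hS V₁' V₂' V₁ V₂ V₃ W' W hO (by omega) p hp hp2 hpq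

/-! ## The easy case: a power prime to `m` -/

section Abs

variable {E F F' : Type*} [Field E] [Field F] [Algebra E F] [Field F'] [Algebra E F']

/-- `m ∣ div 1`. -/
theorem divisibleDiv_one433 (m : ℕ) : A2.DivisibleDiv E m (1 : F) := by
  intro V _ _
  exact ⟨1, 1, one_ne_zero, V.one_mem, by rw [inv_one]; exact V.one_mem, by simp⟩

/-- If `f ^ C = c · h ^ m` with `C` prime to `m`, then `f` is a constant times an `m`-th power;
in particular it comes from below (with `g = g' = 1`). -/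
theorem fromBelow_of_pow_eq433 {m C : ℕ} (hC : Nat.Coprime C m) (α β : F' →ₐ[E] F) {f : F}
    (hf : f ≠ 0) {c : E} {h : F} (hh : h ≠ 0) (e : f ^ C = algebraMap E F c * h ^ m) :
    FromBelow E m α β f := by
  have hc : c ≠ 0 := by
    rintro rfl
    rw [map_zero, zero_mul] at e
    exact pow_ne_zero _ hf e
  have hcF : algebraMap E F c ≠ 0 := (_root_.map_ne_zero _).mpr hc
  -- Bezout
  have hcop : IsCoprime (C : ℤ) (m : ℤ) := Nat.isCoprime_iff_coprime.mpr hC
  obtain ⟨a, b, hab⟩ := hcop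
  refine ⟨c ^ a, 1, 1, h ^ a * f ^ b, one_ne_zero, one_ne_zero,
    mul_ne_zero (zpow_ne_zero _ hh) (zpow_ne_zero _ hf), divisibleDiv_one433 m,
    divisibleDiv_one433 m, ?_⟩
  have h1 : f = (f ^ C) ^ a * (f ^ b) ^ m := by
    have e1 : (f ^ C) ^ a = f ^ ((C : ℤ) * a) := by
      rw [zpow_mul, zpow_natCast]
    have e2 : (f ^ b) ^ m = f ^ (b * (m : ℤ)) := by
      rw [zpow_mul, zpow_natCast]
    rw [e1, e2, ← zpow_add₀ hf]
    have : (C : ℤ) * a + b * (m : ℤ) = 1 := by rw [← hab]; ring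
    rw [this, zpow_one]
  have h2 : (f ^ C) ^ a = algebraMap E F (c ^ a) * (h ^ a) ^ m := by
    rw [e, mul_zpow, map_zpow₀]
    congr 1
    rw [← zpow_natCast (h ^ a) m, ← zpow_mul, mul_comm, zpow_mul, zpow_natCast]
  rw [map_one, map_one, mul_one, mul_one, mul_pow, ← mul_assoc, ← h2]
  exact h1

end Abs

/-! ## The level wall -/

/-- **The level wall from the HARD leaf** (target VERBATIM: `LoSqC.LevelWallStatement`).
Case `p ∣ q² - 1`: NEW-UNITS + CTX + REALIZE (hard);  case `p ∤ q² - 1`: the S36 engine with its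
explicit constant. -/
theorem levelWall_of_leaves_hard (hNU : NewUnitsStatement) (hCtx : LeafCtx)
    (hRe : LeafRealizeHard) : LevelWallStatement := by
  intro P E M q p _ _ _ hq hqM hP hE hneat hq2 hp hp2 hpq w hw V₁' V₂' V₁ V₂ V₃ W' W hO
    f hf hdiv hα hβ hslope
  haveI : IsDiscreteValuationRing ↥(A2.RE P E) := hE.1.dvr
  haveI : HenselianLocalRing ↥(A2.RE P E) := hE.1.henselian
  haveI : IsAlgClosed (IsLocalRing.ResidueField ↥(A2.RE P E)) := hE.1.algClosed
  have hS : Mod3.Std P E M q w :=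
    { q_prime := hq, q_not_dvd := hqM, lies_over := hP, unram := hE, neat := hneat, unif := hw }
  have hctx := hCtx P E M q w hS V₁' V₂' V₁ V₂ V₃ W' W hO
  have hqp : ¬ q ∣ p := fun hd => hpq ((Nat.prime_dvd_prime_iff_eq hq hp).1 hd).symm
  by_cases hd : p ∣ q ^ 2 - 1
  · -- the hard case
    have h5 : 5 ≤ q := five_le_of_dvd_sq_sub_one433 hp hp2 hq hq2 hd
    have hU : UnitsForm E p V₁ V₂ V₃ f :=
      hNU (R := ↥(A2.RE P E)) (E := E) (F := ↥(A2.Mod.FE E (M * q * q)))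
        (F' := ↥(A2.Mod.FE E (M * q))) w hw q hq (natCast_mem_maximalIdeal_RE E hP)
        (A2.Mod.αE E (M * q) q) (A2.Mod.βE E (M * q) q) (Mod3.x3E E M q) (A2.Mod.xE E M q)
        V₁ V₂ V₃ V₁' V₂' hctx p hp.pos hqp f hf hα hβ
        (fun hnc => hslope (by
          by_contra hnd
          exact hnc ((Nat.Prime.coprime_iff_not_dvd hp).2 hnd)))
    exact fromBelow_of_unitsForm
      (hRe P E M q w hS V₁' V₂' V₁ V₂ V₃ W' W hO h5 p hp hp2 hpq hd) hf hdiv hU
  · -- the easy case: the S36 engine with explicit constant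
    obtain ⟨c, h, hh, e⟩ :=
      H586.alg3C (R := ↥(A2.RE P E)) (E := E) (F := ↥(A2.Mod.FE E (M * q * q)))
        (F' := ↥(A2.Mod.FE E (M * q))) w hw q hq (natCast_mem_maximalIdeal_RE E hP)
        (A2.Mod.αE E (M * q) q) (A2.Mod.βE E (M * q) q) (Mod3.x3E E M q) (A2.Mod.xE E M q)
        V₁ V₂ V₃ V₁' V₂' hctx p hp.pos hqp f hf hdiv hα hβ
    exact fromBelow_of_pow_eq433 (H586.alg3Const_coprime hp hd) _ _ hf hh e

end Fermat.Agent.S59.LoSqC.H433

end

end
-- ===== PACK-END S59/LoSqC/H433/WallSplit.lean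

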