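import Fermat.Agent.Pack.S59C.E12L1
import Fermat.Agent.Pack.S59C.E12L3
import Fermat.Agent.Pack.S43GC.G0E20L3
import Fermat.Agent.Pack.S43GC.G0E23L0
import Fermat.Agent.Pack.S43GC.G0E22L1
import Fermat.Agent.Pack.S59C.E12L0
import Fermat.Agent.Pack.S59C.E8L0
import Fermat.Agent.Pack.S43GC.G0E14L1
import Fermat.Agent.Pack.S59C.E7L1
import Fermat.Agent.Pack.S43GC.G0E8L0
import Fermat.Agent.Pack.S43GC.G0E20L2
import Fermat.Agent.Pack.S59C.E8L3
import Fermat.Agent.Pack.S43GC.G0E20L1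
import Fermat.Agent.Pack.S43GC.G0E21L1
import Fermat.Agent.Pack.S59C.E7L3
import Fermat.Agent.Pack.S43GC.G0E19L2
import Fermat.Agent.Pack.S59C.E11L2
import Fermat.Agent.Pack.S43MC.G0E28L1
import Fermat.Agent.Pack.S43MC.G0E26L1
import Fermat.Agent.Pack.S44C.G0E27L2
import Fermat.Agent.Pack.S44C.G0E25L3
import Fermat.Agent.Pack.S43MC.G0E17L3
import Fermat.Agent.Pack.S59C.E9L3
import Fermat.Agent.Pack.S59C.E4L3
import Fermat.Agent.Pack.S59C.E3L2
import Fermat.Agent.Pack.S43MC.G0E6L2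
import Fermat.Agent.Pack.S43MC.G0E25L2
import Fermat.Agent.Pack.S43GC.G0E13L0
import Fermat.Agent.Pack.S43MC.G0E14L3
import Fermat.Agent.Pack.S43MC.G0E20L0
import Fermat.Agent.Pack.S43MC.G0E12L3
import Fermat.Agent.Pack.S43GC.G0E15L1
import Fermat.Agent.Pack.S43C.E2L1
import Fermat.Agent.Pack.S43C.E3L3
import Fermat.Agent.Pack.S43MC.G0E26L3
import Fermat.Agent.Pack.S43MC.G0E23L2
import Fermat.Agent.Pack.S59C.E9L0
import Fermat.Agent.Pack.S44C.G0E15L0
import Fermat.Agent.Pack.S44C.G0E9L3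
import Fermat.Agent.Pack.S59C.E10L1
import Fermat.Agent.Pack.S43MC.G0E26L0
import Fermat.Agent.Pack.S44C.G0E26L3
import Fermat.Agent.Pack.S44C.G0E25L0
import Fermat.Agent.Pack.S44C.G0E17L1
import Fermat.Agent.Pack.S59C.E12L2
import Fermat.Agent.Pack.S43MC.G0E22L3
import Fermat.Agent.Pack.S44C.G0E29L0
import Fermat.Agent.Pack.S44C.G0E13L2
import Fermat.Agent.Pack.S44C.G0E13L3
import Fermat.Agent.Pack.S43MC.G0E25L1
import Fermat.Agent.Pack.S43MC.G0E27L3
import Fermat.Agent.Pack.S44C.G0E9L0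

set_option linter.all false

-- ===== PACK-BEGIN S59/H105/CtrlClosed.lean
section



/-!
# Row S59, cell TW, AUT layer 3, leaf CTRL — closed (helper105)

`ctrl : Aut.CtrlStatement`, unconditional: `ctrl_of_free` applied to helper779's
`freeQ_h779 : Aut.FreeQStatement`.
-/

set_option autoImplicit false

namespace Fermat.Agent.S59.H105

open Fermat.Agent.S59.TW.Aut

/-- **CTRL**, the leaf of `TW/Aut/Spec.lean`, verbatim. -/
theorem ctrl : CtrlStatement := ctrl_of_free H779.freeQ_h779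

end Fermat.Agent.S59.H105

end
-- ===== PACK-END S59/H105/CtrlClosed.lean

-- ===== PACK-BEGIN S56/RQ/WeakInvH904.lean
section



/-!
# Row S56 — REC-Q leaf RECIP, CLOSED (helper904)

The weak invariant package `H554.WeakInvInput` (invariant maps on `H²(G_v, μ_p)`, `v ∈ S`, with
reciprocity and injectivity) is PROVED unconditionally by `S55.Inv.H904.weakInv` (from the closed
reciprocity law of S55 block REC).  Hence, with helper554/helper14's bridge `plainRecip_of_weak₁`:

* `weakInvInput : H554.WeakInvInput`, `weakInvInput₁ : H554.WeakInvInput₁`;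
* `plainRecip : PlainRecipStatement`   (leaf RECIP of REC-Q, unconditional).
-/

set_option autoImplicit false

namespace Fermat.Agent.S56.RQ.H904

open Fermat.Agent.S56 Fermat.Agent.S56.RQ

/-- The weak invariant package of S55, unconditionally. -/
theorem weakInvInput : H554.WeakInvInput :=
  fun p _ S hp2 _ => Fermat.Agent.S55.Inv.H904.weakInv p S hp2

/-- The weak invariant package of S55 (injectivity at `v ≡ 1 mod p`), unconditionally. -/
theorem weakInvInput₁ : H554.WeakInvInput₁ :=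
  H554.weakInvInput₁_of_weakInvInput _root_.Fermat.Agent.S56.RQ.H904.weakInvInput

/-- **RECIP**, unconditional: the plain reciprocity package. -/
theorem plainRecip : PlainRecipStatement :=
  H554.plainRecip_of_weak₁ weakInvInput₁

end Fermat.Agent.S56.RQ.H904

end
-- ===== PACK-END S56/RQ/WeakInvH904.lean

-- ===== PACK-BEGIN S56/RQ/ClosedH904.lean
section



/-!
# Row S56 — REC-Q, CLOSED (helper904)

`RQ/Final.lean` (helper554) proves `recQSub`, `recQ` from the weak invariant package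
`H554.WeakInvInput₁`; `RQ/WeakInvH904.lean` proves that package unconditionally.  Hence:

* `recQSub : H716.RecQSubStatement`,
* `recQ : H716.RecQStatement`.
-/

set_option autoImplicit false

namespace Fermat.Agent.S56.RQ.H904

open Fermat.Agent.S56 Fermat.Agent.S56.RQ

/-- **REC-Q-SUB**, unconditional. -/
theorem recQSub : H716.RecQSubStatement := RQ.recQSub weakInvInput₁

/-- **REC-Q**, unconditional. -/
theorem recQ : H716.RecQStatement := RQ.recQ weakInvInput₁

end Fermat.Agent.S56.RQ.H904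

end
-- ===== PACK-END S56/RQ/ClosedH904.lean

-- ===== PACK-BEGIN S55/E1/H603/Lim5Compat.lean
section
/-
S55 / engine E1 / block LIM, leaf LIM5 (helper603): `e` commutes with the transition maps.

* `theta_tr` : `tr ∘ Θ_F = Θ_{F'} ∘ (M^{U_F} ⊆ M^{U_{F'}})`;
* `thetaH2_tr₂` : the same on `H²`;
* `lim5Compat : Lim5CompatSpec c hμ`.
No sorry.
-/


set_option autoImplicit false

open CategoryTheory CategoryTheory.Limits groupCohomology ExtCitation

namespace Fermat.Agent.S55.E1.H603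

open Fermat.Agent.S55.E1 Fermat.Agent.S55.Tow Fermat.Agent.S55.E1.Lim
open Fermat.Agent.S55.T.H719 (ihomLin)

noncomputable section

variable {S : Finset Nat.Primes} {p : ℕ} [Fact p.Prime] (c : Ctx S p) (hμ : c.base.HasMu p)

theorem theta_hom_apply (L : c.Idx) (m : (c.ML L).V) (n : (c.NL L).V) :
    ihomLin ((theta c hμ L).hom m) n =
      H295.muToSUnits L.1 (hasMu_at c hμ L)
        (Fermat.Agent.S55.Bridge.evalMuP c.M (cfVal c.M m) (cfVal c.N n)) := rfl

theorem trS_muToSUnits {L L' : c.Idx} (h : L ≤ L') (t : Fermat.Agent.S55.Bridge.MuP p) :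
    (trS (S := S) h).hom (H295.muToSUnits L.1 (hasMu_at c hμ L) t) =
      H295.muToSUnits L'.1 (hasMu_at c hμ L') t := by
  apply sIncl_injective L'.1
  rfl

/-- `tr ∘ Θ_F = Θ_{F'} ∘ (M^{U_F} ⊆ M^{U_{F'}})`. -/
theorem theta_tr {L L' : c.Idx} (h : L ≤ L') (m : (c.ML L).V) :
    (trIhom (c.π h) (c.ν h) (trS h)).hom ((theta c hμ L).hom m) =
      (theta c hμ L').hom ((cfμ c.M (S := S) h).hom m) := by
  refine ihom_ext fun n' => ?_
  change (trS (S := S) h).hom (ihomLin ((theta c hμ L).hom m) ((c.ν h).hom n')) = _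
  rw [theta_hom_apply, theta_hom_apply, trS_muToSUnits c hμ h]
  rfl

theorem H2IntEquiv_symm_mk {k G : Type} [CommRing k] [Group G] (A : Rep.{0, 0, 0} k G)
    (cc : cocycles₂ A) :
    (H2IntEquiv A).symm ((H2π A).hom cc) = (H2π (toInt A)).hom (cocToInt₂ A cc) := by
  rw [AddEquiv.symm_apply_eq, H2IntEquiv_mk]
  rfl

theorem thetaH2_mk (L : c.Idx) (cc : cocycles₂ (coeff c.M L.1)) :
    thetaH2 c hμ L ((H2π (coeff c.M L.1)).hom cc) =
      (H2π ((Rep.ihom (c.NL L)).obj (sUnits L.1))).hom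
        ((mapCocycles₂ (MonoidHom.id L.1.Gal) (theta c hμ L)).hom
          (cocToInt₂ (coeff c.M L.1) cc)) := by
  change (groupCohomology.map (MonoidHom.id L.1.Gal) (theta c hμ L) 2).hom
    ((H2IntEquiv (coeff c.M L.1)).symm ((H2π (coeff c.M L.1)).hom cc)) = _
  rw [H2IntEquiv_symm_mk]
  exact map_H2π (A := c.ML L) (B := (Rep.ihom (c.NL L)).obj (sUnits L.1))
    (MonoidHom.id L.1.Gal) (theta c hμ L) _

/-- `Θ` on `H²` commutes with the transition maps. -/
theorem thetaH2_tr₂ {L L' : c.Idx} (h : L ≤ L') (x : H2 (coeff c.M L.1)) :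
    thetaH2 c hμ L' (tr₂ c.M (S := S) h x) =
      (groupCohomology.map (c.π h) (trIhom (c.π h) (c.ν h) (trS h)) 2).hom
        (thetaH2 c hμ L x) := by
  induction x using H2_induction_on with | @h cc =>
  rw [tr₂_mk, thetaH2_mk, thetaH2_mk]
  rw [map_H2π (A := (Rep.ihom (c.NL L)).obj (sUnits L.1))
    (B := (Rep.ihom (c.NL L')).obj (sUnits L'.1)) (c.π h) (trIhom (c.π h) (c.ν h) (trS h))]
  congr 1

/-- **LIM5 (compatibility).** -/
theorem lim5Compat : Lim5CompatSpec c hμ := by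
  intro L L' h x
  change edgeFun (c.NL L') (sUnits L'.1) (thetaH2 c hμ L' (tr₂ c.M (S := S) h x)) = _
  rw [thetaH2_tr₂, edgeFun_tr]
  rfl

end

end Fermat.Agent.S55.E1.H603

end
-- ===== PACK-END S55/E1/H603/Lim5Compat.lean

-- ===== PACK-BEGIN S55/E1/H603/Lim5Loc.lean
section
/-
S55 / engine E1 / block LIM, leaf LIM5(i) (helper603): the localisation of `Θ(x)` at `q`.

For a level `F = L` of the context, `q` a prime and a finite Galois `F' ⊇ F` (a level `L'` for
some `S' ⊇ S`):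
* `embS L q : Res_{D_q} E(F) ⟶ F_qˣ`;  `xq c hμ L q x ∈ H²(D_q(F), Hom_ℤ(N, F_qˣ))`;
* `thetaLoc` : the local bidual map `Res M ⟶ Hom_ℤ(Res N, F'_qˣ)`, bijective;
* `locInf_xq` : `locInf (x_q) = Θ'_*(locInfl₂ x)`;
* `locInf_xq_eq_zero_iff` : `locInf (x_q) = 0 ↔ locInfl₂ x = 0` (`FinLevelLoc.lean`);
* `mem_ShSub_iff` : `x ∈ Ш²_F ↔ ∀ q ∈ S, x_q` dies at a higher local level.
No sorry.
-/





set_option autoImplicit false

open CategoryTheory CategoryTheory.Limits groupCohomology ExtCitation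

namespace Fermat.Agent.S55.E1.H603

open Fermat.Agent.S55.E1 Fermat.Agent.S55.Tow Fermat.Agent.S55.E1.Lim
open Fermat.Agent.S55.T.H719 (ihomLin)

noncomputable section

variable {S : Finset Nat.Primes}

/-- `E(F) → F_qˣ` as a morphism of `Gal(F_q/ℚ_q)`-modules. -/
def embS (L : Level S) (q : Nat.Primes) : Rep.res (L.decHom q) (sUnits L) ⟶ L.locUnits q :=
  flat (L.decHom q) (sIncl L ≫ L.diag q)

theorem embS_apply (L : Level S) (q : Nat.Primes) (e : (sUnits L).V) :
    (embS L q).hom e = L.embFun q ((sIncl L).hom e) := by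
  change L.embFun q (L.units.ρ 1 ((sIncl L).hom e)) = _
  rw [map_one]
  rfl

variable {p : ℕ} [Fact p.Prime] (c : Ctx S p) (hμ : c.base.HasMu p)

/-- `N_F` restricted to the decomposition group at `q`. -/
abbrev Nq (L : c.Idx) (q : Nat.Primes) : Rep.{0} ℤ (L.1.Dec q) := Rep.res (L.1.decHom q) (c.NL L)

/-- The localisation `x_q ∈ H²(D_q(F), Hom_ℤ(N, F_qˣ))` of `Θ(x)`. -/
def xq (L : c.Idx) (q : Nat.Primes) (x : H2 (coeff c.M L.1)) :
    groupCohomology ((Rep.ihom (Nq c L q)).obj (L.1.locUnits q)) 2 :=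
  (groupCohomology.map (L.1.decHom q)
    (trIhom (L.1.decHom q) (𝟙 (Nq c L q)) (embS L.1 q)) 2).hom (thetaH2 c hμ L x)

/-- The localisation `y_q ∈ 𝔈²_{D_q}(F_qˣ)` of `y ∈ 𝔈²_F(E)`. -/
def yq (L : c.Idx) (q : Nat.Primes) (y : E2 (c.NL L) (sUnits L.1)) :
    E2 (Nq c L q) (L.1.locUnits q) :=
  trE2 (L.1.decHom q) (𝟙 (Nq c L q)) (embS L.1 q) y

theorem isEdge_xq_yq (L : c.Idx) (q : Nat.Primes) (x : H2 (coeff c.M L.1)) :
    IsEdge (xq c hμ L q x) (yq c L q (eFun c hμ L x)) :=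
  isEdge_tr_of H895.Final.alg10Edge (L.1.decHom q) (𝟙 (Nq c L q)) (embS L.1 q)
    (isEdge_eFun c hμ L x)

/-! ### The local bidual map at a higher level -/

section Loc

variable (L : c.Idx) (q : Nat.Primes) {S' : Finset Nat.Primes} (hS : S ⊆ S') (L' : Level S')
  (h : Level.ofLE hS L.1 ≤ L')

include hμ h in
theorem hasMu_up : L'.HasMu p := by
  obtain ⟨ζ, hζ, hprim⟩ := hasMu_at c hμ L
  have hF : L.1.F ≤ L'.F := h
  exact ⟨ζ, hF hζ, hprim⟩

/-- `Gal(F'_q/ℚ_q) → Gal(F/ℚ)`. -/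
abbrev piLoc : L'.Dec q →* L.1.Gal := decToGal L.1 (nLevelOf L') h q

/-- `M^{U_F}` as a `Gal(F'_q/ℚ_q)`-module. -/
abbrev MLoc : Rep.{0} ℤ (L'.Dec q) := toInt (Rep.res (piLoc c L q hS L' h) (coeff c.M L.1))

/-- `N_F` as a `Gal(F'_q/ℚ_q)`-module. -/
abbrev NLoc : Rep.{0} ℤ (L'.Dec q) :=
  Rep.res (Level.projDec (L := Level.ofLE hS L.1) h q) (Nq c L q)

theorem evalCompat_loc :
    H295.EvalCompat (MLoc c L q hS L' h) (NLoc c L q hS L' h) (L'.locUnits q) c.M
      (cfEquiv c.M L.1 (c.hM_at L)) (cfEquiv c.N L.1 (c.hN_at L))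
      (H295.muToLoc L' q (hasMu_up c hμ L hS L' h)) := by
  intro γ
  induction γ using QuotientGroup.induction_on with
  | H τ =>
    exact ⟨locQ q τ, fun a => rfl, fun b => rfl,
      fun t => H295.muToLoc_equivariant L' q (hasMu_up c hμ L hS L' h) τ t⟩

/-- The local bidual map `Θ' : Res M_F ⟶ Hom_ℤ(Res N_F, F'_qˣ)`. -/
def thetaLoc : MLoc c L q hS L' h ⟶ (Rep.ihom (NLoc c L q hS L' h)).obj (L'.locUnits q) :=
  H295.evalHom (evalCompat_loc c hμ L q hS L' h)

theorem thetaLoc_bijective [FiniteDimensional (ZMod p) c.M] :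
    Function.Bijective (thetaLoc c hμ L q hS L' h).hom :=
  H295.evalHom_bijective _ (H295.muToLoc_injective L' q (hasMu_up c hμ L hS L' h))
    (H295.exists_muToLoc_eq L' q (hasMu_up c hμ L hS L' h))

/-- `Θ'` on `H²`. -/
def thetaLocH2 :
    H2 (Rep.res (piLoc c L q hS L' h) (coeff c.M L.1)) →+
      groupCohomology ((Rep.ihom (NLoc c L q hS L' h)).obj (L'.locUnits q)) 2 :=
  ((groupCohomology.map (MonoidHom.id (L'.Dec q)) (thetaLoc c hμ L q hS L' h)
      2).hom.toAddMonoidHom).comp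
    (H2IntEquiv (Rep.res (piLoc c L q hS L' h) (coeff c.M L.1))).symm.toAddMonoidHom

theorem thetaLocH2_bijective [FiniteDimensional (ZMod p) c.M] :
    Function.Bijective (thetaLocH2 c hμ L q hS L' h) :=
  (map_bijective_of_bijective (thetaLoc c hμ L q hS L' h)
    (thetaLoc_bijective c hμ L q hS L' h) 2).comp
    (H2IntEquiv (Rep.res (piLoc c L q hS L' h) (coeff c.M L.1))).symm.bijective

theorem thetaLocH2_mk (cc : cocycles₂ (Rep.res (piLoc c L q hS L' h) (coeff c.M L.1))) :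
    thetaLocH2 c hμ L q hS L' h ((H2π _).hom cc) =
      (H2π ((Rep.ihom (NLoc c L q hS L' h)).obj (L'.locUnits q))).hom
        ((mapCocycles₂ (MonoidHom.id (L'.Dec q)) (thetaLoc c hμ L q hS L' h)).hom
          (cocToInt₂ (Rep.res (piLoc c L q hS L' h) (coeff c.M L.1)) cc)) := by
  change (groupCohomology.map (MonoidHom.id (L'.Dec q)) (thetaLoc c hμ L q hS L' h) 2).hom
    ((H2IntEquiv (Rep.res (piLoc c L q hS L' h) (coeff c.M L.1))).symm ((H2π _).hom cc)) = _
  rw [H2IntEquiv_symm_mk]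
  exact map_H2π (A := MLoc c L q hS L' h)
    (B := (Rep.ihom (NLoc c L q hS L' h)).obj (L'.locUnits q))
    (MonoidHom.id (L'.Dec q)) (thetaLoc c hμ L q hS L' h) _

theorem thetaLoc_hom_apply (m : (MLoc c L q hS L' h).V) (n : (NLoc c L q hS L' h).V) :
    ihomLin ((thetaLoc c hμ L q hS L' h).hom m) n =
      H295.muToLoc L' q (hasMu_up c hμ L hS L' h)
        (Fermat.Agent.S55.Bridge.evalMuP c.M (cfVal c.M m) (cfVal c.N n)) := rfl

theorem trLoc_embS_muToSUnits (t : Fermat.Agent.S55.Bridge.MuP p) :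
    (Level.trLoc (L := Level.ofLE hS L.1) h q).hom
        ((embS L.1 q).hom (H295.muToSUnits L.1 (hasMu_at c hμ L) t)) =
      H295.muToLoc L' q (hasMu_up c hμ L hS L' h) t := by
  rw [embS_apply]
  apply L'.locCoe_injective q
  rfl

theorem piLoc_mk (τ : GQp q) :
    piLoc c L q hS L' h (QuotientGroup.mk τ) =
      L.1.decHom q (Level.projDec (L := Level.ofLE hS L.1) h q (QuotientGroup.mk τ)) := rfl

/-- **Comparison.** The local inflation of `x_q` is `Θ'` applied to the local inflation of `x`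
with coefficients in `M`. -/
theorem locInf_xq (x : H2 (coeff c.M L.1)) :
    locInf (L := Level.ofLE hS L.1) h q (Nq c L q) (xq c hμ L q x) =
      thetaLocH2 c hμ L q hS L' h (locInfl₂ c.M L.1 (nLevelOf L') h q x) := by
  induction x using H2_induction_on with | @h cc =>
  have e1 := locInfl₂_mk c.M L.1 (nLevelOf L') h q cc
  have e2 := thetaLocH2_mk c hμ L q hS L' h (locInflCoc₂ c.M L.1 (nLevelOf L') h q cc)
  have e3 := thetaH2_mk c hμ L cc
  have e4 := map_H2π (A := (Rep.ihom (c.NL L)).obj (sUnits L.1))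
    (B := (Rep.ihom (Nq c L q)).obj (L.1.locUnits q)) (L.1.decHom q)
    (trIhom (L.1.decHom q) (𝟙 (Nq c L q)) (embS L.1 q))
    ((mapCocycles₂ (MonoidHom.id L.1.Gal) (theta c hμ L)).hom (cocToInt₂ (coeff c.M L.1) cc))
  have e5 := map_H2π (A := (Rep.ihom (Nq c L q)).obj (L.1.locUnits q))
    (B := (Rep.ihom (NLoc c L q hS L' h)).obj (L'.locUnits q))
    (Level.projDec (L := Level.ofLE hS L.1) h q)
    (trIhom (Level.projDec (L := Level.ofLE hS L.1) h q) (𝟙 (NLoc c L q hS L' h))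
      (Level.trLoc (L := Level.ofLE hS L.1) h q))
    ((mapCocycles₂ (L.1.decHom q) (trIhom (L.1.decHom q) (𝟙 (Nq c L q)) (embS L.1 q))).hom
      ((mapCocycles₂ (MonoidHom.id L.1.Gal) (theta c hμ L)).hom
        (cocToInt₂ (coeff c.M L.1) cc)))
  have lhs : locInf (L := Level.ofLE hS L.1) h q (Nq c L q)
      (xq c hμ L q ((H2π (coeff c.M L.1)).hom cc)) = _ :=
    (congrArg (locInf (L := Level.ofLE hS L.1) h q (Nq c L q))
      ((congrArg (groupCohomology.map (L.1.decHom q)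
        (trIhom (L.1.decHom q) (𝟙 (Nq c L q)) (embS L.1 q)) 2).hom e3).trans e4)).trans e5
  have rhs : thetaLocH2 c hμ L q hS L' h
      (locInfl₂ c.M L.1 (nLevelOf L') h q ((H2π (coeff c.M L.1)).hom cc)) = _ :=
    (congrArg (thetaLocH2 c hμ L q hS L' h) e1).trans e2
  refine lhs.trans (Eq.trans ?_ rhs.symm)
  congr 1
  apply Subtype.ext
  funext ⟨d, d'⟩
  induction d using QuotientGroup.induction_on with | @H τ =>
  induction d' using QuotientGroup.induction_on with | @H τ' =>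
  refine ihom_ext fun n => ?_
  exact trLoc_embS_muToSUnits c hμ L q hS L' h _

/-- `x_q` dies at the local level `F'_q` iff the local inflation of `x` (coefficients in `M`)
vanishes. -/
theorem locInf_xq_eq_zero_iff [FiniteDimensional (ZMod p) c.M] (x : H2 (coeff c.M L.1)) :
    locInf (L := Level.ofLE hS L.1) h q (Nq c L q) (xq c hμ L q x) = 0 ↔
      locInfl₂ c.M L.1 (nLevelOf L') h q x = 0 := by
  rw [locInf_xq]
  constructor
  · intro h0
    exact (thetaLocH2_bijective c hμ L q hS L' h).1 (h0.trans (map_zero _).symm)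
  · intro h0
    rw [h0]
    exact map_zero _

end Loc

/-! ### `Ш²_F` in terms of the local inflation maps -/

theorem two_ne_zero_zmod (hp2 : p ≠ 2) : (2 : ZMod p) ≠ 0 := by
  intro h
  have h' : ((2 : ℕ) : ZMod p) = 0 := by exact_mod_cast h
  have hdvd : p ∣ 2 := (ZMod.natCast_eq_zero_iff 2 p).1 h'
  have hp : p.Prime := Fact.out
  exact hp2 ((Nat.prime_dvd_prime_iff_eq hp Nat.prime_two).1 hdvd)

/-- **`Ш²_F`, local description.** `x ∈ Ш²_F` iff for every `q ∈ S` the localisation `x_q` of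
`Θ(x)` dies in `H²(Gal(F'_q/ℚ_q), Hom_ℤ(N, F'_qˣ))` for some finite Galois `F' ⊇ F`. -/
theorem mem_ShSub_iff [FiniteDimensional (ZMod p) c.M] (hp2 : p ≠ 2) (L : c.Idx)
    (x : H2 (coeff c.M L.1)) :
    x ∈ c.ShSub L ↔ ∀ q : S, ∃ (S' : Finset Nat.Primes) (hS : S ⊆ S') (L' : Level S')
      (h : Level.ofLE hS L.1 ≤ L'),
      locInf (L := Level.ofLE hS L.1) h q.1 (Nq c L q.1) (xq c hμ L q.1 x) = 0 := by
  have h1 : x ∈ c.ShSub L ↔ infl₂ c.M L.1 x ∈ sha₂ S c.M := Iff.rfl
  rw [h1, infl₂_mem_sha₂_iff c.M (two_ne_zero_zmod hp2) L.1 (c.hM_at L) x]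
  refine forall_congr' fun q => ?_
  constructor
  · rintro ⟨N, h, hx⟩
    obtain ⟨S', hS, hur⟩ := exists_isUnramifiedOutside_ge S N.F N.fin
    let L' : Level S' := ⟨N.F, hur, N.normalU⟩
    have h' : Level.ofLE hS L.1 ≤ L' := h
    exact ⟨S', hS, L', h', (locInf_xq_eq_zero_iff c hμ L q.1 hS L' h' x).2 hx⟩
  · rintro ⟨S', hS, L', h, hx⟩
    exact ⟨nLevelOf L', h, (locInf_xq_eq_zero_iff c hμ L q.1 hS L' h x).1 hx⟩

/-- `N_F` is finite. -/
theorem finite_Nq [FiniteDimensional (ZMod p) c.M] (L : c.Idx) (q : Nat.Primes) :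
    Finite (Nq c L q).V := by
  haveI : Finite c.M.V := Module.finite_of_finite (ZMod p)
  haveI : Finite (Module.Dual (ZMod p) c.M.V) := Module.finite_of_finite (ZMod p)
  haveI : Finite c.N.V := inferInstanceAs (Finite (Module.Dual (ZMod p) c.M.V))
  exact H719.finite_NL c L

/-- **LIM5 (i)**, modulo the description of `K_F` by the local transition maps. -/
theorem lim5i_of_KSub [FiniteDimensional (ZMod p) c.M] (hp2 : p ≠ 2) (hLoc : LocalSpec p)
    (hK : ∀ (L : c.Idx) (y : E2 (c.NL L) (sUnits L.1)),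
      y ∈ c.KSub L ↔ ∀ q : S, yq c L q.1 y = 0) :
    Lim5iSpec c hμ := by
  intro L x
  rw [mem_ShSub_iff c hμ hp2 L x, hK L (eFun c hμ L x)]
  refine forall_congr' fun q => ?_
  exact (edge_eq_zero_iff_exists_locInf (Fact.out : p.Prime) hLoc L.1 q.1 (Nq c L q.1)
    (finite_Nq c L q.1) (H719.nsmul_NL_eq_zero c L) (isEdge_xq_yq c hμ L q.1 x)).symm

end

end Fermat.Agent.S55.E1.H603

end
-- ===== PACK-END S55/E1/H603/Lim5Loc.lean

-- ===== PACK-BEGIN S55/E1/H603/Lim5.lean
section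
/-
S55 / engine E1 / block LIM, leaf LIM5 (helper603): FINAL ASSEMBLY.

`lim5 : Lim.LIM5Spec` : for every good context there is a morphism of systems
`e : Ш²_F → K_F` which is eventually injective and eventually surjective.

Inputs (all on main): `Lim5Defs` (`eFun`, `lim5_of_specs`), `Lim5Compat` (`lim5Compat`),
`Lim5Loc` (`lim5i_of_KSub`), helper719 `Lim5K` (`mem_KSub_iff`), helper423 `Lim5Tower`
(`lim5_ii_inf`, `lim5_iii_isEdge`), helper304 `alg1`, helper895 ALG9/ALG10Edge.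
Complete proofs only.
-/






set_option autoImplicit false
set_option linter.style.haveILetI false

open CategoryTheory CategoryTheory.Limits groupCohomology ExtCitation

namespace Fermat.Agent.S55.E1.H603

open Fermat.Agent.S55.E1 Fermat.Agent.S55.Tow Fermat.Agent.S55.E1.Lim

noncomputable section

variable {S : Finset Nat.Primes} {p : ℕ} [Fact p.Prime] (c : Ctx S p) (hμ : c.base.HasMu p)

/-- **LIM5 (i).** -/
theorem lim5i [FiniteDimensional (ZMod p) c.M] (hp2 : p ≠ 2) (hLoc : LocalSpec p) :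
    Lim5iSpec c hμ :=
  lim5i_of_KSub c hμ hp2 hLoc (fun L y => H719.mem_KSub_iff c L y)

theorem finite_NL_of_fin [FiniteDimensional (ZMod p) c.M] (L : c.Idx) : Finite (c.NL L).V :=
  finite_Nq c L ⟨2, Nat.prime_two⟩

theorem stdR_NL_finite [FiniteDimensional (ZMod p) c.M] (L : c.Idx) :
    @Module.Finite ℤ (stdR (c.NL L)).V _ _ (stdR (c.NL L)).hV2 :=
  (H304.alg1 L.1.Gal (c.NL L) (finite_NL_of_fin c L)).2.1

/-- **LIM5 (ii).** -/
theorem lim5ii [FiniteDimensional (ZMod p) c.M] (hdiv : SUnitsDivSpec S p) :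
    Lim5iiSpec c hμ := by
  intro L x hx
  have hp : p.Prime := Fact.out
  have hE : IsEdge (thetaH2 c hμ L x) (0 : E2 (c.NL L) (sUnits L.1)) :=
    hx ▸ isEdge_eFun c hμ L x
  obtain ⟨L₁, h₁, hL₁⟩ := H423.lim5_ii_inf H895.Final.alg10Edge hp hdiv L.1 (c.NL L)
    (stdR_NL_finite c L) _ hE
  let L' : c.Idx := ⟨L₁, L.2.trans h₁⟩
  have h : L ≤ L' := h₁
  refine ⟨L', h, ?_⟩
  have h0 := hL₁ L₁ h₁ le_rfl (c.NL L') (c.ν h) (H719.nsmul_NL_eq_zero c L')
  apply (thetaH2_bijective c hμ L').1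
  have e := thetaH2_tr₂ c hμ h x
  exact e.trans (h0.trans (map_zero _).symm)

/-- **LIM5 (iii).** -/
theorem lim5iii [FiniteDimensional (ZMod p) c.M] (hdiv : SUnitsDivSpec S p) :
    Lim5iiiSpec c hμ := by
  intro L y
  have hp : p.Prime := Fact.out
  obtain ⟨L₁, h₁, hL₁⟩ := H423.lim5_iii_isEdge hp hdiv L.1 (c.NL L) (stdR_NL_finite c L) y
  let L' : c.Idx := ⟨L₁, L.2.trans h₁⟩
  have h : L ≤ L' := h₁
  obtain ⟨x', hx'⟩ := hL₁ L₁ h₁ le_rfl (c.NL L') (c.ν h) (H719.nsmul_NL_eq_zero c L')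
  obtain ⟨x₀, hx₀⟩ := (thetaH2_bijective c hμ L').2 x'
  refine ⟨L', h, x₀, ?_⟩
  change edgeFun (c.NL L') (sUnits L'.1) (thetaH2 c hμ L' x₀) = _
  rw [hx₀]
  exact edgeFun_eq hx'

include hμ in
/-- **LIM5**, for a context with `μ_p` at the base level. -/
theorem lim5_ctx [FiniteDimensional (ZMod p) c.M] (hp2 : p ≠ 2) (hLoc : LocalSpec p)
    (hdiv : SUnitsDivSpec S p) :
    ∃ e : AddSys.Hom c.sysSh c.sysK, e.EvInj ∧ e.EvSurj :=
  lim5_of_specs c hμ (lim5i c hμ hp2 hLoc) (lim5ii c hμ hdiv) (lim5iii c hμ hdiv)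
    (lim5Compat c hμ)

/-- **LIM5.** -/
theorem lim5 : LIM5Spec := by
  intro p _ S c hc
  haveI : Module.Finite (ZMod p) c.M := hc.fin
  exact lim5_ctx c hc.mu hc.hp2 hc.loc hc.div

end

end Fermat.Agent.S55.E1.H603

end
-- ===== PACK-END S55/E1/H603/Lim5.lean

-- ===== PACK-BEGIN S55/GAD/ExistStepH121.lean
section



/-!
# S55 / G-ADAPTER, leaf GAD-EX1 (one Kummer step of gd6), in the shapes consumed by `GAD/Final.lean`

Author: helper121.  `p` an odd prime, `p ∈ S`.

* `existStepSpecG_of_core : Exist121.ExistCoreSpec → GAD.ExistStepSpecG S p`;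
* `existStepSpecG_of_classModule : G.PClassModuleSpec → GAD.ExistStepSpecG S p`;
* `existStepSpec_of_classModule : G.PClassModuleSpec → GAD.H233.ExistStepSpec S p`;
* `existStep_all_of_classModule`, `existStepG_all_of_classModule` : the quantified forms taken by
  `GAD.globalInputSpec_of` / `GAD.globalInputSpec_of_G`.

The level `L₁` is the Kummer level `Exist121.kummerTow p hpS L₀ = L₀(V_S(L₀)^{1/p})`.
-/

set_option autoImplicit false

noncomputable section

namespace Fermat.Agent.S55.GAD.H121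

open Fermat.Agent.S55 Fermat.Agent.S55.Tow Fermat.Agent.S55.G

variable (S : Finset Nat.Primes) (p : ℕ) [hp : Fact p.Prime]

omit hp in
/-- One Kummer step from the full gd6 (take `L = L₁`). -/
theorem existStepSpecG_of_existenceSpecG (h : GAD.ExistenceSpecG S p) : GAD.ExistStepSpecG S p := by
  intro L₀ hμ
  obtain ⟨L₁, h₀₁, hL⟩ := h L₀ hμ
  exact ⟨L₁, h₀₁, hL L₁ h₀₁ le_rfl⟩

/-- GAD-EX1 (layer-G language) from the finite-level existence theorem. -/
theorem existStepSpecG_of_core (hp2 : p ≠ 2) (hpS : (⟨p, hp.out⟩ : Nat.Primes) ∈ S)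
    (hCore : Exist121.ExistCoreSpec) : GAD.ExistStepSpecG S p :=
  existStepSpecG_of_existenceSpecG S p (existenceSpecG_of_core S p hp2 hpS hCore)

/-- GAD-EX1 (layer-G language), modulo the class-module input of layer G. -/
theorem existStepSpecG_of_classModule (hp2 : p ≠ 2) (hpS : (⟨p, hp.out⟩ : Nat.Primes) ∈ S)
    (hCM : PClassModuleSpec) : GAD.ExistStepSpecG S p :=
  existStepSpecG_of_core S p hp2 hpS (Exist121.existCore_of_classModule hCM)

/-- GAD-EX1 (concrete datum), modulo the class-module input of layer G. -/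
theorem existStepSpec_of_classModule (hp2 : p ≠ 2) (hpS : (⟨p, hp.out⟩ : Nat.Primes) ∈ S)
    (hCM : PClassModuleSpec) : GAD.H233.ExistStepSpec S p :=
  GAD.existStepSpec_of_G S p (existStepSpecG_of_classModule S p hp2 hpS hCM)

/-- The quantified form taken by `GAD.globalInputSpec_of_G`. -/
theorem existStepG_all_of_classModule (hCM : PClassModuleSpec) :
    ∀ (p : ℕ) [Fact p.Prime], p ≠ 2 → ∀ S : Finset Nat.Primes,
      ExtCitation.pPrime p ∈ S → GAD.ExistStepSpecG S p :=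
  fun p _ hp2 S hpS => existStepSpecG_of_classModule S p hp2 hpS hCM

/-- The quantified form taken by `GAD.globalInputSpec_of`. -/
theorem existStep_all_of_classModule (hCM : PClassModuleSpec) :
    ∀ (p : ℕ) [Fact p.Prime], p ≠ 2 → ∀ S : Finset Nat.Primes,
      ExtCitation.pPrime p ∈ S → GAD.H233.ExistStepSpec S p :=
  fun p _ hp2 S hpS => existStepSpec_of_classModule S p hp2 hpS hCM

end Fermat.Agent.S55.GAD.H121

end
end
-- ===== PACK-END S55/GAD/ExistStepH121.lean

-- ===== PACK-BEGIN S55/Fin/GlobalFR.lean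
section
/-
S55 / FINAL WIRING, layer G (row-lead helper55).

`E1.GlobalInputSpec` (the only arithmetic input of the engine E1 that is still open) from the
ONE remaining open leaf of layer G, the finite reciprocity dictionary
`G.Rec.TOW.FinRecSpec p = Nonempty (TOW.SemiLocalInv p)` (block FR, sub-architect helper353).

Everything else is closed on main and plugged in here:
* TOW (helper417): `gd1`, `gd3` from `SemiLocalInv p` + G-UP + DESC-TOW + G-SIND + RAM;
* G-CM (helper893): `pClassModule_of_leaves` (intrinsic class module from the tower `Gd1Spec`);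
* GAD (helper955): `globalInputSpec_of` from GAD-CM, GAD-J, GAD-EX1
  (transports helper594, Kummer step helper121).
NO sorry.
-/















set_option autoImplicit false

namespace Fermat.Agent.S55.Fin

open Fermat.Agent.S55 Fermat.Agent.S55.Tow Fermat.Agent.S55.G

/-- The open leaf of layer G: for every odd prime `p` there is a system of semilocal
invariants (block FR). -/
def FinRecAllSpec : Prop := ∀ p : ℕ, p.Prime → p ≠ 2 → Rec.TOW.FinRecSpec p

/-- GD1 on the tower for every `p` (vacuous unless `p` is an odd prime). -/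
theorem gd1_all (hFR : FinRecAllSpec) : ∀ p : ℕ, Rec.TOW.Gd1Spec p := by
  intro p S hp hp2
  obtain ⟨I⟩ := hFR p hp hp2
  exact Rec.TOW.H417.gd1 hp I AllH604.pClassUpper Rec.TOW.H934.desc SIndH237.sIndep
    (Rec.TOW.H414.ramSpec p) S hp hp2

/-- GD3 on the tower for every odd prime `p`. -/
theorem gd3_all (hFR : FinRecAllSpec) (p : ℕ) (hp : p.Prime) (hp2 : p ≠ 2) :
    Rec.TOW.Gd3Spec p := by
  obtain ⟨I⟩ := hFR p hp hp2
  exact Rec.TOW.H417.gd3 hp I

/-- The intrinsic class module of layer G. -/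
theorem pClassModule (hFR : FinRecAllSpec) : PClassModuleSpec :=
  CM.pClassModule_of_leaves AllH604.pClassUpper (gd1_all hFR) CM.H893.closureLevel
    CM.H514.subClassModuleSpec CM.H644.quotOrder (CM.H587.descIncl_of DescH773.descentSpec)
    (CM.H139.sindTop_of SIndH237.sIndep)

/-- **Layer G, final**: the global input of the engine from the finite reciprocity
dictionary. -/
theorem globalInputSpec_of_finRec (hFR : FinRecAllSpec) : E1.GlobalInputSpec :=
  GAD.globalInputSpec_of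
    (fun p _ hp2 S hpS =>
      GAD.H594.classModule_of_gd1 (S := S) (p := p) Fact.out hp2 hpS (gd1_all hFR p))
    (fun p _ hp2 S _ => GAD.H594.jInj_of_gd3 (S := S) (p := p) (gd3_all hFR p Fact.out hp2))
    (GAD.H121.existStep_all_of_classModule (pClassModule hFR))

end Fermat.Agent.S55.Fin

end
-- ===== PACK-END S55/Fin/GlobalFR.lean

-- ===== PACK-BEGIN S33/EigBFinal.lean
section
/-
Row S33 — piece EIG-B, unconditional form (helper409):

  `geoEigenStatement_of_key : KeyStatement → GeoEigenStatement`.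

The inputs (K'), (F), (T) of the adic module layer of row S30 are discharged from main exactly as
in `Fermat/Agent/S30.lean` / `S30/Chain/FromT.lean` (helper49).
-/






set_option autoImplicit false
set_option linter.style.haveILetI false
set_option linter.overlappingInstances false

noncomputable section

namespace Fermat.Agent.S33

open Fermat.Agent.S30.H330 Fermat.Agent.S30.Chain

/-- **EIG-B**: GEO-EIG from (K). -/
theorem geoEigenStatement_of_key (hKey : KeyStatement) : GeoEigenStatement :=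
  geoEigenStatement_of_chain hKey
    (fun N _ p hp =>
      haveI : NeZero p := ⟨hp.out.ne_zero⟩
      kummerInjStatement_of_packages (fun n =>
        haveI : NeZero (p ^ n) := ⟨pow_ne_zero n hp.out.ne_zero⟩
        kumPackage N (p ^ n)))
    (fun N _ p hp =>
      haveI : NeZero p := ⟨hp.out.ne_zero⟩
      finStatement_of_onto
        (kumPackage_one (fun n =>
          haveI : NeZero (p ^ n) := ⟨pow_ne_zero n hp.out.ne_zero⟩
          kumPackage N (p ^ n))).uniq
        (fun _ hx => Fermat.Agent.S30.H810.exists_isKum_of_torsion N p hx))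
    (Fermat.Agent.S30.H694.torsionRelations_of_nodes
      (fun M _ _ _ hℓM A hA => Fermat.Agent.S18.Mod.H216.node_mod M hℓM A hA)
      (fun M => Fermat.Agent.S18.H438.node_alg M))

end Fermat.Agent.S33

end
end
-- ===== PACK-END S33/EigBFinal.lean

-- ===== PACK-BEGIN S59/TW/H659/Clean/S33.lean
section
/-
Row S59 / HARD (helper659): the chain of S33 on the REALIZER-FREE REL.

`S33/Chain.lean`, `S33/H692/OrdEigen.lean` and `S33/Final.lean` import `S32.H692.Rel`
(`S31/H982/TracePow.lean`), so they cannot be imported together with `S31.lean`, `S34.lean`,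
`S59/G4/*` (`S31/H22/PowTr.lean`): `coord/CI-realized-collisions-helper475.md`.
This file re-wires them verbatim with `Clean.rel659`:

* `ordEigen_of_geoEigen659 : S33.GeoEigenStatement → S33.OrdEigenStatement`;
* `s33_of_ordEigen659 : S33.OrdEigenStatement → S33.S33Statement`;
* `s33_of_key659 : S33.KeyStatement → S33.S33Statement`.
-/












set_option autoImplicit false

noncomputable section

namespace Fermat.Agent.S59.TW.H659.Clean

open IsLocalRing

/-- A cyclotomic value in a Noetherian local ring with `p ∈ 𝔪` is unique. -/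
theorem isCycVal_unique659 {p : ℕ} (hp : p ≠ 0) {A : Type} [CommRing A] [IsLocalRing A]
    [IsNoetherianRing A] (hpA : (p : A) ∈ maximalIdeal A)
    {σ : AlgebraicClosure ℚ ≃ₐ[ℚ] AlgebraicClosure ℚ} {c c' : A}
    (hc : Fermat.Agent.S33.IsCycVal p σ c) (hc' : Fermat.Agent.S33.IsCycVal p σ c') : c = c' := by
  have hmem : ∀ n : ℕ, c - c' ∈ maximalIdeal A ^ n := by
    intro n
    obtain ⟨a, ha⟩ := Fermat.Agent.S59.H659.exists_isCycExp (p ^ n) (pow_ne_zero n hp) σ
    have h1 := hc n a ha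
    have h2 := hc' n a ha
    have hle : Ideal.span {((p ^ n : ℕ) : A)} ≤ maximalIdeal A ^ n := by
      rw [Ideal.span_le, Set.singleton_subset_iff, Nat.cast_pow]
      exact Ideal.pow_mem_pow hpA n
    have h3 : c - c' = (c - (a : A)) - (c' - (a : A)) := by ring
    rw [h3]
    exact Ideal.sub_mem _ (hle h1) (hle h2)
  have hbot : (⨅ n, maximalIdeal A ^ n) = ⊥ :=
    Ideal.iInf_pow_eq_bot_of_isLocalRing (maximalIdeal A) Ideal.IsPrime.ne_top'
  have h0 : c - c' ∈ (⨅ n, maximalIdeal A ^ n) := by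
    rw [Ideal.mem_iInf]
    exact hmem
  rw [hbot, Ideal.mem_bot, sub_eq_zero] at h0
  exact h0

/-- In a local ring whose maximal ideal contains an odd prime, `2` is a unit. -/
theorem isUnit_two_of_odd_mem659 {p : ℕ} (hp : p.Prime) (hp2 : p ≠ 2) {A : Type} [CommRing A]
    [IsLocalRing A] (hpA : (p : A) ∈ maximalIdeal A) : IsUnit (2 : A) := by
  by_contra hnu
  have h2 : (2 : A) ∈ maximalIdeal A := (mem_maximalIdeal _).mpr hnu
  have hodd : Odd p := hp.odd_of_ne_two hp2
  obtain ⟨k, hk⟩ := hodd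
  have h1 : (1 : A) = (p : A) - 2 * (k : A) := by
    rw [hk]
    push_cast
    ring
  have : (1 : A) ∈ maximalIdeal A := by
    rw [h1]
    exact Ideal.sub_mem _ hpA (Ideal.mul_mem_right _ _ h2)
  exact (Ideal.ne_top_iff_one _).mp (maximalIdeal.isMaximal A).ne_top this

/-- **Leaf ALG of row S33** (realizer-free chain). -/
theorem ordEigen_of_geoEigen659 (hGeo : Fermat.Agent.S33.GeoEigenStatement) :
    Fermat.Agent.S33.OrdEigenStatement := by
  intro p _ hp2 N _ S hN hNS 𝒪 _ _ _ _ _ _ hp𝒪 θ T _ _ _ _ _ _ _ _ H hres P hloc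
  have hp : p.Prime := Fact.out
  have hpS : p ∈ S := hNS p hp hN.1
  obtain ⟨E, hE⟩ := hGeo p hp2 N S hN hNS P.O P.hp (P.χ.comp H.π)
  refine ⟨E, ?_⟩
  have hspan := Fermat.Agent.S31.H202.span_range_rho_eq_top H.ρ H.residual_absIrr
  have hrel := rel659 p N S hpS hNS 𝒪 θ T H P hloc E
  have h2u : IsUnit (2 : P.O) := isUnit_two_of_odd_mem659 hp hp2 P.hp
  -- `p` lies in the maximal ideal of `T`
  have hpT : (p : T) ∈ maximalIdeal T := by
    rw [mem_maximalIdeal, mem_nonunits_iff]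
    intro hu
    have h1 : (p : T) = algebraMap 𝒪 T (p : 𝒪) := by rw [map_natCast]
    rw [h1] at hu
    have h2 : IsUnit (p : 𝒪) := isUnit_of_map_unit (algebraMap 𝒪 T) _ hu
    exact (mem_nonunits_iff.mp ((mem_maximalIdeal _).mp hp𝒪)) h2
  have hdetc : H.ρ.DetIsCyclotomic p :=
    Fermat.Agent.S59.H540.heckeGaloisRepDatum_detIsCyclotomic S H p hpT
  intro Pl hPl σ₀ hσ₀ c hc
  -- the constant
  have hc' : Fermat.Agent.S33.IsCycVal p σ₀ (P.χ ((H.ρ.det σ₀ : Tˣ) : T)) := by
    intro n a ha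
    have h1 := hdetc.2 n σ₀ a ha
    rw [Ideal.mem_span_singleton] at h1 ⊢
    obtain ⟨d, hd⟩ := h1
    refine ⟨P.χ d, ?_⟩
    have e : ((H.ρ.det σ₀ : Tˣ) : T) = LinearMap.det (H.ρ.ρ σ₀) := rfl
    rw [e, ← map_natCast P.χ a, ← map_sub, hd, map_mul, map_natCast]
  have hcc : P.χ ((H.ρ.det σ₀ : Tˣ) : T) = c := isCycVal_unique659 hp.ne_zero P.hp hc' hc
  have hgeo := hE Pl hPl
  constructor
  · intro σ hσ
    have h := (Fermat.Agent.S33.H692.ordEig_galois H.ρ P.χ E.ρ hspan hloc h2u hrel hres Pl hPl hgeo hσ₀ hσ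
      (τ := 1) (Subgroup.one_mem _)).1
    rw [hcc] at h
    exact h
  · intro τ hτ
    have h := (Fermat.Agent.S33.H692.ordEig_galois H.ρ P.χ E.ρ hspan hloc h2u hrel hres Pl hPl hgeo hσ₀ hσ₀ hτ).2
    rw [hcc] at h
    exact h

/-- S33 from ORD-EIG alone (realizer-free chain). -/
theorem s33_of_ordEigen659 (hEig : Fermat.Agent.S33.OrdEigenStatement) :
    Fermat.Agent.S33.S33Statement :=
  Fermat.Agent.S33.s33_of_pieces hEig rel659 Fermat.Agent.S32.H152.embedStatement
    Fermat.Agent.S32.H185.red Fermat.Agent.S59.G4.H109.points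

/-- S33 from (K) (realizer-free chain). -/
theorem s33_of_key659 (hKey : Fermat.Agent.S33.KeyStatement) : Fermat.Agent.S33.S33Statement :=
  s33_of_ordEigen659 (ordEigen_of_geoEigen659 (Fermat.Agent.S33.geoEigenStatement_of_key hKey))

end Fermat.Agent.S59.TW.H659.Clean

end
end
-- ===== PACK-END S59/TW/H659/Clean/S33.lean

-- ===== PACK-BEGIN S33/H692/OldAug.lean
section
/-
Row S33 (ordinary at `p ‖ N`), leaf OLD in the frozen shape of `S33/Spec2.lean` (helper692):

    oldAugStatement : S33.OldAugStatement                 (UNCONDITIONAL)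

= `S33.H706.oldAug_of_s19` (relative connected–étale sequence on the Hopf models) applied to the
landed S19 (`A3.H615.frozenS19`, Hopf-model form `S19.H135.hopfModel_of_frozenShape`), plus the
dictionary between the vocabulary of `Spec2.lean` (`iAug`, `torsSub`, `InSPlus`, natural-number
multiples) and that of `H706/Old.lean` (`augSub`, `augTors`, integer multiples).
-/





set_option autoImplicit false

noncomputable section

namespace Fermat.Agent.S33.H692

/-- The frozen S19 in Hopf-model form. -/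
theorem s19HopfStatement : Fermat.Agent.S33.H706.S19HopfStatement := by
  intro N _ ℓ _ hℓN k
  exact Fermat.Agent.S19.H135.hopfModel_of_frozenShape N ℓ k
    (Fermat.Agent.A3.H615.frozenS19 N ℓ hℓN k)

/-- **Leaf OLD of row S33**, frozen Spec2 shape. -/
theorem oldAugStatement : Fermat.Agent.S33.OldAugStatement := by
  intro p M' _ hp hp2 hpM' P hP Y hYG hY
  haveI : Fact p.Prime := ⟨hp⟩
  have hold := Fermat.Agent.S33.H706.oldAug_of_s19 s19HopfStatement p hp2 M' hpM' P hP Y hYG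
    (fun y hy => (hY y hy).1) ?_
  · -- `Y = augSub P Y = iAug I Y`
    intro y hy
    have h1 : y ∈ Fermat.Agent.S33.H706.augSub P Y := by
      rw [hold]
      exact hy
    exact h1
  · intro y hy
    obtain ⟨n, hn⟩ := (hY y hy).2
    refine ⟨n, ?_⟩
    have hle : Fermat.Agent.S33.iAug (P.inertiaSubgroupIn ℚ)
        (Fermat.Agent.S33.torsSub (ModularCurve.JZero M') (p ^ n))
        ≤ Fermat.Agent.S33.H706.augTors p (ModularCurve.JZero M') P n := by
      unfold Fermat.Agent.S33.iAug Fermat.Agent.S33.H706.augTors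
      rw [AddSubgroup.closure_le]
      rintro z ⟨σ, hσ, w, hw, rfl⟩
      refine AddSubgroup.subset_closure ⟨σ, hσ, w, ?_, rfl⟩
      have hw' : (p ^ n) • w = 0 := hw
      rw [← Nat.cast_pow, natCast_zsmul]
      exact hw'
    exact hle hn

end Fermat.Agent.S33.H692

end
end
-- ===== PACK-END S33/H692/OldAug.lean

-- ===== PACK-BEGIN S38/H509/StCorGen.lean
section





/-!
# IA-ST, Betti step, for all odd `p`, every type `t`, any base level (helper509)

Generic form of `iaStCor_h509` (`StNat.lean`): `P` any Hecke package (any `t`, any `Σ`),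
`N₀ ≠ 0` any base level, `pv`, `qv` two families of primes, `K = KG p N₀ (Sum.elim pv qv)`
(`Γ_H` at `pv` and `qv`), `L` with `N₀ ∏ pv ∏ qv = L ∏ qv`, `K₁ = KG p L qv` (`Γ₀` at `pv`,
`Γ_H` at `qv`), `V` the localisation of `X_K(𝒪)` at `(TsetOf P, Uset)`.

`cor_of_pkg_h509` : `cor = coresK : X_K(𝒪) → X_{K₁}(𝒪)` is `𝒪`-linear and

* maps `V` into every localisation `V₁` of `X_{K₁}(𝒪)` at `(TsetOf P, Uset)`;
* commutes with `⟨ℓ⟩^e T_ℓ` (`ℓ ∤ M`) and with `U_q` (`q ∣ M`);
* for `v ∈ V`: `cor v = 0 ↔ v ∈ pivRel V`, the `𝒪`-span of the `⟨a₁, 1⟩ y - y`, `y ∈ V`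
  (`= chiRelIA 1 V` at `N₀ = wilesLevel p .flat Smin Smin`).

No hypothesis on `p` beyond `ResidualHyp` (`p ≠ 2`): the basis of `V` is `free_of_pkg_h509`.
-/

set_option autoImplicit false
set_option linter.style.haveILetI false

open Polynomial IsLocalRing CongruenceSubgroup
open scoped MatrixGroups

namespace Fermat.Agent.S38.H509

open Fermat.Agent.S59.Arch Fermat.Agent.S59.TW.H959 Fermat.Agent.S59.TW
open Fermat.Agent.S59.TW.H653 Fermat.Agent.S59.TW.Aut Fermat.Agent.S38.IA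
open Fermat.Agent.S38.IA.Hecke Fermat.Agent.S59.TW.Aut.H762

section Rel

variable (p N₀ : ℕ) {k r : ℕ} (pv : Fin k → ℕ) (qv : Fin r → ℕ)

/-- The relations of `Δ_Piv` in `V`: the `𝒪`-span of the `⟨a₁, 1⟩ y - y`, `y ∈ V`, `a₁` at the
family `pv`. -/
noncomputable def pivRel {𝒪 : Type} [CommRing 𝒪]
    (V : Submodule 𝒪 (Additive (KG p N₀ (Sum.elim pv qv)) →+ 𝒪)) :
    Submodule 𝒪 (Additive (KG p N₀ (Sum.elim pv qv)) →+ 𝒪) :=
  Submodule.span 𝒪 {w | ∃ (a₁ : ∀ i : Fin k, (ZMod (pv i))ˣ)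
    (y : Additive (KG p N₀ (Sum.elim pv qv)) →+ 𝒪),
    y ∈ V ∧ w = diamondU (isMid_KG p N₀ (Sum.elim pv qv))
      (gLift N₀ (Sum.elim pv qv) (pairU a₁ 1)) y - y}

end Rel

section Flat

variable (p : ℕ) (Smin : Finset ℕ) {k r : ℕ} (pv : Fin k → ℕ) (qv : Fin r → ℕ)

/-- At the base level of Ihara avoidance `pivRel V = chiRelIA 1 V`. -/
theorem pivRel_eq_chiRelIA {𝒪 : Type} [CommRing 𝒪] (V : Submodule 𝒪 (XIA p Smin pv qv 𝒪)) :
    pivRel p (wilesLevel p .flat Smin Smin) pv qv V = chiRelIA p Smin pv qv 1 V := by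
  unfold pivRel chiRelIA
  congr 1
  ext w
  constructor
  · rintro ⟨a₁, y, hy, rfl⟩
    refine ⟨a₁, y, hy, ?_⟩
    rw [MonoidHom.one_apply, one_smul]
    rfl
  · rintro ⟨a₁, y, hy, rfl⟩
    refine ⟨a₁, y, hy, ?_⟩
    rw [MonoidHom.one_apply, one_smul]
    rfl

end Flat

section Cor

variable {p : ℕ} [hp : Fact p.Prime]
  {𝒪 : Type} [CommRing 𝒪] [IsDomain 𝒪] [IsDiscreteValuationRing 𝒪]
  [IsAdicComplete (maximalIdeal 𝒪) 𝒪] [Finite (ResidueField 𝒪)] [CharZero 𝒪]
  {ρbar : ResidualGaloisRep (ResidueField 𝒪)} {Smin : Finset ℕ}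

/-- **ST-BETTI, (COR), generic.** -/
theorem cor_of_pkg_h509 (h : ResidualHyp p 𝒪 ρbar Smin) {t : PType} {Sig : Finset ℕ}
    [NeZero (wilesLevel p t Smin Sig)] (P : HeckePkg p 𝒪 ρbar t Smin Sig)
    (N₀ L : ℕ) (hN₀ : N₀ ≠ 0) {k r : ℕ} (pv : Fin k → ℕ) (qv : Fin r → ℕ)
    (hprime : ∀ s, (Sum.elim pv qv s).Prime) (hinj : Function.Injective (Sum.elim pv qv))
    (hM : gLevel N₀ (Sum.elim pv qv) = gLevel L qv)
    (hlev : ∀ ℓ : ℕ, ℓ.Prime → ℓ ∣ gLevel N₀ (Sum.elim pv qv) → ℓ ∈ Sig)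
    {Uset : Set (ℕ × 𝒪)}
    (hU : ∀ x ∈ Uset, x.1.Prime ∧ x.1 ∣ gLevel N₀ (Sum.elim pv qv))
    (V : Submodule 𝒪 (Additive (KG p N₀ (Sum.elim pv qv)) →+ 𝒪))
    (hV : IsLocPart (isMid_KG p N₀ (Sum.elim pv qv)) (TsetOf P) Uset V) (e : ℕ) :
    ∃ cor : (Additive (KG p N₀ (Sum.elim pv qv)) →+ 𝒪) →ₗ[𝒪] (Additive (KG p L qv) →+ 𝒪),
      (∀ V₁ : Submodule 𝒪 (Additive (KG p L qv) →+ 𝒪),
        IsLocPart (isMid_KG p L qv) (TsetOf P) Uset V₁ → ∀ v ∈ V, cor v ∈ V₁) ∧
      (∀ (ℓ : ℕ) (hℓ : ℓ.Prime), ¬ ℓ ∣ gLevel N₀ (Sum.elim pv qv) →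
        ∀ v : Additive (KG p N₀ (Sum.elim pv qv)) →+ 𝒪,
        cor (tOpTw (isMid_KG p N₀ (Sum.elim pv qv)) 𝒪 e ℓ hℓ v) =
          tOpTw (isMid_KG p L qv) 𝒪 e ℓ hℓ (cor v)) ∧
      (∀ (q : ℕ) [Fact q.Prime], q ∣ gLevel N₀ (Sum.elim pv qv) →
        ∀ v : Additive (KG p N₀ (Sum.elim pv qv)) →+ 𝒪,
        cor (UK (KG p N₀ (Sum.elim pv qv)) q v) = UK (KG p L qv) q (cor v)) ∧
      (∀ v ∈ V, cor v = 0 ↔ v ∈ pivRel p N₀ pv qv V) := by
  classical
  have hMne : gLevel N₀ (Sum.elim pv qv) ≠ 0 :=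
    (neZero_gLevel_h509 N₀ (Sum.elim pv qv) hN₀ hprime).ne
  haveI hMNe : NeZero (gLevel N₀ (Sum.elim pv qv)) := ⟨hMne⟩
  haveI hfin : Finite (GDelta p (Sum.elim pv qv)) := finite_gDelta_h509 p _ hprime
  have hS : KG p L qv = GammaH (gLevel N₀ (Sum.elim pv qv)) (pivFree p N₀ pv qv) :=
    kg_eq_gammaH_h509 p N₀ L pv qv hM
  have hH' : (gChi p N₀ (Sum.elim pv qv)).ker ≤ pivFree p N₀ pv qv :=
    ker_gChi_le_pivFree p N₀ pv qv
  have hle : KG p N₀ (Sum.elim pv qv) ≤ KG p L qv := by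
    rw [hS]
    exact GammaH_mono hH'
  have hVdia : ∀ (u : (ZMod (gLevel N₀ (Sum.elim pv qv)))ˣ),
      ∀ x ∈ V, diamondU (isMid_KG p N₀ (Sum.elim pv qv)) u x ∈ V :=
    fun u x hx => H31.locPart_diamondU_mem_h31 hV u hx
  refine ⟨coresKLin_h762 hle 𝒪, ?_, ?_, ?_, ?_⟩
  · -- NAT
    intro V₁ hV₁
    have hT : ∀ x ∈ TsetOf P, x.1.Prime ∧ ¬ x.1 ∣ gLevel N₀ (Sum.elim pv qv) := by
      rintro x ⟨hℓ, -, hℓS, -⟩
      exact ⟨hℓ, fun hd => hℓS (Finset.mem_coe.mpr (hlev _ hℓ hd))⟩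
    have hT' : ∀ x ∈ TsetOf P, x.1.Prime ∧ ¬ x.1 ∣ gLevel L qv := by
      intro x hx
      rw [← hM]
      exact hT x hx
    have hU' : ∀ x ∈ Uset, x.1.Prime ∧ x.1 ∣ gLevel L qv := by
      intro x hx
      rw [← hM]
      exact hU x hx
    have hM'ne : gLevel L qv ≠ 0 := by
      rw [← hM]
      exact hMne
    refine Fermat.Agent.S59.H105.nat_of_isLocPart hM'ne (isMid_KG p N₀ (Sum.elim pv qv))
      (isMid_KG p L qv) hV hV₁ subset_rfl subset_rfl hT hU hT' hU'
      (coresKLin_h762 hle 𝒪) ?_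
    rintro (i | i) x
    · haveI : Fact i.1.1.Prime := ⟨(hT i.1 i.2).1⟩
      show coresK hle (TK _ _ i.1.1 x - i.1.2 • x) =
        TK _ _ i.1.1 (coresK hle x) - i.1.2 • coresK hle x
      have e1 := coresK_TK_cast_h509 (gChi p N₀ (Sum.elim pv qv))
        (pivFree p N₀ pv qv) hH' hM hS hle (hT i.1 i.2).2 x
      have e2 : coresK hle (TK (gLevel N₀ (Sum.elim pv qv)) (KG p N₀ (Sum.elim pv qv)) i.1.1 x -
            i.1.2 • x) =
          coresK hle (TK (gLevel N₀ (Sum.elim pv qv)) (KG p N₀ (Sum.elim pv qv)) i.1.1 x) -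
            i.1.2 • coresK hle x :=
        ((coresKLin_h762 hle 𝒪).map_sub _ _).trans
          (congrArg _ ((coresKLin_h762 hle 𝒪).map_smul _ _))
      exact e2.trans (congrArg (fun z => z - i.1.2 • coresK hle x) e1)
    · haveI : Fact i.1.1.Prime := ⟨(hU i.1 i.2).1⟩
      show coresK hle (UK _ i.1.1 x - i.1.2 • x) =
        UK _ i.1.1 (coresK hle x) - i.1.2 • coresK hle x
      have e1 := coresK_UK_cast_h509 (gChi p N₀ (Sum.elim pv qv))
        (pivFree p N₀ pv qv) hH' hS hle (hU i.1 i.2).2 x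
      have e2 : coresK hle (UK (KG p N₀ (Sum.elim pv qv)) i.1.1 x - i.1.2 • x) =
          coresK hle (UK (KG p N₀ (Sum.elim pv qv)) i.1.1 x) - i.1.2 • coresK hle x :=
        ((coresKLin_h762 hle 𝒪).map_sub _ _).trans
          (congrArg _ ((coresKLin_h762 hle 𝒪).map_smul _ _))
      exact e2.trans (congrArg (fun z => z - i.1.2 • coresK hle x) e1)
  · -- equivariance, `T`
    intro ℓ hℓ hℓM v
    exact coresK_tOpTw_cast_h509 (gChi p N₀ (Sum.elim pv qv))
      (pivFree p N₀ pv qv) hH' hM hS (isMid_KG p L qv) hle e ℓ hℓ hℓM v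
  · -- equivariance, `U`
    intro q _ hqM v
    exact coresK_UK_cast_h509 (gChi p N₀ (Sum.elim pv qv))
      (pivFree p N₀ pv qv) hH' hS hle hqM v
  · -- the kernel
    obtain ⟨d, b, hb⟩ := free_of_pkg_h509 h P N₀ hN₀ (Sum.elim pv qv) hprime hinj hV
    obtain ⟨g, hg⟩ := exists_primitive_roots_h509 (Sum.elim pv qv) hprime
    have hker : ∀ {y : Additive (KG p N₀ (Sum.elim pv qv)) →+ 𝒪}, y ∈ V →
        (coresK (GammaH_mono hH' : KG p N₀ (Sum.elim pv qv) ≤
            GammaH (gLevel N₀ (Sum.elim pv qv)) (pivFree p N₀ pv qv)) y = 0 ↔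
          y ∈ AddSubgroup.closure
            {z : Additive (KG p N₀ (Sum.elim pv qv)) →+ 𝒪 |
              ∃ u ∈ pivFree p N₀ pv qv, ∃ y' ∈ V,
                z = diamondU (isMid_KG p N₀ (Sum.elim pv qv)) u y' - y'}) :=
      fun {y} hy => pcor_ker_G_h509 (p := p) N₀ hN₀
        (Sum.elim pv qv) hprime hinj 𝒪 (pivFree p N₀ pv qv) hH' V
        hVdia g hg (fun i => ((b i : V) : Additive (KG p N₀ (Sum.elim pv qv)) →+ 𝒪))
        (fun i => (b i).2) (fun y hy => hb g hg ⟨y, hy⟩) hy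
    have hsurjRed := gRed_surjective_h509 N₀ (Sum.elim pv qv) hN₀ hinj hprime
    have hcast : ∀ y : Additive (KG p N₀ (Sum.elim pv qv)) →+ 𝒪,
        coresKLin_h762 hle 𝒪 y = 0 ↔
        coresK (GammaH_mono hH' : KG p N₀ (Sum.elim pv qv) ≤
            GammaH (gLevel N₀ (Sum.elim pv qv)) (pivFree p N₀ pv qv)) y = 0 :=
      fun y => coresK_eq_zero_cast_h509 (gChi p N₀ (Sum.elim pv qv))
        (pivFree p N₀ pv qv) hH' hS hle y
    intro v hv
    constructor
    · intro h0
      have h1 := (hker hv).mp ((hcast v).mp h0)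
      refine AddSubgroup.closure_induction
        (p := fun z _ => z ∈ pivRel p N₀ pv qv V) ?_ ?_ ?_ ?_ h1
      · rintro z ⟨u, hu, y', hy', rfl⟩
        refine Submodule.subset_span
          ⟨fun i => gRed N₀ (Sum.elim pv qv) u (Sum.inl i), y', hy', ?_⟩
        congr 1
        exact diamondU_eq_of_gChi_h509 p N₀ (Sum.elim pv qv)
          (gChi_eq_of_mem_pivFree p N₀ pv qv hu _ (gRed_gLift _ _ (hsurjRed _))) y'
      · exact zero_mem _
      · intro a b _ _ ha hb
        exact add_mem ha hb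
      · intro a _ ha
        exact neg_mem ha
    · intro h0
      refine Submodule.span_induction
        (p := fun z _ => coresKLin_h762 hle 𝒪 z = 0) ?_ ?_ ?_ ?_ h0
      · rintro z ⟨a₁, y, hy, rfl⟩
        have hu : gLift N₀ (Sum.elim pv qv) (pairU a₁ 1) ∈ pivFree p N₀ pv qv :=
          mem_pivFree_of_gRed p N₀ pv qv a₁ (gRed_gLift _ _ (hsurjRed _))
        have hzV : diamondU (isMid_KG p N₀ (Sum.elim pv qv))
            (gLift N₀ (Sum.elim pv qv) (pairU a₁ 1)) y - y ∈ V :=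
          sub_mem (hVdia _ y hy) hy
        exact (hcast _).mpr ((hker hzV).mpr
          (AddSubgroup.subset_closure ⟨_, hu, y, hy, rfl⟩))
      · exact map_zero _
      · intro a b _ _ ha hb
        rw [map_add, ha, hb, add_zero]
      · intro c a _ ha
        rw [map_smul, ha, smul_zero]

end Cor

end Fermat.Agent.S38.H509

end
-- ===== PACK-END S38/H509/StCorGen.lean

-- ===== PACK-BEGIN S59/LoSqC/H876/WireOld.lean
section







/-!
# S59 moonshot, cell (C) LO-SQ, leaf **W-DESC** (helper876): NEW-OLD on `J₀(N q)` from the wall over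
the inertia field

`E = ℚ̄^{I_P}` (`P` a place of `ℚ̄`), `F_E(X) = laurentBaseChange E (modularFunctionFieldFull X)`,
`α_E, β_E : F_E(N) → F_E(N q)` the two degeneracy maps, `α^* = S37.H155.pullHom N q`,
`β^* = S36.H160.pullB N q : J₀(N) → J₀(N q)`.

* `old_of_wallRep876` (**RETURN of the dictionary**): if `y₀ ∈ F_E(N q)ˣ` represents `x`
  (`WallRep876`) and `y₀ = c · α_E g · β_E g' · h ^ m` with `m ∣ div g`, `m ∣ div g'` over `E`,
  then `x = α^* y + β^* y'` with `m • y = 0`, `m • y' = 0`.  (Any intermediate field `E`.)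
* `LevelWallAt876 E N q m Good` : the WALL over `E` at the exponent `m`, with a side condition
  `Good` on the function (e.g. "the slopes vanish"):
  `y ≠ 0`, `m ∣ div y`, `N_α y, N_β y ∈ E · (F_E(N))^m`, `Good y`
      ⟹ `y = c · α_E g · β_E g' · h ^ m`, `m ∣ div g`, `m ∣ div g'`.
* `NewOldAt876 N q m P GoodJ`   : NEW-OLD on `J₀(N q)`: every `m`-torsion class which is
  `q`-new, fixed by `I_P` and satisfies `GoodJ` is `α^* y + β^* y'` with `m`-torsion `y, y'`.
* `newOldAt_of_levelWall876` (**W-DESC**): `LevelWallAt876 (ℚ̄^{I_P}) N q m Good → NewOldAt876 …`,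
  given the link `GoodJ x → WallRep876 … x y₀ → Good y₀` (W-SLOPE; trivial if `Good = True`).
* `newOld_of_levelWall876` : the same without side conditions.

No hypothesis on `m` except `0 < m`; no hypothesis on `N`, `q`.
-/

set_option autoImplicit false
set_option linter.style.haveILetI false
set_option linter.unusedSectionVars false
set_option synthInstance.maxHeartbeats 400000
set_option maxHeartbeats 1600000

noncomputable section

namespace Fermat.Agent.S59.LoSqC.H876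

open AlgebraicCurve ModularCurve IntermediateField
open Fermat.Agent.A2.T1.H669 (iota Qb)
open Fermat.Agent.S29.H395 (normAlong)

section Old

variable (E : IntermediateField ℚ Qb) (N q m : ℕ) [NeZero N] [NeZero q]

/-- **RETURN of the dictionary.**  A class represented by `c · α_E g · β_E g' · h ^ m` with
`m ∣ div g`, `m ∣ div g'` is OLD. -/
theorem old_of_wallRep876 (hm : 0 < m) (x : JZero (N * q))
    (y₀ : ↥(laurentBaseChange E (modularFunctionFieldFull (N * q)))) (hy₀ : y₀ ≠ 0)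
    (hrep : WallRep876 E (N * q) m x y₀)
    (c : E) (g g' : ↥(laurentBaseChange E (modularFunctionFieldFull N)))
    (h : ↥(laurentBaseChange E (modularFunctionFieldFull (N * q))))
    (hg : Fermat.Agent.A2.DivisibleDiv E m g) (hg' : Fermat.Agent.A2.DivisibleDiv E m g')
    (e : y₀ = algebraMap E _ c * heckeAlphaBar E N q g * heckeBetaBar E N q g' * h ^ m) :
    ∃ y y' : JZero N, m • y = 0 ∧ m • y' = 0 ∧
      x = Fermat.Agent.S37.H155.pullHom N q y + Fermat.Agent.S36.H160.pullB N q y' := by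
  haveI : NeZero (N * q) := ⟨Nat.mul_ne_zero (NeZero.ne N) (NeZero.ne q)⟩
  haveI hPD : HasPrincipalDivisors Qb ↥(modularFunctionFieldBar (N * q)) :=
    Fermat.Agent.Lib.RR.H864.hasPrincipalDivisors_modularFunctionFieldBar (N * q)
  haveI hPD' : HasPrincipalDivisors Qb ↥(modularFunctionFieldBar N) :=
    Fermat.Agent.Lib.RR.H864.hasPrincipalDivisors_modularFunctionFieldBar N
  obtain ⟨D, rfl, hD⟩ := hrep
  -- the factors are nonzero
  have hc0 : algebraMap E ↥(laurentBaseChange E (modularFunctionFieldFull (N * q))) c ≠ 0 := by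
    rintro h0
    rw [h0, zero_mul, zero_mul, zero_mul] at e
    exact hy₀ e
  have hg0 : g ≠ 0 := by
    rintro rfl
    rw [map_zero, mul_zero, zero_mul, zero_mul] at e
    exact hy₀ e
  have hg'0 : g' ≠ 0 := by
    rintro rfl
    rw [map_zero, mul_zero, zero_mul] at e
    exact hy₀ e
  have hh0 : h ≠ 0 := by
    rintro rfl
    rw [zero_pow hm.ne', mul_zero] at e
    exact hy₀ e
  -- the equation over `ℚ̄`
  have e' : iota E (modularFunctionFieldFull (N * q)) y₀
      = algebraMap Qb ↥(modularFunctionFieldBar (N * q)) (c : Qb)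
        * heckeAlphaBar Qb N q (iota E (modularFunctionFieldFull N) g)
        * heckeBetaBar Qb N q (iota E (modularFunctionFieldFull N) g')
        * (iota E (modularFunctionFieldFull (N * q)) h) ^ m := by
    rw [e, map_mul, map_mul, map_mul, map_pow,
      Fermat.Agent.S35.H858.iota_heckeAlphaBar, Fermat.Agent.S35.H858.iota_heckeBetaBar,
      Fermat.Agent.A2.T1.H669.iota_algebraMap]
    rfl
  obtain ⟨y, y', hy, hy', hxy⟩ := mk_eq_pull_add_pull876
    (heckeAlphaBar Qb N q) (heckeBetaBar Qb N q)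
    (Fermat.Agent.Lib.FF398.heckeAlphaBarIntegral N q)
    (Fermat.Agent.Lib.FF398.heckeBetaBarIntegral N q)
    (Fermat.Agent.Lib.FF398.fundamentalIdentityAlong_alpha N q)
    (Fermat.Agent.Lib.FF398.fundamentalIdentityAlong_beta N q) hm.ne' D hD
    (Fermat.Agent.A2.T1.H669.iota_ne_zero E _ hg0)
    (Fermat.Agent.A2.T1.H669.iota_ne_zero E _ hg'0)
    (dvd_ord_iota_of_divisibleDiv876 E _ m g hg0 hg)
    (dvd_ord_iota_of_divisibleDiv876 E _ m g' hg'0 hg')
    (c : Qb) (Fermat.Agent.A2.T1.H669.iota_ne_zero E _ hh0) e'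
  exact ⟨y, y', hy, hy', hxy⟩

end Old

/-! ## The two statements and W-DESC -/

section Wall

/-- **The WALL over `E`** at the exponent `m` (levels `N` and `N q`), with a side condition
`Good` on the function. -/
def LevelWallAt876 (E : IntermediateField ℚ Qb) (N q m : ℕ) [NeZero N] [NeZero q]
    (Good : Fermat.Agent.A2.Mod.FE E (N * q) → Prop) : Prop :=
  ∀ y : Fermat.Agent.A2.Mod.FE E (N * q), y ≠ 0 → Fermat.Agent.A2.DivisibleDiv E m y →
    Fermat.Agent.S35.G.NormPow (Fermat.Agent.A2.Mod.αE E N q) m y →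
    Fermat.Agent.S35.G.NormPow (Fermat.Agent.A2.Mod.βE E N q) m y → Good y →
    ∃ (c : E) (g g' : Fermat.Agent.A2.Mod.FE E N) (h : Fermat.Agent.A2.Mod.FE E (N * q)),
      Fermat.Agent.A2.DivisibleDiv E m g ∧ Fermat.Agent.A2.DivisibleDiv E m g' ∧
      y = algebraMap E (Fermat.Agent.A2.Mod.FE E (N * q)) c * Fermat.Agent.A2.Mod.αE E N q g
        * Fermat.Agent.A2.Mod.βE E N q g' * h ^ m

/-- **NEW-OLD on `J₀(N q)`** at the exponent `m`, with a side condition `GoodJ` on the class. -/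
def NewOldAt876 (N q m : ℕ) [NeZero N] [NeZero q] (P : ValuationSubring Qb)
    (GoodJ : JZero (N * q) → Prop) : Prop :=
  ∀ x : JZero (N * q), m • x = 0 → Fermat.Agent.S35.H155.IsQNew N q x →
    (∀ τ ∈ P.inertiaSubgroupIn ℚ, τ • x = x) → GoodJ x →
    ∃ y y' : JZero N, m • y = 0 ∧ m • y' = 0 ∧
      x = Fermat.Agent.S37.H155.pullHom N q y + Fermat.Agent.S36.H160.pullB N q y'

variable (N q m : ℕ) [NeZero N] [NeZero q]

/-- **W-DESC.**  The wall over the inertia field gives NEW-OLD on `J₀(N q)`. -/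
theorem newOldAt_of_levelWall876 (hm : 0 < m) (P : ValuationSubring Qb)
    (Good : Fermat.Agent.A2.Mod.FE (fixedField (P.inertiaSubgroupIn ℚ)) (N * q) → Prop)
    (GoodJ : JZero (N * q) → Prop)
    (hlink : ∀ (x : JZero (N * q))
      (y₀ : Fermat.Agent.A2.Mod.FE (fixedField (P.inertiaSubgroupIn ℚ)) (N * q)),
      GoodJ x → y₀ ≠ 0 → WallRep876 (fixedField (P.inertiaSubgroupIn ℚ)) (N * q) m x y₀ →
      Good y₀)
    (hW : LevelWallAt876 (fixedField (P.inertiaSubgroupIn ℚ)) N q m Good) :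
    NewOldAt876 N q m P GoodJ := by
  intro x hx hnew hfix hgood
  obtain ⟨y₀, hy₀, hrep, hdiv, ⟨c₁, h₁, -, -, e₁⟩, ⟨c₂, h₂, -, -, e₂⟩⟩ :=
    exists_wallRep876 N q m hm P x hx hnew hfix
  obtain ⟨c, g, g', h, hg, hg', e⟩ :=
    hW y₀ hy₀ hdiv ⟨c₁, h₁, e₁⟩ ⟨c₂, h₂, e₂⟩ (hlink x y₀ hgood hy₀ hrep)
  exact old_of_wallRep876 (fixedField (P.inertiaSubgroupIn ℚ)) N q m hm x y₀ hy₀ hrep
    c g g' h hg hg' e

/-- **W-DESC, no side condition.** -/
theorem newOld_of_levelWall876 (hm : 0 < m) (P : ValuationSubring Qb)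
    (hW : LevelWallAt876 (fixedField (P.inertiaSubgroupIn ℚ)) N q m fun _ => True) :
    NewOldAt876 N q m P fun _ => True :=
  newOldAt_of_levelWall876 N q m hm P _ _ (fun _ _ _ _ _ => trivial) hW

/-- The hypotheses of the wall hold for the descended generator (the form in which W-SLOPE and
W-NEW consume W-DESC): every `m`-torsion, `q`-new, `I_P`-fixed class has a representative over
the inertia field satisfying the hypotheses of `LevelWallAt876`. -/
theorem exists_wallRep_normPow876 (hm : 0 < m) (P : ValuationSubring Qb) (x : JZero (N * q))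
    (hx : m • x = 0) (hnew : Fermat.Agent.S35.H155.IsQNew N q x)
    (hfix : ∀ τ ∈ P.inertiaSubgroupIn ℚ, τ • x = x) :
    ∃ y₀ : Fermat.Agent.A2.Mod.FE (fixedField (P.inertiaSubgroupIn ℚ)) (N * q),
      y₀ ≠ 0 ∧ WallRep876 (fixedField (P.inertiaSubgroupIn ℚ)) (N * q) m x y₀ ∧
      Fermat.Agent.A2.DivisibleDiv (fixedField (P.inertiaSubgroupIn ℚ)) m y₀ ∧
      Fermat.Agent.S35.G.NormPow
        (Fermat.Agent.A2.Mod.αE (fixedField (P.inertiaSubgroupIn ℚ)) N q) m y₀ ∧
      Fermat.Agent.S35.G.NormPow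
        (Fermat.Agent.A2.Mod.βE (fixedField (P.inertiaSubgroupIn ℚ)) N q) m y₀ := by
  obtain ⟨y₀, hy₀, hrep, hdiv, ⟨c₁, h₁, -, -, e₁⟩, ⟨c₂, h₂, -, -, e₂⟩⟩ :=
    exists_wallRep876 N q m hm P x hx hnew hfix
  exact ⟨y₀, hy₀, hrep, hdiv, ⟨c₁, h₁, e₁⟩, ⟨c₂, h₂, e₂⟩⟩

end Wall

end Fermat.Agent.S59.LoSqC.H876

end
end
-- ===== PACK-END S59/LoSqC/H876/WireOld.lean

-- ===== PACK-BEGIN S59/LoSqC/H876/DescW.lean
section





/-!
# S59 moonshot, cell (C) LO-SQ, leaf **W-DESC**, frozen type (helper876)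

`descW : Fermat.Agent.S59.LoSqC.DescWStatement`  (VERBATIM, `S59/LoSqC/Spec.lean` of helper885):

the level wall over the inertia field `E = ℚ̄^{I_A}` and the slope leaf give NEW-OLD on
`J₀(M q q)`:  every `p`-torsion class which is `q`-new and fixed by `I_A` (and a non-Eisenstein
eigenclass when `p ∣ q + 1`) is `α^* y + β^* y'` with `p`-torsion classes `y, y'` of level `M q`.

Proof.
1. `E` is an unramified good level (`S36.Eng.H189.unramified_inertiaField`), so `R_E` is a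
   discrete valuation ring: a uniformiser `w` exists, and a system of objects
   `Mod3.Objs A E M q …` exists (`objs_exists876`: the proof of `Mod3.H370.leafObj`, which does
   not use neatness).
2. DESC (`exists_wallRep_normPow876`): `x` has a representative `y₀ ∈ F_E(M q q)ˣ` with
   `p ∣ div y₀` and norms along `α_E`, `β_E` constants times `p`-th powers;
   `y₀` is an `E`-rational Kummer generator of `x` (`IsKummerGenE`), so W-SLOPE applies to it.
3. The level wall gives `y₀ = c · α g · β g' · h ^ p` (`FromBelow`), and the dictionary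
   (`old_of_wallRep876`) returns `x = α^* y + β^* y'`.
-/

set_option autoImplicit false
set_option linter.style.haveILetI false
set_option linter.unusedSectionVars false
set_option synthInstance.maxHeartbeats 400000
set_option maxHeartbeats 1600000

noncomputable section

namespace Fermat.Agent.S59.LoSqC.H876

open AlgebraicCurve ModularCurve IntermediateField
open Fermat.Agent.S36 Fermat.Agent.S36.Eng Fermat.Agent.A2.Mod

/-- **The objects exist** over every unramified level with `R_E` a discrete valuation ring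
(no neatness): the proof of `Mod3.H370.leafObj`. -/
theorem objs_exists876 (P : ValuationSubring A2.Qb) (E : IntermediateField ℚ A2.Qb) (M q : ℕ)
    [NeZero M] [NeZero q] [NeZero (M * q)] (w : A2.RE P E) (hq : q.Prime) (hqM : ¬ q ∣ M)
    (hP : P.LiesOverPrime q) (hun : Eng.Unramified P E q) (hw : Irreducible w) :
    ∃ (V₁' V₂' : ValuationSubring (A2.Mod.FE E (M * q)))
      (V₁ V₂ V₃ : ValuationSubring (A2.Mod.FE E (M * q * q)))
      (W' : A2.Mod.FE E (M * q) ≃ₐ[E] A2.Mod.FE E (M * q))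
      (W : A2.Mod.FE E (M * q * q) ≃ₐ[E] A2.Mod.FE E (M * q * q)),
      Mod3.Objs P E M q V₁' V₂' V₁ V₂ V₃ W' W := by
  have hS : Setting P E M q w := ⟨hq, hqM, NeZero.ne M, hP, hun.1.dvr, hw⟩
  have hSQ : Fermat.Agent.S36.H370.SettingQ P E q w :=
    Fermat.Agent.S36.H370.SettingQ.of_setting hS
  obtain ⟨V₁', hV₁'⟩ := H553.vinfExists P E (M * q) (NeZero.ne _) hS.dvr
  obtain ⟨V₁, hV₁⟩ := H553.vinfExists P E (M * q * q) (NeZero.ne _) hS.dvr
  obtain ⟨W', hW'⟩ := H751.frickeExists E (M * q) (NeZero.ne _)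
  obtain ⟨W, hW⟩ := H751.frickeExists E (M * q * q) (NeZero.ne _)
  obtain ⟨Vmid, hne, hα, -⟩ :=
    Fermat.Agent.S36.H972.mod3_alpha_main hS (Mod3.H370.unram_of_std370 hSQ hun) hV₁' hV₁
  refine ⟨V₁', V₁'.comap (W' : FE E (M * q) →+* FE E (M * q)), V₁, Vmid,
    V₁.comap (W : FE E (M * q * q) →+* FE E (M * q * q)), W', W,
    ⟨hV₁', hW', rfl, hV₁, hW, rfl, ?_, hne⟩⟩
  ext k
  rw [ValuationSubring.mem_comap]
  exact hα k

/-- **W-DESC**, exact frozen type. -/
theorem descW : Fermat.Agent.S59.LoSqC.DescWStatement := by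
  intro M q p _ _ _ hq hqM hp hp2 hpq A hA hLW hSl x hx hnew hfix heig
  -- 1. the level
  have hun : Eng.Unramified A (inertiaFldC A) q :=
    Fermat.Agent.S36.Eng.H189.unramified_inertiaField q hq A hA
  haveI : IsDiscreteValuationRing ↥(A2.RE A (inertiaFldC A)) := hun.1.dvr
  obtain ⟨w, hw⟩ := IsDiscreteValuationRing.exists_irreducible ↥(A2.RE A (inertiaFldC A))
  obtain ⟨V₁', V₂', V₁, V₂, V₃, W', W, hO⟩ :=
    objs_exists876 A (inertiaFldC A) M q w hq hqM hA hun hw
  -- 2. DESC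
  obtain ⟨y₀, hy₀, hrep, hdiv, hα, hβ⟩ :=
    exists_wallRep_normPow876 (M * q) q p hp.pos A x hx hnew hfix
  have hK : IsKummerGenE (inertiaFldC A) (M * q * q) p y₀ x := ⟨hy₀, hrep⟩
  -- 3. the wall
  obtain ⟨c, g, g', h, -, -, -, hg, hg', e⟩ :=
    hLW w hw V₁' V₂' V₁ V₂ V₃ W' W hO y₀ hy₀ hdiv hα hβ (fun hd => by
      obtain ⟨S, a, ha, hea⟩ := heig hd
      exact hSl hd x hx S a ha hea w hw V₁' V₂' V₁ V₂ V₃ W' W hO y₀ hK)
  exact old_of_wallRep876 (inertiaFldC A) (M * q) q p hp.pos x y₀ hy₀ hrep c g g' h hg hg' e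

end Fermat.Agent.S59.LoSqC.H876

end
end
-- ===== PACK-END S59/LoSqC/H876/DescW.lean

-- ===== PACK-BEGIN S59/LoSqC/H876/WirePull.lean
section





/-!
# S59 moonshot, cell (C) LO-SQ: W-DESC wired into TOP-CORE (helper876)

TOP-CORE (helper301, `S59/LoSqC/H301/CoreNeat.lean`) consumes
`H301.NewOldStatement Neat` : at every level `N q` with `Neat N q` there is a pull pair
(`H301.IsPullPair`) for which `H301.NewOldAt` holds at every place over `q` and every non-Eisenstein
eigensystem.  This file provides it from the wall over the inertia field: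

* `pullB_heckeOperatorAlong876` : `β^* = S36.H160.pullB N q` commutes with `T_ℓ`, `ℓ ≠ q` prime
  (the `α`-analogue is `S37.H155.pullHom_hecke`);
* `isPullPair876`               : `H301.IsPullPair N q {q} (pullHom N q) (pullB N q)`;
* `newOldAt301_of_levelWall876` : `LevelWallAt876 (ℚ̄^{I_P}) N q p Good` + the link
  "`x` eigen for `a` off `S`, `y₀` represents `x` ⟹ `Good y₀`" give `H301.NewOldAt N q p P S a`;
* `WallStatement876 Neat`       : the wall at all neat levels, all places, all non-Eisenstein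
  eigensystems, with its side condition;
* `newOldStatement_of_wall876`  : `WallStatement876 Neat → H301.NewOldStatement Neat`;
* `coreSqNeat_of_wall876`       : `WallStatement876 Neat → H301.CoreSqNeatStatement Neat`.
-/

set_option autoImplicit false
set_option linter.style.haveILetI false
set_option linter.unusedSectionVars false
set_option synthInstance.maxHeartbeats 400000
set_option maxHeartbeats 1600000

noncomputable section

namespace Fermat.Agent.S59.LoSqC.H876

open AlgebraicCurve ModularCurve IntermediateField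
open Fermat.Agent.A2.T1.H669 (iota Qb)
open Fermat.Agent.S37.H818 Fermat.Agent.S29.H801 Fermat.Agent.Lib.FF398

section PullPair

variable (N q ℓ : ℕ) [NeZero N] [NeZero q] [NeZero ℓ]

/-- **`β^*` is Hecke-equivariant**: `β_q^* ∘ T_ℓ = T_ℓ ∘ β_q^*` for primes `ℓ ≠ q`. -/
theorem pullB_heckeOperatorAlong876 (hq : q.Prime) (hℓ : ℓ.Prime) (hne : q ≠ ℓ)
    (x : JZero N) :
    Fermat.Agent.S36.H160.pullB N q (heckeOperatorAlong _root_.Fermat.Agent.A2.T1.H669.Qb N ℓ x)
      = heckeOperatorAlong _root_.Fermat.Agent.A2.T1.H669.Qb (N * q) ℓ (Fermat.Agent.S36.H160.pullB N q x) := by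
  rw [heckeOperatorAlong_eq_heckePic0Bar N ℓ, heckeOperatorAlong_eq_heckePic0Bar (N * q) ℓ]
  exact pullbackPic0Along_correspondence (heckeAlphaBar _root_.Fermat.Agent.A2.T1.H669.Qb N ℓ) (heckeBetaBar _root_.Fermat.Agent.A2.T1.H669.Qb N ℓ)
    (heckeBetaBar _root_.Fermat.Agent.A2.T1.H669.Qb N q) (heckeAlphaBar _root_.Fermat.Agent.A2.T1.H669.Qb (N * q) ℓ) (heckeBetaBar _root_.Fermat.Agent.A2.T1.H669.Qb (N * q) ℓ)
    (betaTo _root_.Fermat.Agent.A2.T1.H669.Qb (N * ℓ) q (N * q * ℓ) (Nat.mul_right_comm N ℓ q))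
    (heckeAlphaBarIntegral N ℓ) (heckeBetaBarIntegral N ℓ)
    (heckeBetaBarIntegral N q) (heckeAlphaBarIntegral (N * q) ℓ)
    (heckeBetaBarIntegral (N * q) ℓ)
    (betaTo_integral _root_.Fermat.Agent.A2.T1.H669.Qb (Nat.mul_right_comm N ℓ q) (heckeBetaBarIntegral (N * ℓ) q))
    (rel_sq₁ (L := _root_.Fermat.Agent.A2.T1.H669.Qb) N q ℓ) (rel_BB (L := _root_.Fermat.Agent.A2.T1.H669.Qb) N q ℓ).symm
    (fundamentalIdentityAlong_beta N ℓ) (finiteAlong_alpha N ℓ) (normFormulaAlong_alpha N ℓ)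
    (fundamentalIdentityAlong_beta (N * q) ℓ) (finiteAlong_alpha (N * q) ℓ)
    (normFormulaAlong_alpha (N * q) ℓ) (fundamentalIdentityAlong_beta N q)
    (normCompat_bar N q ℓ hq hℓ hne)
    (Fermat.Agent.S37.H818.hasLocalGenerators (heckeAlphaBar _root_.Fermat.Agent.A2.T1.H669.Qb N ℓ)
      (heckeAlphaBarIntegral N ℓ)) x

/-- **The pull pair** `(α^*, β^*) = (S37.H155.pullHom N q, S36.H160.pullB N q)`. -/
theorem isPullPair876 (hq : q.Prime) :
    Fermat.Agent.S59.LoSqC.H301.IsPullPair N q {q}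
      (Fermat.Agent.S37.H155.pullHom N q) (Fermat.Agent.S36.H160.pullB N q) := by
  constructor
  · intro ℓ hℓ y
    haveI : NeZero (ℓ : ℕ) := ⟨ℓ.2.ne_zero⟩
    have hne : q ≠ (ℓ : ℕ) := fun h => hℓ (by rw [Finset.mem_singleton]; exact h.symm)
    exact Fermat.Agent.S37.H155.pullHom_hecke N q (ℓ : ℕ) ℓ.2 hq hne y
  · intro ℓ hℓ y
    haveI : NeZero (ℓ : ℕ) := ⟨ℓ.2.ne_zero⟩
    have hne : q ≠ (ℓ : ℕ) := fun h => hℓ (by rw [Finset.mem_singleton]; exact h.symm)
    exact pullB_heckeOperatorAlong876 N q (ℓ : ℕ) hq ℓ.2 hne y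

end PullPair

/-! ## The statement level -/

section Statement

open Fermat.Agent.Ribet Fermat.Agent.Ribet.Spec Fermat.Agent.Ribet.H944.Wall

/-- **W-DESC in the shape of TOP-CORE** (one level, one place, one eigensystem). -/
theorem newOldAt301_of_levelWall876 (N q p : ℕ) [NeZero N] [NeZero q] (hp : 0 < p)
    (P : ValuationSubring _root_.Fermat.Agent.A2.T1.H669.Qb) (S : Finset ℕ) (a : ℕ → ℤ)
    (Good : Fermat.Agent.A2.Mod.FE (fixedField (P.inertiaSubgroupIn ℚ)) (N * q) → Prop)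
    (hlink : ∀ (x : JZero (N * q))
      (y₀ : Fermat.Agent.A2.Mod.FE (fixedField (P.inertiaSubgroupIn ℚ)) (N * q)),
      EigenAt (N * q) S a x → y₀ ≠ 0 →
      WallRep876 (fixedField (P.inertiaSubgroupIn ℚ)) (N * q) p x y₀ → Good y₀)
    (hW : LevelWallAt876 (fixedField (P.inertiaSubgroupIn ℚ)) N q p Good) :
    Fermat.Agent.S59.LoSqC.H301.NewOldAt N q p P S a
      (Fermat.Agent.S37.H155.pullHom N q) (Fermat.Agent.S36.H160.pullB N q) :=
  fun x hx hnew hfix heig =>
    newOldAt_of_levelWall876 N q p hp P Good (fun x => EigenAt (N * q) S a x) hlink hW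
      x hx hnew hfix heig

/-- **The wall, statement level**: at every level `N q` (`q ∥ N`) with `Neat N q`, every odd
prime `p ≠ q`, every place `P` over `q` and every non-Eisenstein eigensystem `a` off `S`, the wall
over the inertia field `ℚ̄^{I_P}` holds at the exponent `p` for a side condition `Good` which is
satisfied by the representatives of the eigenclasses for `a` (W-SLOPE). -/
def WallStatement876 (Neat : ℕ → ℕ → Prop) : Prop :=
  ∀ (N q p : ℕ) [NeZero N] [NeZero q], q.Prime → N.factorization q = 1 → p.Prime → p ≠ 2 →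
    p ≠ q → Neat N q →
    ∀ P : ValuationSubring _root_.Fermat.Agent.A2.T1.H669.Qb, P.LiesOverPrime q →
    ∀ (S : Finset ℕ) (a : ℕ → ℤ), NonEisAway p a →
    ∃ Good : Fermat.Agent.A2.Mod.FE (fixedField (P.inertiaSubgroupIn ℚ)) (N * q) → Prop,
      (∀ (x : JZero (N * q))
        (y₀ : Fermat.Agent.A2.Mod.FE (fixedField (P.inertiaSubgroupIn ℚ)) (N * q)),
        EigenAt (N * q) S a x → y₀ ≠ 0 →
        WallRep876 (fixedField (P.inertiaSubgroupIn ℚ)) (N * q) p x y₀ → Good y₀) ∧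
      LevelWallAt876 (fixedField (P.inertiaSubgroupIn ℚ)) N q p Good

/-- **NEW-OLD (TOP-CORE shape) from the wall.** -/
theorem newOldStatement_of_wall876 (Neat : ℕ → ℕ → Prop) (h : WallStatement876 Neat) :
    Fermat.Agent.S59.LoSqC.H301.NewOldStatement Neat := by
  intro N q p _ _ hq hfac hp hp2 hpq hneat
  refine ⟨{q}, Fermat.Agent.S37.H155.pullHom N q, Fermat.Agent.S36.H160.pullB N q,
    isPullPair876 N q hq, fun P hP S a ha => ?_⟩
  obtain ⟨Good, hlink, hW⟩ := h N q p hq hfac hp hp2 hpq hneat P hP S a ha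
  exact newOldAt301_of_levelWall876 N q p hp.pos P S a Good hlink hW

/-- **CORE-SQ at neat levels from the wall** (W-DESC + TOP-CORE of helper301). -/
theorem coreSqNeat_of_wall876 (Neat : ℕ → ℕ → Prop) (h : WallStatement876 Neat) :
    Fermat.Agent.S59.LoSqC.H301.CoreSqNeatStatement Neat :=
  Fermat.Agent.S59.LoSqC.H301.coreSqNeat_of_newOld Neat (newOldStatement_of_wall876 Neat h)

end Statement

end Fermat.Agent.S59.LoSqC.H876

end
end
-- ===== PACK-END S59/LoSqC/H876/WirePull.lean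

-- ===== PACK-BEGIN S59/LoSqC/H876/TopCore.lean
section



/-!
# S59 moonshot, cell (C) LO-SQ: TOP-CORE in the FROZEN shapes (helper876; plug of helper301's
`S59/LoSqC/H301/CoreNeat.lean` into `S59/LoSqC/Spec.lean` of helper885)

`coreSqNeat_of_newOld876 : LoSqC.NewOldStatement → LoSqC.CoreSqNeatStatement`  (VERBATIM types).

Proof: `N = M q` with `q ∤ M` and `Eng.NeatFor M q` (from `NeatN N q`, `q` odd); then
(W0) `H301.occursIn_of_not_isQNew` if `x` is not `q`-new, and NEW-OLD +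
ALG (`H301.occursIn_of_old`, pull pair `isPullPair876`) if it is.
-/

set_option autoImplicit false
set_option linter.style.haveILetI false
set_option linter.unusedSectionVars false
set_option synthInstance.maxHeartbeats 400000
set_option maxHeartbeats 1600000

noncomputable section

namespace Fermat.Agent.S59.LoSqC.H876

open AlgebraicCurve ModularCurve
open Fermat.Agent.S36 Fermat.Agent.S36.Eng
open Fermat.Agent.Ribet Fermat.Agent.Ribet.Spec Fermat.Agent.Ribet.H944.Wall
open Fermat.Agent.S59.LoSqC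

/-- `q ∥ M q` ⟹ `q ∤ M`. -/
theorem not_dvd_of_factorization_mul876 {M q : ℕ} (hq : q.Prime) (hM : M ≠ 0)
    (h : (M * q).factorization q = 1) : ¬ q ∣ M := by
  intro hd
  have h2 : q ^ 2 ∣ M * q := by
    rw [pow_two]
    exact Nat.mul_dvd_mul hd (dvd_refl q)
  have h3 := (hq.pow_dvd_iff_le_factorization (Nat.mul_ne_zero hM hq.ne_zero)).1 h2
  omega

/-- `NeatN (M q) q`, `q` odd ⟹ `Eng.NeatFor M q`. -/
theorem neatFor_of_neatN876 {M q : ℕ} (hq : q.Prime) (hq2 : q ≠ 2) (h : NeatN (M * q) q) :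
    NeatFor M q := by
  obtain ⟨⟨r, hr, hr12, hrq, hrd⟩, h4⟩ := h
  refine ⟨⟨r, hr, hr12, hrq, ?_⟩, fun _ => ?_, fun h2 => absurd h2 hq2⟩
  · rcases (Nat.Prime.dvd_mul hr).1 hrd with h1 | h1
    · exact h1
    · exact absurd ((Nat.prime_dvd_prime_iff_eq hr hq).1 h1) hrq
  · have hodd : Nat.Coprime 4 q := by
      have h2q : Nat.Coprime 2 q := by
        rw [Nat.coprime_primes Nat.prime_two hq]
        exact fun h => hq2 h.symm
      have : Nat.Coprime (2 ^ 2) q := Nat.Coprime.pow_left 2 h2q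
      simpa using this
    exact hodd.dvd_of_dvd_mul_right h4

/-- **TOP-CORE**, frozen types. -/
theorem coreSqNeat_of_newOld876 (h : NewOldStatement) : CoreSqNeatStatement := by
  intro N q p _ _ hq hq2 hfac hneat hp hp2 hpq P hP S a ha x hx hpx heig hfix
  -- `N = M q`
  have hqN : q ∣ N := by
    by_contra hnd
    rw [Nat.factorization_eq_zero_of_not_dvd hnd] at hfac
    exact zero_ne_one hfac
  obtain ⟨M, hM⟩ : ∃ M, N = M * q := by
    obtain ⟨c, hc⟩ := hqN
    exact ⟨c, by rw [hc, Nat.mul_comm]⟩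
  subst hM
  have hM0 : M ≠ 0 := fun h0 => by
    have := NeZero.ne (M * q)
    rw [h0, Nat.zero_mul] at this
    exact this rfl
  haveI : NeZero M := ⟨hM0⟩
  have hqM : ¬ q ∣ M := not_dvd_of_factorization_mul876 hq hM0 hfac
  have hNO : NewOldAt M q p P :=
    h M q p hq hqM (neatFor_of_neatN876 hq hq2 hneat) hq2 hp hp2 hpq P hP
  by_cases hnew : Fermat.Agent.S35.H155.IsQNew (M * q) q x
  · obtain ⟨y, y', hy, hy', hxy⟩ := hNO x hpx hnew hfix (fun _ => ⟨S, a, ha, heig⟩)
    exact ⟨S ∪ {q}, Finset.subset_union_left,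
      Fermat.Agent.S59.LoSqC.H301.occursIn_of_old hp.ne_zero (isPullPair876 (M * q) q hq)
        hx heig hy hy' hxy⟩
  · exact ⟨insert q S, Finset.subset_insert q S,
      Fermat.Agent.S59.LoSqC.H301.occursIn_of_not_isQNew hq hpx heig hnew⟩

end Fermat.Agent.S59.LoSqC.H876

end
end
-- ===== PACK-END S59/LoSqC/H876/TopCore.lean

-- ===== PACK-BEGIN S59/LoSqC/H305/SlopeCore.lean
section



/-!
# S59 moonshot, cell (C) LO-SQ, leaf W-SLOPE — part 3: the slope relation at level `E`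
# (helper305, OFF-MAIN)

`V∞` the Gauss valuation ring of `F_E(N)` (a DVR with uniformiser `w`), `V₀ = V∞ ∘ W`.
For `y ∈ F_E(N)ˣ` with orders `a₁` (along `V∞`) and `a₃` (along `V₀`):

* `slope_core305` : if `T_ℓ y = c · y ^ a · h ^ m` (`c ∈ Eˣ`, `h ∈ F_E(N)ˣ`), then
      `m ∣ ((ℓ + 1) - a) · (a₁ - a₃)`.

(The slope `a₁ - a₃` is multiplied by `ℓ + 1` by `T_ℓ`; constants have slope `0`, `m`-th powers
have slope `≡ 0 mod m`.)
-/

set_option autoImplicit false
set_option linter.style.haveILetI false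
set_option linter.unusedSectionVars false
set_option synthInstance.maxHeartbeats 400000
set_option maxHeartbeats 1600000

noncomputable section

namespace Fermat.Agent.S59.LoSqC.H305

open ModularCurve AlgebraicCurve HahnSeries
open Fermat.Agent.A2.Mod
open Fermat.Agent.S36.Eng (UnitAt UnifAt)
open Fermat.Agent.S36.H586 (IsOrd)

variable (E : IntermediateField ℚ Qb) (N ℓ : ℕ) [NeZero N] [NeZero ℓ]

/-- Orders along `V.comap W` are orders of `W z` along `V` (`W` fixes the uniformiser). -/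
theorem isOrd_comap305 {V : ValuationSubring (FE E N)} (W : FE E N ≃ₐ[E] FE E N) {w : E}
    (hw0 : algebraMap E (FE E N) w ≠ 0) (z : FE E N) (b : ℤ) :
    IsOrd (V.comap (W : FE E N →+* FE E N)) (algebraMap E (FE E N) w) z b ↔
      IsOrd V (algebraMap E (FE E N) w) (W z) b := by
  rw [Fermat.Agent.S36.H586.isOrd_iff_unitAt hw0, Fermat.Agent.S36.H586.isOrd_iff_unitAt hw0,
    unitAt_comap305, map_mul, map_inv₀, map_zpow₀, AlgEquiv.commutes]

variable (P : ValuationSubring Qb)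

/-- **The slope relation at level `E`.** -/
theorem slope_core305 {q : ℕ} (hq : q.Prime) (hP : P.LiesOverPrime q)
    (hℓ : ℓ.Prime) (hℓq : ℓ ≠ q) (hℓN : ¬ ℓ ∣ N)
    {V : ValuationSubring (FE E N)} (hV : IsVinf P E N V) (hdvr : IsDiscreteValuationRing V)
    {W : FE E N ≃ₐ[E] FE E N} (hW : IsFricke E N W)
    (w : E) (hw : UnifAt V (algebraMap E (FE E N) w))
    (y : FE E N) (a₁ a₃ : ℤ)
    (h₁ : IsOrd V (algebraMap E (FE E N) w) y a₁)
    (h₃ : IsOrd (V.comap (W : FE E N →+* FE E N)) (algebraMap E (FE E N) w) y a₃)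
    (a : ℤ) (m : ℕ) (c : E) (h : FE E N) (hc : c ≠ 0) (hh : h ≠ 0)
    (he : heckeNormE E N ℓ y = algebraMap E (FE E N) c * y ^ a * h ^ m) :
    (m : ℤ) ∣ (((ℓ : ℤ) + 1) - a) * (a₁ - a₃) := by
  haveI := hdvr
  have hw0 : algebraMap E (FE E N) w ≠ 0 := hw.1
  have hwlt : V.valuation (algebraMap E (FE E N) w) < 1 :=
    Fermat.Agent.S36.H586.UnifAt.val_lt_one hw
  have hc0 : algebraMap E (FE E N) c ≠ 0 := by simpa using hc
  -- orders of `c`, `h`, `W h` along `V`
  obtain ⟨e, hce⟩ := Fermat.Agent.S36.H586.exists_isOrd_of_unifAt V hw _ hc0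
  obtain ⟨b₁, hb₁⟩ := Fermat.Agent.S36.H586.exists_isOrd_of_unifAt V hw h hh
  obtain ⟨b₃, hb₃⟩ := Fermat.Agent.S36.H586.exists_isOrd_of_unifAt V hw (W h)
    ((map_ne_zero_iff _ W.injective).2 hh)
  -- along `V`
  have k1 : IsOrd V (algebraMap E (FE E N) w) (heckeNormE E N ℓ y) (((ℓ : ℤ) + 1) * a₁) := by
    rw [Fermat.Agent.S36.H586.isOrd_iff_unitAt hw0] at h₁ ⊢
    exact heckeNormE_order305 E N ℓ P hq hP hℓ hℓq hℓN hV w y a₁ h₁
  have k1' : IsOrd V (algebraMap E (FE E N) w) (heckeNormE E N ℓ y)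
      (e + a * a₁ + (m : ℤ) * b₁) := by
    rw [he]
    exact ((hce.mul hw0 (h₁.zpow a)).mul hw0 (hb₁.pow m))
  have e1 := Fermat.Agent.S36.H586.IsOrd.unique hw0 hwlt k1 k1'
  -- along `V₀`
  have h₃' : IsOrd V (algebraMap E (FE E N) w) (W y) a₃ :=
    (isOrd_comap305 E N W hw0 y a₃).1 h₃
  have k3 : IsOrd V (algebraMap E (FE E N) w) (heckeNormE E N ℓ (W y))
      (((ℓ : ℤ) + 1) * a₃) := by
    rw [Fermat.Agent.S36.H586.isOrd_iff_unitAt hw0] at h₃' ⊢
    exact heckeNormE_order305 E N ℓ P hq hP hℓ hℓq hℓN hV w (W y) a₃ h₃'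
  have heW : heckeNormE E N ℓ (W y) = algebraMap E (FE E N) c * (W y) ^ a * (W h) ^ m := by
    rw [← fricke_heckeNormE305 E N ℓ hℓ hℓN hW, he, map_mul, map_mul, map_zpow₀, map_pow,
      AlgEquiv.commutes]
  have k3' : IsOrd V (algebraMap E (FE E N) w) (heckeNormE E N ℓ (W y))
      (e + a * a₃ + (m : ℤ) * b₃) := by
    rw [heW]
    exact ((hce.mul hw0 (h₃'.zpow a)).mul hw0 (hb₃.pow m))
  have e3 := Fermat.Agent.S36.H586.IsOrd.unique hw0 hwlt k3 k3'
  refine ⟨b₁ - b₃, ?_⟩
  linear_combination e1 - e3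

end Fermat.Agent.S59.LoSqC.H305

end

end
-- ===== PACK-END S59/LoSqC/H305/SlopeCore.lean

-- ===== PACK-BEGIN S59/LoSqC/H305/SlopeJ.lean
section






/-!
# S59 moonshot, cell (C) LO-SQ, leaf **W-SLOPE** — part 4: the `J`-form  (helper305, OFF-MAIN)

`G ≤ Gal(ℚ̄/ℚ)` a subgroup, `E = ℚ̄^G` (for (C): `G = I_P`, `E` the inertia field), `P` a place of
`ℚ̄` over `q`, `N` ANY level, `V∞` the Gauss valuation ring of `F_E(N)` (a DVR with uniformiser
`w`), `V₀ = V∞ ∘ W` (`W` the Fricke involution).  In the notation of `S36/Mod3/Spec.lean`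
(`Objs`): `V∞ = V₁`, `V₀ = V₃` at level `N = M q q`.

* `kummer_hecke_E305` : if `ι y` is a Kummer generator (exponent `m`) of a class `x` with
  `T_ℓ x = a • x`, then `T_ℓ y = c · y ^ a · h ^ m` with `c ∈ Eˣ`, `h ∈ F_E(N)ˣ`
  (HECKE-FUN `H398` + `S35.H909.exists_pow_eq_of_ord` + descent `H756.descend_const_mul_pow`);
* **`slope_zero305`** (W-SLOPE): `x` a Hecke eigenclass for a NON-EISENSTEIN system `a` modulo
  `p`, `ι y` a Kummer generator of `x` of exponent `p ^ n`, `a₁`, `a₃` the orders of `y` along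
  `V∞`, `V₀`.  Then `p ^ n ∣ a₁ - a₃`.
-/

set_option autoImplicit false
set_option linter.style.haveILetI false
set_option linter.unusedSectionVars false
set_option synthInstance.maxHeartbeats 400000
set_option maxHeartbeats 1600000

noncomputable section

namespace Fermat.Agent.S59.LoSqC.H305

open ModularCurve AlgebraicCurve HahnSeries
open Fermat.Agent.A2.Mod
open Fermat.Agent.A2.T1.H669 (iota)
open Fermat.Agent.S36.Eng (UnitAt UnifAt)
open Fermat.Agent.S36.H586 (IsOrd)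
open Fermat.Agent.Ribet.H884 (IsKummerGen)
open Fermat.Agent.Ribet.H944.Wall (EigenAt NonEisAway)

variable (G : Subgroup (_root_.Fermat.Agent.A2.Mod.Qb ≃ₐ[ℚ] _root_.Fermat.Agent.A2.Mod.Qb)) (N : ℕ) [NeZero N]

/-- `ι (T_ℓ y)` is a Kummer generator of `T_ℓ x` if `ι y` is a Kummer generator of `x`. -/
theorem isKummerGen_heckeNormE305 (E : IntermediateField ℚ _root_.Fermat.Agent.A2.Mod.Qb) (ℓ : Nat.Primes)
    [NeZero (ℓ : ℕ)] (hℓN : ¬ (ℓ : ℕ) ∣ N) (m : ℕ) (y : FE E N) (x : JZero N)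
    (hK : IsKummerGen N m (iota E (modularFunctionFieldFull N) y) x) :
    IsKummerGen N m (iota E (modularFunctionFieldFull N) (heckeNormE E N ℓ y))
      (heckeOperatorBar N ℓ x) := by
  obtain ⟨g, hg, hgK⟩ := Fermat.Agent.Ribet.H398.heckeFun N ℓ hℓN
    (iota E (modularFunctionFieldFull N) y)
  have e : iota E (modularFunctionFieldFull N) (heckeNormE E N ℓ y) = g := by
    apply Subtype.ext
    rw [hg]
    show coeffMap (algebraMap E _root_.Fermat.Agent.A2.Mod.Qb) ((heckeNormE E N ℓ y : FE E N) : LaurentSeries E) = _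
    rw [coe_heckeNormE305 E N ℓ ℓ.2 hℓN, Fermat.Agent.S37.H400.coeffMap_kronNorm]
    rfl
  rw [e]
  exact hgK m x hK

local notation "EG" => IntermediateField.fixedField G
local notation "ιG" => iota (IntermediateField.fixedField G) (modularFunctionFieldFull N)

/-- **Hecke eigen-relation for Kummer generators over `E = ℚ̄^G`.** -/
theorem kummer_hecke_E305 (ℓ : Nat.Primes) [NeZero (ℓ : ℕ)] (hℓN : ¬ (ℓ : ℕ) ∣ N)
    (m : ℕ) (hm : 0 < m) (y : FE EG N) (x : JZero N) (a : ℤ)
    (hK : IsKummerGen N m (ιG y) x)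
    (hT : heckeOperatorBar N ℓ x = a • x) :
    ∃ (c : EG) (h : FE EG N), c ≠ 0 ∧ h ≠ 0 ∧
      heckeNormE EG N ℓ y = algebraMap EG (FE EG N) c * y ^ a * h ^ m := by
  have hK1 := isKummerGen_heckeNormE305 N EG ℓ hℓN m y x hK
  rw [hT] at hK1
  obtain ⟨hy0, D, hD, hordy⟩ := hK
  obtain ⟨hT0, D₁, hD₁, hord1⟩ := hK1
  have hy0' : y ≠ 0 := fun h => hy0 (by rw [h, map_zero])
  -- the divisor `D₁ - a D` is principal
  have h0 : Pic0.mk (D₁ - a • D) = (0 : JZero N) := by
    have : Pic0.mk (D₁ - a • D) = Pic0.mk D₁ - a • Pic0.mk D := rfl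
    rw [this, hD₁, hD, sub_self]
  have hprin := (QuotientAddGroup.eq_zero_iff (D₁ - a • D)).1 h0
  rw [AddSubgroup.mem_addSubgroupOf] at hprin
  obtain ⟨b, hb, hbD⟩ := hprin
  -- the quotient `u = T_ℓ y / y ^ a`
  have hιu : ιG (heckeNormE EG N ℓ y * (y ^ a)⁻¹) =
      ιG (heckeNormE EG N ℓ y) * ((ιG y) ^ a)⁻¹ := by
    rw [map_mul, map_inv₀, map_zpow₀]
  have hιu0 : ιG (heckeNormE EG N ℓ y * (y ^ a)⁻¹) ≠ 0 := by
    rw [hιu]
    exact mul_ne_zero hT0 (inv_ne_zero (zpow_ne_zero a hy0))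
  have hord : ∀ v : Place _root_.Fermat.Agent.A2.Mod.Qb (modularFunctionFieldBar N),
      v.ord (ιG (heckeNormE EG N ℓ y * (y ^ a)⁻¹)) = (m : ℤ) * v.ord b := by
    intro v
    rw [hιu, v.ord_mul hT0 (inv_ne_zero (zpow_ne_zero a hy0)), v.ord_inv, v.ord_zpow, hord1,
      hordy, ← hbD v]
    simp only [AddSubgroupClass.coe_sub, Finsupp.sub_apply]
    have : ((a • D : Divisor.degZero (K := _root_.Fermat.Agent.A2.Mod.Qb) (F := modularFunctionFieldBar N)) :
        Divisor _root_.Fermat.Agent.A2.Mod.Qb (modularFunctionFieldBar N)) v = a * (D : Divisor _root_.Fermat.Agent.A2.Mod.Qb _) v := by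
      simp [Finsupp.smul_apply]
    rw [this]
    ring
  obtain ⟨b', hb', hub'⟩ := Fermat.Agent.S35.H909.exists_pow_eq_of_ord N m hm hιu0 hb hord
  obtain ⟨c₁, h₁, hc₁, hh₁, he⟩ := Fermat.Agent.S36.H756.descend_const_mul_pow G hm
    (heckeNormE EG N ℓ y * (y ^ a)⁻¹) 1 b'
    one_ne_zero hb' (by rw [map_one, one_mul]; exact hub')
  refine ⟨c₁, h₁, hc₁, hh₁, ?_⟩
  have hya : y ^ a ≠ 0 := zpow_ne_zero a hy0'
  have : heckeNormE EG N ℓ y = (heckeNormE EG N ℓ y * (y ^ a)⁻¹) * y ^ a := by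
    rw [mul_assoc, inv_mul_cancel₀ hya, mul_one]
  rw [this, he]
  ring

/-- **W-SLOPE.**  The slope `a₁ - a₃` of an `E`-rational Kummer generator (exponent `p ^ n`) of a
Hecke eigenclass with NON-EISENSTEIN eigenvalues vanishes modulo `p ^ n`. -/
theorem slope_zero305 (P : ValuationSubring _root_.Fermat.Agent.A2.Mod.Qb) {q : ℕ} (hq : q.Prime) (hP : P.LiesOverPrime q)
    {p : ℕ} (hp : p.Prime) (n : ℕ)
    {V : ValuationSubring (FE EG N)} (hV : IsVinf P EG N V) (hdvr : IsDiscreteValuationRing V)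
    {W : FE EG N ≃ₐ[EG] FE EG N} (hW : IsFricke EG N W)
    (w : EG) (hw : UnifAt V (algebraMap EG (FE EG N) w))
    (S : Finset ℕ) (a : ℕ → ℤ) (hNE : NonEisAway p a)
    (x : JZero N) (hx : EigenAt N S a x)
    (y : FE EG N) (hK : IsKummerGen N (p ^ n) (ιG y) x)
    (a₁ a₃ : ℤ) (h₁ : IsOrd V (algebraMap EG (FE EG N) w) y a₁)
    (h₃ : IsOrd (V.comap (W : FE EG N →+* FE EG N)) (algebraMap EG (FE EG N) w) y a₃) :
    ((p ^ n : ℕ) : ℤ) ∣ a₁ - a₃ := by
  obtain ⟨ℓ, hℓ, hℓS, hℓne⟩ := hNE (S ∪ {q} ∪ N.primeFactors)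
  have hℓS' : ℓ ∉ S := fun h => hℓS (by simp [h])
  have hℓq : ℓ ≠ q := fun h => hℓS (by simp [h])
  have hℓN : ¬ ℓ ∣ N := fun h =>
    hℓS (by
      have : ℓ ∈ N.primeFactors := Nat.mem_primeFactors.2 ⟨hℓ, h, NeZero.ne N⟩
      simp [this])
  haveI : NeZero ℓ := ⟨hℓ.ne_zero⟩
  haveI : NeZero ((⟨ℓ, hℓ⟩ : Nat.Primes) : ℕ) := ⟨hℓ.ne_zero⟩
  have hT := hx ⟨ℓ, hℓ⟩ hℓS'
  obtain ⟨c, h, hc, hh, he⟩ := kummer_hecke_E305 G N ⟨ℓ, hℓ⟩ hℓN (p ^ n)
    (pow_pos hp.pos n) y x (a ℓ) hK hT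
  have hdiv := slope_core305 EG N ℓ P hq hP hℓ hℓq hℓN hV hdvr hW w hw y a₁ a₃ h₁ h₃
    (a ℓ) (p ^ n) c h hc hh he
  have hpz : Prime (p : ℤ) := Nat.prime_iff_prime_int.mp hp
  have hnd : ¬ (p : ℤ) ∣ ((ℓ : ℤ) + 1) - a ℓ := by
    intro hd
    apply hℓne
    have := (dvd_neg (a := (p : ℤ))).2 hd
    rwa [neg_sub] at this
  have hcop : IsCoprime (((p ^ n : ℕ)) : ℤ) (((ℓ : ℤ) + 1) - a ℓ) := by
    rw [Nat.cast_pow]
    exact IsCoprime.pow_left ((Prime.coprime_iff_not_dvd hpz).2 hnd)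
  exact hcop.dvd_of_dvd_mul_left hdiv

end Fermat.Agent.S59.LoSqC.H305

end

end
-- ===== PACK-END S59/LoSqC/H305/SlopeJ.lean

-- ===== PACK-BEGIN S59/LoSqC/H305/SlopeLeaf.lean
section





/-!
# S59 moonshot, cell (C) LO-SQ, leaf **W-SLOPE** = `LoSqC.SlopeJStatement`, VERBATIM
# (helper305, OFF-MAIN)

`slopeJ305 : Fermat.Agent.S59.LoSqC.SlopeJStatement` (frozen in `S59/LoSqC/Spec.lean`,
origin/helper885@bf319b02f), UNCONDITIONAL: from `slope_zero305` (`SlopeJ.lean`), the MOD3 leaf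
VAL on main (`Mod3.H370.leafVal`: `V₁`, `V₃` are DVRs with uniformiser `w`) and UNR
(`Eng.inertiaFieldStatement`).  The hypotheses `p ≠ 2`, `p ∣ q + 1`, `q ≠ 2`, `p • x = 0` are not
used.
-/

set_option autoImplicit false
set_option linter.style.haveILetI false
set_option linter.unusedSectionVars false
set_option linter.unusedVariables false
set_option synthInstance.maxHeartbeats 400000
set_option maxHeartbeats 1600000

noncomputable section

namespace Fermat.Agent.S59.LoSqC.H305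

open ModularCurve AlgebraicCurve
open Fermat.Agent.S36 Fermat.Agent.S36.Eng
open Fermat.Agent.Ribet.H944.Wall

/-- **W-SLOPE** (`LoSqC.SlopeJStatement`, verbatim). -/
theorem slopeJ305 : Fermat.Agent.S59.LoSqC.SlopeJStatement := by
  intro M q p _ _ _ hq hqM hneat hq2 hp hp2 hpq hpq1 A hA x hx S a hNE hEig w hw
    V₁' V₂' V₁ V₂ V₃ W' W hObj f hf
  have hstd : Mod3.Std A (inertiaFldC A) M q w :=
    ⟨hq, hqM, hA, Eng.inertiaFieldStatement q hq A hA, hneat, hw⟩
  have hVal := Mod3.H370.leafVal A (inertiaFldC A) M q w hstd V₁' V₂' V₁ V₂ V₃ W' W hObj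
  haveI := hVal.dvr₁
  haveI := hVal.dvr₃
  obtain ⟨hf0, D, hD, hord⟩ := hf
  obtain ⟨a₁, h₁⟩ := H586.exists_isOrd_of_unifAt V₁ hVal.unif₁ f hf0
  obtain ⟨a₃, h₃⟩ := H586.exists_isOrd_of_unifAt V₃ hVal.unif₃ f hf0
  refine ⟨a₁, a₃, (H586.isOrd_iff_unitAt hVal.unif₁.1 f a₁).1 h₁,
    (H586.isOrd_iff_unitAt hVal.unif₃.1 f a₃).1 h₃, ?_⟩
  have hK : Fermat.Agent.Ribet.H884.IsKummerGen (M * q * q) (p ^ 1)
      (A2.T1.H669.iota (inertiaFldC A) (modularFunctionFieldFull (M * q * q)) f) x := by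
    refine ⟨A2.T1.H669.iota_ne_zero _ _ hf0, D, hD, fun v => ?_⟩
    rw [pow_one]
    exact hord v
  have h₃' : H586.IsOrd (V₁.comap (W : A2.Mod.FE (inertiaFldC A) (M * q * q) →+*
      A2.Mod.FE (inertiaFldC A) (M * q * q)))
      (algebraMap (inertiaFldC A) (A2.Mod.FE (inertiaFldC A) (M * q * q)) (w : inertiaFldC A))
      f a₃ := by
    rw [← hObj.vzero]
    exact h₃
  have key := slope_zero305 (A.inertiaSubgroupIn ℚ) (M * q * q) A hq hA hp 1 hObj.vinf
    hVal.dvr₁ hObj.fricke (w : inertiaFldC A) hVal.unif₁ S a hNE x hEig f hK a₁ a₃ h₁ h₃'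
  simpa using key

end Fermat.Agent.S59.LoSqC.H305

end

end
-- ===== PACK-END S59/LoSqC/H305/SlopeLeaf.lean

-- ===== PACK-BEGIN S59/LoSqC/H967/CondPDiv.lean
section



/-!
# S59 moonshot, cell (C) LO-SQ, leaf COND-PDIV (helper967, OFF-MAIN)

The dictionary `CondW → PDivSeries` needed by the producer of `RSurj1E`
(`S59/LoSqC/H987/LevelWall.lean`, helper987) before it can call the J-form of R-SURJ1
(`S59/LoSqC/H296/RedSurj.lean`, helper296).

`A` a valuation subring of `ℚ̄` over `q`, `q ∤ M`, `E` a level with `R_E = A ∩ E` a discrete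
valuation ring, `V` the Gauss valuation ring of `F_{Mq,E}` (`A2.Mod.IsVinf`), `k` the residue field
of `A`, `F_k = k(X₀(M))`.

* `ResPair967 A x s` : the `A`-integral quotient `x = U₁ / U₂` (`U₂` primitive) has residue
  `s = Ū₁ / Ū₂` (`s = 0` allowed); a partial ring homomorphism `x ↦ s`.
* `compRing967 hq hqM hA hdvr hV Q` : for a place `Q` of `F_k`, the composite valuation ring
  `W_Q = {y ∈ V | res y ∈ O_Q}`, a valuation subring of `F_{Mq,E}` with `W_Q ≤ V`, `R_E ⊆ W_Q`.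
* **`pDivSeries_of_condW967`** : `b` a unit of `V` such that for every valuation subring
  `W ≤ V` containing `R_E` one has `b = v · h ^ m · (1 + 𝔪_V)` with `v ∈ Wˣ`, `h ∈ Vˣ`
  (this is `H987.CondW R_E m V b`, written unfolded), `ρ` a reduction of `b`
  (`H997.IsRedSer`)  ⟹  `H884.PDivSeries m M ρ`.
* **`pDivSeries_of_condW_zero967`** : the same on the `0`-component `V₀ = V ∘ W'`
  (`W'` a Fricke involution), for `ρ` a reduction of `W' b`.
* `exists_isRedSer967` : reductions of nonzero elements exist.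
-/

set_option autoImplicit false
set_option linter.unusedSectionVars false
set_option linter.unusedVariables false
set_option linter.style.haveILetI false
set_option synthInstance.maxHeartbeats 400000
set_option maxHeartbeats 1600000

noncomputable section

namespace Fermat.Agent.S59.LoSqC.H967

open AlgebraicCurve ModularCurve HahnSeries
open Fermat.Agent.S24 Fermat.Agent.A2.H708 Fermat.Agent.A2.H528
open Fermat.Agent.A2 Fermat.Agent.A2.Mod Fermat.Agent.S18.H602
open Fermat.Agent.Ribet.H884 Fermat.Agent.Ribet.H997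

/-! ## The residue relation on series over `ℚ̄` -/

section ResPair

variable {A : ValuationSubring Kbar}

/-- `x = U₁ / U₂` with `U₁, U₂` `A`-integral, `U₂` primitive, and `s = Ū₁ / Ū₂`. -/
def ResPair967 (A : ValuationSubring Kbar) (x : LaurentSeries Kbar)
    (s : LaurentSeries (kA A)) : Prop :=
  ∃ U₁ U₂ : LaurentSeries A, red A U₂ ≠ 0 ∧ x * incl A U₂ = incl A U₁ ∧
    s * red A U₂ = red A U₁

theorem ResPair967.unique {x : LaurentSeries Kbar} {s s' : LaurentSeries (kA A)}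
    (h : ResPair967 A x s) (h' : ResPair967 A x s') : s = s' := by
  obtain ⟨U₁, U₂, h₂, he, hs⟩ := h
  obtain ⟨U₁', U₂', h₂', he', hs'⟩ := h'
  have key : incl A (U₁ * U₂') = incl A (U₁' * U₂) := by
    rw [map_mul, map_mul, ← he, ← he']
    ring
  have h1 := congrArg (red A) (incl_injective A key)
  rw [map_mul, map_mul, ← hs, ← hs'] at h1
  have h3 : (s - s') * (red A U₂ * red A U₂') = 0 := by linear_combination h1
  rcases mul_eq_zero.mp h3 with h | h
  · exact sub_eq_zero.mp h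
  · exact absurd h (mul_ne_zero h₂ h₂')

theorem ResPair967.zero : ResPair967 A 0 0 :=
  ⟨0, 1, by rw [map_one]; exact one_ne_zero, by rw [zero_mul, map_zero],
    by rw [zero_mul, map_zero]⟩

theorem ResPair967.one : ResPair967 A 1 1 :=
  ⟨1, 1, by rw [map_one]; exact one_ne_zero, by rw [one_mul], by rw [one_mul]⟩

theorem ResPair967.add {x x' : LaurentSeries Kbar} {s s' : LaurentSeries (kA A)}
    (h : ResPair967 A x s) (h' : ResPair967 A x' s') : ResPair967 A (x + x') (s + s') := by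
  obtain ⟨U₁, U₂, h₂, he, hs⟩ := h
  obtain ⟨U₁', U₂', h₂', he', hs'⟩ := h'
  refine ⟨U₁ * U₂' + U₁' * U₂, U₂ * U₂', ?_, ?_, ?_⟩
  · rw [map_mul]; exact mul_ne_zero h₂ h₂'
  · rw [map_add, map_mul, map_mul, map_mul, ← he, ← he']
    ring
  · rw [map_add, map_mul, map_mul, map_mul, ← hs, ← hs']
    ring

theorem ResPair967.mul {x x' : LaurentSeries Kbar} {s s' : LaurentSeries (kA A)}
    (h : ResPair967 A x s) (h' : ResPair967 A x' s') : ResPair967 A (x * x') (s * s') := by
  obtain ⟨U₁, U₂, h₂, he, hs⟩ := h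
  obtain ⟨U₁', U₂', h₂', he', hs'⟩ := h'
  refine ⟨U₁ * U₁', U₂ * U₂', ?_, ?_, ?_⟩
  · rw [map_mul]; exact mul_ne_zero h₂ h₂'
  · rw [map_mul, map_mul, ← he, ← he']
    ring
  · rw [map_mul, map_mul, ← hs, ← hs']
    ring

theorem ResPair967.neg {x : LaurentSeries Kbar} {s : LaurentSeries (kA A)}
    (h : ResPair967 A x s) : ResPair967 A (-x) (-s) := by
  obtain ⟨U₁, U₂, h₂, he, hs⟩ := h
  exact ⟨-U₁, U₂, h₂, by rw [map_neg, ← he, neg_mul], by rw [map_neg, ← hs, neg_mul]⟩

theorem ResPair967.pow {x : LaurentSeries Kbar} {s : LaurentSeries (kA A)}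
    (h : ResPair967 A x s) (n : ℕ) : ResPair967 A (x ^ n) (s ^ n) := by
  induction n with
  | zero => rw [pow_zero, pow_zero]; exact ResPair967.one
  | succ n ih => rw [pow_succ, pow_succ]; exact ih.mul h

theorem ResPair967.inv {x : LaurentSeries Kbar} {s : LaurentSeries (kA A)}
    (h : ResPair967 A x s) (hs0 : s ≠ 0) : ResPair967 A x⁻¹ s⁻¹ := by
  obtain ⟨U₁, U₂, h₂, he, hs⟩ := h
  have h₁ : red A U₁ ≠ 0 := by rw [← hs]; exact mul_ne_zero hs0 h₂
  have hU₁ : incl A U₁ ≠ 0 := incl_ne_zero A (ne_zero_of_red_ne_zero A h₁)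
  have hx0 : x ≠ 0 := by
    rintro rfl
    rw [zero_mul] at he
    exact hU₁ he.symm
  refine ⟨U₂, U₁, h₁, ?_, ?_⟩
  · rw [← he]
    field_simp
  · rw [← hs]
    field_simp

theorem ResPair967.const (a : A) :
    ResPair967 A (cst (a : Kbar)) (HahnSeries.C (IsLocalRing.residue A a)) := by
  refine ⟨cstA A a, 1, by rw [map_one]; exact one_ne_zero, ?_, ?_⟩
  · rw [map_one, mul_one, incl_cstA]
  · rw [map_one, mul_one, red_cstA]
    rfl

theorem ResPair967.isRedSer {x : LaurentSeries Kbar} {s : LaurentSeries (kA A)}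
    (h : ResPair967 A x s) (hs0 : s ≠ 0) : IsRedSer A x s := by
  obtain ⟨U₁, U₂, h₂, he, hs⟩ := h
  have h₁ : red A U₁ ≠ 0 := by rw [← hs]; exact mul_ne_zero hs0 h₂
  exact ⟨1, U₁, U₂, one_ne_zero, h₁, h₂, by rw [he, cst_one, one_mul], hs⟩

end ResPair

/-! ## Level `E` -/

section Level

variable {A : ValuationSubring Kbar} {E : IntermediateField ℚ Kbar} {N : ℕ}

/-- The series of `y ∈ F_{N,E}` over `ℚ̄`. -/
def xK967 (E : IntermediateField ℚ Kbar) (N : ℕ) (y : Mod.FE E N) : LaurentSeries Kbar :=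
  coeffMap (algebraMap E Kbar) (y : LaurentSeries E)

theorem xK967_mul (y y' : Mod.FE E N) : xK967 E N (y * y') = xK967 E N y * xK967 E N y' := by
  unfold xK967
  rw [IntermediateField.coe_mul, map_mul]

theorem xK967_add (y y' : Mod.FE E N) : xK967 E N (y + y') = xK967 E N y + xK967 E N y' := by
  unfold xK967
  rw [IntermediateField.coe_add, map_add]

theorem xK967_sub (y y' : Mod.FE E N) : xK967 E N (y - y') = xK967 E N y - xK967 E N y' := by
  unfold xK967
  have h : ((y - y' : Mod.FE E N) : LaurentSeries E) =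
      (y : LaurentSeries E) - (y' : LaurentSeries E) := rfl
  rw [h, map_sub]

theorem xK967_neg (y : Mod.FE E N) : xK967 E N (-y) = -xK967 E N y := by
  unfold xK967
  rw [IntermediateField.coe_neg, map_neg]

theorem xK967_one : xK967 E N 1 = 1 := by
  unfold xK967
  rw [IntermediateField.coe_one, map_one]

theorem xK967_zero : xK967 E N 0 = 0 := by
  unfold xK967
  rw [IntermediateField.coe_zero, map_zero]

theorem xK967_inv (y : Mod.FE E N) : xK967 E N y⁻¹ = (xK967 E N y)⁻¹ := by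
  unfold xK967
  rw [IntermediateField.coe_inv, map_inv₀]

theorem xK967_pow (y : Mod.FE E N) (n : ℕ) : xK967 E N (y ^ n) = xK967 E N y ^ n := by
  unfold xK967
  rw [IntermediateField.coe_pow, map_pow]

theorem xK967_algebraMap (e : E) :
    xK967 E N (algebraMap E (Mod.FE E N) e) = cst (algebraMap E Kbar e) := by
  unfold xK967
  exact coeffMap_algebraMap' (algebraMap E Kbar) e

theorem xK967_mem (y : Mod.FE E N) : xK967 E N y ∈ modularFunctionFieldBar N :=
  coeffMap_mem_laurentBaseChange (modularFunctionFieldFull N) _ y.2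

theorem xK967_eq_zero_iff (y : Mod.FE E N) : xK967 E N y = 0 ↔ y = 0 := by
  constructor
  · intro h
    by_contra hy
    have h1 : xK967 E N y * xK967 E N y⁻¹ = 1 := by
      rw [← xK967_mul, mul_inv_cancel₀ hy, xK967_one]
    rw [h, zero_mul] at h1
    exact zero_ne_one h1
  · rintro rfl
    exact xK967_zero

/-- A residue pair over `A` forces Gauss-integrality at the level `E`. -/
theorem mem_of_resPair967 {V : ValuationSubring (Mod.FE E N)} (hV : Mod.IsVinf A E N V)
    (hdvr : IsDiscreteValuationRing (Mod.RE A E)) {y : Mod.FE E N}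
    {s : LaurentSeries (kA A)} (h : ResPair967 A (xK967 E N y) s) : y ∈ V := by
  haveI := hdvr
  by_cases hy : y = 0
  · rw [hy]; exact V.zero_mem
  have hy0 : (y : LaurentSeries E) ≠ 0 := fun h0 => hy (Subtype.ext h0)
  obtain ⟨c, T₁, T₂, hc, t₁, t₂, hm₁, hm₂, hT⟩ :=
    exists_normal_form (A := Mod.RE A E) (intGen_full N)
      (attainsMax_of_isNoetherianRing (Mod.RE A E) (modularFunctionFieldFull N)) y.2 hy0
  have hTK : xK967 E N y * incl A (upA A E T₂) =
      cst (algebraMap E Kbar c) * incl A (upA A E T₁) := by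
    have := congrArg (coeffMap (algebraMap E Kbar)) hT
    rw [map_mul, map_mul, coeffMap_algebraMap', ← incl_upA, ← incl_upA] at this
    exact this
  obtain ⟨U₁, U₂, h₂, he, -⟩ := h
  have t₁A := red_upA_ne_zero E t₁
  have hcross : cst (algebraMap E Kbar c) * incl A (upA A E T₁ * U₂) =
      incl A (U₁ * upA A E T₂) := by
    rw [map_mul, map_mul, ← mul_assoc, ← hTK, ← he]
    ring
  have hp1 : red A (upA A E T₁ * U₂) ≠ 0 := by rw [map_mul]; exact mul_ne_zero t₁A h₂
  have hcA : algebraMap E Kbar c ∈ A := mem_of_cst_mul_prim A hp1 hcross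
  have hcR : c ∈ Mod.RE A E := hcA
  exact (hV y).mpr ((isGaussInt_iff_of_normal_form t₁ t₂ hm₂ hT).mpr hcR)

/-- Elements of `V` have a residue. -/
theorem exists_resPair967 {V : ValuationSubring (Mod.FE E N)} (hV : Mod.IsVinf A E N V)
    {y : Mod.FE E N} (hy : y ∈ V) : ∃ s : LaurentSeries (kA A), ResPair967 A (xK967 E N y) s := by
  obtain ⟨U₁, U₂, h0, -, he⟩ := (hV y).mp hy
  have h₂ := red_upA_ne_zero E h0
  refine ⟨red A (upA A E U₁) * (red A (upA A E U₂))⁻¹, upA A E U₁, upA A E U₂, h₂, ?_, ?_⟩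
  · have := congrArg (coeffMap (algebraMap E Kbar)) he
    rw [map_mul, ← incl_upA, ← incl_upA] at this
    exact this
  · rw [mul_assoc, inv_mul_cancel₀ h₂, mul_one]

/-- The residue of a non-unit is `0`. -/
theorem resPair_eq_zero967 {V : ValuationSubring (Mod.FE E N)} (hV : Mod.IsVinf A E N V)
    (hdvr : IsDiscreteValuationRing (Mod.RE A E)) {y : Mod.FE E N}
    (hy : V.valuation y < 1) {s : LaurentSeries (kA A)} (h : ResPair967 A (xK967 E N y) s) :
    s = 0 := by
  by_contra hs0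
  have h1 : ResPair967 A (xK967 E N y⁻¹) s⁻¹ := by
    rw [xK967_inv]
    exact h.inv hs0
  have h2 : y⁻¹ ∈ V := mem_of_resPair967 hV hdvr h1
  have h3 : V.valuation y⁻¹ ≤ 1 := (ValuationSubring.valuation_le_one_iff V _).2 h2
  have hy0 : y ≠ 0 := by
    rintro rfl
    rw [xK967_zero] at h
    exact hs0 (h.unique ResPair967.zero)
  have hv0 : V.valuation y ≠ 0 := (Valuation.ne_zero_iff _).mpr hy0
  rw [map_inv₀, inv_le_one₀ (zero_lt_iff.mpr hv0)] at h3
  exact absurd hy (not_lt.mpr h3)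

/-- The residue of a unit is nonzero. -/
theorem resPair_ne_zero967 {V : ValuationSubring (Mod.FE E N)} (hV : Mod.IsVinf A E N V)
    {y : Mod.FE E N} (hy : V.valuation y = 1) {s : LaurentSeries (kA A)}
    (h : ResPair967 A (xK967 E N y) s) : s ≠ 0 := by
  have hy0 : y ≠ 0 := by
    rintro rfl
    rw [map_zero] at hy
    exact zero_ne_one hy
  have hyi : y⁻¹ ∈ V := by
    rw [← ValuationSubring.valuation_le_one_iff, map_inv₀, hy, inv_one]
  obtain ⟨s', hs'⟩ := exists_resPair967 hV hyi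
  have h1 : ResPair967 A 1 (s * s') := by
    have := h.mul hs'
    rwa [← xK967_mul, mul_inv_cancel₀ hy0, xK967_one] at this
  have h2 : s * s' = 1 := h1.unique ResPair967.one
  intro h0
  rw [h0, zero_mul] at h2
  exact zero_ne_one h2

end Level

/-! ## The composite valuation ring of a place of `k(X₀(M))` -/

section Comp

variable {A : ValuationSubring Kbar} {E : IntermediateField ℚ Kbar} {M q : ℕ} [NeZero M]
  [NeZero q]

/-- Residues of functions of level `M q` lie in `F_k = k(X₀(M))`. -/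
theorem resPair_mem_fullC967 (hq : q.Prime) (hqM : ¬ q ∣ M) (hA : A.LiesOverPrime q)
    {x : LaurentSeries Kbar} (hx : x ∈ modularFunctionFieldBar (M * q))
    {s : LaurentSeries (kA A)} (h : ResPair967 A x s) :
    s ∈ modularFunctionFieldFullC (kA A) M := by
  by_cases hs0 : s = 0
  · rw [hs0]; exact zero_mem _
  · exact isRedSer_mem_of_level_mul hq hqM hA hx (h.isRedSer hs0)

/-- The carrier of the composite ring `W_Q = {y ∈ V | res y ∈ O_Q}`. -/
def compSet967 (A : ValuationSubring Kbar) (E : IntermediateField ℚ Kbar) (M q : ℕ)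
    (Q : Place (kA A) (modularFunctionFieldFullC (kA A) M)) : Set (Mod.FE E (M * q)) :=
  {y | ∃ h : modularFunctionFieldFullC (kA A) M,
    ResPair967 A (xK967 E (M * q) y) (h : LaurentSeries (kA A)) ∧ h ∈ Q.toValuationSubring}

theorem compSet967_zero (Q : Place (kA A) (modularFunctionFieldFullC (kA A) M)) :
    (0 : Mod.FE E (M * q)) ∈ compSet967 A E M q Q :=
  ⟨0, by rw [xK967_zero]; exact ResPair967.zero, Q.toValuationSubring.zero_mem⟩

theorem compSet967_one (Q : Place (kA A) (modularFunctionFieldFullC (kA A) M)) :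
    (1 : Mod.FE E (M * q)) ∈ compSet967 A E M q Q :=
  ⟨1, by rw [xK967_one]; exact ResPair967.one, Q.toValuationSubring.one_mem⟩

theorem compSet967_mem_or_inv (hq : q.Prime) (hqM : ¬ q ∣ M) (hA : A.LiesOverPrime q)
    {V : ValuationSubring (Mod.FE E (M * q))} (hV : Mod.IsVinf A E (M * q) V)
    (Q : Place (kA A) (modularFunctionFieldFullC (kA A) M)) (y : Mod.FE E (M * q)) :
    y ∈ compSet967 A E M q Q ∨ y⁻¹ ∈ compSet967 A E M q Q := by
  have key : ∀ z : Mod.FE E (M * q), z ∈ V →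
      (z ∈ compSet967 A E M q Q ∨ z⁻¹ ∈ compSet967 A E M q Q) := by
    intro z hzV
    obtain ⟨s, hs⟩ := exists_resPair967 hV hzV
    have hmem := resPair_mem_fullC967 hq hqM hA (xK967_mem z) hs
    by_cases hs0 : s = 0
    · left
      refine ⟨0, ?_, Q.toValuationSubring.zero_mem⟩
      rw [hs0] at hs
      exact hs
    · rcases Q.toValuationSubring.mem_or_inv_mem ⟨s, hmem⟩ with h1 | h1
      · left
        exact ⟨⟨s, hmem⟩, hs, h1⟩
      · right
        refine ⟨(⟨s, hmem⟩ : modularFunctionFieldFullC (kA A) M)⁻¹, ?_, h1⟩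
        rw [xK967_inv, IntermediateField.coe_inv]
        exact hs.inv hs0
  rcases V.mem_or_inv_mem y with h | h
  · exact key y h
  · rcases key y⁻¹ h with h1 | h1
    · right; exact h1
    · left; rwa [inv_inv] at h1

/-- **The composite valuation ring** `W_Q = {y ∈ V | res y ∈ O_Q}`. -/
def compRing967 (hq : q.Prime) (hqM : ¬ q ∣ M) (hA : A.LiesOverPrime q)
    {V : ValuationSubring (Mod.FE E (M * q))} (hV : Mod.IsVinf A E (M * q) V)
    (Q : Place (kA A) (modularFunctionFieldFullC (kA A) M)) :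
    ValuationSubring (Mod.FE E (M * q)) where
  carrier := compSet967 A E M q Q
  mul_mem' := by
    rintro y y' ⟨h, hr, hQ⟩ ⟨h', hr', hQ'⟩
    refine ⟨h * h', ?_, Q.toValuationSubring.mul_mem _ _ hQ hQ'⟩
    rw [xK967_mul, IntermediateField.coe_mul]
    exact hr.mul hr'
  one_mem' := compSet967_one Q
  add_mem' := by
    rintro y y' ⟨h, hr, hQ⟩ ⟨h', hr', hQ'⟩
    refine ⟨h + h', ?_, Q.toValuationSubring.add_mem _ _ hQ hQ'⟩
    rw [xK967_add, IntermediateField.coe_add]
    exact hr.add hr'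
  zero_mem' := compSet967_zero Q
  neg_mem' := by
    rintro y ⟨h, hr, hQ⟩
    refine ⟨-h, ?_, Q.toValuationSubring.neg_mem _ hQ⟩
    rw [xK967_neg, IntermediateField.coe_neg]
    exact hr.neg
  mem_or_inv_mem' := compSet967_mem_or_inv hq hqM hA hV Q

theorem mem_compRing967_iff (hq : q.Prime) (hqM : ¬ q ∣ M) (hA : A.LiesOverPrime q)
    {V : ValuationSubring (Mod.FE E (M * q))} (hV : Mod.IsVinf A E (M * q) V)
    (Q : Place (kA A) (modularFunctionFieldFullC (kA A) M)) (y : Mod.FE E (M * q)) :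
    y ∈ compRing967 hq hqM hA hV Q ↔ y ∈ compSet967 A E M q Q := Iff.rfl

theorem compRing967_le (hq : q.Prime) (hqM : ¬ q ∣ M) (hA : A.LiesOverPrime q)
    (hdvr : IsDiscreteValuationRing (Mod.RE A E))
    {V : ValuationSubring (Mod.FE E (M * q))} (hV : Mod.IsVinf A E (M * q) V)
    (Q : Place (kA A) (modularFunctionFieldFullC (kA A) M)) :
    compRing967 hq hqM hA hV Q ≤ V := by
  rintro y ⟨h, hr, -⟩
  exact mem_of_resPair967 hV hdvr hr

/-- Constants of `k` are units of `O_Q`. -/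
theorem constFk967_mem (Q : Place (kA A) (modularFunctionFieldFullC (kA A) M)) (c : kA A) :
    (⟨HahnSeries.C c, C_mem_fullC _ M c⟩ : modularFunctionFieldFullC (kA A) M) ∈
      Q.toValuationSubring := by
  have h : (⟨HahnSeries.C c, C_mem_fullC _ M c⟩ : modularFunctionFieldFullC (kA A) M) =
      algebraMap (kA A) (modularFunctionFieldFullC (kA A) M) c := by
    apply Subtype.ext
    show HahnSeries.C c = algebraMap (kA A) (LaurentSeries (kA A)) c
    rw [algebraMap_laurentSeries_eq_single]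
    rfl
  rw [h]
  exact Q.algebraMap_mem' c

theorem algebraMap_mem_compRing967 (hq : q.Prime) (hqM : ¬ q ∣ M) (hA : A.LiesOverPrime q)
    {V : ValuationSubring (Mod.FE E (M * q))} (hV : Mod.IsVinf A E (M * q) V)
    (Q : Place (kA A) (modularFunctionFieldFullC (kA A) M)) (r : Mod.RE A E) :
    algebraMap E (Mod.FE E (M * q)) (r : E) ∈ compRing967 hq hqM hA hV Q := by
  refine ⟨⟨HahnSeries.C (IsLocalRing.residue A (toA' A E r)), C_mem_fullC _ M _⟩, ?_,
    constFk967_mem Q _⟩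
  rw [xK967_algebraMap]
  exact ResPair967.const (toA' A E r)

/-- The order of a unit of `O_Q` vanishes. -/
theorem ord_eq_zero_of_mul_eq_one967 {K F : Type*} [Field K] [Field F] [Algebra K F]
    (Q : Place K F) {g g' : F} (hg : g ∈ Q.toValuationSubring)
    (hg' : g' ∈ Q.toValuationSubring) (h : g * g' = 1) : Q.ord g = 0 := by
  have hu : IsUnit (⟨g, hg⟩ : Q.toValuationSubring) :=
    isUnit_iff_exists_inv.mpr ⟨⟨g', hg'⟩, Subtype.ext h⟩
  obtain ⟨u, hu⟩ := hu
  have := Q.ord_coe_unit u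
  rwa [hu] at this

/-- Reductions of nonzero elements exist (level `E`, Gauss normal form). -/
theorem exists_isRedSer967 {N : ℕ} (hdvr : IsDiscreteValuationRing (Mod.RE A E))
    {y : Mod.FE E N} (hy : y ≠ 0) :
    ∃ ρ : LaurentSeries (kA A), IsRedSer A (xK967 E N y) ρ := by
  haveI := hdvr
  have hy0 : (y : LaurentSeries E) ≠ 0 := fun h0 => hy (Subtype.ext h0)
  obtain ⟨c, T₁, T₂, hc, t₁, t₂, hm₁, hm₂, hT⟩ :=
    exists_normal_form (A := Mod.RE A E) (intGen_full N)
      (attainsMax_of_isNoetherianRing (Mod.RE A E) (modularFunctionFieldFull N)) y.2 hy0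
  have hTK : xK967 E N y * incl A (upA A E T₂) =
      cst (algebraMap E Kbar c) * incl A (upA A E T₁) := by
    have := congrArg (coeffMap (algebraMap E Kbar)) hT
    rw [map_mul, map_mul, coeffMap_algebraMap', ← incl_upA, ← incl_upA] at this
    exact this
  have t₁A := red_upA_ne_zero E t₁
  have t₂A := red_upA_ne_zero E t₂
  have hcK : algebraMap E Kbar c ≠ 0 := by
    rwa [Ne, map_eq_zero_iff _ (algebraMap E Kbar).injective]
  exact ⟨red A (upA A E T₁) * (red A (upA A E T₂))⁻¹, algebraMap E Kbar c, upA A E T₁,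
    upA A E T₂, hcK, t₁A, t₂A, hTK, by rw [mul_assoc, inv_mul_cancel₀ t₂A, mul_one]⟩

/-- **COND-PDIV, `∞`-component.**  If for every valuation subring `W ≤ V` containing `R_E` the
element `b` is `v · h ^ m · (1 + 𝔪_V)` with `v ∈ Wˣ`, `h ∈ Vˣ` (`= H987.CondW R_E m V b`,
unfolded), then every reduction `ρ` of `b` has `m ∣ ord_Q ρ` at every place `Q` of `k(X₀(M))`. -/
theorem pDivSeries_of_condW967 (hq : q.Prime) (hqM : ¬ q ∣ M) (hA : A.LiesOverPrime q)
    (hdvr : IsDiscreteValuationRing (Mod.RE A E))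
    {V : ValuationSubring (Mod.FE E (M * q))} (hV : Mod.IsVinf A E (M * q) V)
    {m : ℕ} {b : Mod.FE E (M * q)}
    (hc : ∀ W : ValuationSubring (Mod.FE E (M * q)), W ≤ V →
      (∀ r : Mod.RE A E, algebraMap (Mod.RE A E) (Mod.FE E (M * q)) r ∈ W) →
      ∃ h v : Mod.FE E (M * q), V.valuation h = 1 ∧ v ∈ W ∧ v⁻¹ ∈ W ∧
        V.valuation (b / (v * h ^ m) - 1) < 1)
    {ρ : LaurentSeries (kA A)} (hρ : IsRedSer A (xK967 E (M * q) b) ρ) :
    PDivSeries m M ρ := by
  have hρmem : ρ ∈ modularFunctionFieldFullC (kA A) M :=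
    isRedSer_mem_of_level_mul hq hqM hA (xK967_mem b) hρ
  have hρ0 : ρ ≠ 0 := by
    obtain ⟨c, U₁, U₂, -, h₁, h₂, -, hr⟩ := hρ
    intro h0
    rw [h0, zero_mul] at hr
    exact h₁ hr.symm
  refine ⟨⟨ρ, hρmem⟩, rfl, fun h0 => hρ0 (congrArg Subtype.val h0), fun Q => ?_⟩
  obtain ⟨h0, v, hh0, hvW, hviW, hz⟩ := hc (compRing967 hq hqM hA hV Q)
    (compRing967_le hq hqM hA hdvr hV Q) (fun r => algebraMap_mem_compRing967 hq hqM hA hV Q r)
  -- `v ≠ 0`, `h0 ≠ 0`
  have hv0 : v ≠ 0 := by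
    rintro rfl
    rw [zero_mul, div_zero, zero_sub, Valuation.map_neg, map_one] at hz
    exact lt_irrefl _ hz
  have hh00 : h0 ≠ 0 := by
    rintro rfl
    rw [map_zero] at hh0
    exact zero_ne_one hh0
  -- the residue of `v` is a unit of `O_Q`
  obtain ⟨gv, hgv, hgvQ⟩ := hvW
  obtain ⟨gv', hgv', hgvQ'⟩ := hviW
  have hprod : (gv : LaurentSeries (kA A)) * (gv' : LaurentSeries (kA A)) = 1 := by
    have h1 := hgv.mul hgv'
    rw [← xK967_mul, mul_inv_cancel₀ hv0, xK967_one] at h1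
    exact h1.unique ResPair967.one
  have hprod' : gv * gv' = 1 := Subtype.ext hprod
  have hordv : Q.ord gv = 0 := ord_eq_zero_of_mul_eq_one967 Q hgvQ hgvQ' hprod'
  have hgv0 : gv ≠ 0 := by
    rintro rfl
    rw [zero_mul] at hprod'
    exact zero_ne_one hprod'
  -- the residue of `h0`
  have hh0V : h0 ∈ V := by
    rw [← ValuationSubring.valuation_le_one_iff, hh0]
  obtain ⟨s0, hs0⟩ := exists_resPair967 hV hh0V
  have hs0mem := resPair_mem_fullC967 hq hqM hA (xK967_mem h0) hs0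
  have hs00 : s0 ≠ 0 := resPair_ne_zero967 hV hh0 hs0
  -- the residue of `z = b / (v h0 ^ m) - 1` is `0`
  have hzV : b / (v * h0 ^ m) - 1 ∈ V := by
    rw [← ValuationSubring.valuation_le_one_iff]
    exact hz.le
  obtain ⟨sz, hsz⟩ := exists_resPair967 hV hzV
  have hsz0 : sz = 0 := resPair_eq_zero967 hV hdvr hz hsz
  rw [hsz0] at hsz
  -- `b = v · h0 ^ m · (1 + z)`
  have hvh : v * h0 ^ m ≠ 0 := mul_ne_zero hv0 (pow_ne_zero _ hh00)
  have hb : b = v * h0 ^ m * (1 + (b / (v * h0 ^ m) - 1)) := by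
    field_simp
    ring
  have hRb : ResPair967 A (xK967 E (M * q) b) ((gv : LaurentSeries (kA A)) * s0 ^ m) := by
    have h1 := (hgv.mul (hs0.pow m)).mul (ResPair967.one.add hsz)
    rw [add_zero, mul_one, ← xK967_one (E := E) (N := M * q), ← xK967_add, ← xK967_pow,
      ← xK967_mul, ← xK967_mul, ← hb] at h1
    exact h1
  have hne : (gv : LaurentSeries (kA A)) * s0 ^ m ≠ 0 :=
    mul_ne_zero (fun h => hgv0 (Subtype.ext h)) (pow_ne_zero _ hs00)
  obtain ⟨u, hu0, hu⟩ := (hRb.isRedSer hne).unique hρ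
  -- the equation in `F_k`
  set cu : modularFunctionFieldFullC (kA A) M := ⟨HahnSeries.C u, C_mem_fullC _ M u⟩ with hcu
  set g0 : modularFunctionFieldFullC (kA A) M := ⟨s0, hs0mem⟩ with hg0
  have hel : (⟨ρ, hρmem⟩ : modularFunctionFieldFullC (kA A) M) = cu * (gv * g0 ^ m) := by
    apply Subtype.ext
    show ρ = HahnSeries.C u * ((gv : LaurentSeries (kA A)) * s0 ^ m)
    exact hu
  have hcu0 : cu ≠ 0 := by
    intro h
    have h1 : HahnSeries.C u = 0 := congrArg Subtype.val h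
    rw [map_eq_zero] at h1
    exact hu0 h1
  have hg00 : g0 ≠ 0 := fun h => hs00 (congrArg Subtype.val h)
  have hcui : cu * (⟨HahnSeries.C u⁻¹, C_mem_fullC _ M u⁻¹⟩ :
      modularFunctionFieldFullC (kA A) M) = 1 := by
    apply Subtype.ext
    show HahnSeries.C u * HahnSeries.C u⁻¹ = 1
    rw [← map_mul, mul_inv_cancel₀ hu0, map_one]
  have hordc : Q.ord cu = 0 :=
    ord_eq_zero_of_mul_eq_one967 Q (constFk967_mem Q u) (constFk967_mem Q u⁻¹) hcui
  have hpow : Q.ord (g0 ^ m) = (m : ℤ) * Q.ord g0 := by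
    rw [← zpow_natCast, Q.ord_zpow]
  rw [hel, Q.ord_mul hcu0 (mul_ne_zero hgv0 (pow_ne_zero _ hg00)),
    Q.ord_mul hgv0 (pow_ne_zero _ hg00), hordc, hordv, hpow, zero_add, zero_add]
  exact dvd_mul_right _ _

/-! ## The `0`-component -/

/-- Non-units of a pulled-back valuation ring. -/
theorem val_comap_lt_one_iff967 {F : Type*} [Field F] (V : ValuationSubring F) (W : F →+* F)
    (z : F) : (V.comap W).valuation z < 1 ↔ V.valuation (W z) < 1 := by
  rw [← ValuationSubring.mem_nonunits_iff, ← ValuationSubring.mem_nonunits_iff,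
    ValuationSubring.mem_nonunits_iff_or, ValuationSubring.mem_nonunits_iff_or,
    ValuationSubring.mem_comap, map_inv₀, map_eq_zero]

/-- **COND-PDIV, `0`-component** (`V₀ = V ∘ W'`, `W'` a Fricke involution): the same for the
reductions of `W' b`, i.e. (by `H997.iotaN_fricke`) for the reductions of `b` on the
`0`-component. -/
theorem pDivSeries_of_condW_zero967 (hq : q.Prime) (hqM : ¬ q ∣ M) (hA : A.LiesOverPrime q)
    (hdvr : IsDiscreteValuationRing (Mod.RE A E))
    {V V₀ : ValuationSubring (Mod.FE E (M * q))} (hV : Mod.IsVinf A E (M * q) V)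
    (W' : Mod.FE E (M * q) ≃ₐ[E] Mod.FE E (M * q))
    (hV₀ : V₀ = V.comap (W' : Mod.FE E (M * q) →+* Mod.FE E (M * q)))
    {m : ℕ} {b : Mod.FE E (M * q)}
    (hc : ∀ W : ValuationSubring (Mod.FE E (M * q)), W ≤ V₀ →
      (∀ r : Mod.RE A E, algebraMap (Mod.RE A E) (Mod.FE E (M * q)) r ∈ W) →
      ∃ h v : Mod.FE E (M * q), V₀.valuation h = 1 ∧ v ∈ W ∧ v⁻¹ ∈ W ∧
        V₀.valuation (b / (v * h ^ m) - 1) < 1)
    {ρ : LaurentSeries (kA A)} (hρ : IsRedSer A (xK967 E (M * q) (W' b)) ρ) :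
    PDivSeries m M ρ := by
  subst hV₀
  refine pDivSeries_of_condW967 hq hqM hA hdvr hV (b := W' b) ?_ hρ
  intro W₁ hW₁ hR
  obtain ⟨h, v, hh, hv, hvi, hz⟩ :=
    hc (W₁.comap (W' : Mod.FE E (M * q) →+* Mod.FE E (M * q)))
      (fun y hy => hW₁ hy)
      (fun r => by
        rw [ValuationSubring.mem_comap]
        have e : (W' : Mod.FE E (M * q) →+* Mod.FE E (M * q))
            (algebraMap (Mod.RE A E) (Mod.FE E (M * q)) r) =
            algebraMap (Mod.RE A E) (Mod.FE E (M * q)) r := W'.commutes (r : E)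
        rw [e]
        exact hR r)
  refine ⟨W' h, W' v, ?_, hv, ?_, ?_⟩
  · exact (val_comap_eq_one_iff V _ h).1 hh
  · have : (W' v)⁻¹ = (W' : Mod.FE E (M * q) →+* Mod.FE E (M * q)) v⁻¹ := (map_inv₀ _ _).symm
    rw [this]
    exact hvi
  · have h1 := (val_comap_lt_one_iff967 V _ _).1 hz
    have e : (W' : Mod.FE E (M * q) →+* Mod.FE E (M * q)) (b / (v * h ^ m) - 1) =
        W' b / (W' v * W' h ^ m) - 1 := by
      rw [map_sub, map_div₀, map_mul, map_pow, map_one]
      rfl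
    rw [e] at h1
    exact h1

end Comp

/-! ## Bridges to `IsRedInf` / `IsRedZero` -/

section Bridge

variable {A : ValuationSubring Kbar} {E : IntermediateField ℚ Kbar} {N : ℕ} [NeZero N]

theorem coe_iotaN967 (y : Mod.FE E N) :
    ((Mod.H553.iotaN E N y : modularFunctionFieldBar N) : LaurentSeries Kbar) =
      xK967 E N y := rfl

/-- Reductions on the `∞`-component of `ι y` = reductions of the series of `y`. -/
theorem isRedInf_iotaN_iff967 (y : Mod.FE E N) (ρ : LaurentSeries (kA A)) :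
    IsRedInf N A (Mod.H553.iotaN E N y) ρ ↔ IsRedSer A (xK967 E N y) ρ := Iff.rfl

/-- Reductions on the `0`-component of `ι y` = reductions of the series of `W' y`. -/
theorem isRedZero_iotaN_iff967 {W' : Mod.FE E N ≃ₐ[E] Mod.FE E N} (hW' : Mod.IsFricke E N W')
    (y : Mod.FE E N) (ρ : LaurentSeries (kA A)) :
    IsRedZero N A (Mod.H553.iotaN E N y) ρ ↔ IsRedSer A (xK967 E N (W' y)) ρ := by
  unfold IsRedZero
  rw [← iotaN_fricke hW' y]
  exact Iff.rfl

end Bridge

end Fermat.Agent.S59.LoSqC.H967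

end

end
-- ===== PACK-END S59/LoSqC/H967/CondPDiv.lean

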