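import Fermat.Agent.Pack.S59C.E5L3
import Fermat.Agent.Pack.S59C.E3L1
import Fermat.Agent.Pack.S59C.E11L0
import Fermat.Agent.Pack.S59C.E12L1
import Fermat.Agent.Pack.S59C.E12L0
import Fermat.Agent.Pack.S59C.E10L0
import Fermat.Agent.Pack.S59C.E2L2
import Fermat.Agent.Pack.S59C.E6L1
import Fermat.Agent.Pack.S59C.E8L1
import Fermat.Agent.Pack.S59C.E5L1
import Fermat.Agent.Pack.S43MC.G0E27L2
import Fermat.Agent.Pack.S59C.E7L2
import Fermat.Agent.Pack.S43MC.G0E23L3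
import Fermat.Agent.Pack.S43GC.G0E20L3
import Fermat.Agent.Pack.S43MC.G0E20L1
import Fermat.Agent.Pack.S59C.E10L1
import Fermat.Agent.Pack.S59C.E8L0
import Fermat.Agent.Pack.S43GC.G0E19L3
import Fermat.Agent.Pack.S43GC.G0E5L1
import Fermat.Agent.Pack.S43GC.G0E5L0
import Fermat.Agent.Pack.S43GC.G0E17L3
import Fermat.Agent.Pack.S43GC.G0E10L3
import Fermat.Agent.Pack.S59C.E0L0
import Fermat.Agent.Pack.S44C.G0E30L2
import Fermat.Agent.Pack.S43C.E3L2
import Fermat.Agent.Pack.S59C.E7L3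
import Fermat.Agent.Pack.S59C.E7L0
import Fermat.Agent.Pack.S43C.E3L3
import Fermat.Agent.Pack.S43GC.G0E11L1
import Fermat.Agent.Pack.S43C.E3L1
import Fermat.Agent.Pack.S59C.E8L3
import Fermat.Agent.Pack.S59C.E1L3
import Fermat.Agent.Pack.S59C.E11L1
import Fermat.Agent.Pack.S43MC.G0E21L0
import Fermat.Agent.Pack.S44C.G0E30L3
import Fermat.Agent.Pack.S44C.G0E27L2
import Fermat.Agent.Pack.S44C.G0E25L3
import Fermat.Agent.Pack.S43MC.G0E27L1
import Fermat.Agent.Pack.S44C.G0E17L1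
import Fermat.Agent.Pack.S44C.G0E9L2
import Fermat.Agent.Pack.S44C.G0E27L3
import Fermat.Agent.Pack.S44C.G0E28L2
import Fermat.Agent.Pack.S44C.G0E17L0
import Fermat.Agent.Pack.S59C.E12L3
import Fermat.Agent.Pack.S59C.E9L2
import Fermat.Agent.Pack.S44C.G0E26L3

set_option linter.all false

-- ===== PACK-BEGIN S59/Arch/Final.lean
section





















/-!
# Row S59 — FINAL WIRING with all closed cells plugged in (architect helper239, board v5.1)

What is OPEN in row S59 is exactly the list of hypotheses of `s59_of_open`: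

* `H239.S58Statement`              (row S58 = S35 (on main) + S36);
* `LevelOptStatement`              (cell LO: `H934.levelOpt_of` ⇐ LO-SQ, S38, S39, ResFlat; FlatPeu and
                                    ResUnram are on main);
* `DictStatement`                  (cell DICT);
* `MinRTPlusHStatement`            (cell TW);
* `TW.PkgStatement`                (cell NM: PKG; `TW.H659.pkg_of` reduces it to the frozen S33);
* `NMP.OrdDatumStatement`          (cell NMP: DATUM; `NMP.H935.ordDatum_of` reduces it to the frozen S33);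
* `NMP.SelStatement`, `NMP.BoundStepPStatement`, `NMP.LgcStatement`   (cell NMP: SEL-p, STEP-P, LGC).

Everything else (CR, COND, BC, RED, ID, GTW, RFD, RESG, RED-T, SEL, NM-ETA (IHARA2, OLD, ETAB, HK2, ADJ2,
BASE, PERF, STEP), NMP-BB, S53, S54, Coeff, Frobenius, eigenforms of characters) is on main and is plugged
in here.  Glue of the cell NMP: helper583's `NMP.nonMinPPlusH_of_leaves`.
-/

set_option autoImplicit false

namespace Fermat.Agent.S59.Arch

open Fermat.Agent.S59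

/-- The frozen S53 (on main) as `S53Statement`. -/
theorem s53Statement : S53Statement :=
  fun 𝒪 _ _ _ _ _ ρbar 𝒟 habs h𝒟 hbar hfin => Fermat.Agent.S53.result 𝒪 ρbar 𝒟 habs h𝒟 hbar hfin

/-- The frozen S54 (on main) as `S54Statement`. -/
theorem s54Statement : S54Statement :=
  fun D _ _ _ _ _ _ _ _ _ _ _ _ _ H hS h𝒟 hres => Fermat.Agent.S54.result D H hS h𝒟 hres

/-- **NM-ETA** (closed on main: helper585's assembly, helper563's OLD). -/
theorem etaAbsStatement : NM.EtaAbsStatement :=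
  H585.etaAbs_of_old H563.old563

/-- **Cell NM from its only open leaf** PKG. -/
theorem nonMinStepPlusH_of_open (hPKG : TW.PkgStatement) : NonMinStepPlusHStatement :=
  nonMinStepPlusH_of_leaves s53Statement s54Statement H659.sigmaCondStatement NMP.H437.redT
    G4.H547.red H686.resFrobOfDatum hPKG TW.H788.resGal H126.sel etaAbsStatement

/-- **Cell NMP from its open leaves** DATUM, SEL-p, STEP-P, LGC. -/
theorem nonMinPPlusH_of_open (hDAT : NMP.OrdDatumStatement) (hSEL : NMP.SelStatement)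
    (hSTEP : NMP.BoundStepPStatement) (hLGC : NMP.LgcStatement) : NonMinPPlusHStatement :=
  NMP.nonMinPPlusH_of_leaves s53Statement s54Statement H659.sigmaCondStatement hDAT hSEL
    NM.H709.etaOfBound (H585.bettiTarget_of_old H563.old563) hSTEP hLGC

/-- **The modularity lifting theorem (point form) from the open cells.** -/
theorem mlt2_of_open (hLO : LevelOptStatement) (hDICT : DictStatement)
    (hMin : MinRTPlusHStatement) (hNM : NonMinStepPlusHStatement)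
    (hNMP : NonMinPPlusHStatement) : SemistableMLT2Statement :=
  mlt2_of_plus H156.coeffStatement H127.curveRepStatement s53Statement s54Statement
    H686.residualOfAdic H686.residualId hLO hDICT H405.curveResidualHyp H601.residualBC
    H659.sigmaCondStatement hMin hNM hNMP

/-- **ROW S59 from its open cells.** -/
theorem s59_of_open (h58 : H239.S58Statement) (hLO : LevelOptStatement) (hDICT : DictStatement)
    (hMin : MinRTPlusHStatement) (hPKG : TW.PkgStatement)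
    (hDAT : NMP.OrdDatumStatement) (hSELp : NMP.SelStatement)
    (hSTEPp : NMP.BoundStepPStatement) (hLGC : NMP.LgcStatement) :
    H239.S59Statement :=
  H239.s59_of h58
    (H239.ml_of
      (rt_of_mlt2 H156.frobExistsStatement
        (mlt2_of_open hLO hDICT hMin (nonMinStepPlusH_of_open hPKG)
          (nonMinPPlusH_of_open hDAT hSELp hSTEPp hLGC)))
      H7.eigenformOfChar)

end Fermat.Agent.S59.Arch

end
-- ===== PACK-END S59/Arch/Final.lean

-- ===== PACK-BEGIN S55/E1/Lim/Base.lean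
section
/-
S55 engine E1 — block LIM, leaf LIM-BASE (helper474): a level trivialising `M` and
`N = M^∨(1)` and containing `μ_p`.  All proofs complete.
-/




set_option autoImplicit false

open CategoryTheory groupCohomology ExtCitation

namespace Fermat.Agent.S55.E1.Lim

open Fermat.Agent.S55.Tow Fermat.Agent.S55.E1

/-- **LIM-BASE.** -/
theorem limBase : LIMBaseSpec := by
  intro p _ _ S hpS M _ hM
  obtain ⟨F, hF, hgal, h1, h2, h3⟩ :=
    Fermat.Agent.S55.Bridge.exists_common_galois_level M S hpS hM.1 hM.2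
  refine ⟨H603.levelOfGalois F hF hgal, ?_, ?_, ?_⟩
  · apply Fermat.Agent.S55.Cap.H181.hasMu p S
    intro s hs
    have hχ : cycloChar p s = 1 := h2 s hs
    apply LinearMap.ext
    intro x
    show ((cycloChar p s : (ZMod p)ˣ) : ZMod p) * x = x
    rw [hχ, Units.val_one, one_mul]
  · intro s hs m
    have := h1 s hs
    rw [this]
    rfl
  · intro s hs n
    have := h3 s hs
    rw [this]
    rfl

end Fermat.Agent.S55.E1.Lim

end
-- ===== PACK-END S55/E1/Lim/Base.lean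

-- ===== PACK-BEGIN S55/E1/Lim/Lim4.lean
section
/-
S55 engine E1 — block LIM, leaf LIM4 (glue, helper474): `|Ш¹_F(N)| = |sha₁ S N|` for all large
levels, in the vocabulary of `E1/SpecLim.lean`.  The content is helper603's
`H603.exists_level_forall_card_sha1Fin_eq`; here: change of coefficient ring `𝔽_p → ℤ`.
All proofs complete.
-/




set_option autoImplicit false

open CategoryTheory groupCohomology ExtCitation

namespace Fermat.Agent.S55.E1.Lim

open Fermat.Agent.S55.Tow Fermat.Agent.S55.E1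

noncomputable section

variable {S : Finset Nat.Primes} {K : Type} [Field K] (A : Rep.{0, 0, 0} K GQ)

/-- Restriction to the decomposition group commutes with the change of coefficient ring. -/
lemma resAlong_eq_zero_iff (L : Level S) (q : Nat.Primes) (x : H1 (H603.toInt (H603.coeff A L))) :
    resAlong (L.decHom q) (cf A L) 1 x = 0 ↔
      H603.resDec₁ A L q (H603.H1IntEquiv (H603.coeff A L) x) = 0 := by
  have h := H603.H1IntEquiv_map (L.decHom q) (𝟙 (Rep.res (L.decHom q) (H603.coeff A L))) x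
  constructor
  · intro hx
    have hx' : (groupCohomology.map (L.decHom q) (H603.toIntHom (L.decHom q)
        (𝟙 (Rep.res (L.decHom q) (H603.coeff A L)))) 1).hom x = 0 := hx
    exact h.symm.trans ((congrArg _ hx').trans (map_zero _))
  · intro hx
    have h3 : H603.H1IntEquiv (Rep.res (L.decHom q) (H603.coeff A L))
        ((groupCohomology.map (L.decHom q) (H603.toIntHom (L.decHom q)
          (𝟙 (Rep.res (L.decHom q) (H603.coeff A L)))) 1).hom x) = 0 := h.trans hx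
    exact (AddEquiv.map_eq_zero_iff _).1 h3

/-- `x ∈ Ш¹_F` over `ℤ` iff its image lies in `Ш¹_F` over `K`. -/
lemma mem_shaFin_iff (L : Level S) (x : H1 (H603.toInt (H603.coeff A L))) :
    x ∈ shaFin (decS L) (cf A L) ↔
      H603.H1IntEquiv (H603.coeff A L) x ∈ H603.sha1Fin A L := by
  simp only [H603.sha1Fin, Submodule.mem_iInf, LinearMap.mem_ker]
  exact forall_congr' fun q => resAlong_eq_zero_iff A L q.1 x

/-- The two finite-level `Ш¹` have the same cardinality. -/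
lemma card_shaFin_eq (L : Level S) :
    Nat.card (shaFin (decS L) (cf A L)) = Nat.card (H603.sha1Fin A L) := by
  apply Nat.card_congr
  exact
    { toFun := fun x => ⟨H603.H1IntEquiv (H603.coeff A L) x.1, (mem_shaFin_iff A L x.1).1 x.2⟩
      invFun := fun y => ⟨(H603.H1IntEquiv (H603.coeff A L)).symm y.1,
        (mem_shaFin_iff A L _).2 (by rw [AddEquiv.apply_symm_apply]; exact y.2)⟩
      left_inv := fun x => Subtype.ext (AddEquiv.symm_apply_apply _ _)
      right_inv := fun y => Subtype.ext (AddEquiv.apply_symm_apply _ _) }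

end

/-- **LIM4.** -/
theorem lim4 : LIM4Spec := by
  intro p _ hp2 S hpS hF N _ L₀ hN
  have h2 : (2 : ZMod p) ≠ 0 := Fermat.Agent.S55.Bridge.two_ne_zero_zmod hp2
  have hfinH1 : Module.Finite (ZMod p) (continuousH1S S N) :=
    hF N ⟨L₀, fun s hs => LinearMap.ext fun n => hN s hs n⟩
  have hfin1 : Finite (continuousH1S S N) := Module.finite_of_finite (ZMod p)
  have hfin : Finite (sha₁ S N) := by
    apply Finite.of_injective
      (fun y : sha₁ S N => (⟨y.1, ((Fermat.Agent.S55.Bridge.mem_sha₁_iff S h2 N _).1 y.2).1⟩ :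
        continuousH1S S N))
    intro y y' h
    exact Subtype.ext (congrArg (fun t : continuousH1S S N => (t : H1 N)) h)
  refine ⟨hfin, ?_⟩
  obtain ⟨L₁, h₁, h⟩ := H603.exists_level_forall_card_sha1Fin_eq N h2 L₀ hN
  exact ⟨L₁, h₁, fun L hL => (card_shaFin_eq N L).trans (h L hL)⟩

end Fermat.Agent.S55.E1.Lim

end
-- ===== PACK-END S55/E1/Lim/Lim4.lean

-- ===== PACK-BEGIN S55/E1/H719/Lim12.lean
section




/-!
# S55 engine E1, block LIM: the producers `lim1 : LIM1Spec` and `lim2 : LIM2Spec` — helper719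

Exact Specs of `E1/SpecLim.lean`.
* `lim1` : `∂ : T' → K` (`dT`, ALG3 + ALG10-∂ + LIM-SES) is a level-wise bijective morphism of
  systems;
* `lim2` : `T' → T` (`cT`, composition with `C'(F) ⊆ C(F)`) is eventually injective (GD5, ALG2)
  and eventually surjective (GD5b).
-/

set_option autoImplicit false

namespace Fermat.Agent.S55.E1.H719

open Fermat.Agent.S55.Tow Fermat.Agent.S55.E1 Fermat.Agent.S55.E1.Lim

/-- For a good context, all the coefficient modules `N_F` are finite. -/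
lemma finite_NL_of_good {S : Finset Nat.Primes} {p : ℕ} [Fact p.Prime] (c : Ctx S p)
    (hc : c.Good) (L : c.Idx) : Finite (c.NL L).V := by
  have : Module.Finite (ZMod p) c.M := hc.fin
  have : Module.Finite (ZMod p) (Module.Dual (ZMod p) c.M) := inferInstance
  have : Finite (Module.Dual (ZMod p) c.M) := Module.finite_of_finite (ZMod p)
  have : Finite c.N.V := ‹Finite (Module.Dual (ZMod p) c.M)›
  exact finite_NL c L

/-- **LIM1.** -/
theorem lim1 : LIM1Spec := fun _ _ _ c hc =>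
  ⟨dT c ⟨_, hc.hpS⟩ (finite_NL_of_good c hc),
    dT_levelBij c ⟨_, hc.hpS⟩ (finite_NL_of_good c hc)⟩

/-- **LIM2.** -/
theorem lim2 : LIM2Spec := fun _ _ _ c hc =>
  ⟨cT c, cT_evInj c hc.good.good (finite_NL_of_good c hc),
    cT_evSurj c hc.good (finite_NL_of_good c hc)⟩

end Fermat.Agent.S55.E1.H719

end
-- ===== PACK-END S55/E1/H719/Lim12.lean

-- ===== PACK-BEGIN S55/E1/H957/Lim3.lean
section
/-
S55 engine E1 (helper957): **LIM3** — producer of `Lim.LIM3Spec` (`E1/SpecLim.lean`).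
`|T_F| = |sha₁ S N|` and the transition maps of `c.sysT` are injective, for every good context.
Proof: `H957.sysT_card`, `H957.sysT_tr_injective` (ALG8, ALG10P + gd1, gd3, gd8, GD6, LocalSpec).
-/



set_option autoImplicit false
set_option linter.style.haveILetI false

open CategoryTheory groupCohomology ExtCitation

namespace Fermat.Agent.S55.E1.H957

open Fermat.Agent.S55.E1 Fermat.Agent.S55.Tow Fermat.Agent.S55.E1.Lim

/-- `N = M^∨(1)` is finite if `M` is finite-dimensional over `𝔽_p`. -/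
lemma finite_N_of_good {S : Finset Nat.Primes} {p : ℕ} [Fact p.Prime] (c : Ctx S p)
    (hc : c.Good) : Finite c.N.V := by
  haveI := hc.fin
  haveI : Module.Finite (ZMod p) (Module.Dual (ZMod p) c.M) := inferInstance
  haveI : Module.Finite (ZMod p) c.N.V :=
    inferInstanceAs (Module.Finite (ZMod p) (Module.Dual (ZMod p) c.M))
  exact Module.finite_of_finite (ZMod p)

/-- A good context is high over the level `L₀` of `Good.norm`. -/
lemma exists_isHighOver {S : Finset Nat.Primes} {p : ℕ} [Fact p.Prime] (c : Ctx S p)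
    (hc : c.Good) : ∃ L₀ : Level S, IsHighOver c L₀ := by
  obtain ⟨L₀, h₀, hμ, htriv, hnorm⟩ := hc.norm
  exact ⟨L₀, ⟨h₀, hμ, htriv, fun L _ hL => hnorm L hL⟩⟩

/-- **LIM3.** -/
theorem lim3 : LIM3Spec := by
  intro p _ S c hc
  haveI := finite_N_of_good c hc
  obtain ⟨L₀, hh⟩ := exists_isHighOver c hc
  refine ⟨fun L => ?_, fun {L L'} h => ?_⟩
  · exact (sysT_card hc.good.good hc.tn hc.loc hh L).2.trans (hc.sha1 L)
  · exact sysT_tr_injective hc.good.good hc.tn hc.loc hh h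

end Fermat.Agent.S55.E1.H957

end
-- ===== PACK-END S55/E1/H957/Lim3.lean

-- ===== PACK-BEGIN S55/E1/Lim/Final.lean
section
/-
S55 engine E1 — block LIM, FINAL WIRING (helper474).  All proofs complete.

`engineSpecFin_of_lim5 : LIM5Spec → EngineSpecFin` (all other leaves of `E1/SpecLim.lean` are
theorems on main: `limBase`, `lim4`, `H719.lim1`, `H719.lim2`, `H957.lim3`), and
`lim5Spec_of` : `LIM5Spec` from helper603's four statements (`E1/H603/Lim5Defs.lean`).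
-/






set_option autoImplicit false

open CategoryTheory groupCohomology ExtCitation

namespace Fermat.Agent.S55.E1.Lim

open Fermat.Agent.S55.Tow Fermat.Agent.S55.E1

/-- The four statements of LIM5 for all good contexts. -/
def LIM5PartsSpec : Prop :=
  ∀ (p : ℕ) [Fact p.Prime] (S : Finset Nat.Primes) (c : Ctx S p) (hc : c.Good),
    H603.Lim5iSpec c hc.mu ∧ H603.Lim5iiSpec c hc.mu ∧ H603.Lim5iiiSpec c hc.mu ∧
      H603.Lim5CompatSpec c hc.mu

/-- **LIM5** from its four parts. -/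
theorem lim5Spec_of (h : LIM5PartsSpec) : LIM5Spec := by
  intro p _ S c hc
  obtain ⟨h1, h2, h3, h4⟩ := h p S c hc
  exact H603.lim5_of_specs c hc.mu h1 h2 h3 (fun {L L'} hLL x => h4 hLL x)

/-- **The engine**, from LIM5 alone. -/
theorem engineSpecFin_of_lim5 (h5 : LIM5Spec) : EngineSpecFin :=
  engineSpecFin_of limBase lim4 H719.lim1 H719.lim2 H957.lim3 h5

/-- **The engine**, from the four parts of LIM5. -/
theorem engineSpecFin_of_parts (h : LIM5PartsSpec) : EngineSpecFin :=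
  engineSpecFin_of_lim5 (lim5Spec_of h)

end Fermat.Agent.S55.E1.Lim

end
-- ===== PACK-END S55/E1/Lim/Final.lean

-- ===== PACK-BEGIN Ribet/H967/TameReduceGen.lean
section


/-!
# WALL-p, CORE-OUT: TAME / WILD glue in GENERIC form (helper967)

`p`-generic (only `p ≠ 2`) and UNIT-AGNOSTIC twins of `H967.Tame.tame_of_fixed` and of
`H704.CoreOut.coreOutNE_of_tame_wild`, for the wall at `p = 3` (S59 moonshot, cell (A)), where the
Δ-unit of exponent `12` is replaced by a unit of exponent prime to `3`.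

* `tame_of_fixed_gen`: for ANY predicate `SP` on `J₀(pM')` that is invariant under translation by
  the split part, `SP` for inertia-fixed new eigenclasses implies `SP` for all classes satisfying
  the TAME hypotheses (cocycle trick `exists_fixed_translate`, `p ≠ 2`).
* `coreOut_of_tame_wild_gen`: TAME + WILD ⟹ CORE-OUT for any predicate.
* `SlopePropQ`: `H884.SlopeProp` with the property `IsModUnit` of the unit `D` replaced by an
  abstract predicate `Q D`; `slopePropQ_add_of_mem_splitPart` is the invariance needed above;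
  `slopePropQ_isModUnit` identifies the case on main.
* `tameQ_of_fixedQ`, `coreOutQ_of_fixedQ_wild`: the instances for `SlopePropQ`.
-/

set_option autoImplicit false
set_option synthInstance.maxHeartbeats 400000
set_option maxHeartbeats 1000000
set_option linter.unusedSectionVars false

noncomputable section

namespace Fermat.Agent.Ribet.H967.TameGen

open AlgebraicCurve ModularCurve HahnSeries
open Fermat.Agent.S24 Fermat.Agent.A2.H708 Fermat.Agent.A2.H528
open Fermat.Agent.Ribet.Spec Fermat.Agent.Ribet.H944.Wall Fermat.Agent.Ribet.H884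
open Fermat.Agent.Ribet.H704 Fermat.Agent.Ribet.H704.CoreOut
open Fermat.Agent.Ribet.H967.Tame

local notation "Qb" => AlgebraicClosure ℚ

variable {p M' : ℕ} [NeZero M'] [NeZero p] [NeZero (p * M')]

/-! ## The generic reduction -/

/-- **TAME from its inertia-fixed core, generic form**: `p` any odd prime, `SP` any predicate
invariant under translation by the split part. -/
theorem tame_of_fixed_gen (hp : p.Prime) (hp2 : p ≠ 2) (hpM : ¬ p ∣ M')
    (A : ValuationSubring Qb) (hA : A.LiesOverPrime p)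
    (SP : JZero (p * M') → Prop)
    (hinv : ∀ x y : JZero (p * M'), SP x → y ∈ splitPart p M' A → SP (x + y))
    (S : Finset ℕ) (a : ℕ → ℤ)
    (hcore : ∀ x' : JZero (p * M'), IsNewTors p M' x' → EigenAt (p * M') S a x' →
      (∀ σ ∈ A.inertiaSubgroupIn ℚ, σ • x' = x') → SP x')
    (x t : JZero (p * M'))
    (hx : IsNewTors p M' x) (hex : EigenAt (p * M') S a x)
    (ht : IsNewTors p M' t) (het : EigenAt (p * M') S a t)
    (hχ : ∀ σ ∈ A.inertiaSubgroupIn ℚ, ∀ c : ℕ, CycloAt p σ c → σ • t = c • t)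
    (hsh : ∀ σ ∈ A.inertiaSubgroupIn ℚ, ∃ n : ℕ, σ • x = x + n • t)
    (htame : ∀ σ ∈ A.inertiaSubgroupIn ℚ, CycloAt p σ 1 → σ • x = x) :
    SP x := by
  obtain ⟨z, hz⟩ := exists_fixed_translate hp hp2 A hA x t ht.1 hχ hsh htame
  have htS : t ∈ splitPart p M' A :=
    Fermat.Agent.Ribet.H39.mem_splitPart_of_cyclo p M' hp hp2 hpM A hA t ht.1 hχ
  have hx' : IsNewTors p M' (x + z • t) := by
    obtain ⟨h1, h2, h3⟩ := hx
    obtain ⟨k1, k2, k3⟩ := ht
    refine ⟨?_, ?_, ?_⟩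
    · rw [nsmul_add, h1, smul_comm (p : ℕ) z t, k1, smul_zero, add_zero]
    · rw [map_add, map_zsmul, h2, k2, smul_zero, add_zero]
    · rw [map_add, map_zsmul, h3, k3, smul_zero, add_zero]
  have hex' : EigenAt (p * M') S a (x + z • t) := by
    intro ℓ hℓ
    rw [map_add, map_zsmul, hex ℓ hℓ, het ℓ hℓ, zsmul_add, smul_comm z]
  have hS' := hcore (x + z • t) hx' hex' hz
  have h := hinv _ _ hS'
    ((splitPart p M' A).neg_mem ((splitPart p M' A).zsmul_mem htS z))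
  rwa [add_neg_cancel_right] at h

/-- **CORE-OUT from TAME and WILD, generic form** (any predicate, any prime). -/
theorem coreOut_of_tame_wild_gen (A : ValuationSubring Qb) (SP : JZero (p * M') → Prop)
    (x : JZero (p * M'))
    (hT : (∀ σ ∈ A.inertiaSubgroupIn ℚ, CycloAt p σ 1 → σ • x = x) → SP x)
    (hW : ∀ σ₀ ∈ A.inertiaSubgroupIn ℚ, CycloAt p σ₀ 1 → σ₀ • x ≠ x → SP x) : SP x := by
  by_cases h : ∀ σ ∈ A.inertiaSubgroupIn ℚ, CycloAt p σ 1 → σ • x = x
  · exact hT h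
  · push Not at h
    obtain ⟨σ₀, hσ₀, hσ₀1, hσ₀x⟩ := h
    exact hW σ₀ hσ₀ hσ₀1 hσ₀x

/-! ## The slope property with an abstract unit -/

/-- `H884.SlopeProp` with `IsModUnit p M' D` replaced by an abstract property `Q D` of the unit. -/
def SlopePropQ (p M' : ℕ) [NeZero p] [NeZero (p * M')] (A : ValuationSubring Qb)
    (Q : FF (p * M') → Prop) (x : JZero (p * M')) : Prop :=
  ∃ (f D G : FF (p * M')) (n a b : ℕ), IsKummerGen (p * M') p f x ∧ Q D ∧
    D ≠ 0 ∧ ¬ p ∣ n ∧ G * D ^ b = f ^ n * D ^ a ∧ NodeGen p M' A G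

/-- The case on main: the Δ-unit. -/
theorem slopePropQ_isModUnit (A : ValuationSubring Qb) (x : JZero (p * M')) :
    SlopePropQ p M' A (IsModUnit p M') x ↔ SlopeProp p M' A x := Iff.rfl

/-- Monotonicity in the unit property. -/
theorem SlopePropQ.mono {A : ValuationSubring Qb} {Q Q' : FF (p * M') → Prop}
    (h : ∀ D, Q D → Q' D) {x : JZero (p * M')} (hx : SlopePropQ p M' A Q x) :
    SlopePropQ p M' A Q' x := by
  obtain ⟨f, D, G, n, a, b, hK, hD, hD0, hn, hrel, hG⟩ := hx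
  exact ⟨f, D, G, n, a, b, hK, h D hD, hD0, hn, hrel, hG⟩

/-- `SlopePropQ` is invariant under translation by the split part. -/
theorem slopePropQ_add_of_mem_splitPart {A : ValuationSubring Qb} {Q : FF (p * M') → Prop}
    {x y : JZero (p * M')} (hx : SlopePropQ p M' A Q x) (hy : y ∈ splitPart p M' A) :
    SlopePropQ p M' A Q (x + y) := by
  obtain ⟨f, D, G, n, a, b, hK, hD, hD0, hn, hrel, hG⟩ := hx
  obtain ⟨g, hgK, hgS⟩ := mem_splitSet_of_mem_splitPart hy
  refine ⟨f * g, D, G * g ^ n, n, a, b, hK.mul hgK, hD, hD0, hn, ?_,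
    hG.mul ((nodeGen_of_splitGen967 hgS).pow n)⟩
  rw [mul_pow]
  linear_combination (g ^ n) * hrel

/-- **TAME with an abstract unit, from its inertia-fixed core** (`p` odd). -/
theorem tameQ_of_fixedQ (hp : p.Prime) (hp2 : p ≠ 2) (hpM : ¬ p ∣ M')
    (A : ValuationSubring Qb) (hA : A.LiesOverPrime p) (Q : FF (p * M') → Prop)
    (S : Finset ℕ) (a : ℕ → ℤ)
    (hcore : ∀ x' : JZero (p * M'), IsNewTors p M' x' → EigenAt (p * M') S a x' →
      (∀ σ ∈ A.inertiaSubgroupIn ℚ, σ • x' = x') → SlopePropQ p M' A Q x')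
    (x t : JZero (p * M'))
    (hx : IsNewTors p M' x) (hex : EigenAt (p * M') S a x)
    (ht : IsNewTors p M' t) (het : EigenAt (p * M') S a t)
    (hχ : ∀ σ ∈ A.inertiaSubgroupIn ℚ, ∀ c : ℕ, CycloAt p σ c → σ • t = c • t)
    (hsh : ∀ σ ∈ A.inertiaSubgroupIn ℚ, ∃ n : ℕ, σ • x = x + n • t)
    (htame : ∀ σ ∈ A.inertiaSubgroupIn ℚ, CycloAt p σ 1 → σ • x = x) :
    SlopePropQ p M' A Q x :=
  tame_of_fixed_gen hp hp2 hpM A hA (SlopePropQ p M' A Q)
    (fun _ _ h hy => slopePropQ_add_of_mem_splitPart h hy) S a hcore x t hx hex ht het hχ hsh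
    htame

/-- **CORE-OUT with an abstract unit** from the inertia-fixed TAME core and WILD (`p` odd). -/
theorem coreOutQ_of_fixedQ_wild (hp : p.Prime) (hp2 : p ≠ 2) (hpM : ¬ p ∣ M')
    (A : ValuationSubring Qb) (hA : A.LiesOverPrime p) (Q : FF (p * M') → Prop)
    (S : Finset ℕ) (a : ℕ → ℤ)
    (hcore : ∀ x' : JZero (p * M'), IsNewTors p M' x' → EigenAt (p * M') S a x' →
      (∀ σ ∈ A.inertiaSubgroupIn ℚ, σ • x' = x') → SlopePropQ p M' A Q x')
    (x t : JZero (p * M'))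
    (hx : IsNewTors p M' x) (hex : EigenAt (p * M') S a x)
    (ht : IsNewTors p M' t) (het : EigenAt (p * M') S a t)
    (hχ : ∀ σ ∈ A.inertiaSubgroupIn ℚ, ∀ c : ℕ, CycloAt p σ c → σ • t = c • t)
    (hsh : ∀ σ ∈ A.inertiaSubgroupIn ℚ, ∃ n : ℕ, σ • x = x + n • t)
    (hwild : ∀ σ₀ ∈ A.inertiaSubgroupIn ℚ, CycloAt p σ₀ 1 → σ₀ • x ≠ x →
      SlopePropQ p M' A Q x) :
    SlopePropQ p M' A Q x :=
  coreOut_of_tame_wild_gen A (SlopePropQ p M' A Q) x
    (tameQ_of_fixedQ hp hp2 hpM A hA Q S a hcore x t hx hex ht het hχ hsh) hwild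

end Fermat.Agent.Ribet.H967.TameGen

end

end
-- ===== PACK-END Ribet/H967/TameReduceGen.lean

-- ===== PACK-BEGIN S38/H593/StGen.lean
section


/-!
# Row HARD / S59 cell (B2), leaf IA-ST: the GENERIC engine  (helper593)

The proofs of `S38/H593/StUU.lean` (A) and `S38/H593/StAsm.lean` (C) with every Spec3 object
replaced by a parameter: any `t : PType`, any odd `p` (no `5 ≤ p`), any `Σ ⊇ Smin`, any base
levels `L = L' · q`, any family `qq` of Taylor–Wiles primes, any upper level `(M, K)`.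

* `uu_KG_h593` (A): if every localisation of `X_{KG p L' qq}(𝒪)` at `(Tset, Uset)` vanishes, then
  `U_q (U_q y) = ⟨u⟩ y` on the localisation of `X_{KG p L qq}(𝒪)`, for every unit `u ≡ q` modulo
  the `qq s`  (`gLevel L qq = gLevel L' qq * q`, `q ∤ gLevel L' qq`).
* `st_KG_h593` (C): `PQ : HeckePkg p 𝒪 ρ̄ t Smin Σ`; `V ⊆ X_K(𝒪)` with an action `a` of `T_Q`
  (`T_ℓ ↦ ⟨ℓ⟩^h T_ℓ`), `W ⊆ X_K(𝒪)`, `c : X_K(𝒪) → X_{KG p L qv}(𝒪)` with NAT, EQUIV, KER
  (`c v = 0 → m • v ∈ W`), vanishing of the localisation at the level `L'`.  Then the Steinberg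
  element `tr ρ(φ)² - (1+q)²` vanishes at every support point of `V / W`.

The twins of IA-ST at `t = .sord` or `p = 3` are instances (with the twins of (MIN) and COR).
-/

set_option autoImplicit false

open Polynomial IsLocalRing CongruenceSubgroup
open scoped MatrixGroups

namespace Fermat.Agent.S38.H593

open Fermat.Agent.S59.Arch Fermat.Agent.S59.TW.H959 Fermat.Agent.S59.TW Fermat.Agent.S59.H765
open Fermat.Agent.S59.TW.H653 Fermat.Agent.S59.TW.Aut Fermat.Agent.S59.TW.H201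
open Fermat.Agent.S38.IA Fermat.Agent.S38.IA.Hecke
open Fermat.Agent.S41.Spec
open CuspForm

/-! ## (A), generic -/

section UU

variable {𝒪 : Type} [CommRing 𝒪] [IsDomain 𝒪] [IsDiscreteValuationRing 𝒪]
  [IsAdicComplete (maximalIdeal 𝒪) 𝒪]

/-- **(UU), generic.**  See the header. -/
theorem uu_KG_h593 (p : ℕ) {ι : Type} [Fintype ι] (qq : ι → ℕ) (L' L q : ℕ) [Fact q.Prime]
    (hlev : gLevel L qq = gLevel L' qq * q) (hN : gLevel L' qq ≠ 0) (hqN : ¬ q ∣ gLevel L' qq)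
    {Tset Uset : Set (ℕ × 𝒪)}
    (hT : ∀ x ∈ Tset, x.1.Prime ∧ ¬ x.1 ∣ gLevel L' qq * q)
    (hU : ∀ x ∈ Uset, x.1.Prime ∧ x.1 ∣ gLevel L' qq)
    (hbot : ∀ W : Submodule 𝒪 (Additive (KG p L' qq) →+ 𝒪),
      IsLocPart (isMid_KG p L' qq) Tset Uset W → W = ⊥)
    {V₁ : Submodule 𝒪 (Additive (KG p L qq) →+ 𝒪)}
    (hV₁ : IsLocPart (isMid_KG p L qq) Tset Uset V₁)
    (u : (ZMod (gLevel L qq))ˣ)
    (hu : ∀ d : ℤ, ((d : ℤ) : ZMod (gLevel L qq)) = ((u : (ZMod (gLevel L qq))ˣ) :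
      ZMod (gLevel L qq)) → ∀ s, (qq s : ℤ) ∣ d - (q : ℤ)) :
    ∀ y ∈ V₁, UK (KG p L qq) q (UK (KG p L qq) q y) = diamondU (isMid_KG p L qq) u y := by
  intro y hy
  have hqprime : q.Prime := Fact.out
  have hM₁ : gLevel L qq ≠ 0 := by
    rw [hlev]
    exact Nat.mul_ne_zero hN hqprime.ne_zero
  have : NeZero (gLevel L qq) := ⟨hM₁⟩
  have key : ∀ V' : Submodule 𝒪 (Additive (Kq (gLevel L' qq) q (KG p L' qq)) →+ 𝒪),
      IsLocPart (isMid_Kq (isMid_KG p L' qq) q) Tset Uset V' →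
      ∃ σ : Gamma0 (gLevel L' qq * q),
        ((((σ : SL(2, ℤ)) 1 1 : ℤ)) : ZMod (gLevel L' qq)) = (q : ZMod (gLevel L' qq)) ∧
        ∀ y ∈ V', UK (Kq (gLevel L' qq) q (KG p L' qq)) q
            (UK (Kq (gLevel L' qq) q (KG p L' qq)) q y) =
          diamond (isMid_Kq (isMid_KG p L' qq) q) σ y := by
    intro V' hV'
    obtain ⟨σ, hσ⟩ := Fermat.Agent.S38.H719.exists_sigma_q (q := q) hN hqN
    exact ⟨σ, hσ, uu_of_lower_bot_h593 hN hqN (isMid_KG p L' qq) hT hU hbot hV' σ hσ⟩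
  obtain ⟨σ, hσ, hUU⟩ := uu_transport_h593 hlev (KG_eq_Kq_h593 p qq L' L q hlev)
    (isMid_KG p L qq) (isMid_Kq (isMid_KG p L' qq) q) (gLevel L' qq) q Tset Uset key V₁ hV₁
  rw [hUU y hy, diamond_eq_diamondU]
  apply diamondU_eq_of_gChi
  apply gChi_eq_of_gRed
  funext j
  apply Units.ext
  rw [coe_gRed_dUnit]
  have hdj : qq j ∣ gLevel L' qq := dvd_gLevel L' qq j
  have e1 : ((((σ : SL(2, ℤ)) 1 1 : ℤ)) : ZMod (qq j)) = (q : ZMod (qq j)) := by
    have := congrArg (ZMod.castHom hdj (ZMod (qq j))) hσ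
    simpa using this
  rw [e1, gRed_apply, ZMod.unitsMap_val]
  have hd := hu ((u : ZMod (gLevel L qq)).val : ℤ)
    (by rw [Int.cast_natCast, ZMod.natCast_zmod_val]) j
  have e2 : ((((u : ZMod (gLevel L qq)).val : ℤ)) : ZMod (qq j)) = ((q : ℤ) : ZMod (qq j)) := by
    rw [ZMod.intCast_eq_intCast_iff_dvd_sub]
    have : ((qq j : ℕ) : ℤ) ∣ -(((u : ZMod (gLevel L qq)).val : ℤ) - q) := (dvd_neg).mpr hd
    simpa using this
  rw [Int.cast_natCast, Int.cast_natCast] at e2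
  rw [← e2]
  exact ZMod.natCast_val (n := gLevel L qq) (R := ZMod (qq j))
    ((u : (ZMod (gLevel L qq))ˣ) : ZMod (gLevel L qq))

end UU

/-! ## (C), generic -/

section Asm

variable {p : ℕ} [Fact p.Prime]
  {𝒪 : Type} [CommRing 𝒪] [IsDomain 𝒪] [IsDiscreteValuationRing 𝒪]
  [IsAdicComplete (maximalIdeal 𝒪) 𝒪] [Finite (ResidueField 𝒪)] [CharZero 𝒪]
  {ρbar : ResidualGaloisRep (ResidueField 𝒪)} {t : PType} {Smin Sig : Finset ℕ}
  [NeZero (wilesLevel p t Smin Sig)]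

set_option maxSynthPendingDepth 3 in
/-- **(ST) at a support point, generic.**  See the header. -/
theorem st_KG_h593 (hS35 : Fermat.Agent.S58.S35Statement)
    (h : ResidualHyp p 𝒪 ρbar Smin) (hsub : Smin ⊆ Sig) (hSigP : ∀ x ∈ Sig, x.Prime)
    (PQ : HeckePkg p 𝒪 ρbar t Smin Sig)
    {r : ℕ} (qv : Fin r → ℕ) (hqi : Function.Injective qv)
    (L' L q : ℕ) (hL : L = L' * q) (hL' : L' ≠ 0) (hqprime : q.Prime) (hqp : q ≠ p)
    (hqv : ∀ j, (qv j).Prime ∧ Nat.Coprime L (qv j))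
    (hqN : ¬ q ∣ gLevel L' qv)
    (hLSig : ∀ ℓ : ℕ, ℓ.Prime → ℓ ∣ gLevel L qv → ℓ ∈ Sig)
    {Uset : Set (ℕ × 𝒪)} (hU : ∀ x ∈ Uset, x.1.Prime ∧ x.1 ∣ gLevel L' qv)
    (hbot : ∀ W : Submodule 𝒪 (Additive (KG p L' qv) →+ 𝒪),
      IsLocPart (isMid_KG p L' qv) (TsetOf PQ) Uset W → W = ⊥)
    {h' : ℕ} (hh : IsHalf p qv h')
    {M : ℕ} {K : Subgroup SL(2, ℤ)} (hK : IsMid M K)
    (V : Submodule 𝒪 (Additive K →+ 𝒪)) (a : PQ.T →ₐ[𝒪] Module.End 𝒪 V)
    (ha : ActsBy PQ V a (tOpTw hK 𝒪 h'))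
    (W : Submodule 𝒪 (Additive K →+ 𝒪))
    (c : (Additive K →+ 𝒪) →ₗ[𝒪] (Additive (KG p L qv) →+ 𝒪)) (m : ℕ) (hm : m ≠ 0)
    (hnat : ∀ V₁ : Submodule 𝒪 (Additive (KG p L qv) →+ 𝒪),
      IsLocPart (isMid_KG p L qv) (TsetOf PQ) Uset V₁ → ∀ v ∈ V, c v ∈ V₁)
    (heq : ∀ (ℓ : ℕ) (hℓ : ℓ.Prime), ¬ ℓ ∣ wilesLevel p t Smin Sig → ℓ ∉ (↑Sig : Set ℕ) →
      ∀ v ∈ V, c (tOpTw hK 𝒪 h' ℓ hℓ v) = tOpTw (isMid_KG p L qv) 𝒪 h' ℓ hℓ (c v))
    (hker : ∀ v ∈ V, c v = 0 → m • v ∈ W)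
    {𝒪' : Type} [CommRing 𝒪'] [IsDomain 𝒪'] [IsDiscreteValuationRing 𝒪']
    [IsAdicComplete (maximalIdeal 𝒪') 𝒪'] [Finite (ResidueField 𝒪')] [CharZero 𝒪']
    (x : PQ.T →+* 𝒪') (hx : IsLocalHom x) (hp' : (p : 𝒪') ∈ maximalIdeal 𝒪')
    (hsupp : ∀ s : PQ.T, (∀ v : V, ((a s v : V) : Additive K →+ 𝒪) ∈ W) → x s = 0)
    (P : ValuationSubring (AlgebraicClosure ℚ)) (hP : P.LiesOverPrime q)
    (φ : AlgebraicClosure ℚ ≃ₐ[ℚ] AlgebraicClosure ℚ) (hφ : P.IsFrobeniusAt φ q) :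
    x (PQ.H.ρ.trace φ ^ 2 - ((1 + q : ℕ) : PQ.T) ^ 2) = 0 := by
  classical
  have : Fact q.Prime := ⟨hqprime⟩
  have hQp : ∀ j, (qv j).Prime := fun j => (hqv j).1
  have hLne : L ≠ 0 := by
    rw [hL]
    exact Nat.mul_ne_zero hL' hqprime.ne_zero
  have hlev : gLevel L qv = gLevel L' qv * q := by
    unfold gLevel
    rw [hL]
    ring
  have hN' : gLevel L' qv ≠ 0 := gLevel_ne_zero L' qv hL' hQp
  have hM₁ : gLevel L qv ≠ 0 := gLevel_ne_zero L qv hLne hQp
  have : NeZero (gLevel L qv) := ⟨hM₁⟩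
  have hN₁ : L * ∏ j, qv j ^ 2 ≠ 0 :=
    Nat.mul_ne_zero hLne (Finset.prod_ne_zero_iff.mpr fun j _ => pow_ne_zero 2 (hQp j).ne_zero)
  have : NeZero (L * ∏ j, qv j ^ 2) := ⟨hN₁⟩
  have hpSig : p ∈ Sig := hsub h.hpSmin
  have hqL : q ∣ L := ⟨L', by rw [hL, mul_comm]⟩
  have hqM₁ : q ∣ gLevel L qv := dvd_mul_of_dvd_left hqL _
  have hqNN : q ∣ L * ∏ j, qv j ^ 2 := dvd_mul_of_dvd_left hqL _
  have hdvdsq : ∀ ℓ : ℕ, ℓ.Prime → ℓ ∣ L * ∏ j, qv j ^ 2 → ℓ ∣ gLevel L qv :=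
    fun ℓ hℓ hd => dvd_gLevel_of_dvd_sq_h593 L hℓ hd
  have hT : ∀ x ∈ TsetOf PQ, x.1.Prime ∧ ¬ x.1 ∣ gLevel L qv := by
    rintro x ⟨hℓ, _, hℓS, _⟩
    exact ⟨hℓ, fun hd => hℓS (Finset.mem_coe.mpr (hLSig x.1 hℓ hd))⟩
  have hT' : ∀ x ∈ TsetOf PQ, x.1.Prime ∧ ¬ x.1 ∣ gLevel L' qv * q := by
    intro x hx
    rw [← hlev]
    exact hT x hx
  have hUL : ∀ x ∈ Uset, x.1.Prime ∧ x.1 ∣ gLevel L qv := fun x hx =>
    ⟨(hU x hx).1, by rw [hlev]; exact dvd_mul_of_dvd_left (hU x hx).2 _⟩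
  -- the localisation at the level `K₁`
  obtain ⟨V₁, hV₁⟩ := Fermat.Agent.S59.TW.Aut.H511.idem 𝒪 (gLevel L qv) hM₁
    (KG p L qv) (isMid_KG p L qv) (TsetOf PQ) Uset hT hUL
  have hpar : ∀ v ∈ V₁, ModularCurve.Period.IsParabolicHom (KG p L qv) v :=
    Fermat.Agent.S59.TW.H324.isLocPart_parabolic_of_pkg p 𝒪 ρbar Smin h t Sig hsub hSigP PQ hM₁
      (isMid_KG p L qv) hV₁
  have hqS : q ∉ (↑(Sig.erase q) : Set ℕ) := fun hm' =>
    Finset.notMem_erase q _ (Finset.mem_coe.mp hm')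
  -- (UU)
  obtain ⟨u, hu⟩ := H264.exists_unit_congr qv L hLne hqi hQp (q := q)
    (fun j => (Nat.coprime_primes hqprime (hQp j)).mpr fun hqj =>
      hqN (hqj ▸ dvd_gLevel L' qv j))
  obtain ⟨σ, hσ⟩ := dUnit_surjective (M := gLevel L qv) u
  have hUU : ∀ v ∈ V₁, ∃ s : Gamma0 (gLevel L qv),
      (∀ j : Fin r, ((qv j : ℕ) : ℤ) ∣ (s : SL(2, ℤ)) 1 1 - (q : ℤ)) ∧
      UK (KG p L qv) q (UK (KG p L qv) q v) = diamond (isMid_KG p L qv) s v := by
    intro v hv
    refine ⟨σ, fun j => ?_, ?_⟩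
    · refine hu _ ?_ j
      rw [← hσ, coe_dUnit]
    · rw [uu_KG_h593 p qv L' L q hlev hN' hqN hT' hU hbot hV₁ u hu v hv, diamond_eq_diamondU,
        hσ]
  -- the action with `U_q`
  obtain ⟨Ψ, hΨT, hΨU⟩ := H264.exists_psiU_KG p L qv hLne hqi hqv hh (dvd_refl _)
    (↑(Sig.erase q) : Set ℕ) hqNN hqS hqL
    (fun ℓ hℓ hℓN hℓS => by
      by_contra hℓq
      exact hℓS (Finset.mem_coe.mpr (Finset.mem_erase.mpr
        ⟨hℓq, hLSig ℓ hℓ (hdvdsq ℓ hℓ hℓN)⟩)))
    𝒪 V₁ hpar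
    (fun ℓ hℓ hℓN _ v hv => isLocPart_tOpTw_mem_h593 _ hV₁ h' ℓ hℓ
      (fun hd => hℓN (hd.trans (gLevel_dvd_sq_h593 _))) hv)
    (fun v hv => isLocPart_UK_mem_h593 _ hV₁ q hqM₁ hv)
    (fun u v hv => isLocPart_diamondU_mem_h593 _ hV₁ u hv)
    hUU
  -- the corestriction `V → V₁`
  let c' : V →+ V₁ :=
    { toFun := fun v => ⟨c v, hnat V₁ hV₁ v v.2⟩
      map_zero' := Subtype.ext (by simp)
      map_add' := fun v w => Subtype.ext (by simp) }
  have hc'coe : ∀ v : V, ((c' v : V₁) : Additive (KG p L qv) →+ 𝒪) =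
      c (v : Additive K →+ 𝒪) := fun _ => rfl
  -- side conditions of `st_of_action_h53`
  have hq2 : ¬ q ^ 2 ∣ L * ∏ j, qv j ^ 2 := by
    intro hd
    have e : L * ∏ j, qv j ^ 2 = q * (L' * ∏ j, qv j ^ 2) := by
      rw [hL]
      ring
    rw [e, sq] at hd
    have hd' : q ∣ L' * ∏ j, qv j ^ 2 := Nat.dvd_of_mul_dvd_mul_left hqprime.pos hd
    exact hqN (dvd_gLevel_of_dvd_sq_h593 L' hqprime hd')
  have hpS : p ∈ Sig.erase q := Finset.mem_erase.mpr ⟨fun e => hqp e.symm, hpSig⟩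
  have hNS : ∀ r' : ℕ, r'.Prime → r' ∣ L * ∏ j, qv j ^ 2 → r' ≠ q → r' ∈ Sig.erase q :=
    fun r' hr' hd hne => Finset.mem_erase.mpr ⟨hne, hLSig r' hr' (hdvdsq r' hr' hd)⟩
  have hgood : ∀ ℓ : ℕ, ℓ.Prime → ¬ ℓ ∣ L * ∏ j, qv j ^ 2 →
      ℓ ∉ (↑(Sig.erase q) : Set ℕ) →
      ¬ ℓ ∣ wilesLevel p t Smin Sig ∧ ℓ ∉ (↑Sig : Set ℕ) := by
    intro ℓ hℓ hℓN hℓS
    have hℓq : ℓ ≠ q := fun e => hℓN (e ▸ hqNN)
    have hℓSig : ℓ ∉ (↑Sig : Set ℕ) := fun hm' =>
      hℓS (Finset.mem_coe.mpr (Finset.mem_erase.mpr ⟨hℓq, Finset.mem_coe.mp hm'⟩))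
    exact ⟨fun hd => hℓSig (Finset.mem_coe.mpr
      (prime_dvd_wilesLevel p t hsub hSigP hpSig hℓ hd)), hℓSig⟩
  -- occurrence
  have hocc : ∀ Q : FreeAlgebra ℤ (H53.GoodIdx (L * ∏ j, qv j ^ 2)
        (↑(Sig.erase q) : Set ℕ)),
      Ψ (FreeAlgebra.lift ℤ (H53.tFamA (L * ∏ j, qv j ^ 2)
        (↑(Sig.erase q) : Set ℕ)) Q) = 0 →
      FreeAlgebra.lift ℤ (fun i : H53.GoodIdx (L * ∏ j, qv j ^ 2)
          (↑(Sig.erase q) : Set ℕ) =>
        x (PQ.H.π (heckeAlgebra.T i.2.1 (hgood i.1 i.2.1 i.2.2.1 i.2.2.2).1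
          (hgood i.1 i.2.1 i.2.2.1 i.2.2.2).2))) Q = 0 := by
    intro Q hQ
    refine H264.hocc_of_cor (𝒪 := 𝒪) (a : PQ.T →+* Module.End 𝒪 V) Ψ c'
      (fun i : H53.GoodIdx (L * ∏ j, qv j ^ 2) (↑(Sig.erase q) : Set ℕ) =>
        PQ.H.π (heckeAlgebra.T i.2.1 (hgood i.1 i.2.1 i.2.2.1 i.2.2.2).1
          (hgood i.1 i.2.1 i.2.2.1 i.2.2.2).2))
      (H53.tFamA (L * ∏ j, qv j ^ 2) (↑(Sig.erase q) : Set ℕ)) ?_
      (W.comap V.subtype).toAddSubgroup m hm ?_ x ?_ Q hQ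
    · intro i v
      apply Subtype.ext
      rw [hc'coe]
      have h1 := ha i.1 i.2.1 (hgood i.1 i.2.1 i.2.2.1 i.2.2.2).1
        (hgood i.1 i.2.1 i.2.2.1 i.2.2.2).2 v
      have h2 := hΨT i.1 i.2.1 i.2.2.1 i.2.2.2 (c' v)
      have h3 := heq i.1 i.2.1 (hgood i.1 i.2.1 i.2.2.1 i.2.2.2).1
        (hgood i.1 i.2.1 i.2.2.1 i.2.2.2).2 v v.2
      change c ((a (PQ.H.π (heckeAlgebra.T i.2.1 (hgood i.1 i.2.1 i.2.2.1 i.2.2.2).1
        (hgood i.1 i.2.1 i.2.2.1 i.2.2.2).2)) v : V) : Additive K →+ 𝒪) = _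
      rw [h1, h3]
      exact h2.symm
    · intro v hv
      have h1 : c (v : Additive K →+ 𝒪) = 0 := by
        rw [← hc'coe, hv]
        rfl
      have h2 := hker v v.2 h1
      show ((m • v : V) : Additive K →+ 𝒪) ∈ W
      rw [Submodule.coe_smul_of_tower]
      exact h2
    · intro s hs
      exact hsupp s fun v => hs v
  exact H53.st_of_action_h53 (E := Module.End 𝒪 V₁) hS35 PQ.H x hx p hp'
    hqprime hqp hqNN hq2 (Sig.erase q) hqS hpS hNS hgood Ψ hΨU hocc P hP φ hφ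

end Asm

end Fermat.Agent.S38.H593

end
-- ===== PACK-END S38/H593/StGen.lean

-- ===== PACK-BEGIN S38T/H593/StAsm.lean
section





/-!
# Row S59, cell LO-IA (B2), HECKE-T, leaf IA-ST: the final assembly, type `ty`  (helper593)

`iaStPt_h593_T : IAMinZeroStatement_T → S35Statement → IAStCorStatement_T → IAStPtStatement953_T`

= the twin of `S38/H593/StAsm.lean` (`iaStPt_h593`), for every type `ty` at `p` and every odd
prime `p`: an instance of the generic engine `st_KG_h593` (`S38/H593/StGen.lean`) at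
`L = ribetLevelT p ty Smin Piv`, `L' = ribetLevelT p ty Smin (Piv.erase q)`.
-/

set_option autoImplicit false

open Polynomial IsLocalRing CongruenceSubgroup
open scoped MatrixGroups

namespace Fermat.Agent.S38.H593

open Fermat.Agent.S59.Arch Fermat.Agent.S59.TW.H959 Fermat.Agent.S59.TW Fermat.Agent.S59.H765
open Fermat.Agent.S59.TW.H653 Fermat.Agent.S59.TW.Aut Fermat.Agent.S59.TW.H201
open Fermat.Agent.S38.IA Fermat.Agent.S38.IA.Hecke
open Fermat.Agent.S38.H953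
open CuspForm

/-! ## Arithmetic of the levels of type `ty` -/

section ArithT

variable {p : ℕ} {ty : PType} {Smin Piv : Finset ℕ} {r : ℕ} {qv : Fin r → ℕ}

theorem ribetLevelT_erase_mul_h593 {q : ℕ} (hq : q ∈ Piv) :
    ribetLevelT p ty Smin Piv = ribetLevelT p ty Smin (Piv.erase q) * q := by
  rw [ribetLevelT_eq, ribetLevelT_eq, ribetLevel_erase_mul (p := p) (Smin := Smin) hq]
  ring

theorem pFac_ne_zero_h593 (hp : p.Prime) : pFac p ty ≠ 0 := by
  cases ty
  · exact one_ne_zero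
  · exact hp.ne_zero
  · exact hp.ne_zero

theorem eq_of_prime_dvd_pFac_h593 (hp : p.Prime) {ℓ : ℕ} (hℓ : ℓ.Prime) (hd : ℓ ∣ pFac p ty) :
    ℓ = p := by
  cases ty
  · exact absurd (Nat.dvd_one.mp hd) hℓ.ne_one
  · exact (Nat.prime_dvd_prime_iff_eq hℓ hp).mp hd
  · exact (Nat.prime_dvd_prime_iff_eq hℓ hp).mp hd

theorem ribetLevelT_ne_zero_h593 (hp : p.Prime) (Piv' : Finset ℕ)
    (hS : ∀ x ∈ Smin, x.Prime) (hP : ∀ x ∈ Piv', x.Prime) :
    ribetLevelT p ty Smin Piv' ≠ 0 := by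
  rw [ribetLevelT_eq]
  exact Nat.mul_ne_zero (H264.ribetLevel_ne_zero p Smin Piv' hS hP) (pFac_ne_zero_h593 hp)

/-- A prime dividing `gLevel (ribetLevelT p ty Smin Piv') qv` lies in
`Smin ∪ Piv' ∪ image qv ∪ {p}`. -/
theorem mem_of_prime_dvd_gLevelT_h593 (hp : p.Prime) (Piv' : Finset ℕ)
    (hS : ∀ x ∈ Smin, x.Prime) (hP : ∀ x ∈ Piv', x.Prime) (hQ : ∀ j, (qv j).Prime)
    {ℓ : ℕ} (hℓ : ℓ.Prime) (hd : ℓ ∣ gLevel (ribetLevelT p ty Smin Piv') qv) :
    ((ℓ ∈ Smin.erase p ∨ ℓ ∈ Piv') ∨ ∃ j, ℓ = qv j) ∨ ℓ = p := by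
  have e : gLevel (ribetLevelT p ty Smin Piv') qv =
      gLevel (ribetLevel p Smin Piv') qv * pFac p ty := by
    unfold gLevel
    rw [ribetLevelT_eq]
    ring
  rw [e] at hd
  rcases (Nat.Prime.dvd_mul hℓ).mp hd with h1 | h1
  · exact Or.inl (mem_of_prime_dvd_gLevel Piv' hS hP hQ hℓ h1)
  · exact Or.inr (eq_of_prime_dvd_pFac_h593 hp hℓ h1)

end ArithT

/-! ## The assembly -/

theorem iaStPt_h593_T (hMZ : IAMinZeroStatement_T) (hS35 : Fermat.Agent.S58.S35Statement)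
    (hCor : IAStCorStatement_T) : IAStPtStatement953_T := by
  intro p _ hp3 𝒪 _ _ _ _ _ _ ρbar Smin h ty hty Piv hPiv hmin k pv hpv hpvPiv n r qv hq _ PQ α hα
    V h' a hV hh1 hh2 ha 𝒪' _ _ _ _ _ _ _ x hx hp' hsupp q hqP P hP φ hφ
  have hpprime : p.Prime := Fact.out
  have hSp : ∀ x ∈ Smin, x.Prime := h.hSmin
  have hPp : ∀ x ∈ Piv, x.Prime := fun x hx => (hPiv x hx).1
  have hP' : ∀ x ∈ Piv.erase q, x.Prime := fun x hx => hPp x (Finset.mem_of_mem_erase hx)
  have hQp : ∀ j, (qv j).Prime := fun j => (hq.2.1 j).1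
  have hqprime : q.Prime := hPp q hqP
  have hqp : q ≠ p := fun e => (hPiv q hqP).2.1 (e ▸ h.hpSmin)
  have hsub : Smin ⊆ Smin ∪ Piv ∪ Finset.univ.image qv := fun x hx =>
    Finset.mem_union_left _ (Finset.mem_union_left _ hx)
  have hSigP : ∀ x ∈ Smin ∪ Piv ∪ Finset.univ.image qv, x.Prime := by
    intro x hx
    rcases Finset.mem_union.mp hx with h1 | h1
    · rcases Finset.mem_union.mp h1 with h2 | h2
      · exact hSp x h2
      · exact hPp x h2
    · obtain ⟨j, -, rfl⟩ := Finset.mem_image.mp h1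
      exact hQp j
  have hLSig : ∀ ℓ : ℕ, ℓ.Prime → ℓ ∣ gLevel (ribetLevelT p ty Smin Piv) qv →
      ℓ ∈ Smin ∪ Piv ∪ Finset.univ.image qv := by
    intro ℓ hℓ hd
    rcases mem_of_prime_dvd_gLevelT_h593 hpprime Piv hSp hPp hQp hℓ hd with
      ((h1 | h1) | ⟨j, hj⟩) | h1
    · exact Finset.mem_union_left _ (Finset.mem_union_left _ (Finset.mem_of_mem_erase h1))
    · exact Finset.mem_union_left _ (Finset.mem_union_right _ h1)
    · exact Finset.mem_union_right _ (Finset.mem_image.mpr ⟨j, Finset.mem_univ j, hj.symm⟩)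
    · rw [h1]
      exact hsub h.hpSmin
  have hqN : ¬ q ∣ gLevel (ribetLevelT p ty Smin (Piv.erase q)) qv := by
    intro hd
    rcases mem_of_prime_dvd_gLevelT_h593 hpprime (Piv.erase q) hSp hP' hQp hqprime hd with
      ((h1 | h1) | ⟨j, hj⟩) | h1
    · exact (hPiv q hqP).2.1 (Finset.mem_of_mem_erase h1)
    · exact (Finset.notMem_erase q Piv) h1
    · have := (hq.2.1 j).2.1
      rw [← hj] at this
      exact this (Finset.mem_union_right _ hqP)
    · exact hqp h1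
  have hqv : ∀ j, (qv j).Prime ∧ Nat.Coprime (ribetLevelT p ty Smin Piv) (qv j) := by
    intro j
    refine ⟨hQp j, ?_⟩
    rw [Nat.coprime_comm, Nat.Prime.coprime_iff_not_dvd (hQp j)]
    intro hd
    have hnot : qv j ∉ Smin ∪ Piv := (hq.2.1 j).2.1
    rw [ribetLevelT_eq] at hd
    rcases (Nat.Prime.dvd_mul (hQp j)).mp hd with h1 | h1
    · exact hnot (H264.mem_of_dvd_ribetLevel p Smin Piv hSp hPp (hQp j) h1)
    · have := eq_of_prime_dvd_pFac_h593 hpprime (hQp j) h1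
      exact hnot (this ▸ Finset.mem_union_left _ h.hpSmin)
  have hU : ∀ x ∈ UsetOf qv α, x.1.Prime ∧
      x.1 ∣ gLevel (ribetLevelT p ty Smin (Piv.erase q)) qv := by
    rintro x ⟨j, rfl⟩
    exact ⟨hQp j, dvd_gLevel _ qv j⟩
  obtain ⟨c, m, hm, hnat, heq, hker⟩ :=
    hCor p hp3 𝒪 ρbar Smin h ty hty Piv hPiv k pv hpv hpvPiv n r qv hq PQ α hα V h' hV hh1 hh2
  exact st_KG_h593 hS35 h hsub hSigP PQ qv hq.1
    (ribetLevelT p ty Smin (Piv.erase q)) (ribetLevelT p ty Smin Piv) q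
    (ribetLevelT_erase_mul_h593 hqP) (ribetLevelT_ne_zero_h593 hpprime (Piv.erase q) hSp hP')
    hqprime hqp hqv hqN hLSig hU
    (fun W hW => hMZ p hp3 𝒪 ρbar Smin h ty hty Piv hPiv hmin n r qv hq PQ α hα q hqP W hW)
    hh2 (isMid_KIA_T p ty Smin pv qv) V a ha (chiRelIA_T p ty Smin pv qv 1 V) c m hm hnat heq hker
    (x : PQ.T →+* 𝒪') hx hp' hsupp P hP φ hφ

end Fermat.Agent.S38.H593

end
-- ===== PACK-END S38T/H593/StAsm.lean

-- ===== PACK-BEGIN S38/H509/IAFreeOddIA.lean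
section




/-!
# IA-FREE for all odd `p` and every type `t` (helper509)

* `free_pair_of_pkg_h509` : `P` any Hecke package (any `t`, any `Σ`), `N₀ ≠ 0` any base level,
  `pv`, `qv` two families of primes (`Sum.elim pv qv` injective), `V` the localisation of
  `X_K(𝒪)`, `K = KG p N₀ (Sum.elim pv qv)`, at `(TsetOf P, Uset)`: there is `d` such that for all
  primitive roots `g₁ i`, `g₂ j` the module `V` has an `𝒪`-basis `⟨g₁^{e₁}, g₂^{e₂}⟩ b_i`, `i < d`
  (the shape of `IAFreeAt`, with `diamondU (isMid_KG ..) (gLift .. (pairU ..))`).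
* `iaFreeOdd_h509` : `IAFreeStatement` VERBATIM without the binder `5 ≤ p` (all odd `p`, `.flat`).
* `iaFreeT_h509` : the same for every `t : PType`
  (`K = KG p (wilesLevel p t Smin Smin) (Sum.elim pv qv)`).
-/

set_option autoImplicit false
set_option linter.style.haveILetI false
set_option linter.overlappingInstances false

open Polynomial IsLocalRing CongruenceSubgroup
open scoped MatrixGroups

namespace Fermat.Agent.S38.H509

open Fermat.Agent.S59.Arch Fermat.Agent.S59.TW.H959 Fermat.Agent.S59.TW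
open Fermat.Agent.S59.TW.H653 Fermat.Agent.S59.TW.Aut Fermat.Agent.S38.IA
open Fermat.Agent.S38.IA.Hecke

section Pair

variable {p : ℕ} [hp : Fact p.Prime]
  {𝒪 : Type} [CommRing 𝒪] [IsDomain 𝒪] [IsDiscreteValuationRing 𝒪]
  [IsAdicComplete (maximalIdeal 𝒪) 𝒪] [Finite (ResidueField 𝒪)] [CharZero 𝒪]
  {ρbar : ResidualGaloisRep (ResidueField 𝒪)} {Smin : Finset ℕ}

/-- **IA-FREE, all odd `p`, any package, any base level**, in the shape of `IAFreeAt`. -/
theorem free_pair_of_pkg_h509 (h : ResidualHyp p 𝒪 ρbar Smin) {t : PType} {Sig : Finset ℕ}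
    [NeZero (wilesLevel p t Smin Sig)] (P : HeckePkg p 𝒪 ρbar t Smin Sig)
    (N₀ : ℕ) (hN₀ : N₀ ≠ 0) {k r : ℕ} (pv : Fin k → ℕ) (qv : Fin r → ℕ)
    (hprime : ∀ s, (Sum.elim pv qv s).Prime) (hinj : Function.Injective (Sum.elim pv qv))
    {Uset : Set (ℕ × 𝒪)} {V : Submodule 𝒪 (Additive (KG p N₀ (Sum.elim pv qv)) →+ 𝒪)}
    (hV : IsLocPart (isMid_KG p N₀ (Sum.elim pv qv)) (TsetOf P) Uset V) :
    ∃ d : ℕ, ∀ (g₁ : ∀ i : Fin k, (ZMod (pv i))ˣ) (g₂ : ∀ j : Fin r, (ZMod (qv j))ˣ),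
      (∀ i, orderOf (g₁ i) = pv i - 1) → (∀ j, orderOf (g₂ j) = qv j - 1) →
      ∃ b : Fin d → V, ∀ y : V,
        ∃! c : Fin d → (∀ i : Fin k, Fin (p ^ padicValNat p (pv i - 1))) ×
            (∀ j : Fin r, Fin (p ^ padicValNat p (qv j - 1))) → 𝒪,
          (y : Additive (KG p N₀ (Sum.elim pv qv)) →+ 𝒪) =
            ∑ i, ∑ e, c i e • diamondU (isMid_KG p N₀ (Sum.elim pv qv))
              (gLift N₀ (Sum.elim pv qv)
                (pairU (fun i' => g₁ i' ^ (e.1 i' : ℕ)) (fun j => g₂ j ^ (e.2 j : ℕ))))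
              (b i : Additive (KG p N₀ (Sum.elim pv qv)) →+ 𝒪) := by
  classical
  obtain ⟨d, b, hb⟩ := free_of_pkg_h509 h P N₀ hN₀ (Sum.elim pv qv) hprime hinj hV
  refine ⟨d, ?_⟩
  intro g₁ g₂ hg₁ hg₂
  refine ⟨b, fun y => ?_⟩
  have hg : ∀ s, orderOf (pairU g₁ g₂ s) = Sum.elim pv qv s - 1 := by
    rintro (i | j)
    · exact hg₁ i
    · exact hg₂ j
  have h1 := hb (pairU g₁ g₂) hg y
  let Φ : ((∀ i : Fin k, Fin (p ^ padicValNat p (pv i - 1))) ×
      (∀ j : Fin r, Fin (p ^ padicValNat p (qv j - 1)))) ≃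
      (∀ s : Fin k ⊕ Fin r, Fin (p ^ padicValNat p (Sum.elim pv qv s - 1))) :=
    (Equiv.sumPiEquivProdPi
      (fun s : Fin k ⊕ Fin r => Fin (p ^ padicValNat p (Sum.elim pv qv s - 1)))).symm
  have h2 := existsUnique_reindex_h509 (R := 𝒪) Φ
    (fun (i : Fin d) (e : ∀ s : Fin k ⊕ Fin r, Fin (p ^ padicValNat p (Sum.elim pv qv s - 1))) =>
      diamondU (isMid_KG p N₀ (Sum.elim pv qv))
        (gLift N₀ (Sum.elim pv qv) (fun s => pairU g₁ g₂ s ^ (e s : ℕ)))
        (b i : Additive (KG p N₀ (Sum.elim pv qv)) →+ 𝒪))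
    (y : Additive (KG p N₀ (Sum.elim pv qv)) →+ 𝒪) h1
  have h3 : ∀ e : (∀ i : Fin k, Fin (p ^ padicValNat p (pv i - 1))) ×
      (∀ j : Fin r, Fin (p ^ padicValNat p (qv j - 1))),
      (fun s => pairU g₁ g₂ s ^ ((Φ e) s : ℕ)) =
        pairU (fun i' => g₁ i' ^ (e.1 i' : ℕ)) (fun j => g₂ j ^ (e.2 j : ℕ)) := by
    intro e
    funext s
    rcases s with i | j
    · rfl
    · rfl
  simp only [h3] at h2
  exact h2

end Pair

/-! ## The families of Ihara avoidance -/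

section IA

variable {p : ℕ} {k : Type} [Field k] {ρbar : ResidualGaloisRep k} {Smin Piv : Finset ℕ}
  {kk r n : ℕ} {pv : Fin kk → ℕ} {qv : Fin r → ℕ}

theorem prime_sum_h509 (hPiv : IsPivotSet p ρbar Smin Piv)
    (hpvPiv : Finset.univ.image pv = Piv) (hq : IsTWSet p ρbar (Smin ∪ Piv) n qv) :
    ∀ s, (Sum.elim pv qv s).Prime := by
  have hpvmem : ∀ i, pv i ∈ Piv := fun i => by
    rw [← hpvPiv]
    exact Finset.mem_image_of_mem pv (Finset.mem_univ i)
  rintro (i | j)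
  · exact (hPiv (pv i) (hpvmem i)).1
  · exact (hq.2.1 j).1

theorem injective_sum_h509 (hpv : Function.Injective pv)
    (hpvPiv : Finset.univ.image pv = Piv) (hq : IsTWSet p ρbar (Smin ∪ Piv) n qv) :
    Function.Injective (Sum.elim pv qv) := by
  have hpvmem : ∀ i, pv i ∈ Piv := fun i => by
    rw [← hpvPiv]
    exact Finset.mem_image_of_mem pv (Finset.mem_univ i)
  rintro (i | j) (i' | j') hij
  · exact congrArg Sum.inl (hpv hij)
  · exfalso
    have h1 : qv j' ∈ Smin ∪ Piv := by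
      have h2 : pv i = qv j' := hij
      rw [← h2]
      exact Finset.mem_union_right _ (hpvmem i)
    exact (hq.2.1 j').2.1 h1
  · exfalso
    have h1 : qv j ∈ Smin ∪ Piv := by
      have h2 : qv j = pv i' := hij
      rw [h2]
      exact Finset.mem_union_right _ (hpvmem i')
    exact (hq.2.1 j).2.1 h1
  · exact congrArg Sum.inr (hq.1 hij)

end IA

/-- **IA-FREE for every type `t` and all odd `p`**: `K = KG p (wilesLevel p t Smin Smin)
(Sum.elim pv qv)`, `PQ` a package of type `t` at `Σ = Smin ∪ Piv ∪ Q`. -/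
theorem iaFreeT_h509 (p : ℕ) [Fact p.Prime]
    (𝒪 : Type) [CommRing 𝒪] [IsDomain 𝒪] [IsDiscreteValuationRing 𝒪]
    [IsAdicComplete (maximalIdeal 𝒪) 𝒪] [Finite (ResidueField 𝒪)] [CharZero 𝒪]
    (ρbar : ResidualGaloisRep (ResidueField 𝒪)) (Smin : Finset ℕ)
    (h : ResidualHyp p 𝒪 ρbar Smin) (t : PType)
    (Piv : Finset ℕ) (hPiv : IsPivotSet p ρbar Smin Piv)
    (k : ℕ) (pv : Fin k → ℕ) (hpv : Function.Injective pv)
    (hpvPiv : Finset.univ.image pv = Piv)
    (n r : ℕ) (qv : Fin r → ℕ) (hq : IsTWSet p ρbar (Smin ∪ Piv) n qv)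
    [NeZero (wilesLevel p t Smin (Smin ∪ Piv ∪ Finset.univ.image qv))]
    (PQ : HeckePkg p 𝒪 ρbar t Smin (Smin ∪ Piv ∪ Finset.univ.image qv))
    (Uset : Set (ℕ × 𝒪))
    (V : Submodule 𝒪 (Additive (KG p (wilesLevel p t Smin Smin) (Sum.elim pv qv)) →+ 𝒪))
    (hV : IsLocPart (isMid_KG p (wilesLevel p t Smin Smin) (Sum.elim pv qv)) (TsetOf PQ) Uset V) :
    ∃ d : ℕ, ∀ (g₁ : ∀ i : Fin k, (ZMod (pv i))ˣ) (g₂ : ∀ j : Fin r, (ZMod (qv j))ˣ),
      (∀ i, orderOf (g₁ i) = pv i - 1) → (∀ j, orderOf (g₂ j) = qv j - 1) →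
      ∃ b : Fin d → V, ∀ y : V,
        ∃! c : Fin d → (∀ i : Fin k, Fin (p ^ padicValNat p (pv i - 1))) ×
            (∀ j : Fin r, Fin (p ^ padicValNat p (qv j - 1))) → 𝒪,
          (y : Additive (KG p (wilesLevel p t Smin Smin) (Sum.elim pv qv)) →+ 𝒪) =
            ∑ i, ∑ e, c i e •
              diamondU (isMid_KG p (wilesLevel p t Smin Smin) (Sum.elim pv qv))
                (gLift (wilesLevel p t Smin Smin) (Sum.elim pv qv)
                  (pairU (fun i' => g₁ i' ^ (e.1 i' : ℕ)) (fun j => g₂ j ^ (e.2 j : ℕ))))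
                (b i : Additive (KG p (wilesLevel p t Smin Smin) (Sum.elim pv qv)) →+ 𝒪) :=
  free_pair_of_pkg_h509 h PQ (wilesLevel p t Smin Smin)
    (wilesLevel_ne_zero (Fact.out : p.Prime) h.hSmin h.hSmin) pv qv
    (prime_sum_h509 hPiv hpvPiv hq) (injective_sum_h509 hpv hpvPiv hq) hV

/-- **IA-FREE for all odd `p`**: `IAFreeStatement` VERBATIM without the binder `5 ≤ p`. -/
theorem iaFreeOdd_h509 :
    ∀ (p : ℕ) [Fact p.Prime]
      (𝒪 : Type) [CommRing 𝒪] [IsDomain 𝒪] [IsDiscreteValuationRing 𝒪]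
      [IsAdicComplete (maximalIdeal 𝒪) 𝒪] [Finite (ResidueField 𝒪)] [CharZero 𝒪]
      (ρbar : ResidualGaloisRep (ResidueField 𝒪)) (Smin : Finset ℕ)
      (_h : ResidualHyp p 𝒪 ρbar Smin)
      (_hflat : (GaloisRepAdic.ofResidualGaloisRep ρbar).IsFlatAt p)
      (Piv : Finset ℕ) (_hPiv : IsPivotSet p ρbar Smin Piv)
      (k : ℕ) (pv : Fin k → ℕ) (_hpv : Function.Injective pv)
      (_hpvPiv : Finset.univ.image pv = Piv)
      (n r : ℕ) (qv : Fin r → ℕ) (_hq : IsTWSet p ρbar (Smin ∪ Piv) n qv)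
      [NeZero (wilesLevel p .flat Smin (Smin ∪ Piv ∪ Finset.univ.image qv))]
      (PQ : HeckePkg p 𝒪 ρbar .flat Smin (Smin ∪ Piv ∪ Finset.univ.image qv))
      (α : Fin r → 𝒪) (_hα : IsFrobLift ρbar qv α)
      (V : Submodule 𝒪 (XIA p Smin pv qv 𝒪)),
      IsIAPart PQ α V → ∃ d : ℕ, IAFreeAt V d := by
  intro p _ 𝒪 _ _ _ _ _ _ ρbar Smin h _hflat Piv hPiv k pv hpv hpvPiv n r qv hq _ PQ α _hα V hV
  exact iaFreeT_h509 p 𝒪 ρbar Smin h .flat Piv hPiv k pv hpv hpvPiv n r qv hq PQ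
    (UsetOf qv α) V hV

end Fermat.Agent.S38.H509

end
-- ===== PACK-END S38/H509/IAFreeOddIA.lean

-- ===== PACK-BEGIN S38/H31/MinZeroAux.lean
section



/-!
# Cell (B2) of the S59 moonshot, leaf IA-MINZERO, piece Z4 = KERCOR-LOC WITHOUT (Ell) (helper31)

`eq_zero_of_cor_eq_zero_aux31` : the statement of `S38.H59.eq_zero_of_cor_eq_zero59` with the
hypothesis `5 ≤ p` (only used for (Ell): the elements of finite order of `Γ₀(M)` die under `κ`)
replaced by an AUXILIARY PRIME `r ∤ M`: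

* (Ell at `r`) the elements of finite order of `Γ₀(M) ∩ Γ₀(r)` die under `κ`
  (`MFree.H779.ellAux_h779`: automatic if `D` is a `3`-group and `r ≡ 2 mod 3`);
* `T_r = heckeKer hr κ hΓ1` is ONTO on the image `e X` of the projector.

If `cor` vanishes on `e X`, then `e X = 0`.

Proof: `x = T_r y` with `y ∈ e X`; `cor y = 0`, so `T_r y ∈ I_D X`
(`MFree.H779.heckeKer_mem_augSub`, no (Ell) on `Γ₀(M)` needed); hence `V = e X ⊆ I_D V`, and the
Nakayama argument of helper59 (`le_of_le_sup_map_nilp59`, `exists_sub_one_pow_eq59`) gives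
`V ⊆ ϖ V`, so `V = 0` by separatedness.
-/

set_option autoImplicit false
set_option linter.style.haveILetI false
set_option linter.unusedSectionVars false

namespace Fermat.Agent.S38.H31

open CongruenceSubgroup Matrix.SpecialLinearGroup
open Fermat.Agent.S59.MFree Fermat.Agent.S59.MFree.H587 Fermat.Agent.S59.MFree.H941
open Fermat.Agent.S38.H59
open scoped MatrixGroups

/-- **Z4 = KERCOR-LOC for every odd `p`, auxiliary prime form.** -/
theorem eq_zero_of_cor_eq_zero_aux31 {p : ℕ} [Fact p.Prime] (hp2 : p ≠ 2) {M : ℕ} (hM : M ≠ 0)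
    {D : Type} [Group D] [Fintype D] (κ : Gamma0 M →* D)
    (hΓ1 : ∀ γ : Gamma0 M, ((((γ : SL(2, ℤ)) 1 1 : ℤ)) : ZMod M) = 1 → κ γ = 1)
    (hκ : Function.Surjective κ) (hcard : ∃ n : ℕ, Fintype.card D = p ^ n)
    {𝒪 : Type} [CommRing 𝒪] [IsDomain 𝒪] [CharZero 𝒪] (ϖ : 𝒪) (hpϖ : ϖ ∣ (p : 𝒪))
    (hsep : ∀ a : 𝒪, (∀ n : ℕ, ϖ ^ n ∣ a) → a = 0)
    (e : (Additive (kerSub κ) →+ 𝒪) →ₗ[𝒪] (Additive (kerSub κ) →+ 𝒪))
    (he : ∀ x, e (e x) = e x)
    (hcomm : ∀ (g : Gamma0 M) x, e (conjAct κ g x) = conjAct κ g (e x))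
    (hcor : ∀ x, e x = x → cor κ x = 0)
    {r : ℕ} [Fact r.Prime] (hr : ¬ r ∣ M)
    (hellr : ∀ g : Gamma0 M, (g : SL(2, ℤ)) ∈ Gamma0 r → IsOfFinOrder g → κ g = 1)
    (hsurj : ∀ y, e y = y → ∃ x, e x = x ∧ heckeKer hr κ hΓ1 x = y) :
    ∀ x, e x = x → x = 0 := by
  classical
  obtain ⟨n, hn⟩ := hcard
  haveI : NeZero M := ⟨hM⟩
  have hp : p.Prime := Fact.out
  have hpowD : ∀ d : D, d ^ (p ^ n) = 1 := fun d => by
    rw [← hn]
    exact pow_card_eq_one
  -- the operators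
  let X : Type := Additive (kerSub κ) →+ 𝒪
  let sec : D → Gamma0 M := Function.surjInv hκ
  have hsec : ∀ d, κ (sec d) = d := Function.surjInv_eq hκ
  let δ : D → Module.End 𝒪 X := fun d => H761.conjL κ (sec d)
  let s : D → Module.End 𝒪 X := fun d => δ d - 1
  let V : Submodule 𝒪 X := LinearMap.range e
  let B : Submodule 𝒪 X := V.map (ϖ • (1 : Module.End 𝒪 X))
  have hVe : ∀ x ∈ V, e x = x := by
    rintro x ⟨y, rfl⟩
    exact he y
  have heV : ∀ x, e x ∈ V := fun x => ⟨x, rfl⟩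
  have hconj_comm : ∀ g g' : Gamma0 M, Commute (H761.conjL (O := 𝒪) κ g)
      (H761.conjL κ g') := by
    intro g g'
    apply LinearMap.ext
    intro φ
    show H761.conjL κ g (H761.conjL κ g' φ) = H761.conjL κ g' (H761.conjL κ g φ)
    rw [H761.conjL_apply, H761.conjL_apply, H761.conjL_apply, H761.conjL_apply,
      ← H761.conjAct_mul, ← H761.conjAct_mul]
    apply H57.conjAct_congr57
    apply kappa_congr κ hΓ1
    rw [eisD_mul, eisD_mul, mul_comm]
  have hss : ∀ d d', Commute (s d) (s d') := by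
    intro d d'
    exact commute_sub_one59 (E := Module.End 𝒪 X) (δ d) (δ d') (hconj_comm _ _)
  have hes : ∀ d x, e (s d x) = s d (e x) := by
    intro d x
    show e (conjAct κ (sec d) x - x) = conjAct κ (sec d) (e x) - e x
    rw [map_sub, hcomm]
  have hW : ∀ d, V.map (s d) ≤ V := by
    rintro d x ⟨y, hy, rfl⟩
    rw [← hVe y hy, ← hes]
    exact heV _
  have hB : ∀ d, B.map (s d) ≤ B := by
    rintro d x ⟨y, ⟨v, hv, rfl⟩, rfl⟩
    refine ⟨s d v, hW d ⟨v, hv, rfl⟩, ?_⟩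
    simp only [LinearMap.smul_apply, Module.End.one_apply, map_smul]
  have hWpow : ∀ d (k : ℕ), V.map ((s d) ^ k) ≤ V := by
    intro d k
    induction k with
    | zero =>
      rintro x ⟨y, hy, rfl⟩
      simpa using hy
    | succ k ih =>
      rintro x ⟨y, hy, rfl⟩
      rw [pow_succ, Module.End.mul_apply]
      exact ih ⟨s d y, hW d ⟨y, hy, rfl⟩, rfl⟩
  have hδpow : ∀ d, (δ d) ^ p ^ n = 1 := by
    intro d
    show (H761.conjL κ (sec d)) ^ p ^ n = 1
    rw [conjL_pow59]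
    apply LinearMap.ext
    intro φ
    rw [H761.conjL_apply, Module.End.one_apply]
    have h1 : κ (sec d ^ p ^ n) = κ 1 := by rw [map_pow, hpowD, map_one]
    rw [H57.conjAct_congr57 κ φ h1.symm, H761.conjAct_one]
  obtain ⟨u, hu⟩ := hpϖ
  have hnil : ∀ d, ∃ k : ℕ, V.map ((s d) ^ k) ≤ B := by
    intro d
    refine ⟨p ^ n, ?_⟩
    obtain ⟨r', hr', -⟩ := exists_sub_one_pow_eq59 (E := Module.End 𝒪 X) hp hp2 (δ d) n (hδpow d)
    rintro x ⟨v, hv, rfl⟩
    have h1 : ((s d) ^ p ^ n) v ∈ V := hWpow d _ ⟨v, hv, rfl⟩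
    have h2 : ((s d) ^ p ^ n) v = (p : 𝒪) • r' v := by
      show ((δ d - 1) ^ p ^ n) v = _
      rw [hr', Module.End.mul_apply]
      have h3 : ((p : ℕ) : Module.End 𝒪 X) = (p : 𝒪) • (1 : Module.End 𝒪 X) := by
        rw [Nat.cast_smul_eq_nsmul, nsmul_eq_mul, mul_one]
      rw [h3, LinearMap.smul_apply, Module.End.one_apply]
    refine ⟨u • e (r' v), V.smul_mem u (heV _), ?_⟩
    rw [LinearMap.smul_apply, Module.End.one_apply, smul_smul, ← hu, ← map_smul, ← h2]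
    exact hVe _ h1
  have hker : V ≤ (⨆ d ∈ (Finset.univ : Finset D), V.map (s d)) ⊔ B := by
    intro x hx
    apply Submodule.mem_sup_left
    have hex : e x = x := hVe x hx
    -- the auxiliary prime: `x = T_r y`, `cor y = 0`
    obtain ⟨y, hy, hyx⟩ := hsurj x hex
    have hmem : x ∈ augSub κ 𝒪 := by
      rw [← hyx]
      exact H779.heckeKer_mem_augSub hr κ hΓ1 hellr 𝒪 y (hcor y hy)
    unfold augSub at hmem
    rw [← hex]
    refine AddSubgroup.closure_induction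
      (p := fun w _ => e w ∈ ⨆ d ∈ (Finset.univ : Finset D), V.map (s d)) ?_ ?_ ?_ ?_ hmem
    · rintro w ⟨g, y, -, rfl⟩
      refine Submodule.mem_iSup_of_mem (κ g)
        (Submodule.mem_iSup_of_mem (Finset.mem_univ _) ⟨e y, heV y, ?_⟩)
      show H761.conjL κ (sec (κ g)) (e y) - e y = e (conjAct κ g y - y)
      rw [H761.conjL_apply, H57.conjAct_congr57 κ (e y) (hsec (κ g)).symm, map_sub, hcomm]
    · rw [map_zero]
      exact Submodule.zero_mem _
    · intro w w' _ _ hw hw'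
      rw [map_add]
      exact Submodule.add_mem _ hw hw'
    · intro w _ hw
      rw [map_neg]
      exact Submodule.neg_mem _ hw
  have hVB : V ≤ B := le_of_le_sup_map_nilp59 s hss V B hW hB hnil Finset.univ hker
  -- separatedness
  have hdiv : ∀ k : ℕ, ∀ x ∈ V, ∃ z ∈ V, x = ϖ ^ k • z := by
    intro k
    induction k with
    | zero => exact fun x hx => ⟨x, hx, by simp⟩
    | succ k ih =>
      intro x hx
      obtain ⟨z, hz, rfl⟩ := ih x hx
      obtain ⟨z', hz', hzz'⟩ := hVB hz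
      refine ⟨z', hz', ?_⟩
      rw [← hzz', LinearMap.smul_apply, Module.End.one_apply, smul_smul, pow_succ]
  intro x hx
  have hxV : x ∈ V := ⟨x, hx⟩
  refine AddMonoidHom.ext fun g => ?_
  apply hsep
  intro k
  obtain ⟨z, -, hz⟩ := hdiv k x hxV
  rw [hz]
  exact ⟨z g, rfl⟩

end Fermat.Agent.S38.H31

end
-- ===== PACK-END S38/H31/MinZeroAux.lean

-- ===== PACK-BEGIN S38/H31/MinZeroOdd.lean
section






/-!
# Cell (B2) of the S59 moonshot: leaf IA-MINZERO FOR EVERY ODD `p` and EVERY type `t` (helper31)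

* `cor_eq_zero_of_min31` : Z1 + Z5 + Z2 of helper59's `minZero_gen59`, which never use `5 ≤ p`:
  under (MIN) at the base level `N₀`, `cor` kills the localisation `V'` of `X_K(𝒪)`,
  `K = Γ₀(N₀) ∩ Γ_H(qv)`.
* `minZero_gen_odd31` : `minZero_gen59` WITHOUT `5 ≤ p` (any base level `N₀`, any `Sig`, any
  `t : PType`): for `p ≥ 5` it is `minZero_gen59`; for `p = 3` the piece Z4 is
  `eq_zero_of_cor_eq_zero_aux31` at an auxiliary prime `r ≡ 2 mod 3`, `(r, c) ∈ TsetOf PQ`,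
  `c` a unit (`Aut.H186.exists_aux3_tset_h186`), (Ell at `r`) = `MFree.H779.ellAux_h779`,
  `T_r` onto on `V'` = `Aut.H31.locPart_TK_sub_bij_h31` at `u = 0`.
* `IAMinZeroOddStatement31` / `iaMinZeroOdd31` : `Hecke.IAMinZeroStatement` VERBATIM minus the
  binder `_hp5`; `iaMinZero_of_odd31` recovers the frozen leaf.
-/

set_option autoImplicit false
set_option linter.style.haveILetI false

open Polynomial IsLocalRing CongruenceSubgroup
open scoped MatrixGroups

namespace Fermat.Agent.S38.H31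

open Fermat.Agent.S59.Arch Fermat.Agent.S59.TW.H959 Fermat.Agent.S59.TW Fermat.Agent.S59.H765
open Fermat.Agent.S59.TW.H653 Fermat.Agent.S59.TW.Aut Fermat.Agent.S59.MFree
open Fermat.Agent.S59.MFree.H587
open Fermat.Agent.S38.IA Fermat.Agent.S38.IA.Hecke Fermat.Agent.S38.H916
open Fermat.Agent.S38.H719 Fermat.Agent.S38.H841 Fermat.Agent.S59.H105
open Fermat.Agent.S38.H59
open CuspForm

section Gen

variable (p : ℕ) [Fact p.Prime]
  (𝒪 : Type) [CommRing 𝒪] [IsDomain 𝒪] [IsDiscreteValuationRing 𝒪]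
  [IsAdicComplete (maximalIdeal 𝒪) 𝒪] [Finite (ResidueField 𝒪)] [CharZero 𝒪]
  (ρbar : ResidualGaloisRep (ResidueField 𝒪))

/-- **Z1 + Z5 + Z2, every odd `p`**: under (MIN) at the base level, `cor` kills the localised
part. -/
theorem cor_eq_zero_of_min31 (Smin : Finset ℕ) (h : ResidualHyp p 𝒪 ρbar Smin)
    (N₀ : ℕ) (hN₀ : N₀ ≠ 0) (Sig : Finset ℕ) (hSigP : ∀ q ∈ Sig, q.Prime) (hsub : Smin ⊆ Sig)
    (hN₀S : ∀ q : ℕ, q.Prime → q ∣ N₀ → q ∈ Sig)
    (hmin : ¬ ResModular 𝒪 ρbar N₀ Sig)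
    (t : PType) [NeZero (wilesLevel p t Smin Sig)] (PQ : HeckePkg p 𝒪 ρbar t Smin Sig)
    {r : ℕ} (qv : Fin r → ℕ) (hinj : Function.Injective qv) (hqvP : ∀ j, (qv j).Prime)
    (hqvS : ∀ j, qv j ∈ Sig) (hqvN : ∀ j, ¬ qv j ∣ N₀)
    (α : Fin r → 𝒪) (hunit : ∀ j, IsUnit (α j ^ 2 - 1))
    (V' : Submodule 𝒪 (Additive (KG p N₀ qv) →+ 𝒪))
    (hV' : IsLocPart (isMid_KG p N₀ qv) (TsetOf PQ) (UsetOf qv α) V')
    (x : Additive (kerSub (gKappa p N₀ qv)) →+ 𝒪) (hxV : x ∈ V') :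
    cor (gKappa p N₀ qv) x = 0 := by
  classical
  have hp : p.Prime := Fact.out
  have hM : NeZero (gLevel N₀ qv) := neZero_gLevel_h916 N₀ qv hN₀ hqvP
  haveI : NeZero N₀ := ⟨hN₀⟩
  have hqne : ∀ s, NeZero (qv s) := fun s => ⟨(hqvP s).ne_zero⟩
  obtain ⟨ϖ, hϖ0, hϖ⟩ := exists_uniformizer 𝒪
  have hϖm : ϖ ∈ maximalIdeal 𝒪 := by
    rw [hϖ]
    exact Ideal.mem_span_singleton_self ϖ
  have hsepO : ∀ a : 𝒪, (∀ n : ℕ, ∃ z : 𝒪, a = ϖ ^ n • z) → a = 0 := fun a ha => o_sep hϖ a ha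
  have hΓ1 := gKappa_trivial_h916 p N₀ qv
  -- the eigen-data
  have hTmem : ∀ l : ℕ, l.Prime → l ∉ Sig → ¬ l ∣ wilesLevel p t Smin Sig :=
    fun l hl hlS hdvd =>
      hlS (_root_.Fermat.Agent.S59.Arch.mem_of_prime_dvd_wilesLevel hp h.hSmin hSigP h.hpSmin hsub l hl hdvd)
  have hcoe : ∀ l : ℕ, l ∉ Sig → l ∉ (↑Sig : Set ℕ) := fun l hl hl' => hl (Finset.mem_coe.mp hl')
  let c : ℕ → 𝒪 := fun l =>
    if hl : l.Prime ∧ l ∉ Sig then
      (residue_surjective (PQ.θ (heckeAlgebra.T hl.1 (hTmem l hl.1 hl.2) (hcoe l hl.2)))).choose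
    else 0
  have hcres : ∀ (l : ℕ) (hl : l.Prime) (hlS : l ∉ Sig),
      residue 𝒪 (c l) = PQ.θ (heckeAlgebra.T hl (hTmem l hl hlS) (hcoe l hlS)) := by
    intro l hl hlS
    simp only [c, dif_pos (And.intro hl hlS)]
    exact (residue_surjective
      (PQ.θ (heckeAlgebra.T hl (hTmem l hl hlS) (hcoe l hlS)))).choose_spec
  let α' : ℕ → 𝒪 := fun q' => if hq' : ∃ j, qv j = q' then α hq'.choose else 0
  have hα' : ∀ j, α' (qv j) = α j := by
    intro j
    have hex : ∃ i, qv i = qv j := ⟨j, rfl⟩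
    simp only [α', dif_pos hex]
    exact congrArg α (hinj hex.choose_spec)
  let Ipr : Set ℕ := {l | l.Prime ∧ l ∉ Sig}
  have hnd : (List.ofFn qv).Nodup := List.nodup_ofFn.mpr hinj
  -- Z1: the part
  have hpart : IsPartKer (gKappa p N₀ qv) hΓ1 ϖ Ipr c {q' | q' ∈ List.ofFn qv} α' x := by
    refine ⟨fun l _ hl hlI => ?_, fun q' _ hq' hq'Q => ?_⟩
    · have hlp : l.Prime := hlI.1
      have hmem : (l, c l) ∈ TsetOf PQ :=
        ⟨hlp, hTmem l hlp hlI.2, hcoe l hlI.2, hcres l hlp hlI.2⟩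
      obtain ⟨m, hm⟩ := isLocPart_nilpT (isMid_KG p N₀ qv) hV' hϖ hl hmem
      have hnil := topNilAt_of_nilp59 V' (shiftE 𝒪 (TKL (isMid_KG p N₀ qv) 𝒪 hl) (c l)) ϖ m hm hxV
      have heq : shiftBy (heckeKerLin hl (gKappa p N₀ qv) hΓ1 𝒪) (c l) =
          shiftE 𝒪 (TKL (isMid_KG p N₀ qv) 𝒪 hl) (c l) := by
        apply LinearMap.ext
        intro y
        show heckeKerLin hl (gKappa p N₀ qv) hΓ1 𝒪 y - c l • y =
          TK (gLevel N₀ qv) (kerSub (gKappa p N₀ qv)) l y - c l • y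
        congr 1
        exact heckeKer_eq_TK hl (gKappa p N₀ qv) hΓ1 y
      rw [heq]
      exact hnil
    · obtain ⟨j, rfl⟩ := List.mem_ofFn.mp hq'Q
      have hmem : (qv j, α j) ∈ UsetOf qv α := ⟨j, rfl⟩
      obtain ⟨m, hm⟩ := isLocPart_nilpU (isMid_KG p N₀ qv) hV' hϖ hq' hmem
      have hnil := topNilAt_of_nilp59 V' (shiftE 𝒪 (UKL (isMid_KG p N₀ qv) 𝒪 hq') (α j)) ϖ m hm hxV
      have heq : shiftBy (UqKerLin (gKappa p N₀ qv) hΓ1 hq' 𝒪) (α' (qv j)) =
          shiftE 𝒪 (UKL (isMid_KG p N₀ qv) 𝒪 hq') (α j) := by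
        rw [hα']
        apply LinearMap.ext
        intro y
        rfl
      rw [heq]
      exact hnil
  -- Z5: (MIN) at level `N₀`
  have hc : ∀ (l : ℕ), l.Prime → l ∉ Sig →
      ∀ B : ValuationSubring Fermat.Agent.S31.Qb, B.LiesOverPrime l →
        ∀ σ : Fermat.Agent.S31.GQ, B.IsFrobeniusAt σ l →
          LinearMap.charpoly (ρbar.ρ σ) =
            X ^ 2 - C (residue 𝒪 (c l)) * X + C ((l : ResidueField 𝒪)) := by
    intro l hl hlS B hB σ hσ
    rw [hcres l hl hlS]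
    exact Fermat.Agent.S59.TW.Aut.H31.resFrobCond_of_pkg PQ l hl (hTmem l hl hlS) (hcoe l hlS)
      B hB σ hσ
  have hmin' : ∀ y : Additive (Gamma0 N₀) →+ 𝒪, IsPart 𝒪 𝒪 ϖ Ipr c ∅ α' N₀ y → y = 0 :=
    dictMin_isPart_h841 p 𝒪 ρbar h.hp2 h.hp𝒪 h.habs h.hsplit N₀ Sig (hsub h.hpSmin) hN₀S hmin
      ϖ hϖm c hc Ipr (fun l hl hlS => ⟨hl, hlS⟩) α'
  -- Z2: the chain
  have hLall : ∀ q' ∈ List.ofFn qv,
      q'.Prime ∧ ¬ q' ∣ N₀ ∧ q' ∉ Ipr ∧ IsUnit (α' q' ^ 2 - 1) := by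
    intro q' hq'
    obtain ⟨j, rfl⟩ := List.mem_ofFn.mp hq'
    exact ⟨hqvP j, hqvN j, fun hI => hI.2 (hqvS j), by rw [hα']; exact hunit j⟩
  have hchain := eq_zero_of_isPart_chain (O := 𝒪) (A := 𝒪) (ϖ := ϖ) (Ipr := Ipr) (c := c)
    (α := α') hsepO (List.ofFn qv) N₀ ∅ hN₀ hnd hLall hmin'
  have hchain' : ∀ (M : ℕ), M = (List.ofFn qv).foldl (· * ·) N₀ →
      ∀ y : Additive (Gamma0 M) →+ 𝒪,
        IsPart 𝒪 𝒪 ϖ Ipr c (∅ ∪ {q' | q' ∈ List.ofFn qv}) α' M y → y = 0 := by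
    intro M hMeq
    subst hMeq
    exact hchain
  refine hchain' _ (foldl_ofFn_eq_gLevel59 N₀ qv).symm _ (hpart.cor.mono ?_)
  intro z hz
  rcases hz with hz | hz
  · exact absurd hz (Set.notMem_empty z)
  · exact hz

/-- **IA-MINZERO, general form, EVERY ODD `p`** (`p ≠ 2` is a field of `ResidualHyp`), every base
level `N₀`, every `Sig`, every type `t`. -/
theorem minZero_gen_odd31 (Smin : Finset ℕ) (h : ResidualHyp p 𝒪 ρbar Smin)
    (N₀ : ℕ) (hN₀ : N₀ ≠ 0) (Sig : Finset ℕ) (hSigP : ∀ q ∈ Sig, q.Prime) (hsub : Smin ⊆ Sig)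
    (hN₀S : ∀ q : ℕ, q.Prime → q ∣ N₀ → q ∈ Sig)
    (hmin : ¬ ResModular 𝒪 ρbar N₀ Sig)
    (t : PType) [NeZero (wilesLevel p t Smin Sig)] (PQ : HeckePkg p 𝒪 ρbar t Smin Sig)
    {r : ℕ} (qv : Fin r → ℕ) (hinj : Function.Injective qv) (hqvP : ∀ j, (qv j).Prime)
    (hqvS : ∀ j, qv j ∈ Sig) (hqvN : ∀ j, ¬ qv j ∣ N₀)
    (α : Fin r → 𝒪) (hunit : ∀ j, IsUnit (α j ^ 2 - 1))
    (V' : Submodule 𝒪 (Additive (KG p N₀ qv) →+ 𝒪))
    (hV' : IsLocPart (isMid_KG p N₀ qv) (TsetOf PQ) (UsetOf qv α) V') : V' = ⊥ := by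
  classical
  by_cases hp5 : 5 ≤ p
  · exact minZero_gen59 p 𝒪 ρbar hp5 Smin h N₀ hN₀ Sig hSigP hsub hN₀S hmin t PQ qv hinj hqvP
      hqvS hqvN α hunit V' hV'
  -- `p = 3`
  have hp : p.Prime := Fact.out
  have hp3 : p = 3 := by
    have h2 := h.hp2
    have hlt : p < 5 := not_le.mp hp5
    have h1 := hp.two_le
    have h4 : p ≠ 4 := by
      rintro rfl
      exact absurd hp (by decide)
    omega
  have hM : NeZero (gLevel N₀ qv) := neZero_gLevel_h916 N₀ qv hN₀ hqvP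
  haveI : NeZero N₀ := ⟨hN₀⟩
  obtain ⟨ϖ, hϖ0, hϖ⟩ := exists_uniformizer 𝒪
  have hϖp : ϖ ∣ (p : 𝒪) := by
    have := h.hp𝒪
    rw [hϖ] at this
    exact Ideal.mem_span_singleton.mp this
  have hsepO : ∀ a : 𝒪, (∀ n : ℕ, ∃ z : 𝒪, a = ϖ ^ n • z) → a = 0 := fun a ha => o_sep hϖ a ha
  -- `κ`
  have hred := gRed_surjective_h916 N₀ qv hN₀ hinj hqvP
  have hκ := gKappa_surjective_h916 p N₀ qv hred
  letI : Fintype (GDelta p qv) := Fintype.ofFinite _
  have hcard : ∃ a : ℕ, Fintype.card (GDelta p qv) = p ^ a :=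
    ⟨_, by rw [← Nat.card_eq_fintype_card]; exact card_gDelta_h916 p qv hqvP⟩
  have hcard3 : ∃ a : ℕ, Fintype.card (GDelta p qv) = 3 ^ a := by
    obtain ⟨a, ha⟩ := hcard
    exact ⟨a, by rw [ha, hp3]⟩
  have hΓ1 := gKappa_trivial_h916 p N₀ qv
  obtain ⟨e, he, heV, hVe, -, -, hD, -⟩ := hV'.exists_proj
  have hconj : ∀ (g : Gamma0 (gLevel N₀ qv))
      (z : Additive (kerSub (gKappa p N₀ qv)) →+ 𝒪),
      conjAct (gKappa p N₀ qv) g z =
        diamondU (isMid_KG p N₀ qv) (dUnit (gLevel N₀ qv) g⁻¹) z := by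
    intro g z
    rw [conjAct_eq_diamond (gKappa p N₀ qv) hΓ1 g z, diamond_eq_diamondU]
    rfl
  have hcor : ∀ x : Additive (kerSub (gKappa p N₀ qv)) →+ 𝒪, e x = x →
      cor (gKappa p N₀ qv) x = 0 := by
    intro x hx
    have hxV : x ∈ V' := by
      rw [← hx]
      exact heV x
    exact cor_eq_zero_of_min31 p 𝒪 ρbar Smin h N₀ hN₀ Sig hSigP hsub hN₀S hmin t PQ qv hinj hqvP
      hqvS hqvN α hunit V' hV' x hxV
  -- the auxiliary prime
  obtain ⟨r', c', hmem, hr'P, -, hr'S, -, hr'3, hc'⟩ :=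
    Fermat.Agent.S59.TW.Aut.H186.exists_aux3_tset_h186 hp3 h PQ ∅
  haveI : Fact r'.Prime := ⟨hr'P⟩
  have hr'M : ¬ r' ∣ gLevel N₀ qv := by
    intro hdvd
    unfold gLevel at hdvd
    rcases (Nat.Prime.dvd_mul hr'P).mp hdvd with h1 | h1
    · exact hr'S (hN₀S r' hr'P h1)
    · obtain ⟨j, -, hj⟩ := (Prime.dvd_finsetProd_iff hr'P.prime _).mp h1
      have : r' = qv j := (Nat.prime_dvd_prime_iff_eq hr'P (hqvP j)).mp hj
      exact hr'S (this ▸ hqvS j)
  have hbij := Fermat.Agent.S59.TW.Aut.H31.locPart_TK_sub_bij_h31 (u := (0 : 𝒪)) hV' hr'M hmem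
    (by rw [sub_zero]; exact hc')
  have hsurj : ∀ y : Additive (kerSub (gKappa p N₀ qv)) →+ 𝒪, e y = y →
      ∃ x, e x = x ∧ heckeKer hr'M (gKappa p N₀ qv) hΓ1 x = y := by
    intro y hy
    have hyV : y ∈ V' := by
      rw [← hy]
      exact heV y
    obtain ⟨x, hxV, hxy⟩ := hbij.1 y hyV
    refine ⟨x, hVe x hxV, ?_⟩
    rw [heckeKer_eq_TK hr'M (gKappa p N₀ qv) hΓ1 x]
    rw [zero_smul, sub_zero] at hxy
    exact hxy
  have hellr : ∀ g : Gamma0 (gLevel N₀ qv), (g : SL(2, ℤ)) ∈ Gamma0 r' → IsOfFinOrder g →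
      gKappa p N₀ qv g = 1 := fun g hg hfin =>
    H779.ellAux_h779 (gLevel N₀ qv) r' hr'3 (GDelta p qv) (gKappa p N₀ qv) hcard3 g hg hfin
  have hzero := eq_zero_of_cor_eq_zero_aux31 h.hp2 (NeZero.ne (gLevel N₀ qv))
    (gKappa p N₀ qv) hΓ1 hκ hcard ϖ hϖp (fun a ha => hsepO a fun n => by
      obtain ⟨z, hz⟩ := ha n
      exact ⟨z, hz⟩) e he
    (fun g x => by rw [hconj, hconj]; exact hD _ x) hcor hr'M hellr hsurj
  rw [eq_bot_iff]
  intro x hx
  rw [Submodule.mem_bot]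
  exact hzero x (hVe x hx)

end Gen

/-! ## The leaf, without `5 ≤ p` -/

/-- `Hecke.IAMinZeroStatement` VERBATIM minus the binder `_hp5 : 5 ≤ p`. -/
def IAMinZeroOddStatement31 : Prop :=
  ∀ (p : ℕ) [Fact p.Prime]
    (𝒪 : Type) [CommRing 𝒪] [IsDomain 𝒪] [IsDiscreteValuationRing 𝒪]
    [IsAdicComplete (maximalIdeal 𝒪) 𝒪] [Finite (ResidueField 𝒪)] [CharZero 𝒪]
    (ρbar : ResidualGaloisRep (ResidueField 𝒪)) (Smin : Finset ℕ)
    (_h : ResidualHyp p 𝒪 ρbar Smin)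
    (_hflat : (GaloisRepAdic.ofResidualGaloisRep ρbar).IsFlatAt p)
    (Piv : Finset ℕ) (_hPiv : IsPivotSet p ρbar Smin Piv)
    (_hmin : ∀ q ∈ Piv, ∀ S : Finset ℕ,
      ¬ ResModular 𝒪 ρbar (ribetLevel p Smin (Piv.erase q)) S)
    (n r : ℕ) (qv : Fin r → ℕ) (_hq : IsTWSet p ρbar (Smin ∪ Piv) n qv)
    [NeZero (wilesLevel p .flat Smin (Smin ∪ Piv ∪ Finset.univ.image qv))]
    (PQ : HeckePkg p 𝒪 ρbar .flat Smin (Smin ∪ Piv ∪ Finset.univ.image qv))
    (α : Fin r → 𝒪) (_hα : IsFrobLift ρbar qv α)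
    (q : ℕ) (_hqP : q ∈ Piv)
    (V' : Submodule 𝒪 (Additive (KG p (ribetLevel p Smin (Piv.erase q)) qv) →+ 𝒪)),
    IsLocPart (isMid_KG p (ribetLevel p Smin (Piv.erase q)) qv) (TsetOf PQ) (UsetOf qv α) V' →
      V' = ⊥

/-- **IA-MINZERO for every odd `p`** (type `.flat`). -/
theorem iaMinZeroOdd31 : IAMinZeroOddStatement31 := by
  intro p _ 𝒪 _ _ _ _ _ _ ρbar Smin h _ Piv hPiv hmin n r qv hq _ PQ α hα q hqP V' hV'
  have hPivP : ∀ q' ∈ Piv, q'.Prime := fun q' hq' => (hPiv q' hq').1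
  have hPivP' : ∀ q' ∈ Piv.erase q, q'.Prime := fun q' hq' => hPivP q' (Finset.mem_of_mem_erase hq')
  have hqvP : ∀ j, (qv j).Prime := fun j => (hq.2.1 j).1
  have hSigP : ∀ q' ∈ Smin ∪ Piv ∪ Finset.univ.image qv, q'.Prime := by
    intro q' hq'
    rcases Finset.mem_union.mp hq' with h1 | h1
    · rcases Finset.mem_union.mp h1 with h2 | h2
      · exact h.hSmin q' h2
      · exact hPivP q' h2
    · obtain ⟨j, -, rfl⟩ := Finset.mem_image.mp h1
      exact hqvP j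
  have hsub : Smin ⊆ Smin ∪ Piv ∪ Finset.univ.image qv := fun x hx =>
    Finset.mem_union_left _ (Finset.mem_union_left _ hx)
  have hLS : ∀ q' : ℕ, q'.Prime → q' ∣ ribetLevel p Smin (Piv.erase q) → q' ∈ Smin ∪ Piv := by
    intro q' hq' hdvd
    rcases Finset.mem_union.mp (mem_of_dvd_ribetLevel59 h.hSmin hPivP' hq' hdvd) with h1 | h1
    · exact Finset.mem_union_left _ h1
    · exact Finset.mem_union_right _ (Finset.mem_of_mem_erase h1)
  exact minZero_gen_odd31 p 𝒪 ρbar Smin h (ribetLevel p Smin (Piv.erase q))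
    (ribetLevel_ne_zero59 h.hSmin hPivP') (Smin ∪ Piv ∪ Finset.univ.image qv) hSigP hsub
    (fun q' hq' hdvd => Finset.mem_union_left _ (hLS q' hq' hdvd))
    (hmin q hqP _) .flat PQ qv hq.1 hqvP
    (fun j => Finset.mem_union_right _ (Finset.mem_image_of_mem qv (Finset.mem_univ j)))
    (fun j hdvd => (hq.2.1 j).2.1 (hLS (qv j) (hqvP j) hdvd))
    α (fun j => isUnit_sq_sub_one59 p 𝒪 ρbar h.hdet (Smin ∪ Piv)
      (Finset.mem_union_left _ h.hpSmin) n r qv hq α hα j)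
    V' hV'

/-- The frozen leaf of the row HARD is a special case. -/
theorem iaMinZero_of_odd31 : IAMinZeroStatement :=
  fun p _ _ 𝒪 _ _ _ _ _ _ ρbar Smin h hflat Piv hPiv hmin n r qv hq _ PQ α hα q hqP V' hV' =>
    iaMinZeroOdd31 p 𝒪 ρbar Smin h hflat Piv hPiv hmin n r qv hq PQ α hα q hqP V' hV'

end Fermat.Agent.S38.H31

end
-- ===== PACK-END S38/H31/MinZeroOdd.lean

-- ===== PACK-BEGIN S38T/H31/MinZeroT.lean
section



/-!
# Row S59, cell (B2) HECKE-T: the leaf IA-MINZERO-T  (helper31)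

`iaMinZeroT_h31 : Hecke.IAMinZeroStatement_T` VERBATIM (`S38T/IA/Hecke/Spec4.lean`, helper3):
for every odd prime `p` and both types `ty` at `p`, under (MIN) at the levels
`ribetLevelT p ty Smin (Piv.erase q)` the localisation of `X_{K'}(𝒪)`,
`K' = Γ₀(ribetLevelT p ty Smin (Piv.erase q)) ∩ Γ_H(Q)`, is zero.

It is `minZero_gen_odd31` (`S38/H31/MinZeroOdd.lean`: `H59.minZero_gen59` without `5 ≤ p`, the
case `p = 3` by an auxiliary prime `r ≡ 2 mod 3`) at the base level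
`N₀ := ribetLevelT p ty Smin (Piv.erase q)`; the hypotheses `3 ≤ p` and `IsPTypeAt p ρbar ty` are
not used.
-/

set_option autoImplicit false
set_option linter.style.haveILetI false

open Polynomial IsLocalRing CongruenceSubgroup
open scoped MatrixGroups

namespace Fermat.Agent.S38.H31

open Fermat.Agent.S59.Arch Fermat.Agent.S59.TW.H959 Fermat.Agent.S59.TW Fermat.Agent.S59.H765
open Fermat.Agent.S59.TW.H653 Fermat.Agent.S59.TW.Aut
open Fermat.Agent.S38.IA Fermat.Agent.S38.IA.Hecke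
open Fermat.Agent.S38.H59
open CuspForm

/-- `ribetLevelT` is nonzero. -/
theorem ribetLevelT_ne_zero31 {p : ℕ} (hp : p.Prime) (ty : PType) {Smin Piv : Finset ℕ}
    (hSmin : ∀ q ∈ Smin, q.Prime) (hPivP : ∀ q ∈ Piv, q.Prime) :
    ribetLevelT p ty Smin Piv ≠ 0 := by
  have h0 : ribetLevel p Smin Piv ≠ 0 := ribetLevel_ne_zero59 hSmin hPivP
  cases ty
  · exact h0
  · exact Nat.mul_ne_zero h0 hp.ne_zero
  · exact Nat.mul_ne_zero h0 hp.ne_zero

/-- The prime divisors of `ribetLevelT` lie in `Smin ∪ Piv` (`p ∈ Smin`). -/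
theorem mem_of_dvd_ribetLevelT31 {p : ℕ} (ty : PType) {Smin Piv : Finset ℕ}
    (hSmin : ∀ q ∈ Smin, q.Prime) (hPivP : ∀ q ∈ Piv, q.Prime) (hpSmin : p ∈ Smin)
    {l : ℕ} (hl : l.Prime) (hdvd : l ∣ ribetLevelT p ty Smin Piv) : l ∈ Smin ∪ Piv := by
  have hp : p.Prime := hSmin p hpSmin
  have hmul : l ∣ ribetLevel p Smin Piv * p → l ∈ Smin ∪ Piv := by
    intro h1
    rcases (Nat.Prime.dvd_mul hl).mp h1 with h2 | h2
    · exact mem_of_dvd_ribetLevel59 hSmin hPivP hl h2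
    · have : l = p := (Nat.prime_dvd_prime_iff_eq hl hp).mp h2
      exact Finset.mem_union_left _ (this ▸ hpSmin)
  cases ty
  · exact mem_of_dvd_ribetLevel59 hSmin hPivP hl hdvd
  · exact hmul hdvd
  · exact hmul hdvd

/-- **IA-MINZERO-T** (leaf of cell (B2) HECKE-T of row S59), VERBATIM: every odd `p`, both types
at `p`. -/
theorem iaMinZeroT_h31 : IAMinZeroStatement_T := by
  intro p _ _ 𝒪 _ _ _ _ _ _ ρbar Smin h ty _ Piv hPiv hmin n r qv hq _ PQ α hα q hqP V' hV'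
  have hp : p.Prime := Fact.out
  have hPivP : ∀ q' ∈ Piv, q'.Prime := fun q' hq' => (hPiv q' hq').1
  have hPivP' : ∀ q' ∈ Piv.erase q, q'.Prime := fun q' hq' => hPivP q' (Finset.mem_of_mem_erase hq')
  have hqvP : ∀ j, (qv j).Prime := fun j => (hq.2.1 j).1
  have hSigP : ∀ q' ∈ Smin ∪ Piv ∪ Finset.univ.image qv, q'.Prime := by
    intro q' hq'
    rcases Finset.mem_union.mp hq' with h1 | h1
    · rcases Finset.mem_union.mp h1 with h2 | h2
      · exact h.hSmin q' h2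
      · exact hPivP q' h2
    · obtain ⟨j, -, rfl⟩ := Finset.mem_image.mp h1
      exact hqvP j
  have hsub : Smin ⊆ Smin ∪ Piv ∪ Finset.univ.image qv := fun x hx =>
    Finset.mem_union_left _ (Finset.mem_union_left _ hx)
  have hLS : ∀ q' : ℕ, q'.Prime → q' ∣ ribetLevelT p ty Smin (Piv.erase q) → q' ∈ Smin ∪ Piv := by
    intro q' hq' hdvd
    rcases Finset.mem_union.mp
      (mem_of_dvd_ribetLevelT31 ty h.hSmin hPivP' h.hpSmin hq' hdvd) with h1 | h1
    · exact Finset.mem_union_left _ h1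
    · exact Finset.mem_union_right _ (Finset.mem_of_mem_erase h1)
  exact minZero_gen_odd31 p 𝒪 ρbar Smin h (ribetLevelT p ty Smin (Piv.erase q))
    (ribetLevelT_ne_zero31 hp ty h.hSmin hPivP') (Smin ∪ Piv ∪ Finset.univ.image qv) hSigP hsub
    (fun q' hq' hdvd => Finset.mem_union_left _ (hLS q' hq' hdvd))
    (hmin q hqP _) ty PQ qv hq.1 hqvP
    (fun j => Finset.mem_union_right _ (Finset.mem_image_of_mem qv (Finset.mem_univ j)))
    (fun j hdvd => (hq.2.1 j).2.1 (hLS (qv j) (hqvP j) hdvd))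
    α (fun j => isUnit_sq_sub_one59 p 𝒪 ρbar h.hdet (Smin ∪ Piv)
      (Finset.mem_union_left _ h.hpSmin) n r qv hq α hα j)
    V' hV'

end Fermat.Agent.S38.H31

end
-- ===== PACK-END S38T/H31/MinZeroT.lean

-- ===== PACK-BEGIN S29/Top.lean
section




/-!
# S29 — PLAIN CHAIN TOP (helper42, squad-lead S29/S42)

`Fermat.Agent.S29.result_top` is the statement of frozen S29, proved exactly as
`Fermat.Agent.S29.result`, but in a module that is NOT a statement module: consumers import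
`Fermat.Agent.S29.Top` instead of `Fermat.Agent.S29` (lead ruling: plain files import chain
tops, never `SNN.lean`).  Same closure as `S29.lean` minus `Fermat.Statements.S29`.
-/

set_option autoImplicit false
open CuspForm CuspForm.IsNormalizedEigenform

namespace Fermat.Agent.S29

/-- Frozen S29, plain top: a normalised weight-2 eigenform on `Γ₀(N)` has an attached mod-`p`
Galois representation, unramified outside `N p`. -/
theorem result_top
    {N : ℕ} {g : CuspForm (CongruenceSubgroup.Gamma0 N) 2} (hg : g.IsNormalizedEigenform)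
    {p : ℕ} (hp : p.Prime) {k : Type} [Field k] [CharP k p]
    (φ : integralClosure ℤ ℂ →+* k) :
    ∃ ρ : ResidualGaloisRep k, ρ.IsAttachedTo g φ ∧
      ∀ ℓ : ℕ, ℓ.Prime → ¬ ℓ ∣ N * p → ρ.IsUnramifiedAt ℓ :=
  S29_of_nodes (fun M _ _ _ hℓM A hA => Fermat.Agent.S18.Mod.H216.node_mod M hℓM A hA)
    (fun M => Fermat.Agent.S18.H438.node_alg M) hg hp φ

end Fermat.Agent.S29

end
-- ===== PACK-END S29/Top.lean

-- ===== PACK-BEGIN Ribet/H868/DictQSpec.lean
section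




/-!
# RIBET rows 37/38: the slope dictionary in PURE form, TWO primes (helper868; FROZEN Prop)

`H704.CoreOut.DictPureStatement` (row 38) is stated for ONE prime `p` (residue characteristic of
`A` = exponent of the purity).  Nothing in its proof uses that coincidence.  The wall at `q ≠ p`
(row 37, `H158.WallQ.CoreOutQGoodStatement`) needs the same statement with

* residue prime `q`  (`A` over `q`, level `M' * q`, model `A2.Mod.Setting A E M' q w`),
* exponent `m` ANY positive integer (`m = p ^ n` in the application).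

`DictPureQStatement` : purity with exponent `m` at every closed point of the special fibre of the
FINITE chart `Bf = chartAlg (x)`, `x = j · j_q`, at a good level `E`
⟹ `H158.WallQ.NodeGenQ m q M' A` (both reductions lie in `k(X₀(M'))` and have `m`-divisible orders
at the non-cuspidal places).  `H704.CoreOut.DictPureStatement` is the case `m = q`.
-/

set_option autoImplicit false
set_option synthInstance.maxHeartbeats 400000
set_option maxHeartbeats 1000000
set_option linter.unusedSectionVars false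

noncomputable section

namespace Fermat.Agent.Ribet.H868

open AlgebraicCurve ModularCurve HahnSeries
open Fermat.Agent.S24 Fermat.Agent.A2.H708 Fermat.Agent.A2.H528
open Fermat.Agent.Ribet.Spec Fermat.Agent.Ribet.H884 Fermat.Agent.Ribet.H158.WallQ
open Fermat.Agent.A2.Mod

/-- `G ∈ F_E` (level `M' * q`) is **pure with exponent `m` at the closed point `n`** of the finite
chart `Bf = chartAlg (x)`, `x = j · j_q`: `G · w ^ a · d ^ m` is a unit of `(Bf)_n`. -/
def PureAtPtQ (A : ValuationSubring Kbar) (E : IntermediateField ℚ Kbar) (M' q m : ℕ)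
    [NeZero M'] [NeZero q] (w : RE A E) (G : FE E (M' * q))
    (n : Ideal (chartAlg A E (M' * q) (xE E M' q))) : Prop :=
  ∃ (d : FE E (M' * q)) (a : ℤ), d ≠ 0 ∧
    Fermat.Agent.A2.Alg.LocUnit (chartAlg A E (M' * q) (xE E M' q)) n
      (G * (cE A E (M' * q) w) ^ a * d ^ m)

/-- `G` is pure with exponent `m` at every closed point of the special fibre of the finite
chart. -/
def ChartPureQ (A : ValuationSubring Kbar) (E : IntermediateField ℚ Kbar) (M' q m : ℕ)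
    [NeZero M'] [NeZero q] (w : RE A E) (G : FE E (M' * q)) : Prop :=
  ∀ n : Ideal (chartAlg A E (M' * q) (xE E M' q)), n.IsMaximal →
    algebraMap (RE A E) (chartAlg A E (M' * q) (xE E M' q)) w ∈ n → PureAtPtQ A E M' q m w G n

/-- The dictionary at ONE datum `(m, q, M', A)`. -/
def DictPureQAt (m q M' : ℕ) [NeZero M'] [NeZero q] [NeZero (q * M')]
    (A : ValuationSubring Kbar) : Prop :=
  ∀ (E : IntermediateField ℚ Kbar) (w : RE A E), Setting A E M' q w →
    Fermat.Agent.A2.GoodField A E →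
  ∀ (G : FE E (M' * q)) (G' : FF (q * M')), G ≠ 0 →
    (G' : LaurentSeries Kbar) = coeffMap (algebraMap E Kbar) (G : LaurentSeries E) →
    ChartPureQ A E M' q m w G → NodeGenQ m q M' A G'

/-- **DICT (pure form, two primes).**  `q` the residue prime, `m > 0` the exponent, `M'` a level
prime to `q` with the auxiliary condition of the models on main (`q = 3 → 2 ∣ M'`,
`q = 2 → 3 ∣ M'`). -/
def DictPureQStatement : Prop :=
  ∀ (m q M' : ℕ) [NeZero M'] [NeZero q] [NeZero (q * M')], 0 < m → q.Prime → ¬ q ∣ M' →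
    ((q = 3 → 2 ∣ M') ∧ (q = 2 → 3 ∣ M')) →
    ∀ (A : ValuationSubring Kbar), A.LiesOverPrime q → DictPureQAt m q M' A

end Fermat.Agent.Ribet.H868

end

end
-- ===== PACK-END Ribet/H868/DictQSpec.lean

-- ===== PACK-BEGIN Ribet/H868/TameLevel.lean
section






/-!
# RIBET rows 37/38, TAME package, stage A: purity of the calibrated generator at a level
(helper868)

Level `E` with `R_E = A ∩ E` a DVR with uniformiser `w`, `w = q` in `E` (tame level: `q` is
unramified in `E`), `q ∤ M`, auxiliary condition `HasAux M q`.  The finite chart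
`Bf = chartAlg (x)`, `x = j · j_q`, of level `M * q` is semistable (`S35.G.H862.modelNoSep`), and it
carries the unit pair `D₁ = Δ(t)/Δ(t^q)` (unit of `V∞`), `D₂ = q¹² Δ(t^q)/Δ(t)` (unit of `V₀`),
`D₁ · D₂ = q¹² = w¹²` (`S36.H438`).  For `f ∈ F_E^×` with `m ∣ div f`, `gcd (12, m) = 1`:

  `calibE w v₁ v₂ f = f¹² · D₁^(v₁ - v₂) · w^(-12 v₁)`

is PURE with exponent `m` at every closed point of the special fibre of `Bf`
(`chartPureQ_calibE`, conclusion in the vocabulary `H868.ChartPureQ` of `DictQSpec.lean`).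
-/

set_option autoImplicit false
set_option linter.unusedSectionVars false
set_option linter.style.haveILetI false
set_option synthInstance.maxHeartbeats 400000
set_option maxHeartbeats 1600000

noncomputable section

namespace Fermat.Agent.Ribet.H868

open ModularCurve AlgebraicCurve HahnSeries
open Fermat.Agent.A2.Mod

section Level

variable (A : ValuationSubring (AlgebraicClosure ℚ)) (E : IntermediateField ℚ (AlgebraicClosure ℚ)) (M q : ℕ) [NeZero M] [NeZero q]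

/-- The calibrated function at the level `E`:  `f¹² · (Δ(t)/Δ(t^q))^(v₁ - v₂) · w^(-12 v₁)`. -/
def calibE (w : RE A E) (v₁ v₂ : ℤ) (f : FE E (M * q)) : FE E (M * q) :=
  f ^ 12 * (S36.H438.uE' E (M * q) q (dvd_mul_left q M)) ^ (v₁ - v₂) *
    (cE A E (M * q) w) ^ (-((12 : ℕ) : ℤ) * v₁)

theorem calibE_ne_zero (w : RE A E) (hw : w ≠ 0) (v₁ v₂ : ℤ) {f : FE E (M * q)} (hf : f ≠ 0) :
    calibE A E M q w v₁ v₂ f ≠ 0 := by
  have h1 : S36.H438.uE' E (M * q) q (dvd_mul_left q M) ≠ 0 := by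
    rw [S36.H438.uE'_eq_inv]
    exact inv_ne_zero (S36.H438.uE_ne_zero E (M * q) q _)
  have h2 : cE A E (M * q) w ≠ 0 := by
    unfold cE
    refine (map_ne_zero_iff _ (algebraMap E (FE E (M * q))).injective).mpr ?_
    intro h
    exact hw (Subtype.ext h)
  exact mul_ne_zero (mul_ne_zero (pow_ne_zero _ hf) (zpow_ne_zero _ h1)) (zpow_ne_zero _ h2)

/-- The constant `w` in the chart, as an element of `F_E`. -/
theorem coe_algebraMap_chartAlg868 (N : ℕ) (y : FE E N) (w : RE A E) :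
    ((algebraMap ↥(RE A E) ↥(chartAlg A E N y) w : chartAlg A E N y) : FE E N) = cE A E N w :=
  rfl

/-- `D₁ = Δ(t)/Δ(t^q)` in the finite chart. -/
def chartD₁ (hq : q.Prime) : chartAlg A E (M * q) (xE E M q) :=
  ⟨S36.H438.uE' E (M * q) q (dvd_mul_left q M), S36.H438.uE'_mem_chartAlg A E M q hq⟩

/-- `D₂ = q¹² Δ(t^q)/Δ(t)` in the finite chart. -/
def chartD₂ (hq : q.Prime) : chartAlg A E (M * q) (xE E M q) :=
  ⟨S36.H438.dE E (M * q) q (dvd_mul_left q M), S36.H438.dE_mem_chartAlg A E M q hq⟩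

theorem uE'_ne_zero868 : S36.H438.uE' E (M * q) q (dvd_mul_left q M) ≠ 0 := by
  rw [S36.H438.uE'_eq_inv]
  exact inv_ne_zero (S36.H438.uE_ne_zero E (M * q) q _)

theorem chartD_mul (hq : q.Prime) (w : RE A E) (hwq : (w : E) = (q : E)) :
    chartD₁ A E M q hq * chartD₂ A E M q hq =
      (algebraMap ↥(RE A E) ↥(chartAlg A E (M * q) (xE E M q)) w) ^ 12 := by
  apply Subtype.ext
  rw [Subalgebra.coe_mul, Subalgebra.coe_pow, coe_algebraMap_chartAlg868]
  show S36.H438.uE' E (M * q) q (dvd_mul_left q M) *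
      S36.H438.dE E (M * q) q (dvd_mul_left q M) = (cE A E (M * q) w) ^ 12
  rw [mul_comm (S36.H438.uE' E (M * q) q (dvd_mul_left q M)), S36.H438.dE_mul_uE', cE, hwq,
    map_pow]

theorem false_of_unit_mul_inv868 {F : Type*} [Field F] (V : ValuationSubring F) {u c : F}
    (hu0 : u ≠ 0) (h : u * c⁻¹ ∈ V) (hu : u⁻¹ ∈ V) (hc : c⁻¹ ∉ V) : False := by
  apply hc
  have h3 := V.mul_mem _ _ hu h
  rw [← mul_assoc, inv_mul_cancel₀ hu0, one_mul] at h3
  exact h3

theorem chartD₁_notMem (hq : q.Prime) (w : RE A E)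
    (cf : A2.SSChart w (chartAlg A E (M * q) (xE E M q)))
    (V V₀ : ValuationSubring (FE E (M * q)))
    (hcf : S35.G.CutBy w (chartAlg A E (M * q) (xE E M q)) cf V V₀)
    (hu : (S36.H438.uE' E (M * q) q (dvd_mul_left q M))⁻¹ ∈ V)
    (hwV : (cE A E (M * q) w)⁻¹ ∉ V) : chartD₁ A E M q hq ∉ cf.p₁ := by
  intro hmem
  have h0 := (hcf.cut₁ (chartD₁ A E M q hq)).mp hmem
  exact false_of_unit_mul_inv868 V (uE'_ne_zero868 E M q) h0 hu hwV

theorem chartD₂_notMem (hq : q.Prime) (w : RE A E)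
    (cf : A2.SSChart w (chartAlg A E (M * q) (xE E M q)))
    (V V₀ : ValuationSubring (FE E (M * q)))
    (hcf : S35.G.CutBy w (chartAlg A E (M * q) (xE E M q)) cf V V₀)
    (hd : (S36.H438.dE E (M * q) q (dvd_mul_left q M))⁻¹ ∈ V₀)
    (hwV₀ : (cE A E (M * q) w)⁻¹ ∉ V₀) : chartD₂ A E M q hq ∉ cf.p₂ := by
  intro hmem
  have h0 := (hcf.cut₂ (chartD₂ A E M q hq)).mp hmem
  exact false_of_unit_mul_inv868 V₀ (S36.H438.dE_ne_zero E (M * q) q _) h0 hd hwV₀

/-- The calibrated function of `TameChart.lean` on the finite chart is `calibE`. -/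
theorem calib_eq_calibE (hq : q.Prime) (w : RE A E) (v₁ v₂ : ℤ) (f : FE E (M * q)) :
    calib (algebraMap ↥(RE A E) ↥(chartAlg A E (M * q) (xE E M q)) w) (chartD₁ A E M q hq) 12
      v₁ v₂ f = calibE A E M q w v₁ v₂ f :=
  rfl

/-- **Stage A.**  Purity of the calibrated function at every closed point of the special fibre of
the finite chart, at a level where `q` is a uniformiser. -/
theorem chartPureQ_calibE (m : ℕ) (hm : 0 < m) (hcop : Nat.Coprime 12 m) (w : RE A E)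
    (hS : Setting A E M q w) (hE : A2.GoodField A E) (hAux : S35.G.HasAux M q)
    (hwq : (w : E) = (q : E))
    (f : FE E (M * q)) (hf : f ≠ 0) (hdiv : A2.DivisibleDiv E m f) :
    ∃ v₁ v₂ : ℤ, ChartPureQ A E M q m w (calibE A E M q w v₁ v₂ f) := by
  haveI : IsDiscreteValuationRing ↥(RE A E) := hS.dvr
  have hq : q.Prime := hS.q_prime
  have hN : M * q ≠ 0 := mul_ne_zero hS.M_ne_zero hq.ne_zero
  obtain ⟨V, W, VM, hV, hW, hVM, hg1, hg2, hDeg, cf, ci, hcf, hci⟩ :=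
    S35.G.H862.modelNoSep A E M q w hS hE hAux
  obtain ⟨hx, hfr, hconst⟩ := hDeg hq hS.q_not_dvd
  have hpos : 0 < Module.finrank
      (IntermediateField.adjoin E ({xE E M q} : Set (FE E (M * q))))
      (FE E (M * q)) := by
    rw [hfr]
    have h1 := dedekindPsi_pos_of_ne_zero M (NeZero.ne M)
    positivity
  have hfin : FiniteDimensional
      (IntermediateField.adjoin E ({xE E M q} : Set (FE E (M * q))))
      (FE E (M * q)) := Module.finite_of_finrank_pos hpos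
  have hB : A2.Alg.ChartCtx E w (xE E M q) (chartAlg A E (M * q) (xE E M q)) :=
    ⟨hS.unif, hx, hfin, hconst, fun _ => Iff.rfl⟩
  -- the constant `w` is not invertible in `V∞`, `V₀`
  obtain ⟨hunif, hVE, -⟩ := H553.vinfBasic A E w (M * q) hN hS.dvr hS.unif V hV
  have hwV : (cE A E (M * q) w)⁻¹ ∉ V := hunif.inv_not_mem
  have hwV₀ : (cE A E (M * q) w)⁻¹ ∉ V.comap (W : FE E (M * q) →+* FE E (M * q)) := by
    intro h
    apply hwV
    have h1 : W ((cE A E (M * q) w)⁻¹) ∈ V := h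
    have hWc : W (cE A E (M * q) w) = cE A E (M * q) w := W.commutes (w : E)
    rw [map_inv₀, hWc] at h1
    exact h1
  -- the unit pair
  obtain ⟨-, hu1'⟩ := S36.H438.uE'_unit_vinf A E (M * q) q (dvd_mul_left q M) hV
  obtain ⟨-, hd1'⟩ := S36.H438.dE_unit_vzero A E (M * q) q M (Nat.mul_comm M q)
    (dvd_mul_left q M) W hV hW
  have hDD := chartD_mul A E M q hq w hwq
  have hD₁ := chartD₁_notMem A E M q hq w cf V _ hcf hu1' hwV
  have hD₂ := chartD₂_notMem A E M q hq w cf V _ hcf hd1' hwV₀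
  obtain ⟨v₁, v₂, hv₁, hv₂⟩ :=
    exists_valAt_chart (E := E) w (xE E M q) (chartAlg A E (M * q) (xE E M q)) hB cf f hf
  refine ⟨v₁, v₂, fun n hn hwn => ?_⟩
  obtain ⟨d, hd, hu, -, -⟩ := pureAt_tame (E := E) m 12 hm (by norm_num) hcop w (xE E M q)
    (chartAlg A E (M * q) (xE E M q)) hB cf (chartD₁ A E M q hq) (chartD₂ A E M q hq) hDD hD₁
    hD₂ f hf hdiv v₁ v₂ hv₁ hv₂ n hn.isPrime hwn
  rw [calib_eq_calibE] at hu
  refine ⟨d, 0, hd, ?_⟩
  rw [zpow_zero, mul_one]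
  exact hu

end Level

end Fermat.Agent.Ribet.H868

end

end
-- ===== PACK-END Ribet/H868/TameLevel.lean

-- ===== PACK-BEGIN S59/LoSqC/H193/NodeLevel.lean
section



/-!
# S59 / cell (C) LO-SQ, leaf LAB (helper193), part 9: THE NODES AT LEVEL `M q`

Dictionary between the two vocabularies for the nodes of the finite chart of level `M q`:

* `H193.IsNodePt w B V∞ V₀ 𝔫` (label calculus: `𝔫` maximal, `w ∈ 𝔫`, both sheets pass through `𝔫`);
* `S36.H803.IsNode p₁ p₂ 𝔫` (REG / GUB: `𝔫` maximal, `p₁ + p₂ ≤ 𝔫`, `p₁ = B ∩ w V∞`,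
  `p₂ = B ∩ w V₀`, `A2.Mod.IsCut`).

* `r3Hyp_of_std`        : the standing hypotheses `H803.R3Hyp` of the REG / GUB leaves from
  `Mod3.Std` (all inputs on main);
* `exists_components`   : the two components `p₁`, `p₂` for GIVEN `V∞`, `W`;
* `isNodePt_iff_isNode` : the dictionary;
* `exists_nodes_level`  : from a GUB-type bound (`C` bounds every finite set of `H803` nodes of
  every pair of components) the nodes form a `Finset` `Σ` with `#Σ ≤ C`, in the form
  (`hSg`, `hall`) consumed by `labHom`, `card_splitPure_le`, `lab1SurjAt_of_card`;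
* `card_splitPure_level_le`, `lab1SurjAt_level` : LAB1-COUNT and LAB1-SURJ at the concrete
  objects, with the node set of `exists_nodes_level`.
-/

set_option autoImplicit false
set_option linter.style.haveILetI false
set_option linter.unusedSectionVars false
set_option linter.unusedVariables false
set_option synthInstance.maxHeartbeats 400000
set_option maxHeartbeats 1600000

noncomputable section

namespace Fermat.Agent.S59.LoSqC.H193

open ModularCurve Polynomial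
open Fermat.Agent.S18.H138 (chart baseField)
open Fermat.Agent
open Fermat.Agent.S36.H630 (PassThrough)

section Level

variable {P : ValuationSubring A2.Qb} {E : IntermediateField ℚ A2.Qb} {M q : ℕ}
  [NeZero M] [NeZero q] [NeZero (M * q)]

/-- **The standing hypotheses of the REG / GUB leaves**, from `Mod3.Std`. -/
theorem r3Hyp_of_std {w : A2.RE P E} (hS : S36.Mod3.Std P E M q w) :
    S36.H803.R3Hyp P E M q w where
  setting := S36.Mod3.H189.setting_of_std hS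
  good := hS.unram.1
  deg := A2.Mod.H31.deg E M q
  s1 := S35.G.H862.s1 P E M q w
  s2 := A2.Mod.H142.s2 P E M q w
  s3 := S35.G.H862.s3 P E M q w
  vinfM := A2.Mod.H553.vinfExists P E M (NeZero.ne M) hS.unram.1.dvr
  goodRed := fun w' VM hw' hVM =>
    A2.Mod.H216.goodRedHyp_of_dvr P E M hS.q_prime hS.q_not_dvd hS.neat.hasAux.1
      hS.neat.hasAux.2 hS.lies_over hS.unram.1.dvr w' VM hw' hVM

/-- The two components of the finite chart for GIVEN `V∞` and `W`. -/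
theorem exists_components {w : A2.RE P E} (hS : S36.Mod3.Std P E M q w)
    {V : ValuationSubring (A2.Mod.FE E (M * q))} (hV : A2.Mod.IsVinf P E (M * q) V)
    {W : A2.Mod.FE E (M * q) ≃ₐ[E] A2.Mod.FE E (M * q)} (hW : A2.Mod.IsFricke E (M * q) W) :
    ∃ p₁ p₂ : Ideal (S36.H803.Bfin P E M q),
      A2.Mod.IsCut P E (M * q) w V (S36.H803.Bfin P E M q) p₁ ∧
      A2.Mod.IsCut P E (M * q) w (V.comap (W : A2.Mod.FE E (M * q) →+* A2.Mod.FE E (M * q)))
        (S36.H803.Bfin P E M q) p₂ ∧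
      S36.H803.IsComponents P E M q w p₁ p₂ := by
  obtain ⟨p₁, p₂, hc₁, hc₂, -⟩ := S35.G.H862.s1 P E M q w (S36.Mod3.H189.setting_of_std hS)
    V W hV hW (A2.Mod.xE E M q) (Or.inl rfl)
  exact ⟨p₁, p₂, hc₁, hc₂, V, W, hV, hW, hc₁, hc₂⟩

/-- **The dictionary for the nodes.** -/
theorem isNodePt_iff_isNode {w : A2.RE P E} (hS : S36.Mod3.Std P E M q w)
    {V : ValuationSubring (A2.Mod.FE E (M * q))} (hV : A2.Mod.IsVinf P E (M * q) V)
    {W : A2.Mod.FE E (M * q) ≃ₐ[E] A2.Mod.FE E (M * q)} (hW : A2.Mod.IsFricke E (M * q) W)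
    {p₁ p₂ : Ideal (S36.H803.Bfin P E M q)}
    (hc₁ : A2.Mod.IsCut P E (M * q) w V (S36.H803.Bfin P E M q) p₁)
    (hc₂ : A2.Mod.IsCut P E (M * q) w
      (V.comap (W : A2.Mod.FE E (M * q) →+* A2.Mod.FE E (M * q))) (S36.H803.Bfin P E M q) p₂)
    (𝔫 : Ideal (S36.H803.Bfin P E M q)) :
    IsNodePt w (S36.H803.Bfin P E M q) V
        (V.comap (W : A2.Mod.FE E (M * q) →+* A2.Mod.FE E (M * q))) 𝔫 ↔
      S36.H803.IsNode P E M q p₁ p₂ 𝔫 := by
  have hSet := S36.Mod3.H189.setting_of_std hS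
  haveI : IsDiscreteValuationRing (A2.RE P E) := hS.unram.1.dvr
  have hu : A2.H48.IsUnif V (A2.Mod.cE P E (M * q) w) :=
    (A2.Mod.H553.vinfBasic P E w (M * q) (NeZero.ne _) hSet.dvr hSet.unif V hV).1
  have hu' := A2.Mod.H13.isUnif_comap hu W
  have h₁ : ∀ b : S36.H803.Bfin P E M q, b ∈ p₁ ↔ (b : A2.Mod.FE E (M * q)) ∈ V.nonunits :=
    fun b => (hc₁ b).trans (A2.Mod.H13.inW_iff_mem_nonunits hu _)
  have h₂ : ∀ b : S36.H803.Bfin P E M q, b ∈ p₂ ↔ (b : A2.Mod.FE E (M * q)) ∈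
      (V.comap (W : A2.Mod.FE E (M * q) →+* A2.Mod.FE E (M * q))).nonunits :=
    fun b => (hc₂ b).trans (A2.Mod.H13.inW_iff_mem_nonunits hu' _)
  constructor
  · rintro ⟨⟨hmax, -⟩, hp₁, hp₂⟩
    exact ⟨hmax, fun b hb => hp₁ b ((h₁ b).1 hb), fun b hb => hp₂ b ((h₂ b).1 hb)⟩
  · rintro ⟨hmax, hp₁, hp₂⟩
    refine ⟨⟨hmax, ?_⟩, fun b hb => hp₁ ((h₁ b).2 hb), fun b hb => hp₂ ((h₂ b).2 hb)⟩
    apply hp₁
    rw [h₁]
    exact (S36.Mod3.H189.isSheet_vinf hS hV).2.2.1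

/-- **The node set**, from a GUB-type bound. -/
theorem exists_nodes_level {w : A2.RE P E} (hS : S36.Mod3.Std P E M q w)
    {V : ValuationSubring (A2.Mod.FE E (M * q))} (hV : A2.Mod.IsVinf P E (M * q) V)
    {W : A2.Mod.FE E (M * q) ≃ₐ[E] A2.Mod.FE E (M * q)} (hW : A2.Mod.IsFricke E (M * q) W)
    (C : ℕ)
    (hgub : ∀ p₁ p₂ : Ideal (S36.H803.Bfin P E M q), S36.H803.IsComponents P E M q w p₁ p₂ →
      ∀ s : Finset (Ideal (S36.H803.Bfin P E M q)),
        (∀ n ∈ s, S36.H803.IsNode P E M q p₁ p₂ n) → s.card ≤ C) :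
    ∃ Sg : Finset (Ideal (chart (A2.RE P E) ({A2.Mod.xE E M q} : Set (A2.Mod.FE E (M * q))))),
      (∀ 𝔫 ∈ Sg, IsNodePt w (chart (A2.RE P E) ({A2.Mod.xE E M q} : Set (A2.Mod.FE E (M * q))))
        V (V.comap (W : A2.Mod.FE E (M * q) →+* A2.Mod.FE E (M * q))) 𝔫) ∧
      (∀ 𝔫, IsNodePt w (chart (A2.RE P E) ({A2.Mod.xE E M q} : Set (A2.Mod.FE E (M * q))))
        V (V.comap (W : A2.Mod.FE E (M * q) →+* A2.Mod.FE E (M * q))) 𝔫 → 𝔫 ∈ Sg) ∧
      Sg.card ≤ C := by
  classical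
  obtain ⟨p₁, p₂, hc₁, hc₂, hcomp⟩ := exists_components hS hV hW
  have hfin : {n : Ideal (S36.H803.Bfin P E M q) | S36.H803.IsNode P E M q p₁ p₂ n}.Finite := by
    by_contra hinf
    obtain ⟨t, ht, hcard⟩ := Set.Infinite.exists_subset_card_eq hinf (C + 1)
    have := hgub p₁ p₂ hcomp t (fun n hn => ht hn)
    rw [hcard] at this
    omega
  refine ⟨hfin.toFinset, fun 𝔫 h𝔫 => ?_, fun 𝔫 h𝔫 => ?_, ?_⟩
  · exact (isNodePt_iff_isNode hS hV hW hc₁ hc₂ 𝔫).2 ((Set.Finite.mem_toFinset hfin).1 h𝔫)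
  · exact (Set.Finite.mem_toFinset hfin).2 ((isNodePt_iff_isNode hS hV hW hc₁ hc₂ 𝔫).1 h𝔫)
  · exact hgub p₁ p₂ hcomp _ (fun n hn => (Set.Finite.mem_toFinset hfin).1 hn)

/-- **LAB1-COUNT at the concrete objects of level `M q`**: the split functions with purity data,
modulo `m`-th powers, are at most `m ^ (#Σ - 1)`. -/
theorem card_splitPure_level_le [IsDiscreteValuationRing (A2.RE P E)]
    [HenselianLocalRing (A2.RE P E)] [IsAlgClosed (IsLocalRing.ResidueField (A2.RE P E))]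
    {w : A2.RE P E} (hS : S36.Mod3.Std P E M q w)
    {V : ValuationSubring (A2.Mod.FE E (M * q))} (hV : A2.Mod.IsVinf P E (M * q) V)
    {W : A2.Mod.FE E (M * q) ≃ₐ[E] A2.Mod.FE E (M * q)} (hW : A2.Mod.IsFricke E (M * q) W)
    {m : ℕ} (hm : 0 < m) (hqm : ¬ q ∣ m) {ζ : A2.RE P E} (hζ : IsPrimitiveRoot ζ m)
    (Sg : Finset (Ideal (chart (A2.RE P E) ({A2.Mod.xE E M q} : Set (A2.Mod.FE E (M * q))))))
    (hSg : ∀ 𝔫 ∈ Sg, IsNodePt w
      (chart (A2.RE P E) ({A2.Mod.xE E M q} : Set (A2.Mod.FE E (M * q))))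
      V (V.comap (W : A2.Mod.FE E (M * q) →+* A2.Mod.FE E (M * q))) 𝔫)
    (hall : ∀ 𝔫, IsNodePt w (chart (A2.RE P E) ({A2.Mod.xE E M q} : Set (A2.Mod.FE E (M * q))))
      V (V.comap (W : A2.Mod.FE E (M * q) →+* A2.Mod.FE E (M * q))) 𝔫 → 𝔫 ∈ Sg) :
    Nat.card (splitPure w (A2.Mod.xE E M q) m V
        (V.comap (W : A2.Mod.FE E (M * q) →+* A2.Mod.FE E (M * q))) ⧸
      (powSubgroup (A2.Mod.FE E (M * q)) m).subgroupOf (splitPure w (A2.Mod.xE E M q) m V
        (V.comap (W : A2.Mod.FE E (M * q) →+* A2.Mod.FE E (M * q))))) ≤ m ^ (Sg.card - 1) :=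
  card_splitPure_le (R := A2.RE P E) E Sg (twoCtx_level hS hV hW hm hqm hζ) hSg hall

/-- **LAB1-SURJ (E-form) at the concrete objects of level `M q`, from the count.** -/
theorem lab1SurjAt_level [IsDiscreteValuationRing (A2.RE P E)]
    [HenselianLocalRing (A2.RE P E)] [IsAlgClosed (IsLocalRing.ResidueField (A2.RE P E))]
    {w : A2.RE P E} (hS : S36.Mod3.Std P E M q w)
    {V : ValuationSubring (A2.Mod.FE E (M * q))} (hV : A2.Mod.IsVinf P E (M * q) V)
    {W : A2.Mod.FE E (M * q) ≃ₐ[E] A2.Mod.FE E (M * q)} (hW : A2.Mod.IsFricke E (M * q) W)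
    {m : ℕ} (hm : 0 < m) (hqm : ¬ q ∣ m) {ζ : A2.RE P E} (hζ : IsPrimitiveRoot ζ m)
    (Sg : Finset (Ideal (chart (A2.RE P E) ({A2.Mod.xE E M q} : Set (A2.Mod.FE E (M * q))))))
    (hSg : ∀ 𝔫 ∈ Sg, IsNodePt w
      (chart (A2.RE P E) ({A2.Mod.xE E M q} : Set (A2.Mod.FE E (M * q))))
      V (V.comap (W : A2.Mod.FE E (M * q) →+* A2.Mod.FE E (M * q))) 𝔫)
    (hall : ∀ 𝔫, IsNodePt w (chart (A2.RE P E) ({A2.Mod.xE E M q} : Set (A2.Mod.FE E (M * q))))
      V (V.comap (W : A2.Mod.FE E (M * q) →+* A2.Mod.FE E (M * q))) 𝔫 → 𝔫 ∈ Sg)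
    (hcard : m ^ (Sg.card - 1) ≤
      Nat.card (splitDiv (R := A2.RE P E) E w (A2.Mod.xE E M q) m V
          (V.comap (W : A2.Mod.FE E (M * q) →+* A2.Mod.FE E (M * q))) ⧸
        (powSubgroup (A2.Mod.FE E (M * q)) m).subgroupOf
          (splitDiv (R := A2.RE P E) E w (A2.Mod.xE E M q) m V
            (V.comap (W : A2.Mod.FE E (M * q) →+* A2.Mod.FE E (M * q)))))) :
    Lab1SurjAt E w (A2.Mod.xE E M q) V
      (V.comap (W : A2.Mod.FE E (M * q) →+* A2.Mod.FE E (M * q))) m ζ :=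
  lab1SurjAt_of_card (R := A2.RE P E) E Sg (twoCtx_level hS hV hW hm hqm hζ)
    (not_le_level hS hV hW).1 (not_le_level hS hV hW).2 hSg hall hcard

end Level

end Fermat.Agent.S59.LoSqC.H193

end

end
-- ===== PACK-END S59/LoSqC/H193/NodeLevel.lean

-- ===== PACK-BEGIN S59/LoSqC/H193/PureLevel.lean
section



/-!
# S59 / cell (C) LO-SQ, leaf LAB (helper193), part 10: PURE-SPLIT at level `M q`

Concrete objects of level `M q` (`Mod3.Std`, `V∞`, `V₀ = V∞ ∘ W`, `x' = j j_q`).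

* `isSplit_level`        : `u ≡ 1` on `V∞` and on `V₀` ⟹ `A2.Alg.IsSplit` for every semistable
  chart cut by `V∞`, `V₀`;
* **`isSplitPure_level`** : `m ∣ div u`, `u ≡ 1` on `V∞`, `V₀` ⟹ `H193.IsSplitPure` (a purity
  datum at EVERY closed point of the special fibre of both charts), from the purity leaves of
  cell A2 (`A2.Alg.H609.pureAt_of_isSplit`, on main; NO regularity / TH1 is needed for SPLIT
  functions);
* `mem_splitDiv_level`   : hence `u ∈ splitDiv`;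
* `splitDiv_level_eq`    : `splitDiv = {u | m ∣ div u, u ≡ 1 on V∞, V₀}` at the concrete objects.
-/

set_option autoImplicit false
set_option linter.style.haveILetI false
set_option linter.unusedSectionVars false
set_option linter.unusedVariables false
set_option synthInstance.maxHeartbeats 400000
set_option maxHeartbeats 1600000

noncomputable section

namespace Fermat.Agent.S59.LoSqC.H193

open ModularCurve Polynomial
open Fermat.Agent.S18.H138 (chart baseField)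
open Fermat.Agent
open Fermat.Agent.S36.H630 (PassThrough)

section Abs

variable {R : Type*} [CommRing R] {F : Type*} [Field F] [Algebra R F]

/-- `u ≡ 1` on `V`, `V` a localisation of `B` with centre `p` ⟹ `u` has constant residue `1`
on the component `p`. -/
theorem constAt_of_sub_one193 (B : Subalgebra R F) (V : ValuationSubring F) (p : Ideal B)
    (hle : ∀ b ∈ B, b ∈ V)
    (hp : ∀ b : B, b ∈ p ↔ (b : F) ∈ V.nonunits)
    (hfrac : ∀ y ∈ V, ∃ a s : B, (s : F) ∉ V.nonunits ∧ y = a * (s : F)⁻¹)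
    {u : F} (hu : u - 1 ∈ V.nonunits) : A2.Alg.ConstAt B p u := by
  have huV : u ∈ V := by
    have e : u = (u - 1) + 1 := by ring
    rw [e]
    exact V.add_mem _ _ (V.nonunits_subset hu) V.one_mem
  obtain ⟨a, s, hs, hua⟩ := hfrac u huV
  have hs0 : (s : F) ≠ 0 := by
    intro h0
    apply hs
    rw [h0]
    exact V.nonunits.zero_mem
  refine ⟨1, isUnit_one, a, s, fun h => hs ((hp s).1 h), ?_, ?_⟩
  · rw [hp]
    have e : ((a - algebraMap R B 1 * s : B) : F) = (s : F) * (u - 1) := by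
      rw [map_one, one_mul]
      push_cast
      rw [hua]
      field_simp
    rw [e]
    exact S36.H630.vnu_mul_left V hu (hle s s.2)
  · rw [hua]
    field_simp

end Abs

section Level

variable {P : ValuationSubring A2.Qb} {E : IntermediateField ℚ A2.Qb} {M q : ℕ}
  [NeZero M] [NeZero q] [NeZero (M * q)]

/-- **PURE-SPLIT on one chart** (`y = x'` or `y = x'⁻¹`). -/
theorem exists_isPureAt_level {w : A2.RE P E} (hS : S36.Mod3.Std P E M q w)
    {V : ValuationSubring (A2.Mod.FE E (M * q))} (hV : A2.Mod.IsVinf P E (M * q) V)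
    {W : A2.Mod.FE E (M * q) ≃ₐ[E] A2.Mod.FE E (M * q)} (hW : A2.Mod.IsFricke E (M * q) W)
    (yM : A2.Mod.FE E M) (y : A2.Mod.FE E (M * q)) (hy : A2.Mod.IsCoordPair E M q yM y)
    {m : ℕ} (hm : 0 < m) {u : A2.Mod.FE E (M * q)} (hdiv : A2.DivisibleDiv E m u)
    (h₁ : u - 1 ∈ V.nonunits)
    (h₂ : u - 1 ∈ (V.comap (W : A2.Mod.FE E (M * q) →+* A2.Mod.FE E (M * q))).nonunits)
    (𝔫 : Ideal (chart (A2.RE P E) ({y} : Set (A2.Mod.FE E (M * q)))))
    (h𝔫 : IsClosedPt w (chart (A2.RE P E) ({y} : Set (A2.Mod.FE E (M * q)))) 𝔫) :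
    ∃ d : A2.Mod.FE E (M * q),
      IsPureAt (chart (A2.RE P E) ({y} : Set (A2.Mod.FE E (M * q)))) 𝔫 m u d := by
  have hSet := S36.Mod3.H189.setting_of_std hS
  haveI : IsDiscreteValuationRing (A2.RE P E) := hS.unram.1.dvr
  have hAux := hS.neat.hasAux
  obtain ⟨VM, hVM⟩ := A2.Mod.H553.vinfExists P E M hSet.M_ne_zero hSet.dvr
  obtain ⟨hg₁, hg₂⟩ := A2.Mod.H216.goodRedHyp_of_dvr P E M hSet.q_prime hSet.q_not_dvd
    hAux.1 hAux.2 hSet.lies_over hSet.dvr w VM hSet.unif hVM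
  have hgood : A2.Mod.GoodRedAt P E M w VM yM := by
    rcases hy with ⟨rfl, -⟩ | ⟨rfl, -⟩
    · exact hg₁
    · exact hg₂
  obtain ⟨c, hc⟩ := S35.G.H862.exists_chart_cutBy hSet (S35.G.H862.s1 P E M q w)
    (A2.Mod.H142.s2 P E M q w) (S35.G.H862.s3 P E M q w) VM V W hVM hV hW yM y hy hgood
  have hu : A2.H48.IsUnif V (A2.Mod.cE P E (M * q) w) :=
    (A2.Mod.H553.vinfBasic P E w (M * q) (NeZero.ne _) hSet.dvr hSet.unif V hV).1
  have hu' := A2.Mod.H13.isUnif_comap hu W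
  obtain ⟨htr, -, hconst⟩ := A2.Mod.H31.deg E M q hS.q_prime hS.q_not_dvd
  have hx0 : A2.Mod.xE E M q ≠ 0 := xE_ne_zero193 hS.q_prime hS.q_not_dvd
  have htry : Transcendental E y := by
    rcases hy with ⟨-, rfl⟩ | ⟨-, rfl⟩
    · exact htr
    · exact S24.FF.transcendental_inv htr
  haveI hfin : FiniteDimensional (IntermediateField.adjoin E
      ({y} : Set (A2.Mod.FE E (M * q)))) (A2.Mod.FE E (M * q)) :=
    S36.Mod3.H933.finiteDimensional_of_transcendental E (M * q) (NeZero.ne _) _ htry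
  haveI : FiniteDimensional (baseField (A2.RE P E) y) (A2.Mod.FE E (M * q)) :=
    A2.H643.finiteDimensional_baseField_of_adjoin (E := E) _
  have hinj : Function.Injective (algebraMap (A2.RE P E) (A2.Mod.FE E (M * q))) := by
    intro a b hab
    have h1 : algebraMap E (A2.Mod.FE E (M * q)) (a : E) =
        algebraMap E (A2.Mod.FE E (M * q)) (b : E) := hab
    exact Subtype.ext ((algebraMap E (A2.Mod.FE E (M * q))).injective h1)
  have hwp : Prime w := hS.unif.prime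
  have htrR : Transcendental (A2.RE P E) y := A2.Mod.H13.transcendental_RE htry
  have hs₁ : A2.H12.IsSheet w y V := by
    rcases hy with ⟨-, rfl⟩ | ⟨-, rfl⟩
    · exact S36.Mod3.H189.isSheet_vinf hS hV
    · exact (S36.H193.isSheet_inv_iff w hx0 V).2 (S36.Mod3.H189.isSheet_vinf hS hV)
  have hs₂ : A2.H12.IsSheet w y
      (V.comap (W : A2.Mod.FE E (M * q) →+* A2.Mod.FE E (M * q))) := by
    rcases hy with ⟨-, rfl⟩ | ⟨-, rfl⟩
    · exact S36.Mod3.H189.isSheet_vzero hS hV hW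
    · exact (S36.H193.isSheet_inv_iff w hx0 _).2 (S36.Mod3.H189.isSheet_vzero hS hV hW)
  have hB : A2.Alg.ChartCtx E w y (A2.Mod.chartAlg P E (M * q) y) :=
    { hw := hS.unif
      hx := htry
      hfin := hfin
      hconst := hconst
      hB := fun _ => Iff.rfl }
  have hsplit : A2.Alg.IsSplit (A2.Mod.chartAlg P E (M * q) y) c u := by
    constructor
    · refine constAt_of_sub_one193 (A2.Mod.chartAlg P E (M * q) y) V c.p₁ hc.le₁
        (fun b => ?_) (fun z hz => ?_) h₁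
      · rw [hc.cut₁]
        exact A2.Mod.H13.inW_iff_mem_nonunits hu _
      · exact (S36.H193.sheet_mem_iff hinj hwp htrR hs₁ z).1 hz
    · refine constAt_of_sub_one193 (A2.Mod.chartAlg P E (M * q) y) _ c.p₂ hc.le₂
        (fun b => ?_) (fun z hz => ?_) h₂
      · rw [hc.cut₂]
        exact A2.Mod.H13.inW_iff_mem_nonunits hu' _
      · exact (S36.H193.sheet_mem_iff hinj hwp htrR hs₂ z).1 hz
  obtain ⟨d, hd0, ⟨a, b, ha, hb, hab⟩, -, -⟩ :=
    A2.Alg.H609.pureAt_of_isSplit m hm w y (A2.Mod.chartAlg P E (M * q) y) hB c u hdiv hsplit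
      𝔫 h𝔫.1.isPrime h𝔫.2
  exact ⟨d, hd0, a, b, ha, hb, hab⟩

/-- **PURE-SPLIT at level `M q`**: a function with `m ∣ div u`, `u ≡ 1` on `V∞` and on `V₀`, has
a purity datum at every closed point of the special fibre of both charts. -/
theorem isSplitPure_level {w : A2.RE P E} (hS : S36.Mod3.Std P E M q w)
    {V : ValuationSubring (A2.Mod.FE E (M * q))} (hV : A2.Mod.IsVinf P E (M * q) V)
    {W : A2.Mod.FE E (M * q) ≃ₐ[E] A2.Mod.FE E (M * q)} (hW : A2.Mod.IsFricke E (M * q) W)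
    {m : ℕ} (hm : 0 < m) {u : A2.Mod.FE E (M * q)} (hdiv : A2.DivisibleDiv E m u)
    (h₁ : u - 1 ∈ V.nonunits)
    (h₂ : u - 1 ∈ (V.comap (W : A2.Mod.FE E (M * q) →+* A2.Mod.FE E (M * q))).nonunits) :
    IsSplitPure w (A2.Mod.xE E M q) m V
      (V.comap (W : A2.Mod.FE E (M * q) →+* A2.Mod.FE E (M * q))) u :=
  ⟨h₁, h₂,
    fun 𝔫 h𝔫 => exists_isPureAt_level hS hV hW _ _ (Or.inl ⟨rfl, rfl⟩) hm hdiv h₁ h₂ 𝔫 h𝔫,
    fun 𝔫 h𝔫 => exists_isPureAt_level hS hV hW _ _ (Or.inr ⟨rfl, rfl⟩) hm hdiv h₁ h₂ 𝔫 h𝔫⟩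

/-- `splitDiv` at the concrete objects: exactly the functions with `m ∣ div u`, `u ≡ 1` on `V∞`
and on `V₀`. -/
theorem mem_splitDiv_level_iff [IsDiscreteValuationRing (A2.RE P E)]
    [HenselianLocalRing (A2.RE P E)] [IsAlgClosed (IsLocalRing.ResidueField (A2.RE P E))]
    {w : A2.RE P E} (hS : S36.Mod3.Std P E M q w)
    {V : ValuationSubring (A2.Mod.FE E (M * q))} (hV : A2.Mod.IsVinf P E (M * q) V)
    {W : A2.Mod.FE E (M * q) ≃ₐ[E] A2.Mod.FE E (M * q)} (hW : A2.Mod.IsFricke E (M * q) W)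
    {m : ℕ} (hm : 0 < m) (u : (A2.Mod.FE E (M * q))ˣ) :
    u ∈ splitDiv (R := A2.RE P E) E w (A2.Mod.xE E M q) m V
        (V.comap (W : A2.Mod.FE E (M * q) →+* A2.Mod.FE E (M * q))) ↔
      A2.DivisibleDiv E m (u : A2.Mod.FE E (M * q)) ∧
        (u : A2.Mod.FE E (M * q)) - 1 ∈ V.nonunits ∧
        (u : A2.Mod.FE E (M * q)) - 1 ∈
          (V.comap (W : A2.Mod.FE E (M * q) →+* A2.Mod.FE E (M * q))).nonunits := by
  constructor
  · rintro ⟨hsp, hdiv⟩
    exact ⟨hdiv, hsp.1, hsp.2.1⟩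
  · rintro ⟨hdiv, h₁, h₂⟩
    exact ⟨isSplitPure_level hS hV hW hm hdiv h₁ h₂, hdiv⟩

end Level

end Fermat.Agent.S59.LoSqC.H193

end

end
-- ===== PACK-END S59/LoSqC/H193/PureLevel.lean

-- ===== PACK-BEGIN S59/LoSqC/H193/LabelFinal.lean
section


/-!
# S59 / cell (C) LO-SQ, leaf LAB (helper193), part 11: LAB1 for `splitDiv`, final forms

* `finite_quot_of_labels` (Mathlib only) : the quotient `G ⧸ P` of `card_quot_le_of_labels` is
  FINITE;
* `card_splitDiv_le`, `finite_splitDiv_quot` : `splitDiv ⧸ (m-th powers)` is finite of order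
  `≤ m ^ (#Σ - 1)` (abstract `TwoCtx`);
* `card_splitDiv_level_le`, `finite_splitDiv_level_quot` : the same at the concrete objects of
  level `M q` (`Mod3.Std`), in the EXACT shape of the instance argument and of the bound used by
  helper296's `LabJ.lean` (`(powMonoidHom m).range.subgroupOf U`, `U = splitDiv`).
-/

set_option autoImplicit false
set_option linter.style.haveILetI false
set_option linter.unusedSectionVars false
set_option linter.unusedVariables false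
set_option synthInstance.maxHeartbeats 400000
set_option maxHeartbeats 1600000

noncomputable section

namespace Fermat.Agent.S59.LoSqC.H193

open ModularCurve Polynomial
open Fermat.Agent.S18.H138 (chart baseField)
open Fermat.Agent
open Fermat.Agent.S36.H630 (PassThrough)

universe u

section Abstract

/-- **Finiteness** of the quotient in the abstract count. -/
theorem finite_quot_of_labels {G : Type*} [CommGroup G] (P : Subgroup G) {ι : Type*}
    [Fintype ι] (m : ℕ) [NeZero m] (lab : G →* Multiplicative (ι → ZMod m))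
    (h : ∀ g : G, (∃ c : ZMod m, ∀ i, Multiplicative.toAdd (lab g) i = c) → g ∈ P) :
    Finite (G ⧸ P) := by
  classical
  have hker : lab.ker ≤ P := by
    intro g hg
    rw [MonoidHom.mem_ker] at hg
    refine h g ⟨0, fun i => ?_⟩
    rw [hg]
    rfl
  have hinj : Function.Injective (QuotientGroup.kerLift lab) := QuotientGroup.kerLift_injective lab
  haveI : Finite (Multiplicative (ι → ZMod m)) := inferInstance
  haveI : Finite (G ⧸ lab.ker) := Finite.of_injective _ hinj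
  have hsurj : Function.Surjective (QuotientGroup.map lab.ker P (MonoidHom.id G) hker) := by
    intro y
    obtain ⟨g, rfl⟩ := QuotientGroup.mk_surjective y
    exact ⟨QuotientGroup.mk g, rfl⟩
  exact Finite.of_surjective _ hsurj

end Abstract

section Two

variable {R : Type u} [CommRing R] [IsDomain R] [IsDiscreteValuationRing R]
  [HenselianLocalRing R] [IsAlgClosed (IsLocalRing.ResidueField R)] [IsIntegrallyClosed R[X]]
variable (E : Type u) [Field E] [CharZero E] [Algebra R E] [IsFractionRing R E]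
variable {F : Type u} [Field F] [Algebra E F] [Algebra R F] [IsScalarTower R E F]
variable {w : R} {q : ℕ} {x : F} {m : ℕ} {ζ : R} {V₁ V₂ : ValuationSubring F}

variable (Sg : Finset (Ideal (chart R ({x} : Set F))))

include E in
/-- **LAB1-COUNT for `splitDiv`.** -/
theorem card_splitDiv_le (ctx : TwoCtx E w q x m ζ V₁ V₂)
    (hSg : ∀ 𝔫 ∈ Sg, IsNodePt w (chart R ({x} : Set F)) V₁ V₂ 𝔫)
    (hall : ∀ 𝔫, IsNodePt w (chart R ({x} : Set F)) V₁ V₂ 𝔫 → 𝔫 ∈ Sg) :
    Nat.card (splitDiv E w x m V₁ V₂ ⧸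
      ((powMonoidHom m : Fˣ →* Fˣ).range).subgroupOf (splitDiv E w x m V₁ V₂)) ≤
        m ^ (Sg.card - 1) := by
  haveI : NeZero m := ⟨ctx.hm.ne'⟩
  have h := card_quot_le_of_labels
    (((powMonoidHom m : Fˣ →* Fˣ).range).subgroupOf (splitDiv E w x m V₁ V₂)) m
    ((labHom E Sg ctx hSg).comp (Subgroup.inclusion (splitDiv_le E)))
    (by
      rintro u ⟨c, hc⟩
      rw [Subgroup.mem_subgroupOf]
      exact mem_powSubgroup_of_labFun_const E Sg ctx hSg hall
        (Subgroup.inclusion (splitDiv_le E) u) c hc)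
  rwa [Fintype.card_coe] at h

include E in
/-- `splitDiv ⧸ (m-th powers)` is finite. -/
theorem finite_splitDiv_quot (ctx : TwoCtx E w q x m ζ V₁ V₂)
    (hSg : ∀ 𝔫 ∈ Sg, IsNodePt w (chart R ({x} : Set F)) V₁ V₂ 𝔫)
    (hall : ∀ 𝔫, IsNodePt w (chart R ({x} : Set F)) V₁ V₂ 𝔫 → 𝔫 ∈ Sg) :
    Finite (splitDiv E w x m V₁ V₂ ⧸
      ((powMonoidHom m : Fˣ →* Fˣ).range).subgroupOf (splitDiv E w x m V₁ V₂)) := by
  haveI : NeZero m := ⟨ctx.hm.ne'⟩
  exact finite_quot_of_labels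
    (((powMonoidHom m : Fˣ →* Fˣ).range).subgroupOf (splitDiv E w x m V₁ V₂)) m
    ((labHom E Sg ctx hSg).comp (Subgroup.inclusion (splitDiv_le E)))
    (by
      rintro u ⟨c, hc⟩
      rw [Subgroup.mem_subgroupOf]
      exact mem_powSubgroup_of_labFun_const E Sg ctx hSg hall
        (Subgroup.inclusion (splitDiv_le E) u) c hc)

end Two

section Level

variable {P : ValuationSubring A2.Qb} {E : IntermediateField ℚ A2.Qb} {M q : ℕ}
  [NeZero M] [NeZero q] [NeZero (M * q)]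

/-- **LAB1-COUNT for `splitDiv` at the concrete objects of level `M q`.** -/
theorem card_splitDiv_level_le [IsDiscreteValuationRing (A2.RE P E)]
    [HenselianLocalRing (A2.RE P E)] [IsAlgClosed (IsLocalRing.ResidueField (A2.RE P E))]
    {w : A2.RE P E} (hS : S36.Mod3.Std P E M q w)
    {V : ValuationSubring (A2.Mod.FE E (M * q))} (hV : A2.Mod.IsVinf P E (M * q) V)
    {W : A2.Mod.FE E (M * q) ≃ₐ[E] A2.Mod.FE E (M * q)} (hW : A2.Mod.IsFricke E (M * q) W)
    {m : ℕ} (hm : 0 < m) (hqm : ¬ q ∣ m) {ζ : A2.RE P E} (hζ : IsPrimitiveRoot ζ m)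
    (Sg : Finset (Ideal (chart (A2.RE P E) ({A2.Mod.xE E M q} : Set (A2.Mod.FE E (M * q))))))
    (hSg : ∀ 𝔫 ∈ Sg, IsNodePt w
      (chart (A2.RE P E) ({A2.Mod.xE E M q} : Set (A2.Mod.FE E (M * q))))
      V (V.comap (W : A2.Mod.FE E (M * q) →+* A2.Mod.FE E (M * q))) 𝔫)
    (hall : ∀ 𝔫, IsNodePt w (chart (A2.RE P E) ({A2.Mod.xE E M q} : Set (A2.Mod.FE E (M * q))))
      V (V.comap (W : A2.Mod.FE E (M * q) →+* A2.Mod.FE E (M * q))) 𝔫 → 𝔫 ∈ Sg) :
    Nat.card (splitDiv (R := A2.RE P E) E w (A2.Mod.xE E M q) m V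
        (V.comap (W : A2.Mod.FE E (M * q) →+* A2.Mod.FE E (M * q))) ⧸
      ((powMonoidHom m : (A2.Mod.FE E (M * q))ˣ →* (A2.Mod.FE E (M * q))ˣ).range).subgroupOf
        (splitDiv (R := A2.RE P E) E w (A2.Mod.xE E M q) m V
          (V.comap (W : A2.Mod.FE E (M * q) →+* A2.Mod.FE E (M * q))))) ≤ m ^ (Sg.card - 1) :=
  card_splitDiv_le (R := A2.RE P E) E Sg (twoCtx_level hS hV hW hm hqm hζ) hSg hall

/-- `splitDiv ⧸ (m-th powers)` is finite, at the concrete objects of level `M q`. -/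
theorem finite_splitDiv_level_quot [IsDiscreteValuationRing (A2.RE P E)]
    [HenselianLocalRing (A2.RE P E)] [IsAlgClosed (IsLocalRing.ResidueField (A2.RE P E))]
    {w : A2.RE P E} (hS : S36.Mod3.Std P E M q w)
    {V : ValuationSubring (A2.Mod.FE E (M * q))} (hV : A2.Mod.IsVinf P E (M * q) V)
    {W : A2.Mod.FE E (M * q) ≃ₐ[E] A2.Mod.FE E (M * q)} (hW : A2.Mod.IsFricke E (M * q) W)
    {m : ℕ} (hm : 0 < m) (hqm : ¬ q ∣ m) {ζ : A2.RE P E} (hζ : IsPrimitiveRoot ζ m)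
    (Sg : Finset (Ideal (chart (A2.RE P E) ({A2.Mod.xE E M q} : Set (A2.Mod.FE E (M * q))))))
    (hSg : ∀ 𝔫 ∈ Sg, IsNodePt w
      (chart (A2.RE P E) ({A2.Mod.xE E M q} : Set (A2.Mod.FE E (M * q))))
      V (V.comap (W : A2.Mod.FE E (M * q) →+* A2.Mod.FE E (M * q))) 𝔫)
    (hall : ∀ 𝔫, IsNodePt w (chart (A2.RE P E) ({A2.Mod.xE E M q} : Set (A2.Mod.FE E (M * q))))
      V (V.comap (W : A2.Mod.FE E (M * q) →+* A2.Mod.FE E (M * q))) 𝔫 → 𝔫 ∈ Sg) :
    Finite (splitDiv (R := A2.RE P E) E w (A2.Mod.xE E M q) m V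
        (V.comap (W : A2.Mod.FE E (M * q) →+* A2.Mod.FE E (M * q))) ⧸
      ((powMonoidHom m : (A2.Mod.FE E (M * q))ˣ →* (A2.Mod.FE E (M * q))ˣ).range).subgroupOf
        (splitDiv (R := A2.RE P E) E w (A2.Mod.xE E M q) m V
          (V.comap (W : A2.Mod.FE E (M * q) →+* A2.Mod.FE E (M * q))))) :=
  finite_splitDiv_quot (R := A2.RE P E) E Sg (twoCtx_level hS hV hW hm hqm hζ) hSg hall

end Level

end Fermat.Agent.S59.LoSqC.H193

end

end
-- ===== PACK-END S59/LoSqC/H193/LabelFinal.lean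

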