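import Fermat.Agent.Pack.S59C.E11L2
import Fermat.Agent.Pack.S43MC.G0E28L1
import Fermat.Agent.Pack.S43MC.G0E27L2
import Fermat.Agent.Pack.S43MC.G0E27L3
import Fermat.Agent.Pack.S43MC.G0E26L1
import Fermat.Agent.Pack.S59C.E13L3
import Fermat.Agent.Pack.S59C.E7L1
import Fermat.Agent.Pack.S44C.G0E25L2
import Fermat.Agent.Pack.S43MC.G0E10L2
import Fermat.Agent.Pack.S43GC.G0E16L2
import Fermat.Agent.Pack.S43GC.G0E13L0
import Fermat.Agent.Pack.S43GC.G0E20L1
import Fermat.Agent.Pack.S43MC.G0E26L3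
import Fermat.Agent.Pack.S59C.E11L0
import Fermat.Agent.Pack.S44C.G0E31L0
import Fermat.Agent.Pack.S59C.E10L3
import Fermat.Agent.Pack.S44C.G0E30L3
import Fermat.Agent.Pack.S44C.G0E29L0
import Fermat.Agent.Pack.S44C.G0E28L0
import Fermat.Agent.Pack.S59C.E8L3
import Fermat.Agent.Pack.S59C.E11L1
import Fermat.Agent.Pack.S44C.G0E29L1
import Fermat.Agent.Pack.S59C.E12L2
import Fermat.Agent.Pack.S44C.G0E17L1
import Fermat.Agent.Pack.S59C.E3L1
import Fermat.Agent.Pack.S59C.E9L1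
import Fermat.Agent.Pack.S59C.E11L3
import Fermat.Agent.Pack.S59C.E12L3
import Fermat.Agent.Pack.S59C.E13L1
import Fermat.Agent.Pack.S43MC.G0E18L2
import Fermat.Agent.Pack.S59C.E0L3
import Fermat.Agent.Pack.S59C.E13L2
import Fermat.Agent.Pack.S59C.E10L0

set_option linter.all false

-- ===== PACK-BEGIN S58/H94/FromEngine.lean
section






/-!
# S58 from the PLAIN chain tops of S35 and S36 (helper94)

Per lead ruling #9784 (4): consumers import the plain chain tops, never `S35.lean` / `S36.lean`.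

* `s35Statement_h94 : S58.S35Statement` — from `S35.H991.result_of_qnf S35.H991.qNewFrob_final`;
* `s36Statement_of_newPart_h94 : S36.H36.NewPartInertiaStatement → S58.S36Statement`;
* `s58_of_newPart_h94 : S36.H36.NewPartInertiaStatement → S58.S58Statement`;
* `s58_of_engine_h94 : S36.Eng.Alg3Statement → S36.Eng.Model3Statement → S58.S58Statement`.
-/

set_option autoImplicit false

namespace Fermat.Agent.S58.H94

/-- Frozen S35, in the gate shape of `S58/Spec.lean`, from the plain S35 chain. -/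
theorem s35Statement_h94 : Fermat.Agent.S58.S35Statement :=
  fun {M} _ {g} hg lam _ S O' _ _ _ _ _ _ hlamO' chig hchig iota hlamS hMS =>
    Fermat.Agent.S35.H991.result_of_qnf Fermat.Agent.S35.H991.qNewFrob_final
      hg lam S O' hlamO' chig hchig iota hlamS hMS

/-- Frozen S36, in the gate shape of `S58/Spec.lean`, from the engine input (N). -/
theorem s36Statement_of_newPart_h94 (hN : Fermat.Agent.S36.H36.NewPartInertiaStatement) :
    Fermat.Agent.S58.S36Statement :=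
  fun {M} _ {g} hg lam _ S O' _ _ _ _ _ _ hlamO' _hlam2 chig hchig iota hlamS hMS _hres =>
    Fermat.Agent.S36.H683.result_of_newPart hN
      hg lam S O' hlamO' chig hchig iota hlamS hMS

/-- **S58 from the S36 engine input (N)** alone. -/
theorem s58_of_newPart_h94 (hN : Fermat.Agent.S36.H36.NewPartInertiaStatement) :
    Fermat.Agent.S58.S58Statement :=
  s58_of_S35_S36 s35Statement_h94 (s36Statement_of_newPart_h94 hN)

/-- **S58 from the two S36 engine statements** (ALG3 + MOD3). -/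
theorem s58_of_engine_h94 (hALG : Fermat.Agent.S36.Eng.Alg3Statement)
    (hMOD : Fermat.Agent.S36.Eng.Model3Statement) : Fermat.Agent.S58.S58Statement :=
  s58_of_newPart_h94 (Fermat.Agent.S36.Eng.newPartInertia_of_alg3_model3 hALG hMOD)

end Fermat.Agent.S58.H94

end
-- ===== PACK-END S58/H94/FromEngine.lean

-- ===== PACK-BEGIN S58/H94/FromModel3.lean
section



/-!
# S58 from MOD3 alone (helper94)

ALG3 is closed on main (`S36.Alg3.alg3`, sub-architect helper586), so S58 needs only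
`S36.Eng.Model3Statement`:

    s58_of_model3_h94 : S36.Eng.Model3Statement → S58.S58Statement
-/

set_option autoImplicit false

namespace Fermat.Agent.S58.H94

/-- **S58 from MOD3** (`Eng.Model3Statement`) alone. -/
theorem s58_of_model3_h94 (hMOD : Fermat.Agent.S36.Eng.Model3Statement) :
    Fermat.Agent.S58.S58Statement :=
  s58_of_engine_h94 Fermat.Agent.S36.Alg3.alg3 hMOD

end Fermat.Agent.S58.H94

end
-- ===== PACK-END S58/H94/FromModel3.lean

-- ===== PACK-BEGIN S59/NMP/H296/MaxUnrB.lean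
section


/-!
# S59 / NMP-LGC, leaf MAXUNR, piece GR-LINK, instance (helper296)

`localCoordPlus_h296`: local coordinates on `J₀(N)[ℓ^e]` at a good level and at a GIVEN valuation
ring `V ∣ ℓ` (`ℓ ∤ N`), constant modulo `𝔪_V` on the kernel of `reductionModL V N`.
-/

set_option autoImplicit false
set_option synthInstance.maxHeartbeats 400000

noncomputable section

namespace Fermat.Agent.S59.NMP.H296

open ModularCurve AlgebraicCurve HahnSeries IsLocalRing
open Fermat.Agent.S19 (GalQ IsInertiaAt GoodLevel Tors torsAct LocalCoordDatum)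
open Fermat.Agent.S37.Red (Qb FN kA FNk)
open Fermat.Agent.A3.H739

/-- The kernel of `reductionModL` inside the torsion lies in the kernel of reduction of the
`GoodRed` datum `goodRedOfLeaves` (for any place map `r`). -/
theorem mem_kerRed_goodRedOfLeaves_h296 (N : ℕ) [NeZero N] {ℓ : ℕ} [Fact ℓ.Prime]
    (hℓN : ¬ ℓ ∣ N) (V : ValuationSubring _root_.Fermat.Agent.S37.Red.Qb) (hV : V.LiesOverPrime ℓ)
    (r : Place _root_.Fermat.Agent.S37.Red.Qb (FN N) → Place (kA V) (FNk V N)) (hr : IsPlaceReductionModL V N r)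
    (hrI : ∀ σ : GalQ, IsInertiaAt V σ → ∀ P : Place _root_.Fermat.Agent.S37.Red.Qb (FN N),
        r (arithmeticGalois (modularFunctionFieldFull N) σ • P) = r P)
    (hgen : GenusLeaf N V) (horth : OrthLeaf N V (gr_vg N hℓN V hV))
    (hin : ReductionInputsModL V N) (e : ℕ) (x : Tors N ℓ e)
    (hx : reductionModL V N (x : JZero N) = 0) :
    ((x : Tors N ℓ e) : Pic0 _root_.Fermat.Agent.S37.Red.Qb (FN N)) ∈
      (goodRedOfLeaves N hℓN V hV r hr hrI hgen horth).kerRed := by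
  have hℓ : ℓ.Prime := Fact.out
  obtain ⟨D, hD, hDp⟩ := exists_div_of_reductionModL_eq_zero_h296 hin r hr
    (pow_ne_zero e hℓ.ne_zero) (x : JZero N) (pow_nsmul_eq_zero_h296 N ℓ e x) hx
  exact ⟨D, hD, hDp⟩

/-- **GR-LINK.**  Local coordinates on `J₀(N)[ℓ^e]` at a good level and at a GIVEN valuation ring
`V ∣ ℓ`, constant modulo `𝔪_V` on the kernel of the reduction map `reductionModL V N`. -/
theorem localCoordPlus_h296 (N : ℕ) [NeZero N] (ℓ : ℕ) [Fact ℓ.Prime] (hℓN : ¬ ℓ ∣ N)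
    (hg : GoodLevel N ℓ) (V : ValuationSubring _root_.Fermat.Agent.S37.Red.Qb) (hV : V.LiesOverPrime ℓ) (e : ℕ)
    [hfin : Finite (Tors N ℓ e)] :
    ∃ L : LocalCoordDatum ℓ (Tors N ℓ e) (torsAct N ℓ e), L.V = V ∧
      ∀ x : Tors N ℓ e, reductionModL V N (x : JZero N) = 0 →
        ∀ i, L.Ψ x i - L.Ψ 0 i ∈ V.nonunits := by
  have hℓ : ℓ.Prime := Fact.out
  obtain ⟨r, hr, hrI⟩ := Fermat.Agent.A3.H615.GrRed.redLeaf N ℓ hℓN hg V hV
  have horth := Fermat.Agent.A3.H499.orthLeaf N hℓN V hV (gr_vg N hℓN V hV)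
  have hgen := Fermat.Agent.A3.H615.GrGenus.genusLeaf_of_orthLeaf N ℓ hℓN hg V hV horth
  have hin : ReductionInputsModL V N :=
    Fermat.Agent.S37.Core.rimStatement N ℓ hℓ hℓN hg V hV
  haveI : IsAlgClosed (kA V) := Fermat.Agent.S18.H9.resAlgClosed _root_.Fermat.Agent.S37.Red.Qb V
  obtain ⟨L, hLV, hL⟩ := localCoord_of_goodRed_h296 N ℓ e
    (goodRedOfLeaves N hℓN V hV r hr hrI hgen horth) hV
    (fun σ hσ => arithmeticGalois_mem_inertiaImage V N hσ)
    {x : Tors N ℓ e | reductionModL V N (x : JZero N) = 0}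
    (fun x hx => mem_kerRed_goodRedOfLeaves_h296 N hℓN V hV r hr hrI hgen horth hin e x hx)
  exact ⟨L, hLV, fun x hx i => hL x hx i⟩

end Fermat.Agent.S59.NMP.H296

end
end
-- ===== PACK-END S59/NMP/H296/MaxUnrB.lean

-- ===== PACK-BEGIN S59/NMP/H296/MaxUnrC.lean
section







/-!
# S59 / NMP-LGC, leaf MAXUNR, pieces COORD⁺ and ORD⁺ (helper296)

* `coordPlus_h296` : GLOBAL Galois-equivariant integral coordinates on `J₀(N)[ℓ^e]` (good level,
  `ℓ ∤ N`) which are constant modulo `𝔪_V` on the kernel of `reductionModL V N`, for a GIVEN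
  valuation ring `V ∣ ℓ`  (GR-LINK + UNR⁺; the kernel is stable under the decomposition group by
  `S37.H697.reductionModL_decomp_ker`).
* `orderDatumOfCoord_h296`, `isHopfLattice_ordAlg_h296` : the Hopf lattice `ordAlg D` generated by
  the coordinates (the four fields are helper15's `ordAlg_*`).
* `exists_hopfLattice_redKer_h296` : a Hopf lattice `Λ` on `J₀(N)[ℓ^e]` with
  `reductionModL V N x = 0 ⟹ f x ≡ f 0 mod 𝔪_V` for all `f ∈ Λ`.
-/

set_option autoImplicit false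
set_option synthInstance.maxHeartbeats 400000
set_option linter.style.haveILetI false

noncomputable section

namespace Fermat.Agent.S59.NMP.H296

open ModularCurve AlgebraicCurve IsLocalRing
open Fermat.Agent.S19 (GalQ GoodLevel Tors torsAct torsAct_add LocalCoordDatum CoordDatum
  OrderDatum Rl Zb coordFunctions)
open Fermat.Agent.S37.Red (Qb FN kA FNk)
open scoped TensorProduct

/-- The kernel of `reductionModL V N` on the torsion is stable under the decomposition group. -/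
theorem reductionModL_torsAct_eq_zero_h296 (N : ℕ) [NeZero N] (ℓ : ℕ)
    (V : ValuationSubring _root_.Fermat.Agent.S37.Red.Qb) (hin : ReductionInputsModL V N) (e : ℕ)
    (δ : GalQ) (hδ : δ ∈ V.decompositionSubgroup ℚ) (x : Tors N ℓ e)
    (hx : reductionModL V N (x : JZero N) = 0) :
    reductionModL V N ((torsAct N ℓ e δ x : Tors N ℓ e) : JZero N) = 0 :=
  Fermat.Agent.S37.H697.reductionModL_decomp_ker N V hin
    (Fermat.Agent.S37.H697.riemannBound_modular N) δ hδ (x : JZero N) hx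

/-- **COORD⁺.**  Global coordinates on `J₀(N)[ℓ^e]`, constant modulo `𝔪_V` on the kernel of
`reductionModL V N`. -/
theorem coordPlus_h296 (N : ℕ) [NeZero N] (ℓ : ℕ) [Fact ℓ.Prime] (hℓN : ¬ ℓ ∣ N)
    (hg : GoodLevel N ℓ) (V : ValuationSubring _root_.Fermat.Agent.S37.Red.Qb) (hV : V.LiesOverPrime ℓ) (e : ℕ)
    [hfin : Finite (Tors N ℓ e)] :
    ∃ C : CoordDatum ℓ (Tors N ℓ e) (torsAct N ℓ e),
      ∀ x : Tors N ℓ e, reductionModL V N (x : JZero N) = 0 →
        ∀ k : C.ι, C.Φ x k - C.Φ 0 k ∈ V.nonunits := by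
  have hℓ : ℓ.Prime := Fact.out
  obtain ⟨L, hLV, hL⟩ := localCoordPlus_h296 N ℓ hℓN hg V hV e
  have hin : ReductionInputsModL V N :=
    Fermat.Agent.S37.Core.rimStatement N ℓ hℓ hℓN hg V hV
  obtain ⟨C, hC⟩ := unrPlus_h296 ℓ (Tors N ℓ e) (torsAct N ℓ e)
    (Fermat.Agent.S19.contStatement N ℓ e) L
    {x : Tors N ℓ e | reductionModL V N (x : JZero N) = 0}
    (fun δ hδ x hx => by
      rw [hLV] at hδ
      exact reductionModL_torsAct_eq_zero_h296 N ℓ V hin e δ hδ x hx)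
    (fun x hx i => by
      rw [hLV]
      exact hL x hx i)
  refine ⟨C, fun x hx k => ?_⟩
  have h := hC x hx k
  rw [hLV] at h
  exact h

section Lattice

variable {ℓ : ℕ} {M : Type} [AddCommGroup M] {act : GalQ → M → M}

/-- The order datum of a coordinate datum (`S19.orderDatum_of_coordDatum`, as a definition). -/
def orderDatumOfCoord_h296 (hadd : ∀ (σ : GalQ) (a b : M), act σ (a + b) = act σ a + act σ b)
    (C : CoordDatum ℓ M act) : OrderDatum ℓ M act where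
  act_add := hadd
  gens := Set.range fun (i : C.ι) (m : M) => C.Φ m i
  equivariant := by
    rintro f ⟨i, rfl⟩ σ m
    exact C.equivariant σ m i
  integral := by
    rintro f ⟨i, rfl⟩ m
    exact C.integral m i
  separates := by
    intro m m' h
    apply C.inj
    funext i
    exact h _ ⟨i, rfl⟩
  add_mem := by
    rintro f ⟨i, rfl⟩
    refine Algebra.adjoin_mono ?_ (C.add_mem i)
    rintro g (⟨j, rfl⟩ | ⟨j, rfl⟩)
    · exact Or.inl ⟨_, ⟨j, rfl⟩, rfl⟩
    · exact Or.inr ⟨_, ⟨j, rfl⟩, rfl⟩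

/-- **ORD⁺ (lattice form).**  The algebra generated by an order datum on a finite module is a
Hopf lattice. -/
theorem isHopfLattice_ordAlg_h296 [Fact ℓ.Prime] [Finite M] (D : OrderDatum ℓ M act) :
    Fermat.Agent.S19.H435.IsHopfLattice ℓ act (Fermat.Agent.S19.H15.ordAlg D) where
  fg := Fermat.Agent.S19.H15.ordAlg_fg D
  equivariant := fun f hf => Fermat.Agent.S19.H15.ordAlg_equivariant D f hf
  separates := Fermat.Agent.S19.H15.ordAlg_separates D
  comul_mem := by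
    intro f hf
    obtain ⟨t, ht⟩ := Fermat.Agent.S19.H15.ordAlg_comul D f hf
    obtain ⟨n, a, b, rfl⟩ := Fermat.Agent.S19.H435.exists_fin_tmul t
    refine ⟨n, fun k => ((a k : Fermat.Agent.S19.H15.ordAlg D) : M → _root_.Fermat.Agent.S37.Red.Qb),
      fun k => ((b k : Fermat.Agent.S19.H15.ordAlg D) : M → _root_.Fermat.Agent.S37.Red.Qb),
      fun k => (a k).2, fun k => (b k).2, fun x y => ?_⟩
    have h := congrFun ht (x, y)
    rw [map_sum, Finset.sum_apply] at h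
    rw [← h]
    refine Finset.sum_congr rfl fun k _ => ?_
    exact Fermat.Agent.S19.H19.prodMap_tmul _ _ (a k) (b k) (x, y)

end Lattice

end Fermat.Agent.S59.NMP.H296

end
end
-- ===== PACK-END S59/NMP/H296/MaxUnrC.lean

-- ===== PACK-BEGIN S59/NMP/H296/MaxUnr.lean
section




/-!
# S59 / NMP-LGC, leaf MAXUNR at good levels (helper296)

For a prime `ℓ ∤ N` at a good level (`5 ≤ ℓ`, or `ℓ = 3 ∧ 2 ∣ N`, or `ℓ = 2 ∧ 3 ∣ N`) and a
valuation ring `V` of `ℚ̄` above `ℓ`: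

* `exists_hopfLattice_redKer_h296` : the torsion `J₀(N)[ℓ^e]` carries a Hopf lattice `Λ` over
  `ℤ_(ℓ)` which is COMPATIBLE WITH SPECIALISATION:
  `reductionModL V N x = 0 ⟹ f x ≡ f 0 mod 𝔪_V` for all `f ∈ Λ`
  (S19⁺ = the S19 pipeline LOCAL → UNR → ORD with a tracked clause);
* `maxUnr_tors_h296`, `maxUnr_h296` (**MAXUNR**, `ℓ` odd): the kernel of specialisation on
  `J₀(N)[ℓ]` is contained in the inertia augmentation `(I_V - 1) J₀(N)[ℓ]`, i.e. the image of
  specialisation is the maximal unramified quotient of `J₀(N)[ℓ]`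
  (connected–étale: `S56.FO.H6.connEt`).
-/

set_option autoImplicit false
set_option synthInstance.maxHeartbeats 400000
set_option linter.style.haveILetI false

noncomputable section

namespace Fermat.Agent.S59.NMP.H296

open ModularCurve AlgebraicCurve IsLocalRing
open Fermat.Agent.S19 (GalQ GoodLevel Tors torsAct torsAct_add CoordDatum OrderDatum Rl)
open Fermat.Agent.S37.Red (Qb)

/-- **S19⁺.**  A Hopf lattice on `J₀(N)[ℓ^e]` compatible with the specialisation at `V`. -/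
theorem exists_hopfLattice_redKer_h296 (N : ℕ) [NeZero N] (ℓ : ℕ) [Fact ℓ.Prime]
    (hℓN : ¬ ℓ ∣ N) (hg : GoodLevel N ℓ) (V : ValuationSubring _root_.Fermat.Agent.S37.Red.Qb) (hV : V.LiesOverPrime ℓ)
    (e : ℕ) :
    ∃ Λ : Subalgebra (Rl ℓ) (Tors N ℓ e → _root_.Fermat.Agent.S37.Red.Qb),
      Fermat.Agent.S19.H435.IsHopfLattice ℓ (torsAct N ℓ e) Λ ∧
      ∀ x : Tors N ℓ e, reductionModL V N (x : JZero N) = 0 →
        ∀ f ∈ Λ, V.valuation (f x - f 0) < 1 := by
  haveI : Finite (Tors N ℓ e) := Fermat.Agent.A3.H319.finStatement N ℓ e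
  obtain ⟨C, hC⟩ := coordPlus_h296 N ℓ hℓN hg V hV e
  set D : OrderDatum ℓ (Tors N ℓ e) (torsAct N ℓ e) :=
    orderDatumOfCoord_h296 (torsAct_add N ℓ e) C with hD
  have hΛ := isHopfLattice_ordAlg_h296 D
  refine ⟨Fermat.Agent.S19.H15.ordAlg D, hΛ, fun x hx f hf => ?_⟩
  have hval : ∀ g ∈ Fermat.Agent.S19.H15.ordAlg D, ∀ m, g m ∈ V := fun g hg m =>
    Fermat.Agent.S56.H906.apply_mem V hΛ hV hg m
  have key : ∀ g ∈ Fermat.Agent.S19.H15.ordAlg D, g x - g 0 ∈ V.nonunits := by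
    intro g hg
    unfold Fermat.Agent.S19.H15.ordAlg at hg
    induction hg using Algebra.adjoin_induction with
    | mem φ hφ =>
      obtain ⟨i, rfl⟩ := hφ
      exact hC x hx i
    | algebraMap r =>
      have : (algebraMap (Rl ℓ) (Tors N ℓ e → _root_.Fermat.Agent.S37.Red.Qb) r) x -
          (algebraMap (Rl ℓ) (Tors N ℓ e → _root_.Fermat.Agent.S37.Red.Qb) r) 0 = 0 := sub_self _
      rw [this]
      exact zero_mem_nonunits_h296 V
    | add f g hf hg ihf ihg =>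
      have : (f + g) x - (f + g) 0 = (f x - f 0) + (g x - g 0) := by
        simp only [Pi.add_apply]; ring
      rw [this]
      exact add_mem_nonunits_h296 V ihf ihg
    | mul f g hf hg ihf ihg =>
      have : (f * g) x - (f * g) 0 = (f x - f 0) * g x + f 0 * (g x - g 0) := by
        simp only [Pi.mul_apply]; ring
      rw [this]
      exact add_mem_nonunits_h296 V
        (mul_mem_nonunits_left_h296 V ihf (hval g hg x))
        (mul_mem_nonunits_right_h296 V (hval f hf 0) ihg)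
  exact (ValuationSubring.mem_nonunits_iff V).mp (key f hf)

/-- **MAXUNR on the torsion module** (good level, `ℓ` odd): a point of `J₀(N)[ℓ]` killed by the
specialisation at `V` lies in the inertia augmentation of `J₀(N)[ℓ]`. -/
theorem maxUnr_tors_h296 (N : ℕ) [NeZero N] (ℓ : ℕ) [Fact ℓ.Prime] (hℓ2 : ℓ ≠ 2)
    (hℓN : ¬ ℓ ∣ N) (hg : GoodLevel N ℓ) (V : ValuationSubring _root_.Fermat.Agent.S37.Red.Qb) (hV : V.LiesOverPrime ℓ)
    (x : Tors N ℓ 1) (hx : reductionModL V N (x : JZero N) = 0) :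
    x ∈ AddSubgroup.closure
      {z : Tors N ℓ 1 | ∃ σ ∈ V.inertiaSubgroupIn ℚ, ∃ y : Tors N ℓ 1,
        z = torsAct N ℓ 1 σ y - y} := by
  haveI : Finite (Tors N ℓ 1) := Fermat.Agent.A3.H319.finStatement N ℓ 1
  obtain ⟨Λ, hΛ, hcl⟩ := exists_hopfLattice_redKer_h296 N ℓ hℓN hg V hV 1
  have hkill : ∀ y : Tors N ℓ 1, ℓ • y = 0 := by
    intro y
    have h := pow_nsmul_eq_zero_h296 N ℓ 1 y
    rw [pow_one] at h
    exact Subtype.ext (by rw [Submodule.coe_smul_of_tower]; exact h)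
  exact Fermat.Agent.S56.FO.H6.connEt ℓ hℓ2 (Tors N ℓ 1) (torsAct N ℓ 1) Λ hΛ hkill V hV x
    (hcl x hx)

end Fermat.Agent.S59.NMP.H296

end
end
-- ===== PACK-END S59/NMP/H296/MaxUnr.lean

-- ===== PACK-BEGIN S59/NMP/H296/MaxUnrGood.lean
section



/-!
# S59 / NMP-LGC, leaf MAXUNR — the frozen Prop `H135.MaxUnrGoodStatement`, VERBATIM (helper296)

    theorem maxUnrGood_h296 : Fermat.Agent.S59.NMP.H135.MaxUnrGoodStatement

= `maxUnr_tors_h296` (S19⁺ + connected–étale) in the vocabulary `S33.iAug` / `S33.torsSub` of the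
frozen sub-interface `S59/NMP/H135/LgcSpec.lean` (helper135).
-/

set_option autoImplicit false
set_option synthInstance.maxHeartbeats 400000

noncomputable section

namespace Fermat.Agent.S59.NMP.H296

open ModularCurve AlgebraicCurve
open Fermat.Agent.S19 (GalQ GoodLevel Tors torsAct)
open Fermat.Agent.S37.Red (Qb)

/-- **MAXUNR at good levels**, frozen shape. -/
theorem maxUnrGood_h296 : Fermat.Agent.S59.NMP.H135.MaxUnrGoodStatement := by
  intro p M _ hp hp2 hpM hgood A hA x hpx hx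
  haveI : Fact p.Prime := ⟨hp⟩
  have hg : GoodLevel M p := by
    rcases hgood with h | ⟨h3, h2⟩
    · exact Or.inl h
    · exact Or.inr (Or.inl ⟨h3, h2⟩)
  have hxT : x ∈ Submodule.torsionBy ℤ (JZero M) ((p : ℤ) ^ 1) := by
    rw [Submodule.mem_torsionBy_iff, pow_one, natCast_zsmul]
    exact hpx
  have h := maxUnr_tors_h296 M p hp2 hpM hg A hA ⟨x, hxT⟩ hx
  have key : ∀ z : Tors M p 1, z ∈ AddSubgroup.closure
      {z : Tors M p 1 | ∃ σ ∈ A.inertiaSubgroupIn ℚ, ∃ y : Tors M p 1,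
        z = torsAct M p 1 σ y - y} →
      (z : JZero M) ∈ Fermat.Agent.S33.iAug (A.inertiaSubgroupIn ℚ)
        (Fermat.Agent.S33.torsSub (JZero M) p) := by
    intro z hz
    induction hz using AddSubgroup.closure_induction with
    | mem w hw =>
      obtain ⟨σ, hσ, y, rfl⟩ := hw
      refine AddSubgroup.subset_closure ⟨σ, hσ, (y : JZero M), ?_, rfl⟩
      have hy := pow_nsmul_eq_zero_h296 M p 1 y
      rw [pow_one] at hy
      show (y : JZero M) ∈ (nsmulAddMonoidHom (α := JZero M) p).ker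
      rw [AddMonoidHom.mem_ker, nsmulAddMonoidHom_apply]
      exact hy
    | zero => exact AddSubgroup.zero_mem _
    | add a b _ _ ha hb => exact AddSubgroup.add_mem _ ha hb
    | neg a _ ha => exact AddSubgroup.neg_mem _ ha
  exact key ⟨x, hxT⟩ h

end Fermat.Agent.S59.NMP.H296

end
end
-- ===== PACK-END S59/NMP/H296/MaxUnrGood.lean

-- ===== PACK-BEGIN Ribet/H912/TameGen.lean
section


/-!
# TAME / CORE-OUT-q for a GENERIC modular unit pair (helper912)

`H912.tameCore` (rows 37/38) uses the unit `Δ(t)/Δ(t^q)`, whose unit pair has exponent `12`: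
it needs `gcd (12, m) = 1`, i.e. `p ≥ 5`.  For `p = 3` (S59 moonshot, cells (A), (B1)) the SAME
proof works with ANY unit pair of exponent `N₀` prime to `m`:

* `UnitPairAt A M q N₀ X₀` : at every good level `E` over `A`, for every uniformiser `w` and all
  cut components `p₁, p₂` of the finite chart there are `D, D'` in the chart with
  `D · D' = w ^ (N₀ e)` (`q ~ w ^ e`), `D ∉ p₁`, `D' ∉ p₂`, and `D` has the expansion `X₀`
  (an integer Laurent series).  `unitPairAt_delta` : the instance `(12, Δ(t)/Δ(t^q))` of main.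
* `tameLevelGen`, `tameCoreGen` : `tameLevel`, `tameCore` with `12` replaced by `N₀`.
  In `tameCoreGen` the unit over `ℚ̄` is any `DQ ∈ F(q M)` with `DQ · X₀ = 1`.
-/

set_option autoImplicit false
set_option linter.style.haveILetI false
set_option linter.unusedSectionVars false
set_option linter.unusedVariables false
set_option synthInstance.maxHeartbeats 400000
set_option maxHeartbeats 1600000

noncomputable section

namespace Fermat.Agent.Ribet.H912

open ModularCurve AlgebraicCurve HahnSeries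
open Fermat.Agent.A2 Fermat.Agent.A2.Alg
open Fermat.Agent.S24 Fermat.Agent.A2.H708
open Fermat.Agent.Ribet.H884

/-- **Generic INST-B with expansion**: a modular unit pair of exponent `N₀` and expansion `X₀`,
at every good level over `A`. -/
def UnitPairAt (A : ValuationSubring Kbar) (M q N₀ : ℕ) [NeZero M] [NeZero q]
    (X₀ : LaurentSeries ℤ) : Prop :=
  ∀ (E : IntermediateField ℚ Kbar) (w : Mod.RE A E), Mod.Setting A E M q w → GoodField A E →
    ∀ (V : ValuationSubring (Mod.FE E (M * q)))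
      (W : Mod.FE E (M * q) ≃ₐ[E] Mod.FE E (M * q)),
      Mod.IsVinf A E (M * q) V → Mod.IsFricke E (M * q) W →
      ∀ p₁ p₂ : Ideal (Mod.chartAlg A E (M * q) (Mod.xE E M q)),
        Mod.IsCut A E (M * q) w V (Mod.chartAlg A E (M * q) (Mod.xE E M q)) p₁ →
        Mod.IsCut A E (M * q) w (V.comap (W : Mod.FE E (M * q) →+* Mod.FE E (M * q)))
          (Mod.chartAlg A E (M * q) (Mod.xE E M q)) p₂ →
        ∃ (e : ℕ) (D D' : Mod.chartAlg A E (M * q) (Mod.xE E M q)), 0 < e ∧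
          Associated ((q : ℕ) : Mod.RE A E) (w ^ e) ∧
          D * D' = algebraMap (Mod.RE A E) (Mod.chartAlg A E (M * q) (Mod.xE E M q)) w ^
            (N₀ * e) ∧
          D ∉ p₁ ∧ D' ∉ p₂ ∧
          (((D : Mod.FE E (M * q)) : Mod.FE E (M * q)) : LaurentSeries E) =
            Fermat.Agent.S36.H438.castE E X₀

/-- The unit pair of main: exponent `12`, expansion `Δ(t)/Δ(t^q)`. -/
theorem unitPairAt_delta (A : ValuationSubring Kbar) (M q : ℕ) [NeZero M] [NeZero q] :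
    UnitPairAt A M q 12 (Fermat.Agent.S28.H589.unitL' q) := by
  intro E w hS hE V W hV hW p₁ p₂ hc₁ hc₂
  exact Fermat.Agent.Ribet.H464.exists_unitPair_cut_exp464 hS hV hW p₁ p₂ hc₁ hc₂

section Level

variable (A : ValuationSubring Kbar) (E : IntermediateField ℚ Kbar) (M q : ℕ) [NeZero M]
  [NeZero q]

/-- **TAME at an unramified good level, generic unit pair.** -/
theorem tameLevelGen (hq : q.Prime) (hqM : ¬ q ∣ M) (haux : Fermat.Agent.S35.G.HasAux M q)
    (hA : A.LiesOverPrime q) (hE : GoodField A E)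
    (hunr : ∀ e : E, (e : Kbar) ∈ A.nonunits → (e : Kbar) * ((q : Kbar))⁻¹ ∈ A)
    (m N₀ : ℕ) (hm : 0 < m) (hN₀ : 0 < N₀) (hcop : Nat.Coprime N₀ m)
    (X₀ : LaurentSeries ℤ) (hU : UnitPairAt A M q N₀ X₀)
    (y : Mod.FE E (M * q)) (hy : y ≠ 0) (hdiv : DivisibleDiv E m y) :
    ∃ (w : Mod.RE A E) (D₁ : Mod.FE E (M * q)) (v₁ v₂ : ℤ),
      Mod.Setting A E M q w ∧ D₁ ≠ 0 ∧
      (D₁ : LaurentSeries E) = Fermat.Agent.S36.H438.castE E X₀ ∧
      ∀ n : Ideal (Mod.chartAlg A E (M * q) (Mod.xE E M q)), n.IsMaximal →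
        algebraMap (Mod.RE A E) (Mod.chartAlg A E (M * q) (Mod.xE E M q)) w ∈ n →
        ∃ (d : Mod.FE E (M * q)) (a : ℤ), d ≠ 0 ∧
          Alg.LocUnit (Mod.chartAlg A E (M * q) (Mod.xE E M q)) n
            ((y ^ N₀ * D₁ ^ (v₁ - v₂) * Mod.cE A E (M * q) w ^ (-(N₀ : ℤ) * v₁)) *
              Mod.cE A E (M * q) w ^ a * d ^ m) := by
  haveI : IsDiscreteValuationRing ↥(RE A E) := hE.dvr
  haveI : HenselianLocalRing ↥(RE A E) := hE.henselian
  haveI : IsAlgClosed (IsLocalRing.ResidueField ↥(RE A E)) := hE.algClosed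
  obtain ⟨w, hw⟩ := IsDiscreteValuationRing.exists_irreducible ↥(RE A E)
  have hS : Mod.Setting A E M q w :=
    { q_prime := hq
      q_not_dvd := hqM
      M_ne_zero := NeZero.ne M
      lies_over := hA
      dvr := hE.dvr
      unif := hw }
  obtain ⟨V, W, VM, hV, hW, hVM, hg1, hg2, hDeg, sf, si, cf, ci, hcf, hci⟩ :=
    Fermat.Agent.S35.G.H862.model A E M q w hS hE haux
  obtain ⟨hx, hfr, hconst⟩ := hDeg hq hqM
  have hpos : 0 < Module.finrank
      (IntermediateField.adjoin E ({Mod.xE E M q} : Set (Mod.FE E (M * q))))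
      (Mod.FE E (M * q)) := by
    rw [hfr]
    have h1 := Mod.dedekindPsi_pos_of_ne_zero M (NeZero.ne M)
    positivity
  have hfin : FiniteDimensional
      (IntermediateField.adjoin E ({Mod.xE E M q} : Set (Mod.FE E (M * q))))
      (Mod.FE E (M * q)) := Module.finite_of_finrank_pos hpos
  have hCf : ChartCtx E w (Mod.xE E M q) (Mod.chartAlg A E (M * q) (Mod.xE E M q)) :=
    ⟨hw, hx, hfin, hconst, fun _ => Iff.rfl⟩
  -- the unit pair
  obtain ⟨e, D, D', he, hass, hmul, hD, hD', hexp⟩ :=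
    hU E w hS hE V W hV hW cf.p₁ cf.p₂ (fun b => hcf.cut₁ b) (fun b => hcf.cut₂ b)
  have he1 : e = 1 := Fermat.Agent.Ribet.H464.pow_eq_of_associated464 hw hass
    (associated_natCast_of_unramified hq hA hE.dvr hunr hw)
  subst he1
  rw [mul_one] at hmul
  -- valuations along the two components
  obtain ⟨v₁, v₂, hv₁, hv₂⟩ := Fermat.Agent.Ribet.H868.exists_valAt_chart (E := E) w
    (Mod.xE E M q) (Mod.chartAlg A E (M * q) (Mod.xE E M q)) hCf cf y hy
  have hD0 : (D : Mod.FE E (M * q)) ≠ 0 := by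
    intro h0
    have : D = 0 := Subtype.ext h0
    exact hD (this ▸ cf.p₁.zero_mem)
  refine ⟨w, (D : Mod.FE E (M * q)), v₁, v₂, hS, hD0, hexp, ?_⟩
  intro n hn hwn
  obtain ⟨d, hd0, hloc, -, -⟩ := Fermat.Agent.Ribet.H868.pureAt_tame (E := E) m N₀ hm
    hN₀ hcop w (Mod.xE E M q) (Mod.chartAlg A E (M * q) (Mod.xE E M q)) hCf cf
    D D' hmul hD hD' y hy hdiv v₁ v₂ hv₁ hv₂ n hn.isPrime hwn
  refine ⟨d, 0, hd0, ?_⟩
  rw [zpow_zero, mul_one]
  exact hloc

end Level

section Core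

variable (q M m : ℕ) [NeZero M] [NeZero q] [NeZero (q * M)]

/-- **TAME-FIXED / CORE-OUT-q, generic unit pair** (`N₀` prime to `m`; `p = 3` allowed). -/
theorem tameCoreGen (hq : q.Prime) (hqM : ¬ q ∣ M) (haux : Fermat.Agent.S35.G.HasAux M q)
    (hm : 0 < m) (N₀ : ℕ) (hN₀ : 0 < N₀) (hcop : Nat.Coprime N₀ m)
    (A : ValuationSubring Kbar) (hA : A.LiesOverPrime q)
    (X₀ : LaurentSeries ℤ) (hU : UnitPairAt A M q N₀ X₀)
    (DQ : FF (q * M)) (hDQ0 : DQ ≠ 0)
    (hDQ : ∀ E : IntermediateField ℚ Kbar, (DQ : LaurentSeries Kbar) *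
      coeffMap (algebraMap E Kbar) (Fermat.Agent.S36.H438.castE E X₀) = 1)
    (x : JZero (q * M)) (hx : m • x = 0)
    (hfix : ∀ σ ∈ A.inertiaSubgroupIn ℚ, σ • x = x) :
    ∃ (f G : FF (q * M)) (a b : ℕ), IsKummerGen (q * M) m f x ∧
      G * DQ ^ b = f ^ N₀ * DQ ^ a ∧
      ∃ r₁ r₂ : LaurentSeries (kA A), IsRedInf (q * M) A G r₁ ∧ IsRedZero (q * M) A G r₂ ∧
        PDivFin m M r₁ ∧ PDivFin m M r₂ := by
  classical
  haveI hPD : HasPrincipalDivisors Kbar ↥(modularFunctionFieldBar (q * M)) :=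
    Fermat.Agent.Lib.RR.H864.hasPrincipalDivisors_modularFunctionFieldBar (q * M)
  have hconst : Fermat.Agent.S36.H756.ConstOfOrdZero Kbar ↥(modularFunctionFieldBar (q * M)) := by
    intro u hu h
    obtain ⟨c, hc⟩ :=
      Fermat.Agent.S18.H144.constOfOrdZero_modularFunctionFieldBar (q * M) u hu h
    exact ⟨c, hc.symm⟩
  -- 1. DESC
  obtain ⟨D₀, f, hf0, hDx, hfD, hffix⟩ :=
    Fermat.Agent.S36.H756.exists_fixed_kummer_rep (F₀ := modularFunctionFieldFull (q * M))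
      hconst (A.inertiaSubgroupIn ℚ) m x hx hfix
  -- 2. the unramified level
  obtain ⟨hE, hunr⟩ := Fermat.Agent.S36.Eng.H189.unramified_inertiaField q hq A hA
  set E : IntermediateField ℚ Kbar := IntermediateField.fixedField (A.inertiaSubgroupIn ℚ) with hEdef
  obtain ⟨y, hy⟩ : ∃ y : ↥(laurentBaseChange E (modularFunctionFieldFull (q * M))),
      Fermat.Agent.A2.T1.H669.iota E (modularFunctionFieldFull (q * M)) y = f :=
    Fermat.Agent.S36.H756.exists_iota_eq_of_fixed (A.inertiaSubgroupIn ℚ) f hffix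
  -- the level `M * q`
  obtain ⟨y', hy'⟩ := exists_cast_level E (Nat.mul_comm q M) y
  have hfy : (f : LaurentSeries Kbar) = coeffMap (algebraMap E Kbar) (y : LaurentSeries E) := by
    rw [← hy]
    rfl
  have hy'0 : y' ≠ 0 := by
    rintro rfl
    apply hf0
    apply Subtype.ext
    rw [hfy, ← hy']
    show coeffMap (algebraMap E Kbar) (0 : LaurentSeries E) = 0
    rw [map_zero]
  have hdiv : DivisibleDiv E m y' := by
    refine Fermat.Agent.A2.T1.H669.divisibleDiv_of_ord E (modularFunctionFieldFull (M * q)) m y'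
      hy'0 ?_
    refine dvd_ord_cast (Nat.mul_comm q M) m f
      (Fermat.Agent.A2.T1.H669.iota E (modularFunctionFieldFull (M * q)) y') ?_
      (fun v => ⟨_, hfD v⟩)
    rw [Fermat.Agent.A2.T1.H669.coe_iota, hy', hfy]
  -- 3. LEVEL
  obtain ⟨w, D₁, v₁, v₂, hS, hD₁0, hD₁, hpure⟩ :=
    tameLevelGen A E M q hq hqM haux hA hE hunr m N₀ hm hN₀ hcop X₀ hU y' hy'0 hdiv
  haveI : IsDiscreteValuationRing ↥(RE A E) := hE.dvr
  have hw0 : (w : E) ≠ 0 := fun h => hS.unif.ne_zero (Subtype.ext h)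
  have hcw0 : Mod.cE A E (M * q) w ≠ 0 := by
    show algebraMap E (Mod.FE E (M * q)) (w : E) ≠ 0
    rw [Ne, map_eq_zero]
    exact hw0
  set GE : Mod.FE E (M * q) :=
    y' ^ N₀ * D₁ ^ (v₁ - v₂) * Mod.cE A E (M * q) w ^ (-(N₀ : ℤ) * v₁) with hGE
  have hGE0 : GE ≠ 0 :=
    mul_ne_zero (mul_ne_zero (pow_ne_zero _ hy'0) (zpow_ne_zero _ hD₁0)) (zpow_ne_zero _ hcw0)
  -- the objects over `ℚ̄`
  set c : Kbar := ((w : E) : Kbar) with hc
  have hc0 : c ≠ 0 := by
    intro h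
    exact hw0 (Subtype.ext h)
  set f'' : FF (q * M) := algebraMap Kbar (FF (q * M)) (c ^ (-v₁)) * f with hf''
  have hcc0 : algebraMap Kbar (FF (q * M)) (c ^ (-v₁)) ≠ 0 := by
    rw [Ne, map_eq_zero]
    exact zpow_ne_zero _ hc0
  have hf''0 : f'' ≠ 0 := mul_ne_zero hcc0 hf0
  set G : FF (q * M) := f'' ^ N₀ * DQ ^ (v₂ - v₁) with hG
  -- the expansion of `G`
  have hGG : (G : LaurentSeries Kbar) = coeffMap (algebraMap E Kbar) (GE : LaurentSeries E) := by
    set φ : Mod.FE E (M * q) →+* LaurentSeries Kbar :=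
      (algebraMap ↥(modularFunctionFieldBar (M * q)) (LaurentSeries Kbar)).comp
        (Fermat.Agent.A2.T1.H669.iota E (modularFunctionFieldFull (M * q))) with hφ
    set χ : FF (q * M) →+* LaurentSeries Kbar :=
      algebraMap ↥(modularFunctionFieldBar (q * M)) (LaurentSeries Kbar) with hχ
    have hφv : ∀ z : Mod.FE E (M * q),
        φ z = coeffMap (algebraMap E Kbar) (z : LaurentSeries E) := fun z => rfl
    have hχv : ∀ z : FF (q * M), χ z = (z : LaurentSeries Kbar) := fun z => rfl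
    have e1 : φ y' = χ f := by
      rw [hφv, hχv, hy', hfy]
    have e2 : φ D₁ = (χ DQ)⁻¹ := by
      rw [hφv, hD₁, hχv]
      exact eq_inv_of_mul_eq_one_right (hDQ E)
    have e3 : φ (Mod.cE A E (M * q) w) = algebraMap Kbar (LaurentSeries Kbar) c := by
      rw [hφv]
      exact Fermat.Agent.S18.H602.coeffMap_algebraMap' (algebraMap E Kbar) (w : E)
    have e4 : χ (algebraMap Kbar (FF (q * M)) (c ^ (-v₁))) =
        (algebraMap Kbar (LaurentSeries Kbar) c) ^ (-v₁) := by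
      rw [hχv, ← map_zpow₀]
      rfl
    have hχG : χ G = ((algebraMap Kbar (LaurentSeries Kbar) c) ^ (-v₁) * χ f) ^ N₀ *
        (χ DQ) ^ (v₂ - v₁) := by
      rw [hG, hf'', map_mul, map_pow, map_mul, e4, map_zpow₀]
    have hφG : φ GE = (χ f) ^ N₀ * ((χ DQ)⁻¹) ^ (v₁ - v₂) *
        (algebraMap Kbar (LaurentSeries Kbar) c) ^ (-(N₀ : ℤ) * v₁) := by
      rw [hGE, map_mul, map_mul, map_pow, map_zpow₀, map_zpow₀, e1, e2, e3]
    have e5 : -v₁ * ((N₀ : ℕ) : ℤ) = -(N₀ : ℤ) * v₁ := by ring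
    rw [← hφv GE, ← hχv G, hχG, hφG, inv_zpow', neg_sub, mul_pow,
      ← zpow_natCast ((algebraMap Kbar (LaurentSeries Kbar) c) ^ (-v₁)) N₀, ← zpow_mul, e5]
    ring
  -- 4. DICT
  have hNG := Fermat.Agent.Ribet.H472.nodeGenOfPure hS hE m GE G hGE0 hGG hpure
  -- 5. the Kummer generator and the relation
  have hK : IsKummerGen (q * M) m f'' x := by
    refine ⟨hf''0, D₀, hDx, fun v => ?_⟩
    rw [hf'', v.ord_mul hcc0 hf0, Fermat.Agent.S36.H756.ord_const_eq_zero, zero_add, hfD v]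
  refine ⟨f'', G, (v₂ - v₁).toNat, (-(v₂ - v₁)).toNat, hK, ?_, hNG⟩
  have hk : (v₂ - v₁) + ((-(v₂ - v₁)).toNat : ℤ) = ((v₂ - v₁).toNat : ℤ) := by
    have := Int.toNat_sub_toNat_neg (v₂ - v₁)
    omega
  rw [hG, mul_assoc, ← zpow_natCast DQ (-(v₂ - v₁)).toNat, ← zpow_add₀ hDQ0, hk, zpow_natCast]

end Core

end Fermat.Agent.Ribet.H912

end

end
-- ===== PACK-END Ribet/H912/TameGen.lean

-- ===== PACK-BEGIN S59/LO/H646/Unpad.lean
section




/-!
# Row S59, cell LO (moonshot), W-form AUX-PRIME GLUE, part 2 (helper646): UNCONDITIONAL forms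

* `unpad646 : UnpadStatement646` — UNPAD, unconditional: for every odd `p`, a prime `r ≠ p` of
  good reduction of `W`, `r ∤ M`, with `a_r(W)² ≢ (r + 1)² mod p` is removed from the level `r M`.
  (`UnpadCore.unpad_of_s35_646` on the PLAIN chain of S35 `S58.H94.s35Statement_h94` and on
  (R3'-W) `Ribet.H943.Final.almostAllToWitnessW`.)
* `resMod_mul_iff646` — for such `r`: level `r M` ⇔ level `M`.
* `exists_aux3_646 : Cheb3Statement646 → Aux3Statement646` — at `p = 3`: outside every finite set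
  there is a prime `r ≡ 2 mod 3` of good reduction such that for EVERY `M > 0` prime to `r`,
  `W` is residually modular of level `r M` iff it is of level `M` ("the auxiliary prime is free").
  `Cheb3Statement646` is `H826.Cheb32Statement` VERBATIM (closed off-main by helper817,
  `H817.cheb32_h817`).
-/

set_option autoImplicit false

namespace Fermat.Agent.S59.LO.H646

/-- **UNPAD** (statement). -/
def UnpadStatement646 : Prop :=
  ∀ (p : ℕ) [Fact p.Prime] (_hp2 : p ≠ 2) (W : WeierstrassCurve ℤ) (_hΔ : W.Δ ≠ 0)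
    (_hirr : W.ModRepIsIrreducible p) (M r : ℕ) (_hM : 0 < M) (_hr : r.Prime) (_hrp : r ≠ p)
    (_hrM : ¬ r ∣ M) (_hgood : W.IsGoodPrimeFor r)
    (_hne : ¬ (p : ℤ) ∣ W.apOfModel r ^ 2 - ((r : ℤ) + 1) ^ 2)
    (_hres : W.IsResiduallyModularOfLevel p (r * M)),
    W.IsResiduallyModularOfLevel p M

/-- **UNPAD**, unconditional. -/
theorem unpad646 : UnpadStatement646 :=
  fun p _ hp2 W hΔ hirr M r hM hr hrp hrM hgood hne hres =>
    unpad_of_s35_646 Fermat.Agent.S58.H94.s35Statement_h94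
      Fermat.Agent.Ribet.H943.Final.almostAllToWitnessW p hp2 W hΔ hirr M r hM hr hrp hrM hgood
      hne hres

/-- Level `r M` ⇔ level `M` at a prime `r` which is not a level-raising prime. -/
theorem resMod_mul_iff646 (p : ℕ) [Fact p.Prime] (hp2 : p ≠ 2) (W : WeierstrassCurve ℤ)
    (hΔ : W.Δ ≠ 0) (hirr : W.ModRepIsIrreducible p) (M r : ℕ) (hM : 0 < M) (hr : r.Prime)
    (hrp : r ≠ p) (hrM : ¬ r ∣ M) (hgood : W.IsGoodPrimeFor r)
    (hne : ¬ (p : ℤ) ∣ W.apOfModel r ^ 2 - ((r : ℤ) + 1) ^ 2) :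
    W.IsResiduallyModularOfLevel p (r * M) ↔ W.IsResiduallyModularOfLevel p M :=
  ⟨unpad646 p hp2 W hΔ hirr M r hM hr hrp hrM hgood hne,
    resMod_pad646 W p (Nat.mul_ne_zero hr.ne_zero hM.ne') (dvd_mul_left M r)⟩

/-- `H826.Cheb32Statement`, verbatim (closed off-main by helper817). -/
def Cheb3Statement646 : Prop :=
  ∀ (W : WeierstrassCurve ℤ), W.Δ ≠ 0 → W.IsSemistableModel → W.ModRepIsIrreducible 3 →
    ∀ S : Finset ℕ, ∃ r : ℕ, r.Prime ∧ r ∉ S ∧ W.IsGoodPrimeFor r ∧ r % 3 = 2 ∧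
      ¬ (3 : ℤ) ∣ W.apOfModel r

/-- **The auxiliary prime at `p = 3` is free** (statement). -/
def Aux3Statement646 : Prop :=
  ∀ (W : WeierstrassCurve ℤ), W.Δ ≠ 0 → W.IsSemistableModel → W.ModRepIsIrreducible 3 →
    ∀ S : Finset ℕ, ∃ r : ℕ, r.Prime ∧ r ∉ S ∧ r ≠ 3 ∧ W.IsGoodPrimeFor r ∧ r % 3 = 2 ∧
      ¬ (3 : ℤ) ∣ W.apOfModel r ∧
      ∀ M : ℕ, 0 < M → ¬ r ∣ M →
        (W.IsResiduallyModularOfLevel 3 (r * M) ↔ W.IsResiduallyModularOfLevel 3 M)

/-- `a² - (r + 1)²` is prime to `3` when `r ≡ 2 mod 3` and `3 ∤ a`. -/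
theorem not_dvd_sq_sub646 {a : ℤ} {r : ℕ} (hr : r % 3 = 2) (ha : ¬ (3 : ℤ) ∣ a) :
    ¬ (3 : ℤ) ∣ a ^ 2 - ((r : ℤ) + 1) ^ 2 := by
  intro h
  have h3 : (3 : ℤ) ∣ (r : ℤ) + 1 := by omega
  have h4 : (3 : ℤ) ∣ a ^ 2 := by
    have h5 : (3 : ℤ) ∣ ((r : ℤ) + 1) ^ 2 := Dvd.dvd.pow h3 two_ne_zero
    have := dvd_add h h5
    simpa using this
  exact ha (Int.Prime.dvd_pow' (by norm_num) h4)

/-- **The auxiliary prime at `p = 3` is free.** -/
theorem exists_aux3_646 (hCheb : Cheb3Statement646) : Aux3Statement646 := by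
  intro W hΔ hW hirr S
  haveI : Fact (Nat.Prime 3) := ⟨by norm_num⟩
  obtain ⟨r, hr, hrS, hgood, hr3, har⟩ := hCheb W hΔ hW hirr S
  have hr3' : r ≠ 3 := by
    rintro rfl
    omega
  refine ⟨r, hr, hrS, hr3', hgood, hr3, har, fun M hM hrM => ?_⟩
  exact resMod_mul_iff646 3 (by norm_num) W hΔ hirr M r hM hr hr3' hrM hgood
    (by exact_mod_cast not_dvd_sq_sub646 hr3 har)

end Fermat.Agent.S59.LO.H646

end
-- ===== PACK-END S59/LO/H646/Unpad.lean

-- ===== PACK-BEGIN Ribet/H698/RedMapGlue.lean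
section






/-!
# Row 37, WALL-q, leaf RED-MAP: PROVED glue  (sub-architect helper698)

`redMap_of_leaves : KummerRedStatement → GRSurjKStatement → GRInjKStatement →
    KnormFieldStatement → H158.WallQ.RedMapStatement`.

Landed inputs used: `H997.exists_isRedInf`, `H997.isRedInf_unique`, `H997.redField`,
`H997.isRedSer_mem_of_good`, `H376.heckeRed`, `H376.frickeHecke`, `H398.isKummerGen_heckeNorm`,
`H801.constOfOrdZero_bar`, `S29.H395.mk_eq_mk_iff`.
-/

set_option autoImplicit false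
set_option linter.style.haveILetI false
set_option linter.unusedSectionVars false
set_option linter.unusedVariables false
set_option synthInstance.maxHeartbeats 400000
set_option maxHeartbeats 1000000

noncomputable section

namespace Fermat.Agent.Ribet.H698.RedMap

open AlgebraicCurve ModularCurve HahnSeries
open Fermat.Agent.S24 Fermat.Agent.A2.H708 Fermat.Agent.A2.H528
open Fermat.Agent.Ribet.Spec Fermat.Agent.Ribet.H944.Wall Fermat.Agent.Ribet.H884
open Fermat.Agent.Ribet.H158.WallQ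
open Fermat.Agent.S37.H400

/-! ## Calculus of `PPowSeries` -/

section PPow

variable {m M' : ℕ} {k : Type} [Field k]

theorem coe_algebraMap_fullC (c : k) :
    ((algebraMap k (modularFunctionFieldFullC k M') c : modularFunctionFieldFullC k M') :
      LaurentSeries k) = HahnSeries.C c := by
  have h0 : ((algebraMap k (modularFunctionFieldFullC k M') c :
      modularFunctionFieldFullC k M') : LaurentSeries k) =
      algebraMap k (LaurentSeries k) c := rfl
  have h1 : algebraMap k (PowerSeries k) c = PowerSeries.C c := by simp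
  rw [h0, HahnSeries.algebraMap_apply', h1, HahnSeries.ofPowerSeries_C]

theorem pPow_one : PPowSeries m M' (1 : LaurentSeries k) :=
  ⟨1, 1, one_ne_zero, one_ne_zero, by simp⟩

theorem PPowSeries.mul {r r' : LaurentSeries k} (h : PPowSeries m M' r)
    (h' : PPowSeries m M' r') : PPowSeries m M' (r * r') := by
  obtain ⟨c, a, hc, ha, rfl⟩ := h
  obtain ⟨c', a', hc', ha', rfl⟩ := h'
  refine ⟨c * c', a * a', mul_ne_zero hc hc', mul_ne_zero ha ha', ?_⟩
  rw [map_mul, IntermediateField.coe_mul, mul_pow]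
  ring

theorem PPowSeries.inv {r : LaurentSeries k} (h : PPowSeries m M' r) :
    PPowSeries m M' r⁻¹ := by
  obtain ⟨c, a, hc, ha, rfl⟩ := h
  refine ⟨c⁻¹, a⁻¹, inv_ne_zero hc, inv_ne_zero ha, ?_⟩
  rw [map_inv₀, IntermediateField.coe_inv, inv_pow, mul_inv]

theorem PPowSeries.ne_zero {r : LaurentSeries k} (h : PPowSeries m M' r) : r ≠ 0 := by
  obtain ⟨c, a, hc, ha, rfl⟩ := h
  have ha' : (a : LaurentSeries k) ≠ 0 := fun h0 => ha (Subtype.ext h0)
  have hc' : (HahnSeries.C c : LaurentSeries k) ≠ 0 := by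
    intro h0
    apply hc
    have := congrArg (fun s : LaurentSeries k => s.coeff 0) h0
    simpa using this
  exact mul_ne_zero hc' (pow_ne_zero _ ha')

theorem PPowSeries.pDiv {r : LaurentSeries k} (h : PPowSeries m M' r) :
    PDivSeries m M' r := by
  obtain ⟨c, a, hc, ha, rfl⟩ := h
  have hcF : algebraMap k (modularFunctionFieldFullC k M') c ≠ 0 := by simpa using hc
  refine ⟨algebraMap k (modularFunctionFieldFullC k M') c * a ^ m, ?_,
    mul_ne_zero hcF (pow_ne_zero _ ha), fun Q => ?_⟩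
  · rw [IntermediateField.coe_mul, IntermediateField.coe_pow, coe_algebraMap_fullC]
  · rw [Place.ord_mul Q hcF (pow_ne_zero m ha), Fermat.Agent.A2.H129.ord_algebraMap_eq_zero,
      zero_add, Fermat.Agent.Ribet.H801.ord_pow_nat]
    exact dvd_mul_right _ _

/-- A constant times the `m`-th power of an element of `F_k` given as a series. -/
theorem pPow_of_mem {c : k} (hc : c ≠ 0) {h : LaurentSeries k}
    (hh : h ∈ modularFunctionFieldFullC k M') (h0 : h ≠ 0) :
    PPowSeries m M' (HahnSeries.C c * h ^ m) :=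
  ⟨c, ⟨h, hh⟩, hc, fun e => h0 (congrArg Subtype.val e), rfl⟩

end PPow

/-! ## Kummer generators of one class -/

section Kummer

variable {N : ℕ} [NeZero N] {m : ℕ}

/-- Two Kummer generators of the same class differ by a constant and an `m`-th power. -/
theorem kummer_ratio {f f' : FF N} {x : JZero N} (h : IsKummerGen N m f x)
    (h' : IsKummerGen N m f' x) :
    ∃ (c : Kbar) (G : FF N), c ≠ 0 ∧ G ≠ 0 ∧ f' = algebraMap Kbar (FF N) c * f * G ^ m := by
  obtain ⟨hf, D, hDx, hD⟩ := h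
  obtain ⟨hf', D', hDx', hD'⟩ := h'
  have he : Pic0.mk D' = Pic0.mk D := by rw [hDx, hDx']
  obtain ⟨G, hG0, hG⟩ := Fermat.Agent.S29.H395.mk_eq_mk_iff.mp he
  have hGm : G ^ m ≠ 0 := pow_ne_zero _ hG0
  set u : FF N := f' * f⁻¹ * (G ^ m)⁻¹ with hu
  have hu0 : u ≠ 0 := mul_ne_zero (mul_ne_zero hf' (inv_ne_zero hf)) (inv_ne_zero hGm)
  have hou : ∀ v : Place Kbar (FF N), v.ord u = 0 := by
    intro v
    rw [hu, v.ord_mul (mul_ne_zero hf' (inv_ne_zero hf)) (inv_ne_zero hGm),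
      v.ord_mul hf' (inv_ne_zero hf), v.ord_inv, v.ord_inv,
      Fermat.Agent.Ribet.H801.ord_pow_nat, hD v, hD' v, ← hG v]
    ring
  obtain ⟨c, hc⟩ := Fermat.Agent.Ribet.H801.constOfOrdZero_bar N u hu0 hou
  have hc0 : c ≠ 0 := by
    rintro rfl
    rw [map_zero] at hc
    exact hu0 hc
  refine ⟨c, G, hc0, hG0, ?_⟩
  rw [← hc, hu]
  field_simp

end Kummer

/-! ## The generic lifting relation -/

section Generic

/-- The lifting relation through a twist `φ` of `FF (q M')` (`φ = id`: the `∞`-component,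
`φ = w_N`: the `0`-component). -/
def LiftsVia (m q M' : ℕ) [NeZero M'] [NeZero (q * M')] (A : ValuationSubring Kbar)
    (φ : FF (q * M') →+* FF (q * M')) (x : JZero (q * M')) (z : JZero M') : Prop :=
  ∃ (f : FF (q * M')) (g : FF M') (r s : LaurentSeries (kA A)),
    IsKummerGen (q * M') m f x ∧ IsKummerGen M' m g z ∧
    IsRedInf (q * M') A (φ f) r ∧ IsRedInf M' A g s ∧ PPowSeries m M' (r * s⁻¹)

/-- The properties of the twists `id`, `w_N` used by the glue. -/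
structure GoodTwist (m q M' : ℕ) [NeZero M'] [NeZero (q * M')] (A : ValuationSubring Kbar)
    (φ : FF (q * M') →+* FF (q * M')) : Prop where
  const : ∀ c : Kbar, φ (algebraMap Kbar (FF (q * M')) c) = algebraMap Kbar (FF (q * M')) c
  field : ∀ (f : FF (q * M')) (r : LaurentSeries (kA A)), IsRedInf (q * M') A (φ f) r →
    r ∈ modularFunctionFieldFullC (kA A) M'
  hecke : ∀ (ℓ : ℕ) [NeZero ℓ], ℓ.Prime → ¬ ℓ ∣ q * M' → ∀ f : FF (q * M'),
    φ (Fermat.Agent.S29.H222.heckeNorm (q * M') ℓ f) =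
      Fermat.Agent.S29.H222.heckeNorm (q * M') ℓ (φ f)
  pdiv : ∀ f : FF (q * M'), FinGenQ m q M' A f →
    ∃ r : LaurentSeries (kA A), IsRedInf (q * M') A (φ f) r ∧ PDivSeries m M' r

variable {m q M' : ℕ} [NeZero M'] [NeZero (q * M')] {A : ValuationSubring Kbar}
  {φ : FF (q * M') →+* FF (q * M')}

/-- Reductions of the twists of two Kummer generators of one class differ by a constant and an
`m`-th power of `F_k`. -/
theorem pPow_ratio (hq : q.Prime) (hA : A.LiesOverPrime q) (hφ : GoodTwist m q M' A φ)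
    {f f' : FF (q * M')} {x : JZero (q * M')} (h : IsKummerGen (q * M') m f x)
    (h' : IsKummerGen (q * M') m f' x) {r r' : LaurentSeries (kA A)}
    (hr : IsRedInf (q * M') A (φ f) r) (hr' : IsRedInf (q * M') A (φ f') r') :
    PPowSeries m M' (r' * r⁻¹) := by
  obtain ⟨c, G, hc, hG, he⟩ := kummer_ratio h h'
  have hφG : φ G ≠ 0 := (map_ne_zero φ).mpr hG
  obtain ⟨rG, hrG⟩ := Fermat.Agent.Ribet.H997.exists_isRedInf hq hA hφG
  have hrGm := hφ.field G rG hrG
  have hrG0 : rG ≠ 0 := hrG.ne_zero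
  have hr0 : r ≠ 0 := hr.ne_zero
  have h1 : IsRedInf (q * M') A (φ f') (r * rG ^ m) := by
    rw [he, map_mul, map_mul, map_pow, hφ.const, mul_assoc]
    exact (hr.mul (hrG.pow m)).const_mul hc
  obtain ⟨u, hu, hEq⟩ := Fermat.Agent.Ribet.H997.isRedInf_unique h1 hr'
  have h2 : r' * r⁻¹ = HahnSeries.C u * rG ^ m := by
    rw [hEq]
    field_simp
  rw [h2]
  exact pPow_of_mem hu hrGm hrG0

/-- **Functionality**: the lift is unique (GR-INJ-K). -/
theorem LiftsVia.unique (hGI : GRInjKStatement) (hq : q.Prime) (hq2 : q ≠ 2)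
    (hqM : ¬ q ∣ M') (hm : 0 < m) (hcop : Nat.Coprime m q) (hA : A.LiesOverPrime q)
    (hφ : GoodTwist m q M' A φ) {x : JZero (q * M')} {z₁ z₂ : JZero M'}
    (h₁ : LiftsVia m q M' A φ x z₁) (h₂ : LiftsVia m q M' A φ x z₂) : z₁ = z₂ := by
  obtain ⟨f₁, g₁, r₁, s₁, hf₁, hg₁, hr₁, hs₁, hP₁⟩ := h₁
  obtain ⟨f₂, g₂, r₂, s₂, hf₂, hg₂, hr₂, hs₂, hP₂⟩ := h₂
  have hrr := pPow_ratio hq hA hφ hf₁ hf₂ hr₁ hr₂
  have hr₁0 : r₁ ≠ 0 := hr₁.ne_zero
  have hr₂0 : r₂ ≠ 0 := hr₂.ne_zero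
  have hs₁0 : s₁ ≠ 0 := hs₁.ne_zero
  have hs₂0 : s₂ ≠ 0 := hs₂.ne_zero
  have hss : PPowSeries m M' (s₂ * s₁⁻¹) := by
    have h3 := PPowSeries.mul (PPowSeries.mul hrr hP₁) (PPowSeries.inv hP₂)
    have e : r₂ * r₁⁻¹ * (r₁ * s₁⁻¹) * (r₂ * s₂⁻¹)⁻¹ = s₂ * s₁⁻¹ := by
      field_simp
    rwa [e] at h3
  have hK : IsKummerGen M' m (g₂ * g₁⁻¹) (z₂ + -z₁) := hg₂.mul hg₁.inv
  have hR : IsRedInf M' A (g₂ * g₁⁻¹) (s₂ * s₁⁻¹) := hs₂.mul hs₁.inv
  have h0 := hGI m q M' hq hq2 hqM hm hcop A hA _ _ _ hK hR hss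
  have : z₂ - z₁ = 0 := by rw [sub_eq_add_neg]; exact h0
  exact (sub_eq_zero.mp this).symm

/-- **Additivity** of the relation. -/
theorem LiftsVia.add {x x' : JZero (q * M')} {z z' : JZero M'}
    (h : LiftsVia m q M' A φ x z) (h' : LiftsVia m q M' A φ x' z') :
    LiftsVia m q M' A φ (x + x') (z + z') := by
  obtain ⟨f, g, r, s, hf, hg, hr, hs, hP⟩ := h
  obtain ⟨f', g', r', s', hf', hg', hr', hs', hP'⟩ := h'
  refine ⟨f * f', g * g', r * r', s * s', hf.mul hf', hg.mul hg', ?_, hs.mul hs', ?_⟩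
  · rw [map_mul]
    exact hr.mul hr'
  · have e : r * r' * (s * s')⁻¹ = r * s⁻¹ * (r' * s'⁻¹) := by
      rw [mul_inv]
      ring
    rw [e]
    exact PPowSeries.mul hP hP'

theorem liftsVia_zero : LiftsVia m q M' A φ 0 0 := by
  refine ⟨1, 1, 1, 1, isKummerGen_one, isKummerGen_one, ?_, isRedInf_one, ?_⟩
  · rw [map_one]
    exact isRedInf_one
  · rw [inv_one, mul_one]
    exact pPow_one

/-- **Existence** of the lift on the finite part (GR-SURJ-K). -/
theorem exists_liftsVia (hGS : GRSurjKStatement) (hq : q.Prime) (hq2 : q ≠ 2)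
    (hqM : ¬ q ∣ M') (hm : 0 < m) (hcop : Nat.Coprime m q) (hA : A.LiesOverPrime q)
    (hφ : GoodTwist m q M' A φ) {x : JZero (q * M')} (hx : x ∈ finSetQ m q M' A) :
    ∃ z : JZero M', LiftsVia m q M' A φ x z := by
  obtain ⟨f, hf, hF⟩ := hx
  obtain ⟨r, hr, hP⟩ := hφ.pdiv f hF
  obtain ⟨z, g, s, hg, hs, hPP⟩ := hGS m q M' hq hq2 hqM hm hcop A hA r hP
  exact ⟨z, f, g, r, s, hf, hg, hr, hs, hPP⟩

end Generic

/-! ## The Kronecker norm on `F_k` -/

section Kron

variable {m M' : ℕ} {k : Type} [Field k]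

theorem kronNorm_inv' {ℓ : ℕ} [NeZero ℓ] (hℓ : ℓ.Prime) {s : LaurentSeries k} (hs : s ≠ 0) :
    kronNorm ℓ s⁻¹ = (kronNorm ℓ s)⁻¹ := by
  have h1 : kronNorm ℓ s⁻¹ * kronNorm ℓ s = 1 := by
    rw [← kronNorm_mul, inv_mul_cancel₀ hs, kronNorm_one]
  exact eq_inv_of_mul_eq_one_left h1

/-- `kronNorm ℓ` preserves `PPowSeries`, if it preserves `F_k`. -/
theorem pPow_kronNorm {ℓ : ℕ} [NeZero ℓ] (hℓ : ℓ.Prime)
    (hKF : ∀ h : modularFunctionFieldFullC k M',
      kronNorm ℓ (h : LaurentSeries k) ∈ modularFunctionFieldFullC k M')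
    {t : LaurentSeries k} (ht : PPowSeries m M' t) : PPowSeries m M' (kronNorm ℓ t) := by
  obtain ⟨c, a, hc, ha, rfl⟩ := ht
  have ha' : (a : LaurentSeries k) ≠ 0 := fun h0 => ha (Subtype.ext h0)
  rw [kronNorm_mul, kronNorm_pow, Fermat.Agent.Ribet.H376.kronNorm_C]
  exact pPow_of_mem (pow_ne_zero _ hc) (hKF a)
    (Fermat.Agent.Ribet.H376.kronNorm_ne_zero_of_field hℓ ha')

end Kron

/-! ## Hecke equivariance -/

section Hecke

variable {m q M' : ℕ} [NeZero M'] [NeZero (q * M')] {A : ValuationSubring Kbar}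
  {φ : FF (q * M') →+* FF (q * M')}

/-- `kronNorm ℓ` preserves `PDivSeries` (through lifts to characteristic `0`). -/
theorem pDiv_kronNorm (hKR : KummerRedStatement) (hGS : GRSurjKStatement)
    (hKF : KnormFieldStatement) (hq : q.Prime) (hq2 : q ≠ 2)
    (hqM : ¬ q ∣ M') (hm : 0 < m) (hcop : Nat.Coprime m q) (hA : A.LiesOverPrime q)
    (ℓ : Nat.Primes) [NeZero (ℓ : ℕ)] (hℓN : ¬ (ℓ : ℕ) ∣ q * M')
    {r : LaurentSeries (kA A)} (hr : PDivSeries m M' r) :
    PDivSeries m M' (kronNorm (ℓ : ℕ) r) := by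
  have hℓM : ¬ (ℓ : ℕ) ∣ M' := fun h => hℓN (dvd_mul_of_dvd_right h q)
  obtain ⟨z, g, s, hg, hs, hPP⟩ := hGS m q M' hq hq2 hqM hm hcop A hA r hr
  have hs0 : s ≠ 0 := hs.ne_zero
  have e : r = r * s⁻¹ * s := by
    rw [mul_assoc, inv_mul_cancel₀ hs0, mul_one]
  rw [e, kronNorm_mul]
  have h1 : PPowSeries m M' (kronNorm (ℓ : ℕ) (r * s⁻¹)) :=
    pPow_kronNorm ℓ.2 (hKF q M' hq hqM A hA ℓ ℓ.2 hℓN) hPP
  have h2 : IsRedInf M' A (Fermat.Agent.S29.H222.heckeNorm M' (ℓ : ℕ) g)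
      (kronNorm (ℓ : ℕ) s) :=
    Fermat.Agent.Ribet.H376.isRedInf_heckeNorm' M' ℓ ℓ.2 hℓM A hs
  have h3 : IsKummerGen M' m (Fermat.Agent.S29.H222.heckeNorm M' (ℓ : ℕ) g)
      (heckeOperatorBar M' ℓ z) :=
    Fermat.Agent.Ribet.H398.isKummerGen_heckeNorm M' ℓ m g z hg
  exact (PPowSeries.pDiv h1).mul (hKR m q M' hq hq2 hqM A hA _ _ _ h3 h2)

/-- **Hecke equivariance** of the relation. -/
theorem LiftsVia.hecke (hKF : KnormFieldStatement) (hq : q.Prime) (hqM : ¬ q ∣ M')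
    (hA : A.LiesOverPrime q) (hφ : GoodTwist m q M' A φ)
    (ℓ : Nat.Primes) [NeZero (ℓ : ℕ)] (hℓN : ¬ (ℓ : ℕ) ∣ q * M')
    {x : JZero (q * M')} {z : JZero M'} (h : LiftsVia m q M' A φ x z) :
    LiftsVia m q M' A φ (heckeOperatorBar (q * M') ℓ x) (heckeOperatorBar M' ℓ z) := by
  have hℓM : ¬ (ℓ : ℕ) ∣ M' := fun h => hℓN (dvd_mul_of_dvd_right h q)
  obtain ⟨f, g, r, s, hf, hg, hr, hs, hPP⟩ := h
  have hs0 : s ≠ 0 := hs.ne_zero
  refine ⟨Fermat.Agent.S29.H222.heckeNorm (q * M') (ℓ : ℕ) f,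
    Fermat.Agent.S29.H222.heckeNorm M' (ℓ : ℕ) g, kronNorm (ℓ : ℕ) r, kronNorm (ℓ : ℕ) s,
    Fermat.Agent.Ribet.H398.isKummerGen_heckeNorm (q * M') ℓ m f x hf,
    Fermat.Agent.Ribet.H398.isKummerGen_heckeNorm M' ℓ m g z hg, ?_,
    Fermat.Agent.Ribet.H376.isRedInf_heckeNorm' M' ℓ ℓ.2 hℓM A hs, ?_⟩
  · rw [hφ.hecke ℓ ℓ.2 hℓN f]
    exact Fermat.Agent.Ribet.H376.isRedInf_heckeNorm' (q * M') ℓ ℓ.2 hℓN A hr
  · rw [← kronNorm_inv' ℓ.2 hs0, ← kronNorm_mul]
    exact pPow_kronNorm ℓ.2 (hKF q M' hq hqM A hA ℓ ℓ.2 hℓN) hPP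

end Hecke

/-! ## `finSetQ` is a subgroup, stable under `T_ℓ` -/

section Closed

variable {m q M' : ℕ} [NeZero M'] [NeZero (q * M')] {A : ValuationSubring Kbar}

theorem finGenQ_one : FinGenQ m q M' A (1 : FF (q * M')) :=
  ⟨1, 1, isRedInf_one, isRedZero_one, pDivSeries_one m M', pDivSeries_one m M'⟩

theorem FinGenQ.mul {f f' : FF (q * M')} (h : FinGenQ m q M' A f)
    (h' : FinGenQ m q M' A f') : FinGenQ m q M' A (f * f') := by
  obtain ⟨r₁, r₂, h1, h2, h3, h4⟩ := h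
  obtain ⟨r₁', r₂', h1', h2', h3', h4'⟩ := h'
  exact ⟨r₁ * r₁', r₂ * r₂', h1.mul h1', h2.mul h2', h3.mul h3', h4.mul h4'⟩

theorem FinGenQ.inv {f : FF (q * M')} (h : FinGenQ m q M' A f) :
    FinGenQ m q M' A f⁻¹ := by
  obtain ⟨r₁, r₂, h1, h2, h3, h4⟩ := h
  exact ⟨r₁⁻¹, r₂⁻¹, h1.inv, h2.inv, h3.inv, h4.inv⟩

/-- **FINCLOSED-q**: `finSetQ` is already a subgroup. -/
theorem mem_finSetQ_of_mem_finPartQ {x : JZero (q * M')} (hx : x ∈ finPartQ m q M' A) :
    x ∈ finSetQ m q M' A := by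
  unfold finPartQ at hx
  induction hx using AddSubgroup.closure_induction with
  | mem x hx => exact hx
  | zero => exact ⟨1, isKummerGen_one, finGenQ_one⟩
  | add x y _ _ hx hy =>
    obtain ⟨f, hf, hF⟩ := hx
    obtain ⟨f', hf', hF'⟩ := hy
    exact ⟨f * f', hf.mul hf', FinGenQ.mul hF hF'⟩
  | neg x _ hx =>
    obtain ⟨f, hf, hF⟩ := hx
    exact ⟨f⁻¹, hf.inv, FinGenQ.inv hF⟩

/-- `finSetQ` is stable under `T_ℓ`, `ℓ ∤ q M'`. -/
theorem hecke_mem_finSetQ (hKR : KummerRedStatement) (hGS : GRSurjKStatement)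
    (hKF : KnormFieldStatement) (hq : q.Prime) (hq2 : q ≠ 2)
    (hqM : ¬ q ∣ M') (hm : 0 < m) (hcop : Nat.Coprime m q) (hA : A.LiesOverPrime q)
    (ℓ : Nat.Primes) [NeZero (ℓ : ℕ)] (hℓN : ¬ (ℓ : ℕ) ∣ q * M')
    {x : JZero (q * M')} (hx : x ∈ finSetQ m q M' A) :
    heckeOperatorBar (q * M') ℓ x ∈ finSetQ m q M' A := by
  obtain ⟨f, hf, r₁, r₂, h1, h2, h3, h4⟩ := hx
  refine ⟨Fermat.Agent.S29.H222.heckeNorm (q * M') (ℓ : ℕ) f,
    Fermat.Agent.Ribet.H398.isKummerGen_heckeNorm (q * M') ℓ m f x hf,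
    kronNorm (ℓ : ℕ) r₁, kronNorm (ℓ : ℕ) r₂,
    Fermat.Agent.Ribet.H376.isRedInf_heckeNorm' (q * M') ℓ ℓ.2 hℓN A h1, ?_,
    pDiv_kronNorm hKR hGS hKF hq hq2 hqM hm hcop hA ℓ hℓN h3,
    pDiv_kronNorm hKR hGS hKF hq hq2 hqM hm hcop hA ℓ hℓN h4⟩
  unfold IsRedZero at h2 ⊢
  rw [Fermat.Agent.Ribet.H376.wF_heckeNorm ℓ.2 hℓN f]
  exact Fermat.Agent.Ribet.H376.isRedInf_heckeNorm' (q * M') ℓ ℓ.2 hℓN A h2

end Closed

/-! ## The kernel -/

section Kernel

variable {m q M' : ℕ} [NeZero M'] [NeZero (q * M')] {A : ValuationSubring Kbar}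
  {φ : FF (q * M') →+* FF (q * M')}

/-- A Kummer generator of the class `0` of level `M'` has reduction `c · h ^ m`. -/
theorem pPow_of_kummer_zero (hq : q.Prime) (hqM : ¬ q ∣ M') (hA : A.LiesOverPrime q)
    {g : FF M'} {s : LaurentSeries (kA A)} (hg : IsKummerGen M' m g 0)
    (hs : IsRedInf M' A g s) : PPowSeries m M' s := by
  obtain ⟨c, G, hc, hG, he⟩ := kummer_ratio (isKummerGen_one (N := M') (p := m)) hg
  obtain ⟨rG, hrG⟩ := Fermat.Agent.Ribet.H997.exists_isRedInf hq hA hG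
  have hrGm : rG ∈ modularFunctionFieldFullC (kA A) M' :=
    Fermat.Agent.Ribet.H997.isRedSer_mem_of_good hq hqM hA G.2 hrG
  have hrG0 : rG ≠ 0 := hrG.ne_zero
  have h1 : IsRedInf M' A g (rG ^ m) := by
    rw [he, mul_one]
    exact (hrG.pow m).const_mul hc
  obtain ⟨u, hu, hEq⟩ := Fermat.Agent.Ribet.H997.isRedInf_unique h1 hs
  rw [hEq]
  exact pPow_of_mem hu hrGm hrG0

/-- If `x` lifts to `0`, every Kummer generator of `x` has twisted reduction `c · h ^ m`. -/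
theorem pPow_of_liftsVia_zero (hq : q.Prime) (hqM : ¬ q ∣ M') (hA : A.LiesOverPrime q)
    (hφ : GoodTwist m q M' A φ) {x : JZero (q * M')} (h : LiftsVia m q M' A φ x 0)
    {f : FF (q * M')} (hf : IsKummerGen (q * M') m f x) {r : LaurentSeries (kA A)}
    (hr : IsRedInf (q * M') A (φ f) r) : PPowSeries m M' r := by
  obtain ⟨f', g, r', s, hf', hg, hr', hs, hPP⟩ := h
  have hs0 : s ≠ 0 := hs.ne_zero
  have hr'0 : r' ≠ 0 := hr'.ne_zero
  have h1 : PPowSeries m M' s := pPow_of_kummer_zero hq hqM hA hg hs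
  have h2 : PPowSeries m M' r' := by
    have := PPowSeries.mul hPP h1
    rwa [mul_assoc, inv_mul_cancel₀ hs0, mul_one] at this
  have h3 := pPow_ratio hq hA hφ hf' hf hr' hr
  have := PPowSeries.mul h3 h2
  rwa [mul_assoc, inv_mul_cancel₀ hr'0, mul_one] at this

end Kernel

/-! ## The map -/

section Map

variable {m q M' : ℕ} [NeZero M'] [NeZero (q * M')] {A : ValuationSubring Kbar}

theorem goodTwist_id (hq : q.Prime) (hqM : ¬ q ∣ M') (hA : A.LiesOverPrime q) [NeZero q] :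
    GoodTwist m q M' A (RingHom.id (FF (q * M'))) where
  const _ := rfl
  field f r h := by
    obtain ⟨a, ha⟩ := Fermat.Agent.Ribet.H997.redField q M' hq hqM A hA f r (Or.inl h)
    rw [← ha]
    exact a.2
  hecke _ _ _ _ _ := rfl
  pdiv f hF := by
    obtain ⟨r₁, r₂, h1, h2, h3, h4⟩ := hF
    exact ⟨r₁, h1, h3⟩

theorem goodTwist_wF (hq : q.Prime) (hqM : ¬ q ∣ M') (hA : A.LiesOverPrime q) [NeZero q] :
    GoodTwist m q M' A ((wF (q * M') : FF (q * M') ≃ₐ[Kbar] FF (q * M')) :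
      FF (q * M') →+* FF (q * M')) where
  const c := (wF (q * M')).commutes c
  field f r h := by
    obtain ⟨a, ha⟩ := Fermat.Agent.Ribet.H997.redField q M' hq hqM A hA f r (Or.inr h)
    rw [← ha]
    exact a.2
  hecke ℓ _ hℓ hℓN f := Fermat.Agent.Ribet.H376.wF_heckeNorm hℓ hℓN f
  pdiv f hF := by
    obtain ⟨r₁, r₂, h1, h2, h3, h4⟩ := hF
    exact ⟨r₂, h2, h4⟩

variable (hGS : GRSurjKStatement) (hGI : GRInjKStatement)
  (hq : q.Prime) (hq2 : q ≠ 2) (hqM : ¬ q ∣ M') (hm : 0 < m) (hcop : Nat.Coprime m q)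
  (hA : A.LiesOverPrime q) {φ : FF (q * M') →+* FF (q * M')} (hφ : GoodTwist m q M' A φ)

/-- The lift through `φ`, as a homomorphism on the finite part. -/
def liftHom : finPartQ m q M' A →+ JZero M' where
  toFun x := Classical.choose
    (exists_liftsVia hGS hq hq2 hqM hm hcop hA hφ (mem_finSetQ_of_mem_finPartQ x.2))
  map_zero' :=
    LiftsVia.unique hGI hq hq2 hqM hm hcop hA hφ
      (Classical.choose_spec
        (exists_liftsVia hGS hq hq2 hqM hm hcop hA hφ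
          (mem_finSetQ_of_mem_finPartQ (0 : finPartQ m q M' A).2)))
      liftsVia_zero
  map_add' x y :=
    LiftsVia.unique hGI hq hq2 hqM hm hcop hA hφ
      (Classical.choose_spec
        (exists_liftsVia hGS hq hq2 hqM hm hcop hA hφ
          (mem_finSetQ_of_mem_finPartQ (x + y).2)))
      (LiftsVia.add
        (Classical.choose_spec
          (exists_liftsVia hGS hq hq2 hqM hm hcop hA hφ (mem_finSetQ_of_mem_finPartQ x.2)))
        (Classical.choose_spec
          (exists_liftsVia hGS hq hq2 hqM hm hcop hA hφ (mem_finSetQ_of_mem_finPartQ y.2))))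

theorem liftHom_spec (x : finPartQ m q M' A) :
    LiftsVia m q M' A φ (x : JZero (q * M'))
      (liftHom hGS hGI hq hq2 hqM hm hcop hA hφ x) :=
  Classical.choose_spec
    (exists_liftsVia hGS hq hq2 hqM hm hcop hA hφ (mem_finSetQ_of_mem_finPartQ x.2))

end Map

/-! ## RED-MAP -/

/-- **RED-MAP from its leaves**: `𝓕 / 𝒮` embeds Hecke-equivariantly in `J₀(M') × J₀(M')`. -/
theorem redMap_of_leaves (hKR : KummerRedStatement) (hGS : GRSurjKStatement)
    (hGI : GRInjKStatement) (hKF : KnormFieldStatement) : RedMapStatement := by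
  intro p n q M' _ _ _ hp hp5 hn hq hq2 hqp hqM A hA
  have hm : 0 < p ^ n := pow_pos hp.pos n
  have hcop : Nat.Coprime (p ^ n) q :=
    Nat.Coprime.pow_left n ((Nat.coprime_primes hp hq).mpr (Ne.symm hqp))
  have hφ₁ : GoodTwist (p ^ n) q M' A (RingHom.id (FF (q * M'))) := goodTwist_id hq hqM hA
  have hφ₂ : GoodTwist (p ^ n) q M' A ((wF (q * M') : FF (q * M') ≃ₐ[Kbar] FF (q * M')) :
      FF (q * M') →+* FF (q * M')) := goodTwist_wF hq hqM hA
  refine ⟨(q * M').primeFactors,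
    (liftHom hGS hGI hq hq2 hqM hm hcop hA hφ₁).prod
      (liftHom hGS hGI hq hq2 hqM hm hcop hA hφ₂), ?_, ?_⟩
  · intro ℓ hℓ x
    haveI : NeZero (ℓ : ℕ) := ⟨ℓ.2.ne_zero⟩
    have hℓN : ¬ (ℓ : ℕ) ∣ q * M' := fun h =>
      hℓ (Nat.mem_primeFactors.mpr ⟨ℓ.2, h, NeZero.ne _⟩)
    have hx : heckeOperatorBar (q * M') ℓ (x : JZero (q * M')) ∈ finPartQ (p ^ n) q M' A :=
      AddSubgroup.subset_closure
        (hecke_mem_finSetQ hKR hGS hKF hq hq2 hqM hm hcop hA ℓ hℓN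
          (mem_finSetQ_of_mem_finPartQ x.2))
    refine ⟨hx, ?_⟩
    apply Prod.ext
    · exact LiftsVia.unique hGI hq hq2 hqM hm hcop hA hφ₁
        (liftHom_spec hGS hGI hq hq2 hqM hm hcop hA hφ₁ ⟨_, hx⟩)
        (LiftsVia.hecke hKF hq hqM hA hφ₁ ℓ hℓN
          (liftHom_spec hGS hGI hq hq2 hqM hm hcop hA hφ₁ x))
    · exact LiftsVia.unique hGI hq hq2 hqM hm hcop hA hφ₂
        (liftHom_spec hGS hGI hq hq2 hqM hm hcop hA hφ₂ ⟨_, hx⟩)
        (LiftsVia.hecke hKF hq hqM hA hφ₂ ℓ hℓN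
          (liftHom_spec hGS hGI hq hq2 hqM hm hcop hA hφ₂ x))
  · intro x hx0
    have h1 : liftHom hGS hGI hq hq2 hqM hm hcop hA hφ₁ x = 0 := congrArg Prod.fst hx0
    have h2 : liftHom hGS hGI hq hq2 hqM hm hcop hA hφ₂ x = 0 := congrArg Prod.snd hx0
    have l1 := liftHom_spec hGS hGI hq hq2 hqM hm hcop hA hφ₁ x
    have l2 := liftHom_spec hGS hGI hq hq2 hqM hm hcop hA hφ₂ x
    rw [h1] at l1
    rw [h2] at l2
    obtain ⟨f, hf, r₁, r₂, hr1, hr2, -, -⟩ := mem_finSetQ_of_mem_finPartQ x.2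
    refine AddSubgroup.subset_closure ⟨f, hf, r₁, r₂, hr1, hr2, ?_, ?_⟩
    · exact pPow_of_liftsVia_zero hq hqM hA hφ₁ l1 hf hr1
    · exact pPow_of_liftsVia_zero hq hqM hA hφ₂ l2 hf hr2

/-- **(Q3) RED from the leaves of RED-MAP.** -/
theorem q3_of_leaves (hKR : KummerRedStatement) (hGS : GRSurjKStatement)
    (hGI : GRInjKStatement) (hKF : KnormFieldStatement) : Q3Statement :=
  q3_of_redMap (redMap_of_leaves hKR hGS hGI hKF)

end Fermat.Agent.Ribet.H698.RedMap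

end

end
-- ===== PACK-END Ribet/H698/RedMapGlue.lean

-- ===== PACK-BEGIN S59/LoSqC/H27/SurjE.lean
section










/-!
# S59 moonshot, cell (C) LO-SQ, adapter SURJ-E (helper27)

From the `J`-form of the count at level `N` (`M ∣ N`, in the application `N = M q`; classes of
`J₀(N)[m]` fixed by the inertia group `I_A`, Kummer generators over `ℚ̄`, reductions
`H884.IsRedInf` / `IsRedZero` by `t`-expansions) to the `E`-form consumed by the wall at level
`M q²` (`E ⊇ ℚ̄^{I_A}` a good level, `V∞`, `V₀ = V∞ ∘ W` the two vertical valuation rings of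
`F_E(N)`).

* `descRed` (A) : an inertia-fixed `m`-torsion class with a Kummer generator `f` of reductions
  `r₁`, `r₂` has a Kummer generator `ι y`, `y ∈ F_E(N)`, `m ∣ div y`, of reductions
  `r₁ s₁ ^ m`, `r₂ s₂ ^ m`;
* `pu_of_isRedInf`, `pu_of_isRedZero` (B) : reductions in multiplicative form
  `y ≡ b · w ^ j · g ^ m`;
* `rSurjAt_of_gen` (C) : the body of `H987.RSurjAt` (with `h = 1`) for `b ∈ F_E(N)`, from a
  generator with reductions `(1, red₀ b)` modulo constants and `m`-th powers and the vanishing of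
  the slope.
-/

set_option autoImplicit false
set_option linter.unusedSectionVars false
set_option linter.unusedVariables false
set_option linter.style.haveILetI false
set_option synthInstance.maxHeartbeats 400000
set_option maxHeartbeats 1600000

noncomputable section

namespace Fermat.Agent.S59.LoSqC.H27

open ModularCurve HahnSeries AlgebraicCurve
open Fermat.Agent.A2 Fermat.Agent.A2.Mod
open Fermat.Agent.S24 Fermat.Agent.A2.H528 Fermat.Agent.A2.T1.H669 Fermat.Agent.Ribet.H884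
open Fermat.Agent.A2.H708
open Fermat.Agent.A2.IF.H429 (inertiaField)
open Fermat.Agent.S36.H586 (PU IsOrd)
open Fermat.Agent.S36.Eng (UnitAt UnifAt)

local notation "Q̄" => AlgebraicClosure ℚ

/-! ## (A) descent of the Kummer generator, with its reductions -/

section A

variable (N : ℕ) [NeZero N]

/-- An element of `F_E(N)` seen in `F_{E'}(N)`, `E ≤ E'`. -/
theorem exists_iota_up {E E' : IntermediateField ℚ Q̄} (hE : E ≤ E')
    (y : Mod.FE E N) :
    ∃ y' : Mod.FE E' N, iota E' (modularFunctionFieldFull N) y'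
      = iota E (modularFunctionFieldFull N) y := by
  refine ⟨⟨coeffMap (IntermediateField.inclusion hE : E →+* E') (y : LaurentSeries E),
    Fermat.Agent.S18.H602.coeffMap_mem_laurentBaseChange (modularFunctionFieldFull N) _ y.2⟩, ?_⟩
  apply Subtype.ext
  rw [coe_iota, coe_iota]
  show coeffMap (algebraMap E' Q̄) (coeffMap (IntermediateField.inclusion hE : E →+* E')
    (y : LaurentSeries E)) = _
  rw [ModularCurve.coeffMap_coeffMap]
  exact ModularCurve.coeffMap_congr (RingHom.ext fun _ => rfl) _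

/-- **(A) DESC-RED.** -/
theorem descRed {q : ℕ} (hq : q.Prime) (A : ValuationSubring Q̄) (hA : A.LiesOverPrime q)
    (E : IntermediateField ℚ Q̄) (hEI : inertiaField A ≤ E)
    (m : ℕ) (x : JZero N) (hx : m • x = 0)
    (hfix : ∀ σ ∈ A.inertiaSubgroupIn ℚ, σ • x = x)
    {f : FF N} (hf : IsKummerGen N m f x) {r₁ r₂ : LaurentSeries (kA A)}
    (h₁ : IsRedInf N A f r₁) (h₂ : IsRedZero N A f r₂) :
    ∃ y : Mod.FE E N, y ≠ 0 ∧ DivisibleDiv E m y ∧
      IsKummerGen N m (iota E (modularFunctionFieldFull N) y) x ∧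
      ∃ (G : FF N) (s₁ s₂ : LaurentSeries (kA A)), G ≠ 0 ∧
        IsRedInf N A G s₁ ∧ IsRedZero N A G s₂ ∧
        IsRedInf N A (iota E (modularFunctionFieldFull N) y) (r₁ * s₁ ^ m) ∧
        IsRedZero N A (iota E (modularFunctionFieldFull N) y) (r₂ * s₂ ^ m) := by
  obtain ⟨y₀, hy₀0, hyK₀, -⟩ := Fermat.Agent.Ribet.H868.exists_fixed_kummerGen N m A x hx hfix
  obtain ⟨y, hy⟩ := exists_iota_up N hEI y₀
  have hyK : IsKummerGen N m (iota E (modularFunctionFieldFull N) y) x := by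
    rw [hy]
    exact hyK₀
  have hy0 : y ≠ 0 := by
    rintro rfl
    rw [map_zero] at hyK
    exact hyK.1 rfl
  have hyD : DivisibleDiv E m y := by
    obtain ⟨-, D, -, hD⟩ := hyK
    refine Fermat.Agent.A2.T1.H669.divisibleDiv_of_ord E (modularFunctionFieldFull N) m y hy0
      fun v => ?_
    rw [hD v]
    exact dvd_mul_right _ _
  obtain ⟨c, G, hc, hG, hyf⟩ := Fermat.Agent.Ribet.H698.RedMap.kummer_ratio hf hyK
  obtain ⟨s₁, hs₁⟩ := Fermat.Agent.Ribet.H997.exists_isRedInf hq hA hG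
  have hwG : wF N G ≠ 0 := by
    intro h
    exact hG ((map_eq_zero_iff _ (wF N).injective).1 h)
  obtain ⟨s₂, hs₂⟩ := Fermat.Agent.Ribet.H997.exists_isRedInf (N := N) hq hA hwG
  refine ⟨y, hy0, hyD, hyK, G, s₁, s₂, hG, hs₁, hs₂, ?_, ?_⟩
  · rw [hyf]
    exact (IsRedInf.const_mul h₁ hc).mul (IsRedInf.pow hs₁ m)
  · rw [hyf]
    exact (IsRedZero.const_mul h₂ hc).mul (IsRedZero.pow hs₂ m)

end A

/-! ## (B) reductions in multiplicative form at level `E` -/

section B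

variable {A : ValuationSubring Q̄} {E : IntermediateField ℚ Q̄} {N : ℕ} [NeZero N]

/-- A reduction may be scaled by a nonzero constant of `k` (as `H924.isRedSer_C_mul`). -/
theorem isRedInf_C_mul27 {f : FF N} {r : LaurentSeries (kA A)} (h : IsRedInf N A f r)
    {u : kA A} (hu : u ≠ 0) : IsRedInf N A f (HahnSeries.C u * r) := by
  obtain ⟨c₀, U₁, U₂, hc₀, h₁, h₂, he, hr⟩ := h
  obtain ⟨a, rfl⟩ := IsLocalRing.residue_surjective (R := A) u
  have ha0 : (a : Q̄) ≠ 0 := by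
    intro h0
    apply hu
    have : a = 0 := Subtype.ext h0
    rw [this, map_zero]
  have hred : red A (cstA A a * U₁) = HahnSeries.C (IsLocalRing.residue A a) * red A U₁ := by
    rw [map_mul, red_cstA]
    rfl
  refine ⟨c₀ * (a : Q̄)⁻¹, cstA A a * U₁, U₂, mul_ne_zero hc₀ (inv_ne_zero ha0), ?_, h₂, ?_, ?_⟩
  · rw [hred]
    refine mul_ne_zero ?_ h₁
    intro h0
    apply hu
    have := congrArg (fun z : LaurentSeries (kA A) => z.coeff 0) h0
    simpa using this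
  · rw [he, map_mul, incl_cstA, cst_mul, mul_assoc, ← mul_assoc (cst (a : Q̄)⁻¹),
      cst_inv_mul_cst ha0, one_mul]
  · rw [hred, mul_assoc, hr]

/-- `w` is a uniformiser of `V∞`. -/
theorem unifAt_vinf (hdvr : IsDiscreteValuationRing (Mod.RE A E)) {w : Mod.RE A E}
    (hw : Irreducible w) {V : ValuationSubring (Mod.FE E N)} (hV : Mod.IsVinf A E N V) :
    UnifAt V (Mod.cE A E N w) := by
  obtain ⟨hU, -, -⟩ := Mod.H553.vinfBasic A E w N (NeZero.ne N) hdvr hw V hV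
  have h0 : Mod.cE A E N w ≠ 0 := by
    intro h
    apply hU.inv_not_mem
    rw [h, inv_zero]
    exact V.zero_mem
  have hnu : Mod.cE A E N w ∈ V.nonunits := by
    rw [ValuationSubring.mem_nonunits_iff]
    refine lt_of_le_of_ne ((V.valuation_le_one_iff _).2 hU.mem) ?_
    intro h1
    apply hU.inv_not_mem
    rw [← V.valuation_le_one_iff, map_inv₀, h1, inv_one]
  refine ⟨h0, hnu, fun f hf => ?_⟩
  rw [ValuationSubring.mem_nonunits_iff] at hf
  by_cases hf0 : f = 0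
  · rw [hf0, zero_mul]
    exact V.zero_mem
  refine hU.gen f ((V.valuation_le_one_iff _).1 hf.le) ?_
  intro hinv
  have h1 : V.valuation f⁻¹ ≤ 1 := (V.valuation_le_one_iff _).2 hinv
  rw [map_inv₀] at h1
  have hvf : V.valuation f ≠ 0 := (Valuation.ne_zero_iff _).2 hf0
  have h2 : 1 ≤ V.valuation f := by
    rwa [inv_le_one₀ (zero_lt_iff.2 hvf)] at h1
  exact absurd hf (not_lt.2 h2)

/-- Reduction a constant ⟹ principal unit up to `w ^ j · v ^ m`, `v ∈ E`. -/
theorem pu_of_isRedInf_const {q : ℕ} (hq : q.Prime) (hA : A.LiesOverPrime q)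
    (hE : GoodField A E) {w : Mod.RE A E} (hw : Irreducible w)
    {V : ValuationSubring (Mod.FE E N)} (hV : Mod.IsVinf A E N V) {m : ℕ} (hqm : ¬ q ∣ m)
    {z : Mod.FE E N} {c : kA A} (hc : c ≠ 0)
    (hz : IsRedInf N A (iota E (modularFunctionFieldFull N) z) (HahnSeries.C c)) :
    ∃ (j : ℤ) (v : E), v ≠ 0 ∧
      PU V (z / (Mod.cE A E N w ^ j * (algebraMap E (Mod.FE E N) v) ^ m)) := by
  haveI := hE.dvr
  haveI := hE.henselian
  haveI := hE.algClosed
  have hsurj : Function.Surjective (Fermat.Agent.Ribet.H232.resRE A E) :=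
    Fermat.Agent.Ribet.H232.resRE_surjective E hq hA
  have h1 : IsRedInf N A (iota E (modularFunctionFieldFull N) z) 1 := by
    have h := isRedInf_C_mul27 hz (inv_ne_zero hc)
    rwa [← map_mul, inv_mul_cancel₀ hc, map_one] at h
  obtain ⟨e, he0, he⟩ := Fermat.Agent.Ribet.H232.depthE_of_isRedInf_one hsurj hw hV h1
  obtain ⟨s, v, hv0, hev⟩ := Fermat.Agent.S36.H586.const_eq_zpow_mul_pow w hw q m hq
    (Fermat.Agent.A2.T1.H669.natCast_mem_maximalIdeal_RE E hA) hqm e he0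
  refine ⟨s, v, hv0, ?_⟩
  have hce : Mod.cE A E N w ^ s * (algebraMap E (Mod.FE E N) v) ^ m
      = algebraMap E (Mod.FE E N) e := by
    rw [hev, map_mul, map_zpow₀, map_pow]
    rfl
  rw [hce, div_eq_mul_inv]
  have hU := unifAt_vinf hE.dvr hw hV
  show V.valuation (z * (algebraMap E (Mod.FE E N) e)⁻¹ - 1) < 1
  have h2 : z * (algebraMap E (Mod.FE E N) e)⁻¹ - 1
      = (z * (algebraMap E (Mod.FE E N) e)⁻¹ - 1) * (Mod.cE A E N w)⁻¹ * Mod.cE A E N w := by
    rw [mul_assoc, inv_mul_cancel₀ hU.1, mul_one]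
  rw [h2, map_mul]
  have h3 : V.valuation ((z * (algebraMap E (Mod.FE E N) e)⁻¹ - 1) * (Mod.cE A E N w)⁻¹) ≤ 1 :=
    (V.valuation_le_one_iff _).2 he
  have h4 : V.valuation (Mod.cE A E N w) < 1 := (ValuationSubring.mem_nonunits_iff V).1 hU.2.1
  exact mul_lt_one_of_nonneg_of_lt_one_right h3 zero_le h4

/-- **(B), `V∞`.**  If the reduction of `ι y` is `c · red(b) · s ^ m`, `c ∈ kˣ`,
`s ∈ k(X₀(M))`, `M ∣ N`, then `y ≡ b · w ^ j · g ^ m` modulo `𝔪_{V∞}`. -/
theorem pu_of_isRedInf {q : ℕ} (hq : q.Prime) (hA : A.LiesOverPrime q)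
    (hE : GoodField A E) {w : Mod.RE A E} (hw : Irreducible w)
    {V : ValuationSubring (Mod.FE E N)} (hV : Mod.IsVinf A E N V) {m : ℕ} (hqm : ¬ q ∣ m)
    {M : ℕ} (hMN : M ∣ N) {y b : Mod.FE E N} {ρ : LaurentSeries (kA A)}
    (hb : IsRedInf N A (iota E (modularFunctionFieldFull N) b) ρ)
    {c : kA A} (hc : c ≠ 0) {s : LaurentSeries (kA A)}
    (hs : s ∈ modularFunctionFieldFullC (kA A) M) (hs0 : s ≠ 0)
    (hy : IsRedInf N A (iota E (modularFunctionFieldFull N) y)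
      (HahnSeries.C c * ρ * s ^ m)) :
    ∃ (j : ℤ) (g : Mod.FE E N), g ≠ 0 ∧
      PU V (y / (b * (Mod.cE A E N w ^ j * g ^ m))) := by
  haveI := hE.dvr
  haveI := hE.algClosed
  have hsurj : Function.Surjective (Fermat.Agent.Ribet.H232.resRE A E) :=
    Fermat.Agent.Ribet.H232.resRE_surjective E hq hA
  obtain ⟨G, hG0, hG⟩ := Fermat.Agent.Ribet.H232.exists_isRedInf_level hsurj hMN hs hs0
  have hρ0 : ρ ≠ 0 := hb.ne_zero
  have hb0 : b ≠ 0 := by
    rintro rfl
    exact hb.fun_ne_zero (by rw [map_zero]; rfl)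
  have hz : IsRedInf N A (iota E (modularFunctionFieldFull N) (y * (b * G ^ m)⁻¹))
      (HahnSeries.C c) := by
    have h2 := IsRedInf.mul hy (IsRedInf.inv (IsRedInf.mul hb (IsRedInf.pow hG m)))
    have e : HahnSeries.C c * ρ * s ^ m * (ρ * s ^ m)⁻¹ = HahnSeries.C c := by
      have : ρ * s ^ m ≠ 0 := mul_ne_zero hρ0 (pow_ne_zero _ hs0)
      rw [mul_assoc (HahnSeries.C c), mul_assoc, mul_inv_cancel₀ this, mul_one]
    rw [e] at h2
    rw [map_mul, map_inv₀, map_mul, map_pow]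
    exact h2
  obtain ⟨j, v, hv0, hpu⟩ := pu_of_isRedInf_const hq hA hE hw hV hqm hc hz
  have hU := unifAt_vinf hE.dvr hw hV
  have hvF : algebraMap E (Mod.FE E N) v ≠ 0 := (_root_.map_ne_zero _).2 hv0
  refine ⟨j, G * algebraMap E (Mod.FE E N) v, mul_ne_zero hG0 hvF, ?_⟩
  have hwj : Mod.cE A E N w ^ j ≠ 0 := zpow_ne_zero _ hU.1
  have e : y / (b * (Mod.cE A E N w ^ j * (G * algebraMap E (Mod.FE E N) v) ^ m))
      = y * (b * G ^ m)⁻¹ / (Mod.cE A E N w ^ j * (algebraMap E (Mod.FE E N) v) ^ m) := by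
    rw [mul_pow]
    have h1 : G ^ m ≠ 0 := pow_ne_zero _ hG0
    have h2 : (algebraMap E (Mod.FE E N) v) ^ m ≠ 0 := pow_ne_zero _ hvF
    field_simp
  rw [e]
  exact hpu

/-- Membership along the Fricke involution. -/
theorem fricke_hov {V V₀ : ValuationSubring (Mod.FE E N)} (W : Mod.FE E N ≃ₐ[E] Mod.FE E N)
    (hV₀ : V₀ = V.comap (W : Mod.FE E N →+* Mod.FE E N)) :
    ∀ a : Mod.FE E N, (W : Mod.FE E N →+* Mod.FE E N) a ∈ V ↔ a ∈ V₀ := by
  intro a
  rw [hV₀, ValuationSubring.mem_comap]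

/-- `W` fixes the constants. -/
theorem fricke_cE (W : Mod.FE E N ≃ₐ[E] Mod.FE E N) (w : Mod.RE A E) :
    (W : Mod.FE E N →+* Mod.FE E N) (Mod.cE A E N w) = Mod.cE A E N w :=
  W.commutes _

/-- `w` is a uniformiser of `V₀`. -/
theorem unifAt_vzero (hdvr : IsDiscreteValuationRing (Mod.RE A E)) {w : Mod.RE A E}
    (hw : Irreducible w) {V V₀ : ValuationSubring (Mod.FE E N)} (hV : Mod.IsVinf A E N V)
    (W : Mod.FE E N ≃ₐ[E] Mod.FE E N)
    (hV₀ : V₀ = V.comap (W : Mod.FE E N →+* Mod.FE E N)) :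
    UnifAt V₀ (Mod.cE A E N w) := by
  have hU := unifAt_vinf hdvr hw hV
  have hov := fricke_hov W hV₀
  refine ⟨hU.1, ?_, fun f hf => ?_⟩
  · rw [← over_mem_nonunits hov, fricke_cE]
    exact hU.2.1
  · rw [← hov, map_mul, map_inv₀, fricke_cE]
    exact hU.2.2 _ ((over_mem_nonunits hov f).2 hf)

/-- **(B), `V₀`.** -/
theorem pu_of_isRedZero {q : ℕ} (hq : q.Prime) (hA : A.LiesOverPrime q)
    (hE : GoodField A E) {w : Mod.RE A E} (hw : Irreducible w)
    {V V₀ : ValuationSubring (Mod.FE E N)} (hV : Mod.IsVinf A E N V)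
    {W : Mod.FE E N ≃ₐ[E] Mod.FE E N} (hW : Mod.IsFricke E N W)
    (hV₀ : V₀ = V.comap (W : Mod.FE E N →+* Mod.FE E N))
    {m : ℕ} (hqm : ¬ q ∣ m)
    {M : ℕ} (hMN : M ∣ N) {y b : Mod.FE E N} {ρ : LaurentSeries (kA A)}
    (hb : IsRedZero N A (iota E (modularFunctionFieldFull N) b) ρ)
    {c : kA A} (hc : c ≠ 0) {s : LaurentSeries (kA A)}
    (hs : s ∈ modularFunctionFieldFullC (kA A) M) (hs0 : s ≠ 0)
    (hy : IsRedZero N A (iota E (modularFunctionFieldFull N) y)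
      (HahnSeries.C c * ρ * s ^ m)) :
    ∃ (j : ℤ) (g : Mod.FE E N), g ≠ 0 ∧
      PU V₀ (y / (b * (Mod.cE A E N w ^ j * g ^ m))) := by
  have hWι : ∀ z : Mod.FE E N, iota E (modularFunctionFieldFull N) (W z)
      = wF N (iota E (modularFunctionFieldFull N) z) :=
    fun z => Fermat.Agent.Ribet.H997.iotaN_fricke hW z
  have hb' : IsRedInf N A (iota E (modularFunctionFieldFull N) (W b)) ρ := by
    rw [hWι]
    exact hb
  have hy' : IsRedInf N A (iota E (modularFunctionFieldFull N) (W y))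
      (HahnSeries.C c * ρ * s ^ m) := by
    rw [hWι]
    exact hy
  obtain ⟨j, g, hg0, hpu⟩ := pu_of_isRedInf hq hA hE hw hV hqm hMN hb' hc hs hs0 hy'
  have hov := fricke_hov W hV₀
  refine ⟨j, W.symm g, (map_ne_zero_iff _ W.symm.injective).2 hg0, ?_⟩
  rw [← Fermat.Agent.S36.H586.over_pu hov]
  have e : (W : Mod.FE E N →+* Mod.FE E N)
      (y / (b * (Mod.cE A E N w ^ j * W.symm g ^ m)))
      = W y / (W b * (Mod.cE A E N w ^ j * g ^ m)) := by
    rw [map_div₀, map_mul, map_mul, map_zpow₀, map_pow, fricke_cE]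
    show W y / (W b * (Mod.cE A E N w ^ j * W (W.symm g) ^ m)) = _
    rw [W.apply_symm_apply]
  rw [e]
  exact hpu

end B

/-! ## (C) the body of `RSurjAt` -/

section C

variable {A : ValuationSubring Q̄} {E : IntermediateField ℚ Q̄} {N : ℕ} [NeZero N]

/-- `m ∣ div` is stable under division by `w ^ j · G ^ m`. -/
theorem divisibleDiv_div_unif_pow {m : ℕ} {y : Mod.FE E N} (hy : DivisibleDiv E m y)
    (w : Mod.RE A E) (hw0 : Mod.cE A E N w ≠ 0) (j : ℤ) {G : Mod.FE E N} (hG : G ≠ 0) :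
    DivisibleDiv E m (y / (Mod.cE A E N w ^ j * G ^ m)) := by
  intro V hV hEV
  obtain ⟨h, u, hh, hu, hu', e⟩ := hy V hV hEV
  have hc : Mod.cE A E N w ^ j = algebraMap E (Mod.FE E N) ((w : E) ^ j) := by
    rw [map_zpow₀]
    rfl
  have hcinv : (Mod.cE A E N w ^ j)⁻¹ = algebraMap E (Mod.FE E N) (((w : E) ^ j)⁻¹) := by
    rw [hc, map_inv₀]
  have hwj : Mod.cE A E N w ^ j ≠ 0 := zpow_ne_zero _ hw0
  refine ⟨h * G⁻¹, u * (Mod.cE A E N w ^ j)⁻¹, mul_ne_zero hh (inv_ne_zero hG),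
    V.mul_mem _ _ hu (by rw [hcinv]; exact hEV _), ?_, ?_⟩
  · rw [mul_inv, inv_inv]
    exact V.mul_mem _ _ hu' (by rw [hc]; exact hEV _)
  · rw [e, mul_pow, inv_pow]
    have hGm : G ^ m ≠ 0 := pow_ne_zero _ hG
    field_simp

/-- **(C) SURJ-E at one residue.**  `V = V∞`, `V₀ = V∞ ∘ W` at a good level `E`; `b` a unit of
`V₀` with reduction `ρ` on the `0`-component; `y ∈ F_E(N)` with `m ∣ div y`, whose reductions are
`r₁ = c₁ s₁ ^ m` on the `∞`-component and `r₂ = c₂ ρ s₂ ^ m` on the `0`-component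
(`s_i ∈ k(X₀(M))`, `M ∣ N`), and whose slope vanishes modulo `m`.  Then
`g = y / (w ^ j G ^ m)` satisfies `m ∣ div g`, `g ≡ 1` on `V∞`, `g ≡ b` on `V₀`. -/
theorem rSurjAt_of_gen {q : ℕ} (hq : q.Prime) (hA : A.LiesOverPrime q)
    (hE : GoodField A E) {w : Mod.RE A E} (hw : Irreducible w)
    {V V₀ : ValuationSubring (Mod.FE E N)} (hV : Mod.IsVinf A E N V)
    {W : Mod.FE E N ≃ₐ[E] Mod.FE E N} (hW : Mod.IsFricke E N W)
    (hV₀ : V₀ = V.comap (W : Mod.FE E N →+* Mod.FE E N))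
    (hdvr : IsDiscreteValuationRing V) (hdvr₀ : IsDiscreteValuationRing V₀) (h12 : V ≠ V₀)
    {m : ℕ} (hm : 0 < m) (hqm : ¬ q ∣ m) {M : ℕ} (hMN : M ∣ N)
    {b : Mod.FE E N} (hb : V₀.valuation b = 1) {ρ : LaurentSeries (kA A)}
    (hρ : IsRedZero N A (iota E (modularFunctionFieldFull N) b) ρ)
    {y : Mod.FE E N} (hyD : DivisibleDiv E m y) {r₁ r₂ : LaurentSeries (kA A)}
    (h₁ : IsRedInf N A (iota E (modularFunctionFieldFull N) y) r₁)
    (h₂ : IsRedZero N A (iota E (modularFunctionFieldFull N) y) r₂)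
    (hr₁ : ∃ (c : kA A) (s : modularFunctionFieldFullC (kA A) M), c ≠ 0 ∧ s ≠ 0 ∧
      r₁ = HahnSeries.C c * (s : LaurentSeries (kA A)) ^ m)
    (hr₂ : ∃ (c : kA A) (s : modularFunctionFieldFullC (kA A) M), c ≠ 0 ∧ s ≠ 0 ∧
      r₂ = HahnSeries.C c * ρ * (s : LaurentSeries (kA A)) ^ m)
    (hslope : ∃ a₁ a₂ : ℤ, UnitAt V (y * (Mod.cE A E N w ^ a₁)⁻¹) ∧
      UnitAt V₀ (y * (Mod.cE A E N w ^ a₂)⁻¹) ∧ (m : ℤ) ∣ a₁ - a₂) :
    ∃ (j : ℤ) (G : Mod.FE E N), G ≠ 0 ∧
      DivisibleDiv E m (y / (Mod.cE A E N w ^ j * G ^ m)) ∧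
      y / (Mod.cE A E N w ^ j * G ^ m) - 1 ∈ V.nonunits ∧
      y / (Mod.cE A E N w ^ j * G ^ m) / b - 1 ∈ V₀.nonunits := by
  haveI := hdvr
  haveI := hdvr₀
  have hU := unifAt_vinf hE.dvr hw hV
  have hU₀ := unifAt_vzero hE.dvr hw hV W hV₀
  have hw0 := hU.1
  have hlt : V.valuation (Mod.cE A E N w) < 1 := (ValuationSubring.mem_nonunits_iff V).1 hU.2.1
  have hlt₀ : V₀.valuation (Mod.cE A E N w) < 1 :=
    (ValuationSubring.mem_nonunits_iff V₀).1 hU₀.2.1
  obtain ⟨c₁, s₁, hc₁, hs₁, rfl⟩ := hr₁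
  obtain ⟨c₂, s₂, hc₂, hs₂, rfl⟩ := hr₂
  have hs₁0 : (s₁ : LaurentSeries (kA A)) ≠ 0 := fun h => hs₁ (Subtype.ext h)
  have hs₂0 : (s₂ : LaurentSeries (kA A)) ≠ 0 := fun h => hs₂ (Subtype.ext h)
  -- at `V∞`
  have h₁' : IsRedInf N A (iota E (modularFunctionFieldFull N) y)
      (HahnSeries.C c₁ * 1 * (s₁ : LaurentSeries (kA A)) ^ m) := by
    rw [mul_one]
    exact h₁
  have hone : IsRedInf N A (iota E (modularFunctionFieldFull N) (1 : Mod.FE E N)) 1 := by
    rw [map_one]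
    exact isRedInf_one
  obtain ⟨j₁, g₁, hg₁, hpu₁⟩ :=
    pu_of_isRedInf hq hA hE hw hV hqm hMN hone hc₁ s₁.2 hs₁0 h₁'
  rw [one_mul] at hpu₁
  -- at `V₀`
  obtain ⟨j₂, g₂, hg₂, hpu₂⟩ :=
    pu_of_isRedZero hq hA hE hw hV hW hV₀ hqm hMN hρ hc₂ s₂.2 hs₂0 h₂
  -- the slope
  obtain ⟨a₁, a₂, hu₁, hu₂, hdvd⟩ := hslope
  have hord : ∀ {O : ValuationSubring (Mod.FE E N)} {a : ℤ},
      UnitAt O (y * (Mod.cE A E N w ^ a)⁻¹) → IsOrd O (Mod.cE A E N w) y a := by
    intro O a hu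
    have h1 := Fermat.Agent.S36.H586.unitAt_iff.1 hu
    rw [map_mul, map_inv₀, map_zpow₀] at h1
    have h2 : O.valuation (Mod.cE A E N w) ^ a ≠ 0 :=
      zpow_ne_zero _ ((Valuation.ne_zero_iff _).2 hw0)
    unfold IsOrd
    rw [mul_inv_eq_one₀ h2] at h1
    exact h1
  have hsl : ∀ b₁ b₂ : ℤ, IsOrd V (Mod.cE A E N w) y b₁ → IsOrd V₀ (Mod.cE A E N w) y b₂ →
      (m : ℤ) ∣ b₂ - b₁ := by
    intro b₁ b₂ hb₁ hb₂
    have e₁ : b₁ = a₁ := Fermat.Agent.S36.H586.IsOrd.unique hw0 hlt hb₁ (hord hu₁)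
    have e₂ : b₂ = a₂ := Fermat.Agent.S36.H586.IsOrd.unique hw0 hlt₀ hb₂ (hord hu₂)
    rw [e₁, e₂]
    have : a₂ - a₁ = -(a₁ - a₂) := by ring
    rw [this]
    exact (dvd_neg).2 hdvd
  obtain ⟨G, hG0, hG₁, hG₂⟩ := surj_core V V₀ h12 hU hU₀ hm hg₁ hg₂ hb hpu₁ hpu₂ hsl
  exact ⟨j₁, G, hG0, divisibleDiv_div_unif_pow hyD w hw0 j₁ hG0,
    Fermat.Agent.S36.H586.pu_iff.1 hG₁, Fermat.Agent.S36.H586.pu_iff.1 hG₂⟩

end C

/-! ## (D) class form and assembly -/

section D

open Fermat.Agent.Ribet.H158.WallQ (PPowSeries)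

variable {A : ValuationSubring Q̄} {E : IntermediateField ℚ Q̄} {M q : ℕ} [NeZero M] [NeZero q]
  {N : ℕ} [NeZero N]

/-- REDFIELD at a level `N = M q`: the reductions on `C∞` lie in `k(X₀(M))`. -/
theorem redInf_mem_fullC (hN : N = M * q) (hq : q.Prime) (hqM : ¬ q ∣ M)
    (hA : A.LiesOverPrime q) {G : FF N} {s : LaurentSeries (kA A)} (h : IsRedInf N A G s) :
    s ∈ modularFunctionFieldFullC (kA A) M := by
  subst hN
  exact Fermat.Agent.Ribet.H997.isRedSer_mem_of_level_mul hq hqM hA G.2 h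

/-- The slope of `y ∈ F_E(N)` along `(V, V₀)` vanishes modulo `m` (the body of
`LoSqC.SlopeZero w m V V₀ y` of the cell Spec, `w` seen in `F_E(N)`). -/
def SlopeZeroE (A : ValuationSubring Q̄) (E : IntermediateField ℚ Q̄) (N : ℕ) (w : Mod.RE A E)
    (m : ℕ) (V V₀ : ValuationSubring (Mod.FE E N)) (y : Mod.FE E N) : Prop :=
  ∃ a₁ a₂ : ℤ, UnitAt V (y * (Mod.cE A E N w ^ a₁)⁻¹) ∧
    UnitAt V₀ (y * (Mod.cE A E N w ^ a₂)⁻¹) ∧ (m : ℤ) ∣ a₁ - a₂

/-- **SURJ-E, class form.**  A class `x ∈ J₀(N)`, `N = M q`, with a Kummer generator `f` over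
`ℚ̄` of reductions `r₁ ∈ kˣ · (k(X₀(M))ˣ)^m` and `r₂ = c · ρ · s ^ m` (`ρ` a reduction of `b` on
the `0`-component) and with an `E`-rational Kummer generator `y` of slope `0` modulo `m`:
then `g = y / (w ^ j G ^ m)` has `m ∣ div g`, `g ≡ 1` on `V∞`, `g ≡ b` on `V₀`. -/
theorem rSurjAt_of_class (hN : N = M * q) (hq : q.Prime) (hqM : ¬ q ∣ M)
    (hA : A.LiesOverPrime q) (hE : GoodField A E) {w : Mod.RE A E} (hw : Irreducible w)
    {V V₀ : ValuationSubring (Mod.FE E N)} (hV : Mod.IsVinf A E N V)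
    {W : Mod.FE E N ≃ₐ[E] Mod.FE E N} (hW : Mod.IsFricke E N W)
    (hV₀ : V₀ = V.comap (W : Mod.FE E N →+* Mod.FE E N))
    (hdvr : IsDiscreteValuationRing V) (hdvr₀ : IsDiscreteValuationRing V₀) (h12 : V ≠ V₀)
    {m : ℕ} (hm : 0 < m) (hqm : ¬ q ∣ m)
    {b : Mod.FE E N} (hb : V₀.valuation b = 1) {ρ : LaurentSeries (kA A)}
    (hρ : IsRedZero N A (iota E (modularFunctionFieldFull N) b) ρ)
    {x : JZero N} {f : FF N} (hf : IsKummerGen N m f x) {r₁ r₂ : LaurentSeries (kA A)}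
    (h₁ : IsRedInf N A f r₁) (h₂ : IsRedZero N A f r₂)
    (hr₁ : PPowSeries m M r₁)
    (hr₂ : ∃ (c : kA A) (s : modularFunctionFieldFullC (kA A) M), c ≠ 0 ∧ s ≠ 0 ∧
      r₂ = HahnSeries.C c * ρ * (s : LaurentSeries (kA A)) ^ m)
    {y : Mod.FE E N} (hy : IsKummerGen N m (iota E (modularFunctionFieldFull N) y) x)
    (hslope : SlopeZeroE A E N w m V V₀ y) :
    ∃ (j : ℤ) (G : Mod.FE E N), G ≠ 0 ∧
      DivisibleDiv E m (y / (Mod.cE A E N w ^ j * G ^ m)) ∧
      y / (Mod.cE A E N w ^ j * G ^ m) - 1 ∈ V.nonunits ∧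
      y / (Mod.cE A E N w ^ j * G ^ m) / b - 1 ∈ V₀.nonunits := by
  obtain ⟨c, G, hc, hG, hyf⟩ := Fermat.Agent.Ribet.H698.RedMap.kummer_ratio hf hy
  obtain ⟨s₁, hs₁⟩ := Fermat.Agent.Ribet.H997.exists_isRedInf hq hA hG
  have hwG : wF N G ≠ 0 := by
    intro h
    exact hG ((map_eq_zero_iff _ (wF N).injective).1 h)
  obtain ⟨s₂, hs₂⟩ := Fermat.Agent.Ribet.H997.exists_isRedInf (N := N) hq hA hwG
  have hs₁m := redInf_mem_fullC hN hq hqM hA hs₁
  have hs₂m := redInf_mem_fullC hN hq hqM hA hs₂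
  have hs₁0 : s₁ ≠ 0 := hs₁.ne_zero
  have hs₂0 : s₂ ≠ 0 := hs₂.ne_zero
  have h₁' : IsRedInf N A (iota E (modularFunctionFieldFull N) y) (r₁ * s₁ ^ m) := by
    rw [hyf]
    exact (IsRedInf.const_mul h₁ hc).mul (IsRedInf.pow hs₁ m)
  have h₂' : IsRedZero N A (iota E (modularFunctionFieldFull N) y) (r₂ * s₂ ^ m) := by
    rw [hyf]
    exact (IsRedZero.const_mul h₂ hc).mul (IsRedZero.pow (f := G) hs₂ m)
  have hy0 : y ≠ 0 := by
    rintro rfl
    rw [map_zero] at hy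
    exact hy.1 rfl
  have hyD : DivisibleDiv E m y := by
    obtain ⟨-, D, -, hD⟩ := hy
    refine Fermat.Agent.A2.T1.H669.divisibleDiv_of_ord E (modularFunctionFieldFull N) m y hy0
      fun v => ?_
    rw [hD v]
    exact dvd_mul_right _ _
  have hMN : M ∣ N := hN ▸ dvd_mul_right M q
  refine rSurjAt_of_gen hq hA hE hw hV hW hV₀ hdvr hdvr₀ h12 hm hqm hMN hb hρ hyD h₁' h₂' ?_ ?_
    hslope
  · obtain ⟨c₁, t₁, hc₁, ht₁, rfl⟩ := hr₁
    refine ⟨c₁, t₁ * ⟨s₁, hs₁m⟩, hc₁, mul_ne_zero ht₁ (fun h => hs₁0 (congrArg Subtype.val h)),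
      ?_⟩
    rw [IntermediateField.coe_mul, mul_pow]
    ring
  · obtain ⟨c₂, t₂, hc₂, ht₂, rfl⟩ := hr₂
    refine ⟨c₂, t₂ * ⟨s₂, hs₂m⟩, hc₂, mul_ne_zero ht₂ (fun h => hs₂0 (congrArg Subtype.val h)),
      ?_⟩
    rw [IntermediateField.coe_mul, mul_pow]
    ring

/-- **The `J`-form input of SURJ-E** (what W-COUNT delivers: `H296.kummerGen_of_rSurjJ_one` at
the classes of slope `0`): for every `ρ ∈ k(X₀(M))` with `m ∣ div ρ` there is a class with a
Kummer generator of reductions `(c₁ s₁ ^ m, c₂ ρ s₂ ^ m)` and with an `E`-rational Kummer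
generator of slope `0` modulo `m`. -/
def SurjJ (A : ValuationSubring Q̄) (E : IntermediateField ℚ Q̄) (m M N : ℕ) [NeZero N]
    (w : Mod.RE A E) (V V₀ : ValuationSubring (Mod.FE E N)) : Prop :=
  ∀ ρ : LaurentSeries (kA A), PDivSeries m M ρ →
    ∃ (x : JZero N) (f : FF N) (r₁ r₂ : LaurentSeries (kA A)) (y : Mod.FE E N),
      IsKummerGen N m f x ∧ IsRedInf N A f r₁ ∧ IsRedZero N A f r₂ ∧ PPowSeries m M r₁ ∧
      (∃ (c : kA A) (s : modularFunctionFieldFullC (kA A) M), c ≠ 0 ∧ s ≠ 0 ∧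
        r₂ = HahnSeries.C c * ρ * (s : LaurentSeries (kA A)) ^ m) ∧
      IsKummerGen N m (iota E (modularFunctionFieldFull N) y) x ∧
      SlopeZeroE A E N w m V V₀ y

/-- `SurjJ` from the output of `H296.kummerGen_of_rSurjJ_one` on a subgroup `I` all of whose
classes have an `E`-rational Kummer generator of slope `0`. -/
theorem surjJ_of_gen {m : ℕ} {w : Mod.RE A E} {V V₀ : ValuationSubring (Mod.FE E N)}
    (I : AddSubgroup (JZero N))
    (hI : ∀ x ∈ I, ∃ y : Mod.FE E N,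
      IsKummerGen N m (iota E (modularFunctionFieldFull N) y) x ∧
        SlopeZeroE A E N w m V V₀ y)
    (hJ : ∀ ρ : LaurentSeries (kA A), PDivSeries m M ρ →
      ∃ x ∈ I, ∃ (f : FF N) (r₁ r₂ : LaurentSeries (kA A)),
        IsKummerGen N m f x ∧ IsRedInf N A f r₁ ∧ IsRedZero N A f r₂ ∧ PPowSeries m M r₁ ∧
        (∃ (c : kA A) (s : modularFunctionFieldFullC (kA A) M), c ≠ 0 ∧ s ≠ 0 ∧
          r₂ = HahnSeries.C c * ρ * (s : LaurentSeries (kA A)) ^ m)) :
    SurjJ A E m M N w V V₀ := by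
  intro ρ hρ
  obtain ⟨x, hx, f, r₁, r₂, hf, h₁, h₂, hr₁, hr₂⟩ := hJ ρ hρ
  obtain ⟨y, hy, hsl⟩ := hI x hx
  exact ⟨x, f, r₁, r₂, y, hf, h₁, h₂, hr₁, hr₂, hy, hsl⟩

/-- `SurjJ` on a subgroup `I` of inertia-fixed `m`-torsion classes ALL of whose `E`-rational
Kummer generators have slope `0` (`E ⊇ ℚ̄^{I_A}`; the generator exists by descent). -/
theorem surjJ_of_fixed {m : ℕ} {w : Mod.RE A E} {V V₀ : ValuationSubring (Mod.FE E N)}
    (hEI : inertiaField A ≤ E) (I : AddSubgroup (JZero N))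
    (hI : ∀ x ∈ I, m • x = 0 ∧ (∀ σ ∈ A.inertiaSubgroupIn ℚ, σ • x = x) ∧
      ∀ y : Mod.FE E N, IsKummerGen N m (iota E (modularFunctionFieldFull N) y) x →
        SlopeZeroE A E N w m V V₀ y)
    (hJ : ∀ ρ : LaurentSeries (kA A), PDivSeries m M ρ →
      ∃ x ∈ I, ∃ (f : FF N) (r₁ r₂ : LaurentSeries (kA A)),
        IsKummerGen N m f x ∧ IsRedInf N A f r₁ ∧ IsRedZero N A f r₂ ∧ PPowSeries m M r₁ ∧
        (∃ (c : kA A) (s : modularFunctionFieldFullC (kA A) M), c ≠ 0 ∧ s ≠ 0 ∧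
          r₂ = HahnSeries.C c * ρ * (s : LaurentSeries (kA A)) ^ m)) :
    SurjJ A E m M N w V V₀ := by
  refine surjJ_of_gen I (fun x hx => ?_) hJ
  obtain ⟨hmx, hfix, hsl⟩ := hI x hx
  obtain ⟨y₀, -, hyK₀, -⟩ := Fermat.Agent.Ribet.H868.exists_fixed_kummerGen N m A x hmx hfix
  obtain ⟨y, hy⟩ := exists_iota_up N hEI y₀
  have hyK : IsKummerGen N m (iota E (modularFunctionFieldFull N) y) x := by
    rw [hy]
    exact hyK₀
  exact ⟨y, hyK, hsl y hyK⟩

/-- **SURJ-E (assembly) = the body of `H987.RSurj1E`.**  `C b` is the admissibility of the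
residue `b` (in the application `H987.CondW (RE A E) m V₀ b`); `hCond` is the dictionary
COND-PDIV (`C b` ⟹ the reduction of `b` on the `0`-component has `m`-divisible divisor).
The conclusion is `H987.RSurjAt (E := E) m V V₀ b`, unfolded (with `h = 1`). -/
theorem rSurj1E_of_surjJ (hN : N = M * q) (hq : q.Prime) (hqM : ¬ q ∣ M)
    (hA : A.LiesOverPrime q) (hE : GoodField A E) {w : Mod.RE A E} (hw : Irreducible w)
    {V V₀ : ValuationSubring (Mod.FE E N)} (hV : Mod.IsVinf A E N V)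
    {W : Mod.FE E N ≃ₐ[E] Mod.FE E N} (hW : Mod.IsFricke E N W)
    (hV₀ : V₀ = V.comap (W : Mod.FE E N →+* Mod.FE E N))
    (hdvr : IsDiscreteValuationRing V) (hdvr₀ : IsDiscreteValuationRing V₀) (h12 : V ≠ V₀)
    {m : ℕ} (hm : 0 < m) (hqm : ¬ q ∣ m)
    (hJ : SurjJ A E m M N w V V₀)
    (C : Mod.FE E N → Prop)
    (hCond : ∀ b : Mod.FE E N, V₀.valuation b = 1 → C b →
      ∃ ρ : LaurentSeries (kA A),
        IsRedZero N A (iota E (modularFunctionFieldFull N) b) ρ ∧ PDivSeries m M ρ) :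
    ∀ b : Mod.FE E N, V₀.valuation b = 1 → C b →
      ∃ g h : Mod.FE E N, DivisibleDiv E m g ∧ g - 1 ∈ V.nonunits ∧ V₀.valuation h = 1 ∧
        g / (b * h ^ m) - 1 ∈ V₀.nonunits := by
  intro b hb hCb
  obtain ⟨ρ, hρ, hρd⟩ := hCond b hb hCb
  obtain ⟨x, f, r₁, r₂, y, hf, h₁, h₂, hr₁, hr₂, hy, hsl⟩ := hJ ρ hρd
  obtain ⟨j, G, hG0, hD, hg₁, hg₂⟩ := rSurjAt_of_class hN hq hqM hA hE hw hV hW hV₀ hdvr hdvr₀
    h12 hm hqm hb hρ hf h₁ h₂ hr₁ hr₂ hy hsl
  refine ⟨y / (Mod.cE A E N w ^ j * G ^ m), 1, hD, hg₁, map_one _, ?_⟩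
  rw [one_pow, mul_one]
  exact hg₂

end D

end Fermat.Agent.S59.LoSqC.H27

end

end
-- ===== PACK-END S59/LoSqC/H27/SurjE.lean

-- ===== PACK-BEGIN S59/LoSqC/H835/SplitDict.lean
section





/-!
# S59 / cell (C) LO-SQ, leaf SPLIT-E (helper835), part 2: SPLIT-DICT

`hredS` of the count (`ker red ⊆ S 1`), and in general for every modulus `m` prime to `q`:
at level `N = M q` over an unramified good level `E`,

    a class `x ∈ J₀(M q)` with a Kummer generator over `ℚ̄` whose two reductions are constants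
    times `m`-th powers (`H158.WallQ.PPowSeries`, i.e. `x` in the kernel of the reduction map
    `H296.exists_redHom_h296`) and with an `E`-rational Kummer generator of slope `0` modulo `m`
    (`H27.SlopeZeroE`, the body of `LoSqC.SlopeZero`)
    lies in `H296.kummerClasses296 E (M q) m (H193.splitDiv E w x' m V∞ V₀)`.

* `isKummerGenE296_iff835`   : `H296.IsKummerGenE296` is `H884.IsKummerGen` of `ι y`;
* `isKummerGenE296_div835`   : dividing by `w ^ j · G ^ m` does not change the class;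
* `isDVR_vinf835`, `isDVR_vzero835` : `V∞`, `V₀` are discrete valuation rings;
* **`splitDict835`**         : SPLIT-DICT, `E`-rational generator given;
* `splitDict_fixed835`       : the same for an inertia-fixed class killed by `m` (the
  `E`-rational generator by descent, `H868.exists_fixed_kummerGen`), the slope hypothesis for ALL
  `E`-rational generators;
* `splitDict_normal835`      : the normalised generator itself (`g = y / (w ^ j G ^ m)`,
  `g ∈ splitDiv`).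

Inputs: `H27.rSurjAt_of_class` (helper27, SURJ-E core, `b = 1`), `H835.mem_splitDiv_level835`
(PURE-SPLIT).
-/

set_option autoImplicit false
set_option linter.style.haveILetI false
set_option linter.unusedSectionVars false
set_option linter.unusedVariables false
set_option synthInstance.maxHeartbeats 400000
set_option maxHeartbeats 1600000

noncomputable section

namespace Fermat.Agent.S59.LoSqC.H835

open ModularCurve HahnSeries AlgebraicCurve
open Fermat.Agent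
open Fermat.Agent.S24 Fermat.Agent.A2.H528 Fermat.Agent.A2.T1.H669 Fermat.Agent.Ribet.H884
open Fermat.Agent.A2.H708
open Fermat.Agent.Ribet.H158.WallQ (PPowSeries)

local notation "Q̄" => AlgebraicClosure ℚ

section Kummer

variable {E : IntermediateField ℚ Q̄} {N : ℕ} [NeZero N]

/-- `H296.IsKummerGenE296` is `H884.IsKummerGen` of `ι y`. -/
theorem isKummerGenE296_iff835 {m : ℕ} {y : A2.Mod.FE E N} {x : JZero N} :
    H296.IsKummerGenE296 E N m y x ↔
      IsKummerGen N m (iota E (modularFunctionFieldFull N) y) x := by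
  constructor
  · rintro ⟨hy0, hD⟩
    exact ⟨iota_ne_zero E _ hy0, hD⟩
  · rintro ⟨hy0, hD⟩
    refine ⟨?_, hD⟩
    rintro rfl
    exact hy0 (map_zero _)

/-- Dividing an `E`-rational Kummer generator by a constant times an `m`-th power does not change
the class. -/
theorem isKummerGenE296_div835 {m : ℕ} {y : A2.Mod.FE E N} {x : JZero N}
    (hy : H296.IsKummerGenE296 E N m y x) {e : E} (he : e ≠ 0) {G : A2.Mod.FE E N}
    (hG : G ≠ 0) :
    H296.IsKummerGenE296 E N m (y / (algebraMap E (A2.Mod.FE E N) e * G ^ m)) x := by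
  rw [isKummerGenE296_iff835] at hy ⊢
  have hιG : iota E (modularFunctionFieldFull N) G ≠ 0 := iota_ne_zero E _ hG
  have heQ : (algebraMap E Q̄ e)⁻¹ ≠ 0 :=
    inv_ne_zero ((map_ne_zero_iff _ (algebraMap E Q̄).injective).2 he)
  have h1 := Ribet.H997.isKummerGen_mul_inv_pow hy hιG
  have h2 := Ribet.H868.IsKummerGen.const_mul868 N h1 heQ
  have e1 : iota E (modularFunctionFieldFull N) (y / (algebraMap E (A2.Mod.FE E N) e * G ^ m)) =
      algebraMap Q̄ (FF N) (algebraMap E Q̄ e)⁻¹ *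
        (iota E (modularFunctionFieldFull N) y *
          (iota E (modularFunctionFieldFull N) G ^ m)⁻¹) := by
    rw [map_div₀, map_mul, map_pow, iota_algebraMap, map_inv₀, div_eq_mul_inv, mul_inv]
    ring
  rw [e1]
  exact h2

end Kummer

section Level

variable {P : ValuationSubring A2.Qb} {E : IntermediateField ℚ A2.Qb} {M q : ℕ}
  [NeZero M] [NeZero q] [NeZero (M * q)]

/-- `V∞` of level `M q` is a discrete valuation ring. -/
theorem isDVR_vinf835 {w : A2.RE P E} (hS : S36.Mod3.Std P E M q w)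
    {V : ValuationSubring (A2.Mod.FE E (M * q))} (hV : A2.Mod.IsVinf P E (M * q) V) :
    IsDiscreteValuationRing V := by
  have hSet := S36.Mod3.H189.setting_of_std hS
  haveI : IsDiscreteValuationRing (A2.RE P E) := hS.unram.1.dvr
  have hu : A2.H48.IsUnif V (A2.Mod.cE P E (M * q) w) :=
    (A2.Mod.H553.vinfBasic P E w (M * q) (NeZero.ne _) hSet.dvr hSet.unif V hV).1
  exact S36.H972.isDiscreteValuationRing_of_isUnif hu
    (fun a => S36.H972.arch_vinf hS.unif hV a)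

/-- `V₀ = V∞ ∘ W` of level `M q` is a discrete valuation ring. -/
theorem isDVR_vzero835 {w : A2.RE P E} (hS : S36.Mod3.Std P E M q w)
    {V : ValuationSubring (A2.Mod.FE E (M * q))} (hV : A2.Mod.IsVinf P E (M * q) V)
    (W : A2.Mod.FE E (M * q) ≃ₐ[E] A2.Mod.FE E (M * q)) :
    IsDiscreteValuationRing
      (V.comap (W : A2.Mod.FE E (M * q) →+* A2.Mod.FE E (M * q))) := by
  have hSet := S36.Mod3.H189.setting_of_std hS
  haveI : IsDiscreteValuationRing (A2.RE P E) := hS.unram.1.dvr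
  have hu : A2.H48.IsUnif V (A2.Mod.cE P E (M * q) w) :=
    (A2.Mod.H553.vinfBasic P E w (M * q) (NeZero.ne _) hSet.dvr hSet.unif V hV).1
  have hu' := A2.Mod.H13.isUnif_comap hu W
  refine S36.H972.isDiscreteValuationRing_of_isUnif hu' (fun a => ?_)
  obtain ⟨k, hk⟩ := S36.H972.arch_vinf hS.unif hV (W a)
  refine ⟨k, ?_⟩
  rw [ValuationSubring.mem_comap, map_mul, map_pow]
  have hc : (W : A2.Mod.FE E (M * q) →+* A2.Mod.FE E (M * q)) (A2.Mod.cE P E (M * q) w) =
      A2.Mod.cE P E (M * q) w := W.commutes _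
  rw [hc]
  exact hk

/-- **SPLIT-DICT, normalised generator.**  For an `E`-rational Kummer generator `y` of slope `0`
modulo `m` of a class with a Kummer generator over `ℚ̄` whose two reductions are constants times
`m`-th powers: `g = y / (w ^ j G ^ m)` is a unit with `m ∣ div g`, `g ≡ 1` along `V∞` and `V₀`,
a Kummer generator of the same class. -/
theorem splitDict_normal835 {w : A2.RE P E} (hS : S36.Mod3.Std P E M q w)
    {V : ValuationSubring (A2.Mod.FE E (M * q))} (hV : A2.Mod.IsVinf P E (M * q) V)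
    {W : A2.Mod.FE E (M * q) ≃ₐ[E] A2.Mod.FE E (M * q)} (hW : A2.Mod.IsFricke E (M * q) W)
    {m : ℕ} (hm : 0 < m) (hqm : ¬ q ∣ m)
    {x : JZero (M * q)} {f : FF (M * q)} (hf : IsKummerGen (M * q) m f x)
    {r₁ r₂ : LaurentSeries (kA P)}
    (h₁ : IsRedInf (M * q) P f r₁) (h₂ : IsRedZero (M * q) P f r₂)
    (hr₁ : PPowSeries m M r₁) (hr₂ : PPowSeries m M r₂)
    {y : A2.Mod.FE E (M * q)} (hy : H296.IsKummerGenE296 E (M * q) m y x)
    (hslope : H27.SlopeZeroE P E (M * q) w m V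
      (V.comap (W : A2.Mod.FE E (M * q) →+* A2.Mod.FE E (M * q))) y) :
    ∃ (j : ℤ) (G : A2.Mod.FE E (M * q)), G ≠ 0 ∧
      A2.DivisibleDiv E m (y / (A2.Mod.cE P E (M * q) w ^ j * G ^ m)) ∧
      y / (A2.Mod.cE P E (M * q) w ^ j * G ^ m) - 1 ∈ V.nonunits ∧
      y / (A2.Mod.cE P E (M * q) w ^ j * G ^ m) - 1 ∈
        (V.comap (W : A2.Mod.FE E (M * q) →+* A2.Mod.FE E (M * q))).nonunits ∧
      H296.IsKummerGenE296 E (M * q) m (y / (A2.Mod.cE P E (M * q) w ^ j * G ^ m)) x := by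
  have hE := hS.unram.1
  have hSet := S36.Mod3.H189.setting_of_std hS
  haveI : IsDiscreteValuationRing (A2.RE P E) := hS.unram.1.dvr
  have hdV := isDVR_vinf835 hS hV
  have hdV₀ := isDVR_vzero835 hS hV W
  have h12 : V ≠ V.comap (W : A2.Mod.FE E (M * q) →+* A2.Mod.FE E (M * q)) := fun h =>
    A2.Mod.H553.vzeroNe P E M q w hSet V W hV hW h.symm
  have hyK := isKummerGenE296_iff835.1 hy
  have hone : IsRedZero (M * q) P
      (iota E (modularFunctionFieldFull (M * q)) (1 : A2.Mod.FE E (M * q))) 1 := by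
    rw [map_one]
    exact isRedZero_one
  have hr₂' : ∃ (c : kA P) (s : modularFunctionFieldFullC (kA P) M), c ≠ 0 ∧ s ≠ 0 ∧
      r₂ = HahnSeries.C c * 1 * (s : LaurentSeries (kA P)) ^ m := by
    obtain ⟨c, s, hc, hs, e⟩ := hr₂
    exact ⟨c, s, hc, hs, by rw [mul_one]; exact e⟩
  obtain ⟨j, G, hG0, hD, hg₁, hg₂⟩ := H27.rSurjAt_of_class (N := M * q) (M := M) (q := q) rfl
    hS.q_prime hS.q_not_dvd hS.lies_over hE hS.unif hV hW rfl hdV hdV₀ h12 hm hqm
    (b := 1) (map_one _) hone hf h₁ h₂ hr₁ hr₂' hyK hslope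
  refine ⟨j, G, hG0, hD, hg₁, ?_, ?_⟩
  · rwa [div_one] at hg₂
  · have hw0 : (w : E) ≠ 0 := fun h => hS.unif.ne_zero (Subtype.ext h)
    have hc : A2.Mod.cE P E (M * q) w ^ j =
        algebraMap E (A2.Mod.FE E (M * q)) ((w : E) ^ j) := by
      rw [map_zpow₀]
      rfl
    rw [hc]
    exact isKummerGenE296_div835 hy (zpow_ne_zero _ hw0) hG0

/-- **SPLIT-DICT** (`hredS` of the count, every modulus `m` prime to `q`). -/
theorem splitDict835 [IsDiscreteValuationRing (A2.RE P E)] [HenselianLocalRing (A2.RE P E)]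
    [IsAlgClosed (IsLocalRing.ResidueField (A2.RE P E))] {w : A2.RE P E}
    (hS : S36.Mod3.Std P E M q w)
    {V : ValuationSubring (A2.Mod.FE E (M * q))} (hV : A2.Mod.IsVinf P E (M * q) V)
    {W : A2.Mod.FE E (M * q) ≃ₐ[E] A2.Mod.FE E (M * q)} (hW : A2.Mod.IsFricke E (M * q) W)
    {m : ℕ} (hm : 0 < m) (hqm : ¬ q ∣ m)
    {x : JZero (M * q)} {f : FF (M * q)} (hf : IsKummerGen (M * q) m f x)
    {r₁ r₂ : LaurentSeries (kA P)}
    (h₁ : IsRedInf (M * q) P f r₁) (h₂ : IsRedZero (M * q) P f r₂)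
    (hr₁ : PPowSeries m M r₁) (hr₂ : PPowSeries m M r₂)
    {y : A2.Mod.FE E (M * q)} (hy : H296.IsKummerGenE296 E (M * q) m y x)
    (hslope : H27.SlopeZeroE P E (M * q) w m V
      (V.comap (W : A2.Mod.FE E (M * q) →+* A2.Mod.FE E (M * q))) y) :
    x ∈ H296.kummerClasses296 E (M * q) m
      (H193.splitDiv (R := A2.RE P E) E w (A2.Mod.xE E M q) m V
        (V.comap (W : A2.Mod.FE E (M * q) →+* A2.Mod.FE E (M * q)))) := by
  obtain ⟨j, G, hG0, hD, hg₁, hg₂, hK⟩ :=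
    splitDict_normal835 hS hV hW hm hqm hf h₁ h₂ hr₁ hr₂ hy hslope
  have hg0 : y / (A2.Mod.cE P E (M * q) w ^ j * G ^ m) ≠ 0 := hK.1
  refine ⟨Units.mk0 _ hg0, ?_, ?_⟩
  · exact mem_splitDiv_level835 hS hV hW hm (u := Units.mk0 _ hg0) hD hg₁ hg₂
  · exact hK

/-- **SPLIT-DICT for inertia-fixed classes**: the `E`-rational Kummer generator by descent. -/
theorem splitDict_fixed835 [IsDiscreteValuationRing (A2.RE P E)]
    [HenselianLocalRing (A2.RE P E)]
    [IsAlgClosed (IsLocalRing.ResidueField (A2.RE P E))] {w : A2.RE P E}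
    (hS : S36.Mod3.Std P E M q w)
    {V : ValuationSubring (A2.Mod.FE E (M * q))} (hV : A2.Mod.IsVinf P E (M * q) V)
    {W : A2.Mod.FE E (M * q) ≃ₐ[E] A2.Mod.FE E (M * q)} (hW : A2.Mod.IsFricke E (M * q) W)
    {m : ℕ} (hm : 0 < m) (hqm : ¬ q ∣ m)
    {x : JZero (M * q)} (hmx : m • x = 0)
    (hfix : ∀ σ ∈ P.inertiaSubgroupIn ℚ, σ • x = x)
    {f : FF (M * q)} (hf : IsKummerGen (M * q) m f x)
    {r₁ r₂ : LaurentSeries (kA P)}
    (h₁ : IsRedInf (M * q) P f r₁) (h₂ : IsRedZero (M * q) P f r₂)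
    (hr₁ : PPowSeries m M r₁) (hr₂ : PPowSeries m M r₂)
    (hslope : ∀ y : A2.Mod.FE E (M * q), H296.IsKummerGenE296 E (M * q) m y x →
      H27.SlopeZeroE P E (M * q) w m V
        (V.comap (W : A2.Mod.FE E (M * q) →+* A2.Mod.FE E (M * q))) y) :
    x ∈ H296.kummerClasses296 E (M * q) m
      (H193.splitDiv (R := A2.RE P E) E w (A2.Mod.xE E M q) m V
        (V.comap (W : A2.Mod.FE E (M * q) →+* A2.Mod.FE E (M * q)))) := by
  have hEI : A2.IF.H429.inertiaField P ≤ E :=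
    Ribet.H152.inertiaField_le_of_goodField P E q hS.q_prime hS.lies_over hS.unram.1
  obtain ⟨y₀, -, hyK₀, -⟩ :=
    Ribet.H868.exists_fixed_kummerGen (M * q) m P x hmx hfix
  obtain ⟨y, hy⟩ := H27.exists_iota_up (M * q) hEI y₀
  have hyK : IsKummerGen (M * q) m (iota E (modularFunctionFieldFull (M * q)) y) x := by
    rw [hy]
    exact hyK₀
  have hyE := isKummerGenE296_iff835.2 hyK
  exact splitDict835 hS hV hW hm hqm hf h₁ h₂ hr₁ hr₂ hyE (hslope y hyE)

end Level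

end Fermat.Agent.S59.LoSqC.H835

end

end
-- ===== PACK-END S59/LoSqC/H835/SplitDict.lean

-- ===== PACK-BEGIN S59/LoSqC/H27/PlugR.lean
section






/-!
# S59 moonshot, cell (C) LO-SQ: leaf (R) VERBATIM = `H987.RSurj1E` at the objects of
`S36.Mod3.Objs`, from the `J`-form `H27.SurjJ` (helper27)

`rSurj1E_plug` : `Mod3.Std`, `Mod3.Objs`, the three-component context `Eng.TripleCtx` (LeafCtx),
`0 < m`, `q ∤ m`, `SurjJ P E m M (M * q) w V₁' V₂'`  ⟹  `H987.RSurj1E (A2.RE P E) E m V₁' V₂'`.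

Plugged: COND-PDIV (`H967.pDivSeries_of_condW_zero967`, helper967), SURJ-E (`H27.SurjE`),
the facts of level `M q` of the context (`H27.SurjECtx`).
-/

set_option autoImplicit false
set_option linter.unusedSectionVars false
set_option linter.unusedVariables false
set_option linter.style.haveILetI false
set_option synthInstance.maxHeartbeats 400000
set_option maxHeartbeats 1600000

noncomputable section

namespace Fermat.Agent.S59.LoSqC.H27

open ModularCurve HahnSeries AlgebraicCurve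
open Fermat.Agent.A2 Fermat.Agent.A2.Mod
open Fermat.Agent.S24 Fermat.Agent.A2.H528 Fermat.Agent.A2.T1.H669 Fermat.Agent.Ribet.H884
open Fermat.Agent.S36 Fermat.Agent.S36.Eng

local notation "Q̄" => AlgebraicClosure ℚ

section Plug

variable {P : ValuationSubring Q̄} {E : IntermediateField ℚ Q̄} {M q : ℕ}
  [NeZero M] [NeZero q] [NeZero (M * q)] {w : A2.RE P E}
  {V₁' V₂' : ValuationSubring (A2.Mod.FE E (M * q))}
  {V₁ V₂ V₃ : ValuationSubring (A2.Mod.FE E (M * q * q))}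
  {W' : A2.Mod.FE E (M * q) ≃ₐ[E] A2.Mod.FE E (M * q)}
  {W : A2.Mod.FE E (M * q * q) ≃ₐ[E] A2.Mod.FE E (M * q * q)}

/-- The constant `w` of `F_E(N)` is the image of `w ∈ R_E`. -/
theorem algebraMap_eq_cE (N : ℕ) (r : A2.RE P E) :
    algebraMap (A2.RE P E) (A2.Mod.FE E N) r = A2.Mod.cE P E N r := rfl

/-- **Leaf (R), VERBATIM.** -/
theorem rSurj1E_plug (hS : Mod3.Std P E M q w)
    (hO : Mod3.Objs P E M q V₁' V₂' V₁ V₂ V₃ W' W)
    (T : TripleCtx (R := A2.RE P E) (E := E) w q (A2.Mod.αE E (M * q) q)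
      (A2.Mod.βE E (M * q) q) (Mod3.x3E E M q) (A2.Mod.xE E M q) V₁ V₂ V₃ V₁' V₂')
    {m : ℕ} (hm : 0 < m) (hqm : ¬ q ∣ m)
    (hJ : SurjJ P E m M (M * q) w V₁' V₂') :
    Fermat.Agent.S59.LoSqC.H987.RSurj1E (A2.RE P E) E m V₁' V₂' := by
  have hE : GoodField P E := hS.unram.1
  haveI : IsDiscreteValuationRing ↥(A2.RE P E) := hE.dvr
  haveI : HenselianLocalRing ↥(A2.RE P E) := hE.henselian
  haveI : IsAlgClosed (IsLocalRing.ResidueField ↥(A2.RE P E)) := hE.algClosed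
  have hdvr := ctx_dvr₁' T
  have hdvr₀ := ctx_dvr₂' T
  have h12 := ctx_ne' T
  have key := rSurj1E_of_surjJ (N := M * q) rfl hS.q_prime hS.q_not_dvd hS.lies_over hE
    hS.unif hO.vinf' hO.fricke' hO.vzero' hdvr hdvr₀ h12 hm hqm hJ
    (Fermat.Agent.S59.LoSqC.H987.CondW (A2.RE P E) m V₂') (fun b hb hCb => by
      have hb0 : b ≠ 0 := Fermat.Agent.S36.H586.ne_of_val hb
      have hWb0 : W' b ≠ 0 := (map_ne_zero_iff _ W'.injective).2 hb0
      obtain ⟨ρ, hρ⟩ := Fermat.Agent.S59.LoSqC.H967.exists_isRedSer967 (A := P) (N := M * q)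
        hE.dvr hWb0
      have hρZ : IsRedZero (M * q) P (iota E (modularFunctionFieldFull (M * q)) b) ρ :=
        (Fermat.Agent.S59.LoSqC.H967.isRedZero_iotaN_iff967 hO.fricke' b ρ).2 hρ
      have hρD : PDivSeries m M ρ :=
        Fermat.Agent.S59.LoSqC.H967.pDivSeries_of_condW_zero967 hS.q_prime hS.q_not_dvd
          hS.lies_over hE.dvr hO.vinf' W' hO.vzero' hCb hρ
      exact ⟨ρ, hρZ, hρD⟩)
  exact key

end Plug

end Fermat.Agent.S59.LoSqC.H27

end

end
-- ===== PACK-END S59/LoSqC/H27/PlugR.lean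

-- ===== PACK-BEGIN S59/LoSqC/H27/SurjES.lean
section


/-!
# S59 moonshot, cell (C) LO-SQ, adapter SURJ-E: SERIES form (helper27)

The `J`-side of the count lives at a level `N'` (`q * M'` in `H296.RSurjJ`), the `E`-side at the
level `N` of `S36.Mod3.Objs` (`M * q`); `N' = N` only propositionally.  The two sides are linked
by an equality of `t`-expansions in `ℚ̄((t))`, as in `H232.depthE_one_of_splitGen_series`.

* `exists_kummerGen_cast` : transport of classes and Kummer generators along `N = N'`;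
* `SurjJS`                : the `J`-form input of SURJ-E in series form;
* `surjJ_of_surjJS`       : `SurjJS A E m M N' N w V V₀ → SurjJ A E m M N w V V₀`.
-/

set_option autoImplicit false
set_option linter.unusedSectionVars false
set_option linter.unusedVariables false
set_option linter.style.haveILetI false
set_option synthInstance.maxHeartbeats 400000
set_option maxHeartbeats 1600000

noncomputable section

namespace Fermat.Agent.S59.LoSqC.H27

open ModularCurve HahnSeries AlgebraicCurve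
open Fermat.Agent.A2 Fermat.Agent.A2.Mod
open Fermat.Agent.S24 Fermat.Agent.A2.H528 Fermat.Agent.A2.T1.H669 Fermat.Agent.Ribet.H884
open Fermat.Agent.Ribet.H158.WallQ (PPowSeries)

local notation "Q̄" => AlgebraicClosure ℚ

section Cast

/-- **Transport along an equality of levels**: classes, Galois action, Kummer generators and
their reductions. -/
theorem exists_kummerGen_cast {N N' : ℕ} [NeZero N] [NeZero N'] (h : N = N')
    (A : ValuationSubring Q̄) :
    ∃ e : JZero N ≃+ JZero N',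
      (∀ (σ : Q̄ ≃ₐ[ℚ] Q̄) (x : JZero N), e (σ • x) = σ • e x) ∧
      ∀ (m : ℕ) (f : FF N) (x : JZero N), IsKummerGen N m f x →
        ∃ f' : FF N', (f' : LaurentSeries Q̄) = (f : LaurentSeries Q̄) ∧
          IsKummerGen N' m f' (e x) ∧
          (∀ r, IsRedInf N A f r → IsRedInf N' A f' r) ∧
          (∀ r, IsRedZero N A f r → IsRedZero N' A f' r) := by
  subst h
  exact ⟨AddEquiv.refl _, fun σ x => rfl, fun m f x hf => ⟨f, rfl, hf, fun r hr => hr,
    fun r hr => hr⟩⟩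

end Cast

section Series

variable {A : ValuationSubring Q̄} {E : IntermediateField ℚ Q̄} {M q : ℕ} [NeZero M] [NeZero q]

/-- **The `J`-form input of SURJ-E, series form**: the classes and their Kummer generators live
at the level `N'`, the `E`-rational generator `y` at the level `N`; `f'` is the Kummer generator
with the `t`-expansion of `y`. -/
def SurjJS (A : ValuationSubring Q̄) (E : IntermediateField ℚ Q̄) (m M N' N : ℕ) [NeZero N']
    [NeZero N] (w : Mod.RE A E) (V V₀ : ValuationSubring (Mod.FE E N)) : Prop :=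
  ∀ ρ : LaurentSeries (kA A), PDivSeries m M ρ →
    ∃ (x : JZero N') (f f' : FF N') (r₁ r₂ : LaurentSeries (kA A)) (y : Mod.FE E N),
      IsKummerGen N' m f x ∧ IsRedInf N' A f r₁ ∧ IsRedZero N' A f r₂ ∧ PPowSeries m M r₁ ∧
      (∃ (c : kA A) (s : modularFunctionFieldFullC (kA A) M), c ≠ 0 ∧ s ≠ 0 ∧
        r₂ = HahnSeries.C c * ρ * (s : LaurentSeries (kA A)) ^ m) ∧
      IsKummerGen N' m f' x ∧
      (f' : LaurentSeries Q̄) = coeffMap (algebraMap E Q̄) (y : LaurentSeries E) ∧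
      SlopeZeroE A E N w m V V₀ y

/-- Series form ⟹ plain form. -/
theorem surjJ_of_surjJS {N N' : ℕ} [NeZero N] [NeZero N'] (h : N' = N) {m : ℕ}
    {w : Mod.RE A E} {V V₀ : ValuationSubring (Mod.FE E N)}
    (hJ : SurjJS A E m M N' N w V V₀) : SurjJ A E m M N w V V₀ := by
  subst h
  intro ρ hρ
  obtain ⟨x, f, f', r₁, r₂, y, hf, h₁, h₂, hr₁, hr₂, hf', hfy, hsl⟩ := hJ ρ hρ
  have e : f' = iota E (modularFunctionFieldFull N') y := Subtype.ext hfy
  rw [e] at hf'
  exact ⟨x, f, r₁, r₂, y, hf, h₁, h₂, hr₁, hr₂, hf', hsl⟩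

/-- `SurjJS` from the output of `H296.kummerGen_of_rSurjJ_one` (level `N'`) on a subgroup `I`
all of whose classes have a Kummer generator with the `t`-expansion of an element of `F_E(N)`
of slope `0`. -/
theorem surjJS_of_gen {N N' : ℕ} [NeZero N] [NeZero N'] {m : ℕ}
    {w : Mod.RE A E} {V V₀ : ValuationSubring (Mod.FE E N)}
    (I : AddSubgroup (JZero N'))
    (hI : ∀ x ∈ I, ∃ (f' : FF N') (y : Mod.FE E N), IsKummerGen N' m f' x ∧
      (f' : LaurentSeries Q̄) = coeffMap (algebraMap E Q̄) (y : LaurentSeries E) ∧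
      SlopeZeroE A E N w m V V₀ y)
    (hJ : ∀ ρ : LaurentSeries (kA A), PDivSeries m M ρ →
      ∃ x ∈ I, ∃ (f : FF N') (r₁ r₂ : LaurentSeries (kA A)),
        IsKummerGen N' m f x ∧ IsRedInf N' A f r₁ ∧ IsRedZero N' A f r₂ ∧ PPowSeries m M r₁ ∧
        (∃ (c : kA A) (s : modularFunctionFieldFullC (kA A) M), c ≠ 0 ∧ s ≠ 0 ∧
          r₂ = HahnSeries.C c * ρ * (s : LaurentSeries (kA A)) ^ m)) :
    SurjJS A E m M N' N w V V₀ := by
  intro ρ hρ
  obtain ⟨x, hx, f, r₁, r₂, hf, h₁, h₂, hr₁, hr₂⟩ := hJ ρ hρ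
  obtain ⟨f', y, hf', hfy, hsl⟩ := hI x hx
  exact ⟨x, f, f', r₁, r₂, y, hf, h₁, h₂, hr₁, hr₂, hf', hfy, hsl⟩

end Series

end Fermat.Agent.S59.LoSqC.H27

end

end
-- ===== PACK-END S59/LoSqC/H27/SurjES.lean

-- ===== PACK-BEGIN S59/LoSqC/Real/Lab.lean
section






/-!
# S59 moonshot, cell (C) LO-SQ — RealSpec, LAB half (cell architect helper885)

At one system of objects of level `M q` (`V = V∞`, `V₀ = V.comap W`, `Σ` = the nodes of the finite
chart): for ANY subgroup `S₁ ≤ J₀(M q)` of classes with a Kummer generator in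
`H193.splitDiv` (the toric classes)

* `card_toric_le`      : `#S₁ ≤ p ^ (#Σ - 1)`        (hypothesis `hS1` of `H505.count_family505`);
* `lab1SurjE_of_card`  : `p ^ (#Σ - 1) ≤ #S₁` ⟹ `H630.Lab1SurjE` (the leaf (L), VERBATIM).

Inputs: helper193 (`card_splitDiv_level_le`, `finite_splitDiv_level_quot`, `lab1SurjAt_level`),
helper296 (`kummerClasses296`, LAB-J).
-/

set_option autoImplicit false
set_option linter.style.haveILetI false
set_option linter.unusedSectionVars false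
set_option linter.unusedVariables false
set_option synthInstance.maxHeartbeats 400000
set_option maxHeartbeats 1600000

noncomputable section

namespace Fermat.Agent.S59.LoSqC.Real

open ModularCurve
open Fermat.Agent.S18.H138 (chart)
open Fermat.Agent

section Lab

variable {P : ValuationSubring A2.Qb} {E : IntermediateField ℚ A2.Qb} {M q : ℕ}
  [NeZero M] [NeZero q] [NeZero (M * q)]

/-- **`hS1` of the count**: the toric classes are at most `p ^ (#Σ - 1)`. -/
theorem card_toric_le [IsDiscreteValuationRing (A2.RE P E)]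
    [HenselianLocalRing (A2.RE P E)] [IsAlgClosed (IsLocalRing.ResidueField (A2.RE P E))]
    {w : A2.RE P E} (hS : S36.Mod3.Std P E M q w)
    {V : ValuationSubring (A2.Mod.FE E (M * q))} (hV : A2.Mod.IsVinf P E (M * q) V)
    {W : A2.Mod.FE E (M * q) ≃ₐ[E] A2.Mod.FE E (M * q)} (hW : A2.Mod.IsFricke E (M * q) W)
    {p : ℕ} (hp : 0 < p) (hqp : ¬ q ∣ p) {ζ : A2.RE P E} (hζ : IsPrimitiveRoot ζ p)
    (Sg : Finset (Ideal (chart (A2.RE P E) ({A2.Mod.xE E M q} : Set (A2.Mod.FE E (M * q))))))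
    (hSg : ∀ 𝔫 ∈ Sg, H193.IsNodePt w
      (chart (A2.RE P E) ({A2.Mod.xE E M q} : Set (A2.Mod.FE E (M * q))))
      V (V.comap (W : A2.Mod.FE E (M * q) →+* A2.Mod.FE E (M * q))) 𝔫)
    (hall : ∀ 𝔫, H193.IsNodePt w
      (chart (A2.RE P E) ({A2.Mod.xE E M q} : Set (A2.Mod.FE E (M * q))))
      V (V.comap (W : A2.Mod.FE E (M * q) →+* A2.Mod.FE E (M * q))) 𝔫 → 𝔫 ∈ Sg)
    (S₁ : AddSubgroup (JZero (M * q)))
    (hSgen : S₁ ≤ H296.kummerClasses296 E (M * q) p
      (H193.splitDiv (R := A2.RE P E) E w (A2.Mod.xE E M q) p V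
        (V.comap (W : A2.Mod.FE E (M * q) →+* A2.Mod.FE E (M * q))))) :
    Nat.card S₁ ≤ p ^ (Sg.card - 1) := by
  haveI := H193.finite_splitDiv_level_quot hS hV hW hp hqp hζ Sg hSg hall
  haveI := H296.finite_kummerClasses296 (E := E) (N := M * q) hp.ne'
    (H193.splitDiv (R := A2.RE P E) E w (A2.Mod.xE E M q) p V
      (V.comap (W : A2.Mod.FE E (M * q) →+* A2.Mod.FE E (M * q))))
  exact (H505.card_le_of_le505 hSgen).trans
    (H296.card_kummerClasses296_le_of_quot_le hp.ne' _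
      (H193.card_splitDiv_level_le hS hV hW hp hqp hζ Sg hSg hall))

/-- **(L) from the count**: if the toric classes are at least `p ^ (#Σ - 1)`, the labels at the
nodes are onto (`H630.Lab1SurjE`, the input of the toric wall). -/
theorem lab1SurjE_of_card [IsDiscreteValuationRing (A2.RE P E)]
    [HenselianLocalRing (A2.RE P E)] [IsAlgClosed (IsLocalRing.ResidueField (A2.RE P E))]
    {w : A2.RE P E} (hS : S36.Mod3.Std P E M q w)
    {V : ValuationSubring (A2.Mod.FE E (M * q))} (hV : A2.Mod.IsVinf P E (M * q) V)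
    {W : A2.Mod.FE E (M * q) ≃ₐ[E] A2.Mod.FE E (M * q)} (hW : A2.Mod.IsFricke E (M * q) W)
    {p : ℕ} (hp : 0 < p) (hqp : ¬ q ∣ p) {ζ : A2.RE P E} (hζ : IsPrimitiveRoot ζ p)
    (Sg : Finset (Ideal (chart (A2.RE P E) ({A2.Mod.xE E M q} : Set (A2.Mod.FE E (M * q))))))
    (hSg : ∀ 𝔫 ∈ Sg, H193.IsNodePt w
      (chart (A2.RE P E) ({A2.Mod.xE E M q} : Set (A2.Mod.FE E (M * q))))
      V (V.comap (W : A2.Mod.FE E (M * q) →+* A2.Mod.FE E (M * q))) 𝔫)
    (hall : ∀ 𝔫, H193.IsNodePt w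
      (chart (A2.RE P E) ({A2.Mod.xE E M q} : Set (A2.Mod.FE E (M * q))))
      V (V.comap (W : A2.Mod.FE E (M * q) →+* A2.Mod.FE E (M * q))) 𝔫 → 𝔫 ∈ Sg)
    (S₁ : AddSubgroup (JZero (M * q)))
    (hSgen : S₁ ≤ H296.kummerClasses296 E (M * q) p
      (H193.splitDiv (R := A2.RE P E) E w (A2.Mod.xE E M q) p V
        (V.comap (W : A2.Mod.FE E (M * q) →+* A2.Mod.FE E (M * q)))))
    (hcard : p ^ (Sg.card - 1) ≤ Nat.card S₁) :
    H630.Lab1SurjE E w (A2.Mod.xE E M q) V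
      (V.comap (W : A2.Mod.FE E (M * q) →+* A2.Mod.FE E (M * q))) p ζ := by
  haveI := H193.finite_splitDiv_level_quot hS hV hW hp hqp hζ Sg hSg hall
  haveI := H296.finite_kummerClasses296 (E := E) (N := M * q) hp.ne'
    (H193.splitDiv (R := A2.RE P E) E w (A2.Mod.xE E M q) p V
      (V.comap (W : A2.Mod.FE E (M * q) →+* A2.Mod.FE E (M * q))))
  have h1 : p ^ (Sg.card - 1) ≤ Nat.card ↥(H296.kummerClasses296 E (M * q) p
      (H193.splitDiv (R := A2.RE P E) E w (A2.Mod.xE E M q) p V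
        (V.comap (W : A2.Mod.FE E (M * q) →+* A2.Mod.FE E (M * q))))) :=
    hcard.trans (H505.card_le_of_le505 hSgen)
  have h2 := H296.le_card_quot_of_le_card296 hp.ne' _ h1
  exact H193.lab1SurjAt_level hS hV hW hp hqp hζ Sg hSg hall h2

end Lab

end Fermat.Agent.S59.LoSqC.Real

end

end
-- ===== PACK-END S59/LoSqC/Real/Lab.lean

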