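import Fermat.Agent.Pack.S59C.E14L1
import Fermat.Agent.Pack.S59C.E0L0
import Fermat.Agent.Pack.S59C.E11L1
import Fermat.Agent.Pack.S59C.E9L0
import Fermat.Agent.Pack.S44C.G0E31L0
import Fermat.Agent.Pack.S43MC.G0E28L0
import Fermat.Agent.Pack.S43MC.G0E27L1
import Fermat.Agent.Pack.S59C.E9L2
import Fermat.Agent.Pack.S44C.G0E28L0
import Fermat.Agent.Pack.S43MC.G0E17L1

set_option linter.all false

-- ===== PACK-BEGIN S59/LoSqC/H862/NodeRelCard.lean
section


/-!
# S59 / cell (C) LO-SQ / W-COUNT, sub-leaf NODE-REL — CARD form, generic in `F` (helper862)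

Level `q M'`, `q ∤ M'`, `A` over `q`, `E = ℚ̄^I` the inertia field of `A` (uniformiser `q`),
thickness one at the nodes of the finite chart as a hypothesis (`Th1At`).

* `HasSlopeZeroGen m q M' A x` : the class `x ∈ J₀(q M')` has an `E`-rational Kummer generator
  (exponent `m`) whose branch valuations along the two components of the special fibre of the
  finite chart are congruent modulo `m` ("E-slope zero").
* `card_le_mul_of_slope862` (Mathlib only) : a slope function `c : I → ℤ` with `m ∣ s · c x` and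
  "`c x ≡ c y mod m` ⟹ `x - y ∈ F`" gives `|I| ≤ s · |F ⊓ I|`.
* `exists_chart_vert862` : a semistable chart structure on the finite chart, with existence and
  multiplicativity of the branch valuations.
* `exists_slopeGen862` : every inertia-fixed `m`-torsion class has an `E`-rational Kummer
  generator with branch valuations on that chart.
* **`nodeRel_card_th1`** : for EVERY `m > 0`, every subgroup `I` of inertia-fixed `m`-torsion
  classes and every subgroup `F` containing the classes of `I` with `HasSlopeZeroGen`: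

    `Nat.card I ≤ ((q - 1) · ψ(M')) · Nat.card ↥(F ⊓ I)`.

  (`F = H158.WallQ.finPartQ m q M' A` is allowed, by helper34's `mem_finSetQ_of_slopeZero_h34`;
  `F` = the subgroup generated by the slope-zero classes is allowed trivially.)
-/

set_option autoImplicit false
set_option linter.unusedSectionVars false
set_option linter.unusedVariables false
set_option linter.style.haveILetI false
set_option synthInstance.maxHeartbeats 400000
set_option maxHeartbeats 1600000

noncomputable section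

open AlgebraicCurve

namespace Fermat.Agent.S59.LoSqC.H862

/-! ## The abstract count -/

section Abs

/-- The tag of a slope: `((c mod m) · s) / m ∈ [0, s)`. -/
def slopeTag862 (m s : ℕ) (c : ℤ) : ℕ := ((c % (m : ℤ)).toNat * s) / m

theorem slopeTag862_lt {m s : ℕ} (hm : 0 < m) (hs : 0 < s) (c : ℤ) : slopeTag862 m s c < s := by
  have hm' : (0 : ℤ) < m := by exact_mod_cast hm
  have h1 : 0 ≤ c % (m : ℤ) := Int.emod_nonneg c hm'.ne'
  have h2 : c % (m : ℤ) < m := Int.emod_lt_of_pos c hm'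
  have h3 : (c % (m : ℤ)).toNat < m := by omega
  unfold slopeTag862
  rw [Nat.div_lt_iff_lt_mul hm]
  calc (c % (m : ℤ)).toNat * s < m * s := Nat.mul_lt_mul_of_pos_right h3 hs
    _ = s * m := Nat.mul_comm _ _

theorem dvd_toNat_mul862 {m s : ℕ} (hm : 0 < m) {c : ℤ} (h : (m : ℤ) ∣ (s : ℤ) * c) :
    m ∣ (c % (m : ℤ)).toNat * s := by
  have hm' : (0 : ℤ) < m := by exact_mod_cast hm
  have h1 : 0 ≤ c % (m : ℤ) := Int.emod_nonneg c hm'.ne'
  have h2 : (m : ℤ) ∣ (c % (m : ℤ)) * s := by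
    have e : c % (m : ℤ) = c - (m : ℤ) * (c / (m : ℤ)) := by
      have := Int.emod_add_mul_ediv c (m : ℤ)
      linarith
    rw [e, sub_mul]
    refine dvd_sub ?_ ⟨c / (m : ℤ) * s, by ring⟩
    rw [mul_comm]
    exact h
  have h3 : (m : ℤ) ∣ (((c % (m : ℤ)).toNat * s : ℕ) : ℤ) := by
    push_cast
    rw [Int.toNat_of_nonneg h1]
    exact h2
  exact Int.natCast_dvd_natCast.mp h3

theorem dvd_sub_of_slopeTag862_eq {m s : ℕ} (hm : 0 < m) (hs : 0 < s) {c c' : ℤ}
    (h : (m : ℤ) ∣ (s : ℤ) * c) (h' : (m : ℤ) ∣ (s : ℤ) * c')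
    (he : slopeTag862 m s c = slopeTag862 m s c') : (m : ℤ) ∣ c - c' := by
  have hm' : (0 : ℤ) < m := by exact_mod_cast hm
  have d1 := dvd_toNat_mul862 hm h
  have d2 := dvd_toNat_mul862 hm h'
  unfold slopeTag862 at he
  have e1 : (c % (m : ℤ)).toNat * s = (c' % (m : ℤ)).toNat * s := by
    rw [← Nat.div_mul_cancel d1, ← Nat.div_mul_cancel d2, he]
  have e2 : (c % (m : ℤ)).toNat = (c' % (m : ℤ)).toNat := Nat.eq_of_mul_eq_mul_right hs e1
  have h1 : 0 ≤ c % (m : ℤ) := Int.emod_nonneg c hm'.ne'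
  have h1' : 0 ≤ c' % (m : ℤ) := Int.emod_nonneg c' hm'.ne'
  have e3 : c % (m : ℤ) = c' % (m : ℤ) := by omega
  exact Int.ModEq.dvd (e3.symm : c' ≡ c [ZMOD (m : ℤ)])

/-- **The count.**  A slope function on `I` with values killed by `s` modulo `m`, whose fibres
modulo `m` lie in cosets of `F`: then `|I| ≤ s · |F ⊓ I|`. -/
theorem card_le_mul_of_slope862 {G : Type*} [AddCommGroup G] (I F : AddSubgroup G) (m : ℕ)
    (hm : 0 < m) (s : ℕ) (hs : 0 < s) (c : I → ℤ) (hc : ∀ x, (m : ℤ) ∣ (s : ℤ) * c x)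
    (hsub : ∀ x y : I, (m : ℤ) ∣ c x - c y → (x : G) - (y : G) ∈ F) :
    Nat.card I ≤ s * Nat.card ↥(F ⊓ I) := by
  classical
  have h1 : Nat.card I = Nat.card (I ⧸ F.addSubgroupOf I) * Nat.card (F.addSubgroupOf I) :=
    AddSubgroup.card_eq_card_quotient_mul_card_addSubgroup (F.addSubgroupOf I)
  have h2 : Nat.card (F.addSubgroupOf I) = Nat.card ↥(F ⊓ I) := by
    have e : (F ⊓ I).addSubgroupOf I = F.addSubgroupOf I :=
      AddSubgroup.inf_addSubgroupOf_right F I
    rw [← e]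
    exact Nat.card_congr (AddSubgroup.addSubgroupOfEquivOfLe (inf_le_right : F ⊓ I ≤ I)).toEquiv
  have h3 : Nat.card (I ⧸ F.addSubgroupOf I) ≤ s := by
    let T : I ⧸ F.addSubgroupOf I → Fin s := fun z =>
      ⟨slopeTag862 m s (c (Quotient.out z)), slopeTag862_lt hm hs _⟩
    have hT : Function.Injective T := by
      intro z z' hzz
      have he : slopeTag862 m s (c (Quotient.out z)) = slopeTag862 m s (c (Quotient.out z')) :=
        congrArg Fin.val hzz
      have hd := dvd_sub_of_slopeTag862_eq hm hs (hc _) (hc _) he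
      have hmem := hsub _ _ hd
      have hq : (QuotientAddGroup.mk (Quotient.out z) : I ⧸ F.addSubgroupOf I) =
          QuotientAddGroup.mk (Quotient.out z') := by
        rw [QuotientAddGroup.eq, AddSubgroup.mem_addSubgroupOf]
        have e : ((-(Quotient.out z) + Quotient.out z' : I) : G) =
            -(((Quotient.out z : I) : G) - ((Quotient.out z' : I) : G)) := by
          push_cast
          abel
        rw [e]
        exact F.neg_mem hmem
      have ez : (QuotientAddGroup.mk (Quotient.out z) : I ⧸ F.addSubgroupOf I) = z :=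
        Quotient.out_eq z
      have ez' : (QuotientAddGroup.mk (Quotient.out z') : I ⧸ F.addSubgroupOf I) = z' :=
        Quotient.out_eq z'
      rw [← ez, ← ez', hq]
    have := Nat.card_le_card_of_injective T hT
    rwa [Nat.card_fin] at this
  rw [h1, h2]
  exact Nat.mul_le_mul_right _ h3

end Abs

/-! ## Branch valuations on a chart -/

section AlgChart

open IsLocalRing Fermat.Agent.Ribet.H704 Fermat.Agent.A2 Fermat.Agent.A2.Alg.H132
open Fermat.Agent.A2.H849 Fermat.Agent.A2.H609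
open Fermat.Agent.A2.Alg Fermat.Agent.A2.Alg.H609

variable {R E F : Type} [CommRing R] [IsDomain R] [IsDiscreteValuationRing R]
  [Field E] [CharZero E] [Algebra R E] [IsFractionRing R E]
  [Field F] [Algebra E F] [Algebra R F] [IsScalarTower R E F]

/-- Branch valuations of a quotient on a chart. -/
theorem valAt_mul_inv_chart862
    (w : R) (x : F) (B : Subalgebra R F) (hB : ChartCtx E w x B) (c : SSChart w B)
    (f g : F) (v₁ w₁ v₂ w₂ : ℤ)
    (hf₁ : I6.ValAt F c.p₁ (algebraMap R B w) f v₁) (hg₁ : I6.ValAt F c.p₁ (algebraMap R B w) g w₁)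
    (hf₂ : I6.ValAt F c.p₂ (algebraMap R B w) f v₂)
    (hg₂ : I6.ValAt F c.p₂ (algebraMap R B w) g w₂) :
    I6.ValAt F c.p₁ (algebraMap R B w) (f * g⁻¹) (v₁ - w₁) ∧
      I6.ValAt F c.p₂ (algebraMap R B w) (f * g⁻¹) (v₂ - w₂) := by
  obtain ⟨hnoeth, hic, hfrac⟩ := H34.chart_instances' w x B hB
  have hp₁ : c.p₁.IsPrime := c.prime₁
  have hp₂ : c.p₂.IsPrime := c.prime₂
  have hw0 : algebraMap R B w ≠ 0 :=
    Fermat.Agent.A2.H609.ne_zero_of_inf_eq_span c.p₁ c.p₂ c.inf_eq c.not_le₁₂ c.not_le₂₁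
  have hV₁ : VertData (algebraMap R B w) c.p₁ c.p₂ := ⟨c.prime₁, hw0, c.not_le₂₁, c.inf_eq⟩
  have hV₂ : VertData (algebraMap R B w) c.p₂ c.p₁ :=
    ⟨c.prime₂, hw0, c.not_le₁₂, by rw [inf_comm]; exact c.inf_eq⟩
  constructor
  · have h := Fermat.Agent.Ribet.H132.valAt_mul (K := F) hV₁ hf₁
      (Fermat.Agent.Ribet.H132.valAt_inv (K := F) hV₁ hg₁)
    rwa [← sub_eq_add_neg] at h
  · have h := Fermat.Agent.Ribet.H132.valAt_mul (K := F) hV₂ hf₂
      (Fermat.Agent.Ribet.H132.valAt_inv (K := F) hV₂ hg₂)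
    rwa [← sub_eq_add_neg] at h

end AlgChart

/-! ## The level `M q` -/

section Level

open ModularCurve HahnSeries
open Fermat.Agent.S24 Fermat.Agent.Ribet.H884 Fermat.Agent.Ribet.H158.WallQ
open Fermat.Agent.A2.Mod Fermat.Agent.Ribet.H868
open Fermat.Agent.Ribet.H704 (I6.ValAt)
open Fermat.Agent.A2.T1.H669 (iota)
open Fermat.Agent.A2.IF.H429 (inertiaField)

section Chart

variable (A : ValuationSubring (AlgebraicClosure ℚ))
  (E : IntermediateField ℚ (AlgebraicClosure ℚ)) (M q : ℕ) [NeZero M] [NeZero q]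

/-- **A semistable chart structure on the finite chart with its branch valuations**: existence
of the valuations of every nonzero function and their behaviour under quotients. -/
theorem exists_chart_vert862 (w : RE A E) (hS : Setting A E M q w) (hE : A2.GoodField A E)
    (hAux : S35.G.HasAux M q) :
    ∃ cf : A2.SSChart w (chartAlg A E (M * q) (xE E M q)),
      (∀ f : FE E (M * q), f ≠ 0 → ∃ v₁ v₂ : ℤ,
        I6.ValAt (FE E (M * q)) cf.p₁
          (algebraMap ↥(RE A E) ↥(chartAlg A E (M * q) (xE E M q)) w) f v₁ ∧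
        I6.ValAt (FE E (M * q)) cf.p₂
          (algebraMap ↥(RE A E) ↥(chartAlg A E (M * q) (xE E M q)) w) f v₂) ∧
      (∀ (f g : FE E (M * q)) (v₁ w₁ v₂ w₂ : ℤ),
        I6.ValAt (FE E (M * q)) cf.p₁
          (algebraMap ↥(RE A E) ↥(chartAlg A E (M * q) (xE E M q)) w) f v₁ →
        I6.ValAt (FE E (M * q)) cf.p₁
          (algebraMap ↥(RE A E) ↥(chartAlg A E (M * q) (xE E M q)) w) g w₁ →
        I6.ValAt (FE E (M * q)) cf.p₂
          (algebraMap ↥(RE A E) ↥(chartAlg A E (M * q) (xE E M q)) w) f v₂ →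
        I6.ValAt (FE E (M * q)) cf.p₂
          (algebraMap ↥(RE A E) ↥(chartAlg A E (M * q) (xE E M q)) w) g w₂ →
        I6.ValAt (FE E (M * q)) cf.p₁
            (algebraMap ↥(RE A E) ↥(chartAlg A E (M * q) (xE E M q)) w) (f * g⁻¹) (v₁ - w₁) ∧
          I6.ValAt (FE E (M * q)) cf.p₂
            (algebraMap ↥(RE A E) ↥(chartAlg A E (M * q) (xE E M q)) w) (f * g⁻¹) (v₂ - w₂)) := by
  haveI : IsDiscreteValuationRing ↥(RE A E) := hS.dvr
  have hq : q.Prime := hS.q_prime
  obtain ⟨V, W, VM, hV, hW, hVM, hg1, hg2, hDeg, cf, ci, hcf, hci⟩ :=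
    S35.G.H862.modelNoSep A E M q w hS hE hAux
  obtain ⟨hx, hfr, hconst⟩ := hDeg hq hS.q_not_dvd
  have hpos : 0 < Module.finrank
      (IntermediateField.adjoin E ({xE E M q} : Set (FE E (M * q))))
      (FE E (M * q)) := by
    rw [hfr]
    have h1 := dedekindPsi_pos_of_ne_zero M (NeZero.ne M)
    positivity
  have hfin : FiniteDimensional
      (IntermediateField.adjoin E ({xE E M q} : Set (FE E (M * q))))
      (FE E (M * q)) := Module.finite_of_finrank_pos hpos
  have hB : A2.Alg.ChartCtx E w (xE E M q) (chartAlg A E (M * q) (xE E M q)) :=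
    ⟨hS.unif, hx, hfin, hconst, fun _ => Iff.rfl⟩
  refine ⟨cf, fun f hf => ?_, fun f g v₁ w₁ v₂ w₂ h1 h2 h3 h4 => ?_⟩
  · exact exists_valAt_chart (E := E) w (xE E M q) (chartAlg A E (M * q) (xE E M q)) hB cf f hf
  · exact valAt_mul_inv_chart862 (E := E) w (xE E M q) (chartAlg A E (M * q) (xE E M q)) hB cf
      f g v₁ w₁ v₂ w₂ h1 h2 h3 h4

end Chart

variable (m q M' : ℕ) [NeZero M'] [NeZero q] [NeZero (q * M')]

/-- The class `x ∈ J₀(q M')` has an `E`-rational Kummer generator of exponent `m` (`E` the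
inertia field of `A`) with **slope zero modulo `m`**: its branch valuations along the two
components of the special fibre of the finite chart of level `M' q` are congruent modulo `m`. -/
def HasSlopeZeroGen (A : ValuationSubring Kbar) (x : JZero (q * M')) : Prop :=
  ∃ (g : FE (inertiaField A) (M' * q))
    (cf : A2.SSChart ((q : ℕ) : RE A (inertiaField A))
      (chartAlg A (inertiaField A) (M' * q) (xE (inertiaField A) M' q)))
    (v₁ v₂ : ℤ), g ≠ 0 ∧ A2.DivisibleDiv (inertiaField A) m g ∧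
      IsKummerGen (q * M') m (toFF (inertiaField A) (Nat.mul_comm M' q) g) x ∧
      I6.ValAt (FE (inertiaField A) (M' * q)) cf.p₁
        (algebraMap ↥(RE A (inertiaField A))
          ↥(chartAlg A (inertiaField A) (M' * q) (xE (inertiaField A) M' q))
          ((q : ℕ) : RE A (inertiaField A))) g v₁ ∧
      I6.ValAt (FE (inertiaField A) (M' * q)) cf.p₂
        (algebraMap ↥(RE A (inertiaField A))
          ↥(chartAlg A (inertiaField A) (M' * q) (xE (inertiaField A) M' q))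
          ((q : ℕ) : RE A (inertiaField A))) g v₂ ∧
      (m : ℤ) ∣ v₁ - v₂

/-- Every inertia-fixed `m`-torsion class has an `E`-rational Kummer generator at level `M' q`
(`E` the inertia field). -/
theorem exists_slopeGen862 (A : ValuationSubring Kbar) (x : JZero (q * M')) (hx : m • x = 0)
    (hfix : ∀ σ ∈ A.inertiaSubgroupIn ℚ, σ • x = x) :
    ∃ g : FE (inertiaField A) (M' * q), g ≠ 0 ∧ A2.DivisibleDiv (inertiaField A) m g ∧
      IsKummerGen (q * M') m (toFF (inertiaField A) (Nat.mul_comm M' q) g) x := by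
  obtain ⟨y, hy0, hkum, hdiv⟩ := exists_fixed_kummerGen (q * M') m A x hx hfix
  refine ⟨castLevelE (inertiaField A) (Nat.mul_comm q M') y, ?_, ?_, ?_⟩
  · exact (map_ne_zero_iff _ (castLevelE (inertiaField A) (Nat.mul_comm q M')).injective).mpr hy0
  · exact divisibleDiv_castLevelE (inertiaField A) (Nat.mul_comm q M') m y hdiv
  · rw [toFF_castLevelE (inertiaField A) (Nat.mul_comm M' q) y]
    exact hkum

/-- **NODE-REL, card form, every exponent `m`**, generic in the subgroup `F`. -/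
theorem nodeRel_card_th1 (hm : 0 < m) (hq : q.Prime) (hqM : ¬ q ∣ M')
    (hAux : S35.G.HasAux M' q) (A : ValuationSubring Kbar) (hA : A.LiesOverPrime q)
    (hTh1 : Th1At A (inertiaField A) M' q ((q : ℕ) : RE A (inertiaField A)))
    (F I : AddSubgroup (JZero (q * M'))) (hI : ∀ x ∈ I, m • x = 0)
    (hfix : ∀ x ∈ I, ∀ σ ∈ A.inertiaSubgroupIn ℚ, σ • x = x)
    (hF : ∀ z ∈ I, HasSlopeZeroGen m q M' A z → z ∈ F) :
    Nat.card I ≤ ((q - 1) * dedekindPsi M') * Nat.card ↥(F ⊓ I) := by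
  have hE : A2.GoodField A (inertiaField A) := goodField_inertiaField A q hq hA
  have hS : Setting A (inertiaField A) M' q ((q : ℕ) : RE A (inertiaField A)) :=
    setting_inertiaField A q M' hq hqM (NeZero.ne M') hA
  have hwq : ((((q : ℕ) : RE A (inertiaField A)) : inertiaField A)) = (q : inertiaField A) := by
    simp
  obtain ⟨cf, hex, hmul⟩ := exists_chart_vert862 A (inertiaField A) M' q _ hS hE hAux
  have key : ∀ x : I, ∃ (g : FE (inertiaField A) (M' * q)) (v₁ v₂ : ℤ), g ≠ 0 ∧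
      A2.DivisibleDiv (inertiaField A) m g ∧
      IsKummerGen (q * M') m (toFF (inertiaField A) (Nat.mul_comm M' q) g) (x : JZero (q * M')) ∧
      I6.ValAt (FE (inertiaField A) (M' * q)) cf.p₁
        (algebraMap ↥(RE A (inertiaField A))
          ↥(chartAlg A (inertiaField A) (M' * q) (xE (inertiaField A) M' q))
          ((q : ℕ) : RE A (inertiaField A))) g v₁ ∧
      I6.ValAt (FE (inertiaField A) (M' * q)) cf.p₂
        (algebraMap ↥(RE A (inertiaField A))
          ↥(chartAlg A (inertiaField A) (M' * q) (xE (inertiaField A) M' q))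
          ((q : ℕ) : RE A (inertiaField A))) g v₂ := by
    intro x
    obtain ⟨g, hg0, hgdiv, hgK⟩ := exists_slopeGen862 m q M' A (x : JZero (q * M'))
      (hI x x.2) (hfix x x.2)
    obtain ⟨v₁, v₂, h1, h2⟩ := hex g hg0
    exact ⟨g, v₁, v₂, hg0, hgdiv, hgK, h1, h2⟩
  choose g v₁ v₂ hg0 hgdiv hgK hv₁ hv₂ using key
  have hs : 0 < (q - 1) * dedekindPsi M' :=
    Nat.mul_pos (Nat.sub_pos_of_lt hq.one_lt) (dedekindPsi_pos_of_ne_zero M' (NeZero.ne M'))
  refine card_le_mul_of_slope862 I F m hm _ hs (fun x => v₁ x - v₂ x) (fun x => ?_)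
    (fun x y hxy => ?_)
  · have hdivK : ∀ v : Place Kbar (FF (q * M')),
        (m : ℤ) ∣ v.ord (toFF (inertiaField A) (Nat.mul_comm M' q) (g x)) := by
      obtain ⟨-, D, -, hD⟩ := hgK x
      exact fun v => ⟨_, hD v⟩
    exact nodeRelE m q M' hm hq hqM hAux A hA (inertiaField A) _ hS hE hwq hTh1 cf (g x) (hg0 x)
      (hgdiv x) hdivK (v₁ x) (v₂ x) (hv₁ x) (hv₂ x)
  · have hmem : (x : JZero (q * M')) - (y : JZero (q * M')) ∈ I := I.sub_mem x.2 y.2
    refine hF _ hmem ⟨g x * (g y)⁻¹, cf, v₁ x - v₁ y, v₂ x - v₂ y,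
      mul_ne_zero (hg0 x) (inv_ne_zero (hg0 y)), ?_, ?_, ?_, ?_, ?_⟩
    · exact Fermat.Agent.A2.Alg.H34.divisibleDiv_mul_inv m (g x) (g y) (hgdiv x) (hgdiv y)
    · rw [map_mul, map_inv₀, sub_eq_add_neg]
      exact (hgK x).mul (hgK y).inv
    · exact (hmul (g x) (g y) (v₁ x) (v₁ y) (v₂ x) (v₂ y) (hv₁ x) (hv₁ y) (hv₂ x) (hv₂ y)).1
    · exact (hmul (g x) (g y) (v₁ x) (v₁ y) (v₂ x) (v₂ y) (hv₁ x) (hv₁ y) (hv₂ x) (hv₂ y)).2
    · have e : v₁ x - v₁ y - (v₂ x - v₂ y) = (v₁ x - v₂ x) - (v₁ y - v₂ y) := by ring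
      rw [e]
      exact hxy

end Level

end Fermat.Agent.S59.LoSqC.H862

end

end
-- ===== PACK-END S59/LoSqC/H862/NodeRelCard.lean

-- ===== PACK-BEGIN S59/LoSqC/H216/TauSlope.lean
section




/-!
# S59 moonshot, cell (C) LO-SQ, W-COUNT sub-leaf **TAU-SLOPE**  (helper216)

Level `q M'`, `q ∤ M'`, `A` over `q`, `E = ℚ̄^I` the inertia field of `A`, vocabulary of helper862
(`S59/LoSqC/H862/NodeRelCard.lean`: `HasSlopeZeroGen`, `exists_slopeGen862`, `nodeRelE`).

**TAU-SLOPE** (`hasSlopeZeroGen_tau_h216`): for `x ∈ J₀(q M')[p ^ n]` the class `τ x - x` has an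
`E`-rational Kummer generator of exponent `p ^ n` with E-SLOPE ZERO modulo `p ^ n`
(`H862.HasSlopeZeroGen (p ^ n) q M' A (τ • x - x)`), provided `(τ - 1) z` is inertia-fixed for all
`p`-power torsion `z` (TAME-CYC).

No node-local analysis: with `s = (q - 1) ψ(M') = p ^ k s'`, `p ∤ s'`, write `x = p ^ k z`,
`z ∈ J[p ^ (n + k)]` (divisibility of the `p`-power torsion, from `S27.H145.card_torsion_JZero`);
`y' = τ z - z` is inertia-fixed, so it has an `E`-rational Kummer generator `g` of exponent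
`p ^ (n + k)`, and `H862.nodeRelE` gives `p ^ (n + k) ∣ s (v₁ g - v₂ g)`, i.e.
`p ^ n ∣ v₁ g - v₂ g`; the SAME `g` is a Kummer generator of `p ^ k y' = τ x - x` of exponent
`p ^ n`.

So TAU-E (`τ x - x ∈ kummerClasses (splitDiv)`) = TAU (J-form, `Tau.lean`) + TAU-SLOPE +
SPLIT-DICT with the slope hypothesis.
-/

set_option autoImplicit false
set_option linter.unusedSectionVars false
set_option linter.unusedVariables false
set_option linter.style.haveILetI false
set_option synthInstance.maxHeartbeats 400000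
set_option maxHeartbeats 1600000

noncomputable section

open AlgebraicCurve

namespace Fermat.Agent.S59.LoSqC.H216

open ModularCurve HahnSeries
open Fermat.Agent.S24 Fermat.Agent.Ribet.H884 Fermat.Agent.Ribet.H158.WallQ
open Fermat.Agent.A2.Mod Fermat.Agent.Ribet.H868
open Fermat.Agent.Ribet.H704 (I6.ValAt)
open Fermat.Agent.A2.IF.H429 (inertiaField)
open Fermat.Agent.S59.LoSqC.H862

/-! ## Change of the exponent -/

section Exponent

variable {N : ℕ} [NeZero N]

/-- A Kummer generator of `y` for the exponent `m d` is a Kummer generator of `d • y` for the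
exponent `m`. -/
theorem isKummerGen_nsmul_of_mul_h216 {m d : ℕ} {f : FF N} {y : JZero N}
    (h : IsKummerGen N (m * d) f y) : IsKummerGen N m f (d • y) := by
  obtain ⟨hf0, D, rfl, hD⟩ := h
  refine ⟨hf0, d • D, rfl, fun v => ?_⟩
  rw [hD v, AddSubgroup.coe_nsmul, Finsupp.smul_apply, nsmul_eq_mul]
  push_cast
  ring

/-- `m d ∣ div g` implies `m ∣ div g`. -/
theorem divisibleDiv_of_mul_h216 {E F : Type*} [Field E] [Field F] [Algebra E F] {m d : ℕ}
    {g : F} (h : A2.DivisibleDiv E (m * d) g) : A2.DivisibleDiv E m g := by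
  intro V hV hE
  obtain ⟨h₀, u, hh₀, hu, hu', e⟩ := h V hV hE
  refine ⟨h₀ ^ d, u, pow_ne_zero _ hh₀, hu, hu', ?_⟩
  rw [e, ← pow_mul, mul_comm d m]

/-- The Galois action commutes with multiples. -/
theorem gal_smul_nsmul_h216 (τ : Kbar ≃ₐ[ℚ] Kbar) (d : ℕ) (z : JZero N) :
    τ • (d • z) = d • (τ • z) :=
  (DistribMulAction.toAddMonoidHom (JZero N) τ).map_nsmul d z

theorem gal_smul_zero_h216 (τ : Kbar ≃ₐ[ℚ] Kbar) : τ • (0 : JZero N) = 0 :=
  (DistribMulAction.toAddMonoidHom (JZero N) τ).map_zero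

theorem nsmul_galSubOne_h216 (τ : Kbar ≃ₐ[ℚ] Kbar) (d : ℕ) (z : JZero N) :
    d • (τ • z - z) = τ • (d • z) - d • z := by
  rw [nsmul_sub, gal_smul_nsmul_h216]

end Exponent

/-! ## TAU-SLOPE -/

section TauSlope

variable (p n q M' : ℕ) [NeZero M'] [NeZero q] [NeZero (q * M')]

/-- **TAU-SLOPE.**  The class `τ x - x`, `x ∈ J₀(q M')[p ^ n]`, has E-slope zero modulo
`p ^ n`. -/
theorem hasSlopeZeroGen_tau_h216 (hp : p.Prime) (hq : q.Prime) (hqM : ¬ q ∣ M')
    (hAux : S35.G.HasAux M' q) (A : ValuationSubring Kbar) (hA : A.LiesOverPrime q)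
    (hTh1 : Th1At A (inertiaField A) M' q ((q : ℕ) : RE A (inertiaField A)))
    (τ : Kbar ≃ₐ[ℚ] Kbar)
    (hfix : ∀ (j : ℕ) (z : JZero (q * M')), p ^ j • z = 0 →
      ∀ σ ∈ A.inertiaSubgroupIn ℚ, σ • (τ • z - z) = τ • z - z)
    (x : JZero (q * M')) (hx : p ^ n • x = 0) :
    HasSlopeZeroGen (p ^ n) q M' A (τ • x - x) := by
  -- the constant `s = p ^ k s'`
  have hs : 0 < (q - 1) * dedekindPsi M' :=
    Nat.mul_pos (Nat.sub_pos_of_lt hq.one_lt) (dedekindPsi_pos_of_ne_zero M' (NeZero.ne M'))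
  obtain ⟨k, s', hs', hsk⟩ := Nat.exists_eq_pow_mul_and_not_dvd hs.ne' p hp.ne_one
  -- divisibility: `x = p ^ k z`
  have hcard : ∀ j, Nat.card {y : JZero (q * M') // p ^ j • y = 0} =
      p ^ ((2 * genusFF (AlgebraicClosure ℚ) (modularFunctionFieldBar (q * M'))) * j) := by
    intro j
    rw [Fermat.Agent.S27.H145.card_torsion_JZero (q * M') (p ^ j) (pow_ne_zero _ hp.ne_zero),
      ← pow_mul, mul_comm j]
  obtain ⟨z, hz, hzx⟩ := exists_nsmul_eq_of_card_h216 hp.pos _ hcard n k x hx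
  -- the class `y' = τ z - z`
  have hy' : p ^ (n + k) • (τ • z - z) = 0 := by
    rw [nsmul_galSubOne_h216, hz, gal_smul_zero_h216, sub_zero]
  have hE : A2.GoodField A (inertiaField A) := goodField_inertiaField A q hq hA
  have hS : Setting A (inertiaField A) M' q ((q : ℕ) : RE A (inertiaField A)) :=
    setting_inertiaField A q M' hq hqM (NeZero.ne M') hA
  have hwq : ((((q : ℕ) : RE A (inertiaField A)) : inertiaField A)) = (q : inertiaField A) := by
    simp
  obtain ⟨cf, hex, -⟩ := exists_chart_vert862 A (inertiaField A) M' q _ hS hE hAux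
  obtain ⟨g, hg0, hgdiv, hgK⟩ := exists_slopeGen862 (p ^ (n + k)) q M' A (τ • z - z) hy'
    (hfix (n + k) z hz)
  obtain ⟨v₁, v₂, h1, h2⟩ := hex g hg0
  have hdivK : ∀ v : Place Kbar (FF (q * M')),
      ((p ^ (n + k) : ℕ) : ℤ) ∣ v.ord (toFF (inertiaField A) (Nat.mul_comm M' q) g) := by
    obtain ⟨-, D, -, hD⟩ := hgK
    exact fun v => ⟨_, hD v⟩
  have hrel := nodeRelE (p ^ (n + k)) q M' (pow_pos hp.pos _) hq hqM hAux A hA (inertiaField A) _
    hS hE hwq hTh1 cf g hg0 hgdiv hdivK v₁ v₂ h1 h2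
  rw [hsk] at hrel
  have hslope : ((p ^ n : ℕ) : ℤ) ∣ v₁ - v₂ := dvd_of_pow_dvd_mul_h216 hp hs' hrel
  -- the same generator, exponent `p ^ n`
  have hpow : p ^ (n + k) = p ^ n * p ^ k := pow_add p n k
  refine ⟨g, cf, v₁, v₂, hg0, ?_, ?_, h1, h2, hslope⟩
  · rw [hpow] at hgdiv
    exact divisibleDiv_of_mul_h216 hgdiv
  · rw [hpow] at hgK
    have h3 := isKummerGen_nsmul_of_mul_h216 hgK
    rwa [nsmul_galSubOne_h216, hzx] at h3

end TauSlope

end Fermat.Agent.S59.LoSqC.H216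

end
end
-- ===== PACK-END S59/LoSqC/H216/TauSlope.lean

-- ===== PACK-BEGIN S59/LoSqC/H34/FinOfSlope.lean
section






/-!
# Row S59, cell (C) LO-SQ, leaf W-COUNT / NODE-J, part 2 (helper34):
# slope `0` modulo `m`  ⟹  `FinGenQ`   (level `q M`, UNIT-FREE, any exponent `m`, `p = 3` allowed)

Level `N = M * q`, `q ∤ M`, `A` a place of `ℚ̄` over `q`, `E` a good level (`A2.GoodField A E`),
`w` a uniformiser of `R_E`, `B = chartAlg (x)` the finite chart, `cf : SSChart w B` any semistable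
structure whose components are cut out by `V∞` and `V₀ = V∞ ∘ W` (`S35.G.CutBy`).

* `NodeRegAt A E M q w`       : the component `C∞` is LOCALLY PRINCIPAL at every node
                               (= first half of the conclusion of `S36.H803.Th1Statement`);
* `SlopeZeroAt A E M q w m y` : the two vertical valuations of `y ∈ F_E(Mq)` differ by a multiple
                               of `m`;
* `pure_of_slopeZero_h34`     : `NodeRegAt` + `m ∣ div y` + `SlopeZeroAt` ⟹ `y` is pure (exponent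
                               `m`) at EVERY closed point of the special fibre of the finite chart
                               (exactly the hypothesis of `H472.nodeGenOfPure`);
* `finGenQ_of_slopeZero_h34`  : J-form: a Kummer generator `G'` (over `ℚ̄`) of a class `x` whose
                               expansion is the base change of such a `y` satisfies
                               `H158.WallQ.FinGenQ m q M A G'`; so `x ∈ finSetQ m q M A`.

Inputs from main: `S36.H987.pure_regular_abs987` (via `NodePureReg`), the model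
`S35.G.H862.model`, DICT `H472.nodeGenOfPure`, CUSP `H644.cuspPurityAux`.
-/

set_option autoImplicit false
set_option linter.style.haveILetI false
set_option linter.unusedSectionVars false
set_option linter.unusedVariables false
set_option synthInstance.maxHeartbeats 400000
set_option maxHeartbeats 1600000

noncomputable section

namespace Fermat.Agent.S59.LoSqC.H34

open ModularCurve AlgebraicCurve HahnSeries
open Fermat.Agent.A2 Fermat.Agent.A2.Alg
open Fermat.Agent.S24 Fermat.Agent.A2.H708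
open Fermat.Agent.Ribet.H884 Fermat.Agent.Ribet.H704
open Fermat.Agent.A2.Alg.H754 (LocU)

section Level

variable (A : ValuationSubring Qb) (E : IntermediateField ℚ Qb) (M q : ℕ) [NeZero M] [NeZero q]

/-- **Regularity at the nodes** of the finite chart of level `M q`: for every semistable
structure `cf` on the finite chart whose components are cut out by `V∞` and `V₀ = V∞ ∘ W`, the
component `cf.p₁` is locally principal at every node.  (First half of the conclusion of
`S36.H803.Th1Statement`; see `nodeRegAt_of_th1_h34`.) -/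
def NodeRegAt (w : Mod.RE A E) : Prop :=
  ∀ (cf : SSChart w (Mod.chartAlg A E (M * q) (Mod.xE E M q)))
    (V : ValuationSubring (Mod.FE E (M * q))) (W : Mod.FE E (M * q) ≃ₐ[E] Mod.FE E (M * q)),
    Mod.IsVinf A E (M * q) V → Mod.IsFricke E (M * q) W →
    Fermat.Agent.S35.G.CutBy w (Mod.chartAlg A E (M * q) (Mod.xE E M q)) cf V
      (V.comap (W : Mod.FE E (M * q) →+* Mod.FE E (M * q))) →
    ∀ n : Ideal (Mod.chartAlg A E (M * q) (Mod.xE E M q)), n.IsMaximal → cf.p₁ ≤ n → cf.p₂ ≤ n →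
      ∃ x₁ ∈ cf.p₁, ∀ a ∈ cf.p₁,
        ∃ g : Mod.chartAlg A E (M * q) (Mod.xE E M q), g ∉ n ∧ ∃ b, g * a = x₁ * b

/-- **Slope `0` modulo `m`**: the valuations of `y` along the two components of the finite chart
differ by a multiple of `m`. -/
def SlopeZeroAt (w : Mod.RE A E) (m : ℕ) (y : Mod.FE E (M * q)) : Prop :=
  ∀ (cf : SSChart w (Mod.chartAlg A E (M * q) (Mod.xE E M q)))
    (V : ValuationSubring (Mod.FE E (M * q))) (W : Mod.FE E (M * q) ≃ₐ[E] Mod.FE E (M * q)),
    Mod.IsVinf A E (M * q) V → Mod.IsFricke E (M * q) W →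
    Fermat.Agent.S35.G.CutBy w (Mod.chartAlg A E (M * q) (Mod.xE E M q)) cf V
      (V.comap (W : Mod.FE E (M * q) →+* Mod.FE E (M * q))) →
    ∀ v₁ v₂ : ℤ,
      I6.ValAt (Mod.FE E (M * q)) cf.p₁
        (algebraMap (Mod.RE A E) (Mod.chartAlg A E (M * q) (Mod.xE E M q)) w) y v₁ →
      I6.ValAt (Mod.FE E (M * q)) cf.p₂
        (algebraMap (Mod.RE A E) (Mod.chartAlg A E (M * q) (Mod.xE E M q)) w) y v₂ →
      (m : ℤ) ∣ v₂ - v₁

/-- `NodeRegAt` from the conclusion of `S36.H803.Th1Statement`. -/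
theorem nodeRegAt_of_th1_h34 (w : Mod.RE A E)
    (h : ∀ p₁ p₂ : Ideal (Fermat.Agent.S36.H803.Bfin A E M q),
      Fermat.Agent.S36.H803.IsComponents A E M q w p₁ p₂ →
      ∀ n : Ideal (Fermat.Agent.S36.H803.Bfin A E M q),
        Fermat.Agent.S36.H803.IsNode A E M q p₁ p₂ n →
        (∃ x₁ ∈ p₁, ∀ a ∈ p₁, ∃ g : Fermat.Agent.S36.H803.Bfin A E M q, g ∉ n ∧
          ∃ b, g * a = x₁ * b) ∧
        (∃ x₂ ∈ p₂, ∀ a ∈ p₂, ∃ g : Fermat.Agent.S36.H803.Bfin A E M q, g ∉ n ∧
          ∃ b, g * a = x₂ * b)) :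
    NodeRegAt A E M q w := by
  intro cf V W hV hW hcf n hn h₁ h₂
  exact (h cf.p₁ cf.p₂ ⟨V, W, hV, hW, fun b => hcf.cut₁ b, fun b => hcf.cut₂ b⟩ n
    ⟨hn, h₁, h₂⟩).1

/-- **PURITY of a slope-zero function** at every closed point of the special fibre of the finite
chart of level `M q` (nodes: regularity `NodeRegAt`; smooth points: the component through the
point is locally generated by `w`). -/
theorem pure_of_slopeZero_h34 (hq : q.Prime) (hqM : ¬ q ∣ M)
    (haux : Fermat.Agent.S35.G.HasAux M q) (hE : GoodField A E)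
    (w : Mod.RE A E) (hS : Mod.Setting A E M q w) (hreg : NodeRegAt A E M q w)
    (m : ℕ) (hm : 0 < m) (y : Mod.FE E (M * q)) (hy : y ≠ 0) (hdiv : DivisibleDiv E m y)
    (hslope : SlopeZeroAt A E M q w m y) :
    ∀ n : Ideal (Mod.chartAlg A E (M * q) (Mod.xE E M q)), n.IsMaximal →
      algebraMap (Mod.RE A E) (Mod.chartAlg A E (M * q) (Mod.xE E M q)) w ∈ n →
      ∃ (d : Mod.FE E (M * q)) (a : ℤ), d ≠ 0 ∧
        Alg.LocUnit (Mod.chartAlg A E (M * q) (Mod.xE E M q)) n
          (y * Mod.cE A E (M * q) w ^ a * d ^ m) := by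
  haveI : IsDiscreteValuationRing ↥(RE A E) := hE.dvr
  haveI : HenselianLocalRing ↥(RE A E) := hE.henselian
  haveI : IsAlgClosed (IsLocalRing.ResidueField ↥(RE A E)) := hE.algClosed
  have hw : Irreducible w := hS.unif
  obtain ⟨V, W, VM, hV, hW, hVM, hg1, hg2, hDeg, sf, si, cf, ci, hcf, hci⟩ :=
    Fermat.Agent.S35.G.H862.model A E M q w hS hE haux
  obtain ⟨hx, hfr, hconst⟩ := hDeg hq hqM
  have hpos : 0 < Module.finrank
      (IntermediateField.adjoin E ({Mod.xE E M q} : Set (Mod.FE E (M * q))))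
      (Mod.FE E (M * q)) := by
    rw [hfr]
    have h1 := Mod.dedekindPsi_pos_of_ne_zero M (NeZero.ne M)
    positivity
  have hfin : FiniteDimensional
      (IntermediateField.adjoin E ({Mod.xE E M q} : Set (Mod.FE E (M * q))))
      (Mod.FE E (M * q)) := Module.finite_of_finrank_pos hpos
  have hCf : ChartCtx E w (Mod.xE E M q) (Mod.chartAlg A E (M * q) (Mod.xE E M q)) :=
    ⟨hw, hx, hfin, hconst, fun _ => Iff.rfl⟩
  obtain ⟨hnoeth, hic, hfrac⟩ := H34.chart_instances' w (Mod.xE E M q) (Mod.chartAlg A E (M * q) (Mod.xE E M q)) hCf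
  haveI := hnoeth
  haveI := hic
  haveI := hfrac
  haveI hp₁ : cf.p₁.IsPrime := cf.prime₁
  haveI hp₂ : cf.p₂.IsPrime := cf.prime₂
  haveI hn₁ : IsIntegrallyClosed ((Mod.chartAlg A E (M * q) (Mod.xE E M q)) ⧸ cf.p₁) := cf.normal₁
  haveI hn₂ : IsIntegrallyClosed ((Mod.chartAlg A E (M * q) (Mod.xE E M q)) ⧸ cf.p₂) := cf.normal₂
  have hwmem : algebraMap (Mod.RE A E) (Mod.chartAlg A E (M * q) (Mod.xE E M q)) w ∈ cf.p₁ ⊓ cf.p₂ := by
    rw [cf.inf_eq]
    exact Ideal.mem_span_singleton_self _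
  have hD₁ : IsDedekindDomain ((Mod.chartAlg A E (M * q) (Mod.xE E M q)) ⧸ cf.p₁) :=
    Fermat.Agent.A2.Alg.H609.isDedekindDomain_quotient_chart w (Mod.xE E M q) (Mod.chartAlg A E (M * q) (Mod.xE E M q)) hCf cf.p₁ hwmem.1
  have hD₂ : IsDedekindDomain ((Mod.chartAlg A E (M * q) (Mod.xE E M q)) ⧸ cf.p₂) :=
    Fermat.Agent.A2.Alg.H609.isDedekindDomain_quotient_chart w (Mod.xE E M q) (Mod.chartAlg A E (M * q) (Mod.xE E M q)) hCf cf.p₂ hwmem.2
  have hw0 : algebraMap (Mod.RE A E) (Mod.chartAlg A E (M * q) (Mod.xE E M q)) w ≠ 0 :=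
    Fermat.Agent.A2.H609.ne_zero_of_inf_eq_span cf.p₁ cf.p₂ cf.inf_eq cf.not_le₁₂ cf.not_le₂₁
  have hinf' : cf.p₂ ⊓ cf.p₁ = Ideal.span {algebraMap (Mod.RE A E) (Mod.chartAlg A E (M * q) (Mod.xE E M q)) w} := by
    rw [inf_comm]
    exact cf.inf_eq
  -- the valuations
  obtain ⟨v₁, v₂, hv₁, hv₂⟩ := Fermat.Agent.Ribet.H868.exists_valAt_chart (E := E) w
    (Mod.xE E M q) (Mod.chartAlg A E (M * q) (Mod.xE E M q)) hCf cf y hy
  have hmv : (m : ℤ) ∣ v₂ - v₁ := hslope cf V W hV hW hcf v₁ v₂ hv₁ hv₂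
  have hmv' : (m : ℤ) ∣ v₁ - v₂ := by
    have := (Int.dvd_neg).2 hmv
    rwa [neg_sub] at this
  have hhor := Fermat.Agent.A2.Alg.H609.hdiv_of_divisibleDiv w hw (Mod.chartAlg A E (M * q) (Mod.xE E M q)) m y hdiv
  intro n hn hwn
  have hnp : n.IsPrime := hn.isPrime
  have hor : cf.p₁ ≤ n ∨ cf.p₂ ≤ n := by
    have hle : cf.p₁ * cf.p₂ ≤ n := by
      refine le_trans Ideal.mul_le_inf ?_
      rw [cf.inf_eq, Ideal.span_le, Set.singleton_subset_iff]
      exact hwn
    exact (Ideal.IsPrime.mul_le hnp).1 hle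
  -- local generator of a component at a point which is not on the other one
  have hsmooth : ∀ (p p' : Ideal (Mod.chartAlg A E (M * q) (Mod.xE E M q))), p ⊓ p' = Ideal.span {algebraMap (Mod.RE A E) (Mod.chartAlg A E (M * q) (Mod.xE E M q)) w} →
      ¬ p' ≤ n → ∀ a ∈ p, ∃ g : (Mod.chartAlg A E (M * q) (Mod.xE E M q)), g ∉ n ∧ ∃ c : (Mod.chartAlg A E (M * q) (Mod.xE E M q)), g * a = algebraMap (Mod.RE A E) (Mod.chartAlg A E (M * q) (Mod.xE E M q)) w * c := by
    intro p p' hinf hp'n a ha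
    obtain ⟨g, hgp', hgn⟩ := SetLike.not_le_iff_exists.1 hp'n
    refine ⟨g, hgn, ?_⟩
    have h : g * a ∈ p ⊓ p' := ⟨p.mul_mem_left g ha, p'.mul_mem_right a hgp'⟩
    rw [hinf, Ideal.mem_span_singleton] at h
    exact h
  rcases hor with h₁ | h₂
  · -- `n` on the first component
    have hgen : ∃ x₁ ∈ cf.p₁, ∀ a ∈ cf.p₁, ∃ g : (Mod.chartAlg A E (M * q) (Mod.xE E M q)), g ∉ n ∧ ∃ c : (Mod.chartAlg A E (M * q) (Mod.xE E M q)), g * a = x₁ * c := by
      by_cases h₂ : cf.p₂ ≤ n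
      · exact hreg cf V W hV hW hcf n hn h₁ h₂
      · exact ⟨_, hwmem.1, hsmooth cf.p₁ cf.p₂ cf.inf_eq h₂⟩
    obtain ⟨x₁, hx₁, hgen⟩ := hgen
    obtain ⟨d, hd0, a, b, ha, hb, hab⟩ :=
      pure_node_of_principal_h34 (F := Mod.FE E (M * q)) hw0 cf.p₁ cf.p₂ cf.inf_eq hD₁ hm hy hhor
        hv₁ hv₂ hmv n hn h₁ x₁ hx₁ hgen
    exact ⟨d, -v₁, hd0, a, b, ha, hb, hab⟩
  · -- `n` on the second component only (or both: use the second)
    by_cases h₁ : cf.p₁ ≤ n
    · obtain ⟨x₁, hx₁, hgen⟩ := hreg cf V W hV hW hcf n hn h₁ h₂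
      obtain ⟨d, hd0, a, b, ha, hb, hab⟩ :=
        pure_node_of_principal_h34 (F := Mod.FE E (M * q)) hw0 cf.p₁ cf.p₂ cf.inf_eq hD₁ hm hy
          hhor hv₁ hv₂ hmv n hn h₁ x₁ hx₁ hgen
      exact ⟨d, -v₁, hd0, a, b, ha, hb, hab⟩
    · obtain ⟨d, hd0, a, b, ha, hb, hab⟩ :=
        pure_node_of_principal_h34 (F := Mod.FE E (M * q)) hw0 cf.p₂ cf.p₁ hinf' hD₂ hm hy hhor
          hv₂ hv₁ hmv' n hn h₂ _ hwmem.2 (hsmooth cf.p₂ cf.p₁ hinf' h₁)
      exact ⟨d, -v₂, hd0, a, b, ha, hb, hab⟩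

end Level

section JForm

variable (q M m : ℕ) [NeZero M] [NeZero q] [NeZero (q * M)]

/-- **FIN-OF-SLOPE (J-form).**  A Kummer generator `G'` of a class `x ∈ J₀(qM)[m]` whose expansion
is the base change of an `E`-rational function `y` of slope `0` modulo `m` has both reductions in
`k(X₀(M))` with `m`-divisible divisors: `FinGenQ m q M A G'`. -/
theorem finGenQ_of_slopeZero_h34 (hq : q.Prime) (hqM : ¬ q ∣ M)
    (haux : Fermat.Agent.S35.G.HasAux M q) (hm : 0 < m)
    (A : ValuationSubring Kbar) (hA : A.LiesOverPrime q)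
    (E : IntermediateField ℚ Kbar) (hE : GoodField A E)
    (w : Mod.RE A E) (hS : Mod.Setting A E M q w) (hreg : NodeRegAt A E M q w)
    (y : Mod.FE E (M * q)) (hy : y ≠ 0) (hdiv : DivisibleDiv E m y)
    (hslope : SlopeZeroAt A E M q w m y)
    (G' : FF (q * M))
    (hG' : (G' : LaurentSeries Kbar) = coeffMap (algebraMap E Kbar) (y : LaurentSeries E))
    (x : JZero (q * M)) (hK : IsKummerGen (q * M) m G' x) :
    Fermat.Agent.Ribet.H158.WallQ.FinGenQ m q M A G' := by
  have hpure := pure_of_slopeZero_h34 A E M q hq hqM haux hE w hS hreg m hm y hy hdiv hslope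
  have hNG := Fermat.Agent.Ribet.H472.nodeGenOfPure hS hE m y G' hy hG' hpure
  exact Fermat.Agent.Ribet.H644.cuspPurityAux m q M hq hqM haux hm A hA G' x hK hNG

/-- … hence `x ∈ finSetQ m q M A`. -/
theorem mem_finSetQ_of_slopeZero_h34 (hq : q.Prime) (hqM : ¬ q ∣ M)
    (haux : Fermat.Agent.S35.G.HasAux M q) (hm : 0 < m)
    (A : ValuationSubring Kbar) (hA : A.LiesOverPrime q)
    (E : IntermediateField ℚ Kbar) (hE : GoodField A E)
    (w : Mod.RE A E) (hS : Mod.Setting A E M q w) (hreg : NodeRegAt A E M q w)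
    (y : Mod.FE E (M * q)) (hy : y ≠ 0) (hdiv : DivisibleDiv E m y)
    (hslope : SlopeZeroAt A E M q w m y)
    (G' : FF (q * M))
    (hG' : (G' : LaurentSeries Kbar) = coeffMap (algebraMap E Kbar) (y : LaurentSeries E))
    (x : JZero (q * M)) (hK : IsKummerGen (q * M) m G' x) :
    x ∈ Fermat.Agent.Ribet.H158.WallQ.finSetQ m q M A :=
  ⟨G', hK, finGenQ_of_slopeZero_h34 q M m hq hqM haux hm A hA E hE w hS hreg y hy hdiv hslope
    G' hG' x hK⟩

end JForm

end Fermat.Agent.S59.LoSqC.H34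

end

end
-- ===== PACK-END S59/LoSqC/H34/FinOfSlope.lean

-- ===== PACK-BEGIN S59/LoSqC/H34/NodeRelJ.lean
section




/-!
# Row S59, cell (C) LO-SQ, leaf W-COUNT / NODE-J, part 3 (helper34):
# NODE-REL in J-form, EVERY exponent `m` (`p = 3` allowed), from the E-form

Level `N = q M`, `q ∤ M` (`S35.G.HasAux M q`), `A` a place of `ℚ̄` over `q`, `I = I_A` the inertia
group, `E = ℚ̄^I` the inertia field (a good level with uniformiser `q`).

Hypotheses (both are theorems OFF-MAIN; they are HYPOTHESES here, so this file imports main only):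

* `NodeRegAt A E M q w`      : regularity at the nodes (first half of the conclusion of
                               `S36.H803.Th1Statement`, see `FinOfSlope.nodeRegAt_of_th1_h34`);
* `NodeRelEAt A E M q w m s` : NODE-REL in E-form (VERBATIM the conclusion of
                               `S59.LoSqC.H862.nodeRelE`, with `s` for `(q - 1) ψ(M)`):
                               `m ∣ s · (v₁ - v₂)` for every `f ∈ F_E^×` with `m ∣ div f`.

Results (J-form, same shape as `H955.nodeRel_nsmul_h955` / `nodeRel_colour_h955`, but for ALL `m`):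

* `nodeRelJ_nsmul_h34`  : `x ∈ J₀(qM)[m]^I  ⟹  s • x ∈ finSetQ m q M A` (hence `∈ finPartQ`);
* `nodeRelJ_colour_h34` : there is `τ : J₀(qM) → ℕ` with `τ x < s` on `J₀(qM)[m]^I` and
                          `τ x = τ x' ⟹ x - x' ∈ finSetQ m q M A`
                          (so `#(J[m]^I / 𝓕 ∩ J[m]^I) ≤ s`, `s` independent of `m`).

Tools: `ssChart_swap_h34` (the two components of a semistable chart are determined up to order),
`slopeZeroAt_of_chart_h34` (slope `0` on ONE chart structure ⟹ `SlopeZeroAt`),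
`chartCtx_fin_h34`, `exists_chart_fin_h34`.
-/

set_option autoImplicit false
set_option linter.style.haveILetI false
set_option linter.unusedSectionVars false
set_option linter.unusedVariables false
set_option synthInstance.maxHeartbeats 400000
set_option maxHeartbeats 1600000

noncomputable section

namespace Fermat.Agent.S59.LoSqC.H34

open ModularCurve AlgebraicCurve HahnSeries
open Fermat.Agent.A2 Fermat.Agent.A2.Alg
open Fermat.Agent.S24 Fermat.Agent.A2.H708
open Fermat.Agent.Ribet.H884 Fermat.Agent.Ribet.H704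
open Fermat.Agent.A2.T1.H669 (iota)
open Fermat.Agent.A2.IF.H429 (inertiaField)

/-! ## Generalities -/

section Gen

variable {R F : Type*} [CommRing R] [Field F] [Algebra R F]

/-- The two components of a semistable chart are determined up to order. -/
theorem ssChart_swap_h34 {w : R} {B : Subalgebra R F} (c c' : SSChart w B) :
    (c'.p₁ = c.p₁ ∧ c'.p₂ = c.p₂) ∨ (c'.p₁ = c.p₂ ∧ c'.p₂ = c.p₁) := by
  have hw : ∀ d : SSChart w B, algebraMap R B w ∈ d.p₁ ⊓ d.p₂ := by
    intro d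
    rw [d.inf_eq]
    exact Ideal.mem_span_singleton_self _
  have key : ∀ (d : SSChart w B) (P : Ideal B), P.IsPrime → algebraMap R B w ∈ P →
      d.p₁ ≤ P ∨ d.p₂ ≤ P := by
    intro d P hP hwP
    have hle : d.p₁ * d.p₂ ≤ P := by
      refine le_trans Ideal.mul_le_inf ?_
      rw [d.inf_eq, Ideal.span_le, Set.singleton_subset_iff]
      exact hwP
    exact (Ideal.IsPrime.mul_le hP).1 hle
  -- each component of `c'` contains a component of `c` and conversely
  have h1 := key c c'.p₁ c'.prime₁ (hw c').1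
  have h2 := key c c'.p₂ c'.prime₂ (hw c').2
  have h3 := key c' c.p₁ c.prime₁ (hw c).1
  have h4 := key c' c.p₂ c.prime₂ (hw c).2
  have n1 := c.not_le₁₂
  have n2 := c.not_le₂₁
  have n3 := c'.not_le₁₂
  have n4 := c'.not_le₂₁
  rcases h1 with a | a
  · -- `c.p₁ ≤ c'.p₁`
    have e1 : c'.p₁ = c.p₁ := by
      rcases h3 with b | b
      · exact le_antisymm b a
      · exact absurd (le_trans b a) n4
    have e2 : c'.p₂ = c.p₂ := by
      rcases h2 with b | b
      · exact absurd (e1 ▸ b) n3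
      · rcases h4 with d | d
        · exact absurd (e1 ▸ d) n1
        · exact le_antisymm d b
    exact Or.inl ⟨e1, e2⟩
  · -- `c.p₂ ≤ c'.p₁`
    have e1 : c'.p₁ = c.p₂ := by
      rcases h4 with b | b
      · exact le_antisymm b a
      · exact absurd (le_trans b a) n4
    have e2 : c'.p₂ = c.p₁ := by
      rcases h2 with b | b
      · rcases h3 with d | d
        · exact absurd (e1 ▸ d) n2
        · exact le_antisymm d b
      · exact absurd (e1 ▸ b) n3
    exact Or.inr ⟨e1, e2⟩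

variable {E : Type*} [Field E] [Algebra E F]

theorem divisibleDiv_pow_h34 (m : ℕ) (f : F) (hf : DivisibleDiv E m f) (k : ℕ) :
    DivisibleDiv E m (f ^ k) := by
  intro V hV hE
  obtain ⟨h, u, hh, hu, hu', rfl⟩ := hf V hV hE
  refine ⟨h ^ k, u ^ k, pow_ne_zero _ hh, pow_mem hu k, ?_, ?_⟩
  · rw [← inv_pow]
    exact pow_mem hu' k
  · rw [mul_pow, ← pow_mul, ← pow_mul, mul_comm m k]

theorem divisibleDiv_mul_inv_h34 (m : ℕ) (f g : F) (hf : DivisibleDiv E m f)
    (hg : DivisibleDiv E m g) : DivisibleDiv E m (f * g⁻¹) := by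
  intro V hV hE
  obtain ⟨h, u, hh, hu, hu', rfl⟩ := hf V hV hE
  obtain ⟨h', u', hh', hv, hv', rfl⟩ := hg V hV hE
  refine ⟨h * h'⁻¹, u * u'⁻¹, mul_ne_zero hh (inv_ne_zero hh'), V.mul_mem _ _ hu hv', ?_, ?_⟩
  · rw [mul_inv, inv_inv]
    exact V.mul_mem _ _ hu' hv
  · rw [mul_pow, mul_inv, inv_pow]
    ring

end Gen

/-! ## The finite chart of level `M q` -/

section Level

variable (A : ValuationSubring _root_.Fermat.Agent.A2.Qb) (E : IntermediateField ℚ _root_.Fermat.Agent.A2.Qb) (M q : ℕ) [NeZero M] [NeZero q]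

/-- The finite chart of level `M q` is a chart, and carries a semistable structure. -/
theorem exists_chart_fin_h34 (hq : q.Prime) (hqM : ¬ q ∣ M)
    (haux : Fermat.Agent.S35.G.HasAux M q) (hE : GoodField A E)
    (w : Mod.RE A E) (hS : Mod.Setting A E M q w) :
    ChartCtx E w (Mod.xE E M q) (Mod.chartAlg A E (M * q) (Mod.xE E M q)) ∧
      Nonempty (SSChart w (Mod.chartAlg A E (M * q) (Mod.xE E M q))) := by
  haveI : IsDiscreteValuationRing ↥(RE A E) := hE.dvr
  haveI : HenselianLocalRing ↥(RE A E) := hE.henselian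
  haveI : IsAlgClosed (IsLocalRing.ResidueField ↥(RE A E)) := hE.algClosed
  have hw : Irreducible w := hS.unif
  obtain ⟨V, W, VM, hV, hW, hVM, hg1, hg2, hDeg, sf, si, cf, ci, hcf, hci⟩ :=
    Fermat.Agent.S35.G.H862.model A E M q w hS hE haux
  obtain ⟨hx, hfr, hconst⟩ := hDeg hq hqM
  have hpos : 0 < Module.finrank
      (IntermediateField.adjoin E ({Mod.xE E M q} : Set (Mod.FE E (M * q))))
      (Mod.FE E (M * q)) := by
    rw [hfr]
    have h1 := Mod.dedekindPsi_pos_of_ne_zero M (NeZero.ne M)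
    positivity
  have hfin : FiniteDimensional
      (IntermediateField.adjoin E ({Mod.xE E M q} : Set (Mod.FE E (M * q))))
      (Mod.FE E (M * q)) := Module.finite_of_finrank_pos hpos
  exact ⟨⟨hw, hx, hfin, hconst, fun _ => Iff.rfl⟩, ⟨cf⟩⟩

/-- Slope `0` modulo `m` on ONE semistable structure of the finite chart ⟹ `SlopeZeroAt`. -/
theorem slopeZeroAt_of_chart_h34 (hE : GoodField A E) (w : Mod.RE A E)
    (hC : ChartCtx E w (Mod.xE E M q) (Mod.chartAlg A E (M * q) (Mod.xE E M q)))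
    (c : SSChart w (Mod.chartAlg A E (M * q) (Mod.xE E M q)))
    (m : ℕ) (y : Mod.FE E (M * q)) (v₁ v₂ : ℤ)
    (hv₁ : I6.ValAt (Mod.FE E (M * q)) c.p₁
      (algebraMap (Mod.RE A E) (Mod.chartAlg A E (M * q) (Mod.xE E M q)) w) y v₁)
    (hv₂ : I6.ValAt (Mod.FE E (M * q)) c.p₂
      (algebraMap (Mod.RE A E) (Mod.chartAlg A E (M * q) (Mod.xE E M q)) w) y v₂)
    (h : (m : ℤ) ∣ v₁ - v₂) : SlopeZeroAt A E M q w m y := by
  haveI : IsDiscreteValuationRing ↥(RE A E) := hE.dvr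
  obtain ⟨hnoeth, hic, hfrac⟩ := H34.chart_instances' w (Mod.xE E M q)
    (Mod.chartAlg A E (M * q) (Mod.xE E M q)) hC
  haveI := hnoeth
  haveI := hic
  haveI := hfrac
  haveI hp₁ : c.p₁.IsPrime := c.prime₁
  haveI hp₂ : c.p₂.IsPrime := c.prime₂
  have hw0 : algebraMap (Mod.RE A E) (Mod.chartAlg A E (M * q) (Mod.xE E M q)) w ≠ 0 :=
    Fermat.Agent.A2.H609.ne_zero_of_inf_eq_span c.p₁ c.p₂ c.inf_eq c.not_le₁₂ c.not_le₂₁
  have hV₁ : Fermat.Agent.A2.Alg.H132.VertData
      (algebraMap (Mod.RE A E) (Mod.chartAlg A E (M * q) (Mod.xE E M q)) w) c.p₁ c.p₂ :=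
    ⟨c.prime₁, hw0, c.not_le₂₁, c.inf_eq⟩
  have hV₂ : Fermat.Agent.A2.Alg.H132.VertData
      (algebraMap (Mod.RE A E) (Mod.chartAlg A E (M * q) (Mod.xE E M q)) w) c.p₂ c.p₁ :=
    ⟨c.prime₂, hw0, c.not_le₁₂, by rw [inf_comm]; exact c.inf_eq⟩
  intro cf V W hV hW hcf u₁ u₂ hu₁ hu₂
  rcases ssChart_swap_h34 c cf with ⟨e1, e2⟩ | ⟨e1, e2⟩
  · rw [e1] at hu₁
    rw [e2] at hu₂
    have a1 := Fermat.Agent.Ribet.H132.valAt_unique hV₁ hu₁ hv₁
    have a2 := Fermat.Agent.Ribet.H132.valAt_unique hV₂ hu₂ hv₂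
    rw [a1, a2]
    have := (Int.dvd_neg).2 h
    rwa [neg_sub] at this
  · rw [e1] at hu₁
    rw [e2] at hu₂
    have a1 := Fermat.Agent.Ribet.H132.valAt_unique hV₂ hu₁ hv₂
    have a2 := Fermat.Agent.Ribet.H132.valAt_unique hV₁ hu₂ hv₁
    rw [a1, a2]
    exact h

end Level

/-! ## Kummer generators with a slope -/

section Slope

variable (q M m : ℕ) [NeZero M] [NeZero q] [NeZero (q * M)]
variable (A : ValuationSubring Kbar) (E : IntermediateField ℚ Kbar)

/-- **NODE-REL, E-form**, as a hypothesis: VERBATIM the conclusion of `S59.LoSqC.H862.nodeRelE`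
(quantified over the chart structure and the function), with a general constant `s` in place of
`(q - 1) ψ(M)`. -/
def NodeRelEAt (w : Mod.RE A E) (s : ℕ) : Prop :=
  ∀ (cf : SSChart w (Mod.chartAlg A E (M * q) (Mod.xE E M q)))
    (f : Mod.FE E (M * q)), f ≠ 0 → DivisibleDiv E m f →
    (∀ v : Place Kbar (FF (q * M)),
      (m : ℤ) ∣ v.ord (Fermat.Agent.Ribet.H868.toFF E (Nat.mul_comm M q) f)) →
    ∀ v₁ v₂ : ℤ,
      I6.ValAt (Mod.FE E (M * q)) cf.p₁
        (algebraMap (Mod.RE A E) (Mod.chartAlg A E (M * q) (Mod.xE E M q)) w) f v₁ →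
      I6.ValAt (Mod.FE E (M * q)) cf.p₂
        (algebraMap (Mod.RE A E) (Mod.chartAlg A E (M * q) (Mod.xE E M q)) w) f v₂ →
      (m : ℤ) ∣ (s : ℤ) * (v₁ - v₂)

/-- `y ∈ F_E(Mq)` is an `E`-rational Kummer generator (exponent `m`) of the class `x`, of slope
`e = v₁ - v₂` with respect to the chart structure `c`. -/
def KummerSlopeAt (w : Mod.RE A E)
    (c : SSChart w (Mod.chartAlg A E (M * q) (Mod.xE E M q)))
    (x : JZero (q * M)) (y : Mod.FE E (M * q)) (e : ℤ) : Prop :=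
  y ≠ 0 ∧ IsKummerGen (q * M) m (Fermat.Agent.Ribet.H868.toFF E (Nat.mul_comm M q) y) x ∧
    DivisibleDiv E m y ∧
    ∃ v₁ v₂ : ℤ,
      I6.ValAt (Mod.FE E (M * q)) c.p₁
        (algebraMap (Mod.RE A E) (Mod.chartAlg A E (M * q) (Mod.xE E M q)) w) y v₁ ∧
      I6.ValAt (Mod.FE E (M * q)) c.p₂
        (algebraMap (Mod.RE A E) (Mod.chartAlg A E (M * q) (Mod.xE E M q)) w) y v₂ ∧
      e = v₁ - v₂

variable {q M m A E}

/-- The slope of a Kummer generator is killed by `s` modulo `m`. -/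
theorem KummerSlopeAt.dvd_h34 {w : Mod.RE A E}
    {c : SSChart w (Mod.chartAlg A E (M * q) (Mod.xE E M q))}
    {x : JZero (q * M)} {y : Mod.FE E (M * q)} {e : ℤ}
    (h : KummerSlopeAt q M m A E w c x y e) {s : ℕ} (hrel : NodeRelEAt q M m A E w s) :
    (m : ℤ) ∣ (s : ℤ) * e := by
  obtain ⟨hy, hK, hdiv, v₁, v₂, hv₁, hv₂, rfl⟩ := h
  refine hrel c y hy hdiv (fun v => ?_) v₁ v₂ hv₁ hv₂
  obtain ⟨-, D, -, hord⟩ := hK
  rw [hord v]
  exact dvd_mul_right _ _

/-- Powers. -/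
theorem KummerSlopeAt.pow_h34 (hE : GoodField A E) {w : Mod.RE A E}
    (hC : ChartCtx E w (Mod.xE E M q) (Mod.chartAlg A E (M * q) (Mod.xE E M q)))
    {c : SSChart w (Mod.chartAlg A E (M * q) (Mod.xE E M q))}
    {x : JZero (q * M)} {y : Mod.FE E (M * q)} {e : ℤ}
    (h : KummerSlopeAt q M m A E w c x y e) (k : ℕ) :
    KummerSlopeAt q M m A E w c (k • x) (y ^ k) ((k : ℤ) * e) := by
  haveI : IsDiscreteValuationRing ↥(RE A E) := hE.dvr
  obtain ⟨hnoeth, hic, hfrac⟩ := H34.chart_instances' w (Mod.xE E M q)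
    (Mod.chartAlg A E (M * q) (Mod.xE E M q)) hC
  haveI := hnoeth
  haveI := hic
  haveI := hfrac
  haveI hp₁ : c.p₁.IsPrime := c.prime₁
  haveI hp₂ : c.p₂.IsPrime := c.prime₂
  have hw0 : algebraMap (Mod.RE A E) (Mod.chartAlg A E (M * q) (Mod.xE E M q)) w ≠ 0 :=
    Fermat.Agent.A2.H609.ne_zero_of_inf_eq_span c.p₁ c.p₂ c.inf_eq c.not_le₁₂ c.not_le₂₁
  have hV₁ : Fermat.Agent.A2.Alg.H132.VertData
      (algebraMap (Mod.RE A E) (Mod.chartAlg A E (M * q) (Mod.xE E M q)) w) c.p₁ c.p₂ :=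
    ⟨c.prime₁, hw0, c.not_le₂₁, c.inf_eq⟩
  have hV₂ : Fermat.Agent.A2.Alg.H132.VertData
      (algebraMap (Mod.RE A E) (Mod.chartAlg A E (M * q) (Mod.xE E M q)) w) c.p₂ c.p₁ :=
    ⟨c.prime₂, hw0, c.not_le₁₂, by rw [inf_comm]; exact c.inf_eq⟩
  obtain ⟨hy, hK, hdiv, v₁, v₂, hv₁, hv₂, rfl⟩ := h
  refine ⟨pow_ne_zero _ hy, ?_, divisibleDiv_pow_h34 m y hdiv k, (k : ℤ) * v₁, (k : ℤ) * v₂,
    Fermat.Agent.Ribet.H132.valAt_pow hV₁ hv₁ k, Fermat.Agent.Ribet.H132.valAt_pow hV₂ hv₂ k,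
    by ring⟩
  rw [map_pow]
  exact hK.pow k

/-- Quotients. -/
theorem KummerSlopeAt.mul_inv_h34 (hE : GoodField A E) {w : Mod.RE A E}
    (hC : ChartCtx E w (Mod.xE E M q) (Mod.chartAlg A E (M * q) (Mod.xE E M q)))
    {c : SSChart w (Mod.chartAlg A E (M * q) (Mod.xE E M q))}
    {x x' : JZero (q * M)} {y y' : Mod.FE E (M * q)} {e e' : ℤ}
    (h : KummerSlopeAt q M m A E w c x y e) (h' : KummerSlopeAt q M m A E w c x' y' e') :
    KummerSlopeAt q M m A E w c (x - x') (y * y'⁻¹) (e - e') := by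
  haveI : IsDiscreteValuationRing ↥(RE A E) := hE.dvr
  obtain ⟨hnoeth, hic, hfrac⟩ := H34.chart_instances' w (Mod.xE E M q)
    (Mod.chartAlg A E (M * q) (Mod.xE E M q)) hC
  haveI := hnoeth
  haveI := hic
  haveI := hfrac
  haveI hp₁ : c.p₁.IsPrime := c.prime₁
  haveI hp₂ : c.p₂.IsPrime := c.prime₂
  have hw0 : algebraMap (Mod.RE A E) (Mod.chartAlg A E (M * q) (Mod.xE E M q)) w ≠ 0 :=
    Fermat.Agent.A2.H609.ne_zero_of_inf_eq_span c.p₁ c.p₂ c.inf_eq c.not_le₁₂ c.not_le₂₁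
  have hV₁ : Fermat.Agent.A2.Alg.H132.VertData
      (algebraMap (Mod.RE A E) (Mod.chartAlg A E (M * q) (Mod.xE E M q)) w) c.p₁ c.p₂ :=
    ⟨c.prime₁, hw0, c.not_le₂₁, c.inf_eq⟩
  have hV₂ : Fermat.Agent.A2.Alg.H132.VertData
      (algebraMap (Mod.RE A E) (Mod.chartAlg A E (M * q) (Mod.xE E M q)) w) c.p₂ c.p₁ :=
    ⟨c.prime₂, hw0, c.not_le₁₂, by rw [inf_comm]; exact c.inf_eq⟩
  obtain ⟨hy, hK, hdiv, v₁, v₂, hv₁, hv₂, rfl⟩ := h
  obtain ⟨hy', hK', hdiv', v₁', v₂', hv₁', hv₂', rfl⟩ := h'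
  refine ⟨mul_ne_zero hy (inv_ne_zero hy'), ?_, divisibleDiv_mul_inv_h34 m y y' hdiv hdiv',
    v₁ + -v₁', v₂ + -v₂',
    Fermat.Agent.Ribet.H132.valAt_mul hV₁ hv₁ (Fermat.Agent.Ribet.H132.valAt_inv hV₁ hv₁'),
    Fermat.Agent.Ribet.H132.valAt_mul hV₂ hv₂ (Fermat.Agent.Ribet.H132.valAt_inv hV₂ hv₂'),
    by ring⟩
  rw [map_mul, map_inv₀, sub_eq_add_neg]
  exact hK.mul hK'.inv

end Slope

/-! ## The J-form -/

section JForm

variable (q M m : ℕ) [NeZero M] [NeZero q] [NeZero (q * M)]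

/-- A class with an `E`-rational Kummer generator of slope `≡ 0` modulo `m` lies in `finSetQ`. -/
theorem mem_finSetQ_of_kummerSlope_h34 (hq : q.Prime) (hqM : ¬ q ∣ M)
    (haux : Fermat.Agent.S35.G.HasAux M q) (hm : 0 < m)
    (A : ValuationSubring Kbar) (hA : A.LiesOverPrime q)
    (E : IntermediateField ℚ Kbar) (hE : GoodField A E)
    (w : Mod.RE A E) (hS : Mod.Setting A E M q w) (hreg : NodeRegAt A E M q w)
    (c : SSChart w (Mod.chartAlg A E (M * q) (Mod.xE E M q)))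
    (x : JZero (q * M)) (y : Mod.FE E (M * q)) (e : ℤ)
    (h : KummerSlopeAt q M m A E w c x y e) (hme : (m : ℤ) ∣ e) :
    x ∈ Fermat.Agent.Ribet.H158.WallQ.finSetQ m q M A := by
  obtain ⟨hC, -⟩ := exists_chart_fin_h34 A E M q hq hqM haux hE w hS
  obtain ⟨hy, hK, hdiv, v₁, v₂, hv₁, hv₂, rfl⟩ := h
  have hslope := slopeZeroAt_of_chart_h34 A E M q hE w hC c m y v₁ v₂ hv₁ hv₂ hme
  exact mem_finSetQ_of_slopeZero_h34 q M m hq hqM haux hm A hA E hE w hS hreg y hy hdiv hslope _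
    (Fermat.Agent.Ribet.H868.coe_toFF E (Nat.mul_comm M q) y) x hK

/-- **Descent**: an inertia-fixed `m`-torsion class has a Kummer generator over the inertia field
(with a slope). -/
theorem exists_kummerSlopeAt_h34 (hq : q.Prime) (hqM : ¬ q ∣ M)
    (haux : Fermat.Agent.S35.G.HasAux M q)
    (A : ValuationSubring Kbar) (hA : A.LiesOverPrime q)
    (c : SSChart ((q : ℕ) : Mod.RE A (inertiaField A))
      (Mod.chartAlg A (inertiaField A) (M * q) (Mod.xE (inertiaField A) M q)))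
    (x : JZero (q * M)) (hx : m • x = 0)
    (hfix : ∀ σ ∈ A.inertiaSubgroupIn ℚ, σ • x = x) :
    ∃ (y : Mod.FE (inertiaField A) (M * q)) (e : ℤ),
      KummerSlopeAt q M m A (inertiaField A) ((q : ℕ) : Mod.RE A (inertiaField A)) c x y e := by
  have hE : GoodField A (inertiaField A) :=
    Fermat.Agent.Ribet.H868.goodField_inertiaField A q hq hA
  have hS : Mod.Setting A (inertiaField A) M q ((q : ℕ) : Mod.RE A (inertiaField A)) :=
    Fermat.Agent.Ribet.H868.setting_inertiaField A q M hq hqM (NeZero.ne M) hA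
  haveI : IsDiscreteValuationRing ↥(Mod.RE A (inertiaField A)) := hE.dvr
  obtain ⟨hC, -⟩ := exists_chart_fin_h34 A (inertiaField A) M q hq hqM haux hE _ hS
  obtain ⟨y, hy0, hkum, hdiv⟩ :=
    Fermat.Agent.Ribet.H868.exists_fixed_kummerGen (q * M) m A x hx hfix
  have hy'0 : Fermat.Agent.Ribet.H868.castLevelE (inertiaField A) (Nat.mul_comm q M) y ≠ 0 :=
    (map_ne_zero_iff _
      (Fermat.Agent.Ribet.H868.castLevelE (inertiaField A) (Nat.mul_comm q M)).injective).mpr hy0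
  have hdiv' := Fermat.Agent.Ribet.H868.divisibleDiv_castLevelE (inertiaField A)
    (Nat.mul_comm q M) m y hdiv
  obtain ⟨v₁, v₂, hv₁, hv₂⟩ := Fermat.Agent.Ribet.H868.exists_valAt_chart (E := inertiaField A)
    ((q : ℕ) : Mod.RE A (inertiaField A)) (Mod.xE (inertiaField A) M q)
    (Mod.chartAlg A (inertiaField A) (M * q) (Mod.xE (inertiaField A) M q)) hC c _ hy'0
  refine ⟨_, v₁ - v₂, hy'0, ?_, hdiv', v₁, v₂, hv₁, hv₂, rfl⟩
  rw [Fermat.Agent.Ribet.H868.toFF_castLevelE (inertiaField A) (Nat.mul_comm M q) y]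
  exact hkum

/-- **NODE-REL, J-form, every exponent `m`**: `s` kills `J₀(qM)[m]^I` modulo the classes of slope
`0`.  (`hreg`, `hrel` at the inertia field with uniformiser `q`.) -/
theorem nodeRelJ_nsmul_h34 (hq : q.Prime) (hqM : ¬ q ∣ M)
    (haux : Fermat.Agent.S35.G.HasAux M q) (hm : 0 < m)
    (A : ValuationSubring Kbar) (hA : A.LiesOverPrime q)
    (hreg : NodeRegAt A (inertiaField A) M q ((q : ℕ) : Mod.RE A (inertiaField A)))
    (s : ℕ)
    (hrel : NodeRelEAt q M m A (inertiaField A) ((q : ℕ) : Mod.RE A (inertiaField A)) s)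
    (x : JZero (q * M)) (hx : m • x = 0)
    (hfix : ∀ σ ∈ A.inertiaSubgroupIn ℚ, σ • x = x) :
    s • x ∈ Fermat.Agent.Ribet.H158.WallQ.finSetQ m q M A := by
  have hE : GoodField A (inertiaField A) :=
    Fermat.Agent.Ribet.H868.goodField_inertiaField A q hq hA
  have hS : Mod.Setting A (inertiaField A) M q ((q : ℕ) : Mod.RE A (inertiaField A)) :=
    Fermat.Agent.Ribet.H868.setting_inertiaField A q M hq hqM (NeZero.ne M) hA
  obtain ⟨hC, ⟨c⟩⟩ := exists_chart_fin_h34 A (inertiaField A) M q hq hqM haux hE _ hS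
  obtain ⟨y, e, h⟩ := exists_kummerSlopeAt_h34 q M m hq hqM haux A hA c x hx hfix
  exact mem_finSetQ_of_kummerSlope_h34 q M m hq hqM haux hm A hA (inertiaField A) hE _ hS hreg c
    (s • x) (y ^ s) ((s : ℤ) * e) (h.pow_h34 hE hC s) (h.dvd_h34 hrel)

/-- … in `finPartQ`. -/
theorem nodeRelJ_nsmul_finPartQ_h34 (hq : q.Prime) (hqM : ¬ q ∣ M)
    (haux : Fermat.Agent.S35.G.HasAux M q) (hm : 0 < m)
    (A : ValuationSubring Kbar) (hA : A.LiesOverPrime q)
    (hreg : NodeRegAt A (inertiaField A) M q ((q : ℕ) : Mod.RE A (inertiaField A)))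
    (s : ℕ)
    (hrel : NodeRelEAt q M m A (inertiaField A) ((q : ℕ) : Mod.RE A (inertiaField A)) s)
    (x : JZero (q * M)) (hx : m • x = 0)
    (hfix : ∀ σ ∈ A.inertiaSubgroupIn ℚ, σ • x = x) :
    s • x ∈ Fermat.Agent.Ribet.H158.WallQ.finPartQ m q M A :=
  AddSubgroup.subset_closure
    (nodeRelJ_nsmul_h34 q M m hq hqM haux hm A hA hreg s hrel x hx hfix)

/-- **NODE-REL, J-form, colouring**: `#(J₀(qM)[m]^I / 𝓕 ∩ J₀(qM)[m]^I) ≤ s`, every `m`. -/
theorem nodeRelJ_colour_h34 (hq : q.Prime) (hqM : ¬ q ∣ M)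
    (haux : Fermat.Agent.S35.G.HasAux M q) (hm : 0 < m)
    (A : ValuationSubring Kbar) (hA : A.LiesOverPrime q)
    (hreg : NodeRegAt A (inertiaField A) M q ((q : ℕ) : Mod.RE A (inertiaField A)))
    (s : ℕ) (hs : 0 < s)
    (hrel : NodeRelEAt q M m A (inertiaField A) ((q : ℕ) : Mod.RE A (inertiaField A)) s) :
    ∃ τ : JZero (q * M) → ℕ,
      ∀ x : JZero (q * M), m • x = 0 → (∀ σ ∈ A.inertiaSubgroupIn ℚ, σ • x = x) →
        τ x < s ∧
        ∀ x' : JZero (q * M), m • x' = 0 → (∀ σ ∈ A.inertiaSubgroupIn ℚ, σ • x' = x') →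
          τ x = τ x' → x - x' ∈ Fermat.Agent.Ribet.H158.WallQ.finSetQ m q M A := by
  have hE : GoodField A (inertiaField A) :=
    Fermat.Agent.Ribet.H868.goodField_inertiaField A q hq hA
  have hS : Mod.Setting A (inertiaField A) M q ((q : ℕ) : Mod.RE A (inertiaField A)) :=
    Fermat.Agent.Ribet.H868.setting_inertiaField A q M hq hqM (NeZero.ne M) hA
  obtain ⟨hC, ⟨c⟩⟩ := exists_chart_fin_h34 A (inertiaField A) M q hq hqM haux hE _ hS
  have hsZ : (0 : ℤ) < (s : ℤ) := by exact_mod_cast hs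
  have hmZ : (m : ℤ) ≠ 0 := by exact_mod_cast hm.ne'
  -- the chosen data
  have hex : ∀ x : JZero (q * M), ∃ (y : Mod.FE (inertiaField A) (M * q)) (e : ℤ),
      (m • x = 0 ∧ ∀ σ ∈ A.inertiaSubgroupIn ℚ, σ • x = x) →
        KummerSlopeAt q M m A (inertiaField A) ((q : ℕ) : Mod.RE A (inertiaField A)) c x y e := by
    intro x
    by_cases hx : m • x = 0 ∧ ∀ σ ∈ A.inertiaSubgroupIn ℚ, σ • x = x
    · obtain ⟨y, e, h⟩ := exists_kummerSlopeAt_h34 q M m hq hqM haux A hA c x hx.1 hx.2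
      exact ⟨y, e, fun _ => h⟩
    · exact ⟨1, 0, fun h => absurd h hx⟩
  choose Y e hYe using hex
  refine ⟨fun x => ((e x * (s : ℤ) / (m : ℤ)) % (s : ℤ)).toNat, fun x hx hfix => ⟨?_, ?_⟩⟩
  · have h1 : 0 ≤ (e x * (s : ℤ) / (m : ℤ)) % (s : ℤ) := Int.emod_nonneg _ hsZ.ne'
    have h2 : (e x * (s : ℤ) / (m : ℤ)) % (s : ℤ) < (s : ℤ) := Int.emod_lt_of_pos _ hsZ
    show ((e x * (s : ℤ) / (m : ℤ)) % (s : ℤ)).toNat < s
    omega
  · intro x' hx' hfix' hτ
    have hT1 := hYe x ⟨hx, hfix⟩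
    have hT2 := hYe x' ⟨hx', hfix'⟩
    obtain ⟨t, ht⟩ := hT1.dvd_h34 hrel
    obtain ⟨t', ht'⟩ := hT2.dvd_h34 hrel
    have e1 : e x * (s : ℤ) / (m : ℤ) = t := by
      rw [mul_comm, ht, Int.mul_ediv_cancel_left _ hmZ]
    have e2 : e x' * (s : ℤ) / (m : ℤ) = t' := by
      rw [mul_comm, ht', Int.mul_ediv_cancel_left _ hmZ]
    have h1 : 0 ≤ t % (s : ℤ) := Int.emod_nonneg _ hsZ.ne'
    have h2 : 0 ≤ t' % (s : ℤ) := Int.emod_nonneg _ hsZ.ne'
    have hτ' : (t % (s : ℤ)).toNat = (t' % (s : ℤ)).toNat := by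
      have := hτ
      simp only [e1, e2] at this
      exact this
    have h3 : t % (s : ℤ) = t' % (s : ℤ) := by omega
    have h4 : (s : ℤ) ∣ t - t' :=
      Int.ModEq.dvd (show t' ≡ t [ZMOD (s : ℤ)] from h3.symm)
    obtain ⟨k, hk⟩ := h4
    have h5 : (m : ℤ) ∣ e x - e x' := by
      refine ⟨k, ?_⟩
      have h6 : (s : ℤ) * (e x - e x') = (s : ℤ) * ((m : ℤ) * k) := by
        have : (s : ℤ) * (e x - e x') = (m : ℤ) * (t - t') := by
          rw [mul_sub, ht, ht']
          ring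
        rw [this, hk]
        ring
      exact mul_left_cancel₀ hsZ.ne' h6
    exact mem_finSetQ_of_kummerSlope_h34 q M m hq hqM haux hm A hA (inertiaField A) hE _ hS hreg
      c (x - x') (Y x * (Y x')⁻¹) (e x - e x') (hT1.mul_inv_h34 hE hC hT2) h5

end JForm

/-! ## Counting form (Mathlib only) -/

section Count

variable {G : Type*} [AddCommGroup G]

/-- From a colouring to a count: if `τ < s` on `I` and equal colours differ by an element of the
finite subgroup `F`, then `#I ≤ s · #F`. -/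
theorem card_le_of_colour_h34 (I F : AddSubgroup G) [Finite F] (s : ℕ) (τ : G → ℕ)
    (hτ : ∀ x ∈ I, τ x < s) (hd : ∀ x ∈ I, ∀ x' ∈ I, τ x = τ x' → x - x' ∈ F) :
    Nat.card I ≤ s * Nat.card F := by
  classical
  -- a representative of each colour
  have hrep : ∀ t : Fin s, ∃ x₀ : G, (∃ x ∈ I, τ x = t) → (x₀ ∈ I ∧ τ x₀ = t) := by
    intro t
    by_cases h : ∃ x ∈ I, τ x = t
    · obtain ⟨x, hx, hxt⟩ := h
      exact ⟨x, fun _ => ⟨hx, hxt⟩⟩
    · exact ⟨0, fun h' => absurd h' h⟩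
  choose r hr using hrep
  let f : I → Fin s × F := fun x =>
    (⟨τ x, hτ x x.2⟩,
      ⟨(x : G) - r ⟨τ x, hτ x x.2⟩,
        hd x x.2 _ (hr ⟨τ x, hτ x x.2⟩ ⟨x, x.2, rfl⟩).1
          (hr ⟨τ x, hτ x x.2⟩ ⟨x, x.2, rfl⟩).2.symm⟩)
  have hf : Function.Injective f := by
    intro x x' h
    have h1 : (⟨τ x, hτ x x.2⟩ : Fin s) = ⟨τ x', hτ x' x'.2⟩ := congrArg Prod.fst h
    have h2 : (x : G) - r ⟨τ x, hτ x x.2⟩ = (x' : G) - r ⟨τ x', hτ x' x'.2⟩ :=
      congrArg (fun z => ((z.2 : F) : G)) h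
    rw [h1] at h2
    exact Subtype.ext (sub_left_injective h2)
  have := Nat.card_le_card_of_injective f hf
  rwa [Nat.card_prod, Nat.card_fin] at this

end Count

end Fermat.Agent.S59.LoSqC.H34

end

end
-- ===== PACK-END S59/LoSqC/H34/NodeRelJ.lean

-- ===== PACK-BEGIN S59/LoSqC/H34/NodeRelJ862.lean
section



/-!
# Row S59, cell (C) LO-SQ, leaf W-COUNT / NODE-J, part 4 (helper34):
# NODE-REL in J-form for EVERY exponent `m`, from thickness one at the inertia field

`NodeRelJ.lean` (hypothesis form) instantiated with `S59.LoSqC.H862.nodeRelE` (helper862,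
origin/helper862): the ONLY remaining hypothesis is

  `hTh1 : H862.Th1At A (inertiaField A) M q q`
     = the conclusion of `S36.H803.Th1Statement` at the inertia field with uniformiser `q`.

With `s = (q - 1) ψ(M)`, for every `m > 0` (`m = 3 ^ n` included):

* `nodeRelJ_th1_nsmul_h34`  : `x ∈ J₀(qM)[m]^I ⟹ s • x ∈ finPartQ m q M A`;
* `nodeRelJ_th1_colour_h34` : colouring `τ < s` on `J₀(qM)[m]^I`, equal colours differ by an
                              element of `finPartQ m q M A`;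
* `nodeRelJ_th1_card_h34`   : `#I ≤ s · #F` for subgroups `I ⊆ J₀(qM)[m]^I`, `F ⊇ finSetQ` finite.
-/

set_option autoImplicit false
set_option linter.style.haveILetI false
set_option linter.unusedSectionVars false
set_option linter.unusedVariables false
set_option synthInstance.maxHeartbeats 400000
set_option maxHeartbeats 1600000

noncomputable section

namespace Fermat.Agent.S59.LoSqC.H34

open ModularCurve AlgebraicCurve HahnSeries
open Fermat.Agent.A2 Fermat.Agent.A2.Alg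
open Fermat.Agent.S24 Fermat.Agent.A2.H708
open Fermat.Agent.Ribet.H884 Fermat.Agent.Ribet.H704
open Fermat.Agent.A2.IF.H429 (inertiaField)

variable (q M m : ℕ) [NeZero M] [NeZero q] [NeZero (q * M)]

/-- `NodeRegAt` from `H862.Th1At`. -/
theorem nodeRegAt_of_th1At_h34 (A : ValuationSubring Kbar) (E : IntermediateField ℚ Kbar)
    (w : Mod.RE A E) (h : Fermat.Agent.S59.LoSqC.H862.Th1At A E M q w) :
    NodeRegAt A E M q w :=
  nodeRegAt_of_th1_h34 A E M q w h

/-- `NodeRelEAt` with `s = (q - 1) ψ(M)` from `H862.nodeRelE`. -/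
theorem nodeRelEAt_of_th1At_h34 (hm : 0 < m) (hq : q.Prime) (hqM : ¬ q ∣ M)
    (haux : Fermat.Agent.S35.G.HasAux M q)
    (A : ValuationSubring Kbar) (hA : A.LiesOverPrime q)
    (E : IntermediateField ℚ Kbar) (w : Mod.RE A E) (hS : Mod.Setting A E M q w)
    (hE : GoodField A E) (hwq : (w : E) = (q : E))
    (hTh1 : Fermat.Agent.S59.LoSqC.H862.Th1At A E M q w) :
    NodeRelEAt q M m A E w ((q - 1) * dedekindPsi M) := by
  intro cf f hf hdivE hdivK v₁ v₂ hv₁ hv₂
  exact Fermat.Agent.S59.LoSqC.H862.nodeRelE m q M hm hq hqM haux A hA E w hS hE hwq hTh1 cf f hf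
    hdivE hdivK v₁ v₂ hv₁ hv₂

/-- **NODE-REL, J-form, every `m`, from thickness one**: `(q - 1) ψ(M)` kills `J₀(qM)[m]^I`
modulo the finite part. -/
theorem nodeRelJ_th1_nsmul_h34 (hq : q.Prime) (hqM : ¬ q ∣ M)
    (haux : Fermat.Agent.S35.G.HasAux M q) (hm : 0 < m)
    (A : ValuationSubring Kbar) (hA : A.LiesOverPrime q)
    (hTh1 : Fermat.Agent.S59.LoSqC.H862.Th1At A (inertiaField A) M q
      ((q : ℕ) : Mod.RE A (inertiaField A)))
    (x : JZero (q * M)) (hx : m • x = 0)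
    (hfix : ∀ σ ∈ A.inertiaSubgroupIn ℚ, σ • x = x) :
    ((q - 1) * dedekindPsi M) • x ∈ Fermat.Agent.Ribet.H158.WallQ.finPartQ m q M A := by
  have hE : GoodField A (inertiaField A) :=
    Fermat.Agent.Ribet.H868.goodField_inertiaField A q hq hA
  have hS : Mod.Setting A (inertiaField A) M q ((q : ℕ) : Mod.RE A (inertiaField A)) :=
    Fermat.Agent.Ribet.H868.setting_inertiaField A q M hq hqM (NeZero.ne M) hA
  have hwq : ((((q : ℕ) : Mod.RE A (inertiaField A)) : inertiaField A)) =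
      (q : inertiaField A) := by
    simp
  exact nodeRelJ_nsmul_finPartQ_h34 q M m hq hqM haux hm A hA
    (nodeRegAt_of_th1At_h34 q M A _ _ hTh1) _
    (nodeRelEAt_of_th1At_h34 q M m hm hq hqM haux A hA _ _ hS hE hwq hTh1) x hx hfix

/-- **NODE-REL, J-form, colouring, every `m`, from thickness one.** -/
theorem nodeRelJ_th1_colour_h34 (hq : q.Prime) (hqM : ¬ q ∣ M)
    (haux : Fermat.Agent.S35.G.HasAux M q) (hm : 0 < m)
    (A : ValuationSubring Kbar) (hA : A.LiesOverPrime q)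
    (hTh1 : Fermat.Agent.S59.LoSqC.H862.Th1At A (inertiaField A) M q
      ((q : ℕ) : Mod.RE A (inertiaField A))) :
    ∃ τ : JZero (q * M) → ℕ,
      ∀ x : JZero (q * M), m • x = 0 → (∀ σ ∈ A.inertiaSubgroupIn ℚ, σ • x = x) →
        τ x < (q - 1) * dedekindPsi M ∧
        ∀ x' : JZero (q * M), m • x' = 0 → (∀ σ ∈ A.inertiaSubgroupIn ℚ, σ • x' = x') →
          τ x = τ x' → x - x' ∈ Fermat.Agent.Ribet.H158.WallQ.finPartQ m q M A := by
  have hE : GoodField A (inertiaField A) :=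
    Fermat.Agent.Ribet.H868.goodField_inertiaField A q hq hA
  have hS : Mod.Setting A (inertiaField A) M q ((q : ℕ) : Mod.RE A (inertiaField A)) :=
    Fermat.Agent.Ribet.H868.setting_inertiaField A q M hq hqM (NeZero.ne M) hA
  have hwq : ((((q : ℕ) : Mod.RE A (inertiaField A)) : inertiaField A)) =
      (q : inertiaField A) := by
    simp
  have hs : 0 < (q - 1) * dedekindPsi M := by
    have h1 := Mod.dedekindPsi_pos_of_ne_zero M (NeZero.ne M)
    have h2 : 0 < q - 1 := by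
      have := hq.two_le
      omega
    positivity
  obtain ⟨τ, hτ⟩ := nodeRelJ_colour_h34 q M m hq hqM haux hm A hA
    (nodeRegAt_of_th1At_h34 q M A _ _ hTh1) _ hs
    (nodeRelEAt_of_th1At_h34 q M m hm hq hqM haux A hA _ _ hS hE hwq hTh1)
  refine ⟨τ, fun x hx hfix => ⟨(hτ x hx hfix).1, fun x' hx' hfix' h => ?_⟩⟩
  exact AddSubgroup.subset_closure ((hτ x hx hfix).2 x' hx' hfix' h)

/-- **NODE-REL, J-form, counting, every `m`, from thickness one**: for subgroups
`I ⊆ J₀(qM)[m]^I_A` and `F ⊇ finPartQ m q M A` (finite): `#I ≤ (q - 1) ψ(M) · #F`. -/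
theorem nodeRelJ_th1_card_h34 (hq : q.Prime) (hqM : ¬ q ∣ M)
    (haux : Fermat.Agent.S35.G.HasAux M q) (hm : 0 < m)
    (A : ValuationSubring Kbar) (hA : A.LiesOverPrime q)
    (hTh1 : Fermat.Agent.S59.LoSqC.H862.Th1At A (inertiaField A) M q
      ((q : ℕ) : Mod.RE A (inertiaField A)))
    (I F : AddSubgroup (JZero (q * M))) [Finite F]
    (hI : ∀ x ∈ I, m • x = 0 ∧ ∀ σ ∈ A.inertiaSubgroupIn ℚ, σ • x = x)
    (hF : Fermat.Agent.Ribet.H158.WallQ.finPartQ m q M A ≤ F) :
    Nat.card I ≤ (q - 1) * dedekindPsi M * Nat.card F := by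
  obtain ⟨τ, hτ⟩ := nodeRelJ_th1_colour_h34 q M m hq hqM haux hm A hA hTh1
  exact card_le_of_colour_h34 I F _ τ (fun x hx => (hτ x (hI x hx).1 (hI x hx).2).1)
    (fun x hx x' hx' h => hF ((hτ x (hI x hx).1 (hI x hx).2).2 x' (hI x' hx').1 (hI x' hx').2 h))

end Fermat.Agent.S59.LoSqC.H34

end

end
-- ===== PACK-END S59/LoSqC/H34/NodeRelJ862.lean

-- ===== PACK-BEGIN S59/LoSqC/H34/SlopeZeroFin.lean
section



/-!
# Row S59, cell (C) LO-SQ, leaf W-COUNT / NODE-J, part 5 (helper34):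
# the E-slope-zero classes (`H862.HasSlopeZeroGen`) form a SUBGROUP of `finPartQ ∩ J₀(qM)[m]`

Vocabulary of helper862 (`S59/LoSqC/H862/NodeRelCard.lean`, origin/helper862 @ed4fe6210):
`HasSlopeZeroGen m q M A x` = the class `x` has a Kummer generator `g` (exponent `m`) over the
inertia field `E` of `A` whose branch valuations along the two components of SOME semistable
structure `cf` of the finite chart of level `M q` are congruent modulo `m`.

* `hasSlopeZeroGen_iff_chart_h34` : the structure `cf` may be FIXED in advance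
                                    (`ssChart_swap_h34`: the components are unique up to order);
* `hasSlopeZeroGen_zero/neg/add/sub_h34`, **`slopeZeroPart_h34 m q M A : AddSubgroup`** with
  `mem_slopeZeroPart_h34 : x ∈ slopeZeroPart_h34 m q M A ↔ HasSlopeZeroGen m q M A x`;
* `nsmul_eq_zero_of_hasSlopeZeroGen_h34` : the classes are killed by `m`;
* `hasSlopeZeroGen_nsmul_of_mul_h34` (COMPAT, `hFc`) : `x ∈ F_{d k} ⟹ d • x ∈ F_k`;
* `hasSlopeZeroGen_mul_h34` (COMPAT) : `F_m ⊆ F_{m d}`;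
* **`mem_finSetQ_of_hasSlopeZeroGen_h34`**, `slopeZeroPart_le_finPartQ_h34` (FIN-OF-SLOPE,
  from thickness one `H862.Th1At`): `F_m ⊆ finSetQ m q M A ⊆ finPartQ m q M A`
  — so RED-HOM (`H296.exists_redHom_h296`, defined on `finPartQ`) is defined on `F_m`;
* `nodeRel_card_slopeZeroPart_h34` : `#I ≤ (q - 1) ψ(M) · #(F_m ⊓ I)` (= `H862.nodeRel_card_th1`
  at `F = slopeZeroPart_h34`).
-/

set_option autoImplicit false
set_option linter.style.haveILetI false
set_option linter.unusedSectionVars false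
set_option linter.unusedVariables false
set_option synthInstance.maxHeartbeats 400000
set_option maxHeartbeats 1600000

noncomputable section

namespace Fermat.Agent.S59.LoSqC.H34

open ModularCurve AlgebraicCurve HahnSeries
open Fermat.Agent.A2 Fermat.Agent.A2.Alg
open Fermat.Agent.S24 Fermat.Agent.A2.H708
open Fermat.Agent.Ribet.H884 Fermat.Agent.Ribet.H704
open Fermat.Agent.A2.IF.H429 (inertiaField)
open Fermat.Agent.S59.LoSqC.H862 (HasSlopeZeroGen)

variable (q M m : ℕ) [NeZero M] [NeZero q] [NeZero (q * M)]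

/-- `HasSlopeZeroGen` in terms of `KummerSlopeAt`. -/
theorem hasSlopeZeroGen_iff_h34 (A : ValuationSubring Kbar) (x : JZero (q * M)) :
    HasSlopeZeroGen m q M A x ↔
      ∃ (c : SSChart ((q : ℕ) : Mod.RE A (inertiaField A))
          (Mod.chartAlg A (inertiaField A) (M * q) (Mod.xE (inertiaField A) M q)))
        (y : Mod.FE (inertiaField A) (M * q)) (e : ℤ),
        KummerSlopeAt q M m A (inertiaField A) ((q : ℕ) : Mod.RE A (inertiaField A)) c x y e ∧
          (m : ℤ) ∣ e := by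
  constructor
  · rintro ⟨g, cf, v₁, v₂, hg, hdiv, hK, hv₁, hv₂, hd⟩
    exact ⟨cf, g, v₁ - v₂, ⟨hg, hK, hdiv, v₁, v₂, hv₁, hv₂, rfl⟩, hd⟩
  · rintro ⟨cf, g, e, ⟨hg, hK, hdiv, v₁, v₂, hv₁, hv₂, rfl⟩, hd⟩
    exact ⟨g, cf, v₁, v₂, hg, hdiv, hK, hv₁, hv₂, hd⟩

/-- Change of the chart structure. -/
theorem KummerSlopeAt.swap_h34 {A : ValuationSubring Kbar} {E : IntermediateField ℚ Kbar}
    {w : Mod.RE A E} (c c' : SSChart w (Mod.chartAlg A E (M * q) (Mod.xE E M q)))
    {x : JZero (q * M)} {y : Mod.FE E (M * q)} {e : ℤ}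
    (h : KummerSlopeAt q M m A E w c x y e) :
    KummerSlopeAt q M m A E w c' x y e ∨ KummerSlopeAt q M m A E w c' x y (-e) := by
  obtain ⟨hy, hK, hdiv, v₁, v₂, hv₁, hv₂, rfl⟩ := h
  rcases ssChart_swap_h34 c c' with ⟨e1, e2⟩ | ⟨e1, e2⟩
  · left
    refine ⟨hy, hK, hdiv, v₁, v₂, ?_, ?_, rfl⟩
    · rw [e1]; exact hv₁
    · rw [e2]; exact hv₂
  · right
    refine ⟨hy, hK, hdiv, v₂, v₁, ?_, ?_, by ring⟩
    · rw [e1]; exact hv₂
    · rw [e2]; exact hv₁

/-- The chart structure in `HasSlopeZeroGen` may be fixed in advance. -/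
theorem hasSlopeZeroGen_iff_chart_h34 (A : ValuationSubring Kbar)
    (c : SSChart ((q : ℕ) : Mod.RE A (inertiaField A))
      (Mod.chartAlg A (inertiaField A) (M * q) (Mod.xE (inertiaField A) M q)))
    (x : JZero (q * M)) :
    HasSlopeZeroGen m q M A x ↔
      ∃ (y : Mod.FE (inertiaField A) (M * q)) (e : ℤ),
        KummerSlopeAt q M m A (inertiaField A) ((q : ℕ) : Mod.RE A (inertiaField A)) c x y e ∧
          (m : ℤ) ∣ e := by
  rw [hasSlopeZeroGen_iff_h34]
  constructor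
  · rintro ⟨c', y, e, h, hd⟩
    rcases KummerSlopeAt.swap_h34 q M m c' c h with h' | h'
    · exact ⟨y, e, h', hd⟩
    · exact ⟨y, -e, h', (Int.dvd_neg).2 hd⟩
  · rintro ⟨y, e, h, hd⟩
    exact ⟨c, y, e, h, hd⟩

section Group

variable (hq : q.Prime) (hqM : ¬ q ∣ M) (haux : Fermat.Agent.S35.G.HasAux M q)
  (A : ValuationSubring Kbar) (hA : A.LiesOverPrime q)

include hq hqM haux hA

theorem hasSlopeZeroGen_zero_h34 : HasSlopeZeroGen m q M A 0 := by
  have hE : GoodField A (inertiaField A) :=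
    Fermat.Agent.Ribet.H868.goodField_inertiaField A q hq hA
  have hS : Mod.Setting A (inertiaField A) M q ((q : ℕ) : Mod.RE A (inertiaField A)) :=
    Fermat.Agent.Ribet.H868.setting_inertiaField A q M hq hqM (NeZero.ne M) hA
  haveI : IsDiscreteValuationRing ↥(Mod.RE A (inertiaField A)) := hE.dvr
  obtain ⟨hC, ⟨c⟩⟩ := exists_chart_fin_h34 A (inertiaField A) M q hq hqM haux hE _ hS
  obtain ⟨v₁, v₂, hv₁, hv₂⟩ := Fermat.Agent.Ribet.H868.exists_valAt_chart (E := inertiaField A)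
    ((q : ℕ) : Mod.RE A (inertiaField A)) (Mod.xE (inertiaField A) M q)
    (Mod.chartAlg A (inertiaField A) (M * q) (Mod.xE (inertiaField A) M q)) hC c
    (1 : Mod.FE (inertiaField A) (M * q)) one_ne_zero
  have h1 : KummerSlopeAt q M m A (inertiaField A) ((q : ℕ) : Mod.RE A (inertiaField A)) c 0 1
      (v₁ - v₂) := by
    refine ⟨one_ne_zero, ?_, ?_, v₁, v₂, hv₁, hv₂, rfl⟩
    · rw [map_one]
      exact isKummerGen_one
    · intro V hV hEV
      exact ⟨1, 1, one_ne_zero, V.one_mem, by rw [inv_one]; exact V.one_mem, by simp⟩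
  have h2 := h1.mul_inv_h34 hE hC h1
  rw [sub_self, sub_self] at h2
  exact (hasSlopeZeroGen_iff_chart_h34 q M m A c 0).2 ⟨_, 0, h2, dvd_zero _⟩

theorem hasSlopeZeroGen_sub_h34 {x x' : JZero (q * M)} (h : HasSlopeZeroGen m q M A x)
    (h' : HasSlopeZeroGen m q M A x') : HasSlopeZeroGen m q M A (x - x') := by
  have hE : GoodField A (inertiaField A) :=
    Fermat.Agent.Ribet.H868.goodField_inertiaField A q hq hA
  have hS : Mod.Setting A (inertiaField A) M q ((q : ℕ) : Mod.RE A (inertiaField A)) :=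
    Fermat.Agent.Ribet.H868.setting_inertiaField A q M hq hqM (NeZero.ne M) hA
  obtain ⟨hC, ⟨c⟩⟩ := exists_chart_fin_h34 A (inertiaField A) M q hq hqM haux hE _ hS
  obtain ⟨y, e, hy, hd⟩ := (hasSlopeZeroGen_iff_chart_h34 q M m A c x).1 h
  obtain ⟨y', e', hy', hd'⟩ := (hasSlopeZeroGen_iff_chart_h34 q M m A c x').1 h'
  exact (hasSlopeZeroGen_iff_chart_h34 q M m A c (x - x')).2
    ⟨_, e - e', hy.mul_inv_h34 hE hC hy', dvd_sub hd hd'⟩

theorem hasSlopeZeroGen_neg_h34 {x : JZero (q * M)} (h : HasSlopeZeroGen m q M A x) :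
    HasSlopeZeroGen m q M A (-x) := by
  have := hasSlopeZeroGen_sub_h34 q M m hq hqM haux A hA
    (hasSlopeZeroGen_zero_h34 q M m hq hqM haux A hA) h
  rwa [zero_sub] at this

theorem hasSlopeZeroGen_add_h34 {x x' : JZero (q * M)} (h : HasSlopeZeroGen m q M A x)
    (h' : HasSlopeZeroGen m q M A x') : HasSlopeZeroGen m q M A (x + x') := by
  have := hasSlopeZeroGen_sub_h34 q M m hq hqM haux A hA h
    (hasSlopeZeroGen_neg_h34 q M m hq hqM haux A hA h')
  rwa [sub_neg_eq_add] at this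

/-- **The subgroup `F_m` of the E-slope-zero classes** of `J₀(q M)`. -/
def slopeZeroPart_h34 : AddSubgroup (JZero (q * M)) where
  carrier := {x | HasSlopeZeroGen m q M A x}
  zero_mem' := hasSlopeZeroGen_zero_h34 q M m hq hqM haux A hA
  add_mem' := fun h h' => hasSlopeZeroGen_add_h34 q M m hq hqM haux A hA h h'
  neg_mem' := fun h => hasSlopeZeroGen_neg_h34 q M m hq hqM haux A hA h

theorem mem_slopeZeroPart_h34 (x : JZero (q * M)) :
    x ∈ slopeZeroPart_h34 q M m hq hqM haux A hA ↔ HasSlopeZeroGen m q M A x :=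
  Iff.rfl

end Group

/-! ## Torsion and compatibility of the exponents -/

/-- A class with a Kummer generator of exponent `m` is killed by `m`. -/
theorem nsmul_eq_zero_of_isKummerGen_h34 {N : ℕ} [NeZero N] {f : FF N} {x : JZero N}
    (h : IsKummerGen N m f x) : m • x = 0 := by
  obtain ⟨hf0, D, rfl, hD⟩ := h
  have e : m • (Pic0.mk D : JZero N) = Pic0.mk (m • D) := rfl
  rw [e]
  show (QuotientAddGroup.mk (m • D) : Pic0 Kbar (FF N)) = 0
  refine (QuotientAddGroup.eq_zero_iff (m • D)).mpr ?_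
  rw [AddSubgroup.mem_addSubgroupOf]
  refine ⟨f, hf0, fun Q => ?_⟩
  rw [hD Q]
  simp

theorem nsmul_eq_zero_of_hasSlopeZeroGen_h34 (A : ValuationSubring Kbar) {x : JZero (q * M)}
    (h : HasSlopeZeroGen m q M A x) : m • x = 0 := by
  obtain ⟨g, cf, v₁, v₂, hg, hdiv, hK, hv₁, hv₂, hd⟩ := h
  exact nsmul_eq_zero_of_isKummerGen_h34 m hK

/-- A Kummer generator of `x` of exponent `d k` is a Kummer generator of `d • x` of exponent
`k`. -/
theorem isKummerGen_nsmul_of_mul_h34 {N : ℕ} [NeZero N] {d k : ℕ} {f : FF N} {x : JZero N}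
    (h : IsKummerGen N (d * k) f x) : IsKummerGen N k f (d • x) := by
  obtain ⟨hf0, D, rfl, hD⟩ := h
  refine ⟨hf0, d • D, rfl, fun v => ?_⟩
  rw [hD v]
  simp only [AddSubgroup.coe_nsmul, nsmul_eq_mul]
  push_cast
  show ((d : ℤ) * (k : ℤ)) * _ = (k : ℤ) * ((d • (D : Divisor Kbar (FF N))) v)
  rw [Finsupp.smul_apply, nsmul_eq_mul]
  ring

theorem divisibleDiv_of_mul_h34 {E F : Type*} [Field E] [Field F] [Algebra E F] {d k : ℕ}
    {f : F} (h : DivisibleDiv E (d * k) f) : DivisibleDiv E k f := by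
  intro V hV hE
  obtain ⟨g, u, hg, hu, hu', rfl⟩ := h V hV hE
  exact ⟨g ^ d, u, pow_ne_zero _ hg, hu, hu', by rw [← pow_mul]⟩

/-- **COMPAT (`hFc`)**: `x ∈ F_{d k} ⟹ d • x ∈ F_k`. -/
theorem hasSlopeZeroGen_nsmul_of_mul_h34 (A : ValuationSubring Kbar) {d k : ℕ}
    {x : JZero (q * M)} (h : HasSlopeZeroGen (d * k) q M A x) :
    HasSlopeZeroGen k q M A (d • x) := by
  obtain ⟨g, cf, v₁, v₂, hg, hdiv, hK, hv₁, hv₂, hd⟩ := h
  refine ⟨g, cf, v₁, v₂, hg, divisibleDiv_of_mul_h34 hdiv, isKummerGen_nsmul_of_mul_h34 hK,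
    hv₁, hv₂, ?_⟩
  refine dvd_trans ?_ hd
  push_cast
  exact dvd_mul_left _ _

/-! ## FIN-OF-SLOPE: `F_m ⊆ finPartQ` -/

/-- **FIN-OF-SLOPE** in the vocabulary of helper862: an E-slope-zero class lies in `finSetQ`
(both reductions of a suitable Kummer generator lie in `k(X₀(M))` with `m`-divisible divisors). -/
theorem mem_finSetQ_of_hasSlopeZeroGen_h34 (hq : q.Prime) (hqM : ¬ q ∣ M)
    (haux : Fermat.Agent.S35.G.HasAux M q) (hm : 0 < m)
    (A : ValuationSubring Kbar) (hA : A.LiesOverPrime q)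
    (hTh1 : Fermat.Agent.S59.LoSqC.H862.Th1At A (inertiaField A) M q
      ((q : ℕ) : Mod.RE A (inertiaField A)))
    {x : JZero (q * M)} (h : HasSlopeZeroGen m q M A x) :
    x ∈ Fermat.Agent.Ribet.H158.WallQ.finSetQ m q M A := by
  have hE : GoodField A (inertiaField A) :=
    Fermat.Agent.Ribet.H868.goodField_inertiaField A q hq hA
  have hS : Mod.Setting A (inertiaField A) M q ((q : ℕ) : Mod.RE A (inertiaField A)) :=
    Fermat.Agent.Ribet.H868.setting_inertiaField A q M hq hqM (NeZero.ne M) hA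
  obtain ⟨c, y, e, hy, hd⟩ := (hasSlopeZeroGen_iff_h34 q M m A x).1 h
  exact mem_finSetQ_of_kummerSlope_h34 q M m hq hqM haux hm A hA (inertiaField A) hE _ hS
    (nodeRegAt_of_th1At_h34 q M A _ _ hTh1) c x y e hy hd

theorem slopeZeroPart_le_finPartQ_h34 (hq : q.Prime) (hqM : ¬ q ∣ M)
    (haux : Fermat.Agent.S35.G.HasAux M q) (hm : 0 < m)
    (A : ValuationSubring Kbar) (hA : A.LiesOverPrime q)
    (hTh1 : Fermat.Agent.S59.LoSqC.H862.Th1At A (inertiaField A) M q
      ((q : ℕ) : Mod.RE A (inertiaField A))) :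
    slopeZeroPart_h34 q M m hq hqM haux A hA ≤ Fermat.Agent.Ribet.H158.WallQ.finPartQ m q M A :=
  fun x hx => AddSubgroup.subset_closure
    (mem_finSetQ_of_hasSlopeZeroGen_h34 q M m hq hqM haux hm A hA hTh1 hx)

/-- NODE-REL, card form, at `F = slopeZeroPart_h34`. -/
theorem nodeRel_card_slopeZeroPart_h34 (hq : q.Prime) (hqM : ¬ q ∣ M)
    (haux : Fermat.Agent.S35.G.HasAux M q) (hm : 0 < m)
    (A : ValuationSubring Kbar) (hA : A.LiesOverPrime q)
    (hTh1 : Fermat.Agent.S59.LoSqC.H862.Th1At A (inertiaField A) M q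
      ((q : ℕ) : Mod.RE A (inertiaField A)))
    (I : AddSubgroup (JZero (q * M))) (hI : ∀ x ∈ I, m • x = 0)
    (hfix : ∀ x ∈ I, ∀ σ ∈ A.inertiaSubgroupIn ℚ, σ • x = x) :
    Nat.card I ≤ ((q - 1) * dedekindPsi M) *
      Nat.card ↥(slopeZeroPart_h34 q M m hq hqM haux A hA ⊓ I) :=
  Fermat.Agent.S59.LoSqC.H862.nodeRel_card_th1 m q M hm hq hqM haux A hA hTh1 _ I hI hfix
    (fun z _ hz => hz)

end Fermat.Agent.S59.LoSqC.H34

end

end
-- ===== PACK-END S59/LoSqC/H34/SlopeZeroFin.lean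

-- ===== PACK-BEGIN S59/LoSqC/H862/SlopeCardE.lean
section



/-!
# S59 / cell (C) LO-SQ / W-COUNT, leaf SLOPE-CARD in the frozen `E`-vocabulary (helper862)

Level `M q` ON BOTH SIDES (`J₀(M q)` and `F_E(M q)`), `q ∤ M`, `P` over `q`, `E` a good level,
`w` ANY uniformiser of `R_E = P ∩ E`, `q = ε w` (`S36.H803.Unram`), `V = V∞` (`IsVinf`),
`W` the Fricke involution (`IsFricke`), `V₀ = V.comap W`, thickness one at the nodes of the finite
chart as a hypothesis (`Th1At`, at the uniformiser `w`).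

* `unitAt_of_valAt862` : branch valuation on a chart whose component is cut out by `V`
  ⟹ `UnitAt V (g / w ^ v)`.
* **`slopeCardE_gen862`** : `I ≤ J₀(M q)` a subgroup of classes which have an `E`-rational Kummer
  generator of exponent `m` (hypothesis `hgen`), `F` a subgroup containing the classes `z ∈ I`
  which have an `E`-rational Kummer generator `g` (body of `LoSqC.IsKummerGenE`) with
  `A2.DivisibleDiv E m g` and E-slope zero (body of `LoSqC.SlopeZero w m V V₀ g`).  Then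

    `Nat.card I ≤ ((q - 1) · ψ(M)) · Nat.card ↥(F ⊓ I)`.

* **`slopeCardE862`** : the same with `E = ℚ̄^{I_P}` (the inertia field, written as the fixed field
  `= LoSqC.inertiaFldC P`) for a subgroup `I` of inertia-fixed `m`-torsion classes
  (descent `Ribet.H868.exists_fixed_kummerGen_aux`).

The bodies of `LoSqC.IsKummerGenE` and `LoSqC.SlopeZero` (frozen Spec of helper885) are written
INLINE, so that this file imports main files only.
-/

set_option autoImplicit false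
set_option linter.unusedSectionVars false
set_option linter.unusedVariables false
set_option linter.style.haveILetI false
set_option synthInstance.maxHeartbeats 400000
set_option maxHeartbeats 1600000

noncomputable section

open AlgebraicCurve

namespace Fermat.Agent.S59.LoSqC.H862

/-! ## Units of a valuation ring -/

section AbsUnit

open Fermat.Agent.S36.Eng (UnitAt)

variable {F : Type*} [Field F]

theorem unitAt_one862 (V : ValuationSubring F) : UnitAt V (1 : F) :=
  ⟨one_ne_zero, V.one_mem, by rw [inv_one]; exact V.one_mem⟩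

theorem unitAt_mul862 {V : ValuationSubring F} {a b : F} (ha : UnitAt V a) (hb : UnitAt V b) :
    UnitAt V (a * b) :=
  ⟨mul_ne_zero ha.1 hb.1, V.mul_mem _ _ ha.2.1 hb.2.1, by
    rw [mul_inv]; exact V.mul_mem _ _ ha.2.2 hb.2.2⟩

theorem unitAt_inv862 {V : ValuationSubring F} {a : F} (ha : UnitAt V a) : UnitAt V a⁻¹ :=
  ⟨inv_ne_zero ha.1, ha.2.2, by rw [inv_inv]; exact ha.2.1⟩

theorem unitAt_pow862 {V : ValuationSubring F} {a : F} (ha : UnitAt V a) (n : ℕ) :
    UnitAt V (a ^ n) := by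
  induction n with
  | zero => rw [pow_zero]; exact unitAt_one862 V
  | succ n ih => rw [pow_succ]; exact unitAt_mul862 ih ha

theorem unitAt_zpow862 {V : ValuationSubring F} {a : F} (ha : UnitAt V a) (k : ℤ) :
    UnitAt V (a ^ k) := by
  cases k with
  | ofNat n => rw [Int.ofNat_eq_natCast, zpow_natCast]; exact unitAt_pow862 ha n
  | negSucc n => rw [zpow_negSucc]; exact unitAt_inv862 (unitAt_pow862 ha (n + 1))

/-- Multiplication by a unit does not change membership. -/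
theorem mul_unitAt_mem_iff862 {V : ValuationSubring F} {u x : F} (hu : UnitAt V u) :
    x * u ∈ V ↔ x ∈ V := by
  constructor
  · intro h
    have h1 := V.mul_mem _ _ h hu.2.2
    rwa [mul_assoc, mul_inv_cancel₀ hu.1, mul_one] at h1
  · intro h
    exact V.mul_mem _ _ h hu.2.1

/-- An element of `V` outside `ϖ V` is a unit. -/
theorem unitAt_of_isUnif862 {V : ValuationSubring F} {ϖ a : F}
    (hϖ : Fermat.Agent.A2.H48.IsUnif V ϖ) (ha : a ∈ V) (ha' : a * ϖ⁻¹ ∉ V) : UnitAt V a := by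
  refine ⟨?_, ha, ?_⟩
  · rintro rfl
    apply ha'
    rw [zero_mul]
    exact V.zero_mem
  · by_contra h
    exact ha' (hϖ.gen a ha h)

end AbsUnit

/-! ## Branch valuations and valuation rings -/

section Bridge

open Fermat.Agent.S36.Eng (UnitAt)
open Fermat.Agent.Ribet.H704 (I6.ValAt)

variable {R F : Type*} [CommRing R] [Field F] [Algebra R F]

/-- **Bridge**: on a chart `B` whose component `p` is cut out by the valuation ring `V` with
uniformiser `w`, a branch valuation `v` of `g` along `p` gives `UnitAt V (g / w ^ v)`. -/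
theorem unitAt_of_valAt862 (B : Subalgebra R F) (p : Ideal B) (w : R) (V : ValuationSubring F)
    (hle : ∀ b ∈ B, b ∈ V)
    (hcut : ∀ b : B, b ∈ p ↔ (b : F) * (algebraMap R F w)⁻¹ ∈ V)
    (hunif : Fermat.Agent.A2.H48.IsUnif V (algebraMap R F w)) (g : F) (v : ℤ)
    (h : I6.ValAt F p (algebraMap R B w) g v) :
    UnitAt V (g * (algebraMap R F w ^ v)⁻¹) := by
  obtain ⟨a, b, ha, hb, hab⟩ := h
  have hw0 : algebraMap R F w ≠ 0 := by
    intro h0
    apply hunif.inv_not_mem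
    rw [h0, inv_zero]
    exact V.zero_mem
  have hua : UnitAt V (a : F) :=
    unitAt_of_isUnif862 hunif (hle _ a.2) (fun h => ha ((hcut a).mpr h))
  have hub : UnitAt V (b : F) :=
    unitAt_of_isUnif862 hunif (hle _ b.2) (fun h => hb ((hcut b).mpr h))
  have hab' : g * (b : F) = algebraMap R F w ^ v * (a : F) := hab
  have hwv : algebraMap R F w ^ v ≠ 0 := zpow_ne_zero _ hw0
  have e : g * (algebraMap R F w ^ v)⁻¹ = (a : F) * (b : F)⁻¹ := by
    have hb0 : (b : F) ≠ 0 := hub.1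
    rw [eq_mul_inv_iff_mul_eq₀ hb0, mul_right_comm, hab', mul_comm (algebraMap R F w ^ v),
      mul_assoc, mul_inv_cancel₀ hwv, mul_one]
  rw [e]
  exact unitAt_mul862 hua (unitAt_inv862 hub)

end Bridge

/-! ## The level `M q` -/

section Level

open ModularCurve HahnSeries
open Fermat.Agent.S24 Fermat.Agent.Ribet.H884 Fermat.Agent.Ribet.H158.WallQ
open Fermat.Agent.A2.Mod Fermat.Agent.Ribet.H868
open Fermat.Agent.Ribet.H704 (I6.ValAt)
open Fermat.Agent.A2.T1.H669 (iota)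
open Fermat.Agent.S36.Eng (UnitAt)

/-- Change of the name of the level in the divisibility of the divisor over `ℚ̄`. -/
theorem dvd_ord_toFF_of_iota862 (E : IntermediateField ℚ (AlgebraicClosure ℚ)) {N N' : ℕ}
    [NeZero N] [NeZero N'] (h : N = N') (m : ℕ) (g : FE E N)
    (hg : ∀ v : Place Kbar (FF N), (m : ℤ) ∣ v.ord (iota E (modularFunctionFieldFull N) g)) :
    ∀ v : Place Kbar (FF N'), (m : ℤ) ∣ v.ord (toFF E h g) := by
  subst h
  exact hg

variable (P : ValuationSubring (AlgebraicClosure ℚ))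
  (E : IntermediateField ℚ (AlgebraicClosure ℚ)) (M q : ℕ) [NeZero M] [NeZero q]

/-- Constants which are units of `R_E` are units of `V∞`. -/
theorem unitAt_cE_of_isUnit862 (N : ℕ) (V : ValuationSubring (FE E N))
    (hVE : ∀ e : E, algebraMap E (FE E N) e ∈ V ↔ e ∈ RE P E) (u : RE P E) (hu : IsUnit u) :
    UnitAt V (cE P E N u) := by
  obtain ⟨u', rfl⟩ := hu
  have h1 : ((u' : RE P E) : E) * (((u'⁻¹ : (RE P E)ˣ) : RE P E) : E) = 1 := by
    have := congrArg (fun r : RE P E => (r : E)) u'.mul_inv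
    exact this
  have hne : ((u' : RE P E) : E) ≠ 0 := left_ne_zero_of_mul_eq_one h1
  have hinv : (((u' : RE P E) : E))⁻¹ = (((u'⁻¹ : (RE P E)ˣ) : RE P E) : E) :=
    inv_eq_of_mul_eq_one_right h1
  refine ⟨?_, ?_, ?_⟩
  · exact (map_ne_zero (algebraMap E (FE E N))).mpr hne
  · exact (hVE _).mpr (u' : RE P E).2
  · show (algebraMap E (FE E N) ((u' : RE P E) : E))⁻¹ ∈ V
    rw [← map_inv₀, hinv]
    exact (hVE _).mpr ((u'⁻¹ : (RE P E)ˣ) : RE P E).2

/-- The Fricke transform of `V∞` contains the same constants. -/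
theorem const_mem_comap862 (N : ℕ) (V : ValuationSubring (FE E N)) (W : FE E N ≃ₐ[E] FE E N)
    (hVE : ∀ e : E, algebraMap E (FE E N) e ∈ V ↔ e ∈ RE P E) :
    ∀ e : E, algebraMap E (FE E N) e ∈ V.comap (W : FE E N →+* FE E N) ↔ e ∈ RE P E := by
  intro e
  rw [ValuationSubring.mem_comap]
  have : (W : FE E N →+* FE E N) (algebraMap E (FE E N) e) = algebraMap E (FE E N) e :=
    W.commutes e
  rw [this]
  exact hVE e

/-- `w` is a uniformiser of the Fricke transform of `V∞`. -/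
theorem isUnif_comap862 (N : ℕ) (V : ValuationSubring (FE E N)) (W : FE E N ≃ₐ[E] FE E N)
    (w : RE P E) (h : Fermat.Agent.A2.H48.IsUnif V (cE P E N w)) :
    Fermat.Agent.A2.H48.IsUnif (V.comap (W : FE E N →+* FE E N)) (cE P E N w) := by
  have hWc : W (cE P E N w) = cE P E N w := W.commutes (w : E)
  refine ⟨?_, ?_, ?_⟩
  · rw [ValuationSubring.mem_comap]
    show W (cE P E N w) ∈ V
    rw [hWc]
    exact h.mem
  · intro h1
    apply h.inv_not_mem
    rw [ValuationSubring.mem_comap] at h1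
    have h2 : W ((cE P E N w)⁻¹) ∈ V := h1
    rwa [map_inv₀, hWc] at h2
  · intro f hf hf'
    rw [ValuationSubring.mem_comap] at hf ⊢
    have h1 : W f ∈ V := hf
    have h2 : (W f)⁻¹ ∉ V := by
      intro h3
      apply hf'
      rw [ValuationSubring.mem_comap]
      show W f⁻¹ ∈ V
      rw [map_inv₀]
      exact h3
    show W (f * (cE P E N w)⁻¹) ∈ V
    rw [map_mul, map_inv₀, hWc]
    exact h.gen _ h1 h2

/-- Thickness one does not depend on the uniformiser. -/
theorem th1At_of_assoc862 (hdvr : IsDiscreteValuationRing (RE P E)) (w w₀ ε : RE P E)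
    (hw : Irreducible w) (hε : IsUnit ε) (h : w₀ = ε * w) (hN : M * q ≠ 0)
    (hTh1 : Th1At P E M q w) : Th1At P E M q w₀ := by
  intro p₁ p₂ hc n hn
  refine hTh1 p₁ p₂ ?_ n hn
  obtain ⟨V, W, hV, hW, c₁, c₂⟩ := hc
  obtain ⟨-, hVE, -⟩ := H553.vinfBasic P E w (M * q) hN hdvr hw V hV
  have hVE' := const_mem_comap862 P E (M * q) V W hVE
  have hu : UnitAt V (cE P E (M * q) ε) := unitAt_cE_of_isUnit862 P E (M * q) V hVE ε hε
  have hu' : UnitAt (V.comap (W : FE E (M * q) →+* FE E (M * q))) (cE P E (M * q) ε) :=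
    unitAt_cE_of_isUnit862 P E (M * q) _ hVE' ε hε
  have hc0 : cE P E (M * q) w₀ = cE P E (M * q) ε * cE P E (M * q) w := by
    rw [h]
    show algebraMap E (FE E (M * q)) ((ε * w : RE P E) : E) = _
    rw [show ((ε * w : RE P E) : E) = (ε : E) * (w : E) from rfl, map_mul]
    rfl
  have key : ∀ (V' : ValuationSubring (FE E (M * q))), UnitAt V' (cE P E (M * q) ε) →
      ∀ b : FE E (M * q), b * (cE P E (M * q) w₀)⁻¹ ∈ V' ↔ b * (cE P E (M * q) w)⁻¹ ∈ V' := by
    intro V' hV' b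
    have e : b * (cE P E (M * q) w₀)⁻¹ = b * (cE P E (M * q) w)⁻¹ * (cE P E (M * q) ε)⁻¹ := by
      rw [hc0, mul_inv, mul_assoc, mul_comm (cE P E (M * q) ε)⁻¹]
    rw [e]
    exact mul_unitAt_mem_iff862 (unitAt_inv862 hV')
  refine ⟨V, W, hV, hW, fun b => (c₁ b).trans (key V hu b), fun b => (c₂ b).trans (key _ hu' b)⟩

/-- A chart structure on the finite chart whose components are cut out by the GIVEN `V∞` and
`V₀ = V∞ ∘ W`, in this order, with the chart context. -/
theorem exists_chart_cut862 (w : RE P E) (hS : Setting P E M q w) (hE : A2.GoodField P E)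
    (hAux : S35.G.HasAux M q)
    (V : ValuationSubring (FE E (M * q))) (W : FE E (M * q) ≃ₐ[E] FE E (M * q))
    (hV : IsVinf P E (M * q) V) (hW : IsFricke E (M * q) W) :
    A2.Alg.ChartCtx E w (xE E M q) (chartAlg P E (M * q) (xE E M q)) ∧
    ∃ cf : A2.SSChart w (chartAlg P E (M * q) (xE E M q)),
      S35.G.CutBy w (chartAlg P E (M * q) (xE E M q)) cf V
        (V.comap (W : FE E (M * q) →+* FE E (M * q))) := by
  haveI : IsDiscreteValuationRing ↥(RE P E) := hS.dvr
  have hq : q.Prime := hS.q_prime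
  obtain ⟨VM, hVM⟩ := H553.vinfExists P E M hS.M_ne_zero hS.dvr
  obtain ⟨hg₁, hg₂⟩ := H216.goodRedHyp_of_dvr P E M hS.q_prime hS.q_not_dvd hAux.1 hAux.2
    hS.lies_over hS.dvr w VM hS.unif hVM
  obtain ⟨cf, hcf⟩ := S35.G.H862.exists_chart_cutBy hS (S35.G.H862.s1 P E M q w)
    (H142.s2 P E M q w) (S35.G.H862.s3 P E M q w) VM V W hVM hV hW _ _ (Or.inl ⟨rfl, rfl⟩) hg₁
  obtain ⟨hx, hfr, hconst⟩ := H31.deg E M q hq hS.q_not_dvd
  have hpos : 0 < Module.finrank
      (IntermediateField.adjoin E ({xE E M q} : Set (FE E (M * q))))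
      (FE E (M * q)) := by
    rw [hfr]
    have h1 := dedekindPsi_pos_of_ne_zero M (NeZero.ne M)
    positivity
  have hfin : FiniteDimensional
      (IntermediateField.adjoin E ({xE E M q} : Set (FE E (M * q))))
      (FE E (M * q)) := Module.finite_of_finrank_pos hpos
  exact ⟨⟨hS.unif, hx, hfin, hconst, fun _ => Iff.rfl⟩, cf, hcf⟩

/-- **E-slope from branch valuations**: with respect to ANY uniformiser `w = ε⁻¹ w₀`. -/
theorem slopeZero_of_valAt862 (w₀ w ε : RE P E) (hε : IsUnit ε) (h : w₀ = ε * w)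
    (hS₀ : Setting P E M q w₀)
    (V : ValuationSubring (FE E (M * q))) (W : FE E (M * q) ≃ₐ[E] FE E (M * q))
    (hV : IsVinf P E (M * q) V) (hW : IsFricke E (M * q) W)
    (cf : A2.SSChart w₀ (chartAlg P E (M * q) (xE E M q)))
    (hcf : S35.G.CutBy w₀ (chartAlg P E (M * q) (xE E M q)) cf V
      (V.comap (W : FE E (M * q) →+* FE E (M * q))))
    (g : FE E (M * q)) (v₁ v₂ : ℤ)
    (hv₁ : I6.ValAt (FE E (M * q)) cf.p₁
      (algebraMap ↥(RE P E) ↥(chartAlg P E (M * q) (xE E M q)) w₀) g v₁)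
    (hv₂ : I6.ValAt (FE E (M * q)) cf.p₂
      (algebraMap ↥(RE P E) ↥(chartAlg P E (M * q) (xE E M q)) w₀) g v₂) :
    UnitAt V (g * (algebraMap ↥(RE P E) ↥(FE E (M * q)) w ^ v₁)⁻¹) ∧
      UnitAt (V.comap (W : FE E (M * q) →+* FE E (M * q)))
        (g * (algebraMap ↥(RE P E) ↥(FE E (M * q)) w ^ v₂)⁻¹) := by
  have hN : M * q ≠ 0 := mul_ne_zero hS₀.M_ne_zero hS₀.q_prime.ne_zero
  obtain ⟨hunif, hVE, -⟩ := H553.vinfBasic P E w₀ (M * q) hN hS₀.dvr hS₀.unif V hV
  have hunif' := isUnif_comap862 P E (M * q) V W w₀ hunif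
  have hVE' := const_mem_comap862 P E (M * q) V W hVE
  have hu : UnitAt V (cE P E (M * q) ε) := unitAt_cE_of_isUnit862 P E (M * q) V hVE ε hε
  have hu' : UnitAt (V.comap (W : FE E (M * q) →+* FE E (M * q))) (cE P E (M * q) ε) :=
    unitAt_cE_of_isUnit862 P E (M * q) _ hVE' ε hε
  have hc0 : cE P E (M * q) w₀ = cE P E (M * q) ε * cE P E (M * q) w := by
    rw [h]
    show algebraMap E (FE E (M * q)) ((ε * w : RE P E) : E) = _
    rw [show ((ε * w : RE P E) : E) = (ε : E) * (w : E) from rfl, map_mul]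
    rfl
  have h1 : UnitAt V (g * (cE P E (M * q) w₀ ^ v₁)⁻¹) :=
    unitAt_of_valAt862 (chartAlg P E (M * q) (xE E M q)) cf.p₁ w₀ V hcf.le₁ hcf.cut₁ hunif g v₁ hv₁
  have h2 : UnitAt (V.comap (W : FE E (M * q) →+* FE E (M * q)))
      (g * (cE P E (M * q) w₀ ^ v₂)⁻¹) :=
    unitAt_of_valAt862 (chartAlg P E (M * q) (xE E M q)) cf.p₂ w₀ _ hcf.le₂ hcf.cut₂ hunif' g v₂ hv₂
  have key : ∀ v : ℤ, g * (cE P E (M * q) w ^ v)⁻¹ =
      g * (cE P E (M * q) w₀ ^ v)⁻¹ * cE P E (M * q) ε ^ v := by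
    intro v
    have hε0 : cE P E (M * q) ε ^ v ≠ 0 := zpow_ne_zero _ hu.1
    rw [hc0, mul_zpow, mul_inv, mul_assoc, mul_assoc]
    congr 1
    rw [mul_comm (cE P E (M * q) ε ^ v)⁻¹, mul_assoc, mul_inv_cancel₀ hε0, mul_one]
  refine ⟨?_, ?_⟩
  · show UnitAt V (g * (cE P E (M * q) w ^ v₁)⁻¹)
    rw [key v₁]
    exact unitAt_mul862 h1 (unitAt_zpow862 hu v₁)
  · show UnitAt _ (g * (cE P E (M * q) w ^ v₂)⁻¹)
    rw [key v₂]
    exact unitAt_mul862 h2 (unitAt_zpow862 hu' v₂)

/-- **SLOPE-CARD, E-form, any good unramified level `E`**, generic in the subgroups `I`, `F`. -/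
theorem slopeCardE_gen862 [NeZero (M * q)] (m : ℕ) (hm : 0 < m) (hq : q.Prime) (hqM : ¬ q ∣ M)
    (hAux : S35.G.HasAux M q) (hP : P.LiesOverPrime q) (hE : A2.GoodField P E)
    (w : RE P E) (hw : Irreducible w) (hU : S36.H803.Unram P E q w)
    (hTh1 : Th1At P E M q w)
    (V : ValuationSubring (FE E (M * q))) (W : FE E (M * q) ≃ₐ[E] FE E (M * q))
    (hV : IsVinf P E (M * q) V) (hW : IsFricke E (M * q) W)
    (F I : AddSubgroup (JZero (M * q)))
    (hgen : ∀ x ∈ I, ∃ y : FE E (M * q), y ≠ 0 ∧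
      IsKummerGen (M * q) m (iota E (modularFunctionFieldFull (M * q)) y) x ∧
      A2.DivisibleDiv E m y)
    (hF : ∀ z ∈ I, (∃ g : FE E (M * q),
        (g ≠ 0 ∧ ∃ D : Divisor.degZero (K := AlgebraicClosure ℚ)
            (F := modularFunctionFieldBar (M * q)),
          Pic0.mk D = z ∧ ∀ v : Place (AlgebraicClosure ℚ) (modularFunctionFieldBar (M * q)),
            v.ord (iota E (modularFunctionFieldFull (M * q)) g) =
              (m : ℤ) * (D : Divisor (AlgebraicClosure ℚ) (modularFunctionFieldBar (M * q))) v) ∧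
        A2.DivisibleDiv E m g ∧
        ∃ a₁ a₃ : ℤ, UnitAt V (g * (algebraMap ↥(RE P E) ↥(FE E (M * q)) w ^ a₁)⁻¹) ∧
          UnitAt (V.comap (W : FE E (M * q) →+* FE E (M * q)))
            (g * (algebraMap ↥(RE P E) ↥(FE E (M * q)) w ^ a₃)⁻¹) ∧
          (m : ℤ) ∣ a₁ - a₃) → z ∈ F) :
    Nat.card I ≤ ((q - 1) * dedekindPsi M) * Nat.card ↥(F ⊓ I) := by
  haveI : IsDiscreteValuationRing ↥(RE P E) := hE.dvr
  haveI : NeZero (q * M) := ⟨mul_ne_zero hq.ne_zero (NeZero.ne M)⟩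
  have hN : M * q ≠ 0 := mul_ne_zero (NeZero.ne M) hq.ne_zero
  obtain ⟨ε, hε, hqw⟩ := hU
  have hw₀ : Irreducible (((q : ℕ) : RE P E)) := by
    rw [hqw]
    exact (irreducible_isUnit_mul hε).mpr hw
  have hS₀ : Setting P E M q ((q : ℕ) : RE P E) :=
    Fermat.Agent.Ribet.H862.setting_of_goodField hq hqM (NeZero.ne M) hP hE hw₀
  have hwq : ((((q : ℕ) : RE P E)) : E) = (q : E) := by simp
  have hTh1₀ : Th1At P E M q ((q : ℕ) : RE P E) :=
    th1At_of_assoc862 P E M q hE.dvr w _ ε hw hε hqw hN hTh1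
  obtain ⟨hB, cf, hcf⟩ := exists_chart_cut862 P E M q _ hS₀ hE hAux V W hV hW
  have key : ∀ x : I, ∃ (g : FE E (M * q)) (v₁ v₂ : ℤ), g ≠ 0 ∧
      A2.DivisibleDiv E m g ∧
      IsKummerGen (M * q) m (iota E (modularFunctionFieldFull (M * q)) g)
        (x : JZero (M * q)) ∧
      I6.ValAt (FE E (M * q)) cf.p₁
        (algebraMap ↥(RE P E) ↥(chartAlg P E (M * q) (xE E M q)) ((q : ℕ) : RE P E)) g v₁ ∧
      I6.ValAt (FE E (M * q)) cf.p₂
        (algebraMap ↥(RE P E) ↥(chartAlg P E (M * q) (xE E M q)) ((q : ℕ) : RE P E)) g v₂ := by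
    intro x
    obtain ⟨g, hg0, hgK, hgdiv⟩ := hgen x x.2
    obtain ⟨v₁, v₂, h1, h2⟩ := exists_valAt_chart (E := E) _ (xE E M q)
      (chartAlg P E (M * q) (xE E M q)) hB cf g hg0
    exact ⟨g, v₁, v₂, hg0, hgdiv, hgK, h1, h2⟩
  choose g v₁ v₂ hg0 hgdiv hgK hv₁ hv₂ using key
  have hs : 0 < (q - 1) * dedekindPsi M :=
    Nat.mul_pos (Nat.sub_pos_of_lt hq.one_lt) (dedekindPsi_pos_of_ne_zero M (NeZero.ne M))
  refine card_le_mul_of_slope862 I F m hm _ hs (fun x => v₁ x - v₂ x) (fun x => ?_)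
    (fun x y hxy => ?_)
  · have hdivK₀ : ∀ v : Place Kbar (FF (M * q)),
        (m : ℤ) ∣ v.ord (iota E (modularFunctionFieldFull (M * q)) (g x)) := by
      obtain ⟨-, D, -, hD⟩ := hgK x
      exact fun v => ⟨_, hD v⟩
    have hdivK := dvd_ord_toFF_of_iota862 E (Nat.mul_comm M q) m (g x) hdivK₀
    exact nodeRelE m q M hm hq hqM hAux P hP E _ hS₀ hE hwq hTh1₀ cf (g x) (hg0 x)
      (hgdiv x) hdivK (v₁ x) (v₂ x) (hv₁ x) (hv₂ x)
  · have hmem : (x : JZero (M * q)) - (y : JZero (M * q)) ∈ I := I.sub_mem x.2 y.2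
    have hmul := valAt_mul_inv_chart862 (E := E) _ (xE E M q)
      (chartAlg P E (M * q) (xE E M q)) hB cf (g x) (g y) (v₁ x) (v₁ y) (v₂ x) (v₂ y)
      (hv₁ x) (hv₁ y) (hv₂ x) (hv₂ y)
    have hK : IsKummerGen (M * q) m
        (iota E (modularFunctionFieldFull (M * q)) (g x * (g y)⁻¹))
        ((x : JZero (M * q)) - (y : JZero (M * q))) := by
      rw [map_mul, map_inv₀, sub_eq_add_neg]
      exact (hgK x).mul (hgK y).inv
    have hg0' : g x * (g y)⁻¹ ≠ 0 := mul_ne_zero (hg0 x) (inv_ne_zero (hg0 y))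
    obtain ⟨hu₁, hu₂⟩ := slopeZero_of_valAt862 P E M q _ w ε hε hqw hS₀ V W hV hW cf hcf
      (g x * (g y)⁻¹) (v₁ x - v₁ y) (v₂ x - v₂ y) hmul.1 hmul.2
    refine hF _ hmem ⟨g x * (g y)⁻¹, ⟨hg0', hK.2⟩,
      Fermat.Agent.A2.Alg.H34.divisibleDiv_mul_inv m (g x) (g y) (hgdiv x) (hgdiv y),
      v₁ x - v₁ y, v₂ x - v₂ y, hu₁, hu₂, ?_⟩
    have e : v₁ x - v₁ y - (v₂ x - v₂ y) = (v₁ x - v₂ x) - (v₁ y - v₂ y) := by ring
    rw [e]
    exact hxy

/-- **SLOPE-CARD, E-form, at the inertia field** `E = ℚ̄^{I_P}` (written as the fixed field): for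
EVERY exponent `m > 0`, every subgroup `I` of inertia-fixed `m`-torsion classes of `J₀(M q)` and
every subgroup `F` containing the E-slope-zero classes of `I`,
`|I| ≤ (q - 1) ψ(M) · |F ⊓ I|`. -/
theorem slopeCardE862 [NeZero (M * q)] (m : ℕ) (hm : 0 < m) (hq : q.Prime) (hqM : ¬ q ∣ M)
    (hAux : S35.G.HasAux M q) (hP : P.LiesOverPrime q)
    (w : RE P (IntermediateField.fixedField (P.inertiaSubgroupIn ℚ))) (hw : Irreducible w)
    (hTh1 : Th1At P (IntermediateField.fixedField (P.inertiaSubgroupIn ℚ)) M q w)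
    (V : ValuationSubring (FE (IntermediateField.fixedField (P.inertiaSubgroupIn ℚ)) (M * q)))
    (W : FE (IntermediateField.fixedField (P.inertiaSubgroupIn ℚ)) (M * q) ≃ₐ[
      IntermediateField.fixedField (P.inertiaSubgroupIn ℚ)]
      FE (IntermediateField.fixedField (P.inertiaSubgroupIn ℚ)) (M * q))
    (hV : IsVinf P (IntermediateField.fixedField (P.inertiaSubgroupIn ℚ)) (M * q) V)
    (hW : IsFricke (IntermediateField.fixedField (P.inertiaSubgroupIn ℚ)) (M * q) W)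
    (F I : AddSubgroup (JZero (M * q)))
    (hI : ∀ x ∈ I, m • x = 0)
    (hfix : ∀ x ∈ I, ∀ σ ∈ P.inertiaSubgroupIn ℚ, σ • x = x)
    (hF : ∀ z ∈ I, (∃ g : FE (IntermediateField.fixedField (P.inertiaSubgroupIn ℚ)) (M * q),
        (g ≠ 0 ∧ ∃ D : Divisor.degZero (K := AlgebraicClosure ℚ)
            (F := modularFunctionFieldBar (M * q)),
          Pic0.mk D = z ∧ ∀ v : Place (AlgebraicClosure ℚ) (modularFunctionFieldBar (M * q)),
            v.ord (iota (IntermediateField.fixedField (P.inertiaSubgroupIn ℚ))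
                (modularFunctionFieldFull (M * q)) g) =
              (m : ℤ) * (D : Divisor (AlgebraicClosure ℚ) (modularFunctionFieldBar (M * q))) v) ∧
        A2.DivisibleDiv (IntermediateField.fixedField (P.inertiaSubgroupIn ℚ)) m g ∧
        ∃ a₁ a₃ : ℤ,
          UnitAt V (g * (algebraMap
            ↥(RE P (IntermediateField.fixedField (P.inertiaSubgroupIn ℚ)))
            ↥(FE (IntermediateField.fixedField (P.inertiaSubgroupIn ℚ)) (M * q)) w ^ a₁)⁻¹) ∧
          UnitAt (V.comap (W : FE (IntermediateField.fixedField (P.inertiaSubgroupIn ℚ)) (M * q)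
              →+* FE (IntermediateField.fixedField (P.inertiaSubgroupIn ℚ)) (M * q)))
            (g * (algebraMap
              ↥(RE P (IntermediateField.fixedField (P.inertiaSubgroupIn ℚ)))
              ↥(FE (IntermediateField.fixedField (P.inertiaSubgroupIn ℚ)) (M * q)) w ^ a₃)⁻¹) ∧
          (m : ℤ) ∣ a₁ - a₃) → z ∈ F) :
    Nat.card I ≤ ((q - 1) * dedekindPsi M) * Nat.card ↥(F ⊓ I) := by
  have hE : A2.GoodField P (IntermediateField.fixedField (P.inertiaSubgroupIn ℚ)) :=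
    goodField_inertiaField P q hq hP
  haveI : IsDiscreteValuationRing
      ↥(RE P (IntermediateField.fixedField (P.inertiaSubgroupIn ℚ))) := hE.dvr
  have hS₀ : Setting P (IntermediateField.fixedField (P.inertiaSubgroupIn ℚ)) M q
      ((q : ℕ) : RE P (IntermediateField.fixedField (P.inertiaSubgroupIn ℚ))) :=
    setting_inertiaField P q M hq hqM (NeZero.ne M) hP
  have hU : S36.H803.Unram P (IntermediateField.fixedField (P.inertiaSubgroupIn ℚ)) q w := by
    obtain ⟨u, hu⟩ := IsDiscreteValuationRing.associated_of_irreducible _ hw hS₀.unif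
    exact ⟨(u : RE P (IntermediateField.fixedField (P.inertiaSubgroupIn ℚ))), u.isUnit, by
      rw [← hu, mul_comm]⟩
  exact slopeCardE_gen862 P (IntermediateField.fixedField (P.inertiaSubgroupIn ℚ)) M q m hm hq hqM
    hAux hP hE w hw hU hTh1 V W hV hW F I
    (fun x hx => by
      obtain ⟨y, hy0, hkum, hdiv⟩ := exists_fixed_kummerGen_aux (M * q) m P x (hI x hx)
        (hfix x hx)
      exact ⟨y, hy0, hkum, hdiv⟩) hF

end Level

end Fermat.Agent.S59.LoSqC.H862

end

end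
-- ===== PACK-END S59/LoSqC/H862/SlopeCardE.lean

-- ===== PACK-BEGIN S59/LoSqC/H862/SlopeZeroGen.lean
section


/-!
# S59 / cell (C) LO-SQ / W-COUNT: `HasSlopeZeroGen` in valuation-ring form (helper862)

Bridge requested by helper27 (#12132 (2)): a class with `H862.HasSlopeZeroGen` (branch valuations
on a semistable chart structure of the finite chart, uniformiser `q`) has an `E`-rational Kummer
generator whose orders along `V∞` and `V₀ = V∞ ∘ W` (ANY `IsVinf V`, `IsFricke W`), measured with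
ANY uniformiser `w` of `R_E`, are congruent modulo `m`.  `E` is the inertia field of `P`.

* `slopeZeroE_of_valAt_any862` : the same at any good level `E` with uniformiser `w₀ = ε w`, for
  ANY semistable chart structure `cf` on the finite chart (the two components are cut out by
  `V∞`, `V₀` in one of the two orders: `Ribet.H862.cutBy_of_isCoordPair`).
* `slopeZeroE_of_hasSlopeZeroGen862` : the statement for `HasSlopeZeroGen`.
-/

set_option autoImplicit false
set_option linter.unusedSectionVars false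
set_option linter.unusedVariables false
set_option linter.style.haveILetI false
set_option synthInstance.maxHeartbeats 400000
set_option maxHeartbeats 1600000

noncomputable section

open AlgebraicCurve

namespace Fermat.Agent.S59.LoSqC.H862

section Level

open ModularCurve HahnSeries
open Fermat.Agent.S24 Fermat.Agent.Ribet.H884 Fermat.Agent.Ribet.H158.WallQ
open Fermat.Agent.A2.Mod Fermat.Agent.Ribet.H868
open Fermat.Agent.Ribet.H704 (I6.ValAt)
open Fermat.Agent.A2.T1.H669 (iota)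
open Fermat.Agent.A2.IF.H429 (inertiaField)
open Fermat.Agent.S36.Eng (UnitAt)

variable (P : ValuationSubring (AlgebraicClosure ℚ))
  (E : IntermediateField ℚ (AlgebraicClosure ℚ)) (M q : ℕ) [NeZero M] [NeZero q]

/-- **Branch valuations on ANY chart structure give the orders along `V∞`, `V₀`**, up to the
order of the two components; in particular the slope modulo `m` is the same. -/
theorem slopeZeroE_of_valAt_any862 (m : ℕ) (w₀ w ε : RE P E) (hε : IsUnit ε) (h : w₀ = ε * w)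
    (hS₀ : Setting P E M q w₀) (hAux : S35.G.HasAux M q)
    (V : ValuationSubring (FE E (M * q))) (W : FE E (M * q) ≃ₐ[E] FE E (M * q))
    (hV : IsVinf P E (M * q) V) (hW : IsFricke E (M * q) W)
    (cf : A2.SSChart w₀ (chartAlg P E (M * q) (xE E M q)))
    (g : FE E (M * q)) (v₁ v₂ : ℤ)
    (hv₁ : I6.ValAt (FE E (M * q)) cf.p₁
      (algebraMap ↥(RE P E) ↥(chartAlg P E (M * q) (xE E M q)) w₀) g v₁)
    (hv₂ : I6.ValAt (FE E (M * q)) cf.p₂
      (algebraMap ↥(RE P E) ↥(chartAlg P E (M * q) (xE E M q)) w₀) g v₂)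
    (hdvd : (m : ℤ) ∣ v₁ - v₂) :
    ∃ a₁ a₂ : ℤ, UnitAt V (g * (cE P E (M * q) w ^ a₁)⁻¹) ∧
      UnitAt (V.comap (W : FE E (M * q) →+* FE E (M * q))) (g * (cE P E (M * q) w ^ a₂)⁻¹) ∧
      (m : ℤ) ∣ a₁ - a₂ := by
  rcases Fermat.Agent.Ribet.H862.cutBy_of_isCoordPair hS₀ hAux.1 hAux.2 V W hV hW _ _
      (Or.inl ⟨rfl, rfl⟩) (chartAlg P E (M * q) (xE E M q)) (fun _ => Iff.rfl) cf with hc | hc
  · obtain ⟨h1, h2⟩ := slopeZero_of_valAt862 P E M q w₀ w ε hε h hS₀ V W hV hW cf hc g v₁ v₂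
      hv₁ hv₂
    exact ⟨v₁, v₂, h1, h2, hdvd⟩
  · have hc' : S35.G.CutBy w₀ (chartAlg P E (M * q) (xE E M q))
        (Fermat.Agent.Ribet.H862.swapChart cf) V
        (V.comap (W : FE E (M * q) →+* FE E (M * q))) :=
      Fermat.Agent.Ribet.H862.cutBy_swap hc rfl rfl
    obtain ⟨h1, h2⟩ := slopeZero_of_valAt862 P E M q w₀ w ε hε h hS₀ V W hV hW
      (Fermat.Agent.Ribet.H862.swapChart cf) hc' g v₂ v₁ hv₂ hv₁
    exact ⟨v₂, v₁, h1, h2, (dvd_sub_comm).mp hdvd⟩

variable (m : ℕ) [NeZero (q * M)]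

/-- **`HasSlopeZeroGen` in valuation-ring form** (inertia field, ANY uniformiser `w`, ANY
`IsVinf V`, `IsFricke W`). -/
theorem slopeZeroE_of_hasSlopeZeroGen862 (hq : q.Prime) (hqM : ¬ q ∣ M)
    (hAux : S35.G.HasAux M q) (hP : P.LiesOverPrime q)
    (w : RE P (inertiaField P)) (hw : Irreducible w)
    (V : ValuationSubring (FE (inertiaField P) (M * q)))
    (W : FE (inertiaField P) (M * q) ≃ₐ[inertiaField P] FE (inertiaField P) (M * q))
    (hV : IsVinf P (inertiaField P) (M * q) V) (hW : IsFricke (inertiaField P) (M * q) W)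
    (x : JZero (q * M)) (hx : HasSlopeZeroGen m q M P x) :
    ∃ g : FE (inertiaField P) (M * q), g ≠ 0 ∧ A2.DivisibleDiv (inertiaField P) m g ∧
      IsKummerGen (q * M) m (toFF (inertiaField P) (Nat.mul_comm M q) g) x ∧
      ∃ a₁ a₂ : ℤ, UnitAt V (g * (cE P (inertiaField P) (M * q) w ^ a₁)⁻¹) ∧
        UnitAt (V.comap (W : FE (inertiaField P) (M * q) →+* FE (inertiaField P) (M * q)))
          (g * (cE P (inertiaField P) (M * q) w ^ a₂)⁻¹) ∧
        (m : ℤ) ∣ a₁ - a₂ := by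
  obtain ⟨g, cf, v₁, v₂, hg0, hgdiv, hgK, hv₁, hv₂, hdvd⟩ := hx
  have hE : A2.GoodField P (inertiaField P) := goodField_inertiaField P q hq hP
  haveI : IsDiscreteValuationRing ↥(RE P (inertiaField P)) := hE.dvr
  have hS₀ : Setting P (inertiaField P) M q ((q : ℕ) : RE P (inertiaField P)) :=
    setting_inertiaField P q M hq hqM (NeZero.ne M) hP
  obtain ⟨u, hu⟩ := IsDiscreteValuationRing.associated_of_irreducible _ hw hS₀.unif
  have hqw : ((q : ℕ) : RE P (inertiaField P)) = (u : RE P (inertiaField P)) * w := by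
    rw [← hu, mul_comm]
  exact ⟨g, hg0, hgdiv, hgK,
    slopeZeroE_of_valAt_any862 P (inertiaField P) M q m _ w _ u.isUnit hqw hS₀ hAux V W hV hW cf
      g v₁ v₂ hv₁ hv₂ hdvd⟩

end Level

end Fermat.Agent.S59.LoSqC.H862

end

end
-- ===== PACK-END S59/LoSqC/H862/SlopeZeroGen.lean

-- ===== PACK-BEGIN S59/LoSqC/H862/SlopeCompat.lean
section


/-!
# S59 / cell (C) LO-SQ / W-COUNT, leaf COMPAT (`hFk`) in the J-native vocabulary (helper862)

`F n = {x | HasSlopeZeroGen (p ^ n) q M' A x}` (helper34's `slopeZeroPart_h34`).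

* `exists_root_of_kummerGen862` : over `ℚ̄`, a Kummer generator of exponent `d k` of a class
  killed by `k` is `c · H ^ d` with `H` a Kummer generator of exponent `k`.
* `exists_root_E862` : the same over the inertia field (descent
  `S36.H756.descend_const_mul_pow`), with `A2.DivisibleDiv E k h₁`.
* `valAt_const_mul_pow_chart862` : branch valuations of `c₁ h₁ ^ d` on a chart:
  `v₁ - v₂ = d (u₁ - u₂)`.
* **`hasSlopeZeroGen_of_mul862`** : `HasSlopeZeroGen (d k) x`, `k • x = 0` ⟹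
  `HasSlopeZeroGen k x`.
* **`hasSlopeZeroGen_pow_succ862`** : `hFk` VERBATIM for `F n = {HasSlopeZeroGen (p ^ n)}`:
  `HasSlopeZeroGen (p ^ (n + 1)) x`, `p • x = 0` ⟹ `HasSlopeZeroGen (p ^ 1) x`.
-/

set_option autoImplicit false
set_option linter.unusedSectionVars false
set_option linter.unusedVariables false
set_option linter.style.haveILetI false
set_option synthInstance.maxHeartbeats 400000
set_option maxHeartbeats 1600000

noncomputable section

open AlgebraicCurve

namespace Fermat.Agent.S59.LoSqC.H862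

/-! ## Constants of a discrete valuation ring -/

section DVR

/-- In a discrete valuation ring `O` with fraction field `E` and uniformiser `w`, every nonzero
`e ∈ E` is `ε · w ^ j` with `ε ∈ Oˣ`, `j ∈ ℤ`. -/
theorem exists_unit_mul_zpow862 {O E : Type*} [CommRing O] [IsDomain O]
    [IsDiscreteValuationRing O] [Field E] [Algebra O E] [IsFractionRing O E] {w : O}
    (hw : Irreducible w) {e : E} (he : e ≠ 0) :
    ∃ (ε : O) (j : ℤ), IsUnit ε ∧ e = algebraMap O E ε * (algebraMap O E w) ^ j := by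
  obtain ⟨a, b, hb, rfl⟩ := IsFractionRing.div_surjective (A := O) e
  have hb0 : b ≠ 0 := nonZeroDivisors.ne_zero hb
  have ha0 : a ≠ 0 := by
    rintro rfl
    rw [map_zero, zero_div] at he
    exact he rfl
  obtain ⟨k, u, hu⟩ := IsDiscreteValuationRing.eq_unit_mul_pow_irreducible ha0 hw
  obtain ⟨k', u', hu'⟩ := IsDiscreteValuationRing.eq_unit_mul_pow_irreducible hb0 hw
  have hw0 : algebraMap O E w ≠ 0 :=
    (map_ne_zero_iff _ (IsFractionRing.injective O E)).2 hw.ne_zero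
  have hu'0 : algebraMap O E (u' : O) ≠ 0 :=
    (map_ne_zero_iff _ (IsFractionRing.injective O E)).2 u'.ne_zero
  refine ⟨((u * u'⁻¹ : Oˣ) : O), (k : ℤ) - (k' : ℤ), Units.isUnit _, ?_⟩
  have h1 : algebraMap O E ((u * u'⁻¹ : Oˣ) : O) * algebraMap O E (u' : O) =
      algebraMap O E (u : O) := by
    rw [← map_mul]
    congr 1
    rw [Units.val_mul, mul_assoc, Units.inv_mul, mul_one]
  rw [hu, hu', map_mul, map_mul, map_pow, map_pow, zpow_sub₀ hw0, zpow_natCast, zpow_natCast,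
    ← h1]
  field_simp

end DVR

/-! ## Branch valuations of `c₁ h₁ ^ d` -/

section AlgChart

open IsLocalRing Fermat.Agent.Ribet.H704 Fermat.Agent.A2 Fermat.Agent.A2.Alg.H132
open Fermat.Agent.A2.H849 Fermat.Agent.A2.H609
open Fermat.Agent.A2.Alg Fermat.Agent.A2.Alg.H609

variable {R E F : Type} [CommRing R] [IsDomain R] [IsDiscreteValuationRing R]
  [Field E] [CharZero E] [Algebra R E] [IsFractionRing R E]
  [Field F] [Algebra E F] [Algebra R F] [IsScalarTower R E F]

/-- Branch valuations of a constant times a `d`-th power on a chart: the slope is `d` times the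
slope of the root. -/
theorem valAt_const_mul_pow_chart862
    (w : R) (x : F) (B : Subalgebra R F) (hB : ChartCtx E w x B) (c : SSChart w B)
    (c₁ : E) (hc₁ : c₁ ≠ 0) (h₁ : F) (hh₁ : h₁ ≠ 0) (d : ℕ) (v₁ v₂ : ℤ)
    (hv₁ : I6.ValAt F c.p₁ (algebraMap R B w) (algebraMap E F c₁ * h₁ ^ d) v₁)
    (hv₂ : I6.ValAt F c.p₂ (algebraMap R B w) (algebraMap E F c₁ * h₁ ^ d) v₂) :
    ∃ u₁ u₂ : ℤ, I6.ValAt F c.p₁ (algebraMap R B w) h₁ u₁ ∧
      I6.ValAt F c.p₂ (algebraMap R B w) h₁ u₂ ∧ v₁ - v₂ = (d : ℤ) * (u₁ - u₂) := by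
  obtain ⟨hnoeth, hic, hfrac⟩ := H34.chart_instances' w x B hB
  have hp₁ : c.p₁.IsPrime := c.prime₁
  have hp₂ : c.p₂.IsPrime := c.prime₂
  have hw0 : algebraMap R B w ≠ 0 :=
    Fermat.Agent.A2.H609.ne_zero_of_inf_eq_span c.p₁ c.p₂ c.inf_eq c.not_le₁₂ c.not_le₂₁
  have hV₁ : VertData (algebraMap R B w) c.p₁ c.p₂ := ⟨c.prime₁, hw0, c.not_le₂₁, c.inf_eq⟩
  have hV₂ : VertData (algebraMap R B w) c.p₂ c.p₁ :=
    ⟨c.prime₂, hw0, c.not_le₁₂, by rw [inf_comm]; exact c.inf_eq⟩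
  obtain ⟨u₁, hu₁⟩ := Fermat.Agent.Ribet.H132.exists_valAt (K := F) hV₁ hh₁
  obtain ⟨u₂, hu₂⟩ := Fermat.Agent.Ribet.H132.exists_valAt (K := F) hV₂ hh₁
  -- the constant
  obtain ⟨ε, j, hε, hcj⟩ := exists_unit_mul_zpow862
    (O := R) (E := E) hB.hw hc₁
  have hcF : algebraMap E F c₁ =
      algebraMap B F (algebraMap R B ε) * (algebraMap B F (algebraMap R B w)) ^ j := by
    rw [hcj, map_mul, map_zpow₀, ← IsScalarTower.algebraMap_apply R E F,
      ← IsScalarTower.algebraMap_apply R E F]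
    rfl
  have hεB : IsUnit (algebraMap R B ε) := hε.map _
  have key : ∀ (𝔭 𝔮 : Ideal B) (hV : VertData (algebraMap R B w) 𝔭 𝔮),
      I6.ValAt F 𝔭 (algebraMap R B w) (algebraMap E F c₁) j := by
    intro 𝔭 𝔮 hV
    have hnot : algebraMap R B ε ∉ 𝔭 := fun hmem =>
      hV.prime.ne_top (Ideal.eq_top_of_isUnit_mem _ hmem hεB)
    have h1 := Fermat.Agent.Ribet.H132.valAt_of_notMem (K := F) hV hnot
    have h2 : I6.ValAt F 𝔭 (algebraMap R B w) ((algebraMap B F (algebraMap R B w)) ^ j) j := by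
      have hpi := Fermat.Agent.Ribet.H132.valAt_pi (K := F) hV
      rcases Int.eq_nat_or_neg j with ⟨n, rfl | rfl⟩
      · have := Fermat.Agent.Ribet.H132.valAt_pow (K := F) hV hpi n
        rwa [mul_one, ← zpow_natCast] at this
      · have := Fermat.Agent.Ribet.H132.valAt_inv (K := F) hV
          (Fermat.Agent.Ribet.H132.valAt_pow (K := F) hV hpi n)
        rwa [mul_one, ← zpow_natCast, ← zpow_neg] at this
    have h3 := Fermat.Agent.Ribet.H132.valAt_mul (K := F) hV h1 h2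
    rwa [zero_add, ← hcF] at h3
  have e₁ : v₁ = j + (d : ℤ) * u₁ :=
    Fermat.Agent.Ribet.H132.valAt_unique (K := F) hV₁ hv₁
      (Fermat.Agent.Ribet.H132.valAt_mul (K := F) hV₁ (key _ _ hV₁)
        (Fermat.Agent.Ribet.H132.valAt_pow (K := F) hV₁ hu₁ d))
  have e₂ : v₂ = j + (d : ℤ) * u₂ :=
    Fermat.Agent.Ribet.H132.valAt_unique (K := F) hV₂ hv₂
      (Fermat.Agent.Ribet.H132.valAt_mul (K := F) hV₂ (key _ _ hV₂)
        (Fermat.Agent.Ribet.H132.valAt_pow (K := F) hV₂ hu₂ d))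
  refine ⟨u₁, u₂, hu₁, hu₂, ?_⟩
  rw [e₁, e₂]
  ring

end AlgChart

/-! ## Roots of Kummer generators -/

section Level

open ModularCurve HahnSeries
open Fermat.Agent.S24 Fermat.Agent.Ribet.H884 Fermat.Agent.Ribet.H158.WallQ
open Fermat.Agent.A2.Mod Fermat.Agent.Ribet.H868
open Fermat.Agent.Ribet.H704 (I6.ValAt)
open Fermat.Agent.A2.T1.H669 (iota)
open Fermat.Agent.A2.IF.H429 (inertiaField)

/-- **Root over `ℚ̄`**: a Kummer generator of exponent `d k` of a class killed by `k` is a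
constant times the `d`-th power of a Kummer generator of exponent `k`. -/
theorem exists_root_of_kummerGen862 (N : ℕ) [NeZero N] (d k : ℕ) (hd : 0 < d) (f : FF N)
    (x : JZero N) (hf : IsKummerGen N (d * k) f x) (hkx : k • x = 0) :
    ∃ (c : Kbar) (H : FF N), c ≠ 0 ∧ H ≠ 0 ∧ f = algebraMap Kbar (FF N) c * H ^ d ∧
      IsKummerGen N k H x := by
  obtain ⟨hf0, D, rfl, hord⟩ := hf
  have e : k • (Pic0.mk D : JZero N) = Pic0.mk (k • D) := rfl
  rw [e] at hkx
  have hmem := (QuotientAddGroup.eq_zero_iff (k • D)).mp hkx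
  rw [AddSubgroup.mem_addSubgroupOf] at hmem
  obtain ⟨H, hH0, hH⟩ := hmem
  have hHv : ∀ v : Place Kbar (FF N), v.ord H = (k : ℤ) * (D : Divisor Kbar (FF N)) v := by
    intro v
    rw [← hH v]
    simp
  have hHd0 : H ^ d ≠ 0 := pow_ne_zero d hH0
  have hu0 : f * (H ^ d)⁻¹ ≠ 0 := mul_ne_zero hf0 (inv_ne_zero hHd0)
  have hu : ∀ v : Place Kbar (FF N), v.ord (f * (H ^ d)⁻¹) = 0 := by
    intro v
    rw [v.ord_mul hf0 (inv_ne_zero hHd0), v.ord_inv, ← zpow_natCast, v.ord_zpow, hord v, hHv v]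
    push_cast
    ring
  obtain ⟨c, hc⟩ := Fermat.Agent.S18.H504.constOfOrdZero_modularFunctionFieldBar N _ hu0 hu
  have hc0 : c ≠ 0 := by
    rintro rfl
    rw [map_zero] at hc
    exact hu0 hc
  refine ⟨c, H, hc0, hH0, ?_, hH0, D, rfl, hHv⟩
  rw [← hc, mul_assoc, inv_mul_cancel₀ hHd0, mul_one]

/-- **Root over the inertia field** (written as a fixed field). -/
theorem exists_root_E862 (A : ValuationSubring Kbar) (N : ℕ) [NeZero N] (d k : ℕ) (hd : 0 < d)
    (g : FE (IntermediateField.fixedField (A.inertiaSubgroupIn ℚ)) N) (x : JZero N)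
    (hg : IsKummerGen N (d * k)
      (iota (IntermediateField.fixedField (A.inertiaSubgroupIn ℚ))
        (modularFunctionFieldFull N) g) x)
    (hkx : k • x = 0) :
    ∃ (c₁ : IntermediateField.fixedField (A.inertiaSubgroupIn ℚ))
      (h₁ : FE (IntermediateField.fixedField (A.inertiaSubgroupIn ℚ)) N), c₁ ≠ 0 ∧ h₁ ≠ 0 ∧
      g = algebraMap (IntermediateField.fixedField (A.inertiaSubgroupIn ℚ))
        (FE (IntermediateField.fixedField (A.inertiaSubgroupIn ℚ)) N) c₁ * h₁ ^ d ∧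
      IsKummerGen N k (iota (IntermediateField.fixedField (A.inertiaSubgroupIn ℚ))
        (modularFunctionFieldFull N) h₁) x ∧
      A2.DivisibleDiv (IntermediateField.fixedField (A.inertiaSubgroupIn ℚ)) k h₁ := by
  obtain ⟨c, H, hc, hH, hfH, hHK⟩ := exists_root_of_kummerGen862 N d k hd _ x hg hkx
  obtain ⟨c₁, h₁, hc₁, hh₁, hgh⟩ := Fermat.Agent.S36.H756.descend_const_mul_pow
    (A.inertiaSubgroupIn ℚ) hd g c H hc hH hfH
  obtain ⟨hg0, D, hDx, hord⟩ := hg
  have hι : iota (IntermediateField.fixedField (A.inertiaSubgroupIn ℚ))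
      (modularFunctionFieldFull N) h₁ ≠ 0 :=
    Fermat.Agent.A2.T1.H669.iota_ne_zero _ _ hh₁
  have hord' : ∀ v : Place Kbar (FF N),
      v.ord (iota (IntermediateField.fixedField (A.inertiaSubgroupIn ℚ))
        (modularFunctionFieldFull N) h₁) = (k : ℤ) * (D : Divisor Kbar (FF N)) v := by
    intro v
    have h1 := hord v
    rw [hgh, map_mul, map_pow, Fermat.Agent.S36.H756.iota_algebraMap_E,
      v.ord_mul (by simpa using hc₁) (pow_ne_zero d hι),
      Fermat.Agent.S36.H756.ord_const_eq_zero, zero_add, ← zpow_natCast, v.ord_zpow] at h1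
    have hd' : (d : ℤ) ≠ 0 := by exact_mod_cast hd.ne'
    apply mul_left_cancel₀ hd'
    rw [h1]
    push_cast
    ring
  refine ⟨c₁, h₁, hc₁, hh₁, hgh, ⟨hι, D, hDx, hord'⟩, ?_⟩
  exact Fermat.Agent.A2.T1.H669.divisibleDiv_of_ord
    (IntermediateField.fixedField (A.inertiaSubgroupIn ℚ)) (modularFunctionFieldFull N) k h₁ hh₁
    (fun v => ⟨_, hord' v⟩)

/-- The same with the level renamed on the `J`-side. -/
theorem exists_root_cast862 (A : ValuationSubring Kbar) {N N' : ℕ} [NeZero N] [NeZero N']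
    (h : N = N') (d k : ℕ) (hd : 0 < d)
    (g : FE (IntermediateField.fixedField (A.inertiaSubgroupIn ℚ)) N) (x : JZero N')
    (hg : IsKummerGen N' (d * k)
      (toFF (IntermediateField.fixedField (A.inertiaSubgroupIn ℚ)) h g) x)
    (hkx : k • x = 0) :
    ∃ (c₁ : IntermediateField.fixedField (A.inertiaSubgroupIn ℚ))
      (h₁ : FE (IntermediateField.fixedField (A.inertiaSubgroupIn ℚ)) N), c₁ ≠ 0 ∧ h₁ ≠ 0 ∧
      g = algebraMap (IntermediateField.fixedField (A.inertiaSubgroupIn ℚ))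
        (FE (IntermediateField.fixedField (A.inertiaSubgroupIn ℚ)) N) c₁ * h₁ ^ d ∧
      IsKummerGen N' k (toFF (IntermediateField.fixedField (A.inertiaSubgroupIn ℚ)) h h₁) x ∧
      A2.DivisibleDiv (IntermediateField.fixedField (A.inertiaSubgroupIn ℚ)) k h₁ := by
  subst h
  exact exists_root_E862 A N d k hd g x hg hkx

variable (q M' : ℕ) [NeZero M'] [NeZero q] [NeZero (q * M')]

/-- **COMPAT in the modulus**: a slope-zero class of exponent `d k` killed by `k` is a slope-zero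
class of exponent `k`. -/
theorem hasSlopeZeroGen_of_mul862 (d k : ℕ) (hd : 0 < d) (hq : q.Prime) (hqM : ¬ q ∣ M')
    (hAux : S35.G.HasAux M' q) (A : ValuationSubring Kbar) (hA : A.LiesOverPrime q)
    (x : JZero (q * M')) (hx : HasSlopeZeroGen (d * k) q M' A x) (hkx : k • x = 0) :
    HasSlopeZeroGen k q M' A x := by
  obtain ⟨g, cf, v₁, v₂, hg0, hgdiv, hgK, hv₁, hv₂, hdvd⟩ := hx
  have hE : A2.GoodField A (inertiaField A) := goodField_inertiaField A q hq hA
  have hS : Setting A (inertiaField A) M' q ((q : ℕ) : RE A (inertiaField A)) :=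
    setting_inertiaField A q M' hq hqM (NeZero.ne M') hA
  haveI : IsDiscreteValuationRing ↥(RE A (inertiaField A)) := hS.dvr
  haveI : NeZero (M' * q) := ⟨mul_ne_zero (NeZero.ne M') hq.ne_zero⟩
  obtain ⟨c₁, h₁, hc₁, hh₁, hgh, hK, hdiv⟩ :=
    exists_root_cast862 A (Nat.mul_comm M' q) d k hd g x hgK hkx
  -- the chart context
  obtain ⟨hx', hfr, hconst⟩ := H31.deg (inertiaField A) M' q hq hqM
  have hpos : 0 < Module.finrank
      (IntermediateField.adjoin (inertiaField A)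
        ({xE (inertiaField A) M' q} : Set (FE (inertiaField A) (M' * q))))
      (FE (inertiaField A) (M' * q)) := by
    rw [hfr]
    have h1 := dedekindPsi_pos_of_ne_zero M' (NeZero.ne M')
    positivity
  have hfin : FiniteDimensional
      (IntermediateField.adjoin (inertiaField A)
        ({xE (inertiaField A) M' q} : Set (FE (inertiaField A) (M' * q))))
      (FE (inertiaField A) (M' * q)) := Module.finite_of_finrank_pos hpos
  have hB : A2.Alg.ChartCtx (inertiaField A) ((q : ℕ) : RE A (inertiaField A))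
      (xE (inertiaField A) M' q) (chartAlg A (inertiaField A) (M' * q) (xE (inertiaField A) M' q)) :=
    ⟨hS.unif, hx', hfin, hconst, fun _ => Iff.rfl⟩
  have hv₁' := hv₁
  have hv₂' := hv₂
  rw [hgh] at hv₁' hv₂'
  obtain ⟨u₁, u₂, hu₁, hu₂, hrel⟩ := valAt_const_mul_pow_chart862 (E := inertiaField A) _
    (xE (inertiaField A) M' q) (chartAlg A (inertiaField A) (M' * q) (xE (inertiaField A) M' q))
    hB cf c₁ hc₁ h₁ hh₁ d v₁ v₂ hv₁' hv₂'
  refine ⟨h₁, cf, u₁, u₂, hh₁, hdiv, hK, hu₁, hu₂, ?_⟩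
  rw [hrel] at hdvd
  have hd' : (d : ℤ) ≠ 0 := by exact_mod_cast hd.ne'
  have h2 : ((d : ℤ) * (k : ℤ)) ∣ (d : ℤ) * (u₁ - u₂) := by
    have : ((d * k : ℕ) : ℤ) = (d : ℤ) * (k : ℤ) := by push_cast; ring
    rwa [this] at hdvd
  exact (mul_dvd_mul_iff_left hd').mp h2

/-- **`hFk`** for `F n = {x | HasSlopeZeroGen (p ^ n) q M' A x}`, VERBATIM. -/
theorem hasSlopeZeroGen_pow_succ862 (p n : ℕ) (hp : 0 < p) (hq : q.Prime) (hqM : ¬ q ∣ M')
    (hAux : S35.G.HasAux M' q) (A : ValuationSubring Kbar) (hA : A.LiesOverPrime q)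
    (x : JZero (q * M')) (hx : HasSlopeZeroGen (p ^ (n + 1)) q M' A x) (hpx : p • x = 0) :
    HasSlopeZeroGen (p ^ 1) q M' A x := by
  rw [pow_one]
  rw [pow_succ] at hx
  exact hasSlopeZeroGen_of_mul862 q M' (p ^ n) p (pow_pos hp n) hq hqM hAux A hA x hx hpx

end Level

end Fermat.Agent.S59.LoSqC.H862

end

end
-- ===== PACK-END S59/LoSqC/H862/SlopeCompat.lean

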