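import Fermat.Statements.S19
import Fermat.Prelude.Def_CuspForm_HeckeGaloisRepDatum
import Fermat.Agent.Pack.S44C.G0E30L1
import Fermat.Agent.Pack.S59C.E12L1
import Fermat.Agent.Pack.S59C.E11L3
import Fermat.Agent.Pack.S43MC.G0E28L2
import Fermat.Agent.Pack.S59C.E12L3
import Fermat.Agent.Pack.S43MC.G0E25L1
import Fermat.Agent.Pack.S44C.G0E29L3
import Fermat.Agent.Pack.S59C.E10L2
import Fermat.Agent.Pack.S43MC.G0E12L2
import Fermat.Agent.Pack.S59C.E3L3
import Fermat.Agent.Pack.S43MC.G0E28L1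
import Fermat.Agent.Pack.S59C.E6L2
import Fermat.Agent.Pack.S59C.E12L2
import Fermat.Agent.Pack.S59C.E7L0
import Fermat.Agent.Pack.S43C.E3L0
import Fermat.Agent.Pack.S43C.E3L3
import Fermat.Agent.Pack.S43C.E1L3
import Fermat.Agent.Pack.S43C.E3L2
import Fermat.Agent.Pack.S43C.E2L2
import Fermat.Agent.Pack.S43C.E1L2
import Fermat.Agent.Pack.S43MC.G0E27L3
import Fermat.Agent.Pack.S43MC.G0E7L1
import Fermat.Agent.Pack.S43MC.G0E20L3
import Fermat.Agent.Pack.S43GC.G0E11L1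
import Fermat.Agent.Pack.S59C.E11L0
import Fermat.Agent.Pack.S44C.G0E18L3
import Fermat.Agent.Pack.S43MC.G0E27L1
import Fermat.Agent.Pack.S44C.G0E28L0
import Fermat.Agent.Pack.S44C.G0E29L0
import Fermat.Agent.Pack.S44C.G0E5L2
import Fermat.Agent.Pack.S43MC.G0E28L0
import Fermat.Agent.Pack.S59C.E1L2
import Fermat.Agent.Pack.S59C.E10L1
import Fermat.Agent.Pack.S59C.E11L2

set_option linter.all false

-- ===== PACK-BEGIN S33/H558/DKReady.lean
section



/-!
# S33 / row 38 — the leaf DK of the (S2)-chain at READY levels, in the frozen form (helper558)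

`deepKummerReady : S33.H849.DeepKummerReadyStatement` (VERBATIM, unconditional), from
`Ribet.H558.deepKummerReady_h558` (`Ribet/H558/{DKLevel,DK}.lean`).
-/

set_option autoImplicit false

namespace Fermat.Agent.S33.H558

/-- **DK at READY levels** — `S33.H849.DeepKummerReadyStatement`, verbatim. -/
theorem deepKummerReady : Fermat.Agent.S33.H849.DeepKummerReadyStatement :=
  Fermat.Agent.Ribet.H558.deepKummerReady_h558

end Fermat.Agent.S33.H558

end
-- ===== PACK-END S33/H558/DKReady.lean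

-- ===== PACK-BEGIN S59/TW/H314/CmpWire2.lean
section




/-!
# Row S59, cell TW, layer 3 leaf CMP: the wiring, second round  (helper314)

`cmp_of_dictR`: the leaf `Aut.CmpStatement` from the LAST open leaf DICT-R (`CmpSpec.lean`) and
the frozen statements S30, S35, S36.  Plugged: FREE (`Aut.H779.freeQ_h779`, helper779), DICT-T
(`H81.dictT`, helper81), GAL-T (`galT`), GAL-R (`H788.galR788`, helper788), CMP-GLUE (`cmpGlue`).
-/

set_option autoImplicit false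

namespace Fermat.Agent.S59.TW.H314

open Fermat.Agent.S59.TW.Aut

/-- **Leaf CMP from DICT-R + S30 + S35 + S36.** -/
theorem cmp_of_dictR (dR : DictRStatement)
    (h30 : Fermat.Agent.S31.S30Statement) (h35 : Fermat.Agent.S58.S35Statement)
    (h36 : Fermat.Agent.S58.S36Statement) : CmpStatement :=
  cmp_of_dict Fermat.Agent.S59.TW.Aut.H779.freeQ_h779 Fermat.Agent.S59.TW.H81.dictT dR h30 h35 h36

end Fermat.Agent.S59.TW.H314

end
-- ===== PACK-END S59/TW/H314/CmpWire2.lean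

-- ===== PACK-BEGIN S59/NMP/H161/KumAll.lean
section




/-!
# Row S59, cell NMP, leaf LGC / BETTI (helper161): the `p`-primary Kummer map, Hecke at ALL `ℓ ∤ N`

`κ = S30.H330.kumQZ N p` is the Kummer map on the `ℚ/ℤ`-valued parabolic characters of `Γ₀(N)` of
`p`-power order.  With the unconditional Kummer packages `S30.Chain.kumPackage` and the Hecke
compatibility of the dictionary at every prime `ℓ ∤ N` (`S15.H337.isKum_hecke_all`, including
`ℓ = p`), `κ` is additive, injective, and `κ (T_ℓ c) = T_ℓ (κ c)` for EVERY prime `ℓ ∤ N`.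
-/

set_option autoImplicit false

noncomputable section

namespace Fermat.Agent.S59.NMP.H161

open Fermat.Agent.S29 Fermat.Agent.S29.M4b ModularCurve Fermat.Agent.S30.H450
  Fermat.Agent.S30.H330

variable {N : ℕ} [NeZero N]

/-- The Kummer relation for `ℚ/ℤ`-valued characters is Hecke-compatible at every `ℓ ∤ N`. -/
theorem isKumQZ_hecke_any {m : ℕ} [NeZero m] (ℓ : Nat.Primes) (hℓ : ¬ (ℓ : ℕ) ∣ N)
    {c : G0 N → QZ} {x : JZero N} (h : IsKumQZ N m c x) :
    IsKumQZ N m (heckeCoh N ℓ c) (heckeOperatorBar N ℓ x) := by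
  obtain ⟨cm, hcm, hk⟩ := h
  refine ⟨heckeCoh N ℓ cm, fun γ => ?_, Fermat.Agent.S15.H337.isKum_hecke_all N m ℓ hℓ hk⟩
  have h1 := congrFun (heckeCoh_comp (N := N) (ℓ : ℕ) cm (zmodToQZ m)) γ
  rw [← h1]
  congr 1
  funext γ'
  exact hcm γ'

variable {p : ℕ} [NeZero p]

/-- The packages at all `p`-power moduli. -/
theorem kumPackages (N : ℕ) [NeZero N] (p : ℕ) [NeZero p] : ∀ n, KumPackage N (p ^ n) :=
  fun n => Fermat.Agent.S30.Chain.kumPackage N (p ^ n)

theorem kumQZ_zero' : kumQZ N p (0 : G0 N → QZ) = 0 := by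
  have H := kumPackages N p
  have h0 : IsParHom (0 : G0 N → QZ) :=
    ⟨fun _ _ => by simp, fun _ _ => rfl, fun _ _ _ _ => rfl⟩
  have h1 := isKumQZ_kumQZ H h0 (n := 0) (by simp)
  have h2 := IsKumQZ.add (H 0) h1 h1
  rw [add_zero] at h2
  have h3 := IsKumQZ.unique (H 0) h1 h2
  exact left_eq_add.mp h3

theorem kumQZ_add' {c c' : G0 N → QZ} (hc : IsParHom c) (hc' : IsParHom c')
    (hn : ∃ n : ℕ, p ^ n • c = 0) (hn' : ∃ n : ℕ, p ^ n • c' = 0) :
    kumQZ N p (c + c') = kumQZ N p c + kumQZ N p c' := by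
  have H := kumPackages N p
  obtain ⟨n, hn⟩ := hn
  obtain ⟨n', hn'⟩ := hn'
  have h1 := isKumQZ_kumQZ H hc (nsmul_eq_zero_of_le (le_max_left n n') hn)
  have h2 := isKumQZ_kumQZ H hc' (nsmul_eq_zero_of_le (le_max_right n n') hn')
  exact kumQZ_eq H (IsKumQZ.add (H _) h1 h2)

theorem kumQZ_hecke_any (ℓ : Nat.Primes) (hℓ : ¬ (ℓ : ℕ) ∣ N) {c : G0 N → QZ}
    (hc : IsParHom c) (hn : ∃ n : ℕ, p ^ n • c = 0) :
    kumQZ N p (heckeCoh N ℓ c) = heckeOperatorBar N ℓ (kumQZ N p c) := by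
  have H := kumPackages N p
  obtain ⟨n, hn⟩ := hn
  have h1 := isKumQZ_kumQZ H hc hn
  exact kumQZ_eq H (isKumQZ_hecke_any ℓ hℓ h1)

/-- At a fixed modulus, the character of a point is unique. -/
theorem isKum_char_eq {m : ℕ} [NeZero m] (H : KumPackage N m) {cm cm' : G0 N → ZMod m}
    {x : JZero N} (hk : IsKum N m cm x) (hk' : IsKum N m cm' x) : cm = cm' := by
  have hm1 : 1 ≤ m := Nat.one_le_iff_ne_zero.mpr (NeZero.ne _)
  have h00 : IsKum N m (0 : G0 N → ZMod m) (0 : JZero N) := by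
    have h0 : IsParHom (0 : G0 N → ZMod m) :=
      ⟨fun _ _ => by simp, fun _ _ => rfl, fun _ _ _ _ => rfl⟩
    obtain ⟨x0, hx0⟩ := H.ex 0 h0
    have h2 := H.add _ _ _ _ hx0 hx0
    rw [add_zero] at h2
    have h3 := H.uniq _ _ _ hx0 h2
    have : x0 = 0 := left_eq_add.mp h3
    rw [this] at hx0
    exact hx0
  have hnsmul : ∀ k : ℕ, IsKum N m (k • cm') (k • x) := by
    intro k
    induction k with
    | zero =>
      rw [zero_nsmul, zero_nsmul]
      exact h00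
    | succ k ih =>
      rw [succ_nsmul, succ_nsmul]
      exact H.add _ _ _ _ ih hk'
  have hmx : m • x = 0 := by
    have h1 := hnsmul m
    have e : m • cm' = 0 := by
      funext γ
      simp
    rw [e] at h1
    exact H.uniq _ _ _ h1 h00
  have h3 := H.add _ _ _ _ hk (hnsmul (m - 1))
  have e1 : x + (m - 1) • x = 0 := by
    rw [← succ_nsmul', Nat.sub_add_cancel hm1, hmx]
  rw [e1] at h3
  have h4 := H.inj _ h3
  have e2 : (m - 1) • cm' = -cm' := by
    have : (m - 1) • cm' + cm' = 0 := by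
      rw [← succ_nsmul, Nat.sub_add_cancel hm1]
      funext γ
      simp
    exact eq_neg_of_add_eq_zero_left this
  rw [e2] at h4
  exact sub_eq_zero.mp (by rw [sub_eq_add_neg]; exact h4)

/-- Two `p`-primary parabolic characters with the same Kummer class are equal. -/
theorem eq_of_kumQZ_eq {c c' : G0 N → QZ} (hc : IsParHom c) (hc' : IsParHom c')
    (hn : ∃ n : ℕ, p ^ n • c = 0) (hn' : ∃ n : ℕ, p ^ n • c' = 0)
    (h : kumQZ N p c = kumQZ N p c') : c = c' := by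
  have H := kumPackages N p
  obtain ⟨n, hn⟩ := hn
  obtain ⟨n', hn'⟩ := hn'
  have h1 := isKumQZ_kumQZ H hc (nsmul_eq_zero_of_le (le_max_left n n') hn)
  have h2 := isKumQZ_kumQZ H hc' (nsmul_eq_zero_of_le (le_max_right n n') hn')
  rw [← h] at h2
  obtain ⟨cm, hcm, hk⟩ := h1
  obtain ⟨cm', hcm', hk'⟩ := h2
  have h5 : cm = cm' := isKum_char_eq (H _) hk hk'
  funext γ
  rw [← hcm, ← hcm', h5]

end Fermat.Agent.S59.NMP.H161

end
end
-- ===== PACK-END S59/NMP/H161/KumAll.lean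

-- ===== PACK-BEGIN S59/NMP/H161/BettiCore.lean
section




/-!
# Row S59, cell NMP, leaf LGC / BETTI (helper161): from the eigen-homs to the Betti eigenclasses

`betti_core`: let `x : Γ₀(N) → 𝒪` be a Betti eigenclass (cuspidal, `T_ℓ x = a_ℓ x` for `ℓ ∤ N`,
`ℓ ∉ Sig`).  If `T_p (f (α z)) = f ((α² + p) z)` for every eigen-hom `f : Frac 𝒪 →+ J₀(N)`
(`f` kills `𝒪`, `T_ℓ (f z) = f (a_ℓ z)`), then `α • T_p x = (α² + p) • x`.

Proof: `f_ϑ (z) = κ (γ ↦ ϑ (x γ · z))` is an eigen-hom, where `ϑ` is a character of `Frac 𝒪 / 𝒪`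
with `ϑ (1/ϖ) ≠ 0` and `κ` is the `p`-primary Kummer map (`KumAll.lean`: additive, injective,
Hecke-equivariant at ALL primes `ℓ ∤ N`, including `ℓ = p`).  The hypothesis and the injectivity of
`κ` give `ϑ (w γ · z) = 0` for all `z`, `w = α T_p x − (α² + p) x`; `z = (w γ)⁻¹ ϖ⁻¹` shows `w = 0`.

The statement is the unfolded form of `H135.LgcBettiStatement` (`S59/NMP/H135/LgcSpec.lean`).
-/

set_option autoImplicit false

open IsLocalRing CongruenceSubgroup
open scoped MatrixGroups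

noncomputable section

namespace Fermat.Agent.S59.NMP.H161

open Fermat.Agent.S29 Fermat.Agent.S29.M4b ModularCurve Fermat.Agent.S30.H450
  Fermat.Agent.S30.H330 Fermat.Agent.Ribet.H883 Fermat.Agent.S41.Spec Fermat.Agent.S29.H642

/-- A cuspidal class is a parabolic character (bridge of the two languages). -/
theorem isParHom_funOf_of_cuspidal {N : ℕ} {A : Type*} [AddCommGroup A]
    {φ : Additive (Gamma0 N) →+ A} (h : IsCuspidal φ) : IsParHom (funOf φ) := by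
  refine ⟨funOf_map_mul φ, fun γ hγ => h.1 γ ?_, fun γ n hn hγn =>
    h.2 γ (isOfFinOrder_iff_pow_eq_one.mpr ⟨n, hn, hγn⟩)⟩
  have e : ((γ : SL(2, ℤ)) : Matrix (Fin 2) (Fin 2) ℤ).trace = (G0.mat γ).trace := rfl
  rw [e]
  rcases hγ with h1 | h1 <;> rw [h1] <;> norm_num

section Twist

variable {𝒪 : Type} [CommRing 𝒪] [IsDomain 𝒪]

/-- The additive map `r ↦ ϑ (r z)`. -/
def twist161 (ϑ : FractionRing 𝒪 →+ QZ) (z : FractionRing 𝒪) : 𝒪 →+ QZ :=
  ϑ.comp ((AddMonoidHom.mulRight z).comp (algebraMap 𝒪 (FractionRing 𝒪)).toAddMonoidHom)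

theorem twist161_apply (ϑ : FractionRing 𝒪 →+ QZ) (z : FractionRing 𝒪) (r : 𝒪) :
    twist161 ϑ z r = ϑ (algebraMap 𝒪 (FractionRing 𝒪) r * z) := rfl

theorem twist161_add (ϑ : FractionRing 𝒪 →+ QZ) (z z' : FractionRing 𝒪) (r : 𝒪) :
    twist161 ϑ (z + z') r = twist161 ϑ z r + twist161 ϑ z' r := by
  rw [twist161_apply, twist161_apply, twist161_apply, mul_add, map_add]

theorem twist161_int (ϑ : FractionRing 𝒪 →+ QZ)
    (hϑ0 : ∀ r : 𝒪, ϑ (algebraMap 𝒪 (FractionRing 𝒪) r) = 0) (s r : 𝒪) :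
    twist161 ϑ (algebraMap 𝒪 (FractionRing 𝒪) s) r = 0 := by
  rw [twist161_apply, ← map_mul]
  exact hϑ0 _

theorem twist161_mul (ϑ : FractionRing 𝒪 →+ QZ) (z : FractionRing 𝒪) (s r : 𝒪) :
    twist161 ϑ (algebraMap 𝒪 (FractionRing 𝒪) s * z) r = twist161 ϑ z (s * r) := by
  rw [twist161_apply, twist161_apply, (algebraMap 𝒪 (FractionRing 𝒪)).map_mul]
  congr 1
  ring

variable [IsDiscreteValuationRing 𝒪]

/-- The twisted characters have `p`-power order. -/
theorem twist161_pow {p : ℕ} (hp𝒪 : (p : 𝒪) ∈ maximalIdeal 𝒪) (ϑ : FractionRing 𝒪 →+ QZ)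
    (hϑ0 : ∀ r : 𝒪, ϑ (algebraMap 𝒪 (FractionRing 𝒪) r) = 0) (z : FractionRing 𝒪) :
    ∃ n : ℕ, ∀ r : 𝒪, p ^ n • twist161 ϑ z r = 0 := by
  obtain ⟨ϖ, hϖ⟩ := IsDiscreteValuationRing.exists_irreducible 𝒪
  have hϖ0 : algebraMap 𝒪 (FractionRing 𝒪) ϖ ≠ 0 := algebraMap_irreducible_ne_zero hϖ
  obtain ⟨n, y, rfl⟩ := exists_eq_div_pow hϖ z
  obtain ⟨b, hb⟩ : ∃ b : 𝒪, b * ϖ = (p : 𝒪) := by
    have h := hp𝒪
    rw [hϖ.maximalIdeal_eq, Ideal.mem_span_singleton'] at h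
    exact h
  refine ⟨n, fun r => ?_⟩
  rw [twist161_apply, ← map_nsmul]
  have : p ^ n • (algebraMap 𝒪 (FractionRing 𝒪) r *
      (algebraMap 𝒪 (FractionRing 𝒪) y / algebraMap 𝒪 (FractionRing 𝒪) ϖ ^ n)) =
      algebraMap 𝒪 (FractionRing 𝒪) (r * (b ^ n * y)) := by
    rw [nsmul_eq_mul]
    have hp : ((p ^ n : ℕ) : FractionRing 𝒪) = algebraMap 𝒪 (FractionRing 𝒪) ((b * ϖ) ^ n) := by
      rw [hb]; simp
    rw [hp, mul_pow]
    simp only [map_mul, map_pow]
    field_simp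
  rw [this]
  exact hϑ0 _

end Twist

/-- **BETTI, unfolded form.**  If `T_p` acts by `(α² + p)/α` on all eigen-homs
`Frac 𝒪 →+ J₀(N)` of the system `a`, then `α • T_p x = (α² + p) • x` for every Betti eigenclass
`x` of the system `a`. -/
theorem betti_core {p : ℕ} [Fact p.Prime] {𝒪 : Type} [CommRing 𝒪] [IsDomain 𝒪]
    [IsDiscreteValuationRing 𝒪] (hp𝒪 : (p : 𝒪) ∈ maximalIdeal 𝒪)
    {N : ℕ} [NeZero N] (hpN : ¬ p ∣ N) (Sig : Finset ℕ) (a : ℕ → 𝒪) (α : 𝒪)
    (hS : ∀ f : FractionRing 𝒪 →+ JZero N,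
      ((∀ r : 𝒪, f (algebraMap 𝒪 (FractionRing 𝒪) r) = 0) ∧
        ∀ ℓ : Nat.Primes, ¬ (ℓ : ℕ) ∣ N → (ℓ : ℕ) ∉ Sig → ∀ z : FractionRing 𝒪,
          heckeOperatorBar N ℓ (f z) = f (algebraMap 𝒪 (FractionRing 𝒪) (a ℓ) * z)) →
      ∀ z : FractionRing 𝒪,
        heckeOperatorBar N ⟨p, Fact.out⟩ (f (algebraMap 𝒪 (FractionRing 𝒪) α * z)) =
          f (algebraMap 𝒪 (FractionRing 𝒪) (α ^ 2 + (p : 𝒪)) * z))
    (x : Additive (Gamma0 N) →+ 𝒪) (hx : NM.IsEigenclass N Sig a x) :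
    α • heckeTransfer hpN x = (α ^ 2 + (p : 𝒪)) • x := by
  classical
  haveI : NeZero p := ⟨(Fact.out : p.Prime).ne_zero⟩
  obtain ⟨hxc, hxe⟩ := hx
  have hc : IsParHom (funOf x) := isParHom_funOf_of_cuspidal hxc
  obtain ⟨ϖ, hϖ⟩ := IsDiscreteValuationRing.exists_irreducible 𝒪
  obtain ⟨ϑ, hϑ0, hϑ1⟩ := exists_character hϖ
  have hϖ0 : algebraMap 𝒪 (FractionRing 𝒪) ϖ ≠ 0 := algebraMap_irreducible_ne_zero hϖ
  -- the characters `c_z = (γ ↦ ϑ (x γ · z))`
  set cx : FractionRing 𝒪 → (G0 N → QZ) := fun z γ => twist161 ϑ z (funOf x γ) with hcx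
  have hpar : ∀ z, IsParHom (cx z) := fun z => isParHom_comp hc (twist161 ϑ z)
  have hpow : ∀ z, ∃ n : ℕ, p ^ n • cx z = 0 := by
    intro z
    obtain ⟨n, hn⟩ := twist161_pow hp𝒪 ϑ hϑ0 z
    exact ⟨n, funext fun γ => hn _⟩
  have hcx_add : ∀ z z', cx (z + z') = cx z + cx z' := fun z z' =>
    funext fun γ => twist161_add ϑ z z' _
  have hcx_int : ∀ r : 𝒪, cx (algebraMap 𝒪 (FractionRing 𝒪) r) = 0 := fun r =>
    funext fun γ => twist161_int ϑ hϑ0 r _
  -- Hecke operators on the `c_z`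
  have hcx_hecke : ∀ (ℓ : ℕ) (z : FractionRing 𝒪),
      heckeCoh N ℓ (cx z) = fun γ => twist161 ϑ z (heckeCoh N ℓ (funOf x) γ) := fun ℓ z =>
    heckeCoh_comp (N := N) ℓ (funOf x) (twist161 ϑ z)
  -- the eigen-hom
  let f : FractionRing 𝒪 →+ JZero N := AddMonoidHom.mk' (fun z => kumQZ N p (cx z))
    (fun z z' => by
      show kumQZ N p (cx (z + z')) = kumQZ N p (cx z) + kumQZ N p (cx z')
      rw [hcx_add, kumQZ_add' (hpar z) (hpar z') (hpow z) (hpow z')])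
  have hf : ∀ z, f z = kumQZ N p (cx z) := fun _ => rfl
  have hfeig : (∀ r : 𝒪, f (algebraMap 𝒪 (FractionRing 𝒪) r) = 0) ∧
      ∀ ℓ : Nat.Primes, ¬ (ℓ : ℕ) ∣ N → (ℓ : ℕ) ∉ Sig → ∀ z : FractionRing 𝒪,
        heckeOperatorBar N ℓ (f z) = f (algebraMap 𝒪 (FractionRing 𝒪) (a ℓ) * z) := by
    refine ⟨fun r => ?_, fun ℓ hℓN hℓS z => ?_⟩
    · rw [hf, hcx_int, kumQZ_zero']
    · haveI : Fact (ℓ : ℕ).Prime := ⟨ℓ.2⟩
      rw [hf, hf, ← kumQZ_hecke_any ℓ hℓN (hpar z) (hpow z), hcx_hecke]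
      congr 1
      funext γ
      have h1 := congrFun (funOf_heckeTransfer hℓN x) γ
      rw [← h1, hxe (ℓ : ℕ) hℓN hℓS]
      show twist161 ϑ z ((a ℓ • x) (Additive.ofMul γ)) = twist161 ϑ _ (funOf x γ)
      rw [twist161_mul]
      rfl
  have key := hS f hfeig
  -- the consequence on characters
  have hchar : ∀ (z : FractionRing 𝒪) (γ : G0 N),
      twist161 ϑ (algebraMap 𝒪 (FractionRing 𝒪) α * z) (heckeCoh N p (funOf x) γ) =
        twist161 ϑ (algebraMap 𝒪 (FractionRing 𝒪) (α ^ 2 + (p : 𝒪)) * z) (funOf x γ) := by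
    intro z γ
    have h1 := key z
    rw [hf, hf, ← kumQZ_hecke_any ⟨p, Fact.out⟩ hpN (hpar _) (hpow _)] at h1
    have hparT : IsParHom (heckeCoh N ((⟨p, Fact.out⟩ : Nat.Primes) : ℕ)
        (cx (algebraMap 𝒪 (FractionRing 𝒪) α * z))) :=
      Fermat.Agent.S29.H149.isParHom_heckeCoh (Fact.out : p.Prime) hpN (hpar _)
    have hpowT : ∃ n : ℕ, p ^ n • heckeCoh N ((⟨p, Fact.out⟩ : Nat.Primes) : ℕ)
        (cx (algebraMap 𝒪 (FractionRing 𝒪) α * z)) = 0 := by
      obtain ⟨n, hn⟩ := twist161_pow hp𝒪 ϑ hϑ0 (algebraMap 𝒪 (FractionRing 𝒪) α * z)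
      refine ⟨n, ?_⟩
      rw [hcx_hecke]
      exact funext fun γ => hn _
    have h2 := eq_of_kumQZ_eq hparT (hpar _) hpowT (hpow _) h1
    rw [hcx_hecke] at h2
    exact congrFun h2 γ
  -- conclusion
  refine AddMonoidHom.ext fun g => ?_
  obtain ⟨γ, rfl⟩ : ∃ γ : Gamma0 N, Additive.ofMul γ = g := ⟨Additive.toMul g, rfl⟩
  have hT : (heckeTransfer hpN x) (Additive.ofMul γ) = heckeCoh N p (funOf x) γ :=
    congrFun (funOf_heckeTransfer hpN x) γ
  show α • (heckeTransfer hpN x) (Additive.ofMul γ) = (α ^ 2 + (p : 𝒪)) • x (Additive.ofMul γ)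
  rw [hT, smul_eq_mul, smul_eq_mul]
  set w : 𝒪 := α * heckeCoh N p (funOf x) γ - (α ^ 2 + (p : 𝒪)) * x (Additive.ofMul γ) with hw
  by_contra hne
  have hw0 : w ≠ 0 := fun h => hne (sub_eq_zero.mp h)
  have hwL : algebraMap 𝒪 (FractionRing 𝒪) w ≠ 0 := by
    simpa using hw0
  set z₀ : FractionRing 𝒪 :=
    (algebraMap 𝒪 (FractionRing 𝒪) w)⁻¹ * (algebraMap 𝒪 (FractionRing 𝒪) ϖ)⁻¹ with hz₀
  have h3 := hchar z₀ γ
  rw [twist161_mul, twist161_mul] at h3
  have h4 : twist161 ϑ z₀ w = 0 := by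
    rw [hw, map_sub, h3]
    exact sub_self _
  apply hϑ1
  rw [← h4, twist161_apply, hz₀, mul_inv_cancel_left₀ hwL]

end Fermat.Agent.S59.NMP.H161

end
end
-- ===== PACK-END S59/NMP/H161/BettiCore.lean

-- ===== PACK-BEGIN S59/NMP/H587/EigenHom.lean
section


/-!
# S59 / cell NMP, leaf LGC, route CHAR (helper587) — eigen-homs from `T_p`-eigenclasses

`exists_eigenHom_of_eigenclass`: a nonzero Betti eigenclass `x : Γ₀(N) → 𝒪` of the system `a`
(away from `Σ`) with `T_p x = c x` (`p ∤ N`) gives a nonzero eigen-hom `f : Frac 𝒪 / 𝒪 → J₀(N)`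
of the system `a` with `T_p ∘ f = f ∘ c`.

Construction of helper161 (`NMP/H161/BettiCore.lean`): `f (z) = κ (γ ↦ ϑ (x γ · z))`, `ϑ` a
character of `Frac 𝒪 / 𝒪` with `ϑ (1/ϖ) ≠ 0`, `κ` the `p`-primary Kummer map (additive, injective,
Hecke-equivariant at all primes `ℓ ∤ N` including `ℓ = p`: `NMP/H161/KumAll.lean`).
-/

set_option autoImplicit false
set_option linter.style.haveILetI false

open IsLocalRing CongruenceSubgroup
open scoped MatrixGroups

noncomputable section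

namespace Fermat.Agent.S59.NMP.H587

open Fermat.Agent.S29 Fermat.Agent.S29.M4b ModularCurve Fermat.Agent.S30.H450
  Fermat.Agent.S30.H330 Fermat.Agent.Ribet.H883 Fermat.Agent.S41.Spec Fermat.Agent.S29.H642
  Fermat.Agent.S59.NMP.H161

/-- **Eigen-homs from `T_p`-eigenclasses.** -/
theorem exists_eigenHom_of_eigenclass {p : ℕ} [Fact p.Prime] {𝒪 : Type} [CommRing 𝒪]
    [IsDomain 𝒪] [IsDiscreteValuationRing 𝒪] (hp𝒪 : (p : 𝒪) ∈ maximalIdeal 𝒪)
    {N : ℕ} [NeZero N] (hpN : ¬ p ∣ N) (Sig : Finset ℕ) (a : ℕ → 𝒪) (c : 𝒪)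
    (x : Additive (Gamma0 N) →+ 𝒪) (hx : NM.IsEigenclass N Sig a x) (hx0 : x ≠ 0)
    (hxp : heckeTransfer hpN x = c • x) :
    ∃ f : FractionRing 𝒪 →+ JZero N, f ≠ 0 ∧
      (∀ r : 𝒪, f (algebraMap 𝒪 (FractionRing 𝒪) r) = 0) ∧
      (∀ ℓ : Nat.Primes, ¬ (ℓ : ℕ) ∣ N → (ℓ : ℕ) ∉ Sig → ∀ z : FractionRing 𝒪,
        heckeOperatorBar N ℓ (f z) = f (algebraMap 𝒪 (FractionRing 𝒪) (a ℓ) * z)) ∧
      ∀ z : FractionRing 𝒪, heckeOperatorBar N ⟨p, Fact.out⟩ (f z) =
        f (algebraMap 𝒪 (FractionRing 𝒪) c * z) := by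
  classical
  haveI : NeZero p := ⟨(Fact.out : p.Prime).ne_zero⟩
  obtain ⟨hxc, hxe⟩ := hx
  have hc : IsParHom (funOf x) := isParHom_funOf_of_cuspidal hxc
  obtain ⟨ϖ, hϖ⟩ := IsDiscreteValuationRing.exists_irreducible 𝒪
  obtain ⟨ϑ, hϑ0, hϑ1⟩ := exists_character hϖ
  have hϖ0 : algebraMap 𝒪 (FractionRing 𝒪) ϖ ≠ 0 := algebraMap_irreducible_ne_zero hϖ
  -- the characters `c_z = (γ ↦ ϑ (x γ · z))`
  set cx : FractionRing 𝒪 → (G0 N → QZ) := fun z γ => twist161 ϑ z (funOf x γ) with hcx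
  have hpar : ∀ z, IsParHom (cx z) := fun z => isParHom_comp hc (twist161 ϑ z)
  have hpow : ∀ z, ∃ n : ℕ, p ^ n • cx z = 0 := by
    intro z
    obtain ⟨n, hn⟩ := twist161_pow hp𝒪 ϑ hϑ0 z
    exact ⟨n, funext fun γ => hn _⟩
  have hcx_add : ∀ z z', cx (z + z') = cx z + cx z' := fun z z' =>
    funext fun γ => twist161_add ϑ z z' _
  have hcx_int : ∀ r : 𝒪, cx (algebraMap 𝒪 (FractionRing 𝒪) r) = 0 := fun r =>
    funext fun γ => twist161_int ϑ hϑ0 r _
  -- Hecke operators on the `c_z`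
  have hcx_hecke : ∀ (ℓ : ℕ) (z : FractionRing 𝒪),
      heckeCoh N ℓ (cx z) = fun γ => twist161 ϑ z (heckeCoh N ℓ (funOf x) γ) := fun ℓ z =>
    heckeCoh_comp (N := N) ℓ (funOf x) (twist161 ϑ z)
  -- the eigen-hom
  let f : FractionRing 𝒪 →+ JZero N := AddMonoidHom.mk' (fun z => kumQZ N p (cx z))
    (fun z z' => by
      show kumQZ N p (cx (z + z')) = kumQZ N p (cx z) + kumQZ N p (cx z')
      rw [hcx_add, kumQZ_add' (hpar z) (hpar z') (hpow z) (hpow z')])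
  have hf : ∀ z, f z = kumQZ N p (cx z) := fun _ => rfl
  refine ⟨f, ?_, fun r => ?_, fun ℓ hℓN hℓS z => ?_, fun z => ?_⟩
  · -- `f ≠ 0`
    intro hf0
    obtain ⟨g, hg⟩ : ∃ g, x g ≠ 0 := by
      by_contra hcon
      push Not at hcon
      exact hx0 (AddMonoidHom.ext hcon)
    obtain ⟨γ, rfl⟩ : ∃ γ : Gamma0 N, Additive.ofMul γ = g := ⟨Additive.toMul g, rfl⟩
    have hwL : algebraMap 𝒪 (FractionRing 𝒪) (x (Additive.ofMul γ)) ≠ 0 := by
      simpa using hg
    set z₀ : FractionRing 𝒪 := (algebraMap 𝒪 (FractionRing 𝒪) (x (Additive.ofMul γ)))⁻¹ *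
      (algebraMap 𝒪 (FractionRing 𝒪) ϖ)⁻¹ with hz₀
    have h1 : kumQZ N p (cx z₀) = kumQZ N p (cx (algebraMap 𝒪 (FractionRing 𝒪) 0)) := by
      rw [← hf, ← hf, hf0]
      rfl
    have h2 := eq_of_kumQZ_eq (hpar _) (hpar _) (hpow _) (hpow _) h1
    rw [hcx_int] at h2
    have h3 : twist161 ϑ z₀ (funOf x γ) = 0 := congrFun h2 γ
    apply hϑ1
    rw [← h3, twist161_apply, hz₀]
    show ϑ (algebraMap 𝒪 (FractionRing 𝒪) ϖ)⁻¹ =
      ϑ (algebraMap 𝒪 (FractionRing 𝒪) (x (Additive.ofMul γ)) *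
        ((algebraMap 𝒪 (FractionRing 𝒪) (x (Additive.ofMul γ)))⁻¹ *
          (algebraMap 𝒪 (FractionRing 𝒪) ϖ)⁻¹))
    rw [mul_inv_cancel_left₀ hwL]
  · rw [hf, hcx_int, kumQZ_zero']
  · haveI : Fact (ℓ : ℕ).Prime := ⟨ℓ.2⟩
    rw [hf, hf, ← kumQZ_hecke_any ℓ hℓN (hpar z) (hpow z), hcx_hecke]
    congr 1
    funext γ
    have h1 := congrFun (funOf_heckeTransfer hℓN x) γ
    rw [← h1, hxe (ℓ : ℕ) hℓN hℓS]
    show twist161 ϑ z ((a ℓ • x) (Additive.ofMul γ)) = twist161 ϑ _ (funOf x γ)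
    rw [twist161_mul]
    rfl
  · rw [hf, hf, ← kumQZ_hecke_any ⟨p, Fact.out⟩ hpN (hpar z) (hpow z), hcx_hecke]
    congr 1
    funext γ
    have h1 := congrFun (funOf_heckeTransfer hpN x) γ
    show twist161 ϑ z (heckeCoh N p (funOf x) γ) = twist161 ϑ _ (funOf x γ)
    rw [← h1, hxp]
    show twist161 ϑ z ((c • x) (Additive.ofMul γ)) = twist161 ϑ _ (funOf x γ)
    rw [twist161_mul]
    rfl

end Fermat.Agent.S59.NMP.H587

end
end
-- ===== PACK-END S59/NMP/H587/EigenHom.lean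

-- ===== PACK-BEGIN S19.lean
section



set_option autoImplicit false
open ModularCurve

/-!
# S19 — finite flat models of `J₀(N)[ℓᵏ]` (cell A3; row-lead helper15, GR lead helper19)

`result` = `A3.H615.frozenS19` = `S19.S19_of_gr` (top assembly v5 of helper15: ORD, FIN, CONT, LEVEL,
UNR, rank one, abstract LOCAL) applied to the block GR (`A3.H739.grStatement_of_leaves_forall` with
the leaves RED `A3.H615.GrRed.redLeaf`, GENUS `A3.H615.GrGenus.genusLeaf_of_orthLeaf`,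
ORTH `A3.H499.orthLeaf`).
-/

namespace Fermat.Agent.S19

theorem result
    (p : ℕ) [NeZero p] (ℓ : ℕ) [Fact ℓ.Prime] (hℓp : ¬ ℓ ∣ p) (k : ℕ) :
    ∃ (H : Type) (_ : CommRing H) (_ : HopfAlgebra (GaloisRep.ratLocalizedAt ℓ) H),
      Module.Finite (GaloisRep.ratLocalizedAt ℓ) H ∧ Module.Flat (GaloisRep.ratLocalizedAt ℓ) H ∧
      Coalgebra.IsCocomm (GaloisRep.ratLocalizedAt ℓ) H ∧
      ∃ e : WithConv (H →ₐ[GaloisRep.ratLocalizedAt ℓ] AlgebraicClosure ℚ) ≃
          ↥(Submodule.torsionBy ℤ (JZero p) ((ℓ : ℤ) ^ k)),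
        (∀ f g, e (f * g) = e f + e g) ∧
        ∀ (σ : AlgebraicClosure ℚ ≃ₐ[ℚ] AlgebraicClosure ℚ)
          (f g : WithConv (H →ₐ[GaloisRep.ratLocalizedAt ℓ] AlgebraicClosure ℚ)),
          (∀ h : H, g h = σ (f h)) → ((e g : JZero p)) = σ • (e f : JZero p) :=
  Fermat.Agent.A3.H615.frozenS19 p ℓ hℓp k

end Fermat.Agent.S19

end
-- ===== PACK-END S19.lean

-- ===== PACK-BEGIN S38T/H681/LeavesT.lean
section




/-!
# S59 end-game, cell (B2) HECKE-T: the leaves IA-FREE and IA-NONTRIV  (helper681)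

`iaFree_T_h681 : IAFreeStatement_T` and `iaNontriv_T_h681 : IANontrivStatement_T`, VERBATIM
(`S38T/IA/Hecke/Spec3.lean`, helper3): every prime `3 ≤ p`, every type `ty`.

* IA-FREE: `h681_free_of_pkg` (generic index type, any `ty`, any base level) at
  `N₀ = wilesLevel p ty Smin Smin`, family `Sum.elim pv qv`; at `p = 3` the hypothesis (Ell) of
  `MFree.free` is replaced by the auxiliary prime `r ≡ 2 mod 3` (`MFree.H779.freeAux3`,
  `Aut.H186.exists_aux3_tset_h186`).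
* IA-NONTRIV: `h681_locPart_free_pos` at the level `ribetLevelT p ty Smin Piv`.
-/

set_option autoImplicit false

open Polynomial IsLocalRing CongruenceSubgroup
open scoped MatrixGroups

namespace Fermat.Agent.S38.H681

open Fermat.Agent.S59.Arch Fermat.Agent.S59.TW.H959 Fermat.Agent.S59.TW
open Fermat.Agent.S59.TW.H653 Fermat.Agent.S59.TW.Aut
open Fermat.Agent.S38.IA Fermat.Agent.S38.IA.Hecke

/-- **IA-FREE of type `ty`**, verbatim. -/
theorem iaFree_T_h681 : IAFreeStatement_T := by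
  intro p _ _hp3 𝒪 _ _ _ _ _ _ ρbar Smin h ty _hty Piv hPiv k pv hpv hpvPiv n r qv hq _ PQ α _hα
    V hV
  classical
  have hp : p.Prime := Fact.out
  have hN₀ : wilesLevel p ty Smin Smin ≠ 0 := wilesLevel_ne_zero hp h.hSmin h.hSmin
  have hprime := h681_prime_sumElim hPiv hpvPiv hq
  have hinj := h681_injective_sumElim hpv hpvPiv hq
  obtain ⟨d, hd⟩ := h681_free_of_pkg h PQ (wilesLevel p ty Smin Smin) (Sum.elim pv qv)
    hN₀ hinj hprime hV
  refine ⟨d, fun g₁ g₂ hg₁ hg₂ => ?_⟩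
  have hg : ∀ s, orderOf (pairU g₁ g₂ s) = Sum.elim pv qv s - 1 := by
    rintro (i | j)
    · exact hg₁ i
    · exact hg₂ j
  let ψ := (Equiv.sumPiEquivProdPi
    (fun s : Fin k ⊕ Fin r => Fin (p ^ padicValNat p (Sum.elim pv qv s - 1)))).symm
  have hbij : Function.Bijective (fun e : (∀ i : Fin k, Fin (p ^ padicValNat p (pv i - 1))) ×
      (∀ j : Fin r, Fin (p ^ padicValNat p (qv j - 1))) =>
      (QuotientGroup.mk (pairU (fun i => g₁ i ^ (e.1 i : ℕ)) (fun j => g₂ j ^ (e.2 j : ℕ))) :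
        GDelta p (Sum.elim pv qv))) := by
    have h1 := (h681_gEpsIdx_bijective p (Sum.elim pv qv) hprime (pairU g₁ g₂) hg).comp
      ψ.bijective
    have h2 : (gEpsIdx p (Sum.elim pv qv) (pairU g₁ g₂)) ∘ ψ =
        (fun e : (∀ i : Fin k, Fin (p ^ padicValNat p (pv i - 1))) ×
          (∀ j : Fin r, Fin (p ^ padicValNat p (qv j - 1))) =>
          (QuotientGroup.mk (pairU (fun i => g₁ i ^ (e.1 i : ℕ))
            (fun j => g₂ j ^ (e.2 j : ℕ))) : GDelta p (Sum.elim pv qv))) := by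
      funext e
      show (QuotientGroup.mk (fun s => pairU g₁ g₂ s ^ ((ψ e s : Fin _) : ℕ)) :
        GDelta p (Sum.elim pv qv)) = _
      congr 1
      funext s
      rcases s with i | j <;> rfl
    rw [← h2]
    exact h1
  exact hd _ _ hbij

example : Fermat.Agent.S38.IA.Hecke.IAFreeStatement_T := iaFree_T_h681

/-- The primes of Ribet's level of type `ty` lie in `Smin ∪ Piv`. -/
theorem h681_mem_of_dvd_ribetLevelT {p : ℕ} (hp : p.Prime) {ty : PType} {Smin Piv : Finset ℕ}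
    (hpS : p ∈ Smin) (hS : ∀ q ∈ Smin, q.Prime) (hP : ∀ q ∈ Piv, q.Prime) {q : ℕ}
    (hq : q.Prime) (hdvd : q ∣ ribetLevelT p ty Smin Piv) : q ∈ (↑(Smin ∪ Piv) : Set ℕ) := by
  rw [ribetLevelT_eq] at hdvd
  rcases (Nat.Prime.dvd_mul hq).mp hdvd with h | h
  · exact h681_mem_of_dvd_ribetLevel hS hP hq h
  · have hqp : q ∣ p := by
      cases ty
      · exact absurd (Nat.dvd_one.mp h) hq.ne_one
      · exact h
      · exact h
    rw [(Nat.prime_dvd_prime_iff_eq hq hp).mp hqp, Finset.mem_coe, Finset.mem_union]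
    exact Or.inl hpS

/-- **IA-NONTRIV of type `ty`**, verbatim. -/
theorem iaNontriv_T_h681 : IANontrivStatement_T := by
  intro p _ _hp3 𝒪 _ _ _ _ _ _ ρbar Smin h ty _hty Piv hPiv _ θ₀ _hθ₀ V₀ hV₀
  exact h681_locPart_free_pos
    (fun _ hq hdvd => h681_mem_of_dvd_ribetLevelT Fact.out h.hpSmin h.hSmin
      (fun a ha => (hPiv a ha).1) hq hdvd) θ₀ V₀ hV₀

example : Fermat.Agent.S38.IA.Hecke.IANontrivStatement_T := iaNontriv_T_h681

end Fermat.Agent.S38.H681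

end
-- ===== PACK-END S38T/H681/LeavesT.lean

-- ===== PACK-BEGIN S38T/H781/IAMod.lean
section



/-!
# Row S59, cell LO-IA (B2), HECKE-T: leaf IA-MOD, the `ty`-generic twin  (helper781)

`iaMod_T : IA.Hecke.IAModStatement_T` VERBATIM (`S38T/IA/Hecke/Spec3.lean`, helper3 @166e8dc9f):
for every odd prime `p` and every type `ty` at `p`, the Hecke ring `T_Q` of the package
`P_Q : HeckePkg p 𝒪 ρ̄ ty Smin (Smin ∪ Piv ∪ Q)` acts on the localisation `V ⊆ X_K(𝒪)`,
`K = KIA_T p ty Smin pv qv`, through the twisted operators `⟨ℓ⟩^h T_ℓ`, with `h` half at the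
pivots and at the Taylor–Wiles primes.

Nothing new is proved: `iaMod_core_h781` (`S38/H781/IAMod.lean`) is already stated for an
arbitrary type `t` at `p`; neither `3 ≤ p` nor `IsPTypeAt` is used (`p ≠ 2` comes from
`ResidualHyp`).
-/

set_option autoImplicit false
set_option linter.unusedSectionVars false
set_option linter.style.haveILetI false
set_option maxHeartbeats 1000000
set_option synthInstance.maxHeartbeats 400000

noncomputable section

namespace Fermat.Agent.S38.H781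

open CongruenceSubgroup IsLocalRing CuspForm
open Fermat.Agent.S59.Arch Fermat.Agent.S59.TW.H959 Fermat.Agent.S59.TW.H653
open Fermat.Agent.S59.TW.Aut Fermat.Agent.S59.TW
open Fermat.Agent.S38.IA Fermat.Agent.S38.IA.Hecke
open scoped MatrixGroups

/-- **Leaf IA-MOD, `ty`-generic twin.** -/
theorem iaMod_T : IAModStatement_T := by
  intro p _ _ 𝒪 _ _ _ _ _ _ ρbar Smin hRH ty _ Piv hPiv k pv hpv hpvPiv n r qv hq _ PQ α _ V hV
  have hp : p.Prime := Fact.out
  have hpodd : Odd p := hp.odd_of_ne_two hRH.hp2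
  obtain ⟨hqinj, hqprop, -⟩ := hq
  have hpvmem : ∀ i, pv i ∈ Piv := fun i => by
    rw [← hpvPiv]
    exact Finset.mem_image_of_mem _ (Finset.mem_univ i)
  have hdisj : ∀ i j, pv i ≠ qv j := fun i j hij =>
    (hqprop j).2.1 (Finset.mem_union_right _ (hij ▸ hpvmem i))
  have hqqinj : Function.Injective (Sum.elim pv qv) :=
    injective_sum_elim_h781 pv qv hpv hqinj hdisj
  have hqqP : ∀ s, (Sum.elim pv qv s).Prime ∧ Sum.elim pv qv s ∉ Smin := by
    rintro (i | j)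
    · exact ⟨(hPiv _ (hpvmem i)).1, (hPiv _ (hpvmem i)).2.1⟩
    · exact ⟨(hqprop j).1, fun hmem => (hqprop j).2.1 (Finset.mem_union_left _ hmem)⟩
  have hset : Smin ∪ Piv ∪ Finset.univ.image qv =
      Smin ∪ Finset.univ.image (Sum.elim pv qv) := by
    rw [image_sum_elim_h781, hpvPiv, Finset.union_assoc]
  obtain ⟨h, a, h1, h2, -, ha⟩ := exists_isHalf_two_h781 p pv qv hpodd
  obtain ⟨act, hact⟩ := iaMod_core_h781 (t := ty) (Sum.elim pv qv) hRH hqqinj hqqP hset PQ V hV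
    (isHalf_sum_h781 p pv qv h1 h2) ha
  exact ⟨h, act, h1, h2, hact⟩

end Fermat.Agent.S38.H781

end
end
-- ===== PACK-END S38T/H781/IAMod.lean

-- ===== PACK-BEGIN S38T/H299/IACtrlT.lean
section



/-!
# Row S59, cell LO-IA (B2), HECKE-T: the leaf IA-CTRL for every odd `p` and every type at `p`
(helper299)

`iaCtrl_T_of_free299 : IAFreeStatement_T → IACtrlStatement_T`, VERBATIM against helper3's frozen
`S38T/IA/Hecke/Spec3.lean`.

Proof: helper483's generic core `ctrl_core483` (COR + NAT + the Taylor–Wiles chain of helper105,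
any base level, any type, every `p`) at the base level `N₀ = wilesLevel p ty Smin Smin` and Ribet's
level `L = ribetLevelT p ty Smin Piv`; the data at the Taylor–Wiles primes are `tw_data483`, the
comparison of the two eigen-systems is `tsetOf_eq_tsetAway483`.  Neither `3 ≤ p` nor the type
hypothesis is used.
-/

set_option autoImplicit false
set_option linter.unusedSectionVars false
set_option linter.style.haveILetI false

open Polynomial IsLocalRing CongruenceSubgroup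
open scoped MatrixGroups

namespace Fermat.Agent.S38.H299

open Fermat.Agent.S59.Arch Fermat.Agent.S59.TW.H959 Fermat.Agent.S59.TW Fermat.Agent.S59.H765
open Fermat.Agent.S59.TW.H653 Fermat.Agent.S59.TW.Aut Fermat.Agent.S59.H105
open Fermat.Agent.S38.IA Fermat.Agent.S38.IA.Hecke Fermat.Agent.S38.H483
open CuspForm

/-! ## The levels -/

section Level

variable (p : ℕ) (ty : PType) (Smin : Finset ℕ)

theorem pFac_dvd_T299 : pFac p ty ∣ p := by
  cases ty
  · exact one_dvd p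
  · exact dvd_rfl
  · exact dvd_rfl

theorem pFac_ne_zero_T299 (hp : p ≠ 0) : pFac p ty ≠ 0 := by
  cases ty
  · exact one_ne_zero
  · exact hp
  · exact hp

theorem wilesLevel_self_T299 :
    wilesLevel p ty Smin Smin = (∏ q ∈ Smin.erase p, q) * pFac p ty := by
  rw [wilesLevel_eq_mul_pFac]
  unfold wilesLevel
  rw [Finset.sdiff_self, Finset.prod_empty, mul_one, mul_one]

theorem wilesLevel_self_ne_zero_T299 (hp : p ≠ 0) (hSmin : ∀ q ∈ Smin, q.Prime) :
    wilesLevel p ty Smin Smin ≠ 0 := by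
  rw [wilesLevel_self_T299]
  refine Nat.mul_ne_zero (Finset.prod_ne_zero_iff.mpr fun q hq => ?_) (pFac_ne_zero_T299 p ty hp)
  exact (hSmin q (Finset.mem_of_mem_erase hq)).ne_zero

/-- The Betti level is `L ∏ qv`, `L = ribetLevelT`. -/
theorem gLevel_eq_T299 {Piv : Finset ℕ} {k r : ℕ} (pv : Fin k → ℕ) (qv : Fin r → ℕ)
    (hpv : Function.Injective pv) (hpvPiv : Finset.univ.image pv = Piv) :
    gLevel (wilesLevel p ty Smin Smin) (Sum.elim pv qv) =
      ribetLevelT p ty Smin Piv * ∏ j, qv j := by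
  rw [ribetLevelT_eq, wilesLevel_self_T299]
  unfold gLevel ribetLevel
  rw [Fintype.prod_sum_type, ← hpvPiv, Finset.prod_image (fun a _ b _ h => hpv h)]
  simp only [Sum.elim_inl, Sum.elim_inr]
  ring

/-- A prime dividing `ribetLevelT` lies in `Smin ∪ Piv`. -/
theorem mem_of_dvd_ribetLevelT299 {Piv : Finset ℕ} (hpS : p ∈ Smin)
    (hSmin : ∀ q ∈ Smin, q.Prime) (hPiv : ∀ q ∈ Piv, q.Prime) (hpp : p.Prime)
    {ℓ : ℕ} (hℓ : ℓ.Prime) (h : ℓ ∣ ribetLevelT p ty Smin Piv) : ℓ ∈ Smin ∪ Piv := by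
  rw [ribetLevelT_eq] at h
  rcases (Nat.Prime.dvd_mul hℓ).mp h with h | h
  · unfold ribetLevel at h
    rcases (Nat.Prime.dvd_mul hℓ).mp h with h | h
    · obtain ⟨q, hq, hdvd⟩ := (Prime.dvd_finsetProd_iff hℓ.prime _).mp h
      have hqS : q ∈ Smin := Finset.mem_of_mem_erase hq
      have : ℓ = q := (Nat.prime_dvd_prime_iff_eq hℓ (hSmin q hqS)).mp hdvd
      exact Finset.mem_union_left _ (this ▸ hqS)
    · obtain ⟨q, hq, hdvd⟩ := (Prime.dvd_finsetProd_iff hℓ.prime _).mp h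
      have : ℓ = q := (Nat.prime_dvd_prime_iff_eq hℓ (hPiv q hq)).mp hdvd
      exact Finset.mem_union_right _ (this ▸ hq)
  · have : ℓ = p := (Nat.prime_dvd_prime_iff_eq hℓ hpp).mp (h.trans (pFac_dvd_T299 p ty))
    exact Finset.mem_union_left _ (this ▸ hpS)

end Level

/-! ## The leaf -/

/-- **IA-CTRL for every odd `p` and every type at `p`**, given IA-FREE. -/
theorem iaCtrl_T_of_free299 (hfree : IAFreeStatement_T) : IACtrlStatement_T := by
  intro p hpF _hp3 𝒪 _ _ _ _ _ _ ρbar Smin h ty hty Piv hPiv hL θ₀ hθ₀ k pv hpv hpvPiv n r qv hq _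
    hp PQ hθ α hα V₀ V hV₀ hV
  classical
  have hpp : p.Prime := hpF.out
  have hPivP : ∀ q ∈ Piv, q.Prime := fun q hq' => (hPiv q hq').1
  have hpvmem : ∀ i, pv i ∈ Piv := fun i => by
    rw [← hpvPiv]
    exact Finset.mem_image_of_mem pv (Finset.mem_univ i)
  have hpvP : ∀ i, (pv i).Prime := fun i => hPivP (pv i) (hpvmem i)
  have hqvP : ∀ j, (qv j).Prime := fun j => (hq.2.1 j).1
  have hqvS : ∀ j, qv j ∉ (↑(Smin ∪ Piv) : Set ℕ) := fun j => by
    rw [Finset.mem_coe]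
    exact (hq.2.1 j).2.1
  have hdisj : ∀ i j, pv i ≠ qv j := fun i j hij =>
    hqvS j (Finset.mem_coe.mpr (Finset.mem_union_right _ (hij ▸ hpvmem i)))
  have hLS : ∀ ℓ : ℕ, ℓ.Prime → ℓ ∣ ribetLevelT p ty Smin Piv → ℓ ∈ (↑(Smin ∪ Piv) : Set ℕ) :=
    fun ℓ hℓ hd => Finset.mem_coe.mpr
      (mem_of_dvd_ribetLevelT299 p ty Smin h.hpSmin h.hSmin hPivP hpp hℓ hd)
  have hqvL : ∀ j, ¬ qv j ∣ ribetLevelT p ty Smin Piv := fun j hdvd =>
    hqvS j (hLS (qv j) (hqvP j) hdvd)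
  have hqk : ∀ j, ((qv j : ℕ) : ResidueField 𝒪) = 1 := fun j =>
    natCast_residue_eq_one483 h.hp𝒪 (hqvP j).pos (hq.2.1 j).2.2
  haveI hN₀ : NeZero (wilesLevel p ty Smin Smin) :=
    ⟨wilesLevel_self_ne_zero_T299 p ty Smin hpp.ne_zero h.hSmin⟩
  have hML := gLevel_eq_T299 p ty Smin pv qv hpv hpvPiv
  -- the data at the Taylor–Wiles primes
  obtain ⟨β, c, hc, hsum, hprod, hαβ, hα2, hβ2, hqu⟩ :=
    tw_data483 θ₀ hθ₀ qv α hα hqvP hqvL hqvS hqk
  have hT₀ : ∀ x ∈ TsetOfθ θ₀, x.1.Prime ∧ ¬ x.1 ∣ ribetLevelT p ty Smin Piv := by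
    rintro x ⟨hℓ, hℓN, -, -⟩
    exact ⟨hℓ, hℓN⟩
  have hcT : ∀ j, (qv j, c j) ∈ TsetOfθ θ₀ := fun j => ⟨hqvP j, hqvL j, hqvS j, hc j⟩
  have hcq : ∀ j c', (qv j, c') ∈ TsetOfθ θ₀ → c' - c j ∈ maximalIdeal 𝒪 := by
    rintro j c' ⟨h1, h2, h3, h4⟩
    rw [← residue_eq_zero_iff, map_sub, h4, hc j, sub_self]
  -- the two eigen-systems at the top level agree
  have hTset : TsetOf PQ = TsetAway (TsetOfθ θ₀) qv :=
    tsetOf_eq_tsetAway483 (S₀ := Smin ∪ Piv) qv PQ θ₀ hLS hp hθ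
  have hT : ∀ x ∈ TsetOf PQ,
      x.1.Prime ∧ ¬ x.1 ∣ gLevel (wilesLevel p ty Smin Smin) (Sum.elim pv qv) := by
    rintro x ⟨hℓ, -, hℓS, -⟩
    refine ⟨hℓ, fun hd => hℓS ?_⟩
    rw [hML] at hd
    rw [Finset.mem_coe]
    rcases (Nat.Prime.dvd_mul hℓ).mp hd with hd | hd
    · exact Finset.mem_union_left _ (Finset.mem_coe.mp (hLS x.1 hℓ hd))
    · obtain ⟨j, -, hj⟩ := (Prime.dvd_finsetProd_iff hℓ.prime _).mp hd
      rw [(Nat.prime_dvd_prime_iff_eq hℓ (hqvP j)).mp hj]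
      exact Finset.mem_union_right _ (Finset.mem_image_of_mem qv (Finset.mem_univ j))
  -- freeness
  obtain ⟨d, hd⟩ := hfree p _hp3 𝒪 ρbar Smin h ty hty Piv hPiv k pv hpv hpvPiv n r qv hq PQ α hα
    V hV
  exact ctrl_core483 (wilesLevel p ty Smin Smin) pv qv hpvP hqvP hpv hq.1 hdisj
    (ribetLevelT p ty Smin Piv) (NeZero.ne _) hML hT₀ hV₀ α β c hqvL hqu hcT hcq hsum hprod
    hαβ hα2 hβ2 hTset hT hV ⟨d, hd⟩

end Fermat.Agent.S38.H299

end
-- ===== PACK-END S38T/H299/IACtrlT.lean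

-- ===== PACK-BEGIN S38T/H299/IACtrlTFinal.lean
section



/-!
# Row S59, cell LO-IA (B2), HECKE-T: the leaf IA-CTRL, closed (helper299)

`iaCtrl_T299 : IACtrlStatement_T`, VERBATIM (`S38T/IA/Hecke/Spec3.lean`), unconditional:
`iaCtrl_T_of_free299` applied to IA-FREE-T (helper681 `iaFree_T_h681`).
-/

set_option autoImplicit false

namespace Fermat.Agent.S38.H299

open Fermat.Agent.S38.IA.Hecke

/-- **IA-CTRL-T.** -/
theorem iaCtrl_T299 : IACtrlStatement_T :=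
  iaCtrl_T_of_free299 Fermat.Agent.S38.H681.iaFree_T_h681

end Fermat.Agent.S38.H299

end
-- ===== PACK-END S38T/H299/IACtrlTFinal.lean

-- ===== PACK-BEGIN S38/H509/StOcc.lean
section




/-!
# Row HARD, cell HECKE, leaf IA-ST, Betti step (helper509): the occurrence transfer

`K₁ = KG p (ribetLevel p Smin Piv) qv`, `V₁` the localisation of `X_{K₁}(𝒪)`,
`Ψ : heckeAlgebra N₁ 2 S₁ → End_𝒪 V₁` any ring homomorphism with `Ψ(T_ℓ) = ⟨ℓ⟩^e T_ℓ`
(the output of `H264.exists_psiU_K1`), `x : T_Q → 𝒪'` a support point of `V / I_{Δ_Piv} V`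
(`H953.IsSuppPt953`).

`iaStOcc_h509` : every integer noncommutative polynomial `P` in the `T_ℓ` with `Ψ(P(T)) = 0`
satisfies `P(x(T_ℓ)) = 0`: the hypothesis `hocc` of `H53.st_of_action_h53`.

Proof: `cor (a(P(T)) v) = Ψ(P(T)) (cor v)` by induction on `P` (`occ_of_cor_h509`), so
`Ψ(P(T)) = 0` gives `a(P(T)) V ⊆ ker cor ∩ V = I_{Δ_Piv} V` (`iaStCor_h509`).
-/

set_option autoImplicit false
set_option linter.style.haveILetI false

open Polynomial IsLocalRing CongruenceSubgroup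
open scoped MatrixGroups

namespace Fermat.Agent.S38.H509

open Fermat.Agent.S59.Arch Fermat.Agent.S59.TW.H959 Fermat.Agent.S59.TW
open Fermat.Agent.S59.TW.H653 Fermat.Agent.S59.TW.Aut Fermat.Agent.S38.IA
open Fermat.Agent.S38.IA.Hecke Fermat.Agent.S38.H953 Fermat.Agent.S38.H53
open CuspForm

/-! ## The abstract induction -/

section Abs

variable {𝒪 : Type} [CommRing 𝒪] {T : Type} [CommRing T] [Algebra 𝒪 T]
  {X X₁ : Type} [AddCommGroup X] [Module 𝒪 X] [AddCommGroup X₁] [Module 𝒪 X₁]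
  (V : Submodule 𝒪 X) (V₁ : Submodule 𝒪 X₁) (a : T →ₐ[𝒪] Module.End 𝒪 V)
  (cor : V →ₗ[𝒪] V₁)
  {I : Type} {H : Type} [CommRing H] (Ψ : H →+* Module.End 𝒪 V₁) (τ : I → H) (t : I → T)

/-- `cor ∘ a(P(t)) = Ψ(P(τ)) ∘ cor` for every integer noncommutative polynomial `P`. -/
theorem occ_of_cor_h509 (hcompat : ∀ (i : I) (v : V), cor (a (t i) v) = Ψ (τ i) (cor v))
    (P : FreeAlgebra ℤ I) (v : V) :
    cor (a (FreeAlgebra.lift ℤ t P) v) = Ψ (FreeAlgebra.lift ℤ τ P) (cor v) := by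
  induction P using FreeAlgebra.induction generalizing v with
  | grade0 r =>
    have h1 : a (FreeAlgebra.lift ℤ t (algebraMap ℤ (FreeAlgebra ℤ I) r)) v = r • v := by
      rw [AlgHom.commutes, eq_intCast, map_intCast, Module.End.intCast_apply]
    have h2 : Ψ (FreeAlgebra.lift ℤ τ (algebraMap ℤ (FreeAlgebra ℤ I) r)) (cor v) =
        r • cor v := by
      rw [AlgHom.commutes, eq_intCast, map_intCast, Module.End.intCast_apply]
    rw [h1, h2, map_zsmul]
  | grade1 i =>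
    rw [FreeAlgebra.lift_ι_apply, FreeAlgebra.lift_ι_apply]
    exact hcompat i v
  | mul P Q hP hQ =>
    rw [map_mul, map_mul, map_mul, map_mul, Module.End.mul_apply, Module.End.mul_apply,
      hP, hQ]
  | add P Q hP hQ =>
    rw [map_add, map_add, map_add, map_add, LinearMap.add_apply, LinearMap.add_apply,
      map_add, hP, hQ]

end Abs

/-! ## The occurrence transfer -/

section Occ

/-- **ST-BETTI, (OCC).** -/
theorem iaStOcc_h509 (p : ℕ) [Fact p.Prime] (hp5 : 5 ≤ p)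
    (𝒪 : Type) [CommRing 𝒪] [IsDomain 𝒪] [IsDiscreteValuationRing 𝒪]
    [IsAdicComplete (maximalIdeal 𝒪) 𝒪] [Finite (ResidueField 𝒪)] [CharZero 𝒪]
    (ρbar : ResidualGaloisRep (ResidueField 𝒪)) (Smin : Finset ℕ)
    (h : ResidualHyp p 𝒪 ρbar Smin)
    (Piv : Finset ℕ) (hPiv : IsPivotSet p ρbar Smin Piv)
    (k : ℕ) (pv : Fin k → ℕ) (hpv : Function.Injective pv)
    (hpvPiv : Finset.univ.image pv = Piv)
    (n r : ℕ) (qv : Fin r → ℕ) (hq : IsTWSet p ρbar (Smin ∪ Piv) n qv)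
    [NeZero (wilesLevel p .flat Smin (Smin ∪ Piv ∪ Finset.univ.image qv))]
    (PQ : HeckePkg p 𝒪 ρbar .flat Smin (Smin ∪ Piv ∪ Finset.univ.image qv))
    (α : Fin r → 𝒪)
    (V : Submodule 𝒪 (XIA p Smin pv qv 𝒪)) (e : ℕ) (a : PQ.T →ₐ[𝒪] Module.End 𝒪 V)
    (hV : IsIAPart PQ α V) (ha : IsIAAction PQ V e a)
    (V₁ : Submodule 𝒪 (Additive (KG p (ribetLevel p Smin Piv) qv) →+ 𝒪))
    (hV₁ : IsLocPart (isMid_KG p (ribetLevel p Smin Piv) qv) (TsetOf PQ) (UsetOf qv α) V₁)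
    {N₁ : ℕ} [NeZero N₁] {S₁ : Set ℕ}
    (Ψ : heckeAlgebra N₁ 2 S₁ →+* Module.End 𝒪 V₁)
    (hΨ : ∀ (ℓ : ℕ) (hℓ : ℓ.Prime) (hℓN : ¬ ℓ ∣ N₁) (hℓS : ℓ ∉ S₁) (v : V₁),
      ((Ψ (heckeAlgebra.T hℓ hℓN hℓS) v : V₁) :
          Additive (KG p (ribetLevel p Smin Piv) qv) →+ 𝒪) =
        tOpTw (isMid_KG p (ribetLevel p Smin Piv) qv) 𝒪 e ℓ hℓ
          (v : Additive (KG p (ribetLevel p Smin Piv) qv) →+ 𝒪))
    {𝒪' : Type} [CommRing 𝒪'] (x : PQ.T →+* 𝒪')
    (hx : IsSuppPt953 PQ V a (chiRelIA p Smin pv qv 1 V) x)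
    (hgood : ∀ ℓ : ℕ, ℓ.Prime → ¬ ℓ ∣ N₁ → ℓ ∉ S₁ →
      ¬ ℓ ∣ wilesLevel p .flat Smin (Smin ∪ Piv ∪ Finset.univ.image qv) ∧
        ℓ ∉ (↑(Smin ∪ Piv ∪ Finset.univ.image qv) : Set ℕ))
    (P : FreeAlgebra ℤ (GoodIdx N₁ S₁))
    (hP : Ψ (FreeAlgebra.lift ℤ (tFamA N₁ S₁) P) = 0) :
    FreeAlgebra.lift ℤ (fun i : GoodIdx N₁ S₁ =>
      x (PQ.H.π (heckeAlgebra.T i.2.1 (hgood i.1 i.2.1 i.2.2.1 i.2.2.2).1
        (hgood i.1 i.2.1 i.2.2.1 i.2.2.2).2))) P = 0 := by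
  classical
  obtain ⟨cor, hmem, heq, hker⟩ := iaStCor_h509 p hp5 𝒪 ρbar Smin h Piv hPiv k pv hpv hpvPiv
    n r qv hq PQ α V hV e
  have hpvmem : ∀ i, pv i ∈ Piv := fun i => by
    rw [← hpvPiv]
    exact Finset.mem_image_of_mem pv (Finset.mem_univ i)
  have hprime : ∀ s, (Sum.elim pv qv s).Prime := by
    rintro (i | j)
    · exact (hPiv (pv i) (hpvmem i)).1
    · exact (hq.2.1 j).1
  -- the restriction of `cor`
  let corV : V →ₗ[𝒪] V₁ := cor.restrict (hmem V₁ hV₁)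
  have hcorV : ∀ v : V, ((corV v : V₁) : Additive (KG p (ribetLevel p Smin Piv) qv) →+ 𝒪) =
      cor (v : XIA p Smin pv qv 𝒪) := fun v => rfl
  let t : GoodIdx N₁ S₁ → PQ.T := fun i =>
    PQ.H.π (heckeAlgebra.T i.2.1 (hgood i.1 i.2.1 i.2.2.1 i.2.2.2).1
      (hgood i.1 i.2.1 i.2.2.1 i.2.2.2).2)
  have hcompat : ∀ (i : GoodIdx N₁ S₁) (v : V),
      corV (a (t i) v) = Ψ (tFamA N₁ S₁ i) (corV v) := by
    intro i v
    apply Subtype.ext
    rw [hcorV, ha i.1 i.2.1 (hgood i.1 i.2.1 i.2.2.1 i.2.2.2).1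
      (hgood i.1 i.2.1 i.2.2.1 i.2.2.2).2 v]
    have h1 : ¬ i.1 ∣ MIA p Smin pv qv := fun hd =>
      (hgood i.1 i.2.1 i.2.2.1 i.2.2.2).2 (Finset.mem_coe.mpr
        (mem_of_dvd_mia_h509 p Smin Piv pv qv h.hSmin hprime hpvPiv i.2.1 hd))
    rw [heq i.1 i.2.1 h1]
    exact (hΨ i.1 i.2.1 i.2.2.1 i.2.2.2 (corV v)).symm
  have key := occ_of_cor_h509 V V₁ a corV Ψ (tFamA N₁ S₁) t hcompat P
  -- `a(P(T))` maps `V` into the relations
  have hrel : ∀ v : V, ((a (FreeAlgebra.lift ℤ t P) v : V) : XIA p Smin pv qv 𝒪) ∈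
      chiRelIA p Smin pv qv 1 V := by
    intro v
    refine (hker _ (a (FreeAlgebra.lift ℤ t P) v).2).mp ?_
    have h1 := key v
    rw [hP, LinearMap.zero_apply] at h1
    have h2 := congrArg (fun z : V₁ =>
      (z : Additive (KG p (ribetLevel p Smin Piv) qv) →+ 𝒪)) h1
    exact h2
  have h3 : x (FreeAlgebra.lift ℤ t P) = 0 := hx _ hrel
  have h4 : (x.toIntAlgHom).comp (FreeAlgebra.lift ℤ t) =
      FreeAlgebra.lift ℤ (fun i : GoodIdx N₁ S₁ => x (t i)) := by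
    apply FreeAlgebra.hom_ext
    funext i
    simp only [Function.comp_apply, AlgHom.coe_comp, FreeAlgebra.lift_ι_apply,
      RingHom.toIntAlgHom_apply]
  have h5 := congrArg (fun f : FreeAlgebra ℤ (GoodIdx N₁ S₁) →ₐ[ℤ] 𝒪' => f P) h4
  exact h5.symm.trans h3

end Occ

end Fermat.Agent.S38.H509

end
-- ===== PACK-END S38/H509/StOcc.lean

-- ===== PACK-BEGIN S38T/H227/IADictR.lean
section









/-!
# S59 (B2), cell HECKE-T, leaf IA-CMP, sub-leaf IA-DICT-R: the `ty`-generic twin   (helper227)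

`iaDictR227_T : H183.IADictRStatement_T` (VERBATIM, `S38T/IA/Hecke/H183/CmpSpecIA.lean`, helper3):
the twin of `H227.iaDictR227` for every type `ty` at `p` and every odd `p`.  NOT a script twin:
the proof uses only `ty`-generic lemmas (`Arch.factorization_wilesLevel`,
`Arch.wilesLevel_ne_zero`, `Arch.mem_of_prime_dvd_wilesLevel`, `H47.twistHyp_KG`,
`H47.gLevel_mul_prod_IA`, `H47.exists_niceLift`, `H324.isLocPart_parabolic_of_pkg`) and the
generic core `H227.dictR_core`; neither `3 ≤ p` nor the type hypothesis is used.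
-/

set_option autoImplicit false
set_option linter.unusedSectionVars false
set_option linter.unusedVariables false
set_option linter.style.haveILetI false

open Polynomial IsLocalRing CongruenceSubgroup
open scoped MatrixGroups

namespace Fermat.Agent.S38.H227

open Fermat.Agent.S59.Arch Fermat.Agent.S59.TW.H959 Fermat.Agent.S59.TW Fermat.Agent.S59.H765
open Fermat.Agent.S59.TW.H653 Fermat.Agent.S59.TW.Aut Fermat.Agent.S59.TW.H658
open Fermat.Agent.S38.IA Fermat.Agent.S38.IA.Hecke Fermat.Agent.S38.IA.Hecke.H183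
open Fermat.Agent.S38.H47
open CuspForm

/-- **IA-DICT-R**, `ty`-generic twin (VERBATIM). -/
theorem iaDictR227_T : IADictRStatement_T := by
  intro p hpF hp5 𝒪 _ _ _ _ _ _ ρbar Smin hR ty hty Piv hPiv k pv hpv hpvPiv n r qv hq hNQ PQ α hα
    V h a hV hhalf₁ hhalf₂ ha j u hu y hy hsum
  classical
  subst hpvPiv
  have hpvP : ∀ i, (pv i).Prime := fun i =>
    (hPiv (pv i) (Finset.mem_image_of_mem pv (Finset.mem_univ i))).1
  have hqvP : ∀ j, (qv j).Prime := fun j => (hq.2.1 j).1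
  -- the standing facts
  have hpvMem : ∀ i, pv i ∈ Finset.univ.image pv := fun i =>
    Finset.mem_image_of_mem pv (Finset.mem_univ i)
  have hpvS : ∀ i, pv i ∉ Smin := fun i => (hPiv (pv i) (hpvMem i)).2.1
  have hqvS : ∀ j, qv j ∉ Smin := fun j hj => (hq.2.1 j).2.1 (Finset.mem_union_left _ hj)
  have hdisj : ∀ i j, pv i ≠ qv j := fun i j hij =>
    (hq.2.1 j).2.1 (Finset.mem_union_right _ (hij ▸ hpvMem i))
  have hinj : Function.Injective (Sum.elim pv qv) := elim_injective pv qv hpv hq.1 hdisj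
  have hprime : ∀ s, (Sum.elim pv qv s).Prime := by
    rintro (i | j)
    · exact hpvP i
    · exact hqvP j
  have hN₀ : wilesLevel p ty Smin Smin ≠ 0 := wilesLevel_ne_zero hpF.out hR.hSmin hR.hSmin
  have hcop : ∀ s, Nat.Coprime (wilesLevel p ty Smin Smin) (Sum.elim pv qv s) := by
    intro s
    refine Nat.Coprime.symm ((Nat.Prime.coprime_iff_not_dvd (hprime s)).mpr fun hd => ?_)
    have hmem : Sum.elim pv qv s ∈ Smin :=
      _root_.Fermat.Agent.S59.Arch.mem_of_prime_dvd_wilesLevel hpF.out hR.hSmin hR.hSmin hR.hpSmin (Finset.Subset.refl _)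
        _ (hprime s) hd
    rcases s with i | j
    · exact hpvS i hmem
    · exact hqvS j hmem
  have hsub : Smin ⊆ Smin ∪ Finset.univ.image pv ∪ Finset.univ.image qv :=
    Finset.subset_union_left.trans Finset.subset_union_left
  have hSigP : ∀ q ∈ Smin ∪ Finset.univ.image pv ∪ Finset.univ.image qv, q.Prime := by
    intro q hq'
    rcases Finset.mem_union.mp hq' with h' | h'
    · rcases Finset.mem_union.mp h' with h'' | h''
      · exact hR.hSmin q h''
      · exact (hPiv q h'').1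
    · obtain ⟨j, -, rfl⟩ := Finset.mem_image.mp h'
      exact hqvP j
  have hsurj : Function.Surjective (gRed (wilesLevel p ty Smin Smin) (Sum.elim pv qv)) :=
    gRed_surjective _ _ hN₀ hinj hprime
  have hMne : MIA_T p ty Smin pv qv ≠ 0 := gLevel_ne_zero _ _ hN₀ hprime
  haveI : NeZero (MIA_T p ty Smin pv qv) := ⟨hMne⟩
  have hsig : ∀ q : ℕ, q.Prime →
      q ∣ wilesLevel p ty Smin (Smin ∪ Finset.univ.image pv ∪ Finset.univ.image qv) →
      q ∈ (↑(Smin ∪ Finset.univ.image pv ∪ Finset.univ.image qv) : Set ℕ) := fun q hqP hqd =>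
    Finset.mem_coe.mpr (Fermat.Agent.S59.Arch.mem_of_prime_dvd_wilesLevel hpF.out hR.hSmin hSigP
      hR.hpSmin hsub q hqP hqd)
  have hH : TwistHyp (KIA_T p ty Smin pv qv)
      (wilesLevel p ty Smin (Smin ∪ Finset.univ.image pv ∪ Finset.univ.image qv))
      (fun ℓ => uOf (MIA_T p ty Smin pv qv) ℓ ^ h) :=
    twistHyp_KG p (wilesLevel p ty Smin Smin) (Sum.elim pv qv) hinj hprime hcop
      (isHalfG_elim p pv qv hhalf₁ hhalf₂)
      (by rw [gLevel_mul_prod_IA p Smin pv qv ty hpv hq.1 hdisj hpvS hqvS])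
  have hvfac : (wilesLevel p ty Smin
      (Smin ∪ Finset.univ.image pv ∪ Finset.univ.image qv)).factorization (qv j) = 2 := by
    rw [Fermat.Agent.S59.Arch.factorization_wilesLevel hpF.out hR.hSmin hSigP]
    have h1 : qv j ∉ Smin.erase p := fun hm => hqvS j (Finset.mem_of_mem_erase hm)
    have h2 : qv j ∈ (Smin ∪ Finset.univ.image pv ∪ Finset.univ.image qv) \ Smin :=
      Finset.mem_sdiff.mpr ⟨Finset.mem_union_right _
        (Finset.mem_image_of_mem qv (Finset.mem_univ j)), hqvS j⟩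
    have h3 : ¬ (ty ≠ PType.flat ∧ qv j = p) := fun hh => hqvS j (hh.2 ▸ hR.hpSmin)
    rw [if_neg h1, if_pos h2, if_neg h3]
  have hK : IsMid (MIA_T p ty Smin pv qv) (KIA_T p ty Smin pv qv) := isMid_KIA_T p ty Smin pv qv
  haveI : (KIA_T p ty Smin pv qv).FiniteIndex :=
    Fermat.Agent.S59.TW.H564.finiteIndex_of_Gamma1_le (M := MIA_T p ty Smin pv qv) hK.ge
  -- the nice lift of the diamond index at `q_j`
  obtain ⟨d₀, hd₀, hd₀1⟩ :=
    exists_niceLift (wilesLevel p ty Smin Smin) (Sum.elim pv qv) hN₀ hinj hprime hcop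
      (pairU (1 : ∀ i : Fin k, (ZMod (pv i))ˣ) (Pi.mulSingle j u))
  have hdia : ∀ y : XIA_T p ty Smin pv qv 𝒪,
      diamondU hK d₀ y = diaIA_T p ty Smin pv qv 𝒪 1 (Pi.mulSingle j u) y := fun y =>
    diamondU_eq_gLift p (wilesLevel p ty Smin Smin) (Sum.elim pv qv) hsurj hd₀ y
  have hiter : ∀ (i : ℕ) (y : XIA_T p ty Smin pv qv 𝒪),
      (diamondU hK d₀)^[i] y = (diaIA_T p ty Smin pv qv 𝒪 1 (Pi.mulSingle j u))^[i] y := by
    intro i
    induction i with
    | zero => intro y; rfl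
    | succ i ih =>
      intro y
      rw [Function.iterate_succ_apply, Function.iterate_succ_apply, hdia, ih]
  have hd : (∑ i ∈ Finset.range p,
      (diamondU hK d₀)^[i] (y : XIA_T p ty Smin pv qv 𝒪)) = 0 := by
    rw [← hsum]
    exact Finset.sum_congr rfl fun i _ => hiter i _
  -- parabolic classes
  have hpar : ∀ v ∈ V, ModularCurve.Period.IsParabolicHom (KIA_T p ty Smin pv qv) v :=
    Fermat.Agent.S59.TW.H324.isLocPart_parabolic_of_pkg p 𝒪 ρbar Smin hR ty _ hsub hSigP PQ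
      hMne hK hV
  -- the point of the prime `Ann y`
  let 𝔔 : Ideal PQ.T :=
    { carrier := {s | a s y = 0}
      add_mem' := fun {s t} hs ht => by
        show a (s + t) y = 0
        rw [map_add, LinearMap.add_apply, (hs : a s y = 0), (ht : a t y = 0), add_zero]
      zero_mem' := by
        show a 0 y = 0
        rw [map_zero, LinearMap.zero_apply]
      smul_mem' := fun c s hs => by
        show a (c • s) y = 0
        rw [smul_eq_mul, map_mul, Module.End.mul_apply, (hs : a s y = 0), map_zero] }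
  have h𝔔mem : ∀ s : PQ.T, s ∈ 𝔔 ↔ a s y = 0 := fun s => Iff.rfl
  haveI h𝔔p : 𝔔.IsPrime := by
    refine ⟨?_, ?_⟩
    · intro htop
      have h1 : (1 : PQ.T) ∈ 𝔔 := by rw [htop]; exact Submodule.mem_top
      rw [h𝔔mem, map_one, Module.End.one_apply] at h1
      exact hy.1 h1
    · intro s t hst
      exact hy.2 s t hst
  have h𝔔𝒪 : ∀ c : 𝒪, algebraMap 𝒪 PQ.T c ∈ 𝔔 → c = 0 := by
    intro c hc
    rw [h𝔔mem, AlgHom.commutes, Module.algebraMap_end_apply] at hc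
    by_contra hc0
    apply hy.1
    apply Subtype.ext
    have h1 : c • (y : XIA_T p ty Smin pv qv 𝒪) = 0 := by
      have := congrArg Subtype.val hc
      simpa using this
    refine AddMonoidHom.ext fun g => ?_
    have h2 := DFunLike.congr_fun h1 g
    rw [AddMonoidHom.smul_apply, AddMonoidHom.zero_apply, smul_eq_mul] at h2
    rcases mul_eq_zero.mp h2 with h3 | h3
    · exact absurd h3 hc0
    · simpa using h3
  obtain ⟨O', i1, i2, i3, i4, i5, i6, i7, ev, hloc, hinjO, hev⟩ :=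
    Fermat.Agent.S59.TW.Aut.H673.exists_dvr_point 𝒪 PQ.T 𝔔 h𝔔𝒪
  haveI := hloc
  haveI : Algebra.IsIntegral 𝒪 PQ.T := Algebra.IsIntegral.of_finite 𝒪 PQ.T
  have hlocT : IsLocalHom ev.toRingHom :=
    Fermat.Agent.S59.TW.Aut.H673.isLocalHom_of_integral_h673 𝒪 PQ.T O' ev.toRingHom
      (fun c => AlgHom.commutes ev c)
  have hker : ∀ s : PQ.T, a s y = 0 ↔ ev.toRingHom s = 0 := fun s =>
    ((hev s).trans (h𝔔mem s)).symm
  -- the levels
  have hNM : ∀ r' : ℕ, r'.Prime →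
      r' ∣ wilesLevel p ty Smin (Smin ∪ Finset.univ.image pv ∪ Finset.univ.image qv) →
      r' ∣ MIA_T p ty Smin pv qv := by
    intro r' hr hrN
    rw [← gLevel_mul_prod_IA p Smin pv qv ty hpv hq.1 hdisj hpvS hqvS] at hrN
    rcases (Nat.Prime.dvd_mul hr).mp hrN with h1 | h1
    · exact h1
    · obtain ⟨s, -, hs⟩ := (Prime.dvd_finsetProd_iff hr.prime _).mp h1
      exact hs.trans (dvd_gLevel _ _ s)
  have hdvq : ∀ q : ℕ, q.Prime → q ∣ MIA_T p ty Smin pv qv → q ≠ qv j →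
      (((((d₀ : (ZMod (MIA_T p ty Smin pv qv))ˣ) :
        ZMod (MIA_T p ty Smin pv qv)).val : ℕ) : ℤ) : ZMod q) = 1 := by
    intro q hqP hqM hqne
    refine cast_niceLift_of_prime (wilesLevel p ty Smin Smin) (Sum.elim pv qv) hprime
      hd₀ hd₀1 hqP hqM ?_
    rintro (i | j') hne
    · exact absurd rfl hne
    · by_cases hjj : j' = j
      · subst hjj
        exact hqne
      · exfalso
        apply hne
        show (Pi.mulSingle j u : ∀ j : Fin r, (ZMod (qv j))ˣ) j' = 1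
        exact Pi.mulSingle_eq_of_ne (M := fun j => (ZMod (qv j))ˣ) hjj u
  -- the dictionary
  obtain ⟨chiF, jj, M₁, hM₁, g, hj, hg, hM₁N, hM₁v, hgF⟩ :=
    dictR_core hK hH
      (↑(Smin ∪ Finset.univ.image pv ∪ Finset.univ.image qv) : Set ℕ) hsig hNM V hpar
      a.toRingHom PQ.H.π (fun i v => ha i.1 i.2.1 i.2.2.1 i.2.2.2 v) y hpF.out.ne_zero d₀ hd
      ev.toRingHom (fun t ht => (hker t).mp ht) hvfac hdvq
  haveI := hM₁
  have hM₁S : ∀ q : ℕ, q.Prime → q ∣ M₁ →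
      q ∈ (↑(Smin ∪ Finset.univ.image pv ∪ Finset.univ.image qv) : Set ℕ) :=
    fun q hqP hqd => hsig q hqP (hqd.trans hM₁N)
  have hNS : ∀ ℓ : ℕ, ℓ.Prime →
      ℓ ∉ (↑(Smin ∪ Finset.univ.image pv ∪ Finset.univ.image qv) : Set ℕ) →
      ¬ ℓ ∣ wilesLevel p ty Smin (Smin ∪ Finset.univ.image pv ∪ Finset.univ.image qv) :=
    fun ℓ hℓ hℓS hd => hℓS (hsig ℓ hℓ hd)
  -- the eigen-character of `g`
  have hle : (Fermat.Agent.S58.H94.chigOf hg.1
      (↑(Smin ∪ Finset.univ.image pv ∪ Finset.univ.image qv) : Set ℕ)).range ≤ chiF.range :=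
    Fermat.Agent.S58.H94.chigOf_range_le hg.1 _ chiF.range
      (fun ℓ hℓ hℓM hℓS => by
        rw [hgF ℓ hℓ (hNS ℓ hℓ hℓS) hℓS]
        exact ⟨_, rfl⟩) hM₁S
  refine ⟨O', i1, i2, i3, i4, i5, i6, ev.toRingHom, hlocT, hker, M₁, hM₁, g, hg, hM₁v, hM₁S,
    Fermat.Agent.S58.H94.chigOf hg.1 _, jj.comp (Subring.inclusion hle), ?_, ?_⟩
  · intro ℓ hℓ hℓM hℓS
    exact Fermat.Agent.S58.H94.chigOf_T hg.1 _ hℓ hℓM hℓS
  · intro ℓ hℓ hℓN hℓM hℓS
    rw [← hj]
    rw [RingHom.comp_apply]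
    congr 1
    apply Subtype.ext
    show Fermat.Agent.S58.H94.chigOf hg.1 _ (CuspForm.heckeAlgebra.T hℓ hℓM hℓS) =
      chiF (CuspForm.heckeAlgebra.T hℓ hℓN hℓS)
    rw [Fermat.Agent.S58.H94.chigOf_T hg.1 _ hℓ hℓM hℓS, hgF ℓ hℓ hℓN hℓS]

end Fermat.Agent.S38.H227

end
-- ===== PACK-END S38T/H227/IADictR.lean

-- ===== PACK-BEGIN S59/H672/NeatSplitUp.lean
section




/-!
# Row S59, cell (B1): SPLIT-UP for the pull-back `neatPullR` (helper672)

    splitUp : x ∈ splitPartQ p q M' A → neatPullR q r M' x ∈ splitPartQ p q (r * M') A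

A Kummer generator `f` of `x` is a Kummer generator of `π^* x`; its reduction on `C∞` is
unchanged, its reduction on `C₀` becomes `r₂ (t ^ r)` (`w_{Nr} ∘ α = β ∘ w_N`), and both stay
constants times `p`-th powers.  No condition on `p`, `q`, `r`, `M'` (only `NeZero`).
-/

set_option autoImplicit false
set_option linter.style.haveILetI false
set_option linter.unusedSectionVars false
set_option synthInstance.maxHeartbeats 400000
set_option maxHeartbeats 1000000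

noncomputable section

namespace Fermat.Agent.S59.H672.NeatPull

open AlgebraicCurve ModularCurve HahnSeries
open Fermat.Agent.S24 Fermat.Agent.A2.H708 Fermat.Agent.A2.H528
open Fermat.Agent.S37.H818 (pullbackPic0Along pullbackDegZeroAlong)
open Fermat.Agent.Ribet.H801 (jzeroCast)
open Fermat.Agent.Ribet.H884 (IsKummerGen IsRedInf IsRedZero kA)
open Fermat.Agent.Ribet.H158.WallQ (PPowSeries SplitGenQ splitSetQ splitPartQ)

/-! ### Kummer generators under the pull-back -/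

/-- A Kummer generator of `x` is a Kummer generator of `π^* x` (inclusion `F(N) ⊆ F(N r)`). -/
theorem isKummerGen_pullHom672 (N r p : ℕ) [NeZero N] [NeZero r] {f : FF N} {x : JZero N}
    (h : IsKummerGen N p f x) :
    IsKummerGen (N * r) p (heckeAlphaBar Kbar N r f) (Fermat.Agent.S37.H155.pullHom N r x) := by
  obtain ⟨hf0, D, hDx, hD⟩ := h
  have hα : (heckeAlphaBar Kbar N r).toRingHom.IsIntegral :=
    Fermat.Agent.Lib.FF398.heckeAlphaBarIntegral N r
  refine ⟨(map_ne_zero_iff _ (heckeAlphaBar Kbar N r).toRingHom.injective).mpr hf0,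
    pullbackDegZeroAlong (heckeAlphaBar Kbar N r) hα
      (Fermat.Agent.Lib.FF398.fundamentalIdentityAlong_alpha N r) D, ?_, ?_⟩
  · rw [← hDx]
    rfl
  · intro w
    have h1 : ((pullbackDegZeroAlong (heckeAlphaBar Kbar N r) hα
        (Fermat.Agent.Lib.FF398.fundamentalIdentityAlong_alpha N r) D :
          Divisor.degZero (K := Kbar) (F := FF (N * r))) : Divisor Kbar (FF (N * r))) w
        = Place.ramificationIndexAlong (heckeAlphaBar Kbar N r) w
            * (D : Divisor Kbar (FF N)) (w.restrictAlong (heckeAlphaBar Kbar N r) hα) :=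
      Divisor.pullbackAlong_apply (heckeAlphaBar Kbar N r) hα (D : Divisor Kbar (FF N)) w
    have h2 := Place.ord_restrictAlong (heckeAlphaBar Kbar N r) hα w f
    rw [h1, h2, hD]
    ring

/-! ### Level casts -/

theorem exists_castFF672 {N N' : ℕ} (h : N = N') (f : FF N) :
    ∃ f' : FF N', (f' : LaurentSeries Kbar) = (f : LaurentSeries Kbar) := by
  subst h
  exact ⟨f, rfl⟩

theorem isKummerGen_cast672 {N N' : ℕ} [NeZero N] [NeZero N'] (h : N = N') (p : ℕ)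
    {f : FF N} {f' : FF N'} (hff : (f' : LaurentSeries Kbar) = (f : LaurentSeries Kbar))
    {x : JZero N} (hx : IsKummerGen N p f x) : IsKummerGen N' p f' (jzeroCast h x) := by
  subst h
  obtain rfl : f' = f := Subtype.ext hff
  exact hx

theorem isRedZero_cast672 {N N' : ℕ} [NeZero N] [NeZero N'] (h : N = N')
    {A : ValuationSubring Kbar} {f : FF N} {f' : FF N'}
    (hff : (f' : LaurentSeries Kbar) = (f : LaurentSeries Kbar)) {ρ : LaurentSeries (kA A)}
    (hr : IsRedZero N A f ρ) : IsRedZero N' A f' ρ := by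
  subst h
  obtain rfl : f' = f := Subtype.ext hff
  exact hr

/-! ### Constants times `p`-th powers -/

section PPow

variable {k : Type} [Field k]

theorem pPowSeries_up672 (p M r : ℕ) [NeZero M] [NeZero r] {ρ : LaurentSeries k}
    (h : PPowSeries p M ρ) :
    PPowSeries p (r * M) ρ := by
  obtain ⟨c, g, hc, hg, e⟩ := h
  refine ⟨c, ⟨(g : LaurentSeries k), full_degeneracyC_le k (Dvd.intro_left r rfl) g.2⟩, hc, ?_, e⟩
  intro h0
  have h1 : (g : LaurentSeries k) = 0 := congrArg Subtype.val h0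
  exact hg (Subtype.ext h1)

theorem qExpand_C672 (r : ℕ) [NeZero r] (c : k) :
    qExpand k r (HahnSeries.C c) = HahnSeries.C c := by
  show qExpand k r (HahnSeries.single 0 c) = HahnSeries.single 0 c
  rw [qExpand_single, mul_zero]

theorem pPowSeries_qExpand672 (p M r : ℕ) [NeZero M] [NeZero r] {ρ : LaurentSeries k}
    (h : PPowSeries p M ρ) : PPowSeries p (r * M) (qExpand k r ρ) := by
  obtain ⟨c, g, hc, hg, e⟩ := h
  have hmem : qExpand k r (g : LaurentSeries k) ∈ modularFunctionFieldFullC k (r * M) := by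
    rw [Nat.mul_comm r M]
    exact Fermat.Agent.S37.H157.qExpand_mem_full_mul k M r g.2
  refine ⟨c, ⟨qExpand k r (g : LaurentSeries k), hmem⟩, hc, ?_, ?_⟩
  · intro h0
    have h1 : qExpand k r (g : LaurentSeries k) = 0 := congrArg Subtype.val h0
    have h2 : (g : LaurentSeries k) = 0 :=
      (qExpand k r).injective (h1.trans (map_zero _).symm)
    exact hg (Subtype.ext h2)
  · rw [e, map_mul, map_pow, qExpand_C672]

end PPow

/-! ### SPLIT-UP -/

section SplitUp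

variable (p q r M' : ℕ) [NeZero q] [NeZero r] [NeZero M'] [NeZero (q * M')] [NeZero (r * M')]
  [NeZero (q * (r * M'))] (A : ValuationSubring Kbar)

/-- `neatPullR` as the cast of `pullHom`. -/
theorem neatPullR_eq672 (x : JZero (q * M')) :
    neatPullR q r M' x = jzeroCast (show q * M' * r = q * (r * M') by ring)
      (Fermat.Agent.S37.H155.pullHom (q * M') r x) := by
  rw [neatPullR_apply, neatPull_apply, jzeroCast_trans672]

/-- **KUM-PULL**: a Kummer generator `f` of `x` gives a Kummer generator of `π^* x` with the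
SAME expansion at `∞`. -/
theorem exists_kummerGen_neatPullR {f : FF (q * M')} {x : JZero (q * M')}
    (hK : IsKummerGen (q * M') p f x) :
    ∃ f' : FF (q * (r * M')), (f' : LaurentSeries Kbar) = (f : LaurentSeries Kbar) ∧
      IsKummerGen (q * (r * M')) p f' (neatPullR q r M' x) := by
  have hlev : q * M' * r = q * (r * M') := by ring
  obtain ⟨f', hf'⟩ := exists_castFF672 hlev (heckeAlphaBar Kbar (q * M') r f)
  refine ⟨f', hf'.trans (coe_heckeAlphaBar (q * M') r f), ?_⟩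
  rw [neatPullR_eq672]
  exact isKummerGen_cast672 hlev p hf' (isKummerGen_pullHom672 (q * M') r p hK)

/-- The reductions of the Kummer generator of `π^* x`: unchanged on `C∞`, `t ↦ t ^ r` on `C₀`. -/
theorem isRed_of_coe_eq672 {f : FF (q * M')} {f' : FF (q * (r * M'))}
    (hff : (f' : LaurentSeries Kbar) = (f : LaurentSeries Kbar))
    {r₁ r₂ : LaurentSeries (kA A)} (hinf : IsRedInf (q * M') A f r₁)
    (h0 : IsRedZero (q * M') A f r₂) :
    IsRedInf (q * (r * M')) A f' r₁ ∧ IsRedZero (q * (r * M')) A f' (qExpand (kA A) r r₂) := by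
  have hlev : q * M' * r = q * (r * M') := by ring
  refine ⟨Fermat.Agent.Ribet.H223.M6a.isRedInf_congr hff hinf, ?_⟩
  exact isRedZero_cast672 hlev (hff.trans (coe_heckeAlphaBar (q * M') r f).symm)
    (Fermat.Agent.Ribet.H223.M6a.isRedZero_alpha h0)

/-- SPLIT-UP on the generators. -/
theorem splitSetQ_up {x : JZero (q * M')} (hx : x ∈ splitSetQ p q M' A) :
    neatPullR q r M' x ∈ splitSetQ p q (r * M') A := by
  obtain ⟨f, hK, r₁, r₂, hinf, h0, hP₁, hP₂⟩ := hx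
  have hlev : q * M' * r = q * (r * M') := by ring
  obtain ⟨f', hf'⟩ := exists_castFF672 hlev (heckeAlphaBar Kbar (q * M') r f)
  refine ⟨f', ?_, r₁, qExpand (kA A) r r₂, ?_, ?_, pPowSeries_up672 p M' r hP₁,
    pPowSeries_qExpand672 p M' r hP₂⟩
  · rw [neatPullR_eq672]
    exact isKummerGen_cast672 hlev p hf' (isKummerGen_pullHom672 (q * M') r p hK)
  · exact Fermat.Agent.Ribet.H223.M6a.isRedInf_congr
      (hf'.trans (coe_heckeAlphaBar (q * M') r f)) hinf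
  · exact isRedZero_cast672 hlev hf' (Fermat.Agent.Ribet.H223.M6a.isRedZero_alpha h0)

/-- **SPLIT-UP**: `π^*` maps `splitPartQ` at level `(q, M')` into `splitPartQ` at level
`(q, r M')`. -/
theorem splitUp {x : JZero (q * M')} (hx : x ∈ splitPartQ p q M' A) :
    neatPullR q r M' x ∈ splitPartQ p q (r * M') A := by
  have hle : splitPartQ p q M' A ≤ (splitPartQ p q (r * M') A).comap (neatPullR q r M') := by
    unfold splitPartQ
    rw [AddSubgroup.closure_le]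
    intro y hy
    exact AddSubgroup.subset_closure (splitSetQ_up p q r M' A hy)
  exact hle hx

end SplitUp

end Fermat.Agent.S59.H672.NeatPull

end

end
-- ===== PACK-END S59/H672/NeatSplitUp.lean

-- ===== PACK-BEGIN Ribet/H580/IAOldSpec.lean
section



/-!
# Row 37, HARD case (Ihara avoidance), endgame **FIN = IA-OLD**: frozen Props
  (sub-architect helper580; definitions + Props only, the glue is in `IAOldGlue.lean`)

## What the Ihara-avoidance engine produces and what this cell turns it into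
The support argument of the engine ends with a characteristic-`0` point of the Hecke algebra of
level `L = q·M'` whose Galois representation is UNRAMIFIED at `q`:
a ring homomorphism `χ : 𝕋_{qM'}^S → O` (`O` a complete DVR, finite residue field of
characteristic `p`, characteristic `0`) and `ρ : G_ℚ → GL₂(O)` with
`charpoly ρ(Frob_ℓ) = X² - χ(T_ℓ) X + ℓ` (`ℓ ∉ S`), residually absolutely irreducible, with
`ρ(I_q) = 1`.  **IA-OLD** (`IAOldStatement`): then the eigensystem `χ mod 𝔪_O` occurs at level `M'`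
(`Lowered M' p S a` for every integral `a` with `χ(T_ℓ) ≡ a_ℓ mod 𝔪_O`), i.e. "a `q`-new form is
ramified at `q`" (characteristic-zero Mazur principle).  `R3S`/`R3'` (on main) turn `Lowered`
into `P.ModularRepOfLevel (L / q)`.

## Route (proved in `IAOldGlue.lean` from the three POW-leaves below)
`M` = the adic eigenmodule `S30.H330.eigenSub` of `χ` inside `Hom(K/O, J₀(qM')[p^∞])`.
1. BLR over the ring `O` (`IAOldAlg/IAOldMat`, Mathlib only) + Chebotarev: every `g ∈ G_ℚ` satisfies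
   on `M` the characteristic polynomial of `ρ(g)`; hence `M` is a faithful module over
   `M₂(O) = O[ρ(G)]`: `I_q` acts trivially on `M`, and `Frob² = q²` on `M` is impossible
   (`det ρ(Frob) = q`, characteristic `0`).
2. (W0) if some eigen-hom is not new, `α_*` or `β_*` moves it to level `M'`.
3. (Q4-pow) + NE: all values `f(y)`, `f ∈ M`, lie in the finite part `𝓕_n` (modulus `p^n`).
4. If some value is not in the split part `𝒮_n`: take the first layer `f(λ^{-j}O)` not contained in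
   `𝒮_n`; an element `x` of it satisfies `T_ℓ x - a_ℓ x ∈ 𝒮_n`, `p x ∈ 𝒮_n`: (Q3-pow) lowers.
5. Otherwise all values are in `𝒮_n`: (Q2-pow) gives `Frob = q·u`, `u² = 1`, so `Frob² = q²` on `M`:
   contradiction with 1.

## The three POW-leaves = the three targets of WALL-q (helper158) at modulus `p ^ n`
All definitions of `H884/SlopeSpec`, `H158/WallQSlope` are generic in the modulus; the leaves below
are the SAME statements with the modulus `p` replaced by `p ^ n`, in STRUCTURAL form (no Hecke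
eigenvector with integral eigenvalues is assumed: over `O ≠ ℤ_p` there is none).
For `n = 1` they imply `H158.WallQ.Q2Statement`, `Q3Statement`, `EisSlopeQStatement`
(`q2_of_pow`, `q3_of_pow`, `eisSlopeQ_of_pow` below): ONE proof serves both walls.
| leaf | Prop | content |
|---|---|---|
| FROB-AL-pow | `Q2PowStatement`        | `Q2For (p^n) q M' A (splitPartQ (p^n) …)` : `φ = q·u` on the new part of `𝒮_n` |
| RED-pow     | `Q3PowStatement`        | `x ∈ 𝓕_n ∖ 𝒮_n` new, `T_ℓ x - a_ℓ x ∈ 𝒮_n`, `p x ∈ 𝒮_n` ⟹ `Lowered M' p S a` |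
| EIS-q-pow   | `EisSlopeQPowStatement` | `x` new, killed by `p^n`, `I`-fixed ⟹ `T_ℓ x - (ℓ+1) x ∈ 𝓕_n` for all `ℓ ∤ q M' p` |
-/

set_option autoImplicit false
set_option synthInstance.maxHeartbeats 400000
set_option maxHeartbeats 1000000

noncomputable section

namespace Fermat.Agent.Ribet.H580.IAOld

open AlgebraicCurve ModularCurve Polynomial
open Fermat.Agent.S24 Fermat.Agent.A2.H708 Fermat.Agent.A2.H528
open Fermat.Agent.Ribet.Spec Fermat.Agent.Ribet.H944.Wall Fermat.Agent.Ribet.H884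
open Fermat.Agent.Ribet.H158.WallQ

/-! ## The POW-leaves -/

/-- **(Q2-pow) FROB-AL at modulus `p ^ n`**: on the new part of the split part `𝒮_n` every
Frobenius at `A` acts as `q·u`, `u` additive, Galois-equivariant, involutive there. -/
def Q2PowStatement : Prop :=
  ∀ (p q M' n : ℕ) [NeZero M'] [NeZero q] [NeZero (q * M')], p.Prime → 5 ≤ p → 0 < n →
    q.Prime → q ≠ 2 → q ≠ p → ¬ q ∣ M' →
    ∀ A : ValuationSubring Kbar, A.LiesOverPrime q →
      Q2For (p ^ n) q M' A (splitPartQ (p ^ n) q M' A)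

/-- **(Q3-pow) RED**, quotient-eigen form, for two subgroups `𝒮 ≤ 𝓕` at modulus `p ^ n`:
a new class of `𝓕 ∖ 𝒮` which is a Hecke eigenvector MODULO `𝒮` with eigenvalues `a`, and with
`p x ∈ 𝒮`, has its eigensystem at level `M'` (its image in `Pic⁰(X₀(M')_{𝔽̄_q})²` is a nonzero
eigenvector killed by `p`). -/
def Q3PowFor (p n q M' : ℕ) [NeZero M'] [NeZero q] [NeZero (q * M')]
    (𝓕 𝒮 : AddSubgroup (JZero (q * M'))) : Prop :=
  ∀ (S : Finset ℕ) (a : ℕ → ℤ), ∀ x ∈ 𝓕, x ∉ 𝒮 → IsNewTorsQ (p ^ n) q M' x →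
    (∀ ℓ : Nat.Primes, (ℓ : ℕ) ∉ S → heckeOperatorBar (q * M') ℓ x - a ℓ • x ∈ 𝒮) →
    p • x ∈ 𝒮 → Lowered M' p S a

/-- **(Q3-pow) RED at modulus `p ^ n`** for `𝓕 = finPartQ`, `𝒮 = splitPartQ`. -/
def Q3PowStatement : Prop :=
  ∀ (p q M' n : ℕ) [NeZero M'] [NeZero q] [NeZero (q * M')], p.Prime → 5 ≤ p → 0 < n →
    q.Prime → q ≠ 2 → q ≠ p → ¬ q ∣ M' →
    ∀ A : ValuationSubring Kbar, A.LiesOverPrime q →
      Q3PowFor p n q M' (finPartQ (p ^ n) q M' A) (splitPartQ (p ^ n) q M' A)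

/-- **(EIS-q-pow)** at modulus `p ^ n`, structural: a new class killed by `p ^ n` and fixed by
inertia at `A` has Eisenstein slopes: `T_ℓ x - (ℓ + 1) x ∈ 𝓕_n` for every prime `ℓ ∤ q M' p`
(the component group at `q` is Eisenstein; tame node relation + the modular unit
`Δ(t^q)/Δ(t)`). -/
def EisSlopeQPowStatement : Prop :=
  ∀ (p q M' n : ℕ) [NeZero M'] [NeZero q] [NeZero (q * M')], p.Prime → 5 ≤ p → 0 < n →
    q.Prime → q ≠ 2 → q ≠ p → ¬ q ∣ M' →
    ∀ A : ValuationSubring Kbar, A.LiesOverPrime q →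
    ∀ x : JZero (q * M'), IsNewTorsQ (p ^ n) q M' x →
      (∀ σ ∈ A.inertiaSubgroupIn ℚ, σ • x = x) →
      IsEisModQ (p ^ n) q M' A (q * M' * p).primeFactors x

/-! ## The POW-leaves at `n = 1` are the leaves of WALL-q -/

theorem q2_of_pow (h : _root_.Fermat.Agent.Ribet.H580.IAOld.Q2PowStatement) : Q2Statement := by
  intro p q M' _ _ _ hp hp5 hq hq2 hqp hqM A hA
  have := h p q M' 1 hp hp5 one_pos hq hq2 hqp hqM A hA
  rwa [pow_one] at this

theorem q3_of_pow (h : Q3PowStatement) : Q3Statement := by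
  intro p q M' _ _ _ hp hp5 hq hq2 hqp hqM A hA S a x hxF hxS hnew heig
  have h1 := h p q M' 1 hp hp5 one_pos hq hq2 hqp hqM A hA
  rw [pow_one] at h1
  refine h1 S a x hxF hxS (by rw [pow_one]; exact hnew) (fun ℓ hℓ => ?_) ?_
  · rw [heig ℓ hℓ, sub_self]
    exact (splitPartQ p q M' A).zero_mem
  · rw [hnew.1]
    exact (splitPartQ p q M' A).zero_mem

theorem eisSlopeQ_of_pow (h : _root_.Fermat.Agent.Ribet.H580.IAOld.EisSlopeQPowStatement) : EisSlopeQStatement := by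
  intro p q M' _ _ _ hp hp5 hq hq2 hqp hqM A hA S a x hnew _ hfix
  have h1 := h p q M' 1 hp hp5 one_pos hq hq2 hqp hqM A hA x (by rw [pow_one]; exact hnew) hfix
  rw [pow_one] at h1
  exact ⟨_, h1⟩

/-- The three targets of WALL-q from the three POW-leaves. -/
theorem wallQTargets_of_pow (h2 : _root_.Fermat.Agent.Ribet.H580.IAOld.Q2PowStatement) (h3 : Q3PowStatement)
    (hE : _root_.Fermat.Agent.Ribet.H580.IAOld.EisSlopeQPowStatement) : WallQTargetsStatement :=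
  wallQTargets_of (_root_.Fermat.Agent.Ribet.H580.IAOld.q2_of_pow h2) (q3_of_pow h3) (_root_.Fermat.Agent.Ribet.H580.IAOld.eisSlopeQ_of_pow hE)

/-! ## IA-OLD -/

/-- **IA-OLD** (characteristic-zero Mazur principle, support form).
`χ` a point of the Hecke algebra of level `q M'` with values in a complete DVR `O` of
characteristic `0` and residue characteristic `p`, `ρ` a two-dimensional representation over `O`
with the Eichler–Shimura characteristic polynomials of `χ`, residually absolutely irreducible and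
UNRAMIFIED at `q` (`q ∥ qM'`, `q ≠ p`); `a` integers with `χ(T_ℓ) ≡ a_ℓ` modulo the maximal ideal,
non-Eisenstein.  Then the eigensystem `a mod p` occurs at level `M'`. -/
def IAOldStatement : Prop :=
  ∀ (p q M' : ℕ) [NeZero M'] [NeZero q] [NeZero (q * M')], p.Prime → 5 ≤ p → q.Prime →
    q ≠ 2 → q ≠ p → ¬ q ∣ M' →
  ∀ (S : Finset ℕ), p ∈ S → (∀ r : ℕ, r.Prime → r ∣ q * M' → r ∈ S) →
  ∀ (O : Type) [CommRing O] [IsDomain O] [IsDiscreteValuationRing O]
    [IsAdicComplete (IsLocalRing.maximalIdeal O) O] [Finite (IsLocalRing.ResidueField O)]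
    [CharZero O], (p : O) ∈ IsLocalRing.maximalIdeal O →
  ∀ (χ : CuspForm.heckeAlgebra (q * M') 2 (↑S : Set ℕ) →+* O) (ρ : GaloisRepAdic O),
    (∀ (ℓ : ℕ) (hℓ : ℓ.Prime) (hℓN : ¬ ℓ ∣ q * M') (hℓS : ℓ ∉ (↑S : Set ℕ)),
      ∀ B : ValuationSubring (AlgebraicClosure ℚ), B.LiesOverPrime ℓ →
        ∀ σ : GQ, B.IsFrobeniusAt σ ℓ →
          LinearMap.charpoly (ρ.ρ σ) =
            X ^ 2 - C (χ (CuspForm.heckeAlgebra.T hℓ hℓN hℓS)) * X + C ((ℓ : O))) →
    ρ.residual.IsAbsolutelyIrreducible →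
    ρ.IsUnramifiedAt q →
    ∀ a : ℕ → ℤ, NonEisAway p a →
      (∀ (ℓ : ℕ) (hℓ : ℓ.Prime) (hℓN : ¬ ℓ ∣ q * M') (hℓS : ℓ ∉ (↑S : Set ℕ)),
        χ (CuspForm.heckeAlgebra.T hℓ hℓN hℓS) - ((a ℓ : ℤ) : O) ∈ IsLocalRing.maximalIdeal O) →
      Lowered M' p S a

end Fermat.Agent.Ribet.H580.IAOld

end

end
-- ===== PACK-END Ribet/H580/IAOldSpec.lean

-- ===== PACK-BEGIN Ribet/H708/Q3Pow.lean
section










/-!
# Row 37 HARD / IA-OLD, POW-leaf **Q3-pow** (RED at modulus `p ^ n`)   (helper708, subtask 748)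

Spec: `Ribet/H580/IAOldSpec.lean` (`Q3PowStatement`), `Ribet/H523/Q3Spec.lean` (`IsRedEigen`,
`EigenLiftStatement`).

## Result
* `redEigenQPow : RedEigenQPowStatement` (UNCONDITIONAL): for `m = p ^ n`, a class
  `x ∈ 𝓕_n ∖ 𝒮_n` (`𝓕_n = finPartQ m`, `𝒮_n = splitPartQ m`) with `p • x ∈ 𝒮_n` and
  `T_ℓ x - a_ℓ x ∈ 𝒮_n` (`ℓ ∉ S`) produces `h ∈ F_k = k(X₀(M'))` with
  `H523.Q3.IsRedEigen p M' S' a h` (modulus `p`!), `S' = S ∪ primeFactors (q M')`.
* `q3Pow_of : H523.Q3.EigenLiftStatement → H580.IAOld.Q3PowStatement`.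

## Proof of `redEigenQPow`
`x` has a Kummer generator `f` (`div f = m·D`) with reductions `r₁, r₂` (`PDivSeries m`) (CLOSED).
* GEN-INDEP for `𝒮_n` (`pPow_of_mem_splitSetQ`): every reduction of every Kummer generator of a
  class of `𝒮_n` is `c·g^m`, `g ∈ F_k` (two Kummer generators differ by `c·G^m`; REDEX, REDFIELD,
  REDUNIQ at the prime `q`).
* `p • x ∈ 𝒮_n`, Kummer generator `f ^ p`: `r_i ^ p = c_i · h_i ^ m = c_i · (h_i ^ P) ^ p`,
  `P = p ^ (n-1)`; roots of constants are constants (`ConstRoot`, `k` algebraically closed):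
  `r_i = c_i' · h_i ^ P`.
* `x ∉ 𝒮_n`: one of the `h_i` is not `c·u^p` (otherwise `r_i = c·u_i^m`, `f` split).
* `T_ℓ x - a_ℓ x ∈ 𝒮_n`, Kummer generator `Nm_α(β f) · f^{-a_ℓ}` (`heckeOperatorBar_mk`), reductions
  `kronNorm ℓ r_i · r_i^{-a_ℓ}` (HECKE-RED, FRICKE-HECKE): `= c · w^m`; with `r_i = c_i' h_i^P`:
  `(kronNorm ℓ h_i · h_i^{-a_ℓ} · w^{-p}) ^ P` is a constant, hence
  `kronNorm ℓ h_i = c · h_i^{a_ℓ} · w^p`  (`KronEigen`).
* `p ∣ ord_Q h_i`: `m ∣ ord_Q r_i = P · ord_Q h_i`.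
-/

set_option autoImplicit false
set_option linter.unusedSectionVars false
set_option linter.unusedVariables false
set_option linter.style.haveILetI false
set_option synthInstance.maxHeartbeats 400000
set_option maxHeartbeats 1600000

noncomputable section

namespace Fermat.Agent.Ribet.H708.Q3Pow

open AlgebraicCurve ModularCurve HahnSeries
open Fermat.Agent.S24 Fermat.Agent.A2.H708 Fermat.Agent.A2.H528
open Fermat.Agent.Ribet.Spec Fermat.Agent.Ribet.H944.Wall Fermat.Agent.Ribet.H884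
open Fermat.Agent.Ribet.H158.WallQ
open Fermat.Agent.S37.H400
open Fermat.Agent.Ribet.H523.Q3
open Fermat.Agent.Ribet.H580.IAOld
open Fermat.Agent.Ribet.H944

/-! ## `PPowSeries` is multiplicative -/

section PPow

variable {m M' : ℕ} {k : Type} [Field k]

theorem pPow_one : PPowSeries m M' (1 : LaurentSeries k) :=
  ⟨1, 1, one_ne_zero, one_ne_zero, by
    rw [map_one, one_mul]
    show (1 : LaurentSeries k) = (1 : LaurentSeries k) ^ m
    rw [one_pow]⟩

theorem pPow_mul {r s : LaurentSeries k} (hr : PPowSeries m M' r) (hs : PPowSeries m M' s) :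
    PPowSeries m M' (r * s) := by
  obtain ⟨c, h, hc, hh, rfl⟩ := hr
  obtain ⟨d, g, hd, hg, rfl⟩ := hs
  refine ⟨c * d, h * g, mul_ne_zero hc hd, mul_ne_zero hh hg, ?_⟩
  have e : ((h * g : modularFunctionFieldFullC k M') : LaurentSeries k) =
      (h : LaurentSeries k) * (g : LaurentSeries k) := rfl
  rw [e, map_mul, mul_pow]
  ring

theorem pPow_inv {r : LaurentSeries k} (hr : PPowSeries m M' r) : PPowSeries m M' r⁻¹ := by
  obtain ⟨c, h, hc, hh, rfl⟩ := hr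
  refine ⟨c⁻¹, h⁻¹, inv_ne_zero hc, inv_ne_zero hh, ?_⟩
  have e : ((h⁻¹ : modularFunctionFieldFullC k M') : LaurentSeries k) =
      (h : LaurentSeries k)⁻¹ := rfl
  rw [e, map_inv₀, mul_inv, inv_pow]

/-- A constant times the `m`-th power of a series of `F_k`. -/
theorem pPow_of_eq {r g : LaurentSeries k} {c : k} (hc : c ≠ 0) (hg0 : g ≠ 0)
    (hg : g ∈ modularFunctionFieldFullC k M') (h : r = HahnSeries.C c * g ^ m) :
    PPowSeries m M' r :=
  ⟨c, ⟨g, hg⟩, hc, fun h0 => hg0 (congrArg Subtype.val h0), h⟩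

end PPow

/-! ## The sets `finSetQ`, `splitSetQ` are subgroups -/

section Closed

variable {m q M' : ℕ} [NeZero (q * M')] {A : ValuationSubring Kbar}

theorem isRedZero_one' : IsRedZero (q * M') A (1 : FF (q * M')) 1 := by
  show IsRedInf (q * M') A (wF (q * M') 1) 1
  rw [map_one]
  exact I2.isRedInf_one (q * M') A

theorem isRedZero_mul' {f g : FF (q * M')} {r s : LaurentSeries (kA A)}
    (hf : IsRedZero (q * M') A f r) (hg : IsRedZero (q * M') A g s) :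
    IsRedZero (q * M') A (f * g) (r * s) := by
  show IsRedInf (q * M') A (wF (q * M') (f * g)) (r * s)
  rw [map_mul]
  exact I2.isRedInf_mul (q * M') A hf hg

theorem isRedZero_inv' {f : FF (q * M')} {r : LaurentSeries (kA A)}
    (hf : IsRedZero (q * M') A f r) : IsRedZero (q * M') A f⁻¹ r⁻¹ := by
  show IsRedInf (q * M') A (wF (q * M') f⁻¹) r⁻¹
  rw [map_inv₀]
  exact I2.isRedInf_inv (q * M') A hf

theorem isRedZero_pow' {f : FF (q * M')} {r : LaurentSeries (kA A)}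
    (hf : IsRedZero (q * M') A f r) (n : ℕ) : IsRedZero (q * M') A (f ^ n) (r ^ n) := by
  show IsRedInf (q * M') A (wF (q * M') (f ^ n)) (r ^ n)
  rw [map_pow]
  exact I2.isRedInf_pow (q * M') A hf n

theorem isRedZero_zpow' {f : FF (q * M')} {r : LaurentSeries (kA A)}
    (hf : IsRedZero (q * M') A f r) (a : ℤ) : IsRedZero (q * M') A (f ^ a) (r ^ a) := by
  show IsRedInf (q * M') A (wF (q * M') (f ^ a)) (r ^ a)
  rw [map_zpow₀]
  exact I2.isRedInf_zpow (q * M') A hf a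

theorem mem_finSetQ_of_mem_finPartQ {x : JZero (q * M')} (hx : x ∈ finPartQ m q M' A) :
    x ∈ finSetQ m q M' A := by
  change x ∈ AddSubgroup.closure (finSetQ m q M' A) at hx
  induction hx using AddSubgroup.closure_induction with
  | mem x hx => exact hx
  | zero =>
    exact ⟨1, I2.isKummerGen_one _ _, 1, 1, I2.isRedInf_one _ A, isRedZero_one',
      I2.pDivSeries_one _ _, I2.pDivSeries_one _ _⟩
  | add x y _ _ hx hy =>
    obtain ⟨f, hf, r₁, r₂, h1, h2, h3, h4⟩ := hx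
    obtain ⟨f', hf', r₁', r₂', h1', h2', h3', h4'⟩ := hy
    exact ⟨f * f', I2.isKummerGen_mul _ _ hf hf', r₁ * r₁', r₂ * r₂',
      I2.isRedInf_mul _ A h1 h1', isRedZero_mul' h2 h2', I2.pDivSeries_mul _ _ h3 h3',
      I2.pDivSeries_mul _ _ h4 h4'⟩
  | neg x _ hx =>
    obtain ⟨f, hf, r₁, r₂, h1, h2, h3, h4⟩ := hx
    exact ⟨f⁻¹, I2.isKummerGen_inv _ _ hf, r₁⁻¹, r₂⁻¹, I2.isRedInf_inv _ A h1,
      isRedZero_inv' h2, I2.pDivSeries_inv _ _ h3, I2.pDivSeries_inv _ _ h4⟩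

theorem mem_splitSetQ_of_mem_splitPartQ {x : JZero (q * M')}
    (hx : x ∈ splitPartQ m q M' A) : x ∈ splitSetQ m q M' A := by
  change x ∈ AddSubgroup.closure (splitSetQ m q M' A) at hx
  induction hx using AddSubgroup.closure_induction with
  | mem x hx => exact hx
  | zero =>
    exact ⟨1, I2.isKummerGen_one _ _, 1, 1, I2.isRedInf_one _ A, isRedZero_one',
      pPow_one, pPow_one⟩
  | add x y _ _ hx hy =>
    obtain ⟨f, hf, r₁, r₂, h1, h2, h3, h4⟩ := hx
    obtain ⟨f', hf', r₁', r₂', h1', h2', h3', h4'⟩ := hy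
    exact ⟨f * f', I2.isKummerGen_mul _ _ hf hf', r₁ * r₁', r₂ * r₂',
      I2.isRedInf_mul _ A h1 h1', isRedZero_mul' h2 h2', pPow_mul h3 h3', pPow_mul h4 h4'⟩
  | neg x _ hx =>
    obtain ⟨f, hf, r₁, r₂, h1, h2, h3, h4⟩ := hx
    exact ⟨f⁻¹, I2.isKummerGen_inv _ _ hf, r₁⁻¹, r₂⁻¹, I2.isRedInf_inv _ A h1,
      isRedZero_inv' h2, pPow_inv h3, pPow_inv h4⟩

end Closed

/-! ## Kummer generators -/

section Kummer

variable {N : ℕ} [NeZero N] {m : ℕ}

theorem isKummerGen_pow {f : FF N} {x : JZero N} (hf : IsKummerGen N m f x) (n : ℕ) :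
    IsKummerGen N m (f ^ n) (n • x) := by
  induction n with
  | zero =>
    rw [pow_zero, zero_nsmul]
    exact I2.isKummerGen_one N m
  | succ n ih =>
    rw [pow_succ, succ_nsmul]
    exact I2.isKummerGen_mul N m ih hf

theorem isKummerGen_zpow {f : FF N} {x : JZero N} (hf : IsKummerGen N m f x) (a : ℤ) :
    IsKummerGen N m (f ^ a) (a • x) := by
  rcases a with n | n
  · have := isKummerGen_pow hf n
    simpa using this
  · rw [zpow_negSucc, negSucc_zsmul]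
    exact I2.isKummerGen_inv N m (isKummerGen_pow hf (n + 1))

/-- Two Kummer generators of the same class differ by a constant and an `m`-th power. -/
theorem kummerGen_ratio {f g : FF N} {x : JZero N} (hf : IsKummerGen N m f x)
    (hg : IsKummerGen N m g x) :
    ∃ (c : Kbar) (G : FF N), c ≠ 0 ∧ G ≠ 0 ∧ f = algebraMap Kbar (FF N) c * g * G ^ m := by
  obtain ⟨hf0, D, hDx, hD⟩ := hf
  obtain ⟨hg0, E, hEx, hE⟩ := hg
  have he : Pic0.mk D = Pic0.mk E := by rw [hDx, hEx]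
  obtain ⟨G, hG0, hG⟩ := Fermat.Agent.S29.H395.mk_eq_mk_iff.mp he
  have hGm0 : G ^ m ≠ 0 := pow_ne_zero _ hG0
  set u : FF N := f * g⁻¹ * (G ^ m)⁻¹ with hu
  have hu0 : u ≠ 0 := mul_ne_zero (mul_ne_zero hf0 (inv_ne_zero hg0)) (inv_ne_zero hGm0)
  have hou : ∀ v : Place Kbar (FF N), v.ord u = 0 := by
    intro v
    rw [hu, v.ord_mul (mul_ne_zero hf0 (inv_ne_zero hg0)) (inv_ne_zero hGm0),
      v.ord_mul hf0 (inv_ne_zero hg0), v.ord_inv, v.ord_inv,
      Fermat.Agent.Ribet.H801.ord_pow_nat, hD v, hE v, ← hG v]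
    ring
  obtain ⟨c, hc⟩ := Fermat.Agent.Ribet.H801.constOfOrdZero_bar N u hu0 hou
  have hc0 : c ≠ 0 := by
    rintro rfl
    rw [map_zero] at hc
    exact hu0 hc
  refine ⟨c, G, hc0, hG0, ?_⟩
  rw [← hc, hu]
  field_simp

/-- The Hecke norm of a Kummer generator of `x` is a Kummer generator of `T_ℓ x`. -/
theorem isKummerGen_hNorm {f : FF N} {x : JZero N} (hf : IsKummerGen N m f x)
    (ℓ : ℕ) [NeZero ℓ] (hℓ : ℓ.Prime) :
    IsKummerGen N m (I2.hNorm N ℓ f) (heckeOperatorBar N ⟨ℓ, hℓ⟩ x) := by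
  obtain ⟨hf0, D, rfl, hD⟩ := hf
  have hHI : HeckeInputsAlong (AlgebraicClosure ℚ) N ℓ :=
    Fermat.Agent.Lib.FF460.heckeInputsAlong_bar N ℓ
  obtain ⟨D', hD', hD'ord⟩ := Fermat.Agent.S29.H395.heckeOperatorBar_mk N ⟨ℓ, hℓ⟩ hHI D
  refine ⟨Fermat.Agent.S29.H395.heckeNorm_ne_zero N ℓ hHI hf0, D', hD'.symm, fun v => ?_⟩
  exact (hD'ord (m : ℤ) f hf0 (fun v => (hD v).symm) v).symm

end Kummer

/-! ## GEN-INDEP for the split part -/

section GenIndep

variable {m q M' : ℕ} [NeZero M'] [NeZero q] [NeZero (q * M')] {A : ValuationSubring Kbar}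

/-- If `F = c · f₂ · G ^ m`, `f₂` has a reduction `c'·h^m` and `G` a reduction in `F_k`, then
every reduction of `F` is `c''·H^m`. -/
theorem pPow_of_factor (hq : q.Prime) (hA : A.LiesOverPrime q)
    {F f₂ G : FF (q * M')} {c : Kbar} (hc : c ≠ 0)
    (hF : F = algebraMap Kbar (FF (q * M')) c * f₂ * G ^ m)
    {s g r : LaurentSeries (kA A)} (hs : IsRedInf (q * M') A f₂ s) (hsP : PPowSeries m M' s)
    (hg : IsRedInf (q * M') A G g) (hgF : g ∈ modularFunctionFieldFullC (kA A) M')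
    (hr : IsRedInf (q * M') A F r) : PPowSeries m M' r := by
  have h1 : IsRedInf (q * M') A F (1 * s * g ^ m) := by
    rw [hF]
    exact I2.isRedInf_mul _ A (I2.isRedInf_mul _ A (I2.isRedInf_const _ A hc) hs)
      (I2.isRedInf_pow _ A hg m)
  obtain ⟨-, c', hc', hr'⟩ := Fermat.Agent.Ribet.H997.redUnique q (q * M') hq A hA F _ r h1 hr
  obtain ⟨d, h, hd, hh, rfl⟩ := hsP
  have hg0 : g ≠ 0 := (I2.isRedInf_ne_zero _ A hg).2
  have hh0 : (h : LaurentSeries (kA A)) ≠ 0 := fun e => hh (Subtype.ext e)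
  refine pPow_of_eq (c := c' * d) (g := (h : LaurentSeries (kA A)) * g) (mul_ne_zero hc' hd)
    (mul_ne_zero hh0 hg0) (mul_mem h.2 hgF) ?_
  rw [hr', map_mul, mul_pow]
  ring

/-- **GEN-INDEP (𝒮)**: every reduction (on both components) of every Kummer generator of a class of
`splitSetQ m` is a constant times an `m`-th power of `F_k`. -/
theorem pPow_of_mem_splitSetQ (hq : q.Prime) (hqM : ¬ q ∣ M') (hA : A.LiesOverPrime q)
    {x : JZero (q * M')} (hx : x ∈ splitSetQ m q M' A) {F : FF (q * M')}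
    (hF : IsKummerGen (q * M') m F x) :
    (∀ r : LaurentSeries (kA A), IsRedInf (q * M') A F r → PPowSeries m M' r) ∧
    (∀ r : LaurentSeries (kA A), IsRedZero (q * M') A F r → PPowSeries m M' r) := by
  obtain ⟨f₂, hf₂K, s₁, s₂, hs1, hs2, hP1, hP2⟩ := hx
  obtain ⟨c, G, hc, hG, hFeq⟩ := kummerGen_ratio hF hf₂K
  obtain ⟨⟨g₁, hg1⟩, ⟨g₂, hg2⟩⟩ :=
    Fermat.Agent.Ribet.H997.redExists q (q * M') hq A hA G hG
  obtain ⟨k₁, hk1⟩ :=
    Fermat.Agent.Ribet.H997.redField q M' hq hqM A hA G g₁ (Or.inl hg1)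
  obtain ⟨k₂, hk2⟩ :=
    Fermat.Agent.Ribet.H997.redField q M' hq hqM A hA G g₂ (Or.inr hg2)
  refine ⟨fun r hr => ?_, fun r hr => ?_⟩
  · exact pPow_of_factor hq hA hc hFeq hs1 hP1 hg1 (hk1 ▸ k₁.2) hr
  · have hFw : wF (q * M') F =
        algebraMap Kbar (FF (q * M')) c * wF (q * M') f₂ * (wF (q * M') G) ^ m := by
      rw [hFeq, map_mul, map_mul, map_pow, AlgEquiv.commutes]
    exact pPow_of_factor hq hA hc hFw hs2 hP2 hg2 (hk2 ▸ k₂.2) hr

end GenIndep

/-! ## RED-CLASS at modulus `p ^ n` -/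

/-- **RED-CLASS at modulus `p ^ n`**, quotient-eigen form: a class of `𝓕_n ∖ 𝒮_n` with `p x ∈ 𝒮_n`
and `T_ℓ x - a_ℓ x ∈ 𝒮_n` produces a Kummer function `h ∈ F_k` of a nonzero eigenclass of
`Pic⁰(F_k)[p]` (input of `H523.Q3.EigenLiftStatement`). -/
def RedEigenQPowStatement : Prop :=
  ∀ (p q M' n : ℕ) [NeZero M'] [NeZero q] [NeZero (q * M')], p.Prime → 0 < n →
    q.Prime → ¬ q ∣ M' →
    ∀ A : ValuationSubring Kbar, A.LiesOverPrime q →
    ∀ (S : Finset ℕ) (a : ℕ → ℤ), ∀ x ∈ finPartQ (p ^ n) q M' A,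
      x ∉ splitPartQ (p ^ n) q M' A →
      (∀ ℓ : Nat.Primes, (ℓ : ℕ) ∉ S →
        heckeOperatorBar (q * M') ℓ x - a ℓ • x ∈ splitPartQ (p ^ n) q M' A) →
      p • x ∈ splitPartQ (p ^ n) q M' A →
      ∃ (S' : Finset ℕ) (h : modularFunctionFieldFullC (kA A) M'),
        S ⊆ S' ∧ IsRedEigen p M' S' a h

section Main

variable {k : Type} [Field k] [IsAlgClosed k]

/-- Extraction of a `p`-th root: `r ^ p = c · h ^ (P p)` gives `r = c' · h ^ P`. -/
theorem root_step {p P : ℕ} (hp : p ≠ 0) {r h : LaurentSeries k} {c : k} (hc : c ≠ 0)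
    (hh : h ≠ 0) (e : r ^ p = HahnSeries.C c * h ^ (P * p)) :
    ∃ c' : k, c' ≠ 0 ∧ r = HahnSeries.C c' * h ^ P := by
  obtain ⟨c', hc', hr⟩ := h708_eq_C_mul_of_pow_eq (m := p) hp (u := r) (v := h ^ P) (c := c)
    (pow_ne_zero _ hh) (by rw [e, pow_mul])
  refine ⟨c', ?_, hr⟩
  rintro rfl
  rw [zero_pow hp] at hc'
  exact hc hc'.symm

/-- The pure series step: from the eigen-relation for `r = c₀ · h ^ P` modulo `(P p)`-th powers
to the eigen-relation for `h` modulo `p`-th powers. -/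
theorem kronEigen_of_pow {p P M' ℓ : ℕ} [NeZero ℓ] (hP : P ≠ 0) {a : ℤ}
    {r : LaurentSeries k} {h : modularFunctionFieldFullC k M'} {c₀ : k} (hc₀ : c₀ ≠ 0)
    (hh : h ≠ 0) (hr : r = HahnSeries.C c₀ * (h : LaurentSeries k) ^ P)
    (hE : PPowSeries (P * p) M' (kronNorm ℓ r * r ^ (-a))) : KronEigen p M' ℓ a h := by
  obtain ⟨e, w, he, hw, heq⟩ := hE
  have hh0 : (h : LaurentSeries k) ≠ 0 := fun e => hh (Subtype.ext e)
  have hw0 : (w : LaurentSeries k) ≠ 0 := fun e => hw (Subtype.ext e)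
  have hC0 : (HahnSeries.C c₀ : LaurentSeries k) ≠ 0 := by
    intro h0
    apply hc₀
    have := congrArg (fun s : LaurentSeries k => s.coeff 0) h0
    simpa using this
  have hkn0 : kronNorm ℓ (h : LaurentSeries k) ≠ 0 :=
    Fermat.Agent.Ribet.H708.kronNorm_ne_zero_h708 ℓ hh0
  -- the relation for `u = kronNorm ℓ h * h ^ (-a)`
  set u : LaurentSeries k := kronNorm ℓ (h : LaurentSeries k) * (h : LaurentSeries k) ^ (-a)
    with hu
  set κ : LaurentSeries k := HahnSeries.C (c₀ ^ (ℓ + 1)) * (HahnSeries.C c₀) ^ (-a) with hκ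
  have hκ0 : κ ≠ 0 := by
    rw [hκ, map_pow]
    exact mul_ne_zero (pow_ne_zero _ hC0) (zpow_ne_zero _ hC0)
  have h1 : kronNorm ℓ r * r ^ (-a) = κ * u ^ P := by
    rw [hr, kronNorm_mul, Fermat.Agent.Ribet.H376.kronNorm_C, kronNorm_pow, mul_zpow, hκ, hu,
      mul_pow, ← zpow_natCast ((h : LaurentSeries k) ^ (-a)) P, ← zpow_mul,
      ← zpow_natCast (h : LaurentSeries k) P, ← zpow_mul, mul_comm (-a) (P : ℤ)]
    ring
  have hκC : ∃ d : k, d ≠ 0 ∧ κ = HahnSeries.C d := by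
    refine ⟨c₀ ^ (ℓ + 1) * c₀ ^ (-a), mul_ne_zero (pow_ne_zero _ hc₀) (zpow_ne_zero _ hc₀), ?_⟩
    rw [hκ, map_mul, map_zpow₀]
  obtain ⟨d, hd, hκd⟩ := hκC
  have h2 : u ^ P = HahnSeries.C (d⁻¹ * e) * ((w : LaurentSeries k) ^ p) ^ P := by
    have h3 : κ * u ^ P = HahnSeries.C e * (w : LaurentSeries k) ^ (P * p) := by
      rw [← h1, heq]
    rw [map_mul, map_inv₀, ← hκd, ← pow_mul, mul_comm p P, mul_assoc, ← h3, ← mul_assoc,
      inv_mul_cancel₀ hκ0, one_mul]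
  obtain ⟨c', hc', hu'⟩ := h708_eq_C_mul_of_pow_eq (m := P) hP (u := u)
    (v := (w : LaurentSeries k) ^ p) (pow_ne_zero _ hw0) h2
  have hc'0 : c' ≠ 0 := by
    rintro rfl
    rw [zero_pow hP] at hc'
    exact (mul_ne_zero (inv_ne_zero hd) he) hc'.symm
  refine ⟨c', w, hc'0, hw, ?_⟩
  have h4 : kronNorm ℓ (h : LaurentSeries k) = u * (h : LaurentSeries k) ^ a := by
    rw [hu, mul_assoc, ← zpow_add₀ hh0, neg_add_cancel, zpow_zero, mul_one]
  rw [h4, hu']
  ring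

end Main

/-! ## The theorem -/

/-- **RED-CLASS at modulus `p ^ n`**, unconditional. -/
theorem redEigenQPow : RedEigenQPowStatement := by
  intro p q M' n _ _ _ hp hn hq hqM A hA S a x hx hxS heig hpx
  obtain ⟨hac, -⟩ := Fermat.Agent.Ribet.H939.resField q hq A hA
  haveI := hac
  -- `p ^ n = P * p`
  obtain ⟨n', rfl⟩ : ∃ n', n = n' + 1 := ⟨n - 1, by omega⟩
  set P : ℕ := p ^ n' with hPdef
  have hP0 : P ≠ 0 := pow_ne_zero _ hp.ne_zero
  have hm : p ^ (n' + 1) = P * p := pow_succ p n'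
  rw [hm] at hx hxS heig hpx
  -- a Kummer generator with slopes `0`
  obtain ⟨f, hfK, r₁, r₂, hr1, hr2, hP1, hP2⟩ := mem_finSetQ_of_mem_finPartQ hx
  -- `p • x ∈ 𝒮`: the reductions are `P`-th powers up to constants
  have hpx' := mem_splitSetQ_of_mem_splitPartQ hpx
  obtain ⟨hI, hZ⟩ := pPow_of_mem_splitSetQ hq hqM hA hpx' (isKummerGen_pow hfK p)
  obtain ⟨d₁, h₁, hd1, hh1, e1⟩ := hI _ (I2.isRedInf_pow _ A hr1 p)
  obtain ⟨d₂, h₂, hd2, hh2, e2⟩ := hZ _ (isRedZero_pow' hr2 p)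
  have hh1' : (h₁ : LaurentSeries (kA A)) ≠ 0 := fun e => hh1 (Subtype.ext e)
  have hh2' : (h₂ : LaurentSeries (kA A)) ≠ 0 := fun e => hh2 (Subtype.ext e)
  obtain ⟨c₁, hc1, hr1'⟩ := root_step hp.ne_zero hd1 hh1' e1
  obtain ⟨c₂, hc2, hr2'⟩ := root_step hp.ne_zero hd2 hh2' e2
  -- not both `h_i` are `p`-th powers
  have hns : ¬ (PPowSeries p M' (h₁ : LaurentSeries (kA A)) ∧
      PPowSeries p M' (h₂ : LaurentSeries (kA A))) := by
    rintro ⟨⟨b₁, u₁, hb1, hu1, eu1⟩, ⟨b₂, u₂, hb2, hu2, eu2⟩⟩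
    apply hxS
    refine AddSubgroup.subset_closure ⟨f, hfK, r₁, r₂, hr1, hr2, ?_, ?_⟩
    · refine ⟨c₁ * b₁ ^ P, u₁, mul_ne_zero hc1 (pow_ne_zero _ hb1), hu1, ?_⟩
      rw [hr1', eu1, mul_pow, ← pow_mul, mul_comm p P, map_mul, map_pow]
      ring
    · refine ⟨c₂ * b₂ ^ P, u₂, mul_ne_zero hc2 (pow_ne_zero _ hb2), hu2, ?_⟩
      rw [hr2', eu2, mul_pow, ← pow_mul, mul_comm p P, map_mul, map_pow]
      ring
  -- the eigen-relations on reductions, both components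
  have hE : ∀ (ℓ : ℕ) [NeZero ℓ], ℓ.Prime → ℓ ∉ S → ¬ ℓ ∣ q * M' →
      PPowSeries (P * p) M' (kronNorm ℓ r₁ * r₁ ^ (-(a ℓ))) ∧
      PPowSeries (P * p) M' (kronNorm ℓ r₂ * r₂ ^ (-(a ℓ))) := by
    intro ℓ _ hℓ hℓS hℓN
    have hy := mem_splitSetQ_of_mem_splitPartQ (heig ⟨ℓ, hℓ⟩ hℓS)
    have hK : IsKummerGen (q * M') (P * p) (I2.hNorm (q * M') ℓ f * f ^ (-(a ℓ)))
        (heckeOperatorBar (q * M') ⟨ℓ, hℓ⟩ x - a ℓ • x) := by
      have h1 := I2.isKummerGen_mul _ _ (isKummerGen_hNorm hfK ℓ hℓ)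
        (isKummerGen_zpow hfK (-(a ℓ)))
      rwa [neg_smul, ← sub_eq_add_neg] at h1
    obtain ⟨hI', hZ'⟩ := pPow_of_mem_splitSetQ hq hqM hA hy hK
    refine ⟨hI' _ ?_, hZ' _ ?_⟩
    · exact I2.isRedInf_mul _ A
        (Fermat.Agent.Ribet.H376.isRedInf_heckeNorm' (q * M') ℓ hℓ hℓN A hr1)
        (I2.isRedInf_zpow _ A hr1 _)
    · show IsRedInf (q * M') A (wF (q * M') (I2.hNorm (q * M') ℓ f * f ^ (-(a ℓ)))) _
      rw [map_mul, map_zpow₀, ← Fermat.Agent.Ribet.H376.frickeHecke (q * M') ℓ hℓ hℓN f]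
      exact I2.isRedInf_mul _ A
        (Fermat.Agent.Ribet.H376.isRedInf_heckeNorm' (q * M') ℓ hℓ hℓN A hr2)
        (I2.isRedInf_zpow _ A hr2 _)
  -- conclusion for one component
  have key : ∀ (r : LaurentSeries (kA A)) (h : modularFunctionFieldFullC (kA A) M') (c₀ : kA A),
      PDivSeries (P * p) M' r → c₀ ≠ 0 → h ≠ 0 →
      r = HahnSeries.C c₀ * (h : LaurentSeries (kA A)) ^ P →
      ¬ PPowSeries p M' (h : LaurentSeries (kA A)) →
      (∀ (ℓ : ℕ) [NeZero ℓ], ℓ.Prime → ℓ ∉ S → ¬ ℓ ∣ q * M' →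
        PPowSeries (P * p) M' (kronNorm ℓ r * r ^ (-(a ℓ)))) →
      ∃ (S' : Finset ℕ) (h : modularFunctionFieldFullC (kA A) M'),
        S ⊆ S' ∧ IsRedEigen p M' S' a h := by
    intro r h c₀ hPr hc₀ hh hr hnp hEr
    refine ⟨S ∪ (q * M').primeFactors, h, Finset.subset_union_left, hh, ?_, hnp, ?_⟩
    · intro Q
      obtain ⟨h', hh'r, hh'0, hd⟩ := hPr
      have e : h' = algebraMap (kA A) (modularFunctionFieldFullC (kA A) M') c₀ * h ^ P := by
        apply Subtype.ext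
        rw [hh'r, hr]
        show _ = algebraMap (kA A) (LaurentSeries (kA A)) c₀ * (h : LaurentSeries (kA A)) ^ P
        rw [algebraMap_laurentSeries_eq_single, HahnSeries.C_apply]
      have h1 := hd Q
      rw [e, Place.ord_mul Q (by
          rw [Ne, map_eq_zero]
          exact hc₀) (pow_ne_zero _ hh),
        Fermat.Agent.Ribet.H801.ord_algebraMap_zero Q hc₀, zero_add,
        Fermat.Agent.Ribet.H801.ord_pow_nat] at h1
      have h2 : ((P : ℤ)) * (p : ℤ) ∣ (P : ℤ) * Q.ord h := by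
        have : (((P * p : ℕ)) : ℤ) = (P : ℤ) * (p : ℤ) := by push_cast; ring
        rwa [this] at h1
      exact (mul_dvd_mul_iff_left (by exact_mod_cast hP0)).mp h2
    · intro ℓ _ hℓ hℓS'
      have hℓS : ℓ ∉ S := fun h0 => hℓS' (Finset.mem_union_left _ h0)
      have hℓN : ¬ ℓ ∣ q * M' := by
        intro hd
        apply hℓS'
        refine Finset.mem_union_right _ ?_
        rw [Nat.mem_primeFactors]
        exact ⟨hℓ, hd, NeZero.ne _⟩
      exact kronEigen_of_pow hP0 hc₀ hh hr (hEr ℓ hℓ hℓS hℓN)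
  by_cases hn1 : PPowSeries p M' (h₁ : LaurentSeries (kA A))
  · have hn2 : ¬ PPowSeries p M' (h₂ : LaurentSeries (kA A)) := fun h0 => hns ⟨hn1, h0⟩
    exact key r₂ h₂ c₂ hP2 hc2 hh2 hr2' hn2 (fun ℓ _ hℓ hℓS hℓN => (hE ℓ hℓ hℓS hℓN).2)
  · exact key r₁ h₁ c₁ hP1 hc1 hh1 hr1' hn1 (fun ℓ _ hℓ hℓS hℓN => (hE ℓ hℓ hℓS hℓN).1)

/-- **(Q3-pow)** from EIGEN-LIFT (`H523.Q3.EigenLiftStatement`, modulus `p`). -/
theorem q3Pow_of (hEL : EigenLiftStatement) : Q3PowStatement := by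
  intro p q M' n _ _ _ hp hp5 hn hq hq2 hqp hqM A hA S a x hx hxS _ heig hpx
  obtain ⟨S', h, hSS', hh⟩ := redEigenQPow p q M' n hp hn hq hqM A hA S a x hx hxS heig hpx
  obtain ⟨S'', hS'', hocc⟩ := hEL p q M' hp hp5 hq hq2 hqp hqM A hA S' a h hh
  exact ⟨S'', hSS'.trans hS'', Or.inl hocc⟩

/-- RED-CLASS of helper523's chain (`H523.Q3.RedEigenQStatement`) is the case `n = 1`. -/
theorem redEigenQ_of_pow : RedEigenQStatement := by
  intro p q M' _ _ _ hp _ hq _ _ hqM A hA S a x hx hxS hnew heig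
  have h1 := redEigenQPow p q M' 1 hp one_pos hq hqM A hA S a x
  rw [pow_one] at h1
  refine h1 hx hxS (fun ℓ hℓ => ?_) ?_
  · rw [heig ℓ hℓ, sub_self]
    exact (splitPartQ p q M' A).zero_mem
  · rw [hnew.1]
    exact (splitPartQ p q M' A).zero_mem

end Fermat.Agent.Ribet.H708.Q3Pow

end

end
-- ===== PACK-END Ribet/H708/Q3Pow.lean

-- ===== PACK-BEGIN S59/LoSqC/H987/Realize.lean
section




/-!
# S59 / cell (C) LO-SQ (helper987): REALIZE from RED-SURJ (E-form, mixed shape) and the toric wall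

Context = `Eng.TripleCtx`.  NO newness.

* `condW_one`, `condW_mul` : `CondW` is multiplicative.
* `condW_triple` : for the residues `a₁`, `b₂`, `c` of `exists_red_triple`
  (`u ≡ α a₁` on `V₁`, `u ≡ α a₁ · β b₂` on `V₂`, `α c ≡ (u / β b₂) ^ q` on `V₃`) of a unit `u`
  with `m ∣ div u`:  `CondW R m V₁' a₁`, `CondW R m V₂' b₂`, `CondW R m V₂' (c ^ q')`.
* `RedSurjE` : RED-SURJ in E-form, mixed shape `(*, *)`: every pair of residues `(a, b)` on
  `(V₁', V₂')` with `m`-divisible divisors (`CondW`) is, up to `m`-th powers, the pair of residues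
  of some `g` with `m ∣ div g`.
* **`realizeAt_of`** : `RedSurjE → ToricWallE → LoSqC.RealizeAt` (frozen `Spec` shape, `c = 1`).
-/

set_option autoImplicit false
set_option linter.style.haveILetI false
set_option linter.unusedSectionVars false
set_option linter.unusedVariables false
set_option synthInstance.maxHeartbeats 400000
set_option maxHeartbeats 1600000

noncomputable section

namespace Fermat.Agent.S59.LoSqC.H987

open Fermat.Agent.S36.Eng
open Fermat.Agent.S36.H586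
open Fermat.Agent

section CondWMul

variable {R : Type*} [CommSemiring R] {F : Type*} [Field F] [Algebra R F]

theorem condW_one (m : ℕ) (V : ValuationSubring F) : CondW R m V (1 : F) := by
  intro W _ _
  refine ⟨1, 1, map_one _, W.one_mem, by rw [inv_one]; exact W.one_mem, ?_⟩
  rw [one_pow, mul_one, div_one, sub_self, map_zero]
  exact zero_lt_one

theorem condW_mul (m : ℕ) {V : ValuationSubring F} {a b : F} (ha : CondW R m V a)
    (hb : CondW R m V b) : CondW R m V (a * b) := by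
  intro W hWV hRW
  obtain ⟨h₁, v₁, hh₁, hv₁, hv₁', e₁⟩ := ha W hWV hRW
  obtain ⟨h₂, v₂, hh₂, hv₂, hv₂', e₂⟩ := hb W hWV hRW
  refine ⟨h₁ * h₂, v₁ * v₂, by rw [map_mul, hh₁, hh₂, one_mul], W.mul_mem _ _ hv₁ hv₂, ?_, ?_⟩
  · rw [mul_inv]
    exact W.mul_mem _ _ hv₁' hv₂'
  · have e : a * b / (v₁ * v₂ * (h₁ * h₂) ^ m) = (a / (v₁ * h₁ ^ m)) * (b / (v₂ * h₂ ^ m)) := by
      rw [div_mul_div_comm, mul_pow]
      congr 1
      ring
    rw [e]
    exact pu1_mul e₁ e₂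

end CondWMul

section Defs

/-- **RED-SURJ in E-form**, mixed shape `(*, *)`. -/
def RedSurjE (R E : Type) {F' : Type} [CommRing R] [Field E] [Field F'] [Algebra E F']
    [Algebra R F'] (m : ℕ) (V₁' V₂' : ValuationSubring F') : Prop :=
  ∀ a b : F', V₁'.valuation a = 1 → V₂'.valuation b = 1 → CondW R m V₁' a → CondW R m V₂' b →
    ∃ g h₁ h₂ : F', A2.DivisibleDiv E m g ∧ V₁'.valuation h₁ = 1 ∧ V₂'.valuation h₂ = 1 ∧
      g / (a * h₁ ^ m) - 1 ∈ V₁'.nonunits ∧ g / (b * h₂ ^ m) - 1 ∈ V₂'.nonunits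

end Defs

section Main

variable {R E F F' : Type} [CommRing R] [IsDomain R] [IsDiscreteValuationRing R]
  [HenselianLocalRing R] [IsAlgClosed (IsLocalRing.ResidueField R)]
  [Field E] [CharZero E] [Algebra R E] [IsFractionRing R E]
  [Field F] [Algebra E F] [Algebra R F] [IsScalarTower R E F]
  [Field F'] [Algebra E F'] [Algebra R F'] [IsScalarTower R E F']

theorem val_of_unitAt_987 {V : ValuationSubring F} {u : F} (h : UnitAt V u) :
    V.valuation u = 1 :=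
  val_eq_one_of_unit_le (le_refl V) h.1 h.2.1 h.2.2

/-- **`CondW` for the residues of `exists_red_triple`.** -/
theorem condW_triple (w : R) (hw : Irreducible w) (q : ℕ) (hq : q.Prime)
    (hqR : (q : R) ∈ IsLocalRing.maximalIdeal R)
    (α β : F' →ₐ[E] F) (x : F) (x' : F')
    (V₁ V₂ V₃ : ValuationSubring F) (V₁' V₂' : ValuationSubring F')
    (T : TripleCtx w q α β x x' V₁ V₂ V₃ V₁' V₂') {m : ℕ} (hm : 0 < m)
    (u : F) (hdu : A2.DivisibleDiv E m u)
    (hU₁ : UnitAt V₁ u) (hU₂ : UnitAt V₂ u) (hU₃ : UnitAt V₃ u)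
    (a₁ b₂ c : F') (ha₁ : V₁'.valuation a₁ = 1) (hb₂ : V₂'.valuation b₂ = 1)
    (hc : V₂'.valuation c = 1)
    (hu1 : PU V₁ (u / α a₁)) (hu2 : PU V₂ (u / (α a₁ * β b₂)))
    (hu3 : PU V₃ ((u / β b₂) ^ q / α c)) (q' : ℕ) :
    CondW R m V₁' a₁ ∧ CondW R m V₂' b₂ ∧ CondW R m V₂' (c ^ q') := by
  obtain ⟨π, hπ, A⟩ := absCtx_of_ctx w hw q hq hqR α β x x' V₁ V₂ V₃ V₁' V₂' T
  have hαR : ∀ r : R, (α : F' →+* F) (algebraMap R F' r) = algebraMap R F r := by
    intro r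
    change α (algebraMap R F' r) = algebraMap R F r
    rw [IsScalarTower.algebraMap_apply R E F', α.commutes,
      ← IsScalarTower.algebraMap_apply R E F]
  have hβR : ∀ r : R, (β : F' →+* F) (algebraMap R F' r) = algebraMap R F r := by
    intro r
    change β (algebraMap R F' r) = algebraMap R F r
    rw [IsScalarTower.algebraMap_apply R E F', β.commutes,
      ← IsScalarTower.algebraMap_apply R E F]
  have hv₁ : V₁.valuation u = 1 := val_of_unitAt_987 hU₁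
  have hv₂ : V₂.valuation u = 1 := val_of_unitAt_987 hU₂
  have hv₃ : V₃.valuation u = 1 := val_of_unitAt_987 hU₃
  have c1 : CondW R m V₁ u := condW_unit hw hq T hm hdu hU₁ hU₂ hU₃ V₁ (Or.inl rfl)
  have c2 : CondW R m V₂ u := condW_unit hw hq T hm hdu hU₁ hU₂ hU₃ V₂ (Or.inr (Or.inl rfl))
  have c3 : CondW R m V₃ u := condW_unit hw hq T hm hdu hU₁ hU₂ hU₃ V₃ (Or.inr (Or.inr rfl))
  have htriv : ∀ (V : ValuationSubring F) (y y' : F), y ∈ V → y' ∈ V →
      V.valuation ((y + y') ^ 1 - y ^ 1 - y' ^ 1) < 1 := by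
    intro V y y' _ _
    have e : (y + y') ^ 1 - y ^ 1 - y' ^ 1 = 0 := by ring
    rw [e, map_zero]
    exact zero_lt_one
  -- `a₁` on `V₁'`
  have hαa₁1 : V₁.valuation ((α : F' →+* F) a₁) = 1 := val_eq_one_up A.Tα.over_u ha₁
  have hαa₁2 : V₂.valuation ((α : F' →+* F) a₁) = 1 := val_eq_one_up A.Tα.over_r ha₁
  have hua₁ : V₁.valuation (u ^ 1 - (α : F' →+* F) a₁) < 1 := by
    rw [pow_one]
    exact sub_lt_of_div_sub_one hαa₁1 ((ValuationSubring.mem_nonunits_iff V₁).1 (pu_iff.1 hu1))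
  have cA : CondW R m V₁' a₁ :=
    condW_down m (α : F' →+* F) hαR V₁ V₁' 1 Nat.one_pos A.Tα.over_u
      (fun y hy => by
        obtain ⟨a, ha⟩ := A.Tα.res_u y hy
        exact ⟨a, by rw [pow_one]; exact ha⟩)
      (htriv V₁) hv₁ hua₁ c1
  -- `b₂` on `V₂'`
  have cA2 : CondW R m V₂ ((α : F' →+* F) a₁) :=
    condW_up m (α : F' →+* F) hαR V₂ V₁' A.Tα.over_r cA
  have cB0 : CondW R m V₂ (u * ((α : F' →+* F) a₁)⁻¹) :=
    condW_mul m c2 (condW_inv m hαa₁2 cA2)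
  have hβb₂2 : V₂.valuation ((β : F' →+* F) b₂) = 1 := val_eq_one_up A.Tβ.over_r hb₂
  have hβb₂3 : V₃.valuation ((β : F' →+* F) b₂) = 1 := val_eq_one_up A.Tβ.over_u hb₂
  have hy2 : V₂.valuation (u * ((α : F' →+* F) a₁)⁻¹) = 1 := by
    rw [map_mul, map_inv₀, hv₂, hαa₁2, inv_one, one_mul]
  have hαa₁0 : (α : F' →+* F) a₁ ≠ 0 := val_one_ne_zero_987 hαa₁1
  have hβb₂0 : (β : F' →+* F) b₂ ≠ 0 := val_one_ne_zero_987 hβb₂2
  have hub₂ : V₂.valuation ((u * ((α : F' →+* F) a₁)⁻¹) ^ 1 - (β : F' →+* F) b₂) < 1 := by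
    rw [pow_one]
    apply sub_lt_of_div_sub_one hβb₂2
    have e : u * ((α : F' →+* F) a₁)⁻¹ / (β : F' →+* F) b₂ =
        u / ((α : F' →+* F) a₁ * (β : F' →+* F) b₂) := by
      field_simp
    rw [e]
    exact (ValuationSubring.mem_nonunits_iff V₂).1 (pu_iff.1 hu2)
  have cB : CondW R m V₂' b₂ :=
    condW_down m (β : F' →+* F) hβR V₂ V₂' 1 Nat.one_pos A.Tβ.over_r
      (fun y hy => by
        obtain ⟨a, ha⟩ := A.Tβ.res_r y hy
        exact ⟨a, by rw [pow_one]; exact ha⟩)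
      (htriv V₂) hy2 hub₂ cB0
  -- `c` on `V₂'`
  have cB3 : CondW R m V₃ ((β : F' →+* F) b₂) :=
    condW_up m (β : F' →+* F) hβR V₃ V₂' A.Tβ.over_u cB
  have cC0 : CondW R m V₃ (u * ((β : F' →+* F) b₂)⁻¹) :=
    condW_mul m c3 (condW_inv m hβb₂3 cB3)
  have hy3 : V₃.valuation (u * ((β : F' →+* F) b₂)⁻¹) = 1 := by
    rw [map_mul, map_inv₀, hv₃, hβb₂3, inv_one, one_mul]
  have hαc3 : V₃.valuation ((α : F' →+* F) c) = 1 := val_eq_one_up A.Tα.over_i hc
  have huc : V₃.valuation ((u * ((β : F' →+* F) b₂)⁻¹) ^ q - (α : F' →+* F) c) < 1 := by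
    apply sub_lt_of_div_sub_one hαc3
    have e : (u * ((β : F' →+* F) b₂)⁻¹) ^ q / (α : F' →+* F) c =
        (u / (β : F' →+* F) b₂) ^ q / (α : F' →+* F) c := by
      rw [div_eq_mul_inv u]
    rw [e]
    exact (ValuationSubring.mem_nonunits_iff V₃).1 (pu_iff.1 hu3)
  have hqV₃ : V₃.valuation (q : F) < 1 :=
    natCast_lt_one_987 w hw q hqR T.base₃ T.unif₃.2.1
  have cC : CondW R m V₂' c :=
    condW_down m (α : F' →+* F) hαR V₃ V₂' q hq.pos A.Tα.over_i A.Tα.res_i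
      (fun y y' hy hy' => add_pow_sub_lt_987 hq hqV₃ y y' hy hy') hy3 huc cC0
  exact ⟨cA, cB, condW_pow m hc cC q'⟩

/-- **REALIZE** from RED-SURJ (E-form, mixed shape) and the toric wall. -/
theorem realizeAt_of (w : R) (hw : Irreducible w) (q : ℕ) (hq : q.Prime)
    (hqR : (q : R) ∈ IsLocalRing.maximalIdeal R)
    (α β : F' →ₐ[E] F) (x : F) (x' : F')
    (V₁ V₂ V₃ : ValuationSubring F) (V₁' V₂' : ValuationSubring F')
    (T : TripleCtx w q α β x x' V₁ V₂ V₃ V₁' V₂') (m : ℕ) (hm : 0 < m) (hqm : ¬ q ∣ m)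
    (hR : RedSurjE R E m V₁' V₂') (hT : ToricWallE E m α β V₁ V₂ V₃) :
    LoSqC.RealizeAt E m α β V₁ V₂ V₃ := by
  intro u hu0 hdu hU₁ hU₂ hU₃
  obtain ⟨π, hπ, A⟩ := absCtx_of_ctx w hw q hq hqR α β x x' V₁ V₂ V₃ V₁' V₂' T
  have hv₁ : V₁.valuation u = 1 := val_of_unitAt_987 hU₁
  have hv₂ : V₂.valuation u = 1 := val_of_unitAt_987 hU₂
  have hv₃ : V₃.valuation u = 1 := val_of_unitAt_987 hU₃
  obtain ⟨a₁, b₂, c, ha₁, hb₂, hc, hu1, hu2, hu3⟩ :=
    exists_red_triple (α : F' →+* F) (β : F' →+* F)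
      (S29.H395.normAlong α) (S29.H395.normAlong β) q (algebraMap R F' w) π V₁' V₂' V₁ V₂ V₃
      A.Tα A.Tβ u hv₁ hv₂ hv₃
  obtain ⟨q', j, hqq⟩ := exists_inv_mod_987 hq.pos hm ((Nat.Prime.coprime_iff_not_dvd hq).2 hqm)
  obtain ⟨cA, cB, cC⟩ := condW_triple w hw q hq hqR α β x x' V₁ V₂ V₃ V₁' V₂' T hm u hdu
    hU₁ hU₂ hU₃ a₁ b₂ c ha₁ hb₂ hc hu1 hu2 hu3 q'
  have hcq : V₂'.valuation (c ^ q') = 1 := by rw [map_pow, hc, one_pow]
  obtain ⟨g, h₁, h₂, hdg, hh₁, hh₂, hg1, hg2⟩ := hR a₁ (c ^ q') ha₁ hcq cA cC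
  obtain ⟨g', h₁', h₂', hdg', hh₁', hh₂', hg'1, hg'2⟩ :=
    hR 1 b₂ (map_one _) hb₂ (condW_one m V₁') cB
  rw [one_mul] at hg'1
  obtain ⟨G, hG0, H1, H2, H3⟩ := redGen_core (α : F' →+* F) (β : F' →+* F)
    (S29.H395.normAlong α) (S29.H395.normAlong β) q m (algebraMap R F' w) π V₁' V₂' V₁ V₂ V₃
    A.Tα A.Tβ A.hap_res u hv₃ a₁ b₂ c ha₁ hb₂ hc hu1 hu2 hu3 q' j hqq g g' h₁ h₂ h₁' h₂'
    hh₁ hh₂ hh₁' hh₂' (pu_iff.2 hg1) (pu_iff.2 hg2) (pu_iff.2 hg'1) (pu_iff.2 hg'2)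
  have hg0 : g ≠ 0 := by
    rintro rfl
    rw [zero_div] at hg1
    exact (pu_iff.2 hg1 : PU V₁' (0 : F')).ne_zero rfl
  have hg'0 : g' ≠ 0 := by
    rintro rfl
    rw [zero_div] at hg'1
    exact (pu_iff.2 hg'1 : PU V₁' (0 : F')).ne_zero rfl
  have hA0 : α g ≠ 0 := (map_ne_zero α).2 hg0
  have hA'0 : β g' ≠ 0 := (map_ne_zero β).2 hg'0
  have hGm0 : G ^ m ≠ 0 := pow_ne_zero _ hG0
  have hdu' : A2.DivisibleDiv E m (u / (α g * β g' * G ^ m)) :=
    divisibleDiv_quot_987 m hG0 hdu (divisibleDiv_map_987 α m hg0 hdg)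
      (divisibleDiv_map_987 β m hg'0 hdg')
  obtain ⟨g₂, g₂', h, hdg₂, hdg₂', hu'⟩ :=
    hT (u / (α g * β g' * G ^ m)) hdu' (pu_iff.1 H1) (pu_iff.1 H2) (pu_iff.1 H3)
  have hu'0 : u / (α g * β g' * G ^ m) ≠ 0 :=
    div_ne_zero hu0 (mul_ne_zero (mul_ne_zero hA0 hA'0) hGm0)
  have hg₂ : g₂ ≠ 0 := by
    rintro rfl
    rw [map_zero, zero_mul, zero_mul] at hu'
    exact hu'0 hu'
  have hg₂' : g₂' ≠ 0 := by
    rintro rfl
    rw [map_zero, mul_zero, zero_mul] at hu'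
    exact hu'0 hu'
  have hh : h ≠ 0 := by
    rintro rfl
    rw [zero_pow hm.ne', mul_zero] at hu'
    exact hu'0 hu'
  refine ⟨1, g * g₂, g' * g₂', G * h, mul_ne_zero hg0 hg₂, mul_ne_zero hg'0 hg₂',
    mul_ne_zero hG0 hh, divisibleDiv_mul_987 m hdg hdg₂, divisibleDiv_mul_987 m hdg' hdg₂', ?_⟩
  have e : u = α g * β g' * G ^ m * (u / (α g * β g' * G ^ m)) := by
    field_simp
  rw [map_one, one_mul, map_mul, map_mul, mul_pow]
  calc u = α g * β g' * G ^ m * (u / (α g * β g' * G ^ m)) := e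
    _ = α g * β g' * G ^ m * (α g₂ * β g₂' * h ^ m) := by rw [← hu']
    _ = α g * α g₂ * (β g' * β g₂') * (G ^ m * h ^ m) := by ring

end Main

end Fermat.Agent.S59.LoSqC.H987

end

end
-- ===== PACK-END S59/LoSqC/H987/Realize.lean

-- ===== PACK-BEGIN S59/LoSqC/H987/RealizeLeaf.lean
section




/-!
# S59 / cell (C) LO-SQ (helper987): `LeafRealize` from RED-SURJ and the toric wall (leaf form)

* `LeafRedSurj` : RED-SURJ at level `M q` (E-form, mixed shape, `H987.RedSurjE`) for all objects.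
* `LeafToric`   : the toric wall at level `M q q` (`H987.ToricWallE`) for all objects.
* **`leafRealize_of : LeafCtx → LeafRedSurj → LeafToric → LoSqC.LeafRealize`** (frozen `Spec`).
-/

set_option autoImplicit false
set_option linter.style.haveILetI false
set_option linter.unusedSectionVars false
set_option linter.unusedVariables false
set_option synthInstance.maxHeartbeats 400000
set_option maxHeartbeats 1600000

noncomputable section

namespace Fermat.Agent.S59.LoSqC.H987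

open ModularCurve AlgebraicCurve
open Fermat.Agent.S36 Fermat.Agent.S36.Eng
open Fermat.Agent

/-- **RED-SURJ (leaf).**  At level `M q`, every pair of residues on `(V₁', V₂')` with
`p`-divisible divisors is the pair of residues of some `g` with `p ∣ div g`, up to `p`-th
powers. -/
def LeafRedSurj : Prop :=
  Mod3.Leaf fun P E M q _ _ _ _ V₁' V₂' _ _ _ =>
    q ≠ 2 → ∀ p : ℕ, p.Prime → p ≠ 2 → p ≠ q → RedSurjE (A2.RE P E) E p V₁' V₂'

/-- **TORIC WALL (leaf).**  At level `M q q`, every `u ≡ 1` on `V₁, V₂, V₃` with `p ∣ div u` is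
`α g · β g' · h ^ p` with `p ∣ div g, g'`. -/
def LeafToric : Prop :=
  Mod3.Leaf fun _ E M q _ _ _ _ _ _ V₁ V₂ V₃ =>
    q ≠ 2 → ∀ p : ℕ, p.Prime → p ≠ 2 → p ≠ q →
      ToricWallE E p (A2.Mod.αE E (M * q) q) (A2.Mod.βE E (M * q) q) V₁ V₂ V₃

/-- **REALIZE** (frozen leaf of `LoSqC/Spec.lean`) from CTX, RED-SURJ and the toric wall. -/
theorem leafRealize_of (hCtx : LoSqC.LeafCtx) (hR : LeafRedSurj) (hT : LeafToric) :
    LoSqC.LeafRealize := by
  intro P E M q _ _ _ w hS V₁' V₂' V₁ V₂ V₃ W' W hO hq2 p hp hp2 hpq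
  haveI : IsDiscreteValuationRing ↥(A2.RE P E) := hS.unram.1.dvr
  haveI : HenselianLocalRing ↥(A2.RE P E) := hS.unram.1.henselian
  haveI : IsAlgClosed (IsLocalRing.ResidueField ↥(A2.RE P E)) := hS.unram.1.algClosed
  have hctx := hCtx P E M q w hS V₁' V₂' V₁ V₂ V₃ W' W hO
  have hqp : ¬ q ∣ p := fun hd => hpq ((Nat.prime_dvd_prime_iff_eq hS.q_prime hp).1 hd).symm
  exact realizeAt_of (R := ↥(A2.RE P E)) (E := E) (F := ↥(A2.Mod.FE E (M * q * q)))
    (F' := ↥(A2.Mod.FE E (M * q))) w hS.unif q hS.q_prime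
    (natCast_mem_maximalIdeal_RE E hS.lies_over)
    (A2.Mod.αE E (M * q) q) (A2.Mod.βE E (M * q) q) (Mod3.x3E E M q) (A2.Mod.xE E M q)
    V₁ V₂ V₃ V₁' V₂' hctx p hp.pos hqp
    (hR P E M q w hS V₁' V₂' V₁ V₂ V₃ W' W hO hq2 p hp hp2 hpq)
    (hT P E M q w hS V₁' V₂' V₁ V₂ V₃ W' W hO hq2 p hp hp2 hpq)

/-- The level wall from NEW-UNITS (proved), CTX, RED-SURJ and the toric wall. -/
theorem levelWall_of_surj (hCtx : LoSqC.LeafCtx) (hR : LeafRedSurj) (hT : LeafToric) :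
    LoSqC.LevelWallStatement :=
  LoSqC.levelWall_of_leaves newUnits hCtx (leafRealize_of hCtx hR hT)

end Fermat.Agent.S59.LoSqC.H987

end

end
-- ===== PACK-END S59/LoSqC/H987/RealizeLeaf.lean

-- ===== PACK-BEGIN S59/LoSqC/H987/RedFricke.lean
section


/-!
# S59 / cell (C) LO-SQ (helper987): RED-SURJ in mixed shape from the shape `(0, *)` and Fricke

* `redSurjE_of_rsurj1` (abstract): if `W'` is an involution of `F'` over `E` with
  `V₂' = V₁'.comap W'`, then `RSurj1E R E m V₁' V₂'` (shape `(0, *)`) implies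
  `RedSurjE R E m V₁' V₂'` (shape `(*, *)`).
* `LeafRSurj1` : R-SURJ1 at level `M q` for all objects (`Mod3.Leaf` form).
* `leafRedSurj_of_rsurj1 : LeafRSurj1 → LeafRedSurj`.
* **`leafRealize_of_rsurj1 : LeafCtx → LeafRSurj1 → LeafToric → LoSqC.LeafRealize`**.
-/

set_option autoImplicit false
set_option linter.style.haveILetI false
set_option linter.unusedSectionVars false
set_option linter.unusedVariables false
set_option synthInstance.maxHeartbeats 400000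
set_option maxHeartbeats 1600000

noncomputable section

namespace Fermat.Agent.S59.LoSqC.H987

open ModularCurve AlgebraicCurve
open Fermat.Agent.S36 Fermat.Agent.S36.Eng
open Fermat.Agent.S36.H586
open Fermat.Agent

section Abs

variable {R E F' : Type} [CommRing R] [Field E] [Algebra R E] [Field F'] [Algebra E F']
  [Algebra R F'] [IsScalarTower R E F']

/-- **Mixed shape from the shape `(0, *)` and the Fricke involution.** -/
theorem redSurjE_of_rsurj1 (m : ℕ) (V₁' V₂' : ValuationSubring F') (W' : F' ≃ₐ[E] F')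
    (hinv : ∀ f, W' (W' f) = f)
    (hV : V₂' = V₁'.comap ((W' : F' →ₐ[E] F') : F' →+* F'))
    (hR : RSurj1E R E m V₁' V₂') : RedSurjE R E m V₁' V₂' := by
  set φ : F' →+* F' := ((W' : F' →ₐ[E] F') : F' →+* F') with hφ
  have hφa : ∀ y : F', φ y = W' y := fun _ => rfl
  have hov₁ : ∀ y : F', φ y ∈ V₁' ↔ y ∈ V₂' := by
    intro y
    rw [hV, ValuationSubring.mem_comap]
  have hov₂ : ∀ y : F', φ y ∈ V₂' ↔ y ∈ V₁' := by
    intro y
    rw [hV, ValuationSubring.mem_comap]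
    rw [hφa, hφa, hinv]
  have hφR : ∀ r : R, φ (algebraMap R F' r) = algebraMap R F' r := by
    intro r
    rw [hφa, IsScalarTower.algebraMap_apply R E F']
    exact W'.commutes _
  intro a b ha hb hCa hCb
  -- shape `(1, b)`
  obtain ⟨g₂, h₂, hdg₂, hg₂1, hh₂, hg₂2⟩ := hR b hb hCb
  -- shape `(a, 1)` by Fricke
  have hWa : V₂'.valuation (φ a) = 1 := val_eq_one_up hov₂ ha
  have hCWa : CondW R m V₂' (φ a) :=
    condW_down m φ hφR V₁' V₂' 1 Nat.one_pos hov₁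
      (fun y _ => ⟨φ y, by
        rw [pow_one, hφa, hφa, hinv, sub_self, map_zero]
        exact zero_lt_one⟩)
      (fun y y' _ _ => by
        have e : (y + y') ^ 1 - y ^ 1 - y' ^ 1 = 0 := by ring
        rw [e, map_zero]
        exact zero_lt_one)
      ha (by
        rw [pow_one, hφa, hφa, hinv, sub_self, map_zero]
        exact zero_lt_one) hCa
  obtain ⟨g₁, h₁, hdg₁, hg₁1, hh₁, hg₁2⟩ := hR (φ a) hWa hCWa
  have hg₁0 : g₁ ≠ 0 := (pu_iff.2 hg₁1 : PU V₁' g₁).ne_zero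
  have hP1 : PU V₁' (φ (g₁ / (φ a * h₁ ^ m))) := (over_pu hov₁ _).2 (pu_iff.2 hg₁2)
  have hP2 : PU V₂' (φ g₁) := (over_pu hov₂ _).2 (pu_iff.2 hg₁1)
  have e1 : φ (g₁ / (φ a * h₁ ^ m)) = φ g₁ / (a * (φ h₁) ^ m) := by
    rw [map_div₀, map_mul, map_pow]
    congr 2
    rw [hφa, hφa, hinv]
  rw [e1] at hP1
  refine ⟨φ g₁ * g₂, φ h₁, h₂, ?_, val_eq_one_up hov₁ hh₁, hh₂, ?_, ?_⟩
  · exact divisibleDiv_mul_987 m (divisibleDiv_map_987 (W' : F' →ₐ[E] F') m hg₁0 hdg₁) hdg₂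
  · have e : φ g₁ * g₂ / (a * (φ h₁) ^ m) = φ g₁ / (a * (φ h₁) ^ m) * g₂ := by
      rw [mul_div_right_comm]
    rw [e]
    exact pu_iff.1 (hP1.mul (pu_iff.2 hg₂1))
  · have e : φ g₁ * g₂ / (b * h₂ ^ m) = φ g₁ * (g₂ / (b * h₂ ^ m)) := by
      rw [mul_div_assoc]
    rw [e]
    exact pu_iff.1 (hP2.mul (pu_iff.2 hg₂2))

end Abs

/-- **R-SURJ1 (leaf)**, shape `(0, *)`: at level `M q`, every residue on `V₂'` with `p`-divisible
divisor is, up to `p`-th powers, the residue of some `g` with `p ∣ div g`, `g ≡ 1` on `V₁'`. -/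
def LeafRSurj1 : Prop :=
  Mod3.Leaf fun P E M q _ _ _ _ V₁' V₂' _ _ _ =>
    q ≠ 2 → ∀ p : ℕ, p.Prime → p ≠ 2 → p ≠ q → RSurj1E (A2.RE P E) E p V₁' V₂'

theorem leafRedSurj_of_rsurj1 (hR : LeafRSurj1) : LeafRedSurj := by
  intro P E M q _ _ _ w hS V₁' V₂' V₁ V₂ V₃ W' W hO hq2 p hp hp2 hpq
  exact redSurjE_of_rsurj1 (R := ↥(A2.RE P E)) (E := E) (F' := ↥(A2.Mod.FE E (M * q))) p V₁' V₂'
    W' hO.fricke'.2 hO.vzero' (hR P E M q w hS V₁' V₂' V₁ V₂ V₃ W' W hO hq2 p hp hp2 hpq)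

/-- **REALIZE** (frozen leaf) from CTX, R-SURJ1 (shape `(0, *)`) and the toric wall. -/
theorem leafRealize_of_rsurj1 (hCtx : LoSqC.LeafCtx) (hR : LeafRSurj1) (hT : LeafToric) :
    LoSqC.LeafRealize :=
  leafRealize_of hCtx (leafRedSurj_of_rsurj1 hR) hT

end Fermat.Agent.S59.LoSqC.H987

end

end
-- ===== PACK-END S59/LoSqC/H987/RedFricke.lean

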