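import Fermat.Statements.S55
import Fermat.Agent.Pack.S59C.E13L3
import Fermat.Agent.Pack.S43MC.G0E28L3
import Fermat.Agent.Pack.S43GC.G0E21L2
import Fermat.Agent.Pack.S43GC.G0E22L2
import Fermat.Agent.Pack.S59C.E13L1
import Fermat.Agent.Pack.S59C.E13L2
import Fermat.Agent.Pack.S43GC.G0E23L0
import Fermat.Agent.Pack.S43GC.G0E22L1
import Fermat.Agent.Pack.S59C.E9L1
import Fermat.Agent.Pack.S59C.E9L3
import Fermat.Agent.Pack.S43GC.G0E22L3
import Fermat.Agent.Pack.S43GC.G0E19L0
import Fermat.Agent.Pack.S43GC.G0E21L3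
import Fermat.Agent.Pack.S43GC.G0E22L0
import Fermat.Agent.Pack.S43GC.G0E19L1
import Fermat.Agent.Pack.S59C.E11L0
import Fermat.Agent.Pack.S59C.E12L3
import Fermat.Agent.Pack.S59C.E13L0
import Fermat.Agent.Pack.S59C.E12L2
import Fermat.Agent.Pack.S43GC.G0E2L0
import Fermat.Agent.Pack.S43GC.G0E11L1
import Fermat.Agent.Pack.S43C.E2L0
import Fermat.Agent.Pack.S43C.E4L0
import Fermat.Agent.Pack.S59C.E8L1
import Fermat.Agent.Pack.S59C.E10L1
import Fermat.Agent.Pack.S59C.E7L2
import Fermat.Agent.Pack.S43MC.G0E23L3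
import Fermat.Agent.Pack.S59C.E5L1
import Fermat.Agent.Pack.S43GC.G0E20L3
import Fermat.Agent.Pack.S43MC.G0E28L2
import Fermat.Agent.Pack.S59C.E8L2
import Fermat.Agent.Pack.S44C.G0E28L3
import Fermat.Agent.Pack.S44C.G0E30L3
import Fermat.Agent.Pack.S44C.G0E27L2
import Fermat.Agent.Pack.S44C.G0E25L3
import Fermat.Agent.Pack.S43MC.G0E28L0
import Fermat.Agent.Pack.S43MC.G0E6L3
import Fermat.Agent.Pack.S44C.G0E24L3
import Fermat.Agent.Pack.S59C.E11L2
import Fermat.Agent.Pack.S59C.E12L0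
import Fermat.Agent.Pack.S59C.E9L2
import Fermat.Agent.Pack.S44C.G0E10L2
import Fermat.Agent.Pack.S43MC.G0E16L0
import Fermat.Agent.Pack.S44C.G0E29L2
import Fermat.Agent.Pack.S59C.E11L1
import Fermat.Agent.Pack.S59C.E3L2
import Fermat.Agent.Pack.S44C.G0E29L0
import Fermat.Agent.Pack.S44C.G0E28L0
import Fermat.Agent.Pack.S43MC.G0E22L1
import Fermat.Agent.Pack.S59C.E3L1
import Fermat.Agent.Pack.S44C.G0E31L0

set_option linter.all false

-- ===== PACK-BEGIN S59/H294/ResFlatFinal.lean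
section



/-!
# Row S59, cell LO, leaf ResFlat, unconditional (helper294)

`resFlat : H934.ResFlatStatement` = `resFlat_of` applied to cell DICT (`H401.dict`, on main).
-/

set_option autoImplicit false

namespace Fermat.Agent.S59.H294

/-- **Leaf ResFlat** of cell LO (`coord/S59.md` §4), unconditional. -/
theorem resFlat : Fermat.Agent.S59.H934.ResFlatStatement :=
  resFlat_of Fermat.Agent.S59.H401.dict

end Fermat.Agent.S59.H294

end
-- ===== PACK-END S59/H294/ResFlatFinal.lean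

-- ===== PACK-BEGIN S56/FinalC2.lean
section




/-!
# Row S56 — FINAL reduction, route C, v2 (row-lead helper956): ONE Prop left

LOC-FLAT (`FL.locFlatPMain`, helper426 + squad) and REC-Q-SUB (`RQ.H904.recQSub`,
helper554 / helper14 / helper904 + leaf owners) are proved unconditionally.  Hence

    `S56 ⇐ H716.BaseBigStatement`.

`Fermat/Agent/S56.lean` will be

    exact Fermat.Agent.S56.result_of_baseBig baseBig
      p hp2 hp𝒪 ρbar habs hdet hsplit hTW S Smin hpSmin hSmin hS hmin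
-/

set_option autoImplicit false

open Polynomial IsLocalRing

namespace Fermat.Agent.S56

/-- **S56 from BASE-BIG.** -/
theorem result_of_baseBig (hb : H716.BaseBigStatement)
    {𝒪 : Type} [CommRing 𝒪] [IsDomain 𝒪] [IsDiscreteValuationRing 𝒪]
    [IsAdicComplete (maximalIdeal 𝒪) 𝒪] [Finite (ResidueField 𝒪)]
    (p : ℕ) [Fact p.Prime] (hp2 : p ≠ 2) (hp𝒪 : (p : 𝒪) ∈ maximalIdeal 𝒪)
    (ρbar : ResidualGaloisRep (ResidueField 𝒪))
    (habs : ρbar.IsAbsolutelyIrreducible)
    (hdet : (GaloisRepAdic.ofResidualGaloisRep ρbar).DetIsCyclotomic p)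
    (hsplit : ∀ σ : AlgebraicClosure ℚ ≃ₐ[ℚ] AlgebraicClosure ℚ,
      ∃ α β : ResidueField 𝒪, LinearMap.charpoly (ρbar.ρ σ) = (X - C α) * (X - C β))
    (hTW : ∀ (K : Type) [Field K] [Algebra (ResidueField 𝒪) K]
      (G : Subgroup (AlgebraicClosure ℚ ≃ₐ[ℚ] AlgebraicClosure ℚ)), G.index = 2 →
      ∀ V : Submodule K (ρbar.baseChange K).V,
        (∀ σ ∈ G, ∀ x ∈ V, (ρbar.baseChange K).ρ σ x ∈ V) → V = ⊥ ∨ V = ⊤)
    (S Smin : Finset ℕ) (hpSmin : p ∈ Smin) (hSmin : Smin ⊆ S) (hS : ∀ q ∈ S, q.Prime)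
    (hmin' : ∀ q : ℕ, q.Prime → q ≠ p → (q ∈ Smin ↔ ¬ ρbar.IsUnramifiedAt q)) :
    (∃ r : ℕ, ∀ n : ℕ, ∃ qv : Fin r → ℕ, Function.Injective qv ∧
      (∀ i, (qv i).Prime ∧ qv i ∉ S ∧ p ^ (n + 1) ∣ qv i - 1) ∧
      (∀ i, ∀ P : ValuationSubring (AlgebraicClosure ℚ), P.LiesOverPrime (qv i) →
        ∀ φ : AlgebraicClosure ℚ ≃ₐ[ℚ] AlgebraicClosure ℚ, P.IsFrobeniusAt φ (qv i) →
          ∃ α β : ResidueField 𝒪, α ≠ β ∧ LinearMap.charpoly (ρbar.ρ φ) = (X - C α) * (X - C β)) ∧
      ∀ DQ : GaloisRep.DeformationRingData 𝒪 ρbar (fun _A _ _ _ ρ =>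
          GaloisRep.strictOrdinaryCondition 𝒪 p (Smin ∪ Finset.univ.image qv) ρ ∧
            ∀ q ∈ Smin, q.Prime → q ≠ p → ρ.IsUnipotentOnInertiaAt q),
        ∃ γ : MvPowerSeries (Fin r) 𝒪 →ₐ[𝒪] DQ.R, Function.Surjective γ) ∧
    (∃ r : ℕ, ∀ n : ℕ, ∃ qv : Fin r → ℕ, Function.Injective qv ∧
      (∀ i, (qv i).Prime ∧ qv i ∉ S ∧ p ^ (n + 1) ∣ qv i - 1) ∧
      (∀ i, ∀ P : ValuationSubring (AlgebraicClosure ℚ), P.LiesOverPrime (qv i) →
        ∀ φ : AlgebraicClosure ℚ ≃ₐ[ℚ] AlgebraicClosure ℚ, P.IsFrobeniusAt φ (qv i) →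
          ∃ α β : ResidueField 𝒪, α ≠ β ∧ LinearMap.charpoly (ρbar.ρ φ) = (X - C α) * (X - C β)) ∧
      ∀ DQ : GaloisRep.DeformationRingData 𝒪 ρbar (fun _A _ _ _ ρ =>
          GaloisRep.flatCondition 𝒪 p (Smin ∪ Finset.univ.image qv) ρ ∧
            ∀ q ∈ Smin, q.Prime → q ≠ p → ρ.IsUnipotentOnInertiaAt q),
        ∃ γ : MvPowerSeries (Fin r) 𝒪 →ₐ[𝒪] DQ.R, Function.Surjective γ) :=
  result_of_wallsC FL.locFlatPMain hb RQ.H904.recQSub p hp2 hp𝒪 ρbar habs hdet hsplit hTW S Smin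
    hpSmin hSmin hS hmin'

end Fermat.Agent.S56

end
-- ===== PACK-END S56/FinalC2.lean

-- ===== PACK-BEGIN S55/E1/Lim/Engine.lean
section
/-
S55 engine E1 — block LIM CLOSED (helper474): `engineSpecFin : EngineSpecFin`, unconditional.
Leaves: `limBase`, `lim4` (474), `H719.lim1`, `H719.lim2` (719), `H957.lim3` (957),
`H603.lim5` (603, with 423, 719, 295, 895).  All proofs complete.
-/



set_option autoImplicit false

namespace Fermat.Agent.S55.E1.Lim

open Fermat.Agent.S55.E1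

/-- **THE ENGINE E1**: `finrank Ш¹_S(M^∨(1)) = finrank Ш²_S(M)` from the arithmetic inputs. -/
theorem engineSpecFin : EngineSpecFin := engineSpecFin_of_lim5 H603.lim5

end Fermat.Agent.S55.E1.Lim

end
-- ===== PACK-END S55/E1/Lim/Engine.lean

-- ===== PACK-BEGIN S55/Fin/FinRec.lean
section
/-
S55 / FINAL WIRING, block FR (row-lead helper55).

`Fin.finRecAll : Fin.FinRecAllSpec` — for every odd prime `p` a system of semilocal invariants
`TOW.SemiLocalInv p` exists: `σ := FR.sigma I`, `I := Rec.Loc.localInvSystem`.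

Plugged in (all closed on main):
* `Rec.reciprocityFull` (block REC), `Rec.Loc.localInvSystem` (block REC-LOC);
* FR assembly shell `FR.H724.finRec_of_fields` (recip + resIndex closed there, helper724);
* `FR.H481.injAt_of`, `FR.H481.locClass_of` (helper481);
* FR leaves: FR-A `H894.locInj`, FR-B `H841.orbitReps`, FR-C `H715.locExist`,
  FR-D `H233.primePlace`; `G.ShapiroJSpec` (helper604), `ResTopSpec`, `ResCoeffNatSpec` (helper323).
NO sorry.
-/













set_option autoImplicit false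

namespace Fermat.Agent.S55.Fin

open Fermat.Agent.S55 Fermat.Agent.S55.G Fermat.Agent.S55.G.Rec

/-- **Block FR, closed**: the finite reciprocity dictionary for an odd prime `p`. -/
theorem finRec (p : ℕ) (hp : p.Prime) (hp2 : p ≠ 2) : TOW.FinRecSpec p :=
  haveI : Fact p.Prime := ⟨hp⟩
  TOW.FR.H724.finRec_of_fields Loc.localInvSystem p
    (reciprocityFull Loc.localInvSystem p hp2)
    (fun {_} M r y hy hat h0 =>
      TOW.FR.H481.injAt_of Loc.localInvSystem p TOW.FR.H841.orbitReps TOW.FR.H894.locInj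
        AllH604.shapiroJ TOW.H323.resTop TOW.H323.resCoeffNat M r y hy hat h0)
    (fun {_} M r hr H Z hZH hZ hfix =>
      TOW.FR.H481.locClass_of Loc.localInvSystem p TOW.FR.H233.primePlace
        TOW.FR.H841.orbitReps TOW.FR.H715.locExist TOW.FR.H894.locInj AllH604.shapiroJ
        M r hr H Z hZH hZ hfix)

/-- **Block FR, closed**, quantified form. -/
theorem finRecAll : FinRecAllSpec := fun p hp hp2 => finRec p hp hp2

/-- **Layer G, closed**: the global input of the engine E1. -/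
theorem globalInputSpec : E1.GlobalInputSpec := globalInputSpec_of_finRec finRecAll

end Fermat.Agent.S55.Fin

end
-- ===== PACK-END S55/Fin/FinRec.lean

-- ===== PACK-BEGIN S55.lean
section
-- Statement S55 (row 49): Poitou–Tate duality between Ш¹_S of the Tate-twisted dual and Ш²_S.
-- Proof: engine E1 (`E1.Lim.engineSpecFin`, tower limit of the finite-level nine-term
-- sequences) applied to the global input of layer G (`Fin.globalInputSpec`, the class module
-- of the S-idèle classes from the reciprocity law), wired by `E1.S55_of_engine_global`.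




set_option autoImplicit false
set_option autoImplicit false
open CategoryTheory Module groupCohomology ExtCitation
open groupCohomology

namespace Fermat.Agent.S55

theorem result
    {p : ℕ} [Fact p.Prime] (hp2 : p ≠ 2) (S : Finset Nat.Primes) (hpS : pPrime p ∈ S)
    (M : Rep (ZMod p) (AlgebraicClosure ℚ ≃ₐ[ℚ] AlgebraicClosure ℚ))
    [FiniteDimensional (ZMod p) M]
    (hsm : ∀ m : M, ∃ F : IntermediateField ℚ (AlgebraicClosure ℚ), FiniteDimensional ℚ F ∧
      ∀ s ∈ F.fixingSubgroup, M.ρ s m = m)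
    (hMur : ∀ q : Nat.Primes, q ∉ S → ∀ A : ValuationSubring (AlgebraicClosure ℚ),
      A.LiesOverPrime (q : ℕ) → ∀ g ∈ A.inertiaSubgroupIn ℚ, M.ρ g = 1) :
    ∃ B : sha₁ S (M.dualTwist (cycloChar p)) →ₗ[ZMod p] sha₂ S M →ₗ[ZMod p] ZMod p,
      (∀ y, (∀ x, B y x = 0) → y = 0) ∧ (∀ x, (∀ y, B y x = 0) → x = 0) := by
  exact E1.S55_of_engine_global E1.Lim.engineSpecFin Fin.globalInputSpec hp2 S hpS M hsm hMur

end Fermat.Agent.S55

end
-- ===== PACK-END S55.lean

-- ===== PACK-BEGIN S56/FinalC3.lean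
section














/-!
# Row S56 — FINAL reduction, route C, v3 (row-lead helper956): BASE-BIG assembled

Everything on main is plugged in (S55 = `Fermat.Agent.S55.result`; A3 = `K.AR.H4.surj2Glob`;
A4 = `KL.A4.surj2Loc`; layer G = `Fin.globalInputSpec`; BRIDGE-BASE, RED, LemmaA, ASM, CL, SHA2,
H2F, H2-CP, HERB, H0, ADD).  Open inputs, as hypotheses:

* `InvAll`  : `∀ p S, p ≠ 2 → pPrime p ∈ S → PT.InvSpec p S`   (S55 layer INV, helper3);
* `P1All`   : `∀ p, H419.P1CharSpec p`                          (P1-CHAR, helper184).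

    `baseBig_of_open : InvAll → P1All → H716.BaseBigStatement`
    `result_of_open  : InvAll → P1All → (the frozen statement S56)`.
-/

set_option autoImplicit false

open Polynomial IsLocalRing

namespace Fermat.Agent.S56

open Fermat.Agent.S55 Fermat.Agent.S55.PT ExtCitation

/-- Input (A5–A7) for all odd `p ∈ S`. -/
def InvAll : Prop :=
  ∀ (p : ℕ) [Fact p.Prime] (S : Finset Nat.Primes), p ≠ 2 → pPrime p ∈ S → InvSpec p S

/-- Input (P1-CHAR) for all `p`. -/
def P1All : Prop := ∀ (p : ℕ) [Fact p.Prime], H419.P1CharSpec p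

/-- The frozen statement S55, from `Fermat.Agent.S55.result`. -/
theorem s55Frozen : PT.H595.S55Frozen :=
  fun {_p} _ hp2 S hpS M _ hsm hMur => Fermat.Agent.S55.result hp2 S hpS M hsm hMur

section

variable (p : ℕ) [Fact p.Prime]

/-- (A3) for all odd `p ∈ S`. -/
theorem surj2GlobAll (S : Finset Nat.Primes) (hp2 : p ≠ 2) (hpS : pPrime p ∈ S) :
    Surj2GlobSpec p S :=
  K.AR.H4.surj2Glob p S (Fin.globalInputSpec p hp2 S hpS) hp2 hpS

/-- (H2F) from the open input `InvAll`. -/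
theorem h2FormulaAll (hInv : InvAll) (S : Finset Nat.Primes) : Euler.H2FormulaSpec p S :=
  fun hp2 hpS => Euler.H595.h2Formula_of_s55 p S s55Frozen (surj2GlobAll p S hp2 hpS)
    (KL.A4.surj2Loc p S) (hInv p S hp2 hpS) hp2 hpS

/-- (H2-CP) from the open input `InvAll`. -/
theorem h2cpAll (hInv : InvAll) (S : Finset Nat.Primes) : Euler.H2CPSpec p S := by
  intro hp2 hpS
  obtain ⟨inv, hrec, hTLI, hTGI⟩ := hInv p S hp2 hpS
  have hrec' : IsRecip (hrl S) (cycloChar p) inv := hrec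
  have hSurjL : Surj2LocSpec p S := KL.A4.surj2Loc p S
  have hTopL : TopLocSpec inv :=
    H299.topLocDev p S H113.lesMidSpec H724.localNormalCofinal H724.localFiniteIndex inv hTLI
      hSurjL
  have hTopG : TopGlobSpec inv hrec' :=
    H123.topGlobDev p S H113.lesMidSpec H724.globalNormalCofinal H724.localNormalCofinal
      H724.globalFiniteIndex hpS inv hrec' hTopL hTGI (surj2GlobAll p S hp2 hpS) hSurjL
  exact Euler.H765.h2cp_of p S inv hrec' hTopL hTopG hp2 hpS

/-- (SHA) from S55. -/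
theorem sha2IndAll (hp2 : p ≠ 2) : H419.Sha2IndSpec p := by
  intro S₀ hpS₀ U hUn hU hχ
  refine Euler.H726.exists_sha2_indMu_eq_bot p S₀
    (Euler.H595.theoremD_all_of_s55 p S₀ s55Frozen hp2 hpS₀) U hU hUn ?_
  intro u hu
  apply LinearMap.ext
  intro x
  rw [H419.mu_ρ_apply, hχ u hu]
  simp

/-- (CL), from `Euler.H74.exists_noPTorsH1E`. -/
theorem clAll : H419.ClSpec p := by
  intro _ S₁ _ U _ hU _
  obtain ⟨S, hS, h⟩ := Euler.H74.exists_noPTorsH1E p S₁ S₁ (Finset.Subset.refl _) U hU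
  exact ⟨S, hS, h S (Finset.Subset.refl _)⟩

/-- (E-BIG) from the open inputs. -/
theorem eulerBigAll (hInv : InvAll) (hP1 : P1All) : Euler.EulerBigSpec p := by
  intro hp2
  refine Euler.eulerBig_of_red (H614.red_of H314.lemmaA) (fun S hpS => ?_) (fun S hpS => ?_)
    (H419.charEulerBig_of (h2cpAll p hInv) (sha2IndAll p hp2) (clAll p) (hP1 p)) hp2
  · exact H419.phiAdd_of p S H113.les0Spec H113.les1Spec H113.lesMidSpec
      H724.globalNormalCofinal (H593.finGlob p S)
      (fun N hN hsm => (h2FormulaAll p hInv S hp2 hpS N hN hsm).1) (surj2GlobAll p S hp2 hpS)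
  · exact fun N hN hsm => (h2FormulaAll p hInv S hp2 hpS N hN hsm).1

end

/-- **BASE-BIG from the open inputs.** -/
theorem baseBig_of_open (hInv : InvAll) (hP1 : P1All) : H716.BaseBigStatement :=
  Euler.baseBig_of (fun p _ => eulerBigAll p hInv hP1) (fun p _ S => h2FormulaAll p hInv S)
    Br.bridgeBase

end Fermat.Agent.S56

end
-- ===== PACK-END S56/FinalC3.lean

-- ===== PACK-BEGIN S59/NMP/H135/LgcClean.lean
section










/-!
# S59 / cell NMP, leaf LGC: REALIZER-FREE copy of `NMP/H587/LgcOfCore.lean` (helper135)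

    H135.Clean.lgc_of_old_core : S33.OldAugStatement → H135.LgcCoreStatement → NMP.LgcStatement

The proofs are those of helper587 (`NMP/H587/LgcOfCore.lean`), copied verbatim; the only change is
that the datum form of EIG is taken from `NMP/H135/EigDatumC.lean` (REL from the realizer-free
chain `S59/TW/H659/Clean/Rel.lean`) instead of `NMP/H590/EigDatum.lean`, so that the closure of
this file does not contain `S31/H982/TracePow.lean` and can be imported together with the chains of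
S31 / S34 / G4 (`coord/CI-realized-collisions-helper475.md`).
-/

set_option autoImplicit false
set_option linter.style.haveILetI false
set_option linter.unusedSectionVars false
set_option linter.unusedVariables false

noncomputable section

open Polynomial IsLocalRing CongruenceSubgroup

namespace Fermat.Agent.S59.NMP.H135.Clean

open Fermat.Agent.S59.NMP.H587

open CuspForm ModularCurve Fermat.Agent.S59.Arch Fermat.Agent.S59.H765 Fermat.Agent.S41.Spec
  Fermat.Agent.S29.H642 Fermat.Agent.S59.NMP Fermat.Agent.S31 Fermat.Agent.S33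
  Fermat.Agent.S30.H330

/-- The unramified Frobenius eigenvalue is an invariant of the equivalence class. -/
theorem unrFrobAt_of_isEquiv {A : Type} [CommRing A] [IsLocalRing A] {ρ₁ ρ₂ : GaloisRepAdic A}
    (h : ρ₁.IsEquiv ρ₂) {p : ℕ} {α : A} (hα : UnrFrobAt ρ₁ p α) : UnrFrobAt ρ₂ p α := by
  obtain ⟨e⟩ := h
  obtain ⟨P, hP, L, ⟨b, hb⟩, hD, hI, hF⟩ := hα
  have hmem : ∀ v : ρ₁.V, v ∈ L → e.toLinearEquiv v ∈ L.map (e.toLinearEquiv : ρ₁.V →ₗ[A] ρ₂.V) :=
    fun v hv => Submodule.mem_map_of_mem hv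
  refine ⟨P, hP, L.map (e.toLinearEquiv : ρ₁.V →ₗ[A] ρ₂.V), ⟨b.map e.toLinearEquiv, ?_⟩,
    ?_, ?_, ?_⟩
  · rw [hb, Submodule.map_span, Set.image_singleton]
    rfl
  · intro σ hσ w hw
    obtain ⟨v, hv, rfl⟩ := Submodule.mem_map.mp hw
    have h1 : ρ₂.ρ σ (e.toLinearEquiv v) = e.toLinearEquiv (ρ₁.ρ σ v) := (e.map_apply σ v).symm
    show ρ₂.ρ σ (e.toLinearEquiv v) ∈ _
    rw [h1]
    exact hmem _ (hD σ hσ v hv)
  · intro σ hσ w
    obtain ⟨v, rfl⟩ := e.toLinearEquiv.surjective w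
    have h1 : ρ₂.ρ σ (e.toLinearEquiv v) - e.toLinearEquiv v =
        e.toLinearEquiv (ρ₁.ρ σ v - v) := by
      rw [map_sub, e.map_apply]
    rw [h1]
    exact hmem _ (hI σ hσ v)
  · intro σ hσ w
    obtain ⟨v, rfl⟩ := e.toLinearEquiv.surjective w
    have h1 : ρ₂.ρ σ (e.toLinearEquiv v) - α • e.toLinearEquiv v =
        e.toLinearEquiv (ρ₁.ρ σ v - α • v) := by
      rw [map_sub, e.map_apply, map_smul]
    rw [h1]
    exact hmem _ (hF σ hσ v)

/-- CORE in the form used by helper590. -/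
theorem coreAt_of_lgcCore (hcore : H135.LgcCoreStatement) (p : ℕ) [Fact p.Prime] (hp2 : p ≠ 2)
    (N : ℕ) [NeZero N] (hpN : ¬ p ∣ N) : H590.CoreAt N p := by
  intro Pl hPl φ hφ n x hx
  have hx' : p ^ n • x = 0 := hx
  exact hcore p N Fact.out hp2 hpN Pl hPl φ hφ n x hx'

/-- **The inner claim**: the quadratic relation for the `T_p`-eigenvalue of a nonzero eigenclass
over the coefficient ring of a `p`-adic point of the Hecke ring. -/
theorem root_of_eigenclass (hOLD : Fermat.Agent.S33.OldAugStatement)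
    (hcore : H135.LgcCoreStatement)
    (p : ℕ) [Fact p.Prime] (hp2 : p ≠ 2) (N : ℕ) [NeZero N] (hpN : ¬ p ∣ N)
    (S : Finset ℕ) (hpS : p ∈ S) (hNS : ∀ q : ℕ, q.Prime → q ∣ N → q ∈ S)
    (𝒪 : Type) [CommRing 𝒪] [IsDomain 𝒪] [IsDiscreteValuationRing 𝒪]
    [IsAdicComplete (maximalIdeal 𝒪) 𝒪]
    (θ : heckeAlgebra N 2 (↑S : Set ℕ) →+* ResidueField 𝒪)
    (T : Type) [CommRing T] [IsLocalRing T] [IsNoetherianRing T]
    [IsAdicComplete (maximalIdeal T) T] [Algebra 𝒪 T] [IsLocalHom (algebraMap 𝒪 T)]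
    [Module.Finite 𝒪 T] [Module.Free 𝒪 T]
    (H : HeckeGaloisRepDatum N (↑S : Set ℕ) 𝒪 θ T)
    (P : PadicPoint p T) (hloc : IsLocalHom P.χ)
    (α : P.O) (hα : UnrFrobAt (H.ρ.baseChangeAlong P.χ hloc) p α)
    (c : P.O) (y : Additive (Gamma0 N) →+ P.O) (hy0 : y ≠ 0)
    (hy : NM.IsEigenclass N S (fun ℓ => eigenvalue (P.χ.comp H.π) ℓ) y)
    (hyp : heckeTransfer hpN y = c • y) :
    α ^ 2 - c * α + (p : P.O) = 0 := by
  obtain ⟨f, hf0, hfint, hfe, hfp⟩ :=
    exists_eigenHom_of_eigenclass P.hp hpN S (fun ℓ => eigenvalue (P.χ.comp H.π) ℓ) c y hy hy0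
      hyp
  have hF : ∀ (N : ℕ) [NeZero N] (p : ℕ) [Fact p.Prime], FinStatement N p := fun N _ p hp =>
    haveI : NeZero p := ⟨hp.out.ne_zero⟩
    Fermat.Agent.S30.H810.torsion_finite N p
  have hT : ∀ (N : ℕ) [NeZero N] (p : ℕ) [Fact p.Prime], TorsionRelations N p :=
    fun N _ p _ => Fermat.Agent.S30.H694.torsionRelations_of_nodes
      (fun M _ _ _ hℓM A hA => Fermat.Agent.S18.Mod.H216.node_mod M hℓM A hA)
      (fun M => Fermat.Agent.S18.H438.node_alg M) N p
  obtain ⟨E, hE⟩ := H590.exists_eigenModule_geoRel hOLD hF hT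
    p hp2 N hpN S hpS P.O P.hp (P.χ.comp H.π) c f hfint hf0
    (fun ℓ hℓS z => hfe ℓ (fun hd => hℓS (hNS ℓ ℓ.2 hd)) hℓS z) hfp
    (coreAt_of_lgcCore hcore p hp2 N hpN)
  exact Fermat.Agent.S59.NMP.H135.Clean.root_of_eigenModule p hp2 N S hpS hNS 𝒪 θ T H P hloc α hα E c hE

/-- **LGC from OLD and CORE** (route CHAR). -/
theorem lgc_of_old_core (hOLD : Fermat.Agent.S33.OldAugStatement)
    (hcore : H135.LgcCoreStatement) : LgcStatement := by
  intro p _ 𝒪 _ _ _ _ _ _ ρbar Smin h _hc Sig hSig hSigP hpSig _hflat _hord _ _ θ _ _ _ _ _ _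
    H hπ _hres _hcond π hπloc a hπa α hα hpN x hx
  have hp : p.Prime := Fact.out
  have hNS : ∀ q : ℕ, q.Prime → q ∣ wilesLevel p .flat Smin Sig → q ∈ Sig := fun q hq hqN =>
    mem_of_prime_dvd_wilesLevel hp h.hSmin hSigP h.hpSmin hSig q hq hqN
  refine betti_of_eigen p 𝒪 (wilesLevel p .flat Smin Sig) hpN Sig hpSig hNS a α ?_ x hx
  intro 𝒪' _ _ _ _ _ _ ι hlh hinj c y hy0 hy hyp
  have hp𝒪' : (p : 𝒪') ∈ maximalIdeal 𝒪' := by
    have h1 : ι (p : 𝒪) = (p : 𝒪') := map_natCast ι p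
    rw [← h1]
    exact map_nonunit ι _ h.hp𝒪
  -- the `p`-adic point `ι ∘ π` of the Hecke ring
  let P : PadicPoint p (heckeLocal (wilesLevel p .flat Smin Sig) (↑Sig : Set ℕ) 𝒪 θ) :=
    { O := 𝒪'
      hp := hp𝒪'
      χ := ι.comp (π : heckeLocal (wilesLevel p .flat Smin Sig) (↑Sig : Set ℕ) 𝒪 θ →+* 𝒪) }
  have hloc : IsLocalHom P.χ := by
    show IsLocalHom
      (ι.comp (π : heckeLocal (wilesLevel p .flat Smin Sig) (↑Sig : Set ℕ) 𝒪 θ →+* 𝒪))
    haveI := hlh
    haveI := hπloc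
    exact RingHom.isLocalHom_comp _ _
  have hα' : UnrFrobAt (H.ρ.baseChangeAlong P.χ hloc) p (ι α) :=
    unrFrobAt_of_isEquiv
      (Fermat.Agent.S53.H113.baseChangeAlong_comp_isEquiv
        (π : heckeLocal (wilesLevel p .flat Smin Sig) (↑Sig : Set ℕ) 𝒪 θ →+* 𝒪) hπloc ι hlh
        hloc H.ρ)
      (unrFrobAt_baseChangeAlong ι hlh hα)
  have hy' : NM.IsEigenclass (wilesLevel p .flat Smin Sig) Sig
      (fun ℓ => eigenvalue (P.χ.comp H.π) ℓ) y := by
    refine ⟨hy.1, fun ℓ _ hℓN hℓS => ?_⟩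
    have hℓS' : ℓ ∉ (↑Sig : Set ℕ) := fun hm => hℓS (Finset.mem_coe.mp hm)
    have e : eigenvalue (P.χ.comp H.π) ℓ = ι (a ℓ) := by
      unfold eigenvalue
      rw [dif_pos ⟨Fact.out, hℓN, hℓS'⟩]
      show ι (π (H.π (heckeAlgebra.T _ hℓN hℓS'))) = ι (a ℓ)
      rw [hπ, hπa ℓ Fact.out hℓN hℓS']
    show heckeTransfer hℓN y = eigenvalue (P.χ.comp H.π) ℓ • y
    rw [e]
    exact hy.2 ℓ hℓN hℓS
  have hroot := root_of_eigenclass hOLD hcore p h.hp2 (wilesLevel p .flat Smin Sig) hpN Sig hpSig hNS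
    𝒪 θ _ H P hloc (ι α) hα' c y hy0 hy' hyp
  have hroot' : ι α ^ 2 - c * ι α + (p : 𝒪') = 0 := hroot
  linear_combination -hroot'

end Fermat.Agent.S59.NMP.H135.Clean

end
end
-- ===== PACK-END S59/NMP/H135/LgcClean.lean

-- ===== PACK-BEGIN S38/H546/GalT.lean
section





/-!
# Leaf GAL of Ihara avoidance for BOTH conditions at `p` (`t = .flat` and `t = .sord`) and every
# odd prime `p` (`p = 3` included)   (helper546; S59 endgame, cell (B2))

The frozen leaf `IA.IAGalStatement` of the trunk (`S38/IA/Spec2.lean`) is stated for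
`sigmaCond 𝒪 p .flat`.  Nothing on the Galois side uses flatness or `5 ≤ p`:

* `IAGalTStatement_h546 t` : the statement of `IA.IAGalStatement` VERBATIM with `.flat` replaced
  by `t : PType` and without the (unused) hypothesis that `ρ̄` is flat at `p`;
* `iaGalT_h546 : t = .flat ∨ t = .sord → IAGalTStatement_h546 t`, UNCONDITIONAL
  (helper183's relative Taylor–Wiles theorem for `flatCond` / `ordCond`, helper1's integrator
  `iaGal_of`, helper419's determinant and TYPE clauses, which are uniform in `t`);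
* `iaGal_of_galT_h546 : IAGalTStatement_h546 .flat → IA.IAGalStatement` (the trunk's leaf).

Nothing unproved in this file.
-/

set_option autoImplicit false

open IsLocalRing

namespace Fermat.Agent.S38.H546

open Fermat.Agent.S56 Fermat.Agent.S38.H953 Fermat.Agent.S38.IA
open Fermat.Agent.S59.Arch (ResidualHyp sigmaCond PType)
open Fermat.Agent.S59.TW.H959 (IsTWSet)

/-- **Leaf GAL for the condition `t` at `p`**: `IA.IAGalStatement` with `.flat` replaced by `t`
(no flatness hypothesis on `ρ̄`). -/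
def IAGalTStatement_h546 (t : PType) : Prop :=
  ∀ (p : ℕ) [Fact p.Prime]
    (𝒪 : Type) [CommRing 𝒪] [IsDomain 𝒪] [IsDiscreteValuationRing 𝒪]
    [IsAdicComplete (maximalIdeal 𝒪) 𝒪] [Finite (ResidueField 𝒪)] [CharZero 𝒪]
    (ρbar : ResidualGaloisRep (ResidueField 𝒪)) (Smin : Finset ℕ)
    (_h : ResidualHyp p 𝒪 ρbar Smin)
    (Piv : Finset ℕ) (_hPiv : IsPivotSet p ρbar Smin Piv)
    (_hroots : ∀ q ∈ Piv, ∀ m : ℕ, p ^ m ∣ q - 1 → ∃ ζ : 𝒪, IsPrimitiveRoot ζ (p ^ m)),
    ∃ r : ℕ, 3 * Piv.card ≤ r ∧ ∀ n : ℕ, ∃ qv : Fin r → ℕ, IsTWSet p ρbar (Smin ∪ Piv) n qv ∧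
      ∀ DQ : GaloisRep.DeformationRingData 𝒪 ρbar
          (sigmaCond 𝒪 p t Smin (Smin ∪ Piv ∪ Finset.univ.image qv)),
        ∃ (bas : Module.Basis (Fin 2) DQ.R DQ.ρ.V)
          (Pv : Piv → ValuationSubring (AlgebraicClosure ℚ))
          (φv σv : Piv → (AlgebraicClosure ℚ ≃ₐ[ℚ] AlgebraicClosure ℚ))
          (γ : LocAmb 𝒪 Piv (r - 3 * Piv.card) →ₐ[𝒪] DQ.R),
          Function.Surjective γ ∧
          (∀ q : Piv, (Pv q).LiesOverPrime (q : ℕ) ∧ (Pv q).IsFrobeniusAt (φv q) (q : ℕ) ∧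
            σv q ∈ (Pv q).inertiaSubgroupIn ℚ) ∧
          (∀ q : Piv, IsTracelessCoords bas (DQ.ρ.ρ (σv q))
            (fun j => γ (vVar 𝒪 (r - 3 * Piv.card) q j))) ∧
          (∀ q : Piv, IsTracelessCoords bas (DQ.ρ.ρ (φv q))
            (fun j => γ (wVar 𝒪 (r - 3 * Piv.card) q j))) ∧
          (∀ q : Piv, LinearMap.det (DQ.ρ.ρ (φv q)) = ((q : ℕ) : DQ.R)) ∧
          (∀ (𝒪' : Type) [CommRing 𝒪'] [IsDomain 𝒪'] [IsDiscreteValuationRing 𝒪'] [CharZero 𝒪']
              [Algebra 𝒪 𝒪'] (y : DQ.R →ₐ[𝒪] 𝒪') (hy : IsLocalHom (y : DQ.R →+* 𝒪')),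
              (∀ q ∈ Piv,
                ¬ (DQ.ρ.baseChangeAlong (y : DQ.R →+* 𝒪') hy).IsUnipotentOnInertiaAt q) →
              ∃ δ : Piv → 𝒪, (∀ q : Piv, IsTypeValue p (q : ℕ) (δ q)) ∧
                ∀ a ∈ typeIdeal 𝒪 (r - 3 * Piv.card) δ, y (γ a) = 0)

/-- helper183's relative Taylor–Wiles theorem, as the `Prop` of the integrator (copy for this
file). -/
theorem relTWCob_T_h546 : IA.Gal.RelTWCobStatement := by
  intro 𝒪 _ _ _ _ _ p ρbar S Smin hyp T hT hdisj hsc
  exact ⟨IA.H183.relTWPrimesCobFlat 𝒪 p ρbar S Smin hyp T hT hdisj hsc,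
    IA.H183.relTWPrimesCobOrd 𝒪 p ρbar S Smin hyp T hT hdisj hsc⟩

section Adapter

variable {𝒪 : Type} [CommRing 𝒪] [IsDomain 𝒪] [IsDiscreteValuationRing 𝒪]
  [IsAdicComplete (maximalIdeal 𝒪) 𝒪]
  {ρbar : ResidualGaloisRep (ResidueField 𝒪)} {𝒟 : DefCond 𝒪}
  {DQ : GaloisRep.DeformationRingData 𝒪 ρbar 𝒟}

/-- Traceless coordinates of the matrix `F.rR τ` are traceless coordinates of the endomorphism
`DQ.ρ.ρ τ` in the basis `frameBasis F`. -/
theorem isTracelessCoords_frameBasis_h546 (F : UFrame DQ) (τ : _root_.Fermat.Agent.S56.GQ) (u : Fin 3 → DQ.R)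
    (h : IA.Gal.IsTraceless (F.rR τ) (u 0) (u 1) (u 2)) :
    IA.IsTracelessCoords (frameBasis F) (DQ.ρ.ρ τ) u := by
  unfold IA.IsTracelessCoords
  rw [toMatrix_frameBasis]
  exact h

end Adapter

/-- **Leaf GAL for `t = .flat` and `t = .sord`, every odd `p`, unconditionally.** -/
theorem iaGalT_h546 (t : PType) (ht : t = .flat ∨ t = .sord) : IAGalTStatement_h546 t := by
  intro p _ 𝒪 _ _ _ _ _ _ ρbar Smin hres Piv hPiv hroots
  obtain ⟨r, Pl, φ, σ, a, h3, htame, hn⟩ :=
    IA.Gal.iaGal_of relTWCob_T_h546 p 𝒪 ρbar Smin hres t ht Piv hPiv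
  refine ⟨r, h3, fun n => ?_⟩
  obtain ⟨qv, hTW, hDQ⟩ := hn n
  refine ⟨qv, hTW, fun DQ => ?_⟩
  obtain ⟨F, γ, hγ, hpiv⟩ := hDQ DQ
  have hv : ∀ q : Piv, IsTracelessCoords (frameBasis F) (DQ.ρ.ρ (σ q))
      (fun j => γ (vVar 𝒪 (r - 3 * Piv.card) q j)) := fun q =>
    isTracelessCoords_frameBasis_h546 F (σ q) _ (hpiv q).sig_traceless
  have hw : ∀ q : Piv, IsTracelessCoords (frameBasis F) (DQ.ρ.ρ (φ q))
      (fun j => γ (wVar 𝒪 (r - 3 * Piv.card) q j)) := fun q =>
    isTracelessCoords_frameBasis_h546 F (φ q) _ (hpiv q).phi_traceless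
  refine ⟨frameBasis F, fun q => Pl q, fun q => φ q, fun q => σ q, γ, hγ,
    fun q => ⟨(htame q q.2).1, (htame q q.2).2.1.frob, (htame q q.2).2.1.mem⟩, hv, hw, ?_, ?_⟩
  · exact (H419.det_clause_iaGal_h419 p 𝒪 ρbar Smin hres Piv hPiv t _ DQ (fun q => Pl q)
      (fun q => φ q) (fun q => σ q) (fun q => (htame q q.2).1)
      (fun q => (htame q q.2).2.1.frob) (fun q => (htame q q.2).2.1.mem)).1
  · exact H419.typeClause_iaGal_h419 p 𝒪 ρbar Smin hres Piv hPiv hroots t _ _ DQ (frameBasis F)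
      (fun q => Pl q) (fun q => φ q) (fun q => σ q) (fun q => (htame q q.2).1)
      (fun q => (htame q q.2).2.1) γ hv hw

/-- The strict-ordinary case. -/
theorem iaGalSord_h546 : IAGalTStatement_h546 .sord := iaGalT_h546 .sord (Or.inr rfl)

/-- The flat case. -/
theorem iaGalFlat_h546 : IAGalTStatement_h546 .flat := iaGalT_h546 .flat (Or.inl rfl)

/-- The trunk's frozen leaf is the flat case. -/
theorem iaGal_of_galT_h546 (h : IAGalTStatement_h546 .flat) : IA.IAGalStatement :=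
  fun p _ 𝒪 _ _ _ _ _ _ ρbar Smin hres _hflat Piv hPiv hroots =>
    h p 𝒪 ρbar Smin hres Piv hPiv hroots

end Fermat.Agent.S38.H546

end
-- ===== PACK-END S38/H546/GalT.lean

-- ===== PACK-BEGIN S59/LO/H405/PivotFinal.lean
section















/-!
# Row S59, cell LO, sub-row LO-IA (helper405): the W-TOP with the closed cells plugged in

`pivotW35_of_open : S39W35Statement → IACoreFlat35Statement → IACoreSord35Statement →
  LOW.PivotW35Statement`

(DICT `H401.dict`, GTW `H405.curveResidualHyp`, BC `H601.residualBC`, CR `H127.curveRepStatement`,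
RED `H686.residualOfAdic`, COND `H659.sigmaCondStatement`, ResUnram / ResFlat `H294`, FlatPeu
`H461.flatPeu`, (R3'-W) from the plain top of row S29 (`S29.S29_of_nodes` on the two nodes of row
S18; NO statement module is imported here): all on main).
-/

set_option autoImplicit false

namespace Fermat.Agent.S59.LO.H405

open Fermat.Agent.S59 Fermat.Agent.S59.Arch Fermat.Agent.S59.Arch.LOW

/-- **LO-IA from its open inputs**: S39 in W-form and the two IA-cores in `ρ̄`-form. -/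
theorem pivotW35_of_open (h39 : S39W35Statement) (hIAf : IACoreFlat35Statement)
    (hIAs : IACoreSord35Statement) : PivotW35Statement :=
  pivotW35_of Fermat.Agent.S59.H401.dict Fermat.Agent.S59.H405.curveResidualHyp
    Fermat.Agent.S59.H601.residualBC Fermat.Agent.S59.H127.curveRepStatement
    Fermat.Agent.S59.H686.residualOfAdic Fermat.Agent.S59.H659.sigmaCondStatement
    Fermat.Agent.S59.H294.resUnram Fermat.Agent.S59.H294.resFlat
    Fermat.Agent.S59.H461.flatPeu
    (Fermat.Agent.Ribet.H764.almostAllToWitnessW_of_S29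
      (fun hg _ hp _ _ _ φ =>
        Fermat.Agent.S29.S29_of_nodes
          (fun M _ _ _ hℓM A hA => Fermat.Agent.S18.Mod.H216.node_mod M hℓM A hA)
          (fun M => Fermat.Agent.S18.H438.node_alg M) hg hp φ))
    h39 hIAf hIAs

end Fermat.Agent.S59.LO.H405

end
-- ===== PACK-END S59/LO/H405/PivotFinal.lean

-- ===== PACK-BEGIN Ribet/H818/FrobALAll.lean
section





/-!
# WALL-q, leaf **FROB-AL (Q2) AT ALL LEVELS** (helper818) — S59 moonshot, cell (B1)/(A) interface

`H818.q2Good` / `H818.frob_eq_of_mem_splitPartQ` need the good-reduction input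
`S35.G.HasAux M' q = (q = 3 → 2 ∣ M') ∧ (q = 2 → 3 ∣ M')`.  Here this hypothesis is REMOVED:

    q2All : q prime, q ∤ M', m > 0, q ∤ m, A over q  ⟹  Q2For m q M' A (splitPartQ m q M' A)

(every prime `q`, `q = 2` included; every torsion order `m` prime to `q`, so every prime `p ≠ q`,
`p = 3` included; `p ∣ M'` allowed).

Proof = descent along `ι = α_r : F(qM') → F(q(M'r))` for the auxiliary prime `r` (`r = 2` if
`q = 3`, `r = 3` if `q = 2`): `ι` is the identity on `t`-expansions, so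
* the reductions of `ι f` on `C∞`, `C₀` are `r₁`, `r₂(t^r)` (`H223.M6a`), again `m`-th powers;
* `ι` commutes with the swap `w_q` and with the Galois action;
* `kummerSwapTo` at the level `q(M'r)` gives `ι (σ_φ (w_q f) · f ^ q) = y' ^ m`;
* `[F(q M' r) : F(q M')] = r + 1` is prime to `m`: norm + Bezout (`H924.eq_zpow_mul_pow_of_norm`)
  give `σ_φ (w_q f) · f ^ q = y ^ m` already at level `q M'`.
-/

set_option autoImplicit false
set_option linter.unusedSectionVars false
set_option linter.unusedVariables false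
set_option linter.style.haveILetI false
set_option synthInstance.maxHeartbeats 400000
set_option maxHeartbeats 4000000

noncomputable section

namespace Fermat.Agent.Ribet.H818

open AlgebraicCurve ModularCurve HahnSeries
open Fermat.Agent.S24 Fermat.Agent.A2.H528
open Fermat.Agent.Ribet Fermat.Agent.Ribet.Spec
open Fermat.Agent.Ribet.H884 Fermat.Agent.Ribet.H158.WallQ Fermat.Agent.Ribet.H801
open Fermat.Agent.S29.H801 (alphaTo betaTo coe_alphaTo coe_betaTo)

/-! ### The degeneracy map `α` at a renamed level -/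

section ToLemmas

variable {M ℓ N : ℕ} [NeZero M] [NeZero ℓ] [NeZero N]

/-- A ring homomorphism out of `F_N`, `N = M ℓ`, is determined on `α F_M` and `β F_M`. -/
theorem ringHom_ext_alphaTo_betaTo818 (h : M * ℓ = N) (hℓ : ℓ.Prime) {T : Type*}
    [DivisionRing T] (w w' : FF N →+* T)
    (hα : ∀ a : FF M, w (alphaTo Kbar M ℓ N h a) = w' (alphaTo Kbar M ℓ N h a))
    (hβ : ∀ a : FF M, w (betaTo Kbar M ℓ N h a) = w' (betaTo Kbar M ℓ N h a)) :
    ∀ x, w x = w' x := by
  subst h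
  exact ringHom_ext_alpha_beta_gen (L := Kbar) (M := M) (p := ℓ) hℓ w w' hα hβ

/-- `w_N ∘ α = β ∘ w_M`. -/
theorem wF_alphaTo818 (h : M * ℓ = N) (u : FF M) :
    wF N (alphaTo Kbar M ℓ N h u) = betaTo Kbar M ℓ N h (wF M u) := by
  subst h
  exact Fermat.Agent.A2.H612.wF_heckeAlphaBar _ _ u

/-- `α` commutes with the Galois action on the coefficients. -/
theorem arithmeticRingAut_alphaTo818 (h : M * ℓ = N) (σ : Kbar ≃ₐ[ℚ] Kbar) (x : FF M) :
    arithmeticRingAut (modularFunctionFieldFull N) σ (alphaTo Kbar M ℓ N h x) =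
      alphaTo Kbar M ℓ N h (arithmeticRingAut (modularFunctionFieldFull M) σ x) := by
  apply Subtype.ext
  rw [coe_arithmeticRingAut_apply, coe_alphaTo, coe_alphaTo, coe_arithmeticRingAut_apply]

/-- `[F_N : α F_M] = ℓ + 1`. -/
theorem finrankAlong_alphaTo818 (h : M * ℓ = N) (hℓ : ℓ.Prime) (hℓM : ¬ ℓ ∣ M) :
    finrankAlong Kbar (alphaTo Kbar M ℓ N h) = ℓ + 1 := by
  subst h
  exact Fermat.Agent.S37.H818.finrankAlong_heckeAlphaBar (L := Kbar) M ℓ hℓ hℓM

variable {A : ValuationSubring Kbar}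

/-- `red∞ (α f) = red∞ f`. -/
theorem isRedInf_alphaTo818 (h : M * ℓ = N) {f : FF M} {r : LaurentSeries (kA A)}
    (hr : IsRedInf M A f r) : IsRedInf N A (alphaTo Kbar M ℓ N h f) r :=
  Fermat.Agent.Ribet.H223.M6a.isRedInf_congr (coe_alphaTo Kbar h f) hr

/-- `red₀ (α f) = (red₀ f)(t^ℓ)`. -/
theorem isRedZero_alphaTo818 (h : M * ℓ = N) {f : FF M} {r : LaurentSeries (kA A)}
    (hr : IsRedZero M A f r) :
    IsRedZero N A (alphaTo Kbar M ℓ N h f) (qExpand (kA A) ℓ r) := by
  unfold IsRedZero at hr ⊢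
  rw [wF_alphaTo818 h]
  exact Fermat.Agent.Ribet.H223.M6a.isRedInf_qExpand (coe_betaTo Kbar h _) hr

end ToLemmas

/-! ### Constant reductions -/

section Const

variable {q : ℕ} {A : ValuationSubring Kbar}

/-- A function with an `m`-th power reduction on `C∞` is an `m`-th power times a function with a
CONSTANT reduction. -/
theorem exists_isRedInf_const818 (hq : q.Prime) (hA : A.LiesOverPrime q) (M' N m : ℕ) [NeZero N]
    (hMN : M' ∣ N) {f : FF N} {r : LaurentSeries (kA A)}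
    (hred : IsRedInf N A f r) (hr : PPowSeries m M' r) :
    ∃ (g : FF N) (c : kA A), g ≠ 0 ∧ c ≠ 0 ∧
      IsRedInf N A (f * (g ^ m)⁻¹) (HahnSeries.C c) := by
  obtain ⟨c, h, hc, hh, rfl⟩ := hr
  have hh' : (h : LaurentSeries (kA A)) ≠ 0 := fun h0 => hh (Subtype.ext h0)
  obtain ⟨g, hg0, hg⟩ := Fermat.Agent.Ribet.H573.exists_isRedInf_full hq.ne_zero hA M' N hMN
    (h : LaurentSeries (kA A)) h.2 hh'
  refine ⟨g, c, hg0, hc, ?_⟩
  have h2 := IsRedInf.mul hred (IsRedInf.inv (Fermat.Agent.Ribet.H573.isRedInf_pow hg m))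
  rwa [mul_assoc, mul_inv_cancel₀ (pow_ne_zero m hh'), mul_one] at h2

/-- a nonzero constant is an `m`-th power series (at any level). -/
theorem pPowSeries_C818 (m M'' : ℕ) {c : kA A} (hc : c ≠ 0) :
    PPowSeries m M'' (HahnSeries.C c : LaurentSeries (kA A)) :=
  ⟨c, 1, hc, one_ne_zero, by rw [OneMemClass.coe_one, one_pow, mul_one]⟩

end Const

/-! ### The descent -/

section Descent

variable {q M' : ℕ} [NeZero M'] [NeZero q] [NeZero (q * M')]

/-- The swap at level `q (M' r)` restricts to the swap at level `q M'`. -/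
theorem swapL_alphaTo_aux818 (r : ℕ) [NeZero r] [NeZero (M' * r)] [NeZero (q * (M' * r))]
    (hq : q.Prime) (hqM : ¬ q ∣ M') (hqMr : ¬ q ∣ M' * r) (f : FF (q * M')) :
    swapL q (M' * r) hq hqMr
        (alphaTo Kbar (q * M') r (q * (M' * r)) (Nat.mul_assoc q M' r) f) =
      alphaTo Kbar (q * M') r (q * (M' * r)) (Nat.mul_assoc q M' r) (swapL q M' hq hqM f) := by
  set ι : FF (q * M') →ₐ[Kbar] FF (q * (M' * r)) :=
    alphaTo Kbar (q * M') r (q * (M' * r)) (Nat.mul_assoc q M' r) with hι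
  refine ringHom_ext_alphaTo_betaTo818 (Nat.mul_comm M' q) hq
    (((swapL q (M' * r) hq hqMr : FF (q * (M' * r)) →ₐ[Kbar] FF (q * (M' * r))) :
      FF (q * (M' * r)) →+* FF (q * (M' * r))).comp (ι : FF (q * M') →+* FF (q * (M' * r))))
    ((ι : FF (q * M') →+* FF (q * (M' * r))).comp
      ((swapL q M' hq hqM : FF (q * M') →ₐ[Kbar] FF (q * M')) : FF (q * M') →+* FF (q * M')))
    ?_ ?_ f
  · intro a
    show swapL q (M' * r) hq hqMr (ι (alphaTo Kbar M' q (q * M') (Nat.mul_comm M' q) a)) =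
      ι (swapL q M' hq hqM (alphaTo Kbar M' q (q * M') (Nat.mul_comm M' q) a))
    have e1 : ι (alphaTo Kbar M' q (q * M') (Nat.mul_comm M' q) a) =
        alphaTo Kbar (M' * r) q (q * (M' * r)) (Nat.mul_comm (M' * r) q)
          (alphaTo Kbar M' r (M' * r) rfl a) := by
      apply Subtype.ext
      rw [hι, coe_alphaTo, coe_alphaTo, coe_alphaTo, coe_alphaTo]
    rw [e1, swapL_alphaTo, swapL_alphaTo]
    apply Subtype.ext
    rw [hι, coe_alphaTo, coe_betaTo, coe_betaTo, coe_alphaTo]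
  · intro a
    show swapL q (M' * r) hq hqMr (ι (betaTo Kbar M' q (q * M') (Nat.mul_comm M' q) a)) =
      ι (swapL q M' hq hqM (betaTo Kbar M' q (q * M') (Nat.mul_comm M' q) a))
    have e1 : ι (betaTo Kbar M' q (q * M') (Nat.mul_comm M' q) a) =
        betaTo Kbar (M' * r) q (q * (M' * r)) (Nat.mul_comm (M' * r) q)
          (alphaTo Kbar M' r (M' * r) rfl a) := by
      apply Subtype.ext
      rw [hι, coe_alphaTo, coe_betaTo, coe_betaTo, coe_alphaTo]
    rw [e1, swapL_betaTo, swapL_betaTo]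
    apply Subtype.ext
    rw [hι, coe_alphaTo, coe_alphaTo, coe_alphaTo, coe_alphaTo]

/-- **FROB-AL in Kummer form, by descent from the level `q (M' r)`**: `r` an auxiliary prime with
`HasAux (M' r) q` and `r + 1` prime to `m`. -/
theorem kummerSwap_desc818 (m r : ℕ) (hq : q.Prime) (hqM : ¬ q ∣ M') (hr : r.Prime)
    (hrq : r ≠ q) (hrM : ¬ r ∣ M') (haux : Fermat.Agent.S35.G.HasAux (M' * r) q)
    (hcop : Nat.Coprime (r + 1) m) (hm : 0 < m) (hqm : ¬ q ∣ m)
    (A : ValuationSubring Kbar) (hA : A.LiesOverPrime q) (φ : GQ) (hφ : A.IsFrobeniusAt φ q)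
    (f : FF (q * M')) (hf0 : f ≠ 0)
    (hdiv : ∀ v : Place Kbar (FF (q * M')), (m : ℤ) ∣ v.ord f)
    (hs : SplitGenQ m q M' A f) :
    ∃ y : FF (q * M'), y ≠ 0 ∧
      arithmeticRingAut (modularFunctionFieldFull (q * M')) φ (swapL q M' hq hqM f) * f ^ q =
        y ^ m := by
  haveI : NeZero r := ⟨hr.ne_zero⟩
  haveI : NeZero (M' * r) := ⟨mul_ne_zero (NeZero.ne M') hr.ne_zero⟩
  haveI : NeZero (q * (M' * r)) := ⟨mul_ne_zero (NeZero.ne q) (NeZero.ne (M' * r))⟩
  have hqr : ¬ q ∣ r := fun hd => hrq ((Nat.prime_dvd_prime_iff_eq hq hr).1 hd).symm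
  have hqMr : ¬ q ∣ M' * r := fun hd => (hq.dvd_mul.1 hd).elim hqM hqr
  have hrN : ¬ r ∣ q * M' := fun hd =>
    (hr.dvd_mul.1 hd).elim (fun h' => hrq ((Nat.prime_dvd_prime_iff_eq hr hq).1 h')) hrM
  obtain ⟨r₁, r₂, h1, h2, hp1, hp2⟩ := hs
  set ι : FF (q * M') →ₐ[Kbar] FF (q * (M' * r)) :=
    alphaTo Kbar (q * M') r (q * (M' * r)) (Nat.mul_assoc q M' r) with hι
  have hιinj : Function.Injective ι := ι.toRingHom.injective
  -- constant reductions at level `q M'`
  obtain ⟨g₁, c₁, hg₁, hc₁, hred₁⟩ :=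
    exists_isRedInf_const818 hq hA M' (q * M') m (dvd_mul_left M' q) h1 hp1
  obtain ⟨g₂', c₂, hg₂', hc₂, hred₂'⟩ :=
    exists_isRedInf_const818 hq hA M' (q * M') m (dvd_mul_left M' q)
      (f := wF (q * M') f) h2 hp2
  set g₂ : FF (q * M') := wF (q * M') g₂' with hg₂def
  have hg₂ : g₂ ≠ 0 := by rw [hg₂def]; simpa using hg₂'
  have hred₂ : IsRedZero (q * M') A (f * (g₂ ^ m)⁻¹) (HahnSeries.C c₂) := by
    unfold IsRedZero
    rw [map_mul, map_inv₀, map_pow, hg₂def, wF_wF]
    exact hred₂'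
  -- transfer to the level `q (M' r)`
  have hT₁ : IsRedInf (q * (M' * r)) A (ι (f * (g₁ ^ m)⁻¹)) (HahnSeries.C c₁) :=
    isRedInf_alphaTo818 (Nat.mul_assoc q M' r) hred₁
  have hT₂ : IsRedZero (q * (M' * r)) A (ι (f * (g₂ ^ m)⁻¹)) (HahnSeries.C c₂) := by
    have := isRedZero_alphaTo818 (Nat.mul_assoc q M' r) hred₂
    rwa [ModularCurve.qExpand_C] at this
  obtain ⟨a, ha, hva⟩ := exists_root_inf818 hq hA (M' * r) (q * (M' * r)) m
    (dvd_mul_left (M' * r) q) hm hT₁ (pPowSeries_C818 m (M' * r) hc₁)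
  obtain ⟨b, hb, hvb⟩ := exists_root_zero818 hq hA (M' * r) (q * (M' * r)) m
    (dvd_mul_left (M' * r) q) hm hT₂ (pPowSeries_C818 m (M' * r) hc₂)
  have hιg₁ : ι g₁ ≠ 0 := (map_ne_zero_iff _ hιinj).2 hg₁
  have hιg₂ : ι g₂ ≠ 0 := (map_ne_zero_iff _ hιinj).2 hg₂
  have hιf : ι f ≠ 0 := (map_ne_zero_iff _ hιinj).2 hf0
  have ea : ι f * ((ι g₁ * a) ^ m)⁻¹ = ι (f * (g₁ ^ m)⁻¹) * (a ^ m)⁻¹ := by
    rw [map_mul, map_inv₀, map_pow, mul_pow, mul_inv]
    ring
  have eb : ι f * ((ι g₂ * b) ^ m)⁻¹ = ι (f * (g₂ ^ m)⁻¹) * (b ^ m)⁻¹ := by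
    rw [map_mul, map_inv₀, map_pow, mul_pow, mul_inv]
    ring
  -- the algebra structure along `ι`
  letI alg : Algebra (FF (q * M')) (FF (q * (M' * r))) := algebraAlong ι
  haveI : IsScalarTower Kbar (FF (q * M')) (FF (q * (M' * r))) := isScalarTower_along ι
  have hfr : Module.finrank (FF (q * M')) (FF (q * (M' * r))) = r + 1 :=
    finrankAlong_alphaTo818 (Nat.mul_assoc q M' r) hr hrN
  haveI : FiniteDimensional (FF (q * M')) (FF (q * (M' * r))) :=
    Module.finite_of_finrank_pos (by rw [hfr]; omega)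
  haveI : Algebra.IsIntegral (FF (q * M')) (FF (q * (M' * r))) := Algebra.IsIntegral.of_finite _ _
  -- divisibility of the orders of `ι f`
  have hdiv' : ∀ v : Place Kbar (FF (q * (M' * r))), (m : ℤ) ∣ v.ord (ι f) := by
    intro v
    have h1 : v.ord (ι f) =
        Place.ramificationIndex (F := FF (q * M')) v * (v.restrict (FF (q * M'))).ord f :=
      v.ord_restrict (F := FF (q * M')) f
    rw [h1]
    exact Dvd.dvd.mul_left (hdiv _) _
  -- the Kummer statement at the level `q (M' r)`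
  obtain ⟨y', hy', hrel'⟩ := kummerSwapTo (M' * r) q (q * (M' * r)) m
    (Nat.mul_comm (M' * r) q) hq hqMr haux hm hqm A hA φ hφ
    ((swapL q (M' * r) hq hqMr : FF (q * (M' * r)) →ₐ[Kbar] FF (q * (M' * r))) :
      FF (q * (M' * r)) →+* FF (q * (M' * r)))
    (fun a => swapL_alphaTo hq hqMr a) (fun a => swapL_betaTo hq hqMr a) (ι f) hιf hdiv'
    (ι g₁ * a) (ι g₂ * b) (mul_ne_zero hιg₁ ha) (mul_ne_zero hιg₂ hb)
    (by rw [ea]; exact hva) (by rw [eb]; exact hvb)
  -- back to the level `q M'`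
  set z : FF (q * M') :=
    arithmeticRingAut (modularFunctionFieldFull (q * M')) φ (swapL q M' hq hqM f) * f ^ q
    with hz
  have hz0 : z ≠ 0 :=
    mul_ne_zero ((map_ne_zero _).2 (swapL_ne_zero hq hqM hf0)) (pow_ne_zero _ hf0)
  have hιz : ι z = y' ^ m := by
    rw [hz, map_mul, map_pow, ← arithmeticRingAut_alphaTo818 (Nat.mul_assoc q M' r) φ,
      ← swapL_alphaTo_aux818 r hq hqM hqMr f]
    exact hrel'
  obtain ⟨s, t, hst⟩ : ∃ s t : ℤ, ((r + 1 : ℕ) : ℤ) * s + (m : ℤ) * t = 1 := by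
    refine ⟨Nat.gcdA (r + 1) m, Nat.gcdB (r + 1) m, ?_⟩
    have := Nat.gcd_eq_gcd_ab (r + 1) m
    rw [hcop] at this
    rw [← this]
    simp
  have e1 : algebraMap (FF (q * M')) (FF (q * (M' * r))) z =
      algebraMap (FF (q * M')) (FF (q * (M' * r))) 1 * y' ^ m := by
    rw [map_one, one_mul]
    exact hιz
  have key := Fermat.Agent.Ribet.H924.eq_zpow_mul_pow_of_norm m hz0 e1 s t
    (by rw [hfr]; exact hst)
  rw [one_pow, one_zpow, one_mul] at key
  refine ⟨Algebra.norm (FF (q * M')) y' ^ s * z ^ t, ?_, key⟩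
  intro h0
  rw [h0, zero_pow hm.ne'] at key
  exact hz0 key

end Descent

/-! ### FROB-AL at all levels -/

section Main

variable {q M' : ℕ} [NeZero M'] [NeZero q] [NeZero (q * M')]

/-- **FROB-AL on a generator, by descent.** -/
theorem frob_wL_add_of_splitGen_desc818 (m r : ℕ) (hq : q.Prime) (hqM : ¬ q ∣ M')
    (hr : r.Prime) (hrq : r ≠ q) (hrM : ¬ r ∣ M') (haux : Fermat.Agent.S35.G.HasAux (M' * r) q)
    (hcop : Nat.Coprime (r + 1) m) (hm : 0 < m) (hqm : ¬ q ∣ m)
    (A : ValuationSubring Kbar) (hA : A.LiesOverPrime q) (φ : GQ) (hφ : A.IsFrobeniusAt φ q)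
    (x : JZero (q * M')) (f : FF (q * M')) (hf : IsKummerGen (q * M') m f x)
    (hs : SplitGenQ m q M' A f) :
    φ • wL q M' hq hqM x + q • x = 0 := by
  obtain ⟨hf0, D, rfl, hD⟩ := hf
  have hdiv : ∀ v : Place Kbar (FF (q * M')), (m : ℤ) ∣ v.ord f := fun v => by
    rw [hD v]
    exact Dvd.intro _ rfl
  obtain ⟨y, hy, hrel⟩ := kummerSwap_desc818 m r hq hqM hr hrq hrM haux hcop hm hqm A hA φ hφ
    f hf0 hdiv hs
  obtain ⟨D', hD', hD'ord⟩ := wL_mk_of_kummer hq hqM (m := (m : ℤ)) D hf0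
    (fun w => (hD w).symm)
  rw [hD']
  exact smul_add_nsmul_eq_zero_of_kummer818
    (arithmeticGalois (modularFunctionFieldFull (q * M')) φ) m q hm.ne' D D' f
    (swapL q M' hq hqM f) hf0 (swapL_ne_zero hq hqM hf0) hD (fun v => (hD'ord v).symm) y hy hrel

/-- **FROB-AL on a generator, ALL levels** (no `HasAux`). -/
theorem frob_wL_add_of_splitGen_all818 (m : ℕ) (hq : q.Prime) (hqM : ¬ q ∣ M')
    (hm : 0 < m) (hqm : ¬ q ∣ m)
    (A : ValuationSubring Kbar) (hA : A.LiesOverPrime q) (φ : GQ) (hφ : A.IsFrobeniusAt φ q)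
    (x : JZero (q * M')) (f : FF (q * M')) (hf : IsKummerGen (q * M') m f x)
    (hs : SplitGenQ m q M' A f) :
    φ • wL q M' hq hqM x + q • x = 0 := by
  by_cases haux : Fermat.Agent.S35.G.HasAux M' q
  · exact frob_wL_add_of_splitGen m hq hqM haux hm hqm A hA φ hφ x f hf hs
  · -- `q = 3`, `M'` odd  or  `q = 2`, `3 ∤ M'`
    have hcases : (q = 3 ∧ ¬ 2 ∣ M') ∨ (q = 2 ∧ ¬ 3 ∣ M') := by
      by_contra hcon
      push Not at hcon
      exact haux ⟨fun h3 => hcon.1 h3, fun h2 => hcon.2 h2⟩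
    rcases hcases with ⟨h3, h2M⟩ | ⟨h2, h3M⟩
    · -- `r = 2`
      subst h3
      refine frob_wL_add_of_splitGen_desc818 m 2 hq hqM Nat.prime_two (by decide) h2M
        ⟨fun _ => Dvd.intro_left M' rfl, fun h => absurd h (by decide)⟩ ?_ hm hqm A hA φ hφ x f
        hf hs
      show Nat.Coprime 3 m
      exact (Nat.Prime.coprime_iff_not_dvd Nat.prime_three).2 hqm
    · -- `r = 3`
      subst h2
      refine frob_wL_add_of_splitGen_desc818 m 3 hq hqM Nat.prime_three (by decide) h3M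
        ⟨fun h => absurd h (by decide), fun _ => Dvd.intro_left M' rfl⟩ ?_ hm hqm A hA φ hφ x f
        hf hs
      show Nat.Coprime 4 m
      have h2m : Nat.Coprime 2 m := (Nat.Prime.coprime_iff_not_dvd Nat.prime_two).2 hqm
      have : Nat.Coprime (2 ^ 2) m := Nat.Coprime.pow_left 2 h2m
      simpa using this

/-- **FROB-AL on the split part, ALL levels**: `φ • w_q x + q • x = 0` for `x ∈ splitPartQ`. -/
theorem frob_wL_add_of_mem_splitPartQ_all818 (m : ℕ) (hq : q.Prime) (hqM : ¬ q ∣ M')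
    (hm : 0 < m) (hqm : ¬ q ∣ m)
    (A : ValuationSubring Kbar) (hA : A.LiesOverPrime q) (φ : GQ) (hφ : A.IsFrobeniusAt φ q)
    (x : JZero (q * M')) (hx : x ∈ splitPartQ m q M' A) :
    φ • wL q M' hq hqM x + q • x = 0 := by
  refine AddSubgroup.closure_induction
    (p := fun x _ => φ • wL q M' hq hqM x + q • x = 0) ?_ ?_ ?_ ?_ hx
  · rintro x ⟨f, hf, hs⟩
    exact frob_wL_add_of_splitGen_all818 m hq hqM hm hqm A hA φ hφ x f hf hs
  · rw [map_zero, smul_zero (A := JZero (q * M')) φ, nsmul_zero, add_zero]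
  · intro x y _ _ hx hy
    rw [map_add, smul_add, nsmul_add, add_add_add_comm, hx, hy, add_zero]
  · intro x _ hx
    rw [map_neg, smul_neg, neg_nsmul, ← neg_add, hx, neg_zero]

/-- **FROB-AL, ALL levels**: `φ • x = q • (- w_q x)` for `x ∈ splitPartQ`. -/
theorem frob_eq_of_mem_splitPartQ_all818 (m : ℕ) (hq : q.Prime) (hqM : ¬ q ∣ M')
    (hm : 0 < m) (hqm : ¬ q ∣ m)
    (A : ValuationSubring Kbar) (hA : A.LiesOverPrime q) (φ : GQ) (hφ : A.IsFrobeniusAt φ q)
    (x : JZero (q * M')) (hx : x ∈ splitPartQ m q M' A) :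
    φ • x = q • (-(wL q M' hq hqM x)) := by
  have h := frob_wL_add_of_mem_splitPartQ_all818 m hq hqM hm hqm A hA φ hφ x hx
  have h' := congrArg (wL q M' hq hqM) h
  rw [map_add, wL_smul, wL_wL, map_nsmul, map_zero] at h'
  rw [neg_nsmul]
  exact eq_neg_of_add_eq_zero_left h'

end Main

/-- **(Q2) FROB-AL AT ALL LEVELS**: every prime `q` (`q = 2` included), every level `M'` prime to
`q` (no auxiliary prime), every torsion order `m > 0` prime to `q`. -/
def Q2AllStatement : Prop :=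
  ∀ (m q M' : ℕ) [NeZero M'] [NeZero q] [NeZero (q * M')], q.Prime → ¬ q ∣ M' → 0 < m →
    ¬ q ∣ m → ∀ A : ValuationSubring Kbar, A.LiesOverPrime q →
      Q2For m q M' A (splitPartQ m q M' A)

/-- **Leaf FROB-AL (Q2) at ALL levels** — UNCONDITIONAL. -/
theorem q2All : Q2AllStatement := by
  intro m q M' _ _ _ hq hqM hm0 hqm A hA
  refine ⟨-((wL q M' hq hqM : JZero (q * M') ≃+ JZero (q * M')) :
      JZero (q * M') →+ JZero (q * M')), ?_, ?_, ?_⟩
  · intro σ x
    show -(wL q M' hq hqM (σ • x)) = σ • (-(wL q M' hq hqM x))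
    rw [wL_smul, smul_neg]
  · intro x _ _
    show -(wL q M' hq hqM (-(wL q M' hq hqM x))) = x
    rw [map_neg, neg_neg, wL_wL]
  · intro φ hφ x hx _
    exact frob_eq_of_mem_splitPartQ_all818 m hq hqM hm0 hqm A hA φ hφ x hx

/-- `q2All` in the shape of the W-form targets: primes `p ≠ q`, torsion order `p ^ n`. -/
theorem q2All_prime_pow (p n q M' : ℕ) [NeZero M'] [NeZero q] [NeZero (q * M')]
    (hp : p.Prime) (hq : q.Prime) (hqp : q ≠ p) (hqM : ¬ q ∣ M')
    (A : ValuationSubring Kbar) (hA : A.LiesOverPrime q) :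
    Q2For (p ^ n) q M' A (splitPartQ (p ^ n) q M' A) :=
  q2All (p ^ n) q M' hq hqM (pow_pos hp.pos n)
    (fun hd => hqp ((Nat.prime_dvd_prime_iff_eq hq hp).1 (hq.dvd_of_dvd_pow hd))) A hA

end Fermat.Agent.Ribet.H818

end

end
-- ===== PACK-END Ribet/H818/FrobALAll.lean

-- ===== PACK-BEGIN S59/LoSqC/H876/Plug.lean
section




/-!
# S59 moonshot, cell (C) LO-SQ: the skeleton with W-DESC and (UNR) plugged (helper876)

`newOld_of_levelWall_slope876 : LevelWallStatement → SlopeJStatement → NewOldStatement`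
(`Skel.newOld_of_leaves` with `descW` and `S36.Eng.H189.unramified_inertiaField`), and
`newOld_of_open876 : NewUnitsStatement → LeafCtx → LeafRealize → SlopeJStatement → NewOldStatement`
(with `Skel.levelWall_of_leaves`), and
`coreSqNeat_of_open876 : NewUnitsStatement → LeafCtx → LeafRealize → SlopeJStatement →
CoreSqNeatStatement` (with `coreSqNeat_of_newOld876`).
-/

set_option autoImplicit false
set_option linter.style.haveILetI false

namespace Fermat.Agent.S59.LoSqC.H876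

open Fermat.Agent.S59.LoSqC

/-- (UNR): the inertia field is an unramified good level. -/
theorem unr876 : ∀ q : ℕ, q.Prime → ∀ P : ValuationSubring Fermat.Agent.A2.Qb,
    P.LiesOverPrime q → Fermat.Agent.S36.Eng.Unramified P (inertiaFldC P) q :=
  fun q hq P hP => Fermat.Agent.S36.Eng.H189.unramified_inertiaField q hq P hP

/-- NEW-OLD from the level wall and the slope leaf. -/
theorem newOld_of_levelWall_slope876 (hLW : LevelWallStatement) (hSl : SlopeJStatement) :
    NewOldStatement :=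
  newOld_of_leaves unr876 descW hLW hSl

/-- NEW-OLD from the four open leaves of the frozen Spec. -/
theorem newOld_of_open876 (hNU : NewUnitsStatement) (hCtx : LeafCtx) (hRe : LeafRealize)
    (hSl : SlopeJStatement) : NewOldStatement :=
  newOld_of_levelWall_slope876 (levelWall_of_leaves hNU hCtx hRe) hSl

/-- CORE-SQ at neat levels from the four open leaves of the frozen Spec. -/
theorem coreSqNeat_of_open876 (hNU : NewUnitsStatement) (hCtx : LeafCtx) (hRe : LeafRealize)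
    (hSl : SlopeJStatement) : CoreSqNeatStatement :=
  coreSqNeat_of_newOld876 (newOld_of_open876 hNU hCtx hRe hSl)

end Fermat.Agent.S59.LoSqC.H876

end
-- ===== PACK-END S59/LoSqC/H876/Plug.lean

-- ===== PACK-BEGIN S59/LoSqC/H125/CtxCore.lean
section


/-!
# S59 moonshot, cell (C) LO-SQ, leaf CTX — core (helper125)

`leafCtxCore125`: EVERY system of objects `Mod3.Objs` (not only the one produced by `LeafObj`)
carries the three-component context `Eng.TripleCtx`.  Pure assembly of the MOD3 leaves on main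
(all of them are stated for all `Mod3.Objs`): replay of `Mod3.model3_of_leaves` without `LeafObj`.

Imports main only.  The statement is the body of `S59.LoSqC.LeafCtx` verbatim.
-/

set_option autoImplicit false
set_option maxHeartbeats 1600000
set_option synthInstance.maxHeartbeats 400000

noncomputable section

namespace Fermat.Agent.S59.LoSqC.H125

open Fermat.Agent.S36 Fermat.Agent.S36.Eng Fermat.Agent.S36.Mod3

/-- **REG** for all objects (unconditional): `q = 2` helper890, `q` odd helper928 + the cusp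
congruence of helper96. -/
theorem leafReg125 : Mod3.LeafReg :=
  have hVT : LeafVT := Mod3.H370.leafVT
  have hTab : LeafTable := Mod3.H370.leafTable
  have hVal : LeafVal := Mod3.H370.leafVal
  have hSh : LeafSheet := Mod3.H985.leafSheet
  have hQep : LeafQep := Mod3.H27.leafQep_of_vt hVT
  have hNR : LeafNR := Mod3.H657.leafNR_of hVal hTab
  have hCh : LeafChart := Mod3.H189.leafChart_of hVT hTab hVal
  have hInc : LeafInc := Mod3.H153.leafInc hTab hCh hQep hVal hSh hNR
  Mod3.H928.leafReg_of_regIOdd (fun P E M q _ _ _ w hStd V₁' V₂' V₁ V₂ V₃ W' W hO _ =>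
    Mod3.H276.leafRegI_of hVal hSh hQep hInc hVT Mod3.H96.leafCuspCong96 P E M q w hStd
      V₁' V₂' V₁ V₂ V₃ W' W hO)

/-- **CTX (core)**: the three-component context at every system of objects. -/
theorem leafCtxCore125 :
    Mod3.Leaf fun P E M q _ _ _ w V₁' V₂' V₁ V₂ V₃ =>
      TripleCtx (R := A2.RE P E) (E := E) w q (A2.Mod.αE E (M * q) q) (A2.Mod.βE E (M * q) q)
        (Mod3.x3E E M q) (A2.Mod.xE E M q) V₁ V₂ V₃ V₁' V₂' :=
  have hVal : LeafVal := Mod3.H370.leafVal
  have hVT : LeafVT := Mod3.H370.leafVT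
  have hTab : LeafTable := Mod3.H370.leafTable
  have hSh : LeafSheet := Mod3.H985.leafSheet
  have hQep : LeafQep := Mod3.H27.leafQep_of_vt hVT
  have hNor : LeafNormal := Mod3.H756.leafNormal_of hVT hVal hSh hTab
  have hNV : LeafNV := Mod3.H657.leafNV_of hVal hTab
  have hNR : LeafNR := Mod3.H657.leafNR_of hVal hTab
  have hCh : LeafChart := Mod3.H189.leafChart_of hVT hTab hVal
  have hInc : LeafInc := Mod3.H153.leafInc hTab hCh hQep hVal hSh hNR
  have hUn : LeafUniq := Mod3.H153.leafUniq hTab hCh hQep hVal hSh hNR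
  fun P E M q _ _ _ w hS V₁' V₂' V₁ V₂ V₃ W' W hO =>
    tripleCtx_of_parts (Mod3.H439.leafFF E M q hS.q_prime hS.q_not_dvd)
      (hVal P E M q w hS V₁' V₂' V₁ V₂ V₃ W' W hO)
      (hSh P E M q w hS V₁' V₂' V₁ V₂ V₃ W' W hO)
      (hQep P E M q w hS V₁' V₂' V₁ V₂ V₃ W' W hO)
      (hNor P E M q w hS V₁' V₂' V₁ V₂ V₃ W' W hO)
      (hInc P E M q w hS V₁' V₂' V₁ V₂ V₃ W' W hO)
      (leafReg125 P E M q w hS V₁' V₂' V₁ V₂ V₃ W' W hO)
      (Mod3.H439.leafFin E M q hS.q_prime hS.q_not_dvd)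
      (hTab P E M q w hS V₁' V₂' V₁ V₂ V₃ W' W hO)
      (hNV P E M q w hS V₁' V₂' V₁ V₂ V₃ W' W hO)
      (hNR P E M q w hS V₁' V₂' V₁ V₂ V₃ W' W hO)
      (hCh P E M q w hS V₁' V₂' V₁ V₂ V₃ W' W hO)
      (hUn P E M q w hS V₁' V₂' V₁ V₂ V₃ W' W hO)

end Fermat.Agent.S59.LoSqC.H125

end

end
-- ===== PACK-END S59/LoSqC/H125/CtxCore.lean

-- ===== PACK-BEGIN S59/LoSqC/H125/Ctx.lean
section



/-!
# S59 moonshot, cell (C) LO-SQ, leaf CTX (helper125)

`leafCtx125 : S59.LoSqC.LeafCtx` VERBATIM (frozen interface of helper885,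
`Fermat/Agent/S59/LoSqC/Spec.lean`), UNCONDITIONAL.
-/

set_option autoImplicit false

namespace Fermat.Agent.S59.LoSqC.H125

/-- **CTX (leaf)**, unconditional. -/
theorem leafCtx125 : Fermat.Agent.S59.LoSqC.LeafCtx := leafCtxCore125

end Fermat.Agent.S59.LoSqC.H125

end
-- ===== PACK-END S59/LoSqC/H125/Ctx.lean

-- ===== PACK-BEGIN S59/LoSqC/H608/Frontier.lean
section










/-!
# S59 moonshot, cell (C) LO-SQ: the LIVE FRONTIER of the cell (integration box helper608)

OFF-MAIN.  One theorem, always green on the integration tree `origin/helper608`: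

    sqFree35_of_realize608 :
      (row inputs BLR-W, R3'-W and the easy half (5, 2), kept as hypotheses: statement tops) →
      <the frozen leaves of `LoSqC/Spec.lean` (helper885 @bf319b02f) which are still OPEN> →
      H826.SqFree35Statement                       -- the (C) target accepted by helper239

Everything delivered VERBATIM against the frozen Spec is plugged:

| frozen Prop          | plugged theorem                      | spare                      |
|----------------------|--------------------------------------|----------------------------|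
| `NewUnitsStatement`  | `H117.h117_newUnits`                 | `H987.newUnits`            |
| `LeafCtx`            | `H125.leafCtx125`                    |                            |
| `SlopeJStatement`    | `H305.slopeJ305`                     |                            |
| `DescWStatement`     | `H876.descW`                         |                            |
| TOP-CORE             | `H876.coreSqNeat_of_newOld876`       |                            |
| (UNR)                | `H876.unr876`                        |                            |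
| W-form glue          | `Skel.loSqNeat_of_coreSqNeat` (885)  |                            |
| places, FIX-W, NE-W  | `H584.places`, `H885.fixW/nonEisW`   |                            |
| R3S                  | `H404.eigenformOfOccursAway`         |                            |
| `(3, 2)`             | `H826.loSq32` (via `SqFree35Plug`)   |                            |

OPEN after this file: `LeafRealize` (the mountain) only; sharper: `H433.LeafRealizeHard`
(`5 ≤ q`, `p ∣ q² - 1`; helper433 `levelWall_of_leaves_hard`), see `sqFree35_of_realizeHard608`.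

Glue written here: `loSqNeat826_of_loSqNeat608 : LoSqC.LoSqNeatStatement → H826.LoSqNeatStatement`
(arithmetic: `47 % 12 = 11`, `r ≠ q`, `r ∣ M / q`, `4 ∣ M / q`, `¬ q ^ 3 ∣ M`).
-/

set_option autoImplicit false
set_option linter.style.haveILetI false
set_option linter.unusedSectionVars false
set_option synthInstance.maxHeartbeats 400000
set_option maxHeartbeats 1600000

noncomputable section

namespace Fermat.Agent.S59.LoSqC.H608

open ModularCurve AlgebraicCurve
open Fermat.Agent.S36 Fermat.Agent.S36.Eng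
open Fermat.Agent.Ribet Fermat.Agent.Ribet.Spec Fermat.Agent.Ribet.H944.Wall
open Fermat.Agent.S59.LoSqC

/-! ## Arithmetic -/

theorem coprime_four608 {q : ℕ} (hq : q.Prime) (hq2 : q ≠ 2) : Nat.Coprime 4 q := by
  have h2 : Nat.Coprime 2 q := (Nat.coprime_primes Nat.prime_two hq).2 (Ne.symm hq2)
  have h4 : Nat.Coprime (2 ^ 2) q := Nat.Coprime.pow_left 2 h2
  simpa using h4

theorem dvd_of_dvd_mul_prime608 {r M q : ℕ} (hr : r.Prime) (hq : q.Prime) (hrq : r ≠ q)
    (h : r ∣ M * q) : r ∣ M := by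
  rcases (Nat.Prime.dvd_mul hr).1 h with h | h
  · exact h
  · exact absurd ((Nat.prime_dvd_prime_iff_eq hr hq).1 h) hrq

/-! ## The consumer shape of helper826 -/

/-- `LoSqC.LoSqNeatStatement` (helper885) gives `H826.LoSqNeatStatement` (the input of
`H826.sqFree35_of_neat`). -/
theorem loSqNeat826_of_loSqNeat608 (h : LoSqNeatStatement) :
    Fermat.Agent.S59.H826.LoSqNeatStatement := by
  intro p _ hp35 W hΔ hW hirr M q r hM hpM hM3 hq hqp hq2 hqM h4 h8 hr hr60 hrM hr2 hrgood hres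
  have hqdvd : q ∣ M := dvd_trans (dvd_pow_self q two_ne_zero) hqM
  have hMq : M / q * q = M := Nat.div_mul_cancel hqdvd
  have hrq : r ≠ q := fun e => hr2 (by rw [e]; exact hqM)
  have hr12 : r % 12 = 11 := by omega
  refine h p hp35 W hΔ hW hirr M q hM hq hqp hq2 hqM (hM3 q hq hqp) ⟨⟨r, hr, hr12, hrq, ?_⟩, ?_⟩
    hres
  · exact dvd_of_dvd_mul_prime608 hr hq hrq (by rw [hMq]; exact hrM)
  · exact (coprime_four608 hq hq2).dvd_of_dvd_mul_right (by rw [hMq]; exact h4)

/-! ## The frontier -/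

/-- **Cell (C), J-form**: CORE-SQ at neat levels from the level wall (E-form); W-SLOPE, W-DESC,
(UNR), TOP-CORE plugged. -/
theorem coreSqNeat_of_levelWall608 (hLW : LevelWallStatement) : CoreSqNeatStatement :=
  Fermat.Agent.S59.LoSqC.H876.coreSqNeat_of_newOld876
    (Fermat.Agent.S59.LoSqC.H876.newOld_of_levelWall_slope876 hLW
      Fermat.Agent.S59.LoSqC.H305.slopeJ305)

/-- **Cell (C), W-form at neat levels** from CORE-SQ at neat levels.  Row inputs kept as
hypotheses (their closures contain statement tops; plugged in `FrontierAll.lean`): BLR-W,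
R3'-W. -/
theorem loSqNeat_of_coreSqNeat608 (hE : EmbedWStatement) (hR3' : AlmostAllToWitnessWStatement)
    (hCore : CoreSqNeatStatement) : LoSqNeatStatement :=
  loSqNeat_of_coreSqNeat hE Fermat.Agent.Ribet.H584.places Fermat.Agent.S59.H885.fixW
    Fermat.Agent.S59.H885.nonEisW Fermat.Agent.Ribet.H404.eigenformOfOccursAway hR3' hCore

/-- **Cell (C), target from CORE-SQ at neat levels**; `(3, 2)` is plugged (`H826.loSq32`). -/
theorem sqFree35_of_coreSqNeat608 (hE : EmbedWStatement) (hR3' : AlmostAllToWitnessWStatement)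
    (h52 : Fermat.Agent.S59.H826.LoSq52Statement) (hCore : CoreSqNeatStatement) :
    Fermat.Agent.S59.H826.SqFree35Statement :=
  Fermat.Agent.S59.H826.sqFree35_of_neat_plugged
    (loSqNeat826_of_loSqNeat608 (loSqNeat_of_coreSqNeat608 hE hR3' hCore)) h52

/-- **Cell (C), target from the level wall** (E-form). -/
theorem sqFree35_of_levelWall608 (hE : EmbedWStatement) (hR3' : AlmostAllToWitnessWStatement)
    (h52 : Fermat.Agent.S59.H826.LoSq52Statement) (hLW : LevelWallStatement) :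
    Fermat.Agent.S59.H826.SqFree35Statement :=
  sqFree35_of_coreSqNeat608 hE hR3' h52 (coreSqNeat_of_levelWall608 hLW)

/-- **Cell (C), J-form frontier**: CORE-SQ at neat levels from the ONE open leaf. -/
theorem coreSqNeat_of_realize608 (hRe : LeafRealize) : CoreSqNeatStatement :=
  coreSqNeat_of_levelWall608
    (levelWall_of_leaves Fermat.Agent.S59.LoSqC.H117.h117_newUnits
      Fermat.Agent.S59.LoSqC.H125.leafCtx125 hRe)

/-- **Cell (C), W-form frontier at neat levels** (`LoSqC.LoSqNeatStatement`). -/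
theorem loSqNeat_of_realize608 (hE : EmbedWStatement) (hR3' : AlmostAllToWitnessWStatement)
    (hRe : LeafRealize) : LoSqNeatStatement :=
  loSqNeat_of_coreSqNeat608 hE hR3' (coreSqNeat_of_realize608 hRe)

/-- **Cell (C), THE FRONTIER**: the target `H826.SqFree35Statement` of the cell from the open
leaf. -/
theorem sqFree35_of_realize608 (hE : EmbedWStatement) (hR3' : AlmostAllToWitnessWStatement)
    (h52 : Fermat.Agent.S59.H826.LoSq52Statement) (hRe : LeafRealize) :
    Fermat.Agent.S59.H826.SqFree35Statement :=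
  sqFree35_of_coreSqNeat608 hE hR3' h52 (coreSqNeat_of_realize608 hRe)

/-- **Cell (C), THE FRONTIER, sharp form**: only the HARD case of REALIZE (`5 ≤ q`,
`p ∣ q² - 1`; helper433) is needed. -/
theorem sqFree35_of_realizeHard608 (hE : EmbedWStatement) (hR3' : AlmostAllToWitnessWStatement)
    (h52 : Fermat.Agent.S59.H826.LoSq52Statement)
    (hRe : Fermat.Agent.S59.LoSqC.H433.LeafRealizeHard) :
    Fermat.Agent.S59.H826.SqFree35Statement :=
  sqFree35_of_levelWall608 hE hR3' h52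
    (Fermat.Agent.S59.LoSqC.H433.levelWall_of_leaves_hard
      Fermat.Agent.S59.LoSqC.H117.h117_newUnits Fermat.Agent.S59.LoSqC.H125.leafCtx125 hRe)

end Fermat.Agent.S59.LoSqC.H608

end

end
-- ===== PACK-END S59/LoSqC/H608/Frontier.lean

-- ===== PACK-BEGIN S59/LoSqC/H865/Model3Objs.lean
section


/-!
# S59 / cell (C) LO-SQ — glue leaf MODEL3-OBJ (helper865)

`Eng.Model3Statement` (S36, on main) quantifies the three valuation rings EXISTENTIALLY.  The
leaves of the cell (C) that live on `t`-expansions (W-SLOPE: Gauss valuations at `∞` and `0`;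
W-PULL: the comap table) need the CONCRETE objects:  `V₁ = V∞`, `V₃ = V∞ ∘ W` (`W` = Fricke),
`V₁' = V∞`, `V₂' = V∞ ∘ W'` at level `M q`.  This file exposes them:

* `leafReg865 : Mod3.LeafReg`  (REG, unconditional: the chain of `Mod3.model3`);
* `tripleCtx_of_objs` : for ALL objects `V₁' V₂' V₁ V₂ V₃ W' W` with `Mod3.Objs`, the concrete
  coordinates `x3E = j j_q j_{q²}`, `xE = j j_q` and the degeneracy maps `αE`, `βE` form an
  `Eng.TripleCtx`;
* `exists_objs_tripleCtx` : the objects exist (`Mod3.H370.leafObj`), together with the context.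

No new mathematics: re-assembly of the leaves of `Mod3/Spec.lean` proved on main.
-/

set_option autoImplicit false

noncomputable section

namespace Fermat.Agent.S59.LoSqC.H865

open Fermat.Agent.S36 Fermat.Agent.S36.Eng Fermat.Agent.S36.Mod3

/-- **REG**, unconditional (same plug as `Mod3.model3`). -/
theorem leafReg865 : LeafReg :=
  have hVT : LeafVT := Mod3.H370.leafVT
  have hTab : LeafTable := Mod3.H370.leafTable
  have hVal : LeafVal := Mod3.H370.leafVal
  have hSh : LeafSheet := Mod3.H985.leafSheet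
  have hQep : LeafQep := Mod3.H27.leafQep_of_vt hVT
  have hNR : LeafNR := Mod3.H657.leafNR_of hVal hTab
  have hCh : LeafChart := Mod3.H189.leafChart_of hVT hTab hVal
  have hInc : LeafInc := Mod3.H153.leafInc hTab hCh hQep hVal hSh hNR
  Mod3.H928.leafReg_of_regIOdd (fun P E M q _ _ _ w hStd V₁' V₂' V₁ V₂ V₃ W' W hO _ =>
    Mod3.H276.leafRegI_of hVal hSh hQep hInc hVT Mod3.H96.leafCuspCong96
      P E M q w hStd V₁' V₂' V₁ V₂ V₃ W' W hO)

/-- **MODEL3-OBJ.**  For ALL objects with `Mod3.Objs` (in particular `V₁ = V∞`, `V₃ = V∞ ∘ W`):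
the three-component context at the concrete coordinates. -/
theorem tripleCtx_of_objs (P : ValuationSubring A2.Qb) (E : IntermediateField ℚ A2.Qb)
    (M q : ℕ) [NeZero M] [NeZero q] [NeZero (M * q)] (w : A2.RE P E) (hS : Std P E M q w)
    (V₁' V₂' : ValuationSubring (A2.Mod.FE E (M * q)))
    (V₁ V₂ V₃ : ValuationSubring (A2.Mod.FE E (M * q * q)))
    (W' : A2.Mod.FE E (M * q) ≃ₐ[E] A2.Mod.FE E (M * q))
    (W : A2.Mod.FE E (M * q * q) ≃ₐ[E] A2.Mod.FE E (M * q * q))
    (hO : Objs P E M q V₁' V₂' V₁ V₂ V₃ W' W) :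
    TripleCtx (R := A2.RE P E) (E := E) w q (A2.Mod.αE E (M * q) q) (A2.Mod.βE E (M * q) q)
      (x3E E M q) (A2.Mod.xE E M q) V₁ V₂ V₃ V₁' V₂' :=
  have hVal : LeafVal := Mod3.H370.leafVal
  have hVT : LeafVT := Mod3.H370.leafVT
  have hTab : LeafTable := Mod3.H370.leafTable
  have hSh : LeafSheet := Mod3.H985.leafSheet
  have hQep : LeafQep := Mod3.H27.leafQep_of_vt hVT
  have hNor : LeafNormal := Mod3.H756.leafNormal_of hVT hVal hSh hTab
  have hNV : LeafNV := Mod3.H657.leafNV_of hVal hTab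
  have hNR : LeafNR := Mod3.H657.leafNR_of hVal hTab
  have hCh : LeafChart := Mod3.H189.leafChart_of hVT hTab hVal
  have hInc : LeafInc := Mod3.H153.leafInc hTab hCh hQep hVal hSh hNR
  have hUn : LeafUniq := Mod3.H153.leafUniq hTab hCh hQep hVal hSh hNR
  tripleCtx_of_parts (Mod3.H439.leafFF E M q hS.q_prime hS.q_not_dvd)
    (hVal P E M q w hS V₁' V₂' V₁ V₂ V₃ W' W hO)
    (hSh P E M q w hS V₁' V₂' V₁ V₂ V₃ W' W hO)
    (hQep P E M q w hS V₁' V₂' V₁ V₂ V₃ W' W hO)
    (hNor P E M q w hS V₁' V₂' V₁ V₂ V₃ W' W hO)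
    (hInc P E M q w hS V₁' V₂' V₁ V₂ V₃ W' W hO)
    (leafReg865 P E M q w hS V₁' V₂' V₁ V₂ V₃ W' W hO)
    (Mod3.H439.leafFin E M q hS.q_prime hS.q_not_dvd)
    (hTab P E M q w hS V₁' V₂' V₁ V₂ V₃ W' W hO)
    (hNV P E M q w hS V₁' V₂' V₁ V₂ V₃ W' W hO)
    (hNR P E M q w hS V₁' V₂' V₁ V₂ V₃ W' W hO)
    (hCh P E M q w hS V₁' V₂' V₁ V₂ V₃ W' W hO)
    (hUn P E M q w hS V₁' V₂' V₁ V₂ V₃ W' W hO)

/-- **MODEL3-OBJ, existence form.**  `Eng.Model3Statement` with the objects exposed. -/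
theorem exists_objs_tripleCtx (P : ValuationSubring A2.Qb) (E : IntermediateField ℚ A2.Qb)
    (M q : ℕ) [NeZero M] [NeZero q] [NeZero (M * q)]
    (hq : q.Prime) (hqM : ¬ q ∣ M) (hP : P.LiesOverPrime q) (hE : Unramified P E q)
    (hneat : NeatFor M q) (w : A2.RE P E) (hw : Irreducible w) :
    ∃ (V₁' V₂' : ValuationSubring (A2.Mod.FE E (M * q)))
      (V₁ V₂ V₃ : ValuationSubring (A2.Mod.FE E (M * q * q)))
      (W' : A2.Mod.FE E (M * q) ≃ₐ[E] A2.Mod.FE E (M * q))
      (W : A2.Mod.FE E (M * q * q) ≃ₐ[E] A2.Mod.FE E (M * q * q)),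
      Objs P E M q V₁' V₂' V₁ V₂ V₃ W' W ∧
      TripleCtx (R := A2.RE P E) (E := E) w q (A2.Mod.αE E (M * q) q)
        (A2.Mod.βE E (M * q) q) (x3E E M q) (A2.Mod.xE E M q) V₁ V₂ V₃ V₁' V₂' := by
  have hS : Std P E M q w :=
    { q_prime := hq, q_not_dvd := hqM, lies_over := hP, unram := hE, neat := hneat, unif := hw }
  obtain ⟨V₁', V₂', V₁, V₂, V₃, W', W, hO⟩ := Mod3.H370.leafObj P E M q w hS
  exact ⟨V₁', V₂', V₁, V₂, V₃, W', W, hO,
    tripleCtx_of_objs P E M q w hS V₁' V₂' V₁ V₂ V₃ W' W hO⟩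

end Fermat.Agent.S59.LoSqC.H865

end

end
-- ===== PACK-END S59/LoSqC/H865/Model3Objs.lean

-- ===== PACK-BEGIN S59/LoSqC/H865/LeafCtx.lean
section



/-!
# S59 / cell (C) LO-SQ — leaf CTX (helper865)

`leafCtx865 : LoSqC.LeafCtx` (frozen in `S59/LoSqC/Spec.lean`, helper885), VERBATIM:
EVERY system of objects `Mod3.Objs` carries the three-component context `Eng.TripleCtx`
(= `tripleCtx_of_objs`, the assembly of the MOD3 leaves on main).
-/

set_option autoImplicit false

namespace Fermat.Agent.S59.LoSqC.H865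

/-- **CTX (leaf)**, unconditional. -/
theorem leafCtx865 : Fermat.Agent.S59.LoSqC.LeafCtx :=
  fun P E M q _ _ _ w hS V₁' V₂' V₁ V₂ V₃ W' W hO =>
    tripleCtx_of_objs P E M q w hS V₁' V₂' V₁ V₂ V₃ W' W hO

end Fermat.Agent.S59.LoSqC.H865

end
-- ===== PACK-END S59/LoSqC/H865/LeafCtx.lean

-- ===== PACK-BEGIN S59/LoSqC/H876/Closed.lean
section





/-!
# S59 moonshot, cell (C) LO-SQ: everything but the mountain (helper876, second build)

With the closed leaves `H987.newUnits` (NEW-UNITS), `H865.leafCtx865` (CTX), `H305.slopeJ305`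
(W-SLOPE), `H876.descW` (W-DESC) plugged into the frozen skeleton, cell (C) is
`LeafRealize → CoreSqNeatStatement` (and `LeafRealize → NewOldStatement`,
`LeafRealize → LevelWallStatement`).
-/

set_option autoImplicit false

namespace Fermat.Agent.S59.LoSqC.H876

open Fermat.Agent.S59.LoSqC

/-- The level wall from the mountain alone. -/
theorem levelWall_of_realize876 (hRe : LeafRealize) : LevelWallStatement :=
  levelWall_of_leaves H987.newUnits H865.leafCtx865 hRe

/-- NEW-OLD from the mountain alone. -/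
theorem newOld_of_realize876 (hRe : LeafRealize) : NewOldStatement :=
  newOld_of_open876 H987.newUnits H865.leafCtx865 hRe H305.slopeJ305

/-- CORE-SQ at neat levels from the mountain alone. -/
theorem coreSqNeat_of_realize876 (hRe : LeafRealize) : CoreSqNeatStatement :=
  coreSqNeat_of_open876 H987.newUnits H865.leafCtx865 hRe H305.slopeJ305

end Fermat.Agent.S59.LoSqC.H876

#print axioms Fermat.Agent.S59.LoSqC.H876.coreSqNeat_of_realize876

end
-- ===== PACK-END S59/LoSqC/H876/Closed.lean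

-- ===== PACK-BEGIN S59/LoSqC/H862/NodeRelTh1.lean
section





/-!
# S59 / cell (C) LO-SQ / W-COUNT, sub-leaf NODE-REL — purity of the calibrated generator for
EVERY exponent `m`, from thickness one (helper862)

`Ribet.H868.chartPureQ_calibE` proves that the calibrated Kummer generator

  `calibE w v₁ v₂ f = f¹² · (Δ(t)/Δ(t^q))^(v₁ - v₂) · w^(-12 v₁)`

is pure with exponent `m` at every closed point of the special fibre of the finite chart of level
`M * q`, for `m` PRIME TO `12` (tame node relation at a node of thickness `e ∈ {1, 2, 3}`).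

Here the same conclusion for EVERY `m > 0` (in particular `m = 3 ^ n`), from the hypothesis

  `Th1At A E M q w` = the CONCLUSION of `S36.H803.Th1Statement` (both components are locally
  principal at every node, i.e. the chart is regular at the nodes):

at a node `n` the local ring is regular (`S36.H987.pure_regular_abs987`, UFD), and the calibrated
function has `m`-divisible divisor at EVERY height-one prime of the chart (it is a unit along both
components).  Smooth points: `Ribet.H644.exists_pureAt_smooth_of_unitAt`, as in `H868`.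

* `divisibleDivisor_of_unitAt` : horizontal divisibility + unit on both components
                                 ⟹ `S18.H754.DivisibleDivisor`;
* `exists_pureAt_th1_core`     : core form (any Noetherian normal domain);
* `pureAt_th1`                 : `A2.Alg` vocabulary (`ChartCtx`, `SSChart`, `LocUnit`);
* `Th1At`                      : the thickness-one hypothesis at a datum `(A, E, M, q, w)`;
* `chartPureQ_calibE_th1_cut`, `chartPureQ_calibE_th1` : `H868.ChartPureQ` of `calibE`, every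
                                 `m > 0`.
-/

set_option autoImplicit false
set_option linter.unusedSectionVars false
set_option linter.unusedVariables false
set_option linter.style.haveILetI false
set_option synthInstance.maxHeartbeats 400000
set_option maxHeartbeats 1600000

noncomputable section

namespace Fermat.Agent.S59.LoSqC.H862

open Fermat.Agent.Ribet.H868
open Fermat.Agent.S18.H754 (DivisibleDivisor)
open Fermat.Agent.A2.Alg.H754 (LocU)

section Core

open IsLocalRing Fermat.Agent.Ribet.H704 Fermat.Agent.A2 Fermat.Agent.A2.Alg.H132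
open Fermat.Agent.A2.H849 Fermat.Agent.A2.H609

variable {B : Type} [CommRing B] [IsDomain B] [IsNoetherianRing B] [IsIntegrallyClosed B]
variable {F : Type} [Field F] [Algebra B F] [IsFractionRing B F]

/-- A function which is a unit along both components of the special fibre and whose horizontal
divisor is divisible by `m` has `m`-divisible divisor at every height-one prime. -/
theorem divisibleDivisor_of_unitAt {w : B} (hw0 : w ≠ 0) (p₁ p₂ : Ideal B) [hp₁ : p₁.IsPrime]
    [hp₂ : p₂.IsPrime] (hinf : p₁ ⊓ p₂ = Ideal.span {w}) (m : ℕ) (G : F) (hG : G ≠ 0)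
    (hdiv : ∀ V : ValuationSubring F, IsDiscreteValuationRing V →
      (∀ b : B, algebraMap B F b ∈ V) → (algebraMap B F w)⁻¹ ∈ V →
      ∃ h u₀ : F, u₀ ∈ V ∧ u₀⁻¹ ∈ V ∧ G = u₀ * h ^ m)
    (hU₁ : LocU p₁ G) (hU₂ : LocU p₂ G) : DivisibleDivisor B m G := by
  intro 𝔭 h𝔭 hht
  haveI := h𝔭
  have hinj : Function.Injective (algebraMap B F) := IsFractionRing.injective B F
  have hwpp : w ∈ p₁ ⊓ p₂ := by
    rw [hinf]
    exact Ideal.mem_span_singleton_self _
  by_cases hw𝔭 : w ∈ 𝔭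
  · -- vertical prime: one of the two components
    have hle : p₁ * p₂ ≤ 𝔭 := by
      refine le_trans Ideal.mul_le_inf ?_
      rw [hinf, Ideal.span_singleton_le_iff_mem]
      exact hw𝔭
    have key : ∀ p : Ideal B, p.IsPrime → w ∈ p → p ≤ 𝔭 → LocU p G →
        ∃ t : F, ∃ a s : B, a ∉ 𝔭 ∧ s ∉ 𝔭 ∧ G * t ^ m * algebraMap B F s = algebraMap B F a := by
      intro p hp hwp hp𝔭 hU
      haveI := hp
      haveI : p.FiniteHeight := Ideal.finiteHeight_of_isNoetherianRing p
      have hpeq : p = 𝔭 := by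
        refine Ideal.eq_of_le_of_height_le p hp𝔭 ?_
        rw [hht, Order.one_le_iff_pos, pos_iff_ne_zero, Ne, Ideal.height_eq_zero_iff_eq_bot]
        intro h0
        rw [h0, Ideal.mem_bot] at hwp
        exact hw0 hwp
      subst hpeq
      obtain ⟨a, b, ha, hb, hab⟩ := hU
      exact ⟨1, a, b, ha, hb, by rw [one_pow, mul_one]; exact hab⟩
    rcases (Ideal.IsPrime.mul_le h𝔭).1 hle with h | h
    · exact key p₁ hp₁ hwpp.1 h hU₁
    · exact key p₂ hp₂ hwpp.2 h hU₂
  · -- horizontal prime: `B_𝔭` is a DVR containing `B[1/w]`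
    obtain ⟨W, hdvr, hW⟩ := Fermat.Agent.S18.H438.exists_dvr_of_height_one (F := F) 𝔭 hht
    have h1𝔭 : (1 : B) ∉ 𝔭 := fun h1 => h𝔭.ne_top ((Ideal.eq_top_iff_one _).2 h1)
    have hwF : algebraMap B F w ≠ 0 := fun h0 => hw0 (hinj (by rw [h0, map_zero]))
    have hBW : ∀ b : B, algebraMap B F b ∈ W := fun b =>
      (hW _).2 ⟨b, 1, h1𝔭, by rw [map_one, mul_one]⟩
    have hwW : (algebraMap B F w)⁻¹ ∈ W :=
      (hW _).2 ⟨1, w, hw𝔭, by rw [inv_mul_cancel₀ hwF, map_one]⟩
    obtain ⟨h, u₀, hu₀, hu₀', hu⟩ := hdiv W hdvr hBW hwW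
    have hu₀0 : u₀ ≠ 0 := by
      rintro rfl
      rw [zero_mul] at hu
      exact hG hu
    have hh0 : h ^ m ≠ 0 := by
      intro h0
      rw [h0, mul_zero] at hu
      exact hG hu
    obtain ⟨a, s, ha, hs', has⟩ :=
      (Fermat.Agent.A2.Alg.H754.locU_iff_of_valuationSubring 𝔭 W hW hu₀0).2 ⟨hu₀, hu₀'⟩
    refine ⟨h⁻¹, a, s, ha, hs', ?_⟩
    rw [hu, inv_pow, mul_assoc u₀, mul_inv_cancel₀ hh0, mul_one]
    exact has

/-- **Purity of the calibrated function at every closed point of the special fibre, from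
thickness one** (core form): no condition on `m` and `N`. -/
theorem exists_pureAt_th1_core {w : B} {m N : ℕ} (hm : m ≠ 0) (hN : 0 < N)
    (p₁ p₂ n : Ideal B) [p₁.IsPrime] [p₂.IsPrime] (hn : n.IsMaximal)
    [IsDedekindDomain (B ⧸ p₁)] [IsDedekindDomain (B ⧸ p₂)]
    (hinf : p₁ ⊓ p₂ = Ideal.span {w}) (h₁₂ : ¬ p₁ ≤ p₂) (h₂₁ : ¬ p₂ ≤ p₁) (hwn : w ∈ n)
    (hth1 : p₁ ≤ n → p₂ ≤ n →
      ∃ x₁ ∈ p₁, ∀ a ∈ p₁, ∃ g : B, g ∉ n ∧ ∃ b : B, g * a = x₁ * b)
    (D₁ D₂ : B) (hDD : D₁ * D₂ = w ^ N) (hD₁ : D₁ ∉ p₁) (hD₂ : D₂ ∉ p₂)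
    (f : F) (hf : f ≠ 0)
    (hdiv : ∀ V : ValuationSubring F, IsDiscreteValuationRing V →
      (∀ b : B, algebraMap B F b ∈ V) → (algebraMap B F w)⁻¹ ∈ V →
      ∃ h u₀ : F, u₀ ∈ V ∧ u₀⁻¹ ∈ V ∧ f = u₀ * h ^ m)
    (v₁ v₂ : ℤ) (hv₁ : I6.ValAt F p₁ w f v₁) (hv₂ : I6.ValAt F p₂ w f v₂) :
    ∃ d : F, d ≠ 0 ∧ ∃ a b : B, a ∉ n ∧ b ∉ n ∧
      calib w D₁ N v₁ v₂ f * d ^ m * algebraMap B F b = algebraMap B F a := by
  haveI hnp : n.IsPrime := hn.isPrime
  have hw0 : w ≠ 0 := Fermat.Agent.A2.H609.ne_zero_of_inf_eq_span p₁ p₂ hinf h₁₂ h₂₁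
  have hV₁ : VertData w p₁ p₂ := ⟨inferInstance, hw0, h₂₁, hinf⟩
  have hV₂ : VertData w p₂ p₁ := ⟨inferInstance, hw0, h₁₂, by rw [inf_comm]; exact hinf⟩
  have hD₁0 : D₁ ≠ 0 := fun h0 => hD₁ (h0 ▸ p₁.zero_mem)
  have hG0 : calib w D₁ N v₁ v₂ f ≠ 0 := calib_ne_zero hw0 hD₁0 N v₁ v₂ hf
  have hG₁ := valAt_calib₁ (N := N) hV₁ hD₁ hv₁ v₂
  have hG₂ := valAt_calib₂ hV₂ hDD hD₂ v₁ hv₂
  have hU₁ : UnitAt p₁ (calib w D₁ N v₁ v₂ f) := by
    obtain ⟨a, b, ha, hb, hab⟩ := hG₁
    exact ⟨a, b, ha, hb, by rw [hab, zpow_zero, one_mul]⟩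
  have hU₂ : UnitAt p₂ (calib w D₁ N v₁ v₂ f) := by
    obtain ⟨a, b, ha, hb, hab⟩ := hG₂
    exact ⟨a, b, ha, hb, by rw [hab, zpow_zero, one_mul]⟩
  have hL₁ : LocU p₁ (calib w D₁ N v₁ v₂ f) := by
    obtain ⟨a, b, ha, hb, hab⟩ := hG₁
    exact ⟨a, b, ha, hb, by rw [hab, zpow_zero, one_mul]⟩
  have hL₂ : LocU p₂ (calib w D₁ N v₁ v₂ f) := by
    obtain ⟨a, b, ha, hb, hab⟩ := hG₂
    exact ⟨a, b, ha, hb, by rw [hab, zpow_zero, one_mul]⟩
  have hGdiv := hdiv_calib hw0 hN hDD hdiv v₁ v₂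
  have hor : p₁ ≤ n ∨ p₂ ≤ n := by
    have hle : p₁ * p₂ ≤ n := by
      refine le_trans Ideal.mul_le_inf ?_
      rw [hinf, Ideal.span_le, Set.singleton_subset_iff]
      exact hwn
    exact (Ideal.IsPrime.mul_le inferInstance).1 hle
  by_cases hboth : p₁ ≤ n ∧ p₂ ≤ n
  · -- a node: the local ring is regular
    obtain ⟨x₁, hx₁p, hgen⟩ := hth1 hboth.1 hboth.2
    have hx₁0 : x₁ ≠ 0 := by
      rintro rfl
      obtain ⟨g, hg, b, hgb⟩ := hgen w hV₁.w_mem
      rw [zero_mul] at hgb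
      rcases mul_eq_zero.1 hgb with h | h
      · exact hg (h ▸ n.zero_mem)
      · exact hw0 h
    have hdivisor : DivisibleDivisor B m (calib w D₁ N v₁ v₂ f) :=
      divisibleDivisor_of_unitAt hw0 p₁ p₂ hinf m _ hG0 hGdiv hL₁ hL₂
    obtain ⟨d, hd0, a, b, ha, hb, hab⟩ :=
      Fermat.Agent.S36.H987.pure_regular_abs987 x₁ hx₁0 p₁ n hn hboth.1 hx₁p hgen inferInstance
        m (Nat.pos_of_ne_zero hm) _ hG0 hdivisor
    exact ⟨d, hd0, a, b, ha, hb, hab⟩
  rcases hor with h | h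
  · have h2 : ¬ p₂ ≤ n := fun h' => hboth ⟨h, h'⟩
    by_cases hne : p₁ = n
    · obtain ⟨a, b, ha, hb, hab⟩ := hL₁
      exact ⟨1, one_ne_zero, a, b, hne ▸ ha, hne ▸ hb, by rw [one_pow, mul_one, hab]⟩
    · obtain ⟨d, hd, hdn, -, -⟩ :=
        Fermat.Agent.Ribet.H644.exists_pureAt_smooth_of_unitAt (B := B) (F := F) hm p₁ p₂ n
          hinf h₁₂ h₂₁ h hne h2 _ hGdiv hU₁
      exact ⟨d, hd, hdn⟩
  · have h2 : ¬ p₁ ≤ n := fun h' => hboth ⟨h', h⟩
    by_cases hne : p₂ = n
    · obtain ⟨a, b, ha, hb, hab⟩ := hL₂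
      exact ⟨1, one_ne_zero, a, b, hne ▸ ha, hne ▸ hb, by rw [one_pow, mul_one, hab]⟩
    · obtain ⟨d, hd, hdn, -, -⟩ :=
        Fermat.Agent.Ribet.H644.exists_pureAt_smooth_of_unitAt (B := B) (F := F) hm p₂ p₁ n
          (by rw [inf_comm]; exact hinf) h₂₁ h₁₂ h hne h2 _ hGdiv hU₂
      exact ⟨d, hd, hdn⟩

end Core

section AlgChart

open IsLocalRing Fermat.Agent.Ribet.H704 Fermat.Agent.A2 Fermat.Agent.A2.Alg.H132
open Fermat.Agent.A2.H849 Fermat.Agent.A2.H609
open Fermat.Agent.A2.Alg Fermat.Agent.A2.Alg.H609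

variable {R E F : Type} [CommRing R] [IsDomain R] [IsDiscreteValuationRing R]
  [Field E] [CharZero E] [Algebra R E] [IsFractionRing R E]
  [Field F] [Algebra E F] [Algebra R F] [IsScalarTower R E F]

/-- **Purity on a chart from thickness one** (`A2.Alg` vocabulary): the calibrated Kummer
generator is pure with exponent `m` at every closed point of the special fibre of a semistable
chart carrying a unit pair, if the first component is locally principal at the nodes.
No condition on `m`. -/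
theorem pureAt_th1 (m N : ℕ) (hm : 0 < m) (hN : 0 < N)
    (w : R) (x : F) (B : Subalgebra R F) (hB : ChartCtx E w x B) (c : SSChart w B)
    (D₁ D₂ : B) (hDD : D₁ * D₂ = (algebraMap R B w) ^ N) (hD₁ : D₁ ∉ c.p₁) (hD₂ : D₂ ∉ c.p₂)
    (f : F) (hf : f ≠ 0) (hdiv : DivisibleDiv E m f)
    (v₁ v₂ : ℤ) (hv₁ : I6.ValAt F c.p₁ (algebraMap R B w) f v₁)
    (hv₂ : I6.ValAt F c.p₂ (algebraMap R B w) f v₂)
    (n : Ideal B) (hn : n.IsMaximal) (hwn : algebraMap R B w ∈ n)
    (hth1 : c.p₁ ≤ n → c.p₂ ≤ n →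
      ∃ x₁ ∈ c.p₁, ∀ a ∈ c.p₁, ∃ g : B, g ∉ n ∧ ∃ b : B, g * a = x₁ * b) :
    ∃ d : F, d ≠ 0 ∧ LocUnit B n (calib (algebraMap R B w) D₁ N v₁ v₂ f * d ^ m) := by
  obtain ⟨hnoeth, hic, hfrac⟩ := H34.chart_instances' w x B hB
  have hp₁ : c.p₁.IsPrime := c.prime₁
  have hp₂ : c.p₂.IsPrime := c.prime₂
  have hn₁ : IsIntegrallyClosed (B ⧸ c.p₁) := c.normal₁
  have hn₂ : IsIntegrallyClosed (B ⧸ c.p₂) := c.normal₂
  have hw : algebraMap R B w ∈ c.p₁ ⊓ c.p₂ := by
    rw [c.inf_eq]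
    exact Ideal.mem_span_singleton_self _
  have hd₁ : IsDedekindDomain (B ⧸ c.p₁) := isDedekindDomain_quotient_chart w x B hB c.p₁ hw.1
  have hd₂ : IsDedekindDomain (B ⧸ c.p₂) := isDedekindDomain_quotient_chart w x B hB c.p₂ hw.2
  obtain ⟨d, hd, a, b, ha, hb, hab⟩ :=
    exists_pureAt_th1_core (B := B) (F := F) hm.ne' hN c.p₁ c.p₂ n hn c.inf_eq
      c.not_le₁₂ c.not_le₂₁ hwn hth1 D₁ D₂ hDD hD₁ hD₂ f hf
      (Fermat.Agent.A2.Alg.H609.hdiv_of_divisibleDiv w hB.hw B m f hdiv) v₁ v₂ hv₁ hv₂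
  exact ⟨d, hd, a, b, ha, hb, hab⟩

end AlgChart

section Level

open ModularCurve AlgebraicCurve HahnSeries
open Fermat.Agent.A2.Mod
open Fermat.Agent.Ribet.H704 (I6.ValAt)

variable (A : ValuationSubring (AlgebraicClosure ℚ))
  (E : IntermediateField ℚ (AlgebraicClosure ℚ)) (M q : ℕ) [NeZero M] [NeZero q]

/-- **Thickness one at a datum**: the CONCLUSION of `S36.H803.Th1Statement`, verbatim — both
components of the special fibre of the finite chart are locally principal at every node. -/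
def Th1At (w : RE A E) : Prop :=
  ∀ p₁ p₂ : Ideal (S36.H803.Bfin A E M q), S36.H803.IsComponents A E M q w p₁ p₂ →
    ∀ n : Ideal (S36.H803.Bfin A E M q), S36.H803.IsNode A E M q p₁ p₂ n →
      (∃ x₁ ∈ p₁, ∀ a ∈ p₁, ∃ g : S36.H803.Bfin A E M q, g ∉ n ∧ ∃ b, g * a = x₁ * b) ∧
      (∃ x₂ ∈ p₂, ∀ a ∈ p₂, ∃ g : S36.H803.Bfin A E M q, g ∉ n ∧ ∃ b, g * a = x₂ * b)

/-- `S36.H803.Th1Statement` gives `Th1At` under its standing hypotheses. -/
theorem th1At_of_statement (w : RE A E) (h : S36.H803.Th1Statement A E M q w)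
    (hR : S36.H803.R3Hyp A E M q w) (hU : S36.H803.Unram A E q w) (hRig : S36.H803.Rigid M) :
    Th1At A E M q w :=
  h hR hU hRig

/-- **Stage A for every exponent**, along a chart structure with cut data.  Purity of the
calibrated function at every closed point of the special fibre of the finite chart, at a level
where `q` is a uniformiser and the chart has thickness one at the nodes. -/
theorem chartPureQ_calibE_th1_cut (m : ℕ) (hm : 0 < m) (w : RE A E)
    (hS : Setting A E M q w) (hE : A2.GoodField A E)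
    (hwq : (w : E) = (q : E)) (hTh1 : Th1At A E M q w)
    (V : ValuationSubring (FE E (M * q))) (W : FE E (M * q) ≃ₐ[E] FE E (M * q))
    (hV : IsVinf A E (M * q) V) (hW : IsFricke E (M * q) W)
    (hDeg : DegStatement E M q)
    (cf : A2.SSChart w (chartAlg A E (M * q) (xE E M q)))
    (hcf : S35.G.CutBy w (chartAlg A E (M * q) (xE E M q)) cf V
      (V.comap (W : FE E (M * q) →+* FE E (M * q))))
    (f : FE E (M * q)) (hf : f ≠ 0) (hdiv : A2.DivisibleDiv E m f) (v₁ v₂ : ℤ)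
    (hv₁ : I6.ValAt (FE E (M * q)) cf.p₁
      (algebraMap ↥(RE A E) ↥(chartAlg A E (M * q) (xE E M q)) w) f v₁)
    (hv₂ : I6.ValAt (FE E (M * q)) cf.p₂
      (algebraMap ↥(RE A E) ↥(chartAlg A E (M * q) (xE E M q)) w) f v₂) :
    ChartPureQ A E M q m w (calibE A E M q w v₁ v₂ f) := by
  haveI : IsDiscreteValuationRing ↥(RE A E) := hS.dvr
  have hq : q.Prime := hS.q_prime
  have hN : M * q ≠ 0 := mul_ne_zero hS.M_ne_zero hq.ne_zero
  obtain ⟨hx, hfr, hconst⟩ := hDeg hq hS.q_not_dvd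
  have hpos : 0 < Module.finrank
      (IntermediateField.adjoin E ({xE E M q} : Set (FE E (M * q))))
      (FE E (M * q)) := by
    rw [hfr]
    have h1 := dedekindPsi_pos_of_ne_zero M (NeZero.ne M)
    positivity
  have hfin : FiniteDimensional
      (IntermediateField.adjoin E ({xE E M q} : Set (FE E (M * q))))
      (FE E (M * q)) := Module.finite_of_finrank_pos hpos
  have hB : A2.Alg.ChartCtx E w (xE E M q) (chartAlg A E (M * q) (xE E M q)) :=
    ⟨hS.unif, hx, hfin, hconst, fun _ => Iff.rfl⟩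
  -- the constant `w` is not invertible in `V∞`, `V₀`
  obtain ⟨hunif, hVE, -⟩ := H553.vinfBasic A E w (M * q) hN hS.dvr hS.unif V hV
  have hwV : (cE A E (M * q) w)⁻¹ ∉ V := hunif.inv_not_mem
  have hwV₀ : (cE A E (M * q) w)⁻¹ ∉ V.comap (W : FE E (M * q) →+* FE E (M * q)) := by
    intro h
    apply hwV
    have h1 : W ((cE A E (M * q) w)⁻¹) ∈ V := h
    have hWc : W (cE A E (M * q) w) = cE A E (M * q) w := W.commutes (w : E)
    rw [map_inv₀, hWc] at h1
    exact h1
  -- the unit pair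
  obtain ⟨-, hu1'⟩ := S36.H438.uE'_unit_vinf A E (M * q) q (dvd_mul_left q M) hV
  obtain ⟨-, hd1'⟩ := S36.H438.dE_unit_vzero A E (M * q) q M (Nat.mul_comm M q)
    (dvd_mul_left q M) W hV hW
  have hDD := chartD_mul A E M q hq w hwq
  have hD₁ := chartD₁_notMem A E M q hq w cf V _ hcf hu1' hwV
  have hD₂ := chartD₂_notMem A E M q hq w cf V _ hcf hd1' hwV₀
  -- the components of the chart, in the vocabulary of `S36.H803`
  have hcomp : S36.H803.IsComponents A E M q w cf.p₁ cf.p₂ :=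
    ⟨V, W, hV, hW, hcf.cut₁, hcf.cut₂⟩
  intro n hn hwn
  obtain ⟨d, hd, hu⟩ := pureAt_th1 (E := E) m 12 hm (by norm_num) w (xE E M q)
    (chartAlg A E (M * q) (xE E M q)) hB cf (chartD₁ A E M q hq) (chartD₂ A E M q hq) hDD hD₁
    hD₂ f hf hdiv v₁ v₂ hv₁ hv₂ n hn hwn
    (fun h₁ h₂ => (hTh1 cf.p₁ cf.p₂ hcomp n ⟨hn, h₁, h₂⟩).1)
  rw [calib_eq_calibE] at hu
  refine ⟨d, 0, hd, ?_⟩
  rw [zpow_zero, mul_one]
  exact hu

/-- **Stage A for every exponent**, for ANY semistable chart structure `cf₀` on the finite chart: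
the branch valuations `(v₁, v₂)` of `f` along `cf₀`, in one of the two orders, calibrate `f` to a
function which is pure with exponent `m` at every closed point of the special fibre. -/
theorem chartPureQ_calibE_th1 (m : ℕ) (hm : 0 < m) (w : RE A E)
    (hS : Setting A E M q w) (hE : A2.GoodField A E) (hAux : S35.G.HasAux M q)
    (hwq : (w : E) = (q : E)) (hTh1 : Th1At A E M q w)
    (cf₀ : A2.SSChart w (chartAlg A E (M * q) (xE E M q)))
    (f : FE E (M * q)) (hf : f ≠ 0) (hdiv : A2.DivisibleDiv E m f) (v₁ v₂ : ℤ)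
    (hv₁ : I6.ValAt (FE E (M * q)) cf₀.p₁
      (algebraMap ↥(RE A E) ↥(chartAlg A E (M * q) (xE E M q)) w) f v₁)
    (hv₂ : I6.ValAt (FE E (M * q)) cf₀.p₂
      (algebraMap ↥(RE A E) ↥(chartAlg A E (M * q) (xE E M q)) w) f v₂) :
    ∃ w₁ w₂ : ℤ, ((w₁ = v₁ ∧ w₂ = v₂) ∨ (w₁ = v₂ ∧ w₂ = v₁)) ∧
      ChartPureQ A E M q m w (calibE A E M q w w₁ w₂ f) := by
  obtain ⟨V, W, VM, hV, hW, hVM, hg1, hg2, hDeg, cf, ci, hcf, hci⟩ :=
    S35.G.H862.modelNoSep A E M q w hS hE hAux
  rcases Ribet.H862.components_unique cf₀ cf with ⟨h₁, h₂⟩ | ⟨h₁, h₂⟩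
  · refine ⟨v₁, v₂, Or.inl ⟨rfl, rfl⟩, ?_⟩
    exact chartPureQ_calibE_th1_cut A E M q m hm w hS hE hwq hTh1 V W hV hW hDeg cf hcf f hf hdiv
      v₁ v₂ (h₁ ▸ hv₁) (h₂ ▸ hv₂)
  · refine ⟨v₂, v₁, Or.inr ⟨rfl, rfl⟩, ?_⟩
    exact chartPureQ_calibE_th1_cut A E M q m hm w hS hE hwq hTh1 V W hV hW hDeg cf hcf f hf hdiv
      v₂ v₁ (h₂ ▸ hv₂) (h₁ ▸ hv₁)

end Level

end Fermat.Agent.S59.LoSqC.H862

end

end
-- ===== PACK-END S59/LoSqC/H862/NodeRelTh1.lean

-- ===== PACK-BEGIN Ribet/H868/CoreOutQ.lean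
section





/-!
# RIBET rows 37/38, TAME package, stage B: CORE-OUT at the inertia field (helper868)

`A` over the prime `q`, `q ∤ M'`, auxiliary condition `q = 3 → 2 ∣ M'`, `q = 2 → 3 ∣ M'`;
`m > 0` prime to `12`; `x ∈ J₀(q M')[m]` fixed by the inertia group `I` at `A`.

* descent (`exists_fixed_kummerGen`): `x` has a Kummer generator `y ∈ F_E`, `E = ℚ̄^I`;
* `E` is a good level with uniformiser `q` (`goodField_inertiaField`, `setting_inertiaField`);
* stage A (`chartPureQ_calibE`): `G_E = y¹² · (Δ(t)/Δ(t^q))^(v₁ - v₂) · q^(-12 v₁)` is pure at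
  every closed point of the special fibre of the finite chart;
* the dictionary `DictPureQAt m q M' A` turns purity into `H158.WallQ.NodeGenQ`.

Result: **`slopePropQM_of_dict`** : `DictPureQAt m q M' A → SlopePropQM m q M' A x`, for ALL primes
`q` (no `q ≠ p`), and the leaf

  **`coreOutQGood_of_dict : DictPureQStatement → H158.WallQ.CoreOutQGoodStatement`**.
-/

set_option autoImplicit false
set_option linter.unusedSectionVars false
set_option linter.style.haveILetI false
set_option synthInstance.maxHeartbeats 400000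
set_option maxHeartbeats 1600000

noncomputable section

namespace Fermat.Agent.Ribet.H868

open AlgebraicCurve ModularCurve HahnSeries
open Fermat.Agent.S24 Fermat.Agent.Ribet.H884 Fermat.Agent.Ribet.H158.WallQ
open Fermat.Agent.Ribet.Spec
open Fermat.Agent.A2.Mod
open Fermat.Agent.A2.T1.H669 (iota)
open Fermat.Agent.A2.IF.H429 (inertiaField)

/-! ## Change of the name of the level -/

section Cast

variable (E : IntermediateField ℚ (AlgebraicClosure ℚ))

/-- `F_{N₁,E} = F_{N₂,E}` for `N₁ = N₂`. -/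
def castLevelE {N₁ N₂ : ℕ} (h : N₁ = N₂) : FE E N₁ ≃+* FE E N₂ :=
  h ▸ RingEquiv.refl _

theorem coe_castLevelE {N₁ N₂ : ℕ} (h : N₁ = N₂) (y : FE E N₁) :
    ((castLevelE E h y : FE E N₂) : LaurentSeries E) = (y : LaurentSeries E) := by
  subst h
  rfl

theorem divisibleDiv_castLevelE {N₁ N₂ : ℕ} (h : N₁ = N₂) (m : ℕ) (y : FE E N₁)
    (hy : A2.DivisibleDiv E m y) : A2.DivisibleDiv E m (castLevelE E h y) := by
  subst h
  exact hy

/-- The coefficientwise inclusion `F_{N,E} → F̄_{N'}`, `N = N'`. -/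
def toFF {N N' : ℕ} [NeZero N'] (h : N = N') : FE E N →+* FF N' :=
  (iota E (modularFunctionFieldFull N')).comp (castLevelE E h).toRingHom

theorem coe_toFF {N N' : ℕ} [NeZero N'] (h : N = N') (y : FE E N) :
    ((toFF E h y : FF N') : LaurentSeries Kbar) =
      coeffMap (algebraMap E (AlgebraicClosure ℚ)) (y : LaurentSeries E) := by
  show coeffMap (algebraMap E (AlgebraicClosure ℚ))
    ((castLevelE E h y : FE E N') : LaurentSeries E) = _
  rw [coe_castLevelE]

theorem toFF_castLevelE {N N' : ℕ} [NeZero N'] (h : N = N') (y : FE E N') :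
    toFF E h (castLevelE E h.symm y) = iota E (modularFunctionFieldFull N') y := by
  apply Subtype.ext
  rw [coe_toFF, coe_castLevelE, Fermat.Agent.A2.T1.H669.coe_iota]

end Cast

/-! ## The modular unit over `ℚ̄` -/

section Unit

variable (q M' : ℕ) [NeZero M'] [NeZero q] [NeZero (q * M')]

theorem unitL_bar_mul868 :
    Fermat.Agent.S28.unitL Kbar q *
      coeffMap (Int.castRingHom Kbar) (Fermat.Agent.S28.H589.unitL' q) = 1 := by
  rw [← Fermat.Agent.S28.h88_coeffMap_unitL (Int.castRingHom Kbar) q, ← map_mul,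
    Fermat.Agent.S36.H438.unitL_mul_unitL', map_one]

/-- The modular unit `Δ(t^q)/Δ(t)` at level `q M'` over `ℚ̄`. -/
def unitFF : FF (q * M') :=
  ⟨Fermat.Agent.S28.unitL Kbar q,
    Fermat.Agent.S36.H438.laurentBaseChange_mono_h438 Kbar
      (full_degeneracy_le (dvd_mul_right q M')) (Fermat.Agent.S36.H438.unitL_bar_mem q)⟩

theorem isModUnit_unitFF : IsModUnit q M' (unitFF q M') := rfl

theorem unitFF_ne_zero : unitFF q M' ≠ 0 := by
  intro h
  have h1 : Fermat.Agent.S28.unitL Kbar q = 0 := congrArg Subtype.val h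
  have h2 := unitL_bar_mul868 q
  rw [h1, zero_mul] at h2
  exact zero_ne_one h2

variable (A : ValuationSubring (AlgebraicClosure ℚ)) (E : IntermediateField ℚ (AlgebraicClosure ℚ))

theorem toFF_uE' :
    toFF E (Nat.mul_comm M' q) (Fermat.Agent.S36.H438.uE' E (M' * q) q (dvd_mul_left q M')) =
      (unitFF q M')⁻¹ := by
  apply eq_inv_of_mul_eq_one_right
  apply Subtype.ext
  show Fermat.Agent.S28.unitL Kbar q *
    ((toFF E (Nat.mul_comm M' q)
      (Fermat.Agent.S36.H438.uE' E (M' * q) q (dvd_mul_left q M')) : FF (q * M')) :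
        LaurentSeries Kbar) = 1
  rw [coe_toFF, Fermat.Agent.S36.H438.coe_uE', Fermat.Agent.S36.H438.coeffMap_castE]
  exact unitL_bar_mul868 q

theorem toFF_cE (w : RE A E) (hwq : (w : E) = (q : E)) :
    toFF E (Nat.mul_comm M' q) (cE A E (M' * q) w) =
      algebraMap Kbar (FF (q * M')) (q : Kbar) := by
  apply Subtype.ext
  rw [coe_toFF]
  show coeffMap (algebraMap E (AlgebraicClosure ℚ)) (algebraMap E (LaurentSeries E) (w : E)) =
    algebraMap Kbar (LaurentSeries Kbar) (q : Kbar)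
  rw [hwq, Fermat.Agent.S18.H602.coeffMap_algebraMap', map_natCast]

theorem toFF_calibE (w : RE A E) (hwq : (w : E) = (q : E)) (v₁ v₂ : ℤ) (y : FE E (M' * q)) :
    toFF E (Nat.mul_comm M' q) (calibE A E M' q w v₁ v₂ y) =
      (toFF E (Nat.mul_comm M' q) y) ^ 12 * ((unitFF q M')⁻¹) ^ (v₁ - v₂) *
        (algebraMap Kbar (FF (q * M')) (q : Kbar)) ^ (-((12 : ℕ) : ℤ) * v₁) := by
  unfold calibE
  rw [map_mul, map_mul, map_pow, map_zpow₀, map_zpow₀, toFF_uE', toFF_cE q M' A E w hwq]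

end Unit

/-! ## The assembly -/

section Assembly

variable (m q M' : ℕ) [NeZero M'] [NeZero q] [NeZero (q * M')]

/-- The algebra of the slope relation: `G' = f₀¹² D^(v₂ - v₁) q^(-12 v₁)`, `f = q^(-v₁) f₀`. -/
theorem exists_slope_rel868 {K F : Type*} [Field K] [Field F] [Algebra K F] (c₀ : K)
    (f₀ D G' : F) (hD0 : D ≠ 0) (v₁ v₂ : ℤ)
    (hG' : G' = f₀ ^ 12 * (D⁻¹) ^ (v₁ - v₂) * (algebraMap K F c₀) ^ (-((12 : ℕ) : ℤ) * v₁)) :
    ∃ a b : ℕ, G' * D ^ b = (algebraMap K F (c₀ ^ (-v₁)) * f₀) ^ 12 * D ^ a := by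
  have hf12 : (algebraMap K F (c₀ ^ (-v₁)) * f₀) ^ 12 = f₀ ^ 12 *
      (algebraMap K F c₀) ^ (-((12 : ℕ) : ℤ) * v₁) := by
    rw [mul_pow, map_zpow₀, ← zpow_natCast, ← zpow_mul, mul_comm (f₀ ^ 12)]
    congr 2
    ring
  have hG'' : G' = (algebraMap K F (c₀ ^ (-v₁)) * f₀) ^ 12 * D ^ (v₂ - v₁) := by
    rw [hG', hf12, inv_zpow', neg_sub]
    ring
  rcases le_total v₁ v₂ with hle | hle
  · refine ⟨(v₂ - v₁).toNat, 0, ?_⟩
    rw [pow_zero, mul_one, hG'', ← zpow_natCast D (v₂ - v₁).toNat,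
      Int.toNat_of_nonneg (by omega)]
  · refine ⟨0, (v₁ - v₂).toNat, ?_⟩
    rw [pow_zero, mul_one, hG'', ← zpow_natCast D (v₁ - v₂).toNat,
      Int.toNat_of_nonneg (by omega), mul_assoc, ← zpow_add₀ hD0]
    have : v₂ - v₁ + (v₁ - v₂) = 0 := by ring
    rw [this, zpow_zero, mul_one]

/-- **Stage B at a level `E`** where `q` is a uniformiser. -/
theorem slopePropQM_of_level (hm : 0 < m) (hcop : Nat.Coprime 12 m)
    (hAux : (q = 3 → 2 ∣ M') ∧ (q = 2 → 3 ∣ M'))
    (A : ValuationSubring Kbar) (hDict : DictPureQAt m q M' A)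
    (E : IntermediateField ℚ (AlgebraicClosure ℚ)) (w : RE A E) (hS : Setting A E M' q w)
    (hE : A2.GoodField A E) (hwq : (w : E) = (q : E))
    (x : JZero (q * M')) (y : FE E (q * M')) (hy0 : y ≠ 0)
    (hkum : IsKummerGen (q * M') m (iota E (modularFunctionFieldFull (q * M')) y) x)
    (hdiv : A2.DivisibleDiv E m y) : SlopePropQM m q M' A x := by
  have hq : q.Prime := hS.q_prime
  have hy'0 : castLevelE E (Nat.mul_comm q M') y ≠ 0 :=
    (map_ne_zero_iff _ (castLevelE E (Nat.mul_comm q M')).injective).mpr hy0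
  have hdiv' : A2.DivisibleDiv E m (castLevelE E (Nat.mul_comm q M') y) :=
    divisibleDiv_castLevelE E (Nat.mul_comm q M') m y hdiv
  obtain ⟨v₁, v₂, hpure⟩ :=
    chartPureQ_calibE A E M' q m hm hcop w hS hE hAux hwq _ hy'0 hdiv'
  have hG0 : calibE A E M' q w v₁ v₂ (castLevelE E (Nat.mul_comm q M') y) ≠ 0 :=
    calibE_ne_zero A E M' q w hS.unif.ne_zero v₁ v₂ hy'0
  have hnode : NodeGenQ m q M' A (toFF E (Nat.mul_comm M' q)
      (calibE A E M' q w v₁ v₂ (castLevelE E (Nat.mul_comm q M') y))) :=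
    hDict E w hS hE _ _ hG0 (coe_toFF E (Nat.mul_comm M' q) _) hpure
  have hG' := toFF_calibE q M' A E w hwq v₁ v₂ (castLevelE E (Nat.mul_comm q M') y)
  rw [toFF_castLevelE E (Nat.mul_comm M' q) y] at hG'
  have hqK : (q : Kbar) ≠ 0 := Nat.cast_ne_zero.mpr hq.ne_zero
  obtain ⟨a, b, hab⟩ := exists_slope_rel868 (q : Kbar) _ (unitFF q M') _
    (unitFF_ne_zero q M') v₁ v₂ hG'
  exact ⟨_, unitFF q M', _, 12, a, b,
    IsKummerGen.const_mul868 (q * M') hkum (zpow_ne_zero _ hqK), isModUnit_unitFF q M',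
    unitFF_ne_zero q M', by norm_num, hcop, hab, hnode⟩

/-- **Stage B.**  `SlopePropQM` for an inertia-fixed `m`-torsion class, from the dictionary. -/
theorem slopePropQM_of_dict (hm : 0 < m) (hcop : Nat.Coprime 12 m) (hq : q.Prime)
    (hqM : ¬ q ∣ M') (hAux : (q = 3 → 2 ∣ M') ∧ (q = 2 → 3 ∣ M'))
    (A : ValuationSubring Kbar) (hA : A.LiesOverPrime q) (hDict : DictPureQAt m q M' A)
    (x : JZero (q * M')) (hx : m • x = 0)
    (hfix : ∀ σ ∈ A.inertiaSubgroupIn ℚ, σ • x = x) : SlopePropQM m q M' A x := by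
  have hE : A2.GoodField A (inertiaField A) := goodField_inertiaField A q hq hA
  have hS : Setting A (inertiaField A) M' q ((q : ℕ) : RE A (inertiaField A)) :=
    setting_inertiaField A q M' hq hqM (NeZero.ne M') hA
  obtain ⟨y, hy0, hkum, hdiv⟩ := exists_fixed_kummerGen (q * M') m A x hx hfix
  have hwq : ((((q : ℕ) : RE A (inertiaField A)) : inertiaField A)) = (q : inertiaField A) := by
    simp
  exact slopePropQM_of_level m q M' hm hcop hAux A hDict (inertiaField A) _ hS hE hwq x y hy0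
    hkum hdiv

end Assembly

/-! ## The leaf of the wall at `q` -/

/-- `12` is prime to every prime `p ≥ 5`. -/
theorem coprime_twelve868 {p : ℕ} (hp : p.Prime) (hp5 : 5 ≤ p) : Nat.Coprime 12 p := by
  have hp3 : Nat.Coprime 3 p := by
    rw [Nat.coprime_primes Nat.prime_three hp]
    omega
  have hp2 : Nat.Coprime 2 p := by
    rw [Nat.coprime_primes Nat.prime_two hp]
    omega
  have e : (12 : ℕ) = 2 * 2 * 3 := by norm_num
  rw [e]
  exact Nat.Coprime.mul_left (Nat.Coprime.mul_left hp2 hp2) hp3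

/-- **CORE-OUT-q (good levels)** from the two-prime dictionary. -/
theorem coreOutQGood_of_dict (h : DictPureQStatement) : CoreOutQGoodStatement := by
  intro p n q M' _ _ _ hW A hA S a x hnew _ hfix
  have hcop : Nat.Coprime 12 (p ^ n) :=
    Nat.Coprime.pow_right n (coprime_twelve868 hW.p_prime hW.five_le)
  have hAux : (q = 3 → 2 ∣ M') ∧ (q = 2 → 3 ∣ M') := by
    refine ⟨fun h3 => ?_, fun h2 => absurd h2 hW.q_ne_two⟩
    rcases hW.good with h5 | ⟨-, h2⟩
    · omega
    · exact h2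
  have hm : 0 < p ^ n := pow_pos hW.p_prime.pos n
  exact slopePropQM_of_dict (p ^ n) q M' hm hcop hW.q_prime hW.not_dvd hAux A hA
    (h (p ^ n) q M' hm hW.q_prime hW.not_dvd hAux A hA) x hnew.1 hfix

end Fermat.Agent.Ribet.H868

end

end
-- ===== PACK-END Ribet/H868/CoreOutQ.lean

-- ===== PACK-BEGIN S59/LoSqC/H862/NodeRelDeg.lean
section









/-!
# S59 / cell (C) LO-SQ / W-COUNT, sub-leaf NODE-REL — the degree glue (helper862)

Level `q M'`, `q ∤ M'`, `A` over `q`, `k` the residue field of `A`, `F_k = k(X₀(M'))`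
(`modularFunctionFieldFullC k M'`), `D = Δ(t^q)/Δ(t)` the modular unit (`H868.unitFF`).

* `dvd_mul_of_cusp_orders` (abstract, Prelude `Place` + `HasPrincipalDivisors`): if `h ∈ F_kˣ` has
  `m ∣ ord_Q h` at the places where `j` is regular and `ord_Q h ≡ c · ord_Q j mod m` at the poles
  of `j`, then `m ∣ c · [F_k : k(j)]`  (the degree of a principal divisor is zero);
* `isRedInf_unitFF_inv` : the reduction of `D⁻¹ = Δ(t)/Δ(t^q)` on `C∞` is `H̄(j)`, `H` the Hasse
  polynomial (`S36.H438.hassePoly`, monic of degree `q - 1`);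
* **`slopeRel_of_nodeGen`** : `f, G ∈ F̄^×` with `m ∣ div f`, `G · D^b = f^n · D^a`, and the
  reduction of `G` on `C∞` with `m`-divisible orders at the non-cuspidal places (`H884.PDivFin`,
  one half of `H158.WallQ.NodeGenQ`)  ⟹  `m ∣ (a - b) · (q - 1) · ψ(M')`.
  No condition on `m`, `n`.
-/

set_option autoImplicit false
set_option linter.unusedSectionVars false
set_option linter.unusedVariables false
set_option linter.style.haveILetI false
set_option synthInstance.maxHeartbeats 400000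
set_option maxHeartbeats 1600000

noncomputable section

open AlgebraicCurve

namespace Fermat.Agent.S59.LoSqC.H862

section Abs

open Fermat.Agent.Lib.RR

variable {k κ : Type*} [Field k] [Field κ] [Algebra k κ]

/-- **Degree glue, abstract form.** -/
theorem dvd_mul_of_cusp_orders (hpd : HasPrincipalDivisors k κ)
    (hdeg : ∀ v : Place k κ, v.deg = 1) (j : κ) (hj : j ≠ 0) (ψ : ℤ)
    (hψ : ∀ D : Divisor k κ, (∀ P, D P = P.ord j⁻¹) → ∑ P ∈ D.support, max (D P) 0 = ψ)
    {h : κ} (hh : h ≠ 0) (m : ℕ) (c : ℤ)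
    (hfin : ∀ Q : Place k κ, 0 ≤ Q.ord j → (m : ℤ) ∣ Q.ord h)
    (hcusp : ∀ Q : Place k κ, Q.ord j < 0 → (m : ℤ) ∣ Q.ord h - c * Q.ord j) :
    (m : ℤ) ∣ c * ψ := by
  classical
  obtain ⟨S₀, -, hsum⟩ := sum_ord_eq_zero_of_support hpd hdeg hh
  obtain ⟨D, hD, -⟩ := hpd.exists_divisor j⁻¹ (inv_ne_zero hj)
  have h0 := hsum (S₀ ∪ D.support) Finset.subset_union_left
  have hψ' := hψ D hD
  have h1 : (m : ℤ) ∣ ∑ v ∈ S₀ ∪ D.support, (v.ord h + c * max (D v) 0) := by
    refine Finset.dvd_sum fun v _ => ?_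
    rw [hD, Place.ord_inv]
    by_cases hv : 0 ≤ v.ord j
    · rw [max_eq_right (by omega), mul_zero, add_zero]
      exact hfin v hv
    · have hv' : v.ord j < 0 := not_le.mp hv
      rw [max_eq_left (by omega)]
      have e : v.ord h + c * -v.ord j = v.ord h - c * v.ord j := by ring
      rw [e]
      exact hcusp v hv'
  rw [Finset.sum_add_distrib, h0, zero_add, ← Finset.mul_sum] at h1
  have h2 : ∑ v ∈ S₀ ∪ D.support, max (D v) 0 = ∑ v ∈ D.support, max (D v) 0 := by
    symm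
    refine Finset.sum_subset Finset.subset_union_right ?_
    intro v _ hv
    rw [Finsupp.notMem_support_iff] at hv
    rw [hv]
    simp
  rw [h2, hψ'] at h1
  exact h1

end Abs

section Glue

open ModularCurve HahnSeries
open Fermat.Agent.S24 Fermat.Agent.Ribet.H884 Fermat.Agent.Ribet.H158.WallQ
open Fermat.Agent.A2.H708 Fermat.Agent.Ribet.H868

variable (m q M' : ℕ) [NeZero M'] [NeZero q] [NeZero (q * M')]

/-- The coefficientwise reduction of `Δ(t)/Δ(t^q)` modulo `q` is `H̄(j)`. -/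
theorem coeffMap_unitL'_eq_aeval (hq : q.Prime) (k : Type*) [CommRing k] [CharP k q] :
    coeffMap (Int.castRingHom k) (Fermat.Agent.S28.H589.unitL' q) =
      Polynomial.aeval (jqModC k) ((S36.H438.hassePoly q hq).map (Int.castRingHom k)) := by
  have h := congrArg (coeffMap (Int.castRingHom k)) (S36.H438.hassePoly_spec q hq)
  have hqk : coeffMap (Int.castRingHom k) (HahnSeries.C (q : ℤ)) = 0 := by
    ext n
    rw [coeffMap_coeff, HahnSeries.coeff_zero]
    by_cases hn : n = 0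
    · subst hn
      rw [HahnSeries.C_apply, HahnSeries.coeff_single_same, eq_intCast, Int.cast_natCast]
      exact CharP.cast_eq_zero k q
    · rw [HahnSeries.C_apply, HahnSeries.coeff_single_of_ne hn, map_zero]
  rw [map_add, map_mul, hqk, zero_mul, add_zero, Fermat.Agent.S36.Reg.H968.coeffMap_aeval,
    coeffMap_jqModC] at h
  exact h

/-- **The reduction of the modular unit on `C∞`**: `D⁻¹ = Δ(t)/Δ(t^q)` reduces to `H̄(j)`. -/
theorem isRedInf_unitFF_inv (hq : q.Prime) (A : ValuationSubring Kbar)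
    (hA : A.LiesOverPrime q) :
    IsRedInf (q * M') A (unitFF q M')⁻¹
      (Polynomial.aeval (jqModC (kA A))
        ((S36.H438.hassePoly q hq).map (Int.castRingHom (kA A)))) := by
  obtain ⟨hac, hch⟩ := Fermat.Agent.Ribet.H939.resField q hq A hA
  haveI := hch
  have hcoe : (((unitFF q M')⁻¹ : FF (q * M')) : LaurentSeries Kbar) =
      coeffMap (Int.castRingHom Kbar) (Fermat.Agent.S28.H589.unitL' q) := by
    rw [IntermediateField.coe_inv]
    apply inv_eq_of_mul_eq_one_right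
    exact unitL_bar_mul868 q
  have hincl : incl A (coeffMap (Int.castRingHom A) (Fermat.Agent.S28.H589.unitL' q)) =
      coeffMap (Int.castRingHom Kbar) (Fermat.Agent.S28.H589.unitL' q) := by
    rw [incl, coeffMap_coeffMap]
    exact coeffMap_congr (Subsingleton.elim _ _) _
  have hred : red A (coeffMap (Int.castRingHom A) (Fermat.Agent.S28.H589.unitL' q)) =
      Polynomial.aeval (jqModC (kA A))
        ((S36.H438.hassePoly q hq).map (Int.castRingHom (kA A))) := by
    rw [red, coeffMap_coeffMap, ← coeffMap_unitL'_eq_aeval q hq (kA A)]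
    exact coeffMap_congr (Subsingleton.elim _ _) _
  have hne : Polynomial.aeval (jqModC (kA A))
      ((S36.H438.hassePoly q hq).map (Int.castRingHom (kA A))) ≠ 0 := by
    rw [← S36.H438.hassePoly_red q hq (kA A)]
    refine pow_ne_zero _ ?_
    intro h0
    have h1 : Fermat.Agent.S28.deltaL (kA A) * Fermat.Agent.S28.deltaInvL (kA A) = 1 :=
      Fermat.Agent.S28.h88_deltaL_mul_deltaInvL (kA A)
    rw [h0, mul_zero] at h1
    exact zero_ne_one h1
  refine ⟨1, coeffMap (Int.castRingHom A) (Fermat.Agent.S28.H589.unitL' q), 1, one_ne_zero, ?_,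
    ?_, ?_, ?_⟩
  · rw [hred]
    exact hne
  · rw [map_one]
    exact one_ne_zero
  · rw [map_one, mul_one, hincl, cst_one, one_mul, hcoe]
  · rw [map_one, mul_one, hred]

/-- **Degree glue.**  `m ∣ div f`, `G · D^b = f^n · D^a` with `D = Δ(t^q)/Δ(t)`, and the
reduction of `G` on `C∞` has `m`-divisible orders at the non-cuspidal places of `X₀(M')_k`.
Then `m ∣ (a - b) · (q - 1) · ψ(M')`. -/
theorem slopeRel_of_nodeGen (hq : q.Prime) (hqM : ¬ q ∣ M') (hAux : S35.G.HasAux M' q)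
    (hm : 0 < m) (A : ValuationSubring Kbar) (hA : A.LiesOverPrime q)
    (f G : FF (q * M')) (hf0 : f ≠ 0)
    (hdiv : ∀ v : Place Kbar (FF (q * M')), (m : ℤ) ∣ v.ord f)
    (n a b : ℕ) (hrel : G * (unitFF q M') ^ b = f ^ n * (unitFF q M') ^ a)
    (r₁ : LaurentSeries (kA A)) (hr₁ : IsRedInf (q * M') A G r₁) (hP : PDivFin m M' r₁) :
    (m : ℤ) ∣ ((a : ℤ) - b) * (((q - 1) * dedekindPsi M' : ℕ) : ℤ) := by
  classical
  obtain ⟨hac, hch⟩ := Fermat.Agent.Ribet.H939.resField q hq A hA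
  haveI := hac
  haveI := hch
  have hchar : ∀ p' : ℕ, p'.Prime → p' ∣ M' → (p' : kA A) ≠ 0 := by
    intro p' hp' hd h0
    have h1 : q ∣ p' := (CharP.cast_eq_zero_iff (kA A) q p').mp h0
    have h2 : q = p' := (Nat.prime_dvd_prime_iff_eq hq hp').mp h1
    exact hqM (h2 ▸ hd)
  have hpd := Fermat.Agent.S37.H868.hpd_fullC (kA A) M' hchar
  have hdeg := Fermat.Agent.S37.H868.deg_fullC (kA A) M' hchar
  -- the reductions
  obtain ⟨rf, hrf⟩ := Fermat.Agent.Ribet.H997.exists_isRedInf hq hA hf0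
  obtain ⟨hf, hhf⟩ := Fermat.Agent.Ribet.H997.redField q M' hq hqM A hA f rf (Or.inl hrf)
  have hU := isRedInf_unitFF_inv q M' hq A hA
  set Hb : Polynomial (kA A) := (S36.H438.hassePoly q hq).map (Int.castRingHom (kA A)) with hHb
  have hHbdeg : Hb.natDegree = q - 1 := by
    rw [hHb, (S36.H438.hassePoly_monic q hq).natDegree_map, S36.H438.hassePoly_natDegree]
  have hHb0 : Hb ≠ 0 := ((S36.H438.hassePoly_monic q hq).map (Int.castRingHom (kA A))).ne_zero
  have hD0 : unitFF q M' ≠ 0 := unitFF_ne_zero q M'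
  have hrel' : G * ((unitFF q M')⁻¹) ^ a = f ^ n * ((unitFF q M')⁻¹) ^ b := by
    have hDa : (unitFF q M') ^ a ≠ 0 := pow_ne_zero _ hD0
    have hDb : (unitFF q M') ^ b ≠ 0 := pow_ne_zero _ hD0
    rw [inv_pow, inv_pow, ← div_eq_mul_inv, ← div_eq_mul_inv, div_eq_div_iff hDa hDb]
    exact hrel
  have h1 := hr₁.mul (hU.pow a)
  have h2 := (hrf.pow n).mul (hU.pow b)
  rw [hrel'] at h1
  obtain ⟨u, hu0, hu⟩ := Fermat.Agent.Ribet.H997.isRedInf_unique h1 h2
  obtain ⟨hG, hhG, hG0, hfin⟩ := hP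
  -- the Hasse polynomial in `j` as an element of `F_k`
  set P : modularFunctionFieldFullC (kA A) M' := Polynomial.aeval (jC (kA A) M') Hb with hPdef
  have hPcoe : (P : LaurentSeries (kA A)) = Polynomial.aeval (jqModC (kA A)) Hb := by
    have h := Polynomial.aeval_algHom_apply (modularFunctionFieldFullC (kA A) M').val
      (jC (kA A) M') Hb
    exact h.symm
  have hf0' : hf ≠ 0 := by
    intro h0
    apply hrf.ne_zero
    rw [← hhf, h0]
    rfl
  have hu' : algebraMap (kA A) (modularFunctionFieldFullC (kA A) M') u ≠ 0 := by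
    rw [Ne, map_eq_zero]
    exact hu0
  have key : hf ^ n * P ^ b =
      algebraMap (kA A) (modularFunctionFieldFullC (kA A) M') u * (hG * P ^ a) := by
    apply Subtype.ext
    show (hf : LaurentSeries (kA A)) ^ n * (P : LaurentSeries (kA A)) ^ b =
      algebraMap (kA A) (LaurentSeries (kA A)) u *
        ((hG : LaurentSeries (kA A)) * (P : LaurentSeries (kA A)) ^ a)
    have hC : HahnSeries.C u = algebraMap (kA A) (LaurentSeries (kA A)) u := by
      rw [S36.H438.algebraMap_laurent_eq_single]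
      rfl
    rw [hhf, hhG, hPcoe, hu, hC]
  -- the constant
  have hj0 : jC (kA A) M' ≠ 0 := by
    intro h0
    have ht : Transcendental (kA A) (jC (kA A) M') :=
      Fermat.Agent.S18.H905.transcendental_jC (kA A) M'
    rw [h0] at ht
    exact ht (isAlgebraic_zero)
  have hψ : ∀ D : Divisor (kA A) (modularFunctionFieldFullC (kA A) M'),
      (∀ Q, D Q = Q.ord (jC (kA A) M')⁻¹) →
        ∑ Q ∈ D.support, max (D Q) 0 = ((dedekindPsi M' : ℕ) : ℤ) := by
    intro D hD
    exact Fermat.Agent.S37.H868.sum_zero_inv_j_fullC (kA A) M' hchar ((jC (kA A) M')⁻¹)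
      (by rw [IntermediateField.coe_inv]; rfl) D hD
  have hmain := dvd_mul_of_cusp_orders hpd hdeg (jC (kA A) M') hj0 ((dedekindPsi M' : ℕ) : ℤ) hψ
    hG0 m (((b : ℤ) - a) * ((q - 1 : ℕ) : ℤ)) hfin (fun Q hQ => ?_)
  · have e : ((a : ℤ) - b) * (((q - 1) * dedekindPsi M' : ℕ) : ℤ) =
        -(((b : ℤ) - a) * ((q - 1 : ℕ) : ℤ) * ((dedekindPsi M' : ℕ) : ℤ)) := by
      push_cast
      ring
    rw [e, dvd_neg]
    exact hmain
  · -- orders at a cusp
    obtain ⟨hP0, hPord⟩ := Fermat.Agent.Lib.RR.H623.ord_aeval_of_ord_neg Q hQ Hb hHb0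
    have hP0' : P ≠ 0 := hP0
    have hPord' : Q.ord P = ((q - 1 : ℕ) : ℤ) * Q.ord (jC (kA A) M') := by
      rw [hPdef, hPord, hHbdeg]
    have hcf := Fermat.Agent.Ribet.H644.cuspGenInf m q M' hq hqM hAux hm A hA f hf0 hdiv rf hrf
      hf hhf Q hQ
    have hord := congrArg Q.ord key
    rw [Place.ord_mul Q (pow_ne_zero _ hf0') (pow_ne_zero _ hP0'),
      Place.ord_mul Q hu' (mul_ne_zero hG0 (pow_ne_zero _ hP0')),
      Place.ord_mul Q hG0 (pow_ne_zero _ hP0'), Fermat.Agent.Lib.RR.ord_algebraMap,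
      Fermat.Agent.Lib.RR.ord_pow, Fermat.Agent.Lib.RR.ord_pow, Fermat.Agent.Lib.RR.ord_pow,
      hPord'] at hord
    have e : Q.ord hG - ((b : ℤ) - a) * ((q - 1 : ℕ) : ℤ) * Q.ord (jC (kA A) M') =
        (n : ℤ) * Q.ord hf := by
      linear_combination -hord
    rw [e]
    exact Dvd.dvd.mul_left hcf _

end Glue

end Fermat.Agent.S59.LoSqC.H862

end

end
-- ===== PACK-END S59/LoSqC/H862/NodeRelDeg.lean

-- ===== PACK-BEGIN S59/LoSqC/H862/NodeRel.lean
section




/-!
# S59 / cell (C) LO-SQ / W-COUNT, sub-leaf NODE-REL — E-form, EVERY exponent `m` (helper862)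

Level `M' q`, `q ∤ M'` (auxiliary condition `S35.G.HasAux M' q`), `A` over `q`, `E` a good level
with uniformiser `w = q` (e.g. the inertia field), finite chart `Bf = chartAlg (x)`, `x = j · j_q`,
with ANY semistable chart structure `cf` (components `cf.p₁`, `cf.p₂`), THICKNESS ONE at the nodes
as a hypothesis (`Th1At` = the conclusion of `S36.H803.Th1Statement`).

**`nodeRelE`** : for `f ∈ F_E^×` with `m ∣ div f` (over `E` and over `ℚ̄`) and branch valuations
`v₁`, `v₂` along the two components: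

  `m ∣ (q - 1) · ψ(M') · (v₁ - v₂)`.

So the slopes `v₁ - v₂ mod m` of the Kummer generators of the inertia-fixed `m`-torsion classes
are killed by the constant `s = (q - 1) ψ(M')`, INDEPENDENT of `m` (in particular for all
`m = p ^ n`, `p = 3` included).

Proof: the calibrated function `G = f¹² (Δ(t)/Δ(t^q))^(v₁ - v₂) q^(-12 v₁)` is pure at every
closed point of the special fibre (`chartPureQ_calibE_th1`), hence its reduction on `C∞` lies in
`k(X₀(M'))` with `m`-divisible orders off the cusps (`Ribet.H472.nodeGenOfPure`); at the cusps the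
orders of the reduction of `f` are divisible by `m` (`Ribet.H644.cuspGenInf`) and the reduction of
the unit is `H̄(j)^{±1}` (Hasse polynomial, degree `q - 1`); the degree of a principal divisor on
`X₀(M')_k` is zero (`slopeRel_of_nodeGen`).
-/

set_option autoImplicit false
set_option linter.unusedSectionVars false
set_option linter.unusedVariables false
set_option linter.style.haveILetI false
set_option synthInstance.maxHeartbeats 400000
set_option maxHeartbeats 1600000

noncomputable section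

open AlgebraicCurve

namespace Fermat.Agent.S59.LoSqC.H862

open ModularCurve HahnSeries
open Fermat.Agent.S24 Fermat.Agent.Ribet.H884 Fermat.Agent.Ribet.H158.WallQ
open Fermat.Agent.A2.Mod Fermat.Agent.Ribet.H868
open Fermat.Agent.Ribet.H704 (I6.ValAt)

variable (m q M' : ℕ) [NeZero M'] [NeZero q] [NeZero (q * M')]

/-- The algebra of the slope relation, with the exponents recorded:
`G' = f₀¹² (D⁻¹)^(v₁ - v₂) c₀^(-12 v₁)` ⟹ `G' D^b = (c₀^(-v₁) f₀)¹² D^a`, `a - b = v₂ - v₁`. -/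
theorem exists_slope_rel862 {K F : Type*} [Field K] [Field F] [Algebra K F] (c₀ : K)
    (f₀ D G' : F) (hD0 : D ≠ 0) (v₁ v₂ : ℤ)
    (hG' : G' = f₀ ^ 12 * (D⁻¹) ^ (v₁ - v₂) * (algebraMap K F c₀) ^ (-((12 : ℕ) : ℤ) * v₁)) :
    ∃ a b : ℕ, (a : ℤ) - b = v₂ - v₁ ∧
      G' * D ^ b = (algebraMap K F (c₀ ^ (-v₁)) * f₀) ^ 12 * D ^ a := by
  have hf12 : (algebraMap K F (c₀ ^ (-v₁)) * f₀) ^ 12 = f₀ ^ 12 *
      (algebraMap K F c₀) ^ (-((12 : ℕ) : ℤ) * v₁) := by
    rw [mul_pow, map_zpow₀, ← zpow_natCast, ← zpow_mul, mul_comm (f₀ ^ 12)]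
    congr 2
    ring
  have hG'' : G' = (algebraMap K F (c₀ ^ (-v₁)) * f₀) ^ 12 * D ^ (v₂ - v₁) := by
    rw [hG', hf12, inv_zpow', neg_sub]
    ring
  rcases le_total v₁ v₂ with hle | hle
  · refine ⟨(v₂ - v₁).toNat, 0, ?_, ?_⟩
    · rw [Int.toNat_of_nonneg (by omega)]
      simp
    · rw [pow_zero, mul_one, hG'', ← zpow_natCast D (v₂ - v₁).toNat,
        Int.toNat_of_nonneg (by omega)]
  · refine ⟨0, (v₁ - v₂).toNat, ?_, ?_⟩
    · rw [Int.toNat_of_nonneg (by omega)]
      simp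
    · rw [pow_zero, mul_one, hG'', ← zpow_natCast D (v₁ - v₂).toNat,
        Int.toNat_of_nonneg (by omega), mul_assoc, ← zpow_add₀ hD0]
      have : v₂ - v₁ + (v₁ - v₂) = 0 := by ring
      rw [this, zpow_zero, mul_one]

/-- **NODE-REL, E-form, every exponent `m`**, from thickness one. -/
theorem nodeRelE (hm : 0 < m) (hq : q.Prime) (hqM : ¬ q ∣ M') (hAux : S35.G.HasAux M' q)
    (A : ValuationSubring Kbar) (hA : A.LiesOverPrime q)
    (E : IntermediateField ℚ (AlgebraicClosure ℚ)) (w : RE A E) (hS : Setting A E M' q w)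
    (hE : A2.GoodField A E) (hwq : (w : E) = (q : E)) (hTh1 : Th1At A E M' q w)
    (cf : A2.SSChart w (chartAlg A E (M' * q) (xE E M' q)))
    (f : FE E (M' * q)) (hf : f ≠ 0) (hdivE : A2.DivisibleDiv E m f)
    (hdivK : ∀ v : Place Kbar (FF (q * M')),
      (m : ℤ) ∣ v.ord (toFF E (Nat.mul_comm M' q) f))
    (v₁ v₂ : ℤ)
    (hv₁ : I6.ValAt (FE E (M' * q)) cf.p₁
      (algebraMap ↥(RE A E) ↥(chartAlg A E (M' * q) (xE E M' q)) w) f v₁)
    (hv₂ : I6.ValAt (FE E (M' * q)) cf.p₂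
      (algebraMap ↥(RE A E) ↥(chartAlg A E (M' * q) (xE E M' q)) w) f v₂) :
    (m : ℤ) ∣ (((q - 1) * dedekindPsi M' : ℕ) : ℤ) * (v₁ - v₂) := by
  obtain ⟨w₁, w₂, hw, hpure⟩ := chartPureQ_calibE_th1 A E M' q m hm w hS hE hAux hwq hTh1 cf f hf
    hdivE v₁ v₂ hv₁ hv₂
  -- the dictionary
  have hG0 : calibE A E M' q w w₁ w₂ f ≠ 0 := calibE_ne_zero A E M' q w hS.unif.ne_zero w₁ w₂ hf
  obtain ⟨r₁, r₂, hr₁, -, hP₁, -⟩ := Fermat.Agent.Ribet.H472.nodeGenOfPure hS hE m
    (calibE A E M' q w w₁ w₂ f) (toFF E (Nat.mul_comm M' q) (calibE A E M' q w w₁ w₂ f)) hG0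
    (coe_toFF E (Nat.mul_comm M' q) _) hpure
  -- the slope relation
  have hG' := toFF_calibE q M' A E w hwq w₁ w₂ f
  have hqK : (q : Kbar) ≠ 0 := Nat.cast_ne_zero.mpr hq.ne_zero
  obtain ⟨a, b, hab, hrel⟩ := exists_slope_rel862 (q : Kbar) _ (unitFF q M') _
    (unitFF_ne_zero q M') w₁ w₂ hG'
  have hf' : toFF E (Nat.mul_comm M' q) f ≠ 0 :=
    (map_ne_zero_iff _ (toFF E (Nat.mul_comm M' q)).injective).mpr hf
  have hc0 : algebraMap Kbar (FF (q * M')) ((q : Kbar) ^ (-w₁)) ≠ 0 := by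
    rw [Ne, map_eq_zero]
    exact zpow_ne_zero _ hqK
  have hdiv' : ∀ v : Place Kbar (FF (q * M')),
      (m : ℤ) ∣ v.ord (algebraMap Kbar (FF (q * M')) ((q : Kbar) ^ (-w₁)) *
        toFF E (Nat.mul_comm M' q) f) := by
    intro v
    rw [Place.ord_mul v hc0 hf', Fermat.Agent.Lib.RR.ord_algebraMap, zero_add]
    exact hdivK v
  have hmain := slopeRel_of_nodeGen m q M' hq hqM hAux hm A hA _ _ (mul_ne_zero hc0 hf') hdiv'
    12 a b hrel r₁ hr₁ hP₁
  rw [hab] at hmain
  rcases hw with ⟨h1, h2⟩ | ⟨h1, h2⟩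
  · rw [h1, h2] at hmain
    have e : (((q - 1) * dedekindPsi M' : ℕ) : ℤ) * (v₁ - v₂) =
        -((v₂ - v₁) * (((q - 1) * dedekindPsi M' : ℕ) : ℤ)) := by ring
    rw [e, dvd_neg]
    exact hmain
  · rw [h1, h2] at hmain
    rw [mul_comm]
    exact hmain

end Fermat.Agent.S59.LoSqC.H862

end

end
-- ===== PACK-END S59/LoSqC/H862/NodeRel.lean

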