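import Fermat.Prelude.Def_FLTPrelim_ModularRep
import Fermat.Agent.Pack.S59C.E13L1
import Fermat.Agent.Pack.S59C.E12L1
import Fermat.Agent.Pack.S59C.E13L0
import Fermat.Agent.Pack.S44C.G0E29L1
import Fermat.Agent.Pack.S44C.G0E30L1
import Fermat.Agent.Pack.S43MC.G0E26L3
import Fermat.Agent.Pack.S59C.E8L0
import Fermat.Agent.Pack.S44C.G0E18L3
import Fermat.Agent.Pack.S43MC.G0E28L1
import Fermat.Agent.Pack.S43MC.G0E26L1
import Fermat.Agent.Pack.S44C.G0E27L2
import Fermat.Agent.Pack.S44C.G0E25L3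
import Fermat.Agent.Pack.S43MC.G0E19L3
import Fermat.Agent.Pack.S43MC.G0E28L2
import Fermat.Agent.Pack.S43MC.G0E24L3
import Fermat.Agent.Pack.S44C.G0E26L0
import Fermat.Agent.Pack.S44C.G0E26L2
import Fermat.Agent.Pack.S44C.G0E23L3
import Fermat.Agent.Pack.S44C.G0E28L2
import Fermat.Agent.Pack.S59C.E11L2
import Fermat.Agent.Pack.S59C.E11L0
import Fermat.Agent.Pack.S44C.G0E30L3
import Fermat.Agent.Pack.S59C.E10L0
import Fermat.Agent.Pack.S44C.G0E10L2
import Fermat.Agent.Pack.S43MC.G0E28L3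
import Fermat.Agent.Pack.S43MC.G0E29L0
import Fermat.Agent.Pack.S59C.E13L3
import Fermat.Agent.Pack.S44C.G0E29L3
import Fermat.Agent.Pack.S43MC.G0E27L1
import Fermat.Agent.Pack.S44C.G0E29L0
import Fermat.Agent.Pack.S43MC.G0E28L0
import Fermat.Agent.Pack.S43MC.G0E22L1
import Fermat.Agent.Pack.S43MC.G0E21L0
import Fermat.Agent.Pack.S59C.E10L1
import Fermat.Agent.Pack.S43MC.G0E27L3
import Fermat.Agent.Pack.S43MC.G0E20L3
import Fermat.Agent.Pack.S43MC.G0E12L1
import Fermat.Agent.Pack.S43MC.G0E9L3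
import Fermat.Agent.Pack.S44C.G0E12L2
import Fermat.Agent.Pack.S43MC.G0E16L0

set_option linter.all false

-- ===== PACK-BEGIN S59/TW/H659/Clean/S33Final.lean
section
/-
Row S59 / HARD (helper659): the frozen statement S33 as a `Prop`, on the REALIZER-FREE chain.

Same term as `Fermat/Agent/S33.lean` (helper409), with `S33.result_of_key` replaced by
`Clean.s33_of_key659`: the closure of this file contains none of the four modules which realize
`S31.powTr.eq_def`, so it can be imported together with `S31.lean`, `S34.lean`, `S59/G4/*`.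
-/







set_option autoImplicit false

namespace Fermat.Agent.S59.TW.H659.Clean

/-- **The frozen statement S33**, as a `Prop`, on the realizer-free chain. -/
theorem s33Statement_clean659 : Fermat.Agent.S33.S33Statement :=
  s33_of_key659
    (Fermat.Agent.S33.H849.keyStatement_of_chain
      Fermat.Agent.Ribet.H573.splitLift
      Fermat.Agent.Ribet.H279.NC.normContr
      Fermat.Agent.S33.H558.deepKummerReady
      Fermat.Agent.S33.H692.oldAugStatement)

end Fermat.Agent.S59.TW.H659.Clean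

end
-- ===== PACK-END S59/TW/H659/Clean/S33Final.lean

-- ===== PACK-BEGIN S59/TW/H659/PkgMain.lean
section

















/-!
# Row S59 cell TW / row HARD: the Hecke package with the landed rows plugged in (helper659)

* `pkg : TW.PkgStatement` — UNCONDITIONAL (S23, S30, S31, S32, S33, S34 and TW-STRICT are on main);
* `pkgFlat : PkgFlatStatement` — UNCONDITIONAL, the flat type (row HARD);
* `pkg_of_s33 : S33Statement → TW.PkgStatement`.

PLAIN TOPS ONLY (QA helper33 / helper13, lead ruling on packed replacements): this file imports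
NO statement module `Fermat/Agent/SNN.lean` (they may be replaced by packed versions); the short
proof terms below are the bodies of the landed `S23.result`, `S30.result`, `S31.result`,
`S34.result`, applied to the plain tops of these rows.

COLLISION NOTE (`coord/CI-realized-collisions-helper475.md`): the closure of this file contains
`S31/H22/PowTr.lean` (through `S31/H22`, `S34/K789`, `S59/G4`), so S32 and S33 are taken from the
realizer-free chains `Clean/S32.lean`, `Clean/S33Final.lean` and NOT from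
`Fermat/Agent/S32.lean`, `Fermat/Agent/S33.lean` (`S31/H982/TracePow.lean`).
-/

set_option autoImplicit false

namespace Fermat.Agent.S59.TW.H659

theorem s23Shape : S23Shape := fun N _ => Fermat.Agent.S23.Cap.hasIntegralStructure N 2

theorem s30Statement659 : Fermat.Agent.S31.S30Statement := by
  intro p _ N _ S hpS hNS 𝒪' _ _ _ _ _ _ hp𝒪' χ
  exact Fermat.Agent.S30.Chain.result_of_T
    (Fermat.Agent.S30.H694.torsionRelations_of_nodes
      (fun M _ _ _ hℓM A hA => Fermat.Agent.S18.Mod.H216.node_mod M hℓM A hA)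
      (fun M => Fermat.Agent.S18.H438.node_alg M))
    p N S hpS hNS 𝒪' hp𝒪' χ

theorem s31Shape : S31Shape :=
  fun hp hp𝒪 hpS hNS H q hq hqS =>
    Fermat.Agent.S31.H22.result_of_S30 s30Statement659 hp hp𝒪 hpS hNS H q hq hqS

theorem s32Statement659 : Fermat.Agent.S32.S32Statement := Clean.s32Statement_clean659

theorem s34Shape : S34Shape :=
  fun hp hp𝒪 => fun hpS hNS => fun H q hq hqp hqN hq2 =>
    Fermat.Agent.S34.K789.result_of_wall
      (Fermat.Agent.A2.Top.H96.wall_noSep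
        (fun P E M q _ _ w => Fermat.Agent.A2.Mod.H142.s2 P E M q w)
        (fun P E M q _ _ w => Fermat.Agent.A2.Mod.H372.s3_of_leaves P E M q w
          (Fermat.Agent.A2.Mod.H751.frickeExists E)
          (Fermat.Agent.A2.Mod.H751.frickeCompat E M q)
          (Fermat.Agent.A2.Mod.H900.frickeStable P E M q w)
          (Fermat.Agent.A2.Mod.H31.deg E M q)
          (Fermat.Agent.A2.Mod.H378.resInf P E M q w)
          (Fermat.Agent.A2.Mod.H96.kron P E M q w)
          (Fermat.Agent.A2.Mod.H142.s2 P E M q w))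
        Fermat.Agent.A2.Top.H216.goodRedStatement)
      hp hp𝒪 hpS hNS H q hq hqp hqN hq2

/-- **PKG, flat type** — unconditional. -/
theorem pkgFlat : PkgFlatStatement :=
  pkgFlat_of s23Shape s30Statement659 s31Shape s32Statement659 s34Shape

/-- **PKG** from the frozen S33. -/
theorem pkg_of_s33 (h33 : Fermat.Agent.S33.S33Statement) : PkgStatement :=
  pkg_of s23Shape s30Statement659 s31Shape s32Statement659 h33 s34Shape
    Fermat.Agent.S59.H649.twStrict

/-- **PKG** — unconditional. -/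
theorem pkg : PkgStatement := pkg_of_s33 Clean.s33Statement_clean659

end Fermat.Agent.S59.TW.H659

end
-- ===== PACK-END S59/TW/H659/PkgMain.lean

-- ===== PACK-BEGIN S59/TW/H659/OrdDatumMain.lean
section



/-!
# Row S59, cell NMP, leaf DATUM with the landed rows plugged in (helper659)

`ordDatum659 : NMP.OrdDatumStatement` — UNCONDITIONAL: `NMP.H935.ordDatum_of` (helper935) applied
to G4 (`G4.g4_of`, S30), S31, S33, S34.  S33 is taken from the realizer-free chain
`Clean/S33Final.lean` (see the collision note in `PkgMain.lean`); S30, S31, S34 are the plain-top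
forms `s30Statement659`, `s31Shape`, `s34Shape` of `PkgMain.lean` (no statement module
`Fermat/Agent/SNN.lean` of the rows S30-S34 is imported by this file or by `PkgMain.lean`).
-/

set_option autoImplicit false

namespace Fermat.Agent.S59.TW.H659

/-- **G4** — unconditional (S30, RED, POINTS, TRFN, RES2 are on main). -/
theorem g4Statement659 : Fermat.Agent.S59.G4.G4Statement :=
  Fermat.Agent.S59.G4.g4_of s30Statement659 Fermat.Agent.S59.G4.H547.red
    Fermat.Agent.S59.G4.H109.points Fermat.Agent.S59.G4.H532.traceFn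
    Fermat.Agent.S59.G4.H109.resStatement2

/-- **Leaf DATUM of the cell NMP** — unconditional. -/
theorem ordDatum659 : Fermat.Agent.S59.NMP.OrdDatumStatement :=
  Fermat.Agent.S59.NMP.H935.ordDatum_of g4Statement659
    (fun hp hp𝒪 hpS hNS H q hq hqS => s31Shape hp hp𝒪 hpS hNS H q hq hqS)
    (fun hp hp2 hp𝒪 hN hNS H hres =>
      Clean.s33Statement_clean659 hp hp2 hp𝒪 hN hNS H hres)
    (fun hp hp𝒪 => fun hpS hNS => fun H q hq hqp hqN hq2 =>
      s34Shape hp hp𝒪 hpS hNS H q hq hqp hqN hq2)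

end Fermat.Agent.S59.TW.H659

end
-- ===== PACK-END S59/TW/H659/OrdDatumMain.lean

-- ===== PACK-BEGIN S59/LOQ/H213/Final.lean
section







/-!
# Row S59, sub-row LO-Q: the row inputs plugged (helper213)

`mazurW35_of_targets35 : TargetsW35Statement → LOW.MazurW35Statement` — every other input of
`mazurW35_of_targets` is on main, unconditional.
-/

set_option autoImplicit false

namespace Fermat.Agent.S59.LOQ.H213

open Fermat.Agent.Ribet Fermat.Agent.Ribet.Spec

/-- (DETF-W), from `H823.h823_detFrobW`. -/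
theorem detFrobW : DetFrobWStatement :=
  fun W p hΔ hp hirr q hq hqp A hA φ hφ =>
    Fermat.Agent.Ribet.H823.h823_detFrobW W p hΔ hp hirr q hq hqp A hA φ hφ

/-- (DIM-W), from `H823.h823_finrankW`. -/
theorem torsionRankW : TorsionRankWStatement :=
  fun _ p hΔ hp =>
    haveI : Fact p.Prime := ⟨hp⟩
    Fermat.Agent.Ribet.H823.h823_finrankW hΔ p

/-- **LO-Q from its ONE leaf.** -/
theorem mazurW35_of_targets35 (hT : TargetsW35Statement) :
    Fermat.Agent.S59.Arch.LOW.MazurW35Statement :=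
  mazurW35_of_targets Fermat.Agent.Ribet.H823.embedW Fermat.Agent.Ribet.H883.nonEisW
    Fermat.Agent.Ribet.H404.eigenformOfOccursAway Fermat.Agent.Ribet.H943.Final.almostAllToWitnessW
    Fermat.Agent.Ribet.H584.places detFrobW torsionRankW hT

/-- **LO-Q from its six cells.** -/
theorem mazurW35_of_cells35 (h5g : T5GoodStatement) (h5t : T5TwoStatement)
    (h53 : T5Desc3Statement) (h52 : T5Desc2Statement) (h3n : T3NeatStatement)
    (h3r : T3RestStatement) : Fermat.Agent.S59.Arch.LOW.MazurW35Statement :=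
  mazurW35_of_targets35 (targetsW35_of_cells h5g h5t h53 h52 h3n h3r)

end Fermat.Agent.S59.LOQ.H213

end
-- ===== PACK-END S59/LOQ/H213/Final.lean

-- ===== PACK-BEGIN Ribet/H924/DescendAlpha.lean
section


/-!
# WALL-q, leaf (Q3) EIGEN-LIFT: the GENERIC `α`-descent (helper924)

`Ribet/H924/EigenLiftThree.lean` treats the corner case `q = 3`, `M'` odd through the level
`2M'`.  Nothing there is special to `(q, ℓ) = (3, 2)`: for primes `q ≠ ℓ` with `q ∤ M'`,
`ℓ ∤ M'` and ANY prime `p ≠ q` with `gcd (ℓ + 1, p) = 1` (no `5 ≤ p`, no `q ≠ 2`, `p ∣ M'`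
allowed), the strong form of EIGEN-LIFT at the ONE level `ℓ M'` gives EIGEN-LIFT at the level
`M'`:

* `StrongLiftAt p N A` : the conclusion of `EigenLiftStrongStatement` at the level `N` and the
  valuation ring `A`;
* `occursIn_down_gen` : **DOWN** (`z = α_* z'` is a nonzero eigenclass of level `M'`);
* `eigenLift_descend_alpha` : `StrongLiftAt p (ℓ * M') A → ∀ S a h, IsRedEigen p M' S a h →
    ∃ S', S ⊆ S' ∧ OccursIn M' p S' a`;
* instances: `eigenLift_two_of_three` (`q = 2`, through the level `3M'`: the twin of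
  EIGEN-LIFT-3) and `eigenLift_three_of_two` (`q = 3`, through `2M'`, now for every prime
  `p ≠ 3`).
-/

set_option autoImplicit false
set_option linter.style.haveILetI false
set_option linter.unusedSectionVars false
set_option synthInstance.maxHeartbeats 400000
set_option maxHeartbeats 1600000

noncomputable section

namespace Fermat.Agent.Ribet.H924

open AlgebraicCurve ModularCurve HahnSeries IsLocalRing
open Fermat.Agent.S24 Fermat.Agent.A2.H708
open Fermat.Agent.S37.Red (Qb FN FNk ModVG modO modρ)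
open Fermat.Agent.Ribet.Spec (OccursIn)
open Fermat.Agent.Ribet.H944.Wall (EigenAt)
open Fermat.Agent.Ribet.H884 (IsKummerGen IsRedInf kA)
open Fermat.Agent.Ribet.H997 (IsRedSer)
open Fermat.Agent.Ribet.H158.WallQ (PPowSeries)
open Fermat.Agent.Ribet.H523.Q3 (KronEigen IsRedEigen)
open Fermat.Agent.S29.H395 (normAlong)
open Fermat.Agent.S29.H801 (alphaTo)

/-- **Strong EIGEN-LIFT at ONE level** `N` (residue field of `A`): every Kummer function `h` of
a nonzero eigenclass of `Pic⁰(X₀(N)_k)[p]` lifts to an eigenclass `z ∈ J₀(N)[p]` with a Kummer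
generator whose reduction is `c · h · u ^ p`. -/
def StrongLiftAt (p N : ℕ) [NeZero N] (A : ValuationSubring Kbar) : Prop :=
  ∀ (S : Finset ℕ) (a : ℕ → ℤ) (h : modularFunctionFieldFullC (_root_.Fermat.Agent.Ribet.H884.kA A) N),
    IsRedEigen p N S a h →
    ∃ (S' : Finset ℕ) (z : JZero N) (f : FF N) (c : _root_.Fermat.Agent.Ribet.H884.kA A)
      (u : modularFunctionFieldFullC (_root_.Fermat.Agent.Ribet.H884.kA A) N),
      S ⊆ S' ∧ p • z = 0 ∧ EigenAt N S' a z ∧ IsKummerGen N p f z ∧ c ≠ 0 ∧ u ≠ 0 ∧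
      IsRedInf N A f
        (HahnSeries.C c * (h : LaurentSeries (_root_.Fermat.Agent.Ribet.H884.kA A)) * (u : LaurentSeries (_root_.Fermat.Agent.Ribet.H884.kA A)) ^ p)

/-- The strong statement at good levels gives `StrongLiftAt`. -/
theorem strongLiftAt_of_strong (hS : EigenLiftStrongStatement) {p q N : ℕ} [NeZero N]
    (hp : p.Prime) (hp5 : 5 ≤ p) (hq : q.Prime) (hq2 : q ≠ 2) (hqp : q ≠ p) (hqN : ¬ q ∣ N)
    (hgood : 5 ≤ q ∨ 2 ∣ N) {A : ValuationSubring Kbar} (hA : A.LiesOverPrime q) :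
    StrongLiftAt p N A :=
  fun S a h hh => hS p q N hp hp5 hq hq2 hqp hqN hgood A hA S a h hh

section DownGen

variable {p q ℓ M' : ℕ} [NeZero M'] [NeZero ℓ] [NeZero (ℓ * M')] {A : ValuationSubring Kbar}

/-- **DOWN**, generic: `α_*` of the strong lift at level `ℓ M'` is a nonzero eigenclass at
level `M'`, provided `gcd (ℓ + 1, p) = 1`. -/
theorem occursIn_down_gen (hp : p.Prime) (hq : q.Prime) (hℓ : ℓ.Prime) (hqℓ : q ≠ ℓ)
    (hqM : ¬ q ∣ M') (hℓM : ¬ ℓ ∣ M') (hcop : Nat.Coprime (ℓ + 1) p)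
    (hA : A.LiesOverPrime q) {S' : Finset ℕ} {a : ℕ → ℤ}
    (h : modularFunctionFieldFullC (_root_.Fermat.Agent.Ribet.H884.kA A) M') (hh0 : h ≠ 0)
    (hnpow : ¬ PPowSeries p M' (h : LaurentSeries (_root_.Fermat.Agent.Ribet.H884.kA A)))
    (z' : JZero (ℓ * M')) (f' : FF (ℓ * M')) (c : _root_.Fermat.Agent.Ribet.H884.kA A)
    (u : modularFunctionFieldFullC (_root_.Fermat.Agent.Ribet.H884.kA A) (ℓ * M')) (hz' : p • z' = 0)
    (heig : EigenAt (ℓ * M') S' a z') (hK : IsKummerGen (ℓ * M') p f' z') (hc : c ≠ 0)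
    (hu : u ≠ 0)
    (hred : IsRedInf (ℓ * M') A f'
      (HahnSeries.C c * (h : LaurentSeries (_root_.Fermat.Agent.Ribet.H884.kA A)) * (u : LaurentSeries (_root_.Fermat.Agent.Ribet.H884.kA A)) ^ p)) :
    OccursIn M' p (S' ∪ {ℓ}) a := by
  refine ⟨Fermat.Agent.Ribet.H801.alphaL ℓ M' z', ?_, ?_, ?_⟩
  · -- nonzero
    intro hz0
    obtain ⟨hf'0, D, hD, hord⟩ := hK
    rw [← hD] at hz0
    obtain ⟨g, hg0, hNg⟩ := (Fermat.Agent.Ribet.H801.alphaL_mk_eq_zero_iff ℓ M' (m := p)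
      hp.ne_zero D hf'0 (fun w => (hord w).symm)).mp hz0
    -- NORM-RED
    obtain ⟨c₁, v, hc₁, hv, hNred⟩ := normRed_kummer_to (Nat.mul_comm M' ℓ) hq hℓ hqM
      hqℓ hℓM hA p f' c h u hc hu hred
    rw [hNg] at hNred
    -- a reduction of `g`
    have hVG₀ : ModVG M' A := modVG_of_prime hq hqM hA
    obtain ⟨cg, ug, hcg, hug, hgu⟩ := exists_cst_mul_unit hVG₀ hg0
    have hredg : IsRedInf M' A g ((modρ hVG₀ ug : FNk A M') : LaurentSeries (_root_.Fermat.Agent.Ribet.H884.kA A)) := by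
      have h1 := isRedSer_cst_mul (isRedSer_of_modO hVG₀ ug hug) hcg
      show IsRedSer A (g : LaurentSeries Kbar) _
      rw [hgu]
      exact h1
    have hredgp := Fermat.Agent.Ribet.H944.I2.isRedInf_pow M' A hredg p
    obtain ⟨w, hw, hw'⟩ := Fermat.Agent.Ribet.H997.isRedInf_unique hredgp hNred
    -- the identity in `k(X₀(M'))`
    set R : FNk A M' := modρ hVG₀ ug with hR
    have hfield : algebraMap (_root_.Fermat.Agent.Ribet.H884.kA A) (FNk A M') c₁ * h ^ (ℓ + 1) * v ^ p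
        = algebraMap (_root_.Fermat.Agent.Ribet.H884.kA A) (FNk A M') w * R ^ p := by
      apply Subtype.ext
      show ((algebraMap (_root_.Fermat.Agent.Ribet.H884.kA A) (FNk A M') c₁ : FNk A M') : LaurentSeries (_root_.Fermat.Agent.Ribet.H884.kA A))
          * (h : LaurentSeries (_root_.Fermat.Agent.Ribet.H884.kA A)) ^ (ℓ + 1) * (v : LaurentSeries (_root_.Fermat.Agent.Ribet.H884.kA A)) ^ p
        = ((algebraMap (_root_.Fermat.Agent.Ribet.H884.kA A) (FNk A M') w : FNk A M') : LaurentSeries (_root_.Fermat.Agent.Ribet.H884.kA A))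
          * (R : LaurentSeries (_root_.Fermat.Agent.Ribet.H884.kA A)) ^ p
      rw [coe_algebraMap_fullC, coe_algebraMap_fullC]
      exact hw'
    have hc₁' : algebraMap (_root_.Fermat.Agent.Ribet.H884.kA A) (FNk A M') c₁ ≠ 0 :=
      (map_ne_zero_iff _ (algebraMap (_root_.Fermat.Agent.Ribet.H884.kA A) (FNk A M')).injective).mpr hc₁
    have hpow3 : h ^ (ℓ + 1) = algebraMap (_root_.Fermat.Agent.Ribet.H884.kA A) (FNk A M') (w * c₁⁻¹) * (R * v⁻¹) ^ p := by
      rw [map_mul, map_inv₀, mul_pow, inv_pow]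
      have hvp : v ^ p ≠ 0 := pow_ne_zero p hv
      field_simp
      rw [← hfield]
      ring
    obtain ⟨s, t, hst⟩ := exists_bezout_int hcop
    have key := eq_zpow_mul_pow_of_pow p (ℓ + 1) hh0 hpow3 s t hst
    apply hnpow
    have hR0 : R ≠ 0 := hug
    refine ⟨(w * c₁⁻¹) ^ s, (R * v⁻¹) ^ s * h ^ t,
      zpow_ne_zero _ (mul_ne_zero hw (inv_ne_zero hc₁)),
      mul_ne_zero (zpow_ne_zero _ (mul_ne_zero hR0 (inv_ne_zero hv))) (zpow_ne_zero _ hh0), ?_⟩
    have key' := congrArg (fun z : FNk A M' => (z : LaurentSeries (_root_.Fermat.Agent.Ribet.H884.kA A))) key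
    rw [← map_zpow₀] at key'
    refine key'.trans ?_
    show ((algebraMap (_root_.Fermat.Agent.Ribet.H884.kA A) (FNk A M') ((w * c₁⁻¹) ^ s) : FNk A M') : LaurentSeries (_root_.Fermat.Agent.Ribet.H884.kA A))
      * (((R * v⁻¹) ^ s * h ^ t : FNk A M') : LaurentSeries (_root_.Fermat.Agent.Ribet.H884.kA A)) ^ p = _
    rw [coe_algebraMap_fullC]
  · rw [← map_nsmul, hz', map_zero]
  · intro r hr
    have hrS : (r : ℕ) ∉ S' := fun hS => hr (Finset.mem_union_left _ hS)
    have hrℓ : (r : ℕ) ≠ ℓ :=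
      fun h2' => hr (Finset.mem_union_right _ (Finset.mem_singleton.mpr h2'))
    rw [← Fermat.Agent.Ribet.H801.alphaL_heckeOperatorBar ℓ M' hℓ r hrℓ, heig r hrS, map_zsmul]

end DownGen

/-- **The generic `α`-descent of EIGEN-LIFT**: from the strong lift at the level `ℓ M'` to
EIGEN-LIFT at the level `M'`, for primes `q ≠ ℓ` not dividing `M'` and every prime `p` with
`gcd (ℓ + 1, p) = 1`. -/
theorem eigenLift_descend_alpha {p q ℓ M' : ℕ} [NeZero M'] [NeZero (ℓ * M')] (hp : p.Prime)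
    (hq : q.Prime) (hℓ : ℓ.Prime) (hqℓ : q ≠ ℓ) (hqM : ¬ q ∣ M') (hℓM : ¬ ℓ ∣ M')
    (hcop : Nat.Coprime (ℓ + 1) p) {A : ValuationSubring Kbar} (hA : A.LiesOverPrime q)
    (hS : StrongLiftAt p (ℓ * M') A)
    (S : Finset ℕ) (a : ℕ → ℤ) (h : modularFunctionFieldFullC (_root_.Fermat.Agent.Ribet.H884.kA A) M')
    (hh : IsRedEigen p M' S a h) :
    ∃ S' : Finset ℕ, S ⊆ S' ∧ OccursIn M' p S' a := by
  haveI : NeZero ℓ := ⟨hℓ.ne_zero⟩
  have hqMℓ : ¬ q ∣ M' * ℓ := by
    intro hd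
    rcases (Nat.Prime.dvd_mul hq).mp hd with hd | hd
    · exact hqM hd
    · exact hqℓ ((Nat.prime_dvd_prime_iff_eq hq hℓ).mp hd)
  have hchar := natCast_ne_zero_kk hq hqMℓ hA
  obtain ⟨h', hh', hup⟩ := isRedEigen_up_to (Nat.mul_comm M' ℓ) hℓ hℓM hcop hchar hh
  obtain ⟨S', z', f', c, u, hSS', hz', heig, hK, hc, hu, hred⟩ := hS S a h' hup
  rw [hh'] at hred
  exact ⟨S' ∪ {ℓ}, hSS'.trans Finset.subset_union_left,
    occursIn_down_gen hp hq hℓ hqℓ hqM hℓM hcop hA h hh.1 hh.2.2.1 z' f' c u hz' heig hK hc hu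
      hred⟩

/-- `gcd (3 + 1, p) = 1` for every odd prime `p`. -/
theorem coprime_four_of_odd {p : ℕ} (hp : p.Prime) (hp2 : p ≠ 2) : Nat.Coprime (3 + 1) p := by
  rw [Nat.coprime_comm]
  apply (Nat.Prime.coprime_iff_not_dvd hp).mpr
  intro hdvd
  have h4 : p ∣ 2 * 2 := by simpa using hdvd
  rcases (Nat.Prime.dvd_mul hp).mp h4 with h | h <;>
    exact hp2 ((Nat.prime_dvd_prime_iff_eq hp Nat.prime_two).mp h)

/-- `gcd (2 + 1, p) = 1` for every prime `p ≠ 3`. -/
theorem coprime_three_of_ne {p : ℕ} (hp : p.Prime) (hp3 : p ≠ 3) : Nat.Coprime (2 + 1) p := by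
  rw [Nat.coprime_comm]
  apply (Nat.Prime.coprime_iff_not_dvd hp).mpr
  intro hdvd
  exact hp3 ((Nat.prime_dvd_prime_iff_eq hp Nat.prime_three).mp (by simpa using hdvd))

/-- **EIGEN-LIFT-2** (`q = 2`, `3 ∤ M'`), the twin of EIGEN-LIFT-3: through the level `3M'`
(a good level for `q = 2`), for every odd prime `p` (`p = 3` included). -/
theorem eigenLift_two_of_three {p M' : ℕ} [NeZero M'] [NeZero (3 * M')] (hp : p.Prime)
    (hp2 : p ≠ 2) (h2M : ¬ 2 ∣ M') (h3M : ¬ 3 ∣ M') {A : ValuationSubring Kbar}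
    (hA : A.LiesOverPrime 2) (hS : StrongLiftAt p (3 * M') A)
    (S : Finset ℕ) (a : ℕ → ℤ) (h : modularFunctionFieldFullC (_root_.Fermat.Agent.Ribet.H884.kA A) M')
    (hh : IsRedEigen p M' S a h) :
    ∃ S' : Finset ℕ, S ⊆ S' ∧ OccursIn M' p S' a :=
  eigenLift_descend_alpha hp Nat.prime_two Nat.prime_three (by decide) h2M h3M
    (coprime_four_of_odd hp hp2) hA hS S a h hh

/-- **EIGEN-LIFT-3** (`q = 3`, `2 ∤ M'`) for every prime `p ≠ 3`: through the level `2M'`. -/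
theorem eigenLift_three_of_two {p M' : ℕ} [NeZero M'] [NeZero (2 * M')] (hp : p.Prime)
    (hp3 : p ≠ 3) (h3M : ¬ 3 ∣ M') (h2M : ¬ 2 ∣ M') {A : ValuationSubring Kbar}
    (hA : A.LiesOverPrime 3) (hS : StrongLiftAt p (2 * M') A)
    (S : Finset ℕ) (a : ℕ → ℤ) (h : modularFunctionFieldFullC (_root_.Fermat.Agent.Ribet.H884.kA A) M')
    (hh : IsRedEigen p M' S a h) :
    ∃ S' : Finset ℕ, S ⊆ S' ∧ OccursIn M' p S' a :=
  eigenLift_descend_alpha hp Nat.prime_three Nat.prime_two (by decide) h3M h2M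
    (coprime_three_of_ne hp hp3) hA hS S a h hh

end Fermat.Agent.Ribet.H924

end

end
-- ===== PACK-END Ribet/H924/DescendAlpha.lean

-- ===== PACK-BEGIN Ribet/H924/EigenLiftAll.lean
section



/-!
# WALL-q, leaf (Q3) EIGEN-LIFT for ALL primes `p ≠ q` and ALL levels (helper924)

For row S59 (cell LO-Q, Mazur's principle in W-form at `p ∈ {3, 5}`, `q = 2` included) the leaf
EIGEN-LIFT of the (Q3) board is needed without `5 ≤ p` and without `q ≠ 2`.

* `eigenLift_strong_goodLevel` : the strong form of EIGEN-LIFT at every GOOD level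
  (`S37.Core.GoodLevel M q`: `5 ≤ q`, or `q = 3 ∧ 2 ∣ M`, or `q = 2 ∧ 3 ∣ M`), for every prime
  `p ≠ q`.  The proof is the one of `H523.Q3.eigenLiftGood_strong` (helper523) verbatim, with
  `H937.grSurj`, `H579.kumRed`, `H708.kronField` plugged and the good level passed as such.
* `strongLiftAt_goodLevel` : the same in the shape `H924.StrongLiftAt`.
* `eigenLift_all` : **EIGEN-LIFT at ALL levels, for all primes `p ≠ q`**: good levels directly,
  `q = 3` with `M'` odd through `2M'`, `q = 2` with `3 ∤ M'` through `3M'`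
  (`H924.eigenLift_descend_alpha`).
* `eigenLiftAllStatement` : the same as a closed `Prop`.
-/

set_option autoImplicit false
set_option linter.style.haveILetI false
set_option linter.unusedSectionVars false
set_option synthInstance.maxHeartbeats 400000
set_option maxHeartbeats 1600000

noncomputable section

namespace Fermat.Agent.Ribet.H924

open AlgebraicCurve ModularCurve HahnSeries
open Fermat.Agent.S24 Fermat.Agent.A2.H708 Fermat.Agent.A2.H528
open Fermat.Agent.Ribet.Spec Fermat.Agent.Ribet.H944.Wall Fermat.Agent.Ribet.H884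
open Fermat.Agent.Ribet.H158.WallQ
open Fermat.Agent.Ribet.H944.I2
open Fermat.Agent.S37.H400
open Fermat.Agent.Ribet.H523.Q3

/-- **EIGEN-LIFT at good levels, strong form, for every prime `p ≠ q`** (`q = 2` included). -/
theorem eigenLift_strong_goodLevel
    (p q M' : ℕ) [NeZero M'] (hp : p.Prime) (hq : q.Prime) (hqp : q ≠ p)
    (hqM : ¬ q ∣ M') (hgood : Fermat.Agent.S37.Core.GoodLevel M' q)
    (A : ValuationSubring Kbar) (hA : A.LiesOverPrime q)
    (S : Finset ℕ) (a : ℕ → ℤ) (h : modularFunctionFieldFullC (kA A) M')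
    (hh : IsRedEigen p M' S a h) :
    ∃ (z : JZero M') (f : FF M') (r : LaurentSeries (kA A)) (c : kA A)
      (u : modularFunctionFieldFullC (kA A) M'),
      z ≠ 0 ∧ p • z = 0 ∧ IsKummerGen M' p f z ∧ IsRedInf M' A f r ∧ c ≠ 0 ∧ u ≠ 0 ∧
      r = HahnSeries.C c * (h : LaurentSeries (kA A)) * (u : LaurentSeries (kA A)) ^ p ∧
      ∀ ℓ : Nat.Primes, (ℓ : ℕ) ∉ S ∪ (q * M' * p).primeFactors →
        heckeOperatorBar M' ℓ z = a ℓ • z := by
  classical
  obtain ⟨hac, hch⟩ := Fermat.Agent.Ribet.H939.resField q hq A hA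
  haveI := hac
  haveI := hch
  haveI : Fact q.Prime := ⟨hq⟩
  have hchar : ∀ p' : ℕ, p'.Prime → p' ∣ M' → (p' : kA A) ≠ 0 := by
    intro p' hp' hd h0
    have h1 : q ∣ p' := (CharP.cast_eq_zero_iff (kA A) q p').mp h0
    have h2 : q = p' := (Nat.prime_dvd_prime_iff_eq hq hp').mp h1
    exact hqM (h2 ▸ hd)
  haveI hpd : HasPrincipalDivisors (kA A) (modularFunctionFieldFullC (kA A) M') :=
    Fermat.Agent.S37.H868.hpd_fullC (kA A) M' hchar
  have hconst := Fermat.Agent.S18.H144.constOfOrdZero_fullC (kA A) M' hchar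
  have hRI : ReductionInputsModL A M' :=
    Fermat.Agent.S37.Core.rimStatement M' q hq hqM hgood A hA
  obtain ⟨h0, hdiv, hnpp, heig⟩ := hh
  obtain ⟨Eh, hEh⟩ := exists_degZero_of_dvd_ord (K := kA A) hp.ne_zero h0 hdiv
  -- the class `y` of `h`
  have hpy : p • (Pic0.mk Eh : JZeroC (kA A) M') = 0 := by
    have e : p • (Pic0.mk Eh : JZeroC (kA A) M') = Pic0.mk (p • Eh) := rfl
    rw [e]
    show (QuotientAddGroup.mk (p • Eh) : Pic0 (kA A) (modularFunctionFieldFullC (kA A) M')) = 0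
    refine (QuotientAddGroup.eq_zero_iff (p • Eh)).mpr ?_
    rw [AddSubgroup.mem_addSubgroupOf]
    refine ⟨h, h0, fun Q => ?_⟩
    rw [hEh Q]
    simp
  have hy0 : (Pic0.mk Eh : JZeroC (kA A) M') ≠ 0 := by
    intro hy
    obtain ⟨c, u, hc, hu, he⟩ := exists_const_mul_pow_of_mk_eq_zero hconst h0 hEh hy
    apply hnpp
    refine ⟨c, u, hc, hu, ?_⟩
    rw [he]
    show ((algebraMap (kA A) (modularFunctionFieldFullC (kA A) M') c : _) : LaurentSeries (kA A))
      * ((u : LaurentSeries (kA A))) ^ p = _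
    rw [show ((algebraMap (kA A) (modularFunctionFieldFullC (kA A) M') c : _) :
      LaurentSeries (kA A)) = HahnSeries.C c from Fermat.Agent.S18.H602.algebraMap_eq_C c]
  obtain ⟨z, hpz, hzy⟩ := Fermat.Agent.Ribet.H937.grSurj M' hqM hgood A hA p
    (fun hd => hqp ((Nat.prime_dvd_prime_iff_eq hq hp).mp hd)) _ hpy
  have hz0 : z ≠ 0 := by
    rintro rfl
    rw [map_zero] at hzy
    exact hy0 hzy.symm
  obtain ⟨f, hfK⟩ := exists_isKummerGen (N := M') p z hpz
  obtain ⟨r, hr⟩ := (Fermat.Agent.Ribet.H997.redExists q M' hq A hA f hfK.1).1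
  have hr0 : r ≠ 0 := (isRedInf_ne_zero M' A hr).2
  obtain ⟨g, E, hgr, hE, hord⟩ := Fermat.Agent.Ribet.H579.kumRed q M' p hq hqM A hA hRI z f r hfK hr
  have hg0 : g ≠ 0 := fun e => hr0 (by rw [← hgr, e]; rfl)
  obtain ⟨c, u, hc, hu, hgeq⟩ :=
    exists_const_mul_pow hconst hg0 h0 hord hEh (hE.trans hzy)
  have hcst : ∀ d : kA A, ((algebraMap (kA A) (modularFunctionFieldFullC (kA A) M') d : _) :
      LaurentSeries (kA A)) = HahnSeries.C d := fun d =>
    Fermat.Agent.S18.H602.algebraMap_eq_C d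
  have hrser : r = HahnSeries.C c * (h : LaurentSeries (kA A)) *
      (u : LaurentSeries (kA A)) ^ p := by
    rw [← hgr, hgeq]
    show ((algebraMap (kA A) (modularFunctionFieldFullC (kA A) M') c : _) :
      LaurentSeries (kA A)) * (h : LaurentSeries (kA A)) * (u : LaurentSeries (kA A)) ^ p = _
    rw [hcst]
  refine ⟨z, f, r, c, u, hz0, hpz, hfK, hr, hc, hu, hrser, ?_⟩
  -- the eigen-relation, by injectivity of the reduction on `p`-torsion
  intro ℓ hℓS'
  have hℓS : (ℓ : ℕ) ∉ S := fun e => hℓS' (Finset.mem_union_left _ e)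
  have hqMp0 : q * M' * p ≠ 0 :=
    Nat.mul_ne_zero (Nat.mul_ne_zero hq.ne_zero (NeZero.ne M')) hp.ne_zero
  have hℓN : ¬ (ℓ : ℕ) ∣ q * M' * p := fun hd =>
    hℓS' (Finset.mem_union_right _ (Nat.mem_primeFactors.mpr ⟨ℓ.2, hd, hqMp0⟩))
  have hℓM : ¬ (ℓ : ℕ) ∣ M' := fun hd =>
    hℓN (Dvd.dvd.mul_right (Dvd.dvd.mul_left hd q) p)
  have hℓq : (ℓ : ℕ) ≠ q := fun e =>
    hℓN (Dvd.dvd.mul_right (Dvd.dvd.mul_right (e ▸ dvd_refl _) M') p)
  haveI : NeZero (ℓ : ℕ) := ⟨ℓ.2.ne_zero⟩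
  obtain ⟨cℓ, G, hcℓ, hG, hKE⟩ := heig ℓ ℓ.2 hℓS
  obtain ⟨v, hv⟩ := Fermat.Agent.Ribet.H708.kronField q M' hq hqM A hA ℓ ℓ.2 hℓM hℓq u
  have hpw : p • (heckeOperatorBar M' ℓ z - a ℓ • z) = 0 := by
    have e1 : p • (heckeOperatorBar M' ℓ z) = 0 := by
      rw [← map_nsmul, hpz, map_zero]
    have e2 : p • (a ℓ • z) = 0 := by
      rw [smul_comm, hpz, smul_zero]
    rw [nsmul_sub, e1, e2, sub_zero]
  -- a Kummer generator of `w = T_ℓ z - a_ℓ z` and its reduction
  have hK1 : IsKummerGen M' p (Fermat.Agent.S29.H395.heckeNorm M' ℓ f)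
      (heckeOperatorBar M' ℓ z) :=
    Fermat.Agent.Ribet.H398.isKummerGen_heckeNorm M' ℓ p f z hfK
  have hKw : IsKummerGen M' p
      (Fermat.Agent.S29.H395.heckeNorm M' ℓ f * (f ^ (a ℓ))⁻¹)
      (heckeOperatorBar M' ℓ z - a ℓ • z) := by
    rw [sub_eq_add_neg]
    exact isKummerGen_mul M' p hK1 (isKummerGen_inv M' p (isKummerGen_zpow' M' p hfK (a ℓ)))
  have hR1 : IsRedInf M' A (Fermat.Agent.S29.H395.heckeNorm M' ℓ f) (kronNorm ℓ r) :=
    Fermat.Agent.Ribet.H376.isRedInf_heckeNorm' M' ℓ ℓ.2 hℓM A hr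
  have hRw : IsRedInf M' A (Fermat.Agent.S29.H395.heckeNorm M' ℓ f * (f ^ (a ℓ))⁻¹)
      (kronNorm ℓ r * (r ^ (a ℓ))⁻¹) :=
    isRedInf_mul M' A hR1 (isRedInf_inv M' A (isRedInf_zpow M' A hr (a ℓ)))
  obtain ⟨gw, Ew, hgw, hEw, hordw⟩ := Fermat.Agent.Ribet.H579.kumRed q M' p hq hqM A hA hRI _ _ _ hKw hRw
  -- the reduction is a constant times a `p`-th power in `F_k`
  have hh0 : (h : LaurentSeries (kA A)) ≠ 0 := fun e => h0 (Subtype.ext e)
  have hu0 : (u : LaurentSeries (kA A)) ≠ 0 := fun e => hu (Subtype.ext e)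
  have hua0 : u ^ (a ℓ) ≠ 0 := zpow_ne_zero _ hu
  have hcalc : gw = algebraMap (kA A) (modularFunctionFieldFullC (kA A) M')
      (c ^ ((ℓ : ℕ) + 1) * cℓ * (c ^ (a ℓ))⁻¹) * (G * v * (u ^ (a ℓ))⁻¹) ^ p := by
    apply Subtype.ext
    rw [hgw]
    show kronNorm ℓ r * (r ^ (a ℓ))⁻¹ =
      ((algebraMap (kA A) (modularFunctionFieldFullC (kA A) M')
        (c ^ ((ℓ : ℕ) + 1) * cℓ * (c ^ (a ℓ))⁻¹) : _) : LaurentSeries (kA A)) *
      ((G : LaurentSeries (kA A)) * (v : LaurentSeries (kA A)) *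
        ((u : LaurentSeries (kA A)) ^ (a ℓ))⁻¹) ^ p
    rw [hcst, hv, hrser, kronNorm_mul, kronNorm_mul, kronNorm_pow,
      Fermat.Agent.Ribet.H376.kronNorm_C, hKE]
    have hCc : (HahnSeries.C c : LaurentSeries (kA A)) ≠ 0 :=
      (map_ne_zero (HahnSeries.C : kA A →+* LaurentSeries (kA A))).mpr hc
    have e1 : (HahnSeries.C c * (h : LaurentSeries (kA A)) *
        (u : LaurentSeries (kA A)) ^ p) ^ (a ℓ) =
        HahnSeries.C (c ^ (a ℓ)) * (h : LaurentSeries (kA A)) ^ (a ℓ) *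
          ((u : LaurentSeries (kA A)) ^ (a ℓ)) ^ p := by
      rw [mul_zpow, mul_zpow, ← map_zpow₀ (HahnSeries.C : kA A →+* LaurentSeries (kA A)),
        ← zpow_natCast ((u : LaurentSeries (kA A))) p, ← zpow_mul,
        ← zpow_natCast ((u : LaurentSeries (kA A)) ^ (a ℓ)) p, ← zpow_mul, mul_comm (p : ℤ)]
    rw [e1]
    have hha0 : (h : LaurentSeries (kA A)) ^ (a ℓ) ≠ 0 := zpow_ne_zero _ hh0
    have hua0' : (u : LaurentSeries (kA A)) ^ (a ℓ) ≠ 0 := zpow_ne_zero _ hu0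
    have hca0 : (HahnSeries.C (c ^ (a ℓ)) : LaurentSeries (kA A)) ≠ 0 :=
      (map_ne_zero (HahnSeries.C : kA A →+* LaurentSeries (kA A))).mpr (zpow_ne_zero (a ℓ) hc)
    have hcl0 : (HahnSeries.C (c ^ ((ℓ : ℕ) + 1)) : LaurentSeries (kA A)) ≠ 0 :=
      (map_ne_zero (HahnSeries.C : kA A →+* LaurentSeries (kA A))).mpr (pow_ne_zero _ hc)
    have huap0 : ((u : LaurentSeries (kA A)) ^ (a ℓ)) ^ p ≠ 0 := pow_ne_zero _ hua0'
    rw [map_mul, map_mul, map_inv₀, mul_pow, mul_pow, inv_pow]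
    generalize (HahnSeries.C (c ^ ((ℓ : ℕ) + 1)) : LaurentSeries (kA A)) = X1 at hcl0 ⊢
    generalize (HahnSeries.C (c ^ (a ℓ)) : LaurentSeries (kA A)) = X2 at hca0 ⊢
    generalize (HahnSeries.C cℓ : LaurentSeries (kA A)) = X3
    generalize ((u : LaurentSeries (kA A)) ^ (a ℓ)) ^ p = X4 at huap0 ⊢
    generalize (h : LaurentSeries (kA A)) ^ (a ℓ) = X5 at hha0 ⊢
    generalize (G : LaurentSeries (kA A)) ^ p = X6
    generalize (kronNorm (ℓ : ℕ) (u : LaurentSeries (kA A))) ^ p = X7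
    field_simp
  have hgw_cst : c ^ ((ℓ : ℕ) + 1) * cℓ * (c ^ (a ℓ))⁻¹ ≠ 0 :=
    mul_ne_zero (mul_ne_zero (pow_ne_zero _ hc) hcℓ) (inv_ne_zero (zpow_ne_zero _ hc))
  have hv0 : v ≠ 0 := by
    intro e
    have h1 : kronNorm ℓ (u : LaurentSeries (kA A)) = 0 := by rw [← hv, e]; rfl
    exact Fermat.Agent.Ribet.H376.kronNorm_ne_zero_of_field ℓ.2 hu0 h1
  have hzero : (Pic0.mk Ew : JZeroC (kA A) M') = 0 :=
    mk_eq_zero_of_const_mul_pow (K := kA A) hp.ne_zero
      (mul_ne_zero (mul_ne_zero hG hv0) (inv_ne_zero hua0)) hcalc hordw hgw_cst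
  have hred0 : reductionModL A M' (heckeOperatorBar M' ℓ z - a ℓ • z) = 0 := by
    rw [← hEw, hzero]
  have hqp' : ¬ q ∣ p := fun hd => hqp ((Nat.prime_dvd_prime_iff_eq hq hp).mp hd)
  have hw := Fermat.Agent.S18.result M' hqM A hA hRI p hqp' _ hpw hred0
  exact sub_eq_zero.mp hw

/-- The strong lift at a good level, in the shape `StrongLiftAt`. -/
theorem strongLiftAt_goodLevel {p q N : ℕ} [NeZero N] (hp : p.Prime) (hq : q.Prime)
    (hqp : q ≠ p) (hqN : ¬ q ∣ N) (hgood : Fermat.Agent.S37.Core.GoodLevel N q)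
    {A : ValuationSubring Kbar} (hA : A.LiesOverPrime q) : StrongLiftAt p N A := by
  intro S a h hh
  obtain ⟨z, f, r, c, u, -, hpz, hK, hred, hc, hu, hr, heig⟩ :=
    eigenLift_strong_goodLevel p q N hp hq hqp hqN hgood A hA S a h hh
  refine ⟨S ∪ (q * N * p).primeFactors, z, f, c, u, Finset.subset_union_left, hpz, heig, hK,
    hc, hu, ?_⟩
  rw [← hr]
  exact hred

/-- EIGEN-LIFT at a good level, for every prime `p ≠ q`. -/
theorem eigenLift_goodLevel {p q M' : ℕ} [NeZero M'] (hp : p.Prime) (hq : q.Prime)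
    (hqp : q ≠ p) (hqM : ¬ q ∣ M') (hgood : Fermat.Agent.S37.Core.GoodLevel M' q)
    {A : ValuationSubring Kbar} (hA : A.LiesOverPrime q)
    (S : Finset ℕ) (a : ℕ → ℤ) (h : modularFunctionFieldFullC (kA A) M')
    (hh : IsRedEigen p M' S a h) :
    ∃ S' : Finset ℕ, S ⊆ S' ∧ OccursIn M' p S' a := by
  obtain ⟨z, f, r, c, u, hz0, hpz, -, -, -, -, -, heig⟩ :=
    eigenLift_strong_goodLevel p q M' hp hq hqp hqM hgood A hA S a h hh
  exact ⟨S ∪ (q * M' * p).primeFactors, Finset.subset_union_left, z, hz0, hpz, heig⟩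

/-- **EIGEN-LIFT at ALL levels, for all primes `p ≠ q`** (no `5 ≤ p`, no `q ≠ 2`; `p ∣ M'` is
allowed). -/
theorem eigenLift_all {p q M' : ℕ} [NeZero M'] (hp : p.Prime) (hq : q.Prime) (hqp : q ≠ p)
    (hqM : ¬ q ∣ M') {A : ValuationSubring Kbar} (hA : A.LiesOverPrime q)
    (S : Finset ℕ) (a : ℕ → ℤ) (h : modularFunctionFieldFullC (kA A) M')
    (hh : IsRedEigen p M' S a h) :
    ∃ S' : Finset ℕ, S ⊆ S' ∧ OccursIn M' p S' a := by
  rcases Fermat.Agent.S37.Core.prime_cases hq with h2 | h3 | h5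
  · -- `q = 2`
    subst h2
    by_cases h3M : 3 ∣ M'
    · exact eigenLift_goodLevel hp hq hqp hqM (Or.inr (Or.inr ⟨rfl, h3M⟩)) hA S a h hh
    · haveI : NeZero (3 * M') := ⟨Nat.mul_ne_zero (by norm_num) (NeZero.ne M')⟩
      have h2M3 : ¬ 2 ∣ 3 * M' := by
        intro hd
        rcases (Nat.Prime.dvd_mul Nat.prime_two).mp hd with hd | hd
        · exact absurd hd (by decide)
        · exact hqM hd
      exact eigenLift_two_of_three hp (fun e => hqp e.symm) hqM h3M hA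
        (strongLiftAt_goodLevel hp hq hqp h2M3
          (Or.inr (Or.inr ⟨rfl, dvd_mul_right 3 M'⟩)) hA) S a h hh
  · -- `q = 3`
    subst h3
    by_cases h2M : 2 ∣ M'
    · exact eigenLift_goodLevel hp hq hqp hqM (Or.inr (Or.inl ⟨rfl, h2M⟩)) hA S a h hh
    · haveI : NeZero (2 * M') := ⟨Nat.mul_ne_zero (by norm_num) (NeZero.ne M')⟩
      have h3M2 : ¬ 3 ∣ 2 * M' := by
        intro hd
        rcases (Nat.Prime.dvd_mul Nat.prime_three).mp hd with hd | hd
        · exact absurd hd (by decide)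
        · exact hqM hd
      exact eigenLift_three_of_two hp (fun e => hqp e.symm) hqM h2M hA
        (strongLiftAt_goodLevel hp hq hqp h3M2
          (Or.inr (Or.inl ⟨rfl, dvd_mul_right 2 M'⟩)) hA) S a h hh
  · exact eigenLift_goodLevel hp hq hqp hqM (Or.inl h5) hA S a h hh

/-- **EIGEN-LIFT for all primes `p ≠ q` and all levels**, as a closed statement (the shape of
`H523.Q3.EigenLiftStatement` without the binders `5 ≤ p`, `q ≠ 2`). -/
def EigenLiftAllStatement : Prop :=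
  ∀ (p q M' : ℕ) [NeZero M'], p.Prime → q.Prime → q ≠ p → ¬ q ∣ M' →
    ∀ A : ValuationSubring Kbar, A.LiesOverPrime q →
    ∀ (S : Finset ℕ) (a : ℕ → ℤ) (h : modularFunctionFieldFullC (kA A) M'),
      IsRedEigen p M' S a h → ∃ S' : Finset ℕ, S ⊆ S' ∧ OccursIn M' p S' a

theorem eigenLiftAllStatement : EigenLiftAllStatement :=
  fun _ _ _ _ hp hq hqp hqM _ hA S a h hh => eigenLift_all hp hq hqp hqM hA S a h hh

end Fermat.Agent.Ribet.H924

end

end
-- ===== PACK-END Ribet/H924/EigenLiftAll.lean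

-- ===== PACK-BEGIN Ribet/H732/FinDownBeta.lean
section
/-
S59 moonshot, cell B1 (WALL-q in W-form), leaf FIN-DOWN of the NEAT package (helper732),
part 2: PDIV-DOWN along `β : k(X₀(M)) → k(X₀(Mℓ))`, `h ↦ h(t^ℓ)`.

The swap `W : F' → k((t))` of `S37.H157` (`W y = y(t^ℓ)` for `y ∈ F`, `W (j(t^ℓ)) = j`) has its
image in `F'`, so it is a `k`-endomorphism `σ` of `F' = k(X₀(Mℓ))` with `σ (β h) = α h`.
Hence `ord_w (α h) = e · ord_{w ∘ σ} (β h)`, and PDIV-DOWN along `β` follows from PDIV-DOWN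
along `α` (`FinDownAlpha.lean`).
-/


set_option autoImplicit false
set_option maxHeartbeats 400000
set_option linter.style.haveILetI false
set_option linter.unusedSectionVars false

noncomputable section

namespace Fermat.Agent.Ribet.H732.FinDown

open AlgebraicCurve IntermediateField ModularCurve HahnSeries
open Fermat.Agent.S28.H626 Fermat.Agent.S37.H157 Fermat.Agent.Ribet.H376
open Fermat.Agent.Ribet.H884

section Swap

variable {K : Type*} [Field K] {N ℓ : ℕ} [NeZero N] [NeZero ℓ]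
variable {Φ : Polynomial (Polynomial ℤ)} (hℓ : ℓ.Prime) (hℓN : ¬ ℓ ∣ N)
  (H : HasModPolys K (N * ℓ)) (hΦ : IsModPoly ℓ Φ)
  (hdeg : (minpoly ↥(modularFunctionFieldFullC K N) (jd K ℓ)).natDegree = ℓ + 1)

/-- The lift to the simple extension `F(j(t^ℓ))` takes its values in `F'`. -/
theorem liftSimple_mem732 (x : LaurentSeries K)
    (hx : x ∈ (↥(modularFunctionFieldFullC K N))⟮jd K ℓ⟯) :
    liftSimple (isIntegral_jdl (K := K) (N := N) hΦ) (baseHom K N ℓ) (jqModC K)
        (eval₂_baseHom_minpoly hΦ hdeg) ⟨x, hx⟩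
      ∈ modularFunctionFieldFullC K (N * ℓ) := by
  set W := liftSimple (isIntegral_jdl (K := K) (N := N) hΦ) (baseHom K N ℓ) (jqModC K)
    (eval₂_baseHom_minpoly hΦ hdeg) with hW
  induction hx using IntermediateField.adjoin_induction with
  | mem x hx =>
    rw [Set.mem_singleton_iff] at hx
    subst hx
    have e : (⟨jd K ℓ, subset_adjoin _ _ (Set.mem_singleton _)⟩ :
        ↥(↥(modularFunctionFieldFullC K N))⟮jd K ℓ⟯)
        = AdjoinSimple.gen ↥(modularFunctionFieldFullC K N) (jd K ℓ) := Subtype.ext rfl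
    rw [e, hW, liftSimple_gen]
    exact jqModC_mem_full K (N * ℓ)
  | algebraMap a =>
    have e : (⟨algebraMap ↥(modularFunctionFieldFullC K N) (LaurentSeries K) a,
        IntermediateField.algebraMap_mem _ a⟩ : ↥(↥(modularFunctionFieldFullC K N))⟮jd K ℓ⟯)
        = algebraMap ↥(modularFunctionFieldFullC K N)
            ↥(↥(modularFunctionFieldFullC K N))⟮jd K ℓ⟯ a := Subtype.ext rfl
    rw [e, hW, liftSimple_algebraMap, baseHom_apply]
    exact qExpand_mem_full_mul K N ℓ a.2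
  | add x y hx hy ihx ihy =>
    have e : (⟨x + y, add_mem hx hy⟩ : ↥(↥(modularFunctionFieldFullC K N))⟮jd K ℓ⟯)
        = ⟨x, hx⟩ + ⟨y, hy⟩ := rfl
    rw [e, map_add]
    exact add_mem ihx ihy
  | inv x hx ihx =>
    have e : (⟨x⁻¹, inv_mem hx⟩ : ↥(↥(modularFunctionFieldFullC K N))⟮jd K ℓ⟯)
        = (⟨x, hx⟩ : ↥(↥(modularFunctionFieldFullC K N))⟮jd K ℓ⟯)⁻¹ := rfl
    rw [e, map_inv₀]
    exact inv_mem ihx
  | mul x y hx hy ihx ihy =>
    have e : (⟨x * y, mul_mem hx hy⟩ : ↥(↥(modularFunctionFieldFullC K N))⟮jd K ℓ⟯)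
        = ⟨x, hx⟩ * ⟨y, hy⟩ := rfl
    rw [e, map_mul]
    exact mul_mem ihx ihy

/-- The swap takes its values in `F'`. -/
theorem swapHom_mem732 (x : modularFunctionFieldFullC K (N * ℓ)) :
    swapHom hℓ hℓN H hΦ hdeg x ∈ modularFunctionFieldFullC K (N * ℓ) :=
  liftSimple_mem732 hΦ hdeg x.1 (full_mul_le_adjoin_jdl hℓ hℓN H x.1 x.2)

/-- The swap as a `K`-algebra endomorphism of `F' = K(X₀(Nℓ))`. -/
def swapEnd732 : ↥(modularFunctionFieldFullC K (N * ℓ)) →ₐ[K]
    ↥(modularFunctionFieldFullC K (N * ℓ)) where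
  toFun x := ⟨swapHom hℓ hℓN H hΦ hdeg x, swapHom_mem732 hℓ hℓN H hΦ hdeg x⟩
  map_one' := Subtype.ext (map_one _)
  map_mul' _ _ := Subtype.ext (map_mul _ _ _)
  map_zero' := Subtype.ext (map_zero _)
  map_add' _ _ := Subtype.ext (map_add _ _ _)
  commutes' c := by
    apply Subtype.ext
    show swapHom hℓ hℓN H hΦ hdeg (algebraMap K ↥(modularFunctionFieldFullC K (N * ℓ)) c)
      = algebraMap K (LaurentSeries K) c
    have h1 : (algebraMap K ↥(modularFunctionFieldFullC K (N * ℓ)) c)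
        = ⟨algebraMap K (LaurentSeries K) c,
            (modularFunctionFieldFullC K (N * ℓ)).algebraMap_mem c⟩ := Subtype.ext rfl
    rw [h1, swapHom_of_mem hℓ hℓN H hΦ hdeg _
      ((modularFunctionFieldFullC K N).algebraMap_mem c),
      algebraMap_laurentSeries_eq_single, qExpand_single, mul_zero]

theorem coe_swapEnd732 (x : modularFunctionFieldFullC K (N * ℓ)) :
    ((swapEnd732 hℓ hℓN H hΦ hdeg x : modularFunctionFieldFullC K (N * ℓ)) : LaurentSeries K)
      = swapHom hℓ hℓN H hΦ hdeg x := rfl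

/-- `σ ∘ β = α`. -/
theorem swapEnd_betaAlg732 (y : modularFunctionFieldFullC K N) :
    swapEnd732 hℓ hℓN H hΦ hdeg (betaAlg K N ℓ y) = alphaAlg K N ℓ y := by
  apply Subtype.ext
  rw [coe_swapEnd732]
  show swapHom hℓ hℓN H hΦ hdeg (betaHom K N ℓ y) = _
  rw [swapHom_betaHom]
  rfl

end Swap

section Modular

variable {k : Type} [Field k] [IsAlgClosed k] {p M ℓ : ℕ} [NeZero M] [NeZero ℓ]

/-- **PDIV-DOWN along `β`** for the modular function fields. -/
theorem dvd_ord_down_beta732 (hℓ : ℓ.Prime) (hℓM : ¬ ℓ ∣ M)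
    (hchar : ∀ r : ℕ, r.Prime → r ∣ M * ℓ → ((r : ℕ) : k) ≠ 0)
    (hcop : Nat.Coprime (ℓ + 1) p) {h : modularFunctionFieldFullC k M} (h0 : h ≠ 0)
    (hdiv : ∀ w : Place k (modularFunctionFieldFullC k (M * ℓ)),
      (p : ℤ) ∣ w.ord (betaAlg k M ℓ h))
    (Q : Place k (modularFunctionFieldFullC k M)) : (p : ℤ) ∣ Q.ord h := by
  have H := hasModPolysC k (M * ℓ) hchar
  obtain ⟨-, Φ, hΦ⟩ := H ℓ hℓ (Dvd.intro_left M rfl)
  have hfr := finrank_algInclC k M ℓ hℓ hℓM hchar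
  have hdeg := natDegree_minpoly_jdl hℓ hℓM H hΦ hfr
  obtain ⟨hx', hfin'⟩ := Fermat.Agent.S18.H65.modFinite' k (M * ℓ) hchar
  haveI := hfin'
  have hσ : (swapEnd732 hℓ hℓM H hΦ hdeg).toRingHom.IsIntegral :=
    isIntegral_of_functionFieldC (swapEnd732 hℓ hℓM H hΦ hdeg) _ hx' _ hx'
  refine dvd_ord_down_alpha732 hℓ hℓM hchar hcop h0 ?_ Q
  intro w
  rw [← swapEnd_betaAlg732 hℓ hℓM H hΦ hdeg h]
  exact dvd_ord_along (swapEnd732 hℓ hℓM H hΦ hdeg) hσ w (hdiv _)

/-- **PDIV-DOWN along `β`, series form**: if `r(t^ℓ)` is a `PDivSeries` of level `M ℓ` and `r`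
lies in `k(X₀(M))`, then `r` is a `PDivSeries` of level `M`. -/
theorem pDivSeries_down_beta732 (hℓ : ℓ.Prime) (hℓM : ¬ ℓ ∣ M)
    (hchar : ∀ r : ℕ, r.Prime → r ∣ M * ℓ → ((r : ℕ) : k) ≠ 0)
    (hcop : Nat.Coprime (ℓ + 1) p) {r : LaurentSeries k}
    (hr : PDivSeries p (M * ℓ) (qExpand k ℓ r)) (hmem : r ∈ modularFunctionFieldFullC k M) :
    PDivSeries p M r := by
  obtain ⟨h', hh', h0', hdiv'⟩ := hr
  have e : betaAlg k M ℓ ⟨r, hmem⟩ = h' := by
    apply Subtype.ext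
    rw [hh']
    rfl
  have h0 : (⟨r, hmem⟩ : modularFunctionFieldFullC k M) ≠ 0 := by
    intro hz
    apply h0'
    rw [← e, hz, map_zero]
  refine ⟨⟨r, hmem⟩, rfl, h0, ?_⟩
  intro Q
  refine dvd_ord_down_beta732 hℓ hℓM hchar hcop h0 ?_ Q
  intro w
  rw [e]
  exact hdiv' w

end Modular

end Fermat.Agent.Ribet.H732.FinDown

end

end
-- ===== PACK-END Ribet/H732/FinDownBeta.lean

-- ===== PACK-BEGIN Ribet/H732/FinDown.lean
section
/-
S59 moonshot, cell B1 (WALL-q in W-form), leaf FIN-DOWN of the NEAT package of helper158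
(`origin/helper158 : S59/H158/NeatTargets.lean`), FUNCTION-LEVEL CORE  (helper732).

`q ≠ r` primes, `q ∤ M'`, `r ∤ M'`, `gcd (r + 1, p) = 1`, `A` over `q`, `k = kA A`.

* `finGenQ_of_mem_finPartQ732` (**GEN-Q**): membership in `finPartQ` can be tested on ANY Kummer
  generator (twin of `H669.genIndep_of` for the wall at `q`);
* `finGenQ_down_alpha732` : `f ∈ FF (q M')`, `g ∈ FF (q (r M'))` with the SAME `t`-expansion
  (`g = α f`): `FinGenQ p q (r M') A g → FinGenQ p q M' A f`;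
* `finGenQ_down_beta732`  : the same for `g = β f`, i.e. `g(t) = f(t^r)`;
* `finDown_of_kummerPull732` : **FIN-DOWN** for every additive `π : J₀(q M') → J₀(q (r M'))` such
  that a Kummer generator `f` of `x` gives a Kummer generator `α f` or `β f` of `π x`.

On `C∞` the reduction of `α f` is the reduction of `f`, on `C₀` it is `(red₀ f)(t^r)`
(`w ∘ α = β ∘ w`); for `β f` the roles are exchanged.  So each case needs PDIV-DOWN along `α`
AND along `β` (`FinDownAlpha.lean`, `FinDownBeta.lean`).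
-/






set_option autoImplicit false
set_option synthInstance.maxHeartbeats 400000
set_option maxHeartbeats 1000000
set_option linter.style.haveILetI false
set_option linter.unusedSectionVars false

noncomputable section

namespace Fermat.Agent.Ribet.H732.FinDown

open AlgebraicCurve ModularCurve HahnSeries
open Fermat.Agent.S24 Fermat.Agent.A2.H708 Fermat.Agent.A2.H528
open Fermat.Agent.Ribet.Spec Fermat.Agent.Ribet.H944.Wall Fermat.Agent.Ribet.H884
open Fermat.Agent.Ribet.H158.WallQ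

/-! ## Small tools -/

/-- The Fricke involution only depends on the `t`-expansion (level cast). -/
theorem wF_coe_congr732 {N N' : ℕ} [NeZero N] [NeZero N'] (h : N = N') (f : FF N) (f' : FF N')
    (hf : (f : LaurentSeries Kbar) = (f' : LaurentSeries Kbar)) :
    ((wF N f : FF N) : LaurentSeries Kbar) = ((wF N' f' : FF N') : LaurentSeries Kbar) := by
  subst h
  have e : f = f' := Subtype.ext hf
  rw [e]

/-- `PDivSeries` only depends on the level as a number. -/
theorem pDivSeries_congr732 {p N N' : ℕ} (h : N = N') {k : Type} [Field k]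
    {r : LaurentSeries k} (hr : PDivSeries p N r) : PDivSeries p N' r := by
  subst h
  exact hr

/-- Nonzero constants are `PDivSeries`. -/
theorem pDivSeries_C732 (p N : ℕ) {k : Type} [Field k] {c : k} (hc : c ≠ 0) :
    PDivSeries p N (HahnSeries.C c : LaurentSeries k) := by
  refine ⟨algebraMap k (modularFunctionFieldFullC k N) c, ?_, ?_, fun Q => ?_⟩
  · show algebraMap k (LaurentSeries k) c = HahnSeries.C c
    rw [algebraMap_laurentSeries_eq_single]
    rfl
  · exact fun h0 => hc ((map_eq_zero _).mp h0)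
  · rw [Fermat.Agent.Lib.RR.ord_algebraMap]
    exact dvd_zero _

/-- `PDivSeries` is insensitive to a nonzero constant factor. -/
theorem pDivSeries_of_C_mul732 {p N : ℕ} {k : Type} [Field k] {c : k} (hc : c ≠ 0)
    {r : LaurentSeries k} (h : PDivSeries p N (HahnSeries.C c * r)) : PDivSeries p N r := by
  have h1 : r = HahnSeries.C c⁻¹ * (HahnSeries.C c * r) := by
    rw [← mul_assoc, ← map_mul, inv_mul_cancel₀ hc, map_one, one_mul]
  rw [h1]
  exact (pDivSeries_C732 p N (inv_ne_zero hc)).mul h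

/-! ## GEN-Q -/

section GenQ

variable {p q M' : ℕ} [NeZero M'] [NeZero q] [NeZero (q * M')] {A : ValuationSubring Kbar}

/-- `FinGenQ` is insensitive to a factor `c · g ^ p`. -/
theorem finGenQ_const_mul_pow732 (hq : q.Prime) (hqM : ¬ q ∣ M') (hA : A.LiesOverPrime q)
    {f₀ g : FF (q * M')} {c : Kbar} (hc : c ≠ 0) (hg : g ≠ 0) (h : FinGenQ p q M' A f₀) :
    FinGenQ p q M' A (algebraMap Kbar (FF (q * M')) c * (f₀ * g ^ p)) := by
  obtain ⟨r₁, r₂, h1, h2, h3, h4⟩ := h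
  obtain ⟨⟨s₁, hs₁⟩, ⟨s₂, hs₂⟩⟩ := Fermat.Agent.Ribet.H997.redExists q (q * M') hq A hA g hg
  have k₁ := Fermat.Agent.Ribet.H997.redField q M' hq hqM A hA g s₁ (Or.inl hs₁)
  have k₂ := Fermat.Agent.Ribet.H997.redField q M' hq hqM A hA g s₂ (Or.inr hs₂)
  exact ⟨r₁ * s₁ ^ p, r₂ * s₂ ^ p,
    Fermat.Agent.Ribet.H669.isRedInf_const_mul (h1.mul (Fermat.Agent.Ribet.H669.isRedInf_pow hs₁ p)) hc,
    Fermat.Agent.Ribet.H669.isRedZero_const_mul
      (h2.mul (Fermat.Agent.Ribet.H669.isRedZero_pow hs₂ p)) hc,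
    h3.mul (Fermat.Agent.Ribet.H669.pDivSeries_pow hs₁.ne_zero k₁),
    h4.mul (Fermat.Agent.Ribet.H669.pDivSeries_pow (IsRedInf.ne_zero hs₂) k₂)⟩

/-- **GEN-Q**: every Kummer generator of a class of `finPartQ` has slopes `0`. -/
theorem finGenQ_of_mem_finPartQ732 (hq : q.Prime) (hqM : ¬ q ∣ M') (hA : A.LiesOverPrime q)
    {x : JZero (q * M')} (hx : x ∈ finPartQ p q M' A) {f : FF (q * M')}
    (hf : IsKummerGen (q * M') p f x) : FinGenQ p q M' A f := by
  obtain ⟨f₀, hf₀, hF⟩ := Fermat.Agent.Ribet.H523.Q3.finClosedQ p q M' A hx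
  obtain ⟨c, g, hc, hg, rfl⟩ := Fermat.Agent.Ribet.H669.exists_eq_const_mul_pow hf hf₀
  exact finGenQ_const_mul_pow732 hq hqM hA hc hg hF

end GenQ

/-! ## FIN-DOWN on Kummer generators -/

section Down

variable {p q r M' : ℕ} [NeZero M'] [NeZero q] [NeZero r] [NeZero (q * M')] [NeZero (r * M')]
  [NeZero (q * (r * M'))] {A : ValuationSubring Kbar}

/-- The primes dividing `M' r` are invertible in the residue field of `A` (`A` over `q`). -/
theorem natCast_ne_zero732 (hq : q.Prime) (hr : r.Prime) (hqr : q ≠ r) (hqM : ¬ q ∣ M')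
    (hA : A.LiesOverPrime q) :
    ∀ s : ℕ, s.Prime → s ∣ M' * r → ((s : ℕ) : kA A) ≠ 0 := by
  obtain ⟨-, hchar⟩ := Fermat.Agent.Ribet.H939.resField q hq A hA
  haveI := hchar
  intro s hs hsd h0
  have h1 : q ∣ s := (CharP.cast_eq_zero_iff (kA A) q s).mp h0
  have h2 : q = s := (Nat.prime_dvd_prime_iff_eq hq hs).mp h1
  subst h2
  rcases (Nat.Prime.dvd_mul hq).mp hsd with h3 | h3
  · exact hqM h3
  · exact hqr ((Nat.prime_dvd_prime_iff_eq hq hr).mp h3)

/-- **FIN-DOWN along `α`** (same `t`-expansion). -/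
theorem finGenQ_down_alpha732 (hq : q.Prime) (hr : r.Prime) (hqr : q ≠ r) (hqM : ¬ q ∣ M')
    (hrM : ¬ r ∣ M') (hcop : Nat.Coprime (r + 1) p) (hA : A.LiesOverPrime q)
    {f : FF (q * M')} {g : FF (q * (r * M'))} (hf0 : f ≠ 0)
    (hfg : (g : LaurentSeries Kbar) = (f : LaurentSeries Kbar))
    (hg : FinGenQ p q (r * M') A g) : FinGenQ p q M' A f := by
  obtain ⟨hAC, -⟩ := Fermat.Agent.Ribet.H939.resField q hq A hA
  haveI := hAC
  have hchar := natCast_ne_zero732 (M' := M') hq hr hqr hqM hA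
  obtain ⟨ρ₁, ρ₂, h1, h2, hP1, hP2⟩ := hg
  -- the component `C∞`
  have h1' : IsRedInf (q * M') A f ρ₁ :=
    Fermat.Agent.Ribet.H223.M6a.isRedInf_congr hfg.symm h1
  obtain ⟨a₁, ha₁⟩ := Fermat.Agent.Ribet.H997.redField q M' hq hqM A hA f ρ₁ (Or.inl h1')
  have hm₁ : ρ₁ ∈ modularFunctionFieldFullC (kA A) M' := ha₁ ▸ a₁.2
  have hQ1 : PDivSeries p M' ρ₁ :=
    pDivSeries_down_alpha732 hr hrM hchar hcop
      (pDivSeries_congr732 (Nat.mul_comm r M') hP1) hm₁
  -- the component `C₀`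
  obtain ⟨ρ₀, h0⟩ := (Fermat.Agent.Ribet.H997.redExists q (q * M') hq A hA f hf0).2
  have h0α : IsRedZero (q * M' * r) A (heckeAlphaBar Kbar (q * M') r f)
      (qExpand (kA A) r ρ₀) := Fermat.Agent.Ribet.H223.M6a.isRedZero_alpha h0
  have hlev : q * M' * r = q * (r * M') := by ring
  have hser : ((heckeAlphaBar Kbar (q * M') r f : FF (q * M' * r)) : LaurentSeries Kbar)
      = (g : LaurentSeries Kbar) := by
    rw [coe_heckeAlphaBar, hfg]
  have h0g : IsRedInf (q * (r * M')) A (wF (q * (r * M')) g) (qExpand (kA A) r ρ₀) :=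
    Fermat.Agent.Ribet.H223.M6a.isRedInf_congr
      (wF_coe_congr732 hlev _ _ hser).symm h0α
  obtain ⟨c, hc, hc2⟩ := Fermat.Agent.Ribet.H997.isRedInf_unique h0g h2
  obtain ⟨a₀, ha₀⟩ := Fermat.Agent.Ribet.H997.redField q M' hq hqM A hA f ρ₀ (Or.inr h0)
  have hm₀ : ρ₀ ∈ modularFunctionFieldFullC (kA A) M' := ha₀ ▸ a₀.2
  have hQ0 : PDivSeries p M' ρ₀ := by
    refine pDivSeries_down_beta732 hr hrM hchar hcop ?_ hm₀
    refine pDivSeries_congr732 (Nat.mul_comm r M') (pDivSeries_of_C_mul732 hc ?_)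
    rw [← hc2]
    exact hP2
  exact ⟨ρ₁, ρ₀, h1', h0, hQ1, hQ0⟩

/-- **FIN-DOWN along `β`** (`g(t) = f(t^r)`). -/
theorem finGenQ_down_beta732 (hq : q.Prime) (hr : r.Prime) (hqr : q ≠ r) (hqM : ¬ q ∣ M')
    (hrM : ¬ r ∣ M') (hcop : Nat.Coprime (r + 1) p) (hA : A.LiesOverPrime q)
    {f : FF (q * M')} {g : FF (q * (r * M'))} (hf0 : f ≠ 0)
    (hfg : (g : LaurentSeries Kbar) = qExpand Kbar r (f : LaurentSeries Kbar))
    (hg : FinGenQ p q (r * M') A g) : FinGenQ p q M' A f := by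
  obtain ⟨hAC, -⟩ := Fermat.Agent.Ribet.H939.resField q hq A hA
  haveI := hAC
  have hchar := natCast_ne_zero732 (M' := M') hq hr hqr hqM hA
  obtain ⟨ρ₁, ρ₂, h1, h2, hP1, hP2⟩ := hg
  -- the component `C∞`
  obtain ⟨ρ, hρ⟩ := (Fermat.Agent.Ribet.H997.redExists q (q * M') hq A hA f hf0).1
  have hρg : IsRedInf (q * (r * M')) A g (qExpand (kA A) r ρ) :=
    Fermat.Agent.Ribet.H223.M6a.isRedInf_qExpand hfg hρ
  obtain ⟨c, hc, hc2⟩ := Fermat.Agent.Ribet.H997.isRedInf_unique hρg h1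
  obtain ⟨a, ha⟩ := Fermat.Agent.Ribet.H997.redField q M' hq hqM A hA f ρ (Or.inl hρ)
  have hm : ρ ∈ modularFunctionFieldFullC (kA A) M' := ha ▸ a.2
  have hQ1 : PDivSeries p M' ρ := by
    refine pDivSeries_down_beta732 hr hrM hchar hcop ?_ hm
    refine pDivSeries_congr732 (Nat.mul_comm r M') (pDivSeries_of_C_mul732 hc ?_)
    rw [← hc2]
    exact hP1
  -- the component `C₀`
  have hlev : q * M' * r = q * (r * M') := by ring
  have hser : ((heckeBetaBar Kbar (q * M') r f : FF (q * M' * r)) : LaurentSeries Kbar)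
      = (g : LaurentSeries Kbar) := by
    rw [coe_heckeBetaBar, hfg]
  have hw : ((wF (q * (r * M')) g : FF (q * (r * M'))) : LaurentSeries Kbar)
      = ((wF (q * M') f : FF (q * M')) : LaurentSeries Kbar) := by
    rw [← wF_coe_congr732 hlev _ _ hser, Fermat.Agent.A2.H612.wF_heckeBetaBar,
      coe_heckeAlphaBar]
  have h2' : IsRedZero (q * M') A f ρ₂ :=
    Fermat.Agent.Ribet.H223.M6a.isRedInf_congr hw.symm h2
  obtain ⟨a₂, ha₂⟩ := Fermat.Agent.Ribet.H997.redField q M' hq hqM A hA f ρ₂ (Or.inr h2')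
  have hm₂ : ρ₂ ∈ modularFunctionFieldFullC (kA A) M' := ha₂ ▸ a₂.2
  have hQ2 : PDivSeries p M' ρ₂ :=
    pDivSeries_down_alpha732 hr hrM hchar hcop
      (pDivSeries_congr732 (Nat.mul_comm r M') hP2) hm₂
  exact ⟨ρ, ρ₂, hρ, h2', hQ1, hQ2⟩

/-- **FIN-DOWN** for a pull-back `π` which maps Kummer generators to Kummer generators
(`α f` or `β f`). -/
theorem finDown_of_kummerPull732 (hq : q.Prime) (hr : r.Prime) (hqr : q ≠ r)
    (hqM : ¬ q ∣ M') (hrM : ¬ r ∣ M') (hcop : Nat.Coprime (r + 1) p)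
    (hA : A.LiesOverPrime q) (π : JZero (q * M') → JZero (q * (r * M')))
    (hπ : ∀ (x : JZero (q * M')) (f : FF (q * M')), IsKummerGen (q * M') p f x →
      ∃ g : FF (q * (r * M')), IsKummerGen (q * (r * M')) p g (π x) ∧
        ((g : LaurentSeries Kbar) = (f : LaurentSeries Kbar) ∨
          (g : LaurentSeries Kbar) = qExpand Kbar r (f : LaurentSeries Kbar)))
    (x : JZero (q * M')) (hx : p • x = 0) (hπx : π x ∈ finPartQ p q (r * M') A) :
    x ∈ finPartQ p q M' A := by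
  have hqN : ¬ q ∣ r * M' := fun hd => by
    rcases (Nat.Prime.dvd_mul hq).mp hd with h | h
    · exact hqr ((Nat.prime_dvd_prime_iff_eq hq hr).mp h)
    · exact hqM h
  obtain ⟨f, hf⟩ := Fermat.Agent.Ribet.H884.exists_isKummerGen (N := q * M') p x hx
  obtain ⟨g, hgK, hg⟩ := hπ x f hf
  have hG : FinGenQ p q (r * M') A g := finGenQ_of_mem_finPartQ732 hq hqN hA hπx hgK
  refine AddSubgroup.subset_closure ⟨f, hf, ?_⟩
  rcases hg with hg | hg
  · exact finGenQ_down_alpha732 hq hr hqr hqM hrM hcop hA hf.1 hg hG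
  · exact finGenQ_down_beta732 hq hr hqr hqM hrM hcop hA hf.1 hg hG

end Down

end Fermat.Agent.Ribet.H732.FinDown

end

end
-- ===== PACK-END Ribet/H732/FinDown.lean

-- ===== PACK-BEGIN S59/UnitQR/H464/Q4U.lean
section






/-!
# S59 / cell B1 (LO-Q), target (Q4) with an ABSTRACT Eisenstein unit  (helper464)

`H158.WallQ.isEisModQ_of_slopePropQM'` (main) is tied to THE modular unit `Δ(t^q)/Δ(t)`
(`H884.IsModUnit`, slope `12`), so it can only be fed at torsion orders prime to `12`.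
Here the unit is abstract: any series `U` which is an Eisenstein eigenfunction
(`kronNorm ℓ U = c · U^(ℓ+1)` off a finite set of primes).

* `SlopePropQMU m q M' A U x` : `x` has a Kummer generator `f` with `G · D^b = f^n · D^a`,
  `n ≠ 0` prime to `m`, `D` of expansion `U`, `G` of `NodeGenQ` shape;
* `isEisModQ_of_slopePropQMU` : `SlopePropQMU ⟹ IsEisModQ` (HECKE-FUN, HECKE-NODE-q, RED of main
  plugged; CUSP-q as hypothesis);
* `q4For_of_slopePropQMU` : `(Q4)` for `𝓕 = finPartQ p q M' A` from a pointwise CORE-OUT in the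
  `U`-form, at any level with the auxiliary prime (`S35.G.HasAux M' q`), any primes `p ≠ q`.
-/

set_option autoImplicit false
set_option synthInstance.maxHeartbeats 400000
set_option maxHeartbeats 1000000
set_option linter.unusedSectionVars false
set_option linter.style.haveILetI false

noncomputable section

namespace Fermat.Agent.S59.UnitQR.H464

open AlgebraicCurve ModularCurve HahnSeries
open Fermat.Agent.S24 Fermat.Agent.A2.H708 Fermat.Agent.A2.H528 Fermat.Agent.A2.H129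
open Fermat.Agent.Ribet Fermat.Agent.Ribet.Spec Fermat.Agent.Ribet.H944.Wall
open Fermat.Agent.Ribet.H884 Fermat.Agent.S37.H400
open Fermat.Agent.Ribet.H158.WallQ

/-- The slope vector of the `m`-torsion class `x` is a multiple of the slope vector of a function
`D` with `t`-expansion `U` (`n ≠ 0` prime to `m`). -/
def SlopePropQMU (m q M' : ℕ) [NeZero q] [NeZero (q * M')] (A : ValuationSubring Kbar)
    (U : LaurentSeries Kbar) (x : JZero (q * M')) : Prop :=
  ∃ (f D G : FF (q * M')) (n a b : ℕ), IsKummerGen (q * M') m f x ∧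
    (D : LaurentSeries Kbar) = U ∧
    D ≠ 0 ∧ n ≠ 0 ∧ Nat.Coprime n m ∧ G * D ^ b = f ^ n * D ^ a ∧ NodeGenQ m q M' A G

/-- `U` is an Eisenstein eigenfunction at every prime `ℓ ∉ S₀`. -/
def IsEisSeries (S₀ : Finset ℕ) (U : LaurentSeries Kbar) : Prop :=
  ∀ (ℓ : Nat.Primes) [NeZero (ℓ : ℕ)], (ℓ : ℕ) ∉ S₀ →
    ∃ c : Kbar, c ≠ 0 ∧ kronNorm (ℓ : ℕ) U = cst c * U ^ ((ℓ : ℕ) + 1)

/-- The old unit is an instance. -/
theorem slopePropQMU_of_slopePropQM {m q M' : ℕ} [NeZero q] [NeZero (q * M')]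
    {A : ValuationSubring Kbar} {x : JZero (q * M')} (h : SlopePropQM m q M' A x) :
    SlopePropQMU m q M' A (Fermat.Agent.S28.unitL Kbar q) x := by
  obtain ⟨f, D, G, n, a, b, hf, hD, hD0, hn0, hn, hG, hNG⟩ := h
  exact ⟨f, D, G, n, a, b, hf, hD, hD0, hn0, hn, hG, hNG⟩

/-- **EIS-q core with an abstract unit**: proportional slopes ⇒ Eisenstein slopes. -/
theorem isEisModQ_of_slopePropQMU_core (hHF : HeckeFunStatement)
    (hRE : RedExistsStatement) (hRU : RedUniqueStatement) (hRF : RedFieldStatement)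
    (m p q M' : ℕ) [NeZero M'] [NeZero q] [NeZero (q * M')] (hp : p ≠ 0) (hq : q.Prime)
    (hqM : ¬ q ∣ M') (A : ValuationSubring Kbar) (hA : A.LiesOverPrime q)
    (S₀ : Finset ℕ) (U : LaurentSeries Kbar) (hU : IsEisSeries S₀ U)
    (hHN : ∀ (ℓ : Nat.Primes) [NeZero (ℓ : ℕ)], ¬ (ℓ : ℕ) ∣ q * M' * p →
      ∀ f g : FF (q * M'),
        (g : LaurentSeries Kbar) = kronNorm (ℓ : ℕ) (f : LaurentSeries Kbar) →
        NodeGenQ m q M' A f → NodeGenQ m q M' A g)
    (hCP : ∀ (g : FF (q * M')) (y : JZero (q * M')), IsKummerGen (q * M') m g y →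
      NodeGenQ m q M' A g → FinGenQ m q M' A g)
    (x : JZero (q * M')) (hx : SlopePropQMU m q M' A U x) :
    IsEisModQ m q M' A ((q * M' * p).primeFactors ∪ S₀) x := by
  intro ℓ hℓ
  have : NeZero (ℓ : ℕ) := ⟨ℓ.2.ne_zero⟩
  have hNp0 : q * M' * p ≠ 0 := mul_ne_zero (NeZero.ne _) hp
  have hℓ1 : (ℓ : ℕ) ∉ (q * M' * p).primeFactors := fun h => hℓ (Finset.mem_union_left _ h)
  have hℓ2 : (ℓ : ℕ) ∉ S₀ := fun h => hℓ (Finset.mem_union_right _ h)
  have hℓNp : ¬ (ℓ : ℕ) ∣ q * M' * p := fun h =>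
    hℓ1 (Nat.mem_primeFactors.mpr ⟨ℓ.2, h, hNp0⟩)
  have hℓN : ¬ (ℓ : ℕ) ∣ q * M' := fun h => hℓNp (dvd_mul_of_dvd_left h p)
  obtain ⟨f, D, G, n, a, b, hf, hD, hD0, hn0, hn, hG, hNG⟩ := hx
  obtain ⟨Tf, hTf, hTfK⟩ := hHF (q * M') ℓ hℓN f
  obtain ⟨TG, hTG, -⟩ := hHF (q * M') ℓ hℓN G
  obtain ⟨c, hc, hUD⟩ := hU ℓ hℓ2
  have hf0 : f ≠ 0 := hf.1
  have hG0 : G ≠ 0 := hNG.ne_zero
  set C : FF (q * M') := algebraMap Kbar (FF (q * M')) c with hC
  have hC0 : C ≠ 0 := by simpa [hC] using hc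
  set E : FF (q * M') := D ^ ((ℓ : ℕ) + 1) with hE
  have hE0 : E ≠ 0 := pow_ne_zero _ hD0
  have h2 : TG * (C * E) ^ b = Tf ^ n * (C * E) ^ a := by
    apply Subtype.ext
    have e1 : ((C * E : FF (q * M')) : LaurentSeries Kbar) =
        kronNorm (ℓ : ℕ) (D : LaurentSeries Kbar) := by
      have hCE : ((C * E : FF (q * M')) : LaurentSeries Kbar) =
          cst c * (D : LaurentSeries Kbar) ^ ((ℓ : ℕ) + 1) := rfl
      rw [hCE, hD, hUD]
    have e2 : ((TG * (C * E) ^ b : FF (q * M')) : LaurentSeries Kbar) =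
        kronNorm (ℓ : ℕ) ((G * D ^ b : FF (q * M')) : LaurentSeries Kbar) := by
      have : ((G * D ^ b : FF (q * M')) : LaurentSeries Kbar) =
          (G : LaurentSeries Kbar) * (D : LaurentSeries Kbar) ^ b := rfl
      rw [this, kronNorm_mul, kronNorm_pow, ← hTG, ← e1]
      rfl
    have e3 : ((Tf ^ n * (C * E) ^ a : FF (q * M')) : LaurentSeries Kbar) =
        kronNorm (ℓ : ℕ) ((f ^ n * D ^ a : FF (q * M')) : LaurentSeries Kbar) := by
      have : ((f ^ n * D ^ a : FF (q * M')) : LaurentSeries Kbar) =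
          (f : LaurentSeries Kbar) ^ n * (D : LaurentSeries Kbar) ^ a := rfl
      rw [this, kronNorm_mul, kronNorm_pow, kronNorm_pow, ← hTf, ← e1]
      rfl
    rw [e2, e3, hG]
  have h3 : G ^ ((ℓ : ℕ) + 1) * E ^ b = f ^ (n * ((ℓ : ℕ) + 1)) * E ^ a := by
    have h3' : (G * D ^ b) ^ ((ℓ : ℕ) + 1) = (f ^ n * D ^ a) ^ ((ℓ : ℕ) + 1) := by rw [hG]
    calc G ^ ((ℓ : ℕ) + 1) * E ^ b = (G * D ^ b) ^ ((ℓ : ℕ) + 1) := by rw [hE]; ring
      _ = (f ^ n * D ^ a) ^ ((ℓ : ℕ) + 1) := h3'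
      _ = f ^ (n * ((ℓ : ℕ) + 1)) * E ^ a := by rw [hE]; ring
  set g : FF (q * M') := Tf * (f ^ ((ℓ : ℕ) + 1))⁻¹ with hg
  have hgK : IsKummerGen (q * M') m g
      (heckeOperatorBar (q * M') ℓ x - ((ℓ : ℕ) + 1) • x) := by
    have := (hTfK m x hf).mul ((hf.pow ((ℓ : ℕ) + 1)).inv)
    rwa [← sub_eq_add_neg] at this
  have hg0 : g ≠ 0 := hgK.1
  have h4 : Tf ^ n * C ^ a * G ^ ((ℓ : ℕ) + 1) = C ^ b * TG * f ^ (n * ((ℓ : ℕ) + 1)) := by
    have hEE : E ^ a * E ^ b ≠ 0 := mul_ne_zero (pow_ne_zero _ hE0) (pow_ne_zero _ hE0)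
    apply mul_right_cancel₀ hEE
    rw [mul_pow, mul_pow] at h2
    linear_combination (-(f ^ (n * ((ℓ : ℕ) + 1)) * E ^ a)) * h2 + (Tf ^ n * C ^ a * E ^ a) * h3
  have h5 : g ^ n = algebraMap Kbar (FF (q * M')) (c ^ b * (c ^ a)⁻¹) *
      (TG * (G ^ ((ℓ : ℕ) + 1))⁻¹) := by
    have hCa : C ^ a ≠ 0 := pow_ne_zero _ hC0
    have hGl : G ^ ((ℓ : ℕ) + 1) ≠ 0 := pow_ne_zero _ hG0
    have hfl : f ^ ((ℓ : ℕ) + 1) ≠ 0 := pow_ne_zero _ hf0
    have hcc : algebraMap Kbar (FF (q * M')) (c ^ b * (c ^ a)⁻¹) = C ^ b * (C ^ a)⁻¹ := by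
      rw [map_mul, map_inv₀, map_pow, map_pow]
    rw [hcc, hg, mul_pow, inv_pow, ← pow_mul, mul_comm ((ℓ : ℕ) + 1) n]
    have hfn : f ^ (n * ((ℓ : ℕ) + 1)) ≠ 0 := pow_ne_zero _ hf0
    field_simp
    linear_combination h4
  have hcb : c ^ b * (c ^ a)⁻¹ ≠ 0 :=
    mul_ne_zero (pow_ne_zero _ hc) (inv_ne_zero (pow_ne_zero _ hc))
  have hNGn : NodeGenQ m q M' A (g ^ n) := by
    rw [h5]
    exact ((hHN ℓ hℓNp G TG hTG hNG).mul (hNG.pow _).inv).const_mul hcb
  have hNGg : NodeGenQ m q M' A g :=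
    NodeGenQ.of_pow_coprime hRE hRU hRF hq hqM hA hn0 hn hg0 hNGn
  exact AddSubgroup.subset_closure ⟨g, hgK, hCP g _ hgK hNGg⟩

/-- **EIS-q with an abstract unit, leaves of main plugged** (torsion order `p`, level with the
auxiliary prime). -/
theorem isEisModQ_of_slopePropQMU (p q M' : ℕ) [NeZero M'] [NeZero q] [NeZero (q * M')]
    (hp : p.Prime) (hq : q.Prime) (hqp : q ≠ p) (hqM : ¬ q ∣ M')
    (hAux : Fermat.Agent.S35.G.HasAux M' q)
    (A : ValuationSubring Kbar) (hA : A.LiesOverPrime q)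
    (S₀ : Finset ℕ) (U : LaurentSeries Kbar) (hU : IsEisSeries S₀ U)
    (x : JZero (q * M')) (hx : SlopePropQMU p q M' A U x) :
    IsEisModQ p q M' A ((q * M' * p).primeFactors ∪ S₀) x := by
  refine isEisModQ_of_slopePropQMU_core H398.heckeFun H997.redExists H997.redUnique
    H997.redField p p q M' hp.ne_zero hq hqM A hA S₀ U hU ?_ ?_ x hx
  · intro ℓ _ hℓ f g hg hf
    have h := H699.heckeNodeGenQPow p 1 q M' hp Nat.one_pos hq hqp hqM A hA ℓ hℓ f g hg
    rw [pow_one] at h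
    exact h hf
  · intro g y hg hN
    exact H644.cuspPurityAux p q M' hq hqM hAux hp.pos A hA g y hg hN

/-- **(Q4) from a pointwise CORE-OUT in the `U`-form.** -/
theorem q4For_of_slopePropQMU (p q M' : ℕ) [NeZero M'] [NeZero q] [NeZero (q * M')]
    (hp : p.Prime) (hq : q.Prime) (hqp : q ≠ p) (hqM : ¬ q ∣ M')
    (hAux : Fermat.Agent.S35.G.HasAux M' q)
    (A : ValuationSubring Kbar) (hA : A.LiesOverPrime q)
    (hCO : ∀ (S : Finset ℕ) (a : ℕ → ℤ) (x : JZero (q * M')),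
      IsNewTorsQ p q M' x → EigenAt (q * M') S a x →
      (∀ σ ∈ A.inertiaSubgroupIn ℚ, σ • x = x) →
      ∃ (S₀ : Finset ℕ) (U : LaurentSeries Kbar), IsEisSeries S₀ U ∧
        SlopePropQMU p q M' A U x) :
    Q4For p q M' A (finPartQ p q M' A) := by
  intro S a hNE x hx hex hfix
  obtain ⟨S₀, U, hU, hS⟩ := hCO S a x hx hex hfix
  exact mem_finPartQ_of_eis p q M' hp A S _ a hNE x hx.1 hex
    (isEisModQ_of_slopePropQMU p q M' hp hq hqp hqM hAux A hA S₀ U hU x hS)

end Fermat.Agent.S59.UnitQR.H464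

end
end
-- ===== PACK-END S59/UnitQR/H464/Q4U.lean

-- ===== PACK-BEGIN S59/LoSqC/H296/RootDiv.lean
section




/-!
# S59 moonshot, cell (C) LO-SQ, W-COUNT sub-leaf RED-HOM, part 1: roots of divisors (helper296)

Abstract function field `F / K` (Prelude vocabulary `Place`, `Divisor`, `Pic0`):

* `IsRootDiv m h E` : `div h = m · E`, `E` a divisor of degree `0`;
* existence (`exists_isRootDiv`), multiplicativity, the class `Pic0.mk E` only depends on `h` up to
  constants and `m`-th powers (`IsRootDiv.mk_eq`), is killed by `m` (`IsRootDiv.nsmul_mk`), and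
  vanishes iff `h = c · u ^ m` (`IsRootDiv.exists_const_mul_pow`, `IsRootDiv.mk_eq_zero`).

Concrete: `F_k = modularFunctionFieldFullC k M'`, series `r ∈ k((t))`:

* `IsRootClass m M' r y` : `r ∈ F_k`, `r ≠ 0`, `div r = m · E`, `y = [E] ∈ Pic⁰(F_k) = JZeroC k M'`.
  It is defined exactly for the `H884.PDivSeries m M' r`, and `y = 0` iff
  `H158.WallQ.PPowSeries m M' r`.

No hypothesis on `m` except `m ≠ 0`; no hypothesis on the characteristic except the one needed for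
`HasPrincipalDivisors` / constants (`q ∤ M'`).
-/

set_option autoImplicit false
set_option linter.unusedSectionVars false
set_option linter.unusedVariables false
set_option linter.style.haveILetI false
set_option synthInstance.maxHeartbeats 400000
set_option maxHeartbeats 1000000

noncomputable section

namespace Fermat.Agent.S59.LoSqC.H296

open AlgebraicCurve ModularCurve HahnSeries
open Fermat.Agent.Ribet.H884 Fermat.Agent.Ribet.H158.WallQ

/-! ## Abstract function fields -/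

section Abstract

variable {K F : Type*} [Field K] [Field F] [Algebra K F]

theorem ord_pow_h296 (Q : Place K F) (y : F) (m : ℕ) : Q.ord (y ^ m) = (m : ℤ) * Q.ord y := by
  rw [← zpow_natCast, Q.ord_zpow]

theorem ord_const_h296 (Q : Place K F) (c : K) : Q.ord (algebraMap K F c) = 0 :=
  Fermat.Agent.A2.H129.ord_algebraMap_eq_zero Q c

/-- `E` is the `m`-th root of the divisor of `h`: `div h = m · E`. -/
def IsRootDiv (m : ℕ) (h : F) (E : Divisor.degZero (K := K) (F := F)) : Prop :=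
  ∀ Q : Place K F, Q.ord h = (m : ℤ) * (E : Divisor K F) Q

/-- A function all of whose orders are divisible by `m` has a root divisor. -/
theorem exists_isRootDiv [HasPrincipalDivisors K F] {m : ℕ} (hm : m ≠ 0) {h : F}
    (h0 : h ≠ 0) (hdiv : ∀ Q : Place K F, (m : ℤ) ∣ Q.ord h) :
    ∃ E : Divisor.degZero (K := K) (F := F), IsRootDiv m h E := by
  obtain ⟨D, hD, hdeg⟩ := HasPrincipalDivisors.exists_divisor (K := K) h h0
  let E₀ : Divisor K F := D.mapRange (fun n => n / (m : ℤ)) (by simp)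
  have hE : ∀ Q, (m : ℤ) * E₀ Q = D Q := fun Q => by
    show (m : ℤ) * (D.mapRange (fun n => n / (m : ℤ)) (by simp)) Q = D Q
    rw [Finsupp.mapRange_apply]
    exact Int.mul_ediv_cancel' (by rw [hD Q]; exact hdiv Q)
  have hpE : (m : ℤ) • E₀ = D := by
    ext Q
    rw [Finsupp.smul_apply, smul_eq_mul, hE]
  have hdeg0 : Divisor.degree E₀ = 0 := by
    have h1 := congrArg Divisor.degree hpE
    rw [map_zsmul, hdeg, smul_eq_mul] at h1
    rcases mul_eq_zero.mp h1 with h2 | h2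
    · exact absurd (by exact_mod_cast h2) hm
    · exact h2
  refine ⟨⟨E₀, hdeg0⟩, fun Q => ?_⟩
  show Q.ord h = (m : ℤ) * E₀ Q
  rw [hE Q, hD Q]

theorem isRootDiv_one (m : ℕ) :
    IsRootDiv m (1 : F) (0 : Divisor.degZero (K := K) (F := F)) := by
  intro Q
  rw [Place.ord_one]
  simp

theorem IsRootDiv.mul {m : ℕ} {h h' : F} {E E' : Divisor.degZero (K := K) (F := F)}
    (h0 : h ≠ 0) (h0' : h' ≠ 0) (hE : IsRootDiv m h E) (hE' : IsRootDiv m h' E') :
    IsRootDiv m (h * h') (E + E') := by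
  intro Q
  rw [Q.ord_mul h0 h0', hE Q, hE' Q]
  simp [mul_add]

theorem IsRootDiv.inv {m : ℕ} {h : F} {E : Divisor.degZero (K := K) (F := F)}
    (hE : IsRootDiv m h E) : IsRootDiv m h⁻¹ (-E) := by
  intro Q
  rw [Q.ord_inv, hE Q]
  simp

/-- The root divisor of `c · u ^ m` is `div u`. -/
theorem isRootDiv_const_mul_pow [HasPrincipalDivisors K F] (m : ℕ) {c : K} (hc : c ≠ 0)
    {u : F} (hu : u ≠ 0) :
    ∃ E : Divisor.degZero (K := K) (F := F),
      IsRootDiv m (algebraMap K F c * u ^ m) E ∧ Pic0.mk E = 0 := by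
  obtain ⟨D, hD, hdeg⟩ := HasPrincipalDivisors.exists_divisor (K := K) u hu
  have hcF : algebraMap K F c ≠ 0 := fun h0 => hc (by simpa using h0)
  refine ⟨⟨D, hdeg⟩, fun Q => ?_, ?_⟩
  · rw [Q.ord_mul hcF (pow_ne_zero _ hu), ord_const_h296, zero_add, ord_pow_h296]
    show (m : ℤ) * Q.ord u = (m : ℤ) * D Q
    rw [hD Q]
  · show (QuotientAddGroup.mk (⟨D, hdeg⟩ : Divisor.degZero (K := K) (F := F)) : Pic0 K F) = 0
    refine (QuotientAddGroup.eq_zero_iff _).mpr ?_
    rw [AddSubgroup.mem_addSubgroupOf]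
    exact ⟨u, hu, hD⟩

/-- The class of the root divisor only depends on the function up to constants and `m`-th
powers. -/
theorem IsRootDiv.mk_eq {m : ℕ} (hm : m ≠ 0) {h h' u : F} {c : K} (hc : c ≠ 0) (hu : u ≠ 0)
    (h0' : h' ≠ 0) (he : h = algebraMap K F c * h' * u ^ m)
    {E E' : Divisor.degZero (K := K) (F := F)} (hE : IsRootDiv m h E)
    (hE' : IsRootDiv m h' E') : (Pic0.mk E : Pic0 K F) = Pic0.mk E' := by
  have hcF : algebraMap K F c ≠ 0 := fun h0 => hc (by simpa using h0)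
  have hm' : (m : ℤ) ≠ 0 := by exact_mod_cast hm
  have hEu : ∀ Q : Place K F,
      (E : Divisor K F) Q = (E' : Divisor K F) Q + Q.ord u := fun Q => by
    have h1 := hE Q
    rw [he, Q.ord_mul (mul_ne_zero hcF h0') (pow_ne_zero _ hu), Q.ord_mul hcF h0',
      ord_const_h296, zero_add, ord_pow_h296, hE' Q, ← mul_add] at h1
    exact (mul_left_cancel₀ hm' h1).symm
  show (QuotientAddGroup.mk E : Pic0 K F) = QuotientAddGroup.mk E'
  refine QuotientAddGroup.eq.mpr ?_
  rw [AddSubgroup.mem_addSubgroupOf]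
  refine ⟨u⁻¹, inv_ne_zero hu, fun Q => ?_⟩
  rw [Q.ord_inv]
  have h2 : ((-E + E' : Divisor.degZero (K := K) (F := F)) : Divisor K F) Q =
      -(E : Divisor K F) Q + (E' : Divisor K F) Q := by
    simp
  rw [h2, hEu Q]
  ring

/-- Functions whose root divisors have the same class differ by a constant and an `m`-th
power. -/
theorem IsRootDiv.exists_factor
    (hconst : ∀ u : F, u ≠ 0 → (∀ v : Place K F, v.ord u = 0) → ∃ c : K, u = algebraMap K F c)
    {m : ℕ} {h h' : F} (h0 : h ≠ 0) (h0' : h' ≠ 0)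
    {E E' : Divisor.degZero (K := K) (F := F)} (hE : IsRootDiv m h E)
    (hE' : IsRootDiv m h' E') (hcl : (Pic0.mk E : Pic0 K F) = Pic0.mk E') :
    ∃ (c : K) (u : F), c ≠ 0 ∧ u ≠ 0 ∧ h = algebraMap K F c * h' * u ^ m := by
  have hmem : (-E + E' : Divisor.degZero (K := K) (F := F)) ∈
      (Divisor.principal (K := K) (F := F)).addSubgroupOf
        (Divisor.degZero (K := K) (F := F)) := QuotientAddGroup.eq.mp hcl
  rw [AddSubgroup.mem_addSubgroupOf] at hmem
  obtain ⟨t, ht0, ht⟩ := hmem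
  have ht' : ∀ Q : Place K F, Q.ord t = -(E : Divisor K F) Q + (E' : Divisor K F) Q :=
    fun Q => by
      rw [← ht Q]
      simp
  have hw0 : h * (h' * (t⁻¹) ^ m)⁻¹ ≠ 0 :=
    mul_ne_zero h0 (inv_ne_zero (mul_ne_zero h0' (pow_ne_zero _ (inv_ne_zero ht0))))
  obtain ⟨c, hc⟩ := hconst _ hw0 (fun Q => by
    rw [Q.ord_mul h0 (inv_ne_zero (mul_ne_zero h0' (pow_ne_zero _ (inv_ne_zero ht0)))),
      Q.ord_inv, Q.ord_mul h0' (pow_ne_zero _ (inv_ne_zero ht0)),
      ord_pow_h296, Q.ord_inv, hE Q, hE' Q, ht']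
    ring)
  refine ⟨c, t⁻¹, ?_, inv_ne_zero ht0, ?_⟩
  · rintro rfl
    rw [map_zero] at hc
    exact hw0 hc
  · rw [← hc]
    field_simp

/-- Uniqueness of the root divisor. -/
theorem IsRootDiv.unique {m : ℕ} (hm : m ≠ 0) {h : F}
    {E E' : Divisor.degZero (K := K) (F := F)} (hE : IsRootDiv m h E)
    (hE' : IsRootDiv m h E') : E = E' := by
  have hm' : (m : ℤ) ≠ 0 := by exact_mod_cast hm
  apply Subtype.ext
  ext Q
  exact mul_left_cancel₀ hm' ((hE Q).symm.trans (hE' Q))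

/-- The class of a root divisor is killed by `m`. -/
theorem IsRootDiv.nsmul_mk {m : ℕ} {h : F} (h0 : h ≠ 0)
    {E : Divisor.degZero (K := K) (F := F)} (hE : IsRootDiv m h E) :
    m • (Pic0.mk E : Pic0 K F) = 0 := by
  have e : m • (Pic0.mk E : Pic0 K F) = Pic0.mk (m • E) := rfl
  rw [e]
  show (QuotientAddGroup.mk (m • E) : Pic0 K F) = 0
  refine (QuotientAddGroup.eq_zero_iff (m • E)).mpr ?_
  rw [AddSubgroup.mem_addSubgroupOf]
  refine ⟨h, h0, fun Q => ?_⟩
  rw [hE Q]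
  simp

/-- A function whose root divisor is principal is a constant times an `m`-th power. -/
theorem IsRootDiv.exists_const_mul_pow
    (hconst : ∀ u : F, u ≠ 0 → (∀ v : Place K F, v.ord u = 0) → ∃ c : K, u = algebraMap K F c)
    {m : ℕ} {h : F} (h0 : h ≠ 0) {E : Divisor.degZero (K := K) (F := F)}
    (hE : IsRootDiv m h E) (hcl : (Pic0.mk E : Pic0 K F) = 0) :
    ∃ (c : K) (u : F), c ≠ 0 ∧ u ≠ 0 ∧ h = algebraMap K F c * u ^ m := by
  have hmem : E ∈ (Divisor.principal (K := K) (F := F)).addSubgroupOf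
      (Divisor.degZero (K := K) (F := F)) := (QuotientAddGroup.eq_zero_iff E).mp hcl
  rw [AddSubgroup.mem_addSubgroupOf] at hmem
  obtain ⟨t, ht0, ht⟩ := hmem
  have hw0 : h * (t ^ m)⁻¹ ≠ 0 := mul_ne_zero h0 (inv_ne_zero (pow_ne_zero _ ht0))
  obtain ⟨c, hc⟩ := hconst _ hw0 (fun Q => by
    rw [Q.ord_mul h0 (inv_ne_zero (pow_ne_zero _ ht0)), Q.ord_inv, ord_pow_h296, hE Q, ← ht Q]
    ring)
  refine ⟨c, t, ?_, ht0, ?_⟩
  · rintro rfl
    rw [map_zero] at hc
    exact hw0 hc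
  · rw [← hc]
    field_simp

/-- The root divisor of a constant times an `m`-th power is principal. -/
theorem IsRootDiv.mk_eq_zero {m : ℕ} (hm : m ≠ 0) {h u : F} {c : K} (hc : c ≠ 0)
    (hu : u ≠ 0) (he : h = algebraMap K F c * u ^ m)
    {E : Divisor.degZero (K := K) (F := F)} (hE : IsRootDiv m h E) :
    (Pic0.mk E : Pic0 K F) = 0 := by
  have h1 : (Pic0.mk E : Pic0 K F) = Pic0.mk (0 : Divisor.degZero (K := K) (F := F)) :=
    IsRootDiv.mk_eq hm hc hu (one_ne_zero (α := F)) (by rw [he, mul_one]) hE (isRootDiv_one m)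
  rw [h1]
  rfl

end Abstract

/-! ## Series of `F_k = k(X₀(M'))` -/

section Series

variable {m M' : ℕ} [NeZero M'] {k : Type} [Field k]

theorem coe_const_h296 (c : k) :
    ((algebraMap k (modularFunctionFieldFullC k M') c : modularFunctionFieldFullC k M') :
      LaurentSeries k) = HahnSeries.C c := by
  have h0 : ((algebraMap k (modularFunctionFieldFullC k M') c :
      modularFunctionFieldFullC k M') : LaurentSeries k) =
      algebraMap k (LaurentSeries k) c := rfl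
  have h1 : algebraMap k (PowerSeries k) c = PowerSeries.C c := by simp
  rw [h0, HahnSeries.algebraMap_apply', h1, HahnSeries.ofPowerSeries_C]

/-- `y ∈ Pic⁰(F_k)` is the class of the `m`-th root of the divisor of the series `r ∈ F_k`. -/
def IsRootClass (m M' : ℕ) [NeZero M'] {k : Type} [Field k] (r : LaurentSeries k)
    (y : JZeroC k M') : Prop :=
  ∃ (h : modularFunctionFieldFullC k M')
    (E : Divisor.degZero (K := k) (F := modularFunctionFieldFullC k M')),
    (h : LaurentSeries k) = r ∧ h ≠ 0 ∧ IsRootDiv m h E ∧ Pic0.mk E = y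

theorem IsRootClass.pDiv {r : LaurentSeries k} {y : JZeroC k M'}
    (h : IsRootClass m M' r y) : PDivSeries m M' r := by
  obtain ⟨g, E, hg, hg0, hE, -⟩ := h
  exact ⟨g, hg, hg0, fun Q => ⟨_, hE Q⟩⟩

theorem IsRootClass.ne_zero {r : LaurentSeries k} {y : JZeroC k M'}
    (h : IsRootClass m M' r y) : r ≠ 0 := by
  obtain ⟨g, E, hg, hg0, -, -⟩ := h
  rintro rfl
  exact hg0 (Subtype.ext hg)

theorem exists_isRootClass [HasPrincipalDivisors k (modularFunctionFieldFullC k M')]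
    (hm : m ≠ 0) {r : LaurentSeries k} (h : PDivSeries m M' r) :
    ∃ y : JZeroC k M', IsRootClass m M' r y := by
  obtain ⟨g, hg, hg0, hdiv⟩ := h
  obtain ⟨E, hE⟩ := exists_isRootDiv (K := k) hm hg0 hdiv
  exact ⟨Pic0.mk E, g, E, hg, hg0, hE, rfl⟩

theorem isRootClass_one (m M' : ℕ) [NeZero M'] (k : Type) [Field k] :
    IsRootClass m M' (1 : LaurentSeries k) (0 : JZeroC k M') :=
  ⟨1, 0, rfl, one_ne_zero, isRootDiv_one m, rfl⟩

theorem IsRootClass.mul {r r' : LaurentSeries k} {y y' : JZeroC k M'}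
    (h : IsRootClass m M' r y) (h' : IsRootClass m M' r' y') :
    IsRootClass m M' (r * r') (y + y') := by
  obtain ⟨g, E, rfl, hg0, hE, rfl⟩ := h
  obtain ⟨g', E', rfl, hg0', hE', rfl⟩ := h'
  exact ⟨g * g', E + E', rfl, mul_ne_zero hg0 hg0', hE.mul hg0 hg0' hE', rfl⟩

theorem IsRootClass.inv {r : LaurentSeries k} {y : JZeroC k M'}
    (h : IsRootClass m M' r y) : IsRootClass m M' r⁻¹ (-y) := by
  obtain ⟨g, E, rfl, hg0, hE, rfl⟩ := h
  exact ⟨g⁻¹, -E, rfl, inv_ne_zero hg0, hE.inv, rfl⟩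

/-- The class is killed by `m`. -/
theorem IsRootClass.nsmul_eq_zero {r : LaurentSeries k} {y : JZeroC k M'}
    (h : IsRootClass m M' r y) : m • y = 0 := by
  obtain ⟨g, E, -, hg0, hE, rfl⟩ := h
  exact hE.nsmul_mk hg0

/-- **Independence**: series which differ by a constant and an `m`-th power of `F_k` have the same
class. -/
theorem IsRootClass.eq_of_factor (hm : m ≠ 0) {r r' g : LaurentSeries k} {c : k}
    {y y' : JZeroC k M'} (h : IsRootClass m M' r y) (h' : IsRootClass m M' r' y')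
    (hc : c ≠ 0) (hg : g ∈ modularFunctionFieldFullC k M') (hg0 : g ≠ 0)
    (he : r = HahnSeries.C c * r' * g ^ m) : y = y' := by
  obtain ⟨a, E, ha, ha0, hE, rfl⟩ := h
  obtain ⟨a', E', ha', ha0', hE', rfl⟩ := h'
  have hu0 : (⟨g, hg⟩ : modularFunctionFieldFullC k M') ≠ 0 := fun e =>
    hg0 (congrArg Subtype.val e)
  refine IsRootDiv.mk_eq (K := k) hm hc hu0 ha0' ?_ hE hE'
  apply Subtype.ext
  show (a : LaurentSeries k) =
    ((algebraMap k (modularFunctionFieldFullC k M') c : modularFunctionFieldFullC k M') :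
      LaurentSeries k) * (a' : LaurentSeries k) * g ^ m
  rw [coe_const_h296, ha, ha', he]

/-- **Converse of independence**: series with the same class differ by a constant and an
`m`-th power of `F_k`. -/
theorem IsRootClass.exists_factor
    (hconst : ∀ u : modularFunctionFieldFullC k M', u ≠ 0 →
      (∀ v : Place k (modularFunctionFieldFullC k M'), v.ord u = 0) →
      ∃ c : k, u = algebraMap k (modularFunctionFieldFullC k M') c)
    {r r' : LaurentSeries k} {y : JZeroC k M'} (h : IsRootClass m M' r y)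
    (h' : IsRootClass m M' r' y) :
    ∃ (c : k) (g : modularFunctionFieldFullC k M'), c ≠ 0 ∧ g ≠ 0 ∧
      r = HahnSeries.C c * r' * (g : LaurentSeries k) ^ m := by
  obtain ⟨a, E, ha, ha0, hE, hy⟩ := h
  obtain ⟨a', E', ha', ha0', hE', hy'⟩ := h'
  obtain ⟨c, u, hc, hu, he⟩ := hE.exists_factor hconst ha0 ha0' hE' (hy.trans hy'.symm)
  refine ⟨c, u, hc, hu, ?_⟩
  rw [← ha, ← ha', he]
  show ((algebraMap k (modularFunctionFieldFullC k M') c : modularFunctionFieldFullC k M') :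
      LaurentSeries k) * (a' : LaurentSeries k) * (u : LaurentSeries k) ^ m = _
  rw [coe_const_h296]

/-- **Uniqueness** of the class of a series. -/
theorem IsRootClass.unique (hm : m ≠ 0) {r : LaurentSeries k} {y y' : JZeroC k M'}
    (h : IsRootClass m M' r y) (h' : IsRootClass m M' r y') : y = y' := by
  refine h.eq_of_factor hm h' (one_ne_zero (α := k)) (g := 1) (one_mem _) one_ne_zero ?_
  rw [map_one, one_mul, one_pow, mul_one]

/-- The class of a series vanishes only for constants times `m`-th powers of `F_k`. -/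
theorem IsRootClass.pPow
    (hconst : ∀ u : modularFunctionFieldFullC k M', u ≠ 0 →
      (∀ v : Place k (modularFunctionFieldFullC k M'), v.ord u = 0) →
      ∃ c : k, u = algebraMap k (modularFunctionFieldFullC k M') c)
    {r : LaurentSeries k} (h : IsRootClass m M' r (0 : JZeroC k M')) : PPowSeries m M' r := by
  obtain ⟨a, E, ha, ha0, hE, hy⟩ := h
  obtain ⟨c, u, hc, hu, he⟩ := hE.exists_const_mul_pow hconst ha0 hy
  refine ⟨c, u, hc, hu, ?_⟩
  rw [← ha, he]
  show ((algebraMap k (modularFunctionFieldFullC k M') c : modularFunctionFieldFullC k M') :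
      LaurentSeries k) * (u : LaurentSeries k) ^ m = _
  rw [coe_const_h296]

/-- A constant times an `m`-th power of `F_k` has class `0`. -/
theorem isRootClass_zero_of_pPow [HasPrincipalDivisors k (modularFunctionFieldFullC k M')]
    {r : LaurentSeries k} (h : PPowSeries m M' r) :
    IsRootClass m M' r (0 : JZeroC k M') := by
  obtain ⟨c, u, hc, hu, rfl⟩ := h
  obtain ⟨E, hE, hE0⟩ := isRootDiv_const_mul_pow (K := k) m hc hu
  have hcF : algebraMap k (modularFunctionFieldFullC k M') c ≠ 0 := fun h0 =>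
    hc (by simpa using h0)
  refine ⟨algebraMap k (modularFunctionFieldFullC k M') c * u ^ m, E, ?_,
    mul_ne_zero hcF (pow_ne_zero _ hu), hE, hE0⟩
  show ((algebraMap k (modularFunctionFieldFullC k M') c : modularFunctionFieldFullC k M') :
      LaurentSeries k) * (u : LaurentSeries k) ^ m = _
  rw [coe_const_h296]

/-- The class is `0` iff the series is a constant times an `m`-th power. -/
theorem IsRootClass.eq_zero_iff [HasPrincipalDivisors k (modularFunctionFieldFullC k M')]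
    (hm : m ≠ 0)
    (hconst : ∀ u : modularFunctionFieldFullC k M', u ≠ 0 →
      (∀ v : Place k (modularFunctionFieldFullC k M'), v.ord u = 0) →
      ∃ c : k, u = algebraMap k (modularFunctionFieldFullC k M') c)
    {r : LaurentSeries k} {y : JZeroC k M'} (h : IsRootClass m M' r y) :
    y = 0 ↔ PPowSeries m M' r := by
  constructor
  · rintro rfl
    exact h.pPow hconst
  · intro hP
    exact h.unique hm (isRootClass_zero_of_pPow hP)

/-- Change of modulus: the class of `r` for `m` is the class of `r ^ d` for `m · d`. -/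
theorem IsRootClass.pow_modulus {r : LaurentSeries k} {y : JZeroC k M'}
    (h : IsRootClass m M' r y) (d : ℕ) (hd : d ≠ 0) : IsRootClass (m * d) M' (r ^ d) y := by
  obtain ⟨a, E, rfl, ha0, hE, rfl⟩ := h
  refine ⟨a ^ d, E, rfl, pow_ne_zero _ ha0, fun Q => ?_, rfl⟩
  rw [ord_pow_h296, hE Q]
  push_cast
  ring

end Series

end Fermat.Agent.S59.LoSqC.H296

end

end
-- ===== PACK-END S59/LoSqC/H296/RootDiv.lean

-- ===== PACK-BEGIN S59/LoSqC/H296/RedHom.lean
section


/-!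
# S59 moonshot, cell (C) LO-SQ, W-COUNT sub-leaf RED-HOM, part 2: the reduction homomorphism
  (helper296)

Level `N = q · M'`, `q ∤ M'`, `A` a valuation subring of `ℚ̄` over `q`, `k = kA A`,
`F_k = modularFunctionFieldFullC k M'`, ANY modulus `m ≠ 0` (`m = p ^ n`, `p = 3` included; no
hypothesis `5 ≤ p`, no hypothesis `q ≠ 2`, no good-level hypothesis).

WALL-q vocabulary (main): `H158.WallQ.finPartQ m q M' A` (classes with a Kummer generator whose two
reductions have `m`-divisible divisors), `splitPartQ m q M' A` (… are constants times `m`-th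
powers).

* `IsRedClassQ m q M' A x y` : `y = (y∞, y₀) ∈ Pic⁰(F_k)²` are the classes of the `m`-th roots of
  the divisors of the two reductions of a Kummer generator of `x`;
* it is functional (`IsRedClassQ.unique` = GEN-INDEP), additive, defined exactly on `finPartQ`,
  `m`-torsion valued, and `y = 0` iff `x ∈ splitPartQ`;
* **`exists_redHom_h296`** : the homomorphism
  `red : finPartQ m q M' A →+ JZeroC k M' × JZeroC k M'` with `m • red x = 0` and
  `red x = 0 ↔ x ∈ splitPartQ m q M' A`;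
* `IsRedClassQ.pow_modulus` : compatibility of the reductions for the moduli `m ∣ m · d`.
-/

set_option autoImplicit false
set_option linter.unusedSectionVars false
set_option linter.unusedVariables false
set_option linter.style.haveILetI false
set_option synthInstance.maxHeartbeats 400000
set_option maxHeartbeats 1000000

noncomputable section

namespace Fermat.Agent.S59.LoSqC.H296

open AlgebraicCurve ModularCurve HahnSeries
open Fermat.Agent.S24 Fermat.Agent.A2.H708 Fermat.Agent.A2.H528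
open Fermat.Agent.Ribet.Spec Fermat.Agent.Ribet.H944.Wall Fermat.Agent.Ribet.H884
open Fermat.Agent.Ribet.H158.WallQ
open Fermat.Agent.Ribet.H944
open Fermat.Agent.Ribet.H708.Q3Pow

section Level

variable {m q M' : ℕ} [NeZero M'] [NeZero q] [NeZero (q * M')] {A : ValuationSubring Kbar}

/-- The primes dividing `M'` are invertible in the residue field of `A` (`A` over `q ∤ M'`). -/
theorem hchar_h296 (hq : q.Prime) (hqM : ¬ q ∣ M') (hA : A.LiesOverPrime q) :
    ∀ p' : ℕ, p'.Prime → p' ∣ M' → (p' : kA A) ≠ 0 := by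
  obtain ⟨hac, hch⟩ := Fermat.Agent.Ribet.H939.resField q hq A hA
  haveI := hch
  intro p' hp' hd h0
  have h1 : q ∣ p' := (CharP.cast_eq_zero_iff (kA A) q p').mp h0
  have h2 : q = p' := (Nat.prime_dvd_prime_iff_eq hq hp').mp h1
  exact hqM (h2 ▸ hd)

theorem hpd_h296 (hq : q.Prime) (hqM : ¬ q ∣ M') (hA : A.LiesOverPrime q) :
    HasPrincipalDivisors (kA A) (modularFunctionFieldFullC (kA A) M') := by
  obtain ⟨hac, hch⟩ := Fermat.Agent.Ribet.H939.resField q hq A hA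
  haveI := hac
  exact Fermat.Agent.S37.H868.hpd_fullC (kA A) M' (hchar_h296 hq hqM hA)

theorem hconst_h296 (hq : q.Prime) (hqM : ¬ q ∣ M') (hA : A.LiesOverPrime q) :
    ∀ u : modularFunctionFieldFullC (kA A) M', u ≠ 0 →
      (∀ v : Place (kA A) (modularFunctionFieldFullC (kA A) M'), v.ord u = 0) →
      ∃ c : kA A, u = algebraMap (kA A) (modularFunctionFieldFullC (kA A) M') c := by
  obtain ⟨hac, hch⟩ := Fermat.Agent.Ribet.H939.resField q hq A hA
  haveI := hac
  exact Fermat.Agent.S18.H144.constOfOrdZero_fullC (kA A) M' (hchar_h296 hq hqM hA)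

/-- **The reduction relation**: `y = (y∞, y₀)` are the classes in `Pic⁰(F_k)` of the `m`-th roots
of the divisors of the reductions (on the `∞`- and on the `0`-component) of a Kummer generator of
`x`. -/
def IsRedClassQ (m q M' : ℕ) [NeZero M'] [NeZero (q * M')] (A : ValuationSubring Kbar)
    (x : JZero (q * M')) (y : JZeroC (kA A) M' × JZeroC (kA A) M') : Prop :=
  ∃ (f : FF (q * M')) (r₁ r₂ : LaurentSeries (kA A)),
    IsKummerGen (q * M') m f x ∧ IsRedInf (q * M') A f r₁ ∧ IsRedZero (q * M') A f r₂ ∧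
    IsRootClass m M' r₁ y.1 ∧ IsRootClass m M' r₂ y.2

theorem isRedClassQ_zero :
    IsRedClassQ m q M' A (0 : JZero (q * M')) (0 : JZeroC (kA A) M' × JZeroC (kA A) M') :=
  ⟨1, 1, 1, I2.isKummerGen_one _ _, I2.isRedInf_one _ A, isRedZero_one',
    isRootClass_one m M' (kA A), isRootClass_one m M' (kA A)⟩

theorem IsRedClassQ.add {x x' : JZero (q * M')}
    {y y' : JZeroC (kA A) M' × JZeroC (kA A) M'} (h : IsRedClassQ m q M' A x y)
    (h' : IsRedClassQ m q M' A x' y') : IsRedClassQ m q M' A (x + x') (y + y') := by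
  obtain ⟨f, r₁, r₂, hf, h1, h2, h3, h4⟩ := h
  obtain ⟨f', r₁', r₂', hf', h1', h2', h3', h4'⟩ := h'
  exact ⟨f * f', r₁ * r₁', r₂ * r₂', I2.isKummerGen_mul _ _ hf hf',
    I2.isRedInf_mul _ A h1 h1', isRedZero_mul' h2 h2', h3.mul h3', h4.mul h4'⟩

theorem IsRedClassQ.neg {x : JZero (q * M')} {y : JZeroC (kA A) M' × JZeroC (kA A) M'}
    (h : IsRedClassQ m q M' A x y) : IsRedClassQ m q M' A (-x) (-y) := by
  obtain ⟨f, r₁, r₂, hf, h1, h2, h3, h4⟩ := h
  exact ⟨f⁻¹, r₁⁻¹, r₂⁻¹, I2.isKummerGen_inv _ _ hf, I2.isRedInf_inv _ A h1,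
    isRedZero_inv' h2, h3.inv, h4.inv⟩

/-- The relation lives on `finSetQ`. -/
theorem IsRedClassQ.mem_finSetQ {x : JZero (q * M')}
    {y : JZeroC (kA A) M' × JZeroC (kA A) M'} (h : IsRedClassQ m q M' A x y) :
    x ∈ finSetQ m q M' A := by
  obtain ⟨f, r₁, r₂, hf, h1, h2, h3, h4⟩ := h
  exact ⟨f, hf, r₁, r₂, h1, h2, h3.pDiv, h4.pDiv⟩

theorem IsRedClassQ.mem_finPartQ {x : JZero (q * M')}
    {y : JZeroC (kA A) M' × JZeroC (kA A) M'} (h : IsRedClassQ m q M' A x y) :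
    x ∈ finPartQ m q M' A :=
  AddSubgroup.subset_closure h.mem_finSetQ

/-- The values are killed by `m`. -/
theorem IsRedClassQ.nsmul_eq_zero {x : JZero (q * M')}
    {y : JZeroC (kA A) M' × JZeroC (kA A) M'} (h : IsRedClassQ m q M' A x y) : m • y = 0 := by
  obtain ⟨f, r₁, r₂, hf, h1, h2, h3, h4⟩ := h
  exact Prod.ext h3.nsmul_eq_zero h4.nsmul_eq_zero

/-- The classes are killed by `m`. -/
theorem IsRedClassQ.nsmul_class_eq_zero {x : JZero (q * M')}
    {y : JZeroC (kA A) M' × JZeroC (kA A) M'} (h : IsRedClassQ m q M' A x y) : m • x = 0 := by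
  obtain ⟨f, r₁, r₂, ⟨hf0, D, rfl, hD⟩, -⟩ := h
  have e : m • (Pic0.mk D : JZero (q * M')) = Pic0.mk (m • D) := rfl
  rw [e]
  show (QuotientAddGroup.mk (m • D) : Pic0 Kbar (FF (q * M'))) = 0
  refine (QuotientAddGroup.eq_zero_iff (m • D)).mpr ?_
  rw [AddSubgroup.mem_addSubgroupOf]
  refine ⟨f, hf0, fun Q => ?_⟩
  rw [hD Q]
  simp

/-- **Existence**: every class of `finPartQ` has reduction classes. -/
theorem exists_isRedClassQ (hm : m ≠ 0) (hq : q.Prime) (hqM : ¬ q ∣ M')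
    (hA : A.LiesOverPrime q) {x : JZero (q * M')} (hx : x ∈ finPartQ m q M' A) :
    ∃ y : JZeroC (kA A) M' × JZeroC (kA A) M', IsRedClassQ m q M' A x y := by
  haveI := hpd_h296 (M' := M') hq hqM hA
  obtain ⟨f, hf, r₁, r₂, h1, h2, h3, h4⟩ := mem_finSetQ_of_mem_finPartQ hx
  obtain ⟨y₁, hy₁⟩ := exists_isRootClass hm h3
  obtain ⟨y₂, hy₂⟩ := exists_isRootClass hm h4
  exact ⟨(y₁, y₂), f, r₁, r₂, hf, h1, h2, hy₁, hy₂⟩

/-- Functions which differ by a constant and an `m`-th power have reductions with the same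
class. -/
theorem rootClass_eq_of_factor (hm : m ≠ 0) (hq : q.Prime) (hqM : ¬ q ∣ M')
    (hA : A.LiesOverPrime q) {F₁ F₂ G : FF (q * M')} {c : Kbar} (hc : c ≠ 0)
    (hF : F₁ = algebraMap Kbar (FF (q * M')) c * F₂ * G ^ m)
    {r s g : LaurentSeries (kA A)} (hr : IsRedInf (q * M') A F₁ r)
    (hs : IsRedInf (q * M') A F₂ s) (hg : IsRedInf (q * M') A G g)
    (hgF : g ∈ modularFunctionFieldFullC (kA A) M')
    {y y' : JZeroC (kA A) M'} (hy : IsRootClass m M' r y) (hy' : IsRootClass m M' s y') :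
    y = y' := by
  have h1 : IsRedInf (q * M') A F₁ (1 * s * g ^ m) := by
    rw [hF]
    exact I2.isRedInf_mul _ A (I2.isRedInf_mul _ A (I2.isRedInf_const _ A hc) hs)
      (I2.isRedInf_pow _ A hg m)
  obtain ⟨-, u, hu, hr'⟩ := Fermat.Agent.Ribet.H997.redUnique q (q * M') hq A hA F₁ _ r h1 hr
  have hg0 : g ≠ 0 := (I2.isRedInf_ne_zero _ A hg).2
  refine hy.eq_of_factor hm hy' hu hgF hg0 ?_
  rw [hr', one_mul, mul_assoc]

/-- **GEN-INDEP / uniqueness**: the reduction classes do not depend on the Kummer generator nor on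
the chosen reductions. -/
theorem IsRedClassQ.unique (hm : m ≠ 0) (hq : q.Prime) (hqM : ¬ q ∣ M')
    (hA : A.LiesOverPrime q) {x : JZero (q * M')}
    {y y' : JZeroC (kA A) M' × JZeroC (kA A) M'} (h : IsRedClassQ m q M' A x y)
    (h' : IsRedClassQ m q M' A x y') : y = y' := by
  obtain ⟨f, r₁, r₂, hf, h1, h2, h3, h4⟩ := h
  obtain ⟨f', r₁', r₂', hf', h1', h2', h3', h4'⟩ := h'
  obtain ⟨c, G, hc, hG, hFeq⟩ := kummerGen_ratio hf hf'
  obtain ⟨⟨g₁, hg1⟩, ⟨g₂, hg2⟩⟩ :=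
    Fermat.Agent.Ribet.H997.redExists q (q * M') hq A hA G hG
  obtain ⟨k₁, hk1⟩ :=
    Fermat.Agent.Ribet.H997.redField q M' hq hqM A hA G g₁ (Or.inl hg1)
  obtain ⟨k₂, hk2⟩ :=
    Fermat.Agent.Ribet.H997.redField q M' hq hqM A hA G g₂ (Or.inr hg2)
  refine Prod.ext ?_ ?_
  · exact rootClass_eq_of_factor hm hq hqM hA hc hFeq h1 h1' hg1 (hk1 ▸ k₁.2) h3 h3'
  · have hFw : wF (q * M') f =
        algebraMap Kbar (FF (q * M')) c * wF (q * M') f' * (wF (q * M') G) ^ m := by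
      rw [hFeq, map_mul, map_mul, map_pow, AlgEquiv.commutes]
    exact rootClass_eq_of_factor hm hq hqM hA hc hFw h2 h2' hg2 (hk2 ▸ k₂.2) h4 h4'

/-- **Kernel**: a class with trivial reduction classes is split. -/
theorem IsRedClassQ.mem_splitSetQ (hq : q.Prime) (hqM : ¬ q ∣ M') (hA : A.LiesOverPrime q)
    {x : JZero (q * M')}
    (h : IsRedClassQ m q M' A x (0 : JZeroC (kA A) M' × JZeroC (kA A) M')) :
    x ∈ splitSetQ m q M' A := by
  obtain ⟨f, r₁, r₂, hf, h1, h2, h3, h4⟩ := h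
  have hconst := hconst_h296 (M' := M') hq hqM hA
  exact ⟨f, hf, r₁, r₂, h1, h2, IsRootClass.pPow hconst h3, IsRootClass.pPow hconst h4⟩

/-- Split classes have trivial reduction classes. -/
theorem isRedClassQ_zero_of_mem_splitPartQ (hq : q.Prime) (hqM : ¬ q ∣ M')
    (hA : A.LiesOverPrime q) {x : JZero (q * M')} (hx : x ∈ splitPartQ m q M' A) :
    IsRedClassQ m q M' A x (0 : JZeroC (kA A) M' × JZeroC (kA A) M') := by
  haveI := hpd_h296 (M' := M') hq hqM hA
  obtain ⟨f, hf, r₁, r₂, h1, h2, h3, h4⟩ := mem_splitSetQ_of_mem_splitPartQ hx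
  exact ⟨f, r₁, r₂, hf, h1, h2, isRootClass_zero_of_pPow h3, isRootClass_zero_of_pPow h4⟩

/-- `𝒮 ≤ 𝓕`. -/
theorem splitPartQ_le_finPartQ_h296 (hq : q.Prime) (hqM : ¬ q ∣ M')
    (hA : A.LiesOverPrime q) : splitPartQ m q M' A ≤ finPartQ m q M' A := fun _ hx =>
  (isRedClassQ_zero_of_mem_splitPartQ hq hqM hA hx).mem_finPartQ

/-- The reduction classes vanish exactly on the split part. -/
theorem IsRedClassQ.eq_zero_iff (hm : m ≠ 0) (hq : q.Prime) (hqM : ¬ q ∣ M')
    (hA : A.LiesOverPrime q) {x : JZero (q * M')}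
    {y : JZeroC (kA A) M' × JZeroC (kA A) M'} (h : IsRedClassQ m q M' A x y) :
    y = 0 ↔ x ∈ splitPartQ m q M' A := by
  constructor
  · rintro rfl
    exact AddSubgroup.subset_closure (h.mem_splitSetQ hq hqM hA)
  · intro hx
    exact h.unique hm hq hqM hA (isRedClassQ_zero_of_mem_splitPartQ hq hqM hA hx)

/-- Change of modulus: the reduction classes for `m` are the reduction classes for `m · d`. -/
theorem IsRedClassQ.pow_modulus {x : JZero (q * M')}
    {y : JZeroC (kA A) M' × JZeroC (kA A) M'} (h : IsRedClassQ m q M' A x y) {d : ℕ}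
    (hd : d ≠ 0) : IsRedClassQ (m * d) q M' A x y := by
  obtain ⟨f, r₁, r₂, ⟨hf0, D, hDx, hD⟩, h1, h2, h3, h4⟩ := h
  refine ⟨f ^ d, r₁ ^ d, r₂ ^ d, ⟨pow_ne_zero _ hf0, D, hDx, fun v => ?_⟩,
    I2.isRedInf_pow _ A h1 d, isRedZero_pow' h2 d, h3.pow_modulus d hd, h4.pow_modulus d hd⟩
  rw [ord_pow_h296, hD v]
  push_cast
  ring

/-- `𝓕_m ≤ 𝓕_{m d}`. -/
theorem finPartQ_le_mul_h296 (hm : m ≠ 0) (hq : q.Prime) (hqM : ¬ q ∣ M')
    (hA : A.LiesOverPrime q) {d : ℕ} (hd : d ≠ 0) :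
    finPartQ m q M' A ≤ finPartQ (m * d) q M' A := fun x hx => by
  obtain ⟨y, hy⟩ := exists_isRedClassQ hm hq hqM hA hx
  exact (hy.pow_modulus hd).mem_finPartQ

/-- `𝒮_m ≤ 𝒮_{m d}`. -/
theorem splitPartQ_le_mul_h296 (hm : m ≠ 0) (hq : q.Prime) (hqM : ¬ q ∣ M')
    (hA : A.LiesOverPrime q) {d : ℕ} (hd : d ≠ 0) :
    splitPartQ m q M' A ≤ splitPartQ (m * d) q M' A := fun x hx => by
  have h0 := isRedClassQ_zero_of_mem_splitPartQ hq hqM hA hx
  exact AddSubgroup.subset_closure ((h0.pow_modulus hd).mem_splitSetQ hq hqM hA)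

end Level

/-! ## The homomorphism -/

section Hom

variable (m q M' : ℕ) [NeZero M'] [NeZero q] [NeZero (q * M')] (A : ValuationSubring Kbar)

/-- **RED-HOM.**  The reduction homomorphism
`red : 𝓕 = finPartQ m q M' A →+ Pic⁰(F_k) × Pic⁰(F_k)`: it is given by the classes of the
`m`-th roots of the divisors of the two reductions of ANY Kummer generator, its values are killed
by `m`, and its kernel is `𝒮 = splitPartQ m q M' A`. -/
theorem exists_redHom_h296 (hm : m ≠ 0) (hq : q.Prime) (hqM : ¬ q ∣ M')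
    (hA : A.LiesOverPrime q) :
    ∃ red : ↥(finPartQ m q M' A) →+ JZeroC (kA A) M' × JZeroC (kA A) M',
      (∀ x : ↥(finPartQ m q M' A), IsRedClassQ m q M' A (x : JZero (q * M')) (red x)) ∧
      (∀ x : ↥(finPartQ m q M' A), m • red x = 0) ∧
      (∀ x : ↥(finPartQ m q M' A),
        red x = 0 ↔ (x : JZero (q * M')) ∈ splitPartQ m q M' A) := by
  classical
  have hex : ∀ x : ↥(finPartQ m q M' A),
      ∃ y : JZeroC (kA A) M' × JZeroC (kA A) M',
        IsRedClassQ m q M' A (x : JZero (q * M')) y := fun x =>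
    exists_isRedClassQ hm hq hqM hA x.2
  choose φ hφ using hex
  have hadd : ∀ x y : ↥(finPartQ m q M' A), φ (x + y) = φ x + φ y := fun x y =>
    (hφ (x + y)).unique hm hq hqM hA ((hφ x).add (hφ y))
  have hzero : φ 0 = 0 := (hφ 0).unique hm hq hqM hA isRedClassQ_zero
  refine ⟨{ toFun := φ, map_zero' := hzero, map_add' := hadd }, fun x => hφ x,
    fun x => (hφ x).nsmul_eq_zero, fun x => (hφ x).eq_zero_iff hm hq hqM hA⟩

/-- **RED-HOM, counting form** (input `red` of the abstract counts `H357.index_bounds_of_filtration`,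
`H505.count_family505`): values in the `m`-torsion subgroup of `Pic⁰(F_k)²`, kernel inside `𝒮`. -/
theorem exists_redHom_torsion_h296 (hm : m ≠ 0) (hq : q.Prime) (hqM : ¬ q ∣ M')
    (hA : A.LiesOverPrime q) :
    ∃ red : ↥(finPartQ m q M' A) →+ JZeroC (kA A) M' × JZeroC (kA A) M',
      (∀ x : ↥(finPartQ m q M' A),
        (red x).1 ∈ Pic0.torsion (kA A) (modularFunctionFieldFullC (kA A) M') m ∧
        (red x).2 ∈ Pic0.torsion (kA A) (modularFunctionFieldFullC (kA A) M') m) ∧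
      (∀ x : ↥(finPartQ m q M' A), red x = 0 → (x : JZero (q * M')) ∈ splitPartQ m q M' A) ∧
      (∀ x : ↥(finPartQ m q M' A), (x : JZero (q * M')) ∈ splitPartQ m q M' A → red x = 0) := by
  obtain ⟨red, h1, h2, h3⟩ := exists_redHom_h296 m q M' A hm hq hqM hA
  refine ⟨red, fun x => ?_, fun x hx => (h3 x).mp hx, fun x hx => (h3 x).mpr hx⟩
  have hx := h2 x
  have e1 : m • (red x).1 = 0 := congrArg Prod.fst hx
  have e2 : m • (red x).2 = 0 := congrArg Prod.snd hx
  constructor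
  · rw [Pic0.mem_torsion, natCast_zsmul]
    exact e1
  · rw [Pic0.mem_torsion, natCast_zsmul]
    exact e2

end Hom

end Fermat.Agent.S59.LoSqC.H296

end

end
-- ===== PACK-END S59/LoSqC/H296/RedHom.lean

-- ===== PACK-BEGIN S59/LoSqC/H296/RedTower.lean
section


/-!
# S59 moonshot, cell (C) LO-SQ, W-COUNT sub-leaf RED-HOM, part 3: the tower in the modulus
  (helper296)

Compatibility of `𝓕_m = finPartQ m q M' A`, `𝒮_m = splitPartQ m q M' A` and of the reduction
classes `IsRedClassQ m` when the modulus varies (`m, d ≠ 0`):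

* `nsmul_mem_finPartQ_h296`   : `x ∈ 𝓕_{m d}  ⟹  d • x ∈ 𝓕_m`, with reduction classes `d • y`;
* `mem_finPartQ_of_nsmul_h296`: `x ∈ 𝓕_{m d}`, `d • x = 0  ⟹  x ∈ 𝓕_d`;
* `nsmul_mem_splitPartQ_h296`, `mem_splitPartQ_of_nsmul_h296` : the same for `𝒮`;
* `finPartQ_le_torsion_h296`  : `𝓕_m ⊆ J₀(qM')[m]`.

Family form for `m = p ^ n` (the hypotheses `hF`, `hS`, `hFc`, `hFk`, `hSc`, `hSk` of the abstract
count `H505.count_family505`): `redTower_h296`.
-/

set_option autoImplicit false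
set_option linter.unusedSectionVars false
set_option linter.unusedVariables false
set_option linter.style.haveILetI false
set_option synthInstance.maxHeartbeats 400000
set_option maxHeartbeats 1000000

noncomputable section

namespace Fermat.Agent.S59.LoSqC.H296

open AlgebraicCurve ModularCurve HahnSeries
open Fermat.Agent.S24 Fermat.Agent.A2.H708 Fermat.Agent.A2.H528
open Fermat.Agent.Ribet.Spec Fermat.Agent.Ribet.H944.Wall Fermat.Agent.Ribet.H884
open Fermat.Agent.Ribet.H158.WallQ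
open Fermat.Agent.Ribet.H944
open Fermat.Agent.Ribet.H708.Q3Pow

section Tower

variable {m d q M' : ℕ} [NeZero M'] [NeZero q] [NeZero (q * M')] {A : ValuationSubring Kbar}

/-- `𝓕_m ⊆ J₀(qM')[m]`. -/
theorem finPartQ_le_torsion_h296 (hm : m ≠ 0) (hq : q.Prime) (hqM : ¬ q ∣ M')
    (hA : A.LiesOverPrime q) {x : JZero (q * M')} (hx : x ∈ finPartQ m q M' A) :
    m • x = 0 := by
  obtain ⟨y, hy⟩ := exists_isRedClassQ hm hq hqM hA hx
  exact hy.nsmul_class_eq_zero

theorem coe_nsmul_apply_h296 {K F : Type*} [Field K] [Field F] [Algebra K F] (d : ℕ)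
    (E : Divisor.degZero (K := K) (F := F)) (Q : Place K F) :
    ((d • E : Divisor.degZero (K := K) (F := F)) : Divisor K F) Q =
      (d : ℤ) * (E : Divisor K F) Q := by
  rw [AddSubgroup.coe_nsmul, Finsupp.smul_apply, nsmul_eq_mul]

theorem IsRootClass.nsmul_of_mul {k : Type} [Field k] {r : LaurentSeries k}
    {y : JZeroC k M'} (h : IsRootClass (m * d) M' r y) : IsRootClass m M' r (d • y) := by
  obtain ⟨a, E, ha, ha0, hE, rfl⟩ := h
  refine ⟨a, d • E, ha, ha0, fun Q => ?_, rfl⟩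
  rw [hE Q, coe_nsmul_apply_h296]
  push_cast
  ring

/-- Multiplication by `d` maps the reduction classes for `m d` to the reduction classes
for `m`. -/
theorem IsRedClassQ.nsmul_of_mul {x : JZero (q * M')}
    {y : JZeroC (kA A) M' × JZeroC (kA A) M'} (h : IsRedClassQ (m * d) q M' A x y) :
    IsRedClassQ m q M' A (d • x) (d • y) := by
  obtain ⟨f, r₁, r₂, ⟨hf0, D, hDx, hD⟩, h1, h2, h3, h4⟩ := h
  refine ⟨f, r₁, r₂, ⟨hf0, d • D, ?_, fun v => ?_⟩, h1, h2, h3.nsmul_of_mul, h4.nsmul_of_mul⟩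
  · rw [← hDx]
    rfl
  · rw [hD v, coe_nsmul_apply_h296]
    push_cast
    ring

/-- `x ∈ 𝓕_{m d} ⟹ d • x ∈ 𝓕_m`. -/
theorem nsmul_mem_finPartQ_h296 (hm : m ≠ 0) (hd : d ≠ 0) (hq : q.Prime) (hqM : ¬ q ∣ M')
    (hA : A.LiesOverPrime q) {x : JZero (q * M')} (hx : x ∈ finPartQ (m * d) q M' A) :
    d • x ∈ finPartQ m q M' A := by
  obtain ⟨y, hy⟩ := exists_isRedClassQ (Nat.mul_ne_zero hm hd) hq hqM hA hx
  exact hy.nsmul_of_mul.mem_finPartQ

/-- `x ∈ 𝒮_{m d} ⟹ d • x ∈ 𝒮_m`. -/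
theorem nsmul_mem_splitPartQ_h296 (hm : m ≠ 0) (hd : d ≠ 0) (hq : q.Prime) (hqM : ¬ q ∣ M')
    (hA : A.LiesOverPrime q) {x : JZero (q * M')} (hx : x ∈ splitPartQ (m * d) q M' A) :
    d • x ∈ splitPartQ m q M' A := by
  have h0 := (isRedClassQ_zero_of_mem_splitPartQ hq hqM hA hx).nsmul_of_mul
  rw [smul_zero] at h0
  exact AddSubgroup.subset_closure (h0.mem_splitSetQ hq hqM hA)

/-- If `F₁ = c · G ^ m` and the reduction of `F₁` has `m d`-divisible divisor, then the reduction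
of `G` has `d`-divisible divisor. -/
theorem pDiv_root_of_factor (hm : m ≠ 0) (hq : q.Prime) (hA : A.LiesOverPrime q)
    {F₁ G : FF (q * M')} {c : Kbar} (hc : c ≠ 0)
    (hF : F₁ = algebraMap Kbar (FF (q * M')) c * G ^ m)
    {r g : LaurentSeries (kA A)} (hr : IsRedInf (q * M') A F₁ r)
    (hg : IsRedInf (q * M') A G g) (hgF : g ∈ modularFunctionFieldFullC (kA A) M')
    (hP : PDivSeries (m * d) M' r) : PDivSeries d M' g := by
  have h1 : IsRedInf (q * M') A F₁ (1 * g ^ m) := by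
    rw [hF]
    exact I2.isRedInf_mul _ A (I2.isRedInf_const _ A hc) (I2.isRedInf_pow _ A hg m)
  obtain ⟨-, u, hu, hr'⟩ := Fermat.Agent.Ribet.H997.redUnique q (q * M') hq A hA F₁ _ r h1 hr
  have hg0 : g ≠ 0 := (I2.isRedInf_ne_zero _ A hg).2
  obtain ⟨a, ha, ha0, hdiv⟩ := hP
  have hk0 : (⟨g, hgF⟩ : modularFunctionFieldFullC (kA A) M') ≠ 0 := fun e =>
    hg0 (congrArg Subtype.val e)
  have huF : algebraMap (kA A) (modularFunctionFieldFullC (kA A) M') u ≠ 0 := fun h0 =>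
    hu (by simpa using h0)
  have hae : a = algebraMap (kA A) (modularFunctionFieldFullC (kA A) M') u *
      (⟨g, hgF⟩ : modularFunctionFieldFullC (kA A) M') ^ m := by
    apply Subtype.ext
    show (a : LaurentSeries (kA A)) =
      ((algebraMap (kA A) (modularFunctionFieldFullC (kA A) M') u :
        modularFunctionFieldFullC (kA A) M') : LaurentSeries (kA A)) * g ^ m
    rw [coe_const_h296, ha, hr', one_mul]
  refine ⟨⟨g, hgF⟩, rfl, hk0, fun Q => ?_⟩
  have h2 := hdiv Q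
  rw [hae, Q.ord_mul huF (pow_ne_zero _ hk0), ord_const_h296, zero_add, ord_pow_h296] at h2
  have hm' : (m : ℤ) ≠ 0 := by exact_mod_cast hm
  have h3 : ((m : ℤ) * (d : ℤ)) ∣ (m : ℤ) * Q.ord (⟨g, hgF⟩ : modularFunctionFieldFullC (kA A) M') := by
    have e : ((m * d : ℕ) : ℤ) = (m : ℤ) * (d : ℤ) := by push_cast; ring
    rw [← e]
    exact h2
  exact (mul_dvd_mul_iff_left hm').mp h3

/-- `x ∈ 𝓕_{m d}`, `d • x = 0 ⟹ x ∈ 𝓕_d`. -/
theorem mem_finPartQ_of_nsmul_h296 (hm : m ≠ 0) (hd : d ≠ 0) (hq : q.Prime)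
    (hqM : ¬ q ∣ M') (hA : A.LiesOverPrime q) {x : JZero (q * M')}
    (hx : x ∈ finPartQ (m * d) q M' A) (hdx : d • x = 0) : x ∈ finPartQ d q M' A := by
  obtain ⟨f, ⟨hf0, D, rfl, hD⟩, r₁, r₂, h1, h2, h3, h4⟩ := mem_finSetQ_of_mem_finPartQ hx
  -- `d · D` is principal
  have hcl : (QuotientAddGroup.mk (d • D) : Pic0 Kbar (FF (q * M'))) = 0 := hdx
  have hmem := (QuotientAddGroup.eq_zero_iff (d • D)).mp hcl
  rw [AddSubgroup.mem_addSubgroupOf] at hmem
  obtain ⟨g, hg0, hg⟩ := hmem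
  have hgD : ∀ v : Place Kbar (FF (q * M')),
      v.ord g = (d : ℤ) * (D : Divisor Kbar (FF (q * M'))) v := fun v => by
    rw [← hg v]
    simp
  have hgK : IsKummerGen (q * M') d g (Pic0.mk D) := ⟨hg0, D, rfl, hgD⟩
  -- `f = c · g ^ m`
  have hgm0 : g ^ m ≠ 0 := pow_ne_zero _ hg0
  have hu0 : f * (g ^ m)⁻¹ ≠ 0 := mul_ne_zero hf0 (inv_ne_zero hgm0)
  obtain ⟨c, hc⟩ := Fermat.Agent.Ribet.H801.constOfOrdZero_bar (q * M') _ hu0 (fun v => by
    rw [v.ord_mul hf0 (inv_ne_zero hgm0), v.ord_inv, ord_pow_h296, hD v, hgD v]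
    push_cast
    ring)
  have hc0 : c ≠ 0 := by
    rintro rfl
    rw [map_zero] at hc
    exact hu0 hc
  have hfe : f = algebraMap Kbar (FF (q * M')) c * g ^ m := by
    rw [← hc]
    field_simp
  -- reductions of `g`
  obtain ⟨⟨s₁, hs1⟩, ⟨s₂, hs2⟩⟩ :=
    Fermat.Agent.Ribet.H997.redExists q (q * M') hq A hA g hg0
  obtain ⟨k₁, hk1⟩ :=
    Fermat.Agent.Ribet.H997.redField q M' hq hqM A hA g s₁ (Or.inl hs1)
  obtain ⟨k₂, hk2⟩ :=
    Fermat.Agent.Ribet.H997.redField q M' hq hqM A hA g s₂ (Or.inr hs2)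
  have hfw : wF (q * M') f = algebraMap Kbar (FF (q * M')) c * (wF (q * M') g) ^ m := by
    rw [hfe, map_mul, map_pow, AlgEquiv.commutes]
  refine AddSubgroup.subset_closure ⟨g, hgK, s₁, s₂, hs1, hs2, ?_, ?_⟩
  · exact pDiv_root_of_factor hm hq hA hc0 hfe h1 hs1 (hk1 ▸ k₁.2) h3
  · exact pDiv_root_of_factor hm hq hA hc0 hfw h2 hs2 (hk2 ▸ k₂.2) h4

/-- `x ∈ 𝒮_{m d}`, `d • x = 0 ⟹ x ∈ 𝒮_d`. -/
theorem mem_splitPartQ_of_nsmul_h296 (hm : m ≠ 0) (hd : d ≠ 0) (hq : q.Prime)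
    (hqM : ¬ q ∣ M') (hA : A.LiesOverPrime q) {x : JZero (q * M')}
    (hx : x ∈ splitPartQ (m * d) q M' A) (hdx : d • x = 0) : x ∈ splitPartQ d q M' A := by
  have hmd : m * d ≠ 0 := Nat.mul_ne_zero hm hd
  have hxF : x ∈ finPartQ d q M' A :=
    mem_finPartQ_of_nsmul_h296 hm hd hq hqM hA (splitPartQ_le_finPartQ_h296 hq hqM hA hx) hdx
  obtain ⟨y, hy⟩ := exists_isRedClassQ hd hq hqM hA hxF
  have hy' : IsRedClassQ (m * d) q M' A x y := by
    have := hy.pow_modulus hm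
    rwa [mul_comm] at this
  have hy0 : y = 0 := (hy'.eq_zero_iff hmd hq hqM hA).mpr hx
  exact (hy.eq_zero_iff hd hq hqM hA).mp hy0

end Tower

/-! ## Family form, `m = p ^ n` -/

section Family

variable (p q M' : ℕ) [NeZero M'] [NeZero q] [NeZero (q * M')] (A : ValuationSubring Kbar)

/-- **The towers `𝓕_n = finPartQ (p ^ n)`, `𝒮_n = splitPartQ (p ^ n)`** satisfy the compatibility
hypotheses of the abstract count (`H505.count_family505`: `hF`, `hS`, `hFc`, `hFk`, `hSc`, `hSk`;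
`𝒮_n ≤ 𝓕_n`), for every `p ≠ 0` (no primality, no `5 ≤ p`). -/
theorem redTower_h296 (hp : p ≠ 0) (hq : q.Prime) (hqM : ¬ q ∣ M') (hA : A.LiesOverPrime q) :
    (∀ n : ℕ, splitPartQ (p ^ n) q M' A ≤ finPartQ (p ^ n) q M' A) ∧
    (∀ (n : ℕ) (x : JZero (q * M')), x ∈ finPartQ (p ^ n) q M' A → (p ^ n) • x = 0) ∧
    (∀ (n : ℕ) (x : JZero (q * M')), x ∈ finPartQ (p ^ (n + 1)) q M' A →
      p • x ∈ finPartQ (p ^ n) q M' A) ∧
    (∀ (n : ℕ) (x : JZero (q * M')), x ∈ finPartQ (p ^ (n + 1)) q M' A → p • x = 0 →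
      x ∈ finPartQ (p ^ 1) q M' A) ∧
    (∀ (n : ℕ) (x : JZero (q * M')), x ∈ splitPartQ (p ^ (n + 1)) q M' A →
      p • x ∈ splitPartQ (p ^ n) q M' A) ∧
    (∀ (n : ℕ) (x : JZero (q * M')), x ∈ splitPartQ (p ^ (n + 1)) q M' A → p • x = 0 →
      x ∈ splitPartQ (p ^ 1) q M' A) := by
  have hpn : ∀ n : ℕ, p ^ n ≠ 0 := fun n => pow_ne_zero n hp
  refine ⟨fun n => splitPartQ_le_finPartQ_h296 hq hqM hA,
    fun n x hx => finPartQ_le_torsion_h296 (hpn n) hq hqM hA hx,
    fun n x hx => ?_, fun n x hx hpx => ?_, fun n x hx => ?_, fun n x hx hpx => ?_⟩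
  · rw [pow_succ] at hx
    exact nsmul_mem_finPartQ_h296 (hpn n) hp hq hqM hA hx
  · rw [pow_succ] at hx
    rw [pow_one]
    exact mem_finPartQ_of_nsmul_h296 (hpn n) hp hq hqM hA hx hpx
  · rw [pow_succ] at hx
    exact nsmul_mem_splitPartQ_h296 (hpn n) hp hq hqM hA hx
  · rw [pow_succ] at hx
    rw [pow_one]
    exact mem_splitPartQ_of_nsmul_h296 (hpn n) hp hq hqM hA hx hpx

end Family

end Fermat.Agent.S59.LoSqC.H296

end

end
-- ===== PACK-END S59/LoSqC/H296/RedTower.lean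

-- ===== PACK-BEGIN S59/H116/LoSqEasy.lean
section












/-!
# Row S59, cell (C) LO-SQ — the EASY half `p ∤ q² - 1`, characteristic-zero glue (helper116)

`loSqEasy116` : the statement `H934.LoSqStatement` with the extra hypothesis `¬ p ∣ q ^ 2 - 1`
(= `H826.LoSqEasy826Statement`, VERBATIM), at EVERY level: no neat level, no engine.

Proof.  Let `f` be the eigenform of level `M` congruent to `W` modulo `𝔪`, and `g` the newform of
level `M₀ ∣ M` with the same eigenvalues away from `M` (`Lib.Newform.descent`).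
If `q² ∤ M₀` then `M₀ ∣ M / q` and `Lib.Newform.stab` gives the eigenform of level `M / q`.
If `q² ∣ M₀`:
* the coefficient ring `chig.range` of `g` has a `p`-adic point `ι : chig.range → 𝒪'` centred at
  `𝔪` (`S31.H262.pts_of_reduced`, `S59.H401.dict_exists_point_of_pts`);
* the PLAIN top of S36 (`S36.H683.result_of_newPart`) gives `ρ` over `𝒪'' ⊇ 𝒪'`, attached to
  `(g, ι)`, which is NOT unipotent on inertia at `q`;
* the reduction of `ρ` has the characteristic polynomials of `W[p]` (residual Chebotarev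
  `S58.H273.charpoly_residual_eq_of_frob`), and inertia at `q` is unipotent on `W[p]`
  (`wRes_charpoly_inertia116`, semistability);
* hence `ρ` is unipotent on inertia at `q` (helper207's `isUnipotentOnInertiaAt_of_residual`,
  this is where `p ∤ q² - 1` enters): contradiction.
-/

set_option autoImplicit false
set_option linter.unusedSectionVars false
set_option linter.unusedVariables false
set_option linter.style.haveILetI false
set_option maxHeartbeats 1000000
set_option synthInstance.maxHeartbeats 400000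

open Polynomial IsLocalRing

namespace Fermat.Agent.S59.H116

open CuspForm CongruenceSubgroup ModularFormClass

/-- If `M₀ ∣ M`, `q² ∣ M` and `q² ∤ M₀` then `M₀ ∣ M / q`. -/
theorem dvd_div_of_not_sq_dvd116 {M M₀ q : ℕ} (hq : q.Prime) (hM₀ : M₀ ∣ M) (hq2 : q ^ 2 ∣ M)
    (hn : ¬ q ^ 2 ∣ M₀) : M₀ ∣ M / q := by
  have hqM : q ∣ M := dvd_trans (dvd_pow_self q two_ne_zero) hq2
  obtain ⟨K, rfl⟩ := hqM
  rw [Nat.mul_div_cancel_left K hq.pos]
  have hqK : q ∣ K := by
    rw [pow_two] at hq2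
    exact (Nat.mul_dvd_mul_iff_left hq.pos).mp hq2
  by_cases h : q ∣ M₀
  · obtain ⟨M₁, rfl⟩ := h
    have hM₁K : M₁ ∣ K := (Nat.mul_dvd_mul_iff_left hq.pos).mp hM₀
    have hcop : Nat.Coprime q M₁ := by
      rw [Nat.Prime.coprime_iff_not_dvd hq]
      intro h1
      apply hn
      rw [pow_two]
      exact Nat.mul_dvd_mul_left q h1
    exact Nat.Coprime.mul_dvd_of_dvd_of_dvd hcop hqK hM₁K
  · have hcop : Nat.Coprime M₀ q := ((Nat.Prime.coprime_iff_not_dvd hq).mpr h).symm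
    exact hcop.dvd_of_dvd_mul_left hM₀

/-- `q ∣ M / q` if `q² ∣ M`. -/
theorem dvd_div_of_sq_dvd116 {M q : ℕ} (hq : q.Prime) (hq2 : q ^ 2 ∣ M) : q ∣ M / q := by
  obtain ⟨K, rfl⟩ := hq2
  rw [pow_two, mul_assoc, Nat.mul_div_cancel_left _ hq.pos]
  exact Dvd.intro _ rfl

/-- **No `q²`-newform is congruent to a curve which is semistable at `q`, if `p ∤ q² - 1`.** -/
theorem not_sq_dvd_level116 (p : ℕ) [Fact p.Prime] (hp2 : p ≠ 2)
    (W : WeierstrassCurve ℤ) (hΔ : W.Δ ≠ 0) (hW : W.IsSemistableModel)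
    (hirr : W.ModRepIsIrreducible p)
    (M q : ℕ) (hM : M ≠ 0)
    (hq : q.Prime) (hqp : q ≠ p) (hq3 : ¬ q ^ 3 ∣ M) (hpq : ¬ p ∣ q ^ 2 - 1)
    (𝔪 : Ideal (integralClosure ℤ ℂ)) (hmax : 𝔪.IsMaximal)
    (hp𝔪 : (p : integralClosure ℤ ℂ) ∈ 𝔪)
    (M₀ : ℕ) [NeZero M₀] (hM₀M : M₀ ∣ M) (g : CuspForm (Gamma0 M₀) 2) (hg : g.IsNewform)
    (hcong : ∀ ℓ : ℕ, ℓ.Prime → W.IsGoodPrimeFor ℓ → ¬ ℓ ∣ M → ℓ ≠ p →
      ∃ a : integralClosure ℤ ℂ, (a : ℂ) = ModularFormClass.qCoeff g ℓ ∧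
        a - ((W.apOfModel ℓ : ℤ) : integralClosure ℤ ℂ) ∈ 𝔪) :
    ¬ q ^ 2 ∣ M₀ := by
  classical
  intro hq2M₀
  have hpp : p.Prime := Fact.out
  have hM₀0 : M₀ ≠ 0 := NeZero.ne M₀
  have hfact : M₀.factorization q = 2 := by
    have h2' := (hq.pow_dvd_iff_le_factorization hM₀0).1 hq2M₀
    have h3' : ¬ 3 ≤ M₀.factorization q := fun h =>
      hq3 (dvd_trans ((hq.pow_dvd_iff_le_factorization hM₀0).2 h) hM₀M)
    omega
  set S' : Finset ℕ := insert p M.primeFactors with hS'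
  have hpS' : p ∈ S' := Finset.mem_insert_self _ _
  have hMS' : ∀ r : ℕ, r.Prime → r ∣ M₀ → r ∈ S' := fun r hr hrM =>
    Finset.mem_insert_of_mem (Nat.mem_primeFactors.mpr ⟨hr, dvd_trans hrM hM₀M, hM⟩)
  set chig : heckeAlgebra M₀ 2 (↑S' : Set ℕ) →+* ℂ :=
    Fermat.Agent.S58.H94.chigOf hg.1 (↑S' : Set ℕ) with hchigdef
  have hchig : ∀ (ℓ : ℕ) (hℓ : ℓ.Prime) (hℓM : ¬ ℓ ∣ M₀) (hℓS : ℓ ∉ (↑S' : Set ℕ)),
      chig (heckeAlgebra.T hℓ hℓM hℓS) = qCoeff ⇑g ℓ :=
    fun ℓ hℓ hℓM hℓS => Fermat.Agent.S58.H94.chigOf_T hg.1 _ hℓ hℓM hℓS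
  -- integrality of the coefficient ring
  have hfin : Module.Finite ℤ (heckeAlgebra M₀ 2 (↑S' : Set ℕ)) := Fermat.Agent.S22.result M₀ 2 _
  have hint : ∀ x : chig.range, (x : ℂ) ∈ integralClosure ℤ ℂ := by
    rintro ⟨x, t, rfl⟩
    have ht : IsIntegral ℤ t := Algebra.IsIntegral.isIntegral t
    exact ht.map chig.toIntAlgHom
  haveI : Module.Finite ℤ chig.range :=
    Module.Finite.of_surjective (chig.rangeRestrict.toIntAlgHom.toLinearMap)
      chig.rangeRestrict_surjective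
  -- the reduction map of the coefficient ring
  let incl : chig.range →+* integralClosure ℤ ℂ :=
    { toFun := fun x => ⟨x.1, hint x⟩
      map_one' := rfl
      map_mul' := fun _ _ => rfl
      map_zero' := rfl
      map_add' := fun _ _ => rfl }
  haveI := hmax.isPrime
  let θ : chig.range →+* (integralClosure ℤ ℂ ⧸ 𝔪) := (Ideal.Quotient.mk 𝔪).comp incl
  have hθprime : (RingHom.ker θ).IsPrime := RingHom.ker_isPrime θ
  have hpθ : ((p : ℕ) : chig.range) ∈ RingHom.ker θ := by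
    rw [RingHom.mem_ker, map_natCast]
    have := Ideal.Quotient.eq_zero_iff_mem.mpr hp𝔪
    rwa [map_natCast] at this
  have hPTS := Fermat.Agent.S31.H262.pts_of_reduced p hpp chig.range
  obtain ⟨P, hP⟩ := Fermat.Agent.S59.H401.dict_exists_point_of_pts hPTS (RingHom.ker θ) hpθ
  -- the plain top of S36
  obtain ⟨O'', j1, j2, j3, j4, j5, j6, j7, j8, j9, hinj, ρ, hρ, hρnu⟩ :=
    Fermat.Agent.S36.H683.result_of_newPart
      (Fermat.Agent.S36.Eng.newPartInertia_of_alg3_model3 Fermat.Agent.S36.Alg3.alg3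
        Fermat.Agent.S36.Mod3.model3)
      hg p S' P.O P.hp chig hchig P.χ hpS' hMS'
  have hpO'' : (p : O'') ∈ maximalIdeal O'' :=
    Fermat.Agent.S58.H273.natCast_mem_maximalIdeal_of_isLocalHom p P.hp
  apply hρnu q hq hqp hfact
  refine Fermat.Agent.S59.H207.isUnipotentOnInertiaAt_of_residual ρ hpp hq (Ne.symm hqp) hpq hpO''
    (fun A hA => Fermat.Agent.S37.H99.exists_isFrobeniusAt q hq A hA) ?_
  intro A hA τ hτ
  haveI : CharP (ResidueField O'') p := Fermat.Agent.S58.H273.charP_residueField p hpO''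
  let ι : ZMod p →+* ResidueField O'' := ZMod.castHom (dvd_refl p) (ResidueField O'')
  have hcp := Fermat.Agent.S58.H273.charpoly_residual_eq_of_frob
    (Fermat.Agent.S58.H273.wRes W hΔ p) ι ρ (S' ∪ W.Δ.natAbs.primeFactors) ?_ τ
  · have hres : LinearMap.charpoly (ρ.residual.ρ τ)
        = (LinearMap.charpoly (ρ.ρ τ)).map (residue O'') := by
      have h1 : LinearMap.charpoly (ρ.residual.ρ τ)
          = LinearMap.charpoly ((ρ.ρ τ).baseChange (ResidueField O'')) := rfl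
      rw [h1, LinearMap.charpoly_baseChange, IsLocalRing.ResidueField.algebraMap_eq]
    rw [← hres, hcp, wRes_charpoly_inertia116 W hΔ hW p hq hqp A hA τ hτ]
    simp
  · intro ℓ hℓ hℓT B hB σ hσ
    have hℓS' : ℓ ∉ S' := fun h => hℓT (Finset.mem_union_left _ h)
    have hℓp : ℓ ≠ p := fun h => hℓS' (h ▸ hpS')
    have hℓM : ¬ ℓ ∣ M := fun h =>
      hℓS' (Finset.mem_insert_of_mem (Nat.mem_primeFactors.mpr ⟨hℓ, h, hM⟩))
    have hℓM₀ : ¬ ℓ ∣ M₀ := fun h => hℓM (dvd_trans h hM₀M)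
    have hℓSc : ℓ ∉ (↑S' : Set ℕ) := fun h => hℓS' (Finset.mem_coe.mp h)
    have hgood : W.IsGoodPrimeFor ℓ := by
      intro hdvd
      apply hℓT
      refine Finset.mem_union_right _ ?_
      rw [Nat.mem_primeFactors]
      exact ⟨hℓ, Int.natCast_dvd.mp hdvd, by simpa using hΔ⟩
    rw [hρ ℓ hℓ hℓM₀ hℓSc B hB σ hσ,
      Fermat.Agent.S58.H273.wRes_charpoly_frob W hΔ p hp2 hirr ℓ hℓ hℓp hgood B hB σ hσ]
    -- the congruence
    obtain ⟨a, ha, hmem⟩ := hcong ℓ hℓ hgood hℓM hℓp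
    set x : chig.range := chig.rangeRestrict (heckeAlgebra.T hℓ hℓM₀ hℓSc) with hx
    have hxa : incl x = a := by
      apply Subtype.ext
      show (x : ℂ) = (a : ℂ)
      rw [ha, ← hchig ℓ hℓ hℓM₀ hℓSc]
      rfl
    have hker : x - ((W.apOfModel ℓ : ℤ) : chig.range) ∈ RingHom.ker θ := by
      rw [RingHom.mem_ker, map_sub, map_intCast]
      show Ideal.Quotient.mk 𝔪 (incl x) - _ = 0
      rw [hxa, ← map_intCast (Ideal.Quotient.mk 𝔪), ← map_sub]
      exact Ideal.Quotient.eq_zero_iff_mem.mpr hmem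
    have h1 := hP _ hker
    rw [map_sub, map_intCast] at h1
    have h2 : residue O'' (algebraMap P.O O'' (P.χ x))
        = ((W.apOfModel ℓ : ℤ) : ResidueField O'') := by
      have h3 : algebraMap P.O O'' (P.χ x - ((W.apOfModel ℓ : ℤ) : P.O)) ∈ maximalIdeal O'' := by
        rw [mem_maximalIdeal, mem_nonunits_iff]
        intro hu
        exact (mem_nonunits_iff.mp ((mem_maximalIdeal _).mp h1))
          (isUnit_of_map_unit (algebraMap P.O O'') _ hu)
      rw [map_sub, map_intCast] at h3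
      have h4 := (residue_eq_zero_iff _).mpr h3
      rw [map_sub, map_intCast] at h4
      exact sub_eq_zero.mp h4
    simp only [Polynomial.map_add, Polynomial.map_sub, Polynomial.map_mul, Polynomial.map_pow,
      Polynomial.map_X, Polynomial.map_C, map_natCast, map_intCast, Polynomial.map_intCast,
      Polynomial.map_natCast, RingHom.comp_apply]
    rw [← hx, h2]
    simp only [map_intCast]

/-- **LO-SQ, the easy half, general form**: any odd prime `p`, any level `M ≠ 0` with `q² ∣ M`,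
`q³ ∤ M`, `p ∤ q² - 1`. -/
theorem loSqEasy_gen116 (p : ℕ) [Fact p.Prime] (hp2 : p ≠ 2)
    (W : WeierstrassCurve ℤ) (hΔ : W.Δ ≠ 0) (hW : W.IsSemistableModel)
    (hirr : W.ModRepIsIrreducible p)
    (M q : ℕ) (hM : M ≠ 0) (hq : q.Prime) (hqp : q ≠ p) (hq2 : q ^ 2 ∣ M) (hq3 : ¬ q ^ 3 ∣ M)
    (hpq : ¬ p ∣ q ^ 2 - 1) (hres : W.IsResiduallyModularOfLevel p M) :
    W.IsResiduallyModularOfLevel p (M / q) := by
  classical
  haveI : NeZero M := ⟨hM⟩
  obtain ⟨f, 𝔪, hf, hmax, hp𝔪, hcong⟩ := hres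
  obtain ⟨M₀, hM₀M, g, hg, hga⟩ := Fermat.Agent.Lib.Newform.descent M f hf
  have hM₀0 : M₀ ≠ 0 := fun h => hM (by rw [h] at hM₀M; exact zero_dvd_iff.mp hM₀M)
  haveI : NeZero M₀ := ⟨hM₀0⟩
  have hqM : q ∣ M := dvd_trans (dvd_pow_self q two_ne_zero) hq2
  have hMq0 : M / q ≠ 0 := by
    obtain ⟨c, rfl⟩ := hqM
    rw [Nat.mul_div_cancel_left c hq.pos]
    exact fun h => hM (by rw [h, mul_zero])
  haveI : NeZero (M / q) := ⟨hMq0⟩
  have hkey : ¬ q ^ 2 ∣ M₀ :=
    not_sq_dvd_level116 p hp2 W hΔ hW hirr M q hM hq hqp hq3 hpq 𝔪 hmax hp𝔪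
      M₀ hM₀M g hg (fun ℓ hℓ hgood hℓM hℓp => by
        obtain ⟨a, ha, hmem⟩ := hcong ℓ hℓ hgood hℓM hℓp
        exact ⟨a, by rw [ha, hga ℓ hℓ hℓM], hmem⟩)
  have hdvd : M₀ ∣ M / q := dvd_div_of_not_sq_dvd116 hq hM₀M hq2 hkey
  obtain ⟨g', hg', hg'a⟩ := Fermat.Agent.Lib.Newform.stab M₀ (M / q) hdvd g hg.1
  refine ⟨g', 𝔪, hg', hmax, hp𝔪, fun ℓ hℓ hgood hℓMq hℓp => ?_⟩
  have hℓM : ¬ ℓ ∣ M := by
    intro h
    rw [← Nat.mul_div_cancel' hqM] at h
    rcases (Nat.Prime.dvd_mul hℓ).mp h with h1 | h1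
    · have : ℓ = q := (Nat.prime_dvd_prime_iff_eq hℓ hq).mp h1
      subst this
      exact hℓMq (dvd_div_of_sq_dvd116 hq hq2)
    · exact hℓMq h1
  obtain ⟨a, ha, hmem⟩ := hcong ℓ hℓ hgood hℓM hℓp
  exact ⟨a, by rw [ha, hg'a ℓ hℓ hℓMq, hga ℓ hℓ hℓM], hmem⟩

/-- **LO-SQ, the easy half** (`p ∤ q² - 1`), at every level: `H934.LoSqStatement` with the extra
hypothesis `¬ p ∣ q ^ 2 - 1` (VERBATIM the Prop `H826.LoSqEasy826Statement`). -/
theorem loSqEasy116 :
    ∀ (p : ℕ) [Fact p.Prime] (_hp : p = 3 ∨ p = 5)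
      (W : WeierstrassCurve ℤ) (_hΔ : W.Δ ≠ 0) (_hW : W.IsSemistableModel)
      (_hirr : W.ModRepIsIrreducible p)
      (M q : ℕ) (_hM : M ≠ 0) (_hpM : ¬ p ^ 2 ∣ M)
      (_hM3 : ∀ r : ℕ, r.Prime → r ≠ p → ¬ r ^ 3 ∣ M)
      (_hq : q.Prime) (_hqp : q ≠ p) (_hq2 : q ^ 2 ∣ M) (_hpq : ¬ p ∣ q ^ 2 - 1)
      (_hres : W.IsResiduallyModularOfLevel p M),
      W.IsResiduallyModularOfLevel p (M / q) := by
  intro p _ hp W hΔ hW hirr M q hM hpM hM3 hq hqp hq2 hpq hres
  have hp2 : p ≠ 2 := by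
    rcases hp with rfl | rfl <;> decide
  exact loSqEasy_gen116 p hp2 W hΔ hW hirr M q hM hq hqp hq2 (hM3 q hq hqp) hpq hres

/-- **LO-SQ at `(p, q) = (5, 2)`** (VERBATIM the Prop `H826.LoSq52Statement`). -/
theorem loSq52_116 :
    ∀ (W : WeierstrassCurve ℤ) (_hΔ : W.Δ ≠ 0) (_hW : W.IsSemistableModel)
      (_hirr : W.ModRepIsIrreducible 5)
      (M : ℕ) (_hM : M ≠ 0) (_hpM : ¬ 5 ^ 2 ∣ M)
      (_hM3 : ∀ r : ℕ, r.Prime → r ≠ 5 → ¬ r ^ 3 ∣ M) (_h4 : 2 ^ 2 ∣ M)
      (_hres : W.IsResiduallyModularOfLevel 5 M),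
      W.IsResiduallyModularOfLevel 5 (M / 2) := by
  intro W hΔ hW hirr M hM hpM hM3 h4 hres
  haveI : Fact (Nat.Prime 5) := ⟨by norm_num⟩
  exact loSqEasy_gen116 5 (by norm_num) W hΔ hW hirr M 2 hM Nat.prime_two (by norm_num) h4
    (hM3 2 Nat.prime_two (by norm_num)) (by norm_num) hres

/-- **LO-SQ at `(p, q) = (5, 3)`**. -/
theorem loSq53_116 :
    ∀ (W : WeierstrassCurve ℤ) (_hΔ : W.Δ ≠ 0) (_hW : W.IsSemistableModel)
      (_hirr : W.ModRepIsIrreducible 5)
      (M : ℕ) (_hM : M ≠ 0) (_hpM : ¬ 5 ^ 2 ∣ M)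
      (_hM3 : ∀ r : ℕ, r.Prime → r ≠ 5 → ¬ r ^ 3 ∣ M) (_h9 : 3 ^ 2 ∣ M)
      (_hres : W.IsResiduallyModularOfLevel 5 M),
      W.IsResiduallyModularOfLevel 5 (M / 3) := by
  intro W hΔ hW hirr M hM hpM hM3 h9 hres
  haveI : Fact (Nat.Prime 5) := ⟨by norm_num⟩
  exact loSqEasy_gen116 5 (by norm_num) W hΔ hW hirr M 3 hM Nat.prime_three (by norm_num) h9
    (hM3 3 Nat.prime_three (by norm_num)) (by norm_num) hres

end Fermat.Agent.S59.H116

end
-- ===== PACK-END S59/H116/LoSqEasy.lean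

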