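import Fermat.Agent.Pack.S59C.E14L3
import Fermat.Agent.Pack.S59C.E14L0
import Fermat.Agent.Pack.S59C.E13L2
import Fermat.Agent.Pack.S59C.E12L2
import Fermat.Agent.Pack.S44C.G0E30L1
import Fermat.Agent.Pack.S44C.G0E30L2
import Fermat.Agent.Pack.S44C.G0E31L0
import Fermat.Agent.Pack.S59C.E11L0
import Fermat.Agent.Pack.S43MC.G0E28L0
import Fermat.Agent.Pack.S43MC.G0E27L1
import Fermat.Agent.Pack.S44C.G0E29L0
import Fermat.Agent.Pack.S59C.E14L2
import Fermat.Agent.Pack.S59C.E12L1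
import Fermat.Agent.Pack.S59C.E10L3
import Fermat.Agent.Pack.S59C.E12L3
import Fermat.Agent.Pack.S59C.E14L1
import Fermat.Agent.Pack.S59C.E13L3
import Fermat.Agent.Pack.S59C.E5L2
import Fermat.Agent.Pack.S59C.E13L0

set_option linter.all false

-- ===== PACK-BEGIN S59/WallP3/Tame3.lean
section





/-!
# S59 moonshot, cell (A), leaf TAME at `p = 3`, READY levels: CLOSED  (wiring, helper944)

`tame3 : Tame3Statement u3`, from
* helper912's generic TAME core `H912.tameCoreGen` (any unit pair of exponent prime to `m`),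
* helper461's unit pair at `p = 3` of exponent `8` (`H461.unitPairAt_three`, `H461.unit3_bar`),
* helper967's cocycle trick for an arbitrary split-invariant slope predicate
  (`H967.TameGen.tameQ_of_fixedQ`).
-/

set_option autoImplicit false
set_option synthInstance.maxHeartbeats 400000
set_option maxHeartbeats 1000000
set_option linter.unusedSectionVars false

noncomputable section

namespace Fermat.Agent.S59.WallP3

open ModularCurve HahnSeries
open Fermat.Agent.S24 Fermat.Agent.Ribet.H884 Fermat.Agent.Ribet.H944.Wall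
open Fermat.Agent.Ribet.Spec
open Fermat.Agent.S59.Unit3.H461

/-- `SlopePropU` is helper967's `SlopePropQ` for the property "the expansion is `u`". -/
theorem slopePropU_iff_slopePropQ (p M' : ℕ) [NeZero p] [NeZero (p * M')]
    (A : ValuationSubring Kbar) (u : LaurentSeries Kbar) (x : JZero (p * M')) :
    SlopePropU p M' A u x ↔
      Fermat.Agent.Ribet.H967.TameGen.SlopePropQ p M' A
        (fun D => (D : LaurentSeries Kbar) = u) x := Iff.rfl

/-- **The inertia-fixed TAME core at `p = 3`, READY levels**: a `3`-torsion class fixed by the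
inertia group at `A` has `SlopePropU` for the unit `u3` (exponent `n = 8`). -/
theorem fixedCore3 (M' : ℕ) [NeZero M'] [NeZero (3 * M')] (h2 : 2 ∣ M') (hpM : ¬ 3 ∣ M')
    (A : ValuationSubring Kbar) (hA : A.LiesOverPrime 3)
    (x : JZero (3 * M')) (hx : 3 • x = 0)
    (hfix : ∀ σ ∈ A.inertiaSubgroupIn ℚ, σ • x = x) :
    SlopePropU 3 M' A u3 x := by
  have h6 : 6 ∣ 3 * M' := by
    obtain ⟨k, rfl⟩ := h2
    exact ⟨k, by ring⟩
  obtain ⟨DQ, hDQe, hDQ0, hDQ⟩ := unit3_bar (3 * M') h6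
  have hU : Fermat.Agent.Ribet.H912.UnitPairAt A M' 3 8 v3L :=
    fun E w hS hE V W hV hW p₁ p₂ hc₁ hc₂ =>
      unitPairAt_three A M' h2 E w hS hE V W hV hW p₁ p₂ hc₁ hc₂
  obtain ⟨f, G, a, b, hK, hrel, r₁, r₂, h1, h2', h3, h4⟩ :=
    Fermat.Agent.Ribet.H912.tameCoreGen 3 M' 3 Nat.prime_three hpM
      ⟨fun _ => h2, fun h => absurd h (by decide)⟩ (by norm_num) 8 (by norm_num) (by decide)
      A hA v3L hU DQ hDQ0 hDQ x hx hfix
  exact ⟨f, DQ, G, 8, a, b, hK, hDQe, hDQ0, by decide, hrel, ⟨r₁, r₂, h1, h2', h3, h4⟩⟩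

/-- **TAME at `p = 3`, READY levels: CLOSED.** -/
theorem tame3 : Tame3Statement u3 := by
  intro p M' _ _ _ hp h3 h2 hpM A hA S a _ x t hx hex ht het hχ hsh _ htame
  subst h3
  exact Fermat.Agent.Ribet.H967.TameGen.tameQ_of_fixedQ hp (by decide) hpM A hA
    (fun D => (D : LaurentSeries Kbar) = u3) S a
    (fun x' hx' _ hfix => fixedCore3 M' h2 hpM A hA x' hx'.1 hfix)
    x t hx hex ht het hχ hsh htame

end Fermat.Agent.S59.WallP3

end

end
-- ===== PACK-END S59/WallP3/Tame3.lean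

-- ===== PACK-BEGIN S59/WallP3/Plug5.lean
section







/-!
# S59 moonshot, cell (A): frozen S39 restricted to `p ≥ 5` — CLOSED  (helper944)

`s39Ge5 : H109.Peu.S39Ge5Statement`, the SAME term as `Fermat.Agent.S44.result` (row 38, on
main): `H109.Peu.S39Ge5_of_open` applied to (S2) for `p ≥ 5` and EIS.
-/

set_option autoImplicit false

namespace Fermat.Agent.S59.WallP3

open Fermat.Agent.Ribet

/-- **Frozen S39 for `p ≥ 5`: CLOSED.** -/
theorem s39Ge5 : H109.Peu.S39Ge5Statement :=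
  H109.Peu.S39Ge5_of_open H558.s2Five
    (H884.eisSlope_of_frontier5
      (H704.CoreOut.coreOutNE_of_tame_wild (H967.Tame.tame_of_fixed H912.tameFixed)
        (H132.wild_of_frame H712.Frame.wildFrame))
      H399.cuspPurity5Leaf)

end Fermat.Agent.S59.WallP3

end
-- ===== PACK-END S59/WallP3/Plug5.lean

-- ===== PACK-BEGIN S59/LOQ/H213/Good.lean
section











/-!
# Row S59, sub-row LO-Q: the targets of the wall at `q` at ALL GOOD LEVELS, any `p` prime to `12`,
`q = 2` INCLUDED  (sub-architect helper213)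

The wall at `q` of row 37 (`H158.WallQ.wallQTargetsGood`) is frozen with `5 ≤ p`, `q ≠ 2`.  Its
leaves never use `q ≠ 2`, and use `5 ≤ p` only through `Nat.Coprime 12 p` (CORE-OUT-q).  Here the
chain is re-instantiated pointwise with the hypotheses it really needs:

* `q2For_of_hasAux`   : (Q2) from `H818.frob_eq_of_mem_splitPartQ`  (`HasAux M' q`, ANY `p ≠ q`);
* `redEigenQ_h213`    : RED-CLASS (proof of `H523.Q3.redEigenQ`, ANY `p`, ANY `q`, ANY level);
* `eigenLiftStrong_of_rim` : EIGEN-LIFT from the reduction inputs and GR-SURJ at `(A, M')` (proof of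
  `H523.Q3.eigenLiftGood_strong`, ANY `p ≠ q`);
* `q3For_of_rim`      : (Q3) from the reduction inputs and GR-SURJ at `(A, M')`, ANY `p ≠ q`;
* `q4For_of_slope`    : (Q4) from the tame node relation `SlopePropQM p q M' A x` (`HasAux`, ANY `p`);
* `q4For_of_hasAux`   : (Q4) for `p` prime to `12` (`H912.tameCore`);
* **`targetsAt_of_good`** : `TargetsAt p q M'` for `p` prime to `12`, `q ≠ p`, `GoodLevel M' q`;
* `targetsAt_of_slope`: `TargetsAt p q M'` for ANY prime `p ≠ q` at a good level, from the tame node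
  relation alone (the form wanted at `p = 3`);
* **`t5Good : T5GoodStatement`**, **`t5Two : T5TwoStatement`** (cells of `Cells.lean`).
-/

set_option autoImplicit false
set_option linter.style.haveILetI false
set_option linter.unusedSectionVars false
set_option linter.unusedVariables false
set_option synthInstance.maxHeartbeats 400000
set_option maxHeartbeats 1000000

noncomputable section

namespace Fermat.Agent.S59.LOQ.H213

open AlgebraicCurve ModularCurve HahnSeries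
open Fermat.Agent.S24 Fermat.Agent.A2.H708 Fermat.Agent.A2.H528
open Fermat.Agent.Ribet.Spec Fermat.Agent.Ribet.H944.Wall Fermat.Agent.Ribet.H884
open Fermat.Agent.Ribet.H158.WallQ
open Fermat.Agent.Ribet.H944.I2
open Fermat.Agent.S37.H400
open Fermat.Agent.Ribet.H523.Q3
open Fermat.Agent.Ribet.H801

/-- A good level has the auxiliary prime. -/
theorem hasAux_of_goodLevel {q M' : ℕ} (h : Fermat.Agent.S37.Core.GoodLevel M' q) :
    Fermat.Agent.S35.G.HasAux M' q := by
  refine ⟨fun h3 => ?_, fun h2 => ?_⟩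
  · rcases h with h5 | ⟨-, h⟩ | ⟨h2, -⟩
    · omega
    · exact h
    · omega
  · rcases h with h5 | ⟨h3, -⟩ | ⟨-, h⟩
    · omega
    · omega
    · exact h

/-! ## (Q2) -/

/-- **(Q2) FROB-AL** at a level with the auxiliary prime, any prime `p ≠ q`, `q = 2` allowed. -/
theorem q2For_of_hasAux (p q M' : ℕ) [NeZero M'] [NeZero q] [NeZero (q * M')]
    (hp : p.Prime) (hq : q.Prime) (hqp : q ≠ p) (hqM : ¬ q ∣ M')
    (haux : Fermat.Agent.S35.G.HasAux M' q)
    (A : ValuationSubring Kbar) (hA : A.LiesOverPrime q) :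
    Q2For p q M' A (splitPartQ p q M' A) := by
  have hqm : ¬ q ∣ p := fun hd => hqp ((Nat.prime_dvd_prime_iff_eq hq hp).1 hd)
  refine ⟨-((wL q M' hq hqM : JZero (q * M') ≃+ JZero (q * M')) :
      JZero (q * M') →+ JZero (q * M')), ?_, ?_, ?_⟩
  · intro σ x
    show -(wL q M' hq hqM (σ • x)) = σ • (-(wL q M' hq hqM x))
    rw [wL_smul, smul_neg]
  · intro x _ _
    show -(wL q M' hq hqM (-(wL q M' hq hqM x))) = x
    rw [map_neg, neg_neg, wL_wL]
  · intro φ hφ x hx _
    exact Fermat.Agent.Ribet.H818.frob_eq_of_mem_splitPartQ p hq hqM haux hp.pos hqm A hA φ hφ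
      x hx

/-! ## (Q3) -/

/-- **RED-CLASS**, any `p`, any `q`, any level (the proof of `H523.Q3.redEigenQ`). -/
theorem redEigenQ_h213 (p q M' : ℕ) [NeZero M'] [NeZero q] [NeZero (q * M')] (hp : p.Prime)
    (hq : q.Prime) (hqM : ¬ q ∣ M')
    (A : ValuationSubring Kbar) (hA : A.LiesOverPrime q)
    (S : Finset ℕ) (a : ℕ → ℤ) (x : JZero (q * M')) (hx : x ∈ finPartQ p q M' A)
    (hxS : x ∉ splitPartQ p q M' A) (heig : EigenAt (q * M') S a x) :
    ∃ (S' : Finset ℕ) (h : modularFunctionFieldFullC (kA A) M'),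
      S ⊆ S' ∧ IsRedEigen p M' S' a h := by
  obtain ⟨f, hfK, r₁, r₂, hr1, hr2, hP1, hP2⟩ := finClosedQ p q M' A hx
  have hns : ¬ (PPowSeries p M' r₁ ∧ PPowSeries p M' r₂) := by
    rintro ⟨h1, h2⟩
    exact hxS (AddSubgroup.subset_closure ⟨f, hfK, r₁, r₂, hr1, hr2, h1, h2⟩)
  have hKf : ∀ (ℓ : ℕ) [NeZero ℓ], ℓ.Prime → ℓ ∉ S → ¬ ℓ ∣ q * M' →
      KummerEigen (q * M') p ℓ (a ℓ) f :=
    fun ℓ _ hℓ hℓS hℓN => kumEig (q * M') p hp.ne_zero S a x f hfK heig ℓ hℓ hℓS hℓN
  -- the main step, for a pair `(F, r)`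
  have key : ∀ (F : FF (q * M')) (r : LaurentSeries (kA A)), IsRedInf (q * M') A F r →
      PDivSeries p M' r → ¬ PPowSeries p M' r →
      (∀ (ℓ : ℕ) [NeZero ℓ], ℓ.Prime → ℓ ∉ S → ¬ ℓ ∣ q * M' →
        KummerEigen (q * M') p ℓ (a ℓ) F) →
      ∃ (S' : Finset ℕ) (h : modularFunctionFieldFullC (kA A) M'),
        S ⊆ S' ∧ IsRedEigen p M' S' a h := by
    intro F r hFr hPr hsr hKF
    obtain ⟨h, hh, h0, hdiv⟩ := hPr
    refine ⟨S ∪ (q * M').primeFactors, h, Finset.subset_union_left, h0, hdiv,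
      by rw [hh]; exact hsr, ?_⟩
    intro ℓ _ hℓ hℓS'
    have hℓS : ℓ ∉ S := fun e => hℓS' (Finset.mem_union_left _ e)
    have hℓN : ¬ ℓ ∣ q * M' := fun hd =>
      hℓS' (Finset.mem_union_right _ (Nat.mem_primeFactors.mpr ⟨hℓ, hd, NeZero.ne _⟩))
    obtain ⟨c, G, hc, hG, hN⟩ := hKF ℓ hℓ hℓS hℓN
    have h1 : IsRedInf (q * M') A (hNorm (q * M') ℓ F) (Fermat.Agent.S37.H697.knorm ℓ r) :=
      Fermat.Agent.Ribet.H376.heckeRed (q * M') ℓ hℓ hℓN A F r hFr
    obtain ⟨rG, hrG⟩ := (Fermat.Agent.Ribet.H997.redExists q (q * M') hq A hA G hG).1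
    have h2 : IsRedInf (q * M') A (hNorm (q * M') ℓ F) (1 * r ^ (a ℓ) * rG ^ p) := by
      rw [hN]
      exact isRedInf_mul _ A (isRedInf_mul _ A (isRedInf_const _ A hc)
        (isRedInf_zpow _ A hFr (a ℓ))) (isRedInf_pow _ A hrG p)
    obtain ⟨-, cb, hcb, hEq⟩ :=
      Fermat.Agent.Ribet.H997.redUnique q (q * M') hq A hA _ _ _ h2 h1
    have hrG0 : rG ≠ 0 := (isRedInf_ne_zero _ A hrG).2
    obtain ⟨Gk, hGk⟩ :=
      Fermat.Agent.Ribet.H997.redField q M' hq hqM A hA G rG (Or.inl hrG)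
    refine ⟨cb, Gk, hcb, fun e => hrG0 (by rw [← hGk, e]; rfl), ?_⟩
    rw [← Fermat.Agent.Ribet.H376.knorm_eq_kronNorm, hh, hGk, hEq, one_mul, mul_assoc]
  by_cases hs1 : PPowSeries p M' r₁
  · have hs2 : ¬ PPowSeries p M' r₂ := fun h2 => hns ⟨hs1, h2⟩
    exact key (wF (q * M') f) r₂ hr2 hP2 hs2
      (fun ℓ _ hℓ hℓS hℓN =>
        (hKf ℓ hℓ hℓS hℓN).fricke Fermat.Agent.Ribet.H376.frickeHecke hℓ hℓN)
  · exact key f r₁ hr1 hP1 hs1 hKf

/-- **EIGEN-LIFT, strong form**, from the reduction inputs and GR-SURJ at `(A, M')` (the proof of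
`H523.Q3.eigenLiftGood_strong`). -/
theorem eigenLiftStrong_of_rim
    (p q M' : ℕ) [NeZero M'] (hp : p.Prime) (hq : q.Prime) (hqp : q ≠ p)
    (hqM : ¬ q ∣ M')
    (A : ValuationSubring Kbar) (hA : A.LiesOverPrime q)
    (hRI : ReductionInputsModL A M')
    (hSurj : ∀ y : JZeroC (kA A) M', p • y = 0 →
      ∃ z : JZero M', p • z = 0 ∧ reductionModL A M' z = y)
    (S : Finset ℕ) (a : ℕ → ℤ) (h : modularFunctionFieldFullC (kA A) M')
    (hh : IsRedEigen p M' S a h) :
    ∃ (z : JZero M') (f : FF M') (r : LaurentSeries (kA A)) (c : kA A)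
      (u : modularFunctionFieldFullC (kA A) M'),
      z ≠ 0 ∧ p • z = 0 ∧ IsKummerGen M' p f z ∧ IsRedInf M' A f r ∧ c ≠ 0 ∧ u ≠ 0 ∧
      r = HahnSeries.C c * (h : LaurentSeries (kA A)) * (u : LaurentSeries (kA A)) ^ p ∧
      ∀ ℓ : Nat.Primes, (ℓ : ℕ) ∉ S ∪ (q * M' * p).primeFactors →
        heckeOperatorBar M' ℓ z = a ℓ • z := by
  classical
  obtain ⟨hac, hch⟩ := Fermat.Agent.Ribet.H939.resField q hq A hA
  haveI := hac
  haveI := hch
  haveI : Fact q.Prime := ⟨hq⟩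
  have hchar : ∀ p' : ℕ, p'.Prime → p' ∣ M' → (p' : kA A) ≠ 0 := by
    intro p' hp' hd h0
    have h1 : q ∣ p' := (CharP.cast_eq_zero_iff (kA A) q p').mp h0
    have h2 : q = p' := (Nat.prime_dvd_prime_iff_eq hq hp').mp h1
    exact hqM (h2 ▸ hd)
  haveI hpd : HasPrincipalDivisors (kA A) (modularFunctionFieldFullC (kA A) M') :=
    Fermat.Agent.S37.H868.hpd_fullC (kA A) M' hchar
  have hconst := Fermat.Agent.S18.H144.constOfOrdZero_fullC (kA A) M' hchar
  obtain ⟨h0, hdiv, hnpp, heig⟩ := hh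
  obtain ⟨Eh, hEh⟩ := exists_degZero_of_dvd_ord (K := kA A) hp.ne_zero h0 hdiv
  -- the class `y` of `h`
  have hpy : p • (Pic0.mk Eh : JZeroC (kA A) M') = 0 := by
    have e : p • (Pic0.mk Eh : JZeroC (kA A) M') = Pic0.mk (p • Eh) := rfl
    rw [e]
    show (QuotientAddGroup.mk (p • Eh) : Pic0 (kA A) (modularFunctionFieldFullC (kA A) M')) = 0
    refine (QuotientAddGroup.eq_zero_iff (p • Eh)).mpr ?_
    rw [AddSubgroup.mem_addSubgroupOf]
    refine ⟨h, h0, fun Q => ?_⟩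
    rw [hEh Q]
    simp
  have hy0 : (Pic0.mk Eh : JZeroC (kA A) M') ≠ 0 := by
    intro hy
    obtain ⟨c, u, hc, hu, he⟩ := exists_const_mul_pow_of_mk_eq_zero hconst h0 hEh hy
    apply hnpp
    refine ⟨c, u, hc, hu, ?_⟩
    rw [he]
    show ((algebraMap (kA A) (modularFunctionFieldFullC (kA A) M') c : _) : LaurentSeries (kA A))
      * ((u : LaurentSeries (kA A))) ^ p = _
    rw [show ((algebraMap (kA A) (modularFunctionFieldFullC (kA A) M') c : _) :
      LaurentSeries (kA A)) = HahnSeries.C c from Fermat.Agent.S18.H602.algebraMap_eq_C c]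
  obtain ⟨z, hpz, hzy⟩ := hSurj _ hpy
  have hz0 : z ≠ 0 := by
    rintro rfl
    rw [map_zero] at hzy
    exact hy0 hzy.symm
  obtain ⟨f, hfK⟩ := exists_isKummerGen (N := M') p z hpz
  obtain ⟨r, hr⟩ := (Fermat.Agent.Ribet.H997.redExists q M' hq A hA f hfK.1).1
  have hr0 : r ≠ 0 := (isRedInf_ne_zero M' A hr).2
  obtain ⟨g, E, hgr, hE, hord⟩ := Fermat.Agent.Ribet.H579.kumRed q M' p hq hqM A hA hRI z f r hfK hr
  have hg0 : g ≠ 0 := fun e => hr0 (by rw [← hgr, e]; rfl)
  obtain ⟨c, u, hc, hu, hgeq⟩ :=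
    exists_const_mul_pow hconst hg0 h0 hord hEh (hE.trans hzy)
  have hcst : ∀ d : kA A, ((algebraMap (kA A) (modularFunctionFieldFullC (kA A) M') d : _) :
      LaurentSeries (kA A)) = HahnSeries.C d := fun d =>
    Fermat.Agent.S18.H602.algebraMap_eq_C d
  have hrser : r = HahnSeries.C c * (h : LaurentSeries (kA A)) *
      (u : LaurentSeries (kA A)) ^ p := by
    rw [← hgr, hgeq]
    show ((algebraMap (kA A) (modularFunctionFieldFullC (kA A) M') c : _) :
      LaurentSeries (kA A)) * (h : LaurentSeries (kA A)) * (u : LaurentSeries (kA A)) ^ p = _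
    rw [hcst]
  refine ⟨z, f, r, c, u, hz0, hpz, hfK, hr, hc, hu, hrser, ?_⟩
  -- the eigen-relation, by injectivity of the reduction on `p`-torsion
  intro ℓ hℓS'
  have hℓS : (ℓ : ℕ) ∉ S := fun e => hℓS' (Finset.mem_union_left _ e)
  have hqMp0 : q * M' * p ≠ 0 :=
    Nat.mul_ne_zero (Nat.mul_ne_zero hq.ne_zero (NeZero.ne M')) hp.ne_zero
  have hℓN : ¬ (ℓ : ℕ) ∣ q * M' * p := fun hd =>
    hℓS' (Finset.mem_union_right _ (Nat.mem_primeFactors.mpr ⟨ℓ.2, hd, hqMp0⟩))
  have hℓM : ¬ (ℓ : ℕ) ∣ M' := fun hd =>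
    hℓN (Dvd.dvd.mul_right (Dvd.dvd.mul_left hd q) p)
  have hℓq : (ℓ : ℕ) ≠ q := fun e =>
    hℓN (Dvd.dvd.mul_right (Dvd.dvd.mul_right (e ▸ dvd_refl _) M') p)
  haveI : NeZero (ℓ : ℕ) := ⟨ℓ.2.ne_zero⟩
  obtain ⟨cℓ, G, hcℓ, hG, hKE⟩ := heig ℓ ℓ.2 hℓS
  obtain ⟨v, hv⟩ := Fermat.Agent.Ribet.H708.kronField q M' hq hqM A hA ℓ ℓ.2 hℓM hℓq u
  have hpw : p • (heckeOperatorBar M' ℓ z - a ℓ • z) = 0 := by
    have e1 : p • (heckeOperatorBar M' ℓ z) = 0 := by
      rw [← map_nsmul, hpz, map_zero]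
    have e2 : p • (a ℓ • z) = 0 := by
      rw [smul_comm, hpz, smul_zero]
    rw [nsmul_sub, e1, e2, sub_zero]
  -- a Kummer generator of `w = T_ℓ z - a_ℓ z` and its reduction
  have hK1 : IsKummerGen M' p (Fermat.Agent.S29.H395.heckeNorm M' ℓ f)
      (heckeOperatorBar M' ℓ z) :=
    Fermat.Agent.Ribet.H398.isKummerGen_heckeNorm M' ℓ p f z hfK
  have hKw : IsKummerGen M' p
      (Fermat.Agent.S29.H395.heckeNorm M' ℓ f * (f ^ (a ℓ))⁻¹)
      (heckeOperatorBar M' ℓ z - a ℓ • z) := by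
    rw [sub_eq_add_neg]
    exact isKummerGen_mul M' p hK1 (isKummerGen_inv M' p (isKummerGen_zpow' M' p hfK (a ℓ)))
  have hR1 : IsRedInf M' A (Fermat.Agent.S29.H395.heckeNorm M' ℓ f) (kronNorm ℓ r) :=
    Fermat.Agent.Ribet.H376.isRedInf_heckeNorm' M' ℓ ℓ.2 hℓM A hr
  have hRw : IsRedInf M' A (Fermat.Agent.S29.H395.heckeNorm M' ℓ f * (f ^ (a ℓ))⁻¹)
      (kronNorm ℓ r * (r ^ (a ℓ))⁻¹) :=
    isRedInf_mul M' A hR1 (isRedInf_inv M' A (isRedInf_zpow M' A hr (a ℓ)))
  obtain ⟨gw, Ew, hgw, hEw, hordw⟩ := Fermat.Agent.Ribet.H579.kumRed q M' p hq hqM A hA hRI _ _ _ hKw hRw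
  -- the reduction is a constant times a `p`-th power in `F_k`
  have hh0 : (h : LaurentSeries (kA A)) ≠ 0 := fun e => h0 (Subtype.ext e)
  have hu0 : (u : LaurentSeries (kA A)) ≠ 0 := fun e => hu (Subtype.ext e)
  have hua0 : u ^ (a ℓ) ≠ 0 := zpow_ne_zero _ hu
  have hcalc : gw = algebraMap (kA A) (modularFunctionFieldFullC (kA A) M')
      (c ^ ((ℓ : ℕ) + 1) * cℓ * (c ^ (a ℓ))⁻¹) * (G * v * (u ^ (a ℓ))⁻¹) ^ p := by
    apply Subtype.ext
    rw [hgw]
    show kronNorm ℓ r * (r ^ (a ℓ))⁻¹ =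
      ((algebraMap (kA A) (modularFunctionFieldFullC (kA A) M')
        (c ^ ((ℓ : ℕ) + 1) * cℓ * (c ^ (a ℓ))⁻¹) : _) : LaurentSeries (kA A)) *
      ((G : LaurentSeries (kA A)) * (v : LaurentSeries (kA A)) *
        ((u : LaurentSeries (kA A)) ^ (a ℓ))⁻¹) ^ p
    rw [hcst, hv, hrser, kronNorm_mul, kronNorm_mul, kronNorm_pow,
      Fermat.Agent.Ribet.H376.kronNorm_C, hKE]
    have hCc : (HahnSeries.C c : LaurentSeries (kA A)) ≠ 0 :=
      (map_ne_zero (HahnSeries.C : kA A →+* LaurentSeries (kA A))).mpr hc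
    have e1 : (HahnSeries.C c * (h : LaurentSeries (kA A)) *
        (u : LaurentSeries (kA A)) ^ p) ^ (a ℓ) =
        HahnSeries.C (c ^ (a ℓ)) * (h : LaurentSeries (kA A)) ^ (a ℓ) *
          ((u : LaurentSeries (kA A)) ^ (a ℓ)) ^ p := by
      rw [mul_zpow, mul_zpow, ← map_zpow₀ (HahnSeries.C : kA A →+* LaurentSeries (kA A)),
        ← zpow_natCast ((u : LaurentSeries (kA A))) p, ← zpow_mul,
        ← zpow_natCast ((u : LaurentSeries (kA A)) ^ (a ℓ)) p, ← zpow_mul, mul_comm (p : ℤ)]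
    rw [e1]
    have hha0 : (h : LaurentSeries (kA A)) ^ (a ℓ) ≠ 0 := zpow_ne_zero _ hh0
    have hua0' : (u : LaurentSeries (kA A)) ^ (a ℓ) ≠ 0 := zpow_ne_zero _ hu0
    have hca0 : (HahnSeries.C (c ^ (a ℓ)) : LaurentSeries (kA A)) ≠ 0 :=
      (map_ne_zero (HahnSeries.C : kA A →+* LaurentSeries (kA A))).mpr (zpow_ne_zero (a ℓ) hc)
    have hcl0 : (HahnSeries.C (c ^ ((ℓ : ℕ) + 1)) : LaurentSeries (kA A)) ≠ 0 :=
      (map_ne_zero (HahnSeries.C : kA A →+* LaurentSeries (kA A))).mpr (pow_ne_zero _ hc)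
    have huap0 : ((u : LaurentSeries (kA A)) ^ (a ℓ)) ^ p ≠ 0 := pow_ne_zero _ hua0'
    rw [map_mul, map_mul, map_inv₀, mul_pow, mul_pow, inv_pow]
    generalize (HahnSeries.C (c ^ ((ℓ : ℕ) + 1)) : LaurentSeries (kA A)) = X1 at hcl0 ⊢
    generalize (HahnSeries.C (c ^ (a ℓ)) : LaurentSeries (kA A)) = X2 at hca0 ⊢
    generalize (HahnSeries.C cℓ : LaurentSeries (kA A)) = X3
    generalize ((u : LaurentSeries (kA A)) ^ (a ℓ)) ^ p = X4 at huap0 ⊢
    generalize (h : LaurentSeries (kA A)) ^ (a ℓ) = X5 at hha0 ⊢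
    generalize (G : LaurentSeries (kA A)) ^ p = X6
    generalize (kronNorm (ℓ : ℕ) (u : LaurentSeries (kA A))) ^ p = X7
    field_simp
  have hgw_cst : c ^ ((ℓ : ℕ) + 1) * cℓ * (c ^ (a ℓ))⁻¹ ≠ 0 :=
    mul_ne_zero (mul_ne_zero (pow_ne_zero _ hc) hcℓ) (inv_ne_zero (zpow_ne_zero _ hc))
  have hv0 : v ≠ 0 := by
    intro e
    have h1 : kronNorm ℓ (u : LaurentSeries (kA A)) = 0 := by rw [← hv, e]; rfl
    exact Fermat.Agent.Ribet.H376.kronNorm_ne_zero_of_field ℓ.2 hu0 h1
  have hzero : (Pic0.mk Ew : JZeroC (kA A) M') = 0 :=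
    mk_eq_zero_of_const_mul_pow (K := kA A) hp.ne_zero
      (mul_ne_zero (mul_ne_zero hG hv0) (inv_ne_zero hua0)) hcalc hordw hgw_cst
  have hred0 : reductionModL A M' (heckeOperatorBar M' ℓ z - a ℓ • z) = 0 := by
    rw [← hEw, hzero]
  have hqp' : ¬ q ∣ p := fun hd => hqp ((Nat.prime_dvd_prime_iff_eq hq hp).mp hd)
  have hw := Fermat.Agent.S18.result M' hqM A hA hRI p hqp' _ hpw hred0
  exact sub_eq_zero.mp hw


/-- **(Q3) RED** from the reduction inputs and GR-SURJ at `(A, M')`. -/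
theorem q3For_of_rim (p q M' : ℕ) [NeZero M'] [NeZero q] [NeZero (q * M')] (hp : p.Prime)
    (hq : q.Prime) (hqp : q ≠ p) (hqM : ¬ q ∣ M')
    (A : ValuationSubring Kbar) (hA : A.LiesOverPrime q)
    (hRI : ReductionInputsModL A M')
    (hSurj : ∀ y : JZeroC (kA A) M', p • y = 0 →
      ∃ z : JZero M', p • z = 0 ∧ reductionModL A M' z = y) :
    Q3For p q M' (finPartQ p q M' A) (splitPartQ p q M' A) := by
  intro S a x hx hxS _ heig
  obtain ⟨S', h, hSS', hh⟩ := redEigenQ_h213 p q M' hp hq hqM A hA S a x hx hxS heig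
  obtain ⟨z, f, r, c, u, hz0, hpz, -, -, -, -, -, hz⟩ :=
    eigenLiftStrong_of_rim p q M' hp hq hqp hqM A hA hRI hSurj S' a h hh
  exact ⟨S' ∪ (q * M' * p).primeFactors, hSS'.trans Finset.subset_union_left,
    Or.inl ⟨z, hz0, hpz, hz⟩⟩

/-- **(Q3) RED** at a good level, any prime `p ≠ q`, `q = 2` allowed. -/
theorem q3For_of_good (p q M' : ℕ) [NeZero M'] [NeZero q] [NeZero (q * M')] (hp : p.Prime)
    (hq : q.Prime) (hqp : q ≠ p) (hqM : ¬ q ∣ M')
    (hgood : Fermat.Agent.S37.Core.GoodLevel M' q)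
    (A : ValuationSubring Kbar) (hA : A.LiesOverPrime q) :
    Q3For p q M' (finPartQ p q M' A) (splitPartQ p q M' A) := by
  haveI : Fact q.Prime := ⟨hq⟩
  have hqp' : ¬ q ∣ p := fun hd => hqp ((Nat.prime_dvd_prime_iff_eq hq hp).1 hd)
  exact q3For_of_rim p q M' hp hq hqp hqM A hA
    (Fermat.Agent.S37.Core.rimStatement M' q hq hqM hgood A hA)
    (fun y hy => Fermat.Agent.Ribet.H937.grSurj M' hqM hgood A hA p hqp' y hy)

/-! ## (Q4) -/

/-- **(Q4) TAME from the tame node relation**: if every new eigenclass fixed by inertia has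
proportional slopes (`SlopePropQM`), then (Q4) holds for `finPartQ`.  Any prime `p`. -/
theorem q4For_of_slope (p q M' : ℕ) [NeZero M'] [NeZero q] [NeZero (q * M')] (hp : p.Prime)
    (hq : q.Prime) (hqp : q ≠ p) (hqM : ¬ q ∣ M') (haux : Fermat.Agent.S35.G.HasAux M' q)
    (A : ValuationSubring Kbar) (hA : A.LiesOverPrime q)
    (hSl : ∀ (S : Finset ℕ) (a : ℕ → ℤ) (x : JZero (q * M')), NonEisAway p a →
      IsNewTorsQ p q M' x → EigenAt (q * M') S a x →
      (∀ σ ∈ A.inertiaSubgroupIn ℚ, σ • x = x) → SlopePropQM p q M' A x) :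
    Q4For p q M' A (finPartQ p q M' A) := by
  intro S a hNE x hx hex hfix
  have hE : IsEisModQ p q M' A (q * M' * p).primeFactors x := by
    refine isEisModQ_of_slopePropQM' Fermat.Agent.Ribet.H398.heckeFun
      Fermat.Agent.Ribet.H67.unitEis Fermat.Agent.Ribet.H997.redExists
      Fermat.Agent.Ribet.H997.redUnique Fermat.Agent.Ribet.H997.redField
      p p q M' hp.ne_zero hq hqM A hA ?_ ?_ x (hSl S a x hNE hx hex hfix)
    · intro ℓ _ hℓ f g hg hf
      have h1 := Fermat.Agent.Ribet.H699.heckeNodeGenQPow p 1 q M' hp Nat.one_pos hq hqp hqM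
        A hA ℓ hℓ f g hg
      rw [pow_one] at h1
      exact h1 hf
    · intro g y hg hN
      exact Fermat.Agent.Ribet.H644.cuspPurityAux p q M' hq hqM haux hp.pos A hA g y hg hN
  exact mem_finPartQ_of_eis p q M' hp A S _ a hNE x hx.1 hex hE

/-- **(Q4) TAME** at a level with the auxiliary prime, `p` prime to `12`, `q = 2` allowed. -/
theorem q4For_of_hasAux (p q M' : ℕ) [NeZero M'] [NeZero q] [NeZero (q * M')] (hp : p.Prime)
    (hcop : Nat.Coprime 12 p) (hq : q.Prime) (hqp : q ≠ p) (hqM : ¬ q ∣ M')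
    (haux : Fermat.Agent.S35.G.HasAux M' q)
    (A : ValuationSubring Kbar) (hA : A.LiesOverPrime q) :
    Q4For p q M' A (finPartQ p q M' A) := by
  refine q4For_of_slope p q M' hp hq hqp hqM haux A hA ?_
  intro S a x _ hx _ hfix
  obtain ⟨f, D, G, a', b', hK, hD, hD0, heq, hNG⟩ :=
    Fermat.Agent.Ribet.H912.tameCore q M' p hq hqM haux hp.pos hcop A hA x hx.1 hfix
  exact ⟨f, D, G, 12, a', b', hK, hD, hD0, by norm_num, hcop, heq, hNG⟩

/-! ## The targets -/

/-- **The three targets at a good level from the tame node relation**, any prime `p ≠ q`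
(`p = 3` included), `q = 2` allowed. -/
theorem targetsAt_of_slope (p q M' : ℕ) [NeZero M'] [NeZero q] [NeZero (q * M')]
    (hp : p.Prime) (hq : q.Prime) (hqp : q ≠ p) (hqM : ¬ q ∣ M')
    (hgood : Fermat.Agent.S37.Core.GoodLevel M' q)
    (hSl : ∀ A : ValuationSubring Kbar, A.LiesOverPrime q →
      ∀ (S : Finset ℕ) (a : ℕ → ℤ) (x : JZero (q * M')), NonEisAway p a →
      IsNewTorsQ p q M' x → EigenAt (q * M') S a x →
      (∀ σ ∈ A.inertiaSubgroupIn ℚ, σ • x = x) → SlopePropQM p q M' A x) :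
    TargetsAt p q M' := by
  intro A hA
  have haux := hasAux_of_goodLevel hgood
  exact ⟨finPartQ p q M' A, splitPartQ p q M' A,
    q2For_of_hasAux p q M' hp hq hqp hqM haux A hA,
    q3For_of_good p q M' hp hq hqp hqM hgood A hA,
    q4For_of_slope p q M' hp hq hqp hqM haux A hA (hSl A hA)⟩

/-- **The three targets at a good level**, `p` prime to `12`, `q = 2` allowed. -/
theorem targetsAt_of_good (p q M' : ℕ) [NeZero M'] [NeZero q] [NeZero (q * M')]
    (hp : p.Prime) (hcop : Nat.Coprime 12 p) (hq : q.Prime) (hqp : q ≠ p) (hqM : ¬ q ∣ M')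
    (hgood : Fermat.Agent.S37.Core.GoodLevel M' q) : TargetsAt p q M' := by
  intro A hA
  have haux := hasAux_of_goodLevel hgood
  exact ⟨finPartQ p q M' A, splitPartQ p q M' A,
    q2For_of_hasAux p q M' hp hq hqp hqM haux A hA,
    q3For_of_good p q M' hp hq hqp hqM hgood A hA,
    q4For_of_hasAux p q M' hp hcop hq hqp hqM haux A hA⟩

/-! ## The cells T5-GOOD and T5-TWO -/

/-- **T5-GOOD**, unconditional. -/
theorem t5Good : T5GoodStatement := by
  intro q M' _ _ _ hq hq5 hqM hgood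
  refine targetsAt_of_good 5 q M' (by norm_num) (by norm_num) hq hq5 hqM ?_
  rcases hgood with h7 | ⟨h3, h2⟩
  · exact Or.inl (by omega)
  · exact Or.inr (Or.inl ⟨h3, h2⟩)

/-- **T5-TWO**, unconditional. -/
theorem t5Two : T5TwoStatement := by
  intro M' _ _ h2M h3M
  exact targetsAt_of_good 5 2 M' (by norm_num) (by norm_num) Nat.prime_two (by norm_num) h2M
    (Or.inr (Or.inr ⟨rfl, h3M⟩))

end Fermat.Agent.S59.LOQ.H213

end

end
-- ===== PACK-END S59/LOQ/H213/Good.lean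

-- ===== PACK-BEGIN S59/LOQ/H213/Closed.lean
section






/-!
# Row S59, cell (B1) = LO-Q: THE INTEGRATION TOP  (sub-architect helper213)

`LOW.MazurW35Statement` from the FOUR cells which are still open, everything else plugged:

    mazurW35_of_open : T5Desc3Statement → T5Desc2Statement → T3NeatStatement →
      H849.T3Desc2NeatStatement → LOW.MazurW35Statement

Plugged here (all unconditional):

| input | theorem |
|---|---|
| row inputs (BLR-W, NE-W, R3S, R3'-W, Places, DETF-W, DIM-W) | `Final.lean` |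
| T5-GOOD, T5-TWO | `Good.lean` (`t5Good`, `t5Two`) |
| top glue without T3-REST | `H849.mazurW35_of_cells_pad` (helper849) |
| PAD | `H646.resMod_pad646` (helper646) |
| UNPAD | `H646.unpad646` (helper646) |
| CHEB-3 | `H186.exists_aux3_W_h186` (helper186) |
-/

set_option autoImplicit false
set_option linter.style.haveILetI false

namespace Fermat.Agent.S59.LOQ.H213

open Fermat.Agent.S59.LOQ.H849

/-- **PAD** in the shape of `H849.PadStatement`. -/
theorem pad_h213 : PadStatement := by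
  intro W _ _ _ M r hM hr _ _ _ hres
  exact Fermat.Agent.S59.LO.H646.resMod_pad646 W 3
    (Nat.mul_ne_zero hr.ne_zero hM.ne_zero) (dvd_mul_left M r) hres

/-- **UNPAD** in the shape of `H849.UnpadStatement`. -/
theorem unpad_h213 : UnpadStatement := by
  intro W hΔ _ hirr M r hM hr hr3 hrM hgood _ _ hlr hres
  haveI : Fact (Nat.Prime 3) := ⟨Nat.prime_three⟩
  have hM0 : 0 < M := by
    rcases Nat.eq_zero_or_pos M with h | h
    · subst h
      simp at hM
    · exact h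
  exact Fermat.Agent.S59.LO.H646.unpad646 3 (by norm_num) W hΔ hirr M r hM0 hr hr3 hrM hgood
    hlr hres

/-- **CHEB-3** in the shape of `H849.Cheb3Statement`. -/
theorem cheb3_h213 : Cheb3Statement :=
  fun W hΔ hW hirr S => Fermat.Agent.S59.TW.Aut.H186.exists_aux3_W_h186 W hΔ hW hirr S

/-- **LO-Q from its four open cells.** -/
theorem mazurW35_of_open (h53 : T5Desc3Statement) (h52 : T5Desc2Statement)
    (h3n : T3NeatStatement) (h3d : T3Desc2NeatStatement) :
    Fermat.Agent.S59.Arch.LOW.MazurW35Statement :=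
  mazurW35_of_cells_pad Fermat.Agent.Ribet.H823.embedW Fermat.Agent.Ribet.H883.nonEisW
    Fermat.Agent.Ribet.H404.eigenformOfOccursAway
    Fermat.Agent.Ribet.H943.Final.almostAllToWitnessW
    Fermat.Agent.Ribet.H584.places detFrobW torsionRankW t5Good t5Two h53 h52 h3n h3d
    pad_h213 unpad_h213 cheb3_h213

end Fermat.Agent.S59.LOQ.H213

end
-- ===== PACK-END S59/LOQ/H213/Closed.lean

-- ===== PACK-BEGIN Ribet/H924/Q3ForAll.lean
section



/-!
# WALL-q, target (Q3) RED for ALL primes `p ≠ q` and ALL levels (helper924)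

For row S59 (cell LO-Q): `Q3For p q M' (finPartQ p q M' A) (splitPartQ p q M' A)` for every pair
of primes `p ≠ q` with `q ∤ M'` — no `5 ≤ p`, no `q ≠ 2`, no condition on the level, `p ∣ M'`
allowed.

* `redEigen_all` : RED-CLASS.  The proof of `H523.Q3.redEigenQ` (helper523) never uses the
  binders `5 ≤ p`, `q ≠ 2`; it is repeated here verbatim without them.
* `q3For_all` : (Q3) = RED-CLASS + EIGEN-LIFT (`H924.eigenLift_all`).
* `q3AllStatement` : the closed statement.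
-/

set_option autoImplicit false
set_option linter.style.haveILetI false
set_option linter.unusedSectionVars false
set_option synthInstance.maxHeartbeats 400000
set_option maxHeartbeats 1000000

noncomputable section

namespace Fermat.Agent.Ribet.H924

open AlgebraicCurve ModularCurve HahnSeries
open Fermat.Agent.S24 Fermat.Agent.A2.H708 Fermat.Agent.A2.H528
open Fermat.Agent.Ribet.Spec Fermat.Agent.Ribet.H944.Wall Fermat.Agent.Ribet.H884
open Fermat.Agent.Ribet.H158.WallQ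
open Fermat.Agent.Ribet.H944.I2
open Fermat.Agent.Ribet.H523.Q3

/-- **RED-CLASS for all primes `p ≠ q`**: a new eigenclass in `𝓕 ∖ 𝒮` produces, on one of the
two components, a Kummer function of a nonzero eigenclass of `Pic⁰(X₀(M')_k)[p]`. -/
theorem redEigen_all (p q M' : ℕ) [NeZero M'] [NeZero q] [NeZero (q * M')] (hp : p.Prime)
    (hq : q.Prime) (hqM : ¬ q ∣ M') (A : ValuationSubring Kbar) (hA : A.LiesOverPrime q)
    (S : Finset ℕ) (a : ℕ → ℤ) (x : JZero (q * M')) (hx : x ∈ finPartQ p q M' A)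
    (hxS : x ∉ splitPartQ p q M' A) (heig : EigenAt (q * M') S a x) :
    ∃ (S' : Finset ℕ) (h : modularFunctionFieldFullC (kA A) M'),
      S ⊆ S' ∧ IsRedEigen p M' S' a h := by
  obtain ⟨f, hfK, r₁, r₂, hr1, hr2, hP1, hP2⟩ := finClosedQ p q M' A hx
  have hns : ¬ (PPowSeries p M' r₁ ∧ PPowSeries p M' r₂) := by
    rintro ⟨h1, h2⟩
    exact hxS (AddSubgroup.subset_closure ⟨f, hfK, r₁, r₂, hr1, hr2, h1, h2⟩)
  have hKf : ∀ (ℓ : ℕ) [NeZero ℓ], ℓ.Prime → ℓ ∉ S → ¬ ℓ ∣ q * M' →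
      KummerEigen (q * M') p ℓ (a ℓ) f :=
    fun ℓ _ hℓ hℓS hℓN => kumEig (q * M') p hp.ne_zero S a x f hfK heig ℓ hℓ hℓS hℓN
  -- the main step, for a pair `(F, r)`
  have key : ∀ (F : FF (q * M')) (r : LaurentSeries (kA A)), IsRedInf (q * M') A F r →
      PDivSeries p M' r → ¬ PPowSeries p M' r →
      (∀ (ℓ : ℕ) [NeZero ℓ], ℓ.Prime → ℓ ∉ S → ¬ ℓ ∣ q * M' →
        KummerEigen (q * M') p ℓ (a ℓ) F) →
      ∃ (S' : Finset ℕ) (h : modularFunctionFieldFullC (kA A) M'),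
        S ⊆ S' ∧ IsRedEigen p M' S' a h := by
    intro F r hFr hPr hsr hKF
    obtain ⟨h, hh, h0, hdiv⟩ := hPr
    refine ⟨S ∪ (q * M').primeFactors, h, Finset.subset_union_left, h0, hdiv,
      by rw [hh]; exact hsr, ?_⟩
    intro ℓ _ hℓ hℓS'
    have hℓS : ℓ ∉ S := fun e => hℓS' (Finset.mem_union_left _ e)
    have hℓN : ¬ ℓ ∣ q * M' := fun hd =>
      hℓS' (Finset.mem_union_right _ (Nat.mem_primeFactors.mpr ⟨hℓ, hd, NeZero.ne _⟩))
    obtain ⟨c, G, hc, hG, hN⟩ := hKF ℓ hℓ hℓS hℓN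
    have h1 : IsRedInf (q * M') A (hNorm (q * M') ℓ F) (Fermat.Agent.S37.H697.knorm ℓ r) :=
      Fermat.Agent.Ribet.H376.heckeRed (q * M') ℓ hℓ hℓN A F r hFr
    obtain ⟨rG, hrG⟩ := (Fermat.Agent.Ribet.H997.redExists q (q * M') hq A hA G hG).1
    have h2 : IsRedInf (q * M') A (hNorm (q * M') ℓ F) (1 * r ^ (a ℓ) * rG ^ p) := by
      rw [hN]
      exact isRedInf_mul _ A (isRedInf_mul _ A (isRedInf_const _ A hc)
        (isRedInf_zpow _ A hFr (a ℓ))) (isRedInf_pow _ A hrG p)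
    obtain ⟨-, cb, hcb, hEq⟩ :=
      Fermat.Agent.Ribet.H997.redUnique q (q * M') hq A hA _ _ _ h2 h1
    have hrG0 : rG ≠ 0 := (isRedInf_ne_zero _ A hrG).2
    obtain ⟨Gk, hGk⟩ :=
      Fermat.Agent.Ribet.H997.redField q M' hq hqM A hA G rG (Or.inl hrG)
    refine ⟨cb, Gk, hcb, fun e => hrG0 (by rw [← hGk, e]; rfl), ?_⟩
    rw [← Fermat.Agent.Ribet.H376.knorm_eq_kronNorm, hh, hGk, hEq, one_mul, mul_assoc]
  by_cases hs1 : PPowSeries p M' r₁
  · have hs2 : ¬ PPowSeries p M' r₂ := fun h2 => hns ⟨hs1, h2⟩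
    exact key (wF (q * M') f) r₂ hr2 hP2 hs2
      (fun ℓ _ hℓ hℓS hℓN =>
        (hKf ℓ hℓ hℓS hℓN).fricke Fermat.Agent.Ribet.H376.frickeHecke hℓ hℓN)
  · exact key f r₁ hr1 hP1 hs1 hKf

/-- **(Q3) RED for all primes `p ≠ q` and all levels**, for the intrinsic subgroups. -/
theorem q3For_all (p q M' : ℕ) [NeZero M'] [NeZero q] [NeZero (q * M')] (hp : p.Prime)
    (hq : q.Prime) (hqp : q ≠ p) (hqM : ¬ q ∣ M') (A : ValuationSubring Kbar)
    (hA : A.LiesOverPrime q) :
    Q3For p q M' (finPartQ p q M' A) (splitPartQ p q M' A) := by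
  intro S a x hx hxS _ heig
  obtain ⟨S', h, hSS', hh⟩ := redEigen_all p q M' hp hq hqM A hA S a x hx hxS heig
  obtain ⟨S'', hS'', hocc⟩ := eigenLift_all hp hq hqp hqM hA S' a h hh
  exact ⟨S'', hSS'.trans hS'', Or.inl hocc⟩

/-- **(Q3) RED**, closed statement: all primes `p ≠ q`, all levels `M'` prime to `q`. -/
def Q3AllStatement : Prop :=
  ∀ (p q M' : ℕ) [NeZero M'] [NeZero q] [NeZero (q * M')], p.Prime → q.Prime → q ≠ p →
    ¬ q ∣ M' →
    ∀ A : ValuationSubring Kbar, A.LiesOverPrime q →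
      Q3For p q M' (finPartQ p q M' A) (splitPartQ p q M' A)

theorem q3AllStatement : Q3AllStatement :=
  fun p q M' _ _ _ hp hq hqp hqM A hA => q3For_all p q M' hp hq hqp hqM A hA

end Fermat.Agent.Ribet.H924

end

end
-- ===== PACK-END Ribet/H924/Q3ForAll.lean

-- ===== PACK-BEGIN S59/LOQ/H213/Desc.lean
section






/-!
# Row S59, cell (B1) = LO-Q: the DESCENT cells from FIN-DOWN alone  (sub-architect helper213)

With (Q2) at ALL levels (`H818.q2All`, helper818) and (Q3) at ALL levels (`H924.q3For_all`,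
helper924) for the intrinsic subgroups `finPartQ`, `splitPartQ`, the only target which has to be
descended from the auxiliary level `(q, r M')` is (Q4) TAME, and its descent
(`H158.Neat.q4For_of_neatPull`, helper158, along `H672.neatPullR`, helper672) needs FIN-DOWN only
(SPLIT-UP is NOT needed any more).

## Leaves frozen here
* `FinDownStatement` : `p x = 0 → π x ∈ finPartQ p q (r M') A → x ∈ finPartQ p q M' A` for
  `π = H672.NeatPull.neatPullR q r M'`, `p ∤ r + 1`;
* `Q4NeatThreeStatement` : (Q4) TAME for `finPartQ` at `p = 3` at the levels with the auxiliary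
  prime (`HasAux M' q`) which are neat at `q` (`Neat3 q M'`).

## Proved here
* `q4For_down` : (Q4) descends from `(q, r M')` to `(q, M')`;
* `targetsAt_of_q4` : `TargetsAt p q M'` from (Q4) for `finPartQ` (any primes `p ≠ q`, ANY level);
* `t5Desc3_of_finDown`, `t5Desc2_of_finDown` : the cells T5-DESC3 (`r = 2`), T5-DESC2 (`r = 3`);
* `t3Neat_of_q4`, `t3Desc2Neat_of_finDown` : the cells T3-NEAT, T3-DESC2-NEAT (`r = 3`, degree `4`);
* **`mazurW35_of_finDown_q4 : FinDownStatement → Q4NeatThreeStatement → LOW.MazurW35Statement`**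
  is in `Closed2.lean`.
-/

set_option autoImplicit false
set_option linter.style.haveILetI false
set_option linter.unusedSectionVars false
set_option linter.unusedVariables false
set_option synthInstance.maxHeartbeats 400000
set_option maxHeartbeats 1000000

noncomputable section

namespace Fermat.Agent.S59.LOQ.H213

open ModularCurve
open Fermat.Agent.S24
open Fermat.Agent.Ribet.Spec Fermat.Agent.Ribet.H944.Wall Fermat.Agent.Ribet.H884
open Fermat.Agent.Ribet.H158.WallQ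
open Fermat.Agent.S59.H672.NeatPull (neatPullR isNeatPull)

/-- **The leaf FIN-DOWN** (finiteness descends along the pull-back of degree `r + 1` prime to
`p`), for `π = H672.NeatPull.neatPullR q r M'`. -/
def FinDownStatement : Prop :=
  ∀ (p q r M' : ℕ) [NeZero M'] [NeZero q] [NeZero r] [NeZero (q * M')] [NeZero (r * M')]
    [NeZero (q * (r * M'))], p.Prime → q.Prime → q ≠ p → r.Prime → r ≠ q → ¬ q ∣ M' →
    ¬ r ∣ M' → Nat.Coprime (r + 1) p →
    ∀ A : ValuationSubring Kbar, A.LiesOverPrime q →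
    ∀ x : JZero (q * M'), p • x = 0 →
      neatPullR q r M' x ∈ finPartQ p q (r * M') A → x ∈ finPartQ p q M' A

/-- **The leaf Q4-NEAT-3**: (Q4) TAME for `finPartQ` at `p = 3`, at the levels with the auxiliary
prime which are neat at `q`. -/
def Q4NeatThreeStatement : Prop :=
  ∀ (q M' : ℕ) [NeZero M'] [NeZero q] [NeZero (q * M')], q.Prime → q ≠ 3 → ¬ q ∣ M' →
    Fermat.Agent.S35.G.HasAux M' q → Neat3 q M' →
    ∀ A : ValuationSubring Kbar, A.LiesOverPrime q →
      Q4For 3 q M' A (finPartQ 3 q M' A)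

/-- `q ∤ r M'` for distinct primes `q`, `r` with `q ∤ M'`. -/
theorem not_dvd_mul_of_ne {q r M' : ℕ} (hq : q.Prime) (hr : r.Prime) (hrq : r ≠ q)
    (hqM : ¬ q ∣ M') : ¬ q ∣ r * M' := by
  intro h
  rcases (Nat.Prime.dvd_mul hq).mp h with h | h
  · exact hrq ((Nat.prime_dvd_prime_iff_eq hq hr).mp h).symm
  · exact hqM h

/-- **(Q4) TAME descends** from the auxiliary level `(q, r M')` to `(q, M')`, by FIN-DOWN. -/
theorem q4For_down (hFD : FinDownStatement)
    (p q r M' : ℕ) [NeZero M'] [NeZero q] [NeZero r] [NeZero (q * M')] [NeZero (r * M')]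
    [NeZero (q * (r * M'))] (hp : p.Prime) (hq : q.Prime) (hqp : q ≠ p) (hr : r.Prime)
    (hrq : r ≠ q) (hqM : ¬ q ∣ M') (hrM : ¬ r ∣ M') (hcop : Nat.Coprime (r + 1) p)
    (A : ValuationSubring Kbar) (hA : A.LiesOverPrime q)
    (h4 : Q4For p q (r * M') A (finPartQ p q (r * M') A)) :
    Q4For p q M' A (finPartQ p q M' A) :=
  Fermat.Agent.S59.H158.Neat.q4For_of_neatPull
    (isNeatPull q r M' p hq hqM (not_dvd_mul_of_ne hq hr hrq hqM) hr hrq hrM hcop)
    (fun x hpx hx => hFD p q r M' hp hq hqp hr hrq hqM hrM hcop A hA x hpx hx) h4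

/-- **The three targets from (Q4)** for `finPartQ`: any primes `p ≠ q`, ANY level. -/
theorem targetsAt_of_q4 (p q M' : ℕ) [NeZero M'] [NeZero q] [NeZero (q * M')] (hp : p.Prime)
    (hq : q.Prime) (hqp : q ≠ p) (hqM : ¬ q ∣ M')
    (h4 : ∀ A : ValuationSubring Kbar, A.LiesOverPrime q →
      Q4For p q M' A (finPartQ p q M' A)) : TargetsAt p q M' := by
  intro A hA
  have hqm : ¬ q ∣ p := fun hd => hqp ((Nat.prime_dvd_prime_iff_eq hq hp).1 hd)
  exact ⟨finPartQ p q M' A, splitPartQ p q M' A,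
    Fermat.Agent.Ribet.H818.q2All p q M' hq hqM hp.pos hqm A hA,
    Fermat.Agent.Ribet.H924.q3For_all p q M' hp hq hqp hqM A hA, h4 A hA⟩

/-- **The three targets at `(q, M')` from FIN-DOWN and (Q4) at the auxiliary level
`(q, r M')`.** -/
theorem targetsAt_of_finDown (hFD : FinDownStatement)
    (p q r M' : ℕ) [NeZero M'] [NeZero q] [NeZero r] [NeZero (q * M')] [NeZero (r * M')]
    [NeZero (q * (r * M'))] (hp : p.Prime) (hq : q.Prime) (hqp : q ≠ p) (hr : r.Prime)
    (hrq : r ≠ q) (hqM : ¬ q ∣ M') (hrM : ¬ r ∣ M') (hcop : Nat.Coprime (r + 1) p)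
    (h4 : ∀ A : ValuationSubring Kbar, A.LiesOverPrime q →
      Q4For p q (r * M') A (finPartQ p q (r * M') A)) : TargetsAt p q M' :=
  targetsAt_of_q4 p q M' hp hq hqp hqM
    (fun A hA => q4For_down hFD p q r M' hp hq hqp hr hrq hqM hrM hcop A hA (h4 A hA))

/-! ## The cells at `p = 5` -/

/-- **T5-DESC3** (`p = 5`, `q = 3`, `M'` odd) from FIN-DOWN: auxiliary prime `r = 2`. -/
theorem t5Desc3_of_finDown (hFD : FinDownStatement) : T5Desc3Statement := by
  intro M' _ _ h3M h2M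
  have hM0 : M' ≠ 0 := NeZero.ne M'
  haveI : NeZero (2 * M') := ⟨Nat.mul_ne_zero (by norm_num) hM0⟩
  haveI : NeZero (3 * (2 * M')) := ⟨Nat.mul_ne_zero (by norm_num) (NeZero.ne (2 * M'))⟩
  have hq : Nat.Prime 3 := Nat.prime_three
  have hr : Nat.Prime 2 := Nat.prime_two
  have hqN : ¬ 3 ∣ 2 * M' := not_dvd_mul_of_ne hq hr (by norm_num) h3M
  refine targetsAt_of_finDown hFD 5 3 2 M' (by norm_num) hq (by norm_num) hr (by norm_num) h3M
    h2M (by norm_num) ?_
  intro A hA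
  exact q4For_of_hasAux 5 3 (2 * M') (by norm_num) (by norm_num) hq (by norm_num) hqN
    ⟨fun _ => Dvd.intro M' rfl, fun h => absurd h (by norm_num)⟩ A hA

/-- **T5-DESC2** (`p = 5`, `q = 2`, `3 ∤ M'`) from FIN-DOWN: auxiliary prime `r = 3`. -/
theorem t5Desc2_of_finDown (hFD : FinDownStatement) : T5Desc2Statement := by
  intro M' _ _ h2M h3M
  have hM0 : M' ≠ 0 := NeZero.ne M'
  haveI : NeZero (3 * M') := ⟨Nat.mul_ne_zero (by norm_num) hM0⟩
  haveI : NeZero (2 * (3 * M')) := ⟨Nat.mul_ne_zero (by norm_num) (NeZero.ne (3 * M'))⟩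
  have hq : Nat.Prime 2 := Nat.prime_two
  have hr : Nat.Prime 3 := Nat.prime_three
  have hqN : ¬ 2 ∣ 3 * M' := not_dvd_mul_of_ne hq hr (by norm_num) h2M
  refine targetsAt_of_finDown hFD 5 2 3 M' (by norm_num) hq (by norm_num) hr (by norm_num) h2M
    h3M (by norm_num) ?_
  intro A hA
  exact q4For_of_hasAux 5 2 (3 * M') (by norm_num) (by norm_num) hq (by norm_num) hqN
    ⟨fun h => absurd h (by norm_num), fun _ => Dvd.intro M' rfl⟩ A hA

/-! ## The cells at `p = 3` -/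

/-- **T3-NEAT** from (Q4) at the neat levels with the auxiliary prime. -/
theorem t3Neat_of_q4 (h4 : Q4NeatThreeStatement) : T3NeatStatement := by
  intro q M' _ _ _ hq hq3 hqM h2 hn
  refine targetsAt_of_q4 3 q M' Nat.prime_three hq hq3 hqM ?_
  intro A hA
  exact h4 q M' hq hq3 hqM ⟨fun h => absurd h hq3, h2⟩ hn A hA

/-- **T3-DESC2-NEAT** (`p = 3`, `q = 2`, `3 ∤ M'`, `M'` neat at `2`) from FIN-DOWN and (Q4) at the
neat levels with the auxiliary prime: auxiliary prime `r = 3`, degree `4`. -/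
theorem t3Desc2Neat_of_finDown (hFD : FinDownStatement) (h4 : Q4NeatThreeStatement) :
    Fermat.Agent.S59.LOQ.H849.T3Desc2NeatStatement := by
  intro M' _ _ h2M h3M hn
  have hM0 : M' ≠ 0 := NeZero.ne M'
  haveI : NeZero (3 * M') := ⟨Nat.mul_ne_zero (by norm_num) hM0⟩
  haveI : NeZero (2 * (3 * M')) := ⟨Nat.mul_ne_zero (by norm_num) (NeZero.ne (3 * M'))⟩
  have hq : Nat.Prime 2 := Nat.prime_two
  have hr : Nat.Prime 3 := Nat.prime_three
  have hqN : ¬ 2 ∣ 3 * M' := not_dvd_mul_of_ne hq hr (by norm_num) h2M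
  have hn' : Neat3 2 (3 * M') := by
    rcases hn with h | ⟨r, hr', hr2, hrq, hrM⟩
    · exact Or.inl h
    · exact Or.inr ⟨r, hr', hr2, hrq, Dvd.dvd.mul_left hrM 3⟩
  refine targetsAt_of_finDown hFD 3 2 3 M' hr hq (by norm_num) hr (by norm_num) h2M h3M
    (by norm_num) ?_
  intro A hA
  exact h4 2 (3 * M') hq (by norm_num) hqN
    ⟨fun h => absurd h (by norm_num), fun _ => Dvd.intro M' rfl⟩ hn' A hA

end Fermat.Agent.S59.LOQ.H213

end

end
-- ===== PACK-END S59/LOQ/H213/Desc.lean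

-- ===== PACK-BEGIN S59/LOQ/H213/Closed2.lean
section



/-!
# Row S59, cell (B1) = LO-Q from its TWO open leaves  (sub-architect helper213)

    mazurW35_of_finDown_q4 : FinDownStatement → Q4NeatThreeStatement → LOW.MazurW35Statement

* `FinDownStatement` (FIN-DOWN along `H672.neatPullR`, degree `r + 1` prime to `p`);
* `Q4NeatThreeStatement` ((Q4) TAME for `finPartQ` at `p = 3`, neat levels with the auxiliary
  prime: the unit of exponent prime to `3`).

Everything else of LO-Q is plugged (see `Closed.lean`, `Desc.lean`).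
-/

set_option autoImplicit false

namespace Fermat.Agent.S59.LOQ.H213

/-- **LO-Q from FIN-DOWN and Q4-NEAT-3.** -/
theorem mazurW35_of_finDown_q4 (hFD : FinDownStatement) (h4 : Q4NeatThreeStatement) :
    Fermat.Agent.S59.Arch.LOW.MazurW35Statement :=
  mazurW35_of_open (t5Desc3_of_finDown hFD) (t5Desc2_of_finDown hFD) (t3Neat_of_q4 h4)
    (t3Desc2Neat_of_finDown hFD h4)

end Fermat.Agent.S59.LOQ.H213

end
-- ===== PACK-END S59/LOQ/H213/Closed2.lean

-- ===== PACK-BEGIN Ribet/H698/TameGen.lean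
section


/-!
# S59 gate / RIBET wall at `p = 3`: TAME with an ABSTRACT unit pair (helper698)

`H912.tameLevel` / `H912.tameCore` use THE modular unit `Δ(t)/Δ(t^q)` (pair exponent `12`), hence
`Nat.Coprime 12 m`: the only essential use of `5 ≤ p` in the TAME leaf.  Here the unit pair is an
INPUT (`UnitPairGen`): at the level `E`, for every uniformiser and both cuts of the chart of
`x = j · j_q`, a pair `D · D' = w ^ Nn` with `Nn` prime to the exponent `m`, `D ∉ 𝔭₁`, `D' ∉ 𝔭₂`,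
and `Q D` (`Q` = any property of the first member, e.g. its `t`-expansion).

* `tameLevel_gen` : purity of the calibrated function `y ^ Nn · D ^ (v₁ - v₂) · w ^ (- Nn v₁)`
  at every closed point of the special fibre of the finite chart, at ANY good level `E`
  (no ramification hypothesis: the exponent of the pair is abstract);
* `tameCore_gen`  : two-prime form (`q` residue prime, `m` exponent, `q = m` allowed): a class
  `x ∈ J₀(q M)[m]` fixed by inertia has a Kummer generator `f` with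
  `G · Dg ^ b = f ^ n · Dg ^ a`, `n` prime to `m`, `Dg = ι D₁`, `Q D₁`, and `G` has `NodeGen` shape.

Proof = `H912` verbatim with `12 ↦ Nn` (`H868.pureAt_tame` is generic in the exponent).
-/

set_option autoImplicit false
set_option linter.style.haveILetI false
set_option linter.unusedSectionVars false
set_option linter.unusedVariables false
set_option synthInstance.maxHeartbeats 400000
set_option maxHeartbeats 1600000

noncomputable section

namespace Fermat.Agent.Ribet.H698.TameGen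

open ModularCurve AlgebraicCurve HahnSeries
open Fermat.Agent.A2 Fermat.Agent.A2.Alg Fermat.Agent.A2.T1.H669
open Fermat.Agent.S24 Fermat.Agent.A2.H708
open Fermat.Agent.Ribet.H884

section Level

variable (A : ValuationSubring Kbar) (E : IntermediateField ℚ Kbar) (M q : ℕ) [NeZero M] [NeZero q]

/-- **Abstract UNIT input** at the level `E`, exponent `m`: for every uniformiser and both cuts
of the chart of `xE`, a pair `D · D' = w ^ Nn` with `0 < Nn` prime to `m`, `D ∉ 𝔭₁`, `D' ∉ 𝔭₂`,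
and `Q D`. -/
def UnitPairGen (m : ℕ) (Q : Mod.FE E (M * q) → Prop) : Prop :=
  ∀ (w : Mod.RE A E), Mod.Setting A E M q w →
    ∀ (V : ValuationSubring (Mod.FE E (M * q)))
      (W : Mod.FE E (M * q) ≃ₐ[E] Mod.FE E (M * q)),
      Mod.IsVinf A E (M * q) V → Mod.IsFricke E (M * q) W →
      ∀ p₁ p₂ : Ideal (Mod.chartAlg A E (M * q) (Mod.xE E M q)),
        Mod.IsCut A E (M * q) w V (Mod.chartAlg A E (M * q) (Mod.xE E M q)) p₁ →
        Mod.IsCut A E (M * q) w (V.comap (W : Mod.FE E (M * q) →+* Mod.FE E (M * q)))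
          (Mod.chartAlg A E (M * q) (Mod.xE E M q)) p₂ →
        ∃ (Nn : ℕ) (D D' : Mod.chartAlg A E (M * q) (Mod.xE E M q)), 0 < Nn ∧
          Nat.Coprime Nn m ∧
          D * D' =
            algebraMap (Mod.RE A E) (Mod.chartAlg A E (M * q) (Mod.xE E M q)) w ^ Nn ∧
          D ∉ p₁ ∧ D' ∉ p₂ ∧ Q (D : Mod.FE E (M * q))

/-- **TAME at a good level, abstract unit pair** (two-prime form). -/
theorem tameLevel_gen (hq : q.Prime) (hqM : ¬ q ∣ M) (haux : Fermat.Agent.S35.G.HasAux M q)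
    (hA : A.LiesOverPrime q) (hE : GoodField A E)
    (m : ℕ) (hm : 0 < m) (Q : Mod.FE E (M * q) → Prop) (hUnit : UnitPairGen A E M q m Q)
    (y : Mod.FE E (M * q)) (hy : y ≠ 0) (hdiv : DivisibleDiv E m y) :
    ∃ (w : Mod.RE A E) (D₁ : Mod.FE E (M * q)) (Nn : ℕ) (v₁ v₂ : ℤ),
      Mod.Setting A E M q w ∧ D₁ ≠ 0 ∧ Q D₁ ∧ 0 < Nn ∧ Nat.Coprime Nn m ∧
      ∀ n : Ideal (Mod.chartAlg A E (M * q) (Mod.xE E M q)), n.IsMaximal →
        algebraMap (Mod.RE A E) (Mod.chartAlg A E (M * q) (Mod.xE E M q)) w ∈ n →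
        ∃ (d : Mod.FE E (M * q)) (a : ℤ), d ≠ 0 ∧
          Alg.LocUnit (Mod.chartAlg A E (M * q) (Mod.xE E M q)) n
            ((y ^ Nn * D₁ ^ (v₁ - v₂) * Mod.cE A E (M * q) w ^ (-(Nn : ℤ) * v₁)) *
              Mod.cE A E (M * q) w ^ a * d ^ m) := by
  haveI : IsDiscreteValuationRing ↥(RE A E) := hE.dvr
  haveI : HenselianLocalRing ↥(RE A E) := hE.henselian
  haveI : IsAlgClosed (IsLocalRing.ResidueField ↥(RE A E)) := hE.algClosed
  obtain ⟨w, hw⟩ := IsDiscreteValuationRing.exists_irreducible ↥(RE A E)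
  have hS : Mod.Setting A E M q w :=
    { q_prime := hq
      q_not_dvd := hqM
      M_ne_zero := NeZero.ne M
      lies_over := hA
      dvr := hE.dvr
      unif := hw }
  obtain ⟨V, W, VM, hV, hW, hVM, hg1, hg2, hDeg, sf, si, cf, ci, hcf, hci⟩ :=
    Fermat.Agent.S35.G.H862.model A E M q w hS hE haux
  obtain ⟨hx, hfr, hconst⟩ := hDeg hq hqM
  have hpos : 0 < Module.finrank
      (IntermediateField.adjoin E ({Mod.xE E M q} : Set (Mod.FE E (M * q))))
      (Mod.FE E (M * q)) := by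
    rw [hfr]
    have h1 := Mod.dedekindPsi_pos_of_ne_zero M (NeZero.ne M)
    positivity
  have hfin : FiniteDimensional
      (IntermediateField.adjoin E ({Mod.xE E M q} : Set (Mod.FE E (M * q))))
      (Mod.FE E (M * q)) := Module.finite_of_finrank_pos hpos
  have hCf : ChartCtx E w (Mod.xE E M q) (Mod.chartAlg A E (M * q) (Mod.xE E M q)) :=
    ⟨hw, hx, hfin, hconst, fun _ => Iff.rfl⟩
  -- the unit pair
  obtain ⟨Nn, D, D', hNn, hcop, hmul, hD, hD', hQ⟩ :=
    hUnit w hS V W hV hW cf.p₁ cf.p₂ (fun b => hcf.cut₁ b) (fun b => hcf.cut₂ b)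
  -- valuations along the two components
  obtain ⟨v₁, v₂, hv₁, hv₂⟩ := Fermat.Agent.Ribet.H868.exists_valAt_chart (E := E) w
    (Mod.xE E M q) (Mod.chartAlg A E (M * q) (Mod.xE E M q)) hCf cf y hy
  have hD0 : (D : Mod.FE E (M * q)) ≠ 0 := by
    intro h0
    have : D = 0 := Subtype.ext h0
    exact hD (this ▸ cf.p₁.zero_mem)
  refine ⟨w, (D : Mod.FE E (M * q)), Nn, v₁, v₂, hS, hD0, hQ, hNn, hcop, ?_⟩
  intro n hn hwn
  obtain ⟨d, hd0, hloc, -, -⟩ := Fermat.Agent.Ribet.H868.pureAt_tame (E := E) m Nn hm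
    hNn hcop w (Mod.xE E M q) (Mod.chartAlg A E (M * q) (Mod.xE E M q)) hCf cf
    D D' hmul hD hD' y hy hdiv v₁ v₂ hv₁ hv₂ n hn.isPrime hwn
  refine ⟨d, 0, hd0, ?_⟩
  rw [zpow_zero, mul_one]
  exact hloc

/-- Sanity / the case `p ≥ 5`: at an UNRAMIFIED good level the pair of `H464` (`Δ(t)/Δ(t^q)`,
exponent `12`) is a `UnitPairGen` for every exponent `m` prime to `12`. -/
theorem unitPairGen_twelve (hq : q.Prime) (hA : A.LiesOverPrime q) (hE : GoodField A E)
    (hunr : ∀ e : E, (e : Kbar) ∈ A.nonunits → (e : Kbar) * ((q : Kbar))⁻¹ ∈ A)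
    (m : ℕ) (hcop : Nat.Coprime 12 m) :
    UnitPairGen A E M q m (fun D =>
      ((D : Mod.FE E (M * q)) : LaurentSeries E) =
        Fermat.Agent.S36.H438.castE E (Fermat.Agent.S28.H589.unitL' q)) := by
  intro w hS V W hV hW p₁ p₂ hc₁ hc₂
  haveI : IsDiscreteValuationRing ↥(RE A E) := hE.dvr
  obtain ⟨e, D, D', he, hass, hmul, hD, hD', hexp⟩ :=
    Fermat.Agent.Ribet.H464.exists_unitPair_cut_exp464 hS hV hW p₁ p₂ hc₁ hc₂
  have he1 : e = 1 := Fermat.Agent.Ribet.H464.pow_eq_of_associated464 hS.unif hass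
    (Fermat.Agent.Ribet.H912.associated_natCast_of_unramified hq hA hE.dvr hunr hS.unif)
  subst he1
  rw [mul_one] at hmul
  exact ⟨12, D, D', by norm_num, hcop, hmul, hD, hD', hexp⟩

end Level

/-! ### the core -/

section Core

/-- Changing the name of the level of a function over `ℚ̄`. -/
theorem exists_cast_FF {N N' : ℕ} [NeZero N] [NeZero N'] (h : N = N') (z : FF N) :
    ∃ z' : FF N', (z' : LaurentSeries Kbar) = (z : LaurentSeries Kbar) := by
  subst h
  exact ⟨z, rfl⟩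

variable (q M m : ℕ) [NeZero M] [NeZero q] [NeZero (q * M)]

/-- **TAME-FIXED / CORE-OUT-q, two-prime form, abstract unit pair**, at a level `E` which is
the inertia field of `A`. -/
theorem tameCore_gen_aux (hq : q.Prime) (hqM : ¬ q ∣ M) (haux : Fermat.Agent.S35.G.HasAux M q)
    (hm : 0 < m)
    (A : ValuationSubring Kbar) (hA : A.LiesOverPrime q)
    (E : IntermediateField ℚ Kbar)
    (hEq : E = IntermediateField.fixedField (A.inertiaSubgroupIn ℚ))
    (hE : GoodField A E)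
    (Q : Mod.FE E (M * q) → Prop)
    (hUnit : UnitPairGen A E M q m Q)
    (x : JZero (q * M)) (hx : m • x = 0)
    (hfix : ∀ σ ∈ A.inertiaSubgroupIn ℚ, σ • x = x) :
    ∃ (f G Dg : FF (q * M)) (D₁ : Mod.FE E (M * q))
      (n a b : ℕ), IsKummerGen (q * M) m f x ∧ Q D₁ ∧
      (Dg : LaurentSeries Kbar) =
        coeffMap (algebraMap E Kbar) (D₁ : LaurentSeries E) ∧
      Dg ≠ 0 ∧ 0 < n ∧ Nat.Coprime n m ∧
      G * Dg ^ b = f ^ n * Dg ^ a ∧
      ∃ r₁ r₂ : LaurentSeries (kA A), IsRedInf (q * M) A G r₁ ∧ IsRedZero (q * M) A G r₂ ∧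
        PDivFin m M r₁ ∧ PDivFin m M r₂ := by
  classical
  haveI hPD : HasPrincipalDivisors Kbar ↥(modularFunctionFieldBar (q * M)) :=
    Fermat.Agent.Lib.RR.H864.hasPrincipalDivisors_modularFunctionFieldBar (q * M)
  have hconst : Fermat.Agent.S36.H756.ConstOfOrdZero Kbar ↥(modularFunctionFieldBar (q * M)) := by
    intro u hu h
    obtain ⟨c, hc⟩ :=
      Fermat.Agent.S18.H144.constOfOrdZero_modularFunctionFieldBar (q * M) u hu h
    exact ⟨c, hc.symm⟩
  -- 1. DESC
  obtain ⟨D₀, f, hf0, hDx, hfD, hffix⟩ :=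
    Fermat.Agent.S36.H756.exists_fixed_kummer_rep (F₀ := modularFunctionFieldFull (q * M))
      hconst (A.inertiaSubgroupIn ℚ) m x hx hfix
  -- 2. descent to the inertia field
  obtain ⟨y, hy⟩ : ∃ y : ↥(laurentBaseChange E (modularFunctionFieldFull (q * M))),
      iota E (modularFunctionFieldFull (q * M)) y = f := by
    subst hEq
    exact Fermat.Agent.S36.H756.exists_iota_eq_of_fixed (A.inertiaSubgroupIn ℚ) f hffix
  -- the level `M * q`
  obtain ⟨y', hy'⟩ := Fermat.Agent.Ribet.H912.exists_cast_level E (Nat.mul_comm q M) y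
  have hfy : (f : LaurentSeries Kbar) = coeffMap (algebraMap E Kbar) (y : LaurentSeries E) := by
    rw [← hy]
    rfl
  have hy'0 : y' ≠ 0 := by
    rintro rfl
    apply hf0
    apply Subtype.ext
    rw [hfy, ← hy']
    show coeffMap (algebraMap E Kbar) (0 : LaurentSeries E) = 0
    rw [map_zero]
  have hdiv : DivisibleDiv E m y' := by
    refine divisibleDiv_of_ord E (modularFunctionFieldFull (M * q)) m y' hy'0 ?_
    refine Fermat.Agent.Ribet.H912.dvd_ord_cast (Nat.mul_comm q M) m f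
      (iota E (modularFunctionFieldFull (M * q)) y') ?_ (fun v => ⟨_, hfD v⟩)
    rw [coe_iota, hy', hfy]
  -- 3. LEVEL
  obtain ⟨w, D₁, Nn, v₁, v₂, hS, hD₁0, hQ, hNn, hcop, hpure⟩ :=
    tameLevel_gen A E M q hq hqM haux hA hE m hm Q hUnit y' hy'0 hdiv
  haveI : IsDiscreteValuationRing ↥(RE A E) := hE.dvr
  have hw0 : (w : E) ≠ 0 := fun h => hS.unif.ne_zero (Subtype.ext h)
  have hcw0 : Mod.cE A E (M * q) w ≠ 0 := by
    show algebraMap E (Mod.FE E (M * q)) (w : E) ≠ 0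
    rw [Ne, map_eq_zero]
    exact hw0
  set GE : Mod.FE E (M * q) :=
    y' ^ Nn * D₁ ^ (v₁ - v₂) * Mod.cE A E (M * q) w ^ (-(Nn : ℤ) * v₁) with hGE
  have hGE0 : GE ≠ 0 :=
    mul_ne_zero (mul_ne_zero (pow_ne_zero _ hy'0) (zpow_ne_zero _ hD₁0)) (zpow_ne_zero _ hcw0)
  -- the objects over `ℚ̄`
  haveI : NeZero (M * q) := ⟨by rw [Nat.mul_comm]; exact NeZero.ne (q * M)⟩
  obtain ⟨Dg, hDg⟩ := exists_cast_FF (Nat.mul_comm M q)
    (iota E (modularFunctionFieldFull (M * q)) D₁)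
  have hDgc : (Dg : LaurentSeries Kbar) = coeffMap (algebraMap E Kbar) (D₁ : LaurentSeries E) := by
    rw [hDg]
    rfl
  have hDg0 : Dg ≠ 0 := by
    intro h
    apply hD₁0
    have h0 : coeffMap (algebraMap E Kbar) (D₁ : LaurentSeries E) = 0 := by
      rw [← hDgc, h]
      rfl
    have h1 : (D₁ : LaurentSeries E) = 0 :=
      (map_eq_zero (coeffMap (algebraMap E Kbar))).mp h0
    exact Subtype.ext h1
  set c : Kbar := ((w : E) : Kbar) with hc
  have hc0 : c ≠ 0 := by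
    intro h
    exact hw0 (Subtype.ext h)
  set f'' : FF (q * M) := algebraMap Kbar (FF (q * M)) (c ^ (-v₁)) * f with hf''
  have hcc0 : algebraMap Kbar (FF (q * M)) (c ^ (-v₁)) ≠ 0 := by
    rw [Ne, map_eq_zero]
    exact zpow_ne_zero _ hc0
  have hf''0 : f'' ≠ 0 := mul_ne_zero hcc0 hf0
  set G : FF (q * M) := f'' ^ Nn * Dg ^ (v₁ - v₂) with hG
  -- the expansion of `G`
  have hGG : (G : LaurentSeries Kbar) = coeffMap (algebraMap E Kbar) (GE : LaurentSeries E) := by
    set φ : Mod.FE E (M * q) →+* LaurentSeries Kbar :=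
      (algebraMap ↥(modularFunctionFieldBar (M * q)) (LaurentSeries Kbar)).comp
        (iota E (modularFunctionFieldFull (M * q))) with hφ
    set χ : FF (q * M) →+* LaurentSeries Kbar :=
      algebraMap ↥(modularFunctionFieldBar (q * M)) (LaurentSeries Kbar) with hχ
    have hφv : ∀ z : Mod.FE E (M * q),
        φ z = coeffMap (algebraMap E Kbar) (z : LaurentSeries E) := fun z => rfl
    have hχv : ∀ z : FF (q * M), χ z = (z : LaurentSeries Kbar) := fun z => rfl
    have e1 : φ y' = χ f := by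
      rw [hφv, hχv, hy', hfy]
    have e2 : φ D₁ = χ Dg := by
      rw [hφv, hχv, hDgc]
    have e3 : φ (Mod.cE A E (M * q) w) = algebraMap Kbar (LaurentSeries Kbar) c := by
      rw [hφv]
      exact Fermat.Agent.S18.H602.coeffMap_algebraMap' (algebraMap E Kbar) (w : E)
    have e4 : χ (algebraMap Kbar (FF (q * M)) (c ^ (-v₁))) =
        (algebraMap Kbar (LaurentSeries Kbar) c) ^ (-v₁) := by
      rw [hχv, ← map_zpow₀]
      rfl
    have hχG : χ G = ((algebraMap Kbar (LaurentSeries Kbar) c) ^ (-v₁) * χ f) ^ Nn *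
        (χ Dg) ^ (v₁ - v₂) := by
      rw [hG, hf'', map_mul, map_pow, map_mul, e4, map_zpow₀]
    have hφG : φ GE = (χ f) ^ Nn * (χ Dg) ^ (v₁ - v₂) *
        (algebraMap Kbar (LaurentSeries Kbar) c) ^ (-(Nn : ℤ) * v₁) := by
      rw [hGE, map_mul, map_mul, map_pow, map_zpow₀, map_zpow₀, e1, e2, e3]
    have e5 : -v₁ * (Nn : ℤ) = -(Nn : ℤ) * v₁ := by ring
    rw [← hφv GE, ← hχv G, hχG, hφG, mul_pow,
      ← zpow_natCast ((algebraMap Kbar (LaurentSeries Kbar) c) ^ (-v₁)) Nn, ← zpow_mul, e5]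
    ring
  -- 4. DICT
  have hNG := Fermat.Agent.Ribet.H472.nodeGenOfPure hS hE m GE G hGE0 hGG hpure
  -- 5. the Kummer generator and the relation
  have hK : IsKummerGen (q * M) m f'' x := by
    refine ⟨hf''0, D₀, hDx, fun v => ?_⟩
    rw [hf'', v.ord_mul hcc0 hf0, Fermat.Agent.S36.H756.ord_const_eq_zero, zero_add, hfD v]
  refine ⟨f'', G, Dg, D₁, Nn, (v₁ - v₂).toNat, (-(v₁ - v₂)).toNat, hK, hQ, hDgc, hDg0, hNn, hcop,
    ?_, hNG⟩
  have hk : (v₁ - v₂) + ((-(v₁ - v₂)).toNat : ℤ) = ((v₁ - v₂).toNat : ℤ) := by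
    have := Int.toNat_sub_toNat_neg (v₁ - v₂)
    omega
  rw [hG, mul_assoc, ← zpow_natCast Dg (-(v₁ - v₂)).toNat, ← zpow_add₀ hDg0, hk, zpow_natCast]

/-- **TAME-FIXED / CORE-OUT-q, two-prime form, abstract unit pair.**  The level is the inertia
field of `A` (an unramified good level: `S36.Eng.H189.unramified_inertiaField`). -/
theorem tameCore_gen (hq : q.Prime) (hqM : ¬ q ∣ M) (haux : Fermat.Agent.S35.G.HasAux M q)
    (hm : 0 < m)
    (A : ValuationSubring Kbar) (hA : A.LiesOverPrime q)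
    (Q : Mod.FE (IntermediateField.fixedField (A.inertiaSubgroupIn ℚ)) (M * q) → Prop)
    (hUnit : UnitPairGen A (IntermediateField.fixedField (A.inertiaSubgroupIn ℚ)) M q m Q)
    (x : JZero (q * M)) (hx : m • x = 0)
    (hfix : ∀ σ ∈ A.inertiaSubgroupIn ℚ, σ • x = x) :
    ∃ (f G Dg : FF (q * M))
      (D₁ : Mod.FE (IntermediateField.fixedField (A.inertiaSubgroupIn ℚ)) (M * q))
      (n a b : ℕ), IsKummerGen (q * M) m f x ∧ Q D₁ ∧
      (Dg : LaurentSeries Kbar) =
        coeffMap (algebraMap (IntermediateField.fixedField (A.inertiaSubgroupIn ℚ)) Kbar)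
          (D₁ : LaurentSeries (IntermediateField.fixedField (A.inertiaSubgroupIn ℚ))) ∧
      Dg ≠ 0 ∧ 0 < n ∧ Nat.Coprime n m ∧
      G * Dg ^ b = f ^ n * Dg ^ a ∧
      ∃ r₁ r₂ : LaurentSeries (kA A), IsRedInf (q * M) A G r₁ ∧ IsRedZero (q * M) A G r₂ ∧
        PDivFin m M r₁ ∧ PDivFin m M r₂ :=
  tameCore_gen_aux q M m hq hqM haux hm A hA _ rfl
    (Fermat.Agent.S36.Eng.H189.unramified_inertiaField q hq A hA).1 Q hUnit x hx hfix

end Core

end Fermat.Agent.Ribet.H698.TameGen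

end

end
-- ===== PACK-END Ribet/H698/TameGen.lean

-- ===== PACK-BEGIN S59/UnitQR/H464/QRGen.lean
section





/-!
# S59 / cell B1 (LO-Q), cell T3-NEAT: target (Q4) at `p = 3` at the NEAT levels  (helper464)

Assembly of
* UNIT-QR (`muQR_package`, `exists_unitPair_cutQR`: the unit `v = (η₁η_r/(η_qη_{qr}))⁸`,
  exponent `8`),
* TAME with an abstract unit pair (helper698 `H698.TameGen.tameCore_gen`),
* UNIT-EIS for η-quotients (helper37 `unitEis_shapeQR`),
* the EIS-q glue with an abstract unit (`Q4U.lean`), HECKE-FUN / HECKE-NODE-q / RED / CUSP-q of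
  main.

* `unitPairGen_QR`    : the `H698.TameGen.UnitPairGen` input for every exponent `m` prime to `8`;
* `isEisSeries_vQR`   : `v` is an Eisenstein eigenfunction off `q r`;
* `slopePropQMU_vQR`  : CORE-OUT-q in the `U`-form, any `m`-torsion class fixed by inertia,
                        `m` prime to `8`;
* `q4For_of_qrAdm`    : `(Q4)` at `(p, q, M')`, any odd prime `p ≠ q`, `r ∣ M'`;
* `q4For_three_neat`  : `(Q4)` at `p = 3`, `q ≠ 3`, `(q = 2 → 3 ∣ M')`, level neat at `q`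
                        (`q ≡ 1 mod 3`, or a prime `r ≡ 2 mod 3`, `r ≠ q`, divides `M'`).
-/

set_option autoImplicit false
set_option synthInstance.maxHeartbeats 400000
set_option maxHeartbeats 1600000
set_option linter.unusedSectionVars false
set_option linter.style.haveILetI false

noncomputable section

namespace Fermat.Agent.S59.UnitQR.H464

open ModularCurve AlgebraicCurve HahnSeries
open Fermat.Agent.A2 Fermat.Agent.A2.Alg Fermat.Agent.A2.T1.H669
open Fermat.Agent.S24 Fermat.Agent.A2.H708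
open Fermat.Agent.Ribet.H884 Fermat.Agent.Ribet.Spec Fermat.Agent.Ribet.H944.Wall
open Fermat.Agent.Ribet.H158.WallQ
open Fermat.Agent.S36.H438 (castE)

section Gen

variable (A : ValuationSubring Kbar) (E : IntermediateField ℚ Kbar) (M q r : ℕ)
  [NeZero M] [NeZero q] [NeZero r]

/-- **UNIT input of TAME for the unit `v`**: at an UNRAMIFIED good level the pair
`D = v`, `D' = q⁸ v⁻¹` is a `UnitPairGen` for every exponent `m` prime to `8`. -/
theorem unitPairGen_QR (hq : q.Prime) (hA : A.LiesOverPrime q) (hE : GoodField A E)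
    (hunr : ∀ e : E, (e : Kbar) ∈ A.nonunits → (e : Kbar) * ((q : Kbar))⁻¹ ∈ A)
    (hr : r.Prime ∨ r = 1) (h : QRAdm q r) (hrM : r ∣ M)
    (m : ℕ) (hcop : Nat.Coprime 8 m) :
    Fermat.Agent.Ribet.H698.TameGen.UnitPairGen A E M q m (fun D =>
      ((D : Mod.FE E (M * q)) : LaurentSeries E) = castE E (vQRL q r)) := by
  intro w hS V W hV hW p₁ p₂ hc₁ hc₂
  haveI : IsDiscreteValuationRing ↥(RE A E) := hE.dvr
  obtain ⟨e, D, D', he, hass, hmul, hD, hD', hexp⟩ :=
    exists_unitPair_cutQR hS hr h hrM hV hW p₁ p₂ hc₁ hc₂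
  have he1 : e = 1 := Fermat.Agent.Ribet.H464.pow_eq_of_associated464 hS.unif hass
    (Fermat.Agent.Ribet.H912.associated_natCast_of_unramified hq hA hE.dvr hunr hS.unif)
  subst he1
  rw [mul_one] at hmul
  exact ⟨8, D, D', by norm_num, hcop, hmul, hD, hD', hexp⟩

end Gen

section Eis

variable (q r : ℕ) [NeZero q] [NeZero r]

/-- The expansion of `v` over `ℚ̄`. -/
def vQRbar : LaurentSeries Kbar := coeffMap (Int.castRingHom Kbar) (vQRL q r)

/-- **UNIT-EIS for `v`**: `kronNorm ℓ v = c · v^(ℓ+1)` for every prime `ℓ ∤ q r`. -/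
theorem isEisSeries_vQR : IsEisSeries (q * r).primeFactors (vQRbar q r) := by
  intro ℓ _ hℓ
  have hqr0 : q * r ≠ 0 := mul_ne_zero (NeZero.ne q) (NeZero.ne r)
  have hℓqr : ¬ (ℓ : ℕ) ∣ q * r := fun hd =>
    hℓ (Nat.mem_primeFactors.mpr ⟨ℓ.2, hd, hqr0⟩)
  have hℓq : ¬ (ℓ : ℕ) ∣ q := fun hd => hℓqr (dvd_mul_of_dvd_left hd r)
  have hℓr : ¬ (ℓ : ℕ) ∣ r := fun hd => hℓqr (dvd_mul_of_dvd_right hd q)
  exact Fermat.Agent.S59.Unit3.H37.unitEis_shapeQR (L := Kbar) ℓ q r hℓq hℓr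
    (-(expQR q r : ℤ)) 8 Fermat.Agent.S59.Unit3.H461.etaProd_mul_etaInvP (vQRL q r) rfl

end Eis

section CoreOut

variable (q M m r : ℕ) [NeZero M] [NeZero q] [NeZero (q * M)] [NeZero r]

/-- **CORE-OUT-q in the `U`-form** for the unit `v`: an `m`-torsion class of `J₀(qM)` fixed by
inertia at `A` has slopes proportional to those of `v`, for every `m > 0` prime to `8`. -/
theorem slopePropQMU_vQR (hq : q.Prime) (hqM : ¬ q ∣ M)
    (haux : Fermat.Agent.S35.G.HasAux M q) (hm : 0 < m) (hcop : Nat.Coprime 8 m)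
    (hr : r.Prime ∨ r = 1) (h : QRAdm q r) (hrM : r ∣ M)
    (A : ValuationSubring Kbar) (hA : A.LiesOverPrime q)
    (x : JZero (q * M)) (hx : m • x = 0)
    (hfix : ∀ σ ∈ A.inertiaSubgroupIn ℚ, σ • x = x) :
    SlopePropQMU m q M A (vQRbar q r) x := by
  obtain ⟨hE, hunr⟩ := Fermat.Agent.S36.Eng.H189.unramified_inertiaField q hq A hA
  have hUnit := unitPairGen_QR A (IntermediateField.fixedField (A.inertiaSubgroupIn ℚ)) M q r
    hq hA hE hunr hr h hrM m hcop
  obtain ⟨f, G, Dg, D₁, n, a, b, hK, hQ, hDg, hDg0, hn, hnm, hrel, hNG⟩ :=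
    Fermat.Agent.Ribet.H698.TameGen.tameCore_gen q M m hq hqM haux hm A hA _ hUnit x hx hfix
  refine ⟨f, Dg, G, n, a, b, hK, ?_, hDg0, hn.ne', hnm, hrel, hNG⟩
  rw [hDg, hQ]
  exact Fermat.Agent.S36.H438.coeffMap_castE _ (vQRL q r)

end CoreOut

section Q4

variable (p q M' r : ℕ) [NeZero M'] [NeZero q] [NeZero (q * M')] [NeZero r]

/-- **(Q4) with the unit `v`**: any odd prime `p ≠ q`, level with the auxiliary prime for `q`,
`(q, r)` admissible, `r ∣ M'`. -/
theorem q4For_of_qrAdm (hp : p.Prime) (hp2 : p ≠ 2) (hq : q.Prime) (hqp : q ≠ p)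
    (hqM : ¬ q ∣ M') (hAux : Fermat.Agent.S35.G.HasAux M' q)
    (hr : r.Prime ∨ r = 1) (h : QRAdm q r) (hrM : r ∣ M')
    (A : ValuationSubring Kbar) (hA : A.LiesOverPrime q) :
    Q4For p q M' A (finPartQ p q M' A) := by
  have hcop : Nat.Coprime 8 p := by
    have h2 : Nat.Coprime 2 p :=
      (Nat.coprime_primes Nat.prime_two hp).mpr (fun e => hp2 e.symm)
    have : (8 : ℕ) = 2 ^ 3 := by norm_num
    rw [this]
    exact Nat.Coprime.pow_left 3 h2
  refine q4For_of_slopePropQMU p q M' hp hq hqp hqM hAux A hA ?_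
  intro S a x hx _ hfix
  exact ⟨(q * r).primeFactors, vQRbar q r, isEisSeries_vQR q r,
    slopePropQMU_vQR q M' p r hq hqM hAux hp.pos hcop hr h hrM A hA x hx.1 hfix⟩

end Q4

/-- **Cell T3-NEAT, target (Q4)**: `p = 3`, `q ≠ 3` prime, `q ∤ M'`, `(q = 2 → 3 ∣ M')`, and the
level is neat at `q`: `q ≡ 1 mod 3`, or a prime `r ≡ 2 mod 3`, `r ≠ q`, divides `M'`. -/
theorem q4For_three_neat (q M' : ℕ) [NeZero M'] [NeZero q] [NeZero (q * M')]
    (hq : q.Prime) (hq3 : q ≠ 3) (hqM : ¬ q ∣ M') (h2 : q = 2 → 3 ∣ M')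
    (hneat : q % 3 = 1 ∨ ∃ r : ℕ, r.Prime ∧ r % 3 = 2 ∧ r ≠ q ∧ r ∣ M')
    (A : ValuationSubring Kbar) (hA : A.LiesOverPrime q) :
    Q4For 3 q M' A (finPartQ 3 q M' A) := by
  have hAux : Fermat.Agent.S35.G.HasAux M' q := ⟨fun e => absurd e hq3, h2⟩
  have hq3' : ¬ 3 ∣ q := fun hd =>
    hq3 ((Nat.prime_dvd_prime_iff_eq Nat.prime_three hq).mp hd).symm
  rcases hneat with h1 | ⟨r, hr, hr2, -, hrM⟩
  · exact q4For_of_qrAdm 3 q M' 1 Nat.prime_three (by norm_num) hq hq3 hqM hAux (Or.inr rfl)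
      (QRAdm.of_q h1 (by norm_num)) (one_dvd M') A hA
  · haveI : NeZero r := ⟨hr.ne_zero⟩
    exact q4For_of_qrAdm 3 q M' r Nat.prime_three (by norm_num) hq hq3 hqM hAux (Or.inl hr)
      (QRAdm.of_r hq3' hr2) hrM A hA

end Fermat.Agent.S59.UnitQR.H464

end
end
-- ===== PACK-END S59/UnitQR/H464/QRGen.lean

-- ===== PACK-BEGIN S59/LOQ/H213/Closed3.lean
section





/-!
# Row S59, cell (B1) = LO-Q: CLOSED  (sub-architect helper213)

    mazurW35 : Fermat.Agent.S59.Arch.LOW.MazurW35Statement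

Mazur's principle in `W`-form at `p ∈ {3, 5}`: `Closed2.mazurW35_of_finDown_q4` with its two
leaves plugged:

* FIN-DOWN = `H732.FinDown.finDown_of_kummerPull732` (helper732, function-level core) applied to
  `π = H672.NeatPull.neatPullR` with KUM-PULL `H672.NeatPull.exists_kummerGen_neatPullR`
  (helper672);
* Q4-NEAT-3 = `H464.q4For_three_neat` (helper464: UNIT-QR + TAME with an abstract unit, helper698
  + UNIT-EIS, helper37 + EIS-q glue).
-/

set_option autoImplicit false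
set_option linter.style.haveILetI false
set_option synthInstance.maxHeartbeats 400000
set_option maxHeartbeats 1000000

namespace Fermat.Agent.S59.LOQ.H213

open Fermat.Agent.S59.H672.NeatPull (neatPullR)

/-- **FIN-DOWN**, unconditional. -/
theorem finDown_h213 : FinDownStatement := by
  intro p q r M' _ _ _ _ _ _ hp hq hqp hr hrq hqM hrM hcop A hA x hpx hx
  refine Fermat.Agent.Ribet.H732.FinDown.finDown_of_kummerPull732 hq hr (Ne.symm hrq) hqM hrM
    hcop hA (fun y => neatPullR q r M' y) ?_ x hpx hx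
  intro y f hK
  obtain ⟨f', hf', hK'⟩ := Fermat.Agent.S59.H672.NeatPull.exists_kummerGen_neatPullR p q r M' hK
  exact ⟨f', hK', Or.inl hf'⟩

/-- **Q4-NEAT-3**, unconditional. -/
theorem q4NeatThree_h213 : Q4NeatThreeStatement :=
  fun q M' _ _ _ hq hq3 hqM haux hn A hA =>
    Fermat.Agent.S59.UnitQR.H464.q4For_three_neat q M' hq hq3 hqM haux.2 hn A hA

/-- **Cell (B1) = LO-Q: Mazur's principle in `W`-form at `p ∈ {3, 5}`**, unconditional. -/
theorem mazurW35 : Fermat.Agent.S59.Arch.LOW.MazurW35Statement :=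
  mazurW35_of_finDown_q4 finDown_h213 q4NeatThree_h213

end Fermat.Agent.S59.LOQ.H213

end
-- ===== PACK-END S59/LOQ/H213/Closed3.lean

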