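import Fermat.Agent.Pack.S59C.E4L3
import Fermat.Agent.Pack.S59C.E8L3
import Fermat.Agent.Pack.S43GC.G0E15L1
import Fermat.Agent.Pack.S59C.E13L0
import Fermat.Agent.Pack.S59C.E11L0
import Fermat.Agent.Pack.S59C.E5L2
import Fermat.Agent.Pack.S59C.E11L3
import Fermat.Agent.Pack.S44C.G0E28L3
import Fermat.Agent.Pack.S44C.G0E27L1
import Fermat.Agent.Pack.S44C.G0E25L3
import Fermat.Agent.Pack.S43MC.G0E26L2
import Fermat.Agent.Pack.S44C.G0E30L3
import Fermat.Agent.Pack.S59C.E12L1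
import Fermat.Agent.Pack.S44C.G0E29L1
import Fermat.Agent.Pack.S44C.G0E30L1
import Fermat.Agent.Pack.S44C.G0E30L2
import Fermat.Agent.Pack.S44C.G0E29L0
import Fermat.Agent.Pack.S43MC.G0E20L3
import Fermat.Agent.Pack.S43MC.G0E19L2
import Fermat.Agent.Pack.S43MC.G0E28L0
import Fermat.Agent.Pack.S59C.E9L1
import Fermat.Agent.Pack.S44C.G0E31L0
import Fermat.Agent.Pack.S59C.E0L3
import Fermat.Agent.Pack.S59C.E13L1
import Fermat.Agent.Pack.S59C.E10L2
import Fermat.Agent.Pack.S43C.E2L1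
import Fermat.Agent.Pack.S43MC.G0E20L0
import Fermat.Agent.Pack.S59C.E7L0
import Fermat.Agent.Pack.S59C.E13L2
import Fermat.Agent.Pack.S43GC.G0E11L1
import Fermat.Agent.Pack.S59C.E7L2
import Fermat.Agent.Pack.S43C.E3L3
import Fermat.Agent.Pack.S59C.E12L2
import Fermat.Agent.Pack.S43MC.G0E4L0

set_option linter.all false

-- ===== PACK-BEGIN S33/H706/OldSpec.lean
section





/-!
# S33 / piece OLD in the frozen shape of `S33/Spec2.lean`, UNCONDITIONAL (helper706)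

* `oldAugStatement_of_s19 : S19HopfStatement → S33.OldAugStatement`  (adapter: `iAug`/`torsSub`
  vocabulary of `Spec2` ↔ `augSub`/`augTors` of `H706/Old.lean`);
* `s19HopfStatement : S19HopfStatement`  from the landed `Fermat.Agent.S19.result`;
* **`oldAugStatement : S33.OldAugStatement`**.
-/

set_option autoImplicit false

noncomputable section

namespace Fermat.Agent.S33.H706

open Fermat.Agent.S56

/-- The frozen S19 (landed on main) in the Hopf-model form. -/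
theorem s19HopfStatement : S19HopfStatement := fun N _ ℓ _ hℓN k =>
  Fermat.Agent.S19.H135.hopfModel_of_frozenShape N ℓ k (Fermat.Agent.S19.result N ℓ hℓN k)

/-- `iAug` of `Spec2` is `augSub`. -/
theorem iAug_eq_augSub {J : Type} [AddCommGroup J] [DistribMulAction GQ J]
    (P : ValuationSubring Qb) (Y : AddSubgroup J) :
    Fermat.Agent.S33.iAug (P.inertiaSubgroupIn ℚ) Y = augSub P Y := rfl

/-- `iAug` of the `p ^ n`-torsion is `augTors`. -/
theorem iAug_torsSub_eq_augTors {J : Type} [AddCommGroup J] [DistribMulAction GQ J]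
    (p : ℕ) (P : ValuationSubring Qb) (n : ℕ) :
    Fermat.Agent.S33.iAug (P.inertiaSubgroupIn ℚ) (Fermat.Agent.S33.torsSub J (p ^ n)) =
      augTors p J P n := by
  unfold Fermat.Agent.S33.iAug augTors
  congr 1
  ext z
  have key : ∀ w : J, w ∈ Fermat.Agent.S33.torsSub J (p ^ n) ↔ (p : ℤ) ^ n • w = 0 := by
    intro w
    unfold Fermat.Agent.S33.torsSub
    rw [AddMonoidHom.mem_ker, nsmulAddMonoidHom_apply, ← natCast_zsmul]
    push_cast
    rfl
  constructor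
  · rintro ⟨σ, hσ, w, hw, rfl⟩
    exact ⟨σ, hσ, w, (key w).mp hw, rfl⟩
  · rintro ⟨σ, hσ, w, hw, rfl⟩
    exact ⟨σ, hσ, w, (key w).mpr hw, rfl⟩

/-- **(OLD)** in the frozen `Spec2` shape, from the frozen S19. -/
theorem oldAugStatement_of_s19 (hS19 : S19HopfStatement) : Fermat.Agent.S33.OldAugStatement := by
  intro p M' _ hp hp2 hpM' P hP Y hYG hY
  haveI : Fact p.Prime := ⟨hp⟩
  have h := oldAug_of_s19 hS19 p hp2 M' hpM' P hP Y hYG (fun y hy => (hY y hy).1)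
    (fun y hy => by
      obtain ⟨n, hn⟩ := (hY y hy).2
      exact ⟨n, by rw [← iAug_torsSub_eq_augTors]; exact hn⟩)
  rw [iAug_eq_augSub, h]

/-- **(OLD)**, frozen `Spec2` shape, unconditional. -/
theorem oldAugStatement : Fermat.Agent.S33.OldAugStatement :=
  oldAugStatement_of_s19 s19HopfStatement

end Fermat.Agent.S33.H706

end

end
-- ===== PACK-END S33/H706/OldSpec.lean

-- ===== PACK-BEGIN S59/NMP/H135/Core.lean
section









/-!
# S59 / NMP-LGC (helper135): leaf CORE from leaf MAXUNR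

**`lgcCore_of_maxUnr : MaxUnrGoodStatement → LgcCoreStatement`.**

* good levels (`p ≥ 5`, or `p = 3` and `2 ∣ N`): `core_good135`
  - `K := ker (reductionModL A N)`, inertia acts trivially modulo `K`
    (`S37.H697.reductionModL_inertia`), Eichler–Shimura at `ℓ = p` modulo `K`
    (`S37.H697.reductionModL_relation`: no torsion prime in it), MAXUNR, dévissage
    (`H43.core_of_frob_s33_h43` through `core_of_pull135` with `L = id`), divisibility
    (`S17.GDiv.divisible`);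
* `p = 3`, `N` odd: `core_three135`, through the level `2 N`
  - `L := π^* : J₀(N) → J₀(2N)` (`S37.H818.TransferInputs.pullback`): Galois- and
    `T_3`-equivariant, injective on `3`-torsion (`A3.H319.eq_zero_of_levelPull_eq_zero`),
    relative CE at level `2N` (`S33.H706.mem_augSub_of_mem_augTors`, frozen S19).
-/

set_option autoImplicit false
set_option linter.style.haveILetI false
set_option linter.unusedSectionVars false
set_option synthInstance.maxHeartbeats 400000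
set_option maxHeartbeats 1600000

noncomputable section

open AlgebraicCurve ModularCurve

namespace Fermat.Agent.S59.NMP.H135

open Fermat.Agent.S33 Fermat.Agent.S59.NMP.H43

/-- `p`-divisibility of the `p`-power torsion of `J₀(M)`. -/
theorem exists_torsion_lift135 (p M : ℕ) [NeZero M] (hp : p ≠ 0) (n : ℕ) (z : JZero M)
    (hz : p ^ n • z = 0) : ∃ y : JZero M, p ^ (n + 1) • y = 0 ∧ p • y = z := by
  obtain ⟨y, hy⟩ := Fermat.Agent.S17.GDiv.divisible M p hp z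
  refine ⟨y, ?_, hy⟩
  rw [pow_succ, mul_smul, hy, hz]

/-- **The geometry at a good level**: inertia is trivial modulo the kernel of reduction, MAXUNR,
and Eichler–Shimura at `p` modulo the kernel of reduction. -/
theorem good_geometry135 (hM : MaxUnrGoodStatement) (p M : ℕ) [NeZero M] (hp : p.Prime)
    (hp2 : p ≠ 2) (hpM : ¬ p ∣ M) (hg : 5 ≤ p ∨ (p = 3 ∧ 2 ∣ M))
    (A : ValuationSubring (AlgebraicClosure ℚ)) (hA : A.LiesOverPrime p)
    (σ : GQ135) (hσ : A.IsFrobeniusAt σ p) :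
    (∀ τ ∈ A.inertiaSubgroupIn ℚ, ∀ y : JZero M, τ • y - y ∈ (reductionModL A M).ker) ∧
    ((reductionModL A M).ker ⊓ torsSub (JZero M) p ≤
      iAug (A.inertiaSubgroupIn ℚ) (torsSub (JZero M) p)) ∧
    (∀ y : JZero M, σ • σ • y - (heckeOperatorBar M ⟨p, hp⟩).toAddMonoidHom (σ • y) + p • y ∈
      (reductionModL A M).ker) := by
  haveI : NeZero p := ⟨hp.ne_zero⟩
  have hg' : Fermat.Agent.S37.Core.GoodLevel M p := by
    rcases hg with h | h
    · exact Or.inl h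
    · exact Or.inr (Or.inl h)
  have h : ReductionInputsModL A M := Fermat.Agent.S37.H28.rimStatement M p hp hpM hg' A hA
  have hR := Fermat.Agent.S37.H697.riemannBound_modular M
  refine ⟨?_, ?_, ?_⟩
  · intro τ hτ y
    rw [AddMonoidHom.mem_ker, map_sub,
      Fermat.Agent.S37.H697.reductionModL_inertia M A h hR τ hτ y, sub_self]
  · rintro y ⟨hyK, hy⟩
    exact hM p M hp hp2 hpM hg A hA y ((mem_torsSub_iff_h43 p y).mp hy)
      (AddMonoidHom.mem_ker.mp hyK)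
  · intro y
    rw [AddMonoidHom.mem_ker]
    exact Fermat.Agent.S37.H697.reductionModL_relation M A p h hR
      (fun P => Fermat.Agent.Lib.FF398.deg_eq_one_FF M P)
      (Fermat.Agent.Lib.FF398.heckeInputsAlong M p)
      (Fermat.Agent.S37.H697.kroneckerNorm_residue M hp hpM A hA) σ hσ y

/-- **CORE at good levels.** -/
theorem core_good135 (hM : MaxUnrGoodStatement) (p M : ℕ) [NeZero M] (hp : p.Prime)
    (hp2 : p ≠ 2) (hpM : ¬ p ∣ M) (hg : 5 ≤ p ∨ (p = 3 ∧ 2 ∣ M))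
    (A : ValuationSubring (AlgebraicClosure ℚ)) (hA : A.LiesOverPrime p)
    (σ : GQ135) (hσ : A.IsFrobeniusAt σ p) (n : ℕ) (x : JZero M) (hx : p ^ n • x = 0) :
    σ • σ • x - heckeOperatorBar M ⟨p, hp⟩ (σ • x) + p • x ∈
      iAug (A.inertiaSubgroupIn ℚ) (torsSub (JZero M) (p ^ n)) := by
  obtain ⟨hKI, hmax, hes⟩ := good_geometry135 hM p M hp hp2 hpM hg A hA σ hσ
  exact core_of_pull135 (A.inertiaSubgroupIn ℚ) p (reductionModL A M).ker hKI hmax
    (AddMonoidHom.id (JZero M)) (fun _ _ => rfl) (exists_torsion_lift135 p M hp.ne_zero)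
    (fun _ _ hy => hy) σ (heckeOperatorBar M ⟨p, hp⟩).toAddMonoidHom
    (heckeOperatorBar M ⟨p, hp⟩).toAddMonoidHom (fun _ => rfl) hes n x hx

/-- The two pull-backs `J₀(N) → J₀(2N)` on main agree. -/
theorem levelPull_eq_pullback135 (N : ℕ) [NeZero N]
    (T : Fermat.Agent.S37.H818.TransferInputs N 2 3) (y : JZero N) :
    Fermat.Agent.A3.H319.levelPull N 2 y = T.pullback y := by
  obtain ⟨D, rfl⟩ := Pic0.mk_surjective y
  rfl

/-- **CORE for `p = 3` at odd levels**, through the level `2 N`. -/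
theorem core_three135 (hM : MaxUnrGoodStatement) (N : ℕ) [NeZero N] (hp : Nat.Prime 3)
    (h3N : ¬ 3 ∣ N) (h2N : ¬ 2 ∣ N)
    (A : ValuationSubring (AlgebraicClosure ℚ)) (hA : A.LiesOverPrime 3)
    (σ : GQ135) (hσ : A.IsFrobeniusAt σ 3) (n : ℕ) (x : JZero N) (hx : 3 ^ n • x = 0) :
    σ • σ • x - heckeOperatorBar N ⟨3, hp⟩ (σ • x) + 3 • x ∈
      iAug (A.inertiaSubgroupIn ℚ) (torsSub (JZero N) (3 ^ n)) := by
  haveI : Fact (Nat.Prime 3) := ⟨hp⟩
  haveI : NeZero (N * 2) := ⟨Nat.mul_ne_zero (NeZero.ne N) two_ne_zero⟩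
  have h3M : ¬ 3 ∣ N * 2 := by
    intro h
    rcases (Nat.Prime.dvd_mul hp).mp h with h | h
    · exact h3N h
    · exact absurd h (by decide)
  have T : Fermat.Agent.S37.H818.TransferInputs N 2 3 :=
    Fermat.Agent.S37.H818.transferInputs N 2 3 hp Nat.prime_two h3N (by decide)
      (Fermat.Agent.S37.H818.finrankAlong_pow N 2 3 (Or.inl ⟨rfl, rfl⟩) h2N)
  obtain ⟨hKI, hmax, hes⟩ := good_geometry135 hM 3 (N * 2) hp (by decide) h3M
    (Or.inr ⟨rfl, Dvd.intro_left N rfl⟩) A hA σ hσ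
  have hLg : ∀ (τ : GQ135) (y : JZero N), T.pullback (τ • y) = τ • T.pullback y :=
    fun τ y => T.pullback_galois τ y
  -- injectivity on `3`-torsion
  have hinj : ∀ y : JZero N, 3 • y = 0 → T.pullback y = 0 → y = 0 := by
    intro y hy h0
    refine Fermat.Agent.A3.H319.eq_zero_of_levelPull_eq_zero N 2 Nat.prime_two 3 (by decide)
      ?_ ?_
    · rw [natCast_zsmul]
      exact hy
    · rw [levelPull_eq_pullback135 N T y]
      exact h0
  -- relative CE at level `2N`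
  have hCE : ∀ z ∈ (torsSub (JZero N) 3).map T.pullback,
      z ∈ iAug (A.inertiaSubgroupIn ℚ) (torsSub (JZero (N * 2)) 3) →
      z ∈ iAug (A.inertiaSubgroupIn ℚ) ((torsSub (JZero N) 3).map T.pullback) := by
    intro z hzY hz
    have hz' : z ∈ Fermat.Agent.S33.H706.augTors 3 (JZero (N * 2)) A 1 := by
      rw [← Fermat.Agent.S33.H706.iAug_torsSub_eq_augTors, pow_one]
      exact hz
    have hY : ∀ (τ : GQ135), ∀ y ∈ (torsSub (JZero N) 3).map T.pullback,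
        τ • y ∈ (torsSub (JZero N) 3).map T.pullback := by
      rintro τ _ ⟨w, hw, rfl⟩
      exact ⟨τ • w, smul_mem_torsSub135 3 τ hw, hLg τ w⟩
    have hpY : ∀ y ∈ (torsSub (JZero N) 3).map T.pullback, 3 • y = 0 := by
      rintro _ ⟨w, hw, rfl⟩
      rw [← map_nsmul, (mem_torsSub_iff_h43 3 w).mp hw, map_zero]
    have h := Fermat.Agent.S33.H706.mem_augSub_of_mem_augTors (p := 3)
      (J := JZero (N * 2)) (by decide) 1 (Fermat.Agent.S19.torsAct (N * 2) 3 1)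
      (fun _ _ => rfl) (Fermat.Agent.S33.H706.s19HopfStatement (N * 2) 3 h3M 1) A hA
      ((torsSub (JZero N) 3).map T.pullback) hY hpY hzY hz'
    rw [Fermat.Agent.S33.H706.iAug_eq_augSub]
    exact h
  have hback := back_of_relCE135 (A.inertiaSubgroupIn ℚ) 3 T.pullback hLg hinj hCE
  exact core_of_pull135 (A.inertiaSubgroupIn ℚ) 3 (reductionModL A (N * 2)).ker hKI hmax
    T.pullback hLg (exists_torsion_lift135 3 N (by decide)) hback σ
    (heckeOperatorBar N ⟨3, hp⟩).toAddMonoidHom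
    (heckeOperatorBar (N * 2) ⟨3, hp⟩).toAddMonoidHom
    (fun y => T.pullback_hecke y) hes n x hx

/-- **CORE from MAXUNR.** -/
theorem lgcCore_of_maxUnr (hM : MaxUnrGoodStatement) : LgcCoreStatement := by
  intro p N _ hp hp2 hpN A hA σ hσ n x hx
  by_cases h5 : 5 ≤ p
  · exact core_good135 hM p N hp hp2 hpN (Or.inl h5) A hA σ hσ n x hx
  · have h3 : p = 3 := by
      have hlt : p < 5 := not_le.mp h5
      have h2 := hp.two_le
      interval_cases p
      · exact absurd rfl hp2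
      · rfl
      · exact absurd hp (by decide)
    subst h3
    by_cases h2N : 2 ∣ N
    · exact core_good135 hM 3 N hp hp2 hpN (Or.inr ⟨rfl, h2N⟩) A hA σ hσ n x hx
    · exact core_three135 hM N hp hpN h2N A hA σ hσ n x hx

end Fermat.Agent.S59.NMP.H135

end

end
-- ===== PACK-END S59/NMP/H135/Core.lean

-- ===== PACK-BEGIN Ribet/H109/S39Final.lean
section



/-!
# Row 38, the S39 line: frozen S39 from the WALL-p leaves ALONE  (helper109)

The S39 companion of `H943/Final.lean` (which does S44 and S40).  Every input of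
`Peu.S39_of_wall` except the wall at `p` is closed from landed, unconditional pieces
(`H823.embedW`, `H404.eigenformOfOccursAway`, `H943.Final.almostAllToWitnessW`), and the wall for
S39 follows from the at-`p` filtration package by `Peu.wallPeu_of_atPFiltration`
(ELOC-ord for multiplicative reduction with `p ∣ v_p(Δ)` is `Peu.elocOrdPeu`, unconditional).

* `S39_of_wallPeu     : WallPeuStatement       → S39Statement`
* `S39_of_filtration  : AtPFiltrationStatement → S39Statement`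
* `S39_of_targets     : WallTargetsStatement   → S39Statement`
* pointwise: `s39At_of_filtrationFor`, `s39At_of_targetsFor` (ONE level `(p, M')`),
* `S39Ge5Statement`, `S39Ge5_of_filtration5`, `S39Ge5_of_targets5`, `S39Ge5_of_leaves` :
  frozen S39 restricted to `p ≥ 5`, from EXACTLY the inputs of `H943.Final.S44_of_leaves`.
-/

set_option autoImplicit false
set_option linter.style.haveILetI false

open WeierstrassCurve WeierstrassCurve.Affine WeierstrassCurve.Affine.Point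
open CuspForm ModularFormClass UpperHalfPlane ModularCurve

namespace Fermat.Agent.Ribet.H109.Peu

open Fermat.Agent.Ribet Fermat.Agent.Ribet.Spec Fermat.Agent.Ribet.H944.Wall

/-- **S39 from the wall at `p` (peu ramifiée form) alone.** -/
theorem S39_of_wallPeu (hWall : WallPeuStatement) : S39Statement :=
  S39_of_wall H823.embedW hWall H404.eigenformOfOccursAway H943.Final.almostAllToWitnessW

/-- **S39 from the at-`p` filtration package (all odd `p`) alone.** -/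
theorem S39_of_filtration (hF : AtPFiltrationStatement) : S39Statement :=
  S39_of_wallPeu (wallPeu_of_atPFiltration hF)

/-- **S39 from the four targets (all odd `p`).** -/
theorem S39_of_targets (hT : WallTargetsStatement) : S39Statement :=
  S39_of_filtration (atPFiltration_of_targets hT)

/-- **S39 at ONE level `(p, M')` from the filtration package at `(p, M')`.** -/
theorem s39At_of_filtrationFor {p M' : ℕ} [NeZero M'] [NeZero (p * M')] (hp : p.Prime)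
    (hp2 : p ≠ 2) (hF : AtPFiltrationFor p M') : S39At p M' :=
  s39At_of_wallAt H823.embedW H404.eigenformOfOccursAway H943.Final.almostAllToWitnessW hp hp2
    (wallPeuAt_of_filtrationFor hp hp2 hF)

/-- **S39 at ONE level `(p, M')` from the four targets at `(p, M')`.** -/
theorem s39At_of_targetsFor {p M' : ℕ} [NeZero M'] [NeZero p] [NeZero (p * M')] (hp : p.Prime)
    (hp2 : p ≠ 2)
    (h : ∀ A : ValuationSubring (AlgebraicClosure ℚ), A.LiesOverPrime p →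
      ∃ 𝓕 𝒮 : AddSubgroup (JZero (p * M')),
        S1For p M' A 𝒮 ∧ S2For p M' A 𝒮 ∧ S3For p M' 𝓕 𝒮 ∧ S4For p M' A 𝓕) :
    S39At p M' :=
  s39At_of_filtrationFor hp hp2 (atPFiltrationFor_of p M' hp h)

/-- Frozen S39 restricted to `p ≥ 5`. -/
def S39Ge5Statement : Prop :=
  ∀ (W : WeierstrassCurve ℤ), W.Δ ≠ 0 → ∀ {p : ℕ}, p.Prime → 5 ≤ p →
    ((p : ℤ) ∣ W.Δ → ¬ (p : ℤ) ∣ W.c₄) → W.ModRepIsIrreducible p →
    (W.map (Int.castRingHom ℚ)).IsPeuRamifieeAt p p →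
    ∀ {M : ℕ}, 0 < M → p ∣ M → ¬ p ^ 2 ∣ M → W.IsResiduallyModularOfLevel p M →
    W.IsResiduallyModularOfLevel p (M / p)

/-- S39 for `p ≥ 5` from its levels. -/
theorem S39Ge5_of_forall_at
    (h : ∀ (p M' : ℕ), p.Prime → 5 ≤ p → 0 < M' → ¬ p ∣ M' → S39At p M') : S39Ge5Statement := by
  intro W hΔ p hp hp5 hsemi hirr hfin M hM hpM hp2M hmod
  obtain ⟨M', rfl⟩ := hpM
  have hM'pos : 0 < M' := by
    rcases Nat.eq_zero_or_pos M' with h0 | h0
    · subst h0; simp at hM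
    · exact h0
  rw [Nat.mul_div_cancel_left M' hp.pos]
  have hpM' : ¬ p ∣ M' := by
    rintro ⟨k, rfl⟩
    exact hp2M ⟨k, by ring⟩
  exact h p M' hp hp5 hM'pos hpM' W hΔ hsemi hirr hfin hmod

/-- **S39 for `p ≥ 5` from the at-`p` filtration package (`p ≥ 5`) alone.** -/
theorem S39Ge5_of_filtration5 (hF : AtPFiltration5Statement) : S39Ge5Statement :=
  S39Ge5_of_forall_at fun p M' hp hp5 hM' hpM' =>
    haveI : NeZero M' := ⟨hM'.ne'⟩
    haveI : NeZero (p * M') := ⟨(Nat.mul_pos hp.pos hM').ne'⟩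
    s39At_of_filtrationFor hp (by omega) (hF p M' hp hp5 hpM')

/-- **S39 for `p ≥ 5` from the four targets (`p ≥ 5`).** -/
theorem S39Ge5_of_targets5 (hT : WallTargets5Statement) : S39Ge5Statement :=
  S39Ge5_of_filtration5 (atPFiltration5_of_targets hT)

/-- **S39 for `p ≥ 5` from the five open leaves of `H884/SlopeSpec.lean`** — exactly the inputs
of `H943.Final.S44_of_leaves`. -/
theorem S39Ge5_of_leaves (h2 : H884.S2Statement) (hR : H884.ResFieldStatement)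
    (hD : H884.DlogOutStatement) (h3 : H764.I3.R3PStatement) (hE : H884.EisSlopeStatement) :
    S39Ge5Statement :=
  S39Ge5_of_targets5 (H884.wallTargets5_of H884.s1 h2 hR hD h3 hE)

end Fermat.Agent.Ribet.H109.Peu

end
-- ===== PACK-END Ribet/H109/S39Final.lean

-- ===== PACK-BEGIN S33/H558/S2ReadyFinal.lean
section





/-!
# S33: **(S2) at READY levels, UNCONDITIONAL** (helper558)

`s2Ready : S33.H92.S2ReadyStatement` from the three leaves of the (S2)-chain, all on main: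
SL `Ribet.H573.splitLift`, NC `Ribet.H279.NC.normContr`, DK `S33.H558.deepKummerReady`.
-/

set_option autoImplicit false

namespace Fermat.Agent.S33.H558

/-- **(S2) at READY levels**, unconditional. -/
theorem s2Ready : Fermat.Agent.S33.H92.S2ReadyStatement :=
  Fermat.Agent.S33.H849.s2Ready_of_chain Fermat.Agent.Ribet.H573.splitLift
    Fermat.Agent.Ribet.H279.NC.normContr deepKummerReady

end Fermat.Agent.S33.H558

end
-- ===== PACK-END S33/H558/S2ReadyFinal.lean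

-- ===== PACK-BEGIN S59/WallP3/Spec.lean
section






/-!
# S59 moonshot, cell (A): WALL-p at `p = 3`, READY levels (`2 ∣ M'`) — FROZEN leaves + PROVED glue
  (cell architect helper944)

Target of the cell: `S59.Arch.LOW.S39W35Statement` (glue in `WallP3/Glue.lean`).  The wall for
`p ≥ 5` is closed (S44 chain, `H109.Peu.S39Ge5_of_open`).  At `p = 3` the chain of row 38 uses
`5 ≤ p` ESSENTIALLY in one place only: the modular unit `Δ(t^p)/Δ(t)` has slope `12 ≡ 0 (mod 3)`.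
Everything else is available at READY levels (`p = 3 → 2 ∣ M'`: model, (S1), (S2), I3).

This file is generic in the unit: `u : LaurentSeries ℚ̄` is ANY `t`-series which
* is an Eisenstein eigenfunction for the formal Hecke operators (`UnitEisFor`), and
* is the expansion of the unit used by CORE-OUT (`SlopePropU`).

## Frozen leaves (pointwise at `(p, M', A)`, unit `u`)
| leaf | Prop | content |
|---|---|---|
| UNIT-EIS | `UnitEisFor N u` | `kronNorm ℓ u = c · u ^ (ℓ + 1)` for the primes `ℓ ∤ N` |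
| TAME | `TameUAt p M' A u` | `H704.CoreOut.TameStatement` at `(p, M', A)`, conclusion `SlopePropU` |
| WILD | `WildUAt p M' A u` | `H704.CoreOut.WildStatement` at `(p, M', A)`, conclusion `SlopePropU` |
| CUSP | `H884.CuspPurityAt p M' A` | (already pointwise) |

## Proved here
* `isEisMod_of_slopePropU`, `mem_finPart_of_slopePropU` : the W-EIS assembly for ANY unit;
* `coreOutU_of_tame_wild`, `s4For_of_leavesU` : (S4) at `(p, M', A)` from the four leaves;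
* `s3For_good` : (S3) at every GOOD level (`p = 3`, `2 ∣ M'` included), UNCONDITIONAL;
* `targets_of_s4For`, `s39At_of_s4For` : frozen S39 at the level `p M'` from (S4) alone
  (READY levels, `p` odd); `s39At_of_leavesU`;
* the statements for the cell: `Tame3Statement u`, `Wild3Statement u`, `Cusp3Statement`,
  `UnitEis3Statement u`, `S4Ready3Statement`, `S39Ready3Statement` and
  **`s39Ready3_of_leaves : UnitEis3 u → Tame3 u → Wild3 u → Cusp3 → S39Ready3Statement`**.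
-/

set_option autoImplicit false
set_option synthInstance.maxHeartbeats 400000
set_option maxHeartbeats 1000000
set_option linter.unusedSectionVars false
set_option linter.style.haveILetI false

noncomputable section

namespace Fermat.Agent.S59.WallP3

open AlgebraicCurve ModularCurve HahnSeries
open Fermat.Agent.S24 Fermat.Agent.A2.H708 Fermat.Agent.A2.H528 Fermat.Agent.A2.H129
open Fermat.Agent.Ribet Fermat.Agent.Ribet.Spec Fermat.Agent.Ribet.H944.Wall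
open Fermat.Agent.Ribet.H884
open Fermat.Agent.S37.H400

/-! ## Vocabulary -/

/-- **UNIT-EIS for `u`**: `u` is an Eisenstein eigenfunction of the formal Hecke operators
`kronNorm ℓ`, `ℓ ∤ N`. -/
def UnitEisFor (N : ℕ) (u : LaurentSeries Kbar) : Prop :=
  ∀ (ℓ : Nat.Primes) [NeZero (ℓ : ℕ)], ¬ (ℓ : ℕ) ∣ N →
    ∃ c : Kbar, c ≠ 0 ∧ kronNorm (ℓ : ℕ) u = cst c * u ^ ((ℓ : ℕ) + 1)

theorem UnitEisFor.mono {N N' : ℕ} {u : LaurentSeries Kbar} (h : UnitEisFor N u)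
    (hNN' : N ∣ N') : UnitEisFor N' u :=
  fun ℓ _ hℓ => h ℓ (fun hd => hℓ (hd.trans hNN'))

/-- The slope vector of `x` is a multiple of the slope vector of the unit with `t`-expansion `u`
(`H884.SlopeProp` with `Δ(t^p)/Δ(t)` replaced by `u`). -/
def SlopePropU (p M' : ℕ) [NeZero p] [NeZero (p * M')] (A : ValuationSubring Kbar)
    (u : LaurentSeries Kbar) (x : JZero (p * M')) : Prop :=
  ∃ (f D G : FF (p * M')) (n a b : ℕ), IsKummerGen (p * M') p f x ∧
    (D : LaurentSeries Kbar) = u ∧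
    D ≠ 0 ∧ ¬ p ∣ n ∧ G * D ^ b = f ^ n * D ^ a ∧ NodeGen p M' A G

/-- `H884.SlopeProp` is `SlopePropU` for the unit `Δ(t^p)/Δ(t)`. -/
theorem slopePropU_of_slopeProp {p M' : ℕ} [NeZero p] [NeZero (p * M')]
    {A : ValuationSubring Kbar} {x : JZero (p * M')} (h : SlopeProp p M' A x) :
    SlopePropU p M' A (Fermat.Agent.S28.unitL Kbar p) x := by
  obtain ⟨f, D, G, n, a, b, hf, hD, hD0, hn, hG, hNG⟩ := h
  exact ⟨f, D, G, n, a, b, hf, hD, hD0, hn, hG, hNG⟩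

/-! ## The W-EIS assembly for an arbitrary unit -/

/-- **The W-EIS assembly at one `(p, M', A)` for the unit `u`** (general leaves). -/
theorem isEisMod_of_slopePropU' (hHF : HeckeFunStatement) (hHN : HeckeNodeGenStatement)
    (hRE : RedExistsStatement) (hRU : RedUniqueStatement) (hRF : RedFieldStatement)
    (p M' : ℕ) [NeZero M'] [NeZero p] [NeZero (p * M')] (hp : p.Prime) (hpM : ¬ p ∣ M')
    (A : ValuationSubring Kbar) (hA : A.LiesOverPrime p) (hCP : CuspPurityAt p M' A)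
    (u : LaurentSeries Kbar) (hU : UnitEisFor (p * M') u)
    (x : JZero (p * M'))
    (hx : SlopePropU p M' A u x) : IsEisMod p M' A (p * M').primeFactors x := by
  intro ℓ hℓ
  have : NeZero (ℓ : ℕ) := ⟨ℓ.2.ne_zero⟩
  have hℓN : ¬ (ℓ : ℕ) ∣ p * M' := fun h =>
    hℓ (Nat.mem_primeFactors.mpr ⟨ℓ.2, h, NeZero.ne _⟩)
  obtain ⟨f, D, G, n, a, b, hf, hD, hD0, hn, hG, hNG⟩ := hx
  obtain ⟨Tf, hTf, hTfK⟩ := hHF (p * M') ℓ hℓN f
  obtain ⟨TG, hTG, -⟩ := hHF (p * M') ℓ hℓN G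
  obtain ⟨c, hc, hUD⟩ := hU ℓ hℓN
  have hf0 : f ≠ 0 := hf.1
  have hG0 : G ≠ 0 := hNG.ne_zero
  set C : FF (p * M') := algebraMap Kbar (FF (p * M')) c with hC
  have hC0 : C ≠ 0 := by simpa [hC] using hc
  set E : FF (p * M') := D ^ ((ℓ : ℕ) + 1) with hE
  have hE0 : E ≠ 0 := pow_ne_zero _ hD0
  have h2 : TG * (C * E) ^ b = Tf ^ n * (C * E) ^ a := by
    apply Subtype.ext
    have e1 : ((C * E : FF (p * M')) : LaurentSeries Kbar) =
        kronNorm (ℓ : ℕ) (D : LaurentSeries Kbar) := by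
      have hCE : ((C * E : FF (p * M')) : LaurentSeries Kbar) =
          cst c * (D : LaurentSeries Kbar) ^ ((ℓ : ℕ) + 1) := rfl
      rw [hCE, hD, hUD]
    have e2 : ((TG * (C * E) ^ b : FF (p * M')) : LaurentSeries Kbar) =
        kronNorm (ℓ : ℕ) ((G * D ^ b : FF (p * M')) : LaurentSeries Kbar) := by
      have : ((G * D ^ b : FF (p * M')) : LaurentSeries Kbar) =
          (G : LaurentSeries Kbar) * (D : LaurentSeries Kbar) ^ b := rfl
      rw [this, kronNorm_mul, kronNorm_pow, ← hTG, ← e1]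
      rfl
    have e3 : ((Tf ^ n * (C * E) ^ a : FF (p * M')) : LaurentSeries Kbar) =
        kronNorm (ℓ : ℕ) ((f ^ n * D ^ a : FF (p * M')) : LaurentSeries Kbar) := by
      have : ((f ^ n * D ^ a : FF (p * M')) : LaurentSeries Kbar) =
          (f : LaurentSeries Kbar) ^ n * (D : LaurentSeries Kbar) ^ a := rfl
      rw [this, kronNorm_mul, kronNorm_pow, kronNorm_pow, ← hTf, ← e1]
      rfl
    rw [e2, e3, hG]
  have h3 : G ^ ((ℓ : ℕ) + 1) * E ^ b = f ^ (n * ((ℓ : ℕ) + 1)) * E ^ a := by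
    have h3' : (G * D ^ b) ^ ((ℓ : ℕ) + 1) = (f ^ n * D ^ a) ^ ((ℓ : ℕ) + 1) := by rw [hG]
    calc G ^ ((ℓ : ℕ) + 1) * E ^ b = (G * D ^ b) ^ ((ℓ : ℕ) + 1) := by rw [hE]; ring
      _ = (f ^ n * D ^ a) ^ ((ℓ : ℕ) + 1) := h3'
      _ = f ^ (n * ((ℓ : ℕ) + 1)) * E ^ a := by rw [hE]; ring
  set g : FF (p * M') := Tf * (f ^ ((ℓ : ℕ) + 1))⁻¹ with hg
  have hgK : IsKummerGen (p * M') p g
      (heckeOperatorBar (p * M') ℓ x - ((ℓ : ℕ) + 1) • x) := by
    have := (hTfK p x hf).mul ((hf.pow ((ℓ : ℕ) + 1)).inv)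
    rwa [← sub_eq_add_neg] at this
  have hg0 : g ≠ 0 := hgK.1
  have h4 : Tf ^ n * C ^ a * G ^ ((ℓ : ℕ) + 1) = C ^ b * TG * f ^ (n * ((ℓ : ℕ) + 1)) := by
    have hEE : E ^ a * E ^ b ≠ 0 := mul_ne_zero (pow_ne_zero _ hE0) (pow_ne_zero _ hE0)
    apply mul_right_cancel₀ hEE
    rw [mul_pow, mul_pow] at h2
    linear_combination (-(f ^ (n * ((ℓ : ℕ) + 1)) * E ^ a)) * h2 + (Tf ^ n * C ^ a * E ^ a) * h3
  have h5 : g ^ n = algebraMap Kbar (FF (p * M')) (c ^ b * (c ^ a)⁻¹) *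
      (TG * (G ^ ((ℓ : ℕ) + 1))⁻¹) := by
    have hCa : C ^ a ≠ 0 := pow_ne_zero _ hC0
    have hGl : G ^ ((ℓ : ℕ) + 1) ≠ 0 := pow_ne_zero _ hG0
    have hfl : f ^ ((ℓ : ℕ) + 1) ≠ 0 := pow_ne_zero _ hf0
    have hcc : algebraMap Kbar (FF (p * M')) (c ^ b * (c ^ a)⁻¹) = C ^ b * (C ^ a)⁻¹ := by
      rw [map_mul, map_inv₀, map_pow, map_pow]
    rw [hcc, hg, mul_pow, inv_pow, ← pow_mul, mul_comm ((ℓ : ℕ) + 1) n]
    have hfn : f ^ (n * ((ℓ : ℕ) + 1)) ≠ 0 := pow_ne_zero _ hf0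
    field_simp
    linear_combination h4
  have hcb : c ^ b * (c ^ a)⁻¹ ≠ 0 := mul_ne_zero (pow_ne_zero _ hc) (inv_ne_zero (pow_ne_zero _ hc))
  have hNGn : NodeGen p M' A (g ^ n) := by
    rw [h5]
    exact ((hHN p M' hp hpM A hA ℓ hℓN G TG hTG hNG).mul (hNG.pow _).inv).const_mul hcb
  have hNGg : NodeGen p M' A g := NodeGen.of_pow hRE hRU hRF hp hpM hA hn hg0 hNGn
  exact AddSubgroup.subset_closure ⟨g, hgK, hCP g _ hgK hNGg⟩

/-- **The W-EIS assembly at one `(p, M', A)` for the unit `u`**, all closed leaves plugged in. -/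
theorem isEisMod_of_slopePropU
    (p M' : ℕ) [NeZero M'] [NeZero p] [NeZero (p * M')] (hp : p.Prime) (hpM : ¬ p ∣ M')
    (A : ValuationSubring Kbar) (hA : A.LiesOverPrime p) (hCP : CuspPurityAt p M' A)
    (u : LaurentSeries Kbar) (hU : UnitEisFor (p * M') u)
    (x : JZero (p * M')) (hx : SlopePropU p M' A u x) :
    IsEisMod p M' A (p * M').primeFactors x :=
  isEisMod_of_slopePropU' H398.heckeFun H699.heckeNodeGen H997.redExists
    H997.redUnique H997.redField p M' hp hpM A hA hCP u hU x hx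

/-- `SlopePropU x` + CUSP + UNIT-EIS at `(p, M', A)` + non-Eisenstein eigen ⟹ `x ∈ finPart`. -/
theorem mem_finPart_of_slopePropU
    (p M' : ℕ) [NeZero M'] [NeZero p] [NeZero (p * M')] (hp : p.Prime) (hpM : ¬ p ∣ M')
    (A : ValuationSubring Kbar) (hA : A.LiesOverPrime p) (hCP : CuspPurityAt p M' A)
    (u : LaurentSeries Kbar) (hU : UnitEisFor (p * M') u)
    (S : Finset ℕ) (a : ℕ → ℤ) (hNE : NonEisAway p a)
    (x : JZero (p * M')) (hpx : p • x = 0) (heig : EigenAt (p * M') S a x)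
    (hx : SlopePropU p M' A u x) : x ∈ finPart p M' A :=
  mem_finPart_of_eis p M' hp A S _ a hNE x hpx heig
    (isEisMod_of_slopePropU p M' hp hpM A hA hCP u hU x hx)

/-! ## The pointwise leaves TAME / WILD / CORE-OUT for the unit `u` -/

section Leaves

variable (p M' : ℕ) [NeZero M'] [NeZero p] [NeZero (p * M')] (A : ValuationSubring Kbar)
  (u : LaurentSeries Kbar)

/-- **CORE-OUT (with NE) at `(p, M', A)` for the unit `u`.** -/
def CoreOutUAt : Prop :=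
  ∀ (S : Finset ℕ) (a : ℕ → ℤ), NonEisAway p a → ∀ x t : JZero (p * M'),
    IsNewTors p M' x → EigenAt (p * M') S a x →
    IsNewTors p M' t → EigenAt (p * M') S a t →
    (∀ σ ∈ A.inertiaSubgroupIn ℚ, ∀ c : ℕ, CycloAt p σ c → σ • t = c • t) →
    (∀ σ ∈ A.inertiaSubgroupIn ℚ, ∃ n : ℕ, σ • x = x + n • t) →
    (∀ σ : GQ, PeuFixes A p σ → σ • x = x) →
    SlopePropU p M' A u x

/-- **TAME at `(p, M', A)` for the unit `u`**: CORE-OUT for the classes fixed by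
`I₁ = {σ ∈ I : σ = 1 on μ_p}`. -/
def TameUAt : Prop :=
  ∀ (S : Finset ℕ) (a : ℕ → ℤ), NonEisAway p a → ∀ x t : JZero (p * M'),
    IsNewTors p M' x → EigenAt (p * M') S a x →
    IsNewTors p M' t → EigenAt (p * M') S a t →
    (∀ σ ∈ A.inertiaSubgroupIn ℚ, ∀ c : ℕ, CycloAt p σ c → σ • t = c • t) →
    (∀ σ ∈ A.inertiaSubgroupIn ℚ, ∃ n : ℕ, σ • x = x + n • t) →
    (∀ σ : GQ, PeuFixes A p σ → σ • x = x) →
    (∀ σ ∈ A.inertiaSubgroupIn ℚ, CycloAt p σ 1 → σ • x = x) →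
    SlopePropU p M' A u x

/-- **WILD at `(p, M', A)` for the unit `u`**: CORE-OUT for the classes moved by some
`σ₀ ∈ I₁`. -/
def WildUAt : Prop :=
  ∀ (S : Finset ℕ) (a : ℕ → ℤ), NonEisAway p a → ∀ x t : JZero (p * M'),
    IsNewTors p M' x → EigenAt (p * M') S a x →
    IsNewTors p M' t → EigenAt (p * M') S a t →
    (∀ σ ∈ A.inertiaSubgroupIn ℚ, ∀ c : ℕ, CycloAt p σ c → σ • t = c • t) →
    (∀ σ ∈ A.inertiaSubgroupIn ℚ, ∃ n : ℕ, σ • x = x + n • t) →
    (∀ σ : GQ, PeuFixes A p σ → σ • x = x) →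
    ∀ σ₀ ∈ A.inertiaSubgroupIn ℚ, CycloAt p σ₀ 1 → σ₀ • x ≠ x →
    SlopePropU p M' A u x

variable {p M' A u}

/-- CORE-OUT from TAME and WILD. -/
theorem coreOutU_of_tame_wild (hT : TameUAt p M' A u) (hW : WildUAt p M' A u) :
    CoreOutUAt p M' A u := by
  intro S a hNE x t hx hex ht het hχ hsh hpeu
  by_cases h : ∀ σ ∈ A.inertiaSubgroupIn ℚ, CycloAt p σ 1 → σ • x = x
  · exact hT S a hNE x t hx hex ht het hχ hsh hpeu h
  · push Not at h
    obtain ⟨σ₀, hσ₀, hσ₀1, hσ₀x⟩ := h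
    exact hW S a hNE x t hx hex ht het hχ hsh hpeu σ₀ hσ₀ hσ₀1 hσ₀x

end Leaves

/-- **(S4) at `(p, M', A)` from CORE-OUT, CUSP and UNIT-EIS for the unit `u`.** -/
theorem s4For_of_coreOutU
    (p M' : ℕ) [NeZero M'] [NeZero p] [NeZero (p * M')] (hp : p.Prime) (hpM : ¬ p ∣ M')
    (A : ValuationSubring Kbar) (hA : A.LiesOverPrime p)
    (u : LaurentSeries Kbar) (hU : UnitEisFor (p * M') u)
    (hCO : CoreOutUAt p M' A u) (hCP : CuspPurityAt p M' A) :
    S4For p M' A (finPart p M' A) := by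
  intro S a hNE x t hx hex ht het hχ hsh hpeu
  exact mem_finPart_of_slopePropU p M' hp hpM A hA hCP u hU S a hNE x hx.1 hex
    (hCO S a hNE x t hx hex ht het hχ hsh hpeu)

/-- **(S4) at `(p, M', A)` from the four leaves UNIT-EIS, TAME, WILD, CUSP.** -/
theorem s4For_of_leavesU
    (p M' : ℕ) [NeZero M'] [NeZero p] [NeZero (p * M')] (hp : p.Prime) (hpM : ¬ p ∣ M')
    (A : ValuationSubring Kbar) (hA : A.LiesOverPrime p)
    (u : LaurentSeries Kbar) (hU : UnitEisFor (p * M') u)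
    (hT : TameUAt p M' A u) (hW : WildUAt p M' A u) (hCP : CuspPurityAt p M' A) :
    S4For p M' A (finPart p M' A) :=
  s4For_of_coreOutU p M' hp hpM A hA u hU (coreOutU_of_tame_wild hT hW) hCP

/-! ## (S3) at the good levels: unconditional -/

open Fermat.Agent.Ribet.H764.I3 in
/-- **I3 at the residue field, every GOOD level** (`p ≥ 5`, or `p = 3` and `2 ∣ M`, or `p = 2`
and `3 ∣ M`). -/
theorem r3pAt_good (p M : ℕ) [NeZero M] (hp : p.Prime) (hpM : ¬ p ∣ M)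
    (hg : Fermat.Agent.S37.Core.GoodLevel M p)
    (A : ValuationSubring (AlgebraicClosure ℚ)) (hA : A.LiesOverPrime p) :
    R3PAt p M (kRes A) := by
  haveI := charP_kRes A hp hA
  haveI := isAlgClosed_kRes A
  have hI : IncAt M (kRes A) := by
    intro g hg'
    obtain ⟨f, c, hfc, hgc⟩ := hg'
    have hG : IsHoloSeries (AlgebraicClosure ℚ) M
        (PowerSeries.mk fun n => ((c n : ℤ) : AlgebraicClosure ℚ)) :=
      Fermat.Agent.Ribet.H940.incAn_proved M _ ⟨f, c, hfc, fun n => PowerSeries.coeff_mk _ _⟩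
    have hg'' : g = PowerSeries.mk fun n => ((c n : ℤ) : kRes A) := by
      ext n
      rw [hgc n, PowerSeries.coeff_mk]
    rw [hg'']
    exact Fermat.Agent.Ribet.H940.incRed p M hp hpM hg A hA c hG
  exact r3pAt_of_geo hp hI (Fermat.Agent.Ribet.H537.dimAt_kRes p M hp hpM hg A hA)
    (Fermat.Agent.Ribet.H751.logHol p M hp hpM (kRes A))

/-- **(S3) at `(p, M', A)`, every GOOD level, `p` odd: UNCONDITIONAL.** -/
theorem s3For_good (p M' : ℕ) [NeZero M'] [NeZero p] [NeZero (p * M')] (hp : p.Prime)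
    (hp2 : p ≠ 2) (hpM : ¬ p ∣ M') (hg : Fermat.Agent.S37.Core.GoodLevel M' p)
    (A : ValuationSubring (AlgebraicClosure ℚ)) (hA : A.LiesOverPrime p) :
    S3For p M' (finPart p M' A) (splitPart p M' A) := by
  intro S a x hx hxS hnew heig
  obtain ⟨S', h, g, hSS', h0, hdiv, hdlog, hg0, heigs⟩ :=
    Fermat.Agent.Ribet.H376.dlogOut p M' hp hp2 hpM A hA S a x hx hxS hnew heig
  exact Fermat.Agent.Ribet.H764.I3.lowered_mono hSS'
    (r3pAt_good p M' hp hpM hg A hA S' a h h0 hdiv g hdlog hg0 heigs)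

/-! ## The four targets and frozen S39 at one READY level -/

/-- **The four targets at `(p, M', A)` from (S4) alone** (`p` odd, READY level). -/
theorem targets_of_s4For (p M' : ℕ) [NeZero M'] [NeZero p] [NeZero (p * M')] (hp : p.Prime)
    (hp2 : p ≠ 2) (hpM : ¬ p ∣ M') (hr : p = 3 → 2 ∣ M')
    (A : ValuationSubring (AlgebraicClosure ℚ)) (hA : A.LiesOverPrime p)
    (h4 : S4For p M' A (finPart p M' A)) :
    ∃ 𝓕 𝒮 : AddSubgroup (JZero (p * M')),
      S1For p M' A 𝒮 ∧ S2For p M' A 𝒮 ∧ S3For p M' 𝓕 𝒮 ∧ S4For p M' A 𝓕 := by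
  have hg : Fermat.Agent.S37.Core.GoodLevel M' p := by
    by_cases h3 : p = 3
    · exact Or.inr (Or.inl ⟨h3, hr h3⟩)
    · refine Or.inl ?_
      have := hp.two_le
      rcases Nat.lt_or_ge p 5 with h | h
      · interval_cases p
        · exact absurd rfl hp2
        · exact absurd rfl h3
        · exact absurd hp (by decide)
      · exact h
  exact ⟨finPart p M' A, splitPart p M' A, H884.s1 p M' hp hpM A hA,
    Fermat.Agent.S33.H558.s2Ready p M' hp hp2 hpM hr A hA,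
    s3For_good p M' hp hp2 hpM hg A hA, h4⟩

/-- **Frozen S39 at the level `p M'` (READY, `p` odd) from (S4) alone.** -/
theorem s39At_of_s4For (p M' : ℕ) [NeZero M'] [NeZero p] [NeZero (p * M')] (hp : p.Prime)
    (hp2 : p ≠ 2) (hpM : ¬ p ∣ M') (hr : p = 3 → 2 ∣ M')
    (h4 : ∀ A : ValuationSubring (AlgebraicClosure ℚ), A.LiesOverPrime p →
      S4For p M' A (finPart p M' A)) :
    Fermat.Agent.Ribet.H109.Peu.S39At p M' :=
  Fermat.Agent.Ribet.H109.Peu.s39At_of_targetsFor hp hp2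
    (fun A hA => targets_of_s4For p M' hp hp2 hpM hr A hA (h4 A hA))

/-! ## The statements of the cell at `p = 3` -/

/-- **UNIT-EIS at `p = 3`**: `u` is an Eisenstein eigenfunction for `ℓ ∤ 6`. -/
def UnitEis3Statement (u : LaurentSeries Kbar) : Prop := UnitEisFor 6 u

/-- **TAME at `p = 3`, READY levels, unit `u`.** -/
def Tame3Statement (u : LaurentSeries Kbar) : Prop :=
  ∀ (p M' : ℕ) [NeZero M'] [NeZero p] [NeZero (p * M')], p.Prime → p = 3 → 2 ∣ M' → ¬ p ∣ M' →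
    ∀ A : ValuationSubring Kbar, A.LiesOverPrime p → TameUAt p M' A u

/-- **WILD at `p = 3`, READY levels, unit `u`.** -/
def Wild3Statement (u : LaurentSeries Kbar) : Prop :=
  ∀ (p M' : ℕ) [NeZero M'] [NeZero p] [NeZero (p * M')], p.Prime → p = 3 → 2 ∣ M' → ¬ p ∣ M' →
    ∀ A : ValuationSubring Kbar, A.LiesOverPrime p → WildUAt p M' A u

/-- **CUSP at `p = 3`, READY levels.** -/
def Cusp3Statement : Prop :=
  ∀ (p M' : ℕ) [NeZero M'] [NeZero p] [NeZero (p * M')], p.Prime → p = 3 → 2 ∣ M' → ¬ p ∣ M' →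
    ∀ A : ValuationSubring Kbar, A.LiesOverPrime p → CuspPurityAt p M' A

/-- **(S4) at `p = 3`, READY levels.** -/
def S4Ready3Statement : Prop :=
  ∀ (p M' : ℕ) [NeZero M'] [NeZero p] [NeZero (p * M')], p.Prime → p = 3 → 2 ∣ M' → ¬ p ∣ M' →
    ∀ A : ValuationSubring Kbar, A.LiesOverPrime p → S4For p M' A (finPart p M' A)

/-- **Frozen S39 at `p = 3`, READY levels**: level `3 M'` ⟹ level `M'`, `2 ∣ M'`, `3 ∤ M'`. -/
def S39Ready3Statement : Prop :=
  ∀ (p M' : ℕ), p.Prime → p = 3 → 0 < M' → 2 ∣ M' → ¬ p ∣ M' →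
    Fermat.Agent.Ribet.H109.Peu.S39At p M'

/-- (S4) at `p = 3`, READY levels, from the four leaves. -/
theorem s4Ready3_of_leaves (u : LaurentSeries Kbar) (hU : UnitEis3Statement u)
    (hT : Tame3Statement u) (hW : Wild3Statement u) (hC : Cusp3Statement) :
    S4Ready3Statement := by
  intro p M' _ _ _ hp h3 h2 hpM A hA
  have h6 : 6 ∣ p * M' := by
    obtain ⟨k, rfl⟩ := h2
    subst h3
    exact ⟨k, by ring⟩
  exact s4For_of_leavesU p M' hp hpM A hA u (UnitEisFor.mono hU h6)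
    (hT p M' hp h3 h2 hpM A hA) (hW p M' hp h3 h2 hpM A hA) (hC p M' hp h3 h2 hpM A hA)

/-- Frozen S39 at `p = 3`, READY levels, from (S4). -/
theorem s39Ready3_of_s4 (h4 : S4Ready3Statement) : S39Ready3Statement := by
  intro p M' hp h3 hM' h2 hpM
  haveI : NeZero M' := ⟨hM'.ne'⟩
  haveI : NeZero p := ⟨hp.ne_zero⟩
  haveI : NeZero (p * M') := ⟨(Nat.mul_pos hp.pos hM').ne'⟩
  have hp2 : p ≠ 2 := by omega
  exact s39At_of_s4For p M' hp hp2 hpM (fun _ => h2) (fun A hA => h4 p M' hp h3 h2 hpM A hA)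

/-- **Frozen S39 at `p = 3`, READY levels, from the four leaves of the cell.** -/
theorem s39Ready3_of_leaves (u : LaurentSeries Kbar) (hU : UnitEis3Statement u)
    (hT : Tame3Statement u) (hW : Wild3Statement u) (hC : Cusp3Statement) :
    S39Ready3Statement :=
  s39Ready3_of_s4 (s4Ready3_of_leaves u hU hT hW hC)

end Fermat.Agent.S59.WallP3

end

end
-- ===== PACK-END S59/WallP3/Spec.lean

-- ===== PACK-BEGIN S59/WallP3/Glue.lean
section






/-!
# S59 moonshot, cell (A): the target `S39W35Statement` from the READY wall at `p = 3`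
  (cell architect helper944)

    s39W35_of_ready : S39Ge5Statement → S39Ready3Statement → MazurW35Statement →
                      ResUnramStatement → S39W35Statement

* `p = 5`: `H109.Peu.S39Ge5Statement` (closed by the S44 chain, `H109.Peu.S39Ge5_of_open`).
* `p = 3`, `2 ∣ M`: the READY wall `WallP3.S39Ready3Statement`.
* `p = 3`, `2 ∤ M`: PAD with `2` (`S59.H96.exists_stabilized`), READY wall at the level `6 M'`,
  UNPAD by Mazur's principle at `(p, q) = (3, 2)` at the level `2 M'` (`3 ∤ 2 M'`): `E[3]` is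
  unramified at `2` by `ResUnram` at the level `3 M'`, and `2` is not a pivot (`3 ∤ 2 - 1`).

WARNING for cell (B1): `MazurW35Statement` at `(p, q) = (3, 2)` is an INPUT here, so its proof
must not use `S39W35Statement` at `p = 3` (circle).
-/

set_option autoImplicit false
set_option linter.style.haveILetI false

open scoped WeierstrassCurve.Affine

namespace Fermat.Agent.S59.WallP3

open Fermat.Agent.S59.Arch Fermat.Agent.S59.Arch.LOW Fermat.Agent.S59.H934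

/-- **PAD**: residual modularity of level `M` gives residual modularity of level `M * r` for a
prime `r ∤ M` (`r`-stabilisation). -/
theorem isResiduallyModularOfLevel_mul_prime (W : WeierstrassCurve ℤ) (p M r : ℕ)
    (hr : r.Prime) (hrM : ¬ r ∣ M) (h : W.IsResiduallyModularOfLevel p M) :
    W.IsResiduallyModularOfLevel p (M * r) := by
  obtain ⟨f, 𝔪, hf, hmax, hpm, hc⟩ := h
  obtain ⟨g, hg, hgl⟩ := Fermat.Agent.S59.H96.exists_stabilized hf hr hrM
  refine ⟨g, 𝔪, hg, hmax, hpm, fun ℓ hℓ hgood hℓM hℓp => ?_⟩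
  have hℓM' : ¬ ℓ ∣ M := fun h => hℓM (h.mul_right r)
  have hℓr : ℓ ≠ r := fun h => hℓM (h ▸ dvd_mul_left _ _)
  obtain ⟨a, ha, ham⟩ := hc ℓ hℓ hgood hℓM' hℓp
  exact ⟨a, by rw [ha, hgl ℓ hℓ hℓr], ham⟩

/-- **The target of cell (A) from the READY wall at `p = 3`.** -/
theorem s39W35_of_ready (h5 : Fermat.Agent.Ribet.H109.Peu.S39Ge5Statement)
    (h3 : S39Ready3Statement) (hMz : MazurW35Statement) (hU : ResUnramStatement) :
    S39W35Statement := by
  intro p _ hp W hΔ hW hirr hfin M hM hpM hmod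
  have hpp : p.Prime := Fact.out
  have hp2M : ¬ p ^ 2 ∣ M := by
    intro h2
    rw [pow_two] at h2
    exact hpp.not_isUnit (hM p h2)
  rcases hp with h3' | h5'
  · -- `p = 3`
    obtain ⟨M', rfl⟩ := hpM
    have hM'pos : 0 < M' := by
      rcases Nat.eq_zero_or_pos M' with h0 | h0
      · subst h0
        simp at hM
      · exact h0
    have hpM' : ¬ p ∣ M' := by
      rintro ⟨k, rfl⟩
      exact hp2M ⟨k, by ring⟩
    rw [Nat.mul_div_cancel_left M' hpp.pos]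
    by_cases h2 : 2 ∣ M'
    · exact h3 p M' hpp h3' hM'pos h2 hpM' W hΔ (hW p hpp) hirr hfin hmod
    · -- pad with `2`
      have h2pM : ¬ 2 ∣ p * M' := by
        intro h
        rcases (Nat.Prime.dvd_mul Nat.prime_two).mp h with h' | h'
        · have := (Nat.prime_dvd_prime_iff_eq Nat.prime_two hpp).mp h'
          omega
        · exact h2 h'
      have hpad : W.IsResiduallyModularOfLevel p (p * (2 * M')) := by
        have := isResiduallyModularOfLevel_mul_prime W p (p * M') 2 Nat.prime_two h2pM hmod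
        have e : p * M' * 2 = p * (2 * M') := by ring
        rwa [e] at this
      have hp2M' : ¬ p ∣ 2 * M' := by
        intro h
        rcases (Nat.Prime.dvd_mul hpp).mp h with h' | h'
        · have := (Nat.prime_dvd_prime_iff_eq hpp Nat.prime_two).mp h'
          omega
        · exact hpM' h'
      have hlev : W.IsResiduallyModularOfLevel p (2 * M') :=
        h3 p (2 * M') hpp h3' (by omega) (dvd_mul_right 2 M') hp2M' W hΔ (hW p hpp) hirr hfin
          hpad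
      -- unpad: Mazur's principle at `q = 2`
      haveI : ((W.map (Int.castRingHom ℚ))⁄(AlgebraicClosure ℚ)).IsElliptic :=
        Fermat.Agent.Ribet.H823.h823_isEllipticW_bar hΔ
      have hcard := Fermat.Agent.S59.H127.card_torsion_prime (W.map (Int.castRingHom ℚ)) p
      have hker := Fermat.Agent.Ribet.H823.h823_rhoW_finiteLevel hΔ hpp
      have h2p : (2 : ℕ) ≠ p := by omega
      have hsq2 : Squarefree (2 * M') := by
        have hM'sq : Squarefree M' := hM.squarefree_of_dvd (dvd_mul_left M' p)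
        rw [Nat.squarefree_mul_iff]
        exact ⟨(Nat.coprime_primes Nat.prime_two hpp).mpr h2p |>.symm.symm |> fun _ =>
          (Nat.Prime.coprime_iff_not_dvd Nat.prime_two).mpr h2, Nat.prime_two.squarefree,
          hM'sq⟩
      have hunr := hU p (Or.inl h3') W hΔ hW hirr hcard hker (p * M') hM hmod 2 Nat.prime_two
        h2p h2pM
      have hnp : ¬ IsPivotAt p ((W.map (Int.castRingHom ℚ)).residualGaloisRepOf p hcard hker)
          2 := by
        rintro ⟨hd, -⟩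
        have : p ∣ 1 := hd
        exact hpp.one_lt.ne' (Nat.dvd_one.mp this)
      have hres := hMz p (Or.inl h3') W hΔ hW hirr hcard hker (2 * M') 2 hsq2 Nat.prime_two
        h2p (dvd_mul_right 2 M') hunr hnp hlev
      rwa [Nat.mul_div_cancel_left M' (by norm_num : 0 < 2)] at hres
  · -- `p = 5`
    exact h5 W hΔ hpp (by omega) (hW p hpp) hirr hfin (Nat.pos_of_ne_zero hM.ne_zero) hpM hp2M
      hmod

/-- **Cell (A) from its leaves**: the closed `p ≥ 5` wall, the four leaves of the READY wall at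
`p = 3` for a unit `u`, Mazur's principle (cell (B1)) and `ResUnram`. -/
theorem s39W35_of_leaves (h5 : Fermat.Agent.Ribet.H109.Peu.S39Ge5Statement)
    (u : LaurentSeries Fermat.Agent.S24.Kbar) (hUE : UnitEis3Statement u)
    (hT : Tame3Statement u) (hWi : Wild3Statement u) (hC : Cusp3Statement)
    (hMz : MazurW35Statement) (hU : ResUnramStatement) : S39W35Statement :=
  s39W35_of_ready h5 (s39Ready3_of_leaves u hUE hT hWi hC) hMz hU

end Fermat.Agent.S59.WallP3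

end
-- ===== PACK-END S59/WallP3/Glue.lean

-- ===== PACK-BEGIN S59/WallP3/Cusp3.lean
section



/-!
# S59 moonshot, cell (A), leaf CUSP at `p = 3`, READY levels: CLOSED  (helper944)

`cusp3 : WallP3.Cusp3Statement`, from helper644's `H644.cuspPurityAux` (CUSP at every
auxiliary-good level, any torsion order) at `m = q = p = 3`, `2 ∣ M'`.
-/

set_option autoImplicit false

namespace Fermat.Agent.S59.WallP3

open Fermat.Agent.Ribet.H884

/-- **CUSP at one READY level, `p` odd** (`p = 3 → 2 ∣ M'`). -/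
theorem cuspPurityAt_ready (p M' : ℕ) [NeZero M'] [NeZero p] [NeZero (p * M')] (hp : p.Prime)
    (hp2 : p ≠ 2) (hpM : ¬ p ∣ M') (hr : p = 3 → 2 ∣ M')
    (A : ValuationSubring Fermat.Agent.S24.Kbar) (hA : A.LiesOverPrime p) :
    CuspPurityAt p M' A :=
  fun g y hK hNG =>
    Fermat.Agent.Ribet.H644.cuspPurityAux p p M' hp hpM ⟨hr, fun h => absurd h hp2⟩ hp.pos A hA
      g y hK hNG

/-- **CUSP at `p = 3`, READY levels: CLOSED.** -/
theorem cusp3 : Cusp3Statement :=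
  fun p M' _ _ _ hp h3 h2 hpM A hA =>
    cuspPurityAt_ready p M' hp (by omega) hpM (fun _ => h2) A hA

end Fermat.Agent.S59.WallP3

end
-- ===== PACK-END S59/WallP3/Cusp3.lean

-- ===== PACK-BEGIN S59/WallP3/UnitEis3.lean
section




/-!
# S59 moonshot, cell (A), leaf UNIT-EIS at `p = 3`: CLOSED  (helper944)

The unit of the cell: `u3 := v⁻¹` over `ℚ̄`, `v = (η(τ)η(2τ)/(η(3τ)η(6τ)))⁸` (helper461,
`S59.Unit3.H461.v3L`, `v3InvL`).  `unitEis3 : UnitEis3Statement u3` by the `IsNormEig` calculus of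
helper67 (`Ribet/H67/UnitEisLaurent.lean`): every eta-quotient is an eigenfunction of the formal
Hecke norm `kronNorm ℓ`, `ℓ` prime to the level.
-/

set_option autoImplicit false
set_option linter.unusedSectionVars false

noncomputable section

namespace Fermat.Agent.S59.WallP3

open ModularCurve HahnSeries
open Fermat.Agent.S24 Fermat.Agent.A2.H708
open Fermat.Agent.S37.H400 Fermat.Agent.Ribet.H67 Fermat.Agent.S59.Unit3.H461

/-- **The unit of cell (A)**: the `t`-expansion over `ℚ̄` of `v⁻¹`,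
`v = (η(τ)η(2τ)/(η(3τ)η(6τ)))⁸`. -/
def u3 : LaurentSeries Kbar := coeffMap (Int.castRingHom Kbar) v3InvL

theorem u3_mul_v3 : u3 * coeffMap (Int.castRingHom Kbar) v3L = 1 := by
  rw [u3, ← map_mul, mul_comm, v3L_mul_v3InvL, map_one]

/-- A series `D` with `D · v = 1` is `u3`. -/
theorem eq_u3_of_mul_eq_one {D : LaurentSeries Kbar}
    (h : D * coeffMap (Int.castRingHom Kbar) v3L = 1) : D = u3 := by
  calc D = D * (coeffMap (Int.castRingHom Kbar) v3L * u3) := by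
        rw [mul_comm _ u3, u3_mul_v3, mul_one]
    _ = u3 := by rw [← mul_assoc, h, one_mul]

section Eig

variable {L : Type*} [Field L] {ℓ : ℕ} [NeZero ℓ]

theorem coeffMap_e8L : coeffMap (Int.castRingHom L) e8L =
    (HahnSeries.ofPowerSeries ℤ L (etaK L)) ^ 8 := by
  rw [e8L, coeffMap_ofPowerSeries, map_pow, map_pow]
  rfl

theorem isNormEig_e8L (hℓ : ℓ.Prime) {ζ : L} (hζ : IsPrimitiveRoot ζ ℓ) :
    IsNormEig ℓ (coeffMap (Int.castRingHom L) e8L) := by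
  rw [coeffMap_e8L]
  refine IsNormEig.pow ⟨1, one_ne_zero, ?_⟩ 8
  rw [map_one, one_mul]
  exact kronNorm_ofPS_of_identity hζ _ (etaK_norm_identity hℓ hζ)

theorem isNormEig_qExpand_e8L (hℓ : ℓ.Prime) {ζ : L} (hζ : IsPrimitiveRoot ζ ℓ) (d : ℕ)
    [NeZero d] (hd : ¬ ℓ ∣ d) :
    IsNormEig ℓ (coeffMap (Int.castRingHom L) (qExpand ℤ d e8L)) := by
  rw [coeffMap_qExpand_h400, coeffMap_e8L, map_pow, ← ofPS_expand d (NeZero.ne d)]
  refine IsNormEig.pow ⟨1, one_ne_zero, ?_⟩ 8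
  rw [map_one, one_mul]
  exact kronNorm_ofPS_of_identity hζ _ (etaK_expand_norm_identity hℓ hζ d (NeZero.ne d) hd)

theorem isNormEig_e8InvL (hℓ : ℓ.Prime) {ζ : L} (hζ : IsPrimitiveRoot ζ ℓ) :
    IsNormEig ℓ (coeffMap (Int.castRingHom L) e8InvL) :=
  (isNormEig_e8L hℓ hζ).of_mul_eq_one (by rw [← map_mul, e8L_mul_e8InvL, map_one])

theorem isNormEig_qExpand_e8InvL (hℓ : ℓ.Prime) {ζ : L} (hζ : IsPrimitiveRoot ζ ℓ) (d : ℕ)
    [NeZero d] (hd : ¬ ℓ ∣ d) :
    IsNormEig ℓ (coeffMap (Int.castRingHom L) (qExpand ℤ d e8InvL)) :=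
  (isNormEig_qExpand_e8L hℓ hζ d hd).of_mul_eq_one
    (by rw [← map_mul, ← map_mul, e8L_mul_e8InvL, map_one, map_one])

theorem isNormEig_single_two (hℓ : ℓ.Prime) {ζ : L} (hζ : IsPrimitiveRoot ζ ℓ) :
    IsNormEig ℓ (coeffMap (Int.castRingHom L) (HahnSeries.single (2 : ℤ) (1 : ℤ))) := by
  have hε : (∏ b : Fin ℓ, ζ ^ (b : ℕ)) ≠ 0 :=
    Finset.prod_ne_zero_iff.2 fun b _ => pow_ne_zero _ (hζ.ne_zero hℓ.ne_zero)
  have hq : IsNormEig ℓ (Fermat.Agent.S37.H340.qq : LaurentSeries L) := ⟨_, hε, kronNorm_qq hζ⟩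
  have e : coeffMap (Int.castRingHom L) (HahnSeries.single (2 : ℤ) (1 : ℤ)) =
      (Fermat.Agent.S37.H340.qq : LaurentSeries L) ^ 2 := by
    rw [coeffMap_single, Fermat.Agent.S37.H340.qq_pow, map_one]
    rfl
  rw [e]
  exact hq.pow 2

/-- **`v⁻¹` is an eigenfunction of the formal Hecke norm `kronNorm ℓ`, `ℓ ∤ 6`.** -/
theorem isNormEig_v3InvL (hℓ : ℓ.Prime) (h6 : ¬ ℓ ∣ 6) {ζ : L} (hζ : IsPrimitiveRoot ζ ℓ) :
    IsNormEig ℓ (coeffMap (Int.castRingHom L) v3InvL) := by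
  have h2 : ¬ ℓ ∣ 2 := fun h => h6 (h.trans (by norm_num))
  have h3 : ¬ ℓ ∣ 3 := fun h => h6 (h.trans (by norm_num))
  rw [v3InvL, map_mul, map_mul, map_mul, map_mul]
  exact ((((isNormEig_single_two hℓ hζ).mul (isNormEig_e8InvL hℓ hζ)).mul
    (isNormEig_qExpand_e8InvL hℓ hζ 2 h2)).mul (isNormEig_qExpand_e8L hℓ hζ 3 h3)).mul
    (isNormEig_qExpand_e8L hℓ hζ 6 h6)

end Eig

/-- **UNIT-EIS at `p = 3`: CLOSED.** -/
theorem unitEis3 : UnitEis3Statement u3 := by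
  intro ℓ _ hℓ6
  have : NeZero (((ℓ : ℕ) : ℕ) : ℚ) := ⟨by exact_mod_cast ℓ.2.ne_zero⟩
  obtain ⟨ζ, hζ⟩ := HasEnoughRootsOfUnity.exists_primitiveRoot Kbar (ℓ : ℕ)
  obtain ⟨c, hc, h⟩ := isNormEig_v3InvL (L := Kbar) ℓ.2 hℓ6 hζ
  exact ⟨c, hc, by rw [u3, h, cst_eq_C]⟩

end Fermat.Agent.S59.WallP3

end

end
-- ===== PACK-END S59/WallP3/UnitEis3.lean

-- ===== PACK-BEGIN Ribet/H712/WildFrameOdd.lean
section


/-!
# Row 38 / S59 gate, WALL-p, CORE-OUT WILD: the frame for ODD `p`, abstract unit pair  (helper712)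

`H712.Frame.wildFrame_core` (`WildFrameAsm.lean`) uses `5 ≤ p` only for
* the exponent `12 (p - 1)` of the unit pair `D · D' = w ^ (12 e)` (prime to `p` iff `p ≠ 3`),
* the hypotheses `p = 3 → 2 ∣ M'`, `p = 2 → 3 ∣ M'` of `H279.TwoLevel.twoLevelModel`,
* `p ≠ 2` (`H339.deepSplit339`).

Here the unit pair is an ABSTRACT input (`UnitPairAt`), `p` is any odd prime and `p = 3` needs
`2 ∣ M'`:

`wildFrame_core_odd` : LEVEL (`H944`) + KD data + `UnitPairAt` ⟹ `Nonempty (WildFrame …)` with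
`D₂ = levelMap D₁`, `Q D₁` (`Q` = any property of the first member of the pair, e.g. its
`t`-expansion).
-/

set_option autoImplicit false
set_option synthInstance.maxHeartbeats 400000
set_option maxHeartbeats 2000000
set_option linter.unusedSectionVars false
set_option linter.unusedVariables false
set_option linter.style.haveILetI false

noncomputable section

namespace Fermat.Agent.Ribet.H712.Frame

open ModularCurve HahnSeries AlgebraicCurve
open Fermat.Agent.S24 Fermat.Agent.A2 Fermat.Agent.Ribet.H704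
open Fermat.Agent.Ribet.H704.CoreOut
open Fermat.Agent.Ribet.Spec Fermat.Agent.Ribet.H944.Wall Fermat.Agent.Ribet.H884

section Odd

open Fermat.Agent.Ribet.H944.Tame

variable (p M' : ℕ) [NeZero M'] [NeZero p] [NeZero (p * M')]

/-- **Abstract UNIT input** at a level `E`: for every uniformiser and both cuts of the chart of
`xE`, a pair `D · D' = w ^ Nn` with `Nn` prime to `p`, `D ∉ 𝔭₁`, `D' ∉ 𝔭₂`, and `Q D`. -/
def UnitPairAt (A : ValuationSubring Kbar) (E : IntermediateField ℚ Kbar)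
    (Q : ↥(Mod.FE E (M' * p)) → Prop) : Prop :=
  ∀ (w : Mod.RE A E), Mod.Setting A E M' p w →
    ∀ (V : ValuationSubring (Mod.FE E (M' * p)))
      (W : Mod.FE E (M' * p) ≃ₐ[E] Mod.FE E (M' * p)),
      Mod.IsVinf A E (M' * p) V → Mod.IsFricke E (M' * p) W →
      ∀ p₁ p₂ : Ideal (Mod.chartAlg A E (M' * p) (Mod.xE E M' p)),
        Mod.IsCut A E (M' * p) w V (Mod.chartAlg A E (M' * p) (Mod.xE E M' p)) p₁ →
        Mod.IsCut A E (M' * p) w (V.comap (W : Mod.FE E (M' * p) →+* Mod.FE E (M' * p)))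
          (Mod.chartAlg A E (M' * p) (Mod.xE E M' p)) p₂ →
        ∃ (Nn : ℕ) (D D' : Mod.chartAlg A E (M' * p) (Mod.xE E M' p)), Nat.Coprime Nn p ∧
          D * D' =
            algebraMap (Mod.RE A E) (Mod.chartAlg A E (M' * p) (Mod.xE E M' p)) w ^ Nn ∧
          D ∉ p₁ ∧ D' ∉ p₂ ∧ Q (D : Mod.FE E (M' * p))

/-- The unit pair of `H463` (`Δ(t)/Δ(t^p)`, exponent `12 (p - 1)`) for `5 ≤ p`. -/
theorem unitPairAt_of_five_le (hp : p.Prime) (hp5 : 5 ≤ p) (A : ValuationSubring Kbar)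
    (hA : A.LiesOverPrime p) (ζ : Kbar) (hζ : IsPrimitiveRoot ζ p) :
    UnitPairAt p M' A (tameLevel A ζ) (fun D =>
      ((D : Mod.FE (tameLevel A ζ) (M' * p)) : LaurentSeries (tameLevel A ζ)) =
        Fermat.Agent.S36.H438.castE (tameLevel A ζ) (Fermat.Agent.S28.H589.unitL' p)) := by
  intro w hS V W hV hW p₁ p₂ hc₁ hc₂
  obtain ⟨e, D, D', he, hass, hmul, hD, hD', hDe⟩ :=
    Fermat.Agent.Ribet.H463.UnitExp.exists_unitPair_cut_exp463 hS hV hW p₁ p₂ hc₁ hc₂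
  haveI : IsDiscreteValuationRing (Mod.RE A (tameLevel A ζ)) := hS.dvr
  have hee : e = p - 1 :=
    exp_eq_of_associated hS.unif hass (associated_natCast_pow hp hA hζ w hS.unif)
  refine ⟨12 * e, D, D', ?_, hmul, hD, hD', hDe⟩
  rw [hee]
  exact coprime_unitExp hp hp5

/-- **The frame from the KD data, `p` odd, abstract unit pair** (levels `E₁ = tameLevel A ζ`,
`E₂ = wildLevel A ζ u`). -/
theorem wildFrame_core_odd (hp : p.Prime) (hp2 : p ≠ 2) (h3 : p = 3 → 2 ∣ M') (hpM : ¬ p ∣ M')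
    (A : ValuationSubring Kbar) (hA : A.LiesOverPrime p)
    (S : Finset ℕ) (a : ℕ → ℤ) (hNE : NonEisAway p a) (t : JZero (p * M'))
    (ht : IsNewTors p M' t) (het : EigenAt (p * M') S a t)
    (hχ : ∀ σ ∈ A.inertiaSubgroupIn ℚ, ∀ c : ℕ, CycloAt p σ c → σ • t = c • t)
    (ζ : Kbar) (hζ : IsPrimitiveRoot ζ p) (σ₁ : GQ) (u : Kbar)
    (hσ₁I : σ₁ ∈ A.inertiaSubgroupIn ℚ) (hσ₁1 : CycloAt p σ₁ 1)
    (hσ₁u : σ₁ u = ζ * u) (huA : u ∈ A) (huA' : u⁻¹ ∈ A) (hu0 : u ≠ 0)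
    (hup : u ^ p ∈ tameLevel A ζ)
    (hG₂ : GoodField A (wildLevel A ζ u))
    (Q : ↥(Mod.FE (tameLevel A ζ) (M' * p)) → Prop)
    (hUnit : UnitPairAt p M' A (tameLevel A ζ) Q)
    (ft : Mod.FE (tameLevel A ζ) (M' * p))
    (f₂ G₀ : Mod.FE (wildLevel A ζ u) (M' * p)) (Ft : FF (p * M')) (κ : Kbar)
    (hlc : (ft : LaurentSeries (tameLevel A ζ)).leadingCoeff = 1)
    (hord : (p : ℤ) ∣ (ft : LaurentSeries (tameLevel A ζ)).order)
    (hnp : ∀ z : Mod.FE (tameLevel A ζ) (M' * p), z ^ p ≠ ft)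
    (hKt : IsKummerGen (p * M') p Ft t)
    (hFt : (Ft : LaurentSeries Kbar) = coeffMap (algebraMap (tameLevel A ζ) Kbar)
      (ft : LaurentSeries (tameLevel A ζ)))
    (hf₂0 : f₂ ≠ 0) (hdiv₂ : DivisibleDiv (wildLevel A ζ u) p f₂)
    (hκ : κ ∈ wildLevel A ζ u)
    (hσ : coeffMap ((σ₁ : Kbar ≃ₐ[ℚ] Kbar) : Kbar →+* Kbar)
          (coeffMap (algebraMap (wildLevel A ζ u) Kbar)
            (f₂ : LaurentSeries (wildLevel A ζ u))) =
        coeffMap (algebraMap (wildLevel A ζ u) Kbar)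
            (f₂ : LaurentSeries (wildLevel A ζ u)) *
          HahnSeries.C κ *
          coeffMap (algebraMap (tameLevel A ζ) Kbar)
            (ft : LaurentSeries (tameLevel A ζ)) *
          (coeffMap (algebraMap (wildLevel A ζ u) Kbar)
            (G₀ : LaurentSeries (wildLevel A ζ u))) ^ p) :
    ∃ (w₂ : Mod.RE A (wildLevel A ζ u))
      (c₂ : SSChart w₂ (Mod.chartAlg A (wildLevel A ζ u) (M' * p)
        (Mod.xE (wildLevel A ζ u) M' p)))
      (D₁ : Mod.FE (tameLevel A ζ) (M' * p)),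
      Mod.Setting A (wildLevel A ζ u) M' p w₂ ∧
      Alg.ChartCtx (wildLevel A ζ u) w₂ (Mod.xE (wildLevel A ζ u) M' p)
        (Mod.chartAlg A (wildLevel A ζ u) (M' * p) (Mod.xE (wildLevel A ζ u) M' p)) ∧
      Q D₁ ∧
      Nonempty (WildFrame p (Mod.RE A (wildLevel A ζ u)) (wildLevel A ζ u)
        (Mod.FE (wildLevel A ζ u) (M' * p)) w₂
        (Mod.chartAlg A (wildLevel A ζ u) (M' * p) (Mod.xE (wildLevel A ζ u) M' p)) c₂ f₂
        (levelMap (M' * p) (tameLevel_le_wildLevel A ζ u) D₁)) := by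
  classical
  have hN : M' * p ≠ 0 := mul_ne_zero (NeZero.ne M') hp.ne_zero
  haveI : NeZero (M' * p) := ⟨hN⟩
  have hle : tameLevel A ζ ≤ wildLevel A ζ u := tameLevel_le_wildLevel A ζ u
  have hG₁ : GoodField A (tameLevel A ζ) := goodField_tameLevel A hp hA ζ
  have hdvr₁ : IsDiscreteValuationRing (Mod.RE A (tameLevel A ζ)) := hG₁.dvr
  have hdvr₂ : IsDiscreteValuationRing (Mod.RE A (wildLevel A ζ u)) := hG₂.dvr
  obtain ⟨w₁, hw₁⟩ := IsDiscreteValuationRing.exists_irreducible (Mod.RE A (tameLevel A ζ))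
  obtain ⟨w₂, hw₂⟩ := IsDiscreteValuationRing.exists_irreducible (Mod.RE A (wildLevel A ζ u))
  have hS₁ : Mod.Setting A (tameLevel A ζ) M' p w₁ :=
    ⟨hp, hpM, NeZero.ne M', hA, hdvr₁, hw₁⟩
  have hS₂ : Mod.Setting A (wildLevel A ζ u) M' p w₂ :=
    ⟨hp, hpM, NeZero.ne M', hA, hdvr₂, hw₂⟩
  -- MODEL
  obtain ⟨c₁, c₂, ctx₁, ctx₂, hcut₁, -, hmap, hcomp₁, hcomp₂, hunif⟩ :=
    Fermat.Agent.Ribet.H279.TwoLevel.twoLevelModel A hle M' p hS₁ hS₂
      h3 (fun h => absurd h hp2)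
  rw [levelMap_eq_279] at hmap hcomp₁ hcomp₂
  rw [reMap_eq_279] at hunif
  obtain ⟨V₁, hV₁⟩ := Mod.H553.vinfExists A (tameLevel A ζ) (M' * p) hN hdvr₁
  have hW₁ : Mod.IsFricke (tameLevel A ζ) (M' * p) (Mod.H553.wE (tameLevel A ζ) (M' * p)) :=
    Mod.H553.isFricke_wE (tameLevel A ζ) (M' * p)
  obtain ⟨hc₁₁, hc₁₂⟩ := hcut₁ V₁ (Mod.H553.wE (tameLevel A ζ) (M' * p)) hV₁ hW₁
  -- UNIT (abstract input)
  obtain ⟨Nn, D, D', hN12, hmul, hD, hD', hQ⟩ :=
    hUnit w₁ hS₁ V₁ (Mod.H553.wE (tameLevel A ζ) (M' * p)) hV₁ hW₁ c₁.p₁ c₁.p₂ hc₁₁ hc₁₂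
  -- DEEP-SPLIT
  obtain ⟨hftdiv, hsp₁, hsp₂⟩ :=
    Fermat.Agent.Ribet.H339.deepSplit339 p M' hp hp2 hpM A hA S a hNE t ht het hχ
      (tameLevel A ζ) hG₁ w₁ hS₁ V₁ hV₁ (Mod.H553.wE (tameLevel A ζ) (M' * p)) hW₁
      (Mod.xE (tameLevel A ζ) M' p) (Or.inl rfl) c₁.p₁ c₁.p₂ hc₁₁ hc₁₂ Ft hKt ft hFt 1
      (by rw [hlc, one_pow])
  have hft0 : ft ≠ 0 := by
    intro h0
    have h1 : (ft : LaurentSeries (tameLevel A ζ)) = 0 := by rw [h0]; rfl
    rw [h1, HahnSeries.leadingCoeff_zero] at hlc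
    exact zero_ne_one hlc
  -- the root of unity `ζ⁻¹ = ζ ^ (p - 1)`
  have hcop : Nat.Coprime (p - 1) p := by
    rw [Nat.coprime_comm, Nat.Prime.coprime_iff_not_dvd hp]
    intro h
    have h2 := hp.two_le
    have := Nat.le_of_dvd (by omega) h
    omega
  have hζ' : IsPrimitiveRoot (ζ ^ (p - 1)) p := hζ.pow_of_coprime (p - 1) hcop
  have hζmul : ζ * ζ ^ (p - 1) = 1 := by
    rw [← pow_succ', Nat.sub_add_cancel hp.one_le, hζ.pow_eq_one]
  have hζinv : (ζ ^ (p - 1))⁻¹ = ζ := inv_eq_of_mul_eq_one_left hζmul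
  have hζE : ζ ^ (p - 1) ∈ tameLevel A ζ := pow_mem (zeta_mem_tameLevel A ζ) _
  have hζA : ζ ^ (p - 1) ∈ A := pow_mem (mem_of_pow_eq_one A hp.ne_zero hζ.pow_eq_one) _
  have hσE : ∀ c ∈ tameLevel A ζ, (σ₁ : Kbar ≃ₐ[ℚ] Kbar).toRingEquiv c = c := fun c hc =>
    inK1_of_mem_tameLevel A hζ.pow_eq_one hc σ₁ hσ₁I hσ₁1
  have hσu' : (σ₁ : Kbar ≃ₐ[ℚ] Kbar).toRingEquiv u = (ζ ^ (p - 1))⁻¹ * u := by
    rw [hζinv]
    exact hσ₁u
  -- COVER
  let c : Fermat.Agent.Ribet.H819.PerCtx Kbar :=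
    Fermat.Agent.Ribet.H819.PerCtx.ofKummer (modularFunctionFieldFull (M' * p)) p hp
      (tameLevel A ζ) (ζ ^ (p - 1)) hζ' hζE (σ₁ : Kbar ≃ₐ[ℚ] Kbar).toRingEquiv hσE u hσu' hu0 hup
      ft hlc hord hnp
  have hhp : c.h ^ p = sIota (tameLevel A ζ) (M' * p) ft :=
    Fermat.Agent.Ribet.H819.PerCtx.ofKummer_h_pow (modularFunctionFieldFull (M' * p)) p hp
      (tameLevel A ζ) (ζ ^ (p - 1)) hζ' hζE (σ₁ : Kbar ≃ₐ[ℚ] Kbar).toRingEquiv hσE u hσu' hu0 hup
      ft hlc hord hnp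
  have hhF : c.h ∉ Set.range (sIota (tameLevel A ζ) (M' * p)) := by
    intro hmem
    apply c.hhF
    obtain ⟨z, hz⟩ := hmem
    exact (Fermat.Agent.Ribet.H819.mem_imBC_iff (modularFunctionFieldFull (M' * p))
      (tameLevel A ζ) _).mpr ⟨z, hz⟩
  -- constants
  let ζR : Mod.RE A (tameLevel A ζ) := ⟨⟨ζ ^ (p - 1), hζE⟩, hζA⟩
  have hζR : IsPrimitiveRoot ζR p := by
    let φ : Mod.RE A (tameLevel A ζ) →+* Kbar :=
      (algebraMap (tameLevel A ζ) Kbar).comp (Mod.RE A (tameLevel A ζ)).subtype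
    have hφ : Function.Injective φ := fun x y h => coe_injective A _ h
    have h1 : IsPrimitiveRoot (φ ζR) p := hζ'
    exact IsPrimitiveRoot.of_map_of_injective h1 hφ
  let cc : Mod.RE A (tameLevel A ζ) := ⟨⟨u ^ p, hup⟩, pow_mem huA p⟩
  have hcc : IsUnit cc := by
    have hinvA : (u ^ p)⁻¹ ∈ A := by
      rw [← inv_pow]
      exact pow_mem huA' p
    refine isUnit_iff_exists_inv.mpr ⟨⟨⟨(u ^ p)⁻¹, inv_mem hup⟩, hinvA⟩, ?_⟩
    apply Subtype.ext
    apply Subtype.ext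
    show u ^ p * (u ^ p)⁻¹ = 1
    exact mul_inv_cancel₀ (pow_ne_zero p hu0)
  let lc : ↥(wildLevel A ζ u) := (f₂ : LaurentSeries (wildLevel A ζ u)).leadingCoeff
  have hlc0 : lc ≠ 0 :=
    HahnSeries.leadingCoeff_ne_zero.mpr (fun h => hf₂0 (Subtype.ext h))
  have hζc : sIota (tameLevel A ζ) (M' * p)
      (algebraMap (Mod.RE A (tameLevel A ζ)) (Mod.FE (tameLevel A ζ) (M' * p)) ζR) =
      HahnSeries.C c.ζ := sIota_algebraMap_RE A (M' * p) (tameLevel A ζ) ζR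
  have ha : sIota (tameLevel A ζ) (M' * p)
      (algebraMap (Mod.RE A (tameLevel A ζ)) (Mod.FE (tameLevel A ζ) (M' * p)) cc) =
      HahnSeries.C (c.u ^ c.p) := sIota_algebraMap_RE A (M' * p) (tameLevel A ζ) cc
  have hℓ : sIota (wildLevel A ζ u) (M' * p)
      (algebraMap ↥(wildLevel A ζ u) (Mod.FE (wildLevel A ζ u) (M' * p)) lc) =
      HahnSeries.C (sIota (wildLevel A ζ u) (M' * p) f₂).leadingCoeff := by
    rw [sIota_algebraMap, sIota_apply,
      Fermat.Agent.Ribet.H819.leadingCoeff_coeffMap_of_injective]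
    rfl
  -- PER
  letI iK : Algebra ↥(Mod.FE (tameLevel A ζ) (M' * p)) ↥(Mod.FE (wildLevel A ζ u) (M' * p)) :=
    (levelMap (M' * p) hle).toAlgebra
  obtain ⟨f', G, b, hf', hG, hb, hper, hf2⟩ :=
    c.per_cov (modularFunctionFieldFull (M' * p)) (E₁ := tameLevel A ζ)
      (E₂ := wildLevel A ζ u) rfl (Fermat.Agent.Ribet.H819.wildLevel_toSubfield A ζ u) rfl
      (hζR.map_of_injective (algebraMap_RE_FE_injective A (tameLevel A ζ) (M' * p))) hζc
      ft hhp hhF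
      (algebraMap (Mod.RE A (tameLevel A ζ)) (Mod.FE (tameLevel A ζ) (M' * p)) cc) ha
      f₂ G₀ (algebraMap ↥(wildLevel A ζ u) (Mod.FE (wildLevel A ζ u) (M' * p)) lc) hf₂0 hℓ
      κ hκ hσ
  -- HOR-DESC
  have hf'div : ∀ V : ValuationSubring ↥(cov (sIota (tameLevel A ζ) (M' * p)) c.h),
      IsDiscreteValuationRing V →
      (∀ e : ↥(tameLevel A ζ), covMap (sIota (tameLevel A ζ) (M' * p)) c.h
        (algebraMap ↥(tameLevel A ζ) (Mod.FE (tameLevel A ζ) (M' * p)) e) ∈ V) →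
      ∃ g v : ↥(cov (sIota (tameLevel A ζ) (M' * p)) c.h), g ≠ 0 ∧ v ∈ V ∧ v⁻¹ ∈ V ∧
        f' = v * g ^ p := by
    letI iK₁L₁ : Algebra ↥(Mod.FE (tameLevel A ζ) (M' * p))
        ↥(cov (sIota (tameLevel A ζ) (M' * p)) c.h) :=
      covAlgebra (sIota (tameLevel A ζ) (M' * p)) c.h
    letI iE₁L₁ : Algebra ↥(tameLevel A ζ) ↥(cov (sIota (tameLevel A ζ) (M' * p)) c.h) :=
      ((covMap (sIota (tameLevel A ζ) (M' * p)) c.h).comp
        (algebraMap ↥(tameLevel A ζ) ↥(Mod.FE (tameLevel A ζ) (M' * p)))).toAlgebra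
    letI iK₂L₂ : Algebra ↥(Mod.FE (wildLevel A ζ u) (M' * p))
        ↥(cov (sIota (wildLevel A ζ u) (M' * p)) c.h) :=
      covAlgebra (sIota (wildLevel A ζ u) (M' * p)) c.h
    letI iL₁L₂ : Algebra ↥(cov (sIota (tameLevel A ζ) (M' * p)) c.h)
        ↥(cov (sIota (wildLevel A ζ u) (M' * p)) c.h) :=
      (covIncl (sIota (tameLevel A ζ) (M' * p)) c.h (sIota (wildLevel A ζ u) (M' * p))
        (levelMap (M' * p) hle) (sIota_levelMap (M' * p) hle)).toAlgebra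
    letI iK₁L₂ : Algebra ↥(Mod.FE (tameLevel A ζ) (M' * p))
        ↥(cov (sIota (wildLevel A ζ u) (M' * p)) c.h) :=
      ((covMap (sIota (wildLevel A ζ u) (M' * p)) c.h).comp (levelMap (M' * p) hle)).toAlgebra
    haveI t1 : IsScalarTower ↥(Mod.FE (tameLevel A ζ) (M' * p))
        ↥(Mod.FE (wildLevel A ζ u) (M' * p)) ↥(cov (sIota (wildLevel A ζ u) (M' * p)) c.h) :=
      IsScalarTower.of_algebraMap_eq (fun _ => rfl)
    haveI t2 : IsScalarTower ↥(Mod.FE (tameLevel A ζ) (M' * p))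
        ↥(cov (sIota (tameLevel A ζ) (M' * p)) c.h)
        ↥(cov (sIota (wildLevel A ζ u) (M' * p)) c.h) :=
      IsScalarTower.of_algebraMap_eq (fun z =>
        Subtype.ext (sIota_levelMap (M' * p) hle z))
    haveI : Algebra.IsAlgebraic ℚ Kbar := AlgebraicClosure.isAlgebraic ℚ
    have halgE₂ : Algebra.IsAlgebraic ℚ ↥(wildLevel A ζ u) :=
      Fermat.Agent.Ribet.H769.isAlgebraic_rat_intermediateField769 (wildLevel A ζ u)
    have hK₂ : IntermediateField.adjoin ↥(Mod.FE (tameLevel A ζ) (M' * p))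
        (Set.range (algebraMap ↥(wildLevel A ζ u) ↥(Mod.FE (wildLevel A ζ u) (M' * p)))) = ⊤ :=
      Fermat.Agent.Ribet.H769.adjoin_const_laurentBaseChange769
        (modularFunctionFieldFull (M' * p)) (incE hle) (fun _ => rfl)
    have hfr := Fermat.Agent.Ribet.H769.horDesc_frame769
      (E₁ := ↥(tameLevel A ζ)) (K₁ := ↥(Mod.FE (tameLevel A ζ) (M' * p)))
      (L₁ := ↥(cov (sIota (tameLevel A ζ) (M' * p)) c.h))
      (E₂ := ↥(wildLevel A ζ u)) (K₂ := ↥(Mod.FE (wildLevel A ζ u) (M' * p)))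
      (L₂ := ↥(cov (sIota (wildLevel A ζ u) (M' * p)) c.h))
      halgE₂ p hK₂ (covGen (sIota (tameLevel A ζ) (M' * p)) c.h)
      (adjoin_covGen (sIota (wildLevel A ζ u) (M' * p)) c.h)
      (f₂ := f₂) hdiv₂ (f' := f') (lc := lc) (b := b) hlc0 hb (Subtype.ext hf2)
    exact hfr
  have hp_mem : (p : Mod.RE A (tameLevel A ζ)) ∈
      IsLocalRing.maximalIdeal (Mod.RE A (tameLevel A ζ)) := by
    rw [IsLocalRing.mem_maximalIdeal, mem_nonunits_iff]
    exact Fermat.Agent.Ribet.H873.not_isUnit_natCast873 hA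
  exact ⟨w₂, c₂, (D : Mod.FE (tameLevel A ζ) (M' * p)), hS₂, ctx₂, hQ,
    nonempty_wildFrame p M' hp A (tameLevel A ζ) (wildLevel A ζ u) hle w₁ w₂ c₂ f₂
      (levelMap (M' * p) hle (D : Mod.FE (tameLevel A ζ) (M' * p))) hdvr₁ hG₁.algClosed hp_mem
      ζR hζR ctx₁ c₁ hmap hcomp₁ hcomp₂ hunif Nn D D' hN12 hmul hD hD' rfl
      ft hft0 hftdiv hsp₁ hsp₂ c.h hhp hhF f' G cc hf' hG hcc hper hf'div lc b hlc0 hb hf2⟩

end Odd

end Fermat.Agent.Ribet.H712.Frame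

end

end
-- ===== PACK-END Ribet/H712/WildFrameOdd.lean

-- ===== PACK-BEGIN Ribet/H109/S39Final2.lean
section




/-!
# Row 38, the S39 line for `p ≥ 5`: the SAME frontier as S44  (helper109)

`H943.Final2.S44_of_open : S2Statement5 → EisSlopeStatement → S44Statement` is the final term of
S44.  The same two inputs give frozen S39 restricted to `p ≥ 5`:

    S39Ge5_of_open : S2Statement5 → EisSlopeStatement → S39Ge5Statement

(and `S40Ge5_of_open` for frozen S40 restricted to `p ≥ 5`).  So the day S44 closes, S39 and S40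
are closed for `p ≥ 5`; the only part of frozen S39 / S40 left is `p = 3`.
-/

set_option autoImplicit false
set_option linter.style.haveILetI false

open WeierstrassCurve WeierstrassCurve.Affine WeierstrassCurve.Affine.Point
open CuspForm ModularFormClass UpperHalfPlane ModularCurve

namespace Fermat.Agent.Ribet.H109.Peu

open Fermat.Agent.Ribet Fermat.Agent.Ribet.Spec Fermat.Agent.Ribet.H944.Wall
open Fermat.Agent.Ribet.H884

/-- **S39 for `p ≥ 5` from (S2) for `p ≥ 5` and EIS** — the two inputs of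
`H943.Final2.S44_of_open`. -/
theorem S39Ge5_of_open (h2 : H943.Final2.S2Statement5) (hE : EisSlopeStatement) :
    S39Ge5Statement :=
  S39Ge5_of_targets5
    (H943.Final2.wallTargets5_of_open h2 (H943.Final2.s4Statement5_of_eis hE))

/-- Frozen S40 restricted to `p ≥ 5`. -/
def S40Ge5Statement : Prop :=
  ∀ (W : WeierstrassCurve ℤ), W.Δ ≠ 0 → ∀ {p : ℕ}, p.Prime → 5 ≤ p →
    W.IsGoodPrimeFor p → W.ModRepIsIrreducible p →
    ∀ {M : ℕ}, 0 < M → p ∣ M → ¬ p ^ 2 ∣ M → W.IsResiduallyModularOfLevel p M →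
    W.IsResiduallyModularOfLevel p (M / p)

/-- S40 for `p ≥ 5` is a special case of S39 for `p ≥ 5`: good reduction at `p` makes the
semistability hypothesis vacuous and `v_p(Δ) = 0`. -/
theorem S40Ge5_of_S39Ge5 (h : S39Ge5Statement) : S40Ge5Statement := by
  intro W hΔ p hp hp5 hgood hirr M hM hpM hp2M hmod
  exact h W hΔ hp hp5 (fun hd => absurd hd hgood) hirr
    (Fermat.Agent.Ribet.H583.isPeuRamifieeAt_of_isGoodPrimeFor W hp hgood) hM hpM hp2M hmod

/-- **S40 for `p ≥ 5` from (S2) for `p ≥ 5` and EIS.** -/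
theorem S40Ge5_of_open (h2 : H943.Final2.S2Statement5) (hE : EisSlopeStatement) :
    S40Ge5Statement :=
  S40Ge5_of_S39Ge5 (S39Ge5_of_open h2 hE)

end Fermat.Agent.Ribet.H109.Peu

end
-- ===== PACK-END Ribet/H109/S39Final2.lean

-- ===== PACK-BEGIN S38/H509/StOccGen.lean
section



/-!
# IA-ST, occurrence transfer, for all odd `p`, every type `t`, any base level (helper509)

Generic form of `iaStOcc_h509` (`StOcc.lean`): `P` any Hecke package (any `t`, any `Σ`),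
`K = KG p N₀ (Sum.elim pv qv)`, `K₁ = KG p L qv`, `V` the localisation of `X_K(𝒪)`,
`a : T_P → End_𝒪 V` with `a(T_ℓ) = ⟨ℓ⟩^e T_ℓ`, `V₁` the localisation of `X_{K₁}(𝒪)`,
`Ψ : heckeAlgebra N₁ 2 S₁ → End_𝒪 V₁` with `Ψ(T_ℓ) = ⟨ℓ⟩^e T_ℓ`, `x : T_P → 𝒪'` vanishing on every
`s` with `a s V ⊆ pivRel V`.  Then every integer noncommutative polynomial `Q` in the `T_ℓ` with
`Ψ(Q(T)) = 0` satisfies `Q(x(T_ℓ)) = 0` (the hypothesis `hocc` of `H53.st_of_action_h53`).
-/

set_option autoImplicit false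
set_option linter.style.haveILetI false

open Polynomial IsLocalRing CongruenceSubgroup
open scoped MatrixGroups

namespace Fermat.Agent.S38.H509

open Fermat.Agent.S59.Arch Fermat.Agent.S59.TW.H959 Fermat.Agent.S59.TW
open Fermat.Agent.S59.TW.H653 Fermat.Agent.S59.TW.Aut Fermat.Agent.S38.IA
open Fermat.Agent.S38.IA.Hecke Fermat.Agent.S38.H53
open CuspForm

section Occ

variable {p : ℕ} [hp : Fact p.Prime]
  {𝒪 : Type} [CommRing 𝒪] [IsDomain 𝒪] [IsDiscreteValuationRing 𝒪]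
  [IsAdicComplete (maximalIdeal 𝒪) 𝒪] [Finite (ResidueField 𝒪)] [CharZero 𝒪]
  {ρbar : ResidualGaloisRep (ResidueField 𝒪)} {Smin : Finset ℕ}

/-- **ST-BETTI, (OCC), generic.** -/
theorem occ_of_pkg_h509 (h : ResidualHyp p 𝒪 ρbar Smin) {t : PType} {Sig : Finset ℕ}
    [NeZero (wilesLevel p t Smin Sig)] (P : HeckePkg p 𝒪 ρbar t Smin Sig)
    (N₀ L : ℕ) (hN₀ : N₀ ≠ 0) {k r : ℕ} (pv : Fin k → ℕ) (qv : Fin r → ℕ)
    (hprime : ∀ s, (Sum.elim pv qv s).Prime) (hinj : Function.Injective (Sum.elim pv qv))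
    (hM : gLevel N₀ (Sum.elim pv qv) = gLevel L qv)
    (hlev : ∀ ℓ : ℕ, ℓ.Prime → ℓ ∣ gLevel N₀ (Sum.elim pv qv) → ℓ ∈ Sig)
    {Uset : Set (ℕ × 𝒪)}
    (hU : ∀ x ∈ Uset, x.1.Prime ∧ x.1 ∣ gLevel N₀ (Sum.elim pv qv))
    (V : Submodule 𝒪 (Additive (KG p N₀ (Sum.elim pv qv)) →+ 𝒪))
    (hV : IsLocPart (isMid_KG p N₀ (Sum.elim pv qv)) (TsetOf P) Uset V) (e : ℕ)
    (a : P.T →ₐ[𝒪] Module.End 𝒪 V)
    (ha : ActsBy P V a (tOpTw (isMid_KG p N₀ (Sum.elim pv qv)) 𝒪 e))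
    (V₁ : Submodule 𝒪 (Additive (KG p L qv) →+ 𝒪))
    (hV₁ : IsLocPart (isMid_KG p L qv) (TsetOf P) Uset V₁)
    {N₁ : ℕ} [NeZero N₁] {S₁ : Set ℕ}
    (Ψ : heckeAlgebra N₁ 2 S₁ →+* Module.End 𝒪 V₁)
    (hΨ : ∀ (ℓ : ℕ) (hℓ : ℓ.Prime) (hℓN : ¬ ℓ ∣ N₁) (hℓS : ℓ ∉ S₁) (v : V₁),
      ((Ψ (heckeAlgebra.T hℓ hℓN hℓS) v : V₁) : Additive (KG p L qv) →+ 𝒪) =
        tOpTw (isMid_KG p L qv) 𝒪 e ℓ hℓ (v : Additive (KG p L qv) →+ 𝒪))
    {𝒪' : Type} [CommRing 𝒪'] (x : P.T →+* 𝒪')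
    (hx : ∀ s : P.T, (∀ v : V, ((a s v : V) : Additive (KG p N₀ (Sum.elim pv qv)) →+ 𝒪) ∈
      pivRel p N₀ pv qv V) → x s = 0)
    (hgood : ∀ ℓ : ℕ, ℓ.Prime → ¬ ℓ ∣ N₁ → ℓ ∉ S₁ →
      ¬ ℓ ∣ wilesLevel p t Smin Sig ∧ ℓ ∉ (↑Sig : Set ℕ))
    (Q : FreeAlgebra ℤ (GoodIdx N₁ S₁))
    (hQ : Ψ (FreeAlgebra.lift ℤ (tFamA N₁ S₁) Q) = 0) :
    FreeAlgebra.lift ℤ (fun i : GoodIdx N₁ S₁ =>
      x (P.H.π (heckeAlgebra.T i.2.1 (hgood i.1 i.2.1 i.2.2.1 i.2.2.2).1
        (hgood i.1 i.2.1 i.2.2.1 i.2.2.2).2))) Q = 0 := by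
  classical
  obtain ⟨cor, hmem, heq, -, hker⟩ := cor_of_pkg_h509 h P N₀ L hN₀ pv qv hprime hinj hM hlev
    hU V hV e
  let corV : V →ₗ[𝒪] V₁ := cor.restrict (hmem V₁ hV₁)
  have hcorV : ∀ v : V, ((corV v : V₁) : Additive (KG p L qv) →+ 𝒪) =
      cor (v : Additive (KG p N₀ (Sum.elim pv qv)) →+ 𝒪) := fun v => rfl
  let tt : GoodIdx N₁ S₁ → P.T := fun i =>
    P.H.π (heckeAlgebra.T i.2.1 (hgood i.1 i.2.1 i.2.2.1 i.2.2.2).1
      (hgood i.1 i.2.1 i.2.2.1 i.2.2.2).2)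
  have hcompat : ∀ (i : GoodIdx N₁ S₁) (v : V),
      corV (a (tt i) v) = Ψ (tFamA N₁ S₁ i) (corV v) := by
    intro i v
    apply Subtype.ext
    rw [hcorV, ha i.1 i.2.1 (hgood i.1 i.2.1 i.2.2.1 i.2.2.2).1
      (hgood i.1 i.2.1 i.2.2.1 i.2.2.2).2 v]
    have h1 : ¬ i.1 ∣ gLevel N₀ (Sum.elim pv qv) := fun hd =>
      (hgood i.1 i.2.1 i.2.2.1 i.2.2.2).2 (Finset.mem_coe.mpr (hlev _ i.2.1 hd))
    rw [heq i.1 i.2.1 h1]
    exact (hΨ i.1 i.2.1 i.2.2.1 i.2.2.2 (corV v)).symm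
  have key := occ_of_cor_h509 V V₁ a corV Ψ (tFamA N₁ S₁) tt hcompat Q
  have hrel : ∀ v : V, ((a (FreeAlgebra.lift ℤ tt Q) v : V) :
      Additive (KG p N₀ (Sum.elim pv qv)) →+ 𝒪) ∈ pivRel p N₀ pv qv V := by
    intro v
    refine (hker _ (a (FreeAlgebra.lift ℤ tt Q) v).2).mp ?_
    have h1 := key v
    rw [hQ, LinearMap.zero_apply] at h1
    have h2 := congrArg (fun z : V₁ => (z : Additive (KG p L qv) →+ 𝒪)) h1
    exact h2
  have h3 : x (FreeAlgebra.lift ℤ tt Q) = 0 := hx _ hrel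
  have h4 : (x.toIntAlgHom).comp (FreeAlgebra.lift ℤ tt) =
      FreeAlgebra.lift ℤ (fun i : GoodIdx N₁ S₁ => x (tt i)) := by
    apply FreeAlgebra.hom_ext
    funext i
    simp only [Function.comp_apply, AlgHom.coe_comp, FreeAlgebra.lift_ι_apply,
      RingHom.toIntAlgHom_apply]
  have h5 := congrArg (fun f : FreeAlgebra ℤ (GoodIdx N₁ S₁) →ₐ[ℤ] 𝒪' => f Q) h4
  exact h5.symm.trans h3

end Occ

end Fermat.Agent.S38.H509

end
-- ===== PACK-END S38/H509/StOccGen.lean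

-- ===== PACK-BEGIN S38/H509/StAsm.lean
section






/-!
# Row HARD, cell HECKE, leaf IA-ST: the point-level statement (helper509)

`iaStPt_h509 : IAMinZeroStatement → S58.S35Statement → H953.IAStPtStatement953`.

Assembly, for a pivot `q` and a support point `x` of `V / I_{Δ_Piv} V`:

* `V₁` := the localisation of `X_{K₁}(𝒪)`, `K₁ = KG p (ribetLevel p Smin Piv) qv` (`H511.idem`);
* `U_q² = ⟨σ⟩` on `V₁` (helper201 `iaStepA`, from IA-MINZERO);
* `Ψ : heckeAlgebra N₁ 2 S₁ → End_𝒪 V₁`, `Ψ(T_ℓ) = ⟨ℓ⟩^h T_ℓ`, `Ψ(U_q)² = 1`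
  (helper264 `exists_psiU_K1`);
* the relations of the `Ψ(T_ℓ)` hold at `x` (`iaStOcc_h509`);
* `x (tr ρ(φ)² - (1 + q)²) = 0` (helper53 `st_of_action_h53`, from S35).
-/

set_option autoImplicit false
set_option linter.style.haveILetI false

open Polynomial IsLocalRing CongruenceSubgroup
open scoped MatrixGroups

namespace Fermat.Agent.S38.H509

open Fermat.Agent.S59.Arch Fermat.Agent.S59.TW.H959 Fermat.Agent.S59.TW
open Fermat.Agent.S59.TW.H653 Fermat.Agent.S59.TW.Aut Fermat.Agent.S38.IA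
open Fermat.Agent.S38.IA.Hecke Fermat.Agent.S38.H953 Fermat.Agent.S38.H53
open CuspForm

/-! ## An element of `Γ₀(M₁)` with lower right entry `≡ q` at the Taylor–Wiles primes -/

section Sigma

variable (L : ℕ) {r : ℕ} (qv : Fin r → ℕ)

theorem exists_sigma_h509 (hL : L ≠ 0) (hinj : Function.Injective qv)
    (hprime : ∀ j, (qv j).Prime) {q : ℕ} (hcop : ∀ j, Nat.Coprime q (qv j)) :
    ∃ σ : Gamma0 (gLevel L qv),
      ∀ j, ((((σ : SL(2, ℤ)) 1 1 : ℤ)) : ZMod (qv j)) = (q : ZMod (qv j)) := by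
  haveI : NeZero (gLevel L qv) := neZero_gLevel_h509 L qv hL hprime
  obtain ⟨u, hu⟩ := gRed_surjective_h509 L qv hL hinj hprime
    (fun j => ZMod.unitOfCoprime q (hcop j))
  obtain ⟨σ, hσ⟩ := dUnit_surjective u
  refine ⟨σ, fun j => ?_⟩
  rw [← coe_gRed_dUnit_h509 L qv σ j, hσ, hu]
  exact ZMod.coe_unitOfCoprime q (hcop j)

end Sigma

/-! ## The leaf -/

/-- **IA-ST, point level** (helper953's frozen statement), from IA-MINZERO and S35. -/
theorem iaStPt_h509 (hmz : IAMinZeroStatement) (hS35 : Fermat.Agent.S58.S35Statement) :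
    IAStPtStatement953 := by
  intro p _ hp5 𝒪 _ _ _ _ _ _ ρbar Smin h hflat Piv hPiv hmin k pv hpv hpvPiv n r qv hq _ PQ α
    hα V e a hV _hhp hhq ha
  intro 𝒪' _ _ _ _ _ _ _ x hx hp' hsupp q hqP P hP φ hφ
  classical
  -- the primes
  have hSp : ∀ x ∈ Smin, x.Prime := h.hSmin
  have hPp : ∀ x ∈ Piv, x.Prime := fun x hx => (hPiv x hx).1
  have hqv : ∀ j, (qv j).Prime ∧ qv j ∉ Smin ∪ Piv := fun j => ⟨(hq.2.1 j).1, (hq.2.1 j).2.1⟩
  have hqprime : q.Prime := hPp q hqP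
  haveI : Fact q.Prime := ⟨hqprime⟩
  have hqSmin : q ∉ Smin := (hPiv q hqP).2.1
  have hqne : ∀ j, q ≠ qv j := fun j hj =>
    (hqv j).2 (Finset.mem_union_right _ (hj ▸ hqP))
  have hcop : ∀ j, Nat.Coprime q (qv j) := fun j =>
    (Nat.coprime_primes hqprime (hqv j).1).mpr (hqne j)
  have hpq : q ≠ p := fun hqp => hqSmin (hqp ▸ h.hpSmin)
  have hpvmem : ∀ i, pv i ∈ Piv := fun i => by
    rw [← hpvPiv]
    exact Finset.mem_image_of_mem pv (Finset.mem_univ i)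
  have hprime : ∀ s, (Sum.elim pv qv s).Prime := by
    rintro (i | j)
    · exact hPp (pv i) (hpvmem i)
    · exact (hqv j).1
  have hSigP : ∀ x ∈ Smin ∪ Piv ∪ Finset.univ.image qv, x.Prime := by
    intro x hx
    rcases Finset.mem_union.mp hx with hx | hx
    · rcases Finset.mem_union.mp hx with hx | hx
      · exact hSp x hx
      · exact hPp x hx
    · obtain ⟨j, -, rfl⟩ := Finset.mem_image.mp hx
      exact (hqv j).1
  have hpSig : p ∈ Smin ∪ Piv ∪ Finset.univ.image qv :=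
    Finset.mem_union_left _ (Finset.mem_union_left _ h.hpSmin)
  have hSminSig : Smin ⊆ Smin ∪ Piv ∪ Finset.univ.image qv := fun x hx =>
    Finset.mem_union_left _ (Finset.mem_union_left _ hx)
  -- the levels
  have hL0 : ribetLevel p Smin Piv ≠ 0 :=
    Fermat.Agent.S38.H264.ribetLevel_ne_zero p Smin Piv hSp hPp
  have hM₁ne : gLevel (ribetLevel p Smin Piv) qv ≠ 0 :=
    (neZero_gLevel_h509 (ribetLevel p Smin Piv) qv hL0 (fun j => (hqv j).1)).ne
  haveI : NeZero (gLevel (ribetLevel p Smin Piv) qv) := ⟨hM₁ne⟩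
  have hN₁ne : ribetLevel p Smin Piv * ∏ j, qv j ^ 2 ≠ 0 :=
    Nat.mul_ne_zero hL0 (Finset.prod_ne_zero_iff.mpr fun j _ =>
      pow_ne_zero 2 (hqv j).1.ne_zero)
  haveI : NeZero (ribetLevel p Smin Piv * ∏ j, qv j ^ 2) := ⟨hN₁ne⟩
  have hM : MIA p Smin pv qv = gLevel (ribetLevel p Smin Piv) qv :=
    mia_eq_ribet_h509 p Smin Piv pv qv hpv hpvPiv
  have hM₁N₁ : gLevel (ribetLevel p Smin Piv) qv ∣ ribetLevel p Smin Piv * ∏ j, qv j ^ 2 := by
    unfold gLevel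
    refine Nat.mul_dvd_mul_left _ (Finset.prod_dvd_prod_of_dvd _ _ fun j _ => ?_)
    exact Dvd.intro (qv j) (sq (qv j)).symm
  have hqL : q ∣ ribetLevel p Smin Piv :=
    Fermat.Agent.S38.H264.dvd_ribetLevel_of_mem p Smin Piv hqP
  have hqM₁ : q ∣ gLevel (ribetLevel p Smin Piv) qv :=
    hqL.trans (self_dvd_gLevel _ qv)
  have hqN : q ∣ ribetLevel p Smin Piv * ∏ j, qv j ^ 2 := hqL.mul_right _
  have hqS : q ∉ (↑((Smin ∪ Piv ∪ Finset.univ.image qv).erase q) : Set ℕ) := fun hmem =>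
    Finset.notMem_erase q _ (Finset.mem_coe.mp hmem)
  have hq2 : ¬ q ^ 2 ∣ ribetLevel p Smin Piv * ∏ j, qv j ^ 2 := by
    intro hd
    have hnd : ¬ q ∣ gLevel (ribetLevel p Smin (Piv.erase q)) qv :=
      Fermat.Agent.S38.H201.pivot_not_dvd201 hSp
        (fun x hx => ⟨(hPiv x hx).1, (hPiv x hx).2.1⟩) hqv hqP
    rw [Fermat.Agent.S38.H201.ribetLevel_erase201 p Smin hqP] at hd
    have h1 : q * q ∣ q * (ribetLevel p Smin (Piv.erase q) * ∏ j, qv j ^ 2) := by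
      have h2 : ribetLevel p Smin (Piv.erase q) * q * ∏ j, qv j ^ 2 =
          q * (ribetLevel p Smin (Piv.erase q) * ∏ j, qv j ^ 2) := by ring
      rw [← h2, ← sq]
      exact hd
    have h3 : q ∣ ribetLevel p Smin (Piv.erase q) * ∏ j, qv j ^ 2 :=
      (Nat.mul_dvd_mul_iff_left hqprime.pos).mp h1
    rcases (Nat.Prime.dvd_mul hqprime).mp h3 with h4 | h4
    · exact hnd (h4.trans (self_dvd_gLevel _ qv))
    · obtain ⟨j, -, hj⟩ := (Prime.dvd_finsetProd_iff hqprime.prime _).mp h4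
      exact hnd ((hqprime.dvd_of_dvd_pow hj).trans (dvd_gLevel _ qv j))
  have hlamS : p ∈ (Smin ∪ Piv ∪ Finset.univ.image qv).erase q :=
    Finset.mem_erase.mpr ⟨fun hpq' => hpq hpq'.symm, hpSig⟩
  have hNS : ∀ r' : ℕ, r'.Prime → r' ∣ ribetLevel p Smin Piv * ∏ j, qv j ^ 2 → r' ≠ q →
      r' ∈ (Smin ∪ Piv ∪ Finset.univ.image qv).erase q := by
    intro r' hr' hd hne
    refine Finset.mem_erase.mpr ⟨hne, ?_⟩
    rcases (Nat.Prime.dvd_mul hr').mp hd with h1 | h1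
    · exact Finset.mem_union_left _
        (Fermat.Agent.S38.H264.mem_of_dvd_ribetLevel p Smin Piv hSp hPp hr' h1)
    · obtain ⟨j, -, hj⟩ := (Prime.dvd_finsetProd_iff hr'.prime _).mp h1
      rw [(Nat.prime_dvd_prime_iff_eq hr' (hqv j).1).mp (hr'.dvd_of_dvd_pow hj)]
      exact Finset.mem_union_right _ (Finset.mem_image_of_mem qv (Finset.mem_univ j))
  have hgood : ∀ ℓ : ℕ, ℓ.Prime → ¬ ℓ ∣ ribetLevel p Smin Piv * ∏ j, qv j ^ 2 →
      ℓ ∉ (↑((Smin ∪ Piv ∪ Finset.univ.image qv).erase q) : Set ℕ) →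
      ¬ ℓ ∣ wilesLevel p .flat Smin (Smin ∪ Piv ∪ Finset.univ.image qv) ∧
        ℓ ∉ (↑(Smin ∪ Piv ∪ Finset.univ.image qv) : Set ℕ) := by
    intro ℓ hℓ hℓN hℓS
    have hℓq : ℓ ≠ q := fun hℓq => hℓN (hℓq ▸ hqN)
    have hℓSig : ℓ ∉ (↑(Smin ∪ Piv ∪ Finset.univ.image qv) : Set ℕ) := fun hmem =>
      hℓS (Finset.mem_coe.mpr (Finset.mem_erase.mpr ⟨hℓq, Finset.mem_coe.mp hmem⟩))
    exact ⟨fun hd => hℓSig (Finset.mem_coe.mpr
      (Fermat.Agent.S59.TW.H658.mem_of_dvd_wilesLevel_gen hpSig hSminSig hSigP hℓ hd)),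
      hℓSig⟩
  -- the localisation at `K₁`
  have hT' : ∀ x ∈ TsetOf PQ, x.1.Prime ∧ ¬ x.1 ∣ gLevel (ribetLevel p Smin Piv) qv := by
    rintro x ⟨hℓ, -, hℓS, -⟩
    refine ⟨hℓ, fun hd => hℓS (Finset.mem_coe.mpr ?_)⟩
    rw [← hM] at hd
    exact mem_of_dvd_mia_h509 p Smin Piv pv qv hSp hprime hpvPiv hℓ hd
  have hU' : ∀ x ∈ UsetOf qv α, x.1.Prime ∧ x.1 ∣ gLevel (ribetLevel p Smin Piv) qv := by
    rintro x ⟨j, rfl⟩
    exact ⟨(hqv j).1, dvd_gLevel _ qv j⟩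
  obtain ⟨V₁, hV₁⟩ := Fermat.Agent.S59.TW.Aut.H511.idem 𝒪 (gLevel (ribetLevel p Smin Piv) qv)
    hM₁ne (KG p (ribetLevel p Smin Piv) qv) (isMid_KG p (ribetLevel p Smin Piv) qv)
    (TsetOf PQ) (UsetOf qv α) hT' hU'
  -- `Ψ`
  have hpar : ∀ v ∈ V₁, ModularCurve.Period.IsParabolicHom (KG p (ribetLevel p Smin Piv) qv) v :=
    Fermat.Agent.S59.TW.H658.isLocPart_parabolic_pkg h hpSig hSminSig hSigP PQ
      (isMid_KG p (ribetLevel p Smin Piv) qv) hV₁
  have hstD : ∀ (u : (ZMod (gLevel (ribetLevel p Smin Piv) qv))ˣ), ∀ v ∈ V₁,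
      diamondU (isMid_KG p (ribetLevel p Smin Piv) qv) u v ∈ V₁ :=
    fun u v hv => H31.locPart_diamondU_mem_h31 hV₁ u hv
  have hstT : ∀ (ℓ : ℕ) (hℓ : ℓ.Prime), ¬ ℓ ∣ ribetLevel p Smin Piv * ∏ j, qv j ^ 2 →
      ℓ ∉ (↑((Smin ∪ Piv ∪ Finset.univ.image qv).erase q) : Set ℕ) → ∀ v ∈ V₁,
      tOpTw (isMid_KG p (ribetLevel p Smin Piv) qv) 𝒪 e ℓ hℓ v ∈ V₁ := by
    intro ℓ hℓ hℓN _ v hv
    haveI : Fact ℓ.Prime := ⟨hℓ⟩
    exact hstD _ _ (H31.locPart_TK_mem_h31 hV₁ (fun hd => hℓN (hd.trans hM₁N₁)) hv)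
  have hstU : ∀ v ∈ V₁, UK (KG p (ribetLevel p Smin Piv) qv) q v ∈ V₁ :=
    fun v hv => H31.locPart_UK_mem_h31 hV₁ hqM₁ hv
  obtain ⟨σ, hσ⟩ := exists_sigma_h509 (ribetLevel p Smin Piv) qv hL0 hq.1
    (fun j => (hqv j).1) hcop
  have hUU : ∀ v ∈ V₁, ∃ s : Gamma0 (gLevel (ribetLevel p Smin Piv) qv),
      (∀ j : Fin r, ((qv j : ℕ) : ℤ) ∣ (s : SL(2, ℤ)) 1 1 - (q : ℤ)) ∧
      UK (KG p (ribetLevel p Smin Piv) qv) q (UK (KG p (ribetLevel p Smin Piv) qv) q v) =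
        diamond (isMid_KG p (ribetLevel p Smin Piv) qv) s v := by
    intro v hv
    refine ⟨σ, fun j => ?_, ?_⟩
    · have h1 : ((((σ : SL(2, ℤ)) 1 1 - (q : ℤ) : ℤ)) : ZMod (qv j)) = 0 := by
        push_cast
        rw [hσ j, sub_self]
      exact (ZMod.intCast_zmod_eq_zero_iff_dvd _ _).mp h1
    · exact Fermat.Agent.S38.H201.iaStepA hmz p hp5 𝒪 ρbar Smin h hflat Piv hPiv hmin n r qv
        hq PQ α hα q hqP V₁ hV₁ σ hσ v hv
  obtain ⟨Ψ, hΨT, hΨUU⟩ := Fermat.Agent.S38.H264.exists_psiU_K1 p Smin Piv qv hSp hPp hq.1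
    hqv hhq hqP hqN hqS 𝒪 V₁ hpar hstT hstU hstD hUU
  -- the occurrence of the point
  have hocc := iaStOcc_h509 p hp5 𝒪 ρbar Smin h Piv hPiv k pv hpv hpvPiv n r qv hq PQ α V e a
    hV ha V₁ hV₁ Ψ hΨT (x : PQ.T →+* 𝒪') hsupp hgood
  letI : Ring (Module.End 𝒪 V₁) := @Module.End.instRing 𝒪 ↥V₁ _ _ _
  exact st_of_action_h53 (E := Module.End 𝒪 V₁) hS35 PQ.H (x : PQ.T →+* 𝒪') hx p hp' hqprime
    hpq hqN hq2 ((Smin ∪ Piv ∪ Finset.univ.image qv).erase q) hqS hlamS hNS hgood Ψ hΨUU hocc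
    P hP φ hφ

end Fermat.Agent.S38.H509

end
-- ===== PACK-END S38/H509/StAsm.lean

-- ===== PACK-BEGIN S38/H509/StAsmGen.lean
section







/-!
# IA-ST at a point, for all odd `p`, every type `t`, any base level (helper509)

Generic form of `iaStPt_h509` (`StAsm.lean`).  `P` any Hecke package (type `t`, set `Σ`),
`N₀` any base level, `pv`, `qv` two families of primes, `K = KG p N₀ (Sum.elim pv qv)`,
`L = L' q` with `N₀ ∏ pv ∏ qv = L ∏ qv` (so `q` is a pivot, `K₁ = KG p L qv` is `Γ₀` at the pivots)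
and `q ∤ L' ∏ qv`.

`st_of_pkg_h509` : if every localisation of `X_{K'}(𝒪)`, `K' = KG p L' qv`, at the eigen-system of
`P` vanishes (IA-MINZERO at the level without `q`), then for the localisation `V` of `X_K(𝒪)`,
every action `a` of `T_P` on `V` by the `⟨ℓ⟩^e T_ℓ` (`e` a half) and every support point `x` of
`V / pivRel V` (complete DVR of characteristic `0`, residue characteristic `p`):
`x (tr ρ(φ)² - (1 + q)²) = 0` for every Frobenius `φ` at `q`.

Inputs: `cor_of_pkg_h509` / `occ_of_pkg_h509` (all odd `p`), helper201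
`UK_UK_of_locZero_cast201`, helper264 `exists_psiU_KG`, helper53 `st_of_action_h53` (S35).
-/

set_option autoImplicit false
set_option linter.style.haveILetI false

open Polynomial IsLocalRing CongruenceSubgroup
open scoped MatrixGroups

namespace Fermat.Agent.S38.H509

open Fermat.Agent.S59.Arch Fermat.Agent.S59.TW.H959 Fermat.Agent.S59.TW
open Fermat.Agent.S59.TW.H653 Fermat.Agent.S59.TW.Aut Fermat.Agent.S38.IA
open Fermat.Agent.S38.IA.Hecke Fermat.Agent.S38.H53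
open CuspForm

section Asm

variable {p : ℕ} [hp : Fact p.Prime]
  {𝒪 : Type} [CommRing 𝒪] [IsDomain 𝒪] [IsDiscreteValuationRing 𝒪]
  [IsAdicComplete (maximalIdeal 𝒪) 𝒪] [Finite (ResidueField 𝒪)] [CharZero 𝒪]
  {ρbar : ResidualGaloisRep (ResidueField 𝒪)} {Smin : Finset ℕ}

/-- **IA-ST at a point, generic.** -/
theorem st_of_pkg_h509 (hS35 : Fermat.Agent.S58.S35Statement)
    (h : ResidualHyp p 𝒪 ρbar Smin) {t : PType} {Sig : Finset ℕ}
    [NeZero (wilesLevel p t Smin Sig)] (P : HeckePkg p 𝒪 ρbar t Smin Sig)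
    (hpSig : p ∈ Sig) (hSminSig : Smin ⊆ Sig) (hSigP : ∀ x ∈ Sig, x.Prime)
    (N₀ L L' : ℕ) (hN₀ : N₀ ≠ 0) {k r : ℕ} (pv : Fin k → ℕ) (qv : Fin r → ℕ)
    (hprime : ∀ s, (Sum.elim pv qv s).Prime) (hinj : Function.Injective (Sum.elim pv qv))
    (hM : gLevel N₀ (Sum.elim pv qv) = gLevel L qv)
    (hlev : ∀ ℓ : ℕ, ℓ.Prime → ℓ ∣ gLevel N₀ (Sum.elim pv qv) → ℓ ∈ Sig)
    (hqvL : ∀ j, Nat.Coprime L (qv j))
    {q : ℕ} (hq : q.Prime) (hqp : q ≠ p) (hLq : L = L' * q) (hqL' : ¬ q ∣ gLevel L' qv)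
    {Uset : Set (ℕ × 𝒪)} (hU : ∀ x ∈ Uset, x.1.Prime ∧ x.1 ∣ gLevel L' qv)
    (hzero : ∀ W : Submodule 𝒪 (Additive (KG p L' qv) →+ 𝒪),
      IsLocPart (isMid_KG p L' qv) (TsetOf P) Uset W → W = ⊥)
    {e : ℕ} (he : IsHalf p qv e)
    (V : Submodule 𝒪 (Additive (KG p N₀ (Sum.elim pv qv)) →+ 𝒪))
    (hV : IsLocPart (isMid_KG p N₀ (Sum.elim pv qv)) (TsetOf P) Uset V)
    (a : P.T →ₐ[𝒪] Module.End 𝒪 V)
    (ha : ActsBy P V a (tOpTw (isMid_KG p N₀ (Sum.elim pv qv)) 𝒪 e))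
    {𝒪' : Type} [CommRing 𝒪'] [IsDomain 𝒪'] [IsDiscreteValuationRing 𝒪']
    [IsAdicComplete (maximalIdeal 𝒪') 𝒪'] [Finite (ResidueField 𝒪')] [CharZero 𝒪']
    (x : P.T →+* 𝒪') (hxl : IsLocalHom x) (hp' : (p : 𝒪') ∈ maximalIdeal 𝒪')
    (hx : ∀ s : P.T, (∀ v : V, ((a s v : V) : Additive (KG p N₀ (Sum.elim pv qv)) →+ 𝒪) ∈
      pivRel p N₀ pv qv V) → x s = 0)
    (Pl : ValuationSubring (AlgebraicClosure ℚ)) (hPl : Pl.LiesOverPrime q)
    (φ : AlgebraicClosure ℚ ≃ₐ[ℚ] AlgebraicClosure ℚ) (hφ : Pl.IsFrobeniusAt φ q) :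
    x (P.H.ρ.trace φ ^ 2 - ((1 + q : ℕ) : P.T) ^ 2) = 0 := by
  classical
  haveI : Fact q.Prime := ⟨hq⟩
  have hqvP : ∀ j, (qv j).Prime := fun j => hprime (Sum.inr j)
  have hqi : Function.Injective qv := fun j j' hjj' =>
    Sum.inr_injective (hinj (by simpa using hjj'))
  -- the levels
  have hMne : gLevel N₀ (Sum.elim pv qv) ≠ 0 :=
    (neZero_gLevel_h509 N₀ (Sum.elim pv qv) hN₀ hprime).ne
  have hM₁ne : gLevel L qv ≠ 0 := by
    rw [← hM]
    exact hMne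
  haveI : NeZero (gLevel L qv) := ⟨hM₁ne⟩
  have hL0 : L ≠ 0 := fun h0 => hM₁ne (by unfold gLevel; rw [h0, zero_mul])
  have hN'ne : gLevel L' qv ≠ 0 := fun h0 => hqL' (h0 ▸ dvd_zero q)
  have hMq : gLevel L qv = gLevel L' qv * q := by
    rw [hLq]
    exact Fermat.Agent.S38.H201.gLevel_mul201 qv L' q
  have hKK : KG p L qv = Fermat.Agent.S59.TW.H201.Kq (gLevel L' qv) q (KG p L' qv) := by
    rw [hLq]
    exact Fermat.Agent.S38.H201.KG_mul_eq_Kq201 p qv L' q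
  have hqL : q ∣ L := ⟨L', by rw [hLq, mul_comm]⟩
  have hqM₁ : q ∣ gLevel L qv := hqL.trans (self_dvd_gLevel _ qv)
  have hN₁ne : L * ∏ j, qv j ^ 2 ≠ 0 :=
    Nat.mul_ne_zero hL0 (Finset.prod_ne_zero_iff.mpr fun j _ =>
      pow_ne_zero 2 (hqvP j).ne_zero)
  haveI : NeZero (L * ∏ j, qv j ^ 2) := ⟨hN₁ne⟩
  have hM₁N₁ : gLevel L qv ∣ L * ∏ j, qv j ^ 2 := by
    unfold gLevel
    refine Nat.mul_dvd_mul_left _ (Finset.prod_dvd_prod_of_dvd _ _ fun j _ => ?_)
    exact Dvd.intro (qv j) (sq (qv j)).symm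
  have hprimeN₁ : ∀ ℓ : ℕ, ℓ.Prime → ℓ ∣ L * ∏ j, qv j ^ 2 → ℓ ∣ gLevel L qv := by
    intro ℓ hℓ hd
    rcases (Nat.Prime.dvd_mul hℓ).mp hd with h1 | h1
    · exact h1.trans (self_dvd_gLevel _ qv)
    · obtain ⟨j, -, hj⟩ := (Prime.dvd_finsetProd_iff hℓ.prime _).mp h1
      exact (hℓ.dvd_of_dvd_pow hj).trans (dvd_gLevel _ qv j)
  have hSigN₁ : ∀ ℓ : ℕ, ℓ.Prime → ℓ ∣ L * ∏ j, qv j ^ 2 → ℓ ∈ Sig := by
    intro ℓ hℓ hd
    refine hlev ℓ hℓ ?_
    rw [hM]
    exact hprimeN₁ ℓ hℓ hd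
  have hqN : q ∣ L * ∏ j, qv j ^ 2 := hqL.mul_right _
  have hqS : q ∉ (↑(Sig.erase q) : Set ℕ) := fun hmem =>
    Finset.notMem_erase q _ (Finset.mem_coe.mp hmem)
  have hq2 : ¬ q ^ 2 ∣ L * ∏ j, qv j ^ 2 := by
    intro hd
    rw [hLq] at hd
    have h1 : q * q ∣ q * (L' * ∏ j, qv j ^ 2) := by
      have h2 : L' * q * ∏ j, qv j ^ 2 = q * (L' * ∏ j, qv j ^ 2) := by ring
      rw [← h2, ← sq]
      exact hd
    have h3 : q ∣ L' * ∏ j, qv j ^ 2 := (Nat.mul_dvd_mul_iff_left hq.pos).mp h1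
    rcases (Nat.Prime.dvd_mul hq).mp h3 with h4 | h4
    · exact hqL' (h4.trans (self_dvd_gLevel _ qv))
    · obtain ⟨j, -, hj⟩ := (Prime.dvd_finsetProd_iff hq.prime _).mp h4
      exact hqL' ((hq.dvd_of_dvd_pow hj).trans (dvd_gLevel _ qv j))
  have hlamS : p ∈ Sig.erase q := Finset.mem_erase.mpr ⟨fun hpq => hqp hpq.symm, hpSig⟩
  have hNS : ∀ r' : ℕ, r'.Prime → r' ∣ L * ∏ j, qv j ^ 2 → r' ≠ q → r' ∈ Sig.erase q :=
    fun r' hr' hd hne => Finset.mem_erase.mpr ⟨hne, hSigN₁ r' hr' hd⟩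
  have hSq : ∀ ℓ : ℕ, ℓ.Prime → ℓ ∣ L * ∏ j, qv j ^ 2 → ℓ ∉ (↑(Sig.erase q) : Set ℕ) →
      ℓ = q := by
    intro ℓ hℓ hd hℓS
    by_contra hne
    exact hℓS (Finset.mem_coe.mpr (hNS ℓ hℓ hd hne))
  have hgood : ∀ ℓ : ℕ, ℓ.Prime → ¬ ℓ ∣ L * ∏ j, qv j ^ 2 →
      ℓ ∉ (↑(Sig.erase q) : Set ℕ) →
      ¬ ℓ ∣ wilesLevel p t Smin Sig ∧ ℓ ∉ (↑Sig : Set ℕ) := by
    intro ℓ hℓ hℓN hℓS
    have hℓq : ℓ ≠ q := fun hℓq => hℓN (hℓq ▸ hqN)
    have hℓSig : ℓ ∉ (↑Sig : Set ℕ) := fun hmem =>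
      hℓS (Finset.mem_coe.mpr (Finset.mem_erase.mpr ⟨hℓq, Finset.mem_coe.mp hmem⟩))
    exact ⟨fun hd => hℓSig (Finset.mem_coe.mpr
      (Fermat.Agent.S59.TW.H658.mem_of_dvd_wilesLevel_gen hpSig hSminSig hSigP hℓ hd)),
      hℓSig⟩
  -- the eigen-systems
  have hT₁ : ∀ x ∈ TsetOf P, x.1.Prime ∧ ¬ x.1 ∣ gLevel L qv := by
    rintro x ⟨hℓ, -, hℓS, -⟩
    refine ⟨hℓ, fun hd => hℓS (Finset.mem_coe.mpr (hlev _ hℓ ?_))⟩
    rw [hM]
    exact hd
  have hTq : ∀ x ∈ TsetOf P, x.1.Prime ∧ ¬ x.1 ∣ gLevel L' qv * q := by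
    intro x hx
    rw [← hMq]
    exact hT₁ x hx
  have hU₁ : ∀ x ∈ Uset, x.1.Prime ∧ x.1 ∣ gLevel L qv := by
    intro x hx
    refine ⟨(hU x hx).1, (hU x hx).2.trans ?_⟩
    rw [hMq]
    exact Dvd.intro q rfl
  have hU₀ : ∀ x ∈ Uset, x.1.Prime ∧ x.1 ∣ gLevel N₀ (Sum.elim pv qv) := by
    intro x hx
    rw [hM]
    exact hU₁ x hx
  -- the localisation at `K₁`
  obtain ⟨V₁, hV₁⟩ := Fermat.Agent.S59.TW.Aut.H511.idem 𝒪 (gLevel L qv) hM₁ne (KG p L qv)
    (isMid_KG p L qv) (TsetOf P) Uset hT₁ hU₁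
  have hpar : ∀ v ∈ V₁, ModularCurve.Period.IsParabolicHom (KG p L qv) v :=
    Fermat.Agent.S59.TW.H658.isLocPart_parabolic_pkg h hpSig hSminSig hSigP P
      (isMid_KG p L qv) hV₁
  have hstD : ∀ (u : (ZMod (gLevel L qv))ˣ), ∀ v ∈ V₁,
      diamondU (isMid_KG p L qv) u v ∈ V₁ :=
    fun u v hv => H31.locPart_diamondU_mem_h31 hV₁ u hv
  have hstT : ∀ (ℓ : ℕ) (hℓ : ℓ.Prime), ¬ ℓ ∣ L * ∏ j, qv j ^ 2 →
      ℓ ∉ (↑(Sig.erase q) : Set ℕ) → ∀ v ∈ V₁,
      tOpTw (isMid_KG p L qv) 𝒪 e ℓ hℓ v ∈ V₁ := by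
    intro ℓ hℓ hℓN _ v hv
    haveI : Fact ℓ.Prime := ⟨hℓ⟩
    exact hstD _ _ (H31.locPart_TK_mem_h31 hV₁ (fun hd => hℓN (hd.trans hM₁N₁)) hv)
  have hstU : ∀ v ∈ V₁, UK (KG p L qv) q v ∈ V₁ :=
    fun v hv => H31.locPart_UK_mem_h31 hV₁ hqM₁ hv
  -- `U_q² = ⟨σ⟩`
  obtain ⟨σ, hσ⟩ : ∃ σ : Gamma0 (gLevel L qv),
      ((((σ : SL(2, ℤ)) 1 1 : ℤ)) : ZMod (gLevel L' qv)) = (q : ZMod (gLevel L' qv)) := by
    have hdvd : gLevel L' qv ∣ gLevel L qv := ⟨q, hMq⟩
    have hcop : Nat.Coprime q (gLevel L' qv) := hq.coprime_iff_not_dvd.mpr hqL'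
    obtain ⟨u, hu⟩ := ZMod.unitsMap_surjective hdvd (ZMod.unitOfCoprime q hcop)
    obtain ⟨σ, hσ⟩ := dUnit_surjective (M := gLevel L qv) u
    refine ⟨σ, ?_⟩
    have h1 := congrArg (fun v : (ZMod (gLevel L' qv))ˣ => (v : ZMod (gLevel L' qv))) hu
    simp only [ZMod.coe_unitOfCoprime] at h1
    rw [← h1, ← hσ, ZMod.unitsMap_def, Units.coe_map, coe_dUnit]
    simp only [MonoidHom.coe_coe, map_intCast]
  have hUU : ∀ v ∈ V₁, ∃ s : Gamma0 (gLevel L qv),
      (∀ j : Fin r, ((qv j : ℕ) : ℤ) ∣ (s : SL(2, ℤ)) 1 1 - (q : ℤ)) ∧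
      UK (KG p L qv) q (UK (KG p L qv) q v) = diamond (isMid_KG p L qv) s v := by
    intro v hv
    refine ⟨σ, fun j => ?_, ?_⟩
    · have h1 : ((((σ : SL(2, ℤ)) 1 1 - (q : ℤ) : ℤ)) : ZMod (gLevel L' qv)) = 0 := by
        push_cast
        rw [hσ, sub_self]
      have h2 := (ZMod.intCast_zmod_eq_zero_iff_dvd _ _).mp h1
      exact (Int.natCast_dvd_natCast.mpr (dvd_gLevel L' qv j)).trans h2
    · exact Fermat.Agent.S38.H201.UK_UK_of_locZero_cast201 hN'ne hqL' (isMid_KG p L' qv)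
        (isMid_KG p L qv) hMq hKK hV₁ (Set.Subset.refl _) (Set.Subset.refl _) hTq hU hzero
        σ hσ v hv
  obtain ⟨Ψ, hΨT, hΨUU⟩ := Fermat.Agent.S38.H264.exists_psiU_KG p L qv hL0 hqi
    (fun j => ⟨hqvP j, hqvL j⟩) he (dvd_refl _) (↑(Sig.erase q) : Set ℕ) hqN hqS hqL hSq
    𝒪 V₁ hpar hstT hstU hstD hUU
  -- the occurrence of the point
  have hocc := occ_of_pkg_h509 h P N₀ L hN₀ pv qv hprime hinj hM hlev hU₀ V hV e a ha V₁ hV₁
    Ψ hΨT x hx hgood
  letI : Ring (Module.End 𝒪 V₁) := @Module.End.instRing 𝒪 ↥V₁ _ _ _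
  exact st_of_action_h53 (E := Module.End 𝒪 V₁) hS35 P.H x hxl p hp' hq hqp hqN hq2
    (Sig.erase q) hqS hlamS hNS hgood Ψ hΨUU hocc Pl hPl φ hφ

end Asm

end Fermat.Agent.S38.H509

end
-- ===== PACK-END S38/H509/StAsmGen.lean

-- ===== PACK-BEGIN S38/H509/StT.lean
section




/-!
# IA-ST for every type `t` and all odd `p` (helper509): the instances at `wilesLevel p t`

Base level `N₀ = wilesLevel p t Smin Smin = ∏_{Smin ∖ p} q · pFactor p t`,
`K = KG p N₀ (Sum.elim pv qv)`, package `PQ : HeckePkg p 𝒪 ρ̄ t Smin (Smin ∪ Piv ∪ Q)`.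
The minimal level is a PARAMETER `L` with `L = ribetLevel p Smin Piv * pFactor p t`
(`= ribetLevel p Smin Piv` at `.flat`, `ribetLevel p Smin Piv * p` at `.sord`), so that any
definition of the level of type `t` can be plugged.

* `gLevel_wiles_eq_h509`, `mem_of_dvd_gLevel_wiles_h509` : the arithmetic of the levels;
* `iaStCorT_h509` : (COR) `cor : X_K(𝒪) → X_{K₁}(𝒪)`, `K₁ = KG p L qv`;
* `iaStPtT_h509` : the Steinberg elements vanish at the support points of `V / pivRel V`, if the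
  localisations at the level `L'` without the pivot `q` vanish (IA-MINZERO of type `t`).
-/

set_option autoImplicit false
set_option linter.style.haveILetI false

open Polynomial IsLocalRing CongruenceSubgroup
open scoped MatrixGroups

namespace Fermat.Agent.S38.H509

open Fermat.Agent.S59.Arch Fermat.Agent.S59.TW.H959 Fermat.Agent.S59.TW
open Fermat.Agent.S59.TW.H653 Fermat.Agent.S59.TW.Aut Fermat.Agent.S38.IA
open Fermat.Agent.S38.IA.Hecke Fermat.Agent.S38.H53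
open CuspForm

/-! ## The levels -/

section Level

variable (p : ℕ) (t : PType) (Smin Piv : Finset ℕ) {k r : ℕ} (pv : Fin k → ℕ) (qv : Fin r → ℕ)

theorem wilesLevel_self_eq_h509 :
    wilesLevel p t Smin Smin = (∏ q ∈ Smin.erase p, q) * pFactor p t := by
  rw [wilesLevel_eq, Finset.sdiff_self, Finset.prod_empty, mul_one]

/-- `N₀ ∏ pv ∏ qv = L ∏ qv`. -/
theorem gLevel_wiles_eq_h509 (hpv : Function.Injective pv)
    (hpvPiv : Finset.univ.image pv = Piv) {L : ℕ}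
    (hL : L = ribetLevel p Smin Piv * pFactor p t) :
    gLevel (wilesLevel p t Smin Smin) (Sum.elim pv qv) = gLevel L qv := by
  have h1 : ∏ i, pv i = ∏ x ∈ Piv, x := by
    rw [← hpvPiv, Finset.prod_image (fun a _ b _ h => hpv h)]
  unfold gLevel
  rw [Fintype.prod_sum_type, hL, wilesLevel_self_eq_h509]
  simp only [Sum.elim_inl, Sum.elim_inr]
  rw [h1]
  unfold ribetLevel
  ring

/-- `L = L' q` for a pivot `q`. -/
theorem ribetLevel_pFactor_erase_h509 {q : ℕ} (hq : q ∈ Piv) :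
    ribetLevel p Smin Piv * pFactor p t =
      ribetLevel p Smin (Piv.erase q) * pFactor p t * q := by
  unfold ribetLevel
  rw [← Finset.mul_prod_erase Piv (fun x => x) hq]
  ring

variable {p t}

theorem pFactor_dvd_h509 {ℓ : ℕ} (hℓ : ℓ.Prime) (hp : p.Prime) (h : ℓ ∣ pFactor p t) :
    ℓ = p := by
  cases t
  · exact absurd (Nat.dvd_one.mp h) hℓ.ne_one
  · exact (Nat.prime_dvd_prime_iff_eq hℓ hp).mp h
  · exact (Nat.prime_dvd_prime_iff_eq hℓ hp).mp h

variable {Smin Piv}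

/-- A prime dividing `ribetLevel p Smin Piv' * pFactor p t * ∏ qv` lies in `Smin ∪ Piv' ∪ Q`. -/
theorem mem_of_dvd_gLevel_ribet_h509 (hp : p.Prime) (hpS : p ∈ Smin)
    (hSmin : ∀ q ∈ Smin, q.Prime) (Piv' : Finset ℕ) (hPiv' : ∀ q ∈ Piv', q.Prime)
    (hqv : ∀ j, (qv j).Prime) {ℓ : ℕ} (hℓ : ℓ.Prime)
    (h : ℓ ∣ gLevel (ribetLevel p Smin Piv' * pFactor p t) qv) :
    ℓ ∈ Smin ∨ ℓ ∈ Piv' ∨ ∃ j, ℓ = qv j := by
  unfold gLevel ribetLevel at h
  rcases (Nat.Prime.dvd_mul hℓ).mp h with h1 | h1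
  · rcases (Nat.Prime.dvd_mul hℓ).mp h1 with h2 | h2
    · rcases (Nat.Prime.dvd_mul hℓ).mp h2 with h3 | h3
      · obtain ⟨x, hx, hdx⟩ := (Prime.dvd_finsetProd_iff hℓ.prime _).mp h3
        have hx' : x ∈ Smin := Finset.mem_of_mem_erase hx
        exact Or.inl (((Nat.prime_dvd_prime_iff_eq hℓ (hSmin x hx')).mp hdx) ▸ hx')
      · obtain ⟨x, hx, hdx⟩ := (Prime.dvd_finsetProd_iff hℓ.prime _).mp h3
        exact Or.inr (Or.inl (((Nat.prime_dvd_prime_iff_eq hℓ (hPiv' x hx)).mp hdx) ▸ hx))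
    · exact Or.inl ((pFactor_dvd_h509 hℓ hp h2) ▸ hpS)
  · obtain ⟨s, _, hds⟩ := (Prime.dvd_finsetProd_iff hℓ.prime _).mp h1
    exact Or.inr (Or.inr ⟨s, (Nat.prime_dvd_prime_iff_eq hℓ (hqv s)).mp hds⟩)

end Level

/-! ## The context -/

section Ctx

variable {p : ℕ} [hp : Fact p.Prime]
  {𝒪 : Type} [CommRing 𝒪] [IsDomain 𝒪] [IsDiscreteValuationRing 𝒪]
  [IsAdicComplete (maximalIdeal 𝒪) 𝒪] [Finite (ResidueField 𝒪)] [CharZero 𝒪]
  {ρbar : ResidualGaloisRep (ResidueField 𝒪)} {Smin : Finset ℕ}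

/-- **IA-ST (COR) of type `t`, all odd `p`.** -/
theorem iaStCorT_h509 (h : ResidualHyp p 𝒪 ρbar Smin) (t : PType)
    (Piv : Finset ℕ) (hPiv : IsPivotSet p ρbar Smin Piv)
    (k : ℕ) (pv : Fin k → ℕ) (hpv : Function.Injective pv)
    (hpvPiv : Finset.univ.image pv = Piv)
    (n r : ℕ) (qv : Fin r → ℕ) (hq : IsTWSet p ρbar (Smin ∪ Piv) n qv)
    [NeZero (wilesLevel p t Smin (Smin ∪ Piv ∪ Finset.univ.image qv))]
    (PQ : HeckePkg p 𝒪 ρbar t Smin (Smin ∪ Piv ∪ Finset.univ.image qv))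
    (α : Fin r → 𝒪) {L : ℕ} (hL : L = ribetLevel p Smin Piv * pFactor p t)
    (V : Submodule 𝒪 (Additive (KG p (wilesLevel p t Smin Smin) (Sum.elim pv qv)) →+ 𝒪))
    (hV : IsLocPart (isMid_KG p (wilesLevel p t Smin Smin) (Sum.elim pv qv)) (TsetOf PQ)
      (UsetOf qv α) V) (e : ℕ) :
    ∃ cor : (Additive (KG p (wilesLevel p t Smin Smin) (Sum.elim pv qv)) →+ 𝒪) →ₗ[𝒪]
        (Additive (KG p L qv) →+ 𝒪),
      (∀ V₁ : Submodule 𝒪 (Additive (KG p L qv) →+ 𝒪),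
        IsLocPart (isMid_KG p L qv) (TsetOf PQ) (UsetOf qv α) V₁ → ∀ v ∈ V, cor v ∈ V₁) ∧
      (∀ (ℓ : ℕ) (hℓ : ℓ.Prime),
        ¬ ℓ ∣ wilesLevel p t Smin (Smin ∪ Piv ∪ Finset.univ.image qv) →
        ℓ ∉ (↑(Smin ∪ Piv ∪ Finset.univ.image qv) : Set ℕ) →
        ∀ v : Additive (KG p (wilesLevel p t Smin Smin) (Sum.elim pv qv)) →+ 𝒪,
        cor (tOpTw (isMid_KG p (wilesLevel p t Smin Smin) (Sum.elim pv qv)) 𝒪 e ℓ hℓ v) =
          tOpTw (isMid_KG p L qv) 𝒪 e ℓ hℓ (cor v)) ∧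
      (∀ v ∈ V, cor v = 0 ↔ v ∈ pivRel p (wilesLevel p t Smin Smin) pv qv V) := by
  classical
  have hpp : p.Prime := hp.out
  have hprime := prime_sum_h509 hPiv hpvPiv hq
  have hinj := injective_sum_h509 hpv hpvPiv hq
  have hM := gLevel_wiles_eq_h509 p t Smin Piv pv qv hpv hpvPiv hL
  have hlev : ∀ ℓ : ℕ, ℓ.Prime →
      ℓ ∣ gLevel (wilesLevel p t Smin Smin) (Sum.elim pv qv) →
      ℓ ∈ Smin ∪ Piv ∪ Finset.univ.image qv := by
    intro ℓ hℓ hd
    rw [hM, hL] at hd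
    rcases mem_of_dvd_gLevel_ribet_h509 qv hpp h.hpSmin h.hSmin Piv
      (fun x hx => (hPiv x hx).1) (fun j => (hq.2.1 j).1) hℓ hd with h1 | h1 | ⟨j, rfl⟩
    · exact Finset.mem_union_left _ (Finset.mem_union_left _ h1)
    · exact Finset.mem_union_left _ (Finset.mem_union_right _ h1)
    · exact Finset.mem_union_right _ (Finset.mem_image_of_mem qv (Finset.mem_univ j))
  have hU : ∀ x ∈ UsetOf qv α,
      x.1.Prime ∧ x.1 ∣ gLevel (wilesLevel p t Smin Smin) (Sum.elim pv qv) := by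
    rintro x ⟨j, rfl⟩
    exact ⟨(hq.2.1 j).1, dvd_gLevel _ (Sum.elim pv qv) (Sum.inr j)⟩
  obtain ⟨cor, hmem, heq, -, hker⟩ := cor_of_pkg_h509 h PQ (wilesLevel p t Smin Smin) L
    (wilesLevel_ne_zero hpp h.hSmin h.hSmin) pv qv hprime hinj hM hlev hU V hV e
  refine ⟨cor, hmem, ?_, hker⟩
  intro ℓ hℓ _ hℓS v
  exact heq ℓ hℓ (fun hd => hℓS (Finset.mem_coe.mpr (hlev ℓ hℓ hd))) v

/-- **IA-ST at a point, type `t`, all odd `p`**, from IA-MINZERO at the level `L'` without the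
pivot `q` and S35. -/
theorem iaStPtT_h509 (hS35 : Fermat.Agent.S58.S35Statement)
    (h : ResidualHyp p 𝒪 ρbar Smin) (t : PType)
    (Piv : Finset ℕ) (hPiv : IsPivotSet p ρbar Smin Piv)
    (k : ℕ) (pv : Fin k → ℕ) (hpv : Function.Injective pv)
    (hpvPiv : Finset.univ.image pv = Piv)
    (n r : ℕ) (qv : Fin r → ℕ) (hq : IsTWSet p ρbar (Smin ∪ Piv) n qv)
    [NeZero (wilesLevel p t Smin (Smin ∪ Piv ∪ Finset.univ.image qv))]
    (PQ : HeckePkg p 𝒪 ρbar t Smin (Smin ∪ Piv ∪ Finset.univ.image qv))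
    (α : Fin r → 𝒪)
    (V : Submodule 𝒪 (Additive (KG p (wilesLevel p t Smin Smin) (Sum.elim pv qv)) →+ 𝒪))
    (e : ℕ) (a : PQ.T →ₐ[𝒪] Module.End 𝒪 V)
    (hV : IsLocPart (isMid_KG p (wilesLevel p t Smin Smin) (Sum.elim pv qv)) (TsetOf PQ)
      (UsetOf qv α) V)
    (he : IsHalf p qv e)
    (ha : ActsBy PQ V a
      (tOpTw (isMid_KG p (wilesLevel p t Smin Smin) (Sum.elim pv qv)) 𝒪 e))
    {q : ℕ} (hqP : q ∈ Piv) {L' : ℕ}
    (hL' : L' = ribetLevel p Smin (Piv.erase q) * pFactor p t)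
    (hzero : ∀ W : Submodule 𝒪 (Additive (KG p L' qv) →+ 𝒪),
      IsLocPart (isMid_KG p L' qv) (TsetOf PQ) (UsetOf qv α) W → W = ⊥)
    {𝒪' : Type} [CommRing 𝒪'] [IsDomain 𝒪'] [IsDiscreteValuationRing 𝒪']
    [IsAdicComplete (maximalIdeal 𝒪') 𝒪'] [Finite (ResidueField 𝒪')] [CharZero 𝒪']
    (x : PQ.T →+* 𝒪') (hxl : IsLocalHom x) (hp' : (p : 𝒪') ∈ maximalIdeal 𝒪')
    (hx : ∀ s : PQ.T, (∀ v : V,
      ((a s v : V) : Additive (KG p (wilesLevel p t Smin Smin) (Sum.elim pv qv)) →+ 𝒪) ∈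
        pivRel p (wilesLevel p t Smin Smin) pv qv V) → x s = 0)
    (Pl : ValuationSubring (AlgebraicClosure ℚ)) (hPl : Pl.LiesOverPrime q)
    (φ : AlgebraicClosure ℚ ≃ₐ[ℚ] AlgebraicClosure ℚ) (hφ : Pl.IsFrobeniusAt φ q) :
    x (PQ.H.ρ.trace φ ^ 2 - ((1 + q : ℕ) : PQ.T) ^ 2) = 0 := by
  classical
  have hpp : p.Prime := hp.out
  have hprime := prime_sum_h509 hPiv hpvPiv hq
  have hinj := injective_sum_h509 hpv hpvPiv hq
  have hPp : ∀ x ∈ Piv, x.Prime := fun x hx => (hPiv x hx).1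
  have hqv : ∀ j, (qv j).Prime := fun j => (hq.2.1 j).1
  have hqprime : q.Prime := hPp q hqP
  have hqSmin : q ∉ Smin := (hPiv q hqP).2.1
  have hqp : q ≠ p := fun hqp => hqSmin (hqp ▸ h.hpSmin)
  have hM := gLevel_wiles_eq_h509 p t Smin Piv pv qv hpv hpvPiv
    (L := ribetLevel p Smin Piv * pFactor p t) rfl
  have hlevL : ∀ ℓ : ℕ, ℓ.Prime →
      ℓ ∣ gLevel (ribetLevel p Smin Piv * pFactor p t) qv →
      ℓ ∈ Smin ∪ Piv ∪ Finset.univ.image qv := by
    intro ℓ hℓ hd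
    rcases mem_of_dvd_gLevel_ribet_h509 qv hpp h.hpSmin h.hSmin Piv hPp hqv hℓ hd
      with h1 | h1 | ⟨j, rfl⟩
    · exact Finset.mem_union_left _ (Finset.mem_union_left _ h1)
    · exact Finset.mem_union_left _ (Finset.mem_union_right _ h1)
    · exact Finset.mem_union_right _ (Finset.mem_image_of_mem qv (Finset.mem_univ j))
  have hlev : ∀ ℓ : ℕ, ℓ.Prime →
      ℓ ∣ gLevel (wilesLevel p t Smin Smin) (Sum.elim pv qv) →
      ℓ ∈ Smin ∪ Piv ∪ Finset.univ.image qv := by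
    intro ℓ hℓ hd
    rw [hM] at hd
    exact hlevL ℓ hℓ hd
  have hSigP : ∀ x ∈ Smin ∪ Piv ∪ Finset.univ.image qv, x.Prime := by
    intro x hx
    rcases Finset.mem_union.mp hx with hx | hx
    · rcases Finset.mem_union.mp hx with hx | hx
      · exact h.hSmin x hx
      · exact hPp x hx
    · obtain ⟨j, -, rfl⟩ := Finset.mem_image.mp hx
      exact hqv j
  have hpSig : p ∈ Smin ∪ Piv ∪ Finset.univ.image qv :=
    Finset.mem_union_left _ (Finset.mem_union_left _ h.hpSmin)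
  have hSminSig : Smin ⊆ Smin ∪ Piv ∪ Finset.univ.image qv := fun x hx =>
    Finset.mem_union_left _ (Finset.mem_union_left _ hx)
  have hqvL : ∀ j, Nat.Coprime (ribetLevel p Smin Piv * pFactor p t) (qv j) := by
    intro j
    rw [Nat.coprime_comm, Nat.Prime.coprime_iff_not_dvd (hqv j)]
    intro hd
    have hd' : qv j ∣ gLevel (ribetLevel p Smin Piv * pFactor p t)
        (fun _ : Fin 0 => 0) := by
      unfold gLevel
      simpa using hd
    rcases mem_of_dvd_gLevel_ribet_h509 (fun _ : Fin 0 => 0) hpp h.hpSmin h.hSmin Piv hPp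
      (fun j' => j'.elim0) (hqv j) hd' with h1 | h1 | ⟨j', -⟩
    · exact (hq.2.1 j).2.1 (Finset.mem_union_left _ h1)
    · exact (hq.2.1 j).2.1 (Finset.mem_union_right _ h1)
    · exact j'.elim0
  have hLq : ribetLevel p Smin Piv * pFactor p t = L' * q := by
    rw [hL']
    exact ribetLevel_pFactor_erase_h509 p t Smin Piv hqP
  have hqL' : ¬ q ∣ gLevel L' qv := by
    intro hd
    rw [hL'] at hd
    rcases mem_of_dvd_gLevel_ribet_h509 qv hpp h.hpSmin h.hSmin (Piv.erase q)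
      (fun x hx => hPp x (Finset.mem_of_mem_erase hx)) hqv hqprime hd with h1 | h1 | ⟨j, h1⟩
    · exact hqSmin h1
    · exact Finset.notMem_erase q Piv h1
    · exact (hq.2.1 j).2.1 (h1 ▸ Finset.mem_union_right Smin hqP)
  have hU : ∀ x ∈ UsetOf qv α, x.1.Prime ∧ x.1 ∣ gLevel L' qv := by
    rintro x ⟨j, rfl⟩
    exact ⟨hqv j, dvd_gLevel _ qv j⟩
  exact st_of_pkg_h509 hS35 h PQ hpSig hSminSig hSigP (wilesLevel p t Smin Smin)
    (ribetLevel p Smin Piv * pFactor p t) L' (wilesLevel_ne_zero hpp h.hSmin h.hSmin) pv qv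
    hprime hinj hM hlev hqvL hqprime hqp hLq hqL' hU hzero he V hV a ha x hxl hp' hx Pl hPl φ hφ

end Ctx

end Fermat.Agent.S38.H509

end
-- ===== PACK-END S38/H509/StT.lean

-- ===== PACK-BEGIN S38T/H509/FreeCorT.lean
section



/-!
# Row S59, cell (B2), HECKE-T: the leaves IA-FREE and IA-ST-COR of type `ty`  (helper509)

VERBATIM proofs of the frozen twins of helper3 (`S38T/IA/Hecke/Spec3.lean`,
`S38T/H593/StCorSpec.lean`, origin/helper3 @166e8dc9f):

* `iaFree_T_h509 : IAFreeStatement_T`  (every odd `p`, both types at `p`), from `iaFreeT_h509`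
  (`S38/H509/IAFreeOddIA.lean`);
* `iaStCor_T_h509 : H593.IAStCorStatement_T`, with `m = 1`, from `iaStCorT_h509`
  (`S38/H509/StT.lean`) at `L = ribetLevelT p ty Smin Piv`.

The hypotheses `3 ≤ p` and `IsPTypeAt p ρbar ty` are not used.
-/

set_option autoImplicit false

open Polynomial IsLocalRing CongruenceSubgroup
open scoped MatrixGroups

namespace Fermat.Agent.S38.H509

open Fermat.Agent.S59.Arch Fermat.Agent.S59.TW.H959 Fermat.Agent.S59.TW
open Fermat.Agent.S59.TW.H653 Fermat.Agent.S59.TW.Aut Fermat.Agent.S38.IA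
open Fermat.Agent.S38.IA.Hecke
open CuspForm

/-- `ribetLevelT` in terms of `pFactor`. -/
theorem ribetLevelT_eq_pFactor_h509 (p : ℕ) (ty : PType) (Smin Piv : Finset ℕ) :
    ribetLevelT p ty Smin Piv = ribetLevel p Smin Piv * pFactor p ty := by
  cases ty <;> simp [ribetLevelT, pFactor]

/-- At the base level of Ihara avoidance of type `ty`: `pivRel V = chiRelIA_T 1 V`. -/
theorem pivRel_eq_chiRelIA_T_h509 (p : ℕ) (ty : PType) (Smin : Finset ℕ) {k r : ℕ}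
    (pv : Fin k → ℕ) (qv : Fin r → ℕ) {𝒪 : Type} [CommRing 𝒪]
    (V : Submodule 𝒪 (XIA_T p ty Smin pv qv 𝒪)) :
    pivRel p (wilesLevel p ty Smin Smin) pv qv V = chiRelIA_T p ty Smin pv qv 1 V := by
  unfold pivRel chiRelIA_T
  congr 1
  ext w
  constructor
  · rintro ⟨a₁, y, hy, rfl⟩
    refine ⟨a₁, y, hy, ?_⟩
    rw [MonoidHom.one_apply, one_smul]
    rfl
  · rintro ⟨a₁, y, hy, rfl⟩
    refine ⟨a₁, y, hy, ?_⟩
    rw [MonoidHom.one_apply, one_smul]
    rfl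

/-- **IA-FREE of type `ty`, every odd `p`**: `IAFreeStatement_T` VERBATIM. -/
theorem iaFree_T_h509 : IAFreeStatement_T := by
  intro p _ _hp5 𝒪 _ _ _ _ _ _ ρbar Smin h ty _hflat Piv hPiv k pv hpv hpvPiv n r qv hq _ PQ α _hα
    V hV
  exact iaFreeT_h509 p 𝒪 ρbar Smin h ty Piv hPiv k pv hpv hpvPiv n r qv hq PQ (UsetOf qv α) V hV

/-- **IA-ST-COR of type `ty`, every odd `p`**: `H593.IAStCorStatement_T` VERBATIM (`m = 1`). -/
theorem iaStCor_T_h509 : Fermat.Agent.S38.H593.IAStCorStatement_T := by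
  intro p _ _hp5 𝒪 _ _ _ _ _ _ ρbar Smin h ty _hflat Piv hPiv k pv hpv hpvPiv n r qv hq _ PQ α _hα
    V e hV _ _
  obtain ⟨cor, hmem, heq, hker⟩ := iaStCorT_h509 h ty Piv hPiv k pv hpv hpvPiv n r qv hq PQ α
    (ribetLevelT_eq_pFactor_h509 p ty Smin Piv) V hV e
  refine ⟨cor, 1, one_ne_zero, hmem, ?_, ?_⟩
  · intro ℓ hℓ hd hS v _
    exact heq ℓ hℓ hd hS v
  · intro v hv hz
    rw [one_smul, ← pivRel_eq_chiRelIA_T_h509]
    exact (hker v hv).mp hz

end Fermat.Agent.S38.H509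

end
-- ===== PACK-END S38T/H509/FreeCorT.lean

-- ===== PACK-BEGIN S38T/IA/Hecke/H81/IADictT.lean
section



/-!
# S59 (B2), cell HECKE-T, layer 4: leaf IA-DICT-T, the `ty`-generic twin  (helper81)

`iaDictT_T : H183.IADictTStatement_T` (VERBATIM, `S38T/IA/Hecke/H183/CmpSpecIA.lean`, helper3): the
twin of `H81.iaDictT` for every type `ty` at `p` and every odd `p` (neither `3 ≤ p` nor the type
hypothesis is used; the core `dictT_gen` is already generic in `t` and `p`).  For the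
combined family (pivots, then Taylor–Wiles primes), an eigenvector `y` of `T_Q` in `V` fixed by
the diamond operator `⟨u⟩_j` at the Taylor–Wiles prime `q_j` is a newform point of a level `M₁`
with `q_j² ∤ M₁`.  Instance of `dictT_gen` (`DictTGen.lean`) at `qq = Sum.elim pv qv`,
`s₀ = Sum.inr j`.
-/

set_option autoImplicit false
set_option linter.style.haveILetI false
set_option linter.unusedSectionVars false

open Polynomial IsLocalRing CongruenceSubgroup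
open scoped MatrixGroups

namespace Fermat.Agent.S38.IA.Hecke.H81

open Fermat.Agent.S59.Arch Fermat.Agent.S59.TW.H959 Fermat.Agent.S59.TW.H653
open Fermat.Agent.S59.TW.Aut
open Fermat.Agent.S38.IA Fermat.Agent.S38.IA.Hecke Fermat.Agent.S38.H781

/-- **IA-DICT-T**, `ty`-generic twin (VERBATIM). -/
theorem iaDictT_T : H183.IADictTStatement_T := by
  intro p _ _hp3 𝒪 _ _ _ _ _ _ ρbar Smin hRH ty _hty Piv hPiv k pv hpv hpvPiv n r qv hq _ PQ α _hα
    V h a hV hh1 hh2 ha j u hu y hy hfix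
  obtain ⟨hqinj, hqprop, -⟩ := hq
  have hpvmem : ∀ i, pv i ∈ Piv := fun i => by
    rw [← hpvPiv]
    exact Finset.mem_image_of_mem _ (Finset.mem_univ i)
  have hdisj : ∀ i j, pv i ≠ qv j := fun i j hij =>
    (hqprop j).2.1 (Finset.mem_union_right _ (hij ▸ hpvmem i))
  have hqqinj : Function.Injective (Sum.elim pv qv) :=
    injective_sum_elim_h781 pv qv hpv hqinj hdisj
  have hqqP : ∀ s, (Sum.elim pv qv s).Prime ∧ Sum.elim pv qv s ∉ Smin := by
    rintro (i | j)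
    · exact ⟨(hPiv _ (hpvmem i)).1, (hPiv _ (hpvmem i)).2.1⟩
    · exact ⟨(hqprop j).1, fun hmem => (hqprop j).2.1 (Finset.mem_union_left _ hmem)⟩
  have hset : Smin ∪ Piv ∪ Finset.univ.image qv =
      Smin ∪ Finset.univ.image (Sum.elim pv qv) := by
    rw [image_sum_elim_h781, hpvPiv, Finset.union_assoc]
  have hfix' : diamondU (isMid_KG p (wilesLevel p ty Smin Smin) (Sum.elim pv qv))
      (gLift (wilesLevel p ty Smin Smin) (Sum.elim pv qv)
        (Pi.mulSingle (M := fun s : Fin k ⊕ Fin r => (ZMod (Sum.elim pv qv s))ˣ)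
          (Sum.inr j) u))
      (y : Additive (KG p (wilesLevel p ty Smin Smin) (Sum.elim pv qv)) →+ 𝒪) = y := by
    rw [← pairU_one_mulSingle]
    exact hfix
  exact dictT_gen (Sum.elim pv qv) hRH hqqinj hqqP hset PQ V hV h
    (isHalf_sum_h781 p pv qv hh1 hh2) a ha (Sum.inr j) u hu y hy.1 hy.2 hfix'

end Fermat.Agent.S38.IA.Hecke.H81

end
-- ===== PACK-END S38T/IA/Hecke/H81/IADictT.lean

-- ===== PACK-BEGIN S38T/IA/Hecke/H183/CmpClosed.lean
section




/-!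
# Row S59, cell LO-IA (B2), HECKE-T: the leaf IA-CMP-T, plugged  (helper183)

`t`-generic twin of the leaf IA-CMP of row HARD (conventions of helper3's `S38T` specs):

    iaCmp_of_free_T : IAFreeStatement_T → G4Statement → S34Shape494 → S30Statement →
        (∀ M, HasIntegralStructure M 2) → S36Statement → IACmpStatement_T

= `iaCmp_of_dict_T` (`CmpWireIA.lean`, twin of `iaCmp_of_dict`) with the dictionary leaves
`H81.iaDictT_T` (helper81) and `H227.iaDictR227_T` (helper227) plugged in.  The only open input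
is IA-FREE-T (`IAFreeStatement_T`, every odd `p`).
-/

set_option autoImplicit false

namespace Fermat.Agent.S38.IA.Hecke.H183

open Fermat.Agent.S38.IA Fermat.Agent.S38.IA.Hecke

/-- **The leaf IA-CMP-T from IA-FREE-T** (dictionary and Galois half plugged). -/
theorem iaCmp_of_free_T (hFree : IAFreeStatement_T)
    (hG4 : Fermat.Agent.S59.G4.G4Statement)
    (h34 : Fermat.Agent.S59.TW.H494.S34Shape494)
    (h30 : Fermat.Agent.S31.S30Statement)
    (hIS : ∀ (M : ℕ) [NeZero M], CuspForm.HasIntegralStructure M 2)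
    (h36 : Fermat.Agent.S58.S36Statement) : IACmpStatement_T :=
  iaCmp_of_dict_T hFree Fermat.Agent.S38.IA.Hecke.H81.iaDictT_T
    Fermat.Agent.S38.H227.iaDictR227_T hG4 h34 h30 hIS h36

end Fermat.Agent.S38.IA.Hecke.H183

end
-- ===== PACK-END S38T/IA/Hecke/H183/CmpClosed.lean

-- ===== PACK-BEGIN S59/LoSqC/H987/ToricLeaf.lean
section



/-!
# S59 / cell (C) LO-SQ (helper987): `LeafRealize` from the two surjectivity leaves of level `M q`

* `LeafLab1` : LAB1-SURJ at level `M q` for all objects (`H630.Lab1SurjE`, some primitive root).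
* `leafToric_of_lab1 : LeafCtx → LeafLab1 → LeafToric` (helper630's `toricWallE630`).
* **`leafRealize_of_surj : LeafCtx → LeafRSurj1 → LeafLab1 → LoSqC.LeafRealize`**.
* `levelWall_of_surj2 : LeafCtx → LeafRSurj1 → LeafLab1 → LoSqC.LevelWallStatement`.
-/

set_option autoImplicit false
set_option linter.style.haveILetI false
set_option linter.unusedSectionVars false
set_option linter.unusedVariables false
set_option synthInstance.maxHeartbeats 400000
set_option maxHeartbeats 1600000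

noncomputable section

namespace Fermat.Agent.S59.LoSqC.H987

open ModularCurve AlgebraicCurve
open Fermat.Agent.S36 Fermat.Agent.S36.Eng
open Fermat.Agent

/-- **LAB1-SURJ (leaf)**: at level `M q`, every assignment of labels to the nodes of the finite
chart is realised by some `g` with `p ∣ div g`, `g ≡ 1` on `V₁'`, `V₂'`. -/
def LeafLab1 : Prop :=
  Mod3.Leaf fun P E M q _ _ _ w V₁' V₂' _ _ _ =>
    q ≠ 2 → ∀ p : ℕ, p.Prime → p ≠ 2 → p ≠ q →
      ∃ ζ : A2.RE P E, IsPrimitiveRoot ζ p ∧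
        Fermat.Agent.S59.LoSqC.H630.Lab1SurjE E w (A2.Mod.xE E M q) V₁' V₂' p ζ

/-- The toric wall (leaf) from CTX and LAB1-SURJ. -/
theorem leafToric_of_lab1 (hCtx : LoSqC.LeafCtx) (hL : LeafLab1) : LeafToric := by
  intro P E M q _ _ _ w hS V₁' V₂' V₁ V₂ V₃ W' W hO hq2 p hp hp2 hpq
  haveI : IsDiscreteValuationRing ↥(A2.RE P E) := hS.unram.1.dvr
  haveI : HenselianLocalRing ↥(A2.RE P E) := hS.unram.1.henselian
  haveI : IsAlgClosed (IsLocalRing.ResidueField ↥(A2.RE P E)) := hS.unram.1.algClosed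
  have hctx := hCtx P E M q w hS V₁' V₂' V₁ V₂ V₃ W' W hO
  have hqp : ¬ q ∣ p := fun hd => hpq ((Nat.prime_dvd_prime_iff_eq hS.q_prime hp).1 hd).symm
  obtain ⟨ζ, hζ, hLab⟩ := hL P E M q w hS V₁' V₂' V₁ V₂ V₃ W' W hO hq2 p hp hp2 hpq
  exact Fermat.Agent.S59.LoSqC.H630.toricWallE630 (R := ↥(A2.RE P E)) (E := E)
    (F := ↥(A2.Mod.FE E (M * q * q))) (F' := ↥(A2.Mod.FE E (M * q))) hctx hS.unif hS.q_prime
    (natCast_mem_maximalIdeal_RE E hS.lies_over) hp.pos hqp hζ hLab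

/-- **REALIZE** (frozen leaf) from CTX and the two surjectivity leaves of level `M q`. -/
theorem leafRealize_of_surj (hCtx : LoSqC.LeafCtx) (hR : LeafRSurj1) (hL : LeafLab1) :
    LoSqC.LeafRealize :=
  leafRealize_of_rsurj1 hCtx hR (leafToric_of_lab1 hCtx hL)

/-- The level wall from CTX and the two surjectivity leaves of level `M q`. -/
theorem levelWall_of_surj2 (hCtx : LoSqC.LeafCtx) (hR : LeafRSurj1) (hL : LeafLab1) :
    LoSqC.LevelWallStatement :=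
  LoSqC.levelWall_of_leaves newUnits hCtx (leafRealize_of_surj hCtx hR hL)

end Fermat.Agent.S59.LoSqC.H987

end

end
-- ===== PACK-END S59/LoSqC/H987/ToricLeaf.lean

-- ===== PACK-BEGIN S59/LoSqC/H987/RealizePt.lean
section



/-!
# S59 / cell (C) LO-SQ (helper987): REALIZE pointwise, and the HARD leaf form

* `realizeAt_of_surj_pt` : at ONE system of objects and ONE prime `p ≠ q`:
  `RSurj1E` + `Lab1SurjE` (some primitive root) ⟹ `LoSqC.RealizeAt` (needs `LeafCtx` only at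
  this system of objects).
* `leafRealizeHard_of_surj` : the hard leaf (`5 ≤ q`, `p ∣ q² - 1`), stated with the unfolded
  bodies of `H756.LeafRSurjHard`, `H756.LeafLabSurjHard` (hypotheses) and `H433.LeafRealizeHard`
  (conclusion), so that it plugs by `exact`.
-/

set_option autoImplicit false
set_option linter.style.haveILetI false
set_option linter.unusedSectionVars false
set_option linter.unusedVariables false
set_option synthInstance.maxHeartbeats 400000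
set_option maxHeartbeats 1600000

noncomputable section

namespace Fermat.Agent.S59.LoSqC.H987

open ModularCurve AlgebraicCurve
open Fermat.Agent.S36 Fermat.Agent.S36.Eng
open Fermat.Agent

/-- **REALIZE at one system of objects**, from the two surjectivities of level `M q`. -/
theorem realizeAt_of_surj_pt (hCtx : LoSqC.LeafCtx)
    (P : ValuationSubring A2.Qb) (E : IntermediateField ℚ A2.Qb) (M q : ℕ)
    [NeZero M] [NeZero q] [NeZero (M * q)] (w : A2.RE P E) (hS : Mod3.Std P E M q w)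
    (V₁' V₂' : ValuationSubring (A2.Mod.FE E (M * q)))
    (V₁ V₂ V₃ : ValuationSubring (A2.Mod.FE E (M * q * q)))
    (W' : A2.Mod.FE E (M * q) ≃ₐ[E] A2.Mod.FE E (M * q))
    (W : A2.Mod.FE E (M * q * q) ≃ₐ[E] A2.Mod.FE E (M * q * q))
    (hO : Mod3.Objs P E M q V₁' V₂' V₁ V₂ V₃ W' W)
    (p : ℕ) (hp : p.Prime) (hpq : p ≠ q)
    (hR : RSurj1E (A2.RE P E) E p V₁' V₂')
    (hL : ∃ ζ : A2.RE P E, IsPrimitiveRoot ζ p ∧
      Fermat.Agent.S59.LoSqC.H630.Lab1SurjE E w (A2.Mod.xE E M q) V₁' V₂' p ζ) :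
    LoSqC.RealizeAt E p (A2.Mod.αE E (M * q) q) (A2.Mod.βE E (M * q) q) V₁ V₂ V₃ := by
  haveI : IsDiscreteValuationRing ↥(A2.RE P E) := hS.unram.1.dvr
  haveI : HenselianLocalRing ↥(A2.RE P E) := hS.unram.1.henselian
  haveI : IsAlgClosed (IsLocalRing.ResidueField ↥(A2.RE P E)) := hS.unram.1.algClosed
  have hctx := hCtx P E M q w hS V₁' V₂' V₁ V₂ V₃ W' W hO
  have hqp : ¬ q ∣ p := fun hd => hpq ((Nat.prime_dvd_prime_iff_eq hS.q_prime hp).1 hd).symm
  obtain ⟨ζ, hζ, hLab⟩ := hL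
  have hT : ToricWallE E p (A2.Mod.αE E (M * q) q) (A2.Mod.βE E (M * q) q) V₁ V₂ V₃ :=
    Fermat.Agent.S59.LoSqC.H630.toricWallE630 (R := ↥(A2.RE P E)) (E := E)
      (F := ↥(A2.Mod.FE E (M * q * q))) (F' := ↥(A2.Mod.FE E (M * q))) hctx hS.unif hS.q_prime
      (natCast_mem_maximalIdeal_RE E hS.lies_over) hp.pos hqp hζ hLab
  have hRed : RedSurjE (A2.RE P E) E p V₁' V₂' :=
    redSurjE_of_rsurj1 (R := ↥(A2.RE P E)) (E := E) (F' := ↥(A2.Mod.FE E (M * q))) p V₁' V₂'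
      W' hO.fricke'.2 hO.vzero' hR
  exact realizeAt_of (R := ↥(A2.RE P E)) (E := E) (F := ↥(A2.Mod.FE E (M * q * q)))
    (F' := ↥(A2.Mod.FE E (M * q))) w hS.unif q hS.q_prime
    (natCast_mem_maximalIdeal_RE E hS.lies_over)
    (A2.Mod.αE E (M * q) q) (A2.Mod.βE E (M * q) q) (Mod3.x3E E M q) (A2.Mod.xE E M q)
    V₁ V₂ V₃ V₁' V₂' hctx p hp.pos hqp hRed hT

/-- **The hard leaf** (`5 ≤ q`, `p ∣ q² - 1`) from the two hard surjectivity leaves. -/
theorem leafRealizeHard_of_surj (hCtx : LoSqC.LeafCtx)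
    (hR : Mod3.Leaf fun P E _ q _ _ _ _ V₁' V₂' _ _ _ =>
      5 ≤ q → ∀ p : ℕ, p.Prime → p ≠ 2 → p ≠ q → p ∣ q ^ 2 - 1 →
        RSurj1E (A2.RE P E) E p V₁' V₂')
    (hL : Mod3.Leaf fun P E M q _ _ _ w V₁' V₂' _ _ _ =>
      5 ≤ q → ∀ p : ℕ, p.Prime → p ≠ 2 → p ≠ q → p ∣ q ^ 2 - 1 →
        ∀ ζ : A2.RE P E, IsPrimitiveRoot ζ p →
          Fermat.Agent.S59.LoSqC.H630.Lab1SurjE E w (A2.Mod.xE E M q) V₁' V₂' p ζ) :
    Mod3.Leaf fun _ E M q _ _ _ _ _ _ V₁ V₂ V₃ =>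
      5 ≤ q → ∀ p : ℕ, p.Prime → p ≠ 2 → p ≠ q → p ∣ q ^ 2 - 1 →
        LoSqC.RealizeAt E p (A2.Mod.αE E (M * q) q) (A2.Mod.βE E (M * q) q) V₁ V₂ V₃ := by
  intro P E M q _ _ _ w hS V₁' V₂' V₁ V₂ V₃ W' W hO h5 p hp hp2 hpq hdvd
  haveI : IsDiscreteValuationRing ↥(A2.RE P E) := hS.unram.1.dvr
  haveI : HenselianLocalRing ↥(A2.RE P E) := hS.unram.1.henselian
  haveI : IsAlgClosed (IsLocalRing.ResidueField ↥(A2.RE P E)) := hS.unram.1.algClosed
  have hqp : ¬ q ∣ p := fun hd => hpq ((Nat.prime_dvd_prime_iff_eq hS.q_prime hp).1 hd).symm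
  obtain ⟨ζ, hζ⟩ := Fermat.Agent.A2.Alg.H348.exists_primitiveRoot (R := ↥(A2.RE P E)) q p
    hS.q_prime (natCast_mem_maximalIdeal_RE E hS.lies_over) hp.pos hqp
  exact realizeAt_of_surj_pt hCtx P E M q w hS V₁' V₂' V₁ V₂ V₃ W' W hO p hp hpq
    (hR P E M q w hS V₁' V₂' V₁ V₂ V₃ W' W hO h5 p hp hp2 hpq hdvd)
    ⟨ζ, hζ, hL P E M q w hS V₁' V₂' V₁ V₂ V₃ W' W hO h5 p hp hp2 hpq hdvd ζ hζ⟩

end Fermat.Agent.S59.LoSqC.H987

end

end
-- ===== PACK-END S59/LoSqC/H987/RealizePt.lean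

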