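import Fermat.Agent.Pack.S59C.E14L1
import Fermat.Agent.Pack.S43GC.G0E23L0
import Fermat.Agent.Pack.S43GC.G0E22L2
import Fermat.Agent.Pack.S43GC.G0E21L1
import Fermat.Agent.Pack.S59C.E12L2
import Fermat.Agent.Pack.S59C.E10L0
import Fermat.Agent.Pack.S43MC.G0E20L0
import Fermat.Agent.Pack.S59C.E12L3
import Fermat.Agent.Pack.S59C.E12L1
import Fermat.Agent.Pack.S43MC.G0E19L1
import Fermat.Agent.Pack.S59C.E13L1
import Fermat.Agent.Pack.S59C.E14L0
import Fermat.Agent.Pack.S59C.E14L3
import Fermat.Agent.Pack.S59C.E13L2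
import Fermat.Agent.Pack.S59C.E4L3
import Fermat.Agent.Pack.S43MC.G0E28L3
import Fermat.Agent.Pack.S59C.E8L2
import Fermat.Agent.Pack.S43MC.G0E28L2
import Fermat.Agent.Pack.S59C.E14L2
import Fermat.Agent.Pack.S59C.E13L0
import Fermat.Agent.Pack.S59C.E12L0
import Fermat.Agent.Pack.S59C.E7L2
import Fermat.Agent.Pack.S59C.E1L2
import Fermat.Agent.Pack.S59C.E13L3
import Fermat.Agent.Pack.S44C.G0E30L3
import Fermat.Agent.Pack.S44C.G0E28L3

set_option linter.all false

-- ===== PACK-BEGIN S56/FinalC4.lean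
section








/-!
# Row S56 — CLOSED (row-lead helper956): the frozen statement S56, unconditionally

The two open inputs of `S56/FinalC3.lean` are closed:

* `invAll : InvAll` — `PT.InvSpec p S` for all odd `p ∈ S`: the assembly of helper3
  (`S55/Inv/Closed.lean`, `invSpec_closed`) with layer G taken from `Fin.globalInputSpec`
  (the closed form used by `Fermat/Agent/S55.lean`): reciprocity `G.Rec.H904` (helper904),
  GO4 = SHAP (helper593) + ASM (helper3) + LOC-DESC (helper978) + `K.AR.H4.cokerTower` (helper4)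
  + AR-DEG (helper181);
* `p1All : P1All` — `Euler.H184.p1CharSpec` (helper184).

    `baseBig : H716.BaseBigStatement`
    `result_closed : (the frozen statement S56)`.
-/

set_option autoImplicit false

open Polynomial IsLocalRing

namespace Fermat.Agent.S56

open Fermat.Agent.S55 Fermat.Agent.S55.PT ExtCitation

/-- **`PT.InvSpec` (A5–A7) for all odd `p ∈ S`.** -/
theorem invAll : InvAll := fun p _ S hp2 hpS =>
  G.Rec.H904.nonempty_localInvSystem.elim fun I =>
    PT.invSpec_of_rec hp2 S hpS I (G.Rec.H904.reciprocity I p hp2)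
      (Inv.GO4.asm p S
        (Inv.GO4.H593.shapLeaf p S (K.AR.H4.cokerTower (Fin.globalInputSpec p hp2 S hpS) hp2 hpS))
        (Inv.GO4.H978.locDesc p S (Fact.out : p.Prime)
          (K.AR.H181.decLeaf S p ⟨(Fact.out : p.Prime), hp2, hpS⟩)))

/-- **(P1-CHAR) for all `p`.** -/
theorem p1All : P1All := fun p _ => Euler.H184.p1CharSpec p

/-- **BASE-BIG**, unconditional. -/
theorem baseBig : H716.BaseBigStatement := baseBig_of_open invAll p1All

end Fermat.Agent.S56

end
-- ===== PACK-END S56/FinalC4.lean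

-- ===== PACK-BEGIN S59/TW/H959/WireTop.lean
section










/-!
# Row S59, cell TW: the top of the cell, `Plus` form (helper959)

Everything closed on main is plugged: S56 (`S56.result_of_baseBig S56.baseBig`, the plain chain
of the frozen statement S56), S53, S54, COND, DefRingRes, Weierstrass, MinNum, RED (layer 1),
RESG, INX, INO, CYC, ALG (layer 2, helper24), IDEM, CUSP-MIN, MOD0 (helper511, helper709),
MODQ (helper564), NONTRIV (helper581), FREE (helper779, helper181), CTRL (helper105),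
BRIDGE (helper24).
Open: PKG (⇐ frozen S33, `TW.H659.pkg_of`) and the leaf CMP of layer 3 (layer 4: helper314).

    minRTPlusH_of_cmp : TW.PkgStatement → Aut.CmpStatement → Arch.MinRTPlusHStatement
-/

set_option autoImplicit false

namespace Fermat.Agent.S59.TW.H959

open Fermat.Agent.S59 Fermat.Agent.S59.Arch

/-- The frozen S56, from the plain chain on main. -/
theorem s56Statement : S56Statement :=
  fun {_} _ _ _ _ _ p _ hp2 hp𝒪 ρbar habs hdet hsplit hTW S Smin hpSmin hSmin hS hmin =>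
    Fermat.Agent.S56.result_of_baseBig Fermat.Agent.S56.baseBig p hp2 hp𝒪 ρbar habs hdet hsplit
      hTW S Smin hpSmin hSmin hS hmin

/-- The bridge clause of the `Plus` form (leaf BRIDGE, closed). -/
theorem bridgeStatement : TW.H24.BridgeStatement :=
  TW.H24.bridge_of_cuspMin TW.Aut.H511.cuspMin

/-- **Cell TW, `Plus` form**, from PKG and layer 3 (AUT-PLUS). -/
theorem minRTPlusH_of_pkg_aut (hPkg : TW.PkgStatement) (hAut : TW.AutPlusStatement) :
    Arch.MinRTPlusHStatement :=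
  _root_.Fermat.Agent.S59.TW.H959.minRTPlusH_of s56Statement (TW.pkgPlus_of_pkg hPkg) hAut

/-- **Cell TW, `Plus` form**, from PKG and the three leaves FREE, CTRL, CMP of layer 3. -/
theorem minRTPlusH_of_open (hPkg : TW.PkgStatement)
    (hFree : TW.Aut.FreeQStatement) (hCtrl : TW.Aut.CtrlStatement)
    (hCmp : TW.Aut.CmpStatement) : Arch.MinRTPlusHStatement :=
  minRTPlusH_of_aut s56Statement (TW.pkgPlus_of_pkg hPkg) TW.Aut.H511.idem TW.Aut.H511.mod0
    TW.Aut.H581.nontriv TW.Aut.H564.modQ hFree hCtrl hCmp bridgeStatement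

/-- **Cell TW, `Plus` form**, from the open leaves PKG and CMP (FREE, CTRL plugged). -/
theorem minRTPlusH_of_cmp (hPkg : TW.PkgStatement) (hCmp : TW.Aut.CmpStatement) :
    Arch.MinRTPlusHStatement :=
  minRTPlusH_of_open hPkg TW.Aut.H779.freeQ_h779 H105.ctrl hCmp

end Fermat.Agent.S59.TW.H959

end
-- ===== PACK-END S59/TW/H959/WireTop.lean

-- ===== PACK-BEGIN S59/NMP/H135/CoreFinal.lean
section



/-!
# S59 / NMP-LGC (helper135): leaf CORE, unconditional

**`lgcCore : LgcCoreStatement`** — Eichler–Shimura at `p` modulo the inertia augmentation on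
`J₀(N)[pⁿ]`, for every odd prime `p ∤ N`, every place `A ∣ p` and every Frobenius element at `A`:

    σ² x - T_p σ x + p x ∈ iAug I_A J₀(N)[pⁿ]      (x ∈ J₀(N)[pⁿ]).

= `lgcCore_of_maxUnr` (`Core.lean`) applied to `H296.maxUnrGood_h296` (helper296: the S19 pipeline
with the tracked reduction clause + theorem CE).
-/

set_option autoImplicit false

namespace Fermat.Agent.S59.NMP.H135

/-- **CORE** (frozen `LgcCoreStatement`), unconditional. -/
theorem lgcCore : LgcCoreStatement :=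
  lgcCore_of_maxUnr Fermat.Agent.S59.NMP.H296.maxUnrGood_h296

end Fermat.Agent.S59.NMP.H135

end
-- ===== PACK-END S59/NMP/H135/CoreFinal.lean

-- ===== PACK-BEGIN S59/NMP/H135/LgcFinal.lean
section




/-!
# S59 / cell NMP, leaf LGC — CLOSED (helper135, sub-architect of the leaf)

    Fermat.Agent.S59.NMP.H135.lgc : Fermat.Agent.S59.NMP.LgcStatement

Eichler–Shimura at `p` for the Betti eigenclasses (`NMP/SpecP.lean`), unconditional:

* CORE (`H135.lgcCore`, `NMP/H135/CoreFinal.lean`; MAXUNR by helper296);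
* OLD (`S33.H706.oldAugStatement`);
* the assembly of helper587 (route CHAR: `betti_of_eigen`, `exists_eigenHom_of_eigenclass`) and
  helper590 (`exists_eigenModule_geoRel`, `root_of_eigenModule`), in the realizer-free form
  `H135.Clean.lgc_of_old_core` (`NMP/H135/LgcClean.lean`).

The closure of this file contains none of the modules `S31/H22/PowTr`, `S31/H982/TracePow`,
`S31/H169/PowTr`, `A2/H493/FrobAlg`, so it can be imported together with the other cells of S59.
-/

set_option autoImplicit false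

namespace Fermat.Agent.S59.NMP.H135

/-- **LGC**, unconditional. -/
theorem lgc : Fermat.Agent.S59.NMP.LgcStatement :=
  Clean.lgc_of_old_core Fermat.Agent.S33.H706.oldAugStatement lgcCore

end Fermat.Agent.S59.NMP.H135

end
-- ===== PACK-END S59/NMP/H135/LgcFinal.lean

-- ===== PACK-BEGIN S59/Arch/Final2.lean
section


















/-!
# Row S59 — FINAL WIRING, round 2: S59 from the cell LO alone (architect helper239)

Every cell of row S59 except the level optimisation is closed on main and is plugged in here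
from the PLAIN tops of the rows (no statement module `Fermat/Agent/SNN.lean` of a giant row is
imported by this file itself):

* S58  : `S58.H94.s58_of_model3_h94` on the MOD3 term of `S36.lean`;
* DICT : `H401.dict`;
* TW   : `TW.H959.minRTPlusH_of_cmp` with PKG `TW.H659.pkg` and CMP
         `TW.H314.cmp_of_dictR TW.Aut.H673.dictR` (S30 `TW.H659.s30Statement659`,
         S35 `S58.H94.s35Statement_h94`, S36 from the engine);
* NM   : PKG;   NMP : DATUM `TW.H659.ordDatum659`, SEL `NMP.H254.selP`,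
         STEP-P `NMP.H341.boundStepP`, LGC `NMP.H135.lgc` (the realizer-free copy, co-importable);
* LO   : `LOW.levelOpt_of_w35` with FlatPeu `H461.flatPeu`, ResUnram `H294.resUnram`,
         ResFlat `H294.resFlat`.

    s59_of_lo : H934.LoSqStatement → LOW.MazurW35Statement → LOW.PivotW35Statement →
                LOW.S39W35Statement → H239.S59Statement

`H239.S59Statement` is the frozen S59 (`Arch.Final`).  So ROW S59 = the four Props of the cell LO
in W-form at `p ∈ {3, 5}` (`Arch/LOW.lean`, board `coord/S59-LO.md`).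
-/

set_option autoImplicit false

namespace Fermat.Agent.S59.Arch

open Fermat.Agent.S59

/-- The MOD3 term of `S36.lean` / `S58.lean`. -/
theorem model3Statement : Fermat.Agent.S36.Eng.Model3Statement :=
  Fermat.Agent.S36.Mod3.H928.model3_of_cuspCong Fermat.Agent.S36.Mod3.H96.leafCuspCong96

/-- Frozen S36 in the gate shape of `S58/Spec.lean`, from the plain chain. -/
theorem s36Statement : Fermat.Agent.S58.S36Statement :=
  Fermat.Agent.S58.H94.s36Statement_of_newPart_h94
    (Fermat.Agent.S36.Eng.newPartInertia_of_alg3_model3 Fermat.Agent.S36.Alg3.alg3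
      model3Statement)

/-- Frozen S58, from the plain chain. -/
theorem s58Statement : H239.S58Statement :=
  fun W hss N p _ hp2 hirr hp2N hN hbad hN3 =>
    Fermat.Agent.S58.H94.s58_of_model3_h94 model3Statement W hss N p hp2 hirr hp2N hN hbad hN3

/-- **Leaf CMP of the cell TW**, closed. -/
theorem cmpStatement : TW.Aut.CmpStatement :=
  TW.H314.cmp_of_dictR TW.Aut.H673.dictR TW.H659.s30Statement659
    Fermat.Agent.S58.H94.s35Statement_h94 s36Statement

/-- **Cell TW**, closed. -/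
theorem minRTPlusHStatement : MinRTPlusHStatement :=
  TW.H959.minRTPlusH_of_cmp TW.H659.pkg cmpStatement

/-- **ROW S59 from the level optimisation.** -/
theorem s59_of_levelOpt (hLO : LevelOptStatement) : H239.S59Statement :=
  s59_of_open s58Statement hLO H401.dict minRTPlusHStatement TW.H659.pkg TW.H659.ordDatum659
    NMP.H254.selP NMP.H341.boundStepP NMP.H135.lgc

/-- **ROW S59 from the four Props of the cell LO in W-form at `p ∈ {3, 5}`.** -/
theorem s59_of_lo (hSQ : H934.LoSqStatement) (hMz : LOW.MazurW35Statement)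
    (hPv : LOW.PivotW35Statement) (h39 : LOW.S39W35Statement) : H239.S59Statement :=
  s59_of_levelOpt
    (LOW.levelOpt_of_w35 hSQ hMz hPv h39 H461.flatPeu H294.resUnram H294.resFlat)

end Fermat.Agent.S59.Arch

end
-- ===== PACK-END S59/Arch/Final2.lean

-- ===== PACK-BEGIN S59/Arch/Final3.lean
section



/-!
# Row S59 — FINAL WIRING, round 3: S59 from the four cell deliverables (architect helper239)

The cell LO in W-form at `p ∈ {3, 5}` is split into four cells; each cell architect delivers ONE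
closed theorem, of the following types VERBATIM:

* (C)  `H826.SqFree35Statement`                       (end-to-end form of LO-SQ, helper826);
* (B1) `LOW.MazurW35Statement`                        (Mazur's principle, wall at `q`);
* (A)  `LOW.MazurW35Statement → LOW.S39W35Statement`  (wall at `p`; Mazur is used at `(3, 2)`);
* (B2) `LOW.S39W35Statement → LOW.PivotW35Statement`  (pivots, `IA`).

    s59_of_cells : (C) → (B1) → (A) → (B2) → H239.S59Statement

`H239.S59Statement` is the frozen S59 (`Arch.Final`).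
-/

set_option autoImplicit false

namespace Fermat.Agent.S59.Arch

open Fermat.Agent.S59

/-- **ROW S59 from the level optimisation in the end-to-end form of (C).** -/
theorem s59_of_sqFree35 (hC : H826.SqFree35Statement) (hMz : LOW.MazurW35Statement)
    (hPv : LOW.PivotW35Statement) (h39 : LOW.S39W35Statement) : H239.S59Statement :=
  s59_of_levelOpt
    (H826.levelOpt_of_sqFree35 hC hMz hPv h39 H461.flatPeu H294.resUnram H294.resFlat)

/-- **ROW S59 from the four cell deliverables.** -/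
theorem s59_of_cells (hC : H826.SqFree35Statement) (hB1 : LOW.MazurW35Statement)
    (hA : LOW.MazurW35Statement → LOW.S39W35Statement)
    (hB2 : LOW.S39W35Statement → LOW.PivotW35Statement) : H239.S59Statement :=
  s59_of_sqFree35 hC hB1 (hB2 (hA hB1)) (hA hB1)

end Fermat.Agent.S59.Arch

end
-- ===== PACK-END S59/Arch/Final3.lean

-- ===== PACK-BEGIN S59/LoSqC/H296/RedSurj.lean
section


/-!
# S59 moonshot, cell (C) LO-SQ, W-COUNT: J-form of R-SURJ1 and its Kummer-generator output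
  (helper296)

`RSurjJ m q M' A I` : every `m`-torsion pair `(y∞, y₀) ∈ Pic⁰(F_k)²` is the pair of reduction
classes (`IsRedClassQ`) of a class `x ∈ I` (`I` = the inertia-fixed classes, or `⊤`).  This is the
conclusion R-SURJ1 of the abstract counts applied to `exists_redHom_h296`
(`rSurjJ_of_hom_surj`).

Output for the E-form adapters (`kummerGen_of_rSurjJ`): for ANY two series `ρ∞, ρ₀ ∈ F_k` with
`m`-divisible divisors there is a class `x ∈ I` with a Kummer generator `f` whose reductions are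
`c∞ · ρ∞ · s∞ ^ m` and `c₀ · ρ₀ · s₀ ^ m` (`c ∈ kˣ`, `s ∈ F_kˣ`).  In particular
(`kummerGen_of_rSurjJ_one`) with `ρ∞ = 1`: reductions `(c∞ s∞ ^ m, c₀ ρ₀ s₀ ^ m)`.
-/

set_option autoImplicit false
set_option linter.unusedSectionVars false
set_option linter.unusedVariables false
set_option linter.style.haveILetI false
set_option synthInstance.maxHeartbeats 400000
set_option maxHeartbeats 1000000

noncomputable section

namespace Fermat.Agent.S59.LoSqC.H296

open AlgebraicCurve ModularCurve HahnSeries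
open Fermat.Agent.S24 Fermat.Agent.A2.H708 Fermat.Agent.A2.H528
open Fermat.Agent.Ribet.Spec Fermat.Agent.Ribet.H944.Wall Fermat.Agent.Ribet.H884
open Fermat.Agent.Ribet.H158.WallQ
open Fermat.Agent.Ribet.H944
open Fermat.Agent.Ribet.H708.Q3Pow

section Surj

variable {m q M' : ℕ} [NeZero M'] [NeZero q] [NeZero (q * M')] {A : ValuationSubring Kbar}

/-- **R-SURJ1, J-form**: the reduction classes of the classes of `I` exhaust the `m`-torsion of
`Pic⁰(F_k)²`. -/
def RSurjJ (m q M' : ℕ) [NeZero M'] [NeZero (q * M')] (A : ValuationSubring Kbar)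
    (I : AddSubgroup (JZero (q * M'))) : Prop :=
  ∀ y : JZeroC (kA A) M' × JZeroC (kA A) M', m • y = 0 →
    ∃ x ∈ I, IsRedClassQ m q M' A x y

theorem RSurjJ.mono {I I' : AddSubgroup (JZero (q * M'))} (h : RSurjJ m q M' A I)
    (hle : I ≤ I') : RSurjJ m q M' A I' := fun y hy => by
  obtain ⟨x, hx, hxy⟩ := h y hy
  exact ⟨x, hle hx, hxy⟩

/-- R-SURJ1 in J-form from the surjectivity of ANY homomorphism computing the reduction classes
on a subgroup `F₁ ≤ 𝓕` (e.g. `exists_redHom_h296` restricted to the inertia-fixed classes). -/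
theorem rSurjJ_of_hom_surj (I : AddSubgroup (JZero (q * M')))
    (F₁ : AddSubgroup (JZero (q * M'))) (hF₁ : F₁ ≤ I)
    (red : ↥F₁ → JZeroC (kA A) M' × JZeroC (kA A) M')
    (hred : ∀ x : ↥F₁, IsRedClassQ m q M' A (x : JZero (q * M')) (red x))
    (hsurj : ∀ y : JZeroC (kA A) M' × JZeroC (kA A) M', m • y = 0 → ∃ x : ↥F₁, red x = y) :
    RSurjJ m q M' A I := fun y hy => by
  obtain ⟨x, rfl⟩ := hsurj y hy
  exact ⟨x, hF₁ x.2, hred x⟩

/-- **Kummer generators with prescribed reductions** (up to constants and `m`-th powers). -/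
theorem kummerGen_of_rSurjJ (hm : m ≠ 0) (hq : q.Prime) (hqM : ¬ q ∣ M')
    (hA : A.LiesOverPrime q) {I : AddSubgroup (JZero (q * M'))} (h : RSurjJ m q M' A I)
    {ρ₁ ρ₂ : LaurentSeries (kA A)} (h₁ : PDivSeries m M' ρ₁) (h₂ : PDivSeries m M' ρ₂) :
    ∃ x ∈ I, ∃ (f : FF (q * M')) (r₁ r₂ : LaurentSeries (kA A)),
      IsKummerGen (q * M') m f x ∧ IsRedInf (q * M') A f r₁ ∧ IsRedZero (q * M') A f r₂ ∧
      (∃ (c : kA A) (s : modularFunctionFieldFullC (kA A) M'), c ≠ 0 ∧ s ≠ 0 ∧
        r₁ = HahnSeries.C c * ρ₁ * (s : LaurentSeries (kA A)) ^ m) ∧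
      (∃ (c : kA A) (s : modularFunctionFieldFullC (kA A) M'), c ≠ 0 ∧ s ≠ 0 ∧
        r₂ = HahnSeries.C c * ρ₂ * (s : LaurentSeries (kA A)) ^ m) := by
  haveI := hpd_h296 (M' := M') hq hqM hA
  have hconst := hconst_h296 (M' := M') hq hqM hA
  obtain ⟨y₁, hy₁⟩ := exists_isRootClass hm h₁
  obtain ⟨y₂, hy₂⟩ := exists_isRootClass hm h₂
  have hy : m • ((y₁, y₂) : JZeroC (kA A) M' × JZeroC (kA A) M') = 0 :=
    Prod.ext hy₁.nsmul_eq_zero hy₂.nsmul_eq_zero
  obtain ⟨x, hxI, f, r₁, r₂, hf, hr1, hr2, hc1, hc2⟩ := h (y₁, y₂) hy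
  exact ⟨x, hxI, f, r₁, r₂, hf, hr1, hr2, hc1.exists_factor hconst hy₁,
    hc2.exists_factor hconst hy₂⟩

/-- The case `ρ∞ = 1` (the form `(0, *)` consumed by the reduction half of W-SUB). -/
theorem kummerGen_of_rSurjJ_one (hm : m ≠ 0) (hq : q.Prime) (hqM : ¬ q ∣ M')
    (hA : A.LiesOverPrime q) {I : AddSubgroup (JZero (q * M'))} (h : RSurjJ m q M' A I)
    {ρ : LaurentSeries (kA A)} (hρ : PDivSeries m M' ρ) :
    ∃ x ∈ I, ∃ (f : FF (q * M')) (r₁ r₂ : LaurentSeries (kA A)),
      IsKummerGen (q * M') m f x ∧ IsRedInf (q * M') A f r₁ ∧ IsRedZero (q * M') A f r₂ ∧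
      PPowSeries m M' r₁ ∧
      (∃ (c : kA A) (s : modularFunctionFieldFullC (kA A) M'), c ≠ 0 ∧ s ≠ 0 ∧
        r₂ = HahnSeries.C c * ρ * (s : LaurentSeries (kA A)) ^ m) := by
  obtain ⟨x, hxI, f, r₁, r₂, hf, hr1, hr2, ⟨c, s, hc, hs, e⟩, h2⟩ :=
    kummerGen_of_rSurjJ hm hq hqM hA h (I2.pDivSeries_one m M') hρ
  refine ⟨x, hxI, f, r₁, r₂, hf, hr1, hr2, ⟨c, s, hc, hs, ?_⟩, h2⟩
  rw [e, mul_one]

end Surj

end Fermat.Agent.S59.LoSqC.H296

end

end
-- ===== PACK-END S59/LoSqC/H296/RedSurj.lean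

-- ===== PACK-BEGIN S59/LoSqC/H505/WCount.lean
section





/-!
# Row S59, cell (C) LO-SQ, leaf W-COUNT — THE ASSEMBLY of the count at level `q M'` (helper505)

Level `N = q * M'` (WALL-q convention), `q ∤ M'`, `M'` neat for `q` (`S36.Eng.NeatFor M' q`),
`A` a valuation subring of `ℚ̄` over `q`, `p ≠ q` a prime, `G = J₀(q M')(ℚ̄)`.

PLUGGED here (nothing left to supply):

* the torsion numbers `#G[p^n] = p^(2 g n)`, `#(Pic⁰(F_k)[p])² = p^(4 g₀)` and the genus relation
  `4 g₀ + 2 (s - 1) ≤ 2 g` for `12 s ≤ (q - 1) ψ(M')`        (helper140, `countNum_neat140`);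
* TAME-CYC: the inertia invariants of `G[p^n]` are the invariants of ONE tame generator `σ`
  (helper319, `fixed_of_sigma_fixed`, `exists_tamePair`; wall A2 on main);
* the reduction homomorphism `red : finPartQ p q M' A → Pic⁰(F_k)²` with kernel `splitPartQ`
  (helper296, `exists_redHom_h296`);
* the finite count (`count_family_sub505`).

INPUTS (hypotheses of `wCount505`; `F n`, `S n` are ANY families of subgroups of `G[p^n]`, to be
instantiated by the E-form families: `F n` = inertia-fixed classes with an `E`-rational Kummer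
generator of slope `≡ 0 mod p^n`, `S n` = `H296.kummerClasses296 E N (p^n) (splitDiv (p^n))`):

* `hTau`  : `τ x - x ∈ S n` for `x ∈ G[p^n]`, `τ ∈ I_A`                     (TAU, E-form);
* `hNode` : `K • x ∈ F n` for `x ∈ G[p^n]` inertia-fixed, `K ≠ 0` FIXED       (NODE-REL);
* `hFk`, `hSk` : `F (n+1)[p] ⊆ F 1`, `S (n+1)[p] ⊆ S 1`                     (COMPAT-E);
* `hFfin` : `F 1 ⊆ finPartQ p q M' A`                                        (FIN-OF-SLOPE);
* `hKer`  : `F 1 ∩ splitPartQ p q M' A ⊆ S 1`                                (KER-RED-E);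
* `hLab`  : `#S 1 ≤ p^(s-1)`, `12 s ≤ (q - 1) ψ(M')`, `1 ≤ s`                (LAB-INJ + GUB).

OUTPUT: `#S 1 = p^(s-1)` (so the label map is ONTO: LAB1-SURJ) and
`H296.RSurjJ p q M' A (F 1)` (R-SURJ1, J-form: every pair of `p`-torsion classes of the special
fibre is the pair of reduction classes of some `x ∈ F 1`).

`jCount505` is the instance `F n = finPartQ (p^n) ∩ (inertia-fixed)`,
`S n = splitPartQ (p^n) ∩ (inertia-fixed)` (all J-form; TAU, COMPAT, FIN, KER plugged from
helper216 / helper296 / the wall A2).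
-/

set_option autoImplicit false
set_option linter.unusedSectionVars false
set_option linter.unusedVariables false
set_option linter.style.haveILetI false
set_option synthInstance.maxHeartbeats 400000
set_option maxHeartbeats 1000000

noncomputable section

namespace Fermat.Agent.S59.LoSqC.H505

open AlgebraicCurve ModularCurve
open Fermat.Agent.S24 Fermat.Agent.Ribet.H884 Fermat.Agent.Ribet.H158.WallQ
open Fermat.Agent.S59.LoSqC.H296 Fermat.Agent.S59.LoSqC.H140

/-- `G_ℚ` -/
local notation "GQ505" => (AlgebraicClosure ℚ ≃ₐ[ℚ] AlgebraicClosure ℚ)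

section General

variable {N : ℕ}

/-- The torsion subgroup of the count is the Prelude torsion subgroup. -/
theorem tors505_eq_torsion (N k : ℕ) :
    tors505 (JZero N) k = Pic0.torsion (AlgebraicClosure ℚ) (modularFunctionFieldBar N) k := by
  ext x
  rw [mem_tors505, Pic0.mem_torsion, natCast_zsmul]

theorem finite_tors_jZero505 (N : ℕ) [NeZero N] {k : ℕ} (hk : k ≠ 0) :
    Finite (tors505 (JZero N) k) := by
  rw [tors505_eq_torsion]
  apply Nat.finite_of_card_ne_zero
  rw [Fermat.Agent.Ribet.H937.natCard_torsion_jZero N k hk]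
  exact pow_ne_zero _ hk

/-- The classes of `G[k]` fixed by `σ`. -/
def fixTors505 (N : ℕ) (σ : GQ505) (k : ℕ) : AddSubgroup (JZero N) where
  carrier := {x | k • x = 0 ∧ σ • x = x}
  zero_mem' := ⟨nsmul_zero k, smul_zero σ⟩
  add_mem' := by
    rintro x y ⟨hx, hx'⟩ ⟨hy, hy'⟩
    exact ⟨by rw [nsmul_add, hx, hy, add_zero], by rw [smul_add, hx', hy']⟩
  neg_mem' := by
    rintro x ⟨hx, hx'⟩
    exact ⟨by rw [neg_nsmul, hx, neg_zero], by rw [smul_neg, hx']⟩

theorem mem_fixTors505 {σ : GQ505} {k : ℕ} {x : JZero N} :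
    x ∈ fixTors505 N σ k ↔ k • x = 0 ∧ σ • x = x := Iff.rfl

/-- `σ - 1` as an additive endomorphism of `J₀(N)`. -/
def galSubOne505 (N : ℕ) (σ : GQ505) : JZero N →+ JZero N :=
  DistribSMul.toAddMonoidHom (JZero N) σ - AddMonoidHom.id (JZero N)

theorem galSubOne505_apply (σ : GQ505) (x : JZero N) : galSubOne505 N σ x = σ • x - x := rfl

end General

section Level

variable {p q M' : ℕ} [NeZero M'] [NeZero q] [NeZero (q * M')]
  {A : ValuationSubring (AlgebraicClosure ℚ)}

theorem not_sq_dvd505 (hq : q.Prime) (hqM : ¬ q ∣ M') : ¬ q ^ 2 ∣ q * M' := by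
  intro h
  apply hqM
  rw [pow_two] at h
  exact (Nat.mul_dvd_mul_iff_left hq.pos).mp h

/-- **W-COUNT, the assembly.**  See the header. -/
theorem wCount505 (hp : p.Prime) (hq : q.Prime) (hpq : p ≠ q) (hqM : ¬ q ∣ M')
    (hneat : Fermat.Agent.S36.Eng.NeatFor M' q) (hA : A.LiesOverPrime q)
    (F S : ℕ → AddSubgroup (JZero (q * M')))
    (hF : ∀ n, ∀ x ∈ F n, (p ^ n) • x = 0) (hS : ∀ n, ∀ x ∈ S n, (p ^ n) • x = 0)
    (hTau : ∀ (n : ℕ) (x : JZero (q * M')), (p ^ n) • x = 0 →
      ∀ τ ∈ A.inertiaSubgroupIn ℚ, τ • x - x ∈ S n)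
    (K : ℕ) (hK : K ≠ 0)
    (hNode : ∀ (n : ℕ) (x : JZero (q * M')), (p ^ n) • x = 0 →
      (∀ τ ∈ A.inertiaSubgroupIn ℚ, τ • x = x) → K • x ∈ F n)
    (hFk : ∀ n x, x ∈ F (n + 1) → p • x = 0 → x ∈ F 1)
    (hSk : ∀ n x, x ∈ S (n + 1) → p • x = 0 → x ∈ S 1)
    (hFfin : F 1 ≤ finPartQ p q M' A)
    (hKer : ∀ x ∈ F 1, x ∈ splitPartQ p q M' A → x ∈ S 1)
    (s : ℕ) (hs1 : 1 ≤ s) (hs : 12 * s ≤ (q - 1) * dedekindPsi M')
    (hLab : Nat.card (S 1) ≤ p ^ (s - 1)) :
    Nat.card (S 1) = p ^ (s - 1) ∧ RSurjJ p q M' A (F 1) := by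
  have hqp : ¬ q ∣ p := fun hd => hpq ((Nat.prime_dvd_prime_iff_eq hq hp).mp hd).symm
  obtain ⟨hcJ, -, hcQ, -, -, hgen⟩ :=
    countNum_neat140 M' q hq hqM hneat A hA p hp.ne_zero hqp
  obtain ⟨φ, σ, hσ⟩ := Fermat.Agent.S59.LoSqC.H319.exists_tamePair hq hp hpq A hA
  obtain ⟨red, hredC, hredT, hredK⟩ := exists_redHom_h296 p q M' A hp.ne_zero hq hqM hA
  have hfin : ∀ n, Finite (tors505 (JZero (q * M')) (p ^ n)) := fun n =>
    finite_tors_jZero505 (q * M') (pow_ne_zero n hp.ne_zero)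
  haveI : Finite (tors505 (JZero (q * M')) K) := finite_tors_jZero505 (q * M') hK
  have hFle : ∀ n, F n ≤ tors505 (JZero (q * M')) (p ^ n) := fun n x hx =>
    mem_tors505.mpr (hF n x hx)
  have hSle : ∀ n, S n ≤ tors505 (JZero (q * M')) (p ^ n) := fun n x hx =>
    mem_tors505.mpr (hS n x hx)
  have hIle : ∀ n, fixTors505 (q * M') σ (p ^ n) ≤ tors505 (JZero (q * M')) (p ^ n) :=
    fun n x hx => mem_tors505.mpr hx.1
  -- the numbers
  have hJ : ∀ n, p ^ (2 * gBar140 (q * M') * n) ≤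
      Nat.card (tors505 (JZero (q * M')) (p ^ n)) := fun n => by
    rw [tors505_eq_torsion, hcJ n]
  set Q₁ : AddSubgroup (JZeroC (kA A) M' × JZeroC (kA A) M') :=
    (Pic0.torsion (kA A) (modularFunctionFieldFullC (kA A) M') (p ^ 1)).prod
      (Pic0.torsion (kA A) (modularFunctionFieldFullC (kA A) M') (p ^ 1)) with hQ₁
  have hQcard : Nat.card Q₁ = p ^ (4 * gRes140 A M') := by
    have := hcQ 1
    rw [mul_one] at this
    exact this
  haveI : Finite Q₁ := by
    apply Nat.finite_of_card_ne_zero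
    rw [hQcard]
    exact pow_ne_zero _ hp.ne_zero
  have hmemQ : ∀ y : JZeroC (kA A) M' × JZeroC (kA A) M', p • y = 0 → y ∈ Q₁ := by
    intro y hy
    rw [hQ₁, mem_torsion_pair_iff140, pow_one]
    exact ⟨congrArg Prod.fst hy, congrArg Prod.snd hy⟩
  -- MONO / TAU
  have hmono := mono_card_of_hom505 hfin (fun n => fixTors505 (q * M') σ (p ^ n)) S hIle hSle
    (galSubOne505 (q * M') σ)
    (fun n x hx => by
      rw [galSubOne505_apply]
      exact hTau n x hx σ hσ.mem)
    (fun n x hx h0 => by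
      rw [galSubOne505_apply] at h0
      exact ⟨hx, sub_eq_zero.mp h0⟩)
  -- NODE-REL
  have hslope := slope_card_of_nsmul505 hfin (fun n => fixTors505 (q * M') σ (p ^ n)) F hFle K
    (fun n x hx => hNode n x hx.1
      (Fermat.Agent.S59.LoSqC.H319.fixed_of_sigma_fixed hq (Dvd.intro M' rfl)
        (not_sq_dvd505 hq hqM) hp hpq n A hA hσ x hx.1 hx.2))
  -- the count
  obtain ⟨h1, h2⟩ := count_family_sub505 (G := JZero (q * M')) (m := p)
    (s := Nat.card (tors505 (JZero (q * M')) K)) (a := 4 * gRes140 A M') (h := s - 1)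
    (c := 2 * gBar140 (q * M')) hp.pos (hgen s hs1 hs) hfin hJ
    (fun n => fixTors505 (q * M') σ (p ^ n)) F S hFle hSle hmono hslope hFk hSk
    (finPartQ p q M' A) hFfin red Q₁ (le_of_eq hQcard)
    (fun x _ => hmemQ _ (hredT x))
    (fun x hx h0 => hKer _ hx ((hredK x).mp h0)) hLab
  refine ⟨h1, fun y hy => ?_⟩
  obtain ⟨x, hx, rfl⟩ := h2 y (hmemQ y hy)
  exact ⟨x, hx, hredC x⟩

end Level

end Fermat.Agent.S59.LoSqC.H505

end

end
-- ===== PACK-END S59/LoSqC/H505/WCount.lean

-- ===== PACK-BEGIN S59/LoSqC/H505/JCount.lean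
section



/-!
# Row S59, cell (C) LO-SQ, leaf W-COUNT — the count at level `q M'`, ALL J-FORM (helper505)

The instance of `wCount505` with the WALL-q families (main vocabulary `H158.WallQ`)

    F n = finPartQ (p ^ n) q M' A ∩ G[p ^ n]^{I_A},   S n = splitPartQ (p ^ n) q M' A ∩ G[p ^ n]^{I_A}.

PLUGGED: TAU (helper216 `tau_mem_splitPartQ_h216`), `(τ - 1) x` is inertia-fixed (wall A2 + TAME-CYC
of helper319), the towers (helper296 `redTower_h296`), FIN, KER.

INPUTS of `jCount505`: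

* `hNode` : `K • x ∈ finPartQ (p ^ n) q M' A` for `x ∈ G[p ^ n]` inertia-fixed, `K ≠ 0` fixed
  (NODE-REL, J-form);
* `hLab`  : `#(splitPartQ p ∩ G[p]^{I_A}) ≤ p ^ (s - 1)`, `12 s ≤ (q - 1) ψ(M')`, `1 ≤ s`
  (LAB-INJ through SPLIT-DICT + GUB).

OUTPUT: `#(splitPartQ p ∩ G[p]^{I_A}) = p ^ (s - 1)` and `H296.RSurjJ p q M' A` on
`finPartQ p ∩ G[p]^{I_A}`.
-/

set_option autoImplicit false
set_option linter.unusedSectionVars false
set_option linter.unusedVariables false
set_option linter.style.haveILetI false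
set_option synthInstance.maxHeartbeats 400000
set_option maxHeartbeats 1000000

noncomputable section

namespace Fermat.Agent.S59.LoSqC.H505

open AlgebraicCurve ModularCurve
open Fermat.Agent.S24 Fermat.Agent.Ribet.H884 Fermat.Agent.Ribet.H158.WallQ
open Fermat.Agent.S59.LoSqC.H296 Fermat.Agent.S59.LoSqC.H140

/-- `G_ℚ` -/
local notation "GQ505" => (AlgebraicClosure ℚ ≃ₐ[ℚ] AlgebraicClosure ℚ)

section General

variable {N : ℕ}

/-- The classes of `G[k]` fixed by the inertia group of `A`. -/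
def inertiaTors505 (N : ℕ) (A : ValuationSubring (AlgebraicClosure ℚ)) (k : ℕ) :
    AddSubgroup (JZero N) where
  carrier := {x | k • x = 0 ∧ ∀ τ ∈ A.inertiaSubgroupIn ℚ, τ • x = x}
  zero_mem' := ⟨nsmul_zero k, fun τ _ => smul_zero τ⟩
  add_mem' := by
    rintro x y ⟨hx, hx'⟩ ⟨hy, hy'⟩
    exact ⟨by rw [nsmul_add, hx, hy, add_zero], fun τ hτ => by rw [smul_add, hx' τ hτ, hy' τ hτ]⟩
  neg_mem' := by
    rintro x ⟨hx, hx'⟩
    exact ⟨by rw [neg_nsmul, hx, neg_zero], fun τ hτ => by rw [smul_neg, hx' τ hτ]⟩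

theorem mem_inertiaTors505 {A : ValuationSubring (AlgebraicClosure ℚ)} {k : ℕ} {x : JZero N} :
    x ∈ inertiaTors505 N A k ↔ k • x = 0 ∧ ∀ τ ∈ A.inertiaSubgroupIn ℚ, τ • x = x := Iff.rfl

end General

section Level

variable {p q M' : ℕ} [NeZero M'] [NeZero q] [NeZero (q * M')]
  {A : ValuationSubring (AlgebraicClosure ℚ)}

/-- `(τ - 1) x` is fixed by inertia, for `x ∈ J₀(q M')[p ^ n]` and `τ` in the inertia group
(wall A2 + TAME-CYC). -/
theorem tau_sub_fixed505 (hp : p.Prime) (hq : q.Prime) (hpq : p ≠ q) (hqM : ¬ q ∣ M')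
    (hA : A.LiesOverPrime q) (n : ℕ) (x : JZero (q * M')) (hx : (p ^ n) • x = 0)
    {τ : GQ505} (hτ : τ ∈ A.inertiaSubgroupIn ℚ) :
    ∀ τ' ∈ A.inertiaSubgroupIn ℚ, τ' • (τ • x - x) = τ • x - x := by
  obtain ⟨φ, σ, hσ⟩ := Fermat.Agent.S59.LoSqC.H319.exists_tamePair hq hp hpq A hA
  have hqN : q ∣ q * M' := Dvd.intro M' rfl
  have hq2 := not_sq_dvd505 hq hqM
  have hqpn : ¬ q ∣ p ^ n := fun hd =>
    hpq ((Nat.prime_dvd_prime_iff_eq hq hp).mp (hq.dvd_of_dvd_pow hd)).symm
  have hT := Fermat.Agent.A2.Top.H672.target (q * M') q (p ^ n) hq hqN hq2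
    (NeZero.ne (q * M')) (pow_pos hp.pos n) hqpn
  obtain ⟨j, hj⟩ := Fermat.Agent.S59.LoSqC.H319.sub_mem_zmultiples hq hqN hq2 hp hpq n A hA hσ
    hτ x hx
  have hσfix : σ • (σ • x - x) = σ • x - x := by
    have h := hT A hA σ hσ.mem x hx
    rw [smul_sub]
    have e : σ • (σ • x) = 2 • (σ • x) - x := eq_sub_of_add_eq h
    rw [e, two_nsmul]
    abel
  have hkill : (p ^ n) • (σ • x - x) = 0 := by
    rw [nsmul_sub, hx, sub_zero, ← Fermat.Agent.S35.H504.galois_smul_nsmul, hx,
      Fermat.Agent.S35.H504.galois_smul_zero]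
  have hfix := Fermat.Agent.S59.LoSqC.H319.fixed_of_sigma_fixed hq hqN hq2 hp hpq n A hA hσ
    (σ • x - x) hkill hσfix
  intro τ' hτ'
  rw [hj, Fermat.Agent.S35.H504.galois_smul_nsmul, hfix τ' hτ']

theorem finPartQ_pow_one505 : finPartQ (p ^ 1) q M' A = finPartQ p q M' A := by
  rw [pow_one]

theorem splitPartQ_pow_one505 : splitPartQ (p ^ 1) q M' A = splitPartQ p q M' A := by
  rw [pow_one]

/-- **W-COUNT, all J-form.**  See the header. -/
theorem jCount505 (hp : p.Prime) (hq : q.Prime) (hpq : p ≠ q) (hqM : ¬ q ∣ M')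
    (hneat : Fermat.Agent.S36.Eng.NeatFor M' q) (hA : A.LiesOverPrime q)
    (K : ℕ) (hK : K ≠ 0)
    (hNode : ∀ (n : ℕ) (x : JZero (q * M')), (p ^ n) • x = 0 →
      (∀ τ ∈ A.inertiaSubgroupIn ℚ, τ • x = x) → K • x ∈ finPartQ (p ^ n) q M' A)
    (s : ℕ) (hs1 : 1 ≤ s) (hs : 12 * s ≤ (q - 1) * dedekindPsi M')
    (hLab : Nat.card ↥(splitPartQ (p ^ 1) q M' A ⊓ inertiaTors505 (q * M') A (p ^ 1)) ≤
      p ^ (s - 1)) :
    Nat.card ↥(splitPartQ (p ^ 1) q M' A ⊓ inertiaTors505 (q * M') A (p ^ 1)) = p ^ (s - 1) ∧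
      RSurjJ p q M' A (finPartQ (p ^ 1) q M' A ⊓ inertiaTors505 (q * M') A (p ^ 1)) := by
  obtain ⟨-, -, hFc, hFk, hSc, hSk⟩ := redTower_h296 p q M' A hp.ne_zero hq hqM hA
  have hfixK : ∀ (k K' : ℕ) (x : JZero (q * M')),
      (∀ τ ∈ A.inertiaSubgroupIn ℚ, τ • x = x) →
      ∀ τ ∈ A.inertiaSubgroupIn ℚ, τ • (K' • x) = K' • x := fun k K' x h τ hτ => by
    rw [Fermat.Agent.S35.H504.galois_smul_nsmul, h τ hτ]
  refine wCount505 hp hq hpq hqM hneat hA
    (fun n => finPartQ (p ^ n) q M' A ⊓ inertiaTors505 (q * M') A (p ^ n))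
    (fun n => splitPartQ (p ^ n) q M' A ⊓ inertiaTors505 (q * M') A (p ^ n))
    ?_ ?_ ?_ K hK ?_ ?_ ?_ ?_ ?_ s hs1 hs hLab
  · rintro n x ⟨-, hx, -⟩
    exact hx
  · rintro n x ⟨-, hx, -⟩
    exact hx
  · -- TAU
    intro n x hx τ hτ
    refine AddSubgroup.mem_inf.mpr
      ⟨Fermat.Agent.S59.LoSqC.H216.tau_mem_splitPartQ_h216 (p ^ n) q M' hq.ne_zero hA x hx hτ,
        ?_, tau_sub_fixed505 hp hq hpq hqM hA n x hx hτ⟩
    rw [nsmul_sub, hx, sub_zero, ← Fermat.Agent.S35.H504.galois_smul_nsmul, hx,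
      Fermat.Agent.S35.H504.galois_smul_zero]
  · -- NODE-REL
    intro n x hx hfix
    refine AddSubgroup.mem_inf.mpr ⟨hNode n x hx hfix, ?_, hfixK n K x hfix⟩
    rw [← mul_nsmul, mul_nsmul', hx, nsmul_zero]
  · -- `F (n+1)[p] ⊆ F 1`
    rintro n x ⟨hxF, -, hxfix⟩ h0
    refine AddSubgroup.mem_inf.mpr ⟨hFk n x hxF h0, ?_, hxfix⟩
    rw [pow_one]
    exact h0
  · -- `S (n+1)[p] ⊆ S 1`
    rintro n x ⟨hxS, -, hxfix⟩ h0
    refine AddSubgroup.mem_inf.mpr ⟨hSk n x hxS h0, ?_, hxfix⟩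
    rw [pow_one]
    exact h0
  · -- FIN
    rintro x ⟨hxF, -⟩
    rwa [finPartQ_pow_one505] at hxF
  · -- KER
    rintro x ⟨-, hx⟩ hsp
    refine AddSubgroup.mem_inf.mpr ⟨?_, hx⟩
    rw [splitPartQ_pow_one505]
    exact hsp

end Level

end Fermat.Agent.S59.LoSqC.H505

end

end
-- ===== PACK-END S59/LoSqC/H505/JCount.lean

-- ===== PACK-BEGIN S59/LoSqC/H433/WCountCard.lean
section


/-!
# S59 moonshot, cell (C) LO-SQ, W-COUNT: the count with NODE-REL in CARD form (helper433)

OFF-MAIN.  `H505.wCount505` (helper505) takes NODE-REL in the form `K • x ∈ F n`; the owners of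
NODE-REL / SLOPE-CARD (helper862 `nodeRel_card_th1`, helper34 `nodeRel_card_slopeZeroPart_h34`,
helper868 `slopeCard868`) deliver the CARD form `#I ≤ s · #(F ⊓ I)`.  This file is the same
assembly with the card form as input:

* `wCountCard433`  : `wCount505` with `hNode : ∀ n, #(G[p^n]^{I_A}) ≤ K · #(F n)`;
* `hybridCount433` : the instance `S n = splitPartQ (p^n) ∩ F n` (J-TAU and the J-tower of
  `splitPartQ` plugged) with ANY tower `F n ≤ G[p^n]^{I_A}` containing the classes `τ x - x`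
  (to be instantiated by the E-slope-zero classes `H34.slopeZeroPart_h34 ⊓ inertiaTors505`).

Remaining inputs of `hybridCount433`: `hTauF` (TAU-SLOPE), `hNode` (card form), `hFk`
(`F (n+1)[p] ⊆ F 1`), `hFfin` (`F 1 ≤ finPartQ p`), `hgenus` (`4 g₀ + 2 h ≤ 2 g`), `hLab`
(`#S 1 ≤ p ^ h`).
-/

set_option autoImplicit false
set_option linter.unusedSectionVars false
set_option linter.unusedVariables false
set_option linter.style.haveILetI false
set_option synthInstance.maxHeartbeats 400000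
set_option maxHeartbeats 1000000

noncomputable section

namespace Fermat.Agent.S59.LoSqC.H433

open AlgebraicCurve ModularCurve
open Fermat.Agent.S24 Fermat.Agent.Ribet.H884 Fermat.Agent.Ribet.H158.WallQ
open Fermat.Agent.S59.LoSqC.H296 Fermat.Agent.S59.LoSqC.H140
open Fermat.Agent.S59.LoSqC.H505

variable {p q M' : ℕ} [NeZero M'] [NeZero q] [NeZero (q * M')]
  {A : ValuationSubring (AlgebraicClosure ℚ)}

/-- **W-COUNT with NODE-REL in card form.** -/
theorem wCountCard433 (hp : p.Prime) (hq : q.Prime) (hpq : p ≠ q) (hqM : ¬ q ∣ M')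
    (hneat : Fermat.Agent.S36.Eng.NeatFor M' q) (hA : A.LiesOverPrime q)
    (F S : ℕ → AddSubgroup (JZero (q * M')))
    (hF : ∀ n, ∀ x ∈ F n, (p ^ n) • x = 0) (hS : ∀ n, ∀ x ∈ S n, (p ^ n) • x = 0)
    (hTau : ∀ (n : ℕ) (x : JZero (q * M')), (p ^ n) • x = 0 →
      ∀ τ ∈ A.inertiaSubgroupIn ℚ, τ • x - x ∈ S n)
    (K : ℕ)
    (hNode : ∀ n : ℕ, Nat.card ↥(inertiaTors505 (q * M') A (p ^ n)) ≤ K * Nat.card ↥(F n))
    (hFk : ∀ n x, x ∈ F (n + 1) → p • x = 0 → x ∈ F 1)
    (hSk : ∀ n x, x ∈ S (n + 1) → p • x = 0 → x ∈ S 1)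
    (hFfin : F 1 ≤ finPartQ p q M' A)
    (hKer : ∀ x ∈ F 1, x ∈ splitPartQ p q M' A → x ∈ S 1)
    (h : ℕ) (hgenus : 4 * gRes140 A M' + 2 * h ≤ 2 * gBar140 (q * M'))
    (hLab : Nat.card (S 1) ≤ p ^ h) :
    Nat.card (S 1) = p ^ h ∧ RSurjJ p q M' A (F 1) := by
  have hqp : ¬ q ∣ p := fun hd => hpq ((Nat.prime_dvd_prime_iff_eq hq hp).mp hd).symm
  obtain ⟨hcJ, -, hcQ, -, -, -⟩ :=
    countNum_neat140 M' q hq hqM hneat A hA p hp.ne_zero hqp
  obtain ⟨φ, σ, hσ⟩ := Fermat.Agent.S59.LoSqC.H319.exists_tamePair hq hp hpq A hA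
  obtain ⟨red, hredC, hredT, hredK⟩ := exists_redHom_h296 p q M' A hp.ne_zero hq hqM hA
  have hfin : ∀ n, Finite (tors505 (JZero (q * M')) (p ^ n)) := fun n =>
    finite_tors_jZero505 (q * M') (pow_ne_zero n hp.ne_zero)
  have hFle : ∀ n, F n ≤ tors505 (JZero (q * M')) (p ^ n) := fun n x hx =>
    mem_tors505.mpr (hF n x hx)
  have hSle : ∀ n, S n ≤ tors505 (JZero (q * M')) (p ^ n) := fun n x hx =>
    mem_tors505.mpr (hS n x hx)
  have hIle : ∀ n, fixTors505 (q * M') σ (p ^ n) ≤ tors505 (JZero (q * M')) (p ^ n) :=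
    fun n x hx => mem_tors505.mpr hx.1
  -- the numbers
  have hJ : ∀ n, p ^ (2 * gBar140 (q * M') * n) ≤
      Nat.card (tors505 (JZero (q * M')) (p ^ n)) := fun n => by
    rw [tors505_eq_torsion, hcJ n]
  set Q₁ : AddSubgroup (JZeroC (kA A) M' × JZeroC (kA A) M') :=
    (Pic0.torsion (kA A) (modularFunctionFieldFullC (kA A) M') (p ^ 1)).prod
      (Pic0.torsion (kA A) (modularFunctionFieldFullC (kA A) M') (p ^ 1)) with hQ₁
  have hQcard : Nat.card Q₁ = p ^ (4 * gRes140 A M') := by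
    have := hcQ 1
    rw [mul_one] at this
    exact this
  haveI : Finite Q₁ := by
    apply Nat.finite_of_card_ne_zero
    rw [hQcard]
    exact pow_ne_zero _ hp.ne_zero
  have hmemQ : ∀ y : JZeroC (kA A) M' × JZeroC (kA A) M', p • y = 0 → y ∈ Q₁ := by
    intro y hy
    rw [hQ₁, mem_torsion_pair_iff140, pow_one]
    exact ⟨congrArg Prod.fst hy, congrArg Prod.snd hy⟩
  -- MONO / TAU
  have hmono := mono_card_of_hom505 hfin (fun n => fixTors505 (q * M') σ (p ^ n)) S hIle hSle
    (galSubOne505 (q * M') σ)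
    (fun n x hx => by
      rw [galSubOne505_apply]
      exact hTau n x hx σ hσ.mem)
    (fun n x hx h0 => by
      rw [galSubOne505_apply] at h0
      exact ⟨hx, sub_eq_zero.mp h0⟩)
  -- NODE-REL, card form
  have hslope : ∀ n, Nat.card ↥(fixTors505 (q * M') σ (p ^ n)) ≤ K * Nat.card ↥(F n) := by
    intro n
    have hle : fixTors505 (q * M') σ (p ^ n) ≤ inertiaTors505 (q * M') A (p ^ n) :=
      fun x hx => ⟨hx.1, Fermat.Agent.S59.LoSqC.H319.fixed_of_sigma_fixed hq (Dvd.intro M' rfl)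
        (not_sq_dvd505 hq hqM) hp hpq n A hA hσ x hx.1 hx.2⟩
    haveI := hfin n
    haveI : Finite ↥(inertiaTors505 (q * M') A (p ^ n)) :=
      finite_of_le505 (fun x hx => mem_tors505.mpr hx.1 :
        inertiaTors505 (q * M') A (p ^ n) ≤ tors505 (JZero (q * M')) (p ^ n))
    exact (card_le_of_le505 hle).trans (hNode n)
  -- the count
  obtain ⟨h1, h2⟩ := count_family_sub505 (G := JZero (q * M')) (m := p)
    (s := K) (a := 4 * gRes140 A M') (h := h)
    (c := 2 * gBar140 (q * M')) hp.pos hgenus hfin hJ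
    (fun n => fixTors505 (q * M') σ (p ^ n)) F S hFle hSle hmono hslope hFk hSk
    (finPartQ p q M' A) hFfin red Q₁ (le_of_eq hQcard)
    (fun x _ => hmemQ _ (hredT x))
    (fun x hx h0 => hKer _ hx ((hredK x).mp h0)) hLab
  refine ⟨h1, fun y hy => ?_⟩
  obtain ⟨x, hx, rfl⟩ := h2 y (hmemQ y hy)
  exact ⟨x, hx, hredC x⟩

/-- **The hybrid count**: `S n = splitPartQ (p ^ n) ∩ F n` with `F n` ANY tower of inertia-fixed
classes containing the classes `τ x - x` (TAU-SLOPE): the tower of `S` and TAU are plugged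
(J-form: helper216 `tau_mem_splitPartQ_h216`, helper296 `redTower_h296`). -/
theorem hybridCount433 (hp : p.Prime) (hq : q.Prime) (hpq : p ≠ q) (hqM : ¬ q ∣ M')
    (hneat : Fermat.Agent.S36.Eng.NeatFor M' q) (hA : A.LiesOverPrime q)
    (F : ℕ → AddSubgroup (JZero (q * M')))
    (hF : ∀ n, F n ≤ inertiaTors505 (q * M') A (p ^ n))
    (hTauF : ∀ (n : ℕ) (x : JZero (q * M')), (p ^ n) • x = 0 →
      ∀ τ ∈ A.inertiaSubgroupIn ℚ, τ • x - x ∈ F n)
    (K : ℕ)
    (hNode : ∀ n : ℕ, Nat.card ↥(inertiaTors505 (q * M') A (p ^ n)) ≤ K * Nat.card ↥(F n))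
    (hFk : ∀ n x, x ∈ F (n + 1) → p • x = 0 → x ∈ F 1)
    (hFfin : F 1 ≤ finPartQ p q M' A)
    (h : ℕ) (hgenus : 4 * gRes140 A M' + 2 * h ≤ 2 * gBar140 (q * M'))
    (hLab : Nat.card ↥(splitPartQ (p ^ 1) q M' A ⊓ F 1) ≤ p ^ h) :
    Nat.card ↥(splitPartQ (p ^ 1) q M' A ⊓ F 1) = p ^ h ∧ RSurjJ p q M' A (F 1) := by
  obtain ⟨-, -, -, -, -, hSk⟩ := redTower_h296 p q M' A hp.ne_zero hq hqM hA
  refine wCountCard433 hp hq hpq hqM hneat hA F
    (fun n => splitPartQ (p ^ n) q M' A ⊓ F n)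
    ?_ ?_ ?_ K hNode hFk ?_ hFfin ?_ h hgenus hLab
  · intro n x hx
    exact (hF n hx).1
  · rintro n x ⟨-, hx⟩
    exact (hF n hx).1
  · -- TAU
    intro n x hx τ hτ
    exact AddSubgroup.mem_inf.mpr
      ⟨Fermat.Agent.S59.LoSqC.H216.tau_mem_splitPartQ_h216 (p ^ n) q M' hq.ne_zero hA x hx hτ,
        hTauF n x hx τ hτ⟩
  · -- `S (n+1)[p] ⊆ S 1`
    rintro n x ⟨hxS, hxF⟩ h0
    exact AddSubgroup.mem_inf.mpr ⟨hSk n x hxS h0, hFk n x hxF h0⟩
  · -- KER
    intro x hx hsp
    refine AddSubgroup.mem_inf.mpr ⟨?_, hx⟩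
    rw [splitPartQ_pow_one505]
    exact hsp

end Fermat.Agent.S59.LoSqC.H433

end

#print axioms Fermat.Agent.S59.LoSqC.H433.hybridCount433

end
-- ===== PACK-END S59/LoSqC/H433/WCountCard.lean

-- ===== PACK-BEGIN S59/LoSqC/H608/FrontierAll.lean
section






/-!
# S59 moonshot, cell (C) LO-SQ: the frontier with the row inputs plugged (helper608)

OFF-MAIN.  `sqFree35_of_realize_all608 : LoSqC.LeafRealize → H826.SqFree35Statement`.

Plugged on top of `Frontier.lean`: BLR-W `Ribet.H823.embedW`, R3'-W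
`Ribet.H764.almostAllToWitnessW_of_S29` on the PLAIN top `S29.result_top` (as helper550's
`PlugC.lean`: no statement module `S29` / `S42` in the closure), the easy half `(5, 2)` =
`H116.loSq52_116` (helper116, off-main; the trunk `Arch/CTop.lean` uses the same).
-/

set_option autoImplicit false

namespace Fermat.Agent.S59.LoSqC.H608

/-- R3'-W on the plain top of S29. -/
theorem almostAllToWitnessW608 : Fermat.Agent.Ribet.Spec.AlmostAllToWitnessWStatement :=
  Fermat.Agent.Ribet.H764.almostAllToWitnessW_of_S29 Fermat.Agent.S29.result_top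

/-- **The W-form of the wall (`LoSqC.LoSqNeatStatement`) from CORE-SQ at neat levels.** -/
theorem loSqNeat_of_coreSqNeat_all608 (hCore : Fermat.Agent.S59.LoSqC.CoreSqNeatStatement) :
    Fermat.Agent.S59.LoSqC.LoSqNeatStatement :=
  loSqNeat_of_coreSqNeat608 Fermat.Agent.Ribet.H823.embedW almostAllToWitnessW608 hCore

/-- **Cell (C) from CORE-SQ at neat levels** (J-form). -/
theorem sqFree35_of_coreSqNeat_all608 (hCore : Fermat.Agent.S59.LoSqC.CoreSqNeatStatement) :
    Fermat.Agent.S59.H826.SqFree35Statement :=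
  sqFree35_of_coreSqNeat608 Fermat.Agent.Ribet.H823.embedW almostAllToWitnessW608
    Fermat.Agent.S59.H116.loSq52_116 hCore

/-- **Cell (C) from the level wall** (E-form). -/
theorem sqFree35_of_levelWall_all608 (hLW : Fermat.Agent.S59.LoSqC.LevelWallStatement) :
    Fermat.Agent.S59.H826.SqFree35Statement :=
  sqFree35_of_levelWall608 Fermat.Agent.Ribet.H823.embedW almostAllToWitnessW608
    Fermat.Agent.S59.H116.loSq52_116 hLW

/-- **Cell (C) = `LeafRealize`.** -/
theorem sqFree35_of_realize_all608 (hRe : Fermat.Agent.S59.LoSqC.LeafRealize) :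
    Fermat.Agent.S59.H826.SqFree35Statement :=
  sqFree35_of_realize608 Fermat.Agent.Ribet.H823.embedW almostAllToWitnessW608
    Fermat.Agent.S59.H116.loSq52_116 hRe

/-- **Cell (C) = `H433.LeafRealizeHard`** (`5 ≤ q`, `p ∣ q² - 1`). -/
theorem sqFree35_of_realizeHard_all608 (hRe : Fermat.Agent.S59.LoSqC.H433.LeafRealizeHard) :
    Fermat.Agent.S59.H826.SqFree35Statement :=
  sqFree35_of_realizeHard608 Fermat.Agent.Ribet.H823.embedW almostAllToWitnessW608
    Fermat.Agent.S59.H116.loSq52_116 hRe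

end Fermat.Agent.S59.LoSqC.H608

end
-- ===== PACK-END S59/LoSqC/H608/FrontierAll.lean

-- ===== PACK-BEGIN S59/LoSqC/H876/AtInertia.lean
section



/-!
# S59 moonshot, cell (C) LO-SQ: the mountain is only needed OVER THE INERTIA FIELD (helper876)

The frozen leaf `LoSqC.LeafRealize` quantifies over ALL unramified good levels `E`
(`Mod3.Leaf`).  Mathematically `Eng.Unramified P E q` forces `E = ℚ̄^{I_P}`, but no Lean proof of
that exists (it needs "henselian ⟹ the valuation extends uniquely"), whereas every J-form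
input of the interior (counts of `J₀(M q)[p ^ n]`, TAME-CYC, TAU, DESC = `S36.H756`) speaks
about `I_P`-fixed classes, i.e. about `E = fixedField I_P` LITERALLY.

This file shows that NOTHING above the mountain needs any other `E`:

* `LeafRealizeI`     : `LeafRealize` at `E = inertiaFldC P` only;
* `LeafRealizeHardI` : the same with `5 ≤ q` and `p ∣ q ^ 2 - 1` (helper433's hard case);
* `levelWallAt_of_realizeHardI876` : `LeafRealizeHardI ⟹ LevelWallAt P (inertiaFldC P) M q p`;
* `newOld_of_realizeHardI876     : LeafRealizeHardI → NewOldStatement`;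
* `coreSqNeat_of_realizeHardI876 : LeafRealizeHardI → CoreSqNeatStatement`
  (all other leaves plugged: `H987.newUnits`, `H865.leafCtx865`, `H305.slopeJ305`, `descW`,
  `H586.alg3C`).

So the interior may fix `E := inertiaFldC P` (Galois group of `ℚ̄ / E` = `I_P` by definition)
from the start.
-/

set_option autoImplicit false
set_option linter.style.haveILetI false
set_option linter.unusedSectionVars false
set_option linter.unusedVariables false
set_option synthInstance.maxHeartbeats 400000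
set_option maxHeartbeats 1600000

noncomputable section

namespace Fermat.Agent.S59.LoSqC.H876

open ModularCurve AlgebraicCurve
open Fermat.Agent.S36 Fermat.Agent.S36.Eng
open Fermat.Agent.S59.LoSqC

/-- **REALIZE over the inertia field**: `LoSqC.LeafRealize` at `E = inertiaFldC P` only. -/
def LeafRealizeI : Prop :=
  ∀ (P : ValuationSubring A2.Qb) (M q : ℕ) [NeZero M] [NeZero q] [NeZero (M * q)]
    (w : A2.RE P (inertiaFldC P)), Mod3.Std P (inertiaFldC P) M q w →
    ∀ (V₁' V₂' : ValuationSubring (A2.Mod.FE (inertiaFldC P) (M * q)))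
      (V₁ V₂ V₃ : ValuationSubring (A2.Mod.FE (inertiaFldC P) (M * q * q)))
      (W' : A2.Mod.FE (inertiaFldC P) (M * q) ≃ₐ[inertiaFldC P]
        A2.Mod.FE (inertiaFldC P) (M * q))
      (W : A2.Mod.FE (inertiaFldC P) (M * q * q) ≃ₐ[inertiaFldC P]
        A2.Mod.FE (inertiaFldC P) (M * q * q)),
      Mod3.Objs P (inertiaFldC P) M q V₁' V₂' V₁ V₂ V₃ W' W →
      q ≠ 2 → ∀ p : ℕ, p.Prime → p ≠ 2 → p ≠ q →
        RealizeAt (inertiaFldC P) p (A2.Mod.αE (inertiaFldC P) (M * q) q)
          (A2.Mod.βE (inertiaFldC P) (M * q) q) V₁ V₂ V₃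

/-- **REALIZE over the inertia field, hard case only** (`5 ≤ q`, `p ∣ q² - 1`): the weakest
form of the mountain that closes cell (C). -/
def LeafRealizeHardI : Prop :=
  ∀ (P : ValuationSubring A2.Qb) (M q : ℕ) [NeZero M] [NeZero q] [NeZero (M * q)]
    (w : A2.RE P (inertiaFldC P)), Mod3.Std P (inertiaFldC P) M q w →
    ∀ (V₁' V₂' : ValuationSubring (A2.Mod.FE (inertiaFldC P) (M * q)))
      (V₁ V₂ V₃ : ValuationSubring (A2.Mod.FE (inertiaFldC P) (M * q * q)))
      (W' : A2.Mod.FE (inertiaFldC P) (M * q) ≃ₐ[inertiaFldC P]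
        A2.Mod.FE (inertiaFldC P) (M * q))
      (W : A2.Mod.FE (inertiaFldC P) (M * q * q) ≃ₐ[inertiaFldC P]
        A2.Mod.FE (inertiaFldC P) (M * q * q)),
      Mod3.Objs P (inertiaFldC P) M q V₁' V₂' V₁ V₂ V₃ W' W →
      5 ≤ q → ∀ p : ℕ, p.Prime → p ≠ 2 → p ≠ q → p ∣ q ^ 2 - 1 →
        RealizeAt (inertiaFldC P) p (A2.Mod.αE (inertiaFldC P) (M * q) q)
          (A2.Mod.βE (inertiaFldC P) (M * q) q) V₁ V₂ V₃

/-- The frozen leaf implies the leaf over the inertia field. -/
theorem leafRealizeI_of_leafRealize876 (h : LeafRealize) : LeafRealizeI := by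
  intro P M q _ _ _ w hS V₁' V₂' V₁ V₂ V₃ W' W hO hq2 p hp hp2 hpq
  exact h P (inertiaFldC P) M q w hS V₁' V₂' V₁ V₂ V₃ W' W hO hq2 p hp hp2 hpq

/-- The leaf over the inertia field implies its hard case. -/
theorem leafRealizeHardI_of_leafRealizeI876 (h : LeafRealizeI) : LeafRealizeHardI := by
  intro P M q _ _ _ w hS V₁' V₂' V₁ V₂ V₃ W' W hO h5 p hp hp2 hpq _
  exact h P M q w hS V₁' V₂' V₁ V₂ V₃ W' W hO (by omega) p hp hp2 hpq

/-- helper433's hard leaf implies the hard leaf over the inertia field. -/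
theorem leafRealizeHardI_of_hard876 (h : H433.LeafRealizeHard) : LeafRealizeHardI := by
  intro P M q _ _ _ w hS V₁' V₂' V₁ V₂ V₃ W' W hO h5 p hp hp2 hpq hd
  exact h P (inertiaFldC P) M q w hS V₁' V₂' V₁ V₂ V₃ W' W hO h5 p hp hp2 hpq hd

/-- **The level wall over the inertia field** from the hard leaf over the inertia field
(pointwise replay of `H433.levelWall_of_leaves_hard`). -/
theorem levelWallAt_of_realizeHardI876 (hRe : LeafRealizeHardI)
    (P : ValuationSubring A2.Qb) (M q p : ℕ) [NeZero M] [NeZero q] [NeZero (M * q)]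
    (hq : q.Prime) (hqM : ¬ q ∣ M) (hP : P.LiesOverPrime q) (hneat : NeatFor M q)
    (hq2 : q ≠ 2) (hp : p.Prime) (hp2 : p ≠ 2) (hpq : p ≠ q) :
    LevelWallAt P (inertiaFldC P) M q p := by
  have hE : Unramified P (inertiaFldC P) q := unr876 q hq P hP
  intro w hw V₁' V₂' V₁ V₂ V₃ W' W hO f hf hdiv hα hβ hslope
  haveI : IsDiscreteValuationRing ↥(A2.RE P (inertiaFldC P)) := hE.1.dvr
  haveI : HenselianLocalRing ↥(A2.RE P (inertiaFldC P)) := hE.1.henselian
  haveI : IsAlgClosed (IsLocalRing.ResidueField ↥(A2.RE P (inertiaFldC P))) := hE.1.algClosed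
  have hS : Mod3.Std P (inertiaFldC P) M q w :=
    { q_prime := hq, q_not_dvd := hqM, lies_over := hP, unram := hE, neat := hneat, unif := hw }
  have hctx := H865.leafCtx865 P (inertiaFldC P) M q w hS V₁' V₂' V₁ V₂ V₃ W' W hO
  have hqp : ¬ q ∣ p := fun hd => hpq ((Nat.prime_dvd_prime_iff_eq hq hp).1 hd).symm
  by_cases hd : p ∣ q ^ 2 - 1
  · have h5 : 5 ≤ q := H433.five_le_of_dvd_sq_sub_one433 hp hp2 hq hq2 hd
    have hU : UnitsForm (inertiaFldC P) p V₁ V₂ V₃ f :=
      H987.newUnits (R := ↥(A2.RE P (inertiaFldC P))) (E := inertiaFldC P)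
        (F := ↥(A2.Mod.FE (inertiaFldC P) (M * q * q)))
        (F' := ↥(A2.Mod.FE (inertiaFldC P) (M * q))) w hw q hq
        (natCast_mem_maximalIdeal_RE (inertiaFldC P) hP)
        (A2.Mod.αE (inertiaFldC P) (M * q) q) (A2.Mod.βE (inertiaFldC P) (M * q) q)
        (Mod3.x3E (inertiaFldC P) M q) (A2.Mod.xE (inertiaFldC P) M q)
        V₁ V₂ V₃ V₁' V₂' hctx p hp.pos hqp f hf hα hβ
        (fun hnc => hslope (by
          by_contra hnd
          exact hnc ((Nat.Prime.coprime_iff_not_dvd hp).2 hnd)))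
    exact fromBelow_of_unitsForm
      (hRe P M q w hS V₁' V₂' V₁ V₂ V₃ W' W hO h5 p hp hp2 hpq hd) hf hdiv hU
  · obtain ⟨c, h, hh, e⟩ :=
      H586.alg3C (R := ↥(A2.RE P (inertiaFldC P))) (E := inertiaFldC P)
        (F := ↥(A2.Mod.FE (inertiaFldC P) (M * q * q)))
        (F' := ↥(A2.Mod.FE (inertiaFldC P) (M * q))) w hw q hq
        (natCast_mem_maximalIdeal_RE (inertiaFldC P) hP)
        (A2.Mod.αE (inertiaFldC P) (M * q) q) (A2.Mod.βE (inertiaFldC P) (M * q) q)
        (Mod3.x3E (inertiaFldC P) M q) (A2.Mod.xE (inertiaFldC P) M q)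
        V₁ V₂ V₃ V₁' V₂' hctx p hp.pos hqp f hf hdiv hα hβ
    exact H433.fromBelow_of_pow_eq433 (H586.alg3Const_coprime hp hd) _ _ hf hh e

/-- **NEW-OLD from the mountain over the inertia field** (hard case only). -/
theorem newOld_of_realizeHardI876 (hRe : LeafRealizeHardI) : NewOldStatement := by
  intro M q p _ _ _ hq hqM hneat hq2 hp hp2 hpq A hA
  exact descW M q p hq hqM hp hp2 hpq A hA
    (levelWallAt_of_realizeHardI876 hRe A M q p hq hqM hA hneat hq2 hp hp2 hpq)
    (fun hd => H305.slopeJ305 M q p hq hqM hneat hq2 hp hp2 hpq hd A hA)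

/-- **CORE-SQ at neat levels from the mountain over the inertia field** (hard case only). -/
theorem coreSqNeat_of_realizeHardI876 (hRe : LeafRealizeHardI) : CoreSqNeatStatement :=
  coreSqNeat_of_newOld876 (newOld_of_realizeHardI876 hRe)

/-- The same from `LeafRealizeI`. -/
theorem coreSqNeat_of_realizeI876 (hRe : LeafRealizeI) : CoreSqNeatStatement :=
  coreSqNeat_of_realizeHardI876 (leafRealizeHardI_of_leafRealizeI876 hRe)

end Fermat.Agent.S59.LoSqC.H876

end

#print axioms Fermat.Agent.S59.LoSqC.H876.coreSqNeat_of_realizeHardI876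

end
-- ===== PACK-END S59/LoSqC/H876/AtInertia.lean

-- ===== PACK-BEGIN S59/LoSqC/H433/Frontier3.lean
section




/-!
# S59 moonshot, cell (C) LO-SQ: the frontier OVER THE INERTIA FIELD, pointwise (helper433)

OFF-MAIN.  Everything above the two surjectivities of level `M q` is plugged
(`H608.sqFree35_of_coreSqNeat_all608`, `H876.coreSqNeat_of_realizeHardI876`,
`H865.leafCtx865`, `H987.realizeAt_of_surj_pt`), and the two surjectivities are only asked

* at `E = inertiaFldC P` LITERALLY (helper876, `AtInertia.lean`),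
* in the hard case `5 ≤ q`, `p ∣ q ^ 2 - 1` (helper433, `WallSplit.lean`),
* with ALL side conditions of the system of objects available (`Mod3.Std`, `Mod3.Objs`),
* for the labels: for SOME primitive `p`-th root of unity `ζ` of `R_E` (not for all).

So **cell (C) = `LeafRSurjHardI` + `LeafLabSurjHardI`**:

    sqFree35_of_surjHardI433 : LeafRSurjHardI → LeafLabSurjHardI → H826.SqFree35Statement

and the count of level `M q` (RealSpec) has to deliver exactly these two Props.
-/

set_option autoImplicit false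
set_option linter.style.haveILetI false
set_option linter.unusedSectionVars false
set_option linter.unusedVariables false
set_option synthInstance.maxHeartbeats 400000
set_option maxHeartbeats 1600000

noncomputable section

namespace Fermat.Agent.S59.LoSqC.H433

open ModularCurve AlgebraicCurve
open Fermat.Agent.S36 Fermat.Agent.S36.Eng
open Fermat.Agent.S59.LoSqC

/-- **(R) over the inertia field, hard case**: the reductions of level `M q` are onto, shape
`(0, *)` (`H987.RSurj1E`), at every system of objects over `E = inertiaFldC P`. -/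
def LeafRSurjHardI : Prop :=
  ∀ (P : ValuationSubring A2.Qb) (M q : ℕ) [NeZero M] [NeZero q] [NeZero (M * q)]
    (w : A2.RE P (inertiaFldC P)), Mod3.Std P (inertiaFldC P) M q w →
    ∀ (V₁' V₂' : ValuationSubring (A2.Mod.FE (inertiaFldC P) (M * q)))
      (V₁ V₂ V₃ : ValuationSubring (A2.Mod.FE (inertiaFldC P) (M * q * q)))
      (W' : A2.Mod.FE (inertiaFldC P) (M * q) ≃ₐ[inertiaFldC P]
        A2.Mod.FE (inertiaFldC P) (M * q))
      (W : A2.Mod.FE (inertiaFldC P) (M * q * q) ≃ₐ[inertiaFldC P]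
        A2.Mod.FE (inertiaFldC P) (M * q * q)),
      Mod3.Objs P (inertiaFldC P) M q V₁' V₂' V₁ V₂ V₃ W' W →
      5 ≤ q → ∀ p : ℕ, p.Prime → p ≠ 2 → p ≠ q → p ∣ q ^ 2 - 1 →
        H987.RSurj1E (A2.RE P (inertiaFldC P)) (inertiaFldC P) p V₁' V₂'

/-- **(L) over the inertia field, hard case**: the labels at the nodes of level `M q` are onto
(`H630.Lab1SurjE`) for SOME primitive `p`-th root of unity, at every system of objects over
`E = inertiaFldC P`. -/
def LeafLabSurjHardI : Prop :=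
  ∀ (P : ValuationSubring A2.Qb) (M q : ℕ) [NeZero M] [NeZero q] [NeZero (M * q)]
    (w : A2.RE P (inertiaFldC P)), Mod3.Std P (inertiaFldC P) M q w →
    ∀ (V₁' V₂' : ValuationSubring (A2.Mod.FE (inertiaFldC P) (M * q)))
      (V₁ V₂ V₃ : ValuationSubring (A2.Mod.FE (inertiaFldC P) (M * q * q)))
      (W' : A2.Mod.FE (inertiaFldC P) (M * q) ≃ₐ[inertiaFldC P]
        A2.Mod.FE (inertiaFldC P) (M * q))
      (W : A2.Mod.FE (inertiaFldC P) (M * q * q) ≃ₐ[inertiaFldC P]
        A2.Mod.FE (inertiaFldC P) (M * q * q)),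
      Mod3.Objs P (inertiaFldC P) M q V₁' V₂' V₁ V₂ V₃ W' W →
      5 ≤ q → ∀ p : ℕ, p.Prime → p ≠ 2 → p ≠ q → p ∣ q ^ 2 - 1 →
        ∃ ζ : A2.RE P (inertiaFldC P), IsPrimitiveRoot ζ p ∧
          Fermat.Agent.S59.LoSqC.H630.Lab1SurjE (inertiaFldC P) w
            (A2.Mod.xE (inertiaFldC P) M q) V₁' V₂' p ζ

/-- The mountain over the inertia field (hard case) from the two surjectivities over the
inertia field. -/
theorem leafRealizeHardI_of_surjI433 (hR : LeafRSurjHardI) (hL : LeafLabSurjHardI) :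
    H876.LeafRealizeHardI := by
  intro P M q _ _ _ w hS V₁' V₂' V₁ V₂ V₃ W' W hO h5 p hp hp2 hpq hd
  exact H987.realizeAt_of_surj_pt H865.leafCtx865 P (inertiaFldC P) M q w hS V₁' V₂' V₁ V₂ V₃
    W' W hO p hp hpq (hR P M q w hS V₁' V₂' V₁ V₂ V₃ W' W hO h5 p hp hp2 hpq hd)
    (hL P M q w hS V₁' V₂' V₁ V₂ V₃ W' W hO h5 p hp hp2 hpq hd)

/-- The leaf forms of helper756 (all good unramified `E`, all `ζ`) imply the inertia forms. -/
theorem leafRSurjHardI_of_leaf433
    (hR : Mod3.Leaf fun P E _ q _ _ _ _ V₁' V₂' _ _ _ =>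
      5 ≤ q → ∀ p : ℕ, p.Prime → p ≠ 2 → p ≠ q → p ∣ q ^ 2 - 1 →
        H987.RSurj1E (A2.RE P E) E p V₁' V₂') : LeafRSurjHardI := by
  intro P M q _ _ _ w hS V₁' V₂' V₁ V₂ V₃ W' W hO h5 p hp hp2 hpq hd
  exact hR P (inertiaFldC P) M q w hS V₁' V₂' V₁ V₂ V₃ W' W hO h5 p hp hp2 hpq hd

/-- **CORE-SQ at the neat levels** from the two surjectivities over the inertia field. -/
theorem coreSqNeat_of_surjHardI433 (hR : LeafRSurjHardI) (hL : LeafLabSurjHardI) :
    CoreSqNeatStatement :=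
  H876.coreSqNeat_of_realizeHardI876 (leafRealizeHardI_of_surjI433 hR hL)

/-- **Cell (C)** from the two surjectivities of level `M q` over the inertia field. -/
theorem sqFree35_of_surjHardI433 (hR : LeafRSurjHardI) (hL : LeafLabSurjHardI) :
    Fermat.Agent.S59.H826.SqFree35Statement :=
  Fermat.Agent.S59.LoSqC.H608.sqFree35_of_coreSqNeat_all608 (coreSqNeat_of_surjHardI433 hR hL)

end Fermat.Agent.S59.LoSqC.H433

end

#print axioms Fermat.Agent.S59.LoSqC.H433.sqFree35_of_surjHardI433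

end
-- ===== PACK-END S59/LoSqC/H433/Frontier3.lean

-- ===== PACK-BEGIN S59/LoSqC/H27/PlugJ.lean
section




/-!
# S59 moonshot, cell (C) LO-SQ: leaf (R) VERBATIM from the `J`-form `H296.RSurjJ` (helper27)

`rSurj1E_of_rSurjJ` : at the objects of `S36.Mod3.Objs` (with the context `Eng.TripleCtx`),
`H296.RSurjJ m q M P I` for a subgroup `I ≤ J₀(q M)` all of whose classes have a Kummer generator
with the `t`-expansion of an element of `F_E(M q)` of slope `0` modulo `m`
⟹  `H987.RSurj1E (A2.RE P E) E m V₁' V₂'`.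

Plugged: `H296.kummerGen_of_rSurjJ_one` (helper296), COND-PDIV (helper967), SURJ-E (helper27).
-/

set_option autoImplicit false
set_option linter.unusedSectionVars false
set_option linter.unusedVariables false
set_option linter.style.haveILetI false
set_option synthInstance.maxHeartbeats 400000
set_option maxHeartbeats 1600000

noncomputable section

namespace Fermat.Agent.S59.LoSqC.H27

open ModularCurve HahnSeries AlgebraicCurve
open Fermat.Agent.A2 Fermat.Agent.A2.Mod
open Fermat.Agent.S24 Fermat.Agent.A2.H528 Fermat.Agent.A2.T1.H669 Fermat.Agent.Ribet.H884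
open Fermat.Agent.S36 Fermat.Agent.S36.Eng

local notation "Q̄" => AlgebraicClosure ℚ

section PlugJ

variable {P : ValuationSubring Q̄} {E : IntermediateField ℚ Q̄} {M q : ℕ}
  [NeZero M] [NeZero q] [NeZero (M * q)] [NeZero (q * M)] {w : A2.RE P E}
  {V₁' V₂' : ValuationSubring (A2.Mod.FE E (M * q))}
  {V₁ V₂ V₃ : ValuationSubring (A2.Mod.FE E (M * q * q))}
  {W' : A2.Mod.FE E (M * q) ≃ₐ[E] A2.Mod.FE E (M * q)}
  {W : A2.Mod.FE E (M * q * q) ≃ₐ[E] A2.Mod.FE E (M * q * q)}

/-- **Leaf (R), VERBATIM, from the `J`-form of R-SURJ1.** -/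
theorem rSurj1E_of_rSurjJ (hS : Mod3.Std P E M q w)
    (hO : Mod3.Objs P E M q V₁' V₂' V₁ V₂ V₃ W' W)
    (T : TripleCtx (R := A2.RE P E) (E := E) w q (A2.Mod.αE E (M * q) q)
      (A2.Mod.βE E (M * q) q) (Mod3.x3E E M q) (A2.Mod.xE E M q) V₁ V₂ V₃ V₁' V₂')
    {m : ℕ} (hm : 0 < m) (hqm : ¬ q ∣ m)
    (I : AddSubgroup (JZero (q * M)))
    (hJ : Fermat.Agent.S59.LoSqC.H296.RSurjJ m q M P I)
    (hI : ∀ x ∈ I, ∃ (f' : FF (q * M)) (y : A2.Mod.FE E (M * q)),
      IsKummerGen (q * M) m f' x ∧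
      (f' : LaurentSeries Q̄) = coeffMap (algebraMap E Q̄) (y : LaurentSeries E) ∧
      SlopeZeroE P E (M * q) w m V₁' V₂' y) :
    Fermat.Agent.S59.LoSqC.H987.RSurj1E (A2.RE P E) E m V₁' V₂' :=
  rSurj1E_plug hS hO T hm hqm
    (surjJ_of_surjJS (mul_comm q M)
      (surjJS_of_gen I hI fun ρ hρ =>
        Fermat.Agent.S59.LoSqC.H296.kummerGen_of_rSurjJ_one hm.ne' hS.q_prime hS.q_not_dvd
          hS.lies_over hJ hρ))

end PlugJ

end Fermat.Agent.S59.LoSqC.H27

end

end
-- ===== PACK-END S59/LoSqC/H27/PlugJ.lean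

-- ===== PACK-BEGIN S59/LoSqC/H27/PlugCast.lean
section


/-!
# S59 moonshot, cell (C) LO-SQ: leaf (R) VERBATIM with the classes at the level `M * q`
(helper27)

`H296.RSurjJ` lives at the level `q * M`, the objects of `S36.Mod3.Objs` at the level `M * q`.

* `levelCastJ h : JZero N ≃+ JZero N'` for `h : N = N'`, with its transport lemmas
  (`levelCastJ_smul`, `isKummerGen_levelCastJ`);
* `rSurj1E_of_rSurjJ_at` : as `rSurj1E_of_rSurjJ`, for a subgroup `F₁ ≤ J₀(M q)` all of whose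
  classes have an `E`-rational Kummer generator (`H884.IsKummerGen (M * q) m (ι g) x`, i.e. the
  body of `LoSqC.IsKummerGenE`) of slope `0`; the `J`-form is asked for the pull-back of `F₁`
  to the level `q * M`.
-/

set_option autoImplicit false
set_option linter.unusedSectionVars false
set_option linter.unusedVariables false
set_option linter.style.haveILetI false
set_option synthInstance.maxHeartbeats 400000
set_option maxHeartbeats 1600000

noncomputable section

namespace Fermat.Agent.S59.LoSqC.H27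

open ModularCurve HahnSeries AlgebraicCurve
open Fermat.Agent.A2 Fermat.Agent.A2.Mod
open Fermat.Agent.S24 Fermat.Agent.A2.H528 Fermat.Agent.A2.T1.H669 Fermat.Agent.Ribet.H884
open Fermat.Agent.S36 Fermat.Agent.S36.Eng

local notation "Q̄" => AlgebraicClosure ℚ

section Cast

/-- The identification `J₀(N) = J₀(N')` for `N = N'`. -/
def levelCastJ {N N' : ℕ} [NeZero N] [NeZero N'] (h : N = N') : JZero N ≃+ JZero N' := by
  subst h
  exact AddEquiv.refl _

theorem levelCastJ_smul {N N' : ℕ} [NeZero N] [NeZero N'] (h : N = N') (σ : Q̄ ≃ₐ[ℚ] Q̄)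
    (x : JZero N) : levelCastJ h (σ • x) = σ • levelCastJ h x := by
  subst h
  rfl

/-- Kummer generators along the cast: a Kummer generator is determined by its `t`-expansion. -/
theorem isKummerGen_levelCastJ_iff {N N' : ℕ} [NeZero N] [NeZero N'] (h : N = N') {m : ℕ}
    {f : FF N} {f' : FF N'} (hff' : (f' : LaurentSeries Q̄) = (f : LaurentSeries Q̄))
    (x : JZero N) :
    IsKummerGen N' m f' (levelCastJ h x) ↔ IsKummerGen N m f x := by
  subst h
  have e : f' = f := Subtype.ext hff'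
  subst e
  exact Iff.rfl

/-- A function of level `N'` seen at the level `N = N'`. -/
theorem exists_castFF {N N' : ℕ} [NeZero N] [NeZero N'] (h : N = N') (f' : FF N') :
    ∃ f : FF N, (f : LaurentSeries Q̄) = (f' : LaurentSeries Q̄) := by
  subst h
  exact ⟨f', rfl⟩

end Cast

section PlugAt

variable {P : ValuationSubring Q̄} {E : IntermediateField ℚ Q̄} {M q : ℕ}
  [NeZero M] [NeZero q] [NeZero (M * q)] [NeZero (q * M)] {w : A2.RE P E}
  {V₁' V₂' : ValuationSubring (A2.Mod.FE E (M * q))}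
  {V₁ V₂ V₃ : ValuationSubring (A2.Mod.FE E (M * q * q))}
  {W' : A2.Mod.FE E (M * q) ≃ₐ[E] A2.Mod.FE E (M * q)}
  {W : A2.Mod.FE E (M * q * q) ≃ₐ[E] A2.Mod.FE E (M * q * q)}

/-- **Leaf (R), VERBATIM, classes at the level `M * q`.** -/
theorem rSurj1E_of_rSurjJ_at (hS : Mod3.Std P E M q w)
    (hO : Mod3.Objs P E M q V₁' V₂' V₁ V₂ V₃ W' W)
    (T : TripleCtx (R := A2.RE P E) (E := E) w q (A2.Mod.αE E (M * q) q)
      (A2.Mod.βE E (M * q) q) (Mod3.x3E E M q) (A2.Mod.xE E M q) V₁ V₂ V₃ V₁' V₂')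
    {m : ℕ} (hm : 0 < m) (hqm : ¬ q ∣ m)
    (F₁ : AddSubgroup (JZero (M * q)))
    (hF : ∀ x ∈ F₁, ∃ g : A2.Mod.FE E (M * q),
      IsKummerGen (M * q) m (iota E (modularFunctionFieldFull (M * q)) g) x ∧
      SlopeZeroE P E (M * q) w m V₁' V₂' g)
    (hJ : Fermat.Agent.S59.LoSqC.H296.RSurjJ m q M P
      (F₁.comap (levelCastJ (Nat.mul_comm q M)).toAddMonoidHom)) :
    Fermat.Agent.S59.LoSqC.H987.RSurj1E (A2.RE P E) E m V₁' V₂' := by
  refine rSurj1E_of_rSurjJ hS hO T hm hqm _ hJ (fun x hx => ?_)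
  have hx' : levelCastJ (Nat.mul_comm q M) x ∈ F₁ := hx
  obtain ⟨g, hg, hsl⟩ := hF _ hx'
  obtain ⟨f', hf'⟩ := exists_castFF (Nat.mul_comm q M)
    (iota E (modularFunctionFieldFull (M * q)) g)
  refine ⟨f', g, ?_, ?_, hsl⟩
  · exact (isKummerGen_levelCastJ_iff (Nat.mul_comm q M) hf'.symm x).1 hg
  · rw [hf']
    rfl

end PlugAt

end Fermat.Agent.S59.LoSqC.H27

end

end
-- ===== PACK-END S59/LoSqC/H27/PlugCast.lean

-- ===== PACK-BEGIN S59/LoSqC/H835/SplitDictCast.lean
section



/-!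
# S59 / cell (C) LO-SQ, leaf SPLIT-E (helper835), part 3: SPLIT-DICT with the `J`-side at the
level `q * M` (`hredS` of the count in the assembly shape)

The `J`-form of the count (`H296.exists_redHom_h296`, `H158.WallQ.splitPartQ m q M P`) lives at
the level `q * M`, the objects of `S36.Mod3.Objs` and the toric group
`S 1 = H296.kummerClasses296 E (M * q) m (H193.splitDiv E w x' m V∞ V₀)` at the level `M * q`.
The two are identified by `H27.levelCastJ` (helper27, as in the leaf (R)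
`H27.rSurj1E_of_rSurjJ_at`).

* `splitDict_cast835` : SPLIT-DICT with the `ℚ̄`-generator at ANY level `N = M * q`;
* **`hredS835`**      : `x' ∈ splitPartQ m q M P` (`= ker red`) with an `E`-rational Kummer
  generator of slope `0` ⟹ `levelCastJ x' ∈ S 1`;
* **`hredS_at835`**   : the same for a subgroup `F₁ ≤ J₀(M q)` in the shape of the hypothesis `hF`
  of `H27.rSurj1E_of_rSurjJ_at`: `F₁ ∩ (cast of ker red) ⊆ S 1`;
* `hredS_red835`      : the same, with `H296.IsRedClassQ … 0` (the defining relation of `red`).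
-/

set_option autoImplicit false
set_option linter.style.haveILetI false
set_option linter.unusedSectionVars false
set_option linter.unusedVariables false
set_option synthInstance.maxHeartbeats 400000
set_option maxHeartbeats 1600000

noncomputable section

namespace Fermat.Agent.S59.LoSqC.H835

open ModularCurve HahnSeries AlgebraicCurve
open Fermat.Agent
open Fermat.Agent.S24 Fermat.Agent.A2.H528 Fermat.Agent.A2.T1.H669 Fermat.Agent.Ribet.H884
open Fermat.Agent.A2.H708
open Fermat.Agent.Ribet.H158.WallQ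

local notation "Q̄" => AlgebraicClosure ℚ

section Level

variable {P : ValuationSubring A2.Qb} {E : IntermediateField ℚ A2.Qb} {M q : ℕ}
  [NeZero M] [NeZero q] [NeZero (M * q)]

/-- **SPLIT-DICT, the `ℚ̄`-generator at a level `N = M * q`.** -/
theorem splitDict_cast835 [IsDiscreteValuationRing (A2.RE P E)]
    [HenselianLocalRing (A2.RE P E)]
    [IsAlgClosed (IsLocalRing.ResidueField (A2.RE P E))] {w : A2.RE P E}
    (hS : S36.Mod3.Std P E M q w)
    {V : ValuationSubring (A2.Mod.FE E (M * q))} (hV : A2.Mod.IsVinf P E (M * q) V)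
    {W : A2.Mod.FE E (M * q) ≃ₐ[E] A2.Mod.FE E (M * q)} (hW : A2.Mod.IsFricke E (M * q) W)
    {m : ℕ} (hm : 0 < m) (hqm : ¬ q ∣ m)
    {N : ℕ} [NeZero N] (hN : N = M * q)
    {x' : JZero N} {f : FF N} (hf : IsKummerGen N m f x')
    {r₁ r₂ : LaurentSeries (kA P)}
    (h₁ : IsRedInf N P f r₁) (h₂ : IsRedZero N P f r₂)
    (hr₁ : PPowSeries m M r₁) (hr₂ : PPowSeries m M r₂)
    {y : A2.Mod.FE E (M * q)}
    (hy : H296.IsKummerGenE296 E (M * q) m y (H27.levelCastJ hN x'))
    (hslope : H27.SlopeZeroE P E (M * q) w m V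
      (V.comap (W : A2.Mod.FE E (M * q) →+* A2.Mod.FE E (M * q))) y) :
    H27.levelCastJ hN x' ∈ H296.kummerClasses296 E (M * q) m
      (H193.splitDiv (R := A2.RE P E) E w (A2.Mod.xE E M q) m V
        (V.comap (W : A2.Mod.FE E (M * q) →+* A2.Mod.FE E (M * q)))) := by
  subst hN
  have e : H27.levelCastJ (rfl : M * q = M * q) x' = x' := rfl
  rw [e] at hy ⊢
  exact splitDict835 hS hV hW hm hqm hf h₁ h₂ hr₁ hr₂ hy hslope

variable [NeZero (q * M)]

/-- **`hredS`** (kernel of the reduction inside the toric part), pointwise. -/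
theorem hredS835 [IsDiscreteValuationRing (A2.RE P E)] [HenselianLocalRing (A2.RE P E)]
    [IsAlgClosed (IsLocalRing.ResidueField (A2.RE P E))] {w : A2.RE P E}
    (hS : S36.Mod3.Std P E M q w)
    {V : ValuationSubring (A2.Mod.FE E (M * q))} (hV : A2.Mod.IsVinf P E (M * q) V)
    {W : A2.Mod.FE E (M * q) ≃ₐ[E] A2.Mod.FE E (M * q)} (hW : A2.Mod.IsFricke E (M * q) W)
    {m : ℕ} (hm : 0 < m) (hqm : ¬ q ∣ m)
    {x' : JZero (q * M)} (hx' : x' ∈ splitPartQ m q M P)
    {y : A2.Mod.FE E (M * q)}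
    (hy : H296.IsKummerGenE296 E (M * q) m y (H27.levelCastJ (Nat.mul_comm q M) x'))
    (hslope : H27.SlopeZeroE P E (M * q) w m V
      (V.comap (W : A2.Mod.FE E (M * q) →+* A2.Mod.FE E (M * q))) y) :
    H27.levelCastJ (Nat.mul_comm q M) x' ∈ H296.kummerClasses296 E (M * q) m
      (H193.splitDiv (R := A2.RE P E) E w (A2.Mod.xE E M q) m V
        (V.comap (W : A2.Mod.FE E (M * q) →+* A2.Mod.FE E (M * q)))) := by
  obtain ⟨f, hf, r₁, r₂, h₁, h₂, hr₁, hr₂⟩ :=
    Ribet.H708.Q3Pow.mem_splitSetQ_of_mem_splitPartQ hx'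
  exact splitDict_cast835 hS hV hW hm hqm (Nat.mul_comm q M) hf h₁ h₂ hr₁ hr₂ hy hslope

/-- **`hredS`** with the defining relation of `red` (`H296.IsRedClassQ`). -/
theorem hredS_red835 [IsDiscreteValuationRing (A2.RE P E)] [HenselianLocalRing (A2.RE P E)]
    [IsAlgClosed (IsLocalRing.ResidueField (A2.RE P E))] {w : A2.RE P E}
    (hS : S36.Mod3.Std P E M q w)
    {V : ValuationSubring (A2.Mod.FE E (M * q))} (hV : A2.Mod.IsVinf P E (M * q) V)
    {W : A2.Mod.FE E (M * q) ≃ₐ[E] A2.Mod.FE E (M * q)} (hW : A2.Mod.IsFricke E (M * q) W)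
    {m : ℕ} (hm : 0 < m) (hqm : ¬ q ∣ m)
    {x' : JZero (q * M)}
    (hx' : H296.IsRedClassQ m q M P x' (0 : JZeroC (kA P) M × JZeroC (kA P) M))
    {y : A2.Mod.FE E (M * q)}
    (hy : H296.IsKummerGenE296 E (M * q) m y (H27.levelCastJ (Nat.mul_comm q M) x'))
    (hslope : H27.SlopeZeroE P E (M * q) w m V
      (V.comap (W : A2.Mod.FE E (M * q) →+* A2.Mod.FE E (M * q))) y) :
    H27.levelCastJ (Nat.mul_comm q M) x' ∈ H296.kummerClasses296 E (M * q) m
      (H193.splitDiv (R := A2.RE P E) E w (A2.Mod.xE E M q) m V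
        (V.comap (W : A2.Mod.FE E (M * q) →+* A2.Mod.FE E (M * q)))) := by
  obtain ⟨f, hf, r₁, r₂, h₁, h₂, hr₁, hr₂⟩ :=
    hx'.mem_splitSetQ hS.q_prime hS.q_not_dvd hS.lies_over
  exact splitDict_cast835 hS hV hW hm hqm (Nat.mul_comm q M) hf h₁ h₂ hr₁ hr₂ hy hslope

/-- **`hredS`** for a subgroup `F₁ ≤ J₀(M q)` of classes with an `E`-rational Kummer generator of
slope `0` (the hypothesis `hF` of `H27.rSurj1E_of_rSurjJ_at`, VERBATIM):
`F₁ ∩ levelCastJ (splitPartQ) ⊆ S 1`. -/
theorem hredS_at835 [IsDiscreteValuationRing (A2.RE P E)] [HenselianLocalRing (A2.RE P E)]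
    [IsAlgClosed (IsLocalRing.ResidueField (A2.RE P E))] {w : A2.RE P E}
    (hS : S36.Mod3.Std P E M q w)
    {V : ValuationSubring (A2.Mod.FE E (M * q))} (hV : A2.Mod.IsVinf P E (M * q) V)
    {W : A2.Mod.FE E (M * q) ≃ₐ[E] A2.Mod.FE E (M * q)} (hW : A2.Mod.IsFricke E (M * q) W)
    {m : ℕ} (hm : 0 < m) (hqm : ¬ q ∣ m)
    (F₁ : AddSubgroup (JZero (M * q)))
    (hF : ∀ x ∈ F₁, ∃ g : A2.Mod.FE E (M * q),
      IsKummerGen (M * q) m (iota E (modularFunctionFieldFull (M * q)) g) x ∧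
      H27.SlopeZeroE P E (M * q) w m V
        (V.comap (W : A2.Mod.FE E (M * q) →+* A2.Mod.FE E (M * q))) g) :
    ∀ x' : JZero (q * M), H27.levelCastJ (Nat.mul_comm q M) x' ∈ F₁ →
      x' ∈ splitPartQ m q M P →
      H27.levelCastJ (Nat.mul_comm q M) x' ∈ H296.kummerClasses296 E (M * q) m
        (H193.splitDiv (R := A2.RE P E) E w (A2.Mod.xE E M q) m V
          (V.comap (W : A2.Mod.FE E (M * q) →+* A2.Mod.FE E (M * q)))) := by
  intro x' hxF hxS
  obtain ⟨g, hg, hsl⟩ := hF _ hxF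
  exact hredS835 hS hV hW hm hqm hxS (isKummerGenE296_iff835.2 hg) hsl

end Level

end Fermat.Agent.S59.LoSqC.H835

end

end
-- ===== PACK-END S59/LoSqC/H835/SplitDictCast.lean

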