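import Fermat.Agent.Pack.S59C.E14L3
import Fermat.Agent.Pack.S44C.G0E31L0
import Fermat.Agent.Pack.S44C.G0E26L1
import Fermat.Agent.Pack.S59C.E11L2
import Fermat.Agent.Pack.S43C.E1L0
import Fermat.Agent.Pack.S59C.E14L1
import Fermat.Agent.Pack.S59C.E5L0
import Fermat.Agent.Pack.S59C.E5L1
import Fermat.Agent.Pack.S59C.E13L2
import Fermat.Agent.Pack.S59C.E13L3
import Fermat.Agent.Pack.S59C.E12L0
import Fermat.Agent.Pack.S59C.E12L1
import Fermat.Agent.Pack.S59C.E12L3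
import Fermat.Agent.Pack.S59C.E13L0
import Fermat.Agent.Pack.S43MC.G0E20L0
import Fermat.Agent.Pack.S43MC.G0E17L1
import Fermat.Agent.Pack.S43MC.G0E20L1
import Fermat.Agent.Pack.S43MC.G0E17L3
import Fermat.Agent.Pack.S43MC.G0E18L0
import Fermat.Agent.Pack.S43C.E4L0
import Fermat.Agent.Pack.S59C.E14L2
import Fermat.Agent.Pack.S59C.E14L0

set_option linter.all false

-- ===== PACK-BEGIN Ribet/H712/WildSlopeOdd.lean
section



/-!
# WALL-p, CORE-OUT WILD for ODD `p` with an ABSTRACT unit  (helper712)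

`H704.CoreOut.wild_of` (the glue WILD-FRAME + WILD-CHART + SMOOTH-PURE + DICT-PURE ⟹ WILD) for
* any odd prime `p` (`p = 3` needs `2 ∣ M'`),
* an abstract unit: `UnitPairAt p M' A (tameLevel A ζ) Q` (the pair in the chart) and, for the
  first member `D₁` of the pair, a function `D ∈ FF (p M')` with `QQ D`, `D ≠ 0`,
  `D · (D₁ over ℚ̄) = 1`.

`wildSlope_core_odd` : LEVEL data (`H944.exists_wildLevel`) + KD outputs + the unit ⟹
`∃ f D G n a b, IsKummerGen f x ∧ QQ D ∧ D ≠ 0 ∧ ¬ p ∣ n ∧ G * D ^ b = f ^ n * D ^ a ∧ NodeGen G`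
(= `H884.SlopeProp` with `IsModUnit` replaced by `QQ`).
WILD-CHART `H132.wildChart`, SMOOTH-PURE `H520.smoothPure`, DICT-PURE `H472.dictPure` are
`p`-generic and plugged.
-/

set_option autoImplicit false
set_option synthInstance.maxHeartbeats 400000
set_option maxHeartbeats 2000000
set_option linter.unusedSectionVars false
set_option linter.unusedVariables false
set_option linter.style.haveILetI false

noncomputable section

namespace Fermat.Agent.Ribet.H712.Frame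

open ModularCurve HahnSeries AlgebraicCurve
open Fermat.Agent.S24 Fermat.Agent.A2 Fermat.Agent.Ribet.H704
open Fermat.Agent.Ribet.H704.CoreOut
open Fermat.Agent.Ribet.Spec Fermat.Agent.Ribet.H944.Wall Fermat.Agent.Ribet.H884

section OddSlope

open Fermat.Agent.Ribet.H944.Tame

variable (p M' : ℕ) [NeZero M'] [NeZero p] [NeZero (p * M')]

/-- **WILD with an abstract unit, `p` odd.** -/
theorem wildSlope_core_odd (hp : p.Prime) (hp2 : p ≠ 2) (h3 : p = 3 → 2 ∣ M') (hpM : ¬ p ∣ M')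
    (A : ValuationSubring Kbar) (hA : A.LiesOverPrime p)
    (S : Finset ℕ) (a : ℕ → ℤ) (hNE : NonEisAway p a) (x t : JZero (p * M'))
    (ht : IsNewTors p M' t) (het : EigenAt (p * M') S a t)
    (hχ : ∀ σ ∈ A.inertiaSubgroupIn ℚ, ∀ c : ℕ, CycloAt p σ c → σ • t = c • t)
    (ζ : Kbar) (hζ : IsPrimitiveRoot ζ p) (σ₁ : GQ) (u : Kbar)
    (hσ₁I : σ₁ ∈ A.inertiaSubgroupIn ℚ) (hσ₁1 : CycloAt p σ₁ 1)
    (hσ₁u : σ₁ u = ζ * u) (huA : u ∈ A) (huA' : u⁻¹ ∈ A) (hu0 : u ≠ 0)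
    (hup : u ^ p ∈ tameLevel A ζ)
    (hG₂ : GoodField A (wildLevel A ζ u))
    (Q : ↥(Mod.FE (tameLevel A ζ) (M' * p)) → Prop)
    (hUnit : UnitPairAt p M' A (tameLevel A ζ) Q)
    (ft : Mod.FE (tameLevel A ζ) (M' * p))
    (f₂ G₀ : Mod.FE (wildLevel A ζ u) (M' * p)) (Ft : FF (p * M')) (κ : Kbar)
    (hlc : (ft : LaurentSeries (tameLevel A ζ)).leadingCoeff = 1)
    (hord : (p : ℤ) ∣ (ft : LaurentSeries (tameLevel A ζ)).order)
    (hnp : ∀ z : Mod.FE (tameLevel A ζ) (M' * p), z ^ p ≠ ft)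
    (hKt : IsKummerGen (p * M') p Ft t)
    (hFt : (Ft : LaurentSeries Kbar) = coeffMap (algebraMap (tameLevel A ζ) Kbar)
      (ft : LaurentSeries (tameLevel A ζ)))
    (f : FF (p * M')) (hKx : IsKummerGen (p * M') p f x)
    (hf : (f : LaurentSeries Kbar) = coeffMap (algebraMap (wildLevel A ζ u) Kbar)
      (f₂ : LaurentSeries (wildLevel A ζ u)))
    (QQ : FF (p * M') → Prop)
    (hQbar : ∀ D₁ : ↥(Mod.FE (tameLevel A ζ) (M' * p)), Q D₁ →
      ∃ D : FF (p * M'), QQ D ∧ D ≠ 0 ∧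
        (D : LaurentSeries Kbar) * coeffMap (algebraMap (tameLevel A ζ) Kbar)
          (D₁ : LaurentSeries (tameLevel A ζ)) = 1)
    (hf₂0 : f₂ ≠ 0) (hdiv₂ : DivisibleDiv (wildLevel A ζ u) p f₂)
    (hκ : κ ∈ wildLevel A ζ u)
    (hσ : coeffMap ((σ₁ : Kbar ≃ₐ[ℚ] Kbar) : Kbar →+* Kbar)
          (coeffMap (algebraMap (wildLevel A ζ u) Kbar)
            (f₂ : LaurentSeries (wildLevel A ζ u))) =
        coeffMap (algebraMap (wildLevel A ζ u) Kbar)
            (f₂ : LaurentSeries (wildLevel A ζ u)) *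
          HahnSeries.C κ *
          coeffMap (algebraMap (tameLevel A ζ) Kbar)
            (ft : LaurentSeries (tameLevel A ζ)) *
          (coeffMap (algebraMap (wildLevel A ζ u) Kbar)
            (G₀ : LaurentSeries (wildLevel A ζ u))) ^ p) :
    ∃ (f D G : FF (p * M')) (n a b : ℕ), IsKummerGen (p * M') p f x ∧ QQ D ∧ D ≠ 0 ∧
      ¬ p ∣ n ∧ G * D ^ b = f ^ n * D ^ a ∧ NodeGen p M' A G := by
  obtain ⟨w₂, c₂, D₁, hSet, hctx, hQ, ⟨W⟩⟩ :=
    wildFrame_core_odd p M' hp hp2 h3 hpM A hA S a hNE t ht het hχ ζ hζ σ₁ u hσ₁I hσ₁1 hσ₁u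
      huA huA' hu0 hup hG₂ Q hUnit ft f₂ G₀ Ft κ hlc hord hnp hKt hFt hf₂0 hdiv₂ hκ hσ
  obtain ⟨D, hQQ, hD0, hDD₁⟩ := hQbar D₁ hQ
  -- the unit at the wild level
  have hDD₂ : (D : LaurentSeries Kbar) * coeffMap (algebraMap (wildLevel A ζ u) Kbar)
      ((levelMap (M' * p) (tameLevel_le_wildLevel A ζ u) D₁ : Mod.FE (wildLevel A ζ u) (M' * p)) :
        LaurentSeries (wildLevel A ζ u)) = 1 := by
    have h1 := sIota_levelMap (M' * p) (tameLevel_le_wildLevel A ζ u) D₁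
    rw [sIota_apply, sIota_apply] at h1
    rw [h1]
    exact hDD₁
  generalize levelMap (M' * p) (tameLevel_le_wildLevel A ζ u) D₁ = D₂ at W hDD₂
  haveI : IsDiscreteValuationRing (Mod.RE A (wildLevel A ζ u)) := hSet.dvr
  have halg : IsAlgClosed (IsLocalRing.ResidueField (Mod.RE A (wildLevel A ζ u))) :=
    hG₂.algClosed
  obtain ⟨i, hi⟩ := Fermat.Agent.Ribet.H132.wildChart p (Mod.RE A (wildLevel A ζ u))
    (wildLevel A ζ u) (Mod.FE (wildLevel A ζ u) (M' * p)) w₂ (Mod.xE (wildLevel A ζ u) M' p)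
    (Mod.chartAlg A (wildLevel A ζ u) (M' * p) (Mod.xE (wildLevel A ζ u) M' p)) c₂ f₂ D₂ hp halg
    hctx hf₂0 hdiv₂ W
  have hD₂0 : D₂ ≠ 0 := by
    rintro rfl
    have h0 : ((0 : Mod.FE (wildLevel A ζ u) (M' * p)) : LaurentSeries (wildLevel A ζ u)) = 0 :=
      rfl
    rw [h0, map_zero, mul_zero] at hDD₂
    exact zero_ne_one hDD₂
  have hG₂0 : f₂ * D₂ ^ i ≠ 0 := mul_ne_zero hf₂0 (pow_ne_zero _ hD₂0)
  have hw₂0 : algebraMap (Mod.RE A (wildLevel A ζ u)) (Mod.FE (wildLevel A ζ u) (M' * p)) w₂ ≠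
      0 := by
    have hw0 : w₂ ≠ 0 := hSet.unif.ne_zero
    intro h0
    apply hw0
    have h1 : algebraMap (wildLevel A ζ u) (Mod.FE (wildLevel A ζ u) (M' * p))
        (w₂ : wildLevel A ζ u) = 0 := h0
    have h2 : (w₂ : wildLevel A ζ u) = 0 := by
      rwa [map_eq_zero_iff _
        (algebraMap (wildLevel A ζ u) (Mod.FE (wildLevel A ζ u) (M' * p))).injective] at h1
    exact Subtype.ext h2
  -- purity at every closed point of the special fibre
  have hpure : ChartPure A (wildLevel A ζ u) M' p w₂ (f₂ * D₂ ^ i) := by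
    intro n hn hwn
    by_cases hcr : c₂.p₁ ≤ n ∧ c₂.p₂ ≤ n
    · exact hi n hn hcr.1 hcr.2
    · refine Fermat.Agent.Ribet.H520.smoothPure (Mod.RE A (wildLevel A ζ u)) (wildLevel A ζ u)
        (Mod.FE (wildLevel A ζ u) (M' * p)) w₂ (Mod.xE (wildLevel A ζ u) M' p)
        (Mod.chartAlg A (wildLevel A ζ u) (M' * p) (Mod.xE (wildLevel A ζ u) M' p)) c₂ hctx p
        hp.ne_zero (f₂ * D₂ ^ i) hG₂0 ?_ n hn hwn hcr
      intro V hV hBV hwV
      have hBV' : ∀ b : Mod.chartAlg A (wildLevel A ζ u) (M' * p)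
          (Mod.xE (wildLevel A ζ u) M' p),
          (b : Mod.FE (wildLevel A ζ u) (M' * p)) ∈ V := hBV
      have hwV' : (algebraMap (Mod.RE A (wildLevel A ζ u))
          (Mod.FE (wildLevel A ζ u) (M' * p)) w₂)⁻¹ ∈ V := hwV
      have hE : ∀ e : wildLevel A ζ u,
          algebraMap (wildLevel A ζ u) (Mod.FE (wildLevel A ζ u) (M' * p)) e ∈ V :=
        algebraMap_mem_of_inv_unif hSet.unif V
          (fun r => hBV' (algebraMap (Mod.RE A (wildLevel A ζ u)) _ r)) hwV'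
      obtain ⟨g, v, hg0, hv, hv', hfv⟩ := hdiv₂ V hV hE
      obtain ⟨hDV, hDV'⟩ := W.unit_mem V hBV' hwV' hw₂0
      refine ⟨g, v * D₂ ^ i, V.mul_mem _ _ hv (pow_mem hDV i), ?_, ?_⟩
      · rw [mul_inv, ← inv_pow]
        exact V.mul_mem _ _ hv' (pow_mem hDV' i)
      · rw [hfv]; ring
  -- the function over `ℚ̄`
  have hDinv : coeffMap (algebraMap (wildLevel A ζ u) Kbar)
      (D₂ : LaurentSeries (wildLevel A ζ u)) = ((D⁻¹ : FF (p * M')) : LaurentSeries Kbar) := by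
    have h1 : ((D⁻¹ : FF (p * M')) : LaurentSeries Kbar) = (D : LaurentSeries Kbar)⁻¹ := rfl
    rw [h1]
    exact eq_inv_of_mul_eq_one_right hDD₂
  have hG' : ((f * D⁻¹ ^ i : FF (p * M')) : LaurentSeries Kbar) =
      coeffMap (algebraMap (wildLevel A ζ u) Kbar)
        ((f₂ * D₂ ^ i : Mod.FE (wildLevel A ζ u) (M' * p)) :
          LaurentSeries (wildLevel A ζ u)) := by
    have h1 : ((f * D⁻¹ ^ i : FF (p * M')) : LaurentSeries Kbar) =
        (f : LaurentSeries Kbar) * ((D⁻¹ : FF (p * M')) : LaurentSeries Kbar) ^ i := rfl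
    have h2 : ((f₂ * D₂ ^ i : Mod.FE (wildLevel A ζ u) (M' * p)) :
        LaurentSeries (wildLevel A ζ u)) =
        (f₂ : LaurentSeries (wildLevel A ζ u)) * (D₂ : LaurentSeries (wildLevel A ζ u)) ^ i :=
      rfl
    rw [h1, h2, map_mul, map_pow, ← hf, hDinv]
  have hNG : NodeGen p M' A (f * D⁻¹ ^ i) :=
    Fermat.Agent.Ribet.H472.dictPure p M' hp hpM A hA (wildLevel A ζ u) w₂ hSet hG₂
      (f₂ * D₂ ^ i) (f * D⁻¹ ^ i) hG₂0 hG' hpure
  refine ⟨f, D, f * D⁻¹ ^ i, 1, 0, i, hKx, hQQ, hD0, ?_, ?_, hNG⟩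
  · intro h
    have h1 := Nat.le_of_dvd Nat.one_pos h
    have h2 := hp.two_le
    omega
  · rw [pow_one, pow_zero, mul_one, inv_pow, mul_assoc, inv_mul_cancel₀ (pow_ne_zero _ hD0),
      mul_one]

end OddSlope

end Fermat.Agent.Ribet.H712.Frame

end

end
-- ===== PACK-END Ribet/H712/WildSlopeOdd.lean

-- ===== PACK-BEGIN Ribet/H712/UnitPairGen.lean
section


/-!
# WALL-p, UNIT: `UnitPairAt` from an abstract "mu-package" of ANY exponent `k`  (helper712)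

`H463.UnitExp.exists_unitPair_cut_exp463` is the unit pair of the modular unit `Δ(t)/Δ(t^p)`
(exponent `12`).  For `p = 3` the exponent must be prime to `3` (UNIT-3 of helper461:
exponent `8`).  This file is the exponent-generic adapter:

`unitPairAt_of_package` : `D₀, D₀'` in the chart, `D₀ · D₀' = p ^ k`, `D₀` a unit of every `V∞`,
`D₀'` a unit of every `V₀ = V∞ ∘ W`, `(p) = (w ^ e₀)` for every uniformiser `w` of `R_E`,
`k e₀` prime to `p`  ⟹  `UnitPairAt p M' A E Q` (for every `Q` with `Q D₀`).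
-/

set_option autoImplicit false
set_option synthInstance.maxHeartbeats 400000
set_option maxHeartbeats 1600000
set_option linter.unusedSectionVars false
set_option linter.unusedVariables false
set_option linter.style.haveILetI false

noncomputable section

namespace Fermat.Agent.Ribet.H712.Frame

open ModularCurve HahnSeries AlgebraicCurve
open Fermat.Agent.S24 Fermat.Agent.A2 Fermat.Agent.Ribet.H704
open Fermat.Agent.Ribet.H704.CoreOut

section Package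

variable (p M' : ℕ) [NeZero M'] [NeZero p] [NeZero (p * M')]

/-- **Exponent-generic UNIT adapter.** -/
theorem unitPairAt_of_package (A : ValuationSubring Kbar) (E : IntermediateField ℚ Kbar)
    (Q : ↥(Mod.FE E (M' * p)) → Prop) (k e₀ : ℕ)
    (hram : ∀ w : Mod.RE A E, Irreducible w →
      Associated ((p : ℕ) : Mod.RE A E) (w ^ e₀))
    (hcop : Nat.Coprime (k * e₀) p)
    (D₀ D₀' : Mod.FE E (M' * p))
    (hD : D₀ ∈ Mod.chartAlg A E (M' * p) (Mod.xE E M' p))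
    (hD' : D₀' ∈ Mod.chartAlg A E (M' * p) (Mod.xE E M' p))
    (hmul : D₀ * D₀' = algebraMap E (Mod.FE E (M' * p)) ((p : E) ^ k))
    (hDu : ∀ V : ValuationSubring (Mod.FE E (M' * p)), Mod.IsVinf A E (M' * p) V → D₀⁻¹ ∈ V)
    (hD'u : ∀ (V : ValuationSubring (Mod.FE E (M' * p)))
      (W : Mod.FE E (M' * p) ≃ₐ[E] Mod.FE E (M' * p)),
      Mod.IsVinf A E (M' * p) V → Mod.IsFricke E (M' * p) W →
        D₀'⁻¹ ∈ V.comap (W : Mod.FE E (M' * p) →+* Mod.FE E (M' * p)))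
    (hQ : Q D₀) :
    UnitPairAt p M' A E Q := by
  intro w hS V W hV hW p₁ p₂ hc₁ hc₂
  haveI := hS.dvr
  have hp0 : (p : E) ≠ 0 := Nat.cast_ne_zero.mpr (NeZero.ne p)
  have hc0 : algebraMap E (Mod.FE E (M' * p)) ((p : E) ^ k) ≠ 0 := by
    rw [Ne, map_eq_zero]
    exact pow_ne_zero k hp0
  have hD0 : D₀ ≠ 0 := by
    rintro rfl
    rw [zero_mul] at hmul
    exact hc0 hmul.symm
  have hD'0 : D₀' ≠ 0 := by
    rintro rfl
    rw [mul_zero] at hmul
    exact hc0 hmul.symm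
  have hDV : ¬ Mod.InW A E (M' * p) V w D₀ :=
    Fermat.Agent.Ribet.H873.not_inW_of_inv_mem873
      (Fermat.Agent.Ribet.H873.cE_inv_not_mem873 hS.dvr hS.unif hV) hD0 (hDu V hV)
  have hD'V : ¬ Mod.InW A E (M' * p)
      (V.comap (W : Mod.FE E (M' * p) →+* Mod.FE E (M' * p))) w D₀' :=
    Fermat.Agent.Ribet.H873.not_inW_of_inv_mem873
      (Fermat.Agent.Ribet.H873.cE_inv_not_mem_comap873 hS.dvr hS.unif hV W) hD'0
      (hD'u V W hV hW)
  obtain ⟨ε, hε⟩ := hram w hS.unif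
  set B := Mod.chartAlg A E (M' * p) (Mod.xE E M' p) with hB
  refine ⟨k * e₀, ⟨D₀, hD⟩, algebraMap (Mod.RE A E) B ((ε : Mod.RE A E) ^ k) * ⟨D₀', hD'⟩,
    hcop, ?_, ?_, ?_, ?_⟩
  · apply Subtype.ext
    show D₀ * (algebraMap (Mod.RE A E) (Mod.FE E (M' * p)) ((ε : Mod.RE A E) ^ k) * D₀') =
      (algebraMap (Mod.RE A E) (Mod.FE E (M' * p)) w) ^ (k * e₀)
    have hpk : algebraMap E (Mod.FE E (M' * p)) ((p : E) ^ k) =
        algebraMap (Mod.RE A E) (Mod.FE E (M' * p)) (((p : ℕ) : Mod.RE A E) ^ k) := by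
      show _ = algebraMap E (Mod.FE E (M' * p)) (((((p : ℕ) : Mod.RE A E) ^ k : Mod.RE A E)) : E)
      congr 1
    rw [mul_left_comm, hmul, hpk, ← map_mul, ← map_pow]
    congr 1
    rw [pow_mul', ← hε]
    ring
  · exact fun h => hDV ((hc₁ ⟨D₀, hD⟩).mp h)
  · intro h
    apply hD'V
    have h0 := (hc₂ _).mp h
    have hεV : algebraMap (Mod.RE A E) (Mod.FE E (M' * p))
        (((ε⁻¹ : (Mod.RE A E)ˣ) : Mod.RE A E) ^ k) ∈
        V.comap (W : Mod.FE E (M' * p) →+* Mod.FE E (M' * p)) := by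
      rw [ValuationSubring.mem_comap]
      have h1 : (W : Mod.FE E (M' * p) →+* Mod.FE E (M' * p))
          (algebraMap (Mod.RE A E) (Mod.FE E (M' * p))
            (((ε⁻¹ : (Mod.RE A E)ˣ) : Mod.RE A E) ^ k)) =
          algebraMap E (Mod.FE E (M' * p))
            ((((ε⁻¹ : (Mod.RE A E)ˣ) : Mod.RE A E) ^ k : Mod.RE A E) : E) :=
        W.commutes _
      rw [h1]
      exact (Fermat.Agent.A2.Mod.H708.algebraMap_mem_iff_of_isVinf hV _).mpr (Subtype.mem _)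
    have h2 := (V.comap (W : Mod.FE E (M' * p) →+* Mod.FE E (M' * p))).mul_mem _ _ hεV h0
    have h3 : algebraMap (Mod.RE A E) (Mod.FE E (M' * p))
          (((ε⁻¹ : (Mod.RE A E)ˣ) : Mod.RE A E) ^ k) *
        (((algebraMap (Mod.RE A E) B ((ε : Mod.RE A E) ^ k) * ⟨D₀', hD'⟩ : B) :
            Mod.FE E (M' * p)) * (Mod.cE A E (M' * p) w)⁻¹) =
        D₀' * (Mod.cE A E (M' * p) w)⁻¹ := by
      have h4 : algebraMap (Mod.RE A E) (Mod.FE E (M' * p))
            (((ε⁻¹ : (Mod.RE A E)ˣ) : Mod.RE A E) ^ k) *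
          algebraMap (Mod.RE A E) (Mod.FE E (M' * p)) ((ε : Mod.RE A E) ^ k) = 1 := by
        rw [← map_mul, ← mul_pow, Units.inv_mul, one_pow, map_one]
      show algebraMap (Mod.RE A E) (Mod.FE E (M' * p))
          (((ε⁻¹ : (Mod.RE A E)ˣ) : Mod.RE A E) ^ k) *
        ((algebraMap (Mod.RE A E) (Mod.FE E (M' * p)) ((ε : Mod.RE A E) ^ k) * D₀') *
          (Mod.cE A E (M' * p) w)⁻¹) = _
      rw [← mul_assoc, ← mul_assoc, h4, one_mul]
    rw [h3] at h2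
    exact h2
  · exact hQ

end Package

end Fermat.Agent.Ribet.H712.Frame

end

end
-- ===== PACK-END Ribet/H712/UnitPairGen.lean

-- ===== PACK-BEGIN Ribet/H712/WildUOdd.lean
section





/-!
# WALL-p, CORE-OUT: WILD for ODD `p` with an ABSTRACT unit, UNCONDITIONAL in LEVEL / KD
# (helper712)

`wildU_odd` : for `p` odd, `p ∤ M'`, (`p = 3 → 2 ∣ M'`), `A` over `p`, and an abstract unit
(`hU`: at every tame level `E₁ = tameLevel A ζ` a unit pair `UnitPairAt … Q` of the chart and,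
for its first member `D₁`, a function `D ∈ FF (p M')` with `QQ D`, `D ≠ 0`, `D · D₁ = 1`):
under the hypotheses of `H704.CoreOut.WildStatement` on `(x, t)`,

  `∃ f D G n a b, IsKummerGen f x ∧ QQ D ∧ D ≠ 0 ∧ ¬ p ∣ n ∧ G * D ^ b = f ^ n * D ^ a ∧ NodeGen G`

(= `H884.SlopeProp` with `IsModUnit` replaced by `QQ`).

Plugged from main: LEVEL `H944.Tame.exists_wildLevel` (+ `S17.H126.stabilizer_open`),
KD `H247.kd_core247` (`p`-generic), MODEL `H279`, DEEP-SPLIT `H339.deepSplit339`, PER/COVER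
`H819`, HOR-DESC `H769`, WILD-CHART `H132`, SMOOTH-PURE `H520`, DICT-PURE `H472`.

`unitData_of_package` : the hypothesis `hU` from a "mu-package" of ANY exponent `k` with
`k (p - 1)` prime to `p` (format of `S36.H438.mu_package` / `S59.Unit3.H461.mu3_package`).
-/

set_option autoImplicit false
set_option synthInstance.maxHeartbeats 400000
set_option maxHeartbeats 2000000
set_option linter.unusedSectionVars false
set_option linter.unusedVariables false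
set_option linter.style.haveILetI false

noncomputable section

namespace Fermat.Agent.Ribet.H712.Frame

open ModularCurve HahnSeries AlgebraicCurve
open Fermat.Agent.S24 Fermat.Agent.A2 Fermat.Agent.Ribet.H704
open Fermat.Agent.Ribet.H704.CoreOut
open Fermat.Agent.Ribet.Spec Fermat.Agent.Ribet.H944.Wall Fermat.Agent.Ribet.H884

section WildU

open Fermat.Agent.Ribet.H944.Tame

variable (p M' : ℕ) [NeZero M'] [NeZero p] [NeZero (p * M')]

/-- The abstract unit at the tame levels over `A`. -/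
def UnitData (A : ValuationSubring Kbar) (QQ : FF (p * M') → Prop) : Prop :=
  ∀ ζ : Kbar, IsPrimitiveRoot ζ p →
    ∃ Q : ↥(Mod.FE (tameLevel A ζ) (M' * p)) → Prop,
      UnitPairAt p M' A (tameLevel A ζ) Q ∧
      ∀ D₁ : ↥(Mod.FE (tameLevel A ζ) (M' * p)), Q D₁ →
        ∃ D : FF (p * M'), QQ D ∧ D ≠ 0 ∧
          (D : LaurentSeries Kbar) * coeffMap (algebraMap (tameLevel A ζ) Kbar)
            (D₁ : LaurentSeries (tameLevel A ζ)) = 1

/-- **WILD with an abstract unit, `p` odd** (pointwise at `(p, M', A)`; binders of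
`H704.CoreOut.WildStatement` after `A`). -/
theorem wildU_odd (hp : p.Prime) (hp2 : p ≠ 2) (h3 : p = 3 → 2 ∣ M') (hpM : ¬ p ∣ M')
    (A : ValuationSubring Kbar) (hA : A.LiesOverPrime p)
    (QQ : FF (p * M') → Prop) (hU : UnitData p M' A QQ)
    (S : Finset ℕ) (a : ℕ → ℤ) (hNE : NonEisAway p a) (x t : JZero (p * M'))
    (hx : IsNewTors p M' x) (hex : EigenAt (p * M') S a x)
    (ht : IsNewTors p M' t) (het : EigenAt (p * M') S a t)
    (hχ : ∀ σ ∈ A.inertiaSubgroupIn ℚ, ∀ c : ℕ, CycloAt p σ c → σ • t = c • t)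
    (hsh : ∀ σ ∈ A.inertiaSubgroupIn ℚ, ∃ n : ℕ, σ • x = x + n • t)
    (hpeu : ∀ σ : GQ, PeuFixes A p σ → σ • x = x)
    (σ₀ : GQ) (hσ₀ : σ₀ ∈ A.inertiaSubgroupIn ℚ) (hσ₀1 : CycloAt p σ₀ 1) (hσ₀x : σ₀ • x ≠ x) :
    ∃ (f D G : FF (p * M')) (n a b : ℕ), IsKummerGen (p * M') p f x ∧ QQ D ∧ D ≠ 0 ∧
      ¬ p ∣ n ∧ G * D ^ b = f ^ n * D ^ a ∧ NodeGen p M' A G := by
  haveI : NeZero ((p : ℕ) : Kbar) := ⟨Nat.cast_ne_zero.mpr hp.ne_zero⟩
  obtain ⟨ζ, hζ⟩ := HasEnoughRootsOfUnity.exists_primitiveRoot Kbar p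
  obtain ⟨σ₁, u, hσ₁I, hσ₁1, hσ₁x, hσ₁u, huA, huA', hu0, hup, hG₂, hσp, hfix, h5, hiff, h7⟩ :=
    exists_wildLevel (A := A) hp hA x t
      (Fermat.Agent.S17.H126.stabilizer_open (p * M') x) hχ hsh hpeu ht.1 hσ₀ hσ₀1 hσ₀x hζ
  have hp0 : p ≠ 0 := hp.ne_zero
  have ht0 : t ≠ 0 := by
    rintro rfl
    obtain ⟨n, hn⟩ := hsh σ₀ hσ₀
    rw [smul_zero, add_zero] at hn
    exact hσ₀x hn
  obtain ⟨ft, f₂, G₀, Ft, f, hlc, hord, hnp, hKt, hFt, hKx, hf, hf₂0, hdiv₂, hσ⟩ :=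
    Fermat.Agent.Ribet.H247.kd_core247 (p * M') (M' * p) (mul_comm M' p) hp0 A x t hx.1 ht.1
      ht0 hχ hσ₁I hσ₁x (tameLevel A ζ) (wildLevel A ζ u)
      (fun y hy => mem_tameLevel_of_inK1 A hζ hp0 hy)
      (fun e he => inK1_of_mem_tameLevel A hζ.pow_eq_one he)
      (fun y hy => (hiff y).mpr hy)
  obtain ⟨Q, hUnit, hQbar⟩ := hU ζ hζ
  exact wildSlope_core_odd p M' hp hp2 h3 hpM A hA S a hNE x t ht het hχ ζ hζ σ₁ u hσ₁I hσ₁1
    hσ₁u huA huA' hu0 hup hG₂ Q hUnit ft f₂ G₀ Ft 1 hlc hord hnp hKt hFt f hKx hf QQ hQbar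
    hf₂0 hdiv₂ (one_mem _) hσ

/-- **The unit data from a mu-package of exponent `k`** (`k (p - 1)` prime to `p`), given at
every level `E`: `D₀` a unit of `V∞`, `D₀'` a unit of `V₀`, `D₀ · D₀' = p ^ k`, both in the
chart; `QQ D` for every `D ∈ FF (p M')` with `D · D₀ = 1` over `ℚ̄`. -/
theorem unitData_of_package (hp : p.Prime) (A : ValuationSubring Kbar)
    (hA : A.LiesOverPrime p) (QQ : FF (p * M') → Prop) (k : ℕ)
    (hcop : Nat.Coprime (k * (p - 1)) p)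
    (hpkg : ∀ E : IntermediateField ℚ Kbar, ∃ D₀ D₀' : ↥(Mod.FE E (M' * p)),
      D₀ ∈ Mod.chartAlg A E (M' * p) (Mod.xE E M' p) ∧
      D₀' ∈ Mod.chartAlg A E (M' * p) (Mod.xE E M' p) ∧
      D₀ * D₀' = algebraMap E (Mod.FE E (M' * p)) ((p : E) ^ k) ∧
      (∀ V : ValuationSubring (Mod.FE E (M' * p)), Mod.IsVinf A E (M' * p) V → D₀⁻¹ ∈ V) ∧
      (∀ (V : ValuationSubring (Mod.FE E (M' * p)))
        (W : Mod.FE E (M' * p) ≃ₐ[E] Mod.FE E (M' * p)),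
        Mod.IsVinf A E (M' * p) V → Mod.IsFricke E (M' * p) W →
          D₀'⁻¹ ∈ V.comap (W : Mod.FE E (M' * p) →+* Mod.FE E (M' * p))) ∧
      ∀ D : FF (p * M'), (D : LaurentSeries Kbar) * coeffMap (algebraMap E Kbar)
        (D₀ : LaurentSeries E) = 1 → QQ D) :
    UnitData p M' A QQ := by
  intro ζ hζ
  obtain ⟨D₀, D₀', hD, hD', hmul, hDu, hD'u, hQQ⟩ := hpkg (tameLevel A ζ)
  refine ⟨fun D₁ => D₁ = D₀, ?_, ?_⟩
  · exact unitPairAt_of_package p M' A (tameLevel A ζ) (fun D₁ => D₁ = D₀) k (p - 1)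
      (fun w hw => associated_natCast_pow hp hA hζ w hw) hcop D₀ D₀' hD hD' hmul hDu hD'u rfl
  · rintro D₁ rfl
    -- the inverse of `D₁` over `ℚ̄`: the image of `D₀' / p ^ k`
    have hN : M' * p ≠ 0 := mul_ne_zero (NeZero.ne M') hp.ne_zero
    have hpk0 : ((p : ↥(tameLevel A ζ)) ^ k) ≠ 0 :=
      pow_ne_zero k (Nat.cast_ne_zero.mpr hp.ne_zero)
    set Y : ↥(Mod.FE (tameLevel A ζ) (M' * p)) :=
      D₀' * algebraMap ↥(tameLevel A ζ) ↥(Mod.FE (tameLevel A ζ) (M' * p))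
        (((p : ↥(tameLevel A ζ)) ^ k)⁻¹) with hY
    have hY1 : D₁ * Y = 1 := by
      rw [hY, ← mul_assoc, hmul, ← map_mul, mul_inv_cancel₀ hpk0, map_one]
    have key : ∀ {N N' : ℕ} (_ : N = N') (z : LaurentSeries Kbar),
        z ∈ modularFunctionFieldBar N → z ∈ modularFunctionFieldBar N' := by
      intro N N' h z hz
      subst h
      exact hz
    have hmem : sIota (tameLevel A ζ) (M' * p) Y ∈ modularFunctionFieldBar (p * M') := by
      have h1 : sIota (tameLevel A ζ) (M' * p) Y ∈ modularFunctionFieldBar (M' * p) :=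
        Fermat.Agent.S18.H602.coeffMap_mem_laurentBaseChange _ (algebraMap ↥(tameLevel A ζ) Kbar)
          Y.2
      exact key (mul_comm M' p) _ h1
    have hprod : sIota (tameLevel A ζ) (M' * p) Y * sIota (tameLevel A ζ) (M' * p) D₁ = 1 := by
      rw [← map_mul, mul_comm Y D₁, hY1, map_one]
    have hne : (⟨sIota (tameLevel A ζ) (M' * p) Y, hmem⟩ : FF (p * M')) ≠ 0 := by
      intro h0
      have h1 : sIota (tameLevel A ζ) (M' * p) Y = 0 := congrArg Subtype.val h0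
      rw [h1, zero_mul] at hprod
      exact zero_ne_one hprod
    exact ⟨⟨sIota (tameLevel A ζ) (M' * p) Y, hmem⟩, hQQ _ hprod, hne, hprod⟩

end WildU

end Fermat.Agent.Ribet.H712.Frame

end

end
-- ===== PACK-END Ribet/H712/WildUOdd.lean

-- ===== PACK-BEGIN Ribet/H712/Wild3.lean
section



/-!
# WALL-p at `p = 3`, CORE-OUT: WILD with the UNIT-3 unit (exponent `8`)  (helper712)

Instance of `H712.Frame.wildU_odd` at `p = 3`, `2 ∣ M'`, `3 ∤ M'`, with the unit pair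
`S59.Unit3.H461.mu3_package` (`v = (η(τ)η(2τ)/(η(3τ)η(6τ)))⁸`, `D · D' = 3⁸`, `8 · 2` prime to
`3`).

* `IsUnit3 M' D`  : `D ∈ FF (3 M')` is the inverse of `v` as a `t`-series over `ℚ̄`
                    (`D · v3L = 1`);
* `unitData3`     : `UnitData 3 M' A (IsUnit3 M')`;
* `wild3`         : under the hypotheses of WILD at `(3, M', A)`:
  `∃ f D G n a b, IsKummerGen f x ∧ IsUnit3 M' D ∧ D ≠ 0 ∧ ¬ 3 ∣ n ∧ G * D ^ b = f ^ n * D ^ a ∧
     NodeGen 3 M' A G`.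
-/

set_option autoImplicit false
set_option synthInstance.maxHeartbeats 400000
set_option maxHeartbeats 2000000
set_option linter.unusedSectionVars false
set_option linter.unusedVariables false
set_option linter.style.haveILetI false

noncomputable section

namespace Fermat.Agent.Ribet.H712.Frame

open ModularCurve HahnSeries AlgebraicCurve
open Fermat.Agent.S24 Fermat.Agent.A2 Fermat.Agent.Ribet.H704
open Fermat.Agent.Ribet.H704.CoreOut
open Fermat.Agent.Ribet.Spec Fermat.Agent.Ribet.H944.Wall Fermat.Agent.Ribet.H884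

section Three

variable (M' : ℕ) [NeZero M'] [NeZero (3 * M')]

/-- `D` is the inverse of the UNIT-3 unit `v` (as a `t`-series over `ℚ̄`). -/
def IsUnit3 (D : FF (3 * M')) : Prop :=
  (D : LaurentSeries Kbar) *
    coeffMap (Int.castRingHom Kbar) Fermat.Agent.S59.Unit3.H461.v3L = 1

/-- **The unit data at `p = 3`** (`2 ∣ M'`). -/
theorem unitData3 (h2 : 2 ∣ M') (A : ValuationSubring Kbar) (hA : A.LiesOverPrime 3) :
    UnitData 3 M' A (IsUnit3 M') := by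
  refine unitData_of_package 3 M' Nat.prime_three A hA (IsUnit3 M') 8 (by decide) ?_
  intro E
  obtain ⟨D, D', hDe, hD'e, hmul, hD, hD', hVu, hV0u, -⟩ :=
    Fermat.Agent.S59.Unit3.H461.mu3_package A E M' h2
  refine ⟨D', D, hD', hD, ?_, fun V hV => (hVu V hV).2,
    fun V W hV hW => (hV0u V W hV hW).2, ?_⟩
  · rw [mul_comm D' D, hmul, Nat.cast_ofNat]
  · intro Dbar h
    show (Dbar : LaurentSeries Kbar) *
      coeffMap (Int.castRingHom Kbar) Fermat.Agent.S59.Unit3.H461.v3L = 1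
    rw [hD'e, Fermat.Agent.S36.H438.coeffMap_castE] at h
    exact h

/-- **WILD at `p = 3`** (`2 ∣ M'`, `3 ∤ M'`), pointwise at `(M', A)`. -/
theorem wild3 (h2 : 2 ∣ M') (hpM : ¬ 3 ∣ M')
    (A : ValuationSubring Kbar) (hA : A.LiesOverPrime 3)
    (S : Finset ℕ) (a : ℕ → ℤ) (hNE : NonEisAway 3 a) (x t : JZero (3 * M'))
    (hx : IsNewTors 3 M' x) (hex : EigenAt (3 * M') S a x)
    (ht : IsNewTors 3 M' t) (het : EigenAt (3 * M') S a t)
    (hχ : ∀ σ ∈ A.inertiaSubgroupIn ℚ, ∀ c : ℕ, CycloAt 3 σ c → σ • t = c • t)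
    (hsh : ∀ σ ∈ A.inertiaSubgroupIn ℚ, ∃ n : ℕ, σ • x = x + n • t)
    (hpeu : ∀ σ : GQ, PeuFixes A 3 σ → σ • x = x)
    (σ₀ : GQ) (hσ₀ : σ₀ ∈ A.inertiaSubgroupIn ℚ) (hσ₀1 : CycloAt 3 σ₀ 1) (hσ₀x : σ₀ • x ≠ x) :
    ∃ (f D G : FF (3 * M')) (n a b : ℕ), IsKummerGen (3 * M') 3 f x ∧ IsUnit3 M' D ∧ D ≠ 0 ∧
      ¬ 3 ∣ n ∧ G * D ^ b = f ^ n * D ^ a ∧ NodeGen 3 M' A G :=
  wildU_odd 3 M' Nat.prime_three (by decide) (fun _ => h2) hpM A hA (IsUnit3 M')
    (unitData3 M' h2 A hA) S a hNE x t hx hex ht het hχ hsh hpeu σ₀ hσ₀ hσ₀1 hσ₀x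

end Three

end Fermat.Agent.Ribet.H712.Frame

end

end
-- ===== PACK-END Ribet/H712/Wild3.lean

-- ===== PACK-BEGIN S59/WallP3/Wild3.lean
section



/-!
# S59 moonshot, cell (A), leaf WILD at `p = 3`, READY levels: CLOSED  (wiring, helper944)

`wild3 : Wild3Statement u3`, from helper712's `H712.Frame.wild3` (generic WILD frame for odd `p`
with the UNIT-3 pair of helper461).
-/

set_option autoImplicit false

namespace Fermat.Agent.S59.WallP3

open Fermat.Agent.Ribet.H884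

/-- **WILD at `p = 3`, READY levels: CLOSED.** -/
theorem wild3 : Wild3Statement u3 := by
  intro p M' _ _ _ hp h3 h2 hpM A hA S a hNE x t hx hex ht het hχ hsh hpeu σ₀ hσ₀ hσ₀1 hσ₀x
  subst h3
  obtain ⟨f, D, G, n, a', b, hf, hD, hD0, hn, hG, hNG⟩ :=
    Fermat.Agent.Ribet.H712.Frame.wild3 M' h2 hpM A hA S a hNE x t hx hex ht het hχ hsh hpeu
      σ₀ hσ₀ hσ₀1 hσ₀x
  exact ⟨f, D, G, n, a', b, hf, eq_u3_of_mul_eq_one hD, hD0, hn, hG, hNG⟩

end Fermat.Agent.S59.WallP3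

end
-- ===== PACK-END S59/WallP3/Wild3.lean

-- ===== PACK-BEGIN S38/H546/AsmT.lean
section



/-!
# Ihara avoidance, THE ASSEMBLY for BOTH conditions at `p` (`t = .flat`, `.sord`) and every odd
# `p`   (helper546; S59 endgame, cell (B2); generalisation of helper995's `S38/IA/Asm.lean`)

`S38/IA/Asm.lean` (helper995) proves `iaCore_at` for `sigmaCond … .flat`.  Its proof uses the
condition at `p` only through
* the residual condition (`ρ̄` is of type `Σ` for every `Σ ⊇ Smin`), and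
* the Hecke package `HeckePkg p 𝒪 ρ̄ .flat Smin Σ_Q` inside `HasIAModule`.
This file repeats the proof with a parameter `t : PType`:

* `HasIAModuleT_h546 p 𝒪 ρ̄ t Smin Piv lam d n qv` : `IA.HasIAModule` VERBATIM with `.flat → t`;
* `ia_false_T_at_h546` : for `(p, 𝒪, ρ̄, Smin, Piv)` with `Piv ≠ ∅` a pivot set, `ρ̄` of type `t`,
  the leaf GAL for `t` and the closed local leaves: a family of Hecke modules
  (`∃ d > 0, ∀ n r qv, IsTWSet … → HasIAModuleT_h546 … (ζ - 1) d n qv`) CANNOT exist;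
* `ia_false_T_h546` : the same with ALL closed leaves plugged in (S53, S54, COND, BRIDGE, LOC,
  GAL for `t = .flat` or `.sord`): NO hypothesis besides the Hecke side;
* `hasIAModuleT_flat_iff_h546` : for `t = .flat` it is `IA.HasIAModule`;
* `resCond_flat_h546`, `resCond_sord_h546` : the residual condition from `IsFlatAt` /
  `IsStrictOrdinaryAt`.

So cell (B2) is reduced to the Hecke side at `(t, p)`: produce `HasIAModuleT_h546` from (MIN) in
whatever form of level and modularity the Hecke architect prefers.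

Nothing unproved in this file.
-/

set_option autoImplicit false
set_option linter.unusedSectionVars false
set_option linter.style.haveILetI false
set_option linter.unusedVariables false
set_option maxHeartbeats 1600000

open IsLocalRing

namespace Fermat.Agent.S38.H546

open Fermat.Agent.S38.IA
open Fermat.Agent.S59.Arch Fermat.Agent.S59.TW.H959 Fermat.Agent.S59.Patch.H967
  Fermat.Agent.S38.H901 Fermat.Agent.S53.H113 Fermat.Agent.S53.H596

section Hecke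

variable (p : ℕ)
  (𝒪 : Type) [CommRing 𝒪] [IsDomain 𝒪] [IsDiscreteValuationRing 𝒪]
  [IsAdicComplete (maximalIdeal 𝒪) 𝒪]
  (ρbar : ResidualGaloisRep (ResidueField 𝒪))

/-- **The Hecke side of Ihara avoidance at one Taylor–Wiles set, for the condition `t` at `p`**:
`IA.HasIAModule` verbatim with `.flat` replaced by `t`. -/
def HasIAModuleT_h546 (t : PType) (Smin Piv : Finset ℕ) (lam : 𝒪) (d n : ℕ) {r : ℕ}
    (qv : Fin r → ℕ) : Prop :=
  ∃ (_ : NeZero (wilesLevel p t Smin (Smin ∪ Piv ∪ Finset.univ.image qv)))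
    (PQ : HeckePkg p 𝒪 ρbar t Smin (Smin ∪ Piv ∪ Finset.univ.image qv))
    (MQ : Type) (_ : AddCommGroup MQ) (_ : Module PQ.T MQ)
    (w : Fin r → PQ.T) (b : Fin d → MQ),
    IsGroupRingBasis 𝒪 (p ^ n) w b ∧
    (∀ i, w i - 1 ∈ maximalIdeal PQ.T) ∧
    (∀ t' : PQ.T,
      (∀ (𝒪' : Type) [CommRing 𝒪'] [IsDomain 𝒪'] [IsDiscreteValuationRing 𝒪'] [CharZero 𝒪']
          [Algebra 𝒪 𝒪'] (x : PQ.T →ₐ[𝒪] 𝒪') (hx : IsLocalHom (x : PQ.T →+* 𝒪')),
          (∀ q ∈ Piv,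
            ¬ (PQ.H.ρ.baseChangeAlong (x : PQ.T →+* 𝒪') hx).IsUnipotentOnInertiaAt q) →
          x t' = 0) →
      ∀ m : MQ, t' • m = 0) ∧
    (∀ q ∈ Piv, ∀ P : ValuationSubring (AlgebraicClosure ℚ), P.LiesOverPrime q →
      ∀ φ : AlgebraicClosure ℚ ≃ₐ[ℚ] AlgebraicClosure ℚ, P.IsFrobeniusAt φ q →
        ∀ m : MQ, ∃ m' : MQ,
          (PQ.H.ρ.trace φ ^ 2 - ((1 + q : ℕ) : PQ.T) ^ 2) • m = algebraMap 𝒪 PQ.T lam • m')

/-- For `t = .flat` this is `IA.HasIAModule`. -/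
theorem hasIAModuleT_flat_iff_h546 (Smin Piv : Finset ℕ) (lam : 𝒪) (d n : ℕ) {r : ℕ}
    (qv : Fin r → ℕ) :
    HasIAModuleT_h546 p 𝒪 ρbar .flat Smin Piv lam d n qv ↔
      HasIAModule p 𝒪 ρbar Smin Piv lam d n qv := Iff.rfl

end Hecke

section Level

variable {p : ℕ} [hpF : Fact p.Prime]
  {𝒪 : Type} [CommRing 𝒪] [IsDomain 𝒪] [IsDiscreteValuationRing 𝒪]
  [IsAdicComplete (maximalIdeal 𝒪) 𝒪] [Finite (ResidueField 𝒪)] [CharZero 𝒪]
  {ρbar : ResidualGaloisRep (ResidueField 𝒪)} {Smin Piv : Finset ℕ}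

/-- **One level**: the Hecke module at one Taylor–Wiles set is a level of the engine over
`A = P ⧸ J`. -/
theorem exists_iaLevelT_h546 (t : PType) (h54 : RToTStatement) (hB2 : IABridgeStatement)
    (h : ResidualHyp p 𝒪 ρbar Smin) (hPiv : IsPivotSet p ρbar Smin Piv)
    (lam : 𝒪) {d n r : ℕ} (g : ℕ) (qv : Fin r → ℕ)
    (hQ : IsTWSet p ρbar (Smin ∪ Piv) n qv)
    (hmod : HasIAModuleT_h546 p 𝒪 ρbar t Smin Piv lam d n qv)
    (DQ : GaloisRep.DeformationRingData 𝒪 ρbar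
      (sigmaCond 𝒪 p t Smin (Smin ∪ Piv ∪ Finset.univ.image qv)))
    (bas : Module.Basis (Fin 2) DQ.R DQ.ρ.V)
    (Pv : Piv → ValuationSubring (AlgebraicClosure ℚ))
    (φv : Piv → (AlgebraicClosure ℚ ≃ₐ[ℚ] AlgebraicClosure ℚ))
    (γ : LocAmb 𝒪 Piv g →ₐ[𝒪] DQ.R) (hγ : Function.Surjective γ)
    (hPv : ∀ q : Piv, (Pv q).LiesOverPrime (q : ℕ) ∧ (Pv q).IsFrobeniusAt (φv q) (q : ℕ))
    (hw : ∀ q : Piv, IsTracelessCoords bas (DQ.ρ.ρ (φv q)) (fun j => γ (wVar 𝒪 g q j)))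
    (hdet : ∀ q : Piv, LinearMap.det (DQ.ρ.ρ (φv q)) = ((q : ℕ) : DQ.R))
    (htype : ∀ (𝒪' : Type) [CommRing 𝒪'] [IsDomain 𝒪'] [IsDiscreteValuationRing 𝒪']
        [CharZero 𝒪'] [Algebra 𝒪 𝒪'] (y : DQ.R →ₐ[𝒪] 𝒪')
        (hy : IsLocalHom (y : DQ.R →+* 𝒪')),
        (∀ q ∈ Piv,
          ¬ (DQ.ρ.baseChangeAlong (y : DQ.R →+* 𝒪') hy).IsUnipotentOnInertiaAt q) →
        ∃ δ : Piv → 𝒪, (∀ q : Piv, IsTypeValue p (q : ℕ) (δ q)) ∧
          ∀ a ∈ typeIdeal 𝒪 g δ, y (γ a) = 0)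
    (J : Ideal (LocAmb 𝒪 Piv g)) (hJtop : J ≠ ⊤)
    (hJ : ∀ δ : Piv → 𝒪, (∀ q : Piv, IsTypeValue p (q : ℕ) (δ q)) →
      ∀ (D : Type) [CommRing D] [IsDomain D] [IsLocalRing D] [Algebra 𝒪 D]
        (_hsep : ∀ x : D, (∀ n : ℕ, x ∈ maximalIdeal D ^ n) → x = 0)
        (_hinj : Function.Injective (algebraMap 𝒪 D))
        (y : LocAmb 𝒪 Piv g →ₐ[𝒪] D) (_hy : IsLocalHom (y : LocAmb 𝒪 Piv g →+* D)),
        typeIdeal 𝒪 g δ ≤ RingHom.ker (y : LocAmb 𝒪 Piv g →+* D) →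
          J ≤ RingHom.ker (y : LocAmb 𝒪 Piv g →+* D))
    (q₀ : Piv) [IsLocalRing (LocAmb 𝒪 Piv g ⧸ J)]
    (hA : IsProfiniteAdic (maximalIdeal (LocAmb 𝒪 Piv g ⧸ J))) :
    Nonempty (IALevel.{0, 0, 0} (MvPowerSeries (Fin r) 𝒪) (LocAmb 𝒪 Piv g ⧸ J)
      (twRelIdeal 𝒪 p n r) d (MvPowerSeries.C lam) (algebraMap 𝒪 (LocAmb 𝒪 Piv g ⧸ J) lam)
      (Ideal.Quotient.mk J (hElt 𝒪 g q₀ (q₀ : ℕ)))) := by
  classical
  have hp : p.Prime := hpF.out
  obtain ⟨hNQ, PQ, MQ, instG, instM, w, b, hbasis, hwm, hsupp, hst⟩ := hmod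
  haveI := hNQ
  -- the primes of `Σ_Q`
  have hSigP : ∀ q ∈ Smin ∪ Piv ∪ Finset.univ.image qv, q.Prime := by
    intro q hq
    rcases Finset.mem_union.mp hq with hq | hq
    · rcases Finset.mem_union.mp hq with hq | hq
      · exact h.hSmin q hq
      · exact (hPiv q hq).1
    · obtain ⟨i, -, rfl⟩ := Finset.mem_image.mp hq
      exact (hQ.2.1 i).1
  have hsub : Smin ⊆ Smin ∪ Piv ∪ Finset.univ.image qv :=
    Finset.subset_union_left.trans Finset.subset_union_left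
  -- `R_Q ↠ T_Q`
  obtain ⟨φQ, hφQs, hφQloc, hφQ⟩ := h54 DQ PQ.H
    (fun q hq hdvd => _root_.Fermat.Agent.S59.Arch.mem_of_prime_dvd_wilesLevel hp h.hSmin hSigP h.hpSmin hsub q hq hdvd)
    PQ.hcond PQ.hres
  let ψ : LocAmb 𝒪 Piv g →ₐ[𝒪] PQ.T := φQ.comp γ
  have hψs : Function.Surjective ψ := hφQs.comp hγ
  have hγloc : IsLocalHom (γ : LocAmb 𝒪 Piv g →+* DQ.R) := IsLocalHom.of_surjective _ hγ
  -- `J` kills `M_Q`
  have hkill : ∀ j ∈ J, ∀ m : MQ, ψ j • m = 0 := by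
    intro j hj
    refine hsupp (ψ j) ?_
    intro 𝒪' _ _ _ _ _ x hx hnu
    let y : DQ.R →ₐ[𝒪] 𝒪' := x.comp φQ
    have hy : IsLocalHom (y : DQ.R →+* 𝒪') := by
      haveI := hx
      haveI := hφQloc
      exact RingHom.isLocalHom_comp (x : PQ.T →+* 𝒪') (φQ : DQ.R →+* PQ.T)
    have hnu' : ∀ q ∈ Piv,
        ¬ (DQ.ρ.baseChangeAlong (y : DQ.R →+* 𝒪') hy).IsUnipotentOnInertiaAt q :=
      fun q hq => not_unip_of_comp (φQ : DQ.R →+* PQ.T) hφQloc DQ.ρ PQ.H.ρ hφQ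
        (x : PQ.T →+* 𝒪') hx (y : DQ.R →+* 𝒪') hy rfl (hnu q hq)
    obtain ⟨δ, hδ, hδker⟩ := htype 𝒪' y hy hnu'
    have hsep : ∀ z : 𝒪', (∀ n : ℕ, z ∈ maximalIdeal 𝒪' ^ n) → z = 0 := by
      intro z hz
      have h1 : z ∈ (⨅ n : ℕ, maximalIdeal 𝒪' ^ n : Ideal 𝒪') := by
        rw [Ideal.mem_iInf]
        exact hz
      rw [Ideal.iInf_pow_eq_bot_of_isLocalRing _ (maximalIdeal.isMaximal 𝒪').ne_top] at h1
      exact h1
    have hinj : Function.Injective (algebraMap 𝒪 𝒪') :=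
      algebraMap_injective_of_charZero p hp 𝒪 h.hp𝒪 𝒪'
    have hyγ : IsLocalHom ((y.comp γ : LocAmb 𝒪 Piv g →ₐ[𝒪] 𝒪') : LocAmb 𝒪 Piv g →+* 𝒪') := by
      haveI := hy
      haveI := hγloc
      exact RingHom.isLocalHom_comp (y : DQ.R →+* 𝒪') (γ : LocAmb 𝒪 Piv g →+* DQ.R)
    have h1 := hJ δ hδ 𝒪' hsep hinj (y.comp γ) hyγ (fun a ha => hδker a ha)
    exact h1 hj
  -- the module structures
  letI instP : Module (LocAmb 𝒪 Piv g) MQ :=
    Module.compHom MQ (ψ : LocAmb 𝒪 Piv g →+* PQ.T)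
  have hPsmul : ∀ (a : LocAmb 𝒪 Piv g) (m : MQ), a • m = ψ a • m := fun a m => rfl
  have htors : Module.IsTorsionBySet (LocAmb 𝒪 Piv g) MQ (J : Set (LocAmb 𝒪 Piv g)) := by
    intro m a
    rw [hPsmul]
    exact hkill a.1 a.2 m
  letI instA : Module (LocAmb 𝒪 Piv g ⧸ J) MQ := Module.IsTorsionBySet.module htors
  have hAsmul : ∀ (a : LocAmb 𝒪 Piv g) (m : MQ), (Ideal.Quotient.mk J a) • m = ψ a • m :=
    fun a m => rfl
  have h𝒪 : ∀ c : 𝒪, SameAct (M := MQ) (algebraMap 𝒪 (LocAmb 𝒪 Piv g ⧸ J) c)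
      (algebraMap 𝒪 PQ.T c) := by
    intro c m
    have h1 : algebraMap 𝒪 (LocAmb 𝒪 Piv g ⧸ J) c =
        Ideal.Quotient.mk J (algebraMap 𝒪 (LocAmb 𝒪 Piv g) c) := rfl
    rw [h1, hAsmul, AlgHom.commutes]
  -- lifts of the `w_i`
  have hmkloc : IsLocalHom (Ideal.Quotient.mk J) := isLocalHom_quotient_mk J hJtop
  have hψloc : IsLocalHom (ψ : LocAmb 𝒪 Piv g →+* PQ.T) := IsLocalHom.of_surjective _ hψs
  have hω : ∀ i, ∃ ω : LocAmb 𝒪 Piv g ⧸ J, SameAct (M := MQ) ω (w i) ∧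
      ω - 1 ∈ maximalIdeal (LocAmb 𝒪 Piv g ⧸ J) := by
    intro i
    obtain ⟨a, ha⟩ := hψs (w i)
    refine ⟨Ideal.Quotient.mk J a, fun m => ?_, ?_⟩
    · rw [hAsmul, ha]
    · have h1 : a - 1 ∈ maximalIdeal (LocAmb 𝒪 Piv g) := by
        rw [mem_maximalIdeal, mem_nonunits_iff]
        intro hu
        have h2 : IsUnit (ψ (a - 1)) := hu.map ψ
        rw [map_sub, map_one, ha] at h2
        exact (hwm i) h2
      have h3 : Ideal.Quotient.mk J a - 1 = Ideal.Quotient.mk J (a - 1) := by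
        rw [map_sub, map_one]
      rw [h3, mem_maximalIdeal, mem_nonunits_iff]
      intro hu
      exact h1 (hmkloc.map_nonunit _ hu)
  choose ω hωact hωm using hω
  have hbA : IsGroupRingBasis 𝒪 (p ^ n) ω b :=
    isGroupRingBasis_transport (T₁ := PQ.T) (T₂ := LocAmb 𝒪 Piv g ⧸ J) w ω b h𝒪 hωact hbasis
  -- the Steinberg element
  have hs : ∀ m : MQ, ∃ m' : MQ,
      (AlgHom.id 𝒪 (LocAmb 𝒪 Piv g ⧸ J)) (Ideal.Quotient.mk J (hElt 𝒪 g q₀ (q₀ : ℕ))) • m =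
        algebraMap 𝒪 (LocAmb 𝒪 Piv g ⧸ J) lam • m' := by
    intro m
    obtain ⟨hP1, hP2⟩ := hPv q₀
    obtain ⟨m', hm'⟩ := hst (q₀ : ℕ) q₀.2 (Pv q₀) hP1 (φv q₀) hP2 m
    refine ⟨m', ?_⟩
    rw [h𝒪 lam m', ← hm']
    show Ideal.Quotient.mk J (hElt 𝒪 g q₀ (q₀ : ℕ)) • m = _
    rw [hAsmul]
    congr 1
    -- `ψ (hElt) = tr² - (1+q)²`
    have h1 := trace_sq_sub_eq_of_tracelessCoords bas (DQ.ρ.ρ (φv q₀))
      (fun j => γ (wVar 𝒪 g q₀ j)) (hw q₀) ((q₀ : ℕ) : DQ.R) (hdet q₀)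
    have h2 : γ (hElt 𝒪 g q₀ (q₀ : ℕ)) =
        DQ.ρ.trace (φv q₀) ^ 2 - (1 + ((q₀ : ℕ) : DQ.R)) ^ 2 := by
      show _ = LinearMap.trace DQ.R DQ.ρ.V (DQ.ρ.ρ (φv q₀)) ^ 2 - _
      rw [h1, hElt, qW, map_sub, map_mul, map_add, map_pow, map_mul]
      have h3 : γ (4 : LocAmb 𝒪 Piv g) = 4 := map_ofNat γ 4
      have h4 : γ (MvPowerSeries.C ((((q₀ : ℕ) : 𝒪) - 1) ^ 2)) =
          (((q₀ : ℕ) : DQ.R) - 1) ^ 2 := by
        have : (MvPowerSeries.C ((((q₀ : ℕ) : 𝒪) - 1) ^ 2) : LocAmb 𝒪 Piv g) =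
            algebraMap 𝒪 (LocAmb 𝒪 Piv g) ((((q₀ : ℕ) : 𝒪) - 1) ^ 2) := rfl
        rw [this, AlgHom.commutes, map_pow, map_sub, map_one, map_natCast]
      rw [h3, h4]
    show φQ (γ (hElt 𝒪 g q₀ (q₀ : ℕ))) = _
    rw [h2, map_sub, map_pow, map_pow, map_add, map_one, map_natCast,
      trace_map_eq (φQ : DQ.R →+* PQ.T) hφQloc DQ.ρ PQ.H.ρ hφQ (φv q₀)]
    push_cast
    ring
  exact hB2 p 𝒪 h.hp𝒪 (LocAmb 𝒪 Piv g ⧸ J) hA (LocAmb 𝒪 Piv g ⧸ J)
    (AlgHom.id 𝒪 (LocAmb 𝒪 Piv g ⧸ J)) MQ n r d ω b hbA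
    (fun i => ⟨ω i, rfl, hωm i⟩) lam (Ideal.Quotient.mk J (hElt 𝒪 g q₀ (q₀ : ℕ))) hs

end Level

/-- **THE ASSEMBLY of Ihara avoidance for the condition `t` at `p`, at one
`(p, 𝒪, ρ̄, Smin, Piv)`**: the Hecke side of Ihara avoidance (modules `M_Q` of positive rank `d`
at every Taylor–Wiles set) CANNOT exist.  (So: whatever hypothesis (MIN) produces the Hecke side
is false.) -/
theorem ia_false_T_at_h546 (t : PType) (h53 : DefRingExistsStatement)
    (hcond : SigmaCondStatement)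
    (h54 : RToTStatement) (hB1 : IABridgeIdealStatement) (hB2 : IABridgeStatement)
    (hB3 : IABridgeBaseStatement) (hComp : IALocCompStatement) (hDim : IALocDimStatement)
    (hGal : IAGalTStatement_h546 t)
    (p : ℕ) [hpF : Fact p.Prime]
    (𝒪 : Type) [CommRing 𝒪] [IsDomain 𝒪] [IsDiscreteValuationRing 𝒪]
    [IsAdicComplete (maximalIdeal 𝒪) 𝒪] [Finite (ResidueField 𝒪)] [CharZero 𝒪]
    (ρbar : ResidualGaloisRep (ResidueField 𝒪)) (Smin : Finset ℕ)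
    (h : ResidualHyp p 𝒪 ρbar Smin)
    (hbarT : ∀ Sig : Finset ℕ, Smin ⊆ Sig →
      sigmaCond 𝒪 p t Smin Sig (GaloisRepAdic.ofResidualGaloisRep ρbar))
    (Piv : Finset ℕ) (hPiv : IsPivotSet p ρbar Smin Piv) (hne : Piv.Nonempty)
    (hroots : ∀ q ∈ Piv, ∀ m : ℕ, p ^ m ∣ q - 1 → ∃ ζ : 𝒪, IsPrimitiveRoot ζ (p ^ m))
    (hHeckeAt : ∀ ζ : 𝒪, IsPrimitiveRoot ζ p →
      ∃ d : ℕ, 0 < d ∧ ∀ (n r : ℕ) (qv : Fin r → ℕ), IsTWSet p ρbar (Smin ∪ Piv) n qv →
        HasIAModuleT_h546 p 𝒪 ρbar t Smin Piv (ζ - 1) d n qv) :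
    False := by
  classical
  have hp : p.Prime := hpF.out
  obtain ⟨q₀n, hq₀⟩ := hne
  let q₀ : Piv := ⟨q₀n, hq₀⟩
  have hPivLoc : ∀ q ∈ Piv, q.Prime ∧ p ∣ q - 1 :=
    fun q hq => ⟨(hPiv q hq).1, (hPiv q hq).2.2.1⟩
  -- the root of unity
  obtain ⟨ζ, hζ⟩ := hroots q₀n hq₀ 1 (by rw [pow_one]; exact (hPivLoc q₀n hq₀).2)
  rw [pow_one] at hζ
  have hlam0 : ζ - 1 ≠ 0 := sub_ne_zero.mpr (hζ.ne_one hp.one_lt)
  have hlamm : ζ - 1 ∈ maximalIdeal 𝒪 :=
    sub_one_mem_of_pow_eq_one_h995 p hp 𝒪 h.hp𝒪 ζ 1 (by rw [pow_one]; exact hζ.pow_eq_one)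
  have h2u : IsUnit (2 : 𝒪) := isUnit_two_h995 p hp h.hp2 𝒪 h.hp𝒪
  -- the two sides
  obtain ⟨d, hd, hH⟩ := hHeckeAt ζ hζ
  obtain ⟨r, hr, hG⟩ := hGal p 𝒪 ρbar Smin h Piv hPiv hroots
  -- the type vectors
  haveI hιfin : Finite {δ : Piv → 𝒪 // ∀ q : Piv, IsTypeValue p (q : ℕ) (δ q)} :=
    finite_typeVectors p Piv (fun q hq => (hPivLoc q hq).1.one_lt) h2u.ne_zero
  obtain ⟨δ₀, hδ₀⟩ := exists_typeValue p hp ζ hζ h2u
  have hιne : Nonempty {δ : Piv → 𝒪 // ∀ q : Piv, IsTypeValue p (q : ℕ) (δ q)} :=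
    ⟨⟨fun _ => δ₀, fun q => hδ₀ (q : ℕ) (hPivLoc q q.2).2⟩⟩
  -- the components
  have hC := fun i : {δ : Piv → 𝒪 // ∀ q : Piv, IsTypeValue p (q : ℕ) (δ q)} =>
    hComp p h.hp2 𝒪 h.hp𝒪 Piv hPivLoc (r - 3 * Piv.card) i.1 i.2
  choose 𝔓 h𝔓prime h𝔓le h𝔓fac using hC
  let J : Ideal (LocAmb 𝒪 Piv (r - 3 * Piv.card)) := ⨅ i, 𝔓 i
  have hJle : ∀ i, J ≤ 𝔓 i := fun i => iInf_le _ i
  have hJtop : J ≠ ⊤ := by
    intro hJ
    obtain ⟨i⟩ := hιne
    exact (h𝔓prime i).ne_top (top_le_iff.mp (hJ ▸ hJle i))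
  haveI : IsLocalRing (LocAmb 𝒪 Piv (r - 3 * Piv.card) ⧸ J) := isLocalRing_quotient J hJtop
  have hA : IsProfiniteAdic (maximalIdeal (LocAmb 𝒪 Piv (r - 3 * Piv.card) ⧸ J)) :=
    isProfiniteAdic_mvPowerSeries_quotient J
  -- the base ring `S`
  obtain ⟨hS, hSdim⟩ := hB3 𝒪 r
  have hfin : ringKrullDim (MvPowerSeries (Fin r) 𝒪) < ⊤ := by
    rw [hSdim]
    have h1 : (((r + 1 : ℕ)) : WithBot ℕ∞) = (((r + 1 : ℕ) : ℕ∞) : WithBot ℕ∞) := rfl
    rw [h1]
    exact WithBot.coe_lt_coe.2 (ENat.natCast_lt_top (r + 1))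
  haveI : IsDomain (MvPowerSeries (Fin r) 𝒪) := NoZeroDivisors.to_isDomain _
  have hClam : (MvPowerSeries.C (ζ - 1) : MvPowerSeries (Fin r) 𝒪) ≠ 0 := by
    intro h0
    apply hlam0
    have := congrArg (MvPowerSeries.constantCoeff (σ := Fin r) (R := 𝒪)) h0
    simpa using this
  -- the levels
  have hL : ∀ n : ℕ, Nonempty (IALevel.{0, 0, 0} (MvPowerSeries (Fin r) 𝒪)
      (LocAmb 𝒪 Piv (r - 3 * Piv.card) ⧸ J) (twRelIdeal 𝒪 p n r) d (MvPowerSeries.C (ζ - 1))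
      (algebraMap 𝒪 (LocAmb 𝒪 Piv (r - 3 * Piv.card) ⧸ J) (ζ - 1))
      (Ideal.Quotient.mk J (hElt 𝒪 (r - 3 * Piv.card) q₀ (q₀ : ℕ)))) := by
    intro n
    obtain ⟨qv, hQ, hDQ⟩ := hG n
    have hc := hcond p h.hp2 𝒪 h.hp𝒪 t Smin (Smin ∪ Piv ∪ Finset.univ.image qv)
    have hsub : Smin ⊆ Smin ∪ Piv ∪ Finset.univ.image qv :=
      Finset.subset_union_left.trans Finset.subset_union_left
    have hbar : sigmaCond 𝒪 p t Smin (Smin ∪ Piv ∪ Finset.univ.image qv)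
        (GaloisRepAdic.ofResidualGaloisRep ρbar) := hbarT _ hsub
    obtain ⟨DQ⟩ := h53 𝒪 ρbar (sigmaCond 𝒪 p t Smin (Smin ∪ Piv ∪ Finset.univ.image qv))
      h.habs hc.1 hbar (hc.2 ρbar)
    obtain ⟨bas, Pv, φv, σv, γ, hγ, hPv, hv, hw, hdet, htype⟩ := hDQ DQ
    refine exists_iaLevelT_h546 t h54 hB2 h hPiv (ζ - 1) (r - 3 * Piv.card) qv hQ (hH n r qv hQ) DQ bas
      Pv φv γ hγ (fun q => ⟨(hPv q).1, (hPv q).2.1⟩) hw hdet htype J hJtop ?_ q₀ hA
    intro δ hδ D _ _ _ _ hsep hinj y hy hker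
    exact (hJle ⟨δ, hδ⟩).trans (h𝔓fac ⟨δ, hδ⟩ D hsep hinj y hy hker)
  -- the components of `A`
  let 𝔓A : {δ : Piv → 𝒪 // ∀ q : Piv, IsTypeValue p (q : ℕ) (δ q)} →
      Ideal (LocAmb 𝒪 Piv (r - 3 * Piv.card) ⧸ J) := fun i => (𝔓 i).map (Ideal.Quotient.mk J)
  have h𝔓A : ∀ i, (𝔓A i).IsPrime := fun i => isPrime_map_mk_of_le J (𝔓 i) (h𝔓prime i) (hJle i)
  have hcov : ∀ Q : Ideal (LocAmb 𝒪 Piv (r - 3 * Piv.card) ⧸ J), Q.IsPrime →
      algebraMap 𝒪 (LocAmb 𝒪 Piv (r - 3 * Piv.card) ⧸ J) (ζ - 1) ∉ Q → ∃ i, 𝔓A i ≤ Q := by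
    intro Q hQ _
    have h1 : (⨅ i, 𝔓 i) ≤ Q.comap (Ideal.Quotient.mk J) := by
      intro a ha
      rw [Ideal.mem_comap, Ideal.Quotient.eq_zero_iff_mem.mpr ha]
      exact Q.zero_mem
    obtain ⟨i, hi⟩ := exists_le_of_iInf_le 𝔓 (Ideal.comap_isPrime _ Q) h1
    exact ⟨i, Ideal.map_le_iff_le_comap.mpr hi⟩
  have hdim : ∀ i, ringKrullDim ((LocAmb 𝒪 Piv (r - 3 * Piv.card) ⧸ J) ⧸ 𝔓A i) ≤
      ringKrullDim (MvPowerSeries (Fin r) 𝒪) := by
    intro i
    refine (ringKrullDim_quotient_map_le J (typeIdeal 𝒪 (r - 3 * Piv.card) i.1) (𝔓 i)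
      (h𝔓le i)).trans ?_
    refine (hDim p h.hp2 𝒪 h.hp𝒪 Piv hPivLoc (r - 3 * Piv.card) i.1 i.2).trans ?_
    rw [hSdim]
    have : 1 + 3 * Piv.card + (r - 3 * Piv.card) = r + 1 := by omega
    rw [this]
  -- the points
  have hpt : ∀ i, ∃ (V : Type) (_ : CommRing V) (_ : IsDomain V) (_ : ValuationRing V)
      (x : (LocAmb 𝒪 Piv (r - 3 * Piv.card) ⧸ J) →+* V), 𝔓A i ≤ RingHom.ker x ∧
        ¬ x (algebraMap 𝒪 (LocAmb 𝒪 Piv (r - 3 * Piv.card) ⧸ J) (ζ - 1)) ∣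
          x (Ideal.Quotient.mk J (hElt 𝒪 (r - 3 * Piv.card) q₀ (q₀ : ℕ))) := by
    intro i
    obtain ⟨V, iV1, iV2, iV3, x, hx1, hx2⟩ := exists_point_of_factor p h.hp2 𝒪 h.hp𝒪 Piv hPivLoc
      (r - 3 * Piv.card) i.1
      (fun q => typeValue_mem_h995 p hp h.hp2 𝒪 h.hp𝒪 (q : ℕ) (i.1 q) (i.2 q)) q₀ (ζ - 1) hlamm
      (𝔓 i) (h𝔓fac i)
    have hJx : ∀ a ∈ J, x a = 0 := fun a ha => hx1 (hJle i ha)
    refine ⟨V, iV1, iV2, iV3, Ideal.Quotient.lift J x hJx, ?_, ?_⟩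
    · rw [Ideal.map_le_iff_le_comap]
      intro a ha
      rw [Ideal.mem_comap, RingHom.mem_ker, Ideal.Quotient.lift_mk]
      exact hx1 ha
    · have h1 : algebraMap 𝒪 (LocAmb 𝒪 Piv (r - 3 * Piv.card) ⧸ J) (ζ - 1) =
          Ideal.Quotient.mk J (MvPowerSeries.C (ζ - 1)) := rfl
      rw [h1, Ideal.Quotient.lift_mk, Ideal.Quotient.lift_mk]
      exact hx2
  exact ia_multi_false_of_ialevels hS hA hfin hd (MvPowerSeries.C (ζ - 1)) hClam
    (algebraMap 𝒪 (LocAmb 𝒪 Piv (r - 3 * Piv.card) ⧸ J) (ζ - 1))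
    (Ideal.Quotient.mk J (hElt 𝒪 (r - 3 * Piv.card) q₀ (q₀ : ℕ))) 𝔓A h𝔓A hcov hdim
    (fun n => twRelIdeal 𝒪 p n r) (fun n => hB1 p 𝒪 h.hp𝒪 n r)
    (fun n => Classical.choice (hL n)) hpt


section ResCond

variable {p : ℕ} [hpF : Fact p.Prime]
  {𝒪 : Type} [CommRing 𝒪] [IsDomain 𝒪] [IsDiscreteValuationRing 𝒪]
  [IsAdicComplete (maximalIdeal 𝒪) 𝒪]
  {ρbar : ResidualGaloisRep (ResidueField 𝒪)} {Smin : Finset ℕ}

/-- Under `ResidualHyp`, `ρ̄` is unramified outside every `Σ ⊇ Smin`. -/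
theorem res_unram_h546 (h : ResidualHyp p 𝒪 ρbar Smin) (Sig : Finset ℕ) (hsub : Smin ⊆ Sig)
    (q : ℕ) (hq : q.Prime) (hqS : q ∉ Sig) :
    (GaloisRepAdic.ofResidualGaloisRep ρbar).IsUnramifiedAt q := by
  have hqp : q ≠ p := fun e => hqS (hsub (e ▸ h.hpSmin))
  have hqSmin : q ∉ Smin := fun hh => hqS (hsub hh)
  have h1 : ρbar.IsUnramifiedAt q := by
    by_contra hn
    exact hqSmin ((h.hmin q hq hqp).mpr hn)
  exact h1

/-- The residual condition for `t = .flat`, from flatness of `ρ̄` at `p`. -/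
theorem resCond_flat_h546 (h : ResidualHyp p 𝒪 ρbar Smin)
    (hflat : (GaloisRepAdic.ofResidualGaloisRep ρbar).IsFlatAt p) :
    ∀ Sig : Finset ℕ, Smin ⊆ Sig →
      sigmaCond 𝒪 p .flat Smin Sig (GaloisRepAdic.ofResidualGaloisRep ρbar) :=
  fun Sig hsub => ⟨⟨h.hdet, hflat, res_unram_h546 h Sig hsub⟩, h.hunip⟩

/-- The residual condition for `t = .sord`, from strict ordinarity of `ρ̄` at `p`. -/
theorem resCond_sord_h546 (h : ResidualHyp p 𝒪 ρbar Smin)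
    (hsord : (GaloisRepAdic.ofResidualGaloisRep ρbar).IsStrictOrdinaryAt p) :
    ∀ Sig : Finset ℕ, Smin ⊆ Sig →
      sigmaCond 𝒪 p .sord Smin Sig (GaloisRepAdic.ofResidualGaloisRep ρbar) :=
  fun Sig hsub => ⟨⟨h.hdet, hsord, res_unram_h546 h Sig hsub⟩, h.hunip⟩

end ResCond

/-- **THE ASSEMBLY for the condition `t` with all closed leaves plugged in**
(`t = .flat` or `t = .sord`, every odd `p`): the Hecke side of Ihara avoidance cannot exist. -/
theorem ia_false_T_h546 (t : PType) (ht : t = .flat ∨ t = .sord)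
    (p : ℕ) [hpF : Fact p.Prime]
    (𝒪 : Type) [CommRing 𝒪] [IsDomain 𝒪] [IsDiscreteValuationRing 𝒪]
    [IsAdicComplete (maximalIdeal 𝒪) 𝒪] [Finite (ResidueField 𝒪)] [CharZero 𝒪]
    (ρbar : ResidualGaloisRep (ResidueField 𝒪)) (Smin : Finset ℕ)
    (h : ResidualHyp p 𝒪 ρbar Smin)
    (hbarT : ∀ Sig : Finset ℕ, Smin ⊆ Sig →
      sigmaCond 𝒪 p t Smin Sig (GaloisRepAdic.ofResidualGaloisRep ρbar))
    (Piv : Finset ℕ) (hPiv : IsPivotSet p ρbar Smin Piv) (hne : Piv.Nonempty)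
    (hroots : ∀ q ∈ Piv, ∀ m : ℕ, p ^ m ∣ q - 1 → ∃ ζ : 𝒪, IsPrimitiveRoot ζ (p ^ m))
    (hHeckeAt : ∀ ζ : 𝒪, IsPrimitiveRoot ζ p →
      ∃ d : ℕ, 0 < d ∧ ∀ (n r : ℕ) (qv : Fin r → ℕ), IsTWSet p ρbar (Smin ∪ Piv) n qv →
        HasIAModuleT_h546 p 𝒪 ρbar t Smin Piv (ζ - 1) d n qv) :
    False :=
  ia_false_T_at_h546 t defRingExists_h995 Fermat.Agent.S59.H659.sigmaCondStatement rToT_h995
    H607.iaBridgeIdeal H607.iaBridge H607.iaBridgeBase Fermat.Agent.Ribet.H678.iaLocComp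
    Fermat.Agent.S38.H506.iaLocDim (iaGalT_h546 t ht) p 𝒪 ρbar Smin h hbarT Piv hPiv hne hroots
    hHeckeAt

end Fermat.Agent.S38.H546

end
-- ===== PACK-END S38/H546/AsmT.lean

-- ===== PACK-BEGIN S38/H546/CoreT.lean
section



/-!
# Ihara avoidance for the condition `t` at `p`: the CORE from the Hecke side
# (helper546; S59 endgame, cell (B2) = LO-IA)

With `S38/H546/AsmT.lean` (`ia_false_T_h546`: every closed leaf plugged in) the IA-core for
`t = .flat` / `.sord` and every odd `p` is reduced to the Hecke side: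

* `ribetLevelT_h546 p t Smin Piv` : the minimal level (`ribetLevel`, times `p` unless `t = .flat`;
  the convention announced by helper3 for HECKE-T);
* `IAHeckeTStatement_h546` : the Hecke side for `(t, p)` — `IA.IAHeckeStatement` with `.flat → t`,
  the hypothesis `_ht` of `TW.PkgStatement` instead of flatness, levels `ribetLevelT_h546`;
  `IAHeckeT35Statement_h546` : the same for `p ∈ {3, 5}` only;
* `IACoreTStatement_h546` : level lowering at a pivot for `(t, p)`;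
* `iaCoreT_of_heckeT_h546 : IAHeckeTStatement_h546 → IACoreTStatement_h546`;
* `iaCoreFlat35_of_heckeT35_h546`, `iaCoreSord35_of_heckeT35_h546` : the two inputs
  `IACoreFlat35Statement`, `IACoreSord35Statement` of helper405's W-TOP (`S59/LO/H405`)
  from the Hecke side at `p ∈ {3, 5}`.

Nothing unproved in this file.
-/

set_option autoImplicit false

open IsLocalRing

namespace Fermat.Agent.S38.H546

open Fermat.Agent.S38.IA
open Fermat.Agent.S59.Arch (ResidualHyp sigmaCond PType ResModular)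
open Fermat.Agent.S59.TW.H959 (IsTWSet)

/-- **The minimal level for the condition `t`**: `ribetLevel p Smin Piv`, times `p` unless
`t = .flat`. -/
noncomputable def ribetLevelT_h546 (p : ℕ) (t : PType) (Smin Piv : Finset ℕ) : ℕ :=
  match t with
  | .flat => ribetLevel p Smin Piv
  | .sord => ribetLevel p Smin Piv * p
  | .ord => ribetLevel p Smin Piv * p

theorem ribetLevelT_flat_h546 (p : ℕ) (Smin Piv : Finset ℕ) :
    ribetLevelT_h546 p .flat Smin Piv = ribetLevel p Smin Piv := rfl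

theorem ribetLevelT_sord_h546 (p : ℕ) (Smin Piv : Finset ℕ) :
    ribetLevelT_h546 p .sord Smin Piv = ribetLevel p Smin Piv * p := rfl

/-- **The Hecke side of Ihara avoidance for `(t, p)`**, `p` odd (through `ResidualHyp`). -/
def IAHeckeTStatement_h546 : Prop :=
  ∀ (p : ℕ) [Fact p.Prime]
    (𝒪 : Type) [CommRing 𝒪] [IsDomain 𝒪] [IsDiscreteValuationRing 𝒪]
    [IsAdicComplete (maximalIdeal 𝒪) 𝒪] [Finite (ResidueField 𝒪)] [CharZero 𝒪]
    (ρbar : ResidualGaloisRep (ResidueField 𝒪)) (Smin : Finset ℕ)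
    (_h : ResidualHyp p 𝒪 ρbar Smin) (t : PType)
    (_ht : (t = .flat ∧ (GaloisRepAdic.ofResidualGaloisRep ρbar).IsFlatAt p) ∨
      (t = .sord ∧ (GaloisRepAdic.ofResidualGaloisRep ρbar).IsStrictOrdinaryAt p ∧
        ¬ (GaloisRepAdic.ofResidualGaloisRep ρbar).IsFlatAt p))
    (ζ : 𝒪) (_hζ : IsPrimitiveRoot ζ p)
    (Piv : Finset ℕ) (_hPiv : IsPivotSet p ρbar Smin Piv)
    (_hmod : ResModular 𝒪 ρbar (ribetLevelT_h546 p t Smin Piv) (Smin ∪ Piv))
    (_hmin : ∀ q ∈ Piv, ∀ S : Finset ℕ,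
      ¬ ResModular 𝒪 ρbar (ribetLevelT_h546 p t Smin (Piv.erase q)) S),
    ∃ d : ℕ, 0 < d ∧ ∀ (n r : ℕ) (qv : Fin r → ℕ), IsTWSet p ρbar (Smin ∪ Piv) n qv →
      HasIAModuleT_h546 p 𝒪 ρbar t Smin Piv (ζ - 1) d n qv

/-- The Hecke side for `p ∈ {3, 5}` only. -/
def IAHeckeT35Statement_h546 : Prop :=
  ∀ (p : ℕ) [Fact p.Prime] (_hp : p = 3 ∨ p = 5)
    (𝒪 : Type) [CommRing 𝒪] [IsDomain 𝒪] [IsDiscreteValuationRing 𝒪]
    [IsAdicComplete (maximalIdeal 𝒪) 𝒪] [Finite (ResidueField 𝒪)] [CharZero 𝒪]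
    (ρbar : ResidualGaloisRep (ResidueField 𝒪)) (Smin : Finset ℕ)
    (_h : ResidualHyp p 𝒪 ρbar Smin) (t : PType)
    (_ht : (t = .flat ∧ (GaloisRepAdic.ofResidualGaloisRep ρbar).IsFlatAt p) ∨
      (t = .sord ∧ (GaloisRepAdic.ofResidualGaloisRep ρbar).IsStrictOrdinaryAt p ∧
        ¬ (GaloisRepAdic.ofResidualGaloisRep ρbar).IsFlatAt p))
    (ζ : 𝒪) (_hζ : IsPrimitiveRoot ζ p)
    (Piv : Finset ℕ) (_hPiv : IsPivotSet p ρbar Smin Piv)
    (_hmod : ResModular 𝒪 ρbar (ribetLevelT_h546 p t Smin Piv) (Smin ∪ Piv))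
    (_hmin : ∀ q ∈ Piv, ∀ S : Finset ℕ,
      ¬ ResModular 𝒪 ρbar (ribetLevelT_h546 p t Smin (Piv.erase q)) S),
    ∃ d : ℕ, 0 < d ∧ ∀ (n r : ℕ) (qv : Fin r → ℕ), IsTWSet p ρbar (Smin ∪ Piv) n qv →
      HasIAModuleT_h546 p 𝒪 ρbar t Smin Piv (ζ - 1) d n qv

theorem iaHeckeT35_of_heckeT_h546 (h : IAHeckeTStatement_h546) : IAHeckeT35Statement_h546 :=
  fun p _ _ 𝒪 _ _ _ _ _ _ ρbar Smin hh t ht ζ hζ Piv hPiv hmod hmin =>
    h p 𝒪 ρbar Smin hh t ht ζ hζ Piv hPiv hmod hmin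

/-- **IA-CORE for `(t, p)`**: level lowering at a pivot. -/
def IACoreTStatement_h546 : Prop :=
  ∀ (p : ℕ) [Fact p.Prime]
    (𝒪 : Type) [CommRing 𝒪] [IsDomain 𝒪] [IsDiscreteValuationRing 𝒪]
    [IsAdicComplete (maximalIdeal 𝒪) 𝒪] [Finite (ResidueField 𝒪)] [CharZero 𝒪]
    (ρbar : ResidualGaloisRep (ResidueField 𝒪)) (Smin : Finset ℕ)
    (_h : ResidualHyp p 𝒪 ρbar Smin) (t : PType)
    (_ht : (t = .flat ∧ (GaloisRepAdic.ofResidualGaloisRep ρbar).IsFlatAt p) ∨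
      (t = .sord ∧ (GaloisRepAdic.ofResidualGaloisRep ρbar).IsStrictOrdinaryAt p ∧
        ¬ (GaloisRepAdic.ofResidualGaloisRep ρbar).IsFlatAt p))
    (Piv : Finset ℕ) (_hPiv : IsPivotSet p ρbar Smin Piv) (_hne : Piv.Nonempty)
    (_hroots : ∀ q ∈ Piv, ∀ m : ℕ, p ^ m ∣ q - 1 → ∃ ζ : 𝒪, IsPrimitiveRoot ζ (p ^ m))
    (_hmod : ResModular 𝒪 ρbar (ribetLevelT_h546 p t Smin Piv) (Smin ∪ Piv)),
    ∃ q ∈ Piv, ∃ S : Finset ℕ, ResModular 𝒪 ρbar (ribetLevelT_h546 p t Smin (Piv.erase q)) S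

section Core

variable {p : ℕ} [Fact p.Prime]
  {𝒪 : Type} [CommRing 𝒪] [IsDomain 𝒪] [IsDiscreteValuationRing 𝒪]
  [IsAdicComplete (maximalIdeal 𝒪) 𝒪] [Finite (ResidueField 𝒪)] [CharZero 𝒪]
  {ρbar : ResidualGaloisRep (ResidueField 𝒪)} {Smin : Finset ℕ}

/-- The residual condition from the hypothesis `_ht`. -/
theorem resCond_of_ht_h546 (h : ResidualHyp p 𝒪 ρbar Smin) {t : PType}
    (ht : (t = .flat ∧ (GaloisRepAdic.ofResidualGaloisRep ρbar).IsFlatAt p) ∨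
      (t = .sord ∧ (GaloisRepAdic.ofResidualGaloisRep ρbar).IsStrictOrdinaryAt p ∧
        ¬ (GaloisRepAdic.ofResidualGaloisRep ρbar).IsFlatAt p)) :
    ∀ Sig : Finset ℕ, Smin ⊆ Sig →
      sigmaCond 𝒪 p t Smin Sig (GaloisRepAdic.ofResidualGaloisRep ρbar) := by
  rcases ht with ⟨rfl, hflat⟩ | ⟨rfl, hso, -⟩
  · exact resCond_flat_h546 h hflat
  · exact resCond_sord_h546 h hso

/-- **The core at one `(t, p, 𝒪, ρ̄, Smin, Piv)`** from the Hecke side at these data. -/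
theorem iaCoreT_at_h546 (h : ResidualHyp p 𝒪 ρbar Smin) {t : PType}
    (ht : (t = .flat ∧ (GaloisRepAdic.ofResidualGaloisRep ρbar).IsFlatAt p) ∨
      (t = .sord ∧ (GaloisRepAdic.ofResidualGaloisRep ρbar).IsStrictOrdinaryAt p ∧
        ¬ (GaloisRepAdic.ofResidualGaloisRep ρbar).IsFlatAt p))
    (Piv : Finset ℕ) (hPiv : IsPivotSet p ρbar Smin Piv) (hne : Piv.Nonempty)
    (hroots : ∀ q ∈ Piv, ∀ m : ℕ, p ^ m ∣ q - 1 → ∃ ζ : 𝒪, IsPrimitiveRoot ζ (p ^ m))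
    (hHeckeAt : ∀ ζ : 𝒪, IsPrimitiveRoot ζ p →
      (∀ q ∈ Piv, ∀ S : Finset ℕ,
        ¬ ResModular 𝒪 ρbar (ribetLevelT_h546 p t Smin (Piv.erase q)) S) →
      ∃ d : ℕ, 0 < d ∧ ∀ (n r : ℕ) (qv : Fin r → ℕ), IsTWSet p ρbar (Smin ∪ Piv) n qv →
        HasIAModuleT_h546 p 𝒪 ρbar t Smin Piv (ζ - 1) d n qv) :
    ∃ q ∈ Piv, ∃ S : Finset ℕ, ResModular 𝒪 ρbar (ribetLevelT_h546 p t Smin (Piv.erase q)) S := by
  by_contra hcon
  have hmin : ∀ q ∈ Piv, ∀ S : Finset ℕ,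
      ¬ ResModular 𝒪 ρbar (ribetLevelT_h546 p t Smin (Piv.erase q)) S :=
    fun q hq S hS => hcon ⟨q, hq, S, hS⟩
  have htt : t = .flat ∨ t = .sord := by
    rcases ht with ⟨h1, -⟩ | ⟨h1, -⟩
    · exact Or.inl h1
    · exact Or.inr h1
  exact ia_false_T_h546 t htt p 𝒪 ρbar Smin h (resCond_of_ht_h546 h ht) Piv hPiv hne hroots
    (fun ζ hζ => hHeckeAt ζ hζ hmin)

end Core

/-- **IA-CORE for `(t, p)` from the Hecke side.** -/
theorem iaCoreT_of_heckeT_h546 (hH : IAHeckeTStatement_h546) : IACoreTStatement_h546 :=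
  fun p _ 𝒪 _ _ _ _ _ _ ρbar Smin h t ht Piv hPiv hne hroots hmod =>
    iaCoreT_at_h546 h ht Piv hPiv hne hroots
      (fun ζ hζ hmin => hH p 𝒪 ρbar Smin h t ht ζ hζ Piv hPiv hmod hmin)

/-- **helper405's `IACoreFlat35Statement`** from the Hecke side at `p ∈ {3, 5}`. -/
theorem iaCoreFlat35_of_heckeT35_h546 (hH : IAHeckeT35Statement_h546) :
    Fermat.Agent.S59.LO.H405.IACoreFlat35Statement :=
  fun p _ hp 𝒪 _ _ _ _ _ _ ρbar Smin h hflat Piv hPiv hne hroots hmod =>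
    iaCoreT_at_h546 (t := .flat) h (Or.inl ⟨rfl, hflat⟩) Piv hPiv hne hroots
      (fun ζ hζ hmin =>
        hH p hp 𝒪 ρbar Smin h .flat (Or.inl ⟨rfl, hflat⟩) ζ hζ Piv hPiv hmod hmin)

/-- **helper405's `IACoreSord35Statement`** from the Hecke side at `p ∈ {3, 5}`. -/
theorem iaCoreSord35_of_heckeT35_h546 (hH : IAHeckeT35Statement_h546) :
    Fermat.Agent.S59.LO.H405.IACoreSord35Statement :=
  fun p _ hp 𝒪 _ _ _ _ _ _ ρbar Smin h hso hnflat Piv hPiv hne hroots hmod =>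
    iaCoreT_at_h546 (t := .sord) h (Or.inr ⟨rfl, hso, hnflat⟩) Piv hPiv hne hroots
      (fun ζ hζ hmin =>
        hH p hp 𝒪 ρbar Smin h .sord (Or.inr ⟨rfl, hso, hnflat⟩) ζ hζ Piv hPiv hmod hmin)

end Fermat.Agent.S38.H546

end
-- ===== PACK-END S38/H546/CoreT.lean

-- ===== PACK-BEGIN S59/LO/H405/PivotHeckeT.lean
section




/-!
# Row S59, cell LO, sub-row LO-IA (B2): the pivot cell from the Hecke side  (helper405)

ASSEMBLY of cell (B2).  With
* `S38/H546/CoreT.lean` (helper546): Ihara avoidance for the types `.flat` / `.sord` at `p`, every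
  closed leaf plugged in (GAL-T, LOC, BRIDGE, COND, S53, S54), and
* `S59/LO/H405/PivotFinal.lean`: the W-TOP `pivotW35_of_open`,

the frozen Prop `LOW.PivotW35Statement` of the architect follows from cell (A)
(`LOW.S39W35Statement`) and the Hecke side `IAHeckeStatement_T` frozen by helper3
(`S38T/IA/Spec.lean`), and nothing else:

    pivotW35_of_heckeT : LOW.S39W35Statement → IAHeckeStatement_T → LOW.PivotW35Statement

Nothing unproved in this file.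
-/

set_option autoImplicit false

open IsLocalRing

namespace Fermat.Agent.S59.LO.H405

open Fermat.Agent.S59.Arch Fermat.Agent.S38.IA Fermat.Agent.S38.H546

/-- helper3's Hecke side (`S38T/IA/Spec.lean`) gives helper546's (`S38/H546/CoreT.lean`): the two
Props have the same text (the two level functions and the two module predicates are twins). -/
theorem iaHeckeT_h546_of_heckeT (h : IAHeckeStatement_T) : IAHeckeTStatement_h546 := by
  intro p _ 𝒪 _ _ _ _ _ _ ρbar Smin hh t ht ζ hζ Piv hPiv hmod hmin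
  rcases ht with ⟨rfl, hflat⟩ | ⟨rfl, hso, hnf⟩
  · exact h p 𝒪 ρbar Smin hh .flat (Or.inl ⟨rfl, hflat⟩) ζ hζ Piv hPiv hmod hmin
  · exact h p 𝒪 ρbar Smin hh .sord (Or.inr ⟨rfl, hso, hnf⟩) ζ hζ Piv hPiv hmod hmin

/-- The Hecke side at `p ∈ {3, 5}` from helper3's Hecke side. -/
theorem iaHeckeT35_h546_of_heckeT (h : IAHeckeStatement_T) : IAHeckeT35Statement_h546 :=
  iaHeckeT35_of_heckeT_h546 (iaHeckeT_h546_of_heckeT h)

/-- The flat IA-core at `p ∈ {3, 5}` from the Hecke side. -/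
theorem iaCoreFlat35_of_heckeT (h : IAHeckeStatement_T) : IACoreFlat35Statement :=
  iaCoreFlat35_of_heckeT35_h546 (iaHeckeT35_h546_of_heckeT h)

/-- The strictly ordinary IA-core at `p ∈ {3, 5}` from the Hecke side. -/
theorem iaCoreSord35_of_heckeT (h : IAHeckeStatement_T) : IACoreSord35Statement :=
  iaCoreSord35_of_heckeT35_h546 (iaHeckeT35_h546_of_heckeT h)

/-- **Cell (B2) of row S59 from cell (A) and the Hecke side.** -/
theorem pivotW35_of_heckeT (hA : LOW.S39W35Statement) (h : IAHeckeStatement_T) :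
    LOW.PivotW35Statement :=
  pivotW35_of_open hA (iaCoreFlat35_of_heckeT h) (iaCoreSord35_of_heckeT h)

/-- The same with the Hecke side in helper546's shape at `p ∈ {3, 5}`. -/
theorem pivotW35_of_heckeT35_h546 (hA : LOW.S39W35Statement) (h : IAHeckeT35Statement_h546) :
    LOW.PivotW35Statement :=
  pivotW35_of_open hA (iaCoreFlat35_of_heckeT35_h546 h) (iaCoreSord35_of_heckeT35_h546 h)

end Fermat.Agent.S59.LO.H405

end
-- ===== PACK-END S59/LO/H405/PivotHeckeT.lean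

-- ===== PACK-BEGIN S38T/H593/StClosedT.lean
section




/-!
# Row S59, cell LO-IA (B2), HECKE-T, leaf IA-ST CLOSED, type `ty`  (helper593)

`iaStPt_closed_T_h593 : S35Statement → IAStPtStatement953_T`

= `iaStPt_h593_T` (`S38T/H593/StAsm.lean`) fed with

* `H31.iaMinZeroT_h31 : IAMinZeroStatement_T` (helper31, `S38T/H31/MinZeroT.lean`),
* `H509.iaStCor_T_h509 : IAStCorStatement_T` (helper509, `S38T/H509/FreeCorT.lean`).

The only remaining hypothesis is the frozen row `S35Statement`.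
-/

set_option autoImplicit false

namespace Fermat.Agent.S38.H593

/-- **IA-ST of type `ty`, closed modulo `S35`**: the twin of `iaStPt_closed_h593`. -/
theorem iaStPt_closed_T_h593 (hS35 : Fermat.Agent.S58.S35Statement) :
    Fermat.Agent.S38.H953.IAStPtStatement953_T :=
  iaStPt_h593_T Fermat.Agent.S38.H31.iaMinZeroT_h31 hS35 Fermat.Agent.S38.H509.iaStCor_T_h509

end Fermat.Agent.S38.H593

end
-- ===== PACK-END S38T/H593/StClosedT.lean

-- ===== PACK-BEGIN S38T/H593/StRowT.lean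
section



/-!
# Row S59, cell LO-IA (B2), HECKE-T: the ROW IA-ST of type `ty`, closed modulo `S35`  (helper593)

`iaSt_closed_T_h593 : S35Statement → IAStStatement_T`

= kill glue of helper473 (`S38T/H473/PtAdaptGen.lean`, `iaSt_of_pt953_T473`) applied to
`H509.iaFree_T_h509 : IAFreeStatement_T` and `iaStPt_closed_T_h593` (`S38T/H593/StClosedT.lean`).
Also the point-level statement in the form of helper473, `iaStPt473_closed_T_h593`.
-/

set_option autoImplicit false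

namespace Fermat.Agent.S38.H593

/-- The point-level IA-ST statement of type `ty` in the form of helper473, closed modulo `S35`. -/
theorem iaStPt473_closed_T_h593 (hS35 : Fermat.Agent.S58.S35Statement) :
    Fermat.Agent.S38.H473.IAStPtStatement_T :=
  Fermat.Agent.S38.H473.Gen.iaStPt_of_953_T473 (iaStPt_closed_T_h593 hS35)

/-- **The row IA-ST of HECKE-T, closed modulo `S35`.** -/
theorem iaSt_closed_T_h593 (hS35 : Fermat.Agent.S58.S35Statement) :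
    Fermat.Agent.S38.IA.Hecke.IAStStatement_T :=
  Fermat.Agent.S38.H473.Gen.iaSt_of_pt953_T473 Fermat.Agent.S38.H509.iaFree_T_h509
    (iaStPt_closed_T_h593 hS35)

end Fermat.Agent.S38.H593

end
-- ===== PACK-END S38T/H593/StRowT.lean

-- ===== PACK-BEGIN S38T/IA/Hecke/WireT.lean
section
















/-!
# S59 (B2) HECKE-T: the wiring of the cell, both types at `p`, every odd prime `p`  (helper3)

`iaHecke_T_of_rows : TW.PkgStatement → G4Statement → S34Shape494 → S30Statement →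
  (∀ M [NeZero M], HasIntegralStructure M 2) → S35Statement → S36Statement →
  IA.IAHeckeStatement_T`  (every hypothesis is the result of a landed row).

Plugged in (all VERBATIM against the frozen specs `S38T/IA/Hecke/Spec3.lean`):
IDEM (`S59.TW.Aut.H511.idem`, main), IA-NONTRIV-T and IA-FREE-T (helper681), IA-MOD-T
(helper781), IA-CTRL-T (helper299, cores of helper483), IA-RANK (helper483, no twin needed),
IA-CMP-T (helper183; dictionary of helper81 and helper227), IA-NU-T (helper47, kill glue of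
helper473), IA-ST-T (helper593: COR and FREE of helper509, MINZERO
of helper31, kill glue of helper473), glue A-T (helper354), glue B-T and layer 2
(`iaBetti_of_leaves_T`, `iaHecke5_of_leaves_T`), INX, INO, CYC, ALG (main).
-/

set_option autoImplicit false

namespace Fermat.Agent.S38.IA.Hecke

open Fermat.Agent.S59.Arch Fermat.Agent.S59.TW

/-- `IAHecke5Statement_T` (binder `3 ≤ p`) gives `IA.IAHeckeStatement_T` (`p ≠ 2` is part of
`ResidualHyp`). -/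
theorem iaHecke_T_of_iaHecke5_T (h : IAHecke5Statement_T) : IAHeckeStatement_T :=
  fun p hpF 𝒪 _ _ _ _ _ _ ρbar Smin hh ty hflat ζ hζ Piv hPiv hmod hmin =>
    h p (lt_of_le_of_ne hpF.out.two_le (Ne.symm hh.hp2)) 𝒪 ρbar Smin hh ty hflat ζ hζ Piv hPiv
      hmod hmin

/-- The cell HECKE-T from the leaves of layer 3. -/
theorem iaHecke5_T_of_layer3 (hPkg : PkgStatement) (hCmp : IACmpStatement_T)
    (hNu : IANuStatement_T) (hSt : IAStStatement_T) : IAHecke5Statement_T :=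
  iaHecke5_of_leaves_T hPkg
    (Fermat.Agent.S38.H354.iaAut5_of_betti_T
      (iaBetti_of_leaves_T Fermat.Agent.S59.TW.Aut.H511.idem
        Fermat.Agent.S38.H681.iaNontriv_T_h681 Fermat.Agent.S38.H781.iaMod_T
        Fermat.Agent.S38.H681.iaFree_T_h681 Fermat.Agent.S38.H299.iaCtrl_T299
        Fermat.Agent.S38.H483.iaRank483 hCmp hNu hSt))
    Fermat.Agent.S59.TW.H427.inertiaExists Fermat.Agent.S59.TW.H123.inertiaOrder
    Fermat.Agent.S59.TW.H59.cycloSurj Fermat.Agent.S59.TW.H95.alg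

/-- **The cell HECKE-T from IA-CMP-T** (and results of the rows S33/PKG, S35, S36). -/
theorem iaHecke_T_of_cmp (hPkg : PkgStatement) (hCmp : IACmpStatement_T)
    (h35 : Fermat.Agent.S58.S35Statement) (h36 : Fermat.Agent.S58.S36Statement) :
    IAHeckeStatement_T :=
  iaHecke_T_of_iaHecke5_T
    (iaHecke5_T_of_layer3 hPkg hCmp
      (Fermat.Agent.S38.H47.iaNu_T h36 Fermat.Agent.S38.H681.iaFree_T_h681)
      (Fermat.Agent.S38.H593.iaSt_closed_T_h593 h35))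

/-- **THE CELL HECKE-T, CLOSED**: `IA.IAHeckeStatement_T` (both types at `p`, every odd prime
`p`) from results of landed rows: PKG (`TW.PkgStatement`, rows S32/S33), the cell G4 of row S59,
S34, S30, S23 (integral structures), S35 and S36. -/
theorem iaHecke_T_of_rows (hPkg : PkgStatement)
    (hG4 : Fermat.Agent.S59.G4.G4Statement)
    (h34 : Fermat.Agent.S59.TW.H494.S34Shape494)
    (h30 : Fermat.Agent.S31.S30Statement)
    (hIS : ∀ (M : ℕ) [NeZero M], CuspForm.HasIntegralStructure M 2)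
    (h35 : Fermat.Agent.S58.S35Statement) (h36 : Fermat.Agent.S58.S36Statement) :
    IAHeckeStatement_T :=
  iaHecke_T_of_cmp hPkg
    (H183.iaCmp_of_free_T Fermat.Agent.S38.H681.iaFree_T_h681 hG4 h34 h30 hIS h36) h35 h36

end Fermat.Agent.S38.IA.Hecke

end
-- ===== PACK-END S38T/IA/Hecke/WireT.lean

-- ===== PACK-BEGIN S59/LO/H405/PivotClosed.lean
section





/-!
# Row S59, cell LO, sub-row LO-IA = cell (B2): CLOSED  (helper405; wiring only)

    pivotW35_closed : LOW.S39W35Statement → LOW.PivotW35Statement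

the deliverable of cell (B2) asked for by the architect (helper239), unconditional:

* the W-TOP `pivotW35_of_open` (`PivotFinal.lean`) and its assembly `pivotW35_of_heckeT`
  (`PivotHeckeT.lean`; Ihara avoidance for both types at `p`: helper546 `S38/H546/CoreT.lean`);
* the cell HECKE-T `Hecke.iaHecke_T_of_rows` (helper3, `S38T/IA/Hecke/WireT.lean`);
* the results of the rows S32/S33 (`TW.H659.pkg`), S23, S30, S34, G4, S35 and S36, on their PLAIN
  tops (the plugs of row HARD on its trunk, `S38/IA/{PkgWired,AsmOpen,AsmClosed}.lean`; no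
  statement module `Fermat/Agent/SNN.lean` is imported here).

Nothing unproved in this file.
-/

set_option autoImplicit false

namespace Fermat.Agent.S59.LO.H405

open Fermat.Agent.S59.Arch Fermat.Agent.S38.IA

/-- **The cell HECKE-T, closed**: the Hecke side of Ihara avoidance for both types at `p` and every
odd prime `p`. -/
theorem iaHeckeT_closed : IAHeckeStatement_T :=
  Hecke.iaHecke_T_of_rows Fermat.Agent.S59.TW.H659.pkg g4_h995 s34Shape494_h995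
    s30Statement_h995 (fun M _ => s23Shape_h995 M) s35Statement_h995 s36Statement_h995

/-- The flat IA-core at `p ∈ {3, 5}`, closed. -/
theorem iaCoreFlat35_closed : IACoreFlat35Statement :=
  iaCoreFlat35_of_heckeT iaHeckeT_closed

/-- The strictly ordinary IA-core at `p ∈ {3, 5}`, closed. -/
theorem iaCoreSord35_closed : IACoreSord35Statement :=
  iaCoreSord35_of_heckeT iaHeckeT_closed

/-- **CELL (B2) OF ROW S59, CLOSED**: the pivot cell from cell (A). -/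
theorem pivotW35_closed (hA : LOW.S39W35Statement) : LOW.PivotW35Statement :=
  pivotW35_of_heckeT hA iaHeckeT_closed

end Fermat.Agent.S59.LO.H405

end
-- ===== PACK-END S59/LO/H405/PivotClosed.lean

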