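import Fermat.Agent.Pack.S59C.E14L3
import Fermat.Agent.Pack.S59C.E15L1
import Fermat.Agent.Pack.S59C.E15L3
import Fermat.Agent.Pack.S43MC.G0E28L2
import Fermat.Agent.Pack.S59C.E15L2
import Fermat.Agent.Pack.S59C.E15L0
import Fermat.Agent.Pack.S59C.E12L3
import Fermat.Agent.Pack.S59C.E13L3
import Fermat.Agent.Pack.S59C.E14L0

set_option linter.all false

-- ===== PACK-BEGIN S59/WallP3/Final.lean
section







/-!
# S59 moonshot, CELL (A) CLOSED: `LOW.MazurW35Statement → LOW.S39W35Statement`
  (cell architect helper944)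

* `s39Ready3 : S39Ready3Statement` — frozen S39 at `p = 3` at every READY level
  (`2 ∣ M'`, `3 ∤ M'`), UNCONDITIONAL: the wall at `p = 3` with the UNIT-3 unit
  `v = (η(τ)η(2τ)/(η(3τ)η(6τ)))⁸` (helper461), TAME (helper912 + helper967), WILD (helper712),
  CUSP (helper644), UNIT-EIS (helper67 calculus), (S1) helper884, (S2) `S33.H558.s2Ready`,
  (S3) I3 at good levels (helper764/940/537/584/751), I2 `H376.dlogOut`.
* `cellA : LOW.MazurW35Statement → LOW.S39W35Statement` — the deliverable of cell (A):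
  `p = 5` by the S44 chain, `p = 3` by the READY wall, padding with `2` and Mazur's principle at
  `(p, q) = (3, 2)` for the return.
-/

set_option autoImplicit false

namespace Fermat.Agent.S59.WallP3

open Fermat.Agent.S59.Arch.LOW

/-- **Frozen S39 at `p = 3`, READY levels: CLOSED, unconditional.** -/
theorem s39Ready3 : S39Ready3Statement :=
  s39Ready3_of_leaves u3 unitEis3 tame3 wild3 cusp3

/-- **CELL (A)**: the removal of `p ∈ {3, 5}` from Mazur's principle (cell (B1); used at
`(p, q) = (3, 2)` only, at levels `2 M'` with `M'` prime to `6`). -/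
theorem cellA (hMz : MazurW35Statement) : S39W35Statement :=
  s39W35_of_ready s39Ge5 s39Ready3 hMz Fermat.Agent.S59.H294.resUnram

end Fermat.Agent.S59.WallP3

end
-- ===== PACK-END S59/WallP3/Final.lean

-- ===== PACK-BEGIN S59/Arch/Plug.lean
section



/-!
# Row S59 — the LIVE plug file of the trunk (architect helper239)

`s59_of_open_cells` : row S59 from the cells of LO that are still OPEN.  Closed cells are plugged
here as they are merged into the trunk `origin/helper239`.

* (A)  CLOSED 01:27Z : `WallP3.cellA : LOW.MazurW35Statement → LOW.S39W35Statement`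
  (cell architect helper944; independent build helper49);
* (B1) open : `LOW.MazurW35Statement`;
* (B2) open : `LOW.S39W35Statement → LOW.PivotW35Statement`;
* (C)  open : `H826.SqFree35Statement`.
-/

set_option autoImplicit false

namespace Fermat.Agent.S59.Arch

open Fermat.Agent.S59

/-- **ROW S59 from the open cells** (B1), (B2), (C). -/
theorem s59_of_open_cells (hC : H826.SqFree35Statement) (hB1 : LOW.MazurW35Statement)
    (hB2 : LOW.S39W35Statement → LOW.PivotW35Statement) : H239.S59Statement :=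
  s59_of_cells hC hB1 WallP3.cellA hB2

end Fermat.Agent.S59.Arch

end
-- ===== PACK-END S59/Arch/Plug.lean

-- ===== PACK-BEGIN S59/Arch/Plug2.lean
section



/-!
# Row S59 — LIVE plug file no. 2 of the trunk (architect helper239)

Cells (A) and (B2) plugged:

* (A)  `WallP3.cellA : LOW.MazurW35Statement → LOW.S39W35Statement` (helper944);
* (B2) `LO.H405.pivotW35_closed : LOW.S39W35Statement → LOW.PivotW35Statement`
  (helper405 on the cell HECKE-T of helper3).

    s59_of_b1_c : H826.SqFree35Statement → LOW.MazurW35Statement → H239.S59Statement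

Open: (B1) `LOW.MazurW35Statement`, (C) `H826.SqFree35Statement`.
-/

set_option autoImplicit false

namespace Fermat.Agent.S59.Arch

open Fermat.Agent.S59

/-- **ROW S59 from the cells (B1) and (C).** -/
theorem s59_of_b1_c (hC : H826.SqFree35Statement) (hB1 : LOW.MazurW35Statement) :
    H239.S59Statement :=
  s59_of_open_cells hC hB1 LO.H405.pivotW35_closed

end Fermat.Agent.S59.Arch

end
-- ===== PACK-END S59/Arch/Plug2.lean

-- ===== PACK-BEGIN S59/Arch/Plug3.lean
section



/-!
# Row S59 — LIVE plug file no. 3 of the trunk (architect helper239)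

Cells (A), (B1), (B2) plugged:

* (A)  `WallP3.cellA : LOW.MazurW35Statement → LOW.S39W35Statement` (helper944);
* (B1) `LOQ.H213.mazurW35 : LOW.MazurW35Statement` (helper213, helper158);
* (B2) `LO.H405.pivotW35_closed : LOW.S39W35Statement → LOW.PivotW35Statement`
  (helper405 on the cell HECKE-T of helper3).

    s59_of_c : H826.SqFree35Statement → H239.S59Statement

ROW S59 = ONE Prop: cell (C), `H826.SqFree35Statement` (helper885, helper826).
-/

set_option autoImplicit false

namespace Fermat.Agent.S59.Arch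

open Fermat.Agent.S59

/-- **ROW S59 from the cell (C).** -/
theorem s59_of_c (hC : H826.SqFree35Statement) : H239.S59Statement :=
  s59_of_b1_c hC LOQ.H213.mazurW35

end Fermat.Agent.S59.Arch

end
-- ===== PACK-END S59/Arch/Plug3.lean

-- ===== PACK-BEGIN S59/LoSqC/H835/SplitDictNative.lean
section




/-!
# S59 / cell (C) LO-SQ, leaf SPLIT-E (helper835), part 4: `hKer` in the J-NATIVE design

Design (a) of the `F`-tower of the count: `F n = H34.slopeZeroPart_h34 q M (p ^ n) …
= {x ∈ J₀(q M) | H862.HasSlopeZeroGen (p ^ n) q M P x}` (level `q * M`, `E` = the inertia field of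
`P`), and `S n` = the pull-back to the level `q * M` of
`H296.kummerClasses296 E (M * q) (p ^ n) (H193.splitDiv E w x' (p ^ n) V∞ V₀)`.

* **`hKer_native835`** : `H862.HasSlopeZeroGen m q M P x` and `x ∈ splitPartQ m q M P`
  ⟹ `levelCastJ x ∈ kummerClasses296 E (M * q) m (splitDiv …)`  (every `m` prime to `q`);
* `toricTower835`      : the tower `S n` at the level `q * M`;
* **`hKer_tower835`**  : the hypothesis `hKer` of `H505.wCountLab505` / `wCountTower505`, VERBATIM,
  for `F n = slopeZeroPart_h34 … (p ^ n)` and `S = toricTower835`.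

Inputs: `H862.slopeZeroE_of_hasSlopeZeroGen862` (helper862), `H27.isKummerGen_levelCastJ_iff`
(helper27), `H835.hredS835`.
-/

set_option autoImplicit false
set_option linter.style.haveILetI false
set_option linter.unusedSectionVars false
set_option linter.unusedVariables false
set_option synthInstance.maxHeartbeats 400000
set_option maxHeartbeats 1600000

noncomputable section

namespace Fermat.Agent.S59.LoSqC.H835

open ModularCurve HahnSeries AlgebraicCurve
open Fermat.Agent
open Fermat.Agent.S24 Fermat.Agent.A2.H528 Fermat.Agent.A2.T1.H669 Fermat.Agent.Ribet.H884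
open Fermat.Agent.A2.H708
open Fermat.Agent.Ribet.H158.WallQ
open Fermat.Agent.A2.IF.H429 (inertiaField)

local notation "Q̄" => AlgebraicClosure ℚ

section Level

variable {P : ValuationSubring A2.Qb} {M q : ℕ}
  [NeZero M] [NeZero q] [NeZero (M * q)] [NeZero (q * M)]

/-- **`hKer`, J-native design, pointwise.** -/
theorem hKer_native835 [IsDiscreteValuationRing (A2.RE P (inertiaField P))]
    [HenselianLocalRing (A2.RE P (inertiaField P))]
    [IsAlgClosed (IsLocalRing.ResidueField (A2.RE P (inertiaField P)))]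
    {w : A2.RE P (inertiaField P)} (hS : S36.Mod3.Std P (inertiaField P) M q w)
    {V : ValuationSubring (A2.Mod.FE (inertiaField P) (M * q))}
    (hV : A2.Mod.IsVinf P (inertiaField P) (M * q) V)
    {W : A2.Mod.FE (inertiaField P) (M * q) ≃ₐ[inertiaField P]
      A2.Mod.FE (inertiaField P) (M * q)}
    (hW : A2.Mod.IsFricke (inertiaField P) (M * q) W)
    {m : ℕ} (hm : 0 < m) (hqm : ¬ q ∣ m)
    {x : JZero (q * M)} (hx : H862.HasSlopeZeroGen m q M P x)
    (hxS : x ∈ splitPartQ m q M P) :
    H27.levelCastJ (Nat.mul_comm q M) x ∈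
      H296.kummerClasses296 (inertiaField P) (M * q) m
        (H193.splitDiv (R := A2.RE P (inertiaField P)) (inertiaField P) w
          (A2.Mod.xE (inertiaField P) M q) m V
          (V.comap (W : A2.Mod.FE (inertiaField P) (M * q) →+*
            A2.Mod.FE (inertiaField P) (M * q)))) := by
  obtain ⟨g, hg0, hgD, hgK, a₁, a₂, h1, h2, hd⟩ :=
    H862.slopeZeroE_of_hasSlopeZeroGen862 P M q m hS.q_prime hS.q_not_dvd hS.neat.hasAux
      hS.lies_over w hS.unif V W hV hW x hx
  have hff : ((iota (inertiaField P) (modularFunctionFieldFull (M * q)) g : FF (M * q)) :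
      LaurentSeries Q̄) =
      ((Ribet.H868.toFF (inertiaField P) (Nat.mul_comm M q) g : FF (q * M)) :
        LaurentSeries Q̄) := by
    rw [Ribet.H868.coe_toFF]
    rfl
  have hK : IsKummerGen (M * q) m (iota (inertiaField P) (modularFunctionFieldFull (M * q)) g)
      (H27.levelCastJ (Nat.mul_comm q M) x) :=
    (H27.isKummerGen_levelCastJ_iff (Nat.mul_comm q M) hff x).2 hgK
  exact hredS835 hS hV hW hm hqm hxS (isKummerGenE296_iff835.2 hK) ⟨a₁, a₂, h1, h2, hd⟩

/-- **The toric tower at the level `q * M`**: the pull-back of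
`kummerClasses296 E (M * q) (p ^ n) (splitDiv E w x' (p ^ n) V V₀)` along `levelCastJ`. -/
def toricTower835 [IsDiscreteValuationRing (A2.RE P (inertiaField P))]
    [HenselianLocalRing (A2.RE P (inertiaField P))]
    [IsAlgClosed (IsLocalRing.ResidueField (A2.RE P (inertiaField P)))]
    (w : A2.RE P (inertiaField P)) (p : ℕ)
    (V V₀ : ValuationSubring (A2.Mod.FE (inertiaField P) (M * q))) (n : ℕ) :
    AddSubgroup (JZero (q * M)) :=
  (H296.kummerClasses296 (inertiaField P) (M * q) (p ^ n)
    (H193.splitDiv (R := A2.RE P (inertiaField P)) (inertiaField P) w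
      (A2.Mod.xE (inertiaField P) M q) (p ^ n) V V₀)).comap
    (H27.levelCastJ (Nat.mul_comm q M)).toAddMonoidHom

theorem mem_toricTower835 [IsDiscreteValuationRing (A2.RE P (inertiaField P))]
    [HenselianLocalRing (A2.RE P (inertiaField P))]
    [IsAlgClosed (IsLocalRing.ResidueField (A2.RE P (inertiaField P)))]
    {w : A2.RE P (inertiaField P)} {p : ℕ}
    {V V₀ : ValuationSubring (A2.Mod.FE (inertiaField P) (M * q))} {n : ℕ}
    {x : JZero (q * M)} :
    x ∈ toricTower835 (M := M) (q := q) w p V V₀ n ↔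
      H27.levelCastJ (Nat.mul_comm q M) x ∈
        H296.kummerClasses296 (inertiaField P) (M * q) (p ^ n)
          (H193.splitDiv (R := A2.RE P (inertiaField P)) (inertiaField P) w
            (A2.Mod.xE (inertiaField P) M q) (p ^ n) V V₀) :=
  Iff.rfl

/-- The classes of the toric tower are killed by `p ^ n` (`hS` of `H505.wCountLab505`). -/
theorem toricTower835_nsmul [IsDiscreteValuationRing (A2.RE P (inertiaField P))]
    [HenselianLocalRing (A2.RE P (inertiaField P))]
    [IsAlgClosed (IsLocalRing.ResidueField (A2.RE P (inertiaField P)))]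
    {w : A2.RE P (inertiaField P)} {p : ℕ}
    {V V₀ : ValuationSubring (A2.Mod.FE (inertiaField P) (M * q))} (n : ℕ) :
    ∀ x ∈ toricTower835 (M := M) (q := q) w p V V₀ n, (p ^ n) • x = 0 := by
  intro x hx
  have h := H296.nsmul_eq_zero_of_mem_kummerClasses296 (mem_toricTower835.1 hx)
  apply (H27.levelCastJ (Nat.mul_comm q M)).injective
  rw [map_nsmul, h, map_zero]

/-- **`hKer` of `H505.wCountLab505`, VERBATIM**, for `F n = H34.slopeZeroPart_h34 … (p ^ n)` and
`S = toricTower835`. -/
theorem hKer_tower835 [IsDiscreteValuationRing (A2.RE P (inertiaField P))]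
    [HenselianLocalRing (A2.RE P (inertiaField P))]
    [IsAlgClosed (IsLocalRing.ResidueField (A2.RE P (inertiaField P)))]
    {w : A2.RE P (inertiaField P)} (hS : S36.Mod3.Std P (inertiaField P) M q w)
    {V : ValuationSubring (A2.Mod.FE (inertiaField P) (M * q))}
    (hV : A2.Mod.IsVinf P (inertiaField P) (M * q) V)
    {W : A2.Mod.FE (inertiaField P) (M * q) ≃ₐ[inertiaField P]
      A2.Mod.FE (inertiaField P) (M * q)}
    (hW : A2.Mod.IsFricke (inertiaField P) (M * q) W)
    {p : ℕ} (hp : 0 < p) (hqp : ¬ q ∣ p) :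
    ∀ x ∈ H34.slopeZeroPart_h34 q M (p ^ 1) hS.q_prime hS.q_not_dvd hS.neat.hasAux P
        hS.lies_over,
      x ∈ splitPartQ p q M P →
      x ∈ toricTower835 (M := M) (q := q) w p V
        (V.comap (W : A2.Mod.FE (inertiaField P) (M * q) →+*
          A2.Mod.FE (inertiaField P) (M * q))) 1 := by
  intro x hx hxS
  have hx' : H862.HasSlopeZeroGen (p ^ 1) q M P x := hx
  have hxS' : x ∈ splitPartQ (p ^ 1) q M P := by
    rw [pow_one]
    exact hxS
  have hqp' : ¬ q ∣ p ^ 1 := by
    rw [pow_one]
    exact hqp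
  exact mem_toricTower835.2
    (hKer_native835 hS hV hW (pow_pos hp 1) hqp' hx' hxS')

end Level

end Fermat.Agent.S59.LoSqC.H835

end

end
-- ===== PACK-END S59/LoSqC/H835/SplitDictNative.lean

-- ===== PACK-BEGIN S59/LoSqC/H433/RouteZ.lean
section











/-!
# S59 moonshot, cell (C) LO-SQ — THE ASSEMBLY OF THE COUNT (route Z, helper433)

OFF-MAIN.  At every system of objects of level `M q` over the inertia field `E = ℚ̄^{I_P}`,
`5 ≤ q`, `p ≠ q` prime, the count of level `q M` is instantiated at the towers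

    I n = G[p^n]^{I_P}                                   (`H505.inertiaTors505`)
    F n = {E-slope-zero classes mod p^n} ∩ I n            (`H34.slopeZeroPart_h34`, helper862 voc.)
    S n = splitPartQ (p^n) ∩ F n                          (main WALL-q vocabulary)

and gives BOTH open leaves of the cell:

* (R) `H987.RSurj1E (A2.RE P E) E p V₁' V₂'`                       (via helper27 `rSurj1E_of_rSurjJ`)
* (L) `H630.Lab1SurjE E w (xE E M q) V₁' V₂' p ζ`                   (via helper885 `Real.lab1SurjE_of_card`)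

UNCONDITIONALLY.

Plugged (all compiled by their owners): COUNT-NUM (140), TAME-CYC (319), RED-HOM and the J-towers
(296), J-TAU and TAU-SLOPE (216), `(τ - 1) x` inertia-fixed (505), NODE-REL card form and
FIN-OF-SLOPE (862, 34), COMPAT-E for the tower of `F` (862 `hasSlopeZeroGen_of_mul862`), the
dictionary (α) ⟹ (β) (862 `slopeZeroE_of_hasSlopeZeroGen862`), TH1 (456), NODE-DICT and the genus
inequality (865, 139), SPLIT-DICT and PURE-SPLIT (835 `hKer_native835`), the label count (193,
296 LabJ, 885 `Real/Lab`), SURJ-E and COND-PDIV (27, 967), CTX (865), the abstract count (505).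

    surj_routeZ433          : (R) ∧ ∃ ζ, (L)      (pointwise, at every system of objects)
    leafRSurjHardI433 : LeafRSurjHardI,   leafLabSurjHardI433 : LeafLabSurjHardI
    **sqFree35_433 : H826.SqFree35Statement**        (= cell (C) of the S59 moonshot)
-/

set_option autoImplicit false
set_option linter.style.haveILetI false
set_option linter.unusedSectionVars false
set_option linter.unusedVariables false
set_option synthInstance.maxHeartbeats 400000
set_option maxHeartbeats 1600000

noncomputable section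

namespace Fermat.Agent.S59.LoSqC.H433

open ModularCurve HahnSeries AlgebraicCurve
open Fermat.Agent
open Fermat.Agent.S24 Fermat.Agent.A2.H528 Fermat.Agent.A2.T1.H669 Fermat.Agent.Ribet.H884
open Fermat.Agent.A2.H708
open Fermat.Agent.A2.Mod Fermat.Agent.Ribet.H868
open Fermat.Agent.A2.IF.H429 (inertiaField)
open Fermat.Agent.S36 Fermat.Agent.S36.Eng
open Fermat.Agent.Ribet.H158.WallQ (PPowSeries splitPartQ finPartQ splitSetQ)
open Fermat.Agent.S59.LoSqC.H862 (HasSlopeZeroGen Th1At)
open Fermat.Agent.S59.LoSqC.H505 (inertiaTors505 mem_inertiaTors505)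
open Fermat.Agent.S59.LoSqC.H34 (slopeZeroPart_h34)
open Fermat.Agent.S59.LoSqC.H27 (levelCastJ)

local notation "Q̄" => AlgebraicClosure ℚ

section Std

variable (P : ValuationSubring Q̄) (E : IntermediateField ℚ Q̄) (M q : ℕ)
  [NeZero M] [NeZero q] [NeZero (M * q)] (w : RE P E)

/-- `Mod3.Std` at the uniformiser `q`. -/
theorem std_q433 (hStd : S36.Mod3.Std P E M q w) :
    S36.Mod3.Std P E M q ((q : ℕ) : RE P E) := by
  obtain ⟨ε, hε, hqw⟩ := Fermat.Agent.S59.LoSqC.H456.unram_of_std P E M q w hStd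
  have hirr : Irreducible (((q : ℕ) : RE P E)) := by
    rw [hqw]
    exact (irreducible_isUnit_mul hε).2 hStd.unif
  exact ⟨hStd.q_prime, hStd.q_not_dvd, hStd.lies_over, hStd.unram, hStd.neat, hirr⟩

/-- Thickness one at the uniformiser `q` (helper456 `th1_std`). -/
theorem th1At_q433 (hStd : S36.Mod3.Std P E M q w) (h5 : 5 ≤ q) :
    Th1At P E M q ((q : ℕ) : RE P E) :=
  fun p₁ p₂ hc n hn => Fermat.Agent.S59.LoSqC.H456.th1_std P E M q _
    (std_q433 P E M q w hStd) h5 p₁ p₂ hc n hn

end Std

section Main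

variable (P : ValuationSubring Q̄) (M q : ℕ) [NeZero M] [NeZero q] [NeZero (M * q)]
  [NeZero (q * M)]

/-- The tower `F n` of route Z. -/
def towerF433 (hq : q.Prime) (hqM : ¬ q ∣ M) (haux : S35.G.HasAux M q)
    (hP : P.LiesOverPrime q) (p n : ℕ) : AddSubgroup (JZero (q * M)) :=
  slopeZeroPart_h34 q M (p ^ n) hq hqM haux P hP ⊓ inertiaTors505 (q * M) P (p ^ n)

/-- **The count of route Z** (J-side conclusion): the toric classes `S 1 = splitPartQ p ∩ F 1`
are exactly `p ^ h`, and the reductions are onto on `F 1`. -/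
theorem count_routeZ433 (w : RE P (inertiaField P))
    (hStd : Mod3.Std P (inertiaField P) M q w) (h5 : 5 ≤ q) (p : ℕ) (hp : p.Prime)
    (hpq : p ≠ q) (h : ℕ)
    (hgenus : 4 * H140.gRes140 P M + 2 * h ≤ 2 * H140.gBar140 (q * M))
    (hLab : Nat.card ↥(splitPartQ (p ^ 1) q M P ⊓
      towerF433 P M q hStd.q_prime hStd.q_not_dvd hStd.neat.hasAux hStd.lies_over p 1) ≤ p ^ h) :
    Nat.card ↥(splitPartQ (p ^ 1) q M P ⊓
      towerF433 P M q hStd.q_prime hStd.q_not_dvd hStd.neat.hasAux hStd.lies_over p 1) = p ^ h ∧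
      H296.RSurjJ p q M P
        (towerF433 P M q hStd.q_prime hStd.q_not_dvd hStd.neat.hasAux hStd.lies_over p 1) := by
  have hq := hStd.q_prime
  have hqM := hStd.q_not_dvd
  have hP := hStd.lies_over
  have haux := hStd.neat.hasAux
  have hTh1 : Th1At P (inertiaField P) M q ((q : ℕ) : RE P (inertiaField P)) :=
    th1At_q433 P (inertiaField P) M q w hStd h5
  refine hybridCount433 hp hq hpq hqM hStd.neat hP
    (fun n => towerF433 P M q hq hqM haux hP p n) (fun n => inf_le_right) ?_
    ((q - 1) * dedekindPsi M) ?_ ?_ ?_ h hgenus hLab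
  · -- TAU-SLOPE
    intro n x hx τ hτ
    have hfixτ : ∀ (j : ℕ) (z : JZero (q * M)), p ^ j • z = 0 →
        ∀ σ ∈ P.inertiaSubgroupIn ℚ, σ • (τ • z - z) = τ • z - z :=
      fun j z hz => H505.tau_sub_fixed505 hp hq hpq hqM hP j z hz hτ
    refine AddSubgroup.mem_inf.mpr ⟨?_, ?_, hfixτ n x hx⟩
    · exact H216.hasSlopeZeroGen_tau_h216 p n q M hp hq hqM haux P hP hTh1 τ hfixτ x hx
    · rw [nsmul_sub, hx, sub_zero, ← Fermat.Agent.S35.H504.galois_smul_nsmul, hx,
        Fermat.Agent.S35.H504.galois_smul_zero]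
  · -- NODE-REL, card form
    intro n
    exact H34.nodeRel_card_slopeZeroPart_h34 q M (p ^ n) hq hqM haux (pow_pos hp.pos n) P hP
      hTh1 (inertiaTors505 (q * M) P (p ^ n)) (fun x hx => hx.1) (fun x hx => hx.2)
  · -- COMPAT-E
    rintro n x ⟨hxF, -, hxfix⟩ h0
    refine AddSubgroup.mem_inf.mpr ⟨?_, ?_, hxfix⟩
    · show HasSlopeZeroGen (p ^ 1) q M P x
      rw [pow_one]
      have hxF' : HasSlopeZeroGen (p ^ n * p) q M P x := by
        have : HasSlopeZeroGen (p ^ (n + 1)) q M P x := hxF
        rwa [pow_succ] at this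
      exact H862.hasSlopeZeroGen_of_mul862 q M (p ^ n) p (pow_pos hp.pos n) hq hqM haux P hP x
        hxF' h0
    · rw [pow_one]
      exact h0
  · -- FIN-OF-SLOPE
    intro x hx
    have := H34.slopeZeroPart_le_finPartQ_h34 q M (p ^ 1) hq hqM haux (pow_pos hp.pos 1) P hP
      hTh1 hx.1
    rwa [H505.finPartQ_pow_one505] at this

/-- The toric classes of route Z, at the level `M * q`. -/
def toricZ433 (hq : q.Prime) (hqM : ¬ q ∣ M) (haux : S35.G.HasAux M q)
    (hP : P.LiesOverPrime q) (p : ℕ) : AddSubgroup (JZero (M * q)) :=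
  (splitPartQ (p ^ 1) q M P ⊓ towerF433 P M q hq hqM haux hP p 1).map
    (levelCastJ (Nat.mul_comm q M)).toAddMonoidHom

theorem card_toricZ433 (hq : q.Prime) (hqM : ¬ q ∣ M) (haux : S35.G.HasAux M q)
    (hP : P.LiesOverPrime q) (p : ℕ) :
    Nat.card ↥(toricZ433 P M q hq hqM haux hP p) =
      Nat.card ↥(splitPartQ (p ^ 1) q M P ⊓ towerF433 P M q hq hqM haux hP p 1) :=
  (Nat.card_congr ((levelCastJ (Nat.mul_comm q M)).addSubgroupMap
    (splitPartQ (p ^ 1) q M P ⊓ towerF433 P M q hq hqM haux hP p 1)).toEquiv).symm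

/-- **(R) and (L) at one system of objects.** -/
theorem surj_routeZ433 (w : RE P (inertiaField P))
    (hStd : Mod3.Std P (inertiaField P) M q w)
    (V₁' V₂' : ValuationSubring (FE (inertiaField P) (M * q)))
    (V₁ V₂ V₃ : ValuationSubring (FE (inertiaField P) (M * q * q)))
    (W' : FE (inertiaField P) (M * q) ≃ₐ[inertiaField P] FE (inertiaField P) (M * q))
    (W : FE (inertiaField P) (M * q * q) ≃ₐ[inertiaField P] FE (inertiaField P) (M * q * q))
    (hO : Mod3.Objs P (inertiaField P) M q V₁' V₂' V₁ V₂ V₃ W' W)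
    (h5 : 5 ≤ q) (p : ℕ) (hp : p.Prime) (hpq : p ≠ q) :
    H987.RSurj1E (RE P (inertiaField P)) (inertiaField P) p V₁' V₂' ∧
      ∃ ζ : RE P (inertiaField P), IsPrimitiveRoot ζ p ∧
        H630.Lab1SurjE (inertiaField P) w (xE (inertiaField P) M q) V₁' V₂' p ζ := by
  haveI : IsDiscreteValuationRing ↥(RE P (inertiaField P)) := hStd.unram.1.dvr
  haveI : HenselianLocalRing ↥(RE P (inertiaField P)) := hStd.unram.1.henselian
  haveI : IsAlgClosed (IsLocalRing.ResidueField ↥(RE P (inertiaField P))) :=
    hStd.unram.1.algClosed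
  have hq := hStd.q_prime
  have hqM := hStd.q_not_dvd
  have hP := hStd.lies_over
  have haux := hStd.neat.hasAux
  have hqp : ¬ q ∣ p := fun hd => hpq ((Nat.prime_dvd_prime_iff_eq hq hp).1 hd).symm
  have hqp1 : ¬ q ∣ p ^ 1 := by rwa [pow_one]
  have hV := hO.vinf'
  have hW := hO.fricke'
  have hV₂ := hO.vzero'
  subst hV₂
  -- the nodes and the genus inequality
  obtain ⟨Sg, hSg, -, hgen⟩ := H865.exists_nodes_count865 P (inertiaField P) M q w hStd h5
    V₁' W' hV hW P hP
  rw [H140.gBar_mul_comm140] at hgen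
  -- a primitive root of unity
  obtain ⟨ζ, hζ⟩ := A2.Alg.H348.exists_primitiveRoot (R := ↥(RE P (inertiaField P))) q p hq
    (Fermat.Agent.A2.T1.H669.natCast_mem_maximalIdeal_RE (inertiaField P) hP) hp.pos hqp
  -- the toric classes at the level `M * q` are Kummer classes of `splitDiv`
  have hSgen : toricZ433 P M q hq hqM haux hP p ≤
      H296.kummerClasses296 (inertiaField P) (M * q) p
        (H193.splitDiv (R := RE P (inertiaField P)) (inertiaField P) w
          (xE (inertiaField P) M q) p V₁'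
          (V₁'.comap (W' : FE (inertiaField P) (M * q) →+* FE (inertiaField P) (M * q)))) := by
    rintro _ ⟨x, ⟨hxs, hxF, -⟩, rfl⟩
    have hxs' : x ∈ splitPartQ p q M P := by rwa [pow_one] at hxs
    have hxF' : HasSlopeZeroGen p q M P x := by
      have : HasSlopeZeroGen (p ^ 1) q M P x := hxF
      rwa [pow_one] at this
    exact H835.hKer_native835 hStd hV hW hp.pos hqp hxF' hxs'
  -- the label count
  have hLab : Nat.card ↥(splitPartQ (p ^ 1) q M P ⊓ towerF433 P M q hq hqM haux hP p 1) ≤
      p ^ (Sg.card - 1) := by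
    rw [← card_toricZ433]
    exact Real.card_toric_le hStd hV hW hp.pos hqp hζ Sg (fun 𝔫 h => (hSg 𝔫).1 h)
      (fun 𝔫 h => (hSg 𝔫).2 h) _ hSgen
  -- THE COUNT
  obtain ⟨hcard, hJ⟩ := count_routeZ433 P M q w hStd h5 p hp hpq (Sg.card - 1) hgen hLab
  refine ⟨?_, ζ, hζ, ?_⟩
  · -- (R)
    have T := H865.leafCtx865 P (inertiaField P) M q w hStd V₁' _ V₁ V₂ V₃ W' W hO
    refine H27.rSurj1E_of_rSurjJ hStd hO T hp.pos hqp _ hJ (fun x hx => ?_)
    have hxF : HasSlopeZeroGen p q M P x := by
      have : HasSlopeZeroGen (p ^ 1) q M P x := hx.1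
      rwa [pow_one] at this
    obtain ⟨y, hy0, hdiv, hK, hsl⟩ :=
      H862.slopeZeroE_of_hasSlopeZeroGen862 P M q p hq hqM haux hP w hStd.unif V₁' W' hV hW x hxF
    exact ⟨toFF (inertiaField P) (Nat.mul_comm M q) y, y, hK, coe_toFF _ _ y, hsl⟩
  · -- (L)
    refine Real.lab1SurjE_of_card hStd hV hW hp.pos hqp hζ Sg (fun 𝔫 h => (hSg 𝔫).1 h)
      (fun 𝔫 h => (hSg 𝔫).2 h) _ hSgen ?_
    rw [card_toricZ433, hcard]

end Main

/-- **(R) over the inertia field** (hard case). -/
theorem leafRSurjHardI433 : LeafRSurjHardI := by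
  intro P M q _ _ _ w hS V₁' V₂' V₁ V₂ V₃ W' W hO h5 p hp hp2 hpq hd
  haveI : NeZero (q * M) := ⟨by rw [Nat.mul_comm]; exact NeZero.ne (M * q)⟩
  exact (surj_routeZ433 P M q w hS V₁' V₂' V₁ V₂ V₃ W' W hO h5 p hp hpq).1

/-- **(L) over the inertia field** (hard case). -/
theorem leafLabSurjHardI433 : LeafLabSurjHardI := by
  intro P M q _ _ _ w hS V₁' V₂' V₁ V₂ V₃ W' W hO h5 p hp hp2 hpq hd
  haveI : NeZero (q * M) := ⟨by rw [Nat.mul_comm]; exact NeZero.ne (M * q)⟩
  exact (surj_routeZ433 P M q w hS V₁' V₂' V₁ V₂ V₃ W' W hO h5 p hp hpq).2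

/-- **The mountain over the inertia field** (hard case). -/
theorem leafRealizeHardI433 : H876.LeafRealizeHardI :=
  leafRealizeHardI_of_surjI433 leafRSurjHardI433 leafLabSurjHardI433

/-- **CORE-SQ at the neat levels.** -/
theorem coreSqNeat433 : CoreSqNeatStatement :=
  coreSqNeat_of_surjHardI433 leafRSurjHardI433 leafLabSurjHardI433

/-- **CELL (C) OF THE S59 MOONSHOT.** -/
theorem sqFree35_433 : Fermat.Agent.S59.H826.SqFree35Statement :=
  sqFree35_of_surjHardI433 leafRSurjHardI433 leafLabSurjHardI433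

end Fermat.Agent.S59.LoSqC.H433

end

#print axioms Fermat.Agent.S59.LoSqC.H433.sqFree35_433

end
-- ===== PACK-END S59/LoSqC/H433/RouteZ.lean

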